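import Mathlib
import Fermat.Prelude.Def_AlgebraicCurve_DivisorClassGroup
import Fermat.Prelude.Def_AlgebraicCurve_Repartitions
import Fermat.Statements.S24
import Fermat.Statements.S22
import Fermat.Prelude.Thm_ModularForm_sturm_bound_Gamma0
import Fermat.Prelude.Thm_CongruenceSubgroup_one_mem_strictPeriods_Gamma0
import Mathlib.FieldTheory.PrimitiveElement
import Mathlib.FieldTheory.IsAlgClosed.AlgebraicClosure
import Mathlib.RingTheory.Norm.Transitivity
import Mathlib.Algebra.Polynomial.Lifts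
import Fermat.Prelude.Def_ModularCurve_LaurentCoeff
import Mathlib.NumberTheory.ModularForms.NormTrace
import Mathlib.NumberTheory.ModularForms.CongruenceSubgroups
import Mathlib.RingTheory.Polynomial.Vieta
import Fermat.Prelude.Def_CuspForm_HeckeAlgebra
import Fermat.Prelude.Def_CuspForm_IntegralStructure
import Fermat.Prelude.Thm_ModularFormClass_qCoeff_heckeT
import Fermat.Prelude.Thm_ModularFormClass_qCoeff_heckeU
import Mathlib.Data.ZMod.QuotientGroup
import Mathlib.GroupTheory.GroupAction.FixedPoints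
import Mathlib.GroupTheory.GroupAction.Quotient
import Mathlib.Dynamics.PeriodicPts.Defs
import Mathlib.SetTheory.Cardinal.Finite
import Mathlib.Tactic.Ring
import Mathlib.Data.Nat.Prime.Basic
import Fermat.Prelude.Def_ModularCurve_GenusNumerics
import Fermat.Prelude.Def_ModularCurve_X0ModL
import Mathlib.NumberTheory.ModularForms.LevelOne.DimensionFormula
import Mathlib.NumberTheory.ModularForms.LevelOne.GradedRing
import Mathlib.NumberTheory.ModularForms.EisensteinSeries.QExpansion
import Mathlib.Analysis.Complex.LocallyUniformLimit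
import Fermat.Prelude.Def_ModularCurve_X0
import Fermat.Prelude.Def_AlgebraicCurve_Correspondence
import Mathlib.RingTheory.LaurentSeries
import Mathlib.Algebra.Polynomial.AlgebraMap
import Mathlib.RingTheory.Henselian
import Mathlib.Algebra.Polynomial.Reverse
import Mathlib.Algebra.Polynomial.Taylor
import Mathlib.FieldTheory.IsAlgClosed.Basic
import Mathlib.Tactic.LinearCombination
import Mathlib.RingTheory.IntegralClosure.IntegrallyClosed
import Mathlib.RingTheory.Ideal.Span
import Mathlib.Data.Nat.Choose.Sum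
import Mathlib.RingTheory.Length
import Mathlib.RingTheory.Localization.AsSubring
import Mathlib.RingTheory.Localization.AtPrime.Basic
import Mathlib.RingTheory.Localization.Ideal
import Mathlib.RingTheory.DiscreteValuationRing.TFAE
import Mathlib.RingTheory.Ideal.AssociatedPrime.Basic
import Mathlib.RingTheory.Valuation.ValuationSubring
import Mathlib.RingTheory.Valuation.ValuationRing
import Mathlib.Tactic

-- ===== PACK-BEGIN S30/H990/Quad.lean
section
/-
S30 top glue (helper990): pure algebra, part 1.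

* `lucas`           : `h² - a h + b = 0`  ⟹  `(h^j)² - t (h^j) + b^j = 0` for some scalar `t`.
* `anticomm_of_rel` : quadratic relations for `x`, `x y` with `y² = 1` and "determinants" `d`, `-d`
                      give `x y + y x = a' + a y`.
* `Matrix` lemmas for `2 × 2` matrices satisfying a quadratic relation.
-/


set_option autoImplicit false

namespace Fermat.Agent.S30.H990

section Lucas

variable {R A : Type*} [CommRing R] [Ring A] [Algebra R A]

/-- If `h` satisfies `X² - aX + b`, then `h ^ j` satisfies `X² - tX + b ^ j` for some `t`. -/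
theorem lucas (h : A) (a b : R) (hrel : h * h - a • h + b • (1 : A) = 0) (j : ℕ) :
    ∃ t : R, h ^ j * h ^ j - t • h ^ j + (b ^ j) • (1 : A) = 0 := by
  -- the "conjugate" of `h`
  set k : A := a • (1 : A) - h with hk
  have hcomm : Commute h k := by
    have : Commute h (a • (1 : A)) := (Commute.one_right h).smul_right a
    exact this.sub_right (Commute.refl h)
  have hhk : h * k = b • (1 : A) := by
    have : h * k = a • h - h * h := by
      rw [hk, mul_sub, mul_smul_comm, mul_one]
    rw [this]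
    calc a • h - h * h = b • (1 : A) - (h * h - a • h + b • (1 : A)) := by abel
      _ = b • (1 : A) := by rw [hrel, sub_zero]
  have hsum : h + k = a • (1 : A) := by rw [hk]; abel
  -- power sums are scalars
  have key : ∀ n : ℕ, (∃ t : R, h ^ n + k ^ n = t • (1 : A)) ∧
      (∃ t : R, h ^ (n + 1) + k ^ (n + 1) = t • (1 : A)) := by
    intro n
    induction n with
    | zero =>
      refine ⟨⟨2, ?_⟩, ⟨a, ?_⟩⟩
      · rw [pow_zero, pow_zero, two_smul]
      · rw [zero_add, pow_one, pow_one, hsum]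
    | succ n ih =>
      obtain ⟨⟨t0, h0⟩, ⟨t1, h1⟩⟩ := ih
      refine ⟨⟨t1, h1⟩, ⟨a * t1 - b * t0, ?_⟩⟩
      have e1 : h ^ (n + 1 + 1) + k ^ (n + 1 + 1)
          = (h + k) * (h ^ (n + 1) + k ^ (n + 1)) - (h * k) * (h ^ n + k ^ n) := by
        have c1 : k * h ^ (n + 1) = (h * k) * h ^ n := by
          rw [pow_succ', ← mul_assoc, hcomm.eq]
        have c2 : h * k ^ (n + 1) = (h * k) * k ^ n := by
          rw [pow_succ', ← mul_assoc]
        rw [add_mul, mul_add, mul_add, mul_add, c1, c2, pow_succ' h (n + 1), pow_succ' k (n + 1)]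
        abel
      rw [e1, hsum, hhk, h1, h0]
      simp only [mul_smul_comm, mul_one, smul_smul, sub_smul]
      rw [mul_comm t1 a, mul_comm t0 b]
  obtain ⟨t, ht⟩ := (key j).1
  refine ⟨t, ?_⟩
  have hprod : h ^ j * k ^ j = (b ^ j) • (1 : A) := by
    rw [← hcomm.mul_pow, hhk, smul_pow, one_pow]
  have : h ^ j * h ^ j - t • h ^ j + (b ^ j) • (1 : A) = h ^ j * (h ^ j + k ^ j - t • (1 : A)) := by
    rw [mul_sub, mul_add, hprod, mul_smul_comm, mul_one]
    abel
  rw [this, ht, sub_self, mul_zero]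

end Lucas

section Anticomm

variable {R A : Type*} [CommRing R] [Ring A] [Algebra R A]

/-- The anticommutator identity. -/
theorem anticomm_of_rel (x y : A) (a a' : R) (d : Rˣ) (hy : y * y = 1)
    (hx : x * x - a • x + (d : R) • (1 : A) = 0)
    (hxy : (x * y) * (x * y) - a' • (x * y) + (-(d : R)) • (1 : A) = 0) :
    x * y + y * x = a' • (1 : A) + a • y := by
  -- `x y x = a' x + d y`
  have h1 : x * y * x = a' • x + (d : R) • y := by
    have := congrArg (· * y) hxy
    simp only [zero_mul, add_mul, sub_mul, smul_mul_assoc, neg_smul, neg_mul, one_mul] at this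
    have e : x * y * (x * y) * y = x * y * x := by
      rw [mul_assoc (x * y) (x * y) y, mul_assoc x y y, hy, mul_one]
    have e' : x * y * y = x := by rw [mul_assoc, hy, mul_one]
    rw [e, e'] at this
    calc x * y * x = (x * y * x - a' • x + -((d : R) • y)) + (a' • x + (d : R) • y) := by abel
      _ = a' • x + (d : R) • y := by rw [this, zero_add]
  -- `(a - x) x = d`
  have h2 : (a • (1 : A) - x) * x = (d : R) • (1 : A) := by
    rw [sub_mul, smul_mul_assoc, one_mul]
    calc a • x - x * x = (d : R) • (1 : A) - (x * x - a • x + (d : R) • (1 : A)) := by abel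
      _ = (d : R) • (1 : A) := by rw [hx, sub_zero]
  have h3 : (d : R) • (y * x) = (d : R) • (a' • (1 : A) + a • y - x * y) := by
    have : (a • (1 : A) - x) * (x * y * x) = (d : R) • (y * x) := by
      rw [← mul_assoc, ← mul_assoc, h2, smul_mul_assoc, one_mul, smul_mul_assoc]
    rw [← this, h1, mul_add, mul_smul_comm, mul_smul_comm, h2, sub_mul, smul_mul_assoc, one_mul]
    simp only [smul_add, smul_sub, smul_smul]
    rw [mul_comm a' (d : R), mul_comm (d : R) a]
    abel
  have h4 : y * x = a' • (1 : A) + a • y - x * y := by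
    have := congrArg (fun z => ((d⁻¹ : Rˣ) : R) • z) h3
    simpa only [smul_smul, Units.inv_mul, one_smul] using this
  rw [h4]; abel

end Anticomm

end Fermat.Agent.S30.H990

namespace Fermat.Agent.S30.H990

section Mat2

open Matrix

variable {R : Type*} [CommRing R]

/-- Cayley–Hamilton for `2 × 2` matrices, by hand. -/
theorem mat2_cayley (X : Matrix (Fin 2) (Fin 2) R) :
    X * X - X.trace • X + X.det • (1 : Matrix (Fin 2) (Fin 2) R) = 0 := by
  ext i j
  fin_cases i <;> fin_cases j <;>
    simp [Matrix.mul_apply, Fin.sum_univ_two, Matrix.trace_fin_two, Matrix.det_fin_two] <;> ring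

variable [IsDomain R]

/-- A `2 × 2` matrix satisfying `X² - aX + d = 0` has trace `a` and determinant `d`,
or it is a scalar matrix. -/
theorem mat2_dichotomy (X : Matrix (Fin 2) (Fin 2) R) (a d : R)
    (h : X * X - a • X + d • (1 : Matrix (Fin 2) (Fin 2) R) = 0) :
    (X.trace = a ∧ X.det = d) ∨ ∃ l : R, X = l • (1 : Matrix (Fin 2) (Fin 2) R) := by
  have hc := mat2_cayley X
  have key : (X.trace - a) • X = (X.det - d) • (1 : Matrix (Fin 2) (Fin 2) R) := by
    have : (X.trace - a) • X - (X.det - d) • (1 : Matrix (Fin 2) (Fin 2) R)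
        = (X * X - a • X + d • (1 : Matrix (Fin 2) (Fin 2) R))
          - (X * X - X.trace • X + X.det • (1 : Matrix (Fin 2) (Fin 2) R)) := by
      simp only [sub_smul]; abel
    rw [h, hc, sub_zero] at this
    exact sub_eq_zero.mp this
  by_cases ht : X.trace = a
  · left
    refine ⟨ht, ?_⟩
    have h00 := congrFun (congrFun key 0) 0
    simp only [ht, sub_self, Matrix.smul_apply, Matrix.one_apply_eq,
      smul_eq_mul, mul_one, zero_mul] at h00
    exact (sub_eq_zero.mp h00.symm)
  · right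
    have hne : X.trace - a ≠ 0 := sub_ne_zero.mpr ht
    have h00 := congrFun (congrFun key 0) 0
    have h01 := congrFun (congrFun key 0) 1
    have h10 := congrFun (congrFun key 1) 0
    have h11 := congrFun (congrFun key 1) 1
    simp only [Matrix.smul_apply, smul_eq_mul, Matrix.one_apply_eq, mul_one] at h00 h11
    simp only [Matrix.smul_apply, smul_eq_mul, ne_eq, zero_ne_one, not_false_eq_true,
      Matrix.one_apply_ne, mul_zero, mul_eq_zero, hne, false_or] at h01
    simp only [Matrix.smul_apply, smul_eq_mul, ne_eq, one_ne_zero, not_false_eq_true,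
      Matrix.one_apply_ne, mul_zero, mul_eq_zero, hne, false_or] at h10
    have hd : X 0 0 = X 1 1 := mul_left_cancel₀ hne (h00.trans h11.symm)
    refine ⟨X 0 0, ?_⟩
    ext i j
    fin_cases i <;> fin_cases j <;> simp [h01, h10, hd]

/-- If `l • C` is scalar with `l ≠ 0`, then `C` is scalar. -/
theorem mat2_scalar_of_smul_scalar (C : Matrix (Fin 2) (Fin 2) R) (l m : R) (hl : l ≠ 0)
    (h : l • C = m • (1 : Matrix (Fin 2) (Fin 2) R)) :
    ∃ n : R, C = n • (1 : Matrix (Fin 2) (Fin 2) R) := by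
  have h00 := congrFun (congrFun h 0) 0
  have h01 := congrFun (congrFun h 0) 1
  have h10 := congrFun (congrFun h 1) 0
  have h11 := congrFun (congrFun h 1) 1
  simp only [Matrix.smul_apply, smul_eq_mul, Matrix.one_apply_eq, mul_one] at h00 h11
  simp only [Matrix.smul_apply, smul_eq_mul, ne_eq, zero_ne_one, not_false_eq_true,
    Matrix.one_apply_ne, mul_zero, mul_eq_zero, hl, false_or] at h01
  simp only [Matrix.smul_apply, smul_eq_mul, ne_eq, one_ne_zero, not_false_eq_true,
    Matrix.one_apply_ne, mul_zero, mul_eq_zero, hl, false_or] at h10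
  have hd : C 0 0 = C 1 1 := mul_left_cancel₀ hl (h00.trans h11.symm)
  refine ⟨C 0 0, ?_⟩
  ext i j
  fin_cases i <;> fin_cases j <;> simp [h01, h10, hd]

/-- Trace and determinant of a two-dimensional matrix representation all of whose elements
satisfy quadratic relations with multiplicative constant term, in the presence of a non-scalar
element `c` with `d c = -1`. -/
theorem mat2_trace_det_of_rel {G : Type*} [Group G] (A : G →* Matrix (Fin 2) (Fin 2) R)
    (d : G →* Rˣ)
    (hrel : ∀ g, ∃ a : R, A g * A g - a • A g + ((d g : Rˣ) : R) • 1 = 0)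
    (c : G) (hdc : d c = -1) (hcns : ¬ ∃ l : R, A c = l • (1 : Matrix (Fin 2) (Fin 2) R))
    (g : G) (a : R) (hg : A g * A g - a • A g + ((d g : Rˣ) : R) • 1 = 0) :
    (A g).trace = a ∧ (A g).det = ((d g : Rˣ) : R) := by
  rcases mat2_dichotomy (A g) a _ hg with h | ⟨l, hl⟩
  · exact h
  -- scalar case
  have hdetc : (A c).det = -1 := by
    obtain ⟨ac, hac⟩ := hrel c
    rcases mat2_dichotomy (A c) ac _ hac with h | h
    · rw [h.2, hdc]; simp
    · exact absurd h hcns
  have hl0 : l ≠ 0 := by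
    intro h0
    have h1 : A g * A g⁻¹ = 1 := by rw [← map_mul, mul_inv_cancel, map_one]
    rw [hl, h0, zero_smul, zero_mul] at h1
    exact zero_ne_one h1
  have hgc : A (g * c) = l • A c := by rw [map_mul, hl, smul_mul_assoc, one_mul]
  obtain ⟨a', ha'⟩ := hrel (g * c)
  have hdetgc : (A (g * c)).det = -((d g : Rˣ) : R) := by
    rcases mat2_dichotomy (A (g * c)) a' _ ha' with h | ⟨m, hm⟩
    · rw [h.2, map_mul, hdc]; simp
    · rw [hgc] at hm
      exact absurd (mat2_scalar_of_smul_scalar (A c) l m hl0 hm) hcns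
  have hd : ((d g : Rˣ) : R) = l ^ 2 := by
    rw [hgc, Matrix.det_smul, hdetc, Fintype.card_fin] at hdetgc
    linear_combination hdetgc
  have ha : a = 2 * l := by
    have h00 := congrFun (congrFun hg 0) 0
    rw [hl, hd] at h00
    simp only [Matrix.add_apply, Matrix.sub_apply, Matrix.mul_apply, Fin.sum_univ_two,
      Matrix.smul_apply, Matrix.one_apply_eq, smul_eq_mul, mul_one, Matrix.zero_apply, ne_eq,
      zero_ne_one, not_false_eq_true, Matrix.one_apply_ne, mul_zero, add_zero] at h00
    have : l * (2 * l - a) = 0 := by linear_combination h00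
    rcases mul_eq_zero.mp this with h | h
    · exact absurd h hl0
    · exact (sub_eq_zero.mp h).symm
  constructor
  · rw [hl, Matrix.trace_fin_two]; simp [ha]; ring
  · rw [hl, hd, Matrix.det_fin_two]; simp; ring

end Mat2

end Fermat.Agent.S30.H990

end
-- ===== PACK-END S30/H990/Quad.lean

-- ===== PACK-BEGIN S30/H990/Sat.lean
section
/-
S30 top glue (helper990): pure algebra, part 2: saturation of a submodule of a torsion-free module
and the rank of the saturation of a free submodule.
-/


set_option autoImplicit false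

namespace Fermat.Agent.S30.H990

open Module

section Sat

variable {R M : Type*} [CommRing R] [IsDomain R] [AddCommGroup M] [Module R M]

/-- The saturation of a submodule: all `m` some nonzero multiple of which lies in `N`. -/
def sat (N : Submodule R M) : Submodule R M where
  carrier := {m | ∃ r : R, r ≠ 0 ∧ r • m ∈ N}
  zero_mem' := ⟨1, one_ne_zero, by simp⟩
  add_mem' := by
    rintro x y ⟨r, hr, hx⟩ ⟨s, hs, hy⟩
    refine ⟨r * s, mul_ne_zero hr hs, ?_⟩
    rw [smul_add]
    refine N.add_mem ?_ ?_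
    · rw [mul_comm, mul_smul]; exact N.smul_mem s hx
    · rw [mul_smul]; exact N.smul_mem r hy
  smul_mem' := by
    rintro c x ⟨r, hr, hx⟩
    exact ⟨r, hr, by rw [smul_comm]; exact N.smul_mem c hx⟩

theorem mem_sat {N : Submodule R M} {m : M} : m ∈ sat N ↔ ∃ r : R, r ≠ 0 ∧ r • m ∈ N := Iff.rfl

theorem le_sat (N : Submodule R M) : N ≤ sat N := fun x hx => ⟨1, one_ne_zero, by simpa using hx⟩

/-- The saturation is saturated. -/
theorem mem_sat_of_smul_mem {N : Submodule R M} {r : R} (hr : r ≠ 0) {m : M}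
    (h : r • m ∈ sat N) : m ∈ sat N := by
  obtain ⟨s, hs, hm⟩ := h
  exact ⟨s * r, mul_ne_zero hs hr, by rwa [mul_smul]⟩

/-- A linear map sending `N` into `sat N` preserves `sat N`. -/
theorem map_mem_sat {N : Submodule R M} (f : M →ₗ[R] M) (hf : ∀ x ∈ N, f x ∈ sat N)
    {m : M} (hm : m ∈ sat N) : f m ∈ sat N := by
  obtain ⟨r, hr, hrm⟩ := hm
  have := hf _ hrm
  rw [map_smul] at this
  exact mem_sat_of_smul_mem hr this

/-- To check that `f` maps `span s` into `sat (span s)` it suffices to check generators. -/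
theorem map_span_le_sat {s : Set M} (f : M →ₗ[R] M) (hf : ∀ x ∈ s, f x ∈ sat (Submodule.span R s))
    {x : M} (hx : x ∈ Submodule.span R s) : f x ∈ sat (Submodule.span R s) := by
  induction hx using Submodule.span_induction with
  | mem x hx => exact hf x hx
  | zero => rw [map_zero]; exact Submodule.zero_mem _
  | add x y _ _ hx hy => rw [map_add]; exact Submodule.add_mem _ hx hy
  | smul a x _ hx => rw [map_smul]; exact Submodule.smul_mem _ a hx

/-- A finitely generated submodule of `sat N` is carried into `N` by a single nonzero scalar. -/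
theorem exists_smul_le_of_fg {N : Submodule R M} {P : Submodule R M} (hP : P.FG) (hle : P ≤ sat N) :
    ∃ r : R, r ≠ 0 ∧ ∀ x ∈ P, r • x ∈ N := by
  classical
  obtain ⟨S, rfl⟩ := hP
  induction S using Finset.induction_on with
  | empty =>
    refine ⟨1, one_ne_zero, fun x hx => ?_⟩
    simp only [Finset.coe_empty, Submodule.span_empty, Submodule.mem_bot] at hx
    rw [hx, smul_zero]; exact N.zero_mem
  | insert a S _ ih =>
    have hS : Submodule.span R (S : Set M) ≤ sat N :=
      (Submodule.span_mono (by simp)).trans hle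
    obtain ⟨r, hr, hrS⟩ := ih hS
    have ha : a ∈ sat N := hle (Submodule.subset_span (by simp))
    obtain ⟨s, hs, hsa⟩ := ha
    refine ⟨r * s, mul_ne_zero hr hs, fun x hx => ?_⟩
    rw [Finset.coe_insert, Submodule.mem_span_insert] at hx
    obtain ⟨c, y, hy, rfl⟩ := hx
    rw [smul_add]
    refine N.add_mem ?_ ?_
    · rw [smul_comm, mul_smul]
      exact N.smul_mem _ (N.smul_mem _ hsa)
    · rw [mul_comm, mul_smul]
      exact N.smul_mem _ (hrS y hy)

end Sat

section Rank

variable {R M : Type*} [CommRing R] [IsDomain R] [IsPrincipalIdealRing R]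
  [AddCommGroup M] [Module R M] [Module.Finite R M] [Module.Free R M]

/-- The saturation of the span of a linearly independent family of `n` vectors is free of
rank `n`. -/
theorem finrank_sat_span {n : ℕ} (v : Fin n → M) (hv : LinearIndependent R v) :
    Module.finrank R (sat (Submodule.span R (Set.range v))) = n := by
  set N := Submodule.span R (Set.range v) with hN
  set Λ := sat N with hΛ
  have hvN : ∀ i, v i ∈ N := fun i => Submodule.subset_span (Set.mem_range_self i)
  apply le_antisymm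
  · -- upper bound
    have hfg : Λ.FG := IsNoetherian.noetherian Λ
    obtain ⟨r, hr, hrΛ⟩ := exists_smul_le_of_fg hfg (le_refl Λ)
    let f : Λ →ₗ[R] N :=
      { toFun := fun x => ⟨r • (x : M), hrΛ x x.2⟩
        map_add' := fun x y => by ext; simp [smul_add]
        map_smul' := fun c x => by ext; simp [smul_comm r c] }
    have hf : Function.Injective f := by
      intro x y hxy
      have : r • (x : M) = r • (y : M) := congrArg Subtype.val hxy
      exact Subtype.ext (smul_right_injective M hr this)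
    have h1 := LinearMap.finrank_le_finrank_of_injective hf
    have h2 : Module.finrank R N = n := by
      rw [hN, finrank_span_eq_card hv, Fintype.card_fin]
    omega
  · -- lower bound
    let v' : Fin n → Λ := fun i => ⟨v i, le_sat N (hvN i)⟩
    have hv' : LinearIndependent R v' := by
      apply LinearIndependent.of_comp Λ.subtype
      exact hv
    have := hv'.fintype_card_le_finrank
    simpa using this

end Rank

end Fermat.Agent.S30.H990

end
-- ===== PACK-END S30/H990/Sat.lean

-- ===== PACK-BEGIN S30/H990/Extract.lean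
section
/-
S30 top glue (helper990): pure algebra, part 3.
From a Galois module on which every element satisfies a quadratic relation `g² - a g + d(g) = 0`
(`d` a character, `d c = -1` for an involution `c`) we extract a stable saturated lattice of rank
`1` or `2`.
-/



set_option autoImplicit false

namespace Fermat.Agent.S30.H990

open Module

section Rel

variable {𝒪 M G : Type*} [CommRing 𝒪] [AddCommGroup M] [Module 𝒪 M] [Group G]

/-- The quadratic relation `ρ(g)² - a ρ(g) + d(g) = 0`. -/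
def Rel (ρ : G →* Module.End 𝒪 M) (d : G →* 𝒪ˣ) (g : G) (a : 𝒪) : Prop :=
  ρ g * ρ g - a • ρ g + ((d g : 𝒪ˣ) : 𝒪) • (1 : Module.End 𝒪 M) = 0

variable (ρ : G →* Module.End 𝒪 M) (d : G →* 𝒪ˣ)

theorem rel_apply {g : G} {a : 𝒪} (h : Rel ρ d g a) (x : M) :
    ρ g (ρ g x) - a • ρ g x + ((d g : 𝒪ˣ) : 𝒪) • x = 0 := by
  have := congrArg (fun f : Module.End 𝒪 M => f x) h
  simpa [Rel] using this

/-- Key identity on eigenvectors of the involution `c`. -/
theorem eigen_key (a : G → 𝒪) (ha : ∀ g, Rel ρ d g (a g)) (c : G) (hc : c * c = 1)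
    (hdc : d c = -1) (ε : 𝒪) (u : M) (hu : ρ c u = ε • u) (g : G) :
    ρ c (ρ g u) + ε • ρ g u = (a (g * c) + ε * a g) • u := by
  have hy : ρ c * ρ c = 1 := by rw [← map_mul, hc, map_one]
  have hxy : (ρ g * ρ c) * (ρ g * ρ c) - a (g * c) • (ρ g * ρ c)
      + (-((d g : 𝒪ˣ) : 𝒪)) • (1 : Module.End 𝒪 M) = 0 := by
    have := ha (g * c)
    unfold Rel at this
    rw [map_mul ρ, map_mul d, hdc] at this
    simpa using this
  have key := anticomm_of_rel (ρ g) (ρ c) (a g) (a (g * c)) (d g) hy (ha g) hxy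
  have := congrArg (fun f : Module.End 𝒪 M => f u) key
  simp only [LinearMap.add_apply, Module.End.mul_apply, LinearMap.smul_apply,
    Module.End.one_apply, hu, map_smul] at this
  rw [add_smul, mul_comm ε (a g), mul_smul, ← this]
  abel

end Rel

section Stable

variable {𝒪 M G : Type*} [CommRing 𝒪] [IsDomain 𝒪] [AddCommGroup M] [Module 𝒪 M]
  [Module.IsTorsionFree 𝒪 M] [Nontrivial M] [Group G]

variable (ρ : G →* Module.End 𝒪 M) (d : G →* 𝒪ˣ)

/-- Existence of an eigenvector of the involution. -/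
theorem exists_eigen (h2 : (2 : 𝒪) ≠ 0) (c : G) (hc : c * c = 1) :
    ∃ (ε : 𝒪) (u : M), ε * ε = 1 ∧ u ≠ 0 ∧ ρ c u = ε • u := by
  have hy : ∀ x, ρ c (ρ c x) = x := fun x => by
    have : ρ c * ρ c = 1 := by rw [← map_mul, hc, map_one]
    exact congrArg (fun f : Module.End 𝒪 M => f x) this
  obtain ⟨m, hm⟩ := exists_ne (0 : M)
  by_cases h : ρ c m + m = 0
  · refine ⟨-1, m, by ring, hm, ?_⟩
    rw [neg_one_smul]; exact eq_neg_of_add_eq_zero_left h
  · refine ⟨1, ρ c m + m, by ring, h, ?_⟩
    rw [map_add, hy, one_smul, add_comm]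

theorem exists_stable (h2 : (2 : 𝒪) ≠ 0) (hrel : ∀ g, ∃ a, Rel ρ d g a) (c : G) (hc : c * c = 1)
    (hdc : d c = -1) :
    (∃ v : M, v ≠ 0 ∧ ∀ g, ∃ r : 𝒪, r ≠ 0 ∧ r • ρ g v ∈ Submodule.span 𝒪 {v}) ∨
    (∃ (u w : M) (ε : 𝒪), ε * ε = 1 ∧ u ≠ 0 ∧ w ≠ 0 ∧ ρ c u = ε • u ∧ ρ c w = -ε • w ∧
      (∀ g, ∃ r : 𝒪, r ≠ 0 ∧ r • ρ g u ∈ Submodule.span 𝒪 {u, w}) ∧
      (∀ g, ∃ r : 𝒪, r ≠ 0 ∧ r • ρ g w ∈ Submodule.span 𝒪 {u, w})) := by
  classical
  choose a ha using hrel
  have hy : ∀ x, ρ c (ρ c x) = x := fun x => by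
    have : ρ c * ρ c = 1 := by rw [← map_mul, hc, map_one]
    exact congrArg (fun f : Module.End 𝒪 M => f x) this
  obtain ⟨ε, u, hε, hu0, hu⟩ := exists_eigen ρ h2 c hc
  have hε0 : ε ≠ 0 := by rintro rfl; simp at hε
  have h2ε : (2 : 𝒪) * ε ≠ 0 := mul_ne_zero h2 hε0
  -- `P x = c x + ε x`, `Q x = c x - ε x`
  have hP : ∀ g, ρ c (ρ g u) + ε • ρ g u = (a (g * c) + ε * a g) • u :=
    fun g => eigen_key ρ d a ha c hc hdc ε u hu g
  have hsplit : ∀ x : M, (2 * ε) • x = (ρ c x + ε • x) - (ρ c x - ε • x) := by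
    intro x; rw [mul_smul, two_smul]; abel
  by_cases h1 : ∀ g, ρ c (ρ g u) - ε • ρ g u = 0
  · -- rank one, generated by `u`
    left
    refine ⟨u, hu0, fun g => ⟨2 * ε, h2ε, ?_⟩⟩
    rw [hsplit, h1 g, sub_zero, hP g]
    exact Submodule.smul_mem _ _ (Submodule.mem_span_singleton_self u)
  obtain ⟨g₀, hw0⟩ := not_forall.mp h1
  set w : M := ρ c (ρ g₀ u) - ε • ρ g₀ u with hw
  have hcw : ρ c w = -ε • w := by
    rw [hw, map_sub, hy, map_smul, smul_sub, smul_smul, neg_mul, hε]
    simp only [neg_smul, one_smul]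
    abel
  -- the key identity for `w` (eigenvalue `-ε`)
  have hQw : ∀ g, ρ c (ρ g w) - ε • ρ g w = (a (g * c) + -ε * a g) • w := by
    intro g
    have := eigen_key ρ d a ha c hc hdc (-ε) w hcw g
    rw [← this, neg_smul, sub_eq_add_neg]
  have hwexp : ∀ g, ρ g w = ρ (g * c * g₀) u - ε • ρ (g * g₀) u := by
    intro g
    rw [hw, map_sub, map_smul, map_mul, map_mul, Module.End.mul_apply, Module.End.mul_apply,
      map_mul, Module.End.mul_apply]
  have hPw : ∀ g, ρ c (ρ g w) + ε • ρ g w
      = ((a (g * c * g₀ * c) + ε * a (g * c * g₀)) - ε * (a (g * g₀ * c) + ε * a (g * g₀))) • u := by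
    intro g
    rw [hwexp g, map_sub, map_smul, smul_sub, sub_smul, mul_smul, ← hP (g * c * g₀),
      ← hP (g * g₀), smul_add, smul_smul]
    abel
  by_cases h2' : ∀ g, ρ c (ρ g w) + ε • ρ g w = 0
  · -- rank one, generated by `w`
    left
    refine ⟨w, hw0, fun g => ⟨2 * ε, h2ε, ?_⟩⟩
    rw [hsplit, h2' g, zero_sub, hQw g, ← neg_smul]
    exact Submodule.smul_mem _ _ (Submodule.mem_span_singleton_self w)
  obtain ⟨g₁, hy0⟩ := not_forall.mp h2'
  right
  set t : 𝒪 := (a (g₁ * c * g₀ * c) + ε * a (g₁ * c * g₀))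
      - ε * (a (g₁ * g₀ * c) + ε * a (g₁ * g₀)) with ht
  have hyt : ρ c (ρ g₁ w) + ε • ρ g₁ w = t • u := hPw g₁
  have ht0 : t ≠ 0 := by
    rintro h0
    rw [h0, zero_smul] at hyt
    exact hy0 hyt
  have huS : u ∈ Submodule.span 𝒪 ({u, w} : Set M) := Submodule.subset_span (by simp)
  have hwS : w ∈ Submodule.span 𝒪 ({u, w} : Set M) := Submodule.subset_span (by simp)
  refine ⟨u, w, ε, hε, hu0, hw0, hu, hcw, ?_, ?_⟩
  · intro g
    -- `t • Q (g u) = Q (g (t u)) = Q (g y)`, `y = c g₁ w + ε g₁ w`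
    have hQy : t • (ρ c (ρ g u) - ε • ρ g u)
        = ((a (g * c * g₁ * c) + -ε * a (g * c * g₁))
            + ε * (a (g * g₁ * c) + -ε * a (g * g₁))) • w := by
      have e1 : t • (ρ c (ρ g u) - ε • ρ g u) = ρ c (ρ g (t • u)) - ε • ρ g (t • u) := by
        simp only [map_smul, smul_sub, smul_comm t ε]
      have e2 : ρ g (t • u) = ρ (g * c * g₁) w + ε • ρ (g * g₁) w := by
        rw [← hyt, map_add, map_smul, map_mul, map_mul, Module.End.mul_apply,
          Module.End.mul_apply, map_mul, Module.End.mul_apply]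
      rw [e1, e2, map_add, map_smul, smul_add, add_smul, mul_smul, ← hQw (g * c * g₁),
        ← hQw (g * g₁), smul_sub, smul_smul]
      abel
    refine ⟨2 * ε * t, mul_ne_zero h2ε ht0, ?_⟩
    have : (2 * ε * t) • ρ g u
        = t • (a (g * c) + ε * a g) • u - (t • (ρ c (ρ g u) - ε • ρ g u)) := by
      rw [mul_comm (2 * ε) t, mul_smul, hsplit, hP g, smul_sub]
    rw [this, hQy]
    exact Submodule.sub_mem _ (Submodule.smul_mem _ _ (Submodule.smul_mem _ _ huS))
      (Submodule.smul_mem _ _ hwS)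
  · intro g
    refine ⟨2 * ε, h2ε, ?_⟩
    rw [hsplit, hPw g, hQw g]
    exact Submodule.sub_mem _ (Submodule.smul_mem _ _ huS) (Submodule.smul_mem _ _ hwS)

end Stable

end Fermat.Agent.S30.H990

end
-- ===== PACK-END S30/H990/Extract.lean

-- ===== PACK-BEGIN S35/H991/BadFrobAlg.lean
section
/-
S35 top glue, pure algebra (helper991).

`eq_or_eq_neg_of_rel_of_badFrob`: on a nontrivial torsion-free module over a domain in which
`q ≠ 0`, an endomorphism `s` with `s² - a s + q = 0` and `(s² - 1)(s² - q²) = 0` has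
`a = q + 1` or `a = -(q + 1)`.
Mathlib only.
-/


set_option autoImplicit false

namespace Fermat.Agent.S35.H991

section

variable {𝒪 M : Type*} [CommRing 𝒪] [IsDomain 𝒪] [AddCommGroup M] [Module 𝒪 M]
  [Module.IsTorsionFree 𝒪 M]

/-- The bad-Frobenius relation `(s² - 1)(s² - q²) = 0`, in factored form
`(s - 1)(s + 1)(s - q)(s + q) = 0`, applied to vectors. -/
def BadFrobRel (q : 𝒪) (s : Module.End 𝒪 M) : Prop :=
  ∀ v : M, s (s (s (s v))) - (1 + q ^ 2) • s (s v) + (q ^ 2) • v = 0

/-- An eigenvector of `s` for the eigenvalue `c` forces `c² - a c + q = 0`. -/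
theorem quad_of_eigen {q a c : 𝒪} {s : Module.End 𝒪 M}
    (hrel : ∀ v : M, s (s v) - a • s v + q • v = 0) {v : M} (hv : v ≠ 0) (hsv : s v = c • v) :
    c * c - a * c + q = 0 := by
  have h := hrel v
  rw [hsv, map_smul, hsv, smul_smul, smul_smul, ← sub_smul, ← add_smul] at h
  rcases smul_eq_zero.mp h with h0 | h0
  · exact h0
  · exact absurd h0 hv

/-- **Algebraic core of S35.**  A quadratic relation with constant term `q` together with the
bad-Frobenius relation pins the trace down to `± (q + 1)`. -/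
theorem eq_or_eq_neg_of_rel_of_badFrob [Nontrivial M] {q a : 𝒪} (hq : q ≠ 0)
    {s : Module.End 𝒪 M}
    (hrel : ∀ v : M, s (s v) - a • s v + q • v = 0) (hbad : BadFrobRel q s) :
    a = q + 1 ∨ a = -(q + 1) := by
  obtain ⟨v, hv⟩ := exists_ne (0 : M)
  -- the four factors
  set v₃ : M := s v + q • v with hv₃
  set v₂ : M := s v₃ - q • v₃ with hv₂
  set v₁ : M := s v₂ + v₂ with hv₁
  have h4 : s v₁ - v₁ = 0 := by
    have := hbad v
    rw [hv₁, hv₂, hv₃]
    simp only [map_add, map_sub, map_smul]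
    rw [← this]
    module
  by_cases h1 : v₁ = 0
  · by_cases h2 : v₂ = 0
    · by_cases h3 : v₃ = 0
      · -- `s v = -q v`
        have hsv : s v = (-q) • v := by
          rw [neg_smul]
          exact eq_neg_of_add_eq_zero_left h3
        have := quad_of_eigen hrel hv hsv
        right
        have h5 : q * (q + a + 1) = 0 := by linear_combination this
        rcases mul_eq_zero.mp h5 with h6 | h6
        · exact absurd h6 hq
        · linear_combination h6
      · -- `s v₃ = q v₃`
        have hsv : s v₃ = q • v₃ := sub_eq_zero.mp h2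
        have := quad_of_eigen hrel h3 hsv
        left
        have h5 : q * (q - a + 1) = 0 := by linear_combination this
        rcases mul_eq_zero.mp h5 with h6 | h6
        · exact absurd h6 hq
        · linear_combination -h6
    · -- `s v₂ = - v₂`
      have hsv : s v₂ = (-1 : 𝒪) • v₂ := by
        rw [neg_smul, one_smul]
        exact eq_neg_of_add_eq_zero_left h1
      have := quad_of_eigen hrel h2 hsv
      right
      linear_combination this
  · -- `s v₁ = v₁`
    have hsv : s v₁ = (1 : 𝒪) • v₁ := by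
      rw [one_smul]
      exact sub_eq_zero.mp h4
    have := quad_of_eigen hrel h1 hsv
    left
    linear_combination -this

end

end Fermat.Agent.S35.H991

end
-- ===== PACK-END S35/H991/BadFrobAlg.lean

-- ===== PACK-BEGIN S24/FFBasic.lean
section



/-!
# S24 / FF layer: basic facts on `AlgebraicCurve.Place`

Embedding-free algebraic core (helper804).
-/

set_option autoImplicit false

namespace Fermat.Agent.S24.FF

open AlgebraicCurve

variable {K F : Type*} [Field K] [Field F] [Algebra K F]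

section Basic

variable (v : Place K F)

theorem exists_irreducible_coe :
    ∃ π : v.toValuationSubring, Irreducible π ∧ v.ord (π : F) = 1 := by
  obtain ⟨π, hπ⟩ := IsDiscreteValuationRing.exists_irreducible v.toValuationSubring
  exact ⟨π, hπ, v.ord_coe_irreducible hπ⟩

theorem mem_of_ord_nonneg {f : F} (h : 0 ≤ v.ord f) : f ∈ v.toValuationSubring := by
  rcases eq_or_ne f 0 with rfl | hf
  · exact zero_mem _
  obtain ⟨π, hπ⟩ := IsDiscreteValuationRing.exists_irreducible v.toValuationSubring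
  obtain ⟨u, hu⟩ := v.exists_unit_mul_zpow hf hπ
  rw [hu]
  refine mul_mem (u : v.toValuationSubring).2 ?_
  obtain ⟨n, hn⟩ := Int.eq_ofNat_of_zero_le h
  rw [hn, zpow_natCast]
  exact pow_mem π.2 n

theorem ord_nonneg_of_mem {f : F} (h : f ∈ v.toValuationSubring) : 0 ≤ v.ord f := by
  rcases eq_or_ne f 0 with rfl | hf
  · simp
  by_contra hneg
  rw [not_le] at hneg
  obtain ⟨π, hπ⟩ := IsDiscreteValuationRing.exists_irreducible v.toValuationSubring
  obtain ⟨u, hu⟩ := v.exists_unit_mul_zpow hf hπ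
  have hπF : (π : F) ≠ 0 := by
    simpa [ne_eq, ZeroMemClass.coe_eq_zero] using hπ.ne_zero
  -- `f * π ^ (-ord f) = u`
  obtain ⟨n, hn⟩ := Int.eq_ofNat_of_zero_le (show 0 ≤ -v.ord f - 1 by omega)
  have hord : v.ord f = -((n : ℤ) + 1) := by omega
  have key : f * (π : F) ^ (n + 1) = ((u : v.toValuationSubring) : F) := by
    conv_lhs => rw [hu, hord]
    rw [zpow_neg, mul_assoc, ← zpow_natCast (π : F) (n + 1)]
    push_cast
    rw [inv_mul_cancel₀ (zpow_ne_zero _ hπF), mul_one]
  have hmem : (⟨f, h⟩ : v.toValuationSubring) * π ^ (n + 1) = (u : v.toValuationSubring) :=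
    Subtype.ext (by simpa using key)
  have hunit : IsUnit ((⟨f, h⟩ : v.toValuationSubring) * π ^ (n + 1)) := hmem ▸ u.isUnit
  have := (IsUnit.mul_iff.mp hunit).2
  rw [pow_succ] at this
  exact hπ.not_isUnit (IsUnit.mul_iff.mp this).2

theorem mem_iff_ord_nonneg {f : F} : f ∈ v.toValuationSubring ↔ 0 ≤ v.ord f :=
  ⟨ord_nonneg_of_mem v, mem_of_ord_nonneg v⟩

theorem ord_algebraMap (a : K) : v.ord (algebraMap K F a) = 0 := by
  rcases eq_or_ne a 0 with rfl | ha
  · simp
  have h1 := ord_nonneg_of_mem v (v.algebraMap_mem' a)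
  have h2 := ord_nonneg_of_mem v (v.algebraMap_mem' a⁻¹)
  rw [map_inv₀, v.ord_inv] at h2
  omega

theorem ord_pos_iff_mem_nonunits {f : F} (hf : f ≠ 0) :
    0 < v.ord f ↔ f ∈ v.toValuationSubring.nonunits := by
  rw [ValuationSubring.mem_nonunits_iff_exists_mem_maximalIdeal]
  constructor
  · intro h
    refine ⟨mem_of_ord_nonneg v h.le, ?_⟩
    rw [IsLocalRing.mem_maximalIdeal, mem_nonunits_iff]
    intro hu
    have := v.ord_coe_unit hu.unit
    simp only [IsUnit.unit_spec] at this
    omega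
  · rintro ⟨hmem, hmax⟩
    have h0 := ord_nonneg_of_mem v hmem
    rcases h0.lt_or_eq with h | h
    · exact h
    exfalso
    have hinv : f⁻¹ ∈ v.toValuationSubring := mem_of_ord_nonneg v (by rw [v.ord_inv]; omega)
    rw [IsLocalRing.mem_maximalIdeal, mem_nonunits_iff] at hmax
    apply hmax
    refine IsUnit.of_mul_eq_one (⟨f⁻¹, hinv⟩ : v.toValuationSubring) (Subtype.ext ?_)
    simp [hf]

theorem ord_add_ge {f g : F} (hfg : f + g ≠ 0) :
    min (v.ord f) (v.ord g) ≤ v.ord (f + g) := by
  rcases eq_or_ne f 0 with rfl | hf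
  · simp
  rcases eq_or_ne g 0 with rfl | hg
  · simp
  obtain ⟨π, hπ⟩ := IsDiscreteValuationRing.exists_irreducible v.toValuationSubring
  have hπF : (π : F) ≠ 0 := by
    simpa [ne_eq, ZeroMemClass.coe_eq_zero] using hπ.ne_zero
  set m := min (v.ord f) (v.ord g) with hm
  have hf' : (π : F) ^ (-m) * f ∈ v.toValuationSubring := by
    apply mem_of_ord_nonneg v
    rw [v.ord_mul (zpow_ne_zero _ hπF) hf, v.ord_zpow, v.ord_coe_irreducible hπ]
    have := min_le_left (v.ord f) (v.ord g)
    omega
  have hg' : (π : F) ^ (-m) * g ∈ v.toValuationSubring := by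
    apply mem_of_ord_nonneg v
    rw [v.ord_mul (zpow_ne_zero _ hπF) hg, v.ord_zpow, v.ord_coe_irreducible hπ]
    have := min_le_right (v.ord f) (v.ord g)
    omega
  have hsum := ord_nonneg_of_mem v (add_mem hf' hg')
  rw [← mul_add, v.ord_mul (zpow_ne_zero _ hπF) hfg, v.ord_zpow, v.ord_coe_irreducible hπ] at hsum
  omega

end Basic

end Fermat.Agent.S24.FF

end
-- ===== PACK-END S24/FFBasic.lean

-- ===== PACK-BEGIN S24/FFOrdLike.lean
section




/-!
# S24 / FF layer: recognising `Place.ord` from any order-like function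

If `N : F → ℤ` is additive on nonzero elements and `O_v = {N ≥ 0}` then `N = N(ϖ) · ord_v`.
(helper804)
-/

set_option autoImplicit false

namespace Fermat.Agent.S24.FF

open AlgebraicCurve

variable {K F : Type*} [Field K] [Field F] [Algebra K F]

section OrdLike

variable (N : F → ℤ) (hmul : ∀ f g : F, f ≠ 0 → g ≠ 0 → N (f * g) = N f + N g)

include hmul

theorem ordLike_one : N 1 = 0 := by
  have := hmul 1 1 one_ne_zero one_ne_zero
  rw [mul_one] at this
  omega

theorem ordLike_inv {f : F} (hf : f ≠ 0) : N f⁻¹ = -N f := by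
  have := hmul f f⁻¹ hf (inv_ne_zero hf)
  rw [mul_inv_cancel₀ hf, ordLike_one N hmul] at this
  omega

theorem ordLike_pow {f : F} (hf : f ≠ 0) (n : ℕ) : N (f ^ n) = n * N f := by
  induction n with
  | zero => simp [ordLike_one N hmul]
  | succ n ih =>
    rw [pow_succ, hmul _ _ (pow_ne_zero n hf) hf, ih]
    push_cast
    ring

theorem ordLike_zpow {f : F} (hf : f ≠ 0) (n : ℤ) : N (f ^ n) = n * N f := by
  obtain ⟨m, rfl | rfl⟩ := n.eq_nat_or_neg
  · rw [zpow_natCast, ordLike_pow N hmul hf]
  · rw [zpow_neg, zpow_natCast, ordLike_inv N hmul (pow_ne_zero m hf), ordLike_pow N hmul hf]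
    ring

/-- An order-like function with valuation ring `O_v` is a multiple of `ord_v`. -/
theorem ordLike_eq_ord_mul (v : Place K F)
    (hmem : ∀ f : F, f ≠ 0 → (f ∈ v.toValuationSubring ↔ 0 ≤ N f))
    {ϖ : v.toValuationSubring} (hϖ : Irreducible ϖ) {f : F} (hf : f ≠ 0) :
    N f = v.ord f * N (ϖ : F) := by
  have hϖF : (ϖ : F) ≠ 0 := by
    simpa [ne_eq, ZeroMemClass.coe_eq_zero] using hϖ.ne_zero
  obtain ⟨u, hu⟩ := v.exists_unit_mul_zpow hf hϖ
  have hu0 : ((u : v.toValuationSubring) : F) ≠ 0 := by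
    simp [ne_eq, ZeroMemClass.coe_eq_zero]
  have hNu : N ((u : v.toValuationSubring) : F) = 0 := by
    have h1 := (hmem _ hu0).mp (u : v.toValuationSubring).2
    have hinv : (((u⁻¹ : v.toValuationSubringˣ) : v.toValuationSubring) : F)
        = (((u : v.toValuationSubring) : F))⁻¹ := by
      apply eq_inv_of_mul_eq_one_left
      have h := congrArg (fun a : v.toValuationSubring => (a : F)) (Units.inv_mul u)
      exact h
    have h2 := (hmem _ (inv_ne_zero hu0)).mp (by
      rw [← hinv]
      exact ((u⁻¹ : v.toValuationSubringˣ) : v.toValuationSubring).2)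
    rw [ordLike_inv N hmul hu0] at h2
    omega
  conv_lhs => rw [hu]
  rw [hmul _ _ hu0 (zpow_ne_zero _ hϖF), hNu, zero_add, ordLike_zpow N hmul hϖF]

/-- Normalised version: if moreover some nonzero element has `N = 1`, then `N = ord_v`. -/
theorem ordLike_eq_ord (v : Place K F)
    (hmem : ∀ f : F, f ≠ 0 → (f ∈ v.toValuationSubring ↔ 0 ≤ N f))
    {π : F} (hπ0 : π ≠ 0) (hπ : N π = 1) {f : F} (hf : f ≠ 0) :
    N f = v.ord f := by
  obtain ⟨ϖ, hϖ⟩ := IsDiscreteValuationRing.exists_irreducible v.toValuationSubring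
  have hϖF : (ϖ : F) ≠ 0 := by
    simpa [ne_eq, ZeroMemClass.coe_eq_zero] using hϖ.ne_zero
  have key := ordLike_eq_ord_mul N hmul v hmem hϖ hπ0
  have hNϖ : 0 ≤ N (ϖ : F) := (hmem _ hϖF).mp ϖ.2
  rw [hπ] at key
  have hone : N (ϖ : F) = 1 := by
    have h1 : v.ord π * N (ϖ : F) = 1 := key.symm
    rcases Int.eq_one_or_neg_one_of_mul_eq_one' h1 with ⟨_, h⟩ | ⟨_, h⟩
    · exact h
    · omega
  rw [ordLike_eq_ord_mul N hmul v hmem hϖ hf, hone, mul_one]

end OrdLike

end Fermat.Agent.S24.FF

end
-- ===== PACK-END S24/FFOrdLike.lean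

-- ===== PACK-BEGIN S24/FFPoint.lean
section




/-!
# S24 / FF layer: the point of `P^1` below a place, residue degree one

Embedding-free algebraic core (helper804).
-/

set_option autoImplicit false

namespace Fermat.Agent.S24.FF

open AlgebraicCurve Polynomial IntermediateField

variable {K F : Type*} [Field K] [Field F] [Algebra K F]

/-- `ord` of a product of a multiset of nonzero elements with `ord = 0` is `0`. -/
theorem ord_multiset_prod_eq_zero (v : Place K F) (s : Multiset F)
    (h : ∀ y ∈ s, y ≠ 0 ∧ v.ord y = 0) : s.prod ≠ 0 ∧ v.ord s.prod = 0 := by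
  induction s using Multiset.induction_on with
  | empty => simp
  | cons a s ih =>
    have ha := h a (Multiset.mem_cons_self a s)
    have hs := ih (fun y hy => h y (Multiset.mem_cons_of_mem hy))
    rw [Multiset.prod_cons]
    refine ⟨mul_ne_zero ha.1 hs.1, ?_⟩
    rw [v.ord_mul ha.1 hs.1, ha.2, hs.2, add_zero]

/-- If `x` is integral at `v` and no `x - a` vanishes at `v`, every nonzero polynomial
expression in `x` is a unit at `v`. -/
theorem ord_aeval_eq_zero [IsAlgClosed K] (v : Place K F) (x : F) (hx : 0 ≤ v.ord x)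
    (hno : ∀ a : K, ¬ 0 < v.ord (x - algebraMap K F a)) (p : K[X]) (hp : aeval x p ≠ 0) :
    v.ord (aeval x p) = 0 := by
  have hsplit := IsAlgClosed.splits p
  have hp0 : p ≠ 0 := by
    rintro rfl
    simp at hp
  have hprod := hsplit.eq_prod_roots
  have hval : aeval x p = algebraMap K F p.leadingCoeff *
      ((p.roots.map fun a => x - algebraMap K F a)).prod := by
    conv_lhs => rw [hprod]
    simp [aeval_def, eval₂_mul, Polynomial.eval₂_multiset_prod, Multiset.map_map, Function.comp_def]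
  rw [hval] at hp ⊢
  have hc : algebraMap K F p.leadingCoeff ≠ 0 := left_ne_zero_of_mul hp
  have hr : ((p.roots.map fun a => x - algebraMap K F a)).prod ≠ 0 := right_ne_zero_of_mul hp
  have key := ord_multiset_prod_eq_zero v (p.roots.map fun a => x - algebraMap K F a) (by
    intro y hy
    obtain ⟨a, -, rfl⟩ := Multiset.mem_map.mp hy
    have hne : x - algebraMap K F a ≠ 0 := by
      intro h0
      apply hr
      rw [Multiset.prod_eq_zero_iff]
      exact h0 ▸ hy
    refine ⟨hne, ?_⟩
    have h1 : 0 ≤ v.ord (x - algebraMap K F a) :=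
      ord_nonneg_of_mem v (sub_mem (mem_of_ord_nonneg v hx) (v.algebraMap_mem' a))
    have h2 := hno a
    omega)
  rw [v.ord_mul hc hr, _root_.Fermat.Agent.S24.FF.ord_algebraMap, key.2, add_zero]

/-- **FF4, existence.** If `F` is algebraic over `K(x)` and `x` is integral at the place `v`,
then `v` lies over a finite point `a` of the `x`-line. -/
theorem exists_ord_sub_pos [IsAlgClosed K] (v : Place K F) (x : F)
    [halg : Algebra.IsAlgebraic K⟮x⟯ F] (hx : 0 ≤ v.ord x) :
    ∃ a : K, 0 < v.ord (x - algebraMap K F a) := by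
  by_contra hno
  rw [not_exists] at hno
  apply v.ne_top'
  -- `K(x) ⊆ O_v`
  have hsub : ∀ y ∈ K⟮x⟯, y ∈ v.toValuationSubring := by
    intro y hy
    obtain ⟨r, s, rfl⟩ := (mem_adjoin_simple_iff K y).mp hy
    rcases eq_or_ne (aeval x s) 0 with hs | hs
    · rw [hs, div_zero]; exact zero_mem _
    rcases eq_or_ne (aeval x r) 0 with hr | hr
    · rw [hr, zero_div]; exact zero_mem _
    apply mem_of_ord_nonneg v
    rw [div_eq_mul_inv, v.ord_mul hr (inv_ne_zero hs), v.ord_inv,
      ord_aeval_eq_zero v x hx hno r hr, ord_aeval_eq_zero v x hx hno s hs]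
    simp
  -- hence every element of `F` is integral over `O_v`
  let φ : K⟮x⟯ →+* v.toValuationSubring :=
    { toFun := fun y => ⟨y, hsub y y.2⟩
      map_one' := rfl
      map_mul' := fun _ _ => rfl
      map_zero' := rfl
      map_add' := fun _ _ => rfl }
  refine SetLike.ext fun f => ⟨fun _ => ValuationSubring.mem_top f, fun _ => ?_⟩
  have hint : IsIntegral K⟮x⟯ f := (halg.isAlgebraic f).isIntegral
  have hint' : IsIntegral v.toValuationSubring f := by
    obtain ⟨p, hpm, hp⟩ := hint
    refine ⟨p.map φ, hpm.map φ, ?_⟩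
    rw [← hp, Polynomial.eval₂_map]
    rfl
  obtain ⟨y, hy⟩ := IsIntegrallyClosed.isIntegral_iff.mp hint'
  rw [← hy]
  exact y.2

/-- **FF4, uniqueness.** -/
theorem ord_sub_pos_unique (v : Place K F) (x : F) {a b : K}
    (ha : 0 < v.ord (x - algebraMap K F a)) (hb : 0 < v.ord (x - algebraMap K F b)) : a = b := by
  by_contra hab
  have hne : algebraMap K F (b - a) ≠ 0 := by
    rw [Ne, map_eq_zero_iff _ (algebraMap K F).injective, sub_eq_zero]
    exact fun h => hab h.symm
  have h0 := _root_.Fermat.Agent.S24.FF.ord_algebraMap v (b - a)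
  have hsum : (x - algebraMap K F a) + (-(x - algebraMap K F b)) = algebraMap K F (b - a) := by
    rw [map_sub]; ring
  have hxa : x - algebraMap K F a ≠ 0 := by
    intro h; rw [h, v.ord_zero] at ha; exact lt_irrefl _ ha
  have hxb : x - algebraMap K F b ≠ 0 := by
    intro h; rw [h, v.ord_zero] at hb; exact lt_irrefl _ hb
  have hneg : v.ord (-(x - algebraMap K F b)) = v.ord (x - algebraMap K F b) := by
    rw [neg_eq_neg_one_mul, v.ord_mul (neg_ne_zero.mpr one_ne_zero) hxb]
    have : v.ord (-1 : F) = 0 := by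
      have := _root_.Fermat.Agent.S24.FF.ord_algebraMap v (-1 : K)
      simpa using this
    rw [this, zero_add]
  have := ord_add_ge v (f := x - algebraMap K F a) (g := -(x - algebraMap K F b))
    (by rw [hsum]; exact hne)
  rw [hsum, h0, hneg] at this
  have := min_le_iff.mp this
  omega

end Fermat.Agent.S24.FF

end
-- ===== PACK-END S24/FFPoint.lean

-- ===== PACK-BEGIN Lib/RR/Defs.lean
section




/-!
# Shared library RR: Riemann's theorem and the Riemann–Roch theorem for function fields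

Language: the Prelude's `AlgebraicCurve.Place`, `Divisor`, `riemannRochSpace`, `repartitions`,
`repartitionsOf`, `principalRepartitions`, `H1`, `genusFF`.

Standing hypotheses (`FF1 K F`): every nonzero function has a divisor of degree `0`
(`HasPrincipalDivisors`), every place has degree one (e.g. `K` algebraically closed and finite
residue fields), there is at least one place, and `F` is finite over `K(x)` for some
transcendental `x`.
-/

set_option autoImplicit false

noncomputable section

open AlgebraicCurve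

namespace Fermat.Agent.Lib.RR

variable (K F : Type*) [Field K] [Field F] [Algebra K F]

/-- Standing hypotheses of the RR library: a function field of one variable over `K`, all of whose
places have degree one. -/
class FF1 : Prop where
  /-- every nonzero function has a divisor, of degree zero -/
  hpd : HasPrincipalDivisors K F
  /-- every place has degree one -/
  deg_eq_one : ∀ v : Place K F, v.deg = 1
  /-- there is a place -/
  nonempty_place : Nonempty (Place K F)
  /-- `F` is a finite extension of a rational function field -/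
  exists_finite : ∃ x : F, Transcendental K x ∧
    FiniteDimensional (IntermediateField.adjoin K {x}) F

variable {K F}

/-- `ℓ(D) = dim_K L(D)`. -/
def ell (D : Divisor K F) : ℕ := Module.finrank K (riemannRochSpace D)

/-- The prime divisor of a place. -/
def prim (v : Place K F) : Divisor K F := Finsupp.single v 1

end Fermat.Agent.Lib.RR

end
end
-- ===== PACK-END Lib/RR/Defs.lean

-- ===== PACK-BEGIN Lib/RR/Ord.lean
section


/-!
# RR library: elementary calculus of `Place.ord`
-/

set_option autoImplicit false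

noncomputable section

open AlgebraicCurve

namespace Fermat.Agent.Lib.RR

variable {K F : Type*} [Field K] [Field F] [Algebra K F]

theorem ord_nonneg_of_mem (v : Place K F) {f : F} (hf : f ∈ v.toValuationSubring) :
    0 ≤ v.ord f := by
  rcases eq_or_ne f 0 with rfl | hf0
  · simp
  obtain ⟨π, hπ⟩ := IsDiscreteValuationRing.exists_irreducible v.toValuationSubring
  obtain ⟨n, u, hu⟩ :=
    IsDiscreteValuationRing.eq_unit_mul_pow_irreducible
      (x := (⟨f, hf⟩ : v.toValuationSubring)) (by simpa [Subtype.ext_iff] using hf0) hπ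
  have hcoe : f = ((u : v.toValuationSubring) : F) * ((π : F) ^ (n : ℤ)) := by
    have h := congrArg (Subtype.val) hu
    push_cast at h
    rw [zpow_natCast]
    exact h
  rw [hcoe, v.ord_unit_smul_zpow u hπ (n : ℤ)]
  exact Int.natCast_nonneg n

theorem mem_of_ord_nonneg (v : Place K F) {f : F} (h : 0 ≤ v.ord f) :
    f ∈ v.toValuationSubring := by
  rcases eq_or_ne f 0 with rfl | hf
  · exact zero_mem _
  obtain ⟨π, hπ⟩ := IsDiscreteValuationRing.exists_irreducible v.toValuationSubring
  obtain ⟨u, hu⟩ := v.exists_unit_mul_zpow hf hπ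
  rw [hu, show v.ord f = (((v.ord f).toNat : ℕ) : ℤ) from (Int.toNat_of_nonneg h).symm,
    zpow_natCast]
  exact mul_mem (u : v.toValuationSubring).2 (pow_mem (π : v.toValuationSubring).2 _)

/-- `f ∈ O_v ↔ 0 ≤ ord_v f` (valid also for `f = 0` because `ord_v 0 = 0`). -/
theorem mem_iff_ord_nonneg (v : Place K F) (f : F) :
    f ∈ v.toValuationSubring ↔ 0 ≤ v.ord f :=
  ⟨ord_nonneg_of_mem v, mem_of_ord_nonneg v⟩

theorem ord_algebraMap (v : Place K F) (c : K) : v.ord (algebraMap K F c) = 0 := by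
  rcases eq_or_ne c 0 with rfl | hc
  · simp
  have h1 : 0 ≤ v.ord (algebraMap K F c) := ord_nonneg_of_mem v (v.algebraMap_mem' c)
  have h2 : 0 ≤ v.ord (algebraMap K F c⁻¹) := ord_nonneg_of_mem v (v.algebraMap_mem' c⁻¹)
  rw [map_inv₀, v.ord_inv] at h2
  omega

theorem ord_pow (v : Place K F) (f : F) (n : ℕ) : v.ord (f ^ n) = n * v.ord f := by
  have := v.ord_zpow f (n : ℤ)
  rwa [zpow_natCast] at this

theorem ord_neg (v : Place K F) (f : F) : v.ord (-f) = v.ord f := by
  rcases eq_or_ne f 0 with rfl | hf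
  · simp
  have h : (-1 : F) ≠ 0 := by simp
  have h1 : v.ord (-1 : F) = 0 := by
    have h2 := v.ord_mul h h
    rw [neg_one_mul, neg_neg, v.ord_one] at h2
    omega
  rw [← neg_one_mul, v.ord_mul h hf, h1, zero_add]

theorem ne_zero_of_ord_ne_zero (v : Place K F) {f : F} (h : v.ord f ≠ 0) : f ≠ 0 := by
  rintro rfl; exact h v.ord_zero

/-- Ultrametric inequality. -/
theorem ord_add (v : Place K F) {f g : F} (hf : f ≠ 0) (hg : g ≠ 0) (hfg : f + g ≠ 0) :
    min (v.ord f) (v.ord g) ≤ v.ord (f + g) := by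
  wlog h : v.ord f ≤ v.ord g generalizing f g
  · have := this hg hf (by rwa [add_comm]) (by omega)
    rwa [min_comm, add_comm g f] at this
  rw [min_eq_left h]
  have hq : g * f⁻¹ ∈ v.toValuationSubring := by
    apply mem_of_ord_nonneg
    rw [v.ord_mul hg (inv_ne_zero hf), v.ord_inv]; omega
  have h1 : 1 + g * f⁻¹ ∈ v.toValuationSubring := add_mem (one_mem _) hq
  have h2 : f + g = f * (1 + g * f⁻¹) := by field_simp
  have h3 : (1 + g * f⁻¹) ≠ 0 := by
    intro h0; rw [h0, mul_zero] at h2; exact hfg h2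
  rw [h2, v.ord_mul hf h3]
  have := ord_nonneg_of_mem v h1
  omega

/-- Ultrametric inequality in the "zero or bounded below" form used for `L(D)`. -/
theorem ord_add_of_le (v : Place K F) {f g : F} {n : ℤ}
    (hf : f = 0 ∨ n ≤ v.ord f) (hg : g = 0 ∨ n ≤ v.ord g) :
    f + g = 0 ∨ n ≤ v.ord (f + g) := by
  rcases eq_or_ne (f + g) 0 with h0 | h0
  · exact Or.inl h0
  right
  rcases eq_or_ne f 0 with rfl | hf0
  · rw [zero_add] at h0 ⊢
    exact hg.resolve_left h0
  rcases eq_or_ne g 0 with rfl | hg0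
  · rw [add_zero]
    exact hf.resolve_left hf0
  exact le_trans (le_min (hf.resolve_left hf0) (hg.resolve_left hg0)) (ord_add v hf0 hg0 h0)

/-- Strict case of the ultrametric inequality. -/
theorem ord_add_eq_of_lt (v : Place K F) {f g : F} (hf : f ≠ 0) (hg : g ≠ 0)
    (h : v.ord f < v.ord g) : v.ord (f + g) = v.ord f := by
  have hfg : f + g ≠ 0 := by
    intro h0
    have : g = -f := by rw [← sub_eq_zero]; rw [sub_neg_eq_add, add_comm]; exact h0
    rw [this, ord_neg] at h
    exact lt_irrefl _ h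
  have h1 := ord_add v hf hg hfg
  rw [min_eq_left h.le] at h1
  have hng : -g ≠ 0 := neg_ne_zero.mpr hg
  have h2 := ord_add v hfg hng (by simpa using hf)
  rw [add_neg_cancel_right, ord_neg] at h2
  rcases le_total (v.ord (f + g)) (v.ord g) with h3 | h3
  · rw [min_eq_left h3] at h2; omega
  · rw [min_eq_right h3] at h2; omega

/-- Every place has a uniformizer. -/
theorem exists_ord_eq_one (v : Place K F) : ∃ t : F, v.ord t = 1 := by
  obtain ⟨π, hπ⟩ := IsDiscreteValuationRing.exists_irreducible v.toValuationSubring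
  exact ⟨π, v.ord_coe_irreducible hπ⟩

/-- An element of the valuation ring lies in the maximal ideal iff it is `0` or has positive
order. -/
theorem mem_maximalIdeal_iff (v : Place K F) (a : v.toValuationSubring) :
    a ∈ IsLocalRing.maximalIdeal v.toValuationSubring ↔ (a : F) = 0 ∨ 0 < v.ord (a : F) := by
  rw [IsLocalRing.mem_maximalIdeal, mem_nonunits_iff]
  constructor
  · intro h
    by_contra hcon
    simp only [not_or, not_lt] at hcon
    obtain ⟨h0, h1⟩ := hcon
    apply h
    have h2 : v.ord (a : F) = 0 := le_antisymm h1 (ord_nonneg_of_mem v a.2)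
    have hinv : (a : F)⁻¹ ∈ v.toValuationSubring := by
      apply mem_of_ord_nonneg
      rw [v.ord_inv, h2]; simp
    refine IsUnit.of_mul_eq_one (⟨(a : F)⁻¹, hinv⟩ : v.toValuationSubring) ?_
    ext
    simp [h0]
  · rintro (h | h) hu
    · have : a = 0 := by ext; simpa using h
      rw [this] at hu
      exact not_isUnit_zero hu
    · have := v.ord_coe_unit hu.unit
      rw [IsUnit.unit_spec] at this
      omega

/-- At a place of degree one every element of the valuation ring is congruent to a constant. -/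
theorem exists_const_sub (v : Place K F) (hv : v.deg = 1) {f : F} (hf : 0 ≤ v.ord f) :
    ∃ c : K, f - algebraMap K F c = 0 ∨ 0 < v.ord (f - algebraMap K F c) := by
  have hmem : f ∈ v.toValuationSubring := mem_of_ord_nonneg v hf
  have h1 : (1 : v.ResidueField) ≠ 0 := one_ne_zero
  have hspan := (finrank_eq_one_iff_of_nonzero' (1 : v.ResidueField) h1).mp hv
  obtain ⟨c, hc⟩ := hspan (IsLocalRing.residue v.toValuationSubring ⟨f, hmem⟩)
  refine ⟨c, ?_⟩
  have hc' : IsLocalRing.residue v.toValuationSubring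
      (⟨f, hmem⟩ - algebraMap K v.toValuationSubring c) = 0 := by
    rw [map_sub, ← hc, Algebra.smul_def, mul_one]
    rw [IsScalarTower.algebraMap_apply K v.toValuationSubring v.ResidueField]
    simp
  rw [IsLocalRing.residue_eq_zero_iff] at hc'
  have := (mem_maximalIdeal_iff v _).mp hc'
  simpa using this

end Fermat.Agent.Lib.RR

end
end
-- ===== PACK-END Lib/RR/Ord.lean

-- ===== PACK-BEGIN S24/Defs.lean
section


/-!
# S24 — shared interface definitions

`LocalData` packages, for a local parameter `t` of the rational subfield `K(t) ⊆ F`,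
a full set of `K(t)`-embeddings of `F` into a Laurent series field together with the
"monodromy" permutation.  See `Fermat/Agent/S24/Alg.lean` (algebraic side) and
`Fermat/Agent/S24/Mod.lean` (modular side).
-/

set_option autoImplicit false

noncomputable section

open AlgebraicCurve ModularCurve
open scoped MatrixGroups

namespace Fermat.Agent.S24

/-- Number of orbits (cycles, fixed points included) of a permutation. -/
def numOrbits {X : Type*} (π : Equiv.Perm X) : ℕ :=
  Nat.card (MulAction.orbitRel.Quotient (Subgroup.zpowers π) X)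

/-- Local uniformisation data of `F/K` at the zero of `t`: a family `σ x` (`x : X`) of pairwise
distinct field embeddings `F → C((z))`, all restricting to the same embedding of `K(t)`, with
`ord_z (σ x t) = m > 0`, and a permutation `perm` of `X` realising `z ↦ ζ z`
(`ζ` a primitive `m`-th root of unity). -/
structure LocalData (K F : Type*) [Field K] [Field F] [Algebra K F] (C : Type*) [Field C]
    (X : Type*) (t : F) where
  m : ℕ
  m_pos : 0 < m
  ζ : C
  hζ : IsPrimitiveRoot ζ m
  ι : K →+* C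
  perm : Equiv.Perm X
  σ : X → (F →+* LaurentSeries C)
  σ_inj : Function.Injective σ
  σ_const : ∀ (x : X) (c : K), σ x (algebraMap K F c) = HahnSeries.C (ι c)
  σ_t_eq : ∀ x y : X, σ x t = σ y t
  σ_t_order : ∀ x : X, (σ x t).order = (m : ℤ)
  σ_perm_order : ∀ (x : X) (f : F), (σ (perm x) f).order = (σ x f).order
  σ_perm_leadingCoeff : ∀ (x : X) (f : F),
    (σ (perm x) f).leadingCoeff = ζ ^ (σ x f).order * (σ x f).leadingCoeff

section Modular

variable (N : ℕ) [NeZero N]

/-- The base field `ℚ̄`. -/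
abbrev Kbar : Type := AlgebraicClosure ℚ

/-- The function field of `X₀(N)` over `ℚ̄` (as a type). -/
abbrev FF : Type := ↥(modularFunctionFieldBar N)

/-- The `j`-function as an element of the function field of `X₀(N)` over `ℚ̄`. -/
def jF : FF N :=
  ⟨coeffEmb Kbar jq,
    coeffEmb_mem_laurentBaseChange Kbar (modularFunctionField_le_full N (jq_mem N))⟩

/-- The coset space `SL₂(ℤ) / Γ₀(N)`. -/
abbrev XX : Type := SL(2, ℤ) ⧸ CongruenceSubgroup.Gamma0 N

/-- The permutation of `SL₂(ℤ) / Γ₀(N)` induced by left multiplication by `g`. -/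
def permOf (g : SL(2, ℤ)) : Equiv.Perm (XX N) := MulAction.toPerm g

end Modular

end Fermat.Agent.S24

end
end
-- ===== PACK-END S24/Defs.lean

-- ===== PACK-BEGIN S24/Deg/H457_Descent.lean
section


/-!
# S24 / DEG-ALG (helper457), part 1: descent of algebraic relations along a coefficient embedding

`K →+* L` a field embedding, `coeffMap ι : K((q)) → L((q))`.
* `linearIndependent_coeffMap`: `coeffMap ι` maps `K`-linearly independent families to
  `L`-linearly independent families.
* `exists_relation_of_coeffMap_monic`: if `coeffMap ι a` is a root of a monic polynomial of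
  degree `n` over `L[coeffMap ι J]`, then `a` is a root of a nonzero polynomial of degree `≤ n`
  over `K[J]`.
-/

set_option autoImplicit false

noncomputable section

open Polynomial ModularCurve

namespace Fermat.Agent.S24.Deg457

variable {K L : Type*} [Field K] [Field L]

/-- `coeffMap ι` preserves linear independence (over the respective coefficient fields). -/
theorem linearIndependent_coeffMap (ι : K →+* L) {I : Type*} (v : I → LaurentSeries K)
    (hv : LinearIndependent K v) :
    LinearIndependent L (fun i => coeffMap ι (v i)) := by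
  classical
  let _ : Algebra K L := ι.toAlgebra
  rw [linearIndependent_iff'] at hv ⊢
  intro s g hg i hi
  -- it suffices to show that every `K`-linear functional kills `g i`
  rw [← Module.forall_dual_apply_eq_zero_iff K]
  intro φ
  refine hv s (fun i => φ (g i)) ?_ i hi
  ext k
  have hk := congrArg (fun x : LaurentSeries L => x.coeff k) hg
  simp only [HahnSeries.coeff_sum, HahnSeries.coeff_smul, coeffMap_coeff, smul_eq_mul,
    HahnSeries.coeff_zero] at hk ⊢
  have h2 := congrArg φ hk
  rw [map_zero, map_sum] at h2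
  rw [← h2]
  refine Finset.sum_congr rfl fun x _ => ?_
  have : g x * ι ((v x).coeff k) = ((v x).coeff k) • g x := by
    rw [Algebra.smul_def, mul_comm]; rfl
  rw [this, map_smul, smul_eq_mul, mul_comm]

/-- evaluation of polynomials at `J`, as a ring hom -/
abbrev evJ (J : LaurentSeries K) : K[X] →+* LaurentSeries K :=
  (aeval J : K[X] →ₐ[K] LaurentSeries K).toRingHom

theorem evJ_apply (J : LaurentSeries K) (p : K[X]) : evJ J p = aeval J p := rfl

theorem coeffMap_algebraMap' (ι : K →+* L) (c : K) :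
    coeffMap ι (algebraMap K (LaurentSeries K) c) = algebraMap L (LaurentSeries L) (ι c) := by
  rw [algebraMap_laurentSeries_eq_single, algebraMap_laurentSeries_eq_single, coeffMap_single]

theorem coeffMap_smul' (ι : K →+* L) (c : K) (x : LaurentSeries K) :
    coeffMap ι (c • x) = ι c • coeffMap ι x := by
  ext k; simp

/-- the `HahnSeries` scalar action agrees with multiplication by `algebraMap` (for the
power-series algebra structure on Laurent series). -/
theorem hsmul_eq_algebraMap_mul (c : K) (x : LaurentSeries K) :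
    c • x = algebraMap K (LaurentSeries K) c * x := by
  rw [algebraMap_laurentSeries_eq_single, HahnSeries.single_zero_mul_eq_smul]

/-- bivariate polynomial attached to a finite coefficient table -/
def tablePoly {D n : ℕ} (g : Fin (D + 1) × Fin (n + 1) → K) : K[X][X] :=
  ∑ k : Fin (n + 1), monomial (k : ℕ) (∑ i : Fin (D + 1), monomial (i : ℕ) (g (i, k)))

theorem tablePoly_coeff_coeff {D n : ℕ} (g : Fin (D + 1) × Fin (n + 1) → K)
    (i : Fin (D + 1)) (k : Fin (n + 1)) :
    ((tablePoly g).coeff k).coeff i = g (i, k) := by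
  classical
  simp only [tablePoly, finsetSum_coeff, coeff_monomial]
  rw [Finset.sum_eq_single k]
  · simp only [if_true, finsetSum_coeff, coeff_monomial]
    rw [Finset.sum_eq_single i]
    · simp
    · intro b _ hb
      rw [if_neg]
      exact fun h => hb (Fin.ext h)
    · simp
  · intro b _ hb
    rw [if_neg]
    · simp
    · exact fun h => hb (Fin.ext h)
  · simp

theorem tablePoly_natDegree_le {D n : ℕ} (g : Fin (D + 1) × Fin (n + 1) → K) :
    (tablePoly g).natDegree ≤ n := by
  refine natDegree_sum_le_of_forall_le _ _ fun k _ => ?_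
  exact (natDegree_monomial_le _).trans (Nat.lt_succ_iff.mp k.2)

theorem tablePoly_eval₂ {D n : ℕ} (g : Fin (D + 1) × Fin (n + 1) → K)
    (J a : LaurentSeries K) :
    (tablePoly g).eval₂ (evJ J) a = ∑ p : Fin (D + 1) × Fin (n + 1), g p • (J ^ (p.1 : ℕ) * a ^ (p.2 : ℕ)) := by
  rw [tablePoly, eval₂_finsetSum, Fintype.sum_prod_type_right]
  refine Finset.sum_congr rfl fun k _ => ?_
  rw [eval₂_monomial, evJ_apply, map_sum, Finset.sum_mul]
  refine Finset.sum_congr rfl fun i _ => ?_
  rw [aeval_monomial, hsmul_eq_algebraMap_mul, mul_assoc]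

/-- **Descent**: a monic relation of degree `n` over `L[ι J]` for `ι a` gives a nonzero relation
of degree `≤ n` over `K[J]` for `a`. -/
theorem exists_relation_of_coeffMap_monic (ι : K →+* L) (J a : LaurentSeries K) (n : ℕ)
    (P : L[X][X]) (hP : P.Monic) (hn : P.natDegree = n)
    (h0 : P.eval₂ (evJ (coeffMap ι J)) (coeffMap ι a) = 0) :
    ∃ Q : K[X][X], Q ≠ 0 ∧ Q.natDegree ≤ n ∧ Q.eval₂ (evJ J) a = 0 := by
  classical
  set D : ℕ := P.support.sup fun k => (P.coeff k).natDegree with hD
  have hDle : ∀ k, (P.coeff k).natDegree ≤ D := by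
    intro k
    by_cases hk : k ∈ P.support
    · exact Finset.le_sup (f := fun k => (P.coeff k).natDegree) hk
    · rw [notMem_support_iff.mp hk]; simp
  let v : Fin (D + 1) × Fin (n + 1) → LaurentSeries K := fun p => J ^ (p.1 : ℕ) * a ^ (p.2 : ℕ)
  have hnot : ¬ LinearIndependent K v := by
    intro hv
    have hw := linearIndependent_coeffMap ι v hv
    rw [Fintype.linearIndependent_iff] at hw
    have key := hw (fun p => (P.coeff p.2).coeff p.1) ?_ (0, Fin.last n)
    · simp only [Fin.val_last] at key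
      rw [← hn, hP.coeff_natDegree] at key
      simp at key
    · rw [Fintype.sum_prod_type_right]
      rw [eval₂_eq_sum_range' _ (n := n + 1) (by omega)] at h0
      rw [← h0, Finset.sum_range]
      refine Finset.sum_congr rfl fun k _ => ?_
      rw [evJ_apply, aeval_eq_sum_range' (n := D + 1) (Nat.lt_succ_of_le (hDle _)),
        Finset.sum_range, Finset.sum_mul]
      refine Finset.sum_congr rfl fun i _ => ?_
      simp only [v, map_mul, map_pow]
      rw [hsmul_eq_algebraMap_mul, Algebra.smul_def, mul_assoc]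
  rw [Fintype.not_linearIndependent_iff] at hnot
  obtain ⟨g, hg, p, hp⟩ := hnot
  refine ⟨tablePoly g, ?_, tablePoly_natDegree_le g, ?_⟩
  · intro h
    apply hp
    rw [← tablePoly_coeff_coeff g p.1 p.2, h]
    simp
  · rw [tablePoly_eval₂]
    exact hg

end Fermat.Agent.S24.Deg457

end
end
-- ===== PACK-END S24/Deg/H457_Descent.lean

-- ===== PACK-BEGIN A2/H12/Deck.lean
section


/-!
# Cell A2 — the abstract deck-transformation lemma (helper12)

Pure combinatorics / group theory / field theory, Mathlib-only.  This is the "10-line graph argument"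
of the A2 route (origin/helper12:coord/A2-helper12.md §2, origin/helper973:coord/A2-K3-graph-helper973.md §2):

* `fixes_all`   : a colour-preserving automorphism of a connected incidence structure
                  ("sheets" and "points") which fixes one sheet, fixes every point of a fixed sheet,
                  and such that a point carries at most one sheet of each colour, fixes every sheet.
* `commute_of_fixes_all` : if moreover a group `G` acts freely on the sheets and `τ` normalises `G`,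
                  then `τ` commutes with `G`.
* `kummer_of_commute` : Kummer consequence: `y ^ m ∈ F`, `τ` commutes with `G = Aut(L/F)`-action on `y`
                  and fixes the `m`-th roots of unity  ⟹  `τ y / y` is `G`-invariant.
-/

set_option autoImplicit false

namespace Fermat.Agent.A2.H12

section Graph

variable {S P : Type*}

/-- Two sheets are adjacent if they pass through a common point. -/
def Adj (inc : S → P → Prop) (s t : S) : Prop := ∃ p, inc s p ∧ inc t p

/-- **Graph lemma.**  `τS`, `τP` : the action of one automorphism on sheets and points. -/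
theorem fixes_all {C : Type*} (inc : S → P → Prop) (col : S → C) (τS : S → S) (τP : P → P)
    (h_col : ∀ s, col (τS s) = col s)
    (h_inc : ∀ s p, inc s p → inc (τS s) (τP p))
    (h_fix : ∀ s p, τS s = s → inc s p → τP p = p)
    (h_uni : ∀ s t p, inc s p → inc t p → col s = col t → s = t)
    (h_conn : ∀ s t : S, Relation.ReflTransGen (Adj inc) s t)
    (s₀ : S) (h₀ : τS s₀ = s₀) : ∀ s, τS s = s := by
  intro s
  have key : ∀ a b, Relation.ReflTransGen (Adj inc) a b → τS a = a → τS b = b := by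
    intro a b hab
    induction hab with
    | refl => exact id
    | tail _ hbc ih =>
      intro ha
      have hb := ih ha
      obtain ⟨p, hbp, hcp⟩ := hbc
      have hp : τP p = p := h_fix _ p hb hbp
      have h1 := h_inc _ p hcp
      rw [hp] at h1
      exact h_uni _ _ p h1 hcp (h_col _)
  exact key s₀ s (h_conn s₀ s) h₀

end Graph

section Group

variable {S : Type*} {G : Type*} [Group G] [MulAction G S]

/-- **Group part.**  `conj g` is the element `τ g τ⁻¹` of `G`; freeness of the action on sheets. -/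
theorem commute_of_fixes_all (τS : S → S) (conj : G → G)
    (h_conj : ∀ (g : G) (s : S), τS (g • s) = conj g • τS s)
    (h_free : ∀ (g : G) (s : S), g • s = s → g = 1)
    (h_all : ∀ s, τS s = s) (s₀ : S) : ∀ g, conj g = g := by
  intro g
  have h := h_conj g s₀
  rw [h_all, h_all] at h
  -- `g • s₀ = conj g • s₀`
  have h2 : (g⁻¹ * conj g) • s₀ = s₀ := by
    rw [mul_smul, ← h, inv_smul_smul]
  have h3 := h_free _ _ h2
  calc conj g = g * (g⁻¹ * conj g) := by group
    _ = g := by rw [h3, mul_one]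

end Group

section Kummer

variable {L : Type*} [Field L]

/-- **Kummer part.**  If `τ` commutes with every `g ∈ G` on `y` (`τ (g y) = g (τ y)`), every `g ∈ G`
multiplies `y` by a root of unity `ζ` with `τ ζ = ζ`, then `τ y / y` is fixed by `G`. -/
theorem kummer_of_commute (G : Set (L ≃+* L)) (τ : L ≃+* L) (y : L) (hy : y ≠ 0)
    (h_comm : ∀ g ∈ G, τ (g y) = g (τ y))
    (h_char : ∀ g ∈ G, ∃ ζ : L, g y = ζ * y ∧ τ ζ = ζ) :
    ∀ g ∈ G, g (τ y / y) = τ y / y := by
  intro g hg
  obtain ⟨ζ, hζ, hτζ⟩ := h_char g hg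
  have h1 : g (τ y) = ζ * τ y := by
    rw [← h_comm g hg, hζ, map_mul, hτζ]
  have hζ0 : ζ ≠ 0 := by
    rintro rfl
    rw [zero_mul] at hζ
    exact hy ((map_eq_zero_iff g g.injective).1 hζ)
  rw [map_div₀, h1, hζ]
  field_simp

end Kummer

end Fermat.Agent.A2.H12

end
-- ===== PACK-END A2/H12/Deck.lean

-- ===== PACK-BEGIN A2/H12/SheetGraph.lean
section



/-!
# Cell A2 — GRAPH-CONN: the sheet graph of a two-chart model is connected (helper12)

Mathlib-only.  Setting (same as S18/b5 `cech_idempotent_trivial`): `A` a ring, `w : A`,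
`B` an `A`-algebra (the "mid" chart), `Bfin Binf : Subalgebra A B` the two charts.
A finite family of *sheets* is given by ideals `P s` of `B` containing `w`
(in the application: `P s = 𝔪_{V_s} ∩ B_mid` for the Gauss-type valuation rings `V_s`).

* `exists_idem_of_partition` : one chart, CRT-type construction of an element which is `≡ 1` on the sheets
  of one class and `≡ 0` on the others, when sheets of different classes are comaximal.
* `sheetGraph_connected` : if every compatible pair of idempotents mod `w` is trivial (the conclusion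
  of `cech_idempotent_trivial`), the fibres are reduced in the three charts, then any two sheets are
  joined by a chain of sheets, consecutive ones being NOT comaximal in one of the two charts.
* `exists_maximal_of_not_comaximal` : "not comaximal" = "pass through a common closed point".
-/

set_option autoImplicit false

namespace Fermat.Agent.A2.H12

open scoped Classical

section OneChart

variable {C : Type*} [CommRing C] {S : Type*} [Fintype S]

/-- CRT-type separation of two classes of pairwise comaximal ideals. -/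
theorem exists_idem_of_partition (Q : S → Ideal C) (col : S → Prop)
    (hcom : ∀ s t, col s → ¬ col t → ∃ a ∈ Q s, ∃ b ∈ Q t, a + b = 1) :
    ∃ e : C, (∀ s, col s → 1 - e ∈ Q s) ∧ (∀ t, ¬ col t → e ∈ Q t) := by
  -- for `s` in the class: `β s ∈ ⋂_{t ∉ class} Q t`, `β s ≡ 1 mod Q s`
  have hβ : ∀ s, col s → ∃ β : C, (∀ t, ¬ col t → β ∈ Q t) ∧ 1 - β ∈ Q s := by
    intro s hs
    choose! a ha b hb hab using fun t (ht : ¬ col t) => hcom s t hs ht
    refine ⟨∏ t ∈ Finset.univ.filter (fun t => ¬ col t), b t, ?_, ?_⟩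
    · intro t ht
      have hmem : t ∈ Finset.univ.filter (fun t => ¬ col t) := by simp [ht]
      rw [← Finset.mul_prod_erase _ _ hmem]
      exact Ideal.mul_mem_right _ _ (hb t ht)
    · -- product of elements `≡ 1` is `≡ 1`
      have key : ∀ T : Finset S, (∀ t ∈ T, ¬ col t) → 1 - ∏ t ∈ T, b t ∈ Q s := by
        intro T
        induction T using Finset.induction_on with
        | empty => intro _; simp
        | insert t T ht ih =>
          intro hT
          rw [Finset.prod_insert ht]
          have h1 : 1 - b t ∈ Q s := by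
            have := hab t (hT t (Finset.mem_insert_self _ _))
            have h2 : 1 - b t = a t := by rw [← this]; ring
            rw [h2]; exact ha t (hT t (Finset.mem_insert_self _ _))
          have h3 := ih (fun t' ht' => hT t' (Finset.mem_insert_of_mem ht'))
          have : 1 - b t * ∏ t ∈ T, b t = (1 - b t) + b t * (1 - ∏ t ∈ T, b t) := by ring
          rw [this]
          exact Ideal.add_mem _ h1 (Ideal.mul_mem_left _ _ h3)
      exact key _ (fun t ht => by simpa using ht)
  choose! β hβ1 hβ2 using hβ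
  refine ⟨1 - ∏ s ∈ Finset.univ.filter (fun s => col s), (1 - β s), ?_, ?_⟩
  · intro s hs
    have hmem : s ∈ Finset.univ.filter (fun s => col s) := by simp [hs]
    have : 1 - (1 - ∏ s ∈ Finset.univ.filter (fun s => col s), (1 - β s))
        = ∏ s ∈ Finset.univ.filter (fun s => col s), (1 - β s) := by ring
    rw [this, ← Finset.mul_prod_erase _ _ hmem]
    exact Ideal.mul_mem_right _ _ (hβ2 s hs)
  · intro t ht
    have key : ∀ T : Finset S, (∀ s ∈ T, col s) → 1 - ∏ s ∈ T, (1 - β s) ∈ Q t := by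
      intro T
      induction T using Finset.induction_on with
      | empty => intro _; simp
      | insert s T hs ih =>
        intro hT
        rw [Finset.prod_insert hs]
        have h1 : β s ∈ Q t := hβ1 s (hT s (Finset.mem_insert_self _ _)) t ht
        have h3 := ih (fun s' hs' => hT s' (Finset.mem_insert_of_mem hs'))
        have : 1 - (1 - β s) * ∏ s ∈ T, (1 - β s)
            = β s * ∏ s ∈ T, (1 - β s) + (1 - ∏ s ∈ T, (1 - β s)) := by ring
        rw [this]
        exact Ideal.add_mem _ (Ideal.mul_mem_right _ _ h1) h3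
    exact key _ (fun s hs => by simpa using hs)

/-- Two ideals that are not comaximal lie in a common maximal ideal. -/
theorem exists_maximal_of_not_comaximal (I J : Ideal C)
    (h : ¬ ∃ a ∈ I, ∃ b ∈ J, a + b = 1) : ∃ 𝔫 : Ideal C, 𝔫.IsMaximal ∧ I ≤ 𝔫 ∧ J ≤ 𝔫 := by
  have hne : I ⊔ J ≠ ⊤ := by
    intro htop
    apply h
    have h1 : (1 : C) ∈ I ⊔ J := by rw [htop]; trivial
    obtain ⟨a, ha, b, hb, hab⟩ := Submodule.mem_sup.1 h1
    exact ⟨a, ha, b, hb, hab⟩
  obtain ⟨𝔫, h𝔫, hle⟩ := Ideal.exists_le_maximal _ hne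
  exact ⟨𝔫, h𝔫, le_trans le_sup_left hle, le_trans le_sup_right hle⟩

end OneChart

section TwoCharts

variable {A B : Type*} [CommRing A] [CommRing B] [Algebra A B]
variable {S : Type*} [Fintype S]

/-- Sheets `s`, `t` are *separated in the chart `C`* if they are comaximal there. -/
def SepIn (C : Subalgebra A B) (P : S → Ideal B) (s t : S) : Prop :=
  ∃ a ∈ C, a ∈ P s ∧ ∃ b ∈ C, b ∈ P t ∧ a + b = 1

/-- Adjacency in the sheet graph: not separated in one of the two charts. -/
def SheetAdj (Bfin Binf : Subalgebra A B) (P : S → Ideal B) (s t : S) : Prop :=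
  ¬ SepIn Bfin P s t ∨ ¬ SepIn Binf P s t

/-- the contraction of a sheet to a chart, as an ideal of the chart -/
def contr (C : Subalgebra A B) (I : Ideal B) : Ideal C := I.comap (algebraMap C B)

theorem mem_contr (C : Subalgebra A B) (I : Ideal B) (c : C) : c ∈ contr C I ↔ (c : B) ∈ I :=
  Iff.rfl

private theorem exists_chart_idem (C : Subalgebra A B) (P : S → Ideal B) (col : S → Prop)
    (hsep : ∀ s t, col s → ¬ col t → SepIn C P s t) :
    ∃ e ∈ C, (∀ s, col s → 1 - e ∈ P s) ∧ (∀ t, ¬ col t → e ∈ P t) := by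
  obtain ⟨e, he1, he2⟩ := exists_idem_of_partition (C := C) (fun s => contr C (P s)) col (by
    intro s t hs ht
    obtain ⟨a, haC, haP, b, hbC, hbP, hab⟩ := hsep s t hs ht
    exact ⟨⟨a, haC⟩, haP, ⟨b, hbC⟩, hbP, Subtype.ext hab⟩)
  refine ⟨e, e.2, ?_, ?_⟩
  · intro s hs
    have := he1 s hs
    rw [mem_contr] at this
    simpa using this
  · intro t ht
    exact he2 t ht

/-- **GRAPH-CONN.**  `hcech` is literally the conclusion of S18/b5 `cech_idempotent_trivial`
(for all compatible pairs of idempotents).  `hred_*` : reducedness of the special fibre in the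
three charts (`⋂ P s = (w)`).  Then the sheet graph is connected. -/
theorem sheetGraph_connected (w : A) (Bfin Binf : Subalgebra A B) (P : S → Ideal B)
    (hP1 : ∀ s, (1 : B) ∉ P s)
    (hwP : ∀ s, algebraMap A B w ∈ P s)
    (hred_mid : ∀ b : B, (∀ s, b ∈ P s) → ∃ t : B, b = algebraMap A B w * t)
    (hred_fin : ∀ b ∈ Bfin, (∀ s, b ∈ P s) → ∃ t ∈ Bfin, b = algebraMap A B w * t)
    (hred_inf : ∀ b ∈ Binf, (∀ s, b ∈ P s) → ∃ t ∈ Binf, b = algebraMap A B w * t)
    (hcech : ∀ e₁ e₂ : B, e₁ ∈ Bfin → e₂ ∈ Binf →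
      (∃ t ∈ Bfin, e₁ ^ 2 - e₁ = algebraMap A B w * t) →
      (∃ t ∈ Binf, e₂ ^ 2 - e₂ = algebraMap A B w * t) →
      (∃ t : B, e₁ - e₂ = algebraMap A B w * t) →
      ((∃ t ∈ Bfin, e₁ = algebraMap A B w * t) ∧ (∃ t ∈ Binf, e₂ = algebraMap A B w * t)) ∨
      ((∃ t ∈ Bfin, 1 - e₁ = algebraMap A B w * t) ∧
        (∃ t ∈ Binf, 1 - e₂ = algebraMap A B w * t)))
    (s₀ t₀ : S) : Relation.ReflTransGen (SheetAdj Bfin Binf P) s₀ t₀ := by
  by_contra hcon
  set col : S → Prop := fun s => Relation.ReflTransGen (SheetAdj Bfin Binf P) s₀ s with hcol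
  have hs₀ : col s₀ := Relation.ReflTransGen.refl
  have ht₀ : ¬ col t₀ := hcon
  have hsep : ∀ s t, col s → ¬ col t → SepIn Bfin P s t ∧ SepIn Binf P s t := by
    intro s t hs ht
    by_contra h
    apply ht
    refine Relation.ReflTransGen.tail hs ?_
    rcases not_and_or.1 h with h | h
    · exact Or.inl h
    · exact Or.inr h
  obtain ⟨e₁, he₁C, he₁a, he₁b⟩ := exists_chart_idem Bfin P col (fun s t hs ht => (hsep s t hs ht).1)
  obtain ⟨e₂, he₂C, he₂a, he₂b⟩ := exists_chart_idem Binf P col (fun s t hs ht => (hsep s t hs ht).2)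
  have hidem : ∀ e : B, (∀ s, col s → 1 - e ∈ P s) → (∀ t, ¬ col t → e ∈ P t) →
      ∀ s, e ^ 2 - e ∈ P s := by
    intro e ha hb s
    have h : e ^ 2 - e = -(e * (1 - e)) := by ring
    rw [h]
    by_cases hs : col s
    · exact (P s).neg_mem (Ideal.mul_mem_left _ _ (ha s hs))
    · exact (P s).neg_mem (Ideal.mul_mem_right _ _ (hb s hs))
  have h1 := hred_fin _ (Bfin.sub_mem (Bfin.pow_mem he₁C 2) he₁C) (hidem e₁ he₁a he₁b)
  have h2 := hred_inf _ (Binf.sub_mem (Binf.pow_mem he₂C 2) he₂C) (hidem e₂ he₂a he₂b)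
  have h12 : ∃ t : B, e₁ - e₂ = algebraMap A B w * t := by
    apply hred_mid
    intro s
    by_cases hs : col s
    · have : e₁ - e₂ = (1 - e₂) - (1 - e₁) := by ring
      rw [this]
      exact (P s).sub_mem (he₂a s hs) (he₁a s hs)
    · exact (P s).sub_mem (he₁b s hs) (he₂b s hs)
  rcases hcech e₁ e₂ he₁C he₂C h1 h2 h12 with ⟨⟨t, _, ht⟩, _⟩ | ⟨⟨t, _, ht⟩, _⟩
  · -- `e₁ ∈ (w)`, but `1 - e₁ ∈ P s₀`
    apply hP1 s₀
    have h3 : e₁ ∈ P s₀ := by rw [ht]; exact Ideal.mul_mem_right _ _ (hwP s₀)
    have : (1 : B) = (1 - e₁) + e₁ := by ring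
    rw [this]
    exact (P s₀).add_mem (he₁a s₀ hs₀) h3
  · apply hP1 t₀
    have h3 : 1 - e₁ ∈ P t₀ := by rw [ht]; exact Ideal.mul_mem_right _ _ (hwP t₀)
    have : (1 : B) = (1 - e₁) + e₁ := by ring
    rw [this]
    exact (P t₀).add_mem h3 (he₁b t₀ ht₀)

end TwoCharts

end Fermat.Agent.A2.H12

end
-- ===== PACK-END A2/H12/SheetGraph.lean

-- ===== PACK-BEGIN S22/H262/EasyCases.lean
section




set_option autoImplicit false

/-!
# S22: cusp forms of weight `k ≤ 1` on `Γ₀(N)` vanish.
-/

namespace Fermat.Agent.S22.H262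

open CuspForm UpperHalfPlane
open scoped MatrixGroups

/-- Cusp forms of non-positive weight on `Γ₀(N)` vanish (Sturm bound from the prelude). -/
theorem cuspForm_eq_zero_of_nonpos {N : ℕ} [NeZero N] {k : ℤ} (hk : k ≤ 0)
    (f : CuspForm (CongruenceSubgroup.Gamma0 N) k) : f = 0 := by
  have h0 : (CuspForm.toModularFormₗ f) = 0 := by
    apply ModularForm.sturm_bound_Gamma0 N
    intro n hn
    have hz : (k * ((CongruenceSubgroup.Gamma0 N).index : ℤ)).toNat = 0 := by
      rw [Int.toNat_eq_zero]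
      exact mul_nonpos_of_nonpos_of_nonneg hk (by positivity)
    rw [hz, Nat.zero_div, Nat.le_zero] at hn
    subst hn
    exact CuspFormClass.qExpansion_coeff_zero (f := f) one_pos
      (CongruenceSubgroup.one_mem_strictPeriods_Gamma0 N)
  exact CuspForm.toModularFormₗ_injective (by rw [h0, map_zero])

/-- Cusp forms of odd weight on `Γ₀(N)` vanish, since `-1 ∈ Γ₀(N)`. -/
theorem cuspForm_eq_zero_of_odd {N : ℕ} {k : ℤ} (hk : Odd k)
    (f : CuspForm (CongruenceSubgroup.Gamma0 N) k) : f = 0 := by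
  have hmem : (-1 : GL (Fin 2) ℝ) ∈
      (Subgroup.map (Matrix.SpecialLinearGroup.mapGL ℝ) (CongruenceSubgroup.Gamma0 N)) := by
    refine ⟨-1, ?_, ?_⟩
    · simp [CongruenceSubgroup.Gamma0_mem]
    · ext i j
      simp
  have h0 : (CuspForm.toModularFormₗ f) = 0 :=
    ModularForm.eq_zero_of_neg_one_mem hmem hk _
  exact CuspForm.toModularFormₗ_injective (by rw [h0, map_zero])

/-- Cusp forms of weight `k ≤ 1` on `Γ₀(N)` vanish. -/
theorem cuspForm_eq_zero_of_le_one {N : ℕ} [NeZero N] {k : ℤ} (hk : k ≤ 1)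
    (f : CuspForm (CongruenceSubgroup.Gamma0 N) k) : f = 0 := by
  rcases hk.lt_or_eq with h | h
  · exact cuspForm_eq_zero_of_nonpos (by omega) f
  · exact cuspForm_eq_zero_of_odd (by rw [h]; exact odd_one) f

end Fermat.Agent.S22.H262

end
-- ===== PACK-END S22/H262/EasyCases.lean

-- ===== PACK-BEGIN S22/H262/Prim.lean
section


set_option autoImplicit false

/-!
# Primitive towers on the upper half plane

For a holomorphic periodic function `h` on `ℍ` vanishing at `i∞` we construct the tower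
`E 0 = h`, `(E (r+1))' = E r`, with every `E (r+1)` vanishing at `i∞`, and prove uniqueness.
(The one-step primitive lemma is due to helper502.)
-/

open Complex Filter Function Metric Set
open UpperHalfPlane hiding I
open scoped Real Topology Manifold

namespace Fermat.Agent.S22.H262

/-- One-step primitive: a holomorphic `h`-periodic function on `ℍ` that is zero at `i∞` has a
holomorphic `h`-periodic primitive that is zero at `i∞`. -/
theorem exists_primitive_isZeroAtImInfty {f : ℍ → ℂ} {h : ℝ} (hh : 0 < h)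
    (hfper : Periodic (f ∘ ofComplex) h) (hfhol : MDiff f) (hfzero : IsZeroAtImInfty f) :
    ∃ F : ℍ → ℂ, Periodic (F ∘ ofComplex) h ∧ MDiff F ∧ IsZeroAtImInfty F ∧
      ∀ τ : ℍ, HasDerivAt (F ∘ ofComplex) (f τ) (τ : ℂ) := by
  set φ := cuspFunction h f with hφ
  have hφd : DifferentiableOn ℂ φ (ball 0 1) :=
    differentiableOn_cuspFunction_ball hh hfper hfhol hfzero.isBoundedAtImInfty
  have hφ0 : φ 0 = 0 := hfzero.cuspFunction_apply_zero hh
  have hball : ball (0 : ℂ) 1 ∈ 𝓝 (0 : ℂ) := ball_mem_nhds _ one_pos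
  have hψd : DifferentiableOn ℂ (dslope φ 0) (ball 0 1) :=
    (differentiableOn_dslope hball).2 hφd
  obtain ⟨Ψ, hΨ0, hΨ⟩ := (hψd.isExactOn_ball).with_val_at 0 0
  have hq : ∀ z : ℂ, 0 < z.im → Periodic.qParam h z ∈ ball (0 : ℂ) 1 := fun z hz ↦ by
    simpa using Periodic.norm_qParam_lt_one hh hz
  -- the primitive as a function on `ℂ`
  set G : ℂ → ℂ := fun z ↦ (h / (2 * π * I)) * Ψ (Periodic.qParam h z) with hG
  have hGderiv : ∀ τ : ℍ, HasDerivAt G (f τ) (τ : ℂ) := by
    intro τ
    have hqτ := hq τ τ.im_pos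
    have h1 : HasDerivAt (Periodic.qParam h) (Periodic.qParam h τ * (2 * π * I / h)) (τ : ℂ) := by
      simpa only [id_eq, mul_one] using!
        (((hasDerivAt_id (τ : ℂ)).const_mul (2 * π * I)).div_const (h : ℂ)).cexp
    have h2 := (hΨ _ hqτ).comp (τ : ℂ) h1
    have h3 := h2.const_mul ((h : ℂ) / (2 * π * I))
    have hne : Periodic.qParam h (τ : ℂ) ≠ 0 := Periodic.qParam_ne_zero _
    have hval : (h : ℂ) / (2 * π * I) *
        (dslope φ 0 (Periodic.qParam h τ) * (Periodic.qParam h τ * (2 * π * I / h))) = f τ := by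
      rw [dslope_of_ne _ hne, slope_def_field, hφ0, sub_zero, sub_zero]
      have hh' : (h : ℂ) ≠ 0 := by exact_mod_cast hh.ne'
      have : φ (Periodic.qParam h τ) = f τ := eq_cuspFunction τ hh.ne' hfper
      rw [this]
      field_simp [two_pi_I_ne_zero]
    rw [← hval]
    exact h3
  refine ⟨fun τ ↦ G τ, ?_, ?_, ?_, ?_⟩
  · intro w
    by_cases hw : 0 < im w
    · have hw' : 0 < im (w + h) := by simpa using hw
      simp only [comp_apply, ofComplex_apply_of_im_pos hw', ofComplex_apply_of_im_pos hw, hG]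
      congr 2
      simp only [Periodic.qParam]
      have hh' : (h : ℂ) ≠ 0 := by exact_mod_cast hh.ne'
      rw [show 2 * π * I * (w + h) / h = 2 * π * I * w / h + 2 * π * I by field_simp,
        Complex.exp_add, Complex.exp_two_pi_mul_I, mul_one]
    · have hw' : im (w + h) ≤ 0 := by simpa using not_lt.mp hw
      simp [ofComplex_apply_of_im_nonpos hw', ofComplex_apply_of_im_nonpos (not_lt.mp hw)]
  · rw [UpperHalfPlane.mdifferentiable_iff]
    intro z hz
    have := hGderiv ⟨z, hz⟩
    refine (this.differentiableAt.differentiableWithinAt).congr ?_ ?_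
    · intro w hw
      simp [ofComplex_apply_of_im_pos hw]
    · simp [ofComplex_apply_of_im_pos hz]
  · have hΨc : ContinuousAt Ψ 0 := (hΨ 0 (mem_ball_self one_pos)).continuousAt
    have h1 : Tendsto (fun τ : ℍ ↦ Ψ (Periodic.qParam h τ)) atImInfty (𝓝 0) := by
      have := hΨc.tendsto.comp (qParam_tendsto_atImInfty hh)
      rwa [hΨ0] at this
    have h2 := h1.const_mul ((h : ℂ) / (2 * π * I))
    rw [mul_zero] at h2
    exact h2
  · intro τ
    refine (hGderiv τ).congr_of_eventuallyEq ?_
    have hopen : {z : ℂ | 0 < z.im} ∈ 𝓝 (τ : ℂ) :=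
      (isOpen_lt continuous_const Complex.continuous_im).mem_nhds τ.im_pos
    filter_upwards [hopen] with z hz
    simp [ofComplex_apply_of_im_pos hz]

/-- A *primitive tower* of `h`: `E 0 = h`, `E (r+1)` is a primitive of `E r` on `ℍ`
which vanishes at `i∞`. -/
structure IsTower (h : ℍ → ℂ) (E : ℕ → ℍ → ℂ) : Prop where
  zero : E 0 = h
  hasDeriv : ∀ (r : ℕ) (z : ℍ), HasDerivAt (E (r + 1) ∘ ofComplex) (E r z) (z : ℂ)
  isZero : ∀ r : ℕ, IsZeroAtImInfty (E (r + 1))

/-- A function on `ℍ` with vanishing derivative everywhere is constant. -/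
theorem const_of_hasDerivAt_zero {D : ℍ → ℂ}
    (hD : ∀ z : ℍ, HasDerivAt (D ∘ ofComplex) 0 (z : ℂ)) (z w : ℍ) : D z = D w := by
  have hopen : IsOpen {z : ℂ | 0 < z.im} := isOpen_lt continuous_const Complex.continuous_im
  have hconv : Convex ℝ {z : ℂ | 0 < z.im} := by
    intro x hx y hy a b ha hb hab
    simp only [Set.mem_ofPred_eq, add_im, smul_im] at *
    rcases ha.eq_or_lt with rfl | ha'
    · simp only [zero_add] at hab
      subst hab
      simpa using hy
    · have : 0 < a * x.im := mul_pos ha' hx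
      have : 0 ≤ b * y.im := mul_nonneg hb hy.le
      simpa using by linarith
  have hdiff : DifferentiableOn ℂ (D ∘ ofComplex) {z : ℂ | 0 < z.im} := fun z hz =>
    (hD ⟨z, hz⟩).differentiableAt.differentiableWithinAt
  have hderiv : EqOn (deriv (D ∘ ofComplex)) 0 {z : ℂ | 0 < z.im} := fun z hz =>
    (hD ⟨z, hz⟩).deriv
  have := hopen.is_const_of_deriv_eq_zero hconv.isPreconnected hdiff hderiv z.im_pos w.im_pos
  simpa using this

/-- A function on `ℍ` with vanishing derivative which tends to zero at `i∞` is zero. -/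
theorem eq_zero_of_hasDerivAt_zero_of_isZero {D : ℍ → ℂ}
    (hD : ∀ z : ℍ, HasDerivAt (D ∘ ofComplex) 0 (z : ℂ)) (h0 : IsZeroAtImInfty D) : D = 0 := by
  funext z
  have hconst : D = fun _ => D z := funext fun w => const_of_hasDerivAt_zero hD w z
  have h1 : Tendsto D atImInfty (𝓝 0) := h0
  have h2 : Tendsto D atImInfty (𝓝 (D z)) := by
    conv => enter [1]; rw [hconst]
    exact tendsto_const_nhds
  exact tendsto_nhds_unique h2 h1

theorem IsTower.unique {h : ℍ → ℂ} {E E' : ℕ → ℍ → ℂ} (hE : IsTower h E) (hE' : IsTower h E') :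
    E = E' := by
  funext r
  induction r with
  | zero => rw [hE.zero, hE'.zero]
  | succ r ih =>
    have hD : ∀ z : ℍ, HasDerivAt ((E (r + 1) - E' (r + 1)) ∘ ofComplex) 0 (z : ℂ) := by
      intro z
      have := (hE.hasDeriv r z).sub (hE'.hasDeriv r z)
      rw [ih, sub_self] at this
      exact this
    have h0 : IsZeroAtImInfty (E (r + 1) - E' (r + 1)) := by
      have : Tendsto (fun z => E (r + 1) z - E' (r + 1) z) atImInfty (𝓝 (0 - 0)) :=
        Tendsto.sub (hE.isZero r) (hE'.isZero r)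
      rw [sub_zero] at this
      exact this
    have := eq_zero_of_hasDerivAt_zero_of_isZero hD h0
    exact sub_eq_zero.mp this

theorem IsTower.mdiff {h : ℍ → ℂ} {E : ℕ → ℍ → ℂ} (hE : IsTower h E) (r : ℕ) :
    MDiff (E (r + 1)) := by
  rw [UpperHalfPlane.mdifferentiable_iff]
  intro z hz
  exact (hE.hasDeriv r ⟨z, hz⟩).differentiableAt.differentiableWithinAt

theorem IsTower.add {h₁ h₂ : ℍ → ℂ} {E₁ E₂ : ℕ → ℍ → ℂ} (h1 : IsTower h₁ E₁)
    (h2 : IsTower h₂ E₂) : IsTower (h₁ + h₂) (E₁ + E₂) where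
  zero := by rw [Pi.add_apply, h1.zero, h2.zero]
  hasDeriv r z := (h1.hasDeriv r z).add (h2.hasDeriv r z)
  isZero r := by
    have : Tendsto (fun z => E₁ (r + 1) z + E₂ (r + 1) z) atImInfty (𝓝 (0 + 0)) :=
      Tendsto.add (h1.isZero r) (h2.isZero r)
    rw [add_zero] at this
    exact this

theorem IsTower.smul {h : ℍ → ℂ} {E : ℕ → ℍ → ℂ} (hE : IsTower h E) (c : ℂ) :
    IsTower (c • h) (c • E) where
  zero := by rw [Pi.smul_apply, hE.zero]
  hasDeriv r z := (hE.hasDeriv r z).const_smul c
  isZero r := by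
    have : Tendsto (fun z => c * E (r + 1) z) atImInfty (𝓝 (c * 0)) :=
      (hE.isZero r).const_mul c
    rw [mul_zero] at this
    exact this

theorem isTower_zero : IsTower 0 0 where
  zero := rfl
  hasDeriv _ z := by
    have : ((0 : ℕ → ℍ → ℂ) 0 ∘ ofComplex) = fun _ => (0 : ℂ) := rfl
    simp
  isZero _ := tendsto_const_nhds

/-- Existence of towers for holomorphic periodic functions vanishing at `i∞`. -/
theorem exists_isTower {h : ℍ → ℂ} {p : ℝ} (hp : 0 < p)
    (hper : Periodic (h ∘ ofComplex) p) (hhol : MDiff h) (hzero : IsZeroAtImInfty h) :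
    ∃ E : ℕ → ℍ → ℂ, IsTower h E := by
  classical
  let X := {F : ℍ → ℂ // Periodic (F ∘ ofComplex) p ∧ MDiff F ∧ IsZeroAtImInfty F}
  have step : ∀ F : X, ∃ F' : X, ∀ τ : ℍ, HasDerivAt (F'.1 ∘ ofComplex) (F.1 τ) (τ : ℂ) := by
    rintro ⟨F, h1, h2, h3⟩
    obtain ⟨F', h1', h2', h3', h4'⟩ := exists_primitive_isZeroAtImInfty hp h1 h2 h3
    exact ⟨⟨F', h1', h2', h3'⟩, h4'⟩
  choose next hnext using step
  let E : ℕ → X := fun r => Nat.rec ⟨h, hper, hhol, hzero⟩ (fun _ F => next F) r
  refine ⟨fun r => (E r).1, rfl, fun r z => ?_, fun r => ?_⟩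
  · exact hnext (E r) z
  · exact (E (r + 1)).2.2.2

/-- The chosen tower of a function (junk value `0` if no tower exists). -/
noncomputable def tower (h : ℍ → ℂ) : ℕ → ℍ → ℂ :=
  open Classical in if hex : ∃ E, IsTower h E then hex.choose else 0

/-- `h` admits a tower. -/
def HasTower (h : ℍ → ℂ) : Prop := ∃ E, IsTower h E

theorem HasTower.isTower {h : ℍ → ℂ} (hh : HasTower h) : IsTower h (tower h) := by
  unfold tower
  have hh' : ∃ E, IsTower h E := hh
  rw [dif_pos hh']
  exact hh'.choose_spec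

theorem IsTower.tower_eq {h : ℍ → ℂ} {E : ℕ → ℍ → ℂ} (hE : IsTower h E) : tower h = E :=
  (HasTower.isTower ⟨E, hE⟩).unique hE

theorem HasTower.add {h₁ h₂ : ℍ → ℂ} (h1 : HasTower h₁) (h2 : HasTower h₂) :
    HasTower (h₁ + h₂) := ⟨_, h1.isTower.add h2.isTower⟩

theorem HasTower.smul {h : ℍ → ℂ} (hh : HasTower h) (c : ℂ) : HasTower (c • h) :=
  ⟨_, hh.isTower.smul c⟩

theorem hasTower_zero : HasTower 0 := ⟨_, isTower_zero⟩

theorem tower_add {h₁ h₂ : ℍ → ℂ} (h1 : HasTower h₁) (h2 : HasTower h₂) :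
    tower (h₁ + h₂) = tower h₁ + tower h₂ :=
  (h1.isTower.add h2.isTower).tower_eq

theorem tower_smul {h : ℍ → ℂ} (hh : HasTower h) (c : ℂ) : tower (c • h) = c • tower h :=
  (hh.isTower.smul c).tower_eq

theorem tower_zero_fun : tower 0 = 0 := isTower_zero.tower_eq

theorem tower_sum {ι : Type*} (s : Finset ι) (h : ι → ℍ → ℂ) (hh : ∀ i ∈ s, HasTower (h i)) :
    HasTower (∑ i ∈ s, h i) ∧ tower (∑ i ∈ s, h i) = ∑ i ∈ s, tower (h i) := by
  classical
  induction s using Finset.induction_on with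
  | empty => exact ⟨by simpa using hasTower_zero, by simpa using tower_zero_fun⟩
  | insert a s ha ih =>
    have ih' := ih fun i hi => hh i (Finset.mem_insert_of_mem hi)
    have ha' := hh a (Finset.mem_insert_self a s)
    rw [Finset.sum_insert ha, Finset.sum_insert ha]
    exact ⟨ha'.add ih'.1, by rw [tower_add ha' ih'.1, ih'.2]⟩

end Fermat.Agent.S22.H262

end
-- ===== PACK-END S22/H262/Prim.lean

-- ===== PACK-BEGIN S22/H262/Cocycle.lean
section


set_option autoImplicit false

/-!
# The Eichler cocycle via primitive towers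
-/

open Complex Filter Function Metric Set
open UpperHalfPlane hiding I
open scoped Real Topology Manifold ModularForm MatrixGroups

namespace Fermat.Agent.S22.H262

/-- The action of `GL₂(ℝ)` on `ℂ²` (column vectors). -/
def actV (A : GL (Fin 2) ℝ) (v : ℂ × ℂ) : ℂ × ℂ :=
  ((A 0 0 : ℝ) * v.1 + (A 0 1 : ℝ) * v.2, (A 1 0 : ℝ) * v.1 + (A 1 1 : ℝ) * v.2)

theorem actV_mul (A B : GL (Fin 2) ℝ) (v : ℂ × ℂ) : actV (A * B) v = actV A (actV B v) := by
  simp only [actV, Matrix.GeneralLinearGroup.coe_mul, Matrix.mul_apply, Fin.sum_univ_two]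
  ext <;> push_cast <;> ring

@[simp] theorem actV_one (v : ℂ × ℂ) : actV 1 v = v := by
  simp [actV]

/-- The polynomial-valued Eichler integral attached to a tower, evaluated at a vector `v`. -/
noncomputable def bigG (n : ℕ) (E : ℕ → ℍ → ℂ) (z : ℍ) (v : ℂ × ℂ) : ℂ :=
  ∑ j ∈ Finset.range (n + 1),
    (n.descFactorial j : ℂ) * E (j + 1) z * (v.1 - z * v.2) ^ (n - j) * v.2 ^ j

theorem hasDerivAt_bigG (n : ℕ) {h : ℍ → ℂ} {E : ℕ → ℍ → ℂ} (hE : IsTower h E) (v : ℂ × ℂ)
    (z : ℍ) :
    HasDerivAt (fun w : ℂ => bigG n E (ofComplex w) v) (h z * (v.1 - z * v.2) ^ n) (z : ℂ) := by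
  -- first the derivative of the version with `w` in place of `↑(ofComplex w)`
  have key : HasDerivAt (fun w : ℂ => ∑ j ∈ Finset.range (n + 1),
      (n.descFactorial j : ℂ) * (E (j + 1) ∘ ofComplex) w * (v.1 - w * v.2) ^ (n - j) * v.2 ^ j)
      (∑ j ∈ Finset.range (n + 1),
        ((n.descFactorial j : ℂ) * E j z * (v.1 - z * v.2) ^ (n - j) * v.2 ^ j -
         (n.descFactorial (j + 1) : ℂ) * E (j + 1) z * (v.1 - z * v.2) ^ (n - (j + 1)) *
            v.2 ^ (j + 1))) (z : ℂ) := by
    apply HasDerivAt.fun_sum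
    intro j _
    have h1 : HasDerivAt (E (j + 1) ∘ ofComplex) (E j z) (z : ℂ) := hE.hasDeriv j z
    have h2 : HasDerivAt (fun w : ℂ => (v.1 - w * v.2) ^ (n - j))
        (((n - j : ℕ) : ℂ) * (v.1 - z * v.2) ^ (n - j - 1) * (-v.2)) (z : ℂ) := by
      have h3 : HasDerivAt (fun w : ℂ => v.1 - w * v.2) (-v.2) (z : ℂ) := by
        simpa using ((hasDerivAt_id (z : ℂ)).mul_const v.2).const_sub v.1
      exact h3.pow (n - j)
    have h4 := ((h1.const_mul (n.descFactorial j : ℂ)).mul h2).mul_const (v.2 ^ j)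
    refine h4.congr_deriv ?_
    have hofz : (E (j + 1) ∘ ofComplex) (z : ℂ) = E (j + 1) z := by simp
    rw [hofz, Nat.descFactorial_succ]
    have : n - (j + 1) = n - j - 1 := by omega
    rw [this]
    push_cast
    ring
  have hsum : (∑ j ∈ Finset.range (n + 1),
        ((n.descFactorial j : ℂ) * E j z * (v.1 - z * v.2) ^ (n - j) * v.2 ^ j -
         (n.descFactorial (j + 1) : ℂ) * E (j + 1) z * (v.1 - z * v.2) ^ (n - (j + 1)) *
            v.2 ^ (j + 1))) = h z * (v.1 - z * v.2) ^ n := by
    rw [Finset.sum_range_sub' (fun j => (n.descFactorial j : ℂ) * E j z *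
      (v.1 - z * v.2) ^ (n - j) * v.2 ^ j)]
    have hlt : n.descFactorial (n + 1) = 0 := Nat.descFactorial_of_lt (Nat.lt_succ_self n)
    rw [hlt]
    simp [hE.zero]
  rw [hsum] at key
  refine key.congr_of_eventuallyEq ?_
  have hopen : {z : ℂ | 0 < z.im} ∈ 𝓝 (z : ℂ) :=
    (isOpen_lt continuous_const Complex.continuous_im).mem_nhds z.im_pos
  filter_upwards [hopen] with w hw
  simp [bigG, ofComplex_apply_of_im_pos hw]

/-- The key identity `x' - (Az) y' = det A (x - z y) / (cz + d)` where `(x', y') = A v`. -/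
theorem actV_sub (A : GL (Fin 2) ℝ) (hA : 0 < A.det.val) (z : ℍ) (v : ℂ × ℂ) :
    (actV A v).1 - ((A • z : ℍ) : ℂ) * (actV A v).2 =
      (A.det.val : ℂ) * (v.1 - z * v.2) / denom A z := by
  have hd : denom A z ≠ 0 := denom_ne_zero A z
  rw [coe_smul_of_det_pos hA]
  have hdet : (A.det.val : ℂ) = (A 0 0 : ℝ) * (A 1 1 : ℝ) - (A 0 1 : ℝ) * (A 1 0 : ℝ) := by
    rw [Matrix.GeneralLinearGroup.val_det_apply, Matrix.det_fin_two]
    push_cast
    ring
  have key : ((actV A v).1 * denom A z - num A z * (actV A v).2) =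
      (A.det.val : ℂ) * (v.1 - z * v.2) := by
    simp only [actV, num, denom, hdet]
    ring
  rw [eq_div_iff hd, sub_mul, ← key]
  congr 1
  field_simp

theorem hasDerivAt_bigG_smul (n : ℕ) {h : ℍ → ℂ} {E : ℕ → ℍ → ℂ} (hE : IsTower h E)
    (A : GL (Fin 2) ℝ) (hA : 0 < A.det.val) (v : ℂ × ℂ) (z : ℍ) :
    HasDerivAt (fun w : ℂ => bigG n E (A • ofComplex w) (actV A v))
      ((h ∣[(n : ℤ) + 2] A) z * (v.1 - z * v.2) ^ n) (z : ℂ) := by
  have h1 := hasDerivAt_bigG n hE (actV A v) (A • z)
  have h2 : HasDerivAt (fun w : ℂ => ((A • ofComplex w : ℍ) : ℂ))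
      (A.det.val / denom A z ^ 2) (z : ℂ) := (hasStrictDerivAt_smul hA z).hasDerivAt
  have h3 := h1.comp_of_eq (x := (z : ℂ)) h2 (by simp)
  have hd : denom A z ≠ 0 := denom_ne_zero A z
  have hval : h (A • z) * ((actV A v).1 - ((A • z : ℍ) : ℂ) * (actV A v).2) ^ n *
      ((A.det.val : ℂ) / denom A z ^ 2) = (h ∣[(n : ℤ) + 2] A) z * (v.1 - z * v.2) ^ n := by
    rw [actV_sub A hA z v, ModularForm.slash_apply, UpperHalfPlane.σ, if_pos hA]
    simp only [ContinuousAlgEquiv.refl_apply, abs_of_pos hA]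
    have e1 : ((n : ℤ) + 2 - 1) = ((n + 1 : ℕ) : ℤ) := by push_cast; ring
    have e2 : -((n : ℤ) + 2) = -((n + 2 : ℕ) : ℤ) := by push_cast; ring
    rw [e1, e2, zpow_natCast, zpow_neg, zpow_natCast, div_pow, mul_pow]
    field_simp
    ring
  rw [hval] at h3
  refine h3.congr_of_eventuallyEq ?_
  filter_upwards with w
  simp

/-- The difference `G_h(Az, Av) - G_{h|A}(z, v)` does not depend on `z`. -/
theorem bigG_sub_const (n : ℕ) {h : ℍ → ℂ} (A : GL (Fin 2) ℝ) (hA : 0 < A.det.val)
    (hh : HasTower h) (hhA : HasTower (h ∣[(n : ℤ) + 2] A)) (v : ℂ × ℂ) (z w : ℍ) :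
    bigG n (tower h) (A • z) (actV A v) - bigG n (tower (h ∣[(n : ℤ) + 2] A)) z v =
      bigG n (tower h) (A • w) (actV A v) - bigG n (tower (h ∣[(n : ℤ) + 2] A)) w v := by
  let D : ℍ → ℂ := fun z =>
    bigG n (tower h) (A • z) (actV A v) - bigG n (tower (h ∣[(n : ℤ) + 2] A)) z v
  have hD : ∀ z : ℍ, HasDerivAt (D ∘ ofComplex) 0 (z : ℂ) := by
    intro z
    have := (hasDerivAt_bigG_smul n hh.isTower A hA v z).sub
      (hasDerivAt_bigG n hhA.isTower v z)
    rw [sub_self] at this
    exact this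
  exact const_of_hasDerivAt_zero hD z w

/-- The Eichler cocycle of `h` at the matrix `A`, evaluated at the vector `v`. -/
noncomputable def cocyc (n : ℕ) (h : ℍ → ℂ) (A : GL (Fin 2) ℝ) (v : ℂ × ℂ) : ℂ :=
  bigG n (tower h) (A • UpperHalfPlane.I) (actV A v) -
    bigG n (tower (h ∣[(n : ℤ) + 2] A)) UpperHalfPlane.I v

theorem cocyc_eq (n : ℕ) {h : ℍ → ℂ} (A : GL (Fin 2) ℝ) (hA : 0 < A.det.val)
    (hh : HasTower h) (hhA : HasTower (h ∣[(n : ℤ) + 2] A)) (v : ℂ × ℂ) (z : ℍ) :
    cocyc n h A v =
      bigG n (tower h) (A • z) (actV A v) - bigG n (tower (h ∣[(n : ℤ) + 2] A)) z v :=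
  bigG_sub_const n A hA hh hhA v _ _

/-- The cocycle relation. -/
theorem cocyc_mul (n : ℕ) {h : ℍ → ℂ} (A B : GL (Fin 2) ℝ) (hA : 0 < A.det.val)
    (hB : 0 < B.det.val) (hh : HasTower h) (hhA : HasTower (h ∣[(n : ℤ) + 2] A))
    (hhAB : HasTower (h ∣[(n : ℤ) + 2] (A * B))) (v : ℂ × ℂ) :
    cocyc n h (A * B) v = cocyc n h A (actV B v) + cocyc n (h ∣[(n : ℤ) + 2] A) B v := by
  have hAB : 0 < (A * B).det.val := by
    rw [map_mul, Units.val_mul]
    exact mul_pos hA hB
  have hslash : h ∣[(n : ℤ) + 2] (A * B) = (h ∣[(n : ℤ) + 2] A) ∣[(n : ℤ) + 2] B :=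
    SlashAction.slash_mul _ _ _ _
  have hhAB' : HasTower ((h ∣[(n : ℤ) + 2] A) ∣[(n : ℤ) + 2] B) := hslash ▸ hhAB
  rw [cocyc_eq n (A * B) hAB hh hhAB v UpperHalfPlane.I,
    cocyc_eq n A hA hh hhA (actV B v) (B • UpperHalfPlane.I),
    cocyc_eq n B hB hhA hhAB' v UpperHalfPlane.I, actV_mul, mul_smul, hslash]
  ring

end Fermat.Agent.S22.H262

end
-- ===== PACK-END S22/H262/Cocycle.lean

-- ===== PACK-BEGIN S24/Mod/H997Frac.lean
section


/-!
# S24 / MOD — the polynomial ring `R_N = ℚ̄[j(q^d) : d ∣ N]` inside the function field `FF N`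

* `RN N`   : the `ℚ̄`-subalgebra of `ℚ̄((q))` generated by the `j(q^d)`, `d ∣ N`;
* `inclRN` : the inclusion `RN N → FF N`;
* `liftF`  : every injective ring hom `RN N →+* L` into a field extends uniquely to `FF N →+* L`.
-/

set_option autoImplicit false

noncomputable section

open ModularCurve HahnSeries IntermediateField

namespace Fermat.Agent.S24.H997

variable (N : ℕ)

/-- The generators `j(q^d)`, `d ∣ N`, as Laurent series over `ℚ̄`. -/
def gensBar : Set (LaurentSeries Kbar) := ⇑(coeffEmb Kbar) '' divisorExpansions N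

/-- The function field of `X₀(N)` over `ℚ̄` is generated over `ℚ̄` by the `j(q^d)`, `d ∣ N`. -/
theorem modularFunctionFieldBar_eq_adjoin :
    modularFunctionFieldBar N = IntermediateField.adjoin Kbar (gensBar N) := by
  apply le_antisymm
  · show laurentBaseChange Kbar (modularFunctionFieldFull N) ≤ _
    rw [laurentBaseChange, IntermediateField.adjoin_le_iff]
    rintro _ ⟨x, hx, rfl⟩
    have hx' : x ∈ IntermediateField.adjoin ℚ (divisorExpansions N) := hx
    induction hx' using IntermediateField.adjoin_induction with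
    | mem y hy => exact IntermediateField.subset_adjoin Kbar _ ⟨y, hy, rfl⟩
    | algebraMap c =>
        have h : coeffEmb Kbar (algebraMap ℚ (LaurentSeries ℚ) c)
            = algebraMap Kbar (LaurentSeries Kbar) (algebraMap ℚ Kbar c) := by
          rw [algebraMap_apply_eq_single, algebraMap_laurentSeries_eq_single, coeffEmb,
            coeffMap_single]
        show coeffEmb Kbar (algebraMap ℚ (LaurentSeries ℚ) c) ∈ _
        rw [h]
        exact IntermediateField.algebraMap_mem _ _
    | add y z _ _ hy hz =>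
        show coeffEmb Kbar (y + z) ∈ _
        rw [map_add]
        exact add_mem (hy (by assumption)) (hz (by assumption))
    | inv y _ hy =>
        show coeffEmb Kbar (y⁻¹) ∈ _
        rw [map_inv₀]
        exact inv_mem (hy (by assumption))
    | mul y z _ _ hy hz =>
        show coeffEmb Kbar (y * z) ∈ _
        rw [map_mul]
        exact mul_mem (hy (by assumption)) (hz (by assumption))
  · show _ ≤ laurentBaseChange Kbar (modularFunctionFieldFull N)
    rw [laurentBaseChange]
    exact IntermediateField.adjoin.mono _ _ _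
      (Set.image_mono (IntermediateField.subset_adjoin ℚ _))

/-- The polynomial ring `ℚ̄[j(q^d) : d ∣ N] ⊆ ℚ̄((q))`. -/
def RN : Subalgebra Kbar (LaurentSeries Kbar) := Algebra.adjoin Kbar (gensBar N)

theorem RN_le : RN N ≤ (modularFunctionFieldBar N).toSubalgebra := by
  rw [modularFunctionFieldBar_eq_adjoin]
  exact IntermediateField.algebra_adjoin_le_adjoin Kbar (gensBar N)

/-- The inclusion `R_N → FF N`. -/
def inclRN : RN N →ₐ[Kbar] FF N := Subalgebra.inclusion (RN_le N)

@[simp] theorem coe_inclRN (r : RN N) : ((inclRN N r : FF N) : LaurentSeries Kbar) = r := rfl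

theorem inclRN_injective : Function.Injective (inclRN N) :=
  Subalgebra.inclusion_injective (RN_le N)

theorem exists_div_inclRN (f : FF N) :
    ∃ r t : RN N, t ≠ 0 ∧ f = inclRN N r / inclRN N t := by
  have hf : (f : LaurentSeries Kbar) ∈ IntermediateField.adjoin Kbar (gensBar N) := by
    rw [← modularFunctionFieldBar_eq_adjoin]; exact f.2
  obtain ⟨r, hr, s, hs, h⟩ := IntermediateField.mem_adjoin_iff_div.mp hf
  by_cases hs0 : s = 0
  · refine ⟨0, 1, one_ne_zero, ?_⟩
    apply Subtype.ext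
    rw [h, hs0, div_zero]
    simp
  · refine ⟨⟨r, hr⟩, ⟨s, hs⟩, fun h0 => hs0 (congrArg Subtype.val h0), ?_⟩
    apply Subtype.ext
    rw [h]
    simp

/-- The generator `j(q^d)` as an element of `R_N`. -/
def jR (d : ℕ) [NeZero d] (hd : d ∣ N) : RN N :=
  ⟨coeffEmb Kbar (qExpand ℚ d jq),
    Algebra.subset_adjoin ⟨_, mem_divisorExpansions N hd, rfl⟩⟩

theorem inclRN_jR_one [NeZero N] : inclRN N (jR N 1 (one_dvd N)) = jF N := by
  apply Subtype.ext
  simp [jR, jF, qExpand_one_apply]

section Lift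

variable {N}
variable {L : Type*} [Field L]

/-- Extension of an injective ring hom `R_N →+* L` to the fraction field `FF N`. -/
def liftF (s : RN N →+* L) (hs : Function.Injective s) : FF N →+* L :=
  letI : Algebra (RN N) (FF N) := (inclRN N).toRingHom.toAlgebra
  haveI : FaithfulSMul (RN N) (FF N) :=
    (faithfulSMul_iff_algebraMap_injective _ _).mpr (inclRN_injective N)
  haveI : IsFractionRing (RN N) (FF N) :=
    IsFractionRing.of_field _ _ fun z => by
      obtain ⟨r, t, -, h⟩ := exists_div_inclRN N z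
      exact ⟨r, t, h⟩
  IsFractionRing.lift hs

theorem liftF_inclRN (s : RN N →+* L) (hs : Function.Injective s) (r : RN N) :
    liftF s hs (inclRN N r) = s r := by
  let _ : Algebra (RN N) (FF N) := (inclRN N).toRingHom.toAlgebra
  have : FaithfulSMul (RN N) (FF N) :=
    (faithfulSMul_iff_algebraMap_injective _ _).mpr (inclRN_injective N)
  have : IsFractionRing (RN N) (FF N) :=
    IsFractionRing.of_field _ _ fun z => by
      obtain ⟨r, t, -, h⟩ := exists_div_inclRN N z
      exact ⟨r, t, h⟩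
  exact IsFractionRing.lift_algebraMap hs r

theorem liftF_div (s : RN N →+* L) (hs : Function.Injective s) (r t : RN N) :
    liftF s hs (inclRN N r / inclRN N t) = s r / s t := by
  rw [map_div₀, liftF_inclRN, liftF_inclRN]

theorem liftF_algebraMap (s : RN N →+* L) (hs : Function.Injective s) (c : Kbar) :
    liftF s hs (algebraMap Kbar (FF N) c) = s (algebraMap Kbar (RN N) c) := by
  rw [← liftF_inclRN s hs]
  congr 1

end Lift

end Fermat.Agent.S24.H997

end
end
-- ===== PACK-END S24/Mod/H997Frac.lean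

-- ===== PACK-BEGIN S24/H624/HoloRing.lean
section


/-!
# The ring of holomorphic functions on the upper half-plane and Taylor expansions

Architecture-independent analytic foundation for the S24 / S28 long shots.
-/

set_option autoImplicit false

namespace Fermat.Agent.S24.H624

open UpperHalfPlane Complex
open scoped Manifold Topology

/-- The `ℂ`-algebra of holomorphic functions on the upper half-plane. -/
def holoRing : Subalgebra ℂ (ℍ → ℂ) where
  carrier := {f | MDiff f}
  mul_mem' := fun hf hg => hf.mul hg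
  add_mem' := fun hf hg => hf.add hg
  algebraMap_mem' := fun _ => mdifferentiable_const

theorem mem_holoRing {f : ℍ → ℂ} : f ∈ holoRing ↔ MDiff f := Iff.rfl

/-- A holomorphic function on `ℍ`, extended by junk to `ℂ`, is analytic at every point of `ℍ`. -/
theorem analyticAt_of_mdiff {f : ℍ → ℂ} (hf : MDiff f) (τ : ℍ) :
    AnalyticAt ℂ (f ∘ ofComplex) (τ : ℂ) :=
  ((UpperHalfPlane.mdifferentiable_iff.mp hf).analyticOnNhd isOpen_upperHalfPlaneSet) _ τ.im_pos

theorem analyticAt_of_mdiff' {f : ℍ → ℂ} (hf : MDiff f) {z : ℂ} (hz : 0 < z.im) :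
    AnalyticAt ℂ (f ∘ ofComplex) z :=
  ((UpperHalfPlane.mdifferentiable_iff.mp hf).analyticOnNhd isOpen_upperHalfPlaneSet) _ hz

/-- Order of vanishing at `τ` of a function on the upper half-plane. -/
noncomputable def ordAt (τ : ℍ) (f : ℍ → ℂ) : ℕ∞ := analyticOrderAt (f ∘ ofComplex) (τ : ℂ)

theorem ordAt_def (τ : ℍ) (f : ℍ → ℂ) : ordAt τ f = analyticOrderAt (f ∘ ofComplex) (τ : ℂ) := rfl

theorem eq_zero_of_eventually_zero {f : ℍ → ℂ} (hf : MDiff f) {τ : ℍ}
    (h : ∀ᶠ z in 𝓝 (τ : ℂ), (f ∘ ofComplex) z = 0) : f = 0 := by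
  have han := (UpperHalfPlane.mdifferentiable_iff.mp hf).analyticOnNhd isOpen_upperHalfPlaneSet
  have hpre : IsPreconnected {z : ℂ | 0 < z.im} :=
    (Complex.isConnected_of_upperHalfPlane subset_rfl
      (fun z (hz : 0 < z.im) => le_of_lt hz)).isPreconnected
  have := han.eqOn_zero_of_preconnected_of_eventuallyEq_zero hpre τ.im_pos h
  funext w
  have hw := this w.im_pos
  simpa [Function.comp_apply, ofComplex_apply] using hw

theorem ordAt_eq_top_iff {f : ℍ → ℂ} (hf : MDiff f) (τ : ℍ) : ordAt τ f = ⊤ ↔ f = 0 := by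
  constructor
  · intro h
    exact eq_zero_of_eventually_zero hf (analyticOrderAt_eq_top.mp h)
  · rintro rfl
    rw [ordAt_def, analyticOrderAt_eq_top]
    exact Filter.Eventually.of_forall fun z => rfl

theorem ordAt_ne_top {f : ℍ → ℂ} (hf : MDiff f) (hf0 : f ≠ 0) (τ : ℍ) : ordAt τ f ≠ ⊤ :=
  fun h => hf0 ((ordAt_eq_top_iff hf τ).mp h)

theorem ordAt_mul {f g : ℍ → ℂ} (hf : MDiff f) (hg : MDiff g) (τ : ℍ) :
    ordAt τ (f * g) = ordAt τ f + ordAt τ g :=
  analyticOrderAt_mul (analyticAt_of_mdiff hf τ) (analyticAt_of_mdiff hg τ)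

theorem ordAt_eq_zero_iff {f : ℍ → ℂ} (hf : MDiff f) (τ : ℍ) : ordAt τ f = 0 ↔ f τ ≠ 0 := by
  rw [ordAt_def, (analyticAt_of_mdiff hf τ).analyticOrderAt_eq_zero]
  simp [Function.comp_apply, ofComplex_apply]

theorem le_ordAt_add {f g : ℍ → ℂ} (τ : ℍ) :
    min (ordAt τ f) (ordAt τ g) ≤ ordAt τ (f + g) :=
  le_analyticOrderAt_add

theorem ordAt_zero (τ : ℍ) : ordAt τ (0 : ℍ → ℂ) = ⊤ := by
  rw [ordAt_def, analyticOrderAt_eq_top]
  exact Filter.Eventually.of_forall fun z => rfl

theorem mul_eq_zero_of_mdiff {f g : ℍ → ℂ} (hf : MDiff f) (hg : MDiff g) (h : f * g = 0) :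
    f = 0 ∨ g = 0 := by
  by_contra hcon
  rw [not_or] at hcon
  have h1 := ordAt_mul hf hg UpperHalfPlane.I
  rw [h, ordAt_zero] at h1
  have h3 := ordAt_ne_top hf hcon.1 UpperHalfPlane.I
  have h4 := ordAt_ne_top hg hcon.2 UpperHalfPlane.I
  exact (WithTop.add_ne_top.mpr ⟨h3, h4⟩) h1.symm

instance instNontrivialHoloRing : Nontrivial holoRing :=
  ⟨⟨0, 1, fun h => by
    have := congrArg (fun f : holoRing => (f : ℍ → ℂ) UpperHalfPlane.I) h
    simp at this⟩⟩

instance instNoZeroDivisorsHoloRing : NoZeroDivisors holoRing :=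
  ⟨by
    intro a b hab
    have h2 : ((a : ℍ → ℂ) * (b : ℍ → ℂ)) = 0 := by
      have := congrArg (Subtype.val) hab
      simpa using this
    rcases mul_eq_zero_of_mdiff a.2 b.2 h2 with h | h
    · exact Or.inl (Subtype.ext h)
    · exact Or.inr (Subtype.ext h)⟩

instance instIsDomainHoloRing : IsDomain holoRing := NoZeroDivisors.to_isDomain _

end Fermat.Agent.S24.H624

end
-- ===== PACK-END S24/H624/HoloRing.lean

-- ===== PACK-BEGIN S24/H624/Taylor.lean
section


/-!
# Taylor expansion at a point of the upper half-plane as an injective algebra hom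
-/

set_option autoImplicit false

namespace Fermat.Agent.S24.H624

open UpperHalfPlane Complex
open scoped Manifold Topology

/-- `n`-th Taylor coefficient at `τ` (in the coordinate `z - τ`). -/
noncomputable def taylorCoeff (τ : ℍ) (f : ℍ → ℂ) (n : ℕ) : ℂ :=
  iteratedDeriv n (f ∘ ofComplex) (τ : ℂ) / (n.factorial : ℂ)

theorem contDiffAt_of_mdiff {f : ℍ → ℂ} (hf : MDiff f) (τ : ℍ) (n : ℕ∞) :
    ContDiffAt ℂ n (f ∘ ofComplex) (τ : ℂ) :=
  (analyticAt_of_mdiff hf τ).contDiffAt.of_le (by exact_mod_cast le_top)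

theorem taylorCoeff_add {f g : ℍ → ℂ} (hf : MDiff f) (hg : MDiff g) (τ : ℍ) (n : ℕ) :
    taylorCoeff τ (f + g) n = taylorCoeff τ f n + taylorCoeff τ g n := by
  unfold taylorCoeff
  have : ((f + g) ∘ ofComplex) = (f ∘ ofComplex) + (g ∘ ofComplex) := rfl
  rw [this, iteratedDeriv_add (contDiffAt_of_mdiff hf τ n) (contDiffAt_of_mdiff hg τ n), add_div]

theorem taylorCoeff_const (c : ℂ) (τ : ℍ) (n : ℕ) :
    taylorCoeff τ (fun _ => c) n = if n = 0 then c else 0 := by
  unfold taylorCoeff
  have : ((fun _ : ℍ => c) ∘ ofComplex) = fun _ : ℂ => c := rfl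
  rw [this]
  rcases n with _ | n
  · simp
  · rw [iteratedDeriv_succ']
    simp

theorem taylorCoeff_mul {f g : ℍ → ℂ} (hf : MDiff f) (hg : MDiff g) (τ : ℍ) (n : ℕ) :
    taylorCoeff τ (f * g) n
      = ∑ p ∈ Finset.HasAntidiagonal.antidiagonal n,
          taylorCoeff τ f p.1 * taylorCoeff τ g p.2 := by
  unfold taylorCoeff
  have : ((f * g) ∘ ofComplex) = (f ∘ ofComplex) * (g ∘ ofComplex) := rfl
  rw [this, iteratedDeriv_mul (contDiffAt_of_mdiff hf τ n) (contDiffAt_of_mdiff hg τ n),
    Finset.Nat.sum_antidiagonal_eq_sum_range_succ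
      (fun i j => iteratedDeriv i (f ∘ ofComplex) (τ : ℂ) / (i.factorial : ℂ)
        * (iteratedDeriv j (g ∘ ofComplex) (τ : ℂ) / (j.factorial : ℂ))) n,
    Finset.sum_div]
  refine Finset.sum_congr rfl fun i hi => ?_
  have hi' : i ≤ n := Nat.lt_succ_iff.mp (Finset.mem_range.mp hi)
  have h1 : (n.choose i : ℂ) = (n.factorial : ℂ) / ((i.factorial : ℂ) * ((n - i).factorial : ℂ)) := by
    rw [Nat.choose_eq_factorial_div_factorial hi']
    rw [Nat.cast_div (Nat.factorial_mul_factorial_dvd_factorial hi')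
      (by exact_mod_cast (Nat.mul_pos (Nat.factorial_pos _) (Nat.factorial_pos _)).ne')]
    push_cast
    rfl
  rw [h1]
  have hn : (n.factorial : ℂ) ≠ 0 := by exact_mod_cast (Nat.factorial_pos n).ne'
  have hi0 : (i.factorial : ℂ) ≠ 0 := by exact_mod_cast (Nat.factorial_pos i).ne'
  have hni : ((n - i).factorial : ℂ) ≠ 0 := by exact_mod_cast (Nat.factorial_pos (n - i)).ne'
  field_simp

/-- Taylor expansion at `τ` as a `ℂ`-algebra hom from holomorphic functions to power series. -/
noncomputable def taylorAt (τ : ℍ) : holoRing →ₐ[ℂ] PowerSeries ℂ where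
  toFun f := PowerSeries.mk (taylorCoeff τ (f : ℍ → ℂ))
  map_one' := by
    ext n
    rw [PowerSeries.coeff_mk, PowerSeries.coeff_one]
    exact taylorCoeff_const 1 τ n
  map_mul' f g := by
    ext n
    rw [PowerSeries.coeff_mk, PowerSeries.coeff_mul]
    simp only [PowerSeries.coeff_mk]
    exact taylorCoeff_mul f.2 g.2 τ n
  map_zero' := by
    ext n
    rw [PowerSeries.coeff_mk, map_zero]
    have := taylorCoeff_const 0 τ n
    rw [show (((0 : holoRing) : ℍ → ℂ)) = fun _ => (0 : ℂ) from rfl, this]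
    simp
  map_add' f g := by
    ext n
    rw [PowerSeries.coeff_mk, map_add, PowerSeries.coeff_mk, PowerSeries.coeff_mk]
    exact taylorCoeff_add f.2 g.2 τ n
  commutes' c := by
    ext n
    rw [PowerSeries.coeff_mk]
    have := taylorCoeff_const c τ n
    rw [show ((algebraMap ℂ holoRing c : holoRing) : ℍ → ℂ) = fun _ => c from rfl, this]
    rw [PowerSeries.algebraMap_apply, Algebra.algebraMap_self, RingHom.id_apply, PowerSeries.coeff_C]

@[simp]
theorem coeff_taylorAt (τ : ℍ) (f : holoRing) (n : ℕ) :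
    PowerSeries.coeff n (taylorAt τ f) = taylorCoeff τ (f : ℍ → ℂ) n := by
  show PowerSeries.coeff n (PowerSeries.mk (taylorCoeff τ (f : ℍ → ℂ))) = _
  rw [PowerSeries.coeff_mk]

theorem taylorCoeff_zero_idx (τ : ℍ) (f : ℍ → ℂ) : taylorCoeff τ f 0 = f τ := by
  simp [taylorCoeff, Function.comp_apply, ofComplex_apply]

theorem taylorCoeff_eq_zero_iff (τ : ℍ) (f : ℍ → ℂ) (n : ℕ) :
    taylorCoeff τ f n = 0 ↔ iteratedDeriv n (f ∘ ofComplex) (τ : ℂ) = 0 := by
  unfold taylorCoeff
  have hn : (n.factorial : ℂ) ≠ 0 := by exact_mod_cast (Nat.factorial_pos n).ne'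
  rw [div_eq_zero_iff]
  simp [hn]

/-- The order of the Taylor series is the analytic order of vanishing. -/
theorem order_taylorAt (τ : ℍ) (f : holoRing) :
    (taylorAt τ f).order = ordAt τ (f : ℍ → ℂ) := by
  have han := analyticAt_of_mdiff f.2 τ
  by_cases h0 : f = 0
  · subst h0
    rw [map_zero, PowerSeries.order_zero]
    exact (ordAt_zero τ).symm
  · have hne : ordAt τ (f : ℍ → ℂ) ≠ ⊤ :=
      ordAt_ne_top f.2 (fun h => h0 (Subtype.ext h)) τ
    obtain ⟨n, hn⟩ := ENat.ne_top_iff_exists.mp hne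
    rw [← hn]
    have key := (analyticOrderAt_eq_nat_iff_iteratedDeriv_eq_zero han (n := n)).mp
      (by rw [← ordAt_def]; exact hn.symm)
    rw [PowerSeries.order_eq_nat]
    refine ⟨?_, fun i hi => ?_⟩
    · rw [coeff_taylorAt, Ne, taylorCoeff_eq_zero_iff]
      exact key.2
    · rw [coeff_taylorAt, taylorCoeff_eq_zero_iff]
      exact key.1 i hi

theorem taylorAt_injective (τ : ℍ) : Function.Injective (taylorAt τ) := by
  rw [injective_iff_map_eq_zero]
  intro f hf
  by_contra h0
  have h1 := order_taylorAt τ f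
  rw [hf, PowerSeries.order_zero] at h1
  exact ordAt_ne_top f.2 (fun h => h0 (Subtype.ext h)) τ h1.symm

end Fermat.Agent.S24.H624

end
-- ===== PACK-END S24/H624/Taylor.lean

-- ===== PACK-BEGIN S28/H685/QDict.lean
section


/-!
# S28 helper (helper685): dictionary between convergent `q`-series and functions on `ℍ`

`HasQExp h f A` : the function `f : ℍ → ℂ` is, at every point `τ`, the sum of the power
series `A` evaluated at `q = exp (2 π i τ / h)`.

Closure under ring operations, uniqueness of the coefficients, holomorphy, boundedness at `i∞`,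
and closure under inverses.
-/

set_option autoImplicit false

namespace Fermat.Agent.S28.H685

open UpperHalfPlane Function Complex Filter
open scoped Topology Manifold

noncomputable section

local notation "𝕢" => Periodic.qParam

/-- `f` is the sum of the power series `A` in the parameter `q = exp (2 π i τ / h)`. -/
def HasQExp (h : ℝ) (f : ℍ → ℂ) (A : PowerSeries ℂ) : Prop :=
  ∀ τ : ℍ, HasSum (fun n : ℕ => PowerSeries.coeff n A * 𝕢 h τ ^ n) (f τ)

namespace HasQExp

variable {h : ℝ} {f g : ℍ → ℂ} {A B : PowerSeries ℂ}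

theorem congr_fun (hf : HasQExp h f A) (hfg : ∀ τ, f τ = g τ) : HasQExp h g A :=
  fun τ => hfg τ ▸ hf τ

theorem zero : HasQExp h (fun _ => 0) 0 := fun τ => by
  simp [hasSum_zero]

theorem add (hf : HasQExp h f A) (hg : HasQExp h g B) :
    HasQExp h (fun τ => f τ + g τ) (A + B) := fun τ => by
  simpa [add_mul] using (hf τ).add (hg τ)

theorem neg (hf : HasQExp h f A) : HasQExp h (fun τ => -f τ) (-A) := fun τ => by
  simpa using (hf τ).neg

theorem sub (hf : HasQExp h f A) (hg : HasQExp h g B) :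
    HasQExp h (fun τ => f τ - g τ) (A - B) := fun τ => by
  simpa [sub_mul] using (hf τ).sub (hg τ)

theorem const_mul (c : ℂ) (hf : HasQExp h f A) :
    HasQExp h (fun τ => c * f τ) (PowerSeries.C c * A) := fun τ => by
  simpa [mul_assoc] using (hf τ).mul_left c

theorem const (c : ℂ) : HasQExp h (fun _ => c) (PowerSeries.C c) := fun τ => by
  have h0 : ∀ n : ℕ, n ≠ 0 → PowerSeries.coeff n (PowerSeries.C c) * 𝕢 h τ ^ n = 0 := by
    intro n hn
    simp [PowerSeries.coeff_C, hn]
  have := hasSum_single (f := fun n : ℕ => PowerSeries.coeff n (PowerSeries.C c) * 𝕢 h τ ^ n) 0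
    (fun n hn => h0 n hn)
  simpa using this

theorem one : HasQExp h (fun _ => 1) 1 := by
  simpa using const (h := h) 1

theorem X : HasQExp h (fun τ => 𝕢 h τ) PowerSeries.X := fun τ => by
  have h0 : ∀ n : ℕ, n ≠ 1 → PowerSeries.coeff n (PowerSeries.X : PowerSeries ℂ) * 𝕢 h τ ^ n = 0 := by
    intro n hn
    simp [PowerSeries.coeff_X, hn]
  have := hasSum_single (f := fun n : ℕ => PowerSeries.coeff n (PowerSeries.X : PowerSeries ℂ)
    * 𝕢 h τ ^ n) 1 (fun n hn => h0 n hn)
  simpa using this

theorem summable_norm (hf : HasQExp h f A) (τ : ℍ) :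
    Summable (fun n : ℕ => ‖PowerSeries.coeff n A * 𝕢 h τ ^ n‖) :=
  (hf τ).summable.norm

theorem mul (hf : HasQExp h f A) (hg : HasQExp h g B) :
    HasQExp h (fun τ => f τ * g τ) (A * B) := fun τ => by
  have h1 := hf.summable_norm τ
  have h2 := hg.summable_norm τ
  have hs := summable_norm_sum_mul_antidiagonal_of_summable_norm h1 h2
  have ht := tsum_mul_tsum_eq_tsum_sum_antidiagonal_of_summable_norm h1 h2
  rw [(hf τ).tsum_eq, (hg τ).tsum_eq] at ht
  have hterm : ∀ n : ℕ, PowerSeries.coeff n (A * B) * 𝕢 h τ ^ n =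
      ∑ kl ∈ Finset.HasAntidiagonal.antidiagonal n, (PowerSeries.coeff kl.1 A * 𝕢 h τ ^ kl.1) *
        (PowerSeries.coeff kl.2 B * 𝕢 h τ ^ kl.2) := by
    intro n
    rw [PowerSeries.coeff_mul, Finset.sum_mul]
    refine Finset.sum_congr rfl fun kl hkl => ?_
    have : kl.1 + kl.2 = n := Finset.HasAntidiagonal.mem_antidiagonal.mp hkl
    rw [← this, pow_add]
    ring
  simp_rw [hterm]
  rw [ht]
  exact hs.of_norm.hasSum

theorem pow (hf : HasQExp h f A) (n : ℕ) : HasQExp h (fun τ => f τ ^ n) (A ^ n) := by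
  induction n with
  | zero => simpa using one (h := h)
  | succ n ih => simpa [pow_succ] using ih.mul hf

theorem finset_sum {ι : Type*} (s : Finset ι) (F : ι → ℍ → ℂ) (P : ι → PowerSeries ℂ)
    (hF : ∀ i ∈ s, HasQExp h (F i) (P i)) :
    HasQExp h (fun τ => ∑ i ∈ s, F i τ) (∑ i ∈ s, P i) := by
  classical
  induction s using Finset.induction_on with
  | empty => simpa using zero (h := h)
  | insert a s ha ih =>
    simp only [Finset.sum_insert ha]
    exact (hF a (Finset.mem_insert_self a s)).add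
      (ih fun i hi => hF i (Finset.mem_insert_of_mem hi))

theorem finset_prod {ι : Type*} (s : Finset ι) (F : ι → ℍ → ℂ) (P : ι → PowerSeries ℂ)
    (hF : ∀ i ∈ s, HasQExp h (F i) (P i)) :
    HasQExp h (fun τ => ∏ i ∈ s, F i τ) (∏ i ∈ s, P i) := by
  classical
  induction s using Finset.induction_on with
  | empty => simpa using one (h := h)
  | insert a s ha ih =>
    simp only [Finset.prod_insert ha]
    exact (hF a (Finset.mem_insert_self a s)).mul
      (ih fun i hi => hF i (Finset.mem_insert_of_mem hi))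

end HasQExp

/-! ### Analytic consequences -/

/-- The formal multilinear series attached to a power series. -/
def pser (A : PowerSeries ℂ) : FormalMultilinearSeries ℂ ℂ ℂ :=
  .ofScalars ℂ fun n => PowerSeries.coeff n A

/-- The sum of the power series `A`, as a function on `ℂ`. -/
def psum (A : PowerSeries ℂ) : ℂ → ℂ := (pser A).sum

theorem pser_apply (A : PowerSeries ℂ) (n : ℕ) (q : ℂ) :
    (pser A n fun _ => q) = PowerSeries.coeff n A * q ^ n := by
  simp [pser, mul_comm]

theorem pser_norm (A : PowerSeries ℂ) (n : ℕ) : ‖pser A n‖ = ‖PowerSeries.coeff n A‖ := by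
  simp [pser]

theorem pser_coeff (A : PowerSeries ℂ) (n : ℕ) : (pser A).coeff n = PowerSeries.coeff n A := by
  simp [pser, FormalMultilinearSeries.coeff_ofScalars]

theorem pser_injective : Function.Injective pser := by
  intro A B hAB
  ext n
  rw [← pser_coeff A, ← pser_coeff B, hAB]

/-- Every point of the punctured unit disc is `𝕢 h τ` for some `τ`. -/
theorem exists_qParam_eq {h : ℝ} (hh : 0 < h) {q : ℂ} (hq : ‖q‖ < 1) (hq0 : q ≠ 0) :
    ∃ τ : ℍ, 𝕢 h τ = q :=
  ⟨⟨Periodic.invQParam h q, Periodic.im_invQParam_pos_of_norm_lt_one hh hq hq0⟩,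
    Periodic.qParam_right_inv hh.ne' hq0⟩

/-- Summability of `A` at every point of the open unit disc implies radius at least one. -/
theorem one_le_radius_of_summable (A : PowerSeries ℂ)
    (hA : ∀ q : ℂ, ‖q‖ < 1 → Summable fun n : ℕ => PowerSeries.coeff n A * q ^ n) :
    1 ≤ (pser A).radius := by
  refine le_of_forall_lt_imp_le_of_dense fun r hr => ?_
  lift r to NNReal using hr.ne_top
  apply FormalMultilinearSeries.le_radius_of_summable
  have h1 : ‖((r : ℝ) : ℂ)‖ < 1 := by
    simpa using hr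
  have h2 := (hA (r : ℝ) h1).norm
  refine h2.congr fun n => ?_
  rw [pser_norm, norm_mul, norm_pow, Complex.norm_real, Real.norm_of_nonneg r.coe_nonneg]

theorem eball_zero_one : Metric.eball (0 : ℂ) 1 = Metric.ball 0 1 := by
  rw [← ENNReal.coe_one, Metric.eball_coe, NNReal.coe_one]

theorem hasFPowerSeriesOnBall_psum (A : PowerSeries ℂ) (hA : 1 ≤ (pser A).radius) :
    HasFPowerSeriesOnBall (psum A) (pser A) 0 1 :=
  ((pser A).hasFPowerSeriesOnBall (lt_of_lt_of_le one_pos hA)).mono one_pos hA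

theorem hasSum_psum (A : PowerSeries ℂ) (hA : 1 ≤ (pser A).radius) {q : ℂ} (hq : ‖q‖ < 1) :
    HasSum (fun n : ℕ => PowerSeries.coeff n A * q ^ n) (psum A q) := by
  have := (hasFPowerSeriesOnBall_psum A hA).hasSum (y := q)
    (by rw [eball_zero_one]; simpa using hq)
  simpa only [pser_apply, zero_add] using this

theorem psum_zero_eq (A : PowerSeries ℂ) (hA : 1 ≤ (pser A).radius) :
    psum A 0 = PowerSeries.coeff 0 A := by
  have h1 := hasSum_psum A hA (q := 0) (by simp)
  have h2 : HasSum (fun n : ℕ => PowerSeries.coeff n A * (0 : ℂ) ^ n) (PowerSeries.coeff 0 A) := by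
    have := hasSum_single (f := fun n : ℕ => PowerSeries.coeff n A * (0 : ℂ) ^ n) 0
      (fun n hn => by simp [hn])
    simpa using this
  exact h1.unique h2

theorem differentiableOn_psum (A : PowerSeries ℂ) (hA : 1 ≤ (pser A).radius) :
    DifferentiableOn ℂ (psum A) (Metric.ball 0 1) := by
  have := (hasFPowerSeriesOnBall_psum A hA).differentiableOn
  rwa [eball_zero_one] at this

/-- If two power series of radius at least one have sums that agree on the punctured disc,
they are equal. -/
theorem eq_of_psum_eq (A B : PowerSeries ℂ) (hA : 1 ≤ (pser A).radius)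
    (hB : 1 ≤ (pser B).radius)
    (hAB : ∀ q : ℂ, ‖q‖ < 1 → q ≠ 0 → psum A q = psum B q) : A = B := by
  have hAa := (hasFPowerSeriesOnBall_psum A hA).hasFPowerSeriesAt
  have hBa := (hasFPowerSeriesOnBall_psum B hB).hasFPowerSeriesAt
  have hne : psum A =ᶠ[𝓝[≠] (0 : ℂ)] psum B := by
    have hball : Metric.ball (0 : ℂ) 1 ∈ 𝓝[≠] (0 : ℂ) :=
      mem_nhdsWithin_of_mem_nhds (Metric.ball_mem_nhds 0 one_pos)
    filter_upwards [hball, self_mem_nhdsWithin] with q hq hq0
    exact hAB q (by simpa using hq) hq0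
  have hnhds : psum A =ᶠ[𝓝 (0 : ℂ)] psum B :=
    (hAa.continuousAt.eventuallyEq_nhds_iff_eventuallyEq_nhdsNE hBa.continuousAt).mp hne
  have hBa' : HasFPowerSeriesAt (psum A) (pser B) 0 := hBa.congr hnhds.symm
  exact pser_injective (hAa.eq_formalMultilinearSeries hBa')

namespace HasQExp

variable {h : ℝ} {f g : ℍ → ℂ} {A B : PowerSeries ℂ}

theorem summable_of_norm_lt (hh : 0 < h) (hf : HasQExp h f A) {q : ℂ} (hq : ‖q‖ < 1) :
    Summable fun n : ℕ => PowerSeries.coeff n A * q ^ n := by
  rcases eq_or_ne q 0 with rfl | hq0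
  · exact (hasSum_single (f := fun n : ℕ => PowerSeries.coeff n A * (0 : ℂ) ^ n) 0
      (fun n hn => by simp [hn])).summable
  · obtain ⟨τ, rfl⟩ := exists_qParam_eq hh hq hq0
    exact (hf τ).summable

theorem one_le_radius (hh : 0 < h) (hf : HasQExp h f A) : 1 ≤ (pser A).radius :=
  one_le_radius_of_summable A fun _ hq => hf.summable_of_norm_lt hh hq

theorem psum_qParam (hh : 0 < h) (hf : HasQExp h f A) (τ : ℍ) : psum A (𝕢 h τ) = f τ :=
  (hasSum_psum A (hf.one_le_radius hh) (Periodic.norm_qParam_lt_one hh τ.im_pos)).unique (hf τ)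

/-- Uniqueness of the coefficients. -/
theorem unique (hh : 0 < h) (hf : HasQExp h f A) (hg : HasQExp h f B) : A = B := by
  refine eq_of_psum_eq A B (hf.one_le_radius hh) (hg.one_le_radius hh) fun q hq hq0 => ?_
  obtain ⟨τ, rfl⟩ := exists_qParam_eq hh hq hq0
  rw [hf.psum_qParam hh, hg.psum_qParam hh]

theorem eq_zero (hh : 0 < h) (hf : HasQExp h (fun _ => 0) A) : A = 0 :=
  hf.unique hh zero

/-- A function given by a convergent `q`-series is holomorphic. -/
theorem mdifferentiable (hh : 0 < h) (hf : HasQExp h f A) : MDiff f := by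
  rw [UpperHalfPlane.mdifferentiable_iff]
  have hd : DifferentiableOn ℂ (fun z : ℂ => psum A (𝕢 h z)) {z | 0 < z.im} := by
    intro z hz
    have h1 : DifferentiableAt ℂ (psum A) (𝕢 h z) :=
      (differentiableOn_psum A (hf.one_le_radius hh)).differentiableAt
        (Metric.isOpen_ball.mem_nhds (by simpa using Periodic.norm_qParam_lt_one hh hz))
    have h2 : DifferentiableAt ℂ (𝕢 h) z := (Periodic.differentiable_qParam).differentiableAt
    exact (h1.comp z h2).differentiableWithinAt
  refine hd.congr fun z hz => ?_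
  simp only [Function.comp_apply]
  rw [ofComplex_apply_of_im_pos hz, ← hf.psum_qParam hh]

/-- A function given by a convergent `q`-series is bounded at `i∞`. -/
theorem isBoundedAtImInfty (hh : 0 < h) (hf : HasQExp h f A) : IsBoundedAtImInfty f :=
  isBoundedAtImInfty_of_hasSum_qExpansion (c := fun n => PowerSeries.coeff n A) hh
    (fun τ => by simpa [smul_eq_mul] using hf τ)

/-- The value at a translate by the period. -/
theorem vadd_period (hh : 0 < h) (hf : HasQExp h f A) (τ : ℍ) (τ' : ℍ) (hτ : (τ' : ℂ) = τ + h) :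
    f τ' = f τ := by
  have hq : 𝕢 h τ' = 𝕢 h τ := by
    rw [hτ]
    simp only [Periodic.qParam]
    rw [show 2 * (Real.pi : ℂ) * Complex.I * ((τ : ℂ) + h) / h =
      2 * Real.pi * Complex.I * τ / h + 2 * Real.pi * Complex.I by
        have : (h : ℂ) ≠ 0 := by exact_mod_cast hh.ne'
        field_simp]
    exact Complex.exp_periodic _
  have := hf τ'
  rw [hq] at this
  exact this.unique (hf τ)

/-- Closure under inverses. -/
theorem inv (hh : 0 < h) (hf : HasQExp h f A) (hf0 : ∀ τ, f τ ≠ 0)
    (hA0 : PowerSeries.coeff 0 A ≠ 0) : HasQExp h (fun τ => (f τ)⁻¹) A⁻¹ := by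
  have hA := hf.one_le_radius hh
  have hne : ∀ q ∈ Metric.ball (0 : ℂ) 1, psum A q ≠ 0 := by
    intro q hq
    have hq' : ‖q‖ < 1 := by simpa using hq
    rcases eq_or_ne q 0 with rfl | hq0
    · rwa [psum_zero_eq A hA]
    · obtain ⟨τ, rfl⟩ := exists_qParam_eq hh hq' hq0
      rw [hf.psum_qParam hh]
      exact hf0 τ
  have hdiff : DifferentiableOn ℂ (fun q => (psum A q)⁻¹) (Metric.ball 0 1) :=
    (differentiableOn_psum A hA).inv hne
  -- Taylor series of the inverse
  let B : PowerSeries ℂ := PowerSeries.mk fun n =>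
    (n.factorial : ℂ)⁻¹ * iteratedDeriv n (fun q => (psum A q)⁻¹) 0
  have hB : HasQExp h (fun τ => (f τ)⁻¹) B := by
    intro τ
    have hq : 𝕢 h τ ∈ Metric.ball (0 : ℂ) 1 := by
      simpa using Periodic.norm_qParam_lt_one hh τ.im_pos
    have := Complex.hasSum_taylorSeries_on_ball hdiff hq
    simp only [sub_zero, smul_eq_mul] at this
    rw [hf.psum_qParam hh] at this
    have hfun : (fun n : ℕ => PowerSeries.coeff n B * 𝕢 h τ ^ n) =
        fun n : ℕ => ((n.factorial : ℂ))⁻¹ *
          (𝕢 h τ ^ n * iteratedDeriv n (fun q => (psum A q)⁻¹) 0) := by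
      funext n
      simp only [B, PowerSeries.coeff_mk]
      ring
    rw [hfun]
    exact this
  have h1 : HasQExp h (fun _ => 1) (A * B) :=
    (hf.mul hB).congr_fun fun τ => mul_inv_cancel₀ (hf0 τ)
  have h2 : A * B = 1 := h1.unique hh one
  have hA0' : PowerSeries.constantCoeff A ≠ 0 := by
    rwa [← PowerSeries.coeff_zero_eq_constantCoeff]
  have h3 : B = A⁻¹ := by
    rw [PowerSeries.eq_inv_iff_mul_eq_one hA0', mul_comm]
    exact h2
  rw [← h3]
  exact hB

end HasQExp

end

end Fermat.Agent.S28.H685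

end
-- ===== PACK-END S28/H685/QDict.lean

-- ===== PACK-BEGIN S28/H685/QLaurent.lean
section



/-!
# S28 helper (helper685): convergent Laurent `q`-series

`HasQLaurent h f φ` : the function `f : ℍ → ℂ` is, at every point `τ`, the sum of the Laurent
series `φ` evaluated at `q = exp (2 π i τ / h)`.
-/

set_option autoImplicit false

namespace Fermat.Agent.S28.H685

open UpperHalfPlane Function Complex Filter HahnSeries
open scoped Topology Manifold

noncomputable section

local notation "𝕢" => Periodic.qParam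

/-- `f` is the sum of the Laurent series `φ` in the parameter `q = exp (2 π i τ / h)`. -/
def HasQLaurent (h : ℝ) (f : ℍ → ℂ) (φ : LaurentSeries ℂ) : Prop :=
  ∀ τ : ℍ, HasSum (fun n : ℤ => φ.coeff n * 𝕢 h τ ^ n) (f τ)

theorem ofPS_coeff_of_neg (A : PowerSeries ℂ) {k : ℤ} (hk : k < 0) :
    (HahnSeries.ofPowerSeries ℤ ℂ A).coeff k = 0 := by
  rw [HahnSeries.ofPowerSeries_apply]
  refine HahnSeries.embDomain_of_notMem_range ?_
  rintro ⟨m, rfl⟩
  exact absurd hk (not_lt.mpr (Int.natCast_nonneg m))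

theorem coeff_single_mul_ofPS (k : ℤ) (A : PowerSeries ℂ) (m : ℕ) :
    (HahnSeries.single k (1 : ℂ) * HahnSeries.ofPowerSeries ℤ ℂ A).coeff (m + k) =
      PowerSeries.coeff m A := by
  rw [HahnSeries.coeff_single_mul, one_mul, add_sub_cancel_right,
    HahnSeries.ofPowerSeries_apply_coeff]

theorem coeff_single_mul_ofPS_of_lt (k : ℤ) (A : PowerSeries ℂ) {n : ℤ} (hn : n < k) :
    (HahnSeries.single k (1 : ℂ) * HahnSeries.ofPowerSeries ℤ ℂ A).coeff n = 0 := by
  rw [HahnSeries.coeff_single_mul, one_mul]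
  exact ofPS_coeff_of_neg A (by omega)

/-- The basic shift lemma relating Laurent expansions and power series expansions. -/
theorem hasQLaurent_single_mul_iff (h : ℝ) (f : ℍ → ℂ) (k : ℤ) (A : PowerSeries ℂ) :
    HasQLaurent h f (HahnSeries.single k (1 : ℂ) * HahnSeries.ofPowerSeries ℤ ℂ A) ↔
      HasQExp h (fun τ => f τ * 𝕢 h τ ^ (-k)) A := by
  have hg : Function.Injective (fun m : ℕ => (m : ℤ) + k) := by
    intro a b hab
    simpa using hab
  refine forall_congr' fun τ => ?_
  have hq : 𝕢 h τ ≠ 0 := Periodic.qParam_ne_zero _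
  set φ := HahnSeries.single k (1 : ℂ) * HahnSeries.ofPowerSeries ℤ ℂ A with hφ
  have h0 : ∀ n ∉ Set.range (fun m : ℕ => (m : ℤ) + k), φ.coeff n * 𝕢 h τ ^ n = 0 := by
    intro n hn
    have hlt : n < k := by
      by_contra hge
      rw [not_lt] at hge
      exact hn ⟨(n - k).toNat, by simp; omega⟩
    rw [hφ, coeff_single_mul_ofPS_of_lt k A hlt, zero_mul]
  rw [← hg.hasSum_iff h0]
  have hfun : ((fun n : ℤ => φ.coeff n * 𝕢 h τ ^ n) ∘ fun m : ℕ => (m : ℤ) + k) =
      fun m : ℕ => (PowerSeries.coeff m A * 𝕢 h τ ^ m) * 𝕢 h τ ^ k := by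
    funext m
    simp only [Function.comp_apply, hφ, coeff_single_mul_ofPS]
    rw [zpow_add₀ hq, zpow_natCast]
    ring
  rw [hfun]
  have hk : 𝕢 h τ ^ k ≠ 0 := zpow_ne_zero _ hq
  have hval : f τ = (f τ * 𝕢 h τ ^ (-k)) * 𝕢 h τ ^ k := by
    rw [mul_assoc, ← zpow_add₀ hq]
    simp
  conv_lhs => rw [hval]
  exact hasSum_mul_right_iff hk

theorem algebraMap_eq_C (c : ℂ) :
    algebraMap ℂ (LaurentSeries ℂ) c = HahnSeries.C c := by
  have h1 : algebraMap ℂ (PowerSeries ℂ) c = PowerSeries.C c := by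
    simp
  rw [HahnSeries.algebraMap_apply', h1, HahnSeries.ofPowerSeries_C]

/-- Every Laurent series is a monomial times a power series. -/
theorem laurent_decomp (φ : LaurentSeries ℂ) :
    φ = HahnSeries.single φ.order (1 : ℂ) * HahnSeries.ofPowerSeries ℤ ℂ φ.powerSeriesPart :=
  (LaurentSeries.single_order_mul_powerSeriesPart φ).symm

namespace HasQLaurent

variable {h : ℝ} {f g : ℍ → ℂ} {φ ψ : LaurentSeries ℂ}

theorem congr_fun (hf : HasQLaurent h f φ) (hfg : ∀ τ, f τ = g τ) : HasQLaurent h g φ :=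
  fun τ => hfg τ ▸ hf τ

theorem congr_series (hf : HasQLaurent h f φ) (hφ : φ = ψ) : HasQLaurent h f ψ := hφ ▸ hf

theorem zero : HasQLaurent h (fun _ => 0) 0 := fun τ => by
  simp [hasSum_zero]

theorem add (hf : HasQLaurent h f φ) (hg : HasQLaurent h g ψ) :
    HasQLaurent h (fun τ => f τ + g τ) (φ + ψ) := fun τ => by
  simpa [add_mul] using (hf τ).add (hg τ)

theorem neg (hf : HasQLaurent h f φ) : HasQLaurent h (fun τ => -f τ) (-φ) := fun τ => by
  simpa using (hf τ).neg

theorem sub (hf : HasQLaurent h f φ) (hg : HasQLaurent h g ψ) :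
    HasQLaurent h (fun τ => f τ - g τ) (φ - ψ) := fun τ => by
  simpa [sub_mul] using (hf τ).sub (hg τ)

theorem const_mul (c : ℂ) (hf : HasQLaurent h f φ) :
    HasQLaurent h (fun τ => c * f τ) (HahnSeries.C c * φ) := fun τ => by
  simpa [mul_assoc] using (hf τ).mul_left c

/-- Power series expansions are Laurent expansions. -/
theorem of_hasQExp {A : PowerSeries ℂ} (hf : HasQExp h f A) :
    HasQLaurent h f (HahnSeries.ofPowerSeries ℤ ℂ A) := by
  have := (hasQLaurent_single_mul_iff h f 0 A).mpr (by simpa using hf)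
  simpa using this

theorem hasQExp_of_ofPowerSeries {A : PowerSeries ℂ}
    (hf : HasQLaurent h f (HahnSeries.ofPowerSeries ℤ ℂ A)) : HasQExp h f A := by
  have h1 : HasQLaurent h f (HahnSeries.single 0 (1 : ℂ) * HahnSeries.ofPowerSeries ℤ ℂ A) := by
    simpa using hf
  simpa using (hasQLaurent_single_mul_iff h f 0 A).mp h1

theorem const (c : ℂ) : HasQLaurent h (fun _ => c) (HahnSeries.C c) := by
  have := of_hasQExp (HasQExp.const (h := h) c)
  simpa using this

theorem one : HasQLaurent h (fun _ => 1) 1 := by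
  have := of_hasQExp (HasQExp.one (h := h))
  simpa using this

/-- The monomial `q ^ k`. -/
theorem single (k : ℤ) : HasQLaurent h (fun τ => 𝕢 h τ ^ k) (HahnSeries.single k (1 : ℂ)) := by
  have h1 : HasQExp h (fun τ => 𝕢 h τ ^ k * 𝕢 h τ ^ (-k)) 1 := by
    refine HasQExp.one.congr_fun fun τ => ?_
    rw [← zpow_add₀ (Periodic.qParam_ne_zero _)]
    simp
  have := (hasQLaurent_single_mul_iff h _ k 1).mpr h1
  simpa using this

/-- The power series part of a Laurent expansion. -/
theorem hasQExp_powerSeriesPart (hf : HasQLaurent h f φ) :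
    HasQExp h (fun τ => f τ * 𝕢 h τ ^ (-φ.order)) φ.powerSeriesPart :=
  (hasQLaurent_single_mul_iff h f φ.order φ.powerSeriesPart).mp
    (hf.congr_series (laurent_decomp φ))

theorem mul (hf : HasQLaurent h f φ) (hg : HasQLaurent h g ψ) :
    HasQLaurent h (fun τ => f τ * g τ) (φ * ψ) := by
  have h1 := hf.hasQExp_powerSeriesPart
  have h2 := hg.hasQExp_powerSeriesPart
  have h3 := h1.mul h2
  have h4 : HasQExp h (fun τ => (f τ * g τ) * 𝕢 h τ ^ (-(φ.order + ψ.order)))
      (φ.powerSeriesPart * ψ.powerSeriesPart) := by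
    refine h3.congr_fun fun τ => ?_
    rw [neg_add, zpow_add₀ (Periodic.qParam_ne_zero _)]
    ring
  have h5 := (hasQLaurent_single_mul_iff h _ (φ.order + ψ.order) _).mpr h4
  refine h5.congr_series ?_
  conv_rhs => rw [laurent_decomp φ, laurent_decomp ψ]
  have hs : HahnSeries.single (φ.order + ψ.order) (1 : ℂ) =
      HahnSeries.single φ.order (1 : ℂ) * HahnSeries.single ψ.order (1 : ℂ) := by
    rw [HahnSeries.single_mul_single, one_mul]
  rw [map_mul, hs]
  exact mul_mul_mul_comm _ _ _ _

theorem pow (hf : HasQLaurent h f φ) (n : ℕ) : HasQLaurent h (fun τ => f τ ^ n) (φ ^ n) := by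
  induction n with
  | zero => simpa using one (h := h)
  | succ n ih => simpa [pow_succ] using ih.mul hf

theorem finset_sum {ι : Type*} (s : Finset ι) (F : ι → ℍ → ℂ) (P : ι → LaurentSeries ℂ)
    (hF : ∀ i ∈ s, HasQLaurent h (F i) (P i)) :
    HasQLaurent h (fun τ => ∑ i ∈ s, F i τ) (∑ i ∈ s, P i) := by
  classical
  induction s using Finset.induction_on with
  | empty => simpa using zero (h := h)
  | insert a s ha ih =>
    simp only [Finset.sum_insert ha]
    exact (hF a (Finset.mem_insert_self a s)).add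
      (ih fun i hi => hF i (Finset.mem_insert_of_mem hi))

theorem finset_prod {ι : Type*} (s : Finset ι) (F : ι → ℍ → ℂ) (P : ι → LaurentSeries ℂ)
    (hF : ∀ i ∈ s, HasQLaurent h (F i) (P i)) :
    HasQLaurent h (fun τ => ∏ i ∈ s, F i τ) (∏ i ∈ s, P i) := by
  classical
  induction s using Finset.induction_on with
  | empty => simpa using one (h := h)
  | insert a s ha ih =>
    simp only [Finset.prod_insert ha]
    exact (hF a (Finset.mem_insert_self a s)).mul
      (ih fun i hi => hF i (Finset.mem_insert_of_mem hi))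

/-- Uniqueness of the Laurent coefficients. -/
theorem eq_zero (hh : 0 < h) (hf : HasQLaurent h (fun _ => 0) φ) : φ = 0 := by
  have h1 := hf.hasQExp_powerSeriesPart
  have h2 : φ.powerSeriesPart = 0 := by
    refine HasQExp.eq_zero hh (h1.congr_fun fun τ => ?_)
    simp
  exact (LaurentSeries.powerSeriesPart_eq_zero φ).mp h2

theorem unique (hh : 0 < h) (hf : HasQLaurent h f φ) (hg : HasQLaurent h f ψ) : φ = ψ := by
  have h1 : HasQLaurent h (fun _ => 0) (φ - ψ) :=
    (hf.sub hg).congr_fun fun τ => sub_self _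
  exact sub_eq_zero.mp (h1.eq_zero hh)

/-- If the function vanishes identically then so does the series; pointwise version. -/
theorem eq_of_forall_eq (hh : 0 < h) (hf : HasQLaurent h f φ) (hg : HasQLaurent h g ψ)
    (hfg : ∀ τ, f τ = g τ) : φ = ψ :=
  (hf.congr_fun hfg).unique hh hg

theorem mdifferentiable (hh : 0 < h) (hf : HasQLaurent h f φ) : MDiff f := by
  have h1 := (hf.hasQExp_powerSeriesPart).mdifferentiable hh
  have h2 : MDiff (fun τ : ℍ => 𝕢 h τ ^ φ.order) := by
    rw [UpperHalfPlane.mdifferentiable_iff]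
    have hd : DifferentiableOn ℂ (fun z : ℂ => 𝕢 h z ^ φ.order) {z | 0 < z.im} := by
      intro z _
      exact ((Periodic.differentiable_qParam (h := h)).differentiableAt.zpow
        (Or.inl (Periodic.qParam_ne_zero _))).differentiableWithinAt
    refine hd.congr fun z hz => ?_
    simp only [Function.comp_apply]
    rw [ofComplex_apply_of_im_pos hz]
  have h3 : f = fun τ => (f τ * 𝕢 h τ ^ (-φ.order)) * 𝕢 h τ ^ φ.order := by
    funext τ
    rw [mul_assoc, ← zpow_add₀ (Periodic.qParam_ne_zero _)]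
    simp
  rw [h3]
  exact h1.mul h2

theorem vadd_period (hh : 0 < h) (hf : HasQLaurent h f φ) (τ : ℍ) (τ' : ℍ)
    (hτ : (τ' : ℂ) = τ + h) : f τ' = f τ := by
  have h1 := (hf.hasQExp_powerSeriesPart).vadd_period hh τ τ' hτ
  have h2 := (HasQExp.X (h := h)).vadd_period hh τ τ' hτ
  beta_reduce at h1 h2
  rw [h2] at h1
  exact mul_right_cancel₀ (zpow_ne_zero _ (Periodic.qParam_ne_zero _)) h1

/-- Closure under inverses. -/
theorem inv (hh : 0 < h) (hf : HasQLaurent h f φ) (hf0 : ∀ τ, f τ ≠ 0) (hφ : φ ≠ 0) :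
    HasQLaurent h (fun τ => (f τ)⁻¹) φ⁻¹ := by
  have h1 := hf.hasQExp_powerSeriesPart
  have hA0 : PowerSeries.coeff 0 φ.powerSeriesPart ≠ 0 := by
    rw [LaurentSeries.powerSeriesPart_coeff]
    simpa using (HahnSeries.coeff_order_eq_zero (x := φ)).not.mpr hφ
  have h2 := h1.inv hh (fun τ => mul_ne_zero (hf0 τ)
    (zpow_ne_zero _ (Periodic.qParam_ne_zero _))) hA0
  have h3 : HasQExp h (fun τ => (f τ)⁻¹ * 𝕢 h τ ^ (-(-φ.order))) (φ.powerSeriesPart)⁻¹ := by
    refine h2.congr_fun fun τ => ?_
    rw [mul_inv, ← zpow_neg]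
  have h4 := (hasQLaurent_single_mul_iff h _ (-φ.order) _).mpr h3
  refine h4.congr_series ?_
  have hA0' : PowerSeries.constantCoeff φ.powerSeriesPart ≠ 0 := by
    rwa [← PowerSeries.coeff_zero_eq_constantCoeff]
  symm
  apply inv_eq_of_mul_eq_one_left
  have hs : HahnSeries.single (-φ.order) (1 : ℂ) * HahnSeries.single φ.order (1 : ℂ) = 1 := by
    rw [HahnSeries.single_mul_single, one_mul, neg_add_cancel]
    rfl
  calc HahnSeries.single (-φ.order) (1 : ℂ) * HahnSeries.ofPowerSeries ℤ ℂ (φ.powerSeriesPart)⁻¹ * φ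
      = HahnSeries.single (-φ.order) (1 : ℂ) * HahnSeries.ofPowerSeries ℤ ℂ (φ.powerSeriesPart)⁻¹ *
        (HahnSeries.single φ.order (1 : ℂ) * HahnSeries.ofPowerSeries ℤ ℂ φ.powerSeriesPart) := by
        rw [← laurent_decomp φ]
    _ = (HahnSeries.single (-φ.order) (1 : ℂ) * HahnSeries.single φ.order (1 : ℂ)) *
        HahnSeries.ofPowerSeries ℤ ℂ ((φ.powerSeriesPart)⁻¹ * φ.powerSeriesPart) := by
        rw [map_mul]
        exact mul_mul_mul_comm _ _ _ _
    _ = 1 := by
        rw [hs, PowerSeries.inv_mul_cancel _ hA0', map_one, one_mul]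

theorem div (hh : 0 < h) (hf : HasQLaurent h f φ) (hg : HasQLaurent h g ψ)
    (hg0 : ∀ τ, g τ ≠ 0) (hψ : ψ ≠ 0) :
    HasQLaurent h (fun τ => f τ / g τ) (φ / ψ) := by
  simpa [div_eq_mul_inv] using hf.mul (hg.inv hh hg0 hψ)

/-- Evaluation of polynomials. -/
theorem aeval (hf : HasQLaurent h f φ) (P : Polynomial ℂ) :
    HasQLaurent h (fun τ => P.eval (f τ)) (Polynomial.aeval φ P) := by
  induction P using Polynomial.induction_on' with
  | add p q hp hq =>
    simpa using hp.add hq
  | monomial n a =>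
    have := (hf.pow n).const_mul a
    refine (this.congr_fun fun τ => ?_).congr_series ?_
    · simp
    · rw [Polynomial.aeval_monomial, algebraMap_eq_C]

/-- Evaluation of multivariate polynomials. -/
theorem mvAeval {σ : Type*} (F : σ → ℍ → ℂ) (Φ : σ → LaurentSeries ℂ)
    (hF : ∀ i, HasQLaurent h (F i) (Φ i)) (P : MvPolynomial σ ℂ) :
    HasQLaurent h (fun τ => MvPolynomial.eval (fun i => F i τ) P) (MvPolynomial.aeval Φ P) := by
  induction P using MvPolynomial.induction_on with
  | C a =>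
    have := (one (h := h)).const_mul a
    refine (this.congr_fun fun τ => ?_).congr_series ?_
    · simp
    · rw [MvPolynomial.aeval_C, algebraMap_eq_C, mul_one]
  | add p q hp hq =>
    simpa using hp.add hq
  | mul_X p i hp =>
    simpa using hp.mul (hF i)

end HasQLaurent

end

end Fermat.Agent.S28.H685

end
-- ===== PACK-END S28/H685/QLaurent.lean

-- ===== PACK-BEGIN S24/Alg/Basic.lean
section



/-!
# S24 / ALG — small lemmas on `Place.ord` used by the global assembly (helper984)
-/

set_option autoImplicit false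

noncomputable section

open AlgebraicCurve KaehlerDifferential

namespace Fermat.Agent.S24

variable {K F : Type*} [Field K] [Field F] [Algebra K F]

theorem ord_algebraMap (v : Place K F) (c : K) : v.ord (algebraMap K F c) = 0 := by
  rcases eq_or_ne c 0 with rfl | hc
  · simp
  · have h1 : algebraMap K F c ∈ v.toValuationSubring := v.algebraMap_mem' c
    have h2 : algebraMap K F c⁻¹ ∈ v.toValuationSubring := v.algebraMap_mem' c⁻¹
    have hu : IsUnit (⟨algebraMap K F c, h1⟩ : v.toValuationSubring) := by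
      refine IsUnit.of_mul_eq_one (⟨algebraMap K F c⁻¹, h2⟩ : v.toValuationSubring) ?_
      apply Subtype.ext
      show algebraMap K F c * algebraMap K F c⁻¹ = 1
      rw [← map_mul, mul_inv_cancel₀ hc, map_one]
    have := v.ord_coe_unit hu.unit
    simpa using this

theorem ord_neg (v : Place K F) (x : F) : v.ord (-x) = v.ord x := by
  simp [Place.ord]

theorem le_ord_add (v : Place K F) {x y : F} {k : ℤ} (hx : x = 0 ∨ k ≤ v.ord x)
    (hy : y = 0 ∨ k ≤ v.ord y) : x + y = 0 ∨ k ≤ v.ord (x + y) := by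
  have hx' : v.adicValuation x ≤ WithZero.exp (-k) :=
    v.adicValuation_le_exp_iff.mpr (by simpa using hx)
  have hy' : v.adicValuation y ≤ WithZero.exp (-k) :=
    v.adicValuation_le_exp_iff.mpr (by simpa using hy)
  have := (Valuation.map_add v.adicValuation x y).trans (max_le hx' hy')
  simpa using v.adicValuation_le_exp_iff.mp this

theorem point_unique (v : Place K F) (j : F) {a b : K}
    (ha : 0 < v.ord (j - algebraMap K F a)) (hb : 0 < v.ord (j - algebraMap K F b)) :
    a = b := by
  by_contra hab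
  have hsub : (j - algebraMap K F a) + -(j - algebraMap K F b) = algebraMap K F (b - a) := by
    rw [map_sub]; ring
  have h := le_ord_add v (k := 1) (x := j - algebraMap K F a) (y := -(j - algebraMap K F b))
    (Or.inr ha) (Or.inr (by rw [ord_neg]; exact hb))
  rw [hsub, ord_algebraMap] at h
  rcases h with h | h
  · have : b - a = 0 := by
      have hinj := (algebraMap K F).injective
      exact hinj (by rw [h, map_zero])
    exact hab (sub_eq_zero.mp this).symm
  · omega

theorem not_pos_ord_sub_of_pos_ord_inv (v : Place K F) (j : F) (a : K)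
    (hinf : 0 < v.ord j⁻¹) : ¬ 0 < v.ord (j - algebraMap K F a) := by
  intro ha
  have hj : v.ord j < 0 := by
    have := v.ord_inv j
    omega
  have h := le_ord_add v (k := 0) (x := j - algebraMap K F a) (y := algebraMap K F a)
    (Or.inr ha.le) (Or.inr (by rw [ord_algebraMap]))
  rw [sub_add_cancel] at h
  rcases h with h | h
  · rw [h] at hj; simp at hj
  · omega

section Adjoin

variable (K) in
theorem adjoin_sub_algebraMap (j : F) (a : K) :
    IntermediateField.adjoin K {j - algebraMap K F a} = IntermediateField.adjoin K {j} := by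
  apply le_antisymm
  · rw [IntermediateField.adjoin_le_iff, Set.singleton_subset_iff]
    exact sub_mem (IntermediateField.mem_adjoin_simple_self K j)
      (IntermediateField.algebraMap_mem _ a)
  · rw [IntermediateField.adjoin_le_iff, Set.singleton_subset_iff]
    have h : (j - algebraMap K F a) + algebraMap K F a
        ∈ IntermediateField.adjoin K {j - algebraMap K F a} :=
      add_mem (IntermediateField.mem_adjoin_simple_self K _)
        (IntermediateField.algebraMap_mem _ a)
    simpa using h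

variable (K) in
theorem adjoin_inv (j : F) :
    IntermediateField.adjoin K {j⁻¹} = IntermediateField.adjoin K {j} := by
  apply le_antisymm
  · rw [IntermediateField.adjoin_le_iff, Set.singleton_subset_iff]
    exact inv_mem (IntermediateField.mem_adjoin_simple_self K j)
  · rw [IntermediateField.adjoin_le_iff, Set.singleton_subset_iff]
    have h : (j⁻¹)⁻¹ ∈ IntermediateField.adjoin K {j⁻¹} :=
      inv_mem (IntermediateField.mem_adjoin_simple_self K _)
    simpa using h

theorem finiteDimensional_and_finrank_of_eq {E₁ E₂ : IntermediateField K F} (h : E₁ = E₂)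
    [FiniteDimensional ↥E₂ F] :
    FiniteDimensional ↥E₁ F ∧ Module.finrank ↥E₁ F = Module.finrank ↥E₂ F := by
  subst h
  exact ⟨inferInstance, rfl⟩

end Adjoin

end Fermat.Agent.S24

end
end
-- ===== PACK-END S24/Alg/Basic.lean

-- ===== PACK-BEGIN S24/Alg/H240Diff.lean
section


/-!
# S24 / ALG — the formal derivative on Laurent series is a derivation, and
`Ω[F⁄K] ≠ 0` from one local embedding

* `lsD` : the derivative `d/dz` on `LaurentSeries C`, with the Leibniz rule `lsD_mul`;
* `lsD_ne_zero_of_order_ne_zero` : in characteristic zero, `d/dz f ≠ 0` if `ord f ≠ 0`;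
* `embDerivation` : for a ring hom `σ : F →+* LaurentSeries C` sending `K` to constants,
  `f ↦ d/dz (σ f)` as a `K`-derivation of `F`;
* `exists_differential_ne_zero_of_nonempty` : the interface statement
  `exists_differential_ne_zero` of `Alg.lean`, with the (necessary) extra hypothesis
  `[Nonempty X]`.
-/

set_option autoImplicit false

noncomputable section

open HahnSeries KaehlerDifferential

namespace Fermat.Agent.S24.H240

section Laurent

variable {C : Type*} [CommRing C]

/-- The formal derivative `d/dz` on Laurent series. -/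
def lsD (f : LaurentSeries C) : LaurentSeries C := LaurentSeries.derivative C f

theorem lsD_coeff (f : LaurentSeries C) (n : ℤ) :
    (lsD f).coeff n = (n + 1) • f.coeff (n + 1) := by
  simp [lsD, LaurentSeries.hasseDeriv_coeff]

theorem lsD_add (f g : LaurentSeries C) : lsD (f + g) = lsD f + lsD g :=
  map_add (LaurentSeries.derivative C) f g

theorem lsD_zero : lsD (0 : LaurentSeries C) = 0 :=
  map_zero (LaurentSeries.derivative C)

theorem lsD_C (c : C) : lsD (HahnSeries.C c : LaurentSeries C) = 0 := by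
  ext n
  rw [lsD_coeff, HahnSeries.coeff_zero]
  by_cases h : n + 1 = 0
  · rw [h, zero_smul]
  · rw [HahnSeries.C_apply, HahnSeries.coeff_single_of_ne h, smul_zero]

/-- Derivative of `z^a * f`. -/
theorem lsD_single_mul (a : ℤ) (f : LaurentSeries C) :
    lsD ((single a (1 : C)) * f) =
      a • ((single (a - 1) (1 : C)) * f) + (single a (1 : C)) * lsD f := by
  ext n
  rw [lsD_coeff, HahnSeries.coeff_add, HahnSeries.coeff_smul, HahnSeries.coeff_single_mul,
    HahnSeries.coeff_single_mul, HahnSeries.coeff_single_mul, lsD_coeff, one_mul, one_mul,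
    one_mul]
  have h1 : n + 1 - a = n - (a - 1) := by ring
  have h2 : n - a + 1 = n - (a - 1) := by ring
  rw [h1, h2, ← add_smul]
  congr 1
  ring

/-- The derivative of (the image of) a power series is (the image of) its derivative. -/
theorem lsD_ofPowerSeries (p : PowerSeries C) :
    lsD (HahnSeries.ofPowerSeries ℤ C p) =
      HahnSeries.ofPowerSeries ℤ C (PowerSeries.derivative C p) := by
  ext n
  rw [lsD_coeff]
  change _ • ((p : PowerSeries C) : LaurentSeries C).coeff (n + 1) =
    ((PowerSeries.derivative C p : PowerSeries C) : LaurentSeries C).coeff n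
  rw [PowerSeries.coeff_coe, PowerSeries.coeff_coe]
  by_cases hn : n < 0
  · rw [if_pos hn]
    by_cases hn1 : n + 1 < 0
    · rw [if_pos hn1, smul_zero]
    · have : n + 1 = 0 := by omega
      rw [this, zero_smul]
  · rw [if_neg hn, if_neg (by omega)]
    obtain ⟨k, rfl⟩ := Int.eq_ofNat_of_zero_le (not_lt.mp hn)
    have hk : ((k : ℤ) + 1).natAbs = k + 1 := by omega
    rw [hk, Int.natAbs_natCast]
    change _ = PowerSeries.coeff k (PowerSeries.derivative C p)
    rw [PowerSeries.coeff_derivative, zsmul_eq_mul, mul_comm]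
    push_cast
    ring

theorem lsD_ofPowerSeries_mul (p q : PowerSeries C) :
    lsD (HahnSeries.ofPowerSeries ℤ C p * HahnSeries.ofPowerSeries ℤ C q) =
      HahnSeries.ofPowerSeries ℤ C p * lsD (HahnSeries.ofPowerSeries ℤ C q) +
        HahnSeries.ofPowerSeries ℤ C q * lsD (HahnSeries.ofPowerSeries ℤ C p) := by
  rw [← map_mul, lsD_ofPowerSeries, lsD_ofPowerSeries, lsD_ofPowerSeries,
    Derivation.leibniz, map_add, smul_eq_mul, smul_eq_mul, map_mul, map_mul]

/-- **Leibniz rule** for the formal derivative of Laurent series. -/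
theorem lsD_mul (f g : LaurentSeries C) : lsD (f * g) = f * lsD g + g * lsD f := by
  have hf := LaurentSeries.single_order_mul_powerSeriesPart f
  have hg := LaurentSeries.single_order_mul_powerSeriesPart g
  set p := HahnSeries.ofPowerSeries ℤ C f.powerSeriesPart with hp
  set q := HahnSeries.ofPowerSeries ℤ C g.powerSeriesPart with hq
  set a := f.order with ha
  set b := g.order with hb
  have hfg : f * g = single (a + b) (1 : C) * (p * q) := by
    rw [← hf, ← hg]
    have : (single (a + b) (1 : C) : LaurentSeries C) = single a 1 * single b 1 := by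
      rw [HahnSeries.single_mul_single, one_mul]
    rw [this]
    ring
  have hsa : (single a (1 : C) : LaurentSeries C) = single (a - 1) 1 * single 1 1 := by
    rw [HahnSeries.single_mul_single, one_mul, sub_add_cancel]
  have hsb : (single b (1 : C) : LaurentSeries C) = single (b - 1) 1 * single 1 1 := by
    rw [HahnSeries.single_mul_single, one_mul, sub_add_cancel]
  have hsab : (single (a + b) (1 : C) : LaurentSeries C) =
      single (a - 1) 1 * single (b - 1) 1 * (single 1 1 * single 1 1) := by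
    simp only [HahnSeries.single_mul_single, one_mul]
    have : a + b = a - 1 + (b - 1) + (1 + 1) := by ring
    rw [← this]
  have hsab1 : (single (a + b - 1) (1 : C) : LaurentSeries C) =
      single (a - 1) 1 * single (b - 1) 1 * single 1 1 := by
    simp only [HahnSeries.single_mul_single, one_mul]
    have : a + b - 1 = a - 1 + (b - 1) + 1 := by ring
    rw [← this]
  have e1 : lsD f = a • (single (a - 1) (1 : C) * p) + single a (1 : C) * lsD p := by
    conv_lhs => rw [← hf]
    exact lsD_single_mul a p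
  have e2 : lsD g = b • (single (b - 1) (1 : C) * q) + single b (1 : C) * lsD q := by
    conv_lhs => rw [← hg]
    exact lsD_single_mul b q
  rw [hfg, lsD_single_mul, lsD_ofPowerSeries_mul, e1, e2]
  conv_rhs => rw [← hf, ← hg]
  rw [hsab, hsab1, hsa, hsb]
  simp only [zsmul_eq_mul]
  push_cast
  ring

theorem lsD_one : lsD (1 : LaurentSeries C) = 0 := by
  have := lsD_C (1 : C)
  rwa [map_one] at this

end Laurent

section CharZero

variable {C : Type*} [Field C] [CharZero C]

/-- In characteristic zero, a Laurent series of nonzero order has nonzero derivative. -/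
theorem lsD_ne_zero_of_order_ne_zero (f : LaurentSeries C) (hf : f.order ≠ 0) : lsD f ≠ 0 := by
  have hf0 : f ≠ 0 := by
    rintro rfl
    exact hf HahnSeries.order_zero
  intro h
  have hc := congrArg (fun g : LaurentSeries C => g.coeff (f.order - 1)) h
  simp only [lsD_coeff, sub_add_cancel, HahnSeries.coeff_zero] at hc
  rw [zsmul_eq_mul, mul_eq_zero] at hc
  rcases hc with hc | hc
  · exact hf (by exact_mod_cast hc)
  · exact hf0 (HahnSeries.coeff_order_eq_zero.mp hc)

end CharZero

section Derivation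

variable {K F : Type*} [Field K] [Field F] [Algebra K F]
variable {C : Type*} [Field C]

/-- For a ring hom `σ : F →+* LaurentSeries C` mapping `K` to constants, the map
`f ↦ d/dz (σ f)` is a `K`-derivation of `F` into `LaurentSeries C` (an `F`-module via `σ`). -/
theorem exists_embDerivation (σ : F →+* LaurentSeries C) (ι : K →+* C)
    (hσ : ∀ c : K, σ (algebraMap K F c) = HahnSeries.C (ι c)) (y : F)
    (hy : lsD (σ y) ≠ 0) : KaehlerDifferential.D K F y ≠ 0 := by
  let modF : Module F (LaurentSeries C) := Module.compHom (LaurentSeries C) σ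
  let modK : Module K (LaurentSeries C) :=
    Module.compHom (LaurentSeries C) (σ.comp (algebraMap K F))
  have : IsScalarTower K F (LaurentSeries C) :=
    ⟨fun c f g => by
      change σ (c • f) * g = σ (algebraMap K F c) * (σ f * g)
      rw [Algebra.smul_def, map_mul, mul_assoc]⟩
  have hsmulF : ∀ (f : F) (g : LaurentSeries C), f • g = σ f * g := fun _ _ => rfl
  have hsmulK : ∀ (c : K) (g : LaurentSeries C), c • g = σ (algebraMap K F c) * g :=
    fun _ _ => rfl
  let δ : Derivation K F (LaurentSeries C) :=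
    { toFun := fun f => lsD (σ f)
      map_add' := fun f g => by simp only [map_add, lsD_add]
      map_smul' := fun c f => by
        simp only [RingHom.id_apply]
        rw [hsmulK, Algebra.smul_def, map_mul, lsD_mul, hσ, lsD_C, mul_zero, add_zero]
      map_one_eq_zero' := by
        change lsD (σ 1) = 0
        rw [map_one, lsD_one]
      leibniz' := fun f g => by
        change lsD (σ (f * g)) = f • lsD (σ g) + g • lsD (σ f)
        rw [map_mul, lsD_mul, hsmulF, hsmulF] }
  intro h0
  apply hy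
  have : δ.liftKaehlerDifferential (KaehlerDifferential.D K F y) = δ y :=
    Derivation.liftKaehlerDifferential_comp_D δ y
  rw [h0, map_zero] at this
  exact this.symm

end Derivation

section Interface

variable {K F : Type*} [Field K] [Field F] [Algebra K F]
variable {C : Type*} [Field C] [CharZero C] {X : Type*}

/-- Interface theorem `exists_differential_ne_zero` of `Alg.lean`, with the necessary
hypothesis `[Nonempty X]` (it is false for empty `X`). -/
theorem exists_differential_ne_zero_of_nonempty [Nonempty X] (j : F)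
    (dataInf : LocalData K F C X j⁻¹) :
    ∃ ω : Ω[F⁄K], ω ≠ 0 := by
  obtain ⟨x⟩ := ‹Nonempty X›
  refine ⟨KaehlerDifferential.D K F j⁻¹, ?_⟩
  apply exists_embDerivation (dataInf.σ x) dataInf.ι (dataInf.σ_const x)
  apply lsD_ne_zero_of_order_ne_zero
  rw [dataInf.σ_t_order x]
  exact_mod_cast dataInf.m_pos.ne'

end Interface

end Fermat.Agent.S24.H240

end
end
-- ===== PACK-END S24/Alg/H240Diff.lean

-- ===== PACK-BEGIN S24/H117/PlaceBasic.lean
section


/-!
# S24 / H117 — basic API for `AlgebraicCurve.Place.ord`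

Elementary facts about the order function of a place (membership, ultrametric inequality,
constants), re-proved here because the Prelude versions are private.
-/

set_option autoImplicit false

noncomputable section

open AlgebraicCurve

namespace Fermat.Agent.S24.H117

variable {K F : Type*} [Field K] [Field F] [Algebra K F] (v : Place K F)

theorem ord_nonneg_of_mem {f : F} (hf : f ∈ v.toValuationSubring) : 0 ≤ v.ord f := by
  rcases eq_or_ne f 0 with rfl | hf0
  · simp
  obtain ⟨π, hπ⟩ := IsDiscreteValuationRing.exists_irreducible v.toValuationSubring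
  obtain ⟨n, u, hu⟩ :=
    IsDiscreteValuationRing.eq_unit_mul_pow_irreducible
      (x := (⟨f, hf⟩ : v.toValuationSubring)) (by simpa [Subtype.ext_iff] using hf0) hπ
  have hcoe : f = ((u : v.toValuationSubring) : F) * ((π : F) ^ (n : ℤ)) := by
    have h := congrArg (Subtype.val) hu
    push_cast at h
    rw [zpow_natCast]
    exact h
  rw [hcoe, v.ord_unit_smul_zpow u hπ (n : ℤ)]
  exact Int.natCast_nonneg n

theorem mem_of_ord_nonneg {f : F} (h : 0 ≤ v.ord f) : f ∈ v.toValuationSubring := by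
  rcases eq_or_ne f 0 with rfl | hf
  · exact zero_mem _
  obtain ⟨π, hπ⟩ := IsDiscreteValuationRing.exists_irreducible v.toValuationSubring
  obtain ⟨u, hu⟩ := v.exists_unit_mul_zpow hf hπ
  rw [hu, show v.ord f = (((v.ord f).toNat : ℕ) : ℤ) from (Int.toNat_of_nonneg h).symm,
    zpow_natCast]
  exact mul_mem (u : v.toValuationSubring).2 (pow_mem (π : v.toValuationSubring).2 _)

theorem mem_iff_ord_nonneg {f : F} : f ∈ v.toValuationSubring ↔ 0 ≤ v.ord f :=
  ⟨ord_nonneg_of_mem v, mem_of_ord_nonneg v⟩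

theorem exists_ord_eq_one : ∃ π : F, π ≠ 0 ∧ v.ord π = 1 := by
  obtain ⟨π, hπ⟩ := IsDiscreteValuationRing.exists_irreducible v.toValuationSubring
  refine ⟨(π : F), ?_, v.ord_coe_irreducible hπ⟩
  simpa [ne_eq, ZeroMemClass.coe_eq_zero] using hπ.ne_zero

theorem ord_algebraMap (c : K) : v.ord (algebraMap K F c) = 0 := by
  rcases eq_or_ne c 0 with rfl | hc
  · simp
  have h1 : 0 ≤ v.ord (algebraMap K F c) := ord_nonneg_of_mem v (v.algebraMap_mem' c)
  have h2 : 0 ≤ v.ord (algebraMap K F c⁻¹) := ord_nonneg_of_mem v (v.algebraMap_mem' c⁻¹)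
  rw [map_inv₀, v.ord_inv] at h2
  omega

theorem ord_neg (f : F) : v.ord (-f) = v.ord f := by
  simp [Place.ord, Valuation.map_neg]

theorem ord_add_ge {f g : F} (hfg : f + g ≠ 0) : min (v.ord f) (v.ord g) ≤ v.ord (f + g) := by
  rcases eq_or_ne f 0 with rfl | hf
  · simp
  rcases eq_or_ne g 0 with rfl | hg
  · simp
  -- wlog ord f ≤ ord g
  wlog hle : v.ord f ≤ v.ord g generalizing f g
  · have := this (f := g) (g := f) (by rwa [add_comm]) hg hf (le_of_not_ge hle)
    rwa [min_comm, add_comm]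
  rw [min_eq_left hle]
  have hq : g / f ∈ v.toValuationSubring := by
    apply mem_of_ord_nonneg
    rw [div_eq_mul_inv, v.ord_mul hg (inv_ne_zero hf), v.ord_inv]
    omega
  have h1 : (1 + g / f) ∈ v.toValuationSubring := add_mem (one_mem _) hq
  have h1ne : (1 + g / f) ≠ 0 := by
    intro h0
    apply hfg
    have : f * (1 + g / f) = f + g := by field_simp
    rw [← this, h0, mul_zero]
  have : f + g = f * (1 + g / f) := by field_simp
  rw [this, v.ord_mul hf h1ne]
  have := ord_nonneg_of_mem v h1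
  omega

theorem ord_add_eq_of_lt {f g : F} (h : v.ord f < v.ord g) (hf : f ≠ 0) :
    v.ord (f + g) = v.ord f := by
  rcases eq_or_ne g 0 with rfl | hg
  · simp
  have hfg : f + g ≠ 0 := by
    intro h0
    have : g = -f := eq_neg_of_add_eq_zero_right h0
    rw [this, _root_.Fermat.Agent.S24.H117.ord_neg] at h
    exact lt_irrefl _ h
  apply le_antisymm
  · by_contra hlt
    push Not at hlt
    have h2 : min (v.ord (f + g)) (v.ord (-g)) ≤ v.ord ((f + g) + -g) :=
      ord_add_ge v (by simpa using hf)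
    rw [add_neg_cancel_right, _root_.Fermat.Agent.S24.H117.ord_neg] at h2
    have : v.ord f < min (v.ord (f + g)) (v.ord g) := lt_min hlt h
    omega
  · have := ord_add_ge v hfg
    rwa [min_eq_left h.le] at this

theorem ord_pow (f : F) (n : ℕ) : v.ord (f ^ n) = n * v.ord f := by
  have := v.ord_zpow f (n : ℤ)
  rwa [zpow_natCast] at this

theorem ord_div {f g : F} (hf : f ≠ 0) (hg : g ≠ 0) : v.ord (f / g) = v.ord f - v.ord g := by
  rw [div_eq_mul_inv, v.ord_mul hf (inv_ne_zero hg), v.ord_inv]; ring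

theorem ne_zero_of_ord_ne_zero {f : F} (h : v.ord f ≠ 0) : f ≠ 0 := by
  rintro rfl
  exact h v.ord_zero

/-- Two places with the same non-negative-order elements are equal. -/
theorem place_ext_of_le {v w : Place K F}
    (h : ∀ f : F, 0 ≤ v.ord f → 0 ≤ w.ord f) : v = w := by
  apply Place.ext
  have hle : v.toValuationSubring ≤ w.toValuationSubring := fun f hf =>
    mem_of_ord_nonneg w (h f (ord_nonneg_of_mem v hf))
  refine le_antisymm hle ?_
  intro f hf
  by_contra hfv
  have hf0 : f ≠ 0 := fun h0 => hfv (h0 ▸ zero_mem _)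
  have hvf : v.ord f < 0 := by
    by_contra hge
    exact hfv (mem_of_ord_nonneg v (not_lt.mp hge))
  -- then `f⁻¹` has positive order at `v`, and every element is `u * (f⁻¹)^n`-bounded
  obtain ⟨g, hg0, hg⟩ : ∃ g : F, g ≠ 0 ∧ w.ord g < 0 := by
    by_contra hcon
    push Not at hcon
    apply w.ne_top'
    refine SetLike.ext fun x => ⟨fun _ => ValuationSubring.mem_top x, fun _ => ?_⟩
    rcases eq_or_ne x 0 with rfl | hx
    · exact zero_mem _
    · exact mem_of_ord_nonneg w (hcon x hx)
  -- choose n with ord_v (g * f⁻¹ ^ n) ≥ 0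
  have hfinv : 0 < v.ord f⁻¹ := by rw [v.ord_inv]; omega
  obtain ⟨n, hn⟩ : ∃ n : ℕ, 0 ≤ v.ord (g * f⁻¹ ^ n) := by
    refine ⟨(-v.ord g).toNat, ?_⟩
    rw [v.ord_mul hg0 (pow_ne_zero _ (inv_ne_zero hf0)), ord_pow]
    have : (0:ℤ) ≤ ((-v.ord g).toNat : ℤ) := Int.natCast_nonneg _
    have h2 : -v.ord g ≤ ((-v.ord g).toNat : ℤ) := Int.self_le_toNat _
    nlinarith
  have hw := h _ hn
  rw [w.ord_mul hg0 (pow_ne_zero _ (inv_ne_zero hf0)), ord_pow, w.ord_inv] at hw
  have hwf : 0 ≤ w.ord f := ord_nonneg_of_mem w hf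
  have : (n : ℤ) * -w.ord f ≤ 0 := by
    have : (0:ℤ) ≤ n := Int.natCast_nonneg _
    nlinarith
  omega

end Fermat.Agent.S24.H117

end
end
-- ===== PACK-END S24/H117/PlaceBasic.lean

-- ===== PACK-BEGIN S24/Alg/LocBig.lean
section


/-!
# S24 / ALG-LOC: Laurent series of order at least `n`

`LocBig n s` means `s = 0` or `n ≤ ord s`.  For such `s` the coefficient `s.coeff n` behaves
like a leading coefficient: it is multiplicative.
-/

set_option autoImplicit false

noncomputable section

namespace Fermat.Agent.S24.H144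

variable {C : Type*} [Field C]

/-- `s` is zero or has order at least `n`. -/
def LocBig (n : ℤ) (s : LaurentSeries C) : Prop := s = 0 ∨ n ≤ s.order

namespace LocBig

variable {n m : ℤ} {a b : LaurentSeries C}

theorem zero (n : ℤ) : LocBig n (0 : LaurentSeries C) := Or.inl rfl

theorem of_le_order (h : n ≤ a.order) : LocBig n a := Or.inr h

theorem self_order (a : LaurentSeries C) : LocBig a.order a := Or.inr le_rfl

theorem mono (h : LocBig m a) (hnm : n ≤ m) : LocBig n a := by
  rcases h with h | h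
  · exact Or.inl h
  · exact Or.inr (hnm.trans h)

theorem coeff_eq_zero (h : LocBig n a) {k : ℤ} (hk : k < n) : a.coeff k = 0 := by
  rcases h with rfl | h
  · simp
  · exact HahnSeries.coeff_eq_zero_of_lt_order (lt_of_lt_of_le hk h)

theorem neg (h : LocBig n a) : LocBig n (-a) := by
  rcases h with rfl | h
  · simp [zero]
  · exact Or.inr (by rwa [HahnSeries.order_neg])

theorem add (ha : LocBig n a) (hb : LocBig n b) : LocBig n (a + b) := by
  rcases eq_or_ne (a + b) 0 with h0 | h0
  · exact Or.inl h0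
  rcases ha with rfl | ha
  · rwa [zero_add]
  rcases hb with rfl | hb
  · rw [add_zero]; exact Or.inr ha
  exact Or.inr (le_trans (le_min ha hb) (HahnSeries.min_order_le_order_add h0))

theorem sub (ha : LocBig n a) (hb : LocBig n b) : LocBig n (a - b) := by
  rw [sub_eq_add_neg]; exact ha.add hb.neg

theorem mul (ha : LocBig n a) (hb : LocBig m b) : LocBig (n + m) (a * b) := by
  rcases ha with rfl | ha
  · simp [zero]
  rcases hb with rfl | hb
  · simp [zero]
  rcases eq_or_ne a 0 with rfl | ha0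
  · simp [zero]
  rcases eq_or_ne b 0 with rfl | hb0
  · simp [zero]
  refine Or.inr ?_
  rw [HahnSeries.order_mul ha0 hb0]
  omega

theorem pow (ha : LocBig n a) (k : ℕ) : LocBig (k * n) (a ^ k) := by
  induction k with
  | zero =>
    simp only [Nat.cast_zero, zero_mul, pow_zero]
    exact Or.inr (by rw [HahnSeries.order_one])
  | succ k ih =>
    rw [pow_succ]
    have := ih.mul ha
    convert this using 1
    push_cast; ring

/-- An element which is big of every order is zero. -/
theorem eq_zero_of_forall (h : ∀ k : ℕ, LocBig (k : ℤ) a) : a = 0 := by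
  by_contra h0
  rcases h (a.order.toNat + 1) with h1 | h1
  · exact h0 h1
  · have := Int.self_le_toNat a.order
    push_cast at h1
    omega

/-- The coefficient at the bound is multiplicative. -/
theorem coeff_mul (ha : LocBig n a) (hb : LocBig m b) :
    (a * b).coeff (n + m) = a.coeff n * b.coeff m := by
  rcases eq_or_ne a 0 with rfl | ha0
  · simp
  rcases eq_or_ne b 0 with rfl | hb0
  · simp
  have ha' : n ≤ a.order := ha.resolve_left ha0
  have hb' : m ≤ b.order := hb.resolve_left hb0
  rcases lt_or_eq_of_le ha' with hlt | heq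
  · -- `a.coeff n = 0`
    rw [HahnSeries.coeff_eq_zero_of_lt_order hlt, zero_mul]
    have hab : LocBig (a.order + m) (a * b) := (self_order a).mul hb
    exact hab.coeff_eq_zero (by omega)
  rcases lt_or_eq_of_le hb' with hlt | heq'
  · rw [HahnSeries.coeff_eq_zero_of_lt_order hlt, mul_zero]
    have hab : LocBig (n + b.order) (a * b) := ha.mul (self_order b)
    exact hab.coeff_eq_zero (by omega)
  rw [heq, heq', HahnSeries.coeff_mul_order_add_order, HahnSeries.leadingCoeff_eq,
    HahnSeries.leadingCoeff_eq]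

/-- If two series have the same order and the same leading coefficient, their difference has
larger order. -/
theorem sub_of_leadingCoeff_eq (ho : a.order = b.order)
    (hl : a.leadingCoeff = b.leadingCoeff) : LocBig (a.order + 1) (a - b) := by
  rcases eq_or_ne (a - b) 0 with h0 | h0
  · exact Or.inl h0
  refine Or.inr ?_
  have hbig : LocBig a.order (a - b) := (self_order a).sub (ho ▸ self_order b)
  have h1 : a.order ≤ (a - b).order := hbig.resolve_left h0
  have h2 : (a - b).coeff a.order = 0 := by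
    rw [HahnSeries.coeff_sub, ← HahnSeries.leadingCoeff_eq]
    conv_lhs => rw [ho, ← HahnSeries.leadingCoeff_eq, hl]
    exact sub_self _
  have h3 : (a - b).order ≠ a.order := by
    intro h
    have := HahnSeries.coeff_order_eq_zero.not.mpr h0
    rw [h] at this
    exact this h2
  omega

end LocBig

end Fermat.Agent.S24.H144

end
end
-- ===== PACK-END S24/Alg/LocBig.lean

-- ===== PACK-BEGIN S24/Alg/LocOrd.lean
section


/-!
# S24 / ALG-LOC: elementary calculus of `Place.ord`

Membership in the valuation ring, ultrametric inequality and its strict case.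
-/

set_option autoImplicit false

noncomputable section

open AlgebraicCurve

namespace Fermat.Agent.S24.H144

variable {K F : Type*} [Field K] [Field F] [Algebra K F]

theorem loc_ord_nonneg_of_mem (v : Place K F) {f : F} (hf : f ∈ v.toValuationSubring) :
    0 ≤ v.ord f := by
  rcases eq_or_ne f 0 with rfl | hf0
  · simp
  obtain ⟨π, hπ⟩ := IsDiscreteValuationRing.exists_irreducible v.toValuationSubring
  obtain ⟨n, u, hu⟩ :=
    IsDiscreteValuationRing.eq_unit_mul_pow_irreducible
      (x := (⟨f, hf⟩ : v.toValuationSubring)) (by simpa [Subtype.ext_iff] using hf0) hπ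
  have hcoe : f = ((u : v.toValuationSubring) : F) * ((π : F) ^ (n : ℤ)) := by
    have h := congrArg (Subtype.val) hu
    push_cast at h
    rw [zpow_natCast]
    exact h
  rw [hcoe, v.ord_unit_smul_zpow u hπ (n : ℤ)]
  exact Int.natCast_nonneg n

theorem loc_mem_of_ord_nonneg (v : Place K F) {f : F} (h : 0 ≤ v.ord f) :
    f ∈ v.toValuationSubring := by
  rcases eq_or_ne f 0 with rfl | hf
  · exact zero_mem _
  obtain ⟨π, hπ⟩ := IsDiscreteValuationRing.exists_irreducible v.toValuationSubring
  obtain ⟨u, hu⟩ := v.exists_unit_mul_zpow hf hπ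
  rw [hu, show v.ord f = (((v.ord f).toNat : ℕ) : ℤ) from (Int.toNat_of_nonneg h).symm,
    zpow_natCast]
  exact mul_mem (u : v.toValuationSubring).2 (pow_mem (π : v.toValuationSubring).2 _)

/-- `f ∈ O_v ↔ 0 ≤ ord_v f` (valid also for `f = 0` because `ord_v 0 = 0`). -/
theorem loc_mem_iff_ord_nonneg (v : Place K F) (f : F) :
    f ∈ v.toValuationSubring ↔ 0 ≤ v.ord f :=
  ⟨loc_ord_nonneg_of_mem v, loc_mem_of_ord_nonneg v⟩

theorem loc_ord_algebraMap (v : Place K F) (c : K) : v.ord (algebraMap K F c) = 0 := by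
  rcases eq_or_ne c 0 with rfl | hc
  · simp
  have h1 : 0 ≤ v.ord (algebraMap K F c) := loc_ord_nonneg_of_mem v (v.algebraMap_mem' c)
  have h2 : 0 ≤ v.ord (algebraMap K F c⁻¹) := loc_ord_nonneg_of_mem v (v.algebraMap_mem' c⁻¹)
  rw [map_inv₀, v.ord_inv] at h2
  omega

theorem loc_ord_pow (v : Place K F) (f : F) (n : ℕ) : v.ord (f ^ n) = n * v.ord f := by
  have := v.ord_zpow f (n : ℤ)
  rwa [zpow_natCast] at this

theorem loc_ord_neg (v : Place K F) (f : F) : v.ord (-f) = v.ord f := by
  rcases eq_or_ne f 0 with rfl | hf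
  · simp
  have h : (-1 : F) ≠ 0 := by simp
  have h1 : v.ord (-1 : F) = 0 := by
    have h2 := v.ord_mul h h
    rw [neg_one_mul, neg_neg, v.ord_one] at h2
    omega
  rw [← neg_one_mul, v.ord_mul h hf, h1, zero_add]

/-- Ultrametric inequality. -/
theorem loc_ord_add (v : Place K F) {f g : F} (hf : f ≠ 0) (hg : g ≠ 0) (hfg : f + g ≠ 0) :
    min (v.ord f) (v.ord g) ≤ v.ord (f + g) := by
  -- wlog `ord f ≤ ord g`
  wlog h : v.ord f ≤ v.ord g generalizing f g
  · have := this hg hf (by rwa [add_comm]) (by omega)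
    rwa [min_comm, add_comm g f] at this
  rw [min_eq_left h]
  have hq : g * f⁻¹ ∈ v.toValuationSubring := by
    apply loc_mem_of_ord_nonneg
    rw [v.ord_mul hg (inv_ne_zero hf), v.ord_inv]; omega
  have h1 : 1 + g * f⁻¹ ∈ v.toValuationSubring := add_mem (one_mem _) hq
  have h2 : f + g = f * (1 + g * f⁻¹) := by field_simp
  have h3 : (1 + g * f⁻¹) ≠ 0 := by
    intro h0; rw [h0, mul_zero] at h2; exact hfg h2
  rw [h2, v.ord_mul hf h3]
  have := loc_ord_nonneg_of_mem v h1
  omega

/-- Ultrametric inequality, version with nonnegativity bound (no nonvanishing hypotheses). -/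
theorem loc_ord_add_of_le (v : Place K F) {f g : F} {n : ℤ} (hn : n ≤ 0 ∨ f + g ≠ 0)
    (hf : f = 0 ∨ n ≤ v.ord f) (hg : g = 0 ∨ n ≤ v.ord g) : n ≤ v.ord (f + g) := by
  rcases eq_or_ne (f + g) 0 with h0 | h0
  · rw [h0, v.ord_zero]
    rcases hn with hn | hn
    · exact hn
    · exact absurd h0 hn
  rcases eq_or_ne f 0 with rfl | hf0
  · rw [zero_add] at h0 ⊢
    rcases hg with hg | hg
    · exact absurd hg h0
    · exact hg
  rcases eq_or_ne g 0 with rfl | hg0
  · rw [add_zero]
    rcases hf with hf | hf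
    · exact absurd hf hf0
    · exact hf
  have := loc_ord_add v hf0 hg0 h0
  rcases hf with hf | hf
  · exact absurd hf hf0
  rcases hg with hg | hg
  · exact absurd hg hg0
  exact le_trans (le_min hf hg) this

/-- Strict case of the ultrametric inequality. -/
theorem loc_ord_add_eq_of_lt (v : Place K F) {f g : F} (hf : f ≠ 0) (hg : g ≠ 0)
    (h : v.ord f < v.ord g) : v.ord (f + g) = v.ord f := by
  have hfg : f + g ≠ 0 := by
    intro h0
    have : g = -f := by rw [← sub_eq_zero]; rw [sub_neg_eq_add, add_comm]; exact h0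
    rw [this, loc_ord_neg] at h
    exact lt_irrefl _ h
  have h1 := loc_ord_add v hf hg hfg
  rw [min_eq_left h.le] at h1
  -- f = (f + g) + (-g)
  have hng : -g ≠ 0 := neg_ne_zero.mpr hg
  have h2 := loc_ord_add v hfg hng (by simpa using hf)
  rw [add_neg_cancel_right, loc_ord_neg] at h2
  rcases le_total (v.ord (f + g)) (v.ord g) with h3 | h3
  · rw [min_eq_left h3] at h2; omega
  · rw [min_eq_right h3] at h2; omega

end Fermat.Agent.S24.H144

end
end
-- ===== PACK-END S24/Alg/LocOrd.lean

-- ===== PACK-BEGIN S24/Alg/LocBasic.lean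
section


/-!
# S24 / ALG-LOC, part 1: valuations induced by embeddings into Laurent series

`Induces σ v` : the place `v` of `F` is the one cut out by the embedding `σ : F → C((z))`.
Main result `loc_exists_mult`: then `ord_z ∘ σ = g * v.ord` for some `g ≥ 1`.
-/

set_option autoImplicit false

noncomputable section

open AlgebraicCurve

namespace Fermat.Agent.S24.H144

variable {K F : Type*} [Field K] [Field F] [Algebra K F]
variable {C : Type*} [Field C]

/-- The embedding `σ` induces the place `v`: the valuation ring of `v` is the set of `f`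
whose image has non-negative order. -/
def Induces (σ : F →+* LaurentSeries C) (v : Place K F) : Prop :=
  ∀ f : F, f ∈ v.toValuationSubring ↔ 0 ≤ (σ f).order

theorem loc_map_ne_zero (σ : F →+* LaurentSeries C) {f : F} (hf : f ≠ 0) : σ f ≠ 0 :=
  (map_ne_zero σ).mpr hf

theorem loc_order_map_mul (σ : F →+* LaurentSeries C) {f g : F} (hf : f ≠ 0) (hg : g ≠ 0) :
    (σ (f * g)).order = (σ f).order + (σ g).order := by
  rw [map_mul]
  exact HahnSeries.order_mul (loc_map_ne_zero σ hf) (loc_map_ne_zero σ hg)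

theorem loc_order_map_one (σ : F →+* LaurentSeries C) : (σ (1 : F)).order = 0 := by
  rw [map_one]; exact HahnSeries.order_one

theorem loc_order_map_inv (σ : F →+* LaurentSeries C) (f : F) :
    (σ f⁻¹).order = -(σ f).order := by
  rcases eq_or_ne f 0 with rfl | hf
  · simp
  · have h := loc_order_map_mul σ hf (inv_ne_zero hf)
    rw [mul_inv_cancel₀ hf, loc_order_map_one] at h
    omega

theorem loc_order_map_pow (σ : F →+* LaurentSeries C) {f : F} (hf : f ≠ 0) (n : ℕ) :
    (σ (f ^ n)).order = n * (σ f).order := by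
  induction n with
  | zero => simp
  | succ n ih =>
    rw [pow_succ, loc_order_map_mul σ (pow_ne_zero n hf) hf, ih]
    push_cast; ring

theorem loc_order_map_zpow (σ : F →+* LaurentSeries C) {f : F} (hf : f ≠ 0) (n : ℤ) :
    (σ (f ^ n)).order = n * (σ f).order := by
  obtain ⟨k, rfl | rfl⟩ := Int.eq_nat_or_neg n
  · rw [zpow_natCast]; exact loc_order_map_pow σ hf k
  · rw [zpow_neg, zpow_natCast, loc_order_map_inv, loc_order_map_pow σ hf k]; ring

theorem loc_order_map_add_le (σ : F →+* LaurentSeries C) {f g : F} (hfg : f + g ≠ 0) :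
    min (σ f).order (σ g).order ≤ (σ (f + g)).order := by
  rw [map_add]
  exact HahnSeries.min_order_le_order_add (by rw [← map_add]; exact loc_map_ne_zero σ hfg)

/-- A unit of the valuation ring has order `0`. -/
theorem loc_order_unit {σ : F →+* LaurentSeries C} {v : Place K F} (hσ : Induces σ v)
    (u : v.toValuationSubringˣ) : (σ ((u : v.toValuationSubring) : F)).order = 0 := by
  have h1 : 0 ≤ (σ ((u : v.toValuationSubring) : F)).order :=
    (hσ _).mp (u : v.toValuationSubring).2
  have h2 : 0 ≤ (σ (((u⁻¹ : v.toValuationSubringˣ) : v.toValuationSubring) : F)).order :=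
    (hσ _).mp ((u⁻¹ : v.toValuationSubringˣ) : v.toValuationSubring).2
  have h3 : (((u⁻¹ : v.toValuationSubringˣ) : v.toValuationSubring) : F)
      = (((u : v.toValuationSubring) : F))⁻¹ := by
    have hmul : ((u : v.toValuationSubring) : F)
        * (((u⁻¹ : v.toValuationSubringˣ) : v.toValuationSubring) : F) = 1 := by
      have := congrArg (Subtype.val) (Units.mul_inv u)
      exact this
    exact eq_inv_of_mul_eq_one_right hmul
  rw [h3, loc_order_map_inv] at h2
  omega

/-- A non-unit of the valuation ring which is nonzero has positive order. -/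
theorem loc_order_pos_of_not_isUnit {σ : F →+* LaurentSeries C} {v : Place K F}
    (hσ : Induces σ v) {a : v.toValuationSubring} (ha : a ≠ 0) (hu : ¬ IsUnit a) :
    0 < (σ (a : F)).order := by
  have h1 : 0 ≤ (σ (a : F)).order := (hσ _).mp a.2
  have haF : (a : F) ≠ 0 := by simpa using ha
  have h2 : ¬ (0 ≤ (σ ((a : F)⁻¹)).order) := by
    intro h
    have hmem : (a : F)⁻¹ ∈ v.toValuationSubring := (hσ _).mpr h
    apply hu
    refine ⟨⟨a, ⟨(a : F)⁻¹, hmem⟩, ?_, ?_⟩, rfl⟩
    · ext; simp [haF]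
    · ext; simp [haF]
  rw [loc_order_map_inv] at h2
  omega

/-- **LOC1.** If `σ` induces `v` then `ord_z ∘ σ = g * v.ord` for a positive integer `g`. -/
theorem loc_exists_mult (v : Place K F) (σ : F →+* LaurentSeries C) (hσ : Induces σ v) :
    ∃ g : ℕ, 0 < g ∧ ∀ f : F, (σ f).order = g * v.ord f := by
  obtain ⟨π, hπ⟩ := IsDiscreteValuationRing.exists_irreducible v.toValuationSubring
  have hπ0 : π ≠ 0 := hπ.ne_zero
  have hπF : (π : F) ≠ 0 := by simpa using hπ0
  have hpos : 0 < (σ (π : F)).order := loc_order_pos_of_not_isUnit hσ hπ0 hπ.not_isUnit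
  refine ⟨(σ (π : F)).order.toNat, by omega, fun f => ?_⟩
  rcases eq_or_ne f 0 with rfl | hf
  · simp
  obtain ⟨u, hu⟩ := v.exists_unit_mul_zpow hf hπ
  have huF : ((u : v.toValuationSubring) : F) ≠ 0 := by simp
  conv_lhs => rw [hu]
  rw [loc_order_map_mul σ huF (zpow_ne_zero _ hπF), loc_order_unit hσ u,
    loc_order_map_zpow σ hπF, Int.toNat_of_nonneg hpos.le]
  ring

end Fermat.Agent.S24.H144

end
end
-- ===== PACK-END S24/Alg/LocBasic.lean

-- ===== PACK-BEGIN S24/Alg/LocEmb.lean
section






/-!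
# S24 / ALG-LOC: a full set of embeddings

Let `F/F₀` be finite separable of degree `n` and let `σ x : F →+* E` (`x : X`, `|X| = n`) be
pairwise distinct ring homomorphisms into a field `E` which agree on `F₀`.  Then the `σ x`
are *all* the `F₀`-embeddings of `F` into an algebraic closure of `E`.  Consequences:

* `loc_minpoly_coeff_mem`: if all `σ x u` lie in a subring `O` of `E`, then so do the images of
  the coefficients of the minimal polynomial of `u` over `F₀`;
* `loc_norm_eq_prod`: the image of the norm is the product of the conjugates `σ x f`.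
-/

set_option autoImplicit false

noncomputable section

open Polynomial

namespace Fermat.Agent.S24.H144

section General

variable {F₀ F Ω : Type*} [Field F₀] [Field F] [Algebra F₀ F] [FiniteDimensional F₀ F]
  [Algebra.IsSeparable F₀ F] [Field Ω] [IsAlgClosed Ω] [Algebra F₀ Ω]
variable {X : Type*} [Finite X]

/-- An injective family of `finrank` many embeddings into an algebraically closed field is the
family of all embeddings. -/
theorem loc_algHom_bijective (ψ : X → (F →ₐ[F₀] Ω)) (hψ : Function.Injective ψ)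
    (hcard : Module.finrank F₀ F = Nat.card X) : Function.Bijective ψ := by
  apply hψ.bijective_of_nat_card_le
  rw [← hcard, ← AlgHom.card F₀ F Ω, Fintype.card_eq_nat_card]

end General

section Emb

variable {F₀ F E : Type*} [Field F₀] [Field F] [Algebra F₀ F] [FiniteDimensional F₀ F]
  [Algebra.IsSeparable F₀ F] [Field E]
variable {X : Type*} [Finite X]

/-- If all conjugates `σ x u` lie in a subring `O ⊆ E`, then the images of the coefficients of
the minimal polynomial of `u` over `F₀` lie in `O`. -/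
theorem loc_minpoly_coeff_mem (σ : X → (F →+* E)) (hinj : Function.Injective σ)
    (hagree : ∀ (x y : X) (c : F₀), σ x (algebraMap F₀ F c) = σ y (algebraMap F₀ F c))
    (hcard : Module.finrank F₀ F = Nat.card X)
    (O : Subring E) (u : F) (hu : ∀ x, σ x u ∈ O) (x₀ : X) (i : ℕ) :
    σ x₀ (algebraMap F₀ F ((minpoly F₀ u).coeff i)) ∈ O := by
  classical
  let φ : F₀ →+* AlgebraicClosure E :=
    (algebraMap E (AlgebraicClosure E)).comp ((σ x₀).comp (algebraMap F₀ F))
  letI : Algebra F₀ (AlgebraicClosure E) := φ.toAlgebra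
  have hφ : ∀ c : F₀, algebraMap F₀ (AlgebraicClosure E) c
      = algebraMap E (AlgebraicClosure E) (σ x₀ (algebraMap F₀ F c)) := fun c => rfl
  let ψ : X → (F →ₐ[F₀] AlgebraicClosure E) := fun x =>
    { ((algebraMap E (AlgebraicClosure E)).comp (σ x)) with
      commutes' := fun c => by
        change algebraMap E (AlgebraicClosure E) (σ x (algebraMap F₀ F c))
          = algebraMap F₀ (AlgebraicClosure E) c
        rw [hφ, hagree x x₀] }
  have hψ_apply : ∀ x f, ψ x f = algebraMap E (AlgebraicClosure E) (σ x f) := fun _ _ => rfl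
  have hψinj : Function.Injective ψ := by
    intro x y hxy
    apply hinj
    ext f
    have h := congrArg (fun τ : F →ₐ[F₀] AlgebraicClosure E => τ f) hxy
    exact (algebraMap E (AlgebraicClosure E)).injective h
  have hbij := loc_algHom_bijective ψ hψinj hcard
  have hint : IsIntegral F₀ u := Algebra.IsIntegral.isIntegral u
  have hmonic : ((minpoly F₀ u).map (algebraMap F₀ (AlgebraicClosure E))).Monic :=
    (minpoly.monic hint).map _
  have hsplit : ((minpoly F₀ u).map (algebraMap F₀ (AlgebraicClosure E))).Splits :=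
    IsAlgClosed.splits _
  let g : O →+* AlgebraicClosure E := (algebraMap E (AlgebraicClosure E)).comp O.subtype
  have hroots : ∀ r ∈ ((minpoly F₀ u).map (algebraMap F₀ (AlgebraicClosure E))).roots,
      r ∈ g.range := by
    intro r hr
    have hr' : r ∈ (minpoly F₀ u).rootSet (AlgebraicClosure E) := by
      rw [Polynomial.rootSet_def, Finset.mem_coe, Multiset.mem_toFinset]
      exact hr
    rw [← Algebra.IsAlgebraic.range_eval_eq_rootSet_minpoly] at hr'
    obtain ⟨τ, rfl⟩ := hr'
    obtain ⟨x, rfl⟩ := hbij.2 τ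
    exact ⟨⟨σ x u, hu x⟩, rfl⟩
  have hlift := hsplit.mem_lift_of_roots_mem_range hmonic g hroots
  obtain ⟨o, ho⟩ := (lifts_iff_coeff_lifts _).mp hlift i
  rw [coeff_map, hφ] at ho
  have h := (algebraMap E (AlgebraicClosure E)).injective ho
  rw [← h]
  exact o.2

/-- The image of the norm is the product of the conjugates. -/
theorem loc_norm_eq_prod [Fintype X] (σ : X → (F →+* E)) (hinj : Function.Injective σ)
    (hagree : ∀ (x y : X) (c : F₀), σ x (algebraMap F₀ F c) = σ y (algebraMap F₀ F c))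
    (hcard : Module.finrank F₀ F = Nat.card X) (f : F) (x₀ : X) :
    σ x₀ (algebraMap F₀ F (Algebra.norm F₀ f)) = ∏ x, σ x f := by
  classical
  let φ : F₀ →+* AlgebraicClosure E :=
    (algebraMap E (AlgebraicClosure E)).comp ((σ x₀).comp (algebraMap F₀ F))
  letI : Algebra F₀ (AlgebraicClosure E) := φ.toAlgebra
  have hφ : ∀ c : F₀, algebraMap F₀ (AlgebraicClosure E) c
      = algebraMap E (AlgebraicClosure E) (σ x₀ (algebraMap F₀ F c)) := fun c => rfl
  let ψ : X → (F →ₐ[F₀] AlgebraicClosure E) := fun x =>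
    { ((algebraMap E (AlgebraicClosure E)).comp (σ x)) with
      commutes' := fun c => by
        change algebraMap E (AlgebraicClosure E) (σ x (algebraMap F₀ F c))
          = algebraMap F₀ (AlgebraicClosure E) c
        rw [hφ, hagree x x₀] }
  have hψ_apply : ∀ x f, ψ x f = algebraMap E (AlgebraicClosure E) (σ x f) := fun _ _ => rfl
  have hψinj : Function.Injective ψ := by
    intro x y hxy
    apply hinj
    ext f
    have h := congrArg (fun τ : F →ₐ[F₀] AlgebraicClosure E => τ f) hxy
    exact (algebraMap E (AlgebraicClosure E)).injective h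
  have hbij := loc_algHom_bijective ψ hψinj hcard
  apply (algebraMap E (AlgebraicClosure E)).injective
  rw [← hφ, Algebra.norm_eq_prod_embeddings F₀ (AlgebraicClosure E) f, map_prod]
  exact (Fintype.prod_bijective ψ hbij _ _ (fun x => hψ_apply x f)).symm

end Emb

end Fermat.Agent.S24.H144

end
end
-- ===== PACK-END S24/Alg/LocEmb.lean

-- ===== PACK-BEGIN S29/H152/DescLin.lean
section
/-
S29 / DESC (helper152) — part 4: linear disjointness of `Ω` and `K((q))` over `K`.

* `descLin μ` : coefficientwise application of a `K`-linear functional `μ : Ω → K`,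
  `descLin μ (ι z * y) = z * descLin μ y`.
* `descLin_mem_of_coeffMap_mem` : `x ∈ K((q))` with `ι x ∈ Ω·F₀` lies in `K·F₀`
  (`laurentBaseChange Ω F₀ ∩ K((q)) = laurentBaseChange K F₀`).
* `descLin_exists_preimage` : a series all of whose coefficients lie in `K` comes from `K((q))`.
-/



set_option autoImplicit false

namespace Fermat.Agent.S29.H152

open ModularCurve

variable {K Ω : Type*} [Field K] [Field Ω] [Algebra K Ω]

/-- Coefficientwise application of a `K`-linear functional. -/
noncomputable def descLin (μ : Ω →ₗ[K] K) (y : LaurentSeries Ω) : LaurentSeries K :=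
  y.map μ

@[simp]
theorem descLin_coeff (μ : Ω →ₗ[K] K) (y : LaurentSeries Ω) (k : ℤ) :
    (descLin μ y).coeff k = μ (y.coeff k) := rfl

theorem descLin_add (μ : Ω →ₗ[K] K) (y z : LaurentSeries Ω) :
    descLin μ (y + z) = descLin μ y + descLin μ z := by
  ext k
  simp

theorem descLin_zero (μ : Ω →ₗ[K] K) : descLin μ (0 : LaurentSeries Ω) = 0 := by
  ext k
  simp

theorem descLin_support_subset (μ : Ω →ₗ[K] K) (y : LaurentSeries Ω) :
    (descLin μ y).support ⊆ y.support := by
  intro k hk
  rw [HahnSeries.mem_support] at hk ⊢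
  intro h
  apply hk
  rw [descLin_coeff, h, map_zero]

theorem descLin_coeffMap_support_subset {R S : Type*} [CommRing R] [CommRing S] (φ : R →+* S)
    (z : LaurentSeries R) : (coeffMap φ z).support ⊆ z.support := by
  intro k hk
  rw [HahnSeries.mem_support] at hk ⊢
  intro h
  apply hk
  rw [coeffMap_coeff, h, map_zero]

/-- `descLin μ` is `K((q))`-linear. -/
theorem descLin_coeffMap_mul (μ : Ω →ₗ[K] K) (z : LaurentSeries K) (y : LaurentSeries Ω) :
    descLin μ (coeffMap (algebraMap K Ω) z * y) = z * descLin μ y := by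
  ext n
  rw [descLin_coeff,
    HahnSeries.coeff_mul_left' z.isPWO_support (descLin_coeffMap_support_subset _ z),
    HahnSeries.coeff_mul_right' y.isPWO_support (descLin_support_subset μ y), map_sum]
  refine Finset.sum_congr rfl fun ij _ => ?_
  rw [coeffMap_coeff, descLin_coeff, ← Algebra.smul_def, map_smul, smul_eq_mul]

/-- Constants. -/
theorem descLin_algebraMap (μ : Ω →ₗ[K] K) (c : Ω) :
    descLin μ (algebraMap Ω (LaurentSeries Ω) c) = algebraMap K (LaurentSeries K) (μ c) := by
  rw [algebraMap_laurentSeries_eq_single, algebraMap_laurentSeries_eq_single]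
  ext k
  rw [descLin_coeff]
  rcases eq_or_ne k 0 with rfl | hk
  · simp [HahnSeries.coeff_single_same]
  · simp [HahnSeries.coeff_single_of_ne hk]

/-- A series whose coefficients all lie in `K` comes from `K((q))`. -/
theorem descLin_exists_preimage (v : LaurentSeries Ω)
    (hv : ∀ k, v.coeff k ∈ Set.range (algebraMap K Ω)) :
    ∃ v' : LaurentSeries K, coeffMap (algebraMap K Ω) v' = v := by
  obtain ⟨μ, hμ⟩ := LinearMap.exists_leftInverse_of_injective (Algebra.linearMap K Ω)
    (LinearMap.ker_eq_bot.mpr (algebraMap K Ω).injective)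
  refine ⟨descLin μ v, ?_⟩
  ext k
  rw [coeffMap_coeff, descLin_coeff]
  obtain ⟨c, hc⟩ := hv k
  rw [← hc]
  congr 1
  exact LinearMap.congr_fun hμ c

section LD

variable [Algebra ℚ K] [Algebra ℚ Ω]

theorem descLin_coeffEmb (y : LaurentSeries ℚ) :
    coeffMap (algebraMap K Ω) (coeffEmb K y) = coeffEmb Ω y := by
  rw [coeffEmb, coeffEmb, coeffMap_coeffMap]
  exact coeffMap_congr (RingHom.ext_rat _ _) y

variable (F₀ : IntermediateField ℚ (LaurentSeries ℚ))

/-- The image of `F₀` in `L((q))` as a submonoid. -/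
theorem descLin_closure_image (L : Type*) [Field L] [Algebra ℚ L] :
    (Submonoid.closure (⇑(coeffEmb L) '' (F₀ : Set (LaurentSeries ℚ))) : Set (LaurentSeries L))
      = ⇑(coeffEmb L) '' (F₀ : Set (LaurentSeries ℚ)) := by
  have : (⇑(coeffEmb L) '' (F₀ : Set (LaurentSeries ℚ)))
      = ((F₀.toSubfield.toSubring.toSubmonoid.map (coeffEmb L : _ →* _) :
          Submonoid (LaurentSeries L)) : Set (LaurentSeries L)) := rfl
  rw [this, Submonoid.closure_eq]

omit [Algebra ℚ K] [Algebra ℚ Ω] in
/-- Multiplying by a constant inside a functional. -/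
theorem descLin_algebraMap_mul (μ : Ω →ₗ[K] K) (c : Ω) (x : LaurentSeries Ω) :
    descLin μ (algebraMap Ω (LaurentSeries Ω) c * x)
      = descLin (μ.comp (LinearMap.mulLeft K c)) x := by
  ext k
  rw [descLin_coeff, descLin_coeff, algebraMap_laurentSeries_eq_single,
    HahnSeries.coeff_single_zero_mul]
  rfl

/-- Every functional maps `Ω[F₀]` into `K[F₀]`. -/
theorem descLin_mem_adjoin (μ : Ω →ₗ[K] K) {a : LaurentSeries Ω}
    (ha : a ∈ Algebra.adjoin Ω (⇑(coeffEmb Ω) '' (F₀ : Set (LaurentSeries ℚ)))) :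
    descLin μ a ∈ Algebra.adjoin K (⇑(coeffEmb K) '' (F₀ : Set (LaurentSeries ℚ))) := by
  have ha' : a ∈ Subalgebra.toSubmodule
      (Algebra.adjoin Ω (⇑(coeffEmb Ω) '' (F₀ : Set (LaurentSeries ℚ)))) := ha
  rw [Algebra.adjoin_eq_span, descLin_closure_image] at ha'
  clear ha
  revert μ
  induction ha' using Submodule.span_induction with
  | mem x hx =>
    intro μ
    obtain ⟨y, hy, rfl⟩ := hx
    have h1 : coeffEmb Ω y = coeffMap (algebraMap K Ω) (coeffEmb K y) * algebraMap Ω _ 1 := by
      rw [map_one, mul_one, descLin_coeffEmb]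
    rw [h1, descLin_coeffMap_mul, descLin_algebraMap]
    exact Subalgebra.mul_mem _ (Algebra.subset_adjoin ⟨y, hy, rfl⟩) (Subalgebra.algebraMap_mem _ _)
  | zero =>
    intro μ
    rw [descLin_zero]
    exact Subalgebra.zero_mem _
  | add x y _ _ hx hy =>
    intro μ
    rw [descLin_add]
    exact Subalgebra.add_mem _ (hx μ) (hy μ)
  | smul c x _ hx =>
    intro μ
    rw [Algebra.smul_def, descLin_algebraMap_mul]
    exact hx _

/-- **Linear disjointness**: `Ω·F₀ ∩ K((q)) = K·F₀`. -/
theorem descLin_mem_of_coeffMap_mem (x : LaurentSeries K)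
    (hx : coeffMap (algebraMap K Ω) x ∈ laurentBaseChange Ω F₀) :
    x ∈ laurentBaseChange K F₀ := by
  rw [laurentBaseChange, IntermediateField.mem_adjoin_iff_div] at hx
  obtain ⟨r, hr, s, hs, hrs⟩ := hx
  by_cases hs0 : s = 0
  · rw [hs0, div_zero] at hrs
    have hx0 : x = 0 := by
      ext k
      have := congrArg (fun y => HahnSeries.coeff y k) hrs
      simp only [coeffMap_coeff, HahnSeries.coeff_zero] at this
      rw [HahnSeries.coeff_zero]
      exact (map_eq_zero (algebraMap K Ω)).mp this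
    rw [hx0]
    exact zero_mem _
  · have hmul : coeffMap (algebraMap K Ω) x * s = r := by
      rw [hrs, div_mul_cancel₀ _ hs0]
    obtain ⟨n₀, hn₀⟩ : ∃ n₀, s.coeff n₀ ≠ 0 := by
      by_contra h
      push Not at h
      exact hs0 (HahnSeries.ext (funext h))
    obtain ⟨μ, hμ⟩ : ∃ μ : Ω →ₗ[K] K, μ (s.coeff n₀) ≠ 0 := by
      by_contra h
      push Not at h
      exact hn₀ ((Module.forall_dual_apply_eq_zero_iff K (s.coeff n₀)).mp h)
    have hΛs : descLin μ s ≠ 0 := by
      intro h
      apply hμ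
      have := congrArg (fun y => HahnSeries.coeff y n₀) h
      simpa using this
    have hrel : x * descLin μ s = descLin μ r := by
      rw [← descLin_coeffMap_mul, hmul]
    have hx' : x = descLin μ r / descLin μ s := by
      rw [← hrel, mul_div_cancel_right₀ _ hΛs]
    rw [hx', laurentBaseChange]
    exact div_mem (IntermediateField.algebra_adjoin_le_adjoin K _ (descLin_mem_adjoin F₀ μ hr))
      (IntermediateField.algebra_adjoin_le_adjoin K _ (descLin_mem_adjoin F₀ μ hs))

end LD

end Fermat.Agent.S29.H152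

end
-- ===== PACK-END S29/H152/DescLin.lean

-- ===== PACK-BEGIN S29/H751/PthRootBall.lean
section


/-!
# Holomorphic `p`-th roots on a disc (helper751, S29 / P5 / KUM + E3)

* `exists_exp_eq_on_ball`: a nowhere vanishing holomorphic function on an open disc is `exp ∘ L`.
* `exists_pow_eq_on_ball_of_ne_zero`: hence it has a holomorphic `p`-th root.
* `exists_pow_eq_on_ball`: a holomorphic function on (a neighbourhood of) a closed disc, not
  locally zero, all of whose zeros have order divisible by `p`, has a holomorphic `p`-th root on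
  the open disc.
-/

set_option autoImplicit false

open Complex Set Metric Filter Topology

namespace Fermat.Agent.S29.H751

/-- A nowhere vanishing holomorphic function on an open disc has a holomorphic logarithm. -/
theorem exists_exp_eq_on_ball {g : ℂ → ℂ} {c : ℂ} {r : ℝ}
    (hg : DifferentiableOn ℂ g (ball c r)) (hne : ∀ z ∈ ball c r, g z ≠ 0) :
    ∃ L : ℂ → ℂ, DifferentiableOn ℂ L (ball c r) ∧ ∀ z ∈ ball c r, cexp (L z) = g z := by
  by_cases hr : 0 < r
  swap
  · refine ⟨fun _ => 0, differentiableOn_const _, fun z hz => ?_⟩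
    rw [ball_eq_empty.2 (not_lt.1 hr)] at hz
    exact absurd hz (notMem_empty z)
  have hopen : IsOpen (ball c r) := isOpen_ball
  have hc : c ∈ ball c r := mem_ball_self hr
  -- the logarithmic derivative
  have hdg : DifferentiableOn ℂ (deriv g) (ball c r) := hg.deriv hopen
  have hφ : DifferentiableOn ℂ (fun z => deriv g z / g z) (ball c r) :=
    hdg.div hg hne
  obtain ⟨L₀, hL₀⟩ := hφ.isExactOn_ball
  -- `g * exp (-L₀)` has zero derivative
  set F : ℂ → ℂ := fun z => g z * cexp (-L₀ z) with hF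
  have hFd : ∀ z ∈ ball c r, HasDerivAt F 0 z := by
    intro z hz
    have h1 : HasDerivAt g (deriv g z) z :=
      (hg.differentiableAt (hopen.mem_nhds hz)).hasDerivAt
    have h2 : HasDerivAt (fun z => cexp (-L₀ z)) (cexp (-L₀ z) * (-(deriv g z / g z))) z :=
      ((hL₀ z hz).neg).cexp
    have h3 := h1.mul h2
    have : deriv g z * cexp (-L₀ z) + g z * (cexp (-L₀ z) * -(deriv g z / g z)) = 0 := by
      field_simp [hne z hz]
      ring
    rw [this] at h3
    exact h3
  have hFdiff : DifferentiableOn ℂ F (ball c r) := fun z hz =>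
    (hFd z hz).differentiableAt.differentiableWithinAt
  have hconst : ∀ z ∈ ball c r, F z = F c := by
    intro z hz
    exact hopen.is_const_of_deriv_eq_zero isPreconnected_ball hFdiff
      (fun w hw => (hFd w hw).deriv) hz hc
  have hFc : F c ≠ 0 := mul_ne_zero (hne c hc) (exp_ne_zero _)
  refine ⟨fun z => L₀ z + Complex.log (F c), ?_, ?_⟩
  · have hL₀d : DifferentiableOn ℂ L₀ (ball c r) := fun z hz =>
      (hL₀ z hz).differentiableAt.differentiableWithinAt
    exact hL₀d.add_const _
  · intro z hz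
    have h := hconst z hz
    simp only [hF] at h
    rw [Complex.exp_add, Complex.exp_log hFc]
    simp only [hF]
    rw [← h, mul_comm, mul_assoc, ← Complex.exp_add]
    simp

/-- A nowhere vanishing holomorphic function on an open disc has a holomorphic `p`-th root. -/
theorem exists_pow_eq_on_ball_of_ne_zero {g : ℂ → ℂ} {c : ℂ} {r : ℝ} (p : ℕ) (hp : p ≠ 0)
    (hg : DifferentiableOn ℂ g (ball c r)) (hne : ∀ z ∈ ball c r, g z ≠ 0) :
    ∃ u : ℂ → ℂ, DifferentiableOn ℂ u (ball c r) ∧ ∀ z ∈ ball c r, u z ^ p = g z := by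
  obtain ⟨L, hL, hLg⟩ := exists_exp_eq_on_ball hg hne
  refine ⟨fun z => cexp (L z / p), ?_, fun z hz => ?_⟩
  · exact (hL.div_const _).cexp
  · rw [← Complex.exp_nat_mul, mul_div_cancel₀ _ (Nat.cast_ne_zero.2 hp), hLg z hz]

/-- Two functions which are continuous at `x` and agree on a punctured neighbourhood of `x`
agree at `x`. -/
theorem eq_of_eventuallyEq_nhdsNE {f g : ℂ → ℂ} {x : ℂ} (hf : ContinuousAt f x)
    (hg : ContinuousAt g x) (h : ∀ᶠ z in 𝓝[≠] x, f z = g z) : f x = g x := by
  have h1 : Tendsto f (𝓝[≠] x) (𝓝 (f x)) := hf.tendsto.mono_left nhdsWithin_le_nhds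
  have h2 : Tendsto g (𝓝[≠] x) (𝓝 (g x)) := hg.tendsto.mono_left nhdsWithin_le_nhds
  exact tendsto_nhds_unique h1 (h2.congr' (h.mono fun z hz => hz.symm))

/-- A holomorphic function near a closed disc, nowhere locally zero, all of whose zeros in the
closed disc have order divisible by `p`, has a holomorphic `p`-th root on the open disc. -/
theorem exists_pow_eq_on_ball {G : ℂ → ℂ} {c : ℂ} {r : ℝ} (p : ℕ) (hp : p ≠ 0)
    (hG : AnalyticOnNhd ℂ G (closedBall c r))
    (hord : ∀ z ∈ closedBall c r, ∃ m : ℕ, analyticOrderAt G z = ((p * m : ℕ) : ℕ∞)) :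
    ∃ u : ℂ → ℂ, DifferentiableOn ℂ u (ball c r) ∧ ∀ z ∈ ball c r, u z ^ p = G z := by
  classical
  set K := closedBall c r with hK
  have hmero : MeromorphicOn G K := hG.meromorphicOn
  have hfin : (MeromorphicOn.divisor G K).support.Finite :=
    (MeromorphicOn.divisor G K).finiteSupport (isCompact_closedBall c r)
  have hordK : ∀ z ∈ K, ∃ m : ℕ, meromorphicOrderAt G z = ((p * m : ℕ) : ℤ) := by
    intro z hz
    obtain ⟨m, hm⟩ := hord z hz
    refine ⟨m, ?_⟩
    rw [(hG z hz).meromorphicOrderAt_eq, hm]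
    rfl
  have hne' : ∀ u : K, meromorphicOrderAt G u ≠ ⊤ := by
    intro u
    obtain ⟨m, hm⟩ := hordK u u.2
    rw [hm]
    exact WithTop.coe_ne_top
  obtain ⟨g, hg, hgne, hEq⟩ := hmero.extract_zeros_poles hne' hfin
  set D := MeromorphicOn.divisor G K with hD
  have hDm : ∀ u, ∃ m : ℕ, D u = ((p * m : ℕ) : ℤ) := by
    intro u
    by_cases hu : u ∈ K
    · obtain ⟨m, hm⟩ := hordK u hu
      refine ⟨m, ?_⟩
      rw [hD, MeromorphicOn.divisor_apply hmero hu, hm]
      rfl
    · refine ⟨0, ?_⟩
      have : D u = 0 := Function.locallyFinsuppWithin.apply_eq_zero_of_notMem D hu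
      simp [this]
  choose E hE using hDm
  -- the polynomial part of the root
  set ψ : ℂ → ℂ := fun z => ∏ u ∈ hfin.toFinset, (z - u) ^ (E u) with hψ
  have hψd : Differentiable ℂ ψ := by
    have : ψ = ∏ u ∈ hfin.toFinset, (fun z : ℂ => (z - u) ^ (E u)) := by
      funext z
      rw [hψ, Finset.prod_apply]
    rw [this]
    apply Differentiable.finsetProd
    intro u _
    exact (differentiable_id.sub_const u).pow _
  -- the factorised rational function is `ψ ^ p`
  have hφ : ∀ z, (∏ᶠ u, (fun x : ℂ => x - u) ^ D u) z = ψ z ^ p := by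
    intro z
    rw [Function.FactorizedRational.finprod_eq_fun hfin]
    show (∏ᶠ u, (z - u) ^ D u) = ψ z ^ p
    rw [finprod_eq_prod_of_mulSupport_subset (s := hfin.toFinset)]
    · rw [hψ]
      simp only
      rw [← Finset.prod_pow]
      refine Finset.prod_congr rfl fun u _ => ?_
      rw [hE u, zpow_natCast, ← pow_mul, mul_comm]
    · intro u hu
      simp only [Function.mem_mulSupport, ne_eq] at hu
      simp only [Set.Finite.coe_toFinset, Function.mem_support, ne_eq]
      intro h0
      exact hu (by rw [h0]; simp)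
  -- root of the unit part
  have hgd : DifferentiableOn ℂ g (ball c r) :=
    (hg.mono ball_subset_closedBall).differentiableOn
  obtain ⟨w, hwd, hw⟩ := exists_pow_eq_on_ball_of_ne_zero p hp hgd
    (fun z hz => hgne ⟨z, ball_subset_closedBall hz⟩)
  refine ⟨fun z => ψ z * w z, hψd.differentiableOn.mul hwd, fun z hz => ?_⟩
  rw [mul_pow, hw z hz, ← hφ z]
  -- upgrade the codiscrete equality to an equality at `z`
  have hS := hEq
  rw [Filter.EventuallyEq, Filter.Eventually, mem_codiscreteWithin] at hS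
  have hzK : z ∈ K := ball_subset_closedBall hz
  have h1 := hS z hzK
  rw [Filter.disjoint_principal_right] at h1
  have h2 : ∀ᶠ y in 𝓝[≠] z, y ∈ K := by
    have : ball c r ∈ 𝓝 z := isOpen_ball.mem_nhds hz
    exact mem_nhdsWithin_of_mem_nhds (Filter.mem_of_superset this ball_subset_closedBall)
  have h3 : ∀ᶠ y in 𝓝[≠] z, G y = ((∏ᶠ u, (fun x : ℂ => x - u) ^ D u) • g) y := by
    filter_upwards [h1, h2] with y hy1 hy2
    by_contra hcon
    exact hy1 ⟨hy2, hcon⟩
  have hcG : ContinuousAt G z := (hG z hzK).continuousAt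
  have hcR : ContinuousAt (fun y => ((∏ᶠ u, (fun x : ℂ => x - u) ^ D u) • g) y) z := by
    have : (fun y => ((∏ᶠ u, (fun x : ℂ => x - u) ^ D u) • g) y) = fun y => ψ y ^ p * g y := by
      funext y
      simp only [Pi.smul_apply', smul_eq_mul, hφ y]
    rw [this]
    exact ((hψd.continuous.continuousAt).pow p).mul (hg z hzK).continuousAt
  have := eq_of_eventuallyEq_nhdsNE hcG hcR h3
  rw [this]
  simp [Pi.smul_apply', smul_eq_mul]


end Fermat.Agent.S29.H751

end
-- ===== PACK-END S29/H751/PthRootBall.lean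

-- ===== PACK-BEGIN S29/H751/PthRoot.lean
section


set_option autoImplicit false

open Complex Set Metric Filter Topology

namespace Fermat.Agent.S29.H751

/-- Uniqueness of normalised `p`-th roots on a preconnected open set. -/
theorem eqOn_of_pow_eq_of_eq {U : Set ℂ} (hU : IsOpen U) (hUc : IsPreconnected U)
    {u v : ℂ → ℂ} (hu : DifferentiableOn ℂ u U) (hv : DifferentiableOn ℂ v U) {p : ℕ}
    (hp : p ≠ 0) (huv : ∀ z ∈ U, u z ^ p = v z ^ p) {z₀ : ℂ} (hz₀ : z₀ ∈ U)
    (h0 : u z₀ = v z₀) (hne : u z₀ ≠ 0) : EqOn u v U := by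
  have hua := hu.analyticOnNhd hU
  have hva := hv.analyticOnNhd hU
  refine hua.eqOn_of_preconnected_of_eventuallyEq hva hUc hz₀ ?_
  -- the cofactor `∑ u^i v^(p-1-i)` is nonzero near `z₀`
  set S : ℂ → ℂ := fun z => ∑ i ∈ Finset.range p, u z ^ i * v z ^ (p - 1 - i) with hS
  have hScont : ContinuousAt S z₀ := by
    have hcu : ContinuousAt u z₀ := (hua z₀ hz₀).continuousAt
    have hcv : ContinuousAt v z₀ := (hva z₀ hz₀).continuousAt
    rw [hS]
    exact tendsto_finsetSum _ fun i _ => (hcu.pow i).mul (hcv.pow _)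
  have hS0 : S z₀ ≠ 0 := by
    have : S z₀ = p * u z₀ ^ (p - 1) := by
      simp only [hS, ← h0]
      rw [Finset.sum_congr rfl (fun i hi => by
        rw [← pow_add, Nat.add_sub_of_le (Nat.le_sub_one_of_lt (Finset.mem_range.1 hi))]),
        Finset.sum_const, Finset.card_range, nsmul_eq_mul]
    rw [this]
    exact mul_ne_zero (Nat.cast_ne_zero.2 hp) (pow_ne_zero _ hne)
  have h1 : ∀ᶠ z in 𝓝 z₀, S z ≠ 0 := hScont.eventually_ne hS0
  have h2 : ∀ᶠ z in 𝓝 z₀, z ∈ U := hU.mem_nhds hz₀
  filter_upwards [h1, h2] with z hz1 hz2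
  have h3 : S z * (u z - v z) = u z ^ p - v z ^ p := by
    simp only [hS]
    exact (Commute.all (u z) (v z)).geom_sum₂_mul p
  rw [huv z hz2, sub_self] at h3
  rcases mul_eq_zero.1 h3 with h | h
  · exact absurd h hz1
  · exact sub_eq_zero.1 h

/-- For two points of the upper half plane there is a disc containing both whose closure
is contained in the upper half plane. -/
theorem exists_ball_upperHalfPlane {z₀ z : ℂ} (hz₀ : 0 < z₀.im) (hz : 0 < z.im) :
    ∃ (c : ℂ) (r : ℝ), z₀ ∈ ball c r ∧ z ∈ ball c r ∧ closedBall c r ⊆ {w : ℂ | 0 < w.im} := by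
  set δ : ℝ := min z.im z₀.im / 2 with hδ
  have hδ0 : 0 < δ := by rw [hδ]; have := lt_min hz hz₀; linarith
  have hδz : δ < z.im := by
    rw [hδ]; have := min_le_left z.im z₀.im; linarith
  have hδz₀ : δ < z₀.im := by
    rw [hδ]; have := min_le_right z.im z₀.im; linarith
  set d : ℝ := (z.re - z₀.re) ^ 2 with hd
  have hd0 : 0 ≤ d := sq_nonneg _
  set R : ℝ := z.im + z₀.im + d / δ with hR
  have hdδ : 0 ≤ d / δ := div_nonneg hd0 hδ0.le
  have hRδ : 0 < R - δ := by rw [hR]; linarith
  refine ⟨⟨z₀.re, R⟩, R - δ, ?_, ?_, ?_⟩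
  · rw [mem_ball, dist_eq_norm]
    have : z₀ - (⟨z₀.re, R⟩ : ℂ) = ⟨0, z₀.im - R⟩ := by
      apply Complex.ext <;> simp
    rw [this]
    have h2 : ‖(⟨0, z₀.im - R⟩ : ℂ)‖ = |z₀.im - R| := by
      rw [Complex.norm_def, Complex.normSq_mk]
      simp [← sq, Real.sqrt_sq_eq_abs]
    rw [h2, abs_lt]
    constructor <;> rw [hR] <;> linarith
  · rw [mem_ball, dist_eq_norm]
    have : z - (⟨z₀.re, R⟩ : ℂ) = ⟨z.re - z₀.re, z.im - R⟩ := by
      apply Complex.ext <;> simp
    rw [this]
    apply lt_of_pow_lt_pow_left₀ 2 hRδ.le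
    rw [Complex.sq_norm, Complex.normSq_mk]
    have key : d < (z.im - δ) * (2 * R - δ - z.im) := by
      have h1 : δ * (2 * (d / δ)) = 2 * d := by field_simp
      have h2 : 0 < z.im - δ := by linarith
      have h3 : 2 * (d / δ) < 2 * R - δ - z.im := by rw [hR]; linarith
      have h4 : δ ≤ z.im - δ := by
        rw [hδ]; have := min_le_left z.im z₀.im; linarith
      calc d ≤ 2 * d := by linarith
        _ = δ * (2 * (d / δ)) := h1.symm
        _ ≤ (z.im - δ) * (2 * (d / δ)) := by
            apply mul_le_mul_of_nonneg_right h4; linarith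
        _ < (z.im - δ) * (2 * R - δ - z.im) := by
            apply mul_lt_mul_of_pos_left h3 h2
    nlinarith [key]
  · intro w hw
    rw [mem_closedBall, dist_eq_norm] at hw
    have h1 : |(w - (⟨z₀.re, R⟩ : ℂ)).im| ≤ ‖w - (⟨z₀.re, R⟩ : ℂ)‖ := Complex.abs_im_le_norm _
    have h2 : (w - (⟨z₀.re, R⟩ : ℂ)).im = w.im - R := by simp
    rw [h2] at h1
    have h3 := (abs_le.1 (h1.trans hw)).1
    show 0 < w.im
    linarith


/-- **Holomorphic `p`-th roots on the upper half plane.**  A holomorphic function on the upper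
half plane all of whose orders of vanishing are finite and divisible by `p` is the `p`-th power
of a holomorphic function. -/
theorem exists_pow_eq_on_upperHalfPlane {G : ℂ → ℂ} (p : ℕ) (hp : p ≠ 0)
    (hG : DifferentiableOn ℂ G {z : ℂ | 0 < z.im})
    (hord : ∀ z : ℂ, 0 < z.im → ∃ m : ℕ, analyticOrderAt G z = ((p * m : ℕ) : ℕ∞)) :
    ∃ u : ℂ → ℂ, DifferentiableOn ℂ u {z : ℂ | 0 < z.im} ∧
      ∀ z : ℂ, 0 < z.im → u z ^ p = G z := by
  classical
  set H : Set ℂ := {z : ℂ | 0 < z.im} with hH
  have hHo : IsOpen H := isOpen_lt continuous_const Complex.continuous_im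
  have hGa : AnalyticOnNhd ℂ G H := hG.analyticOnNhd hHo
  -- a base point where `G` does not vanish
  obtain ⟨z₀, hz₀, hGz₀⟩ : ∃ z₀ ∈ H, G z₀ ≠ 0 := by
    have hI : (0 : ℝ) < Complex.I.im := by simp
    obtain ⟨m, hm⟩ := hord Complex.I hI
    have hnt : analyticOrderAt G Complex.I ≠ ⊤ := by rw [hm]; exact ENat.natCast_ne_top _
    rw [Ne, analyticOrderAt_eq_top] at hnt
    have h1 : ∃ᶠ z in 𝓝 Complex.I, G z ≠ 0 := by
      rw [Filter.Frequently]
      intro h
      apply hnt
      filter_upwards [h] with z hz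
      exact not_not.1 hz
    have h2 : ∀ᶠ z in 𝓝 Complex.I, z ∈ H := hHo.mem_nhds hI
    obtain ⟨z, hz1, hz2⟩ := (h1.and_eventually h2).exists
    exact ⟨z, hz2, hz1⟩
  obtain ⟨w₀, hw₀⟩ := IsAlgClosed.exists_pow_nat_eq (G z₀) (Nat.pos_of_ne_zero hp)
  have hw₀ne : w₀ ≠ 0 := by
    intro h
    rw [h, zero_pow hp] at hw₀
    exact hGz₀ hw₀.symm
  -- local normalised roots
  have key : ∀ z : ℂ, 0 < z.im → ∃ (c : ℂ) (r : ℝ) (v : ℂ → ℂ), z₀ ∈ ball c r ∧ z ∈ ball c r ∧
      closedBall c r ⊆ H ∧ DifferentiableOn ℂ v (ball c r) ∧ (∀ y ∈ ball c r, v y ^ p = G y) ∧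
      v z₀ = w₀ := by
    intro z hz
    obtain ⟨c, r, h1, h2, h3⟩ := exists_ball_upperHalfPlane hz₀ hz
    obtain ⟨v, hv, hvp⟩ := exists_pow_eq_on_ball (G := G) (c := c) (r := r) p hp (hGa.mono h3)
      (fun y hy => hord y (h3 hy))
    have hvz₀ : v z₀ ≠ 0 := by
      intro h
      have := hvp z₀ h1
      rw [h, zero_pow hp] at this
      exact hGz₀ this.symm
    refine ⟨c, r, fun y => (w₀ / v z₀) * v y, h1, h2, h3, ?_, ?_, ?_⟩
    · exact hv.const_mul _
    · intro y hy
      rw [mul_pow, div_pow, hw₀, hvp z₀ h1, hvp y hy, div_self hGz₀, one_mul]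
    · field_simp
  choose! c r v hv1 hv2 hv3 hv4 hv5 hv6 using key
  -- compatibility
  have compat : ∀ z z' : ℂ, 0 < z.im → 0 < z'.im →
      EqOn (v z) (v z') (ball (c z) (r z) ∩ ball (c z') (r z')) := by
    intro z z' hz hz'
    refine eqOn_of_pow_eq_of_eq (isOpen_ball.inter isOpen_ball)
      ((convex_ball _ _).inter (convex_ball _ _)).isPreconnected
      ((hv4 z hz).mono inter_subset_left) ((hv4 z' hz').mono inter_subset_right) hp ?_
      ⟨hv1 z hz, hv1 z' hz'⟩ ?_ ?_
    · intro y hy
      rw [hv5 z hz y hy.1, hv5 z' hz' y hy.2]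
    · rw [hv6 z hz, hv6 z' hz']
    · rw [hv6 z hz]; exact hw₀ne
  refine ⟨fun y => v y y, ?_, ?_⟩
  · intro z hz
    have hz' : 0 < z.im := hz
    have hev : (fun y => v y y) =ᶠ[𝓝 z] v z := by
      have hB : ball (c z) (r z) ∈ 𝓝 z := isOpen_ball.mem_nhds (hv2 z hz')
      filter_upwards [hB] with y hy
      have hy' : 0 < y.im := hv3 z hz' (ball_subset_closedBall hy)
      exact compat y z hy' hz' ⟨hv2 y hy', hy⟩
    have hd : DifferentiableAt ℂ (v z) z :=
      (hv4 z hz').differentiableAt (isOpen_ball.mem_nhds (hv2 z hz'))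
    exact (hev.differentiableAt_iff.2 hd).differentiableWithinAt
  · intro z hz
    exact hv5 z hz z (hv2 z hz)

end Fermat.Agent.S29.H751

end
-- ===== PACK-END S29/H751/PthRoot.lean

-- ===== PACK-BEGIN S29/H32/AutOrbit.lean
section
/-
S29 row, helper32: automorphisms of an algebraically closed field over an algebraically closed
subfield.  Mathlib-only.

Main results (namespace `Fermat.Agent.S29.H32`):
* `exists_algEquiv_apply_eq_add` : a transcendental element `z` of an algebraically closed field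
  `Ω` over a field `k` can be moved to `z + c` (`c ∈ k`) by a `k`-automorphism of `Ω`.
* `mem_range_of_finite_orbit` : if `k` is algebraically closed and `z : Ω` has only finitely many
  conjugates under `Ω ≃ₐ[k] Ω`, then `z ∈ k`.
* `mem_range_of_fixed_of_finiteIndex` : the fixed field of a finite-index subgroup of
  `Ω ≃ₐ[k] Ω` is `k`.
-/


set_option autoImplicit false

namespace Fermat.Agent.S29.H32

open MvPolynomial

section Shift

variable {k : Type*} [CommRing k] {ι : Type*} [DecidableEq ι]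

/-- The `k`-algebra endomorphism of `k[X_i]` sending `X_{i₀} ↦ X_{i₀} + c` and fixing the other
variables. -/
noncomputable def shiftHom (i₀ : ι) (c : k) : MvPolynomial ι k →ₐ[k] MvPolynomial ι k :=
  aeval fun i => if i = i₀ then X i + C c else X i

theorem shiftHom_X (i₀ : ι) (c : k) (i : ι) :
    shiftHom i₀ c (X i) = if i = i₀ then X i + C c else X i := by
  simp [shiftHom]

theorem shiftHom_comp (i₀ : ι) (c d : k) :
    (shiftHom i₀ c).comp (shiftHom i₀ d) = shiftHom i₀ (c + d) := by
  apply MvPolynomial.algHom_ext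
  intro i
  by_cases h : i = i₀
  · subst h
    simp only [shiftHom, AlgHom.comp_apply, aeval_X, if_true, map_add, algHom_C,
      algebraMap_eq, map_add, add_assoc]
  · simp [shiftHom, h]

theorem shiftHom_zero (i₀ : ι) : shiftHom i₀ (0 : k) = AlgHom.id k (MvPolynomial ι k) := by
  apply MvPolynomial.algHom_ext
  intro i
  by_cases h : i = i₀ <;> simp [shiftHom, h]

/-- The shift as an algebra automorphism. -/
noncomputable def shiftEquiv (i₀ : ι) (c : k) : MvPolynomial ι k ≃ₐ[k] MvPolynomial ι k :=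
  AlgEquiv.ofAlgHom (shiftHom i₀ c) (shiftHom i₀ (-c))
    (by rw [shiftHom_comp, add_neg_cancel, shiftHom_zero])
    (by rw [shiftHom_comp, neg_add_cancel, shiftHom_zero])

theorem shiftEquiv_X_self (i₀ : ι) (c : k) : shiftEquiv i₀ c (X i₀) = X i₀ + C c := by
  simp [shiftEquiv, shiftHom_X]

end Shift

section Move

variable {k Ω : Type*} [Field k] [Field Ω] [Algebra k Ω] [IsAlgClosed Ω]

/-- A transcendental element of an algebraically closed field can be translated by any
constant by an automorphism. -/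
theorem exists_algEquiv_apply_eq_add (z : Ω) (hz : Transcendental k z) (c : k) :
    ∃ σ : Ω ≃ₐ[k] Ω, σ z = z + algebraMap k Ω c := by
  classical
  have hs : AlgebraicIndepOn k id ({z} : Set Ω) := by
    have : AlgebraicIndependent k (fun x : ({z} : Set Ω) => (x : Ω)) := by
      rw [algebraicIndependent_singleton_iff (⟨z, rfl⟩ : ({z} : Set Ω))]
      exact hz
    exact this
  obtain ⟨t, hzt, ht⟩ := exists_isTranscendenceBasis_superset hs
  set B : t → Ω := fun x => (x : Ω) with hB
  have hzmem : z ∈ t := hzt rfl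
  let i₀ : t := ⟨z, hzmem⟩
  have hcl := IsAlgClosed.isAlgClosure_of_transcendence_basis B ht
  -- the automorphism of the polynomial subalgebra
  let e₀ : Algebra.adjoin k (Set.range B) ≃ₐ[k] Algebra.adjoin k (Set.range B) :=
    (ht.1.aevalEquiv.symm.trans (shiftEquiv i₀ c)).trans ht.1.aevalEquiv
  have he₀ : ∀ x, (e₀ x : Ω) = aeval B (shiftEquiv i₀ c (ht.1.aevalEquiv.symm x)) := by
    intro x
    simp only [e₀, AlgEquiv.trans_apply]
    exact AlgebraicIndependent.algebraMap_aevalEquiv ht.1 _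
  let σ₀ : Ω ≃+* Ω := IsAlgClosure.equivOfEquiv Ω Ω e₀.toRingEquiv
  have hσ₀ : ∀ r : Algebra.adjoin k (Set.range B),
      σ₀ (algebraMap _ Ω r) = algebraMap _ Ω (e₀ r) := fun r =>
    IsAlgClosure.equivOfEquiv_algebraMap Ω Ω e₀.toRingEquiv r
  have hcomm : ∀ a : k, σ₀ (algebraMap k Ω a) = algebraMap k Ω a := by
    intro a
    have h1 : algebraMap k Ω a
        = algebraMap (Algebra.adjoin k (Set.range B)) Ω (algebraMap k _ a) := rfl
    rw [h1, hσ₀, e₀.commutes]
  refine ⟨AlgEquiv.ofRingEquiv (f := σ₀) hcomm, ?_⟩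
  have hzB : z = algebraMap (Algebra.adjoin k (Set.range B)) Ω
      ⟨z, Algebra.subset_adjoin ⟨i₀, rfl⟩⟩ := rfl
  show σ₀ z = _
  conv_lhs => rw [hzB]
  rw [hσ₀]
  show (e₀ _ : Ω) = _
  rw [he₀]
  have hsymm : ht.1.aevalEquiv.symm ⟨z, Algebra.subset_adjoin ⟨i₀, rfl⟩⟩ = X i₀ := by
    rw [AlgEquiv.symm_apply_eq]
    apply Subtype.ext
    show z = algebraMap (Algebra.adjoin k (Set.range B)) Ω (ht.1.aevalEquiv (X i₀))
    rw [AlgebraicIndependent.algebraMap_aevalEquiv, aeval_X]
  rw [hsymm, shiftEquiv_X_self]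
  simp [B, i₀]

end Move

section Orbit

variable {k Ω : Type*} [Field k] [Field Ω] [Algebra k Ω] [IsAlgClosed k] [IsAlgClosed Ω]

omit [IsAlgClosed Ω] in
/-- Over an algebraically closed field, an element which is not a constant is transcendental. -/
theorem transcendental_of_not_mem_range {z : Ω} (hz : z ∉ Set.range (algebraMap k Ω)) :
    Transcendental k z := by
  intro halg
  apply hz
  have hint : IsIntegral k z := halg.isIntegral
  have hdeg : (minpoly k z).degree = 1 :=
    IsAlgClosed.degree_eq_one_of_irreducible k (minpoly.irreducible hint)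
  exact minpoly.mem_range_of_degree_eq_one k z hdeg

/-- An element with finitely many conjugates under `Aut(Ω/k)` lies in `k`
(`k`, `Ω` algebraically closed). -/
theorem mem_range_of_finite_orbit (z : Ω)
    (h : (Set.range fun σ : Ω ≃ₐ[k] Ω => σ z).Finite) : z ∈ Set.range (algebraMap k Ω) := by
  by_contra hz
  have htr := transcendental_of_not_mem_range hz
  have hinj : Function.Injective fun c : k => z + algebraMap k Ω c := by
    intro c d hcd
    exact (algebraMap k Ω).injective (add_left_cancel hcd)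
  have hsub : (Set.range fun c : k => z + algebraMap k Ω c)
      ⊆ Set.range fun σ : Ω ≃ₐ[k] Ω => σ z := by
    rintro _ ⟨c, rfl⟩
    obtain ⟨σ, hσ⟩ := exists_algEquiv_apply_eq_add z htr c
    exact ⟨σ, hσ⟩
  have : Infinite k := IsAlgClosed.instInfinite
  exact Set.infinite_range_of_injective hinj (h.subset hsub)

/-- The fixed field of a finite-index subgroup of `Aut(Ω/k)` is `k`. -/
theorem mem_range_of_fixed_of_finiteIndex (H : Subgroup (Ω ≃ₐ[k] Ω)) [H.FiniteIndex] (z : Ω)
    (hfix : ∀ σ ∈ H, σ z = z) : z ∈ Set.range (algebraMap k Ω) := by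
  apply mem_range_of_finite_orbit
  -- the orbit map factors through the finite quotient `G ⧸ H`
  let f : (Ω ≃ₐ[k] Ω) ⧸ H → Ω := Quotient.lift (fun σ : Ω ≃ₐ[k] Ω => σ z) (by
    intro a b hab
    have hab' : a⁻¹ * b ∈ H := QuotientGroup.leftRel_apply.mp hab
    have := hfix _ hab'
    show a z = b z
    have h2 : b z = a ((a⁻¹ * b) z) := by
      simp [AlgEquiv.mul_apply, AlgEquiv.aut_inv]
    rw [h2, this])
  have : Finite ((Ω ≃ₐ[k] Ω) ⧸ H) := Subgroup.finite_quotient_of_finiteIndex
  have : (Set.range fun σ : Ω ≃ₐ[k] Ω => σ z) ⊆ Set.range f := by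
    rintro _ ⟨σ, rfl⟩
    exact ⟨QuotientGroup.mk σ, rfl⟩
  exact (Set.finite_range f).subset this

end Orbit

end Fermat.Agent.S29.H32

end
-- ===== PACK-END S29/H32/AutOrbit.lean

-- ===== PACK-BEGIN S20/H270/PingPong.lean
section


/-!
# `PSL(2,ℤ) = C₂ * C₃`, as a universal property of `SL(2,ℤ)`

Main result: `exists_monoidHom_of_sq_of_cube` — for every group `A` and `x y : A` with
`x ^ 2 = 1`, `y ^ 3 = 1` there is a homomorphism `Ψ : SL(2,ℤ) →* A` with `Ψ S = x`,
`Ψ (S * T) = y`.  Proof: ping-pong for the action on the upper half plane.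
-/

set_option autoImplicit false

open scoped MatrixGroups UpperHalfPlane
open ModularGroup

namespace Fermat.Agent.S20.H270

/-- The element `U = S * T` (of order `3` in `PSL(2,ℤ)`). -/
def Umat : SL(2, ℤ) := S * T

theorem S_sq_eq_neg_one : (S : SL(2, ℤ)) ^ 2 = -1 := by decide

theorem Umat_cube_eq_neg_one : Umat ^ 3 = -1 := by decide

theorem T_eq_S_inv_mul_Umat : (T : SL(2, ℤ)) = S⁻¹ * Umat := by
  simp [Umat]

/-- The homomorphism from a cyclic group of order `n` determined by `x` with `x ^ n = 1`. -/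
noncomputable def cycHom {A : Type*} [Group A] (n : ℕ) (x : A) (hx : x ^ n = 1) :
    Multiplicative (ZMod n) →* A :=
  AddMonoidHom.toMultiplicativeLeft
    (ZMod.lift n ⟨zmultiplesHom (Additive A) (Additive.ofMul x), by
      show ((n : ℤ) • Additive.ofMul x : Additive A) = 0
      rw [natCast_zsmul, ← ofMul_pow, hx]; rfl⟩)

theorem cycHom_ofAdd_intCast {A : Type*} [Group A] (n : ℕ) (x : A) (hx : x ^ n = 1) (k : ℤ) :
    cycHom n x hx (Multiplicative.ofAdd (k : ZMod n)) = x ^ k := by
  simp [cycHom]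

theorem cycHom_ofAdd_one {A : Type*} [Group A] (n : ℕ) (x : A) (hx : x ^ n = 1) :
    cycHom n x hx (Multiplicative.ofAdd (1 : ZMod n)) = x := by
  have := cycHom_ofAdd_intCast n x hx 1
  simpa using this


/-! ### Real parts under `S` and `U = S * T` -/

open UpperHalfPlane

theorem re_S_smul_eq (z : ℍ) : (S • z).re = - z.re / Complex.normSq (z : ℂ) := by
  rw [modular_S_smul]
  show ((-(z : ℂ))⁻¹).re = _
  rw [Complex.inv_re]
  simp [Complex.normSq_neg]

theorem re_S_smul_pos {z : ℍ} (h : z.re < 0) : 0 < (S • z).re := by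
  rw [re_S_smul_eq]
  have hz : 0 < Complex.normSq (z : ℂ) := Complex.normSq_pos.mpr z.ne_zero
  exact div_pos (by linarith) hz

theorem re_S_smul_neg {z : ℍ} (h : 0 < z.re) : (S • z).re < 0 := by
  rw [re_S_smul_eq]
  have hz : 0 < Complex.normSq (z : ℂ) := Complex.normSq_pos.mpr z.ne_zero
  exact div_neg_of_neg_of_pos (by linarith) hz

/-- If `re z > -1` then `re (U z) < 0`. -/
theorem re_Umat_smul_neg {z : ℍ} (h : -1 < z.re) : (Umat • z).re < 0 := by
  rw [Umat, mul_smul]
  apply re_S_smul_neg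
  rw [re_T_smul]; linarith

/-- If `re z > 0` then `re (U z) > -1`. -/
theorem neg_one_lt_re_Umat_smul {z : ℍ} (h : 0 < z.re) : -1 < (Umat • z).re := by
  rw [Umat, mul_smul, re_S_smul_eq]
  have hz : 0 < Complex.normSq ((T • z : ℍ) : ℂ) := Complex.normSq_pos.mpr (T • z).ne_zero
  rw [lt_div_iff₀ hz]
  have h1 : (T • z).re = z.re + 1 := re_T_smul z
  have h2 : Complex.normSq ((T • z : ℍ) : ℂ) = (T • z).re ^ 2 + (T • z).im ^ 2 := by
    rw [Complex.normSq_apply]; simp only [UpperHalfPlane.coe_re, UpperHalfPlane.coe_im]; ring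
  rw [h2, h1]
  have him : 0 < (T • z).im := (T • z).im_pos
  nlinarith [sq_nonneg ((T • z).im)]

/-! ### The ping-pong -/

/-- The action of `SL(2,ℤ)` on `ℍ` as a homomorphism to permutations. -/
noncomputable def rhoH : SL(2, ℤ) →* Equiv.Perm ℍ := MulAction.toPermHom SL(2, ℤ) ℍ

@[simp] theorem rhoH_apply (g : SL(2, ℤ)) (z : ℍ) : rhoH g z = g • z := rfl

theorem rhoH_neg_one : rhoH (-1) = 1 := by
  refine Equiv.ext fun z => ?_
  show ((-1 : SL(2, ℤ)) • z : ℍ) = z
  rw [SL_neg_smul, one_smul]

theorem rhoH_S_sq : rhoH S ^ 2 = 1 := by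
  rw [← map_pow, S_sq_eq_neg_one, rhoH_neg_one]

theorem rhoH_Umat_cube : rhoH Umat ^ 3 = 1 := by
  rw [← map_pow, Umat_cube_eq_neg_one, rhoH_neg_one]

/-- Orders of the two cyclic factors: `false ↦ 2`, `true ↦ 3`. -/
@[reducible] def cycOrd : Bool → ℕ
  | false => 2
  | true => 3

/-- The two cyclic factors. -/
abbrev Cyc (b : Bool) : Type := Multiplicative (ZMod (cycOrd b))

/-- The family of homomorphisms `C₂ → A`, `C₃ → A` attached to `x`, `y`. -/
noncomputable def famHom {A : Type*} [Group A] (x y : A) (hx : x ^ 2 = 1) (hy : y ^ 3 = 1) :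
    ∀ b : Bool, Cyc b →* A
  | false => cycHom 2 x hx
  | true => cycHom 3 y hy

/-- The ping-pong sets: right and left half planes. -/
def ppSet : Bool → Set ℍ
  | false => {z | 0 < z.re}
  | true => {z | z.re < 0}

theorem cyc_two_cases (h : Multiplicative (ZMod 2)) (hne : h ≠ 1) :
    h = Multiplicative.ofAdd (1 : ZMod 2) := by
  revert h
  decide

theorem cyc_three_cases (h : Multiplicative (ZMod 3)) (hne : h ≠ 1) :
    h = Multiplicative.ofAdd (1 : ZMod 3) ∨ h = Multiplicative.ofAdd (1 : ZMod 3) ^ 2 := by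
  revert h
  decide


/-- The family of homomorphisms `C₂, C₃ → Perm ℍ` given by `S` and `U`. -/
noncomputable def famH : ∀ b : Bool, Cyc b →* Equiv.Perm ℍ :=
  famHom (rhoH S) (rhoH Umat) rhoH_S_sq rhoH_Umat_cube

theorem famH_false_gen : famH false (Multiplicative.ofAdd (1 : ZMod 2)) = rhoH S :=
  cycHom_ofAdd_one 2 (rhoH S) rhoH_S_sq

theorem famH_true_gen : famH true (Multiplicative.ofAdd (1 : ZMod 3)) = rhoH Umat :=
  cycHom_ofAdd_one 3 (rhoH Umat) rhoH_Umat_cube

theorem ppSet_S {z : ℍ} (hz : z ∈ ppSet true) : rhoH S z ∈ ppSet false :=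
  re_S_smul_pos hz

theorem ppSet_U {z : ℍ} (hz : z ∈ ppSet false) : rhoH Umat z ∈ ppSet true :=
  re_Umat_smul_neg (by have : 0 < z.re := hz; linarith)

theorem ppSet_U_sq {z : ℍ} (hz : z ∈ ppSet false) : (rhoH Umat ^ 2) z ∈ ppSet true := by
  rw [pow_two, Equiv.Perm.mul_apply]
  exact re_Umat_smul_neg (neg_one_lt_re_Umat_smul hz)

theorem lift_famH_injective : Function.Injective (Monoid.CoprodI.lift famH) := by
  refine Monoid.CoprodI.lift_injective_of_ping_pong famH (Or.inr ⟨true, ?_⟩) ppSet ?_ ?_ ?_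
  · show (3 : Cardinal) ≤ Cardinal.mk (Multiplicative (ZMod 3))
    rw [Cardinal.mk_fintype]
    have h3 : Fintype.card (Multiplicative (ZMod 3)) = 3 := by
      rw [Fintype.card_multiplicative]; exact ZMod.card 3
    rw [h3]; norm_num
  · intro b
    cases b
    · exact ⟨⟨⟨1, 1⟩, by simp⟩, by show (0 : ℝ) < 1; norm_num⟩
    · exact ⟨⟨⟨-1, 1⟩, by simp⟩, by show (-1 : ℝ) < 0; norm_num⟩
  · intro i j hij
    have key : Disjoint (ppSet false) (ppSet true) := by
      rw [Set.disjoint_left]
      intro z (h1 : 0 < z.re) (h2 : z.re < 0)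
      linarith
    cases i <;> cases j
    · exact absurd rfl hij
    · exact key
    · exact key.symm
    · exact absurd rfl hij
  · intro i j hij h hne
    cases i <;> cases j
    · exact absurd rfl hij
    · rw [cyc_two_cases h hne, famH_false_gen, Set.smul_set_subset_iff]
      intro z hz
      exact ppSet_S hz
    · rcases cyc_three_cases h hne with rfl | rfl
      · rw [famH_true_gen, Set.smul_set_subset_iff]
        intro z hz
        exact ppSet_U hz
      · rw [map_pow, famH_true_gen, Set.smul_set_subset_iff]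
        intro z hz
        exact ppSet_U_sq hz
    · exact absurd rfl hij


theorem cycHom_mem_range {G A : Type*} [Group G] [Group A] (φ : G →* A) (n : ℕ) (g : G)
    (hx : φ g ^ n = 1) (h : Multiplicative (ZMod n)) : cycHom n (φ g) hx h ∈ φ.range := by
  obtain ⟨k, hk⟩ := ZMod.intCast_surjective (Multiplicative.toAdd h)
  have : h = Multiplicative.ofAdd (k : ZMod n) := by rw [hk]; rfl
  rw [this, cycHom_ofAdd_intCast, ← map_zpow]
  exact ⟨g ^ k, rfl⟩

theorem famH_mem_range (b : Bool) (h : Cyc b) : famH b h ∈ rhoH.range := by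
  cases b
  · exact cycHom_mem_range rhoH 2 S rhoH_S_sq h
  · exact cycHom_mem_range rhoH 3 Umat rhoH_Umat_cube h

theorem range_lift_famH : (Monoid.CoprodI.lift famH).range = rhoH.range := by
  apply le_antisymm
  · rw [Monoid.CoprodI.range_eq_iSup]
    refine iSup_le fun b => ?_
    rintro _ ⟨h, rfl⟩
    exact famH_mem_range b h
  · rw [MonoidHom.range_eq_map, ← SpecialLinearGroup.SL2Z_generators, MonoidHom.map_closure,
      Subgroup.closure_le]
    have hS : rhoH S ∈ (Monoid.CoprodI.lift famH).range :=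
      ⟨Monoid.CoprodI.of (i := false) (Multiplicative.ofAdd (1 : ZMod 2)), by
        rw [Monoid.CoprodI.lift_of]; exact famH_false_gen⟩
    have hU : rhoH Umat ∈ (Monoid.CoprodI.lift famH).range :=
      ⟨Monoid.CoprodI.of (i := true) (Multiplicative.ofAdd (1 : ZMod 3)), by
        rw [Monoid.CoprodI.lift_of]; exact famH_true_gen⟩
    rintro _ ⟨g, hg, rfl⟩
    rcases hg with rfl | hg
    · exact hS
    · rw [Set.mem_singleton_iff] at hg
      subst hg
      rw [T_eq_S_inv_mul_Umat, map_mul, map_inv]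
      exact mul_mem (inv_mem hS) hU

/-- **Universal property of `PSL(2,ℤ) = C₂ * C₃`**, stated on `SL(2,ℤ)`: for `x y` in a group
with `x ^ 2 = 1` and `y ^ 3 = 1` there is a homomorphism `SL(2,ℤ) → A` with `S ↦ x`,
`S * T ↦ y`. -/
theorem exists_monoidHom_of_sq_of_cube {A : Type*} [Group A] (x y : A) (hx : x ^ 2 = 1)
    (hy : y ^ 3 = 1) : ∃ Ψ : SL(2, ℤ) →* A, Ψ S = x ∧ Ψ (S * T) = y := by
  classical
  set π := Monoid.CoprodI.lift famH with hπdef
  have hπ : Function.Injective π := lift_famH_injective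
  let e : Monoid.CoprodI Cyc ≃* π.range := MonoidHom.ofInjective hπ
  let Φ : Monoid.CoprodI Cyc →* A := Monoid.CoprodI.lift (famHom x y hx hy)
  have hr : ∀ g, rhoH g ∈ π.range := fun g => by
    rw [hπdef, range_lift_famH]; exact ⟨g, rfl⟩
  let ρ' : SL(2, ℤ) →* π.range := rhoH.codRestrict π.range hr
  have key : ∀ (g : SL(2, ℤ)) (w : Monoid.CoprodI Cyc), π w = rhoH g →
      Φ (e.symm (ρ' g)) = Φ w := by
    intro g w hw
    congr 1
    rw [MulEquiv.symm_apply_eq]
    apply Subtype.ext
    rw [MonoidHom.ofInjective_apply]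
    exact hw.symm
  refine ⟨Φ.comp (e.symm.toMonoidHom.comp ρ'), ?_, ?_⟩
  · show Φ (e.symm (ρ' S)) = x
    rw [key S (Monoid.CoprodI.of (i := false) (Multiplicative.ofAdd (1 : ZMod 2)))
      (by rw [hπdef, Monoid.CoprodI.lift_of]; exact famH_false_gen)]
    rw [Monoid.CoprodI.lift_of]
    exact cycHom_ofAdd_one 2 x hx
  · show Φ (e.symm (ρ' (S * T))) = y
    rw [key (S * T) (Monoid.CoprodI.of (i := true) (Multiplicative.ofAdd (1 : ZMod 3)))
      (by rw [hπdef, Monoid.CoprodI.lift_of]; exact famH_true_gen)]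
    rw [Monoid.CoprodI.lift_of]
    exact cycHom_ofAdd_one 3 y hy

end Fermat.Agent.S20.H270

end
-- ===== PACK-END S20/H270/PingPong.lean

-- ===== PACK-BEGIN S20/H270/Cocycle.lean
section


/-!
# Existence of 1-cocycles of `SL(2,ℤ)` with prescribed values on `S` and `U = S * T`

For a linear representation `ρ` of `SL(2,ℤ)` on `V` on which `-1` acts trivially, and `a b : V`
with `a + S a = 0`, `b + U b + U² b = 0`, there is a (unique) cocycle `c` with `c S = a`,
`c U = b`.
-/

set_option autoImplicit false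

open scoped MatrixGroups
open ModularGroup

namespace Fermat.Agent.S20.H270

variable {K V : Type*} [Semiring K] [AddCommGroup V] [Module K V]

/-- The affine permutation `v ↦ L v + a`. -/
def affPerm (L : V ≃ₗ[K] V) (a : V) : Equiv.Perm V where
  toFun v := L v + a
  invFun v := L.symm (v - a)
  left_inv v := by simp
  right_inv v := by simp

@[simp] theorem affPerm_apply (L : V ≃ₗ[K] V) (a v : V) : affPerm L a v = L v + a := rfl

/-- A 1-cocycle of `SL(2,ℤ)` with values in the representation `ρ`. -/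
def IsCocycle (ρ : SL(2, ℤ) →* (V ≃ₗ[K] V)) (c : SL(2, ℤ) → V) : Prop :=
  ∀ g h, c (g * h) = c g + ρ g (c h)

theorem rho_mul_apply (ρ : SL(2, ℤ) →* (V ≃ₗ[K] V)) (g h : SL(2, ℤ)) (v : V) :
    ρ (g * h) v = ρ g (ρ h v) := by
  rw [map_mul]; rfl

theorem rho_one_apply (ρ : SL(2, ℤ) →* (V ≃ₗ[K] V)) (v : V) : ρ 1 v = v := by
  rw [map_one]; rfl

theorem rho_inv_apply_apply (ρ : SL(2, ℤ) →* (V ≃ₗ[K] V)) (g : SL(2, ℤ)) (v : V) :
    ρ g⁻¹ (ρ g v) = v := by
  rw [← rho_mul_apply, inv_mul_cancel, rho_one_apply]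

theorem rho_apply_inv_apply (ρ : SL(2, ℤ) →* (V ≃ₗ[K] V)) (g : SL(2, ℤ)) (v : V) :
    ρ g (ρ g⁻¹ v) = v := by
  rw [← rho_mul_apply, mul_inv_cancel, rho_one_apply]

theorem rho_S_S (ρ : SL(2, ℤ) →* (V ≃ₗ[K] V)) (hneg : ρ (-1) = 1) (v : V) :
    ρ S (ρ S v) = v := by
  rw [← rho_mul_apply, ← pow_two, S_sq_eq_neg_one, hneg]; rfl

theorem rho_U_U_U (ρ : SL(2, ℤ) →* (V ≃ₗ[K] V)) (hneg : ρ (-1) = 1) (v : V) :
    ρ Umat (ρ Umat (ρ Umat v)) = v := by
  have h3 : Umat * Umat * Umat = -1 := by decide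
  rw [← rho_mul_apply, ← rho_mul_apply, h3, hneg]; rfl

/-- The affine homomorphism attached to `(a, b)`. -/
theorem exists_affine_hom (ρ : SL(2, ℤ) →* (V ≃ₗ[K] V)) (hneg : ρ (-1) = 1) (a b : V)
    (ha : a + ρ S a = 0) (hb : b + ρ Umat b + ρ Umat (ρ Umat b) = 0) :
    ∃ Ψ : SL(2, ℤ) →* Equiv.Perm V,
      (∀ g v, Ψ g v = ρ g v + Ψ g 0) ∧ Ψ S 0 = a ∧ Ψ Umat 0 = b := by
  have hx : affPerm (ρ S) a ^ 2 = 1 := by
    refine Equiv.ext fun v => ?_
    rw [pow_two, Equiv.Perm.mul_apply, Equiv.Perm.one_apply]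
    simp only [affPerm_apply, map_add, rho_S_S ρ hneg]
    rw [add_assoc, add_comm (ρ S a) a, ha, add_zero]
  have hy : affPerm (ρ Umat) b ^ 3 = 1 := by
    refine Equiv.ext fun v => ?_
    rw [pow_succ, pow_two, Equiv.Perm.mul_apply, Equiv.Perm.mul_apply, Equiv.Perm.one_apply]
    simp only [affPerm_apply, map_add, rho_U_U_U ρ hneg]
    have : ρ Umat (ρ Umat b) + ρ Umat b + b = 0 := by rw [← hb]; abel
    rw [add_assoc, add_assoc, ← add_assoc (ρ Umat (ρ Umat b)), this, add_zero]
  obtain ⟨Ψ, hΨS, hΨU⟩ := exists_monoidHom_of_sq_of_cube _ _ hx hy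
  have hΨU' : Ψ Umat = affPerm (ρ Umat) b := hΨU
  -- the subgroup of elements acting affinely with linear part `ρ`
  let H : Subgroup SL(2, ℤ) :=
    { carrier := {g | ∀ v, Ψ g v = ρ g v + Ψ g 0}
      one_mem' := fun v => by
        show Ψ 1 v = ρ 1 v + Ψ 1 0
        rw [map_one, rho_one_apply]; simp
      mul_mem' := fun {g h} hg hh v => by
        show Ψ (g * h) v = ρ (g * h) v + Ψ (g * h) 0
        rw [map_mul, Equiv.Perm.mul_apply, Equiv.Perm.mul_apply, hh v, hg (ρ h v + Ψ h 0),
          hg (Ψ h 0), rho_mul_apply, map_add]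
        abel
      inv_mem' := fun {g} hg v => by
        show Ψ g⁻¹ v = ρ g⁻¹ v + Ψ g⁻¹ 0
        apply (Ψ g).injective
        have h1 : ∀ w, Ψ g (Ψ g⁻¹ w) = w := fun w => by
          rw [← Equiv.Perm.mul_apply, ← map_mul, mul_inv_cancel, map_one]; rfl
        rw [h1, hg (ρ g⁻¹ v + Ψ g⁻¹ 0), map_add, rho_apply_inv_apply, add_assoc,
          ← hg (Ψ g⁻¹ 0), h1, add_zero] }
  have hS : S ∈ H := fun v => by
    show Ψ S v = ρ S v + Ψ S 0
    rw [hΨS]; simp
  have hU : Umat ∈ H := fun v => by
    show Ψ Umat v = ρ Umat v + Ψ Umat 0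
    rw [hΨU']; simp
  have hT : T ∈ H := by
    rw [T_eq_S_inv_mul_Umat]
    exact H.mul_mem (H.inv_mem hS) hU
  have htop : H = ⊤ := by
    rw [eq_top_iff, ← SpecialLinearGroup.SL2Z_generators, Subgroup.closure_le]
    rintro g (rfl | hg)
    · exact hS
    · rw [Set.mem_singleton_iff] at hg
      subst hg
      exact hT
  refine ⟨Ψ, fun g v => ?_, ?_, ?_⟩
  · have : g ∈ H := by rw [htop]; trivial
    exact this v
  · rw [hΨS]; simp
  · rw [hΨU']; simp

/-- **Existence of cocycles** with prescribed values on the generators `S`, `U = S * T`. -/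
theorem exists_cocycle (ρ : SL(2, ℤ) →* (V ≃ₗ[K] V)) (hneg : ρ (-1) = 1) (a b : V)
    (ha : a + ρ S a = 0) (hb : b + ρ Umat b + ρ Umat (ρ Umat b) = 0) :
    ∃ c : SL(2, ℤ) → V, IsCocycle ρ c ∧ c S = a ∧ c Umat = b := by
  obtain ⟨Ψ, hΨ, hS, hU⟩ := exists_affine_hom ρ hneg a b ha hb
  refine ⟨fun g => Ψ g 0, fun g h => ?_, hS, hU⟩
  show Ψ (g * h) 0 = Ψ g 0 + ρ g (Ψ h 0)
  rw [map_mul, Equiv.Perm.mul_apply, hΨ g (Ψ h 0), add_comm]

namespace IsCocycle

variable {ρ : SL(2, ℤ) →* (V ≃ₗ[K] V)} {c : SL(2, ℤ) → V}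

theorem map_one (hc : IsCocycle ρ c) : c 1 = 0 := by
  have h := hc 1 1
  rw [mul_one, rho_one_apply] at h
  have : c 1 + c 1 = c 1 + 0 := by rw [← h, add_zero]
  exact add_left_cancel this

theorem map_inv (hc : IsCocycle ρ c) (g : SL(2, ℤ)) : c g⁻¹ = -ρ g⁻¹ (c g) := by
  have h := hc g⁻¹ g
  rw [inv_mul_cancel, hc.map_one] at h
  exact eq_neg_of_add_eq_zero_left h.symm

/-- The stabiliser of `v` under the affine action `g ⋆ v = ρ g v + c g`. -/
def stab (hc : IsCocycle ρ c) (v : V) : Subgroup SL(2, ℤ) where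
  carrier := {g | ρ g v + c g = v}
  one_mem' := by
    show ρ 1 v + c 1 = v
    rw [rho_one_apply, hc.map_one, add_zero]
  mul_mem' := fun {g h} hg hh => by
    show ρ (g * h) v + c (g * h) = v
    have hg' : ρ g v + c g = v := hg
    have hh' : ρ h v + c h = v := hh
    rw [hc g h, rho_mul_apply]
    calc ρ g (ρ h v) + (c g + ρ g (c h)) = ρ g (ρ h v + c h) + c g := by rw [map_add]; abel
      _ = v := by rw [hh', hg']
  inv_mem' := fun {g} hg => by
    show ρ g⁻¹ v + c g⁻¹ = v
    have hg' : ρ g v + c g = v := hg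
    rw [hc.map_inv]
    calc ρ g⁻¹ v + -ρ g⁻¹ (c g) = ρ g⁻¹ (ρ g v + c g) + -ρ g⁻¹ (c g) := by rw [hg']
      _ = v := by rw [map_add, rho_inv_apply_apply]; abel

theorem mem_stab (hc : IsCocycle ρ c) (v : V) (g : SL(2, ℤ)) :
    g ∈ hc.stab v ↔ ρ g v + c g = v := Iff.rfl

theorem conj_mem_stab (hc : IsCocycle ρ c) {v : V} {g : SL(2, ℤ)} (hg : g ∈ hc.stab v)
    (h : SL(2, ℤ)) : h * g * h⁻¹ ∈ hc.stab (ρ h v + c h) := by
  have hg' : ρ g v + c g = v := hg
  show ρ (h * g * h⁻¹) (ρ h v + c h) + c (h * g * h⁻¹) = ρ h v + c h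
  have e1 : c (h * g * h⁻¹) = c h + ρ h (c g) - ρ (h * g * h⁻¹) (c h) := by
    rw [hc (h * g) h⁻¹, hc h g, hc.map_inv, map_neg, ← rho_mul_apply]
    abel
  have e2 : ρ (h * g * h⁻¹) (ρ h v) = ρ h (ρ g v) := by
    rw [← rho_mul_apply, inv_mul_cancel_right, rho_mul_apply]
  rw [map_add, e1, e2]
  calc ρ h (ρ g v) + ρ (h * g * h⁻¹) (c h) + (c h + ρ h (c g) - ρ (h * g * h⁻¹) (c h))
      = ρ h (ρ g v + c g) + c h := by rw [map_add]; abel
    _ = ρ h v + c h := by rw [hg']

/-- A cocycle is determined by its values at `S` and `T`. -/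
theorem eq_zero_of_S_T (hc : IsCocycle ρ c) (hS : c S = 0) (hT : c T = 0) (g : SL(2, ℤ)) :
    c g = 0 := by
  have h0 : hc.stab 0 = ⊤ := by
    rw [eq_top_iff, ← SpecialLinearGroup.SL2Z_generators, Subgroup.closure_le]
    rintro g (rfl | hg)
    · show ρ S 0 + c S = 0
      rw [hS, map_zero, add_zero]
    · rw [Set.mem_singleton_iff] at hg
      subst hg
      show ρ T 0 + c T = 0
      rw [hT, map_zero, add_zero]
  have : g ∈ hc.stab 0 := by rw [h0]; trivial
  have h1 : ρ g 0 + c g = 0 := this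
  rwa [map_zero, zero_add] at h1

theorem map_T (hc : IsCocycle ρ c) : c T = ρ S⁻¹ (c Umat - c S) := by
  have h := hc S T
  have h2 : c Umat = c S + ρ S (c T) := h
  rw [h2, add_sub_cancel_left, rho_inv_apply_apply]

theorem eq_zero_of_S_U (hc : IsCocycle ρ c) (hS : c S = 0) (hU : c Umat = 0) (g : SL(2, ℤ)) :
    c g = 0 := by
  refine hc.eq_zero_of_S_T hS ?_ g
  rw [hc.map_T, hS, hU, sub_zero, map_zero]

end IsCocycle

end Fermat.Agent.S20.H270

end
-- ===== PACK-END S20/H270/Cocycle.lean

-- ===== PACK-BEGIN S23/H503/Lagrange.lean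
section




/-!
# Symmetric functions of the translates of a modular form, and Lagrange interpolation

For `f` a modular form of weight `k` for `𝒢`, and `ℋ` a subgroup in which `𝒢 ⊓ ℋ` has finite
index, the elementary symmetric functions of the translates `f ∣[k] h⁻¹` (`h ∈ ℋ ⧸ 𝒢 ⊓ ℋ`) are
modular forms of weight `k * m` for `ℋ`; `f` is a root of the corresponding monic polynomial.

Moreover, for a second form `t` of weight `w`, the coefficients of the Lagrange interpolation
polynomial `∑_q f_q ∏_{q' ≠ q} (X - t_{q'})` are modular forms for `ℋ`, and evaluating at `X = t`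
gives `f * ∏_{q ≠ 1} (t - t_q)`.
-/

set_option autoImplicit false

noncomputable section

namespace Fermat.Agent.S23.H503

open UpperHalfPlane SlashInvariantForm

open scoped ModularForm Topology Filter Manifold MatrixGroups

variable {𝒢 ℋ : Subgroup (GL (Fin 2) ℝ)} {F : Type*} (f : F) [FunLike F ℍ ℂ] {k : ℤ}

local notation "𝒬" => ℋ ⧸ (𝒢.subgroupOf ℋ)

/-! ### Pure algebra -/

section algebra

variable {ι R : Type*} [CommRing R]

/-- Vieta's formula, evaluated at a point. -/
lemma prod_sub_eq_sum_esymm (s : Finset ι) (x : ι → R) (y : R) :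
    ∏ i ∈ s, (y - x i) = ∑ j ∈ Finset.range (s.card + 1),
      (-1) ^ j * (∑ t ∈ Finset.powersetCard j s, ∏ i ∈ t, x i) * y ^ (s.card - j) := by
  have h := congrArg (Polynomial.eval y) (Multiset.prod_X_sub_X_eq_sum_esymm (s.val.map x))
  simp only [Multiset.map_map, Function.comp_def, Multiset.card_map, Finset.card_val,
    Polynomial.eval_finsetSum, Polynomial.eval_mul, Polynomial.eval_pow, Polynomial.eval_neg,
    Polynomial.eval_one, Polynomial.eval_C, Polynomial.eval_X, Finset.esymm_map_val] at h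
  have h2 : Polynomial.eval y
      (Multiset.map (fun i ↦ Polynomial.X - Polynomial.C (x i)) s.val).prod =
      ∏ i ∈ s, (y - x i) := by
    rw [Polynomial.eval_multiset_prod, Multiset.map_map]
    simp only [Function.comp_def, Polynomial.eval_sub, Polynomial.eval_X, Polynomial.eval_C]
    rfl
  rw [← h2, h]
  exact Finset.sum_congr rfl fun j _ ↦ by ring

/-- Sums over `powersetCard` are invariant under permutations of the ground type. -/
lemma sum_powersetCard_prod_comp [Fintype ι] [DecidableEq ι]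
    (σ : Equiv.Perm ι) (g : ι → R) (m : ℕ) :
    ∑ s ∈ Finset.powersetCard m (Finset.univ : Finset ι), ∏ q ∈ s, g (σ q) =
      ∑ s ∈ Finset.powersetCard m (Finset.univ : Finset ι), ∏ q ∈ s, g q := by
  have h1 : Finset.powersetCard m (Finset.univ : Finset ι) =
      (Finset.powersetCard m (Finset.univ : Finset ι)).map
        (Finset.mapEmbedding σ.toEmbedding).toEmbedding := by
    rw [← Finset.powersetCard_map, Finset.map_univ_equiv]
  conv_rhs => rw [h1]
  rw [Finset.sum_map]
  refine Finset.sum_congr rfl fun s _ ↦ ?_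
  simp [Finset.mapEmbedding_apply]

/-- Reindexing lemma for the interpolation sums. -/
lemma sum_mul_sum_powersetCard_erase_comp [Fintype ι] [DecidableEq ι]
    (σ : Equiv.Perm ι) (a b : ι → R) (m : ℕ) :
    ∑ q, a (σ q) * ∑ s ∈ Finset.powersetCard m (Finset.univ.erase q), ∏ q' ∈ s, b (σ q') =
      ∑ q, a q * ∑ s ∈ Finset.powersetCard m (Finset.univ.erase q), ∏ q' ∈ s, b q' := by
  rw [← Equiv.sum_comp σ (fun q ↦ a q *
    ∑ s ∈ Finset.powersetCard m (Finset.univ.erase q), ∏ q' ∈ s, b q')]
  refine Finset.sum_congr rfl fun q _ ↦ ?_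
  congr 1
  have h1 : Finset.powersetCard m (Finset.univ.erase (σ q)) =
      (Finset.powersetCard m (Finset.univ.erase q)).map
        (Finset.mapEmbedding σ.toEmbedding).toEmbedding := by
    rw [← Finset.powersetCard_map]
    congr 1
    ext x
    simp [Finset.mem_erase]
  rw [h1, Finset.sum_map]
  refine Finset.sum_congr rfl fun s _ ↦ ?_
  simp [Finset.mapEmbedding_apply]

end algebra

/-! ### Translates -/

section translates

lemma quotientFunc_one [SlashInvariantFormClass F 𝒢 k] :
    quotientFunc (ℋ := ℋ) f ((1 : ℋ) : 𝒬) = f := by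
  change quotientFunc f ⟦(1 : ℋ)⟧ = f
  rw [quotientFunc_mk]
  simp

variable (ℋ)

lemma mdifferentiable_quotientFunc [ModularFormClass F 𝒢 k] (q : 𝒬) :
    MDiff (quotientFunc f q) := by
  induction q using Quotient.inductionOn with
  | h r => exact (ModularForm.translate f r.val⁻¹).holo'

/-- Translates of a modular form are bounded at `i∞` after slashing with any `γ` mapping `∞` to
a cusp of `ℋ`. -/
lemma isBoundedAtImInfty_quotientFunc_slash [𝒢.IsFiniteRelIndex ℋ] [ModularFormClass F 𝒢 k]
    (q : 𝒬) {γ : GL (Fin 2) ℝ} (hγ : IsCusp (γ • OnePoint.infty) ℋ) :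
    IsBoundedAtImInfty (quotientFunc f q ∣[k] γ) := by
  induction q using Quotient.inductionOn with
  | h r =>
    obtain ⟨r, hr⟩ := r
    refine (ModularForm.translate f _).bdd_at_cusps' ?_ γ rfl
    simpa using hγ.of_isFiniteRelIndex_conj hr

lemma isZeroAtImInfty_quotientFunc_slash [𝒢.IsFiniteRelIndex ℋ] [CuspFormClass F 𝒢 k]
    (q : 𝒬) {γ : GL (Fin 2) ℝ} (hγ : IsCusp (γ • OnePoint.infty) ℋ) :
    IsZeroAtImInfty (quotientFunc f q ∣[k] γ) := by
  induction q using Quotient.inductionOn with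
  | h r =>
    obtain ⟨r, hr⟩ := r
    refine (CuspForm.translate f _).zero_at_cusps' ?_ γ rfl
    simpa using hγ.of_isFiniteRelIndex_conj hr

end translates

/-! ### Elementary symmetric functions of the translates -/

section esymm

variable (ℋ) [𝒢.IsFiniteRelIndex ℋ]

/-- The `m`-th elementary symmetric function of the translates of `f`. -/
def esymmFun [SlashInvariantFormClass F 𝒢 k] (m : ℕ) : ℍ → ℂ :=
  let := Fintype.ofFinite 𝒬
  ∑ s ∈ Finset.powersetCard m (Finset.univ : Finset 𝒬), ∏ q ∈ s, quotientFunc f q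

variable {ℋ} in
lemma esymmFun_eq [SlashInvariantFormClass F 𝒢 k] [Fintype 𝒬] (m : ℕ) :
    esymmFun ℋ f m =
      ∑ s ∈ Finset.powersetCard m (Finset.univ : Finset 𝒬), ∏ q ∈ s, quotientFunc f q := by
  unfold esymmFun
  congr!

variable {ℋ} in
lemma esymmFun_slash [SlashInvariantFormClass F 𝒢 k] [ℋ.HasDetPlusMinusOne] (m : ℕ)
    {h : GL (Fin 2) ℝ} (hh : h ∈ ℋ) :
    esymmFun ℋ f m ∣[k * m] h = esymmFun ℋ f m := by
  classical
  let := Fintype.ofFinite 𝒬
  rw [esymmFun_eq, SlashAction.sum_slash]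
  have key : ∀ s ∈ Finset.powersetCard m (Finset.univ : Finset 𝒬),
      (∏ q ∈ s, quotientFunc f q) ∣[k * m] h =
        ∏ q ∈ s, quotientFunc f ((MulAction.toPerm (⟨h, hh⟩ : ℋ)⁻¹) q) := by
    intro s hs
    rw [Finset.mem_powersetCard] at hs
    rw [← hs.2, ModularForm.prod_slash]
    simp [quotientFunc_smul f hh, Subgroup.HasDetPlusMinusOne.abs_det hh,
      -Matrix.GeneralLinearGroup.val_det_apply]
  rw [Finset.sum_congr rfl key]
  exact sum_powersetCard_prod_comp _ (fun q ↦ quotientFunc f q) m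

lemma mdifferentiable_esymmFun [ModularFormClass F 𝒢 k] (m : ℕ) :
    MDiff (esymmFun ℋ f m) := by
  let := Fintype.ofFinite 𝒬
  rw [esymmFun_eq]
  exact .sum fun s _ ↦ .prod fun q _ ↦ mdifferentiable_quotientFunc ℋ f q

/-- The elementary symmetric functions of translates of a modular form, as a modular form. -/
def esymmMF [ℋ.HasDetPlusMinusOne] [ModularFormClass F 𝒢 k] (m : ℕ) :
    ModularForm ℋ (k * m) where
  toFun := esymmFun ℋ f m
  slash_action_eq' _ hh := esymmFun_slash f m hh
  holo' := mdifferentiable_esymmFun ℋ f m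
  bdd_at_cusps' h γ := by
    rintro rfl
    let := Fintype.ofFinite 𝒬
    change IsBoundedAtImInfty (esymmFun ℋ f m ∣[k * m] γ)
    rw [esymmFun_eq, SlashAction.sum_slash, IsBoundedAtImInfty, Filter.BoundedAtFilter,
      Finset.sum_fn]
    refine .fun_sum fun s hs ↦ ?_
    rw [Finset.mem_powersetCard] at hs
    rw [← hs.2, ModularForm.prod_slash]
    apply Asymptotics.IsBigO.const_smul_left
    rw [show (1 : ℍ → ℝ) = (fun x ↦ ∏ (i ∈ s), 1) by ext; simp, Finset.prod_fn]
    exact .finsetProd fun q _ ↦ isBoundedAtImInfty_quotientFunc_slash ℋ f q h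

@[simp] lemma coe_esymmMF [ℋ.HasDetPlusMinusOne] [ModularFormClass F 𝒢 k] (m : ℕ) :
    ⇑(esymmMF ℋ f m) = esymmFun ℋ f m := rfl

/-- The elementary symmetric functions (of positive degree) of translates of a cusp form, as a
cusp form. -/
def esymmCF [ℋ.HasDetPlusMinusOne] [CuspFormClass F 𝒢 k] (m : ℕ) (hm : m ≠ 0) :
    CuspForm ℋ (k * m) where
  __ := esymmMF ℋ f m
  zero_at_cusps' h γ := by
    rintro rfl
    let := Fintype.ofFinite 𝒬
    change IsZeroAtImInfty (esymmFun ℋ f m ∣[k * m] γ)
    rw [esymmFun_eq, SlashAction.sum_slash, IsZeroAtImInfty, Filter.ZeroAtFilter,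
      Finset.sum_fn]
    rw [show (0 : ℂ) = ∑ s ∈ Finset.powersetCard m (Finset.univ : Finset 𝒬), 0 by simp]
    refine tendsto_finsetSum _ fun s hs ↦ ?_
    rw [Finset.mem_powersetCard] at hs
    have hs0 : s.card ≠ 0 := by rw [hs.2]; exact hm
    rw [← hs.2, ModularForm.prod_slash]
    have h0 : (0 : ℂ) = |(Matrix.GeneralLinearGroup.det γ : ℝ)| ^ ((s.card : ℤ) - 1) •
        ∏ q ∈ s, (0 : ℂ) := by
      rw [Finset.prod_const, zero_pow hs0, smul_zero]
    rw [h0]
    have h1 : Filter.Tendsto (fun z ↦ ∏ q ∈ s, (quotientFunc f q ∣[k] γ) z) atImInfty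
        (nhds (∏ q ∈ s, (0 : ℂ))) :=
      tendsto_finsetProd _ fun q _ ↦ isZeroAtImInfty_quotientFunc_slash ℋ f q h
    have h2 := h1.const_smul (|(Matrix.GeneralLinearGroup.det γ : ℝ)| ^ ((s.card : ℤ) - 1))
    refine h2.congr fun z ↦ ?_
    simp [Finset.prod_apply]

@[simp] lemma coe_esymmCF [ℋ.HasDetPlusMinusOne] [CuspFormClass F 𝒢 k] (m : ℕ) (hm : m ≠ 0) :
    ⇑(esymmCF ℋ f m hm) = esymmFun ℋ f m := rfl

/-- `f` is a root of the monic polynomial `∑ (-1)^j e_j X^(d-j)`, `d = [ℋ : 𝒢 ⊓ ℋ]`, whose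
coefficients are the elementary symmetric functions of the translates of `f`. -/
theorem sum_esymmFun_mul_pow_eq_zero [SlashInvariantFormClass F 𝒢 k] (z : ℍ) :
    ∑ j ∈ Finset.range (Nat.card 𝒬 + 1),
      (-1) ^ j * esymmFun ℋ f j z * (f : ℍ → ℂ) z ^ (Nat.card 𝒬 - j) = 0 := by
  classical
  let := Fintype.ofFinite 𝒬
  have h := prod_sub_eq_sum_esymm (Finset.univ : Finset 𝒬) (fun q ↦ quotientFunc f q z)
    ((f : ℍ → ℂ) z)
  rw [Finset.card_univ, ← Nat.card_eq_fintype_card] at h
  have h0 : ∏ q : 𝒬, ((f : ℍ → ℂ) z - quotientFunc f q z) = 0 :=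
    Finset.prod_eq_zero (Finset.mem_univ ((1 : ℋ) : 𝒬)) (by rw [quotientFunc_one]; simp)
  rw [h0] at h
  rw [h]
  refine Finset.sum_congr rfl fun j _ ↦ ?_
  rw [esymmFun_eq, Finset.sum_apply]
  simp [Finset.prod_apply]

end esymm

/-! ### Lagrange interpolation -/

section interp

variable {F' : Type*} (t : F') [FunLike F' ℍ ℂ] {w : ℤ}

variable (ℋ) [𝒢.IsFiniteRelIndex ℋ]

/-- The coefficients of the Lagrange interpolation polynomial
`∑_q f_q ∏_{q' ≠ q} (X - t_{q'})` (up to sign): `interpFun f t m` is, up to the sign `(-1)^m`,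
the coefficient of `X^(d-1-m)`. -/
def interpFun [SlashInvariantFormClass F 𝒢 k] [SlashInvariantFormClass F' 𝒢 w] (m : ℕ) :
    ℍ → ℂ :=
  open Classical in
  let := Fintype.ofFinite 𝒬
  ∑ q : 𝒬, quotientFunc f q *
    ∑ s ∈ Finset.powersetCard m (Finset.univ.erase q), ∏ q' ∈ s, quotientFunc t q'

variable {ℋ} in
lemma interpFun_eq [SlashInvariantFormClass F 𝒢 k] [SlashInvariantFormClass F' 𝒢 w]
    [Fintype 𝒬] [DecidableEq 𝒬] (m : ℕ) :
    interpFun ℋ f t m = ∑ q : 𝒬, quotientFunc f q *
      ∑ s ∈ Finset.powersetCard m (Finset.univ.erase q), ∏ q' ∈ s, quotientFunc t q' := by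
  unfold interpFun
  congr!

variable {ℋ} in
lemma interpFun_slash [SlashInvariantFormClass F 𝒢 k] [SlashInvariantFormClass F' 𝒢 w]
    [ℋ.HasDetPlusMinusOne] (m : ℕ) {h : GL (Fin 2) ℝ} (hh : h ∈ ℋ) :
    interpFun ℋ f t m ∣[k + w * m] h = interpFun ℋ f t m := by
  classical
  let := Fintype.ofFinite 𝒬
  rw [interpFun_eq, SlashAction.sum_slash]
  have key : ∀ q : 𝒬,
      (quotientFunc f q * ∑ s ∈ Finset.powersetCard m (Finset.univ.erase q),
        ∏ q' ∈ s, quotientFunc t q') ∣[k + w * m] h =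
      quotientFunc f ((MulAction.toPerm (⟨h, hh⟩ : ℋ)⁻¹) q) *
        ∑ s ∈ Finset.powersetCard m (Finset.univ.erase q),
          ∏ q' ∈ s, quotientFunc t ((MulAction.toPerm (⟨h, hh⟩ : ℋ)⁻¹) q') := by
    intro q
    rw [ModularForm.mul_slash, SlashAction.sum_slash, quotientFunc_smul f hh,
      Subgroup.HasDetPlusMinusOne.abs_det hh, one_smul]
    congr 1
    refine Finset.sum_congr rfl fun s hs ↦ ?_
    rw [Finset.mem_powersetCard] at hs
    rw [← hs.2, ModularForm.prod_slash]
    simp [quotientFunc_smul t hh, Subgroup.HasDetPlusMinusOne.abs_det hh,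
      -Matrix.GeneralLinearGroup.val_det_apply]
  rw [Finset.sum_congr rfl fun q _ ↦ key q]
  exact sum_mul_sum_powersetCard_erase_comp _ (fun q ↦ quotientFunc f q)
    (fun q ↦ quotientFunc t q) m

lemma mdifferentiable_interpFun [ModularFormClass F 𝒢 k] [ModularFormClass F' 𝒢 w] (m : ℕ) :
    MDiff (interpFun ℋ f t m) := by
  classical
  let := Fintype.ofFinite 𝒬
  rw [interpFun_eq]
  exact .sum fun q _ ↦ (mdifferentiable_quotientFunc ℋ f q).mul
    (.sum fun s _ ↦ .prod fun q' _ ↦ mdifferentiable_quotientFunc ℋ t q')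

/-- The coefficients of the Lagrange interpolation polynomial, as modular forms for `ℋ`. -/
def interpMF [ℋ.HasDetPlusMinusOne] [ModularFormClass F 𝒢 k] [ModularFormClass F' 𝒢 w]
    (m : ℕ) : ModularForm ℋ (k + w * m) where
  toFun := interpFun ℋ f t m
  slash_action_eq' _ hh := interpFun_slash f t m hh
  holo' := mdifferentiable_interpFun ℋ f t m
  bdd_at_cusps' h γ := by
    rintro rfl
    classical
    let := Fintype.ofFinite 𝒬
    change IsBoundedAtImInfty (interpFun ℋ f t m ∣[k + w * m] γ)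
    rw [interpFun_eq, SlashAction.sum_slash, IsBoundedAtImInfty, Filter.BoundedAtFilter,
      Finset.sum_fn]
    refine .fun_sum fun q _ ↦ ?_
    rw [ModularForm.mul_slash, SlashAction.sum_slash]
    apply Asymptotics.IsBigO.const_smul_left
    refine Filter.BoundedAtFilter.mul (isBoundedAtImInfty_quotientFunc_slash ℋ f q h) ?_
    rw [Filter.BoundedAtFilter, Finset.sum_fn]
    refine .fun_sum fun s hs ↦ ?_
    rw [Finset.mem_powersetCard] at hs
    rw [← hs.2, ModularForm.prod_slash]
    apply Asymptotics.IsBigO.const_smul_left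
    rw [show (1 : ℍ → ℝ) = (fun x ↦ ∏ (i ∈ s), 1) by ext; simp, Finset.prod_fn]
    exact .finsetProd fun q' _ ↦ isBoundedAtImInfty_quotientFunc_slash ℋ t q' h

@[simp] lemma coe_interpMF [ℋ.HasDetPlusMinusOne] [ModularFormClass F 𝒢 k]
    [ModularFormClass F' 𝒢 w] (m : ℕ) : ⇑(interpMF ℋ f t m) = interpFun ℋ f t m := rfl

/-- The "derivative of the characteristic polynomial of `t`, evaluated at `t`":
`∏_{q ≠ 1} (t - t_q)`. -/
def charDerivFun [SlashInvariantFormClass F' 𝒢 w] : ℍ → ℂ := fun z ↦
  open Classical in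
  let := Fintype.ofFinite 𝒬
  ∏ q ∈ (Finset.univ : Finset 𝒬).erase ((1 : ℋ) : 𝒬), ((t : ℍ → ℂ) z - quotientFunc t q z)

variable {ℋ} in
lemma charDerivFun_apply [SlashInvariantFormClass F' 𝒢 w] [Fintype 𝒬] [DecidableEq 𝒬]
    (z : ℍ) :
    charDerivFun ℋ t z =
      ∏ q ∈ (Finset.univ : Finset 𝒬).erase ((1 : ℋ) : 𝒬),
        ((t : ℍ → ℂ) z - quotientFunc t q z) := by
  unfold charDerivFun
  congr!

/-- If all the nontrivial translates of `t` differ from `t`, then `∏_{q ≠ 1} (t - t_q)` is not
identically zero. -/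
lemma charDerivFun_ne_zero [ModularFormClass F' 𝒢 w]
    (ht : ∀ q : 𝒬, q ≠ ((1 : ℋ) : 𝒬) → quotientFunc t q ≠ (t : ℍ → ℂ)) :
    charDerivFun ℋ t ≠ 0 := by
  classical
  let := Fintype.ofFinite 𝒬
  have h1 : charDerivFun ℋ t = ∏ q ∈ (Finset.univ : Finset 𝒬).erase ((1 : ℋ) : 𝒬),
      ((t : ℍ → ℂ) - quotientFunc t q) := by
    ext z
    rw [charDerivFun_apply, Finset.prod_apply]
    rfl
  rw [h1, Ne, UpperHalfPlane.prod_eq_zero_iff]
  · rintro ⟨q, hq, h0⟩
    exact ht q (Finset.ne_of_mem_erase hq) (sub_eq_zero.mp h0).symm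
  · intro q _
    exact (ModularFormClass.holo t).sub (mdifferentiable_quotientFunc ℋ t q)

/-- **Lagrange interpolation**: `f * ∏_{q ≠ 1} (t - t_q) = ∑_m (-1)^m a_m t^(d-1-m)`, where the
`a_m = interpFun ℋ f t m` are modular forms for `ℋ` of weight `k + w * m`. -/
theorem sum_interpFun_mul_pow [SlashInvariantFormClass F 𝒢 k] [SlashInvariantFormClass F' 𝒢 w]
    (z : ℍ) :
    ∑ m ∈ Finset.range (Nat.card 𝒬),
      (-1) ^ m * interpFun ℋ f t m z * (t : ℍ → ℂ) z ^ (Nat.card 𝒬 - 1 - m) =
    (f : ℍ → ℂ) z * charDerivFun ℋ t z := by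
  classical
  let := Fintype.ofFinite 𝒬
  have hcard : ∀ q : 𝒬, ((Finset.univ : Finset 𝒬).erase q).card = Nat.card 𝒬 - 1 := by
    intro q
    rw [Finset.card_erase_of_mem (Finset.mem_univ _), Finset.card_univ,
      Nat.card_eq_fintype_card]
  have hpos : 0 < Nat.card 𝒬 := Nat.card_pos
  have hV : ∀ q : 𝒬, ∏ q' ∈ (Finset.univ : Finset 𝒬).erase q,
      ((t : ℍ → ℂ) z - quotientFunc t q' z) =
      ∑ m ∈ Finset.range (Nat.card 𝒬), (-1) ^ m *
        (∑ s ∈ Finset.powersetCard m ((Finset.univ : Finset 𝒬).erase q),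
          ∏ q' ∈ s, quotientFunc t q' z) * (t : ℍ → ℂ) z ^ (Nat.card 𝒬 - 1 - m) := by
    intro q
    rw [prod_sub_eq_sum_esymm, hcard q, Nat.sub_add_cancel hpos]
  -- the right-hand side is the sum over all `q`, only `q = 1` contributing
  have h1 : (f : ℍ → ℂ) z * charDerivFun ℋ t z =
      ∑ q : 𝒬, quotientFunc f q z * ∏ q' ∈ (Finset.univ : Finset 𝒬).erase q,
        ((t : ℍ → ℂ) z - quotientFunc t q' z) := by
    rw [Finset.sum_eq_single ((1 : ℋ) : 𝒬), quotientFunc_one, charDerivFun_apply]
    · intro q _ hq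
      rw [Finset.prod_eq_zero (i := ((1 : ℋ) : 𝒬)), mul_zero]
      · exact Finset.mem_erase.mpr ⟨fun h ↦ hq h.symm, Finset.mem_univ _⟩
      · rw [quotientFunc_one]; simp
    · intro h; exact absurd (Finset.mem_univ _) h
  rw [h1]
  have h2 : ∀ q : 𝒬, quotientFunc f q z * ∏ q' ∈ (Finset.univ : Finset 𝒬).erase q,
      ((t : ℍ → ℂ) z - quotientFunc t q' z) =
      ∑ m ∈ Finset.range (Nat.card 𝒬), (-1) ^ m * (quotientFunc f q z *
        (∑ s ∈ Finset.powersetCard m ((Finset.univ : Finset 𝒬).erase q),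
          ∏ q' ∈ s, quotientFunc t q' z)) * (t : ℍ → ℂ) z ^ (Nat.card 𝒬 - 1 - m) := by
    intro q
    rw [hV q, Finset.mul_sum]
    exact Finset.sum_congr rfl fun m _ ↦ by ring
  rw [Finset.sum_congr rfl fun q _ ↦ h2 q, Finset.sum_comm]
  refine Finset.sum_congr rfl fun m _ ↦ ?_
  rw [interpFun_eq, Finset.sum_apply, Finset.mul_sum, Finset.sum_mul]
  refine Finset.sum_congr rfl fun q _ ↦ ?_
  simp only [Pi.mul_apply, Finset.sum_apply, Finset.prod_apply]

/-- The special case `f = 1` of Lagrange interpolation: `∏_{q ≠ 1} (t - t_q)` is a polynomial in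
`t` whose coefficients are modular forms for `ℋ`. -/
theorem sum_interpFun_one_mul_pow [𝒢.HasDetPlusMinusOne] [SlashInvariantFormClass F' 𝒢 w]
    (z : ℍ) :
    ∑ m ∈ Finset.range (Nat.card 𝒬),
      (-1) ^ m * interpFun ℋ (1 : ModularForm 𝒢 0) t m z *
        (t : ℍ → ℂ) z ^ (Nat.card 𝒬 - 1 - m) = charDerivFun ℋ t z := by
  rw [sum_interpFun_mul_pow ℋ (1 : ModularForm 𝒢 0) t z]
  simp [ModularForm.one_coe_eq_one]

end interp

/-! ### Packaged statements -/

section packaged

variable {F' : Type*} (t : F') [FunLike F' ℍ ℂ] {w : ℤ}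

/-- **Monic equation** (packaged, for cusp forms for an arithmetic subgroup `𝒢`): a cusp form `f`
of weight `k` satisfies `f ^ n + ∑_{m = 1}^{n} b_m f ^ (n - m) = 0` where `b_m` is a level one
cusp form of weight `k * m`. -/
theorem exists_monic_cusp [𝒢.IsArithmetic] [CuspFormClass F 𝒢 k] :
    ∃ (n : ℕ) (b : (m : ℕ) → CuspForm 𝒮ℒ (k * m)), 0 < n ∧
      ∀ τ : ℍ, (f : ℍ → ℂ) τ ^ n +
        ∑ m ∈ Finset.Icc 1 n, b m τ * (f : ℍ → ℂ) τ ^ (n - m) = 0 := by
  classical
  refine ⟨Nat.card (𝒮ℒ ⧸ 𝒢.subgroupOf 𝒮ℒ),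
    fun m ↦ if hm : m = 0 then 0 else ((-1 : ℂ) ^ m) • esymmCF 𝒮ℒ f m hm, Nat.card_pos,
    fun τ ↦ ?_⟩
  have h := sum_esymmFun_mul_pow_eq_zero 𝒮ℒ f τ
  rw [Finset.range_eq_Ico, Finset.sum_eq_sum_Ico_succ_bot (Nat.succ_pos _)] at h
  have h0 : esymmFun 𝒮ℒ f 0 τ = 1 := by
    let := Fintype.ofFinite (𝒮ℒ ⧸ 𝒢.subgroupOf 𝒮ℒ)
    rw [esymmFun_eq]
    simp
  rw [h0] at h
  simp only [pow_zero, one_mul, Nat.sub_zero] at h
  rw [← h]
  congr 1
  refine Finset.sum_congr (by ext; simp [Nat.succ_le_iff]) fun m hm ↦ ?_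
  have hm0 : m ≠ 0 := by
    have := (Finset.mem_Icc.mp hm).1
    omega
  simp [hm0]

/-- **Lagrange interpolation** (packaged, for an arithmetic subgroup `𝒢`, e.g. the image of
`Gamma0 N`): if no nontrivial `𝒮ℒ`-translate of `t` equals
`t`, then there is `D = ∑_{m < n} c_m t ^ (n - 1 - m) ≢ 0` with `c_m` of level one and
weight `w * m`, such that `f * D = ∑_{m < n} a_m t ^ (n - 1 - m)` with `a_m` of level one and
weight `k + w * m`. -/
theorem exists_lagrange [𝒢.IsArithmetic] [ModularFormClass F 𝒢 k] [ModularFormClass F' 𝒢 w]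
    (ht : ∀ q : 𝒮ℒ ⧸ 𝒢.subgroupOf 𝒮ℒ, q ≠ ((1 : 𝒮ℒ) : 𝒮ℒ ⧸ 𝒢.subgroupOf 𝒮ℒ) →
      quotientFunc t q ≠ (t : ℍ → ℂ)) :
    ∃ (n : ℕ) (a : (m : ℕ) → ModularForm 𝒮ℒ (k + w * m))
      (c : (m : ℕ) → ModularForm 𝒮ℒ (w * m)), 0 < n ∧
      (∃ τ : ℍ, ∑ m ∈ Finset.range n, c m τ * (t : ℍ → ℂ) τ ^ (n - 1 - m) ≠ 0) ∧
      ∀ τ : ℍ, (f : ℍ → ℂ) τ * (∑ m ∈ Finset.range n, c m τ * (t : ℍ → ℂ) τ ^ (n - 1 - m)) =
        ∑ m ∈ Finset.range n, a m τ * (t : ℍ → ℂ) τ ^ (n - 1 - m) := by
  have hD : ∀ τ : ℍ, ∑ m ∈ Finset.range (Nat.card (𝒮ℒ ⧸ 𝒢.subgroupOf 𝒮ℒ)),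
      (ModularForm.mcast (zero_add _)
        (((-1 : ℂ) ^ m) • interpMF 𝒮ℒ (1 : ModularForm 𝒢 0) t m) :
          ModularForm 𝒮ℒ (w * m)) τ *
        (t : ℍ → ℂ) τ ^ (Nat.card (𝒮ℒ ⧸ 𝒢.subgroupOf 𝒮ℒ) - 1 - m) = charDerivFun 𝒮ℒ t τ := by
    intro τ
    rw [← sum_interpFun_one_mul_pow 𝒮ℒ t τ]
    refine Finset.sum_congr rfl fun m _ ↦ ?_
    simp
  refine ⟨Nat.card (𝒮ℒ ⧸ 𝒢.subgroupOf 𝒮ℒ), fun m ↦ ((-1 : ℂ) ^ m) • interpMF 𝒮ℒ f t m,
    fun m ↦ ModularForm.mcast (zero_add _)
      (((-1 : ℂ) ^ m) • interpMF 𝒮ℒ (1 : ModularForm 𝒢 0) t m), Nat.card_pos, ?_, fun τ ↦ ?_⟩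
  · by_contra hcon
    rw [not_exists] at hcon
    replace hcon := fun τ ↦ not_not.mp (hcon τ)
    refine charDerivFun_ne_zero 𝒮ℒ t ht ?_
    ext τ
    rw [← hD τ, hcon τ]
    rfl
  · rw [hD τ, ← sum_interpFun_mul_pow 𝒮ℒ f t τ]
    refine Finset.sum_congr rfl fun m _ ↦ ?_
    simp

end packaged

end Fermat.Agent.S23.H503

end
end
-- ===== PACK-END S23/H503/Lagrange.lean

-- ===== PACK-BEGIN S23/Converse.lean
section


/-!
# S23, converse step (function level)

`exists_holo_quotient`: if `g, h` are holomorphic on a connected open set `U ⊆ ℂ`, `h ≢ 0`, and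
`g / h` satisfies a monic polynomial equation with continuous coefficient functions (written in the
homogenised form `g ^ n + ∑_{i < n} b_i g ^ i h ^ (n - i) = 0`), then `g / h` extends to a holomorphic
function `F` on `U`, with `F * h = g` and `F ^ n + ∑_{i < n} b_i F ^ i = 0` on all of `U`.
-/

set_option autoImplicit false

namespace Fermat.Agent.S23.Conv

open Complex Filter Topology

/-- Cauchy root bound: a root of a monic polynomial is bounded by `1 + ∑ ‖coefficients‖`. -/
theorem norm_le_of_monic_root {n : ℕ} (c : ℕ → ℂ) (x : ℂ)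
    (hx : x ^ n + ∑ i ∈ Finset.range n, c i * x ^ i = 0) :
    ‖x‖ ≤ 1 + ∑ i ∈ Finset.range n, ‖c i‖ := by
  have hsum_nonneg : 0 ≤ ∑ i ∈ Finset.range n, ‖c i‖ :=
    Finset.sum_nonneg fun i _ ↦ norm_nonneg _
  rcases le_or_gt ‖x‖ 1 with h1 | h1
  · linarith
  -- now `1 < ‖x‖`
  rcases Nat.eq_zero_or_pos n with rfl | hn
  · simp at hx
  have hxpos : 0 < ‖x‖ := by linarith
  have hpow : x ^ n = -∑ i ∈ Finset.range n, c i * x ^ i := eq_neg_of_add_eq_zero_left hx
  have h2 : ‖x‖ ^ n ≤ (∑ i ∈ Finset.range n, ‖c i‖) * ‖x‖ ^ (n - 1) := by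
    calc ‖x‖ ^ n = ‖x ^ n‖ := (norm_pow x n).symm
      _ = ‖∑ i ∈ Finset.range n, c i * x ^ i‖ := by rw [hpow, norm_neg]
      _ ≤ ∑ i ∈ Finset.range n, ‖c i * x ^ i‖ := norm_sum_le _ _
      _ ≤ ∑ i ∈ Finset.range n, ‖c i‖ * ‖x‖ ^ (n - 1) := by
          refine Finset.sum_le_sum fun i hi ↦ ?_
          rw [norm_mul, norm_pow]
          refine mul_le_mul_of_nonneg_left ?_ (norm_nonneg _)
          exact pow_le_pow_right₀ h1.le (by have := Finset.mem_range.mp hi; omega)
      _ = (∑ i ∈ Finset.range n, ‖c i‖) * ‖x‖ ^ (n - 1) := by rw [Finset.sum_mul]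
  have h3 : ‖x‖ ^ n = ‖x‖ * ‖x‖ ^ (n - 1) := by
    rw [← pow_succ']
    congr 1
    omega
  rw [h3] at h2
  have h4 : ‖x‖ ≤ ∑ i ∈ Finset.range n, ‖c i‖ :=
    le_of_mul_le_mul_right h2 (pow_pos hxpos _)
  linarith

/-- Dehomogenisation of the integrality equation at a point where `h ≠ 0`. -/
theorem monic_eq_div {n : ℕ} (c : ℕ → ℂ) (g h : ℂ) (hh : h ≠ 0)
    (heq : g ^ n + ∑ i ∈ Finset.range n, c i * g ^ i * h ^ (n - i) = 0) :
    (g / h) ^ n + ∑ i ∈ Finset.range n, c i * (g / h) ^ i = 0 := by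
  have hhn : h ^ n ≠ 0 := pow_ne_zero _ hh
  have key : ((g / h) ^ n + ∑ i ∈ Finset.range n, c i * (g / h) ^ i) * h ^ n = 0 := by
    rw [add_mul, Finset.sum_mul, div_pow, div_mul_cancel₀ _ hhn, ← heq]
    congr 1
    refine Finset.sum_congr rfl fun i hi ↦ ?_
    have hi' : i ≤ n := (Finset.mem_range.mp hi).le
    have : h ^ n = h ^ i * h ^ (n - i) := by rw [← pow_add]; congr 1; omega
    rw [this, div_pow]
    field_simp
  exact (mul_eq_zero.mp key).resolve_right hhn

theorem exists_holo_quotient {U : Set ℂ} (hU : IsOpen U) (hUc : IsPreconnected U)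
    {g h : ℂ → ℂ} (hg : DifferentiableOn ℂ g U) (hh : DifferentiableOn ℂ h U)
    {n : ℕ} (hn : 0 < n) (b : ℕ → ℂ → ℂ) (hb : ∀ i < n, ContinuousOn (b i) U)
    (hne : ∃ z ∈ U, h z ≠ 0)
    (heq : ∀ z ∈ U, g z ^ n + ∑ i ∈ Finset.range n, b i z * g z ^ i * h z ^ (n - i) = 0) :
    ∃ F : ℂ → ℂ, DifferentiableOn ℂ F U ∧ (∀ z ∈ U, F z * h z = g z) ∧
      ∀ z ∈ U, F z ^ n + ∑ i ∈ Finset.range n, b i z * F z ^ i = 0 := by
  classical
  -- the quotient
  set q : ℂ → ℂ := fun z ↦ g z / h z with hq
  -- Step 1: the zeros of `h` are isolated in `U`.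
  have hiso : ∀ z₀ ∈ U, ∀ᶠ z in 𝓝[≠] z₀, h z ≠ 0 := by
    intro z₀ hz₀
    have han : AnalyticAt ℂ h z₀ := hh.analyticAt (hU.mem_nhds hz₀)
    rcases han.eventually_eq_zero_or_eventually_ne_zero with h0 | h0
    · exfalso
      have hanU : AnalyticOnNhd ℂ h U := fun z hz ↦ hh.analyticAt (hU.mem_nhds hz)
      have := hanU.eqOn_zero_of_preconnected_of_eventuallyEq_zero hUc hz₀ h0
      obtain ⟨z, hz, hz'⟩ := hne
      exact hz' (this hz)
    · exact h0
  -- Step 2: the monic equation and the bound for `q` away from the zeros of `h`.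
  have hqeq : ∀ z ∈ U, h z ≠ 0 → q z ^ n + ∑ i ∈ Finset.range n, b i z * q z ^ i = 0 :=
    fun z hz hhz ↦ monic_eq_div (fun i ↦ b i z) (g z) (h z) hhz (heq z hz)
  have hqbd : ∀ z ∈ U, h z ≠ 0 → ‖q z‖ ≤ 1 + ∑ i ∈ Finset.range n, ‖b i z‖ :=
    fun z hz hhz ↦ norm_le_of_monic_root (fun i ↦ b i z) (q z) (hqeq z hz hhz)
  -- Step 3: definition of `F`.
  set F : ℂ → ℂ := fun z ↦ if h z = 0 then limUnder (𝓝[≠] z) q else q z with hF
  have hFq : ∀ z, h z ≠ 0 → F z = q z := fun z hz ↦ by simp [hF, hz]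
  -- Step 4: local description of `F` near a zero of `h`.
  have hloc : ∀ z₀ ∈ U, h z₀ = 0 → ∃ s ∈ 𝓝 z₀, s ⊆ U ∧ (∀ z ∈ s, z ≠ z₀ → h z ≠ 0) ∧
      DifferentiableOn ℂ F s := by
    intro z₀ hz₀ hhz₀
    -- neighbourhood on which all `b i` are bounded
    have hbnd : ∀ᶠ z in 𝓝 z₀, ∀ i ∈ Finset.range n, ‖b i z‖ < ‖b i z₀‖ + 1 := by
      rw [Filter.eventually_all_finset]
      intro i hi
      have hc : ContinuousAt (b i) z₀ :=
        (hb i (Finset.mem_range.mp hi)).continuousAt (hU.mem_nhds hz₀)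
      have : Tendsto (fun z ↦ ‖b i z‖) (𝓝 z₀) (𝓝 ‖b i z₀‖) := hc.norm
      exact this.eventually (gt_mem_nhds (lt_add_one _)) |>.mono fun z hz ↦ hz
    have hiso' : ∀ᶠ z in 𝓝 z₀, z ≠ z₀ → h z ≠ 0 := by
      have := hiso z₀ hz₀
      rw [eventually_nhdsWithin_iff] at this
      exact this.mono fun z hz hne ↦ hz hne
    have hUn : ∀ᶠ z in 𝓝 z₀, z ∈ U := hU.mem_nhds hz₀
    obtain ⟨s, hs_sub, hs_open, hs_mem⟩ := eventually_nhds_iff.mp (hbnd.and (hiso'.and hUn))
    have hsU : s ⊆ U := fun z hz ↦ (hs_sub z hz).2.2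
    have hsh : ∀ z ∈ s, z ≠ z₀ → h z ≠ 0 := fun z hz ↦ (hs_sub z hz).2.1
    refine ⟨s, hs_open.mem_nhds hs_mem, hsU, hsh, ?_⟩
    -- `q` is differentiable and bounded on `s \ {z₀}`
    have hqd : DifferentiableOn ℂ q (s \ {z₀}) := by
      intro z hz
      have hzs : z ∈ s := hz.1
      have hzne : z ≠ z₀ := fun hzz ↦ hz.2 (by simpa using hzz)
      have hgz : DifferentiableAt ℂ g z := (hg z (hsU hzs)).differentiableAt (hU.mem_nhds (hsU hzs))
      have hhz : DifferentiableAt ℂ h z := (hh z (hsU hzs)).differentiableAt (hU.mem_nhds (hsU hzs))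
      exact (hgz.div hhz (hsh z hzs hzne)).differentiableWithinAt
    have hqb : BddAbove (norm ∘ q '' (s \ {z₀})) := by
      refine ⟨1 + ∑ i ∈ Finset.range n, (‖b i z₀‖ + 1), ?_⟩
      rintro _ ⟨z, hz, rfl⟩
      have hzs : z ∈ s := hz.1
      have hzne : z ≠ z₀ := fun hzz ↦ hz.2 (by simpa using hzz)
      calc ‖q z‖ ≤ 1 + ∑ i ∈ Finset.range n, ‖b i z‖ := hqbd z (hsU hzs) (hsh z hzs hzne)
        _ ≤ 1 + ∑ i ∈ Finset.range n, (‖b i z₀‖ + 1) := by
            gcongr with i hi
            exact ((hs_sub z hzs).1 i hi).le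
    have hupd := Complex.differentiableOn_update_limUnder_of_bddAbove
      (hs_open.mem_nhds hs_mem) hqd hqb
    refine hupd.congr fun z hz ↦ ?_
    by_cases hzz : z = z₀
    · subst hzz
      simp [hF, hhz₀]
    · rw [Function.update_of_ne hzz, hFq z (hsh z hz hzz)]
  -- Step 5: `F` is differentiable on `U`.
  have hFd : DifferentiableOn ℂ F U := by
    intro z₀ hz₀
    by_cases hhz₀ : h z₀ = 0
    · obtain ⟨s, hs, -, -, hFs⟩ := hloc z₀ hz₀ hhz₀
      exact ((hFs z₀ (mem_of_mem_nhds hs)).differentiableAt hs).differentiableWithinAt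
    · have hgz : DifferentiableAt ℂ g z₀ := (hg z₀ hz₀).differentiableAt (hU.mem_nhds hz₀)
      have hhz : DifferentiableAt ℂ h z₀ := (hh z₀ hz₀).differentiableAt (hU.mem_nhds hz₀)
      have hqz : DifferentiableAt ℂ q z₀ := hgz.div hhz hhz₀
      have hev : F =ᶠ[𝓝 z₀] q := by
        have : ∀ᶠ z in 𝓝 z₀, h z ≠ 0 := hhz.continuousAt.eventually_ne hhz₀
        exact this.mono fun z hz ↦ hFq z hz
      exact (hev.differentiableAt_iff.mpr hqz).differentiableWithinAt
  -- Step 6: `F * h = g`.
  have hFh : ∀ z ∈ U, F z * h z = g z := by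
    intro z hz
    by_cases hhz : h z = 0
    · have h1 := heq z hz
      have h2 : ∑ i ∈ Finset.range n, b i z * g z ^ i * h z ^ (n - i) = 0 := by
        refine Finset.sum_eq_zero fun i hi ↦ ?_
        have : n - i ≠ 0 := by have := Finset.mem_range.mp hi; omega
        rw [hhz, zero_pow this, mul_zero]
      rw [h2, add_zero] at h1
      rw [hhz, mul_zero, pow_eq_zero_iff hn.ne'.symm.symm |>.mp h1]
    · rw [hFq z hhz, hq]
      exact div_mul_cancel₀ _ hhz
  refine ⟨F, hFd, hFh, ?_⟩
  -- Step 7: the monic equation for `F`.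
  intro z₀ hz₀
  by_cases hhz₀ : h z₀ = 0
  · -- by continuity
    set Φ : ℂ → ℂ := fun z ↦ F z ^ n + ∑ i ∈ Finset.range n, b i z * F z ^ i with hΦ
    have hFc : ContinuousAt F z₀ := (hFd.continuousOn).continuousAt (hU.mem_nhds hz₀)
    have hΦc : ContinuousAt Φ z₀ := by
      refine (hFc.pow n).add (tendsto_finsetSum _ fun i hi ↦ ?_)
      exact ((hb i (Finset.mem_range.mp hi)).continuousAt (hU.mem_nhds hz₀)).mul (hFc.pow i)
    have hΦ0 : ∀ᶠ z in 𝓝[≠] z₀, Φ z = 0 := by
      have h1 := hiso z₀ hz₀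
      have h2 : ∀ᶠ z in 𝓝[≠] z₀, z ∈ U :=
        nhdsWithin_le_nhds (hU.mem_nhds hz₀)
      filter_upwards [h1, h2] with z hz hzU
      simp only [hΦ]
      rw [hFq z hz]
      exact hqeq z hzU hz
    have hlim : Tendsto Φ (𝓝[≠] z₀) (𝓝 (Φ z₀)) := hΦc.tendsto.mono_left nhdsWithin_le_nhds
    have hlim0 : Tendsto Φ (𝓝[≠] z₀) (𝓝 0) :=
      (tendsto_congr' hΦ0).mpr tendsto_const_nhds
    exact tendsto_nhds_unique hlim hlim0
  · rw [hFq z₀ hhz₀]
    exact hqeq z₀ hz₀ hhz₀

end Fermat.Agent.S23.Conv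

end
-- ===== PACK-END S23/Converse.lean

-- ===== PACK-BEGIN S23/FixedField.lean
section


set_option autoImplicit false
set_option linter.style.haveILetI false

/-!
# An element of `ℂ` fixed by every ring automorphism of `ℂ` is rational.
-/

namespace Fermat.Agent.S23

open MvPolynomial

theorem exists_ringEquiv_ne_of_transcendental (x : ℂ) (hx : Transcendental ℚ x) :
    ∃ σ : ℂ ≃+* ℂ, σ x ≠ x := by
  have hs : AlgebraicIndepOn ℚ id ({x} : Set ℂ) := by
    have : AlgebraicIndependent ℚ (fun i : ({x} : Set ℂ) => (i : ℂ)) := by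
      rw [algebraicIndependent_unique_type_iff]
      exact hx
    exact this
  obtain ⟨t, hst, ht⟩ := exists_isTranscendenceBasis_superset hs
  let i₀ : t := ⟨x, hst (Set.mem_singleton x)⟩
  let _ := IsAlgClosed.isAlgClosure_of_transcendence_basis (Subtype.val : t → ℂ) ht
  let f : t → MvPolynomial t ℚ := fun i => if i = i₀ then X i + 1 else X i
  let g : t → MvPolynomial t ℚ := fun i => if i = i₀ then X i - 1 else X i
  let ψ : MvPolynomial t ℚ ≃ₐ[ℚ] MvPolynomial t ℚ :=
    AlgEquiv.ofAlgHom (aeval f) (aeval g)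
      (by
        ext i
        by_cases h : i = i₀
        · simp [f, g, h]
        · simp [f, g, h])
      (by
        ext i
        by_cases h : i = i₀
        · simp [f, g, h]
        · simp [f, g, h])
  let e : Algebra.adjoin ℚ (Set.range (Subtype.val : t → ℂ)) ≃+*
      Algebra.adjoin ℚ (Set.range (Subtype.val : t → ℂ)) :=
    (ht.1.aevalEquiv.symm.trans (ψ.trans ht.1.aevalEquiv)).toRingEquiv
  refine ⟨IsAlgClosure.equivOfEquiv ℂ ℂ e, ?_⟩
  have hxmem : x ∈ Algebra.adjoin ℚ (Set.range (Subtype.val : t → ℂ)) :=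
    Algebra.subset_adjoin ⟨i₀, rfl⟩
  have h1 : (IsAlgClosure.equivOfEquiv ℂ ℂ e) x =
      ((e ⟨x, hxmem⟩ : Algebra.adjoin ℚ (Set.range (Subtype.val : t → ℂ))) : ℂ) := by
    have := IsAlgClosure.equivOfEquiv_algebraMap ℂ ℂ e ⟨x, hxmem⟩
    simpa using this
  have h3 : ht.1.aevalEquiv.symm ⟨x, hxmem⟩ = X i₀ := by
    apply ht.1.aevalEquiv.injective
    rw [AlgEquiv.apply_symm_apply]
    ext
    simp [i₀]
  have h2 : ((e ⟨x, hxmem⟩ : Algebra.adjoin ℚ (Set.range (Subtype.val : t → ℂ))) : ℂ) = x + 1 := by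
    have : e ⟨x, hxmem⟩ = ht.1.aevalEquiv (ψ (ht.1.aevalEquiv.symm ⟨x, hxmem⟩)) := rfl
    rw [this, h3]
    simp [ψ, f, i₀]
  rw [h1, h2]
  simp

theorem exists_ringEquiv_ne_of_algebraic (x : ℂ) (hx : IsAlgebraic ℚ x)
    (hx' : x ∉ Set.range (algebraMap ℚ ℂ)) :
    ∃ σ : ℂ ≃+* ℂ, σ x ≠ x := by
  have hxA : x ∈ algebraicClosure ℚ ℂ := mem_algebraicClosure_iff.mpr hx
  haveI hcl : IsAlgClosure ℚ (algebraicClosure ℚ ℂ) := algebraicClosure.isAlgClosure ℚ ℂ
  haveI : IsAlgClosed (algebraicClosure ℚ ℂ) := hcl.isAlgClosed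
  haveI : Normal ℚ (algebraicClosure ℚ ℂ) := IsAlgClosure.normal ℚ _
  have hx'' : (⟨x, hxA⟩ : algebraicClosure ℚ ℂ) ∉ (⊥ : Subalgebra ℚ (algebraicClosure ℚ ℂ)) := by
    intro h
    rw [Algebra.mem_bot] at h
    obtain ⟨r, hr⟩ := h
    apply hx'
    refine ⟨r, ?_⟩
    have := congrArg (fun z : algebraicClosure ℚ ℂ => (z : ℂ)) hr
    simpa using this
  have hsep : IsSeparable ℚ (⟨x, hxA⟩ : algebraicClosure ℚ ℂ) :=
    Algebra.IsSeparable.isSeparable ℚ _
  have hsplit : ((minpoly ℚ (⟨x, hxA⟩ : algebraicClosure ℚ ℂ)).map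
      (algebraMap ℚ (algebraicClosure ℚ ℂ))).Splits := IsAlgClosed.splits _
  obtain ⟨y, hne, hconj⟩ := (notMem_iff_exists_ne_and_isConjRoot hsep hsplit).mp hx''
  obtain ⟨τ, hτ⟩ := hconj.exists_algEquiv
  obtain ⟨ι, v, hv⟩ := exists_isTranscendenceBasis' (algebraicClosure ℚ ℂ) ℂ
  let _ := IsAlgClosed.isAlgClosure_of_transcendence_basis v hv
  let e : Algebra.adjoin (algebraicClosure ℚ ℂ) (Set.range v) ≃+*
      Algebra.adjoin (algebraicClosure ℚ ℂ) (Set.range v) :=
    hv.1.aevalEquiv.symm.toRingEquiv.trans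
      ((MvPolynomial.mapEquiv ι τ.toRingEquiv).trans hv.1.aevalEquiv.toRingEquiv)
  refine ⟨(IsAlgClosure.equivOfEquiv ℂ ℂ e).symm, ?_⟩
  -- τ y = x', so e maps y to x; hence σ = (ext e)⁻¹ maps x to y ≠ x
  have hymem : (y : ℂ) ∈ Algebra.adjoin (algebraicClosure ℚ ℂ) (Set.range v) :=
    Subalgebra.algebraMap_mem _ y
  have hxmem : x ∈ Algebra.adjoin (algebraicClosure ℚ ℂ) (Set.range v) :=
    Subalgebra.algebraMap_mem _ (⟨x, hxA⟩ : algebraicClosure ℚ ℂ)
  have h3 : hv.1.aevalEquiv.symm ⟨(y : ℂ), hymem⟩ = C y := by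
    apply hv.1.aevalEquiv.injective
    rw [AlgEquiv.apply_symm_apply]
    ext
    simp
  have h2 : e ⟨(y : ℂ), hymem⟩ = ⟨x, hxmem⟩ := by
    have : e ⟨(y : ℂ), hymem⟩ = hv.1.aevalEquiv
        ((MvPolynomial.mapEquiv ι τ.toRingEquiv) (hv.1.aevalEquiv.symm ⟨(y : ℂ), hymem⟩)) := rfl
    rw [this, h3]
    ext
    simp [hτ]
  have h1 : (IsAlgClosure.equivOfEquiv ℂ ℂ e) (y : ℂ) = x := by
    have := IsAlgClosure.equivOfEquiv_algebraMap ℂ ℂ e ⟨(y : ℂ), hymem⟩
    rw [h2] at this
    simpa using this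
  intro h
  apply hne
  have h4 : (IsAlgClosure.equivOfEquiv ℂ ℂ e).symm x = (y : ℂ) := by
    rw [← h1, RingEquiv.symm_apply_apply]
  rw [h4] at h
  exact Subtype.ext h.symm

/-- **Fixed field of `Aut(ℂ)`**: a complex number which is not rational is moved by some ring
automorphism of `ℂ`. -/
theorem exists_ringEquiv_ne (x : ℂ) (hx : x ∉ Set.range (algebraMap ℚ ℂ)) :
    ∃ σ : ℂ ≃+* ℂ, σ x ≠ x := by
  by_cases h : IsAlgebraic ℚ x
  · exact exists_ringEquiv_ne_of_algebraic x h hx
  · exact exists_ringEquiv_ne_of_transcendental x h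

/-- A complex number fixed by every ring automorphism of `ℂ` is rational. -/
theorem mem_range_ratCast_of_forall_ringEquiv (x : ℂ) (hx : ∀ σ : ℂ ≃+* ℂ, σ x = x) :
    ∃ r : ℚ, (r : ℂ) = x := by
  by_contra h
  obtain ⟨σ, hσ⟩ := exists_ringEquiv_ne x (by
    rintro ⟨r, hr⟩
    exact h ⟨r, by simpa using hr⟩)
  exact hσ (hx σ)

end Fermat.Agent.S23

end
-- ===== PACK-END S23/FixedField.lean

-- ===== PACK-BEGIN S49/Glue.lean
section






set_option autoImplicit false
open CuspForm CongruenceSubgroup ModularFormClass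

namespace Fermat.Agent.S49

variable {N : ℕ}

theorem one_mem_strictPeriods (N : ℕ) :
    (1 : ℝ) ∈ (Subgroup.map (Matrix.SpecialLinearGroup.mapGL ℝ) (Gamma0 N)).strictPeriods :=
  CongruenceSubgroup.one_mem_strictPeriods_Gamma0 N

theorem glue_qCoeff_add (f g : CuspForm (Gamma0 N) 2) (n : ℕ) :
    qCoeff ⇑(f + g) n = qCoeff ⇑f n + qCoeff ⇑g n := by
  simp only [qCoeff, FunLike.coe_add]
  rw [ModularForm.qExpansion_add one_pos (one_mem_strictPeriods N) f g, map_add]

theorem glue_qCoeff_smul (c : ℂ) (f : CuspForm (Gamma0 N) 2) (n : ℕ) :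
    qCoeff ⇑(c • f) n = c * qCoeff ⇑f n := by
  have h1 : ⇑(c • f) = c • ⇑f := by
    ext z
    simp
  simp only [qCoeff, h1]
  rw [ModularForm.qExpansion_smul one_pos (one_mem_strictPeriods N) c f]
  simp

theorem glue_qCoeff_neg (f : CuspForm (Gamma0 N) 2) (n : ℕ) :
    qCoeff ⇑(-f) n = - qCoeff ⇑f n := by
  have : -f = (-1 : ℂ) • f := by simp
  rw [this, glue_qCoeff_smul]
  ring

theorem glue_qCoeff_sub (f g : CuspForm (Gamma0 N) 2) (n : ℕ) :
    qCoeff ⇑(f - g) n = qCoeff ⇑f n - qCoeff ⇑g n := by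
  rw [sub_eq_add_neg, glue_qCoeff_add, glue_qCoeff_neg, sub_eq_add_neg]

theorem glue_qCoeff_zero_idx (f : CuspForm (Gamma0 N) 2) : qCoeff ⇑f 0 = 0 := by
  simp only [qCoeff]
  exact CuspFormClass.qExpansion_coeff_zero f one_pos (one_mem_strictPeriods N)

theorem glue_eq_zero_of_qCoeff (f : CuspForm (Gamma0 N) 2) (h : ∀ n, qCoeff ⇑f n = 0) :
    f = 0 := by
  have h0 : UpperHalfPlane.qExpansion 1 ⇑f = 0 := by
    ext n
    simpa [qCoeff] using h n
  have hper := SlashInvariantFormClass.periodic_comp_ofComplex f (one_mem_strictPeriods N)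
  haveI : Fact (IsCusp OnePoint.infty
      (Subgroup.map (Matrix.SpecialLinearGroup.mapGL ℝ) (Gamma0 N))) :=
    ⟨Subgroup.isCusp_of_mem_strictPeriods one_pos (one_mem_strictPeriods N)⟩
  have := (UpperHalfPlane.qExpansion_eq_zero_iff one_pos hper (ModularFormClass.holo f)
    (ModularFormClass.bdd_at_infty f)).mp h0
  exact DFunLike.coe_injective (this.trans CuspForm.coe_zero.symm)

theorem glue_qCoeff_heckeTLin {p : ℕ} (hp : p.Prime) (hpN : ¬ p ∣ N)
    (f : CuspForm (Gamma0 N) 2) (n : ℕ) :
    qCoeff ⇑(CuspForm.heckeTLin 2 hp hpN f) n =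
      qCoeff ⇑f (n * p) + if p ∣ n then (p : ℂ) * qCoeff ⇑f (n / p) else 0 := by
  rw [CuspForm.coe_heckeTLin_apply,
    ModularFormClass.qCoeff_heckeT f (one_mem_strictPeriods N) hp.ne_zero n,
    ModularForm.coeffHeckeT_apply]
  norm_num

theorem glue_qCoeff_heckeULin [NeZero N] {p : ℕ} (hp : p.Prime) (hpN : p ∣ N)
    (f : CuspForm (Gamma0 N) 2) (n : ℕ) :
    qCoeff ⇑(CuspForm.heckeULin 2 hpN f) n = qCoeff ⇑f (n * p) := by
  rw [CuspForm.coe_heckeULin_apply,
    ModularFormClass.qCoeff_heckeU f (one_mem_strictPeriods N) hp.ne_zero n,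
    ModularForm.coeffHeckeU_apply]

end Fermat.Agent.S49

end
-- ===== PACK-END S49/Glue.lean

-- ===== PACK-BEGIN S20/Comb694/Orbits.lean
section








/-!
# Counting orbits of a cyclic group whose generator has prime order on a finite set

If `g ^ n` acts trivially on the finite set `X` and `n` is prime then
`n * #(X / ⟨g⟩) = #X + (n - 1) * #Fix(g)`.
-/

set_option autoImplicit false

namespace Fermat.Agent.S20.Comb694

open MulAction Subgroup Function

variable {G X : Type*} [Group G] [MulAction G X]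

lemma card_eq_sum_minimalPeriod [Fintype X] (g : G)
    [Fintype (orbitRel.Quotient (zpowers g) X)] :
    Fintype.card X
      = ∑ q : orbitRel.Quotient (zpowers g) X, minimalPeriod (g • ·) q.out := by
  have (q : orbitRel.Quotient (zpowers g) X) :
      Fintype (MulAction.orbit (zpowers g) q.out) := Fintype.ofFinite _
  simp only [MulAction.minimalPeriod_eq_card]
  rw [← Fintype.card_sigma]
  exact Fintype.card_congr (MulAction.selfEquivSigmaOrbits (zpowers g) X)

lemma minimalPeriod_eq_of_prime (g : G) (n : ℕ) (hn : n.Prime) (hg : ∀ x : X, g ^ n • x = x)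
    (x : X) [Decidable (g • x = x)] :
    minimalPeriod (g • ·) x = if g • x = x then 1 else n := by
  have hper : IsPeriodicPt (g • ·) n x := by
    rw [IsPeriodicPt, IsFixedPt, smul_iterate]
    exact hg x
  have hdvd := hper.minimalPeriod_dvd
  rcases (Nat.dvd_prime hn).mp hdvd with h1 | h2
  · have hfix : g • x = x := minimalPeriod_eq_one_iff_isFixedPt.mp h1
    rw [h1, if_pos hfix]
  · have hfix : ¬ g • x = x := fun h => by
      have h1 : minimalPeriod (g • ·) x = 1 := minimalPeriod_eq_one_iff_isFixedPt.mpr h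
      rw [h2] at h1
      exact hn.one_lt.ne' h1
    rw [h2, if_neg hfix]

lemma smul_eq_of_mem_orbit_zpowers_of_fixed (g : G) (x y : X) (hx : g • x = x)
    (hy : y ∈ MulAction.orbit (zpowers g) x) : y = x := by
  obtain ⟨⟨h, hh⟩, rfl⟩ := hy
  obtain ⟨k, rfl⟩ := Subgroup.mem_zpowers_iff.mp hh
  exact fixedBy_subset_fixedBy_zpow X g k hx

/-- If `g ^ n` acts trivially on the finite set `X` (`n` prime), then
`n * #orbits = #X + (n - 1) * #Fix(g)`. -/
theorem prime_mul_card_orbits [Finite X] (g : G) (n : ℕ) (hn : n.Prime)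
    (hg : ∀ x : X, g ^ n • x = x) :
    n * Nat.card (orbitRel.Quotient (zpowers g) X)
      = Nat.card X + (n - 1) * Nat.card (fixedBy X g) := by
  classical
  haveI := Fintype.ofFinite X
  haveI : Fintype (orbitRel.Quotient (zpowers g) X) := Fintype.ofFinite _
  have h1 := card_eq_sum_minimalPeriod (X := X) g
  simp only [minimalPeriod_eq_of_prime g n hn hg] at h1
  rw [Finset.sum_ite, Finset.sum_const, Finset.sum_const, smul_eq_mul, mul_one,
    smul_eq_mul] at h1
  have h2 : (Finset.univ.filter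
      (fun q : orbitRel.Quotient (zpowers g) X => g • q.out = q.out)).card
        = Nat.card (fixedBy X g) := by
    rw [← Fintype.card_subtype, ← Nat.card_eq_fintype_card]
    refine Nat.card_eq_of_bijective
      (fun q : {q : orbitRel.Quotient (zpowers g) X // g • q.out = q.out} =>
        (⟨q.1.out, q.2⟩ : fixedBy X g)) ⟨?_, ?_⟩
    · intro q q' h
      have h' : q.1.out = q'.1.out := congrArg Subtype.val h
      exact Subtype.ext (Quotient.out_injective h')
    · rintro ⟨x, hx⟩
      have hx' : g • x = x := hx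
      have hout : (Quotient.mk'' x : orbitRel.Quotient (zpowers g) X).out = x := by
        apply smul_eq_of_mem_orbit_zpowers_of_fixed g x _ hx'
        have := Quotient.exact (Quotient.out_eq (Quotient.mk'' x : orbitRel.Quotient (zpowers g) X))
        exact (MulAction.orbitRel_apply).mp this
      refine ⟨⟨Quotient.mk'' x, ?_⟩, ?_⟩
      · rw [hout]; exact hx'
      · exact Subtype.ext hout
  have h3 := Finset.card_filter_add_card_filter_not (s := (Finset.univ :
      Finset (orbitRel.Quotient (zpowers g) X)))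
      (fun q : orbitRel.Quotient (zpowers g) X => g • q.out = q.out)
  rw [Finset.card_univ] at h3
  rw [Nat.card_eq_fintype_card, Nat.card_eq_fintype_card, ← h3, h1, ← h2]
  obtain ⟨m, rfl⟩ : ∃ m, n = m + 1 := ⟨n - 1, (Nat.succ_pred_eq_of_pos hn.pos).symm⟩
  simp only [Nat.add_sub_cancel]
  ring

end Fermat.Agent.S20.Comb694

end
-- ===== PACK-END S20/Comb694/Orbits.lean

-- ===== PACK-BEGIN S20/CuspCount360.lean
section



/-!
# Number of `T`-orbits on `SL(2,ℤ) ⧸ Γ₀(N)` equals `cuspCount N`

Pure group theory / elementary number theory (no analysis).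
Main result: `Fermat.Agent.S20.CuspCount360.card_orbits_T`.
-/

set_option autoImplicit false

open scoped MatrixGroups
open CongruenceSubgroup Matrix

namespace Fermat.Agent.S20.CuspCount360

/-! ## Arithmetic core -/

section Arith

/-- `→` part 1: the gcd of the lower-left entry with `N` is an invariant. -/
theorem gcd_eq_of_dvd {N : ℕ} {a c a' c' : ℤ} (hac : IsCoprime a c) (hac' : IsCoprime a' c')
    (h : (N : ℤ) ∣ a * c' - c * a') : Int.gcd c N = Int.gcd c' N := by
  apply Nat.dvd_antisymm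
  · -- d ∣ c'
    apply Int.dvd_gcd _ (Int.gcd_dvd_right c N)
    have hd1 : ((Int.gcd c N : ℕ) : ℤ) ∣ c := Int.gcd_dvd_left c N
    have hd2 : ((Int.gcd c N : ℕ) : ℤ) ∣ a * c' - c * a' := (Int.gcd_dvd_right c N).trans h
    have hd3 : ((Int.gcd c N : ℕ) : ℤ) ∣ a * c' := by
      have := dvd_add hd2 (hd1.mul_right a')
      simpa using this
    have hcop : IsCoprime ((Int.gcd c N : ℕ) : ℤ) a :=
      (IsCoprime.of_isCoprime_of_dvd_right hac hd1).symm
    exact hcop.dvd_of_dvd_mul_left hd3
  · apply Int.dvd_gcd _ (Int.gcd_dvd_right c' N)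
    have hd1 : ((Int.gcd c' N : ℕ) : ℤ) ∣ c' := Int.gcd_dvd_left c' N
    have hd2 : ((Int.gcd c' N : ℕ) : ℤ) ∣ a * c' - c * a' := (Int.gcd_dvd_right c' N).trans h
    have hd3 : ((Int.gcd c' N : ℕ) : ℤ) ∣ a' * c := by
      have := dvd_sub (hd1.mul_left a) hd2
      have e : a * c' - (a * c' - c * a') = a' * c := by ring
      rwa [e] at this
    have hcop : IsCoprime ((Int.gcd c' N : ℕ) : ℤ) a' :=
      (IsCoprime.of_isCoprime_of_dvd_right hac' hd1).symm
    exact hcop.dvd_of_dvd_mul_left hd3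

/-- `→` part 2. Here `c = d * c₁`, `c' = d * c₁'`, `N = d * M`, and `e ∣ d`, `e ∣ M`. -/
theorem dvd_of_dvd {d M e a a' c₁ c₁' k : ℤ} (hd : d ≠ 0) (hed : e ∣ d) (heM : e ∣ M)
    (h : d * M ∣ (a + k * (d * c₁)) * (d * c₁') - (d * c₁) * a') :
    e ∣ a * c₁' - a' * c₁ := by
  have h1 : d * M ∣ d * ((a + k * (d * c₁)) * c₁' - c₁ * a') := by
    have e1 : (a + k * (d * c₁)) * (d * c₁') - (d * c₁) * a'
        = d * ((a + k * (d * c₁)) * c₁' - c₁ * a') := by ring
    rwa [e1] at h
  have h2 : M ∣ (a + k * (d * c₁)) * c₁' - c₁ * a' := (mul_dvd_mul_iff_left hd).mp h1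
  have h3 : e ∣ (a + k * (d * c₁)) * c₁' - c₁ * a' := heM.trans h2
  have h4 : e ∣ d * (k * c₁ * c₁') := hed.mul_right _
  have := dvd_sub h3 h4
  have e2 : (a + k * (d * c₁)) * c₁' - c₁ * a' - d * (k * c₁ * c₁') = a * c₁' - a' * c₁ := by ring
  rwa [e2] at this

/-- `←`: solving the linear congruence. -/
theorem exists_k {d M a a' c₁ c₁' : ℤ} (h1 : IsCoprime c₁ M) (h1' : IsCoprime c₁' M)
    (h : ((Int.gcd d M : ℕ) : ℤ) ∣ a * c₁' - a' * c₁) :
    ∃ k : ℤ, d * M ∣ (a + k * (d * c₁)) * (d * c₁') - (d * c₁) * a' := by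
  obtain ⟨t, ht⟩ := h
  obtain ⟨u, v, huv⟩ := h1
  obtain ⟨u', v', huv'⟩ := h1'
  have hb := Int.gcd_eq_gcd_ab d M
  set x := Int.gcdA d M
  set y := Int.gcdB d M
  -- z := u * u' is an inverse of c₁ c₁' mod M
  refine ⟨-t * x * (u * u'), ?_⟩
  have e1 : (a + (-t * x * (u * u')) * (d * c₁)) * (d * c₁') - (d * c₁) * a'
      = d * ((a * c₁' - a' * c₁) - t * x * d * ((u * c₁) * (u' * c₁'))) := by ring
  rw [e1]
  apply mul_dvd_mul_left
  have e2 : u * c₁ = 1 - v * M := by linear_combination huv
  have e3 : u' * c₁' = 1 - v' * M := by linear_combination huv'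
  rw [e2, e3, ht]
  refine ⟨t * y + t * x * d * (v + v' - v * v' * M), ?_⟩
  linear_combination (t) * hb

/-- Comparison of the `r`-invariants inside a fixed `ZMod e`. -/
theorem val_mul_inv_eq_iff {e : ℕ} [NeZero e] {a a' c₁ c₁' : ℤ}
    (h1 : IsCoprime c₁ (e : ℤ)) (h1' : IsCoprime c₁' (e : ℤ)) :
    ((a : ZMod e) * (c₁ : ZMod e)⁻¹).val = ((a' : ZMod e) * (c₁' : ZMod e)⁻¹).val ↔
      (e : ℤ) ∣ a * c₁' - a' * c₁ := by
  have hu : IsUnit ((c₁ : ℤ) : ZMod e) := (ZMod.coe_int_isUnit_iff_isCoprime c₁ e).2 h1.symm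
  have hu' : IsUnit ((c₁' : ℤ) : ZMod e) := (ZMod.coe_int_isUnit_iff_isCoprime c₁' e).2 h1'.symm
  have hi : ((c₁ : ℤ) : ZMod e) * ((c₁ : ℤ) : ZMod e)⁻¹ = 1 := ZMod.mul_inv_of_unit _ hu
  have hi' : ((c₁' : ℤ) : ZMod e) * ((c₁' : ℤ) : ZMod e)⁻¹ = 1 := ZMod.mul_inv_of_unit _ hu'
  rw [(ZMod.val_injective e).eq_iff, ← ZMod.intCast_zmod_eq_zero_iff_dvd]
  push_cast
  constructor
  · intro h
    have : (a : ZMod e) * c₁' - a' * c₁
        = ((a : ZMod e) * (c₁ : ZMod e)⁻¹ - (a' : ZMod e) * (c₁' : ZMod e)⁻¹) * (c₁ * c₁')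
          + (a : ZMod e) * c₁' * (1 - c₁ * (c₁ : ZMod e)⁻¹)
          - (a' : ZMod e) * c₁ * (1 - c₁' * (c₁' : ZMod e)⁻¹) := by ring
    rw [this, h, hi, hi']; ring
  · intro h
    have : (a : ZMod e) * (c₁ : ZMod e)⁻¹ - (a' : ZMod e) * (c₁' : ZMod e)⁻¹
        = ((a : ZMod e) * c₁' - a' * c₁) * ((c₁ : ZMod e)⁻¹ * (c₁' : ZMod e)⁻¹)
          + (a : ZMod e) * (c₁ : ZMod e)⁻¹ * (1 - c₁' * (c₁' : ZMod e)⁻¹)
          - (a' : ZMod e) * (c₁' : ZMod e)⁻¹ * (1 - c₁ * (c₁ : ZMod e)⁻¹) := by ring
    have h0 := sub_eq_zero.mp (by rw [this, h, hi, hi']; ring :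
      (a : ZMod e) * (c₁ : ZMod e)⁻¹ - (a' : ZMod e) * (c₁' : ZMod e)⁻¹ = 0)
    exact h0

end Arith

/-! ## The invariant -/

section Invariant

variable (N : ℕ)

/-- `e(d) = gcd (d, N / d)`. -/
def eOf (d : ℕ) : ℕ := Nat.gcd d (N / d)

/-- The `r`-invariant computed with an explicit `d`. -/
noncomputable def rAux (d : ℕ) (a c : ℤ) : ℕ :=
  (((a : ℤ) : ZMod (eOf N d)) * (((c / (d : ℤ) : ℤ)) : ZMod (eOf N d))⁻¹).val

/-- The `d`-invariant `gcd (c, N)` of `g = [a b; c d]`. -/
def dInv (g : SL(2, ℤ)) : ℕ := Int.gcd ((g : Matrix (Fin 2) (Fin 2) ℤ) 1 0) N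

/-- The full invariant `(d, r)`. -/
noncomputable def cuspInv (g : SL(2, ℤ)) : (_ : ℕ) × ℕ :=
  ⟨dInv N g, rAux N (dInv N g) ((g : Matrix (Fin 2) (Fin 2) ℤ) 0 0)
    ((g : Matrix (Fin 2) (Fin 2) ℤ) 1 0)⟩

theorem isCoprime_col (g : SL(2, ℤ)) :
    IsCoprime ((g : Matrix (Fin 2) (Fin 2) ℤ) 0 0) ((g : Matrix (Fin 2) (Fin 2) ℤ) 1 0) := by
  have h := g.det_coe
  rw [Matrix.det_fin_two] at h
  exact ⟨(g : Matrix (Fin 2) (Fin 2) ℤ) 1 1, -(g : Matrix (Fin 2) (Fin 2) ℤ) 0 1, by
    linear_combination h⟩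

theorem mk_eq_mk_iff (g g' : SL(2, ℤ)) :
    ((g : SL(2, ℤ) ⧸ Gamma0 N) = (g' : SL(2, ℤ) ⧸ Gamma0 N)) ↔
      (N : ℤ) ∣ (g : Matrix (Fin 2) (Fin 2) ℤ) 0 0 * (g' : Matrix (Fin 2) (Fin 2) ℤ) 1 0
        - (g : Matrix (Fin 2) (Fin 2) ℤ) 1 0 * (g' : Matrix (Fin 2) (Fin 2) ℤ) 0 0 := by
  rw [QuotientGroup.eq, Gamma0_mem, ZMod.intCast_zmod_eq_zero_iff_dvd]
  have : ((g⁻¹ * g' : SL(2, ℤ)) : Matrix (Fin 2) (Fin 2) ℤ) 1 0
      = (g : Matrix (Fin 2) (Fin 2) ℤ) 0 0 * (g' : Matrix (Fin 2) (Fin 2) ℤ) 1 0
        - (g : Matrix (Fin 2) (Fin 2) ℤ) 1 0 * (g' : Matrix (Fin 2) (Fin 2) ℤ) 0 0 := by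
    rw [Matrix.SpecialLinearGroup.coe_mul, Matrix.SpecialLinearGroup.SL2_inv_expl]
    rw [Matrix.mul_apply, Fin.sum_univ_two]
    simp
    ring
  rw [this]

theorem T_zpow_mul_col (k : ℤ) (g : SL(2, ℤ)) :
    ((ModularGroup.T ^ k * g : SL(2, ℤ)) : Matrix (Fin 2) (Fin 2) ℤ) 0 0
        = (g : Matrix (Fin 2) (Fin 2) ℤ) 0 0 + k * (g : Matrix (Fin 2) (Fin 2) ℤ) 1 0 ∧
    ((ModularGroup.T ^ k * g : SL(2, ℤ)) : Matrix (Fin 2) (Fin 2) ℤ) 1 0
        = (g : Matrix (Fin 2) (Fin 2) ℤ) 1 0 := by
  rw [Matrix.SpecialLinearGroup.coe_mul, ModularGroup.coe_T_zpow]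
  constructor <;> rw [Matrix.mul_apply, Fin.sum_univ_two] <;> simp

/-- Data attached to `c` and `N ≠ 0`: `d = gcd (c, N)`, `c = d * c₁`, `N = d * M`,
`e = gcd (d, M)`, and `c₁` is coprime to `M` and to `e`. -/
theorem gcd_data {N : ℕ} (hN : N ≠ 0) (c : ℤ) :
    Int.gcd c N ≠ 0 ∧ Int.gcd c N ∣ N ∧
    ((Int.gcd c N : ℕ) : ℤ) * (c / ((Int.gcd c N : ℕ) : ℤ)) = c ∧
    ((Int.gcd c N : ℕ) : ℤ) * ((N / Int.gcd c N : ℕ) : ℤ) = (N : ℤ) ∧
    IsCoprime (c / ((Int.gcd c N : ℕ) : ℤ)) ((N / Int.gcd c N : ℕ) : ℤ) ∧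
    IsCoprime (c / ((Int.gcd c N : ℕ) : ℤ)) ((eOf N (Int.gcd c N) : ℕ) : ℤ) ∧
    eOf N (Int.gcd c N) ≠ 0 := by
  have hd0 : Int.gcd c N ≠ 0 := by
    intro h
    rw [Int.gcd_eq_zero_iff] at h
    exact hN (by exact_mod_cast h.2)
  have hdN : Int.gcd c N ∣ N := Int.natCast_dvd_natCast.mp (Int.gcd_dvd_right c N)
  have hc : ((Int.gcd c N : ℕ) : ℤ) * (c / ((Int.gcd c N : ℕ) : ℤ)) = c :=
    Int.mul_ediv_cancel' (Int.gcd_dvd_left c N)
  have hNM : ((Int.gcd c N : ℕ) : ℤ) * ((N / Int.gcd c N : ℕ) : ℤ) = (N : ℤ) := by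
    exact_mod_cast Nat.mul_div_cancel' hdN
  have hcop : IsCoprime (c / ((Int.gcd c N : ℕ) : ℤ)) ((N / Int.gcd c N : ℕ) : ℤ) := by
    rw [Int.isCoprime_iff_gcd_eq_one]
    have := Int.gcd_div_gcd_div_gcd (i := c) (j := (N : ℤ)) (Nat.pos_of_ne_zero hd0)
    rwa [← Int.natCast_div] at this
  have heM : ((eOf N (Int.gcd c N) : ℕ) : ℤ) ∣ ((N / Int.gcd c N : ℕ) : ℤ) :=
    Int.natCast_dvd_natCast.mpr (Nat.gcd_dvd_right _ _)
  refine ⟨hd0, hdN, hc, hNM, hcop, IsCoprime.of_isCoprime_of_dvd_right hcop heM, ?_⟩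
  exact Nat.gcd_ne_zero_left hd0

theorem arith_iff {N : ℕ} (hN : N ≠ 0) {a c a' c' : ℤ} (hac : IsCoprime a c)
    (hac' : IsCoprime a' c') :
    (∃ k : ℤ, (N : ℤ) ∣ (a + k * c) * c' - c * a') ↔
      (Int.gcd c N = Int.gcd c' N ∧ rAux N (Int.gcd c N) a c = rAux N (Int.gcd c N) a' c') := by
  obtain ⟨hd0, hdN, hc, hNM, hcop, hcope, he0⟩ := gcd_data hN c
  obtain ⟨hd0', hdN', hc', hNM', hcop', hcope', he0'⟩ := gcd_data hN c'
  have : NeZero (eOf N (Int.gcd c N)) := ⟨he0⟩
  have hed : ((eOf N (Int.gcd c N) : ℕ) : ℤ) ∣ ((Int.gcd c N : ℕ) : ℤ) :=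
    Int.natCast_dvd_natCast.mpr (Nat.gcd_dvd_left _ _)
  have heM : ((eOf N (Int.gcd c N) : ℕ) : ℤ) ∣ ((N / Int.gcd c N : ℕ) : ℤ) :=
    Int.natCast_dvd_natCast.mpr (Nat.gcd_dvd_right _ _)
  constructor
  · rintro ⟨k, hk⟩
    have hcopk : IsCoprime (a + k * c) c := hac.add_mul_right_left k
    have hdd : Int.gcd c N = Int.gcd c' N := gcd_eq_of_dvd hcopk hac' hk
    refine ⟨hdd, ?_⟩
    rw [← hdd] at hc' hcope'
    unfold rAux
    rw [val_mul_inv_eq_iff hcope hcope']
    refine dvd_of_dvd (k := k) (by exact_mod_cast hd0) hed heM ?_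
    rw [hNM, hc, hc']
    exact hk
  · rintro ⟨hdd, hr⟩
    rw [← hdd] at hc' hcope' hcop'
    unfold rAux at hr
    rw [val_mul_inv_eq_iff hcope hcope'] at hr
    have hr' : ((Int.gcd ((Int.gcd c N : ℕ) : ℤ) ((N / Int.gcd c N : ℕ) : ℤ) : ℕ) : ℤ) ∣
        a * (c' / ((Int.gcd c N : ℕ) : ℤ)) - a' * (c / ((Int.gcd c N : ℕ) : ℤ)) := by
      rw [Int.gcd_natCast_natCast]
      exact hr
    obtain ⟨k, hk⟩ := exists_k (a := a) (a' := a') hcop hcop' hr'
    refine ⟨k, ?_⟩
    rw [hNM, hc, hc'] at hk
    exact hk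

variable [NeZero N]

/-- Two cosets `gΓ₀(N)`, `g'Γ₀(N)` lie in the same `⟨T⟩`-orbit iff they have the same
invariant. -/
theorem orbit_iff (g g' : SL(2, ℤ)) :
    (∃ k : ℤ, ((ModularGroup.T ^ k * g : SL(2, ℤ)) : SL(2, ℤ) ⧸ Gamma0 N)
        = (g' : SL(2, ℤ) ⧸ Gamma0 N)) ↔ cuspInv N g = cuspInv N g' := by
  have key := arith_iff (NeZero.ne N) (isCoprime_col g) (isCoprime_col g')
  constructor
  · rintro ⟨k, hk⟩
    rw [mk_eq_mk_iff, (T_zpow_mul_col k g).1, (T_zpow_mul_col k g).2] at hk
    obtain ⟨h1, h2⟩ := key.1 ⟨k, hk⟩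
    unfold cuspInv dInv
    rw [← h1, h2]
  · intro h
    unfold cuspInv dInv at h
    rw [Sigma.mk.injEq] at h
    obtain ⟨h1, h2⟩ := h
    have h2' := eq_of_heq h2
    rw [← h1] at h2'
    obtain ⟨k, hk⟩ := key.2 ⟨h1, h2'⟩
    refine ⟨k, ?_⟩
    rw [mk_eq_mk_iff, (T_zpow_mul_col k g).1, (T_zpow_mul_col k g).2]
    exact hk

/-- The finite set of possible invariants. -/
def cuspSet : Finset ((_ : ℕ) × ℕ) :=
  N.divisors.sigma fun d => (Finset.range (eOf N d)).filter fun r => (eOf N d).Coprime r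

omit [NeZero N] in
theorem card_cuspSet : (cuspSet N).card = ModularCurve.cuspCount N := by
  unfold cuspSet ModularCurve.cuspCount
  rw [Finset.card_sigma]
  refine Finset.sum_congr rfl fun d _ => ?_
  rw [Nat.totient_eq_card_coprime]
  rfl

theorem cuspInv_mem (g : SL(2, ℤ)) : cuspInv N g ∈ cuspSet N := by
  obtain ⟨hd0, hdN, hc, hNM, hcop, hcope, he0⟩ :=
    gcd_data (NeZero.ne N) ((g : Matrix (Fin 2) (Fin 2) ℤ) 1 0)
  have : NeZero (eOf N (Int.gcd ((g : Matrix (Fin 2) (Fin 2) ℤ) 1 0) N)) := ⟨he0⟩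
  unfold cuspSet cuspInv dInv
  rw [Finset.mem_sigma, Nat.mem_divisors, Finset.mem_filter, Finset.mem_range]
  refine ⟨⟨hdN, NeZero.ne N⟩, ZMod.val_lt _, ?_⟩
  -- the value is a unit
  have hed : ((eOf N (Int.gcd ((g : Matrix (Fin 2) (Fin 2) ℤ) 1 0) N) : ℕ) : ℤ) ∣
      (g : Matrix (Fin 2) (Fin 2) ℤ) 1 0 :=
    (Int.natCast_dvd_natCast.mpr (Nat.gcd_dvd_left _ _)).trans (Int.gcd_dvd_left _ _)
  have hae : IsCoprime ((g : Matrix (Fin 2) (Fin 2) ℤ) 0 0)
      ((eOf N (Int.gcd ((g : Matrix (Fin 2) (Fin 2) ℤ) 1 0) N) : ℕ) : ℤ) :=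
    IsCoprime.of_isCoprime_of_dvd_right (isCoprime_col g) hed
  have hua := (ZMod.coe_int_isUnit_iff_isCoprime _ _).2 hae.symm
  have huc := (ZMod.coe_int_isUnit_iff_isCoprime _ _).2 hcope.symm
  have hinv : IsUnit ((((g : Matrix (Fin 2) (Fin 2) ℤ) 1 0 /
      ((Int.gcd ((g : Matrix (Fin 2) (Fin 2) ℤ) 1 0) N : ℕ) : ℤ) : ℤ) :
        ZMod (eOf N (Int.gcd ((g : Matrix (Fin 2) (Fin 2) ℤ) 1 0) N)))⁻¹) :=
    IsUnit.of_mul_eq_one _ (by rw [mul_comm]; exact ZMod.mul_inv_of_unit _ huc)
  have hu := hua.mul hinv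
  have := ZMod.val_coe_unit_coprime hu.unit
  rw [IsUnit.unit_spec] at this
  exact this.symm

omit [NeZero N] in
/-- Every element of `cuspSet N` is the invariant of some `g`. -/
theorem exists_cuspInv_eq (p : (_ : ℕ) × ℕ) (hp : p ∈ cuspSet N) :
    ∃ g : SL(2, ℤ), cuspInv N g = p := by
  obtain ⟨d, r⟩ := p
  unfold cuspSet at hp
  rw [Finset.mem_sigma, Nat.mem_divisors, Finset.mem_filter, Finset.mem_range] at hp
  obtain ⟨⟨hdN, hN⟩, hr, hcop⟩ := hp
  dsimp only at hdN hr hcop
  have hd0 : d ≠ 0 := fun h => hN (by rw [h] at hdN; exact Nat.eq_zero_of_zero_dvd hdN)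
  have : NeZero d := ⟨hd0⟩
  have hed : eOf N d ∣ d := Nat.gcd_dvd_left _ _
  have he0 : eOf N d ≠ 0 := Nat.gcd_ne_zero_left hd0
  have : NeZero (eOf N d) := ⟨he0⟩
  -- lift the unit `r` mod `e` to a unit `v` mod `d`
  obtain ⟨v, hv⟩ := ZMod.unitsMap_surjective hed (ZMod.unitOfCoprime r hcop.symm)
  have hvcop : ((v : ZMod d).val).Coprime d := ZMod.val_coe_unit_coprime v
  have hcast : (((v : ZMod d).val : ℕ) : ZMod (eOf N d)) = (r : ZMod (eOf N d)) := by
    have h1 := congrArg (fun u : (ZMod (eOf N d))ˣ => (u : ZMod (eOf N d))) hv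
    simp only [ZMod.unitsMap_def, Units.coe_map, MonoidHom.coe_coe, ZMod.castHom_apply,
      ZMod.coe_unitOfCoprime] at h1
    rw [ZMod.natCast_val]
    exact h1
  -- Bézout
  have hco : IsCoprime (((v : ZMod d).val : ℕ) : ℤ) ((d : ℕ) : ℤ) :=
    Nat.isCoprime_iff_coprime.mpr hvcop
  obtain ⟨x, y, hxy⟩ := hco
  let g : SL(2, ℤ) := ⟨!![(((v : ZMod d).val : ℕ) : ℤ), -y; (d : ℤ), x], by
    rw [Matrix.det_fin_two_of]; linear_combination hxy⟩
  have hg00 : (g : Matrix (Fin 2) (Fin 2) ℤ) 0 0 = (((v : ZMod d).val : ℕ) : ℤ) := rfl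
  have hg10 : (g : Matrix (Fin 2) (Fin 2) ℤ) 1 0 = (d : ℤ) := rfl
  refine ⟨g, ?_⟩
  have hgcd : Int.gcd ((d : ℕ) : ℤ) (N : ℤ) = d := by
    rw [Int.gcd_natCast_natCast]; exact Nat.gcd_eq_left hdN
  unfold cuspInv dInv
  rw [hg00, hg10, hgcd]
  congr 1
  unfold rAux
  rw [Int.ediv_self (by exact_mod_cast hd0)]
  simp only [Int.cast_one, ZMod.inv_one, mul_one, Int.cast_natCast]
  rw [hcast, ZMod.val_natCast]
  exact Nat.mod_eq_of_lt hr

/-- **Main theorem**: the number of orbits of `⟨T⟩` acting by left multiplication on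
`SL(2,ℤ) ⧸ Γ₀(N)` is `cuspCount N = ∑_{d ∣ N} φ(gcd(d, N/d))`. -/
theorem card_orbits_T :
    Nat.card (MulAction.orbitRel.Quotient (Subgroup.zpowers ModularGroup.T)
      (SL(2, ℤ) ⧸ Gamma0 N)) = ModularCurve.cuspCount N := by
  rw [← card_cuspSet, ← Nat.card_eq_finsetCard]
  -- representative of an orbit
  let rep : MulAction.orbitRel.Quotient (Subgroup.zpowers ModularGroup.T)
      (SL(2, ℤ) ⧸ Gamma0 N) → SL(2, ℤ) := fun x => Quotient.out (Quotient.out x)
  have hrep : ∀ x, (Quotient.mk'' ((rep x : SL(2, ℤ)) : SL(2, ℤ) ⧸ Gamma0 N) :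
      MulAction.orbitRel.Quotient (Subgroup.zpowers ModularGroup.T)
      (SL(2, ℤ) ⧸ Gamma0 N)) = x := by
    intro x
    show Quotient.mk'' ((Quotient.out (Quotient.out x) : SL(2, ℤ)) : SL(2, ℤ) ⧸ Gamma0 N) = x
    rw [QuotientGroup.out_eq']
    exact Quotient.out_eq x
  -- orbit equivalence in terms of `T ^ k`
  have horb : ∀ g g' : SL(2, ℤ),
      (Quotient.mk'' (g : SL(2, ℤ) ⧸ Gamma0 N) :
        MulAction.orbitRel.Quotient (Subgroup.zpowers ModularGroup.T) (SL(2, ℤ) ⧸ Gamma0 N))
        = Quotient.mk'' (g' : SL(2, ℤ) ⧸ Gamma0 N) ↔ cuspInv N g' = cuspInv N g := by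
    intro g g'
    rw [Quotient.eq'', MulAction.orbitRel_apply, MulAction.mem_orbit_iff, ← orbit_iff]
    constructor
    · rintro ⟨⟨t, ht⟩, h⟩
      obtain ⟨k, rfl⟩ := Subgroup.mem_zpowers_iff.mp ht
      exact ⟨k, h⟩
    · rintro ⟨k, h⟩
      exact ⟨⟨ModularGroup.T ^ k, Subgroup.mem_zpowers_iff.mpr ⟨k, rfl⟩⟩, h⟩
  refine Nat.card_congr (Equiv.ofBijective
    (fun x => (⟨cuspInv N (rep x), cuspInv_mem N (rep x)⟩ : cuspSet N)) ⟨?_, ?_⟩)
  · intro x y hxy
    have h := congrArg Subtype.val hxy
    dsimp only at h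
    rw [← hrep x, ← hrep y]
    exact (horb _ _).2 h.symm
  · rintro ⟨p, hp⟩
    obtain ⟨g, hg⟩ := exists_cuspInv_eq N p hp
    refine ⟨Quotient.mk'' (g : SL(2, ℤ) ⧸ Gamma0 N), ?_⟩
    apply Subtype.ext
    dsimp only
    rw [← hg]
    exact (horb _ _).1 (hrep (Quotient.mk'' (g : SL(2, ℤ) ⧸ Gamma0 N))).symm

end Invariant

end Fermat.Agent.S20.CuspCount360

end
-- ===== PACK-END S20/CuspCount360.lean

-- ===== PACK-BEGIN Lib/Newform/H443/EigenDescent.lean
section
/-
NEWFORM library (helper443) — linear algebra for STRONG MULTIPLICITY ONE.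

`exists_eigenvector_of_equivariant`:  let `S i` be commuting endomorphisms of a finite-dimensional
space `V`, `T i` endomorphisms of `W`, `Φ : V → W` an equivariant linear map.  If a NONZERO
simultaneous eigenvector `h` of the `T i` (eigenvalues `a i`) lies in the range of `Φ`, then the
`S i` have a nonzero simultaneous eigenvector in `V` with the SAME eigenvalues `a i`.
(No hypothesis on the field: the eigenvalues are given.)

`exists_eigenvector_of_equivariant_family`: the same for a finite family `Φ j : V j → W`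
and `h ∈ ⨆ j, range (Φ j)`: the eigensystem occurs in one of the `V j`.

Intended use: `V j = S_2(Γ₀(N/q))` (two copies per prime `q ∣ N`), `Φ j` = degeneracy maps,
`W = S_2(Γ₀(N))`, `T i = T_ℓ` for `ℓ ∤ N`:  an eigenvector in the old space has its eigensystem
at a lower level.
-/


set_option autoImplicit false

namespace Fermat.Agent.Lib.Newform.H443

open Module

section LemmaA

variable {K V ι : Type*} [Field K] [AddCommGroup V] [Module K V]

/-- Commuting operators `S i` on a nonzero finite-dimensional stable subspace `U` on which every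
`S i - a i` is locally nilpotent have a common eigenvector in `U` with eigenvalues `a i`. -/
theorem exists_common_eigenvector_of_locally_nilpotent
    (S : ι → Module.End K V) (hS : ∀ i j, Commute (S i) (S j)) (a : ι → K) :
    ∀ (U : Submodule K V), FiniteDimensional K U → U ≠ ⊥ → (∀ i, ∀ v ∈ U, S i v ∈ U) →
      (∀ i, ∀ v ∈ U, ∃ n : ℕ, ((S i - a i • (1 : Module.End K V)) ^ n) v = 0) →
      ∃ v ∈ U, v ≠ 0 ∧ ∀ i, S i v = a i • v := by
  intro U
  induction hd : finrank K U using Nat.strong_induction_on generalizing U with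
  | _ d ih =>
    intro hfin hU hstab hnil
    by_cases hall : ∀ i, ∀ v ∈ U, S i v = a i • v
    · obtain ⟨v, hv, hv0⟩ := Submodule.exists_mem_ne_zero_of_ne_bot hU
      exact ⟨v, hv, hv0, fun i => hall i v hv⟩
    · push Not at hall
      obtain ⟨i, v₀, hv₀U, hv₀⟩ := hall
      set Ni : Module.End K V := S i - a i • (1 : Module.End K V) with hNi
      have hNi_apply : ∀ v, Ni v = S i v - a i • v := fun v => by simp [hNi]
      have hNiU : ∀ v ∈ U, Ni v ∈ U := fun v hv => by
        rw [hNi_apply]; exact U.sub_mem (hstab i v hv) (U.smul_mem _ hv)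
      have hNipowU : ∀ n : ℕ, ∀ v ∈ U, (Ni ^ n) v ∈ U := by
        intro n
        induction n with
        | zero => intro v hv; simpa using hv
        | succ n ihn =>
          intro v hv
          rw [pow_succ', Module.End.mul_apply]
          exact hNiU _ (ihn v hv)
      -- the subspace `U ⊓ ker Ni`
      set U' : Submodule K V := U ⊓ LinearMap.ker Ni with hU'
      have hU'le : U' ≤ U := inf_le_left
      -- it is nonzero
      have hU'ne : U' ≠ ⊥ := by
        classical
        have hex : ∃ n : ℕ, (Ni ^ n) v₀ = 0 := hnil i v₀ hv₀U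
        have hv₀ne : v₀ ≠ 0 := by
          rintro rfl
          exact hv₀ (by simp)
        have hn0 : Nat.find hex ≠ 0 := by
          intro h0
          have := Nat.find_spec hex
          rw [h0] at this
          exact hv₀ne (by simpa using this)
        obtain ⟨m, hm⟩ := Nat.exists_eq_succ_of_ne_zero hn0
        have hmin : (Ni ^ m) v₀ ≠ 0 := Nat.find_min hex (by omega)
        have hker : Ni ((Ni ^ m) v₀) = 0 := by
          have := Nat.find_spec hex
          rw [hm, Nat.succ_eq_add_one, pow_succ', Module.End.mul_apply] at this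
          exact this
        intro hbot
        have hmem : (Ni ^ m) v₀ ∈ U' :=
          Submodule.mem_inf.mpr ⟨hNipowU m v₀ hv₀U, LinearMap.mem_ker.mpr hker⟩
        rw [hbot] at hmem
        exact hmin (by simpa using hmem)
      -- it is stable
      have hcomm : ∀ j, Commute (S j) Ni := fun j =>
        ((hS j i).sub_right ((Commute.one_right (S j)).smul_right (a i)))
      have hU'stab : ∀ j, ∀ v ∈ U', S j v ∈ U' := by
        intro j v hv
        have hv' := Submodule.mem_inf.mp hv
        refine Submodule.mem_inf.mpr ⟨hstab j v hv'.1, ?_⟩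
        have h1 : Ni (S j v) = S j (Ni v) := by
          have := congrArg (fun f : Module.End K V => f v) (hcomm j).eq
          simpa [Module.End.mul_apply] using this.symm
        have h2 : Ni v = 0 := LinearMap.mem_ker.mp hv'.2
        rw [LinearMap.mem_ker, h1, h2, map_zero]
      -- it is proper
      have hv₀U' : v₀ ∉ U' := by
        intro hmem
        have h2 : Ni v₀ = 0 := LinearMap.mem_ker.mp (Submodule.mem_inf.mp hmem).2
        rw [hNi_apply, sub_eq_zero] at h2
        exact hv₀ h2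
      have hlt : finrank K U' < finrank K U := by
        apply Submodule.finrank_lt_finrank_of_lt
        exact lt_of_le_of_ne hU'le (fun heq => hv₀U' (heq ▸ hv₀U))
      have hfin' : FiniteDimensional K U' := Submodule.finiteDimensional_of_le hU'le
      obtain ⟨v, hv, hv0, hveig⟩ := ih (finrank K U') (hd ▸ hlt) U' rfl hfin' hU'ne hU'stab
        (fun j v hv => hnil j v (hU'le hv))
      exact ⟨v, hU'le hv, hv0, hveig⟩

end LemmaA

section LemmaB

variable {K V W ι : Type*} [Field K] [AddCommGroup V] [Module K V] [FiniteDimensional K V]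
  [AddCommGroup W] [Module K W]

/-- **Eigenvector descent.**  If a nonzero simultaneous eigenvector `h` of the `T i` lies in the
range of an equivariant map `Φ : V → W` (`V` finite-dimensional, the `S i` commuting), then the
same eigensystem occurs in `V`. -/
theorem exists_eigenvector_of_equivariant
    (S : ι → Module.End K V) (T : ι → Module.End K W) (hS : ∀ i j, Commute (S i) (S j))
    (Φ : V →ₗ[K] W) (hΦ : ∀ i v, Φ (S i v) = T i (Φ v))
    (a : ι → K) {h : W} (hh : h ≠ 0) (hmem : h ∈ LinearMap.range Φ)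
    (heig : ∀ i, T i h = a i • h) :
    ∃ v : V, v ≠ 0 ∧ ∀ i, S i v = a i • v := by
  classical
  -- the predicate on subspaces
  let Q : Submodule K V → Prop := fun U =>
    (∀ i, ∀ v ∈ U, S i v ∈ U) ∧ (∀ v ∈ U, ∃ c : K, Φ v = c • h) ∧ (∃ u ∈ U, Φ u = h)
  have hQV : Q ((Submodule.span K {h}).comap Φ) := by
    refine ⟨?_, ?_, ?_⟩
    · intro i v hv
      rw [Submodule.mem_comap, Submodule.mem_span_singleton] at hv ⊢
      obtain ⟨c, hc⟩ := hv
      exact ⟨c * a i, by rw [hΦ, ← hc, map_smul, heig, smul_smul]⟩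
    · intro v hv
      rw [Submodule.mem_comap, Submodule.mem_span_singleton] at hv
      obtain ⟨c, hc⟩ := hv
      exact ⟨c, hc.symm⟩
    · obtain ⟨u, hu⟩ := hmem
      exact ⟨u, by rw [Submodule.mem_comap, hu]; exact Submodule.mem_span_singleton_self h, hu⟩
  have hex : ∃ d : ℕ, ∃ U : Submodule K V, Q U ∧ finrank K U = d := ⟨_, _, hQV, rfl⟩
  obtain ⟨U, hQU, hUd⟩ := Nat.find_spec hex
  have hmin : ∀ U' : Submodule K V, Q U' → finrank K U ≤ finrank K U' := by
    intro U' hQU'
    rw [hUd]
    exact Nat.find_min' hex ⟨U', hQU', rfl⟩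
  obtain ⟨hstab, hline, u, huU, hu⟩ := hQU
  have hUne : U ≠ ⊥ := by
    intro hbot
    rw [hbot, Submodule.mem_bot] at huU
    rw [huU, map_zero] at hu
    exact hh hu.symm
  -- local nilpotency on `U`
  have hnil : ∀ i, ∀ v ∈ U, ∃ n : ℕ, ((S i - a i • (1 : Module.End K V)) ^ n) v = 0 := by
    intro i
    set Ni : Module.End K V := S i - a i • (1 : Module.End K V) with hNi
    have hNi_apply : ∀ v, Ni v = S i v - a i • v := fun v => by simp [hNi]
    have hNiU : ∀ v ∈ U, Ni v ∈ U := fun v hv => by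
      rw [hNi_apply]; exact U.sub_mem (hstab i v hv) (U.smul_mem _ hv)
    have hΦNi : ∀ v ∈ U, Φ (Ni v) = 0 := by
      intro v hv
      obtain ⟨c, hc⟩ := hline v hv
      rw [hNi_apply, map_sub, hΦ, map_smul, hc, map_smul, heig, smul_comm, sub_self]
    -- the restriction and its Fitting decomposition
    let f : Module.End K U := Ni.restrict hNiU
    have hfit : IsCompl (⨆ n : ℕ, LinearMap.ker (f ^ n)) (⨅ n : ℕ, LinearMap.range (f ^ n)) :=
      LinearMap.isCompl_iSup_ker_pow_iInf_range_pow f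
    have hfpow : ∀ (n : ℕ) (x : U), ((f ^ n) x : V) = (Ni ^ n) (x : V) := by
      intro n
      induction n with
      | zero => intro x; simp
      | succ n ihn =>
        intro x
        rw [pow_succ', pow_succ', Module.End.mul_apply, Module.End.mul_apply]
        show Ni ((f ^ n) x : V) = _
        rw [ihn]
    -- the generalised kernel, as a subspace of `V`
    let U₁ : Submodule K V := U ⊓ Module.End.maxGenEigenspace (S i) (a i)
    have hU₁le : U₁ ≤ U := inf_le_left
    have hcomm : ∀ j, Commute (S j) Ni := fun j =>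
      ((hS j i).sub_right ((Commute.one_right (S j)).smul_right (a i)))
    have hQU₁ : Q U₁ := by
      refine ⟨?_, fun v hv => hline v (hU₁le hv), ?_⟩
      · intro j v hv
        have hv' := Submodule.mem_inf.mp hv
        refine Submodule.mem_inf.mpr ⟨hstab j v hv'.1, ?_⟩
        have hv2 := hv'.2
        rw [Module.End.mem_maxGenEigenspace] at hv2 ⊢
        obtain ⟨n, hn⟩ := hv2
        refine ⟨n, ?_⟩
        have h1 : (Ni ^ n) (S j v) = S j ((Ni ^ n) v) := by
          have := congrArg (fun g : Module.End K V => g v) ((hcomm j).pow_right n).eq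
          simpa [Module.End.mul_apply] using this.symm
        change (Ni ^ n) (S j v) = 0
        rw [h1]
        have hn' : (Ni ^ n) v = 0 := hn
        rw [hn', map_zero]
      · -- decompose `u`
        have htop := hfit.sup_eq_top
        have hu' : (⟨u, huU⟩ : U) ∈ (⨆ n : ℕ, LinearMap.ker (f ^ n)) ⊔
            (⨅ n : ℕ, LinearMap.range (f ^ n)) := by rw [htop]; trivial
        obtain ⟨x, hx, y, hy, hxy⟩ := Submodule.mem_sup.mp hu'
        -- `y` is in the range of `f`, so `Φ y = 0`
        have hy1 : y ∈ LinearMap.range (f ^ 1) := (Submodule.mem_iInf _).mp hy 1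
        obtain ⟨w, hw⟩ := hy1
        have hΦy : Φ (y : V) = 0 := by
          rw [← hw, pow_one]
          exact hΦNi w w.2
        -- `x` is in the generalised kernel
        have hxn : ∃ n : ℕ, (f ^ n) x = 0 := by
          have hmono : Monotone (fun n : ℕ => LinearMap.ker (f ^ n)) := by
            intro m n hmn z hz
            rw [LinearMap.mem_ker] at hz ⊢
            obtain ⟨k, rfl⟩ := Nat.exists_eq_add_of_le hmn
            rw [add_comm, pow_add, Module.End.mul_apply, hz, map_zero]
          have := (Submodule.mem_iSup_of_directed _ (Monotone.directed_le hmono)).mp hx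
          obtain ⟨n, hn⟩ := this
          exact ⟨n, hn⟩
        obtain ⟨n, hn⟩ := hxn
        refine ⟨(x : V), Submodule.mem_inf.mpr ⟨x.2, ?_⟩, ?_⟩
        · rw [Module.End.mem_maxGenEigenspace]
          refine ⟨n, ?_⟩
          have := hfpow n x
          rw [hn] at this
          exact this.symm
        · have hsum : (x : V) + (y : V) = u := by
            have := congrArg (fun z : U => (z : V)) hxy
            simpa using this
          have : Φ u = Φ (x : V) + Φ (y : V) := by rw [← hsum, map_add]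
          rw [hΦy, add_zero] at this
          rw [← this, hu]
    have hU₁eq : U₁ = U := by
      apply Submodule.eq_of_le_of_finrank_le hU₁le
      exact hmin U₁ hQU₁
    intro v hv
    have hv1 : v ∈ U₁ := hU₁eq ▸ hv
    have hv2 := (Submodule.mem_inf.mp hv1).2
    rw [Module.End.mem_maxGenEigenspace] at hv2
    exact hv2
  obtain ⟨v, -, hv0, hv⟩ := exists_common_eigenvector_of_locally_nilpotent S hS a U
    inferInstance hUne hstab hnil
  exact ⟨v, hv0, hv⟩

end LemmaB

section Family

variable {K W ι J : Type*} [Field K] [Finite J]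
  {V : J → Type*} [∀ j, AddCommGroup (V j)] [∀ j, Module K (V j)]
  [∀ j, FiniteDimensional K (V j)] [AddCommGroup W] [Module K W]

/-- **Eigenvector descent, finite family.**  If a nonzero simultaneous eigenvector `h` of the
`T i` lies in the sum of the ranges of finitely many equivariant maps `Φ j : V j → W`
(each `V j` finite-dimensional with commuting operators `S j i`), then the same eigensystem
occurs in one of the `V j`. -/
theorem exists_eigenvector_of_equivariant_family
    (S : ∀ j, ι → Module.End K (V j)) (T : ι → Module.End K W)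
    (hS : ∀ j i i', Commute (S j i) (S j i'))
    (Φ : ∀ j, V j →ₗ[K] W) (hΦ : ∀ j i v, Φ j (S j i v) = T i (Φ j v))
    (a : ι → K) {h : W} (hh : h ≠ 0) (hmem : h ∈ ⨆ j, LinearMap.range (Φ j))
    (heig : ∀ i, T i h = a i • h) :
    ∃ j, ∃ v : V j, v ≠ 0 ∧ ∀ i, S j i v = a i • v := by
  classical
  have : Fintype J := Fintype.ofFinite J
  -- the product space
  let Stot : ι → Module.End K (∀ j, V j) := fun i =>
    LinearMap.pi (fun j => (S j i).comp (LinearMap.proj j))
  let Φtot : (∀ j, V j) →ₗ[K] W := ∑ j, (Φ j).comp (LinearMap.proj j)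
  have hStot_apply : ∀ i (v : ∀ j, V j) j, Stot i v j = S j i (v j) := fun i v j => rfl
  have hΦtot_apply : ∀ v : ∀ j, V j, Φtot v = ∑ j, Φ j (v j) := by
    intro v
    simp [Φtot, LinearMap.sum_apply]
  have hcomm : ∀ i i', Commute (Stot i) (Stot i') := by
    intro i i'
    apply LinearMap.ext
    intro v
    funext j
    have := congrArg (fun g : Module.End K (V j) => g (v j)) (hS j i i').eq
    simpa [Module.End.mul_apply, hStot_apply] using this
  have hequiv : ∀ i v, Φtot (Stot i v) = T i (Φtot v) := by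
    intro i v
    rw [hΦtot_apply, hΦtot_apply, map_sum]
    exact Finset.sum_congr rfl (fun j _ => by rw [hStot_apply, hΦ])
  have hrange : h ∈ LinearMap.range Φtot := by
    have hle : (⨆ j, LinearMap.range (Φ j)) ≤ LinearMap.range Φtot := by
      apply iSup_le
      rintro j _ ⟨v, rfl⟩
      refine ⟨Pi.single j v, ?_⟩
      rw [hΦtot_apply, Finset.sum_eq_single j]
      · simp
      · intro j' _ hj'
        simp [Pi.single_eq_of_ne hj']
      · intro hj
        exact absurd (Finset.mem_univ j) hj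
    exact hle hmem
  obtain ⟨v, hv0, hv⟩ := exists_eigenvector_of_equivariant Stot T hcomm Φtot hequiv a hh hrange heig
  have hex : ∃ j, v j ≠ 0 := by
    by_contra hcon
    push Not at hcon
    exact hv0 (funext hcon)
  obtain ⟨j, hj⟩ := hex
  refine ⟨j, v j, hj, fun i => ?_⟩
  have := congrFun (hv i) j
  simpa [hStot_apply] using this

end Family

end Fermat.Agent.Lib.Newform.H443

end
-- ===== PACK-END Lib/Newform/H443/EigenDescent.lean

-- ===== PACK-BEGIN Lib/Newform/H683/LinAlg.lean
section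
/-
NEWFORM library (helper683) — linear algebra: a commuting family of endomorphisms of a
finite-dimensional complex vector space has a common eigenvector in every nonzero stable subspace.
-/


set_option autoImplicit false

namespace Fermat.Agent.Lib.Newform.H683

open Module

/-- A commuting family of endomorphisms of a finite-dimensional vector space over an
algebraically closed field has a common eigenvector in every nonzero stable subspace. -/
theorem exists_common_eigenvector {K V : Type*} [Field K] [IsAlgClosed K] [AddCommGroup V]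
    [Module K V] [FiniteDimensional K V] {ι : Type*} (T : ι → Module.End K V)
    (hcomm : ∀ i j, Commute (T i) (T j)) :
    ∀ (E : Submodule K V), E ≠ ⊥ → (∀ i, ∀ v ∈ E, T i v ∈ E) →
      ∃ v ∈ E, v ≠ 0 ∧ ∀ i, ∃ c : K, T i v = c • v := by
  intro E
  induction h : finrank K E using Nat.strong_induction_on generalizing E with
  | _ d ih =>
    intro hE hstab
    by_cases hsc : ∀ i, ∃ c : K, ∀ v ∈ E, T i v = c • v
    · obtain ⟨v, hv, hv0⟩ := Submodule.exists_mem_ne_zero_of_ne_bot hE
      exact ⟨v, hv, hv0, fun i => (hsc i).elim fun c hc => ⟨c, hc v hv⟩⟩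
    · push Not at hsc
      obtain ⟨i, hi⟩ := hsc
      -- an eigenvalue of `T i` on `E`
      have hmaps : ∀ v ∈ E, T i v ∈ E := hstab i
      let Ti : Module.End K E := (T i).restrict hmaps
      haveI : Nontrivial E := Submodule.nontrivial_iff_ne_bot.mpr hE
      obtain ⟨c, hc⟩ := Module.End.exists_eigenvalue Ti
      obtain ⟨w, hw⟩ := hc.exists_hasEigenvector
      -- the eigenspace inside `E`
      let E' : Submodule K V := E ⊓ LinearMap.ker (T i - c • (1 : Module.End K V))
      have hE'le : E' ≤ E := inf_le_left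
      have hwE' : (w : V) ∈ E' := by
        refine ⟨w.2, ?_⟩
        have h1 : Ti w = c • w := hw.apply_eq_smul
        have h2 : T i (w : V) = c • (w : V) := by
          have := congrArg (fun x : E => (x : V)) h1
          simpa [Ti] using this
        simp [LinearMap.mem_ker, h2]
      have hw0 : (w : V) ≠ 0 := fun h0 => hw.2 (Subtype.ext h0)
      have hE'ne : E' ≠ ⊥ := fun hbot => hw0 (by
        have : (w : V) ∈ (⊥ : Submodule K V) := hbot ▸ hwE'
        simpa using this)
      have hE'stab : ∀ j, ∀ v ∈ E', T j v ∈ E' := by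
        intro j v hv
        refine ⟨hstab j v hv.1, ?_⟩
        have hv2 : T i v = c • v := by
          have := hv.2
          simpa [LinearMap.mem_ker, sub_eq_zero] using this
        have hcm : T i (T j v) = T j (T i v) := by
          have := congrArg (fun f : Module.End K V => f v) (hcomm i j).eq
          simpa using this
        simp [LinearMap.mem_ker, hcm, hv2]
      have hlt : finrank K E' < finrank K E := by
        apply Submodule.finrank_lt_finrank_of_lt
        refine lt_of_le_of_ne hE'le ?_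
        intro heq
        obtain ⟨v, hvE, hv⟩ := hi c
        apply hv
        have hv' : v ∈ E' := heq ▸ hvE
        have := hv'.2
        simpa [LinearMap.mem_ker, sub_eq_zero] using this
      obtain ⟨v, hv, hv0, hveig⟩ := ih (finrank K E') (h ▸ hlt) E' rfl hE'ne hE'stab
      exact ⟨v, hE'le hv, hv0, hveig⟩

end Fermat.Agent.Lib.Newform.H683

end
-- ===== PACK-END Lib/Newform/H683/LinAlg.lean

-- ===== PACK-BEGIN S30/H709/EigenAlg.lean
section


/-!
# S30-OCC, algebra: a ring homomorphism from a faithfully acting commutative ring occurs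

`T` a commutative ring acting faithfully on a finitely generated module `L`, `χ : T →+* K` a ring
homomorphism to a field: there is a nonzero additive `μ : L → K` with `μ (t • x) = χ t * μ x`.
No hypothesis on the kernel of `χ` (maximality is not needed), no characteristic hypothesis.

Lattice form: if `L` is a free `ℤ`-module of finite rank with basis `b`, and `χ` takes values in a
domain `A`, there is a nonzero vector `w` of elements of `A` which is a left eigenvector with
eigenvalue `χ t` of the integer matrix of every `t` in the basis `b`.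
-/

set_option autoImplicit false

namespace Fermat.Agent.S30.H709

open scoped TensorProduct

/-- A ring homomorphism `χ : T →+* K` to a field occurs in every faithful finitely generated
`T`-module: there is a nonzero `χ`-semilinear additive functional. -/
theorem exists_semilinear_functional {T : Type*} [CommRing T] {L : Type*} [AddCommGroup L]
    [Module T L] [Module.Finite T L] (hfaith : ∀ t : T, (∀ x : L, t • x = 0) → t = 0)
    {K : Type*} [Field K] (χ : T →+* K) :
    ∃ μ : L →+ K, μ ≠ 0 ∧ ∀ (t : T) (x : L), μ (t • x) = χ t * μ x := by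
  classical
  let 𝔭 : Ideal T := RingHom.ker χ
  have h𝔭 : 𝔭.IsPrime := RingHom.ker_isPrime χ
  let P : PrimeSpectrum T := ⟨𝔭, h𝔭⟩
  have hsupp : P ∈ Module.support T L := by
    rw [Module.mem_support_iff_of_finite]
    intro t ht
    rw [Module.mem_annihilator] at ht
    rw [hfaith t ht]
    exact zero_mem _
  have hnt : Nontrivial (𝔭.ResidueField ⊗[T] L) :=
    (Module.mem_support_iff_nontrivial_residueField_tensorProduct P).mp hsupp
  obtain ⟨v, hv⟩ := exists_ne (0 : 𝔭.ResidueField ⊗[T] L)
  obtain ⟨φ, hφ⟩ := Module.Projective.exists_dual_ne_zero 𝔭.ResidueField hv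
  have hunit : 𝔭.primeCompl ≤ (IsUnit.submonoid K).comap χ := by
    intro t ht
    rw [Submonoid.mem_comap, IsUnit.mem_submonoid_iff]
    exact IsUnit.mk0 _ (fun h => ht (RingHom.mem_ker.mpr h))
  let ι : 𝔭.ResidueField →+* K := Ideal.ResidueField.lift 𝔭 χ le_rfl hunit
  have hι : ∀ t : T, ι (algebraMap T 𝔭.ResidueField t) = χ t := fun t =>
    Ideal.ResidueField.lift_algebraMap 𝔭 χ le_rfl hunit t
  let μ : L →+ K :=
    { toFun := fun x => ι (φ ((1 : 𝔭.ResidueField) ⊗ₜ[T] x))
      map_zero' := by rw [TensorProduct.tmul_zero, map_zero, map_zero]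
      map_add' := fun x y => by rw [TensorProduct.tmul_add, map_add, map_add] }
  have hμ : ∀ x, μ x = ι (φ ((1 : 𝔭.ResidueField) ⊗ₜ[T] x)) := fun _ => rfl
  refine ⟨μ, ?_, ?_⟩
  · intro h0
    apply hφ
    have hzero : ∀ x : L, φ ((1 : 𝔭.ResidueField) ⊗ₜ[T] x) = 0 := by
      intro x
      have := congrArg (fun m : L →+ K => m x) h0
      simp only [hμ, AddMonoidHom.zero_apply] at this
      exact (map_eq_zero ι).mp this
    have hall : ∀ w : 𝔭.ResidueField ⊗[T] L, φ w = 0 := by
      intro w
      induction w using TensorProduct.induction_on with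
      | zero => exact map_zero φ
      | tmul a x =>
        have : a ⊗ₜ[T] x = a • ((1 : 𝔭.ResidueField) ⊗ₜ[T] x) := by
          rw [TensorProduct.smul_tmul', smul_eq_mul, mul_one]
        rw [this, map_smul, hzero, smul_zero]
      | add x y hx hy => rw [map_add, hx, hy, add_zero]
    exact hall v
  · intro t x
    rw [hμ, hμ, ← hι t, ← map_mul]
    congr 1
    have : (1 : 𝔭.ResidueField) ⊗ₜ[T] (t • x)
        = (algebraMap T 𝔭.ResidueField t) • ((1 : 𝔭.ResidueField) ⊗ₜ[T] x) := by
      rw [TensorProduct.tmul_smul, TensorProduct.smul_tmul', TensorProduct.smul_tmul',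
        smul_eq_mul, mul_one, Algebra.smul_def, mul_one]
    rw [this, map_smul, smul_eq_mul]

/-- Auxiliary form of `exists_eigen_coeffs` with an arbitrary fraction field. -/
theorem exists_eigen_coeffs_aux {T : Type*} [CommRing T] {L : Type*} [AddCommGroup L]
    (ρ : T →+* Module.End ℤ L) (hρ : Function.Injective ρ)
    {ι : Type*} [Fintype ι] (b : Module.Basis ι ℤ L)
    {A : Type*} [CommRing A] [IsDomain A] (K : Type*) [Field K] [Algebra A K]
    [IsFractionRing A K] (χ : T →+* A) :
    ∃ w : ι → A, w ≠ 0 ∧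
      ∀ (t : T) (k : ι), ∑ j, w j * ((b.repr (ρ t (b k)) j : ℤ) : A) = χ t * w k := by
  classical
  let _ : Module T L := Module.compHom L ρ
  have hsmul : ∀ (t : T) (x : L), t • x = ρ t x := fun _ _ => rfl
  have : Module.Finite T L := by
    refine ⟨⟨Finset.univ.image b, ?_⟩⟩
    rw [eq_top_iff]
    intro x _
    rw [← b.sum_repr x]
    refine Submodule.sum_mem _ fun j _ => ?_
    have hb : b j ∈ Submodule.span T ((Finset.univ.image b : Finset L) : Set L) :=
      Submodule.subset_span (by simp)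
    have : (b.repr x j) • b j = ((b.repr x j : ℤ) : T) • b j := by
      rw [hsmul, map_intCast]
      rfl
    rw [this]
    exact Submodule.smul_mem _ _ hb
  have hfaith : ∀ t : T, (∀ x : L, t • x = 0) → t = 0 := by
    intro t ht
    apply hρ
    rw [map_zero]
    exact LinearMap.ext fun x => ht x
  obtain ⟨μ, hμ0, hμ⟩ := exists_semilinear_functional hfaith ((algebraMap A K).comp χ)
  obtain ⟨d, hd⟩ := IsLocalization.exist_integer_multiples_of_finite (nonZeroDivisors A)
    (fun j : ι => μ (b j))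
  choose w hw using hd
  have hd0 : algebraMap A K (d : A) ≠ 0 := by
    intro h
    exact nonZeroDivisors.coe_ne_zero d ((IsFractionRing.injective A K) (by rw [h, map_zero]))
  have hw' : ∀ j, algebraMap A K (w j) = algebraMap A K (d : A) * μ (b j) := by
    intro j
    rw [hw j, Algebra.smul_def]
  refine ⟨w, ?_, ?_⟩
  · intro hw0
    apply hμ0
    have hb0 : ∀ j, μ (b j) = 0 := by
      intro j
      have h1 := hw' j
      rw [hw0, Pi.zero_apply, map_zero] at h1
      rcases mul_eq_zero.mp h1.symm with h | h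
      · exact absurd h hd0
      · exact h
    have hall : ∀ x : L, μ x = 0 := by
      intro x
      rw [← b.sum_repr x, map_sum]
      refine Finset.sum_eq_zero fun j _ => ?_
      rw [map_zsmul, hb0, smul_zero]
    exact AddMonoidHom.ext hall
  · intro t k
    apply IsFractionRing.injective A K
    have h1 : μ (ρ t (b k)) = algebraMap A K (χ t) * μ (b k) := hμ t (b k)
    have h2 : μ (ρ t (b k)) = ∑ j, ((b.repr (ρ t (b k)) j : ℤ) : K) * μ (b j) := by
      conv_lhs => rw [← b.sum_repr (ρ t (b k))]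
      rw [map_sum]
      refine Finset.sum_congr rfl fun j _ => ?_
      rw [map_zsmul, zsmul_eq_mul]
    rw [map_sum, map_mul, hw' k]
    calc ∑ j, algebraMap A K (w j * ((b.repr (ρ t (b k)) j : ℤ) : A))
        = ∑ j, algebraMap A K (d : A) * (((b.repr (ρ t (b k)) j : ℤ) : K) * μ (b j)) := by
          refine Finset.sum_congr rfl fun j _ => ?_
          rw [map_mul, hw' j, map_intCast]
          ring
      _ = algebraMap A K (d : A) * μ (ρ t (b k)) := by rw [h2, Finset.mul_sum]
      _ = algebraMap A K (χ t) * (algebraMap A K (d : A) * μ (b k)) := by rw [h1]; ring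

/-- Lattice form of `exists_semilinear_functional`: a commutative ring `T` acting faithfully
(through `ρ`) on a free abelian group `L` of finite rank with basis `b`, and a ring homomorphism
`χ` from `T` to a domain `A`.  There is a nonzero `w : ι → A` with
`∑ j, w j * [ρ t]_{j k} = χ t * w k` for all `t`, where `[ρ t]_{j k} = b.repr (ρ t (b k)) j`. -/
theorem exists_eigen_coeffs {T : Type*} [CommRing T] {L : Type*} [AddCommGroup L]
    (ρ : T →+* Module.End ℤ L) (hρ : Function.Injective ρ)
    {ι : Type*} [Fintype ι] (b : Module.Basis ι ℤ L)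
    {A : Type*} [CommRing A] [IsDomain A] (χ : T →+* A) :
    ∃ w : ι → A, w ≠ 0 ∧
      ∀ (t : T) (k : ι), ∑ j, w j * ((b.repr (ρ t (b k)) j : ℤ) : A) = χ t * w k :=
  exists_eigen_coeffs_aux ρ hρ b (FractionRing A) χ

end Fermat.Agent.S30.H709

end
-- ===== PACK-END S30/H709/EigenAlg.lean

-- ===== PACK-BEGIN S28/H626/Twist.lean
section
/-
S28 helper (helper626): twists `t ↦ c t` of Laurent series, the family `j(ξ tⁿ)`,
and transport of two-variable integral polynomial relations along ring homomorphisms.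
Mathlib + Prelude only.
-/



set_option autoImplicit false

noncomputable section

open ModularCurve HahnSeries Polynomial

namespace Fermat.Agent.S28.H626

/-! ### Twist `t ↦ c t` -/

section Twist

variable {R : Type*} [CommRing R]

theorem coeff_mul_of_support_subset {x y : LaurentSeries R} {a : ℤ} {s t : Set ℤ}
    (hs : s.IsPWO) (ht : t.IsPWO) (hxs : x.support ⊆ s) (hyt : y.support ⊆ t) :
    (x * y).coeff a =
      ∑ ij ∈ Finset.antidiagonal hs ht a, x.coeff ij.fst * y.coeff ij.snd := by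
  rw [HahnSeries.coeff_mul_left' hs hxs]
  refine Finset.sum_subset (Finset.antidiagonal_mono_right hyt) ?_
  intro ij hij hnot
  have hj : ij.2 ∉ y.support := by
    intro hj
    apply hnot
    rw [Finset.mem_antidiagonal] at hij ⊢
    exact ⟨hij.1, hj, hij.2.2⟩
  simp only [HahnSeries.mem_support, not_not] at hj
  rw [hj, mul_zero]

/-- underlying function of `twist` -/
def twistFun (c : Rˣ) (φ : LaurentSeries R) : LaurentSeries R where
  coeff n := ((c ^ n : Rˣ) : R) * φ.coeff n
  isPWO_support' := φ.isPWO_support.mono fun n hn => by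
    simp only [Function.mem_support, ne_eq] at hn
    simp only [HahnSeries.mem_support, ne_eq]
    intro h
    exact hn (by rw [h, mul_zero])

@[simp] theorem twistFun_coeff (c : Rˣ) (φ : LaurentSeries R) (n : ℤ) :
    (twistFun c φ).coeff n = ((c ^ n : Rˣ) : R) * φ.coeff n := rfl

theorem twistFun_support (c : Rˣ) (φ : LaurentSeries R) :
    (twistFun c φ).support ⊆ φ.support := by
  intro m hm
  simp only [HahnSeries.mem_support, twistFun_coeff] at hm ⊢
  intro h0
  exact hm (by rw [h0, mul_zero])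

/-- The substitution `t ↦ c t` on Laurent series, for a unit `c`:
`(twist c φ).coeff n = c ^ n * φ.coeff n`. -/
def twist (c : Rˣ) : LaurentSeries R →+* LaurentSeries R where
  toFun := twistFun c
  map_zero' := by ext n; simp
  map_one' := by
    ext n
    by_cases h : n = 0
    · subst h; simp
    · simp [HahnSeries.coeff_one, h]
  map_add' φ ψ := by ext n; simp [mul_add]
  map_mul' φ ψ := by
    ext n
    rw [coeff_mul_of_support_subset φ.isPWO_support ψ.isPWO_support (twistFun_support c φ)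
      (twistFun_support c ψ)]
    simp only [twistFun_coeff, HahnSeries.coeff_mul, Finset.mul_sum]
    refine Finset.sum_congr rfl ?_
    intro ij hij
    rw [Finset.mem_antidiagonal] at hij
    rw [← hij.2.2, zpow_add, Units.val_mul]
    ring

@[simp] theorem twist_coeff (c : Rˣ) (φ : LaurentSeries R) (n : ℤ) :
    (twist c φ).coeff n = ((c ^ n : Rˣ) : R) * φ.coeff n := rfl

theorem twist_one_apply (φ : LaurentSeries R) : twist (1 : Rˣ) φ = φ := by
  ext n; simp

theorem twist_twist (c d : Rˣ) (φ : LaurentSeries R) :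
    twist c (twist d φ) = twist (c * d) φ := by
  ext n
  simp only [twist_coeff, mul_zpow, Units.val_mul]
  ring

/-- `f((c t)^m) = f(c^m t^m)`. -/
theorem twist_qExpand (c : Rˣ) (m : ℕ) [NeZero m] (φ : LaurentSeries R) :
    twist c (qExpand R m φ) = qExpand R m (twist (c ^ m) φ) := by
  ext n
  by_cases hn : (m : ℤ) ∣ n
  · obtain ⟨k, rfl⟩ := hn
    rw [twist_coeff, qExpand_coeff_mul, qExpand_coeff_mul, twist_coeff]
    congr 2
    rw [← zpow_natCast, ← zpow_mul]
  · rw [twist_coeff, qExpand_coeff_of_not_dvd _ _ hn, qExpand_coeff_of_not_dvd _ _ hn, mul_zero]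

end Twist

end Fermat.Agent.S28.H626

end

end
-- ===== PACK-END S28/H626/Twist.lean

-- ===== PACK-BEGIN S28/H25/DerivQExp.lean
section


/-!
# `q`-expansion of the normalised derivative `D = (2πi)⁻¹ d/dτ`

(helper25, S28 piece [A-θ], route independent.)
If `F : ℍ → ℂ` is holomorphic, `h`-periodic and bounded at `i∞` with `q`-expansion `∑ aₙ qₕⁿ`,
then `D F` is given by the convergent series `h⁻¹ ∑ n aₙ qₕⁿ`; in particular (for `h = 1`)
`qExpansion 1 (D F) = θ (qExpansion 1 F)` with `θ = q d/dq`.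
-/

set_option autoImplicit false

open UpperHalfPlane hiding I
open Function Derivative Complex
open scoped Manifold

noncomputable section

namespace Fermat.Agent.S28.H25

local notation "𝕢" => Function.Periodic.qParam

theorem hasDerivAt_qParam (h : ℝ) (z : ℂ) :
    HasDerivAt (𝕢 h) (𝕢 h z * (2 * Real.pi * I / h)) z := by
  unfold Function.Periodic.qParam
  have h1 : HasDerivAt (fun z : ℂ => 2 * Real.pi * I * z / h) (2 * Real.pi * I / h) z := by
    have := ((hasDerivAt_id z).const_mul (2 * Real.pi * I)).div_const (h : ℂ)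
    simpa using this
  exact h1.cexp

/-- `D F = h⁻¹ · q · g'(q)` with `g` the cusp function of `F`. -/
theorem D_eq_qParam_mul_deriv_cuspFunction {F : ℍ → ℂ} {h : ℝ} (hh : 0 < h)
    (hper : Periodic (F ∘ ofComplex) h) (hhol : MDiff F) (hbdd : IsBoundedAtImInfty F) (τ : ℍ) :
    D F τ = (h : ℂ)⁻¹ * (𝕢 h τ * deriv (cuspFunction h F) (𝕢 h τ)) := by
  have hq : ‖𝕢 h τ‖ < 1 := Periodic.norm_qParam_lt_one hh τ.im_pos
  have hg : DifferentiableAt ℂ (cuspFunction h F) (𝕢 h τ) :=
    differentiableAt_cuspFunction hh hper hhol hbdd hq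
  have heq : (F ∘ ofComplex) =ᶠ[nhds (τ : ℂ)] (cuspFunction h F) ∘ (𝕢 h) := by
    filter_upwards [isOpen_upperHalfPlaneSet.mem_nhds τ.im_pos] with z hz
    have := eq_cuspFunction (f := F) ⟨z, hz⟩ hh.ne' hper
    simp only [comp_apply, ofComplex_apply_of_im_pos hz]
    exact this.symm
  have hcomp := (hg.hasDerivAt.comp (τ : ℂ) (hasDerivAt_qParam h τ)).deriv
  rw [normalizedDerivOfComplex, heq.deriv_eq, hcomp]
  have hpi : (2 * (Real.pi : ℂ) * I) ≠ 0 := by
    simp [Real.pi_ne_zero]
  have hh' : (h : ℂ) ≠ 0 := by exact_mod_cast hh.ne'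
  field_simp

/-- Termwise differentiation of the `q`-expansion. -/
theorem hasSum_D_of_bounded {F : ℍ → ℂ} {h : ℝ} (hh : 0 < h)
    (hper : Periodic (F ∘ ofComplex) h) (hhol : MDiff F) (hbdd : IsBoundedAtImInfty F) (τ : ℍ) :
    HasSum (fun n : ℕ => ((h : ℂ)⁻¹ * ((n : ℂ) * (qExpansion h F).coeff n)) • 𝕢 h τ ^ n)
      (D F τ) := by
  set g := cuspFunction h F with hgdef
  have hgdiff : DifferentiableOn ℂ g (Metric.ball 0 1) :=
    differentiableOn_cuspFunction_ball hh hper hhol hbdd
  have hg'diff : DifferentiableOn ℂ (deriv g) (Metric.ball 0 1) :=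
    hgdiff.deriv Metric.isOpen_ball
  have hq : 𝕢 h τ ∈ Metric.ball (0 : ℂ) 1 := by
    simpa using Periodic.norm_qParam_lt_one hh τ.im_pos
  have hT := hasSum_taylorSeries_on_ball hg'diff hq
  rw [D_eq_qParam_mul_deriv_cuspFunction hh hper hhol hbdd τ]
  have hT2 := (hT.mul_left (𝕢 h τ)).mul_left ((h : ℂ)⁻¹)
  have hfun : (fun n : ℕ => ((h : ℂ)⁻¹ * (((n + 1 : ℕ) : ℂ) *
      (qExpansion h F).coeff (n + 1))) • 𝕢 h τ ^ (n + 1)) =
      (fun i : ℕ => (h : ℂ)⁻¹ * (𝕢 h τ * (((i.factorial : ℕ) : ℂ))⁻¹ • (𝕢 h τ - 0) ^ i •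
        iteratedDeriv i (deriv g) 0)) := by
    funext n
    rw [qExpansion_coeff, ← iteratedDeriv_succ', sub_zero]
    have hn : ((n.factorial : ℕ) : ℂ) ≠ 0 := by exact_mod_cast n.factorial_ne_zero
    have hn1 : ((n : ℂ) + 1) ≠ 0 := by exact_mod_cast n.succ_ne_zero
    simp only [smul_eq_mul]
    rw [Nat.factorial_succ]
    push_cast
    field_simp
    rw [hgdef]
    ring
  have hshift : HasSum (fun n : ℕ => ((h : ℂ)⁻¹ * (((n + 1 : ℕ) : ℂ) *
      (qExpansion h F).coeff (n + 1))) • 𝕢 h τ ^ (n + 1))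
      ((h : ℂ)⁻¹ * (𝕢 h τ * deriv g (𝕢 h τ))) := by
    rw [hfun]
    exact hT2
  have := (hasSum_nat_add_iff' (f := fun n : ℕ => ((h : ℂ)⁻¹ * ((n : ℂ) *
      (qExpansion h F).coeff n)) • 𝕢 h τ ^ n) 1).mp (by simpa using hshift)
  simpa using this

/-- `D F` is periodic if `F` is. -/
theorem periodic_D {F : ℍ → ℂ} {h : ℝ} (hh : 0 < h)
    (hper : Periodic (F ∘ ofComplex) h) (hhol : MDiff F) (hbdd : IsBoundedAtImInfty F) :
    Periodic (D F ∘ ofComplex) h := by
  intro w
  by_cases! hw : 0 < Complex.im w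
  · have hw' : 0 < Complex.im (w + h) := by simp [hw]
    simp only [comp_apply, ofComplex_apply_of_im_pos hw', ofComplex_apply_of_im_pos hw]
    rw [D_eq_qParam_mul_deriv_cuspFunction hh hper hhol hbdd,
      D_eq_qParam_mul_deriv_cuspFunction hh hper hhol hbdd]
    have hq : 𝕢 h ((⟨w + h, hw'⟩ : ℍ) : ℂ) = 𝕢 h ((⟨w, hw⟩ : ℍ) : ℂ) := by
      show 𝕢 h (w + h) = 𝕢 h w
      have hh' : (h : ℂ) ≠ 0 := by exact_mod_cast hh.ne'
      simp only [Function.Periodic.qParam]
      rw [show 2 * (Real.pi : ℂ) * Complex.I * (w + h) / h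
          = 2 * Real.pi * Complex.I * w / h + 2 * Real.pi * Complex.I by field_simp]
      rw [Complex.exp_add, Complex.exp_two_pi_mul_I, mul_one]
    rw [hq]
  · have : Complex.im (w + h) ≤ 0 := by simpa using hw
    simp [ofComplex_apply_of_im_nonpos this, ofComplex_apply_of_im_nonpos hw]

theorem isBoundedAtImInfty_D {F : ℍ → ℂ} {h : ℝ} (hh : 0 < h)
    (hper : Periodic (F ∘ ofComplex) h) (hhol : MDiff F) (hbdd : IsBoundedAtImInfty F) :
    IsBoundedAtImInfty (D F) :=
  isBoundedAtImInfty_of_hasSum_qExpansion hh (hasSum_D_of_bounded hh hper hhol hbdd)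

theorem analyticAt_cuspFunction_D {F : ℍ → ℂ} {h : ℝ} (hh : 0 < h)
    (hper : Periodic (F ∘ ofComplex) h) (hhol : MDiff F) (hbdd : IsBoundedAtImInfty F) :
    AnalyticAt ℂ (cuspFunction h (D F)) 0 :=
  analyticAt_cuspFunction_zero hh (periodic_D hh hper hhol hbdd)
    (normalizedDerivOfComplex_mdifferentiable hhol) (isBoundedAtImInfty_D hh hper hhol hbdd)

/-- The `q`-expansion of `D F` is `h⁻¹ θ` of the `q`-expansion of `F`. -/
theorem qExpansion_D_coeff {F : ℍ → ℂ} {h : ℝ} (hh : 0 < h)
    (hper : Periodic (F ∘ ofComplex) h) (hhol : MDiff F) (hbdd : IsBoundedAtImInfty F) (n : ℕ) :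
    (qExpansion h (D F)).coeff n = (h : ℂ)⁻¹ * ((n : ℂ) * (qExpansion h F).coeff n) := by
  have hfanalytic := analyticAt_cuspFunction_D hh hper hhol hbdd
  have h1 := (hasFPowerSeriesOnBall_cuspFunction hh hfanalytic
    (hasSum_D_of_bounded hh hper hhol hbdd)).hasFPowerSeriesAt
  have h2 : HasFPowerSeriesAt (cuspFunction h (D F))
      (FormalMultilinearSeries.ofScalars ℂ fun m ↦ (qExpansion h (D F)).coeff m) 0 := by
    simpa [qExpansion_coeff, div_eq_mul_inv, mul_comm]
      using hfanalytic.hasFPowerSeriesAt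
  have := congr_arg (FormalMultilinearSeries.coeff · n) (h1.eq_formalMultilinearSeries h2)
  simpa [FormalMultilinearSeries.coeff_ofScalars] using this.symm

/-- `θ = X d/dX` on power series. -/
def thetaP {R : Type*} [CommRing R] (f : PowerSeries R) : PowerSeries R :=
  PowerSeries.X * PowerSeries.derivative R f

theorem coeff_thetaP {R : Type*} [CommRing R] (f : PowerSeries R) (n : ℕ) :
    (thetaP f).coeff n = (n : R) * f.coeff n := by
  rcases n with _ | n
  · simp [thetaP]
  · rw [thetaP, PowerSeries.coeff_succ_X_mul, PowerSeries.coeff_derivative]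
    push_cast
    ring

theorem qExpansion_D {F : ℍ → ℂ}
    (hper : Periodic (F ∘ ofComplex) 1) (hhol : MDiff F) (hbdd : IsBoundedAtImInfty F) :
    qExpansion 1 (D F) = thetaP (qExpansion 1 F) := by
  ext n
  rw [qExpansion_D_coeff one_pos hper hhol hbdd, coeff_thetaP]
  simp

end Fermat.Agent.S28.H25

end
end
-- ===== PACK-END S28/H25/DerivQExp.lean

-- ===== PACK-BEGIN S28/H326/Newton.lean
section
/-
S28 / helper326: Newton's identities, membership form.

If all power sums of a finite family `z` in a commutative `ℚ`-algebra lie in a `ℚ`-subalgebra `B`,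
then so do all elementary symmetric functions; hence `∏ (X - z i)` has coefficients in `B`.
-/


set_option autoImplicit false

namespace Fermat.Agent.S28.H326

open Finset

/-- **Newton**: power sums in `B` ⟹ elementary symmetric functions in `B`. -/
theorem esymm_mem_of_psum_mem {Ω : Type*} [CommRing Ω] [Algebra ℚ Ω] (B : Subalgebra ℚ Ω)
    {σ : Type*} [Fintype σ] (z : σ → Ω) (h : ∀ m : ℕ, 0 < m → ∑ i, z i ^ m ∈ B) (k : ℕ) :
    (Finset.univ.val.map z).esymm k ∈ B := by
  induction k using Nat.strong_induction_on with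
  | _ k ih =>
    rcases Nat.eq_zero_or_pos k with rfl | hk
    · have : (Finset.univ.val.map z).esymm 0 = 1 := by simp [Multiset.esymm]
      rw [this]; exact one_mem B
    · have key := congrArg (MvPolynomial.aeval (R := ℚ) z) (MvPolynomial.mul_esymm_eq_sum σ ℚ k)
      simp only [map_mul, map_natCast, map_pow, map_neg, map_one, map_sum,
        MvPolynomial.aeval_esymm_eq_multiset_esymm] at key
      have hps : ∀ m : ℕ, MvPolynomial.aeval (R := ℚ) z (MvPolynomial.psum σ ℚ m) = ∑ i, z i ^ m := by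
        intro m
        simp [MvPolynomial.psum]
      simp only [hps] at key
      have hR : (-1 : Ω) ^ (k + 1) * ∑ a ∈ antidiagonal k with a.1 < k,
          (-1 : Ω) ^ a.1 * (Finset.univ.val.map z).esymm a.1 * ∑ i, z i ^ a.2 ∈ B := by
        refine mul_mem (pow_mem (neg_mem (one_mem B)) _) (sum_mem fun a ha => ?_)
        rw [mem_filter, HasAntidiagonal.mem_antidiagonal] at ha
        refine mul_mem (mul_mem (pow_mem (neg_mem (one_mem B)) _) (ih a.1 ha.2)) (h a.2 (by omega))
      rw [← key] at hR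
      have hk0 : (k : ℚ) ≠ 0 := by exact_mod_cast hk.ne'
      have : (Finset.univ.val.map z).esymm k =
          (k : ℚ)⁻¹ • ((k : Ω) * (Finset.univ.val.map z).esymm k) := by
        rw [← nsmul_eq_mul, ← Nat.cast_smul_eq_nsmul ℚ k, smul_smul,
          inv_mul_cancel₀ hk0, one_smul]
      rw [this]
      exact B.smul_mem hR _

/-- Vieta + Newton: the monic polynomial with roots `z i` has coefficients in `B`. -/
theorem prod_X_sub_C_mem_of_psum_mem {Ω : Type*} [CommRing Ω] [Algebra ℚ Ω] (B : Subalgebra ℚ Ω)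
    {σ : Type*} [Fintype σ] (z : σ → Ω) (h : ∀ m : ℕ, 0 < m → ∑ i, z i ^ m ∈ B) (n : ℕ) :
    (∏ i, (Polynomial.X - Polynomial.C (z i))).coeff n ∈ B := by
  have hV := Multiset.prod_X_sub_X_eq_sum_esymm (Finset.univ.val.map z)
  rw [Multiset.map_map] at hV
  have hprod : (∏ i, (Polynomial.X - Polynomial.C (z i))) =
      (Multiset.map ((fun t => Polynomial.X - Polynomial.C t) ∘ z) Finset.univ.val).prod := by
    rfl
  rw [hprod, hV, Polynomial.finsetSum_coeff]
  refine sum_mem fun j _ => ?_
  have : ((-1 : Polynomial Ω) ^ j * (Polynomial.C ((Finset.univ.val.map z).esymm j) *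
      Polynomial.X ^ (Multiset.card (Finset.univ.val.map z) - j))) =
      Polynomial.C ((-1) ^ j * (Finset.univ.val.map z).esymm j) *
        Polynomial.X ^ (Multiset.card (Finset.univ.val.map z) - j) := by
    simp [mul_assoc]
  rw [this, Polynomial.coeff_C_mul_X_pow]
  split_ifs
  · exact mul_mem (pow_mem (neg_mem (one_mem B)) _) (esymm_mem_of_psum_mem B z h j)
  · exact zero_mem B

end Fermat.Agent.S28.H326

end
-- ===== PACK-END S28/H326/Newton.lean

-- ===== PACK-BEGIN S28/H505/Bridge.lean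
section






open UpperHalfPlane ModularForm EisensteinSeries Filter Topology
open scoped PowerSeries.WithPiTopology

namespace Fermat.Agent.S28.H505

theorem bernoulli_four_eq : bernoulli 4 = -1 / 30 := by
  rw [bernoulli_eq_bernoulli'_of_ne_one (by norm_num)]
  simp [bernoulli'_four]

/-- (B1) The Mathlib `q`-expansion of `E₄` is the Prelude's formal series `eisenstein4`. -/
theorem qExpansion_E₄_eq :
    qExpansion 1 E₄ = ModularCurve.eisenstein4.map (Int.castRingHom ℂ) := by
  ext m
  rw [E_qExpansion_coeff (by norm_num) (by decide) m, PowerSeries.coeff_map,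
    ModularCurve.eisenstein4, PowerSeries.coeff_mk]
  split_ifs with h
  · simp
  · rw [bernoulli_four_eq, ArithmeticFunction.sigma_apply]
    simp only [eq_intCast]
    push_cast
    ring

/-- Taylor power series at `0` of a function `ℂ → ℂ`. -/
noncomputable def taylorPS (g : ℂ → ℂ) : PowerSeries ℂ :=
  .mk fun m => (m.factorial : ℂ)⁻¹ * iteratedDeriv m g 0

theorem coeff_taylorPS (g : ℂ → ℂ) (m : ℕ) :
    (taylorPS g).coeff m = (m.factorial : ℂ)⁻¹ * iteratedDeriv m g 0 := by
  simp [taylorPS]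

theorem qExpansion_eq_taylorPS (h : ℝ) (f : ℍ → ℂ) :
    qExpansion h f = taylorPS (cuspFunction h f) := rfl

theorem taylorPS_congr {g h : ℂ → ℂ} (hgh : g =ᶠ[𝓝 0] h) : taylorPS g = taylorPS h := by
  ext m
  simp [coeff_taylorPS, hgh.iteratedDeriv_eq m]

theorem taylorPS_mul {g h : ℂ → ℂ} (hg : AnalyticAt ℂ g 0) (hh : AnalyticAt ℂ h 0) :
    taylorPS (g * h) = taylorPS g * taylorPS h := by
  ext
  simp only [coeff_taylorPS,
    iteratedDeriv_mul hg.contDiffAt hh.contDiffAt, Finset.mul_sum, PowerSeries.coeff_mul,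
    Finset.Nat.sum_antidiagonal_eq_sum_range_succ_mk, Nat.succ_eq_add_one]
  refine Finset.sum_congr rfl fun i hi ↦ ?_
  rw [Nat.cast_choose _ (by grind)]
  field_simp [Nat.factorial_ne_zero]

theorem iteratedDeriv_polynomial_eval (p : Polynomial ℂ) (m : ℕ) :
    iteratedDeriv m (fun x => p.eval x) = fun x => ((⇑Polynomial.derivative)^[m] p).eval x := by
  induction m generalizing p with
  | zero => simp
  | succ m ih =>
    rw [iteratedDeriv_succ']
    have : deriv (fun x => p.eval x) = fun x => (Polynomial.derivative p).eval x :=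
      funext fun x => Polynomial.deriv p
    rw [this, ih, Function.iterate_succ_apply]

theorem taylorPS_polynomial (p : Polynomial ℂ) :
    taylorPS (fun x => p.eval x) = (p : PowerSeries ℂ) := by
  ext m
  rw [coeff_taylorPS, iteratedDeriv_polynomial_eval, Polynomial.coeff_coe]
  beta_reduce
  rw [← Polynomial.coeff_zero_eq_eval_zero, Polynomial.coeff_iterate_derivative, zero_add,
    Nat.descFactorial_self, nsmul_eq_mul, ← mul_assoc,
    inv_mul_cancel₀ (by exact_mod_cast Nat.factorial_ne_zero m), one_mul]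

theorem differentiableOn_iteratedDeriv {g : ℂ → ℂ} {U : Set ℂ} (hU : IsOpen U)
    (hg : DifferentiableOn ℂ g U) (k : ℕ) : DifferentiableOn ℂ (iteratedDeriv k g) U := by
  induction k with
  | zero => simpa using hg
  | succ k ih => rw [iteratedDeriv_succ]; exact ih.deriv hU

theorem tendstoLocallyUniformlyOn_iteratedDeriv {ι : Type*} {φ : Filter ι} {F : ι → ℂ → ℂ}
    {f : ℂ → ℂ} {U : Set ℂ} (hU : IsOpen U) (hf : TendstoLocallyUniformlyOn F f φ U)
    (hF : ∀ᶠ n in φ, DifferentiableOn ℂ (F n) U) (k : ℕ) :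
    TendstoLocallyUniformlyOn (fun n => iteratedDeriv k (F n)) (iteratedDeriv k f) φ U := by
  induction k with
  | zero => simpa using hf
  | succ k ih =>
    have h1 : ∀ᶠ n in φ, DifferentiableOn ℂ (iteratedDeriv k (F n)) U := by
      filter_upwards [hF] with n hn using differentiableOn_iteratedDeriv hU hn k
    have := ih.deriv h1 hU
    simpa only [iteratedDeriv_succ, Function.comp_def] using this

/-- the analytic Euler product on the unit disc -/
noncomputable def eulerFun (q : ℂ) : ℂ := ∏' n : ℕ, (1 - q ^ (n + 1))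

theorem eulerFun_differentiableOn : DifferentiableOn ℂ eulerFun (Metric.ball 0 1) :=
  differentiableOn_tprod_one_sub_pow

theorem eulerFun_analyticAt : AnalyticAt ℂ eulerFun 0 :=
  eulerFun_differentiableOn.analyticAt (Metric.ball_mem_nhds 0 one_pos)

/-- partial Euler products as polynomials over `ℤ` -/
noncomputable def eulerPoly (t : Finset ℕ) : Polynomial ℤ :=
  ∏ i ∈ t, (1 - Polynomial.X ^ (i + 1))

theorem eulerPoly_eval (t : Finset ℕ) (q : ℂ) :
    ((eulerPoly t).map (Int.castRingHom ℂ)).eval q = ∏ i ∈ t, (1 - q ^ (i + 1)) := by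
  simp [eulerPoly, Polynomial.map_prod, Polynomial.eval_prod]

theorem eulerPoly_coe (t : Finset ℕ) :
    ((eulerPoly t : Polynomial ℤ) : PowerSeries ℤ) = ∏ i ∈ t, (1 - PowerSeries.X ^ (i + 1)) := by
  rw [eulerPoly, ← Polynomial.coeToPowerSeries.ringHom_apply, map_prod]
  simp [Polynomial.coeToPowerSeries.ringHom_apply]

theorem tendsto_coeff_eulerPoly (k : ℕ) :
    Tendsto (fun t : Finset ℕ => (((eulerPoly t).coeff k : ℤ) : ℂ)) atTop
      (𝓝 ((ModularCurve.etaProd.coeff k : ℤ) : ℂ)) := by
  have h1 : Tendsto (fun t : Finset ℕ => ∏ i ∈ t, ((1 : PowerSeries ℤ) - PowerSeries.X ^ (i + 1)))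
      atTop (𝓝 ModularCurve.etaProd) :=
    (PowerSeries.WithPiTopology.multipliable_one_sub_X_pow ℤ).hasProd
  have h2 := ((PowerSeries.WithPiTopology.continuous_coeff ℤ k).tendsto _).comp h1
  have h3 : Continuous (fun n : ℤ => (n : ℂ)) := continuous_of_discreteTopology
  have h4 := (h3.tendsto _).comp h2
  refine h4.congr fun t => ?_
  simp only [Function.comp_apply, ← eulerPoly_coe, Polynomial.coeff_coe]

theorem taylorPS_eulerFun :
    taylorPS eulerFun = ModularCurve.etaProd.map (Int.castRingHom ℂ) := by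
  ext k
  rw [coeff_taylorPS, PowerSeries.coeff_map]
  have hU : IsOpen (Metric.ball (0 : ℂ) 1) := Metric.isOpen_ball
  have h0 : (0 : ℂ) ∈ Metric.ball (0 : ℂ) 1 := Metric.mem_ball_self one_pos
  have hloc : TendstoLocallyUniformlyOn
      (fun (t : Finset ℕ) (q : ℂ) => ∏ i ∈ t, (1 - q ^ (i + 1))) eulerFun atTop
      (Metric.ball 0 1) :=
    hasProdLocallyUniformlyOn_iff_tendstoLocallyUniformlyOn.mp
      multipliableLocallyUniformlyOn_one_sub_pow.hasProdLocallyUniformlyOn
  have hdiff : ∀ᶠ t : Finset ℕ in atTop,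
      DifferentiableOn ℂ (fun q : ℂ => ∏ i ∈ t, (1 - q ^ (i + 1))) (Metric.ball 0 1) :=
    .of_forall fun t => by
      simpa [Finset.prod_fn] using
        DifferentiableOn.finsetProd (u := t) (f := fun i (q : ℂ) => 1 - q ^ (i + 1))
          (fun _ _ ↦ by fun_prop)
  have h1 := (tendstoLocallyUniformlyOn_iteratedDeriv hU hloc hdiff k).tendsto_at h0
  have h2 : ∀ t : Finset ℕ, iteratedDeriv k (fun q : ℂ => ∏ i ∈ t, (1 - q ^ (i + 1))) 0
      = (k.factorial : ℂ) * (((eulerPoly t).coeff k : ℤ) : ℂ) := by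
    intro t
    have := congrArg (PowerSeries.coeff k)
      (taylorPS_polynomial ((eulerPoly t).map (Int.castRingHom ℂ)))
    rw [coeff_taylorPS, Polynomial.coeff_coe, Polynomial.coeff_map] at this
    simp only [eulerPoly_eval, eq_intCast] at this
    rw [← this, ← mul_assoc, mul_inv_cancel₀ (by exact_mod_cast Nat.factorial_ne_zero k), one_mul]
  simp only [h2] at h1
  have h3 := (tendsto_coeff_eulerPoly k).const_mul (k.factorial : ℂ)
  have h4 := tendsto_nhds_unique h1 h3
  rw [h4, ← mul_assoc, inv_mul_cancel₀ (by exact_mod_cast Nat.factorial_ne_zero k), one_mul]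
  simp

theorem taylorPS_id : taylorPS (fun q : ℂ => q) = PowerSeries.X := by
  have := taylorPS_polynomial Polynomial.X
  simpa using this

theorem taylorPS_pow {g : ℂ → ℂ} (hg : AnalyticAt ℂ g 0) (n : ℕ) :
    taylorPS (g ^ n) = taylorPS g ^ n := by
  induction n with
  | zero =>
    have := taylorPS_polynomial 1
    simpa [Pi.one_def] using this
  | succ n ih => rw [pow_succ, pow_succ, taylorPS_mul (hg.pow n) hg, ih]

/-- (B2) The Mathlib `q`-expansion of `Δ` is `X * etaProd ^ 24`. -/
theorem qExpansion_discriminant_eq :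
    qExpansion 1 ModularForm.discriminant =
      PowerSeries.X * (ModularCurve.etaProd.map (Int.castRingHom ℂ)) ^ 24 := by
  rw [qExpansion_eq_taylorPS]
  have h1 : cuspFunction 1 ModularForm.discriminant =ᶠ[𝓝 0]
      ((fun q : ℂ => q) * eulerFun ^ 24) := by
    filter_upwards [Metric.ball_mem_nhds (0 : ℂ) one_pos] with q hq
    rw [discriminant_cuspFunction_eqOn hq]
    simp only [Pi.mul_apply, Pi.pow_apply, eulerFun]
    rw [(multipliable_one_sub_pow (by simpa using hq)).tprod_pow 24]
  rw [taylorPS_congr h1, taylorPS_mul (by fun_prop) (eulerFun_analyticAt.pow 24), taylorPS_id,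
    taylorPS_pow eulerFun_analyticAt, taylorPS_eulerFun]

end Fermat.Agent.S28.H505

end
-- ===== PACK-END S28/H505/Bridge.lean

-- ===== PACK-BEGIN S18/H568/NormDescent.lean
section


/-!
# S18 / node D2 — abstract Kummer descent by the norm trick (helper568)

`F'/F` finite of degree `d`, `gcd(d, m) = 1`, `u ∈ F` with `u = c · y ^ m` in `F'` (`c` a constant
of the base field `K`, `y ∈ F'`).  Then `u = c' · y' ^ m` with `c' ∈ K`, `y' ∈ F`.

Proof: `u ^ d = Nm(u) = c ^ d · Nm(y) ^ m`; with `a d + b m = 1`,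
`u = (u ^ d) ^ a · (u ^ b) ^ m = c ^ (d a) · (Nm(y) ^ a · u ^ b) ^ m`.

Mathlib-only.
-/

set_option autoImplicit false

noncomputable section

namespace Fermat.Agent.S18.H568

open Module

/-- Norm trick (Kummer descent along an extension of degree prime to `m`). -/
theorem exists_pow_of_norm_coprime {K F F' : Type*} [Field K] [Field F] [Field F']
    [Algebra K F] [Algebra K F'] [Algebra F F'] [IsScalarTower K F F']
    [FiniteDimensional F F'] (m : ℕ) (hcop : Nat.Coprime (finrank F F') m)
    (u : F) (hu : u ≠ 0) (c : K) (hc : c ≠ 0) (y : F') (hy : y ≠ 0)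
    (h : algebraMap F F' u = algebraMap K F' c * y ^ m) :
    ∃ (c' : K) (y' : F), c' ≠ 0 ∧ y' ≠ 0 ∧ u = algebraMap K F c' * y' ^ m := by
  set d : ℕ := finrank F F' with hd
  -- norms
  have hN : u ^ d = (algebraMap K F c) ^ d * (Algebra.norm F y) ^ m := by
    have h1 : Algebra.norm F (algebraMap F F' u) = u ^ d := Algebra.norm_algebraMap u
    have h2 : Algebra.norm F (algebraMap K F' c) = (algebraMap K F c) ^ d := by
      rw [IsScalarTower.algebraMap_apply K F F']
      exact Algebra.norm_algebraMap _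
    rw [← h1, h, map_mul, map_pow, h2]
  have hNy : Algebra.norm F y ≠ 0 := by
    rw [Ne, Algebra.norm_eq_zero_iff]
    exact hy
  have hcF : algebraMap K F c ≠ 0 := by
    rw [Ne, map_eq_zero_iff _ (algebraMap K F).injective]
    exact hc
  -- Bezout
  have hbez : (1 : ℤ) = (d : ℤ) * Int.gcdA d m + (m : ℤ) * Int.gcdB d m := by
    have := Int.gcd_eq_gcd_ab (d : ℤ) (m : ℤ)
    rw [Int.gcd_natCast_natCast, hcop.gcd_eq_one] at this
    exact_mod_cast this
  set a : ℤ := Int.gcdA d m
  set b : ℤ := Int.gcdB d m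
  refine ⟨c ^ ((d : ℤ) * a), (Algebra.norm F y) ^ a * u ^ b, zpow_ne_zero _ hc,
    mul_ne_zero (zpow_ne_zero _ hNy) (zpow_ne_zero _ hu), ?_⟩
  have hu1 : u = u ^ ((d : ℤ) * a + (m : ℤ) * b) := by rw [← hbez, zpow_one]
  rw [map_zpow₀]
  calc u = u ^ ((d : ℤ) * a + (m : ℤ) * b) := hu1
    _ = (u ^ d) ^ a * (u ^ b) ^ m := by
        rw [zpow_add₀ hu, zpow_mul, zpow_natCast, mul_comm (m : ℤ) b, zpow_mul, zpow_natCast]
    _ = ((algebraMap K F c) ^ d * (Algebra.norm F y) ^ m) ^ a * (u ^ b) ^ m := by rw [hN]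
    _ = (algebraMap K F c) ^ ((d : ℤ) * a) * ((Algebra.norm F y) ^ a * u ^ b) ^ m := by
        rw [mul_zpow, mul_pow, zpow_mul, zpow_natCast, ← zpow_natCast ((Algebra.norm F) y) m,
          ← zpow_mul, ← zpow_natCast (((Algebra.norm F) y) ^ a) m, ← zpow_mul,
          mul_comm (m : ℤ) a, mul_assoc]

end Fermat.Agent.S18.H568

end

end
-- ===== PACK-END S18/H568/NormDescent.lean

-- ===== PACK-BEGIN S18/H504/ValDvr.lean
section



/-!
# S18 — every nontrivial valuation ring of a function field is discrete (char-free)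

`F/K` a field extension, `O` a valuation subring of `F` containing `K`, `u ∈ O` a non-unit,
`u ≠ 0`, with `F` finite over `K(u)`.  Then `O` is a principal ideal ring, hence a `Place K F`.
No hypothesis on the characteristic, no separability, `K` arbitrary.

Main results:
* `isPrincipalIdealRing_of_finite` : `IsPrincipalIdealRing O`;
* `placeOfValuationSubring` : the `Place K F` with valuation ring `O`.
-/

set_option autoImplicit false

namespace Fermat.Agent.S18.H504

open AlgebraicCurve IntermediateField Polynomial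

variable {K F : Type*} [Field K] [Field F] [Algebra K F]

/-- If a finite sum vanishes and some term is nonzero, the maximal valuation is attained by two
distinct (nonzero) terms. -/
theorem exists_ne_valuation_eq {Γ₀ : Type*} [LinearOrderedCommGroupWithZero Γ₀]
    (v : Valuation F Γ₀) {ι : Type*} [DecidableEq ι] (s : Finset ι) (a : ι → F)
    (hsum : ∑ i ∈ s, a i = 0) (hne : ∃ i ∈ s, a i ≠ 0) :
    ∃ i ∈ s, ∃ j ∈ s, i ≠ j ∧ a i ≠ 0 ∧ a j ≠ 0 ∧ v (a i) = v (a j) := by
  obtain ⟨i₁, hi₁, hai₁⟩ := hne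
  obtain ⟨i₀, hi₀, hmax⟩ := Finset.exists_max_image s (fun i => v (a i)) ⟨i₁, hi₁⟩
  have hv0 : v (a i₀) ≠ 0 := by
    intro h0
    have := hmax i₁ hi₁
    rw [h0] at this
    exact hai₁ ((v.zero_iff).mp (le_antisymm this zero_le))
  have hai₀ : a i₀ ≠ 0 := fun h => hv0 (by rw [h, map_zero])
  by_contra hcon
  push Not at hcon
  have hlt : ∀ i ∈ s \ {i₀}, v (a i) < v (a i₀) := by
    intro i hi
    rw [Finset.mem_sdiff, Finset.mem_singleton] at hi
    refine lt_of_le_of_ne (hmax i hi.1) ?_
    intro heq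
    have hai : a i ≠ 0 := fun h => hv0 (by rw [← heq, h, map_zero])
    exact hcon i₀ hi₀ i hi.1 (Ne.symm hi.2) hai₀ hai heq.symm
  have := v.map_sum_eq_of_lt hi₀ hlt
  rw [hsum, map_zero] at this
  exact hv0 this.symm

section

variable (O : ValuationSubring F) (hK : ∀ a : K, algebraMap K F a ∈ O)

include hK in
theorem valuation_algebraMap {c : K} (hc : c ≠ 0) : O.valuation (algebraMap K F c) = 1 := by
  have h1 : O.valuation (algebraMap K F c) ≤ 1 := (O.valuation_le_one_iff _).mpr (hK c)
  have h2 : O.valuation (algebraMap K F c⁻¹) ≤ 1 := (O.valuation_le_one_iff _).mpr (hK c⁻¹)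
  rw [map_inv₀, map_inv₀] at h2
  have hne : O.valuation (algebraMap K F c) ≠ 0 :=
    (Valuation.ne_zero_iff _).mpr (by simpa using hc)
  exact le_antisymm h1 ((inv_le_one₀ (zero_lt_iff.mpr hne)).mp h2)

include hK in
theorem aeval_mem {u : F} (hu : u ∈ O) (p : K[X]) : aeval u p ∈ O := by
  rw [aeval_eq_sum_range]
  refine Subring.sum_mem O.toSubring fun i _ => ?_
  rw [Algebra.smul_def]
  exact O.mul_mem _ _ (hK _) (pow_mem hu i)

include hK in
theorem valuation_aeval_of_coeff_zero_ne {u : F} (hu : u ∈ O) (hu' : u⁻¹ ∉ O) (q : K[X])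
    (hq : q.coeff 0 ≠ 0) : O.valuation (aeval u q) = 1 := by
  have hdecomp : aeval u q = aeval u q.divX * u + algebraMap K F (q.coeff 0) := by
    conv_lhs => rw [← divX_mul_X_add q]
    simp only [map_add, map_mul, aeval_X, aeval_C]
  have hu1 : O.valuation u < 1 := by
    have h1 : O.valuation u ≤ 1 := (O.valuation_le_one_iff _).mpr hu
    refine lt_of_le_of_ne h1 fun h => hu' ?_
    rw [← O.valuation_le_one_iff, map_inv₀, h, inv_one]
  have h2 : O.valuation (aeval u q.divX * u) < 1 := by
    rw [map_mul]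
    have h3 : O.valuation (aeval u q.divX) ≤ 1 := (O.valuation_le_one_iff _).mpr (aeval_mem O hK hu _)
    calc O.valuation (aeval u q.divX) * O.valuation u ≤ 1 * O.valuation u :=
          mul_le_mul_left (α := O.ValueGroup) h3 _
      _ < 1 := by rwa [one_mul]
  rw [hdecomp, Valuation.map_add_eq_of_lt_right _ (by rwa [valuation_algebraMap O hK hq]),
    valuation_algebraMap O hK hq]

include hK in
theorem valuation_aeval {u : F} (hu : u ∈ O) (hu' : u⁻¹ ∉ O) (p : K[X]) (hp : p ≠ 0) :
    O.valuation (aeval u p) = O.valuation u ^ p.rootMultiplicity 0 := by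
  obtain ⟨q, hpq, hq⟩ := exists_eq_pow_rootMultiplicity_mul_and_not_dvd p hp 0
  have hq0 : q.coeff 0 ≠ 0 := by
    intro h
    apply hq
    rw [C_0, sub_zero]
    exact X_dvd_iff.mpr h
  conv_lhs => rw [hpq]
  rw [map_mul, map_pow, C_0, sub_zero, aeval_X, map_mul, map_pow,
    valuation_aeval_of_coeff_zero_ne O hK hu hu' q hq0, mul_one]

include hK in
/-- On `K(u)` the valuation is a power of the valuation of `u`. -/
theorem exists_zpow_of_mem_adjoin {u : F} (hu : u ∈ O) (hu' : u⁻¹ ∉ O) {g : F}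
    (hg : g ∈ K⟮u⟯) (hg0 : g ≠ 0) : ∃ a : ℤ, O.valuation g = O.valuation u ^ a := by
  obtain ⟨r, s, rfl⟩ := (mem_adjoin_simple_iff K g).mp hg
  have hr : r ≠ 0 := by
    rintro rfl
    simp at hg0
  have hs : s ≠ 0 := by
    rintro rfl
    simp at hg0
  refine ⟨(r.rootMultiplicity 0 : ℤ) - s.rootMultiplicity 0, ?_⟩
  have hu0 : O.valuation u ≠ 0 := by
    rw [Valuation.ne_zero_iff]
    rintro rfl
    exact hu' (by simp)
  rw [map_div₀, valuation_aeval O hK hu hu' r hr, valuation_aeval O hK hu hu' s hs,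
    zpow_sub₀ hu0, zpow_natCast, zpow_natCast]

include hK in
/-- Some positive power `≤ [F : K(u)]` of the valuation of any `f ≠ 0` is a power of the
valuation of `u`. -/
theorem exists_pow_eq_zpow {u : F} (hu : u ∈ O) (hu' : u⁻¹ ∉ O) [FiniteDimensional K⟮u⟯ F]
    {f : F} (hf : f ≠ 0) :
    ∃ d : ℕ, 0 < d ∧ d ≤ Module.finrank K⟮u⟯ F ∧
      ∃ a : ℤ, O.valuation f ^ d = O.valuation u ^ a := by
  classical
  set n := Module.finrank K⟮u⟯ F with hn
  have hdep : ¬ LinearIndependent K⟮u⟯ (fun i : Fin (n + 1) => f ^ (i : ℕ)) := by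
    intro hli
    have := hli.fintype_card_le_finrank
    rw [Fintype.card_fin] at this
    omega
  obtain ⟨c, hsum, i₁, hi₁⟩ := Fintype.not_linearIndependent_iff.mp hdep
  have hne : ∃ i ∈ (Finset.univ : Finset (Fin (n + 1))), c i • f ^ (i : ℕ) ≠ 0 := by
    refine ⟨i₁, Finset.mem_univ _, ?_⟩
    rw [Algebra.smul_def]
    exact mul_ne_zero (by simpa using hi₁) (pow_ne_zero _ hf)
  obtain ⟨i, -, j, -, hij, hai, haj, hval⟩ :=
    exists_ne_valuation_eq O.valuation Finset.univ (fun i => c i • f ^ (i : ℕ)) hsum hne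
  have hci : c i ≠ 0 := fun h => hai (by simp [h])
  have hcj : c j ≠ 0 := fun h => haj (by simp [h])
  obtain ⟨ai, hvi⟩ := exists_zpow_of_mem_adjoin O hK hu hu' (c i).2 (by simpa using hci)
  obtain ⟨aj, hvj⟩ := exists_zpow_of_mem_adjoin O hK hu hu' (c j).2 (by simpa using hcj)
  have hu0 : O.valuation u ≠ 0 := by
    rw [Valuation.ne_zero_iff]
    rintro rfl
    exact hu' (by simp)
  have hf0 : O.valuation f ≠ 0 := (Valuation.ne_zero_iff _).mpr hf
  simp only [Algebra.smul_def, map_mul, map_pow] at hval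
  have hvi' : O.valuation (algebraMap K⟮u⟯ F (c i)) = O.valuation u ^ ai := hvi
  have hvj' : O.valuation (algebraMap K⟮u⟯ F (c j)) = O.valuation u ^ aj := hvj
  rw [hvi', hvj'] at hval
  -- wlog i < j
  have key : ∀ (i j : ℕ) (ai aj : ℤ), i < j → j ≤ n →
      O.valuation u ^ ai * O.valuation f ^ i = O.valuation u ^ aj * O.valuation f ^ j →
      ∃ d : ℕ, 0 < d ∧ d ≤ n ∧ ∃ a : ℤ, O.valuation f ^ d = O.valuation u ^ a := by
    intro i j ai aj hlt hjn h
    refine ⟨j - i, by omega, by omega, ai - aj, ?_⟩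
    have hj : j = (j - i) + i := by omega
    rw [hj, pow_add] at h
    have hfi : O.valuation f ^ i ≠ 0 := pow_ne_zero _ hf0
    have h2 : O.valuation u ^ ai = O.valuation u ^ aj * O.valuation f ^ (j - i) :=
      mul_right_cancel₀ hfi (h.trans (mul_assoc _ _ _).symm)
    have huaj : O.valuation u ^ aj ≠ 0 := zpow_ne_zero _ hu0
    rw [zpow_sub₀ hu0, h2, mul_comm (O.valuation u ^ aj), mul_div_assoc, div_self huaj, mul_one]
  have hi_le : (i : ℕ) ≤ n := Nat.lt_succ_iff.mp i.2
  have hj_le : (j : ℕ) ≤ n := Nat.lt_succ_iff.mp j.2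
  rcases lt_or_gt_of_ne (fun h => hij (Fin.ext h) : (i : ℕ) ≠ j) with h | h
  · exact key i j ai aj h hj_le hval
  · exact key j i aj ai h hi_le hval.symm

include hK in
theorem exists_factorial_pow_eq_zpow {u : F} (hu : u ∈ O) (hu' : u⁻¹ ∉ O)
    [FiniteDimensional K⟮u⟯ F] {f : F} (hf : f ≠ 0) :
    ∃ a : ℤ, O.valuation f ^ (Module.finrank K⟮u⟯ F).factorial = O.valuation u ^ a := by
  obtain ⟨d, hd0, hdn, a, h⟩ := exists_pow_eq_zpow O hK hu hu' hf
  obtain ⟨k, hk⟩ := Nat.dvd_factorial hd0 hdn
  refine ⟨a * k, ?_⟩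
  rw [hk, pow_mul, h, zpow_mul, zpow_natCast]

include hK in
/-- **Discreteness.** A valuation ring of `F` containing `K`, with a nonzero non-unit `u` such
that `F` is finite over `K(u)`, is a principal ideal ring. -/
theorem isPrincipalIdealRing_of_finite {u : F} (hu : u ∈ O) (hu' : u⁻¹ ∉ O)
    [FiniteDimensional K⟮u⟯ F] : IsPrincipalIdealRing O := by
  classical
  set M := (Module.finrank K⟮u⟯ F).factorial with hM
  have hM0 : M ≠ 0 := Nat.factorial_ne_zero _
  have hu0 : u ≠ 0 := by
    rintro rfl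
    exact hu' (by simp)
  have hγ0 : O.valuation u ≠ 0 := (Valuation.ne_zero_iff _).mpr hu0
  have hγ1 : O.valuation u < 1 := by
    have h1 : O.valuation u ≤ 1 := (O.valuation_le_one_iff _).mpr hu
    refine lt_of_le_of_ne h1 fun h => hu' ?_
    rw [← O.valuation_le_one_iff, map_inv₀, h, inv_one]
  -- integral elements have natural exponents
  have hnat : ∀ b : F, b ∈ O → b ≠ 0 → ∃ k : ℕ, O.valuation b ^ M = O.valuation u ^ k := by
    intro b hb hb0
    obtain ⟨a, ha⟩ := exists_factorial_pow_eq_zpow O hK hu hu' hb0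
    rw [← hM] at ha
    have hle : O.valuation b ^ M ≤ 1 := pow_le_one₀ zero_le ((O.valuation_le_one_iff _).mpr hb)
    rcases le_or_gt 0 a with h0 | h0
    · refine ⟨a.toNat, ?_⟩
      rw [ha, ← zpow_natCast, Int.toNat_of_nonneg h0]
    · exfalso
      rw [ha] at hle
      have h1 : O.valuation u ^ a = (O.valuation u ^ (-a).toNat)⁻¹ := by
        rw [← zpow_natCast, Int.toNat_of_nonneg (by omega), zpow_neg, inv_inv]
      have h2 : O.valuation u ^ (-a).toNat < 1 :=
        pow_lt_one₀ zero_le hγ1 (by omega)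
      have h3 : 1 < (O.valuation u ^ (-a).toNat)⁻¹ :=
        (one_lt_inv₀ (zero_lt_iff.mpr (pow_ne_zero _ hγ0))).mpr h2
      rw [h1] at hle
      exact absurd hle (not_le.mpr h3)
  refine ⟨fun I => ?_⟩
  by_cases hI : I = ⊥
  · rw [hI]; exact bot_isPrincipal
  have hex : ∃ k : ℕ, ∃ a ∈ I, a ≠ 0 ∧ O.valuation (a : F) ^ M = O.valuation u ^ k := by
    obtain ⟨a, haI, ha0⟩ := Submodule.exists_mem_ne_zero_of_ne_bot hI
    obtain ⟨k, hk⟩ := hnat a a.2 (by simpa using ha0)
    exact ⟨k, a, haI, ha0, hk⟩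
  obtain ⟨a, haI, ha0, hak⟩ := Nat.find_spec hex
  refine ⟨⟨a, ?_⟩⟩
  apply le_antisymm
  · intro b hb
    rw [Submodule.mem_span_singleton]
    rcases eq_or_ne b 0 with rfl | hb0
    · exact ⟨0, by simp⟩
    have haF : (a : F) ≠ 0 := by simpa using ha0
    have hbF : (b : F) ≠ 0 := by simpa using hb0
    obtain ⟨kb, hkb⟩ := hnat b b.2 hbF
    have hmin : Nat.find hex ≤ kb := Nat.find_min' hex ⟨b, hb, hb0, hkb⟩
    have hle : O.valuation (b : F) ^ M ≤ O.valuation (a : F) ^ M := by
      rw [hkb, hak]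
      exact pow_le_pow_of_le_one zero_le hγ1.le hmin
    have hle' : O.valuation (b : F) ≤ O.valuation (a : F) :=
      (pow_le_pow_iff_left₀ zero_le zero_le hM0).mp hle
    have hq : (b : F) / (a : F) ∈ O := by
      rw [← O.valuation_le_one_iff, map_div₀]
      exact (div_le_one₀ (zero_lt_iff.mpr ((Valuation.ne_zero_iff _).mpr haF))).mpr hle'
    refine ⟨⟨_, hq⟩, ?_⟩
    ext
    simp only [smul_eq_mul, MulMemClass.coe_mul]
    field_simp
  · rw [Submodule.span_le]
    simpa using haI

theorem ne_top_of_not_mem {u : F} (hu' : u⁻¹ ∉ O) : O ≠ ⊤ :=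
  fun h => hu' (h ▸ ValuationSubring.mem_top _)

/-- The place of `F/K` defined by a valuation ring with a non-unit `u`, `[F : K(u)] < ∞`. -/
noncomputable def placeOfValuationSubring {u : F} (hu : u ∈ O) (hu' : u⁻¹ ∉ O)
    [FiniteDimensional K⟮u⟯ F] : Place K F where
  toValuationSubring := O
  algebraMap_mem' := hK
  ne_top' := fun h => hu' (h ▸ ValuationSubring.mem_top _)
  isPrincipalIdealRing' := isPrincipalIdealRing_of_finite O hK hu hu'

@[simp]
theorem placeOfValuationSubring_toValuationSubring {u : F} (hu : u ∈ O) (hu' : u⁻¹ ∉ O)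
    [FiniteDimensional K⟮u⟯ F] :
    (placeOfValuationSubring O hK hu hu').toValuationSubring = O := rfl

end

end Fermat.Agent.S18.H504

end
-- ===== PACK-END S18/H504/ValDvr.lean

-- ===== PACK-BEGIN S18/H438/Front/Chart.lean
section


/-!
# S18 / ALG-FRONT (helper438), part 1: the chart algebra `B = integral closure of R[z] in F`

Setting: `F` a field of characteristic `0`, `R : Subring F` a discrete valuation ring,
`z : F` transcendental over `R`, `F` finite over `Frac (R[z])`.

* `baseRing R z   := Algebra.adjoin R {z}`           (`R[z] ⊆ F`, isomorphic to `R[X]`)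
* `chartRing R z  := integralClosure (R[z]) F`      (the chart `B`)

All instances needed by the Kummer pieces (`H754/KummerSpec.lean`) are provided:
`IsNoetherianRing B`, `IsIntegrallyClosed B`, `IsFractionRing B F`, `Module.Finite R[z] B`.
-/

set_option autoImplicit false
set_option linter.style.haveILetI false
set_option linter.unusedSectionVars false

noncomputable section

namespace Fermat.Agent.S18.H438

open Polynomial

variable {F : Type*} [Field F]

/-- The base ring `R[z] ⊆ F`. -/
abbrev baseRing (R : Subring F) (z : F) : Subalgebra R F := Algebra.adjoin R {z}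

/-- The chart: the integral closure of `R[z]` in `F`. -/
abbrev chartRing (R : Subring F) (z : F) : Subalgebra (baseRing R z) F :=
  integralClosure (baseRing R z) F

variable (R : Subring F) (z : F)

theorem self_mem_baseRing : z ∈ baseRing R z := Algebra.self_mem_adjoin_singleton R z

theorem coe_mem_baseRing (r : R) : (r : F) ∈ baseRing R z := (baseRing R z).algebraMap_mem r

/-- `R[X] ≃ R[z]` for transcendental `z`. -/
def baseEquiv (hz : Transcendental R z) : Polynomial R ≃ₐ[R] baseRing R z :=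
  Polynomial.algEquivOfTranscendental R z hz

theorem baseEquiv_apply_coe (hz : Transcendental R z) (f : Polynomial R) :
    ((baseEquiv R z hz f : baseRing R z) : F) = Polynomial.aeval z f := by
  unfold baseEquiv
  rw [Polynomial.algEquivOfTranscendental_apply]
  have : (Polynomial.aeval (⟨z, Algebra.self_mem_adjoin_singleton R z⟩ : baseRing R z) f : F) =
      (baseRing R z).val (Polynomial.aeval (⟨z, Algebra.self_mem_adjoin_singleton R z⟩ :
        baseRing R z) f) := rfl
  rw [this, ← Polynomial.aeval_algHom_apply]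
  rfl

theorem baseRing_isNoetherianRing (hz : Transcendental R z) [IsNoetherianRing R] :
    IsNoetherianRing (baseRing R z) :=
  isNoetherianRing_of_ringEquiv (Polynomial R) (baseEquiv R z hz).toRingEquiv

theorem baseRing_isIntegrallyClosed (hz : Transcendental R z) [IsIntegrallyClosed (Polynomial R)] :
    IsIntegrallyClosed (baseRing R z) :=
  IsIntegrallyClosed.of_equiv (baseEquiv R z hz).toRingEquiv

/-- Every element of `R[z]` is a polynomial in `z`. -/
theorem exists_aeval_eq_of_mem_baseRing {f : F} (hf : f ∈ baseRing R z) :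
    ∃ P : Polynomial R, Polynomial.aeval z P = f :=
  (Algebra.adjoin_mem_exists_aeval R z hf)

section Instances

attribute [local instance] FractionRing.liftAlgebra

variable [CharZero F]

/-- The fraction field of `R[z]` is of characteristic zero. -/
theorem charZero_fractionRing_baseRing : CharZero (FractionRing (baseRing R z)) := by
  have : CharZero (baseRing R z) := RingHom.charZero (algebraMap (baseRing R z) F)
  exact charZero_of_injective_algebraMap
    (IsFractionRing.injective (baseRing R z) (FractionRing (baseRing R z)))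

variable [hfin : FiniteDimensional (FractionRing (baseRing R z)) F]

theorem chartRing_isFractionRing : IsFractionRing (chartRing R z) F :=
  integralClosure.isFractionRing_of_finite_extension (FractionRing (baseRing R z)) F

theorem chartRing_isIntegrallyClosed : IsIntegrallyClosed (chartRing R z) :=
  integralClosure.isIntegrallyClosedOfFiniteExtension (FractionRing (baseRing R z))

theorem isSeparable_fractionRing_baseRing :
    Algebra.IsSeparable (FractionRing (baseRing R z)) F := by
  haveI := charZero_fractionRing_baseRing R z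
  exact Algebra.IsAlgebraic.isSeparable_of_perfectField

variable [IsDiscreteValuationRing R]

theorem chartRing_isNoetherianRing (hz : Transcendental R z) :
    IsNoetherianRing (chartRing R z) := by
  haveI := baseRing_isNoetherianRing R z hz
  haveI := baseRing_isIntegrallyClosed R z hz
  haveI := isSeparable_fractionRing_baseRing R z
  exact integralClosure.isNoetherianRing (K := FractionRing (baseRing R z)) F

theorem chartRing_finite (hz : Transcendental R z) :
    Module.Finite (baseRing R z) (chartRing R z) := by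
  haveI := baseRing_isNoetherianRing R z hz
  haveI := baseRing_isIntegrallyClosed R z hz
  haveI := isSeparable_fractionRing_baseRing R z
  exact IsIntegralClosure.finite (baseRing R z) (FractionRing (baseRing R z)) F (chartRing R z)

end Instances

end Fermat.Agent.S18.H438

end
end
-- ===== PACK-END S18/H438/Front/Chart.lean

-- ===== PACK-BEGIN S18/H845/PrimElt.lean
section


/-!
# S18 / d1(c): compositum with algebraic constants, elementwise

`E ⊆ K ⊆ L`, `E` perfect.  If `L` is generated over `K` by elements algebraic over `E`, then every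
element of `L` lies in `K[α]` for a single `α` algebraic over `E`.
-/

set_option autoImplicit false
set_option linter.unusedSectionVars false

namespace Fermat.Agent.S18.H845

open IntermediateField

section PE

variable {E K L : Type*} [Field E] [Field K] [Field L] [Algebra E K] [Algebra K L] [Algebra E L]
  [IsScalarTower E K L] [PerfectField E]

omit [PerfectField E] in
lemma adjoin_E_le_adjoin_K (α : L) :
    ((Algebra.adjoin E {α} : Subalgebra E L) : Set L) ⊆ (Algebra.adjoin K {α} : Subalgebra K L) := by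
  have h : Algebra.adjoin E {α} ≤ (Algebra.adjoin K {α}).restrictScalars E :=
    Algebra.adjoin_le (by
      rintro x ⟨rfl⟩
      exact Algebra.self_mem_adjoin_singleton K _)
  exact h

/-- Two algebraic constants lie in `E[α]` for a single algebraic constant `α`. -/
lemma exists_common_adjoin {α₁ α₂ : L} (h₁ : IsAlgebraic E α₁) (h₂ : IsAlgebraic E α₂) :
    ∃ α : L, IsAlgebraic E α ∧ α₁ ∈ Algebra.adjoin K {α} ∧ α₂ ∈ Algebra.adjoin K {α} := by
  let M : IntermediateField E L := IntermediateField.adjoin E {α₁, α₂}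
  have hfin : FiniteDimensional E M :=
    IntermediateField.finiteDimensional_adjoin_pair h₁.isIntegral h₂.isIntegral
  have halg : Algebra.IsAlgebraic E M := Algebra.IsAlgebraic.of_finite E M
  obtain ⟨β, hβ⟩ := Field.exists_primitive_element E M
  have hβalg : IsAlgebraic E (β : L) := by
    have := halg.isAlgebraic β
    exact (isAlgebraic_algebraMap_iff (algebraMap M L).injective).mpr this
  have hM : E⟮(β : L)⟯ = M := by
    have h1 := congrArg (IntermediateField.map M.val) hβ
    rw [IntermediateField.adjoin_map, Set.image_singleton] at h1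
    rw [show M.val β = (β : L) from rfl] at h1
    rw [h1]
    ext x
    simp only [IntermediateField.mem_map, IntermediateField.mem_top, true_and]
    constructor
    · rintro ⟨y, rfl⟩
      exact y.2
    · intro hx
      exact ⟨⟨x, hx⟩, rfl⟩
  have hsub : ∀ x ∈ M, x ∈ Algebra.adjoin K {(β : L)} := by
    intro x hx
    rw [← hM] at hx
    have hx' : x ∈ (E⟮(β : L)⟯).toSubalgebra := hx
    rw [IntermediateField.adjoin_simple_toSubalgebra_of_isAlgebraic hβalg] at hx'
    exact adjoin_E_le_adjoin_K (K := K) (β : L) hx'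
  refine ⟨β, hβalg, hsub _ ?_, hsub _ ?_⟩
  · exact IntermediateField.subset_adjoin E _ (by simp)
  · exact IntermediateField.subset_adjoin E _ (by simp)

/-- If `L` is generated over `K` by elements algebraic over `E`, every element of `L` lies in
`K[α]` for one `α` algebraic over `E`. -/
theorem exists_mem_adjoin_singleton
    (hgen : IntermediateField.adjoin K {α : L | IsAlgebraic E α} = ⊤) (f : L) :
    ∃ α : L, IsAlgebraic E α ∧ f ∈ Algebra.adjoin K {α} := by
  have hf : f ∈ IntermediateField.adjoin K {α : L | IsAlgebraic E α} := by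
    rw [hgen]; exact IntermediateField.mem_top
  induction hf using IntermediateField.adjoin_induction with
  | mem x hx => exact ⟨x, hx, Algebra.self_mem_adjoin_singleton K x⟩
  | algebraMap x => exact ⟨0, isAlgebraic_zero, Subalgebra.algebraMap_mem _ x⟩
  | add x y _ _ hx hy =>
    obtain ⟨α₁, h₁, hx⟩ := hx
    obtain ⟨α₂, h₂, hy⟩ := hy
    obtain ⟨α, hα, ha₁, ha₂⟩ := exists_common_adjoin (K := K) h₁ h₂
    have l₁ : Algebra.adjoin K {α₁} ≤ Algebra.adjoin K {α} :=
      Algebra.adjoin_le (by rintro z ⟨rfl⟩; exact ha₁)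
    have l₂ : Algebra.adjoin K {α₂} ≤ Algebra.adjoin K {α} :=
      Algebra.adjoin_le (by rintro z ⟨rfl⟩; exact ha₂)
    exact ⟨α, hα, add_mem (l₁ hx) (l₂ hy)⟩
  | mul x y _ _ hx hy =>
    obtain ⟨α₁, h₁, hx⟩ := hx
    obtain ⟨α₂, h₂, hy⟩ := hy
    obtain ⟨α, hα, ha₁, ha₂⟩ := exists_common_adjoin (K := K) h₁ h₂
    have l₁ : Algebra.adjoin K {α₁} ≤ Algebra.adjoin K {α} :=
      Algebra.adjoin_le (by rintro z ⟨rfl⟩; exact ha₁)
    have l₂ : Algebra.adjoin K {α₂} ≤ Algebra.adjoin K {α} :=
      Algebra.adjoin_le (by rintro z ⟨rfl⟩; exact ha₂)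
    exact ⟨α, hα, mul_mem (l₁ hx) (l₂ hy)⟩
  | inv x _ hx =>
    obtain ⟨α, hα, hx⟩ := hx
    refine ⟨α, hα, ?_⟩
    have hαK : IsAlgebraic K α := hα.tower_top K
    rw [← IntermediateField.adjoin_simple_toSubalgebra_of_isAlgebraic hαK] at hx ⊢
    have hx' : x ∈ K⟮α⟯ := hx
    exact (show x⁻¹ ∈ K⟮α⟯ from inv_mem hx')

end PE

end Fermat.Agent.S18.H845

end
-- ===== PACK-END S18/H845/PrimElt.lean

-- ===== PACK-BEGIN S18/H425/HsepDvd.lean
section


/-!
# S18 / b2.5 HSEP (helper425): divisibility descends along an integral extension of an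
integrally closed domain

`dvd_of_algebraMap_dvd`: `Λ` integrally closed domain, `B` a domain, integral and torsion-free
over `Λ`.  If `algebraMap w ∣ algebraMap s` in `B` (`w ≠ 0`) then `w ∣ s` in `Λ`.
Mathlib-only.
-/

set_option autoImplicit false

namespace Fermat.Agent.S18.H425

theorem dvd_of_algebraMap_dvd {Λ B : Type*} [CommRing Λ] [IsDomain Λ] [IsIntegrallyClosed Λ]
    [CommRing B] [IsDomain B] [Algebra Λ B] [Algebra.IsIntegral Λ B] [Module.IsTorsionFree Λ B]
    {w s : Λ} (hw : w ≠ 0) (h : algebraMap Λ B w ∣ algebraMap Λ B s) : w ∣ s := by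
  obtain ⟨b, hb⟩ := h
  have hinj : Function.Injective (algebraMap Λ B) := FaithfulSMul.algebraMap_injective Λ B
  let K := FractionRing Λ
  let L := FractionRing B
  let _ : Algebra K L := FractionRing.liftAlgebra Λ L
  have hwK : algebraMap Λ K w ≠ 0 := by
    simpa using (IsFractionRing.injective Λ K).ne hw
  -- the element `s / w` of `K` maps to `b` in `L`
  have hb' : algebraMap K L (algebraMap Λ K s / algebraMap Λ K w) = algebraMap B L b := by
    rw [map_div₀, ← IsScalarTower.algebraMap_apply, ← IsScalarTower.algebraMap_apply,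
      IsScalarTower.algebraMap_apply Λ B L s, IsScalarTower.algebraMap_apply Λ B L w, hb, map_mul]
    rw [mul_div_assoc, mul_comm, div_mul_cancel₀]
    · rw [← IsScalarTower.algebraMap_apply, IsScalarTower.algebraMap_apply Λ K L]
      exact (map_ne_zero_iff _ (algebraMap K L).injective).mpr hwK
  have hbint : IsIntegral Λ (algebraMap B L b) := (Algebra.IsIntegral.isIntegral b).algebraMap
  rw [← hb'] at hbint
  have hint : IsIntegral Λ (algebraMap Λ K s / algebraMap Λ K w) :=
    (isIntegral_algebraMap_iff (algebraMap K L).injective).mp hbint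
  obtain ⟨c, hc⟩ := IsIntegrallyClosed.algebraMap_eq_of_integral hint
  refine ⟨c, ?_⟩
  apply IsFractionRing.injective Λ K
  rw [map_mul, hc, mul_div_cancel₀ _ hwK]

end Fermat.Agent.S18.H425

end
-- ===== PACK-END S18/H425/HsepDvd.lean

-- ===== PACK-BEGIN S28/H988/Coprime.lean
section
/-
S28 / [L.UP] upper bound, helper988.
Pure algebra (Mathlib only):
* `isCoprime_map_of_reduction`: two monic polynomials over `k⟦X⟧`, one with unit constant
  coefficient, the other congruent to `X ^ m` modulo the maximal ideal, are coprime over `k⸨X⸩`.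
* `mem_range_of_common_root`: the "gcd lemma": a common root `x` of two polynomials over a
  subfield `F`, such that the two quotients by `X - x` are coprime, lies in `F`.
-/


set_option autoImplicit false

noncomputable section

open Polynomial

namespace Fermat.Agent.S28.H988

section Reduction

variable {k : Type*} [Field k]

/-- A monic polynomial over `k⟦X⟧` all of whose lower coefficients lie in the maximal ideal
reduces to `X ^ natDegree`. -/
theorem map_constantCoeff_eq_X_pow (g : Polynomial (PowerSeries k)) (hg : g.Monic)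
    (hc : ∀ i < g.natDegree, PowerSeries.constantCoeff (g.coeff i) = 0) :
    g.map (PowerSeries.constantCoeff (R := k)) = X ^ g.natDegree := by
  ext i
  rw [coeff_map, coeff_X_pow]
  rcases lt_trichotomy i g.natDegree with h | h | h
  · rw [hc i h, if_neg (ne_of_lt h)]
  · rw [h, if_pos rfl, coeff_natDegree, hg.leadingCoeff, map_one]
  · rw [coeff_eq_zero_of_natDegree_lt h, map_zero, if_neg (ne_of_gt h)]

/-- Two monic polynomials over `k⟦X⟧`, one with unit constant coefficient, the other congruent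
to `X ^ m` modulo the maximal ideal, are coprime over `k⸨X⸩`. -/
theorem isCoprime_map_of_reduction
    (g₁ g₂ : Polynomial (PowerSeries k)) (h₁ : g₁.Monic) (h₂ : g₂.Monic)
    (hc₁ : PowerSeries.constantCoeff (g₁.coeff 0) ≠ 0)
    (hc₂ : ∀ i < g₂.natDegree, PowerSeries.constantCoeff (g₂.coeff i) = 0) :
    IsCoprime (g₁.map (algebraMap (PowerSeries k) (LaurentSeries k)))
      (g₂.map (algebraMap (PowerSeries k) (LaurentSeries k))) := by
  classical
  set φ := algebraMap (PowerSeries k) (LaurentSeries k) with hφ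
  have hφinj : Function.Injective φ := IsFractionRing.injective _ _
  rw [← EuclideanDomain.gcd_isUnit_iff]
  set H := EuclideanDomain.gcd (g₁.map φ) (g₂.map φ) with hH
  have hHne : H ≠ 0 := by
    intro h0
    have := (EuclideanDomain.gcd_eq_zero_iff.mp h0).1
    exact (h₁.map φ).ne_zero this
  have hH1 : H ∣ g₁.map φ := EuclideanDomain.gcd_dvd_left _ _
  have hH2 : H ∣ g₂.map φ := EuclideanDomain.gcd_dvd_right _ _
  -- normalise
  set H' := H * C (leadingCoeff H)⁻¹ with hH'
  have hH'monic : H'.Monic := monic_mul_leadingCoeff_inv hHne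
  have hunit : IsUnit (C (leadingCoeff H)⁻¹ : Polynomial (LaurentSeries k)) :=
    isUnit_C.mpr (IsUnit.mk0 _ (inv_ne_zero (leadingCoeff_ne_zero.mpr hHne)))
  have hH'1 : H' ∣ g₁.map φ := (hunit.mul_right_dvd).mpr hH1
  have hH'2 : H' ∣ g₂.map φ := (hunit.mul_right_dvd).mpr hH2
  obtain ⟨h', hh'⟩ := IsIntegrallyClosed.eq_map_mul_C_of_dvd (LaurentSeries k) h₁ hH'1
  rw [hH'monic.leadingCoeff, map_one, mul_one] at hh'
  have hh'monic : h'.Monic := monic_of_injective hφinj (by rw [hh']; exact hH'monic)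
  have hd1 : h' ∣ g₁ := (map_dvd_map φ hφinj hh'monic).mp (by rw [hh']; exact hH'1)
  have hd2 : h' ∣ g₂ := (map_dvd_map φ hφinj hh'monic).mp (by rw [hh']; exact hH'2)
  -- reduce modulo the maximal ideal
  set ψ := PowerSeries.constantCoeff (R := k) with hψ
  have hb1 : h'.map ψ ∣ g₁.map ψ := Polynomial.map_dvd ψ hd1
  have hb2 : h'.map ψ ∣ X ^ g₂.natDegree := by
    rw [← map_constantCoeff_eq_X_pow g₂ h₂ hc₂]
    exact Polynomial.map_dvd ψ hd2
  have hbmonic : (h'.map ψ).Monic := hh'monic.map ψ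
  obtain ⟨i, _, hi⟩ := (dvd_prime_pow (prime_X (R := k)) _).mp hb2
  have hi0 : i = 0 := by
    by_contra hne
    have hX : (X : Polynomial k) ∣ h'.map ψ :=
      (dvd_pow_self X hne).trans hi.symm.dvd
    have := hX.trans hb1
    rw [X_dvd_iff, coeff_map] at this
    exact hc₁ this
  rw [hi0, pow_zero] at hi
  have hdeg0 : (h'.map ψ).natDegree = 0 := by
    have := natDegree_eq_of_degree_eq (degree_eq_degree_of_associated hi)
    simpa using this
  have hh'deg : h'.natDegree = 0 := by
    rw [← hdeg0, hh'monic.natDegree_map]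
  have hh'one : h' = 1 := by
    have := eq_C_of_natDegree_eq_zero hh'deg
    rw [this]
    have hc : h'.coeff 0 = 1 := by
      have := hh'monic.leadingCoeff
      rwa [leadingCoeff, hh'deg] at this
    rw [hc, C_1]
  have hH'one : H' = 1 := by rw [← hh', hh'one, Polynomial.map_one]
  have : IsUnit H' := by rw [hH'one]; exact isUnit_one
  exact (IsUnit.mul_iff.mp this).1

end Reduction

section GcdLemma

variable {F K : Type*} [Field F] [Field K] [Algebra F K]

/-- The gcd lemma: if `x` is a common root of `A` and `B` (polynomials over the subfield `F`)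
and the quotients of `A` and `B` by `X - x` are coprime over the big field, then `x ∈ F`. -/
theorem mem_range_of_common_root (A B : Polynomial F) (hA : A ≠ 0) (x : K)
    (hAx : (A.map (algebraMap F K)).IsRoot x) (hBx : (B.map (algebraMap F K)).IsRoot x)
    (hcop : IsCoprime ((A.map (algebraMap F K)) /ₘ (X - C x))
      ((B.map (algebraMap F K)) /ₘ (X - C x))) :
    x ∈ (algebraMap F K).range := by
  have hAx' : aeval x A = 0 := by
    rw [aeval_def, eval₂_eq_eval_map]; exact hAx
  have hBx' : aeval x B = 0 := by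
    rw [aeval_def, eval₂_eq_eval_map]; exact hBx
  have hint : IsIntegral F x := by
    refine ⟨A * C (leadingCoeff A)⁻¹, monic_mul_leadingCoeff_inv hA, ?_⟩
    rw [eval₂_mul, ← aeval_def, hAx', zero_mul]
  rw [← minpoly.natDegree_eq_one_iff]
  set μ := minpoly F x with hμ
  have hμA : μ ∣ A := minpoly.dvd F x hAx'
  have hμB : μ ∣ B := minpoly.dvd F x hBx'
  set φ := algebraMap F K with hφ
  have hμroot : (μ.map φ).IsRoot x := by
    have := minpoly.aeval F x
    rw [aeval_def, eval₂_eq_eval_map] at this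
    exact this
  have e1 := mul_divByMonic_eq_iff_isRoot.mpr hμroot
  have e2 := mul_divByMonic_eq_iff_isRoot.mpr hAx
  have e3 := mul_divByMonic_eq_iff_isRoot.mpr hBx
  have hne : (X - C x : Polynomial K) ≠ 0 := X_sub_C_ne_zero x
  have d1 : (μ.map φ) /ₘ (X - C x) ∣ (A.map φ) /ₘ (X - C x) := by
    have : μ.map φ ∣ A.map φ := Polynomial.map_dvd φ hμA
    rw [← e1, ← e2] at this
    exact (mul_dvd_mul_iff_left hne).mp this
  have d2 : (μ.map φ) /ₘ (X - C x) ∣ (B.map φ) /ₘ (X - C x) := by
    have : μ.map φ ∣ B.map φ := Polynomial.map_dvd φ hμB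
    rw [← e1, ← e3] at this
    exact (mul_dvd_mul_iff_left hne).mp this
  have hu : IsUnit ((μ.map φ) /ₘ (X - C x)) := hcop.isUnit_of_dvd' d1 d2
  have hdeg : (μ.map φ).natDegree = 1 := by
    rw [← e1, natDegree_mul hne hu.ne_zero, natDegree_X_sub_C, natDegree_eq_zero_of_isUnit hu]
  rwa [natDegree_map] at hdeg

end GcdLemma

end Fermat.Agent.S28.H988

end

end
-- ===== PACK-END S28/H988/Coprime.lean

-- ===== PACK-BEGIN S13/H175/InertiaLift.lean
section


set_option autoImplicit false

/-!
# Lifting inertia elements along a closed normal subgroup of a profinite group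

`G` profinite acting continuously on a discrete commutative ring `B`, `N` a closed normal
subgroup, `Q` a prime of `B`.  If `g₀ ∈ G` acts trivially modulo `Q` on the `N`-invariants of `B`
then there is `σ ∈ g₀ N` acting trivially modulo `Q` on all of `B`.
-/

open scoped Pointwise

namespace Fermat.Agent.S13.H175

universe u

section

variable {B : Type*} [CommRing B]
variable {G : Type u} [Group G] [MulSemiringAction G B]

theorem isInvariant_fixedPoints (N : Subgroup G) :
    Algebra.IsInvariant (FixedPoints.subalgebra ℤ B N) B N :=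
  ⟨fun b hb => ⟨⟨b, fun n => hb n⟩, rfl⟩⟩

theorem smul_mem_fixedPoints (N : Subgroup G) [hn : N.Normal] (g : G) {x : B}
    (hx : ∀ n ∈ N, n • x = x) : ∀ n ∈ N, n • (g • x) = g • x := by
  intro n hnN
  have h1 : g⁻¹ * n * g ∈ N := by
    have := hn.conj_mem n hnN g⁻¹
    simpa using this
  have h2 := hx _ h1
  calc n • (g • x) = g • ((g⁻¹ * n * g) • x) := by
        simp [mul_smul]
    _ = g • x := by rw [h2]

end

variable {B : Type*} [CommRing B]
variable {G : Type u} [Group G] [MulSemiringAction G B]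
variable [TopologicalSpace G] [CompactSpace G] [TotallyDisconnectedSpace G]
variable [IsTopologicalGroup G] [TopologicalSpace B] [DiscreteTopology B] [ContinuousSMul G B]

theorem exists_inertia_lift (N : Subgroup G) [hn : N.Normal] (hN : IsClosed (N : Set G))
    (Q : Ideal B) [hQ : Q.IsPrime] (g₀ : G)
    (h₀ : ∀ x : B, (∀ n ∈ N, n • x = x) → g₀ • x - x ∈ Q) :
    ∃ σ : G, g₀⁻¹ * σ ∈ N ∧ ∀ x : B, σ • x - x ∈ Q := by
  have : CompactSpace N := isCompact_iff_compactSpace.mp hN.isCompact
  have := isInvariant_fixedPoints (B := B) N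
  -- Step 1: move `g₀ • Q` back to `Q` by an element of `N`.
  have hunder : (g₀ • Q).under (FixedPoints.subalgebra ℤ B N) =
      Q.under (FixedPoints.subalgebra ℤ B N) := by
    ext ⟨x, hx⟩
    have hx' : ∀ n ∈ N, n • x = x := fun n hn' => hx ⟨n, hn'⟩
    simp only [Ideal.mem_comap]
    show x ∈ g₀ • Q ↔ x ∈ Q
    rw [Ideal.mem_pointwise_smul_iff_inv_smul_mem]
    have hy : ∀ n ∈ N, n • (g₀⁻¹ • x) = g₀⁻¹ • x := smul_mem_fixedPoints N g₀⁻¹ hx'
    have h1 := h₀ _ hy
    rw [smul_inv_smul] at h1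
    constructor
    · intro h
      have := Q.add_mem h1 h
      simpa using this
    · intro h
      have := Q.sub_mem h h1
      simpa using this
  obtain ⟨n, hn1⟩ := Algebra.IsInvariant.exists_smul_of_under_eq_of_profinite
    (A := FixedPoints.subalgebra ℤ B N) (G := N) (g₀ • Q) Q hunder
  -- `g₁ = n g₀` stabilises `Q` and still acts trivially mod `Q` on the `N`-invariants
  set g₁ : G := (n : G) * g₀ with hg₁
  have hg₁Q : g₁ • Q = Q := by
    rw [hg₁, mul_smul]
    exact hn1.symm
  have hg₁fix : ∀ x : B, (∀ m ∈ N, m • x = x) → g₁ • x - x ∈ Q := by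
    intro x hx
    have h1 : (n : G) • (g₀ • x) = g₀ • x := smul_mem_fixedPoints N g₀ hx n n.2
    rw [hg₁, mul_smul, h1]
    exact h₀ x hx
  -- Step 2: the automorphism of `B ⧸ Q` induced by `g₁` is `B' ⧸ Q'`-linear
  let e₀ : (B ⧸ Q) ≃ₐ[ℤ ⧸ Q.under ℤ] (B ⧸ Q) :=
    Ideal.Quotient.stabilizerHom Q (Q.under ℤ) G ⟨g₁, hg₁Q⟩
  have he₀ : ∀ x : B, e₀ (Ideal.Quotient.mk Q x) = Ideal.Quotient.mk Q (g₁ • x) := fun x => rfl
  let e : (B ⧸ Q) ≃ₐ[FixedPoints.subalgebra ℤ B N ⧸ Q.under (FixedPoints.subalgebra ℤ B N)]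
      (B ⧸ Q) :=
    AlgEquiv.ofRingEquiv (f := e₀.toRingEquiv) (by
      intro x
      obtain ⟨⟨b, hb⟩, rfl⟩ := Ideal.Quotient.mk_surjective x
      have hb' : ∀ m ∈ N, m • b = b := fun m hm => hb ⟨m, hm⟩
      show e₀ (Ideal.Quotient.mk Q b) = Ideal.Quotient.mk Q b
      rw [he₀, Ideal.Quotient.eq]
      exact hg₁fix b hb')
  obtain ⟨n', hn'⟩ := Ideal.Quotient.stabilizerHom_surjective_of_profinite (G := N)
    (Q.under (FixedPoints.subalgebra ℤ B N)) Q e
  have hn'Q : (n' : N) • Q = Q := n'.2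
  have hkey : ∀ x : B, ((n' : N) : G) • x - g₁ • x ∈ Q := by
    intro x
    have h1 := congrArg (fun t => t (Ideal.Quotient.mk Q x)) hn'
    simp only [Ideal.Quotient.stabilizerHom_apply] at h1
    have h2 : e (Ideal.Quotient.mk Q x) = Ideal.Quotient.mk Q (g₁ • x) := he₀ x
    rw [h2] at h1
    exact Ideal.Quotient.eq.mp h1
  refine ⟨((n' : N) : G)⁻¹ * g₁, ?_, fun x => ?_⟩
  · have h1 : ((n' : N) : G)⁻¹ * (n : G) ∈ N := N.mul_mem (N.inv_mem (n' : N).2) n.2
    have h2 := hn.conj_mem _ h1 g₀⁻¹
    have h3 : g₀⁻¹ * (((n' : N) : G)⁻¹ * g₁) = g₀⁻¹ * (((n' : N) : G)⁻¹ * (n : G)) * g₀⁻¹⁻¹ := by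
      rw [hg₁]; group
    rw [h3]
    exact h2
  · have h1 : g₁ • x - ((n' : N) : G) • x ∈ Q := by
      have := Q.neg_mem (hkey x)
      simpa using this
    have h2 : ((n' : N) : G)⁻¹ • (g₁ • x - ((n' : N) : G) • x) ∈ Q := by
      have h3 : g₁ • x - ((n' : N) : G) • x ∈ ((n' : N) : G) • Q := by
        have : ((n' : N) : G) • Q = Q := hn'Q
        rw [this]; exact h1
      exact Ideal.mem_pointwise_smul_iff_inv_smul_mem.mp h3
    have h4 : ((n' : N) : G)⁻¹ • (g₁ • x - ((n' : N) : G) • x) =
        (((n' : N) : G)⁻¹ * g₁) • x - x := by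
      rw [smul_sub, inv_smul_smul, ← mul_smul]
    rw [← h4]
    exact h2

end Fermat.Agent.S13.H175

end
-- ===== PACK-END S13/H175/InertiaLift.lean

-- ===== PACK-BEGIN A2/IF/H429/Dvr.lean
section


/-!
# A2 / IF (helper429): a criterion for discrete valuation rings (Mathlib only)

A valuation ring in which a fixed power `x ^ N` of every nonzero element is associated to a
power of a fixed nonzero non-unit `ϖ` is a discrete valuation ring.
-/

set_option autoImplicit false

namespace Fermat.Agent.A2.IF.H429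

section

variable {R : Type*} [CommRing R] [IsDomain R]

theorem pow_associated_inj {ϖ : R} (hϖ0 : ϖ ≠ 0) (hϖ : ¬ IsUnit ϖ) {a b : ℕ}
    (h : Associated (ϖ ^ a) (ϖ ^ b)) : a = b := by
  wlog hab : a ≤ b generalizing a b
  · exact (this h.symm (le_of_not_ge hab)).symm
  obtain ⟨c, rfl⟩ := Nat.exists_eq_add_of_le hab
  by_contra hne
  have hc : c ≠ 0 := fun h0 => hne (by simp [h0])
  obtain ⟨u, hu⟩ := h
  rw [pow_add] at hu
  have h1 : (u : R) = ϖ ^ c := mul_left_cancel₀ (pow_ne_zero a hϖ0) hu
  have h2 : IsUnit (ϖ ^ c) := h1 ▸ u.isUnit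
  exact hϖ ((isUnit_pow_iff hc).mp h2)

variable [ValuationRing R]

/-- **DVR criterion.** -/
theorem isDiscreteValuationRing_of_pow_associated (ϖ : R) (hϖ0 : ϖ ≠ 0) (hϖ : ¬ IsUnit ϖ)
    (N : ℕ) (hN : 0 < N) (h : ∀ x : R, x ≠ 0 → ∃ k : ℕ, Associated (x ^ N) (ϖ ^ k)) :
    IsDiscreteValuationRing R := by
  classical
  -- the "valuation"
  choose! ν hν using h
  have hν_unique : ∀ x : R, x ≠ 0 → ∀ k : ℕ, Associated (x ^ N) (ϖ ^ k) → ν x = k := by
    intro x hx k hk
    exact pow_associated_inj hϖ0 hϖ ((hν x hx).symm.trans hk)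
  have hν_mul : ∀ x y : R, x ≠ 0 → y ≠ 0 → ν (x * y) = ν x + ν y := by
    intro x y hx hy
    apply hν_unique _ (mul_ne_zero hx hy)
    rw [mul_pow, pow_add]
    exact (hν x hx).mul_mul (hν y hy)
  have hν_unit : ∀ x : R, x ≠ 0 → (ν x = 0 ↔ IsUnit x) := by
    intro x hx
    constructor
    · intro h0
      have h1 := hν x hx
      rw [h0, pow_zero] at h1
      have h2 : IsUnit (x ^ N) := h1.symm.isUnit isUnit_one
      exact (isUnit_pow_iff hN.ne').mp h2
    · intro hu
      apply hν_unique x hx 0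
      rw [pow_zero]
      exact associated_one_iff_isUnit.mpr (hu.pow N)
  -- a non-unit of minimal valuation
  have hex : ∃ k : ℕ, ∃ x : R, x ≠ 0 ∧ ¬ IsUnit x ∧ ν x = k := ⟨ν ϖ, ϖ, hϖ0, hϖ, rfl⟩
  obtain ⟨π, hπ0, hπu, hπk⟩ := Nat.find_spec hex
  have hmin : ∀ x : R, x ≠ 0 → ¬ IsUnit x → ν π ≤ ν x := by
    intro x hx hxu
    rw [hπk]
    exact Nat.find_min' hex ⟨x, hx, hxu, rfl⟩
  have hπpos : 0 < ν π := by
    rcases Nat.eq_zero_or_pos (ν π) with h0 | h0
    · exact absurd ((hν_unit π hπ0).mp h0) hπu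
    · exact h0
  have hirr : Irreducible π := by
    refine ⟨hπu, fun a b hab => ?_⟩
    by_contra hcon
    rw [not_or] at hcon
    have ha0 : a ≠ 0 := by
      rintro rfl
      rw [zero_mul] at hab
      exact hπ0 hab
    have hb0 : b ≠ 0 := by
      rintro rfl
      rw [mul_zero] at hab
      exact hπ0 hab
    have h1 := hν_mul a b ha0 hb0
    rw [← hab] at h1
    have h2 := hmin a ha0 hcon.1
    have h3 := hmin b hb0 hcon.2
    omega
  have key : ∀ n : ℕ, ∀ x : R, x ≠ 0 → ν x = n → ∃ j : ℕ, Associated (π ^ j) x := by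
    intro n
    induction n using Nat.strong_induction_on with
    | _ n ih =>
      intro x hx hxn
      by_cases hxu : IsUnit x
      · exact ⟨0, by rw [pow_zero]; exact (associated_one_iff_isUnit.mpr hxu).symm⟩
      · rcases ValuationRing.dvd_total π x with ⟨y, hy⟩ | ⟨z, hz⟩
        · have hy0 : y ≠ 0 := by
            rintro rfl
            rw [mul_zero] at hy
            exact hx hy
          have h1 := hν_mul π y hπ0 hy0
          rw [← hy, hxn] at h1
          obtain ⟨j, hj⟩ := ih (ν y) (by omega) y hy0 rfl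
          refine ⟨j + 1, ?_⟩
          rw [pow_succ', hy]
          exact (Associated.refl π).mul_mul hj
        · have hz0 : z ≠ 0 := by
            rintro rfl
            rw [mul_zero] at hz
            exact hπ0 hz
          rcases hirr.isUnit_or_isUnit hz with h1 | h1
          · exact absurd h1 hxu
          · refine ⟨1, ?_⟩
            rw [pow_one, hz]
            exact (associated_mul_unit_right x z h1).symm
  exact IsDiscreteValuationRing.ofHasUnitMulPowIrreducibleFactorization
    ⟨π, hirr, fun {x} hx => key (ν x) x hx rfl⟩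

end

end Fermat.Agent.A2.IF.H429

end
-- ===== PACK-END A2/IF/H429/Dvr.lean

-- ===== PACK-BEGIN A2/H489/TwoExt.lean
section


/-!
# A2 / M1-abs (helper489): extensions of a discrete valuation to a finite separable extension

Mathlib-only.  `S` Dedekind domain with fraction field `F`.

* `center V hV` : the centre on `S` of a valuation subring `V ⊇ S` of `F`.
* `eq_valuationSubring_of_center` : a valuation subring `V ≠ ⊤` of `F` containing `S` is the
  valuation subring of the `𝔓`-adic valuation, `𝔓` its centre.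
-/

set_option autoImplicit false

namespace Fermat.Agent.A2.H489

open IsDedekindDomain IsLocalRing

section Center

variable {S F : Type*} [CommRing S] [Field F] [Algebra S F]

/-- the structure map `S → V` for a valuation subring `V` of `F` containing the image of `S`. -/
def toValSub (V : ValuationSubring F) (hV : ∀ s : S, algebraMap S F s ∈ V) : S →+* V :=
  (algebraMap S F).codRestrict V.toSubring hV

@[simp]
theorem coe_toValSub (V : ValuationSubring F) (hV : ∀ s : S, algebraMap S F s ∈ V) (s : S) :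
    ((toValSub V hV s : V) : F) = algebraMap S F s := rfl

/-- The centre on `S` of a valuation subring `V ⊇ S` of `F`. -/
def center (V : ValuationSubring F) (hV : ∀ s : S, algebraMap S F s ∈ V) : Ideal S :=
  (IsLocalRing.maximalIdeal V).comap (toValSub V hV)

instance center_isPrime (V : ValuationSubring F) (hV : ∀ s : S, algebraMap S F s ∈ V) :
    (center V hV).IsPrime :=
  Ideal.comap_isPrime _ _

theorem mem_center_iff (V : ValuationSubring F) (hV : ∀ s : S, algebraMap S F s ∈ V) (s : S) :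
    s ∈ center V hV ↔ algebraMap S F s ∈ V.nonunits := by
  rw [center, Ideal.mem_comap, ← ValuationSubring.coe_mem_nonunits_iff, coe_toValSub]

theorem mem_center_iff_valuation (V : ValuationSubring F)
    (hV : ∀ s : S, algebraMap S F s ∈ V) (s : S) :
    s ∈ center V hV ↔ V.valuation (algebraMap S F s) < 1 := by
  rw [mem_center_iff, ValuationSubring.mem_nonunits_iff]

theorem inv_mem_of_not_mem_center (V : ValuationSubring F)
    (hV : ∀ s : S, algebraMap S F s ∈ V) {s : S} (hs : s ∉ center V hV) :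
    (algebraMap S F s)⁻¹ ∈ V := by
  rw [mem_center_iff, ValuationSubring.mem_nonunits_iff_or, not_or, not_not] at hs
  exact hs.2

end Center

section Dedekind

variable {S F : Type*} [CommRing S] [IsDedekindDomain S] [Field F] [Algebra S F]
  [IsFractionRing S F]

/-- A valuation subring `V ≠ ⊤` of `F = Frac S` containing the Dedekind domain `S` is the
valuation subring of the adic valuation at its centre. -/
theorem eq_valuationSubring_of_center (V : ValuationSubring F)
    (hV : ∀ s : S, algebraMap S F s ∈ V) (hne : V ≠ ⊤)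
    (v : HeightOneSpectrum S) (hv : v.asIdeal = center V hV) :
    V = (v.valuation F).valuationSubring := by
  have hle : (v.valuation F).valuationSubring ≤ V := by
    intro x hx
    obtain ⟨n, d, hnd⟩ := v.exists_primeCompl_mul_eq_of_integer x hx
    have hd : (d : S) ∉ center V hV := by
      rw [← hv]; exact d.2
    have hdinv := inv_mem_of_not_mem_center V hV hd
    have hd0 : algebraMap S F (d : S) ≠ 0 := by
      intro h0
      apply hd
      rw [mem_center_iff, h0]
      exact V.nonunits.zero_mem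
    have hx' : x = algebraMap S F n * (algebraMap S F (d : S))⁻¹ := by
      rw [← hnd]; field_simp
    rw [hx']
    exact V.mul_mem _ _ (hV n) hdinv
  have h1 := v.valuationSubringAtPrime_eq_valuationSubring (K := F)
  have h2 : v.valuationSubringAtPrime F ≤ V := by rw [h1]; exact hle
  rw [← h1]
  exact (ValuationSubring.eq_of_le_of_ne_top (v.valuationSubringAtPrime F) h2 hne).symm

/-- The centre of a valuation subring `V ≠ ⊤` containing `S` is nonzero. -/
theorem center_ne_bot (V : ValuationSubring F) (hV : ∀ s : S, algebraMap S F s ∈ V)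
    (hne : V ≠ ⊤) : center V hV ≠ ⊥ := by
  intro hbot
  apply hne
  rw [eq_top_iff]
  intro x _
  obtain ⟨a, b, hb, rfl⟩ := IsFractionRing.div_surjective (A := S) x
  have hb' : b ∉ center V hV := by
    rw [hbot]
    intro h
    exact (nonZeroDivisors.ne_zero hb) (by simpa using h)
  rw [div_eq_mul_inv]
  exact V.mul_mem _ _ (hV a) (inv_mem_of_not_mem_center V hV hb')

/-- The centre as a height-one prime. -/
def centerSpec (V : ValuationSubring F) (hV : ∀ s : S, algebraMap S F s ∈ V)
    (hne : V ≠ ⊤) : HeightOneSpectrum S where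
  asIdeal := center V hV
  isPrime := center_isPrime V hV
  ne_bot := center_ne_bot V hV hne

theorem eq_valuationSubring_centerSpec (V : ValuationSubring F)
    (hV : ∀ s : S, algebraMap S F s ∈ V) (hne : V ≠ ⊤) :
    V = ((centerSpec V hV hne).valuation F).valuationSubring :=
  eq_valuationSubring_of_center V hV hne _ rfl

/-- Two valuation subrings `≠ ⊤` containing `S` with the same centre are equal. -/
theorem eq_of_center_eq (V W : ValuationSubring F)
    (hV : ∀ s : S, algebraMap S F s ∈ V) (hW : ∀ s : S, algebraMap S F s ∈ W)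
    (hVne : V ≠ ⊤) (hWne : W ≠ ⊤) (h : center V hV = center W hW) : V = W := by
  rw [eq_valuationSubring_centerSpec V hV hVne,
    eq_valuationSubring_of_center W hW hWne (centerSpec V hV hVne) h]

end Dedekind

end Fermat.Agent.A2.H489

end
-- ===== PACK-END A2/H489/TwoExt.lean

-- ===== PACK-BEGIN A2/H129/GaussTwice.lean
section


/-!
# A2 / K2 (abstract part): applying `τ - 1` twice makes a function `≡ 1` along every component

Pure valuation theory, Mathlib only.

`F` is a field (in the application: the function field `Q̄(X₀(N))`), `Kc` the subfield of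
constants, `V` a valuation subring of `F` (a Gauss valuation = a component of the special fibre),
`τ` a ring automorphism of `F` (the action of an element of the inertia group through the
coefficients).

* `InInertia V τ` : `τ` acts trivially on the residue field of `V`
  (`v (τ u - u) < 1` for all `u` with `v u ≤ 1`).
* `HasConstValues Kc V` : every nonzero `f` is a constant times a unit of `V`
  (the value group of `V` is the value group of the constants).
* `PreservesConstValues Kc V τ` : `τ c / c` is a unit of `V` for every nonzero constant `c`.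

Main results (multiplicative notation: `tauSubOne τ f = τ f / f`):

* `oneAddNonunits_tauSubOne` : `u` unit of `V` ⟹ `τ u / u ∈ 1 + 𝔪_V`.
* `exists_const_twice` : for every `f ≠ 0` there is a constant `c ≠ 0` with
  `(τ - 1)² f / c ∈ 1 + 𝔪_V`.
* `exists_const_twice_two` : the same for two valuation subrings `V∞`, `V₀`
  SIMULTANEOUSLY (one constant `c` for both).
* `exists_const_once_two` : `(τ - 1) f / c ∈ 1 + 𝔪_{V∞}` and `(τ - 1) f / (c c') ∈ 1 + 𝔪_{V₀}` with a
  constant `c'` which is a unit of `V₀`.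
-/

set_option autoImplicit false

namespace Fermat.Agent.A2.H129

variable {F : Type*} [Field F]

/-- `u` is a unit of the valuation subring `V`. -/
def IsUnitOf (V : ValuationSubring F) (u : F) : Prop := V.valuation u = 1

/-- `g ∈ 1 + 𝔪_V`. -/
def OneAddNonunits (V : ValuationSubring F) (g : F) : Prop := V.valuation (g - 1) < 1

/-- `τ` acts trivially on the residue field of `V` (and hence maps `V` to itself). -/
def InInertia (V : ValuationSubring F) (τ : F ≃+* F) : Prop :=
  ∀ u : F, V.valuation u ≤ 1 → V.valuation (τ u - u) < 1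

/-- every nonzero element of `F` is a constant times a unit of `V`. -/
def HasConstValues (Kc : Subfield F) (V : ValuationSubring F) : Prop :=
  ∀ f : F, f ≠ 0 → ∃ c ∈ Kc, c ≠ 0 ∧ IsUnitOf V (f * c⁻¹)

/-- `τ` preserves the valuation of the constants. -/
def PreservesConstValues (Kc : Subfield F) (V : ValuationSubring F) (τ : F ≃+* F) : Prop :=
  ∀ c ∈ Kc, c ≠ 0 → IsUnitOf V (τ c * c⁻¹)

/-- the multiplicative version of `τ - 1`. -/
def tauSubOne (τ : F ≃+* F) (f : F) : F := τ f * f⁻¹

section basic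

variable {V : ValuationSubring F} {τ : F ≃+* F}

theorem IsUnitOf.ne_zero {u : F} (hu : IsUnitOf V u) : u ≠ 0 := by
  rintro rfl
  simp [IsUnitOf] at hu

theorem IsUnitOf.mul {u w : F} (hu : IsUnitOf V u) (hw : IsUnitOf V w) : IsUnitOf V (u * w) := by
  simp only [IsUnitOf, map_mul] at *
  rw [hu, hw, one_mul]

theorem IsUnitOf.inv {u : F} (hu : IsUnitOf V u) : IsUnitOf V u⁻¹ := by
  simp only [IsUnitOf, map_inv₀] at *
  rw [hu, inv_one]

theorem OneAddNonunits.isUnitOf {g : F} (hg : OneAddNonunits V g) : IsUnitOf V g := by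
  have h1 : V.valuation (1 : F) = 1 := map_one _
  have h : V.valuation (1 + (g - 1)) = V.valuation (1 : F) :=
    Valuation.map_add_eq_of_lt_left _ (by rw [h1]; exact hg)
  have e : (1 : F) + (g - 1) = g := by ring
  rw [e, h1] at h
  exact h

theorem OneAddNonunits.one : OneAddNonunits V (1 : F) := by
  simp [OneAddNonunits]

theorem OneAddNonunits.mul {g h : F} (hg : OneAddNonunits V g) (hh : OneAddNonunits V h) :
    OneAddNonunits V (g * h) := by
  have e : g * h - 1 = (g - 1) * h + (h - 1) := by ring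
  have hh1 : V.valuation h = 1 := hh.isUnitOf
  have h1 : V.valuation ((g - 1) * h) < 1 := by
    rw [map_mul, hh1, mul_one]; exact hg
  unfold OneAddNonunits at *
  rw [e]
  exact lt_of_le_of_lt (Valuation.map_add _ _ _) (max_lt h1 hh)

theorem OneAddNonunits.inv {g : F} (hg : OneAddNonunits V g) : OneAddNonunits V g⁻¹ := by
  have hg1 : V.valuation g = 1 := hg.isUnitOf
  have hg0 : g ≠ 0 := (hg.isUnitOf).ne_zero
  have e : g⁻¹ - 1 = -((g - 1) * g⁻¹) := by field_simp; ring
  unfold OneAddNonunits at *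
  rw [e, Valuation.map_neg, map_mul, map_inv₀, hg1, inv_one, mul_one]
  exact hg

/-- `τ` maps units of `V` to units of `V`. -/
theorem InInertia.isUnitOf (hτ : InInertia V τ) {u : F} (hu : IsUnitOf V u) :
    IsUnitOf V (τ u) := by
  have h := hτ u (le_of_eq hu)
  have h' : V.valuation (u + (τ u - u)) = V.valuation u :=
    Valuation.map_add_eq_of_lt_left _ (by rw [hu]; exact h)
  have e : u + (τ u - u) = τ u := by ring
  rw [e] at h'
  exact h'.trans hu

/-- **Lemma B.** For a unit `u` of `V`, `τ u / u ∈ 1 + 𝔪_V`. -/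
theorem oneAddNonunits_tauSubOne (hτ : InInertia V τ) {u : F} (hu : IsUnitOf V u) :
    OneAddNonunits V (tauSubOne τ u) := by
  have hu0 : u ≠ 0 := hu.ne_zero
  have e : tauSubOne τ u - 1 = (τ u - u) * u⁻¹ := by
    unfold tauSubOne; field_simp
  unfold OneAddNonunits
  rw [e, map_mul, map_inv₀, hu, inv_one, mul_one]
  exact hτ u (le_of_eq hu)

theorem tauSubOne_mul (τ : F ≃+* F) (f g : F) :
    tauSubOne τ (f * g) = tauSubOne τ f * tauSubOne τ g := by
  unfold tauSubOne
  rw [map_mul, mul_inv]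
  ring

theorem tauSubOne_inv (τ : F ≃+* F) (f : F) :
    tauSubOne τ f⁻¹ = (tauSubOne τ f)⁻¹ := by
  unfold tauSubOne
  rw [map_inv₀, mul_inv]

theorem tauSubOne_ne_zero (τ : F ≃+* F) {f : F} (hf : f ≠ 0) : tauSubOne τ f ≠ 0 := by
  unfold tauSubOne
  exact mul_ne_zero (by simpa using hf) (inv_ne_zero hf)

theorem tauSubOne_mem (Kc : Subfield F) (hK : ∀ c ∈ Kc, τ c ∈ Kc) {c : F} (hc : c ∈ Kc) :
    tauSubOne τ c ∈ Kc :=
  Kc.mul_mem (hK c hc) (Kc.inv_mem hc)

end basic

section main

variable {Kc : Subfield F} {τ : F ≃+* F}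

/-- **One valuation.** For every `f ≠ 0` there is a constant `c ≠ 0` such that
`(τ - 1) f / c ∈ 1 + 𝔪_V`. -/
theorem exists_const_once {V : ValuationSubring F}
    (hK : ∀ c ∈ Kc, τ c ∈ Kc) (hV : HasConstValues Kc V) (hτ : InInertia V τ)
    {f : F} (hf : f ≠ 0) :
    ∃ c ∈ Kc, c ≠ 0 ∧ OneAddNonunits V (tauSubOne τ f * c⁻¹) := by
  obtain ⟨c, hc, hc0, hu⟩ := hV f hf
  refine ⟨tauSubOne τ c, tauSubOne_mem Kc hK hc, tauSubOne_ne_zero τ hc0, ?_⟩
  have e : tauSubOne τ f * (tauSubOne τ c)⁻¹ = tauSubOne τ (f * c⁻¹) := by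
    rw [tauSubOne_mul, tauSubOne_inv]
  rw [e]
  exact oneAddNonunits_tauSubOne hτ hu

/-- **Two valuations, once.**  For every `f ≠ 0` there are constants `c`, `c'` with
`(τ-1) f / c ∈ 1 + 𝔪_{V₁}`, `(τ-1) f / (c c') ∈ 1 + 𝔪_{V₀}`, and `c'` a unit of `V₀`. -/
theorem exists_const_once_two {V₁ V₀ : ValuationSubring F}
    (hK : ∀ c ∈ Kc, τ c ∈ Kc)
    (hV₁ : HasConstValues Kc V₁) (hτ₁ : InInertia V₁ τ)
    (hV₀ : HasConstValues Kc V₀) (hτ₀ : InInertia V₀ τ)
    (hP₀ : PreservesConstValues Kc V₀ τ)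
    {f : F} (hf : f ≠ 0) :
    ∃ c ∈ Kc, c ≠ 0 ∧ ∃ c' ∈ Kc, IsUnitOf V₀ c' ∧
      OneAddNonunits V₁ (tauSubOne τ f * c⁻¹) ∧
      OneAddNonunits V₀ (tauSubOne τ f * c⁻¹ * c'⁻¹) := by
  obtain ⟨c, hc, hc0, hu⟩ := hV₁ f hf
  have hfc : f * c⁻¹ ≠ 0 := hu.ne_zero
  obtain ⟨d, hd, hd0, hud⟩ := hV₀ (f * c⁻¹) hfc
  refine ⟨tauSubOne τ c, tauSubOne_mem Kc hK hc, tauSubOne_ne_zero τ hc0,
    tauSubOne τ d, tauSubOne_mem Kc hK hd, hP₀ d hd hd0, ?_, ?_⟩
  · have e : tauSubOne τ f * (tauSubOne τ c)⁻¹ = tauSubOne τ (f * c⁻¹) := by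
      rw [tauSubOne_mul, tauSubOne_inv]
    rw [e]
    exact oneAddNonunits_tauSubOne hτ₁ hu
  · have e : tauSubOne τ f * (tauSubOne τ c)⁻¹ * (tauSubOne τ d)⁻¹
        = tauSubOne τ (f * c⁻¹ * d⁻¹) := by
      rw [tauSubOne_mul, tauSubOne_mul, tauSubOne_inv, tauSubOne_inv]
    rw [e]
    exact oneAddNonunits_tauSubOne hτ₀ hud

/-- **Two valuations, twice (K2).**  For every `f ≠ 0` there is ONE constant `c ≠ 0` such that
`(τ - 1)² f / c` lies in `1 + 𝔪_{V₁}` and in `1 + 𝔪_{V₀}`. -/
theorem exists_const_twice_two {V₁ V₀ : ValuationSubring F}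
    (hK : ∀ c ∈ Kc, τ c ∈ Kc)
    (hV₁ : HasConstValues Kc V₁) (hτ₁ : InInertia V₁ τ)
    (hV₀ : HasConstValues Kc V₀) (hτ₀ : InInertia V₀ τ)
    (hP₀ : PreservesConstValues Kc V₀ τ)
    {f : F} (hf : f ≠ 0) :
    ∃ c ∈ Kc, c ≠ 0 ∧
      OneAddNonunits V₁ (tauSubOne τ (tauSubOne τ f) * c⁻¹) ∧
      OneAddNonunits V₀ (tauSubOne τ (tauSubOne τ f) * c⁻¹) := by
  obtain ⟨c, hc, hc0, c', hc', hu', h₁, h₀⟩ :=
    exists_const_once_two hK hV₁ hτ₁ hV₀ hτ₀ hP₀ hf
  have hc'0 : c' ≠ 0 := hu'.ne_zero
  -- `g₁ := (τ-1) f / c ∈ 1 + 𝔪_{V₁}`, and `g₁ / c' ∈ 1 + 𝔪_{V₀}`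
  refine ⟨tauSubOne τ c, tauSubOne_mem Kc hK hc, tauSubOne_ne_zero τ hc0, ?_, ?_⟩
  · have e : tauSubOne τ (tauSubOne τ f) * (tauSubOne τ c)⁻¹
        = tauSubOne τ (tauSubOne τ f * c⁻¹) := by
      rw [tauSubOne_mul, tauSubOne_inv]
    rw [e]
    exact oneAddNonunits_tauSubOne hτ₁ h₁.isUnitOf
  · have e : tauSubOne τ (tauSubOne τ f) * (tauSubOne τ c)⁻¹
        = tauSubOne τ (tauSubOne τ f * c⁻¹ * c'⁻¹) * tauSubOne τ c' := by
      rw [tauSubOne_mul, tauSubOne_mul, tauSubOne_inv, tauSubOne_inv]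
      have : tauSubOne τ c' ≠ 0 := tauSubOne_ne_zero τ hc'0
      field_simp
    rw [e]
    exact (oneAddNonunits_tauSubOne hτ₀ h₀.isUnitOf).mul (oneAddNonunits_tauSubOne hτ₀ hu')

end main

end Fermat.Agent.A2.H129

end
-- ===== PACK-END A2/H129/GaussTwice.lean

-- ===== PACK-BEGIN S18/H602/LaurentDeriv.lean
section


/-!
# The derivation `d/dq` of `k((q))`  (helper602, S18 / MOD piece SEP, part 1)

Mathlib has `LaurentSeries.derivative` as a linear map only.  We prove the Leibniz rule and bundle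
it as a `Derivation k k((q)) k((q))`.

* `dq_mul` : `d/dq (f g) = f · d/dq g + g · d/dq f`.
* `dqDer k : Derivation k (LaurentSeries k) (LaurentSeries k)`.
-/

set_option autoImplicit false

noncomputable section

namespace Fermat.Agent.S18.H602

open HahnSeries

variable {k : Type*} [CommRing k]

/-- `d/dq` on `k((q))`. -/
def dq (f : LaurentSeries k) : LaurentSeries k := LaurentSeries.derivative k f

@[simp]
theorem dq_coeff (f : LaurentSeries k) (n : ℤ) : (dq f).coeff n = (n + 1) • f.coeff (n + 1) := by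
  simp [dq]

theorem dq_add (f g : LaurentSeries k) : dq (f + g) = dq f + dq g := map_add _ f g

theorem dq_single_mul (n : ℤ) (h : LaurentSeries k) :
    dq (single n (1 : k) * h) = n • (single (n - 1) (1 : k) * h) + single n (1 : k) * dq h := by
  ext m
  simp only [dq_coeff, coeff_add, coeff_single_mul, one_mul, HahnSeries.coeff_smul]
  have e1 : m + 1 - n = m - (n - 1) := by ring
  have e2 : m - n + 1 = m - (n - 1) := by ring
  rw [e1, e2]
  simp only [zsmul_eq_mul]
  push_cast
  ring

theorem dq_ofPowerSeries (F : PowerSeries k) :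
    dq (ofPowerSeries ℤ k F) = ofPowerSeries ℤ k (PowerSeries.derivative k F) := by
  ext m
  rw [dq_coeff]
  rcases lt_or_ge m 0 with hm | hm
  · have h1 : ((ofPowerSeries ℤ k) ((PowerSeries.derivative k) F)).coeff m = 0 := by
      rw [ofPowerSeries_apply]
      apply HahnSeries.embDomain_of_notMem_range
      rintro ⟨a, ha⟩
      have : (0 : ℤ) ≤ m := by rw [← ha]; simp
      omega
    rw [h1]
    rcases eq_or_lt_of_le (show m + 1 ≤ 0 by omega) with h0 | h0
    · rw [h0]; simp
    · have h2 : ((ofPowerSeries ℤ k) F).coeff (m + 1) = 0 := by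
        rw [ofPowerSeries_apply]
        apply HahnSeries.embDomain_of_notMem_range
        rintro ⟨a, ha⟩
        have : (0 : ℤ) ≤ m + 1 := by rw [← ha]; simp
        omega
      rw [h2, smul_zero]
  · lift m to ℕ using hm
    have e : ((m : ℤ) + 1) = ((m + 1 : ℕ) : ℤ) := by push_cast; ring
    rw [ofPowerSeries_apply_coeff, PowerSeries.coeff_derivative, e, ofPowerSeries_apply_coeff]
    simp only [zsmul_eq_mul]
    push_cast
    ring

theorem dq_ofPowerSeries_mul (F G : PowerSeries k) :
    dq (ofPowerSeries ℤ k F * ofPowerSeries ℤ k G) =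
      ofPowerSeries ℤ k F * dq (ofPowerSeries ℤ k G) +
        ofPowerSeries ℤ k G * dq (ofPowerSeries ℤ k F) := by
  rw [← map_mul, dq_ofPowerSeries, dq_ofPowerSeries, dq_ofPowerSeries, Derivation.leibniz,
    map_add, smul_eq_mul, smul_eq_mul, map_mul, map_mul]

/-- **Leibniz rule** for `d/dq` on Laurent series. -/
theorem dq_mul (f g : LaurentSeries k) : dq (f * g) = f * dq g + g * dq f := by
  obtain ⟨a, F, rfl⟩ : ∃ (a : ℤ) (F : PowerSeries k), single a (1 : k) * ofPowerSeries ℤ k F = f :=
    ⟨_, _, LaurentSeries.single_order_mul_powerSeriesPart f⟩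
  obtain ⟨b, G, rfl⟩ : ∃ (b : ℤ) (G : PowerSeries k), single b (1 : k) * ofPowerSeries ℤ k G = g :=
    ⟨_, _, LaurentSeries.single_order_mul_powerSeriesPart g⟩
  set F' := ofPowerSeries ℤ k F with hF'
  set G' := ofPowerSeries ℤ k G with hG'
  have h1 : single a (1 : k) * F' * (single b (1 : k) * G') =
      single (a + b) (1 : k) * (F' * G') := by
    rw [mul_mul_mul_comm, single_mul_single, one_mul]
  have s1 : (single (a - 1) (1 : k) : LaurentSeries k) * single b (1 : k) =
      single (a + b - 1) (1 : k) := by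
    rw [single_mul_single, one_mul, show a - 1 + b = a + b - 1 by ring]
  have s2 : (single a (1 : k) : LaurentSeries k) * single (b - 1) (1 : k) =
      single (a + b - 1) (1 : k) := by
    rw [single_mul_single, one_mul, show a + (b - 1) = a + b - 1 by ring]
  have s3 : (single a (1 : k) : LaurentSeries k) * single b (1 : k) =
      single (a + b) (1 : k) := by
    rw [single_mul_single, one_mul]
  rw [h1, dq_single_mul, dq_single_mul, dq_single_mul, dq_ofPowerSeries_mul]
  simp only [zsmul_eq_mul]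
  push_cast
  linear_combination ((a : LaurentSeries k) * F' * G' ) * s1.symm +
    ((b : LaurentSeries k) * F' * G') * s2.symm +
    (F' * dq G' + G' * dq F') * s3.symm

theorem dq_C (c : k) : dq (C c : LaurentSeries k) = 0 := by
  ext m
  rw [dq_coeff, coeff_zero]
  by_cases h : m + 1 = 0
  · rw [h]; simp
  · rw [C_apply, coeff_single_of_ne h, smul_zero]

theorem dq_one : dq (1 : LaurentSeries k) = 0 := by
  have := dq_C (1 : k)
  rwa [map_one] at this

theorem algebraMap_eq_C (c : k) : algebraMap k (LaurentSeries k) c = C c := by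
  have h1 : algebraMap k (PowerSeries k) c = PowerSeries.C c := by simp
  rw [HahnSeries.algebraMap_apply', h1, HahnSeries.ofPowerSeries_C]

theorem dq_algebraMap (c : k) : dq (algebraMap k (LaurentSeries k) c) = 0 := by
  rw [algebraMap_eq_C]
  exact dq_C c

/-- `d/dq` as a `k`-derivation of `k((q))`. -/
def dqDer (k : Type*) [CommRing k] : Derivation k (LaurentSeries k) (LaurentSeries k) where
  toFun := dq
  map_add' := dq_add
  map_smul' c f := by
    rw [Algebra.smul_def, dq_mul, dq_algebraMap, mul_zero, add_zero, RingHom.id_apply,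
      algebraMap_eq_C, HahnSeries.C_mul_eq_smul]
  map_one_eq_zero' := dq_one
  leibniz' a b := by
    have := dq_mul a b
    simpa [smul_eq_mul] using this

@[simp]
theorem dqDer_apply (f : LaurentSeries k) : dqDer k f = dq f := rfl

end Fermat.Agent.S18.H602

end
end
-- ===== PACK-END S18/H602/LaurentDeriv.lean

-- ===== PACK-BEGIN S37/H818/FieldBridge.lean
section
/-
S37 / LEVEL TRANSFER (helper818), part 9: bridges between `IntermediateField` language
(`relfinrank`, `⊔`) and the Prelude's "along" language (`finrankAlong`, `Algebra.adjoin`).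
-/



set_option autoImplicit false
set_option linter.style.haveILetI false

noncomputable section

namespace Fermat.Agent.S37.H818

open AlgebraicCurve IntermediateField

variable {K E : Type*} [Field K] [Field E] [Algebra K E]

/-- `finrankAlong` of an inclusion of intermediate fields is the relative finrank. -/
theorem finrankAlong_inclusion {A B : IntermediateField K E} (h : A ≤ B) :
    finrankAlong K (IntermediateField.inclusion h) = A.relfinrank B := by
  rw [IntermediateField.relfinrank_eq_finrank_of_le h]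
  unfold finrankAlong
  letI := algebraAlong (IntermediateField.inclusion h)
  let e : ↥B ≃ₗ[A] ↥(IntermediateField.extendScalars h) :=
    { toFun := fun x => ⟨x.1, x.2⟩
      invFun := fun x => ⟨x.1, x.2⟩
      map_add' := fun _ _ => rfl
      map_smul' := fun _ _ => rfl
      left_inv := fun _ => rfl
      right_inv := fun _ => rfl }
  exact e.finrank_eq

/-- `FiniteAlong` for an inclusion, from positivity of the relative finrank. -/
theorem finiteAlong_inclusion {A B : IntermediateField K E} (h : A ≤ B)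
    (hpos : 0 < A.relfinrank B) : FiniteAlong K (IntermediateField.inclusion h) := by
  unfold FiniteAlong
  letI := algebraAlong (IntermediateField.inclusion h)
  have h1 : 0 < Module.finrank A B := by
    have := finrankAlong_inclusion h
    unfold finrankAlong at this
    rw [this]
    exact hpos
  exact Module.finite_of_finrank_pos h1

/-- If `C ≤ A ⊔ B` (with `A, B ≤ C`, `C` finite over `A`), then `C` is generated as an
`A`-algebra by the image of `B`. -/
theorem adjoin_range_inclusion_eq_top {A B C : IntermediateField K E} (hAC : A ≤ C)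
    (hBC : B ≤ C) (hC : C ≤ A ⊔ B) (hfin : FiniteAlong K (IntermediateField.inclusion hAC)) :
    (letI := algebraAlong (IntermediateField.inclusion hAC)
     Algebra.adjoin A (Set.range (IntermediateField.inclusion hBC))) = ⊤ := by
  letI := algebraAlong (IntermediateField.inclusion hAC)
  haveI : Module.Finite A C := hfin
  haveI : Algebra.IsAlgebraic A C := Algebra.IsAlgebraic.of_finite A C
  set T : Subalgebra A C := Algebra.adjoin A (Set.range (IntermediateField.inclusion hBC)) with hT
  have key : ∀ y (hy : y ∈ A ⊔ B), ∃ hyC : y ∈ C, (⟨y, hyC⟩ : C) ∈ T := by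
    intro y hy
    rw [IntermediateField.sup_def] at hy
    induction hy using IntermediateField.adjoin_induction with
    | mem x hx =>
      rcases hx with hx | hx
      · refine ⟨hAC hx, ?_⟩
        have : (⟨x, hAC hx⟩ : C) = algebraMap A C ⟨x, hx⟩ := rfl
        rw [this]
        exact T.algebraMap_mem _
      · refine ⟨hBC hx, ?_⟩
        exact Algebra.subset_adjoin ⟨⟨x, hx⟩, rfl⟩
    | algebraMap x =>
      refine ⟨C.algebraMap_mem x, ?_⟩
      have : (⟨algebraMap K E x, C.algebraMap_mem x⟩ : C) =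
          algebraMap A C ⟨algebraMap K E x, A.algebraMap_mem x⟩ := rfl
      rw [this]
      exact T.algebraMap_mem _
    | add x y _ _ hx hy =>
      obtain ⟨hxC, hxT⟩ := hx
      obtain ⟨hyC, hyT⟩ := hy
      exact ⟨C.add_mem hxC hyC, T.add_mem hxT hyT⟩
    | inv x _ hx =>
      obtain ⟨hxC, hxT⟩ := hx
      refine ⟨C.inv_mem hxC, ?_⟩
      have h1 := T.inv_mem_of_algebraic (x := ⟨⟨x, hxC⟩, hxT⟩)
        (Algebra.IsAlgebraic.isAlgebraic (R := A) (⟨x, hxC⟩ : C))
      exact h1
    | mul x y _ _ hx hy =>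
      obtain ⟨hxC, hxT⟩ := hx
      obtain ⟨hyC, hyT⟩ := hy
      exact ⟨C.mul_mem hxC hyC, T.mul_mem hxT hyT⟩
  rw [eq_top_iff]
  rintro ⟨y, hyC⟩ -
  obtain ⟨_, h⟩ := key y (hC hyC)
  exact h

end Fermat.Agent.S37.H818

end

end
-- ===== PACK-END S37/H818/FieldBridge.lean

-- ===== PACK-BEGIN S28/H86/PoleTrans.lean
section




/-!
# A Laurent series of nonzero order is transcendental over the coefficient field

For a field `k` and `y : LaurentSeries k` with `y ≠ 0` and `y.order ≠ 0`, the evaluation map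
`Polynomial k → LaurentSeries k`, `P ↦ P(y)` is injective; more precisely the order of `P(y)` is
`i₀ • y.order` for the exponent `i₀` of the dominant term.
-/

namespace Fermat.Agent.S28.H86

open Polynomial

variable {k : Type*} [Field k]

theorem hahn_pow_ne_zero {y : LaurentSeries k} (hy : y ≠ 0) (n : ℕ) : y ^ n ≠ 0 :=
  pow_ne_zero n hy

theorem order_pow_eq {y : LaurentSeries k} (hy : y ≠ 0) (n : ℕ) :
    (y ^ n).order = n • y.order := by
  induction n with
  | zero => simp
  | succ n ih =>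
    rw [pow_succ, HahnSeries.order_mul (pow_ne_zero n hy) hy, ih, succ_nsmul]

theorem coeff_algebraMap_mul (c : k) (x : LaurentSeries k) (n : ℤ) :
    (algebraMap k (LaurentSeries k) c * x).coeff n = c * x.coeff n := by
  rw [ModularCurve.algebraMap_laurentSeries_eq_single, HahnSeries.coeff_single_zero_mul]

/-- The coefficient of `P(y)` at `n` as a finite sum. -/
theorem coeff_aeval_eq_sum (y : LaurentSeries k) (P : k[X]) (n : ℤ) :
    (aeval y P).coeff n = ∑ i ∈ P.support, P.coeff i * (y ^ i).coeff n := by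
  rw [aeval_def, eval₂_eq_sum, Polynomial.sum, HahnSeries.coeff_sum]
  refine Finset.sum_congr rfl fun i _ => ?_
  exact coeff_algebraMap_mul _ _ _

/-- If `i₀ ∈ P.support` strictly minimises `i • y.order` over the support, then the coefficient
of `P(y)` at `i₀ • y.order` is nonzero. -/
theorem coeff_aeval_ne_zero_of_min {y : LaurentSeries k} (hy : y ≠ 0) (P : k[X]) (i₀ : ℕ)
    (hi₀ : i₀ ∈ P.support)
    (hmin : ∀ i ∈ P.support, i ≠ i₀ → i₀ • y.order < i • y.order) :
    (aeval y P).coeff (i₀ • y.order) ≠ 0 := by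
  rw [coeff_aeval_eq_sum, Finset.sum_eq_single_of_mem i₀ hi₀]
  · refine mul_ne_zero (Polynomial.mem_support_iff.mp hi₀) ?_
    rw [← order_pow_eq hy, ← HahnSeries.leadingCoeff_eq]
    exact HahnSeries.leadingCoeff_ne_zero.mpr (pow_ne_zero _ hy)
  · intro i hi hne
    rw [HahnSeries.coeff_eq_zero_of_lt_order, mul_zero]
    rw [order_pow_eq hy]
    exact hmin i hi hne

/-- **Transcendence**: a Laurent series of nonzero order is not a root of a nonzero polynomial
with constant coefficients. -/
theorem aeval_ne_zero_of_order_ne_zero {y : LaurentSeries k} (hy : y ≠ 0) (ho : y.order ≠ 0)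
    {P : k[X]} (hP : P ≠ 0) : aeval y P ≠ 0 := by
  have hne : P.support.Nonempty := Polynomial.support_nonempty.mpr hP
  rcases lt_or_gt_of_ne ho with hneg | hpos
  · -- dominant term: the top degree
    have h := coeff_aeval_ne_zero_of_min hy P (P.support.max' hne) (Finset.max'_mem _ _) (by
      intro i hi hne'
      have hlt : i < P.support.max' hne :=
        lt_of_le_of_ne (Finset.le_max' _ _ hi) hne'
      have h1 : (i : ℤ) < (P.support.max' hne : ℤ) := by exact_mod_cast hlt
      rw [nsmul_eq_mul, nsmul_eq_mul]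
      exact mul_lt_mul_of_neg_right h1 hneg)
    intro h0
    rw [h0, HahnSeries.coeff_zero] at h
    exact h rfl
  · have h := coeff_aeval_ne_zero_of_min hy P (P.support.min' hne) (Finset.min'_mem _ _) (by
      intro i hi hne'
      have hlt : P.support.min' hne < i :=
        lt_of_le_of_ne (Finset.min'_le _ _ hi) (Ne.symm hne')
      have h1 : (P.support.min' hne : ℤ) < (i : ℤ) := by exact_mod_cast hlt
      rw [nsmul_eq_mul, nsmul_eq_mul]
      exact mul_lt_mul_of_pos_right h1 hpos)
    intro h0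
    rw [h0, HahnSeries.coeff_zero] at h
    exact h rfl

theorem aeval_injective_of_order_ne_zero {y : LaurentSeries k} (hy : y ≠ 0) (ho : y.order ≠ 0) :
    Function.Injective (aeval y : k[X] →ₐ[k] LaurentSeries k) := by
  rw [injective_iff_map_eq_zero]
  intro P hP
  by_contra h
  exact aeval_ne_zero_of_order_ne_zero hy ho h hP

/-- For `y` of negative order, the order of `P(y)` is `natDegree P • order y`. -/
theorem order_aeval_of_order_neg {y : LaurentSeries k} (hy : y ≠ 0) (ho : y.order < 0)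
    {P : k[X]} (hP : P ≠ 0) : (aeval y P).order ≤ P.natDegree • y.order := by
  have hne : P.support.Nonempty := Polynomial.support_nonempty.mpr hP
  have hdeg : P.natDegree ∈ P.support := Polynomial.natDegree_mem_support_of_nonzero hP
  have h := coeff_aeval_ne_zero_of_min hy P P.natDegree hdeg (by
    intro i hi hne'
    have hlt : i < P.natDegree :=
      lt_of_le_of_ne (Polynomial.le_natDegree_of_mem_supp i hi) hne'
    have h1 : (i : ℤ) < (P.natDegree : ℤ) := by exact_mod_cast hlt
    rw [nsmul_eq_mul, nsmul_eq_mul]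
    exact mul_lt_mul_of_neg_right h1 ho)
  exact HahnSeries.order_le_of_coeff_ne_zero h

/-- For `y` of negative order, `P(y)` has order `≤ 0`. -/
theorem order_aeval_le_zero_of_order_neg {y : LaurentSeries k} (hy : y ≠ 0) (ho : y.order < 0)
    {P : k[X]} (hP : P ≠ 0) : (aeval y P).order ≤ 0 := by
  refine le_trans (order_aeval_of_order_neg hy ho hP) ?_
  rw [nsmul_eq_mul]
  exact mul_nonpos_of_nonneg_of_nonpos (by positivity) ho.le

end Fermat.Agent.S28.H86

end
-- ===== PACK-END S28/H86/PoleTrans.lean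

-- ===== PACK-BEGIN A2/H348/KummerCoord.lean
section


/-!
# A2 / piece E (ALG_ss), part 1: coordinates of integral elements in a Kummer algebra

Mathlib-only.  `F'` a commutative `F`-algebra (NOT necessarily a field: the case
`F' = F[X]/(X^m - ε)` with `X^m - ε` reducible is the important one) with a *Kummer basis*:
`ζ ^ m = ε ∈ F` and `1, ζ, …, ζ^(m-1)` is an `F`-basis of `F'`.  For a subalgebra `O ⊆ F` which is
integrally closed in `F` and contains `ε`, `(m ε)⁻¹`:

* `KummerBasis.isIntegral_iff` : `c ∈ F'` is integral over `O` iff all its coordinates in the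
  basis `ζ^i` lie in `O`
  (`⟸` trivial, `⟹` by the discrete Fourier transform over the `m` evaluations
  `ζ ↦ ω^k r` in an algebraic closure, `KummerBasis.sum_evalAt`).
* `KummerBasis.scale` : `ζ / h` is again a Kummer basis (for `ε / h^m`).
* `KummerBasis.evalAt` : the `F`-algebra map `F' → Ω`, `ζ ↦ y` for `y ^ m = ε`.
-/

set_option autoImplicit false
set_option linter.unusedSectionVars false
set_option linter.style.haveILetI false

open Module Polynomial

namespace Fermat.Agent.A2.H348

variable {A F F' : Type*} [CommRing A] [Field F] [CommRing F'] [Nontrivial F'] [Algebra A F]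
  [Algebra F F'] [Algebra A F'] [IsScalarTower A F F']

/-- Kummer basis: `ζ ^ m = ε` and `(ζ ^ i)_{i < m}` is an `F`-basis of `F'`. -/
structure KummerBasis (m : ℕ) (ε : F) (ζ : F') where
  pow_eq : ζ ^ m = algebraMap F F' ε
  basis : Basis (Fin m) F F'
  basis_apply : ∀ i : Fin m, basis i = ζ ^ (i : ℕ)

namespace KummerBasis

variable {m : ℕ} {ε : F} {ζ : F'} (kb : KummerBasis m ε ζ)

include kb

theorem finiteDimensional : FiniteDimensional F F' :=
  Module.Finite.of_basis kb.basis

theorem finrank_eq : Module.finrank F F' = m := by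
  rw [Module.finrank_eq_card_basis kb.basis, Fintype.card_fin]

theorem m_pos : 0 < m := by
  by_contra h
  have hm : m = 0 := by omega
  subst hm
  have h1 : (1 : F') = 0 := by
    have := kb.basis.repr.injective
    apply this
    ext i
    exact i.elim0
  exact one_ne_zero h1

/-- every element is the sum of its coordinates times the powers of `ζ`. -/
theorem sum_repr (c : F') :
    c = ∑ i : Fin m, algebraMap F F' (kb.basis.repr c i) * ζ ^ (i : ℕ) := by
  conv_lhs => rw [← kb.basis.sum_repr c]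
  refine Finset.sum_congr rfl fun i _ => ?_
  rw [kb.basis_apply, Algebra.smul_def]

/-- coordinates of a combination of powers of `ζ`. -/
theorem repr_sum (f : Fin m → F) (i : Fin m) :
    kb.basis.repr (∑ j : Fin m, algebraMap F F' (f j) * ζ ^ (j : ℕ)) i = f i := by
  have : (∑ j : Fin m, algebraMap F F' (f j) * ζ ^ (j : ℕ)) = ∑ j : Fin m, f j • kb.basis j := by
    refine Finset.sum_congr rfl fun j _ => ?_
    rw [kb.basis_apply, Algebra.smul_def]
  rw [this, kb.basis.repr_sum_self]

/-- rescaling a Kummer basis by a nonzero element of `F`. -/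
noncomputable def scale (h : F) (hh : h ≠ 0) :
    KummerBasis m (ε * (h ^ m)⁻¹) (ζ * algebraMap F F' h⁻¹) where
  pow_eq := by
    rw [mul_pow, kb.pow_eq, map_mul, ← map_pow, inv_pow]
  basis := kb.basis.unitsSMul fun i => Units.mk0 ((h ^ (i : ℕ))⁻¹) (inv_ne_zero (pow_ne_zero _ hh))
  basis_apply := by
    intro i
    rw [Basis.unitsSMul_apply, kb.basis_apply, Units.smul_def, Units.val_mk0, Algebra.smul_def,
      mul_pow, ← map_pow, inv_pow, mul_comm]

/-- the associated power basis. -/
noncomputable def powerBasis : PowerBasis F F' where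
  gen := ζ
  dim := m
  basis := kb.basis
  basis_eq_pow := kb.basis_apply

theorem minpoly_eq : minpoly F ζ = X ^ m - C ε := by
  have h1 : (minpoly F ζ).natDegree = m := kb.powerBasis.natDegree_minpoly
  have h2 : minpoly F ζ ∣ X ^ m - C ε := minpoly.dvd F ζ (by simp [kb.pow_eq])
  have h3 : IsIntegral F ζ := kb.powerBasis.isIntegral_gen
  exact (eq_of_monic_of_dvd_of_natDegree_le (minpoly.monic h3)
    (monic_X_pow_sub_C _ kb.m_pos.ne') h2 (by rw [h1, natDegree_X_pow_sub_C])).symm

section Eval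

variable {Ω : Type*} [Field Ω] [Algebra F Ω]

/-- evaluation `ζ ↦ y` at a root `y` of `X ^ m - ε`. -/
noncomputable def evalAt (y : Ω) (hy : y ^ m = algebraMap F Ω ε) : F' →ₐ[F] Ω :=
  kb.powerBasis.lift y (by
    rw [show kb.powerBasis.gen = ζ from rfl, kb.minpoly_eq]
    simp [hy])

theorem evalAt_zeta (y : Ω) (hy : y ^ m = algebraMap F Ω ε) : kb.evalAt y hy ζ = y :=
  kb.powerBasis.lift_gen _ _

theorem evalAt_apply (y : Ω) (hy : y ^ m = algebraMap F Ω ε) (c : F') :
    kb.evalAt y hy c = ∑ i : Fin m, algebraMap F Ω (kb.basis.repr c i) * y ^ (i : ℕ) := by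
  conv_lhs => rw [kb.sum_repr c]
  rw [map_sum]
  refine Finset.sum_congr rfl fun i _ => ?_
  rw [map_mul, map_pow, kb.evalAt_zeta, AlgHom.commutes]

omit kb in
theorem sum_pow_primitiveRoot {ω : Ω} (hω : IsPrimitiveRoot ω m) (n : ℕ) :
    ∑ k ∈ Finset.range m, (ω ^ n) ^ k = if m ∣ n then (m : Ω) else 0 := by
  split_ifs with h
  · have : ω ^ n = 1 := (hω.pow_eq_one_iff_dvd n).2 h
    simp [this]
  · have h1 : ω ^ n ≠ 1 := fun h1 => h ((hω.pow_eq_one_iff_dvd n).1 h1)
    have h2 : (ω ^ n - 1) * ∑ k ∈ Finset.range m, (ω ^ n) ^ k = 0 := by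
      rw [mul_geom_sum, ← pow_mul, mul_comm, pow_mul, hω.pow_eq_one, one_pow, sub_self]
    rcases mul_eq_zero.1 h2 with h3 | h3
    · exact absurd (sub_eq_zero.1 h3) h1
    · exact h3

omit kb in
theorem mul_pow_eq {ω r : Ω} (hω : IsPrimitiveRoot ω m) (hr : r ^ m = algebraMap F Ω ε) (k : ℕ) :
    (ω ^ k * r) ^ m = algebraMap F Ω ε := by
  rw [mul_pow, ← pow_mul, mul_comm k m, pow_mul, hω.pow_eq_one, one_pow, one_mul, hr]

/-- **discrete Fourier transform**: recover the `i`-th coordinate from the `m` evaluations. -/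
theorem sum_evalAt {ω r : Ω} (hω : IsPrimitiveRoot ω m) (hr : r ^ m = algebraMap F Ω ε)
    (c : F') (i : Fin m) :
    ∑ k ∈ Finset.range m, (ω ^ (m - (i : ℕ))) ^ k * kb.evalAt (ω ^ k * r) (mul_pow_eq hω hr k) c =
      (m : Ω) * (algebraMap F Ω (kb.basis.repr c i) * r ^ (i : ℕ)) := by
  classical
  have h1 : ∀ k ∈ Finset.range m,
      (ω ^ (m - (i : ℕ))) ^ k * kb.evalAt (ω ^ k * r) (mul_pow_eq hω hr k) c =
      ∑ j : Fin m, (algebraMap F Ω (kb.basis.repr c j) * r ^ (j : ℕ)) *
        (ω ^ (m - (i : ℕ) + (j : ℕ))) ^ k := by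
    intro k _
    rw [kb.evalAt_apply, Finset.mul_sum]
    refine Finset.sum_congr rfl fun j _ => ?_
    rw [mul_pow, pow_add, mul_pow, ← pow_mul ω (j : ℕ) k, ← pow_mul ω k (j : ℕ),
      mul_comm (j : ℕ) k]
    ring
  rw [Finset.sum_congr rfl h1, Finset.sum_comm]
  have h2 : ∀ j ∈ (Finset.univ : Finset (Fin m)),
      ∑ k ∈ Finset.range m, (algebraMap F Ω (kb.basis.repr c j) * r ^ (j : ℕ)) *
        (ω ^ (m - (i : ℕ) + (j : ℕ))) ^ k =
      if j = i then (m : Ω) * (algebraMap F Ω (kb.basis.repr c i) * r ^ (i : ℕ)) else 0 := by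
    intro j _
    rw [← Finset.mul_sum, sum_pow_primitiveRoot hω]
    have hi := i.2
    have hj := j.2
    by_cases hji : j = i
    · subst hji
      rw [if_pos rfl, if_pos ⟨1, by omega⟩, mul_comm]
    · rw [if_neg hji, if_neg, mul_zero]
      rintro ⟨q, hq⟩
      have hne : (j : ℕ) ≠ (i : ℕ) := fun h => hji (Fin.ext h)
      rcases Nat.lt_or_ge (j : ℕ) (i : ℕ) with h | h
      · have h1 : 0 < m - (i : ℕ) + (j : ℕ) := by omega
        have h2 : m - (i : ℕ) + (j : ℕ) < m := by omega
        rcases Nat.eq_zero_or_pos q with rfl | hq0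
        · omega
        · have : m ≤ m * q := Nat.le_mul_of_pos_right m hq0
          omega
      · have h1 : m < m - (i : ℕ) + (j : ℕ) := by omega
        have h2 : m - (i : ℕ) + (j : ℕ) < 2 * m := by omega
        rcases Nat.lt_or_ge q 2 with hq2 | hq2
        · interval_cases q <;> omega
        · have : m * 2 ≤ m * q := Nat.mul_le_mul_left m hq2
          omega
  rw [Finset.sum_congr rfl h2, Finset.sum_ite_eq' Finset.univ i]
  simp

end Eval

end KummerBasis

section Integral

variable {m : ℕ} {ε : F} {ζ : F'} (kb : KummerBasis m ε ζ) (O : Subalgebra A F)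

include kb

/-- `ζ` is integral over `O` if `ε ∈ O`. -/
theorem KummerBasis.isIntegral_zeta (hε : ε ∈ O) : IsIntegral O ζ := by
  refine ⟨Polynomial.X ^ m - Polynomial.C (⟨ε, hε⟩ : O), ?_, ?_⟩
  · exact Polynomial.monic_X_pow_sub_C _ kb.m_pos.ne'
  · rw [Polynomial.eval₂_sub, Polynomial.eval₂_pow, Polynomial.eval₂_X, Polynomial.eval₂_C,
      kb.pow_eq]
    exact sub_self _

omit kb [Nontrivial F'] in
/-- elements of `O` are integral over `O` (as elements of `F'`). -/
theorem isIntegral_algebraMap_of_mem' (O : Subalgebra A F) {a : F} (ha : a ∈ O) :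
    IsIntegral O (algebraMap F F' a) := by
  have : algebraMap F F' a = algebraMap O F' ⟨a, ha⟩ := rfl
  rw [this]
  exact isIntegral_algebraMap

/-- **Key lemma, easy direction.** -/
theorem KummerBasis.isIntegral_of_repr_mem (hε : ε ∈ O) {c : F'}
    (hc : ∀ i, kb.basis.repr c i ∈ O) : IsIntegral O c := by
  rw [kb.sum_repr c]
  refine IsIntegral.sum _ fun i _ => ?_
  exact (isIntegral_algebraMap_of_mem' O (hc i)).mul ((kb.isIntegral_zeta O hε).pow _)

/-- the evaluations of an integral element are integral. -/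
theorem KummerBasis.isIntegral_evalAt {Ω : Type*} [Field Ω] [Algebra F Ω]
    (y : Ω) (hy : y ^ m = algebraMap F Ω ε) {c : F'} (hc : IsIntegral O c) :
    IsIntegral O (kb.evalAt y hy c) := by
  obtain ⟨P, hP, hPc⟩ := hc
  refine ⟨P, hP, ?_⟩
  have h := congrArg (kb.evalAt y hy : F' →+* Ω) hPc
  rw [map_zero, Polynomial.hom_eval₂] at h
  have h2 : ((kb.evalAt y hy : F' →+* Ω).comp (algebraMap O F')) = algebraMap O Ω := by
    ext a
    exact (kb.evalAt y hy).commutes (a : F)
  rw [h2] at h
  exact h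

/-- **Key lemma, main direction**: the coordinates of an element integral over `O` lie in `O`,
if `O` is integrally closed in `F` and `ε`, `(m ε)⁻¹ ∈ O`. -/
theorem KummerBasis.repr_mem_of_isIntegral (hO : ∀ f : F, IsIntegral O f → f ∈ O)
    (hε : ε ∈ O) (hmε : ((m : F) * ε)⁻¹ ∈ O) (hmε0 : (m : F) * ε ≠ 0) {c : F'}
    (hc : IsIntegral O c) (i : Fin m) : kb.basis.repr c i ∈ O := by
  classical
  have hm0 : (m : F) ≠ 0 := left_ne_zero_of_mul hmε0
  have hε0 : ε ≠ 0 := right_ne_zero_of_mul hmε0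
  haveI : NeZero (m : F) := ⟨hm0⟩
  set Ω := AlgebraicClosure F with hΩ
  obtain ⟨ω, hω⟩ := HasEnoughRootsOfUnity.exists_primitiveRoot Ω m
  obtain ⟨r, hr⟩ := IsAlgClosed.exists_pow_nat_eq (algebraMap F Ω ε) kb.m_pos
  have hmO : (m : F) ∈ O := by
    have : (m : F) = algebraMap A F (m : A) := by simp
    rw [this]; exact O.algebraMap_mem _
  have hminv : ((m : F))⁻¹ ∈ O := by
    have : ((m : F))⁻¹ = ε * ((m : F) * ε)⁻¹ := by
      rw [mul_inv, mul_left_comm, mul_inv_cancel₀ hε0, mul_one]
    rw [this]; exact O.mul_mem hε hmε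
  have hεinv : ε⁻¹ ∈ O := by
    have : ε⁻¹ = (m : F) * ((m : F) * ε)⁻¹ := by
      rw [mul_inv, ← mul_assoc, mul_inv_cancel₀ hm0, one_mul]
    rw [this]; exact O.mul_mem hmO hmε
  have hr0 : r ≠ 0 := by
    intro h
    rw [h, zero_pow kb.m_pos.ne'] at hr
    exact hε0 ((map_eq_zero (algebraMap F Ω)).1 hr.symm)
  have hωint : IsIntegral O ω := by
    refine IsIntegral.of_pow kb.m_pos ?_
    rw [hω.pow_eq_one]; exact isIntegral_one
  have hrinv : IsIntegral O r⁻¹ := by
    refine IsIntegral.of_pow kb.m_pos ?_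
    rw [inv_pow, hr, ← map_inv₀]
    exact isIntegral_algebraMap_of_mem' O hεinv
  have hsum := kb.sum_evalAt hω hr c i
  have hint : IsIntegral O ((m : Ω) * (algebraMap F Ω (kb.basis.repr c i) * r ^ (i : ℕ))) := by
    rw [← hsum]
    refine IsIntegral.sum _ fun k _ => ?_
    exact ((hωint.pow _).pow _).mul (kb.isIntegral_evalAt O _ _ hc)
  have hminvΩ : IsIntegral O (algebraMap F Ω ((m : F))⁻¹) := isIntegral_algebraMap_of_mem' O hminv
  have h3 : algebraMap F Ω (kb.basis.repr c i) =
      algebraMap F Ω ((m : F))⁻¹ *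
        ((m : Ω) * (algebraMap F Ω (kb.basis.repr c i) * r ^ (i : ℕ))) * r⁻¹ ^ (i : ℕ) := by
    have hmΩ : (m : Ω) ≠ 0 := by
      have : (m : Ω) = algebraMap F Ω (m : F) := by simp
      rw [this]; exact (_root_.map_ne_zero _).2 hm0
    have : algebraMap F Ω ((m : F))⁻¹ = ((m : Ω))⁻¹ := by rw [map_inv₀]; simp
    rw [this, inv_pow, ← mul_assoc, inv_mul_cancel₀ hmΩ, one_mul, mul_assoc,
      mul_inv_cancel₀ (pow_ne_zero _ hr0), mul_one]
  have h4 : IsIntegral O (algebraMap F Ω (kb.basis.repr c i)) := by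
    rw [h3]
    exact (hminvΩ.mul hint).mul (hrinv.pow _)
  exact hO _ ((isIntegral_algebraMap_iff (algebraMap F Ω).injective).1 h4)

/-- **Key lemma.** -/
theorem KummerBasis.isIntegral_iff (hO : ∀ f : F, IsIntegral O f → f ∈ O)
    (hε : ε ∈ O) (hmε : ((m : F) * ε)⁻¹ ∈ O) (hmε0 : (m : F) * ε ≠ 0) (c : F') :
    IsIntegral O c ↔ ∀ i, kb.basis.repr c i ∈ O :=
  ⟨fun hc i => kb.repr_mem_of_isIntegral O hO hε hmε hmε0 hc i,
    fun h => kb.isIntegral_of_repr_mem O hε h⟩

end Integral

end Fermat.Agent.A2.H348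

end
-- ===== PACK-END A2/H348/KummerCoord.lean

-- ===== PACK-BEGIN A2/H552/Hensel.lean
section







/-!
# A2 / ALG (c1), part 1 (helper552): Hensel's lemma for non-monic polynomials

Mathlib's `HenselianLocalRing` only provides lifting of simple roots of **monic** polynomials.
Here we derive, for an arbitrary Henselian local ring `R`:

* `exists_root_of_coeff` : a polynomial `1 + c₁ X + (terms with coefficients in 𝔪)`, `c₁` a unit,
  has a root in `R` (reverse the polynomial, apply Hensel to the monic reverse).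
* `exists_root_of_simple_root` : Hensel's lemma for arbitrary (not necessarily monic)
  polynomials: a simple root modulo `𝔪` lifts.
* `exists_root_of_approx` : the strong form ("Newton"): if `p(s) = w^(2c+1) u` and
  `p'(s) = w^c ε` with `ε` a unit and `w ∈ 𝔪`, then `p` has a root `a` with `w^(c+1) ∣ a - s`.
* `exists_pow_eq_of_isUnit`, `exists_pow_eq_of_isUnit_of_not_dvd` : if the residue field is
  algebraically closed and `m` is invertible in it, every unit of `R` is an `m`-th power.
-/

set_option autoImplicit false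

namespace Fermat.Agent.A2.H552

open Polynomial IsLocalRing

section Hensel

variable {R : Type*} [CommRing R] [HenselianLocalRing R]

/-- Hensel's lemma in residue-field form (item 2 of Mathlib's `HenselianLocalRing.TFAE`),
stated with `Polynomial.map`. -/
theorem exists_root_of_residue_simple_root (f : R[X]) (hf : f.Monic) (a₀ : ResidueField R)
    (h₀ : (f.map (residue R)).eval a₀ = 0)
    (h₁ : (derivative (f.map (residue R))).eval a₀ ≠ 0) :
    ∃ a : R, f.IsRoot a ∧ residue R a = a₀ := by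
  have H := ((HenselianLocalRing.TFAE R).out 0 1).mp ‹HenselianLocalRing R›
  refine H f hf a₀ ?_ ?_
  · rw [aeval_def, eval₂_eq_eval_map, ResidueField.algebraMap_eq]
    exact h₀
  · rw [aeval_def, eval₂_eq_eval_map, ResidueField.algebraMap_eq, ← derivative_map]
    exact h₁

/-- A polynomial `1 + c₁ X + ∑_{i ≥ 2} cᵢ Xⁱ` with `c₁` a unit and `cᵢ ∈ 𝔪` for `i ≥ 2` has a
root in a Henselian local ring. -/
theorem exists_root_of_coeff (g : R[X]) (h0 : g.coeff 0 = 1) (h1 : IsUnit (g.coeff 1))
    (h2 : ∀ i, 2 ≤ i → g.coeff i ∈ maximalIdeal R) : ∃ b : R, g.IsRoot b := by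
  set d := g.natDegree with hd
  have hd1 : 1 ≤ d := le_natDegree_of_ne_zero h1.ne_zero
  set G := reflect d g with hG
  have hGdeg : G.natDegree ≤ d := natDegree_reflect_le.trans (by simp [hd])
  have hGm : G.Monic := by
    refine monic_of_natDegree_le_of_coeff_eq_one d hGdeg ?_
    rw [hG, coeff_reflect, revAt_le le_rfl, Nat.sub_self, h0]
  set c := residue R (g.coeff 1) with hc
  have hc0 : c ≠ 0 := by
    intro h
    rw [hc, residue_eq_zero_iff] at h
    exact (IsLocalRing.notMem_maximalIdeal.mpr h1) h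
  have hgbar : g.map (residue R) = C 1 + C c * X := by
    ext i
    rcases i with _ | _ | i
    · simp [h0]
    · simp [hc, coeff_one]
    · have : residue R (g.coeff (i + 2)) = 0 :=
        (residue_eq_zero_iff _).mpr (h2 _ (by omega))
      simp [this, coeff_one]
  have hGbar : G.map (residue R) = X ^ d + C c * X ^ (d - 1) := by
    rw [hG, ← reflect_map, hgbar, reflect_add, reflect_C, map_one, one_mul]
    have : (C c * X : (ResidueField R)[X]) = C c * X ^ 1 := by rw [pow_one]
    rw [this, reflect_C_mul_X_pow, revAt_le hd1]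
  obtain ⟨e, he⟩ : ∃ e, d = e + 1 := ⟨d - 1, by omega⟩
  obtain ⟨z, hz, hzres⟩ := exists_root_of_residue_simple_root G hGm (-c)
    (by
      rw [hGbar, he]
      simp only [eval_add, eval_pow, eval_X, eval_mul, eval_C, Nat.add_sub_cancel]
      ring)
    (by
      rw [hGbar, he]
      simp only [derivative_add, derivative_X_pow, derivative_mul, derivative_C, zero_mul,
        zero_add, eval_add, eval_mul, eval_C, eval_pow, eval_X, Nat.add_sub_cancel]
      rcases e with _ | e
      · simp
      · simp only [Nat.add_sub_cancel, Nat.cast_add, Nat.cast_one]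
        have : ((e : ResidueField R) + 1 + 1) * (-c) ^ (e + 1) + c * (((e : ResidueField R) + 1)
            * (-c) ^ e) = (-c) ^ (e + 1) := by ring
        rw [this]
        exact pow_ne_zero _ (neg_ne_zero.mpr hc0))
  have hzu : IsUnit z := by
    rw [← IsLocalRing.notMem_maximalIdeal, ← residue_eq_zero_iff, hzres]
    exact neg_ne_zero.mpr hc0
  obtain ⟨u, rfl⟩ := hzu
  refine ⟨(↑u⁻¹ : R), ?_⟩
  let _ : Invertible (u : R) := Units.invertible u
  have key := eval₂_reflect_mul_pow (RingHom.id R) (u : R) d G hGdeg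
  rw [hG, reflect_reflect, ← hG, eval₂_id, eval₂_id, invOf_units] at key
  have hz' : G.eval (u : R) = 0 := hz
  rw [hz'] at key
  have hu : IsUnit ((u : R) ^ d) := (u.isUnit).pow d
  exact (hu.mul_left_eq_zero).mp key

/-- Rescaling a polynomial: if `t₀ = A a₀`, `t₁ W = A a₁` and `W² = A B`, then
`t(W X) = A (a₀ + a₁ X + B X² q(X))` with `q = (t / X²)(W X)`. -/
theorem comp_C_mul_X_eq {S : Type*} [CommRing S] (t : S[X]) (W A B a₀ a₁ : S)
    (h0 : t.coeff 0 = A * a₀) (h1 : t.coeff 1 * W = A * a₁) (h2 : W ^ 2 = A * B) :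
    t.comp (C W * X) =
      C A * (C a₀ + C a₁ * X + C B * X ^ 2 * (t.divX.divX.comp (C W * X))) := by
  have e0 : (C (t.coeff 0) : S[X]) = C A * C a₀ := by rw [h0, C_mul]
  have e1 : (C (t.coeff 1) : S[X]) * C W = C A * C a₁ := by rw [← C_mul, h1, C_mul]
  have e2 : (C W : S[X]) * C W = C A * C B := by rw [← C_mul, ← C_mul, ← pow_two, h2]
  have ht : t = (t.divX.divX * X + C (t.coeff 1)) * X + C (t.coeff 0) := by
    have h := divX_mul_X_add t.divX
    rw [coeff_divX, zero_add] at h
    rw [h, divX_mul_X_add]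
  conv_lhs => rw [ht]
  simp only [add_comp, mul_comp, X_comp, C_comp]
  linear_combination (t.divX.divX.comp (C W * X) * X ^ 2) * e2 + X * e1 + e0

/-- Coefficients of `a + b X + B X² q`. -/
theorem coeff_quadratic_form {S : Type*} [CommRing S] (a b B : S) (q : S[X]) :
    (C a + C b * X + C B * X ^ 2 * q).coeff 0 = a ∧
    (C a + C b * X + C B * X ^ 2 * q).coeff 1 = b ∧
    ∀ j, (C a + C b * X + C B * X ^ 2 * q).coeff (j + 2) = B * q.coeff j := by
  have h : ∀ n, (C B * X ^ 2 * q).coeff n = if 2 ≤ n then B * q.coeff (n - 2) else 0 := by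
    intro n
    rw [mul_assoc, coeff_C_mul, coeff_X_pow_mul']
    split_ifs <;> simp
  refine ⟨?_, ?_, fun j => ?_⟩
  · rw [coeff_add, coeff_add, h]; simp
  · rw [coeff_add, coeff_add, h]; simp
  · rw [coeff_add, coeff_add, h, coeff_C_mul, coeff_X, coeff_C]
    simp

/-- **Hensel's lemma for arbitrary polynomials**: in a Henselian local ring a simple root
modulo the maximal ideal of a (not necessarily monic) polynomial lifts to a root. -/
theorem exists_root_of_simple_root (h : R[X]) (a₀ : R) (h₀ : h.eval a₀ ∈ maximalIdeal R)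
    (h₁ : IsUnit ((derivative h).eval a₀)) :
    ∃ a : R, h.IsRoot a ∧ a - a₀ ∈ maximalIdeal R := by
  set t := taylor a₀ h with ht
  set c₀ := h.eval a₀ with hc₀
  set c₁ := (derivative h).eval a₀ with hc₁
  have key := comp_C_mul_X_eq t c₀ c₀ c₀ 1 c₁
    (by rw [ht, taylor_coeff_zero, mul_one]) (by rw [ht, taylor_coeff_one, mul_comm])
    (by rw [pow_two])
  set g : R[X] := C 1 + C c₁ * X + C c₀ * X ^ 2 * (t.divX.divX.comp (C c₀ * X)) with hg
  obtain ⟨hg0, hg1, hg2⟩ := coeff_quadratic_form 1 c₁ c₀ (t.divX.divX.comp (C c₀ * X))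
  rw [← hg] at hg0 hg1 hg2
  obtain ⟨b, hb⟩ := exists_root_of_coeff g hg0 (by rw [hg1]; exact h₁)
    (by
      intro i hi
      obtain ⟨j, rfl⟩ : ∃ j, i = j + 2 := ⟨i - 2, by omega⟩
      rw [hg2]
      exact Ideal.mul_mem_right _ _ h₀)
  have hb' : eval b g = 0 := hb
  refine ⟨c₀ * b + a₀, ?_, ?_⟩
  · have h3 := congrArg (eval b) key
    simp only [eval_comp, eval_mul, eval_C, eval_X] at h3
    rw [hb', mul_zero, ht, taylor_eval] at h3
    exact h3
  · rw [add_sub_cancel_right]
    exact Ideal.mul_mem_right _ _ h₀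

/-- **Strong form of Hensel's lemma** (Newton): if `p(s) = w^(2c+1) u` and `p'(s) = w^c ε`
with `ε` a unit and `w` in the maximal ideal, then `p` has a root `a` with
`w^(c+1) ∣ a - s`. -/
theorem exists_root_of_approx (p : R[X]) (s w u ε : R) (c : ℕ) (hw : w ∈ maximalIdeal R)
    (hε : IsUnit ε) (h₀ : p.eval s = w ^ (2 * c + 1) * u)
    (h₁ : (derivative p).eval s = w ^ c * ε) :
    ∃ a : R, p.IsRoot a ∧ w ^ (c + 1) ∣ a - s := by
  set t := taylor s p with ht
  have key := comp_C_mul_X_eq t (w ^ (c + 1)) (w ^ (2 * c + 1)) w u ε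
    (by rw [ht, taylor_coeff_zero, h₀]) (by rw [ht, taylor_coeff_one, h₁]; ring) (by ring)
  set q := t.divX.divX.comp (C (w ^ (c + 1)) * X) with hq
  set g : R[X] := C u + C ε * X + C w * X ^ 2 * q with hg
  obtain ⟨ε', hε'⟩ := hε.exists_right_inv
  obtain ⟨b, hb, -⟩ := exists_root_of_simple_root g (-u * ε')
    (by
      have : g.eval (-u * ε') = w * ((-u * ε') ^ 2 * q.eval (-u * ε')) := by
        simp only [hg, eval_add, eval_mul, eval_C, eval_X, eval_pow]
        linear_combination (-u) * hε'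
      rw [this]
      exact Ideal.mul_mem_right _ _ hw)
    (by
      have : (derivative g).eval (-u * ε') =
          ε + w * (derivative (X ^ 2 * q)).eval (-u * ε') := by
        rw [hg, mul_assoc]
        simp only [derivative_add, derivative_C, derivative_C_mul, derivative_X, zero_add,
          eval_add, eval_mul, eval_C, mul_one]
      rw [this, ← IsLocalRing.notMem_maximalIdeal]
      intro hmem
      have h4 : w * (derivative (X ^ 2 * q)).eval (-u * ε') ∈ maximalIdeal R :=
        Ideal.mul_mem_right _ _ hw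
      exact (IsLocalRing.notMem_maximalIdeal.mpr hε)
        ((Ideal.add_mem_iff_left _ h4).mp hmem))
  have hb' : eval b g = 0 := hb
  refine ⟨w ^ (c + 1) * b + s, ?_, ?_⟩
  · have h3 := congrArg (eval b) key
    simp only [eval_comp, eval_mul, eval_C, eval_X] at h3
    rw [hb', mul_zero, ht, taylor_eval] at h3
    exact h3
  · rw [add_sub_cancel_right]
    exact Dvd.intro _ rfl

/-- In a Henselian local ring with algebraically closed residue field, every unit is an `m`-th
power, for `m` invertible in the residue field. -/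
theorem exists_pow_eq_of_isUnit [IsAlgClosed (ResidueField R)] (m : ℕ)
    (hm : (m : ResidueField R) ≠ 0) (u : R) (hu : IsUnit u) : ∃ v : R, v ^ m = u := by
  have hm0 : m ≠ 0 := by
    rintro rfl
    exact hm (by simp)
  have hu0 : residue R u ≠ 0 := by
    intro h
    rw [residue_eq_zero_iff] at h
    exact (IsLocalRing.notMem_maximalIdeal.mpr hu) h
  obtain ⟨a, ha⟩ := IsAlgClosed.exists_pow_nat_eq (residue R u) (Nat.pos_of_ne_zero hm0)
  have ha0 : a ≠ 0 := by
    rintro rfl
    rw [zero_pow hm0] at ha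
    exact hu0 ha.symm
  obtain ⟨v, hv, -⟩ := exists_root_of_residue_simple_root (X ^ m - C u)
    (monic_X_pow_sub_C u hm0) a
    (by simp [ha])
    (by
      simp only [Polynomial.map_sub, Polynomial.map_pow, map_X, map_C, derivative_sub,
        derivative_X_pow, derivative_C, sub_zero, eval_mul, eval_C, eval_pow, eval_X]
      exact mul_ne_zero hm (pow_ne_zero _ ha0))
  refine ⟨v, ?_⟩
  have : (X ^ m - C u : R[X]).eval v = 0 := hv
  simpa [sub_eq_zero] using this

/-- The same, with the hypotheses of `Fermat.Agent.A2.algSS`: the residue characteristic is the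
prime `q` and `q ∤ m`. -/
theorem exists_pow_eq_of_isUnit_of_not_dvd [IsAlgClosed (ResidueField R)] (q m : ℕ)
    (hq : q.Prime) (hqR : (q : R) ∈ maximalIdeal R) (hqm : ¬ q ∣ m) (u : R) (hu : IsUnit u) :
    ∃ v : R, v ^ m = u := by
  refine exists_pow_eq_of_isUnit m (fun hm0 => hqm ?_) u hu
  have h1 : ((q : ℕ) : ResidueField R) = 0 := by
    rw [← map_natCast (residue R)]
    exact (residue_eq_zero_iff _).mpr hqR
  have hdq : ringChar (ResidueField R) ∣ q := ringChar.dvd h1
  have hdm : ringChar (ResidueField R) ∣ m := ringChar.dvd hm0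
  rcases (Nat.dvd_prime hq).mp hdq with h | h
  · exact absurd h CharP.ringChar_ne_one
  · rwa [h] at hdm

end Hensel

end Fermat.Agent.A2.H552

end
-- ===== PACK-END A2/H552/Hensel.lean

-- ===== PACK-BEGIN A2/H609/RootIdeal.lean
section





/-!
# Node purity, part 1: the root ideals `I_j = {f : u ^ j ∣ f ^ m}`

`R` is an integrally closed domain, `u : R`, `m ≥ 1`.  The set `{f | u ^ j ∣ f ^ m}` is an ideal
(integral closedness), `I_0 = ⊤`, `I_m = (u)`, `I_{j+1} ≤ I_j`, `I_j * I_k ≤ I_{j+k}`.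
Mathlib only.
-/

set_option autoImplicit false

namespace Fermat.Agent.A2.H609

variable {R : Type*} [CommRing R] [IsDomain R] [IsIntegrallyClosed R]

/-- In an integrally closed domain, `a ^ m ∣ b ^ m → a ∣ b`. -/
theorem dvd_of_pow_dvd_pow {m : ℕ} (hm : m ≠ 0) {a b : R} (h : a ^ m ∣ b ^ m) : a ∣ b :=
  (IsIntegrallyClosed.pow_dvd_pow_iff hm).1 h

/-- Key closure property: if `c ∣ f ^ m` and `c ∣ g ^ m` then `c ∣ f ^ i * g ^ (m - i)`. -/
theorem dvd_pow_mul_pow {m : ℕ} (hm : m ≠ 0) {c f g : R} (hf : c ∣ f ^ m) (hg : c ∣ g ^ m)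
    {i : ℕ} (hi : i ≤ m) : c ∣ f ^ i * g ^ (m - i) := by
  apply dvd_of_pow_dvd_pow hm
  have h1 : (f ^ i * g ^ (m - i)) ^ m = (f ^ m) ^ i * (g ^ m) ^ (m - i) := by ring
  have h2 : c ^ m = c ^ i * c ^ (m - i) := by
    rw [← pow_add, Nat.add_sub_cancel' hi]
  rw [h1, h2]
  exact mul_dvd_mul (pow_dvd_pow_of_dvd hf i) (pow_dvd_pow_of_dvd hg (m - i))

/-- The root ideal `I_j = {f | u ^ j ∣ f ^ m}`. -/
def rootIdeal (u : R) (m : ℕ) (hm : m ≠ 0) (j : ℕ) : Ideal R where
  carrier := {f | u ^ j ∣ f ^ m}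
  add_mem' := by
    intro f g hf hg
    change u ^ j ∣ f ^ m at hf
    change u ^ j ∣ g ^ m at hg
    change u ^ j ∣ (f + g) ^ m
    rw [add_pow]
    refine Finset.dvd_sum fun i hi => ?_
    have hi' : i ≤ m := Nat.lt_succ_iff.mp (Finset.mem_range.mp hi)
    exact Dvd.dvd.mul_right (dvd_pow_mul_pow hm hf hg hi') _
  zero_mem' := by
    change u ^ j ∣ (0 : R) ^ m
    rw [zero_pow hm]
    exact dvd_zero _
  smul_mem' := by
    intro c f hf
    change u ^ j ∣ f ^ m at hf
    change u ^ j ∣ (c * f) ^ m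
    rw [mul_pow]
    exact Dvd.dvd.mul_left hf _

theorem mem_rootIdeal {u : R} {m : ℕ} {hm : m ≠ 0} {j : ℕ} {f : R} :
    f ∈ rootIdeal u m hm j ↔ u ^ j ∣ f ^ m := Iff.rfl

theorem rootIdeal_zero (u : R) (m : ℕ) (hm : m ≠ 0) : rootIdeal u m hm 0 = ⊤ := by
  rw [Ideal.eq_top_iff_one, mem_rootIdeal, pow_zero]
  exact one_dvd _

theorem rootIdeal_self (u : R) (m : ℕ) (hm : m ≠ 0) :
    rootIdeal u m hm m = Ideal.span {u} := by
  ext f
  rw [mem_rootIdeal, Ideal.mem_span_singleton]
  exact IsIntegrallyClosed.pow_dvd_pow_iff hm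

theorem rootIdeal_antitone (u : R) (m : ℕ) (hm : m ≠ 0) {j k : ℕ} (h : j ≤ k) :
    rootIdeal u m hm k ≤ rootIdeal u m hm j := by
  intro f hf
  rw [mem_rootIdeal] at hf ⊢
  exact (pow_dvd_pow u h).trans hf

theorem mul_mem_rootIdeal {u : R} {m : ℕ} {hm : m ≠ 0} {j k : ℕ} {f g : R}
    (hf : f ∈ rootIdeal u m hm j) (hg : g ∈ rootIdeal u m hm k) :
    f * g ∈ rootIdeal u m hm (j + k) := by
  rw [mem_rootIdeal] at hf hg ⊢
  rw [mul_pow, pow_add]
  exact mul_dvd_mul hf hg

theorem pow_mem_rootIdeal {u : R} {m : ℕ} {hm : m ≠ 0} {f : R}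
    (hf : f ∈ rootIdeal u m hm 1) (j : ℕ) : f ^ j ∈ rootIdeal u m hm j := by
  rw [mem_rootIdeal] at hf ⊢
  rw [pow_one] at hf
  rw [← pow_mul, mul_comm, pow_mul]
  exact pow_dvd_pow_of_dvd hf j

theorem self_mem_rootIdeal_one (u : R) (m : ℕ) (hm : m ≠ 0) : u ∈ rootIdeal u m hm 1 := by
  rw [mem_rootIdeal, pow_one]
  exact dvd_pow_self u hm

theorem self_mul_mem_rootIdeal_succ {u : R} {m : ℕ} {hm : m ≠ 0} {j : ℕ} {f : R}
    (hf : f ∈ rootIdeal u m hm j) : u * f ∈ rootIdeal u m hm (j + 1) := by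
  have := mul_mem_rootIdeal (self_mem_rootIdeal_one u m hm) hf
  rwa [add_comm] at this

/-- `π`-saturation: if `u` is regular modulo `π` (i.e. `π ∣ u * r → π ∣ r`), then
`π * f ∈ I_j → f ∈ I_j`. -/
theorem mem_rootIdeal_of_mul_mem {u π : R} {m : ℕ} {hm : m ≠ 0} {j : ℕ}
    (hπ0 : π ≠ 0) (hreg : ∀ r : R, π ∣ u * r → π ∣ r) {f : R}
    (hf : π * f ∈ rootIdeal u m hm j) : f ∈ rootIdeal u m hm j := by
  rw [mem_rootIdeal] at hf ⊢
  -- `π ^ k ∣ u ^ j * r → π ^ k ∣ r`
  have hreg_pow : ∀ i : ℕ, ∀ r : R, π ∣ u ^ i * r → π ∣ r := by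
    intro i
    induction i with
    | zero => intro r h; simpa using h
    | succ i ih =>
      intro r h
      apply ih
      apply hreg
      rwa [← mul_assoc, ← pow_succ']
  have hkey : ∀ k : ℕ, ∀ r x : R, π ^ k * x = u ^ j * r → ∃ r', x = u ^ j * r' := by
    intro k
    induction k with
    | zero => intro r x h; exact ⟨r, by simpa using h⟩
    | succ k ih =>
      intro r x h
      have h1 : π ∣ u ^ j * r := ⟨π ^ k * x, by rw [← h]; ring⟩
      obtain ⟨r1, hr1⟩ := hreg_pow j r h1
      apply ih r1 x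
      have h2 : π * (π ^ k * x) = π * (u ^ j * r1) := by
        rw [← mul_assoc, ← pow_succ', h, hr1]; ring
      exact mul_left_cancel₀ hπ0 h2
  obtain ⟨r, hr⟩ := hf
  rw [mul_pow] at hr
  obtain ⟨r', hr'⟩ := hkey m r (f ^ m) hr
  exact ⟨r', hr'⟩

end Fermat.Agent.A2.H609

end
-- ===== PACK-END A2/H609/RootIdeal.lean

-- ===== PACK-BEGIN A2/H609/RelLen.lean
section


/-!
# Node purity, part 2: relative lengths `ℓ(N / N')` of submodules

`relLen N' N = Module.length R (N ⧸ N')` for submodules `N' N` of `M` (meaningful for `N' ≤ N`),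
with the chain rule and a transport lemma along a linear map.  Mathlib only.
-/

set_option autoImplicit false

namespace Fermat.Agent.A2.H609

open Submodule

variable {R : Type*} [CommRing R] {M M' : Type*} [AddCommGroup M] [Module R M]
  [AddCommGroup M'] [Module R M']

/-- The relative length `ℓ(N / N')`. -/
noncomputable def relLen (N' N : Submodule R M) : ℕ∞ :=
  Module.length R (↥N ⧸ N'.submoduleOf N)

/-- The map `N / N' → P / P'` induced by a linear map `φ` with `φ N ⊆ P`, `φ N' ⊆ P'`. -/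
noncomputable def relMap (φ : M →ₗ[R] M') {N' N : Submodule R M} {P' P : Submodule R M'}
    (hNP : ∀ x ∈ N, φ x ∈ P) (hNP' : ∀ x ∈ N', φ x ∈ P') :
    (↥N ⧸ N'.submoduleOf N) →ₗ[R] (↥P ⧸ P'.submoduleOf P) :=
  Submodule.mapQ (N'.submoduleOf N) (P'.submoduleOf P) (φ.restrict hNP) (by
    intro x hx
    rw [Submodule.mem_comap]
    exact hNP' _ hx)

theorem relMap_mk (φ : M →ₗ[R] M') {N' N : Submodule R M} {P' P : Submodule R M'}
    (hNP : ∀ x ∈ N, φ x ∈ P) (hNP' : ∀ x ∈ N', φ x ∈ P') (x : N) :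
    relMap φ hNP hNP' (Submodule.Quotient.mk x) =
      Submodule.Quotient.mk (⟨φ x, hNP x x.2⟩ : P) := rfl

theorem relMap_injective (φ : M →ₗ[R] M') {N' N : Submodule R M} {P' P : Submodule R M'}
    (hNP : ∀ x ∈ N, φ x ∈ P) (hNP' : ∀ x ∈ N', φ x ∈ P')
    (hinj : ∀ x ∈ N, φ x ∈ P' → x ∈ N') : Function.Injective (relMap φ hNP hNP') := by
  rw [← LinearMap.ker_eq_bot, eq_bot_iff]
  intro y hy
  obtain ⟨x, rfl⟩ := Submodule.Quotient.mk_surjective _ y
  rw [LinearMap.mem_ker, relMap_mk, Submodule.Quotient.mk_eq_zero] at hy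
  rw [Submodule.mem_bot, Submodule.Quotient.mk_eq_zero]
  exact hinj x x.2 hy

theorem relMap_surjective (φ : M →ₗ[R] M') {N' N : Submodule R M} {P' P : Submodule R M'}
    (hNP : ∀ x ∈ N, φ x ∈ P) (hNP' : ∀ x ∈ N', φ x ∈ P')
    (hsurj : ∀ y ∈ P, ∃ x ∈ N, y - φ x ∈ P') : Function.Surjective (relMap φ hNP hNP') := by
  intro z
  obtain ⟨y, rfl⟩ := Submodule.Quotient.mk_surjective _ z
  obtain ⟨x, hx, hxy⟩ := hsurj y y.2
  refine ⟨Submodule.Quotient.mk ⟨x, hx⟩, ?_⟩
  rw [relMap_mk, eq_comm, Submodule.Quotient.eq]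
  exact hxy

/-- Transport of relative length along a linear map inducing a bijection `N / N' → P / P'`. -/
theorem relLen_eq_of_map (φ : M →ₗ[R] M') {N' N : Submodule R M} {P' P : Submodule R M'}
    (hNP : ∀ x ∈ N, φ x ∈ P) (hNP' : ∀ x ∈ N', φ x ∈ P')
    (hinj : ∀ x ∈ N, φ x ∈ P' → x ∈ N')
    (hsurj : ∀ y ∈ P, ∃ x ∈ N, y - φ x ∈ P') : relLen N' N = relLen P' P :=
  (LinearEquiv.ofBijective (relMap φ hNP hNP')
    ⟨relMap_injective φ hNP hNP' hinj, relMap_surjective φ hNP hNP' hsurj⟩).length_eq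

/-- Chain rule for relative lengths. -/
theorem relLen_add {A B C : Submodule R M} (hAB : A ≤ B) (hBC : B ≤ C) :
    relLen A C = relLen A B + relLen B C := by
  have h1 : ∀ x ∈ B, (LinearMap.id : M →ₗ[R] M) x ∈ C := fun x hx => hBC hx
  have h2 : ∀ x ∈ A, (LinearMap.id : M →ₗ[R] M) x ∈ A := fun x hx => hx
  have h3 : ∀ x ∈ C, (LinearMap.id : M →ₗ[R] M) x ∈ C := fun x hx => hx
  have h4 : ∀ x ∈ A, (LinearMap.id : M →ₗ[R] M) x ∈ B := fun x hx => hAB hx
  let f := relMap (LinearMap.id : M →ₗ[R] M) (N' := A) (N := B) (P' := A) (P := C) h1 h2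
  let g := relMap (LinearMap.id : M →ₗ[R] M) (N' := A) (N := C) (P' := B) (P := C) h3 h4
  have hf : Function.Injective f := relMap_injective _ h1 h2 (fun x _ hx => hx)
  have hg : Function.Surjective g :=
    relMap_surjective _ h3 h4 (fun y hy => ⟨y, hy, by simp⟩)
  have hfg : Function.Exact f g := by
    intro z
    constructor
    · intro hz
      obtain ⟨y, rfl⟩ := Submodule.Quotient.mk_surjective _ z
      have hy : (y : M) ∈ B := by
        have := hz
        simp only [g] at this
        rw [relMap_mk, Submodule.Quotient.mk_eq_zero] at this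
        exact this
      refine ⟨Submodule.Quotient.mk ⟨y, hy⟩, ?_⟩
      simp only [f]
      rw [relMap_mk]
      rfl
    · rintro ⟨w, rfl⟩
      obtain ⟨x, rfl⟩ := Submodule.Quotient.mk_surjective _ w
      simp only [f, g]
      rw [relMap_mk, relMap_mk, Submodule.Quotient.mk_eq_zero]
      exact x.2
  exact Module.length_eq_add_of_exact f g hf hg hfg

/-- A surjection `N / N' → P / P'` induced by a linear map bounds the relative length. -/
theorem relLen_le_of_map (φ : M →ₗ[R] M') {N' N : Submodule R M} {P' P : Submodule R M'}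
    (hNP : ∀ x ∈ N, φ x ∈ P) (hNP' : ∀ x ∈ N', φ x ∈ P')
    (hsurj : ∀ y ∈ P, ∃ x ∈ N, y - φ x ∈ P') : relLen P' P ≤ relLen N' N :=
  Module.length_le_of_surjective (relMap φ hNP hNP') (relMap_surjective φ hNP hNP' hsurj)

theorem relLen_self (A : Submodule R M) : relLen A A = 0 := by
  rw [relLen, Module.length_eq_zero_iff]
  refine ⟨fun x y => ?_⟩
  obtain ⟨a, rfl⟩ := Submodule.Quotient.mk_surjective _ x
  obtain ⟨b, rfl⟩ := Submodule.Quotient.mk_surjective _ y
  rw [Submodule.Quotient.eq]
  exact A.sub_mem a.2 b.2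

theorem relLen_mono_right {A B C : Submodule R M} (hAB : A ≤ B) (hBC : B ≤ C) :
    relLen A B ≤ relLen A C := by
  rw [relLen_add hAB hBC]
  exact le_self_add

theorem relLen_mono_left {A B C : Submodule R M} (hAB : A ≤ B) (hBC : B ≤ C) :
    relLen B C ≤ relLen A C := by
  rw [relLen_add hAB hBC]
  exact le_add_self

/-- `ℓ(M / N)` as a relative length. -/
theorem relLen_top (N : Submodule R M) : relLen N ⊤ = Module.length R (M ⧸ N) := by
  have h1 : ∀ x ∈ (⊤ : Submodule R M), (LinearMap.id : M →ₗ[R] M) x ∈ (⊤ : Submodule R M) :=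
    fun _ _ => trivial
  -- build the equivalence `⊤ / N ≃ M / N`
  let φ : (↥(⊤ : Submodule R M) ⧸ N.submoduleOf ⊤) →ₗ[R] (M ⧸ N) :=
    Submodule.mapQ (N.submoduleOf ⊤) N (⊤ : Submodule R M).subtype (by
      intro x hx
      exact hx)
  have hφ : Function.Bijective φ := by
    constructor
    · rw [← LinearMap.ker_eq_bot, eq_bot_iff]
      intro y hy
      obtain ⟨x, rfl⟩ := Submodule.Quotient.mk_surjective _ y
      rw [LinearMap.mem_ker] at hy
      have : (Submodule.Quotient.mk (x : M) : M ⧸ N) = 0 := hy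
      rw [Submodule.Quotient.mk_eq_zero] at this
      rw [Submodule.mem_bot, Submodule.Quotient.mk_eq_zero]
      exact this
    · intro z
      obtain ⟨y, rfl⟩ := Submodule.Quotient.mk_surjective _ z
      exact ⟨Submodule.Quotient.mk ⟨y, trivial⟩, rfl⟩
  exact (LinearEquiv.ofBijective φ hφ).length_eq

end Fermat.Agent.A2.H609

end
-- ===== PACK-END A2/H609/RelLen.lean

-- ===== PACK-BEGIN A2/H849/Hartogs.lean
section










/-!
# Algebraic Hartogs lemma for noetherian integrally closed domains (helper849, cell A2)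

Mathlib-only.  `R` a noetherian integrally closed domain with fraction field `K`.

* `locAt K P` : the localisation `R_P` as a subalgebra of `K`.
* `isDiscreteValuationRing_locAt_of_colon` : if the prime `P` is a colon ideal `(a) : c`
  (`a ≠ 0`), then `R_P` is a discrete valuation ring.
* `hartogs_locAt` : an element of `K` lying in `R_P` for every prime `P` with `R_P` a DVR lies
  in `R`.
* `exists_valuationSubring_not_mem` : if `u ∉ R` there is a discrete valuation subring `O ⊇ R`
  of `K`, equal to the localisation of `R` at its centre, with `u ∉ O`.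
* `isUnit_of_forall_valuationSubring` : an element with trivial Weil divisor is a unit.
-/

set_option autoImplicit false

namespace Fermat.Agent.A2.H849

open IsLocalRing

variable {R : Type*} [CommRing R] [IsDomain R]
variable (K : Type*) [Field K] [Algebra R K] [IsFractionRing R K]

/-- The localisation `R_P` as a subalgebra of the fraction field `K`. -/
noncomputable def locAt (P : Ideal R) [P.IsPrime] : Subalgebra R K :=
  Localization.subalgebra.ofField K P.primeCompl P.primeCompl_le_nonZeroDivisors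

variable {K}

theorem mem_locAt_iff (P : Ideal R) [P.IsPrime] (x : K) :
    x ∈ locAt K P ↔ ∃ a s : R, s ∉ P ∧ x = algebraMap R K a * (algebraMap R K s)⁻¹ := by
  constructor
  · rintro ⟨a, s, hs, rfl⟩
    exact ⟨a, s, hs, rfl⟩
  · rintro ⟨a, s, hs, rfl⟩
    exact ⟨a, s, hs, rfl⟩

instance locAt_isLocalization (P : Ideal R) [P.IsPrime] :
    IsLocalization.AtPrime (locAt K P) P :=
  Localization.subalgebra.isLocalization_ofField K P.primeCompl P.primeCompl_le_nonZeroDivisors

instance locAt_isLocalRing (P : Ideal R) [P.IsPrime] : IsLocalRing (locAt K P) :=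
  IsLocalization.AtPrime.isLocalRing (locAt K P) P

instance locAt_isNoetherianRing [IsNoetherianRing R] (P : Ideal R) [P.IsPrime] :
    IsNoetherianRing (locAt K P) :=
  IsLocalization.isNoetherianRing P.primeCompl (locAt K P) inferInstance


/-- **Key lemma.** In a noetherian integrally closed domain, a prime which is a colon ideal
`(a) : c` with `a ≠ 0` has a discrete valuation ring as localisation. -/
theorem isDiscreteValuationRing_locAt_of_colon [IsNoetherianRing R] [IsIntegrallyClosed R]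
    (P : Ideal R) [hPp : P.IsPrime] (a c : R) (ha : a ≠ 0)
    (hP : ∀ r, r ∈ P ↔ a ∣ r * c) : IsDiscreteValuationRing (locAt K P) := by
  have haP : a ∈ P := (hP a).2 ⟨c, rfl⟩
  have hc : ¬ a ∣ c := fun h => by
    have h1 : (1 : R) ∈ P := (hP 1).2 (by simpa using h)
    exact (Ideal.ne_top_iff_one P).1 hPp.ne_top h1
  have hc0 : c ≠ 0 := fun h => hc (h ▸ dvd_zero a)
  have hinj : Function.Injective (algebraMap R K) := IsFractionRing.injective R K
  have haK : algebraMap R K a ≠ 0 := fun h => ha (hinj (by rw [h, map_zero]))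
  have hcK : algebraMap R K c ≠ 0 := fun h => hc0 (hinj (by rw [h, map_zero]))
  set v : K := algebraMap R K c / algebraMap R K a with hv
  have hv0 : v ≠ 0 := div_ne_zero hcK haK
  have hk : ∀ r ∈ P, ∃ k : R, algebraMap R K k = algebraMap R K r * v := by
    intro r hr
    obtain ⟨k, hk⟩ := (hP r).1 hr
    refine ⟨k, ?_⟩
    rw [hv, mul_div_assoc', eq_div_iff haK, ← map_mul, ← map_mul, hk, mul_comm]
  by_cases hcase : ∀ r ∈ P, ∀ k : R, algebraMap R K k = algebraMap R K r * v → k ∈ P
  · exfalso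
    let N : Submodule R K := Submodule.map (Algebra.linearMap R K) P
    have hint : IsIntegral R v := by
      refine isIntegral_of_smul_mem_submodule N ?_ ?_ v ?_
      · rw [Submodule.ne_bot_iff]
        exact ⟨_, ⟨a, haP, rfl⟩, haK⟩
      · exact Submodule.FG.map _ (IsNoetherian.noetherian _)
      · rintro n ⟨r, hr, rfl⟩
        obtain ⟨k, hk'⟩ := hk r hr
        refine ⟨k, hcase r hr k hk', ?_⟩
        rw [Algebra.linearMap_apply, hk', Algebra.linearMap_apply, smul_eq_mul, mul_comm]
    obtain ⟨y, hy⟩ := IsIntegrallyClosed.algebraMap_eq_of_integral hint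
    apply hc
    refine ⟨y, hinj ?_⟩
    rw [map_mul, hy, hv, mul_div_cancel₀ _ haK]
  · push Not at hcase
    obtain ⟨t, htP, k, hkt, hkP⟩ := hcase
    have hk0 : k ≠ 0 := fun h => hkP (h ▸ P.zero_mem)
    have hkK : algebraMap R K k ≠ 0 := fun h => hk0 (hinj (by rw [h, map_zero]))
    have htK : algebraMap R K t ≠ 0 := by
      intro h
      rw [h, zero_mul] at hkt
      exact hkK hkt
    have hmax : maximalIdeal (locAt K P) =
        Ideal.span {algebraMap R (locAt K P) t} := by
      rw [← IsLocalization.AtPrime.map_eq_maximalIdeal P (locAt K P)]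
      apply le_antisymm
      · rw [Ideal.map_le_iff_le_comap]
        intro r hr
        rw [Ideal.mem_comap, Ideal.mem_span_singleton']
        obtain ⟨kr, hkr⟩ := hk r hr
        refine ⟨⟨algebraMap R K kr * (algebraMap R K k)⁻¹,
          (mem_locAt_iff P _).2 ⟨kr, k, hkP, rfl⟩⟩, ?_⟩
        apply Subtype.ext
        show algebraMap R K kr * (algebraMap R K k)⁻¹ * algebraMap R K t = algebraMap R K r
        rw [hkr, hkt]
        field_simp
      · rw [Ideal.span_le, Set.singleton_subset_iff]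
        exact Ideal.mem_map_of_mem _ htP
    have hprinc : (maximalIdeal (locAt K P)).IsPrincipal := ⟨⟨_, hmax⟩⟩
    have hpir : IsPrincipalIdealRing (locAt K P) :=
      ((tfae_of_isNoetherianRing_of_isLocalRing_of_isDomain
        (R := locAt K P)).out 4 0).mp hprinc
    refine { toIsPrincipalIdealRing := hpir, toIsLocalRing := inferInstance, not_a_field' := ?_ }
    intro hbot
    have h1 : algebraMap R (locAt K P) t ∈ maximalIdeal (locAt K P) := by
      rw [hmax]
      exact Ideal.mem_span_singleton_self _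
    rw [hbot, Ideal.mem_bot] at h1
    have h2 := congrArg (fun z : locAt K P => (z : K)) h1
    exact htK h2


omit [IsDomain R] in
theorem smul_mk_span_eq_zero_iff (a r c : R) :
    r • (Ideal.Quotient.mk (Ideal.span {a}) c) = 0 ↔ a ∣ r * c := by
  have h1 : r • (Ideal.Quotient.mk (Ideal.span {a}) c) = Ideal.Quotient.mk (Ideal.span {a}) (r * c) :=
    rfl
  rw [h1, Ideal.Quotient.eq_zero_iff_mem, Ideal.mem_span_singleton]

/-- **Algebraic Hartogs lemma**, localisation form: an element of `K` which lies in `R_P` for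
every prime `P` such that `R_P` is a discrete valuation ring lies in `R`. -/
theorem hartogs_locAt [IsNoetherianRing R] [IsIntegrallyClosed R] (u : K)
    (h : ∀ (P : Ideal R) [P.IsPrime], IsDiscreteValuationRing (locAt K P) → u ∈ locAt K P) :
    u ∈ (algebraMap R K).range := by
  have hinj : Function.Injective (algebraMap R K) := IsFractionRing.injective R K
  obtain ⟨b, a, ha, rfl⟩ := IsFractionRing.div_surjective R u
  have ha0 : a ≠ 0 := nonZeroDivisors.ne_zero ha
  have haK : algebraMap R K a ≠ 0 := fun h => ha0 (hinj (by rw [h, map_zero]))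
  by_cases hab : a ∣ b
  · obtain ⟨y, rfl⟩ := hab
    refine ⟨y, ?_⟩
    rw [map_mul, mul_div_cancel_left₀ _ haK]
  exfalso
  -- the module `R / (a)` and the class of `b`
  set x : R ⧸ Ideal.span {a} := Ideal.Quotient.mk _ b with hx
  have hx0 : x ≠ 0 := by
    rw [hx, Ne, Ideal.Quotient.eq_zero_iff_mem, Ideal.mem_span_singleton]
    exact hab
  obtain ⟨P, hPass, hle⟩ := exists_le_isAssociatedPrime_of_isNoetherianRing R x hx0
  obtain ⟨hPp, y, hy⟩ := (isAssociatedPrime_iff (I := P) (M := R ⧸ Ideal.span {a})).1 hPass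
  obtain ⟨c, rfl⟩ := Ideal.Quotient.mk_surjective y
  have hP : ∀ r, r ∈ P ↔ a ∣ r * c := by
    intro r
    rw [hy, Submodule.mem_colon_singleton, Submodule.mem_bot]
    exact smul_mk_span_eq_zero_iff a r c
  have hdvr : IsDiscreteValuationRing (locAt K P) :=
    isDiscreteValuationRing_locAt_of_colon P a c ha0 hP
  obtain ⟨r, s, hs, hrs⟩ := (mem_locAt_iff P _).1 (h P hdvr)
  have hsK : algebraMap R K s ≠ 0 := by
    intro h0
    apply hs
    rw [hinj (by rw [h0, map_zero] : algebraMap R K s = algebraMap R K 0)]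
    exact P.zero_mem
  have hsb : s * b = r * a := by
    apply hinj
    rw [map_mul, map_mul]
    field_simp at hrs
    rw [mul_comm, hrs, mul_comm]
  apply hs
  apply hle
  rw [Submodule.mem_colon_singleton, Submodule.mem_bot, hx]
  exact (smul_mk_span_eq_zero_iff a s b).2 ⟨r, by rw [hsb, mul_comm]⟩


/-- The valuation subring of `K` given by a localisation `R_P` which is a valuation ring. -/
noncomputable def locValuationSubring (P : Ideal R) [P.IsPrime]
    (h : ValuationRing (locAt K P)) : ValuationSubring K :=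
  { (locAt K P).toSubring with
    mem_or_inv_mem' := fun x => by
      rcases ValuationRing.isInteger_or_isInteger (locAt K P) (K := K) x with ⟨y, hy⟩ | ⟨y, hy⟩
      · left
        rw [← hy]
        exact y.2
      · right
        rw [← hy]
        exact y.2 }

theorem mem_locValuationSubring_iff (P : Ideal R) [P.IsPrime]
    (h : ValuationRing (locAt K P)) (x : K) :
    x ∈ locValuationSubring P h ↔ x ∈ locAt K P := Iff.rfl

theorem algebraMap_mem_locValuationSubring (P : Ideal R) [P.IsPrime]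
    (h : ValuationRing (locAt K P)) (r : R) : algebraMap R K r ∈ locValuationSubring P h :=
  (locAt K P).algebraMap_mem r

/-- The obvious ring isomorphism. -/
noncomputable def locValuationSubringEquiv (P : Ideal R) [P.IsPrime]
    (h : ValuationRing (locAt K P)) : locAt K P ≃+* locValuationSubring P h :=
  { toFun := fun x => ⟨x.1, x.2⟩
    invFun := fun x => ⟨x.1, x.2⟩
    left_inv := fun _ => rfl
    right_inv := fun _ => rfl
    map_mul' := fun _ _ => rfl
    map_add' := fun _ _ => rfl }

theorem isDiscreteValuationRing_locValuationSubring (P : Ideal R) [P.IsPrime]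
    (h : IsDiscreteValuationRing (locAt K P)) :
    IsDiscreteValuationRing (locValuationSubring P (inferInstance : ValuationRing (locAt K P))) :=
  IsDiscreteValuationRing.RingEquivClass.isDiscreteValuationRing
    (locValuationSubringEquiv P inferInstance)

/-- A prime with DVR localisation has height one: it contains no nonzero prime other than
itself. -/
theorem eq_of_le_of_isDiscreteValuationRing (P Q : Ideal R) [hP : P.IsPrime] (hQ : Q.IsPrime)
    (hdvr : IsDiscreteValuationRing (locAt K P)) (hQ0 : Q ≠ ⊥) (hle : Q ≤ P) : Q = P := by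
  have hd : Disjoint (P.primeCompl : Set R) (Q : Set R) := by
    rw [Set.disjoint_left]
    intro x hx hxQ
    exact hx (hle hxQ)
  have hdP : Disjoint (P.primeCompl : Set R) (P : Set R) := by
    rw [Set.disjoint_left]
    intro x hx hxP
    exact hx hxP
  have hQ' : (Ideal.map (algebraMap R (locAt K P)) Q).IsPrime :=
    IsLocalization.isPrime_of_isPrime_disjoint P.primeCompl (locAt K P) Q hQ hd
  have hne : Ideal.map (algebraMap R (locAt K P)) Q ≠ ⊥ := by
    obtain ⟨q, hq, hq0⟩ := Submodule.exists_mem_ne_zero_of_ne_bot hQ0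
    intro h
    have h1 : algebraMap R (locAt K P) q ∈ Ideal.map (algebraMap R (locAt K P)) Q :=
      Ideal.mem_map_of_mem _ hq
    rw [h, Ideal.mem_bot] at h1
    apply hq0
    apply IsFractionRing.injective R K
    have h2 := congrArg (fun z : locAt K P => (z : K)) h1
    simpa using h2
  have hmax : (Ideal.map (algebraMap R (locAt K P)) Q).IsMaximal := hQ'.isMaximal hne
  have h3 : Ideal.map (algebraMap R (locAt K P)) Q = maximalIdeal (locAt K P) :=
    IsLocalRing.eq_maximalIdeal hmax
  rw [← IsLocalization.AtPrime.map_eq_maximalIdeal P (locAt K P)] at h3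
  have h4 : (Ideal.map (algebraMap R (locAt K P)) Q).under R =
      (Ideal.map (algebraMap R (locAt K P)) P).under R := by rw [h3]
  rwa [IsLocalization.under_map_of_isPrime_disjoint P.primeCompl (locAt K P) hQ hd,
    IsLocalization.under_map_of_isPrime_disjoint P.primeCompl (locAt K P) hP hdP] at h4

/-- `O` is a discrete valuation subring of `K` which is the localisation of `R` at the height-one
prime `P`. -/
structure IsLocDVR (O : ValuationSubring K) (P : Ideal R) : Prop where
  prime : P.IsPrime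
  ne_bot : P ≠ ⊥
  dvr : IsDiscreteValuationRing O
  le : ∀ r : R, algebraMap R K r ∈ O
  exists_frac : ∀ x ∈ O, ∃ r s : R, s ∉ P ∧ x = algebraMap R K r * (algebraMap R K s)⁻¹
  inv_mem : ∀ s : R, s ∉ P → (algebraMap R K s)⁻¹ ∈ O
  inv_not_mem : ∀ r : R, r ∈ P → r ≠ 0 → (algebraMap R K r)⁻¹ ∉ O
  height_one : ∀ Q : Ideal R, Q.IsPrime → Q ≠ ⊥ → Q ≤ P → Q = P

theorem isLocDVR_locValuationSubring (P : Ideal R) [hPp : P.IsPrime]
    (hdvr : IsDiscreteValuationRing (locAt K P)) :
    IsLocDVR (locValuationSubring P (inferInstance : ValuationRing (locAt K P))) P := by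
  have hinj : Function.Injective (algebraMap R K) := IsFractionRing.injective R K
  refine ⟨hPp, ?_, isDiscreteValuationRing_locValuationSubring P hdvr,
    algebraMap_mem_locValuationSubring P inferInstance, ?_, ?_, ?_, ?_⟩
  · intro hbot
    apply IsDiscreteValuationRing.not_a_field (locAt K P)
    rw [← IsLocalization.AtPrime.map_eq_maximalIdeal P (locAt K P), Ideal.map_eq_bot_iff_le_ker]
    intro x hx
    rw [hbot, Ideal.mem_bot] at hx
    rw [hx]
    exact Ideal.zero_mem _
  · intro x hx
    exact (mem_locAt_iff P x).1 hx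
  · intro s hs
    exact (mem_locAt_iff P _).2 ⟨1, s, hs, by rw [map_one, one_mul]⟩
  · intro r hr hr0 hinv
    have h1 : algebraMap R (locAt K P) r ∈ maximalIdeal (locAt K P) := by
      rw [← IsLocalization.AtPrime.map_eq_maximalIdeal P (locAt K P)]
      exact Ideal.mem_map_of_mem _ hr
    have h2 : IsUnit (algebraMap R (locAt K P) r) := by
      have hrK : algebraMap R K r ≠ 0 := fun h => hr0 (hinj (by rw [h, map_zero]))
      refine IsUnit.of_mul_eq_one ⟨(algebraMap R K r)⁻¹, hinv⟩ ?_
      apply Subtype.ext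
      show algebraMap R K r * (algebraMap R K r)⁻¹ = 1
      exact mul_inv_cancel₀ hrK
    exact (mem_nonunits_iff.1 ((IsLocalRing.mem_maximalIdeal _).1 h1)) h2
  · intro Q hQ hQ0 hle
    exact eq_of_le_of_isDiscreteValuationRing P Q hQ hdvr hQ0 hle

/-- **Algebraic Hartogs lemma**, valuation form.  If `u ∈ K` is not in `R` there is a discrete
valuation subring `O` of `K`, the localisation of `R` at a height-one prime `P`, with `u ∉ O`. -/
theorem exists_isLocDVR_not_mem [IsNoetherianRing R] [IsIntegrallyClosed R] (u : K)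
    (hu : u ∉ (algebraMap R K).range) :
    ∃ (O : ValuationSubring K) (P : Ideal R), IsLocDVR O P ∧ u ∉ O := by
  by_contra hcon
  apply hu
  apply hartogs_locAt u
  intro P hPp hdvr
  by_contra huP
  exact hcon ⟨_, P, isLocDVR_locValuationSubring P hdvr, huP⟩

/-- **Algebraic Hartogs lemma**, positive form. -/
theorem mem_range_of_forall_isLocDVR [IsNoetherianRing R] [IsIntegrallyClosed R] (u : K)
    (h : ∀ (O : ValuationSubring K) (P : Ideal R), IsLocDVR O P → u ∈ O) :
    u ∈ (algebraMap R K).range := by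
  by_contra hu
  obtain ⟨O, P, hOP, huO⟩ := exists_isLocDVR_not_mem u hu
  exact huO (h O P hOP)

/-- An element of `K` lying in every discrete valuation subring of `K` containing `R` lies in
`R`. -/
theorem mem_range_of_forall_valuationSubring [IsNoetherianRing R] [IsIntegrallyClosed R] (u : K)
    (h : ∀ O : ValuationSubring K, IsDiscreteValuationRing O →
      (∀ r : R, algebraMap R K r ∈ O) → u ∈ O) :
    u ∈ (algebraMap R K).range :=
  mem_range_of_forall_isLocDVR u (fun O _ hOP => h O hOP.dvr hOP.le)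

/-- **Trivial Weil divisor ⇒ unit.**  If `u ≠ 0` is a unit of every discrete valuation subring
of `K` which is the localisation of `R` at a height-one prime, then `u` is (the image of) a unit
of `R`. -/
theorem isUnit_of_forall_isLocDVR [IsNoetherianRing R] [IsIntegrallyClosed R] (u : K)
    (hu : u ≠ 0)
    (h : ∀ (O : ValuationSubring K) (P : Ideal R), IsLocDVR O P → u ∈ O ∧ u⁻¹ ∈ O) :
    ∃ r : Rˣ, algebraMap R K (r : R) = u := by
  obtain ⟨r, hr⟩ := mem_range_of_forall_isLocDVR u (fun O P hOP => (h O P hOP).1)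
  obtain ⟨r', hr'⟩ := mem_range_of_forall_isLocDVR u⁻¹ (fun O P hOP => (h O P hOP).2)
  have hinj : Function.Injective (algebraMap R K) := IsFractionRing.injective R K
  have hmul : r * r' = 1 := by
    apply hinj
    rw [map_mul, map_one]
    show algebraMap R K r * algebraMap R K r' = 1
    rw [hr, hr', mul_inv_cancel₀ hu]
  exact ⟨⟨r, r', hmul, by rw [mul_comm, hmul]⟩, hr⟩

/-- Same with all discrete valuation subrings containing `R`. -/
theorem isUnit_of_forall_valuationSubring [IsNoetherianRing R] [IsIntegrallyClosed R] (u : K)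
    (hu : u ≠ 0)
    (h : ∀ O : ValuationSubring K, IsDiscreteValuationRing O →
      (∀ r : R, algebraMap R K r ∈ O) → u ∈ O ∧ u⁻¹ ∈ O) :
    ∃ r : Rˣ, algebraMap R K (r : R) = u :=
  isUnit_of_forall_isLocDVR u hu (fun O _ hOP => h O hOP.dvr hOP.le)

end Fermat.Agent.A2.H849

end
-- ===== PACK-END A2/H849/Hartogs.lean

-- ===== PACK-BEGIN A2/Alg/H754/ChartDim.lean
section


/-!
# A2 / ALG / P-S (helper754): the components of a two-dimensional chart are Dedekind

`B` a domain, integral over a Noetherian ring `A₀` of Krull dimension `≤ 2` (`A₀ = R[x]`, `R` a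
DVR).  Then every prime `q` strictly containing a nonzero prime `p` is maximal; hence `B ⧸ p` is
a Dedekind domain as soon as it is Noetherian and integrally closed.
-/

set_option autoImplicit false
set_option linter.style.haveILetI false

namespace Fermat.Agent.A2.Alg.H754

section Dim

variable {A₀ B : Type*} [CommRing A₀] [IsNoetherianRing A₀] [CommRing B] [IsDomain B]
  [Algebra A₀ B] [Algebra.IsIntegral A₀ B]

/-- No chain of primes `⊥ < p < q < M` in an integral extension of a ring of dimension `≤ 2`. -/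
theorem isMaximal_of_lt_of_ne_bot (hdim : ringKrullDim A₀ ≤ 2) (p q : Ideal B) [hp : p.IsPrime]
    [hq : q.IsPrime] (hp0 : p ≠ ⊥) (hpq : p < q) : q.IsMaximal := by
  by_contra hmax
  obtain ⟨M, hM, hqM⟩ := Ideal.exists_le_maximal q hq.ne_top
  have hqM' : q < M := lt_of_le_of_ne hqM (fun h => hmax (h ▸ hM))
  haveI hMp : M.IsPrime := hM.isPrime
  haveI hbot : (⊥ : Ideal B).IsPrime := Ideal.isPrime_bot
  have key : ∀ (I J : Ideal B) [I.IsPrime], I < J →
      I.comap (algebraMap A₀ B) < J.comap (algebraMap A₀ B) := by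
    intro I J _ hIJ
    obtain ⟨x, hxJ, hxI⟩ := SetLike.exists_of_lt hIJ
    exact Ideal.comap_lt_comap_of_integral_mem_sdiff hIJ.le ⟨hxJ, hxI⟩
      (Algebra.IsIntegral.isIntegral x)
  have h0 := key ⊥ p (bot_lt_iff_ne_bot.2 hp0)
  have h1 := key p q hpq
  have h2 := key q M hqM'
  haveI := Ideal.finiteHeight_of_isNoetherianRing ((⊥ : Ideal B).comap (algebraMap A₀ B))
  haveI := Ideal.finiteHeight_of_isNoetherianRing (p.comap (algebraMap A₀ B))
  haveI := Ideal.finiteHeight_of_isNoetherianRing (q.comap (algebraMap A₀ B))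
  have e0 := Order.add_one_le_of_lt (Ideal.height_strict_mono_of_isPrime h0)
  have e1 := Order.add_one_le_of_lt (Ideal.height_strict_mono_of_isPrime h1)
  have e2 := Order.add_one_le_of_lt (Ideal.height_strict_mono_of_isPrime h2)
  have hne : M.comap (algebraMap A₀ B) ≠ ⊤ := (Ideal.comap_isPrime _ M).ne_top
  have e3 : ((M.comap (algebraMap A₀ B)).height : WithBot ℕ∞) ≤ 2 :=
    le_trans (Ideal.height_le_ringKrullDim_of_ne_top hne) hdim
  have e3' : (M.comap (algebraMap A₀ B)).height ≤ 2 := by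
    have h2 : ((2 : ℕ∞) : WithBot ℕ∞) = 2 := rfl
    rw [← h2] at e3
    exact WithBot.coe_le_coe.1 e3
  have e4 : (3 : ℕ∞) ≤ (M.comap (algebraMap A₀ B)).height := by
    calc (3 : ℕ∞) = 0 + 1 + 1 + 1 := by norm_num
      _ ≤ ((⊥ : Ideal B).comap (algebraMap A₀ B)).height + 1 + 1 + 1 := by gcongr; exact zero_le
      _ ≤ (p.comap (algebraMap A₀ B)).height + 1 + 1 := by gcongr
      _ ≤ (q.comap (algebraMap A₀ B)).height + 1 := by gcongr
      _ ≤ _ := e2
  have : (3 : ℕ∞) ≤ 2 := le_trans e4 e3'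
  exact absurd this (by decide)

/-- The components of the special fibre are Dedekind. -/
theorem isDedekindDomain_quotient_of_dim [IsNoetherianRing B] (hdim : ringKrullDim A₀ ≤ 2)
    (p : Ideal B) [hp : p.IsPrime] (hp0 : p ≠ ⊥) (hnorm : IsIntegrallyClosed (B ⧸ p)) :
    IsDedekindDomain (B ⧸ p) := by
  have hsurj : Function.Surjective (Ideal.Quotient.mk p) := Ideal.Quotient.mk_surjective
  have h1 : IsNoetherianRing (B ⧸ p) := inferInstance
  have h2 : Ring.DimensionLEOne (B ⧸ p) := by
    refine ⟨fun {Q} hQ0 hQ => ?_⟩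
    haveI := hQ
    have hle : p ≤ Q.comap (Ideal.Quotient.mk p) := by
      intro b hb
      rw [Ideal.mem_comap, Ideal.Quotient.eq_zero_iff_mem.2 hb]
      exact Q.zero_mem
    have hne : p ≠ Q.comap (Ideal.Quotient.mk p) := by
      intro h
      apply hQ0
      rw [← Ideal.map_comap_of_surjective _ hsurj Q, ← h, Ideal.map_quotient_self]
    have hmax : (Q.comap (Ideal.Quotient.mk p)).IsMaximal :=
      isMaximal_of_lt_of_ne_bot (A₀ := A₀) hdim p _ hp0 (lt_of_le_of_ne hle hne)
    rw [← Ideal.map_comap_of_surjective _ hsurj Q]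
    haveI := hmax
    exact Ideal.IsMaximal.map_of_surjective_of_ker_le hsurj (by rw [Ideal.mk_ker]; exact hle)
  have h3 : IsIntegrallyClosed (B ⧸ p) := hnorm
  exact { h1, h2, h3 with }

end Dim

end Fermat.Agent.A2.Alg.H754

end
-- ===== PACK-END A2/Alg/H754/ChartDim.lean

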