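import Mathlib
import Fermat.Prelude.Def_AlgebraicCurve_Correspondence
import Fermat.Prelude.Def_ModularCurve_HeckeModule
import Fermat.Prelude.Thm_ModularCurve_coeffMap_qExpand
import Fermat.Prelude.Def_ModularCurve_ArithmeticGalois
import Fermat.Prelude.Def_FLTPrelim_Ramification
import Fermat.Prelude.Def_CuspForm_HeckeEvalForms
import Fermat.Prelude.Def_CuspForm_Newforms
import Fermat.Prelude.Thm_ModularForm_sturm_bound_Gamma0
import Fermat.Prelude.Def_ModularCurve_X0ModL
import Fermat.Prelude.Def_ModularCurve_IgusaScheme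
import Fermat.Prelude.Def_ModularCurve_X0
import Fermat.Prelude.Def_ModularCurve_LaurentCoeff
import Mathlib.Analysis.Complex.BranchLogRoot
import Mathlib.Analysis.Meromorphic.FactorizedRational
import Mathlib.Analysis.SpecialFunctions.Complex.Analytic
import Mathlib.Analysis.Convex.Contractible
import Mathlib.RingTheory.Polynomial.Cyclotomic.Roots
import Fermat.Prelude.Def_ModularCurve_PeriodHomPair
import Fermat.Prelude.Thm_Subgroup_IsArithmetic_exists_nat_mem_strictPeriods_conj
import Fermat.Statements.S21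
import Fermat.Prelude.Def_CuspForm_IntegralStructure
import Mathlib.Algebra.Polynomial.Degree.Lemmas
import Mathlib.Algebra.Polynomial.Coeff
import Mathlib.Analysis.Complex.Basic
import Mathlib.Tactic.LinearCombination
import Mathlib.Tactic.Ring
import Fermat.Prelude.Def_GaloisRep_Adic
import Fermat.Prelude.Def_ModularCurve_JqCoeff
import Mathlib.RingTheory.Valuation.ValuationSubring
import Mathlib.Algebra.Field.Subfield.Basic
import Mathlib.RingTheory.Polynomial.Cyclotomic.Basic
import Mathlib.RingTheory.RootsOfUnity.PrimitiveRoots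
import Mathlib.Algebra.Ring.GeomSum

-- ===== PACK-BEGIN S30/H529/TateCore.lean
section


/-!
# S30 helper (helper529): abstract Tate modules, core algebra

For a module `X` over a complete discrete valuation ring `O`, an element `ϖ ≠ 0` of the maximal
ideal, `O`-linear operators `t i` and scalars `a i`, the module `tateEigen ϖ t a` of compatible
sequences `v n ∈ X[ϖ ^ (n + 1)]`, `ϖ • v (n + 1) = v n`, `t i (v n) = a i • v n` is torsion free,
separated, and finitely generated (hence free) as soon as `X[ϖ]` is finitely generated.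
-/

set_option autoImplicit false
set_option linter.unusedSectionVars false

namespace Fermat.Agent.S30.H529

open IsLocalRing

noncomputable section

/-! ### Precompleteness of finite free modules -/

section Pi

variable {R : Type*} [CommRing R] (I : Ideal R) {r : ℕ}

theorem mem_smul_top_pi (x : Fin r → R) :
    x ∈ (I • ⊤ : Submodule R (Fin r → R)) ↔ ∀ i, x i ∈ I := by
  constructor
  · intro hx i
    refine Submodule.smul_induction_on hx ?_ ?_
    · intro a ha m _
      simp only [Pi.smul_apply, smul_eq_mul]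
      exact Ideal.mul_mem_right _ _ ha
    · intro y z hy hz
      simp only [Pi.add_apply]
      exact I.add_mem hy hz
  · intro hx
    have h1 : x = ∑ i, x i • (Pi.single i (1 : R) : Fin r → R) := by
      funext j
      simp [Finset.sum_apply, Pi.single_apply]
    rw [h1]
    exact Submodule.sum_mem _ fun i _ => Submodule.smul_mem_smul (hx i) Submodule.mem_top

theorem isPrecomplete_pi [IsPrecomplete I R] : IsPrecomplete I (Fin r → R) := by
  constructor
  intro f hf
  have hcomp : ∀ i : Fin r, ∃ L : R, ∀ n, f n i ≡ L [SMOD (I ^ n • ⊤ : Submodule R R)] := by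
    intro i
    apply IsPrecomplete.prec' (fun n => f n i)
    intro m n hmn
    have h1 := hf hmn
    rw [SModEq.sub_mem] at h1 ⊢
    rw [mem_smul_top_pi] at h1
    have h2 := h1 i
    simp only [smul_eq_mul, Ideal.mul_top]
    simpa using h2
  choose L hL using hcomp
  refine ⟨L, fun n => ?_⟩
  rw [SModEq.sub_mem, mem_smul_top_pi]
  intro i
  have h1 := hL i n
  rw [SModEq.sub_mem] at h1
  simpa using h1

/-- Topological Nakayama: a Hausdorff module over a precomplete ring is finitely generated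
if its reduction is. -/
theorem finite_of_finite_quotient (M : Type*) [AddCommGroup M] [Module R M] [IsPrecomplete I R]
    [IsHausdorff I M] (h : Module.Finite R (M ⧸ (I • ⊤ : Submodule R M))) :
    Module.Finite R M := by
  obtain ⟨r, g, hg⟩ := Module.Finite.exists_fin' R (M ⧸ (I • ⊤ : Submodule R M))
  have hlift : ∀ i : Fin r, ∃ m : M, (I • ⊤ : Submodule R M).mkQ m
      = g (Pi.single i (1 : R)) :=
    fun i => Submodule.mkQ_surjective _ _
  choose m hm using hlift
  let f : (Fin r → R) →ₗ[R] M := (Pi.basisFun R (Fin r)).constr R m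
  have hfg : (I • ⊤ : Submodule R M).mkQ ∘ₗ f = g := by
    apply (Pi.basisFun R (Fin r)).ext
    intro i
    have h1 : f ((Pi.basisFun R (Fin r)) i) = m i := Module.Basis.constr_basis _ _ _ _
    rw [LinearMap.comp_apply, h1, hm i, Pi.basisFun_apply]
  have := isPrecomplete_pi (r := r) I
  have hsurj : Function.Surjective f := by
    apply surjective_of_mkQ_comp_surjective (I := I)
    rw [hfg]
    exact hg
  exact Module.Finite.of_surjective f hsurj

end Pi

/-! ### Discrete valuation rings -/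

section DVR

variable {O : Type*} [CommRing O] [IsDomain O] [IsDiscreteValuationRing O]

theorem exists_pow_maximalIdeal_le_span {x : O} (hx : x ≠ 0) :
    ∃ N : ℕ, maximalIdeal O ^ N ≤ Ideal.span {x} := by
  obtain ⟨π, hπ⟩ := IsDiscreteValuationRing.exists_irreducible O
  obtain ⟨n, u, rfl⟩ := IsDiscreteValuationRing.eq_unit_mul_pow_irreducible hx hπ
  refine ⟨n, ?_⟩
  rw [hπ.maximalIdeal_eq, Ideal.span_singleton_pow, Ideal.span_singleton_le_span_singleton]
  exact ⟨(u⁻¹ : Oˣ), by rw [mul_comm, ← mul_assoc, Units.inv_mul, one_mul]⟩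

theorem exists_dvd_pow_of_mem_maximalIdeal {ϖ : O} (hϖ : ϖ ∈ maximalIdeal O) {r : O}
    (hr : r ≠ 0) : ∃ k : ℕ, r ∣ ϖ ^ k := by
  obtain ⟨π, hπ⟩ := IsDiscreteValuationRing.exists_irreducible O
  obtain ⟨n, u, rfl⟩ := IsDiscreteValuationRing.eq_unit_mul_pow_irreducible hr hπ
  rw [hπ.maximalIdeal_eq, Ideal.mem_span_singleton] at hϖ
  refine ⟨n, ?_⟩
  obtain ⟨c, hc⟩ := pow_dvd_pow_of_dvd hϖ n
  refine ⟨(u⁻¹ : Oˣ) * c, ?_⟩
  have h1 : (u : O) * π ^ n * (((u⁻¹ : Oˣ) : O) * c) = ((u : O) * ((u⁻¹ : Oˣ) : O)) * (π ^ n * c) := by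
    ring
  rw [h1, Units.mul_inv, one_mul, hc]

end DVR

/-! ### The Tate module -/

section Tate

variable {O : Type*} [CommRing O]
variable {X : Type*} [AddCommGroup X] [Module O X]
variable {ι : Type*}
variable (ϖ : O) (t : ι → X →ₗ[O] X) (a : ι → O)

/-- The eigen-part of the Tate module of `X` with respect to `ϖ`: compatible sequences
`v n ∈ X[ϖ ^ (n + 1)]` with `t i (v n) = a i • v n`. -/
def tateEigen : Submodule O (ℕ → X) where
  carrier := {v | ϖ • v 0 = 0 ∧ (∀ n, ϖ • v (n + 1) = v n) ∧ ∀ i n, t i (v n) = a i • v n}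
  zero_mem' := by simp
  add_mem' := by
    rintro v w ⟨hv0, hv1, hv2⟩ ⟨hw0, hw1, hw2⟩
    refine ⟨?_, ?_, ?_⟩
    · simp [smul_add, hv0, hw0]
    · intro n
      simp [smul_add, hv1 n, hw1 n]
    · intro i n
      simp [map_add, hv2 i n, hw2 i n, smul_add]
  smul_mem' := by
    rintro c v ⟨hv0, hv1, hv2⟩
    refine ⟨?_, ?_, ?_⟩
    · simp [smul_comm ϖ c, hv0]
    · intro n
      simp [smul_comm ϖ c, hv1 n]
    · intro i n
      simp [map_smul, hv2 i n, smul_comm (a i) c]

variable {ϖ t a}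

theorem mem_tateEigen {v : ℕ → X} :
    v ∈ tateEigen ϖ t a ↔
      ϖ • v 0 = 0 ∧ (∀ n, ϖ • v (n + 1) = v n) ∧ ∀ i n, t i (v n) = a i • v n :=
  Iff.rfl

theorem tate_pow_smul {v : ℕ → X} (hv : v ∈ tateEigen ϖ t a) (k n : ℕ) :
    ϖ ^ k • v (n + k) = v n := by
  induction k with
  | zero => simp
  | succ k ih =>
    rw [pow_succ, mul_smul, ← add_assoc, hv.2.1 (n + k), ih]

theorem tate_pow_succ_smul {v : ℕ → X} (hv : v ∈ tateEigen ϖ t a) (n : ℕ) :
    ϖ ^ (n + 1) • v n = 0 := by
  have h := tate_pow_smul hv n 0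
  rw [zero_add] at h
  rw [pow_succ', mul_smul, h, hv.1]

theorem tate_pow_smul_eq_zero {v : ℕ → X} (hv : v ∈ tateEigen ϖ t a) {m n : ℕ} (hmn : m < n) :
    ϖ ^ n • v m = 0 := by
  obtain ⟨k, rfl⟩ : ∃ k, n = k + (m + 1) := ⟨n - (m + 1), by omega⟩
  rw [pow_add, mul_smul, tate_pow_succ_smul hv, smul_zero]

/-- The shifted sequence. -/
theorem tate_shift_mem {v : ℕ → X} (hv : v ∈ tateEigen ϖ t a) (k : ℕ)
    (hk : ∀ m, m < k → v m = 0) : (fun n => v (n + k)) ∈ tateEigen ϖ t a := by
  refine ⟨?_, ?_, ?_⟩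
  · rcases Nat.eq_zero_or_pos k with rfl | hk0
    · exact hv.1
    · obtain ⟨j, rfl⟩ : ∃ j, k = j + 1 := ⟨k - 1, by omega⟩
      show ϖ • v (0 + (j + 1)) = 0
      rw [zero_add, hv.2.1 j]
      exact hk j (by omega)
  · intro n
    show ϖ • v (n + 1 + k) = v (n + k)
    rw [show n + 1 + k = (n + k) + 1 by omega]
    exact hv.2.1 (n + k)
  · intro i n
    exact hv.2.2 i (n + k)

theorem tate_eq_pow_smul_shift {v : ℕ → X} (hv : v ∈ tateEigen ϖ t a) (k : ℕ) :
    v = ϖ ^ k • (fun n => v (n + k)) := by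
  funext n
  simp only [Pi.smul_apply]
  exact (tate_pow_smul hv k n).symm

/-- Elements vanishing in degrees `< k` are divisible by `ϖ ^ k`. -/
theorem tate_exists_eq_pow_smul {v : ℕ → X} (hv : v ∈ tateEigen ϖ t a) (k : ℕ)
    (hk : ∀ m, m < k → v m = 0) : ∃ w ∈ tateEigen ϖ t a, v = ϖ ^ k • w :=
  ⟨_, tate_shift_mem hv k hk, tate_eq_pow_smul_shift hv k⟩

end Tate

/-! ### Structure of the Tate module over a complete discrete valuation ring -/

section Structure

variable {O : Type*} [CommRing O] [IsDomain O] [IsDiscreteValuationRing O]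
variable {X : Type*} [AddCommGroup X] [Module O X]
variable {ι : Type*}
variable {ϖ : O} {t : ι → X →ₗ[O] X} {a : ι → O}

theorem tateEigen_isTorsionFree (hϖ : ϖ ∈ maximalIdeal O) :
    Module.IsTorsionFree O (tateEigen ϖ t a) := by
  apply Module.IsTorsionFree.of_smul_eq_zero
  intro r v hrv
  by_cases hr : r = 0
  · exact Or.inl hr
  right
  obtain ⟨k, c, hc⟩ := exists_dvd_pow_of_mem_maximalIdeal hϖ hr
  have h1 : (ϖ ^ k) • (v : ℕ → X) = 0 := by
    have h2 : r • (v : ℕ → X) = 0 := by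
      have := congrArg (Subtype.val) hrv
      simpa using this
    rw [hc, mul_comm, mul_smul, h2, smul_zero]
  apply Subtype.ext
  funext n
  have h3 := tate_pow_smul v.2 k n
  have h4 := congrFun h1 (n + k)
  simp only [Pi.smul_apply, Pi.zero_apply] at h4
  rw [← h3, h4]
  rfl

/-- Evaluation at the `m`-th component. -/
def tateEval (ϖ : O) (t : ι → X →ₗ[O] X) (a : ι → O) (m : ℕ) : tateEigen ϖ t a →ₗ[O] X :=
  (LinearMap.proj m).comp (tateEigen ϖ t a).subtype

@[simp] theorem tateEval_apply (m : ℕ) (v : tateEigen ϖ t a) :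
    tateEval ϖ t a m v = (v : ℕ → X) m := rfl

theorem tateEigen_isHausdorff (hϖ0 : ϖ ≠ 0) :
    IsHausdorff (maximalIdeal O) (tateEigen ϖ t a) := by
  constructor
  intro x hx
  apply Subtype.ext
  funext m
  obtain ⟨N, hN⟩ := exists_pow_maximalIdeal_le_span (pow_ne_zero (m + 1) hϖ0)
  have h1 : (maximalIdeal O ^ N • ⊤ : Submodule O (tateEigen ϖ t a))
      ≤ LinearMap.ker (tateEval ϖ t a m) := by
    rw [Submodule.smul_le]
    intro c hc v _
    obtain ⟨b, rfl⟩ := Ideal.mem_span_singleton'.mp (hN hc)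
    rw [LinearMap.mem_ker, map_smul, tateEval_apply, mul_smul, tate_pow_succ_smul v.2,
      smul_zero]
  have h2 := hx N
  rw [SModEq.zero] at h2
  exact LinearMap.mem_ker.mp (h1 h2)

theorem tateEval_zero_ker_le (hϖ : ϖ ∈ maximalIdeal O) :
    LinearMap.ker (tateEval ϖ t a 0)
      ≤ (maximalIdeal O • ⊤ : Submodule O (tateEigen ϖ t a)) := by
  intro v hv
  rw [LinearMap.mem_ker, tateEval_apply] at hv
  obtain ⟨w, hw, hvw⟩ := tate_exists_eq_pow_smul v.2 1 (fun m hm => by
    obtain rfl : m = 0 := by omega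
    exact hv)
  have h1 : v = ϖ • (⟨w, hw⟩ : tateEigen ϖ t a) := by
    apply Subtype.ext
    rw [hvw, pow_one]
    rfl
  rw [h1]
  exact Submodule.smul_mem_smul hϖ Submodule.mem_top

theorem tateEigen_finite [IsAdicComplete (maximalIdeal O) O] (hϖ : ϖ ∈ maximalIdeal O)
    (hϖ0 : ϖ ≠ 0) (hX : ∃ Y : Submodule O X, Y.FG ∧ ∀ x : X, ϖ • x = 0 → x ∈ Y) :
    Module.Finite O (tateEigen ϖ t a) := by
  obtain ⟨Y, hY, hYX⟩ := hX
  have := tateEigen_isHausdorff (t := t) (a := a) hϖ0
  apply finite_of_finite_quotient (maximalIdeal O)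
  -- the range of the evaluation at `0` is finitely generated
  have hrange : LinearMap.range (tateEval ϖ t a 0) ≤ Y := by
    rintro _ ⟨v, rfl⟩
    exact hYX _ v.2.1
  have hYn : IsNoetherian O Y := isNoetherian_of_fg_of_noetherian Y hY
  have hfg : (LinearMap.range (tateEval ϖ t a 0)).FG := by
    have h1 : (Submodule.comap Y.subtype (LinearMap.range (tateEval ϖ t a 0))).FG :=
      IsNoetherian.noetherian _
    have h2 := h1.map Y.subtype
    rwa [Submodule.map_comap_subtype, inf_eq_right.mpr hrange] at h2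
  have hfin1 : Module.Finite O (LinearMap.range (tateEval ϖ t a 0)) :=
    Module.Finite.of_fg hfg
  have hfin2 : Module.Finite O (tateEigen ϖ t a ⧸ LinearMap.ker (tateEval ϖ t a 0)) :=
    Module.Finite.equiv (LinearMap.quotKerEquivRange (tateEval ϖ t a 0)).symm
  exact Module.Finite.of_surjective
    (Submodule.factor (tateEval_zero_ker_le (t := t) (a := a) hϖ))
    (Submodule.factor_surjective _)

theorem tateEigen_free [IsAdicComplete (maximalIdeal O) O] (hϖ : ϖ ∈ maximalIdeal O)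
    (hϖ0 : ϖ ≠ 0) (hX : ∃ Y : Submodule O X, Y.FG ∧ ∀ x : X, ϖ • x = 0 → x ∈ Y) :
    Module.Free O (tateEigen ϖ t a) := by
  have := tateEigen_finite (t := t) (a := a) hϖ hϖ0 hX
  have := tateEigen_isTorsionFree (t := t) (a := a) hϖ
  exact Module.free_of_finite_type_torsion_free'

end Structure

/-! ### The induced action -/

section Action

variable {O : Type*} [CommRing O]
variable {X : Type*} [AddCommGroup X] [Module O X]
variable {ι : Type*}
variable {ϖ : O} {t : ι → X →ₗ[O] X} {a : ι → O}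

/-- The map induced on the Tate module by an endomorphism commuting with the operators. -/
def tateMap (g : X →ₗ[O] X) (hg : ∀ i x, g (t i x) = t i (g x)) :
    tateEigen ϖ t a →ₗ[O] tateEigen ϖ t a where
  toFun v := ⟨fun n => g ((v : ℕ → X) n), by
    refine ⟨?_, ?_, ?_⟩
    · rw [← map_smul, v.2.1, map_zero]
    · intro n
      rw [← map_smul, v.2.2.1 n]
    · intro i n
      rw [← hg, v.2.2.2 i n, map_smul]⟩
  map_add' v w := by
    apply Subtype.ext
    funext n
    simp
  map_smul' c v := by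
    apply Subtype.ext
    funext n
    simp

@[simp] theorem tateMap_apply_coe (g : X →ₗ[O] X) (hg : ∀ i x, g (t i x) = t i (g x))
    (v : tateEigen ϖ t a) (n : ℕ) :
    ((tateMap g hg v : tateEigen ϖ t a) : ℕ → X) n = g ((v : ℕ → X) n) := rfl

variable {G : Type*} [Monoid G] (ρ : G →* Module.End O X)
  (hρ : ∀ (γ : G) (i : ι) (x : X), ρ γ (t i x) = t i (ρ γ x))

/-- The representation on the Tate module. -/
def tateRep : G →* Module.End O (tateEigen ϖ t a) where
  toFun γ := tateMap (ρ γ) (hρ γ)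
  map_one' := by
    apply LinearMap.ext
    intro v
    apply Subtype.ext
    funext n
    simp
  map_mul' γ δ := by
    apply LinearMap.ext
    intro v
    apply Subtype.ext
    funext n
    simp

@[simp] theorem tateRep_apply_coe (γ : G) (v : tateEigen ϖ t a) (n : ℕ) :
    ((tateRep ρ hρ γ v : tateEigen ϖ t a) : ℕ → X) n = ρ γ ((v : ℕ → X) n) := rfl

theorem tateRep_eq_one (γ : G) (hγ : ∀ x : X, (∃ n : ℕ, ϖ ^ n • x = 0) → ρ γ x = x) :
    tateRep (ϖ := ϖ) (a := a) ρ hρ γ = 1 := by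
  apply LinearMap.ext
  intro v
  apply Subtype.ext
  funext n
  rw [tateRep_apply_coe]
  exact hγ _ ⟨n + 1, tate_pow_succ_smul v.2 n⟩

theorem tateRep_quadratic (γ : G) (i : ι) (c : O)
    (hγ : ∀ x : X, (∃ n : ℕ, ϖ ^ n • x = 0) → ρ γ (ρ γ x) - t i (ρ γ x) + c • x = 0) :
    tateRep (ϖ := ϖ) (a := a) ρ hρ γ * tateRep ρ hρ γ - a i • tateRep ρ hρ γ
      + c • (1 : Module.End O (tateEigen ϖ t a)) = 0 := by
  apply LinearMap.ext
  intro v
  apply Subtype.ext
  funext n
  have h1 := hγ ((v : ℕ → X) n) ⟨n + 1, tate_pow_succ_smul v.2 n⟩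
  have h2 : t i (ρ γ ((v : ℕ → X) n)) = a i • ρ γ ((v : ℕ → X) n) := by
    rw [← hρ, v.2.2.2 i n, map_smul]
  rw [h2] at h1
  simpa using h1

theorem tateRep_sub_mem [IsLocalRing O] (hϖ : ϖ ∈ maximalIdeal O) (n : ℕ) (γ : G)
    (hγ : ∀ x : X, ϖ ^ n • x = 0 → ρ γ x = x) (v : tateEigen ϖ t a) :
    tateRep ρ hρ γ v - v ∈ (maximalIdeal O ^ n • ⊤ : Submodule O (tateEigen ϖ t a)) := by
  set w : tateEigen ϖ t a := tateRep ρ hρ γ v - v with hw
  have hw0 : ∀ m, m < n → (w : ℕ → X) m = 0 := by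
    intro m hm
    have h1 : (w : ℕ → X) m = ρ γ ((v : ℕ → X) m) - (v : ℕ → X) m := rfl
    rw [h1, hγ _ (tate_pow_smul_eq_zero v.2 hm), sub_self]
  obtain ⟨w', hw', hww'⟩ := tate_exists_eq_pow_smul w.2 n hw0
  have h2 : w = ϖ ^ n • (⟨w', hw'⟩ : tateEigen ϖ t a) := by
    apply Subtype.ext
    rw [hww']
    rfl
  rw [h2]
  exact Submodule.smul_mem_smul (Ideal.pow_mem_pow hϖ n) Submodule.mem_top

end Action

end

end Fermat.Agent.S30.H529

end
-- ===== PACK-END S30/H529/TateCore.lean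

-- ===== PACK-BEGIN S30/H529/TateTensor.lean
section



/-!
# S30 helper (helper529): the Tate module of `O ⊗ J`

`J` is an abelian group with an action of a group `G` and commuting endomorphisms `T i`.
We transfer torsion statements from `J` to `O ⊗[ℤ] J` (flatness of `O` over `ℤ`) and apply
the core results of `TateCore`.
-/

set_option autoImplicit false
set_option linter.unusedSectionVars false

namespace Fermat.Agent.S30.H529

open IsLocalRing TensorProduct

noncomputable section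

section Transfer

variable (O : Type*) [CommRing O] [Module.Flat ℤ O]
variable {J : Type*} [AddCommGroup J]

/-- Elements of `O ⊗ J` killed by `m` come from `O ⊗ J[m]`. -/
theorem exists_lTensor_eq_of_smul_eq_zero (m : ℤ) (x : O ⊗[ℤ] J) (hx : m • x = 0) :
    ∃ z : O ⊗[ℤ] LinearMap.ker (m • (LinearMap.id : J →ₗ[ℤ] J)),
      (LinearMap.ker (m • (LinearMap.id : J →ₗ[ℤ] J))).subtype.lTensor O z = x := by
  have hex := LinearMap.exact_subtype_ker_map (m • (LinearMap.id : J →ₗ[ℤ] J))
  have hex2 := Module.Flat.lTensor_exact O hex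
  have h1 : (m • (LinearMap.id : J →ₗ[ℤ] J)).lTensor O x = 0 := by
    rw [LinearMap.lTensor_smul, LinearMap.lTensor_id, LinearMap.smul_apply, LinearMap.id_apply,
      hx]
  obtain ⟨z, hz⟩ := (hex2 x).mp h1
  exact ⟨z, hz⟩

/-- An endomorphism of `J` killing the `m`-torsion of `J` has a base change killing the
`m`-torsion of `O ⊗ J`. -/
theorem baseChange_eq_zero_of_torsion (m : ℤ) (A : J →ₗ[ℤ] J)
    (hA : ∀ y : J, m • y = 0 → A y = 0) (x : O ⊗[ℤ] J) (hx : m • x = 0) :
    A.baseChange O x = 0 := by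
  obtain ⟨z, rfl⟩ := exists_lTensor_eq_of_smul_eq_zero O m x hx
  have h1 : A ∘ₗ (LinearMap.ker (m • (LinearMap.id : J →ₗ[ℤ] J))).subtype = 0 := by
    apply LinearMap.ext
    intro y
    have hy := y.2
    rw [LinearMap.mem_ker, LinearMap.smul_apply, LinearMap.id_apply] at hy
    simpa using hA y hy
  have h2 : A.baseChange O ((LinearMap.ker (m • (LinearMap.id : J →ₗ[ℤ] J))).subtype.lTensor O z)
      = (A ∘ₗ (LinearMap.ker (m • (LinearMap.id : J →ₗ[ℤ] J))).subtype).lTensor O z := by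
    rw [LinearMap.lTensor_comp]
    rfl
  rw [h2, h1, LinearMap.lTensor_zero, LinearMap.zero_apply]

/-- The `m`-torsion of `O ⊗ J` lies in a finitely generated submodule if `J[m]` is finite. -/
theorem exists_fg_of_finite_torsion (m : ℤ) (hfin : {y : J | m • y = 0}.Finite) :
    ∃ Y : Submodule O (O ⊗[ℤ] J), Y.FG ∧ ∀ x : O ⊗[ℤ] J, m • x = 0 → x ∈ Y := by
  set K := LinearMap.ker (m • (LinearMap.id : J →ₗ[ℤ] J)) with hK
  have hKfin : Finite K := by
    have : (K : Set J) = {y : J | m • y = 0} := by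
      ext y
      simp [hK]
    exact Set.finite_coe_iff.mpr (this ▸ hfin)
  have hmod : Module.Finite ℤ K := Module.Finite.of_finite
  refine ⟨LinearMap.range (K.subtype.baseChange O), ?_, ?_⟩
  · rw [LinearMap.range_eq_map]
    exact Submodule.FG.map _ (Module.Finite.fg_top)
  · intro x hx
    obtain ⟨z, hz⟩ := exists_lTensor_eq_of_smul_eq_zero O m x hx
    exact ⟨z, hz⟩

end Transfer

/-! ### The action on `O ⊗ J` -/

section TensorAction

variable (O : Type*) [CommRing O]
variable {G : Type*} [Group G]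
variable (J : Type*) [AddCommGroup J] [DistribMulAction G J]
variable {ι : Type*} (T : ι → J →+ J)

/-- The action of `γ` as a `ℤ`-linear map. -/
def actLin (γ : G) : J →ₗ[ℤ] J := (DistribSMul.toAddMonoidHom J γ).toIntLinearMap

@[simp] theorem actLin_apply (γ : G) (x : J) : actLin J γ x = γ • x := rfl

/-- The action of `G` on `O ⊗ J`. -/
def tensorRep : G →* Module.End O (O ⊗[ℤ] J) where
  toFun γ := (actLin J γ).baseChange O
  map_one' := by
    have h : actLin J (1 : G) = LinearMap.id := by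
      ext x
      simp
    rw [h, LinearMap.baseChange_id]
    rfl
  map_mul' γ δ := by
    have h : actLin J (γ * δ) = actLin J γ ∘ₗ actLin J δ := by
      ext x
      simp [mul_smul]
    rw [h, LinearMap.baseChange_comp]
    rfl

theorem tensorRep_apply (γ : G) (x : O ⊗[ℤ] J) :
    tensorRep O J γ x = (actLin J γ).baseChange O x := rfl

variable {J}

/-- The operators on `O ⊗ J`. -/
def tensorOp (i : ι) : O ⊗[ℤ] J →ₗ[O] O ⊗[ℤ] J := (T i).toIntLinearMap.baseChange O

theorem tensorOp_apply (i : ι) (x : O ⊗[ℤ] J) :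
    tensorOp O T i x = (T i).toIntLinearMap.baseChange O x := rfl

theorem tensorRep_tensorOp (hT : ∀ (i : ι) (γ : G) (x : J), T i (γ • x) = γ • T i x)
    (γ : G) (i : ι) (x : O ⊗[ℤ] J) :
    tensorRep O J γ (tensorOp O T i x) = tensorOp O T i (tensorRep O J γ x) := by
  have h : actLin J γ ∘ₗ (T i).toIntLinearMap = (T i).toIntLinearMap ∘ₗ actLin J γ := by
    ext y
    simp [hT]
  have h2 := congrArg (fun f : J →ₗ[ℤ] J => f.baseChange O x) h
  simp only [LinearMap.baseChange_comp, LinearMap.comp_apply] at h2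
  exact h2

end TensorAction

/-! ### Main theorem -/

section Main

variable (p : ℕ)
variable (O : Type) [CommRing O] [IsDomain O] [IsDiscreteValuationRing O]
  [IsAdicComplete (maximalIdeal O) O] [CharZero O]
variable {G : Type*} [Group G]
variable (J : Type) [AddCommGroup J] [DistribMulAction G J]
variable {ι : Type*} (T : ι → J →+ J) (a : ι → O)

theorem natCast_pow_smul (n : ℕ) (x : O ⊗[ℤ] J) :
    ((p : O)) ^ n • x = ((p ^ n : ℕ) : ℤ) • x := by
  rw [← Int.cast_smul_eq_zsmul O]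
  push_cast
  rfl

/-- **Abstract Tate module.**  Let `J` be an abelian group with an action of `G` and commuting
endomorphisms `T i`, with finite `p`-torsion, and let `v` be a nonzero compatible sequence of
eigenvectors in `(O ⊗ J)[p ^ (n + 1)]`.  Then there is a nonzero finite free `O`-module `M`
with an action `ρ` of `G` such that: elements of `G` fixing `J[p ^ n]` act trivially on
`M / 𝔪 ^ n M`; elements fixing `J[p ^ ∞]` act trivially; quadratic relations
`γ² - T i γ + c = 0` on `J[p ^ ∞]` give `ρ γ² - a i ρ γ + c = 0`. -/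
theorem exists_adic_eigenmodule (hpO : (p : O) ∈ maximalIdeal O) (hp0 : p ≠ 0)
    (hT : ∀ (i : ι) (γ : G) (x : J), T i (γ • x) = γ • T i x)
    (hfin : {x : J | p • x = 0}.Finite)
    (v : ℕ → O ⊗[ℤ] J) (hv0 : (p : O) • v 0 = 0) (hv : ∀ n, (p : O) • v (n + 1) = v n)
    (hne : v ≠ 0) (heig : ∀ i n, tensorOp O T i (v n) = a i • v n) :
    ∃ (M : Type) (_ : AddCommGroup M) (_ : Module O M) (_ : Module.Free O M)
      (_ : Module.Finite O M) (ρ : G →* Module.End O M),
      Nontrivial M ∧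
      (∀ (n : ℕ) (γ : G), (∀ x : J, p ^ n • x = 0 → γ • x = x) →
        ∀ m : M, ρ γ m - m ∈ (maximalIdeal O ^ n • ⊤ : Submodule O M)) ∧
      (∀ γ : G, (∀ x : J, (∃ n : ℕ, p ^ n • x = 0) → γ • x = x) → ρ γ = 1) ∧
      (∀ (γ : G) (i : ι) (c : ℤ),
        (∀ x : J, (∃ n : ℕ, p ^ n • x = 0) → γ • γ • x - T i (γ • x) + c • x = 0) →
        ρ γ * ρ γ - a i • ρ γ + (c : O) • (1 : Module.End O M) = 0) := by
  have hϖ0 : (p : O) ≠ 0 := by exact_mod_cast hp0
  have hX : ∃ Y : Submodule O (O ⊗[ℤ] J), Y.FG ∧ ∀ x : O ⊗[ℤ] J, (p : O) • x = 0 → x ∈ Y := by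
    obtain ⟨Y, hY, hYX⟩ := exists_fg_of_finite_torsion O (J := J) (p : ℤ) (by
      have : {y : J | (p : ℤ) • y = 0} = {x : J | p • x = 0} := by
        ext y
        simp
      rw [this]
      exact hfin)
    refine ⟨Y, hY, fun x hx => hYX x ?_⟩
    have := natCast_pow_smul p O J 1 x
    simp only [pow_one] at this
    rw [← this]
    exact hx
  have hρ := tensorRep_tensorOp O T hT
  have hfree := tateEigen_free (t := tensorOp O T) (a := a) hpO hϖ0 hX
  have hfinite := tateEigen_finite (t := tensorOp O T) (a := a) hpO hϖ0 hX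
  -- transfer of relations
  have htrans : ∀ (A : J →ₗ[ℤ] J) (n : ℕ), (∀ y : J, p ^ n • y = 0 → A y = 0) →
      ∀ x : O ⊗[ℤ] J, (p : O) ^ n • x = 0 → A.baseChange O x = 0 := by
    intro A n hA x hx
    apply baseChange_eq_zero_of_torsion O ((p ^ n : ℕ) : ℤ) A
    · intro y hy
      apply hA
      rwa [natCast_zsmul] at hy
    · rw [← natCast_pow_smul]
      exact hx
  refine ⟨tateEigen (p : O) (tensorOp O T) a, inferInstance, inferInstance, hfree, hfinite,
    tateRep (tensorRep O J) hρ, ?_, ?_, ?_, ?_⟩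
  · refine ⟨⟨⟨v, hv0, hv, heig⟩, 0, ?_⟩⟩
    intro h
    exact hne (congrArg Subtype.val h)
  · intro n γ hγ m
    apply tateRep_sub_mem (tensorRep O J) hρ hpO n γ
    intro x hx
    have h1 := htrans (actLin J γ - LinearMap.id) n (fun y hy => by
      simp [hγ y hy]) x hx
    rw [LinearMap.baseChange_sub, LinearMap.baseChange_id, LinearMap.sub_apply,
      LinearMap.id_apply, sub_eq_zero] at h1
    exact h1
  · intro γ hγ
    apply tateRep_eq_one
    rintro x ⟨n, hx⟩
    have h1 := htrans (actLin J γ - LinearMap.id) n (fun y hy => by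
      simp [hγ y ⟨n, hy⟩]) x hx
    rw [LinearMap.baseChange_sub, LinearMap.baseChange_id, LinearMap.sub_apply,
      LinearMap.id_apply, sub_eq_zero] at h1
    exact h1
  · intro γ i c hγ
    apply tateRep_quadratic
    rintro x ⟨n, hx⟩
    have h1 := htrans (actLin J γ ∘ₗ actLin J γ - (T i).toIntLinearMap ∘ₗ actLin J γ
      + c • LinearMap.id) n (fun y hy => by
        have := hγ y ⟨n, hy⟩
        simpa using this) x hx
    rw [LinearMap.baseChange_add, LinearMap.baseChange_sub, LinearMap.baseChange_comp,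
      LinearMap.baseChange_comp, LinearMap.baseChange_smul, LinearMap.baseChange_id] at h1
    simp only [LinearMap.add_apply, LinearMap.sub_apply, LinearMap.comp_apply,
      LinearMap.smul_apply, LinearMap.id_apply] at h1
    rw [Int.cast_smul_eq_zsmul]
    exact h1

end Main

end

end Fermat.Agent.S30.H529

end
-- ===== PACK-END S30/H529/TateTensor.lean

-- ===== PACK-BEGIN S35/H891/Cubic.lean
section
/-
S35 top glue for the CUBIC relation, pure algebra (helper891).  Mathlib only.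

`trace_of_cubicFrob` : on a nontrivial torsion-free module over a domain in which `q ≠ 0`, an
endomorphism `s` with `s² - a s + q = 0` and `(s² - q²)(s² - 1)² = 0` has `a = ± (q + 1)`.
`quartic_of_cubicFrob` : hence `(s² - 1)(s² - q²) = 0`.
-/


set_option autoImplicit false

namespace Fermat.Agent.S35.H891

section

variable {𝒪 M : Type*} [CommRing 𝒪] [IsDomain 𝒪] [AddCommGroup M] [Module 𝒪 M]
  [Module.IsTorsionFree 𝒪 M]

/-- The cubic bad-Frobenius relation `(φ - q²)(φ - 1)² = 0`, `φ = s²`, applied to vectors: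
`φ³ v - (2 + q²) φ² v + (1 + 2 q²) φ v - q² v = 0`. -/
def CubicFrobRel (q : 𝒪) (s : Module.End 𝒪 M) : Prop :=
  ∀ v : M, s (s (s (s (s (s v))))) - (2 + q ^ 2) • s (s (s (s v))) + (1 + 2 * q ^ 2) • s (s v)
    - (q ^ 2) • v = 0

/-- An eigenvector of `s` for the eigenvalue `c` forces `c² - a c + q = 0`. -/
theorem quad_of_eigenvector {q a c : 𝒪} {s : Module.End 𝒪 M}
    (hrel : ∀ v : M, s (s v) - a • s v + q • v = 0) {v : M} (hv : v ≠ 0) (hsv : s v = c • v) :
    c * c - a * c + q = 0 := by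
  have h := hrel v
  rw [hsv, map_smul, hsv, smul_smul, smul_smul, ← sub_smul, ← add_smul] at h
  rcases smul_eq_zero.mp h with h0 | h0
  · exact h0
  · exact absurd h0 hv

/-- **Algebraic core.**  A quadratic relation with constant term `q` together with the cubic
bad-Frobenius relation pins the trace down to `± (q + 1)`. -/
theorem trace_of_cubicFrob [Nontrivial M] {q a : 𝒪} (hq : q ≠ 0) {s : Module.End 𝒪 M}
    (hrel : ∀ v : M, s (s v) - a • s v + q • v = 0) (hcub : CubicFrobRel q s) :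
    a = q + 1 ∨ a = -(q + 1) := by
  obtain ⟨v, hv⟩ := exists_ne (0 : M)
  -- eigenvalue cases
  have case_one : ∀ u : M, u ≠ 0 → s u - u = 0 → a = q + 1 ∨ a = -(q + 1) := by
    intro u hu h
    have hsu : s u = (1 : 𝒪) • u := by rw [one_smul]; exact sub_eq_zero.mp h
    have := quad_of_eigenvector hrel hu hsu
    left
    linear_combination -this
  have case_neg_one : ∀ u : M, u ≠ 0 → s u + u = 0 → a = q + 1 ∨ a = -(q + 1) := by
    intro u hu h
    have hsu : s u = (-1 : 𝒪) • u := by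
      rw [neg_smul, one_smul]; exact eq_neg_of_add_eq_zero_left h
    have := quad_of_eigenvector hrel hu hsu
    right
    linear_combination this
  have case_q : ∀ u : M, u ≠ 0 → s u - q • u = 0 → a = q + 1 ∨ a = -(q + 1) := by
    intro u hu h
    have hsu : s u = q • u := sub_eq_zero.mp h
    have := quad_of_eigenvector hrel hu hsu
    left
    have h5 : q * (q - a + 1) = 0 := by linear_combination this
    rcases mul_eq_zero.mp h5 with h6 | h6
    · exact absurd h6 hq
    · linear_combination -h6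
  have case_neg_q : ∀ u : M, u ≠ 0 → s u + q • u = 0 → a = q + 1 ∨ a = -(q + 1) := by
    intro u hu h
    have hsu : s u = (-q) • u := by
      rw [neg_smul]; exact eq_neg_of_add_eq_zero_left h
    have := quad_of_eigenvector hrel hu hsu
    right
    have h5 : q * (q + a + 1) = 0 := by linear_combination this
    rcases mul_eq_zero.mp h5 with h6 | h6
    · exact absurd h6 hq
    · linear_combination h6
  -- the six factors `(s+1)(s+1)(s-1)(s-1)(s+q)(s-q)`
  set v₁ : M := s v + v with hv₁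
  set v₂ : M := s v₁ + v₁ with hv₂
  set v₃ : M := s v₂ - v₂ with hv₃
  set v₄ : M := s v₃ - v₃ with hv₄
  set v₅ : M := s v₄ + q • v₄ with hv₅
  have h6 : s v₅ - q • v₅ = 0 := by
    have := hcub v
    rw [hv₅, hv₄, hv₃, hv₂, hv₁]
    simp only [map_add, map_sub, map_smul]
    rw [← this]
    module
  by_cases h1 : v₁ = 0
  · exact case_neg_one v hv (by rw [← hv₁]; exact h1)
  by_cases h2 : v₂ = 0
  · exact case_neg_one v₁ h1 (by rw [← hv₂]; exact h2)
  by_cases h3 : v₃ = 0
  · exact case_one v₂ h2 (by rw [← hv₃]; exact h3)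
  by_cases h4 : v₄ = 0
  · exact case_one v₃ h3 (by rw [← hv₄]; exact h4)
  by_cases h5 : v₅ = 0
  · exact case_neg_q v₄ h4 (by rw [← hv₅]; exact h5)
  exact case_q v₅ h5 h6

/-- The quartic relation `(s² - 1)(s² - q²) = 0` from the quadratic relation with trace
`± (q + 1)`. -/
theorem quartic_of_trace {q a : 𝒪} {s : Module.End 𝒪 M}
    (hrel : ∀ v : M, s (s v) - a • s v + q • v = 0) (ha : a = q + 1 ∨ a = -(q + 1)) (v : M) :
    s (s (s (s v))) - (1 + q ^ 2) • s (s v) + (q ^ 2) • v = 0 := by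
  have h2 : s (s v) = a • s v - q • v := by
    have h := hrel v
    have h' : s (s v) = s (s v) - a • s v + q • v + (a • s v - q • v) := by abel
    rw [h', h, zero_add]
  have h3 : s (s (s v)) = (a ^ 2 - q) • s v - (a * q) • v := by
    rw [h2, map_sub, map_smul, map_smul, h2]
    module
  have h4 : s (s (s (s v))) = (a ^ 3 - 2 * a * q) • s v + (q ^ 2 - a ^ 2 * q) • v := by
    rw [h3, map_sub, map_smul, map_smul, h2]
    module
  rw [h4, h2]
  rcases ha with rfl | rfl
  · module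
  · module

/-- **The quartic relation from the cubic one.** -/
theorem quartic_of_cubicFrob [Nontrivial M] {q a : 𝒪} (hq : q ≠ 0) {s : Module.End 𝒪 M}
    (hrel : ∀ v : M, s (s v) - a • s v + q • v = 0) (hcub : CubicFrobRel q s) (v : M) :
    s (s (s (s v))) - (1 + q ^ 2) • s (s v) + (q ^ 2) • v = 0 :=
  quartic_of_trace hrel (trace_of_cubicFrob hq hrel hcub) v

end

end Fermat.Agent.S35.H891

end
-- ===== PACK-END S35/H891/Cubic.lean

-- ===== PACK-BEGIN Lib/Cheb/H761/Sieve.lean
section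


/-!
# Euler products over the prime ideals of a Dedekind domain, sieve form

Let `R` be a Dedekind domain and `f : Ideal R → 𝕜` a summable, completely multiplicative function
(`f (I * J) = f I * f J`, `f ⊤ = 1`).  For a set `S` of nonzero primes let `sieveSet S` be the set
of nonzero ideals divisible by no prime of `S`.  Then

* `tsum_sieve_finset` : `∑_{I ∈ sieveSet T} f I = ∏_{𝔭 ∈ T} (1 - f 𝔭) * ∑_{I ≠ 0} f I`
  for every finite set `T` of primes;
* `tendsto_tsum_sieve` : `∑_{I ∈ sieveSet T} f I → 1` along `T → all primes`;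
* `tendsto_prod_one_sub` : `∏_{𝔭 ∈ T} (1 - f 𝔭) → (∑_{I ≠ 0} f I)⁻¹`, and `∑_{I ≠ 0} f I ≠ 0`.
-/

set_option autoImplicit false

namespace Fermat.Agent.Lib.Cheb.H761

open IsDedekindDomain Filter Topology

section Sieve

set_option linter.unusedSectionVars false

variable {R : Type*} [CommRing R] [IsDedekindDomain R]

/-- nonzero ideals not divisible by any prime of `S` -/
def sieveSet (S : Set (HeightOneSpectrum R)) : Set (Ideal R) :=
  {I | I ≠ ⊥ ∧ ∀ 𝔭 ∈ S, ¬ I ≤ 𝔭.asIdeal}

lemma mem_sieveSet {S : Set (HeightOneSpectrum R)} {I : Ideal R} :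
    I ∈ sieveSet S ↔ I ≠ ⊥ ∧ ∀ 𝔭 ∈ S, ¬ I ≤ 𝔭.asIdeal := Iff.rfl

lemma mem_sieveSet_empty {I : Ideal R} :
    I ∈ sieveSet (∅ : Set (HeightOneSpectrum R)) ↔ I ≠ ⊥ := by
  simp [sieveSet]

lemma top_mem_sieveSet (S : Set (HeightOneSpectrum R)) : (⊤ : Ideal R) ∈ sieveSet S := by
  refine ⟨top_ne_bot, fun 𝔭 _ h => ?_⟩
  exact 𝔭.isPrime.ne_top (top_le_iff.mp h)

lemma sieveSet_anti {S T : Set (HeightOneSpectrum R)} (h : S ⊆ T) : sieveSet T ⊆ sieveSet S :=
  fun _ hI => ⟨hI.1, fun 𝔭 h𝔭 => hI.2 𝔭 (h h𝔭)⟩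

lemma mul_mem_sieveSet {S : Set (HeightOneSpectrum R)} {𝔭 : HeightOneSpectrum R} (h𝔭 : 𝔭 ∉ S)
    {J : Ideal R} (hJ : J ∈ sieveSet S) : 𝔭.asIdeal * J ∈ sieveSet S := by
  refine ⟨?_, fun 𝔮 h𝔮 hle => ?_⟩
  · rw [← Ideal.zero_eq_bot]
    exact mul_ne_zero (by rw [Ideal.zero_eq_bot]; exact 𝔭.ne_bot)
      (by rw [Ideal.zero_eq_bot]; exact hJ.1)
  · rcases 𝔮.isPrime.mul_le.mp hle with h | h
    · have : 𝔭 = 𝔮 := by
        apply HeightOneSpectrum.ext
        exact (𝔭.isMaximal.eq_of_le 𝔮.isPrime.ne_top h)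
      exact h𝔭 (this ▸ h𝔮)
    · exact hJ.2 𝔮 h𝔮 h

lemma sieveSet_eq_union (S : Set (HeightOneSpectrum R)) {𝔭 : HeightOneSpectrum R} (h𝔭 : 𝔭 ∉ S) :
    sieveSet S = sieveSet (insert 𝔭 S) ∪ (fun I => 𝔭.asIdeal * I) '' sieveSet S := by
  ext I
  constructor
  · intro hI
    by_cases hle : I ≤ 𝔭.asIdeal
    · right
      obtain ⟨J, rfl⟩ := Ideal.dvd_iff_le.mpr hle
      refine ⟨J, ⟨?_, fun 𝔮 h𝔮 hJ => ?_⟩, rfl⟩
      · rintro rfl
        exact hI.1 (by simp)
      · exact hI.2 𝔮 h𝔮 (Ideal.mul_le_right.trans hJ)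
    · left
      refine ⟨hI.1, fun 𝔮 h𝔮 => ?_⟩
      rcases Set.mem_insert_iff.mp h𝔮 with rfl | h
      · exact hle
      · exact hI.2 𝔮 h
  · rintro (hI | ⟨J, hJ, rfl⟩)
    · exact sieveSet_anti (Set.subset_insert _ _) hI
    · exact mul_mem_sieveSet h𝔭 hJ

lemma disjoint_sieveSet_image (S : Set (HeightOneSpectrum R)) (𝔭 : HeightOneSpectrum R) :
    Disjoint (sieveSet (insert 𝔭 S)) ((fun I => 𝔭.asIdeal * I) '' sieveSet S) := by
  rw [Set.disjoint_left]
  rintro I hI ⟨J, -, rfl⟩
  exact hI.2 𝔭 (Set.mem_insert _ _) (show 𝔭.asIdeal * J ≤ 𝔭.asIdeal from Ideal.mul_le_left)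

lemma injOn_mul (S : Set (HeightOneSpectrum R)) (𝔭 : HeightOneSpectrum R) :
    Set.InjOn (fun I => 𝔭.asIdeal * I) (sieveSet S) := by
  intro I _ J _ h
  have h0 : 𝔭.asIdeal ≠ 0 := by rw [Ideal.zero_eq_bot]; exact 𝔭.ne_bot
  exact mul_left_cancel₀ h0 h

variable {𝕜 : Type*} [NormedField 𝕜] [CompleteSpace 𝕜] {f : Ideal R → 𝕜}

/-- One sieve step. -/
theorem tsum_sieve_insert (hf : Summable f) (hmul : ∀ I J, f (I * J) = f I * f J)
    (S : Set (HeightOneSpectrum R)) {𝔭 : HeightOneSpectrum R} (h𝔭 : 𝔭 ∉ S) :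
    ∑' I : sieveSet (insert 𝔭 S), f I = (1 - f 𝔭.asIdeal) * ∑' I : sieveSet S, f I := by
  have h1 : ∑' I : sieveSet S, f I =
      ∑' I : ↥(sieveSet (insert 𝔭 S) ∪ (fun I => 𝔭.asIdeal * I) '' sieveSet S), f I :=
    tsum_congr_set_coe f (sieveSet_eq_union S h𝔭)
  rw [(hf.subtype _).tsum_union_disjoint (disjoint_sieveSet_image S 𝔭) (hf.subtype _),
    tsum_image f (injOn_mul S 𝔭)] at h1
  simp only [hmul] at h1
  rw [tsum_mul_left] at h1
  linear_combination -h1

/-- Finitely many sieve steps. -/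
theorem tsum_sieve_finset (hf : Summable f) (hmul : ∀ I J, f (I * J) = f I * f J)
    (T : Finset (HeightOneSpectrum R)) :
    ∑' I : sieveSet (T : Set (HeightOneSpectrum R)), f I =
      (∏ 𝔭 ∈ T, (1 - f 𝔭.asIdeal)) * ∑' I : sieveSet (∅ : Set (HeightOneSpectrum R)), f I := by
  classical
  induction T using Finset.induction_on with
  | empty =>
    rw [Finset.prod_empty, one_mul]
    exact tsum_congr_set_coe f (by rw [Finset.coe_empty])
  | insert 𝔭 T h𝔭 ih =>
    rw [Finset.coe_insert, tsum_sieve_insert hf hmul _ (by simpa using h𝔭), ih,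
      Finset.prod_insert h𝔭, mul_assoc]

/-- Every nonzero proper ideal is contained in a nonzero prime. -/
lemma exists_le_heightOneSpectrum {I : Ideal R} (h0 : I ≠ ⊥) (h1 : I ≠ ⊤) :
    ∃ 𝔭 : HeightOneSpectrum R, I ≤ 𝔭.asIdeal := by
  obtain ⟨M, hM, hle⟩ := Ideal.exists_le_maximal I h1
  refine ⟨⟨M, hM.isPrime, ?_⟩, hle⟩
  rintro rfl
  exact h0 (le_bot_iff.mp hle)

/-- The sieved sums tend to `1`. -/
theorem tendsto_tsum_sieve (hf : Summable f) (h1 : f ⊤ = 1) :
    Tendsto (fun T : Finset (HeightOneSpectrum R) =>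
      ∑' I : sieveSet (T : Set (HeightOneSpectrum R)), f I) atTop (𝓝 1) := by
  classical
  rw [tendsto_nhds]
  intro e he_open he1
  have he0 : (fun x : 𝕜 => 1 + x) ⁻¹' e ∈ 𝓝 (0 : 𝕜) := by
    apply (continuous_const.add continuous_id).continuousAt.preimage_mem_nhds
    simpa using he_open.mem_nhds he1
  obtain ⟨A, hA⟩ := hf.tsum_vanishing he0
  -- a prime above each nonzero proper ideal of `A`
  let g : Ideal R → Finset (HeightOneSpectrum R) := fun I =>
    if h : I ≠ ⊥ ∧ I ≠ ⊤ then {(exists_le_heightOneSpectrum h.1 h.2).choose} else ∅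
  have hg : ∀ I, I ≠ ⊥ → I ≠ ⊤ → ∃ 𝔭 ∈ g I, I ≤ 𝔭.asIdeal := by
    intro I h0 h1
    refine ⟨(exists_le_heightOneSpectrum h0 h1).choose, ?_,
      (exists_le_heightOneSpectrum h0 h1).choose_spec⟩
    simp only [g, dif_pos (And.intro h0 h1), Finset.mem_singleton]
  rw [Filter.mem_atTop_sets]
  refine ⟨A.biUnion g, fun T hT => ?_⟩
  rw [Set.mem_preimage]
  -- split off the unit ideal
  have hsplit : sieveSet (T : Set (HeightOneSpectrum R)) =
      {⊤} ∪ (sieveSet (T : Set (HeightOneSpectrum R)) \ {⊤}) := by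
    rw [Set.union_sdiff_self, Set.union_eq_self_of_subset_left]
    exact Set.singleton_subset_iff.mpr (top_mem_sieveSet _)
  have hdisj : Disjoint ({⊤} : Set (Ideal R))
      (sieveSet (T : Set (HeightOneSpectrum R)) \ {⊤}) := Set.disjoint_sdiff_right
  have hsum : ∑' I : sieveSet (T : Set (HeightOneSpectrum R)), f I =
      1 + ∑' I : ↥(sieveSet (T : Set (HeightOneSpectrum R)) \ {⊤}), f I := by
    rw [tsum_congr_set_coe f hsplit,
      (hf.subtype _).tsum_union_disjoint hdisj (hf.subtype _), tsum_singleton (⊤ : Ideal R) f, h1]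
  rw [hsum]
  apply hA
  rw [Set.disjoint_left]
  rintro I ⟨hI, hItop⟩ hIA
  obtain ⟨𝔭, h𝔭, hle⟩ := hg I hI.1 (by simpa using hItop)
  exact hI.2 𝔭 (Finset.mem_coe.mpr (hT (Finset.mem_biUnion.mpr ⟨I, hIA, h𝔭⟩))) hle

/-- The sum over all nonzero ideals is nonzero. -/
theorem tsum_sieve_empty_ne_zero (hf : Summable f) (hmul : ∀ I J, f (I * J) = f I * f J)
    (h1 : f ⊤ = 1) : ∑' I : sieveSet (∅ : Set (HeightOneSpectrum R)), f I ≠ 0 := by
  intro h0
  have h := tendsto_tsum_sieve hf h1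
  simp only [tsum_sieve_finset hf hmul, h0, mul_zero] at h
  exact zero_ne_one (tendsto_nhds_unique tendsto_const_nhds h)

/-- **Euler product**: the finite products `∏_{𝔭 ∈ T} (1 - f 𝔭)` tend to the inverse of the sum of
`f` over all nonzero ideals. -/
theorem tendsto_prod_one_sub (hf : Summable f) (hmul : ∀ I J, f (I * J) = f I * f J)
    (h1 : f ⊤ = 1) :
    Tendsto (fun T : Finset (HeightOneSpectrum R) => ∏ 𝔭 ∈ T, (1 - f 𝔭.asIdeal)) atTop
      (𝓝 (∑' I : sieveSet (∅ : Set (HeightOneSpectrum R)), f I)⁻¹) := by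
  have hZ := tsum_sieve_empty_ne_zero hf hmul h1
  have h := (tendsto_tsum_sieve hf h1).mul_const
    (∑' I : sieveSet (∅ : Set (HeightOneSpectrum R)), f I)⁻¹
  simp only [tsum_sieve_finset hf hmul, one_mul] at h
  refine h.congr fun T => ?_
  rw [mul_assoc, mul_inv_cancel₀ hZ, mul_one]

/-- **Euler product**, `HasProd` form. -/
theorem hasProd_one_sub (hf : Summable f) (hmul : ∀ I J, f (I * J) = f I * f J)
    (h1 : f ⊤ = 1) :
    HasProd (fun 𝔭 : HeightOneSpectrum R => 1 - f 𝔭.asIdeal)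
      (∑' I : sieveSet (∅ : Set (HeightOneSpectrum R)), f I)⁻¹ := by
  simpa [HasProd] using tendsto_prod_one_sub hf hmul h1

end Sieve

end Fermat.Agent.Lib.Cheb.H761

end
-- ===== PACK-END Lib/Cheb/H761/Sieve.lean

-- ===== PACK-BEGIN Lib/Cheb/H761/ZetaEuler.lean
section


/-!
# Euler product and prime-ideal sum for the Dedekind zeta function

For a number field `K` and real `s > 1`:
* `zetaI K s = ∑_I N(I)^(-s)` (sum over all ideals; the zero ideal contributes `0`), equal to
  Mathlib's `dedekindZeta K s`;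
* `tendsto_prod_zetaI` : `∏_{𝔭 ∈ T} (1 - N𝔭^(-s)) → (zetaI K s)⁻¹`;
* `primeSum K s = ∑_𝔭 N𝔭^(-s)` and `primeSum K s ≤ log (zetaI K s) ≤ primeSum K s + 2 primeSum K (2 s)`;
* `exists_primeSum_bound` : `|primeSum K s - log (1 / (s - 1))| ≤ C` for `1 < s ≤ 2`.
-/

set_option autoImplicit false

namespace Fermat.Agent.Lib.Cheb.H761

open IsDedekindDomain Filter Topology NumberField Ideal Asymptotics

set_option linter.unusedSectionVars false
set_option linter.unusedVariables false

noncomputable section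

variable (K : Type*) [Field K] [NumberField K]

/-- `N(I)^(-s)` -/
def normPow (s : ℝ) (I : Ideal (𝓞 K)) : ℝ := (absNorm I : ℝ) ^ (-s)

lemma normPow_nonneg (s : ℝ) (I : Ideal (𝓞 K)) : 0 ≤ normPow K s I :=
  Real.rpow_nonneg (Nat.cast_nonneg _) _

lemma normPow_mul (s : ℝ) (I J : Ideal (𝓞 K)) :
    normPow K s (I * J) = normPow K s I * normPow K s J := by
  simp only [normPow, map_mul, Nat.cast_mul]
  exact Real.mul_rpow (Nat.cast_nonneg _) (Nat.cast_nonneg _)

lemma normPow_top (s : ℝ) : normPow K s ⊤ = 1 := by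
  simp [normPow]

lemma normPow_bot {s : ℝ} (hs : s ≠ 0) : normPow K s ⊥ = 0 := by
  simp [normPow, Real.zero_rpow (neg_ne_zero.mpr hs)]

/-- number of ideals of norm `n` -/
def idealCount (n : ℕ) : ℕ := Nat.card {I : Ideal (𝓞 K) // absNorm I = n}

/-- The sum of `N(I)^(-s)` over all ideals of norm `n`. -/
lemma tsum_fiber (s : ℝ) (n : ℕ) :
    ∑' I : {I : Ideal (𝓞 K) // absNorm I = n}, normPow K s I.1 =
      (idealCount K n : ℝ) * (n : ℝ) ^ (-s) := by
  have hfin : Finite {I : Ideal (𝓞 K) // absNorm I = n} :=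
    (Ideal.finite_setOfPred_absNorm_eq n).to_subtype
  have : Fintype {I : Ideal (𝓞 K) // absNorm I = n} := Fintype.ofFinite _
  rw [tsum_fintype]
  have : ∀ I : {I : Ideal (𝓞 K) // absNorm I = n}, normPow K s I.1 = (n : ℝ) ^ (-s) := by
    intro I
    simp only [normPow, I.2]
  simp only [this, Finset.sum_const, Finset.card_univ, nsmul_eq_mul, idealCount,
    Nat.card_eq_fintype_card]

lemma tendsto_sum_idealCount_div :
    Tendsto (fun n : ℕ ↦ (∑ k ∈ Finset.Icc 1 n, (idealCount K k : ℝ)) / (n : ℝ)) atTop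
      (𝓝 (dedekindZeta_residue K)) := by
  refine ((Ideal.tendsto_norm_le_div_atTop₀ K).comp tendsto_natCast_atTop_atTop).congr fun n ↦ ?_
  simp only [Function.comp_apply, Nat.cast_le, idealCount, ← Nat.cast_sum]
  congr
  rw [← add_left_inj 1, ← card_norm_le_eq_card_norm_le_add_one,
    show Finset.Icc 1 n = Finset.Ioc 0 n from Finset.Icc_succ_left_eq_Ioc _ _,
    show 1 = Nat.card {I : Ideal (𝓞 K) // absNorm I = 0} by simp [Ideal.absNorm_eq_zero_iff],
    Finset.sum_Ioc_add_eq_sum_Icc (n.zero_le),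
    ← Finset.card_preimage_eq_sum_card_image_eq (fun k _ ↦ finite_setOfPred_absNorm_eq k)]
  simp [Set.coe_eq_subtype]

lemma lseriesSummable_idealCount {s : ℝ} (hs : 1 < s) :
    LSeriesSummable (fun n ↦ ((idealCount K n : ℝ) : ℂ)) (s : ℂ) := by
  refine LSeriesSummable_of_sum_norm_bigO_and_nonneg ?_ (fun n => Nat.cast_nonneg _) zero_le_one
    (by simpa using hs)
  exact isBigO_atTop_natCast_rpow_of_tendsto_div_rpow
    (by simpa using tendsto_sum_idealCount_div K)

lemma term_eq {s : ℝ} (hs : 1 < s) (n : ℕ) :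
    LSeries.term (fun n ↦ ((idealCount K n : ℝ) : ℂ)) (s : ℂ) n =
      (((idealCount K n : ℝ) * (n : ℝ) ^ (-s) : ℝ) : ℂ) := by
  rcases eq_or_ne n 0 with rfl | hn
  · have : (0 : ℝ) ^ (-s) = 0 := Real.zero_rpow (by linarith)
    simp [this]
  · rw [LSeries.term_of_ne_zero hn, Complex.ofReal_mul,
      Complex.ofReal_cpow (Nat.cast_nonneg n), Complex.ofReal_neg, Complex.cpow_neg]
    simp [div_eq_mul_inv]

/-- the `ℕ`-indexed real series is summable for `s > 1` -/
lemma summable_idealCount {s : ℝ} (hs : 1 < s) :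
    Summable (fun n : ℕ ↦ (idealCount K n : ℝ) * (n : ℝ) ^ (-s)) := by
  have h := lseriesSummable_idealCount K hs
  have h2 : Summable (fun n : ℕ ↦ (((idealCount K n : ℝ) * (n : ℝ) ^ (-s) : ℝ) : ℂ)) :=
    h.congr fun n ↦ term_eq K hs n
  exact Complex.summable_ofReal.mp h2

/-- `N(I)^(-s)` is summable over all ideals, `s > 1`. -/
theorem summable_normPow {s : ℝ} (hs : 1 < s) : Summable (normPow K s) := by
  have key : Summable (fun x : Σ n : ℕ, {I : Ideal (𝓞 K) // absNorm I = n} =>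
      normPow K s x.2.1) := by
    rw [summable_sigma_of_nonneg (fun x => normPow_nonneg K s _)]
    refine ⟨fun n => ?_, ?_⟩
    · have hfin : Finite {I : Ideal (𝓞 K) // absNorm I = n} :=
        (Ideal.finite_setOfPred_absNorm_eq n).to_subtype
      exact Summable.of_finite
    · refine (summable_idealCount K hs).congr fun n => ?_
      exact (tsum_fiber K s n).symm
  exact ((Equiv.sigmaFiberEquiv (fun I : Ideal (𝓞 K) => absNorm I)).summable_iff
    (f := normPow K s)).mp key

/-- the Dedekind zeta function as a sum over ideals -/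
def zetaI (s : ℝ) : ℝ := ∑' I : Ideal (𝓞 K), normPow K s I

lemma zetaI_eq_tsum_nat {s : ℝ} (hs : 1 < s) :
    zetaI K s = ∑' n : ℕ, (idealCount K n : ℝ) * (n : ℝ) ^ (-s) := by
  have hsum := summable_normPow K hs
  have hsum' : Summable (fun x : Σ n : ℕ, {I : Ideal (𝓞 K) // absNorm I = n} =>
      normPow K s x.2.1) :=
    ((Equiv.sigmaFiberEquiv (fun I : Ideal (𝓞 K) => absNorm I)).summable_iff
      (f := normPow K s)).mpr hsum
  calc zetaI K s
      = ∑' x : Σ n : ℕ, {I : Ideal (𝓞 K) // absNorm I = n}, normPow K s x.2.1 :=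
        ((Equiv.sigmaFiberEquiv (fun I : Ideal (𝓞 K) => absNorm I)).tsum_eq (normPow K s)).symm
    _ = ∑' n : ℕ, ∑' I : {I : Ideal (𝓞 K) // absNorm I = n}, normPow K s I.1 :=
        hsum'.tsum_sigma
    _ = _ := tsum_congr fun n => tsum_fiber K s n

theorem dedekindZeta_eq_zetaI {s : ℝ} (hs : 1 < s) :
    dedekindZeta K (s : ℂ) = ((zetaI K s : ℝ) : ℂ) := by
  rw [zetaI_eq_tsum_nat K hs, dedekindZeta, LSeries, Complex.ofReal_tsum]
  refine tsum_congr fun n ↦ ?_
  rw [← term_eq K hs n]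
  rcases eq_or_ne n 0 with rfl | hn
  · simp
  · rw [LSeries.term_of_ne_zero hn, LSeries.term_of_ne_zero hn]
    simp [idealCount]

theorem tendsto_sub_one_mul_zetaI :
    Tendsto (fun s : ℝ ↦ (s - 1) * zetaI K s) (𝓝[>] 1) (𝓝 (dedekindZeta_residue K)) := by
  have h := tendsto_sub_one_mul_dedekindZeta_nhdsGT K
  have h2 : Tendsto (fun s : ℝ ↦ (((s - 1) * zetaI K s : ℝ) : ℂ)) (𝓝[>] 1)
      (𝓝 (dedekindZeta_residue K : ℂ)) := by
    refine h.congr' ?_
    filter_upwards [self_mem_nhdsWithin] with s hs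
    rw [dedekindZeta_eq_zetaI K hs]
    push_cast
    ring
  have h3 := (Complex.continuous_re.tendsto _).comp h2
  simpa [Function.comp_def] using h3

/-- the sum over nonzero ideals is `zetaI` -/
lemma tsum_sieveSet_empty {s : ℝ} (hs : 1 < s) :
    ∑' I : sieveSet (∅ : Set (HeightOneSpectrum (𝓞 K))), normPow K s I = zetaI K s := by
  have hsum := summable_normPow K hs
  have h : sieveSet (∅ : Set (HeightOneSpectrum (𝓞 K))) = ({⊥} : Set (Ideal (𝓞 K)))ᶜ := by
    ext I
    simp [mem_sieveSet_empty]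
  rw [tsum_congr_set_coe _ h, zetaI,
    ← (hsum.subtype _).tsum_add_tsum_compl (s := ({⊥} : Set (Ideal (𝓞 K)))) (hsum.subtype _),
    tsum_singleton (⊥ : Ideal (𝓞 K)) (normPow K s), normPow_bot K (by linarith), zero_add]

theorem one_le_zetaI {s : ℝ} (hs : 1 < s) : 1 ≤ zetaI K s := by
  have hsum := summable_normPow K hs
  have := hsum.sum_le_tsum {⊤} (fun I _ => normPow_nonneg K s I)
  simpa [normPow_top, zetaI] using this

theorem zetaI_pos {s : ℝ} (hs : 1 < s) : 0 < zetaI K s :=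
  lt_of_lt_of_le one_pos (one_le_zetaI K hs)

/-- **Euler product** for the Dedekind zeta function. -/
theorem tendsto_prod_zetaI {s : ℝ} (hs : 1 < s) :
    Tendsto (fun T : Finset (HeightOneSpectrum (𝓞 K)) =>
      ∏ 𝔭 ∈ T, (1 - normPow K s 𝔭.asIdeal)) atTop (𝓝 (zetaI K s)⁻¹) := by
  have h := tendsto_prod_one_sub (summable_normPow K hs) (normPow_mul K s) (normPow_top K s)
  rwa [tsum_sieveSet_empty K hs] at h

/-- the prime ideal sum `∑_𝔭 N𝔭^(-s)` -/
def primeSum (s : ℝ) : ℝ := ∑' 𝔭 : HeightOneSpectrum (𝓞 K), normPow K s 𝔭.asIdeal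

lemma asIdeal_injective :
    Function.Injective (fun 𝔭 : HeightOneSpectrum (𝓞 K) => 𝔭.asIdeal) :=
  fun _ _ h => HeightOneSpectrum.ext h

theorem summable_primeSum {s : ℝ} (hs : 1 < s) :
    Summable (fun 𝔭 : HeightOneSpectrum (𝓞 K) => normPow K s 𝔭.asIdeal) :=
  (summable_normPow K hs).comp_injective (asIdeal_injective K)

lemma two_le_absNorm (𝔭 : HeightOneSpectrum (𝓞 K)) : 2 ≤ absNorm 𝔭.asIdeal := by
  have h0 : absNorm 𝔭.asIdeal ≠ 0 := by
    rw [Ne, Ideal.absNorm_eq_zero_iff]; exact 𝔭.ne_bot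
  have h1 : absNorm 𝔭.asIdeal ≠ 1 := by
    rw [Ne, Ideal.absNorm_eq_one_iff]; exact 𝔭.isPrime.ne_top
  omega

lemma normPow_le_half {s : ℝ} (hs : 1 ≤ s) (𝔭 : HeightOneSpectrum (𝓞 K)) :
    normPow K s 𝔭.asIdeal ≤ 1 / 2 := by
  have h2 : (2 : ℝ) ≤ absNorm 𝔭.asIdeal := by exact_mod_cast two_le_absNorm K 𝔭
  have h0 : (0 : ℝ) < absNorm 𝔭.asIdeal := by linarith
  rw [normPow, Real.rpow_neg h0.le, one_div]
  apply inv_anti₀ (by norm_num)
  calc (2 : ℝ) ≤ absNorm 𝔭.asIdeal := h2
    _ = (absNorm 𝔭.asIdeal : ℝ) ^ (1 : ℝ) := (Real.rpow_one _).symm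
    _ ≤ (absNorm 𝔭.asIdeal : ℝ) ^ s := Real.rpow_le_rpow_of_exponent_le (by linarith) hs

lemma normPow_sq (s : ℝ) (I : Ideal (𝓞 K)) : normPow K s I ^ 2 = normPow K (2 * s) I := by
  rw [normPow, normPow, ← Real.rpow_natCast, ← Real.rpow_mul (Nat.cast_nonneg _)]
  congr 1
  push_cast
  ring

/-- `-log (1 - x) ≥ x` and `≤ x + 2 x²` for `0 ≤ x ≤ 1/2`. -/
lemma neg_log_one_sub_bounds {x : ℝ} (h0 : 0 ≤ x) (h1 : x ≤ 1 / 2) :
    x ≤ -Real.log (1 - x) ∧ -Real.log (1 - x) ≤ x + 2 * x ^ 2 := by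
  have hpos : 0 < 1 - x := by linarith
  constructor
  · have := Real.log_le_sub_one_of_pos hpos
    linarith
  · have h := Real.log_le_sub_one_of_pos (inv_pos.mpr hpos)
    rw [Real.log_inv] at h
    have h2 : (1 - x)⁻¹ - 1 ≤ x + 2 * x ^ 2 := by
      rw [sub_le_iff_le_add, inv_le_iff_one_le_mul₀ hpos]
      nlinarith [mul_nonneg h0 h0, mul_nonneg (mul_nonneg h0 h0) h0]
    linarith

/-- The sum of `log (1 - N𝔭^(-s))` over the primes is `-log ζ_K(s)`. -/
theorem hasSum_log_one_sub {s : ℝ} (hs : 1 < s) :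
    HasSum (fun 𝔭 : HeightOneSpectrum (𝓞 K) => Real.log (1 - normPow K s 𝔭.asIdeal))
      (-Real.log (zetaI K s)) := by
  have h := tendsto_prod_zetaI K hs
  have hZ : (zetaI K s)⁻¹ ≠ 0 := inv_ne_zero (zetaI_pos K hs).ne'
  have h2 := (Real.continuousAt_log hZ).tendsto.comp h
  rw [Real.log_inv] at h2
  rw [HasSum]
  refine h2.congr fun T => ?_
  simp only [Function.comp_apply]
  rw [Real.log_prod]
  intro 𝔭 _
  have := normPow_le_half K hs.le 𝔭
  linarith

/-- `∑_𝔭 N𝔭^(-s) ≤ log ζ_K(s) ≤ ∑_𝔭 N𝔭^(-s) + 2 ∑_𝔭 N𝔭^(-2s)`. -/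
theorem primeSum_le_log_zetaI {s : ℝ} (hs : 1 < s) :
    primeSum K s ≤ Real.log (zetaI K s) ∧
      Real.log (zetaI K s) ≤ primeSum K s + 2 * primeSum K (2 * s) := by
  have hlog := (hasSum_log_one_sub K hs).neg
  rw [neg_neg] at hlog
  have hP := (summable_primeSum K hs).hasSum
  have hP2 := (summable_primeSum K (show 1 < 2 * s by linarith)).hasSum
  constructor
  · refine hasSum_le (fun 𝔭 => ?_) hP hlog
    exact (neg_log_one_sub_bounds (normPow_nonneg K s _) (normPow_le_half K hs.le 𝔭)).1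
  · refine hasSum_le (fun 𝔭 => ?_) hlog (hP.add (hP2.mul_left 2))
    have := (neg_log_one_sub_bounds (normPow_nonneg K s _) (normPow_le_half K hs.le 𝔭)).2
    rw [normPow_sq] at this
    exact this

lemma normPow_anti {s t : ℝ} (hst : s ≤ t) (I : Ideal (𝓞 K)) (h0 : 0 < s) :
    normPow K t I ≤ normPow K s I := by
  rcases eq_or_ne I ⊥ with rfl | hI
  · rw [normPow_bot K h0.ne', normPow_bot K (h0.trans_le hst).ne']
  · have h1 : (1 : ℝ) ≤ absNorm I := by
      have : absNorm I ≠ 0 := by rwa [Ne, Ideal.absNorm_eq_zero_iff]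
      exact_mod_cast Nat.one_le_iff_ne_zero.mpr this
    exact Real.rpow_le_rpow_of_exponent_le h1 (by linarith)

theorem zetaI_anti {s t : ℝ} (hs : 1 < s) (hst : s ≤ t) : zetaI K t ≤ zetaI K s :=
  (summable_normPow K (hs.trans_le hst)).tsum_le_tsum
    (fun I => normPow_anti K hst I (by linarith)) (summable_normPow K hs)

theorem primeSum_nonneg (s : ℝ) : 0 ≤ primeSum K s :=
  tsum_nonneg fun _ => normPow_nonneg K s _

theorem primeSum_anti {s t : ℝ} (hs : 1 < s) (hst : s ≤ t) : primeSum K t ≤ primeSum K s :=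
  (summable_primeSum K (hs.trans_le hst)).tsum_le_tsum
    (fun 𝔭 => normPow_anti K hst 𝔭.asIdeal (by linarith)) (summable_primeSum K hs)

/-- `(s - 1) ζ_K(s)` is bounded above and below by positive constants on `(1, 2]`. -/
theorem exists_bounds_sub_one_mul_zetaI :
    ∃ c₁ c₂ : ℝ, 0 < c₁ ∧ c₁ ≤ c₂ ∧ ∀ s : ℝ, 1 < s → s ≤ 2 →
      c₁ ≤ (s - 1) * zetaI K s ∧ (s - 1) * zetaI K s ≤ c₂ := by
  have hρ := dedekindZeta_residue_pos K
  set ρ := dedekindZeta_residue K with hρdef
  have h := tendsto_sub_one_mul_zetaI K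
  have hev : ∀ᶠ s : ℝ in 𝓝[>] 1, ρ / 2 < (s - 1) * zetaI K s ∧ (s - 1) * zetaI K s < 2 * ρ :=
    (h.eventually (lt_mem_nhds (show ρ / 2 < ρ by linarith))).and
      (h.eventually (gt_mem_nhds (show ρ < 2 * ρ by linarith)))
  rw [eventually_nhdsWithin_iff, Metric.eventually_nhds_iff] at hev
  obtain ⟨δ, hδ, hδ2⟩ := hev
  set δ' := min δ 1 with hδ'
  have hδ'pos : 0 < δ' := lt_min hδ one_pos
  have hδ'le : δ' ≤ δ := min_le_left _ _
  set s₀ : ℝ := 1 + δ' / 2 with hs₀
  have hs₀1 : 1 < s₀ := by rw [hs₀]; linarith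
  have hZ₀ := one_le_zetaI K hs₀1
  refine ⟨min (ρ / 2) (δ' / 2), max (2 * ρ) (zetaI K s₀), lt_min (by linarith) (by linarith),
    (min_le_left _ _).trans ((by linarith : ρ / 2 ≤ 2 * ρ).trans (le_max_left _ _)),
    fun s hs1 hs2 => ?_⟩
  rcases lt_or_ge s s₀ with hlt | hge
  · have hd : dist s 1 < δ := by
      rw [Real.dist_eq, abs_of_pos (by linarith)]
      rw [hs₀] at hlt
      linarith
    have := hδ2 hd hs1
    exact ⟨(min_le_left _ _).trans this.1.le, this.2.le.trans (le_max_left _ _)⟩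
  · have h1 := one_le_zetaI K hs1
    have h2 := zetaI_anti K hs₀1 hge
    have hs0 : 0 < s - 1 := by linarith
    constructor
    · calc min (ρ / 2) (δ' / 2) ≤ δ' / 2 := min_le_right _ _
        _ ≤ (s - 1) * 1 := by rw [hs₀] at hge; linarith
        _ ≤ (s - 1) * zetaI K s := by gcongr
    · calc (s - 1) * zetaI K s ≤ 1 * zetaI K s₀ := by
            apply mul_le_mul (by linarith) h2 (by linarith) (by norm_num)
        _ ≤ max (2 * ρ) (zetaI K s₀) := by rw [one_mul]; exact le_max_right _ _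

/-- **The prime ideal sum** `∑_𝔭 N𝔭^(-s)` is `log (1 / (s - 1)) + O(1)` on `(1, 2]`. -/
theorem exists_primeSum_bound :
    ∃ C : ℝ, ∀ s : ℝ, 1 < s → s ≤ 2 → |primeSum K s + Real.log (s - 1)| ≤ C := by
  obtain ⟨c₁, c₂, hc₁, hc₁₂, hb⟩ := exists_bounds_sub_one_mul_zetaI K
  have hc₂ : 0 < c₂ := hc₁.trans_le hc₁₂
  refine ⟨max |Real.log c₁| |Real.log c₂| + 2 * primeSum K 2, fun s hs1 hs2 => ?_⟩
  obtain ⟨hlo, hhi⟩ := hb s hs1 hs2
  obtain ⟨hP1, hP2⟩ := primeSum_le_log_zetaI K hs1
  have hs0 : 0 < s - 1 := by linarith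
  have hZ := zetaI_pos K hs1
  have hlog : Real.log ((s - 1) * zetaI K s) = Real.log (s - 1) + Real.log (zetaI K s) :=
    Real.log_mul hs0.ne' hZ.ne'
  have hl1 : Real.log c₁ ≤ Real.log ((s - 1) * zetaI K s) := Real.log_le_log hc₁ hlo
  have hl2 : Real.log ((s - 1) * zetaI K s) ≤ Real.log c₂ :=
    Real.log_le_log (hc₁.trans_le hlo) hhi
  have hB : primeSum K (2 * s) ≤ primeSum K 2 :=
    primeSum_anti K (by norm_num) (by linarith)
  have hB0 := primeSum_nonneg K 2
  have hm1 : -max |Real.log c₁| |Real.log c₂| ≤ Real.log c₁ :=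
    (neg_le_neg (le_max_left _ _)).trans (neg_abs_le _)
  have hm2 : Real.log c₂ ≤ max |Real.log c₁| |Real.log c₂| :=
    (le_abs_self _).trans (le_max_right _ _)
  rw [abs_le]
  constructor <;> linarith

end

end Fermat.Agent.Lib.Cheb.H761

end
-- ===== PACK-END Lib/Cheb/H761/ZetaEuler.lean

-- ===== PACK-BEGIN S29/H571/Equivariant.lean
section


/-!
# Equivariance of pull-back / push-forward / correspondences of divisors
under semilinear automorphisms (helper571, piece GEQ of the S29 route)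

If `φ : F →ₐ[K] F'` and semilinear automorphisms `g` of `F`, `g'` of `F'` satisfy
`g' (φ x) = φ (g x)` (`SemilinearAut.IntertwinesAlong`), then restriction of places,
ramification indices, inertia degrees, pull-back and push-forward of divisors along `φ`
commute with the actions of `g`, `g'`.  Consequently a correspondence
`Pic0.correspondence φ ψ` commutes with `(g, g')` as soon as both legs intertwine.
-/

set_option autoImplicit false
set_option linter.style.haveILetI false

noncomputable section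

namespace Fermat.Agent.S29.H571

open AlgebraicCurve
open scoped Pointwise

variable {K F F' : Type*} [Field K] [Field F] [Field F'] [Algebra K F] [Algebra K F']

section PlaceLemmas

variable (φ : F →ₐ[K] F') (hφ : φ.toRingHom.IsIntegral)
  {g : SemilinearAut K F} {g' : SemilinearAut K F'}

theorem mem_restrictAlong_iff (w : Place K F') (x : F) :
    x ∈ (w.restrictAlong φ hφ).toValuationSubring ↔ φ x ∈ w.toValuationSubring :=
  Iff.rfl

theorem restrictAlong_smul (h : SemilinearAut.IntertwinesAlong (φ : F →+* F') g g')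
    (w : Place K F') :
    (g' • w).restrictAlong φ hφ = g • (w.restrictAlong φ hφ) := by
  apply Place.ext
  ext x
  rw [mem_restrictAlong_iff, SemilinearAut.smul_toValuationSubring,
    SemilinearAut.smul_toValuationSubring,
    ValuationSubring.mem_pointwise_smul_iff_inv_smul_mem,
    ValuationSubring.mem_pointwise_smul_iff_inv_smul_mem, mem_restrictAlong_iff]
  have := h.inv x
  rw [show (φ : F →+* F') x = φ x from rfl] at this
  rw [this]
  rfl

theorem ord_smul_apply (h : SemilinearAut.IntertwinesAlong (φ : F →+* F') g g')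
    (w : Place K F') (f : F) :
    (g' • w).ord (φ (g • f)) = w.ord (φ f) := by
  have h1 : φ (g • f) = g' • (φ f) := (h f).symm
  rw [h1, SemilinearAut.ord_smul]

theorem ramificationIndexAlong_smul
    (h : SemilinearAut.IntertwinesAlong (φ : F →+* F') g g') (w : Place K F') :
    (g' • w).ramificationIndexAlong φ = w.ramificationIndexAlong φ := by
  unfold Place.ramificationIndexAlong Place.ramificationIndex
  congr 1
  ext n
  simp only [Set.mem_ofPred_eq]
  constructor
  · rintro ⟨hn, f, hf, hfn⟩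
    refine ⟨hn, g⁻¹ • f, by simpa using hf, ?_⟩
    rw [← hfn]
    have := ord_smul_apply φ h w (g⁻¹ • f)
    rw [smul_inv_smul] at this
    exact this.symm
  · rintro ⟨hn, f, hf, hfn⟩
    refine ⟨hn, g • f, by simpa using hf, ?_⟩
    rw [← hfn]
    exact ord_smul_apply φ h w f

/-- The ring isomorphism between the valuation rings of `w.restrictAlong φ` and
`(g' • w).restrictAlong φ` induced by `g`. -/
def restrictSMulEquiv (h : SemilinearAut.IntertwinesAlong (φ : F →+* F') g g')
    (w : Place K F') :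
    (w.restrictAlong φ hφ).toValuationSubring ≃+*
      ((g' • w).restrictAlong φ hφ).toValuationSubring where
  toFun x := ⟨g • (x : F), by
    rw [mem_restrictAlong_iff, SemilinearAut.smul_toValuationSubring,
      show φ (g • (x : F)) = g' • φ (x : F) from (h (x : F)).symm]
    exact ValuationSubring.smul_mem_pointwise_smul g' _ _ ((mem_restrictAlong_iff φ hφ w _).mp x.2)⟩
  invFun y := ⟨g⁻¹ • (y : F), by
    rw [mem_restrictAlong_iff,
      show φ (g⁻¹ • (y : F)) = g'⁻¹ • φ (y : F) from (h.inv (y : F)).symm]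
    have hy := (mem_restrictAlong_iff φ hφ (g' • w) _).mp y.2
    rw [SemilinearAut.smul_toValuationSubring,
      ValuationSubring.mem_pointwise_smul_iff_inv_smul_mem] at hy
    exact hy⟩
  left_inv x := Subtype.ext (inv_smul_smul g (x : F))
  right_inv y := Subtype.ext (smul_inv_smul g (y : F))
  map_mul' x y := Subtype.ext (smul_mul' g (x : F) (y : F))
  map_add' x y := Subtype.ext (smul_add g (x : F) (y : F))

@[simp]
theorem coe_restrictSMulEquiv_apply (h : SemilinearAut.IntertwinesAlong (φ : F →+* F') g g')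
    (w : Place K F') (x : (w.restrictAlong φ hφ).toValuationSubring) :
    ((restrictSMulEquiv φ hφ h w x :
      ((g' • w).restrictAlong φ hφ).toValuationSubring) : F) = g • (x : F) := rfl

theorem inertiaDegAlong_smul (h : SemilinearAut.IntertwinesAlong (φ : F →+* F') g g')
    (w : Place K F') :
    (g' • w).inertiaDegAlong φ hφ = w.inertiaDegAlong φ hφ := by
  letI := algebraAlong φ
  haveI := isScalarTower_along φ
  haveI := isIntegral_along φ hφ
  show Module.finrank ((g' • w).restrict F).ResidueField (g' • w).ResidueField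
    = Module.finrank (w.restrict F).ResidueField w.ResidueField
  symm
  let e : (Place.restrict F w).toValuationSubring ≃+*
      (Place.restrict F (g' • w)).toValuationSubring := restrictSMulEquiv φ hφ h w
  refine Algebra.finrank_eq_of_equiv_equiv
    (IsLocalRing.ResidueField.mapEquiv e)
    (SemilinearAut.smulResidueRingEquiv g' w) ?_
  refine Ideal.Quotient.ringHom_ext (RingHom.ext fun x => ?_)
  show algebraMap ((g' • w).restrict F).ResidueField (g' • w).ResidueField
      (IsLocalRing.ResidueField.mapEquiv e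
        (IsLocalRing.residue (Place.restrict F w).toValuationSubring x))
    = SemilinearAut.smulResidueRingEquiv g' w
        (algebraMap (w.restrict F).ResidueField w.ResidueField
          (IsLocalRing.residue (Place.restrict F w).toValuationSubring x))
  rw [IsLocalRing.ResidueField.mapEquiv_apply, IsLocalRing.ResidueField.map_residue,
    Place.algebraMap_residueField_eq, Place.algebraMap_residueField_eq,
    Place.restrictResidueMap_residue, Place.restrictResidueMap_residue]
  show IsLocalRing.residue _ _ = IsLocalRing.ResidueField.mapEquiv _ (IsLocalRing.residue _ _)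
  rw [IsLocalRing.ResidueField.mapEquiv_apply, IsLocalRing.ResidueField.map_residue]
  refine congrArg _ (Subtype.ext ?_)
  exact (h (x : F)).symm

end PlaceLemmas

section DivisorLemmas

variable (φ : F →ₐ[K] F') (hφ : φ.toRingHom.IsIntegral)
  {g : SemilinearAut K F} {g' : SemilinearAut K F'}

theorem pushforwardAlong_smul (h : SemilinearAut.IntertwinesAlong (φ : F →+* F') g g')
    (D : Divisor K F') :
    Divisor.pushforwardAlong φ hφ (g' • D) = g • Divisor.pushforwardAlong φ hφ D := by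
  induction D using Finsupp.induction with
  | zero => simp
  | single_add w n D _ _ ih =>
    rw [smul_add, map_add, map_add, smul_add, ih, SemilinearAut.smul_single,
      Divisor.pushforwardAlong_single, Divisor.pushforwardAlong_single,
      SemilinearAut.smul_single, restrictAlong_smul φ hφ h, inertiaDegAlong_smul φ hφ h]

theorem pullbackAlong_smul [HasPrincipalDivisors K F']
    (h : SemilinearAut.IntertwinesAlong (φ : F →+* F') g g') (D : Divisor K F) :
    Divisor.pullbackAlong φ hφ (g • D) = g' • Divisor.pullbackAlong φ hφ D := by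
  ext w
  rw [Divisor.pullbackAlong_apply, SemilinearAut.divisor_smul_apply,
    SemilinearAut.divisor_smul_apply, Divisor.pullbackAlong_apply,
    restrictAlong_smul φ hφ h.inv, ramificationIndexAlong_smul φ h.inv]

end DivisorLemmas

section CorrespondenceLemmas

variable [HasPrincipalDivisors K F']
variable (φ ψ : F →ₐ[K] F') (hφ : φ.toRingHom.IsIntegral) (hψ : ψ.toRingHom.IsIntegral)
  {g : SemilinearAut K F} {g' : SemilinearAut K F'}

theorem divisor_correspondence_smul
    (h₁ : SemilinearAut.IntertwinesAlong (φ : F →+* F') g g')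
    (h₂ : SemilinearAut.IntertwinesAlong (ψ : F →+* F') g g') (D : Divisor K F) :
    Divisor.correspondence φ ψ hφ hψ (g • D) = g • Divisor.correspondence φ ψ hφ hψ D := by
  rw [Divisor.correspondence_apply, Divisor.correspondence_apply,
    pullbackAlong_smul φ hφ h₁, pushforwardAlong_smul ψ hψ h₂]

theorem pic0_correspondence_smul
    (hFI : FundamentalIdentityAlong K φ hφ)
    (hfin : FiniteAlong K ψ) (hN : NormFormulaAlong K ψ hfin)
    (h₁ : SemilinearAut.IntertwinesAlong (φ : F →+* F') g g')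
    (h₂ : SemilinearAut.IntertwinesAlong (ψ : F →+* F') g g') (x : Pic0 K F) :
    Pic0.correspondence φ ψ hφ hψ hFI hfin hN (g • x)
      = g • Pic0.correspondence φ ψ hφ hψ hFI hfin hN x := by
  obtain ⟨D, rfl⟩ := Pic0.mk_surjective x
  rw [SemilinearAut.pic0_smul_mk, Pic0.correspondence_mk, Pic0.correspondence_mk,
    SemilinearAut.pic0_smul_mk]
  refine congrArg Pic0.mk (Subtype.ext ?_)
  rw [Pic0.coe_degZeroCorrespondence, SemilinearAut.coe_degZeroSMulHom,
    SemilinearAut.coe_degZeroSMulHom, Pic0.coe_degZeroCorrespondence]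
  exact divisor_correspondence_smul φ ψ hφ hψ h₁ h₂ (D : Divisor K F)

end CorrespondenceLemmas

end Fermat.Agent.S29.H571

end
end
-- ===== PACK-END S29/H571/Equivariant.lean

-- ===== PACK-BEGIN S29/H571/HeckeGalois.lean
section




/-!
# Galois-equivariance of the Prelude Hecke operators on `JZero N`
(helper571, piece GEQ of the S29 route)

* `heckeOperatorAlong_smul` : `T_ℓ (σ • x) = σ • T_ℓ x` on
  `Pic0 L (laurentBaseChange L (modularFunctionFieldFull N))`, for every field `L ⊇ ℚ`,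
  UNCONDITIONALLY (if the Hecke inputs fail the operator is `0`).
* `heckeOperatorBar_smul` : the same for `heckeOperatorBar N ℓ` on `JZero N`.
* `smulCommClass_heckeModuleBar` :
  `letI := heckeModuleBar N; SMulCommClass Gal(ℚ̄/ℚ) HeckeAlg (JZero N)`,
  i.e. the second hypothesis of the frozen statement S37, unconditionally.
-/

set_option autoImplicit false
set_option linter.style.haveILetI false

noncomputable section

namespace Fermat.Agent.S29.H571

open AlgebraicCurve ModularCurve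

section General

variable {L : Type*} [Field L] [Algebra ℚ L]
variable (N ℓ : ℕ) [NeZero N] [NeZero ℓ]

theorem intertwines_heckeAlphaBar (σ : L ≃ₐ[ℚ] L) :
    SemilinearAut.IntertwinesAlong
      ((heckeAlphaBar L N ℓ : laurentBaseChange L (modularFunctionFieldFull N) →ₐ[L]
        laurentBaseChange L (modularFunctionFieldFull (N * ℓ))) : _ →+* _)
      (arithmeticGalois (modularFunctionFieldFull N) σ)
      (arithmeticGalois (modularFunctionFieldFull (N * ℓ)) σ) := by
  intro x
  apply Subtype.ext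
  rw [coe_arithmeticGalois_smul]
  show coeffMap (σ : L →+* L) ((heckeAlphaBar L N ℓ x : _) : LaurentSeries L) = _
  rw [coe_heckeAlphaBar]
  show _ = ((heckeAlphaBar L N ℓ (arithmeticGalois (modularFunctionFieldFull N) σ • x) : _) :
    LaurentSeries L)
  rw [coe_heckeAlphaBar, coe_arithmeticGalois_smul]

omit [NeZero N] in
theorem intertwines_heckeBetaBar (σ : L ≃ₐ[ℚ] L) :
    SemilinearAut.IntertwinesAlong
      ((heckeBetaBar L N ℓ : laurentBaseChange L (modularFunctionFieldFull N) →ₐ[L]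
        laurentBaseChange L (modularFunctionFieldFull (N * ℓ))) : _ →+* _)
      (arithmeticGalois (modularFunctionFieldFull N) σ)
      (arithmeticGalois (modularFunctionFieldFull (N * ℓ)) σ) := by
  intro x
  apply Subtype.ext
  rw [coe_arithmeticGalois_smul]
  show coeffMap (σ : L →+* L) ((heckeBetaBar L N ℓ x : _) : LaurentSeries L) = _
  rw [coe_heckeBetaBar]
  show _ = ((heckeBetaBar L N ℓ (arithmeticGalois (modularFunctionFieldFull N) σ • x) : _) :
    LaurentSeries L)
  rw [coe_heckeBetaBar, coe_arithmeticGalois_smul, coeffMap_qExpand]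

/-- Galois-equivariance of the Prelude Hecke operator `heckeOperatorAlong L N ℓ`. -/
theorem heckeOperatorAlong_smul (σ : L ≃ₐ[ℚ] L)
    (x : Pic0 L (laurentBaseChange L (modularFunctionFieldFull N))) :
    heckeOperatorAlong L N ℓ (σ • x) = σ • heckeOperatorAlong L N ℓ x := by
  by_cases h : HeckeInputsAlong L N ℓ
  · obtain ⟨hα, hβ, hP, hfin, hFI, hN⟩ := h
    rw [heckeOperatorAlong_eq hα hβ hFI hfin hN, galois_smul_pic0_def, galois_smul_pic0_def]
    exact pic0_correspondence_smul (heckeBetaBar L N ℓ) (heckeAlphaBar L N ℓ) hβ hα hFI hfin hN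
      (intertwines_heckeBetaBar N ℓ σ) (intertwines_heckeAlphaBar N ℓ σ) x
  · rw [heckeOperatorAlong_of_not h]
    simp

end General

section Bar

variable (N : ℕ) [NeZero N]

/-- Galois-equivariance of `heckeOperatorBar N ℓ` on `JZero N`. -/
theorem heckeOperatorBar_smul (ℓ : Nat.Primes)
    (σ : AlgebraicClosure ℚ ≃ₐ[ℚ] AlgebraicClosure ℚ) (x : JZero N) :
    heckeOperatorBar N ℓ (σ • x) = σ • heckeOperatorBar N ℓ x := by
  haveI : NeZero (ℓ : ℕ) := ⟨ℓ.2.ne_zero⟩
  rw [heckeOperatorBar_apply, heckeOperatorBar_apply]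
  exact heckeOperatorAlong_smul N (ℓ : ℕ) σ x

/-- Every element of the Hecke algebra acts Galois-equivariantly (commuting case). -/
theorem heckeEvalBar_smul (h : HeckeOperatorsCommuteBar N) (t : HeckeAlg)
    (σ : AlgebraicClosure ℚ ≃ₐ[ℚ] AlgebraicClosure ℚ) (x : JZero N) :
    heckeEvalBar h t (σ • x) = σ • heckeEvalBar h t x := by
  induction t using MvPolynomial.induction_on generalizing x with
  | C a =>
    rw [heckeEvalBar_C, Module.End.intCast_apply, Module.End.intCast_apply, smul_comm]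
  | add p q hp hq =>
    rw [map_add, LinearMap.add_apply, LinearMap.add_apply, hp, hq, smul_add]
  | mul_X p ℓ hp =>
    rw [map_mul, Module.End.mul_apply, Module.End.mul_apply,
      show (MvPolynomial.X ℓ : HeckeAlg) = heckeGen ℓ from rfl, heckeEvalBar_heckeGen,
      heckeOperatorBar_smul, hp]

/-- The Galois action on `JZero N` commutes with the `HeckeAlg`-module structure
`heckeModuleBar N`, unconditionally.  This is exactly the `SMulCommClass` hypothesis of the
frozen statement S37. -/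
theorem smulCommClass_heckeModuleBar :
    letI := heckeModuleBar N
    SMulCommClass (AlgebraicClosure ℚ ≃ₐ[ℚ] AlgebraicClosure ℚ) HeckeAlg (JZero N) := by
  letI := heckeModuleBar N
  refine ⟨fun σ t x => ?_⟩
  by_cases h : HeckeOperatorsCommuteBar N
  · rw [heckeModuleBar_smul_def h, heckeModuleBar_smul_def h, heckeEvalBar_smul]
  · rw [heckeModuleBar_smul_of_not h, heckeModuleBar_smul_of_not h]
    exact (smul_comm _ σ x).symm

end Bar

end Fermat.Agent.S29.H571


end
end
-- ===== PACK-END S29/H571/HeckeGalois.lean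

-- ===== PACK-BEGIN A2/Spec.lean
section




/-!
# WALL A2 — frozen interfaces (row-lead helper13)

Goal (`Target N q m`): for `q ‖ N`, `q ∤ m`, every `τ` in an inertia group at `q` satisfies
`(τ - 1)² = 0` on `JZero N [m]` (`JZero N = Pic⁰(ℚ̄(X₀(N)))`, Prelude language).

Layers (see `coord/A2.md` on `origin/helper13`):

* `Target`        : the wall, Prelude language.
* `KummerTarget`  : the same on Kummer generators (`div f ∈ m·Div ⇒ (τ-1)² f ∈ (F̄ˣ)^m`).
* `SSChart`, `SepCoord`, `AlgSSConclusion` : the abstract semistable theorem ALG (Mathlib only).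
* `GoodField`     : the finite levels `E' ⊇ ℚ̄^{I}` over which ALG is applied (piece IF).

This file contains only definitions (no `sorry`).  The interface theorems are the `Prop`s
`AlgSSStatement`, `IFStatement` (this file) and `ModSSStatement` (`ModDefs.lean`).

v2 (19:10Z, LANDED, never to change again):
* `SSChart` has the two incomparability fields `not_le₁₂`, `not_le₂₁` (audit helper154: without
  them the good-reduction case `p₁ = (w) < p₂` was admitted);
* `GoodField` has the field `finite_order` and `AlgSSStatement` the hypothesis `hfo` (the lift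
  `τ` has finite order on the finite level; asked for by route G, helper12 `H12.wallG`).
-/

set_option autoImplicit false

noncomputable section

namespace Fermat.Agent.A2

open ModularCurve AlgebraicCurve

/-- The field `ℚ̄`. -/
abbrev Qb : Type := AlgebraicClosure ℚ

/-- **The wall A2** at `(N, q, m)`: unipotent inertia on the `m`-torsion of `J₀(N)`. -/
def Target (N q m : ℕ) : Prop :=
  ∀ P : ValuationSubring Qb, P.LiesOverPrime q →
    ∀ τ ∈ P.inertiaSubgroupIn ℚ, ∀ x : JZero N, m • x = 0 →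
      τ • (τ • x) + x = 2 • (τ • x)

/-- The automorphism of `F̄_N = ℚ̄(X₀(N))` induced by `τ ∈ G_ℚ` (action on coefficients). -/
abbrev act (N : ℕ) (τ : Qb ≃ₐ[ℚ] Qb) :
    modularFunctionFieldBar N ≃+* modularFunctionFieldBar N :=
  arithmeticRingAut (modularFunctionFieldFull N) τ

/-- **Kummer form of the wall**: if `div f ∈ m · Div`, then `τ²(f) · f / τ(f)²` is an `m`-th
power in `F̄_N`. -/
def KummerTarget (N q m : ℕ) : Prop :=
  ∀ P : ValuationSubring Qb, P.LiesOverPrime q →
    ∀ τ ∈ P.inertiaSubgroupIn ℚ, ∀ f : modularFunctionFieldBar N, f ≠ 0 →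
      (∀ v : Place Qb (modularFunctionFieldBar N), (m : ℤ) ∣ v.ord f) →
      ∃ h : modularFunctionFieldBar N, h ≠ 0 ∧
        act N τ (act N τ f) * f = h ^ m * (act N τ f) ^ 2

/-! ## ALG: abstract semistable two-chart models (Mathlib only) -/

section Alg

variable {R F : Type*} [CommRing R] [Field F] [Algebra R F]

/-- A chart `B ⊆ F` of a model over `R` whose special fibre `B / wB` is reduced with exactly two
components `p₁`, `p₂`, both normal, meeting transversally (`p₁ + p₂` radical, i.e. every common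
point is an ordinary double point). -/
structure SSChart (w : R) (B : Subalgebra R F) where
  /-- first component -/
  p₁ : Ideal B
  /-- second component -/
  p₂ : Ideal B
  prime₁ : p₁.IsPrime
  prime₂ : p₂.IsPrime
  ne : p₁ ≠ p₂
  not_le₁₂ : ¬ p₁ ≤ p₂
  not_le₂₁ : ¬ p₂ ≤ p₁
  inf_eq : p₁ ⊓ p₂ = Ideal.span {algebraMap R B w}
  normal₁ : IsIntegrallyClosed (B ⧸ p₁)
  normal₂ : IsIntegrallyClosed (B ⧸ p₂)
  transversal : (p₁ ⊔ p₂).IsRadical

variable (R) in
/-- `x` is a separating coordinate for the special fibre: some `E(x)`-basis of `F` consisting of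
elements of the chart `B` has a discriminant `d(x)`, `d ∈ R[X]`, which is nonzero modulo the
maximal ideal. -/
def SepCoord [IsLocalRing R] (E : Type*) [Field E] [Algebra E F] (x : F) (B : Subalgebra R F) :
    Prop :=
  ∃ (n : ℕ) (b : Fin n → F), (∀ i, b i ∈ B) ∧
    LinearIndependent (IntermediateField.adjoin E ({x} : Set F)) b ∧
    n = Module.finrank (IntermediateField.adjoin E ({x} : Set F)) F ∧
    ∃ d : Polynomial R, d.map (IsLocalRing.residue R) ≠ 0 ∧
      Polynomial.aeval x d =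
        algebraMap (IntermediateField.adjoin E ({x} : Set F)) F
          (Algebra.discr (IntermediateField.adjoin E ({x} : Set F)) b)

/-- `m ∣ div f` on every discrete valuation ring of `F` containing `E`, in Mathlib-only form:
locally `f = u · h ^ m` with `u` a unit. -/
def DivisibleDiv (E : Type*) [Field E] [Algebra E F] (m : ℕ) (f : F) : Prop :=
  ∀ V : ValuationSubring F, IsDiscreteValuationRing V → (∀ e : E, algebraMap E F e ∈ V) →
    ∃ h u : F, h ≠ 0 ∧ u ∈ V ∧ u⁻¹ ∈ V ∧ f = u * h ^ m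

/-- The conclusion of ALG: `(τ - 1)²` kills the Kummer classes with `m ∣ div`. -/
def AlgSSConclusion (E : Type*) [Field E] [Algebra E F] (m : ℕ) (τ : F ≃+* F) : Prop :=
  ∀ f : F, f ≠ 0 → DivisibleDiv E m f →
    ∃ h : F, h ≠ 0 ∧ τ (τ f) * f = h ^ m * (τ f) ^ 2

/-- **ALG (interface statement).**  Henselian DVR `R` with algebraically closed residue field of
characteristic `q`, `F / E` a function field with coordinate `x`, `Bf`, `Bi` the integral closures
of `R[x]`, `R[1/x]` in `F`, both semistable with two components (`SSChart`) and separating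
coordinate, `τ` a semilinear automorphism of finite order fixing `x` and acting trivially modulo
`w` on both charts.  Then `(τ - 1)²` kills every Kummer class `f` with `m ∣ div f`, `q ∤ m`. -/
def AlgSSStatement : Prop :=
  ∀ {R E F : Type} [CommRing R] [IsDomain R] [IsDiscreteValuationRing R] [HenselianLocalRing R]
    [IsAlgClosed (IsLocalRing.ResidueField R)]
    [Field E] [CharZero E] [Algebra R E] [IsFractionRing R E]
    [Field F] [Algebra E F] [Algebra R F] [IsScalarTower R E F]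
    (w : R) (_ : Irreducible w) (q m : ℕ) (_ : q.Prime)
    (_ : (q : R) ∈ IsLocalRing.maximalIdeal R) (_ : 0 < m) (_ : ¬ q ∣ m)
    (x : F) (_ : Transcendental E x)
    (_ : FiniteDimensional (IntermediateField.adjoin E ({x} : Set F)) F)
    (_ : ∀ f : F, IsAlgebraic E f → f ∈ (algebraMap E F).range)
    (Bf Bi : Subalgebra R F)
    (_ : ∀ f : F, f ∈ Bf ↔ IsIntegral (Algebra.adjoin R ({x} : Set F)) f)
    (_ : ∀ f : F, f ∈ Bi ↔ IsIntegral (Algebra.adjoin R ({x⁻¹} : Set F)) f)
    (_ : SSChart w Bf) (_ : SSChart w Bi)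
    (_ : SepCoord R E x Bf) (_ : SepCoord R E x⁻¹ Bi)
    (τ : F ≃+* F) (τE : E ≃+* E) (τR : R ≃+* R)
    (_ : ∀ e : E, τ (algebraMap E F e) = algebraMap E F (τE e))
    (_ : ∀ r : R, τE (algebraMap R E r) = algebraMap R E (τR r))
    (_ : τ x = x)
    (_ : ∃ r : ℕ, 0 < r ∧ ∀ f : F, (⇑τ)^[r] f = f)
    (_ : ∀ b ∈ Bf, ∃ c ∈ Bf, τ b - b = algebraMap R F w * c)
    (_ : ∀ b ∈ Bi, ∃ c ∈ Bi, τ b - b = algebraMap R F w * c),
    AlgSSConclusion E m τ

end Alg

/-! ## IF: good levels -/

/-- `R_E := P ∩ E`. -/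
abbrev RE (P : ValuationSubring Qb) (E : IntermediateField ℚ Qb) : ValuationSubring E :=
  P.comap (algebraMap E Qb)

/-- A *good level* for `P`: an intermediate field `E ⊆ ℚ̄`, stable under the inertia group of
`P`, such that `R_E = P ∩ E` is a henselian discrete valuation ring with algebraically closed
residue field on which the inertia group acts trivially modulo the maximal ideal.
(Example: every finite extension of the inertia field `ℚ̄^{I_P}` inside `ℚ̄`.) -/
structure GoodField (P : ValuationSubring Qb) (E : IntermediateField ℚ Qb) : Prop where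
  stable : ∀ τ ∈ P.inertiaSubgroupIn ℚ, ∀ e : Qb, e ∈ E → τ e ∈ E
  dvr : IsDiscreteValuationRing (RE P E)
  henselian : HenselianLocalRing (RE P E)
  algClosed : IsAlgClosed (IsLocalRing.ResidueField (RE P E))
  trivial_mod : ∀ τ ∈ P.inertiaSubgroupIn ℚ, ∀ e : Qb, e ∈ E → e ∈ P →
    τ e - e ∈ P.nonunits
  finite_order : ∀ τ ∈ P.inertiaSubgroupIn ℚ, ∃ r : ℕ, 0 < r ∧ ∀ e : Qb, e ∈ E →
    (⇑τ)^[r] e = e

/-- **IF (interface statement).**  Every finite set of algebraic numbers lies in a good level for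
`P` (`E` = compositum of the inertia field `ℚ̄^{I_P}` and a finite normal extension of `ℚ`). -/
def IFStatement : Prop :=
  ∀ (q : ℕ) (_ : q.Prime) (P : ValuationSubring Qb) (_ : P.LiesOverPrime q) (S : Finset Qb),
    ∃ E : IntermediateField ℚ Qb, (∀ s ∈ S, s ∈ E) ∧ GoodField P E

end Fermat.Agent.A2

end
end
-- ===== PACK-END A2/Spec.lean

-- ===== PACK-BEGIN S29/H395/KummerCorr.lean
section
/-
S29 / layer M / bridge BR, piece NORM (formal half) — helper395.

Prelude-only.  How the Prelude correspondence `T = ψ_* ∘ φ^*` (and hence the Prelude Hecke operator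
`heckeOperatorBar N ℓ = α_* ∘ β^*`) acts on "Kummer data":

  if `m • D = div f` then `m • T D = div (Nm_ψ (φ f))`.

Main statements:
* `correspondence_apply_eq_ord`     : `T (div f) = div (Nm_ψ (φ f))` (pointwise form);
* `correspondence_kummer`           : the same with a multiplier `m`;
* `heckeOperatorBar_mk_kummer`      : the modular instance, for `JZero N`;
* `heckeOperatorBar_eq_mk_of_kummer`: `T_ℓ [D] = [D']` as soon as `m D' = div (Nm_α (β f))`, `m ≠ 0`.
-/


set_option autoImplicit false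
set_option linter.style.haveILetI false

noncomputable section

namespace Fermat.Agent.S29.H395

open AlgebraicCurve ModularCurve

section Abstract

variable {K F F' : Type*} [Field K] [Field F] [Field F'] [Algebra K F] [Algebra K F']

/-- The norm of `g : F'` down to `F` along `ψ : F →ₐ[K] F'`. -/
def normAlong (ψ : F →ₐ[K] F') (g : F') : F :=
  letI := algebraAlong ψ
  Algebra.norm F g

theorem normAlong_ne_zero (ψ : F →ₐ[K] F') (hfin : FiniteAlong K ψ) {g : F'} (hg : g ≠ 0) :
    normAlong ψ g ≠ 0 := by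
  letI := algebraAlong ψ
  haveI : Module.Finite F F' := hfin
  exact Algebra.norm_ne_zero_iff.mpr hg

theorem normAlong_mul (ψ : F →ₐ[K] F') (g g' : F') :
    normAlong ψ (g * g') = normAlong ψ g * normAlong ψ g' := by
  letI := algebraAlong ψ
  exact map_mul (Algebra.norm F) g g'

theorem normAlong_one (ψ : F →ₐ[K] F') : normAlong ψ (1 : F') = 1 := by
  letI := algebraAlong ψ
  exact map_one (Algebra.norm F)

theorem normAlong_pow (ψ : F →ₐ[K] F') (g : F') (n : ℕ) :
    normAlong ψ (g ^ n) = normAlong ψ g ^ n := by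
  letI := algebraAlong ψ
  exact map_pow (Algebra.norm F) g n

/-- `φ^* (div f) = div (φ f)`. -/
theorem pullbackAlong_apply_eq_ord [HasPrincipalDivisors K F'] (φ : F →ₐ[K] F')
    (hφ : φ.toRingHom.IsIntegral) {f : F} {D : Divisor K F} (hD : ∀ v, D v = v.ord f)
    (w : Place K F') : Divisor.pullbackAlong φ hφ D w = w.ord (φ f) := by
  letI := algebraAlong φ
  haveI := isScalarTower_along φ
  haveI := isIntegral_along φ hφ
  exact Divisor.pullback_apply_eq_ord hD w

/-- `ψ_* (div g) = div (Nm_ψ g)`. -/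
theorem pushforwardAlong_apply_eq_ord (ψ : F →ₐ[K] F') (hψ : ψ.toRingHom.IsIntegral)
    (hfin : FiniteAlong K ψ) (hN : NormFormulaAlong K ψ hfin) {g : F'} (hg : g ≠ 0)
    {D : Divisor K F'} (hD : ∀ w, D w = w.ord g) (v : Place K F) :
    Divisor.pushforwardAlong ψ hψ D v = v.ord (normAlong ψ g) := by
  letI := algebraAlong ψ
  haveI := isScalarTower_along ψ
  haveI := isIntegral_along ψ hψ
  haveI : Module.Finite F F' := hfin
  exact hN g hg D hD v

variable [HasPrincipalDivisors K F']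
variable (φ ψ : F →ₐ[K] F') (hφ : φ.toRingHom.IsIntegral) (hψ : ψ.toRingHom.IsIntegral)

/-- `T (div f) = div (Nm_ψ (φ f))` for the correspondence `T = ψ_* φ^*`. -/
theorem correspondence_apply_eq_ord (hfin : FiniteAlong K ψ) (hN : NormFormulaAlong K ψ hfin)
    {f : F} (hf : f ≠ 0) {D : Divisor K F} (hD : ∀ v, D v = v.ord f) (v : Place K F) :
    Divisor.correspondence φ ψ hφ hψ D v = v.ord (normAlong ψ (φ f)) := by
  rw [Divisor.correspondence_apply]
  exact pushforwardAlong_apply_eq_ord ψ hψ hfin hN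
    (by simpa using hf) (fun w => pullbackAlong_apply_eq_ord φ hφ hD w) v

/-- **Kummer data under a correspondence**: if `m • D = div f` then
`m • T D = div (Nm_ψ (φ f))`. -/
theorem correspondence_kummer (hfin : FiniteAlong K ψ) (hN : NormFormulaAlong K ψ hfin)
    {f : F} (hf : f ≠ 0) {D : Divisor K F} (m : ℤ) (hD : ∀ v, m * D v = v.ord f)
    (v : Place K F) :
    m * Divisor.correspondence φ ψ hφ hψ D v = v.ord (normAlong ψ (φ f)) := by
  have h1 : ∀ v, (m • D) v = v.ord f := fun v => by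
    rw [Finsupp.smul_apply, smul_eq_mul]; exact hD v
  have h2 := correspondence_apply_eq_ord φ ψ hφ hψ hfin hN hf h1 v
  rw [map_zsmul, Finsupp.smul_apply, smul_eq_mul] at h2
  exact h2

end Abstract

section Pic0Torsion

variable {K F : Type*} [Field K] [Field F] [Algebra K F]

/-- Two degree-zero divisors with the same nonzero multiple define the same class (divisors form a
torsion-free group). -/
theorem degZero_eq_of_zsmul_eq {D E : Divisor.degZero (K := K) (F := F)} {m : ℤ} (hm : m ≠ 0)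
    (h : ∀ v, m * (D : Divisor K F) v = m * (E : Divisor K F) v) : D = E := by
  apply Subtype.ext
  ext v
  exact mul_left_cancel₀ hm (h v)

/-- If `m • D = div f` (pointwise) then `m • [D] = 0` in `Pic0`. -/
theorem zsmul_mk_eq_zero {D : Divisor.degZero (K := K) (F := F)} {m : ℤ} {f : F} (hf : f ≠ 0)
    (h : ∀ v, m * (D : Divisor K F) v = v.ord f) : m • Pic0.mk D = 0 := by
  have h1 : m • Pic0.mk D = Pic0.mk (m • D) := rfl
  rw [h1]
  refine (QuotientAddGroup.eq_zero_iff _).mpr ?_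
  rw [AddSubgroup.mem_addSubgroupOf]
  refine ⟨f, hf, fun v => ?_⟩
  rw [AddSubgroup.coe_zsmul, Finsupp.smul_apply, smul_eq_mul]
  exact h v

/-- `[D] = 0` in `Pic0` iff `D` is the divisor of a function. -/
theorem mk_eq_zero_iff {D : Divisor.degZero (K := K) (F := F)} :
    Pic0.mk D = 0 ↔ ∃ f : F, f ≠ 0 ∧ ∀ v, (D : Divisor K F) v = v.ord f := by
  rw [Pic0.mk, QuotientAddGroup.eq_zero_iff, AddSubgroup.mem_addSubgroupOf]
  rfl

/-- `[D] = [E]` in `Pic0` iff `D - E` is the divisor of a function. -/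
theorem mk_eq_mk_iff {D E : Divisor.degZero (K := K) (F := F)} :
    Pic0.mk D = Pic0.mk E ↔
      ∃ f : F, f ≠ 0 ∧ ∀ v, (D : Divisor K F) v - (E : Divisor K F) v = v.ord f := by
  rw [← sub_eq_zero, show Pic0.mk D - Pic0.mk E = Pic0.mk (D - E) from rfl, mk_eq_zero_iff]
  simp only [AddSubgroup.coe_sub, Finsupp.coe_sub, Pi.sub_apply]

end Pic0Torsion

section Modular

variable (N : ℕ) [NeZero N]

/-- Abbreviation: the base field `ℚ̄`. -/
local notation "Qb" => AlgebraicClosure ℚ

/-- The norm `Nm_α ∘ β : F_N → F_N` (`α` = inclusion `F_N ⊆ F_{Nℓ}`, `β = (q ↦ q^ℓ)`), the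
function-level shadow of the Hecke correspondence `T_ℓ = α_* β^*`. -/
def heckeNorm (ℓ : ℕ) [NeZero ℓ] (f : modularFunctionFieldBar N) : modularFunctionFieldBar N :=
  normAlong (heckeAlphaBar Qb N ℓ) (heckeBetaBar Qb N ℓ f)

theorem heckeNorm_mul (ℓ : ℕ) [NeZero ℓ] (f g : modularFunctionFieldBar N) :
    heckeNorm N ℓ (f * g) = heckeNorm N ℓ f * heckeNorm N ℓ g := by
  unfold heckeNorm
  rw [map_mul, normAlong_mul]

theorem heckeNorm_one (ℓ : ℕ) [NeZero ℓ] : heckeNorm N ℓ 1 = 1 := by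
  unfold heckeNorm
  rw [map_one, normAlong_one]

theorem heckeNorm_pow (ℓ : ℕ) [NeZero ℓ] (f : modularFunctionFieldBar N) (n : ℕ) :
    heckeNorm N ℓ (f ^ n) = heckeNorm N ℓ f ^ n := by
  unfold heckeNorm
  rw [map_pow, normAlong_pow]

theorem heckeNorm_ne_zero (ℓ : ℕ) [NeZero ℓ] (hHI : HeckeInputsAlong Qb N ℓ)
    {f : modularFunctionFieldBar N} (hf : f ≠ 0) : heckeNorm N ℓ f ≠ 0 := by
  obtain ⟨_, _, _, hfin, _, _⟩ := hHI
  exact normAlong_ne_zero _ hfin (by simpa using hf)

/-- The Prelude Hecke operator on the class of a degree-zero divisor, at the level of divisors. -/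
theorem heckeOperatorBar_mk (ℓ : Nat.Primes)
    (hHI : haveI : NeZero (ℓ : ℕ) := ⟨ℓ.2.ne_zero⟩; HeckeInputsAlong Qb N ℓ)
    (D : Divisor.degZero (K := Qb) (F := modularFunctionFieldBar N)) :
    ∃ D' : Divisor.degZero (K := Qb) (F := modularFunctionFieldBar N),
      heckeOperatorBar N ℓ (Pic0.mk D) = Pic0.mk D' ∧
      ∀ (m : ℤ) (f : modularFunctionFieldBar N), f ≠ 0 →
        (∀ v, m * (D : Divisor Qb (modularFunctionFieldBar N)) v = v.ord f) →
        ∀ v, m * (D' : Divisor Qb (modularFunctionFieldBar N)) v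
          = v.ord (haveI : NeZero (ℓ : ℕ) := ⟨ℓ.2.ne_zero⟩; heckeNorm N ℓ f) := by
  haveI : NeZero (ℓ : ℕ) := ⟨ℓ.2.ne_zero⟩
  obtain ⟨hα, hβ, hP, hfin, hFI, hN⟩ := hHI
  haveI := hP
  refine ⟨Pic0.degZeroCorrespondence (heckeBetaBar Qb N ℓ) (heckeAlphaBar Qb N ℓ) hβ hα hFI D,
    ?_, ?_⟩
  · rw [heckeOperatorBar_apply, heckeOperatorAlong_eq hα hβ hFI hfin hN]
    rfl
  · intro m f hf hD v
    exact correspondence_kummer (heckeBetaBar Qb N ℓ) (heckeAlphaBar Qb N ℓ) hβ hα hfin hN hf m hD v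

/-- **Hecke on Kummer classes.**  If `m D = div f` and `m D' = div (Nm_α (β f))` with `m ≠ 0`, then
`T_ℓ [D] = [D']` in `J₀(N)(ℚ̄)`. -/
theorem heckeOperatorBar_eq_mk_of_kummer (ℓ : Nat.Primes)
    (hHI : haveI : NeZero (ℓ : ℕ) := ⟨ℓ.2.ne_zero⟩; HeckeInputsAlong Qb N ℓ)
    (D D' : Divisor.degZero (K := Qb) (F := modularFunctionFieldBar N))
    {m : ℤ} (hm : m ≠ 0) {f : modularFunctionFieldBar N} (hf : f ≠ 0)
    (hD : ∀ v, m * (D : Divisor Qb (modularFunctionFieldBar N)) v = v.ord f)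
    (hD' : ∀ v, m * (D' : Divisor Qb (modularFunctionFieldBar N)) v
      = v.ord (haveI : NeZero (ℓ : ℕ) := ⟨ℓ.2.ne_zero⟩; heckeNorm N ℓ f)) :
    heckeOperatorBar N ℓ (Pic0.mk D) = Pic0.mk D' := by
  obtain ⟨E, hE, hE'⟩ := heckeOperatorBar_mk N ℓ hHI D
  rw [hE]
  congr 1
  exact degZero_eq_of_zsmul_eq hm fun v => by rw [hE' m f hf hD v, hD' v]

end Modular

end Fermat.Agent.S29.H395

end

end
-- ===== PACK-END S29/H395/KummerCorr.lean

-- ===== PACK-BEGIN S35/H252/XSpec.lean
section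
/-
S35, piece (X) (helper252): frozen interface Props for the exclusion statement
`Fermat.Agent.S35.H991.ExclTateStatement` (S35/H991/Mid.lean).

  ExclTateStatement  <=  ExclPolyStatement               (S35/H252/ExclGlue.lean, this seat)
  ExclPolyStatement  <=  XFormsStatement + XJacStatement  (`exclPoly_of`, below)

* `XFormsStatement` (forms side): for a newform `g` of level `M`, a prime `q ∣ M` and a finite
  set `S` containing the primes of `M` there is a polynomial `t` in the Hecke operators `T_ℓ`,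
  `ℓ ∉ S`, which is `0` on `S₂(Γ₀(M / q))` and with `t(a_ℓ(g)) ≠ 0`.
* `XJacStatement` (Jacobian side, "FACTOR"): a polynomial `t` in the `T_ℓ`, `ℓ ∉ S`
  (`S ∋ p`, `S ⊇ primes of N`), which is `0` on `S₂(Γ₀(N))` kills the `p`-power torsion of `J₀(N)`.

This file imports the Prelude only.
-/




set_option autoImplicit false

namespace Fermat.Agent.S35.H252

open CongruenceSubgroup

/-- **(X), polynomial form.**  There is a polynomial in the Hecke operators away from `S` which
kills the `p`-power torsion of `J₀(M / q)` but not the newform `g` of level `M`. -/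
def ExclPolyStatement : Prop :=
  ∀ (M : ℕ) [NeZero M] (g : CuspForm (Gamma0 M) 2), g.IsNewform →
    ∀ (q : ℕ) [NeZero (M / q)], q.Prime → q ∣ M →
    ∀ (p : ℕ) (S : Finset ℕ), p.Prime → p ∈ S → (∀ r : ℕ, r.Prime → r ∣ M → r ∈ S) →
    ∃ (h : ModularCurve.HeckeOperatorsCommuteBar (M / q))
      (t : MvPolynomial {ℓ : Nat.Primes // (ℓ : ℕ) ∉ S} ℤ),
      (∀ (n : ℕ) (x : ModularCurve.JZero (M / q)), ((p : ℤ) ^ n) • x = 0 →
        ModularCurve.heckeEvalBar h (MvPolynomial.rename Subtype.val t) x = 0) ∧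
      MvPolynomial.aeval (fun ℓ : {ℓ : Nat.Primes // (ℓ : ℕ) ∉ S} =>
        ModularFormClass.qCoeff g ((ℓ : Nat.Primes) : ℕ)) t ≠ 0

/-- **(X-forms).**  The eigensystem away from `S` of a newform of level `M` is cut out from
`S₂(Γ₀(M / q))` by a polynomial in the Hecke operators away from `S`. -/
def XFormsStatement : Prop :=
  ∀ (M : ℕ) [NeZero M] (g : CuspForm (Gamma0 M) 2), g.IsNewform →
    ∀ (q : ℕ) [NeZero (M / q)], q.Prime → q ∣ M →
    ∀ (S : Finset ℕ), (∀ r : ℕ, r.Prime → r ∣ M → r ∈ S) →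
    ∃ t : MvPolynomial {ℓ : Nat.Primes // (ℓ : ℕ) ∉ S} ℤ,
      (∀ f : CuspForm (Gamma0 (M / q)) 2,
        (CuspForm.heckeEvalForms (M / q) 2 (MvPolynomial.rename Subtype.val t) :
          Module.End ℂ (CuspForm (Gamma0 (M / q)) 2)) f = 0) ∧
      MvPolynomial.aeval (fun ℓ : {ℓ : Nat.Primes // (ℓ : ℕ) ∉ S} =>
        ModularFormClass.qCoeff g ((ℓ : Nat.Primes) : ℕ)) t ≠ 0

/-- **(X-J), FACTOR.**  A polynomial in the Hecke operators away from `S` which vanishes on
`S₂(Γ₀(N))` kills the `p`-power torsion of `J₀(N)` (`p ∈ S`, primes of `N` in `S`). -/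
def XJacStatement : Prop :=
  ∀ (N : ℕ) [NeZero N] (p : ℕ) (S : Finset ℕ), p.Prime → p ∈ S →
    (∀ r : ℕ, r.Prime → r ∣ N → r ∈ S) →
    ∀ t : MvPolynomial {ℓ : Nat.Primes // (ℓ : ℕ) ∉ S} ℤ,
      (∀ f : CuspForm (Gamma0 N) 2,
        (CuspForm.heckeEvalForms N 2 (MvPolynomial.rename Subtype.val t) :
          Module.End ℂ (CuspForm (Gamma0 N) 2)) f = 0) →
      ∃ h : ModularCurve.HeckeOperatorsCommuteBar N,
        ∀ (n : ℕ) (x : ModularCurve.JZero N), ((p : ℤ) ^ n) • x = 0 →
          ModularCurve.heckeEvalBar h (MvPolynomial.rename Subtype.val t) x = 0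

/-- `(X-forms) + (X-J) ⇒ (X)` in the polynomial form. -/
theorem exclPoly_of (hF : XFormsStatement) (hJ : XJacStatement) : ExclPolyStatement := by
  intro M _ g hg q _ hq hqM p S hp hpS hMS
  obtain ⟨t, ht0, htg⟩ := hF M g hg q hq hqM S hMS
  have hNS : ∀ r : ℕ, r.Prime → r ∣ M / q → r ∈ S := fun r hr hrN =>
    hMS r hr (hrN.trans (Nat.div_dvd_of_dvd hqM))
  obtain ⟨h, hkill⟩ := hJ (M / q) p S hp hpS hNS t ht0
  exact ⟨h, t, hkill, htg⟩

end Fermat.Agent.S35.H252

end
-- ===== PACK-END S35/H252/XSpec.lean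

-- ===== PACK-BEGIN S22/H262/WeightNonpos.lean
section



set_option autoImplicit false

/-! Function-level vanishing in weight `≤ 0` (proof by helper442). -/

namespace Fermat.Agent.S22.H262

open UpperHalfPlane ModularForm CongruenceSubgroup Matrix.SpecialLinearGroup
open scoped MatrixGroups Manifold

/-- Function-level vanishing in weight `≤ 0`: a holomorphic function on `ℍ`, invariant under
`Γ₀(N)` for the weight `k ≤ 0` slash action, and such that every `SL(2,ℤ)`-translate is zero at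
`i∞`, vanishes identically. -/
theorem eq_zero_of_weight_nonpos (N : ℕ) [NeZero N] {k : ℤ} (hk : k ≤ 0) (G : ℍ → ℂ)
    (hol : MDiff G)
    (inv : ∀ γ ∈ (Gamma0 N : Subgroup (GL (Fin 2) ℝ)), G ∣[k] γ = G)
    (cusp : ∀ g : SL(2, ℤ), IsZeroAtImInfty (G ∣[k] g)) : G = 0 := by
  have hG0 : IsZeroAtImInfty G := by
    have := cusp 1
    simpa using this
  let F : ModularForm (Gamma0 N : Subgroup (GL (Fin 2) ℝ)) k :=
    { toFun := G
      slash_action_eq' := inv
      holo' := hol
      bdd_at_cusps' := fun {c} hc => by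
        have hc' : IsCusp c 𝒮ℒ := (Subgroup.IsArithmetic.isCusp_iff_isCusp_SL2Z _).mp hc
        rw [OnePoint.isBoundedAt_iff_forall_SL2Z hc']
        intro γ _
        exact (cusp γ).isBoundedAtImInfty }
  have hF : F = 0 := by
    apply ModularForm.sturm_bound_Gamma0 N F
    intro n hn
    have h0 : (k * ((Gamma0 N).index : ℤ)).toNat = 0 := by
      apply Int.toNat_of_nonpos
      exact mul_nonpos_of_nonpos_of_nonneg hk (by positivity)
    rw [h0] at hn
    have hn0 : n = 0 := by omega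
    subst hn0
    have h1 : (1 : ℝ) ∈ (Gamma0 N : Subgroup (GL (Fin 2) ℝ)).strictPeriods := by
      simp
    have hper : Function.Periodic ((F : ℍ → ℂ) ∘ UpperHalfPlane.ofComplex) 1 := by
      have := SlashInvariantFormClass.periodic_comp_ofComplex F h1
      simpa using this
    have han : AnalyticAt ℂ (cuspFunction 1 (F : ℍ → ℂ)) 0 :=
      ModularFormClass.analyticAt_cuspFunction_zero F one_pos h1
    rw [UpperHalfPlane.qExpansion_coeff_zero one_pos han hper]
    exact hG0.valueAtInfty_eq_zero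
  have : (F : ℍ → ℂ) = 0 := by rw [hF]; rfl
  exact this

end Fermat.Agent.S22.H262

end
-- ===== PACK-END S22/H262/WeightNonpos.lean

-- ===== PACK-BEGIN S28/H565/TExp.lean
section



/-!
# S28 analytic bridge, part 1: convergent `t`-expansions (helper565)

`HasTExp h f φ` says that the function `f : ℍ → ℂ` is given, at every point of the upper
half plane, by the (absolutely) convergent Laurent expansion `φ` in the local parameter
`t = exp (2 π i τ / h)`.  We prove that this relation is compatible with the ring operations,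
that `φ` is determined by `f`, and that it is compatible with `qExpand`.
-/

set_option autoImplicit false

noncomputable section

open UpperHalfPlane Complex Function
open scoped Real

namespace Fermat.Agent.S28.H565

local notation "𝕢" => Periodic.qParam

/-- `f` is given on all of `ℍ` by the convergent power series `P` in `t = exp (2πiτ/h)`. -/
def HasPExp (h : ℝ) (f : ℍ → ℂ) (P : PowerSeries ℂ) : Prop :=
  ∀ τ : ℍ, HasSum (fun n : ℕ => PowerSeries.coeff n P * 𝕢 h τ ^ n) (f τ)

/-- `f` is given on all of `ℍ` by the convergent Laurent series `φ` in `t = exp (2πiτ/h)`. -/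
def HasTExp (h : ℝ) (f : ℍ → ℂ) (φ : LaurentSeries ℂ) : Prop :=
  ∀ τ : ℍ, HasSum (fun n : ℤ => φ.coeff n * 𝕢 h τ ^ n) (f τ)

section PExp

variable {h : ℝ} {f g : ℍ → ℂ} {P Q : PowerSeries ℂ}

theorem HasPExp.congr (hf : HasPExp h f P) (hfg : ∀ τ, f τ = g τ) : HasPExp h g P :=
  fun τ => hfg τ ▸ hf τ

theorem HasPExp.add (hf : HasPExp h f P) (hg : HasPExp h g Q) : HasPExp h (f + g) (P + Q) := by
  intro τ
  have := (hf τ).add (hg τ)
  simpa [add_mul] using this

theorem HasPExp.zero : HasPExp h 0 0 := by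
  intro τ
  simp [hasSum_zero]

theorem HasPExp.const (c : ℂ) : HasPExp h (fun _ => c) (PowerSeries.C c) := by
  intro τ
  have := hasSum_ite_eq (0 : ℕ) c
  refine this.congr_fun ?_ |>.mono_left le_rfl
  intro n
  by_cases hn : n = 0
  · subst hn; simp
  · simp [PowerSeries.coeff_C, hn]

theorem HasPExp.smul (c : ℂ) (hf : HasPExp h f P) : HasPExp h (c • f) (c • P) := by
  intro τ
  have := (hf τ).mul_left c
  simpa [mul_assoc] using this

theorem HasPExp.neg (hf : HasPExp h f P) : HasPExp h (-f) (-P) := by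
  intro τ
  have := (hf τ).neg
  simpa using this

theorem HasPExp.sub (hf : HasPExp h f P) (hg : HasPExp h g Q) : HasPExp h (f - g) (P - Q) := by
  intro τ
  have := (hf τ).sub (hg τ)
  simpa [sub_mul] using this

theorem HasPExp.mul (hf : HasPExp h f P) (hg : HasPExp h g Q) : HasPExp h (f * g) (P * Q) := by
  intro τ
  have h1 := hf τ
  have h2 := hg τ
  have n1 : Summable fun n : ℕ => ‖PowerSeries.coeff n P * 𝕢 h τ ^ n‖ := h1.summable.norm
  have n2 : Summable fun n : ℕ => ‖PowerSeries.coeff n Q * 𝕢 h τ ^ n‖ := h2.summable.norm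
  have key := tsum_mul_tsum_eq_tsum_sum_antidiagonal_of_summable_norm n1 n2
  have hs := (summable_norm_sum_mul_antidiagonal_of_summable_norm n1 n2).of_norm
  rw [h1.tsum_eq, h2.tsum_eq] at key
  have hfun : (fun n : ℕ => PowerSeries.coeff n (P * Q) * 𝕢 h τ ^ n) =
      fun n => ∑ kl ∈ Finset.HasAntidiagonal.antidiagonal n,
        (PowerSeries.coeff kl.1 P * 𝕢 h τ ^ kl.1) * (PowerSeries.coeff kl.2 Q * 𝕢 h τ ^ kl.2) := by
    funext n
    rw [PowerSeries.coeff_mul, Finset.sum_mul]
    refine Finset.sum_congr rfl fun kl hkl => ?_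
    rw [Finset.HasAntidiagonal.mem_antidiagonal] at hkl
    rw [← hkl, pow_add]
    ring
  rw [hfun]
  simpa [Pi.mul_apply, key] using hs.hasSum

theorem HasPExp.X : HasPExp h (fun τ => 𝕢 h τ) PowerSeries.X := by
  intro τ
  have := hasSum_ite_eq (1 : ℕ) (𝕢 h τ)
  refine this.congr_fun ?_ |>.mono_left le_rfl
  intro n
  by_cases hn : n = 1
  · subst hn; simp
  · simp [PowerSeries.coeff_X, hn]

theorem HasPExp.pow (hf : HasPExp h f P) (n : ℕ) : HasPExp h (f ^ n) (P ^ n) := by
  induction n with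
  | zero =>
    have := HasPExp.const (h := h) 1
    rw [map_one] at this
    rw [pow_zero, pow_zero]
    exact this
  | succ n ih =>
    rw [pow_succ, pow_succ]
    exact ih.mul hf

theorem cuspFunction_zero_fun (h : ℝ) : cuspFunction h (0 : ℍ → ℂ) = 0 := by
  simpa [cuspFunction, Periodic.cuspFunction]
      using! (tendsto_const_nhds.mono_left nhdsWithin_le_nhds).limUnder_eq

theorem coeff_eq_zero_of_hasSum_zero {h : ℝ} (hh : 0 < h) (c : ℕ → ℂ)
    (H : ∀ τ : ℍ, HasSum (fun n : ℕ => c n * 𝕢 h τ ^ n) 0) (m : ℕ) : c m = 0 := by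
  have han : AnalyticAt ℂ (cuspFunction h (0 : ℍ → ℂ)) 0 := by
    rw [cuspFunction_zero_fun]; exact analyticAt_const
  have H' : ∀ τ : ℍ, HasSum (fun n : ℕ => c n • 𝕢 h τ ^ n) ((0 : ℍ → ℂ) τ) := fun τ => H τ
  have h1 := (hasFPowerSeriesOnBall_cuspFunction hh han H').hasFPowerSeriesAt
  rw [cuspFunction_zero_fun] at h1
  have h2 := h1.eq_zero
  have h3 := congrArg (fun p => FormalMultilinearSeries.coeff p m) h2
  simp only [FormalMultilinearSeries.coeff_ofScalars] at h3
  rw [h3]
  rfl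

theorem HasPExp.eq_zero (hh : 0 < h) (H : HasPExp h 0 P) : P = 0 := by
  ext m
  simpa using coeff_eq_zero_of_hasSum_zero hh (fun n => PowerSeries.coeff n P) (fun τ => H τ) m

theorem HasPExp.unique (hh : 0 < h) (hP : HasPExp h f P) (hQ : HasPExp h f Q) : P = Q := by
  have := (hP.sub hQ)
  rw [sub_self] at this
  exact sub_eq_zero.mp (this.eq_zero hh)

/-- A function with a convergent power series expansion is bounded at `i∞`. -/
theorem HasPExp.isBoundedAtImInfty (hh : 0 < h) (hf : HasPExp h f P) :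
    IsBoundedAtImInfty f :=
  UpperHalfPlane.isBoundedAtImInfty_of_hasSum_qExpansion (c := fun n => PowerSeries.coeff n P) hh
    (fun τ => by simpa using hf τ)

end PExp

section TExp

variable {h : ℝ} {f g : ℍ → ℂ} {φ ψ : LaurentSeries ℂ}

theorem HasTExp.congr (hf : HasTExp h f φ) (hfg : ∀ τ, f τ = g τ) : HasTExp h g φ :=
  fun τ => hfg τ ▸ hf τ

theorem HasTExp.add (hf : HasTExp h f φ) (hg : HasTExp h g ψ) : HasTExp h (f + g) (φ + ψ) := by
  intro τ
  have := (hf τ).add (hg τ)
  simpa [add_mul] using this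

theorem HasTExp.zero : HasTExp h 0 0 := by
  intro τ
  simp [hasSum_zero]

theorem HasTExp.neg (hf : HasTExp h f φ) : HasTExp h (-f) (-φ) := by
  intro τ
  have := (hf τ).neg
  simpa using this

theorem HasTExp.sub (hf : HasTExp h f φ) (hg : HasTExp h g ψ) : HasTExp h (f - g) (φ - ψ) := by
  intro τ
  have := (hf τ).sub (hg τ)
  simpa [sub_mul] using this

theorem HasTExp.smul (c : ℂ) (hf : HasTExp h f φ) : HasTExp h (c • f) (c • φ) := by
  intro τ
  have := (hf τ).mul_left c
  simpa [mul_assoc] using this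

/-- Key bridge between Laurent and power series expansions. -/
theorem hasTExp_single_mul_iff (m : ℤ) (P : PowerSeries ℂ) :
    HasTExp h f (HahnSeries.single m (1 : ℂ) * HahnSeries.ofPowerSeries ℤ ℂ P) ↔
      HasPExp h (fun τ => f τ * 𝕢 h τ ^ (-m)) P := by
  have key : ∀ τ : ℍ,
      HasSum (fun n : ℤ =>
        (HahnSeries.single m (1 : ℂ) * HahnSeries.ofPowerSeries ℤ ℂ P).coeff n * 𝕢 h τ ^ n) (f τ) ↔
      HasSum (fun n : ℕ => PowerSeries.coeff n P * 𝕢 h τ ^ n) (f τ * 𝕢 h τ ^ (-m)) := by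
    intro τ
    have hq : 𝕢 h τ ≠ 0 := Periodic.qParam_ne_zero _
    have hι : Function.Injective (fun k : ℕ => (k : ℤ) + m) := by
      intro a b hab
      simpa using hab
    have hzero : ∀ n ∉ Set.range (fun k : ℕ => (k : ℤ) + m),
        (HahnSeries.single m (1 : ℂ) * HahnSeries.ofPowerSeries ℤ ℂ P).coeff n * 𝕢 h τ ^ n = 0 := by
      intro n hn
      have hlt : n - m < 0 := by
        by_contra hge
        rw [not_lt] at hge
        exact hn ⟨(n - m).toNat, by simp [Int.toNat_of_nonneg hge]⟩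
      rw [HahnSeries.coeff_single_mul, ModularCurve.ofPowerSeries_coeff_of_neg _ hlt]
      simp
    rw [← hι.hasSum_iff hzero]
    have hfun : ((fun n : ℤ =>
        (HahnSeries.single m (1 : ℂ) * HahnSeries.ofPowerSeries ℤ ℂ P).coeff n * 𝕢 h τ ^ n) ∘
          fun k : ℕ => (k : ℤ) + m) =
        fun k : ℕ => (PowerSeries.coeff k P * 𝕢 h τ ^ k) * 𝕢 h τ ^ m := by
      funext k
      simp only [Function.comp_apply]
      rw [HahnSeries.coeff_single_mul_add, HahnSeries.ofPowerSeries_apply_coeff, one_mul,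
        zpow_add₀ hq, zpow_natCast, mul_assoc]
    rw [hfun]
    have hval : f τ = (f τ * 𝕢 h τ ^ (-m)) * 𝕢 h τ ^ m := by
      rw [mul_assoc, ← zpow_add₀ hq, neg_add_cancel, zpow_zero, mul_one]
    conv_lhs => rw [hval]
    exact hasSum_mul_right_iff (zpow_ne_zero m hq)
  exact ⟨fun H τ => (key τ).mp (H τ), fun H τ => (key τ).mpr (H τ)⟩

/-- Any Laurent expansion can be rewritten as a power series expansion. -/
theorem HasTExp.hasPExp (hf : HasTExp h f φ) :
    HasPExp h (fun τ => f τ * 𝕢 h τ ^ (-φ.order)) φ.powerSeriesPart := by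
  rw [← hasTExp_single_mul_iff, LaurentSeries.single_order_mul_powerSeriesPart]
  exact hf

theorem HasPExp.hasTExp {P : PowerSeries ℂ} (hf : HasPExp h f P) :
    HasTExp h f (HahnSeries.ofPowerSeries ℤ ℂ P) := by
  have := (hasTExp_single_mul_iff (h := h) (f := f) 0 P).mpr (by simpa using hf)
  simpa using this

theorem HasTExp.mul (hf : HasTExp h f φ) (hg : HasTExp h g ψ) : HasTExp h (f * g) (φ * ψ) := by
  have h1 := hf.hasPExp
  have h2 := hg.hasPExp
  have h3 := h1.mul h2
  have hφψ : φ * ψ = HahnSeries.single (φ.order + ψ.order) (1 : ℂ) *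
      HahnSeries.ofPowerSeries ℤ ℂ (φ.powerSeriesPart * ψ.powerSeriesPart) := by
    conv_lhs => rw [← LaurentSeries.single_order_mul_powerSeriesPart φ,
      ← LaurentSeries.single_order_mul_powerSeriesPart ψ]
    rw [map_mul, ← mul_one (1 : ℂ), ← HahnSeries.single_mul_single, mul_one]
    ring
  rw [hφψ, hasTExp_single_mul_iff]
  refine h3.congr fun τ => ?_
  have hq : 𝕢 h τ ≠ 0 := Periodic.qParam_ne_zero _
  simp only [Pi.mul_apply]
  rw [neg_add, zpow_add₀ hq]
  ring

theorem HasTExp.const (c : ℂ) : HasTExp h (fun _ => c) (HahnSeries.C c) := by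
  have := (HasPExp.const (h := h) c).hasTExp
  rwa [HahnSeries.ofPowerSeries_C] at this

theorem HasTExp.one : HasTExp h 1 1 := by
  have := HasTExp.const (h := h) 1
  rw [map_one] at this
  exact this

theorem HasTExp.pow (hf : HasTExp h f φ) (n : ℕ) : HasTExp h (f ^ n) (φ ^ n) := by
  induction n with
  | zero =>
    rw [pow_zero, pow_zero]
    exact HasTExp.one
  | succ n ih =>
    rw [pow_succ, pow_succ]
    exact ih.mul hf

theorem HasTExp.single (m : ℤ) : HasTExp h (fun τ => 𝕢 h τ ^ m) (HahnSeries.single m (1 : ℂ)) := by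
  have h1 : HasPExp h (fun τ => 𝕢 h τ ^ m * 𝕢 h τ ^ (-m)) 1 := by
    have := HasPExp.const (h := h) 1
    rw [map_one] at this
    refine this.congr fun τ => ?_
    have hq : 𝕢 h τ ≠ 0 := Periodic.qParam_ne_zero _
    rw [← zpow_add₀ hq, add_neg_cancel, zpow_zero]
  have := (hasTExp_single_mul_iff (h := h) (f := fun τ => 𝕢 h τ ^ m) m 1).mpr h1
  simpa using this

theorem HasTExp.eq_zero (hh : 0 < h) (H : HasTExp h 0 φ) : φ = 0 := by
  have h1 := H.hasPExp
  have h2 : HasPExp h 0 φ.powerSeriesPart := h1.congr fun τ => by simp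
  have h3 := h2.eq_zero hh
  rw [← LaurentSeries.single_order_mul_powerSeriesPart φ, h3]
  simp

theorem HasTExp.unique (hh : 0 < h) (hφ : HasTExp h f φ) (hψ : HasTExp h f ψ) : φ = ψ := by
  have := hφ.sub hψ
  rw [sub_self] at this
  exact sub_eq_zero.mp (this.eq_zero hh)

/-- If a function has an expansion, the function is determined by the expansion. -/
theorem HasTExp.fun_unique (hf : HasTExp h f φ) (hg : HasTExp h g φ) : f = g :=
  funext fun τ => (hf τ).unique (hg τ)

/-- Polynomial expressions: if `f` has expansion `φ` then `Q ∘ f` has expansion `Q(φ)`. -/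
theorem HasTExp.polynomial_aeval (hf : HasTExp h f φ) (Q : Polynomial ℂ) :
    HasTExp h (fun τ => Q.eval (f τ)) (Polynomial.aeval φ Q) := by
  induction Q using Polynomial.induction_on' with
  | add p q hp hq =>
    rw [map_add]
    exact (hp.add hq).congr fun τ => by simp
  | monomial n a =>
    rw [Polynomial.aeval_monomial]
    have h1 := (HasTExp.const (h := h) a).mul (hf.pow n)
    have h2 : algebraMap ℂ (LaurentSeries ℂ) a = HahnSeries.C a := by
      rw [ModularCurve.algebraMap_laurentSeries_eq_single]; rfl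
    rw [h2]
    exact h1.congr fun τ => by simp [Polynomial.eval_monomial]

theorem qParam_mul_pow (h : ℝ) (m : ℕ) (hm : m ≠ 0) (z : ℂ) (k : ℤ) :
    𝕢 (h * m) z ^ ((m : ℤ) * k) = 𝕢 h z ^ k := by
  have hm' : (m : ℂ) ≠ 0 := by exact_mod_cast hm
  simp only [Periodic.qParam]
  rw [← Complex.exp_int_mul, ← Complex.exp_int_mul]
  congr 1
  push_cast
  rcases eq_or_ne (h : ℂ) 0 with h0 | h0
  · simp [h0]
  · field_simp

/-- Change of parameter `t ↦ t^m`: an expansion in `exp (2πiτ/h)` gives one in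
`exp (2πiτ/(hm))`. -/
theorem HasTExp.qExpand (m : ℕ) [NeZero m] (hf : HasTExp h f φ) :
    HasTExp (h * m) f (ModularCurve.qExpand ℂ m φ) := by
  intro τ
  have hm : (m : ℤ) ≠ 0 := by exact_mod_cast NeZero.ne m
  have hι : Function.Injective (fun k : ℤ => (m : ℤ) * k) := mul_right_injective₀ hm
  have hzero : ∀ n ∉ Set.range (fun k : ℤ => (m : ℤ) * k),
      (ModularCurve.qExpand ℂ m φ).coeff n * 𝕢 (h * m) τ ^ n = 0 := by
    intro n hn
    rw [ModularCurve.qExpand_coeff_of_not_dvd, zero_mul]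
    rintro ⟨c, rfl⟩
    exact hn ⟨c, rfl⟩
  rw [← hι.hasSum_iff hzero]
  have hfun : ((fun n : ℤ => (ModularCurve.qExpand ℂ m φ).coeff n * 𝕢 (h * m) τ ^ n) ∘
      fun k : ℤ => (m : ℤ) * k) = fun k : ℤ => φ.coeff k * 𝕢 h τ ^ k := by
    funext k
    simp only [Function.comp_apply]
    rw [ModularCurve.qExpand_coeff_mul, qParam_mul_pow h m (NeZero.ne m)]
  rw [hfun]
  exact hf τ

theorem HasTExp.qExpand_one (m : ℕ) [NeZero m] (hf : HasTExp 1 f φ) :
    HasTExp m f (ModularCurve.qExpand ℂ m φ) := by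
  have := hf.qExpand m
  rwa [one_mul] at this

end TExp

end Fermat.Agent.S28.H565

end
end
-- ===== PACK-END S28/H565/TExp.lean

-- ===== PACK-BEGIN S28/H565/EulerProd.lean
section




/-!
# S28 analytic bridge, part 2: the Euler product (helper565)

We show that the formal power series `ModularCurve.etaProd = ∏ (1 - X^(n+1))` of the Prelude
(defined as a `tprod` in the Pi-topology on `ℤ⟦X⟧`) is the Taylor expansion of the analytic
function `q ↦ ∏' (1 - q^(n+1))` on the unit disc.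
-/

set_option autoImplicit false

noncomputable section

open Complex Function Filter Topology
open scoped Real PowerSeries.WithPiTopology

namespace Fermat.Agent.S28.H565

/-- Taylor coefficients at a point are continuous for locally uniform convergence of
holomorphic functions. -/
theorem tendsto_iteratedDeriv_of_tendstoLocallyUniformlyOn {U : Set ℂ} (hU : IsOpen U)
    (k : ℕ) : ∀ {F : ℕ → ℂ → ℂ} {G : ℂ → ℂ}, (∀ n, DifferentiableOn ℂ (F n) U) →
    TendstoLocallyUniformlyOn F G atTop U → ∀ {z : ℂ}, z ∈ U →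
    Tendsto (fun n => iteratedDeriv k (F n) z) atTop (𝓝 (iteratedDeriv k G z)) := by
  induction k with
  | zero =>
    intro F G _ hFG z hz
    simpa [iteratedDeriv_zero] using hFG.tendsto_at hz
  | succ k ih =>
    intro F G hF hFG z hz
    simp only [iteratedDeriv_succ']
    exact ih (F := fun n => deriv (F n)) (G := deriv G) (fun n => (hF n).deriv hU)
      (hFG.deriv (.of_forall hF) hU) hz

/-- Taylor coefficients of a polynomial function. -/
theorem iteratedDeriv_polynomial_eval_zero (P : Polynomial ℂ) (k : ℕ) :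
    iteratedDeriv k (fun q => P.eval q) 0 = (k.factorial : ℂ) * P.coeff k := by
  have h1 : ∀ (k : ℕ) (P : Polynomial ℂ), deriv^[k] (fun q => P.eval q) =
      fun q => ((⇑Polynomial.derivative)^[k] P).eval q := by
    intro k
    induction k with
    | zero => intro P; rfl
    | succ k ih =>
      intro P
      rw [Function.iterate_succ_apply', ih, Function.iterate_succ_apply']
      funext x
      exact Polynomial.deriv _
  rw [iteratedDeriv_eq_iterate, h1]
  simp only
  rw [← Polynomial.coeff_zero_eq_eval_zero, Polynomial.coeff_iterate_derivative, zero_add,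
    Nat.descFactorial_self, nsmul_eq_mul]

/-- The partial Euler products as complex polynomials. -/
def eulerPoly (M : ℕ) : Polynomial ℂ := ∏ n ∈ Finset.range M, (1 - Polynomial.X ^ (n + 1))

theorem eulerPoly_eval (M : ℕ) (q : ℂ) :
    (eulerPoly M).eval q = ∏ n ∈ Finset.range M, (1 - q ^ (n + 1)) := by
  simp [eulerPoly, Polynomial.eval_prod]

theorem eulerPoly_coeff (M k : ℕ) :
    (eulerPoly M).coeff k =
      ((PowerSeries.coeff k (∏ n ∈ Finset.range M, (1 - PowerSeries.X ^ (n + 1)) :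
        PowerSeries ℤ) : ℤ) : ℂ) := by
  have h1 : ((eulerPoly M : Polynomial ℂ) : PowerSeries ℂ) =
      PowerSeries.map (Int.castRingHom ℂ)
        (∏ n ∈ Finset.range M, (1 - PowerSeries.X ^ (n + 1)) : PowerSeries ℤ) := by
    rw [eulerPoly, ← Polynomial.coeToPowerSeries.ringHom_apply, map_prod, map_prod]
    refine Finset.prod_congr rfl fun n _ => ?_
    simp
  rw [← Polynomial.coeff_coe, h1, PowerSeries.coeff_map]
  rfl

/-- Coefficientwise convergence of the formal partial products to `etaProd`. -/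
theorem tendsto_coeff_partial_etaProd (k : ℕ) :
    Tendsto (fun M => ((PowerSeries.coeff k (∏ n ∈ Finset.range M,
      (1 - PowerSeries.X ^ (n + 1)) : PowerSeries ℤ) : ℤ) : ℂ)) atTop
      (𝓝 ((PowerSeries.coeff k ModularCurve.etaProd : ℤ) : ℂ)) := by
  have h1 : HasProd (fun n : ℕ => (1 - PowerSeries.X ^ (n + 1) : PowerSeries ℤ))
      ModularCurve.etaProd :=
    (PowerSeries.WithPiTopology.multipliable_one_sub_X_pow ℤ).hasProd
  have h2 := h1.tendsto_prod_nat
  have h3 := ((PowerSeries.WithPiTopology.continuous_coeff ℤ k).tendsto _).comp h2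
  have h4 : Continuous (fun n : ℤ => (n : ℂ)) := continuous_of_discreteTopology
  exact (h4.tendsto _).comp h3

/-- The Euler function on the unit disc. -/
def eulerFun (q : ℂ) : ℂ := ∏' n : ℕ, (1 - q ^ (n + 1))

theorem differentiableOn_eulerFun : DifferentiableOn ℂ eulerFun (Metric.ball 0 1) :=
  ModularForm.differentiableOn_tprod_one_sub_pow

theorem tendstoLocallyUniformlyOn_eulerPoly :
    TendstoLocallyUniformlyOn (fun M q => (eulerPoly M).eval q) eulerFun atTop
      (Metric.ball 0 1) := by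
  have h := ModularForm.multipliableLocallyUniformlyOn_one_sub_pow.hasProdLocallyUniformlyOn
  have h2 := h.tendstoLocallyUniformlyOn_finsetRange
  refine h2.congr ?_ |>.congr_right ?_
  · intro M q _
    simp [eulerPoly_eval]
  · intro q _
    rfl

/-- The complex version of the formal Euler product. -/
def etaProdC : PowerSeries ℂ := PowerSeries.map (Int.castRingHom ℂ) ModularCurve.etaProd

theorem taylor_eulerFun (k : ℕ) :
    (k.factorial : ℂ)⁻¹ * iteratedDeriv k eulerFun 0 = PowerSeries.coeff k etaProdC := by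
  have h0 : (0 : ℂ) ∈ Metric.ball (0 : ℂ) 1 := Metric.mem_ball_self one_pos
  have h1 := tendsto_iteratedDeriv_of_tendstoLocallyUniformlyOn Metric.isOpen_ball k
    (F := fun M q => (eulerPoly M).eval q) (G := eulerFun)
    (fun M => (Polynomial.differentiable _).differentiableOn)
    tendstoLocallyUniformlyOn_eulerPoly h0
  have h2 : Tendsto (fun M => (k.factorial : ℂ)⁻¹ * iteratedDeriv k
      (fun q => (eulerPoly M).eval q) 0) atTop
      (𝓝 ((k.factorial : ℂ)⁻¹ * iteratedDeriv k eulerFun 0)) := h1.const_mul _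
  have h3 : (fun M => (k.factorial : ℂ)⁻¹ * iteratedDeriv k
      (fun q => (eulerPoly M).eval q) 0) = fun M =>
      ((PowerSeries.coeff k (∏ n ∈ Finset.range M,
      (1 - PowerSeries.X ^ (n + 1)) : PowerSeries ℤ) : ℤ) : ℂ) := by
    funext M
    rw [iteratedDeriv_polynomial_eval_zero, eulerPoly_coeff, ← mul_assoc,
      inv_mul_cancel₀ (by exact_mod_cast Nat.factorial_ne_zero k), one_mul]
  rw [h3] at h2
  have h4 := tendsto_nhds_unique h2 (tendsto_coeff_partial_etaProd k)
  rw [h4, etaProdC, PowerSeries.coeff_map]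
  rfl

/-- **Euler product bridge**: the formal Euler product is the Taylor series of the analytic
Euler product on the unit disc. -/
theorem hasSum_etaProdC {q : ℂ} (hq : ‖q‖ < 1) :
    HasSum (fun k : ℕ => PowerSeries.coeff k etaProdC * q ^ k) (eulerFun q) := by
  have hq' : q ∈ Metric.ball (0 : ℂ) 1 := by simpa using hq
  have := hasSum_taylorSeries_on_ball differentiableOn_eulerFun hq'
  refine this.congr_fun ?_ |>.mono_left le_rfl
  intro k
  rw [← taylor_eulerFun]
  simp only [sub_zero, smul_eq_mul]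
  ring

end Fermat.Agent.S28.H565

end
end
-- ===== PACK-END S28/H565/EulerProd.lean

-- ===== PACK-BEGIN S28/Defs.lean
section
/-
S28 (Igusa) long-shot -- shared definitions and the interface structure `CoreData`.
All S28 declarations live in namespace `Fermat.Agent.S28`.
-/




set_option autoImplicit false

noncomputable section

open ModularCurve HahnSeries

namespace Fermat.Agent.S28

/-! ### Formal q-series over an arbitrary commutative ring -/

section Formal

variable (R : Type*) [CommRing R]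

/-- Formal discriminant `Δ = q ∏ (1 - qⁿ)²⁴` as a Laurent series over `R`. -/
def deltaL : LaurentSeries R :=
  HahnSeries.single (1 : ℤ) 1 *
    HahnSeries.ofPowerSeries ℤ R (dedekindEtaUnit.map (Int.castRingHom R))

/-- Formal inverse of `Δ`: `q⁻¹ ∏ (1 - qⁿ)⁻²⁴`. -/
def deltaInvL : LaurentSeries R :=
  HahnSeries.single (-1 : ℤ) 1 *
    HahnSeries.ofPowerSeries ℤ R (dedekindEtaUnitInv.map (Int.castRingHom R))

/-- `θ = q d/dq` on Laurent series: multiplies the coefficient of `qⁿ` by `n`. -/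
def thetaL (f : LaurentSeries R) : LaurentSeries R where
  coeff n := (n : R) * f.coeff n
  isPWO_support' := f.isPWO_support.mono fun n hn => by
    simp only [Function.mem_support, ne_eq] at hn ⊢
    intro h
    exact hn (by rw [h, mul_zero])

@[simp] theorem thetaL_coeff (f : LaurentSeries R) (n : ℤ) :
    (thetaL R f).coeff n = (n : R) * f.coeff n := rfl

/-- The modular unit `u_p = Δ(q^p)/Δ(q)` as a formal Laurent series. -/
def unitL (p : ℕ) [NeZero p] : LaurentSeries R :=
  qExpand R p (deltaL R) * deltaInvL R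

end Formal

/-! ### Fields -/

/-- `k(j) ⊂ k((q))`. -/
def jField (k : Type*) [Field k] : IntermediateField k (LaurentSeries k) :=
  IntermediateField.adjoin k {jqModC k}

/-- The integral generators `j(q^d)`, `d ∣ N`, in `ℤ((q))`. -/
def intDivisorExpansions (N : ℕ) : Set (LaurentSeries ℤ) :=
  {x | ∃ (d : ℕ) (_ : NeZero d), d ∣ N ∧ x = qExpand ℤ d (jqModC ℤ)}

/-- Evaluation `ℤ[Y] → A((q))`, `Y ↦ y`. -/
abbrev evalAt {A : Type*} [CommRing A] (y : LaurentSeries A) : Polynomial ℤ →+* LaurentSeries A :=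
  (Polynomial.aeval (R := ℤ) y).toRingHom

/-- Prime-level input from the analytic team: the modular polynomial `Φ_p ∈ ℤ[Y][X]`
(monic of degree `p+1` in `X`) with the two vanishing properties
`Φ_p(j(q^p), j(q)) = 0` and `Φ_p(j(q), j(q^p)) = 0`. -/
structure ModPolyData (p : ℕ) [NeZero p] : Type where
  Φ : Polynomial (Polynomial ℤ)
  monic : Φ.Monic
  natDegree_eq : Φ.natDegree = p + 1
  eval_jp : Φ.eval₂ (evalAt (jqModC ℤ)) (qExpand ℤ p (jqModC ℤ)) = 0
  eval_j : Φ.eval₂ (evalAt (qExpand ℤ p (jqModC ℤ))) (jqModC ℤ) = 0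

/-- Prime-level input from the analytic team: `p¹² Δ(q^p)/Δ(q)` is integral over `ℤ[j]`. -/
structure UnitPolyData (p : ℕ) [NeZero p] : Type where
  W : Polynomial (Polynomial ℤ)
  monic : W.Monic
  eval_unit : W.eval₂ (evalAt (jqModC ℤ)) ((p : LaurentSeries ℤ) ^ 12 * unitL ℤ p) = 0

/-- The interface between the field-theory part [L] and the valuation part [V]:
`n` integral "monomials" spanning `F` over `ℚ(j)` whose reductions to `K((q))`
are linearly independent over `K(j)`; plus integrality of the generators. -/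
structure CoreData (N : ℕ) [NeZero N] (K : Type) [Field K] : Prop where
  exists_basis : ∃ (n : ℕ) (y : Fin n → LaurentSeries ℤ),
    (∀ i, y i ∈ Subring.closure (intDivisorExpansions N)) ∧
    (∀ x ∈ modularFunctionFieldFull N,
      x ∈ Submodule.span (jField ℚ)
        (Set.range fun i => coeffMap (Int.castRingHom ℚ) (y i))) ∧
    LinearIndependent (jField K) (fun i => coeffMap (Int.castRingHom K) (y i))
  integral : ∀ (d : ℕ) [NeZero d], d ∣ N →
    ∃ P : Polynomial (Polynomial ℤ), P.Monic ∧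
      P.eval₂ (evalAt (jqModC ℤ)) (qExpand ℤ d (jqModC ℤ)) = 0

end Fermat.Agent.S28

end

end
-- ===== PACK-END S28/Defs.lean

-- ===== PACK-BEGIN S28/H145/PowIndep.lean
section



/-!
# Leaf [L.I] of the S28 plan

If `x` is a Laurent series whose order is prime to `p`, then `1, x, …, x^(p-1)` are linearly
independent over (any subring of) the range of `V_p = qExpand k p`.
-/

set_option autoImplicit false

noncomputable section

open ModularCurve HahnSeries

namespace Fermat.Agent.S28.H145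

variable {k : Type*} [Field k]

/-- A finite sum of nonzero Laurent series with pairwise distinct orders is nonzero. -/
theorem sum_ne_zero_of_injOn_order {ι : Type*} (s : Finset ι) (t : ι → LaurentSeries k)
    (hs : s.Nonempty) (h0 : ∀ i ∈ s, t i ≠ 0)
    (hinj : Set.InjOn (fun i => (t i).order) (s : Set ι)) : ∑ i ∈ s, t i ≠ 0 := by
  classical
  obtain ⟨i₀, hi₀, hmin⟩ := Finset.exists_min_image s (fun i => (t i).order) hs
  intro hsum
  have hc : (∑ i ∈ s, t i).coeff (t i₀).order = (t i₀).coeff (t i₀).order := by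
    rw [HahnSeries.coeff_sum]
    refine Finset.sum_eq_single_of_mem i₀ hi₀ ?_
    intro i hi hne
    refine HahnSeries.coeff_eq_zero_of_lt_order ?_
    refine lt_of_le_of_ne (hmin i hi) ?_
    intro h
    exact hne (hinj hi hi₀ h.symm)
  rw [hsum] at hc
  exact h0 i₀ hi₀ (HahnSeries.coeff_order_eq_zero.mp hc.symm)

/-- The order of a nonzero element of the range of `qExpand k p` is divisible by `p`. -/
theorem dvd_order_qExpand (p : ℕ) [NeZero p] (z : LaurentSeries k) :
    (p : ℤ) ∣ (qExpand k p z).order := by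
  by_cases hz : qExpand k p z = 0
  · rw [hz, HahnSeries.order_zero]; exact dvd_zero _
  · by_contra h
    exact hz (HahnSeries.coeff_order_eq_zero.mp (qExpand_coeff_of_not_dvd p z h))

/-- **[L.I], core form.** If `p ∤ ord x`... more precisely if `ord x` is prime to `p`, a relation
`∑_{i<p} V_p(c i) * x^i = 0` forces all `c i = 0`. -/
theorem eq_zero_of_sum_qExpand_mul_pow_eq_zero (p : ℕ) [NeZero p] (x : LaurentSeries k)
    (hx : x ≠ 0) (hord : IsCoprime x.order (p : ℤ)) (c : Fin p → LaurentSeries k)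
    (h : ∑ i : Fin p, qExpand k p (c i) * x ^ (i : ℕ) = 0) : ∀ i, c i = 0 := by
  classical
  by_contra hne
  push Not at hne
  set s : Finset (Fin p) := Finset.univ.filter (fun i => c i ≠ 0) with hs
  have hsne : s.Nonempty := by
    obtain ⟨i, hi⟩ := hne
    exact ⟨i, by simp [hs, hi]⟩
  have hterm : ∀ i ∈ s, qExpand k p (c i) * x ^ (i : ℕ) ≠ 0 := by
    intro i hi
    have hci : c i ≠ 0 := by simpa [hs] using hi
    exact mul_ne_zero (fun h0 => hci (qExpand_injective p (by rw [h0, map_zero])))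
      (pow_ne_zero _ hx)
  have hordterm : ∀ i ∈ s, (qExpand k p (c i) * x ^ (i : ℕ)).order =
      (qExpand k p (c i)).order + (i : ℕ) * x.order := by
    intro i hi
    have hci : c i ≠ 0 := by simpa [hs] using hi
    have h1 : qExpand k p (c i) ≠ 0 := fun h0 => hci (qExpand_injective p (by rw [h0, map_zero]))
    rw [HahnSeries.order_mul h1 (pow_ne_zero _ hx), HahnSeries.order_pow, nsmul_eq_mul]
  have hsum : ∑ i ∈ s, qExpand k p (c i) * x ^ (i : ℕ) = 0 := by
    rw [← h]
    refine Finset.sum_subset (Finset.subset_univ _) ?_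
    intro i _ hi
    have hci : c i = 0 := by simpa [hs] using hi
    rw [hci, map_zero, zero_mul]
  refine sum_ne_zero_of_injOn_order s _ hsne hterm ?_ hsum
  intro i hi j hj hij
  simp only at hij
  rw [hordterm i hi, hordterm j hj] at hij
  -- reduce modulo `p`
  obtain ⟨a, ha⟩ := dvd_order_qExpand p (c i)
  obtain ⟨b, hb⟩ := dvd_order_qExpand p (c j)
  rw [ha, hb] at hij
  have hdvd : (p : ℤ) ∣ ((i : ℕ) - (j : ℕ) : ℤ) * x.order := ⟨b - a, by linear_combination hij⟩
  have hdvd' : (p : ℤ) ∣ ((i : ℕ) : ℤ) - (j : ℕ) := hord.symm.dvd_of_dvd_mul_right hdvd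
  have hi' : ((i : ℕ) : ℤ) < p := by exact_mod_cast i.2
  have hj' : ((j : ℕ) : ℤ) < p := by exact_mod_cast j.2
  have hi0 : (0 : ℤ) ≤ ((i : ℕ) : ℤ) := Int.natCast_nonneg _
  have hj0 : (0 : ℤ) ≤ ((j : ℕ) : ℤ) := Int.natCast_nonneg _
  have : ((i : ℕ) : ℤ) - (j : ℕ) = 0 := by
    apply Int.eq_zero_of_abs_lt_dvd hdvd'
    rw [abs_lt]
    constructor <;> linarith
  exact Fin.ext (by exact_mod_cast sub_eq_zero.mp this)

/-- **[L.I].** If `B` is a subfield of `k((q))` contained in the range of `V_p` and `ord x` is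
prime to `p`, then `1, x, …, x^(p-1)` are linearly independent over `B`. -/
theorem linearIndependent_pow_of_le_range (p : ℕ) [NeZero p] (B : Subfield (LaurentSeries k))
    (hB : ∀ b ∈ B, b ∈ (qExpand k p).range) (x : LaurentSeries k)
    (hx : x ≠ 0) (hord : IsCoprime x.order (p : ℤ)) :
    LinearIndependent B (fun i : Fin p => x ^ (i : ℕ)) := by
  rw [Fintype.linearIndependent_iff]
  intro g hg i
  choose c hc using fun i => hB (g i) (g i).2
  have h : ∑ i : Fin p, qExpand k p (c i) * x ^ (i : ℕ) = 0 := by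
    rw [← hg]
    refine Finset.sum_congr rfl fun i _ => ?_
    rw [hc i]
    rfl
  have := eq_zero_of_sum_qExpand_mul_pow_eq_zero p x hx hord c h i
  apply Subtype.ext
  rw [← hc i, this, map_zero]
  rfl

/-- Polynomial form of [L.I]: a polynomial of degree `< p` with coefficients in the range of
`V_p` that kills `x` (with `ord x` prime to `p`) is zero. -/
theorem eq_zero_of_eval_eq_zero_of_natDegree_lt (p : ℕ) [NeZero p] (x : LaurentSeries k)
    (hx : x ≠ 0) (hord : IsCoprime x.order (p : ℤ)) (f : Polynomial (LaurentSeries k))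
    (hf : ∀ n, f.coeff n ∈ (qExpand k p).range) (hdeg : f.natDegree < p)
    (h : f.eval x = 0) : f = 0 := by
  choose c hc using hf
  have hsum : ∑ i : Fin p, qExpand k p (c i) * x ^ (i : ℕ) = 0 := by
    rw [← h, Polynomial.eval_eq_sum_range' hdeg, ← Fin.sum_univ_eq_sum_range
      (fun i => f.coeff i * x ^ i) p]
    refine Finset.sum_congr rfl fun i _ => ?_
    rw [hc]
  have hall := eq_zero_of_sum_qExpand_mul_pow_eq_zero p x hx hord (fun i => c i) hsum
  ext n
  by_cases hn : n < p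
  · have := hall ⟨n, hn⟩
    simp only at this
    rw [← hc n, this, map_zero, Polynomial.coeff_zero]
  · rw [Polynomial.coeff_eq_zero_of_natDegree_lt (lt_of_lt_of_le hdeg (not_lt.mp hn)),
      Polynomial.coeff_zero]

end Fermat.Agent.S28.H145

end

end
-- ===== PACK-END S28/H145/PowIndep.lean

-- ===== PACK-BEGIN S28/H145/PrimeDegree.lean
section





/-!
# Leaf [L.B2] of the S28 plan: the prime-level degrees are `p + 1`

From the modular polynomial `Φ_p` (`ModPolyData p`) and `j(q^p) ∉ k(j)` we deduce that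
`j(q^p)` has degree exactly `p + 1` over `k(j)` and `j` has degree exactly `p + 1` over
`k(j(q^p))`.
-/

set_option autoImplicit false

noncomputable section

open ModularCurve HahnSeries Polynomial

namespace Fermat.Agent.S28.H145

variable (k : Type*) [Field k]

/-! ### Basic facts on `j` -/

theorem jqModC_ne_zero' : jqModC k ≠ 0 := jqModC_ne_zero_of_nontrivial k

theorem order_jqModC : (jqModC k).order = -1 := by
  have h1 : (jqModC k).coeff (-1) ≠ 0 := by
    rw [coeff_jqModC_neg_one]; exact one_ne_zero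
  refine le_antisymm (HahnSeries.order_le_of_coeff_ne_zero h1) ?_
  by_contra hlt
  rw [not_le] at hlt
  exact (HahnSeries.coeff_order_eq_zero.not.mpr (jqModC_ne_zero' k)) (coeff_jqModC_of_lt k hlt)

theorem isCoprime_order_jqModC (p : ℕ) : IsCoprime (jqModC k).order (p : ℤ) := by
  rw [order_jqModC]
  exact (isCoprime_one_left).neg_left

/-- `j ∉ range V_p` for `p ≥ 2`. -/
theorem jqModC_notMem_range (p : ℕ) [NeZero p] (hp : 2 ≤ p) :
    jqModC k ∉ (qExpand k p).range := by
  rintro ⟨z, hz⟩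
  have h := dvd_order_qExpand (k := k) p z
  rw [hz, order_jqModC] at h
  have h1 : (p : ℤ) ∣ 1 := (dvd_neg.mp h)
  have h2 : (p : ℤ) ≤ 1 := Int.le_of_dvd one_pos h1
  have : (2 : ℤ) ≤ p := by exact_mod_cast hp
  omega

/-! ### Transfer of the modular equation to `k` -/

theorem coeffMap_comp_evalAt {A B : Type*} [CommRing A] [CommRing B] (f : A →+* B)
    (y : LaurentSeries A) :
    (coeffMap f).comp (evalAt y) = evalAt (coeffMap f y) := by
  refine Polynomial.ringHom_ext' (Subsingleton.elim _ _) ?_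
  simp [evalAt]

theorem qExpand_comp_evalAt {A : Type*} [CommRing A] (p : ℕ) [NeZero p] (y : LaurentSeries A) :
    (qExpand A p).comp (evalAt y) = evalAt (qExpand A p y) := by
  refine Polynomial.ringHom_ext' (Subsingleton.elim _ _) ?_
  simp [evalAt]

variable {k} in
theorem modPoly_eval_jp_field {p : ℕ} [NeZero p] (Φ : ModPolyData p) :
    Φ.Φ.eval₂ (evalAt (jqModC k)) (qExpand k p (jqModC k)) = 0 := by
  have h := congrArg (coeffMap (Int.castRingHom k)) Φ.eval_jp
  rwa [Polynomial.hom_eval₂, coeffMap_comp_evalAt, coeffMap_qExpand, coeffMap_jqModC, map_zero]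
    at h

variable {k} in
theorem modPoly_eval_j_field {p : ℕ} [NeZero p] (Φ : ModPolyData p) :
    Φ.Φ.eval₂ (evalAt (qExpand k p (jqModC k))) (jqModC k) = 0 := by
  have h := congrArg (coeffMap (Int.castRingHom k)) Φ.eval_j
  rwa [Polynomial.hom_eval₂, coeffMap_comp_evalAt, coeffMap_qExpand, coeffMap_jqModC, map_zero]
    at h

variable {k} in
/-- `Φ_p(j(q^{p²}), j(q^p)) = 0`. -/
theorem modPoly_eval_jpp_field {p : ℕ} [NeZero p] (Φ : ModPolyData p) :
    Φ.Φ.eval₂ (evalAt (qExpand k p (jqModC k))) (qExpand k p (qExpand k p (jqModC k))) = 0 := by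
  have h := congrArg (qExpand k p) (modPoly_eval_jp_field (k := k) Φ)
  rwa [Polynomial.hom_eval₂, qExpand_comp_evalAt, map_zero] at h

/-! ### Polynomials over intermediate fields -/

section Sub

variable {k}
variable (K : IntermediateField k (LaurentSeries k))

/-- The ring hom `ℤ[Y] → K`, `Y ↦ y`, for `y ∈ K`. -/
def evalAtSub (y : LaurentSeries k) (hy : y ∈ K) : Polynomial ℤ →+* K :=
  Polynomial.eval₂RingHom (Int.castRingHom K) ⟨y, hy⟩

theorem algebraMap_comp_evalAtSub (y : LaurentSeries k) (hy : y ∈ K) :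
    (algebraMap K (LaurentSeries k)).comp (evalAtSub K y hy) = evalAt y := by
  refine Polynomial.ringHom_ext' (Subsingleton.elim _ _) ?_
  simp [evalAtSub, evalAt]

theorem aeval_map_evalAtSub (y : LaurentSeries k) (hy : y ∈ K) (P : Polynomial (Polynomial ℤ))
    (x : LaurentSeries k) :
    Polynomial.aeval x (P.map (evalAtSub K y hy)) = P.eval₂ (evalAt y) x := by
  rw [Polynomial.aeval_def, Polynomial.eval₂_map, algebraMap_comp_evalAtSub]

end Sub

/-! ### The fields `k(j)` and `k(j(q^p))` -/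

section Fields

variable (p : ℕ) [NeZero p]

/-- `k(j(q^p)) = V_p(k(j))`. -/
def jpField : IntermediateField k (LaurentSeries k) :=
  (jField k).map (qExpandAlgHomC k p)

variable {k p}

theorem jqModC_mem_jField : jqModC k ∈ jField k :=
  IntermediateField.mem_adjoin_simple_self k _

theorem jp_mem_jpField : qExpand k p (jqModC k) ∈ jpField k p :=
  (IntermediateField.mem_map _).mpr ⟨jqModC k, jqModC_mem_jField, rfl⟩

theorem jpField_eq_adjoin :
    jpField k p = IntermediateField.adjoin k {qExpand k p (jqModC k)} := by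
  rw [jpField, jField, IntermediateField.adjoin_map]
  simp

theorem mem_range_of_mem_jpField {y : LaurentSeries k} (hy : y ∈ jpField k p) :
    y ∈ (qExpand k p).range := by
  obtain ⟨x, -, rfl⟩ := (IntermediateField.mem_map _).mp hy
  exact ⟨x, rfl⟩

theorem jp_mem_jField_of_jpp_mem
    (h : qExpand k p (qExpand k p (jqModC k)) ∈ jpField k p) :
    qExpand k p (jqModC k) ∈ jField k := by
  obtain ⟨x, hx, hxe⟩ := (IntermediateField.mem_map _).mp h
  have : x = qExpand k p (jqModC k) := qExpand_injective p hxe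
  rwa [← this]

end Fields

/-! ### The degree of `j` over `k(j(q^p))` -/

section Main

variable {k} {p : ℕ} [NeZero p]

/-- A monic polynomial of degree `p` with coefficients in the range of `V_p` cannot kill both
`j` and an element of the range of `V_p`. -/
theorem false_of_monic_natDegree_eq_of_roots (hp : 2 ≤ p) (f : Polynomial (LaurentSeries k))
    (hf : f.Monic) (hdeg : f.natDegree = p) (hcoef : ∀ n, f.coeff n ∈ (qExpand k p).range)
    (hj : f.eval (jqModC k) = 0) (z : LaurentSeries k) (hz : f.eval (qExpand k p z) = 0) :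
    False := by
  have hlift : f ∈ Polynomial.lifts (qExpand k p) :=
    (Polynomial.lifts_iff_coeff_lifts f).mpr fun n => by
      obtain ⟨c, hc⟩ := hcoef n
      exact ⟨c, hc⟩
  obtain ⟨m', hm'map, hm'deg, hm'monic⟩ := Polynomial.lifts_and_natDegree_eq_and_monic hlift hf
  have hroot : m'.IsRoot z := by
    have h1 : (qExpand k p) (m'.eval z) = 0 := by
      rw [← Polynomial.eval₂_hom, ← Polynomial.eval_map, hm'map]; exact hz
    exact qExpand_injective p (by rw [h1, map_zero])
  have hfac : (X - Polynomial.C z) * (m' /ₘ (X - Polynomial.C z)) = m' := Polynomial.mul_divByMonic_eq_iff_isRoot.mpr hroot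
  set m₂ := m' /ₘ (X - Polynomial.C z) with hm₂
  have hm₂deg : m₂.natDegree = p - 1 := by
    rw [hm₂, Polynomial.natDegree_divByMonic _ (Polynomial.monic_X_sub_C z), hm'deg, hdeg,
      Polynomial.natDegree_X_sub_C]
  have hfmap : f = (X - Polynomial.C (qExpand k p z)) * m₂.map (qExpand k p) := by
    rw [← hm'map, ← hfac, Polynomial.map_mul, Polynomial.map_sub, Polynomial.map_X,
      Polynomial.map_C]
  have hne : jqModC k - qExpand k p z ≠ 0 := by
    intro h
    exact jqModC_notMem_range k p hp ⟨z, (sub_eq_zero.mp h).symm⟩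
  have hj2 : (m₂.map (qExpand k p)).eval (jqModC k) = 0 := by
    have := hj
    rw [hfmap, Polynomial.eval_mul, Polynomial.eval_sub, Polynomial.eval_X, Polynomial.eval_C]
      at this
    exact (mul_eq_zero.mp this).resolve_left hne
  have hzero : m₂.map (qExpand k p) = 0 := by
    refine eq_zero_of_eval_eq_zero_of_natDegree_lt p (jqModC k) (jqModC_ne_zero' k)
      (isCoprime_order_jqModC k p) _ (fun n => ?_) ?_ hj2
    · rw [Polynomial.coeff_map]; exact ⟨_, rfl⟩
    · calc (m₂.map (qExpand k p)).natDegree ≤ m₂.natDegree := Polynomial.natDegree_map_le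
        _ = p - 1 := hm₂deg
        _ < p := by omega
  rw [hzero, mul_zero] at hfmap
  exact hf.ne_zero hfmap

/-- **[L.B2], first half.** The minimal polynomial of `j` over `k(j(q^p))` is `Φ_p(X, j(q^p))`,
of degree `p + 1`. -/
theorem minpoly_j_over_jpField (Φ : ModPolyData p) (hp : 2 ≤ p)
    (hB1 : qExpand k p (jqModC k) ∉ jField k) :
    minpoly (jpField k p) (jqModC k) =
      Φ.Φ.map (evalAtSub (jpField k p) _ jp_mem_jpField) := by
  set K₁ := jpField k p with hK₁
  set P₁ : Polynomial K₁ := Φ.Φ.map (evalAtSub K₁ _ jp_mem_jpField) with hP₁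
  have hP₁monic : P₁.Monic := Φ.monic.map _
  have hP₁deg : P₁.natDegree = p + 1 := by
    rw [hP₁, Φ.monic.natDegree_map, Φ.natDegree_eq]
  have hroot_j : Polynomial.aeval (jqModC k) P₁ = 0 := by
    rw [hP₁, aeval_map_evalAtSub]; exact modPoly_eval_j_field Φ
  have hroot_jpp : Polynomial.aeval (qExpand k p (qExpand k p (jqModC k))) P₁ = 0 := by
    rw [hP₁, aeval_map_evalAtSub]; exact modPoly_eval_jpp_field Φ
  have hint : IsIntegral K₁ (jqModC k) := ⟨P₁, hP₁monic, by rwa [← Polynomial.aeval_def]⟩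
  set m := minpoly K₁ (jqModC k) with hm
  have hm_dvd : m ∣ P₁ := minpoly.dvd K₁ _ hroot_j
  have hm_monic : m.Monic := minpoly.monic hint
  have hm_le : m.natDegree ≤ p + 1 :=
    hP₁deg ▸ Polynomial.natDegree_le_of_dvd hm_dvd hP₁monic.ne_zero
  have hcoef : ∀ n, (m.map (algebraMap K₁ (LaurentSeries k))).coeff n ∈ (qExpand k p).range := by
    intro n
    rw [Polynomial.coeff_map]
    exact mem_range_of_mem_jpField (m.coeff n).2
  have hmj : (m.map (algebraMap K₁ (LaurentSeries k))).eval (jqModC k) = 0 := by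
    rw [Polynomial.eval_map, ← Polynomial.aeval_def]; exact minpoly.aeval K₁ _
  -- Claim A
  have hA : p ≤ m.natDegree := by
    by_contra hlt
    rw [not_le] at hlt
    have := eq_zero_of_eval_eq_zero_of_natDegree_lt p (jqModC k) (jqModC_ne_zero' k)
      (isCoprime_order_jqModC k p) (m.map (algebraMap K₁ (LaurentSeries k))) hcoef
      (by rwa [hm_monic.natDegree_map]) hmj
    exact (hm_monic.map _).ne_zero this
  -- Claim B
  have hB : m.natDegree ≠ p := by
    intro hdeg
    obtain ⟨r, hr⟩ := hm_dvd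
    have hr_monic : r.Monic := hm_monic.of_mul_monic_left (hr ▸ hP₁monic)
    have hr_deg : r.natDegree = 1 := by
      have := congrArg Polynomial.natDegree hr
      rw [hm_monic.natDegree_mul hr_monic, hP₁deg, hdeg] at this
      omega
    have hr_eq : r = X + Polynomial.C (r.coeff 0) := hr_monic.eq_X_add_C hr_deg
    have h0 : Polynomial.aeval (qExpand k p (qExpand k p (jqModC k))) m *
        Polynomial.aeval (qExpand k p (qExpand k p (jqModC k))) r = 0 := by
      rw [← map_mul, ← hr]; exact hroot_jpp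
    rcases mul_eq_zero.mp h0 with h1 | h1
    · refine false_of_monic_natDegree_eq_of_roots hp (m.map (algebraMap K₁ (LaurentSeries k)))
        (hm_monic.map _) (by rw [hm_monic.natDegree_map, hdeg]) hcoef hmj
        (qExpand k p (jqModC k)) ?_
      rw [Polynomial.eval_map, ← Polynomial.aeval_def]; exact h1
    · rw [hr_eq] at h1
      simp only [map_add, Polynomial.aeval_X, Polynomial.aeval_C] at h1
      have hmem : qExpand k p (qExpand k p (jqModC k)) ∈ K₁ := by
        have : qExpand k p (qExpand k p (jqModC k)) =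
            -(algebraMap K₁ (LaurentSeries k) (r.coeff 0)) := eq_neg_of_add_eq_zero_left h1
        rw [this]
        exact neg_mem (r.coeff 0).2
      exact hB1 (jp_mem_jField_of_jpp_mem hmem)
  have hdeg : m.natDegree = p + 1 := by omega
  exact (Polynomial.eq_of_monic_of_dvd_of_natDegree_le hm_monic hP₁monic hm_dvd
    (by rw [hP₁deg, hdeg])).symm

theorem natDegree_minpoly_j_over_jpField (Φ : ModPolyData p) (hp : 2 ≤ p)
    (hB1 : qExpand k p (jqModC k) ∉ jField k) :
    (minpoly (jpField k p) (jqModC k)).natDegree = p + 1 := by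
  rw [minpoly_j_over_jpField Φ hp hB1, Φ.monic.natDegree_map, Φ.natDegree_eq]

/-- The minimal polynomial of `j(q^{p²})` over `k(j(q^p))` is also `Φ_p(X, j(q^p))`. -/
theorem minpoly_jpp_over_jpField (Φ : ModPolyData p) (hp : 2 ≤ p)
    (hB1 : qExpand k p (jqModC k) ∉ jField k) :
    minpoly (jpField k p) (qExpand k p (qExpand k p (jqModC k))) =
      Φ.Φ.map (evalAtSub (jpField k p) _ jp_mem_jpField) := by
  have hP₁monic : (Φ.Φ.map (evalAtSub (jpField k p) _ jp_mem_jpField)).Monic := Φ.monic.map _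
  have hroot_j : Polynomial.aeval (jqModC k)
      (Φ.Φ.map (evalAtSub (jpField k p) _ jp_mem_jpField)) = 0 := by
    rw [aeval_map_evalAtSub]; exact modPoly_eval_j_field Φ
  have hint : IsIntegral (jpField k p) (jqModC k) :=
    ⟨_, hP₁monic, by rwa [← Polynomial.aeval_def]⟩
  have hirr : Irreducible (Φ.Φ.map (evalAtSub (jpField k p) _ jp_mem_jpField)) := by
    rw [← minpoly_j_over_jpField Φ hp hB1]
    exact minpoly.irreducible hint
  refine (minpoly.eq_of_irreducible_of_monic hirr ?_ hP₁monic).symm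
  rw [aeval_map_evalAtSub]
  exact modPoly_eval_jpp_field Φ

/-- The ring isomorphism `k(j) ≃ k(j(q^p))` induced by `V_p`. -/
def jFieldEquiv (k : Type*) [Field k] (p : ℕ) [NeZero p] : jField k ≃ₐ[k] jpField k p :=
  IntermediateField.equivMap (jField k) (qExpandAlgHomC k p)

theorem algebraMap_comp_jFieldEquiv :
    (algebraMap (jpField k p) (LaurentSeries k)).comp (jFieldEquiv k p : jField k →+* jpField k p)
      = (qExpand k p).comp (algebraMap (jField k) (LaurentSeries k)) := by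
  ext x
  rfl

/-- **[L.B2], second half.** The minimal polynomial of `j(q^p)` over `k(j)` is `Φ_p(X, j)`. -/
theorem minpoly_jp_over_jField (Φ : ModPolyData p) (hp : 2 ≤ p)
    (hB1 : qExpand k p (jqModC k) ∉ jField k) :
    minpoly (jField k) (qExpand k p (jqModC k)) =
      Φ.Φ.map (evalAtSub (jField k) _ jqModC_mem_jField) := by
  set K₀ := jField k with hK₀
  set P₀ : Polynomial K₀ := Φ.Φ.map (evalAtSub K₀ _ jqModC_mem_jField) with hP₀
  have hP₀monic : P₀.Monic := Φ.monic.map _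
  have hP₀deg : P₀.natDegree = p + 1 := by
    rw [hP₀, Φ.monic.natDegree_map, Φ.natDegree_eq]
  have hroot : Polynomial.aeval (qExpand k p (jqModC k)) P₀ = 0 := by
    rw [hP₀, aeval_map_evalAtSub]; exact modPoly_eval_jp_field Φ
  have hint : IsIntegral K₀ (qExpand k p (jqModC k)) :=
    ⟨P₀, hP₀monic, by rwa [← Polynomial.aeval_def]⟩
  set m₀ := minpoly K₀ (qExpand k p (jqModC k)) with hm₀
  have hm₀_dvd : m₀ ∣ P₀ := minpoly.dvd K₀ _ hroot
  have hm₀_monic : m₀.Monic := minpoly.monic hint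
  -- transport to `k(j(q^p))`
  set g : Polynomial (jpField k p) := m₀.map (jFieldEquiv k p : jField k →+* jpField k p) with hg
  have hg_monic : g.Monic := hm₀_monic.map _
  have hg_deg : g.natDegree = m₀.natDegree := hm₀_monic.natDegree_map _
  have hg_root : Polynomial.aeval (qExpand k p (qExpand k p (jqModC k))) g = 0 := by
    rw [hg, Polynomial.aeval_def, Polynomial.eval₂_map, algebraMap_comp_jFieldEquiv,
      ← Polynomial.hom_eval₂, ← Polynomial.aeval_def, minpoly.aeval, map_zero]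
  have hdvd : minpoly (jpField k p) (qExpand k p (qExpand k p (jqModC k))) ∣ g :=
    minpoly.dvd _ _ hg_root
  rw [minpoly_jpp_over_jpField Φ hp hB1] at hdvd
  have hle : p + 1 ≤ m₀.natDegree := by
    have := Polynomial.natDegree_le_of_dvd hdvd hg_monic.ne_zero
    rwa [Φ.monic.natDegree_map, Φ.natDegree_eq, hg_deg] at this
  exact (Polynomial.eq_of_monic_of_dvd_of_natDegree_le hm₀_monic hP₀monic hm₀_dvd
    (by rw [hP₀deg]; exact hle)).symm

theorem natDegree_minpoly_jp_over_jField (Φ : ModPolyData p) (hp : 2 ≤ p)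
    (hB1 : qExpand k p (jqModC k) ∉ jField k) :
    (minpoly (jField k) (qExpand k p (jqModC k))).natDegree = p + 1 := by
  rw [minpoly_jp_over_jField Φ hp hB1, Φ.monic.natDegree_map, Φ.natDegree_eq]

theorem isIntegral_jp_over_jField (Φ : ModPolyData p) :
    IsIntegral (jField k) (qExpand k p (jqModC k)) := by
  refine ⟨Φ.Φ.map (evalAtSub (jField k) _ jqModC_mem_jField), Φ.monic.map _, ?_⟩
  rw [← Polynomial.aeval_def, aeval_map_evalAtSub]
  exact modPoly_eval_jp_field Φ

theorem isIntegral_j_over_jpField (Φ : ModPolyData p) :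
    IsIntegral (jpField k p) (jqModC k) := by
  refine ⟨Φ.Φ.map (evalAtSub (jpField k p) _ jp_mem_jpField), Φ.monic.map _, ?_⟩
  rw [← Polynomial.aeval_def, aeval_map_evalAtSub]
  exact modPoly_eval_j_field Φ

/-- `[k(j, j(q^p)) : k(j)] = p + 1`. -/
theorem finrank_adjoin_jp_over_jField (Φ : ModPolyData p) (hp : 2 ≤ p)
    (hB1 : qExpand k p (jqModC k) ∉ jField k) :
    Module.finrank (jField k)
      (IntermediateField.adjoin (jField k) {qExpand k p (jqModC k)}) = p + 1 := by
  have h := IntermediateField.adjoin.finrank (isIntegral_jp_over_jField (k := k) Φ)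
  rw [h, natDegree_minpoly_jp_over_jField Φ hp hB1]

/-- `[k(j(q^p), j) : k(j(q^p))] = p + 1`. -/
theorem finrank_adjoin_j_over_jpField (Φ : ModPolyData p) (hp : 2 ≤ p)
    (hB1 : qExpand k p (jqModC k) ∉ jField k) :
    Module.finrank (jpField k p)
      (IntermediateField.adjoin (jpField k p) {jqModC k}) = p + 1 := by
  have h := IntermediateField.adjoin.finrank (isIntegral_j_over_jpField (k := k) Φ)
  rw [h, natDegree_minpoly_j_over_jpField Φ hp hB1]

end Main

end Fermat.Agent.S28.H145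

end

end
-- ===== PACK-END S28/H145/PrimeDegree.lean

-- ===== PACK-BEGIN S28/H589/Section.lean
section



/-!
# S28 / A-Φ descent, formal part 1 (helper589): the section matrix

For `f ∈ R((q))` and `p ≥ 1`, the Laurent series ring is free of rank `p` over the image of
`V_p = qExpand R p` (`q ↦ q^p`) with basis `1, q, …, q^(p-1)`.  The matrix of multiplication
by `f` in this basis has entries the "sections" `sec p f i k = ∑ₘ f_{pm+k-i} qᵐ`.  Its
characteristic polynomial `χ` is monic of degree `p` over `R((q))` and `V_p(χ)(f) = 0`.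
-/

set_option autoImplicit false

noncomputable section

open ModularCurve HahnSeries

namespace Fermat.Agent.S28.H589

variable {R : Type*} [CommRing R]

theorem sec_bddBelow (p : ℕ) [NeZero p] (f : LaurentSeries R) (i k : ℕ) :
    BddBelow (Function.support fun m : ℤ => f.coeff ((p : ℤ) * m + k - i)) := by
  refine ⟨-(|f.order| + i + k), ?_⟩
  intro m hm
  by_contra hlt
  push Not at hlt
  apply hm
  apply HahnSeries.coeff_eq_zero_of_lt_order
  have hp : (1 : ℤ) ≤ p := by
    have := Nat.pos_of_ne_zero (NeZero.ne p)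
    exact_mod_cast this
  have hm0 : m < 0 := by
    have h1 := abs_nonneg f.order
    have : (0 : ℤ) ≤ i := Int.natCast_nonneg i
    have : (0 : ℤ) ≤ k := Int.natCast_nonneg k
    linarith
  have h2 : (p : ℤ) * m ≤ m := by nlinarith
  have h3 := neg_abs_le f.order
  have : (0 : ℤ) ≤ i := Int.natCast_nonneg i
  linarith

/-- The section `∑ₘ f_{pm+k-i} qᵐ` of `f`. -/
def sec (p : ℕ) [NeZero p] (f : LaurentSeries R) (i k : ℕ) : LaurentSeries R :=
  HahnSeries.ofSuppBddBelow (fun m : ℤ => f.coeff ((p : ℤ) * m + k - i)) (sec_bddBelow p f i k)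

@[simp]
theorem sec_coeff (p : ℕ) [NeZero p] (f : LaurentSeries R) (i k : ℕ) (m : ℤ) :
    (sec p f i k).coeff m = f.coeff ((p : ℤ) * m + k - i) := rfl

/-- `f · qⁱ = ∑_{k<p} V_p(sec p f i k) · qᵏ`. -/
theorem mul_single_eq_sum_sec (p : ℕ) [NeZero p] (f : LaurentSeries R) (i : ℕ) :
    f * HahnSeries.single (i : ℤ) (1 : R) =
      ∑ k ∈ Finset.range p, qExpand R p (sec p f i k) * HahnSeries.single (k : ℤ) (1 : R) := by
  ext n
  rw [HahnSeries.coeff_mul_single, mul_one, HahnSeries.coeff_sum]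
  have hp : (0 : ℤ) < p := by
    have := Nat.pos_of_ne_zero (NeZero.ne p)
    exact_mod_cast this
  set k₀ : ℕ := (n % (p : ℤ)).toNat with hk₀
  have hk₀n : ((k₀ : ℕ) : ℤ) = n % (p : ℤ) := Int.toNat_of_nonneg (Int.emod_nonneg _ hp.ne')
  have hk₀p : k₀ < p := by
    have := Int.emod_lt_of_pos n hp
    rw [← hk₀n] at this
    exact_mod_cast this
  rw [Finset.sum_eq_single_of_mem k₀ (Finset.mem_range.mpr hk₀p)]
  · rw [HahnSeries.coeff_mul_single, mul_one]
    have hdiv : n - (k₀ : ℤ) = (p : ℤ) * (n / (p : ℤ)) := by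
      rw [hk₀n]
      have := Int.emod_add_mul_ediv n (p : ℤ)
      linarith
    rw [hdiv, qExpand_coeff_mul, sec_coeff]
    congr 1
    rw [← hdiv]
    ring
  · intro k hk hne
    rw [HahnSeries.coeff_mul_single, mul_one]
    apply qExpand_coeff_of_not_dvd
    intro hdvd
    apply hne
    have hkp : k < p := Finset.mem_range.mp hk
    have h1 : n % (p : ℤ) = (k : ℤ) % (p : ℤ) := by
      have := (Int.emod_emod_of_dvd n (dvd_refl (p : ℤ)))
      exact (Int.emod_eq_emod_iff_emod_sub_eq_zero).mpr (Int.emod_eq_zero_of_dvd hdvd)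
    have h2 : (k : ℤ) % (p : ℤ) = k := Int.emod_eq_of_lt (Int.natCast_nonneg k) (by exact_mod_cast hkp)
    have : ((k₀ : ℕ) : ℤ) = (k : ℤ) := by rw [hk₀n, h1, h2]
    exact_mod_cast this.symm

/-- The section matrix of `f`. -/
def secMat (p : ℕ) [NeZero p] (f : LaurentSeries R) : Matrix (Fin p) (Fin p) (LaurentSeries R) :=
  fun i k => sec p f (i : ℕ) (k : ℕ)

/-- The basis vector `(qᵏ)ₖ`. -/
def qVec (R : Type*) [CommRing R] (p : ℕ) : Fin p → LaurentSeries R :=
  fun k => HahnSeries.single ((k : ℕ) : ℤ) (1 : R)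

theorem secMat_mulVec (p : ℕ) [NeZero p] (f : LaurentSeries R) :
    ((secMat p f).map (qExpand R p)).mulVec (qVec R p) = f • qVec R p := by
  funext i
  simp only [Matrix.mulVec, dotProduct, Matrix.map_apply, secMat, qVec, Pi.smul_apply,
    smul_eq_mul]
  rw [mul_single_eq_sum_sec p f (i : ℕ), ← Fin.sum_univ_eq_sum_range
    (fun k => qExpand R p (sec p f (i : ℕ) k) * HahnSeries.single (k : ℤ) (1 : R)) p]

/-- **Section charpoly.**  For every `f ∈ R((q))` there is a monic polynomial `χ` of degree `p`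
over `R((q))` with `V_p(χ)(f) = 0`. -/
theorem exists_section_charpoly [Nontrivial R] (p : ℕ) [NeZero p] (f : LaurentSeries R) :
    ∃ χ : Polynomial (LaurentSeries R), χ.Monic ∧ χ.natDegree = p ∧
      (χ.map (qExpand R p)).eval f = 0 := by
  classical
  refine ⟨(secMat p f).charpoly, Matrix.charpoly_monic _, ?_, ?_⟩
  · rw [Matrix.charpoly_natDegree_eq_dim, Fintype.card_fin]
  · rw [← Matrix.charpoly_map, Matrix.eval_charpoly]
    set A : Matrix (Fin p) (Fin p) (LaurentSeries R) :=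
      Matrix.scalar (Fin p) f - (secMat p f).map (qExpand R p) with hA
    have hAv : A.mulVec (qVec R p) = 0 := by
      rw [hA, Matrix.sub_mulVec, secMat_mulVec]
      funext i
      simp [Matrix.mulVec, dotProduct, Matrix.scalar_apply, Matrix.diagonal_apply]
    have hdet : A.det • qVec R p = 0 := by
      have h1 : (A.adjugate * A).mulVec (qVec R p) = 0 := by
        rw [← Matrix.mulVec_mulVec, hAv, Matrix.mulVec_zero]
      rw [Matrix.adjugate_mul, Matrix.smul_mulVec, Matrix.one_mulVec] at h1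
      exact h1
    have h0 := congrFun hdet ⟨0, Nat.pos_of_ne_zero (NeZero.ne p)⟩
    simp only [Pi.smul_apply, qVec, Nat.cast_zero, smul_eq_mul, Pi.zero_apply] at h0
    have h1 : (HahnSeries.single (0 : ℤ) (1 : R)) = 1 := rfl
    rw [h1, mul_one] at h0
    exact h0

end Fermat.Agent.S28.H589

end

end
-- ===== PACK-END S28/H589/Section.lean

-- ===== PACK-BEGIN S29/H332/WeightedEis.lean
section


/-!
# Weighted Eisenstein series

For a bounded weight function `c : (Fin 2 → ℤ) → ℂ` and `k ≥ 3` we study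
`wEis c k z = ∑' v, c v * (v 0 * z + v 1) ^ (-k)`.
-/

open UpperHalfPlane EisensteinSeries ModularForm Filter Topology
open scoped Matrix
open scoped MatrixGroups Manifold

noncomputable section

namespace Fermat.Agent.S29.H332

/-- The weighted Eisenstein series. -/
def wEis (c : (Fin 2 → ℤ) → ℂ) (k : ℤ) (z : ℍ) : ℂ :=
  ∑' v : Fin 2 → ℤ, c v * eisSummand k v z

theorem norm_wsummand_le {c : (Fin 2 → ℤ) → ℂ} (hc : ∀ v, ‖c v‖ ≤ 1) (k : ℤ) (v : Fin 2 → ℤ)
    (z : ℍ) : ‖c v * eisSummand k v z‖ ≤ ‖eisSummand k v z‖ := by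
  rw [norm_mul]
  exact mul_le_of_le_one_left (norm_nonneg _) (hc v)

theorem summable_norm_wEis {c : (Fin 2 → ℤ) → ℂ} (hc : ∀ v, ‖c v‖ ≤ 1) {k : ℤ} (hk : 3 ≤ k)
    (z : ℍ) : Summable fun v : Fin 2 → ℤ => ‖c v * eisSummand k v z‖ :=
  (summable_norm_eisSummand hk z).of_nonneg_of_le (fun _ => norm_nonneg _)
    (fun v => norm_wsummand_le hc k v z)

theorem summable_wEis {c : (Fin 2 → ℤ) → ℂ} (hc : ∀ v, ‖c v‖ ≤ 1) {k : ℤ} (hk : 3 ≤ k)
    (z : ℍ) : Summable fun v : Fin 2 → ℤ => c v * eisSummand k v z :=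
  (summable_norm_wEis hc hk z).of_norm

/-- right multiplication by `γ` as a permutation of `ℤ²`. -/
def vecMulEquiv (γ : SL(2, ℤ)) : (Fin 2 → ℤ) ≃ (Fin 2 → ℤ) where
  toFun v := v ᵥ* γ.1
  invFun v := v ᵥ* (γ⁻¹).1
  left_inv v := by
    simp only [Matrix.vecMul_vecMul]
    rw [← Matrix.SpecialLinearGroup.coe_mul, mul_inv_cancel, Matrix.SpecialLinearGroup.coe_one,
      Matrix.vecMul_one]
  right_inv v := by
    simp only [Matrix.vecMul_vecMul]
    rw [← Matrix.SpecialLinearGroup.coe_mul, inv_mul_cancel, Matrix.SpecialLinearGroup.coe_one,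
      Matrix.vecMul_one]

/-- Slashing a weighted Eisenstein series transforms the weight. -/
theorem wEis_slash (c : (Fin 2 → ℤ) → ℂ) (k : ℤ) (γ : SL(2, ℤ)) :
    wEis c k ∣[k] γ = wEis (fun v => c (v ᵥ* (γ⁻¹).1)) k := by
  ext1 z
  simp_rw [SL_slash_apply, _root_.zpow_neg,
    mul_inv_eq_iff_eq_mul₀ (zpow_ne_zero _ <| denom_ne_zero _ z), wEis]
  rw [← tsum_mul_right]
  conv_rhs => rw [← (vecMulEquiv γ).tsum_eq]
  congr 1
  funext v
  simp only [vecMulEquiv, Equiv.coe_fn_mk]
  rw [Matrix.vecMul_vecMul, ← Matrix.SpecialLinearGroup.coe_mul, mul_inv_cancel,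
    Matrix.SpecialLinearGroup.coe_one, Matrix.vecMul_one, eisSummand_SL2_apply]
  simp only [denom]
  ring_nf


theorem wEis_tendstoLocallyUniformly {c : (Fin 2 → ℤ) → ℂ} (hc : ∀ v, ‖c v‖ ≤ 1) {k : ℤ}
    (hk : 3 ≤ k) :
    TendstoLocallyUniformly (fun (s : Finset (Fin 2 → ℤ)) ↦ (∑ x ∈ s, c x * eisSummand k x ·))
      (wEis c k ·) Filter.atTop := by
  have hk' : (2 : ℝ) < k := by norm_cast
  have p_sum : Summable fun x : Fin 2 → ℤ ↦ ‖x‖ ^ (-k) :=
    mod_cast (summable_one_div_norm_rpow hk')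
  simp only [tendstoLocallyUniformly_iff_forall_isCompact, wEis]
  intro K hK
  obtain ⟨A, B, hB, HABK⟩ := subset_verticalStrip_of_isCompact hK
  refine (tendstoUniformlyOn_tsum (hu := p_sum.mul_left <| r ⟨⟨A, B⟩, hB⟩ ^ (-k : ℝ))
    (fun p z hz ↦ ?_)).mono HABK
  refine (norm_wsummand_le hc k p z).trans ?_
  simpa only [eisSummand, one_div, ← zpow_neg, norm_zpow, ← Real.rpow_intCast,
    Int.cast_neg] using summand_bound_of_mem_verticalStrip (by positivity) p hB hz

theorem wEis_tendstoLocallyUniformlyOn {c : (Fin 2 → ℤ) → ℂ} (hc : ∀ v, ‖c v‖ ≤ 1) {k : ℤ}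
    (hk : 3 ≤ k) :
    TendstoLocallyUniformlyOn (fun (s : Finset (Fin 2 → ℤ)) ↦
      ((fun (z : ℍ) ↦ ∑ x ∈ s, c x * eisSummand k x z) ∘ ofComplex)) ((wEis c k) ∘ ofComplex)
          Filter.atTop {z : ℂ | 0 < z.im} := by
  rw [← upperHalfPlaneSet, ← range_coe, ← Set.image_univ]
  apply TendstoLocallyUniformlyOn.comp (s := ⊤) _ _ _ (OpenPartialHomeomorph.continuousOn_symm _)
  · simp only [Set.top_eq_univ, tendstoLocallyUniformlyOn_univ]
    apply wEis_tendstoLocallyUniformly hc hk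
  · simp only [IsOpenEmbedding.toOpenPartialHomeomorph_target, Set.top_eq_univ,
      Set.mapsTo_range_iff, Set.mem_univ, forall_const]

theorem wsummand_extension_differentiableOn (c : (Fin 2 → ℤ) → ℂ) (k : ℤ) (a : Fin 2 → ℤ) :
    DifferentiableOn ℂ ((fun z : ℍ => c a * eisSummand k a z) ∘ ofComplex) {z : ℂ | 0 < z.im} := by
  have h := (eisSummand_extension_differentiableOn k a).const_smul (c a)
  refine h.congr ?_
  intro z _
  simp [Function.comp, smul_eq_mul]

/-- Weighted Eisenstein series are holomorphic. -/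
theorem wEis_mdifferentiable {c : (Fin 2 → ℤ) → ℂ} (hc : ∀ v, ‖c v‖ ≤ 1) {k : ℤ} (hk : 3 ≤ k) :
    MDiff (wEis c k) := by
  intro τ
  suffices DifferentiableAt ℂ ((wEis c k) ∘ ofComplex) τ.1 by
    convert!
      MDifferentiableAt.comp τ (DifferentiableAt.mdifferentiableAt this) τ.mdifferentiable_coe
    exact funext fun z ↦ (comp_ofComplex (wEis c k) z).symm
  refine DifferentiableOn.differentiableAt ?_ (isOpen_upperHalfPlaneSet.mem_nhds τ.2)
  exact (wEis_tendstoLocallyUniformlyOn hc hk).differentiableOn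
    (Eventually.of_forall fun s ↦ by
      have : ((fun (z : ℍ) ↦ ∑ x ∈ s, c x * eisSummand k x z) ∘ ofComplex)
          = fun w => ∑ x ∈ s, ((fun z : ℍ => c x * eisSummand k x z) ∘ ofComplex) w := by
        funext w
        simp [Function.comp]
      rw [this]
      exact DifferentiableOn.fun_sum fun _ _ ↦ wsummand_extension_differentiableOn _ _ _)
    isOpen_upperHalfPlaneSet


/-! ### Behaviour at `i∞` -/

theorem denom_T_zpow (n : ℤ) (z : ℍ) : denom (ModularGroup.T ^ n : SL(2, ℤ)) z = 1 := by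
  have h10 : ((ModularGroup.T ^ n : SL(2, ℤ)) : Matrix (Fin 2) (Fin 2) ℤ) 1 0 = 0 := by
    rw [ModularGroup.coe_T_zpow]; rfl
  have h11 : ((ModularGroup.T ^ n : SL(2, ℤ)) : Matrix (Fin 2) (Fin 2) ℤ) 1 1 = 1 := by
    rw [ModularGroup.coe_T_zpow]; rfl
  simp only [denom]
  simp [-map_zpow, h10, h11]

theorem vecMul_T_zpow_zero (n : ℤ) (v : Fin 2 → ℤ) :
    (v ᵥ* (ModularGroup.T ^ n : SL(2, ℤ)).1) 0 = v 0 := by
  rw [ModularGroup.coe_T_zpow]
  simp [Matrix.vecMul, Matrix.vec2_dotProduct, Matrix.vecHead]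

theorem norm_eisSummand_T_zpow (k : ℤ) (n : ℤ) (v : Fin 2 → ℤ) (z : ℍ) :
    ‖eisSummand k v ((ModularGroup.T ^ n : SL(2, ℤ)) • z)‖
      = ‖eisSummand k (v ᵥ* (ModularGroup.T ^ n : SL(2, ℤ)).1) z‖ := by
  rw [eisSummand_SL2_apply, denom_T_zpow, one_zpow, one_mul]

/-- The sum of the norms of all Eisenstein summands. -/
def eisMajorant (k : ℤ) (z : ℍ) : ℝ := ∑' v : Fin 2 → ℤ, ‖eisSummand k v z‖

/-- The sum of the norms of the Eisenstein summands with `v 0 ≠ 0`. -/
def eisTail (k : ℤ) (z : ℍ) : ℝ :=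
  ∑' v : Fin 2 → ℤ, if v 0 = 0 then 0 else ‖eisSummand k v z‖

theorem eisMajorant_T_zpow (k : ℤ) (n : ℤ) (z : ℍ) :
    eisMajorant k ((ModularGroup.T ^ n : SL(2, ℤ)) • z) = eisMajorant k z := by
  unfold eisMajorant
  conv_rhs => rw [← (vecMulEquiv (ModularGroup.T ^ n)).tsum_eq]
  congr 1
  funext v
  rw [norm_eisSummand_T_zpow]
  rfl

theorem eisTail_T_zpow (k : ℤ) (n : ℤ) (z : ℍ) :
    eisTail k ((ModularGroup.T ^ n : SL(2, ℤ)) • z) = eisTail k z := by
  unfold eisTail
  conv_rhs => rw [← (vecMulEquiv (ModularGroup.T ^ n)).tsum_eq]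
  congr 1
  funext v
  simp only [vecMulEquiv, Equiv.coe_fn_mk]
  rw [norm_eisSummand_T_zpow, vecMul_T_zpow_zero]

theorem norm_wEis_le_eisMajorant {c : (Fin 2 → ℤ) → ℂ} (hc : ∀ v, ‖c v‖ ≤ 1) {k : ℤ}
    (hk : 3 ≤ k) (z : ℍ) : ‖wEis c k z‖ ≤ eisMajorant k z := by
  unfold wEis eisMajorant
  refine (norm_tsum_le_tsum_norm (summable_norm_wEis hc hk z)).trans ?_
  exact (summable_norm_wEis hc hk z).tsum_le_tsum (fun v => norm_wsummand_le hc k v z)
    (summable_norm_eisSummand hk z)

theorem eisMajorant_le_of_mem_verticalStrip {k : ℤ} (hk : 3 ≤ k) {z : ℍ}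
    (hz : z ∈ verticalStrip 1 2) :
    eisMajorant k z ≤ ∑' (x : Fin 2 → ℤ), r ⟨⟨1, 2⟩, Nat.ofNat_pos⟩ ^ (-k) * ‖x‖ ^ (-k) := by
  have hk' : (2 : ℝ) < k := by norm_cast
  unfold eisMajorant
  apply (summable_norm_eisSummand hk _).tsum_le_tsum _
  · exact_mod_cast (summable_one_div_norm_rpow hk').mul_left <| r ⟨⟨1, 2⟩, Nat.ofNat_pos⟩ ^ (-k)
  · intro x
    simp_rw [eisSummand, norm_zpow]
    exact_mod_cast
      summand_bound_of_mem_verticalStrip (lt_trans two_pos hk').le x two_pos hz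

/-- Weighted Eisenstein series are bounded at `i∞`. -/
theorem wEis_isBoundedAtImInfty {c : (Fin 2 → ℤ) → ℂ} (hc : ∀ v, ‖c v‖ ≤ 1) {k : ℤ}
    (hk : 3 ≤ k) : IsBoundedAtImInfty (wEis c k) := by
  rw [UpperHalfPlane.isBoundedAtImInfty_iff]
  refine ⟨∑' (x : Fin 2 → ℤ), r ⟨⟨1, 2⟩, Nat.ofNat_pos⟩ ^ (-k) * ‖x‖ ^ (-k), 2, ?_⟩
  intro z hz
  obtain ⟨n, hn⟩ := (ModularGroup_T_zpow_mem_verticalStrip z (N := 1) one_pos)
  refine (norm_wEis_le_eisMajorant hc hk z).trans ?_
  have hn' : (ModularGroup.T ^ n : SL(2, ℤ)) • z ∈ verticalStrip 1 2 := by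
    have h1 : (ModularGroup.T ^ (((1 : ℕ) : ℤ) * n) : SL(2, ℤ)) = ModularGroup.T ^ n := by
      simp
    rw [h1] at hn
    have := verticalStrip_anti_right ((1 : ℕ) : ℝ) hz hn
    simpa using this
  rw [← eisMajorant_T_zpow k n z]
  exact eisMajorant_le_of_mem_verticalStrip hk hn'

/-- All slashes of weighted Eisenstein series are bounded at `i∞`. -/
theorem wEis_slash_isBoundedAtImInfty {c : (Fin 2 → ℤ) → ℂ} (hc : ∀ v, ‖c v‖ ≤ 1) {k : ℤ}
    (hk : 3 ≤ k) (γ : SL(2, ℤ)) : IsBoundedAtImInfty (wEis c k ∣[k] γ) := by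
  rw [wEis_slash]
  exact wEis_isBoundedAtImInfty (fun v => hc _) hk


/-! ### The limit at `i∞` -/

theorem summable_eisTail {k : ℤ} (hk : 3 ≤ k) (z : ℍ) :
    Summable fun v : Fin 2 → ℤ => if v 0 = 0 then 0 else ‖eisSummand k v z‖ := by
  refine (summable_norm_eisSummand hk z).of_nonneg_of_le (fun v => ?_) (fun v => ?_)
  · split_ifs
    · exact le_rfl
    · exact norm_nonneg _
  · split_ifs
    · exact norm_nonneg _
    · exact le_rfl

/-- The constant in the tail bound. -/
def tailConst (k : ℤ) : ℝ :=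
  ∑' x : Fin 2 → ℤ, r ⟨⟨1, 1⟩, one_pos⟩ ^ (-((k : ℝ) - 1 / 2)) * ‖x‖ ^ (-((k : ℝ) - 1 / 2))

theorem norm_linear_ge_im {v : Fin 2 → ℤ} (hv : v 0 ≠ 0) (z : ℍ) :
    z.im ≤ ‖(v 0 : ℂ) * (z : ℂ) + v 1‖ := by
  have h1 : |((v 0 : ℂ) * (z : ℂ) + v 1).im| ≤ ‖(v 0 : ℂ) * (z : ℂ) + v 1‖ :=
    Complex.abs_im_le_norm _
  have h2 : ((v 0 : ℂ) * (z : ℂ) + v 1).im = (v 0 : ℝ) * z.im := by
    simp
  rw [h2, abs_mul, abs_of_pos z.im_pos] at h1
  have h3 : (1 : ℝ) ≤ |(v 0 : ℝ)| := by
    have : (1 : ℤ) ≤ |v 0| := Int.one_le_abs hv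
    exact_mod_cast this
  calc z.im = 1 * z.im := (one_mul _).symm
    _ ≤ |(v 0 : ℝ)| * z.im := by gcongr
    _ ≤ _ := h1

theorem eisTail_le_of_mem_verticalStrip {k : ℤ} (hk : 3 ≤ k) {z : ℍ}
    (hz : z ∈ verticalStrip 1 1) :
    eisTail k z ≤ tailConst k * z.im ^ (-(1 / 2 : ℝ)) := by
  have hk' : (2 : ℝ) < (k : ℝ) - 1 / 2 := by
    have : (3 : ℝ) ≤ k := by exact_mod_cast hk
    linarith
  have hsum : Summable fun x : Fin 2 → ℤ =>
      r ⟨⟨1, 1⟩, one_pos⟩ ^ (-((k : ℝ) - 1 / 2)) * ‖x‖ ^ (-((k : ℝ) - 1 / 2)) :=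
    (summable_one_div_norm_rpow hk').mul_left _
  unfold eisTail tailConst
  rw [← tsum_mul_right]
  refine (summable_eisTail hk z).tsum_le_tsum (fun v => ?_) (hsum.mul_right _)
  have hy : 0 < z.im := z.im_pos
  have hrn : ∀ x : Fin 2 → ℤ, 0 ≤ r ⟨⟨1, 1⟩, one_pos⟩ ^ (-((k : ℝ) - 1 / 2))
      * ‖x‖ ^ (-((k : ℝ) - 1 / 2)) := fun x =>
    mul_nonneg (Real.rpow_nonneg (r_pos _).le _) (Real.rpow_nonneg (norm_nonneg _) _)
  split_ifs with hv
  · exact mul_nonneg (hrn v) (Real.rpow_nonneg hy.le _)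
  · have hpos : 0 < ‖(v 0 : ℂ) * (z : ℂ) + v 1‖ := lt_of_lt_of_le hy (norm_linear_ge_im hv z)
    have e1 : ‖eisSummand k v z‖ = ‖(v 0 : ℂ) * (z : ℂ) + v 1‖ ^ (-((k : ℝ) - 1 / 2))
        * ‖(v 0 : ℂ) * (z : ℂ) + v 1‖ ^ (-(1 / 2 : ℝ)) := by
      rw [← Real.rpow_add hpos, eisSummand, norm_zpow]
      have : -((k : ℝ) - 1 / 2) + -(1 / 2) = ((-k : ℤ) : ℝ) := by push_cast; ring
      rw [this, Real.rpow_intCast]
    rw [e1]
    have b1 := summand_bound_of_mem_verticalStrip (k := (k : ℝ) - 1 / 2) (by linarith) v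
      one_pos hz
    have b2 : ‖(v 0 : ℂ) * (z : ℂ) + v 1‖ ^ (-(1 / 2 : ℝ)) ≤ z.im ^ (-(1 / 2 : ℝ)) :=
      Real.rpow_le_rpow_of_nonpos hy (norm_linear_ge_im hv z) (by norm_num)
    exact mul_le_mul b1 b2 (Real.rpow_nonneg (norm_nonneg _) _) (hrn v)

theorem eisTail_le {k : ℤ} (hk : 3 ≤ k) (z : ℍ) (hz : 1 ≤ z.im) :
    eisTail k z ≤ tailConst k * z.im ^ (-(1 / 2 : ℝ)) := by
  obtain ⟨n, hn⟩ := (ModularGroup_T_zpow_mem_verticalStrip z (N := 1) one_pos)
  have h1 : (ModularGroup.T ^ (((1 : ℕ) : ℤ) * n) : SL(2, ℤ)) = ModularGroup.T ^ n := by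
    simp
  rw [h1] at hn
  have hn' : (ModularGroup.T ^ n : SL(2, ℤ)) • z ∈ verticalStrip 1 1 := by
    have := verticalStrip_anti_right ((1 : ℕ) : ℝ) hz hn
    simpa using this
  have := eisTail_le_of_mem_verticalStrip hk hn'
  rwa [eisTail_T_zpow, ModularGroup.im_T_zpow_smul] at this

/-- The value at `i∞` of a weighted Eisenstein series. -/
def wEisLimit (c : (Fin 2 → ℤ) → ℂ) (k : ℤ) : ℂ :=
  ∑' v : Fin 2 → ℤ, if v 0 = 0 then c v * ((v 1 : ℂ)) ^ (-k) else 0

theorem eisSummand_of_zero {k : ℤ} {v : Fin 2 → ℤ} (hv : v 0 = 0) (z : ℍ) :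
    eisSummand k v z = ((v 1 : ℂ)) ^ (-k) := by
  simp [eisSummand, hv]

theorem norm_wEis_sub_limit_le {c : (Fin 2 → ℤ) → ℂ} (hc : ∀ v, ‖c v‖ ≤ 1) {k : ℤ}
    (hk : 3 ≤ k) (z : ℍ) : ‖wEis c k z - wEisLimit c k‖ ≤ eisTail k z := by
  have hL : Summable fun v : Fin 2 → ℤ => if v 0 = 0 then c v * ((v 1 : ℂ)) ^ (-k) else 0 := by
    refine Summable.of_norm ?_
    refine (summable_norm_wEis hc hk z).of_nonneg_of_le (fun _ => norm_nonneg _) (fun v => ?_)
    split_ifs with hv
    · rw [eisSummand_of_zero hv]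
    · rw [norm_zero]; exact norm_nonneg _
  unfold wEis wEisLimit
  rw [← (summable_wEis hc hk z).tsum_sub hL]
  have hterm : ∀ v : Fin 2 → ℤ,
      ‖c v * eisSummand k v z - (if v 0 = 0 then c v * ((v 1 : ℂ)) ^ (-k) else 0)‖
        ≤ if v 0 = 0 then 0 else ‖eisSummand k v z‖ := by
    intro v
    split_ifs with hv
    · rw [eisSummand_of_zero hv, sub_self, norm_zero]
    · rw [sub_zero]
      exact norm_wsummand_le hc k v z
  have hs : Summable fun v : Fin 2 → ℤ =>
      ‖c v * eisSummand k v z - (if v 0 = 0 then c v * ((v 1 : ℂ)) ^ (-k) else 0)‖ :=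
    (summable_eisTail hk z).of_nonneg_of_le (fun _ => norm_nonneg _) hterm
  refine (norm_tsum_le_tsum_norm hs).trans ?_
  exact hs.tsum_le_tsum hterm (summable_eisTail hk z)

/-- Weighted Eisenstein series tend to `wEisLimit` at `i∞`. -/
theorem tendsto_wEis_atImInfty {c : (Fin 2 → ℤ) → ℂ} (hc : ∀ v, ‖c v‖ ≤ 1) {k : ℤ}
    (hk : 3 ≤ k) : Tendsto (wEis c k) atImInfty (𝓝 (wEisLimit c k)) := by
  rw [Metric.tendsto_nhds]
  intro ε hε
  rw [Filter.Eventually, UpperHalfPlane.atImInfty_mem]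
  -- choose `A` with `tailConst k * A ^ (-1/2) < ε`
  have hC : 0 ≤ tailConst k := by
    unfold tailConst
    exact tsum_nonneg fun x =>
      mul_nonneg (Real.rpow_nonneg (r_pos _).le _) (Real.rpow_nonneg (norm_nonneg _) _)
  obtain ⟨A, hA1, hA⟩ : ∃ A : ℝ, 1 ≤ A ∧ tailConst k * A ^ (-(1 / 2 : ℝ)) < ε := by
    have hlim : Tendsto (fun A : ℝ => tailConst k * A ^ (-(1 / 2 : ℝ))) atTop (𝓝 0) := by
      have := (tendsto_rpow_neg_atTop (show (0 : ℝ) < 1 / 2 by norm_num)).const_mul (tailConst k)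
      simpa using this
    have hev := (hlim.eventually (gt_mem_nhds hε)).and (eventually_ge_atTop (1 : ℝ))
    obtain ⟨A, h1, h2⟩ := hev.exists
    exact ⟨A, h2, h1⟩
  refine ⟨A, fun z hz => ?_⟩
  simp only [Set.mem_ofPred_eq, dist_eq_norm]
  have hz1 : 1 ≤ z.im := hA1.trans hz
  calc ‖wEis c k z - wEisLimit c k‖ ≤ eisTail k z := norm_wEis_sub_limit_le hc hk z
    _ ≤ tailConst k * z.im ^ (-(1 / 2 : ℝ)) := eisTail_le hk z hz1
    _ ≤ tailConst k * A ^ (-(1 / 2 : ℝ)) :=
        mul_le_mul_of_nonneg_left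
          (Real.rpow_le_rpow_of_nonpos (by linarith) hz (by norm_num)) hC
    _ < ε := hA


/-! ### Weights supported on primitive vectors -/

theorem wEisLimit_eq {c : (Fin 2 → ℤ) → ℂ} {k : ℤ}
    (hsupp : ∀ v : Fin 2 → ℤ, v 0 = 0 → c v ≠ 0 → v 1 = 1 ∨ v 1 = -1) :
    wEisLimit c k = c ![0, 1] + (-1) ^ k * c ![0, -1] := by
  unfold wEisLimit
  have hne : (![0, 1] : Fin 2 → ℤ) ≠ ![0, -1] := by
    intro h
    have := congrFun h 1
    simp at this
  rw [tsum_eq_sum (s := {![0, 1], ![0, -1]})]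
  · rw [Finset.sum_pair hne]
    simp only [Matrix.cons_val_zero, Matrix.cons_val_one, if_true]
    have h1 : ((1 : ℤ) : ℂ) ^ (-k) = 1 := by simp
    have h2 : (((-1 : ℤ)) : ℂ) ^ (-k) = (-1) ^ k := by
      push_cast
      rw [zpow_neg, ← inv_zpow]
      norm_num
    rw [h1, h2, mul_one, mul_comm]
  · intro v hv
    simp only [Finset.mem_insert, Finset.mem_singleton, not_or] at hv
    split_ifs with h0
    · by_cases hcv : c v = 0
      · rw [hcv, zero_mul]
      · exfalso
        rcases hsupp v h0 hcv with h1 | h1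
        · apply hv.1
          ext i
          fin_cases i
          · simpa using h0
          · simpa using h1
        · apply hv.2
          ext i
          fin_cases i
          · simpa using h0
          · simpa using h1
    · rfl

/-! ### Twisted Eisenstein series -/

section Twisted

variable (Γ : Subgroup SL(2, ℤ)) (χ : Γ →* ℂˣ)

/-- The bottom row of a matrix in `SL(2, ℤ)`. -/
def botRow (γ : SL(2, ℤ)) : Fin 2 → ℤ := γ.1 1

theorem botRow_mul (α β : SL(2, ℤ)) : botRow (α * β) = botRow α ᵥ* β.1 := by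
  ext j
  simp [botRow, Matrix.mul_apply, Matrix.vecMul, dotProduct]

theorem botRow_one : botRow 1 = ![0, 1] := by
  ext j
  fin_cases j <;> simp [botRow]

/-- The weight function of the twisted Eisenstein series: `χ(γ)⁻¹` on the bottom row of
`γ ∈ Γ`, zero on vectors which are not bottom rows of elements of `Γ`. -/
def twistWeight (v : Fin 2 → ℤ) : ℂ :=
  open Classical in
  if h : ∃ γ : Γ, botRow (γ : SL(2, ℤ)) = v then ((χ h.choose)⁻¹ : ℂˣ) else 0

variable {Γ χ}

/-- `χ` is trivial on the upper unipotent elements of `Γ`. -/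
def TrivialOnUnipotent (χ : Γ →* ℂˣ) : Prop :=
  ∀ γ : Γ, botRow (γ : SL(2, ℤ)) = ![0, 1] → χ γ = 1

theorem twistWeight_botRow (hχ : TrivialOnUnipotent χ) (γ : Γ) :
    twistWeight Γ χ (botRow (γ : SL(2, ℤ))) = ((χ γ)⁻¹ : ℂˣ) := by
  classical
  have h : ∃ γ' : Γ, botRow (γ' : SL(2, ℤ)) = botRow (γ : SL(2, ℤ)) := ⟨γ, rfl⟩
  unfold twistWeight
  rw [dif_pos h]
  have hrow := h.choose_spec
  have h1 : botRow ((h.choose * γ⁻¹ : Γ) : SL(2, ℤ)) = ![0, 1] := by
    rw [Subgroup.coe_mul, botRow_mul, hrow, ← botRow_mul, Subgroup.coe_inv, mul_inv_cancel,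
      botRow_one]
  have h2 := hχ _ h1
  rw [map_mul, map_inv, mul_inv_eq_one] at h2
  rw [h2]

theorem twistWeight_of_not (v : Fin 2 → ℤ) (h : ¬ ∃ γ : Γ, botRow (γ : SL(2, ℤ)) = v) :
    twistWeight Γ χ v = 0 := by
  classical
  unfold twistWeight
  rw [dif_neg h]

theorem twistWeight_vecMul_inv (hχ : TrivialOnUnipotent χ) (δ : Γ) (v : Fin 2 → ℤ) :
    twistWeight Γ χ (v ᵥ* ((δ : SL(2, ℤ))⁻¹).1) = (χ δ : ℂ) * twistWeight Γ χ v := by
  by_cases h : ∃ γ : Γ, botRow (γ : SL(2, ℤ)) = v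
  · obtain ⟨γ, rfl⟩ := h
    have : botRow (γ : SL(2, ℤ)) ᵥ* ((δ : SL(2, ℤ))⁻¹).1 = botRow ((γ * δ⁻¹ : Γ) : SL(2, ℤ)) := by
      rw [Subgroup.coe_mul, botRow_mul, Subgroup.coe_inv]
    rw [this, twistWeight_botRow hχ, twistWeight_botRow hχ, map_mul, map_inv, mul_inv, inv_inv,
      Units.val_mul, mul_comm]
  · have h' : ¬ ∃ γ : Γ, botRow (γ : SL(2, ℤ)) = v ᵥ* ((δ : SL(2, ℤ))⁻¹).1 := by
      rintro ⟨γ, hγ⟩
      apply h
      refine ⟨γ * δ, ?_⟩
      rw [Subgroup.coe_mul, botRow_mul, hγ, Matrix.vecMul_vecMul,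
        ← Matrix.SpecialLinearGroup.coe_mul, inv_mul_cancel, Matrix.SpecialLinearGroup.coe_one,
        Matrix.vecMul_one]
    rw [twistWeight_of_not _ h, twistWeight_of_not _ h', mul_zero]

theorem norm_twistWeight_le (hχ : TrivialOnUnipotent χ) (hnorm : ∀ γ : Γ, ‖(χ γ : ℂ)‖ = 1)
    (v : Fin 2 → ℤ) : ‖twistWeight Γ χ v‖ ≤ 1 := by
  by_cases h : ∃ γ : Γ, botRow (γ : SL(2, ℤ)) = v
  · obtain ⟨γ, rfl⟩ := h
    rw [twistWeight_botRow hχ, Units.val_inv_eq_inv_val, norm_inv, hnorm, inv_one]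
  · rw [twistWeight_of_not _ h, norm_zero]
    exact zero_le_one

variable (Γ χ) in
/-- The twisted Eisenstein series `E_k^χ(z) = ∑_{v bottom row of γ ∈ Γ} χ(γ)⁻¹ (v₀ z + v₁)^{-k}`. -/
def twistedEis (k : ℤ) : ℍ → ℂ := wEis (twistWeight Γ χ) k

theorem twistedEis_slash (hχ : TrivialOnUnipotent χ) (k : ℤ) (δ : Γ) :
    twistedEis Γ χ k ∣[k] (δ : SL(2, ℤ)) = (χ δ : ℂ) • twistedEis Γ χ k := by
  unfold twistedEis
  rw [wEis_slash]
  ext z
  simp only [wEis, Pi.smul_apply, smul_eq_mul]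
  rw [← tsum_mul_left]
  congr 1
  funext v
  rw [twistWeight_vecMul_inv hχ, mul_assoc]

theorem twistedEis_mdifferentiable (hχ : TrivialOnUnipotent χ)
    (hnorm : ∀ γ : Γ, ‖(χ γ : ℂ)‖ = 1) {k : ℤ} (hk : 3 ≤ k) : MDiff (twistedEis Γ χ k) :=
  wEis_mdifferentiable (norm_twistWeight_le hχ hnorm) hk

theorem twistedEis_slash_isBoundedAtImInfty (hχ : TrivialOnUnipotent χ)
    (hnorm : ∀ γ : Γ, ‖(χ γ : ℂ)‖ = 1) {k : ℤ} (hk : 3 ≤ k) (g : SL(2, ℤ)) :
    IsBoundedAtImInfty (twistedEis Γ χ k ∣[k] g) :=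
  wEis_slash_isBoundedAtImInfty (norm_twistWeight_le hχ hnorm) hk g

theorem twistWeight_supp (v : Fin 2 → ℤ) (h0 : v 0 = 0) (hv : twistWeight Γ χ v ≠ 0) :
    v 1 = 1 ∨ v 1 = -1 := by
  by_cases h : ∃ γ : Γ, botRow (γ : SL(2, ℤ)) = v
  · obtain ⟨γ, rfl⟩ := h
    have hdet := (γ : SL(2, ℤ)).det_coe
    rw [Matrix.det_fin_two] at hdet
    have h10 : (γ : SL(2, ℤ)).1 1 0 = 0 := h0
    rw [h10, mul_zero, sub_zero] at hdet
    exact Int.eq_one_or_neg_one_of_mul_eq_one' hdet |>.imp (fun h => h.2) (fun h => h.2)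
  · exact absurd (twistWeight_of_not _ h) hv

/-- The limit of the twisted Eisenstein series at `i∞`. -/
theorem tendsto_twistedEis (hχ : TrivialOnUnipotent χ)
    (hnorm : ∀ γ : Γ, ‖(χ γ : ℂ)‖ = 1) {k : ℤ} (hk : 3 ≤ k) :
    Tendsto (twistedEis Γ χ k) atImInfty
      (𝓝 (1 + (-1) ^ k * twistWeight Γ χ ![0, -1])) := by
  have h := tendsto_wEis_atImInfty (norm_twistWeight_le hχ hnorm) hk
  rw [wEisLimit_eq (fun v h0 hv => twistWeight_supp v h0 hv)] at h
  have h1 : twistWeight Γ χ ![0, 1] = 1 := by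
    have := twistWeight_botRow hχ (1 : Γ)
    rw [Subgroup.coe_one, botRow_one, map_one, inv_one, Units.val_one] at this
    exact this
  rwa [h1] at h

/-- If `-1 ∈ Γ`, `χ(-1) = 1` and `k` is even, the twisted Eisenstein series tends to `2` at
`i∞`. -/
theorem tendsto_twistedEis_two (hχ : TrivialOnUnipotent χ)
    (hnorm : ∀ γ : Γ, ‖(χ γ : ℂ)‖ = 1) {k : ℤ} (hk : 3 ≤ k) (hk2 : Even k)
    (hneg : (-1 : SL(2, ℤ)) ∈ Γ) (hχneg : χ ⟨-1, hneg⟩ = 1) :
    Tendsto (twistedEis Γ χ k) atImInfty (𝓝 2) := by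
  have h := tendsto_twistedEis hχ hnorm hk
  have h1 : twistWeight Γ χ ![0, -1] = 1 := by
    have := twistWeight_botRow hχ (⟨-1, hneg⟩ : Γ)
    have hb : botRow ((⟨-1, hneg⟩ : Γ) : SL(2, ℤ)) = ![0, -1] := by
      ext j
      fin_cases j <;> simp [botRow]
    rw [hb, hχneg, inv_one, Units.val_one] at this
    exact this
  rw [h1, hk2.neg_one_zpow, mul_one] at h
  norm_num at h
  exact h

end Twisted

end Fermat.Agent.S29.H332

end
end
-- ===== PACK-END S29/H332/WeightedEis.lean

-- ===== PACK-BEGIN S29/H152/DescStab.lean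
section
/-
S29 / DESC (helper152) — part 5: the coefficientwise action of `Aut(Ω/K)` on `Ω((q))`, the
stabiliser of a Kummer class and its finite index.
-/



set_option autoImplicit false

namespace Fermat.Agent.S29.H152

open ModularCurve

variable {K Ω : Type*} [Field K] [Field Ω] [Algebra K Ω]

/-- The coefficientwise action of `σ ∈ Aut(Ω/K)` on Laurent series. -/
noncomputable def descSig (σ : Ω ≃ₐ[K] Ω) : LaurentSeries Ω →+* LaurentSeries Ω :=
  coeffMap (σ : Ω →+* Ω)

theorem descSig_def (σ : Ω ≃ₐ[K] Ω) (x : LaurentSeries Ω) :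
    descSig σ x = coeffMap (σ : Ω →+* Ω) x := rfl

@[simp]
theorem descSig_coeff (σ : Ω ≃ₐ[K] Ω) (x : LaurentSeries Ω) (k : ℤ) :
    (descSig σ x).coeff k = σ (x.coeff k) := rfl

@[simp]
theorem descSig_one (x : LaurentSeries Ω) : descSig (1 : Ω ≃ₐ[K] Ω) x = x := by
  ext k
  simp

theorem descSig_mul (σ τ : Ω ≃ₐ[K] Ω) (x : LaurentSeries Ω) :
    descSig (σ * τ) x = descSig σ (descSig τ x) := by
  ext k
  simp

@[simp]
theorem descSig_inv_apply (σ : Ω ≃ₐ[K] Ω) (x : LaurentSeries Ω) :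
    descSig σ⁻¹ (descSig σ x) = x := by
  rw [← descSig_mul, inv_mul_cancel, descSig_one]

@[simp]
theorem descSig_apply_inv (σ : Ω ≃ₐ[K] Ω) (x : LaurentSeries Ω) :
    descSig σ (descSig σ⁻¹ x) = x := by
  rw [← descSig_mul, mul_inv_cancel, descSig_one]

theorem descSig_injective (σ : Ω ≃ₐ[K] Ω) : Function.Injective (descSig σ) :=
  Function.LeftInverse.injective (descSig_inv_apply σ)

theorem descSig_algebraMap (σ : Ω ≃ₐ[K] Ω) (c : Ω) :
    descSig σ (algebraMap Ω (LaurentSeries Ω) c) = algebraMap Ω (LaurentSeries Ω) (σ c) :=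
  coeffMap_algebraMap _ c

theorem descSig_coeffMap (σ : Ω ≃ₐ[K] Ω) (x : LaurentSeries K) :
    descSig σ (coeffMap (algebraMap K Ω) x) = coeffMap (algebraMap K Ω) x := by
  ext k
  simp

theorem descSig_coeffEmb [Algebra ℚ Ω] (σ : Ω ≃ₐ[K] Ω) (y : LaurentSeries ℚ) :
    descSig σ (coeffEmb Ω y) = coeffEmb Ω y := by
  rw [descSig, coeffEmb, coeffMap_coeffMap]
  exact coeffMap_congr (RingHom.ext_rat _ _) y

/-- The base-changed field is stable under the coefficientwise action. -/
theorem descSig_mem_laurentBaseChange [Algebra ℚ Ω] (F₀ : IntermediateField ℚ (LaurentSeries ℚ))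
    (σ : Ω ≃ₐ[K] Ω) {x : LaurentSeries Ω} (hx : x ∈ laurentBaseChange Ω F₀) :
    descSig σ x ∈ laurentBaseChange Ω F₀ := by
  rw [mem_laurentBaseChange_iff] at hx
  induction hx using Subfield.closure_induction with
  | mem y hy =>
      rcases hy with ⟨a, rfl⟩ | ⟨z, hz, rfl⟩
      · rw [descSig_algebraMap]
        exact (laurentBaseChange Ω F₀).algebraMap_mem _
      · rw [descSig_coeffEmb]
        exact coeffEmb_mem_laurentBaseChange Ω hz
  | one => simp
  | add x y _ _ hx hy => simpa using add_mem hx hy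
  | neg x _ hx => simpa using neg_mem hx
  | inv x _ hx => simpa using inv_mem hx
  | mul x y _ _ hx hy => simpa using mul_mem hx hy

/-! ### The stabiliser of a Kummer class -/

section Stab

variable (F : IntermediateField Ω (LaurentSeries Ω))
  (hF : ∀ (σ : Ω ≃ₐ[K] Ω) (x : LaurentSeries Ω), x ∈ F → descSig σ x ∈ F)
  (f : LaurentSeries Ω) (p : ℕ)

/-- The stabiliser of the class of `f` modulo `p`-th powers of `F`. -/
def descStab : Subgroup (Ω ≃ₐ[K] Ω) where
  carrier := {σ | ∃ u ∈ F, u ≠ 0 ∧ descSig σ f = f * u ^ p}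
  one_mem' := ⟨1, one_mem _, one_ne_zero, by simp⟩
  mul_mem' := by
    rintro σ τ ⟨u, hu, hu0, hσ⟩ ⟨w, hw, hw0, hτ⟩
    refine ⟨u * descSig σ w, mul_mem hu (hF σ w hw),
      mul_ne_zero hu0 ((map_ne_zero_iff _ (descSig_injective σ)).mpr hw0), ?_⟩
    rw [descSig_mul, hτ, map_mul, map_pow, hσ]
    ring
  inv_mem' := by
    rintro σ ⟨u, hu, hu0, hσ⟩
    have hu' : descSig σ⁻¹ u ≠ 0 := (map_ne_zero_iff _ (descSig_injective σ⁻¹)).mpr hu0
    refine ⟨(descSig σ⁻¹ u)⁻¹, inv_mem (hF σ⁻¹ u hu), inv_ne_zero hu', ?_⟩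
    have h1 : descSig σ⁻¹ (descSig σ f) = descSig σ⁻¹ f * descSig σ⁻¹ u ^ p := by
      rw [hσ, map_mul, map_pow]
    rw [descSig_inv_apply] at h1
    conv_rhs => rw [h1]
    rw [inv_pow, mul_assoc, mul_inv_cancel₀ (pow_ne_zero _ hu'), mul_one]

theorem mem_descStab {σ : Ω ≃ₐ[K] Ω} :
    σ ∈ descStab F hF f p ↔ ∃ u ∈ F, u ≠ 0 ∧ descSig σ f = f * u ^ p := Iff.rfl

/-- If the orbit of the class of `f` is contained in a finite set of classes, the stabiliser has
finite index. -/
theorem descStab_index_ne_zero (T : Set (LaurentSeries Ω)) (hT : T.Finite)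
    (horb : ∀ σ : Ω ≃ₐ[K] Ω, ∃ t ∈ T, ∃ u ∈ F, u ≠ 0 ∧ descSig σ f = t * u ^ p) :
    (descStab F hF f p).index ≠ 0 := by
  classical
  have hTfin : Finite T := hT
  choose t ht u hu hu0 hσ using horb
  have key : ∀ σ τ : Ω ≃ₐ[K] Ω, t σ = t τ → τ⁻¹ * σ ∈ descStab F hF f p := by
    intro σ τ hst
    have huτ : u τ ^ p ≠ 0 := pow_ne_zero _ (hu0 τ)
    -- `σ f = τ f * (u σ / u τ)^p`
    have h1 : descSig σ f = descSig τ f * (u σ / u τ) ^ p := by
      rw [hσ σ, hσ τ, hst, div_pow]
      field_simp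
    refine ⟨descSig τ⁻¹ (u σ / u τ), hF _ _ (div_mem (hu σ) (hu τ)),
      (map_ne_zero_iff _ (descSig_injective τ⁻¹)).mpr (div_ne_zero (hu0 σ) (hu0 τ)), ?_⟩
    rw [descSig_mul, h1, map_mul, map_pow, descSig_inv_apply]
  have hinj : Function.Injective
      (fun Q : (Ω ≃ₐ[K] Ω) ⧸ descStab F hF f p => (⟨t Q.out, ht Q.out⟩ : T)) := by
    intro Q Q' hQ
    have h1 : t Q.out = t Q'.out := congrArg Subtype.val hQ
    have h2 := key Q'.out Q.out h1.symm
    have h3 : (Q.out : (Ω ≃ₐ[K] Ω) ⧸ descStab F hF f p) = Q'.out :=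
      QuotientGroup.eq.mpr h2
    rwa [QuotientGroup.out_eq', QuotientGroup.out_eq'] at h3
  have hfin : Finite ((Ω ≃ₐ[K] Ω) ⧸ descStab F hF f p) := Finite.of_injective _ hinj
  exact (Subgroup.finiteIndex_of_finite_quotient (H := descStab F hF f p)).index_ne_zero

end Stab

end Fermat.Agent.S29.H152

end
-- ===== PACK-END S29/H152/DescStab.lean

-- ===== PACK-BEGIN S29/H942/MeroRootLocal.lean
section






/-!
# Roots of analytic functions: a continuous `p`-th root of a non-vanishing analytic function is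
analytic
-/

set_option autoImplicit false

noncomputable section

open Filter Topology Set Complex

namespace Fermat.Agent.S29.H942

/-- `1` is an isolated `p`-th root of unity. -/
lemma eventually_pow_eq_one_imp {p : ℕ} (hp : p ≠ 0) :
    ∀ᶠ t : ℂ in 𝓝 1, t ^ p = 1 → t = 1 := by
  have hfin : ({t : ℂ | t ^ p = 1} \ {1}).Finite := by
    refine Set.Finite.subset (Polynomial.nthRootsFinset p (1 : ℂ)).finite_toSet ?_
    intro t ht
    simp only [Finset.mem_coe]
    exact (Polynomial.mem_nthRootsFinset (Nat.pos_of_ne_zero hp) _).2 ht.1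
  have hopen : IsOpen (({t : ℂ | t ^ p = 1} \ {1})ᶜ) := hfin.isClosed.isOpen_compl
  have hmem : (1 : ℂ) ∈ ({t : ℂ | t ^ p = 1} \ {1})ᶜ := by simp
  filter_upwards [hopen.mem_nhds hmem] with t ht h1
  by_contra hne
  exact ht ⟨h1, hne⟩

/-- A function which is continuous at `z₀` and whose `p`-th power is analytic and non-zero at `z₀`
is analytic at `z₀`. -/
theorem analyticAt_of_continuousAt_of_pow {r g : ℂ → ℂ} {z₀ : ℂ} {p : ℕ} (hp : p ≠ 0)
    (hr : ContinuousAt r z₀) (hg : AnalyticAt ℂ g z₀) (hpow : ∀ᶠ z in 𝓝 z₀, r z ^ p = g z)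
    (hne : g z₀ ≠ 0) : AnalyticAt ℂ r z₀ := by
  have hpz : r z₀ ^ p = g z₀ := hpow.self_of_nhds
  have hc : r z₀ ≠ 0 := by
    intro h
    rw [h, zero_pow hp] at hpz
    exact hne hpz.symm
  have hpC : (p : ℂ) ≠ 0 := by exact_mod_cast hp
  -- the analytic candidate
  set s : ℂ → ℂ := fun z => r z₀ * exp (log (g z / g z₀) / p) with hs
  have hq : AnalyticAt ℂ (fun z => g z / g z₀) z₀ := hg.div analyticAt_const hne
  have hq1 : (fun z => g z / g z₀) z₀ ∈ slitPlane := by
    simp only [div_self hne]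
    exact one_mem_slitPlane
  have hlog : AnalyticAt ℂ (fun z => log (g z / g z₀)) z₀ := hq.clog hq1
  have hsA : AnalyticAt ℂ s z₀ :=
    analyticAt_const.mul ((hlog.div analyticAt_const hpC).cexp)
  have hs0 : s z₀ = r z₀ := by
    simp [hs, div_self hne]
  have hgne : ∀ᶠ z in 𝓝 z₀, g z ≠ 0 := hg.continuousAt.eventually_ne hne
  have hspow : ∀ᶠ z in 𝓝 z₀, s z ^ p = g z := by
    filter_upwards [hgne] with z hz
    have h1 : g z / g z₀ ≠ 0 := div_ne_zero hz hne
    simp only [hs, mul_pow]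
    rw [← exp_nat_mul, mul_div_cancel₀ _ hpC, exp_log h1, hpz]
    field_simp
  have hsne : ∀ᶠ z in 𝓝 z₀, s z ≠ 0 := hsA.continuousAt.eventually_ne (by rw [hs0]; exact hc)
  -- the quotient is continuous with value `1` at `z₀`, and a root of unity
  have hquot : ContinuousAt (fun z => r z / s z) z₀ :=
    hr.div hsA.continuousAt (by rw [hs0]; exact hc)
  have hquot1 : (fun z => r z / s z) z₀ = 1 := by
    simp only [hs0, div_self hc]
  have hev : ∀ᶠ z in 𝓝 z₀, (r z / s z) ^ p = 1 → r z / s z = 1 := by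
    have h1 : Tendsto (fun z => r z / s z) (𝓝 z₀) (𝓝 1) := by
      have := hquot.tendsto
      have h2 : r z₀ / s z₀ = 1 := hquot1
      rwa [h2] at this
    exact h1.eventually (eventually_pow_eq_one_imp hp)
  have heq : r =ᶠ[𝓝 z₀] s := by
    filter_upwards [hev, hpow, hspow, hsne] with z h1 h2 h3 h4
    have : (r z / s z) ^ p = 1 := by
      rw [div_pow, h2, h3, div_self]
      rw [← h3]
      exact pow_ne_zero p h4
    have h5 := h1 this
    rwa [div_eq_one_iff_eq h4] at h5
  exact hsA.congr heq.symm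

/-- A continuous `p`-th root of a non-vanishing analytic function on an open set is analytic. -/
theorem analyticOnNhd_of_continuousOn_of_pow {r g : ℂ → ℂ} {U : Set ℂ} (hU : IsOpen U) {p : ℕ}
    (hp : p ≠ 0) (hr : ContinuousOn r U) (hg : AnalyticOnNhd ℂ g U)
    (hpow : ∀ z ∈ U, r z ^ p = g z) (hne : ∀ z ∈ U, g z ≠ 0) : AnalyticOnNhd ℂ r U := by
  intro z hz
  refine analyticAt_of_continuousAt_of_pow hp (hr.continuousAt (hU.mem_nhds hz)) (hg z hz) ?_
    (hne z hz)
  filter_upwards [hU.mem_nhds hz] with w hw using hpow w hw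

/-- Existence of analytic `p`-th roots of non-vanishing analytic functions on simply connected
open sets. -/
theorem exists_analyticOnNhd_pow_eq {g : ℂ → ℂ} {U : Set ℂ} (hUc : IsSimplyConnected U)
    (hU : IsOpen U) {p : ℕ} (hp : p ≠ 0) (hg : AnalyticOnNhd ℂ g U) (hne : ∀ z ∈ U, g z ≠ 0) :
    ∃ r : ℂ → ℂ, AnalyticOnNhd ℂ r U ∧ ∀ z, r z ^ p = g z := by
  have h0 : (0 : ℂ) ∉ g '' U := by
    rintro ⟨z, hz, h⟩
    exact hne z hz h
  obtain ⟨r, hrc, hr⟩ := exists_continuousOn_pow_eq hUc hU hg.continuousOn h0 hp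
  exact ⟨r, analyticOnNhd_of_continuousOn_of_pow hU hp hrc hg (fun z _ => hr z) hne, hr⟩

/-- Open convex nonempty sets are simply connected. -/
lemma isSimplyConnected_of_convex {U : Set ℂ} (hU : Convex ℝ U) (hne : U.Nonempty) :
    IsSimplyConnected U := by
  have := hU.contractibleSpace hne
  show SimplyConnectedSpace U
  infer_instance

end Fermat.Agent.S29.H942

end
end
-- ===== PACK-END S29/H942/MeroRootLocal.lean

-- ===== PACK-BEGIN S29/H942/MeroRootFinite.lean
section


/-!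
# `p`-th roots of meromorphic functions with finitely many zeros and poles on simply connected
open sets
-/

set_option autoImplicit false

noncomputable section

open Filter Topology Set Complex MeromorphicOn Function

namespace Fermat.Agent.S29.H942

/-- The `p`-th power of the factorized rational function with exponents `e` is the factorized
rational function with exponents `p * e`. -/
lemma factorizedRational_pow {e : ℂ → ℤ} (he : e.HasFiniteSupport) (p : ℕ) :
    (∏ᶠ u, ((· - u) : ℂ → ℂ) ^ e u) ^ p = ∏ᶠ u, ((· - u) : ℂ → ℂ) ^ ((p : ℤ) * e u) := by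
  have h1 : (fun u => ((· - u) : ℂ → ℂ) ^ e u).HasFiniteMulSupport := by
    have := FactorizedRational.mulSupport e
    unfold Function.HasFiniteMulSupport
    rw [this]
    exact he
  rw [finprod_pow h1]
  refine finprod_congr fun u => ?_
  rw [← zpow_natCast, ← zpow_mul, mul_comm]

/-- **Finite case.** A meromorphic function on a simply connected open set with finitely many
zeros and poles, all of order divisible by `p`, has a meromorphic `p`-th root. -/
theorem exists_meromorphicOn_pow_eq_of_finite {f : ℂ → ℂ} {U : Set ℂ}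
    (hUc : IsSimplyConnected U) (hU : IsOpen U) (hf : MeromorphicOn f U)
    (h₂f : ∀ u : U, meromorphicOrderAt f u ≠ ⊤) (h₃f : (divisor f U).support.Finite)
    {p : ℕ} (hp : p ≠ 0) (hdiv : ∀ z, (p : ℤ) ∣ divisor f U z) :
    ∃ h : ℂ → ℂ, MeromorphicOn h U ∧ (h ^ p) =ᶠ[codiscreteWithin U] f := by
  obtain ⟨g, hg, hgne, hfg⟩ := hf.extract_zeros_poles h₂f h₃f
  obtain ⟨r, hr, hrp⟩ := exists_analyticOnNhd_pow_eq hUc hU hp hg (fun z hz => hgne ⟨z, hz⟩)
  set e : ℂ → ℤ := fun u => divisor f U u / (p : ℤ) with he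
  have hpe : ∀ u, (p : ℤ) * e u = divisor f U u := fun u => Int.mul_ediv_cancel' (hdiv u)
  have hesupp : e.HasFiniteSupport := by
    refine Set.Finite.subset h₃f ?_
    intro u hu
    simp only [Function.mem_support, ne_eq] at hu ⊢
    intro h0
    apply hu
    simp [he, h0]
  refine ⟨(∏ᶠ u, ((· - u) : ℂ → ℂ) ^ e u) * r, ?_, ?_⟩
  · exact ((FactorizedRational.meromorphicNFOn e U).meromorphicOn).mul hr.meromorphicOn
  · have h1 : ((∏ᶠ u, ((· - u) : ℂ → ℂ) ^ e u) * r) ^ p =
        (∏ᶠ u, ((· - u) : ℂ → ℂ) ^ divisor f U u) • g := by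
      rw [mul_pow, factorizedRational_pow hesupp]
      simp_rw [hpe]
      ext z
      simp [hrp z]
    rw [h1]
    exact hfg.symm

end Fermat.Agent.S29.H942

end
end
-- ===== PACK-END S29/H942/MeroRootFinite.lean

-- ===== PACK-BEGIN S29/H812/Tower.lean
section


/-!
# S29 / H812 — degree of `F'` over `K(x)` for `x ∈ F ⊆ F'`
-/

set_option autoImplicit false

noncomputable section

open IntermediateField

namespace Fermat.Agent.S29.H812

variable {K F F' : Type*} [Field K] [Field F] [Field F']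
  [Algebra K F] [Algebra K F'] [Algebra F F'] [IsScalarTower K F F']

/-- `[F' : K(x')] = [F : K(x)] · [F' : F]` for `x' = algebraMap F F' x`. -/
theorem finrank_adjoin_algebraMap (x : F) :
    Module.finrank K⟮algebraMap F F' x⟯ F' = Module.finrank K⟮x⟯ F * Module.finrank F F' := by
  haveI : IsScalarTower K⟮x⟯ F F' := inferInstance
  rw [Module.finrank_mul_finrank K⟮x⟯ F F']
  set f : F →ₐ[K] F' := IsScalarTower.toAlgHom K F F' with hf
  have hmap : (K⟮x⟯).map f = K⟮algebraMap F F' x⟯ := by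
    rw [IntermediateField.adjoin_map, Set.image_singleton]
    rfl
  have h1 : Module.finrank K⟮algebraMap F F' x⟯ F' = Module.finrank ((K⟮x⟯).map f) F' :=
    congrArg (fun E : IntermediateField K F' => Module.finrank E F') hmap.symm
  rw [h1]
  symm
  refine Algebra.finrank_eq_of_equiv_equiv
    ((IntermediateField.equivMap K⟮x⟯ f).toRingEquiv) (RingEquiv.refl F') ?_
  ext c
  rfl

theorem finiteDimensional_adjoin_algebraMap (x : F) [FiniteDimensional K⟮x⟯ F]
    [FiniteDimensional F F'] : FiniteDimensional K⟮algebraMap F F' x⟯ F' := by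
  apply Module.finite_of_finrank_pos
  rw [finrank_adjoin_algebraMap]
  exact Nat.mul_pos Module.finrank_pos Module.finrank_pos

theorem transcendental_algebraMap_of {x : F} (hx : Transcendental K x) :
    Transcendental K (algebraMap F F' x) :=
  (transcendental_algebraMap_iff (algebraMap F F').injective).mpr hx

/-- If `F'` is finite over `K(φ x)` with `φ x` in the image of `F`, then `F'` is finite over `F`. -/
theorem finite_of_finite_adjoin_algebraMap (x : F)
    [h : FiniteDimensional K⟮algebraMap F F' x⟯ F'] : Module.Finite F F' := by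
  obtain ⟨s, hs⟩ := (Module.finite_def.mp h)
  refine Module.finite_def.mpr ⟨s, ?_⟩
  rw [eq_top_iff]
  rintro y -
  have hy : y ∈ Submodule.span K⟮algebraMap F F' x⟯ (s : Set F') := by rw [hs]; trivial
  have hle : K⟮algebraMap F F' x⟯ ≤ (IsScalarTower.toAlgHom K F F').fieldRange := by
    rw [IntermediateField.adjoin_le_iff]
    rintro _ rfl
    exact ⟨x, rfl⟩
  induction hy using Submodule.span_induction with
  | mem z hz => exact Submodule.subset_span hz
  | zero => exact zero_mem _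
  | add a b _ _ ha hb => exact add_mem ha hb
  | smul c z _ hz =>
    obtain ⟨c₀, hc₀⟩ := hle c.2
    have : c • z = c₀ • z := by
      rw [Algebra.smul_def, Algebra.smul_def]
      congr 1
      exact hc₀.symm
    rw [this]
    exact Submodule.smul_mem _ _ hz

end Fermat.Agent.S29.H812

end
end
-- ===== PACK-END S29/H812/Tower.lean

-- ===== PACK-BEGIN Lib/HFree/H412/Cyclic.lean
section


/-!
# The cyclic coboundary lemma

Let `τ` be a permutation of finite order of a type `X`, `A` an abelian group and `f : X → A`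
a function all of whose "closed orbit sums" vanish: `τ ^ j y = y → ∑ i < j, f (τ ^ i y) = 0`.
Then `f` is a coboundary: `f y = m (τ y) - m y` for some `m : X → A`.

(No divisibility assumption on `A`: this is `H¹` of a cyclic group with values in a permutation
module, computed by hand.)
-/

set_option autoImplicit false

namespace Fermat.Agent.Lib.HFree.H412

variable {X A : Type*} [AddCommGroup A]

/-- Partial orbit sums `∑ i < k, f (τ ^ i b)`. -/
def orbSum (τ : Equiv.Perm X) (f : X → A) (b : X) (k : ℕ) : A :=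
  ∑ i ∈ Finset.range k, f ((τ ^ i) b)

theorem orbSum_succ (τ : Equiv.Perm X) (f : X → A) (b : X) (k : ℕ) :
    orbSum τ f b (k + 1) = orbSum τ f b k + f ((τ ^ k) b) := by
  unfold orbSum
  rw [Finset.sum_range_succ]

theorem orbSum_add (τ : Equiv.Perm X) (f : X → A) (b : X) (k j : ℕ) :
    orbSum τ f b (k + j) = orbSum τ f b k + orbSum τ f ((τ ^ k) b) j := by
  unfold orbSum
  rw [Finset.sum_range_add]
  congr 1
  refine Finset.sum_congr rfl fun i _ => ?_
  rw [add_comm k i, pow_add, Equiv.Perm.mul_apply]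

/-- The orbit relation by natural powers. -/
def powRel (τ : Equiv.Perm X) (y y' : X) : Prop := ∃ k : ℕ, (τ ^ k) y = y'

theorem powRel_refl (τ : Equiv.Perm X) (y : X) : powRel τ y y := ⟨0, by simp⟩

theorem powRel_trans (τ : Equiv.Perm X) {y y' y'' : X} (h : powRel τ y y')
    (h' : powRel τ y' y'') : powRel τ y y'' := by
  obtain ⟨k, rfl⟩ := h
  obtain ⟨k', rfl⟩ := h'
  exact ⟨k' + k, by rw [pow_add, Equiv.Perm.mul_apply]⟩

theorem powRel_symm (τ : Equiv.Perm X) (hfin : ∃ n : ℕ, 0 < n ∧ τ ^ n = 1) {y y' : X}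
    (h : powRel τ y y') : powRel τ y' y := by
  obtain ⟨k, rfl⟩ := h
  obtain ⟨n, hn, hτ⟩ := hfin
  refine ⟨(n - 1) * k, ?_⟩
  rw [← Equiv.Perm.mul_apply, ← pow_add, ← Nat.succ_mul, Nat.succ_eq_add_one,
    Nat.sub_add_cancel hn, pow_mul, hτ, one_pow, Equiv.Perm.one_apply]

/-- The setoid of `τ`-orbits. -/
def powSetoid (τ : Equiv.Perm X) (hfin : ∃ n : ℕ, 0 < n ∧ τ ^ n = 1) : Setoid X where
  r := powRel τ
  iseqv := ⟨powRel_refl τ, powRel_symm τ hfin, powRel_trans τ⟩

theorem orbSum_eq_of_pow_eq (τ : Equiv.Perm X) (f : X → A)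
    (hf : ∀ (y : X) (j : ℕ), (τ ^ j) y = y → orbSum τ f y j = 0) (b : X) {k k' : ℕ}
    (h : (τ ^ k) b = (τ ^ k') b) : orbSum τ f b k = orbSum τ f b k' := by
  wlog hle : k ≤ k' generalizing k k'
  · exact (this h.symm (le_of_not_ge hle)).symm
  obtain ⟨j, rfl⟩ := Nat.exists_eq_add_of_le hle
  rw [orbSum_add, hf ((τ ^ k) b) j, add_zero]
  rw [← Equiv.Perm.mul_apply, ← pow_add, add_comm j k]
  exact h.symm

/-- **Cyclic coboundary lemma.** -/
theorem exists_coboundary_of_orbSum (τ : Equiv.Perm X) (hfin : ∃ n : ℕ, 0 < n ∧ τ ^ n = 1)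
    (f : X → A) (hf : ∀ (y : X) (j : ℕ), (τ ^ j) y = y → orbSum τ f y j = 0) :
    ∃ m : X → A, ∀ y, f y = m (τ y) - m y := by
  classical
  let s : Setoid X := powSetoid τ hfin
  let base : X → X := fun y => Quotient.out (Quotient.mk s y)
  have hbase : ∀ y, ∃ k : ℕ, (τ ^ k) (base y) = y := fun y =>
    Quotient.exact (Quotient.out_eq (Quotient.mk s y))
  have hbase_τ : ∀ y, base (τ y) = base y := by
    intro y
    have : Quotient.mk s (τ y) = Quotient.mk s y :=
      Quotient.sound (powRel_symm τ hfin ⟨1, by simp⟩)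
    show Quotient.out (Quotient.mk s (τ y)) = Quotient.out (Quotient.mk s y)
    rw [this]
  let m : X → A := fun y => orbSum τ f (base y) (Classical.choose (hbase y))
  have hm : ∀ (y : X) (k : ℕ), (τ ^ k) (base y) = y → m y = orbSum τ f (base y) k := by
    intro y k hk
    apply orbSum_eq_of_pow_eq τ f hf
    rw [Classical.choose_spec (hbase y), hk]
  refine ⟨m, fun y => ?_⟩
  obtain ⟨k, hk⟩ := hbase y
  have h1 : (τ ^ (k + 1)) (base (τ y)) = τ y := by
    rw [hbase_τ, pow_succ', Equiv.Perm.mul_apply, hk]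
  rw [hm (τ y) (k + 1) h1, hm y k hk, hbase_τ, orbSum_succ, hk]
  abel

end Fermat.Agent.Lib.HFree.H412

end
-- ===== PACK-END Lib/HFree/H412/Cyclic.lean

-- ===== PACK-BEGIN S21/H381/Primitive.lean
section



/-!
# S21, piece A (part 1): decaying primitives of periodic holomorphic functions on `ℍ`

`exists_disc_primitive`: if `g : ℍ → ℂ` is holomorphic, `h`-periodic and tends to `0` at `i∞`,
there is `Ψ` holomorphic on the open unit disc with `Ψ 0 = 0` such that `z ↦ Ψ (𝕢 h z)` is a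
primitive of `g` on `ℍ`.
-/

set_option autoImplicit false

namespace Fermat.Agent.S21.H381

open Filter Topology Function Complex
open UpperHalfPlane hiding I
open scoped Manifold

/-- On the upper half plane, `G ∘ ofComplex` and `G' := fun z => Ψ (𝕢 h z)` agree near any point
as soon as `G τ = Ψ (𝕢 h τ)` on `ℍ`. -/
theorem comp_ofComplex_eventuallyEq {G : ℍ → ℂ} {P : ℂ → ℂ} (hGP : ∀ τ : ℍ, G τ = P ↑τ)
    (τ : ℍ) : G ∘ ofComplex =ᶠ[𝓝 (τ : ℂ)] P := by
  have hopen : IsOpen {z : ℂ | 0 < z.im} := isOpen_lt continuous_const Complex.continuous_im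
  filter_upwards [hopen.mem_nhds τ.2] with z hz
  simp only [Function.comp_apply, ofComplex_apply_of_im_pos hz, hGP]

/-- **One-step decaying primitive.** -/
theorem exists_disc_primitive {g : ℍ → ℂ} {h : ℝ} (hh : 0 < h)
    (hper : Periodic (g ∘ ofComplex) h) (hhol : MDiff g) (hzero : IsZeroAtImInfty g) :
    ∃ Ψ : ℂ → ℂ, DifferentiableOn ℂ Ψ (Metric.ball 0 1) ∧ Ψ 0 = 0 ∧
      ∀ τ : ℍ, HasDerivAt (fun z : ℂ => (h / (2 * Real.pi * I)) * Ψ (Periodic.qParam h z))
        (g τ) ↑τ := by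
  have hbdd : IsBoundedAtImInfty g := hzero.isBoundedAtImInfty
  set φ : ℂ → ℂ := cuspFunction h g with hφ
  have hφdiff : DifferentiableOn ℂ φ (Metric.ball 0 1) :=
    differentiableOn_cuspFunction_ball hh hper hhol hbdd
  have hφ0 : φ 0 = 0 := by
    have h1 := cuspFunction_apply_zero hh
      (analyticAt_cuspFunction_zero hh hper hhol hbdd) hper
    rw [hφ, h1]
    exact hzero.valueAtInfty_eq_zero
  have hball : Metric.ball (0 : ℂ) 1 ∈ 𝓝 (0 : ℂ) := Metric.ball_mem_nhds 0 one_pos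
  have hψdiff : DifferentiableOn ℂ (dslope φ 0) (Metric.ball 0 1) :=
    (Complex.differentiableOn_dslope hball).2 hφdiff
  obtain ⟨Ψ, hΨ0, hΨ⟩ := (hψdiff.isExactOn_ball).with_val_at 0 0
  refine ⟨Ψ, ?_, hΨ0, ?_⟩
  · intro z hz
    exact (hΨ z hz).differentiableAt.differentiableWithinAt
  · intro τ
    set q : ℂ := Periodic.qParam h ↑τ with hq
    have hqball : q ∈ Metric.ball (0 : ℂ) 1 := by
      rw [mem_ball_zero_iff]
      exact Periodic.norm_qParam_lt_one hh τ.2
    have hq0 : q ≠ 0 := Periodic.qParam_ne_zero _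
    have hqd : HasDerivAt (Periodic.qParam h) (q * (2 * Real.pi * I / h)) ↑τ := by
      have hs : HasStrictDerivAt (Periodic.qParam h) (q * (2 * Real.pi * I / h)) (τ : ℂ) := by
        simpa only [id_eq, mul_one] using!
          (((hasStrictDerivAt_id (τ : ℂ)).const_mul _).div_const _).cexp
      exact hs.hasDerivAt
    have hcomp := (hΨ q hqball).comp (τ : ℂ) hqd
    have hval : (h / (2 * Real.pi * I) : ℂ) * (dslope φ 0 q * (q * (2 * Real.pi * I / h)))
        = g τ := by
      have hφq : φ q = g τ := eq_cuspFunction τ hh.ne' hper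
      rw [dslope_of_ne _ hq0, slope_def_field, hφ0, sub_zero, sub_zero, hφq]
      have hh' : (h : ℂ) ≠ 0 := by exact_mod_cast hh.ne'
      have hpi : (2 * Real.pi * I : ℂ) ≠ 0 := Complex.two_pi_I_ne_zero
      field_simp
    have h3 := hcomp.const_mul (h / (2 * Real.pi * I) : ℂ)
    rw [hval] at h3
    exact h3

end Fermat.Agent.S21.H381

end
-- ===== PACK-END S21/H381/Primitive.lean

-- ===== PACK-BEGIN S21/H381/PeriodMap.lean
section





/-!
# S21, piece A: existence of the equivariant primitive, linearity of the period map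
-/

set_option autoImplicit false

namespace Fermat.Agent.S21.H381

open CongruenceSubgroup ModularCurve ModularCurve.Period Filter Topology Function Complex
open UpperHalfPlane hiding I
open scoped Manifold MatrixGroups ModularForm

/-- determinant of the image of `γ : SL(2, ℤ)` in `GL (Fin 2) ℝ` is `1`. -/
theorem det_coe_SL (γ : SL(2, ℤ)) : ((γ : GL (Fin 2) ℝ) : Matrix (Fin 2) (Fin 2) ℝ).det = 1 := by
  rw [← Matrix.GeneralLinearGroup.val_det_apply]; simp

/-- **Chain rule for the Möbius action**: if `F` is a primitive of `f` on `ℍ`, then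
`F ∘ γ` is a primitive of `f ∣[2] γ`. -/
theorem hasDerivAt_comp_smul {F f : ℍ → ℂ}
    (hF : ∀ τ : ℍ, HasDerivAt (F ∘ ofComplex) (f τ) ↑τ) (γ : SL(2, ℤ)) (τ : ℍ) :
    HasDerivAt ((fun w : ℍ => F (γ • w)) ∘ ofComplex) ((f ∣[(2 : ℤ)] γ) τ) ↑τ := by
  have hdet := det_coe_SL γ
  have hpos : 0 < ((γ : GL (Fin 2) ℝ) : Matrix (Fin 2) (Fin 2) ℝ).det := by
    rw [hdet]; exact one_pos
  have h_smul : HasDerivAt (fun w ↦ ↑((γ : GL (Fin 2) ℝ) • ofComplex w) : ℂ → ℂ)
      ((((γ : GL (Fin 2) ℝ) : Matrix (Fin 2) (Fin 2) ℝ).det : ℂ)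
        / denom (γ : GL (Fin 2) ℝ) τ ^ 2) ↑τ :=
    (hasStrictDerivAt_smul hpos τ).hasDerivAt
  have h_F : HasDerivAt (F ∘ ofComplex) (f (γ • τ))
      ↑((γ : GL (Fin 2) ℝ) • ofComplex (τ : ℂ)) := by
    rw [ofComplex_apply]
    exact hF (γ • τ)
  have hcomp := h_F.comp (τ : ℂ) h_smul
  have heq : ((fun w : ℍ => F (γ • w)) ∘ ofComplex)
      = (F ∘ ofComplex) ∘ (fun w ↦ ↑((γ : GL (Fin 2) ℝ) • ofComplex w) : ℂ → ℂ) := by
    funext z
    simp only [Function.comp_apply, ofComplex_apply]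
    rfl
  rw [heq]
  refine hcomp.congr_deriv ?_
  rw [ModularForm.SL_slash_apply, hdet]
  have hz := denom_ne_zero (γ : GL (Fin 2) ℝ) τ
  simp only [Complex.ofReal_one]
  rw [zpow_neg, div_eq_mul_inv, one_mul]
  norm_cast

/-- Two primitives (on `ℍ`) of the same function differ by a constant. -/
theorem sub_const_of_hasDerivAt {A B g : ℍ → ℂ}
    (hA : ∀ τ : ℍ, HasDerivAt (A ∘ ofComplex) (g τ) ↑τ)
    (hB : ∀ τ : ℍ, HasDerivAt (B ∘ ofComplex) (g τ) ↑τ) (z w : ℍ) :
    A z - B z = A w - B w := by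
  set D : ℂ → ℂ := fun x => (A ∘ ofComplex) x - (B ∘ ofComplex) x with hD
  have hopen : IsOpen {x : ℂ | 0 < x.im} := isOpen_lt continuous_const Complex.continuous_im
  have hconn : IsPreconnected {x : ℂ | 0 < x.im} := (convex_halfSpace_im_gt 0).isPreconnected
  have hder : ∀ x ∈ {x : ℂ | 0 < x.im}, HasDerivAt D 0 x := by
    intro x hx
    have h1 := (hA ⟨x, hx⟩).sub (hB ⟨x, hx⟩)
    rw [sub_self] at h1
    exact h1
  have hdiff : DifferentiableOn ℂ D {x : ℂ | 0 < x.im} := fun x hx =>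
    (hder x hx).differentiableAt.differentiableWithinAt
  have hderiv : Set.EqOn (deriv D) 0 {x : ℂ | 0 < x.im} := fun x hx => (hder x hx).deriv
  have := hopen.is_const_of_deriv_eq_zero hconn hdiff hderiv (x := (z : ℂ)) (y := (w : ℂ)) z.2 w.2
  simpa [hD, ofComplex_apply] using this

section CuspFormFacts

variable {N : ℕ} [NeZero N] (f : CuspForm (Gamma0 N) 2) (δ : SL(2, ℤ))

omit [NeZero N] in
/-- `f ∣[2] δ` is holomorphic. -/
theorem mdiff_slash : MDiff ((f : ℍ → ℂ) ∣[(2 : ℤ)] δ) := by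
  rw [← CuspForm.coe_translate f δ]
  exact CuspFormClass.holo _

/-- `f ∣[2] δ` vanishes at `i∞`. -/
theorem isZeroAtImInfty_slash : IsZeroAtImInfty ((f : ℍ → ℂ) ∣[(2 : ℤ)] δ) :=
  CuspFormClass.zero_at_infty_slash f δ

/-- There is a common positive integer period for all `f ∣[2] δ`. -/
theorem exists_period_slash :
    ∃ M : ℕ, 0 < M ∧ ∀ δ : SL(2, ℤ), Periodic (((f : ℍ → ℂ) ∣[(2 : ℤ)] δ) ∘ ofComplex) (M : ℝ) := by
  obtain ⟨M, hM, hper⟩ := Subgroup.IsArithmetic.exists_nat_mem_strictPeriods_conj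
    ((Gamma0 N : Subgroup SL(2, ℤ)) : Subgroup (GL (Fin 2) ℝ))
  refine ⟨M, hM, fun δ => ?_⟩
  have h1 := hper δ⁻¹
  rw [map_inv] at h1
  have h2 := SlashInvariantFormClass.periodic_comp_ofComplex
    (CuspForm.translate f (δ : GL (Fin 2) ℝ)) h1
  rw [CuspForm.coe_translate f δ] at h2
  exact_mod_cast h2

end CuspFormFacts

/-- Packaged one-step primitive on `ℍ`: derivative `g`, limit `0` at `i∞`. -/
theorem exists_primitive_tendsto_zero {g : ℍ → ℂ} {h : ℝ} (hh : 0 < h)
    (hper : Periodic (g ∘ ofComplex) h) (hhol : MDiff g) (hzero : IsZeroAtImInfty g) :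
    ∃ G : ℍ → ℂ, (∀ τ : ℍ, HasDerivAt (G ∘ ofComplex) (g τ) ↑τ) ∧
      Tendsto G atImInfty (𝓝 0) := by
  obtain ⟨Ψ, hΨd, hΨ0, hΨ⟩ := exists_disc_primitive hh hper hhol hzero
  refine ⟨fun τ => (h / (2 * Real.pi * I)) * Ψ (Periodic.qParam h ↑τ), fun τ => ?_, ?_⟩
  · exact (hΨ τ).congr_of_eventuallyEq
      (comp_ofComplex_eventuallyEq (P := fun z : ℂ => (h / (2 * Real.pi * I)) *
        Ψ (Periodic.qParam h z)) (fun _ => rfl) τ)
  · have hcont : ContinuousAt Ψ 0 :=
      (hΨd.differentiableAt (Metric.ball_mem_nhds 0 one_pos)).continuousAt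
    have h1 : Tendsto (fun τ : ℍ => Ψ (Periodic.qParam h ↑τ)) atImInfty (𝓝 (Ψ 0)) :=
      hcont.tendsto.comp (qParam_tendsto_atImInfty hh)
    rw [hΨ0] at h1
    simpa using h1.const_mul (h / (2 * Real.pi * I) : ℂ)

section Main

variable {N : ℕ} [NeZero N] (f : CuspForm (Gamma0 N) 2)

omit [NeZero N] in
theorem slash_eq_self_of_mem (γ : Gamma0 N) :
    ((f : ℍ → ℂ) ∣[(2 : ℤ)] (γ : SL(2, ℤ))) = f := by
  have hmem : ((γ : SL(2, ℤ)) : GL (Fin 2) ℝ) ∈
      ((Gamma0 N : Subgroup SL(2, ℤ)) : Subgroup (GL (Fin 2) ℝ)) :=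
    Subgroup.mem_map_of_mem _ γ.2
  exact SlashInvariantForm.slash_action_eqn f _ hmem

/-- **Piece A1**: every weight-2 cusp form on `Γ₀(N)` has an equivariant primitive. -/
theorem exists_hasEquivariantPrimitive : ∃ F : ℍ → ℂ, HasEquivariantPrimitive N f F := by
  obtain ⟨M, hM, hper⟩ := exists_period_slash f
  have hMpos : (0 : ℝ) < (M : ℝ) := by exact_mod_cast hM
  -- primitive of `f = f ∣[2] 1`
  have hone : ((f : ℍ → ℂ) ∣[(2 : ℤ)] (1 : SL(2, ℤ))) = f := by
    rw [SlashAction.slash_one]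
  obtain ⟨F, hFd, hF0⟩ := exists_primitive_tendsto_zero hMpos (hper 1)
    (mdiff_slash f 1) (isZeroAtImInfty_slash f 1)
  have hFd' : ∀ τ : ℍ, HasDerivAt (F ∘ ofComplex) (f τ) ↑τ := by
    intro τ; have := hFd τ; rwa [hone] at this
  refine ⟨F, hFd', hF0, ?_, ?_⟩
  · intro γ
    refine ⟨F ((γ : SL(2, ℤ)) • UpperHalfPlane.I) - F UpperHalfPlane.I, fun z => ?_⟩
    have hγ : ∀ τ : ℍ, HasDerivAt ((fun w : ℍ => F ((γ : SL(2, ℤ)) • w)) ∘ ofComplex) (f τ) ↑τ := by
      intro τ
      have := hasDerivAt_comp_smul hFd' (γ : SL(2, ℤ)) τ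
      rwa [slash_eq_self_of_mem f γ] at this
    exact sub_const_of_hasDerivAt hγ hFd' z UpperHalfPlane.I
  · intro δ
    obtain ⟨G, hGd, hG0⟩ := exists_primitive_tendsto_zero hMpos (hper δ)
      (mdiff_slash f δ) (isZeroAtImInfty_slash f δ)
    have hδ : ∀ τ : ℍ, HasDerivAt ((fun w : ℍ => F (δ • w)) ∘ ofComplex)
        (((f : ℍ → ℂ) ∣[(2 : ℤ)] δ) τ) ↑τ := fun τ => hasDerivAt_comp_smul hFd' δ τ
    set c : ℂ := F (δ • UpperHalfPlane.I) - G UpperHalfPlane.I with hc
    refine ⟨c, ?_⟩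
    have hEq : (fun w : ℍ => F (δ • w)) = fun w => G w + c := by
      funext w
      have := sub_const_of_hasDerivAt hδ hGd w UpperHalfPlane.I
      rw [hc, ← this]; ring
    rw [hEq]
    simpa using hG0.add_const c

variable {f}

omit [NeZero N] in
/-- **Piece A2 (uniqueness)**. -/
theorem hasEquivariantPrimitive_unique {F G : ℍ → ℂ} (hF : HasEquivariantPrimitive N f F)
    (hG : HasEquivariantPrimitive N f G) : F = G := by
  funext z
  have hconst : ∀ w : ℍ, F w - G w = F z - G z := fun w =>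
    sub_const_of_hasDerivAt hF.1 hG.1 w z
  have h1 : Tendsto (fun w : ℍ => F w - G w) atImInfty (𝓝 (0 - 0)) := hF.2.1.sub hG.2.1
  have h2 : Tendsto (fun w : ℍ => F w - G w) atImInfty (𝓝 (F z - G z)) := by
    have : (fun w : ℍ => F w - G w) = fun _ => F z - G z := funext hconst
    rw [this]; exact tendsto_const_nhds
  have := tendsto_nhds_unique h1 h2
  rw [sub_zero] at this
  exact sub_eq_zero.mp this.symm

omit [NeZero N] in
/-- **Piece A2 (formula)**: the period map is computed by any equivariant primitive. -/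
theorem periodMap_apply {F : ℍ → ℂ} (hF : HasEquivariantPrimitive N f F) (γ : Gamma0 N)
    (z : ℍ) : periodMap N f (Additive.ofMul γ) = F ((γ : SL(2, ℤ)) • z) - F z := by
  obtain ⟨F₀, h₀, hP⟩ := periodMap_def N f hF
  have hFF : F₀ = F := hasEquivariantPrimitive_unique h₀ hF
  subst hFF
  rw [hP, IsEquivariantPrimitive.periodHom_apply, ← h₀.2.2.1.sub_eq_period γ z]

omit [NeZero N] in
theorem hasEquivariantPrimitive_add {f g : CuspForm (Gamma0 N) 2} {F G : ℍ → ℂ}
    (hF : HasEquivariantPrimitive N f F) (hG : HasEquivariantPrimitive N g G) :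
    HasEquivariantPrimitive N (f + g) (F + G) := by
  refine ⟨fun τ => ?_, ?_, fun γ => ?_, fun δ => ?_⟩
  · have := (hF.1 τ).add (hG.1 τ)
    exact this
  · have h := hF.2.1.add hG.2.1
    rw [add_zero] at h
    exact h
  · obtain ⟨c, hc⟩ := hF.2.2.1 γ
    obtain ⟨d, hd⟩ := hG.2.2.1 γ
    refine ⟨c + d, fun z => ?_⟩
    simp only [Pi.add_apply]
    rw [← hc z, ← hd z]; ring
  · obtain ⟨L, hL⟩ := hF.2.2.2 δ
    obtain ⟨L', hL'⟩ := hG.2.2.2 δ
    exact ⟨L + L', hL.add hL'⟩

omit [NeZero N] in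
theorem hasEquivariantPrimitive_smul {f : CuspForm (Gamma0 N) 2} {F : ℍ → ℂ} (a : ℂ)
    (hF : HasEquivariantPrimitive N f F) :
    HasEquivariantPrimitive N (a • f) (a • F) := by
  refine ⟨fun τ => ?_, ?_, fun γ => ?_, fun δ => ?_⟩
  · have := (hF.1 τ).const_smul a
    exact this
  · have h := hF.2.1.const_smul a
    rw [smul_zero] at h
    exact h
  · obtain ⟨c, hc⟩ := hF.2.2.1 γ
    refine ⟨a * c, fun z => ?_⟩
    simp only [Pi.smul_apply, smul_eq_mul]
    rw [← hc z]; ring
  · obtain ⟨L, hL⟩ := hF.2.2.2 δ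
    exact ⟨a • L, hL.const_smul a⟩

theorem periodMap_add (f g : CuspForm (Gamma0 N) 2) :
    periodMap N (f + g) = periodMap N f + periodMap N g := by
  obtain ⟨F, hF⟩ := exists_hasEquivariantPrimitive f
  obtain ⟨G, hG⟩ := exists_hasEquivariantPrimitive g
  refine AddMonoidHom.ext fun γ => ?_
  obtain ⟨γ, rfl⟩ : ∃ γ' : Gamma0 N, Additive.ofMul γ' = γ := ⟨Additive.toMul γ, rfl⟩
  rw [AddMonoidHom.add_apply, _root_.Fermat.Agent.S21.H381.periodMap_apply (_root_.Fermat.Agent.S21.H381.hasEquivariantPrimitive_add hF hG) γ UpperHalfPlane.I,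
    _root_.Fermat.Agent.S21.H381.periodMap_apply hF γ UpperHalfPlane.I, _root_.Fermat.Agent.S21.H381.periodMap_apply hG γ UpperHalfPlane.I]
  simp only [Pi.add_apply]; ring

theorem periodMap_smul (a : ℂ) (f : CuspForm (Gamma0 N) 2) :
    periodMap N (a • f) = a • periodMap N f := by
  obtain ⟨F, hF⟩ := exists_hasEquivariantPrimitive f
  refine AddMonoidHom.ext fun γ => ?_
  obtain ⟨γ, rfl⟩ : ∃ γ' : Gamma0 N, Additive.ofMul γ' = γ := ⟨Additive.toMul γ, rfl⟩
  rw [AddMonoidHom.smul_apply, _root_.Fermat.Agent.S21.H381.periodMap_apply (_root_.Fermat.Agent.S21.H381.hasEquivariantPrimitive_smul a hF) γ UpperHalfPlane.I,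
    _root_.Fermat.Agent.S21.H381.periodMap_apply hF γ UpperHalfPlane.I]
  simp only [Pi.smul_apply, smul_eq_mul]; ring

variable (N) in
/-- The period map as a `ℂ`-linear map. -/
noncomputable def periodMapLin : CuspForm (Gamma0 N) 2 →ₗ[ℂ] (Additive (Gamma0 N) →+ ℂ) where
  toFun := periodMap N
  map_add' := _root_.Fermat.Agent.S21.H381.periodMap_add
  map_smul' := _root_.Fermat.Agent.S21.H381.periodMap_smul

@[simp] theorem periodMapLin_apply (f : CuspForm (Gamma0 N) 2) :
    periodMapLin N f = periodMap N f := rfl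

variable (N) in
/-- **Piece A3**: the period map is linear. -/
theorem existsPeriodMapLinear : ExistsPeriodMapLinear N :=
  ⟨periodMapLin N, fun _ => rfl⟩

variable (N) in
/-- Unfolding of `periodHomPair`. -/
theorem periodHomPair_eq :
    periodHomPair N = LinearMap.coprod
      ((LinearMap.id + charInvolution N ℂ ℂ) ∘ₗ periodMapLin N)
      ((LinearMap.id - charInvolution N ℂ ℂ) ∘ₗ periodMapLin N) := by
  obtain ⟨pml, hpml, h⟩ := periodHomPair_def N (_root_.Fermat.Agent.S21.H381.existsPeriodMapLinear N)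
  have : pml = periodMapLin N := LinearMap.ext fun f => by rw [hpml, periodMapLin_apply]
  rw [h, this]

theorem periodHomPair_apply (f g : CuspForm (Gamma0 N) 2) :
    periodHomPair N (f, g) = (periodMap N f + charInvolution N ℂ ℂ (periodMap N f))
      + (periodMap N g - charInvolution N ℂ ℂ (periodMap N g)) := by
  rw [_root_.Fermat.Agent.S21.H381.periodHomPair_eq]
  simp [LinearMap.coprod_apply]

end Main

end Fermat.Agent.S21.H381

end
-- ===== PACK-END S21/H381/PeriodMap.lean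

-- ===== PACK-BEGIN S21/Defs.lean
section


/-!
# S21 — common definitions for the Hodge (Dirichlet principle) part D'
-/

set_option autoImplicit false

open UpperHalfPlane
open scoped MatrixGroups

namespace Fermat.Agent.S21

/-- The upper half plane as an open subset of `ℂ`. -/
def Uhp : Set ℂ := {z : ℂ | 0 < z.im}

theorem mem_Uhp {z : ℂ} : z ∈ Uhp ↔ 0 < z.im := Iff.rfl

theorem isOpen_Uhp : IsOpen Uhp := isOpen_lt continuous_const Complex.continuous_im

theorem coe_mem_Uhp (z : ℍ) : (z : ℂ) ∈ Uhp := z.im_pos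

/-- `2 ∂/∂z = ∂_x - i ∂_y` of a real-valued function on `ℂ`. -/
noncomputable def dz (u : ℂ → ℝ) (z : ℂ) : ℂ :=
  ((fderiv ℝ u z 1 : ℝ) : ℂ) - Complex.I * ((fderiv ℝ u z Complex.I : ℝ) : ℂ)

/-- The Möbius action of `SL(2,ℤ)` written on `ℂ` (junk value off the upper half plane). -/
noncomputable def mob (g : SL(2, ℤ)) (z : ℂ) : ℂ := ((g • ofComplex z : ℍ) : ℂ)

/-- The automorphy factor `c z + d`. -/
def cd (g : SL(2, ℤ)) (z : ℂ) : ℂ := ((g 1 0 : ℤ) : ℂ) * z + ((g 1 1 : ℤ) : ℂ)

/-- The compact cusp strip `{ |Re z| ≤ 1, 2 ≤ Im z ≤ Y }`. -/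
def strip (Y : ℝ) : Set ℂ := {z : ℂ | |z.re| ≤ 1 ∧ 2 ≤ z.im ∧ z.im ≤ Y}

end Fermat.Agent.S21

end
-- ===== PACK-END S21/Defs.lean

-- ===== PACK-BEGIN S21/Basic.lean
section


/-!
# S21 — basic lemmas about `dz`, `mob`, `cd`
-/

set_option autoImplicit false

open UpperHalfPlane Filter Topology
open scoped MatrixGroups ContDiff

namespace Fermat.Agent.S21

theorem mob_coe (g : SL(2, ℤ)) (z : ℍ) : mob g (z : ℂ) = ((g • z : ℍ) : ℂ) := by
  simp [mob, ofComplex_apply]

theorem mob_mem_Uhp (g : SL(2, ℤ)) (z : ℂ) : mob g z ∈ Uhp :=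
  (g • ofComplex z).im_pos

theorem ofComplex_coe_of_mem {z : ℂ} (hz : z ∈ Uhp) : ((ofComplex z : ℍ) : ℂ) = z := by
  rw [ofComplex_apply_of_im_pos hz]

theorem mob_eq_div (g : SL(2, ℤ)) {z : ℂ} (hz : z ∈ Uhp) :
    mob g z = (((g 0 0 : ℤ) : ℂ) * z + ((g 0 1 : ℤ) : ℂ)) / cd g z := by
  have h := UpperHalfPlane.specialLinearGroup_apply g (ofComplex z)
  have h2 : ((g • ofComplex z : ℍ) : ℂ) = _ := congrArg UpperHalfPlane.coe h
  rw [mob, h2]
  simp [cd, ofComplex_coe_of_mem hz]

theorem cd_ne_zero (g : SL(2, ℤ)) {z : ℂ} (hz : z ∈ Uhp) : cd g z ≠ 0 := by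
  have h := UpperHalfPlane.denom_ne_zero (Matrix.SpecialLinearGroup.toGL
    ((Matrix.SpecialLinearGroup.map (Int.castRingHom ℝ)) g)) (⟨z, hz⟩ : ℍ)
  have h2 := ModularGroup.denom_apply g (⟨z, hz⟩ : ℍ)
  rw [h2] at h
  exact h

theorem continuousOn_cd (g : SL(2, ℤ)) (s : Set ℂ) : ContinuousOn (cd g) s := by
  unfold cd
  fun_prop

theorem continuous_cd (g : SL(2, ℤ)) : Continuous (cd g) := by
  unfold cd
  fun_prop

theorem continuousOn_mob (g : SL(2, ℤ)) : ContinuousOn (mob g) Uhp := by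
  have : Set.EqOn (mob g)
      (fun z => (((g 0 0 : ℤ) : ℂ) * z + ((g 0 1 : ℤ) : ℂ)) / cd g z) Uhp :=
    fun z hz => mob_eq_div g hz
  refine ContinuousOn.congr ?_ this
  refine ContinuousOn.div (by fun_prop) (continuousOn_cd g _) fun z hz => cd_ne_zero g hz

theorem mob_one (z : ℂ) (hz : z ∈ Uhp) : mob 1 z = z := by
  simp [mob, ofComplex_coe_of_mem hz]

theorem mob_mul (g h : SL(2, ℤ)) (z : ℂ) : mob (g * h) z = mob g (mob h z) := by
  simp only [mob, ofComplex_apply, mul_smul]

theorem continuousOn_dz {u : ℂ → ℝ} (hu : ContDiffOn ℝ 1 u Uhp) : ContinuousOn (dz u) Uhp := by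
  have h1 : ContinuousOn (fderiv ℝ u) Uhp := hu.continuousOn_fderiv_of_isOpen isOpen_Uhp le_rfl
  have h2 : ContinuousOn (fun z => fderiv ℝ u z 1) Uhp :=
    (ContinuousLinearMap.apply ℝ ℝ (1 : ℂ)).continuous.comp_continuousOn h1
  have h3 : ContinuousOn (fun z => fderiv ℝ u z Complex.I) Uhp :=
    (ContinuousLinearMap.apply ℝ ℝ Complex.I).continuous.comp_continuousOn h1
  unfold dz
  exact (Complex.continuous_ofReal.comp_continuousOn h2).sub
    (continuousOn_const.mul (Complex.continuous_ofReal.comp_continuousOn h3))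

theorem dz_add {u v : ℂ → ℝ} {z : ℂ} (hu : DifferentiableAt ℝ u z) (hv : DifferentiableAt ℝ v z) :
    dz (fun w => u w + v w) z = dz u z + dz v z := by
  unfold dz
  have : fderiv ℝ (fun w => u w + v w) z = fderiv ℝ u z + fderiv ℝ v z := fderiv_add hu hv
  rw [this]
  simp only [add_apply]
  push_cast
  ring

theorem dz_sub {u v : ℂ → ℝ} {z : ℂ} (hu : DifferentiableAt ℝ u z) (hv : DifferentiableAt ℝ v z) :
    dz (fun w => u w - v w) z = dz u z - dz v z := by
  unfold dz
  have : fderiv ℝ (fun w => u w - v w) z = fderiv ℝ u z - fderiv ℝ v z := fderiv_sub hu hv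
  rw [this]
  simp only [sub_apply]
  push_cast
  ring

theorem dz_congr {u v : ℂ → ℝ} {z : ℂ} (h : u =ᶠ[𝓝 z] v) : dz u z = dz v z := by
  unfold dz
  rw [h.fderiv_eq]

theorem dz_add_const (u : ℂ → ℝ) (c : ℝ) (z : ℂ) : dz (fun w => u w + c) z = dz u z := by
  unfold dz
  rw [fderiv_add_const]

/-- `dz` of the real part of a holomorphic function is its derivative. -/
theorem dz_re_of_hasDerivAt {Q : ℂ → ℂ} {q z : ℂ} (h : HasDerivAt Q q z) :
    dz (fun w => (Q w).re) z = q := by
  have h1 : HasFDerivAt Q ((ContinuousLinearMap.smulRight (1 : ℂ →L[ℂ] ℂ) q).restrictScalars ℝ) z :=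
    h.hasFDerivAt.restrictScalars ℝ
  have h2 : HasFDerivAt (fun w => (Q w).re)
      (Complex.reCLM.comp ((ContinuousLinearMap.smulRight (1 : ℂ →L[ℂ] ℂ) q).restrictScalars ℝ)) z :=
    Complex.reCLM.hasFDerivAt.comp z h1
  unfold dz
  rw [h2.fderiv]
  apply Complex.ext <;> simp

theorem norm_dz_sq (u : ℂ → ℝ) (z : ℂ) :
    ‖dz u z‖ ^ 2 = (fderiv ℝ u z 1) ^ 2 + (fderiv ℝ u z Complex.I) ^ 2 := by
  rw [← Complex.normSq_eq_norm_sq, Complex.normSq_apply]
  simp [dz]
  ring

end Fermat.Agent.S21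

end
-- ===== PACK-END S21/Basic.lean

-- ===== PACK-BEGIN S21/Small.lean
section


/-!
# S21 — small analytic lemmas for the Hodge part D'

* `integral_curl_eq_zero` (**Curl**): gradients are weakly curl-free;
* `setIntegral_mob` (**CV**): change of variables under a Möbius transformation;
* `dz_comp_mob` (**DzMob**): chain rule for `dz` under a Möbius transformation.
-/

set_option autoImplicit false

open UpperHalfPlane MeasureTheory
open scoped MatrixGroups ContDiff Topology

namespace Fermat.Agent.S21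

namespace SmallAux

/-- `cd g z` is Mathlib's `denom`. -/
theorem cd_eq_denom (g : SL(2, ℤ)) (z : ℂ) : cd g z = denom (g : GL (Fin 2) ℝ) z := by
  simp [cd, denom]

theorem cd_ne_zero (g : SL(2, ℤ)) {z : ℂ} (hz : z ∈ Uhp) : cd g z ≠ 0 := by
  rw [cd_eq_denom]
  exact denom_ne_zero (g : GL (Fin 2) ℝ) ⟨z, hz⟩

/-- The complex derivative of a Möbius transformation. -/
theorem hasStrictDerivAt_mob (g : SL(2, ℤ)) {z : ℂ} (hz : z ∈ Uhp) :
    HasStrictDerivAt (mob g) (1 / (cd g z) ^ 2) z := by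
  have hdet : ((g : GL (Fin 2) ℝ) : Matrix (Fin 2) (Fin 2) ℝ).det = 1 :=
    (Matrix.SpecialLinearGroup.map (Int.castRingHom ℝ) g).det_coe
  have h := UpperHalfPlane.hasStrictDerivAt_smul (g := (g : GL (Fin 2) ℝ))
    (by rw [hdet]; exact one_pos) ⟨z, hz⟩
  rw [hdet, Complex.ofReal_one] at h
  rw [cd_eq_denom]
  exact h

/-- A real-linear functional on `ℂ` in terms of its values at `1` and `I`. -/
theorem clm_apply_eq (L : ℂ →L[ℝ] ℝ) (c : ℂ) : L c = c.re * L 1 + c.im * L Complex.I := by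
  have hc : c = c.re • (1 : ℂ) + c.im • Complex.I := by
    apply Complex.ext <;> simp
  conv_lhs => rw [hc]
  simp only [map_add, map_smul, smul_eq_mul]

/-- A function continuous on the upper half plane times a continuous function with compact
support inside the upper half plane is integrable. -/
theorem integrable_mul_of_continuousOn {f g : ℂ → ℝ} (hf : ContinuousOn f Uhp)
    (hg : Continuous g) (hc : HasCompactSupport g) (hs : tsupport g ⊆ Uhp) :
    Integrable (fun z => f z * g z) := by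
  have hcont : Continuous (fun z => f z * g z) := by
    rw [continuous_iff_continuousAt]
    intro z
    by_cases hz : z ∈ tsupport g
    · exact (hf.continuousAt (isOpen_Uhp.mem_nhds (hs hz))).mul hg.continuousAt
    · have h0 : g =ᶠ[𝓝 z] 0 := notMem_tsupport_iff_eventuallyEq.mp hz
      have h1 : (fun z => f z * g z) =ᶠ[𝓝 z] fun _ => 0 := by
        filter_upwards [h0] with w hw
        simp [hw]
      exact continuousAt_const.congr h1.symm
  exact hcont.integrable_of_hasCompactSupport hc.mul_left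

end SmallAux

open SmallAux

/-- **Curl**: gradients are weakly curl-free. -/
theorem integral_curl_eq_zero (u : ℂ → ℝ) (hu : ContDiffOn ℝ 2 u Uhp) (η : ℂ → ℝ)
    (hη : ContDiff ℝ ∞ η) (hc : HasCompactSupport η) (hs : tsupport η ⊆ Uhp) :
    ∫ z, (fderiv ℝ u z 1 * fderiv ℝ η z Complex.I
        - fderiv ℝ u z Complex.I * fderiv ℝ η z 1) = 0 := by
  have hcd : ∀ z ∈ Uhp, ContDiffAt ℝ 2 u z :=
    fun z hz => hu.contDiffAt (isOpen_Uhp.mem_nhds hz)
  have hfd : ∀ z ∈ Uhp, ContDiffAt ℝ 1 (fderiv ℝ u) z :=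
    fun z hz => (hcd z hz).fderiv_right (by norm_num)
  have hfdiff : ∀ z ∈ Uhp, DifferentiableAt ℝ (fderiv ℝ u) z :=
    fun z hz => (hfd z hz).differentiableAt (by norm_num)
  have hv_diff : ∀ (v : ℂ), ∀ z ∈ Uhp, DifferentiableAt ℝ (fun w => fderiv ℝ u w v) z :=
    fun v z hz => (hfdiff z hz).clm_apply (differentiableAt_const v)
  have hv_fderiv : ∀ (v w : ℂ), ∀ z ∈ Uhp,
      fderiv ℝ (fun x => fderiv ℝ u x v) z w = fderiv ℝ (fderiv ℝ u) z w v := by
    intro v w z hz
    rw [fderiv_clm_apply (hfdiff z hz) (differentiableAt_const v)]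
    simp
  have hv_cont : ∀ v : ℂ, ContinuousOn (fun w => fderiv ℝ u w v) Uhp :=
    fun v => (hu.continuousOn_fderiv_of_isOpen isOpen_Uhp (by norm_num)).clm_apply
      continuousOn_const
  have hvw_cont : ∀ v w : ℂ,
      ContinuousOn (fun z => fderiv ℝ (fun x => fderiv ℝ u x v) z w) Uhp := by
    intro v w
    have h2 : ContDiffOn ℝ 1 (fderiv ℝ u) Uhp := fun z hz => (hfd z hz).contDiffWithinAt
    have h3 := h2.continuousOn_fderiv_of_isOpen isOpen_Uhp le_rfl
    have h4 : ContinuousOn (fun z => fderiv ℝ (fderiv ℝ u) z w v) Uhp :=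
      (h3.clm_apply continuousOn_const).clm_apply continuousOn_const
    exact h4.congr (fun z hz => hv_fderiv v w z hz)
  have hη_cont : ∀ w : ℂ, Continuous (fun z => fderiv ℝ η z w) :=
    fun w => (hη.continuous_fderiv (by simp)).clm_apply continuous_const
  have hint : ∀ v w : ℂ, Integrable (fun z => fderiv ℝ u z v * fderiv ℝ η z w) :=
    fun v w => integrable_mul_of_continuousOn (hv_cont v) (hη_cont w) (hc.fderiv_apply ℝ w)
      ((tsupport_fderiv_apply_subset ℝ w).trans hs)
  have ibp : ∀ v w : ℂ, ∫ z, fderiv ℝ u z v * fderiv ℝ η z w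
      = - ∫ z, fderiv ℝ (fun x => fderiv ℝ u x v) z w * η z := by
    intro v w
    refine integral_mul_fderiv_eq_neg_fderiv_mul_of_integrable
      (f := fun z => fderiv ℝ u z v) (g := η) ?_ (hint v w) ?_ ?_ ?_
    · exact integrable_mul_of_continuousOn (hvw_cont v w) hη.continuous hc hs
    · exact integrable_mul_of_continuousOn (hv_cont v) hη.continuous hc hs
    · intro x hx
      exact hv_diff v x (hs hx)
    · intro x _
      exact (hη.differentiable (by simp)).differentiableAt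
  have hsymm : ∀ z, fderiv ℝ (fun x => fderiv ℝ u x 1) z Complex.I * η z
      = fderiv ℝ (fun x => fderiv ℝ u x Complex.I) z 1 * η z := by
    intro z
    by_cases hz : z ∈ tsupport η
    · have hzU := hs hz
      rw [hv_fderiv 1 Complex.I z hzU, hv_fderiv Complex.I 1 z hzU]
      have hsym : IsSymmSndFDerivAt ℝ u z := (hcd z hzU).isSymmSndFDerivAt (by simp)
      rw [hsym.eq]
    · simp [image_eq_zero_of_notMem_tsupport hz]
  rw [integral_sub (hint 1 Complex.I) (hint Complex.I 1), ibp 1 Complex.I, ibp Complex.I 1]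
  simp only [hsymm]
  ring

/-- **DzMob**: chain rule for `dz` under a Möbius transformation. -/
theorem dz_comp_mob (u : ℂ → ℝ) (g : SL(2, ℤ)) (z : ℂ) (hz : z ∈ Uhp)
    (hu : DifferentiableAt ℝ u (mob g z)) :
    dz (fun w => u (mob g w)) z = dz u (mob g z) / (cd g z) ^ 2 := by
  have hφ := ((hasStrictDerivAt_mob g hz).hasDerivAt.hasFDerivAt).restrictScalars ℝ
  have hcomp := (hu.hasFDerivAt.comp z hφ).fderiv
  have hcomp' : fderiv ℝ (fun w => u (mob g w)) z = _ := hcomp
  unfold dz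
  rw [hcomp']
  set L := fderiv ℝ u (mob g z) with hL
  set c : ℂ := 1 / (cd g z) ^ 2 with hc
  have h1 : (L.comp ((ContinuousLinearMap.toSpanSingleton ℂ c).restrictScalars ℝ)) 1 = L c := by
    simp
  have hI : (L.comp ((ContinuousLinearMap.toSpanSingleton ℂ c).restrictScalars ℝ)) Complex.I
      = L (Complex.I * c) := by
    simp
  rw [h1, hI, clm_apply_eq L c, clm_apply_eq L (Complex.I * c), div_eq_mul_one_div, ← hc]
  apply Complex.ext <;> simp <;> ring

/-- **CV**: change of variables under a Möbius transformation. -/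
theorem setIntegral_mob (δ : SL(2, ℤ)) (K : Set ℂ) (hK : MeasurableSet K) (hKU : K ⊆ Uhp)
    (h : ℂ → ℝ) :
    ∫ z in K, h (mob δ z) / ‖cd δ z‖ ^ 4 = ∫ w in mob δ '' K, h w := by
  have hinj : Set.InjOn (mob δ) K := by
    intro z hz w hw hzw
    have hz' : 0 < z.im := hKU hz
    have hw' : 0 < w.im := hKU hw
    have h1 : (δ • ofComplex z : ℍ) = δ • ofComplex w := UpperHalfPlane.ext hzw
    have h2 : ofComplex z = ofComplex w := MulAction.injective δ h1
    have h3 := congrArg UpperHalfPlane.coe h2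
    rwa [ofComplex_apply_of_im_pos hz', ofComplex_apply_of_im_pos hw'] at h3
  have hd : ∀ z ∈ K, HasFDerivWithinAt (mob δ) (smulFDeriv (δ : GL (Fin 2) ℝ) z) K z :=
    fun z hz =>
      (hasStrictFDerivAt_smul (δ : GL (Fin 2) ℝ) ⟨z, hKU hz⟩).hasFDerivAt.hasFDerivWithinAt
  rw [integral_image_eq_integral_abs_det_fderiv_smul volume hK hd hinj]
  refine setIntegral_congr_fun hK fun z hz => ?_
  simp only [det_smulFDeriv, smul_eq_mul, cd_eq_denom]
  have hpos : (0 : ℝ) < ‖denom (δ : GL (Fin 2) ℝ) z‖ ^ 4 :=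
    pow_pos (norm_pos_iff.mpr (denom_ne_zero (δ : GL (Fin 2) ℝ) ⟨z, hKU hz⟩)) 4
  simp [abs_of_pos hpos, div_eq_inv_mul]

end Fermat.Agent.S21

end
-- ===== PACK-END S21/Small.lean

-- ===== PACK-BEGIN S21/Cusp.lean
section


/-!
# S21 — piece `Cusp`

A holomorphic function on the upper half plane which is weight-2 invariant under `Γ₀(N)` and has
bounded energy in the cusp strips (for every `SL(2,ℤ)`-translate) is a cusp form.

Main steps (all in namespace `Fermat.Agent.S21.Cusp825`):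
* `setIntegral_ball_eq_smul`: area mean value property of holomorphic functions (polar
  coordinates + circle mean value property);
* `norm_sq_mul_le_setIntegral_ball`: area mean value inequality `‖g c‖² π r² ≤ ∫_{B(c,r)} ‖g‖²`;
* `exists_tail_le`: tails of a bounded increasing family of strip integrals are small;
* `exists_bound_of_energy`: uniform decay on the central strip `|Re z| ≤ 1/2`;
* `isZeroAtImInfty_slash`: every slash translate is zero at `i∞` (periodicity under `T ^ N`);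
* `exists_cuspForm_of_zero`: packaging as a `CuspForm`.
-/

set_option autoImplicit false

open ModularCurve UpperHalfPlane CongruenceSubgroup Filter Topology
open MeasureTheory Metric Set Real
open scoped MatrixGroups ComplexConjugate ContDiff ModularForm Manifold

namespace Fermat.Agent.S21

namespace Cusp825

/-- Integral of a function over `Ioo (-π) π` against the circle map, for a holomorphic function. -/
theorem integral_Ioo_circleMap {G : ℂ → ℂ} {c : ℂ} {ρ : ℝ}
    (hG : DiffContOnCl ℂ G (ball c |ρ|)) :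
    ∫ θ in Ioo (-π) π, G (circleMap c ρ θ) = (2 * π) • G c := by
  have h1 := hG.circleAverage
  rw [circleAverage_eq_integral_add (-π)] at h1
  have h2 : ∫ θ in (0:ℝ)..2 * π, G (circleMap c ρ (θ + -π))
      = ∫ θ in (-π)..π, G (circleMap c ρ θ) := by
    rw [intervalIntegral.integral_comp_add_right (fun θ => G (circleMap c ρ θ)) (-π)]
    congr 1 <;> ring
  rw [h2, intervalIntegral.integral_of_le (by linarith [pi_pos]), integral_Ioc_eq_integral_Ioo]
    at h1
  rw [← h1, smul_smul, mul_inv_cancel₀ (by positivity), one_smul]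

theorem polarCoord_symm_eq_circleMap (p : ℝ × ℝ) :
    Complex.polarCoord.symm p = circleMap 0 p.1 p.2 := by
  rw [Complex.polarCoord_symm_apply, circleMap, zero_add, Complex.exp_mul_I]
  push_cast
  ring

/-- Polar coordinates for the integral over a ball. -/
theorem setIntegral_ball_eq_polar (G : ℂ → ℂ) (c : ℂ) (r : ℝ) :
    ∫ z in ball c r, G z
      = ∫ p in Ioo (0:ℝ) r ×ˢ Ioo (-π) π, p.1 • G (circleMap c p.1 p.2) := by
  have h1 : ∫ z in ball c r, G z
      = ∫ w, (ball (0:ℂ) r).indicator (fun w => G (c + w)) w := by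
    rw [← integral_indicator measurableSet_ball,
      ← integral_add_left_eq_self (fun z => (ball c r).indicator G z) c]
    congr 1
    ext w
    by_cases hw : w ∈ ball (0:ℂ) r
    · have : c + w ∈ ball c r := by
        simpa [mem_ball, dist_eq_norm] using hw
      rw [indicator_of_mem hw, indicator_of_mem this]
    · have : c + w ∉ ball c r := by
        simpa [mem_ball, dist_eq_norm] using hw
      rw [indicator_of_notMem hw, indicator_of_notMem this]
  rw [h1, ← Complex.integral_comp_polarCoord_symm, polarCoord_target]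
  have h2 : ∀ p ∈ Ioi (0:ℝ) ×ˢ Ioo (-π) π,
      p.1 • (ball (0:ℂ) r).indicator (fun w => G (c + w)) (Complex.polarCoord.symm p)
        = (Iio r ×ˢ (univ : Set ℝ)).indicator
            (fun p : ℝ × ℝ => p.1 • G (circleMap c p.1 p.2)) p := by
    rintro ⟨ρ, θ⟩ ⟨hρ, -⟩
    have hρ' : (0:ℝ) < ρ := hρ
    have hnorm : ‖Complex.polarCoord.symm (ρ, θ)‖ = ρ := by
      rw [Complex.norm_polarCoord_symm]; exact abs_of_pos hρ'
    by_cases hlt : ρ < r
    · have hm : Complex.polarCoord.symm (ρ, θ) ∈ ball (0:ℂ) r := by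
        rw [mem_ball_zero_iff, hnorm]; exact hlt
      have hm' : (ρ, θ) ∈ Iio r ×ˢ (univ : Set ℝ) := ⟨hlt, mem_univ _⟩
      rw [indicator_of_mem hm, indicator_of_mem hm', polarCoord_symm_eq_circleMap]
      simp [circleMap]
    · have hm : Complex.polarCoord.symm (ρ, θ) ∉ ball (0:ℂ) r := by
        rw [mem_ball_zero_iff, hnorm]; exact hlt
      have hm' : (ρ, θ) ∉ Iio r ×ˢ (univ : Set ℝ) := fun h => hlt h.1
      rw [indicator_of_notMem hm, indicator_of_notMem hm', smul_zero]
  rw [setIntegral_congr_fun (measurableSet_Ioi.prod measurableSet_Ioo) h2,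
    setIntegral_indicator (measurableSet_Iio.prod MeasurableSet.univ)]
  congr 2
  ext ⟨ρ, θ⟩
  simp only [mem_inter_iff, mem_prod, mem_Ioi, mem_Ioo, mem_Iio, mem_univ, and_true]
  tauto

/-- **Area mean value property** for holomorphic functions. -/
theorem setIntegral_ball_eq_smul {G : ℂ → ℂ} {c : ℂ} {r : ℝ} (hr : 0 < r)
    (hG : DiffContOnCl ℂ G (ball c r)) :
    ∫ z in ball c r, G z = (π * r ^ 2) • G c := by
  rw [setIntegral_ball_eq_polar]
  have hcont : ContinuousOn (fun p : ℝ × ℝ => p.1 • G (circleMap c p.1 p.2))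
      (Icc (0:ℝ) r ×ˢ Icc (-π) π) := by
    have hGc : ContinuousOn G (closedBall c r) := by
      have := hG.continuousOn
      rwa [closure_ball c hr.ne'] at this
    have hmap : MapsTo (fun p : ℝ × ℝ => circleMap c p.1 p.2)
        (Icc (0:ℝ) r ×ˢ Icc (-π) π) (closedBall c r) := by
      rintro ⟨ρ, θ⟩ ⟨⟨hρ0, hρr⟩, -⟩
      simp only [mem_closedBall, dist_eq_norm, circleMap, add_sub_cancel_left, norm_mul,
        Complex.norm_real, Real.norm_eq_abs, Complex.norm_exp_ofReal_mul_I, mul_one]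
      rw [abs_of_nonneg hρ0]; exact hρr
    have hcm : Continuous (fun p : ℝ × ℝ => circleMap c p.1 p.2) := by
      unfold circleMap
      fun_prop
    exact ContinuousOn.smul continuous_fst.continuousOn (hGc.comp hcm.continuousOn hmap)
  have hint : IntegrableOn (fun p : ℝ × ℝ => p.1 • G (circleMap c p.1 p.2))
      (Ioo (0:ℝ) r ×ˢ Ioo (-π) π) (volume.prod volume) := by
    have : IntegrableOn (fun p : ℝ × ℝ => p.1 • G (circleMap c p.1 p.2))
        (Icc (0:ℝ) r ×ˢ Icc (-π) π) (volume.prod volume) :=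
      hcont.integrableOn_compact (isCompact_Icc.prod isCompact_Icc)
    exact this.mono_set (prod_mono Ioo_subset_Icc_self Ioo_subset_Icc_self)
  rw [Measure.volume_eq_prod, setIntegral_prod _ hint]
  have hinner : ∀ ρ ∈ Ioo (0:ℝ) r,
      ∫ θ in Ioo (-π) π, ρ • G (circleMap c ρ θ) = ρ • ((2 * π) • G c) := by
    intro ρ hρ
    rw [integral_smul]
    congr 1
    apply integral_Ioo_circleMap
    rw [abs_of_pos hρ.1]
    exact hG.mono (ball_subset_ball hρ.2.le)
  rw [setIntegral_congr_fun measurableSet_Ioo hinner, integral_smul_const]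
  have hρint : ∫ ρ in Ioo (0:ℝ) r, ρ = r ^ 2 / 2 := by
    rw [← integral_Ioc_eq_integral_Ioo, ← intervalIntegral.integral_of_le hr.le, integral_id]
    ring
  rw [hρint, smul_smul]
  congr 1
  ring

/-- **Area mean value inequality**. -/
theorem norm_sq_mul_le_setIntegral_ball {g : ℂ → ℂ} {c : ℂ} {r : ℝ} (hr : 0 < r)
    (hg : DiffContOnCl ℂ g (ball c r)) :
    ‖g c‖ ^ 2 * (π * r ^ 2) ≤ ∫ z in ball c r, ‖g z‖ ^ 2 := by
  have hg2 : DiffContOnCl ℂ (fun z => (g z) ^ 2) (ball c r) :=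
    ⟨hg.differentiableOn.pow 2, hg.continuousOn.pow 2⟩
  have h1 := setIntegral_ball_eq_smul hr hg2
  have h2 : ‖∫ z in ball c r, (g z) ^ 2‖ ≤ ∫ z in ball c r, ‖(g z) ^ 2‖ :=
    norm_integral_le_integral_norm _
  have h3 : ‖(π * r ^ 2) • (g c) ^ 2‖ = ‖g c‖ ^ 2 * (π * r ^ 2) := by
    rw [norm_smul, norm_pow, Real.norm_eq_abs, abs_of_nonneg (by positivity)]
    ring
  have h1' : ∫ z in ball c r, (g z) ^ 2 = (π * r ^ 2) • (g c) ^ 2 := h1
  rw [h1', h3] at h2
  simpa [norm_pow] using h2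

theorem strip_eq (Y : ℝ) : strip Y = Icc (-1 : ℝ) 1 ×ℂ Icc (2 : ℝ) Y := by
  ext z
  simp only [strip, mem_ofPred_eq, Complex.mem_reProdIm, mem_Icc, abs_le]

theorem isCompact_strip (Y : ℝ) : IsCompact (strip Y) := by
  rw [strip_eq]
  exact isCompact_Icc.reProdIm isCompact_Icc

theorem measurableSet_strip (Y : ℝ) : MeasurableSet (strip Y) :=
  (_root_.Fermat.Agent.S21.Cusp825.isCompact_strip Y).isClosed.measurableSet

theorem strip_subset_Uhp (Y : ℝ) : strip Y ⊆ Uhp := by
  intro z hz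
  have : (2:ℝ) ≤ z.im := hz.2.1
  exact lt_of_lt_of_le two_pos this

theorem strip_mono {Y₁ Y₂ : ℝ} (h : Y₁ ≤ Y₂) : strip Y₁ ⊆ strip Y₂ :=
  fun _ hz => ⟨hz.1, hz.2.1, hz.2.2.trans h⟩

/-- Tail estimate for a nonnegative function with bounded integrals over the strips. -/
theorem exists_tail_le (u : ℂ → ℝ) (hu : ContinuousOn u Uhp)     (hE : ∃ C : ℝ, ∀ Y : ℝ, ∫ z in strip Y, u z ≤ C) {ε : ℝ} (hε : 0 < ε) :
    ∃ Y₀ : ℝ, ∀ Y : ℝ, ∫ z in strip Y \ strip Y₀, u z ≤ ε := by
  obtain ⟨C, hC⟩ := hE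
  have hint : ∀ Y, IntegrableOn u (strip Y) := fun Y =>
    (hu.mono (_root_.Fermat.Agent.S21.Cusp825.strip_subset_Uhp Y)).integrableOn_compact (_root_.Fermat.Agent.S21.Cusp825.isCompact_strip Y)
  set E : ℝ → ℝ := fun Y => ∫ z in strip Y, u z with hEdef
  have hbdd : BddAbove (range E) := ⟨C, by rintro _ ⟨Y, rfl⟩; exact hC Y⟩
  have hlt : sSup (range E) - ε < sSup (range E) := by linarith
  obtain ⟨_, ⟨Y₀, rfl⟩, hY₀⟩ := exists_lt_of_lt_csSup (range_nonempty E) hlt
  refine ⟨Y₀, fun Y => ?_⟩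
  rcases le_total Y Y₀ with h | h
  · have : strip Y \ strip Y₀ = ∅ := sdiff_eq_empty.mpr (strip_mono h)
    rw [this]
    simpa using hε.le
  · rw [setIntegral_sdiff (measurableSet_strip Y₀) (hint Y) (strip_mono h)]
    have h1 : E Y ≤ sSup (range E) := le_csSup hbdd ⟨Y, rfl⟩
    have h1' : ∫ z in strip Y, u z ≤ sSup (range E) := h1
    have h2 : sSup (range E) - ε < ∫ z in strip Y₀, u z := hY₀
    linarith

/-- Decay on the central strip for a holomorphic function with bounded energy on strips. -/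
theorem exists_bound_of_energy (H : ℂ → ℂ) (hH : DifferentiableOn ℂ H Uhp)
    (hE : ∃ C : ℝ, ∀ Y : ℝ, ∫ z in strip Y, ‖H z‖ ^ 2 ≤ C) {ε : ℝ} (hε : 0 < ε) :
    ∃ A : ℝ, ∀ z : ℂ, |z.re| ≤ 1 / 2 → A ≤ z.im → ‖H z‖ ≤ ε := by
  have hcont : ContinuousOn (fun z => ‖H z‖ ^ 2) Uhp := (hH.continuousOn.norm).pow 2
  have hε' : 0 < ε ^ 2 * (π * (1 / 2) ^ 2) := by positivity
  obtain ⟨Y₀, hY₀⟩ := exists_tail_le (fun z => ‖H z‖ ^ 2) hcont hE hε'
  refine ⟨max Y₀ 2 + 1, fun z hzre hzim => ?_⟩
  have hY₀z : Y₀ + 1 ≤ z.im := le_trans (by gcongr; exact le_max_left _ _) hzim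
  have h1z : 3 ≤ z.im := le_trans (by linarith [le_max_right Y₀ 2]) hzim
  -- the ball is inside the region
  have hsub : ball z (1 / 2) ⊆ strip (z.im + 1) \ strip Y₀ := by
    intro w hw
    rw [mem_ball, dist_eq_norm] at hw
    have hre : |w.re - z.re| ≤ ‖w - z‖ := by
      simpa using Complex.abs_re_le_norm (w - z)
    have him : |w.im - z.im| ≤ ‖w - z‖ := by
      simpa using Complex.abs_im_le_norm (w - z)
    have hre' := abs_le.mp (hre.trans hw.le)
    have him' := abs_le.mp (him.trans hw.le)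
    have hzre' := abs_le.mp hzre
    refine ⟨⟨abs_le.mpr ⟨by linarith, by linarith⟩, by linarith, by linarith⟩, ?_⟩
    intro hw0
    have : w.im ≤ Y₀ := hw0.2.2
    linarith
  have hcl : closedBall z (1 / 2) ⊆ Uhp := by
    intro w hw
    rw [mem_closedBall, dist_eq_norm] at hw
    have him : |w.im - z.im| ≤ ‖w - z‖ := by
      simpa using Complex.abs_im_le_norm (w - z)
    have him' := abs_le.mp (him.trans hw)
    show 0 < w.im
    linarith
  have hD : DiffContOnCl ℂ H (ball z (1 / 2)) := hH.diffContOnCl_ball hcl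
  have hmv := norm_sq_mul_le_setIntegral_ball (by norm_num : (0:ℝ) < 1 / 2) hD
  have hint : IntegrableOn (fun z => ‖H z‖ ^ 2) (strip (z.im + 1) \ strip Y₀) :=
    ((hcont.mono (_root_.Fermat.Agent.S21.Cusp825.strip_subset_Uhp _)).integrableOn_compact (_root_.Fermat.Agent.S21.Cusp825.isCompact_strip _)).mono_set
      sdiff_subset
  have hmono : ∫ w in ball z (1 / 2), ‖H w‖ ^ 2 ≤ ∫ w in strip (z.im + 1) \ strip Y₀, ‖H w‖ ^ 2 :=
    setIntegral_mono_set hint (Eventually.of_forall fun w => by positivity)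
      (Eventually.of_forall hsub)
  have hfin : ‖H z‖ ^ 2 * (π * (1 / 2) ^ 2) ≤ ε ^ 2 * (π * (1 / 2) ^ 2) :=
    hmv.trans (hmono.trans (hY₀ _))
  have hsq : ‖H z‖ ^ 2 ≤ ε ^ 2 := le_of_mul_le_mul_right hfin (by positivity)
  exact (pow_le_pow_iff_left₀ (norm_nonneg _) hε.le (by norm_num)).mp hsq

/-- The function on `ℍ` attached to `f`. -/
noncomputable def toH (f : ℂ → ℂ) : ℍ → ℂ := fun z => f (z : ℂ)

theorem toH_mdiff (f : ℂ → ℂ) (hf : DifferentiableOn ℂ f Uhp) : MDiff (toH f) := by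
  rw [UpperHalfPlane.mdifferentiable_iff]
  refine hf.congr ?_
  intro z hz
  simp [toH, Function.comp, ofComplex_apply_of_im_pos hz]

theorem cd_eq_denom (g : SL(2, ℤ)) (z : ℍ) : cd g z = denom g z := by
  simp [cd, denom]

theorem toH_slash_of_mem (N : ℕ) (f : ℂ → ℂ)
    (hinv : ∀ (γ : Gamma0 N) (z : ℍ),
      f ↑((γ : SL(2, ℤ)) • z) = (cd (γ : SL(2, ℤ)) z) ^ 2 * f ↑z)
    (γ : SL(2, ℤ)) (hγ : γ ∈ Gamma0 N) : (toH f) ∣[(2:ℤ)] γ = toH f := by
  ext z
  rw [ModularForm.SL_slash_apply]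
  have h := hinv ⟨γ, hγ⟩ z
  simp only [toH] at h ⊢
  rw [h, cd_eq_denom]
  have hne : denom γ z ≠ 0 := denom_ne_zero _ z
  field_simp

/-- The slashed function as a function on `ℂ`. -/
noncomputable def Hc (f : ℂ → ℂ) (γ : SL(2, ℤ)) : ℂ → ℂ :=
  fun z => ((toH f) ∣[(2:ℤ)] γ) (ofComplex z)

theorem Hc_differentiableOn (f : ℂ → ℂ) (hf : DifferentiableOn ℂ f Uhp) (γ : SL(2, ℤ)) :
    DifferentiableOn ℂ (Hc f γ) Uhp := by
  have h := (toH_mdiff f hf).slash 2 (γ : GL (Fin 2) ℝ)
  rw [UpperHalfPlane.mdifferentiable_iff] at h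
  exact h

theorem norm_Hc_sq (f : ℂ → ℂ) (γ : SL(2, ℤ)) (z : ℂ) (hz : z ∈ Uhp) :
    ‖Hc f γ z‖ ^ 2 = ‖f (mob γ z)‖ ^ 2 / ‖cd γ z‖ ^ 4 := by
  have hz' : 0 < z.im := hz
  have hd : denom γ (ofComplex z) = cd γ z := by
    simp [cd, denom, ofComplex_apply_of_im_pos hz']
  simp only [Hc, mob]
  rw [ModularForm.SL_slash_apply, hd, norm_mul, mul_pow, norm_zpow, div_eq_mul_inv]
  congr 1
  rw [← zpow_natCast, ← zpow_mul, ← zpow_natCast, ← zpow_neg]
  norm_num

theorem energy_Hc (f : ℂ → ℂ)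
    (hE : ∀ δ : SL(2, ℤ), ∃ C : ℝ, ∀ Y : ℝ,
      ∫ z in strip Y, ‖f (mob δ z)‖ ^ 2 / ‖cd δ z‖ ^ 4 ≤ C) (γ : SL(2, ℤ)) :
    ∃ C : ℝ, ∀ Y : ℝ, ∫ z in strip Y, ‖Hc f γ z‖ ^ 2 ≤ C := by
  obtain ⟨C, hC⟩ := hE γ
  refine ⟨C, fun Y => ?_⟩
  rw [setIntegral_congr_fun (measurableSet_strip Y)
    (fun z hz => norm_Hc_sq f γ z (_root_.Fermat.Agent.S21.Cusp825.strip_subset_Uhp Y hz))]
  exact hC Y

theorem slash_apply_eq_Hc (f : ℂ → ℂ) (δ : SL(2, ℤ)) (n : ℤ) (z : ℍ) :
    ((toH f) ∣[(2:ℤ)] δ) z = Hc f (δ * ModularGroup.T ^ n) ((z : ℂ) - n) := by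
  have him : 0 < ((z : ℂ) - n).im := by simpa using z.im_pos
  set w : ℍ := ofComplex ((z : ℂ) - n) with hw
  have hwc : (w : ℂ) = (z : ℂ) - n := by
    rw [hw, ofComplex_apply_of_im_pos him]
  have hTw : ModularGroup.T ^ n • w = z := by
    ext1
    rw [ModularGroup.coe_T_zpow_smul_eq, hwc]
    ring
  have hden : denom (ModularGroup.T ^ n : SL(2, ℤ)) w = 1 := by
    rw [← cd_eq_denom]
    simp [cd, ModularGroup.coe_T_zpow]
  have key : ((toH f) ∣[(2:ℤ)] (δ * ModularGroup.T ^ n)) w = ((toH f) ∣[(2:ℤ)] δ) z := by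
    rw [SlashAction.slash_mul, ModularForm.SL_slash_apply, hTw, hden]
    simp
  exact key.symm

theorem conj_T_zpow_mem_Gamma0 (N : ℕ) (δ : SL(2, ℤ)) (k : ℤ) :
    δ * ModularGroup.T ^ ((N : ℤ) * k) * δ⁻¹ ∈ Gamma0 N := by
  have h1 : ModularGroup.T ^ ((N : ℤ) * k) ∈ CongruenceSubgroup.Gamma N := by
    simpa using ModularGroup_T_pow_mem_Gamma (N : ℤ) ((N : ℤ) * k) (dvd_mul_right _ _)
  have h2 : δ * ModularGroup.T ^ ((N : ℤ) * k) * δ⁻¹ ∈ CongruenceSubgroup.Gamma N :=
    (Gamma_normal N).conj_mem _ h1 δ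
  rw [Gamma_mem] at h2
  rw [Gamma0_mem]
  exact h2.2.2.1

theorem slash_mul_T_zpow (N : ℕ) (f : ℂ → ℂ)
    (hinv : ∀ (γ : Gamma0 N) (z : ℍ),
      f ↑((γ : SL(2, ℤ)) • z) = (cd (γ : SL(2, ℤ)) z) ^ 2 * f ↑z)
    (δ : SL(2, ℤ)) (k m : ℤ) :
    (toH f) ∣[(2:ℤ)] (δ * ModularGroup.T ^ ((N : ℤ) * k + m))
      = (toH f) ∣[(2:ℤ)] (δ * ModularGroup.T ^ m) := by
  have h : δ * ModularGroup.T ^ ((N : ℤ) * k + m)
      = (δ * ModularGroup.T ^ ((N : ℤ) * k) * δ⁻¹) * (δ * ModularGroup.T ^ m) := by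
    rw [zpow_add]
    group
  rw [h, SlashAction.slash_mul, toH_slash_of_mem N f hinv _ (conj_T_zpow_mem_Gamma0 N δ k)]

theorem isZeroAtImInfty_slash (N : ℕ) [NeZero N] (f : ℂ → ℂ)
    (hf : DifferentiableOn ℂ f Uhp)
    (hinv : ∀ (γ : Gamma0 N) (z : ℍ),
      f ↑((γ : SL(2, ℤ)) • z) = (cd (γ : SL(2, ℤ)) z) ^ 2 * f ↑z)
    (hE : ∀ δ : SL(2, ℤ), ∃ C : ℝ, ∀ Y : ℝ,
      ∫ z in strip Y, ‖f (mob δ z)‖ ^ 2 / ‖cd δ z‖ ^ 4 ≤ C)
    (δ : SL(2, ℤ)) : IsZeroAtImInfty ((toH f) ∣[(2:ℤ)] δ) := by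
  rw [isZeroAtImInfty_iff]
  intro ε hε
  have hb : ∀ m : ℕ, ∃ A : ℝ, ∀ z : ℂ, |z.re| ≤ 1 / 2 → A ≤ z.im →
      ‖Hc f (δ * ModularGroup.T ^ (m : ℤ)) z‖ ≤ ε := fun m =>
    exists_bound_of_energy _ (Hc_differentiableOn f hf _) (energy_Hc f hE _) hε
  choose A hA using hb
  obtain ⟨B, hB⟩ : ∃ B : ℝ, ∀ m ∈ Finset.range N, A m ≤ B := by
    obtain ⟨B, hB⟩ := ((Finset.range N).image A).bddAbove
    exact ⟨B, fun m hm => hB (Finset.mem_image_of_mem A hm)⟩
  refine ⟨B, fun z hz => ?_⟩
  set n : ℤ := round z.re with hn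
  have hNpos : (0 : ℤ) < (N : ℤ) := by exact_mod_cast Nat.pos_of_ne_zero (NeZero.ne N)
  have hmod0 : 0 ≤ n % (N : ℤ) := Int.emod_nonneg _ hNpos.ne'
  have hmodlt : n % (N : ℤ) < N := Int.emod_lt_of_pos _ hNpos
  set m : ℕ := (n % (N : ℤ)).toNat with hm
  have hmcast : (m : ℤ) = n % (N : ℤ) := Int.toNat_of_nonneg hmod0
  have hmN : m ∈ Finset.range N := by
    rw [Finset.mem_range]
    have : (m : ℤ) < N := by rw [hmcast]; exact hmodlt
    exact_mod_cast this
  have hdecomp : n = (N : ℤ) * (n / (N : ℤ)) + (m : ℤ) := by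
    rw [hmcast]; exact (Int.mul_ediv_add_emod n N).symm
  rw [slash_apply_eq_Hc f δ n z]
  have hslash := slash_mul_T_zpow N f hinv δ (n / (N : ℤ)) (m : ℤ)
  rw [← hdecomp] at hslash
  have hHc : Hc f (δ * ModularGroup.T ^ n) = Hc f (δ * ModularGroup.T ^ (m : ℤ)) := by
    funext w
    simp only [Hc, hslash]
  rw [hHc]
  apply hA m
  · have : ((z : ℂ) - (n : ℂ)).re = z.re - n := by simp
    rw [this, hn]
    exact (abs_sub_round z.re)
  · have : ((z : ℂ) - (n : ℂ)).im = z.im := by simp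
    rw [this]
    exact (hB m hmN).trans hz

theorem exists_cuspForm_of_zero (N : ℕ) [NeZero N] (f : ℂ → ℂ)
    (hf : DifferentiableOn ℂ f Uhp)
    (hinv : ∀ (γ : Gamma0 N) (z : ℍ),
      f ↑((γ : SL(2, ℤ)) • z) = (cd (γ : SL(2, ℤ)) z) ^ 2 * f ↑z)
    (hzero : ∀ δ : SL(2, ℤ), IsZeroAtImInfty ((toH f) ∣[(2:ℤ)] δ)) :
    ∃ F : CuspForm (Gamma0 N) 2, ∀ z : ℍ, F z = f ↑z := by
  refine ⟨{ toFun := toH f
            slash_action_eq' := ?_
            holo' := toH_mdiff f hf
            zero_at_cusps' := ?_ }, fun z => rfl⟩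
  · intro γ hγ
    obtain ⟨γ₀, hγ₀, rfl⟩ := Subgroup.mem_map.mp hγ
    exact toH_slash_of_mem N f hinv γ₀ hγ₀
  · intro c hc
    have hc' : IsCusp c 𝒮ℒ :=
      (Subgroup.IsArithmetic.isCusp_iff_isCusp_SL2Z _).mp hc
    rw [OnePoint.isZeroAt_iff_forall_SL2Z hc']
    intro γ _
    exact hzero γ

end Cusp825

/-- **Cusp**: a holomorphic weight-2 invariant function with bounded energy in the cusp strips
is a cusp form. -/
theorem exists_cuspForm_of_energy (N : ℕ) [NeZero N] (f : ℂ → ℂ)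
    (hf : DifferentiableOn ℂ f Uhp)
    (hinv : ∀ (γ : Gamma0 N) (z : ℍ),
      f ↑((γ : SL(2, ℤ)) • z) = (cd (γ : SL(2, ℤ)) z) ^ 2 * f ↑z)
    (hE : ∀ δ : SL(2, ℤ), ∃ C : ℝ, ∀ Y : ℝ,
      ∫ z in strip Y, ‖f (mob δ z)‖ ^ 2 / ‖cd δ z‖ ^ 4 ≤ C) :
    ∃ F : CuspForm (Gamma0 N) 2, ∀ z : ℍ, F z = f ↑z :=
  Cusp825.exists_cuspForm_of_zero N f hf hinv
    (Cusp825.isZeroAtImInfty_slash N f hf hinv hE)

end Fermat.Agent.S21

end
-- ===== PACK-END S21/Cusp.lean

-- ===== PACK-BEGIN S21/Per.lean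
section


/-!
# S21 — piece `Per` of the Hodge route

If the gradients of `v n` tend to `0` in `L²_loc` and all `v n` have the same period `d` along
`γ`, then `d = 0`.

The proof is a Poincaré-type estimate on a closed rectangle `Q` of the upper half plane
containing a unit square `B` and its image `γ B`: everything is done with lower Lebesgue
integrals (`∫⁻`), so that no integrability bookkeeping is needed.
-/

set_option autoImplicit false

open MeasureTheory Set Filter Topology UpperHalfPlane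
open scoped ENNReal MatrixGroups ContDiff Interval

namespace Fermat.Agent.S21

/-! ### One-dimensional estimates -/

/-- Cauchy–Schwarz on an interval. -/
theorem per_sq_integral_le {f : ℝ → ℝ} {a b : ℝ} (hab : a ≤ b) (hf : ContinuousOn f (Icc a b)) :
    (∫ x in a..b, f x) ^ 2 ≤ (b - a) * ∫ x in a..b, (f x) ^ 2 := by
  have hfi : IntervalIntegrable f volume a b := by
    apply ContinuousOn.intervalIntegrable
    rwa [uIcc_of_le hab]
  have hf2 : IntervalIntegrable (fun x => f x ^ 2) volume a b := by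
    apply ContinuousOn.intervalIntegrable
    rw [uIcc_of_le hab]
    exact hf.pow 2
  have h : ∀ t : ℝ, 0 ≤ (b - a) * (t * t) + (2 * ∫ x in a..b, f x) * t
      + ∫ x in a..b, (f x) ^ 2 := by
    intro t
    have h0 := intervalIntegral.integral_nonneg (μ := volume) hab
      (fun x _ => sq_nonneg (t + f x))
    have e : ∫ x in a..b, (t + f x) ^ 2 = (b - a) * (t * t) + (2 * ∫ x in a..b, f x) * t
        + ∫ x in a..b, (f x) ^ 2 := by
      have e1 : (fun x => (t + f x) ^ 2) = fun x => (t * t + (2 * t) * f x) + f x ^ 2 := by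
        ext x; ring
      rw [e1, intervalIntegral.integral_add ((intervalIntegrable_const).add (hfi.const_mul _)) hf2,
        intervalIntegral.integral_add intervalIntegrable_const (hfi.const_mul _),
        intervalIntegral.integral_const, intervalIntegral.integral_const_mul]
      simp only [smul_eq_mul]
      ring
    linarith
  have := discrim_le_zero h
  unfold discrim at this
  nlinarith

/-- One-dimensional estimate: FTC + Cauchy–Schwarz, in `ℝ≥0∞` form. -/
theorem per_sq_sub_le {g f : ℝ → ℝ} {a b : ℝ}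
    (hderiv : ∀ s ∈ Icc a b, HasDerivAt g (f s) s) (hcont : ContinuousOn f (Icc a b))
    {x x' : ℝ} (hx : x ∈ Icc a b) (hx' : x' ∈ Icc a b) :
    ENNReal.ofReal ((g x - g x') ^ 2) ≤
      ENNReal.ofReal (b - a) * ∫⁻ s in Icc a b, ENNReal.ofReal ((f s) ^ 2) := by
  wlog hxx : x' ≤ x generalizing x x'
  · have := this hx' hx (le_of_not_ge hxx)
    rwa [sub_sq_comm] at this
  have hsub : Icc x' x ⊆ Icc a b := Icc_subset_Icc hx'.1 hx.2
  have hsub' : Ioc x' x ⊆ Icc a b := Ioc_subset_Icc_self.trans hsub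
  have hc : ContinuousOn f (Icc x' x) := hcont.mono hsub
  have hint : IntervalIntegrable f volume x' x := by
    apply ContinuousOn.intervalIntegrable
    rwa [uIcc_of_le hxx]
  have hftc : ∫ s in x'..x, f s = g x - g x' := by
    apply intervalIntegral.integral_eq_sub_of_hasDerivAt _ hint
    intro s hs
    rw [uIcc_of_le hxx] at hs
    exact hderiv s (hsub hs)
  have hcs := per_sq_integral_le hxx hc
  rw [hftc] at hcs
  have hnn : 0 ≤ ∫ s in x'..x, (f s) ^ 2 :=
    intervalIntegral.integral_nonneg hxx (fun s _ => sq_nonneg _)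
  have hle : (g x - g x') ^ 2 ≤ (b - a) * ∫ s in x'..x, (f s) ^ 2 := by
    refine hcs.trans (mul_le_mul_of_nonneg_right ?_ hnn)
    linarith [hx.2, hx'.1]
  have hba : 0 ≤ b - a := by linarith [hx.1, hx.2]
  calc ENNReal.ofReal ((g x - g x') ^ 2)
      ≤ ENNReal.ofReal ((b - a) * ∫ s in x'..x, (f s) ^ 2) := ENNReal.ofReal_le_ofReal hle
    _ = ENNReal.ofReal (b - a) * ENNReal.ofReal (∫ s in x'..x, (f s) ^ 2) :=
        ENNReal.ofReal_mul hba
    _ = ENNReal.ofReal (b - a) * ∫⁻ s in Ioc x' x, ENNReal.ofReal ((f s) ^ 2) := by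
        congr 1
        rw [intervalIntegral.integral_of_le hxx]
        apply ofReal_integral_eq_lintegral_ofReal
        · have : IntervalIntegrable (fun s => f s ^ 2) volume x' x := by
            apply ContinuousOn.intervalIntegrable
            rw [uIcc_of_le hxx]
            exact hc.pow 2
          exact (intervalIntegrable_iff_integrableOn_Ioc_of_le hxx).mp this
        · exact Eventually.of_forall (fun s => sq_nonneg _)
    _ ≤ ENNReal.ofReal (b - a) * ∫⁻ s in Icc a b, ENNReal.ofReal ((f s) ^ 2) := by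
        gcongr

/-! ### Points, lines and rectangles in `ℂ` -/

/-- The point `x + y i`. -/
def per_pt (x y : ℝ) : ℂ := ⟨x, y⟩

@[simp] theorem per_pt_re (x y : ℝ) : (per_pt x y).re = x := rfl

@[simp] theorem per_pt_im (x y : ℝ) : (per_pt x y).im = y := rfl

theorem per_pt_mem_Uhp {x y : ℝ} (hy : 0 < y) : per_pt x y ∈ Uhp := hy

theorem per_pt_eta (z : ℂ) : per_pt z.re z.im = z := rfl

theorem per_continuous_pt_left (y : ℝ) : Continuous (fun s : ℝ => per_pt s y) := by
  have : (fun s : ℝ => per_pt s y) = fun s : ℝ => (s : ℂ) + per_pt 0 y := by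
    funext s; apply Complex.ext <;> simp [per_pt]
  rw [this]
  exact Complex.continuous_ofReal.add continuous_const

theorem per_continuous_pt_right (x : ℝ) : Continuous (fun t : ℝ => per_pt x t) := by
  have : (fun t : ℝ => per_pt x t) = fun t : ℝ => (t : ℂ) * Complex.I + per_pt x 0 := by
    funext t; apply Complex.ext <;> simp [per_pt]
  rw [this]
  exact (Complex.continuous_ofReal.mul continuous_const).add continuous_const

/-- Tonelli on a rectangle of `ℂ`. -/
theorem per_lintegral_rect (F : ℂ → ℝ≥0∞) (hF : Measurable F) (s t : Set ℝ) :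
    ∫⁻ z in s ×ℂ t, F z = ∫⁻ x in s, ∫⁻ y in t, F (per_pt x y) := by
  have e := Complex.volume_preserving_equiv_real_prod.symm
  rw [← e.setLIntegral_comp_preimage_emb
    (Complex.measurableEquivRealProd.symm.measurableEmbedding) F (s ×ℂ t)]
  have hpre : Complex.measurableEquivRealProd.symm ⁻¹' (s ×ℂ t) = s ×ˢ t := by
    ext p
    simp [Complex.mem_reProdIm, Complex.measurableEquivRealProd_symm_apply]
  rw [hpre, Measure.volume_eq_prod, ← Measure.prod_restrict, lintegral_prod]
  · rfl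
  · exact (hF.comp Complex.measurableEquivRealProd.symm.measurable).aemeasurable

/-- Tonelli on a rectangle of `ℂ`, other order. -/
theorem per_lintegral_rect_symm (F : ℂ → ℝ≥0∞) (hF : Measurable F) (s t : Set ℝ) :
    ∫⁻ z in s ×ℂ t, F z = ∫⁻ y in t, ∫⁻ x in s, F (per_pt x y) := by
  have e := Complex.volume_preserving_equiv_real_prod.symm
  rw [← e.setLIntegral_comp_preimage_emb
    (Complex.measurableEquivRealProd.symm.measurableEmbedding) F (s ×ℂ t)]
  have hpre : Complex.measurableEquivRealProd.symm ⁻¹' (s ×ℂ t) = s ×ˢ t := by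
    ext p
    simp [Complex.mem_reProdIm, Complex.measurableEquivRealProd_symm_apply]
  rw [hpre, Measure.volume_eq_prod, ← Measure.prod_restrict, lintegral_prod_symm]
  · rfl
  · exact (hF.comp Complex.measurableEquivRealProd.symm.measurable).aemeasurable

theorem per_measurable_comp_pt {F : ℂ → ℝ≥0∞} (hF : Measurable F) :
    Measurable (fun p : ℝ × ℝ => F (per_pt p.1 p.2)) := by
  have : (fun p : ℝ × ℝ => F (per_pt p.1 p.2)) = F ∘ Complex.measurableEquivRealProd.symm := by
    funext p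
    simp only [Function.comp_apply, Complex.measurableEquivRealProd_symm_apply]
    rfl
  rw [this]
  exact hF.comp Complex.measurableEquivRealProd.symm.measurable

theorem per_rect_subset_Uhp {a₁ b₁ a₂ b₂ : ℝ} (ha₂ : 0 < a₂) :
    Icc a₁ b₁ ×ℂ Icc a₂ b₂ ⊆ Uhp := fun _ hz => lt_of_lt_of_le ha₂ hz.2.1

/-! ### Calculus along horizontal and vertical lines -/

theorem per_differentiableAt {u : ℂ → ℝ} (hu : ContDiffOn ℝ 1 u Uhp) {z : ℂ} (hz : z ∈ Uhp) :
    DifferentiableAt ℝ u z :=
  (hu.differentiableOn (by norm_num)).differentiableAt (isOpen_Uhp.mem_nhds hz)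

theorem per_continuousOn_fderiv {u : ℂ → ℝ} (hu : ContDiffOn ℝ 1 u Uhp) (w : ℂ) :
    ContinuousOn (fun z => fderiv ℝ u z w) Uhp :=
  (hu.continuousOn_fderiv_of_isOpen isOpen_Uhp le_rfl).clm_apply continuousOn_const

theorem per_hasDerivAt_horiz {u : ℂ → ℝ} (hu : ContDiffOn ℝ 1 u Uhp) {y : ℝ} (hy : 0 < y)
    (s : ℝ) :
    HasDerivAt (fun s : ℝ => u (per_pt s y)) (fderiv ℝ u (per_pt s y) 1) s := by
  have h1 : HasDerivAt (fun s : ℝ => per_pt s y) 1 s := by
    have : (fun s : ℝ => per_pt s y) = fun s : ℝ => (s : ℂ) + per_pt 0 y := by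
      funext s; apply Complex.ext <;> simp [per_pt]
    rw [this]
    exact (Complex.ofRealCLM.hasDerivAt (x := s)).add_const _
  exact (per_differentiableAt hu (per_pt_mem_Uhp hy)).hasFDerivAt.comp_hasDerivAt s h1

theorem per_hasDerivAt_vert {u : ℂ → ℝ} (hu : ContDiffOn ℝ 1 u Uhp) (x : ℝ) {t : ℝ}
    (ht : 0 < t) :
    HasDerivAt (fun t : ℝ => u (per_pt x t)) (fderiv ℝ u (per_pt x t) Complex.I) t := by
  have h1 : HasDerivAt (fun t : ℝ => per_pt x t) Complex.I t := by
    have : (fun t : ℝ => per_pt x t) = fun t : ℝ => (t : ℂ) * Complex.I + per_pt x 0 := by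
      funext t; apply Complex.ext <;> simp [per_pt]
    rw [this]
    have := ((Complex.ofRealCLM.hasDerivAt (x := t)).mul_const Complex.I).add_const (per_pt x 0)
    simpa using this
  exact (per_differentiableAt hu (per_pt_mem_Uhp ht)).hasFDerivAt.comp_hasDerivAt t h1

/-- The two nonnegative integrands. -/
noncomputable def per_fx (u : ℂ → ℝ) (z : ℂ) : ℝ≥0∞ := ENNReal.ofReal ((fderiv ℝ u z 1) ^ 2)

/-- The two nonnegative integrands. -/
noncomputable def per_fy (u : ℂ → ℝ) (z : ℂ) : ℝ≥0∞ :=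
  ENNReal.ofReal ((fderiv ℝ u z Complex.I) ^ 2)

theorem per_measurable_fx (u : ℂ → ℝ) : Measurable (per_fx u) :=
  ENNReal.measurable_ofReal.comp ((measurable_fderiv_apply_const ℝ u 1).pow_const 2)

theorem per_measurable_fy (u : ℂ → ℝ) : Measurable (per_fy u) :=
  ENNReal.measurable_ofReal.comp ((measurable_fderiv_apply_const ℝ u Complex.I).pow_const 2)

/-- Horizontal energy on the line of height `y`. -/
noncomputable def per_g (u : ℂ → ℝ) (a₁ b₁ : ℝ) (y : ℝ) : ℝ≥0∞ :=
  ∫⁻ s in Icc a₁ b₁, per_fx u (per_pt s y)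

/-- Vertical energy on the line of abscissa `x`. -/
noncomputable def per_h (u : ℂ → ℝ) (a₂ b₂ : ℝ) (x : ℝ) : ℝ≥0∞ :=
  ∫⁻ t in Icc a₂ b₂, per_fy u (per_pt x t)

theorem per_measurable_g (u : ℂ → ℝ) (a₁ b₁ : ℝ) : Measurable (per_g u a₁ b₁) :=
  (per_measurable_comp_pt (per_measurable_fx u)).lintegral_prod_left'

theorem per_measurable_h (u : ℂ → ℝ) (a₂ b₂ : ℝ) : Measurable (per_h u a₂ b₂) :=
  (per_measurable_comp_pt (per_measurable_fy u)).lintegral_prod_right'

/-- **Claim A**: pointwise Poincaré-type estimate on a rectangle. -/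
theorem per_claimA {u : ℂ → ℝ} (hu : ContDiffOn ℝ 1 u Uhp) {a₁ b₁ a₂ b₂ : ℝ} (ha₂ : 0 < a₂)
    {z z' : ℂ} (hz : z ∈ Icc a₁ b₁ ×ℂ Icc a₂ b₂) (hz' : z' ∈ Icc a₁ b₁ ×ℂ Icc a₂ b₂) :
    ENNReal.ofReal ((u z - u z') ^ 2) ≤
      2 * (ENNReal.ofReal (b₁ - a₁) * per_g u a₁ b₁ z.im)
        + 2 * (ENNReal.ofReal (b₂ - a₂) * per_h u a₂ b₂ z'.re) := by
  have hy : 0 < z.im := lt_of_lt_of_le ha₂ hz.2.1
  -- horizontal part
  have hp : ENNReal.ofReal ((u (per_pt z.re z.im) - u (per_pt z'.re z.im)) ^ 2) ≤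
      ENNReal.ofReal (b₁ - a₁) * per_g u a₁ b₁ z.im := by
    refine per_sq_sub_le (g := fun s => u (per_pt s z.im))
      (f := fun s => fderiv ℝ u (per_pt s z.im) 1)
      (fun s _ => per_hasDerivAt_horiz hu hy s) ?_ hz.1 hz'.1
    refine Continuous.continuousOn ?_
    refine (per_continuousOn_fderiv hu 1).comp_continuous (per_continuous_pt_left z.im) ?_
    intro s
    exact per_pt_mem_Uhp hy
  -- vertical part
  have hq : ENNReal.ofReal ((u (per_pt z'.re z.im) - u (per_pt z'.re z'.im)) ^ 2) ≤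
      ENNReal.ofReal (b₂ - a₂) * per_h u a₂ b₂ z'.re := by
    refine per_sq_sub_le (g := fun t => u (per_pt z'.re t))
      (f := fun t => fderiv ℝ u (per_pt z'.re t) Complex.I)
      (fun t ht => per_hasDerivAt_vert hu z'.re (lt_of_lt_of_le ha₂ ht.1)) ?_ hz.2 hz'.2
    refine (per_continuousOn_fderiv hu Complex.I).comp
      (per_continuous_pt_right z'.re).continuousOn ?_
    intro t ht
    exact per_pt_mem_Uhp (lt_of_lt_of_le ha₂ ht.1)
  set p := u (per_pt z.re z.im) - u (per_pt z'.re z.im) with hpdef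
  set q := u (per_pt z'.re z.im) - u (per_pt z'.re z'.im) with hqdef
  have hsum : u z - u z' = p + q := by
    rw [hpdef, hqdef, per_pt_eta, per_pt_eta]; ring
  have hineq : (u z - u z') ^ 2 ≤ 2 * p ^ 2 + 2 * q ^ 2 := by
    rw [hsum]; nlinarith [sq_nonneg (p - q)]
  calc ENNReal.ofReal ((u z - u z') ^ 2)
      ≤ ENNReal.ofReal (2 * p ^ 2 + 2 * q ^ 2) := ENNReal.ofReal_le_ofReal hineq
    _ = 2 * ENNReal.ofReal (p ^ 2) + 2 * ENNReal.ofReal (q ^ 2) := by
        rw [ENNReal.ofReal_add (by positivity) (by positivity),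
          ENNReal.ofReal_mul (by norm_num), ENNReal.ofReal_mul (by norm_num),
          ENNReal.ofReal_ofNat]
    _ ≤ _ := by gcongr

theorem per_mob_eq {γ : SL(2, ℤ)} {z : ℂ} (hz : z ∈ Uhp) :
    mob γ z = ((γ • (⟨z, hz⟩ : ℍ) : ℍ) : ℂ) := by
  unfold mob
  rw [ofComplex_apply_of_im_pos hz]

theorem per_mob_mem_Uhp (γ : SL(2, ℤ)) (z : ℂ) : mob γ z ∈ Uhp := coe_mem_Uhp _

/-- **Claim B**. -/
theorem per_claimB {u : ℂ → ℝ} (hu : ContDiffOn ℝ 1 u Uhp) (γ : SL(2, ℤ)) (d : ℝ)
    (hd : ∀ z : ℍ, u ↑(γ • z) = u ↑z + d)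
    {a₁ b₁ a₂ b₂ : ℝ} (ha₂ : 0 < a₂)
    {z : ℂ} (hz : z ∈ Icc a₁ b₁ ×ℂ Icc a₂ b₂) (hγz : mob γ z ∈ Icc a₁ b₁ ×ℂ Icc a₂ b₂)
    {x' : ℝ} (hx' : x' ∈ Icc a₁ b₁) :
    ENNReal.ofReal (d ^ 2) ≤
      4 * ENNReal.ofReal (b₁ - a₁) * (per_g u a₁ b₁ (mob γ z).im + per_g u a₁ b₁ z.im)
        + 8 * (ENNReal.ofReal (b₂ - a₂) * per_h u a₂ b₂ x') := by
  have hzU : z ∈ Uhp := per_rect_subset_Uhp ha₂ hz
  have hz' : per_pt x' a₂ ∈ Icc a₁ b₁ ×ℂ Icc a₂ b₂ :=
    ⟨hx', ⟨le_rfl, hz.2.1.trans hz.2.2⟩⟩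
  have hper : u (mob γ z) = u z + d := by
    rw [per_mob_eq hzU]
    exact hd ⟨z, hzU⟩
  have A1 := per_claimA hu ha₂ hγz hz'
  have A2 := per_claimA hu ha₂ hz hz'
  rw [per_pt_re] at A1 A2
  set P := u (mob γ z) - u (per_pt x' a₂) with hP
  set R := u z - u (per_pt x' a₂) with hR
  have hdPR : d = P - R := by rw [hP, hR, hper]; ring
  have hineq : d ^ 2 ≤ 2 * P ^ 2 + 2 * R ^ 2 := by
    rw [hdPR]; nlinarith [sq_nonneg (P + R)]
  calc ENNReal.ofReal (d ^ 2)
      ≤ ENNReal.ofReal (2 * P ^ 2 + 2 * R ^ 2) := ENNReal.ofReal_le_ofReal hineq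
    _ = 2 * ENNReal.ofReal (P ^ 2) + 2 * ENNReal.ofReal (R ^ 2) := by
        rw [ENNReal.ofReal_add (by positivity) (by positivity),
          ENNReal.ofReal_mul (by norm_num), ENNReal.ofReal_mul (by norm_num),
          ENNReal.ofReal_ofNat]
    _ ≤ 2 * (2 * (ENNReal.ofReal (b₁ - a₁) * per_g u a₁ b₁ (mob γ z).im)
          + 2 * (ENNReal.ofReal (b₂ - a₂) * per_h u a₂ b₂ x'))
        + 2 * (2 * (ENNReal.ofReal (b₁ - a₁) * per_g u a₁ b₁ z.im)
          + 2 * (ENNReal.ofReal (b₂ - a₂) * per_h u a₂ b₂ x')) := by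
        gcongr
    _ = _ := by ring

/-- The vertical energy integrates to the `y`-part of the Dirichlet energy. -/
theorem per_lintegral_h (u : ℂ → ℝ) (a₁ b₁ a₂ b₂ : ℝ) :
    ∫⁻ x in Icc a₁ b₁, per_h u a₂ b₂ x = ∫⁻ z in Icc a₁ b₁ ×ℂ Icc a₂ b₂, per_fy u z := by
  rw [per_lintegral_rect (per_fy u) (per_measurable_fy u)]
  rfl

/-- The horizontal energy integrates to the `x`-part of the Dirichlet energy. -/
theorem per_lintegral_g (u : ℂ → ℝ) (a₁ b₁ a₂ b₂ : ℝ) :
    ∫⁻ y in Icc a₂ b₂, per_g u a₁ b₁ y = ∫⁻ z in Icc a₁ b₁ ×ℂ Icc a₂ b₂, per_fx u z := by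
  rw [per_lintegral_rect_symm (per_fx u) (per_measurable_fx u)]
  rfl

theorem per_measurable_G (u : ℂ → ℝ) (a₁ b₁ : ℝ) :
    Measurable (fun z : ℂ => per_g u a₁ b₁ z.im) :=
  (per_measurable_g u a₁ b₁).comp Complex.measurable_im

/-- **Claim E1**. -/
theorem per_lintegral_G (u : ℂ → ℝ) (a₁ b₁ a₂ b₂ : ℝ) :
    ∫⁻ z in Icc a₁ b₁ ×ℂ Icc a₂ b₂, per_g u a₁ b₁ z.im =
      ENNReal.ofReal (b₁ - a₁) * ∫⁻ z in Icc a₁ b₁ ×ℂ Icc a₂ b₂, per_fx u z := by
  rw [per_lintegral_rect _ (per_measurable_G u a₁ b₁)]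
  simp only [per_pt_im]
  rw [setLIntegral_const, Real.volume_Icc, per_lintegral_g, mul_comm]

/-- **Claim C**. -/
theorem per_claimC {u : ℂ → ℝ} (hu : ContDiffOn ℝ 1 u Uhp) (γ : SL(2, ℤ)) (d : ℝ)
    (hd : ∀ z : ℍ, u ↑(γ • z) = u ↑z + d)
    {a₁ b₁ a₂ b₂ : ℝ} (ha₂ : 0 < a₂)
    {z : ℂ} (hz : z ∈ Icc a₁ b₁ ×ℂ Icc a₂ b₂) (hγz : mob γ z ∈ Icc a₁ b₁ ×ℂ Icc a₂ b₂) :
    ENNReal.ofReal (d ^ 2) * ENNReal.ofReal (b₁ - a₁) ≤
      4 * ENNReal.ofReal (b₁ - a₁) * (per_g u a₁ b₁ (mob γ z).im + per_g u a₁ b₁ z.im)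
          * ENNReal.ofReal (b₁ - a₁)
        + 8 * (ENNReal.ofReal (b₂ - a₂) * ∫⁻ z in Icc a₁ b₁ ×ℂ Icc a₂ b₂, per_fy u z) := by
  calc ENNReal.ofReal (d ^ 2) * ENNReal.ofReal (b₁ - a₁)
      = ∫⁻ _ in Icc a₁ b₁, ENNReal.ofReal (d ^ 2) := by
        rw [setLIntegral_const, Real.volume_Icc]
    _ ≤ ∫⁻ x' in Icc a₁ b₁,
          (4 * ENNReal.ofReal (b₁ - a₁) * (per_g u a₁ b₁ (mob γ z).im + per_g u a₁ b₁ z.im)
            + 8 * (ENNReal.ofReal (b₂ - a₂) * per_h u a₂ b₂ x')) :=
        setLIntegral_mono' measurableSet_Icc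
          (fun x' hx' => per_claimB hu γ d hd ha₂ hz hγz hx')
    _ = _ := by
        rw [lintegral_add_left measurable_const, setLIntegral_const, Real.volume_Icc,
          lintegral_const_mul _ ((per_measurable_h u a₂ b₂).const_mul _),
          lintegral_const_mul _ (per_measurable_h u a₂ b₂), per_lintegral_h]

/-- **Claim D**. -/
theorem per_claimD {u : ℂ → ℝ} (hu : ContDiffOn ℝ 1 u Uhp) (γ : SL(2, ℤ)) (d : ℝ)
    (hd : ∀ z : ℍ, u ↑(γ • z) = u ↑z + d)
    {a₁ b₁ a₂ b₂ : ℝ} (ha₂ : 0 < a₂)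
    {B : Set ℂ} (hB : MeasurableSet B) (hBQ : B ⊆ Icc a₁ b₁ ×ℂ Icc a₂ b₂)
    (hγB : mob γ '' B ⊆ Icc a₁ b₁ ×ℂ Icc a₂ b₂) :
    ENNReal.ofReal (d ^ 2) * ENNReal.ofReal (b₁ - a₁) * volume B ≤
      4 * ENNReal.ofReal (b₁ - a₁) ^ 2 *
          ((∫⁻ z in B, per_g u a₁ b₁ (mob γ z).im) + ∫⁻ z in B, per_g u a₁ b₁ z.im)
        + 8 * (ENNReal.ofReal (b₂ - a₂) * ∫⁻ z in Icc a₁ b₁ ×ℂ Icc a₂ b₂, per_fy u z)
          * volume B := by
  have hL : ENNReal.ofReal (b₁ - a₁) ≠ ⊤ := ENNReal.ofReal_ne_top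
  calc ENNReal.ofReal (d ^ 2) * ENNReal.ofReal (b₁ - a₁) * volume B
      = ∫⁻ _ in B, ENNReal.ofReal (d ^ 2) * ENNReal.ofReal (b₁ - a₁) := by
        rw [setLIntegral_const]
    _ ≤ ∫⁻ z in B,
          (4 * ENNReal.ofReal (b₁ - a₁) * (per_g u a₁ b₁ (mob γ z).im + per_g u a₁ b₁ z.im)
              * ENNReal.ofReal (b₁ - a₁)
            + 8 * (ENNReal.ofReal (b₂ - a₂) *
                ∫⁻ z in Icc a₁ b₁ ×ℂ Icc a₂ b₂, per_fy u z)) :=
        setLIntegral_mono' hB
          (fun z hz => per_claimC hu γ d hd ha₂ (hBQ hz) (hγB ⟨z, hz, rfl⟩))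
    _ = _ := by
        rw [lintegral_add_right _ measurable_const, setLIntegral_const,
          lintegral_mul_const' _ _ hL,
          lintegral_const_mul' _ _ (ENNReal.mul_ne_top (by simp) hL),
          lintegral_add_right _ (per_measurable_G u a₁ b₁)]
        ring

/-! ### Change of variables under a Möbius transformation (`∫⁻` form) -/

theorem per_mob_injOn (γ : SL(2, ℤ)) : InjOn (mob γ) Uhp := by
  intro z₁ h₁ z₂ h₂ h
  rw [per_mob_eq h₁, per_mob_eq h₂] at h
  have h' := MulAction.injective γ (UpperHalfPlane.ext h)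
  exact congrArg UpperHalfPlane.coe h'

theorem per_cd_eq_denom (γ : SL(2, ℤ)) {z : ℂ} (hz : z ∈ Uhp) :
    cd γ z = denom (γ : GL (Fin 2) ℝ) z := by
  have := ModularGroup.denom_apply γ ⟨z, hz⟩
  simpa [cd] using this.symm

theorem per_cd_ne_zero (γ : SL(2, ℤ)) {z : ℂ} (hz : z ∈ Uhp) : cd γ z ≠ 0 := by
  rw [per_cd_eq_denom γ hz]
  exact denom_ne_zero _ ⟨z, hz⟩

theorem per_hasFDerivAt_mob (γ : SL(2, ℤ)) {z : ℂ} (hz : z ∈ Uhp) :
    HasFDerivAt (mob γ) (smulFDeriv (γ : GL (Fin 2) ℝ) z) z :=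
  (hasStrictFDerivAt_smul (γ : GL (Fin 2) ℝ) ⟨z, hz⟩).hasFDerivAt

theorem per_continuousOn_mob (γ : SL(2, ℤ)) : ContinuousOn (mob γ) Uhp :=
  fun _ hz => (per_hasFDerivAt_mob γ hz).continuousAt.continuousWithinAt

theorem per_abs_det (γ : SL(2, ℤ)) {z : ℂ} (hz : z ∈ Uhp) :
    |(smulFDeriv (γ : GL (Fin 2) ℝ) z).det| = 1 / ‖cd γ z‖ ^ 4 := by
  rw [det_smulFDeriv, per_cd_eq_denom γ hz]
  have hdet : ((γ : GL (Fin 2) ℝ)).det = 1 := by simp
  rw [hdet]
  simp

/-- **CV** in `∫⁻` form: change of variables under a Möbius transformation. -/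
theorem per_lintegral_mob (γ : SL(2, ℤ)) {B : Set ℂ} (hB : MeasurableSet B) (hBU : B ⊆ Uhp)
    (G : ℂ → ℝ≥0∞) :
    ∫⁻ w in mob γ '' B, G w = ∫⁻ z in B, ENNReal.ofReal (1 / ‖cd γ z‖ ^ 4) * G (mob γ z) := by
  rw [lintegral_image_eq_lintegral_abs_det_fderiv_mul volume hB
    (fun z hz => (per_hasFDerivAt_mob γ (hBU hz)).hasFDerivWithinAt)
    ((per_mob_injOn γ).mono hBU) G]
  refine setLIntegral_congr_fun hB (fun z hz => ?_)
  rw [per_abs_det γ (hBU hz)]

/-- **Claim E3**. -/
theorem per_lintegral_comp_mob_le (γ : SL(2, ℤ)) {B Q : Set ℂ} (hB : MeasurableSet B)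
    (hBU : B ⊆ Uhp) (hγB : mob γ '' B ⊆ Q) {m : ℝ} (hm : ∀ z ∈ B, ‖cd γ z‖ ≤ m)
    (G : ℂ → ℝ≥0∞) :
    ∫⁻ z in B, G (mob γ z) ≤ ENNReal.ofReal (m ^ 4) * ∫⁻ w in Q, G w := by
  calc ∫⁻ z in B, G (mob γ z)
      ≤ ∫⁻ z in B, ENNReal.ofReal (m ^ 4) *
          (ENNReal.ofReal (1 / ‖cd γ z‖ ^ 4) * G (mob γ z)) := by
        refine setLIntegral_mono' hB (fun z hz => ?_)
        have hpos : 0 < ‖cd γ z‖ := norm_pos_iff.mpr (per_cd_ne_zero γ (hBU hz))
        have h4 : ‖cd γ z‖ ^ 4 ≤ m ^ 4 := pow_le_pow_left₀ hpos.le (hm z hz) 4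
        have h1 : (1 : ℝ) ≤ m ^ 4 * (1 / ‖cd γ z‖ ^ 4) := by
          rw [mul_one_div, le_div_iff₀ (by positivity)]
          linarith
        rw [← mul_assoc, ← ENNReal.ofReal_mul (by positivity)]
        calc G (mob γ z) = 1 * G (mob γ z) := (one_mul _).symm
          _ ≤ ENNReal.ofReal (m ^ 4 * (1 / ‖cd γ z‖ ^ 4)) * G (mob γ z) := by
              gcongr
              rw [← ENNReal.ofReal_one]
              exact ENNReal.ofReal_le_ofReal h1
    _ = ENNReal.ofReal (m ^ 4) * ∫⁻ w in mob γ '' B, G w := by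
        rw [lintegral_const_mul' _ _ ENNReal.ofReal_ne_top, per_lintegral_mob γ hB hBU]
    _ ≤ ENNReal.ofReal (m ^ 4) * ∫⁻ w in Q, G w := by
        gcongr

/-! ### The Dirichlet energy -/

theorem per_continuousOn_dz {u : ℂ → ℝ} (hu : ContDiffOn ℝ 1 u Uhp) :
    ContinuousOn (dz u) Uhp := by
  unfold dz
  exact (Complex.continuous_ofReal.comp_continuousOn (per_continuousOn_fderiv hu 1)).sub
    (continuousOn_const.mul
      (Complex.continuous_ofReal.comp_continuousOn (per_continuousOn_fderiv hu Complex.I)))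

theorem per_norm_dz_sq (u : ℂ → ℝ) (z : ℂ) :
    ‖dz u z‖ ^ 2 = (fderiv ℝ u z 1) ^ 2 + (fderiv ℝ u z Complex.I) ^ 2 := by
  rw [Complex.sq_norm, Complex.normSq_apply]
  simp [dz]
  ring

/-- **Claim F**. -/
theorem per_energy {u : ℂ → ℝ} (hu : ContDiffOn ℝ 1 u Uhp) {a₁ b₁ a₂ b₂ : ℝ} (ha₂ : 0 < a₂) :
    (∫⁻ z in Icc a₁ b₁ ×ℂ Icc a₂ b₂, per_fx u z) + ∫⁻ z in Icc a₁ b₁ ×ℂ Icc a₂ b₂, per_fy u z
      = ENNReal.ofReal (∫ z in Icc a₁ b₁ ×ℂ Icc a₂ b₂, ‖dz u z‖ ^ 2) := by
  have hQc : IsCompact (Icc a₁ b₁ ×ℂ Icc a₂ b₂) := isCompact_Icc.reProdIm isCompact_Icc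
  have hint : IntegrableOn (fun z => ‖dz u z‖ ^ 2) (Icc a₁ b₁ ×ℂ Icc a₂ b₂) volume := by
    apply ContinuousOn.integrableOn_compact hQc
    exact (((per_continuousOn_dz hu).mono (per_rect_subset_Uhp ha₂)).norm).pow 2
  rw [ofReal_integral_eq_lintegral_ofReal hint (Eventually.of_forall (fun z => sq_nonneg _)),
    ← lintegral_add_left (per_measurable_fx u)]
  refine lintegral_congr (fun z => ?_)
  rw [per_norm_dz_sq, ENNReal.ofReal_add (sq_nonneg _) (sq_nonneg _)]
  rfl

/-- **Key estimate**: the period is controlled by the Dirichlet energy on a rectangle. -/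
theorem per_key {u : ℂ → ℝ} (hu : ContDiffOn ℝ 1 u Uhp) (γ : SL(2, ℤ)) (d : ℝ)
    (hd : ∀ z : ℍ, u ↑(γ • z) = u ↑z + d)
    {a₁ b₁ a₂ b₂ : ℝ} (ha₂ : 0 < a₂)
    {B : Set ℂ} (hB : MeasurableSet B) (hBQ : B ⊆ Icc a₁ b₁ ×ℂ Icc a₂ b₂)
    (hγB : mob γ '' B ⊆ Icc a₁ b₁ ×ℂ Icc a₂ b₂) {m : ℝ} (hm : ∀ z ∈ B, ‖cd γ z‖ ≤ m) :
    ENNReal.ofReal (d ^ 2) * ENNReal.ofReal (b₁ - a₁) * volume B ≤
      (4 * ENNReal.ofReal (b₁ - a₁) ^ 3 * (ENNReal.ofReal (m ^ 4) + 1)
        + 8 * ENNReal.ofReal (b₂ - a₂) * volume B) *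
      ENNReal.ofReal (∫ z in Icc a₁ b₁ ×ℂ Icc a₂ b₂, ‖dz u z‖ ^ 2) := by
  have hBU : B ⊆ Uhp := hBQ.trans (per_rect_subset_Uhp ha₂)
  have hD := per_claimD hu γ d hd ha₂ hB hBQ hγB
  have hE3 := per_lintegral_comp_mob_le γ hB hBU hγB hm (fun z => per_g u a₁ b₁ z.im)
  have hE4 : ∫⁻ z in B, per_g u a₁ b₁ z.im ≤
      ∫⁻ z in Icc a₁ b₁ ×ℂ Icc a₂ b₂, per_g u a₁ b₁ z.im := lintegral_mono_set hBQ
  rw [per_lintegral_G] at hE3 hE4
  rw [← per_energy hu ha₂]
  set Ex := ∫⁻ z in Icc a₁ b₁ ×ℂ Icc a₂ b₂, per_fx u z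
  set Ey := ∫⁻ z in Icc a₁ b₁ ×ℂ Icc a₂ b₂, per_fy u z
  set L₁ := ENNReal.ofReal (b₁ - a₁)
  set L₂ := ENNReal.ofReal (b₂ - a₂)
  set M := ENNReal.ofReal (m ^ 4)
  calc ENNReal.ofReal (d ^ 2) * L₁ * volume B
      ≤ 4 * L₁ ^ 2 * ((∫⁻ z in B, per_g u a₁ b₁ (mob γ z).im)
          + ∫⁻ z in B, per_g u a₁ b₁ z.im) + 8 * (L₂ * Ey) * volume B := hD
    _ ≤ 4 * L₁ ^ 2 * (M * (L₁ * Ex) + L₁ * Ex) + 8 * (L₂ * Ey) * volume B := by
        gcongr
    _ = 4 * L₁ ^ 3 * (M + 1) * Ex + 8 * L₂ * volume B * Ey := by ring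
    _ ≤ 4 * L₁ ^ 3 * (M + 1) * (Ex + Ey) + 8 * L₂ * volume B * (Ex + Ey) := by
        gcongr
        · exact le_self_add
        · exact le_add_self
    _ = _ := by ring

/-! ### The theorem -/

theorem per_volume_unit_square : volume (Icc (0 : ℝ) 1 ×ℂ Icc (1 : ℝ) 2) = 1 := by
  rw [← setLIntegral_one, per_lintegral_rect _ measurable_const]
  simp only [setLIntegral_const, Real.volume_Icc, one_mul]
  norm_num

/-- **Per**: if the gradients tend to `0` in `L²_loc` then the common period is `0`. -/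
theorem period_eq_zero_of_tendsto (v : ℕ → ℂ → ℝ) (hv : ∀ n, ContDiffOn ℝ 1 (v n) Uhp)
    (hconv : ∀ K : Set ℂ, IsCompact K → K ⊆ Uhp →
      Tendsto (fun n => ∫ z in K, ‖dz (v n) z‖ ^ 2) atTop (𝓝 0))
    (γ : SL(2, ℤ)) (d : ℝ) (hd : ∀ n (z : ℍ), v n ↑(γ • z) = v n ↑z + d) : d = 0 := by
  -- the unit square `B` and its image
  have hBc : IsCompact (Icc (0 : ℝ) 1 ×ℂ Icc (1 : ℝ) 2) := isCompact_Icc.reProdIm isCompact_Icc
  have hBU : Icc (0 : ℝ) 1 ×ℂ Icc (1 : ℝ) 2 ⊆ Uhp := per_rect_subset_Uhp one_pos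
  have hBm : MeasurableSet (Icc (0 : ℝ) 1 ×ℂ Icc (1 : ℝ) 2) := hBc.measurableSet
  have hγBc : IsCompact (mob γ '' (Icc (0 : ℝ) 1 ×ℂ Icc (1 : ℝ) 2)) :=
    hBc.image_of_continuousOn ((per_continuousOn_mob γ).mono hBU)
  have hKc := hBc.union hγBc
  have hKU : (Icc (0 : ℝ) 1 ×ℂ Icc (1 : ℝ) 2) ∪ mob γ '' (Icc (0 : ℝ) 1 ×ℂ Icc (1 : ℝ) 2) ⊆ Uhp :=
    union_subset hBU (by rintro _ ⟨z, -, rfl⟩; exact per_mob_mem_Uhp γ z)
  have hi : per_pt 0 1 ∈ Icc (0 : ℝ) 1 ×ℂ Icc (1 : ℝ) 2 :=
    ⟨⟨le_rfl, zero_le_one⟩, ⟨le_rfl, one_le_two⟩⟩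
  -- a rectangle `Q` containing both
  obtain ⟨R, hR⟩ := hKc.isBounded.exists_norm_le
  obtain ⟨z₀, hz₀, hmin⟩ := hKc.exists_isMinOn ⟨per_pt 0 1, Or.inl hi⟩
    Complex.continuous_im.continuousOn
  have hε : 0 < z₀.im := hKU hz₀
  have hKQ : (Icc (0 : ℝ) 1 ×ℂ Icc (1 : ℝ) 2) ∪ mob γ '' (Icc (0 : ℝ) 1 ×ℂ Icc (1 : ℝ) 2) ⊆
      Icc (-R) R ×ℂ Icc z₀.im R := by
    intro z hz
    have h1 := hR z hz
    have h2 : |z.re| ≤ ‖z‖ := Complex.abs_re_le_norm z
    have h3 : |z.im| ≤ ‖z‖ := Complex.abs_im_le_norm z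
    refine ⟨⟨?_, ?_⟩, ⟨hmin hz, ?_⟩⟩
    · linarith [neg_abs_le z.re]
    · linarith [le_abs_self z.re]
    · linarith [le_abs_self z.im]
  have hRpos : 0 < R := by
    have h1 := hR _ (Or.inl hi)
    have h3 : |(per_pt 0 1).im| ≤ ‖per_pt 0 1‖ := Complex.abs_im_le_norm _
    rw [per_pt_im, abs_one] at h3
    linarith
  have hQc : IsCompact (Icc (-R) R ×ℂ Icc z₀.im R) := isCompact_Icc.reProdIm isCompact_Icc
  have hQU : Icc (-R) R ×ℂ Icc z₀.im R ⊆ Uhp := per_rect_subset_Uhp hε
  -- bound for the automorphy factor on `B`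
  have hm : ∀ z ∈ Icc (0 : ℝ) 1 ×ℂ Icc (1 : ℝ) 2,
      ‖cd γ z‖ ≤ ‖((γ 1 0 : ℤ) : ℂ)‖ * R + ‖((γ 1 1 : ℤ) : ℂ)‖ := by
    intro z hz
    unfold cd
    refine (norm_add_le _ _).trans ?_
    rw [norm_mul]
    gcongr
    exact hR z (Or.inl hz)
  -- the key estimate for every `n`
  have key := fun n => per_key (hv n) γ d (hd n) hε hBm (subset_union_left.trans hKQ)
    (subset_union_right.trans hKQ) hm
  rw [per_volume_unit_square] at key
  set C : ℝ≥0∞ := 4 * ENNReal.ofReal (R - -R) ^ 3 *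
      (ENNReal.ofReal ((‖((γ 1 0 : ℤ) : ℂ)‖ * R + ‖((γ 1 1 : ℤ) : ℂ)‖) ^ 4) + 1)
      + 8 * ENNReal.ofReal (R - z₀.im) * 1 with hCdef
  have hC : C ≠ ⊤ := by
    rw [hCdef]
    refine ENNReal.add_ne_top.mpr ⟨?_, ?_⟩
    · refine ENNReal.mul_ne_top (ENNReal.mul_ne_top (by simp) (by simp)) ?_
      exact ENNReal.add_ne_top.mpr ⟨ENNReal.ofReal_ne_top, ENNReal.one_ne_top⟩
    · exact ENNReal.mul_ne_top (ENNReal.mul_ne_top (by simp) ENNReal.ofReal_ne_top)
        ENNReal.one_ne_top
  have hlim : Tendsto (fun n => C * ENNReal.ofReal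
      (∫ z in Icc (-R) R ×ℂ Icc z₀.im R, ‖dz (v n) z‖ ^ 2)) atTop (𝓝 (C * ENNReal.ofReal 0)) :=
    ENNReal.Tendsto.const_mul (ENNReal.tendsto_ofReal (hconv _ hQc hQU)) (Or.inr hC)
  have hA := ge_of_tendsto' hlim key
  rw [ENNReal.ofReal_zero, mul_zero, nonpos_iff_eq_zero, mul_one, mul_eq_zero] at hA
  rcases hA with hA | hA
  · have hd2 : d ^ 2 ≤ 0 := ENNReal.ofReal_eq_zero.mp hA
    exact pow_eq_zero_iff (two_ne_zero) |>.mp (le_antisymm hd2 (sq_nonneg d))
  · exfalso
    have : R - -R ≤ 0 := ENNReal.ofReal_eq_zero.mp hA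
    linarith

end Fermat.Agent.S21

end
-- ===== PACK-END S21/Per.lean

-- ===== PACK-BEGIN S21/Section.lean
section


/-!
# S21, piece MS-B: a section `φt : SL(2,ℤ) → ℝ` of a parabolic homomorphism

Pure group theory: for a parabolic homomorphism `φ : Γ₀(N) → ℝ` there is a function `φt` on
`SL(2,ℤ)` which is right-`Γ₀(N)`-equivariant (with cocycle `φ`), left-`T`-invariant and even.
-/

set_option autoImplicit false

open CongruenceSubgroup
open scoped MatrixGroups

namespace Fermat.Agent.S21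

/-- The double coset relation of `⟨T⟩ \ SL(2,ℤ) / Γ₀(N)`. -/
def sectionRel (N : ℕ) (g g' : SL(2, ℤ)) : Prop :=
  ∃ (n : ℤ) (γ : Gamma0 N), g' = ModularGroup.T ^ n * g * (γ : SL(2, ℤ))

theorem sectionRel_refl (N : ℕ) (g : SL(2, ℤ)) : sectionRel N g g :=
  ⟨0, 1, by simp⟩

theorem sectionRel_symm {N : ℕ} {g g' : SL(2, ℤ)} (h : sectionRel N g g') :
    sectionRel N g' g := by
  obtain ⟨n, γ, rfl⟩ := h
  refine ⟨-n, γ⁻¹, ?_⟩
  simp only [Subgroup.coe_inv, zpow_neg]
  group

theorem sectionRel_trans {N : ℕ} {g g' g'' : SL(2, ℤ)} (h : sectionRel N g g')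
    (h' : sectionRel N g' g'') : sectionRel N g g'' := by
  obtain ⟨n, γ, rfl⟩ := h
  obtain ⟨m, γ', rfl⟩ := h'
  refine ⟨m + n, γ * γ', ?_⟩
  simp only [Subgroup.coe_mul, zpow_add]
  group

/-- The setoid of double cosets `⟨T⟩ \ SL(2,ℤ) / Γ₀(N)`. -/
def sectionSetoid (N : ℕ) : Setoid SL(2, ℤ) where
  r := sectionRel N
  iseqv := ⟨sectionRel_refl N, sectionRel_symm, sectionRel_trans⟩

/-- The chosen representative of the double coset of `g`. -/
noncomputable def sectionRep (N : ℕ) (g : SL(2, ℤ)) : SL(2, ℤ) :=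
  @Quotient.out _ (sectionSetoid N) (@Quotient.mk _ (sectionSetoid N) g)

theorem sectionRep_rel (N : ℕ) (g : SL(2, ℤ)) : sectionRel N (sectionRep N g) g :=
  @Quotient.exact _ (sectionSetoid N) _ _ (@Quotient.out_eq _ (sectionSetoid N) _)

theorem sectionRep_eq_of_rel {N : ℕ} {g g' : SL(2, ℤ)} (h : sectionRel N g g') :
    sectionRep N g = sectionRep N g' := by
  unfold sectionRep
  rw [@Quotient.sound _ (sectionSetoid N) g g' h]

/-- The trace of a conjugate of a power of `T` is `2`. -/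
theorem section_trace_conj_T_zpow (r : SL(2, ℤ)) (k : ℤ) :
    ((r⁻¹ * ModularGroup.T ^ k * r : SL(2, ℤ)) : Matrix (Fin 2) (Fin 2) ℤ).trace = 2 := by
  have h1 : ((r⁻¹ * ModularGroup.T ^ k * r : SL(2, ℤ)) : Matrix (Fin 2) (Fin 2) ℤ)
      = (r⁻¹ : SL(2, ℤ)).1 * (ModularGroup.T ^ k : SL(2, ℤ)).1 * r.1 := by
    simp [Matrix.SpecialLinearGroup.coe_mul]
  rw [h1, Matrix.trace_mul_cycle]
  have h2 : r.1 * (r⁻¹ : SL(2, ℤ)).1 = 1 := by
    rw [← Matrix.SpecialLinearGroup.coe_mul, mul_inv_cancel, Matrix.SpecialLinearGroup.coe_one]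
  rw [h2, one_mul]
  show (↑(ModularGroup.T ^ k) : Matrix (Fin 2) (Fin 2) ℤ).trace = 2
  rw [ModularGroup.coe_T_zpow, Matrix.trace_fin_two_of]
  norm_num

/-- Well-definedness of the section: two decompositions with the same representative
give the same `φ`-value. -/
theorem section_wd (N : ℕ) (φ : Additive (Gamma0 N) →+ ℝ)
    (hφ : ModularCurve.Period.IsParabolicHom (Gamma0 N) φ) (r : SL(2, ℤ)) (n m : ℤ)
    (γ γ' : Gamma0 N)
    (h : ModularGroup.T ^ n * r * (γ : SL(2, ℤ)) = ModularGroup.T ^ m * r * (γ' : SL(2, ℤ))) :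
    φ (Additive.ofMul γ) = φ (Additive.ofMul γ') := by
  -- γ' * γ⁻¹ = r⁻¹ * T ^ (n - m) * r
  have key : ((γ' * γ⁻¹ : Gamma0 N) : SL(2, ℤ)) = r⁻¹ * ModularGroup.T ^ (n - m) * r := by
    have h' : (γ' : SL(2, ℤ)) = (ModularGroup.T ^ m * r)⁻¹
        * (ModularGroup.T ^ n * r * (γ : SL(2, ℤ))) := by
      rw [h]; group
    rw [Subgroup.coe_mul, Subgroup.coe_inv, h', zpow_sub]
    group
  have htr : (((γ' * γ⁻¹ : Gamma0 N) : SL(2, ℤ)) : Matrix (Fin 2) (Fin 2) ℤ).trace ^ 2 = 4 := by
    rw [key, section_trace_conj_T_zpow]; norm_num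
  have h0 := hφ (γ' * γ⁻¹) htr
  have h1 : φ (Additive.ofMul (γ' * γ⁻¹)) = φ (Additive.ofMul γ') - φ (Additive.ofMul γ) := by
    rw [ofMul_mul, ofMul_inv, map_add, map_neg, sub_eq_add_neg]
  rw [h1] at h0
  linarith

/-- The section value: `φ γ` for any decomposition `g = T ^ n * rep g * γ`. -/
noncomputable def sectionVal (N : ℕ) (φ : Additive (Gamma0 N) →+ ℝ) (g : SL(2, ℤ)) : ℝ :=
  φ (Additive.ofMul (sectionRep_rel N g).choose_spec.choose)

theorem sectionVal_spec (N : ℕ) (g : SL(2, ℤ)) :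
    g = ModularGroup.T ^ (sectionRep_rel N g).choose * sectionRep N g
      * (((sectionRep_rel N g).choose_spec.choose : Gamma0 N) : SL(2, ℤ)) :=
  (sectionRep_rel N g).choose_spec.choose_spec

theorem sectionVal_eq (N : ℕ) (φ : Additive (Gamma0 N) →+ ℝ)
    (hφ : ModularCurve.Period.IsParabolicHom (Gamma0 N) φ) (g : SL(2, ℤ)) (n : ℤ)
    (γ : Gamma0 N) (h : g = ModularGroup.T ^ n * sectionRep N g * (γ : SL(2, ℤ))) :
    sectionVal N φ g = φ (Additive.ofMul γ) := by
  unfold sectionVal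
  refine section_wd N φ hφ (sectionRep N g) (sectionRep_rel N g).choose n
    (sectionRep_rel N g).choose_spec.choose γ ?_
  rw [← sectionVal_spec N g, ← h]

/-- **MS-B**: a section of a parabolic homomorphism on `SL(2,ℤ)`. -/
theorem exists_section (N : ℕ) [NeZero N] (φ : Additive (Gamma0 N) →+ ℝ)
    (hφ : ModularCurve.Period.IsParabolicHom (Gamma0 N) φ) :
    ∃ φt : SL(2, ℤ) → ℝ,
      (∀ (g : SL(2, ℤ)) (γ : Gamma0 N),
          φt (g * (γ : SL(2, ℤ))) = φt g + φ (Additive.ofMul γ)) ∧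
      (∀ g : SL(2, ℤ), φt (ModularGroup.T * g) = φt g) ∧
      (∀ g : SL(2, ℤ), φt (-g) = φt g) := by
  have hmul : ∀ (g : SL(2, ℤ)) (γ : Gamma0 N),
      sectionVal N φ (g * (γ : SL(2, ℤ))) = sectionVal N φ g + φ (Additive.ofMul γ) := by
    intro g γ
    have hrel : sectionRel N g (g * (γ : SL(2, ℤ))) := ⟨0, γ, by simp⟩
    have hrep : sectionRep N g = sectionRep N (g * (γ : SL(2, ℤ))) := sectionRep_eq_of_rel hrel
    set n := (sectionRep_rel N g).choose
    set γ₀ := (sectionRep_rel N g).choose_spec.choose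
    have hg : g = ModularGroup.T ^ n * sectionRep N g * ((γ₀ : Gamma0 N) : SL(2, ℤ)) :=
      sectionVal_spec N g
    have h1 : g * (γ : SL(2, ℤ)) = ModularGroup.T ^ n * sectionRep N (g * (γ : SL(2, ℤ)))
        * (((γ₀ * γ : Gamma0 N)) : SL(2, ℤ)) := by
      rw [← hrep, Subgroup.coe_mul, ← mul_assoc, ← hg]
    rw [sectionVal_eq N φ hφ _ n (γ₀ * γ) h1, ofMul_mul, map_add]
    rfl
  refine ⟨sectionVal N φ, hmul, ?_, ?_⟩
  · intro g
    have hrel : sectionRel N g (ModularGroup.T * g) := ⟨1, 1, by simp⟩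
    have hrep : sectionRep N g = sectionRep N (ModularGroup.T * g) := sectionRep_eq_of_rel hrel
    set n := (sectionRep_rel N g).choose
    set γ₀ := (sectionRep_rel N g).choose_spec.choose
    have hg : g = ModularGroup.T ^ n * sectionRep N g * ((γ₀ : Gamma0 N) : SL(2, ℤ)) :=
      sectionVal_spec N g
    have h1 : ModularGroup.T * g = ModularGroup.T ^ (1 + n) * sectionRep N (ModularGroup.T * g)
        * ((γ₀ : Gamma0 N) : SL(2, ℤ)) := by
      rw [← hrep, zpow_add, zpow_one, mul_assoc, mul_assoc, ← mul_assoc (ModularGroup.T ^ n),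
        ← hg]
    rw [sectionVal_eq N φ hφ _ (1 + n) γ₀ h1]
    rfl
  · intro g
    have hneg : (-1 : SL(2, ℤ)) ∈ Gamma0 N := by
      rw [Gamma0_mem]
      simp
    have h := hmul g ⟨-1, hneg⟩
    have h2 : g * ((⟨-1, hneg⟩ : Gamma0 N) : SL(2, ℤ)) = -g := by
      simp
    rw [h2] at h
    rw [h]
    have htr : ((((⟨-1, hneg⟩ : Gamma0 N)) : SL(2, ℤ)) : Matrix (Fin 2) (Fin 2) ℤ).trace ^ 2
        = 4 := by
      simp
    rw [hφ ⟨-1, hneg⟩ htr, add_zero]

end Fermat.Agent.S21

end
-- ===== PACK-END S21/Section.lean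

-- ===== PACK-BEGIN S23/LevelOne.lean
section



/-!
# S23 helper: structure of level-one modular forms

* `qE4`, `qE6` : integral `q`-expansions of `E₄`, `E₆`.
* `levelOne_qExpansion_mem_span` : the `q`-expansion of every level-one modular form of
  weight `k` is a `ℂ`-linear combination of the integral monomials `qE4 ^ a * qE6 ^ b`
  with `4 a + 6 b = k`.
* `exists_levelOne_of_mem_span` : conversely every such combination is the `q`-expansion of
  a level-one form of weight `k`.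
* `levelOne_transport` : transport of level-one forms along an arbitrary additive map
  `ρ : ℂ →+ ℂ` applied coefficientwise.
* `levelOne_bounded_denominators` : a level-one form with rational `q`-expansion has
  bounded denominators.
-/

set_option autoImplicit false

namespace Fermat.Agent.S23.LevelOne

open ModularForm ModularFormClass EisensteinSeries UpperHalfPlane MatrixGroups

noncomputable section

/-- The integral `q`-expansion of `E₄`. -/
def qE4 : PowerSeries ℤ :=
  PowerSeries.mk fun m => if m = 0 then 1 else 240 * (ArithmeticFunction.sigma 3 m : ℤ)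

/-- The integral `q`-expansion of `E₆`. -/
def qE6 : PowerSeries ℤ :=
  PowerSeries.mk fun m => if m = 0 then 1 else -504 * (ArithmeticFunction.sigma 5 m : ℤ)

theorem qExpansion_E4 : qExpansion 1 E₄ = qE4.map (Int.castRingHom ℂ) := by
  ext m
  rw [E_qExpansion_coeff _ ⟨2, rfl⟩]
  simp only [qE4, PowerSeries.coeff_map, PowerSeries.coeff_mk]
  split_ifs with h
  · simp
  · norm_num [show bernoulli 4 = -1 / 30 by decide +kernel]

theorem qExpansion_E6 : qExpansion 1 E₆ = qE6.map (Int.castRingHom ℂ) := by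
  ext m
  rw [E_qExpansion_coeff _ ⟨3, rfl⟩]
  simp only [qE6, PowerSeries.coeff_map, PowerSeries.coeff_mk]
  split_ifs with h
  · simp
  · norm_num [show bernoulli 6 = 1 / 42 by decide +kernel]

/-- The integral monomial `qE4 ^ a * qE6 ^ b`. -/
def qMono (a b : ℕ) : PowerSeries ℤ := qE4 ^ a * qE6 ^ b

/-- The monomial `q`-expansions of weight `k`. -/
def monoSet (k : ℤ) : Set (PowerSeries ℂ) :=
  {P | ∃ a b : ℕ, (4 * (a : ℤ) + 6 * (b : ℤ)) = k ∧ P = (qMono a b).map (Int.castRingHom ℂ)}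

/-- The monomial `E₄ ^ a * E₆ ^ b` as a level one modular form. -/
def monoForm (a b : ℕ) : ModularForm 𝒮ℒ (4 * (a : ℤ) + 6 * (b : ℤ)) :=
  ModularForm.mcast (by ring) ((E₄.pow a).mul (E₆.pow b))

theorem monoForm_apply (a b : ℕ) (z : ℍ) : monoForm a b z = E₄ z ^ a * E₆ z ^ b := by
  simp [monoForm]

theorem qExpansion_monoForm (a b : ℕ) :
    qExpansion 1 (monoForm a b) = (qMono a b).map (Int.castRingHom ℂ) := by
  rw [monoForm, ModularForm.qExpansion_mcast,
    ModularForm.qExpansion_mul one_pos one_mem_strictPeriods_SL,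
    ModularForm.qExpansion_pow one_pos one_mem_strictPeriods_SL,
    ModularForm.qExpansion_pow one_pos one_mem_strictPeriods_SL,
    qExpansion_E4, qExpansion_E6, qMono]
  simp


theorem qExpansion_discriminant_eq :
    qExpansion 1 ModularForm.discriminant =
      (1 / 1728 : ℂ) • ((qMono 3 0).map (Int.castRingHom ℂ) - (qMono 0 2).map (Int.castRingHom ℂ)) := by
  have h : (ModularForm.discriminant : ℍ → ℂ) =
      ((1 / 1728 : ℂ) • (ModularForm.mcast (by norm_num) (monoForm 3 0) -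
        ModularForm.mcast (by norm_num) (monoForm 0 2) : ModularForm 𝒮ℒ 12) : ModularForm 𝒮ℒ 12) := by
    ext z
    simp only [FunLike.coe_smul, FunLike.coe_sub, coe_mcast, Pi.smul_apply, Pi.sub_apply,
      smul_eq_mul, monoForm_apply]
    rw [discriminant_eq_E₄_cube_sub_E₆_sq z]
    ring
  rw [h, FunLike.coe_smul, ModularForm.qExpansion_smul one_pos one_mem_strictPeriods_SL,
    FunLike.coe_sub, ModularForm.qExpansion_sub one_pos one_mem_strictPeriods_SL,
    ModularForm.qExpansion_mcast, ModularForm.qExpansion_mcast, qExpansion_monoForm,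
    qExpansion_monoForm]

/-- `Δ * monomial` is a combination of monomials. -/
theorem discriminant_mul_mem_span (k : ℤ) (P : PowerSeries ℂ)
    (hP : P ∈ Submodule.span ℂ (monoSet (k - 12))) :
    qExpansion 1 ModularForm.discriminant * P ∈ Submodule.span ℂ (monoSet k) := by
  induction hP using Submodule.span_induction with
  | mem x hx =>
    obtain ⟨a, b, hab, rfl⟩ := hx
    rw [qExpansion_discriminant_eq]
    have h1 : (qMono 3 0).map (Int.castRingHom ℂ) * (qMono a b).map (Int.castRingHom ℂ) =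
        (qMono (a + 3) b).map (Int.castRingHom ℂ) := by
      rw [← map_mul]; congr 1; simp only [qMono]; ring
    have h2 : (qMono 0 2).map (Int.castRingHom ℂ) * (qMono a b).map (Int.castRingHom ℂ) =
        (qMono a (b + 2)).map (Int.castRingHom ℂ) := by
      rw [← map_mul]; congr 1; simp only [qMono]; ring
    rw [smul_mul_assoc, sub_mul, h1, h2]
    refine Submodule.smul_mem _ _ (Submodule.sub_mem _ ?_ ?_)
    · exact Submodule.subset_span ⟨a + 3, b, by push_cast; linarith, rfl⟩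
    · exact Submodule.subset_span ⟨a, b + 2, by push_cast; linarith, rfl⟩
  | zero => simp
  | add x y _ _ hx hy => rw [mul_add]; exact Submodule.add_mem _ hx hy
  | smul c x _ hx => rw [mul_smul_comm]; exact Submodule.smul_mem _ _ hx



theorem constantCoeff_qE4 : PowerSeries.constantCoeff qE4 = 1 := by
  simp [qE4]

theorem constantCoeff_qE6 : PowerSeries.constantCoeff qE6 = 1 := by
  simp [qE6]

theorem constantCoeff_qMono (a b : ℕ) : PowerSeries.constantCoeff (qMono a b) = 1 := by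
  simp [qMono, constantCoeff_qE4, constantCoeff_qE6]

theorem exists_weight_decomp (k : ℤ) (hk : 4 ≤ k) (hev : Even k) :
    ∃ a b : ℕ, 4 * (a : ℤ) + 6 * (b : ℤ) = k := by
  obtain ⟨m, hm⟩ := hev
  rcases Int.even_or_odd m with ⟨n, hn⟩ | ⟨n, hn⟩
  · refine ⟨n.toNat, 0, ?_⟩
    have : 0 ≤ n := by omega
    rw [Int.toNat_of_nonneg this]; omega
  · refine ⟨(n - 1).toNat, 1, ?_⟩
    have : 0 ≤ n - 1 := by omega
    rw [Int.toNat_of_nonneg this]; omega

theorem levelOne_qExpansion_mem_span_aux (n : ℕ) : ∀ (k : ℤ), k.toNat = n →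
    ∀ f : ModularForm 𝒮ℒ k, qExpansion 1 f ∈ Submodule.span ℂ (monoSet k) := by
  induction n using Nat.strong_induction_on with
  | _ n ih =>
  intro k hk f
  rcases lt_or_ge k 0 with hneg | hnn
  · have : f = 0 := rank_zero_iff_forall_zero.mp (levelOne_neg_weight_rank_zero hneg) f
    rw [this]; simp [qExpansion_zero]
  rcases Int.even_or_odd k with hev | hodd
  swap
  · have : f = 0 := levelOne_odd_weight_eq_zero hodd f
    rw [this]; simp [qExpansion_zero]
  rcases eq_or_lt_of_le hnn with h0 | hpos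
  · subst h0
    obtain ⟨c, hc⟩ := levelOne_weight_zero_const f
    have h1 : (f : ℍ → ℂ) = c • (1 : ℍ → ℂ) := by
      rw [hc]; ext z; simp
    have hq : qExpansion 1 f = c • (1 : PowerSeries ℂ) := by
      rw [h1]
      have := ModularForm.qExpansion_smul one_pos one_mem_strictPeriods_SL c (1 : ModularForm 𝒮ℒ 0)
      have h2 : ((1 : ModularForm 𝒮ℒ 0) : ℍ → ℂ) = 1 := by ext z; simp
      rw [h2] at this
      rw [this, qExpansion_one]
    rw [hq]
    refine Submodule.smul_mem _ _ (Submodule.subset_span ⟨0, 0, by simp, ?_⟩)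
    simp [qMono]
  by_cases h2 : k = 2
  · subst h2
    have : f = 0 := rank_zero_iff_forall_zero.mp levelOne_weight_two_rank_zero f
    rw [this]; simp [qExpansion_zero]
  have hk4 : 4 ≤ k := by
    obtain ⟨m, hm⟩ := hev
    omega
  obtain ⟨a, b, hab⟩ := exists_weight_decomp k hk4 hev
  subst hab
  set c := (qExpansion 1 f).coeff 0 with hc
  set g : ModularForm 𝒮ℒ (4 * (a : ℤ) + 6 * (b : ℤ)) := f - c • monoForm a b with hg
  have hqg : qExpansion 1 g = qExpansion 1 f - c • (qMono a b).map (Int.castRingHom ℂ) := by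
    rw [hg, FunLike.coe_sub, ModularForm.qExpansion_sub one_pos one_mem_strictPeriods_SL,
      FunLike.coe_smul, ModularForm.qExpansion_smul one_pos one_mem_strictPeriods_SL,
      qExpansion_monoForm]
  have hg0 : (qExpansion 1 g).coeff 0 = 0 := by
    rw [hqg]
    have h7 : PowerSeries.constantCoeff ((qMono a b).map (Int.castRingHom ℂ)) = 1 := by
      rw [← PowerSeries.coeff_zero_eq_constantCoeff_apply, PowerSeries.coeff_map,
        PowerSeries.coeff_zero_eq_constantCoeff_apply, constantCoeff_qMono]; simp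
    simp [h7, hc]
  have h3 := qExpansion_eq_qExpansion_discriminant_mul g hg0
  have hh := ih ((4 * (a : ℤ) + 6 * (b : ℤ) - 12).toNat) (by omega) _ rfl
    (CuspForm.discriminantEquiv (toCuspForm g hg0))
  have h4 := discriminant_mul_mem_span _ _ hh
  rw [← h3, hqg] at h4
  have h5 : c • (qMono a b).map (Int.castRingHom ℂ) ∈
      Submodule.span ℂ (monoSet (4 * (a : ℤ) + 6 * (b : ℤ))) :=
    Submodule.smul_mem _ _ (Submodule.subset_span ⟨a, b, rfl, rfl⟩)
  have := Submodule.add_mem _ h4 h5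
  simpa using this

/-- The `q`-expansion of a level-one modular form of weight `k` is a `ℂ`-combination of the
integral monomials `qE4 ^ a * qE6 ^ b`, `4 a + 6 b = k`. -/
theorem levelOne_qExpansion_mem_span (k : ℤ) (f : ModularForm 𝒮ℒ k) :
    qExpansion 1 f ∈ Submodule.span ℂ (monoSet k) :=
  levelOne_qExpansion_mem_span_aux _ k rfl f

/-- Every `ℂ`-combination of monomials of weight `k` is the `q`-expansion of a level-one form. -/
theorem exists_levelOne_of_mem_span (k : ℤ) (P : PowerSeries ℂ)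
    (hP : P ∈ Submodule.span ℂ (monoSet k)) :
    ∃ f : ModularForm 𝒮ℒ k, qExpansion 1 f = P := by
  induction hP using Submodule.span_induction with
  | mem x hx =>
    obtain ⟨a, b, hab, rfl⟩ := hx
    subst hab
    exact ⟨monoForm a b, qExpansion_monoForm a b⟩
  | zero => exact ⟨0, by simp [qExpansion_zero]⟩
  | add x y _ _ hx hy =>
    obtain ⟨f, rfl⟩ := hx
    obtain ⟨g, rfl⟩ := hy
    exact ⟨f + g, by
      rw [FunLike.coe_add, ModularForm.qExpansion_add one_pos one_mem_strictPeriods_SL]⟩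
  | smul c x _ hx =>
    obtain ⟨f, rfl⟩ := hx
    exact ⟨c • f, by
      rw [FunLike.coe_smul, ModularForm.qExpansion_smul one_pos one_mem_strictPeriods_SL]⟩



/-- Coefficientwise application of an additive map to a power series. -/
def mapCoeff (ρ : ℂ →+ ℂ) (P : PowerSeries ℂ) : PowerSeries ℂ :=
  PowerSeries.mk fun n => ρ (P.coeff n)

@[simp] theorem coeff_mapCoeff (ρ : ℂ →+ ℂ) (P : PowerSeries ℂ) (n : ℕ) :
    (mapCoeff ρ P).coeff n = ρ (P.coeff n) := by
  simp [mapCoeff]

theorem mapCoeff_ringHom (σ : ℂ →+* ℂ) (P : PowerSeries ℂ) :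
    mapCoeff σ.toAddMonoidHom P = P.map σ := by
  ext n; simp

theorem mapCoeff_mem_span (k : ℤ) (P : PowerSeries ℂ)
    (hP : P ∈ Submodule.span ℂ (monoSet k)) :
    ∀ ρ : ℂ →+ ℂ, mapCoeff ρ P ∈ Submodule.span ℂ (monoSet k) := by
  induction hP using Submodule.span_induction with
  | mem x hx =>
    intro ρ
    obtain ⟨a, b, hab, rfl⟩ := hx
    have : mapCoeff ρ ((qMono a b).map (Int.castRingHom ℂ)) =
        ρ 1 • (qMono a b).map (Int.castRingHom ℂ) := by
      ext n
      simp only [coeff_mapCoeff, PowerSeries.coeff_map, PowerSeries.coeff_smul, smul_eq_mul,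
        eq_intCast]
      rw [(zsmul_one ((PowerSeries.coeff n) (qMono a b))).symm, map_zsmul]
      simp [mul_comm]
    rw [this]
    exact Submodule.smul_mem _ _ (Submodule.subset_span ⟨a, b, hab, rfl⟩)
  | zero =>
    intro ρ
    have : mapCoeff ρ 0 = 0 := by ext n; simp
    rw [this]; exact Submodule.zero_mem _
  | add x y _ _ hx hy =>
    intro ρ
    have : mapCoeff ρ (x + y) = mapCoeff ρ x + mapCoeff ρ y := by ext n; simp
    rw [this]; exact Submodule.add_mem _ (hx ρ) (hy ρ)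
  | smul c x _ hx =>
    intro ρ
    have : mapCoeff ρ (c • x) = mapCoeff (ρ.comp (AddMonoidHom.mulLeft c)) x := by
      ext n; simp
    rw [this]; exact hx _

/-- Transport of a level-one modular form along an arbitrary additive map `ρ : ℂ →+ ℂ`
applied coefficientwise to the `q`-expansion. -/
theorem levelOne_transport (ρ : ℂ →+ ℂ) (k : ℤ) (f : ModularForm 𝒮ℒ k) :
    ∃ g : ModularForm 𝒮ℒ k, ∀ n, (qExpansion 1 g).coeff n = ρ ((qExpansion 1 f).coeff n) := by
  obtain ⟨g, hg⟩ := exists_levelOne_of_mem_span k _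
    (mapCoeff_mem_span k _ (levelOne_qExpansion_mem_span k f) ρ)
  exact ⟨g, fun n => by rw [hg, coeff_mapCoeff]⟩

/-- Transport of a level-one modular form along a ring endomorphism of `ℂ`. -/
theorem levelOne_transport_ringHom (σ : ℂ →+* ℂ) (k : ℤ) (f : ModularForm 𝒮ℒ k) :
    ∃ g : ModularForm 𝒮ℒ k, qExpansion 1 g = (qExpansion 1 f).map σ := by
  obtain ⟨g, hg⟩ := levelOne_transport σ.toAddMonoidHom k f
  exact ⟨g, by ext n; rw [hg]; simp⟩

/-- Transport of a level-one cusp form along an arbitrary additive map. -/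
theorem levelOne_transport_cusp (ρ : ℂ →+ ℂ) (k : ℤ) (f : CuspForm 𝒮ℒ k) :
    ∃ g : CuspForm 𝒮ℒ k, ∀ n, (qExpansion 1 g).coeff n = ρ ((qExpansion 1 f).coeff n) := by
  obtain ⟨g, hg⟩ := levelOne_transport ρ k (CuspForm.toModularFormₗ f)
  have hcoe : (⇑(CuspForm.toModularFormₗ f) : ℍ → ℂ) = ⇑f := rfl
  rw [hcoe] at hg
  have h0 : (qExpansion 1 f).coeff 0 = 0 :=
    CuspFormClass.qExpansion_coeff_zero f one_pos one_mem_strictPeriods_SL
  have hg0 : (qExpansion 1 g).coeff 0 = 0 := by rw [hg, h0, map_zero]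
  refine ⟨toCuspForm g hg0, fun n => ?_⟩
  have hcoe2 : (⇑(toCuspForm g hg0) : ℍ → ℂ) = ⇑g := rfl
  rw [hcoe2]
  exact hg n

/-- Transport of a level-one cusp form along a ring endomorphism of `ℂ`. -/
theorem levelOne_transport_cusp_ringHom (σ : ℂ →+* ℂ) (k : ℤ) (f : CuspForm 𝒮ℒ k) :
    ∃ g : CuspForm 𝒮ℒ k, qExpansion 1 g = (qExpansion 1 f).map σ := by
  obtain ⟨g, hg⟩ := levelOne_transport_cusp σ.toAddMonoidHom k f
  exact ⟨g, by ext n; rw [hg]; simp⟩

theorem bounded_of_mem_span (k : ℤ) (P : PowerSeries ℂ)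
    (hP : P ∈ Submodule.span ℂ (monoSet k)) :
    ∀ ρ : ℂ →ₗ[ℚ] ℚ, ∃ M : ℕ, M ≠ 0 ∧ ∀ n, ∃ m : ℤ, (M : ℚ) * ρ (P.coeff n) = m := by
  induction hP using Submodule.span_induction with
  | mem x hx =>
    intro ρ
    obtain ⟨a, b, hab, rfl⟩ := hx
    refine ⟨(ρ 1).den, (ρ 1).den_nz, fun n => ⟨(ρ 1).num * (qMono a b).coeff n, ?_⟩⟩
    simp only [PowerSeries.coeff_map, eq_intCast]
    have h1 : ρ (((PowerSeries.coeff n) (qMono a b) : ℤ) : ℂ) =
        ((PowerSeries.coeff n) (qMono a b) : ℤ) * ρ 1 := by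
      rw [(zsmul_one ((PowerSeries.coeff n) (qMono a b))).symm, map_zsmul]
      simp
    rw [h1]
    push_cast
    have h2 : ((ρ 1).den : ℚ) * ρ 1 = (ρ 1).num := Rat.den_mul_eq_num (ρ 1)
    calc ((ρ 1).den : ℚ) * (((PowerSeries.coeff n) (qMono a b) : ℤ) * ρ 1)
        = ((PowerSeries.coeff n) (qMono a b) : ℤ) * (((ρ 1).den : ℚ) * ρ 1) := by ring
      _ = _ := by rw [h2]; ring
  | zero =>
    intro ρ
    exact ⟨1, one_ne_zero, fun n => ⟨0, by simp⟩⟩
  | add x y _ _ hx hy =>
    intro ρ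
    obtain ⟨M₁, hM₁, h₁⟩ := hx ρ
    obtain ⟨M₂, hM₂, h₂⟩ := hy ρ
    refine ⟨M₁ * M₂, Nat.mul_ne_zero hM₁ hM₂, fun n => ?_⟩
    obtain ⟨m₁, hm₁⟩ := h₁ n
    obtain ⟨m₂, hm₂⟩ := h₂ n
    refine ⟨M₂ * m₁ + M₁ * m₂, ?_⟩
    simp only [map_add]
    push_cast
    rw [← hm₁, ← hm₂]; ring
  | smul c x _ hx =>
    intro ρ
    obtain ⟨M, hM, h⟩ := hx (ρ.comp ((LinearMap.mulLeft ℂ c).restrictScalars ℚ))
    exact ⟨M, hM, fun n => by simpa using h n⟩

/-- There is a `ℚ`-linear retraction `ℂ → ℚ`. -/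
theorem exists_rat_retraction : ∃ π : ℂ →ₗ[ℚ] ℚ, ∀ r : ℚ, π (r : ℂ) = r := by
  obtain ⟨π, hπ⟩ := LinearMap.exists_leftInverse_of_injective
    (Algebra.linearMap ℚ ℂ) (by
      rw [LinearMap.ker_eq_bot]
      exact (algebraMap ℚ ℂ).injective)
  refine ⟨π, fun r => ?_⟩
  have := LinearMap.congr_fun hπ r
  simpa using this

/-- A level-one modular form with rational `q`-expansion has bounded denominators. -/
theorem levelOne_bounded_denominators (k : ℤ) (f : ModularForm 𝒮ℒ k)
    (hf : ∀ n, ∃ r : ℚ, (qExpansion 1 f).coeff n = (r : ℂ)) :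
    ∃ M : ℕ, M ≠ 0 ∧ ∀ n, ∃ m : ℤ, (M : ℂ) * (qExpansion 1 f).coeff n = (m : ℂ) := by
  obtain ⟨π, hπ⟩ := exists_rat_retraction
  obtain ⟨M, hM, h⟩ := bounded_of_mem_span k _ (levelOne_qExpansion_mem_span k f) π
  refine ⟨M, hM, fun n => ?_⟩
  obtain ⟨m, hm⟩ := h n
  obtain ⟨r, hr⟩ := hf n
  refine ⟨m, ?_⟩
  rw [hr] at hm ⊢
  rw [hπ] at hm
  exact_mod_cast hm

end

end Fermat.Agent.S23.LevelOne

end
-- ===== PACK-END S23/LevelOne.lean

-- ===== PACK-BEGIN S49/GoingUp.lean
section


set_option autoImplicit false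

namespace Fermat.Agent.S49

/-- (D) going up: a maximal ideal of `ℤ̄` lying over a maximal ideal containing the kernel. -/
theorem exists_maximal_over {A : Type*} [CommRing A] (χ : A →+* integralClosure ℤ ℂ)
    (𝔫 : Ideal A) [𝔫.IsMaximal] (h : RingHom.ker χ ≤ 𝔫) :
    ∃ 𝔪' : Ideal (integralClosure ℤ ℂ), 𝔪'.IsMaximal ∧ ∀ t ∈ 𝔫, χ t ∈ 𝔪' := by
  letI : Algebra A (integralClosure ℤ ℂ) := χ.toAlgebra
  have hint : Algebra.IsIntegral A (integralClosure ℤ ℂ) :=
    ⟨fun x => (Algebra.IsIntegral.isIntegral (R := ℤ) x).tower_top⟩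
  obtain ⟨Q, hQ, hQc⟩ := Ideal.exists_ideal_over_maximal_of_isIntegral 𝔫 h
  refine ⟨Q, hQ, fun t ht => ?_⟩
  have : t ∈ Q.comap (algebraMap A (integralClosure ℤ ℂ)) := hQc ▸ ht
  exact this

end Fermat.Agent.S49

end
-- ===== PACK-END S49/GoingUp.lean

-- ===== PACK-BEGIN S48/H308/AutExtend.lean
section


/-!
# Extending embeddings of number fields to automorphisms of `ℂ`

* `exists_ringEquiv_extending_algEquiv` : every automorphism of `ℚ̄ = algebraicClosure ℚ ℂ` extends
  to a ring automorphism of `ℂ`;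
* `exists_ringEquiv_extending` : every `ℚ`-embedding `τ : K → ℂ` of a subfield `K ⊆ ℂ` algebraic over
  `ℚ` extends to a ring automorphism of `ℂ`.
-/

set_option autoImplicit false
set_option linter.style.haveILetI false

namespace Fermat.Agent.S48.H308

open MvPolynomial

/-- Every automorphism of `ℚ̄ ⊆ ℂ` extends to a ring automorphism of `ℂ`. -/
theorem exists_ringEquiv_extending_algEquiv
    (τ : algebraicClosure ℚ ℂ ≃ₐ[ℚ] algebraicClosure ℚ ℂ) :
    ∃ σ : ℂ ≃+* ℂ, ∀ y : algebraicClosure ℚ ℂ, σ (y : ℂ) = ((τ y : algebraicClosure ℚ ℂ) : ℂ) := by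
  obtain ⟨ι, v, hv⟩ := exists_isTranscendenceBasis' (algebraicClosure ℚ ℂ) ℂ
  let _ := IsAlgClosed.isAlgClosure_of_transcendence_basis v hv
  let e : Algebra.adjoin (algebraicClosure ℚ ℂ) (Set.range v) ≃+*
      Algebra.adjoin (algebraicClosure ℚ ℂ) (Set.range v) :=
    hv.1.aevalEquiv.symm.toRingEquiv.trans
      ((MvPolynomial.mapEquiv ι τ.toRingEquiv).trans hv.1.aevalEquiv.toRingEquiv)
  refine ⟨IsAlgClosure.equivOfEquiv ℂ ℂ e, fun y => ?_⟩
  have hymem : (y : ℂ) ∈ Algebra.adjoin (algebraicClosure ℚ ℂ) (Set.range v) :=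
    Subalgebra.algebraMap_mem _ y
  have hτmem : ((τ y : algebraicClosure ℚ ℂ) : ℂ) ∈
      Algebra.adjoin (algebraicClosure ℚ ℂ) (Set.range v) :=
    Subalgebra.algebraMap_mem _ (τ y)
  have h3 : hv.1.aevalEquiv.symm ⟨(y : ℂ), hymem⟩ = C y := by
    apply hv.1.aevalEquiv.injective
    rw [AlgEquiv.apply_symm_apply]
    ext
    simp
  have h2 : e ⟨(y : ℂ), hymem⟩ = ⟨((τ y : algebraicClosure ℚ ℂ) : ℂ), hτmem⟩ := by
    have : e ⟨(y : ℂ), hymem⟩ = hv.1.aevalEquiv
        ((MvPolynomial.mapEquiv ι τ.toRingEquiv) (hv.1.aevalEquiv.symm ⟨(y : ℂ), hymem⟩)) := rfl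
    rw [this, h3]
    ext
    simp
  have h1 := IsAlgClosure.equivOfEquiv_algebraMap ℂ ℂ e ⟨(y : ℂ), hymem⟩
  rw [h2] at h1
  simpa using h1

/-- Every `ℚ`-embedding into `ℂ` of a subfield of `ℂ` which is algebraic over `ℚ` extends to a ring
automorphism of `ℂ`. -/
theorem exists_ringEquiv_extending (K : IntermediateField ℚ ℂ) [Algebra.IsAlgebraic ℚ K]
    (τ : K →ₐ[ℚ] ℂ) : ∃ σ : ℂ ≃+* ℂ, ∀ x : K, σ (x : ℂ) = τ x := by
  have hK : ∀ x : K, (x : ℂ) ∈ algebraicClosure ℚ ℂ := fun x =>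
    mem_algebraicClosure_iff.mpr
      (IsAlgebraic.algHom K.val (Algebra.IsAlgebraic.isAlgebraic (R := ℚ) x))
  have hτK : ∀ x : K, τ x ∈ algebraicClosure ℚ ℂ := fun x =>
    mem_algebraicClosure_iff.mpr
      (IsAlgebraic.algHom τ (Algebra.IsAlgebraic.isAlgebraic (R := ℚ) x))
  haveI hcl : IsAlgClosure ℚ (algebraicClosure ℚ ℂ) := algebraicClosure.isAlgClosure ℚ ℂ
  haveI : IsAlgClosed (algebraicClosure ℚ ℂ) := hcl.isAlgClosed
  haveI : Normal ℚ (algebraicClosure ℚ ℂ) := IsAlgClosure.normal ℚ _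
  -- the two embeddings of `K` into `ℚ̄`
  let incl : K →ₐ[ℚ] algebraicClosure ℚ ℂ :=
    { toFun := fun x => ⟨(x : ℂ), hK x⟩
      map_one' := rfl
      map_mul' := fun _ _ => rfl
      map_zero' := rfl
      map_add' := fun _ _ => rfl
      commutes' := fun _ => rfl }
  let ϕ : K →ₐ[ℚ] algebraicClosure ℚ ℂ :=
    { toFun := fun x => ⟨τ x, hτK x⟩
      map_one' := Subtype.ext (map_one τ)
      map_mul' := fun x y => Subtype.ext (map_mul τ x y)
      map_zero' := Subtype.ext (map_zero τ)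
      map_add' := fun x y => Subtype.ext (map_add τ x y)
      commutes' := fun r => Subtype.ext (τ.commutes r) }
  letI : Algebra K (algebraicClosure ℚ ℂ) := incl.toRingHom.toAlgebra
  haveI : IsScalarTower ℚ K (algebraicClosure ℚ ℂ) :=
    IsScalarTower.of_algebraMap_eq fun r => (incl.commutes r).symm
  let τ₁ : algebraicClosure ℚ ℂ →ₐ[ℚ] algebraicClosure ℚ ℂ := ϕ.liftNormal (algebraicClosure ℚ ℂ)
  have hτ₁ : ∀ x : K, τ₁ (incl x) = ϕ x := fun x => ϕ.liftNormal_commutes (algebraicClosure ℚ ℂ) x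
  let τ₂ : algebraicClosure ℚ ℂ ≃ₐ[ℚ] algebraicClosure ℚ ℂ :=
    AlgEquiv.ofBijective τ₁ (Algebra.IsAlgebraic.algHom_bijective τ₁)
  obtain ⟨σ, hσ⟩ := exists_ringEquiv_extending_algEquiv τ₂
  refine ⟨σ, fun x => ?_⟩
  have h1 := hσ (incl x)
  have h2 : τ₂ (incl x) = ϕ x := hτ₁ x
  rw [h2] at h1
  exact h1

end Fermat.Agent.S48.H308

end
-- ===== PACK-END S48/H308/AutExtend.lean

-- ===== PACK-BEGIN Lib/Newform/H863/X8Poly.lean
section






/-!
# NEWFORM block X, piece X8 (helper863): the polynomial identities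

The local identity `X^{e'} P~_f P_g = c X^e P_f P~_g` of block X, in each of the possible
shapes of the local Euler factors of two newforms at a prime `q` (`e = v_q(N)`, `e' = v_q(N')`):

* `caseA` (`e ≥ 2`, `e' = 0`) and `caseB` (`e ≥ 2`, `e' = 1`) are impossible;
* `caseC` (`e, e' ≥ 2`) gives `e = e'`;
* `caseD` (`e = 1`, `e' = 0`) gives `a_q(g)² = (q + 1)²`;
* `caseE` (`e = e' = 0`) gives `a_q(f) = a_q(g)`;
* `caseF` (`e = e' = 1`) gives `a_q(f) = a_q(g)`.

Pure algebra in `ℂ[X]`.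
-/

set_option autoImplicit false

open Polynomial

namespace Fermat.Agent.Lib.Newform.H863.X8

/-- Coefficients of an explicit polynomial of degree `≤ 4`. -/
theorem coeff_quartic (c0 c1 c2 c3 c4 : ℂ) (n : ℕ) :
    (C c0 + C c1 * X + C c2 * X ^ 2 + C c3 * X ^ 3 + C c4 * X ^ 4 : ℂ[X]).coeff n =
      if n = 0 then c0 else if n = 1 then c1 else if n = 2 then c2 else if n = 3 then c3
        else if n = 4 then c4 else 0 := by
  simp only [coeff_add, coeff_C_mul, coeff_X_pow, coeff_C, coeff_X]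
  rcases n with _ | _ | _ | _ | _ | n <;> simp

/-- (A) `e ≥ 2`, `e' = 0` is impossible. -/
theorem caseA (q a' c : ℂ) (hq : q ≠ 0) (hq2 : q ^ 2 ≠ 1) (e : ℕ) (he : 2 ≤ e)
    (h : X ^ 0 * X ^ 2 * (1 - C a' * X + C q * X ^ 2)
      = C c * (X ^ e * (1 : ℂ[X]) * (X ^ 2 - C (a' * (q ^ 2)⁻¹) * X + C ((q ^ 3)⁻¹)))) :
    False := by
  have hL : (X ^ 0 * X ^ 2 * (1 - C a' * X + C q * X ^ 2) : ℂ[X])
      = X ^ 2 * (C 1 + C (-a') * X + C q * X ^ 2 + C 0 * X ^ 3 + C 0 * X ^ 4) := by
    simp only [map_neg, map_one, map_zero]; ring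
  have hR : (C c * (X ^ e * (1 : ℂ[X]) * (X ^ 2 - C (a' * (q ^ 2)⁻¹) * X + C ((q ^ 3)⁻¹))) : ℂ[X])
      = X ^ e * (C (c * (q ^ 3)⁻¹) + C (-(c * (a' * (q ^ 2)⁻¹))) * X + C c * X ^ 2 + C 0 * X ^ 3
          + C 0 * X ^ 4) := by
    simp only [map_neg, map_mul, map_zero]; ring
  rw [hL, hR] at h
  have h2 := congrArg (fun p => p.coeff 2) h
  have h4 := congrArg (fun p => p.coeff 4) h
  simp only [coeff_X_pow_mul', coeff_quartic] at h2 h4
  set u := q⁻¹ with hu_def
  have hu : q * u = 1 := mul_inv_cancel₀ hq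
  have h3i : (q ^ 3)⁻¹ = u ^ 3 := by rw [hu_def, inv_pow]
  rcases Nat.eq_or_lt_of_le he with rfl | he'
  · have h2' : (1 : ℂ) = c * (q ^ 3)⁻¹ := by simpa using h2
    have h4' : q = c := by simpa using h4
    rw [h3i] at h2'
    apply hq2
    linear_combination (q ^ 2) * h2' - (q ^ 2 * u ^ 3) * h4' + ((q * u) ^ 2 + q * u + 1) * hu
  · have : ¬ e ≤ 2 := by omega
    simp [this] at h2

/-- (B) `e ≥ 2`, `e' = 1` is impossible. -/
theorem caseB (q ε' c : ℂ) (hq : q ≠ 0) (hq2 : q ^ 2 ≠ 1) (hε : ε' ^ 2 = 1) (e : ℕ)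
    (he : 2 ≤ e)
    (h : X ^ 1 * X ^ 2 * (1 - C ε' * X)
      = C c * (X ^ e * (1 : ℂ[X]) * (X ^ 2 - C (ε' * (q ^ 2)⁻¹) * X))) : False := by
  have hL : (X ^ 1 * X ^ 2 * (1 - C ε' * X) : ℂ[X])
      = X ^ 2 * (C 0 + C 1 * X + C (-ε') * X ^ 2 + C 0 * X ^ 3 + C 0 * X ^ 4) := by
    simp only [map_neg, map_one, map_zero]; ring
  have hR : (C c * (X ^ e * (1 : ℂ[X]) * (X ^ 2 - C (ε' * (q ^ 2)⁻¹) * X)) : ℂ[X])
      = X ^ e * (C 0 + C (-(c * (ε' * (q ^ 2)⁻¹))) * X + C c * X ^ 2 + C 0 * X ^ 3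
          + C 0 * X ^ 4) := by
    simp only [map_neg, map_mul, map_zero]; ring
  rw [hL, hR] at h
  have h3 := congrArg (fun p => p.coeff 3) h
  have h4 := congrArg (fun p => p.coeff 4) h
  simp only [coeff_X_pow_mul', coeff_quartic] at h3 h4
  set u := q⁻¹ with hu_def
  have hu : q * u = 1 := mul_inv_cancel₀ hq
  have h2i : (q ^ 2)⁻¹ = u ^ 2 := by rw [hu_def, inv_pow]
  rcases Nat.eq_or_lt_of_le he with rfl | he'
  · have h3' : (1 : ℂ) = -(c * (ε' * (q ^ 2)⁻¹)) := by simpa using h3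
    have h4' : -ε' = c := by simpa using h4
    rw [h2i] at h3'
    apply hq2
    linear_combination (q ^ 2) * h3' + (q ^ 2 * u ^ 2) * hε + (q ^ 2 * u ^ 2 * ε') * h4'
      + (q * u + 1) * hu
  · rcases Nat.eq_or_lt_of_le he' with rfl | he''
    · have h3' : (1 : ℂ) = 0 := by simpa using h3
      exact one_ne_zero h3'
    · have : ¬ e ≤ 3 := by omega
      simp [this] at h3

/-- (C) `e, e' ≥ 2` gives `e = e'`. -/
theorem caseC (c : ℂ) (hc : c ≠ 0) (e e' : ℕ)
    (h : X ^ e' * X ^ 2 * (1 : ℂ[X]) = C c * (X ^ e * (1 : ℂ[X]) * X ^ 2)) : e = e' := by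
  have h1 := congrArg Polynomial.natDegree h
  rw [mul_one, mul_one, ← pow_add, ← pow_add, natDegree_X_pow, natDegree_C_mul_X_pow _ _ hc]
    at h1
  omega

/-- (D) `e = 1`, `e' = 0` forces `a_q(g)² = (q + 1)²`. -/
theorem caseD (q ε a' c : ℂ) (hq : q ≠ 0) (hq1 : q ≠ 1) (hε : ε ^ 2 = 1)
    (h : X ^ 0 * (X ^ 2 - C (ε * (q ^ 2)⁻¹) * X) * (1 - C a' * X + C q * X ^ 2)
      = C c * (X ^ 1 * (1 - C ε * X) * (X ^ 2 - C (a' * (q ^ 2)⁻¹) * X + C ((q ^ 3)⁻¹)))) :
    a' ^ 2 = (q + 1) ^ 2 := by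
  have hL : (X ^ 0 * (X ^ 2 - C (ε * (q ^ 2)⁻¹) * X) * (1 - C a' * X + C q * X ^ 2) : ℂ[X])
      = (C 0 + C (-(ε * (q ^ 2)⁻¹)) * X + C (1 + ε * (q ^ 2)⁻¹ * a') * X ^ 2
          + C (-a' - ε * (q ^ 2)⁻¹ * q) * X ^ 3 + C q * X ^ 4) := by
    simp only [map_neg, map_one, map_zero, map_mul, map_add, map_sub]; ring
  have hR : (C c * (X ^ 1 * (1 - C ε * X) *
        (X ^ 2 - C (a' * (q ^ 2)⁻¹) * X + C ((q ^ 3)⁻¹))) : ℂ[X])
      = (C 0 + C (c * (q ^ 3)⁻¹) * X + C (c * (-(a' * (q ^ 2)⁻¹) - ε * (q ^ 3)⁻¹)) * X ^ 2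
          + C (c * (1 + ε * (a' * (q ^ 2)⁻¹))) * X ^ 3 + C (-(c * ε)) * X ^ 4) := by
    simp only [map_neg, map_one, map_zero, map_mul, map_add, map_sub]; ring
  rw [hL, hR] at h
  have h2 := congrArg (fun p => p.coeff 2) h
  have h4 := congrArg (fun p => p.coeff 4) h
  simp only [coeff_quartic] at h2 h4
  have h2' : 1 + ε * (q ^ 2)⁻¹ * a' = c * (-(a' * (q ^ 2)⁻¹) - ε * (q ^ 3)⁻¹) := by
    simpa using h2
  have h4' : q = -(c * ε) := by simpa using h4
  set u := q⁻¹ with hu_def
  have hu : q * u = 1 := mul_inv_cancel₀ hq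
  have h2i : (q ^ 2)⁻¹ = u ^ 2 := by rw [hu_def, inv_pow]
  have h3i : (q ^ 3)⁻¹ = u ^ 3 := by rw [hu_def, inv_pow]
  rw [h2i, h3i] at h2'
  have hqu2 : q ^ 2 * u ^ 2 = 1 := by linear_combination (q * u + 1) * hu
  have hqu3 : q ^ 3 * u ^ 3 = 1 := by linear_combination ((q * u) ^ 2 + q * u + 1) * hu
  have hc : c = -(q * ε) := by linear_combination ε * h4' - c * hε
  rw [hc] at h2'
  have E1 : 1 + ε * u ^ 2 * a' = q * ε * a' * u ^ 2 + q * u ^ 3 := by
    linear_combination h2' + (q * u ^ 3) * hε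
  have E2 : q ^ 2 + ε * a' = q * ε * a' + 1 := by
    linear_combination (q ^ 2) * E1 + (-(ε * a') + q * ε * a') * hqu2 + hqu3
  have hq1' : q - 1 ≠ 0 := sub_ne_zero.mpr hq1
  have key : ε * a' = q + 1 := by
    apply mul_left_cancel₀ hq1'
    linear_combination (-1 : ℂ) * E2
  calc a' ^ 2 = (ε * a') ^ 2 := by rw [mul_pow, hε, one_mul]
    _ = (q + 1) ^ 2 := by rw [key]

/-- (E) `e = e' = 0` gives `a_q(f) = a_q(g)`. -/
theorem caseE (q a a' c : ℂ) (hq : q ≠ 0) (hq1 : q ≠ 1)
    (h : X ^ 0 * (X ^ 2 - C (a * (q ^ 2)⁻¹) * X + C ((q ^ 3)⁻¹)) *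
          (1 - C a' * X + C q * X ^ 2)
      = C c * (X ^ 0 * (1 - C a * X + C q * X ^ 2) *
          (X ^ 2 - C (a' * (q ^ 2)⁻¹) * X + C ((q ^ 3)⁻¹)))) :
    a = a' := by
  have hL : (X ^ 0 * (X ^ 2 - C (a * (q ^ 2)⁻¹) * X + C ((q ^ 3)⁻¹)) *
        (1 - C a' * X + C q * X ^ 2) : ℂ[X])
      = (C ((q ^ 3)⁻¹) + C (-(a * (q ^ 2)⁻¹) - (q ^ 3)⁻¹ * a') * X
          + C (1 + a * (q ^ 2)⁻¹ * a' + (q ^ 3)⁻¹ * q) * X ^ 2
          + C (-a' - a * (q ^ 2)⁻¹ * q) * X ^ 3 + C q * X ^ 4) := by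
    simp only [map_neg, map_one, map_zero, map_mul, map_add, map_sub]; ring
  have hR : (C c * (X ^ 0 * (1 - C a * X + C q * X ^ 2) *
          (X ^ 2 - C (a' * (q ^ 2)⁻¹) * X + C ((q ^ 3)⁻¹))) : ℂ[X])
      = (C (c * (q ^ 3)⁻¹) + C (c * (-(a' * (q ^ 2)⁻¹) - (q ^ 3)⁻¹ * a)) * X
          + C (c * (1 + a' * (q ^ 2)⁻¹ * a + (q ^ 3)⁻¹ * q)) * X ^ 2
          + C (c * (-a - a' * (q ^ 2)⁻¹ * q)) * X ^ 3 + C (c * q) * X ^ 4) := by
    simp only [map_neg, map_one, map_zero, map_mul, map_add, map_sub]; ring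
  rw [hL, hR] at h
  have h3 := congrArg (fun p => p.coeff 3) h
  have h4 := congrArg (fun p => p.coeff 4) h
  simp only [coeff_quartic] at h3 h4
  have h3' : -a' - a * (q ^ 2)⁻¹ * q = c * (-a - a' * (q ^ 2)⁻¹ * q) := by simpa using h3
  have h4' : q = c * q := by simpa using h4
  set u := q⁻¹ with hu_def
  have hu : q * u = 1 := mul_inv_cancel₀ hq
  have h2i : (q ^ 2)⁻¹ = u ^ 2 := by rw [hu_def, inv_pow]
  rw [h2i] at h3'
  have hqu2 : q ^ 2 * u ^ 2 = 1 := by linear_combination (q * u + 1) * hu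
  have hc : c = 1 := by
    have := mul_right_cancel₀ hq (show 1 * q = c * q by rw [one_mul]; exact h4')
    exact this.symm
  rw [hc, one_mul] at h3'
  have hq1' : q - 1 ≠ 0 := sub_ne_zero.mpr hq1
  apply mul_left_cancel₀ hq1'
  linear_combination q * h3' + (a - a') * hqu2

/-- (F) `e = e' = 1` gives `a_q(f) = a_q(g)`. -/
theorem caseF (q ε ε' c : ℂ) (hq : q ≠ 0) (hq2 : q ^ 2 ≠ 1)
    (hε : ε ^ 2 = 1) (hε' : ε' ^ 2 = 1)
    (h : X ^ 1 * (X ^ 2 - C (ε * (q ^ 2)⁻¹) * X) * (1 - C ε' * X)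
      = C c * (X ^ 1 * (1 - C ε * X) * (X ^ 2 - C (ε' * (q ^ 2)⁻¹) * X))) :
    ε = ε' := by
  have hL : (X ^ 1 * (X ^ 2 - C (ε * (q ^ 2)⁻¹) * X) * (1 - C ε' * X) : ℂ[X])
      = (C 0 + C 0 * X + C (-(ε * (q ^ 2)⁻¹)) * X ^ 2
          + C (1 + ε * (q ^ 2)⁻¹ * ε') * X ^ 3 + C (-ε') * X ^ 4) := by
    simp only [map_neg, map_one, map_zero, map_mul, map_add, map_sub]; ring
  have hR : (C c * (X ^ 1 * (1 - C ε * X) * (X ^ 2 - C (ε' * (q ^ 2)⁻¹) * X)) : ℂ[X])
      = (C 0 + C 0 * X + C (-(c * (ε' * (q ^ 2)⁻¹))) * X ^ 2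
          + C (c * (1 + ε' * (q ^ 2)⁻¹ * ε)) * X ^ 3 + C (-(c * ε)) * X ^ 4) := by
    simp only [map_neg, map_one, map_zero, map_mul, map_add, map_sub]; ring
  rw [hL, hR] at h
  have h3 := congrArg (fun p => p.coeff 3) h
  have h4 := congrArg (fun p => p.coeff 4) h
  simp only [coeff_quartic] at h3 h4
  have h3' : 1 + ε * (q ^ 2)⁻¹ * ε' = c * (1 + ε' * (q ^ 2)⁻¹ * ε) := by simpa using h3
  have h4' : -ε' = -(c * ε) := by simpa using h4
  set u := q⁻¹ with hu_def
  have hu : q * u = 1 := mul_inv_cancel₀ hq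
  have h2i : (q ^ 2)⁻¹ = u ^ 2 := by rw [hu_def, inv_pow]
  rw [h2i] at h3'
  have hqu2 : q ^ 2 * u ^ 2 = 1 := by linear_combination (q * u + 1) * hu
  rcases sq_eq_one_iff.mp hε with h1 | h1 <;> rcases sq_eq_one_iff.mp hε' with h1' | h1'
  · rw [h1, h1']
  · exfalso
    subst h1 h1'
    have hc : c = -1 := by linear_combination h4'
    subst hc
    apply hq2
    -- `h3' : 1 - u² = -(1 - u²)`
    linear_combination (q ^ 2 / 2) * h3' + hqu2
  · exfalso
    subst h1 h1'
    have hc : c = -1 := by linear_combination (-1 : ℂ) * h4'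
    subst hc
    apply hq2
    linear_combination (q ^ 2 / 2) * h3' + hqu2
  · rw [h1, h1']

end Fermat.Agent.Lib.Newform.H863.X8

end
-- ===== PACK-END Lib/Newform/H863/X8Poly.lean

-- ===== PACK-BEGIN S30/H330/AdicAlg.lean
section
/-
S30 -- ADIC MODULE LAYER, piece 1 (pure algebra).  helper330.

For a complete discrete valuation ring `O` (char 0, residue characteristic `p`, finite residue
field), `L = Frac O`, and an abelian group `J` with finite `p`-torsion, the group
`Hom_ℤ(L/O, J)` with `O` acting through the source is a finite free `O`-module.  Its simultaneous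
eigen-submodule `M` for a family of endomorphisms of `J` inherits a Galois action which is
adically continuous, and relations valid on `J[p^∞]` pass to `M`.
-/



set_option autoImplicit false

noncomputable section

namespace Fermat.Agent.S30.H330

/-! ### `Hom_ℤ(Frac O, J)` as an `O`-module through the source -/

section SrcHom

variable (O : Type) [CommRing O] (J : Type) [AddCommGroup J]

/-- `Hom_ℤ(Frac O, J)`, with `O` acting by multiplication on the source. -/
def SrcHom : Type := FractionRing O →+ J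

namespace SrcHom

variable {O J}

/-- The underlying additive map. -/
def hom (g : SrcHom O J) : FractionRing O →+ J := g

/-- Constructor. -/
def of (g : FractionRing O →+ J) : SrcHom O J := g

@[simp] theorem hom_of (g : FractionRing O →+ J) : (of g : SrcHom O J).hom = g := rfl

@[ext] theorem ext {g h : SrcHom O J} (H : ∀ x, g.hom x = h.hom x) : g = h :=
  AddMonoidHom.ext H

instance : AddCommGroup (SrcHom O J) := inferInstanceAs (AddCommGroup (FractionRing O →+ J))

@[simp] theorem hom_add (g h : SrcHom O J) (x : FractionRing O) :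
    (g + h).hom x = g.hom x + h.hom x := rfl

@[simp] theorem hom_zero (x : FractionRing O) : (0 : SrcHom O J).hom x = 0 := rfl

@[simp] theorem hom_neg (g : SrcHom O J) (x : FractionRing O) : (-g).hom x = -g.hom x := rfl

@[simp] theorem hom_sub (g h : SrcHom O J) (x : FractionRing O) :
    (g - h).hom x = g.hom x - h.hom x := rfl

instance : SMul O (SrcHom O J) :=
  ⟨fun a g => of (g.hom.comp (AddMonoidHom.mulLeft (algebraMap O (FractionRing O) a)))⟩

@[simp] theorem hom_smul (a : O) (g : SrcHom O J) (x : FractionRing O) :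
    (a • g).hom x = g.hom (algebraMap O (FractionRing O) a * x) := rfl

instance : Module O (SrcHom O J) where
  one_smul g := by ext x; simp
  mul_smul a b g := by
    ext x
    simp only [hom_smul, map_mul]
    congr 1
    ring
  smul_zero a := by ext x; simp
  smul_add a g h := by ext x; simp
  add_smul a b g := by ext x; simp [add_mul]
  zero_smul g := by ext x; simp

end SrcHom

end SrcHom

/-! ### Precompleteness of finite powers -/

open Submodule in
/-- Finite powers of a precomplete ring are precomplete. -/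
theorem isPrecomplete_pi {R : Type*} [CommRing R] (I : Ideal R) [IsPrecomplete I R]
    (k : ℕ) : IsPrecomplete I (Fin k → R) := by
  refine ⟨fun f hf => ?_⟩
  have hcomp : ∀ (n : ℕ) (g : Fin k → R), g ∈ (I ^ n • ⊤ : Submodule R (Fin k → R)) →
      ∀ i, g i ∈ (I ^ n • ⊤ : Submodule R R) := by
    intro n g hg i
    refine Submodule.smul_induction_on hg (fun r hr m _ => ?_) (fun x y hx hy => ?_)
    · exact Submodule.smul_mem_smul hr trivial
    · exact Submodule.add_mem _ hx hy
  have hC : ∀ i, ∃ L : R, ∀ n, f n i ≡ L [SMOD (I ^ n • ⊤ : Submodule R R)] := by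
    intro i
    refine IsPrecomplete.prec ‹_› (f := fun n => f n i) ?_
    intro m n hmn
    have := hf hmn
    rw [SModEq.sub_mem] at this ⊢
    exact hcomp m _ this i
  choose L hL using hC
  refine ⟨L, fun n => ?_⟩
  rw [SModEq.sub_mem]
  have hsum : f n - L = ∑ i, (f n i - L i) • (Pi.single i (1 : R) : Fin k → R) := by
    funext j
    simp [Finset.sum_apply, Pi.single_apply]
  rw [hsum]
  refine Submodule.sum_mem _ fun i _ => ?_
  have hi := hL i n
  rw [SModEq.sub_mem] at hi
  have hi' : f n i - L i ∈ I ^ n := by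
    simpa using hi
  exact Submodule.smul_mem_smul hi' trivial

/-! ### The eigen-submodule -/

section Main

variable {O : Type} [CommRing O]
variable {J : Type} [AddCommGroup J]
variable {ι : Type} (t : ι → J →+ J) (a : ι → O)

/-- The simultaneous eigen-submodule of `Hom_ℤ(L/O, J)`. -/
def eigenSub : Submodule O (SrcHom O J) where
  carrier := {g | (∀ r : O, g.hom (algebraMap O (FractionRing O) r) = 0) ∧
    ∀ i x, t i (g.hom x) = g.hom (algebraMap O (FractionRing O) (a i) * x)}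
  add_mem' := by
    rintro g h ⟨g0, ge⟩ ⟨h0, he⟩
    refine ⟨fun r => by simp [g0, h0], fun i x => ?_⟩
    simp only [SrcHom.hom_add, map_add, ge, he]
  zero_mem' := ⟨fun r => rfl, fun i x => by simp⟩
  smul_mem' := by
    rintro c g ⟨g0, ge⟩
    refine ⟨fun r => ?_, fun i x => ?_⟩
    · rw [SrcHom.hom_smul, ← map_mul]; exact g0 _
    · rw [SrcHom.hom_smul, SrcHom.hom_smul, ge]
      congr 1
      ring

theorem mem_eigenSub {g : SrcHom O J} : g ∈ eigenSub t a ↔
    (∀ r : O, g.hom (algebraMap O (FractionRing O) r) = 0) ∧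
    ∀ i x, t i (g.hom x) = g.hom (algebraMap O (FractionRing O) (a i) * x) := Iff.rfl

variable {t a}
variable [IsDomain O] [IsDiscreteValuationRing O]

/-- Every element of `L` is `y / ϖ ^ n`. -/
theorem exists_eq_div_pow {ϖ : O} (hϖ : Irreducible ϖ) (x : FractionRing O) :
    ∃ (n : ℕ) (y : O), x = algebraMap O (FractionRing O) y /
      algebraMap O (FractionRing O) ϖ ^ n := by
  obtain ⟨c, d, hd, rfl⟩ := IsFractionRing.div_surjective O x
  have hd0 : d ≠ 0 := nonZeroDivisors.ne_zero hd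
  obtain ⟨n, u, hu⟩ := IsDiscreteValuationRing.associated_pow_irreducible hd0 hϖ
  refine ⟨n, c * u, ?_⟩
  have hϖ0 : algebraMap O (FractionRing O) ϖ ≠ 0 := by
    simpa using hϖ.ne_zero
  have hd0' : algebraMap O (FractionRing O) d ≠ 0 := by
    simpa using hd0
  rw [div_eq_div_iff hd0' (pow_ne_zero _ hϖ0), ← map_pow, ← hu]
  simp only [map_mul]
  ring

/-- Division lemma: an element of the eigen-submodule killing `ϖ⁻ⁿ O` is divisible by `ϖ ^ n`. -/
theorem exists_eq_pow_smul {ϖ : O} (hϖ : Irreducible ϖ) (n : ℕ) {g : SrcHom O J}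
    (hg : g ∈ eigenSub t a)
    (hkill : ∀ y : O, g.hom (algebraMap O (FractionRing O) y /
      algebraMap O (FractionRing O) ϖ ^ n) = 0) :
    ∃ g' ∈ eigenSub t a, g = ϖ ^ n • g' := by
  have hϖ0 : algebraMap O (FractionRing O) ϖ ≠ 0 := by
    simpa using hϖ.ne_zero
  have hpow : algebraMap O (FractionRing O) ϖ ^ n ≠ 0 := pow_ne_zero _ hϖ0
  refine ⟨SrcHom.of (g.hom.comp (AddMonoidHom.mulLeft ((algebraMap O (FractionRing O) ϖ ^ n)⁻¹))),
    ⟨fun r => ?_, fun i x => ?_⟩, ?_⟩
  · show g.hom ((algebraMap O (FractionRing O) ϖ ^ n)⁻¹ * algebraMap O (FractionRing O) r) = 0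
    rw [mul_comm, ← div_eq_mul_inv]
    exact hkill r
  · show t i (g.hom ((algebraMap O (FractionRing O) ϖ ^ n)⁻¹ * x)) =
      g.hom ((algebraMap O (FractionRing O) ϖ ^ n)⁻¹ * (algebraMap O (FractionRing O) (a i) * x))
    rw [hg.2]
    congr 1
    ring
  · ext x
    show g.hom x = g.hom ((algebraMap O (FractionRing O) ϖ ^ n)⁻¹ *
      (algebraMap O (FractionRing O) (ϖ ^ n) * x))
    congr 1
    rw [map_pow]
    field_simp

end Main

/-! ### Separatedness and torsion-freeness -/

section Finite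

variable {O : Type} [CommRing O] [IsDomain O] [IsDiscreteValuationRing O]
variable {J : Type} [AddCommGroup J]
variable {ι : Type} {t : ι → J →+ J} {a : ι → O}

omit [IsDomain O] [IsDiscreteValuationRing O] in
theorem algebraMap_irreducible_ne_zero {ϖ : O} (hϖ : Irreducible ϖ) :
    algebraMap O (FractionRing O) ϖ ≠ 0 := by
  simpa using hϖ.ne_zero

/-- Elements of `𝔪ⁿ M` kill `ϖ⁻ⁿ O`. -/
theorem kill_of_mem_pow_smul_top {ϖ : O} (hϖ : Irreducible ϖ) (n : ℕ)
    {x : eigenSub t a}
    (hx : x ∈ (IsLocalRing.maximalIdeal O ^ n • ⊤ : Submodule O (eigenSub t a))) (y : O) :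
    x.1.hom (algebraMap O (FractionRing O) y / algebraMap O (FractionRing O) ϖ ^ n) = 0 := by
  have hϖ0 := algebraMap_irreducible_ne_zero hϖ
  revert y
  refine Submodule.smul_induction_on hx (fun r hr m _ y => ?_) (fun u v hu hv y => ?_)
  · rw [hϖ.maximalIdeal_eq, Ideal.span_singleton_pow, Ideal.mem_span_singleton'] at hr
    obtain ⟨b, rfl⟩ := hr
    show (m.1).hom (algebraMap O (FractionRing O) (b * ϖ ^ n) *
      (algebraMap O (FractionRing O) y / algebraMap O (FractionRing O) ϖ ^ n)) = 0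
    have : algebraMap O (FractionRing O) (b * ϖ ^ n) *
        (algebraMap O (FractionRing O) y / algebraMap O (FractionRing O) ϖ ^ n) =
        algebraMap O (FractionRing O) (b * y) := by
      simp only [map_mul, map_pow]
      field_simp
    rw [this]
    exact m.2.1 _
  · show (u.1 + v.1).hom _ = 0
    rw [SrcHom.hom_add, hu y, hv y, add_zero]

/-- Conversely, elements killing `ϖ⁻ⁿ O` lie in `𝔪ⁿ M`. -/
theorem mem_pow_smul_top_of_kill {ϖ : O} (hϖ : Irreducible ϖ) (n : ℕ)
    {x : eigenSub t a}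
    (hx : ∀ y : O, x.1.hom (algebraMap O (FractionRing O) y /
      algebraMap O (FractionRing O) ϖ ^ n) = 0) :
    x ∈ (IsLocalRing.maximalIdeal O ^ n • ⊤ : Submodule O (eigenSub t a)) := by
  obtain ⟨g', hg', hgg'⟩ := exists_eq_pow_smul hϖ n x.2 hx
  have hxe : x = ϖ ^ n • (⟨g', hg'⟩ : eigenSub t a) := Subtype.ext hgg'
  rw [hxe]
  refine Submodule.smul_mem_smul ?_ trivial
  exact Ideal.pow_mem_pow (hϖ.maximalIdeal_eq ▸ Ideal.mem_span_singleton_self ϖ) n

/-- The eigen-submodule is `𝔪`-adically separated. -/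
theorem isHausdorff_eigenSub : IsHausdorff (IsLocalRing.maximalIdeal O) (eigenSub t a) := by
  obtain ⟨ϖ, hϖ⟩ := IsDiscreteValuationRing.exists_irreducible O
  refine ⟨fun x hx => ?_⟩
  apply Subtype.ext
  apply SrcHom.ext
  intro z
  obtain ⟨n, y, rfl⟩ := exists_eq_div_pow hϖ z
  have h := hx n
  rw [SModEq.zero] at h
  exact kill_of_mem_pow_smul_top hϖ n h y

/-- The eigen-submodule is torsion-free. -/
theorem isTorsionFree_eigenSub : Module.IsTorsionFree O (eigenSub t a) := by
  refine ⟨fun r hr x y hxy => ?_⟩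
  have hr0 : r ≠ 0 := hr.ne_zero
  have hr0' : algebraMap O (FractionRing O) r ≠ 0 := by simpa using hr0
  apply Subtype.ext
  apply SrcHom.ext
  intro z
  have h := congrArg (fun w : eigenSub t a => w.1.hom ((algebraMap O (FractionRing O) r)⁻¹ * z)) hxy
  simp only [Submodule.coe_smul, SrcHom.hom_smul] at h
  rwa [mul_inv_cancel_left₀ hr0'] at h

end Finite

/-! ### Finiteness of `M / 𝔪 M` -/

section Finiteness

variable {O : Type} [CommRing O] [IsDomain O] [IsDiscreteValuationRing O]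
variable {J : Type} [AddCommGroup J]
variable {ι : Type} {t : ι → J →+ J} {a : ι → O}

/-- Values on `ϖ⁻ⁿ O` are killed by `pⁿ`. -/
theorem pow_smul_hom_div_eq_zero {p : ℕ} (hpO : (p : O) ∈ IsLocalRing.maximalIdeal O)
    {ϖ : O} (hϖ : Irreducible ϖ) (n : ℕ) {g : SrcHom O J} (hg : g ∈ eigenSub t a) (y : O) :
    p ^ n • g.hom (algebraMap O (FractionRing O) y / algebraMap O (FractionRing O) ϖ ^ n) = 0 := by
  have hϖ0 := algebraMap_irreducible_ne_zero hϖ
  rw [hϖ.maximalIdeal_eq, Ideal.mem_span_singleton'] at hpO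
  obtain ⟨b, hb⟩ := hpO
  rw [← map_nsmul]
  have : p ^ n • (algebraMap O (FractionRing O) y / algebraMap O (FractionRing O) ϖ ^ n) =
      algebraMap O (FractionRing O) (b ^ n * y) := by
    rw [nsmul_eq_mul]
    have hp : ((p ^ n : ℕ) : FractionRing O) = algebraMap O (FractionRing O) ((b * ϖ) ^ n) := by
      rw [hb]; simp
    rw [hp]
    simp only [map_mul, map_pow]
    field_simp
    ring
  rw [this]
  exact hg.1 _

/-- Every value of an element of the eigen-submodule is `p`-power torsion. -/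
theorem exists_pow_smul_hom_eq_zero {p : ℕ} (hpO : (p : O) ∈ IsLocalRing.maximalIdeal O)
    {g : SrcHom O J} (hg : g ∈ eigenSub t a) (z : FractionRing O) :
    ∃ n : ℕ, p ^ n • g.hom z = 0 := by
  obtain ⟨ϖ, hϖ⟩ := IsDiscreteValuationRing.exists_irreducible O
  obtain ⟨n, y, rfl⟩ := exists_eq_div_pow hϖ z
  exact ⟨n, pow_smul_hom_div_eq_zero hpO hϖ n hg y⟩

variable [Finite (IsLocalRing.ResidueField O)]

/-- `M / 𝔪 M` is finite when `J[p]` is. -/
theorem finite_quotient_eigenSub {p : ℕ} (hpO : (p : O) ∈ IsLocalRing.maximalIdeal O)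
    (hfin : {x : J | p • x = 0}.Finite) :
    Finite ((eigenSub t a) ⧸
      (IsLocalRing.maximalIdeal O • ⊤ : Submodule O (eigenSub t a))) := by
  classical
  obtain ⟨ϖ, hϖ⟩ := IsDiscreteValuationRing.exists_irreducible O
  have hϖ0 := algebraMap_irreducible_ne_zero hϖ
  have : Finite {x : J | p • x = 0} := hfin.to_subtype
  -- a section of the residue map
  let sec : IsLocalRing.ResidueField O → O := Function.surjInv IsLocalRing.residue_surjective
  have hsec : ∀ x, IsLocalRing.residue O (sec x) = x :=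
    Function.surjInv_eq IsLocalRing.residue_surjective
  -- the restriction map
  let res : eigenSub t a → (IsLocalRing.ResidueField O → {x : J | p • x = 0}) := fun g x =>
    ⟨g.1.hom (algebraMap O (FractionRing O) (sec x) / algebraMap O (FractionRing O) ϖ ^ 1), by
      have := pow_smul_hom_div_eq_zero hpO hϖ 1 g.2 (sec x)
      simpa using this⟩
  have hres : ∀ g h : eigenSub t a, res g = res h →
      (Submodule.Quotient.mk g : (eigenSub t a) ⧸
        (IsLocalRing.maximalIdeal O • ⊤ : Submodule O (eigenSub t a))) =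
        Submodule.Quotient.mk h := by
    intro g h hgh
    rw [Submodule.Quotient.eq]
    have hpow : (IsLocalRing.maximalIdeal O • ⊤ : Submodule O (eigenSub t a)) =
        (IsLocalRing.maximalIdeal O ^ 1 • ⊤ : Submodule O (eigenSub t a)) := by
      rw [pow_one]
    rw [hpow]
    apply mem_pow_smul_top_of_kill hϖ 1
    intro y
    -- y = sec (residue y) + ϖ z
    have hy : y - sec (IsLocalRing.residue O y) ∈ IsLocalRing.maximalIdeal O := by
      rw [← Ideal.Quotient.eq_zero_iff_mem]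
      change IsLocalRing.residue O (y - sec (IsLocalRing.residue O y)) = 0
      rw [map_sub, hsec, sub_self]
    rw [hϖ.maximalIdeal_eq, Ideal.mem_span_singleton'] at hy
    obtain ⟨z, hz⟩ := hy
    have hyz : algebraMap O (FractionRing O) y / algebraMap O (FractionRing O) ϖ ^ 1 =
        algebraMap O (FractionRing O) (sec (IsLocalRing.residue O y)) /
          algebraMap O (FractionRing O) ϖ ^ 1 + algebraMap O (FractionRing O) z := by
      have : y = sec (IsLocalRing.residue O y) + z * ϖ := by rw [hz]; ring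
      conv_lhs => rw [this]
      simp only [map_add, map_mul, pow_one]
      field_simp
    have hval := congrArg (fun F => (F (IsLocalRing.residue O y) : J)) hgh
    simp only [res] at hval
    show ((g : SrcHom O J) - (h : SrcHom O J)).hom _ = 0
    rw [SrcHom.hom_sub, hyz, map_add, map_add, g.2.1, h.2.1, hval]
    simp
  let F : Set.range res → (eigenSub t a) ⧸
      (IsLocalRing.maximalIdeal O • ⊤ : Submodule O (eigenSub t a)) :=
    fun v => Submodule.Quotient.mk (Classical.choose v.2)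
  refine Finite.of_surjective F ?_
  intro q
  obtain ⟨g, rfl⟩ := Submodule.Quotient.mk_surjective _ q
  refine ⟨⟨res g, g, rfl⟩, ?_⟩
  exact hres _ _ (Classical.choose_spec (⟨g, rfl⟩ : res g ∈ Set.range res))

end Finiteness

/-! ### Finite generation and freeness -/

section FiniteFree

variable {O : Type} [CommRing O] [IsDomain O] [IsDiscreteValuationRing O]
  [IsAdicComplete (IsLocalRing.maximalIdeal O) O] [Finite (IsLocalRing.ResidueField O)]
variable {J : Type} [AddCommGroup J]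
variable {ι : Type} {t : ι → J →+ J} {a : ι → O}

/-- The eigen-submodule is a finitely generated `O`-module. -/
theorem finite_eigenSub {p : ℕ} (hpO : (p : O) ∈ IsLocalRing.maximalIdeal O)
    (hfin : {x : J | p • x = 0}.Finite) : Module.Finite O (eigenSub t a) := by
  classical
  have hq := finite_quotient_eigenSub (t := t) (a := a) hpO hfin
  obtain ⟨k, ⟨e⟩⟩ := Finite.exists_equiv_fin ((eigenSub t a) ⧸
      (IsLocalRing.maximalIdeal O • ⊤ : Submodule O (eigenSub t a)))
  let s : Fin k → eigenSub t a := fun i => Quotient.out (e.symm i)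
  have hs : ∀ i, (Submodule.Quotient.mk (s i) : (eigenSub t a) ⧸
      (IsLocalRing.maximalIdeal O • ⊤ : Submodule O (eigenSub t a))) = e.symm i := fun i =>
    Quotient.out_eq (e.symm i)
  let φ : (Fin k → O) →ₗ[O] eigenSub t a := Fintype.linearCombination O s
  have hsurj : Function.Surjective
      ((IsLocalRing.maximalIdeal O • ⊤ : Submodule O (eigenSub t a)).mkQ ∘ₗ φ) := by
    intro q
    refine ⟨Pi.single (e q) 1, ?_⟩
    simp only [LinearMap.coe_comp, Function.comp_apply, Submodule.mkQ_apply, φ]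
    rw [Fintype.linearCombination_apply_single, one_smul, hs, Equiv.symm_apply_apply]
  have h1 : IsPrecomplete (IsLocalRing.maximalIdeal O) (Fin k → O) :=
    isPrecomplete_pi (IsLocalRing.maximalIdeal O) k
  have h2 : IsHausdorff (IsLocalRing.maximalIdeal O) (eigenSub t a) := isHausdorff_eigenSub
  have := surjective_of_mkQ_comp_surjective (I := IsLocalRing.maximalIdeal O) hsurj
  exact Module.Finite.of_surjective φ this

/-- The eigen-submodule is free. -/
theorem free_eigenSub {p : ℕ} (hpO : (p : O) ∈ IsLocalRing.maximalIdeal O)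
    (hfin : {x : J | p • x = 0}.Finite) : Module.Free O (eigenSub t a) := by
  have h1 : Module.Finite O (eigenSub t a) := finite_eigenSub hpO hfin
  have h2 : Module.IsTorsionFree O (eigenSub t a) := isTorsionFree_eigenSub
  exact Module.free_of_finite_type_torsion_free'

end FiniteFree

/-- Finiteness of `J[pⁿ]` from finiteness of `J[p]`. -/
theorem finite_pow_torsion {J : Type} [AddCommGroup J] {p : ℕ}
    (hfin : {x : J | p • x = 0}.Finite) (n : ℕ) : {x : J | p ^ n • x = 0}.Finite := by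
  induction n with
  | zero =>
    refine (Set.finite_singleton (0 : J)).subset ?_
    intro x hx
    simpa using hx
  | succ n ih =>
    have hsub : {x : J | p ^ (n + 1) • x = 0} ⊆ (fun x : J => p • x) ⁻¹' {x : J | p ^ n • x = 0} := by
      intro x hx
      simp only [Set.mem_preimage, Set.mem_ofPred_eq] at hx ⊢
      rw [← mul_smul, ← pow_succ]
      exact hx
    refine (Set.Finite.preimage' ih fun b _ => ?_).subset hsub
    by_cases hb : ∃ x₀ : J, p • x₀ = b
    · obtain ⟨x₀, hx₀⟩ := hb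
      refine (hfin.image (fun z => x₀ + z)).subset ?_
      intro x hx
      simp only [Set.mem_preimage, Set.mem_singleton_iff] at hx
      refine ⟨x - x₀, ?_, by simp⟩
      simp only [Set.mem_ofPred_eq, smul_sub, hx, hx₀, sub_self]
    · refine Set.Finite.subset Set.finite_empty ?_
      intro x hx
      exact (hb ⟨x, hx⟩).elim

/-! ### The Galois action and the main theorem -/

section Galois

variable {O : Type} [CommRing O]
variable {J : Type} [AddCommGroup J]
variable {G : Type} [Monoid G] [DistribMulAction G J]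
variable {ι : Type} {t : ι → J →+ J} {a : ι → O}

/-- The action of `G` on `Hom_ℤ(L, J)` through the target. -/
def galSrc (σ : G) (g : SrcHom O J) : SrcHom O J :=
  SrcHom.of ((DistribSMul.toAddMonoidHom J σ).comp g.hom)

@[simp] theorem galSrc_hom (σ : G) (g : SrcHom O J) (x : FractionRing O) :
    (galSrc σ g).hom x = σ • g.hom x := rfl

theorem galSrc_mem (ht : ∀ i (σ : G) (x : J), σ • t i x = t i (σ • x)) (σ : G)
    {g : SrcHom O J} (hg : g ∈ eigenSub t a) : galSrc σ g ∈ eigenSub t a := by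
  refine ⟨fun r => ?_, fun i x => ?_⟩
  · rw [galSrc_hom, hg.1, smul_zero]
  · rw [galSrc_hom, galSrc_hom, ← ht, hg.2]

/-- The action of `G` on the eigen-submodule, as `O`-linear endomorphisms. -/
def galEnd (ht : ∀ i (σ : G) (x : J), σ • t i x = t i (σ • x)) (σ : G) :
    Module.End O (eigenSub t a) where
  toFun g := ⟨galSrc σ g.1, galSrc_mem ht σ g.2⟩
  map_add' g h := by
    apply Subtype.ext
    apply SrcHom.ext
    intro x
    simp [smul_add]
  map_smul' c g := by
    apply Subtype.ext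
    apply SrcHom.ext
    intro x
    simp

@[simp] theorem galEnd_hom (ht : ∀ i (σ : G) (x : J), σ • t i x = t i (σ • x)) (σ : G)
    (g : eigenSub t a) (x : FractionRing O) :
    ((galEnd ht σ g : eigenSub t a) : SrcHom O J).hom x = σ • (g : SrcHom O J).hom x := rfl

/-- The representation of `G` on the eigen-submodule. -/
def galRep (ht : ∀ i (σ : G) (x : J), σ • t i x = t i (σ • x)) :
    G →* Module.End O (eigenSub t a) where
  toFun := galEnd ht
  map_one' := by
    apply LinearMap.ext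
    intro g
    apply Subtype.ext
    apply SrcHom.ext
    intro x
    simp
  map_mul' σ τ := by
    apply LinearMap.ext
    intro g
    apply Subtype.ext
    apply SrcHom.ext
    intro x
    simp [mul_smul]

@[simp] theorem galRep_hom (ht : ∀ i (σ : G) (x : J), σ • t i x = t i (σ • x)) (σ : G)
    (g : eigenSub t a) (x : FractionRing O) :
    ((galRep ht σ g : eigenSub t a) : SrcHom O J).hom x = σ • (g : SrcHom O J).hom x := rfl

end Galois

/-- PIECE 1 of the adic module layer (pure algebra). -/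
theorem adicModule_of_torsion
    {p : ℕ} (_hp : p.Prime)
    {O : Type} [CommRing O] [IsDomain O] [IsDiscreteValuationRing O]
    [IsAdicComplete (IsLocalRing.maximalIdeal O) O] [Finite (IsLocalRing.ResidueField O)]
    [CharZero O] (hpO : (p : O) ∈ IsLocalRing.maximalIdeal O)
    {J : Type} [AddCommGroup J]
    [DistribMulAction (AlgebraicClosure ℚ ≃ₐ[ℚ] AlgebraicClosure ℚ) J]
    (hsm : ∀ x : J, ∃ L : IntermediateField ℚ (AlgebraicClosure ℚ), FiniteDimensional ℚ L ∧
      ∀ σ : AlgebraicClosure ℚ ≃ₐ[ℚ] AlgebraicClosure ℚ, (∀ y ∈ L, σ y = y) → σ • x = x)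
    (hfin : {x : J | p • x = 0}.Finite)
    {ι : Type} (t : ι → J →+ J)
    (ht : ∀ i (σ : AlgebraicClosure ℚ ≃ₐ[ℚ] AlgebraicClosure ℚ) (x : J), σ • t i x = t i (σ • x))
    (a : ι → O)
    (f : FractionRing O →+ J) (hf0 : ∀ r : O, f (algebraMap O (FractionRing O) r) = 0)
    (hf : f ≠ 0)
    (hfe : ∀ i x, t i (f x) = f (algebraMap O (FractionRing O) (a i) * x)) :
    ∃ (M : Type) (_ : AddCommGroup M) (_ : Module O M) (_ : Module.Free O M)
      (_ : Module.Finite O M)
      (ρ : (AlgebraicClosure ℚ ≃ₐ[ℚ] AlgebraicClosure ℚ) →* Module.End O M),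
      Nontrivial M ∧ GaloisActionIsAdicContinuous O ρ ∧
      (∀ σ : AlgebraicClosure ℚ ≃ₐ[ℚ] AlgebraicClosure ℚ,
        (∀ x : J, (∃ n : ℕ, p ^ n • x = 0) → σ • x = x) → ρ σ = 1) ∧
      (∀ (i : ι) (n : ℕ) (σ : AlgebraicClosure ℚ ≃ₐ[ℚ] AlgebraicClosure ℚ),
        (∀ x : J, (∃ k : ℕ, p ^ k • x = 0) → σ • σ • x - t i (σ • x) + n • x = 0) →
        ρ σ * ρ σ - a i • ρ σ + (n : O) • (1 : Module.End O M) = 0) := by
  classical
  obtain ⟨ϖ, hϖ⟩ := IsDiscreteValuationRing.exists_irreducible O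
  refine ⟨eigenSub t a, inferInstance, inferInstance, free_eigenSub hpO hfin,
    finite_eigenSub hpO hfin, galRep ht, ?_, ?_, ?_, ?_⟩
  · -- nontrivial
    have hfm : SrcHom.of f ∈ eigenSub t a := ⟨hf0, hfe⟩
    refine ⟨⟨⟨SrcHom.of f, hfm⟩, 0, ?_⟩⟩
    intro h
    apply hf
    have := congrArg (fun w : eigenSub t a => (w : SrcHom O J)) h
    exact this
  · -- adic continuity
    intro n
    have hfinn := finite_pow_torsion hfin n
    choose Lx hLx using hsm
    have hfd : ∀ x, FiniteDimensional ℚ (Lx x) := fun x => (hLx x).1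
    refine ⟨⨆ x ∈ hfinn.toFinset, Lx x,
      IntermediateField.finiteDimensional_iSup_of_finset, ?_⟩
    intro σ hσ v
    have hfix : ∀ x : J, p ^ n • x = 0 → σ • x = x := by
      intro x hx
      refine (hLx x).2 σ fun y hy => hσ y ?_
      have hle : Lx x ≤ ⨆ x ∈ hfinn.toFinset, Lx x := by
        refine le_iSup₂_of_le x ?_ le_rfl
        simpa using hx
      exact hle hy
    have hmem : galRep ht σ v - v ∈
        (IsLocalRing.maximalIdeal O ^ n • ⊤ : Submodule O (eigenSub t a)) := by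
      apply mem_pow_smul_top_of_kill hϖ n
      intro y
      show ((galRep ht σ v : eigenSub t a) : SrcHom O J).hom _ - (v : SrcHom O J).hom _ = 0
      rw [galRep_hom, hfix _ (pow_smul_hom_div_eq_zero hpO hϖ n v.2 y), sub_self]
    exact hmem
  · -- unramified
    intro σ hσ
    apply LinearMap.ext
    intro g
    apply Subtype.ext
    apply SrcHom.ext
    intro x
    rw [galRep_hom]
    exact hσ _ (exists_pow_smul_hom_eq_zero hpO g.2 x)
  · -- quadratic relation
    intro i n σ hσ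
    apply LinearMap.ext
    intro g
    simp only [LinearMap.add_apply, LinearMap.sub_apply, LinearMap.smul_apply,
      Module.End.mul_apply, Module.End.one_apply, LinearMap.zero_apply]
    apply Subtype.ext
    apply SrcHom.ext
    intro x
    have h := hσ _ (exists_pow_smul_hom_eq_zero hpO g.2 x)
    show σ • σ • (g : SrcHom O J).hom x -
          σ • (g : SrcHom O J).hom (algebraMap O (FractionRing O) (a i) * x) +
          (g : SrcHom O J).hom (algebraMap O (FractionRing O) (n : O) * x) = 0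
    rw [← g.2.2, ht]
    have e2 : (g : SrcHom O J).hom (algebraMap O (FractionRing O) (n : O) * x) =
        n • (g : SrcHom O J).hom x := by
      rw [map_natCast, ← nsmul_eq_mul, map_nsmul]
    rw [e2]
    exact h

end Fermat.Agent.S30.H330

end
end
-- ===== PACK-END S30/H330/AdicAlg.lean

-- ===== PACK-BEGIN S28/H807/IntLemma.lean
section
/-
S28 / helper807 — formal integrality: a complex polynomial in `j` whose `q`-expansion has
integer coefficients is an integer polynomial in `j`.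
-/




set_option autoImplicit false
set_option maxHeartbeats 400000

noncomputable section

open ModularCurve

namespace Fermat.Agent.S28.H807

variable (A : Type*) [CommRing A]

theorem jqModC_pow_eq (k : ℕ) :
    jqModC A ^ k = HahnSeries.single (-(k : ℤ)) (1 : A) *
      HahnSeries.ofPowerSeries ℤ A ((jNum.map (Int.castRingHom A)) ^ k) := by
  have h : k • (-1 : ℤ) = -(k : ℤ) := by simp
  rw [jqModC, mul_pow, HahnSeries.single_pow, one_pow, h, ← map_pow]

theorem jqModC_pow_coeff_of_lt (k : ℕ) {m : ℤ} (h : m < -(k : ℤ)) :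
    (jqModC A ^ k).coeff m = 0 := by
  rw [jqModC_pow_eq, HahnSeries.coeff_single_mul, one_mul]
  exact ofPowerSeries_coeff_of_neg _ (by linarith)

theorem jqModC_pow_coeff_self (k : ℕ) : (jqModC A ^ k).coeff (-(k : ℤ)) = 1 := by
  rw [jqModC_pow_eq, HahnSeries.coeff_single_mul, one_mul, sub_self]
  have h0 : ((0 : ℕ) : ℤ) = 0 := rfl
  rw [← h0, HahnSeries.ofPowerSeries_apply_coeff, PowerSeries.coeff_zero_eq_constantCoeff,
    map_pow]
  have : PowerSeries.constantCoeff (jNum.map (Int.castRingHom A)) = 1 := by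
    rw [← PowerSeries.coeff_zero_eq_constantCoeff, PowerSeries.coeff_map,
      PowerSeries.coeff_zero_eq_constantCoeff, constantCoeff_jNum]
    simp
  rw [this, one_pow]

/-- Evaluation of a polynomial at `j`, as `eval₂` along the constant embedding. -/
def evalJ (P : Polynomial A) : LaurentSeries A := P.eval₂ HahnSeries.C (jqModC A)

theorem evalJ_coeff_neg_natDegree (P : Polynomial A) (n : ℕ) (hn : P.natDegree ≤ n) :
    (evalJ A P).coeff (-(n : ℤ)) = P.coeff n := by
  unfold evalJ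
  rw [Polynomial.eval₂_eq_sum_range' (HahnSeries.C : A →+* LaurentSeries A)
    (Nat.lt_succ_of_le hn) (jqModC A), HahnSeries.coeff_sum]
  rw [Finset.sum_eq_single n]
  · rw [show (HahnSeries.C : A →+* LaurentSeries A) (P.coeff n)
        = HahnSeries.single (0 : ℤ) (P.coeff n) from rfl,
      HahnSeries.coeff_single_mul, sub_zero, jqModC_pow_coeff_self, mul_one]
  · intro i hi hne
    have hi' : i < n := by
      have := Finset.mem_range.mp hi
      omega
    have h0 : (jqModC A ^ i).coeff (-(n : ℤ)) = 0 :=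
      jqModC_pow_coeff_of_lt A i (by omega)
    rw [show (HahnSeries.C : A →+* LaurentSeries A) (P.coeff i)
        = HahnSeries.single (0 : ℤ) (P.coeff i) from rfl,
      HahnSeries.coeff_single_mul, sub_zero, h0, mul_zero]
  · intro h
    exact absurd (Finset.mem_range.mpr (Nat.lt_succ_self n)) h

theorem coeffMap_jqModC_int : coeffMap (Int.castRingHom A) (jqModC ℤ) = jqModC A :=
  (jqModC_eq_map_intCast A).symm

theorem coeffMap_intCast_injective [CharZero A] :
    Function.Injective (coeffMap (Int.castRingHom A)) := by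
  intro x y h
  ext n
  have := congrArg (fun z => z.coeff n) h
  simp only [coeffMap_coeff, eq_intCast] at this
  exact Int.cast_injective this

/-- Integer-polynomial evaluation at `j ∈ ℤ((q))`. -/
def evalJZ (Q : Polynomial ℤ) : LaurentSeries ℤ := Q.eval₂ (Int.castRingHom _) (jqModC ℤ)

/-- **Integrality lemma.** -/
theorem exists_int_poly_of_evalJ_eq :
    ∀ (P : Polynomial ℂ) (c : LaurentSeries ℤ),
      evalJ ℂ P = coeffMap (Int.castRingHom ℂ) c → ∃ Q : Polynomial ℤ, evalJZ Q = c := by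
  intro P
  induction' hcard : P.support.card using Nat.strong_induction_on with d ih generalizing P
  intro c h
  by_cases hP : P = 0
  · subst hP
    refine ⟨0, ?_⟩
    have h0 : coeffMap (Int.castRingHom ℂ) c = 0 := by
      rw [← h]; simp [evalJ]
    have : c = 0 := coeffMap_intCast_injective ℂ (by rw [h0, map_zero])
    rw [this]; simp [evalJZ]
  · set n := P.natDegree with hn
    have hlead : (c.coeff (-(n : ℤ)) : ℂ) = P.coeff n := by
      have := evalJ_coeff_neg_natDegree ℂ P n le_rfl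
      rw [h, coeffMap_coeff] at this
      simpa using this
    set z : ℤ := c.coeff (-(n : ℤ)) with hz
    set c' : LaurentSeries ℤ := c - (z : LaurentSeries ℤ) * jqModC ℤ ^ n with hc'
    have hP' : evalJ ℂ P.eraseLead = coeffMap (Int.castRingHom ℂ) c' := by
      have h1 : P = P.eraseLead + Polynomial.monomial n (P.coeff n) := by
        rw [hn]
        exact (Polynomial.eraseLead_add_monomial_natDegree_leadingCoeff P).symm
      have h2 : evalJ ℂ P = evalJ ℂ P.eraseLead + HahnSeries.C (P.coeff n) * jqModC ℂ ^ n := by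
        conv_lhs => rw [h1]
        simp [evalJ, Polynomial.eval₂_add, Polynomial.eval₂_monomial]
      rw [hc', map_sub, map_mul, map_pow, coeffMap_jqModC_int, ← h, h2, map_intCast]
      have h3 : HahnSeries.C (P.coeff n) = ((z : ℤ) : LaurentSeries ℂ) := by
        rw [← hlead]
        simp
      rw [h3]; ring
    have hlt : P.eraseLead.support.card < d := by
      rw [← hcard]
      exact Polynomial.eraseLead_support_card_lt hP
    obtain ⟨Q', hQ'⟩ := ih _ hlt P.eraseLead rfl c' hP'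
    refine ⟨Q' + Polynomial.C z * Polynomial.X ^ n, ?_⟩
    unfold evalJZ at *
    rw [Polynomial.eval₂_add, Polynomial.eval₂_mul, Polynomial.eval₂_C, Polynomial.eval₂_pow,
      Polynomial.eval₂_X, hQ', hc']
    simp

end Fermat.Agent.S28.H807

end

end
-- ===== PACK-END S28/H807/IntLemma.lean

-- ===== PACK-BEGIN S28/H326/Basic.lean
section
/-
S28 / helper326: formal conjugation operators on power series over `ℂ`
(`q ↦ ζ^b t` and `q ↦ t^(p²)`, base embedding `q ↦ t^p`) and the Hecke power-sum identity.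
-/




set_option autoImplicit false
set_option linter.unusedSectionVars false

noncomputable section

namespace Fermat.Agent.S28.H326

open ModularCurve HahnSeries

/-- `ℂ⟦X⟧ → ℂ((t))`. -/
abbrev ofPS : PowerSeries ℂ →+* LaurentSeries ℂ := HahnSeries.ofPowerSeries ℤ ℂ

theorem ofPS_coeff_nat (g : PowerSeries ℂ) (n : ℕ) : (ofPS g).coeff (n : ℤ) = g.coeff n :=
  HahnSeries.ofPowerSeries_apply_coeff g n

theorem ofPS_coeff_neg (g : PowerSeries ℂ) {n : ℤ} (hn : n < 0) : (ofPS g).coeff n = 0 :=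
  ofPowerSeries_coeff_of_neg g hn

/-- The primitive `p`-th root of unity `exp(2πi/p)`. -/
def zeta (p : ℕ) : ℂ := Complex.exp (2 * Real.pi * Complex.I / p)

theorem zeta_isPrimitiveRoot (p : ℕ) [NeZero p] : IsPrimitiveRoot (zeta p) p :=
  Complex.isPrimitiveRoot_exp p (NeZero.ne p)

theorem zeta_pow_self (p : ℕ) [NeZero p] : zeta p ^ p = 1 := (zeta_isPrimitiveRoot p).pow_eq_one

theorem zeta_ne_zero (p : ℕ) : zeta p ≠ 0 := Complex.exp_ne_zero _

/-- root-of-unity orthogonality -/
theorem sum_zeta_pow (p : ℕ) [NeZero p] (k : ℕ) :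
    ∑ b ∈ Finset.range p, (zeta p ^ b) ^ k = if p ∣ k then (p : ℂ) else 0 := by
  have hz := zeta_isPrimitiveRoot p
  split_ifs with h
  · have : ∀ b ∈ Finset.range p, (zeta p ^ b) ^ k = 1 := by
      intro b _
      rw [← pow_mul, mul_comm, pow_mul, (hz.pow_eq_one_iff_dvd k).mpr h, one_pow]
    rw [Finset.sum_congr rfl this]
    simp
  · have h1 : zeta p ^ k ≠ 1 := fun hh => h ((hz.pow_eq_one_iff_dvd k).mp hh)
    have h2 : ∑ b ∈ Finset.range p, (zeta p ^ b) ^ k = ∑ b ∈ Finset.range p, (zeta p ^ k) ^ b := by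
      refine Finset.sum_congr rfl fun b _ => ?_
      rw [← pow_mul, ← pow_mul, mul_comm]
    rw [h2]
    have h3 := mul_neg_geom_sum (zeta p ^ k) p
    have h4 : (zeta p ^ k) ^ p = 1 := by
      rw [← pow_mul, mul_comm, pow_mul, zeta_pow_self, one_pow]
    rw [h4, sub_self] at h3
    rcases mul_eq_zero.mp h3 with h5 | h5
    · exact absurd (sub_eq_zero.mp h5).symm h1
    · exact h5

variable (p : ℕ) [NeZero p]

/-- conjugate `g(q) ↦ g(ζ^b t)` -/
def cB (b : ℕ) : PowerSeries ℂ →+* LaurentSeries ℂ :=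
  ofPS.comp (PowerSeries.rescale (zeta p ^ b))

/-- base embedding `g(q) ↦ g(t^p)` -/
def cBase : PowerSeries ℂ →+* LaurentSeries ℂ :=
  (qExpand ℂ p).comp ofPS

/-- conjugate `g(q) ↦ g(t^(p²))` -/
def cInf : PowerSeries ℂ →+* LaurentSeries ℂ :=
  (qExpand ℂ p).comp (cBase p)

/-- `U_p` on power series. -/
def Up (g : PowerSeries ℂ) : PowerSeries ℂ := PowerSeries.mk fun n => g.coeff (n * p)

@[simp] theorem coeff_Up (g : PowerSeries ℂ) (n : ℕ) : (Up p g).coeff n = g.coeff (n * p) := by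
  simp [Up]

theorem cB_coeff_nat (b : ℕ) (g : PowerSeries ℂ) (n : ℕ) :
    (cB p b g).coeff (n : ℤ) = (zeta p ^ b) ^ n * g.coeff n := by
  simp [cB, ofPS_coeff_nat, PowerSeries.coeff_rescale]

theorem cB_coeff_neg (b : ℕ) (g : PowerSeries ℂ) {n : ℤ} (hn : n < 0) :
    (cB p b g).coeff n = 0 := by
  simp [cB, ofPS_coeff_neg _ hn]

theorem cB_zero (g : PowerSeries ℂ) : cB p 0 g = ofPS g := by
  simp [cB]

theorem cBase_coeff_mul (g : PowerSeries ℂ) (n : ℕ) :
    (cBase p g).coeff ((p : ℤ) * n) = g.coeff n := by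
  rw [cBase, RingHom.comp_apply, qExpand_coeff_mul, ofPS_coeff_nat]

theorem cBase_coeff_of_not_dvd (g : PowerSeries ℂ) {n : ℤ} (hn : ¬ (p : ℤ) ∣ n) :
    (cBase p g).coeff n = 0 := by
  rw [cBase, RingHom.comp_apply, qExpand_coeff_of_not_dvd p _ hn]

theorem cBase_coeff_neg (g : PowerSeries ℂ) {n : ℤ} (hn : n < 0) :
    (cBase p g).coeff n = 0 := by
  by_cases h : (p : ℤ) ∣ n
  · obtain ⟨m, rfl⟩ := h
    rw [cBase, RingHom.comp_apply, qExpand_coeff_mul]
    refine ofPS_coeff_neg _ ?_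
    have hp : (0 : ℤ) < p := by exact_mod_cast Nat.pos_of_ne_zero (NeZero.ne p)
    by_contra hm
    rw [not_lt] at hm
    have := mul_nonneg hp.le hm
    omega
  · exact cBase_coeff_of_not_dvd p g h

theorem natCast_mul_coeff (c : ℕ) (x : LaurentSeries ℂ) (n : ℤ) :
    ((c : LaurentSeries ℂ) * x).coeff n = (c : ℂ) * x.coeff n := by
  have : (c : LaurentSeries ℂ) = HahnSeries.C (c : ℂ) := by simp
  rw [this, HahnSeries.C_mul_eq_smul, HahnSeries.coeff_smul, smul_eq_mul]

/-- **Hecke power-sum identity**: `∑_b g(ζ^b t) = p · (U_p g)(t^p)`. -/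
theorem sum_cB (g : PowerSeries ℂ) :
    ∑ b ∈ Finset.range p, cB p b g = (p : LaurentSeries ℂ) * cBase p (Up p g) := by
  ext n
  rw [HahnSeries.coeff_sum, natCast_mul_coeff]
  rcases lt_or_ge n 0 with hn | hn
  · rw [cBase_coeff_neg p _ hn, mul_zero]
    exact Finset.sum_eq_zero fun b _ => cB_coeff_neg p b g hn
  · lift n to ℕ using hn
    simp only [cB_coeff_nat]
    rw [← Finset.sum_mul, sum_zeta_pow]
    split_ifs with h
    · obtain ⟨m, rfl⟩ := h
      have : ((p * m : ℕ) : ℤ) = (p : ℤ) * m := by push_cast; ring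
      rw [this, cBase_coeff_mul, coeff_Up, mul_comm m p]
    · have : ¬ (p : ℤ) ∣ (n : ℤ) := by exact_mod_cast h
      rw [cBase_coeff_of_not_dvd p _ this, zero_mul, mul_zero]

end Fermat.Agent.S28.H326

end
end
-- ===== PACK-END S28/H326/Basic.lean

-- ===== PACK-BEGIN S28/H806/LemmaM.lean
section


set_option autoImplicit false
set_option linter.unusedSectionVars false
set_option linter.style.haveILetI false

noncomputable section

namespace Fermat.Agent.S28.H806

open Polynomial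

section PrimePower

variable {P D : Type*} [CommRing P] [IsDomain P] [CommRing D] [IsDomain D]

/-- If `ell` generates the kernel of `red` and `red c ≠ 0`, then `u * c = v * ell ^ m`
forces `ell ^ m ∣ u`. -/
theorem pow_dvd_of_mul_eq_mul_pow (red : P →+* D) (ell : P) (hell0 : ell ≠ 0)
    (hell : red ell = 0) (hker : ∀ u : P, red u = 0 → ell ∣ u) :
    ∀ (m : ℕ) (c : P), red c ≠ 0 → ∀ u v : P, u * c = v * ell ^ m → ell ^ m ∣ u := by
  intro m
  induction m with
  | zero => intro c _ u v _; simp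
  | succ m ih =>
    intro c hc u v h
    have hu : red u = 0 := by
      have h1 := congrArg red h
      rw [map_mul, map_mul, map_pow, hell, pow_succ, mul_zero, mul_zero] at h1
      rcases mul_eq_zero.mp h1 with h2 | h2
      · exact h2
      · exact absurd h2 hc
    obtain ⟨u', rfl⟩ := hker u hu
    have h' : u' * c = v * ell ^ m := by
      apply mul_left_cancel₀ hell0
      rw [← mul_assoc, h, pow_succ]; ring
    obtain ⟨w, hw⟩ := ih c hc u' v h'
    exact ⟨w, by rw [hw, pow_succ]; ring⟩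

end PrimePower

section LemmaM

variable {P F D : Type*} [CommRing P] [IsDomain P] [IsIntegrallyClosed P]
  [Field F] [Algebra P F] [Module.IsTorsionFree P F] [CommRing D] [IsDomain D]

/-- **Lemma M.**  Let `P` be an integrally closed domain, `ell ∈ P` a generator of the kernel of
`red : P → D`, and `s ∈ P` with `red s ≠ 0`.  If `ell • y` and `s • y` are integral over `P`, then
so is `y`. -/
theorem isIntegral_of_isIntegral_smul_of_isIntegral_smul (red : P →+* D) (ell s : P)
    (hell0 : ell ≠ 0) (hell : red ell = 0) (hker : ∀ u : P, red u = 0 → ell ∣ u)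
    (hs : red s ≠ 0) (y : F) (h1 : IsIntegral P (ell • y)) (h2 : IsIntegral P (s • y)) :
    IsIntegral P y := by
  classical
  have hs0 : s ≠ 0 := fun h => hs (by rw [h, map_zero])
  have e1 := IsIntegrallyClosed.minpoly_smul hs0 h1
  have e2 := IsIntegrallyClosed.minpoly_smul hell0 h2
  rw [smul_comm] at e1
  rw [e1] at e2
  set g := minpoly P (ell • y) with hg
  set h := minpoly P (s • y) with hh
  have hdeg : g.natDegree = h.natDegree := by
    have := congrArg Polynomial.natDegree e2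
    rwa [natDegree_scaleRoots, natDegree_scaleRoots] at this
  set n := g.natDegree with hn
  have hdiv : ∀ i, ell ^ (n - i) ∣ g.coeff i := by
    intro i
    have hc := congrArg (fun p => p.coeff i) e2
    simp only [coeff_scaleRoots] at hc
    rw [← hdeg] at hc
    exact pow_dvd_of_mul_eq_mul_pow red ell hell0 hell hker (n - i) (s ^ (n - i))
      (by rw [map_pow]; exact pow_ne_zero _ hs) (g.coeff i) (h.coeff i) hc
  choose a ha using hdiv
  have hgm : g.Monic := minpoly.monic h1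
  have han : a n = 1 := by
    have := ha n
    rw [Nat.sub_self, pow_zero, one_mul] at this
    rw [← this]
    exact hgm.coeff_natDegree
  let f : P[X] := X ^ n + ∑ i ∈ Finset.range n, C (a i) * X ^ i
  have hfm : f.Monic := by
    apply monic_X_pow_add
    rw [degree_lt_iff_coeff_zero]
    intro m hm
    rw [finsetSum_coeff]
    refine Finset.sum_eq_zero fun i hi => ?_
    rw [coeff_C_mul_X_pow, if_neg]
    have := Finset.mem_range.mp hi
    omega
  refine ⟨f, hfm, ?_⟩
  have hroot : aeval (ell • y) g = 0 := minpoly.aeval P (ell • y)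
  rw [hgm.as_sum] at hroot
  have hell' : algebraMap P F ell ≠ 0 := by
    intro h0
    exact hell0 ((FaithfulSMul.algebraMap_injective P F) (by rw [h0, map_zero]))
  have key : (algebraMap P F ell) ^ n * eval₂ (algebraMap P F) y f = 0 := by
    rw [← hroot]
    simp only [f, eval₂_add, eval₂_pow, eval₂_X, eval₂_finsetSum, eval₂_mul, eval₂_C,
      map_add, map_pow, aeval_X, map_sum, map_mul, aeval_C, Algebra.smul_def]
    rw [mul_add, Finset.mul_sum, mul_pow]
    congr 1
    refine Finset.sum_congr rfl fun i hi => ?_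
    have hi' : i ≤ n := (Finset.mem_range.mp hi).le
    rw [ha i, map_mul, map_pow, mul_pow]
    have : (algebraMap P F ell) ^ n = (algebraMap P F ell) ^ (n - i) * (algebraMap P F ell) ^ i := by
      rw [← pow_add, Nat.sub_add_cancel hi']
    rw [this]; ring
  rcases mul_eq_zero.mp key with h0 | h0
  · exact absurd h0 (pow_ne_zero _ hell')
  · exact h0

end LemmaM

end Fermat.Agent.S28.H806

end
end
-- ===== PACK-END S28/H806/LemmaM.lean

-- ===== PACK-BEGIN S18/H438/Front/Dvr.lean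
section


/-!
# S18 / ALG-FRONT (helper438), part 0: a subring with a uniformiser is a DVR

`A : Subring K` (`K` a field), `w ∈ A`, `w ≠ 0`, `w⁻¹ ∉ A`, every nonzero element of `A` is
`w ^ n * unit`.  Then `A` is a discrete valuation ring with uniformiser `w`.
-/

set_option autoImplicit false
set_option linter.unusedSectionVars false

noncomputable section

namespace Fermat.Agent.S18.H438

variable {K : Type*} [Field K] (A : Subring K) {w : K}

/-- units of a subring of a field, elementwise -/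
theorem isUnit_subring_iff {a : A} : IsUnit a ↔ (a : K) ≠ 0 ∧ (a : K)⁻¹ ∈ A := by
  constructor
  · rintro ⟨⟨u, v, huv, hvu⟩, rfl⟩
    have h1 : (u : K) * (v : K) = 1 := congrArg Subtype.val huv
    have hu0 : (u : K) ≠ 0 := left_ne_zero_of_mul_eq_one h1
    refine ⟨hu0, ?_⟩
    have : (u : K)⁻¹ = (v : K) := (eq_inv_of_mul_eq_one_right h1).symm
    rw [show ((⟨u, v, huv, hvu⟩ : Aˣ) : A) = u from rfl, this]
    exact v.2
  · rintro ⟨h0, hinv⟩
    refine ⟨⟨a, ⟨(a : K)⁻¹, hinv⟩, Subtype.ext ?_, Subtype.ext ?_⟩, rfl⟩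
    · show (a : K) * (a : K)⁻¹ = 1
      exact mul_inv_cancel₀ h0
    · show (a : K)⁻¹ * (a : K) = 1
      exact inv_mul_cancel₀ h0

variable (hwA : w ∈ A) (hw0 : w ≠ 0) (hwinv : w⁻¹ ∉ A)
  (hdisc : ∀ r ∈ A, r ≠ 0 → ∃ n : ℕ, r * (w⁻¹) ^ n ∈ A ∧ (r * (w⁻¹) ^ n)⁻¹ ∈ A)

include hwA hw0 hwinv hdisc

/-- `w` is irreducible in `A`. -/
theorem irreducible_unif_of_disc : Irreducible (⟨w, hwA⟩ : A) := by
  have hnu : ¬ IsUnit (⟨w, hwA⟩ : A) := fun h => hwinv ((isUnit_subring_iff A).1 h).2
  refine ⟨hnu, ?_⟩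
  intro a b hab
  have habK : w = (a : K) * (b : K) := congrArg Subtype.val hab
  have ha0 : (a : K) ≠ 0 := fun h => hw0 (by rw [habK, h, zero_mul])
  have hb0 : (b : K) ≠ 0 := fun h => hw0 (by rw [habK, h, mul_zero])
  obtain ⟨n, hn1, hn2⟩ := hdisc a a.2 ha0
  obtain ⟨m, hm1, hm2⟩ := hdisc b b.2 hb0
  -- `w = w^(n+m) * unit`
  have hprod : ((a : K) * (w⁻¹) ^ n) * ((b : K) * (w⁻¹) ^ m) = w * (w⁻¹) ^ (n + m) := by
    rw [habK, pow_add]; ring
  have hunit : w * (w⁻¹) ^ (n + m) ∈ A ∧ (w * (w⁻¹) ^ (n + m))⁻¹ ∈ A := by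
    rw [← hprod]
    refine ⟨A.mul_mem hn1 hm1, ?_⟩
    rw [mul_inv]
    exact A.mul_mem hn2 hm2
  -- so `n + m = 1`
  have hnm : n + m = 1 := by
    rcases Nat.lt_or_ge (n + m) 1 with h | h
    · -- `n + m = 0`: `w` would be a unit
      have h0 : n + m = 0 := by omega
      rw [h0, pow_zero, mul_one] at hunit
      exact absurd hunit.2 hwinv
    · rcases Nat.eq_or_lt_of_le h with h1 | h1
      · exact h1.symm
      · -- `n + m ≥ 2`: `w⁻¹ = (w * w^-(n+m)) * w^(n+m-2) ∈ A`
        exfalso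
        obtain ⟨k, hk⟩ : ∃ k, n + m = k + 2 := ⟨n + m - 2, by omega⟩
        have : w⁻¹ = (w * (w⁻¹) ^ (n + m)) * w ^ k := by
          rw [hk, pow_add, inv_pow, inv_pow]
          field_simp
        apply hwinv
        rw [this]
        exact A.mul_mem hunit.1 (A.pow_mem hwA k)
  rcases Nat.eq_zero_or_pos n with hn | hn
  · left
    rw [isUnit_subring_iff]
    refine ⟨ha0, ?_⟩
    rw [hn, pow_zero, mul_one] at hn2
    exact hn2
  · right
    have hm : m = 0 := by omega
    rw [isUnit_subring_iff]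
    refine ⟨hb0, ?_⟩
    rw [hm, pow_zero, mul_one] at hm2
    exact hm2

/-- **`A` is a discrete valuation ring.** -/
theorem isDiscreteValuationRing_of_disc : IsDiscreteValuationRing A := by
  refine IsDiscreteValuationRing.ofHasUnitMulPowIrreducibleFactorization
    ⟨⟨w, hwA⟩, irreducible_unif_of_disc A hwA hw0 hwinv hdisc, ?_⟩
  intro r hr
  have hr0 : (r : K) ≠ 0 := fun h => hr (Subtype.ext h)
  obtain ⟨n, hn1, hn2⟩ := hdisc r r.2 hr0
  refine ⟨n, ?_⟩
  have hu : IsUnit (⟨(r : K) * (w⁻¹) ^ n, hn1⟩ : A) := by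
    rw [isUnit_subring_iff]
    refine ⟨mul_ne_zero hr0 (pow_ne_zero n (inv_ne_zero hw0)), hn2⟩
  obtain ⟨u, hu'⟩ := hu
  refine ⟨u, Subtype.ext ?_⟩
  rw [hu']
  show w ^ n * ((r : K) * (w⁻¹) ^ n) = r
  rw [inv_pow]
  field_simp

end Fermat.Agent.S18.H438

end
end
-- ===== PACK-END S18/H438/Front/Dvr.lean

-- ===== PACK-BEGIN S18/B12/Spec.lean
section


/-!
# S18, Route K, pieces b1 + b2 (squad S18/S33, squad-lead helper33) — FROZEN statements

Everything here is Mathlib-only commutative algebra.  Each `def … : Prop` below is a statement to be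
proved as `theorem <name> : <Statement>` in `Fermat/Agent/S18/B12/<Owner>/…`.
See `coord/S18-b1b2.md` (branch `helper33`) for the mathematics and the proof of each piece.

Notation: `R` = DVR `A'` with uniformiser `w`, fraction field `E` (char 0), residue field `k'`;
`B` = normal model, a finite `R[X]`-algebra (chart `B_fin`; the chart `B_inf` is the same thing with
`X = 1/x`).  `(Λ, t)` = a PID with a prime element (`(k'[X], x - c̄)` or `(E[X], x - c)`).
-/

set_option autoImplicit false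

noncomputable section

namespace Fermat.Agent.S18.B12

open Polynomial

universe u v

/-- **b1 (regular sequence).**  `B` integrally closed domain, integral over `R[X]` (`R` integrally
closed domain with `R[X]` integrally closed, e.g. a DVR), `w ≠ 0` a constant, `p` monic.
If `w * b = p * b'` in `B` then `b = p * b''` and `b' = w * b''`.
(So `p` is a non-zero-divisor on `B/wB` and `w` is a non-zero-divisor on `B/pB`.) -/
def RegSeqStatement : Prop :=
  ∀ (R : Type u) [CommRing R] [IsDomain R] [IsIntegrallyClosed R] [IsIntegrallyClosed R[X]]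
    (B : Type v) [CommRing B] [IsDomain B] [IsIntegrallyClosed B] [Algebra R[X] B]
    [Algebra.IsIntegral R[X] B] [Module.IsTorsionFree R[X] B]
    (w : R) (_ : w ≠ 0) (p : R[X]) (_ : p.Monic) (b b' : B),
    algebraMap R[X] B (C w) * b = algebraMap R[X] B p * b' →
    ∃ b'' : B, b = algebraMap R[X] B p * b'' ∧ b' = algebraMap R[X] B (C w) * b''

/-- **b1' (regular sequence, primitive version).**  Same with `p` primitive instead of monic
(`R` a DVR); needed for the primes `π` of `R[X]` in the branch-locus hypothesis. -/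
def RegSeqPrimStatement : Prop :=
  ∀ (R : Type u) [CommRing R] [IsDomain R] [IsDiscreteValuationRing R]
    (B : Type v) [CommRing B] [IsDomain B] [IsIntegrallyClosed B] [Algebra R[X] B]
    [Algebra.IsIntegral R[X] B] [Module.IsTorsionFree R[X] B]
    (w : R) (_ : w ≠ 0) (p : R[X]) (_ : p.IsPrimitive) (b b' : B),
    algebraMap R[X] B (C w) * b = algebraMap R[X] B p * b' →
    ∃ b'' : B, b = algebraMap R[X] B p * b'' ∧ b' = algebraMap R[X] B (C w) * b''

/-- **b2-ζ (reduced basis).**  A finite torsion-free algebra `R₁` over a DVR `R` has a family `y`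
which is `R`-linearly independent modulo nilpotents and spans `R₁` modulo nilpotents
(`R₁ / nilradical` is finite free). -/
def RedBasisStatement : Prop :=
  ∀ (R : Type u) [CommRing R] [IsDomain R] [IsPrincipalIdealRing R]
    (R₁ : Type v) [CommRing R₁] [Algebra R R₁] [Module.Finite R R₁] [Module.IsTorsionFree R R₁],
    ∃ (r : ℕ) (y : Fin r → R₁),
      (∀ a : Fin r → R, IsNilpotent (∑ i, a i • y i) → a = 0) ∧
      (∀ x : R₁, ∃ a : Fin r → R, IsNilpotent (x - ∑ i, a i • y i))

/-- **b2-SF (special fibre, two lattices).**  `Λ` a PID, `t` prime.  `C ≤ Ct` two `Λ`-subalgebras of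
a commutative `Λ`-algebra `L`, both free of rank `n`.  If `(C/tC)_red` is spanned by `s` elements
over `Λ/t` and `t ^ (n - s + 1)` does not divide `disc(C/Λ) ≠ 0`, then `C = Ct` locally at `t`. -/
def SFLatticeStatement : Prop :=
  ∀ (Λ : Type u) [CommRing Λ] [IsDomain Λ] [IsPrincipalIdealRing Λ] (t : Λ) (_ : Prime t)
    (L : Type v) [CommRing L] [Algebra Λ L] (C Ct : Subalgebra Λ L) (_ : C ≤ Ct)
    (n : ℕ) (b : Module.Basis (Fin n) Λ C) (_ : Module.Basis (Fin n) Λ Ct)
    (s : ℕ) (y : Fin s → C)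
    (_ : ∀ x : C, ∃ a : Fin s → Λ,
        x - ∑ i, a i • y i ∈ (Ideal.span {algebraMap Λ C t}).radical),
    Algebra.discr Λ b ≠ 0 → ¬ t ^ (n - s + 1) ∣ Algebra.discr Λ b →
    ∀ x ∈ Ct, ∃ g : Λ, ¬ t ∣ g ∧ g • x ∈ C

/-- **b2-SF' (special fibre, idempotent form).**  Same hypotheses on `C`; `ε ∈ L` idempotent with
`g₀ • ε ∈ C` for some `g₀ ≠ 0`, `L` torsion-free over `Λ`.  Then `g • ε ∈ C` for some `g ∉ (t)`. -/
def SFIdemStatement : Prop :=
  ∀ (Λ : Type u) [CommRing Λ] [IsDomain Λ] [IsPrincipalIdealRing Λ] (t : Λ) (_ : Prime t)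
    (L : Type v) [CommRing L] [Algebra Λ L] [Module.IsTorsionFree Λ L] (C : Subalgebra Λ L)
    (n : ℕ) (b : Module.Basis (Fin n) Λ C)
    (s : ℕ) (y : Fin s → C)
    (_ : ∀ x : C, ∃ a : Fin s → Λ,
        x - ∑ i, a i • y i ∈ (Ideal.span {algebraMap Λ C t}).radical),
    Algebra.discr Λ b ≠ 0 → ¬ t ^ (n - s + 1) ∣ Algebra.discr Λ b →
    ∀ ε : L, ε * ε = ε → (∃ g₀ : Λ, g₀ ≠ 0 ∧ g₀ • ε ∈ C) → ∃ g : Λ, ¬ t ∣ g ∧ g • ε ∈ C

/-- **b2-α (tame discriminant).**  `Λ` a PID, `t` prime with residue field of characteristic `0`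
(`ℚ ⊆ Λ`).  `C₀` a Dedekind domain, finite free over `Λ` of rank `n` with basis `β`.  If `y` is a
family of `r` elements of `C₀` that is `Λ/t`-linearly independent modulo `rad(t C₀)`, then
`t ^ (n - r + 1)` does not divide `disc(β)`.
(Char 0 ⇒ tame: the exponent of `t` in the discriminant is exactly `n - dim (C₀/t)_red`.) -/
def TameDiscrStatement : Prop :=
  ∀ (Λ : Type u) [CommRing Λ] [IsDomain Λ] [IsPrincipalIdealRing Λ] [Algebra ℚ Λ]
    (t : Λ) (_ : Prime t)
    (C₀ : Type v) [CommRing C₀] [IsDomain C₀] [IsDedekindDomain C₀] [Algebra Λ C₀]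
    [Module.IsTorsionFree Λ C₀]
    (n : ℕ) (β : Module.Basis (Fin n) Λ C₀) (r : ℕ) (y : Fin r → C₀)
    (_ : ∀ a : Fin r → Λ,
        (∑ i, a i • y i) ∈ (Ideal.span {algebraMap Λ C₀ t}).radical → ∀ i, t ∣ a i),
    ¬ t ^ (n - r + 1) ∣ Algebra.discr Λ β

/-- **b2 (normality of the special fibre; TOP LEVEL of this squad).**
`R` DVR of characteristic 0, uniformiser `w`; `B` an integrally closed domain, finite over `R[X]`.
* `hsep`: some `n`-tuple of `B` (`n` = generic degree) has discriminant `≢ 0 mod w`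
  (the special fibre is generically étale over `k'[x]`);
* `S`: the finite branch values, pairwise distinct mod `w`;
* `hNC`: for every prime `π` of `R[X]` other than `w` and the `X - c`, `c ∈ S`, the fibre `B/πB`
  is reduced (`F/E(x)` is unramified outside `S ∪ {∞}`).
Conclusion: every idempotent `b/g` of the total fraction ring of `B/wB` lies in `B/wB`. -/
def B2Statement : Prop :=
  ∀ (R : Type u) [CommRing R] [IsDomain R] [IsDiscreteValuationRing R] [CharZero R]
    (w : R) (_ : Irreducible w)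
    (B : Type v) [CommRing B] [IsDomain B] [IsIntegrallyClosed B] [Algebra R[X] B]
    [Module.Finite R[X] B] [Module.IsTorsionFree R[X] B]
    (_ : ∃ x : Fin (Module.finrank R[X] B) → B,
        ¬ C w ∣ (Matrix.of fun i j => Algebra.intTrace R[X] B (x i * x j)).det)
    (S : Finset R) (_ : ∀ c ∈ S, ∀ c' ∈ S, c ≠ c' → IsUnit (c - c'))
    (_ : ∀ π : R[X], Prime π → ¬ Associated π (C w) → (∀ c ∈ S, ¬ Associated π (X - C c)) →
        (Ideal.span {algebraMap R[X] B π}).IsRadical)
    (b : B) (g : R[X]), ¬ C w ∣ g →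
      b ^ 2 - algebraMap R[X] B g * b ∈ Ideal.span {algebraMap R[X] B (C w)} →
      ∃ b₀ : B, b - algebraMap R[X] B g * b₀ ∈ Ideal.span {algebraMap R[X] B (C w)}

end Fermat.Agent.S18.B12

end
end
-- ===== PACK-END S18/B12/Spec.lean

-- ===== PACK-BEGIN S18/H393/LocalFree.lean
section


/-!
# S18 / Route K / piece b1 (helper393): local freeness of the normal model

Mathlib-only commutative algebra.

Setting: `Λ` an integrally closed domain with fraction field `K` (application: `Λ = R[x]`,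
`R` a DVR with uniformiser `w`), `w ∈ Λ` a prime element, `F / K` a finite separable field
extension, `B` = the integral closure of `Λ` in `F` (elements of `F` integral over `Λ`).

* `isIntegral_of_isIntegral_mul'` : (b1.a, the "regular sequence" lemma)
  if `w` is prime, `¬ w ∣ t`, and both `w * f` and `t * f` are integral over `Λ`, then so is `f`.
* `mem_smul_top_of_smul_mem` : the same inside `B`: `t • β ∈ w B`, `¬ w ∣ t` imply `β ∈ w B`
  (`B / w B` is torsion-free over `Λ / w`; `(w, t)` is a regular sequence on `B`).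
* `exists_basis_mod` : (b1 / b2.1, local freeness) if moreover `Λ` is noetherian and `Λ / w` is a
  PID, there is `b : Fin [F : K] → F`, integral, `K`-linearly independent, with
  `ρ B ⊆ ∑ Λ bᵢ` for some `ρ ≡ 1 mod w`, and `∑ cᵢ bᵢ ∈ w B → w ∣ cᵢ`.
  So `B` is free with basis `b` over the localisation of `Λ` at `1 + wΛ`, `B / w B` is free over
  `Λ / w` with basis `b mod w`, and `B ⊗ Λ_𝔭` is free with basis `b` for every prime `𝔭`
  of `Λ` with `ρ ∉ 𝔭` (e.g. `𝔭 = (x - c)`, `c` integral, in the application).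
-/

set_option autoImplicit false

namespace Fermat.Agent.S18.H393

open Polynomial

section RegularSequence

variable {Λ : Type*} (K : Type*) {F : Type*} [CommRing Λ] [IsDomain Λ]
  [Field K] [Algebra Λ K] [IsFractionRing Λ K]
  [Field F] [Algebra K F] [Algebra Λ F] [IsScalarTower Λ K F]

/-- If `c • f` is integral over the integrally closed domain `Λ` (`c ≠ 0`), the minimal
polynomial of `f` over `K`, with roots scaled by `c`, has coefficients in `Λ`. -/
theorem coeff_minpoly_mul_pow_mem [IsIntegrallyClosed Λ] {c : Λ} (hc : c ≠ 0) {f : F}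
    (hcf : IsIntegral Λ (algebraMap Λ F c * f)) (i : ℕ) :
    ∃ a : Λ, algebraMap Λ K a =
      (minpoly K f).coeff i * algebraMap Λ K c ^ ((minpoly K f).natDegree - i) := by
  have hcK : algebraMap Λ K c ≠ 0 := by
    simpa using (IsFractionRing.injective Λ K).ne hc
  have hcfK : IsIntegral K (algebraMap Λ F c * f) := hcf.tower_top
  have hmul : algebraMap Λ F c * f = algebraMap K F (algebraMap Λ K c) * f := by
    rw [← IsScalarTower.algebraMap_apply]
  have hfK : IsIntegral K f := by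
    have h1 : IsIntegral K (algebraMap K F (algebraMap Λ K c)⁻¹ * (algebraMap Λ F c * f)) :=
      (isIntegral_algebraMap).mul hcfK
    have h2 : algebraMap K F (algebraMap Λ K c)⁻¹ * (algebraMap Λ F c * f) = f := by
      rw [hmul, ← mul_assoc, ← map_mul, inv_mul_cancel₀ hcK, map_one, one_mul]
    rwa [h2] at h1
  set π := minpoly K f with hπ
  set σ := scaleRoots π (algebraMap Λ K c) with hσ
  have hπm : π.Monic := minpoly.monic hfK
  have hσm : σ.Monic := (monic_scaleRoots_iff _).mpr hπm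
  have hσroot : aeval (algebraMap Λ F c * f) σ = 0 := by
    rw [hmul]
    exact scaleRoots_aeval_eq_zero (minpoly.aeval K f)
  -- the minimal polynomial of `c f` divides `σ`
  have hdvd : minpoly K (algebraMap Λ F c * f) ∣ σ := minpoly.dvd K _ hσroot
  -- degree comparison
  set μ := minpoly K (algebraMap Λ F c * f) with hμ
  have hμm : μ.Monic := minpoly.monic hcfK
  have hroot2 : aeval f (scaleRoots μ (algebraMap Λ K c)⁻¹) = 0 := by
    have h2 : algebraMap K F (algebraMap Λ K c)⁻¹ * (algebraMap Λ F c * f) = f := by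
      rw [hmul, ← mul_assoc, ← map_mul, inv_mul_cancel₀ hcK, map_one, one_mul]
    have := scaleRoots_aeval_eq_zero (p := μ) (r := (algebraMap Λ K c)⁻¹)
      (a := algebraMap Λ F c * f) (minpoly.aeval K _)
    rwa [h2] at this
  have hdvd2 : π ∣ scaleRoots μ (algebraMap Λ K c)⁻¹ := minpoly.dvd K _ hroot2
  have hdeg1 : μ.natDegree ≤ σ.natDegree :=
    natDegree_le_of_dvd hdvd hσm.ne_zero
  have hdeg2 : π.natDegree ≤ μ.natDegree := by
    have := natDegree_le_of_dvd hdvd2 ((monic_scaleRoots_iff _).mpr hμm).ne_zero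
    rwa [natDegree_scaleRoots] at this
  have hdegσ : σ.natDegree = π.natDegree := natDegree_scaleRoots _ _
  have hμσ : σ = μ := by
    refine eq_of_monic_of_dvd_of_natDegree_le hμm hσm hdvd ?_
    rw [hdegσ]; exact hdeg2
  have hlift : μ = (minpoly Λ (algebraMap Λ F c * f)).map (algebraMap Λ K) :=
    minpoly.isIntegrallyClosed_eq_field_fractions' K hcf
  refine ⟨(minpoly Λ (algebraMap Λ F c * f)).coeff i, ?_⟩
  rw [← coeff_map, ← hlift, ← hμσ, hσ, coeff_scaleRoots]

/-- **b1.a (regular sequence lemma).** `Λ` integrally closed domain, `w` prime, `¬ w ∣ t`.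
If `w f` and `t f` are integral over `Λ`, then `f` is integral over `Λ`. -/
theorem isIntegral_of_isIntegral_mul' {Λ : Type*} (K : Type*) {F : Type*} [CommRing Λ]
    [IsDomain Λ] [IsIntegrallyClosed Λ] [Field K] [Algebra Λ K] [IsFractionRing Λ K]
    [Field F] [Algebra K F] [Algebra Λ F] [IsScalarTower Λ K F] {w t : Λ} (hw : Prime w)
    (ht : ¬ w ∣ t) {f : F}
    (hwf : IsIntegral Λ (algebraMap Λ F w * f)) (htf : IsIntegral Λ (algebraMap Λ F t * f)) :
    IsIntegral Λ f := by
  have hw0 : w ≠ 0 := hw.ne_zero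
  have ht0 : t ≠ 0 := fun h => ht (h ▸ dvd_zero w)
  have hinj := IsFractionRing.injective Λ K
  have hwK : algebraMap Λ K w ≠ 0 := by simpa using hinj.ne hw0
  have hfK : IsIntegral K f := by
    have hcfK : IsIntegral K (algebraMap Λ F w * f) := hwf.tower_top
    have hmul : algebraMap Λ F w * f = algebraMap K F (algebraMap Λ K w) * f := by
      rw [← IsScalarTower.algebraMap_apply]
    have h1 : IsIntegral K (algebraMap K F (algebraMap Λ K w)⁻¹ * (algebraMap Λ F w * f)) :=
      (isIntegral_algebraMap).mul hcfK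
    have h2 : algebraMap K F (algebraMap Λ K w)⁻¹ * (algebraMap Λ F w * f) = f := by
      rw [hmul, ← mul_assoc, ← map_mul, inv_mul_cancel₀ hwK, map_one, one_mul]
    rwa [h2] at h1
  set π := minpoly K f with hπ
  have hπm : π.Monic := minpoly.monic hfK
  -- every coefficient of `π` lies in `Λ`
  have hcoeff : ∀ i, ∃ a : Λ, algebraMap Λ K a = π.coeff i := by
    intro i
    obtain ⟨a, ha⟩ := coeff_minpoly_mul_pow_mem K hw0 hwf i
    obtain ⟨b, hb⟩ := coeff_minpoly_mul_pow_mem K ht0 htf i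
    set e := π.natDegree - i with he
    have hab : a * t ^ e = b * w ^ e := by
      apply hinj
      rw [map_mul, map_mul, map_pow, map_pow, ha, hb]
      ring
    have hdvd : w ^ e ∣ a := by
      refine hw.pow_dvd_of_dvd_mul_right e ?_ ⟨b, by rw [hab]; ring⟩
      exact fun h => ht (hw.dvd_of_dvd_pow h)
    obtain ⟨ν, hν⟩ := hdvd
    refine ⟨ν, ?_⟩
    have hwe : algebraMap Λ K w ^ e ≠ 0 := pow_ne_zero _ hwK
    apply mul_right_cancel₀ hwe
    rw [← ha, hν, map_mul, map_pow]; ring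
  have hlifts : π ∈ lifts (algebraMap Λ K) := by
    rw [lifts_iff_coeff_lifts]
    intro i
    obtain ⟨a, ha⟩ := hcoeff i
    exact ⟨a, ha⟩
  obtain ⟨q, hq, -, hqm⟩ := lifts_and_degree_eq_and_monic hlifts hπm
  refine ⟨q, hqm, ?_⟩
  have : aeval f (q.map (algebraMap Λ K)) = 0 := by rw [hq]; exact minpoly.aeval K f
  rwa [aeval_map_algebraMap] at this

end RegularSequence

section Basis

open Pointwise

/-- `B / w B` is torsion-free over `Λ / w`, elementwise form inside `B`:
if `t • β ∈ w B` and `¬ w ∣ t` then `β ∈ w B`. -/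
theorem mem_smul_top_of_smul_mem {Λ : Type*} (K : Type*) {F : Type*} [CommRing Λ] [IsDomain Λ]
    [IsIntegrallyClosed Λ] [Field K] [Algebra Λ K] [IsFractionRing Λ K]
    [Field F] [Algebra K F] [Algebra Λ F] [IsScalarTower Λ K F]
    {w t : Λ} (hw : Prime w) (ht : ¬ w ∣ t)
    {β : integralClosure Λ F}
    (h : t • β ∈ w • (⊤ : Submodule Λ (integralClosure Λ F))) :
    β ∈ w • (⊤ : Submodule Λ (integralClosure Λ F)) := by
  rw [Submodule.mem_smul_pointwise_iff_exists] at h ⊢
  obtain ⟨β', -, hβ'⟩ := h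
  have hw0 : w ≠ 0 := hw.ne_zero
  have hwF : algebraMap Λ F w ≠ 0 := by
    have hinj : Function.Injective (algebraMap Λ F) := by
      rw [IsScalarTower.algebraMap_eq Λ K F]
      exact (algebraMap K F).injective.comp (IsFractionRing.injective Λ K)
    simpa using hinj.ne hw0
  set f : F := (β : F) / algebraMap Λ F w with hf
  have h1 : algebraMap Λ F w * f = (β : F) := by
    rw [hf]; field_simp
  have h2 : algebraMap Λ F t * f = (β' : F) := by
    have h3 : algebraMap Λ F w * (β' : F) = algebraMap Λ F t * (β : F) := by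
      have := congrArg (fun x : integralClosure Λ F => (x : F)) hβ'
      simpa [Algebra.smul_def] using this
    rw [hf]; field_simp; rw [← h3]
  have hfint : IsIntegral Λ f :=
    isIntegral_of_isIntegral_mul' K hw ht (h1 ▸ β.2) (h2 ▸ β'.2)
  refine ⟨⟨f, hfint⟩, Submodule.mem_top, ?_⟩
  apply Subtype.ext
  simpa [Algebra.smul_def] using h1

/-- **b1 (local freeness, elementwise form).**
`Λ` noetherian integrally closed domain, `K = Frac Λ`, `F / K` finite separable,
`w ∈ Λ` prime with `Λ / w` a PID (application: `Λ = R[x]`, `R` a DVR with uniformiser `w`).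
Then there is a family `b : Fin [F : K] → F` of integral elements such that
* `b` is `K`-linearly independent (hence a `K`-basis of `F`);
* (Nakayama) there is `ρ ≡ 1 mod w` with `ρ β ∈ ∑ Λ bᵢ` for every integral `β`
  (so the integral closure `B` is free with basis `b` after inverting `1 + wΛ`);
* (basis mod `w`) if `∑ cᵢ bᵢ ∈ w B` then `w ∣ cᵢ` for all `i`. -/
theorem exists_basis_mod {Λ : Type*} (K : Type*) {F : Type*} [CommRing Λ] [IsDomain Λ]
    [IsIntegrallyClosed Λ] [IsNoetherianRing Λ] [Field K] [Algebra Λ K] [IsFractionRing Λ K]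
    [Field F] [Algebra K F] [Algebra Λ F] [IsScalarTower Λ K F]
    [FiniteDimensional K F] [Algebra.IsSeparable K F]
    {w : Λ} (hw : Prime w) [IsPrincipalIdealRing (Λ ⧸ Ideal.span {w})] :
    ∃ b : Fin (Module.finrank K F) → F,
      (∀ i, IsIntegral Λ (b i)) ∧ LinearIndependent K b ∧
      (∃ ρ : Λ, w ∣ ρ - 1 ∧ ∀ β : F, IsIntegral Λ β →
        ∃ c : Fin (Module.finrank K F) → Λ,
          algebraMap Λ F ρ * β = ∑ i, algebraMap Λ F (c i) * b i) ∧
      (∀ (c : Fin (Module.finrank K F) → Λ) (β : F), IsIntegral Λ β →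
        ∑ i, algebraMap Λ F (c i) * b i = algebraMap Λ F w * β → ∀ i, w ∣ c i) := by
  classical
  have hinjF : Function.Injective (algebraMap Λ F) := by
    rw [IsScalarTower.algebraMap_eq Λ K F]
    exact (algebraMap K F).injective.comp (IsFractionRing.injective Λ K)
  have hfin : Module.Finite Λ (integralClosure Λ F) :=
    IsIntegralClosure.finite Λ K F (integralClosure Λ F)
  set I : Ideal Λ := Ideal.span {w} with hI
  have hIp : I.IsPrime := (Ideal.span_singleton_prime hw.ne_zero).mpr hw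
  have hIne : I ≠ ⊤ := hIp.ne_top
  set W : Submodule Λ (integralClosure Λ F) := w • (⊤ : Submodule Λ (integralClosure Λ F))
    with hW
  have : Module.Finite (Λ ⧸ I) (integralClosure Λ F ⧸ W) :=
    Module.Finite.of_restrictScalars_finite Λ _ _
  have : Module.IsTorsionFree (Λ ⧸ I) (integralClosure Λ F ⧸ W) := by
    refine ⟨fun r hr => ?_⟩
    rw [isSMulRegular_iff_right_eq_zero_of_smul]
    intro q hq
    obtain ⟨t, rfl⟩ := Ideal.Quotient.mk_surjective r
    obtain ⟨β, rfl⟩ := Submodule.Quotient.mk_surjective W q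
    have ht : ¬ w ∣ t := by
      intro hdvd
      have : Ideal.Quotient.mk I t = 0 :=
        Ideal.Quotient.eq_zero_iff_mem.mpr (Ideal.mem_span_singleton.mpr hdvd)
      exact hr.ne_zero this
    have hmem : t • β ∈ W := by
      rw [← Submodule.Quotient.mk_eq_zero W]
      exact hq
    exact (Submodule.Quotient.mk_eq_zero W).mpr (mem_smul_top_of_smul_mem K hw ht hmem)
  have : Module.Free (Λ ⧸ I) (integralClosure Λ F ⧸ W) :=
    Module.free_of_finite_type_torsion_free'
  let e := Module.Free.chooseBasis (Λ ⧸ I) (integralClosure Λ F ⧸ W)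
  set ι := Module.Free.ChooseBasisIndex (Λ ⧸ I) (integralClosure Λ F ⧸ W) with hι
  let _ : Fintype ι := Module.Free.ChooseBasisIndex.fintype _ _
  choose b' hb' using fun i => Submodule.Quotient.mk_surjective W (e i)
  have hmk : ∀ c : ι → Λ, Submodule.Quotient.mk (p := W) (∑ i, c i • b' i) =
      ∑ i, Ideal.Quotient.mk I (c i) • e i := by
    intro c
    change W.mkQ (∑ i, c i • b' i) = _
    rw [map_sum]
    refine Finset.sum_congr rfl fun i _ => ?_
    rw [← hb' i]
    rfl
  -- (4') basis mod w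
  have key4 : ∀ c : ι → Λ, (∑ i, c i • b' i) ∈ W → ∀ i, w ∣ c i := by
    intro c hc i
    have h0 : ∑ i, Ideal.Quotient.mk I (c i) • e i = 0 := by
      rw [← hmk, Submodule.Quotient.mk_eq_zero]; exact hc
    have := (Fintype.linearIndependent_iff.mp e.linearIndependent) _ h0 i
    exact Ideal.mem_span_singleton.mp (Ideal.Quotient.eq_zero_iff_mem.mp this)
  -- spanning mod w
  have span_mod : ∀ β : integralClosure Λ F, ∃ c : ι → Λ, β - ∑ i, c i • b' i ∈ W := by
    intro β
    choose c hc using fun i =>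
      Ideal.Quotient.mk_surjective (e.equivFun (Submodule.Quotient.mk (p := W) β) i)
    refine ⟨c, ?_⟩
    rw [← Submodule.Quotient.mk_eq_zero W, Submodule.Quotient.mk_sub, hmk, sub_eq_zero]
    conv_lhs => rw [← e.sum_equivFun (Submodule.Quotient.mk (p := W) β)]
    refine Finset.sum_congr rfl fun i _ => ?_
    rw [hc i]
  -- Nakayama
  set M : Submodule Λ (integralClosure Λ F) := Submodule.span Λ (Set.range b') with hM
  obtain ⟨ρ, hρ1, hρ⟩ : ∃ ρ : Λ, ρ - 1 ∈ I ∧ ∀ β : integralClosure Λ F, ρ • β ∈ M := by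
    have hle : (⊤ : Submodule Λ (integralClosure Λ F ⧸ M)) ≤
        I • (⊤ : Submodule Λ (integralClosure Λ F ⧸ M)) := by
      rintro q -
      obtain ⟨β, rfl⟩ := Submodule.Quotient.mk_surjective M q
      obtain ⟨c, hc⟩ := span_mod β
      rw [hW, Submodule.mem_smul_pointwise_iff_exists] at hc
      obtain ⟨β', -, hβ'⟩ := hc
      have hsum : (∑ i, c i • b' i) ∈ M :=
        Submodule.sum_mem _ fun i _ =>
          Submodule.smul_mem _ _ (Submodule.subset_span ⟨i, rfl⟩)
      have hβ : β = w • β' + ∑ i, c i • b' i := by rw [hβ']; abel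
      have : Submodule.Quotient.mk (p := M) β = w • Submodule.Quotient.mk (p := M) β' := by
        rw [hβ, Submodule.Quotient.mk_add, (Submodule.Quotient.mk_eq_zero M).mpr hsum,
          add_zero, Submodule.Quotient.mk_smul]
      rw [this]
      exact Submodule.smul_mem_smul (Ideal.mem_span_singleton_self w) Submodule.mem_top
    obtain ⟨ρ, hρ1, hρ⟩ := Submodule.exists_sub_one_mem_and_smul_eq_zero_of_fg_of_le_smul I
      (⊤ : Submodule Λ (integralClosure Λ F ⧸ M)) Module.Finite.fg_top hle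
    refine ⟨ρ, hρ1, fun β => ?_⟩
    have := hρ (Submodule.Quotient.mk β) Submodule.mem_top
    rwa [← Submodule.Quotient.mk_smul, Submodule.Quotient.mk_eq_zero] at this
  -- linear independence over Λ inside B
  have hpow : ∀ (k : ℕ) (c : ι → Λ), ∑ i, c i • b' i = 0 → ∀ i, w ^ k ∣ c i := by
    intro k
    induction k with
    | zero => intro c _ i; simp
    | succ k ih =>
      intro c hc i
      have hdiv := key4 c (hc ▸ W.zero_mem)
      choose d hd using hdiv
      have hd0 : ∑ i, d i • b' i = 0 := by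
        have h1 : w • ∑ i, d i • b' i = 0 := by
          rw [Finset.smul_sum, ← hc]
          refine Finset.sum_congr rfl fun i _ => ?_
          rw [hd i, mul_smul]
        have hw0 : w ≠ 0 := hw.ne_zero
        have hwB : algebraMap Λ (integralClosure Λ F) w ≠ 0 := by
          intro h
          apply hw0
          apply hinjF
          have := congrArg (algebraMap (integralClosure Λ F) F) h
          rw [← IsScalarTower.algebraMap_apply] at this
          simpa using this
        rw [Algebra.smul_def] at h1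
        exact (mul_eq_zero.mp h1).resolve_left hwB
      obtain ⟨x, hx⟩ := ih d hd0 i
      exact ⟨x, by rw [hd i, hx, pow_succ]; ring⟩
  have hliB : ∀ c : ι → Λ, ∑ i, c i • b' i = 0 → ∀ i, c i = 0 := by
    intro c hc i
    have hmem : c i ∈ ⨅ k : ℕ, I ^ k := by
      rw [Ideal.mem_iInf]
      intro k
      rw [hI, Ideal.span_singleton_pow, Ideal.mem_span_singleton]
      exact hpow k c hc i
    rw [Ideal.iInf_pow_eq_bot_of_isDomain I hIne] at hmem
    simpa using hmem
  have hliΛ : LinearIndependent Λ (fun i => ((b' i : integralClosure Λ F) : F)) := by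
    rw [Fintype.linearIndependent_iff]
    intro c hc i
    refine hliB c ?_ i
    apply Subtype.ext
    have : ((∑ i, c i • b' i : integralClosure Λ F) : F) = ∑ i, c i • ((b' i : integralClosure Λ F) : F) := by
      simp
    rw [this, hc]; rfl
  have hliK : LinearIndependent K (fun i => ((b' i : integralClosure Λ F) : F)) :=
    (LinearIndependent.iff_fractionRing Λ K).mp hliΛ
  -- spanning over K
  have hρ0 : ρ ≠ 0 := by
    rintro rfl
    rw [zero_sub, Ideal.neg_mem_iff] at hρ1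
    exact hIne ((Ideal.eq_top_iff_one I).mpr hρ1)
  have hspanΛ : ∀ β : integralClosure Λ F, ∃ c : ι → Λ,
      algebraMap Λ F ρ * (β : F) = ∑ i, algebraMap Λ F (c i) * ((b' i : integralClosure Λ F) : F) := by
    intro β
    have h := hρ β
    rw [hM, Submodule.mem_span_range_iff_exists_fun] at h
    obtain ⟨c, hc⟩ := h
    refine ⟨c, ?_⟩
    have := congrArg (fun x : integralClosure Λ F => (x : F)) hc
    simp only [Algebra.smul_def] at this
    simpa using this.symm
  have hspanK : (⊤ : Submodule K F) ≤ Submodule.span K (Set.range fun i => ((b' i : integralClosure Λ F) : F)) := by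
    rintro x -
    obtain ⟨y, hy0, hy⟩ := exists_integral_multiples Λ K ({x} : Finset F)
    have hyx : IsIntegral Λ (y • x) := hy x (Finset.mem_singleton_self x)
    obtain ⟨c, hc⟩ := hspanΛ ⟨y • x, hyx⟩
    have hyρ : algebraMap Λ K (ρ * y) ≠ 0 := by
      simpa using (IsFractionRing.injective Λ K).ne (mul_ne_zero hρ0 hy0)
    have hx : x = (algebraMap Λ K (ρ * y))⁻¹ • ∑ i, algebraMap Λ K (c i) • ((b' i : integralClosure Λ F) : F) := by
      rw [eq_inv_smul_iff₀ hyρ]
      have : ∑ i, algebraMap Λ K (c i) • ((b' i : integralClosure Λ F) : F) =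
          ∑ i, algebraMap Λ F (c i) * ((b' i : integralClosure Λ F) : F) := by
        refine Finset.sum_congr rfl fun i _ => ?_
        rw [Algebra.smul_def, ← IsScalarTower.algebraMap_apply]
      rw [this, ← hc, Algebra.smul_def, ← IsScalarTower.algebraMap_apply, map_mul]
      simp only [Algebra.smul_def, mul_assoc]
    rw [hx]
    refine Submodule.smul_mem _ _ (Submodule.sum_mem _ fun i _ => Submodule.smul_mem _ _ ?_)
    exact Submodule.subset_span ⟨i, rfl⟩
  let bK : Module.Basis ι K F := Module.Basis.mk hliK hspanK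
  have hcard : Fintype.card ι = Module.finrank K F :=
    (Module.finrank_eq_card_basis bK).symm
  let σ : Fin (Module.finrank K F) ≃ ι := (Fintype.equivFinOfCardEq hcard).symm
  refine ⟨fun j => ((b' (σ j) : integralClosure Λ F) : F), fun j => (b' (σ j)).2,
    hliK.comp σ σ.injective, ⟨ρ, Ideal.mem_span_singleton.mp hρ1, fun β hβ => ?_⟩,
    fun c β hβ hc j => ?_⟩
  · obtain ⟨c, hc⟩ := hspanΛ ⟨β, hβ⟩
    refine ⟨fun j => c (σ j), ?_⟩
    rw [hc]
    exact (Equiv.sum_comp σ fun i => algebraMap Λ F (c i) * ((b' i : integralClosure Λ F) : F)).symm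
  · have h1 := key4 (fun i => c (σ.symm i)) ?_ (σ j)
    · simpa using h1
    · rw [hW, Submodule.mem_smul_pointwise_iff_exists]
      refine ⟨⟨β, hβ⟩, Submodule.mem_top, ?_⟩
      apply Subtype.ext
      have e1 : ((w • (⟨β, hβ⟩ : integralClosure Λ F) : integralClosure Λ F) : F) =
          algebraMap Λ F w * β := by
        simp [Algebra.smul_def]
      have e2 : ((∑ i, c (σ.symm i) • b' i : integralClosure Λ F) : F) =
          ∑ j, algebraMap Λ F (c j) * ((b' (σ j) : integralClosure Λ F) : F) := by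
        rw [← Equiv.sum_comp σ]
        simp [Algebra.smul_def]
      rw [e1, e2, hc]

end Basis

end Fermat.Agent.S18.H393

end
-- ===== PACK-END S18/H393/LocalFree.lean

-- ===== PACK-BEGIN S18/H274/DetRank.lean
section


/-!
# S18 / b2 (helper274) — DET-RANK

Mathlib-only linear algebra.  `R` a commutative ring, `π : R →+* K` a surjection onto a field
whose kernel is contained in `(t)`.  If the reduction `M.map π` of a square matrix `M` kills `s`
linearly independent vectors, then `t ^ s ∣ det M`.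

Main statements (all sorry-free):

* `pow_card_dvd_det_of_col_dvd` : columns in a finset `S` divisible by `t`  ⇒ `t ^ #S ∣ det`.
* `pow_dvd_det_of_linearIndependent_ker` : the elementwise kernel form.
* `pow_sub_rank_dvd_det` : `t ^ (card n - rank (M.map π)) ∣ det M`.
-/

namespace Fermat.Agent.S18.H274

open Matrix Module

variable {R : Type*} [CommRing R]

/-- If all columns with index in `S` of a square matrix are divisible by `t`, then
`t ^ #S` divides the determinant. -/
theorem pow_card_dvd_det_of_col_dvd {n : Type*} [Fintype n] [DecidableEq n]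
    (t : R) (N : Matrix n n R) (S : Finset n) (h : ∀ j ∈ S, ∀ i, t ∣ N i j) :
    t ^ S.card ∣ N.det := by
  classical
  choose! Q hQ using h
  let Q' : Matrix n n R := fun i j => if j ∈ S then Q j i else N i j
  let d : n → R := fun j => if j ∈ S then t else 1
  have hN : N = Q' * Matrix.diagonal d := by
    ext i j
    rw [Matrix.mul_diagonal]
    by_cases hj : j ∈ S
    · simp only [Q', d, hj, if_true]
      rw [hQ j hj i, mul_comm]
    · simp [Q', d, hj]
  have hd : ∏ j, d j = t ^ S.card := by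
    simp only [d]
    rw [Finset.prod_ite_mem, Finset.univ_inter, Finset.prod_const]
  rw [hN, Matrix.det_mul, Matrix.det_diagonal, hd]
  exact Dvd.intro_left _ rfl

/-- **DET-RANK, kernel form.**  `π : R →+* K` a surjection onto a field with `ker π ⊆ (t)`.
If the reduced matrix `M.map π` kills `s` linearly independent vectors then `t ^ s ∣ det M`. -/
theorem pow_dvd_det_of_linearIndependent_ker {K : Type*} [Field K] (π : R →+* K)
    (hπ : Function.Surjective π) (t : R) (hker : ∀ x, π x = 0 → t ∣ x)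
    {n : Type*} [Fintype n] [DecidableEq n] (M : Matrix n n R) {s : ℕ}
    (v : Fin s → n → K) (hv : LinearIndependent K v)
    (hMv : ∀ a, (M.map π).mulVec (v a) = 0) :
    t ^ s ∣ M.det := by
  classical
  -- extend `v` to a basis of `n → K`
  have hs := hv.linearIndepOn_id
  let B := Basis.extend hs
  have hB : ∀ x, B x = (x : n → K) := fun x => by rw [Basis.coe_extend]
  have hsub : Set.range v ⊆ hs.extend (Set.subset_univ _) := hs.subset_extend _
  let _ : Fintype (hs.extend (Set.subset_univ (Set.range v))) :=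
    FiniteDimensional.fintypeBasisIndex B
  let e : n ≃ (hs.extend (Set.subset_univ (Set.range v))) := (Pi.basisFun K n).indexEquiv B
  -- the matrix of the new basis and a lift
  let Pbar : Matrix n n K := fun i j => (e j : n → K) i
  have hPbar_unit : IsUnit Pbar.det := by
    rw [← Matrix.isUnit_iff_isUnit_det, ← Matrix.linearIndependent_cols_iff_isUnit]
    have h1 : LinearIndependent K (fun j => B (e j)) :=
      B.linearIndependent.comp e e.injective
    have h2 : Pbar.col = fun j => B (e j) := by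
      funext j
      rw [hB]
      rfl
    rw [h2]
    exact h1
  let P : Matrix n n R := fun i j => Classical.choose (hπ (Pbar i j))
  have hP : P.map π = Pbar := by
    ext i j
    exact Classical.choose_spec (hπ (Pbar i j))
  -- the set of columns coming from `v`
  let S : Finset n := Finset.univ.image (fun a : Fin s => e.symm ⟨v a, hsub ⟨a, rfl⟩⟩)
  have hScard : S.card = s := by
    rw [Finset.card_image_of_injective]
    · simp
    · intro a a' h
      have := e.symm.injective h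
      exact hv.injective (Subtype.mk.inj this)
  have hcol : ∀ j ∈ S, ∀ i, t ∣ (M * P) i j := by
    intro j hj i
    obtain ⟨a, -, rfl⟩ := Finset.mem_image.mp hj
    apply hker
    rw [RingHom.map_matrix_mul, hP]
    have h3 := congrFun (hMv a) i
    simp only [Matrix.mulVec, dotProduct, Pi.zero_apply] at h3
    rw [Matrix.mul_apply]
    simp only [Pbar, Equiv.apply_symm_apply]
    exact h3
  have h4 := pow_card_dvd_det_of_col_dvd t (M * P) S hcol
  rw [hScard, Matrix.det_mul] at h4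
  -- `det P` is coprime to `t`
  have hdetP : π P.det = Pbar.det := by
    rw [RingHom.map_det, RingHom.mapMatrix_apply, hP]
  obtain ⟨y, hy⟩ := hπ (↑hPbar_unit.unit⁻¹ : K)
  have h5 : π (y * P.det - 1) = 0 := by
    rw [map_sub, map_mul, hy, hdetP, map_one, sub_eq_zero]
    exact hPbar_unit.val_inv_mul
  obtain ⟨z, hz⟩ := hker _ h5
  have hcop : IsCoprime t P.det := ⟨-z, y, by linear_combination hz⟩
  exact (hcop.pow_left).dvd_of_dvd_mul_right h4

/-- **DET-RANK, rank form.**  `t ^ (card n - rank (M mod t)) ∣ det M`. -/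
theorem pow_sub_rank_dvd_det {K : Type*} [Field K] (π : R →+* K)
    (hπ : Function.Surjective π) (t : R) (hker : ∀ x, π x = 0 → t ∣ x)
    {n : Type*} [Fintype n] [DecidableEq n] (M : Matrix n n R) :
    t ^ (Fintype.card n - (M.map π).rank) ∣ M.det := by
  classical
  let f := (M.map π).mulVecLin
  have hrn := LinearMap.finrank_range_add_finrank_ker f
  have hrank : (M.map π).rank = finrank K (LinearMap.range f) := rfl
  have hcard : finrank K (n → K) = Fintype.card n := Module.finrank_fintype_fun_eq_card K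
  have hk : finrank K (LinearMap.ker f) = Fintype.card n - (M.map π).rank := by
    rw [hrank]; omega
  let b := Module.finBasis K (LinearMap.ker f)
  rw [← hk]
  refine pow_dvd_det_of_linearIndependent_ker π hπ t hker M
    (fun a => ((b a : LinearMap.ker f) : n → K)) ?_ ?_
  · have := b.linearIndependent
    exact this.map' (LinearMap.ker f).subtype (Submodule.ker_subtype _)
  · intro a
    have := (b a).2
    rw [LinearMap.mem_ker] at this
    exact this

end Fermat.Agent.S18.H274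

end
-- ===== PACK-END S18/H274/DetRank.lean

-- ===== PACK-BEGIN S18/B12/H84/RegularAlong.lean
section


/-!
# S18 / b2.5 / A9 (helper84): regularity along a Dedekind special fibre

`regularAlongOfDedekind` = `RegularAlongOfDedekindStatement` of `origin/helper33`
`Fermat/Agent/S18/B12/Spec3.lean`, unfolded (Mathlib-only; the `Spec3`-typed wrapper is
`Fermat/Agent/S18/B12/H84/Stmt.lean`):

if `B/ϖB` is a Dedekind domain, then every maximal ideal `𝔪 ∋ ϖ` of `B` is locally generated by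
`ϖ` and one more element `t`: for every `a ∈ 𝔪` there is `s ∉ 𝔪` with `s * a ∈ (ϖ, t)`.

Generic core: `exists_local_generator` (a maximal ideal of a Dedekind domain is locally
principal, elementwise form).
-/

set_option autoImplicit false

namespace Fermat.Agent.S18.B12.H84

universe u

/-- A maximal ideal `M` of a Dedekind domain is locally principal: there is `t ∈ M` and for
every `a ∈ M` an `s ∉ M` with `s * a ∈ (t)`.  (Elementwise form; `s` may even be chosen
independently of `a`.) -/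
theorem exists_local_generator {D : Type u} [CommRing D] [IsDedekindDomain D]
    (M : Ideal D) (hM : M.IsMaximal) :
    ∃ t ∈ M, ∃ s : D, s ∉ M ∧ ∀ a ∈ M, s * a ∈ Ideal.span {t} := by
  by_cases h0 : M = ⊥
  · refine ⟨0, M.zero_mem, 1, ?_, ?_⟩
    · exact (Ideal.ne_top_iff_one M).mp hM.ne_top
    · intro a ha
      rw [h0, Ideal.mem_bot] at ha
      rw [ha, mul_zero]
      exact Ideal.zero_mem _
  · obtain ⟨t, ht1, ht2⟩ := Ideal.exists_mem_pow_notMem_pow_succ M h0 hM.ne_top 1
    rw [pow_one] at ht1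
    have hle : Ideal.span {t} ≤ M := (Ideal.span_singleton_le_iff_mem M).mpr ht1
    obtain ⟨J, hJ⟩ := Ideal.dvd_iff_le.mpr hle
    have hJM : ¬ J ≤ M := by
      intro hJM
      apply ht2
      have h1 : Ideal.span {t} ≤ M * M := by
        rw [hJ]
        exact Ideal.mul_mono_right hJM
      have h2 : t ∈ M * M := h1 (Ideal.mem_span_singleton_self t)
      simpa [pow_succ] using h2
    obtain ⟨s, hsJ, hsM⟩ := SetLike.not_le_iff_exists.mp hJM
    refine ⟨t, ht1, s, hsM, fun a ha => ?_⟩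
    rw [hJ, mul_comm s a]
    exact Ideal.mul_mem_mul ha hsJ

/-- **A9** (`RegularAlongOfDedekindStatement`, unfolded). -/
theorem regularAlongOfDedekind (B : Type u) [CommRing B] (ϖ : B)
    (hD : IsDedekindDomain (B ⧸ Ideal.span {ϖ})) (𝔪 : Ideal B) (h𝔪 : 𝔪.IsMaximal)
    (hϖ : ϖ ∈ 𝔪) :
    ∃ t ∈ 𝔪, ∀ a ∈ 𝔪, ∃ s : B, s ∉ 𝔪 ∧ s * a ∈ Ideal.span {ϖ, t} := by
  let q : B →+* B ⧸ Ideal.span {ϖ} := Ideal.Quotient.mk (Ideal.span {ϖ})
  have hq : Function.Surjective q := Ideal.Quotient.mk_surjective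
  have hker : RingHom.ker q = Ideal.span {ϖ} := Ideal.mk_ker
  have hkerle : RingHom.ker q ≤ 𝔪 := by
    rw [hker]
    exact (Ideal.span_singleton_le_iff_mem 𝔪).mpr hϖ
  have hcomap : (𝔪.map q).comap q = 𝔪 := by
    rw [Ideal.comap_map_of_surjective q hq]
    refine le_antisymm (sup_le le_rfl ?_) le_sup_left
    rw [← RingHom.ker_eq_comap_bot]
    exact hkerle
  have hmax : (𝔪.map q).IsMaximal := by
    rcases Ideal.map_eq_top_or_isMaximal_of_surjective q hq h𝔪 with h | h
    · exfalso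
      apply h𝔪.ne_top
      rw [← hcomap, h, Ideal.comap_top]
    · exact h
  obtain ⟨tbar, htbar, sbar, hsbar, hall⟩ := exists_local_generator (𝔪.map q) hmax
  obtain ⟨t, rfl⟩ := hq tbar
  obtain ⟨s, rfl⟩ := hq sbar
  have ht : t ∈ 𝔪 := by
    rw [← hcomap]
    exact Ideal.mem_comap.mpr htbar
  have hs : s ∉ 𝔪 := fun h => hsbar (Ideal.mem_map_of_mem q h)
  refine ⟨t, ht, fun a ha => ⟨s, hs, ?_⟩⟩
  have h1 : q s * q a ∈ Ideal.span {q t} := hall (q a) (Ideal.mem_map_of_mem q ha)
  obtain ⟨cbar, hc⟩ := Ideal.mem_span_singleton'.mp h1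
  obtain ⟨c, rfl⟩ := hq cbar
  have h2 : s * a - c * t ∈ Ideal.span {ϖ} := by
    rw [← hker, RingHom.mem_ker, map_sub, map_mul, map_mul, hc, sub_self]
  have h3 : s * a = (s * a - c * t) + c * t := by ring
  rw [h3]
  refine Ideal.add_mem _ ?_ ?_
  · exact Ideal.span_mono (by simp) h2
  · exact Ideal.mul_mem_left _ c (Ideal.subset_span (by simp))

end Fermat.Agent.S18.B12.H84

end
-- ===== PACK-END S18/B12/H84/RegularAlong.lean

-- ===== PACK-BEGIN S37/H278/DetDvd.lean
section


/-!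
# S37 / S18, piece b2-core (helper278): determinant divisibility

A matrix whose rows indexed by `Z` are divisible by `t`, whose column `i₀` is divisible by `t`, and
whose entries `(i, i₀)` with `i ∈ Z` are divisible by `t ^ 2`, has determinant divisible by
`t ^ (#Z + 1)`.
-/

set_option autoImplicit false

namespace Fermat.Agent.S37.H278

open Matrix

theorem pow_card_dvd_det {R : Type*} [CommRing R] {ι : Type*} [Fintype ι] [DecidableEq ι]
    (t : R) (T : Matrix ι ι R) (Z : Finset ι)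
    (h1 : ∀ i ∈ Z, ∀ j, t ∣ T i j) :
    t ^ Z.card ∣ T.det := by
  classical
  choose! r hr using h1
  let T' : Matrix ι ι R := Matrix.of fun i j => if i ∈ Z then r i j else T i j
  have hT : T = Matrix.of fun i j => (if i ∈ Z then t else 1) * T' i j := by
    ext i j
    by_cases hi : i ∈ Z
    · simp [T', hi, hr i hi j]
    · simp [T', hi]
  rw [hT, Matrix.det_mul_column]
  have : (∏ i : ι, if i ∈ Z then t else 1) = t ^ Z.card := by
    rw [Finset.prod_ite_mem, Finset.univ_inter, Finset.prod_const]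
  rw [this]
  exact Dvd.intro _ rfl

theorem pow_card_succ_dvd_det {R : Type*} [CommRing R] {ι : Type*} [Fintype ι] [DecidableEq ι]
    (t : R) (T : Matrix ι ι R) (Z : Finset ι) (i₀ : ι)
    (h1 : ∀ i ∈ Z, ∀ j, t ∣ T i j)
    (h2 : ∀ i ∈ Z, t ^ 2 ∣ T i i₀)
    (h3 : ∀ j, t ∣ T j i₀) :
    t ^ (Z.card + 1) ∣ T.det := by
  classical
  choose! r hr using h1
  choose! q hq using h2
  choose p hp using h3
  let T' : Matrix ι ι R := Matrix.of fun i j =>
    if j = i₀ then (if i ∈ Z then q i else p i) else (if i ∈ Z then r i j else T i j)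
  have hT : T = Matrix.of fun i j =>
      (if i ∈ Z then t else 1) * ((Matrix.of fun i j => (if j = i₀ then t else 1) * T' i j) i j) := by
    ext i j
    by_cases hi : i ∈ Z <;> by_cases hj : j = i₀
    · subst hj; simp [T', hi, hq i hi]; ring
    · simp [T', hi, hj, hr i hi j]
    · subst hj; simp [T', hi, hp i]
    · simp [T', hi, hj]
  rw [hT, Matrix.det_mul_column, Matrix.det_mul_row]
  have e1 : (∏ i : ι, if i ∈ Z then t else 1) = t ^ Z.card := by
    rw [Finset.prod_ite_mem, Finset.univ_inter, Finset.prod_const]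
  have e2 : (∏ j : ι, if j = i₀ then t else 1) = t := by
    rw [Finset.prod_ite_eq' Finset.univ i₀ (fun _ => t)]
    simp
  rw [e1, e2, pow_succ]
  exact Dvd.intro (T'.det) (by ring)

end Fermat.Agent.S37.H278

end
-- ===== PACK-END S37/H278/DetDvd.lean

-- ===== PACK-BEGIN S18/H425/HsepLocal.lean
section


/-!
# S18 / b2.5 HSEP (helper425): local lemmas

* `isSeparable_of_aeval_derivative_ne_zero` : over a field, a root `y` of `P` with `P'(y) ≠ 0`
  is separable.
* `isUnit_discr_of_isSeparable_quotient` : `R` local, `S` finite free over `R`, `𝔪 S` maximal and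
  `S/𝔪S` separable over `R/𝔪` (elementwise) ⟹ the discriminant of any basis is a unit.

Mathlib-only.
-/

set_option autoImplicit false

namespace Fermat.Agent.S18.H425

open Polynomial

/-- A root `y` of `P` with `P'(y) ≠ 0` is separable over the base field. -/
theorem isSeparable_of_aeval_derivative_ne_zero {K F : Type*} [Field K] [Field F] [Algebra K F]
    (y : F) (P : K[X]) (h0 : aeval y P = 0) (h1 : aeval y (derivative P) ≠ 0) :
    IsSeparable K y := by
  have hP0 : P ≠ 0 := by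
    rintro rfl
    simp at h1
  have hint : IsIntegral K y := (isAlgebraic_iff_isIntegral).mp ⟨P, hP0, h0⟩
  obtain ⟨Q, hQ⟩ := minpoly.dvd K y h0
  have hirr : Irreducible (minpoly K y) := minpoly.irreducible hint
  rw [IsSeparable, separable_iff_derivative_ne_zero hirr]
  intro hd
  apply h1
  rw [hQ, derivative_mul, hd, zero_mul, zero_add, map_mul, minpoly.aeval, zero_mul]

open IsLocalRing in
/-- `R` local, `S` finite free over `R` with basis `b`.  If `𝔪 S` is a maximal ideal of `S` and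
every element of `S / 𝔪 S` is separable over `R / 𝔪`, then `discr R b` is a unit. -/
theorem isUnit_discr_of_isSeparable_quotient {R S : Type*} [CommRing R] [CommRing S]
    [Algebra R S] [IsLocalRing R] [Module.Free R S] [Module.Finite R S]
    {ι : Type*} [Fintype ι] [DecidableEq ι] (b : Module.Basis ι R S)
    (hmax : (Ideal.map (algebraMap R S) (maximalIdeal R)).IsMaximal)
    (hsep : ∀ y : S ⧸ Ideal.map (algebraMap R S) (maximalIdeal R),
      IsSeparable (R ⧸ maximalIdeal R) y) :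
    IsUnit (Algebra.discr R b) := by
  let : Field (R ⧸ maximalIdeal R) := Ideal.Quotient.field _
  let : Field (S ⧸ Ideal.map (algebraMap R S) (maximalIdeal R)) := Ideal.Quotient.field _
  have : Algebra.IsSeparable (R ⧸ maximalIdeal R)
      (S ⧸ Ideal.map (algebraMap R S) (maximalIdeal R)) := ⟨hsep⟩
  have : Module.Finite (R ⧸ maximalIdeal R)
      (S ⧸ Ideal.map (algebraMap R S) (maximalIdeal R)) :=
    Module.Finite.of_restrictScalars_finite R _ _
  have hne := Algebra.discr_not_zero_of_basis (R ⧸ maximalIdeal R) (basisQuotient b)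
  have hmk : Algebra.discr (R ⧸ maximalIdeal R) (basisQuotient b) =
      Ideal.Quotient.mk (maximalIdeal R) (Algebra.discr R b) := by
    rw [Algebra.discr_def, Algebra.discr_def, RingHom.map_det]
    congr 1
    ext i j
    simp only [Algebra.traceMatrix_apply, Algebra.traceForm_apply, basisQuotient_apply,
      RingHom.mapMatrix_apply, Matrix.map_apply, ← map_mul]
    exact Algebra.trace_quotient_mk (b i * b j)
  rw [hmk] at hne
  by_contra hu
  apply hne
  rw [Ideal.Quotient.eq_zero_iff_mem]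
  exact (IsLocalRing.mem_maximalIdeal _).mpr hu

end Fermat.Agent.S18.H425

end
-- ===== PACK-END S18/H425/HsepLocal.lean

-- ===== PACK-BEGIN S18/H214/LocalUFD.lean
section


/-!
# S18, route K, pieces b3/b4 — local structure at a closed point of the special fibre

Mathlib-only.  `A` is a noetherian local domain, `w ∈ A` a non-unit such that `A ⧸ (w)` is a
principal ideal domain (in the application: `A = B_𝔓`, `𝔓 ∋ w` a maximal ideal of the chart `B`,
and `A ⧸ (w)` is the local ring of the *normal* special fibre, piece b2).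

* `isPrincipal_of_notMem_of_map_isPrincipal` : a prime `𝔮 ∌ w` whose image in `A ⧸ (w)` is principal
  is principal (Nakayama).
* `ufd_of_quotient_isPrincipalIdealRing` : `A` is a UFD (Kaplansky's criterion).
* `exists_unit_mul_pow_of_dvd_count` : in a UFD, an element all of whose prime multiplicities are
  divisible by `p` is a unit times a `p`-th power.
* `local_kummer_structure` : (LS) if `u = a / s` with `a ≡ s ≢ 0 mod w` and `u ∈ (A_(π))ˣ · (Fˣ)^p`
  for every prime element `π` of `A` not associated to `w`, then `u = c · (t₁ / t₂)^p` with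
  `c ∈ Aˣ`, `c ≡ 1`, `t₁ ≡ t₂ ≢ 0 mod w`.
-/

set_option autoImplicit false

namespace Fermat.Agent.S18.H214

section Principal

variable {A : Type*} [CommRing A]

/-- Nakayama: if `w` lies in the Jacobson radical, `𝔮` is a finitely generated prime ideal not
containing `w`, and the image of `𝔮` in `A ⧸ (w)` is principal, then `𝔮` is principal. -/
theorem isPrincipal_of_notMem_of_map_isPrincipal (w : A) (hw : w ∈ (⊥ : Ideal A).jacobson)
    (𝔮 : Ideal A) [h𝔮 : 𝔮.IsPrime] (hfg : 𝔮.FG) (hq : w ∉ 𝔮)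
    (hprin : (𝔮.map (Ideal.Quotient.mk (Ideal.span {w}))).IsPrincipal) :
    ∃ f : A, 𝔮 = Ideal.span {f} := by
  obtain ⟨fbar, hfbar⟩ := hprin
  have hfmem : fbar ∈ 𝔮.map (Ideal.Quotient.mk (Ideal.span {w})) := by
    rw [hfbar]; exact Submodule.mem_span_singleton_self _
  obtain ⟨f, hf, rfl⟩ :=
    (Ideal.mem_map_iff_of_surjective _ Ideal.Quotient.mk_surjective).1 hfmem
  refine ⟨f, le_antisymm ?_ ((Ideal.span_singleton_le_iff_mem _).2 hf)⟩
  have key : 𝔮 ≤ Ideal.span {f} ⊔ (Ideal.span {w}) • 𝔮 := by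
    intro g hg
    have hgm : Ideal.Quotient.mk (Ideal.span {w}) g ∈
        𝔮.map (Ideal.Quotient.mk (Ideal.span {w})) := Ideal.mem_map_of_mem _ hg
    rw [hfbar] at hgm
    obtain ⟨cbar, hc⟩ := Submodule.mem_span_singleton.1 hgm
    obtain ⟨c, rfl⟩ := Ideal.Quotient.mk_surjective cbar
    have h1 : g - c * f ∈ Ideal.span {w} := by
      rw [← Ideal.Quotient.eq, ← hc]; simp [smul_eq_mul]
    obtain ⟨h, hh⟩ := Ideal.mem_span_singleton'.1 h1
    have h2 : h * w ∈ 𝔮 := by
      rw [hh]; exact 𝔮.sub_mem hg (𝔮.mul_mem_left _ hf)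
    have h3 : h ∈ 𝔮 := (h𝔮.mem_or_mem h2).resolve_right hq
    have h4 : g = c * f + w * h := by linear_combination hh.symm
    rw [h4]
    refine Submodule.add_mem_sup (Ideal.mul_mem_left _ _ (Ideal.mem_span_singleton_self f)) ?_
    exact Submodule.smul_mem_smul (Ideal.mem_span_singleton_self w) h3
  exact Submodule.le_of_le_smul_of_le_jacobson_bot hfg
    ((Ideal.span_singleton_le_iff_mem _).2 hw) key

/-- A noetherian local domain `A` with a nonzero non-unit `w` such that `(w)` is prime and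
`A ⧸ (w)` is a principal ideal ring is a UFD. -/
theorem ufd_of_quotient_isPrincipalIdealRing [IsDomain A] [IsNoetherianRing A] [IsLocalRing A]
    (w : A) (hw0 : w ≠ 0) (hw : ¬ IsUnit w) (hwp : (Ideal.span {w}).IsPrime)
    [IsPrincipalIdealRing (A ⧸ Ideal.span {w})] : UniqueFactorizationMonoid A := by
  refine UniqueFactorizationMonoid.iff_exists_prime_mem_of_isPrime.2 fun I hI hIp => ?_
  by_cases hwI : w ∈ I
  · exact ⟨w, hwI, (Ideal.span_singleton_prime hw0).1 hwp⟩
  · have hjac : w ∈ (⊥ : Ideal A).jacobson := by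
      rw [IsLocalRing.jacobson_eq_maximalIdeal ⊥ bot_ne_top]
      exact (IsLocalRing.mem_maximalIdeal w).2 hw
    obtain ⟨f, hf⟩ := isPrincipal_of_notMem_of_map_isPrincipal w hjac I
      (IsNoetherian.noetherian I) hwI (IsPrincipalIdealRing.principal _)
    have hf0 : f ≠ 0 := by
      rintro rfl
      apply hI
      rw [hf]; simp
    refine ⟨f, hf ▸ Ideal.mem_span_singleton_self f, (Ideal.span_singleton_prime hf0).1 ?_⟩
    rw [← hf]; exact hIp

end Principal

section UFD

variable {A : Type*} [CommRing A] [IsDomain A] [UniqueFactorizationMonoid A]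

/-- In a UFD, a nonzero element `n` which at every prime `π` dividing it is a `π`-adic unit times a
`p`-th power (written without denominators: `n * s' * z₂ ^ p = a' * z₁ ^ p` with `π ∤ a' s'`) is a
unit times a `p`-th power. -/
theorem exists_unit_mul_pow_of_forall_prime (p : ℕ) (n : A) (hn : n ≠ 0)
    (h : ∀ π : A, Prime π → π ∣ n → ∃ a' s' z₁ z₂ : A, ¬ π ∣ a' ∧ ¬ π ∣ s' ∧ z₁ ≠ 0 ∧ z₂ ≠ 0 ∧
      n * s' * z₂ ^ p = a' * z₁ ^ p) :
    ∃ (c : Aˣ) (z : A), n = c * z ^ p := by
  classical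
  have hn' : Associates.mk n ≠ 0 := Associates.mk_ne_zero.2 hn
  have hcount : ∀ q : Associates A, Irreducible q →
      p ∣ Associates.count q (Associates.mk n).factors := by
    intro q hq
    obtain ⟨π, rfl⟩ := Associates.mk_surjective q
    have hπirr : Irreducible π := Associates.irreducible_mk.1 hq
    have hπ : Prime π := UniqueFactorizationMonoid.irreducible_iff_prime.1 hπirr
    by_cases hdvd : π ∣ n
    · obtain ⟨a', s', z₁, z₂, ha', hs', hz₁, hz₂, heq⟩ := h π hπ hdvd
      have ha'0 : a' ≠ 0 := fun h0 => ha' (h0 ▸ dvd_zero π)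
      have hs'0 : s' ≠ 0 := fun h0 => hs' (h0 ▸ dvd_zero π)
      have hca : Associates.count (Associates.mk π) (Associates.mk a').factors = 0 := by
        by_contra hne
        exact ha' ((Associates.count_ne_zero_iff_dvd ha'0 hπirr).1 hne)
      have hcs : Associates.count (Associates.mk π) (Associates.mk s').factors = 0 := by
        by_contra hne
        exact hs' ((Associates.count_ne_zero_iff_dvd hs'0 hπirr).1 hne)
      have e1 : Associates.mk (n * s' * z₂ ^ p) = Associates.mk (a' * z₁ ^ p) := by rw [heq]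
      have e2 := congrArg (fun x => Associates.count (Associates.mk π) x.factors) e1
      simp only [Associates.mk_mul_mk.symm, Associates.mk_pow] at e2
      rw [Associates.count_mul (mul_ne_zero hn' (Associates.mk_ne_zero.2 hs'0))
          (pow_ne_zero _ (Associates.mk_ne_zero.2 hz₂)) hq,
        Associates.count_mul hn' (Associates.mk_ne_zero.2 hs'0) hq,
        Associates.count_mul (Associates.mk_ne_zero.2 ha'0)
          (pow_ne_zero _ (Associates.mk_ne_zero.2 hz₁)) hq,
        Associates.count_pow (Associates.mk_ne_zero.2 hz₂) hq,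
        Associates.count_pow (Associates.mk_ne_zero.2 hz₁) hq, hca, hcs] at e2
      rw [add_zero, zero_add] at e2
      have e3 : Associates.count (Associates.mk π) (Associates.mk n).factors =
          p * Associates.count (Associates.mk π) (Associates.mk z₁).factors -
            p * Associates.count (Associates.mk π) (Associates.mk z₂).factors := by
        omega
      rw [e3, ← Nat.mul_sub]
      exact dvd_mul_right _ _
    · have : Associates.count (Associates.mk π) (Associates.mk n).factors = 0 := by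
        by_contra hne
        exact hdvd ((Associates.count_ne_zero_iff_dvd hn hπirr).1 hne)
      rw [this]; exact dvd_zero p
  obtain ⟨b, hb⟩ := Associates.is_pow_of_dvd_count hn' hcount
  obtain ⟨z, rfl⟩ := Associates.mk_surjective b
  rw [← Associates.mk_pow, Associates.mk_eq_mk_iff_associated] at hb
  obtain ⟨c, hc⟩ := hb.symm
  exact ⟨c, z, by rw [← hc, mul_comm]⟩

/-- (LS) **Local structure of a Kummer datum.**  `A` a local UFD, `w` a prime element with
`A ⧸ (w)` integrally closed.  Let `u = a / s` with `a ≡ s ≢ 0 mod w`, and suppose that at every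
prime element `π` not associated to `w` the element `u` is a `π`-adic unit times a `p`-th power.
Then `u = c · (t₁ / t₂) ^ p` with `c ∈ Aˣ`, `c ≡ 1 mod w` and `t₁ ≡ t₂ ≢ 0 mod w`. -/
theorem local_kummer_structure [IsLocalRing A] (w : A) (hw : Prime w)
    [IsDomain (A ⧸ Ideal.span {w})] [IsIntegrallyClosed (A ⧸ Ideal.span {w})]
    (p : ℕ) (hp : p ≠ 0) (a s : A) (ha : ¬ w ∣ a) (hs : ¬ w ∣ s) (has : w ∣ a - s)
    (h : ∀ π : A, Prime π → ¬ Associated π w → ∃ a' s' z₁ z₂ : A, ¬ π ∣ a' ∧ ¬ π ∣ s' ∧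
      z₁ ≠ 0 ∧ z₂ ≠ 0 ∧ a * s' * z₂ ^ p = a' * s * z₁ ^ p) :
    ∃ (c : Aˣ) (t₁ t₂ : A), ¬ w ∣ t₁ ∧ ¬ w ∣ t₂ ∧ w ∣ t₁ - t₂ ∧ w ∣ (c : A) - 1 ∧
      a * t₂ ^ p = c * s * t₁ ^ p := by
  have ha0 : a ≠ 0 := fun h0 => ha (h0 ▸ dvd_zero w)
  have hs0 : s ≠ 0 := fun h0 => hs (h0 ▸ dvd_zero w)
  obtain ⟨k, rfl⟩ : ∃ k, p = k + 1 := ⟨p - 1, by omega⟩
  -- step 1: `a * s ^ k` is a unit times a `p`-th power
  have hn0 : a * s ^ k ≠ 0 := mul_ne_zero ha0 (pow_ne_zero _ hs0)
  have hwn : ¬ w ∣ a * s ^ k := by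
    intro hd
    rcases hw.dvd_or_dvd hd with h1 | h1
    · exact ha h1
    · exact hs (hw.dvd_of_dvd_pow h1)
  obtain ⟨c₀, z, hz⟩ := exists_unit_mul_pow_of_forall_prime (k + 1) (a * s ^ k) hn0 (by
    intro π hπ hπn
    have hπw : ¬ Associated π w := fun hass => hwn (hass.symm.dvd.trans hπn)
    obtain ⟨a', s', z₁, z₂, ha', hs', hz₁, hz₂, heq⟩ := h π hπ hπw
    refine ⟨a', s', s * z₁, z₂, ha', hs', mul_ne_zero hs0 hz₁, hz₂, ?_⟩
    linear_combination s ^ k * heq)
  have hwz : ¬ w ∣ z := fun hd =>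
    hwn (hz ▸ Dvd.dvd.mul_left (dvd_pow hd (Nat.succ_ne_zero k)) _)
  have hz0 : z ≠ 0 := fun h0 => hwz (h0 ▸ dvd_zero w)
  -- step 2: work in the quotient
  set q := Ideal.Quotient.mk (Ideal.span {w}) with hq
  have hqz : ∀ x : A, q x = 0 ↔ w ∣ x := fun x => by
    rw [hq, Ideal.Quotient.eq_zero_iff_mem, Ideal.mem_span_singleton]
  have hqa : q a = q s := by
    rw [← sub_eq_zero, ← map_sub, hqz]; exact has
  have hqs0 : q s ≠ 0 := fun h0 => hs ((hqz s).1 h0)
  have hqz0 : q z ≠ 0 := fun h0 => hwz ((hqz z).1 h0)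
  have e1 : q s ^ (k + 1) = q c₀ * q z ^ (k + 1) := by
    have := congrArg q hz
    simp only [map_mul, map_pow] at this
    rw [hqa] at this
    rw [pow_succ, mul_comm, this]
  have hdvd : q z ∣ q s := by
    rw [← IsIntegrallyClosed.pow_dvd_pow_iff (Nat.succ_ne_zero k), e1]
    exact dvd_mul_left _ _
  obtain ⟨dbar, hdbar⟩ := hdvd
  have e2 : dbar ^ (k + 1) = q c₀ := by
    have : q z ^ (k + 1) * dbar ^ (k + 1) = q z ^ (k + 1) * q c₀ := by
      rw [← mul_pow, ← hdbar, e1, mul_comm]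
    exact mul_left_cancel₀ (pow_ne_zero _ hqz0) this
  obtain ⟨d, rfl⟩ := Ideal.Quotient.mk_surjective dbar
  -- `d` is a unit of `A`
  have hwnu : ¬ IsUnit w := hw.not_isUnit
  have hdu : IsUnit d := by
    by_contra hnd
    have hdm : d ∈ IsLocalRing.maximalIdeal A := (IsLocalRing.mem_maximalIdeal d).2 hnd
    have hc0 : IsUnit (q (c₀ : A)) := (c₀.isUnit).map q
    rw [← e2, ← map_pow] at hc0
    obtain ⟨e, he⟩ := hc0.exists_right_inv
    obtain ⟨e', rfl⟩ := Ideal.Quotient.mk_surjective e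
    rw [← map_mul, ← sub_eq_zero, ← map_one q, ← map_sub, hqz] at he
    obtain ⟨r, hr⟩ := he
    have h1 : (1 : A) = d ^ (k + 1) * e' - w * r := by linear_combination -hr
    have h2 : (1 : A) ∈ IsLocalRing.maximalIdeal A := by
      rw [h1]
      refine Ideal.sub_mem _ (Ideal.mul_mem_right _ _ (Ideal.pow_mem_of_mem _ hdm _
        (Nat.succ_pos k))) (Ideal.mul_mem_right _ _ ((IsLocalRing.mem_maximalIdeal w).2 hwnu))
    exact (Ideal.ne_top_iff_one _).1 (IsLocalRing.maximalIdeal.isMaximal A).ne_top h2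
  obtain ⟨du, rfl⟩ := hdu
  refine ⟨c₀ * du⁻¹ ^ (k + 1), du * z, s, ?_, hs, ?_, ?_, ?_⟩
  · intro hd
    exact hwz ((hw.dvd_or_dvd hd).resolve_left
      (fun h1 => hwnu (isUnit_of_dvd_unit h1 du.isUnit)))
  · rw [← hqz, map_sub, map_mul, sub_eq_zero, mul_comm]
    exact hdbar.symm
  · rw [← hqz, map_sub, sub_eq_zero, map_one]
    have h3 : q ((c₀ * du⁻¹ ^ (k + 1) : Aˣ) : A) * q ((du : A)) ^ (k + 1) = q c₀ := by
      rw [← map_pow, ← map_mul]
      congr 1
      rw [Units.val_mul, Units.val_pow_eq_pow_val, mul_assoc, ← mul_pow, Units.inv_mul, one_pow,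
        mul_one]
    rw [e2] at h3
    have hc0ne : q (c₀ : A) ≠ 0 := ((c₀.isUnit).map q).ne_zero
    exact mul_right_cancel₀ hc0ne (by rw [h3, one_mul])
  · have h4 : ((c₀ * du⁻¹ ^ (k + 1) : Aˣ) : A) * (du : A) ^ (k + 1) = c₀ := by
      rw [Units.val_mul, Units.val_pow_eq_pow_val, mul_assoc, ← mul_pow, Units.inv_mul, one_pow,
        mul_one]
    calc a * s ^ (k + 1) = s * (a * s ^ k) := by ring
      _ = s * (c₀ * z ^ (k + 1)) := by rw [hz]
      _ = s * ((((c₀ * du⁻¹ ^ (k + 1) : Aˣ) : A) * (du : A) ^ (k + 1)) * z ^ (k + 1)) := by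
          rw [h4]
      _ = ((c₀ * du⁻¹ ^ (k + 1) : Aˣ) : A) * s * ((du : A) * z) ^ (k + 1) := by ring

end UFD

end Fermat.Agent.S18.H214

end
-- ===== PACK-END S18/H214/LocalUFD.lean

-- ===== PACK-BEGIN S18/H498/Connected.lean
section


/-!
# S18, piece b5 (abstract connectedness / "formal functions by hand")

Pure commutative algebra, Mathlib only.

Setting: `R` a local ring, `ϖ : R`, `C` a commutative `R`-algebra on which `ϖ` is a
non-zero-divisor, `B₁ B₂ : Subalgebra R C` (the two chart algebras inside the overlap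
algebra `C`), `B₁ ⊓ B₂ = R`, and the `ϖ`-power torsion of `C / (B₁ + B₂)` is killed by `ϖ ^ c`.
Then every idempotent of `B₁ / ϖ` which agrees in `C / ϖ` with an idempotent of `B₂ / ϖ`
is trivial (`0` or `1`).
-/

set_option autoImplicit false

namespace Fermat.Agent.S18.H498

section Idem

variable {S : Type*} [CommRing S]

/-- Newton step for idempotents: `b ↦ 3 b² - 2 b³`. -/
theorem newton_idem_sub (b : S) : (3 * b ^ 2 - 2 * b ^ 3) - b = (b ^ 2 - b) * (1 - 2 * b) := by
  ring

theorem newton_idem_sq (b : S) :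
    (3 * b ^ 2 - 2 * b ^ 3) ^ 2 - (3 * b ^ 2 - 2 * b ^ 3) =
      (b ^ 2 - b) ^ 2 * (4 * b ^ 2 - 4 * b - 3) := by
  ring

/-- Lifting of idempotents modulo `p` to idempotents modulo `p ^ (n + 1)`. -/
theorem exists_idem_lift (p e : S) (h : p ∣ e ^ 2 - e) (n : ℕ) :
    ∃ b : S, p ∣ b - e ∧ p ^ (n + 1) ∣ b ^ 2 - b := by
  induction n with
  | zero => exact ⟨e, by simp, by simpa using h⟩
  | succ n ih =>
    obtain ⟨b, hb1, hb2⟩ := ih
    refine ⟨3 * b ^ 2 - 2 * b ^ 3, ?_, ?_⟩
    · have h1 : p ∣ (3 * b ^ 2 - 2 * b ^ 3) - b := by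
        rw [newton_idem_sub]
        exact Dvd.dvd.mul_right ((dvd_pow_self p (Nat.succ_ne_zero n)).trans hb2) _
      have : (3 * b ^ 2 - 2 * b ^ 3) - e = ((3 * b ^ 2 - 2 * b ^ 3) - b) + (b - e) := by ring
      rw [this]
      exact dvd_add h1 hb1
    · rw [newton_idem_sq]
      refine Dvd.dvd.mul_right ?_ _
      have h2 : (p ^ (n + 1)) ^ 2 ∣ (b ^ 2 - b) ^ 2 := pow_dvd_pow_of_dvd hb2 2
      rw [← pow_mul] at h2
      exact (pow_dvd_pow p (by omega)).trans h2

theorem idem_diff_cube (b₁ b₂ : S) :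
    (b₁ - b₂) ^ 3 - (b₁ - b₂) =
      (b₁ + 1 - 3 * b₂) * (b₁ ^ 2 - b₁) - (b₂ + 1 - 3 * b₁) * (b₂ ^ 2 - b₂) := by
  ring

/-- Uniqueness of idempotent lifts: two idempotents modulo `p ^ n` which are congruent
modulo `p` are congruent modulo `p ^ n`. -/
theorem idem_lift_unique (p : S) (n : ℕ) (b₁ b₂ : S)
    (h₁ : p ^ n ∣ b₁ ^ 2 - b₁) (h₂ : p ^ n ∣ b₂ ^ 2 - b₂) (h : p ∣ b₁ - b₂) :
    p ^ n ∣ b₁ - b₂ := by
  have hcube : p ^ n ∣ (b₁ - b₂) ^ 3 - (b₁ - b₂) := by
    rw [idem_diff_cube]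
    exact dvd_sub (Dvd.dvd.mul_left h₁ _) (Dvd.dvd.mul_left h₂ _)
  have key : ∀ k : ℕ, k + 1 ≤ n → p ^ (k + 1) ∣ b₁ - b₂ := by
    intro k
    induction k with
    | zero => intro _; simpa using h
    | succ k ih =>
      intro hk
      have ih' := ih (by omega)
      have h3 : p ^ (k + 2) ∣ (b₁ - b₂) ^ 3 := by
        have h3' : (p ^ (k + 1)) ^ 3 ∣ (b₁ - b₂) ^ 3 := pow_dvd_pow_of_dvd ih' 3
        rw [← pow_mul] at h3'
        exact (pow_dvd_pow p (by omega)).trans h3'
      have hc : p ^ (k + 2) ∣ (b₁ - b₂) ^ 3 - (b₁ - b₂) := (pow_dvd_pow p hk).trans hcube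
      have : b₁ - b₂ = (b₁ - b₂) ^ 3 - ((b₁ - b₂) ^ 3 - (b₁ - b₂)) := by ring
      rw [this]
      exact dvd_sub h3 hc
  rcases Nat.eq_zero_or_pos n with hn | hn
  · subst hn; simp
  · have := key (n - 1) (by omega)
    rwa [Nat.sub_add_cancel hn] at this

end Idem

section Cech

variable {R C : Type*} [CommRing R] [IsLocalRing R] [CommRing C] [Algebra R C]

/-- **Abstract connectedness (b5).**  `B₁ ∩ B₂ = R`, `ϖ`-power torsion of `C / (B₁ + B₂)` killed
by `ϖ ^ c`: an idempotent `e₁` of `B₁ / ϖ` agreeing in `C / ϖ` with an idempotent `e₂` of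
`B₂ / ϖ` is `0` or `1` in `B₁ / ϖ`. -/
theorem idem_trivial_of_cech (ϖ : R) (B₁ B₂ : Subalgebra R C)
    (hint : ∀ y : C, y ∈ B₁ → y ∈ B₂ → ∃ r : R, algebraMap R C r = y)
    (c : ℕ)
    (hH1 : ∀ (n : ℕ) (y : C),
      (∃ b₁ ∈ B₁, ∃ b₂ ∈ B₂, algebraMap R C ϖ ^ n * y = b₁ + b₂) →
        ∃ b₁ ∈ B₁, ∃ b₂ ∈ B₂, algebraMap R C ϖ ^ c * y = b₁ + b₂)
    (e₁ e₂ : C) (he₁ : e₁ ∈ B₁) (he₂ : e₂ ∈ B₂)
    (h₁ : ∃ a ∈ B₁, e₁ ^ 2 - e₁ = algebraMap R C ϖ * a)
    (h₂ : ∃ a ∈ B₂, e₂ ^ 2 - e₂ = algebraMap R C ϖ * a)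
    (h₁₂ : ∃ y : C, e₁ - e₂ = algebraMap R C ϖ * y) :
    (∃ a ∈ B₁, e₁ = algebraMap R C ϖ * a) ∨ (∃ a ∈ B₁, 1 - e₁ = algebraMap R C ϖ * a) := by
  set p : C := algebraMap R C ϖ with hp
  -- lift inside `B₁`
  obtain ⟨a₁, ha₁, hea₁⟩ := h₁
  obtain ⟨a₂, ha₂, hea₂⟩ := h₂
  have hd₁ : (algebraMap R B₁ ϖ) ∣ (⟨e₁, he₁⟩ : B₁) ^ 2 - ⟨e₁, he₁⟩ :=
    ⟨⟨a₁, ha₁⟩, Subtype.ext (by simpa using hea₁)⟩
  have hd₂ : (algebraMap R B₂ ϖ) ∣ (⟨e₂, he₂⟩ : B₂) ^ 2 - ⟨e₂, he₂⟩ :=
    ⟨⟨a₂, ha₂⟩, Subtype.ext (by simpa using hea₂)⟩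
  obtain ⟨b₁, ⟨u₁, hu₁⟩, ⟨v₁, hv₁⟩⟩ := exists_idem_lift _ _ hd₁ c
  obtain ⟨b₂, ⟨u₂, hu₂⟩, ⟨v₂, hv₂⟩⟩ := exists_idem_lift _ _ hd₂ c
  have hu₁' : (b₁ : C) - e₁ = p * u₁ := by
    have := congrArg (Subtype.val) hu₁
    simpa using this
  have hu₂' : (b₂ : C) - e₂ = p * u₂ := by
    have := congrArg (Subtype.val) hu₂
    simpa using this
  have hv₁' : (b₁ : C) ^ 2 - b₁ = p ^ (c + 1) * v₁ := by
    have := congrArg (Subtype.val) hv₁
    simpa using this
  have hv₂' : (b₂ : C) ^ 2 - b₂ = p ^ (c + 1) * v₂ := by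
    have := congrArg (Subtype.val) hv₂
    simpa using this
  obtain ⟨y₀, hy₀⟩ := h₁₂
  have hdiff : p ∣ (b₁ : C) - b₂ := by
    refine ⟨u₁ + y₀ - u₂, ?_⟩
    have : (b₁ : C) - b₂ = ((b₁ : C) - e₁) + (e₁ - e₂) - ((b₂ : C) - e₂) := by ring
    rw [this, hu₁', hy₀, hu₂']; ring
  obtain ⟨y, hy⟩ := idem_lift_unique p (c + 1) (b₁ : C) (b₂ : C) ⟨_, hv₁'⟩ ⟨_, hv₂'⟩ hdiff
  obtain ⟨β₁, hβ₁, β₂, hβ₂, hβ⟩ := hH1 (c + 1) y
    ⟨b₁, b₁.2, -b₂, B₂.neg_mem b₂.2, by rw [← hy]; ring⟩
  have hpB₁ : p ∈ B₁ := B₁.algebraMap_mem ϖ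
  have hpB₂ : p ∈ B₂ := B₂.algebraMap_mem ϖ
  -- the glued element
  have hz : (b₁ : C) - p * β₁ = b₂ + p * β₂ := by
    have h1 : (b₁ : C) - b₂ = p * (β₁ + β₂) := by
      rw [hy, pow_succ, ← hβ]; ring
    linear_combination h1
  have hz₁ : (b₁ : C) - p * β₁ ∈ B₁ := B₁.sub_mem b₁.2 (B₁.mul_mem hpB₁ hβ₁)
  have hz₂ : (b₁ : C) - p * β₁ ∈ B₂ := by
    rw [hz]; exact B₂.add_mem b₂.2 (B₂.mul_mem hpB₂ hβ₂)
  obtain ⟨r, hr⟩ := hint _ hz₁ hz₂
  set z : C := (b₁ : C) - p * β₁ with hzdef
  -- `z² - z = p * w`, `w ∈ B₁`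
  set w : C := p ^ c * v₁ - 2 * β₁ * b₁ + p * β₁ ^ 2 + β₁ with hw
  have hwB : w ∈ B₁ := by
    refine B₁.add_mem (B₁.add_mem (B₁.sub_mem (B₁.mul_mem (B₁.pow_mem hpB₁ c) v₁.2) ?_) ?_) hβ₁
    · exact B₁.mul_mem (B₁.mul_mem (by
        have : (2 : C) = algebraMap R C 2 := (map_ofNat (algebraMap R C) 2).symm
        rw [this]; exact B₁.algebraMap_mem 2) hβ₁) b₁.2
    · exact B₁.mul_mem hpB₁ (B₁.pow_mem hβ₁ 2)
  have hzw : z ^ 2 - z = p * w := by
    have : z ^ 2 - z = ((b₁ : C) ^ 2 - b₁) + p * (-2 * β₁ * b₁ + p * β₁ ^ 2 + β₁) := by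
      rw [hzdef]; ring
    rw [this, hv₁', hw, pow_succ]; ring
  rcases IsLocalRing.isUnit_or_isUnit_one_sub_self r with hunit | hunit
  · right
    obtain ⟨s, hs⟩ := hunit.exists_right_inv
    have hs' : z * algebraMap R C s = 1 := by
      rw [← hr, ← map_mul, hs, map_one]
    refine ⟨-(algebraMap R C s * w) - β₁ + u₁, ?_, ?_⟩
    · exact B₁.add_mem (B₁.sub_mem (B₁.neg_mem (B₁.mul_mem (B₁.algebraMap_mem s) hwB)) hβ₁) u₁.2
    · have h1 : 1 - z = p * (-(algebraMap R C s * w)) := by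
        have : 1 - z = -(algebraMap R C s) * (z ^ 2 - z) + (1 - z) * (1 - z * algebraMap R C s) +
            z * (1 - z * algebraMap R C s) * 0 := by ring
        rw [this, hs', hzw]; ring
      have : 1 - e₁ = (1 - z) - p * β₁ + ((b₁ : C) - e₁) := by rw [hzdef]; ring
      rw [this, h1, hu₁']; ring
  · left
    obtain ⟨s, hs⟩ := hunit.exists_right_inv
    have hs' : (1 - z) * algebraMap R C s = 1 := by
      rw [← hr, ← map_one (algebraMap R C), ← map_sub, ← map_mul, hs, map_one]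
    refine ⟨-(algebraMap R C s * w) + β₁ - u₁, ?_, ?_⟩
    · exact B₁.sub_mem (B₁.add_mem (B₁.neg_mem (B₁.mul_mem (B₁.algebraMap_mem s) hwB)) hβ₁) u₁.2
    · have h1 : z = p * (-(algebraMap R C s * w)) := by
        have : z = -(algebraMap R C s) * (z ^ 2 - z) + z * (1 - (1 - z) * algebraMap R C s) := by
          ring
        rw [this, hs', hzw]; ring
      have : e₁ = z + p * β₁ - ((b₁ : C) - e₁) := by rw [hzdef]; ring
      rw [this, h1, hu₁']; ring

end Cech

end Fermat.Agent.S18.H498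

end
-- ===== PACK-END S18/H498/Connected.lean

-- ===== PACK-BEGIN A2/H348/SubLoc.lean
section


/-!
# A2 / piece E (ALG_ss), part 2: localisations of a subalgebra of a field, conductor argument

Mathlib-only.  `B ⊆ F` a subalgebra of a field, `F'` an `F`-algebra.

* `exists_smul_isIntegral_of_subLoc` : if `O ⊇ B` is "a localisation of `B` at `S`" inside `F`
  (every `f ∈ O` has a denominator in `S`, elements of `S` are invertible in `O`), then an element
  of `F'` integral over `O` becomes integral over `B` after multiplication by some `s ∈ S`.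
* `locAt B 𝔪` : the localisation of `B` at a prime ideal, as a subalgebra of `F`.
* `mem_of_forall_maximal` : the conductor argument: a `B`-submodule `M ⊆ F'` contains `c` as soon
  as for every maximal ideal `𝔪` some `s ∉ 𝔪` satisfies `s • c ∈ M`.
-/

set_option autoImplicit false
set_option linter.unusedSectionVars false

namespace Fermat.Agent.A2.H348

variable {A F F' : Type*} [CommRing A] [Field F] [CommRing F'] [Algebra A F] [Algebra F F']
  [Algebra A F'] [IsScalarTower A F F']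

section SubLoc

variable (B O : Subalgebra A F)

/-- integrality over a localisation descends up to a denominator. -/
theorem exists_smul_isIntegral_of_subLoc (hBO : B ≤ O) (S : Submonoid B)
    (hS0 : ∀ s ∈ S, (s : F) ≠ 0)
    (hS : ∀ f ∈ O, ∃ s ∈ S, (s : F) * f ∈ B) (hSinv : ∀ s ∈ S, ((s : F))⁻¹ ∈ O)
    (c : F') (hc : IsIntegral O c) :
    ∃ s ∈ S, IsIntegral B (algebraMap F F' (s : F) * c) := by
  letI : Algebra B O := (Subalgebra.inclusion hBO).toRingHom.toAlgebra
  have halg : ∀ b : B, ((algebraMap B O b : O) : F) = (b : F) := fun b => rfl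
  haveI : IsScalarTower B O F' := IsScalarTower.of_algebraMap_eq fun b => rfl
  haveI : IsLocalization S O := by
    rw [isLocalization_iff]
    refine ⟨?_, ?_, ?_⟩
    · intro y
      refine IsUnit.of_mul_eq_one (⟨((y : B) : F)⁻¹, hSinv y y.2⟩ : O) ?_
      apply Subtype.ext
      show ((y : B) : F) * ((y : B) : F)⁻¹ = 1
      exact mul_inv_cancel₀ (hS0 y y.2)
    · intro z
      obtain ⟨s, hs, hsz⟩ := hS z z.2
      refine ⟨(⟨(s : F) * z, hsz⟩, ⟨s, hs⟩), ?_⟩
      apply Subtype.ext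
      show (z : F) * (s : F) = (s : F) * z
      exact mul_comm _ _
    · intro x y hxy
      refine ⟨1, ?_⟩
      have : (x : F) = (y : F) := congrArg (fun t : O => (t : F)) hxy
      rw [Subtype.ext this]
  obtain ⟨m, hm⟩ := IsIntegral.exists_multiple_integral_of_isLocalization S c hc
  refine ⟨m, m.2, ?_⟩
  have : (m • c : F') = algebraMap F F' ((m : B) : F) * c := by
    rw [Submonoid.smul_def, Algebra.smul_def]; rfl
  rwa [this] at hm

end SubLoc

section LocAt

variable (B : Subalgebra A F)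

/-- The localisation of `B ⊆ F` at the prime ideal `𝔪`, as a subalgebra of `F`. -/
def locAt (𝔪 : Ideal B) [h𝔪 : 𝔪.IsPrime] : Subalgebra A F where
  carrier := {f | ∃ s : B, s ∉ 𝔪 ∧ (s : F) * f ∈ B}
  mul_mem' := by
    rintro f g ⟨s, hs, hsf⟩ ⟨t, ht, htg⟩
    refine ⟨s * t, fun h => (h𝔪.mem_or_mem h).elim hs ht, ?_⟩
    have : ((s * t : B) : F) * (f * g) = ((s : F) * f) * ((t : F) * g) := by
      push_cast; ring
    rw [this]
    exact B.mul_mem hsf htg
  add_mem' := by
    rintro f g ⟨s, hs, hsf⟩ ⟨t, ht, htg⟩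
    refine ⟨s * t, fun h => (h𝔪.mem_or_mem h).elim hs ht, ?_⟩
    have : ((s * t : B) : F) * (f + g) = (t : F) * ((s : F) * f) + (s : F) * ((t : F) * g) := by
      push_cast; ring
    rw [this]
    exact B.add_mem (B.mul_mem t.2 hsf) (B.mul_mem s.2 htg)
  algebraMap_mem' := by
    intro r
    refine ⟨1, fun h => h𝔪.ne_top ((Ideal.eq_top_iff_one _).2 h), ?_⟩
    simp only [OneMemClass.coe_one, one_mul]
    exact B.algebraMap_mem r

variable {B}

theorem mem_locAt {𝔪 : Ideal B} [𝔪.IsPrime] {f : F} :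
    f ∈ locAt B 𝔪 ↔ ∃ s : B, s ∉ 𝔪 ∧ (s : F) * f ∈ B := Iff.rfl

theorem le_locAt (𝔪 : Ideal B) [h𝔪 : 𝔪.IsPrime] : B ≤ locAt B 𝔪 := by
  intro f hf
  refine ⟨1, fun h => h𝔪.ne_top ((Ideal.eq_top_iff_one _).2 h), ?_⟩
  simpa using hf

theorem inv_mem_locAt (𝔪 : Ideal B) [𝔪.IsPrime] {s : B} (hs : s ∉ 𝔪) :
    ((s : F))⁻¹ ∈ locAt B 𝔪 := by
  refine ⟨s, hs, ?_⟩
  rcases eq_or_ne (s : F) 0 with h | h
  · rw [h, zero_mul]; exact B.zero_mem
  · rw [mul_inv_cancel₀ h]; exact B.one_mem

theorem coe_ne_zero_of_notMem (𝔪 : Ideal B) {s : B} (hs : s ∉ 𝔪) : (s : F) ≠ 0 := by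
  intro h
  apply hs
  have : s = 0 := Subtype.ext h
  rw [this]
  exact 𝔪.zero_mem

/-- integrality over `B_𝔪` descends to `B` up to a denominator outside `𝔪`. -/
theorem exists_smul_isIntegral_of_locAt (𝔪 : Ideal B) [𝔪.IsPrime] (c : F')
    (hc : IsIntegral (locAt B 𝔪) c) :
    ∃ s : B, s ∉ 𝔪 ∧ IsIntegral B (algebraMap F F' (s : F) * c) := by
  obtain ⟨s, hs, h⟩ := exists_smul_isIntegral_of_subLoc B (locAt B 𝔪) (le_locAt 𝔪) 𝔪.primeCompl
    (fun s hs => coe_ne_zero_of_notMem 𝔪 hs)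
    (fun f hf => by
      obtain ⟨s, hs, hsf⟩ := hf
      exact ⟨s, hs, hsf⟩)
    (fun s hs => inv_mem_locAt 𝔪 hs) c hc
  exact ⟨s, hs, h⟩

/-- `B_𝔪` is integrally closed in `F` if `B` is. -/
theorem locAt_integrallyClosed (hB : ∀ f : F, IsIntegral B f → f ∈ B) (𝔪 : Ideal B) [𝔪.IsPrime]
    (f : F) (hf : IsIntegral (locAt B 𝔪) f) : f ∈ locAt B 𝔪 := by
  obtain ⟨s, hs, h⟩ := exists_smul_isIntegral_of_locAt (F' := F) 𝔪 f hf
  exact ⟨s, hs, hB _ h⟩

/-- `1 + ϖ t` is invertible in `B_𝔪` for `ϖ ∈ 𝔪`. -/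
theorem one_add_mul_inv_mem_locAt (𝔪 : Ideal B) [𝔪.IsPrime] {ϖ : B} (hϖ : ϖ ∈ 𝔪) {t : F}
    (ht : t ∈ locAt B 𝔪) : (1 + (ϖ : F) * t)⁻¹ ∈ locAt B 𝔪 := by
  obtain ⟨s, hs, hst⟩ := ht
  have hmem : s + ϖ * ⟨(s : F) * t, hst⟩ ∉ 𝔪 := by
    intro h
    apply hs
    have h2 : ϖ * ⟨(s : F) * t, hst⟩ ∈ 𝔪 := 𝔪.mul_mem_right _ hϖ
    have := 𝔪.sub_mem h h2
    simpa using this
  have hs0 : (s : F) ≠ 0 := coe_ne_zero_of_notMem 𝔪 hs
  have hne : ((s + ϖ * ⟨(s : F) * t, hst⟩ : B) : F) ≠ 0 := coe_ne_zero_of_notMem 𝔪 hmem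
  have hval : ((s + ϖ * ⟨(s : F) * t, hst⟩ : B) : F) = (s : F) * (1 + (ϖ : F) * t) := by
    push_cast; ring
  have h1 : (1 + (ϖ : F) * t) ≠ 0 := by
    intro h
    rw [hval, h, mul_zero] at hne
    exact hne rfl
  refine ⟨s + ϖ * ⟨(s : F) * t, hst⟩, hmem, ?_⟩
  rw [hval, mul_assoc, mul_inv_cancel₀ h1, mul_one]
  exact s.2

end LocAt

section Conductor

variable (B : Subalgebra A F)

/-- **Conductor argument.** -/
theorem mem_of_forall_maximal (M : Submodule B F') (c : F')
    (h : ∀ 𝔪 : Ideal B, 𝔪.IsMaximal → ∃ s : B, s ∉ 𝔪 ∧ s • c ∈ M) : c ∈ M := by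
  let I : Ideal B := M.comap (LinearMap.toSpanSingleton B F' c)
  have hI : ∀ s : B, s ∈ I ↔ s • c ∈ M := fun s => by
    simp [I, Submodule.mem_comap, LinearMap.toSpanSingleton_apply]
  by_cases hIt : I = ⊤
  · have h1 : (1 : B) ∈ I := by rw [hIt]; trivial
    have := (hI 1).1 h1
    simpa using this
  · obtain ⟨𝔪, h𝔪, hle⟩ := Ideal.exists_le_maximal I hIt
    obtain ⟨s, hs, hsc⟩ := h 𝔪 h𝔪
    exact absurd (hle ((hI s).2 hsc)) hs

end Conductor

end Fermat.Agent.A2.H348

end
-- ===== PACK-END A2/H348/SubLoc.lean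

-- ===== PACK-BEGIN A2/Alg/H34/Val.lean
section


/-!
# WALL A2 / ALG — the `w`-adic valuation at a component (helper34), Mathlib-only

`B` a noetherian domain, `p` a prime with `p B_p = w B_p` (elementwise: every `a ∈ p` satisfies
`a * s = w * a'` with `s ∉ p`).  Then every `b ≠ 0` is `w ^ k * a / t` with `a, t ∉ p`
(`exists_pow_mul_eq`): `B_p` is a discrete valuation ring with uniformiser `w`.
-/

set_option autoImplicit false
set_option linter.unusedSectionVars false

namespace Fermat.Agent.A2.Alg.H34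

open IsLocalRing

variable {B : Type*} [CommRing B] [IsDomain B] [IsNoetherianRing B]

theorem maximalIdeal_atPrime_eq_span (p : Ideal B) [hp : p.IsPrime] (w : B) (hw : w ∈ p)
    (hloc : ∀ a ∈ p, ∃ s, s ∉ p ∧ ∃ a', a * s = w * a') :
    maximalIdeal (Localization.AtPrime p) =
      Ideal.span {algebraMap B (Localization.AtPrime p) w} := by
  rw [← Localization.AtPrime.map_eq_maximalIdeal]
  set L := Localization.AtPrime p with hL
  apply le_antisymm
  · rw [Ideal.map_le_iff_le_comap]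
    intro a ha
    obtain ⟨s, hs, a', h⟩ := hloc a ha
    rw [Ideal.mem_comap, Ideal.mem_span_singleton']
    have hsu : IsUnit (algebraMap B L s) :=
      (IsLocalization.AtPrime.isUnit_to_map_iff _ p s).2 hs
    obtain ⟨v, hv⟩ := hsu
    refine ⟨algebraMap B L a' * (↑v⁻¹ : L), ?_⟩
    have h2 := congrArg (algebraMap B L) h
    rw [map_mul, map_mul, ← hv] at h2
    calc algebraMap B L a' * (↑v⁻¹ : L) * algebraMap B L w
        = (algebraMap B L w * algebraMap B L a') * (↑v⁻¹ : L) := by ring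
      _ = (algebraMap B L a * (↑v : L)) * (↑v⁻¹ : L) := by rw [h2]
      _ = algebraMap B L a := by rw [mul_assoc, Units.mul_inv, mul_one]
  · rw [Ideal.span_le, Set.singleton_subset_iff]
    exact Ideal.mem_map_of_mem _ hw

/-- `B_p` is a discrete valuation ring with uniformiser `w`, elementwise. -/
theorem exists_pow_mul_eq (p : Ideal B) [hp : p.IsPrime] (w : B) (hw : w ∈ p)
    (hloc : ∀ a ∈ p, ∃ s, s ∉ p ∧ ∃ a', a * s = w * a')
    (b : B) (hb : b ≠ 0) : ∃ (k : ℕ) (a t : B), a ∉ p ∧ t ∉ p ∧ t * b = w ^ k * a := by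
  set L := Localization.AtPrime p with hL
  have hinj : Function.Injective (algebraMap B L) :=
    IsLocalization.injective L p.primeCompl_le_nonZeroDivisors
  have : IsNoetherianRing L := IsLocalization.isNoetherianRing p.primeCompl L inferInstance
  have hm := maximalIdeal_atPrime_eq_span p w hw hloc
  have hkrull : ⨅ i, maximalIdeal L ^ i = ⊥ :=
    Ideal.iInf_pow_eq_bot_of_isLocalRing _ (maximalIdeal.isMaximal L).ne_top
  have hφb : algebraMap B L b ≠ 0 := fun h => hb (hinj (by rw [h, map_zero]))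
  have hex : ∃ k, algebraMap B L b ∉ maximalIdeal L ^ k := by
    by_contra hcon
    push Not at hcon
    apply hφb
    have : algebraMap B L b ∈ ⨅ i, maximalIdeal L ^ i := by
      rw [Ideal.mem_iInf]
      exact hcon
    rw [hkrull] at this
    exact this
  classical
  set k₀ := Nat.find hex with hk₀
  have hk₀spec : algebraMap B L b ∉ maximalIdeal L ^ k₀ := Nat.find_spec hex
  have hk₀pos : k₀ ≠ 0 := by
    intro h0
    rw [h0, pow_zero, Ideal.one_eq_top] at hk₀spec
    exact hk₀spec Submodule.mem_top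
  obtain ⟨k, hk⟩ := Nat.exists_eq_succ_of_ne_zero hk₀pos
  have hmem : algebraMap B L b ∈ maximalIdeal L ^ k := by
    by_contra hcon
    have := Nat.find_min' hex hcon
    omega
  rw [hm, Ideal.span_singleton_pow, Ideal.mem_span_singleton'] at hmem
  obtain ⟨y, hy⟩ := hmem
  obtain ⟨⟨a, t⟩, hat⟩ := IsLocalization.mk'_surjective p.primeCompl y
  simp only at hat
  have htu : IsUnit (algebraMap B L t) :=
    (IsLocalization.AtPrime.isUnit_to_map_iff _ p t).2 t.2
  have hspec : y * algebraMap B L t = algebraMap B L a := by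
    rw [← hat]
    exact IsLocalization.mk'_spec L a t
  refine ⟨k, a, t, ?_, t.2, ?_⟩
  · intro ha
    apply hk₀spec
    rw [hk, pow_succ]
    have hya : y ∈ maximalIdeal L := by
      have h1 : algebraMap B L a ∈ maximalIdeal L :=
        (IsLocalization.AtPrime.to_map_mem_maximal_iff L p a).2 ha
      rw [← hspec] at h1
      rcases (maximalIdeal.isMaximal L).isPrime.mem_or_mem h1 with h | h
      · exact h
      · exact absurd htu ((IsLocalRing.mem_maximalIdeal _).1 h)
    have h1 : algebraMap B L w ^ k ∈ maximalIdeal L ^ k := by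
      rw [hm, Ideal.span_singleton_pow]
      exact Ideal.mem_span_singleton_self _
    have h2 : algebraMap B L w ^ k * y ∈ maximalIdeal L ^ k * maximalIdeal L :=
      Ideal.mul_mem_mul h1 hya
    rw [← hy, mul_comm y]
    exact h2
  · apply hinj
    rw [map_mul, map_mul, map_pow, ← hspec, ← hy]
    ring

end Fermat.Agent.A2.Alg.H34

end
-- ===== PACK-END A2/Alg/H34/Val.lean

-- ===== PACK-BEGIN A2/H708/Tame.lean
section



/-!
# A2 (helper708): the tame character of an inertia group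

`L/K` an algebraic field extension, `A` a valuation subring of `L`,
`τ ∈ A.inertiaSubgroupIn K` (Prelude definition).  For `c ∈ Lˣ` the quotient `τ c / c` is a
unit of `A`; its residue class `tameHom A hτ c ∈ kˣ` (`k` the residue field of `A`)

* is multiplicative in `c` (it is a monoid hom `Lˣ →* kˣ`),
* is trivial on units of `A` (`tameHom_eq_one_of_valuation_eq_one`), hence depends only on the
  valuation of `c` (`tameHom_eq_of_valuation_eq`),
* is trivial on `K` (`tameHom_algebraMap`),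
* is multiplicative in `τ` (`tameHom_mul`),
* takes values in roots of unity: `c ^ n ∈ Kˣ · Aˣ → tame(c) ^ n = 1` (`tameHom_pow_eq_one`),
* `tameHom A hτ c = 1 ↔ v (τ c - c) < v c` (`tameHom_eq_one_iff`).

Also: elementwise facts on decomposition / inertia groups for arbitrary `L/K`
(`apply_mem_iff_of_mem_decomposition`, `valuation_apply_of_mem_decomposition` (algebraic case),
`sub_mem_nonunits_of_mem_inertiaIn`).
-/

set_option autoImplicit false

open scoped Pointwise

namespace Fermat.Agent.A2.H708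

variable {K L : Type*} [Field K] [Field L] [Algebra K L] (A : ValuationSubring L)

/-- Elements of the inertia group (Prelude form) lie in the decomposition group. -/
theorem mem_decomposition_of_mem_inertiaIn {τ : L ≃ₐ[K] L} (hτ : τ ∈ A.inertiaSubgroupIn K) :
    τ ∈ A.decompositionSubgroup K := by
  obtain ⟨g, -, rfl⟩ := hτ
  exact g.2

/-- Elements of the decomposition group preserve `A`. -/
theorem apply_mem_of_mem_decomposition {τ : L ≃ₐ[K] L} (hτ : τ ∈ A.decompositionSubgroup K)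
    {x : L} (hx : x ∈ A) : τ x ∈ A := by
  have h : τ • A = A := MulAction.mem_stabilizer_iff.mp hτ
  have h1 : τ • x ∈ τ • A := ValuationSubring.smul_mem_pointwise_smul τ x A hx
  rw [h] at h1
  exact h1

/-- Elements of the decomposition group reflect `A`. -/
theorem mem_of_apply_mem_of_mem_decomposition {τ : L ≃ₐ[K] L}
    (hτ : τ ∈ A.decompositionSubgroup K) {x : L} (hx : τ x ∈ A) : x ∈ A := by
  have hinv : τ⁻¹ ∈ A.decompositionSubgroup K := inv_mem hτ
  have := apply_mem_of_mem_decomposition A hinv hx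
  have h2 : τ⁻¹ (τ x) = x := by
    show (τ⁻¹ * τ) x = x
    rw [inv_mul_cancel]; rfl
  rwa [h2] at this

theorem apply_mem_iff_of_mem_decomposition {τ : L ≃ₐ[K] L}
    (hτ : τ ∈ A.decompositionSubgroup K) {x : L} : τ x ∈ A ↔ x ∈ A :=
  ⟨mem_of_apply_mem_of_mem_decomposition A hτ, apply_mem_of_mem_decomposition A hτ⟩

/-- Elements of the decomposition group preserve the order of valuations. -/
theorem valuation_apply_le_iff_of_mem_decomposition {τ : L ≃ₐ[K] L}
    (hτ : τ ∈ A.decompositionSubgroup K) (x y : L) :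
    A.valuation (τ x) ≤ A.valuation (τ y) ↔ A.valuation x ≤ A.valuation y := by
  rcases eq_or_ne y 0 with rfl | hy
  · simp
  have hτy : τ y ≠ 0 := by simpa using hy
  have h1 : A.valuation x ≤ A.valuation y ↔ x / y ∈ A := by
    rw [← A.valuation_le_one_iff, map_div₀,
      div_le_one₀ (pos_iff_ne_zero.mpr ((Valuation.ne_zero_iff _).mpr hy))]
  have h2 : A.valuation (τ x) ≤ A.valuation (τ y) ↔ τ x / τ y ∈ A := by
    rw [← A.valuation_le_one_iff, map_div₀,
      div_le_one₀ (pos_iff_ne_zero.mpr ((Valuation.ne_zero_iff _).mpr hτy))]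
  rw [h1, h2, ← map_div₀]
  exact apply_mem_iff_of_mem_decomposition A hτ

theorem valuation_apply_lt_iff_of_mem_decomposition {τ : L ≃ₐ[K] L}
    (hτ : τ ∈ A.decompositionSubgroup K) (x y : L) :
    A.valuation (τ x) < A.valuation (τ y) ↔ A.valuation x < A.valuation y := by
  rw [← not_le, ← not_le, valuation_apply_le_iff_of_mem_decomposition A hτ]

/-- In an algebraic extension every element is fixed by a positive power of any automorphism. -/
theorem exists_pow_apply_eq [Algebra.IsAlgebraic K L] (τ : L ≃ₐ[K] L) (x : L) :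
    ∃ n : ℕ, 0 < n ∧ (τ ^ n) x = x := by
  have hfin : ((minpoly K x).rootSet L).Finite := Polynomial.rootSet_finite _ _
  have hmem : ∀ n : ℕ, (τ ^ n) x ∈ (minpoly K x).rootSet L := by
    intro n
    rw [Polynomial.mem_rootSet]
    refine ⟨minpoly.ne_zero (Algebra.IsIntegral.isIntegral x), ?_⟩
    have := Polynomial.aeval_algHom_apply ((τ ^ n : L ≃ₐ[K] L) : L →ₐ[K] L) x (minpoly K x)
    rw [minpoly.aeval, map_zero] at this
    exact this
  obtain ⟨a, b, hab, h⟩ := hfin.exists_lt_map_eq_of_forall_mem hmem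
  refine ⟨b - a, Nat.sub_pos_of_lt hab, ?_⟩
  have hb : b = (b - a) + a := by omega
  have h3 : (τ ^ a) ((τ ^ (b - a)) x) = (τ ^ a) x := by
    have : (τ ^ b) x = (τ ^ a) ((τ ^ (b - a)) x) := by
      conv_lhs => rw [hb, add_comm, pow_add]
      rfl
    rw [← this, ← h]
  exact (τ ^ a).injective h3

/-- Elements of the decomposition group preserve the valuation (algebraic extensions). -/
theorem valuation_apply_of_mem_decomposition [Algebra.IsAlgebraic K L] {τ : L ≃ₐ[K] L}
    (hτ : τ ∈ A.decompositionSubgroup K) (x : L) :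
    A.valuation (τ x) = A.valuation x := by
  obtain ⟨n, hn, hx⟩ := exists_pow_apply_eq τ x
  have hstep : ∀ k : ℕ, (τ ^ (k + 1)) x = τ ((τ ^ k) x) := by
    intro k
    rw [pow_succ']
    rfl
  rcases lt_trichotomy (A.valuation (τ x)) (A.valuation x) with h | h | h
  · exfalso
    have hk : ∀ k : ℕ, A.valuation ((τ ^ (k + 1)) x) < A.valuation x := by
      intro k
      induction k with
      | zero => simpa using h
      | succ k ih =>
        rw [hstep]
        refine lt_trans ?_ h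
        exact (valuation_apply_lt_iff_of_mem_decomposition A hτ _ _).mpr ih
    have := hk (n - 1)
    rw [Nat.sub_add_cancel hn, hx] at this
    exact lt_irrefl _ this
  · exact h
  · exfalso
    have hk : ∀ k : ℕ, A.valuation x < A.valuation ((τ ^ (k + 1)) x) := by
      intro k
      induction k with
      | zero => simpa using h
      | succ k ih =>
        rw [hstep (k + 1)]
        refine lt_trans h ?_
        exact (valuation_apply_lt_iff_of_mem_decomposition A hτ _ _).mpr ih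
    have := hk (n - 1)
    rw [Nat.sub_add_cancel hn, hx] at this
    exact lt_irrefl _ this

/-- Elements of the inertia group move elements of `A` by nonunits. -/
theorem sub_mem_nonunits_of_mem_inertiaIn {τ : L ≃ₐ[K] L} (hτ : τ ∈ A.inertiaSubgroupIn K)
    {a : L} (ha : a ∈ A) : τ a - a ∈ A.nonunits := by
  obtain ⟨ι', hι', rfl⟩ := hτ
  have h1 : ι' • IsLocalRing.residue A ⟨a, ha⟩ = IsLocalRing.residue A ⟨a, ha⟩ := by
    have := congrArg (fun f => f (IsLocalRing.residue A ⟨a, ha⟩)) (MonoidHom.mem_ker.mp hι')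
    simpa using this
  rw [← IsLocalRing.ResidueField.residue_smul, ← sub_eq_zero, ← map_sub,
    IsLocalRing.residue_eq_zero_iff, ← ValuationSubring.coe_mem_nonunits_iff] at h1
  exact h1

theorem valuation_sub_lt_one_of_mem_inertiaIn {τ : L ≃ₐ[K] L} (hτ : τ ∈ A.inertiaSubgroupIn K)
    {a : L} (ha : A.valuation a ≤ 1) : A.valuation (τ a - a) < 1 :=
  A.mem_nonunits_iff.mp
    (sub_mem_nonunits_of_mem_inertiaIn A hτ ((A.valuation_le_one_iff a).mp ha))

/-- Inertia moves every element by something of strictly smaller valuation... up to the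
valuation of the element: `v (τ a - a) < v a` for units `a` of `A`. -/
theorem valuation_sub_lt_of_mem_inertiaIn_of_unit {τ : L ≃ₐ[K] L}
    (hτ : τ ∈ A.inertiaSubgroupIn K) {a : L} (ha : A.valuation a = 1) :
    A.valuation (τ a - a) < A.valuation a := by
  rw [ha]
  exact valuation_sub_lt_one_of_mem_inertiaIn A hτ ha.le

section tame

variable [Algebra.IsAlgebraic K L]

/-- `τ c / c` is a unit of `A` for `τ` in the decomposition group. -/
theorem valuation_apply_div_self {τ : L ≃ₐ[K] L} (hτ : τ ∈ A.decompositionSubgroup K)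
    {c : L} (hc : c ≠ 0) : A.valuation (τ c / c) = 1 := by
  rw [map_div₀, valuation_apply_of_mem_decomposition A hτ,
    div_self ((Valuation.ne_zero_iff _).mpr hc)]

/-- The raw symbol `c ↦ τ c / c` as a monoid hom `Lˣ →* A.unitGroup`. -/
noncomputable def ratioHom {τ : L ≃ₐ[K] L} (hτ : τ ∈ A.decompositionSubgroup K) : Lˣ →* A.unitGroup where
  toFun c := ⟨Units.map (τ : L →* L) c / c, by
    rw [ValuationSubring.mem_unitGroup_iff]
    simpa using valuation_apply_div_self A hτ c.ne_zero⟩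
  map_one' := by
    apply Subtype.ext
    simp
  map_mul' c d := by
    apply Subtype.ext
    simp only [map_mul, Subgroup.coe_mul]
    rw [mul_div_mul_comm]

@[simp]
theorem coe_ratioHom {τ : L ≃ₐ[K] L} (hτ : τ ∈ A.decompositionSubgroup K) (c : Lˣ) :
    (((ratioHom A hτ c : A.unitGroup) : Lˣ) : L) = τ c / c := by
  simp [ratioHom]

/-- **The tame character** `Lˣ →* kˣ`, `c ↦ (τ c / c mod 𝔪_A)`, of an element `τ` of the
inertia group. -/
noncomputable def tameHom {τ : L ≃ₐ[K] L} (hτ : τ ∈ A.inertiaSubgroupIn K) :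
    Lˣ →* (IsLocalRing.ResidueField A)ˣ :=
  A.unitGroupToResidueFieldUnits.comp (ratioHom A (mem_decomposition_of_mem_inertiaIn A hτ))

/-- `tameHom c = 1 ↔ v (τ c - c) < v c`. -/
theorem tameHom_eq_one_iff {τ : L ≃ₐ[K] L} (hτ : τ ∈ A.inertiaSubgroupIn K) (c : Lˣ) :
    tameHom A hτ c = 1 ↔ A.valuation (τ c - c) < A.valuation (c : L) := by
  have hc0 : A.valuation (c : L) ≠ 0 := (Valuation.ne_zero_iff _).mpr c.ne_zero
  have h1 : tameHom A hτ c = 1 ↔
      ratioHom A (mem_decomposition_of_mem_inertiaIn A hτ) c ∈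
        A.unitGroupToResidueFieldUnits.ker := by
    rw [MonoidHom.mem_ker]; rfl
  rw [h1, ker_unitGroupToResidueFieldUnits, Subgroup.mem_comap, Subgroup.coe_subtype,
    ValuationSubring.mem_principalUnitGroup_iff, coe_ratioHom]
  have h2 : τ c / c - 1 = (τ c - c) / c := by
    field_simp
  rw [h2, map_div₀, div_lt_one₀ (pos_iff_ne_zero.mpr hc0)]
where
  ker_unitGroupToResidueFieldUnits := A.ker_unitGroupToResidueFieldUnits

/-- The tame character is trivial on units of `A`. -/
theorem tameHom_eq_one_of_valuation_eq_one {τ : L ≃ₐ[K] L} (hτ : τ ∈ A.inertiaSubgroupIn K)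
    (c : Lˣ) (hc : A.valuation (c : L) = 1) : tameHom A hτ c = 1 :=
  (tameHom_eq_one_iff A hτ c).mpr (valuation_sub_lt_of_mem_inertiaIn_of_unit A hτ hc)

/-- The tame character depends only on the valuation. -/
theorem tameHom_eq_of_valuation_eq {τ : L ≃ₐ[K] L} (hτ : τ ∈ A.inertiaSubgroupIn K)
    (c d : Lˣ) (h : A.valuation (c : L) = A.valuation (d : L)) :
    tameHom A hτ c = tameHom A hτ d := by
  have h1 : tameHom A hτ (c / d) = 1 := by
    apply tameHom_eq_one_of_valuation_eq_one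
    rw [Units.val_div_eq_div_val, map_div₀, h,
      div_self ((Valuation.ne_zero_iff _).mpr d.ne_zero)]
  rw [map_div, div_eq_one] at h1
  exact h1

/-- The tame character is trivial on the base field. -/
theorem tameHom_algebraMap {τ : L ≃ₐ[K] L} (hτ : τ ∈ A.inertiaSubgroupIn K)
    (c : Lˣ) (a : K) (hc : (c : L) = algebraMap K L a) : tameHom A hτ c = 1 := by
  rw [tameHom_eq_one_iff, hc, AlgEquiv.commutes, sub_self, map_zero, ← hc]
  exact pos_iff_ne_zero.mpr ((Valuation.ne_zero_iff _).mpr c.ne_zero)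

/-- More generally the tame character is trivial on elements fixed by `τ`. -/
theorem tameHom_eq_one_of_fixed {τ : L ≃ₐ[K] L} (hτ : τ ∈ A.inertiaSubgroupIn K)
    (c : Lˣ) (hc : τ c = c) : tameHom A hτ c = 1 := by
  rw [tameHom_eq_one_iff, hc, sub_self, map_zero]
  exact pos_iff_ne_zero.mpr ((Valuation.ne_zero_iff _).mpr c.ne_zero)

/-- Values of the tame character are roots of unity: if `c ^ n = a * u` with `a ∈ K` and `u` a
unit of `A`, then `tame(c) ^ n = 1`. -/
theorem tameHom_pow_eq_one {τ : L ≃ₐ[K] L} (hτ : τ ∈ A.inertiaSubgroupIn K)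
    (c : Lˣ) (n : ℕ) (a : K) (u : L) (hu : A.valuation u = 1)
    (h : (c : L) ^ n = algebraMap K L a * u) : tameHom A hτ c ^ n = 1 := by
  have hu0 : u ≠ 0 := by
    rintro rfl
    simp at hu
  have ha0 : algebraMap K L a ≠ 0 := by
    intro h0
    rw [h0, zero_mul] at h
    exact pow_ne_zero n c.ne_zero h
  have hcn : c ^ n = Units.mk0 _ ha0 * Units.mk0 u hu0 := by
    apply Units.ext
    simpa using h
  rw [← map_pow, hcn, map_mul, tameHom_algebraMap A hτ _ a rfl,
    tameHom_eq_one_of_valuation_eq_one A hτ _ hu, one_mul]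

/-- `στ c / c = (σ (τ c) / τ c) · (τ c / c)`. -/
theorem ratioHom_mul {σ τ : L ≃ₐ[K] L} (hσ : σ ∈ A.decompositionSubgroup K)
    (hτ : τ ∈ A.decompositionSubgroup K) (c : Lˣ) :
    ratioHom A (mul_mem hσ hτ) c =
      ratioHom A hσ (Units.map (τ : L →* L) c) * ratioHom A hτ c := by
  apply Subtype.ext
  apply Units.ext
  rw [Subgroup.coe_mul, Units.val_mul, coe_ratioHom, coe_ratioHom, coe_ratioHom]
  have hc0 : (c : L) ≠ 0 := c.ne_zero
  have hd0 : τ (c : L) ≠ 0 := by simp
  have h1 : ((Units.map (τ : L →* L) c : Lˣ) : L) = τ c := rfl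
  have h2 : (σ * τ) (c : L) = σ (τ c) := rfl
  rw [h1, h2]
  field_simp

/-- The tame character is multiplicative in `τ`. -/
theorem tameHom_mul {σ τ : L ≃ₐ[K] L} (hσ : σ ∈ A.inertiaSubgroupIn K)
    (hτ : τ ∈ A.inertiaSubgroupIn K) (c : Lˣ) :
    tameHom A (mul_mem hσ hτ) c = tameHom A hσ c * tameHom A hτ c := by
  set d : Lˣ := Units.map (τ : L →* L) c with hd
  have hdv : A.valuation (d : L) = A.valuation (c : L) :=
    valuation_apply_of_mem_decomposition A (mem_decomposition_of_mem_inertiaIn A hτ) (c : L)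
  have h1 : tameHom A hσ d = tameHom A hσ c := tameHom_eq_of_valuation_eq A hσ d c hdv
  rw [← h1]
  show A.unitGroupToResidueFieldUnits (ratioHom A _ c) = _
  rw [ratioHom_mul A (mem_decomposition_of_mem_inertiaIn A hσ)
    (mem_decomposition_of_mem_inertiaIn A hτ), map_mul]
  rfl

/-- The tame character of the inverse. -/
theorem tameHom_inv {τ : L ≃ₐ[K] L} (hτ : τ ∈ A.inertiaSubgroupIn K) (c : Lˣ) :
    tameHom A (inv_mem hτ) c = (tameHom A hτ c)⁻¹ := by
  have h1 : tameHom A (mul_mem (inv_mem hτ) hτ) c = 1 := by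
    apply tameHom_eq_one_of_fixed
    show (τ⁻¹ * τ) (c : L) = c
    rw [inv_mul_cancel]; rfl
  rw [tameHom_mul A (inv_mem hτ) hτ] at h1
  exact eq_inv_of_mul_eq_one_left h1

end tame

end Fermat.Agent.A2.H708

end
-- ===== PACK-END A2/H708/Tame.lean

-- ===== PACK-BEGIN S35/H858/NormAbs.lean
section


/-!
# S35, cell FROB, leaf QNF (helper858) — norms and base change, abstract part (Mathlib only)

Setting: a commutative square of fields `K → L`, `K → K'`, `L → L'`, `K' → L'` (think of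
`K' = K ⊗ Ω`, `L' = L ⊗ Ω` for a constant field extension `Ω`), and a family `ε` which is at the
same time a `K`-basis of `K'` and (after `K' → L'`) an `L`-basis of `L'`.

* `norm_map_of_basis` : if a `K`-basis `b` of `L` is mapped to a `K'`-basis of `L'`, then
  `ιK (N_{L/K} y) = N_{L'/K'} (ιL y)`;
* `linearIndependent_of_smul_basis` : converse of `linearIndependent_smul` for a basis;
* `linearIndependent_algebraMap_of_common_basis` : `K`-linearly independent families of `L` stay
  linearly independent over `K'` in `L'` (linear disjointness);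
* `exists_basis_of_common_basis` : a `K`-basis of `L` is a `K'`-basis of `L'`;
* `finite_of_common_basis` : `L' / K'` finite ⟹ `L / K` finite;
* `norm_algebraMap_of_common_basis` : `N_{L'/K'} (y) = N_{L/K} (y)` for `y ∈ L`.
-/

set_option autoImplicit false

noncomputable section

namespace Fermat.Agent.S35.H858

open Module

/-- Norms commute with a base change which maps a basis to a basis. -/
theorem norm_map_of_basis {K L K' L' : Type*} [Field K] [Field L] [Field K'] [Field L']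
    [Algebra K L] [Algebra K' L'] (ιK : K →+* K') (ιL : L →+* L')
    (hι : ∀ a : K, ιL (algebraMap K L a) = algebraMap K' L' (ιK a))
    {n : Type*} [Fintype n] [DecidableEq n] (b : Basis n K L) (b' : Basis n K' L')
    (hb : ∀ i, b' i = ιL (b i)) (y : L) :
    ιK (Algebra.norm K y) = Algebra.norm K' (ιL y) := by
  rw [Algebra.norm_eq_matrix_det b y, Algebra.norm_eq_matrix_det b' (ιL y), RingHom.map_det]
  congr 1
  ext i j
  rw [RingHom.mapMatrix_apply, Matrix.map_apply, Algebra.leftMulMatrix_eq_repr_mul,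
    Algebra.leftMulMatrix_eq_repr_mul]
  -- `y * b j = ∑ i, c i • b i`
  have h1 : y * b j = ∑ i, b.repr (y * b j) i • b i := (b.sum_repr (y * b j)).symm
  have h2 : ιL y * b' j = ∑ i, ιK (b.repr (y * b j) i) • b' i := by
    rw [hb j, ← map_mul, h1, map_sum]
    refine Finset.sum_congr rfl fun i _ => ?_
    rw [Algebra.smul_def, map_mul, hι, hb i, Algebra.smul_def]
    congr 2
    rw [← h1]
  rw [h2, map_sum]
  simp only [map_smul, Basis.repr_self, Finsupp.coe_finsetSum, Finsupp.coe_smul,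
    Finset.sum_apply, Pi.smul_apply, smul_eq_mul]
  rw [Finset.sum_eq_single i]
  · simp
  · intro k _ hk
    simp [hk]
  · intro h
    exact absurd (Finset.mem_univ i) h

/-- Converse of `linearIndependent_smul` when the first family is a basis. -/
theorem linearIndependent_of_smul_basis {R S A : Type*} [CommRing R] [Ring S] [AddCommGroup A]
    [Module R S] [Module S A] [Module R A] [IsScalarTower R S A] {J I : Type*}
    (b : Basis J R S) {c : I → A}
    (h : LinearIndependent R fun p : I × J => b p.2 • c p.1) : LinearIndependent S c := by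
  rw [LinearIndependent, Finsupp.linearCombination_smul] at h
  have hsurj : Function.Surjective
      (Finsupp.mapRange.linearMap (Finsupp.linearCombination R b) ∘ₗ
        (Finsupp.curryLinearEquiv R).toLinearMap : (I × J →₀ R) →ₗ[R] (I →₀ S)) := by
    rw [LinearMap.coe_comp]
    refine Function.Surjective.comp ?_ (Finsupp.curryLinearEquiv R).surjective
    intro l
    refine ⟨Finsupp.mapRange b.repr (map_zero _) l, ?_⟩
    ext i
    simp [Finsupp.mapRange.linearMap_apply, Finsupp.mapRange_apply, b.linearCombination_repr]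
  have h2 : Function.Injective
      ((⇑(Finsupp.linearCombination S c)) ∘
        ⇑(Finsupp.mapRange.linearMap (Finsupp.linearCombination R b) ∘ₗ
          (Finsupp.curryLinearEquiv R).toLinearMap : (I × J →₀ R) →ₗ[R] (I →₀ S))) := h
  exact Function.Injective.of_comp_right h2 hsurj

section CommonBasis

variable {K L K' L' : Type*} [Field K] [Field L] [Field K'] [Field L']
  [Algebra K L] [Algebra K K'] [Algebra K' L'] [Algebra L L'] [Algebra K L']
  [IsScalarTower K L L'] [IsScalarTower K K' L']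
  {J : Type*} (ε : Basis J K K') (ε' : Basis J L L')

include ε ε' in
/-- Linear disjointness: `K`-linearly independent families of `L` stay linearly independent
over `K'`. -/
theorem linearIndependent_algebraMap_of_common_basis
    (hε : ∀ j, ε' j = algebraMap K' L' (ε j)) {I : Type*} {v : I → L}
    (hv : LinearIndependent K v) :
    LinearIndependent K' fun i => algebraMap L L' (v i) := by
  apply linearIndependent_of_smul_basis (R := K) ε
  have h1 : LinearIndependent K fun p : I × J => v p.1 • ε' p.2 :=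
    linearIndependent_smul hv ε'.linearIndependent
  have h2 : (fun p : I × J => ε p.2 • algebraMap L L' (v p.1)) =
      fun p : I × J => v p.1 • ε' p.2 := by
    funext p
    rw [Algebra.smul_def, Algebra.smul_def, hε, mul_comm]
  rw [h2]
  exact h1

include ε ε' in
/-- A `K`-basis of `L` is a `K'`-basis of `L'`. -/
theorem exists_basis_of_common_basis (hε : ∀ j, ε' j = algebraMap K' L' (ε j))
    {n : Type*} (b : Basis n K L) :
    ∃ b' : Basis n K' L', ∀ i, b' i = algebraMap L L' (b i) := by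
  have hli := linearIndependent_algebraMap_of_common_basis ε ε' hε b.linearIndependent
  have hsp : ⊤ ≤ Submodule.span K' (Set.range fun i => algebraMap L L' (b i)) := by
    have h1 : Submodule.span K (Set.range ⇑(b.smulTower ε')) ≤
        (Submodule.span K' (Set.range fun i => algebraMap L L' (b i))).restrictScalars K := by
      rw [Submodule.span_le]
      rintro _ ⟨⟨i, j⟩, rfl⟩
      rw [Basis.smulTower_apply]
      show b i • ε' j ∈ Submodule.span K' (Set.range fun i => algebraMap L L' (b i))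
      have h3 : b i • ε' j = ε j • algebraMap L L' (b i) := by
        rw [Algebra.smul_def, Algebra.smul_def, hε, mul_comm]
      rw [h3]
      exact Submodule.smul_mem _ _ (Submodule.subset_span ⟨i, rfl⟩)
    rw [(b.smulTower ε').span_eq] at h1
    intro z _
    exact h1 (Submodule.mem_top (x := z))
  exact ⟨Basis.mk hli hsp, fun i => Basis.mk_apply hli hsp i⟩

include ε ε' in
/-- `L' / K'` finite ⟹ `L / K` finite. -/
theorem finite_of_common_basis (hε : ∀ j, ε' j = algebraMap K' L' (ε j))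
    [Module.Finite K' L'] : Module.Finite K L := by
  rw [← Module.rank_lt_aleph0_iff]
  have h : Module.rank K L ≤ (Module.finrank K' L' : ℕ) := by
    apply rank_le
    intro s hs
    have h1 := linearIndependent_algebraMap_of_common_basis ε ε' hε hs
    have h2 := h1.fintype_card_le_finrank
    simpa using h2
  exact lt_of_le_of_lt h Cardinal.natCast_lt_aleph0

include ε ε' in
/-- Norms commute with the base change. -/
theorem norm_algebraMap_of_common_basis (hε : ∀ j, ε' j = algebraMap K' L' (ε j))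
    [Module.Finite K L] (y : L) :
    algebraMap K K' (Algebra.norm K y) = Algebra.norm K' (algebraMap L L' y) := by
  classical
  obtain ⟨b', hb'⟩ := exists_basis_of_common_basis ε ε' hε (Module.finBasis K L)
  refine norm_map_of_basis (algebraMap K K') (algebraMap L L') (fun a => ?_)
    (Module.finBasis K L) b' hb' y
  rw [← IsScalarTower.algebraMap_apply K L L', ← IsScalarTower.algebraMap_apply K K' L']

end CommonBasis

end Fermat.Agent.S35.H858

end
end
-- ===== PACK-END S35/H858/NormAbs.lean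

-- ===== PACK-BEGIN A2/H528/FrobCong.lean
section





/-!
# A2 — the Frobenius congruence `f(q^ℓ) ≡ f(q)^ℓ (mod ℓ)` for Laurent series

* `qExpand_eq_pow_zmod` : over `𝔽_ℓ`, `f(q^ℓ) = f(q)^ℓ`;
* `exists_frobCong`     : over `ℤ`, `f(q^ℓ) - f(q)^ℓ = ℓ · g` with `g ∈ ℤ((q))`.
-/

set_option autoImplicit false

noncomputable section

open ModularCurve HahnSeries

namespace Fermat.Agent.A2.H528

theorem qExpand_ofPowerSeries {R : Type*} [CommRing R] (n : ℕ) [NeZero n] (u : PowerSeries R) :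
    qExpand R n (HahnSeries.ofPowerSeries ℤ R u)
      = HahnSeries.ofPowerSeries ℤ R (u.expand n (NeZero.ne n)) := by
  have hn : (n : ℤ) ≠ 0 := by exact_mod_cast NeZero.ne n
  have hn0 : 0 < (n : ℤ) := by exact_mod_cast Nat.pos_of_ne_zero (NeZero.ne n)
  ext k
  by_cases hk : (n : ℤ) ∣ k
  · obtain ⟨m, rfl⟩ := hk
    rw [qExpand_coeff_mul]
    rcases le_or_gt 0 m with hm | hm
    · lift m to ℕ using hm
      rw [HahnSeries.ofPowerSeries_apply_coeff,
        show (n : ℤ) * (m : ℤ) = ((n * m : ℕ) : ℤ) by push_cast; ring,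
        HahnSeries.ofPowerSeries_apply_coeff, PowerSeries.coeff_expand_mul]
    · rw [ofPowerSeries_coeff_of_neg _ hm,
        ofPowerSeries_coeff_of_neg _ (mul_neg_of_pos_of_neg hn0 hm)]
  · rw [qExpand_coeff_of_not_dvd n _ hk]
    rcases le_or_gt 0 k with hk0 | hk0
    · lift k to ℕ using hk0
      rw [HahnSeries.ofPowerSeries_apply_coeff, PowerSeries.coeff_expand_of_not_dvd]
      intro h
      exact hk (by exact_mod_cast h)
    · rw [ofPowerSeries_coeff_of_neg _ hk0]

variable (ℓ : ℕ) [hℓ : Fact ℓ.Prime]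

theorem powerSeries_pow_eq_expand (u : PowerSeries (ZMod ℓ)) :
    u ^ ℓ = u.expand ℓ hℓ.out.ne_zero := by
  have h := MvPowerSeries.map_frobenius_expand (σ := Unit) (R := ZMod ℓ) ℓ hℓ.out.ne_zero (f := u)
  have hf : frobenius (ZMod ℓ) ℓ = RingHom.id (ZMod ℓ) := by
    ext a
    simp
  rw [hf, MvPowerSeries.map_id] at h
  exact h.symm

/-- **Frobenius in characteristic `ℓ`**: `f(q^ℓ) = f(q)^ℓ` for `f ∈ 𝔽_ℓ((q))`. -/
theorem qExpand_eq_pow_zmod (f : LaurentSeries (ZMod ℓ)) :
    qExpand (ZMod ℓ) ℓ f = f ^ ℓ := by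
  conv_lhs => rw [← LaurentSeries.single_order_mul_powerSeriesPart f]
  conv_rhs => rw [← LaurentSeries.single_order_mul_powerSeriesPart f]
  rw [map_mul, mul_pow, qExpand_single, HahnSeries.single_pow, one_pow, qExpand_ofPowerSeries,
    ← map_pow, powerSeries_pow_eq_expand, nsmul_eq_mul]

/-- division by `ℓ` as a zero-preserving map of `ℤ` -/
def divPrime : ZeroHom ℤ ℤ where
  toFun c := c / ℓ
  map_zero' := by simp

/-- **Frobenius congruence**: `f(q^ℓ) - f(q)^ℓ ∈ ℓ · ℤ((q))` for `f ∈ ℤ((q))`. -/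
theorem exists_frobCong (x : LaurentSeries ℤ) :
    ∃ g : LaurentSeries ℤ, qExpand ℤ ℓ x - x ^ ℓ = HahnSeries.C (ℓ : ℤ) * g := by
  set D : LaurentSeries ℤ := qExpand ℤ ℓ x - x ^ ℓ with hD
  have h0 : coeffMap (Int.castRingHom (ZMod ℓ)) D = 0 := by
    rw [hD, map_sub, map_pow, coeffMap_qExpand, qExpand_eq_pow_zmod, sub_self]
  have hdvd : ∀ k : ℤ, (ℓ : ℤ) ∣ D.coeff k := by
    intro k
    have h1 := congrArg (fun s => s.coeff k) h0
    simp only [coeffMap_coeff, HahnSeries.coeff_zero, eq_intCast] at h1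
    exact (ZMod.intCast_zmod_eq_zero_iff_dvd _ _).mp h1
  refine ⟨D.map (divPrime ℓ), ?_⟩
  ext k
  rw [HahnSeries.C_mul_eq_smul, HahnSeries.coeff_smul, HahnSeries.map_coeff, smul_eq_mul]
  show D.coeff k = (ℓ : ℤ) * (D.coeff k / ℓ)
  rw [Int.mul_ediv_cancel' (hdvd k)]

end Fermat.Agent.A2.H528

end
end
-- ===== PACK-END A2/H528/FrobCong.lean

-- ===== PACK-BEGIN A2/Mod/H372/KronClosure.lean
section


/-!
# A2 / MODASM S3, abstract part (helper372): closure of a chart under the Kronecker twist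

Mathlib-only.  Setting (residue-field form): `S` a ring (the Gauss valuation ring `V∞_M` of
level `M`), `A → S` a subring (the level-`M` chart), `κ` a reduced ring of characteristic `q`
(the residue field of a Gauss valuation ring of level `Mq`), `f g : S →+* κ` the reductions of the
two degeneracy maps.

* `isIntegralElem_of_forall_exists` : integrality is inherited along an inclusion of ranges;
* `isIntegralElem_of_frobenius`     : `y ^ q` integral over `Frob ∘ f` ⟹ `y` integral over `f`;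
* `exists_eq_pow_of_normal`         : **Kronecker closure**: if `g s = (f s') ^ q` is solvable in
  `S` (leaf L12), `A` is "normal in `S` modulo `ker f`" (`GoodRedAt.normal`), `A` is integral over
  a polynomial ring `R[y]` with `g = f` on `R` and `g y = (f y) ^ q`, then `g a = (f a') ^ q` is
  solvable in `A` (`a ∈ A`);
* `exists_eq_of_normal`             : **residue degree one on the chart**: the same mechanism gives
  `ρ b = f a` for `b` in a chart `B` of level `Mq` (leaf L11).
-/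

set_option autoImplicit false

namespace Fermat.Agent.A2.Mod.H372

open Polynomial

section Integral

variable {A C κ : Type*} [CommRing A] [CommRing C] [CommRing κ]

/-- Integrality with respect to `h` implies integrality with respect to `f` when the range of
`h` is contained in the range of `f`. -/
theorem isIntegralElem_of_forall_exists (h : C →+* κ) (f : A →+* κ)
    (hr : ∀ c, ∃ a, f a = h c) {x : κ} (hx : h.IsIntegralElem x) : f.IsIntegralElem x := by
  obtain ⟨p, hp, hpx⟩ := hx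
  have hlift : p.map h ∈ Polynomial.lifts f := by
    rw [Polynomial.lifts_iff_coeff_lifts]
    intro n
    rw [Polynomial.coeff_map]
    obtain ⟨a, ha⟩ := hr (p.coeff n)
    exact ⟨a, ha⟩
  obtain ⟨p', hp', -, hmon⟩ := Polynomial.lifts_and_natDegree_eq_and_monic hlift (hp.map h)
  refine ⟨p', hmon, ?_⟩
  rw [← Polynomial.eval_map, hp', Polynomial.eval_map, hpx]

/-- Integrality is preserved by ring homomorphisms. -/
theorem isIntegralElem_map {B : Type*} [CommRing B] (j : C →+* A) (φ : A →+* B) {a : A}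
    (ha : j.IsIntegralElem a) : (φ.comp j).IsIntegralElem (φ a) := by
  obtain ⟨p, hp, hpa⟩ := ha
  refine ⟨p, hp, ?_⟩
  rw [← Polynomial.hom_eval₂, hpa, map_zero]

/-- Frobenius descent of integrality. -/
theorem isIntegralElem_of_frobenius (q : ℕ) [ExpChar κ q] [IsReduced κ] (f : A →+* κ) {y : κ}
    (h : ((frobenius κ q).comp f).IsIntegralElem (y ^ q)) : f.IsIntegralElem y := by
  obtain ⟨p, hp, hpy⟩ := h
  refine ⟨p, hp, ?_⟩
  have h1 : frobenius κ q (p.eval₂ f y) = 0 := by
    rw [Polynomial.hom_eval₂, frobenius_def, hpy]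
  exact frobenius_inj κ q (by rw [h1, map_zero])

end Integral

section Closure

variable {R S A κ : Type*} [CommRing R] [CommRing S] [CommRing A] [CommRing κ]

/-- **Kronecker closure of the chart.** -/
theorem exists_eq_pow_of_normal (q : ℕ) [ExpChar κ q] [IsReduced κ]
    (f g : S →+* κ) (ι : A →+* S)
    (hnormal : ∀ s : S, (f.comp ι).IsIntegralElem (f s) → ∃ a : A, f s = f (ι a))
    (hK : ∀ s : S, ∃ s' : S, g s = (f s') ^ q)
    (c : R →+* A) (y : A)
    (hint : ∀ a : A, (Polynomial.eval₂RingHom c y).IsIntegralElem a)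
    (hc : ∀ r : R, g (ι (c r)) = f (ι (c r)))
    (hy : g (ι y) = (f (ι y)) ^ q) :
    ∀ a : A, ∃ a' : A, g (ι a) = (f (ι a')) ^ q := by
  -- constants
  have hconst : ∀ r : R, ∃ a : A, g (ι (c r)) = (f (ι a)) ^ q := by
    intro r
    obtain ⟨s', hs'⟩ := hK (ι (c r))
    have hint' : (f.comp ι).IsIntegralElem (f s') := by
      refine ⟨X ^ q - C (c r), ?_, ?_⟩
      · exact Polynomial.monic_X_pow_sub_C _ (expChar_pos κ q).ne'
      · rw [Polynomial.eval₂_sub, Polynomial.eval₂_pow, Polynomial.eval₂_X, Polynomial.eval₂_C,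
          RingHom.comp_apply, ← hs', hc, sub_self]
    obtain ⟨a, ha⟩ := hnormal s' hint'
    exact ⟨a, by rw [hs', ha]⟩
  -- polynomials
  have hpoly : ∀ p : Polynomial R, ∃ a : A,
      g (ι (Polynomial.eval₂RingHom c y p)) = (f (ι a)) ^ q := by
    intro p
    induction p using Polynomial.induction_on' with
    | add p₁ p₂ h₁ h₂ =>
      obtain ⟨a₁, h₁⟩ := h₁
      obtain ⟨a₂, h₂⟩ := h₂
      refine ⟨a₁ + a₂, ?_⟩
      rw [map_add, map_add, map_add, h₁, h₂, map_add, map_add, add_pow_expChar]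
    | monomial n r =>
      obtain ⟨a, ha⟩ := hconst r
      refine ⟨a * y ^ n, ?_⟩
      rw [Polynomial.coe_eval₂RingHom, Polynomial.eval₂_monomial, map_mul, map_mul, map_pow,
        map_pow, ha, hy, map_mul, map_mul, map_pow, map_pow, mul_pow, ← pow_mul, ← pow_mul,
        mul_comm q n]
  intro a
  obtain ⟨s', hs'⟩ := hK (ι a)
  have h1 : ((g.comp ι).comp (Polynomial.eval₂RingHom c y)).IsIntegralElem (g (ι a)) :=
    isIntegralElem_map (Polynomial.eval₂RingHom c y) (g.comp ι) (hint a)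
  have h2 : ((frobenius κ q).comp (f.comp ι)).IsIntegralElem ((f s') ^ q) := by
    rw [← hs']
    refine isIntegralElem_of_forall_exists _ _ (fun p => ?_) h1
    obtain ⟨a', ha'⟩ := hpoly p
    exact ⟨a', by
      rw [RingHom.comp_apply, RingHom.comp_apply, frobenius_def, RingHom.comp_apply,
        RingHom.comp_apply, ha']⟩
  obtain ⟨a', ha'⟩ := hnormal s' (isIntegralElem_of_frobenius q _ h2)
  exact ⟨a', by rw [hs', ha']⟩

/-- **Residue degree one on the chart.** -/
theorem exists_eq_of_normal {B : Type*} [CommRing B]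
    (f : S →+* κ) (ι : A →+* S)
    (hnormal : ∀ s : S, (f.comp ι).IsIntegralElem (f s) → ∃ a : A, f s = f (ι a))
    (ρ : B →+* κ) (hres : ∀ b : B, ∃ s : S, ρ b = f s)
    (c : R →+* B) (y : B)
    (hc : ∀ r : R, ∃ a : A, ρ (c r) = f (ι a))
    (hy : ∃ a : A, ρ y = f (ι a)) :
    ∀ b : B, (Polynomial.eval₂RingHom c y).IsIntegralElem b → ∃ a : A, ρ b = f (ι a) := by
  have hpoly : ∀ p : Polynomial R, ∃ a : A, ρ (Polynomial.eval₂RingHom c y p) = f (ι a) := by
    intro p
    induction p using Polynomial.induction_on' with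
    | add p₁ p₂ h₁ h₂ =>
      obtain ⟨a₁, h₁⟩ := h₁
      obtain ⟨a₂, h₂⟩ := h₂
      exact ⟨a₁ + a₂, by rw [map_add, map_add, h₁, h₂, map_add, map_add]⟩
    | monomial n r =>
      obtain ⟨a, ha⟩ := hc r
      obtain ⟨ay, hay⟩ := hy
      refine ⟨a * ay ^ n, ?_⟩
      rw [Polynomial.coe_eval₂RingHom, Polynomial.eval₂_monomial, map_mul, map_pow, ha, hay,
        map_mul, map_mul, map_pow, map_pow]
  intro b hb
  obtain ⟨s, hs⟩ := hres b
  have h1 : (ρ.comp (Polynomial.eval₂RingHom c y)).IsIntegralElem (ρ b) :=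
    isIntegralElem_map (Polynomial.eval₂RingHom c y) ρ hb
  have h2 : (f.comp ι).IsIntegralElem (f s) := by
    rw [← hs]
    refine isIntegralElem_of_forall_exists _ _ (fun p => ?_) h1
    obtain ⟨a, ha⟩ := hpoly p
    exact ⟨a, by rw [RingHom.comp_apply, RingHom.comp_apply, ha]⟩
  obtain ⟨a, ha⟩ := hnormal s h2
  exact ⟨a, by rw [hs, ha]⟩

end Closure

end Fermat.Agent.A2.Mod.H372

end
-- ===== PACK-END A2/Mod/H372/KronClosure.lean

-- ===== PACK-BEGIN A2/Mod/H31/Biv.lean
section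


/-!
# A2 / MOD leaf L8 (helper31) — part 1: bivariate degree lemmas (Mathlib only)

`k ⊆ L` fields, `a b : L`, `a` transcendental over `k`.  For an irreducible `P ∈ k[X][Y]` of
positive `Y`-degree with `P(a, b) = 0` we have `[k(a)(b) : k(a)] = deg_Y P`
(`finrank_adjoin_of_irreducible`).  For a polynomial `A`, monic of degree `n` in `Y`, with
`A(a, b) = A(b, a) = 0` and `[k(a)(b) : k(a)] = n`, the polynomial `A` is symmetric up to a constant
(`exists_swap_eq`) and `[k(ab)(a) : k(ab)] = 2 n` (`finrank_adjoin_mul`).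
-/

set_option autoImplicit false

noncomputable section

namespace Fermat.Agent.A2.Mod.H31

open Polynomial IntermediateField
open scoped Polynomial.Bivariate

section Biv

variable {k L : Type*} [Field k] [Field L] [Algebra k L]

/-- The image of a bivariate polynomial over `k` in `k(a)[Y]`, `X ↦ a`. -/
def bivMap (a : L) : k[X][Y] →+* (k⟮a⟯)[X] :=
  mapRingHom (aeval (AdjoinSimple.gen k a)).toRingHom

theorem transcendental_gen {a : L} (ha : Transcendental k a) :
    Transcendental k (AdjoinSimple.gen k a) := by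
  intro h
  apply ha
  have := h.algebraMap (A := L)
  simpa using this

theorem aeval_gen_injective {a : L} (ha : Transcendental k a) :
    Function.Injective (aeval (R := k) (AdjoinSimple.gen k a)).toRingHom :=
  transcendental_iff_injective.mp (transcendental_gen ha)

theorem bivMap_injective {a : L} (ha : Transcendental k a) :
    Function.Injective (bivMap (k := k) a) :=
  Polynomial.map_injective _ (aeval_gen_injective ha)

theorem aevalAeval_eq_eval₂ (a b : L) (P : k[X][Y]) :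
    aevalAeval a b P = eval₂ (aeval (R := k) a).toRingHom b P := by
  induction P using Polynomial.induction_on' with
  | add p q hp hq => simp only [eval₂_add, map_add, hp, hq]
  | monomial n c =>
    rw [eval₂_monomial, ← C_mul_X_pow_eq_monomial, map_mul, map_pow, aevalAeval_C, aevalAeval_Y]
    rfl

theorem aeval_bivMap (a b : L) (P : k[X][Y]) :
    aeval b (bivMap a P) = aevalAeval a b P := by
  have h : (algebraMap k⟮a⟯ L).comp (aeval (R := k) (AdjoinSimple.gen k a)).toRingHom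
      = (aeval (R := k) a).toRingHom := by
    apply Polynomial.ringHom_ext
    · intro r; simp
    · simp
  rw [bivMap, coe_mapRingHom, aeval_def, eval₂_map, h, aevalAeval_eq_eval₂]

/-- The algebra structure `k[X] → k(a)`, `X ↦ a`. -/
@[reducible] def algPoly (a : L) : Algebra k[X] k⟮a⟯ :=
  (aeval (R := k) (AdjoinSimple.gen k a)).toRingHom.toAlgebra

theorem isFractionRing_poly {a : L} (ha : Transcendental k a) :
    letI := algPoly (k := k) a
    IsFractionRing k[X] k⟮a⟯ := by
  letI := algPoly (k := k) a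
  haveI : FaithfulSMul k[X] k⟮a⟯ :=
    (faithfulSMul_iff_algebraMap_injective _ _).mpr (aeval_gen_injective ha)
  refine IsFractionRing.of_field _ _ fun x => ?_
  obtain ⟨r, s, hrs⟩ := (mem_adjoin_simple_iff k (x : L)).mp x.2
  refine ⟨r, s, Subtype.ext ?_⟩
  rw [hrs]
  have h1 : ∀ p : k[X], ((algebraMap k[X] k⟮a⟯ p : k⟮a⟯) : L) = aeval a p := by
    intro p
    show ((aeval (R := k) (AdjoinSimple.gen k a) p : k⟮a⟯) : L) = aeval a p
    rw [← IntermediateField.algebraMap_apply, ← aeval_algebraMap_apply, AdjoinSimple.algebraMap_gen]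
  push_cast
  rw [h1, h1]

theorem irreducible_bivMap {a : L} (ha : Transcendental k a) {P : k[X][Y]}
    (hP : Irreducible P) (hdeg : P.natDegree ≠ 0) : Irreducible (bivMap a P) := by
  letI := algPoly (k := k) a
  haveI := isFractionRing_poly ha
  exact (IsPrimitive.irreducible_iff_irreducible_map_fraction_map (K := k⟮a⟯)
    (hP.isPrimitive hdeg)).mp hP

theorem natDegree_bivMap {a : L} (ha : Transcendental k a) (P : k[X][Y]) :
    (bivMap a P).natDegree = P.natDegree :=
  natDegree_map_eq_of_injective (aeval_gen_injective ha) P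

/-- **Degree from an irreducible relation.** -/
theorem minpoly_eq_of_irreducible {a b : L} (ha : Transcendental k a) {P : k[X][Y]}
    (hP : Irreducible P) (hdeg : P.natDegree ≠ 0) (h0 : aevalAeval a b P = 0) :
    minpoly k⟮a⟯ b = bivMap a P * C (bivMap a P).leadingCoeff⁻¹ :=
  (minpoly.eq_of_irreducible (irreducible_bivMap ha hP hdeg)
    ((aeval_bivMap a b P).trans h0)).symm

theorem isIntegral_of_irreducible {a b : L} (ha : Transcendental k a) {P : k[X][Y]}
    (hP : Irreducible P) (hdeg : P.natDegree ≠ 0) (h0 : aevalAeval a b P = 0) :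
    IsIntegral k⟮a⟯ b := by
  have hne : bivMap a P ≠ 0 := (irreducible_bivMap ha hP hdeg).ne_zero
  exact (isAlgebraic_iff_isIntegral).mp ⟨bivMap a P, hne, (aeval_bivMap a b P).trans h0⟩

theorem finrank_adjoin_of_irreducible {a b : L} (ha : Transcendental k a) {P : k[X][Y]}
    (hP : Irreducible P) (hdeg : P.natDegree ≠ 0) (h0 : aevalAeval a b P = 0) :
    Module.finrank k⟮a⟯ (k⟮a⟯)⟮b⟯ = P.natDegree := by
  have hne : bivMap a P ≠ 0 := (irreducible_bivMap ha hP hdeg).ne_zero
  rw [adjoin.finrank (isIntegral_of_irreducible ha hP hdeg h0),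
    minpoly_eq_of_irreducible ha hP hdeg h0,
    natDegree_mul_C (inv_ne_zero (leadingCoeff_ne_zero.mpr hne)), natDegree_bivMap ha]

/-- A monic relation of the right degree is irreducible, and is the minimal polynomial. -/
theorem irreducible_of_monic_of_finrank {a b : L} (ha : Transcendental k a) {P : k[X][Y]}
    (hP : P.Monic) (h0 : aevalAeval a b P = 0)
    (hfr : Module.finrank k⟮a⟯ (k⟮a⟯)⟮b⟯ = P.natDegree) :
    Irreducible P ∧ bivMap a P = minpoly k⟮a⟯ b := by
  have hmon : (bivMap a P).Monic := hP.map _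
  have hroot : aeval b (bivMap a P) = 0 := (aeval_bivMap a b P).trans h0
  have hint : IsIntegral k⟮a⟯ b := ⟨_, hmon, hroot⟩
  have hdeg : (minpoly k⟮a⟯ b).natDegree = (bivMap a P).natDegree := by
    rw [← adjoin.finrank hint, hfr, natDegree_bivMap ha]
  have heq : bivMap a P = minpoly k⟮a⟯ b :=
    Polynomial.eq_of_monic_of_dvd_of_natDegree_le (minpoly.monic hint) hmon
      (minpoly.dvd k⟮a⟯ b hroot) hdeg.ge
  refine ⟨?_, heq⟩
  apply Monic.irreducible_of_irreducible_map (aeval (R := k) (AdjoinSimple.gen k a)).toRingHom P hP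
  show Irreducible (bivMap a P)
  rw [heq]
  exact minpoly.irreducible hint

/-- **Symmetry of the modular equation** (up to a constant). -/
theorem exists_swap_eq {a b : L} (ha : Transcendental k a) {A : k[X][Y]}
    (hA : A.Monic) (h0 : aevalAeval a b A = 0) (h0' : aevalAeval b a A = 0)
    (hfr : Module.finrank k⟮a⟯ (k⟮a⟯)⟮b⟯ = A.natDegree) :
    ∃ c : k, c ≠ 0 ∧ Bivariate.swap A = C (C c) * A := by
  obtain ⟨-, heq⟩ := irreducible_of_monic_of_finrank ha hA h0 hfr
  have hdvd : A ∣ Bivariate.swap A := by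
    rw [← Polynomial.modByMonic_eq_zero_iff_dvd hA]
    apply bivMap_injective ha
    rw [map_zero]
    show (Bivariate.swap A %ₘ A).map _ = 0
    rw [Polynomial.map_modByMonic _ hA]
    show bivMap a (Bivariate.swap A) %ₘ bivMap a A = 0
    have hmon : (bivMap a A).Monic := hA.map _
    rw [Polynomial.modByMonic_eq_zero_iff_dvd hmon, heq]
    apply minpoly.dvd
    rw [aeval_bivMap, Bivariate.aevalAeval_swap]
    exact h0'
  obtain ⟨C₁, hC₁⟩ := hdvd
  have h2 : A * (C₁ * Bivariate.swap C₁) = A * 1 := by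
    have := congrArg Bivariate.swap hC₁
    rw [Bivariate.swap_swap_apply, map_mul, hC₁] at this
    rw [mul_one, ← mul_assoc]
    exact this.symm
  have h3 : C₁ * Bivariate.swap C₁ = 1 := mul_left_cancel₀ hA.ne_zero h2
  have hu : IsUnit C₁ := IsUnit.of_mul_eq_one _ h3
  obtain ⟨r, hr, rfl⟩ := Polynomial.isUnit_iff.mp hu
  obtain ⟨c, hc, rfl⟩ := Polynomial.isUnit_iff.mp hr
  exact ⟨c, hc.ne_zero, by rw [hC₁, mul_comm]⟩

theorem coeff_coeff_swap {R : Type*} [CommSemiring R] (P : R[X][Y]) (i m : ℕ) :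
    ((Bivariate.swap P).coeff i).coeff m = (P.coeff m).coeff i := by
  induction P using Polynomial.induction_on' with
  | add p q hp hq => simp only [map_add, coeff_add, hp, hq]
  | monomial n c =>
    induction c using Polynomial.induction_on' with
    | add p q hp hq => simp only [map_add, coeff_add, hp, hq]
    | monomial j r =>
      rw [Bivariate.swap_monomial_monomial, coeff_monomial, coeff_monomial]
      by_cases h1 : j = i <;> by_cases h2 : n = m <;> simp [h1, h2, coeff_monomial]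

/-- Inner degree bound from the symmetry. -/
theorem coeff_coeff_eq_zero_of_swap {A : k[X][Y]} {c : k}
    (hsw : Bivariate.swap A = C (C c) * A) (m i : ℕ) (hi : A.natDegree < i) :
    (A.coeff m).coeff i = 0 := by
  rw [← coeff_coeff_swap, hsw, coeff_C_mul, coeff_C_mul, coeff_eq_zero_of_natDegree_lt hi,
    coeff_zero, mul_zero]

theorem coeff_coeff_natDegree_of_swap {A : k[X][Y]} {c : k} (hA : A.Monic)
    (hsw : Bivariate.swap A = C (C c) * A) :
    (A.coeff 0).coeff A.natDegree = c := by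
  rw [← coeff_coeff_swap, hsw, coeff_C_mul, coeff_C_mul, coeff_natDegree, hA.leadingCoeff,
    coeff_one_zero, mul_one]

/-- The `Y`-degree of `swap (Xⁿ A(X, Y/X))` is `2 n`. -/
theorem natDegree_swap_scaleRoots {A : k[X][Y]} {c : k} (hc : c ≠ 0) (hA : A.Monic)
    (hsw : Bivariate.swap A = C (C c) * A) :
    (Bivariate.swap (scaleRoots A (X : k[X]))).natDegree = 2 * A.natDegree := by
  have key : ∀ i m : ℕ, ((Bivariate.swap (scaleRoots A (X : k[X]))).coeff i).coeff m
      = (A.coeff m * X ^ (A.natDegree - m)).coeff i := by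
    intro i m
    rw [coeff_coeff_swap, coeff_scaleRoots]
  apply le_antisymm
  · rw [natDegree_le_iff_coeff_eq_zero]
    intro N hN
    ext m
    rw [key, coeff_zero, coeff_mul_X_pow']
    split_ifs with h
    · by_cases hm : m ≤ A.natDegree
      · apply coeff_coeff_eq_zero_of_swap hsw
        omega
      · rw [coeff_eq_zero_of_natDegree_lt (not_le.mp hm), coeff_zero]
    · rfl
  · apply le_natDegree_of_ne_zero
    intro h
    have h1 : ((Bivariate.swap (scaleRoots A (X : k[X]))).coeff (2 * A.natDegree)).coeff 0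
        = 0 := by rw [h, coeff_zero]
    rw [key, Nat.sub_zero, coeff_mul_X_pow', if_pos (by omega)] at h1
    have h2 : 2 * A.natDegree - A.natDegree = A.natDegree := by omega
    rw [h2, coeff_coeff_natDegree_of_swap hA hsw] at h1
    exact hc h1

theorem aevalAeval_scaleRoots (a b : L) (A : k[X][Y]) :
    aevalAeval a (a * b) (scaleRoots A (X : k[X])) = a ^ A.natDegree * aevalAeval a b A := by
  rw [aevalAeval_eq_eval₂, aevalAeval_eq_eval₂]
  have := scaleRoots_eval₂_mul (p := A) (aeval (R := k) a).toRingHom b (X : k[X])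
  simpa using this

/-- **The degree of `k(a, b)` over `k(ab)`** for a pair `(a, b)` satisfying a symmetric monic
relation of degree `n = [k(a,b) : k(a)]`: it is `2 n`. -/
theorem finrank_adjoin_mul {a b : L} (ha : Transcendental k a) (hx : Transcendental k (a * b))
    {A : k[X][Y]} (hA : A.Monic) (h0 : aevalAeval a b A = 0) (h0' : aevalAeval b a A = 0)
    (hfr : Module.finrank k⟮a⟯ (k⟮a⟯)⟮b⟯ = A.natDegree) :
    Module.finrank k⟮a * b⟯ (k⟮a * b⟯)⟮a⟯ = 2 * A.natDegree := by
  have ha0 : a ≠ 0 := by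
    rintro rfl
    exact ha isAlgebraic_zero
  have hn : A.natDegree ≠ 0 := by
    intro hn
    have h1 : A = 1 := by
      exact hA.natDegree_eq_zero.mp hn
    rw [h1, map_one] at h0
    exact one_ne_zero h0
  -- `k(a)(ab) = k(a)(b)`
  have hfields : (k⟮a⟯)⟮a * b⟯ = (k⟮a⟯)⟮b⟯ := by
    have hamem : ∀ F : IntermediateField k⟮a⟯ L, a ∈ F := fun F =>
      F.algebraMap_mem (⟨a, mem_adjoin_simple_self k a⟩ : k⟮a⟯)
    apply le_antisymm
    · rw [adjoin_simple_le_iff]
      exact mul_mem (hamem _) (mem_adjoin_simple_self _ b)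
    · rw [adjoin_simple_le_iff]
      have h1 : a⁻¹ * (a * b) = b := by field_simp
      have h2 : a⁻¹ * (a * b) ∈ (k⟮a⟯)⟮a * b⟯ :=
        mul_mem (inv_mem (hamem _)) (mem_adjoin_simple_self _ (a * b))
      rwa [h1] at h2
  obtain ⟨c, hc, hsw⟩ := exists_swap_eq ha hA h0 h0' hfr
  -- the scaled polynomial
  have hG'mon : (scaleRoots A (X : k[X])).Monic := (monic_scaleRoots_iff _).mpr hA
  have hG'0 : aevalAeval a (a * b) (scaleRoots A (X : k[X])) = 0 := by
    rw [aevalAeval_scaleRoots, h0, mul_zero]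
  have hG'fr : Module.finrank k⟮a⟯ (k⟮a⟯)⟮a * b⟯ = (scaleRoots A (X : k[X])).natDegree := by
    rw [natDegree_scaleRoots, hfields, hfr]
  obtain ⟨hG'irr, -⟩ := irreducible_of_monic_of_finrank ha hG'mon hG'0 hG'fr
  have hGirr : Irreducible (Bivariate.swap (scaleRoots A (X : k[X]))) :=
    (MulEquiv.irreducible_iff (Bivariate.swap (R := k))).mpr hG'irr
  have hGdeg := natDegree_swap_scaleRoots hc hA hsw
  have hG0 : aevalAeval (a * b) a (Bivariate.swap (scaleRoots A (X : k[X]))) = 0 := by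
    rw [Bivariate.aevalAeval_swap]
    exact hG'0
  rw [finrank_adjoin_of_irreducible hx hGirr (by rw [hGdeg]; omega) hG0, hGdeg]

end Biv

end Fermat.Agent.A2.Mod.H31

end

end
-- ===== PACK-END A2/Mod/H31/Biv.lean

-- ===== PACK-BEGIN A2/Mod/H994/S2Abs.lean
section


/-!
# WALL A2 / MODASM — S2 (components normal), abstract core (helper994)

Mathlib only.  `K ⊆ L` fields with valuation subrings `VM`, `V`, an `R`-algebra map `φ : K → L`
(`α` or `β`), coordinates `yM ∈ K`, `y ∈ L` with `y ≡ φ(yM)^e` modulo the maximal ideal of `V`,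
`B` = integral closure of `R[y]` in `L`, `p = B ∩ 𝔪_V`.

`isIntegrallyClosed_quotient_of_residue`: if every element of `V` is congruent to some `φ g`,
`g ∈ VM` (residue degree one), and the level-`K` chart is normal modulo `𝔪_VM` (elementwise), then
`B ⧸ p` is integrally closed.

NOTE: `B` is in general NOT integral over `φ(B_K)` (chart at infinity), only modulo `p`; this is
why the statement is phrased through the residue field of `V`.
-/

set_option autoImplicit false
set_option linter.style.haveILetI false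
set_option linter.unusedSectionVars false

namespace Fermat.Agent.A2.Mod.H994

open Polynomial

section Abs

variable {R K L : Type*} [CommRing R] [Field K] [Field L] [Algebra R K] [Algebra R L]

/-- An element integral over `R[y]` lies in every valuation subring containing `R` and `y`. -/
theorem mem_valuationSubring_of_isIntegral_adjoin (V : ValuationSubring L)
    (hRV : ∀ r : R, algebraMap R L r ∈ V) {y : L} (hy : y ∈ V) {b : L}
    (hb : IsIntegral (Algebra.adjoin R ({y} : Set L)) b) : b ∈ V := by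
  obtain ⟨p, hp, hpb⟩ := hb
  let V' : Subalgebra R L :=
    { V.toSubring with
      algebraMap_mem' := hRV }
  have hle : Algebra.adjoin R ({y} : Set L) ≤ V' :=
    Algebra.adjoin_le (by
      intro z hz
      rw [Set.mem_singleton_iff] at hz
      subst hz
      exact hy)
  let j : ↥(Algebra.adjoin R ({y} : Set L)) →+* ↥V :=
    { toFun := fun a => ⟨a.1, hle a.2⟩
      map_one' := rfl
      map_mul' := fun _ _ => rfl
      map_zero' := rfl
      map_add' := fun _ _ => rfl }
  have hint : IsIntegral V b := by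
    refine ⟨p.map j, hp.map j, ?_⟩
    rw [Polynomial.eval₂_map]
    exact hpb
  obtain ⟨v, hv⟩ := (IsIntegrallyClosed.isIntegral_iff (R := V) (K := L)).mp hint
  rw [← hv]
  exact v.2

/-- Integrality over `R[y]` in polynomial form. -/
theorem exists_monic_eval₂_aeval_of_isIntegral_adjoin {y b : L}
    (hb : IsIntegral (Algebra.adjoin R ({y} : Set L)) b) :
    ∃ p : Polynomial (Polynomial R), p.Monic ∧
      p.eval₂ (Polynomial.aeval (R := R) y).toRingHom b = 0 := by
  obtain ⟨p, hp, hpb⟩ := hb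
  set ψ : Polynomial R →ₐ[R] L := Polynomial.aeval (R := R) y with hψ
  have hrange : Algebra.adjoin R ({y} : Set L) = ψ.range :=
    Algebra.adjoin_singleton_eq_range_aeval R y
  have hsurj : ∀ a : ↥(Algebra.adjoin R ({y} : Set L)), ∃ c : Polynomial R, ψ c = a.1 := by
    intro a
    have h1 : a.1 ∈ ψ.range := hrange ▸ a.2
    exact h1
  choose c hc using hsurj
  -- lift the coefficients
  let q : Polynomial (Polynomial R) :=
    Polynomial.X ^ p.natDegree + ∑ i ∈ Finset.range p.natDegree, Polynomial.C (c (p.coeff i)) *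
      Polynomial.X ^ i
  have hdeg : (∑ i ∈ Finset.range p.natDegree, Polynomial.C (c (p.coeff i)) *
      (Polynomial.X : Polynomial (Polynomial R)) ^ i).degree < (p.natDegree : WithBot ℕ) := by
    refine lt_of_le_of_lt (Polynomial.degree_sum_le _ _) ?_
    rw [Finset.sup_lt_iff (WithBot.bot_lt_coe _)]
    intro i hi
    refine lt_of_le_of_lt (Polynomial.degree_C_mul_X_pow_le _ _) ?_
    exact_mod_cast Finset.mem_range.1 hi
  have hq : q.Monic := Polynomial.monic_X_pow_add hdeg
  refine ⟨q, hq, ?_⟩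
  have hp' := hp.as_sum
  have hpb' : Polynomial.eval₂ (algebraMap (↥(Algebra.adjoin R ({y} : Set L))) L) b p = 0 := hpb
  rw [hp'] at hpb'
  simp only [q, Polynomial.eval₂_add, Polynomial.eval₂_pow, Polynomial.eval₂_X,
    Polynomial.eval₂_finsetSum, Polynomial.eval₂_mul, Polynomial.eval₂_C] at hpb' ⊢
  rw [← hpb']
  congr 1
  refine Finset.sum_congr rfl fun i _ => ?_
  congr 1
  exact hc _

/-- Transitivity: `z` integral over `R[y]` and `b` a root of a monic polynomial with coefficients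
in `R[z]` ⟹ `b` integral over `R[y]`. -/
theorem isIntegral_adjoin_of_eval₂ {y z b : L}
    (hz : IsIntegral (Algebra.adjoin R ({y} : Set L)) z)
    (p : Polynomial (Polynomial R)) (hp : p.Monic)
    (hpb : p.eval₂ (Polynomial.aeval (R := R) z).toRingHom b = 0) :
    IsIntegral (Algebra.adjoin R ({y} : Set L)) b := by
  let A := integralClosure (Algebra.adjoin R ({y} : Set L)) L
  have hmem : ∀ a : Polynomial R, Polynomial.aeval (R := R) z a ∈ A := by
    intro a
    have hle : Algebra.adjoin R ({z} : Set L) ≤ A.restrictScalars R :=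
      Algebra.adjoin_le (by
        intro t ht
        rw [Set.mem_singleton_iff] at ht
        subst ht
        exact hz)
    exact hle (Polynomial.aeval_mem_adjoin_singleton R z)
  let ψA : Polynomial R →+* A :=
    (Polynomial.aeval (R := R) z).toRingHom.codRestrict A.toSubring hmem
  have h1 : IsIntegral A b := by
    refine ⟨p.map ψA, hp.map ψA, ?_⟩
    rw [Polynomial.eval₂_map]
    exact hpb
  exact isIntegral_trans (R := ↥(Algebra.adjoin R ({y} : Set L))) (A := A) b h1

/-- An element of `R[y]`-root form is integral over `R[y]`. -/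
theorem isIntegral_adjoin_of_eval₂_self {y b : L}
    (p : Polynomial (Polynomial R)) (hp : p.Monic)
    (hpb : p.eval₂ (Polynomial.aeval (R := R) y).toRingHom b = 0) :
    IsIntegral (Algebra.adjoin R ({y} : Set L)) b :=
  isIntegral_adjoin_of_eval₂
    (isIntegral_algebraMap (R := ↥(Algebra.adjoin R ({y} : Set L)))
      (x := (⟨y, Algebra.subset_adjoin (Set.mem_singleton y)⟩ :
        ↥(Algebra.adjoin R ({y} : Set L))))) p hp hpb

/-- A monic polynomial relation in elementwise form. -/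
theorem monic_eval₂_eq_sum (ψ : Polynomial R →+* L) (Q : Polynomial (Polynomial R))
    (hQ : Q.Monic) (g : L) :
    Q.eval₂ ψ g = g ^ Q.natDegree + ∑ i : Fin Q.natDegree, ψ (Q.coeff i) * g ^ (i : ℕ) := by
  conv_lhs => rw [hQ.as_sum]
  simp only [Polynomial.eval₂_add, Polynomial.eval₂_pow, Polynomial.eval₂_X,
    Polynomial.eval₂_finsetSum, Polynomial.eval₂_mul, Polynomial.eval₂_C]
  rw [Finset.sum_range]

/-- **S2, abstract core.** -/
theorem isIntegrallyClosed_quotient_of_residue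
    (VM : ValuationSubring K) (V : ValuationSubring L) (φ : K →ₐ[R] L)
    (yM : K) (y : L) (e : ℕ)
    (B : Subalgebra R L)
    (hB : ∀ f : L, f ∈ B ↔ IsIntegral (Algebra.adjoin R ({y} : Set L)) f)
    (p : Ideal B) (hp : ∀ b : B, b ∈ p ↔ V.valuation (b : L) < 1)
    (hRVM : ∀ r : R, algebraMap R K r ∈ VM) (hyM : yM ∈ VM)
    (hRV : ∀ r : R, algebraMap R L r ∈ V) (hyV : y ∈ V)
    (hφV : ∀ g ∈ VM, φ g ∈ V)
    (hφm : ∀ g : K, VM.valuation g < 1 → V.valuation (φ g) < 1)
    (hkron : V.valuation (y - φ yM ^ e) < 1)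
    (hres : ∀ f ∈ V, ∃ g ∈ VM, V.valuation (f - φ g) < 1)
    (hnormM : ∀ g ∈ VM, ∀ Q : Polynomial (Polynomial R), Q.Monic →
      VM.valuation (Q.eval₂ (Polynomial.aeval (R := R) yM).toRingHom g) < 1 →
      ∃ b : K, φ b ∈ B ∧ VM.valuation (g - b) < 1) :
    IsIntegrallyClosed (B ⧸ p) := by
  classical
  have hBV : ∀ b ∈ B, b ∈ V := fun b hb =>
    mem_valuationSubring_of_isIntegral_adjoin V hRV hyV ((hB b).1 hb)
  -- the residue map of `V`
  set ρ : V →+* IsLocalRing.ResidueField V := IsLocalRing.residue V with hρdef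
  have hρ : ∀ v : V, ρ v = 0 ↔ V.valuation (v : L) < 1 := fun v => by
    rw [hρdef, IsLocalRing.residue_eq_zero_iff, ValuationSubring.valuation_lt_one_iff]
  have hρeq : ∀ u v : V, V.valuation ((u : L) - v) < 1 → ρ u = ρ v := by
    intro u v h
    have : ρ (u - v) = 0 := (hρ _).2 h
    rwa [map_sub, sub_eq_zero] at this
  -- `B → V → κ`
  let ιB : B →+* V :=
    { toFun := fun b => ⟨b.1, hBV b.1 b.2⟩
      map_one' := rfl
      map_mul' := fun _ _ => rfl
      map_zero' := rfl
      map_add' := fun _ _ => rfl }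
  set ψ : B →+* IsLocalRing.ResidueField V := ρ.comp ιB with hψdef
  have hψ : ∀ b : B, ψ b = 0 ↔ b ∈ p := fun b => by
    rw [hp]
    exact hρ _
  have hker : RingHom.ker ψ = p := by
    ext b
    rw [RingHom.mem_ker, hψ]
  have hprime : p.IsPrime := hker ▸ RingHom.ker_isPrime ψ
  let ι : B ⧸ p →+* IsLocalRing.ResidueField V :=
    Ideal.Quotient.lift p ψ (fun b hb => (hψ b).2 hb)
  have hι : Function.Injective ι := by
    rw [injective_iff_map_eq_zero]
    intro z hz
    obtain ⟨b, rfl⟩ := Ideal.Quotient.mk_surjective z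
    rw [Ideal.Quotient.lift_mk] at hz
    exact Ideal.Quotient.eq_zero_iff_mem.2 ((hψ b).1 hz)
  let ι' : FractionRing (B ⧸ p) →+* IsLocalRing.ResidueField V := IsFractionRing.lift hι
  have hι' : ∀ z : B ⧸ p, ι' (algebraMap (B ⧸ p) (FractionRing (B ⧸ p)) z) = ι z :=
    fun z => IsFractionRing.lift_algebraMap hι z
  refine (isIntegrallyClosed_iff (FractionRing (B ⧸ p))).2 fun {x} hx => ?_
  -- `ξ = ι' x` is integral over `ψ(B)`
  set ξ := ι' x with hξ
  obtain ⟨P, hP, hPx⟩ := hx
  have hPξ : P.eval₂ ι ξ = 0 := by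
    have h1 := congrArg ι' hPx
    rw [Polynomial.hom_eval₂, map_zero] at h1
    have h2 : ι'.comp (algebraMap (B ⧸ p) (FractionRing (B ⧸ p))) = ι :=
      RingHom.ext hι'
    rwa [h2] at h1
  obtain ⟨P', hP'map, -, hP'monic⟩ :=
    Polynomial.lifts_and_natDegree_eq_and_monic (f := Ideal.Quotient.mk p)
      ((Polynomial.mem_lifts _).2
        (Polynomial.map_surjective _ Ideal.Quotient.mk_surjective P)) hP
  have hP'ξ : P'.eval₂ ψ ξ = 0 := by
    rw [← hP'map, Polynomial.eval₂_map] at hPξ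
    exact hPξ
  -- the structure map `R[X] → V → κ`
  let cR : R →+* V := (algebraMap R L).codRestrict V.toSubring hRV
  let evV : Polynomial R →+* V := Polynomial.eval₂RingHom cR ⟨y, hyV⟩
  set ε : Polynomial R →+* IsLocalRing.ResidueField V := ρ.comp evV with hεdef
  have hsub : V.subtype.comp evV = (Polynomial.aeval (R := R) y).toRingHom := by
    apply Polynomial.ringHom_ext
    · intro r
      simp [evV, cR]
    · simp [evV]
  -- every `ψ b` is integral over `ε`
  have hint : ∀ b : B, ε.IsIntegralElem (ψ b) := by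
    intro b
    obtain ⟨q, hq, hqb⟩ := exists_monic_eval₂_aeval_of_isIntegral_adjoin ((hB b.1).1 b.2)
    refine ⟨q, hq, ?_⟩
    have h1 : q.eval₂ evV (ιB b) = 0 := by
      apply V.subtype_injective
      rw [Polynomial.hom_eval₂, hsub, map_zero]
      exact hqb
    have h2 := congrArg ρ h1
    rw [Polynomial.hom_eval₂, map_zero] at h2
    exact h2
  -- transitivity
  have hξint : ε.IsIntegralElem ξ := by
    letI : Algebra (Polynomial R) (IsLocalRing.ResidueField V) := ε.toAlgebra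
    let A := integralClosure (Polynomial R) (IsLocalRing.ResidueField V)
    let ψA : B →+* A := ψ.codRestrict A.toSubring (fun b => hint b)
    have h1 : IsIntegral A ξ := by
      refine ⟨P'.map ψA, hP'monic.map ψA, ?_⟩
      rw [Polynomial.eval₂_map]
      exact hP'ξ
    exact isIntegral_trans (R := Polynomial R) (A := A) ξ h1
  obtain ⟨Pε, hPε, hPεξ⟩ := hξint
  -- lift `ξ`
  obtain ⟨f, hf⟩ := IsLocalRing.residue_surjective (R := V) ξ
  obtain ⟨g, hg, hfg⟩ := hres f.1 f.2
  have hξg : ρ ⟨φ g, hφV g hg⟩ = ξ := by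
    rw [← hf]
    refine (hρeq f ⟨φ g, hφV g hg⟩ hfg).symm
  -- level `K`
  let cRM : R →+* VM := (algebraMap R K).codRestrict VM.toSubring hRVM
  let evVM : Polynomial R →+* VM := Polynomial.eval₂RingHom cRM ⟨yM, hyM⟩
  have hsubM : VM.subtype.comp evVM = (Polynomial.aeval (R := R) yM).toRingHom := by
    apply Polynomial.ringHom_ext
    · intro r
      simp [evVM, cRM]
    · simp [evVM]
  let φV : VM →+* V := (φ.toRingHom.comp VM.subtype).codRestrict V.toSubring
    (fun g => hφV g.1 g.2)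
  set Q : Polynomial (Polynomial R) := Pε.map (Polynomial.expand R e : _ →ₐ[R] _).toRingHom
    with hQ
  have hQmonic : Q.Monic := hPε.map _
  set zM : VM := Q.eval₂ evVM ⟨g, hg⟩ with hzM
  have hcomp : (ρ.comp (φV.comp evVM)).comp (Polynomial.expand R e : _ →ₐ[R] _).toRingHom = ε := by
    apply Polynomial.ringHom_ext
    · intro r
      simp only [RingHom.coe_comp, Function.comp_apply, AlgHom.toRingHom_eq_coe,
        RingHom.coe_coe, Polynomial.expand_C, hεdef]
      congr 1
      apply Subtype.ext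
      simp [φV, evVM, evV, cR, cRM]
    · simp only [RingHom.coe_comp, Function.comp_apply, AlgHom.toRingHom_eq_coe,
        RingHom.coe_coe, Polynomial.expand_X, hεdef, map_pow]
      have h1 : evVM Polynomial.X = ⟨yM, hyM⟩ := by simp [evVM]
      have h2 : evV Polynomial.X = ⟨y, hyV⟩ := by simp [evV]
      rw [h1, h2, ← map_pow]
      refine (hρeq _ _ ?_).symm
      have h3 : ((φV ⟨yM, hyM⟩ ^ e : V) : L) = φ yM ^ e := by
        simp [φV]
      rw [h3]
      exact hkron
  have hzero : ρ (φV zM) = 0 := by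
    rw [hzM, Polynomial.hom_eval₂, Polynomial.hom_eval₂, hQ, Polynomial.eval₂_map, hcomp]
    have h1 : ρ (φV ⟨g, hg⟩) = ξ := hξg
    rw [h1]
    exact hPεξ
  have hzval : V.valuation (φ (zM : K)) < 1 := (hρ (φV zM)).1 hzero
  have hzM1 : VM.valuation (zM : K) < 1 := by
    by_contra hcon
    have hle : VM.valuation (zM : K) ≤ 1 := (VM.valuation_le_one_iff _).2 zM.2
    have heq : VM.valuation (zM : K) = 1 := le_antisymm hle (not_lt.1 hcon)
    have hz0 : (zM : K) ≠ 0 := by
      intro h0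
      rw [h0, map_zero] at heq
      exact zero_ne_one heq
    have hinv : (zM : K)⁻¹ ∈ VM := by
      rw [← VM.valuation_le_one_iff, map_inv₀, heq, inv_one]
    have h1 : V.valuation (φ (zM : K)⁻¹) ≤ 1 := (V.valuation_le_one_iff _).2 (hφV _ hinv)
    have h2 : V.valuation (φ (zM : K)) * V.valuation (φ (zM : K)⁻¹) = 1 := by
      rw [← map_mul, ← map_mul, mul_inv_cancel₀ hz0, map_one, map_one]
    have h3 : V.valuation (φ (zM : K)) * V.valuation (φ (zM : K)⁻¹) < 1 := by
      calc V.valuation (φ (zM : K)) * V.valuation (φ (zM : K)⁻¹)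
          ≤ V.valuation (φ (zM : K)) * 1 := mul_le_mul' le_rfl h1
        _ = V.valuation (φ (zM : K)) := mul_one _
        _ < 1 := hzval
    rw [h2] at h3
    exact lt_irrefl _ h3
  have hzMK : (zM : K) = Q.eval₂ (Polynomial.aeval (R := R) yM).toRingHom g := by
    have h1 : VM.subtype zM = Q.eval₂ (VM.subtype.comp evVM) (VM.subtype ⟨g, hg⟩) := by
      rw [hzM, Polynomial.hom_eval₂]
    rw [hsubM] at h1
    exact h1
  rw [hzMK] at hzM1
  obtain ⟨b₀, hb₀B, hb₀⟩ := hnormM g hg Q hQmonic hzM1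
  have hb₁ : V.valuation (φ g - φ b₀) < 1 := by
    rw [← map_sub]
    exact hφm _ hb₀
  have hb₂ : V.valuation ((f : L) - φ b₀) < 1 := by
    have : (f : L) - φ b₀ = ((f : L) - φ g) + (φ g - φ b₀) := by ring
    rw [this]
    exact Valuation.map_add_lt _ hfg hb₁
  refine ⟨Ideal.Quotient.mk p ⟨φ b₀, hb₀B⟩, ?_⟩
  apply ι'.injective
  rw [hι', ← hξ, ← hf]
  show ψ ⟨φ b₀, hb₀B⟩ = _
  exact (hρeq f (ιB ⟨φ b₀, hb₀B⟩) hb₂).symm

end Abs

end Fermat.Agent.A2.Mod.H994

end
-- ===== PACK-END A2/Mod/H994/S2Abs.lean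

-- ===== PACK-BEGIN S35/G/H199/NRCore.lean
section



/-!
# S35 / cell FROB, leaf NR (norm residues) — abstract core (author: helper502)

VERBATIM copy of `origin/helper502:Fermat/Agent/S35/H502/NRAbs.lean` (commit 81317922, author
helper502), re-namespaced to `Fermat.Agent.S35.G.H199.NR` so that the closure of
`S35/G/H199/ToricMod.lean` (leaf TORIC / GLUE of the (G') route) is self-contained on main.

Mathlib-only.  Abstract form of step (e) of `origin/helper891:coord/S35-FROB-helper891.md`.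

Setting: two fields `FM` (level `M'`) and `F` (level `N = M' q`), two embeddings `α β : FM →+* F`,
automorphisms `σM` of `FM` and `σ` of `F` (a Frobenius lift) commuting with `α`, `β`, valuation
subrings `VM ⊆ FM`, `V₁ V₂ ⊆ F` (the Gauss valuations `V∞`, `V₀`), constants `CM ⊆ FM`, `C ⊆ F`,
multiplicative "norm" maps `Nα Nβ : F →* FM`.

`GSplitAt V C m u` : `u ≡ c * y ^ m` modulo the maximal ideal of `V`, `c ∈ C` a constant unit, `y` a
unit of `V` (i.e. the residue of `u` is trivial in `κ^× / (k^× (κ^×)^m)`).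

Hypotheses (`NRSetting`), all elementwise:
* `comm_α`, `comm_β`, `norm_α`, `norm_β` : `σ` commutes with `α`, `β`, `Nα`, `Nβ`;
* `val_M`, `val₁`, `val₂` : `σM`, `σ` preserve the valuations;
* `unit_α`, `max_α` (at `V₁`), `unit_β`, `max_β` (at `V₂`) : `α`, `β` are local;
* `res_α`, `res_β` : residue degree one (`V₁` over `α VM`, `V₂` over `β VM`)   [A2 MOD leaf L11];
* `kron₁`, `kron₂` : semilinear Kronecker congruences
  `β (σM b) ≡ (α b)^q mod 𝔪_{V₁}`, `α (σM b) ≡ (β b)^q mod 𝔪_{V₂}`       [A2 `H612.kron_inf/zero`];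
* `normRes_α`, `normRes_β` : residue of the norm of a unit `g` of `V₁ ∩ V₂`:
  `Nα g ≡ x₁ x₂` if `α x₁ ≡ g mod 𝔪_{V₁}` and `α x₂ ≡ g^q mod 𝔪_{V₂}`      [leaf NORM];
* `const_σ`, `const_α`, `const_β` : constants are preserved.

Main theorem `gSplit_of_qNew` (NR): if `Nα f = c h^m`, `Nβ f = c' h'^m` (`f` is `q`-new), then
`g₂ := (φ - 1)² f = φ(g)/g`, `g := φ(f)/f`, `φ := σ²`, is `G`-split at `V₁` and at `V₂`.
-/

set_option autoImplicit false

namespace Fermat.Agent.S35.G.H199.NR

section Cong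

variable {K : Type*} [Field K] (V : ValuationSubring K)

theorem val_lt_one_trans {a b c : K} (h1 : V.valuation (a - b) < 1)
    (h2 : V.valuation (b - c) < 1) : V.valuation (a - c) < 1 := by
  have : a - c = (a - b) + (b - c) := by ring
  rw [this]
  exact Valuation.map_add_lt _ h1 h2

theorem val_lt_one_symm {a b : K} (h : V.valuation (a - b) < 1) : V.valuation (b - a) < 1 := by
  rw [← Valuation.map_neg, neg_sub]
  exact h

theorem val_eq_one_of_cong {a b : K} (h : V.valuation (a - b) < 1) (hb : V.valuation b = 1) :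
    V.valuation a = 1 := by
  have hlt : V.valuation (a - b) < V.valuation b := by
    rw [hb]
    exact h
  have h2 : V.valuation (a - b + b) = V.valuation b :=
    Valuation.map_add_eq_of_lt_right _ hlt
  rw [sub_add_cancel] at h2
  rw [h2, hb]

theorem val_le_one_of_cong {a b : K} (h : V.valuation (a - b) < 1) (hb : V.valuation b ≤ 1) :
    V.valuation a ≤ 1 := by
  have : a = (a - b) + b := by ring
  rw [this]
  exact (Valuation.map_add_le_max' _ _ _).trans (max_le h.le hb)

theorem val_mul_lt_one_left {a b : K} (ha : V.valuation a < 1) (hb : V.valuation b ≤ 1) :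
    V.valuation (a * b) < 1 := by
  rw [Valuation.map_mul]
  calc V.valuation a * V.valuation b ≤ V.valuation a * 1 := by gcongr
    _ = V.valuation a := mul_one _
    _ < 1 := ha

theorem val_mul_lt_one_right {a b : K} (ha : V.valuation a ≤ 1) (hb : V.valuation b < 1) :
    V.valuation (a * b) < 1 := by
  rw [mul_comm]
  exact val_mul_lt_one_left V hb ha

theorem cong_mul {a a' b b' : K} (ha : V.valuation (a - a') < 1) (hb : V.valuation (b - b') < 1)
    (ha' : V.valuation a' ≤ 1) (hb1 : V.valuation b ≤ 1) :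
    V.valuation (a * b - a' * b') < 1 := by
  have : a * b - a' * b' = (a - a') * b + a' * (b - b') := by ring
  rw [this]
  exact Valuation.map_add_lt _ (val_mul_lt_one_left V ha hb1) (val_mul_lt_one_right V ha' hb)

theorem cong_pow {a b : K} (h : V.valuation (a - b) < 1) (hb : V.valuation b ≤ 1) (n : ℕ)
    (hn : 0 < n) : V.valuation (a ^ n - b ^ n) < 1 := by
  have ha : V.valuation a ≤ 1 := val_le_one_of_cong V h hb
  induction n with
  | zero => exact absurd hn (lt_irrefl 0)
  | succ k ih =>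
    rcases Nat.eq_zero_or_pos k with rfl | hk
    · simpa using h
    · rw [pow_succ, pow_succ]
      refine cong_mul V (ih hk) h ?_ ha
      rw [Valuation.map_pow]
      exact pow_le_one₀ zero_le hb

theorem cong_pow' {a b : K} (h : V.valuation (a - b) < 1) (hb : V.valuation b ≤ 1) (n : ℕ) :
    V.valuation (a ^ n - b ^ n) < 1 := by
  rcases Nat.eq_zero_or_pos n with rfl | hn
  · simp
  · exact cong_pow V h hb n hn

theorem val_inv_eq_one {a : K} (ha : V.valuation a = 1) : V.valuation a⁻¹ = 1 := by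
  rw [map_inv₀, ha, inv_one]

theorem ne_zero_of_val_eq_one {a : K} (ha : V.valuation a = 1) : a ≠ 0 := by
  rintro rfl
  rw [Valuation.map_zero] at ha
  exact zero_ne_one ha

theorem cong_div {a a' b b' : K} (ha : V.valuation (a - a') < 1)
    (hb : V.valuation (b - b') < 1) (ha' : V.valuation a' ≤ 1) (hb1 : V.valuation b = 1)
    (hb' : V.valuation b' = 1) : V.valuation (a / b - a' / b') < 1 := by
  have hb0 : b ≠ 0 := ne_zero_of_val_eq_one V hb1
  have hb'0 : b' ≠ 0 := ne_zero_of_val_eq_one V hb'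
  have h1 : a / b - a' / b' = ((a - a') * b' - a' * (b - b')) * (b * b')⁻¹ := by
    field_simp
    ring
  rw [h1]
  refine val_mul_lt_one_left V ?_ ?_
  · exact Valuation.map_sub_lt _ (val_mul_lt_one_left V ha hb'.le)
      (val_mul_lt_one_right V ha' hb)
  · rw [map_inv₀, Valuation.map_mul, hb1, hb', mul_one, inv_one]

theorem val_div_eq_one {a b : K} (ha : V.valuation a = 1) (hb : V.valuation b = 1) :
    V.valuation (a / b) = 1 := by
  rw [map_div₀, ha, hb, div_one]

theorem val_mul_eq_one {a b : K} (ha : V.valuation a = 1) (hb : V.valuation b = 1) :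
    V.valuation (a * b) = 1 := by
  rw [Valuation.map_mul, ha, hb, mul_one]

theorem val_pow_eq_one {a : K} (ha : V.valuation a = 1) (n : ℕ) : V.valuation (a ^ n) = 1 := by
  rw [Valuation.map_pow, ha, one_pow]

end Cong

/-- `u` is **`G`-split at `V`**: `u ≡ c * y ^ m` modulo the maximal ideal of `V`, with `c ∈ C` a
constant which is a unit of `V` and `y` a unit of `V`. -/
def GSplitAt {K : Type*} [Field K] (V : ValuationSubring K) (C : Subfield K) (m : ℕ) (u : K) :
    Prop :=
  ∃ c ∈ C, ∃ y : K, V.valuation c = 1 ∧ V.valuation y = 1 ∧ V.valuation (u - c * y ^ m) < 1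

theorem GSplitAt.val_eq_one {K : Type*} [Field K] {V : ValuationSubring K} {C : Subfield K}
    {m : ℕ} {u : K} (h : GSplitAt V C m u) : V.valuation u = 1 := by
  obtain ⟨c, _, y, hc, hy, hu⟩ := h
  exact val_eq_one_of_cong V hu (val_mul_eq_one V hc (val_pow_eq_one V hy m))

variable {FM F : Type*} [Field FM] [Field F]

/-- The abstract setting of leaf NR (see the module docstring). -/
structure NRSetting (q : ℕ) (α β : FM →+* F) (σM : FM ≃+* FM) (σ : F ≃+* F)
    (VM : ValuationSubring FM) (V₁ V₂ : ValuationSubring F) (CM : Subfield FM) (C : Subfield F)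
    (Nα Nβ : F →* FM) : Prop where
  comm_α : ∀ a, σ (α a) = α (σM a)
  comm_β : ∀ a, σ (β a) = β (σM a)
  norm_α : ∀ g, Nα (σ g) = σM (Nα g)
  norm_β : ∀ g, Nβ (σ g) = σM (Nβ g)
  val_M : ∀ h, VM.valuation (σM h) = 1 ↔ VM.valuation h = 1
  max_M : ∀ h, VM.valuation (σM h) < 1 ↔ VM.valuation h < 1
  ratio_M : ∀ h, h ≠ 0 → VM.valuation (σM h / h) = 1
  max₁ : ∀ f, V₁.valuation (σ f) < 1 ↔ V₁.valuation f < 1
  ratio₁ : ∀ f, f ≠ 0 → V₁.valuation (σ f / f) = 1
  max₂ : ∀ f, V₂.valuation (σ f) < 1 ↔ V₂.valuation f < 1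
  ratio₂ : ∀ f, f ≠ 0 → V₂.valuation (σ f / f) = 1
  unit_α : ∀ a, VM.valuation a = 1 → V₁.valuation (α a) = 1
  max_α : ∀ a, VM.valuation a < 1 → V₁.valuation (α a) < 1
  unit_β : ∀ a, VM.valuation a = 1 → V₂.valuation (β a) = 1
  max_β : ∀ a, VM.valuation a < 1 → V₂.valuation (β a) < 1
  res_α : ∀ g, V₁.valuation g = 1 → ∃ x, VM.valuation x = 1 ∧ V₁.valuation (α x - g) < 1
  res_β : ∀ g, V₂.valuation g = 1 → ∃ y, VM.valuation y = 1 ∧ V₂.valuation (β y - g) < 1
  kron₁ : ∀ b, VM.valuation b = 1 → V₁.valuation (β (σM b) - (α b) ^ q) < 1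
  kron₂ : ∀ b, VM.valuation b = 1 → V₂.valuation (α (σM b) - (β b) ^ q) < 1
  normRes_α : ∀ g x₁ x₂, V₁.valuation g = 1 → V₂.valuation g = 1 →
    VM.valuation x₁ = 1 → VM.valuation x₂ = 1 →
    V₁.valuation (α x₁ - g) < 1 → V₂.valuation (α x₂ - g ^ q) < 1 →
    VM.valuation (Nα g - x₁ * x₂) < 1
  normRes_β : ∀ g y₁ y₂, V₁.valuation g = 1 → V₂.valuation g = 1 →
    VM.valuation y₁ = 1 → VM.valuation y₂ = 1 →
    V₁.valuation (β y₁ - g ^ q) < 1 → V₂.valuation (β y₂ - g) < 1 →
    VM.valuation (Nβ g - y₁ * y₂) < 1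
  const_σ : ∀ c ∈ CM, σM c ∈ CM
  const_α : ∀ c ∈ CM, α c ∈ C
  const_β : ∀ c ∈ CM, β c ∈ C

namespace NRSetting

variable {q : ℕ} {α β : FM →+* F} {σM : FM ≃+* FM} {σ : F ≃+* F}
  {VM : ValuationSubring FM} {V₁ V₂ : ValuationSubring F} {CM : Subfield FM} {C : Subfield F}
  {Nα Nβ : F →* FM}

omit [Field FM] [Field F] in
theorem map_div_of_ne_zero {G H : Type*} [Field G] [Field H] (N : G →* H) (a b : G)
    (hb : b ≠ 0) : N (a / b) = N a / N b := by
  have hNb : N b ≠ 0 := by
    intro h0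
    have h1 : N b * N b⁻¹ = 1 := by rw [← map_mul, mul_inv_cancel₀ hb, map_one]
    rw [h0, zero_mul] at h1
    exact zero_ne_one h1
  rw [eq_div_iff hNb, ← map_mul, div_mul_cancel₀ a hb]

omit [Field FM] [Field F] in
theorem map_ne_zero_of_ne_zero {G H : Type*} [Field G] [Field H] (N : G →* H) {b : G}
    (hb : b ≠ 0) : N b ≠ 0 := by
  intro h0
  have h1 : N b * N b⁻¹ = 1 := by rw [← map_mul, mul_inv_cancel₀ hb, map_one]
  rw [h0, zero_mul] at h1
  exact zero_ne_one h1

/-- The norm of `g = σ²(f)/f` when `N f = c h^m`. -/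
theorem norm_ratio (N : F →* FM) (hN : ∀ g, N (σ g) = σM (N g)) {f : F} (hf : f ≠ 0) {m : ℕ}
    {c h : FM} (hNf : N f = c * h ^ m) :
    N (σ (σ f) / f) = (σM (σM c) / c) * (σM (σM h) / h) ^ m := by
  have hNf0 : N f ≠ 0 := map_ne_zero_of_ne_zero N hf
  have hc : c ≠ 0 := by
    rintro rfl
    rw [zero_mul] at hNf
    exact hNf0 hNf
  have hh : h ^ m ≠ 0 := by
    intro h0
    rw [h0, mul_zero] at hNf
    exact hNf0 hNf
  rw [map_div_of_ne_zero N _ _ hf, hN, hN, hNf, map_mul, map_mul, map_pow, map_pow, div_pow]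
  field_simp

variable (S : NRSetting q α β σM σ VM V₁ V₂ CM C Nα Nβ)
include S

theorem val_ratio_sq_M {h : FM} (hh : h ≠ 0) : VM.valuation (σM (σM h) / h) = 1 := by
  have h1 := S.ratio_M h hh
  have hσh : σM h ≠ 0 := (map_ne_zero_iff σM σM.injective).2 hh
  have h2 := S.ratio_M (σM h) hσh
  have : σM (σM h) / h = (σM (σM h) / σM h) * (σM h / h) := by
    field_simp
  rw [this]
  exact val_mul_eq_one VM h2 h1

theorem val_ratio_sq₁ {f : F} (hf : f ≠ 0) : V₁.valuation (σ (σ f) / f) = 1 := by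
  have h1 := S.ratio₁ f hf
  have hσf : σ f ≠ 0 := (map_ne_zero_iff σ σ.injective).2 hf
  have h2 := S.ratio₁ (σ f) hσf
  have : σ (σ f) / f = (σ (σ f) / σ f) * (σ f / f) := by
    field_simp
  rw [this]
  exact val_mul_eq_one V₁ h2 h1

theorem val_ratio_sq₂ {f : F} (hf : f ≠ 0) : V₂.valuation (σ (σ f) / f) = 1 := by
  have h1 := S.ratio₂ f hf
  have hσf : σ f ≠ 0 := (map_ne_zero_iff σ σ.injective).2 hf
  have h2 := S.ratio₂ (σ f) hσf
  have : σ (σ f) / f = (σ (σ f) / σ f) * (σ f / f) := by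
    field_simp
  rw [this]
  exact val_mul_eq_one V₂ h2 h1

theorem cong_σM {a b : FM} (h : VM.valuation (a - b) < 1) :
    VM.valuation (σM a - σM b) < 1 := by
  rw [← map_sub]
  exact (S.max_M _).2 h

theorem cong_σ₁ {a b : F} (h : V₁.valuation (a - b) < 1) : V₁.valuation (σ a - σ b) < 1 := by
  rw [← map_sub]
  exact (S.max₁ _).2 h

theorem cong_σ₂ {a b : F} (h : V₂.valuation (a - b) < 1) : V₂.valuation (σ a - σ b) < 1 := by
  rw [← map_sub]
  exact (S.max₂ _).2 h

theorem cong_α {a b : FM} (h : VM.valuation (a - b) < 1) : V₁.valuation (α a - α b) < 1 := by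
  rw [← map_sub]
  exact S.max_α _ h

theorem cong_β {a b : FM} (h : VM.valuation (a - b) < 1) : V₂.valuation (β a - β b) < 1 := by
  rw [← map_sub]
  exact S.max_β _ h

/-- **NR, abstract form.**  If `f ≠ 0` is `q`-new (`Nα f = c h^m`, `Nβ f = c' h'^m` with constants
`c, c'`), then `(φ - 1)² f`, `φ = σ²`, is `G`-split at `V₁` and at `V₂`. -/
theorem gSplit_of_qNew {m : ℕ} {f : F} (hf : f ≠ 0) {c c' h h' : FM} (hc : c ∈ CM)
    (hc' : c' ∈ CM) (hNα : Nα f = c * h ^ m) (hNβ : Nβ f = c' * h' ^ m) :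
    GSplitAt V₁ C m (σ (σ (σ (σ f) / f)) / (σ (σ f) / f)) ∧
      GSplitAt V₂ C m (σ (σ (σ (σ f) / f)) / (σ (σ f) / f)) := by
  -- nonvanishing
  have hNf0 : Nα f ≠ 0 := map_ne_zero_of_ne_zero Nα hf
  have hNf0' : Nβ f ≠ 0 := map_ne_zero_of_ne_zero Nβ hf
  have hc0 : c ≠ 0 := by
    rintro rfl; rw [zero_mul] at hNα; exact hNf0 hNα
  have hc0' : c' ≠ 0 := by
    rintro rfl; rw [zero_mul] at hNβ; exact hNf0' hNβ
  have hh0 : h ≠ 0 ∨ m = 0 := by
    by_cases hm : m = 0
    · exact Or.inr hm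
    · left
      rintro rfl
      rw [zero_pow hm, mul_zero] at hNα
      exact hNf0 hNα
  have hh0' : h' ≠ 0 ∨ m = 0 := by
    by_cases hm : m = 0
    · exact Or.inr hm
    · left
      rintro rfl
      rw [zero_pow hm, mul_zero] at hNβ
      exact hNf0' hNβ
  -- the unit `g`
  set g : F := σ (σ f) / f with hg
  have hg1 : V₁.valuation g = 1 := S.val_ratio_sq₁ hf
  have hg2 : V₂.valuation g = 1 := S.val_ratio_sq₂ hf
  have hg0 : g ≠ 0 := ne_zero_of_val_eq_one V₁ hg1
  -- norms of `g`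
  set c₁ : FM := σM (σM c) / c with hc₁
  set c₂ : FM := σM (σM c') / c' with hc₂
  -- replace `h`, `h'` by `1` if `m = 0`
  obtain ⟨u₁, hu₁, hNαg⟩ : ∃ u₁ : FM, VM.valuation u₁ = 1 ∧ Nα g = c₁ * u₁ ^ m := by
    rcases hh0 with hh | hm
    · exact ⟨σM (σM h) / h, S.val_ratio_sq_M hh, norm_ratio Nα S.norm_α hf hNα⟩
    · refine ⟨1, Valuation.map_one _, ?_⟩
      have := norm_ratio Nα S.norm_α hf hNα
      rw [this, hm, pow_zero, pow_zero]
  obtain ⟨u₂, hu₂, hNβg⟩ : ∃ u₂ : FM, VM.valuation u₂ = 1 ∧ Nβ g = c₂ * u₂ ^ m := by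
    rcases hh0' with hh | hm
    · exact ⟨σM (σM h') / h', S.val_ratio_sq_M hh, norm_ratio Nβ S.norm_β hf hNβ⟩
    · refine ⟨1, Valuation.map_one _, ?_⟩
      have := norm_ratio Nβ S.norm_β hf hNβ
      rw [this, hm, pow_zero, pow_zero]
  have hc₁v : VM.valuation c₁ = 1 := S.val_ratio_sq_M hc0
  have hc₂v : VM.valuation c₂ = 1 := S.val_ratio_sq_M hc0'
  have hc₁C : c₁ ∈ CM := div_mem (S.const_σ _ (S.const_σ _ hc)) hc
  have hc₂C : c₂ ∈ CM := div_mem (S.const_σ _ (S.const_σ _ hc')) hc'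
  -- residues of `g`
  obtain ⟨x, hx, hxg⟩ := S.res_α g hg1
  obtain ⟨y, hy, hyg⟩ := S.res_β g hg2
  have hσx : VM.valuation (σM x) = 1 := (S.val_M x).2 hx
  have hσy : VM.valuation (σM y) = 1 := (S.val_M y).2 hy
  -- the two norm relations
  have hA : VM.valuation (Nα g - x * σM y) < 1 := by
    refine S.normRes_α g x (σM y) hg1 hg2 hx hσy hxg ?_
    refine val_lt_one_trans V₂ (S.kron₂ y hy) ?_
    exact cong_pow' V₂ hyg hg2.le q
  have hB : VM.valuation (Nβ g - σM x * y) < 1 := by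
    refine S.normRes_β g (σM x) y hg1 hg2 hσx hy ?_ hyg
    refine val_lt_one_trans V₁ (S.kron₁ x hx) ?_
    exact cong_pow' V₁ hxg hg1.le q
  rw [hNαg] at hA
  rw [hNβg] at hB
  -- units
  have hP₁ : VM.valuation (c₁ * u₁ ^ m) = 1 := val_mul_eq_one VM hc₁v (val_pow_eq_one VM hu₁ m)
  have hP₂ : VM.valuation (c₂ * u₂ ^ m) = 1 := val_mul_eq_one VM hc₂v (val_pow_eq_one VM hu₂ m)
  have hσc₁ : VM.valuation (σM c₁) = 1 := (S.val_M _).2 hc₁v
  have hσc₂ : VM.valuation (σM c₂) = 1 := (S.val_M _).2 hc₂v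
  have hσu₁ : VM.valuation (σM u₁) = 1 := (S.val_M _).2 hu₁
  have hσu₂ : VM.valuation (σM u₂) = 1 := (S.val_M _).2 hu₂
  have hσσx : VM.valuation (σM (σM x)) = 1 := (S.val_M _).2 hσx
  have hσσy : VM.valuation (σM (σM y)) = 1 := (S.val_M _).2 hσy
  have hx0 : x ≠ 0 := ne_zero_of_val_eq_one VM hx
  have hy0 : y ≠ 0 := ne_zero_of_val_eq_one VM hy
  have hσx0 : σM x ≠ 0 := ne_zero_of_val_eq_one VM hσx
  have hσy0 : σM y ≠ 0 := ne_zero_of_val_eq_one VM hσy
  have hu₁0 : u₁ ≠ 0 := ne_zero_of_val_eq_one VM hu₁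
  have hu₂0 : u₂ ≠ 0 := ne_zero_of_val_eq_one VM hu₂
  have hc₁0 : c₁ ≠ 0 := ne_zero_of_val_eq_one VM hc₁v
  have hc₂0 : c₂ ≠ 0 := ne_zero_of_val_eq_one VM hc₂v
  -- `σM` applied to the relations
  have hA' : VM.valuation (σM c₁ * σM u₁ ^ m - σM x * σM (σM y)) < 1 := by
    have := S.cong_σM hA
    rwa [map_mul, map_pow, map_mul] at this
  have hB' : VM.valuation (σM c₂ * σM u₂ ^ m - σM (σM x) * σM y) < 1 := by
    have := S.cong_σM hB
    rwa [map_mul, map_pow, map_mul] at this
  -- `φ x / x` and `φ y / y`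
  have hX : VM.valuation (σM (σM x) / x - (σM c₂ / c₁) * (σM u₂ / u₁) ^ m) < 1 := by
    have h1 : VM.valuation ((σM (σM x) * σM y) / (x * σM y)
        - (σM c₂ * σM u₂ ^ m) / (c₁ * u₁ ^ m)) < 1 :=
      cong_div VM (val_lt_one_symm VM hB') (val_lt_one_symm VM hA)
        (val_mul_eq_one VM hσc₂ (val_pow_eq_one VM hσu₂ m)).le
        (val_mul_eq_one VM hx hσy) hP₁
    have e1 : (σM (σM x) * σM y) / (x * σM y) = σM (σM x) / x := by
      field_simp
    have e2 : (σM c₂ * σM u₂ ^ m) / (c₁ * u₁ ^ m) = (σM c₂ / c₁) * (σM u₂ / u₁) ^ m := by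
      rw [div_pow]
      field_simp
    rwa [e1, e2] at h1
  have hY : VM.valuation (σM (σM y) / y - (σM c₁ / c₂) * (σM u₁ / u₂) ^ m) < 1 := by
    have h1 : VM.valuation ((σM x * σM (σM y)) / (σM x * y)
        - (σM c₁ * σM u₁ ^ m) / (c₂ * u₂ ^ m)) < 1 :=
      cong_div VM (val_lt_one_symm VM hA') (val_lt_one_symm VM hB)
        (val_mul_eq_one VM hσc₁ (val_pow_eq_one VM hσu₁ m)).le
        (val_mul_eq_one VM hσx hy) hP₂
    have e1 : (σM x * σM (σM y)) / (σM x * y) = σM (σM y) / y := by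
      field_simp
    have e2 : (σM c₁ * σM u₁ ^ m) / (c₂ * u₂ ^ m) = (σM c₁ / c₂) * (σM u₁ / u₂) ^ m := by
      rw [div_pow]
      field_simp
    rwa [e1, e2] at h1
  constructor
  · -- at `V₁`, through `α` and `x`
    refine ⟨α (σM c₂ / c₁), S.const_α _ (div_mem (S.const_σ _ hc₂C) hc₁C), α (σM u₂ / u₁),
      S.unit_α _ (val_div_eq_one VM hσc₂ hc₁v), S.unit_α _ (val_div_eq_one VM hσu₂ hu₁), ?_⟩
    have hαx : V₁.valuation (α x) = 1 := S.unit_α _ hx
    have h1 : V₁.valuation (σ (σ g) - α (σM (σM x))) < 1 := by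
      have := S.cong_σ₁ (S.cong_σ₁ (val_lt_one_symm V₁ hxg))
      rwa [S.comm_α, S.comm_α] at this
    have h2 : V₁.valuation (σ (σ g) / g - α (σM (σM x)) / α x) < 1 :=
      cong_div V₁ h1 (val_lt_one_symm V₁ hxg) (S.unit_α _ hσσx).le hg1 hαx
    have h3 : V₁.valuation (α (σM (σM x)) / α x - α (σM c₂ / c₁) * α (σM u₂ / u₁) ^ m) < 1 := by
      have := S.cong_α hX
      rwa [map_mul, map_pow, map_div₀ α (σM (σM x)) x] at this
    exact val_lt_one_trans V₁ h2 h3
  · -- at `V₂`, through `β` and `y`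
    refine ⟨β (σM c₁ / c₂), S.const_β _ (div_mem (S.const_σ _ hc₁C) hc₂C), β (σM u₁ / u₂),
      S.unit_β _ (val_div_eq_one VM hσc₁ hc₂v), S.unit_β _ (val_div_eq_one VM hσu₁ hu₂), ?_⟩
    have hβy : V₂.valuation (β y) = 1 := S.unit_β _ hy
    have h1 : V₂.valuation (σ (σ g) - β (σM (σM y))) < 1 := by
      have := S.cong_σ₂ (S.cong_σ₂ (val_lt_one_symm V₂ hyg))
      rwa [S.comm_β, S.comm_β] at this
    have h2 : V₂.valuation (σ (σ g) / g - β (σM (σM y)) / β y) < 1 :=
      cong_div V₂ h1 (val_lt_one_symm V₂ hyg) (S.unit_β _ hσσy).le hg2 hβy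
    have h3 : V₂.valuation (β (σM (σM y)) / β y - β (σM c₁ / c₂) * β (σM u₁ / u₂) ^ m) < 1 := by
      have := S.cong_β hY
      rwa [map_mul, map_pow, map_div₀ β (σM (σM y)) y] at this
    exact val_lt_one_trans V₂ h2 h3

end NRSetting

end Fermat.Agent.S35.G.H199.NR

end
-- ===== PACK-END S35/G/H199/NRCore.lean

-- ===== PACK-BEGIN S28/H865Integral.lean
section
/-
S28 helper (helper865): abstract integrality lemma (c).

If `P` is an integrally closed domain, `ℓ ∈ P` is prime, `s ∈ P` is not divisible by `ℓ`, and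
both `ℓ • a` and `s • a` are integral over `P`, then `a` is integral over `P`.
-/


set_option autoImplicit false

noncomputable section

namespace Fermat.Agent.S28.H865

open Polynomial

/-- A monic polynomial all of whose coefficients are suitably divisible is a `scaleRoots`. -/
theorem exists_monic_scaleRoots_eq {P : Type*} [CommRing P] [IsDomain P] {ν : P[X]}
    (hν : ν.Monic) {ℓ : P} (h : ∀ i, ℓ ^ (ν.natDegree - i) ∣ ν.coeff i) :
    ∃ μ : P[X], μ.Monic ∧ μ.scaleRoots ℓ = ν := by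
  classical
  choose c hc using h
  set m := ν.natDegree with hm
  by_cases hℓ : ℓ = 0
  · -- then all lower coefficients vanish, `ν = X ^ m`
    refine ⟨ν, hν, ?_⟩
    ext i
    rw [coeff_scaleRoots]
    rcases lt_trichotomy i m with hi | hi | hi
    · have h0 : ν.coeff i = 0 := by
        rw [hc i, hℓ, zero_pow (by omega), zero_mul]
      rw [h0, zero_mul]
    · rw [hi, ← hm, Nat.sub_self, pow_zero, mul_one]
    · rw [coeff_eq_zero_of_natDegree_lt (by omega), zero_mul]
  set μ : P[X] := ∑ i ∈ Finset.range (m + 1), monomial i (c i) with hμ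
  have hμcoeff : ∀ i, μ.coeff i = if i ≤ m then c i else 0 := by
    intro i
    rw [hμ, finsetSum_coeff]
    simp only [coeff_monomial]
    rw [Finset.sum_ite_eq' (Finset.range (m + 1)) i]
    simp
  have hcm : c m = 1 := by
    have h1 := hc m
    rw [Nat.sub_self, pow_zero, one_mul] at h1
    rw [← h1]
    exact hν.coeff_natDegree
  have hμdeg : μ.natDegree ≤ m := by
    rw [hμ]
    refine natDegree_sum_le_of_forall_le _ _ fun i hi => ?_
    exact (natDegree_monomial_le _).trans (Nat.lt_succ_iff.mp (Finset.mem_range.mp hi))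
  have hμmonic : μ.Monic := by
    refine monic_of_natDegree_le_of_coeff_eq_one m hμdeg ?_
    rw [hμcoeff, if_pos le_rfl, hcm]
  have hμdeg' : μ.natDegree = m := by
    refine le_antisymm hμdeg ?_
    refine le_natDegree_of_ne_zero ?_
    rw [hμcoeff, if_pos le_rfl, hcm]
    exact one_ne_zero
  refine ⟨μ, hμmonic, ?_⟩
  ext i
  rw [coeff_scaleRoots, hμdeg', hμcoeff]
  by_cases hi : i ≤ m
  · rw [if_pos hi, hc i, mul_comm]
  · rw [if_neg hi, zero_mul, coeff_eq_zero_of_natDegree_lt (by omega)]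

/-- **Abstract integrality lemma.** -/
theorem isIntegral_of_smul_of_smul {P F : Type*} [CommRing P] [IsDomain P]
    [IsIntegrallyClosed P] [CommRing F] [IsDomain F] [Algebra P F] [FaithfulSMul P F]
    {ℓ s : P} (hℓ : Prime ℓ) (hs : ¬ ℓ ∣ s) {a : F}
    (h1 : IsIntegral P (ℓ • a)) (h2 : IsIntegral P (s • a)) : IsIntegral P a := by
  have hs0 : s ≠ 0 := fun h => hs (h ▸ dvd_zero ℓ)
  have hℓ0 : ℓ ≠ 0 := hℓ.ne_zero
  have key : (minpoly P (ℓ • a)).scaleRoots s = (minpoly P (s • a)).scaleRoots ℓ := by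
    rw [← IsIntegrallyClosed.minpoly_smul hs0 h1, ← IsIntegrallyClosed.minpoly_smul hℓ0 h2,
      smul_smul, smul_smul, mul_comm]
  have hdeg : (minpoly P (ℓ • a)).natDegree = (minpoly P (s • a)).natDegree := by
    have := congrArg Polynomial.natDegree key
    simpa [Polynomial.natDegree_scaleRoots] using this
  have hcoeff : ∀ i, ℓ ^ ((minpoly P (ℓ • a)).natDegree - i) ∣ (minpoly P (ℓ • a)).coeff i := by
    intro i
    have h3 := congrArg (fun p => Polynomial.coeff p i) key
    simp only [Polynomial.coeff_scaleRoots] at h3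
    rw [← hdeg] at h3
    refine hℓ.pow_dvd_of_dvd_mul_right (b := s ^ ((minpoly P (ℓ • a)).natDegree - i)) _
      (fun h => hs (hℓ.dvd_of_dvd_pow h)) ?_
    rw [h3]
    exact dvd_mul_left _ _
  obtain ⟨μ, hμ, hμν⟩ := exists_monic_scaleRoots_eq (minpoly.monic h1) hcoeff
  refine ⟨μ, hμ, ?_⟩
  have h4 : Polynomial.eval₂ (algebraMap P F) (algebraMap P F ℓ * a) (μ.scaleRoots ℓ) = 0 := by
    rw [hμν, ← Algebra.smul_def, ← Polynomial.aeval_def]
    exact minpoly.aeval P _
  rw [Polynomial.scaleRoots_eval₂_mul] at h4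
  have h5 : (algebraMap P F ℓ) ^ μ.natDegree ≠ 0 :=
    pow_ne_zero _ (by
      rw [Ne, FaithfulSMul.algebraMap_eq_zero_iff]
      exact hℓ0)
  exact (mul_eq_zero.mp h4).resolve_left h5

end Fermat.Agent.S28.H865

end
end
-- ===== PACK-END S28/H865Integral.lean

-- ===== PACK-BEGIN A2/H552/KummerUnram.lean
section







/-!
# A2 / ALG, COVER-SPLIT in the cyclic case `u ≡ 1 mod w` (helper552)

`K ⊆ Ω` fields, `V` a valuation subring of `K` with uniformiser `w` (`w` generates the non-units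
of `V` and `K = V[1/w]`), `m` invertible in `V`, `ζ ∈ K` a primitive `m`-th root of unity,
`Ω = K[z]` with `z ^ m = 1 + w t`, `t ∈ V`.  Let `W` be ANY valuation subring of `Ω` containing `V`
in which `w` is not a unit.  Then

* `z = η (1 + w s)` with `η` an `m`-th root of unity and `s ∈ W`;
* `W = V[s]` (the subring generated by `V` and `s`), `V[s] = V + w V[s]`;
* hence `𝔪_W = w W` (`e = 1`) and `W = V + w W` (`f = 1`): `kummer_unramified`.

No Galois theory, no étale/Dedekind API, no completeness.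
-/

set_option autoImplicit false

namespace Fermat.Agent.A2.H552

open Polynomial

section CycUnram

variable {K Ω : Type*} [Field K] [Field Ω] [Algebra K Ω]

/-- In a valuation subring of a field: a nonzero element with `x⁻¹ ∉ W` has valuation `< 1`. -/
theorem valuation_lt_one_of_inv_notMem (W : ValuationSubring Ω) {x : Ω} (hx : x⁻¹ ∉ W) :
    W.valuation x < 1 := by
  by_contra h
  rw [not_lt] at h
  apply hx
  rw [← W.valuation_le_one_iff, map_inv₀]
  exact inv_le_one_of_one_le₀ h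

/-- An element of valuation `< 1` has `x⁻¹ ∉ W` unless it is zero. -/
theorem inv_notMem_of_valuation_lt_one (W : ValuationSubring Ω) {x : Ω} (hx0 : x ≠ 0)
    (hx : W.valuation x < 1) : x⁻¹ ∉ W := by
  intro h
  rw [← W.valuation_le_one_iff, map_inv₀] at h
  have hpos : 0 < W.valuation x := by
    rw [pos_iff_ne_zero]
    exact (Valuation.ne_zero_iff _).mpr hx0
  have := (inv_le_one₀ hpos).mp h
  exact absurd hx (not_lt.mpr this)

/-- In a linearly ordered group with zero, `a ^ n = 1` with `n ≠ 0` forces `a = 1`. -/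
theorem eq_one_of_pow_eq_one₀ {Γ : Type*} [LinearOrderedCommGroupWithZero Γ] {a : Γ} {n : ℕ}
    (hn : n ≠ 0) (h : a ^ n = 1) : a = 1 := by
  rcases lt_trichotomy a 1 with h1 | h1 | h1
  · exact absurd h (pow_lt_one₀ zero_le h1 hn).ne
  · exact h1
  · exact absurd h (one_lt_pow₀ h1 hn).ne'

/-- `x ^ m = 1` with `0 < m` gives `x⁻¹ = x ^ (m - 1)`. -/
theorem inv_eq_pow_of_pow_eq_one {F : Type*} [Field F] {x : F} {m : ℕ} (hm : 0 < m)
    (h : x ^ m = 1) : x⁻¹ = x ^ (m - 1) := by
  apply inv_eq_of_mul_eq_one_right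
  rw [← pow_succ', Nat.sub_add_cancel hm, h]

/-- **Cyclic Kummer extensions with `u ≡ 1 mod w` are unramified with trivial residue
extension** at every valuation subring `W` over `V`. -/
theorem kummer_unramified (V : ValuationSubring K) (W : ValuationSubring Ω)
    (hVW : ∀ a ∈ V, algebraMap K Ω a ∈ W)
    (w : K) (hwV : w ∈ V) (hw0 : w ≠ 0) (hwW : (algebraMap K Ω w)⁻¹ ∉ W)
    (hVgen : ∀ a ∈ V, a⁻¹ ∉ V → a * w⁻¹ ∈ V)
    (hdisc : ∀ c : K, ∃ k : ℕ, w ^ k * c ∈ V)
    (m : ℕ) (hm : 0 < m) (hm0 : (m : K) ≠ 0) (hmV : ((m : K))⁻¹ ∈ V)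
    (ζ : K) (hζ : IsPrimitiveRoot ζ m)
    (t : K) (ht : t ∈ V) (z : Ω) (hz : z ^ m = algebraMap K Ω (1 + w * t))
    (hgen : ∀ b : Ω, b ∈ Algebra.adjoin K ({z} : Set Ω)) :
    (∀ b ∈ W, b⁻¹ ∉ W → b * (algebraMap K Ω w)⁻¹ ∈ W) ∧
    (∀ b ∈ W, ∃ a ∈ V, (b - algebraMap K Ω a) * (algebraMap K Ω w)⁻¹ ∈ W) := by
  classical
  have : NeZero m := ⟨hm.ne'⟩
  set φ := algebraMap K Ω with hφ
  set v := W.valuation with hv
  have hφinj : Function.Injective φ := (algebraMap K Ω).injective
  have hφw0 : φ w ≠ 0 := fun h => hw0 (hφinj (by rw [h, map_zero]))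
  have hvV : ∀ a ∈ V, v (φ a) ≤ 1 := fun a ha => (W.valuation_le_one_iff _).mpr (hVW a ha)
  have hvw : v (φ w) < 1 := valuation_lt_one_of_inv_notMem W hwW
  have hvw0 : v (φ w) ≠ 0 := (Valuation.ne_zero_iff _).mpr hφw0
  have hunitV : ∀ a ∈ V, a⁻¹ ∈ V → a ≠ 0 → v (φ a) = 1 := by
    intro a ha hai ha0
    have h1 := hvV a ha
    have h2 := hvV _ hai
    rw [map_inv₀, map_inv₀] at h2
    have hpos : 0 < v (φ a) := by
      rw [pos_iff_ne_zero]
      exact (Valuation.ne_zero_iff _).mpr (fun h => ha0 (hφinj (by rw [h, map_zero])))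
    exact le_antisymm h1 ((inv_le_one₀ hpos).mp h2)
  -- the root of unity `ζ` is a unit of `V`
  have hζm : ζ ^ m = 1 := hζ.pow_eq_one
  have hζ0 : ζ ≠ 0 := hζ.ne_zero hm.ne'
  have hpowV : ∀ i : ℕ, ζ ^ i ∈ V := by
    have hζV : ζ ∈ V := by
      rcases V.mem_or_inv_mem ζ with h | h
      · exact h
      · have h1 : (ζ⁻¹) ^ m = 1 := by rw [inv_pow, hζm, inv_one]
        have h2 := inv_eq_pow_of_pow_eq_one hm h1
        rw [inv_inv] at h2
        rw [h2]
        exact pow_mem h _
    exact fun i => pow_mem hζV i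
  -- `m` is a unit of `V`
  have hmVmem : (m : K) ∈ V := by
    have : (m : K) = ((m : ℕ) : V) := by simp
    rw [this]
    exact Subtype.mem _
  have hvm : v (φ (m : K)) = 1 := hunitV _ hmVmem hmV hm0
  have hφm : φ (m : K) = (m : Ω) := map_natCast φ m
  -- `z` is a unit of `W`
  have hv1wt : v (φ (1 + w * t)) = 1 := by
    rw [map_add, map_one, map_mul]
    have hlt : v (φ w * φ t) < v 1 := by
      rw [map_one, map_mul]
      calc v (φ w) * v (φ t) ≤ v (φ w) * 1 := by gcongr; exact hvV t ht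
        _ = v (φ w) := mul_one _
        _ < 1 := hvw
    rw [Valuation.map_add_eq_of_lt_left _ hlt, map_one]
  have hvz : v z = 1 := by
    have h1 : v z ^ m = 1 := by rw [← map_pow, hz, hv1wt]
    exact eq_one_of_pow_eq_one₀ hm.ne' h1
  -- some `m`-th root of unity `η` is congruent to `z`
  have hζ' : IsPrimitiveRoot (φ ζ) m := hζ.map_of_injective hφinj
  have hprod : z ^ m - 1 = ∏ η ∈ nthRootsFinset m (1 : Ω), (z - η) := by
    have h := congrArg (eval z) (X_pow_sub_one_eq_prod hm hζ')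
    simpa [eval_prod] using h
  have hvη : ∀ η ∈ nthRootsFinset m (1 : Ω), v η = 1 := by
    intro η hη
    rw [mem_nthRootsFinset hm] at hη
    have h1 : v η ^ m = 1 := by rw [← map_pow, hη, map_one]
    exact eq_one_of_pow_eq_one₀ hm.ne' h1
  obtain ⟨η, hη, hzη⟩ : ∃ η ∈ nthRootsFinset m (1 : Ω), v (z - η) < 1 := by
    by_contra hcon
    have hall : ∀ η ∈ nthRootsFinset m (1 : Ω), v (z - η) = 1 := by
      intro η hη
      refine le_antisymm ?_ (not_lt.mp fun h => hcon ⟨η, hη, h⟩)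
      exact (Valuation.map_sub _ _ _).trans (max_le hvz.le (hvη η hη).le)
    have h1 : v (z ^ m - 1) = 1 := by
      rw [hprod, map_prod]
      exact Finset.prod_eq_one hall
    have h2 : v (z ^ m - 1) < 1 := by
      rw [hz, map_add, map_one, add_sub_cancel_left, map_mul]
      calc v (φ w) * v (φ t) ≤ v (φ w) * 1 := by gcongr; exact hvV t ht
        _ = v (φ w) := mul_one _
        _ < 1 := hvw
    exact absurd h1 h2.ne
  have hηm : η ^ m = 1 := (mem_nthRootsFinset hm 1).mp hη
  have hη0 : η ≠ 0 := by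
    intro h
    rw [h, zero_pow hm.ne'] at hηm
    exact zero_ne_one hηm
  obtain ⟨i, -, hi⟩ := hζ'.eq_pow_of_pow_eq_one hηm
  -- normalise: `z₁ = z / η ≡ 1`
  set z₁ := z * η⁻¹ with hz₁
  have hz₁m : z₁ ^ m = φ (1 + w * t) := by
    rw [hz₁, mul_pow, inv_pow, hηm, inv_one, mul_one, hz]
  have hvz₁ : v (z₁ - 1) < 1 := by
    have : z₁ - 1 = (z - η) * η⁻¹ := by
      rw [hz₁, sub_mul, mul_inv_cancel₀ hη0]
    rw [this, map_mul, map_inv₀, hvη η hη, inv_one, mul_one]
    exact hzη
  have hvz₁' : v z₁ ≤ 1 := by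
    rw [hz₁, map_mul, map_inv₀, hvη η hη, inv_one, mul_one]
    exact hvz.le
  set G := ∑ j ∈ Finset.range m, z₁ ^ j with hG
  have hGmul : G * (z₁ - 1) = φ w * φ t := by
    rw [hG, geom_sum_mul, hz₁m, map_add, map_one, map_mul, add_sub_cancel_left]
  set s := (z₁ - 1) * (φ w)⁻¹ with hs
  have hz₁s : z₁ = 1 + φ w * s := by
    rw [hs, mul_comm (z₁ - 1), ← mul_assoc, mul_inv_cancel₀ hφw0, one_mul]
    ring
  -- `G = m + w s c₀`
  set c₀ := ∑ j ∈ Finset.range m, ∑ l ∈ Finset.range j, z₁ ^ l with hc₀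
  have hGm : G = (m : Ω) + φ w * s * c₀ := by
    have h1 : G - (m : Ω) = ∑ j ∈ Finset.range m, (z₁ ^ j - 1) := by
      rw [hG, Finset.sum_sub_distrib]
      simp
    have h2 : ∀ j ∈ Finset.range m, z₁ ^ j - 1 = (z₁ - 1) * ∑ l ∈ Finset.range j, z₁ ^ l :=
      fun j _ => (mul_geom_sum z₁ j).symm
    rw [Finset.sum_congr rfl h2, ← Finset.mul_sum, ← hc₀] at h1
    have h3 : z₁ - 1 = φ w * s := by rw [hz₁s]; ring
    rw [h3] at h1
    rw [← h1]; ring
  have hGs : G * s = φ t := by
    have h3 : z₁ - 1 = φ w * s := by rw [hz₁s]; ring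
    rw [h3] at hGmul
    have : φ w * (G * s) = φ w * φ t := by rw [← hGmul]; ring
    exact mul_left_cancel₀ hφw0 this
  -- the subring `A = V[s]`
  set A : Subring Ω := Subring.closure (φ '' (V : Set K) ∪ {s}) with hA
  have hVA : ∀ a ∈ V, φ a ∈ A := fun a ha =>
    Subring.subset_closure (Or.inl ⟨a, ha, rfl⟩)
  have hsA : s ∈ A := Subring.subset_closure (Or.inr rfl)
  have hwA : φ w ∈ A := hVA w hwV
  have hz₁A : z₁ ∈ A := by
    rw [hz₁s]
    exact A.add_mem A.one_mem (A.mul_mem hwA hsA)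
  have hc₀A : c₀ ∈ A := by
    rw [hc₀]
    exact A.sum_mem fun j _ => A.sum_mem fun l _ => A.pow_mem hz₁A l
  -- `s ∈ W`
  have hvG : v G = 1 := by
    have h1 : v (φ w * s * c₀) < v (m : Ω) := by
      rw [← hφm, hvm]
      have hsc : φ w * s * c₀ = (z₁ - 1) * c₀ := by
        rw [hz₁s]; ring
      rw [hsc, map_mul]
      have hc₀le : v c₀ ≤ 1 := by
        rw [hc₀]
        refine Valuation.map_sum_le _ fun j _ => ?_
        refine Valuation.map_sum_le _ fun l _ => ?_
        rw [map_pow]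
        exact pow_le_one₀ zero_le hvz₁'
      calc v (z₁ - 1) * v c₀ ≤ v (z₁ - 1) * 1 := by gcongr
        _ = v (z₁ - 1) := mul_one _
        _ < 1 := hvz₁
    rw [hGm, Valuation.map_add_eq_of_lt_left _ h1, ← hφm, hvm]
  have hG0 : G ≠ 0 := by
    intro h
    rw [h, map_zero] at hvG
    exact zero_ne_one hvG
  have hsW : v s ≤ 1 := by
    have : s = φ t * G⁻¹ := by
      rw [← hGs, mul_comm G s, mul_assoc, mul_inv_cancel₀ hG0, mul_one]
    rw [this, map_mul, map_inv₀, hvG, inv_one, mul_one]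
    exact hvV t ht
  have hAW : ∀ a ∈ A, v a ≤ 1 := by
    intro a ha
    have hle : A ≤ W.toSubring := by
      rw [hA, Subring.closure_le]
      rintro x (⟨a, ha, rfl⟩ | hx)
      · exact hVW a ha
      · rw [Set.mem_singleton_iff] at hx
        rw [hx]
        exact (W.valuation_le_one_iff _).mp hsW
    exact (W.valuation_le_one_iff _).mpr (hle ha)
  -- `A = V + w A`
  have hdec : ∀ a ∈ A, ∃ a₀ ∈ V, ∃ a' ∈ A, a = φ a₀ + φ w * a' := by
    intro a ha
    induction ha using Subring.closure_induction with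
    | mem x hx =>
      rcases hx with ⟨a₀, ha₀, rfl⟩ | hx
      · exact ⟨a₀, ha₀, 0, A.zero_mem, by simp⟩
      · rw [Set.mem_singleton_iff] at hx
        subst hx
        refine ⟨t * (m : K)⁻¹, mul_mem ht hmV, -(φ ((m : K)⁻¹) * s * s * c₀),
          A.neg_mem (A.mul_mem (A.mul_mem (A.mul_mem (hVA _ hmV) hsA) hsA) hc₀A), ?_⟩
        have hmm : (m : Ω) * φ ((m : K)⁻¹) = 1 := by
          rw [← hφm, ← map_mul, mul_inv_cancel₀ hm0, map_one]
        have h5 : ((m : Ω) + φ w * s * c₀) * s = φ t := by rw [← hGm]; exact hGs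
        rw [map_mul]
        linear_combination (φ ((m : K)⁻¹)) * h5 - s * hmm
    | zero => exact ⟨0, zero_mem V, 0, A.zero_mem, by simp⟩
    | one => exact ⟨1, one_mem V, 0, A.zero_mem, by simp⟩
    | add x y hx hy ihx ihy =>
      obtain ⟨x₀, hx₀, x', hx', rfl⟩ := ihx
      obtain ⟨y₀, hy₀, y', hy', rfl⟩ := ihy
      exact ⟨x₀ + y₀, add_mem hx₀ hy₀, x' + y', A.add_mem hx' hy', by rw [map_add]; ring⟩
    | neg x hx ihx =>
      obtain ⟨x₀, hx₀, x', hx', rfl⟩ := ihx
      exact ⟨-x₀, neg_mem hx₀, -x', A.neg_mem hx', by rw [map_neg]; ring⟩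
    | mul x y hx hy ihx ihy =>
      obtain ⟨x₀, hx₀, x', hx', rfl⟩ := ihx
      obtain ⟨y₀, hy₀, y', hy', rfl⟩ := ihy
      refine ⟨x₀ * y₀, mul_mem hx₀ hy₀, φ x₀ * y' + x' * φ y₀ + φ w * x' * y', ?_, ?_⟩
      · exact A.add_mem (A.add_mem (A.mul_mem (hVA _ hx₀) hy') (A.mul_mem hx' (hVA _ hy₀)))
          (A.mul_mem (A.mul_mem hwA hx') hy')
      · rw [map_mul]; ring
  -- non-units of `A` are divisible by `w`
  have hdiv : ∀ a ∈ A, v a < 1 → ∃ a' ∈ A, a = φ w * a' := by
    intro a ha hva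
    obtain ⟨a₀, ha₀, a', ha', rfl⟩ := hdec a ha
    have h1 : v (φ w * a') < 1 := by
      rw [map_mul]
      calc v (φ w) * v a' ≤ v (φ w) * 1 := by gcongr; exact hAW a' ha'
        _ = v (φ w) := mul_one _
        _ < 1 := hvw
    have h2 : v (φ a₀) < 1 := by
      have : φ a₀ = (φ a₀ + φ w * a') - φ w * a' := by ring
      rw [this]
      exact Valuation.map_sub_lt _ hva h1
    have h3 : a₀ * w⁻¹ ∈ V := by
      by_cases h0 : a₀ = 0
      · rw [h0, zero_mul]; exact zero_mem V
      refine hVgen a₀ ha₀ fun hinv => ?_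
      have := hunitV a₀ ha₀ hinv h0
      rw [this] at h2
      exact lt_irrefl _ h2
    refine ⟨φ (a₀ * w⁻¹) + a', A.add_mem (hVA _ h3) ha', ?_⟩
    rw [mul_add, ← map_mul, mul_comm a₀, ← mul_assoc, mul_inv_cancel₀ hw0, one_mul]
  -- `Ω = A[1/w]`
  have hloc : ∀ b : Ω, ∃ k : ℕ, φ w ^ k * b ∈ A := by
    intro b
    induction hgen b using Algebra.adjoin_induction with
    | mem x hx =>
      rw [Set.mem_singleton_iff] at hx
      rw [hx]
      refine ⟨0, ?_⟩
      rw [pow_zero, one_mul]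
      have hzz : z = η * z₁ := by
        rw [hz₁, mul_comm z, ← mul_assoc, mul_inv_cancel₀ hη0, one_mul]
      rw [hzz]
      refine A.mul_mem ?_ hz₁A
      rw [← hi, ← map_pow]
      exact hVA _ (hpowV i)
    | algebraMap c =>
      obtain ⟨k, hk⟩ := hdisc c
      refine ⟨k, ?_⟩
      rw [← hφ, ← map_pow, ← map_mul]
      exact hVA _ hk
    | add x y _ _ ihx ihy =>
      obtain ⟨k₁, h₁⟩ := ihx
      obtain ⟨k₂, h₂⟩ := ihy
      refine ⟨k₁ + k₂, ?_⟩
      have : φ w ^ (k₁ + k₂) * (x + y) = φ w ^ k₂ * (φ w ^ k₁ * x) + φ w ^ k₁ * (φ w ^ k₂ * y) := by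
        rw [pow_add]; ring
      rw [this]
      exact A.add_mem (A.mul_mem (A.pow_mem hwA _) h₁) (A.mul_mem (A.pow_mem hwA _) h₂)
    | mul x y _ _ ihx ihy =>
      obtain ⟨k₁, h₁⟩ := ihx
      obtain ⟨k₂, h₂⟩ := ihy
      refine ⟨k₁ + k₂, ?_⟩
      have : φ w ^ (k₁ + k₂) * (x * y) = (φ w ^ k₁ * x) * (φ w ^ k₂ * y) := by
        rw [pow_add]; ring
      rw [this]
      exact A.mul_mem h₁ h₂
  -- `W ⊆ A`
  have hWA : ∀ b : Ω, v b ≤ 1 → b ∈ A := by
    intro b hb
    have hex := hloc b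
    have hk : Nat.find hex = 0 := by
      by_contra hne
      obtain ⟨k, hk⟩ : ∃ k, Nat.find hex = k + 1 := ⟨Nat.find hex - 1, by omega⟩
      have hmem := Nat.find_spec hex
      rw [hk] at hmem
      have hlt : v (φ w ^ (k + 1) * b) < 1 := by
        rw [map_mul, map_pow, pow_succ]
        calc v (φ w) ^ k * v (φ w) * v b ≤ 1 * v (φ w) * 1 := by
              gcongr
              exact pow_le_one₀ zero_le hvw.le
          _ = v (φ w) := by rw [one_mul, mul_one]
          _ < 1 := hvw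
      obtain ⟨a', ha', h'⟩ := hdiv _ hmem hlt
      have : φ w ^ k * b = a' := by
        have h6 : φ w * (φ w ^ k * b) = φ w * a' := by rw [← h', pow_succ]; ring
        exact mul_left_cancel₀ hφw0 h6
      have hmin := Nat.find_min hex (m := k) (by omega)
      exact hmin (this ▸ ha')
    have := Nat.find_spec hex
    rwa [hk, pow_zero, one_mul] at this
  refine ⟨fun b hbW hbinv => ?_, fun b hbW => ?_⟩
  · have hb1 : v b < 1 := valuation_lt_one_of_inv_notMem W hbinv
    obtain ⟨a', ha', h'⟩ := hdiv b (hWA b hb1.le) hb1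
    rw [h', mul_comm (φ w), mul_assoc, mul_inv_cancel₀ hφw0, mul_one]
    exact (W.valuation_le_one_iff _).mp (hAW a' ha')
  · obtain ⟨a₀, ha₀, a', ha', h'⟩ := hdec b (hWA b ((W.valuation_le_one_iff _).mpr hbW))
    refine ⟨a₀, ha₀, ?_⟩
    rw [h', add_sub_cancel_left, mul_comm (φ w), mul_assoc, mul_inv_cancel₀ hφw0, mul_one]
    exact (W.valuation_le_one_iff _).mp (hAW a' ha')

end CycUnram

end Fermat.Agent.A2.H552

end
-- ===== PACK-END A2/H552/KummerUnram.lean

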