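import Fermat.Prelude.Def_ModularCurve_X0
import Fermat.Prelude.Def_ModularCurve_LaurentCoeff

-- ===== PACK-BEGIN S24/Inf/Twist.lean
section



/-!
# S24 / MOD-INF — formal operations on Laurent series

* `infTwist u` : the ring endomorphism `∑ aₙ zⁿ ↦ ∑ aₙ uⁿ zⁿ` of `LaurentSeries R` (`u` a unit);
* order / leading coefficient of `infTwist u φ` and of `ModularCurve.qExpand R e φ`.
-/

set_option autoImplicit false

noncomputable section

open HahnSeries ModularCurve

namespace Fermat.Agent.S24

section General

variable {R : Type*} [CommRing R]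

/-- A Hahn series over `ℤ` whose coefficients below `n` vanish and whose `n`-th coefficient is
nonzero has order `n`. -/
theorem inf_order_eq_of_coeff {x : LaurentSeries R} {n : ℤ} (hn : x.coeff n ≠ 0)
    (hlt : ∀ m < n, x.coeff m = 0) : x.order = n := by
  apply le_antisymm (order_le_of_coeff_ne_zero hn)
  by_contra h
  rw [not_le] at h
  have hx : x ≠ 0 := ne_zero_of_coeff_ne_zero hn
  exact (coeff_order_eq_zero.not.mpr hx) (hlt _ h)

theorem inf_leadingCoeff_eq_of_coeff {x : LaurentSeries R} {n : ℤ} (hn : x.coeff n ≠ 0)
    (hlt : ∀ m < n, x.coeff m = 0) : x.leadingCoeff = x.coeff n := by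
  rw [leadingCoeff_eq, inf_order_eq_of_coeff hn hlt]

/-- The underlying function of the twist. -/
def infTwistFun (u : Rˣ) (x : LaurentSeries R) : LaurentSeries R where
  coeff n := x.coeff n * ((u ^ n : Rˣ) : R)
  isPWO_support' := x.isPWO_support.mono (fun n hn => by
    simp only [Function.mem_support, ne_eq] at hn
    rw [mem_support]
    intro h
    exact hn (by rw [h, zero_mul]))

@[simp]
theorem infTwistFun_coeff (u : Rˣ) (x : LaurentSeries R) (n : ℤ) :
    (infTwistFun u x).coeff n = x.coeff n * ((u ^ n : Rˣ) : R) := rfl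

theorem infTwistFun_support (u : Rˣ) (x : LaurentSeries R) :
    (infTwistFun u x).support = x.support := by
  ext n
  simp only [mem_support, infTwistFun_coeff, ne_eq]
  constructor
  · intro h h0
    exact h (by rw [h0, zero_mul])
  · intro h h0
    exact h ((Units.mul_left_eq_zero _).mp h0)

/-- The twist `∑ aₙ zⁿ ↦ ∑ aₙ uⁿ zⁿ` as a ring homomorphism. -/
def infTwist (u : Rˣ) : LaurentSeries R →+* LaurentSeries R where
  toFun := infTwistFun u
  map_zero' := by
    ext n
    simp
  map_one' := by
    ext n
    simp only [infTwistFun_coeff, coeff_one]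
    split_ifs with h
    · subst h
      simp
    · simp
  map_add' x y := by
    ext n
    simp [add_mul]
  map_mul' x y := by
    ext n
    simp only [infTwistFun_coeff, coeff_mul]
    rw [Finset.sum_mul]
    refine Finset.sum_congr ?_ ?_
    · ext ij
      simp only [Finset.mem_antidiagonal, infTwistFun_support]
    · intro ij hij
      have h : ij.1 + ij.2 = n := (Finset.mem_antidiagonal.mp hij).2.2
      rw [← h, zpow_add, Units.val_mul]
      ring

@[simp]
theorem infTwist_coeff (u : Rˣ) (x : LaurentSeries R) (n : ℤ) :
    (infTwist u x).coeff n = x.coeff n * ((u ^ n : Rˣ) : R) := rfl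

theorem infTwist_support (u : Rˣ) (x : LaurentSeries R) :
    (infTwist u x).support = x.support := infTwistFun_support u x

theorem infTwist_eq_zero_iff (u : Rˣ) (x : LaurentSeries R) : infTwist u x = 0 ↔ x = 0 := by
  rw [← support_eq_empty_iff, infTwist_support, support_eq_empty_iff]

theorem infTwist_injective (u : Rˣ) : Function.Injective (infTwist (R := R) u) :=
  (injective_iff_map_eq_zero _).mpr fun x hx => (infTwist_eq_zero_iff u x).mp hx

@[simp]
theorem infTwist_one (x : LaurentSeries R) : infTwist (1 : Rˣ) x = x := by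
  ext n
  simp

theorem infTwist_mul (u v : Rˣ) (x : LaurentSeries R) :
    infTwist (u * v) x = infTwist u (infTwist v x) := by
  ext n
  simp only [infTwist_coeff, mul_zpow, Units.val_mul]
  ring

@[simp]
theorem infTwist_single (u : Rˣ) (k : ℤ) (r : R) :
    infTwist u (single k r) = single k (r * ((u ^ k : Rˣ) : R)) := by
  ext n
  rcases eq_or_ne n k with rfl | hn
  · simp
  · simp [coeff_single_of_ne hn]

@[simp]
theorem infTwist_C (u : Rˣ) (r : R) : infTwist u (HahnSeries.C r) = HahnSeries.C r := by
  rw [C_apply, infTwist_single]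
  simp

theorem infTwist_order (u : Rˣ) (x : LaurentSeries R) : (infTwist u x).order = x.order := by
  rcases eq_or_ne x 0 with rfl | hx
  · simp
  · refine inf_order_eq_of_coeff ?_ ?_
    · rw [infTwist_coeff]
      intro h
      exact (coeff_order_eq_zero.not.mpr hx) ((Units.mul_left_eq_zero _).mp h)
    · intro m hm
      rw [infTwist_coeff, coeff_eq_zero_of_lt_order hm, zero_mul]

theorem infTwist_leadingCoeff (u : Rˣ) (x : LaurentSeries R) :
    (infTwist u x).leadingCoeff = x.leadingCoeff * ((u ^ x.order : Rˣ) : R) := by
  rw [leadingCoeff_eq, leadingCoeff_eq, infTwist_order, infTwist_coeff]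

end General

section QExpand

variable {R : Type*} [CommRing R] (e : ℕ) [NeZero e]

theorem inf_qExpand_eq_zero_iff (x : LaurentSeries R) : qExpand R e x = 0 ↔ x = 0 :=
  ⟨fun h => qExpand_injective e (by rw [h, map_zero]), fun h => by rw [h, map_zero]⟩

theorem inf_qExpand_order (x : LaurentSeries R) :
    (qExpand R e x).order = (e : ℤ) * x.order := by
  rcases eq_or_ne x 0 with rfl | hx
  · simp
  · have he : (0 : ℤ) < e := by exact_mod_cast Nat.pos_of_ne_zero (NeZero.ne e)
    refine inf_order_eq_of_coeff ?_ ?_
    · rw [qExpand_coeff_mul]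
      exact coeff_order_eq_zero.not.mpr hx
    · intro m hm
      by_cases hdvd : (e : ℤ) ∣ m
      · obtain ⟨k, rfl⟩ := hdvd
        rw [qExpand_coeff_mul]
        exact coeff_eq_zero_of_lt_order (lt_of_mul_lt_mul_left hm he.le)
      · exact qExpand_coeff_of_not_dvd e x hdvd

theorem inf_qExpand_leadingCoeff (x : LaurentSeries R) :
    (qExpand R e x).leadingCoeff = x.leadingCoeff := by
  rw [leadingCoeff_eq, leadingCoeff_eq, inf_qExpand_order, qExpand_coeff_mul]

end QExpand

section CoeffMap

variable {R S : Type*} [CommRing R] [CommRing S]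

theorem inf_coeffMap_injective {f : R →+* S} (hf : Function.Injective f) :
    Function.Injective (coeffMap f) := by
  intro x y h
  ext n
  apply hf
  have := congrArg (fun z => z.coeff n) h
  simpa using this

theorem inf_coeffMap_order {f : R →+* S} (hf : Function.Injective f) (x : LaurentSeries R) :
    (coeffMap f x).order = x.order := by
  rcases eq_or_ne x 0 with rfl | hx
  · simp
  · refine inf_order_eq_of_coeff ?_ ?_
    · rw [coeffMap_coeff]
      intro h
      exact (coeff_order_eq_zero.not.mpr hx) (hf (by rw [h, map_zero]))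
    · intro m hm
      rw [coeffMap_coeff, coeff_eq_zero_of_lt_order hm, map_zero]

theorem inf_coeffMap_leadingCoeff {f : R →+* S} (hf : Function.Injective f)
    (x : LaurentSeries R) : (coeffMap f x).leadingCoeff = f x.leadingCoeff := by
  rw [leadingCoeff_eq, leadingCoeff_eq, inf_coeffMap_order hf, coeffMap_coeff]

end CoeffMap

end Fermat.Agent.S24

end
end
-- ===== PACK-END S24/Inf/Twist.lean

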