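import Mathlib
import Fermat.Prelude.Def_EllipticCurve_FrobeniusTrace
import Mathlib.NumberTheory.ModularForms.QExpansion
import Mathlib.RingTheory.LaurentSeries
import Mathlib.RingTheory.Idempotents
import Mathlib.RingTheory.Ideal.Quotient.Operations
import Mathlib.RingTheory.Ideal.Span
import Mathlib.RingTheory.Noetherian.Basic
import Mathlib.Algebra.Algebra.Subalgebra.Basic
import Mathlib.RingTheory.Finiteness.Basic
import Mathlib.LinearAlgebra.Quotient.Basic
import Fermat.Prelude.Def_AlgebraicCurve_Correspondence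
import Fermat.Prelude.Def_AlgebraicCurve_DivisorClassGroup
import Fermat.Prelude.Def_ModularCurve_X0
import Fermat.Prelude.Def_ModularCurve_LaurentCoeff
import Fermat.Prelude.Def_ModularCurve_PeriodHomPair
import Fermat.Prelude.Def_ModularForm_HeckeOperatorForms
import Fermat.Prelude.Def_FLTPrelim_Modularity
import Fermat.Prelude.Thm_UpperHalfPlane_qCoeff_heckeT
import Fermat.Prelude.Thm_UpperHalfPlane_eq_of_forall_qCoeff_eq
import Fermat.Prelude.Thm_CongruenceSubgroup_one_mem_strictPeriods_Gamma0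
import Mathlib.NumberTheory.ModularForms.CongruenceSubgroups
import Mathlib.LinearAlgebra.Matrix.SpecialLinearGroup
import Mathlib.GroupTheory.GroupAction.Quotient
import Mathlib.Data.ZMod.Basic
import Fermat.Prelude.Def_ModularCurve_GenusNumerics
import Fermat.Prelude.Def_ModularForm_HeckeOperator
import Fermat.Prelude.Def_CuspForm_Newforms
import Fermat.Prelude.Thm_ModularFormClass_qCoeff_heckeU
import Fermat.Prelude.Thm_ModularFormClass_qCoeff_heckeT
import Mathlib.NumberTheory.ModularForms.LevelOne.GradedRing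
import Mathlib.Tactic.Ring
import Mathlib.Tactic.LinearCombination
import Mathlib.Algebra.Ring.Hom.Defs
import Mathlib.Algebra.Algebra.Defs
import Mathlib.Data.Nat.Cast.Basic
import Mathlib.Algebra.Order.Ring.Nat
import Mathlib.Data.Int.Cast.Lemmas
import Fermat.Prelude.Def_ModularCurve_ReductionModL
import Mathlib.Data.ZMod.QuotientGroup
import Mathlib.GroupTheory.GroupAction.FixedPoints
import Mathlib.Dynamics.PeriodicPts.Defs
import Mathlib.SetTheory.Cardinal.Finite
import Mathlib.Data.Nat.Prime.Basic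
import Mathlib.RingTheory.Ideal.GoingUp
import Mathlib.RingTheory.DedekindDomain.Basic
import Mathlib.RingTheory.Polynomial.Quotient
import Mathlib.RingTheory.PrincipalIdealDomain
import Mathlib.RingTheory.IntegralClosure.IsIntegralClosure.Basic
import Mathlib.RingTheory.DedekindDomain.PID
import Mathlib.Algebra.Polynomial.AlgebraMap
import Mathlib.RingTheory.Ideal.Quotient.Noetherian
import Mathlib.RingTheory.Valuation.ValuationSubring
import Mathlib.RingTheory.IntegralClosure.IntegrallyClosed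
import Mathlib.RingTheory.Localization.FractionRing
import Mathlib.RingTheory.LocalRing.ResidueField.Basic
import Mathlib.RingTheory.Polynomial.Basic
import Mathlib.RingTheory.Valuation.LocalSubring
import Mathlib.RingTheory.Adjoin.Polynomial.Basic
import Mathlib.RingTheory.Polynomial.ScaleRoots
import Mathlib.Algebra.Polynomial.Lifts
import Mathlib.RingTheory.Adjoin.Basic
import Mathlib.RingTheory.Trace.Quotient
import Mathlib.RingTheory.Discriminant
import Mathlib.RingTheory.Ideal.Over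
import Mathlib.FieldTheory.Separable
import Fermat.Agent.Pack.S35.G1E0L0

-- ===== PACK-BEGIN S55/H414/CycloOrder.lean
section


/-!
# S55, leaf CYC-INF (helper414), part 2: orders of integers modulo `p ^ n`

Elementary number theory: if `q ≥ 2` then the `p`-part of the multiplicative order of `q`
modulo `p ^ n` tends to infinity with `n`.
-/

set_option autoImplicit false

namespace Fermat.Agent.S55.H414

/-- If `o ∣ (p - 1) * p ^ m` and `p ^ k ∤ o` (with `k ≥ 1`), then `o ∣ (p - 1) * p ^ (k - 1)`. -/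
theorem dvd_pred_mul_pow_of_not_pow_dvd {p : ℕ} (hp : p.Prime) {o m k : ℕ}
    (ho : o ∣ (p - 1) * p ^ m) (hk : ¬ p ^ k ∣ o) : o ∣ (p - 1) * p ^ (k - 1) := by
  have ho0 : o ≠ 0 := by
    rintro rfl
    exact hk (dvd_zero _)
  obtain ⟨j, a, ha, rfl⟩ := Nat.exists_eq_pow_mul_and_not_dvd ho0 p hp.ne_one
  have hcop : Nat.Coprime a (p ^ m) := Nat.Coprime.pow_right _
    ((Nat.Prime.coprime_iff_not_dvd hp).2 ha).symm
  have ha1 : a ∣ p - 1 := by
    have : a ∣ (p - 1) * p ^ m := (Dvd.intro_left _ rfl).trans ho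
    exact hcop.dvd_of_dvd_mul_right this
  have hj : j < k := by
    by_contra hjk
    exact hk ((pow_dvd_pow p (Nat.le_of_not_lt hjk)).trans (Dvd.intro _ rfl))
  have hj' : p ^ j ∣ p ^ (k - 1) := pow_dvd_pow p (by omega)
  rw [mul_comm (p - 1)]
  exact Nat.mul_dvd_mul hj' ha1

/-- For `q ≥ 2` and every `k`, for all large `n`, every unit of `ZMod (p ^ n)` which is the class
of `q` has order divisible by `p ^ k`. -/
theorem exists_forall_pow_dvd_orderOf (p q : ℕ) (hp : p.Prime) (hq : 2 ≤ q) (k : ℕ) :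
    ∃ n₀ : ℕ, ∀ n, n₀ ≤ n → ∀ u : (ZMod (p ^ n))ˣ, (u : ZMod (p ^ n)) = (q : ZMod (p ^ n)) →
      p ^ k ∣ orderOf u := by
  set E : ℕ := (p - 1) * p ^ (k - 1) with hE
  have hE0 : 0 < E := Nat.mul_pos (Nat.sub_pos_of_lt hp.one_lt) (pow_pos hp.pos _)
  set m : ℕ := q ^ E with hm
  have hm2 : 2 ≤ m := by
    calc 2 ≤ q := hq
      _ = q ^ 1 := (pow_one q).symm
      _ ≤ q ^ E := Nat.pow_le_pow_right (by omega) hE0
  refine ⟨m, fun n hn u hu => ?_⟩
  by_contra hk
  haveI : NeZero (p ^ n) := ⟨pow_ne_zero _ hp.ne_zero⟩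
  have hn0 : n ≠ 0 := by
    rintro rfl
    omega
  have hcard : Nat.card (ZMod (p ^ n))ˣ = (p - 1) * p ^ (n - 1) := by
    rw [Nat.card_eq_fintype_card, ZMod.card_units_eq_totient,
      Nat.totient_prime_pow hp (Nat.pos_of_ne_zero hn0), mul_comm]
  have ho : orderOf u ∣ (p - 1) * p ^ (n - 1) := by
    rw [← hcard]
    exact orderOf_dvd_natCard u
  have hoE : orderOf u ∣ E := dvd_pred_mul_pow_of_not_pow_dvd hp ho hk
  have h1 : u ^ E = 1 := orderOf_dvd_iff_pow_eq_one.1 hoE
  have h2 : ((m : ℕ) : ZMod (p ^ n)) = 1 := by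
    have := congrArg (fun v : (ZMod (p ^ n))ˣ => (v : ZMod (p ^ n))) h1
    simp only [Units.val_pow_eq_pow_val, Units.val_one, hu] at this
    rw [hm, Nat.cast_pow]
    exact this
  have h3 : ((m - 1 : ℕ) : ZMod (p ^ n)) = 0 := by
    rw [Nat.cast_sub (by omega), h2]
    simp
  have h4 : p ^ n ∣ m - 1 := (ZMod.natCast_eq_zero_iff _ _).1 h3
  have h5 : p ^ n ≤ m - 1 := Nat.le_of_dvd (by omega) h4
  have h6 : m < p ^ m := Nat.lt_pow_self hp.one_lt
  have h7 : p ^ m ≤ p ^ n := Nat.pow_le_pow_right hp.pos hn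
  omega

end Fermat.Agent.S55.H414

end
-- ===== PACK-END S55/H414/CycloOrder.lean

-- ===== PACK-BEGIN S54/FrobLift.lean
section


set_option autoImplicit false
set_option linter.style.haveILetI false

open scoped Pointwise

namespace Fermat.Agent.S54

/-- The absolute Galois group acts continuously on the (discrete) ring of all algebraic
integers. -/
theorem continuousSMul_integralClosure :
    letI : TopologicalSpace (integralClosure ℤ (AlgebraicClosure ℚ)) := ⊥
    ContinuousSMul (AlgebraicClosure ℚ ≃ₐ[ℚ] AlgebraicClosure ℚ)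
      (integralClosure ℤ (AlgebraicClosure ℚ)) := by
  letI : TopologicalSpace (integralClosure ℤ (AlgebraicClosure ℚ)) := ⊥
  haveI : DiscreteTopology (integralClosure ℤ (AlgebraicClosure ℚ)) := ⟨rfl⟩
  haveI : Algebra.IsAlgebraic ℚ (AlgebraicClosure ℚ) := AlgebraicClosure.isAlgebraic ℚ
  refine ⟨?_⟩
  rw [continuous_prod_of_discrete_right]
  intro b
  rw [continuous_discrete_rng]
  intro c
  rw [isOpen_iff_mem_nhds]
  intro g hg
  let E : IntermediateField ℚ (AlgebraicClosure ℚ) :=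
    IntermediateField.adjoin ℚ {(b : AlgebraicClosure ℚ)}
  haveI : FiniteDimensional ℚ E :=
    IntermediateField.adjoin.finiteDimensional (Algebra.IsIntegral.isIntegral _)
  have hopen : IsOpen ((g • (E.fixingSubgroup : Set (AlgebraicClosure ℚ ≃ₐ[ℚ] AlgebraicClosure ℚ)))) :=
    (E.fixingSubgroup_isOpen).smul g
  refine Filter.mem_of_superset (hopen.mem_nhds ⟨1, one_mem _, by simp⟩) ?_
  rintro _ ⟨h, hh, rfl⟩
  simp only [Set.mem_preimage, Set.mem_singleton_iff] at hg ⊢
  rw [← hg]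
  apply Subtype.ext
  have hb : h (b : AlgebraicClosure ℚ) = b := by
    have := (IntermediateField.mem_fixingSubgroup_iff E h).mp hh b
      (IntermediateField.subset_adjoin ℚ _ (Set.mem_singleton _))
    exact this
  show (g * h) (b : AlgebraicClosure ℚ) = g (b : AlgebraicClosure ℚ)
  rw [AlgEquiv.mul_apply, hb]

/-- `ℚ̄/ℚ` is Galois. -/
theorem isGalois_algebraicClosure_rat : IsGalois ℚ (AlgebraicClosure ℚ) := by
  haveI : Algebra.IsAlgebraic ℚ (AlgebraicClosure ℚ) := AlgebraicClosure.isAlgebraic ℚ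
  haveI : IsAlgClosure ℚ (AlgebraicClosure ℚ) := ⟨inferInstance, inferInstance⟩
  haveI : Normal ℚ (AlgebraicClosure ℚ) := IsAlgClosure.normal ℚ (AlgebraicClosure ℚ)
  exact isGalois_iff.mpr ⟨inferInstance, inferInstance⟩

/-- The algebraic integers fixed by the whole absolute Galois group are the rational
integers. -/
theorem isInvariant_integralClosure :
    Algebra.IsInvariant ℤ (integralClosure ℤ (AlgebraicClosure ℚ))
      (AlgebraicClosure ℚ ≃ₐ[ℚ] AlgebraicClosure ℚ) := by
  haveI := isGalois_algebraicClosure_rat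
  refine ⟨fun b hb => ?_⟩
  have hfix : (b : AlgebraicClosure ℚ) ∈
      IntermediateField.fixedField (⊤ : Subgroup (AlgebraicClosure ℚ ≃ₐ[ℚ] AlgebraicClosure ℚ)) := by
    rintro ⟨g, -⟩
    exact congrArg Subtype.val (hb g)
  rw [InfiniteGalois.fixedField_bot, IntermediateField.mem_bot] at hfix
  obtain ⟨q, hq⟩ := hfix
  have hint : IsIntegral ℤ (b : AlgebraicClosure ℚ) := b.2
  rw [← hq, isIntegral_algebraMap_iff (FaithfulSMul.algebraMap_injective ℚ (AlgebraicClosure ℚ))]
    at hint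
  obtain ⟨n, hn⟩ := IsIntegrallyClosed.algebraMap_eq_of_integral hint
  refine ⟨n, Subtype.ext ?_⟩
  rw [← hq, ← hn]
  simp

/-- Existence of Frobenius lifts on the ring of all algebraic integers: for every prime ideal
`Q` of `ℤ̄` containing the prime number `ℓ` there is `σ ∈ Gal(ℚ̄/ℚ)` stabilising `Q` and
inducing `x ↦ x ^ ℓ` on `ℤ̄ / Q`. -/
theorem exists_frob_integralClosure (ℓ : ℕ) (hℓ : ℓ.Prime)
    (Q : Ideal (integralClosure ℤ (AlgebraicClosure ℚ))) [Q.IsPrime]
    (hQ : (ℓ : integralClosure ℤ (AlgebraicClosure ℚ)) ∈ Q) :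
    ∃ σ : AlgebraicClosure ℚ ≃ₐ[ℚ] AlgebraicClosure ℚ,
      σ • Q = Q ∧
      ∀ x : integralClosure ℤ (AlgebraicClosure ℚ), σ • x - x ^ ℓ ∈ Q := by
  haveI := isGalois_algebraicClosure_rat
  haveI : Algebra.IsAlgebraic ℚ (AlgebraicClosure ℚ) := AlgebraicClosure.isAlgebraic ℚ
  letI : TopologicalSpace (integralClosure ℤ (AlgebraicClosure ℚ)) := ⊥
  haveI : DiscreteTopology (integralClosure ℤ (AlgebraicClosure ℚ)) := ⟨rfl⟩
  haveI := continuousSMul_integralClosure
  haveI := isInvariant_integralClosure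
  haveI hℓfact : Fact ℓ.Prime := ⟨hℓ⟩
  -- the prime `P = (ℓ)` of `ℤ`
  let P : Ideal ℤ := Ideal.span {(ℓ : ℤ)}
  haveI hPmax : P.IsMaximal :=
    PrincipalIdealRing.isMaximal_of_irreducible
      (Nat.prime_iff_prime_int.mp hℓ).irreducible
  haveI hlies : Q.LiesOver P := by
    refine ⟨?_⟩
    have hle : P ≤ Q.under ℤ := by
      rw [Ideal.span_le, Set.singleton_subset_iff]
      show algebraMap ℤ (integralClosure ℤ (AlgebraicClosure ℚ)) (ℓ : ℤ) ∈ Q
      simpa using hQ
    have hne : Q.under ℤ ≠ ⊤ := (Ideal.IsPrime.under ℤ Q).ne_top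
    exact (hPmax.eq_of_le hne hle)
  -- characteristic of the quotient
  haveI : IsDomain (integralClosure ℤ (AlgebraicClosure ℚ) ⧸ Q) := Ideal.Quotient.isDomain Q
  have hzero : ((ℓ : ℕ) : integralClosure ℤ (AlgebraicClosure ℚ) ⧸ Q) = 0 := by
    have : (Ideal.Quotient.mk Q) (ℓ : integralClosure ℤ (AlgebraicClosure ℚ)) = 0 :=
      Ideal.Quotient.eq_zero_iff_mem.mpr hQ
    simpa using this
  haveI hchar : CharP (integralClosure ℤ (AlgebraicClosure ℚ) ⧸ Q) ℓ :=
    (CharP.charP_iff_prime_eq_zero hℓ).mpr hzero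
  -- the Frobenius as an algebra automorphism
  let f : (integralClosure ℤ (AlgebraicClosure ℚ) ⧸ Q) →ₐ[ℤ ⧸ P]
      (integralClosure ℤ (AlgebraicClosure ℚ) ⧸ Q) :=
    { toRingHom := frobenius (integralClosure ℤ (AlgebraicClosure ℚ) ⧸ Q) ℓ
      commutes' := by
        intro y
        obtain ⟨n, rfl⟩ := Ideal.Quotient.mk_surjective y
        show frobenius _ ℓ (algebraMap (ℤ ⧸ P) _ (Ideal.Quotient.mk P n)) =
          algebraMap (ℤ ⧸ P) _ (Ideal.Quotient.mk P n)
        have h1 : algebraMap (ℤ ⧸ P) (integralClosure ℤ (AlgebraicClosure ℚ) ⧸ Q)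
            (Ideal.Quotient.mk P n) = ((n : ℤ) : integralClosure ℤ (AlgebraicClosure ℚ) ⧸ Q) := by
          rw [← Ideal.Quotient.algebraMap_eq, ← IsScalarTower.algebraMap_apply]
          simp
        rw [h1, map_intCast] }
  have hinj : Function.Injective f := frobenius_inj _ ℓ
  have hsurj : Function.Surjective f := by
    intro y
    obtain ⟨b, rfl⟩ := Ideal.Quotient.mk_surjective y
    obtain ⟨c, hc⟩ := IsAlgClosed.exists_pow_nat_eq (b : AlgebraicClosure ℚ) hℓ.pos
    have hcint : IsIntegral ℤ c := by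
      have hb : IsIntegral ℤ (c ^ ℓ) := hc ▸ b.2
      exact IsIntegral.of_pow hℓ.pos hb
    refine ⟨Ideal.Quotient.mk Q ⟨c, hcint⟩, ?_⟩
    show frobenius _ ℓ (Ideal.Quotient.mk Q ⟨c, hcint⟩) = _
    rw [frobenius_def, ← map_pow]
    congr 1
    exact Subtype.ext hc
  let e : (integralClosure ℤ (AlgebraicClosure ℚ) ⧸ Q) ≃ₐ[ℤ ⧸ P]
      (integralClosure ℤ (AlgebraicClosure ℚ) ⧸ Q) :=
    AlgEquiv.ofBijective f ⟨hinj, hsurj⟩
  obtain ⟨σ, hσ⟩ := Ideal.Quotient.stabilizerHom_surjective_of_profinite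
    (G := AlgebraicClosure ℚ ≃ₐ[ℚ] AlgebraicClosure ℚ) P Q e
  refine ⟨σ.1, σ.2, fun x => ?_⟩
  have h2 := congrArg (fun t => t (Ideal.Quotient.mk Q x)) hσ
  simp only [Ideal.Quotient.stabilizerHom_apply] at h2
  have h3 : e (Ideal.Quotient.mk Q x) = Ideal.Quotient.mk Q (x ^ ℓ) := by
    show frobenius _ ℓ (Ideal.Quotient.mk Q x) = _
    rw [frobenius_def, map_pow]
  rw [h3] at h2
  rw [← Ideal.Quotient.eq]
  exact h2

end Fermat.Agent.S54

end
-- ===== PACK-END S54/FrobLift.lean

-- ===== PACK-BEGIN S54/ValRing.lean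
section



set_option autoImplicit false

namespace Fermat.Agent.S54

open Polynomial

/-- Valuation subrings contain all algebraic integers. -/
theorem isIntegral_mem_valuationSubring {K : Type*} [Field K] (A : ValuationSubring K)
    {b : K} (hb : IsIntegral ℤ b) : b ∈ A := by
  have h1 : IsIntegral A.toSubring b := by
    obtain ⟨p, hp, hpb⟩ := hb
    refine ⟨p.map (algebraMap ℤ A.toSubring), hp.map _, ?_⟩
    rw [Polynomial.eval₂_map]
    have : (algebraMap A.toSubring K).comp (algebraMap ℤ A.toSubring) = algebraMap ℤ K := by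
      ext; simp
    rw [this]
    exact hpb
  have h2 := (IsIntegrallyClosed.isIntegral_iff (R := A) (K := K)).mp h1
  obtain ⟨y, hy⟩ := h2
  rw [← hy]
  exact y.2

/-- An element lying in every valuation subring is integral over `ℤ`. -/
theorem isIntegral_of_forall_mem_valuationSubring {K : Type*} [Field K] (y : K)
    (H : ∀ V : ValuationSubring K, y ∈ V) : IsIntegral ℤ y := by
  by_contra hy
  let R : Subring K := (integralClosure ℤ K).toSubring
  have hyR : y ∉ R := hy
  have : IsIntegrallyClosedIn R K := inferInstanceAs (IsIntegrallyClosedIn (integralClosure ℤ K) K)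
  obtain ⟨V, -, hV⟩ := R.exists_le_valuationSubring_of_isIntegrallyClosedIn hyR
  exact hV (H V)

theorem aeval_mem_valuationSubring {K : Type*} [Field K] (V : ValuationSubring K) {x : K}
    (hx : x ∈ V) (q : ℤ[X]) : aeval x q ∈ V := by
  induction q using Polynomial.induction_on with
  | C a => simp
  | add p q hp hq => rw [map_add]; exact V.add_mem _ _ hp hq
  | monomial n a h =>
    rw [pow_succ, ← mul_assoc, map_mul, aeval_X]
    exact V.mul_mem _ _ h hx

theorem coeff_iterate_divX (p : ℤ[X]) (r n : ℕ) :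
    ((divX^[r]) p).coeff n = p.coeff (n + r) := by
  induction r generalizing n with
  | zero => simp
  | succ r ih =>
    rw [Function.iterate_succ_apply', coeff_divX, ih]
    congr 1
    ring

/-- The Horner recursion for the tails `divX^[r] p` of a polynomial. -/
theorem aeval_iterate_divX {K : Type*} [Field K] (x : K) (p : ℤ[X]) (r : ℕ) :
    aeval x ((divX^[r]) p) = aeval x ((divX^[r + 1]) p) * x + (p.coeff r : K) := by
  conv_lhs => rw [← divX_mul_X_add ((divX^[r]) p)]
  rw [map_add, map_mul, aeval_X, aeval_C, coeff_iterate_divX, zero_add,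
    Function.iterate_succ_apply']
  simp

/-- The Horner tails of an integer polynomial killing `x` lie in every valuation subring. -/
theorem horner_mem_valuationSubring {K : Type*} [Field K] (x : K) (p : ℤ[X])
    (hp : aeval x p = 0) (V : ValuationSubring K) (r : ℕ) :
    aeval x ((divX^[r]) p) ∈ V := by
  rcases V.mem_or_inv_mem x with hx | hx
  · exact aeval_mem_valuationSubring V hx _
  · induction r with
    | zero => simp [hp]
    | succ r ih =>
      have h := aeval_iterate_divX x p r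
      by_cases hx0 : x = 0
      · exact aeval_mem_valuationSubring V (hx0 ▸ V.zero_mem) _
      have : aeval x ((divX^[r + 1]) p) = x⁻¹ * (aeval x ((divX^[r]) p) - (p.coeff r : K)) := by
        rw [h]; field_simp; ring
      rw [this]
      exact V.mul_mem _ _ hx (sub_mem ih (intCast_mem V _))

theorem horner_isIntegral {K : Type*} [Field K] (x : K) (p : ℤ[X])
    (hp : aeval x p = 0) (r : ℕ) :
    IsIntegral ℤ (aeval x ((divX^[r]) p)) :=
  isIntegral_of_forall_mem_valuationSubring _ fun V => horner_mem_valuationSubring x p hp V r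

theorem horner_mul_isIntegral {K : Type*} [Field K] (x : K) (p : ℤ[X])
    (hp : aeval x p = 0) (r : ℕ) :
    IsIntegral ℤ (x * aeval x ((divX^[r + 1]) p)) := by
  have h := aeval_iterate_divX x p r
  have : x * aeval x ((divX^[r + 1]) p) = aeval x ((divX^[r]) p) - (p.coeff r : K) := by
    rw [h]; ring
  rw [this]
  exact (horner_isIntegral x p hp r).sub isIntegral_algebraMap

/-- An integer which is a non-unit of a valuation subring over `ℓ` is divisible by `ℓ`. -/
theorem dvd_of_intCast_mem_nonunits {K : Type*} [Field K] (A : ValuationSubring K) (ℓ : ℕ)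
    (hℓ : ℓ.Prime) (hA : A.LiesOverPrime ℓ) (a : ℤ) (ha : (a : K) ∈ A.nonunits) :
    (ℓ : ℤ) ∣ a := by
  by_contra hdvd
  have hcop : IsCoprime (ℓ : ℤ) a :=
    (Nat.prime_iff_prime_int.mp hℓ).coprime_iff_not_dvd.mpr hdvd
  obtain ⟨u, v, huv⟩ := hcop
  have h1 : ((u * ℓ + v * a : ℤ) : K) ∈ A.nonunits := by
    push_cast
    refine A.nonunits.add_mem ?_ ?_
    · obtain ⟨h1, h2⟩ := ValuationSubring.mem_nonunits_iff_exists_mem_maximalIdeal.mp hA
      have := Ideal.mul_mem_left _ (⟨(u : K), intCast_mem A u⟩ : A) h2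
      exact ValuationSubring.mem_nonunits_iff_exists_mem_maximalIdeal.mpr ⟨_, this⟩
    · obtain ⟨h1, h2⟩ := ValuationSubring.mem_nonunits_iff_exists_mem_maximalIdeal.mp ha
      have := Ideal.mul_mem_left _ (⟨(v : K), intCast_mem A v⟩ : A) h2
      exact ValuationSubring.mem_nonunits_iff_exists_mem_maximalIdeal.mpr ⟨_, this⟩
  rw [huv, ValuationSubring.mem_nonunits_iff] at h1
  simp at h1

/-- (4b) A valuation subring over `ℓ` of an algebraic extension of `ℚ` is the localisation of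
the ring of algebraic integers at the prime below it. -/
theorem mem_valuationSubring_iff {K : Type*} [Field K] [CharZero K] [Algebra.IsAlgebraic ℚ K]
    (A : ValuationSubring K) (ℓ : ℕ)
    (hℓ : ℓ.Prime) (hA : A.LiesOverPrime ℓ) (x : K) :
    x ∈ A ↔ ∃ b s, IsIntegral ℤ b ∧ IsIntegral ℤ s ∧ s ∉ A.nonunits ∧ x * s = b := by
  constructor
  · intro hx
    -- a primitive integer polynomial killing `x`
    have halg : IsAlgebraic ℤ x :=
      (IsFractionRing.isAlgebraic_iff ℤ ℚ K).mpr (Algebra.IsAlgebraic.isAlgebraic x)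
    obtain ⟨f, hf0, hfx⟩ := halg
    set p := f.primPart with hp
    have hpprim : p.IsPrimitive := f.isPrimitive_primPart
    have hpx : aeval x p = 0 := by
      have h1 : f = C f.content * p := f.eq_C_content_mul_primPart
      rw [h1, map_mul, aeval_C] at hfx
      rcases mul_eq_zero.mp hfx with h | h
      · exfalso
        have : f.content = 0 := by simpa using h
        exact hf0 (Polynomial.content_eq_zero_iff.mp this)
      · exact h
    -- some coefficient is not in the maximal ideal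
    have hcoeff : ∃ i, ((p.coeff i : ℤ) : K) ∉ A.nonunits := by
      by_contra hcon
      push Not at hcon
      have hdvd : C (ℓ : ℤ) ∣ p := by
        rw [Polynomial.C_dvd_iff_dvd_coeff]
        intro i
        exact dvd_of_intCast_mem_nonunits A ℓ hℓ hA _ (hcon i)
      have hu := hpprim _ hdvd
      rw [Int.isUnit_iff] at hu
      have := hℓ.one_lt
      omega
    -- some Horner tail is a unit
    have hex : ∃ r, aeval x ((divX^[r + 1]) p) ∉ A.nonunits := by
      by_contra hcon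
      push Not at hcon
      obtain ⟨i, hi⟩ := hcoeff
      apply hi
      have h := aeval_iterate_divX x p i
      have h2 : ((p.coeff i : ℤ) : K) =
          aeval x ((divX^[i]) p) - aeval x ((divX^[i + 1]) p) * x := by
        rw [h]; ring
      rw [h2]
      have hmul : aeval x ((divX^[i + 1]) p) * x ∈ A.nonunits := by
        obtain ⟨h1, h2⟩ := ValuationSubring.mem_nonunits_iff_exists_mem_maximalIdeal.mp (hcon i)
        have := Ideal.mul_mem_right (⟨x, hx⟩ : A) _ h2
        exact ValuationSubring.mem_nonunits_iff_exists_mem_maximalIdeal.mpr ⟨_, this⟩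
      refine A.nonunits.sub_mem ?_ hmul
      rcases i with _ | i
      · simp [hpx, A.nonunits.zero_mem]
      · exact hcon i
    obtain ⟨r, hr⟩ := hex
    exact ⟨x * aeval x ((divX^[r + 1]) p), aeval x ((divX^[r + 1]) p),
      horner_mul_isIntegral x p hpx r, horner_isIntegral x p hpx (r + 1), hr, rfl⟩
  · rintro ⟨b, s, hb, hs, hsA, hxs⟩
    have hbA : b ∈ A := isIntegral_mem_valuationSubring A hb
    have hs0 : s ≠ 0 := fun h => hsA (h ▸ A.nonunits.zero_mem)
    have hsinv : s⁻¹ ∈ A := by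
      by_contra h
      exact hsA (A.mem_nonunits_iff_or.mpr (Or.inr h))
    have : x = b * s⁻¹ := by
      rw [← hxs]; field_simp
    rw [this]
    exact A.mul_mem _ _ hbA hsinv

end Fermat.Agent.S54

end
-- ===== PACK-END S54/ValRing.lean

-- ===== PACK-BEGIN S54/FrobExists.lean
section




set_option autoImplicit false

namespace Fermat.Agent.S54

open scoped Pointwise

/-- The prime of the ring of algebraic integers below a valuation subring. -/
def primeBelow (A : ValuationSubring (AlgebraicClosure ℚ)) :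
    Ideal (integralClosure ℤ (AlgebraicClosure ℚ)) where
  carrier := {b | (b : AlgebraicClosure ℚ) ∈ A.nonunits}
  add_mem' := fun {a b} ha hb => A.nonunits.add_mem ha hb
  zero_mem' := A.nonunits.zero_mem
  smul_mem' := fun c b hb => by
    obtain ⟨hb1, hb2⟩ := ValuationSubring.mem_nonunits_iff_exists_mem_maximalIdeal.mp hb
    have hc : (c : AlgebraicClosure ℚ) ∈ A := isIntegral_mem_valuationSubring A c.2
    have := Ideal.mul_mem_left _ (⟨c, hc⟩ : A) hb2
    exact ValuationSubring.mem_nonunits_iff_exists_mem_maximalIdeal.mpr ⟨_, this⟩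

theorem mem_primeBelow (A : ValuationSubring (AlgebraicClosure ℚ))
    (b : integralClosure ℤ (AlgebraicClosure ℚ)) :
    b ∈ primeBelow A ↔ (b : AlgebraicClosure ℚ) ∈ A.nonunits := Iff.rfl

theorem primeBelow_isPrime (A : ValuationSubring (AlgebraicClosure ℚ)) :
    (primeBelow A).IsPrime := by
  constructor
  · intro h
    have : (1 : integralClosure ℤ (AlgebraicClosure ℚ)) ∈ primeBelow A := by
      rw [h]; trivial
    rw [mem_primeBelow, ValuationSubring.mem_nonunits_iff] at this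
    simp at this
  · intro a b hab
    rw [mem_primeBelow, ValuationSubring.mem_nonunits_iff] at hab ⊢
    rw [mem_primeBelow, ValuationSubring.mem_nonunits_iff]
    have ha : A.valuation (a : AlgebraicClosure ℚ) ≤ 1 :=
      (A.valuation_le_one_iff _).mpr (isIntegral_mem_valuationSubring A a.2)
    have hb : A.valuation (b : AlgebraicClosure ℚ) ≤ 1 :=
      (A.valuation_le_one_iff _).mpr (isIntegral_mem_valuationSubring A b.2)
    by_contra hcon
    rw [not_or, not_lt, not_lt] at hcon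
    have ha1 : A.valuation (a : AlgebraicClosure ℚ) = 1 := le_antisymm ha hcon.1
    have hb1 : A.valuation (b : AlgebraicClosure ℚ) = 1 := le_antisymm hb hcon.2
    have : A.valuation ((a * b : integralClosure ℤ (AlgebraicClosure ℚ)) : AlgebraicClosure ℚ)
        = 1 := by
      push_cast
      rw [map_mul, ha1, hb1, mul_one]
    exact absurd hab (by rw [this]; exact lt_irrefl _)

/-- There is a valuation subring of `ℚ̄` over every prime number. -/
theorem exists_valuationSubring_liesOver (ℓ : ℕ) (hℓ : ℓ.Prime) :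
    ∃ A : ValuationSubring (AlgebraicClosure ℚ), A.LiesOverPrime ℓ := by
  let A₀ : Subring (AlgebraicClosure ℚ) := (algebraMap ℤ (AlgebraicClosure ℚ)).range
  let l₀ : A₀ := ⟨(ℓ : AlgebraicClosure ℚ), ⟨(ℓ : ℤ), by simp⟩⟩
  have hI : Ideal.span {l₀} ≠ ⊤ := by
    intro h
    rw [Ideal.span_singleton_eq_top] at h
    obtain ⟨⟨m, n, rfl⟩, hm⟩ := h.exists_right_inv
    have h1 : ((ℓ : ℤ) : AlgebraicClosure ℚ) * ((n : ℤ) : AlgebraicClosure ℚ) = 1 := by
      have := congrArg Subtype.val hm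
      simpa [l₀] using this
    have h2 : (ℓ : ℤ) * n = 1 := by exact_mod_cast h1
    have h3 : (ℓ : ℤ) ∣ 1 := ⟨n, h2.symm⟩
    have h4 : ℓ ∣ 1 := by exact_mod_cast h3
    exact hℓ.one_lt.ne' (Nat.dvd_one.mp h4)
  obtain ⟨A, -, hA⟩ := Ideal.image_subset_nonunits_valuationSubring _ hI
  refine ⟨A, ?_⟩
  apply hA
  exact ⟨l₀, Ideal.subset_span rfl, rfl⟩

/-- Existence of Frobenius elements in the absolute Galois group of `ℚ`: for every prime
number `ℓ` there are a valuation subring `A` of `ℚ̄` over `ℓ` and `σ ∈ Gal(ℚ̄/ℚ)` which is a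
Frobenius element at `A`. -/
theorem exists_frobenius (ℓ : ℕ) (hℓ : ℓ.Prime) :
    ∃ (A : ValuationSubring (AlgebraicClosure ℚ))
      (σ : AlgebraicClosure ℚ ≃ₐ[ℚ] AlgebraicClosure ℚ),
      A.LiesOverPrime ℓ ∧ A.IsFrobeniusAt σ ℓ := by
  have : Algebra.IsAlgebraic ℚ (AlgebraicClosure ℚ) := AlgebraicClosure.isAlgebraic ℚ
  obtain ⟨A, hA⟩ := exists_valuationSubring_liesOver ℓ hℓ
  have := primeBelow_isPrime A
  have hℓQ : (ℓ : integralClosure ℤ (AlgebraicClosure ℚ)) ∈ primeBelow A := by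
    rw [mem_primeBelow]
    exact hA
  obtain ⟨σ, hσQ', hσF⟩ := exists_frob_integralClosure ℓ hℓ (primeBelow A) hℓQ
  have hσQ : ∀ x, σ • x ∈ primeBelow A ↔ x ∈ primeBelow A := by
    intro x
    conv_lhs => rw [← hσQ']
    exact Ideal.smul_mem_pointwise_smul_iff
  have key : ∀ τ : AlgebraicClosure ℚ ≃ₐ[ℚ] AlgebraicClosure ℚ,
      (∀ x, τ • x ∈ primeBelow A ↔ x ∈ primeBelow A) → ∀ x ∈ A, τ x ∈ A := by
    intro τ hτ x hx
    obtain ⟨b, s, hb, hs, hsA, hxs⟩ := (mem_valuationSubring_iff A ℓ hℓ hA x).mp hx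
    refine (mem_valuationSubring_iff A ℓ hℓ hA (τ x)).mpr
      ⟨τ b, τ s, hb.map τ, hs.map τ, ?_, ?_⟩
    · exact (hτ ⟨s, hs⟩).not.mpr hsA
    · rw [← map_mul, hxs]
  have hσA : σ ∈ A.decompositionSubgroup ℚ := by
    rw [MulAction.mem_stabilizer_iff]
    ext x
    rw [ValuationSubring.mem_smul_pointwise_iff_exists]
    constructor
    · rintro ⟨s, hs, rfl⟩
      exact key σ hσQ s hs
    · intro hx
      refine ⟨σ⁻¹ • x, key σ⁻¹ ?_ x hx, by simp⟩
      intro y
      rw [← hσQ (σ⁻¹ • y)]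
      simp
  refine ⟨A, σ, hA, hσA, ?_⟩
  intro x
  obtain ⟨a, rfl⟩ := IsLocalRing.residue_surjective x
  obtain ⟨b, s, hb, hs, hsA, hxs⟩ := (mem_valuationSubring_iff A ℓ hℓ hA a).mp a.2
  have hbA : b ∈ A := isIntegral_mem_valuationSubring A hb
  have hsA' : s ∈ A := isIntegral_mem_valuationSubring A hs
  have hint : ∀ (y : AlgebraicClosure ℚ) (hy : IsIntegral ℤ y),
      (⟨σ, hσA⟩ : A.decompositionSubgroup ℚ) •
        IsLocalRing.residue A ⟨y, isIntegral_mem_valuationSubring A hy⟩ =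
      (IsLocalRing.residue A ⟨y, isIntegral_mem_valuationSubring A hy⟩) ^ ℓ := by
    intro y hy
    rw [← IsLocalRing.ResidueField.residue_smul, ← map_pow, ← sub_eq_zero, ← map_sub,
      IsLocalRing.residue_eq_zero_iff, ← ValuationSubring.coe_mem_nonunits_iff]
    exact hσF ⟨y, hy⟩
  have h1 : IsLocalRing.residue A a * IsLocalRing.residue A ⟨s, hsA'⟩ =
      IsLocalRing.residue A ⟨b, hbA⟩ := by
    rw [← map_mul]
    congr 1
    exact Subtype.ext hxs
  have h2 : IsLocalRing.residue A ⟨s, hsA'⟩ ≠ 0 := by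
    rw [Ne, IsLocalRing.residue_eq_zero_iff, ← ValuationSubring.coe_mem_nonunits_iff]
    exact hsA
  have h3 := congrArg (fun z => (⟨σ, hσA⟩ : A.decompositionSubgroup ℚ) • z) h1
  simp only [smul_mul'] at h3
  rw [hint s hs, hint b hb, ← h1, mul_pow] at h3
  exact mul_right_cancel₀ (pow_ne_zero _ h2) h3

end Fermat.Agent.S54

end
-- ===== PACK-END S54/FrobExists.lean

-- ===== PACK-BEGIN Lib/Cheb/H993/LogAsymp.lean
section


/-!
# `f = a · log (1/(s-1)) + O(1)` on `(1, 2]`, and prime Dirichlet sums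

Small calculus used by the glue piece `M` of the shared library CHEB.
-/

set_option autoImplicit false

namespace Fermat.Agent.Lib.Cheb.H993

noncomputable section

/-- The main term `log (1 / (s - 1))`. -/
def ell (s : ℝ) : ℝ := Real.log (1 / (s - 1))

/-- `f = a · ell + O(1)` on `(1, 2]`. -/
def LogAsymp (f : ℝ → ℝ) (a : ℝ) : Prop :=
  ∃ C : ℝ, ∀ s : ℝ, 1 < s → s ≤ 2 → |f s - a * ell s| ≤ C

theorem LogAsymp.congr {f g : ℝ → ℝ} {a : ℝ} (hf : LogAsymp f a)
    (h : ∀ s : ℝ, 1 < s → s ≤ 2 → g s = f s) : LogAsymp g a := by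
  obtain ⟨C, hC⟩ := hf
  exact ⟨C, fun s h1 h2 => by rw [h s h1 h2]; exact hC s h1 h2⟩

theorem LogAsymp.add {f g : ℝ → ℝ} {a b : ℝ} (hf : LogAsymp f a) (hg : LogAsymp g b) :
    LogAsymp (fun s => f s + g s) (a + b) := by
  obtain ⟨C, hC⟩ := hf
  obtain ⟨D, hD⟩ := hg
  refine ⟨C + D, fun s h1 h2 => ?_⟩
  have e : f s + g s - (a + b) * ell s = (f s - a * ell s) + (g s - b * ell s) := by ring
  rw [e]
  exact (abs_add_le _ _).trans (add_le_add (hC s h1 h2) (hD s h1 h2))

theorem LogAsymp.sub {f g : ℝ → ℝ} {a b : ℝ} (hf : LogAsymp f a) (hg : LogAsymp g b) :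
    LogAsymp (fun s => f s - g s) (a - b) := by
  obtain ⟨C, hC⟩ := hf
  obtain ⟨D, hD⟩ := hg
  refine ⟨C + D, fun s h1 h2 => ?_⟩
  have e : f s - g s - (a - b) * ell s = (f s - a * ell s) - (g s - b * ell s) := by ring
  rw [e]
  exact (abs_sub _ _).trans (add_le_add (hC s h1 h2) (hD s h1 h2))

theorem LogAsymp.const_mul {f : ℝ → ℝ} {a : ℝ} (c : ℝ) (hf : LogAsymp f a) :
    LogAsymp (fun s => c * f s) (c * a) := by
  obtain ⟨C, hC⟩ := hf
  refine ⟨|c| * C, fun s h1 h2 => ?_⟩
  have e : c * f s - c * a * ell s = c * (f s - a * ell s) := by ring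
  rw [e, abs_mul]
  exact mul_le_mul_of_nonneg_left (hC s h1 h2) (abs_nonneg c)

theorem LogAsymp.zero_of_bounded {f : ℝ → ℝ} {K : ℝ}
    (h : ∀ s : ℝ, 1 < s → s ≤ 2 → |f s| ≤ K) : LogAsymp f 0 :=
  ⟨K, fun s h1 h2 => by simpa using h s h1 h2⟩

theorem LogAsymp.sum {ι : Type*} (t : Finset ι) {f : ι → ℝ → ℝ} {a : ι → ℝ}
    (h : ∀ i ∈ t, LogAsymp (f i) (a i)) :
    LogAsymp (fun s => ∑ i ∈ t, f i s) (∑ i ∈ t, a i) := by
  classical
  induction t using Finset.induction_on with
  | empty =>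
    exact ⟨0, fun s _ _ => by simp⟩
  | insert i t hi ih =>
    have h1 := h i (Finset.mem_insert_self i t)
    have h2 := ih (fun j hj => h j (Finset.mem_insert_of_mem hj))
    have h3 := h1.add h2
    rw [Finset.sum_insert hi]
    exact h3.congr (fun s _ _ => Finset.sum_insert hi)

/-- `ell` is unbounded above on `(1, 2]`. -/
theorem exists_ell_gt (M : ℝ) : ∃ s : ℝ, 1 < s ∧ s ≤ 2 ∧ M < ell s := by
  refine ⟨1 + Real.exp (-(|M| + 1)), ?_, ?_, ?_⟩
  · have := Real.exp_pos (-(|M| + 1)); linarith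
  · have h : Real.exp (-(|M| + 1)) ≤ 1 := by
      rw [Real.exp_le_one_iff]; have := abs_nonneg M; linarith
    linarith
  · unfold ell
    have e : (1 + Real.exp (-(|M| + 1)) - 1) = Real.exp (-(|M| + 1)) := by ring
    rw [e, one_div, ← Real.exp_neg, Real.log_exp]
    have := le_abs_self M
    linarith

/-- If `f = a · ell + O(1)` with `a > 0` then `f` takes arbitrarily large values. -/
theorem LogAsymp.exists_gt {f : ℝ → ℝ} {a : ℝ} (hf : LogAsymp f a) (ha : 0 < a) (M : ℝ) :
    ∃ s : ℝ, 1 < s ∧ s ≤ 2 ∧ M < f s := by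
  obtain ⟨C, hC⟩ := hf
  obtain ⟨s, h1, h2, hs⟩ := exists_ell_gt ((M + C) / a)
  refine ⟨s, h1, h2, ?_⟩
  have := (abs_le.mp (hC s h1 h2)).1
  have h3 : M + C < a * ell s := by
    rw [div_lt_iff₀ ha] at hs
    linarith
  linarith

/-- The prime Dirichlet sum `∑_p a(p) p^{-s}`. -/
def pSum (a : ℕ → ℝ) (s : ℝ) : ℝ := ∑' p : Nat.Primes, a p * ((p : ℕ) : ℝ) ^ (-s)

theorem summable_pSum {a : ℕ → ℝ} {K : ℝ} (h0 : ∀ p, 0 ≤ a p) (hK : ∀ p, a p ≤ K)
    {s : ℝ} (hs : 1 < s) : Summable (fun p : Nat.Primes => a p * ((p : ℕ) : ℝ) ^ (-s)) := by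
  have hsum : Summable (fun p : Nat.Primes => K * ((p : ℕ) : ℝ) ^ (-s)) :=
    (Nat.Primes.summable_rpow.mpr (by linarith)).mul_left K
  refine Summable.of_nonneg_of_le (fun p => ?_) (fun p => ?_) hsum
  · exact mul_nonneg (h0 p) (Real.rpow_nonneg (Nat.cast_nonneg _) _)
  · exact mul_le_mul_of_nonneg_right (hK p) (Real.rpow_nonneg (Nat.cast_nonneg _) _)

theorem pSum_nonneg {a : ℕ → ℝ} (h0 : ∀ p, 0 ≤ a p) (s : ℝ) : 0 ≤ pSum a s :=
  tsum_nonneg fun p => mul_nonneg (h0 p) (Real.rpow_nonneg (Nat.cast_nonneg _) _)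

theorem pSum_finset_sum {ι : Type*} (t : Finset ι) {a : ι → ℕ → ℝ} {K : ℝ}
    (h0 : ∀ i p, 0 ≤ a i p) (hK : ∀ i p, a i p ≤ K) {s : ℝ} (hs : 1 < s) :
    pSum (fun p => ∑ i ∈ t, a i p) s = ∑ i ∈ t, pSum (a i) s := by
  unfold pSum
  rw [← Summable.tsum_finsetSum (fun i _ => summable_pSum (h0 i) (hK i) hs)]
  congr 1
  funext p
  rw [Finset.sum_mul]

/-- A prime sum supported on a finite set of primes is bounded. -/
theorem abs_pSum_le_of_support {a : ℕ → ℝ} {K : ℝ} (B : Finset ℕ) (h0 : ∀ p, 0 ≤ a p)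
    (hK : ∀ p, a p ≤ K) (hB : ∀ p, p ∉ B → a p = 0) {s : ℝ} (hs : 1 < s) :
    |pSum a s| ≤ K * B.card := by
  have hK0 : 0 ≤ K := (h0 0).trans (hK 0)
  rw [abs_of_nonneg (pSum_nonneg h0 s)]
  unfold pSum
  -- compare with the finite sum over `B`
  let T : Finset Nat.Primes := (B.filter Nat.Prime).attach.map
    ⟨fun p => ⟨p.1, (Finset.mem_filter.mp p.2).2⟩, fun p q h => by
      apply Subtype.ext; simpa using congrArg Subtype.val h⟩
  have hT : ∀ p : Nat.Primes, p ∉ T → a p * ((p : ℕ) : ℝ) ^ (-s) = 0 := by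
    intro p hp
    have : (p : ℕ) ∉ B := by
      intro hpB
      apply hp
      simp only [T, Finset.mem_map, Finset.mem_attach, true_and]
      exact ⟨⟨p.1, Finset.mem_filter.mpr ⟨hpB, p.2⟩⟩, rfl⟩
    rw [hB _ this, zero_mul]
  rw [tsum_eq_sum hT]
  have hcard : T.card ≤ B.card := by
    simp only [T, Finset.card_map, Finset.card_attach]
    exact Finset.card_filter_le _ _
  calc ∑ p ∈ T, a p * ((p : ℕ) : ℝ) ^ (-s) ≤ ∑ _p ∈ T, K := by
        refine Finset.sum_le_sum fun p _ => ?_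
        have h1 : ((p : ℕ) : ℝ) ^ (-s) ≤ 1 := by
          apply Real.rpow_le_one_of_one_le_of_nonpos
          · exact_mod_cast p.2.one_lt.le
          · linarith
        calc a p * ((p : ℕ) : ℝ) ^ (-s) ≤ K * 1 :=
              mul_le_mul (hK p) h1 (Real.rpow_nonneg (Nat.cast_nonneg _) _) hK0
          _ = K := mul_one K
    _ = K * T.card := by rw [Finset.sum_const, nsmul_eq_mul, mul_comm]
    _ ≤ K * B.card := by
        apply mul_le_mul_of_nonneg_left _ hK0
        exact_mod_cast hcard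

end

end Fermat.Agent.Lib.Cheb.H993

end
-- ===== PACK-END Lib/Cheb/H993/LogAsymp.lean

-- ===== PACK-BEGIN Lib/Cheb/H993/Induction.lean
section


/-!
# The subgroup induction (abstract core of piece `M`)

`v X p ≥ 0` bounded weights indexed by subgroups `X` of a finite group `G` and numbers `p`.
If for every subgroup `H` the prime sum of `∑_{X ≤ H} v X` is `|H| · log (1/(s-1)) + O(1)`, then
for every subgroup `X` the prime sum of `v X` is `ψ(X) · log (1/(s-1)) + O(1)`, where `ψ(X)` is the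
number of generators of `X`.  Hence if `X` is cyclic, `v X p > 0` for primes outside any finite set.
-/

set_option autoImplicit false

namespace Fermat.Agent.Lib.Cheb.H993

open scoped Classical

noncomputable section

variable {G : Type*} [Group G] [Finite G]

/-- Number of generators of the subgroup `X`. -/
def gens (X : Subgroup G) : ℕ := Nat.card {x : G // Subgroup.zpowers x = X}

/-- The subgroups contained in `H`, as a finset. -/
def below (H : Subgroup G) : Finset (Subgroup G) :=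
  haveI : Fintype (Subgroup G) := Fintype.ofFinite _
  Finset.univ.filter (· ≤ H)

theorem mem_below {H X : Subgroup G} : X ∈ below H ↔ X ≤ H := by
  unfold below
  simp

theorem card_eq_sum_gens (H : Subgroup G) : Nat.card H = ∑ X ∈ below H, gens X := by
  have : Fintype G := Fintype.ofFinite _
  have h1 : Nat.card H = (Finset.univ.filter (fun x : G => x ∈ H)).card := by
    rw [Nat.card_eq_fintype_card, Fintype.card_subtype]
  have h2 : ∀ X : Subgroup G, gens X
      = ((Finset.univ.filter (fun x : G => x ∈ H)).filter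
          (fun x => Subgroup.zpowers x = X)).card ∨ ¬ X ≤ H := by
    intro X
    by_cases hX : X ≤ H
    · left
      unfold gens
      rw [Nat.card_eq_fintype_card, Fintype.card_subtype]
      congr 1
      ext x
      simp only [Finset.mem_filter, Finset.mem_univ, true_and, iff_and_self]
      intro hx
      exact hX (hx ▸ Subgroup.mem_zpowers x)
    · right; exact hX
  rw [h1, Finset.card_eq_sum_card_fiberwise (f := fun x : G => Subgroup.zpowers x)
    (t := below H)]
  · refine Finset.sum_congr rfl fun X hX => ?_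
    rcases h2 X with h | h
    · exact h.symm
    · exact absurd (mem_below.mp hX) h
  · intro x hx
    simp only [Finset.coe_filter, Finset.mem_univ, true_and, Set.mem_ofPred_eq] at hx
    simp only [Finset.mem_coe]
    exact mem_below.mpr ((Subgroup.zpowers_le).mpr hx)

theorem self_mem_below (X : Subgroup G) : X ∈ below X := mem_below.mpr le_rfl

theorem card_lt_of_mem_erase {X Y : Subgroup G} (hY : Y ∈ (below X).erase X) :
    Nat.card Y < Nat.card X := by
  rw [Finset.mem_erase, mem_below] at hY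
  have hlt : Y < X := lt_of_le_of_ne hY.2 hY.1
  have hss : (Y : Set G) ⊂ (X : Set G) := by
    exact_mod_cast hlt
  have h := Set.ncard_lt_ncard hss (Set.toFinite _)
  rw [← Nat.card_coe_set_eq, ← Nat.card_coe_set_eq] at h
  exact h

/-- The induction: prime sums of `v X` are `gens X · log (1/(s-1)) + O(1)`. -/
theorem logAsymp_pSum (v : Subgroup G → ℕ → ℝ) (K : ℝ) (h0 : ∀ X p, 0 ≤ v X p)
    (hK : ∀ X p, v X p ≤ K)
    (hW : ∀ H : Subgroup G,
      LogAsymp (pSum (fun p => ∑ X ∈ below H, v X p)) (Nat.card H)) :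
    ∀ X : Subgroup G, LogAsymp (pSum (v X)) (gens X) := by
  suffices h : ∀ n : ℕ, ∀ X : Subgroup G, Nat.card X = n → LogAsymp (pSum (v X)) (gens X) from
    fun X => h _ X rfl
  intro n
  induction n using Nat.strong_induction_on with
  | _ n ih =>
    intro X hX
    have hsmall : ∀ Y ∈ (below X).erase X, LogAsymp (pSum (v Y)) (gens Y) := by
      intro Y hY
      exact ih (Nat.card Y) (hX ▸ card_lt_of_mem_erase hY) Y rfl
    have hsum := LogAsymp.sum ((below X).erase X) hsmall
    have hdiff := (hW X).sub hsum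
    have hcoef : ((Nat.card X : ℕ) : ℝ) - ∑ Y ∈ (below X).erase X, ((gens Y : ℕ) : ℝ)
        = (gens X : ℝ) := by
      have h1 := card_eq_sum_gens X
      rw [← Finset.add_sum_erase (below X) _ (self_mem_below X)] at h1
      rw [h1]
      push_cast
      ring
    rw [hcoef] at hdiff
    refine hdiff.congr fun s h1 _ => ?_
    have hsplit : pSum (fun p => ∑ Y ∈ below X, v Y p) s = ∑ Y ∈ below X, pSum (v Y) s :=
      pSum_finset_sum (below X) h0 hK h1
    rw [hsplit, ← Finset.add_sum_erase (below X) _ (self_mem_below X)]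
    ring

/-- Consequence: if `X` has a generator, `v X p > 0` for some `p` outside any finite set. -/
theorem exists_pos_of_gens_pos (v : Subgroup G → ℕ → ℝ) (K : ℝ) (h0 : ∀ X p, 0 ≤ v X p)
    (hK : ∀ X p, v X p ≤ K)
    (hW : ∀ H : Subgroup G,
      LogAsymp (pSum (fun p => ∑ X ∈ below H, v X p)) (Nat.card H))
    (X : Subgroup G) (hX : 0 < gens X) (S : Finset ℕ) :
    ∃ p : ℕ, p.Prime ∧ p ∉ S ∧ 0 < v X p := by
  by_contra hcon
  have hcon : ∀ p : ℕ, p.Prime → p ∉ S → v X p ≤ 0 := by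
    intro p hp hpS
    by_contra h
    exact hcon ⟨p, hp, hpS, not_le.mp h⟩
  have hsupp : ∀ p : Nat.Primes, (p : ℕ) ∉ S → v X p = 0 := fun p hp =>
    le_antisymm (hcon p p.2 hp) (h0 X p)
  have hasym := logAsymp_pSum v K h0 hK hW X
  have hK0 : 0 ≤ K := (h0 X 0).trans (hK X 0)
  obtain ⟨s, h1, -, hs⟩ := hasym.exists_gt (by exact_mod_cast hX) (K * S.card)
  -- but the prime sum is supported on `S`
  let w : ℕ → ℝ := fun p => if p ∈ S then v X p else 0
  have hw : pSum (v X) s = pSum w s := by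
    unfold pSum
    congr 1
    funext p
    by_cases hp : (p : ℕ) ∈ S
    · simp [w, hp]
    · simp [w, hp, hsupp p hp]
  have hle : |pSum w s| ≤ K * S.card := by
    apply abs_pSum_le_of_support S
    · intro p; by_cases hp : p ∈ S <;> simp [w, hp, h0 X p]
    · intro p; by_cases hp : p ∈ S <;> simp [w, hp, hK X p, hK0]
    · intro p hp; simp [w, hp]
    · exact h1
  rw [hw] at hs
  exact absurd (le_abs_self _ |>.trans hle) (not_le.mpr hs)

end

end Fermat.Agent.Lib.Cheb.H993

end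
-- ===== PACK-END Lib/Cheb/H993/Induction.lean

-- ===== PACK-BEGIN S24/Deg/H457_Bound.lean
section


/-!
# S24 / DEG-ALG (helper457), part 2: bounded degree ⇒ bounded dimension

If every element of a field extension `F/k` (char. 0) is algebraic of degree `≤ n`, then
`F/k` is finite of degree `≤ n` (primitive element theorem).
-/

set_option autoImplicit false

noncomputable section

open Polynomial Module

namespace Fermat.Agent.S24.Deg457

/-- In characteristic zero, an extension all of whose elements are algebraic of degree `≤ n`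
is finite-dimensional of dimension `≤ n`. -/
theorem finiteDimensional_and_finrank_le_of_forall_natDegree_minpoly_le
    {k F : Type*} [Field k] [Field F] [Algebra k F] [CharZero k] (n : ℕ)
    (h : ∀ x : F, IsIntegral k x ∧ (minpoly k x).natDegree ≤ n) :
    FiniteDimensional k F ∧ finrank k F ≤ n := by
  haveI : Algebra.IsAlgebraic k F := ⟨fun x => (h x).1.isAlgebraic⟩
  have key : ∀ L : IntermediateField k F, FiniteDimensional k L → finrank k L ≤ n := by
    intro L hL
    obtain ⟨α, hα⟩ := Field.exists_primitive_element k L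
    have h1 : finrank k L = (minpoly k α).natDegree := by
      rw [← IntermediateField.adjoin.finrank (IsIntegral.of_finite k α), hα]
      exact (IntermediateField.finrank_top').symm
    rw [h1]
    have h2 : minpoly k (α : F) = minpoly k α :=
      (minpoly.algebraMap_eq (algebraMap L F).injective α)
    rw [← h2]
    exact (h (α : F)).2
  have hfd : FiniteDimensional k F := by
    by_contra hnot
    obtain ⟨L, hL, hlt⟩ := IntermediateField.exists_lt_finrank_of_infinite_dimensional hnot n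
    exact absurd (key L hL) (not_le.mpr hlt)
  refine ⟨hfd, ?_⟩
  have := key ⊤ inferInstance
  rwa [IntermediateField.finrank_top'] at this

end Fermat.Agent.S24.Deg457

end
end
-- ===== PACK-END S24/Deg/H457_Bound.lean

-- ===== PACK-BEGIN S24/Deg/H648Conj.lean
section


/-!
# S24 / M6-AN (helper648): function-level conjugate product

For a holomorphic `Γ₀(N)`-invariant function `f` on `ℍ` whose `SL₂(ℤ)`-translates have at most
exponential growth at `i∞`, the polynomial `∏ₓ (Y - f ∘ gₓ⁻¹)` (product over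
`x ∈ SL₂(ℤ)/Γ₀(N)`) has holomorphic, `SL₂(ℤ)`-invariant coefficients of exponential growth.
-/

set_option autoImplicit false

noncomputable section

open UpperHalfPlane ModularGroup CongruenceSubgroup Polynomial
open scoped MatrixGroups Manifold Modular Real

namespace Fermat.Agent.S24.H648

/-- At most exponential growth at `i∞` (on `im τ ≥ 1`). -/
def ExpGrowth (f : ℍ → ℂ) : Prop :=
  ∃ (C : ℝ) (m : ℕ), ∀ τ : ℍ, 1 ≤ τ.im → ‖f τ‖ ≤ C * Real.exp (2 * π * m * τ.im)

lemma ExpGrowth.mono {f : ℍ → ℂ} {C : ℝ} {m : ℕ}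
    (h : ∀ τ : ℍ, 1 ≤ τ.im → ‖f τ‖ ≤ C * Real.exp (2 * π * m * τ.im)) {C' : ℝ} {m' : ℕ}
    (hC : C ≤ C') (hC0 : 0 ≤ C') (hm : m ≤ m') (τ : ℍ) (hτ : 1 ≤ τ.im) :
    ‖f τ‖ ≤ C' * Real.exp (2 * π * m' * τ.im) := by
  refine (h τ hτ).trans ?_
  have h1 : Real.exp (2 * π * m * τ.im) ≤ Real.exp (2 * π * m' * τ.im) := by
    apply Real.exp_le_exp.mpr
    have : (m : ℝ) ≤ m' := by exact_mod_cast hm
    have hpi := Real.pi_pos
    have := τ.im_pos
    gcongr
  calc C * Real.exp (2 * π * m * τ.im) ≤ C' * Real.exp (2 * π * m * τ.im) := by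
        gcongr
    _ ≤ C' * Real.exp (2 * π * m' * τ.im) := by gcongr

lemma expGrowth_const (c : ℂ) : ExpGrowth (fun _ => c) := by
  refine ⟨‖c‖, 0, fun τ _ => ?_⟩
  simp

lemma ExpGrowth.add {f g : ℍ → ℂ} (hf : ExpGrowth f) (hg : ExpGrowth g) :
    ExpGrowth (f + g) := by
  obtain ⟨C, m, h⟩ := hf
  obtain ⟨C', m', h'⟩ := hg
  refine ⟨|C| + |C'|, max m m', fun τ hτ => ?_⟩
  have h1 := ExpGrowth.mono h (C' := |C|) (m' := max m m') (le_abs_self C) (abs_nonneg C)
    (le_max_left _ _) τ hτ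
  have h2 := ExpGrowth.mono h' (C' := |C'|) (m' := max m m') (le_abs_self C') (abs_nonneg C')
    (le_max_right _ _) τ hτ
  calc ‖(f + g) τ‖ ≤ ‖f τ‖ + ‖g τ‖ := norm_add_le _ _
    _ ≤ _ := by rw [add_mul]; exact add_le_add h1 h2

lemma ExpGrowth.mul {f g : ℍ → ℂ} (hf : ExpGrowth f) (hg : ExpGrowth g) :
    ExpGrowth (f * g) := by
  obtain ⟨C, m, h⟩ := hf
  obtain ⟨C', m', h'⟩ := hg
  refine ⟨|C| * |C'|, m + m', fun τ hτ => ?_⟩
  have h1 := ExpGrowth.mono h (C' := |C|) (m' := m) (le_abs_self C) (abs_nonneg C) le_rfl τ hτ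
  have h2 := ExpGrowth.mono h' (C' := |C'|) (m' := m') (le_abs_self C') (abs_nonneg C') le_rfl τ hτ
  have : Real.exp (2 * π * (m + m' : ℕ) * τ.im)
      = Real.exp (2 * π * m * τ.im) * Real.exp (2 * π * m' * τ.im) := by
    rw [← Real.exp_add]; push_cast; ring_nf
  calc ‖(f * g) τ‖ = ‖f τ‖ * ‖g τ‖ := norm_mul _ _
    _ ≤ (|C| * Real.exp (2 * π * m * τ.im)) * (|C'| * Real.exp (2 * π * m' * τ.im)) :=
        mul_le_mul h1 h2 (norm_nonneg _) (by positivity)
    _ = _ := by rw [this]; ring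

/-- Holomorphic functions on `ℍ` of at most exponential growth at `i∞`. -/
def niceRing : Subalgebra ℂ (ℍ → ℂ) where
  carrier := {f | MDifferentiable 𝓘(ℂ) 𝓘(ℂ) f ∧ ExpGrowth f}
  mul_mem' := fun ⟨h1, h2⟩ ⟨h1', h2'⟩ => ⟨h1.mul h1', h2.mul h2'⟩
  add_mem' := fun ⟨h1, h2⟩ ⟨h1', h2'⟩ => ⟨h1.add h1', h2.add h2'⟩
  algebraMap_mem' := fun c => ⟨mdifferentiable_const, expGrowth_const c⟩


lemma mem_niceRing {f : ℍ → ℂ} :
    f ∈ niceRing ↔ MDifferentiable 𝓘(ℂ) 𝓘(ℂ) f ∧ ExpGrowth f := Iff.rfl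

variable (N : ℕ)

/-- Holomorphic `Γ₀(N)`-invariant functions all of whose `SL₂(ℤ)`-translates have at most
exponential growth at `i∞`. -/
def goodRing : Subalgebra ℂ (ℍ → ℂ) where
  carrier := {f | MDifferentiable 𝓘(ℂ) 𝓘(ℂ) f ∧ (∀ γ ∈ Gamma0 N, ∀ τ : ℍ, f (γ • τ) = f τ) ∧
      ∀ g : SL(2, ℤ), ExpGrowth (fun τ => f (g • τ))}
  mul_mem' := by
    rintro f g ⟨h1, h2, h3⟩ ⟨h1', h2', h3'⟩
    refine ⟨h1.mul h1', fun γ hγ τ => ?_, fun g => ?_⟩
    · show f (γ • τ) * g (γ • τ) = f τ * g τ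
      rw [h2 γ hγ τ, h2' γ hγ τ]
    · exact (h3 g).mul (h3' g)
  add_mem' := by
    rintro f g ⟨h1, h2, h3⟩ ⟨h1', h2', h3'⟩
    refine ⟨h1.add h1', fun γ hγ τ => ?_, fun g => ?_⟩
    · show f (γ • τ) + g (γ • τ) = f τ + g τ
      rw [h2 γ hγ τ, h2' γ hγ τ]
    · exact (h3 g).add (h3' g)
  algebraMap_mem' := fun c =>
    ⟨mdifferentiable_const, fun _ _ _ => rfl, fun _ => expGrowth_const c⟩

lemma mem_goodRing {f : ℍ → ℂ} :
    f ∈ goodRing N ↔ MDifferentiable 𝓘(ℂ) 𝓘(ℂ) f ∧ (∀ γ ∈ Gamma0 N, ∀ τ : ℍ, f (γ • τ) = f τ) ∧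
      ∀ g : SL(2, ℤ), ExpGrowth (fun τ => f (g • τ)) := Iff.rfl

/-- The conjugate `f ∘ gₓ⁻¹` of `f` attached to the coset `x = gₓ Γ₀(N)`. -/
def conj (f : ℍ → ℂ) (x : SL(2, ℤ) ⧸ Gamma0 N) : ℍ → ℂ :=
  fun τ => f ((Quotient.out x)⁻¹ • τ)

variable {N}

lemma conj_mk {f : ℍ → ℂ} (hf : ∀ γ ∈ Gamma0 N, ∀ τ : ℍ, f (γ • τ) = f τ) (g : SL(2, ℤ))
    (τ : ℍ) : conj N f (g : SL(2, ℤ) ⧸ Gamma0 N) τ = f (g⁻¹ • τ) := by
  obtain ⟨h, hh⟩ := QuotientGroup.mk_out_eq_mul (Gamma0 N) g
  unfold conj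
  rw [hh, mul_inv_rev, mul_smul]
  exact hf _ (inv_mem h.2) _

lemma conj_smul {f : ℍ → ℂ} (hf : ∀ γ ∈ Gamma0 N, ∀ τ : ℍ, f (γ • τ) = f τ) (γ : SL(2, ℤ))
    (x : SL(2, ℤ) ⧸ Gamma0 N) (τ : ℍ) : conj N f x (γ • τ) = conj N f (γ⁻¹ • x) τ := by
  induction x using QuotientGroup.induction_on with
  | H g =>
    rw [conj_mk hf, MulAction.Quotient.smul_mk, conj_mk hf, smul_eq_mul, mul_inv_rev, inv_inv,
      mul_smul]

lemma conj_one_coset {f : ℍ → ℂ} (hf : ∀ γ ∈ Gamma0 N, ∀ τ : ℍ, f (γ • τ) = f τ) (τ : ℍ) :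
    conj N f ((1 : SL(2, ℤ)) : SL(2, ℤ) ⧸ Gamma0 N) τ = f τ := by
  rw [conj_mk hf]; simp

lemma mdifferentiable_comp_smul {f : ℍ → ℂ} (hf : MDifferentiable 𝓘(ℂ) 𝓘(ℂ) f)
    (g : SL(2, ℤ)) : MDifferentiable 𝓘(ℂ) 𝓘(ℂ) (fun τ : ℍ => f (g • τ)) := by
  have h : MDifferentiable 𝓘(ℂ) 𝓘(ℂ) (fun τ : ℍ => (g : GL (Fin 2) ℝ) • τ) :=
    UpperHalfPlane.mdifferentiable_smul (by simp)
  exact hf.comp h

lemma conj_mem_niceRing {f : ℍ → ℂ} (hf : f ∈ goodRing N) (x : SL(2, ℤ) ⧸ Gamma0 N) :
    conj N f x ∈ niceRing :=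
  ⟨mdifferentiable_comp_smul hf.1 _, hf.2.2 _⟩


/-- Coefficients of a finite product `∏ (Y - aₓ)` with `aₓ` in `niceRing` are in `niceRing`. -/
lemma coeff_prod_mem_niceRing {ι : Type*} (a : ι → ℍ → ℂ) (ha : ∀ i, a i ∈ niceRing)
    (s : Finset ι) (k : ℕ) :
    (fun τ => (∏ i ∈ s, (X - C (a i τ))).coeff k) ∈ niceRing := by
  classical
  induction s using Finset.induction_on generalizing k with
  | empty =>
    have : (fun τ : ℍ => (∏ i ∈ (∅ : Finset ι), (X - C (a i τ))).coeff k)
        = algebraMap ℂ (ℍ → ℂ) (if k = 0 then 1 else 0) := by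
      funext τ
      simp [Polynomial.coeff_one]
    rw [this]
    exact Subalgebra.algebraMap_mem _ _
  | insert i s hi ih =>
    cases k with
    | zero =>
      have : (fun τ : ℍ => (∏ j ∈ insert i s, (X - C (a j τ))).coeff 0)
          = - (a i * fun τ => (∏ j ∈ s, (X - C (a j τ))).coeff 0) := by
        funext τ
        rw [Finset.prod_insert hi, sub_mul, Polynomial.coeff_sub, Polynomial.coeff_X_mul_zero,
          Polynomial.coeff_C_mul]
        simp
      rw [this]
      exact Subalgebra.neg_mem _ (Subalgebra.mul_mem _ (ha i) (ih 0))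
    | succ k =>
      have : (fun τ : ℍ => (∏ j ∈ insert i s, (X - C (a j τ))).coeff (k + 1))
          = (fun τ => (∏ j ∈ s, (X - C (a j τ))).coeff k)
            - (a i * fun τ => (∏ j ∈ s, (X - C (a j τ))).coeff (k + 1)) := by
        funext τ
        rw [Finset.prod_insert hi, sub_mul, Polynomial.coeff_sub, Polynomial.coeff_X_mul,
          Polynomial.coeff_C_mul]
        simp
      rw [this]
      exact Subalgebra.sub_mem _ (ih k) (Subalgebra.mul_mem _ (ha i) (ih (k + 1)))

variable (N) in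
/-- The "characteristic polynomial" `∏ₓ (Y - f ∘ gₓ⁻¹)` evaluated at `τ`. -/
def charPolyAt [Fintype (SL(2, ℤ) ⧸ Gamma0 N)] (f : ℍ → ℂ) (τ : ℍ) : ℂ[X] :=
  ∏ x : SL(2, ℤ) ⧸ Gamma0 N, (X - C (conj N f x τ))

section charPoly

variable [Fintype (SL(2, ℤ) ⧸ Gamma0 N)]

lemma charPolyAt_monic (f : ℍ → ℂ) (τ : ℍ) : (charPolyAt N f τ).Monic :=
  Polynomial.monic_prod_of_monic _ _ fun _ _ => Polynomial.monic_X_sub_C _

lemma charPolyAt_natDegree (f : ℍ → ℂ) (τ : ℍ) :
    (charPolyAt N f τ).natDegree = Fintype.card (SL(2, ℤ) ⧸ Gamma0 N) := by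
  unfold charPolyAt
  rw [Polynomial.natDegree_prod_of_monic _ _ fun _ _ => Polynomial.monic_X_sub_C _]
  simp

lemma charPolyAt_smul {f : ℍ → ℂ} (hf : ∀ γ ∈ Gamma0 N, ∀ τ : ℍ, f (γ • τ) = f τ)
    (γ : SL(2, ℤ)) (τ : ℍ) : charPolyAt N f (γ • τ) = charPolyAt N f τ := by
  unfold charPolyAt
  refine Fintype.prod_equiv (MulAction.toPerm γ⁻¹) _ _ fun x => ?_
  rw [conj_smul hf]
  rfl

lemma charPolyAt_eval_self {f : ℍ → ℂ} (hf : ∀ γ ∈ Gamma0 N, ∀ τ : ℍ, f (γ • τ) = f τ)
    (τ : ℍ) : (charPolyAt N f τ).eval (f τ) = 0 := by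
  unfold charPolyAt
  rw [Polynomial.eval_prod]
  refine Finset.prod_eq_zero (Finset.mem_univ ((1 : SL(2, ℤ)) : SL(2, ℤ) ⧸ Gamma0 N)) ?_
  rw [conj_one_coset hf]
  simp

lemma charPolyAt_eval_conj (f : ℍ → ℂ) (x : SL(2, ℤ) ⧸ Gamma0 N)
    (τ : ℍ) : (charPolyAt N f τ).eval (conj N f x τ) = 0 := by
  unfold charPolyAt
  rw [Polynomial.eval_prod]
  refine Finset.prod_eq_zero (Finset.mem_univ x) ?_
  simp

lemma coeff_charPolyAt_mem_niceRing {f : ℍ → ℂ} (hf : f ∈ goodRing N) (k : ℕ) :
    (fun τ => (charPolyAt N f τ).coeff k) ∈ niceRing :=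
  coeff_prod_mem_niceRing (conj N f) (conj_mem_niceRing hf) Finset.univ k

/-- **Main theorem (M6-AN).**  Given the polynomiality principle (D5) for `J`, the conjugate
product `∏ₓ (Y - f ∘ gₓ⁻¹)` of a good function `f` has coefficients in `ℂ[J]`. -/
theorem exists_charPoly (J : ℍ → ℂ)
    (hD5 : ∀ F : ℍ → ℂ, MDifferentiable 𝓘(ℂ) 𝓘(ℂ) F →
      (∀ (γ : SL(2, ℤ)) (τ : ℍ), F (γ • τ) = F τ) → ExpGrowth F →
      ∃ p : ℂ[X], ∀ τ, F τ = p.eval (J τ))
    {f : ℍ → ℂ} (hf : f ∈ goodRing N) :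
    ∃ P : (ℂ[X])[X], P.Monic ∧ P.natDegree = Fintype.card (SL(2, ℤ) ⧸ Gamma0 N) ∧
      ∀ τ : ℍ, P.map (Polynomial.evalRingHom (J τ)) = charPolyAt N f τ := by
  classical
  set n := Fintype.card (SL(2, ℤ) ⧸ Gamma0 N) with hn
  have key : ∀ k : ℕ, ∃ p : ℂ[X], ∀ τ, (charPolyAt N f τ).coeff k = p.eval (J τ) := by
    intro k
    have h := coeff_charPolyAt_mem_niceRing hf k
    exact hD5 _ h.1 (fun γ τ => by rw [charPolyAt_smul hf.2.1]) h.2
  choose p hp using key
  set Q : (ℂ[X])[X] := ∑ i ∈ Finset.range n, C (p i) * X ^ i with hQ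
  have hQdeg : Q.degree < n := by
    rw [Polynomial.degree_lt_iff_coeff_zero]
    intro m hm
    rw [hQ, Polynomial.finsetSum_coeff]
    refine Finset.sum_eq_zero fun i hi => ?_
    rw [Polynomial.coeff_C_mul_X_pow, if_neg]
    have := Finset.mem_range.mp hi
    omega
  refine ⟨X ^ n + Q, Polynomial.monic_X_pow_add hQdeg, ?_, fun τ => ?_⟩
  · rw [Polynomial.natDegree_add_eq_left_of_degree_lt (by rwa [Polynomial.degree_X_pow]),
      Polynomial.natDegree_X_pow]
  · have h1 := (charPolyAt_monic (N := N) f τ).as_sum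
    rw [charPolyAt_natDegree] at h1
    rw [h1, Polynomial.map_add, Polynomial.map_pow, Polynomial.map_X, hQ, Polynomial.map_sum]
    congr 1
    refine Finset.sum_congr rfl fun i _ => ?_
    rw [Polynomial.map_mul, Polynomial.map_pow, Polynomial.map_X, Polynomial.map_C,
      Polynomial.coe_evalRingHom, ← hp i τ]

/-- Corollary: function-level `HYP(n)`. -/
theorem exists_charPoly_eval_eq_zero (J : ℍ → ℂ)
    (hD5 : ∀ F : ℍ → ℂ, MDifferentiable 𝓘(ℂ) 𝓘(ℂ) F →
      (∀ (γ : SL(2, ℤ)) (τ : ℍ), F (γ • τ) = F τ) → ExpGrowth F →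
      ∃ p : ℂ[X], ∀ τ, F τ = p.eval (J τ))
    {f : ℍ → ℂ} (hf : f ∈ goodRing N) :
    ∃ P : (ℂ[X])[X], P.Monic ∧ P.natDegree = Fintype.card (SL(2, ℤ) ⧸ Gamma0 N) ∧
      ∀ τ : ℍ, (P.map (Polynomial.evalRingHom (J τ))).eval (f τ) = 0 := by
  obtain ⟨P, h1, h2, h3⟩ := exists_charPoly J hD5 hf
  exact ⟨P, h1, h2, fun τ => by rw [h3, charPolyAt_eval_self hf.2.1]⟩

end charPoly

end Fermat.Agent.S24.H648

end
end
-- ===== PACK-END S24/Deg/H648Conj.lean

-- ===== PACK-BEGIN S24/Deg/H648Height.lean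
section


/-!
# S24 / M6-AN (helper648): the height lemma and `τ ↦ J (d τ) ∈ goodRing N`

No Hermite normal form is needed: an integer matrix of determinant `d` maps `{im τ ≥ 1}` into
`{im ≤ d · im τ}`.
-/

set_option autoImplicit false

noncomputable section

open UpperHalfPlane ModularGroup CongruenceSubgroup Polynomial
open scoped MatrixGroups Manifold Modular Real

namespace Fermat.Agent.S24.H648

/-- A nonzero integral linear form in `τ` with `im τ ≥ 1` has absolute value at least `1`. -/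
lemma one_le_normSq_int_linear (c e : ℤ) (τ : ℍ) (hτ : 1 ≤ τ.im)
    (h : (c : ℂ) * τ + e ≠ 0) : 1 ≤ Complex.normSq ((c : ℂ) * τ + e) := by
  have hval : Complex.normSq ((c : ℂ) * τ + e) = (c * τ.re + e) ^ 2 + (c * τ.im) ^ 2 := by
    rw [Complex.normSq_apply]
    simp [pow_two]
  rw [hval]
  by_cases hc : c = 0
  · subst hc
    have he : e ≠ 0 := by
      rintro rfl
      simp at h
    have he1 : (1 : ℝ) ≤ (e : ℝ) ^ 2 := by
      have : (1 : ℤ) ≤ e ^ 2 := by
        have := Int.one_le_abs he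
        nlinarith [abs_nonneg e, sq_abs e]
      exact_mod_cast this
    simpa using he1
  · have hc1 : (1 : ℝ) ≤ (c : ℝ) ^ 2 := by
      have : (1 : ℤ) ≤ c ^ 2 := by
        have := Int.one_le_abs hc
        nlinarith [abs_nonneg c, sq_abs c]
      exact_mod_cast this
    have h1 : (1 : ℝ) ≤ (c * τ.im) ^ 2 := by
      rw [mul_pow]
      have : (1 : ℝ) ≤ τ.im ^ 2 := by nlinarith
      nlinarith
    nlinarith [sq_nonneg ((c : ℝ) * τ.re + e)]

/-- **Height lemma.** -/
lemma im_smul_scale_le (γ g : SL(2, ℤ)) (d : ℕ) (τ w : ℍ)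
    (hw : (w : ℂ) = d * ((g • τ : ℍ) : ℂ)) (hτ : 1 ≤ τ.im) :
    (γ • w).im ≤ d * τ.im := by
  have hwim : w.im = d * (g • τ).im := by
    have := congrArg Complex.im hw
    simpa using this
  have hgτ : ((g • τ : ℍ) : ℂ) * denom g τ = num g τ := by
    have h1 : ((g • τ : ℍ) : ℂ) = num g τ / denom g τ := by
      rw [sl_moeb, coe_smul_of_det_pos (by simp)]
    rw [h1, div_mul_cancel₀ _ (denom_ne_zero _ τ)]
  have hprod : denom γ w * denom g τ
      = ((γ 1 0 * d * g 0 0 + γ 1 1 * g 1 0 : ℤ) : ℂ) * τ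
        + ((γ 1 0 * d * g 0 1 + γ 1 1 * g 1 1 : ℤ) : ℂ) := by
    have e1 : denom γ w = (γ 1 0 : ℂ) * w + γ 1 1 := by
      simp [denom]
    have e2 : denom g τ = (g 1 0 : ℂ) * τ + g 1 1 := by
      simp [denom]
    have e3 : num g τ = (g 0 0 : ℂ) * τ + g 0 1 := by
      simp [num]
    rw [e1, hw, add_mul]
    have : (γ 1 0 : ℂ) * (d * ((g • τ : ℍ) : ℂ)) * denom g τ
        = (γ 1 0 : ℂ) * d * (((g • τ : ℍ) : ℂ) * denom g τ) := by ring
    rw [this, hgτ, e3, e2]
    push_cast
    ring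
  have hne : denom γ w * denom g τ ≠ 0 :=
    mul_ne_zero (denom_ne_zero _ w) (denom_ne_zero _ τ)
  have hge : 1 ≤ Complex.normSq (denom γ w * denom g τ) := by
    rw [hprod] at hne ⊢
    exact one_le_normSq_int_linear _ _ τ hτ hne
  rw [ModularGroup.im_smul_eq_div_normSq, hwim, ModularGroup.im_smul_eq_div_normSq]
  rw [Complex.normSq_mul] at hge
  have h1 : 0 < Complex.normSq (denom g τ) := Complex.normSq_pos.mpr (denom_ne_zero _ τ)
  have h2 : 0 < Complex.normSq (denom γ w) := Complex.normSq_pos.mpr (denom_ne_zero _ w)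
  have hd : (0 : ℝ) ≤ d * τ.im := by
    have := τ.im_pos
    positivity
  have hAB : 1 ≤ Complex.normSq (denom g τ) * Complex.normSq (denom γ w) := by
    rw [mul_comm]; exact hge
  calc (d : ℝ) * (τ.im / Complex.normSq (denom g τ)) / Complex.normSq (denom γ w)
      = (d * τ.im) / (Complex.normSq (denom g τ) * Complex.normSq (denom γ w)) := by
        field_simp
    _ ≤ d * τ.im := div_le_self hd hAB


/-- Points of the fundamental domain have imaginary part `≥ 1/2`. -/
lemma half_le_im_of_mem_fd {τ : ℍ} (h : τ ∈ 𝒟) : 1 / 2 ≤ τ.im := by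
  have h1 := ModularGroup.three_le_four_mul_im_sq_of_mem_fd h
  have h2 := τ.im_pos
  nlinarith

section JScale

variable {J : ℍ → ℂ}

/-- Growth of all `SL₂(ℤ)`-translates of `τ ↦ J (d τ)`, from a bound for `J` on the fundamental
domain. -/
lemma expGrowth_J_scale (hJinv : ∀ (γ : SL(2, ℤ)) (τ : ℍ), J (γ • τ) = J τ)
    (hJfd : ∃ C : ℝ, ∀ τ : ℍ, τ ∈ 𝒟 → ‖J τ‖ ≤ C * Real.exp (2 * π * τ.im))
    (d : ℕ) (s : ℍ → ℍ) (hs : ∀ τ : ℍ, (s τ : ℂ) = d * τ) (g : SL(2, ℤ)) :
    ExpGrowth (fun τ => J (s (g • τ))) := by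
  obtain ⟨C, hC⟩ := hJfd
  refine ⟨|C|, d, fun τ hτ => ?_⟩
  obtain ⟨γ, hγ⟩ := ModularGroup.exists_smul_mem_fd (s (g • τ))
  have h1 : J (s (g • τ)) = J (γ • s (g • τ)) := (hJinv γ _).symm
  have h2 := hC _ hγ
  have h3 : (γ • s (g • τ)).im ≤ d * τ.im := im_smul_scale_le γ g d τ _ (hs _) hτ
  show ‖J (s (g • τ))‖ ≤ _
  rw [h1]
  refine h2.trans ?_
  have h4 : Real.exp (2 * π * (γ • s (g • τ)).im) ≤ Real.exp (2 * π * d * τ.im) := by
    apply Real.exp_le_exp.mpr
    have := Real.pi_pos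
    nlinarith
  calc C * Real.exp (2 * π * (γ • s (g • τ)).im)
      ≤ |C| * Real.exp (2 * π * (γ • s (g • τ)).im) := by
        gcongr
        exact le_abs_self C
    _ ≤ |C| * Real.exp (2 * π * d * τ.im) := by gcongr

/-- `τ ↦ J (d τ)` is holomorphic. -/
lemma mdifferentiable_J_scale (hJ : MDifferentiable 𝓘(ℂ) 𝓘(ℂ) J)
    (d : ℕ) (hd : 0 < d) (s : ℍ → ℍ) (hs : ∀ τ : ℍ, (s τ : ℂ) = d * τ) :
    MDifferentiable 𝓘(ℂ) 𝓘(ℂ) (fun τ => J (s τ)) := by
  rw [UpperHalfPlane.mdifferentiable_iff] at hJ ⊢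
  have hmaps : Set.MapsTo (fun z : ℂ => (d : ℂ) * z) {z | 0 < z.im} {z | 0 < z.im} := by
    intro z hz
    simp only [Set.mem_ofPred_eq] at hz ⊢
    have : ((d : ℂ) * z).im = d * z.im := by simp
    rw [this]
    positivity
  have hcomp : DifferentiableOn ℂ ((J ∘ ofComplex) ∘ fun z : ℂ => (d : ℂ) * z) {z | 0 < z.im} :=
    hJ.comp (by fun_prop) hmaps
  refine hcomp.congr fun z hz => ?_
  simp only [Set.mem_ofPred_eq] at hz
  have hz' : 0 < ((d : ℂ) * z).im := hmaps hz
  simp only [Function.comp_apply]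
  congr 1
  apply UpperHalfPlane.ext
  rw [hs, ofComplex_apply_of_im_pos hz, ofComplex_apply_of_im_pos hz']

/-- For `d ∣ N` and `γ ∈ Γ₀(N)` there is `γ' ∈ SL₂(ℤ)` with `d (γ τ) = γ' (d τ)`. -/
lemma exists_smul_scale_eq {N : ℕ} (d : ℕ) (hd : 0 < d) (hdN : d ∣ N) (γ : SL(2, ℤ))
    (hγ : γ ∈ Gamma0 N) :
    ∃ γ' : SL(2, ℤ), ∀ τ w w' : ℍ, (w : ℂ) = d * τ → (w' : ℂ) = d * ((γ • τ : ℍ) : ℂ) →
      γ' • w = w' := by
  have hN : (N : ℤ) ∣ γ 1 0 := by
    rw [Gamma0_mem] at hγ
    exact (ZMod.intCast_zmod_eq_zero_iff_dvd _ _).mp hγ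
  have hdc : (d : ℤ) ∣ γ 1 0 := (Int.natCast_dvd_natCast.mpr hdN).trans hN
  obtain ⟨k, hk⟩ := hdc
  have hdet : γ 0 0 * γ 1 1 - γ 0 1 * γ 1 0 = 1 := by
    have := γ.det_coe
    rw [Matrix.det_fin_two] at this
    exact this
  have hdet' : (!![γ 0 0, γ 0 1 * d; k, γ 1 1] : Matrix (Fin 2) (Fin 2) ℤ).det = 1 := by
    rw [Matrix.det_fin_two_of]
    rw [hk] at hdet
    linear_combination hdet
  set γ' : SL(2, ℤ) := ⟨!![γ 0 0, γ 0 1 * d; k, γ 1 1], hdet'⟩ with hγ'def
  have e00 : γ' 0 0 = γ 0 0 := rfl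
  have e01 : γ' 0 1 = γ 0 1 * d := rfl
  have e10 : γ' 1 0 = k := rfl
  have e11 : γ' 1 1 = γ 1 1 := rfl
  refine ⟨γ', fun τ w w' hw hw' => ?_⟩
  apply UpperHalfPlane.ext
  rw [hw', coe_specialLinearGroup_apply γ τ, coe_specialLinearGroup_apply γ' w, hw, e00, e01,
    e10, e11]
  simp only [algebraMap_int_eq, Int.coe_castRingHom, Complex.ofReal_intCast]
  have hden : ((γ 1 0 : ℤ) : ℂ) * τ + ((γ 1 1 : ℤ) : ℂ) ≠ 0 := by
    have := denom_ne_zero (γ : GL (Fin 2) ℝ) τ
    simpa [denom] using this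
  have hd0 : (d : ℂ) ≠ 0 := by exact_mod_cast hd.ne'
  have hk' : ((γ 1 0 : ℤ) : ℂ) = d * k := by rw [hk]; push_cast; ring
  have hden' : (k : ℂ) * (d * τ) + ((γ 1 1 : ℤ) : ℂ) ≠ 0 := by
    have : (k : ℂ) * (d * τ) + ((γ 1 1 : ℤ) : ℂ) = ((γ 1 0 : ℤ) : ℂ) * τ + ((γ 1 1 : ℤ) : ℂ) := by
      rw [hk']; ring
    rw [this]; exact hden
  rw [div_eq_iff hden', mul_div_assoc', div_mul_eq_mul_div, eq_div_iff hden, hk']
  push_cast
  ring

variable (N : ℕ)

/-- **`τ ↦ J (d τ)` is a good function of level `N` for `d ∣ N`.** -/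
theorem J_scale_mem_goodRing (hJ : MDifferentiable 𝓘(ℂ) 𝓘(ℂ) J)
    (hJinv : ∀ (γ : SL(2, ℤ)) (τ : ℍ), J (γ • τ) = J τ)
    (hJfd : ∃ C : ℝ, ∀ τ : ℍ, τ ∈ 𝒟 → ‖J τ‖ ≤ C * Real.exp (2 * π * τ.im))
    (d : ℕ) (hd : 0 < d) (hdN : d ∣ N) (s : ℍ → ℍ) (hs : ∀ τ : ℍ, (s τ : ℂ) = d * τ) :
    (fun τ => J (s τ)) ∈ goodRing N := by
  refine ⟨mdifferentiable_J_scale hJ d hd s hs, fun γ hγ τ => ?_,
    fun g => expGrowth_J_scale hJinv hJfd d s hs g⟩
  obtain ⟨γ', hγ'⟩ := exists_smul_scale_eq d hd hdN γ hγ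
  show J (s (γ • τ)) = J (s τ)
  rw [← hγ' τ (s τ) (s (γ • τ)) (hs τ) (hs _), hJinv]

end JScale

end Fermat.Agent.S24.H648

end
end
-- ===== PACK-END S24/Deg/H648Height.lean

-- ===== PACK-BEGIN S24/Mod/H708QInf.lean
section



/-!
# S24 / MOD-QINF (helper708): Laurent `q^(1/h)`-expansions at `i∞`

For `h : ℕ`, `h ≠ 0`, we consider functions `f : ℍ → ℂ` which are holomorphic, `h`-periodic and
meromorphic at `i∞` (`f * q_h ^ M` bounded at `i∞` for some `M`, `q_h τ = exp (2 π i τ / h)`).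
They form a subalgebra `merInf h`, and the Laurent expansion in `q_h` is an injective algebra
homomorphism `qexpInf h : merInf h →ₐ[ℂ] LaurentSeries ℂ`.

Everything is over `ℂ`, Mathlib only.
-/

set_option autoImplicit false
set_option linter.unusedSectionVars false

noncomputable section

namespace Fermat.Agent.S24.H708

open Complex Function Filter
open UpperHalfPlane hiding I
open scoped Manifold Real Topology

/-- The local parameter `q_h τ = exp (2 π i τ / h)` at `i∞`, as a function on `ℍ`. -/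
def qh (h : ℕ) : ℍ → ℂ := fun τ => Function.Periodic.qParam (h : ℝ) (τ : ℂ)

lemma qh_apply (h : ℕ) (τ : ℍ) : qh h τ = Function.Periodic.qParam (h : ℝ) (τ : ℂ) := rfl

lemma qh_ne_zero (h : ℕ) (τ : ℍ) : qh h τ ≠ 0 := Function.Periodic.qParam_ne_zero _

lemma qh_pow_ne_zero (h : ℕ) (M : ℕ) (τ : ℍ) : (qh h ^ M) τ ≠ 0 := by
  simpa using pow_ne_zero M (qh_ne_zero h τ)

section basic

variable (h : ℕ) [NeZero h]

lemma hpos : (0 : ℝ) < (h : ℝ) := by exact_mod_cast Nat.pos_of_ne_zero (NeZero.ne h)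

lemma norm_qh_lt_one (τ : ℍ) : ‖qh h τ‖ < 1 :=
  Function.Periodic.norm_qParam_lt_one (hpos h) τ.im_pos

omit [NeZero h] in
lemma mdiff_qh : MDiff (qh h) := by
  rw [UpperHalfPlane.mdifferentiable_iff]
  have hd : DifferentiableOn ℂ (Function.Periodic.qParam (h : ℝ)) {z : ℂ | 0 < z.im} :=
    (Function.Periodic.differentiable_qParam (h := (h : ℝ))).differentiableOn
  refine hd.congr ?_
  intro z hz
  simp only [comp_apply, qh_apply, ofComplex_apply_of_im_pos hz]

lemma periodic_qh : Periodic (qh h ∘ ofComplex) (h : ℝ) := by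
  intro w
  by_cases hw : 0 < im w
  · have hw' : 0 < im (w + (h : ℝ)) := by simpa using hw
    simp only [comp_apply, qh_apply, ofComplex_apply_of_im_pos hw',
      ofComplex_apply_of_im_pos hw]
    simp only [Function.Periodic.qParam]
    have hh : ((h : ℝ) : ℂ) ≠ 0 := by
      exact_mod_cast (NeZero.ne h)
    rw [show 2 * (π : ℂ) * I * (w + ((h : ℝ) : ℂ)) / ((h : ℝ) : ℂ)
        = 2 * (π : ℂ) * I * w / ((h : ℝ) : ℂ) + 2 * π * I by field_simp]
    rw [Complex.exp_add, Complex.exp_two_pi_mul_I, mul_one]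
  · have hw0 : im w ≤ 0 := not_lt.mp hw
    have hw' : im (w + (h : ℝ)) ≤ 0 := by simpa using hw0
    simp only [comp_apply]
    rw [ofComplex_apply_of_im_nonpos hw', ofComplex_apply_of_im_nonpos hw0]

lemma isBounded_qh : IsBoundedAtImInfty (qh h) := by
  rw [UpperHalfPlane.isBoundedAtImInfty_iff]
  exact ⟨1, 0, fun τ _ => (norm_qh_lt_one h τ).le⟩

end basic

/-- The class of holomorphic `h`-periodic functions bounded at `i∞`. -/
structure IsHolInf (h : ℕ) (f : ℍ → ℂ) : Prop where
  hol : MDiff f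
  per : Periodic (f ∘ ofComplex) (h : ℝ)
  bdd : IsBoundedAtImInfty f

namespace IsHolInf

variable {h : ℕ} {f g : ℍ → ℂ}

lemma mul (hf : IsHolInf h f) (hg : IsHolInf h g) : IsHolInf h (f * g) :=
  ⟨hf.hol.mul hg.hol, hf.per.mul hg.per, hf.bdd.mul hg.bdd⟩

lemma add (hf : IsHolInf h f) (hg : IsHolInf h g) : IsHolInf h (f + g) :=
  ⟨hf.hol.add hg.hol, hf.per.add hg.per, hf.bdd.add hg.bdd⟩

lemma const (h : ℕ) (c : ℂ) : IsHolInf h (fun _ => c) :=
  ⟨mdifferentiable_const, fun _ => rfl, Filter.const_boundedAtFilter _ c⟩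

lemma one (h : ℕ) : IsHolInf h (1 : ℍ → ℂ) := const h 1

lemma qh (h : ℕ) [NeZero h] : IsHolInf h (_root_.Fermat.Agent.S24.H708.qh h) :=
  ⟨mdiff_qh h, periodic_qh h, isBounded_qh h⟩

lemma pow (hf : IsHolInf h f) (n : ℕ) : IsHolInf h (f ^ n) := by
  induction n with
  | zero => simpa using one h
  | succ n ih => rw [pow_succ]; exact ih.mul hf

lemma analyticAt [NeZero h] (hf : IsHolInf h f) : AnalyticAt ℂ (cuspFunction (h : ℝ) f) 0 :=
  analyticAt_cuspFunction_zero (hpos h) hf.per hf.hol hf.bdd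

lemma qExpansion_mul [NeZero h] (hf : IsHolInf h f) (hg : IsHolInf h g) :
    qExpansion (h : ℝ) (f * g) = qExpansion (h : ℝ) f * qExpansion (h : ℝ) g :=
  UpperHalfPlane.qExpansion_mul hf.analyticAt hg.analyticAt

lemma qExpansion_add [NeZero h] (hf : IsHolInf h f) (hg : IsHolInf h g) :
    qExpansion (h : ℝ) (f + g) = qExpansion (h : ℝ) f + qExpansion (h : ℝ) g :=
  UpperHalfPlane.qExpansion_add hf.analyticAt hg.analyticAt

lemma hasSum [NeZero h] (hf : IsHolInf h f) (τ : ℍ) :
    HasSum (fun m : ℕ => (qExpansion (h : ℝ) f).coeff m * H708.qh h τ ^ m) (f τ) := by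
  simpa [smul_eq_mul, qh_apply] using hasSum_qExpansion (hpos h) hf.per hf.hol hf.bdd τ

lemma qExpansion_eq_zero_iff [NeZero h] (hf : IsHolInf h f) :
    qExpansion (h : ℝ) f = 0 ↔ f = 0 :=
  UpperHalfPlane.qExpansion_eq_zero_iff (hpos h) hf.per hf.hol hf.bdd

end IsHolInf


section qExpansion_qh

variable (h : ℕ) [NeZero h]

omit [NeZero h] in
/-- `UpperHalfPlane.qExpansion_coeff_unique` for plain functions. -/
lemma qExpansion_coeff_unique_fun {g : ℍ → ℂ} (hh : (0 : ℝ) < (h : ℝ)) (hcont : Continuous g)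
    {c : ℕ → ℂ} (hg : AnalyticAt ℂ (cuspFunction (h : ℝ) g) 0)
    (hs : ∀ τ : ℍ, HasSum (fun m ↦ c m • Function.Periodic.qParam (h : ℝ) (τ : ℂ) ^ m) (g τ))
    (m : ℕ) : c m = (qExpansion (h : ℝ) g).coeff m :=
  UpperHalfPlane.qExpansion_coeff_unique (ContinuousMap.mk g hcont) hh hg hs m

omit [NeZero h] in
lemma hasSum_qh_aux (τ : ℍ) : HasSum (fun m : ℕ => (if m = 1 then (1 : ℂ) else 0) •
      Function.Periodic.qParam (h : ℝ) (τ : ℂ) ^ m) (qh h τ) := by
  have h1 := hasSum_ite_eq (1 : ℕ) (qh h τ)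
  have h2 : (fun m : ℕ => (if m = 1 then (1 : ℂ) else 0) •
      Function.Periodic.qParam (h : ℝ) (τ : ℂ) ^ m) = fun m : ℕ => if m = 1 then qh h τ else 0 := by
    funext m
    by_cases hm : m = 1
    · subst hm; simp [qh_apply]
    · simp [hm]
  rw [h2]
  exact h1

lemma qExpansion_qh : qExpansion (h : ℝ) (qh h) = PowerSeries.X := by
  ext m
  have h3 := qExpansion_coeff_unique_fun h (hpos h) (mdiff_qh h).continuous
    (IsHolInf.qh h).analyticAt (hasSum_qh_aux h) m
  rw [PowerSeries.coeff_X]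
  exact h3.symm

end qExpansion_qh

/-- `f` is holomorphic on `ℍ`, `h`-periodic, and meromorphic at `i∞`. -/
structure IsMerInf (h : ℕ) (f : ℍ → ℂ) : Prop where
  hol : MDiff f
  per : Periodic (f ∘ ofComplex) (h : ℝ)
  bdd : ∃ M : ℕ, IsBoundedAtImInfty (f * qh h ^ M)

/-- The candidate Laurent expansion of `f` computed with pole order bound `M`. -/
def lau (h : ℕ) (M : ℕ) (f : ℍ → ℂ) : LaurentSeries ℂ :=
  HahnSeries.single (-(M : ℤ)) (1 : ℂ) *
    HahnSeries.ofPowerSeries ℤ ℂ (qExpansion (h : ℝ) (f * qh h ^ M))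

namespace IsMerInf

variable {h : ℕ} {f g : ℍ → ℂ}

lemma isHolInf_mul_pow [NeZero h] (hf : IsMerInf h f) {M : ℕ}
    (hM : IsBoundedAtImInfty (f * qh h ^ M)) : IsHolInf h (f * qh h ^ M) :=
  ⟨hf.hol.mul ((mdiff_qh h).pow M), hf.per.mul ((IsHolInf.qh h).pow M).per, hM⟩

lemma of_isHolInf [NeZero h] (hf : IsHolInf h f) : IsMerInf h f :=
  ⟨hf.hol, hf.per, 0, by simpa using hf.bdd⟩

lemma bdd_succ [NeZero h] {M : ℕ}
    (hM : IsBoundedAtImInfty (f * qh h ^ M)) : IsBoundedAtImInfty (f * qh h ^ (M + 1)) := by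
  rw [pow_succ, ← mul_assoc]
  exact hM.mul (isBounded_qh h)

lemma bdd_of_le [NeZero h] {M M' : ℕ} (hle : M ≤ M')
    (hM : IsBoundedAtImInfty (f * qh h ^ M)) : IsBoundedAtImInfty (f * qh h ^ M') := by
  induction M', hle using Nat.le_induction with
  | base => exact hM
  | succ n _ ih => exact bdd_succ ih

lemma lau_succ [NeZero h] (hf : IsMerInf h f) {M : ℕ}
    (hM : IsBoundedAtImInfty (f * qh h ^ M)) : lau h (M + 1) f = lau h M f := by
  unfold lau
  have h1 : f * qh h ^ (M + 1) = (f * qh h ^ M) * qh h := by rw [pow_succ, mul_assoc]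
  rw [h1, (hf.isHolInf_mul_pow hM).qExpansion_mul (IsHolInf.qh h), qExpansion_qh, map_mul,
    HahnSeries.ofPowerSeries_X, mul_comm (HahnSeries.ofPowerSeries ℤ ℂ _), ← mul_assoc,
    HahnSeries.single_mul_single]
  have h2 : (-((M + 1 : ℕ) : ℤ) + 1) = -(M : ℤ) := by push_cast; ring1
  rw [h2, mul_one]

lemma lau_of_le [NeZero h] (hf : IsMerInf h f) {M M' : ℕ} (hle : M ≤ M')
    (hM : IsBoundedAtImInfty (f * qh h ^ M)) : lau h M' f = lau h M f := by
  induction M', hle using Nat.le_induction with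
  | base => rfl
  | succ n hn ih => rw [hf.lau_succ (bdd_of_le hn hM), ih]

lemma lau_eq [NeZero h] (hf : IsMerInf h f) {M M' : ℕ}
    (hM : IsBoundedAtImInfty (f * qh h ^ M)) (hM' : IsBoundedAtImInfty (f * qh h ^ M')) :
    lau h M f = lau h M' f := by
  rcases le_total M M' with hle | hle
  · exact (hf.lau_of_le hle hM).symm
  · exact hf.lau_of_le hle hM'


lemma mul [NeZero h] (hf : IsMerInf h f) (hg : IsMerInf h g) : IsMerInf h (f * g) := by
  obtain ⟨M, hM⟩ := hf.bdd
  obtain ⟨M', hM'⟩ := hg.bdd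
  refine ⟨hf.hol.mul hg.hol, hf.per.mul hg.per, M + M', ?_⟩
  have : f * g * qh h ^ (M + M') = (f * qh h ^ M) * (g * qh h ^ M') := by
    rw [pow_add]; ring1
  rw [this]
  exact hM.mul hM'

lemma add [NeZero h] (hf : IsMerInf h f) (hg : IsMerInf h g) : IsMerInf h (f + g) := by
  obtain ⟨M, hM⟩ := hf.bdd
  obtain ⟨M', hM'⟩ := hg.bdd
  refine ⟨hf.hol.add hg.hol, hf.per.add hg.per, max M M', ?_⟩
  rw [add_mul]
  exact (bdd_of_le (le_max_left _ _) hM).add (bdd_of_le (le_max_right _ _) hM')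

lemma const (h : ℕ) [NeZero h] (c : ℂ) : IsMerInf h (fun _ => c) :=
  of_isHolInf (IsHolInf.const h c)

lemma one (h : ℕ) [NeZero h] : IsMerInf h (1 : ℍ → ℂ) := const h 1

lemma zero (h : ℕ) [NeZero h] : IsMerInf h (0 : ℍ → ℂ) := const h 0

lemma neg [NeZero h] (hf : IsMerInf h f) : IsMerInf h (-f) := by
  have := (const h (-1)).mul hf
  convert this using 1
  ext τ; simp

lemma sub [NeZero h] (hf : IsMerInf h f) (hg : IsMerInf h g) : IsMerInf h (f - g) := by
  rw [sub_eq_add_neg]; exact hf.add hg.neg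

lemma pow [NeZero h] (hf : IsMerInf h f) (n : ℕ) : IsMerInf h (f ^ n) := by
  induction n with
  | zero => simpa using one h
  | succ n ih => rw [pow_succ]; exact ih.mul hf

end IsMerInf

/-- The Laurent `q_h`-expansion of a function (junk value `0` outside `IsMerInf`). -/
def qexpFun (h : ℕ) (f : ℍ → ℂ) : LaurentSeries ℂ := by
  classical
  exact if hf : IsMerInf h f then lau h hf.bdd.choose f else 0

section qexpFun

variable {h : ℕ} [NeZero h] {f g : ℍ → ℂ}

lemma qexpFun_eq_lau (hf : IsMerInf h f) {M : ℕ} (hM : IsBoundedAtImInfty (f * qh h ^ M)) :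
    qexpFun h f = lau h M f := by
  classical
  rw [qexpFun, dif_pos hf]
  exact hf.lau_eq hf.bdd.choose_spec hM

lemma qexpFun_of_isHolInf (hf : IsHolInf h f) :
    qexpFun h f = HahnSeries.ofPowerSeries ℤ ℂ (qExpansion (h : ℝ) f) := by
  have hb : IsBoundedAtImInfty (f * qh h ^ 0) := by simpa using hf.bdd
  rw [qexpFun_eq_lau (IsMerInf.of_isHolInf hf) hb, lau]
  simp

lemma qexpFun_mul (hf : IsMerInf h f) (hg : IsMerInf h g) :
    qexpFun h (f * g) = qexpFun h f * qexpFun h g := by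
  obtain ⟨M, hM⟩ := hf.bdd
  obtain ⟨M', hM'⟩ := hg.bdd
  have hfg : f * g * qh h ^ (M + M') = (f * qh h ^ M) * (g * qh h ^ M') := by
    rw [pow_add]; ring1
  have hb : IsBoundedAtImInfty (f * g * qh h ^ (M + M')) := by
    rw [hfg]; exact hM.mul hM'
  rw [qexpFun_eq_lau (hf.mul hg) hb, qexpFun_eq_lau hf hM, qexpFun_eq_lau hg hM']
  unfold lau
  rw [hfg, (hf.isHolInf_mul_pow hM).qExpansion_mul (hg.isHolInf_mul_pow hM'), map_mul]
  have hs : (HahnSeries.single (-((M + M' : ℕ) : ℤ)) (1 : ℂ) : LaurentSeries ℂ)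
      = HahnSeries.single (-(M : ℤ)) 1 * HahnSeries.single (-(M' : ℤ)) 1 := by
    rw [HahnSeries.single_mul_single, mul_one]
    have h2 : (-((M + M' : ℕ) : ℤ)) = -(M : ℤ) + -(M' : ℤ) := by push_cast; ring1
    rw [h2]
  rw [hs]
  ring1

lemma qexpFun_add (hf : IsMerInf h f) (hg : IsMerInf h g) :
    qexpFun h (f + g) = qexpFun h f + qexpFun h g := by
  obtain ⟨M, hM⟩ := hf.bdd
  obtain ⟨M', hM'⟩ := hg.bdd
  have hM1 := IsMerInf.bdd_of_le (le_max_left M M') hM
  have hM2 := IsMerInf.bdd_of_le (le_max_right M M') hM'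
  have hb : IsBoundedAtImInfty ((f + g) * qh h ^ (max M M')) := by
    rw [add_mul]; exact hM1.add hM2
  rw [qexpFun_eq_lau (hf.add hg) hb, qexpFun_eq_lau hf hM1, qexpFun_eq_lau hg hM2]
  unfold lau
  rw [add_mul, (hf.isHolInf_mul_pow hM1).qExpansion_add (hg.isHolInf_mul_pow hM2), map_add,
    mul_add]

lemma qExpansion_const (h : ℕ) [NeZero h] (c : ℂ) :
    qExpansion (h : ℝ) (fun _ : ℍ => c) = PowerSeries.C c := by
  have h1 : (fun _ : ℍ => c) = c • (1 : ℍ → ℂ) := by
    ext τ; simp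
  rw [h1, UpperHalfPlane.qExpansion_smul (IsHolInf.one h).analyticAt, qExpansion_one]
  ext n
  simp [PowerSeries.coeff_C, PowerSeries.coeff_one]

lemma qexpFun_const (h : ℕ) [NeZero h] (c : ℂ) :
    qexpFun h (fun _ : ℍ => c) = HahnSeries.C c := by
  rw [qexpFun_of_isHolInf (IsHolInf.const h c), qExpansion_const, HahnSeries.ofPowerSeries_C]

lemma qexpFun_eq_zero_iff (hf : IsMerInf h f) : qexpFun h f = 0 ↔ f = 0 := by
  obtain ⟨M, hM⟩ := hf.bdd
  rw [qexpFun_eq_lau hf hM, lau]
  have hne : (HahnSeries.single (-(M : ℤ)) (1 : ℂ) : LaurentSeries ℂ) ≠ 0 := by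
    simp
  rw [mul_eq_zero, or_iff_right hne, map_eq_zero_iff _ HahnSeries.ofPowerSeries_injective,
    (hf.isHolInf_mul_pow hM).qExpansion_eq_zero_iff]
  constructor
  · intro h0
    ext τ
    have := congrFun h0 τ
    simp only [Pi.mul_apply, Pi.zero_apply, mul_eq_zero] at this
    exact this.resolve_right (qh_pow_ne_zero h M τ)
  · rintro rfl; simp

end qexpFun

/-- The algebra of holomorphic `h`-periodic functions on `ℍ`, meromorphic at `i∞`. -/
def merInf (h : ℕ) [NeZero h] : Subalgebra ℂ (ℍ → ℂ) where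
  carrier := {f | IsMerInf h f}
  mul_mem' := fun hf hg => IsMerInf.mul hf hg
  add_mem' := fun hf hg => IsMerInf.add hf hg
  algebraMap_mem' := fun c => IsMerInf.const h c

lemma mem_merInf {h : ℕ} [NeZero h] {f : ℍ → ℂ} : f ∈ merInf h ↔ IsMerInf h f := Iff.rfl

/-- The Laurent expansion in `q_h = exp (2 π i τ / h)` at `i∞`. -/
def qexpInf (h : ℕ) [NeZero h] : merInf h →ₐ[ℂ] LaurentSeries ℂ where
  toFun f := qexpFun h (f : ℍ → ℂ)
  map_one' := by
    show qexpFun h (1 : ℍ → ℂ) = 1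
    have := qexpFun_const h (1 : ℂ)
    rw [show (1 : ℍ → ℂ) = fun _ => (1 : ℂ) from rfl, this]
    simp
  map_mul' f g := qexpFun_mul f.2 g.2
  map_zero' := by
    show qexpFun h (0 : ℍ → ℂ) = 0
    exact (qexpFun_eq_zero_iff (IsMerInf.zero h)).mpr rfl
  map_add' f g := qexpFun_add f.2 g.2
  commutes' c := by
    show qexpFun h (fun _ : ℍ => c) = algebraMap ℂ (LaurentSeries ℂ) c
    rw [qexpFun_const]
    have h1 : algebraMap ℂ (PowerSeries ℂ) c = PowerSeries.C c := by simp
    rw [HahnSeries.algebraMap_apply', h1, HahnSeries.ofPowerSeries_C]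

lemma qexpInf_apply {h : ℕ} [NeZero h] (f : merInf h) : qexpInf h f = qexpFun h (f : ℍ → ℂ) := rfl

lemma qexpInf_injective (h : ℕ) [NeZero h] : Function.Injective (qexpInf h) := by
  rw [injective_iff_map_eq_zero]
  intro f hf
  have := (qexpFun_eq_zero_iff f.2).mp hf
  exact Subtype.ext this


/-! ### Convergence of the Laurent expansion and uniqueness -/

section hasSum

/-- Reindexing a Laurent-type sum over `ℤ` (vanishing below `-M`) as a sum over `ℕ`. -/
lemma hasSum_int_iff_nat (φ : ℤ → ℂ) (M : ℕ) (hφ : ∀ n : ℤ, n < -(M : ℤ) → φ n = 0)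
    (x : ℂ) (hx : x ≠ 0) (s : ℂ) :
    HasSum (fun n : ℤ => φ n * x ^ n) s ↔
      HasSum (fun m : ℕ => φ ((m : ℤ) - M) * x ^ m) (s * x ^ M) := by
  have hinj : Function.Injective (fun m : ℕ => (m : ℤ) - (M : ℤ)) := by
    intro a b hab
    simp only [sub_left_inj] at hab
    exact_mod_cast hab
  have hrange : ∀ n : ℤ, n ∉ Set.range (fun m : ℕ => (m : ℤ) - (M : ℤ)) →
      (fun n : ℤ => φ n * x ^ n) n = 0 := by
    intro n hn
    have hlt : n < -(M : ℤ) := by
      by_contra hge
      rw [not_lt] at hge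
      apply hn
      refine ⟨(n + M).toNat, ?_⟩
      simp only
      rw [Int.toNat_of_nonneg (by omega)]
      ring
    simp [hφ n hlt]
  rw [← hinj.hasSum_iff hrange]
  have hxM : x ^ M ≠ 0 := pow_ne_zero M hx
  rw [← hasSum_mul_right_iff hxM]
  have hfun : (fun i : ℕ => ((fun n : ℤ => φ n * x ^ n) ∘ fun m : ℕ => (m : ℤ) - (M : ℤ)) i * x ^ M)
      = fun m : ℕ => φ ((m : ℤ) - M) * x ^ m := by
    funext m
    simp only [comp_apply]
    rw [zpow_sub₀ hx, zpow_natCast, zpow_natCast]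
    field_simp
  rw [hfun]

variable {h : ℕ} [NeZero h] {f : ℍ → ℂ}

lemma lau_coeff (M : ℕ) (f : ℍ → ℂ) (n : ℤ) :
    (lau h M f).coeff n = (HahnSeries.ofPowerSeries ℤ ℂ
      (qExpansion (h : ℝ) (f * qh h ^ M))).coeff (n + M) := by
  rw [lau, HahnSeries.coeff_single_mul, one_mul, sub_neg_eq_add]

lemma lau_coeff_of_lt (M : ℕ) (f : ℍ → ℂ) {n : ℤ} (hn : n < -(M : ℤ)) :
    (lau h M f).coeff n = 0 := by
  rw [lau_coeff, PowerSeries.coeff_coe, if_pos (by omega)]

lemma lau_coeff_natCast_sub (M : ℕ) (f : ℍ → ℂ) (m : ℕ) :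
    (lau h M f).coeff ((m : ℤ) - M) = (qExpansion (h : ℝ) (f * qh h ^ M)).coeff m := by
  rw [lau_coeff, sub_add_cancel, HahnSeries.ofPowerSeries_apply_coeff]

/-- The Laurent expansion converges to `f` on all of `ℍ`. -/
theorem hasSum_qexpFun (hf : IsMerInf h f) (τ : ℍ) :
    HasSum (fun n : ℤ => (qexpFun h f).coeff n * qh h τ ^ n) (f τ) := by
  obtain ⟨M, hM⟩ := hf.bdd
  rw [qexpFun_eq_lau hf hM,
    hasSum_int_iff_nat _ M (fun n hn => lau_coeff_of_lt M f hn) _ (qh_ne_zero h τ)]
  have := (hf.isHolInf_mul_pow hM).hasSum τ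
  simpa [lau_coeff_natCast_sub] using this

/-- If a Laurent series converges to a holomorphic `f` on all of `ℍ`, then `f` is `h`-periodic
and meromorphic at `i∞`. -/
theorem IsMerInf.of_hasSum (hol : MDiff f) (φ : LaurentSeries ℂ)
    (hs : ∀ τ : ℍ, HasSum (fun n : ℤ => φ.coeff n * qh h τ ^ n) (f τ)) : IsMerInf h f := by
  refine ⟨hol, ?_, ?_⟩
  · intro w
    by_cases hw : 0 < im w
    · have hw' : 0 < im (w + (h : ℝ)) := by simpa using hw
      have hq : qh h (ofComplex (w + (h : ℝ))) = qh h (ofComplex w) := periodic_qh h w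
      have h1 := hs (ofComplex (w + (h : ℝ)))
      rw [hq] at h1
      exact h1.unique (hs (ofComplex w))
    · have hw0 : im w ≤ 0 := not_lt.mp hw
      have hw' : im (w + (h : ℝ)) ≤ 0 := by simpa using hw0
      simp only [comp_apply]
      rw [ofComplex_apply_of_im_nonpos hw', ofComplex_apply_of_im_nonpos hw0]
  · refine ⟨(-φ.order).toNat, ?_⟩
    set M := (-φ.order).toNat with hMdef
    have hφ : ∀ n : ℤ, n < -(M : ℤ) → φ.coeff n = 0 := by
      intro n hn
      apply HahnSeries.coeff_eq_zero_of_lt_order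
      have : -φ.order ≤ (M : ℤ) := by rw [hMdef]; exact Int.self_le_toNat _
      omega
    have hs' : ∀ τ : ℍ, HasSum (fun m : ℕ => φ.coeff ((m : ℤ) - M) •
        Function.Periodic.qParam (h : ℝ) (τ : ℂ) ^ m) ((f * qh h ^ M) τ) := by
      intro τ
      have := (hasSum_int_iff_nat _ M hφ _ (qh_ne_zero h τ) _).mp (hs τ)
      simpa [smul_eq_mul, qh_apply] using this
    exact isBoundedAtImInfty_of_hasSum_qExpansion (hpos h) hs'

/-- Uniqueness of the Laurent expansion. -/
theorem qexpFun_eq_of_hasSum (hol : MDiff f) (φ : LaurentSeries ℂ)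
    (hs : ∀ τ : ℍ, HasSum (fun n : ℤ => φ.coeff n * qh h τ ^ n) (f τ)) : qexpFun h f = φ := by
  have hf := IsMerInf.of_hasSum hol φ hs
  obtain ⟨M₀, hM₀⟩ := hf.bdd
  set M := max M₀ (-φ.order).toNat with hMdef
  have hM : IsBoundedAtImInfty (f * qh h ^ M) := IsMerInf.bdd_of_le (le_max_left _ _) hM₀
  have hφ : ∀ n : ℤ, n < -(M : ℤ) → φ.coeff n = 0 := by
    intro n hn
    apply HahnSeries.coeff_eq_zero_of_lt_order
    have h1 : -φ.order ≤ ((-φ.order).toNat : ℤ) := Int.self_le_toNat _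
    have h2 : ((-φ.order).toNat : ℤ) ≤ (M : ℤ) := by
      exact_mod_cast le_max_right M₀ (-φ.order).toNat
    omega
  have hs' : ∀ τ : ℍ, HasSum (fun m : ℕ => φ.coeff ((m : ℤ) - M) •
      Function.Periodic.qParam (h : ℝ) (τ : ℂ) ^ m) ((f * qh h ^ M) τ) := by
    intro τ
    have := (hasSum_int_iff_nat _ M hφ _ (qh_ne_zero h τ) _).mp (hs τ)
    simpa [smul_eq_mul, qh_apply] using this
  have hco := qExpansion_coeff_unique_fun h (hpos h)
    (hf.isHolInf_mul_pow hM).hol.continuous (hf.isHolInf_mul_pow hM).analyticAt hs'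
  rw [qexpFun_eq_lau hf hM]
  ext n
  by_cases hn : n < -(M : ℤ)
  · rw [lau_coeff_of_lt M f hn, hφ n hn]
  · rw [not_lt] at hn
    obtain ⟨m, rfl⟩ : ∃ m : ℕ, n = (m : ℤ) - M := ⟨(n + M).toNat, by
      rw [Int.toNat_of_nonneg (by omega)]; ring⟩
    rw [lau_coeff_natCast_sub, ← hco m]

end hasSum

/-- `HasQExp h f φ`: `f` is holomorphic on `ℍ`, `h`-periodic, meromorphic at `i∞` and `φ` is its
Laurent expansion in `q_h = exp (2 π i τ / h)`. -/
def HasQExp (h : ℕ) (f : ℍ → ℂ) (φ : LaurentSeries ℂ) : Prop :=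
  IsMerInf h f ∧ qexpFun h f = φ

namespace HasQExp

variable {h : ℕ} [NeZero h] {f g : ℍ → ℂ} {φ ψ : LaurentSeries ℂ}

lemma isMerInf (hf : HasQExp h f φ) : IsMerInf h f := hf.1

lemma qexpFun_eq (hf : HasQExp h f φ) : qexpFun h f = φ := hf.2

lemma mdiff (hf : HasQExp h f φ) : MDiff f := hf.1.hol

lemma of_isMerInf (hf : IsMerInf h f) : HasQExp h f (qexpFun h f) := ⟨hf, rfl⟩

lemma hasSum (hf : HasQExp h f φ) (τ : ℍ) :
    HasSum (fun n : ℤ => φ.coeff n * qh h τ ^ n) (f τ) := by
  have := hasSum_qexpFun hf.1 τ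
  rwa [hf.2] at this

lemma of_hasSum (hol : MDiff f)
    (hs : ∀ τ : ℍ, HasSum (fun n : ℤ => φ.coeff n * qh h τ ^ n) (f τ)) : HasQExp h f φ :=
  ⟨IsMerInf.of_hasSum hol φ hs, qexpFun_eq_of_hasSum hol φ hs⟩

lemma iff_hasSum (hol : MDiff f) :
    HasQExp h f φ ↔ ∀ τ : ℍ, HasSum (fun n : ℤ => φ.coeff n * qh h τ ^ n) (f τ) :=
  ⟨fun hf => hf.hasSum, of_hasSum hol⟩

lemma mul (hf : HasQExp h f φ) (hg : HasQExp h g ψ) : HasQExp h (f * g) (φ * ψ) :=
  ⟨hf.1.mul hg.1, by rw [qexpFun_mul hf.1 hg.1, hf.2, hg.2]⟩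

lemma add (hf : HasQExp h f φ) (hg : HasQExp h g ψ) : HasQExp h (f + g) (φ + ψ) :=
  ⟨hf.1.add hg.1, by rw [qexpFun_add hf.1 hg.1, hf.2, hg.2]⟩

lemma const (h : ℕ) [NeZero h] (c : ℂ) : HasQExp h (fun _ => c) (HahnSeries.C c) :=
  ⟨IsMerInf.const h c, qexpFun_const h c⟩

lemma one (h : ℕ) [NeZero h] : HasQExp h (1 : ℍ → ℂ) 1 := by
  have := const h 1
  rwa [map_one] at this

lemma zero (h : ℕ) [NeZero h] : HasQExp h (0 : ℍ → ℂ) 0 := by
  have := const h 0
  rwa [map_zero] at this

lemma neg (hf : HasQExp h f φ) : HasQExp h (-f) (-φ) := by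
  have := (const h (-1)).mul hf
  have e1 : (fun _ : ℍ => (-1 : ℂ)) * f = -f := by ext τ; simp
  have e2 : (HahnSeries.C (-1 : ℂ) : LaurentSeries ℂ) * φ = -φ := by
    rw [map_neg, map_one, neg_one_mul]
  rwa [e1, e2] at this

lemma sub (hf : HasQExp h f φ) (hg : HasQExp h g ψ) : HasQExp h (f - g) (φ - ψ) := by
  rw [sub_eq_add_neg, sub_eq_add_neg]; exact hf.add hg.neg

lemma pow (hf : HasQExp h f φ) (n : ℕ) : HasQExp h (f ^ n) (φ ^ n) := by
  induction n with
  | zero => simpa using one h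
  | succ n ih => rw [pow_succ, pow_succ]; exact ih.mul hf

/-- The expansion determines the function. -/
lemma eq_of_eq (hf : HasQExp h f φ) (hg : HasQExp h g φ) : f = g := by
  ext τ
  exact (hf.hasSum τ).unique (hg.hasSum τ)

/-- The function determines the expansion. -/
lemma unique (hf : HasQExp h f φ) (hg : HasQExp h f ψ) : φ = ψ := hf.2.symm.trans hg.2

lemma eq_zero_iff (hf : HasQExp h f φ) : φ = 0 ↔ f = 0 := by
  rw [← hf.2]; exact qexpFun_eq_zero_iff hf.1

lemma qexpInf_eq (hf : HasQExp h f φ) : qexpInf h ⟨f, hf.1⟩ = φ := hf.2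

end HasQExp

lemma hasQExp_qh (h : ℕ) [NeZero h] : HasQExp h (qh h) (HahnSeries.single 1 1) := by
  refine ⟨IsMerInf.of_isHolInf (IsHolInf.qh h), ?_⟩
  rw [qexpFun_of_isHolInf (IsHolInf.qh h), qExpansion_qh, HahnSeries.ofPowerSeries_X]

end Fermat.Agent.S24.H708

end
end
-- ===== PACK-END S24/Mod/H708QInf.lean

-- ===== PACK-BEGIN S18/H558/Cech.lean
section






/-!
# S18 / piece b5: connectedness via a two-chart Cech argument (pure algebra, Mathlib only)

Setting: `A` a commutative ring, `w : A`, `B` a commutative `A`-algebra ("`B_mid`"),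
`Bfin Binf : Subalgebra A B` the two charts.

* `lift_idem_mod_pow` : an idempotent modulo `w` lifts to an idempotent modulo `w ^ n`.
* `idem_congr_mod_pow` : two idempotents modulo `w ^ n` that agree modulo `w` agree modulo `w ^ n`.
* `cech_idempotent_trivial` : if the `w`-power torsion of `B / (Bfin + Binf)` is killed by `w ^ c`,
  `Bfin ∩ Binf = A`, `A / w → Bfin / w` is injective and `(w)` is prime in `A`, then every
  compatible pair of idempotents of `Bfin / w`, `Binf / w` is `(0,0)` or `(1,1)`.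
* `exists_torsion_bound` : over a noetherian ring, a f.g. module has bounded `w`-power torsion.
-/

namespace Fermat.Agent.S18.H558

section Idem

variable {R : Type*} [CommRing R]

/-- An idempotent modulo `w` lifts to an idempotent modulo `w ^ n`. -/
theorem lift_idem_mod_pow (w e : R) (he : e ^ 2 - e ∈ Ideal.span {w}) (n : ℕ) :
    ∃ f : R, f - e ∈ Ideal.span {w} ∧ f ^ 2 - f ∈ Ideal.span {w ^ n} := by
  rcases Nat.eq_zero_or_pos n with rfl | hn
  · exact ⟨e, by simp, by simp⟩
  have hle : Ideal.span {w ^ n} ≤ Ideal.span {w} := by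
    rw [Ideal.span_singleton_le_span_singleton]
    exact dvd_pow_self w hn.ne'
  let φ : R ⧸ Ideal.span {w ^ n} →+* R ⧸ Ideal.span {w} := Ideal.Quotient.factor hle
  have hφ : ∀ x : R, φ (Ideal.Quotient.mk _ x) = Ideal.Quotient.mk _ x := fun x => rfl
  have hker : ∀ x ∈ RingHom.ker φ, IsNilpotent x := by
    intro x hx
    obtain ⟨r, rfl⟩ := Ideal.Quotient.mk_surjective x
    rw [RingHom.mem_ker, hφ, Ideal.Quotient.eq_zero_iff_mem, Ideal.mem_span_singleton] at hx
    obtain ⟨s, rfl⟩ := hx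
    refine ⟨n, ?_⟩
    rw [← map_pow, Ideal.Quotient.eq_zero_iff_mem, Ideal.mem_span_singleton, mul_pow]
    exact Dvd.intro _ rfl
  have hid : IsIdempotentElem (Ideal.Quotient.mk (Ideal.span {w}) e) := by
    have : Ideal.Quotient.mk (Ideal.span {w}) (e ^ 2 - e) = 0 :=
      Ideal.Quotient.eq_zero_iff_mem.2 he
    rw [map_sub, sub_eq_zero, map_pow, pow_two] at this
    exact this
  obtain ⟨e', he', hφe'⟩ := exists_isIdempotentElem_eq_of_ker_isNilpotent φ hker
    (Ideal.Quotient.mk _ e) ⟨Ideal.Quotient.mk _ e, hφ e⟩ hid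
  obtain ⟨f, rfl⟩ := Ideal.Quotient.mk_surjective e'
  refine ⟨f, ?_, ?_⟩
  · rw [hφ] at hφe'
    rw [← Ideal.Quotient.eq_zero_iff_mem, map_sub, hφe', sub_self]
  · rw [← Ideal.Quotient.eq_zero_iff_mem, map_sub, map_pow, pow_two, he'.eq, sub_self]

/-- Two idempotents modulo `w ^ n` which agree modulo `w` agree modulo `w ^ n`. -/
theorem idem_congr_mod_pow (w f g : R) (n : ℕ)
    (hf : f ^ 2 - f ∈ Ideal.span {w ^ n}) (hg : g ^ 2 - g ∈ Ideal.span {w ^ n})
    (hfg : f - g ∈ Ideal.span {w}) : f - g ∈ Ideal.span {w ^ n} := by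
  have hf' : IsIdempotentElem (Ideal.Quotient.mk (Ideal.span {w ^ n}) f) := by
    have := Ideal.Quotient.eq_zero_iff_mem.2 hf
    rw [map_sub, sub_eq_zero, map_pow, pow_two] at this
    exact this
  have hg' : IsIdempotentElem (Ideal.Quotient.mk (Ideal.span {w ^ n}) g) := by
    have := Ideal.Quotient.eq_zero_iff_mem.2 hg
    rw [map_sub, sub_eq_zero, map_pow, pow_two] at this
    exact this
  have hnil : IsNilpotent (Ideal.Quotient.mk (Ideal.span {w ^ n}) f -
      Ideal.Quotient.mk (Ideal.span {w ^ n}) g) := by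
    rw [Ideal.mem_span_singleton] at hfg
    obtain ⟨s, hs⟩ := hfg
    refine ⟨n, ?_⟩
    rw [← map_sub, ← map_pow, Ideal.Quotient.eq_zero_iff_mem, Ideal.mem_span_singleton, hs, mul_pow]
    exact Dvd.intro _ rfl
  have := eq_of_isNilpotent_sub_of_isIdempotentElem hf' hg' hnil
  rw [← Ideal.Quotient.eq_zero_iff_mem, map_sub, this, sub_self]

end Idem

section Cech

variable {A B : Type*} [CommRing A] [CommRing B] [Algebra A B]

/-- **Two-chart Cech connectedness lemma.**
`B` plays the role of `B_mid`, `Bfin`, `Binf` are the two charts.  If the `w`-power torsion of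
`B / (Bfin + Binf)` is killed by `w ^ c`, `Bfin ∩ Binf` is (the image of) `A`,
`A / w → Bfin / w` is injective and `(w)` is a prime ideal of `A`, then a pair of elements
`e₁ ∈ Bfin`, `e₂ ∈ Binf`, idempotent modulo `w` in their charts and congruent modulo `w` in `B`,
is congruent to `(0, 0)` or to `(1, 1)` modulo `w`. -/
theorem cech_idempotent_trivial (w : A) (Bfin Binf : Subalgebra A B) (c : ℕ)
    (hH1 : ∀ h : B, algebraMap A B w ^ (c + 1) * h ∈ Bfin.toSubmodule ⊔ Binf.toSubmodule →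
      algebraMap A B w ^ c * h ∈ Bfin.toSubmodule ⊔ Binf.toSubmodule)
    (hH0 : ∀ b : B, b ∈ Bfin → b ∈ Binf → ∃ a : A, algebraMap A B a = b)
    (hinj : ∀ a : A, (∃ t ∈ Bfin, algebraMap A B a = algebraMap A B w * t) → w ∣ a)
    (hprime : ∀ a b : A, w ∣ a * b → w ∣ a ∨ w ∣ b)
    (e₁ e₂ : B) (he₁ : e₁ ∈ Bfin) (he₂ : e₂ ∈ Binf)
    (hi₁ : ∃ t ∈ Bfin, e₁ ^ 2 - e₁ = algebraMap A B w * t)
    (hi₂ : ∃ t ∈ Binf, e₂ ^ 2 - e₂ = algebraMap A B w * t)
    (h₁₂ : ∃ t : B, e₁ - e₂ = algebraMap A B w * t) :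
    ((∃ t ∈ Bfin, e₁ = algebraMap A B w * t) ∧ (∃ t ∈ Binf, e₂ = algebraMap A B w * t)) ∨
    ((∃ t ∈ Bfin, 1 - e₁ = algebraMap A B w * t) ∧ (∃ t ∈ Binf, 1 - e₂ = algebraMap A B w * t)) := by
  set W : B := algebraMap A B w with hW
  -- Step 1: lift in the two charts.
  have key : ∀ (C : Subalgebra A B) (e : B) (he : e ∈ C)
      (hi : ∃ t ∈ C, e ^ 2 - e = W * t),
      ∃ f ∈ C, (∃ t ∈ C, f - e = W * t) ∧ ∃ t ∈ C, f ^ 2 - f = W ^ (c + 1) * t := by
    intro C e he hi
    obtain ⟨t, ht, hte⟩ := hi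
    have hw' : (⟨e, he⟩ : C) ^ 2 - ⟨e, he⟩ ∈ Ideal.span {algebraMap A C w} := by
      rw [Ideal.mem_span_singleton]
      refine ⟨⟨t, ht⟩, Subtype.ext ?_⟩
      simpa using hte
    obtain ⟨f, hf1, hf2⟩ := lift_idem_mod_pow (algebraMap A C w) ⟨e, he⟩ hw' (c + 1)
    rw [Ideal.mem_span_singleton] at hf1 hf2
    obtain ⟨s1, hs1⟩ := hf1
    obtain ⟨s2, hs2⟩ := hf2
    refine ⟨f, f.2, ⟨s1, s1.2, ?_⟩, ⟨s2, s2.2, ?_⟩⟩
    · simpa using congrArg Subtype.val hs1
    · simpa using congrArg Subtype.val hs2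
  obtain ⟨f, hfC, ⟨s₁, hs₁C, hs₁⟩, ⟨u₁, hu₁C, hu₁⟩⟩ := key Bfin e₁ he₁ hi₁
  obtain ⟨g, hgC, ⟨s₂, hs₂C, hs₂⟩, ⟨u₂, hu₂C, hu₂⟩⟩ := key Binf e₂ he₂ hi₂
  -- Step 2: compare in `B`.
  obtain ⟨t₁₂, ht₁₂⟩ := h₁₂
  have hfg : f - g ∈ Ideal.span {W ^ (c + 1)} := by
    refine idem_congr_mod_pow W f g (c + 1) ?_ ?_ ?_
    · rw [Ideal.mem_span_singleton]; exact ⟨u₁, hu₁⟩
    · rw [Ideal.mem_span_singleton]; exact ⟨u₂, hu₂⟩
    · rw [Ideal.mem_span_singleton]
      refine ⟨s₁ + t₁₂ - s₂, ?_⟩
      have : f - g = (f - e₁) + (e₁ - e₂) - (g - e₂) := by ring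
      rw [this, hs₁, ht₁₂, hs₂]; ring
  rw [Ideal.mem_span_singleton] at hfg
  obtain ⟨h, hh⟩ := hfg
  -- Step 3: kill the obstruction.
  have hmem : W ^ (c + 1) * h ∈ Bfin.toSubmodule ⊔ Binf.toSubmodule := by
    rw [← hh]
    exact Submodule.sub_mem _ (Submodule.mem_sup_left hfC) (Submodule.mem_sup_right hgC)
  obtain ⟨f', hf'C, g', hg'C, hfg'⟩ := Submodule.mem_sup.1 (hH1 h hmem)
  have hf'C' : f' ∈ Bfin := hf'C
  have hg'C' : g' ∈ Binf := hg'C
  have hWfin : W ∈ Bfin := Bfin.algebraMap_mem w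
  have hWinf : W ∈ Binf := Binf.algebraMap_mem w
  have haeq : f - W * f' = g + W * g' := by
    have h1 : f - g = W * (f' + g') := by
      rw [hh, hfg', pow_succ]; ring
    have : f - W * f' - (g + W * g') = (f - g) - W * (f' + g') := by ring
    rw [← sub_eq_zero, this, h1, sub_self]
  obtain ⟨a, ha⟩ := hH0 (f - W * f') (Bfin.sub_mem hfC (Bfin.mul_mem hWfin hf'C'))
    (by rw [haeq]; exact Binf.add_mem hgC (Binf.mul_mem hWinf hg'C'))
  -- Step 4: `a` is idempotent modulo `w` in `A`.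
  have ha1 : ∃ t ∈ Bfin, algebraMap A B a - e₁ = W * t :=
    ⟨s₁ - f', Bfin.sub_mem hs₁C hf'C', by
      rw [ha]
      have : f - W * f' - e₁ = (f - e₁) - W * f' := by ring
      rw [this, hs₁]; ring⟩
  have ha2 : ∃ t ∈ Binf, algebraMap A B a - e₂ = W * t :=
    ⟨s₂ + g', Binf.add_mem hs₂C hg'C', by
      rw [ha, haeq]
      have : g + W * g' - e₂ = (g - e₂) + W * g' := by ring
      rw [this, hs₂]; ring⟩
  obtain ⟨t₁, ht₁C, ht₁⟩ := ha1
  obtain ⟨t₂, ht₂C, ht₂⟩ := ha2
  obtain ⟨v₁, hv₁C, hv₁⟩ := hi₁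
  have hdvd : w ∣ a * (a - 1) := by
    apply hinj
    refine ⟨v₁ + t₁ * (algebraMap A B a + e₁ - 1), ?_, ?_⟩
    · exact Bfin.add_mem hv₁C (Bfin.mul_mem ht₁C
        (Bfin.sub_mem (Bfin.add_mem (Bfin.algebraMap_mem a) he₁) Bfin.one_mem))
    · have : algebraMap A B (a * (a - 1)) =
          (e₁ ^ 2 - e₁) + (algebraMap A B a - e₁) * (algebraMap A B a + e₁ - 1) := by
        rw [map_mul, map_sub, map_one]; ring
      rw [this, hv₁, ht₁]; ring
  rcases hprime _ _ hdvd with h0 | h1
  · left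
    obtain ⟨b, rfl⟩ := h0
    refine ⟨⟨algebraMap A B b - t₁, Bfin.sub_mem (Bfin.algebraMap_mem b) ht₁C, ?_⟩,
      ⟨algebraMap A B b - t₂, Binf.sub_mem (Binf.algebraMap_mem b) ht₂C, ?_⟩⟩
    · have : e₁ = algebraMap A B (w * b) - (algebraMap A B (w * b) - e₁) := by ring
      rw [this, ht₁, map_mul]; ring
    · have : e₂ = algebraMap A B (w * b) - (algebraMap A B (w * b) - e₂) := by ring
      rw [this, ht₂, map_mul]; ring
  · right
    obtain ⟨b, hb⟩ := h1
    have hab : algebraMap A B a = 1 + W * algebraMap A B b := by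
      have : a = 1 + w * b := by rw [← hb]; ring
      rw [this, map_add, map_one, map_mul]
    refine ⟨⟨t₁ - algebraMap A B b, Bfin.sub_mem ht₁C (Bfin.algebraMap_mem b), ?_⟩,
      ⟨t₂ - algebraMap A B b, Binf.sub_mem ht₂C (Binf.algebraMap_mem b), ?_⟩⟩
    · have : 1 - e₁ = (algebraMap A B a - e₁) - (algebraMap A B a - 1) := by ring
      rw [this, ht₁, hab]; ring
    · have : 1 - e₂ = (algebraMap A B a - e₂) - (algebraMap A B a - 1) := by ring
      rw [this, ht₂, hab]; ring

end Cech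

section Torsion

variable {A M : Type*} [CommRing A] [AddCommGroup M] [Module A M]

/-- Over a noetherian ring, the `w`-power torsion of a finitely generated module is killed by a
single power `w ^ c`. -/
theorem exists_torsion_bound [IsNoetherianRing A] [Module.Finite A M] (w : A) :
    ∃ c : ℕ, ∀ (n : ℕ) (x : M), w ^ n • x = 0 → w ^ c • x = 0 := by
  have hN : IsNoetherian A M := isNoetherian_of_isNoetherianRing_of_finite A M
  let K : ℕ →o Submodule A M :=
    ⟨fun n => LinearMap.ker (LinearMap.lsmul A M (w ^ n)), by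
      intro a b hab x hx
      simp only [LinearMap.mem_ker, LinearMap.lsmul_apply] at hx ⊢
      obtain ⟨d, rfl⟩ := Nat.exists_eq_add_of_le hab
      rw [pow_add, mul_comm, mul_smul, hx, smul_zero]⟩
  have hK : ∀ (n : ℕ) (x : M), x ∈ K n ↔ w ^ n • x = 0 := fun n x => by
    change x ∈ LinearMap.ker (LinearMap.lsmul A M (w ^ n)) ↔ _
    rw [LinearMap.mem_ker, LinearMap.lsmul_apply]
  obtain ⟨c, hc⟩ := monotone_stabilizes_iff_noetherian.2 hN K
  refine ⟨c, fun n x hx => ?_⟩
  rcases le_total n c with hnc | hcn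
  · obtain ⟨d, rfl⟩ := Nat.exists_eq_add_of_le hnc
    rw [pow_add, mul_comm, mul_smul, hx, smul_zero]
  · have h1 : x ∈ K n := (hK n x).2 hx
    have h2 : x ∈ K c := by rw [hc n hcn]; exact h1
    exact (hK c x).1 h2

end Torsion

end Fermat.Agent.S18.H558

end
-- ===== PACK-END S18/H558/Cech.lean

-- ===== PACK-BEGIN S18/H558/CechFG.lean
section




/-!
# S18 / piece b5 (continued): `H¹` of the two-chart cover is finitely generated

`B = B_mid`, `x ∈ B` a unit with inverse `y`, `Bfin ∋ x` finitely generated as a module over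
`A[x]`, `Binf ∋ y`, `B = Bfin[1/x]`, and every generator of `Bfin` lies in `x ^ D • Binf`.
Then `B / (Bfin + Binf)` is a finitely generated `A`-module, hence (for noetherian `A`) its
`w`-power torsion is bounded, which is the hypothesis `hH1` of `cech_idempotent_trivial`.
-/

namespace Fermat.Agent.S18.H558

variable {A B : Type*} [CommRing A] [CommRing B] [Algebra A B]

/-- The two charts together with finitely many explicit elements span `B` over `A`. -/
theorem cech_span_top {ι : Type*} [Finite ι] (x y : B) (hxy : x * y = 1)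
    (Bfin Binf : Subalgebra A B) (hx : x ∈ Bfin) (hy : y ∈ Binf)
    (bs : ι → B) (hbs : ∀ i, bs i ∈ Bfin)
    (hgen : ∀ b ∈ Bfin, b ∈ Submodule.span A {z : B | ∃ (j : ℕ) (i : ι), z = x ^ j * bs i})
    (hloc : ∀ b : B, ∃ K : ℕ, x ^ K * b ∈ Bfin)
    (hinf : ∀ i, ∃ D : ℕ, y ^ D * bs i ∈ Binf) :
    ∃ G : Set B, G.Finite ∧
      Bfin.toSubmodule ⊔ Binf.toSubmodule ⊔ Submodule.span A G = ⊤ := by
  classical
  cases nonempty_fintype ι
  choose Df hDf using hinf
  let D : ℕ := Finset.univ.sup Df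
  have hD : ∀ i, Df i ≤ D := fun i => Finset.le_sup (f := Df) (Finset.mem_univ i)
  let G : Set B := (fun p : ι × ℕ => y ^ p.2 * bs p.1) '' ((Finset.univ ×ˢ Finset.range D : Finset (ι × ℕ)) : Set (ι × ℕ))
  refine ⟨G, (Finset.finite_toSet _).image _, ?_⟩
  set T : Submodule A B := Bfin.toSubmodule ⊔ Binf.toSubmodule ⊔ Submodule.span A G with hT
  have hfinT : ∀ b ∈ Bfin, b ∈ T := fun b hb =>
    Submodule.mem_sup_left (Submodule.mem_sup_left hb)
  have hinfT : ∀ b ∈ Binf, b ∈ T := fun b hb =>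
    Submodule.mem_sup_left (Submodule.mem_sup_right hb)
  have hGT : ∀ b ∈ G, b ∈ T := fun b hb =>
    Submodule.mem_sup_right (Submodule.subset_span hb)
  have hyx : ∀ n : ℕ, y ^ n * x ^ n = 1 := fun n => by
    rw [← mul_pow, mul_comm y x, hxy, one_pow]
  -- the monomials
  have hmono : ∀ (K j : ℕ) (i : ι), y ^ K * (x ^ j * bs i) ∈ T := by
    intro K j i
    rcases le_or_gt K j with hKj | hjK
    · obtain ⟨d, rfl⟩ := Nat.exists_eq_add_of_le hKj
      have : y ^ K * (x ^ (K + d) * bs i) = x ^ d * bs i := by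
        rw [pow_add, ← mul_assoc, ← mul_assoc, hyx, one_mul]
      rw [this]
      exact hfinT _ (Bfin.mul_mem (Bfin.pow_mem hx d) (hbs i))
    · obtain ⟨k, rfl⟩ := Nat.exists_eq_add_of_le hjK.le
      have : y ^ (j + k) * (x ^ j * bs i) = y ^ k * bs i := by
        rw [pow_add, mul_comm (y ^ j) (y ^ k), mul_assoc, ← mul_assoc (y ^ j), hyx, one_mul]
      rw [this]
      rcases le_or_gt (Df i) k with hDk | hkD
      · obtain ⟨d, rfl⟩ := Nat.exists_eq_add_of_le hDk
        have : y ^ (Df i + d) * bs i = y ^ d * (y ^ Df i * bs i) := by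
          rw [pow_add]; ring
        rw [this]
        exact hinfT _ (Binf.mul_mem (Binf.pow_mem hy d) (hDf i))
      · apply hGT
        refine ⟨(i, k), ?_, rfl⟩
        simp only [Finset.coe_product, Finset.coe_univ, Finset.coe_range, Set.mem_prod,
          Set.mem_univ, Set.mem_Iio, true_and]
        exact lt_of_lt_of_le hkD (hD i)
  rw [eq_top_iff]
  rintro b -
  obtain ⟨K, hK⟩ := hloc b
  have hb : b = y ^ K * (x ^ K * b) := by rw [← mul_assoc, hyx, one_mul]
  rw [hb]
  have hspan := hgen _ hK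
  refine Submodule.span_induction (p := fun z _ => y ^ K * z ∈ T) ?_ ?_ ?_ ?_ hspan
  · rintro z ⟨j, i, rfl⟩
    exact hmono K j i
  · simp
  · intro u v _ _ hu hv
    rw [mul_add]
    exact T.add_mem hu hv
  · intro a u _ hu
    rw [mul_smul_comm]
    exact T.smul_mem a hu

/-- Bounded `w`-power torsion of `B / (Bfin + Binf)` from finite generation, for noetherian `A`. -/
theorem cech_h1_bound [IsNoetherianRing A] (w : A) (Bfin Binf : Subalgebra A B)
    (G : Set B) (hG : G.Finite)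
    (htop : Bfin.toSubmodule ⊔ Binf.toSubmodule ⊔ Submodule.span A G = ⊤) :
    ∃ c : ℕ, ∀ (n : ℕ) (h : B),
      algebraMap A B w ^ n * h ∈ Bfin.toSubmodule ⊔ Binf.toSubmodule →
      algebraMap A B w ^ c * h ∈ Bfin.toSubmodule ⊔ Binf.toSubmodule := by
  set S : Submodule A B := Bfin.toSubmodule ⊔ Binf.toSubmodule with hS
  have hfinG : Module.Finite A (Submodule.span A G) := Module.Finite.span_of_finite A hG
  let φ : Submodule.span A G →ₗ[A] B ⧸ S := S.mkQ.comp (Submodule.span A G).subtype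
  have hφ : Function.Surjective φ := by
    intro m
    obtain ⟨b, rfl⟩ := S.mkQ_surjective m
    have hb : b ∈ S ⊔ Submodule.span A G := by rw [htop]; trivial
    obtain ⟨s, hs, g, hg, rfl⟩ := Submodule.mem_sup.1 hb
    refine ⟨⟨g, hg⟩, ?_⟩
    change S.mkQ g = S.mkQ (s + g)
    have hs0 : S.mkQ s = 0 := (Submodule.Quotient.mk_eq_zero S).2 hs
    rw [map_add, hs0, zero_add]
  have hfinQ : Module.Finite A (B ⧸ S) := Module.Finite.of_surjective φ hφ
  obtain ⟨c, hc⟩ := exists_torsion_bound (A := A) (M := B ⧸ S) w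
  refine ⟨c, fun n h hn => ?_⟩
  have e : ∀ k : ℕ, algebraMap A B w ^ k * h = w ^ k • h := fun k => by
    rw [Algebra.smul_def, map_pow]
  rw [e] at hn ⊢
  have h1 : w ^ n • (S.mkQ h) = 0 := by
    rw [← map_smul]
    exact (Submodule.Quotient.mk_eq_zero S).2 hn
  have h2 := hc n _ h1
  rw [← map_smul] at h2
  exact (Submodule.Quotient.mk_eq_zero S).1 h2

/-- **Connectedness of the two-chart model (piece b5).**  Packaged form:
noetherian base `A`, `(w)` prime in `A`, two charts `Bfin ∋ x`, `Binf ∋ x⁻¹` of `B = Bfin[1/x]`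
with `Bfin` finite over `A[x]`, `Bfin ∩ Binf = A` and `A / w → Bfin / w` injective.  Then every
compatible pair of idempotents modulo `w` on the two charts is `(0, 0)` or `(1, 1)`. -/
theorem cech_connected [IsNoetherianRing A] {ι : Type*} [Finite ι] (w : A) (x y : B)
    (hxy : x * y = 1) (Bfin Binf : Subalgebra A B) (hx : x ∈ Bfin) (hy : y ∈ Binf)
    (bs : ι → B) (hbs : ∀ i, bs i ∈ Bfin)
    (hgen : ∀ b ∈ Bfin, b ∈ Submodule.span A {z : B | ∃ (j : ℕ) (i : ι), z = x ^ j * bs i})
    (hloc : ∀ b : B, ∃ K : ℕ, x ^ K * b ∈ Bfin)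
    (hinf : ∀ i, ∃ D : ℕ, y ^ D * bs i ∈ Binf)
    (hH0 : ∀ b : B, b ∈ Bfin → b ∈ Binf → ∃ a : A, algebraMap A B a = b)
    (hinj : ∀ a : A, (∃ t ∈ Bfin, algebraMap A B a = algebraMap A B w * t) → w ∣ a)
    (hprime : ∀ a b : A, w ∣ a * b → w ∣ a ∨ w ∣ b)
    (e₁ e₂ : B) (he₁ : e₁ ∈ Bfin) (he₂ : e₂ ∈ Binf)
    (hi₁ : ∃ t ∈ Bfin, e₁ ^ 2 - e₁ = algebraMap A B w * t)
    (hi₂ : ∃ t ∈ Binf, e₂ ^ 2 - e₂ = algebraMap A B w * t)
    (h₁₂ : ∃ t : B, e₁ - e₂ = algebraMap A B w * t) :
    ((∃ t ∈ Bfin, e₁ = algebraMap A B w * t) ∧ (∃ t ∈ Binf, e₂ = algebraMap A B w * t)) ∨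
    ((∃ t ∈ Bfin, 1 - e₁ = algebraMap A B w * t) ∧ (∃ t ∈ Binf, 1 - e₂ = algebraMap A B w * t)) := by
  obtain ⟨G, hG, htop⟩ := cech_span_top x y hxy Bfin Binf hx hy bs hbs hgen hloc hinf
  obtain ⟨c, hc⟩ := cech_h1_bound w Bfin Binf G hG htop
  exact cech_idempotent_trivial w Bfin Binf c (fun h hh => hc (c + 1) h hh) hH0 hinj hprime
    e₁ e₂ he₁ he₂ hi₁ hi₂ h₁₂

end Fermat.Agent.S18.H558

end
-- ===== PACK-END S18/H558/CechFG.lean

-- ===== PACK-BEGIN S29/H455/KummerCorr.lean
section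


/-!
# Kummer classes in `Pic⁰` and correspondences (Prelude language)

`IsKummerClass n f x` : the class `x ∈ Pic⁰(F)` is represented by a degree-zero divisor `D` with
`n • D = div f`.  Main results:

* `exists_isKummerClass_of_zsmul_eq_zero` : every `n`-torsion class is a Kummer class;
* `IsKummerClass.unique`, `.add`, `.neg`, `.mul_pow`, `.eq_zero_iff` ;
* `IsKummerClass.correspondence` : the correspondence `ψ_* φ^*` (Prelude `Pic0.correspondence`,
  e.g. the Hecke operator `T_ℓ = α_* β^*`) sends the Kummer class of `f` to the Kummer class of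
  `Norm_ψ (φ f)`;
* `IsKummerClass.smul` : semilinear automorphisms send the Kummer class of `f` to that of `g • f`.
-/

set_option autoImplicit false
set_option linter.style.haveILetI false
set_option linter.unusedSectionVars false

noncomputable section

namespace Fermat.Agent.S29.H455

open AlgebraicCurve

variable {K F F' : Type*} [Field K] [Field F] [Field F'] [Algebra K F] [Algebra K F']

/-- The norm along an algebra homomorphism `ψ : F → F'` (Prelude `algebraAlong`). -/
def normAlong (ψ : F →ₐ[K] F') (y : F') : F :=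
  letI := algebraAlong ψ
  Algebra.norm F y

theorem normAlong_ne_zero (ψ : F →ₐ[K] F') (hfin : FiniteAlong K ψ) {y : F'} (hy : y ≠ 0) :
    normAlong ψ y ≠ 0 := by
  letI := algebraAlong ψ
  haveI : Module.Finite F F' := hfin
  exact Algebra.norm_ne_zero_iff.mpr hy

theorem normAlong_mul (ψ : F →ₐ[K] F') (y z : F') :
    normAlong ψ (y * z) = normAlong ψ y * normAlong ψ z := by
  letI := algebraAlong ψ
  exact map_mul (Algebra.norm F) y z

theorem normAlong_pow (ψ : F →ₐ[K] F') (y : F') (n : ℕ) :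
    normAlong ψ (y ^ n) = normAlong ψ y ^ n := by
  letI := algebraAlong ψ
  exact map_pow (Algebra.norm F) y n

section Divisors

variable [HasPrincipalDivisors K F']
variable (φ ψ : F →ₐ[K] F') (hφ : φ.toRingHom.IsIntegral) (hψ : ψ.toRingHom.IsIntegral)

theorem pullbackAlong_apply_of_ord {f : F} {D : Divisor K F}
    (hD : ∀ v : Place K F, D v = v.ord f) (w : Place K F') :
    Divisor.pullbackAlong φ hφ D w = w.ord (φ f) := by
  letI := algebraAlong φ
  haveI := isScalarTower_along φ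
  haveI := isIntegral_along φ hφ
  exact Divisor.pullback_apply_eq_ord hD w

theorem pushforwardAlong_apply_of_ord (hfin : FiniteAlong K ψ) (hN : NormFormulaAlong K ψ hfin)
    {g : F'} (hg : g ≠ 0) {D : Divisor K F'} (hD : ∀ w : Place K F', D w = w.ord g)
    (v : Place K F) :
    Divisor.pushforwardAlong ψ hψ D v = v.ord (normAlong ψ g) := by
  letI := algebraAlong ψ
  haveI := isScalarTower_along ψ
  haveI := isIntegral_along ψ hψ
  haveI : Module.Finite F F' := hfin
  exact hN g hg D hD v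

/-- The correspondence `ψ_* φ^*` sends `div f` to `div (Norm_ψ (φ f))`. -/
theorem correspondence_apply_of_ord (hfin : FiniteAlong K ψ) (hN : NormFormulaAlong K ψ hfin)
    {f : F} (hf : f ≠ 0) {D : Divisor K F} (hD : ∀ v : Place K F, D v = v.ord f)
    (v : Place K F) :
    Divisor.correspondence φ ψ hφ hψ D v = v.ord (normAlong ψ (φ f)) := by
  rw [Divisor.correspondence_apply]
  refine pushforwardAlong_apply_of_ord ψ hψ hfin hN ?_ (fun w => ?_) v
  · exact (map_ne_zero φ).mpr hf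
  · exact pullbackAlong_apply_of_ord φ hφ hD w

/-- If `n • D = div f` then `n • (ψ_* φ^* D) = div (Norm_ψ (φ f))`. -/
theorem correspondence_kummer (hfin : FiniteAlong K ψ) (hN : NormFormulaAlong K ψ hfin)
    {n : ℤ} {f : F} (hf : f ≠ 0) {D : Divisor K F}
    (hD : ∀ v : Place K F, n * D v = v.ord f) (v : Place K F) :
    n * Divisor.correspondence φ ψ hφ hψ D v = v.ord (normAlong ψ (φ f)) := by
  have h := correspondence_apply_of_ord φ ψ hφ hψ hfin hN hf (D := n • D)
    (fun v => by rw [Finsupp.smul_apply, smul_eq_mul, hD]) v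
  rw [map_zsmul, Finsupp.smul_apply, smul_eq_mul] at h
  exact h

end Divisors

/-! ### The Kummer relation -/

/-- `x` is the `n`-Kummer class of `f`: `x = [D]` with `D` of degree zero and `n • D = div f`. -/
def IsKummerClass (n : ℤ) (f : F) (x : Pic0 K F) : Prop :=
  f ≠ 0 ∧ ∃ D : Divisor.degZero (K := K) (F := F),
    Pic0.mk D = x ∧ ∀ v : Place K F, n * (D : Divisor K F) v = v.ord f

namespace IsKummerClass

variable {n : ℤ} {f g : F} {x y : Pic0 K F}

theorem ne_zero (h : IsKummerClass n f x) : f ≠ 0 := h.1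

/-- A Kummer class is `n`-torsion. -/
theorem zsmul_eq_zero (h : IsKummerClass n f x) : n • x = 0 := by
  obtain ⟨hf, D, rfl, hD⟩ := h
  have h1 : n • Pic0.mk D = Pic0.mk (n • D) := rfl
  rw [h1]
  refine (QuotientAddGroup.eq_zero_iff _).mpr ?_
  rw [AddSubgroup.mem_addSubgroupOf]
  refine ⟨f, hf, fun v => ?_⟩
  rw [← hD v]
  simp

theorem add (hx : IsKummerClass n f x) (hy : IsKummerClass n g y) :
    IsKummerClass n (f * g) (x + y) := by
  obtain ⟨hf, D, rfl, hD⟩ := hx
  obtain ⟨hg, E, rfl, hE⟩ := hy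
  refine ⟨mul_ne_zero hf hg, D + E, rfl, fun v => ?_⟩
  rw [Place.ord_mul v hf hg, ← hD v, ← hE v]
  simp [mul_add]

theorem neg (hx : IsKummerClass n f x) : IsKummerClass n f⁻¹ (-x) := by
  obtain ⟨hf, D, rfl, hD⟩ := hx
  refine ⟨inv_ne_zero hf, -D, rfl, fun v => ?_⟩
  rw [Place.ord_inv, ← hD v]
  simp

theorem zero : IsKummerClass n (1 : F) (0 : Pic0 K F) :=
  ⟨one_ne_zero, 0, rfl, fun v => by simp⟩

/-- Changing `f` by an `n`-th power changes the divisor by a principal divisor. -/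
theorem mul_zpow [HasPrincipalDivisors K F] (hx : IsKummerClass n f x) (hg : g ≠ 0) :
    IsKummerClass n (f * g ^ n) x := by
  obtain ⟨hf, D, rfl, hD⟩ := hx
  obtain ⟨E, hE, hE0⟩ := HasPrincipalDivisors.exists_divisor (K := K) g hg
  refine ⟨mul_ne_zero hf (zpow_ne_zero n hg), D + ⟨E, hE0⟩, ?_, fun v => ?_⟩
  · rw [Pic0.mk_add]
    have : Pic0.mk (⟨E, hE0⟩ : Divisor.degZero (K := K) (F := F)) = 0 := by
      refine (QuotientAddGroup.eq_zero_iff _).mpr ?_
      rw [AddSubgroup.mem_addSubgroupOf]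
      exact ⟨g, hg, hE⟩
    rw [this, add_zero]
  · rw [Place.ord_mul v hf (zpow_ne_zero n hg), Place.ord_zpow, ← hD v]
    simp [mul_add, hE v]

/-- The Kummer class of `f` is unique (for `n ≠ 0`). -/
theorem unique (hn : n ≠ 0) (hx : IsKummerClass n f x) (hy : IsKummerClass n f y) : x = y := by
  obtain ⟨-, D, rfl, hD⟩ := hx
  obtain ⟨-, E, rfl, hE⟩ := hy
  congr 1
  apply Subtype.ext
  apply Finsupp.ext
  intro v
  have := (hD v).trans (hE v).symm
  exact mul_left_cancel₀ hn this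

/-- The Kummer class of `f` vanishes iff `div f = n • div g` for some `g`. -/
theorem eq_zero_iff (hn : n ≠ 0) (hx : IsKummerClass n f x) :
    x = 0 ↔ ∃ g : F, g ≠ 0 ∧ ∀ v : Place K F, v.ord f = n * v.ord g := by
  obtain ⟨hf, D, rfl, hD⟩ := hx
  constructor
  · intro h
    have h1 := (QuotientAddGroup.eq_zero_iff _).mp h
    rw [AddSubgroup.mem_addSubgroupOf] at h1
    obtain ⟨g, hg, hDg⟩ := h1
    exact ⟨g, hg, fun v => by rw [← hD v, hDg v]⟩
  · rintro ⟨g, hg, hfg⟩
    refine (QuotientAddGroup.eq_zero_iff _).mpr ?_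
    rw [AddSubgroup.mem_addSubgroupOf]
    refine ⟨g, hg, fun v => ?_⟩
    have := (hD v).trans (hfg v)
    exact mul_left_cancel₀ hn this

/-- **Correspondences on Kummer classes**: `ψ_* φ^*` sends the Kummer class of `f` to the
Kummer class of `Norm_ψ (φ f)`. -/
theorem correspondence [HasPrincipalDivisors K F'] (φ ψ : F →ₐ[K] F')
    (hφ : φ.toRingHom.IsIntegral) (hψ : ψ.toRingHom.IsIntegral)
    (hFI : FundamentalIdentityAlong K φ hφ) (hfin : FiniteAlong K ψ)
    (hN : NormFormulaAlong K ψ hfin) (hx : IsKummerClass n f x) :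
    IsKummerClass n (normAlong ψ (φ f)) (Pic0.correspondence φ ψ hφ hψ hFI hfin hN x) := by
  obtain ⟨hf, D, rfl, hD⟩ := hx
  refine ⟨normAlong_ne_zero ψ hfin ((map_ne_zero φ).mpr hf),
    Pic0.degZeroCorrespondence φ ψ hφ hψ hFI D, (Pic0.correspondence_mk _ _ _ _ _ _ _ D).symm,
    fun v => ?_⟩
  rw [Pic0.coe_degZeroCorrespondence]
  exact correspondence_kummer φ ψ hφ hψ hfin hN hf hD v

/-- **Semilinear automorphisms on Kummer classes**. -/
theorem smul (σ : SemilinearAut K F) (hx : IsKummerClass n f x) :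
    IsKummerClass n (σ • f) (σ • x) := by
  obtain ⟨hf, D, rfl, hD⟩ := hx
  refine ⟨?_, SemilinearAut.degZeroSMulHom σ D, (SemilinearAut.pic0_smul_mk σ D).symm,
    fun v => ?_⟩
  · rw [SemilinearAut.smul_def]
    exact (map_ne_zero _).mpr hf
  · rw [SemilinearAut.coe_degZeroSMulHom, SemilinearAut.divisor_smul_apply, hD (σ⁻¹ • v)]
    have h := SemilinearAut.ord_smul σ (σ⁻¹ • v) f
    rw [smul_inv_smul] at h
    exact h.symm

end IsKummerClass

/-- Every `n`-torsion class is a Kummer class. -/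
theorem exists_isKummerClass_of_zsmul_eq_zero {n : ℤ} {x : Pic0 K F} (hx : n • x = 0) :
    ∃ f : F, IsKummerClass n f x := by
  obtain ⟨D, rfl⟩ := Pic0.mk_surjective x
  have h1 : n • Pic0.mk D = Pic0.mk (n • D) := rfl
  rw [h1] at hx
  have h2 := (QuotientAddGroup.eq_zero_iff _).mp hx
  rw [AddSubgroup.mem_addSubgroupOf] at h2
  obtain ⟨f, hf, hDf⟩ := h2
  refine ⟨f, hf, D, rfl, fun v => ?_⟩
  rw [← hDf v]
  simp

end Fermat.Agent.S29.H455

end
end
-- ===== PACK-END S29/H455/KummerCorr.lean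

-- ===== PACK-BEGIN S24/H864/FF3a.lean
section



/-!
# S24 / ALG / FF1+FF3 (part a): the Dedekind domain `B = integralClosure K[t] F`
-/

set_option autoImplicit false

noncomputable section

open AlgebraicCurve IntermediateField IsDedekindDomain

namespace Fermat.Agent.S24.H864

variable {K F : Type*} [Field K] [Field F] [Algebra K F]

section Setup

variable (K) (t : F)

/-- `K[t] ⊆ F`. -/
abbrev polyRing : Subalgebra K F := Algebra.adjoin K {t}

/-- the element `t` of `K[t]` -/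
def tR : polyRing K t := ⟨t, Algebra.self_mem_adjoin_singleton K t⟩

/-- `K[X] ≃ K[t]` for transcendental `t`. -/
def polyEquiv (ht : Transcendental K t) : Polynomial K ≃ₐ[K] polyRing K t :=
  (AlgEquiv.ofInjective (Polynomial.aeval t) (transcendental_iff_injective.mp ht)).trans
    (Subalgebra.equivOfEq _ _ (Algebra.adjoin_singleton_eq_range_aeval K t).symm)

theorem polyEquiv_apply_coe (ht : Transcendental K t) (P : Polynomial K) :
    ((polyEquiv K t ht P : polyRing K t) : F) = Polynomial.aeval t P := rfl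

theorem polyEquiv_X (ht : Transcendental K t) : polyEquiv K t ht Polynomial.X = tR K t := by
  apply Subtype.ext
  rw [polyEquiv_apply_coe, Polynomial.aeval_X]
  rfl

end Setup

end Fermat.Agent.S24.H864

end
end
-- ===== PACK-END S24/H864/FF3a.lean

-- ===== PACK-BEGIN S29/H152/DescBound.lean
section
/-
S29 / DESC (helper152) — part 3: the order bound.  Mathlib-only.

`j : C((q))` of order `-1`, `t = j⁻¹`.  If `v ≠ 0` is integral over `C[j]`, `v * t ^ m` is integral
over `C[t]` and `v` has degree `≤ D` over `C(j)`, then `ord_q v ≤ m * (D - 1)`.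
(Global sections of a line bundle on a curve finite over the `j`-line have bounded order at a cusp.)
-/


set_option autoImplicit false

namespace Fermat.Agent.S29.H152

open Polynomial

variable {C : Type*} [Field C]

/-! ### Power series inside Laurent series -/

theorem descBound_algebraMap_eq (c : C) :
    algebraMap C (LaurentSeries C) c
      = HahnSeries.ofPowerSeries ℤ C (algebraMap C (PowerSeries C) c) := rfl

theorem descBound_order_coe_nonneg (F : PowerSeries C) :
    0 ≤ (HahnSeries.ofPowerSeries ℤ C F).order := by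
  by_cases h : HahnSeries.ofPowerSeries ℤ C F = 0
  · rw [h, HahnSeries.order_zero]
  · rw [HahnSeries.le_order_iff_forall h]
    intro j hj
    have := PowerSeries.coeff_coe (f := F) j
    rw [if_pos hj] at this
    exact this

theorem descBound_exists_coe_of_order_nonneg {x : LaurentSeries C} (hx : 0 ≤ x.order) :
    ∃ F : PowerSeries C, HahnSeries.ofPowerSeries ℤ C F = x := by
  refine ⟨PowerSeries.mk fun n => x.coeff n, ?_⟩
  ext i
  have := PowerSeries.coeff_coe (f := PowerSeries.mk fun n => x.coeff n) i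
  rw [this]
  split_ifs with hi
  · exact (HahnSeries.coeff_eq_zero_of_lt_order (lt_of_lt_of_le hi hx)).symm
  · rw [PowerSeries.coeff_mk]
    congr 1
    omega

/-- The subalgebra of power series. -/
noncomputable def descBoundPS : Subalgebra C (LaurentSeries C) :=
  { (HahnSeries.ofPowerSeries ℤ C).range with
    algebraMap_mem' := fun c => ⟨algebraMap C (PowerSeries C) c, rfl⟩ }

theorem descBound_mem_PS {x : LaurentSeries C} :
    x ∈ descBoundPS (C := C) ↔ ∃ F : PowerSeries C, HahnSeries.ofPowerSeries ℤ C F = x :=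
  Iff.rfl

theorem descBound_mem_PS_of_order_nonneg {x : LaurentSeries C} (hx : 0 ≤ x.order) :
    x ∈ descBoundPS (C := C) :=
  descBound_mem_PS.mpr (descBound_exists_coe_of_order_nonneg hx)

theorem descBound_order_nonneg_of_mem_PS {x : LaurentSeries C} (hx : x ∈ descBoundPS (C := C)) :
    0 ≤ x.order := by
  obtain ⟨F, rfl⟩ := descBound_mem_PS.mp hx
  exact descBound_order_coe_nonneg F

/-- Power series are integrally closed in Laurent series. -/
theorem descBound_mem_PS_of_isIntegral {x : LaurentSeries C}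
    (hx : IsIntegral (descBoundPS (C := C)) x) : x ∈ descBoundPS (C := C) := by
  have h1 : IsIntegral (PowerSeries C) x := by
    obtain ⟨p, hp, hpx⟩ := hx
    -- transport the polynomial along `PS → PowerSeries`
    have hl : p.map (algebraMap (descBoundPS (C := C)) (LaurentSeries C))
        ∈ Polynomial.lifts (algebraMap (PowerSeries C) (LaurentSeries C)) := by
      rw [Polynomial.lifts_iff_coeff_lifts]
      intro n
      rw [Polynomial.coeff_map]
      obtain ⟨F, hF⟩ := descBound_mem_PS.mp (p.coeff n).2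
      exact ⟨F, hF⟩
    obtain ⟨q, hq, -, hqm⟩ := Polynomial.lifts_and_natDegree_eq_and_monic hl (hp.map _)
    refine ⟨q, hqm, ?_⟩
    rw [← Polynomial.eval_map, hq, Polynomial.eval_map]
    exact hpx
  obtain ⟨F, hF⟩ := IsIntegrallyClosed.isIntegral_iff.mp h1
  exact descBound_mem_PS.mpr ⟨F, hF⟩

/-- Monotonicity of integrality in the base subalgebra. -/
theorem descBound_isIntegral_mono {A : Type*} [CommRing A] [Algebra C A] {R S : Subalgebra C A}
    (h : R ≤ S) {x : A} (hx : IsIntegral R x) : IsIntegral S x := by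
  refine IsIntegral.map_of_comp_eq (Subalgebra.inclusion h).toRingHom (RingHom.id A) ?_ hx
  ext r
  rfl

/-! ### Polynomials in an element of positive order -/

theorem descBound_aeval_pos_order {t : LaurentSeries C} (ht : 0 < t.order) (r : C[X]) :
    aeval t r ∈ descBoundPS (C := C) ∧ (aeval t r).coeff 0 = r.coeff 0 := by
  obtain ⟨T, hT⟩ := descBound_exists_coe_of_order_nonneg ht.le
  have hT0 : PowerSeries.constantCoeff T = 0 := by
    have h1 : t.coeff 0 = 0 := HahnSeries.coeff_eq_zero_of_lt_order ht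
    rw [← hT] at h1
    have h2 := LaurentSeries.coeff_coe_powerSeries T 0
    rw [Nat.cast_zero] at h2
    rw [h2] at h1
    rwa [PowerSeries.coeff_zero_eq_constantCoeff] at h1
  have key : aeval t r = HahnSeries.ofPowerSeries ℤ C (aeval T r) := by
    rw [aeval_def, aeval_def, Polynomial.hom_eval₂, hT]
    rfl
  refine ⟨descBound_mem_PS.mpr ⟨_, key.symm⟩, ?_⟩
  rw [key]
  have h2 := LaurentSeries.coeff_coe_powerSeries (aeval T r) 0
  rw [Nat.cast_zero] at h2
  rw [h2, PowerSeries.coeff_zero_eq_constantCoeff_apply, aeval_def, Polynomial.hom_eval₂, hT0,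
    Polynomial.eval₂_at_zero]
  simp

/-! ### `j` of order `-1` -/

section J

variable {j : LaurentSeries C}

theorem descBound_j_ne_zero (hj : j.order = -1) : j ≠ 0 := by
  rintro rfl
  simp at hj

theorem descBound_order_inv (hj : j.order = -1) : (j⁻¹).order = 1 := by
  have h0 := descBound_j_ne_zero hj
  have h1 : (j * j⁻¹).order = j.order + (j⁻¹).order := HahnSeries.order_mul h0 (inv_ne_zero h0)
  rw [mul_inv_cancel₀ h0, HahnSeries.order_one, hj] at h1
  omega

theorem descBound_aeval_eq (hj : j.order = -1) (b : C[X]) :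
    aeval j b = aeval j⁻¹ b.reverse * j ^ b.natDegree := by
  have h0 := descBound_j_ne_zero hj
  let _ := invertibleOfNonzero h0
  have := Polynomial.eval₂_reverse_mul_pow (algebraMap C (LaurentSeries C)) j b
  rw [invOf_eq_inv] at this
  rw [aeval_def, aeval_def, this]

theorem descBound_aeval_j (hj : j.order = -1) (b : C[X]) (hb : b ≠ 0) :
    aeval j b ≠ 0 ∧ (aeval j b).order = -(b.natDegree : ℤ) := by
  have h0 := descBound_j_ne_zero hj
  have ht : 0 < (j⁻¹).order := by rw [descBound_order_inv hj]; exact one_pos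
  obtain ⟨hz, hz0⟩ := descBound_aeval_pos_order ht b.reverse
  rw [Polynomial.coeff_zero_reverse] at hz0
  have hlc : b.leadingCoeff ≠ 0 := Polynomial.leadingCoeff_ne_zero.mpr hb
  have hzc : (aeval j⁻¹ b.reverse).coeff 0 ≠ 0 := by rw [hz0]; exact hlc
  have hzne : aeval j⁻¹ b.reverse ≠ 0 := HahnSeries.ne_zero_of_coeff_ne_zero hzc
  have hzo : (aeval j⁻¹ b.reverse).order = 0 :=
    le_antisymm (HahnSeries.order_le_of_coeff_ne_zero hzc) (descBound_order_nonneg_of_mem_PS hz)
  rw [descBound_aeval_eq hj b]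
  refine ⟨mul_ne_zero hzne (pow_ne_zero _ h0), ?_⟩
  rw [HahnSeries.order_mul hzne (pow_ne_zero _ h0), hzo, HahnSeries.order_pow, hj]
  simp

theorem descBound_transcendental_j (hj : j.order = -1) : Transcendental C j := by
  rw [transcendental_iff]
  intro b hb
  by_contra hb0
  exact (descBound_aeval_j hj b hb0).1 hb

theorem descBound_transcendental_inv (hj : j.order = -1) : Transcendental C j⁻¹ := by
  intro h
  have := h.inv
  rw [inv_inv] at this
  exact descBound_transcendental_j hj this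

theorem descBound_order_nonpos_of_mem_adjoin (hj : j.order = -1) {c : LaurentSeries C}
    (hc : c ∈ Algebra.adjoin C {j}) (hc0 : c ≠ 0) : c.order ≤ 0 := by
  rw [Algebra.adjoin_singleton_eq_range_aeval] at hc
  obtain ⟨b, rfl⟩ := hc
  have hb : b ≠ 0 := by
    rintro rfl
    simp at hc0
  have := (descBound_aeval_j hj b hb).2
  change (aeval j b).order = _ at this
  show (aeval j b).order ≤ 0
  rw [this]
  omega

theorem descBound_adjoin_inv_le_PS (hj : j.order = -1) :
    Algebra.adjoin C {j⁻¹} ≤ descBoundPS (C := C) := by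
  rw [Algebra.adjoin_le_iff]
  rintro x hx
  rw [Set.mem_singleton_iff] at hx
  subst hx
  exact descBound_mem_PS_of_order_nonneg (by rw [descBound_order_inv hj]; exact zero_le_one)

/-- An element of `C[j]` times a high power of `t = j⁻¹` lies in `C[t]`. -/
theorem descBound_mul_inv_pow_mem (hj : j.order = -1) {c : LaurentSeries C}
    (hc : c ∈ Algebra.adjoin C {j}) :
    ∃ D₀ : ℕ, ∀ k, D₀ ≤ k → c * j⁻¹ ^ k ∈ Algebra.adjoin C {j⁻¹} := by
  have h0 := descBound_j_ne_zero hj
  rw [Algebra.adjoin_singleton_eq_range_aeval] at hc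
  obtain ⟨b, rfl⟩ := hc
  refine ⟨b.natDegree, fun k hk => ?_⟩
  show aeval j b * j⁻¹ ^ k ∈ _
  rw [descBound_aeval_eq hj b]
  have hk' : j⁻¹ ^ k = j⁻¹ ^ b.natDegree * j⁻¹ ^ (k - b.natDegree) := by
    rw [← pow_add, Nat.add_sub_cancel' hk]
  rw [hk', mul_assoc, ← mul_assoc (j ^ b.natDegree), ← mul_pow, mul_inv_cancel₀ h0, one_pow,
    one_mul]
  refine Subalgebra.mul_mem _ ?_ (Subalgebra.pow_mem _ (Algebra.self_mem_adjoin_singleton C _) _)
  rw [Algebra.adjoin_singleton_eq_range_aeval]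
  exact ⟨b.reverse, rfl⟩

end J

/-! ### Coefficients of minimal polynomials -/

open scoped IntermediateField.algebraAdjoinAdjoin

/-- For `s` transcendental over `C` and `x` integral over `C[s]`, the coefficients of the minimal
polynomial of `x` over `C(s)` lie in `C[s]`. -/
theorem descBound_coeff_minpoly_mem {s : LaurentSeries C} (hs : Transcendental C s)
    {x : LaurentSeries C} (hx : IsIntegral (Algebra.adjoin C {s}) x) (i : ℕ) :
    (((minpoly (IntermediateField.adjoin C {s}) x).coeff i :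
      IntermediateField.adjoin C {s}) : LaurentSeries C) ∈ Algebra.adjoin C {s} := by
  have : IsIntegrallyClosed (Algebra.adjoin C {s}) :=
    IsIntegrallyClosed.of_equiv (Polynomial.algEquivOfTranscendental C s hs).toRingEquiv
  rw [minpoly.isIntegrallyClosed_eq_field_fractions' (IntermediateField.adjoin C {s}) hx,
    coeff_map]
  exact ((minpoly (Algebra.adjoin C {s}) x).coeff i).2

theorem descBound_adjoin_inv_eq {j : LaurentSeries C} :
    IntermediateField.adjoin C {j⁻¹} = IntermediateField.adjoin C {j} := by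
  apply le_antisymm
  · rw [IntermediateField.adjoin_simple_le_iff]
    exact inv_mem (IntermediateField.mem_adjoin_simple_self C j)
  · rw [IntermediateField.adjoin_simple_le_iff]
    have := inv_mem (IntermediateField.mem_adjoin_simple_self C j⁻¹)
    rwa [inv_inv] at this

theorem descBound_minpoly_map_congr {E E' : IntermediateField C (LaurentSeries C)} (h : E = E')
    (x : LaurentSeries C) :
    (minpoly E x).map (algebraMap E (LaurentSeries C))
      = (minpoly E' x).map (algebraMap E' (LaurentSeries C)) := by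
  subst h
  rfl

/-- Evaluating a polynomial with coefficients in a subalgebra at an element of the subalgebra. -/
theorem descBound_eval_mem {A : Type*} [CommRing A] [Algebra C A] (S : Subalgebra C A)
    (p : A[X]) (hp : ∀ i, p.coeff i ∈ S) {u : A} (hu : u ∈ S) : p.eval u ∈ S := by
  rw [Polynomial.eval_eq_sum_range]
  exact Subalgebra.sum_mem _ fun i _ => Subalgebra.mul_mem _ (hp i) (Subalgebra.pow_mem _ hu i)

/-- **The order bound.** -/
theorem descBound_order_add_le {j : LaurentSeries C} (hj : j.order = -1) (m : ℕ)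
    {v : LaurentSeries C} (hv0 : v ≠ 0)
    (h1 : IsIntegral (Algebra.adjoin C {j}) v)
    (h2 : IsIntegral (Algebra.adjoin C {j⁻¹}) (v * j⁻¹ ^ m)) :
    v.order + m ≤ m * ((minpoly (IntermediateField.adjoin C {j}) v).natDegree : ℤ) := by
  have hj0 := descBound_j_ne_zero hj
  set E := IntermediateField.adjoin C {j} with hE
  have hvE : IsIntegral E v := h1.tower_top
  set P := minpoly E v with hP
  set d := P.natDegree with hd
  -- the scalar `τ = t ^ m`
  let τ : E := ⟨j⁻¹, inv_mem (IntermediateField.mem_adjoin_simple_self C j)⟩ ^ m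
  have hτL : (τ : LaurentSeries C) = j⁻¹ ^ m := by simp [τ]
  have hτ0 : τ ≠ 0 := by
    intro h
    have : (τ : LaurentSeries C) = 0 := by rw [h]; rfl
    rw [hτL] at this
    exact pow_ne_zero _ (inv_ne_zero hj0) this
  have hu : τ • v = v * j⁻¹ ^ m := by
    rw [Algebra.smul_def, mul_comm]
    congr 1
  have hsmul : minpoly E (τ • v) = P.scaleRoots τ := IsIntegrallyClosed.minpoly_smul hτ0 hvE
  -- constant coefficients
  have hc0 : P.coeff 0 ≠ 0 := minpoly.coeff_zero_ne_zero hvE hv0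
  have hc0L : ((P.coeff 0 : E) : LaurentSeries C) ≠ 0 := fun h => hc0 (Subtype.ext h)
  have hc0mem : ((P.coeff 0 : E) : LaurentSeries C) ∈ Algebra.adjoin C {j} :=
    descBound_coeff_minpoly_mem (descBound_transcendental_j hj) h1 0
  have hc0ord : ((P.coeff 0 : E) : LaurentSeries C).order ≤ 0 :=
    descBound_order_nonpos_of_mem_adjoin hj hc0mem hc0L
  -- the polynomial of `u = v t^m` over `L`
  set u := v * j⁻¹ ^ m with hu'
  have hu0 : u ≠ 0 := mul_ne_zero hv0 (pow_ne_zero _ (inv_ne_zero hj0))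
  set Q : (LaurentSeries C)[X] := (minpoly E u).map (algebraMap E (LaurentSeries C)) with hQ
  have hQcoeff : ∀ i, Q.coeff i ∈ descBoundPS (C := C) := by
    intro i
    have h3 := descBound_coeff_minpoly_mem (descBound_transcendental_inv hj) h2 i
    have h4 := descBound_minpoly_map_congr (descBound_adjoin_inv_eq (j := j)) u
    have h5 : Q.coeff i = ((minpoly (IntermediateField.adjoin C {j⁻¹}) u).map
        (algebraMap (IntermediateField.adjoin C {j⁻¹}) (LaurentSeries C))).coeff i := by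
      rw [hQ, ← h4]
    rw [h5, coeff_map]
    exact descBound_adjoin_inv_le_PS hj h3
  have huPS : u ∈ descBoundPS (C := C) :=
    descBound_mem_PS_of_isIntegral (descBound_isIntegral_mono (descBound_adjoin_inv_le_PS hj) h2)
  have hQu : Q.eval u = 0 := by
    rw [hQ, Polynomial.eval_map, ← Polynomial.aeval_def]
    exact minpoly.aeval E u
  have hQ0 : Q.coeff 0 = ((P.coeff 0 : E) : LaurentSeries C) * j⁻¹ ^ (m * d) := by
    rw [hQ, coeff_map, ← hu, hsmul, coeff_scaleRoots, Nat.sub_zero]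
    show ((P.coeff 0 * τ ^ P.natDegree : E) : LaurentSeries C) = _
    push_cast
    rw [hτL, ← pow_mul]
  have hQ0ne : Q.coeff 0 ≠ 0 := by
    rw [hQ0]
    exact mul_ne_zero hc0L (pow_ne_zero _ (inv_ne_zero hj0))
  -- `Q = divX Q * X + C (Q.coeff 0)`
  have hz : Q.divX.eval u ∈ descBoundPS (C := C) :=
    descBound_eval_mem _ _ (fun i => by rw [coeff_divX]; exact hQcoeff _) huPS
  have hrel : Q.divX.eval u * u + Q.coeff 0 = 0 := by
    have := congrArg (Polynomial.eval u) (Polynomial.divX_mul_X_add Q)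
    rw [Polynomial.eval_add, Polynomial.eval_mul, Polynomial.eval_X, Polynomial.eval_C, hQu]
      at this
    exact this
  have hzne : Q.divX.eval u ≠ 0 := by
    intro h
    rw [h, zero_mul, zero_add] at hrel
    exact hQ0ne hrel
  have hord : (Q.coeff 0).order = (Q.divX.eval u).order + u.order := by
    have : Q.coeff 0 = -(Q.divX.eval u * u) := eq_neg_of_add_eq_zero_right hrel
    rw [this, HahnSeries.order_neg, HahnSeries.order_mul hzne hu0]
  have hzord : 0 ≤ (Q.divX.eval u).order := descBound_order_nonneg_of_mem_PS hz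
  have huord : u.order = v.order + m := by
    rw [hu', HahnSeries.order_mul hv0 (pow_ne_zero _ (inv_ne_zero hj0)), HahnSeries.order_pow,
      descBound_order_inv hj]
    simp
  have hQ0ord : (Q.coeff 0).order = ((P.coeff 0 : E) : LaurentSeries C).order + (m * d : ℕ) := by
    rw [hQ0, HahnSeries.order_mul hc0L (pow_ne_zero _ (inv_ne_zero hj0)), HahnSeries.order_pow,
      descBound_order_inv hj]
    simp
  have : v.order + m ≤ (m * d : ℕ) := by
    have h6 : u.order ≤ (Q.coeff 0).order := by rw [hord]; omega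
    rw [huord, hQ0ord] at h6
    omega
  exact_mod_cast this

/-- The order bound with an explicit degree bound `D`. -/
theorem descBound_order_le {j : LaurentSeries C} (hj : j.order = -1) (m D : ℕ)
    {v : LaurentSeries C} (hv0 : v ≠ 0)
    (h1 : IsIntegral (Algebra.adjoin C {j}) v)
    (h2 : IsIntegral (Algebra.adjoin C {j⁻¹}) (v * j⁻¹ ^ m))
    (hD : (minpoly (IntermediateField.adjoin C {j}) v).natDegree ≤ D) :
    v.order ≤ m * D := by
  have h := descBound_order_add_le hj m hv0 h1 h2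
  have h' : (m : ℤ) * ((minpoly (IntermediateField.adjoin C {j}) v).natDegree : ℤ) ≤ m * D := by
    exact_mod_cast Nat.mul_le_mul_left m hD
  have hm : (0 : ℤ) ≤ m := Int.natCast_nonneg m
  omega

end Fermat.Agent.S29.H152

end
-- ===== PACK-END S29/H152/DescBound.lean

-- ===== PACK-BEGIN S29/H152/DescInt.lean
section
/-
S29 / DESC (helper152) — part 6: integrality lemmas.  Mathlib-only.
-/



set_option autoImplicit false

namespace Fermat.Agent.S29.H152

open Polynomial

variable {C : Type*} [Field C]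

/-- A root of a monic polynomial with coefficients in a subalgebra is integral over it. -/
theorem descInt_isIntegral_of_poly {A : Type*} [CommRing A] [Algebra C A] (S : Subalgebra C A)
    (Q : A[X]) (hQ : Q.Monic) (hc : ∀ i, Q.coeff i ∈ S) {x : A} (hx : Q.eval x = 0) :
    IsIntegral S x := by
  have hl : Q ∈ Polynomial.lifts (algebraMap S A) := by
    rw [Polynomial.lifts_iff_coeff_lifts]
    intro n
    exact ⟨⟨Q.coeff n, hc n⟩, rfl⟩
  obtain ⟨q, hq, -, hqm⟩ := Polynomial.lifts_and_natDegree_eq_and_monic hl hQ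
  refine ⟨q, hqm, ?_⟩
  rw [← Polynomial.eval_map, hq]
  exact hx

/-- Converse: an integral element is a root of a monic polynomial with coefficients in `S`. -/
theorem descInt_exists_poly {A : Type*} [CommRing A] [Algebra C A] (S : Subalgebra C A)
    {x : A} (hx : IsIntegral S x) :
    ∃ Q : A[X], Q.Monic ∧ (∀ i, Q.coeff i ∈ S) ∧ Q.eval x = 0 := by
  obtain ⟨P, hP, hPx⟩ := hx
  refine ⟨P.map (algebraMap S A), hP.map _, fun i => ?_, ?_⟩
  · rw [Polynomial.coeff_map]
    exact (P.coeff i).2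
  · rw [Polynomial.eval_map]
    exact hPx

/-- Ring endomorphisms preserving a subalgebra (as a set) preserve integrality over it. -/
theorem descInt_isIntegral_map {A : Type*} [CommRing A] [Algebra C A] (S : Subalgebra C A)
    (Φ : A →+* A) (hS : ∀ x ∈ S, Φ x ∈ S) {x : A} (hx : IsIntegral S x) :
    IsIntegral S (Φ x) := by
  obtain ⟨Q, hQ, hc, hQx⟩ := descInt_exists_poly S hx
  refine descInt_isIntegral_of_poly S (Q.map Φ) (hQ.map _) (fun i => ?_) ?_
  · rw [Polynomial.coeff_map]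
    exact hS _ (hc i)
  · rw [Polynomial.eval_map, Polynomial.eval₂_hom, hQx, map_zero]

/-- A ring endomorphism fixing `s` and mapping constants to constants preserves `C[s]`. -/
theorem descInt_map_mem_adjoin {A : Type*} [CommRing A] [Algebra C A] (Φ : A →+* A) (s : A)
    (hs : Φ s = s) (hconst : ∀ c : C, ∃ c' : C, Φ (algebraMap C A c) = algebraMap C A c')
    {x : A} (hx : x ∈ Algebra.adjoin C {s}) : Φ x ∈ Algebra.adjoin C {s} := by
  induction hx using Algebra.adjoin_induction with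
  | mem y hy =>
    rw [Set.mem_singleton_iff] at hy
    rw [hy, hs]
    exact Algebra.self_mem_adjoin_singleton C s
  | algebraMap c =>
    obtain ⟨c', hc'⟩ := hconst c
    rw [hc']
    exact Subalgebra.algebraMap_mem _ _
  | add x y _ _ hx hy =>
    rw [map_add]
    exact Subalgebra.add_mem _ hx hy
  | mul x y _ _ hx hy =>
    rw [map_mul]
    exact Subalgebra.mul_mem _ hx hy

/-- An element integral over `C[j]` becomes integral over `C[j⁻¹]` after multiplication by a
power of `j⁻¹`. -/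
theorem descInt_exists_pow {j : LaurentSeries C} (hj : j.order = -1) {y : LaurentSeries C}
    (hy : IsIntegral (Algebra.adjoin C {j}) y) :
    ∃ M : ℕ, IsIntegral (Algebra.adjoin C {j⁻¹}) (y * j⁻¹ ^ M) := by
  classical
  obtain ⟨P, hP, hc, hPy⟩ := descInt_exists_poly _ hy
  choose D hD using fun i => descBound_mul_inv_pow_mem hj (hc i)
  set d := P.natDegree with hd
  set M := (Finset.range (d + 1)).sup D with hM
  have hDM : ∀ i, i ≤ d → D i ≤ M := fun i hi =>
    Finset.le_sup (f := D) (Finset.mem_range.mpr (Nat.lt_succ_of_le hi))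
  refine ⟨M, descInt_isIntegral_of_poly _ (P.scaleRoots (j⁻¹ ^ M))
    ((monic_scaleRoots_iff _).mpr hP) (fun i => ?_) ?_⟩
  · rw [coeff_scaleRoots, ← hd]
    rcases lt_trichotomy i d with hi | hi | hi
    · rw [← pow_mul]
      refine hD i _ ((hDM i hi.le).trans ?_)
      exact Nat.le_mul_of_pos_right M (Nat.sub_pos_of_lt hi)
    · rw [hi, Nat.sub_self, pow_zero, mul_one, hd, hP.coeff_natDegree]
      exact Subalgebra.one_mem _
    · rw [Polynomial.coeff_eq_zero_of_natDegree_lt (hd ▸ hi), zero_mul]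
      exact Subalgebra.zero_mem _
  · rw [mul_comm, scaleRoots_eval_mul, hPy, mul_zero]

/-- In a field extension of an algebraically closed field, algebraic elements are constants. -/
theorem descInt_mem_range_of_isIntegral {Ω A : Type*} [Field Ω] [IsAlgClosed Ω] [Field A]
    [Algebra Ω A] {x : A} (hx : IsIntegral Ω x) : x ∈ Set.range (algebraMap Ω A) := by
  have hdeg : (minpoly Ω x).degree = 1 :=
    IsAlgClosed.degree_eq_one_of_irreducible Ω (minpoly.irreducible hx)
  exact minpoly.mem_range_of_degree_eq_one Ω x hdeg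

/-- Roots of unity in a field extension of an algebraically closed field are constants. -/
theorem descInt_mem_range_of_pow_eq_one {Ω A : Type*} [Field Ω] [IsAlgClosed Ω] [Field A]
    [Algebra Ω A] {x : A} {p : ℕ} (hp : 0 < p) (hx : x ^ p = 1) :
    x ∈ Set.range (algebraMap Ω A) := by
  apply descInt_mem_range_of_isIntegral
  refine IsIntegral.of_pow hp ?_
  rw [hx]
  exact isIntegral_one

end Fermat.Agent.S29.H152

end
-- ===== PACK-END S29/H152/DescInt.lean

-- ===== PACK-BEGIN S29/H282/Special.lean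
section


/-!
# S29 / M4b-K2 (helper282) — special elements of `SL₂(ℤ)`

`IsSpecialElt γ`: `γ` has finite order or trace `2`.  All conjugates of powers of `1`, `S`, `S * T`
and `T` are special.  (These are the stabilisers of the points of `ℍ ∪ ℙ¹(ℚ)`; a character of
`Γ₀(N)` which is trivial on the special elements of `Γ₀(N)` is "unramified everywhere".)
-/

set_option autoImplicit false

open scoped MatrixGroups
open Matrix

namespace Fermat.Agent.S29.H282

/-- `γ` has finite order or trace `2`. -/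
def IsSpecialElt (γ : SL(2, ℤ)) : Prop :=
  (∃ n : ℕ, 0 < n ∧ γ ^ n = 1) ∨ (γ : Matrix (Fin 2) (Fin 2) ℤ).trace = 2

theorem modS_pow_four : (ModularGroup.S : SL(2, ℤ)) ^ 4 = 1 := by
  apply Subtype.ext
  rw [Matrix.SpecialLinearGroup.coe_pow, ModularGroup.coe_S]
  have h2 : (!![0, -1; 1, 0] : Matrix (Fin 2) (Fin 2) ℤ) ^ 2 = -1 := by
    rw [pow_two, Matrix.mul_fin_two]
    ext i j
    fin_cases i <;> fin_cases j <;> simp
  rw [show (4 : ℕ) = 2 * 2 from rfl, pow_mul, h2]
  simp

theorem modST_pow_six : (ModularGroup.S * ModularGroup.T : SL(2, ℤ)) ^ 6 = 1 := by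
  apply Subtype.ext
  rw [Matrix.SpecialLinearGroup.coe_pow, Matrix.SpecialLinearGroup.coe_mul, ModularGroup.coe_S,
    ModularGroup.coe_T]
  have h0 : (!![0, -1; 1, 0] * !![1, 1; 0, 1] : Matrix (Fin 2) (Fin 2) ℤ) = !![0, -1; 1, 1] := by
    rw [Matrix.mul_fin_two]
    ext i j
    fin_cases i <;> fin_cases j <;> simp
  have h2 : (!![0, -1; 1, 1] : Matrix (Fin 2) (Fin 2) ℤ) ^ 2 = !![-1, -1; 1, 0] := by
    rw [pow_two, Matrix.mul_fin_two]
    ext i j
    fin_cases i <;> fin_cases j <;> simp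
  have h3 : (!![0, -1; 1, 1] : Matrix (Fin 2) (Fin 2) ℤ) ^ 3 = -1 := by
    rw [pow_succ, h2, Matrix.mul_fin_two]
    ext i j
    fin_cases i <;> fin_cases j <;> simp
  rw [h0, show (6 : ℕ) = 3 * 2 from rfl, pow_mul, h3]
  simp

theorem trace_modT_pow (e : ℕ) :
    ((ModularGroup.T ^ e : SL(2, ℤ)) : Matrix (Fin 2) (Fin 2) ℤ).trace = 2 := by
  have h := ModularGroup.coe_T_zpow (e : ℤ)
  rw [zpow_natCast] at h
  rw [h, Matrix.trace_fin_two]
  simp

theorem trace_conj_SL (g γ : SL(2, ℤ)) :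
    ((g⁻¹ * γ * g : SL(2, ℤ)) : Matrix (Fin 2) (Fin 2) ℤ).trace
      = (γ : Matrix (Fin 2) (Fin 2) ℤ).trace := by
  rw [Matrix.SpecialLinearGroup.coe_mul, Matrix.trace_mul_comm,
    ← Matrix.SpecialLinearGroup.coe_mul, mul_inv_cancel_left]

theorem conj_pow_SL (g γ : SL(2, ℤ)) (n : ℕ) : (g⁻¹ * γ * g) ^ n = g⁻¹ * γ ^ n * g := by
  induction n with
  | zero => simp
  | succ n ih => rw [pow_succ, ih, pow_succ]; group

theorem IsSpecialElt.conj {γ : SL(2, ℤ)} (h : IsSpecialElt γ) (g : SL(2, ℤ)) :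
    IsSpecialElt (g⁻¹ * γ * g) := by
  rcases h with ⟨n, hn, h⟩ | h
  · exact Or.inl ⟨n, hn, by rw [conj_pow_SL, h]; group⟩
  · exact Or.inr (by rw [trace_conj_SL, h])

theorem isSpecialElt_of_pow_eq_one {γ : SL(2, ℤ)} {n : ℕ} (hn : 0 < n) (h : γ ^ n = 1) :
    IsSpecialElt γ := Or.inl ⟨n, hn, h⟩

theorem isSpecialElt_one_pow (e : ℕ) : IsSpecialElt ((1 : SL(2, ℤ)) ^ e) :=
  isSpecialElt_of_pow_eq_one one_pos (by simp)

theorem isSpecialElt_S_pow (e : ℕ) : IsSpecialElt ((ModularGroup.S : SL(2, ℤ)) ^ e) :=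
  isSpecialElt_of_pow_eq_one (n := 4) (by norm_num)
    (by rw [← pow_mul, mul_comm, pow_mul, modS_pow_four, one_pow])

theorem isSpecialElt_ST_pow (e : ℕ) :
    IsSpecialElt ((ModularGroup.S * ModularGroup.T : SL(2, ℤ)) ^ e) :=
  isSpecialElt_of_pow_eq_one (n := 6) (by norm_num)
    (by rw [← pow_mul, mul_comm, pow_mul, modST_pow_six, one_pow])

theorem isSpecialElt_T_pow (e : ℕ) : IsSpecialElt ((ModularGroup.T : SL(2, ℤ)) ^ e) :=
  Or.inr (trace_modT_pow e)

end Fermat.Agent.S29.H282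

end
-- ===== PACK-END S29/H282/Special.lean

-- ===== PACK-BEGIN S24/H504/PlaceOrd.lean
section



/-!
# Extra API for `AlgebraicCurve.Place.ord`
-/

set_option autoImplicit false

open IsDedekindDomain WithZero

namespace Fermat.Agent.S24.H504

open AlgebraicCurve

variable {K F : Type*} [Field K] [Field F] [Algebra K F] (v : Place K F)

theorem adicValuation_eq_exp_neg_ord {f : F} (hf : f ≠ 0) :
    v.adicValuation f = exp (-(v.ord f)) := by
  have h := v.adicValuation_ne_zero hf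
  rw [Place.ord, neg_neg, WithZero.exp_log h]

theorem ord_le_ord_iff {f g : F} (hf : f ≠ 0) (hg : g ≠ 0) :
    v.ord f ≤ v.ord g ↔ v.adicValuation g ≤ v.adicValuation f := by
  rw [adicValuation_eq_exp_neg_ord v hf, adicValuation_eq_exp_neg_ord v hg, WithZero.exp_le_exp]
  omega

theorem ord_add_ge {f g : F} (hf : f ≠ 0) (hg : g ≠ 0) (hfg : f + g ≠ 0) :
    min (v.ord f) (v.ord g) ≤ v.ord (f + g) := by
  have h := v.adicValuation.map_add f g
  rcases le_max_iff.mp h with h1 | h1
  · exact (min_le_left _ _).trans ((ord_le_ord_iff v hf hfg).mpr h1)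
  · exact (min_le_right _ _).trans ((ord_le_ord_iff v hg hfg).mpr h1)

theorem mem_iff_adicValuation_le_one (f : F) :
    f ∈ v.toValuationSubring ↔ v.adicValuation f ≤ 1 := by
  constructor
  · intro hf
    have := v.heightOneSpectrum.valuation_le_one (K := F) (⟨f, hf⟩ : v.toValuationSubring)
    simpa [Place.adicValuation] using this
  · intro hf
    obtain ⟨a, ha⟩ := IsDiscreteValuationRing.exists_lift_of_le_one (A := v.toValuationSubring)
      (K := F) (x := f) hf
    rw [← ha]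
    exact a.2

theorem mem_iff_ord_nonneg {f : F} (hf : f ≠ 0) :
    f ∈ v.toValuationSubring ↔ 0 ≤ v.ord f := by
  rw [mem_iff_adicValuation_le_one, adicValuation_eq_exp_neg_ord v hf,
    ← WithZero.exp_zero, WithZero.exp_le_exp]
  omega

/-- Membership in the valuation ring, with no side condition (`ord 0 = 0`). -/
theorem mem_iff_ord_nonneg' (f : F) :
    f ∈ v.toValuationSubring ↔ 0 ≤ v.ord f := by
  rcases eq_or_ne f 0 with rfl | hf
  · simp [v.toValuationSubring.zero_mem]
  · exact mem_iff_ord_nonneg v hf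

theorem ord_neg (f : F) : v.ord (-f) = v.ord f := by
  simp [Place.ord, Valuation.map_neg]

theorem ord_algebraMap (c : K) : v.ord (algebraMap K F c) = 0 := by
  rcases eq_or_ne c 0 with rfl | hc
  · simp
  have h1 : (0 : ℤ) ≤ v.ord (algebraMap K F c) :=
    (mem_iff_ord_nonneg' v _).mp (v.algebraMap_mem' c)
  have h2 : (0 : ℤ) ≤ v.ord (algebraMap K F c⁻¹) :=
    (mem_iff_ord_nonneg' v _).mp (v.algebraMap_mem' c⁻¹)
  rw [map_inv₀, Place.ord_inv] at h2
  omega

theorem ord_pow (f : F) (n : ℕ) : v.ord (f ^ n) = n * v.ord f := by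
  have := v.ord_zpow f n
  simpa using this

theorem ord_div {f g : F} (hf : f ≠ 0) (hg : g ≠ 0) : v.ord (f / g) = v.ord f - v.ord g := by
  rw [div_eq_mul_inv, v.ord_mul hf (inv_ne_zero hg), Place.ord_inv]
  ring

theorem ord_sub_ge {f g : F} (hf : f ≠ 0) (hg : g ≠ 0) (hfg : f - g ≠ 0) :
    min (v.ord f) (v.ord g) ≤ v.ord (f - g) := by
  have := ord_add_ge v hf (neg_ne_zero.mpr hg) (by rwa [← sub_eq_add_neg])
  rwa [_root_.Fermat.Agent.S24.H504.ord_neg, ← sub_eq_add_neg] at this

theorem ord_add_eq_of_lt {f g : F} (hf : f ≠ 0) (hg : g ≠ 0) (h : v.ord f < v.ord g) :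
    v.ord (f + g) = v.ord f := by
  have hfg : f + g ≠ 0 := by
    intro h0
    have : g = -f := by linear_combination h0
    rw [this, _root_.Fermat.Agent.S24.H504.ord_neg] at h
    exact lt_irrefl _ h
  have h1 := ord_add_ge v hf hg hfg
  rw [min_eq_left h.le] at h1
  by_contra hne
  have h2 : v.ord f < v.ord (f + g) := lt_of_le_of_ne h1 (Ne.symm hne)
  have h3 := ord_sub_ge v hfg hg (by simpa using hf)
  rw [add_sub_cancel_right] at h3
  have := lt_min h2 h
  omega

theorem exists_ord_eq_one : ∃ ϖ : F, v.ord ϖ = 1 := by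
  obtain ⟨π, hπ⟩ := IsDiscreteValuationRing.exists_irreducible v.toValuationSubring
  exact ⟨π, v.ord_coe_irreducible hπ⟩

theorem ne_zero_of_ord_ne_zero {f : F} (h : v.ord f ≠ 0) : f ≠ 0 := by
  rintro rfl
  simp at h

/-- The sum of two elements of positive order has positive order or is zero. -/
theorem ord_add_pos {f g : F} (hf : f = 0 ∨ 0 < v.ord f) (hg : g = 0 ∨ 0 < v.ord g) :
    f + g = 0 ∨ 0 < v.ord (f + g) := by
  rcases hf with rfl | hf
  · simpa using hg
  rcases hg with rfl | hg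
  · right; simpa using hf
  by_cases h0 : f + g = 0
  · exact Or.inl h0
  right
  have := ord_add_ge v (ne_zero_of_ord_ne_zero v hf.ne') (ne_zero_of_ord_ne_zero v hg.ne') h0
  exact lt_of_lt_of_le (lt_min hf hg) this

/-- A finite sum of elements of nonnegative order has nonnegative order. -/
theorem ord_add_nonneg {f g : F} (hf : 0 ≤ v.ord f) (hg : 0 ≤ v.ord g) :
    0 ≤ v.ord (f + g) := by
  rw [← mem_iff_ord_nonneg'] at *
  exact v.toValuationSubring.add_mem _ _ hf hg

theorem ord_mul_nonneg {f g : F} (hf : 0 ≤ v.ord f) (hg : 0 ≤ v.ord g) :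
    0 ≤ v.ord (f * g) := by
  rw [← mem_iff_ord_nonneg'] at *
  exact v.toValuationSubring.mul_mem _ _ hf hg

theorem ord_sum_nonneg {ι : Type*} (s : Finset ι) (f : ι → F) (h : ∀ i ∈ s, 0 ≤ v.ord (f i)) :
    0 ≤ v.ord (∑ i ∈ s, f i) := by
  rw [← mem_iff_ord_nonneg']
  exact Subring.sum_mem v.toValuationSubring.toSubring
    fun i hi => (mem_iff_ord_nonneg' v _).mpr (h i hi)

end Fermat.Agent.S24.H504

end
-- ===== PACK-END S24/H504/PlaceOrd.lean

-- ===== PACK-BEGIN S24/H504/EmbPlace.lean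
section



/-!
# The place of `F/K` attached to an embedding `F → C((z))`
-/

set_option autoImplicit false

namespace Fermat.Agent.S24.H504

open AlgebraicCurve

variable {K F : Type*} [Field K] [Field F] [Algebra K F]
variable {C : Type*} [Field C]

/-! ### Order calculus in `C((z))` -/

theorem ls_orderTop_eq_order {A : LaurentSeries C} (hA : A ≠ 0) :
    A.orderTop = (A.order : WithTop ℤ) :=
  (HahnSeries.order_eq_orderTop_of_ne_zero hA).symm

theorem ls_orderTop_nonneg_iff (A : LaurentSeries C) : 0 ≤ A.orderTop ↔ 0 ≤ A.order := by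
  rcases eq_or_ne A 0 with rfl | hA
  · simp
  · rw [ls_orderTop_eq_order hA]
    exact_mod_cast Iff.rfl

theorem ls_orderTop_pos_iff (A : LaurentSeries C) : 0 < A.orderTop ↔ A = 0 ∨ 0 < A.order := by
  rcases eq_or_ne A 0 with rfl | hA
  · simp
  · rw [ls_orderTop_eq_order hA]
    simp only [hA, false_or]
    exact_mod_cast Iff.rfl

theorem ls_orderTop_inv {A : LaurentSeries C} (hA : A ≠ 0) :
    A⁻¹.orderTop = ((-A.order : ℤ) : WithTop ℤ) := by
  have h1 : A * A⁻¹ = 1 := mul_inv_cancel₀ hA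
  have h2 := HahnSeries.order_mul hA (inv_ne_zero hA)
  rw [h1, HahnSeries.order_one] at h2
  rw [ls_orderTop_eq_order (inv_ne_zero hA)]
  congr 1
  omega

theorem ls_order_inv (A : LaurentSeries C) : A⁻¹.order = -A.order := by
  rcases eq_or_ne A 0 with rfl | hA
  · simp
  have h1 : A * A⁻¹ = 1 := mul_inv_cancel₀ hA
  have h2 := HahnSeries.order_mul hA (inv_ne_zero hA)
  rw [h1, HahnSeries.order_one] at h2
  omega

theorem ls_order_zpow (A : LaurentSeries C) (n : ℤ) : (A ^ n).order = n * A.order := by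
  rcases n with n | n
  · simp [HahnSeries.order_pow]
  · rw [zpow_negSucc, ls_order_inv, HahnSeries.order_pow]
    simp only [nsmul_eq_mul, Int.negSucc_eq]
    push_cast
    ring

/-! ### The valuation subring attached to an embedding -/

/-- The valuation subring `{f | 0 ≤ ord_z (σ f)}` of `F`. -/
def embSubring (σ : F →+* LaurentSeries C) : ValuationSubring F where
  carrier := {f | 0 ≤ (σ f).orderTop}
  mul_mem' := by
    intro a b ha hb
    simp only [Set.mem_ofPred_eq, map_mul, HahnSeries.orderTop_mul] at *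
    exact add_nonneg ha hb
  one_mem' := by simp
  add_mem' := by
    intro a b ha hb
    simp only [Set.mem_ofPred_eq, map_add] at *
    exact le_trans (le_min ha hb) HahnSeries.min_orderTop_le_orderTop_add
  zero_mem' := by simp
  neg_mem' := by
    intro a ha
    simpa [HahnSeries.orderTop_neg] using ha
  mem_or_inv_mem' := by
    intro a
    rcases eq_or_ne a 0 with rfl | ha
    · left; simp
    have hσa : σ a ≠ 0 := (map_ne_zero σ).mpr ha
    simp only [Set.mem_ofPred_eq, map_inv₀]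
    rw [ls_orderTop_inv hσa, ls_orderTop_eq_order hσa]
    rcases le_total 0 (σ a).order with h | h
    · left; exact_mod_cast h
    · right
      have : (0 : ℤ) ≤ -(σ a).order := by omega
      exact_mod_cast this

theorem mem_embSubring (σ : F →+* LaurentSeries C) (f : F) :
    f ∈ embSubring σ ↔ 0 ≤ (σ f).orderTop := Iff.rfl

theorem mem_embSubring' (σ : F →+* LaurentSeries C) (f : F) :
    f ∈ embSubring σ ↔ 0 ≤ (σ f).order := by
  rw [mem_embSubring, ls_orderTop_nonneg_iff]

theorem isPrincipalIdealRing_embSubring (σ : F →+* LaurentSeries C) :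
    IsPrincipalIdealRing (embSubring σ) := by
  classical
  refine ⟨fun I => ?_⟩
  by_cases hI : I = ⊥
  · rw [hI]; exact bot_isPrincipal
  -- pick a nonzero element of minimal order
  have hex : ∃ n : ℕ, ∃ a ∈ I, a ≠ 0 ∧ (σ (a : F)).order = n := by
    obtain ⟨a, haI, ha0⟩ := Submodule.exists_mem_ne_zero_of_ne_bot hI
    have hnn : 0 ≤ (σ (a : F)).order := (mem_embSubring' σ _).mp a.2
    exact ⟨(σ (a : F)).order.toNat, a, haI, ha0, (Int.toNat_of_nonneg hnn).symm⟩
  obtain ⟨a, haI, ha0, han⟩ := Nat.find_spec hex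
  refine ⟨⟨a, ?_⟩⟩
  apply le_antisymm
  · intro b hb
    rw [Submodule.mem_span_singleton]
    rcases eq_or_ne b 0 with rfl | hb0
    · exact ⟨0, by simp⟩
    have haF : (a : F) ≠ 0 := by simpa using ha0
    have hbF : (b : F) ≠ 0 := by simpa using hb0
    have hbnn : 0 ≤ (σ (b : F)).order := (mem_embSubring' σ _).mp b.2
    have hmin : Nat.find hex ≤ (σ (b : F)).order.toNat :=
      Nat.find_min' hex ⟨b, hb, hb0, (Int.toNat_of_nonneg hbnn).symm⟩
    have hle : (σ (a : F)).order ≤ (σ (b : F)).order := by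
      rw [han]
      have : ((Nat.find hex : ℕ) : ℤ) ≤ ((σ (b : F)).order.toNat : ℤ) := by exact_mod_cast hmin
      rwa [Int.toNat_of_nonneg hbnn] at this
    have hq : (b : F) / (a : F) ∈ embSubring σ := by
      rw [mem_embSubring', map_div₀, div_eq_mul_inv,
        HahnSeries.order_mul ((map_ne_zero σ).mpr hbF) (inv_ne_zero ((map_ne_zero σ).mpr haF)),
        ls_order_inv]
      omega
    refine ⟨⟨_, hq⟩, ?_⟩
    ext
    simp only [smul_eq_mul, MulMemClass.coe_mul]
    field_simp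
  · rw [Submodule.span_le]
    simpa using haI

/-- The place of `F/K` attached to an embedding `σ : F → C((z))` which is integral on `K` and
has some element of nonzero order. -/
def placeOfEmb (σ : F →+* LaurentSeries C)
    (hK : ∀ c : K, 0 ≤ (σ (algebraMap K F c)).order)
    (ht : ∃ t : F, (σ t).order ≠ 0) : Place K F where
  toValuationSubring := embSubring σ
  algebraMap_mem' := fun c => (mem_embSubring' σ _).mpr (hK c)
  ne_top' := by
    obtain ⟨t, ht⟩ := ht
    intro htop
    have h1 : t ∈ embSubring σ := htop ▸ ValuationSubring.mem_top t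
    have h2 : t⁻¹ ∈ embSubring σ := htop ▸ ValuationSubring.mem_top t⁻¹
    rw [mem_embSubring'] at h1 h2
    rw [map_inv₀, ls_order_inv] at h2
    omega
  isPrincipalIdealRing' := isPrincipalIdealRing_embSubring σ

@[simp]
theorem placeOfEmb_toValuationSubring (σ : F →+* LaurentSeries C)
    (hK : ∀ c : K, 0 ≤ (σ (algebraMap K F c)).order)
    (ht : ∃ t : F, (σ t).order ≠ 0) :
    (placeOfEmb σ hK ht).toValuationSubring = embSubring σ := rfl

/-! ### Proportionality of orders -/

/-- `σ` induces the place `v`: the valuation ring of `v` is the pullback of `C[[z]]`. -/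
def Induces (σ : F →+* LaurentSeries C) (v : Place K F) : Prop :=
  ∀ f : F, f ∈ v.toValuationSubring ↔ 0 ≤ (σ f).order

theorem induces_placeOfEmb (σ : F →+* LaurentSeries C)
    (hK : ∀ c : K, 0 ≤ (σ (algebraMap K F c)).order)
    (ht : ∃ t : F, (σ t).order ≠ 0) : Induces σ (placeOfEmb σ hK ht) :=
  fun f => mem_embSubring' σ f

theorem Induces.eq_placeOfEmb {σ : F →+* LaurentSeries C} {v : Place K F} (h : Induces σ v)
    (hK : ∀ c : K, 0 ≤ (σ (algebraMap K F c)).order)
    (ht : ∃ t : F, (σ t).order ≠ 0) : v = placeOfEmb σ hK ht := by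
  apply Place.ext
  ext f
  rw [placeOfEmb_toValuationSubring, mem_embSubring', h f]

theorem Induces.unique {σ : F →+* LaurentSeries C} {v w : Place K F} (h : Induces σ v)
    (h' : Induces σ w) : v = w := by
  apply Place.ext
  ext f
  rw [h f, h' f]

theorem Induces.order_nonneg_iff {σ : F →+* LaurentSeries C} {v : Place K F} (h : Induces σ v)
    (f : F) : 0 ≤ (σ f).order ↔ 0 ≤ v.ord f := by
  rw [← h f, mem_iff_ord_nonneg']

theorem Induces.order_eq_zero_iff {σ : F →+* LaurentSeries C} {v : Place K F} (h : Induces σ v)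
    (f : F) : (σ f).order = 0 ↔ v.ord f = 0 := by
  have h1 := h.order_nonneg_iff f
  have h2 := h.order_nonneg_iff f⁻¹
  rw [map_inv₀, ls_order_inv, Place.ord_inv] at h2
  constructor <;> intro h0 <;> omega

/-- The multiplicity of an embedding inducing `v`: the `z`-order of a uniformizer. -/
theorem Induces.exists_mult {σ : F →+* LaurentSeries C} {v : Place K F} (h : Induces σ v) :
    ∃ μ : ℕ, 0 < μ ∧ ∀ f : F, (σ f).order = μ * v.ord f := by
  obtain ⟨π, hπ⟩ := IsDiscreteValuationRing.exists_irreducible v.toValuationSubring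
  have hπ1 : v.ord (π : F) = 1 := v.ord_coe_irreducible hπ
  have hpos : 0 < (σ (π : F)).order := by
    have h1 := (h.order_nonneg_iff (π : F)).mpr (by omega)
    have h2 := (h.order_eq_zero_iff (π : F)).not.mpr (by omega)
    omega
  refine ⟨(σ (π : F)).order.toNat, by omega, fun f => ?_⟩
  rcases eq_or_ne f 0 with rfl | hf
  · simp
  obtain ⟨u, hu⟩ := v.exists_unit_mul_zpow hf hπ
  have hu0 : ((u : v.toValuationSubring) : F) ≠ 0 := by simp
  have hπ0 : (π : F) ≠ 0 := by
    intro h0; rw [h0] at hπ1; simp at hπ1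
  have huo : (σ ((u : v.toValuationSubring) : F)).order = 0 :=
    (h.order_eq_zero_iff _).mpr (v.ord_coe_unit u)
  conv_lhs => rw [hu]
  rw [map_mul, map_zpow₀,
    HahnSeries.order_mul ((map_ne_zero σ).mpr hu0) (zpow_ne_zero _ ((map_ne_zero σ).mpr hπ0)),
    huo, ls_order_zpow, Int.toNat_of_nonneg hpos.le]
  ring

end Fermat.Agent.S24.H504

end
-- ===== PACK-END S24/H504/EmbPlace.lean

-- ===== PACK-BEGIN S24/H504/Residue.lean
section



/-!
# The residue field of a place over `t = 0` is the (algebraically closed) constant field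
-/

set_option autoImplicit false

namespace Fermat.Agent.S24.H504

open AlgebraicCurve Polynomial

variable {K F : Type*} [Field K] [Field F] [Algebra K F] (v : Place K F)

/-- Membership in the maximal ideal of the valuation ring of `v`. -/
def InMax (f : F) : Prop := f = 0 ∨ 0 < v.ord f

variable {v}

theorem InMax.ord_nonneg {f : F} (h : InMax v f) : 0 ≤ v.ord f := by
  rcases h with rfl | h
  · simp
  · exact h.le

theorem inMax_zero : InMax v (0 : F) := Or.inl rfl

theorem InMax.add {f g : F} (hf : InMax v f) (hg : InMax v g) : InMax v (f + g) :=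
  ord_add_pos v hf hg

theorem InMax.neg {f : F} (hf : InMax v f) : InMax v (-f) := by
  rcases hf with rfl | hf
  · simpa using inMax_zero
  · right; rwa [_root_.Fermat.Agent.S24.H504.ord_neg]

theorem InMax.sub {f g : F} (hf : InMax v f) (hg : InMax v g) : InMax v (f - g) := by
  rw [sub_eq_add_neg]; exact hf.add hg.neg

theorem InMax.mul_right {f g : F} (hf : InMax v f) (hg : 0 ≤ v.ord g) : InMax v (f * g) := by
  rcases hf with rfl | hf
  · left; simp
  rcases eq_or_ne g 0 with rfl | hg0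
  · left; simp
  right
  rw [v.ord_mul (ne_zero_of_ord_ne_zero v hf.ne') hg0]
  omega

theorem InMax.mul_left {f g : F} (hf : InMax v f) (hg : 0 ≤ v.ord g) : InMax v (g * f) := by
  rw [mul_comm]; exact hf.mul_right hg

theorem inMax_sum {ι : Type*} (s : Finset ι) (f : ι → F) (h : ∀ i ∈ s, InMax v (f i)) :
    InMax v (∑ i ∈ s, f i) := by
  classical
  induction s using Finset.induction_on with
  | empty => simpa using inMax_zero
  | insert a s ha ih =>
    rw [Finset.sum_insert ha]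
    exact (h a (Finset.mem_insert_self a s)).add
      (ih fun i hi => h i (Finset.mem_insert_of_mem hi))

theorem inMax_or_of_mul {f g : F} (hf : 0 ≤ v.ord f) (hg : 0 ≤ v.ord g) (h : InMax v (f * g)) :
    InMax v f ∨ InMax v g := by
  rcases eq_or_ne f 0 with rfl | hf0
  · exact Or.inl inMax_zero
  rcases eq_or_ne g 0 with rfl | hg0
  · exact Or.inr inMax_zero
  rcases h with h | h
  · exact absurd h (mul_ne_zero hf0 hg0)
  rw [v.ord_mul hf0 hg0] at h
  by_cases h1 : 0 < v.ord f
  · exact Or.inl (Or.inr h1)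
  · exact Or.inr (Or.inr (by omega))

theorem not_inMax_algebraMap {c : K} (hc : c ≠ 0) : ¬ InMax v (algebraMap K F c) := by
  rintro (h | h)
  · exact hc ((map_eq_zero (algebraMap K F)).mp h)
  · rw [_root_.Fermat.Agent.S24.H504.ord_algebraMap] at h
    exact lt_irrefl _ h

theorem ord_aeval_nonneg {f : F} (hf : 0 ≤ v.ord f) (Q : K[X]) : 0 ≤ v.ord (aeval f Q) := by
  rw [← mem_iff_ord_nonneg'] at *
  rw [aeval_def, eval₂_eq_sum_range]
  refine Subring.sum_mem v.toValuationSubring.toSubring fun i _ => ?_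
  exact v.toValuationSubring.mul_mem _ _ (v.algebraMap_mem' _) (pow_mem hf i)

/-- If a nonzero polynomial over `K` takes a value in the maximal ideal at an integral `f`,
then `f` is congruent to a constant. -/
theorem exists_sub_inMax_of_aeval [IsAlgClosed K] {f : F} (hf : 0 ≤ v.ord f) :
    ∀ (n : ℕ) (Q : K[X]), Q.natDegree = n → Q ≠ 0 → InMax v (aeval f Q) →
      ∃ c : K, InMax v (f - algebraMap K F c) := by
  intro n
  induction n with
  | zero =>
    intro Q hdeg hQ h
    exfalso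
    rw [natDegree_eq_zero] at hdeg
    obtain ⟨c, rfl⟩ := hdeg
    rw [aeval_C] at h
    exact not_inMax_algebraMap (by simpa using hQ) h
  | succ n ih =>
    intro Q hdeg hQ h
    have hdeg' : Q.degree ≠ 0 :=
      (natDegree_pos_iff_degree_pos.mp (by omega)).ne'
    obtain ⟨c, hc⟩ := IsAlgClosed.exists_root Q hdeg'
    obtain ⟨Q₁, hQ₁⟩ := dvd_iff_isRoot.mpr hc
    have hQ₁0 : Q₁ ≠ 0 := by
      rintro rfl
      simp at hQ₁
      exact hQ hQ₁
    have hdeg₁ : Q₁.natDegree = n := by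
      have := congrArg natDegree hQ₁
      rw [natDegree_mul (X_sub_C_ne_zero c) hQ₁0, natDegree_X_sub_C, hdeg] at this
      omega
    have hval : aeval f Q = (f - algebraMap K F c) * aeval f Q₁ := by
      rw [hQ₁, map_mul]
      simp
    rw [hval] at h
    have hfc : 0 ≤ v.ord (f - algebraMap K F c) := by
      rw [← mem_iff_ord_nonneg'] at *
      exact sub_mem hf (v.algebraMap_mem' c)
    rcases inMax_or_of_mul hfc (ord_aeval_nonneg hf Q₁) h with h1 | h1
    · exact ⟨c, h1⟩
    · exact ih Q₁ hdeg₁ hQ₁0 h1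

theorem inMax_aeval_sub_coeff_zero {t : F} (ht : 0 < v.ord t) (q : K[X]) :
    InMax v (aeval t q - algebraMap K F (q.coeff 0)) := by
  have h : q = divX q * X + C (q.coeff 0) := (divX_mul_X_add q).symm
  have h2 : aeval t q - algebraMap K F (q.coeff 0) = t * aeval t (divX q) := by
    conv_lhs => rw [h]
    simp only [map_add, map_mul, aeval_X, aeval_C]
    simp only [coeff_add, coeff_C_zero, mul_coeff_zero, coeff_X_zero, mul_zero, zero_add]
    ring
  rw [h2]
  exact InMax.mul_right (Or.inr ht) (ord_aeval_nonneg ht.le _)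

/-- Two-variable relation: a nonzero `P ∈ K[T][Y]` with `P(t, f) = 0` can be normalised so
that `P(0, Y) ≠ 0`. -/
theorem exists_normalised_relation {t : F} (ht : t ≠ 0) (f : F) (P : K[X][X]) (hP : P ≠ 0)
    (hPf : P.eval₂ (aeval t : K[X] →ₐ[K] F).toRingHom f = 0) :
    ∃ Q : K[X][X], Q.map (constantCoeff : K[X] →+* K) ≠ 0 ∧
      Q.eval₂ (aeval t : K[X] →ₐ[K] F).toRingHom f = 0 := by
  have hX : ¬ IsUnit (C (X : K[X]) : K[X][X]) := by
    rw [isUnit_C]
    exact not_isUnit_X
  obtain ⟨n, Q, hndvd, rfl⟩ := WfDvdMonoid.max_power_factor' hP hX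
  refine ⟨Q, ?_, ?_⟩
  · intro h0
    apply hndvd
    rw [C_dvd_iff_dvd_coeff]
    intro i
    rw [X_dvd_iff]
    have := congrArg (fun p => p.coeff i) h0
    simpa [coeff_map] using this
  · rw [eval₂_mul, eval₂_pow, eval₂_C] at hPf
    simp only [AlgHom.toRingHom_eq_coe, RingHom.coe_coe, aeval_X] at hPf
    rcases mul_eq_zero.mp hPf with h | h
    · exact absurd h (pow_ne_zero n ht)
    · simpa using h

/-- Reduction of a two-variable relation modulo the maximal ideal. -/
theorem inMax_aeval_map_constantCoeff {t f : F} (ht : 0 < v.ord t) (hf : 0 ≤ v.ord f)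
    (Q : K[X][X]) (hQf : Q.eval₂ (aeval t : K[X] →ₐ[K] F).toRingHom f = 0) :
    InMax v (aeval f (Q.map (constantCoeff : K[X] →+* K))) := by
  have h1 : aeval f (Q.map (constantCoeff : K[X] →+* K))
      = Q.eval₂ ((algebraMap K F).comp (constantCoeff : K[X] →+* K)) f := by
    rw [aeval_def, eval₂_map]
  have h2 : aeval f (Q.map (constantCoeff : K[X] →+* K))
      = -(Q.eval₂ (aeval t : K[X] →ₐ[K] F).toRingHom f
          - Q.eval₂ ((algebraMap K F).comp (constantCoeff : K[X] →+* K)) f) := by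
    rw [hQf, h1]; ring
  rw [h2]
  apply InMax.neg
  rw [eval₂_eq_sum_range, eval₂_eq_sum_range, ← Finset.sum_sub_distrib]
  apply inMax_sum
  intro i _
  rw [← sub_mul]
  refine InMax.mul_right ?_ ?_
  · simpa using inMax_aeval_sub_coeff_zero ht (Q.coeff i)
  · rw [ord_pow]
    positivity

open scoped IntermediateField.algebraAdjoinAdjoin in
/-- **Residue field is `K`.**  If `K` is algebraically closed, `F` is algebraic over `K(t)` and
`v` is a place with `v(t) > 0`, every `v`-integral element is congruent to a constant. -/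
theorem exists_sub_inMax [IsAlgClosed K] {t : F} (ht : 0 < v.ord t)
    [Algebra.IsAlgebraic (IntermediateField.adjoin K {t}) F] {f : F} (hf : 0 ≤ v.ord f) :
    ∃ c : K, InMax v (f - algebraMap K F c) := by
  have halg : IsAlgebraic (IntermediateField.adjoin K {t}) f :=
    Algebra.IsAlgebraic.isAlgebraic f
  have halg' : IsAlgebraic (Algebra.adjoin K {t}) f :=
    (IsFractionRing.isAlgebraic_iff (Algebra.adjoin K {t}) (IntermediateField.adjoin K {t})
      F).mpr halg
  obtain ⟨p, hp0, hpf⟩ := halg'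
  let φ : K[X] →+* Algebra.adjoin K {t} :=
    ((aeval t : K[X] →ₐ[K] F).codRestrict (Algebra.adjoin K {t})
      (fun q => aeval_mem_adjoin_singleton K t)).toRingHom
  have hφ : Function.Surjective φ := by
    rintro ⟨a, ha⟩
    have ha' := ha
    rw [Algebra.adjoin_singleton_eq_range_aeval] at ha'
    obtain ⟨q, hq⟩ := ha'
    exact ⟨q, Subtype.ext hq⟩
  obtain ⟨P, hP⟩ := Polynomial.map_surjective φ hφ p
  have hP0 : P ≠ 0 := by
    rintro rfl
    rw [Polynomial.map_zero] at hP
    exact hp0 hP.symm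
  have hcomp : (algebraMap (Algebra.adjoin K {t}) F).comp φ
      = (aeval t : K[X] →ₐ[K] F).toRingHom := by
    ext <;> rfl
  have hPf : P.eval₂ (aeval t : K[X] →ₐ[K] F).toRingHom f = 0 := by
    rw [← hcomp, ← eval₂_map, hP]
    exact hpf
  have ht0 : t ≠ 0 := ne_zero_of_ord_ne_zero v ht.ne'
  obtain ⟨Q, hQ0, hQf⟩ := exists_normalised_relation ht0 f P hP0 hPf
  exact exists_sub_inMax_of_aeval hf _ _ rfl hQ0 (inMax_aeval_map_constantCoeff ht hf Q hQf)

/-- Decomposition `f = c + g` with `c` constant and `g` in the maximal ideal. -/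
theorem exists_eq_const_add [IsAlgClosed K] {t : F} (ht : 0 < v.ord t)
    [Algebra.IsAlgebraic (IntermediateField.adjoin K {t}) F] {f : F} (hf : 0 ≤ v.ord f) :
    ∃ (c : K) (g : F), InMax v g ∧ f = algebraMap K F c + g := by
  obtain ⟨c, hc⟩ := exists_sub_inMax ht hf
  exact ⟨c, f - algebraMap K F c, hc, by ring⟩

/-- Decomposition `f = c + ϖ f₁` for a uniformizer `ϖ`. -/
theorem exists_eq_const_add_mul [IsAlgClosed K] {t : F} (ht : 0 < v.ord t)
    [Algebra.IsAlgebraic (IntermediateField.adjoin K {t}) F] {ϖ : F} (hϖ : v.ord ϖ = 1)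
    {f : F} (hf : 0 ≤ v.ord f) :
    ∃ (c : K) (f₁ : F), 0 ≤ v.ord f₁ ∧ f = algebraMap K F c + ϖ * f₁ := by
  obtain ⟨c, g, hg, rfl⟩ := exists_eq_const_add ht hf
  have hϖ0 : ϖ ≠ 0 := ne_zero_of_ord_ne_zero v (by omega)
  refine ⟨c, g / ϖ, ?_, by field_simp⟩
  rcases hg with rfl | hg
  · simp
  · rw [ord_div v (ne_zero_of_ord_ne_zero v hg.ne') hϖ0]
    omega

theorem inMax_iff_mem_maximalIdeal (f : v.toValuationSubring) :
    InMax v (f : F) ↔ f ∈ IsLocalRing.maximalIdeal v.toValuationSubring := by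
  rw [IsLocalRing.mem_maximalIdeal, mem_nonunits_iff]
  constructor
  · rintro (h | h) hu
    · have : f = 0 := Subtype.ext h
      rw [this] at hu
      exact not_isUnit_zero hu
    · have := v.ord_coe_unit hu.unit
      rw [IsUnit.unit_spec] at this
      omega
  · intro hu
    by_cases h0 : (f : F) = 0
    · exact Or.inl h0
    right
    have h1 : 0 ≤ v.ord (f : F) := (mem_iff_ord_nonneg' v _).mp f.2
    rcases h1.lt_or_eq with h | h
    · exact h
    exfalso
    apply hu
    have hinv : (f : F)⁻¹ ∈ v.toValuationSubring := by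
      rw [mem_iff_ord_nonneg', Place.ord_inv]
      omega
    refine IsUnit.of_mul_eq_one (⟨(f : F)⁻¹, hinv⟩ : v.toValuationSubring) ?_
    ext
    simp [h0]

/-- **Places over `t = 0` have degree one.** -/
theorem deg_eq_one [IsAlgClosed K] {t : F} (ht : 0 < v.ord t)
    [Algebra.IsAlgebraic (IntermediateField.adjoin K {t}) F] : v.deg = 1 := by
  rw [Place.deg, finrank_eq_one_iff']
  refine ⟨1, one_ne_zero, fun w => ?_⟩
  obtain ⟨f, rfl⟩ := IsLocalRing.residue_surjective w
  obtain ⟨c, hc⟩ := exists_sub_inMax ht ((mem_iff_ord_nonneg' v _).mp f.2)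
  refine ⟨c, ?_⟩
  rw [Algebra.smul_def, mul_one]
  have hmem : f - algebraMap K v.toValuationSubring c
      ∈ IsLocalRing.maximalIdeal v.toValuationSubring := by
    rw [← inMax_iff_mem_maximalIdeal]
    simpa using hc
  have := (IsLocalRing.residue_eq_zero_iff _).mpr hmem
  rw [map_sub, sub_eq_zero] at this
  rw [this]
  rfl

end Fermat.Agent.S24.H504

end
-- ===== PACK-END S24/H504/Residue.lean

-- ===== PACK-BEGIN S37/H400/KronFrob.lean
section
/-
S37 / helper400 — piece KRON, part (K0): Frobenius on Laurent series in characteristic `p`.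

`f ^ p = V_p (frob f)`, where `V_p = qExpand R p` is `q ↦ q ^ p` and `frob` raises every
coefficient to the `p`-th power.
-/




set_option autoImplicit false
set_option linter.style.haveILetI false

noncomputable section

open ModularCurve HahnSeries

namespace Fermat.Agent.S37.H400

variable {R : Type*} [CommRing R]

/-- Coefficients of the `p`-th power of a power series in characteristic `p`. -/
theorem powerSeries_coeff_pow_char (p : ℕ) [Fact p.Prime] [CharP R p] (g : PowerSeries R)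
    (n : ℕ) :
    PowerSeries.coeff n (g ^ p) = if p ∣ n then (PowerSeries.coeff (n / p) g) ^ p else 0 := by
  have hp : 0 < p := (Fact.out : p.Prime).pos
  have h1 : PowerSeries.coeff n (g ^ p) =
      PowerSeries.coeff n ((PowerSeries.trunc (n + 1) g : PowerSeries R) ^ p) := by
    rw [← PowerSeries.coeff_coe_trunc_of_lt (Nat.lt_succ_self n) (f := g ^ p),
      ← PowerSeries.trunc_trunc_pow,
      PowerSeries.coeff_coe_trunc_of_lt (Nat.lt_succ_self n)]
  rw [h1, ← Polynomial.coe_pow, Polynomial.coeff_coe, ← Polynomial.map_frobenius_expand,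
    Polynomial.coeff_map, Polynomial.coeff_expand hp]
  split_ifs with h
  · rw [PowerSeries.coeff_trunc, if_pos, frobenius_def]
    exact lt_of_le_of_lt (Nat.div_le_self n p) (Nat.lt_succ_self n)
  · simp

/-- The power-series case of `laurent_pow_char`. -/
theorem ofPowerSeries_pow_char (p : ℕ) [Fact p.Prime] [CharP R p] (g : PowerSeries R) :
    (HahnSeries.ofPowerSeries ℤ R g) ^ p =
      qExpand R p (coeffMap (frobenius R p) (HahnSeries.ofPowerSeries ℤ R g)) := by
  haveI : NeZero p := ⟨(Fact.out : p.Prime).ne_zero⟩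
  have hp : 0 < p := (Fact.out : p.Prime).pos
  have hpz : (0 : ℤ) < (p : ℤ) := by exact_mod_cast hp
  rw [← map_pow]
  ext k
  by_cases hk : (p : ℤ) ∣ k
  · obtain ⟨m, rfl⟩ := hk
    rw [qExpand_coeff_mul, coeffMap_coeff, PowerSeries.coeff_coe, PowerSeries.coeff_coe]
    by_cases hm : m < 0
    · have : (p : ℤ) * m < 0 := by nlinarith
      rw [if_pos this, if_pos hm, map_zero]
    · have hm' : 0 ≤ m := not_lt.mp hm
      have : ¬ (p : ℤ) * m < 0 := by
        have := mul_nonneg hpz.le hm'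
        omega
      rw [if_neg this, if_neg hm, powerSeries_coeff_pow_char, frobenius_def]
      have h1 : ((p : ℤ) * m).natAbs = p * m.natAbs := by
        rw [Int.natAbs_mul, Int.natAbs_natCast]
      rw [h1, if_pos (dvd_mul_right p _), Nat.mul_div_cancel_left _ hp]
  · rw [qExpand_coeff_of_not_dvd p _ hk, PowerSeries.coeff_coe]
    split_ifs with h
    · rfl
    · rw [powerSeries_coeff_pow_char, if_neg]
      intro hd
      apply hk
      have h0 : 0 ≤ k := not_lt.mp h
      have : (k.natAbs : ℤ) = k := Int.natAbs_of_nonneg h0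
      rw [← this]
      exact_mod_cast hd

/-- **(K0)** In characteristic `p`, the `p`-th power of a Laurent series is obtained by
raising the coefficients to the `p`-th power and substituting `q ↦ q ^ p`. -/
theorem laurent_pow_char (p : ℕ) [Fact p.Prime] [CharP R p] (f : LaurentSeries R) :
    haveI : NeZero p := ⟨(Fact.out : p.Prime).ne_zero⟩
    f ^ p = qExpand R p (coeffMap (frobenius R p) f) := by
  haveI : NeZero p := ⟨(Fact.out : p.Prime).ne_zero⟩
  show f ^ p = qExpand R p (coeffMap (frobenius R p) f)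
  conv_lhs => rw [← LaurentSeries.single_order_mul_powerSeriesPart f]
  conv_rhs => rw [← LaurentSeries.single_order_mul_powerSeriesPart f]
  rw [mul_pow, map_mul, map_mul, ofPowerSeries_pow_char, coeffMap_single, qExpand_single,
    HahnSeries.single_pow, map_one, one_pow, nsmul_eq_mul]

end Fermat.Agent.S37.H400

end
end
-- ===== PACK-END S37/H400/KronFrob.lean

-- ===== PACK-BEGIN S37/H400/KronSection.lean
section
/-
S37 / helper400 — piece KRON, part (K1): `p`-sections of Laurent series and the section matrix.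

For `f ∈ R((T))` the *section matrix* `secMat p f ∈ Mat_p(R((q)))` is the matrix of multiplication
by `f` on `R((T))`, seen as a free module over `V_p (R((q)))` (`V_p = qExpand R p : q ↦ T ^ p`) with
basis `1, T, …, T^{p-1}`.  We prove that `secMat p` is multiplicative, sends `V_p a` to the scalar
matrix `a`, and satisfies Cayley–Hamilton in the form `(charpoly.map V_p).eval f = 0`.

(The section matrix idea is due to helper807, `S28/H807/Section.lean`; this file is an independent
self-contained development with the multiplicative structure needed for the Kronecker congruence.)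
-/




set_option autoImplicit false

noncomputable section

open ModularCurve HahnSeries Polynomial Matrix

namespace Fermat.Agent.S37.H400

variable {R : Type*} [CommRing R]

/-- The `r`-th `p`-section `∑ₘ f_{pm+r} qᵐ` of a Laurent series `f`. -/
def secL (p : ℕ) [NeZero p] (r : ℤ) (f : LaurentSeries R) : LaurentSeries R :=
  HahnSeries.ofSuppBddBelow (fun m : ℤ => f.coeff ((p : ℤ) * m + r))
    ⟨(f.order - r) / (p : ℤ), by
      intro m hm
      by_contra hlt
      apply hm
      apply HahnSeries.coeff_eq_zero_of_lt_order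
      have hp : (0 : ℤ) < (p : ℤ) := by exact_mod_cast Nat.pos_of_ne_zero (NeZero.ne p)
      have h1 : m + 1 ≤ (f.order - r) / (p : ℤ) := not_le.mp hlt
      have h2 : (m + 1) * (p : ℤ) ≤ f.order - r := (Int.le_ediv_iff_mul_le hp).mp h1
      nlinarith⟩

@[simp]
theorem secL_coeff (p : ℕ) [NeZero p] (r : ℤ) (f : LaurentSeries R) (m : ℤ) :
    (secL p r f).coeff m = f.coeff ((p : ℤ) * m + r) := rfl

theorem secL_coeffMap {S : Type*} [CommRing S] (φ : R →+* S) (p : ℕ) [NeZero p] (r : ℤ)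
    (f : LaurentSeries R) : secL p r (coeffMap φ f) = coeffMap φ (secL p r f) := by
  ext m
  simp

theorem secL_add (p : ℕ) [NeZero p] (r : ℤ) (f g : LaurentSeries R) :
    secL p r (f + g) = secL p r f + secL p r g := by
  ext m
  simp

theorem secL_zero (p : ℕ) [NeZero p] (r : ℤ) : secL p r (0 : LaurentSeries R) = 0 := by
  ext m
  simp

theorem secL_sum (p : ℕ) [NeZero p] (r : ℤ) {ι : Type*} (s : Finset ι)
    (F : ι → LaurentSeries R) : secL p r (∑ i ∈ s, F i) = ∑ i ∈ s, secL p r (F i) := by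
  classical
  induction s using Finset.induction_on with
  | empty => simp [secL_zero]
  | insert a s ha ih => rw [Finset.sum_insert ha, Finset.sum_insert ha, secL_add, ih]

/-- Shifting by `T ^ k` shifts the section index. -/
theorem secL_mul_single (p : ℕ) [NeZero p] (r k : ℤ) (f : LaurentSeries R) :
    secL p r (f * HahnSeries.single k (1 : R)) = secL p (r - k) f := by
  ext m
  rw [secL_coeff, secL_coeff]
  have : (p : ℤ) * m + r = ((p : ℤ) * m + (r - k)) + k := by ring
  rw [this, HahnSeries.coeff_mul_single_add, mul_one]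

/-- The recombination `∑ᵢ V_p(aᵢ) Tⁱ` of a family of sections. -/
def recomb (p : ℕ) [NeZero p] (a : Fin p → LaurentSeries R) : LaurentSeries R :=
  ∑ i : Fin p, qExpand R p (a i) * HahnSeries.single ((i : ℕ) : ℤ) (1 : R)

theorem coeff_qExpand_mul_single (p : ℕ) [NeZero p] (a : LaurentSeries R) (i : Fin p)
    (m : ℤ) (j : Fin p) :
    (qExpand R p a * HahnSeries.single ((i : ℕ) : ℤ) (1 : R)).coeff
        ((p : ℤ) * m + ((j : ℕ) : ℤ)) = if j = i then a.coeff m else 0 := by
  have hi : ((i : ℕ) : ℤ) < p := by exact_mod_cast i.2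
  have hj : ((j : ℕ) : ℤ) < p := by exact_mod_cast j.2
  have hi0 : (0 : ℤ) ≤ ((i : ℕ) : ℤ) := by positivity
  have hj0 : (0 : ℤ) ≤ ((j : ℕ) : ℤ) := by positivity
  have h : (p : ℤ) * m + ((j : ℕ) : ℤ) =
      ((p : ℤ) * m + ((j : ℕ) : ℤ) - ((i : ℕ) : ℤ)) + ((i : ℕ) : ℤ) := by ring
  rw [h, HahnSeries.coeff_mul_single_add, mul_one]
  split_ifs with hji
  · subst hji
    rw [add_sub_cancel_right, qExpand_coeff_mul]
  · apply qExpand_coeff_of_not_dvd
    intro hd
    apply hji
    apply Fin.ext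
    have h2 : (p : ℤ) ∣ ((j : ℕ) : ℤ) - ((i : ℕ) : ℤ) := by
      have : (p : ℤ) * m + ((j : ℕ) : ℤ) - ((i : ℕ) : ℤ)
          = (p : ℤ) * m + (((j : ℕ) : ℤ) - ((i : ℕ) : ℤ)) := by ring
      rw [this] at hd
      exact (Int.dvd_add_right (dvd_mul_right _ _)).mp hd
    obtain ⟨c, hc⟩ := h2
    have hc0 : c = 0 := by
      by_contra hne
      rcases lt_or_gt_of_ne hne with hlt | hgt
      · have : (p : ℤ) * c ≤ (p : ℤ) * (-1) := by
          apply mul_le_mul_of_nonneg_left _ (by positivity)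
          omega
        omega
      · have : (p : ℤ) * 1 ≤ (p : ℤ) * c := by
          apply mul_le_mul_of_nonneg_left _ (by positivity)
          omega
        omega
    rw [hc0, mul_zero] at hc
    have : ((j : ℕ) : ℤ) = ((i : ℕ) : ℤ) := by omega
    exact_mod_cast this

/-- Sections of a recombination. -/
theorem secL_recomb (p : ℕ) [NeZero p] (a : Fin p → LaurentSeries R) (j : Fin p) :
    secL p ((j : ℕ) : ℤ) (recomb p a) = a j := by
  ext m
  rw [secL_coeff, recomb, HahnSeries.coeff_sum]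
  simp_rw [coeff_qExpand_mul_single]
  simp

/-- Every Laurent series is the recombination of its sections. -/
theorem recomb_secL (p : ℕ) [NeZero p] (f : LaurentSeries R) :
    recomb p (fun i : Fin p => secL p ((i : ℕ) : ℤ) f) = f := by
  have hp : (0 : ℤ) < (p : ℤ) := by exact_mod_cast Nat.pos_of_ne_zero (NeZero.ne p)
  ext n
  have hlt : (n % (p : ℤ)).toNat < p := by
    have h1 : n % (p : ℤ) < p := Int.emod_lt_of_pos n hp
    have h0 : 0 ≤ n % (p : ℤ) := Int.emod_nonneg n hp.ne'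
    omega
  set j : Fin p := ⟨(n % (p : ℤ)).toNat, hlt⟩ with hj
  have hjv : ((j : ℕ) : ℤ) = n % (p : ℤ) := by
    simp only [hj]
    exact Int.toNat_of_nonneg (Int.emod_nonneg n hp.ne')
  have hn : n = (p : ℤ) * (n / (p : ℤ)) + ((j : ℕ) : ℤ) := by
    rw [hjv]; have := Int.emod_add_mul_ediv n (p : ℤ); linarith
  rw [recomb, HahnSeries.coeff_sum]
  conv_lhs =>
    enter [2, i]
    rw [hn, coeff_qExpand_mul_single]
  simp only [Finset.sum_ite_eq, Finset.mem_univ, if_true, secL_coeff]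
  rw [← hn]

/-- `V_p`-semilinearity of the sections. -/
theorem secL_qExpand_mul (p : ℕ) [NeZero p] (a h : LaurentSeries R) (j : Fin p) :
    secL p ((j : ℕ) : ℤ) (qExpand R p a * h) = a * secL p ((j : ℕ) : ℤ) h := by
  conv_lhs => rw [← recomb_secL p h]
  have : qExpand R p a * recomb p (fun i : Fin p => secL p ((i : ℕ) : ℤ) h)
      = recomb p (fun i : Fin p => a * secL p ((i : ℕ) : ℤ) h) := by
    simp only [recomb, Finset.mul_sum, map_mul, mul_assoc]
  rw [this, secL_recomb]

/-- The section matrix of `f`: entry `(i', i)` is the `i'`-th section of `f · Tⁱ`,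
i.e. the `(i' - i)`-th section of `f`. -/
def secMat (p : ℕ) [NeZero p] (f : LaurentSeries R) :
    Matrix (Fin p) (Fin p) (LaurentSeries R) :=
  fun i' i => secL p ((i' : ℕ) : ℤ) (f * HahnSeries.single ((i : ℕ) : ℤ) (1 : R))

theorem secMat_apply (p : ℕ) [NeZero p] (f : LaurentSeries R) (i' i : Fin p) :
    secMat p f i' i = secL p ((i' : ℕ) : ℤ) (f * HahnSeries.single ((i : ℕ) : ℤ) (1 : R)) :=
  rfl

theorem secMat_apply' (p : ℕ) [NeZero p] (f : LaurentSeries R) (i' i : Fin p) :
    secMat p f i' i = secL p (((i' : ℕ) : ℤ) - ((i : ℕ) : ℤ)) f := by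
  rw [secMat_apply, secL_mul_single]

theorem secMat_coeffMap {S : Type*} [CommRing S] (φ : R →+* S) (p : ℕ) [NeZero p]
    (f : LaurentSeries R) :
    secMat p (coeffMap φ f) = (secMat p f).map (coeffMap φ) := by
  ext i' i : 1
  simp only [secMat_apply', Matrix.map_apply, secL_coeffMap]

/-- Key identity: `f · Tⁱ = ∑_{i'} V_p(M_{i',i}) · T^{i'}`. -/
theorem mul_single_eq_recomb (p : ℕ) [NeZero p] (f : LaurentSeries R) (i : Fin p) :
    f * HahnSeries.single ((i : ℕ) : ℤ) (1 : R) = recomb p (fun i' => secMat p f i' i) :=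
  (recomb_secL p _).symm

/-- The section matrix is multiplicative. -/
theorem secMat_mul (p : ℕ) [NeZero p] (f g : LaurentSeries R) :
    secMat p (f * g) = secMat p f * secMat p g := by
  ext i' i : 1
  have hmul : (secMat p f * secMat p g) i' i = ∑ j, secMat p f i' j * secMat p g j i :=
    Matrix.mul_apply
  rw [hmul, secMat_apply, mul_assoc, mul_single_eq_recomb p g i, recomb,
    Finset.mul_sum, secL_sum p _ Finset.univ]
  apply Finset.sum_congr rfl
  intro j _
  rw [← mul_assoc, mul_comm f, mul_assoc, secL_qExpand_mul, mul_comm]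
  rfl

theorem secL_single_one (p : ℕ) [NeZero p] (i' i : Fin p) :
    secL p ((i' : ℕ) : ℤ) (HahnSeries.single ((i : ℕ) : ℤ) (1 : R)) =
      if i' = i then 1 else 0 := by
  have h := secL_recomb p (fun j : Fin p => if j = i then (1 : LaurentSeries R) else 0) i'
  have h2 : recomb p (fun j : Fin p => if j = i then (1 : LaurentSeries R) else 0)
      = HahnSeries.single ((i : ℕ) : ℤ) (1 : R) := by
    rw [recomb, Finset.sum_eq_single i]
    · simp
    · intro b _ hb; simp [hb]
    · intro h; exact absurd (Finset.mem_univ _) h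
  rw [h2] at h
  exact h

/-- The section matrix of `V_p a` is the scalar matrix `a`. -/
theorem secMat_qExpand (p : ℕ) [NeZero p] (a : LaurentSeries R) :
    secMat p (qExpand R p a) = Matrix.scalar (Fin p) a := by
  ext i' i : 1
  rw [secMat_apply, secL_qExpand_mul, secL_single_one, Matrix.scalar_apply,
    Matrix.diagonal_apply]
  split_ifs <;> simp

theorem secMat_one (p : ℕ) [NeZero p] : secMat p (1 : LaurentSeries R) = 1 := by
  have := secMat_qExpand p (1 : LaurentSeries R)
  rwa [map_one, map_one] at this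

theorem secMat_pow (p : ℕ) [NeZero p] (f : LaurentSeries R) (n : ℕ) :
    secMat p (f ^ n) = secMat p f ^ n := by
  induction n with
  | zero => rw [pow_zero, pow_zero, secMat_one]
  | succ n ih => rw [pow_succ, pow_succ, secMat_mul, ih]

/-- **Cayley–Hamilton for the section matrix**: the characteristic polynomial of `secMat p f`,
with coefficients pushed along `V_p`, kills `f`. -/
theorem secMat_charpoly_eval (p : ℕ) [NeZero p] (f : LaurentSeries R) :
    (((secMat p f).charpoly).map (qExpand R p)).eval f = 0 := by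
  set A : Matrix (Fin p) (Fin p) (LaurentSeries R) := (secMat p f).map (qExpand R p) with hA
  set v : Fin p → LaurentSeries R := fun i => HahnSeries.single ((i : ℕ) : ℤ) (1 : R) with hv
  set B : Matrix (Fin p) (Fin p) (LaurentSeries R) := Matrix.scalar (Fin p) f - Aᵀ with hB
  have hBv : B *ᵥ v = 0 := by
    funext i
    simp only [hB, Matrix.sub_mulVec, Pi.sub_apply, Pi.zero_apply]
    rw [sub_eq_zero]
    have h1 : (Matrix.scalar (Fin p) f *ᵥ v) i = f * v i := by
      simp [Matrix.scalar_apply, Matrix.mulVec, dotProduct, Matrix.diagonal_apply]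
    rw [h1]
    simp only [Matrix.mulVec, dotProduct, Matrix.transpose_apply, hA, Matrix.map_apply, hv]
    exact mul_single_eq_recomb p f i
  have hdet : B.det • v = 0 := by
    have h : (Matrix.adjugate B * B) *ᵥ v = (B.det • (1 : Matrix (Fin p) (Fin p) _)) *ᵥ v := by
      rw [Matrix.adjugate_mul]
    rw [← Matrix.mulVec_mulVec, hBv, Matrix.mulVec_zero] at h
    rw [Matrix.smul_mulVec, Matrix.one_mulVec] at h
    exact h.symm
  have h0 : B.det * v ⟨0, Nat.pos_of_ne_zero (NeZero.ne p)⟩ = 0 := by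
    have := congrFun hdet ⟨0, Nat.pos_of_ne_zero (NeZero.ne p)⟩
    simpa using this
  have hv0 : v ⟨0, Nat.pos_of_ne_zero (NeZero.ne p)⟩ = 1 := by
    simp only [hv]
    rfl
  rw [hv0, mul_one] at h0
  rw [← Matrix.charpoly_map, ← hA, ← Matrix.charpoly_transpose, Matrix.eval_charpoly]
  exact h0

end Fermat.Agent.S37.H400

end

end
-- ===== PACK-END S37/H400/KronSection.lean

-- ===== PACK-BEGIN S37/H400/KronChar.lean
section
/-
S37 / helper400 — piece KRON, part (K2)–(K5): the Kronecker congruence, formal version.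

Notation: `V_p = qExpand R p` (`q ↦ q ^ p`), `secMat p f` the section matrix of `f` (matrix of
multiplication by `f(T)` on `R((T))` over `R((T^p))`), `G_f := (secMat p f).charpoly`
(`= ∏_b (Y - f(ζ^b q^{1/p}))` classically) and `Ψ_f := (Y - V_p f) · G_f`
(`= ∏ over the p+1 conjugates`).

* `charpoly_secMat_char` : over a domain of characteristic `p`,  `G_f = Y ^ p - frob f`.
* `kronPoly_map_zmod` : for `f ∈ ℤ((q))` (or any `S → ZMod p`),
    `Ψ_f ≡ (Y - f ^ p) (Y ^ p - f)  mod p`.
* `kronPoly_eval_qExpand`, `kronPoly_map_eval` : `Ψ_f (V_p f) = 0` and `(V_p Ψ_f)(f) = 0`.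
-/



set_option autoImplicit false

noncomputable section

set_option linter.style.haveILetI false

open ModularCurve Polynomial Matrix

namespace Fermat.Agent.S37.H400

variable {R : Type*} [CommRing R]

theorem charP_laurentSeries (p : ℕ) [CharP R p] : CharP (LaurentSeries R) p :=
  charP_of_injective_ringHom (f := (HahnSeries.C : R →+* LaurentSeries R))
    HahnSeries.C_injective p

/-- In characteristic `p`, the `p`-th power of the section matrix is scalar. -/
theorem secMat_pow_char (p : ℕ) [Fact p.Prime] [CharP R p] (f : LaurentSeries R) :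
    haveI : NeZero p := ⟨(Fact.out : p.Prime).ne_zero⟩
    secMat p f ^ p = Matrix.scalar (Fin p) (coeffMap (frobenius R p) f) := by
  haveI : NeZero p := ⟨(Fact.out : p.Prime).ne_zero⟩
  show secMat p f ^ p = Matrix.scalar (Fin p) (coeffMap (frobenius R p) f)
  rw [← secMat_pow, laurent_pow_char, secMat_qExpand]

/-- A `p × p` matrix over a domain of characteristic `p` whose `p`-th power is the scalar
`c` has characteristic polynomial `Y ^ p - c`. -/
theorem charpoly_of_pow_eq_scalar {A : Type*} [CommRing A] [IsDomain A] (p : ℕ) [Fact p.Prime]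
    [CharP A p] (M : Matrix (Fin p) (Fin p) A) (c : A)
    (hM : M ^ p = Matrix.scalar (Fin p) c) :
    M.charpoly = X ^ p - C c := by
  haveI : NeZero p := ⟨(Fact.out : p.Prime).ne_zero⟩
  have hcomm : Commute (Matrix.scalar (Fin p) (X : A[X])) (C.mapMatrix M) :=
    Matrix.scalar_commute _ (fun r => Commute.all _ r) _
  have h1 : M.charmatrix = Matrix.scalar (Fin p) (X : A[X]) - C.mapMatrix M := rfl
  have h2 : M.charmatrix ^ p = Matrix.scalar (Fin p) ((X : A[X]) ^ p - C c) := by
    rw [h1, sub_pow_char_of_commute p hcomm, ← map_pow, ← map_pow, hM, map_sub]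
    congr 1
    ext i j
    simp [Matrix.scalar_apply, Matrix.diagonal_apply, apply_ite]
  have h3 : M.charpoly ^ p = ((X : A[X]) ^ p - C c) ^ p := by
    rw [Matrix.charpoly, ← Matrix.det_pow, h2, Matrix.scalar_apply, Matrix.det_diagonal,
      Finset.prod_const, Finset.card_univ, Fintype.card_fin]
  exact frobenius_inj A[X] p h3

/-- **(K2) Kronecker, characteristic `p`.**  Over a domain of characteristic `p`, the
characteristic polynomial of the section matrix of `f` is `Y ^ p - frob f`. -/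
theorem charpoly_secMat_char [IsDomain R] (p : ℕ) [Fact p.Prime] [CharP R p]
    (f : LaurentSeries R) :
    haveI : NeZero p := ⟨(Fact.out : p.Prime).ne_zero⟩
    (secMat p f).charpoly = X ^ p - C (coeffMap (frobenius R p) f) := by
  haveI : NeZero p := ⟨(Fact.out : p.Prime).ne_zero⟩
  haveI := charP_laurentSeries (R := R) p
  exact charpoly_of_pow_eq_scalar p _ _ (secMat_pow_char p f)

theorem coeffMap_frobenius_zmod (p : ℕ) [Fact p.Prime] (f : LaurentSeries (ZMod p)) :
    coeffMap (frobenius (ZMod p) p) f = f := by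
  ext k
  simp

/-- Kronecker over `𝔽_p`: `G_f = Y ^ p - f`. -/
theorem charpoly_secMat_zmod (p : ℕ) [Fact p.Prime] (f : LaurentSeries (ZMod p)) :
    haveI : NeZero p := ⟨(Fact.out : p.Prime).ne_zero⟩
    (secMat p f).charpoly = X ^ p - C f := by
  haveI : NeZero p := ⟨(Fact.out : p.Prime).ne_zero⟩
  have h := charpoly_secMat_char p f
  rwa [coeffMap_frobenius_zmod] at h

/-- The polynomial `Ψ_f(Y) = (Y - f(q^p)) · ∏_b (Y - f(ζ^b q^{1/p}))`, defined without roots of
unity as `(Y - V_p f) · charpoly (secMat p f)`. -/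
def kronPoly (p : ℕ) [NeZero p] (f : LaurentSeries R) : (LaurentSeries R)[X] :=
  (X - C (qExpand R p f)) * (secMat p f).charpoly

theorem kronPoly_monic (p : ℕ) [NeZero p] [Nontrivial R] (f : LaurentSeries R) :
    (kronPoly p f).Monic :=
  (monic_X_sub_C _).mul (Matrix.charpoly_monic _)

theorem kronPoly_natDegree (p : ℕ) [NeZero p] [Nontrivial R] (f : LaurentSeries R) :
    (kronPoly p f).natDegree = p + 1 := by
  rw [kronPoly, Polynomial.Monic.natDegree_mul (monic_X_sub_C _) (Matrix.charpoly_monic _),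
    natDegree_X_sub_C, Matrix.charpoly_natDegree_eq_dim, Fintype.card_fin, add_comm]

private theorem coeffMap_qExpand'' {S : Type*} [CommRing S] (φ : R →+* S) (n : ℕ)
    [NeZero n] (x : LaurentSeries R) : coeffMap φ (qExpand R n x) = qExpand S n (coeffMap φ x) := by
  ext k
  by_cases hk : (n : ℤ) ∣ k
  · obtain ⟨m, rfl⟩ := hk
    rw [coeffMap_coeff, qExpand_coeff_mul, qExpand_coeff_mul, coeffMap_coeff]
  · rw [coeffMap_coeff, qExpand_coeff_of_not_dvd n _ hk, qExpand_coeff_of_not_dvd n _ hk,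
      map_zero]

/-- Base change of `Ψ_f` along a coefficient homomorphism. -/
theorem kronPoly_map {S : Type*} [CommRing S] (φ : R →+* S) (p : ℕ) [NeZero p]
    (f : LaurentSeries R) :
    (kronPoly p f).map (coeffMap φ) = kronPoly p (coeffMap φ f) := by
  rw [kronPoly, kronPoly, Polynomial.map_mul, Polynomial.map_sub, Polynomial.map_X,
    Polynomial.map_C, coeffMap_qExpand'', secMat_coeffMap, Matrix.charpoly_map]

/-- **(K3) Kronecker congruence.**  Over a domain of characteristic `p`,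
`Ψ_f = (Y - V_p f) (Y ^ p - frob f)`. -/
theorem kronPoly_char [IsDomain R] (p : ℕ) [Fact p.Prime] [CharP R p] (f : LaurentSeries R) :
    haveI : NeZero p := ⟨(Fact.out : p.Prime).ne_zero⟩
    kronPoly p f = (X - C (qExpand R p f)) * (X ^ p - C (coeffMap (frobenius R p) f)) := by
  haveI : NeZero p := ⟨(Fact.out : p.Prime).ne_zero⟩
  show kronPoly p f = _
  rw [kronPoly, charpoly_secMat_char]

/-- **(K3') Kronecker congruence over `𝔽_p`**: `Ψ_f = (Y - f ^ p) (Y ^ p - f)`. -/
theorem kronPoly_zmod (p : ℕ) [Fact p.Prime] (f : LaurentSeries (ZMod p)) :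
    haveI : NeZero p := ⟨(Fact.out : p.Prime).ne_zero⟩
    kronPoly p f = (X - C (f ^ p)) * (X ^ p - C f) := by
  haveI : NeZero p := ⟨(Fact.out : p.Prime).ne_zero⟩
  show kronPoly p f = _
  rw [kronPoly_char, laurent_pow_char, coeffMap_frobenius_zmod]

/-- **(K3'') Kronecker congruence, integral form**: for `f` with coefficients in any ring `S`
mapping to `𝔽_p` (e.g. `ℤ`, `ℤ_(p)`), `Ψ_f ≡ (Y - f̄ ^ p)(Y ^ p - f̄)` after reduction. -/
theorem kronPoly_map_zmod {S : Type*} [CommRing S] (p : ℕ) [Fact p.Prime] (φ : S →+* ZMod p)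
    (f : LaurentSeries S) :
    haveI : NeZero p := ⟨(Fact.out : p.Prime).ne_zero⟩
    (kronPoly p f).map (coeffMap φ) =
      (X - C ((coeffMap φ f) ^ p)) * (X ^ p - C (coeffMap φ f)) := by
  haveI : NeZero p := ⟨(Fact.out : p.Prime).ne_zero⟩
  show (kronPoly p f).map (coeffMap φ) = _
  rw [kronPoly_map, kronPoly_zmod]

/-- **(K4a)** `V_p f = f(q^p)` is a root of `Ψ_f`. -/
theorem kronPoly_eval_qExpand (p : ℕ) [NeZero p] (f : LaurentSeries R) :
    (kronPoly p f).eval (qExpand R p f) = 0 := by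
  rw [kronPoly, eval_mul, eval_sub, eval_X, eval_C, sub_self, zero_mul]

/-- **(K4b)** `f` is a root of `V_p Ψ_f` (coefficients pushed along `q ↦ q ^ p`). -/
theorem kronPoly_map_eval (p : ℕ) [NeZero p] (f : LaurentSeries R) :
    ((kronPoly p f).map (qExpand R p)).eval f = 0 := by
  rw [kronPoly, Polynomial.map_mul, eval_mul, secMat_charpoly_eval, mul_zero]

end Fermat.Agent.S37.H400

end

end
-- ===== PACK-END S37/H400/KronChar.lean

-- ===== PACK-BEGIN S29/H102/RootDesc.lean
section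
/-
S29 / M4b / K4 (helper102) — ROOT DESCENT for Laurent series.

If `K` is an algebraically closed field, `ι : K →+* L` a ring hom into a field of characteristic
zero and `s ∈ L((q))` satisfies `s ^ p = coeffMap ι w` for some `w ∈ K((q))`, `p ≠ 0`, then all
coefficients of `s` lie in the image of `ι`, i.e. `s = coeffMap ι v` for some `v ∈ K((q))`.

Proof: the power series part `P` of `s` satisfies the linear differential equation
`G' * P = p • (G * P')` with `G = P ^ p` (coefficients in `ι K`), which determines the coefficients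
of `P` recursively from the constant one; the constant coefficient is a root of `X ^ p - ι c`.

Mathlib + Prelude `coeffMap` only.  Namespace `Fermat.Agent.S29.H102`.
-/



set_option autoImplicit false

noncomputable section

namespace Fermat.Agent.S29.H102

open ModularCurve PowerSeries

variable {K L : Type*} [Field K] [Field L]

/-- An element of `L` which is a root of `X ^ p - ι c` lies in the image of the algebraically
closed field `K`. -/
theorem RootDesc_const [IsAlgClosed K] (ι : K →+* L) {p : ℕ} (hp : p ≠ 0) {a : L} {c : K}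
    (h : a ^ p = ι c) : a ∈ ι.fieldRange := by
  classical
  let _ : Algebra K L := ι.toAlgebra
  have halg : IsAlgebraic K a := by
    refine ⟨Polynomial.X ^ p - Polynomial.C c, ?_, ?_⟩
    · exact Polynomial.X_pow_sub_C_ne_zero (Nat.pos_of_ne_zero hp) c
    · simp only [map_sub, map_pow, Polynomial.aeval_X, Polynomial.aeval_C]
      rw [h]
      exact sub_self _
  have hint : IsIntegral K a := halg.isIntegral
  have hq : (minpoly K a).leadingCoeff = 1 := minpoly.monic hint
  have hdeg : (minpoly K a).degree = 1 :=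
    IsAlgClosed.degree_eq_one_of_irreducible K (minpoly.irreducible hint)
  have h0 : Polynomial.aeval a (minpoly K a) = 0 := minpoly.aeval K a
  rw [Polynomial.eq_X_add_C_of_degree_eq_one hdeg, hq, Polynomial.C_1, one_mul,
    Polynomial.aeval_add, Polynomial.aeval_X, Polynomial.aeval_C,
    add_eq_zero_iff_eq_neg] at h0
  rw [RingHom.mem_fieldRange]
  refine ⟨-(minpoly K a).coeff 0, ?_⟩
  have h1 : ι (-(minpoly K a).coeff 0) = -(algebraMap K L) ((minpoly K a).coeff 0) :=
    map_neg ι _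
  rw [h1]
  exact h0.symm

/-- The differential equation satisfied by a `p`-th root. -/
theorem RootDesc_ode (P : PowerSeries L) (p : ℕ) (hp : p ≠ 0) :
    (d⁄dX L) (P ^ p) * P = (p : PowerSeries L) * (P ^ p * (d⁄dX L) P) := by
  rw [Derivation.leibniz_pow, nsmul_eq_mul, smul_eq_mul]
  have h1 : P ^ p = P ^ (p - 1) * P := by
    rw [← pow_succ, Nat.sub_add_cancel (Nat.one_le_iff_ne_zero.mpr hp)]
  rw [h1]
  ring

/-- Power series version of root descent. -/
theorem RootDesc_powerSeries [IsAlgClosed K] [CharZero L] (ι : K →+* L) {p : ℕ} (hp : p ≠ 0)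
    (P : PowerSeries L) (Q : PowerSeries K) (hP0 : constantCoeff P ≠ 0)
    (h : P ^ p = Q.map ι) : ∀ k, coeff k P ∈ ι.fieldRange := by
  classical
  have hG : ∀ i, coeff i (P ^ p) ∈ ι.fieldRange := by
    intro i
    rw [h, coeff_map]
    exact RingHom.mem_fieldRange.mpr ⟨_, rfl⟩
  have hG0 : coeff 0 (P ^ p) ≠ 0 := by
    rw [coeff_zero_eq_constantCoeff, map_pow]
    exact pow_ne_zero p hP0
  have hnat : ∀ n : ℕ, (n : L) ∈ ι.fieldRange := fun n => natCast_mem _ n
  intro k
  induction k using Nat.strong_induction_on with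
  | _ k ih =>
    rcases Nat.eq_zero_or_pos k with rfl | hk
    · have h0 : (coeff 0 P) ^ p = ι (coeff 0 Q) := by
        have := congrArg (coeff 0) h
        rw [coeff_map] at this
        rw [← this, coeff_zero_eq_constantCoeff, map_pow]
      exact RootDesc_const ι hp h0
    · obtain ⟨m, rfl⟩ : ∃ m, k = m + 1 := ⟨k - 1, (Nat.sub_add_cancel hk).symm⟩
      have hode := congrArg (coeff m) (RootDesc_ode P p hp)
      have hcast : (p : PowerSeries L) = C (p : L) := by simp
      rw [hcast, coeff_C_mul] at hode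
      have hmem : ((0, m) : ℕ × ℕ) ∈ Finset.HasAntidiagonal.antidiagonal m := by
        simp
      set A := ∑ x ∈ Finset.HasAntidiagonal.antidiagonal m,
        coeff (x.1 + 1) (P ^ p) * ((x.1 : L) + 1) * coeff x.2 P with hA
      set B := ∑ x ∈ (Finset.HasAntidiagonal.antidiagonal m).erase (0, m),
          coeff x.1 (P ^ p) * (coeff (x.2 + 1) P * ((x.2 : L) + 1)) with hB
      have hLHS : coeff m ((d⁄dX L) (P ^ p) * P) = A := by
        rw [coeff_mul]
        simp only [coeff_derivative, hA]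
      have hRHS : coeff m (P ^ p * (d⁄dX L) P)
          = coeff 0 (P ^ p) * (coeff (m + 1) P * ((m : L) + 1)) + B := by
        rw [coeff_mul, ← Finset.add_sum_erase _ _ hmem]
        simp only [coeff_derivative, hB]
      rw [hLHS, hRHS] at hode
      -- left side is in the subfield
      have hL : A ∈ ι.fieldRange := by
        refine Subfield.sum_mem _ fun x hx => ?_
        have h2 := Finset.HasAntidiagonal.mem_antidiagonal.mp hx
        have hx2 : x.2 < m + 1 := by omega
        exact mul_mem (mul_mem (hG _) (add_mem (hnat _) (one_mem _))) (ih _ hx2)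
      -- the remaining sum on the right is in the subfield
      have hR : B ∈ ι.fieldRange := by
        refine Subfield.sum_mem _ fun x hx => ?_
        have hx' := Finset.mem_erase.mp hx
        have h2 := Finset.HasAntidiagonal.mem_antidiagonal.mp hx'.2
        have hx1 : x.1 ≠ 0 := by
          intro h0
          apply hx'.1
          ext
          · exact h0
          · simp only
            omega
        have hx2 : x.2 + 1 < m + 1 := by omega
        exact mul_mem (hG _) (mul_mem (ih _ hx2) (add_mem (hnat _) (one_mem _)))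
      -- solve for the coefficient
      have hp0 : (p : L) ≠ 0 := Nat.cast_ne_zero.mpr hp
      have hm0 : ((m : L) + 1) ≠ 0 := by
        have : ((m + 1 : ℕ) : L) ≠ 0 := Nat.cast_ne_zero.mpr (Nat.succ_ne_zero m)
        simpa using this
      have hsolve : coeff (m + 1) P
          = (A - (p : L) * B) / ((p : L) * coeff 0 (P ^ p) * ((m : L) + 1)) := by
        rw [eq_div_iff (mul_ne_zero (mul_ne_zero hp0 hG0) hm0), hode]
        ring
      rw [hsolve]
      exact div_mem (sub_mem hL (mul_mem (hnat p) hR))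
        (mul_mem (mul_mem (hnat p) (hG 0)) (add_mem (hnat m) (one_mem _)))

/-- A Laurent series all of whose coefficients lie in the image of `ι` is a base change. -/
theorem RootDesc_exists_of_coeff_mem (ι : K →+* L) (s : LaurentSeries L)
    (h : ∀ n, s.coeff n ∈ ι.fieldRange) : ∃ v : LaurentSeries K, coeffMap ι v = s := by
  classical
  have hinv : Function.invFun ι 0 = 0 := by
    have := Function.leftInverse_invFun ι.injective (0 : K)
    rwa [map_zero] at this
  refine ⟨s.map (⟨Function.invFun ι, hinv⟩ : ZeroHom L K), ?_⟩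
  ext n
  obtain ⟨c, hc⟩ := RingHom.mem_fieldRange.mp (h n)
  simp only [coeffMap_coeff, HahnSeries.map_coeff, ZeroHom.coe_mk]
  rw [← hc, Function.leftInverse_invFun ι.injective c]

/-- **Root descent.**  A `p`-th root in `L((q))` of a Laurent series with coefficients in the
algebraically closed field `K` has coefficients in `K`. -/
theorem RootDesc_laurent [IsAlgClosed K] [CharZero L] (ι : K →+* L) {p : ℕ} (hp : p ≠ 0)
    (s : LaurentSeries L) (w : LaurentSeries K) (h : s ^ p = coeffMap ι w) :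
    ∃ v : LaurentSeries K, coeffMap ι v = s := by
  classical
  apply RootDesc_exists_of_coeff_mem
  by_cases hs : s = 0
  · intro n
    rw [hs]
    exact zero_mem _
  set n₀ := s.order with hn₀
  set P := s.powerSeriesPart with hP
  -- the shifted series
  set w' : LaurentSeries K := HahnSeries.single (-((p : ℤ) * n₀)) (1 : K) * w with hw'
  set Q : PowerSeries K := PowerSeries.mk fun k => w'.coeff k with hQ
  have hPs : HahnSeries.ofPowerSeries ℤ L P = HahnSeries.single (-n₀) (1 : L) * s :=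
    LaurentSeries.ofPowerSeries_powerSeriesPart s
  have hpow : HahnSeries.ofPowerSeries ℤ L (P ^ p) = coeffMap ι w' := by
    rw [map_pow, hPs, mul_pow, h, hw', map_mul, coeffMap_single, HahnSeries.single_pow,
      one_pow, ι.map_one]
    congr 2
    simp
  have hPQ : P ^ p = Q.map ι := by
    ext k
    rw [coeff_map, hQ, coeff_mk, ← HahnSeries.ofPowerSeries_apply_coeff (Γ := ℤ), hpow,
      coeffMap_coeff]
  have hP0 : constantCoeff P ≠ 0 := by
    rw [← coeff_zero_eq_constantCoeff_apply, hP, LaurentSeries.powerSeriesPart_coeff]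
    simpa using HahnSeries.coeff_order_eq_zero.not.mpr hs
  have hcoeff := RootDesc_powerSeries ι hp P Q hP0 hPQ
  intro n
  by_cases hn : n < n₀
  · rw [HahnSeries.coeff_eq_zero_of_lt_order hn]
    exact zero_mem _
  · obtain ⟨k, hk⟩ : ∃ k : ℕ, n = n₀ + k := by
      refine ⟨(n - n₀).toNat, ?_⟩
      have : 0 ≤ n - n₀ := by omega
      rw [Int.toNat_of_nonneg this]
      ring
    rw [hk, ← LaurentSeries.powerSeriesPart_coeff]
    exact hcoeff k

end Fermat.Agent.S29.H102

end
end
-- ===== PACK-END S29/H102/RootDesc.lean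

-- ===== PACK-BEGIN S30/H810/QShift.lean
section
/-
S30 / piece ONTO (helper810), part 7: `q_L`-expansions of periodic functions of exponential growth
and the SHIFT lemma (`τ ↦ τ + a` twists the coefficients by `exp(2πi a n / L)`).
-/




set_option autoImplicit false
set_option linter.unusedSectionVars false

noncomputable section

open UpperHalfPlane HahnSeries Function
open scoped MatrixGroups Manifold Real

namespace Fermat.Agent.S30.H810

open Fermat.Agent.S24 Fermat.Agent.S24.H648 Fermat.Agent.S24.H708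

variable {L : ℕ} [NeZero L]

/-- periodicity on `ℍ` gives periodicity of the extension by junk -/
theorem periodic_of_vadd {f : ℍ → ℂ} (hf : ∀ τ : ℍ, f ((L : ℝ) +ᵥ τ) = f τ) :
    Function.Periodic (f ∘ ofComplex) (L : ℝ) := by
  intro w
  by_cases hw : 0 < Complex.im w
  · have hw' : 0 < Complex.im (w + ((L : ℝ) : ℂ)) := by simpa using hw
    simp only [Function.comp_apply, ofComplex_apply_of_im_pos hw', ofComplex_apply_of_im_pos hw]
    rw [← hf ⟨w, hw⟩]
    congr 1
    apply UpperHalfPlane.ext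
    rw [UpperHalfPlane.coe_vadd]
    simp [add_comm]
  · have hw0 : Complex.im w ≤ 0 := not_lt.mp hw
    have hw' : Complex.im (w + ((L : ℝ) : ℂ)) ≤ 0 := by simpa using hw0
    simp only [Function.comp_apply]
    rw [ofComplex_apply_of_im_nonpos hw', ofComplex_apply_of_im_nonpos hw0]

/-- exponential growth gives a pole of finite order in `q_L` -/
theorem isBounded_mul_qh_pow_of_expGrowth' {f : ℍ → ℂ} (hf : ExpGrowth f) :
    ∃ M : ℕ, IsBoundedAtImInfty (f * qh L ^ M) := by
  obtain ⟨C, m, h⟩ := hf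
  refine ⟨L * m, ?_⟩
  rw [UpperHalfPlane.isBoundedAtImInfty_iff]
  refine ⟨C, 1, fun τ hτ => ?_⟩
  have h1 := h τ hτ
  have hL : (L : ℝ) ≠ 0 := Nat.cast_ne_zero.mpr (NeZero.ne L)
  have hq : ‖qh L τ‖ = Real.exp (-2 * π * τ.im / L) := by
    rw [qh_apply, Function.Periodic.norm_qParam]
    simp
  rw [Pi.mul_apply, Pi.pow_apply, norm_mul, norm_pow, hq, ← Real.exp_nat_mul]
  calc ‖f τ‖ * Real.exp (((L * m : ℕ) : ℝ) * (-2 * π * τ.im / L))
      ≤ C * Real.exp (2 * π * m * τ.im) * Real.exp (((L * m : ℕ) : ℝ) * (-2 * π * τ.im / L)) :=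
        mul_le_mul_of_nonneg_right h1 (Real.exp_pos _).le
    _ = C := by
        rw [mul_assoc, ← Real.exp_add]
        have : 2 * π * m * τ.im + ((L * m : ℕ) : ℝ) * (-2 * π * τ.im / L) = 0 := by
          push_cast
          field_simp
          ring
        rw [this, Real.exp_zero, mul_one]

/-- holomorphic + periodic + exponential growth ⟹ `IsMerInf` -/
theorem isMerInf_of_periodic {f : ℍ → ℂ} (hol : MDiff f)
    (hper : ∀ τ : ℍ, f ((L : ℝ) +ᵥ τ) = f τ) (hg : ExpGrowth f) : IsMerInf L f :=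
  ⟨hol, periodic_of_vadd hper, isBounded_mul_qh_pow_of_expGrowth' hg⟩

/-- the twisting unit `exp(2πi a / L)` -/
def shiftUnit (L : ℕ) (a : ℝ) : ℂˣ :=
  Units.mk0 (Complex.exp (2 * π * Complex.I * a / L)) (Complex.exp_ne_zero _)

theorem qh_vadd (a : ℝ) (τ : ℍ) : qh L (a +ᵥ τ) = (shiftUnit L a : ℂ) * qh L τ := by
  rw [qh_apply, qh_apply, Function.Periodic.qParam, Function.Periodic.qParam, shiftUnit,
    Units.val_mk0, ← Complex.exp_add, UpperHalfPlane.coe_vadd]
  congr 1
  push_cast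
  ring

/-- **SHIFT lemma.** -/
theorem hasQExp_vadd {f : ℍ → ℂ} {φ : LaurentSeries ℂ} (hf : HasQExp L f φ) (a : ℝ)
    (hol : MDiff (fun τ : ℍ => f (a +ᵥ τ))) :
    HasQExp L (fun τ : ℍ => f (a +ᵥ τ)) (infTwist (shiftUnit L a) φ) := by
  refine HasQExp.of_hasSum hol fun τ => ?_
  have h := hf.hasSum (a +ᵥ τ)
  convert h using 1
  funext n
  rw [infTwist_coeff, qh_vadd, mul_zpow, Units.val_zpow_eq_zpow_val]
  ring

/-- If `f (τ + a) = z f τ` then the twisting unit to the order of the expansion is `z`. -/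
theorem shiftUnit_zpow_order_eq {f : ℍ → ℂ} {φ : LaurentSeries ℂ} (hf : HasQExp L f φ)
    (hf0 : f ≠ 0) (a : ℝ) (z : ℂ) (hz : ∀ τ : ℍ, f (a +ᵥ τ) = z * f τ) :
    ((shiftUnit L a : ℂˣ) : ℂ) ^ φ.order = z := by
  have hol : MDiff (fun τ : ℍ => f (a +ᵥ τ)) := by
    have : (fun τ : ℍ => f (a +ᵥ τ)) = (fun _ : ℍ => z) * f := by
      funext τ; exact hz τ
    rw [this]
    exact mdifferentiable_const.mul hf.mdiff
  have h1 := hasQExp_vadd hf a hol
  have h2 : HasQExp L (fun τ : ℍ => f (a +ᵥ τ)) (HahnSeries.C z * φ) := by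
    have : (fun τ : ℍ => f (a +ᵥ τ)) = (fun _ : ℍ => z) * f := by
      funext τ; exact hz τ
    rw [this]
    exact (HasQExp.const L z).mul hf
  have h3 := h1.unique h2
  have hφ : φ ≠ 0 := fun h0 => hf0 ((hf.eq_zero_iff).mp h0)
  have h4 := congrArg HahnSeries.leadingCoeff h3
  rw [infTwist_leadingCoeff, HahnSeries.leadingCoeff_mul] at h4
  have hlc : φ.leadingCoeff ≠ 0 := HahnSeries.leadingCoeff_ne_zero.mpr hφ
  have hz0 : z ≠ 0 := by
    rintro rfl
    apply hφ
    have : infTwist (shiftUnit L a) φ = 0 := by rw [h3]; simp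
    exact (infTwist_eq_zero_iff _ _).mp this
  have hCz : (HahnSeries.C z : LaurentSeries ℂ).leadingCoeff = z := by
    rw [HahnSeries.C_apply, HahnSeries.leadingCoeff_of_single]
  rw [hCz, Units.val_zpow_eq_zpow_val, mul_comm] at h4
  exact mul_right_cancel₀ hlc h4

end Fermat.Agent.S30.H810

end
end
-- ===== PACK-END S30/H810/QShift.lean

-- ===== PACK-BEGIN S21/H81/InjCore.lean
section



/-!
# S21, piece C (core): a holomorphic function on `ℍ` whose real part is `Γ₀(N)`-invariant and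
which has a limit at every cusp has vanishing derivative.
-/

set_option autoImplicit false

open UpperHalfPlane CongruenceSubgroup Filter Topology Complex
open scoped MatrixGroups Manifold

namespace Fermat.Agent.S21.H81

/-- `SL(2,ℤ)` acts holomorphically on `ℍ`. -/
theorem injCore_mdiff_smul (g : SL(2, ℤ)) : MDiff (fun τ : ℍ => g • τ) := by
  have h : (0 : ℝ) < ((g : GL (Fin 2) ℝ).det : ℝ) := by simp
  exact mdifferentiable_smul h

theorem injCore_mdiff_of_differentiableAt {A : ℍ → ℂ}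
    (hol : ∀ τ : ℍ, DifferentiableAt ℂ (A ∘ ofComplex) (τ : ℂ)) : MDiff A := by
  intro τ
  exact UpperHalfPlane.mdifferentiableAt_iff.mpr (hol τ)

/-- `T ^ N` conjugated by anything lies in `Γ₀(N)`. -/
theorem injCore_conj_T_pow_mem (N : ℕ) (δ : SL(2, ℤ)) :
    δ * ModularGroup.T ^ (N : ℤ) * δ⁻¹ ∈ Gamma0 N := by
  have h1 : ModularGroup.T ^ (N : ℤ) ∈ CongruenceSubgroup.Gamma N := by
    rw [Gamma_mem, ModularGroup.coe_T_zpow]
    simp
  have h2 : δ * ModularGroup.T ^ (N : ℤ) * δ⁻¹ ∈ CongruenceSubgroup.Gamma N :=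
    (Gamma_normal N).conj_mem _ h1 δ
  exact Gamma0_mem.mpr (Gamma_mem.mp h2).2.2.1

theorem injCore_tendsto_vadd (x : ℝ) :
    Tendsto (fun w : ℍ => x +ᵥ w) atImInfty atImInfty := by
  rw [atImInfty, tendsto_comap_iff]
  have : (UpperHalfPlane.im ∘ fun w : ℍ => x +ᵥ w) = UpperHalfPlane.im := by
    funext w; simp
  rw [this]
  exact tendsto_comap


section core

variable {N : ℕ} {A : ℍ → ℂ}

theorem injCore_vadd_eq
    (hinv : ∀ γ ∈ Gamma0 N, ∃ c : ℂ, c.re = 0 ∧ ∀ z : ℍ, A (γ • z) - A z = c)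
    (hcusp : ∀ δ : SL(2, ℤ), ∃ L : ℂ, Tendsto (fun w : ℍ => A (δ • w)) atImInfty (𝓝 L))
    (δ : SL(2, ℤ)) (w : ℍ) : A (δ • ((N : ℝ) +ᵥ w)) = A (δ • w) := by
  obtain ⟨c, -, hc⟩ := hinv _ (injCore_conj_T_pow_mem N δ)
  have key : ∀ w : ℍ, A (δ • ((N : ℝ) +ᵥ w)) - A (δ • w) = c := by
    intro w
    have h := hc (δ • w)
    have e : (δ * ModularGroup.T ^ (N : ℤ) * δ⁻¹) • (δ • w) = δ • ((N : ℝ) +ᵥ w) := by
      rw [mul_smul, mul_smul, inv_smul_smul, modular_T_zpow_smul]
      simp
    rwa [e] at h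
  obtain ⟨L, hL⟩ := hcusp δ
  have h1 : Tendsto (fun w : ℍ => A (δ • ((N : ℝ) +ᵥ w))) atImInfty (𝓝 L) :=
    hL.comp (injCore_tendsto_vadd (N : ℝ))
  have h2 : Tendsto (fun w : ℍ => A (δ • ((N : ℝ) +ᵥ w)) - A (δ • w)) atImInfty (𝓝 (L - L)) :=
    h1.sub hL
  have h3 : Tendsto (fun _ : ℍ => c) atImInfty (𝓝 (L - L)) := by
    refine h2.congr ?_
    intro w
    exact key w
  have hc0 : c = 0 := by
    have := tendsto_nhds_unique h3 tendsto_const_nhds
    simpa using this.symm
  have := key w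
  rw [hc0, sub_eq_zero] at this
  exact this

/-- The functions `E δ w = exp (A (δ • w))`. -/
noncomputable def injCoreE (A : ℍ → ℂ) (δ : SL(2, ℤ)) : ℍ → ℂ := fun w => cexp (A (δ • w))

theorem injCoreE_mdiff (hA : MDiff A) (δ : SL(2, ℤ)) : MDiff (injCoreE A δ) := by
  have h1 : MDiff (fun w : ℍ => A (δ • w)) := hA.comp (injCore_mdiff_smul δ)
  exact (Complex.differentiable_exp.mdifferentiable).comp h1

theorem injCoreE_periodic [NeZero N]
    (hinv : ∀ γ ∈ Gamma0 N, ∃ c : ℂ, c.re = 0 ∧ ∀ z : ℍ, A (γ • z) - A z = c)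
    (hcusp : ∀ δ : SL(2, ℤ), ∃ L : ℂ, Tendsto (fun w : ℍ => A (δ • w)) atImInfty (𝓝 L))
    (δ : SL(2, ℤ)) : Function.Periodic (injCoreE A δ ∘ ofComplex) ((N : ℝ) : ℂ) := by
  intro w
  by_cases hw : 0 < im w
  · have hw' : 0 < im (w + ((N : ℝ) : ℂ)) := by simpa using hw
    simp only [Function.comp_apply, ofComplex_apply_of_im_pos hw', ofComplex_apply_of_im_pos hw]
    have e : (⟨w + ((N : ℝ) : ℂ), hw'⟩ : ℍ) = (N : ℝ) +ᵥ (⟨w, hw⟩ : ℍ) := by
      ext
      simp [add_comm]
    rw [e]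
    unfold injCoreE
    rw [injCore_vadd_eq hinv hcusp δ]
  · have hw' : im (w + ((N : ℝ) : ℂ)) ≤ 0 := by simpa using not_lt.mp hw
    simp only [Function.comp_apply]
    rw [ofComplex_apply_of_im_nonpos hw', ofComplex_apply_of_im_nonpos (not_lt.mp hw)]

theorem injCoreE_bdd
    (hcusp : ∀ δ : SL(2, ℤ), ∃ L : ℂ, Tendsto (fun w : ℍ => A (δ • w)) atImInfty (𝓝 L))
    (δ : SL(2, ℤ)) : IsBoundedAtImInfty (injCoreE A δ) := by
  obtain ⟨L, hL⟩ := hcusp δ
  have h : Tendsto (injCoreE A δ) atImInfty (𝓝 (cexp L)) :=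
    (Complex.continuous_exp.tendsto L).comp hL
  exact h.isBigO_one ℝ


theorem injCore_norm_qParam_le (hN : (0 : ℝ) < N) {w : ℍ} (hw : 1 / 2 ≤ w.im) :
    ‖Function.Periodic.qParam (N : ℝ) (w : ℂ)‖ ≤ Real.exp (-Real.pi / N) := by
  rw [Function.Periodic.norm_qParam, Real.exp_le_exp]
  have hpi := Real.pi_pos
  rw [div_le_div_iff_of_pos_right hN]
  have : (w : ℂ).im = w.im := rfl
  rw [this]
  nlinarith

theorem injCore_exp_const [NeZero N] (hol : MDiff A)
    (hinv : ∀ γ ∈ Gamma0 N, ∃ c : ℂ, c.re = 0 ∧ ∀ z : ℍ, A (γ • z) - A z = c)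
    (hcusp : ∀ δ : SL(2, ℤ), ∃ L : ℂ, Tendsto (fun w : ℍ => A (δ • w)) atImInfty (𝓝 L)) :
    ∃ K : ℂ, ∀ z : ℍ, cexp (A z) = K := by
  have hNpos : (0 : ℝ) < N := Nat.cast_pos.mpr (NeZero.pos N)
  set r := Real.exp (-Real.pi / N) with hr
  have hr0 : 0 ≤ r := (Real.exp_pos _).le
  have hr1 : r < 1 := by
    rw [hr, ← Real.exp_zero, Real.exp_lt_exp]
    exact div_neg_of_neg_of_pos (neg_lt_zero.mpr Real.pi_pos) hNpos
  -- cusp functions
  let Et : SL(2, ℤ) → ℂ → ℂ := fun δ => cuspFunction (N : ℝ) (injCoreE A δ)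
  have hdiff : ∀ δ, DifferentiableOn ℂ (Et δ) (Metric.ball 0 1) := fun δ =>
    differentiableOn_cuspFunction_ball hNpos (injCoreE_periodic hinv hcusp δ)
      (injCoreE_mdiff hol δ) (injCoreE_bdd hcusp δ)
  have heq : ∀ δ (w : ℍ), Et δ (Function.Periodic.qParam (N : ℝ) (w : ℂ)) = cexp (A (δ • w)) :=
    fun δ w => eq_cuspFunction w hNpos.ne' (injCoreE_periodic hinv hcusp δ)
  -- maxima on the closed ball
  have hmax : ∀ δ, ∃ q ∈ Metric.closedBall (0 : ℂ) r,
      IsMaxOn (norm ∘ Et δ) (Metric.closedBall 0 r) q := fun δ =>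
    (isCompact_closedBall 0 r).exists_isMaxOn (Metric.nonempty_closedBall.mpr hr0)
      ((hdiff δ).continuousOn.mono (Metric.closedBall_subset_ball hr1)).norm
  choose qmax hqmem hqmax using hmax
  -- finite quotient
  let δof : SL(2, ℤ) ⧸ Gamma0 N → SL(2, ℤ) := fun c => (Quotient.out c)⁻¹
  obtain ⟨c₀, hc₀⟩ := Finite.exists_max
    (fun c : SL(2, ℤ) ⧸ Gamma0 N => ‖Et (δof c) (qmax (δof c))‖)
  -- key bound
  have hbound : ∀ z : ℍ, ‖cexp (A z)‖ ≤ ‖Et (δof c₀) (qmax (δof c₀))‖ := by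
    intro z
    obtain ⟨g, hg⟩ := ModularGroup.exists_smul_mem_fd z
    have him : 1 / 2 ≤ (g • z).im := by
      have := ModularGroup.three_le_four_mul_im_sq_of_mem_fd hg
      nlinarith [(g • z).im_pos]
    set c : SL(2, ℤ) ⧸ Gamma0 N := (g : SL(2, ℤ) ⧸ Gamma0 N) with hcdef
    have hγ : (Quotient.out c)⁻¹ * g ∈ Gamma0 N :=
      QuotientGroup.eq.mp (QuotientGroup.out_eq' c)
    obtain ⟨c', hc're, hc'⟩ := hinv _ ((Gamma0 N).inv_mem hγ)
    have hz : ((Quotient.out c)⁻¹ * g)⁻¹ • (δof c • (g • z)) = z := by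
      simp only [δof, mul_inv_rev, inv_inv, mul_smul, smul_inv_smul, inv_smul_smul]
    have h1 := hc' (δof c • (g • z))
    rw [hz] at h1
    have hre : (A z).re = (A (δof c • (g • z))).re := by
      have := congrArg Complex.re h1
      simp only [Complex.sub_re] at this
      linarith
    have hnorm : ‖cexp (A z)‖ = ‖cexp (A (δof c • (g • z)))‖ := by
      rw [Complex.norm_exp, Complex.norm_exp, hre]
    rw [hnorm, ← heq]
    have hmem : Function.Periodic.qParam (N : ℝ) ((g • z : ℍ) : ℂ) ∈ Metric.closedBall (0 : ℂ) r := by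
      rw [mem_closedBall_zero_iff]
      exact injCore_norm_qParam_le hNpos him
    exact (hqmax (δof c) hmem).trans (hc₀ c)
  -- max on the open ball
  have hmaxball : IsMaxOn (norm ∘ Et (δof c₀)) (Metric.ball 0 1) (qmax (δof c₀)) := by
    intro q hq
    show ‖Et (δof c₀) q‖ ≤ ‖Et (δof c₀) (qmax (δof c₀))‖
    by_cases hq0 : q = 0
    · subst hq0
      exact hqmax _ (Metric.mem_closedBall_self hr0)
    · have him := Function.Periodic.im_invQParam_pos_of_norm_lt_one hNpos
        (mem_ball_zero_iff.mp hq) hq0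
      have h2 := heq (δof c₀) ⟨_, him⟩
      rw [UpperHalfPlane.coe_mk, Function.Periodic.qParam_right_inv hNpos.ne' hq0] at h2
      rw [h2]
      exact hbound _
  have hconst := Complex.eq_const_of_exists_max (hdiff (δof c₀))
    (Metric.closedBall_subset_ball hr1 (hqmem _)) hmaxball
  refine ⟨Et (δof c₀) (qmax (δof c₀)), fun z => ?_⟩
  have h3 := heq (δof c₀) ((δof c₀)⁻¹ • z)
  rw [smul_inv_smul] at h3
  rw [← h3]
  refine hconst ?_
  rw [mem_ball_zero_iff]
  exact Function.Periodic.norm_qParam_lt_one hNpos (UpperHalfPlane.im_pos _)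

/-- **Core of the injectivity argument.** A holomorphic function on `ℍ` whose real part is
`Γ₀(N)`-invariant and which has a limit at every cusp has vanishing derivative. -/
theorem injCore_deriv_eq_zero [NeZero N]
    (hol : ∀ τ : ℍ, DifferentiableAt ℂ (A ∘ ofComplex) (τ : ℂ))
    (hinv : ∀ γ ∈ Gamma0 N, ∃ c : ℂ, c.re = 0 ∧ ∀ z : ℍ, A (γ • z) - A z = c)
    (hcusp : ∀ δ : SL(2, ℤ), ∃ L : ℂ, Tendsto (fun w : ℍ => A (δ • w)) atImInfty (𝓝 L))
    (τ : ℍ) : deriv (A ∘ ofComplex) (τ : ℂ) = 0 := by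
  obtain ⟨K, hK⟩ := injCore_exp_const (injCore_mdiff_of_differentiableAt hol) hinv hcusp
  have h1 : (fun z : ℂ => cexp ((A ∘ ofComplex) z)) =ᶠ[𝓝 (τ : ℂ)] fun _ => K := by
    have hopen : {z : ℂ | 0 < z.im} ∈ 𝓝 (τ : ℂ) :=
      isOpen_upperHalfPlaneSet.mem_nhds τ.im_pos
    filter_upwards [hopen] with z hz
    simp only [Function.comp_apply]
    exact hK _
  have h2 : deriv (fun z : ℂ => cexp ((A ∘ ofComplex) z)) (τ : ℂ) = 0 := by
    rw [h1.deriv_eq]
    simp
  have h3 : HasDerivAt (fun z : ℂ => cexp ((A ∘ ofComplex) z))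
      (cexp ((A ∘ ofComplex) (τ : ℂ)) * deriv (A ∘ ofComplex) (τ : ℂ)) (τ : ℂ) :=
    (hol τ).hasDerivAt.cexp
  rw [h3.deriv] at h2
  exact (mul_eq_zero.mp h2).resolve_left (Complex.exp_ne_zero _)

end core

end Fermat.Agent.S21.H81

end
-- ===== PACK-END S21/H81/InjCore.lean

-- ===== PACK-BEGIN S21/H81/CPrime.lean
section


/-!
# S21, interface piece C' (helper201's exact statement): a cusp form all of whose periods
have vanishing real part is zero.
-/

set_option autoImplicit false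

open UpperHalfPlane CongruenceSubgroup Filter Topology Complex ModularCurve ModularCurve.Period
open scoped MatrixGroups Manifold

namespace Fermat.Agent.S21.H81

/-- **C'** If all periods of `f` have real part `0`, then `f = 0`. -/
theorem eq_zero_of_re_period_eq_zero (N : ℕ) [NeZero N] (f : CuspForm (Gamma0 N) 2)
    {F : ℍ → ℂ} (hF : HasEquivariantPrimitive N f F)
    (h : ∀ γ : Gamma0 N, (F ((γ : SL(2, ℤ)) • UpperHalfPlane.I) - F UpperHalfPlane.I).re = 0) :
    f = 0 := by
  have hd : ∀ τ : ℍ, deriv (F ∘ ofComplex) (τ : ℂ) = 0 := by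
    refine injCore_deriv_eq_zero (N := N) (fun τ => (hF.1 τ).differentiableAt) ?_ hF.2.2.2
    intro γ hγ
    exact ⟨hF.2.2.1.period ⟨γ, hγ⟩, h ⟨γ, hγ⟩, fun z => hF.2.2.1.sub_eq_period ⟨γ, hγ⟩ z⟩
  ext τ
  have := hd τ
  rw [(hF.1 τ).deriv] at this
  simpa using this

end Fermat.Agent.S21.H81

end
-- ===== PACK-END S21/H81/CPrime.lean

-- ===== PACK-BEGIN S21/H561/Weyl.lean
section


/-!
# Weyl's lemma for the Cauchy–Riemann operator (helper561)

If `g` is locally integrable on an open set `U ⊆ ℂ` and `∫ g · ∂η/∂z̄ = 0` for every real-valued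
smooth compactly supported `η` with support in `U`, then `g` agrees a.e. on `U` with a
holomorphic function.
-/

open MeasureTheory Complex Metric Set Filter Topology
open scoped Convolution ContDiff Real

namespace Fermat.Agent.S21.H561

noncomputable section

/-- The Wirtinger derivative `∂/∂z̄` of a real-valued function on `ℂ`. -/
def dbarR (η : ℂ → ℝ) (z : ℂ) : ℂ :=
  (1 / 2 : ℂ) * ((fderiv ℝ η z 1 : ℝ) + I * (fderiv ℝ η z I : ℝ))

/-- `g` is weakly holomorphic on `U`: it is orthogonal to `∂η/∂z̄` for every real test function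
supported in `U`. -/
def WeakHolo (U : Set ℂ) (g : ℂ → ℂ) : Prop :=
  ∀ η : ℂ → ℝ, ContDiff ℝ ∞ η → HasCompactSupport η → tsupport η ⊆ U →
    ∫ z, g z * dbarR η z = 0

/-- mollification of `G` by the real kernel `m`. -/
def mol (m : ℂ → ℝ) (G : ℂ → ℂ) (x : ℂ) : ℂ := ∫ t, m (x - t) • G t

/-- The bilinear map `(c, r) ↦ r • c`. -/
def smulFlip : ℂ →L[ℝ] ℝ →L[ℝ] ℂ := (ContinuousLinearMap.lsmul ℝ ℝ).flip

@[simp] lemma smulFlip_apply (c : ℂ) (r : ℝ) : smulFlip c r = r • c := rfl

lemma mol_eq_convolution (m : ℂ → ℝ) (G : ℂ → ℂ) :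
    mol m G = G ⋆[smulFlip, volume] m := by
  ext x
  simp [mol, convolution_def]

lemma mol_eq_convolution' (m : ℂ → ℝ) (G : ℂ → ℂ) :
    mol m G = m ⋆[ContinuousLinearMap.lsmul ℝ ℝ, volume] G := by
  rw [mol_eq_convolution, smulFlip, convolution_flip]

lemma hasFDerivAt_mol {m : ℂ → ℝ} {G : ℂ → ℂ} (hm : ContDiff ℝ 1 m) (hcm : HasCompactSupport m)
    (hG : LocallyIntegrable G volume) (x : ℂ) :
    HasFDerivAt (mol m G) ((G ⋆[smulFlip.precompR ℂ, volume] fderiv ℝ m) x) x := by
  rw [mol_eq_convolution]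
  exact hcm.hasFDerivAt_convolution_right smulFlip hG hm x

lemma fderiv_mol_apply {m : ℂ → ℝ} {G : ℂ → ℂ} (hm : ContDiff ℝ 1 m) (hcm : HasCompactSupport m)
    (hG : LocallyIntegrable G volume) (x v : ℂ) :
    (G ⋆[smulFlip.precompR ℂ, volume] fderiv ℝ m) x v = ∫ t, (fderiv ℝ m (x - t) v) • G t := by
  rw [convolution_precompR_apply smulFlip hG (hcm.fderiv ℝ) (hm.continuous_fderiv one_ne_zero)]
  simp [convolution_def]

lemma differentiableAt_mol_of_weak {m : ℂ → ℝ} {G : ℂ → ℂ} (hm : ContDiff ℝ 1 m)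
    (hcm : HasCompactSupport m) (hG : LocallyIntegrable G volume) (x : ℂ)
    (hw : ∫ t, G t * dbarR (fun t => m (x - t)) t = 0) :
    DifferentiableAt ℂ (mol m G) x := by
  have hD := hasFDerivAt_mol hm hcm hG x
  refine differentiableAt_complex_iff_differentiableAt_real.2 ⟨hD.differentiableAt, ?_⟩
  rw [hD.fderiv, fderiv_mol_apply hm hcm hG, fderiv_mol_apply hm hcm hG]
  -- the two directional derivatives of the kernel
  have hfd : ∀ t v, fderiv ℝ (fun t => m (x - t)) t v = - fderiv ℝ m (x - t) v := by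
    intro t v
    have h1 : HasFDerivAt (fun t : ℂ => m (x - t))
        ((fderiv ℝ m (x - t)).comp (-(ContinuousLinearMap.id ℝ ℂ))) t := by
      have := (hm.differentiable one_ne_zero (x - t)).hasFDerivAt
      exact this.comp t ((hasFDerivAt_id t).const_sub x)
    rw [h1.fderiv]
    simp
  have hcont : ∀ v : ℂ, Continuous fun t => fderiv ℝ m (x - t) v := by
    intro v
    have := hm.continuous_fderiv one_ne_zero
    exact (this.comp (continuous_const.sub continuous_id)).clm_apply continuous_const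
  have hcs : ∀ v : ℂ, HasCompactSupport fun t => fderiv ℝ m (x - t) v := by
    intro v
    have h1 : HasCompactSupport (fun t => fderiv ℝ m t v) := by
      refine (hcm.fderiv ℝ).mono ?_
      intro t ht
      simp only [Function.mem_support, ne_eq] at ht ⊢
      intro h0
      exact ht (by simp [h0])
    have := h1.comp_homeomorph ((Homeomorph.neg ℂ).trans (Homeomorph.addLeft x))
    refine this.mono ?_
    intro t ht
    simpa [sub_eq_add_neg] using ht
  have hint : ∀ v : ℂ, Integrable (fun t => fderiv ℝ m (x - t) v • G t) volume := fun v =>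
    hG.integrable_smul_left_of_hasCompactSupport (hcont v) (hcs v)
  have key : (∫ t, fderiv ℝ m (x - t) 1 • G t) + I • ∫ t, fderiv ℝ m (x - t) I • G t = 0 := by
    have hI : Integrable (fun t => I • fderiv ℝ m (x - t) I • G t) volume := (hint I).smul I
    rw [← integral_smul, ← integral_add (hint 1) hI]
    have : ∀ t, fderiv ℝ m (x - t) 1 • G t + I • fderiv ℝ m (x - t) I • G t
        = (-2 : ℂ) * (G t * dbarR (fun t => m (x - t)) t) := by
      intro t
      simp only [dbarR, hfd, Complex.real_smul, smul_eq_mul, Complex.ofReal_neg]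
      ring
    simp_rw [this]
    rw [integral_const_mul, hw, mul_zero]
  have h2 : I • ((∫ t, fderiv ℝ m (x - t) 1 • G t) + I • ∫ t, fderiv ℝ m (x - t) I • G t) = 0 := by
    rw [key, smul_zero]
  rw [smul_add, smul_smul, I_mul_I, neg_one_smul] at h2
  exact (eq_of_sub_eq_zero (by rw [← h2]; ring)).symm

/-- rotation invariance of the integral on `ℂ`. -/
lemma integral_comp_rot (f : ℂ → ℂ) (θ : ℝ) :
    ∫ s, f (Complex.exp (θ * I) * s) = ∫ s, f s := by
  have hmp : MeasurePreserving (rotation (Circle.exp θ)) (volume : Measure ℂ) volume :=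
    LinearIsometryEquiv.measurePreserving _
  have := hmp.integral_comp' (f := (rotation (Circle.exp θ)).toHomeomorph.toMeasurableEquiv) f
  simpa [rotation_apply] using this

/-- mean value property of holomorphic functions for averages against a radial kernel. -/
lemma mol_radial_eq {ρ : ℂ → ℝ} {k : ℂ → ℂ} {x : ℂ} {ε R : ℝ} (hρc : Continuous ρ)
    (hρs : ∀ z, ε ≤ ‖z‖ → ρ z = 0) (hρr : ∀ z w, ‖z‖ = ‖w‖ → ρ z = ρ w) (hεR : ε < R)
    (hkc : Continuous k) (hk : DifferentiableOn ℂ k (ball x R)) :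
    mol ρ k x = (∫ t, ρ t) • k x := by
  -- change of variables
  have h0 : mol ρ k x = ∫ u, ρ u • k (x - u) := by
    unfold mol
    rw [← integral_sub_left_eq_self (fun u => ρ u • k (x - u)) volume x]
    simp
  set J : ℂ := ∫ u, ρ u • k (x - u) with hJ
  set F : ℝ → ℂ → ℂ := fun θ s => ρ s • k (x - Complex.exp (θ * I) * s) with hF
  have hFJ : ∀ θ, ∫ s, F θ s = J := by
    intro θ
    have := integral_comp_rot (fun u => ρ u • k (x - u)) θ
    rw [hJ, ← this]
    refine integral_congr_ae (Eventually.of_forall fun s => ?_)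
    simp only [hF]
    rw [hρr (Complex.exp (θ * I) * s) s (by simp [Complex.norm_exp_ofReal_mul_I])]
  -- mean value in θ
  have hmv : ∀ s, ∫ θ in Ioc (0 : ℝ) (2 * π), F θ s = (2 * π) • (ρ s • k x) := by
    intro s
    by_cases hs : ε ≤ ‖s‖
    · simp [hF, hρs s hs]
    · rw [not_le] at hs
      have hd : DiffContOnCl ℂ (fun u => k (x - (u - x) * s)) (ball x |1|) := by
        apply DifferentiableOn.diffContOnCl
        intro u hu
        have hu' : u ∈ closedBall x 1 := by
          have := closure_ball_subset_closedBall hu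
          simpa using this
        have hmem : x - (u - x) * s ∈ ball x R := by
          rw [mem_ball, dist_eq_norm]
          have h1 : ‖(u - x) * s‖ ≤ ‖s‖ := by
            rw [norm_mul]
            have : ‖u - x‖ ≤ 1 := by simpa [dist_eq_norm] using hu'
            calc ‖u - x‖ * ‖s‖ ≤ 1 * ‖s‖ := by gcongr
              _ = ‖s‖ := one_mul _
          have : x - (u - x) * s - x = -((u - x) * s) := by ring
          rw [this, norm_neg]
          linarith
        have hka : DifferentiableAt ℂ k (x - (u - x) * s) :=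
          hk.differentiableAt (isOpen_ball.mem_nhds hmem)
        have hin : DifferentiableAt ℂ (fun u : ℂ => x - (u - x) * s) u := by fun_prop
        exact (hka.comp u hin).differentiableWithinAt
      have hca := hd.circleAverage
      rw [Real.circleAverage_def] at hca
      simp only [sub_self, zero_mul, sub_zero] at hca
      have h2 : ∫ θ in Ioc (0 : ℝ) (2 * π), F θ s
          = ρ s • ∫ θ in (0 : ℝ)..(2 * π), k (x - (circleMap x 1 θ - x) * s) := by
        rw [intervalIntegral.integral_of_le (by positivity), ← integral_smul]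
        refine integral_congr_ae (Eventually.of_forall fun θ => ?_)
        simp [hF, circleMap]
      rw [h2]
      have h3 : ∫ θ in (0 : ℝ)..(2 * π), k (x - (circleMap x 1 θ - x) * s) = (2 * π) • k x := by
        rw [← hca, smul_smul, mul_inv_cancel₀ (by positivity), one_smul]
      rw [h3, smul_comm]
  -- integrability on the product
  have hFc : Continuous (Function.uncurry F) := by
    simp only [hF]
    refine Continuous.smul (hρc.comp continuous_snd) (hkc.comp ?_)
    refine continuous_const.sub (Continuous.mul ?_ continuous_snd)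
    exact Complex.continuous_exp.comp ((Complex.continuous_ofReal.comp continuous_fst).mul
      continuous_const)
  have hFs : ∀ θ s, ε ≤ ‖s‖ → F θ s = 0 := by
    intro θ s hs
    simp [hF, hρs s hs]
  have hint : Integrable (Function.uncurry F)
      ((volume.restrict (Ioc (0 : ℝ) (2 * π))).prod (volume : Measure ℂ)) := by
    obtain ⟨C, hC⟩ := (isCompact_Icc.prod (isCompact_closedBall (0 : ℂ) ε)).exists_bound_of_continuousOn
      (f := Function.uncurry F) hFc.continuousOn (s := Icc (0 : ℝ) (2 * π) ×ˢ closedBall (0 : ℂ) ε)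
    have hdom : Integrable (fun p : ℝ × ℂ => (closedBall (0 : ℂ) ε).indicator (fun _ => C) p.2)
        ((volume.restrict (Ioc (0 : ℝ) (2 * π))).prod (volume : Measure ℂ)) := by
      have h1 : Integrable (fun _ : ℝ => (1 : ℝ)) (volume.restrict (Ioc (0 : ℝ) (2 * π))) :=
        integrable_const _
      have h2 : Integrable ((closedBall (0 : ℂ) ε).indicator (fun _ => C)) (volume : Measure ℂ) := by
        rw [integrable_indicator_iff measurableSet_closedBall]
        exact integrableOn_const (measure_closedBall_lt_top (x := (0 : ℂ)) (r := ε)).ne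
      simpa using h1.mul_prod h2
    refine hdom.mono' hFc.aestronglyMeasurable ?_
    have hae : ∀ᵐ p : ℝ × ℂ ∂((volume.restrict (Ioc (0 : ℝ) (2 * π))).prod (volume : Measure ℂ)),
        p.1 ∈ Ioc (0 : ℝ) (2 * π) := by
      have : (volume.restrict (Ioc (0 : ℝ) (2 * π))).prod (volume : Measure ℂ)
          = ((volume : Measure ℝ).prod (volume : Measure ℂ)).restrict
              (Ioc (0 : ℝ) (2 * π) ×ˢ (univ : Set ℂ)) := by
        rw [← Measure.prod_restrict, Measure.restrict_univ]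
      rw [this]
      filter_upwards [ae_restrict_mem (measurableSet_Ioc.prod MeasurableSet.univ)] with p hp
      exact hp.1
    filter_upwards [hae] with p hp
    by_cases hs : p.2 ∈ closedBall (0 : ℂ) ε
    · rw [indicator_of_mem hs]
      exact hC p ⟨Ioc_subset_Icc_self hp, hs⟩
    · rw [indicator_of_notMem hs]
      have : ε ≤ ‖p.2‖ := by
        simp only [mem_closedBall, dist_zero_right, not_le] at hs
        exact hs.le
      simp [Function.uncurry, hFs p.1 p.2 this]
  have hswap := integral_integral_swap (μ := volume.restrict (Ioc (0 : ℝ) (2 * π)))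
    (ν := (volume : Measure ℂ)) (f := F) hint
  simp_rw [hFJ, hmv] at hswap
  rw [integral_const, integral_smul] at hswap
  simp only [measureReal_restrict_apply_univ, Real.volume_real_Ioc_of_le (by positivity : (0:ℝ) ≤ 2 * π),
    sub_zero] at hswap
  rw [h0]
  have h2π : (2 * π : ℝ) ≠ 0 := by positivity
  have := congrArg (fun z : ℂ => (2 * π : ℝ)⁻¹ • z) hswap
  simp only [smul_smul, inv_mul_cancel₀ h2π, one_smul] at this
  rw [this, integral_smul_const]

lemma integrable_mol_kernel {ρ ψ : ℂ → ℝ} {G : ℂ → ℂ} (hρ : Continuous ρ)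
    (hρc : HasCompactSupport ρ) (hψ : Continuous ψ) (hψc : HasCompactSupport ψ)
    (hG : LocallyIntegrable G volume) (x : ℂ) :
    Integrable (Function.uncurry fun t s : ℂ => ρ (x - t) • ψ (t - s) • G s)
      ((volume : Measure ℂ).prod (volume : Measure ℂ)) := by
  -- compact sets carrying the support
  set K₁ : Set ℂ := (fun t => x - t) '' tsupport ρ with hK₁
  have hK₁c : IsCompact K₁ := hρc.isCompact.image (by fun_prop)
  set K₂ : Set ℂ := (fun p : ℂ × ℂ => p.1 - p.2) '' (K₁ ×ˢ tsupport ψ) with hK₂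
  have hK₂c : IsCompact K₂ := (hK₁c.prod hψc.isCompact).image (by fun_prop)
  obtain ⟨Cρ, hCρ⟩ := hρ.bounded_above_of_compact_support hρc
  obtain ⟨Cψ, hCψ⟩ := hψ.bounded_above_of_compact_support hψc
  have hCρ0 : 0 ≤ Cρ := (norm_nonneg _).trans (hCρ 0)
  have hCψ0 : 0 ≤ Cψ := (norm_nonneg _).trans (hCψ 0)
  have h1 : Integrable (K₁.indicator (fun _ => Cρ * Cψ)) (volume : Measure ℂ) := by
    rw [integrable_indicator_iff hK₁c.measurableSet]
    exact integrableOn_const hK₁c.measure_lt_top.ne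
  have h2 : Integrable (K₂.indicator (fun s => ‖G s‖)) (volume : Measure ℂ) := by
    rw [integrable_indicator_iff hK₂c.measurableSet]
    exact (hG.integrableOn_isCompact hK₂c).norm
  have hdom := h1.mul_prod h2
  refine hdom.mono' ?_ (Eventually.of_forall ?_)
  · have hc : Continuous fun p : ℂ × ℂ => ρ (x - p.1) * ψ (p.1 - p.2) := by fun_prop
    have hGm : AEStronglyMeasurable (fun p : ℂ × ℂ => G p.2)
        ((volume : Measure ℂ).prod (volume : Measure ℂ)) := hG.aestronglyMeasurable.comp_snd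
    have := hc.aestronglyMeasurable.smul hGm
    refine this.congr (Eventually.of_forall fun p => ?_)
    simp [Function.uncurry, mul_smul]
  · rintro ⟨t, s⟩
    simp only [Function.uncurry]
    by_cases ht : ρ (x - t) = 0
    · simp only [ht, zero_smul, norm_zero]
      exact mul_nonneg (indicator_nonneg (fun _ _ => mul_nonneg hCρ0 hCψ0) _)
        (indicator_nonneg (fun _ _ => norm_nonneg _) _)
    by_cases hs : ψ (t - s) = 0
    · simp only [hs, zero_smul, smul_zero, norm_zero]
      exact mul_nonneg (indicator_nonneg (fun _ _ => mul_nonneg hCρ0 hCψ0) _)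
        (indicator_nonneg (fun _ _ => norm_nonneg _) _)
    have htK : t ∈ K₁ := ⟨x - t, subset_tsupport _ ht, by ring⟩
    have hsK : s ∈ K₂ := ⟨(t, t - s), ⟨htK, subset_tsupport _ hs⟩, by simp⟩
    rw [indicator_of_mem htK, indicator_of_mem hsK, norm_smul, norm_smul]
    calc ‖ρ (x - t)‖ * (‖ψ (t - s)‖ * ‖G s‖) = (‖ρ (x - t)‖ * ‖ψ (t - s)‖) * ‖G s‖ := by ring
      _ ≤ (Cρ * Cψ) * ‖G s‖ := by
        gcongr
        · exact hCρ _
        · exact hCψ _

lemma mol_mol_eq {ρ ψ : ℂ → ℝ} {G : ℂ → ℂ} (hρ : Continuous ρ)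
    (hρc : HasCompactSupport ρ) (hψ : Continuous ψ) (hψc : HasCompactSupport ψ)
    (hG : LocallyIntegrable G volume) (x : ℂ) :
    mol ρ (mol ψ G) x = ∫ s, (∫ t, ρ (x - t) * ψ (t - s)) • G s := by
  unfold mol
  simp_rw [← integral_smul]
  rw [integral_integral_swap (integrable_mol_kernel hρ hρc hψ hψc hG x)]
  refine integral_congr_ae (Eventually.of_forall fun s => ?_)
  simp only
  rw [← integral_smul_const]
  refine integral_congr_ae (Eventually.of_forall fun t => ?_)
  simp [mul_smul]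

lemma mol_mol_comm {ρ ψ : ℂ → ℝ} {G : ℂ → ℂ} (hρ : Continuous ρ)
    (hρc : HasCompactSupport ρ) (hψ : Continuous ψ) (hψc : HasCompactSupport ψ)
    (hG : LocallyIntegrable G volume) (x : ℂ) :
    mol ρ (mol ψ G) x = mol ψ (mol ρ G) x := by
  rw [mol_mol_eq hρ hρc hψ hψc hG, mol_mol_eq hψ hψc hρ hρc hG]
  refine integral_congr_ae (Eventually.of_forall fun s => ?_)
  simp only
  congr 1
  rw [← integral_sub_left_eq_self (fun t => ρ (x - t) * ψ (t - s)) volume (x + s)]
  refine integral_congr_ae (Eventually.of_forall fun t => ?_)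
  simp only
  rw [mul_comm]
  congr 2 <;> ring

lemma exists_radial_mollifier {ε : ℝ} (hε : 0 < ε) :
    ∃ ρ : ℂ → ℝ, ContDiff ℝ ∞ ρ ∧ HasCompactSupport ρ ∧ (∀ z, ε ≤ ‖z‖ → ρ z = 0) ∧
      (∀ z w, ‖z‖ = ‖w‖ → ρ z = ρ w) ∧ ∫ z, ρ z = 1 := by
  set ρ₀ : ℂ → ℝ := fun z => Real.smoothTransition (1 - ‖z‖ ^ 2 / ε ^ 2) with hρ₀
  have hsm : ContDiff ℝ ∞ ρ₀ := by
    refine Real.smoothTransition.contDiff.comp ?_
    exact contDiff_const.sub ((contDiff_norm_sq ℝ).div_const _)
  have hz : ∀ z, ε ≤ ‖z‖ → ρ₀ z = 0 := by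
    intro z hz
    refine Real.smoothTransition.zero_of_nonpos ?_
    have h1 : ε ^ 2 ≤ ‖z‖ ^ 2 := by gcongr
    have h2 : 1 ≤ ‖z‖ ^ 2 / ε ^ 2 := by
      rw [le_div_iff₀ (by positivity)]
      linarith
    linarith
  have hcs : HasCompactSupport ρ₀ := by
    refine HasCompactSupport.intro (isCompact_closedBall (0 : ℂ) ε) ?_
    intro z hz'
    apply hz
    simp only [mem_closedBall, dist_zero_right, not_le] at hz'
    exact hz'.le
  have hrad : ∀ z w, ‖z‖ = ‖w‖ → ρ₀ z = ρ₀ w := by
    intro z w h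
    simp only [hρ₀, h]
  have hpos : 0 < ∫ z, ρ₀ z := by
    refine hsm.continuous.integral_pos_of_hasCompactSupport_nonneg_nonzero hcs
      (fun z => Real.smoothTransition.nonneg _) (x := 0) ?_
    simp [hρ₀, Real.smoothTransition.one_of_one_le]
  refine ⟨fun z => (∫ z, ρ₀ z)⁻¹ * ρ₀ z, contDiff_const.mul hsm, ?_, ?_, ?_, ?_⟩
  · exact hcs.mul_left
  · intro z hz'
    simp [hz z hz']
  · intro z w h
    simp [hrad z w h]
  · rw [integral_const_mul, inv_mul_cancel₀ hpos.ne']

/-- weak holomorphy on a ball implies holomorphy of every mollification (small kernel). -/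
lemma differentiableAt_mol_of_weakHolo {m : ℂ → ℝ} {G : ℂ → ℂ} {z₀ z : ℂ} {R ε : ℝ}
    (hm : ContDiff ℝ ∞ m) (hcm : HasCompactSupport m) (hms : tsupport m ⊆ closedBall 0 ε)
    (hG : LocallyIntegrable G volume) (hw : WeakHolo (ball z₀ R) G)
    (hz : dist z z₀ + ε < R) :
    DifferentiableAt ℂ (mol m G) z := by
  have hm1 : ContDiff ℝ 1 m := hm.of_le (by norm_num)
  refine differentiableAt_mol_of_weak hm1 hcm hG z ?_
  have hsm : ContDiff ℝ ∞ (fun t => m (z - t)) := hm.comp (contDiff_const.sub contDiff_id)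
  have hcs : HasCompactSupport (fun t => m (z - t)) := by
    have := hcm.comp_homeomorph ((Homeomorph.neg ℂ).trans (Homeomorph.addLeft z))
    refine this.mono ?_
    intro t ht
    simpa [sub_eq_add_neg] using ht
  have hts : tsupport (fun t => m (z - t)) ⊆ ball z₀ R := by
    have h1 : tsupport (fun t => m (z - t)) ⊆ closedBall z ε := by
      refine closure_minimal ?_ isClosed_closedBall
      intro t ht
      have : z - t ∈ tsupport m := subset_tsupport _ ht
      have := hms this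
      simpa [dist_eq_norm, norm_sub_rev] using this
    refine h1.trans ?_
    intro t ht
    rw [mem_ball]
    rw [mem_closedBall] at ht
    calc dist t z₀ ≤ dist t z + dist z z₀ := dist_triangle _ _ _
      _ ≤ ε + dist z z₀ := by linarith
      _ < R := by linarith
  exact hw _ hsm hcs hts

lemma continuous_mol {m : ℂ → ℝ} {G : ℂ → ℂ} (hm : ContDiff ℝ 1 m) (hcm : HasCompactSupport m)
    (hG : LocallyIntegrable G volume) : Continuous (mol m G) :=
  continuous_iff_continuousAt.2 fun x => (hasFDerivAt_mol hm hcm hG x).continuousAt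

/-- local form of Weyl's lemma. -/
lemma weyl_local {G : ℂ → ℂ} {z₀ : ℂ} {r : ℝ} (hr : 0 < r)
    (hG : LocallyIntegrable G volume) (hw : WeakHolo (ball z₀ (4 * r)) G) :
    ∃ f : ℂ → ℂ, DifferentiableOn ℂ f (ball z₀ r) ∧ ∀ᵐ z, z ∈ ball z₀ r → G z = f z := by
  obtain ⟨ρ, hρsm, hρcs, hρz, hρr, hρ1⟩ := exists_radial_mollifier hr
  have hρ1' : ContDiff ℝ 1 ρ := hρsm.of_le (by norm_num)
  have hρts : tsupport ρ ⊆ closedBall 0 r := by
    refine closure_minimal ?_ isClosed_closedBall
    intro t ht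
    by_contra hcon
    simp only [mem_closedBall, dist_zero_right, not_le] at hcon
    exact ht (hρz t hcon.le)
  set h : ℂ → ℂ := mol ρ G with hh
  have hhc : Continuous h := continuous_mol hρ1' hρcs hG
  have hhd : ∀ z ∈ ball z₀ (3 * r), DifferentiableAt ℂ h z := by
    intro z hz
    rw [mem_ball] at hz
    exact differentiableAt_mol_of_weakHolo hρsm hρcs hρts hG hw (by linarith)
  -- Mathlib bump functions
  let φ : ℕ → ContDiffBump (0 : ℂ) := fun n =>
    ⟨r / (2 * (n + 2)), r / (n + 2), by positivity, by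
      rw [div_lt_div_iff₀ (by positivity) (by positivity)]
      have : (0 : ℝ) < (n : ℝ) + 2 := by positivity
      nlinarith⟩
  have hφout : ∀ n, (φ n).rOut = r / (n + 2) := fun n => rfl
  have hφin : ∀ n, (φ n).rIn = r / (2 * (n + 2)) := fun n => rfl
  have hφlt : ∀ n, (φ n).rOut < r := by
    intro n
    rw [hφout, div_lt_iff₀ (by positivity)]
    have : (0 : ℝ) ≤ n := Nat.cast_nonneg n
    nlinarith
  have hφ0 : Tendsto (fun n => (φ n).rOut) atTop (𝓝 0) := by
    simp only [hφout]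
    have h1 : Tendsto (fun n : ℕ => (n : ℝ) + 2) atTop atTop :=
      tendsto_atTop_add_const_right _ _ tendsto_natCast_atTop_atTop
    exact h1.const_div_atTop r
  have hφK : ∀ᶠ n in atTop, (φ n).rOut ≤ 2 * (φ n).rIn := by
    refine Eventually.of_forall fun n => ?_
    rw [hφout, hφin]
    have : (0 : ℝ) < (n : ℝ) + 2 := by positivity
    field_simp
    rfl
  set mφ : ℕ → ℂ → ℝ := fun n => (φ n).normed volume with hmφ
  have hmsm : ∀ n, ContDiff ℝ ∞ (mφ n) := fun n => (φ n).contDiff_normed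
  have hmcs : ∀ n, HasCompactSupport (mφ n) := fun n => (φ n).hasCompactSupport_normed
  have hmts : ∀ n, tsupport (mφ n) ⊆ closedBall 0 (φ n).rOut := fun n =>
    ((φ n).tsupport_normed_eq (μ := volume)).le
  have hm1 : ∀ n, ContDiff ℝ 1 (mφ n) := fun n => (hmsm n).of_le (by norm_num)
  -- the mollifications `k n`
  set k : ℕ → ℂ → ℂ := fun n => mol (mφ n) G with hk
  have hkc : ∀ n, Continuous (k n) := fun n => continuous_mol (hm1 n) (hmcs n) hG
  have hkd : ∀ n, DifferentiableOn ℂ (k n) (ball z₀ (3 * r)) := by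
    intro n z hz
    rw [mem_ball] at hz
    refine (differentiableAt_mol_of_weakHolo (hmsm n) (hmcs n) (hmts n) hG hw
      ?_).differentiableWithinAt
    have := hφlt n
    linarith
  -- mean value + commutation
  have hkey : ∀ n, ∀ z ∈ ball z₀ (2 * r), k n z = mol (mφ n) h z := by
    intro n z hz
    rw [mem_ball] at hz
    have hsub : ball z (3 * r - dist z z₀) ⊆ ball z₀ (3 * r) := by
      intro w hw'
      rw [mem_ball] at hw' ⊢
      calc dist w z₀ ≤ dist w z + dist z z₀ := dist_triangle _ _ _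
        _ < 3 * r := by linarith
    have h1 := mol_radial_eq (ρ := ρ) (k := k n) (x := z) (ε := r) (R := 3 * r - dist z z₀)
      hρsm.continuous hρz hρr (by linarith) (hkc n) ((hkd n).mono hsub)
    rw [hρ1, one_smul] at h1
    rw [← h1]
    exact mol_mol_comm hρsm.continuous hρcs (hmsm n).continuous (hmcs n) hG z
  -- convergence statements
  have hconv1 : ∀ z, Tendsto (fun n => mol (mφ n) h z) atTop (𝓝 (h z)) := by
    intro z
    have := ContDiffBump.convolution_tendsto_right_of_continuous (μ := (volume : Measure ℂ))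
      (φ := φ) hφ0 hhc z
    simpa only [mol_eq_convolution'] using this
  have hconv2 : ∀ᵐ z, Tendsto (fun n => k n z) atTop (𝓝 (G z)) := by
    have := ContDiffBump.ae_convolution_tendsto_right_of_locallyIntegrable
      (μ := (volume : Measure ℂ)) (φ := φ) (K := 2) hφ0 hφK hG
    filter_upwards [this] with z hz
    simpa only [hk, mol_eq_convolution'] using hz
  refine ⟨h, fun z hz => ?_, ?_⟩
  · exact (hhd z (ball_subset_ball (by linarith) hz)).differentiableWithinAt
  · filter_upwards [hconv2] with z hz hzb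
    have hzb' : z ∈ ball z₀ (2 * r) := ball_subset_ball (by linarith) hzb
    have h2 : Tendsto (fun n => k n z) atTop (𝓝 (h z)) := by
      refine (hconv1 z).congr fun n => ?_
      exact (hkey n z hzb').symm
    exact tendsto_nhds_unique hz h2

/-- restriction of a weakly holomorphic function to a closed ball inside `U`. -/
lemma weakHolo_indicator {U : Set ℂ} {g : ℂ → ℂ} (hweak : WeakHolo U g) {z₀ : ℂ} {R : ℝ}
    (hsub : closedBall z₀ R ⊆ U) :
    WeakHolo (ball z₀ R) ((closedBall z₀ R).indicator g) := by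
  intro η hη hηc hηs
  have := hweak η hη hηc ((hηs.trans ball_subset_closedBall).trans hsub)
  rw [← this]
  refine integral_congr_ae (Eventually.of_forall fun z => ?_)
  by_cases hz : z ∈ closedBall z₀ R
  · simp only [indicator_of_mem hz]
  · have hz' : z ∉ tsupport η := fun h => hz (ball_subset_closedBall (hηs h))
    simp [dbarR, fderiv_of_notMem_tsupport ℝ hz']

/-- **Weyl's lemma** for the Cauchy–Riemann operator: a locally integrable weakly holomorphic
function on an open set agrees almost everywhere with a holomorphic function. -/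
theorem weyl_dbar {U : Set ℂ} (hU : IsOpen U) (g : ℂ → ℂ) (hg : LocallyIntegrableOn g U volume)
    (hweak : WeakHolo U g) :
    ∃ f : ℂ → ℂ, DifferentiableOn ℂ f U ∧ ∀ᵐ z ∂(volume.restrict U), g z = f z := by
  -- local data
  have hloc : ∀ z₀ ∈ U, ∃ r : ℝ, 0 < r ∧ ball z₀ r ⊆ U ∧ ∃ f : ℂ → ℂ,
      DifferentiableOn ℂ f (ball z₀ r) ∧ ∀ᵐ z, z ∈ ball z₀ r → g z = f z := by
    intro z₀ hz₀
    obtain ⟨δ, hδ, hδU⟩ := Metric.isOpen_iff.1 hU z₀ hz₀
    have hsub : closedBall z₀ (4 * (δ / 8)) ⊆ U :=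
      (closedBall_subset_ball (by linarith)).trans hδU
    have hGi : Integrable ((closedBall z₀ (4 * (δ / 8))).indicator g) volume := by
      rw [integrable_indicator_iff measurableSet_closedBall]
      exact hg.integrableOn_compact_subset hsub (isCompact_closedBall _ _)
    obtain ⟨f, hf, hfg⟩ := weyl_local (z₀ := z₀) (r := δ / 8) (by positivity)
      hGi.locallyIntegrable (weakHolo_indicator hweak hsub)
    refine ⟨δ / 8, by positivity, (ball_subset_ball (by linarith)).trans hδU, f, hf, ?_⟩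
    filter_upwards [hfg] with z hz hzb
    rw [← hz hzb, indicator_of_mem]
    exact closedBall_subset_closedBall (by linarith) (ball_subset_closedBall hzb)
  choose! r hr hrU F hF hFg using hloc
  -- compatibility on overlaps
  have hcompat : ∀ z ∈ U, ∀ w ∈ U, ∀ u ∈ ball z (r z) ∩ ball w (r w), F z u = F w u := by
    intro z hz w hw
    have hopen : IsOpen (ball z (r z) ∩ ball w (r w)) := isOpen_ball.inter isOpen_ball
    refine Measure.eqOn_open_of_ae_eq (μ := (volume : Measure ℂ)) ?_ hopen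
      ((hF z hz).continuousOn.mono inter_subset_left)
      ((hF w hw).continuousOn.mono inter_subset_right)
    rw [Filter.EventuallyEq, ae_restrict_iff' hopen.measurableSet]
    filter_upwards [hFg z hz, hFg w hw] with u h1 h2 hu
    rw [← h1 hu.1, ← h2 hu.2]
  -- the glued function
  refine ⟨fun w => F w w, ?_, ?_⟩
  · intro z hz
    have hev : (fun w => F w w) =ᶠ[𝓝 z] F z := by
      filter_upwards [isOpen_ball.mem_nhds (mem_ball_self (hr z hz))] with w hw
      have hwU : w ∈ U := hrU z hz hw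
      exact (hcompat z hz w hwU w ⟨hw, mem_ball_self (hr w hwU)⟩).symm
    have hd : DifferentiableAt ℂ (F z) z :=
      (hF z hz).differentiableAt (isOpen_ball.mem_nhds (mem_ball_self (hr z hz)))
    exact (hd.congr_of_eventuallyEq hev).differentiableWithinAt
  · obtain ⟨T, hTU, hTc, hTcov⟩ := TopologicalSpace.countable_cover_nhdsWithin
      (f := fun z => ball z (r z)) (s := U)
      (fun z hz => mem_nhdsWithin_of_mem_nhds (isOpen_ball.mem_nhds (mem_ball_self (hr z hz))))
    rw [ae_restrict_iff' hU.measurableSet]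
    have hall : ∀ᵐ u, ∀ z ∈ T, u ∈ ball z (r z) → g u = F z u := by
      rw [ae_ball_iff hTc]
      intro z hz
      exact hFg z (hTU hz)
    filter_upwards [hall] with u hu huU
    obtain ⟨z, hzT, huz⟩ := mem_iUnion₂.1 (hTcov huU)
    rw [hu z hzT huz]
    exact hcompat z (hTU hzT) u huU u ⟨huz, mem_ball_self (hr u huU)⟩

end

end Fermat.Agent.S21.H561

end
-- ===== PACK-END S21/H561/Weyl.lean

-- ===== PACK-BEGIN S29/H201/Eigen.lean
section







/-!
# S29 / P5-E2 (helper201) — a normalized eigenform (Prelude sense: multiplicative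
`q`-coefficients) is an eigenvector of `T_p`, `p ∤ N`, with eigenvalue `a_p`.
-/

set_option autoImplicit false

open CongruenceSubgroup UpperHalfPlane
open scoped MatrixGroups

namespace Fermat.Agent.S29.H201

variable {N : ℕ} {p : ℕ}

theorem periodic_cuspForm (f : CuspForm (Gamma0 N) 2) :
    Function.Periodic ((f : ℍ → ℂ) ∘ UpperHalfPlane.ofComplex) 1 := by
  have h := SlashInvariantFormClass.periodic_comp_ofComplex f
    (CongruenceSubgroup.one_mem_strictPeriods_Gamma0 N)
  exact_mod_cast h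

theorem bdd_cuspForm (f : CuspForm (Gamma0 N) 2) :
    UpperHalfPlane.IsBoundedAtImInfty (f : ℍ → ℂ) :=
  haveI : Fact (IsCusp OnePoint.infty
      (Subgroup.map (Matrix.SpecialLinearGroup.mapGL ℝ) (Gamma0 N))) :=
    ⟨Subgroup.isCusp_of_mem_strictPeriods one_pos
      (CongruenceSubgroup.one_mem_strictPeriods_Gamma0 N)⟩
  ModularFormClass.bdd_at_infty f

theorem qCoeff_zero_cuspForm (f : CuspForm (Gamma0 N) 2) :
    ModularFormClass.qCoeff (f : ℍ → ℂ) 0 = 0 :=
  CuspFormClass.qExpansion_coeff_zero f one_pos (CongruenceSubgroup.one_mem_strictPeriods_Gamma0 N)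

theorem qCoeff_smul_cuspForm (c : ℂ) (f : CuspForm (Gamma0 N) 2) (n : ℕ) :
    ModularFormClass.qCoeff (c • (f : ℍ → ℂ)) n = c * ModularFormClass.qCoeff (f : ℍ → ℂ) n := by
  unfold ModularFormClass.qCoeff
  rw [qExpansion_smul (ModularFormClass.analyticAt_cuspFunction_zero f one_pos
    (CongruenceSubgroup.one_mem_strictPeriods_Gamma0 N))]
  simp

/-- The Hecke relation on `q`-coefficients of a normalized eigenform. -/
theorem coeffHeckeT_eq_mul {g : CuspForm (Gamma0 N) 2}
    (hg : g.IsNormalizedEigenform) (hp : p.Prime) (hpN : ¬ p ∣ N) (n : ℕ) :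
    ModularForm.coeffHeckeT 2 p (ModularFormClass.qCoeff g) n
      = ModularFormClass.qCoeff g p * ModularFormClass.qCoeff g n := by
  have hpow : ((p : ℂ) ^ ((2 : ℤ) - 1)) = p := by norm_num
  rcases Nat.eq_zero_or_pos n with rfl | hn
  · rw [ModularForm.coeffHeckeT_of_dvd 2 (dvd_zero p)]
    simp [qCoeff_zero_cuspForm g]
  obtain ⟨r, m, hm, rfl⟩ := Nat.exists_eq_pow_mul_and_not_dvd hn.ne' p hp.ne_one
  have hcop : ∀ j : ℕ, (p ^ j).Coprime m := fun j =>
    Nat.Coprime.pow_left j ((Nat.Prime.coprime_iff_not_dvd hp).mpr hm)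
  cases r with
  | zero =>
    rw [pow_zero, one_mul, ModularForm.coeffHeckeT_of_not_dvd 2 hm, mul_comm m p,
      hg.qCoeff_mul_of_coprime p m (by simpa using hcop 1)]
  | succ r =>
    have hdvd : p ∣ p ^ (r + 1) * m := Dvd.dvd.mul_right (dvd_pow_self p (Nat.succ_ne_zero r)) m
    rw [ModularForm.coeffHeckeT_of_dvd 2 hdvd, hpow]
    have h1 : p ^ (r + 1) * m * p = p ^ (r + 2) * m := by ring
    have h2 : p ^ (r + 1) * m / p = p ^ r * m := by
      rw [pow_succ, mul_assoc, mul_comm p m, ← mul_assoc]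
      exact Nat.mul_div_cancel _ hp.pos
    rw [h1, h2, hg.qCoeff_mul_of_coprime _ _ (hcop (r + 2)),
      hg.qCoeff_mul_of_coprime _ _ (hcop r), hg.qCoeff_mul_of_coprime _ _ (hcop (r + 1)),
      hg.qCoeff_prime_pow_of_not_dvd p r hp hpN]
    ring

/-- **E2b** -/
theorem heckeTLin_eq_smul_of_isNormalizedEigenform {g : CuspForm (Gamma0 N) 2}
    (hg : g.IsNormalizedEigenform) (hp : p.Prime) (hpN : ¬ p ∣ N) :
    CuspForm.heckeTLin 2 hp hpN g = ModularFormClass.qCoeff g p • g := by
  apply DFunLike.coe_injective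
  have hL := periodic_cuspForm (CuspForm.heckeTLin 2 hp hpN g)
  have hR := periodic_cuspForm (ModularFormClass.qCoeff g p • g)
  refine UpperHalfPlane.eq_of_forall_qCoeff_eq hL
    (CuspFormClass.holo (CuspForm.heckeTLin 2 hp hpN g))
    (bdd_cuspForm _) hR (CuspFormClass.holo (ModularFormClass.qCoeff g p • g))
    (bdd_cuspForm _) ?_
  intro n
  rw [CuspForm.coe_heckeTLin_apply,
    UpperHalfPlane.qCoeff_heckeT (periodic_cuspForm g) (CuspFormClass.holo g) (bdd_cuspForm g) 2
      hp.ne_zero n, coeffHeckeT_eq_mul hg hp hpN n]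
  have : (⇑(ModularFormClass.qCoeff (⇑g) p • g) : ℍ → ℂ)
      = ModularFormClass.qCoeff (⇑g) p • (g : ℍ → ℂ) := rfl
  rw [this, qCoeff_smul_cuspForm]

end Fermat.Agent.S29.H201

end
-- ===== PACK-END S29/H201/Eigen.lean

-- ===== PACK-BEGIN S20/Comb694/Basic.lean
section






/-!
# Combinatorics on `SL(2,ℤ) ⧸ Gamma0 N` : basic coset criterion, fixed points of `S` and `S * T`.

Left cosets, Mathlib's left-multiplication action (`MulAction.quotient`).
-/

set_option autoImplicit false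

namespace Fermat.Agent.S20.Comb694

open Matrix MatrixGroups CongruenceSubgroup

/-- The `(1,0)` entry of `g⁻¹ * g'`. -/
lemma inv_mul_apply_one_zero (g g' : SL(2, ℤ)) :
    (g⁻¹ * g') 1 0 = g 0 0 * g' 1 0 - g 1 0 * g' 0 0 := by
  rw [Matrix.SpecialLinearGroup.coe_mul, Matrix.SpecialLinearGroup.coe_inv,
    Matrix.adjugate_fin_two, Matrix.mul_apply, Fin.sum_univ_two]
  simp
  ring

/-- Coset criterion: `g Γ₀(N) = g' Γ₀(N)` iff `a c' - c a' ≡ 0 mod N`, where `(a, c)`, `(a', c')`
are the first columns of `g`, `g'`. -/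
lemma mk_eq_mk_iff (N : ℕ) (g g' : SL(2, ℤ)) :
    (QuotientGroup.mk g : SL(2, ℤ) ⧸ Gamma0 N) = QuotientGroup.mk g' ↔
      ((g 0 0 : ℤ) : ZMod N) * ((g' 1 0 : ℤ) : ZMod N)
        - ((g 1 0 : ℤ) : ZMod N) * ((g' 0 0 : ℤ) : ZMod N) = 0 := by
  rw [QuotientGroup.eq, Gamma0_mem, inv_mul_apply_one_zero]
  push_cast
  rfl

/-- Determinant relation in `ZMod N`. -/
lemma det_cast (N : ℕ) (g : SL(2, ℤ)) :
    ((g 0 0 : ℤ) : ZMod N) * ((g 1 1 : ℤ) : ZMod N)
      - ((g 0 1 : ℤ) : ZMod N) * ((g 1 0 : ℤ) : ZMod N) = 1 := by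
  have h := g.det_coe
  rw [Matrix.det_fin_two] at h
  have := congrArg (fun z : ℤ => (z : ZMod N)) h
  simpa using this

/-- Fixed-point criterion for a general element `γ`. -/
lemma smul_mk_eq_mk_iff (N : ℕ) (γ g : SL(2, ℤ)) :
    γ • (QuotientGroup.mk g : SL(2, ℤ) ⧸ Gamma0 N) = QuotientGroup.mk g ↔
      ((g 0 0 : ℤ) : ZMod N) * (((γ * g) 1 0 : ℤ) : ZMod N)
        - ((g 1 0 : ℤ) : ZMod N) * (((γ * g) 0 0 : ℤ) : ZMod N) = 0 := by
  rw [MulAction.Quotient.smul_mk, smul_eq_mul, eq_comm, mk_eq_mk_iff]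

lemma S_mul_apply_zero_zero (g : SL(2, ℤ)) : (ModularGroup.S * g) 0 0 = - g 1 0 := by
  rw [Matrix.SpecialLinearGroup.coe_mul, ModularGroup.coe_S, Matrix.mul_apply, Fin.sum_univ_two]
  simp

lemma S_mul_apply_one_zero (g : SL(2, ℤ)) : (ModularGroup.S * g) 1 0 = g 0 0 := by
  rw [Matrix.SpecialLinearGroup.coe_mul, ModularGroup.coe_S, Matrix.mul_apply, Fin.sum_univ_two]
  simp

lemma coe_S_mul_T : ((ModularGroup.S * ModularGroup.T : SL(2, ℤ)) : Matrix (Fin 2) (Fin 2) ℤ)
    = !![0, -1; 1, 1] := by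
  rw [Matrix.SpecialLinearGroup.coe_mul, ModularGroup.coe_S, ModularGroup.coe_T]
  ext i j
  fin_cases i <;> fin_cases j <;> simp [Matrix.mul_apply, Fin.sum_univ_two]

lemma ST_mul_apply_zero_zero (g : SL(2, ℤ)) :
    (ModularGroup.S * ModularGroup.T * g) 0 0 = - g 1 0 := by
  rw [Matrix.SpecialLinearGroup.coe_mul, coe_S_mul_T, Matrix.mul_apply, Fin.sum_univ_two]
  simp

lemma ST_mul_apply_one_zero (g : SL(2, ℤ)) :
    (ModularGroup.S * ModularGroup.T * g) 1 0 = g 0 0 + g 1 0 := by
  rw [Matrix.SpecialLinearGroup.coe_mul, coe_S_mul_T, Matrix.mul_apply, Fin.sum_univ_two]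
  simp

/-- `g Γ₀(N)` is fixed by `S` iff `a² + c² ≡ 0 mod N`. -/
lemma S_smul_mk_eq_mk_iff (N : ℕ) (g : SL(2, ℤ)) :
    ModularGroup.S • (QuotientGroup.mk g : SL(2, ℤ) ⧸ Gamma0 N) = QuotientGroup.mk g ↔
      ((g 0 0 : ℤ) : ZMod N) ^ 2 + ((g 1 0 : ℤ) : ZMod N) ^ 2 = 0 := by
  rw [smul_mk_eq_mk_iff, S_mul_apply_zero_zero, S_mul_apply_one_zero]
  push_cast
  constructor <;> intro h <;> linear_combination h

/-- `g Γ₀(N)` is fixed by `S * T` iff `a² + a c + c² ≡ 0 mod N`. -/
lemma ST_smul_mk_eq_mk_iff (N : ℕ) (g : SL(2, ℤ)) :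
    (ModularGroup.S * ModularGroup.T) • (QuotientGroup.mk g : SL(2, ℤ) ⧸ Gamma0 N)
        = QuotientGroup.mk g ↔
      ((g 0 0 : ℤ) : ZMod N) ^ 2 + ((g 0 0 : ℤ) : ZMod N) * ((g 1 0 : ℤ) : ZMod N)
        + ((g 1 0 : ℤ) : ZMod N) ^ 2 = 0 := by
  rw [smul_mk_eq_mk_iff, ST_mul_apply_zero_zero, ST_mul_apply_one_zero]
  push_cast
  constructor <;> intro h <;> linear_combination h

/-- The matrix `[[x, -1], [1, 0]]` in `SL(2,ℤ)`. -/
def colRep (x : ℤ) : SL(2, ℤ) := ⟨!![x, -1; 1, 0], by simp [Matrix.det_fin_two]⟩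

@[simp] lemma colRep_apply_zero_zero (x : ℤ) : colRep x 0 0 = x := rfl
@[simp] lemma colRep_apply_one_zero (x : ℤ) : colRep x 1 0 = 1 := rfl

/-- If `a² = c * r` in `ZMod N` for the first column `(a, c)` of `g ∈ SL(2,ℤ)`, then `c` has
an explicit inverse. -/
lemma c_mul_inv_eq_one (N : ℕ) (g : SL(2, ℤ)) (r : ZMod N)
    (h : ((g 0 0 : ℤ) : ZMod N) ^ 2 = ((g 1 0 : ℤ) : ZMod N) * r) :
    ((g 1 0 : ℤ) : ZMod N) *
      (r * ((g 1 1 : ℤ) : ZMod N) ^ 2
        - 2 * ((g 0 0 : ℤ) : ZMod N) * ((g 0 1 : ℤ) : ZMod N) * ((g 1 1 : ℤ) : ZMod N)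
        + ((g 0 1 : ℤ) : ZMod N) ^ 2 * ((g 1 0 : ℤ) : ZMod N)) = 1 := by
  have hdet := det_cast N g
  linear_combination (-(((g 1 1 : ℤ) : ZMod N)) ^ 2) * h
    + (((g 0 0 : ℤ) : ZMod N) * ((g 1 1 : ℤ) : ZMod N)
        - ((g 0 1 : ℤ) : ZMod N) * ((g 1 0 : ℤ) : ZMod N) + 1) * hdet

end Fermat.Agent.S20.Comb694

end
-- ===== PACK-END S20/Comb694/Basic.lean

-- ===== PACK-BEGIN Lib/Newform/H923/HeckeInt.lean
section



/-!
# Hecke representatives versus integer matrices of determinant prime to `ℓ`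

For a prime `ℓ`, the `ℓ + 1` matrices `hRep ℓ x` (`x ∈ ℙ¹(𝔽_ℓ)`) are the standard representatives
used in the Prelude definition of `heckeT`.  For every real matrix `A` with integer entries
`a b c d` and determinant prime to `ℓ` we show
`hRep ℓ x * A = A' * hRep ℓ (σ x)` with `A'` integral of the same determinant, `σ` a permutation
of `ℙ¹(𝔽_ℓ)`, and we keep track of divisibility properties of the entries of `A'`.
-/

set_option autoImplicit false

noncomputable section

namespace Fermat.Agent.Lib.Newform.H923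

open Matrix UpperHalfPlane ModularForm
open scoped MatrixGroups ModularForm OnePoint

/-- `IsInt A a b c d` : the real matrix `A` is `!![a, b; c, d]` with integers `a b c d`. -/
def IsInt (A : GL (Fin 2) ℝ) (a b c d : ℤ) : Prop :=
  (A : Matrix (Fin 2) (Fin 2) ℝ) = !![(a : ℝ), (b : ℝ); (c : ℝ), (d : ℝ)]

/-- The real `2 × 2` matrix with integer entries `a b c d` and nonzero determinant. -/
def intGL (a b c d : ℤ) (h : a * d - b * c ≠ 0) : GL (Fin 2) ℝ :=
  Matrix.GeneralLinearGroup.mkOfDetNeZero !![(a : ℝ), (b : ℝ); (c : ℝ), (d : ℝ)]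
    (by rw [Matrix.det_fin_two_of]; exact_mod_cast h)

theorem isInt_intGL (a b c d : ℤ) (h : a * d - b * c ≠ 0) : IsInt (intGL a b c d h) a b c d := rfl

theorem IsInt.det_ne_zero {A : GL (Fin 2) ℝ} {a b c d : ℤ} (hA : IsInt A a b c d) :
    a * d - b * c ≠ 0 := by
  have h := A.det_ne_zero
  rw [hA, Matrix.det_fin_two_of] at h
  exact_mod_cast h

theorem IsInt.eq_intGL {A : GL (Fin 2) ℝ} {a b c d : ℤ} (hA : IsInt A a b c d) :
    A = intGL a b c d hA.det_ne_zero :=
  Units.ext hA

theorem IsInt.det {A : GL (Fin 2) ℝ} {a b c d : ℤ} (hA : IsInt A a b c d) :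
    (A.det : ℝ) = ((a * d - b * c : ℤ) : ℝ) := by
  rw [Matrix.GeneralLinearGroup.val_det_apply, hA, Matrix.det_fin_two_of]
  push_cast
  ring

theorem isInt_mapGL (g : SL(2, ℤ)) :
    IsInt (Matrix.SpecialLinearGroup.mapGL ℝ g) (g 0 0) (g 0 1) (g 1 0) (g 1 1) := by
  unfold IsInt
  ext i j
  fin_cases i <;> fin_cases j <;> simp

theorem isInt_heckeMatrix {p : ℕ} (hp : p ≠ 0) (j : ℕ) : IsInt (heckeMatrix p j) 1 j 0 p := by
  unfold IsInt
  rw [val_heckeMatrix hp]
  simp

theorem isInt_heckeDiagMatrix {p : ℕ} (hp : p ≠ 0) : IsInt (heckeDiagMatrix p) p 0 0 1 := by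
  unfold IsInt
  rw [val_heckeDiagMatrix hp]
  simp

/-- product of integer matrices -/
theorem IsInt.mul {A B : GL (Fin 2) ℝ} {a b c d a' b' c' d' : ℤ} (hA : IsInt A a b c d)
    (hB : IsInt B a' b' c' d') :
    IsInt (A * B) (a * a' + b * c') (a * b' + b * d') (c * a' + d * c') (c * b' + d * d') := by
  unfold IsInt at *
  rw [Units.val_mul, hA, hB]
  ext i j
  fin_cases i <;> fin_cases j <;> simp [Matrix.mul_apply, Fin.sum_univ_two]

/-- Two elements of `GL(2,ℝ)` with the same integer entries are equal. -/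
theorem IsInt.ext {A B : GL (Fin 2) ℝ} {a b c d a' b' c' d' : ℤ} (hA : IsInt A a b c d)
    (hB : IsInt B a' b' c' d') (h1 : a = a') (h2 : b = b') (h3 : c = c') (h4 : d = d') : A = B := by
  subst h1 h2 h3 h4
  exact Units.ext (hA.trans hB.symm)

section commutation

variable {p : ℕ} (hp : p ≠ 0)
include hp

theorem heckeMatrix_mul_isInt {A A' : GL (Fin 2) ℝ} {a b c d : ℤ} (hA : IsInt A a b c d)
    (j j' : ℕ) (e : ℤ) (he : b + j * d = j' * (a + j * c) + p * e)
    (hA' : IsInt A' (a + j * c) e (p * c) (d - c * j')) :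
    heckeMatrix p j * A = A' * heckeMatrix p j' := by
  refine ((isInt_heckeMatrix hp j).mul hA).ext (hA'.mul (isInt_heckeMatrix hp j')) ?_ ?_ ?_ ?_
  · ring
  · linear_combination he
  · ring
  · ring

theorem heckeMatrix_mul_isInt' {A A' : GL (Fin 2) ℝ} {a b c d : ℤ} (hA : IsInt A a b c d)
    (j : ℕ) (e : ℤ) (he : a + j * c = p * e)
    (hA' : IsInt A' e (b + j * d) c (p * d)) :
    heckeMatrix p j * A = A' * heckeDiagMatrix p := by
  refine ((isInt_heckeMatrix hp j).mul hA).ext (hA'.mul (isInt_heckeDiagMatrix hp)) ?_ ?_ ?_ ?_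
  · linear_combination he
  · ring
  · ring
  · ring

theorem heckeDiagMatrix_mul_isInt {A A' : GL (Fin 2) ℝ} {a b c d : ℤ} (hA : IsInt A a b c d)
    (j' : ℕ) (e : ℤ) (he : d = c * j' + p * e)
    (hA' : IsInt A' (p * a) (b - a * j') c e) :
    heckeDiagMatrix p * A = A' * heckeMatrix p j' := by
  refine ((isInt_heckeDiagMatrix hp).mul hA).ext (hA'.mul (isInt_heckeMatrix hp j')) ?_ ?_ ?_ ?_
  · ring
  · ring
  · ring
  · linear_combination he

theorem heckeDiagMatrix_mul_isInt' {A A' : GL (Fin 2) ℝ} {a b c d : ℤ} (hA : IsInt A a b c d)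
    (e : ℤ) (he : c = p * e)
    (hA' : IsInt A' a (p * b) e d) :
    heckeDiagMatrix p * A = A' * heckeDiagMatrix p := by
  refine ((isInt_heckeDiagMatrix hp).mul hA).ext (hA'.mul (isInt_heckeDiagMatrix hp)) ?_ ?_ ?_ ?_
  · ring
  · ring
  · linear_combination he
  · ring

end commutation


section reindex

variable {p : ℕ} [NeZero p]

theorem sum_range_eq_sum_zmod' {M : Type*} [AddCommMonoid M] (F : ℕ → M) :
    ∑ j ∈ Finset.range p, F j = ∑ x : ZMod p, F x.val := by
  refine Finset.sum_nbij' (fun j : ℕ ↦ (j : ZMod p)) (fun x : ZMod p ↦ x.val)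
    (fun _ _ ↦ Finset.mem_univ _)
    (fun x _ ↦ Finset.mem_range.mpr x.val_lt) (fun j hj ↦ ?_) (fun x _ ↦ ?_) (fun j hj ↦ ?_)
  · exact ZMod.val_cast_of_lt (Finset.mem_range.mp hj)
  · exact ZMod.natCast_zmod_val x
  · rw [ZMod.val_cast_of_lt (Finset.mem_range.mp hj)]

theorem heckeU_eq_sum_zmod' (k : ℤ) (f : ℍ → ℂ) :
    heckeU k p f = ∑ x : ZMod p, f ∣[k] heckeMatrix p x.val := by
  rw [heckeU_def]
  exact sum_range_eq_sum_zmod' _

end reindex

/-- The standard representatives of the Hecke operator `T_p`, indexed by `ℙ¹(𝔽_p)`. -/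
def hRep (p : ℕ) (x : OnePoint (ZMod p)) : GL (Fin 2) ℝ :=
  x.elim (heckeDiagMatrix p) (fun j ↦ heckeMatrix p j.val)

@[simp] theorem hRep_infty (p : ℕ) : hRep p ∞ = heckeDiagMatrix p := rfl

@[simp] theorem hRep_coe (p : ℕ) (j : ZMod p) : hRep p j = heckeMatrix p j.val := rfl

theorem heckeT_eq_sum_hRep {p : ℕ} [NeZero p] (k : ℤ) (f : ℍ → ℂ) :
    heckeT k p f = ∑ x : OnePoint (ZMod p), f ∣[k] hRep p x := by
  rw [heckeT_eq_heckeU_add, heckeU_eq_sum_zmod', add_comm]
  exact (Fintype.sum_option (fun x : OnePoint (ZMod p) ↦ f ∣[k] hRep p x)).symm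

section main

variable {p : ℕ} [Fact p.Prime]

/-- The reduction mod `p` (in the convention of the Prelude) of an integer matrix of determinant
prime to `p`. -/
def redGL (p : ℕ) [Fact p.Prime] (a b c d : ℤ) (h : ¬ (p : ℤ) ∣ a * d - b * c) :
    GL (Fin 2) (ZMod p) :=
  Matrix.GeneralLinearGroup.mkOfDetNeZero
    !![(d : ZMod p), (b : ZMod p); (c : ZMod p), (a : ZMod p)]
    (by
      rw [Matrix.det_fin_two_of]
      intro h0
      apply h
      rw [← ZMod.intCast_zmod_eq_zero_iff_dvd]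
      push_cast
      linear_combination h0)

@[simp] theorem redGL_apply_zero_zero (a b c d : ℤ) (h : ¬ (p : ℤ) ∣ a * d - b * c) :
    redGL p a b c d h 0 0 = (d : ZMod p) := by
  simp [redGL]

@[simp] theorem redGL_apply_zero_one (a b c d : ℤ) (h : ¬ (p : ℤ) ∣ a * d - b * c) :
    redGL p a b c d h 0 1 = (b : ZMod p) := by
  simp [redGL]

@[simp] theorem redGL_apply_one_zero (a b c d : ℤ) (h : ¬ (p : ℤ) ∣ a * d - b * c) :
    redGL p a b c d h 1 0 = (c : ZMod p) := by
  simp [redGL]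

@[simp] theorem redGL_apply_one_one (a b c d : ℤ) (h : ¬ (p : ℤ) ∣ a * d - b * c) :
    redGL p a b c d h 1 1 = (a : ZMod p) := by
  simp [redGL]

/-- The key matrix lemma: `hRep p x * A = A' * hRep p (σ x)` for integral `A` of determinant
prime to `p`, with control of the entries of `A'`. -/
theorem exists_hRep_mul {A : GL (Fin 2) ℝ} {a b c d : ℤ} (hA : IsInt A a b c d)
    (hdet : ¬ (p : ℤ) ∣ a * d - b * c) (x : OnePoint (ZMod p)) :
    ∃ (A' : GL (Fin 2) ℝ) (a' b' c' d' : ℤ), IsInt A' a' b' c' d' ∧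
      a' * d' - b' * c' = a * d - b * c ∧
      (∀ m : ℤ, IsCoprime m (p : ℤ) → m ∣ c → m ∣ c') ∧
      (∀ m : ℤ, IsCoprime m (p : ℤ) → m ∣ a → m ∣ c → m ∣ a') ∧
      (∀ m : ℤ, IsCoprime m (p : ℤ) → m ∣ d → m ∣ c → m ∣ d') ∧
      hRep p x * A = A' * hRep p (redGL p a b c d hdet • x) := by
  have hp : p ≠ 0 := (Fact.out : p.Prime).ne_zero
  have : NeZero p := ⟨hp⟩
  have hD : a * d - b * c ≠ 0 := hA.det_ne_zero
  induction x using OnePoint.rec with
  | infty =>
    rw [OnePoint.smul_infty_eq_ite]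
    by_cases hc : ((c : ℤ) : ZMod p) = 0
    · rw [if_pos (by simpa using hc), hRep_infty]
      obtain ⟨e, he⟩ := (ZMod.intCast_zmod_eq_zero_iff_dvd _ _).mp hc
      have hdet' : a * d - (p * b) * e = a * d - b * c := by rw [he]; ring
      refine ⟨intGL a (p * b) e d (by rw [hdet']; exact hD), a, p * b, e, d, isInt_intGL _ _ _ _ _,
        hdet', ?_, ?_, ?_, ?_⟩
      · intro m hm hmc
        rw [he] at hmc
        exact hm.dvd_of_dvd_mul_left hmc
      · intro m _ hma _
        exact hma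
      · intro m _ hmd _
        exact hmd
      · exact heckeDiagMatrix_mul_isInt' hp hA e he (isInt_intGL _ _ _ _ _)
    · rw [if_neg (by simpa using hc), hRep_infty, hRep_coe]
      set y : ZMod p := redGL p a b c d hdet 0 0 / redGL p a b c d hdet 1 0 with hy
      obtain ⟨e, he⟩ : (p : ℤ) ∣ d - c * y.val := by
        rw [← ZMod.intCast_zmod_eq_zero_iff_dvd]
        push_cast
        rw [ZMod.natCast_zmod_val, hy, redGL_apply_zero_zero, redGL_apply_one_zero,
          mul_div_cancel₀ _ hc, sub_self]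
      have he' : d = c * y.val + p * e := by linear_combination he
      have hdet' : (p * a) * e - (b - a * y.val) * c = a * d - b * c := by
        linear_combination (-a) * he'
      refine ⟨intGL (p * a) (b - a * y.val) c e (by rw [hdet']; exact hD), p * a, b - a * y.val,
        c, e, isInt_intGL _ _ _ _ _, hdet', ?_, ?_, ?_, ?_⟩
      · intro m _ hmc
        exact hmc
      · intro m _ hma _
        exact Dvd.dvd.mul_left hma _
      · intro m hm hmd hmc
        have : m ∣ (p : ℤ) * e := by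
          have h1 : (p : ℤ) * e = d - c * y.val := by linear_combination -he'
          rw [h1]
          exact dvd_sub hmd (Dvd.dvd.mul_right hmc _)
        exact hm.dvd_of_dvd_mul_left this
      · exact heckeDiagMatrix_mul_isInt hp hA y.val e he' (isInt_intGL _ _ _ _ _)
  | coe j =>
    rw [OnePoint.smul_some_eq_ite]
    by_cases h : redGL p a b c d hdet 1 0 * j + redGL p a b c d hdet 1 1 = 0
    · rw [if_pos h, hRep_infty, hRep_coe]
      rw [redGL_apply_one_zero, redGL_apply_one_one] at h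
      obtain ⟨e, he⟩ : (p : ℤ) ∣ a + j.val * c := by
        rw [← ZMod.intCast_zmod_eq_zero_iff_dvd]
        push_cast
        rw [ZMod.natCast_zmod_val]
        linear_combination h
      have hdet' : e * (p * d) - (b + j.val * d) * c = a * d - b * c := by
        linear_combination (-d) * he
      refine ⟨intGL e (b + j.val * d) c (p * d) (by rw [hdet']; exact hD), e, b + j.val * d, c,
        p * d, isInt_intGL _ _ _ _ _, hdet', ?_, ?_, ?_, ?_⟩
      · intro m _ hmc
        exact hmc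
      · intro m hm hma hmc
        have : m ∣ (p : ℤ) * e := by
          rw [← he]
          exact dvd_add hma (Dvd.dvd.mul_left hmc _)
        exact hm.dvd_of_dvd_mul_left this
      · intro m _ hmd _
        exact Dvd.dvd.mul_left hmd _
      · exact heckeMatrix_mul_isInt' hp hA j.val e he (isInt_intGL _ _ _ _ _)
    · rw [if_neg h, hRep_coe, hRep_coe]
      set y : ZMod p := (redGL p a b c d hdet 0 0 * j + redGL p a b c d hdet 0 1) /
        (redGL p a b c d hdet 1 0 * j + redGL p a b c d hdet 1 1) with hy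
      obtain ⟨e, he⟩ : (p : ℤ) ∣ b + j.val * d - y.val * (a + j.val * c) := by
        rw [← ZMod.intCast_zmod_eq_zero_iff_dvd]
        push_cast
        rw [ZMod.natCast_zmod_val, ZMod.natCast_zmod_val,
          show ((a : ℤ) : ZMod p) + j * ((c : ℤ) : ZMod p)
            = redGL p a b c d hdet 1 0 * j + redGL p a b c d hdet 1 1 by
              rw [redGL_apply_one_zero, redGL_apply_one_one]; ring,
          hy, div_mul_cancel₀ _ h, redGL_apply_zero_zero, redGL_apply_zero_one]
        ring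
      have he' : b + j.val * d = y.val * (a + j.val * c) + p * e := by linear_combination he
      have hdet' : (a + j.val * c) * (d - c * y.val) - e * (p * c) = a * d - b * c := by
        linear_combination c * he'
      refine ⟨intGL (a + j.val * c) e (p * c) (d - c * y.val) (by rw [hdet']; exact hD),
        a + j.val * c, e, p * c, d - c * y.val, isInt_intGL _ _ _ _ _, hdet', ?_, ?_, ?_, ?_⟩
      · intro m _ hmc
        exact Dvd.dvd.mul_left hmc _
      · intro m _ hma hmc
        exact dvd_add hma (Dvd.dvd.mul_left hmc _)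
      · intro m _ hmd hmc
        exact dvd_sub hmd (Dvd.dvd.mul_right hmc _)
      · exact heckeMatrix_mul_isInt hp hA j.val y.val e he' (isInt_intGL _ _ _ _ _)

end main

end Fermat.Agent.Lib.Newform.H923

end
end
-- ===== PACK-END Lib/Newform/H923/HeckeInt.lean

-- ===== PACK-BEGIN Lib/Newform/H803/Group.lean
section


/-!
# Group theory in `SL(2, ℤ)` for the Atkin–Lehner main lemma (helper803)

* `GammaU N` : the subgroup `Γ⁰(N)` (upper right entry divisible by `N`);
* `tU x` : the translation `[[1, x], [0, 1]]`, `tL x` its transpose;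
* `comm_mem_Gamma` : `Γ(a)` and `Γ(b)` commute modulo `Γ(N)` when `N ∣ a * b`;
* `exists_mul_of_coprime` : `SL(2, ℤ) = Γ(a) Γ(b)` for coprime `a`, `b`;
* `exists_tU_mul_mem_GammaU` : `Γ⁰(N/p) ⊆ ⟨T^{N/p}⟩ Γ⁰(N) ⟨T^{N/p}⟩`;
* `exists_mul_of_mem_GammaU` : `Γ⁰(N/p) ⊆ (Γ(m) ∩ Γ⁰(N/p)) (Γ(P) ∩ Γ⁰(N))` for `N = P m` coprime, `p ∣ P`.
-/

set_option autoImplicit false

namespace Fermat.Agent.Lib.Newform.H803

open Matrix Matrix.SpecialLinearGroup CongruenceSubgroup
open scoped MatrixGroups

/-- Upper unipotent `[[1, x], [0, 1]]`. -/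
def tU (x : ℤ) : SL(2, ℤ) := ⟨!![1, x; 0, 1], by simp [Matrix.det_fin_two]⟩

/-- Lower unipotent `[[1, 0], [x, 1]]`. -/
def tL (x : ℤ) : SL(2, ℤ) := ⟨!![1, 0; x, 1], by simp [Matrix.det_fin_two]⟩

@[simp] theorem tU_apply_00 (x : ℤ) : (tU x) 0 0 = 1 := rfl
@[simp] theorem tU_apply_01 (x : ℤ) : (tU x) 0 1 = x := rfl
@[simp] theorem tU_apply_10 (x : ℤ) : (tU x) 1 0 = 0 := rfl
@[simp] theorem tU_apply_11 (x : ℤ) : (tU x) 1 1 = 1 := rfl
@[simp] theorem tL_apply_00 (x : ℤ) : (tL x) 0 0 = 1 := rfl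
@[simp] theorem tL_apply_01 (x : ℤ) : (tL x) 0 1 = 0 := rfl
@[simp] theorem tL_apply_10 (x : ℤ) : (tL x) 1 0 = x := rfl
@[simp] theorem tL_apply_11 (x : ℤ) : (tL x) 1 1 = 1 := rfl

theorem sl2_ext {A B : SL(2, ℤ)} (h00 : A 0 0 = B 0 0) (h01 : A 0 1 = B 0 1)
    (h10 : A 1 0 = B 1 0) (h11 : A 1 1 = B 1 1) : A = B := by
  ext i j
  fin_cases i <;> fin_cases j <;> assumption

theorem mul_apply_00 (A B : SL(2, ℤ)) : (A * B) 0 0 = A 0 0 * B 0 0 + A 0 1 * B 1 0 := by
  simp [Matrix.mul_apply, Fin.sum_univ_two]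
theorem mul_apply_01 (A B : SL(2, ℤ)) : (A * B) 0 1 = A 0 0 * B 0 1 + A 0 1 * B 1 1 := by
  simp [Matrix.mul_apply, Fin.sum_univ_two]
theorem mul_apply_10 (A B : SL(2, ℤ)) : (A * B) 1 0 = A 1 0 * B 0 0 + A 1 1 * B 1 0 := by
  simp [Matrix.mul_apply, Fin.sum_univ_two]
theorem mul_apply_11 (A B : SL(2, ℤ)) : (A * B) 1 1 = A 1 0 * B 0 1 + A 1 1 * B 1 1 := by
  simp [Matrix.mul_apply, Fin.sum_univ_two]

theorem inv_apply_00 (A : SL(2, ℤ)) : (A⁻¹) 0 0 = A 1 1 := by
  simp [Matrix.SpecialLinearGroup.SL2_inv_expl]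
theorem inv_apply_01 (A : SL(2, ℤ)) : (A⁻¹) 0 1 = - A 0 1 := by
  simp [Matrix.SpecialLinearGroup.SL2_inv_expl]
theorem inv_apply_10 (A : SL(2, ℤ)) : (A⁻¹) 1 0 = - A 1 0 := by
  simp [Matrix.SpecialLinearGroup.SL2_inv_expl]
theorem inv_apply_11 (A : SL(2, ℤ)) : (A⁻¹) 1 1 = A 0 0 := by
  simp [Matrix.SpecialLinearGroup.SL2_inv_expl]

theorem det_eq_one' (A : SL(2, ℤ)) : A 0 0 * A 1 1 - A 0 1 * A 1 0 = 1 := by
  have h := A.2
  rwa [Matrix.det_fin_two] at h

theorem tU_add (x y : ℤ) : tU (x + y) = tU x * tU y := by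
  apply sl2_ext <;> simp [mul_apply_00, mul_apply_01, mul_apply_10, mul_apply_11, add_comm]

theorem tU_zero : tU 0 = 1 := by
  apply sl2_ext <;> simp

theorem tU_neg (x : ℤ) : tU (-x) = (tU x)⁻¹ := by
  apply sl2_ext <;> simp [inv_apply_00, inv_apply_01, inv_apply_10, inv_apply_11]

theorem tL_add (x y : ℤ) : tL (x + y) = tL x * tL y := by
  apply sl2_ext <;> simp [mul_apply_00, mul_apply_01, mul_apply_10, mul_apply_11]

theorem tU_eq_T_zpow (x : ℤ) : tU x = ModularGroup.T ^ x := by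
  apply Subtype.ext
  rw [ModularGroup.coe_T_zpow]
  rfl

/-- `Γ⁰(N)`: the subgroup of matrices with upper right entry divisible by `N`. -/
def GammaU (N : ℕ) : Subgroup SL(2, ℤ) where
  carrier := { g | (N : ℤ) ∣ g 0 1 }
  one_mem' := by simp
  mul_mem' {a} {b} ha hb := by
    simp only [Set.mem_ofPred_eq] at *
    rw [mul_apply_01]
    exact dvd_add (Dvd.dvd.mul_left hb _) (Dvd.dvd.mul_right ha _)
  inv_mem' {a} ha := by
    simp only [Set.mem_ofPred_eq] at *
    rw [inv_apply_01]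
    exact (dvd_neg).mpr ha

@[simp] theorem mem_GammaU {N : ℕ} {g : SL(2, ℤ)} : g ∈ GammaU N ↔ (N : ℤ) ∣ g 0 1 := Iff.rfl

theorem GammaU_mono {M N : ℕ} (h : M ∣ N) : GammaU N ≤ GammaU M := by
  intro g hg
  rw [mem_GammaU] at *
  exact dvd_trans (Int.natCast_dvd_natCast.mpr h) hg

theorem mem_Gamma_iff_dvd {N : ℕ} {g : SL(2, ℤ)} :
    g ∈ Gamma N ↔ (N : ℤ) ∣ g 0 0 - 1 ∧ (N : ℤ) ∣ g 0 1 ∧ (N : ℤ) ∣ g 1 0 ∧ (N : ℤ) ∣ g 1 1 - 1 := by
  rw [Gamma_mem]
  simp only [ZMod.intCast_zmod_eq_zero_iff_dvd]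
  have h1 : ∀ x : ℤ, ((x : ZMod N) = 1 ↔ (N : ℤ) ∣ x - 1) := by
    intro x
    rw [← ZMod.intCast_zmod_eq_zero_iff_dvd]
    push_cast
    rw [sub_eq_zero]
  rw [h1, h1]

theorem Gamma_le_GammaU (N : ℕ) : Gamma N ≤ GammaU N := by
  intro g hg
  rw [mem_Gamma_iff_dvd] at hg
  exact hg.2.1

theorem Gamma_mono {M N : ℕ} (h : M ∣ N) : Gamma N ≤ Gamma M := by
  intro g hg
  rw [mem_Gamma_iff_dvd] at *
  have h' : (M : ℤ) ∣ (N : ℤ) := Int.natCast_dvd_natCast.mpr h
  exact ⟨dvd_trans h' hg.1, dvd_trans h' hg.2.1, dvd_trans h' hg.2.2.1, dvd_trans h' hg.2.2.2⟩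

theorem tU_mem_Gamma {N : ℕ} {x : ℤ} (h : (N : ℤ) ∣ x) : tU x ∈ Gamma N := by
  rw [mem_Gamma_iff_dvd]
  simp [h]

theorem tL_mem_Gamma {N : ℕ} {x : ℤ} (h : (N : ℤ) ∣ x) : tL x ∈ Gamma N := by
  rw [mem_Gamma_iff_dvd]
  simp [h]

theorem tU_mem_GammaU {N : ℕ} {x : ℤ} (h : (N : ℤ) ∣ x) : tU x ∈ GammaU N := by
  rw [mem_GammaU]; simpa using h

/-- `g * h⁻¹ ∈ Γ(N)` iff `g` and `h` are entrywise congruent modulo `N`. -/
theorem mul_inv_mem_Gamma_iff {N : ℕ} {g h : SL(2, ℤ)} :
    g * h⁻¹ ∈ Gamma N ↔ (N : ℤ) ∣ g 0 0 - h 0 0 ∧ (N : ℤ) ∣ g 0 1 - h 0 1 ∧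
      (N : ℤ) ∣ g 1 0 - h 1 0 ∧ (N : ℤ) ∣ g 1 1 - h 1 1 := by
  have key : g * h⁻¹ ∈ Gamma N ↔
      (Matrix.SpecialLinearGroup.map (Int.castRingHom (ZMod N))) g =
      (Matrix.SpecialLinearGroup.map (Int.castRingHom (ZMod N))) h := by
    rw [Gamma_mem', map_mul, map_inv, mul_inv_eq_one]
  rw [key]
  constructor
  · intro H
    have e : ∀ i j : Fin 2, ((g i j : ℤ) : ZMod N) = ((h i j : ℤ) : ZMod N) := by
      intro i j
      have := congrArg (fun A : SL(2, ZMod N) => A i j) H
      simpa using this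
    have d : ∀ i j : Fin 2, (N : ℤ) ∣ g i j - h i j := by
      intro i j
      rw [← ZMod.intCast_zmod_eq_zero_iff_dvd]
      push_cast
      rw [sub_eq_zero]
      exact e i j
    exact ⟨d 0 0, d 0 1, d 1 0, d 1 1⟩
  · rintro ⟨h00, h01, h10, h11⟩
    have e : ∀ a b : ℤ, (N : ℤ) ∣ a - b → ((a : ℤ) : ZMod N) = ((b : ℤ) : ZMod N) := by
      intro a b hab
      rw [← sub_eq_zero, ← Int.cast_sub, ZMod.intCast_zmod_eq_zero_iff_dvd]
      exact hab
    ext i j
    fin_cases i <;> fin_cases j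
    · simpa using e _ _ h00
    · simpa using e _ _ h01
    · simpa using e _ _ h10
    · simpa using e _ _ h11

/-- (G1) `Γ(a)` and `Γ(b)` commute modulo `Γ(N)` when `N ∣ a * b`. -/
theorem comm_mem_Gamma {N a b : ℕ} (hN : N ∣ a * b) {g h : SL(2, ℤ)}
    (hg : g ∈ Gamma a) (hh : h ∈ Gamma b) : (g * h) * (h * g)⁻¹ ∈ Gamma N := by
  rw [mul_inv_mem_Gamma_iff]
  rw [mem_Gamma_iff_dvd] at hg hh
  obtain ⟨⟨x, hx⟩, ⟨y, hy⟩, ⟨z, hz⟩, ⟨w, hw⟩⟩ := hg
  obtain ⟨⟨x', hx'⟩, ⟨y', hy'⟩, ⟨z', hz'⟩, ⟨w', hw'⟩⟩ := hh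
  have hN' : (N : ℤ) ∣ (a : ℤ) * (b : ℤ) := by exact_mod_cast Int.natCast_dvd_natCast.mpr hN
  have e00 : g 0 0 = 1 + a * x := by linarith
  have e11 : g 1 1 = 1 + a * w := by linarith
  have e00' : h 0 0 = 1 + b * x' := by linarith
  have e11' : h 1 1 = 1 + b * w' := by linarith
  simp only [mul_apply_00, mul_apply_01, mul_apply_10, mul_apply_11]
  rw [e00, e11, e00', e11', hy, hz, hy', hz']
  refine ⟨?_, ?_, ?_, ?_⟩
  · refine dvd_trans hN' ⟨y * z' - y' * z, by ring⟩
  · refine dvd_trans hN' ⟨x * y' + y * w' - x' * y - y' * w, by ring⟩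
  · refine dvd_trans hN' ⟨z * x' + w * z' - z' * x - w' * z, by ring⟩
  · refine dvd_trans hN' ⟨z * y' - z' * y, by ring⟩

/-- (Fact) `SL(2, ℤ) = Γ(a) ⊔ Γ(b)` for coprime `a`, `b`. -/
theorem Gamma_sup_Gamma_eq_top {a b : ℕ} (hab : Nat.Coprime a b) : Gamma a ⊔ Gamma b = ⊤ := by
  -- Bezout: every integer is `a x + b y`
  have bez : ∀ n : ℤ, ∃ x y : ℤ, n = a * x + b * y := by
    intro n
    have h : IsCoprime (a : ℤ) (b : ℤ) := Nat.isCoprime_iff_coprime.mpr hab
    obtain ⟨u, v, huv⟩ := h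
    exact ⟨n * u, n * v, by linear_combination (-n) * huv⟩
  have hU : ∀ n : ℤ, tU n ∈ Gamma a ⊔ Gamma b := by
    intro n
    obtain ⟨x, y, rfl⟩ := bez n
    rw [tU_add]
    exact Subgroup.mul_mem _
      (Subgroup.mem_sup_left (tU_mem_Gamma (Dvd.intro _ rfl)))
      (Subgroup.mem_sup_right (tU_mem_Gamma (Dvd.intro _ rfl)))
  have hL : ∀ n : ℤ, tL n ∈ Gamma a ⊔ Gamma b := by
    intro n
    obtain ⟨x, y, rfl⟩ := bez n
    rw [tL_add]
    exact Subgroup.mul_mem _
      (Subgroup.mem_sup_left (tL_mem_Gamma (Dvd.intro _ rfl)))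
      (Subgroup.mem_sup_right (tL_mem_Gamma (Dvd.intro _ rfl)))
  have hT : ModularGroup.T ∈ Gamma a ⊔ Gamma b := by
    have := hU 1
    rwa [tU_eq_T_zpow, zpow_one] at this
  have hS : ModularGroup.S ∈ Gamma a ⊔ Gamma b := by
    have e : ModularGroup.S = tU (-1) * tL 1 * tU (-1) := by
      apply sl2_ext <;>
        simp [mul_apply_00, mul_apply_01, mul_apply_10, mul_apply_11, ModularGroup.S]
    rw [e]
    exact Subgroup.mul_mem _ (Subgroup.mul_mem _ (hU _) (hL _)) (hU _)
  rw [eq_top_iff, ← SpecialLinearGroup.SL2Z_generators, Subgroup.closure_le]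
  rintro g (rfl | rfl)
  · exact hS
  · exact hT

/-- (Fact), factorisation form. -/
theorem exists_mul_of_coprime {a b : ℕ} (hab : Nat.Coprime a b) (g : SL(2, ℤ)) :
    ∃ g₁ ∈ Gamma a, ∃ g₂ ∈ Gamma b, g = g₁ * g₂ := by
  have hg : g ∈ Gamma a ⊔ Gamma b := by rw [Gamma_sup_Gamma_eq_top hab]; trivial
  have hn : (Gamma b).Normal := Gamma_normal b
  rw [Subgroup.mem_sup_of_normal_right] at hg
  obtain ⟨y, hy, z, hz, rfl⟩ := hg
  exact ⟨y, hy, z, hz, rfl⟩

/-- (G2), first case: if `p ∤ g 1 1` a left translation brings `g ∈ Γ⁰(d)` into `Γ⁰(p d)`. -/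
theorem exists_tU_mul_mem_GammaU_aux {p d : ℕ} (hp : p.Prime) {g : SL(2, ℤ)}
    (hg : g ∈ GammaU d) (h11 : ¬ (p : ℤ) ∣ g 1 1) :
    ∃ i : ℤ, tU (i * d) * g ∈ GammaU (p * d) := by
  rw [mem_GammaU] at hg
  obtain ⟨b₀, hb₀⟩ := hg
  have hcop : IsCoprime (g 1 1) (p : ℤ) :=
    ((Nat.prime_iff_prime_int.mp hp).coprime_iff_not_dvd.mpr h11).symm
  obtain ⟨u, v, huv⟩ := hcop
  refine ⟨-b₀ * u, ?_⟩
  rw [mem_GammaU, mul_apply_01]
  simp only [tU_apply_00, tU_apply_01, one_mul]
  rw [hb₀]
  refine ⟨b₀ * v, ?_⟩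
  push_cast
  linear_combination (-(d : ℤ) * b₀) * huv

/-- (G2) `Γ⁰(N/p) ⊆ ⟨T^{N/p}⟩ Γ⁰(N) ⟨T^{N/p}⟩`. -/
theorem exists_tU_mul_mem_GammaU {p d : ℕ} (hp : p.Prime) {g : SL(2, ℤ)}
    (hg : g ∈ GammaU d) :
    ∃ i j : ℤ, tU (i * d) * g * tU (j * d) ∈ GammaU (p * d) := by
  by_cases h11 : (p : ℤ) ∣ g 1 1
  · -- replace `g` by `g * tU d`
    have hg' : g * tU (1 * d) ∈ GammaU d :=
      Subgroup.mul_mem _ hg (tU_mem_GammaU (Dvd.intro_left _ rfl))
    have hdet := det_eq_one' g
    have hpP : Prime (p : ℤ) := Nat.prime_iff_prime_int.mp hp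
    have hb : ¬ (p : ℤ) ∣ g 0 1 * g 1 0 := by
      intro hb
      have : (p : ℤ) ∣ 1 := by
        rw [← hdet]
        exact dvd_sub (Dvd.dvd.mul_left h11 _) hb
      exact hpP.not_dvd_one this
    have hc : ¬ (p : ℤ) ∣ g 1 0 := fun h => hb (Dvd.dvd.mul_left h _)
    have hb' : ¬ (p : ℤ) ∣ g 0 1 := fun h => hb (Dvd.dvd.mul_right h _)
    have hd : ¬ (p : ℤ) ∣ (d : ℤ) := by
      intro hd
      rw [mem_GammaU] at hg
      exact hb' (dvd_trans hd hg)
    have h11' : ¬ (p : ℤ) ∣ (g * tU (1 * d)) 1 1 := by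
      rw [mul_apply_11]
      simp only [tU_apply_01, tU_apply_11, one_mul, mul_one]
      intro h
      have h2 : (p : ℤ) ∣ g 1 0 * d := by
        have := dvd_sub h h11
        simpa using this
      rcases hpP.dvd_or_dvd h2 with h3 | h3
      · exact hc h3
      · exact hd h3
    obtain ⟨i, hi⟩ := exists_tU_mul_mem_GammaU_aux hp hg' h11'
    exact ⟨i, 1, by rwa [← mul_assoc] at hi⟩
  · obtain ⟨i, hi⟩ := exists_tU_mul_mem_GammaU_aux hp hg h11
    refine ⟨i, 0, ?_⟩
    rw [zero_mul, tU_zero, mul_one]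
    exact hi

/-- (G3) local factorisation of `Γ⁰(D)`, `m ∣ D ∣ P m`, `P` and `m` coprime. -/
theorem exists_mul_of_mem_GammaU {P m D : ℕ} (hPm : Nat.Coprime P m) (hmD : m ∣ D)
    (hDN : D ∣ P * m) {g : SL(2, ℤ)} (hg : g ∈ GammaU D) :
    ∃ g₁ ∈ Gamma m ⊓ GammaU D, ∃ g₂ ∈ Gamma P ⊓ GammaU (P * m), g = g₁ * g₂ := by
  obtain ⟨g₁, hg₁, g₂, hg₂, rfl⟩ := exists_mul_of_coprime hPm.symm g
  have h₁ := mem_Gamma_iff_dvd.mp hg₁
  have h₂ := mem_Gamma_iff_dvd.mp hg₂
  rw [mem_GammaU, mul_apply_01] at hg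
  have hmD' : (m : ℤ) ∣ (D : ℤ) := Int.natCast_dvd_natCast.mpr hmD
  have hDN' : (D : ℤ) ∣ ((P * m : ℕ) : ℤ) := Int.natCast_dvd_natCast.mpr hDN
  -- `m ∣ (g₂) 0 1`
  have hm2 : (m : ℤ) ∣ g₂ 0 1 := by
    have h3 : (m : ℤ) ∣ g₁ 0 0 * g₂ 0 1 + g₁ 0 1 * g₂ 1 1 := dvd_trans hmD' hg
    have h4 : (m : ℤ) ∣ g₁ 0 0 * g₂ 0 1 := by
      have := dvd_sub h3 (Dvd.dvd.mul_right h₁.2.1 (g₂ 1 1))
      simpa using this
    have h5 : (m : ℤ) ∣ (g₁ 0 0 - 1) * g₂ 0 1 := Dvd.dvd.mul_right h₁.1 _
    have := dvd_sub h4 h5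
    have e : g₁ 0 0 * g₂ 0 1 - (g₁ 0 0 - 1) * g₂ 0 1 = g₂ 0 1 := by ring
    rwa [e] at this
  have hN2 : ((P * m : ℕ) : ℤ) ∣ g₂ 0 1 := by
    push_cast
    exact IsCoprime.mul_dvd (Nat.isCoprime_iff_coprime.mpr hPm) h₂.2.1 hm2
  have hD2 : (D : ℤ) ∣ g₂ 0 1 := dvd_trans hDN' hN2
  refine ⟨g₁, ⟨hg₁, ?_⟩, g₂, ⟨hg₂, hN2⟩, rfl⟩
  change (D : ℤ) ∣ g₁ 0 1
  -- `g₁ 0 1 = (g₁ 0 0 g₂ 0 1 + g₁ 0 1 g₂ 1 1) g₂ 0 0 - ... ` use determinant of `g₂`
  have hdet := det_eq_one' g₂
  have e : g₁ 0 1 = (g₁ 0 0 * g₂ 0 1 + g₁ 0 1 * g₂ 1 1) * g₂ 0 0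
      - (g₁ 0 0 * g₂ 0 0 + g₁ 0 1 * g₂ 1 0) * g₂ 0 1 := by
    linear_combination (-(g₁ 0 1)) * hdet
  rw [e]
  exact dvd_sub (Dvd.dvd.mul_right hg _) (Dvd.dvd.mul_left hD2 _)

end Fermat.Agent.Lib.Newform.H803

end
-- ===== PACK-END Lib/Newform/H803/Group.lean

-- ===== PACK-BEGIN Lib/Newform/H563/Basic.lean
section








/-!
# NEWFORM library (helper563): basic facts

* `lowerLevel` : a cusp form of level `N` whose underlying function is `Γ₀(M)`-invariant is a cusp
  form of level `M`.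
* coefficient facts for Prelude-normalised eigenforms.
-/

set_option autoImplicit false

noncomputable section

namespace Fermat.Agent.Lib.Newform.H563

open UpperHalfPlane ModularForm CongruenceSubgroup ModularFormClass
open scoped MatrixGroups Manifold

/-- A cusp form of level `N` whose underlying function is invariant under `Γ₀(M)` is a cusp form
of level `M` (for `M`, `N` both nonzero: the cusps are the same). -/
def lowerLevel {N M : ℕ} [NeZero N] [NeZero M] {k : ℤ} (f : CuspForm (Gamma0 N) k)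
    (hf : ∀ γ ∈ (Gamma0 M : Subgroup (GL (Fin 2) ℝ)), (⇑f) ∣[k] γ = ⇑f) :
    CuspForm (Gamma0 M) k where
  toFun := f
  slash_action_eq' := hf
  holo' := CuspFormClass.holo f
  zero_at_cusps' := fun {c} hc => by
    have hc' : IsCusp c (Gamma0 N : Subgroup (GL (Fin 2) ℝ)) := by
      rw [Subgroup.IsArithmetic.isCusp_iff_isCusp_SL2Z] at hc ⊢
      exact hc
    exact CuspFormClass.zero_at_cusps f hc'

@[simp] lemma coe_lowerLevel {N M : ℕ} [NeZero N] [NeZero M] {k : ℤ} (f : CuspForm (Gamma0 N) k)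
    (hf : ∀ γ ∈ (Gamma0 M : Subgroup (GL (Fin 2) ℝ)), (⇑f) ∣[k] γ = ⇑f) :
    ⇑(lowerLevel f hf) = ⇑f := rfl

lemma qCoeff_lowerLevel {N M : ℕ} [NeZero N] [NeZero M] {k : ℤ} (f : CuspForm (Gamma0 N) k)
    (hf : ∀ γ ∈ (Gamma0 M : Subgroup (GL (Fin 2) ℝ)), (⇑f) ∣[k] γ = ⇑f) (n : ℕ) :
    qCoeff (lowerLevel f hf) n = qCoeff f n := rfl

variable {N : ℕ} {k : ℤ}

lemma qCoeff_zero_cusp (f : CuspForm (Gamma0 N) k) : qCoeff f 0 = 0 :=
  CuspFormClass.qExpansion_coeff_zero f one_pos (one_mem_strictPeriods_Gamma0 N)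

lemma periodic_cusp (f : CuspForm (Gamma0 N) k) : Function.Periodic (⇑f ∘ ofComplex) 1 :=
  SlashInvariantFormClass.periodic_comp_ofComplex f (one_mem_strictPeriods_Gamma0 N)

lemma bdd_cusp (f : CuspForm (Gamma0 N) k) : IsBoundedAtImInfty (⇑f) := by
  have : Fact (IsCusp OnePoint.infty (Gamma0 N : Subgroup (GL (Fin 2) ℝ))) :=
    ⟨Subgroup.isCusp_of_mem_strictPeriods one_pos (one_mem_strictPeriods_Gamma0 N)⟩
  exact (CuspFormClass.zero_at_infty f).isBoundedAtImInfty

/-- Two cusp forms (possibly of different levels) with the same `q`-coefficients have the same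
underlying function. -/
lemma coe_eq_of_qCoeff_eq {N M : ℕ} (f : CuspForm (Gamma0 N) k) (g : CuspForm (Gamma0 M) k)
    (h : ∀ n, qCoeff f n = qCoeff g n) : (⇑f : ℍ → ℂ) = ⇑g :=
  UpperHalfPlane.eq_of_forall_qCoeff_eq (periodic_cusp f) (CuspFormClass.holo f) (bdd_cusp f)
    (periodic_cusp g) (CuspFormClass.holo g) (bdd_cusp g) h

lemma qCoeff_smul_cusp (c : ℂ) (f : CuspForm (Gamma0 N) k) (n : ℕ) :
    qCoeff (c • ⇑f) n = c * qCoeff f n := by
  unfold qCoeff
  rw [ModularForm.qExpansion_smul one_pos (one_mem_strictPeriods_Gamma0 N) c f]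
  simp

lemma qCoeff_heckeU_cusp (f : CuspForm (Gamma0 N) k) {p : ℕ} (hp : p ≠ 0) (n : ℕ) :
    qCoeff (heckeU k p ⇑f) n = qCoeff f (n * p) := by
  rw [ModularFormClass.qCoeff_heckeU f (one_mem_strictPeriods_Gamma0 N) hp n]
  rfl

lemma qCoeff_heckeT_cusp (f : CuspForm (Gamma0 N) k) {p : ℕ} (hp : p ≠ 0) (n : ℕ) :
    qCoeff (heckeT k p ⇑f) n
      = qCoeff f (n * p) + if p ∣ n then (p : ℂ) ^ (k - 1) * qCoeff f (n / p) else 0 := by
  rw [ModularFormClass.qCoeff_heckeT f (one_mem_strictPeriods_Gamma0 N) hp n]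
  rfl

section Eigen

variable {f : CuspForm (Gamma0 N) 2}

lemma qCoeff_prime_pow_of_dvd (hf : f.IsNormalizedEigenform) {q : ℕ} (hq : q.Prime)
    (hqN : q ∣ N) (r : ℕ) : qCoeff f (q ^ r) = qCoeff f q ^ r := by
  induction r using Nat.strong_induction_on with
  | _ r ih =>
    match r with
    | 0 => simpa using hf.qCoeff_one
    | 1 => simp
    | (r + 2) =>
      rw [hf.qCoeff_prime_pow_of_dvd q r hq hqN, ih (r + 1) (by omega)]
      ring

/-- For a Prelude-normalised eigenform and a prime `q` dividing the level, `a_{nq} = a_q a_n`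
for every `n`. -/
lemma qCoeff_mul_prime_of_dvd (hf : f.IsNormalizedEigenform) {q : ℕ} (hq : q.Prime)
    (hqN : q ∣ N) (n : ℕ) : qCoeff f (n * q) = qCoeff f q * qCoeff f n := by
  rcases Nat.eq_zero_or_pos n with rfl | hn
  · simp [qCoeff_zero_cusp]
  obtain ⟨r, m, hm, rfl⟩ := Nat.exists_eq_pow_mul_and_not_dvd hn.ne' q hq.ne_one
  have hcop : ∀ s : ℕ, (q ^ s).Coprime m := fun s =>
    Nat.Coprime.pow_left s ((Nat.Prime.coprime_iff_not_dvd hq).2 hm)
  have h1 : q ^ r * m * q = q ^ (r + 1) * m := by ring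
  rw [h1, hf.qCoeff_mul_of_coprime _ _ (hcop (r + 1)), hf.qCoeff_mul_of_coprime _ _ (hcop r),
    qCoeff_prime_pow_of_dvd hf hq hqN, qCoeff_prime_pow_of_dvd hf hq hqN]
  ring

/-- For a Prelude-normalised eigenform and a prime `q` dividing the level, `U_q f = a_q f`. -/
theorem heckeU_eq_smul [NeZero N] (hf : f.IsNormalizedEigenform) {q : ℕ} (hq : q.Prime)
    (hqN : q ∣ N) : heckeU 2 q ⇑f = qCoeff f q • ⇑f := by
  have h1 : (⇑(CuspForm.heckeULin 2 hqN f) : ℍ → ℂ) = ⇑(qCoeff f q • f) := by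
    refine coe_eq_of_qCoeff_eq _ _ fun n => ?_
    rw [CuspForm.coe_heckeULin_apply, qCoeff_heckeU_cusp f hq.ne_zero,
      qCoeff_mul_prime_of_dvd hf hq hqN]
    exact (qCoeff_smul_cusp _ f n).symm
  exact h1

end Eigen

end Fermat.Agent.Lib.Newform.H563

end
end
-- ===== PACK-END Lib/Newform/H563/Basic.lean

-- ===== PACK-BEGIN S30/H829/EigenFunctional.lean
section
/-
S30 / p-adic layer (helper829) — abstract "eigensystem occurs" lemma, Mathlib-only.

* `exists_semilinear_functional`: a finitely generated faithful module `N` over a commutative ring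
  `𝕋` admits, for every ring hom `χ : 𝕋 → F` into a field, a nonzero additive `θ : N → F` with
  `θ (t • y) = χ t * θ y`  (support = zero locus of the annihilator + Nakayama).
* `exists_eigen_hom`: `𝕋` acts faithfully on `S`, `π : S →+ (Γ →+ K)` is injective ("period map"),
  `Γ` finitely generated.  Then for every ring hom `χ : 𝕋 → O` into a domain there is a nonzero
  `φ : Γ →+ O` which is a `χ`-eigenvector in the following sense: whenever
  `π s b' = π (t • s) b` for all `s`, then `φ b' = χ t * φ b`; and `φ b = 0` whenever all periods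
  `π s b` vanish.  No characteristic assumption, no commutativity on the lattice side.
-/


set_option autoImplicit false

namespace Fermat.Agent.S30.H829

open TensorProduct

/-- A finitely generated faithful module over a commutative ring has, for every ring hom `χ` into
a field, a nonzero `χ`-semilinear functional. -/
theorem exists_semilinear_functional {𝕋 : Type*} [CommRing 𝕋] {N : Type*} [AddCommGroup N]
    [Module 𝕋 N] [Module.Finite 𝕋 N] (hfaith : ∀ t : 𝕋, (∀ y : N, t • y = 0) → t = 0)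
    {F : Type*} [Field F] (χ : 𝕋 →+* F) :
    ∃ θ : N →+ F, θ ≠ 0 ∧ ∀ (t : 𝕋) (y : N), θ (t • y) = χ t * θ y := by
  classical
  -- the prime ideal `𝔭 = ker χ`
  have h𝔭 : (RingHom.ker χ).IsPrime := RingHom.ker_isPrime χ
  let p : PrimeSpectrum 𝕋 := ⟨RingHom.ker χ, h𝔭⟩
  have hann : Module.annihilator 𝕋 N = ⊥ := by
    rw [eq_bot_iff]
    intro t ht
    rw [Module.mem_annihilator] at ht
    exact (Submodule.mem_bot 𝕋).mpr (hfaith t ht)
  have hsupp : p ∈ Module.support 𝕋 N := by
    rw [Module.mem_support_iff_of_finite, hann]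
    exact bot_le
  have hnt : Nontrivial ((RingHom.ker χ).ResidueField ⊗[𝕋] N) :=
    (Module.mem_support_iff_nontrivial_residueField_tensorProduct p).mp hsupp
  -- the embedding of the residue field into `F`
  let ι : (RingHom.ker χ).ResidueField →+* F :=
    Ideal.ResidueField.lift (RingHom.ker χ) χ le_rfl (by
      intro x hx
      have : χ x ≠ 0 := fun h => hx (RingHom.mem_ker.mpr h)
      exact this.isUnit)
  have hι : ∀ t : 𝕋, ι (algebraMap 𝕋 (RingHom.ker χ).ResidueField t) = χ t :=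
    fun t => Ideal.ResidueField.lift_algebraMap _ _ _ _ t
  -- a nonzero functional on the fibre
  obtain ⟨v₀, hv₀⟩ := exists_ne (0 : (RingHom.ker χ).ResidueField ⊗[𝕋] N)
  obtain ⟨lam, hlam⟩ : ∃ lam : Module.Dual (RingHom.ker χ).ResidueField
      ((RingHom.ker χ).ResidueField ⊗[𝕋] N), lam v₀ ≠ 0 := by
    by_contra hcon
    have hcon' : ∀ lam : Module.Dual (RingHom.ker χ).ResidueField
        ((RingHom.ker χ).ResidueField ⊗[𝕋] N), lam v₀ = 0 := by
      intro lam
      by_contra h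
      exact hcon ⟨lam, h⟩
    exact hv₀ ((Module.forall_dual_apply_eq_zero_iff (RingHom.ker χ).ResidueField v₀).mp hcon')
  -- the functional
  let θ : N →+ F :=
    { toFun := fun y => ι (lam ((1 : (RingHom.ker χ).ResidueField) ⊗ₜ[𝕋] y))
      map_zero' := by simp
      map_add' := fun y z => by simp [TensorProduct.tmul_add] }
  have hθ : ∀ y, θ y = ι (lam ((1 : (RingHom.ker χ).ResidueField) ⊗ₜ[𝕋] y)) := fun _ => rfl
  refine ⟨θ, ?_, ?_⟩
  · intro hzero
    apply hlam
    have hpure : ∀ (c : (RingHom.ker χ).ResidueField) (y : N), lam (c ⊗ₜ[𝕋] y) = 0 := by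
      intro c y
      have h1 : ι (lam ((1 : (RingHom.ker χ).ResidueField) ⊗ₜ[𝕋] y)) = 0 := by
        rw [← hθ, hzero]; rfl
      have h2 : lam ((1 : (RingHom.ker χ).ResidueField) ⊗ₜ[𝕋] y) = 0 :=
        (map_eq_zero ι).mp h1
      have h3 : c ⊗ₜ[𝕋] y = c • ((1 : (RingHom.ker χ).ResidueField) ⊗ₜ[𝕋] y) := by
        rw [TensorProduct.smul_tmul', smul_eq_mul, mul_one]
      rw [h3, map_smul, h2, smul_zero]
    have hall : ∀ v : (RingHom.ker χ).ResidueField ⊗[𝕋] N, lam v = 0 := by
      intro v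
      induction v using TensorProduct.induction_on with
      | zero => simp
      | tmul c y => exact hpure c y
      | add x y hx hy => rw [map_add, hx, hy, add_zero]
    exact hall v₀
  · intro t y
    rw [hθ, hθ, ← hι t, ← map_mul]
    congr 1
    have h3 : (1 : (RingHom.ker χ).ResidueField) ⊗ₜ[𝕋] (t • y)
        = (algebraMap 𝕋 (RingHom.ker χ).ResidueField t) •
          ((1 : (RingHom.ker χ).ResidueField) ⊗ₜ[𝕋] y) := by
      rw [TensorProduct.tmul_smul, TensorProduct.smul_tmul', TensorProduct.smul_tmul',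
        smul_eq_mul, mul_one, Algebra.smul_def, mul_one]
    rw [h3, map_smul, smul_eq_mul]

end Fermat.Agent.S30.H829

namespace Fermat.Agent.S30.H829

/-- The action of a commutative ring `𝕋` on `S →+ K` by precomposition with its action on `S`. -/
@[reducible] def precompModule (𝕋 S K : Type*) [CommRing 𝕋] [AddCommGroup S] [Module 𝕋 S]
    [AddCommGroup K] : Module 𝕋 (S →+ K) where
  smul t ν := ν.comp (DistribSMul.toAddMonoidHom S t)
  one_smul ν := by
    ext s
    show ν ((1 : 𝕋) • s) = ν s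
    rw [one_smul]
  mul_smul t t' ν := by
    ext s
    show ν ((t * t') • s) = ν (t' • t • s)
    rw [mul_comm, mul_smul]
  smul_zero t := by
    ext s
    rfl
  smul_add t ν ν' := by
    ext s
    rfl
  add_smul t t' ν := by
    ext s
    show ν ((t + t') • s) = ν (t • s) + ν (t' • s)
    rw [add_smul, map_add]
  zero_smul ν := by
    ext s
    show ν ((0 : 𝕋) • s) = 0
    rw [zero_smul, map_zero]

theorem precompModule_smul_apply {𝕋 S K : Type*} [CommRing 𝕋] [AddCommGroup S] [Module 𝕋 S]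
    [AddCommGroup K] (t : 𝕋) (ν : S →+ K) (s : S) :
    (letI := precompModule 𝕋 S K; t • ν) s = ν (t • s) := rfl

/-- **Abstract "eigensystem occurs" theorem.**  `𝕋` acts faithfully on `S`; `π : S →+ (Γ →+ K)` is
an injective "period map" on a finitely generated group `Γ`.  For every ring hom `χ : 𝕋 → O` into
a domain there is a nonzero `φ : Γ →+ O` with `φ b' = χ t * φ b` whenever
`π s b' = π (t • s) b` for all `s`, and `φ b = 0` whenever `π s b = 0` for all `s`. -/
theorem exists_eigen_hom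
    {S : Type*} [AddCommGroup S] {K : Type*} [AddCommGroup K]
    {𝕋 : Type*} [CommRing 𝕋] [Module 𝕋 S] (hfaith : ∀ t : 𝕋, (∀ s : S, t • s = 0) → t = 0)
    {Γ : Type*} [AddGroup Γ] [hΓ : AddGroup.FG Γ]
    (π : S →+ (Γ →+ K)) (hπ : Function.Injective π)
    {O : Type*} [CommRing O] [IsDomain O] (χ : 𝕋 →+* O) :
    ∃ φ : Γ →+ O, φ ≠ 0 ∧
      (∀ (t : 𝕋) (b b' : Γ), (∀ s, π s b' = π (t • s) b) → φ b' = χ t * φ b) ∧
      (∀ b, (∀ s, π s b = 0) → φ b = 0) := by
  classical
  letI : Module 𝕋 (S →+ K) := precompModule 𝕋 S K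
  -- evaluation map
  let ev : Γ →+ (S →+ K) := π.flip
  have hev : ∀ b s, ev b s = π s b := fun _ _ => rfl
  -- finite generating set
  obtain ⟨G₀, hG₀, hG₀fin⟩ := (AddSubgroup.fg_iff _).mp (AddGroup.fg_def.mp hΓ)
  let N : Submodule 𝕋 (S →+ K) := Submodule.span 𝕋 (ev '' G₀)
  haveI : Module.Finite 𝕋 N := Module.Finite.span_of_finite 𝕋 (hG₀fin.image ev)
  have hevN : ∀ b : Γ, ev b ∈ N := by
    intro b
    have hb : b ∈ AddSubgroup.closure G₀ := by rw [hG₀]; trivial
    induction hb using AddSubgroup.closure_induction with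
    | mem x hx => exact Submodule.subset_span ⟨x, hx, rfl⟩
    | zero => rw [map_zero]; exact N.zero_mem
    | add x y _ _ hx hy => rw [map_add]; exact N.add_mem hx hy
    | neg x _ hx => rw [map_neg]; exact N.neg_mem hx
  -- faithfulness of `N`
  have hNfaith : ∀ t : 𝕋, (∀ y : N, t • y = 0) → t = 0 := by
    intro t ht
    apply hfaith t
    intro s
    apply hπ
    rw [map_zero]
    ext b
    have h1 := ht ⟨ev b, hevN b⟩
    have h2 : t • ev b = 0 := by
      have := congrArg Subtype.val h1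
      simpa using this
    have h3 := DFunLike.congr_fun h2 s
    rw [precompModule_smul_apply, hev] at h3
    simpa using h3
  -- the semilinear functional
  let F := FractionRing O
  obtain ⟨θ, hθ0, hθ⟩ := exists_semilinear_functional (𝕋 := 𝕋) (N := N) hNfaith
    ((algebraMap O F).comp χ)
  let φ₀ : Γ →+ F :=
    { toFun := fun b => θ ⟨ev b, hevN b⟩
      map_zero' := by
        have : (⟨ev 0, hevN 0⟩ : N) = 0 := Subtype.ext (map_zero ev)
        rw [this, map_zero]
      map_add' := fun b c => by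
        have : (⟨ev (b + c), hevN (b + c)⟩ : N) = ⟨ev b, hevN b⟩ + ⟨ev c, hevN c⟩ :=
          Subtype.ext (map_add ev b c)
        rw [this, map_add] }
  have hφ₀ : ∀ b, φ₀ b = θ ⟨ev b, hevN b⟩ := fun _ => rfl
  have hφ₀ne : φ₀ ≠ 0 := by
    intro h0
    apply hθ0
    ext y
    obtain ⟨y, hy⟩ := y
    show θ ⟨y, hy⟩ = 0
    induction hy using Submodule.span_induction with
    | mem x hx =>
      obtain ⟨b, -, rfl⟩ := hx
      have := DFunLike.congr_fun h0 b
      rw [hφ₀] at this
      exact this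
    | zero => exact map_zero θ
    | add x y hx hy ihx ihy =>
      have : (⟨x + y, N.add_mem hx hy⟩ : N) = ⟨x, hx⟩ + ⟨y, hy⟩ := rfl
      rw [this, map_add, ihx, ihy, add_zero]
    | smul t x hx ihx =>
      have : (⟨t • x, N.smul_mem t hx⟩ : N) = t • ⟨x, hx⟩ := rfl
      rw [this, hθ, ihx, mul_zero]
  -- common denominator on the generators
  have hden : ∀ b : Γ, ∃ d : O, d ≠ 0 ∧ ∃ a : O, algebraMap O F d * φ₀ b = algebraMap O F a := by
    intro b
    obtain ⟨a, d, hd, h⟩ := IsFractionRing.div_surjective (A := O) (φ₀ b)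
    refine ⟨d, nonZeroDivisors.ne_zero hd, a, ?_⟩
    rw [← h]
    have : algebraMap O F d ≠ 0 := by
      intro h0
      exact nonZeroDivisors.ne_zero hd ((IsFractionRing.injective O F) (by rw [h0, map_zero]))
    rw [mul_div_cancel₀ _ this]
  choose dd hdd aa haa using hden
  let D : O := ∏ g ∈ hG₀fin.toFinset, dd g
  have hD : D ≠ 0 := Finset.prod_ne_zero_iff.mpr fun g _ => hdd g
  have hDF : algebraMap O F D ≠ 0 := by
    intro h0
    exact hD ((IsFractionRing.injective O F) (by rw [h0, map_zero]))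
  have hint : ∀ b : Γ, ∃ a : O, algebraMap O F D * φ₀ b = algebraMap O F a := by
    intro b
    have hb : b ∈ AddSubgroup.closure G₀ := by rw [hG₀]; trivial
    induction hb using AddSubgroup.closure_induction with
    | mem x hx =>
      have hx' : x ∈ hG₀fin.toFinset := hG₀fin.mem_toFinset.mpr hx
      obtain ⟨c, hc⟩ := Finset.dvd_prod_of_mem dd hx'
      refine ⟨c * aa x, ?_⟩
      have : D = dd x * c := hc
      rw [this, map_mul, map_mul, ← haa x]
      ring
    | zero => exact ⟨0, by rw [map_zero, mul_zero, map_zero]⟩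
    | add x y _ _ hx hy =>
      obtain ⟨a, ha⟩ := hx
      obtain ⟨a', ha'⟩ := hy
      exact ⟨a + a', by rw [map_add, mul_add, ha, ha', map_add]⟩
    | neg x _ hx =>
      obtain ⟨a, ha⟩ := hx
      exact ⟨-a, by rw [map_neg, mul_neg, ha, map_neg]⟩
  choose f hf using hint
  have hinj : Function.Injective (algebraMap O F) := IsFractionRing.injective O F
  let φ : Γ →+ O :=
    { toFun := f
      map_zero' := hinj (by rw [← hf, map_zero, mul_zero, map_zero])
      map_add' := fun b c => hinj (by rw [← hf, map_add, mul_add, hf, hf, map_add]) }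
  have hφ : ∀ b, algebraMap O F (φ b) = algebraMap O F D * φ₀ b := fun b => (hf b).symm
  refine ⟨φ, ?_, ?_, ?_⟩
  · intro h0
    apply hφ₀ne
    ext b
    have h1 := hφ b
    rw [h0] at h1
    have h2 : algebraMap O F D * φ₀ b = 0 := by
      rw [← h1]; simp
    rcases mul_eq_zero.mp h2 with h | h
    · exact absurd h hDF
    · exact h
  · intro t b b' hbb'
    apply hinj
    rw [map_mul, hφ, hφ]
    have hev' : (⟨ev b', hevN b'⟩ : N) = t • ⟨ev b, hevN b⟩ := by
      apply Subtype.ext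
      show ev b' = t • ev b
      ext s
      rw [precompModule_smul_apply, hev, hev]
      exact hbb' s
    rw [hφ₀, hφ₀, hev', hθ]
    simp only [RingHom.comp_apply]
    ring
  · intro b hb
    apply hinj
    rw [hφ, map_zero]
    have : (⟨ev b, hevN b⟩ : N) = 0 := by
      apply Subtype.ext
      show ev b = 0
      ext s
      rw [hev]
      exact hb s
    rw [hφ₀, this, map_zero, mul_zero]

end Fermat.Agent.S30.H829

end
-- ===== PACK-END S30/H829/EigenFunctional.lean

-- ===== PACK-BEGIN S24/D5/H108Poly.lean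
section


/-!
# D5: level-one modular functions are polynomials in `J = E₄³ / Δ`

Mathlib-only.  Main results (namespace `Fermat.Agent.S24.H108`):

* `modularForm_eq_discriminant_pow_mul_eval` : every `g : ModularForm 𝒮ℒ (12 * m)` is
  `Δ ^ m * P (E₄³ / Δ)` for a polynomial `P` of degree `≤ m`.
* `exists_polynomial_of_invariant` : an `SL(2,ℤ)`-invariant holomorphic `f : ℍ → ℂ` with
  `f * Δ ^ m` bounded at `i∞` is `P (E₄³ / Δ)` for a polynomial `P` of degree `≤ m`.
-/

noncomputable section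

open UpperHalfPlane ModularForm SlashInvariantForm SlashInvariantFormClass ModularFormClass
  CuspFormClass MatrixGroups OnePoint Filter EisensteinSeries Asymptotics

open scoped Topology Manifold

namespace Fermat.Agent.S24.H108

local notation "Δ" => ModularForm.discriminant

/-- The (un-normalised) `J`-function `E₄³ / Δ` on the upper half plane. -/
def jFun (τ : ℍ) : ℂ := E₄ τ ^ 3 / Δ τ

lemma jFun_def (τ : ℍ) : jFun τ = E₄ τ ^ 3 / Δ τ := rfl

/-- `E₄ ^ (3 * m)` as a modular form of weight `12 * m`. -/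
def e4Pow (m : ℕ) : ModularForm 𝒮ℒ (12 * (m : ℤ)) :=
  ModularForm.mcast (by push_cast; ring) (E₄.pow (3 * m))

lemma e4Pow_coe (m : ℕ) : (e4Pow m : ℍ → ℂ) = (E₄.pow (3 * m) : ℍ → ℂ) := by
  simp [e4Pow, coe_mcast]

lemma e4Pow_apply (m : ℕ) (τ : ℍ) : e4Pow m τ = E₄ τ ^ (3 * m) := by
  rw [e4Pow_coe, coe_pow, Pi.pow_apply]

lemma e4Pow_qExpansion_coeff_zero (m : ℕ) : (qExpansion 1 (e4Pow m)).coeff 0 = 1 := by
  rw [e4Pow_coe, ModularForm.qExpansion_pow one_pos one_mem_strictPeriods_SL]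
  have h1 : (qExpansion 1 E₄).coeff 0 = 1 := E_qExpansion_coeff_zero _ ⟨2, rfl⟩
  rw [PowerSeries.coeff_zero_eq_constantCoeff_apply] at h1 ⊢
  rw [map_pow, h1, one_pow]

/-- Core statement: every level one modular form of weight `12 * m` is `Δ ^ m` times a
polynomial of degree `≤ m` in `E₄³ / Δ`. -/
theorem modularForm_eq_discriminant_pow_mul_eval (m : ℕ) (g : ModularForm 𝒮ℒ (12 * (m : ℤ))) :
    ∃ P : Polynomial ℂ, P.natDegree ≤ m ∧ ∀ τ : ℍ, g τ = Δ τ ^ m * P.eval (jFun τ) := by
  induction m with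
  | zero =>
    obtain ⟨c, hc⟩ := ModularFormClass.levelOne_weight_zero_const
      (ModularForm.mcast (show (12 * ((0 : ℕ) : ℤ)) = 0 by simp) g)
    refine ⟨Polynomial.C c, by simp, fun τ => ?_⟩
    have := congrFun hc τ
    simpa [coe_mcast] using this
  | succ m ih =>
    set c : ℂ := (qExpansion 1 g).coeff 0 with hc
    -- h = g - c • E₄^(3(m+1)) has vanishing constant term
    set h : ModularForm 𝒮ℒ (12 * ((m + 1 : ℕ) : ℤ)) := g - c • e4Pow (m + 1) with hh
    have hcoeff : (qExpansion 1 h).coeff 0 = 0 := by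
      have : (h : ℍ → ℂ) = (g : ℍ → ℂ) - ((c • e4Pow (m + 1) : ModularForm 𝒮ℒ _) : ℍ → ℂ) := rfl
      rw [this, ModularForm.qExpansion_sub one_pos one_mem_strictPeriods_SL]
      have h2 : ((c • e4Pow (m + 1) : ModularForm 𝒮ℒ _) : ℍ → ℂ) = c • (e4Pow (m + 1) : ℍ → ℂ) :=
        rfl
      rw [h2, ModularForm.qExpansion_smul one_pos one_mem_strictPeriods_SL, map_sub,
        PowerSeries.coeff_smul, e4Pow_qExpansion_coeff_zero, smul_eq_mul, mul_one, sub_self]
    -- divide by Δ
    set h' : ModularForm 𝒮ℒ (12 * ((m + 1 : ℕ) : ℤ) - 12) :=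
      CuspForm.discriminantEquiv (toCuspForm h hcoeff) with hh'
    obtain ⟨P', hP'deg, hP'⟩ := ih (ModularForm.mcast (by push_cast; ring) h')
    refine ⟨Polynomial.C c * Polynomial.X ^ (m + 1) + P', ?_, fun τ => ?_⟩
    · refine (Polynomial.natDegree_add_le _ _).trans (max_le ?_ (hP'deg.trans (Nat.le_succ m)))
      exact (Polynomial.natDegree_C_mul_le _ _).trans (Polynomial.natDegree_X_pow_le _)
    · have hΔ : Δ τ ≠ 0 := discriminant_ne_zero τ
      have e1 : Δ τ * h' τ = h τ :=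
        discriminant_mul_discriminantEquiv_apply (toCuspForm h hcoeff) τ
      have e2 : h' τ = Δ τ ^ m * P'.eval (jFun τ) := by
        have := hP' τ
        simpa [coe_mcast] using this
      have e3 : h τ = g τ - c * E₄ τ ^ (3 * (m + 1)) := by
        rw [← e4Pow_apply]; rfl
      have hJ : Δ τ ^ (m + 1) * jFun τ ^ (m + 1) = E₄ τ ^ (3 * (m + 1)) := by
        rw [← mul_pow, jFun_def, mul_div_cancel₀ _ hΔ, ← pow_mul]
      simp only [Polynomial.eval_add, Polynomial.eval_mul, Polynomial.eval_C, Polynomial.eval_pow,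
        Polynomial.eval_X]
      rw [e2] at e1
      linear_combination -e3 - e1 - c * hJ

/-! ### From invariant functions to modular forms -/

/-- `Δ ^ m` as a modular form of weight `12 * m`. -/
def deltaPow (m : ℕ) : ModularForm 𝒮ℒ (12 * (m : ℤ)) :=
  ModularForm.mcast (by ring)
    ((ModularFormClass.modularForm CuspForm.discriminant).pow m)

lemma deltaPow_coe (m : ℕ) : (deltaPow m : ℍ → ℂ) = fun τ => Δ τ ^ m := by
  ext τ
  simp [deltaPow, coe_mcast, coe_pow]

lemma deltaPow_apply (m : ℕ) (τ : ℍ) : deltaPow m τ = Δ τ ^ m := by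
  rw [deltaPow_coe]

/-- A function invariant under `SL(2,ℤ)` is weight-0 slash invariant. -/
lemma slash_zero_eq_of_invariant {f : ℍ → ℂ}
    (hinv : ∀ (γ : SL(2, ℤ)) (τ : ℍ), f (γ • τ) = f τ) (γ : SL(2, ℤ)) :
    f ∣[(0 : ℤ)] γ = f := by
  ext τ
  rw [SL_slash_apply, hinv]
  simp

lemma mul_deltaPow_slash {f : ℍ → ℂ}
    (hinv : ∀ (γ : SL(2, ℤ)) (τ : ℍ), f (γ • τ) = f τ) (m : ℕ) (γ : SL(2, ℤ)) :
    (fun τ => f τ * Δ τ ^ m) ∣[(12 * (m : ℤ))] γ = fun τ => f τ * Δ τ ^ m := by
  have h1 : (fun τ => f τ * Δ τ ^ m) = f * (deltaPow m : ℍ → ℂ) := by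
    ext τ; simp [deltaPow_apply]
  have h2 := mul_slash_SL2 0 (12 * (m : ℤ)) γ f (deltaPow m)
  rw [zero_add] at h2
  have hγ : (γ : GL (Fin 2) ℝ) ∈ 𝒮ℒ := ⟨γ, rfl⟩
  have h3 : (deltaPow m : ℍ → ℂ) ∣[(12 * (m : ℤ))] γ = deltaPow m := by
    rw [SL_slash]
    exact slash_action_eqn (deltaPow m) _ hγ
  rw [h1, h2, slash_zero_eq_of_invariant hinv, h3]

/-- An `SL(2,ℤ)`-invariant holomorphic function `f` with `f * Δ ^ m` bounded at `i∞`
gives the modular form `f * Δ ^ m` of weight `12 * m`. -/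
def ofInvariant (f : ℍ → ℂ) (hf : MDiff f)
    (hinv : ∀ (γ : SL(2, ℤ)) (τ : ℍ), f (γ • τ) = f τ) (m : ℕ)
    (hbd : IsBoundedAtImInfty (fun τ => f τ * Δ τ ^ m)) : ModularForm 𝒮ℒ (12 * (m : ℤ)) where
  toFun τ := f τ * Δ τ ^ m
  slash_action_eq' := fun _ ⟨γ, hγ⟩ => hγ ▸ mul_deltaPow_slash hinv m γ
  holo' := by
    have h1 : (fun τ => f τ * Δ τ ^ m) = f * (deltaPow m : ℍ → ℂ) := by
      ext τ; simp [deltaPow_apply]
    change MDiff (fun τ => f τ * Δ τ ^ m)
    rw [h1]
    exact hf.mul (ModularFormClass.holo (deltaPow m))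
  bdd_at_cusps' {c} hc := by
    rw [Subgroup.IsArithmetic.isCusp_iff_isCusp_SL2Z] at hc
    rw [isBoundedAt_iff_forall_SL2Z hc]
    intro γ _
    rw [mul_deltaPow_slash hinv m γ]
    exact hbd

lemma ofInvariant_apply (f : ℍ → ℂ) (hf : MDiff f)
    (hinv : ∀ (γ : SL(2, ℤ)) (τ : ℍ), f (γ • τ) = f τ) (m : ℕ)
    (hbd : IsBoundedAtImInfty (fun τ => f τ * Δ τ ^ m)) (τ : ℍ) :
    ofInvariant f hf hinv m hbd τ = f τ * Δ τ ^ m := rfl

/-- **D5a.** An `SL(2,ℤ)`-invariant holomorphic function `f : ℍ → ℂ` such that `f * Δ ^ m` is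
bounded at `i∞` is a polynomial of degree `≤ m` in `J = E₄³ / Δ`. -/
theorem exists_polynomial_of_invariant (f : ℍ → ℂ) (hf : MDiff f)
    (hinv : ∀ (γ : SL(2, ℤ)) (τ : ℍ), f (γ • τ) = f τ) (m : ℕ)
    (hbd : IsBoundedAtImInfty (fun τ => f τ * Δ τ ^ m)) :
    ∃ P : Polynomial ℂ, P.natDegree ≤ m ∧ ∀ τ : ℍ, f τ = P.eval (E₄ τ ^ 3 / Δ τ) := by
  obtain ⟨P, hdeg, hP⟩ :=
    modularForm_eq_discriminant_pow_mul_eval m (ofInvariant f hf hinv m hbd)
  refine ⟨P, hdeg, fun τ => ?_⟩
  have h := hP τ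
  rw [ofInvariant_apply, mul_comm] at h
  exact mul_left_cancel₀ (pow_ne_zero m (discriminant_ne_zero τ)) h

end Fermat.Agent.S24.H108

end
end
-- ===== PACK-END S24/D5/H108Poly.lean

-- ===== PACK-BEGIN S18/H333/HauptElim.lean
section








/-!
# S18 / c3 (helper333): elimination of `t` between the two Hauptmodul relations

For `p = 2` :  `j t² = (t+256)³`,  `J t = (t+16)³`            (`J = j(q²)`)
for `p = 3` :  `j t³ = (t+27)(t+243)³`,  `J t = (t+27)(t+3)³`  (`J = j(q³)`)
we give explicit `D, N ∈ ℤ[j, J]` with `D t + N = 0`  (subresultant of degree 1), hence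
`t = -N / D ∈ K(j, J)` as soon as `D ≠ 0`.   Pure commutative algebra (generated by
`coord/S18-c3-elim-helper333.py.txt`).
-/

set_option autoImplicit false
set_option linter.unusedSimpArgs false

namespace Fermat.Agent.S18.H333

section Elim

variable {A : Type*} [CommRing A]

/-- the coefficient `D` of `t` (level 2) -/
def elimD2 (j J : A) : A :=
    -j ^ 2 * J + 768 * j ^ 2 + 1488 * j * J + 25067520 * j + J ^ 2 - 161280 * J + 19906560000

/-- the constant term `N` (level 2) -/
def elimN2 (j J : A) : A :=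
    4096 * j ^ 2 + 799211520 * j + 16773120 * J + 2707292160000

/-- cofactor of the first relation (level 2) -/
def elimU2 (t j J : A) : A :=
    t * j - 720 * t + 48 * j + J + 161280

/-- cofactor of the second relation (level 2) -/
def elimV2 (t j J : A) : A :=
    -t * j + 720 * t + j ^ 2 - 1488 * j - J + 357120

/-- `D` homogenised: `elimD2 (e/d) (e'/d') * d^2 * d'^2` -/
def elimDh2 (e d e' d' : A) : A :=
    -e ^ 2 * e' * d' + 768 * e ^ 2 * d' ^ 2 + 1488 * e * d * e' * d'
      + 25067520 * e * d * d' ^ 2 + d ^ 2 * e' ^ 2 - 161280 * d ^ 2 * e' * d'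
      + 19906560000 * d ^ 2 * d' ^ 2

theorem elim2_identity (t j J : A) :
    elimU2 t j J * ((t + 256) ^ 3 - j * t ^ 2) + elimV2 t j J * ((t + 16) ^ 3 - J * t)
      = elimD2 j J * t + elimN2 j J := by
  simp only [elimU2, elimV2, elimD2, elimN2]
  ring

theorem elim2 (t j J : A) (ha : j * t ^ 2 = (t + 256) ^ 3) (hb : J * t = (t + 16) ^ 3) :
    elimD2 j J * t + elimN2 j J = 0 := by
  rw [← elim2_identity, ha, hb]
  ring

theorem elimD2_hom (j J d d' : A) :
    elimD2 j J * d ^ 2 * d' ^ 2 = elimDh2 (j * d) d (J * d') d' := by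
  simp only [elimD2, elimDh2]
  ring

theorem map_elimD2 {B : Type*} [CommRing B] (φ : A →+* B) (j J : A) :
    φ (elimD2 j J) = elimD2 (φ j) (φ J) := by
  simp only [elimD2, map_add, map_sub, map_mul, map_pow, map_neg, map_ofNat]

theorem map_elimN2 {B : Type*} [CommRing B] (φ : A →+* B) (j J : A) :
    φ (elimN2 j J) = elimN2 (φ j) (φ J) := by
  simp only [elimN2, map_add, map_sub, map_mul, map_pow, map_neg, map_ofNat]

theorem map_elimDh2 {B : Type*} [CommRing B] (φ : A →+* B) (e d e' d' : A) :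
    φ (elimDh2 e d e' d') = elimDh2 (φ e) (φ d) (φ e') (φ d') := by
  simp only [elimDh2, map_add, map_sub, map_mul, map_pow, map_neg, map_ofNat]

/-- the coefficient `D` of `t` (level 3) -/
def elimD3 (j J : A) : A :=
    -j ^ 5 * J ^ 2 + 1512 * j ^ 5 * J - 374706 * j ^ 5 + 3672 * j ^ 4 * J ^ 2
      + 2199927357 * j ^ 4 * J + 3513587135760 * j ^ 4 - 4802436 * j ^ 3 * J ^ 2
      + 6287091255360 * j ^ 3 * J - 578039691371443200 * j ^ 3 + j ^ 2 * J ^ 3
      + 2734670160 * j ^ 2 * J ^ 2 - 12148776475948800 * j ^ 2 * J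
      + 3468720924518404608000 * j ^ 2 - 1440 * j * J ^ 3 - 607750387200 * j * J ^ 2
      + 4430048196934656000 * j * J - 4101236057280872448000000 * j + 518400 * J ^ 3
      + 19110670848000 * J ^ 2 + 170148916887552000000 * J + 1369513028852121600000000000

/-- the constant term `N` (level 3) -/
def elimN3 (j J : A) : A :=
    729 * j ^ 5 * J - 551124 * j ^ 5 + 13944460716 * j ^ 4 * J + 16877673339120 * j ^ 4
      + 35694226104480 * j ^ 3 * J - 10379169493558848000 * j ^ 3 + 387419760 * j ^ 2 * J ^ 2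
      - 108392996345702400 * j ^ 2 * J + 86248560322019464704000 * j ^ 2
      - 557884454400 * j * J ^ 2 + 79754306454770688000 * j * J
      - 108081439958057877504000000 * j + 200838403584000 * J ^ 2 - 18302525195157504000000 * J
      + 36976851779007283200000000000

/-- cofactor of the first relation (level 3) -/
def elimU3 (t j J : A) : A :=
    270 * t ^ 2 * j ^ 4 + t ^ 2 * j ^ 3 * J + 25429680 * t ^ 2 * j ^ 3
      - 2160 * t ^ 2 * j ^ 2 * J - 17132083200 * t ^ 2 * j ^ 2 + 1555200 * t ^ 2 * j * J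
      - 15281146368000 * t ^ 2 * j - 373248000 * t ^ 2 * J + 10319560704000000 * t ^ 2
      + t * j ^ 4 * J + 8964 * t * j ^ 4 - 2880 * t * j ^ 3 * J - 158494320 * t * j ^ 3
      + 2913840 * t * j ^ 2 * J - 2055056832000 * t * j ^ 2 - 1209945600 * t * j * J
      + 3192389024256000 * t * j + 166841856000 * t * J - 1176429920256000000 * t
      + 36 * j ^ 4 * J + 45684 * j ^ 4 + 92124 * j ^ 3 * J - 26779844160 * j ^ 3
      + j ^ 2 * J ^ 2 - 279776160 * j ^ 2 * J + 222607701273600 * j ^ 2 - 1440 * j * J ^ 2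
      + 205858713600 * j * J - 278975282042880000 * j + 518400 * J ^ 2 - 47241999360000 * J
      + 95445616951296000000

/-- cofactor of the second relation (level 3) -/
def elimV3 (t j J : A) : A :=
    -270 * t ^ 2 * j ^ 4 - t ^ 2 * j ^ 3 * J - 25429680 * t ^ 2 * j ^ 3
      + 2160 * t ^ 2 * j ^ 2 * J + 17132083200 * t ^ 2 * j ^ 2 - 1555200 * t ^ 2 * j * J
      + 15281146368000 * t ^ 2 * j + 373248000 * t ^ 2 * J - 10319560704000000 * t ^ 2
      + 270 * t * j ^ 5 + 25226316 * t * j ^ 4 - 35282958480 * t * j ^ 3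
      + 196560 * t * j ^ 2 * J - 890989632000 * t * j ^ 2 - 283046400 * t * j * J
      + 18129597064704000 * t * j + 101896704000 * t * J - 6253653786624000000 * t + j ^ 5 * J
      - 756 * j ^ 5 - 3672 * j ^ 4 * J - 1126535364 * j ^ 4 + 4802436 * j ^ 3 * J
      - 5636726677440 * j ^ 3 - j ^ 2 * J ^ 2 - 2715539040 * j ^ 2 * J
      + 7922962188518400 * j ^ 2 + 1440 * j * J ^ 2 + 580201574400 * j * J
      - 959904104785920000 * j - 518400 * J ^ 2 - 9193098240000 * J - 1009345912897536000000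

/-- `D` homogenised: `elimD3 (e/d) (e'/d') * d^5 * d'^3` -/
def elimDh3 (e d e' d' : A) : A :=
    -e ^ 5 * e' ^ 2 * d' + 1512 * e ^ 5 * e' * d' ^ 2 - 374706 * e ^ 5 * d' ^ 3
      + 3672 * e ^ 4 * d * e' ^ 2 * d' + 2199927357 * e ^ 4 * d * e' * d' ^ 2
      + 3513587135760 * e ^ 4 * d * d' ^ 3 - 4802436 * e ^ 3 * d ^ 2 * e' ^ 2 * d'
      + 6287091255360 * e ^ 3 * d ^ 2 * e' * d' ^ 2
      - 578039691371443200 * e ^ 3 * d ^ 2 * d' ^ 3 + e ^ 2 * d ^ 3 * e' ^ 3
      + 2734670160 * e ^ 2 * d ^ 3 * e' ^ 2 * d'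
      - 12148776475948800 * e ^ 2 * d ^ 3 * e' * d' ^ 2
      + 3468720924518404608000 * e ^ 2 * d ^ 3 * d' ^ 3 - 1440 * e * d ^ 4 * e' ^ 3
      - 607750387200 * e * d ^ 4 * e' ^ 2 * d' + 4430048196934656000 * e * d ^ 4 * e' * d' ^ 2
      - 4101236057280872448000000 * e * d ^ 4 * d' ^ 3 + 518400 * d ^ 5 * e' ^ 3
      + 19110670848000 * d ^ 5 * e' ^ 2 * d' + 170148916887552000000 * d ^ 5 * e' * d' ^ 2
      + 1369513028852121600000000000 * d ^ 5 * d' ^ 3

theorem elim3_identity (t j J : A) :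
    elimU3 t j J * ((t + 27) * (t + 243) ^ 3 - j * t ^ 3) + elimV3 t j J * ((t + 27) * (t + 3) ^ 3 - J * t)
      = elimD3 j J * t + elimN3 j J := by
  simp only [elimU3, elimV3, elimD3, elimN3]
  ring

theorem elim3 (t j J : A) (ha : j * t ^ 3 = (t + 27) * (t + 243) ^ 3) (hb : J * t = (t + 27) * (t + 3) ^ 3) :
    elimD3 j J * t + elimN3 j J = 0 := by
  rw [← elim3_identity, ha, hb]
  ring

theorem elimD3_hom (j J d d' : A) :
    elimD3 j J * d ^ 5 * d' ^ 3 = elimDh3 (j * d) d (J * d') d' := by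
  simp only [elimD3, elimDh3]
  ring

theorem map_elimD3 {B : Type*} [CommRing B] (φ : A →+* B) (j J : A) :
    φ (elimD3 j J) = elimD3 (φ j) (φ J) := by
  simp only [elimD3, map_add, map_sub, map_mul, map_pow, map_neg, map_ofNat]

theorem map_elimN3 {B : Type*} [CommRing B] (φ : A →+* B) (j J : A) :
    φ (elimN3 j J) = elimN3 (φ j) (φ J) := by
  simp only [elimN3, map_add, map_sub, map_mul, map_pow, map_neg, map_ofNat]

theorem map_elimDh3 {B : Type*} [CommRing B] (φ : A →+* B) (e d e' d' : A) :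
    φ (elimDh3 e d e' d') = elimDh3 (φ e) (φ d) (φ e') (φ d') := by
  simp only [elimDh3, map_add, map_sub, map_mul, map_pow, map_neg, map_ofNat]

end Elim

end Fermat.Agent.S18.H333

end
-- ===== PACK-END S18/H333/HauptElim.lean

-- ===== PACK-BEGIN S18/Alg/Spec.lean
section


/-!
# S18 / ALG — frozen abstract interface (row-lead helper18), Mathlib-only

v2 (18:10Z): fields `gauss` and `separable` repaired (`0⁻¹ = 0` bugs found by helper887).
v3 (18:25Z): `GoodModel` UNCHANGED; NEW `GoodFamily` (directed family of good models); `AlgMainStatement`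
now takes a `GoodFamily`, so that ALG may enlarge the constant field `Ec` (needed by endgame K').
v4 = FINAL (landed on main, never to change again): (a) new field `x_mem_V : x ∈ V` (trivial for
MOD; asked for by helper467/24/187); (b) `AlgMainStatement` only for PRIME `m` (helper425/694: the
frozen S18 for all `m` follows from prime `m`, `S18/H694/PrimeRed.lean`).

Everything is a sub-object of ONE field `Ω` (in the application `Ω = F_M = Q̄(j_d : d ∣ M)`):

* `Lc`  : the algebraically closed constant field (`Q̄`),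
* `Ec ≤ Lc`, `R ⊆ Ec` : a subfield with a discrete valuation ring `R`, uniformiser `w`
  (`Ec` a number field, `R = A ∩ Ec`),
* `Fc`  : the function field over `Ec` (`Ec(j_d : d ∣ M)`), `Ω = Fc · Lc`,
* `x ∈ Fc` : the coordinate (`j`, `t₂` or `t₃`),
* `V ⊆ Fc` : the Gauss valuation ring (residue field = function field of the special fibre),
* `S ⊆ R` : the finite branch values of `Ω / Lc(x)`.

`GoodModel`/`GoodFamily` = what MOD(M) + d1 must supply.  `AlgMainStatement` = what ALG (b1–b5, or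
the polar endgame) must prove.  Together they give `CoreStatement M A m`.
-/

set_option autoImplicit false

namespace Fermat.Agent.S18.Alg

variable {Ω : Type*} [Field Ω]

/-- `R[x]` as a subring of `Ω`. -/
def polyRing (R : Subring Ω) (x : Ω) : Subring Ω := Subring.closure ((R : Set Ω) ∪ {x})

/-- `E(x)` as a subfield of `Ω`. -/
def ratField (Ec : Subfield Ω) (x : Ω) : Subfield Ω := Subfield.closure ((Ec : Set Ω) ∪ {x})

/-- The chart: elements of `Fc` integral over `R[x]`. -/
def chart (Fc : Subfield Ω) (R : Subring Ω) (x : Ω) : Set Ω :=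
  {b | b ∈ Fc ∧ IsIntegral (polyRing R x) b}

/-- The data supplied by the modular side (see the module docstring). -/
structure GoodModel (Lc Ec Fc : Subfield Ω) (R V : Subring Ω) (w x : Ω) (S : Finset Ω) : Prop where
  charZero : CharZero Ω
  -- `R` is a discrete valuation ring of `Ec` with uniformiser `w`, perfect residue field
  R_le : (R : Set Ω) ⊆ Ec
  R_total : ∀ e ∈ Ec, e ∈ R ∨ e⁻¹ ∈ R
  w_mem : w ∈ R
  w_ne_zero : w ≠ 0
  w_inv_not_mem : w⁻¹ ∉ R
  w_gen : ∀ r ∈ R, r⁻¹ ∉ R → r * w⁻¹ ∈ R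
  w_discrete : ∀ r ∈ R, r ≠ 0 → ∃ n : ℕ, r * (w⁻¹) ^ n ∈ R ∧ (r * (w⁻¹) ^ n)⁻¹ ∈ R
  residue_perfect : ∃ p : ℕ, p.Prime ∧ (p : Ω) * w⁻¹ ∈ R ∧
    ∀ r ∈ R, ∃ s ∈ R, (r - s ^ p) * w⁻¹ ∈ R
  -- the fields
  E_le_L : Ec ≤ Lc
  E_le_F : Ec ≤ Fc
  L_algebraic : ∀ a ∈ Lc, IsAlgebraic Ec a
  L_algClosed : IsAlgClosed Lc
  E_closed_in_F : ∀ f ∈ Fc, IsAlgebraic Ec f → f ∈ Ec
  compositum : Subfield.closure ((Fc : Set Ω) ∪ Lc) = ⊤
  -- the coordinate
  x_mem : x ∈ Fc
  x_transcendental : Transcendental Lc x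
  finite : ∃ s : Finset Ω, (s : Set Ω) ⊆ Fc ∧
    ∀ f ∈ Fc, f ∈ Submodule.span (ratField Ec x) (s : Set Ω)
  -- the Gauss valuation ring `V` of `Fc`
  V_le : (V : Set Ω) ⊆ Fc
  V_total : ∀ f ∈ Fc, f ∈ V ∨ f⁻¹ ∈ V
  R_le_V : R ≤ V
  w_inv_not_mem_V : w⁻¹ ∉ V
  V_gen : ∀ f ∈ V, f⁻¹ ∉ V → f * w⁻¹ ∈ V
  x_mem_V : x ∈ V
  /-- `V` restricted to `E(x)` is the Gauss valuation: a polynomial in `x` over `R` with a unit
  coefficient is a unit of `V` (in particular `x` and `x⁻¹` lie in `V`). -/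
  gauss : ∀ P : Polynomial Ω, (∀ i, P.coeff i ∈ R) → (∃ i, P.coeff i ≠ 0 ∧ (P.coeff i)⁻¹ ∈ R) →
    (P.eval x)⁻¹ ∈ V
  /-- `q`-expansion principle on both charts: `b` integral over `R[x^{±1}]`, `b/w ∈ V`
  ⟹ `b/w` integral over `R[x^{±1}]`. -/
  qep_fin : ∀ b ∈ chart Fc R x, b * w⁻¹ ∈ V → b * w⁻¹ ∈ chart Fc R x
  qep_inf : ∀ b ∈ chart Fc R x⁻¹, b * w⁻¹ ∈ V → b * w⁻¹ ∈ chart Fc R x⁻¹
  /-- the residue field of `V` is separable over `κ(x̄)` (elementwise form) -/
  separable : ∀ f ∈ V, ∃ P : Polynomial Ω, (∀ i, P.coeff i ∈ polyRing R x) ∧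
    P.eval f * w⁻¹ ∈ V ∧ (Polynomial.derivative P).eval f ≠ 0 ∧
    ((Polynomial.derivative P).eval f)⁻¹ ∈ V
  -- branch values: in `R`, pairwise distinct mod `w`, the nonzero ones are units of `R`
  S_mem : ∀ s ∈ S, s ∈ R
  S_distinct : ∀ s ∈ S, ∀ t ∈ S, s ≠ t → (s - t)⁻¹ ∈ R
  S_unit : ∀ s ∈ S, s ≠ 0 → s⁻¹ ∈ R
  /-- over `Lc`: at a place where `x` takes a value `c ∉ S`, `x - c` is a uniformiser -/
  unramified : ∀ O : ValuationSubring Ω, (∀ a ∈ Lc, a ∈ O) → ∀ c ∈ Lc, c ∉ S →
    x - c ∈ O → (x - c)⁻¹ ∉ O → ∀ t ∈ O, t⁻¹ ∉ O → t * (x - c)⁻¹ ∈ O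

/-- A model, as a tuple `(Ec, Fc, R, V, w)`. -/
abbrev Model (Ω : Type*) [Field Ω] : Type _ :=
  Subfield Ω × Subfield Ω × Subring Ω × Subring Ω × Ω

/-- `p ≤ p'` for models: all four sub-objects grow (the uniformiser may change). -/
def Model.le (p p' : Model Ω) : Prop :=
  p.1 ≤ p'.1 ∧ p.2.1 ≤ p'.2.1 ∧ p.2.2.1 ≤ p'.2.2.1 ∧ p.2.2.2.1 ≤ p'.2.2.2.1

/-- A **directed family of good models** (v3): every member is a `GoodModel`, and every member can
be enlarged inside the family so that its constant field `Ec` contains any given finite set of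
elements of `Lc`.  (In the application: all number fields `E ⊆ Q̄`.)  ALG may therefore assume
that `Ec` contains `ζ_m`, the `x`-coordinates of the zeros and poles of `u`, the constants of
`Fc(u^{1/m})`, … by passing to a larger member. -/
structure GoodFamily (Lc : Subfield Ω) (x : Ω) (S : Finset Ω) (𝓕 : Set (Model Ω)) : Prop where
  good : ∀ p ∈ 𝓕, GoodModel Lc p.1 p.2.1 p.2.2.1 p.2.2.2.1 p.2.2.2.2 x S
  enlarge : ∀ p ∈ 𝓕, ∀ T : Finset Ω, (∀ a ∈ T, a ∈ Lc) →
    ∃ p' ∈ 𝓕, Model.le p p' ∧ ∀ a ∈ T, a ∈ p'.1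

/-- **ALG main statement** (v4): for a directed family of good models, a member `p = (Ec,Fc,R,V,w)`
and a function `u ∈ Fc` with `u ≡ 1 mod w` whose divisor (over `Lc`) is divisible by `m`
(`m` a PRIME number which is a unit of `R`): `u` is a constant times an `m`-th power in
`Ω = Fc·Lc`. -/
def AlgMainStatement (Lc : Subfield Ω) (x : Ω) (S : Finset Ω) (𝓕 : Set (Model Ω)) : Prop :=
  GoodFamily Lc x S 𝓕 →
    ∀ p ∈ 𝓕, ∀ m : ℕ, m.Prime → ((m : Ω))⁻¹ ∈ p.2.2.1 →
    ∀ u ∈ p.2.1, u ≠ 0 → (u - 1) * (p.2.2.2.2)⁻¹ ∈ p.2.2.2.1 →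
      (∀ O : ValuationSubring Ω, (∀ a ∈ Lc, a ∈ O) →
        ∃ t : Ω, t ≠ 0 ∧ u * t ^ m ∈ O ∧ (u * t ^ m)⁻¹ ∈ O) →
      ∃ y : Ω, ∃ c ∈ Lc, c ≠ 0 ∧ u = c * y ^ m

end Fermat.Agent.S18.Alg

end
-- ===== PACK-END S18/Alg/Spec.lean

-- ===== PACK-BEGIN S18/H602/Descent.lean
section



/-!
# S18, piece d1 : descent from `Q̄` to a number field  (owner helper602)

`Q̄ = AlgebraicClosure ℚ`, `A ⊆ Q̄` a valuation subring, `E ⊆ Q̄` a finite extension of `ℚ`,
`R_E := A ∩ E = A.comap (algebraMap E Q̄)`.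

Main results (namespace `Fermat.Agent.S18.H602`):

* `coeffMap_mem_laurentBaseChange` : functoriality of `laurentBaseChange` in the field.
* `exists_finite_descent`, `exists_finite_descent₂` : every element (pair of elements) of
  `laurentBaseChange Q̄ F₀` comes from `laurentBaseChange E F₀` for a finite `E/ℚ`
  (containing any prescribed finite `E₀`).
* `exists_series_descent₂` : the same for Laurent series with coefficients in `A`; they descend
  to Laurent series with coefficients in `R_E`.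
* `coreStatement_of_coreAt` : CORE over `A` follows from CORE over all `R_E`.
-/

set_option autoImplicit false

noncomputable section

namespace Fermat.Agent.S18.H602

open ModularCurve AlgebraicCurve HahnSeries IntermediateField

local notation "Q̄" => AlgebraicClosure ℚ

/-! ## 1. Generalities on `coeffMap` -/

section CoeffMap

variable {R S : Type*} [CommRing R] [CommRing S]

theorem coeffMap_injective (f : R →+* S) (hf : Function.Injective f) :
    Function.Injective (coeffMap f) := by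
  intro x y h
  ext n
  apply hf
  have := congrArg (fun z => z.coeff n) h
  simpa using this

/-- A Laurent series all of whose coefficients lie in the range of an injective ring
homomorphism comes from a Laurent series over the source. -/
theorem exists_coeffMap_eq (f : R →+* S) (hf : Function.Injective f) (y : LaurentSeries S)
    (h : ∀ n, y.coeff n ∈ Set.range f) : ∃ x : LaurentSeries R, coeffMap f x = y := by
  choose c hc using h
  have hsupp : Function.support c = y.support := by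
    ext n
    simp only [Function.mem_support, HahnSeries.mem_support, ne_eq, ← hc n]
    rw [map_eq_zero_iff f hf]
  refine ⟨⟨c, ?_⟩, ?_⟩
  · rw [hsupp]
    exact y.isPWO_support
  · ext n
    simp [hc]

theorem coeffMap_algebraMap' {L L' : Type*} [Field L] [Field L'] (φ : L →+* L') (c : L) :
    coeffMap φ (algebraMap L (LaurentSeries L) c) = algebraMap L' (LaurentSeries L') (φ c) := by
  rw [algebraMap_laurentSeries_eq_single, algebraMap_laurentSeries_eq_single, coeffMap_single]

end CoeffMap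

/-! ## 2. Functoriality of `laurentBaseChange` -/

section Functoriality

variable {L L' : Type*} [Field L] [Field L'] [Algebra ℚ L] [Algebra ℚ L']
variable (F₀ : IntermediateField ℚ (LaurentSeries ℚ))

theorem coeffMap_coeffEmb' (φ : L →+* L') (x : LaurentSeries ℚ) :
    coeffMap φ (coeffEmb L x) = coeffEmb L' x := by
  rw [coeffEmb, coeffMap_coeffMap]
  exact coeffMap_congr (Subsingleton.elim _ _) x

theorem coeffMap_mem_laurentBaseChange (φ : L →+* L') {x : LaurentSeries L}
    (hx : x ∈ laurentBaseChange L F₀) : coeffMap φ x ∈ laurentBaseChange L' F₀ := by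
  rw [mem_laurentBaseChange_iff] at hx
  induction hx using Subfield.closure_induction with
  | mem y hy =>
      rcases hy with ⟨a, rfl⟩ | ⟨z, hz, rfl⟩
      · rw [coeffMap_algebraMap']
        exact (laurentBaseChange L' F₀).algebraMap_mem _
      · rw [coeffMap_coeffEmb']
        exact coeffEmb_mem_laurentBaseChange L' hz
  | one => simp
  | add x y _ _ hx hy => simpa using add_mem hx hy
  | neg x _ hx => simpa using neg_mem hx
  | inv x _ hx => simpa using inv_mem hx
  | mul x y _ _ hx hy => simpa using mul_mem hx hy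

end Functoriality

/-! ## 3. Descent of elements of `laurentBaseChange Q̄ F₀` to a finite extension of `ℚ` -/

section FiniteDescent

variable (F₀ : IntermediateField ℚ (LaurentSeries ℚ))

/-- `x ∈ Q̄((q))` is defined over the finite extension `E` (inside the base change of `F₀`). -/
def DescendsTo (E : IntermediateField ℚ Q̄) (x : LaurentSeries Q̄) : Prop :=
  ∃ y ∈ laurentBaseChange E F₀, coeffMap (algebraMap E Q̄) y = x

variable {F₀}

theorem DescendsTo.mem {E : IntermediateField ℚ Q̄} {x : LaurentSeries Q̄}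
    (h : DescendsTo F₀ E x) : x ∈ laurentBaseChange Q̄ F₀ := by
  obtain ⟨y, hy, rfl⟩ := h
  exact coeffMap_mem_laurentBaseChange F₀ _ hy

theorem DescendsTo.mono {E E' : IntermediateField ℚ Q̄} (hE : E ≤ E') {x : LaurentSeries Q̄}
    (h : DescendsTo F₀ E x) : DescendsTo F₀ E' x := by
  obtain ⟨y, hy, rfl⟩ := h
  refine ⟨coeffMap (IntermediateField.inclusion hE : E →+* E') y,
    coeffMap_mem_laurentBaseChange F₀ _ hy, ?_⟩
  rw [coeffMap_coeffMap]
  exact coeffMap_congr (RingHom.ext fun _ => rfl) y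

theorem DescendsTo.add {E : IntermediateField ℚ Q̄} {x x' : LaurentSeries Q̄}
    (h : DescendsTo F₀ E x) (h' : DescendsTo F₀ E x') : DescendsTo F₀ E (x + x') := by
  obtain ⟨y, hy, rfl⟩ := h
  obtain ⟨y', hy', rfl⟩ := h'
  exact ⟨y + y', add_mem hy hy', map_add _ _ _⟩

theorem DescendsTo.mul {E : IntermediateField ℚ Q̄} {x x' : LaurentSeries Q̄}
    (h : DescendsTo F₀ E x) (h' : DescendsTo F₀ E x') : DescendsTo F₀ E (x * x') := by
  obtain ⟨y, hy, rfl⟩ := h
  obtain ⟨y', hy', rfl⟩ := h'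
  exact ⟨y * y', mul_mem hy hy', map_mul _ _ _⟩

theorem DescendsTo.neg {E : IntermediateField ℚ Q̄} {x : LaurentSeries Q̄}
    (h : DescendsTo F₀ E x) : DescendsTo F₀ E (-x) := by
  obtain ⟨y, hy, rfl⟩ := h
  exact ⟨-y, neg_mem hy, map_neg _ _⟩

theorem DescendsTo.inv {E : IntermediateField ℚ Q̄} {x : LaurentSeries Q̄}
    (h : DescendsTo F₀ E x) : DescendsTo F₀ E x⁻¹ := by
  obtain ⟨y, hy, rfl⟩ := h
  exact ⟨y⁻¹, inv_mem hy, map_inv₀ _ _⟩

theorem DescendsTo.one (E : IntermediateField ℚ Q̄) : DescendsTo F₀ E 1 :=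
  ⟨1, one_mem _, map_one _⟩

theorem descendsTo_const (a : Q̄) :
    DescendsTo F₀ ℚ⟮a⟯ (algebraMap Q̄ (LaurentSeries Q̄) a) := by
  refine ⟨algebraMap ℚ⟮a⟯ (LaurentSeries ℚ⟮a⟯) ⟨a, mem_adjoin_simple_self ℚ a⟩,
    (laurentBaseChange ℚ⟮a⟯ F₀).algebraMap_mem _, ?_⟩
  rw [coeffMap_algebraMap']
  rfl

theorem descendsTo_coeffEmb (E : IntermediateField ℚ Q̄) {z : LaurentSeries ℚ} (hz : z ∈ F₀) :
    DescendsTo F₀ E (coeffEmb Q̄ z) :=
  ⟨coeffEmb E z, coeffEmb_mem_laurentBaseChange E hz, coeffMap_coeffEmb' _ z⟩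

theorem isAlgebraic_Qbar : Algebra.IsAlgebraic ℚ Q̄ := AlgebraicClosure.isAlgebraic ℚ

/-- Every element of `laurentBaseChange Q̄ F₀` is defined over a finite extension of `ℚ`. -/
theorem exists_finite_descent {x : LaurentSeries Q̄} (hx : x ∈ laurentBaseChange Q̄ F₀) :
    ∃ E : IntermediateField ℚ Q̄, FiniteDimensional ℚ E ∧ DescendsTo F₀ E x := by
  have := isAlgebraic_Qbar
  rw [mem_laurentBaseChange_iff] at hx
  induction hx using Subfield.closure_induction with
  | mem y hy =>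
      rcases hy with ⟨a, rfl⟩ | ⟨z, hz, rfl⟩
      · exact ⟨ℚ⟮a⟯, IntermediateField.adjoin.finiteDimensional
          (Algebra.IsAlgebraic.isAlgebraic a).isIntegral, descendsTo_const a⟩
      · exact ⟨⊥, inferInstance, descendsTo_coeffEmb ⊥ hz⟩
  | one => exact ⟨⊥, inferInstance, DescendsTo.one ⊥⟩
  | add x y _ _ hx hy =>
      obtain ⟨E₁, h₁, hx⟩ := hx
      obtain ⟨E₂, h₂, hy⟩ := hy
      exact ⟨E₁ ⊔ E₂, IntermediateField.finiteDimensional_sup E₁ E₂,
        (hx.mono le_sup_left).add (hy.mono le_sup_right)⟩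
  | neg x _ hx =>
      obtain ⟨E₁, h₁, hx⟩ := hx
      exact ⟨E₁, h₁, hx.neg⟩
  | inv x _ hx =>
      obtain ⟨E₁, h₁, hx⟩ := hx
      exact ⟨E₁, h₁, hx.inv⟩
  | mul x y _ _ hx hy =>
      obtain ⟨E₁, h₁, hx⟩ := hx
      obtain ⟨E₂, h₂, hy⟩ := hy
      exact ⟨E₁ ⊔ E₂, IntermediateField.finiteDimensional_sup E₁ E₂,
        (hx.mono le_sup_left).mul (hy.mono le_sup_right)⟩

/-- Two elements of `laurentBaseChange Q̄ F₀` are defined over a common finite extension of `ℚ`
containing a prescribed finite extension `E₀`. -/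
theorem exists_finite_descent₂ (E₀ : IntermediateField ℚ Q̄) [FiniteDimensional ℚ E₀]
    {x₁ x₂ : LaurentSeries Q̄} (h₁ : x₁ ∈ laurentBaseChange Q̄ F₀)
    (h₂ : x₂ ∈ laurentBaseChange Q̄ F₀) :
    ∃ E : IntermediateField ℚ Q̄, FiniteDimensional ℚ E ∧ E₀ ≤ E ∧
      DescendsTo F₀ E x₁ ∧ DescendsTo F₀ E x₂ := by
  obtain ⟨E₁, hE₁, d₁⟩ := exists_finite_descent h₁
  obtain ⟨E₂, hE₂, d₂⟩ := exists_finite_descent h₂
  have : FiniteDimensional ℚ ↥(E₁ ⊔ E₂) := IntermediateField.finiteDimensional_sup E₁ E₂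
  exact ⟨E₀ ⊔ (E₁ ⊔ E₂), IntermediateField.finiteDimensional_sup _ _, le_sup_left,
    d₁.mono (le_sup_left.trans le_sup_right), d₂.mono (le_sup_right.trans le_sup_right)⟩

end FiniteDescent

/-! ## 4. The valuation ring `R_E = A ∩ E` -/

section RE

variable (A : ValuationSubring Q̄) (E : IntermediateField ℚ Q̄)

/-- `R_E := A ∩ E`, a valuation subring of `E`. -/
def RE : ValuationSubring E := A.comap (algebraMap E Q̄)

variable {A E} in
theorem mem_RE {x : E} : x ∈ RE A E ↔ (x : Q̄) ∈ A := Iff.rfl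

/-- The inclusion `R_E → A`. -/
def toA : ↥(RE A E) →+* ↥A :=
  ((algebraMap E Q̄).comp (RE A E).subtype).codRestrict A (fun x => x.2)

@[simp]
theorem coe_toA (x : RE A E) : ((toA A E x : A) : Q̄) = ((x : E) : Q̄) := rfl

theorem toA_injective : Function.Injective (toA A E) := by
  intro x y h
  have h' : ((x : E) : Q̄) = ((y : E) : Q̄) := congrArg (fun z : A => (z : Q̄)) h
  exact Subtype.ext (Subtype.ext h')

theorem subtype_comp_toA :
    (A.subtype : ↥A →+* Q̄).comp (toA A E) = (algebraMap E Q̄).comp (RE A E).subtype :=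
  RingHom.ext fun _ => rfl

instance isLocalHom_toA : IsLocalHom (toA A E) where
  map_nonunit := by
    intro a ha
    obtain ⟨b, hb⟩ := isUnit_iff_exists_inv.mp ha
    have hb' : ((a : E) : Q̄) * (b : Q̄) = 1 := congrArg (fun z : A => (z : Q̄)) hb
    have ha0 : (a : E) ≠ 0 := by
      rintro h0
      rw [h0] at hb'
      simp at hb'
    have hinv : ((a : E)⁻¹ : E) ∈ RE A E := by
      rw [mem_RE]
      have : (((a : E)⁻¹ : E) : Q̄) = (b : Q̄) := by
        have h1 : (((a : E)⁻¹ : E) : Q̄) = ((a : E) : Q̄)⁻¹ := by simp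
        rw [h1]
        exact inv_eq_of_mul_eq_one_right hb'
      rw [this]
      exact b.2
    exact isUnit_iff_exists_inv.mpr ⟨⟨(a : E)⁻¹, hinv⟩, Subtype.ext (mul_inv_cancel₀ ha0)⟩

/-- The map of residue fields `κ_E → k`. -/
def resMap : IsLocalRing.ResidueField (RE A E) →+* IsLocalRing.ResidueField A :=
  IsLocalRing.ResidueField.map (toA A E)

theorem resMap_injective : Function.Injective (resMap A E) := (resMap A E).injective

theorem resMap_comp_residue :
    (resMap A E).comp (IsLocalRing.residue (RE A E)) = (IsLocalRing.residue A).comp (toA A E) :=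
  IsLocalRing.ResidueField.map_comp_residue (toA A E)

theorem coeffMap_residue_toA (V : LaurentSeries (RE A E)) :
    coeffMap (IsLocalRing.residue A) (coeffMap (toA A E) V) =
      coeffMap (resMap A E) (coeffMap (IsLocalRing.residue (RE A E)) V) := by
  rw [coeffMap_coeffMap, coeffMap_coeffMap, resMap_comp_residue]

variable {A E}

/-- A series over `A` whose image in `Q̄((q))` is defined over `E` comes from a series over
`R_E = A ∩ E`. -/
theorem exists_series_descent {F₀ : IntermediateField ℚ (LaurentSeries ℚ)} (U : LaurentSeries A)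
    (h : DescendsTo F₀ E (coeffMap A.subtype U)) :
    ∃ V : LaurentSeries (RE A E),
      coeffMap (RE A E).subtype V ∈ laurentBaseChange E F₀ ∧ coeffMap (toA A E) V = U := by
  obtain ⟨y, hy, hyU⟩ := h
  have hc : ∀ n, y.coeff n ∈ Set.range (RE A E).subtype := by
    intro n
    have h1 : algebraMap E Q̄ (y.coeff n) = ((U.coeff n : A) : Q̄) := by
      have := congrArg (fun z => z.coeff n) hyU
      simpa using this
    refine ⟨⟨y.coeff n, ?_⟩, rfl⟩
    rw [mem_RE]
    change algebraMap E Q̄ (y.coeff n) ∈ A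
    rw [h1]
    exact (U.coeff n).2
  obtain ⟨V, hV⟩ := exists_coeffMap_eq (RE A E).subtype Subtype.val_injective y hc
  refine ⟨V, hV ▸ hy, ?_⟩
  apply coeffMap_injective A.subtype Subtype.val_injective
  rw [coeffMap_coeffMap, ← hyU, ← hV, coeffMap_coeffMap, subtype_comp_toA]

end RE

/-! ## 5. CORE over `A` from CORE over the rings `R_E` -/

section Core

variable (A : ValuationSubring Q̄) (E : IntermediateField ℚ Q̄) (N : ℕ)

/-- `IsIntAt A E N V`: the series `V ∈ R_E((q))` lies in `F_{N,E} = E(j(q^d) : d ∣ N)` and has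
nonzero reduction modulo the maximal ideal of `R_E`. -/
def IsIntAt (V : LaurentSeries (RE A E)) : Prop :=
  coeffMap (RE A E).subtype V ∈ laurentBaseChange E (modularFunctionFieldFull N) ∧
    coeffMap (IsLocalRing.residue (RE A E)) V ≠ 0

variable {A E N}

theorem IsIntAt.mem_bar {V : LaurentSeries (RE A E)} (h : IsIntAt A E N V) :
    coeffMap (algebraMap E Q̄) (coeffMap (RE A E).subtype V) ∈ modularFunctionFieldBar N :=
  coeffMap_mem_laurentBaseChange _ _ h.1

/-- The element of `F̄_N = Q̄(j(q^d) : d ∣ N)` defined by an integral series over `R_E`. -/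
def toFbar {V : LaurentSeries (RE A E)} (h : IsIntAt A E N V) : modularFunctionFieldBar N :=
  ⟨coeffMap (algebraMap E Q̄) (coeffMap (RE A E).subtype V), h.mem_bar⟩

theorem coe_toFbar {V : LaurentSeries (RE A E)} (h : IsIntAt A E N V) :
    (toFbar h : LaurentSeries Q̄) = coeffMap A.subtype (coeffMap (toA A E) V) := by
  rw [coeffMap_coeffMap, subtype_comp_toA, ← coeffMap_coeffMap]
  rfl

variable (A E N)

/-- CORE over the ring `R_E = A ∩ E` (a discrete valuation ring when `E/ℚ` is finite and `A`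
lies over a prime, see `isDiscreteValuationRing_RE`): two integral series over `R_E` with the
same (nonzero) reduction, whose quotient has divisor divisible by `m` on `F̄_N`, differ by a
constant times an `m`-th power in `F̄_N`. -/
def CoreAt (m : ℕ) : Prop :=
  ∀ (V₁ V₂ : LaurentSeries (RE A E)) (h₁ : IsIntAt A E N V₁) (h₂ : IsIntAt A E N V₂),
    coeffMap (IsLocalRing.residue (RE A E)) V₁ = coeffMap (IsLocalRing.residue (RE A E)) V₂ →
    (∀ v : Place Q̄ (modularFunctionFieldBar N),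
      (m : ℤ) ∣ v.ord (toFbar h₁) - v.ord (toFbar h₂)) →
    ∃ (c : Q̄) (y : modularFunctionFieldBar N), c ≠ 0 ∧ y ≠ 0 ∧
      toFbar h₁ = algebraMap Q̄ (modularFunctionFieldBar N) c * y ^ m * toFbar h₂

variable {A N}

/-- **Descent (piece d1).**  If CORE holds over `R_E = A ∩ E` for every finite extension `E/ℚ`
inside `Q̄` containing a fixed finite extension `E₀`, then CORE holds over `A`: this is
`Fermat.Agent.S18.CoreStatement N A m` of the row's `Spec.lean`, with `IsInt` and `toF` unfolded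
(the hypothesis that the reduction lies in `F_{N,k}` is not needed). -/
theorem core_of_coreAt (m : ℕ) (E₀ : IntermediateField ℚ Q̄) [FiniteDimensional ℚ E₀]
    (H : ∀ E : IntermediateField ℚ Q̄, FiniteDimensional ℚ E → E₀ ≤ E → CoreAt A E N m)
    (U₁ U₂ : LaurentSeries A)
    (h₁ : coeffMap A.subtype U₁ ∈ modularFunctionFieldBar N)
    (h₂ : coeffMap A.subtype U₂ ∈ modularFunctionFieldBar N)
    (hne : coeffMap (IsLocalRing.residue A) U₁ ≠ 0)
    (hred : coeffMap (IsLocalRing.residue A) U₁ = coeffMap (IsLocalRing.residue A) U₂)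
    (hdiv : ∀ v : Place Q̄ (modularFunctionFieldBar N),
      (m : ℤ) ∣ v.ord (⟨coeffMap A.subtype U₁, h₁⟩ : modularFunctionFieldBar N) -
        v.ord (⟨coeffMap A.subtype U₂, h₂⟩ : modularFunctionFieldBar N)) :
    ∃ (c : Q̄) (y : modularFunctionFieldBar N), c ≠ 0 ∧ y ≠ 0 ∧
      (⟨coeffMap A.subtype U₁, h₁⟩ : modularFunctionFieldBar N) =
        algebraMap Q̄ (modularFunctionFieldBar N) c * y ^ m *
          (⟨coeffMap A.subtype U₂, h₂⟩ : modularFunctionFieldBar N) := by
  obtain ⟨E, hE, hE₀, d₁, d₂⟩ := exists_finite_descent₂ E₀ h₁ h₂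
  obtain ⟨V₁, hV₁, rfl⟩ := exists_series_descent U₁ d₁
  obtain ⟨V₂, hV₂, rfl⟩ := exists_series_descent U₂ d₂
  have hinj := coeffMap_injective (resMap A E) (resMap_injective A E)
  rw [coeffMap_residue_toA] at hne
  rw [coeffMap_residue_toA, coeffMap_residue_toA] at hred
  have i₁ : IsIntAt A E N V₁ := ⟨hV₁, fun h0 => hne (by rw [h0, map_zero])⟩
  have i₂ : IsIntAt A E N V₂ := ⟨hV₂, fun h0 => hne (by rw [hred, h0, map_zero])⟩
  have e₁ : toFbar i₁ = (⟨coeffMap A.subtype (coeffMap (toA A E) V₁), h₁⟩ :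
      modularFunctionFieldBar N) := Subtype.ext (coe_toFbar i₁)
  have e₂ : toFbar i₂ = (⟨coeffMap A.subtype (coeffMap (toA A E) V₂), h₂⟩ :
      modularFunctionFieldBar N) := Subtype.ext (coe_toFbar i₂)
  obtain ⟨c, y, hc, hy, hcy⟩ := H E hE hE₀ V₁ V₂ i₁ i₂ (hinj hred) (by
    intro v
    rw [e₁, e₂]
    exact hdiv v)
  exact ⟨c, y, hc, hy, by rw [← e₁, ← e₂]; exact hcy⟩

end Core

end Fermat.Agent.S18.H602

end
end
-- ===== PACK-END S18/H602/Descent.lean

-- ===== PACK-BEGIN S18/H264/SepLaurent.lean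
section


/-!
# S18 / G-SEP core (helper264): subfields of `κ((q))` are separable over `κ(x)`

Mathlib-only.  Let `κ` be a perfect field of characteristic `p`, and `x ∈ κ((q))` a Laurent
series whose `q`-order is prime to `p` (e.g. `x = j̄, t̄₂, t̄₃`, of order `-1`).  Then every
`y ∈ κ((q))` that is algebraic over `κ(x)` is separable over `κ(x)`.

Main statements (namespace `Fermat.Agent.S18.H264`):

* `isSeparable_of_isAlgebraic_of_addVal` : abstract form, for a field `L ⊇ κ` with an additive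
  valuation `v : AddValuation L (WithTop ℤ)` and `p ∤ v x`.
* `isSeparable_laurent` : the Laurent series form, hypothesis `¬ (p : ℤ) ∣ x.order`.
* `isSeparable_laurent_of_order_eq_neg_one` : the same for `x.order = -1`.
* `exists_poly_simple_root_laurent` : liftable polynomial form, `∃ P ∈ κ[X][Y]` with
  `P(x, y) = 0` and `(∂P/∂Y)(x, y) ≠ 0`.

Proof: `1, x, …, x^(p-1)` is a `p`-basis: every element of `κ(x)` is `∑_{r<p} x^r b_r^p`
(`κ` perfect), and `∑_{r<p} x^r z_r^p = 0` in `L` forces all `z_r = 0` (the valuations of the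
nonzero terms are pairwise distinct mod `p`).  If the minimal polynomial `g` of `y` were
inseparable, `g = h(Y^p)`, `h = ∑_r x^r h_r^{(p)}`, so `0 = h(y^p) = ∑_r x^r (h_r(y))^p`, whence
`h_r(y) = 0` with `deg h_r < deg g`, so `h_r = 0`, `h = 0`: contradiction.
-/

set_option autoImplicit false

namespace Fermat.Agent.S18.H264

open Polynomial

section Valuation

variable {L : Type*} [Field L] (v : AddValuation L (WithTop ℤ))

/-- Finitely many nonzero terms with pairwise distinct valuations cannot sum to zero. -/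
theorem sum_ne_zero_of_val_injOn {ι : Type*} (s : Finset ι) (f : ι → L) (hs : s.Nonempty)
    (hne : ∀ i ∈ s, f i ≠ 0) (hinj : ∀ i ∈ s, ∀ j ∈ s, v (f i) = v (f j) → i = j) :
    ∑ i ∈ s, f i ≠ 0 := by
  classical
  obtain ⟨i₀, hi₀, hmin⟩ := Finset.exists_min_image s (fun i => v (f i)) hs
  have hlt : ∀ i ∈ s.erase i₀, v (f i₀) < v (f i) := by
    intro i hi
    rw [Finset.mem_erase] at hi
    exact lt_of_le_of_ne (hmin i hi.2) (fun h => hi.1 (hinj _ hi₀ _ hi.2 h).symm)
  have htop : v (f i₀) ≠ ⊤ := by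
    rw [Ne, AddValuation.top_iff]
    exact hne i₀ hi₀
  have hrest : v (f i₀) < v (∑ i ∈ s.erase i₀, f i) := AddValuation.map_lt_sum v htop hlt
  rw [← Finset.add_sum_erase s f hi₀]
  intro h0
  have h1 := AddValuation.map_add_eq_of_lt_left v hrest
  rw [h0, AddValuation.map_zero] at h1
  exact htop h1.symm

/-- `1, x, …, x^(p-1)` are linearly independent over `L^p` when `p ∤ v x`. -/
theorem eq_zero_of_sum_pow_mul_pow_eq_zero (p : ℕ) (hp : p.Prime) (x : L) (n : ℤ)
    (hx : v x = (n : WithTop ℤ)) (hn : ¬ (p : ℤ) ∣ n) (z : ℕ → L)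
    (h : ∑ r ∈ Finset.range p, x ^ r * z r ^ p = 0) : ∀ r < p, z r = 0 := by
  classical
  by_contra hcon
  push Not at hcon
  obtain ⟨r₁, hr₁, hz₁⟩ := hcon
  have hx0 : x ≠ 0 := by
    intro h0
    rw [h0, AddValuation.map_zero] at hx
    exact WithTop.top_ne_coe hx
  set s := (Finset.range p).filter (fun r => z r ≠ 0) with hs
  have hsum : ∑ r ∈ s, x ^ r * z r ^ p = 0 := by
    have h1 : ∑ r ∈ s, x ^ r * z r ^ p = ∑ r ∈ Finset.range p, x ^ r * z r ^ p := by
      rw [hs, Finset.sum_filter]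
      refine Finset.sum_congr rfl fun r _ => ?_
      by_cases hz : z r = 0
      · simp [hz, hp.ne_zero]
      · simp [hz]
    rw [h1, h]
  have hval : ∀ r ∈ s, ∃ a : ℤ, v (x ^ r * z r ^ p) = ((r * n + p * a : ℤ) : WithTop ℤ) := by
    intro r hr
    have hz : z r ≠ 0 := (Finset.mem_filter.mp hr).2
    have hzt : v (z r) ≠ ⊤ := by rw [Ne, AddValuation.top_iff]; exact hz
    obtain ⟨a, ha⟩ := WithTop.ne_top_iff_exists.mp hzt
    refine ⟨a, ?_⟩
    rw [AddValuation.map_mul, AddValuation.map_pow, AddValuation.map_pow, hx, ← ha]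
    rw [← WithTop.coe_nsmul, ← WithTop.coe_nsmul, ← WithTop.coe_add, nsmul_eq_mul, nsmul_eq_mul]
  refine sum_ne_zero_of_val_injOn v s _ ⟨r₁, Finset.mem_filter.mpr ⟨Finset.mem_range.mpr hr₁, hz₁⟩⟩
    ?_ ?_ hsum
  · intro r hr
    have hz : z r ≠ 0 := (Finset.mem_filter.mp hr).2
    exact mul_ne_zero (pow_ne_zero _ hx0) (pow_ne_zero _ hz)
  · intro r hr r' hr' hrr'
    obtain ⟨a, ha⟩ := hval r hr
    obtain ⟨a', ha'⟩ := hval r' hr'
    rw [ha, ha', WithTop.coe_eq_coe] at hrr'
    have hrp : r < p := Finset.mem_range.mp (Finset.mem_filter.mp hr).1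
    have hrp' : r' < p := Finset.mem_range.mp (Finset.mem_filter.mp hr').1
    have hdvd : (p : ℤ) ∣ ((r : ℤ) - r') * n := ⟨a' - a, by linarith⟩
    have hdvd' : (p : ℤ) ∣ (r : ℤ) - r' :=
      ((Nat.prime_iff_prime_int.mp hp).dvd_or_dvd hdvd).resolve_right hn
    have h0 : (r : ℤ) - r' = 0 := by
      apply Int.eq_zero_of_abs_lt_dvd hdvd'
      rw [abs_lt]
      constructor <;> omega
    omega

end Valuation

section Decomp

variable {κ : Type*} [Field κ] [PerfectField κ] (p : ℕ) [hp : Fact p.Prime] [CharP κ p]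

/-- Every polynomial over a perfect field of characteristic `p` is `∑_{r<p} X^r c_r^p`. -/
theorem exists_pBasis_decomp_poly (w : κ[X]) :
    ∃ c : ℕ → κ[X], w = ∑ r ∈ Finset.range p, X ^ r * c r ^ p := by
  induction w using Polynomial.induction_on' with
  | add w₁ w₂ h₁ h₂ =>
    obtain ⟨c₁, hc₁⟩ := h₁
    obtain ⟨c₂, hc₂⟩ := h₂
    refine ⟨fun r => c₁ r + c₂ r, ?_⟩
    have h : ∀ r, X ^ r * (c₁ r + c₂ r) ^ p = X ^ r * c₁ r ^ p + X ^ r * c₂ r ^ p := by
      intro r
      rw [add_pow_char, mul_add]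
    simp only [h, Finset.sum_add_distrib]
    rw [← hc₁, ← hc₂]
  | monomial n a =>
    refine ⟨fun r => if r = n % p then monomial (n / p) ((frobeniusEquiv κ p).symm a) else 0, ?_⟩
    rw [Finset.sum_eq_single (n % p)]
    · simp only [if_true]
      rw [monomial_pow, X_pow_mul_monomial, frobeniusEquiv_symm_pow_p, Nat.div_add_mod' n p]
    · intro r _ hr
      simp only [if_neg hr]
      rw [zero_pow hp.out.ne_zero, mul_zero]
    · intro h
      exact absurd (Finset.mem_range.mpr (Nat.mod_lt _ hp.out.pos)) h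

/-- Every element of `κ(x)` is `∑_{r<p} x^r b_r^p` with `b_r ∈ κ(x)` (`κ` perfect). -/
theorem exists_pBasis_decomp {L : Type*} [Field L] [Algebra κ L] (x : L) (a : L)
    (ha : a ∈ IntermediateField.adjoin κ {x}) :
    ∃ b : ℕ → L, (∀ r, b r ∈ IntermediateField.adjoin κ {x}) ∧
      a = ∑ r ∈ Finset.range p, x ^ r * b r ^ p := by
  obtain ⟨u, w, rfl⟩ := (IntermediateField.mem_adjoin_simple_iff κ a).mp ha
  by_cases hw : aeval x w = 0
  · refine ⟨fun _ => 0, fun _ => zero_mem _, ?_⟩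
    simp [hw, hp.out.ne_zero]
  · obtain ⟨c, hc⟩ := exists_pBasis_decomp_poly p (u * w ^ (p - 1))
    refine ⟨fun r => aeval x (c r) / aeval x w, fun r => ?_, ?_⟩
    · exact (IntermediateField.mem_adjoin_simple_iff κ _).mpr ⟨c r, w, rfl⟩
    · have hpp : p - 1 + 1 = p := Nat.sub_add_cancel hp.out.one_le
      have h1 : aeval x u / aeval x w = aeval x (u * w ^ (p - 1)) / (aeval x w) ^ p := by
        rw [map_mul, map_pow, eq_div_iff (pow_ne_zero _ hw), div_mul_eq_mul_div,
          div_eq_iff hw, mul_assoc, ← pow_succ, hpp]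
      rw [h1, hc, map_sum, Finset.sum_div]
      refine Finset.sum_congr rfl fun r _ => ?_
      rw [map_mul, map_pow, map_pow, aeval_X, div_pow, mul_div_assoc]

end Decomp

section Main

variable {κ L : Type*} [Field κ] [PerfectField κ] [Field L] [Algebra κ L]
  (p : ℕ) [hp : Fact p.Prime] [CharP κ p]

/-- **Separability from a valuation** (abstract form).  `κ` perfect of characteristic `p`,
`L ⊇ κ` a field with a `ℤ`-valued additive valuation `v`, `x ∈ L` with `p ∤ v x`.  Then every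
`y ∈ L` algebraic over `κ(x)` is separable over `κ(x)`. -/
theorem isSeparable_of_isAlgebraic_of_addVal (v : AddValuation L (WithTop ℤ)) (x : L) (n : ℤ)
    (hx : v x = (n : WithTop ℤ)) (hn : ¬ (p : ℤ) ∣ n) (y : L)
    (hy : IsAlgebraic (IntermediateField.adjoin κ {x}) y) :
    IsSeparable (IntermediateField.adjoin κ {x}) y := by
  classical
  have : CharP (IntermediateField.adjoin κ {x}) p :=
    charP_of_injective_algebraMap (algebraMap κ (IntermediateField.adjoin κ {x})).injective p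
  have : CharP L p := charP_of_injective_algebraMap (algebraMap κ L).injective p
  have hint : IsIntegral (IntermediateField.adjoin κ {x}) y := hy.isIntegral
  have hirr := minpoly.irreducible hint
  rcases Polynomial.separable_or p hirr with hsep | ⟨_, h, hh, hexp⟩
  · exact hsep
  exfalso
  have h0 : aeval (y ^ p) h = 0 := by
    rw [← expand_aeval, hexp, minpoly.aeval]
  have hdec : ∀ i : ℕ, ∃ b : ℕ → L, (∀ r, b r ∈ IntermediateField.adjoin κ {x}) ∧
      ((h.coeff i : IntermediateField.adjoin κ {x}) : L) =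
        ∑ r ∈ Finset.range p, x ^ r * b r ^ p :=
    fun i => exists_pBasis_decomp p x _ (h.coeff i).2
  choose b hbE hb using hdec
  set H : ℕ → (IntermediateField.adjoin κ {x})[X] := fun r =>
    ∑ i ∈ Finset.range (h.natDegree + 1),
      monomial i (⟨b i r, hbE i r⟩ : IntermediateField.adjoin κ {x}) with hH
  have haev : ∀ r, aeval y (H r) = ∑ i ∈ Finset.range (h.natDegree + 1), b i r * y ^ i := by
    intro r
    rw [hH]
    simp only [map_sum, aeval_monomial]
    rfl
  have hsum : ∑ r ∈ Finset.range p, x ^ r * (aeval y (H r)) ^ p = 0 := by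
    calc ∑ r ∈ Finset.range p, x ^ r * (aeval y (H r)) ^ p
        = ∑ r ∈ Finset.range p, ∑ i ∈ Finset.range (h.natDegree + 1),
            x ^ r * b i r ^ p * (y ^ p) ^ i := by
          refine Finset.sum_congr rfl fun r _ => ?_
          rw [haev, sum_pow_char, Finset.mul_sum]
          refine Finset.sum_congr rfl fun i _ => ?_
          rw [mul_pow, ← pow_mul, ← pow_mul, mul_comm i p, mul_assoc]
      _ = ∑ i ∈ Finset.range (h.natDegree + 1),
            (∑ r ∈ Finset.range p, x ^ r * b i r ^ p) * (y ^ p) ^ i := by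
          rw [Finset.sum_comm]
          refine Finset.sum_congr rfl fun i _ => ?_
          rw [Finset.sum_mul]
      _ = aeval (y ^ p) h := by
          rw [aeval_eq_sum_range]
          refine Finset.sum_congr rfl fun i _ => ?_
          rw [← hb i, Algebra.smul_def]
          rfl
      _ = 0 := h0
  have hz := eq_zero_of_sum_pow_mul_pow_eq_zero v p hp.out x n hx hn
    (fun r => aeval y (H r)) hsum
  have hdegH : ∀ r, (H r).natDegree ≤ h.natDegree := by
    intro r
    rw [hH]
    refine natDegree_sum_le_of_forall_le _ _ fun i hi => ?_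
    exact (natDegree_monomial_le _).trans (Nat.lt_succ_iff.mp (Finset.mem_range.mp hi))
  have hdegh : 0 < h.natDegree := hh.natDegree_pos
  have hdegm : (minpoly (IntermediateField.adjoin κ {x}) y).natDegree = h.natDegree * p := by
    rw [← hexp, natDegree_expand]
  have hzero : ∀ r < p, H r = 0 := by
    intro r hrp
    by_contra hne
    have h1 := natDegree_le_natDegree
      (minpoly.degree_le_of_ne_zero (IntermediateField.adjoin κ {x}) y hne (hz r hrp))
    have h2 := hdegH r
    have h3 : h.natDegree * 2 ≤ h.natDegree * p := Nat.mul_le_mul_left _ hp.out.two_le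
    omega
  have hbzero : ∀ i ≤ h.natDegree, ∀ r < p, b i r = 0 := by
    intro i hi r hrp
    have h1 : (H r).coeff i = 0 := by rw [hzero r hrp, coeff_zero]
    rw [hH] at h1
    simp only [finsetSum_coeff, coeff_monomial] at h1
    rw [Finset.sum_eq_single i] at h1
    · rw [if_pos rfl] at h1
      exact congrArg Subtype.val h1
    · intro j _ hj
      rw [if_neg hj]
    · intro hi'
      exact absurd (Finset.mem_range.mpr (Nat.lt_succ_iff.mpr hi)) hi'
  apply hh.ne_zero
  refine Polynomial.ext fun i => ?_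
  rw [coeff_zero]
  by_cases hi : i ≤ h.natDegree
  · apply Subtype.ext
    rw [hb i, ZeroMemClass.coe_zero]
    refine Finset.sum_eq_zero fun r hr => ?_
    rw [hbzero i hi r (Finset.mem_range.mp hr), zero_pow hp.out.ne_zero, mul_zero]
  · exact coeff_eq_zero_of_natDegree_lt (not_le.mp hi)

end Main

section Laurent

variable {κ : Type*} [Field κ] [PerfectField κ] (p : ℕ) [hp : Fact p.Prime] [CharP κ p]

/-- **G-SEP core.**  `κ` perfect of characteristic `p`, `x ∈ κ((q))` of `q`-order prime to `p`.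
Every `y ∈ κ((q))` algebraic over `κ(x)` is separable over `κ(x)`. -/
theorem isSeparable_laurent (x y : LaurentSeries κ) (hx : ¬ (p : ℤ) ∣ x.order)
    (hy : IsAlgebraic (IntermediateField.adjoin κ {x}) y) :
    IsSeparable (IntermediateField.adjoin κ {x}) y := by
  have hx0 : x ≠ 0 := by
    rintro rfl
    exact hx (by rw [HahnSeries.order_zero]; exact dvd_zero _)
  exact isSeparable_of_isAlgebraic_of_addVal p (HahnSeries.addVal ℤ κ) x x.order
    (HahnSeries.addVal_apply_of_ne hx0) hx y hy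

theorem not_prime_dvd_neg_one (q : ℕ) (hq : q.Prime) : ¬ (q : ℤ) ∣ -1 := by
  rw [dvd_neg]
  intro h
  have h1 : (q : ℤ) ≤ 1 := Int.le_of_dvd one_pos h
  have h2 := hq.two_le
  omega

include hp in
/-- The case `ord_q x = -1` (`x = j̄, t̄₂, t̄₃`). -/
theorem isSeparable_laurent_of_order_eq_neg_one (x y : LaurentSeries κ) (hx : x.order = -1)
    (hy : IsAlgebraic (IntermediateField.adjoin κ {x}) y) :
    IsSeparable (IntermediateField.adjoin κ {x}) y :=
  isSeparable_laurent p x y (by rw [hx]; exact not_prime_dvd_neg_one p hp.out) hy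

/-- Every intermediate field of `κ((q)) / κ(x)` that is algebraic over `κ(x)` is separable
over `κ(x)`. -/
theorem isSeparable_intermediateField_laurent (x : LaurentSeries κ) (hx : ¬ (p : ℤ) ∣ x.order)
    (F : IntermediateField (IntermediateField.adjoin κ {x}) (LaurentSeries κ))
    [Algebra.IsAlgebraic (IntermediateField.adjoin κ {x}) F] :
    Algebra.IsSeparable (IntermediateField.adjoin κ {x}) F := by
  refine ⟨fun z => ?_⟩
  have hz : IsAlgebraic (IntermediateField.adjoin κ {x}) (z : LaurentSeries κ) :=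
    (Algebra.IsAlgebraic.isAlgebraic z).algebraMap
  have h := isSeparable_laurent p x (z : LaurentSeries κ) hx hz
  rwa [IsSeparable, ← IntermediateField.minpoly_eq] at h

end Laurent

section PolyForm

variable {κ L : Type*} [Field κ] [Field L] [Algebra κ L]

/-- Clearing denominators: a polynomial over `κ(x)` is, up to a nonzero factor `V(x)`, the image
of a polynomial in `κ[X][Y]`. -/
theorem exists_clear_denominators (x : L) (g : (IntermediateField.adjoin κ {x})[X]) :
    ∃ (P : Polynomial (Polynomial κ)) (V : Polynomial κ), aeval x V ≠ 0 ∧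
      P.map (aeval x : Polynomial κ →ₐ[κ] L).toRingHom =
        C (aeval x V) * g.map (algebraMap (IntermediateField.adjoin κ {x}) L) := by
  induction g using Polynomial.induction_on' with
  | add g₁ g₂ h₁ h₂ =>
    obtain ⟨P₁, V₁, hV₁, hP₁⟩ := h₁
    obtain ⟨P₂, V₂, hV₂, hP₂⟩ := h₂
    refine ⟨C V₂ * P₁ + C V₁ * P₂, V₁ * V₂, ?_, ?_⟩
    · rw [map_mul]
      exact mul_ne_zero hV₁ hV₂
    · rw [Polynomial.map_add, Polynomial.map_mul, Polynomial.map_mul, hP₁, hP₂, Polynomial.map_C,
        Polynomial.map_C, Polynomial.map_add, map_mul, C_mul]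
      simp only [AlgHom.toRingHom_eq_coe, RingHom.coe_coe]
      ring
  | monomial i a =>
    obtain ⟨u, w, hu⟩ := (IntermediateField.mem_adjoin_simple_iff κ (a : L)).mp a.2
    by_cases hw : aeval x w = 0
    · refine ⟨0, 1, ?_, ?_⟩
      · rw [map_one]
        exact one_ne_zero
      · have ha : a = 0 := by
          apply Subtype.ext
          rw [hu, hw, div_zero]
          rfl
        rw [ha]
        simp
    · refine ⟨monomial i u, w, hw, ?_⟩
      rw [Polynomial.map_monomial, Polynomial.map_monomial, C_mul_monomial]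
      congr 1
      show aeval x u = aeval x w * (a : L)
      rw [hu, mul_div_cancel₀ _ hw]

/-- **Liftable polynomial form of separability.**  If `y` is integral and separable over `κ(x)`
then there is `P ∈ κ[X][Y]` with `P(x, y) = 0` and `(∂P/∂Y)(x, y) ≠ 0`. -/
theorem exists_bivariate_simple_root (x y : L)
    (hsep : IsSeparable (IntermediateField.adjoin κ {x}) y) :
    ∃ P : Polynomial (Polynomial κ),
      P.eval₂ (aeval x : Polynomial κ →ₐ[κ] L).toRingHom y = 0 ∧
      (derivative P).eval₂ (aeval x : Polynomial κ →ₐ[κ] L).toRingHom y ≠ 0 := by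
  obtain ⟨P, V, hV, hP⟩ := exists_clear_denominators x (minpoly (IntermediateField.adjoin κ {x}) y)
  refine ⟨P, ?_, ?_⟩
  · rw [eval₂_eq_eval_map, hP, eval_mul, eval_C, eval_map_algebraMap, minpoly.aeval, mul_zero]
  · rw [eval₂_eq_eval_map, ← derivative_map, hP, derivative_C_mul, eval_mul, eval_C, derivative_map,
      eval_map_algebraMap]
    exact mul_ne_zero hV (hsep.aeval_derivative_ne_zero (minpoly.aeval _ _))

end PolyForm

section LaurentPolyForm

variable {κ : Type*} [Field κ] [PerfectField κ] (p : ℕ) [hp : Fact p.Prime] [CharP κ p]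

/-- **G-SEP, liftable form.**  `κ` perfect of characteristic `p`, `x ∈ κ((q))` of order prime to
`p`, `y ∈ κ((q))` algebraic over `κ(x)`: there is `P ∈ κ[X][Y]` with `P(x, y) = 0` and
`(∂P/∂Y)(x, y) ≠ 0`. -/
theorem exists_bivariate_simple_root_laurent (x y : LaurentSeries κ) (hx : ¬ (p : ℤ) ∣ x.order)
    (hy : IsAlgebraic (IntermediateField.adjoin κ {x}) y) :
    ∃ P : Polynomial (Polynomial κ),
      P.eval₂ (aeval x : Polynomial κ →ₐ[κ] LaurentSeries κ).toRingHom y = 0 ∧
      (derivative P).eval₂ (aeval x : Polynomial κ →ₐ[κ] LaurentSeries κ).toRingHom y ≠ 0 :=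
  exists_bivariate_simple_root x y (isSeparable_laurent p x y hx hy)

end LaurentPolyForm

end Fermat.Agent.S18.H264

end
-- ===== PACK-END S18/H264/SepLaurent.lean

-- ===== PACK-BEGIN S20/Comb/Orbits.lean
section








/-!
# Counting orbits of a cyclic group whose generator has prime order on a finite set

If `g ^ n` acts trivially on the finite set `X` and `n` is prime then
`n * #(X / ⟨g⟩) = #X + (n - 1) * #Fix(g)`.
-/

set_option autoImplicit false

namespace Fermat.Agent.S20.Comb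

open MulAction Subgroup Function

variable {G X : Type*} [Group G] [MulAction G X]

lemma card_eq_sum_minimalPeriod [Fintype X] (g : G)
    [Fintype (orbitRel.Quotient (zpowers g) X)] :
    Fintype.card X
      = ∑ q : orbitRel.Quotient (zpowers g) X, minimalPeriod (g • ·) q.out := by
  have (q : orbitRel.Quotient (zpowers g) X) :
      Fintype (MulAction.orbit (zpowers g) q.out) := Fintype.ofFinite _
  simp only [MulAction.minimalPeriod_eq_card]
  rw [← Fintype.card_sigma]
  exact Fintype.card_congr (MulAction.selfEquivSigmaOrbits (zpowers g) X)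

lemma minimalPeriod_eq_of_prime (g : G) (n : ℕ) (hn : n.Prime) (hg : ∀ x : X, g ^ n • x = x)
    (x : X) [Decidable (g • x = x)] :
    minimalPeriod (g • ·) x = if g • x = x then 1 else n := by
  have hper : IsPeriodicPt (g • ·) n x := by
    rw [IsPeriodicPt, IsFixedPt, smul_iterate]
    exact hg x
  have hdvd := hper.minimalPeriod_dvd
  rcases (Nat.dvd_prime hn).mp hdvd with h1 | h2
  · have hfix : g • x = x := minimalPeriod_eq_one_iff_isFixedPt.mp h1
    rw [h1, if_pos hfix]
  · have hfix : ¬ g • x = x := fun h => by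
      have h1 : minimalPeriod (g • ·) x = 1 := minimalPeriod_eq_one_iff_isFixedPt.mpr h
      rw [h2] at h1
      exact hn.one_lt.ne' h1
    rw [h2, if_neg hfix]

lemma smul_eq_of_mem_orbit_zpowers_of_fixed (g : G) (x y : X) (hx : g • x = x)
    (hy : y ∈ MulAction.orbit (zpowers g) x) : y = x := by
  obtain ⟨⟨h, hh⟩, rfl⟩ := hy
  obtain ⟨k, rfl⟩ := Subgroup.mem_zpowers_iff.mp hh
  exact fixedBy_subset_fixedBy_zpow X g k hx

/-- If `g ^ n` acts trivially on the finite set `X` (`n` prime), then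
`n * #orbits = #X + (n - 1) * #Fix(g)`. -/
theorem prime_mul_card_orbits [Finite X] (g : G) (n : ℕ) (hn : n.Prime)
    (hg : ∀ x : X, g ^ n • x = x) :
    n * Nat.card (orbitRel.Quotient (zpowers g) X)
      = Nat.card X + (n - 1) * Nat.card (fixedBy X g) := by
  classical
  haveI := Fintype.ofFinite X
  haveI : Fintype (orbitRel.Quotient (zpowers g) X) := Fintype.ofFinite _
  have h1 := card_eq_sum_minimalPeriod (X := X) g
  simp only [minimalPeriod_eq_of_prime g n hn hg] at h1
  rw [Finset.sum_ite, Finset.sum_const, Finset.sum_const, smul_eq_mul, mul_one,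
    smul_eq_mul] at h1
  have h2 : (Finset.univ.filter
      (fun q : orbitRel.Quotient (zpowers g) X => g • q.out = q.out)).card
        = Nat.card (fixedBy X g) := by
    rw [← Fintype.card_subtype, ← Nat.card_eq_fintype_card]
    refine Nat.card_eq_of_bijective
      (fun q : {q : orbitRel.Quotient (zpowers g) X // g • q.out = q.out} =>
        (⟨q.1.out, q.2⟩ : fixedBy X g)) ⟨?_, ?_⟩
    · intro q q' h
      have h' : q.1.out = q'.1.out := congrArg Subtype.val h
      exact Subtype.ext (Quotient.out_injective h')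
    · rintro ⟨x, hx⟩
      have hx' : g • x = x := hx
      have hout : (Quotient.mk'' x : orbitRel.Quotient (zpowers g) X).out = x := by
        apply smul_eq_of_mem_orbit_zpowers_of_fixed g x _ hx'
        have := Quotient.exact (Quotient.out_eq (Quotient.mk'' x : orbitRel.Quotient (zpowers g) X))
        exact (MulAction.orbitRel_apply).mp this
      refine ⟨⟨Quotient.mk'' x, ?_⟩, ?_⟩
      · rw [hout]; exact hx'
      · exact Subtype.ext hout
  have h3 := Finset.card_filter_add_card_filter_not (s := (Finset.univ :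
      Finset (orbitRel.Quotient (zpowers g) X)))
      (fun q : orbitRel.Quotient (zpowers g) X => g • q.out = q.out)
  rw [Finset.card_univ] at h3
  rw [Nat.card_eq_fintype_card, Nat.card_eq_fintype_card, ← h3, h1, ← h2]
  obtain ⟨m, rfl⟩ : ∃ m, n = m + 1 := ⟨n - 1, (Nat.succ_pred_eq_of_pos hn.pos).symm⟩
  simp only [Nat.add_sub_cancel]
  ring

end Fermat.Agent.S20.Comb

end
-- ===== PACK-END S20/Comb/Orbits.lean

-- ===== PACK-BEGIN S18/H754/KummerSpec.lean
section


/-!
# S18, Route K, pieces b3 + b4 merged: the ETALE KUMMER COVER (helper754, squad S18/S34)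

Mathlib-only.  Setting (one chart):

* `B` : Noetherian integrally closed domain (chart algebra of the model, over a DVR `A'`),
  `F = Frac B`, `ϖ ∈ B` a prime element (uniformiser of `A'`), and the special fibre `B/ϖ` is
  regular: every maximal ideal `𝔪 ∋ ϖ` is locally generated by `ϖ` and one more element
  (this is the OUTPUT of b2: `B/ϖ` Dedekind).
* `u ∈ F`, `z ^ p = u` in an extension field `F'`, `p` prime and invertible in `B`,
  `u` is a unit at `ϖ` with `u ≡ 1 mod ϖ`, and at every height-one prime of `B` the element `u`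
  is a unit times a `p`-th power (`p ∣ ord_v(u)` for all places).

Conclusions (no discriminant counting for the cover is needed: the cover is étale over the
regular chart because regular local rings of this shape are UFDs):

* `KummerLift`  : every Kummer idempotent `e_η = p⁻¹ ∑_{a<p} η^a z^a` (`η^p = 1`) is congruent
  modulo `ϖ O'` to an element integral over `B` (`O'` = integral closure of `B_(ϖ)`).
* `KummerUnmixed` : if `c ∈ F(z)` is integral over `B` and `c ∈ ϖ O'` then `c/ϖ` is integral over `B`.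
* `kummerIdem_*` : idempotency / orthogonality / nontriviality of the `e_η` modulo `ϖ O'`.
-/

set_option autoImplicit false

noncomputable section

namespace Fermat.Agent.S18.H754

open Polynomial

variable {B : Type*} [CommRing B] [IsDomain B]
  {F : Type*} [Field F] [Algebra B F] [IsFractionRing B F]
  {F' : Type*} [Field F'] [Algebra F F'] [Algebra B F'] [IsScalarTower B F F']

/-- The Kummer idempotent candidate attached to `η` (a `p`-th root of unity in `B`). -/
def kummerIdem (p : ℕ) (η : B) (z : F') : F' :=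
  (p : F')⁻¹ * ∑ a ∈ Finset.range p, algebraMap B F' (η ^ a) * z ^ a

/-- `y ∈ ϖ O'`, where `O'` is the integral closure of `B_(ϖ)` in `F'`, elementwise:
`s y = ϖ c` with `s ∈ B ∖ ϖB` and `c` integral over `B`. -/
def InPiO (ϖ : B) (y : F') : Prop :=
  ∃ s : B, s ∉ Ideal.span {ϖ} ∧ ∃ c : F', IsIntegral B c ∧
    algebraMap B F' s * y = algebraMap B F' ϖ * c

/-- The special fibre is regular at every closed point: `𝔪 B_𝔪 = (ϖ, t)`. -/
def RegularAlong (ϖ : B) : Prop :=
  ∀ 𝔪 : Ideal B, 𝔪.IsMaximal → ϖ ∈ 𝔪 →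
    ∃ t ∈ 𝔪, ∀ a ∈ 𝔪, ∃ s : B, s ∉ 𝔪 ∧ s * a ∈ Ideal.span {ϖ, t}

/-- `u` is a unit at `ϖ` and `u ≡ 1 mod ϖ`. -/
def OneModPi (ϖ : B) (u : F) : Prop :=
  ∃ a s : B, s ∉ Ideal.span {ϖ} ∧ a - s ∈ Ideal.span {ϖ} ∧
    u * algebraMap B F s = algebraMap B F a

/-- `p ∣ ord_𝔭 (u)` at every height-one prime `𝔭` of `B`, elementwise. -/
def DivisibleDivisor (B : Type*) [CommRing B] {F : Type*} [Field F] [Algebra B F]
    (p : ℕ) (u : F) : Prop :=
  ∀ 𝔭 : Ideal B, 𝔭.IsPrime → 𝔭.height = 1 →
    ∃ t : F, ∃ a s : B, a ∉ 𝔭 ∧ s ∉ 𝔭 ∧ u * t ^ p * algebraMap B F s = algebraMap B F a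

/-- STATEMENT of the lifting theorem. -/
def KummerLiftStatement : Prop :=
  ∀ (B : Type) [CommRing B] [IsDomain B] [IsNoetherianRing B] [IsIntegrallyClosed B]
    (F : Type) [Field F] [Algebra B F] [IsFractionRing B F]
    (F' : Type) [Field F'] [Algebra F F'] [Algebra B F'] [IsScalarTower B F F']
    (ϖ : B) (_ : Prime ϖ) (_ : RegularAlong ϖ)
    (p : ℕ) (_ : p.Prime) (_ : IsUnit (p : B))
    (u : F) (z : F') (_ : z ^ p = algebraMap F F' u) (_ : ∀ y : F, y ^ p ≠ u)
    (_ : OneModPi ϖ u) (_ : DivisibleDivisor B p u)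
    (η : B) (_ : η ^ p = 1),
    ∃ b : F', IsIntegral B b ∧ InPiO ϖ (b - kummerIdem p η z)

/-- STATEMENT of unmixedness of `ϖ` on the integral closure in `F(z)`. -/
def KummerUnmixedStatement : Prop :=
  ∀ (B : Type) [CommRing B] [IsDomain B] [IsNoetherianRing B] [IsIntegrallyClosed B]
    (F : Type) [Field F] [Algebra B F] [IsFractionRing B F]
    (F' : Type) [Field F'] [Algebra F F'] [Algebra B F'] [IsScalarTower B F F']
    (ϖ : B) (_ : Prime ϖ) (_ : RegularAlong ϖ)
    (p : ℕ) (_ : p.Prime) (_ : IsUnit (p : B))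
    (u : F) (z : F') (_ : z ^ p = algebraMap F F' u) (_ : ∀ y : F, y ^ p ≠ u)
    (_ : OneModPi ϖ u) (_ : DivisibleDivisor B p u)
    (c : F') (_ : c ∈ IntermediateField.adjoin F {z}) (_ : IsIntegral B c) (_ : InPiO ϖ c),
    ∃ c' : F', IsIntegral B c' ∧ c = algebraMap B F' ϖ * c'

/-- STATEMENT: the Kummer idempotents are idempotent and orthogonal modulo `ϖ O'`, sum to one,
and none of them vanishes modulo `ϖ O'`. -/
def KummerIdemStatement : Prop :=
  ∀ (B : Type) [CommRing B] [IsDomain B] [IsIntegrallyClosed B]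
    (F : Type) [Field F] [Algebra B F] [IsFractionRing B F]
    (F' : Type) [Field F'] [Algebra F F'] [Algebra B F'] [IsScalarTower B F F']
    (ϖ : B) (_ : Prime ϖ)
    (p : ℕ) (_ : p.Prime) (_ : IsUnit (p : B))
    (u : F) (z : F') (_ : z ^ p = algebraMap F F' u) (_ : ∀ y : F, y ^ p ≠ u)
    (_ : OneModPi ϖ u),
    (∀ η : B, η ^ p = 1 → InPiO ϖ (kummerIdem p η z * kummerIdem p η z - kummerIdem p η z)) ∧
    (∀ η η' : B, η ^ p = 1 → η' ^ p = 1 → η ≠ η' →
      InPiO ϖ (kummerIdem p η z * kummerIdem p η' z)) ∧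
    (∀ ζ : B, IsPrimitiveRoot ζ p →
      ∑ i ∈ Finset.range p, kummerIdem p (ζ ^ i) z = 1) ∧
    (∀ η : B, η ^ p = 1 → ¬ InPiO ϖ (kummerIdem p η z))

end Fermat.Agent.S18.H754

end

end
-- ===== PACK-END S18/H754/KummerSpec.lean

-- ===== PACK-BEGIN S18/H438/Front/HeightOne.lean
section


/-!
# S18 / ALG-FRONT (helper438), part 3a: localisation at a height-one prime is a DVR

`B` a Noetherian integrally closed domain with fraction field `F`, `𝔭` a prime of height one.
Then `B_𝔭 ⊆ F` is a discrete valuation ring, realised as a `ValuationSubring F`: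

    exists_dvr_of_height_one :
      ∃ W : ValuationSubring F, IsDiscreteValuationRing W ∧
        ∀ f : F, f ∈ W ↔ ∃ a s : B, s ∉ 𝔭 ∧ f * algebraMap B F s = algebraMap B F a
-/

set_option autoImplicit false
set_option linter.style.haveILetI false
set_option linter.unusedSectionVars false

noncomputable section

namespace Fermat.Agent.S18.H438

open IsLocalRing

variable {B F : Type*} [CommRing B] [IsDomain B] [Field F] [Algebra B F] [IsFractionRing B F]

/-- Membership in the localisation `B_𝔭 ⊆ F`. -/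
theorem mem_ofField_primeCompl_iff (𝔭 : Ideal B) [𝔭.IsPrime] (f : F) :
    f ∈ Localization.subalgebra.ofField F 𝔭.primeCompl 𝔭.primeCompl_le_nonZeroDivisors ↔
      ∃ a s : B, s ∉ 𝔭 ∧ f * algebraMap B F s = algebraMap B F a := by
  constructor
  · rintro ⟨a, s, hs, rfl⟩
    refine ⟨a, s, hs, ?_⟩
    have hs0 : algebraMap B F s ≠ 0 := by
      intro h
      have : s = 0 := (FaithfulSMul.algebraMap_injective B F) (by rw [h, map_zero])
      exact hs (this ▸ 𝔭.zero_mem)
    field_simp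
  · rintro ⟨a, s, hs, h⟩
    refine ⟨a, s, hs, ?_⟩
    have hs0 : algebraMap B F s ≠ 0 := by
      intro h
      have : s = 0 := (FaithfulSMul.algebraMap_injective B F) (by rw [h, map_zero])
      exact hs (this ▸ 𝔭.zero_mem)
    rw [← h]
    field_simp

variable [IsNoetherianRing B] [IsIntegrallyClosed B]

/-- **Localisation at a height-one prime of a Noetherian normal domain is a DVR.** -/
theorem isDiscreteValuationRing_ofField_of_height_one (𝔭 : Ideal B) [h𝔭 : 𝔭.IsPrime]
    (h : 𝔭.height = 1) :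
    IsDiscreteValuationRing
      (Localization.subalgebra.ofField F 𝔭.primeCompl 𝔭.primeCompl_le_nonZeroDivisors) := by
  set A := Localization.subalgebra.ofField F 𝔭.primeCompl 𝔭.primeCompl_le_nonZeroDivisors with hA
  haveI hloc : IsLocalization.AtPrime A 𝔭 :=
    Localization.subalgebra.isLocalization_ofField F 𝔭.primeCompl 𝔭.primeCompl_le_nonZeroDivisors
  haveI : IsLocalRing A := IsLocalization.AtPrime.isLocalRing A 𝔭
  haveI : IsNoetherianRing A := IsLocalization.isNoetherianRing 𝔭.primeCompl A inferInstance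
  haveI : IsIntegrallyClosed A :=
    isIntegrallyClosed_of_isLocalization A 𝔭.primeCompl 𝔭.primeCompl_le_nonZeroDivisors
  have h𝔭bot : 𝔭 ≠ ⊥ := Ideal.ne_bot_of_height_eq_one h
  have hfin : 𝔭.FiniteHeight := by simp [𝔭.finiteHeight_iff, h]
  -- the maximal ideal is the extension of `𝔭`
  have hmax : maximalIdeal A = 𝔭.map (algebraMap B A) :=
    (IsLocalization.AtPrime.map_eq_maximalIdeal 𝔭 A).symm
  -- `A` is not a field
  have hnf : ¬ IsField A := by
    rw [isField_iff_maximalIdeal_eq]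
    intro hbot
    obtain ⟨x, hx, hx0⟩ := Submodule.exists_mem_ne_zero_of_ne_bot h𝔭bot
    have hxmem : algebraMap B A x ∈ maximalIdeal A := by
      rw [hmax]; exact Ideal.mem_map_of_mem _ hx
    rw [hbot, Ideal.mem_bot] at hxmem
    have hinj : Function.Injective (algebraMap B A) :=
      IsLocalization.injective A 𝔭.primeCompl_le_nonZeroDivisors
    exact hx0 (hinj (by rw [hxmem, map_zero]))
  -- every nonzero prime is the maximal ideal
  have huniq : ∀ P : Ideal A, P ≠ ⊥ → P.IsPrime → P = maximalIdeal A := by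
    intro P hP hPprime
    have hP' : (P.comap (algebraMap B A)).IsPrime := Ideal.comap_isPrime _ _
    have hmapcomap : (P.comap (algebraMap B A)).map (algebraMap B A) = P :=
      IsLocalization.map_under 𝔭.primeCompl A P
    have hle : P.comap (algebraMap B A) ≤ 𝔭 := by
      have hdisj : Disjoint (𝔭.primeCompl : Set B) (P.comap (algebraMap B A) : Set B) :=
        ((IsLocalization.isPrime_iff_isPrime_disjoint 𝔭.primeCompl A P).1 hPprime).2
      intro x hx
      by_contra hx𝔭
      exact Set.disjoint_left.1 hdisj hx𝔭 hx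
    have hne : P.comap (algebraMap B A) ≠ ⊥ := by
      intro h0
      apply hP
      rw [← hmapcomap, h0, Ideal.map_bot]
    have hfin' : (P.comap (algebraMap B A)).FiniteHeight :=
      Ideal.finiteHeight_of_le hle h𝔭.ne_top
    have h1 : 𝔭.height ≤ (P.comap (algebraMap B A)).height := by
      rw [h]
      rw [Order.one_le_iff_pos, pos_iff_ne_zero, Ne, Ideal.height_eq_zero_iff_eq_bot]
      exact hne
    have heq : P.comap (algebraMap B A) = 𝔭 := Ideal.eq_of_le_of_height_le (h := hle) (h_height := h1)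
    rw [hmax, ← heq, hmapcomap]
  have htfae := (IsDiscreteValuationRing.TFAE A hnf).out 0 3
  rw [htfae]
  refine ⟨inferInstance, maximalIdeal A, ⟨?_, inferInstance⟩, ?_⟩
  · exact isField_iff_maximalIdeal_eq.not.1 hnf
  · rintro P ⟨hP, hPprime⟩
    exact huniq P hP hPprime

/-- **`B_𝔭` as a discrete valuation subring of `F`.** -/
theorem exists_dvr_of_height_one (𝔭 : Ideal B) [h𝔭 : 𝔭.IsPrime] (h : 𝔭.height = 1) :
    ∃ W : ValuationSubring F, IsDiscreteValuationRing W ∧
      ∀ f : F, f ∈ W ↔ ∃ a s : B, s ∉ 𝔭 ∧ f * algebraMap B F s = algebraMap B F a := by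
  set A := Localization.subalgebra.ofField F 𝔭.primeCompl 𝔭.primeCompl_le_nonZeroDivisors with hA
  haveI hdvr : IsDiscreteValuationRing A := isDiscreteValuationRing_ofField_of_height_one 𝔭 h
  have hval : ∀ f : F, f ∈ A ∨ f⁻¹ ∈ A := by
    intro f
    rcases ValuationRing.isInteger_or_isInteger A f with ⟨a, ha⟩ | ⟨a, ha⟩
    · left; rw [← ha]; exact a.2
    · right; rw [← ha]; exact a.2
  let W : ValuationSubring F := { A.toSubring with mem_or_inv_mem' := hval }
  have hWA : ∀ f : F, f ∈ W ↔ f ∈ A := fun f => Iff.rfl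
  refine ⟨W, ?_, fun f => ?_⟩
  · -- transfer along the identity
    let e : A ≃+* W :=
      { toFun := fun a => ⟨a.1, (hWA _).2 a.2⟩
        invFun := fun b => ⟨b.1, (hWA _).1 b.2⟩
        left_inv := fun _ => rfl
        right_inv := fun _ => rfl
        map_mul' := fun _ _ => rfl
        map_add' := fun _ _ => rfl }
    exact IsDiscreteValuationRing.RingEquivClass.isDiscreteValuationRing e
  · rw [hWA]
    exact mem_ofField_primeCompl_iff 𝔭 f

end Fermat.Agent.S18.H438

end
end
-- ===== PACK-END S18/H438/Front/HeightOne.lean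

-- ===== PACK-BEGIN S18/B12/H693/RedBasis.lean
section
/-
S18 / Route K / b2, leaf P4 = `RedBasisStatement` (helper693).  Mathlib-only.

A finite torsion-free algebra `R₁` over a PID `R` has a family which is `R`-linearly independent
modulo nilpotents and spans `R₁` modulo nilpotents (`R₁ / nilradical` is finite free).
-/


set_option autoImplicit false

namespace Fermat.Agent.S18.B12.H693

open Module

/-- `R₁ / nilradical` is torsion-free over `R` if `R₁` is. -/
theorem isTorsionFree_quotient_nilradical (R : Type*) [CommRing R] [IsDomain R]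
    (R₁ : Type*) [CommRing R₁] [Algebra R R₁] [Module.IsTorsionFree R R₁] :
    Module.IsTorsionFree R (R₁ ⧸ nilradical R₁) := by
  rw [Module.isTorsionFree_iff_smul_eq_zero]
  intro r m hrm
  by_cases hr : r = 0
  · exact Or.inl hr
  right
  obtain ⟨x, rfl⟩ := Ideal.Quotient.mk_surjective m
  have h1 : Ideal.Quotient.mk (nilradical R₁) (r • x) = 0 := by
    rw [← hrm]; rfl
  rw [Ideal.Quotient.eq_zero_iff_mem, mem_nilradical] at h1 ⊢
  obtain ⟨k, hk⟩ := h1
  refine ⟨k, ?_⟩
  rw [smul_pow] at hk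
  exact (smul_eq_zero.mp hk).resolve_left (pow_ne_zero k hr)

/-- **P4 (reduced basis)**, explicit form of `Fermat.Agent.S18.B12.RedBasisStatement`. -/
theorem exists_redBasis (R : Type*) [CommRing R] [IsDomain R] [IsPrincipalIdealRing R]
    (R₁ : Type*) [CommRing R₁] [Algebra R R₁] [Module.Finite R R₁] [Module.IsTorsionFree R R₁] :
    ∃ (r : ℕ) (y : Fin r → R₁),
      (∀ a : Fin r → R, IsNilpotent (∑ i, a i • y i) → a = 0) ∧
      (∀ x : R₁, ∃ a : Fin r → R, IsNilpotent (x - ∑ i, a i • y i)) := by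
  classical
  have htf : Module.IsTorsionFree R (R₁ ⧸ nilradical R₁) :=
    isTorsionFree_quotient_nilradical R R₁
  have hfin : Module.Finite R (R₁ ⧸ nilradical R₁) :=
    Module.Finite.of_surjective (Ideal.Quotient.mkₐ R (nilradical R₁)).toLinearMap
      (Ideal.Quotient.mkₐ_surjective R (nilradical R₁))
  have hfree : Module.Free R (R₁ ⧸ nilradical R₁) := Module.free_of_finite_type_torsion_free'
  let bQ : Basis (Fin (finrank R (R₁ ⧸ nilradical R₁))) R (R₁ ⧸ nilradical R₁) :=
    Module.finBasis R _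
  choose y hy using fun i => Ideal.Quotient.mk_surjective (bQ i)
  have hsum : ∀ a : Fin (finrank R (R₁ ⧸ nilradical R₁)) → R,
      Ideal.Quotient.mk (nilradical R₁) (∑ i, a i • y i) = ∑ i, a i • bQ i := by
    intro a
    rw [map_sum]
    refine Finset.sum_congr rfl fun i _ => ?_
    rw [← hy i]
    rfl
  refine ⟨_, y, ?_, ?_⟩
  · intro a ha
    have h0 : ∑ i, a i • bQ i = 0 := by
      rw [← hsum, Ideal.Quotient.eq_zero_iff_mem, mem_nilradical]
      exact ha
    have := (Fintype.linearIndependent_iff.mp bQ.linearIndependent) a h0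
    exact funext this
  · intro x
    refine ⟨fun i => bQ.repr (Ideal.Quotient.mk (nilradical R₁) x) i, ?_⟩
    rw [← mem_nilradical, ← Ideal.Quotient.eq_zero_iff_mem, map_sub, hsum, bQ.sum_repr, sub_self]

end Fermat.Agent.S18.B12.H693

end
-- ===== PACK-END S18/B12/H693/RedBasis.lean

-- ===== PACK-BEGIN S18/H274/Newton.lean
section


/-!
# S18 / b2 (helper274) — traces of powers and nilpotency in characteristic zero

Mathlib-only.  Over a field of characteristic zero, an endomorphism `f` of a finite dimensional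
vector space all of whose positive powers have trace zero is nilpotent
(`isNilpotent_of_trace_pow_eq_zero`), and the matrix version
(`matrix_isNilpotent_of_trace_pow_eq_zero`).

Proof: induction on the dimension.  By Cayley–Hamilton `χ(f) = 0`; taking traces gives
`χ(0) · dim V = 0`, so `det f = 0` and `range f` is a proper invariant subspace.  The traces of
the powers of `f` restricted to `range f` are those of `f`.
-/

namespace Fermat.Agent.S18.H274

open Module Polynomial

universe u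

theorem isNilpotent_of_trace_pow_eq_zero_aux (K : Type*) [Field K] [CharZero K] :
    ∀ (n : ℕ) (V : Type u) [AddCommGroup V] [Module K V] [FiniteDimensional K V],
      finrank K V = n → ∀ f : V →ₗ[K] V,
        (∀ k, 1 ≤ k → LinearMap.trace K V (f ^ k) = 0) → IsNilpotent f := by
  intro n
  induction n using Nat.strong_induction_on with
  | _ n ih =>
    intro V _ _ _ hn f hf
    rcases Nat.eq_zero_or_pos n with h0 | hpos
    · -- trivial space
      subst h0
      have : Subsingleton V := Module.finrank_zero_iff.mp hn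
      have hf0 : f = 0 := Subsingleton.elim _ _
      rw [hf0]
      exact IsNilpotent.zero
    · -- `det f = 0`
      have hCH := LinearMap.aeval_self_charpoly f
      have htr : LinearMap.trace K V (aeval f f.charpoly) = f.charpoly.coeff 0 * (n : K) := by
        rw [aeval_eq_sum_range, map_sum]
        rw [Finset.sum_eq_single 0]
        · simp [hn, Module.End.one_eq_id]
        · intro i _ hi
          rw [map_smul, hf i (Nat.one_le_iff_ne_zero.mpr hi), smul_zero]
        · intro h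
          exact absurd (Finset.mem_range.mpr (Nat.succ_pos _)) h
      rw [hCH, map_zero] at htr
      have hn0 : (n : K) ≠ 0 := Nat.cast_ne_zero.mpr hpos.ne'
      have hc0 : f.charpoly.coeff 0 = 0 := by
        rcases mul_eq_zero.mp htr.symm with h | h
        · exact h
        · exact absurd h hn0
      have hdet : LinearMap.det f = 0 := by
        rw [LinearMap.det_eq_sign_charpoly_coeff, hc0, mul_zero]
      have hker : ⊥ < LinearMap.ker f := LinearMap.bot_lt_ker_of_det_eq_zero hdet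
      have hkerpos : 0 < finrank K (LinearMap.ker f) := by
        rw [Module.finrank_pos_iff_exists_ne_zero]
        obtain ⟨x, hx, hx'⟩ := Submodule.exists_mem_ne_zero_of_ne_bot hker.ne'
        exact ⟨⟨x, hx⟩, fun h => hx' (congrArg Subtype.val h)⟩
      have hrn := LinearMap.finrank_range_add_finrank_ker f
      have hlt : finrank K (LinearMap.range f) < n := by omega
      -- restriction to the range
      let U := LinearMap.range f
      let f' : V →ₗ[K] U := f.rangeRestrict
      let ι : U →ₗ[K] V := U.subtype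
      let g : U →ₗ[K] U := f' ∘ₗ ι
      have hfι : ι ∘ₗ f' = f := LinearMap.subtype_comp_codRestrict _ _ _
      have hgx : ∀ x : U, ((g x : U) : V) = f (x : V) := fun x => rfl
      have hιg' : ∀ (k : ℕ) (x : U), (((g ^ k) x : U) : V) = (f ^ k) (x : V) := by
        intro k
        induction k with
        | zero => intro x; simp
        | succ k ihk =>
          intro x
          rw [pow_succ', Module.End.mul_apply, hgx, ihk, pow_succ', Module.End.mul_apply]
      have hιg : ∀ k : ℕ, ι ∘ₗ (g ^ k) = (f ^ k) ∘ₗ ι := by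
        intro k
        ext x
        exact hιg' k x
      have hg : ∀ k, 1 ≤ k → LinearMap.trace K U (g ^ k) = 0 := by
        intro k hk
        obtain ⟨k, rfl⟩ : ∃ j, k = j + 1 := ⟨k - 1, by omega⟩
        have h1 : g ^ (k + 1) = ((g ^ k) ∘ₗ f') ∘ₗ ι := by
          rw [pow_succ, Module.End.mul_eq_comp, LinearMap.comp_assoc]
        rw [h1, LinearMap.trace_comp_comm', ← LinearMap.comp_assoc, hιg, LinearMap.comp_assoc,
          hfι, ← Module.End.mul_eq_comp, ← pow_succ]
        exact hf (k + 1) (Nat.succ_pos _)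
      obtain ⟨m, hm⟩ := ih _ hlt U rfl g hg
      refine ⟨m + 1, ?_⟩
      ext x
      rw [pow_succ, Module.End.mul_apply]
      have h2 : f x = ((f' x : U) : V) := rfl
      rw [h2, ← hιg', hm]
      simp

/-- Over a field of characteristic zero, an endomorphism of a finite dimensional vector space
all of whose positive powers have trace zero is nilpotent. -/
theorem isNilpotent_of_trace_pow_eq_zero {K : Type*} [Field K] [CharZero K]
    {V : Type*} [AddCommGroup V] [Module K V] [FiniteDimensional K V] (f : V →ₗ[K] V)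
    (hf : ∀ k, 1 ≤ k → LinearMap.trace K V (f ^ k) = 0) : IsNilpotent f :=
  isNilpotent_of_trace_pow_eq_zero_aux K _ V rfl f hf

/-- Matrix version of `isNilpotent_of_trace_pow_eq_zero`. -/
theorem matrix_isNilpotent_of_trace_pow_eq_zero {K : Type*} [Field K] [CharZero K]
    {n : Type*} [Fintype n] [DecidableEq n] (A : Matrix n n K)
    (hA : ∀ k, 1 ≤ k → (A ^ k).trace = 0) : IsNilpotent A := by
  have h := isNilpotent_of_trace_pow_eq_zero (Matrix.toLin' A) (fun k hk => by
    rw [← Matrix.toLin'_pow, LinearMap.trace_eq_matrix_trace K (Pi.basisFun K n),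
      LinearMap.toMatrix_eq_toMatrix', LinearMap.toMatrix'_toLin']
    exact hA k hk)
  obtain ⟨m, hm⟩ := h
  refine ⟨m, ?_⟩
  rw [← Matrix.toLin'_pow] at hm
  exact Matrix.toLin'.injective (by rw [hm, map_zero])

end Fermat.Agent.S18.H274

end
-- ===== PACK-END S18/H274/Newton.lean

-- ===== PACK-BEGIN S18/H274/Dedekind.lean
section


/-!
# S18 / b2 (helper274) — a Bezout-type splitting in Dedekind domains

Mathlib-only.  For `p q : C` in a Dedekind domain with `q ≠ 0` (think of the fraction `u = p/q`),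
the fractional ideal `C + C u` is invertible; unwinding `1 ∈ (C + C u) (C + C u)⁻¹` gives
elements `β₀ β₀' z z₁ : C` with

  `β₀ + z = 1`,  `z * q = β₀' * p`  (`z = β₀' u`),  `z₁ * q = β₀ * p`  (`z₁ = β₀ u`).

This is the only place where the TAME discriminant bound uses that `C` is integrally closed.
-/

namespace Fermat.Agent.S18.H274

open scoped nonZeroDivisors

theorem exists_split_of_isDedekindDomain {C : Type*} [CommRing C] [IsDedekindDomain C]
    (p q : C) (hq : q ≠ 0) :
    ∃ β₀ β₀' z z₁ : C, β₀ + z = 1 ∧ z * q = β₀' * p ∧ z₁ * q = β₀ * p := by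
  classical
  let K := FractionRing C
  have hinj : Function.Injective (algebraMap C K) := IsFractionRing.injective C K
  have hqK : algebraMap C K q ≠ 0 := fun h => hq (hinj (by rw [h, map_zero]))
  let u : K := algebraMap C K p / algebraMap C K q
  let 𝔟 : FractionalIdeal C⁰ K := 1 + FractionalIdeal.spanSingleton C⁰ u
  have h1𝔟 : (1 : K) ∈ 𝔟 := by
    rw [FractionalIdeal.mem_add]
    exact ⟨1, FractionalIdeal.one_mem_one _, 0, Submodule.zero_mem _, add_zero 1⟩
  have hu𝔟 : u ∈ 𝔟 := by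
    rw [FractionalIdeal.mem_add]
    exact ⟨0, Submodule.zero_mem _, u, FractionalIdeal.mem_spanSingleton_self _ u, zero_add u⟩
  have h𝔟 : 𝔟 ≠ 0 := by
    intro h
    rw [h] at h1𝔟
    exact one_ne_zero ((FractionalIdeal.mem_zero_iff _).mp h1𝔟)
  have hinv : 𝔟 * 𝔟⁻¹ = 1 := mul_inv_cancel₀ h𝔟
  have h1 : (1 : K) ∈ 𝔟 * 𝔟⁻¹ := by
    rw [hinv]
    exact FractionalIdeal.one_mem_one _
  have hsplit : 𝔟 * 𝔟⁻¹ = 𝔟⁻¹ + FractionalIdeal.spanSingleton C⁰ u * 𝔟⁻¹ := by
    simp only [𝔟, add_mul, one_mul]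
  rw [hsplit, FractionalIdeal.mem_add] at h1
  obtain ⟨p₁, hp₁, q₁, hq₁, hsum⟩ := h1
  rw [FractionalIdeal.mem_singleton_mul] at hq₁
  obtain ⟨β', hβ', rfl⟩ := hq₁
  rw [FractionalIdeal.mem_inv_iff h𝔟] at hp₁ hβ'
  obtain ⟨β₀, hβ₀⟩ := (FractionalIdeal.mem_one_iff _).mp (hp₁ 1 h1𝔟)
  obtain ⟨z₁, hz₁⟩ := (FractionalIdeal.mem_one_iff _).mp (hp₁ u hu𝔟)
  obtain ⟨β₀', hβ₀'⟩ := (FractionalIdeal.mem_one_iff _).mp (hβ' 1 h1𝔟)
  obtain ⟨z, hz⟩ := (FractionalIdeal.mem_one_iff _).mp (hβ' u hu𝔟)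
  rw [mul_one] at hβ₀ hβ₀'
  refine ⟨β₀, β₀', z, z₁, ?_, ?_, ?_⟩
  · apply hinj
    rw [map_add, map_one, hβ₀, hz, ← hsum, mul_comm]
  · apply hinj
    rw [map_mul, map_mul, hz, hβ₀']
    simp only [u]
    rw [mul_assoc, div_mul_cancel₀ _ hqK]
  · apply hinj
    rw [map_mul, map_mul, hz₁, hβ₀]
    simp only [u]
    rw [mul_assoc, div_mul_cancel₀ _ hqK]

end Fermat.Agent.S18.H274

end
-- ===== PACK-END S18/H274/Dedekind.lean

-- ===== PACK-BEGIN S37/H278/AdaptedBasis.lean
section


/-!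
# S37 / S18, piece b2-core (helper278): adapted bases over a local ring

`M` finite free over a local ring `o`, `I ≤ M` a submodule with `I + span(u_1..u_s) = M`,
`z ∈ I` with `z ∉ 𝔪 M`.  Then `M` has a basis containing `z`, all of whose members except at most
`s` lie in `I`.
-/

set_option autoImplicit false
set_option linter.style.haveILetI false
set_option linter.unusedSectionVars false

namespace Fermat.Agent.S37.H278

open Module TensorProduct

universe u v

theorem exists_adapted_basis {o : Type u} {M : Type v} [CommRing o] [IsLocalRing o]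
    [AddCommGroup M] [Module o M] [Module.Free o M] [Module.Finite o M]
    (I : Submodule o M) (z : M) (hzI : z ∈ I)
    (hz : z ∉ (IsLocalRing.maximalIdeal o • ⊤ : Submodule o M))
    (s : ℕ) (u : Fin s → M) (hu : I ⊔ Submodule.span o (Set.range u) = ⊤) :
    ∃ (ι : Type (max u v)) (_ : Fintype ι) (_ : DecidableEq ι) (b : Basis ι o M)
      (Z : Finset ι) (i₀ : ι),
      i₀ ∈ Z ∧ b i₀ = z ∧ (∀ i ∈ Z, b i ∈ I) ∧ Fintype.card ι ≤ Z.card + s := by
  classical
  let κ := IsLocalRing.ResidueField o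
  let V := κ ⊗[o] M
  let π : M →ₗ[o] V := TensorProduct.mk o κ M 1
  have hπsurj : Function.Surjective π :=
    TensorProduct.mk_surjective o M κ Ideal.Quotient.mk_surjective
  have hπz : π z ≠ 0 := by
    intro h0
    apply hz
    rw [← LinearMap.ker_tensorProductMk]
    exact h0
  -- step 1 : maximal independent subset of π '' I containing π z
  have hs0 : LinearIndepOn κ id ({π z} : Set V) := by
    rw [linearIndepOn_singleton_iff]
    exact hπz
  have hsub0 : ({π z} : Set V) ⊆ π '' (I : Set M) :=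
    Set.singleton_subset_iff.mpr ⟨z, hzI, rfl⟩
  obtain ⟨B₁, hB₁sub, hzB₁, hspanB₁, hB₁li⟩ := exists_linearIndepOn_id_extension hs0 hsub0
  -- step 2 : extend by images of the u's
  set t' : Set V := B₁ ∪ π '' (Set.range u) with ht'def
  have hst : B₁ ⊆ t' := Set.subset_union_left
  have ht' : ⊤ ≤ Submodule.span κ t' := by
    intro x _
    obtain ⟨m, rfl⟩ := hπsurj x
    have hm : m ∈ I ⊔ Submodule.span o (Set.range u) := by rw [hu]; trivial
    obtain ⟨a, ha, c, hc, rfl⟩ := Submodule.mem_sup.mp hm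
    rw [map_add]
    refine Submodule.add_mem _ ?_ ?_
    · have : π a ∈ Submodule.span κ B₁ := hspanB₁ ⟨a, ha, rfl⟩
      exact Submodule.span_mono hst this
    · -- c in span of u
      have hle : Submodule.span o (Set.range u) ≤
          ((Submodule.span κ t').restrictScalars o).comap π := by
        rw [Submodule.span_le]
        rintro _ ⟨j, rfl⟩
        show π (u j) ∈ Submodule.span κ t'
        exact Submodule.subset_span (Or.inr ⟨u j, ⟨j, rfl⟩, rfl⟩)
      exact hle hc
  let bV : Basis (hB₁li.extend hst) κ V := Basis.extendLe hB₁li hst ht'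
  have hbV : ∀ i : hB₁li.extend hst, bV i = (i : V) := fun i => by
    simp [bV, Basis.coe_extendLe]
  have hBsub : hB₁li.extend hst ⊆ t' := hB₁li.extend_subset hst
  have hB₁B : B₁ ⊆ hB₁li.extend hst := hB₁li.subset_extend hst
  haveI : Finite (hB₁li.extend hst) := Module.Finite.finite_basis bV
  letI : Fintype (hB₁li.extend hst) := Fintype.ofFinite _
  -- lifts
  have hlift : ∀ i : hB₁li.extend hst, ∃ m : M, π m = (i : V) ∧
      ((i : V) ∈ B₁ → m ∈ I) ∧ ((i : V) = π z → m = z) := by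
    intro i
    by_cases h1 : (i : V) = π z
    · exact ⟨z, h1.symm, fun _ => hzI, fun _ => rfl⟩
    · by_cases h2 : (i : V) ∈ B₁
      · obtain ⟨m, hm, hmi⟩ := hB₁sub h2
        exact ⟨m, hmi, fun _ => hm, fun h => absurd h h1⟩
      · obtain ⟨m, hm⟩ := hπsurj (i : V)
        exact ⟨m, hm, fun h => absurd h h2, fun h => absurd h h1⟩
  choose w hw1 hw2 hw3 using hlift
  have hli : LinearIndependent κ (π ∘ w) := by
    have : (π ∘ w) = bV := by
      funext i
      simp [hw1 i, hbV i]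
    rw [this]
    exact bV.linearIndependent
  have hliM : LinearIndependent o w := IsLocalRing.linearIndependent_of_flat w hli
  have hspM : Submodule.span o (Set.range w) = ⊤ :=
    IsLocalRing.span_eq_top_of_tmul_eq_basis w bV (fun i => by
      rw [hbV i]; exact hw1 i)
  let b : Basis (hB₁li.extend hst) o M := Basis.mk hliM hspM.ge
  have hb : ∀ i, b i = w i := fun i => by simp [b]
  let i₀ : hB₁li.extend hst := ⟨π z, hB₁B (hzB₁ rfl)⟩
  let Z : Finset (hB₁li.extend hst) := Finset.univ.filter fun i => (i : V) ∈ B₁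
  refine ⟨hB₁li.extend hst, inferInstance, inferInstance, b, Z, i₀, ?_, ?_, ?_, ?_⟩
  · simp only [Z, Finset.mem_filter, Finset.mem_univ, true_and]
    exact hzB₁ rfl
  · rw [hb]; exact hw3 i₀ rfl
  · intro i hi
    simp only [Z, Finset.mem_filter, Finset.mem_univ, true_and] at hi
    rw [hb]; exact hw2 i hi
  · -- counting
    have hcompl : ∀ i : hB₁li.extend hst, i ∉ Z → ∃ j : Fin s, π (u j) = (i : V) := by
      intro i hi
      simp only [Z, Finset.mem_filter, Finset.mem_univ, true_and] at hi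
      rcases hBsub i.2 with h | h
      · exact absurd h hi
      · obtain ⟨_, ⟨j, rfl⟩, hj⟩ := h
        exact ⟨j, hj⟩
    have hcard : (Finset.univ.filter fun i : hB₁li.extend hst => i ∉ Z).card ≤ s := by
      rw [← Fintype.card_subtype]
      choose g hg using fun (i : {i : hB₁li.extend hst // i ∉ Z}) => hcompl i.1 i.2
      have hinj : Function.Injective g := by
        intro i j hij
        apply Subtype.ext
        apply Subtype.ext
        rw [← hg i, ← hg j, hij]
      simpa using Fintype.card_le_of_injective g hinj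
    have hsplit := Finset.card_filter_add_card_filter_not
      (s := (Finset.univ : Finset (hB₁li.extend hst))) (fun i => i ∈ Z)
    have hZ : (Finset.univ.filter fun i : hB₁li.extend hst => i ∈ Z) = Z := by
      ext i; simp
    rw [hZ] at hsplit
    rw [← Finset.card_univ, ← hsplit]
    omega

end Fermat.Agent.S37.H278

end
-- ===== PACK-END S37/H278/AdaptedBasis.lean

-- ===== PACK-BEGIN S18/H754/HncRadical.lean
section


/-!
# S18 / ALG-FRONT / hNC adapter, part N1: a radical criterion for principal ideals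

`B` a Noetherian integrally closed domain, `π ≠ 0`.  If `π` generates `𝔓 B_𝔓` for every height-one
prime `𝔓 ∋ π` (elementwise: `∀ b ∈ 𝔓, ∃ s ∉ 𝔓, π ∣ s * b`), then `(π)` is a radical ideal.

Proof: an associated prime `P = (π : c)` of `B/π` is of height one (`y = c/π` satisfies
`y P ⊆ B`, `y P ⊄ P` by integral closedness, so `P` is locally principal; Krull).
-/

set_option autoImplicit false

noncomputable section

namespace Fermat.Agent.S18.H754

section Radical

variable {B : Type*} [CommRing B] [IsDomain B] [IsNoetherianRing B] [IsIntegrallyClosed B]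

/-- An associated prime of `B/π` (`B` Noetherian normal domain, `π ≠ 0`) has height one. -/
theorem height_eq_one_of_eq_colon (π c : B) (hπ : π ≠ 0) (hc : ¬ π ∣ c)
    (P : Ideal B) (hP : P.IsPrime) (hPc : ∀ s : B, s ∈ P ↔ π ∣ s * c) : P.height = 1 := by
  classical
  have hπP : π ∈ P := (hPc π).2 (Dvd.intro _ rfl)
  -- the map `φ : P → B`, `t ↦ t c / π`
  have hφ : ∀ t ∈ P, ∃ d : B, t * c = π * d := fun t ht => (hPc t).1 ht
  -- there is `a ∈ P` with `a c / π ∉ P`
  have hex : ∃ a ∈ P, ∃ s : B, s ∉ P ∧ a * c = π * s := by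
    by_contra hcon
    -- then `y = c / π` stabilises `P`, hence is integral, hence lies in `B`
    let F := FractionRing B
    have hinj : Function.Injective (algebraMap B F) := IsFractionRing.injective B F
    have hπF : algebraMap B F π ≠ 0 := fun h => hπ (hinj (by rw [h, map_zero]))
    set y : F := algebraMap B F c / algebraMap B F π with hy
    let N : Submodule B F := Submodule.map (Algebra.linearMap B F) P
    have hN0 : N ≠ ⊥ := by
      intro h
      have : algebraMap B F π ∈ N := ⟨π, hπP, rfl⟩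
      rw [h, Submodule.mem_bot] at this
      exact hπF this
    have hNfg : N.FG := Submodule.FG.map _ (IsNoetherian.noetherian P)
    have hstab : ∀ n ∈ N, y • n ∈ N := by
      rintro n ⟨t, ht, rfl⟩
      obtain ⟨d, hd⟩ := hφ t ht
      have hdP : d ∈ P := by
        by_contra hdP
        exact hcon ⟨t, ht, d, hdP, hd⟩
      refine ⟨d, hdP, ?_⟩
      simp only [Algebra.linearMap_apply, smul_eq_mul, hy]
      have := congrArg (algebraMap B F) hd
      simp only [map_mul] at this
      rw [div_mul_eq_mul_div, eq_div_iff hπF, mul_comm (algebraMap B F d), ← this]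
      ring
    have hint : IsIntegral B y := isIntegral_of_smul_mem_submodule N hN0 hNfg y hstab
    obtain ⟨y', hy'⟩ := IsIntegrallyClosed.isIntegral_iff.1 hint
    apply hc
    refine ⟨y', ?_⟩
    apply hinj
    rw [map_mul, hy', hy, mul_div_assoc', mul_div_cancel_left₀ _ hπF]
  obtain ⟨a, haP, s, hsP, has⟩ := hex
  -- `s P ⊆ a B`
  have hsP' : ∀ t ∈ P, a ∣ s * t := by
    intro t ht
    obtain ⟨d, hd⟩ := hφ t ht
    refine ⟨d, ?_⟩
    have h1 : π * (s * t) = π * (a * d) := by
      calc π * (s * t) = (π * s) * t := by ring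
        _ = (a * c) * t := by rw [has]
        _ = a * (t * c) := by ring
        _ = a * (π * d) := by rw [hd]
        _ = π * (a * d) := by ring
    exact mul_left_cancel₀ hπ h1
  -- `P` is minimal over `(a)`
  have hmin : P ∈ (Ideal.span {a}).minimalPrimes := by
    refine ⟨⟨hP, (Ideal.span_singleton_le_iff_mem _).2 haP⟩, ?_⟩
    rintro Q ⟨hQ, haQ⟩ hQP t ht
    have h1 : s * t ∈ Q := by
      obtain ⟨d, hd⟩ := hsP' t ht
      rw [hd]
      exact Ideal.mul_mem_right _ _ ((Ideal.span_singleton_le_iff_mem _).1 haQ)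
    rcases hQ.mem_or_mem h1 with h2 | h2
    · exact absurd (hQP h2) hsP
    · exact h2
  apply le_antisymm
  · exact Ideal.height_le_one_of_isPrincipal_of_mem_minimalPrimes (Ideal.span {a}) P hmin
  · rw [Order.one_le_iff_pos, pos_iff_ne_zero]
    intro h0
    haveI := hP
    rw [Ideal.height_eq_zero_iff, IsDomain.minimalPrimes_eq_singleton_bot] at h0
    rw [Set.mem_singleton_iff] at h0
    rw [h0, Ideal.mem_bot] at hπP
    exact hπ hπP

/-- **Radical criterion.**  If `π` generates `𝔓 B_𝔓` at every height-one prime `𝔓 ∋ π`, then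
`(π)` is radical. -/
theorem isRadical_span_singleton_of_local_gen (π : B) (hπ : π ≠ 0)
    (h : ∀ 𝔓 : Ideal B, 𝔓.IsPrime → 𝔓.height = 1 → π ∈ 𝔓 →
      ∀ b ∈ 𝔓, ∃ s : B, s ∉ 𝔓 ∧ π ∣ s * b) :
    (Ideal.span {π}).IsRadical := by
  classical
  intro b hb
  obtain ⟨n, hn⟩ := hb
  by_contra hbπ
  have hx : (Ideal.Quotient.mk (Ideal.span {π}) b) ≠ 0 := by
    rwa [Ne, Ideal.Quotient.eq_zero_iff_mem]
  obtain ⟨P, hPass, hle⟩ :=
    exists_le_isAssociatedPrime_of_isNoetherianRing B (M := B ⧸ Ideal.span {π}) _ hx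
  rw [isAssociatedPrime_iff] at hPass
  obtain ⟨hP, x, hPx⟩ := hPass
  obtain ⟨c, rfl⟩ := Ideal.Quotient.mk_surjective x
  have hPc : ∀ s : B, s ∈ P ↔ π ∣ s * c := by
    intro s
    rw [hPx, Submodule.mem_colon_singleton, Submodule.mem_bot]
    rw [← Ideal.mem_span_singleton, ← Ideal.Quotient.eq_zero_iff_mem, map_mul]
    rfl
  have hc : ¬ π ∣ c := by
    intro hd
    apply hP.ne_top
    rw [Ideal.eq_top_iff_one, hPc, one_mul]
    exact hd
  have hht : P.height = 1 := height_eq_one_of_eq_colon π c hπ hc P hP hPc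
  have hπP : π ∈ P := (hPc π).2 (Dvd.intro _ rfl)
  have hbP : b ∈ P := by
    have h1 : b ^ n ∈ P := by
      rw [Ideal.mem_span_singleton] at hn
      obtain ⟨d, hd⟩ := hn
      rw [hd]
      exact Ideal.mul_mem_right _ _ hπP
    exact hP.mem_of_pow_mem n h1
  obtain ⟨s, hsP, hs⟩ := h P hP hht hπP b hbP
  apply hsP
  apply hle
  rw [Submodule.mem_colon_singleton, Submodule.mem_bot]
  change Ideal.Quotient.mk (Ideal.span {π}) (s * b) = 0
  rw [Ideal.Quotient.eq_zero_iff_mem, Ideal.mem_span_singleton]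
  exact hs

end Radical

end Fermat.Agent.S18.H754

end

end
-- ===== PACK-END S18/H754/HncRadical.lean

-- ===== PACK-BEGIN S18/H394/Graded.lean
section


/-!
# S18, Route K, pieces b3+b4 (helper394): the graded Kummer algebra

`C` is a commutative `F`-algebra with a power basis `1, T, …, T^(m-1)` and `T ^ m = u`
(think `C = F[T]/(T^m - u)`).  For a subalgebra `B ⊆ F` which is `m`-root closed
(`f ^ m ∈ B → f ∈ B`) we define

  `kummerSub B = { ∑ fᵢ Tⁱ | fᵢ ^ m * u ^ i ∈ B }`

and show that it is a subalgebra of `C` (it is the integral closure of `B` in `C` when `B` is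
normal, but we never need that).
-/

set_option autoImplicit false

namespace Fermat.Agent.S18.H394

open Polynomial

section RootSets

variable {R F : Type*} [CommRing R] [Field F] [Algebra R F]

/-- `B` is closed under `m`-th roots taken in `F`. -/
def RootClosed (m : ℕ) (B : Subalgebra R F) : Prop := ∀ f : F, f ^ m ∈ B → f ∈ B

/-- `degSet B m u n = {f | f ^ m * u ^ n ∈ B}`: the coefficients allowed in degree `n`. -/
def degSet (B : Subalgebra R F) (m : ℕ) (u : F) (n : ℕ) : Set F := {f | f ^ m * u ^ n ∈ B}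

variable {B : Subalgebra R F} {m : ℕ} {u : F}

theorem mem_degSet {n : ℕ} {f : F} : f ∈ degSet B m u n ↔ f ^ m * u ^ n ∈ B := Iff.rfl

theorem zero_mem_degSet (hm : 0 < m) (n : ℕ) : (0 : F) ∈ degSet B m u n := by
  rw [mem_degSet, zero_pow hm.ne', zero_mul]
  exact B.zero_mem

theorem neg_mem_degSet {n : ℕ} {f : F} (hf : f ∈ degSet B m u n) : -f ∈ degSet B m u n := by
  rw [mem_degSet] at hf ⊢
  rcases Nat.even_or_odd m with h | h
  · rwa [h.neg_pow]
  · rw [h.neg_pow, neg_mul]
    exact B.neg_mem hf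

theorem mul_mem_degSet {i j : ℕ} {f g : F} (hf : f ∈ degSet B m u i) (hg : g ∈ degSet B m u j) :
    f * g ∈ degSet B m u (i + j) := by
  rw [mem_degSet] at hf hg ⊢
  have : (f * g) ^ m * u ^ (i + j) = (f ^ m * u ^ i) * (g ^ m * u ^ j) := by ring
  rw [this]
  exact B.mul_mem hf hg

theorem smul_mem_degSet {n : ℕ} {b f : F} (hb : b ∈ B) (hf : f ∈ degSet B m u n) :
    b * f ∈ degSet B m u n := by
  rw [mem_degSet] at hf ⊢
  have : (b * f) ^ m * u ^ n = b ^ m * (f ^ m * u ^ n) := by ring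
  rw [this]
  exact B.mul_mem (B.pow_mem hb m) hf

theorem mem_degSet_zero_of_mem {b : F} (hb : b ∈ B) : b ∈ degSet B m u 0 := by
  rw [mem_degSet, pow_zero, mul_one]
  exact B.pow_mem hb m

theorem mem_of_mem_degSet_zero (hB : RootClosed m B) {b : F} (hb : b ∈ degSet B m u 0) :
    b ∈ B := by
  rw [mem_degSet, pow_zero, mul_one] at hb
  exact hB b hb

theorem mul_pow_mem_degSet {q r : ℕ} {f : F} (hf : f ∈ degSet B m u (q * m + r)) :
    f * u ^ q ∈ degSet B m u r := by
  rw [mem_degSet] at hf ⊢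
  have : (f * u ^ q) ^ m * u ^ r = f ^ m * u ^ (q * m + r) := by ring
  rwa [this]

theorem degSet_mono {B B' : Subalgebra R F} (h : B ≤ B') (n : ℕ) :
    degSet B m u n ⊆ degSet B' m u n := fun _ hf => h hf

/-- The key point: `degSet` is closed under addition when `B` is `m`-root closed. -/
theorem add_mem_degSet (hB : RootClosed m B) {n : ℕ} {f g : F}
    (hf : f ∈ degSet B m u n) (hg : g ∈ degSet B m u n) : f + g ∈ degSet B m u n := by
  rw [mem_degSet] at hf hg ⊢
  rw [add_pow, Finset.sum_mul]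
  refine B.sum_mem fun a ha => ?_
  have ham : a ≤ m := Nat.lt_succ_iff.mp (Finset.mem_range.mp ha)
  have hroot : f ^ a * g ^ (m - a) * u ^ n ∈ B := by
    apply hB
    have : (f ^ a * g ^ (m - a) * u ^ n) ^ m
        = (f ^ m * u ^ n) ^ a * (g ^ m * u ^ n) ^ (m - a) := by
      have h1 : (u ^ n) ^ m = (u ^ n) ^ a * (u ^ n) ^ (m - a) := by
        rw [← pow_add, Nat.add_sub_cancel' ham]
      calc (f ^ a * g ^ (m - a) * u ^ n) ^ m
          = (f ^ m) ^ a * (g ^ m) ^ (m - a) * (u ^ n) ^ m := by ring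
        _ = (f ^ m) ^ a * (g ^ m) ^ (m - a) * ((u ^ n) ^ a * (u ^ n) ^ (m - a)) := by rw [h1]
        _ = (f ^ m * u ^ n) ^ a * (g ^ m * u ^ n) ^ (m - a) := by ring
    rw [this]
    exact B.mul_mem (B.pow_mem hf _) (B.pow_mem hg _)
  have : f ^ a * g ^ (m - a) * (m.choose a : F) * u ^ n
      = (m.choose a : F) * (f ^ a * g ^ (m - a) * u ^ n) := by ring
  rw [this]
  exact B.mul_mem (natCast_mem B _) hroot

theorem sum_mem_degSet (hB : RootClosed m B) (hm : 0 < m) {n : ℕ} {ι : Type*} (s : Finset ι)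
    (f : ι → F) (hf : ∀ i ∈ s, f i ∈ degSet B m u n) : ∑ i ∈ s, f i ∈ degSet B m u n := by
  classical
  induction s using Finset.induction_on with
  | empty => simpa using zero_mem_degSet (B := B) (u := u) hm n
  | insert a s ha ih =>
    rw [Finset.sum_insert ha]
    exact add_mem_degSet hB (hf a (Finset.mem_insert_self a s))
      (ih fun i hi => hf i (Finset.mem_insert_of_mem hi))

end RootSets

section Coeff

variable {F C : Type*} [Field F] [CommRing C] [Algebra F C]
variable (pb : PowerBasis F C) {u : F}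

/-- The `k`-th coefficient of `c` in the power basis. -/
noncomputable def co (k : Fin pb.dim) : C →ₗ[F] F :=
  (Finsupp.lapply k).comp pb.basis.repr.toLinearMap

theorem co_apply (k : Fin pb.dim) (c : C) : co pb k c = pb.basis.repr c k := rfl

theorem sum_co (c : C) : ∑ k : Fin pb.dim, algebraMap F C (co pb k c) * pb.gen ^ (k : ℕ) = c := by
  conv_rhs => rw [← pb.basis.sum_repr c]
  refine Finset.sum_congr rfl fun k _ => ?_
  rw [co_apply, pb.basis_eq_pow, Algebra.smul_def]

theorem gen_pow_eq (hT : pb.gen ^ pb.dim = algebraMap F C u) (q r : ℕ) :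
    pb.gen ^ (q * pb.dim + r) = algebraMap F C (u ^ q) * pb.gen ^ r := by
  rw [pow_add, mul_comm q, pow_mul, hT, map_pow]

theorem co_monomial (hT : pb.gen ^ pb.dim = algebraMap F C u) (f : F) (q : ℕ)
    (r k : Fin pb.dim) :
    co pb k (algebraMap F C f * pb.gen ^ (q * pb.dim + (r : ℕ))) = if r = k then f * u ^ q else 0 := by
  classical
  rw [gen_pow_eq pb hT, ← mul_assoc, ← map_mul, ← Algebra.smul_def, ← pb.basis_eq_pow, co_apply,
    map_smul, pb.basis.repr_self, Finsupp.smul_apply, Finsupp.single_apply, smul_eq_mul]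
  split_ifs <;> simp

theorem co_algebraMap_mul (f : F) (c : C) (k : Fin pb.dim) :
    co pb k (algebraMap F C f * c) = f * co pb k c := by
  rw [← Algebra.smul_def, map_smul, smul_eq_mul]

end Coeff

section KummerSub

variable {R F C : Type*} [CommRing R] [Field F] [Algebra R F] [CommRing C] [Algebra F C]
  [Algebra R C] [IsScalarTower R F C]
variable (pb : PowerBasis F C) {u : F}

/-- Coefficients of a monomial `f * T ^ n` (any `n`) with `f` allowed in degree `n` are allowed. -/
theorem co_monomial_mem (hT : pb.gen ^ pb.dim = algebraMap F C u) (hm : 0 < pb.dim)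
    {B : Subalgebra R F} {n : ℕ} {f : F}
    (hf : f ∈ degSet B pb.dim u n) (k : Fin pb.dim) :
    co pb k (algebraMap F C f * pb.gen ^ n) ∈ degSet B pb.dim u k := by
  have hn : n = n / pb.dim * pb.dim + ((⟨n % pb.dim, Nat.mod_lt _ hm⟩ : Fin pb.dim) : ℕ) := by
    simp only
    rw [mul_comm]
    exact (Nat.div_add_mod n pb.dim).symm
  have hco := co_monomial pb hT f (n / pb.dim) ⟨n % pb.dim, Nat.mod_lt _ hm⟩ k
  rw [← hn] at hco
  rw [hco]
  split_ifs with h
  · subst h
    apply mul_pow_mem_degSet (q := n / pb.dim)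
    simp only
    rw [mul_comm, Nat.div_add_mod]
    exact hf
  · exact zero_mem_degSet hm _

variable (u) in
/-- The graded Kummer subalgebra attached to a root-closed subalgebra `B ⊆ F`. -/
noncomputable def kummerSub (hT : pb.gen ^ pb.dim = algebraMap F C u) (hm : 0 < pb.dim)
    (B : Subalgebra R F) (hB : RootClosed pb.dim B) : Subalgebra R C where
  carrier := {c | ∀ k : Fin pb.dim, co pb k c ∈ degSet B pb.dim u k}
  zero_mem' := fun k => by
    rw [map_zero]
    exact zero_mem_degSet hm _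
  add_mem' := fun {a b} ha hb k => by
    rw [map_add]
    exact add_mem_degSet hB (ha k) (hb k)
  one_mem' := fun k => by
    have h1 : (1 : C) = algebraMap F C 1 * pb.gen ^ 0 := by simp
    rw [h1]
    exact co_monomial_mem pb hT hm (mem_degSet_zero_of_mem B.one_mem) k
  mul_mem' := fun {a b} ha hb k => by
    have hab : a * b = ∑ i : Fin pb.dim, ∑ j : Fin pb.dim,
        algebraMap F C (co pb i a * co pb j b) * pb.gen ^ ((i : ℕ) + (j : ℕ)) := by
      conv_lhs => rw [← sum_co pb a, ← sum_co pb b, Finset.sum_mul_sum]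
      refine Finset.sum_congr rfl fun i _ => Finset.sum_congr rfl fun j _ => ?_
      rw [map_mul, pow_add]
      ring
    rw [hab, map_sum]
    refine sum_mem_degSet hB hm _ _ fun i _ => ?_
    rw [map_sum]
    refine sum_mem_degSet hB hm _ _ fun j _ => ?_
    exact co_monomial_mem pb hT hm (mul_mem_degSet (ha i) (hb j)) k
  algebraMap_mem' := fun r k => by
    have h1 : algebraMap R C r = algebraMap F C (algebraMap R F r) * pb.gen ^ 0 := by
      rw [pow_zero, mul_one, ← IsScalarTower.algebraMap_apply]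
    rw [h1]
    exact co_monomial_mem pb hT hm (mem_degSet_zero_of_mem (B.algebraMap_mem r)) k

variable {pb}

theorem mem_kummerSub {hT : pb.gen ^ pb.dim = algebraMap F C u} {hm : 0 < pb.dim}
    {B : Subalgebra R F} {hB : RootClosed pb.dim B} {c : C} :
    c ∈ kummerSub pb u hT hm B hB ↔ ∀ k : Fin pb.dim, co pb k c ∈ degSet B pb.dim u k :=
  Iff.rfl

theorem monomial_mem_kummerSub (hT : pb.gen ^ pb.dim = algebraMap F C u) (hm : 0 < pb.dim)
    {B : Subalgebra R F} (hB : RootClosed pb.dim B) {n : ℕ} {f : F}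
    (hf : f ∈ degSet B pb.dim u n) :
    algebraMap F C f * pb.gen ^ n ∈ kummerSub pb u hT hm B hB :=
  fun k => co_monomial_mem pb hT hm hf k

theorem algebraMap_mem_kummerSub (hT : pb.gen ^ pb.dim = algebraMap F C u) (hm : 0 < pb.dim)
    {B : Subalgebra R F} (hB : RootClosed pb.dim B) {b : F} (hb : b ∈ B) :
    algebraMap F C b ∈ kummerSub pb u hT hm B hB := by
  have := monomial_mem_kummerSub hT hm hB (n := 0) (mem_degSet_zero_of_mem (m := pb.dim) (u := u) hb)
  simpa using this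

theorem kummerSub_mono (hT : pb.gen ^ pb.dim = algebraMap F C u) (hm : 0 < pb.dim)
    {B B' : Subalgebra R F} (hB : RootClosed pb.dim B) (hB' : RootClosed pb.dim B')
    (h : B ≤ B') : kummerSub pb u hT hm B hB ≤ kummerSub pb u hT hm B' hB' :=
  fun _ hc k => degSet_mono h _ (hc k)

end KummerSub

end Fermat.Agent.S18.H394

end
-- ===== PACK-END S18/H394/Graded.lean

-- ===== PACK-BEGIN A2/Alg/H609/DimOne.lean
section









/-!
# WALL A2 / ALG (helper609): components of the special fibre have dimension one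

`R` a ring, `w ∈ R` generating a maximal ideal, `B` an `R`-algebra integral over `R[X]` via
`X ↦ x`, `p` a prime of `B` containing `w`.  Then every nonzero prime of `B ⧸ p` is maximal
(`dimensionLEOne_quotient`): `B ⧸ p` is integral over `(R/w)[X]`.  Mathlib only.
-/

set_option autoImplicit false

namespace Fermat.Agent.A2.Alg.H609

open Polynomial

/-- A domain integral over `k[X]` (`k` a field) has dimension at most one. -/
theorem dimensionLEOne_of_isIntegral_polynomial {k D : Type*} [Field k] [CommRing D]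
    [IsDomain D] (ψ : k[X] →+* D) (hψ : ψ.IsIntegral) : Ring.DimensionLEOne D := by
  refine ⟨fun {𝔮} h𝔮0 h𝔮 => ?_⟩
  let _ : Algebra k[X] D := ψ.toAlgebra
  obtain ⟨d, hd𝔮, hd0⟩ := Submodule.exists_mem_ne_zero_of_ne_bot h𝔮0
  have h1 : 𝔮.comap (algebraMap k[X] D) ≠ ⊥ :=
    Ideal.comap_ne_bot_of_integral_mem hd0 hd𝔮 (hψ d)
  have h2 : (𝔮.comap (algebraMap k[X] D)).IsPrime := Ideal.comap_isPrime _ 𝔮
  have h3 : (𝔮.comap (algebraMap k[X] D)).IsMaximal := h2.isMaximal h1
  exact Ideal.isMaximal_of_isIntegral_of_isMaximal_comap' ψ hψ 𝔮 h3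

variable {R B : Type*} [CommRing R] [CommRing B] [Algebra R B]

/-- **Components have dimension one.** -/
theorem dimensionLEOne_quotient {w : R} (hw : (Ideal.span {w}).IsMaximal) (x : B)
    (hint : (aeval (R := R) x).toRingHom.IsIntegral)
    (p : Ideal B) [p.IsPrime] (hwp : algebraMap R B w ∈ p) : Ring.DimensionLEOne (B ⧸ p) := by
  let _ : Field (R ⧸ Ideal.span {w}) := Ideal.Quotient.field _
  let ψ₀ : R ⧸ Ideal.span {w} →+* B ⧸ p :=
    Ideal.Quotient.lift (Ideal.span {w}) ((Ideal.Quotient.mk p).comp (algebraMap R B)) (by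
      intro a ha
      obtain ⟨c, rfl⟩ := Ideal.mem_span_singleton'.mp ha
      rw [RingHom.comp_apply, map_mul, map_mul, Ideal.Quotient.eq_zero_iff_mem.mpr hwp,
        mul_zero])
  let ψ : (R ⧸ Ideal.span {w})[X] →+* B ⧸ p := eval₂RingHom ψ₀ (Ideal.Quotient.mk p x)
  let π : R[X] →+* (R ⧸ Ideal.span {w})[X] := mapRingHom (Ideal.Quotient.mk (Ideal.span {w}))
  have hcomp : ψ.comp π = (Ideal.Quotient.mk p).comp (aeval (R := R) x).toRingHom := by
    refine Polynomial.ringHom_ext (fun r => ?_) ?_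
    · simp only [RingHom.comp_apply, ψ, π, ψ₀, coe_mapRingHom, map_C, coe_eval₂RingHom, eval₂_C,
        Ideal.Quotient.lift_mk, AlgHom.toRingHom_eq_coe, RingHom.coe_coe, aeval_C]
    · simp only [RingHom.comp_apply, ψ, π, coe_mapRingHom, map_X, coe_eval₂RingHom, eval₂_X,
        AlgHom.toRingHom_eq_coe, RingHom.coe_coe, aeval_X]
  have h1 : ((Ideal.Quotient.mk p).comp (aeval (R := R) x).toRingHom).IsIntegral :=
    RingHom.IsIntegral.trans _ _ hint
      (RingHom.isIntegral_of_surjective _ Ideal.Quotient.mk_surjective)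
  have h2 : ψ.IsIntegral := RingHom.IsIntegral.tower_top π ψ (by rw [hcomp]; exact h1)
  exact dimensionLEOne_of_isIntegral_polynomial ψ h2

/-- The components of the special fibre are Dedekind. -/
theorem isDedekindDomain_quotient [IsNoetherianRing B] {w : R}
    (hw : (Ideal.span {w}).IsMaximal) (x : B)
    (hint : (aeval (R := R) x).toRingHom.IsIntegral)
    (p : Ideal B) [p.IsPrime] (hwp : algebraMap R B w ∈ p) [IsIntegrallyClosed (B ⧸ p)] :
    IsDedekindDomain (B ⧸ p) := by
  have hdim : Ring.DimensionLEOne (B ⧸ p) := dimensionLEOne_quotient hw x hint p hwp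
  have hded : IsDedekindRing (B ⧸ p) :=
    { toIsNoetherian := inferInstance
      toDimensionLEOne := hdim
      toIsIntegralClosure := inferInstance }
  exact { toIsDomain := inferInstance, toIsDedekindRing := hded }

end Fermat.Agent.A2.Alg.H609

end
-- ===== PACK-END A2/Alg/H609/DimOne.lean

-- ===== PACK-BEGIN A2/H729/RegSeq.lean
section


/-!
# A2 (helper729): the regular-sequence lemma on a normal model

`A` an integrally closed domain, `F` a field containing `A`, `w ∈ A` prime, `s ∈ A` not divisible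
by `w`.  If `w t` and `s t` are integral over `A` then `t` is integral over `A`.
(No noetherian hypothesis, no Krull domains: minimal polynomials and `scaleRoots`.)
-/

set_option autoImplicit false

namespace Fermat.Agent.A2.H729

open Polynomial

variable {A : Type*} [CommRing A] [IsDomain A] [IsIntegrallyClosed A]
  {F : Type*} [Field F] [Algebra A F] [Module.IsTorsionFree A F]

theorem isIntegral_of_smul_of_smul {w s : A} (hw : Prime w) (hs : ¬ w ∣ s) {t : F}
    (h1 : IsIntegral A (w • t)) (h2 : IsIntegral A (s • t)) : IsIntegral A t := by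
  classical
  have hw0 : w ≠ 0 := hw.ne_zero
  have hs0 : s ≠ 0 := fun h => hs (h ▸ dvd_zero w)
  set p := minpoly A (w • t) with hp
  set p' := minpoly A (s • t) with hp'
  have hcomm : s • (w • t) = w • (s • t) := smul_comm s w t
  have hE : p.scaleRoots s = p'.scaleRoots w := by
    rw [hp, hp', ← IsIntegrallyClosed.minpoly_smul hs0 h1, ← IsIntegrallyClosed.minpoly_smul hw0 h2,
      hcomm]
  set n := p.natDegree with hn
  have hn' : p'.natDegree = n := by
    have := congrArg natDegree hE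
    rw [natDegree_scaleRoots, natDegree_scaleRoots] at this
    exact this.symm
  have hcoef : ∀ i, p.coeff i * s ^ (n - i) = p'.coeff i * w ^ (n - i) := by
    intro i
    have := congrArg (fun q => q.coeff i) hE
    simp only [coeff_scaleRoots] at this
    rw [hn'] at this
    exact this
  have hspow : ∀ k : ℕ, ¬ w ∣ s ^ k := fun k h => hs (hw.dvd_of_dvd_pow h)
  have hdvd : ∀ i, w ^ (n - i) ∣ p.coeff i := by
    intro i
    refine hw.pow_dvd_of_dvd_mul_right _ (hspow (n - i)) ?_
    rw [hcoef i]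
    exact Dvd.intro_left _ rfl
  choose c hc using hdvd
  have hmonic : p.Monic := minpoly.monic h1
  -- the monic polynomial annihilating `t`
  set q : A[X] := X ^ n + ∑ i : Fin n, C (c i) * X ^ (i : ℕ) with hq
  have hqm : q.Monic := monic_X_pow_add (degree_sum_fin_lt fun i : Fin n => c i)
  refine ⟨q, hqm, ?_⟩
  have hp_eval : aeval (w • t) p = 0 := minpoly.aeval A (w • t)
  -- expand `p` as a sum over `range (n+1)`
  have hpsum : aeval (w • t) p = ∑ i ∈ Finset.range (n + 1), p.coeff i • (w • t) ^ i := by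
    rw [aeval_eq_sum_range]
  have key : (w ^ n) • (eval₂ (algebraMap A F) t q) = aeval (w • t) p := by
    rw [hpsum, hq, eval₂_add, eval₂_pow, eval₂_X, eval₂_finsetSum, Finset.sum_range_succ,
      Finset.sum_range fun i => p.coeff i • (w • t) ^ i]
    have hlead : p.coeff n = 1 := hmonic.coeff_natDegree
    rw [hlead, one_smul, smul_add, Finset.smul_sum, add_comm]
    congr 1
    · refine Finset.sum_congr rfl fun i _ => ?_
      rw [eval₂_mul, eval₂_C, eval₂_pow, eval₂_X, hc i, _root_.smul_pow, Algebra.smul_def,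
        Algebra.smul_def, Algebra.smul_def, map_mul, map_pow, map_pow, map_pow]
      have hpow : (algebraMap A F w) ^ n =
          (algebraMap A F w) ^ (n - (i : ℕ)) * (algebraMap A F w) ^ (i : ℕ) := by
        rw [← pow_add]
        congr 1
        have := i.2
        omega
      rw [hpow]
      ring
    · rw [_root_.smul_pow]
  have h0 : (w ^ n) • (eval₂ (algebraMap A F) t q) = 0 := by rw [key, hp_eval]
  rcases smul_eq_zero.1 h0 with h | h
  · exact absurd h (pow_ne_zero _ hw0)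
  · exact h

end Fermat.Agent.A2.H729

end
-- ===== PACK-END A2/H729/RegSeq.lean

-- ===== PACK-BEGIN A2/H48/TwoVal.lean
section


/-!
# A2 / piece QEP2, part 1 (helper48): two valuation rings with a common uniformiser

Mathlib-only.  `F` a field, `V₁ ≠ V₂` valuation subrings of `F` whose maximal ideals are both
generated by the same element `ϖ` (both "unramified" over a common base).

* `IsUnif V ϖ` : `ϖ ∈ V`, `ϖ⁻¹ ∉ V`, and every non-unit of `V` is divisible by `ϖ` in `V`;
* `exists_separating` : there is `c` with `c ∈ 𝔪₁` and `c⁻¹ ∈ 𝔪₂`;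
* `exists_approx` : for `f ∈ V₁` with `ϖ ^ k * f ∈ V₂` there is `g ∈ V₁ ∩ V₂` with
  `g ≡ f mod ϖ V₁` and `g ∈ ϖ V₂` (explicit weak approximation).
-/

set_option autoImplicit false

namespace Fermat.Agent.A2.H48

variable {F : Type*} [Field F]

/-- `ϖ` generates the maximal ideal of the valuation subring `V` (elementwise form). -/
structure IsUnif (V : ValuationSubring F) (ϖ : F) : Prop where
  mem : ϖ ∈ V
  inv_not_mem : ϖ⁻¹ ∉ V
  gen : ∀ f ∈ V, f⁻¹ ∉ V → f * ϖ⁻¹ ∈ V

namespace IsUnif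

variable {V : ValuationSubring F} {ϖ : F}

theorem ne_zero (h : IsUnif V ϖ) : ϖ ≠ 0 := by
  rintro rfl
  exact h.inv_not_mem (by simp)

theorem val_lt_one (h : IsUnif V ϖ) : V.valuation ϖ < 1 := by
  have h1 : V.valuation ϖ ≤ 1 := (V.valuation_le_one_iff ϖ).2 h.mem
  rcases lt_or_eq_of_le h1 with h2 | h2
  · exact h2
  · exfalso
    apply h.inv_not_mem
    rw [← V.valuation_le_one_iff, map_inv₀, h2, inv_one]

theorem val_ne_zero (h : IsUnif V ϖ) : V.valuation ϖ ≠ 0 :=
  (Valuation.ne_zero_iff _).2 h.ne_zero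

theorem val_le_of_lt_one (h : IsUnif V ϖ) {f : F} (hf : V.valuation f < 1) :
    V.valuation f ≤ V.valuation ϖ := by
  by_cases hf0 : f = 0
  · subst hf0; simp
  have hfV : f ∈ V := (V.valuation_le_one_iff f).1 hf.le
  have hfinv : f⁻¹ ∉ V := by
    intro hmem
    have h1 : V.valuation f⁻¹ ≤ 1 := (V.valuation_le_one_iff _).2 hmem
    rw [map_inv₀] at h1
    have h2 : V.valuation f ≠ 0 := (Valuation.ne_zero_iff _).2 hf0
    have h3 : 1 ≤ V.valuation f := by
      rwa [inv_le_one₀ (zero_lt_iff.2 h2)] at h1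
    exact absurd hf (not_lt.2 h3)
  have h4 := h.gen f hfV hfinv
  have h5 : V.valuation (f * ϖ⁻¹) ≤ 1 := (V.valuation_le_one_iff _).2 h4
  rw [map_mul, map_inv₀] at h5
  rwa [mul_inv_le_iff₀ (zero_lt_iff.2 h.val_ne_zero), one_mul] at h5

/-- membership in `ϖ V` in terms of the valuation -/
theorem mul_inv_mem_iff (h : IsUnif V ϖ) {f : F} :
    f * ϖ⁻¹ ∈ V ↔ V.valuation f < 1 := by
  rw [← V.valuation_le_one_iff, map_mul, map_inv₀,
    mul_inv_le_iff₀ (zero_lt_iff.2 h.val_ne_zero), one_mul]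
  constructor
  · intro h1; exact lt_of_le_of_lt h1 h.val_lt_one
  · intro h1; exact h.val_le_of_lt_one h1

theorem pow_mul_inv_mem (h : IsUnif V ϖ) {f : F} (k : ℕ) (hf : V.valuation f ≤ V.valuation ϖ ^ k) :
    f * (ϖ ^ k)⁻¹ ∈ V := by
  rw [← V.valuation_le_one_iff, map_mul, map_inv₀, map_pow,
    mul_inv_le_iff₀ (pow_pos (zero_lt_iff.2 h.val_ne_zero) k), one_mul]
  exact hf

end IsUnif

section Two

variable {V₁ V₂ : ValuationSubring F} {ϖ : F}

theorem not_le_of_ne (h₁ : IsUnif V₁ ϖ) (h₂ : IsUnif V₂ ϖ) (hne : V₁ ≠ V₂) : ¬ V₁ ≤ V₂ := by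
  intro hle
  have : ¬ V₂ ≤ V₁ := fun h => hne (le_antisymm hle h)
  obtain ⟨b, hb2, hb1⟩ := SetLike.not_le_iff_exists.1 this
  have hb0 : b ≠ 0 := by rintro rfl; exact hb1 (zero_mem _)
  have hv1 : 1 < V₁.valuation b := by
    rw [← not_le, V₁.valuation_le_one_iff]; exact hb1
  have hv1' : V₁.valuation b⁻¹ < 1 := by
    rw [map_inv₀]
    exact inv_lt_one_of_one_lt₀ hv1
  have h3 : b⁻¹ * ϖ⁻¹ ∈ V₁ := h₁.mul_inv_mem_iff.2 hv1'
  have h4 : b⁻¹ * ϖ⁻¹ ∈ V₂ := hle h3
  apply h₂.inv_not_mem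
  have : ϖ⁻¹ = b * (b⁻¹ * ϖ⁻¹) := by field_simp
  rw [this]
  exact mul_mem hb2 h4

/-- Two distinct valuation rings with the same uniformiser are incomparable: there is `c` in the
maximal ideal of `V₁` whose inverse lies in the maximal ideal of `V₂`. -/
theorem exists_separating (h₁ : IsUnif V₁ ϖ) (h₂ : IsUnif V₂ ϖ) (hne : V₁ ≠ V₂) :
    ∃ c : F, c ≠ 0 ∧ V₁.valuation c < 1 ∧ V₂.valuation c⁻¹ < 1 := by
  obtain ⟨a, ha1, ha2⟩ := SetLike.not_le_iff_exists.1 (not_le_of_ne h₁ h₂ hne)
  obtain ⟨b, hb2, hb1⟩ := SetLike.not_le_iff_exists.1 (not_le_of_ne h₂ h₁ (Ne.symm hne))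
  have ha0 : a ≠ 0 := by rintro rfl; exact ha2 (zero_mem _)
  have hb0 : b ≠ 0 := by rintro rfl; exact hb1 (zero_mem _)
  have hv1a : V₁.valuation a ≤ 1 := (V₁.valuation_le_one_iff a).2 ha1
  have hv2b : V₂.valuation b ≤ 1 := (V₂.valuation_le_one_iff b).2 hb2
  have hv1b : 1 < V₁.valuation b := by
    rw [← not_le, V₁.valuation_le_one_iff]; exact hb1
  have hv2a : 1 < V₂.valuation a := by
    rw [← not_le, V₂.valuation_le_one_iff]; exact ha2
  refine ⟨a * b⁻¹, mul_ne_zero ha0 (inv_ne_zero hb0), ?_, ?_⟩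
  · rw [map_mul, map_inv₀]
    calc V₁.valuation a * (V₁.valuation b)⁻¹ ≤ 1 * (V₁.valuation b)⁻¹ :=
          mul_le_mul_left hv1a _
      _ < 1 := by rw [one_mul]; exact inv_lt_one_of_one_lt₀ hv1b
  · rw [mul_inv, inv_inv, map_mul, map_inv₀]
    calc (V₂.valuation a)⁻¹ * V₂.valuation b ≤ (V₂.valuation a)⁻¹ * 1 :=
          mul_le_mul_right hv2b _
      _ < 1 := by rw [mul_one]; exact inv_lt_one_of_one_lt₀ hv2a

/-- Explicit weak approximation: an element `f ∈ V₁` can be corrected, modulo `ϖ V₁`, to an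
element of `V₁ ∩ ϖ V₂`. -/
theorem exists_approx (h₁ : IsUnif V₁ ϖ) (h₂ : IsUnif V₂ ϖ) (hne : V₁ ≠ V₂)
    {f : F} (hf : f ∈ V₁) {k : ℕ} (hk : ϖ ^ k * f ∈ V₂) :
    ∃ g : F, g ∈ V₁ ∧ (g - f) * ϖ⁻¹ ∈ V₁ ∧ g * ϖ⁻¹ ∈ V₂ := by
  obtain ⟨c, hc0, hc1, hc2⟩ := exists_separating h₁ h₂ hne
  set n := k + 1 with hn
  have hcn1 : V₁.valuation (c ^ n) < 1 := by
    rw [map_pow]; exact pow_lt_one₀ zero_le hc1 (by omega)
  have hcn2 : V₂.valuation ((c⁻¹) ^ n) < 1 := by
    rw [map_pow]; exact pow_lt_one₀ zero_le hc2 (by omega)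
  have hu1 : V₁.valuation (1 + c ^ n) = 1 := Valuation.map_one_add_of_lt _ hcn1
  have hu2 : V₂.valuation (1 + (c⁻¹) ^ n) = 1 := Valuation.map_one_add_of_lt _ hcn2
  have hne1 : 1 + c ^ n ≠ 0 := by
    intro h; rw [h, map_zero] at hu1; exact zero_ne_one hu1
  have hne2 : 1 + (c⁻¹) ^ n ≠ 0 := by
    intro h; rw [h, map_zero] at hu2; exact zero_ne_one hu2
  set e := (1 + c ^ n)⁻¹ with he
  have he1 : V₁.valuation e = 1 := by rw [he, map_inv₀, hu1, inv_one]
  have hee : e - 1 = -(c ^ n) * e := by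
    rw [he]; field_simp; ring
  have he1' : V₁.valuation (e - 1) < 1 := by
    rw [hee, map_mul, Valuation.map_neg, he1, mul_one]; exact hcn1
  have hee2 : e = (c⁻¹) ^ n * (1 + (c⁻¹) ^ n)⁻¹ := by
    have hcn0 : c ^ n ≠ 0 := pow_ne_zero _ hc0
    have h3 : 1 + (c ^ n)⁻¹ ≠ 0 := by rwa [inv_pow] at hne2
    rw [he, inv_pow, eq_comm, ← div_eq_mul_inv, div_eq_iff h3, ← div_eq_inv_mul, 
      eq_div_iff hne1]
    field_simp
    ring
  have he2 : V₂.valuation e ≤ V₂.valuation ϖ ^ n := by
    rw [hee2, map_mul, map_inv₀, hu2, inv_one, mul_one, map_pow]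
    exact pow_le_pow_left₀ zero_le (h₂.val_le_of_lt_one hc2) n
  refine ⟨f * e, ?_, ?_, ?_⟩
  · exact mul_mem hf ((V₁.valuation_le_one_iff e).1 he1.le)
  · rw [h₁.mul_inv_mem_iff]
    have : f * e - f = f * (e - 1) := by ring
    rw [this, map_mul]
    calc V₁.valuation f * V₁.valuation (e - 1) ≤ 1 * V₁.valuation (e - 1) :=
          mul_le_mul_left ((V₁.valuation_le_one_iff f).2 hf) _
      _ < 1 := by rw [one_mul]; exact he1'
  · rw [h₂.mul_inv_mem_iff]
    have hk' : V₂.valuation ϖ ^ k * V₂.valuation f ≤ 1 := by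
      have := (V₂.valuation_le_one_iff _).2 hk
      rwa [map_mul, map_pow] at this
    rw [map_mul]
    calc V₂.valuation f * V₂.valuation e ≤ V₂.valuation f * V₂.valuation ϖ ^ n :=
          mul_le_mul_right he2 _
      _ = (V₂.valuation ϖ ^ k * V₂.valuation f) * V₂.valuation ϖ := by
          rw [hn, pow_succ, mul_comm (V₂.valuation ϖ ^ k) (V₂.valuation f), mul_assoc]
      _ ≤ 1 * V₂.valuation ϖ := mul_le_mul_left hk' _
      _ < 1 := by rw [one_mul]; exact h₂.val_lt_one

end Two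

end Fermat.Agent.A2.H48

end
-- ===== PACK-END A2/H48/TwoVal.lean

-- ===== PACK-BEGIN Lib/HI/H864/RelNormMult.lean
section


/-!
# Lib / HI (helper864): multiplicity of a prime in a relative ideal norm

`R ⊆ S` Dedekind domains, `S` finite over `R`, `p` a maximal ideal of `R`.  For every nonzero
ideal `I` of `S`:
`multiplicity p (relNorm R I) = ∑_{q | p} f(q | p) * multiplicity q I`.
-/

set_option autoImplicit false
set_option linter.unusedSectionVars false
set_option linter.style.haveILetI false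
set_option linter.unusedVariables false

noncomputable section

open Ideal

namespace Fermat.Agent.Lib.HI.H864

section

variable {R S : Type*} [CommRing R] [IsDedekindDomain R] [CommRing S] [IsDedekindDomain S]
  [Algebra R S] [Module.Finite R S] [Module.IsTorsionFree R S]

omit [IsDedekindDomain R] [Module.Finite R S] [Module.IsTorsionFree R S] in
theorem multiplicity_prime_prime {P Q : Ideal S} (hP : P.IsPrime) (hP0 : P ≠ ⊥)
    (hQ : Q.IsPrime) (hQ0 : Q ≠ ⊥) :
    multiplicity Q P = if Q = P then 1 else 0 := by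
  split_ifs with h
  · subst h
    exact multiplicity_self
  · rw [multiplicity_eq_zero, Ideal.dvd_iff_le]
    intro hle
    have hPmax : P.IsMaximal := hP.isMaximal hP0
    exact h (hPmax.eq_of_le hQ.ne_top hle).symm

omit [IsDedekindDomain R] [Module.Finite R S] [Module.IsTorsionFree R S] [Algebra R S] in
theorem multiplicity_top {Q : Ideal S} (hQ : Q.IsPrime) : multiplicity Q (⊤ : Ideal S) = 0 := by
  rw [multiplicity_eq_zero, Ideal.dvd_iff_le]
  intro hle
  exact hQ.ne_top (top_le_iff.mp hle)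

variable [PerfectField (FractionRing R)]

theorem multiplicity_relNorm_prime (p : Ideal R) [hp : p.IsMaximal] (hp0 : p ≠ ⊥)
    [Fintype (p.primesOver S)] (P : Ideal S) (hP : P.IsPrime) (hP0 : P ≠ ⊥) :
    multiplicity p (Ideal.relNorm R P)
      = ∑ q : p.primesOver S, q.1.inertiaDeg R * multiplicity q.1 P := by
  classical
  haveI hPmax : P.IsMaximal := hP.isMaximal hP0
  set p₀ : Ideal R := P.under R with hp₀
  haveI : P.LiesOver p₀ := ⟨rfl⟩
  haveI hp₀max : p₀.IsMaximal := Ideal.IsMaximal.under R P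
  have hnorm : Ideal.relNorm R P = p₀ ^ P.inertiaDeg R := Ideal.relNorm_eq_pow_of_isMaximal P p₀
  have hq0 : ∀ q : p.primesOver S, q.1 ≠ ⊥ := by
    intro q hq
    have h1 : q.1.under R = p := (q.2.2.over).symm
    rw [hq] at h1
    apply hp0
    rw [← h1]
    exact Ideal.under_bot R S
  by_cases hpp : p₀ = p
  · have hmem : P ∈ p.primesOver S := ⟨hP, ⟨hpp.symm⟩⟩
    rw [hnorm, hpp, multiplicity_pow_self hp0
      (fun hu => hp.ne_top (Ideal.isUnit_iff.mp hu))]
    rw [Finset.sum_eq_single (⟨P, hmem⟩ : p.primesOver S)]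
    · simp
    · intro q _ hq
      rw [multiplicity_prime_prime hP hP0 q.2.1 (hq0 q), if_neg, mul_zero]
      intro h
      exact hq (Subtype.ext h)
    · intro h
      exact absurd (Finset.mem_univ _) h
  · have h1 : multiplicity p (Ideal.relNorm R P) = 0 := by
      rw [multiplicity_eq_zero, Ideal.dvd_iff_le, hnorm]
      intro hle
      have h2 : p₀ ≤ p := hp.isPrime.le_of_pow_le hle
      exact hpp (hp₀max.eq_of_le hp.ne_top h2)
    rw [h1, eq_comm]
    refine Finset.sum_eq_zero fun q _ => ?_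
    rw [multiplicity_prime_prime hP hP0 q.2.1 (hq0 q), if_neg, mul_zero]
    intro h
    apply hpp
    have h3 : q.1.under R = p := (q.2.2.over).symm
    rw [hp₀, ← h, h3]

theorem multiplicity_relNorm_eq_sum (p : Ideal R) [hp : p.IsMaximal] (hp0 : p ≠ ⊥)
    [Fintype (p.primesOver S)] (I : Ideal S) (hI : I ≠ ⊥) :
    multiplicity p (Ideal.relNorm R I)
      = ∑ q : p.primesOver S, q.1.inertiaDeg R * multiplicity q.1 I := by
  classical
  have hpprime : Prime p := Ideal.prime_of_isPrime hp0 hp.isPrime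
  have hq0 : ∀ q : p.primesOver S, q.1 ≠ ⊥ := by
    intro q hq
    have h1 : q.1.under R = p := (q.2.2.over).symm
    rw [hq] at h1
    apply hp0
    rw [← h1]
    exact Ideal.under_bot R S
  revert hI
  refine UniqueFactorizationMonoid.induction_on_prime
    (P := fun I : Ideal S => I ≠ ⊥ →
      multiplicity p (Ideal.relNorm R I)
        = ∑ q : p.primesOver S, q.1.inertiaDeg R * multiplicity q.1 I) I ?_ ?_ ?_
  · intro h
    exact absurd rfl h
  · intro J hJ _
    rw [Ideal.isUnit_iff] at hJ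
    subst hJ
    rw [Ideal.relNorm_top, multiplicity_top hp.isPrime, eq_comm]
    refine Finset.sum_eq_zero fun q _ => ?_
    rw [multiplicity_top q.2.1, mul_zero]
  · intro J P hJ hP ih _
    have hJ' : J ≠ ⊥ := hJ
    have hPprime : P.IsPrime := Ideal.isPrime_of_prime hP
    have hP0 : P ≠ ⊥ := hP.ne_zero
    have hfin : FiniteMultiplicity p (Ideal.relNorm R P * Ideal.relNorm R J) := by
      apply FiniteMultiplicity.of_prime_left hpprime
      rw [Ne, mul_eq_zero, not_or]
      constructor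
      · rw [Ideal.zero_eq_bot, Ideal.relNorm_eq_bot_iff]; exact hP0
      · rw [Ideal.zero_eq_bot, Ideal.relNorm_eq_bot_iff]; exact hJ'
    rw [map_mul, multiplicity_mul hpprime hfin, ih hJ', multiplicity_relNorm_prime p hp0 P hPprime hP0,
      ← Finset.sum_add_distrib]
    refine Finset.sum_congr rfl fun q _ => ?_
    have hqprime : Prime q.1 := Ideal.prime_of_isPrime (hq0 q) q.2.1
    have hfin' : FiniteMultiplicity q.1 (P * J) :=
      FiniteMultiplicity.of_prime_left hqprime (mul_ne_zero hP0 hJ')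
    rw [multiplicity_mul hqprime hfin', mul_add]

end

end Fermat.Agent.Lib.HI.H864

end
end
-- ===== PACK-END Lib/HI/H864/RelNormMult.lean

-- ===== PACK-BEGIN A2/IF/H429/Hilbert.lean
section


/-!
# A2 / IF (helper429): the inertia field is unramified (finite level, Mathlib only)

Companion of Mathlib's `IsDecompositionField.ramificationIdx_eq` for the inertia field:
if `E` is the inertia field of `P` in the finite Galois extension `L/K` and `𝓟E` is the prime of
`E` below `P`, then `e(𝓟E | p) = 1`.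
-/

set_option autoImplicit false
set_option linter.style.haveILetI false
set_option linter.unusedSectionVars false

open MulAction Pointwise Ideal NumberField IsDedekindDomain

namespace Fermat.Agent.A2.IF.H429

section

variable (A K L : Type*) {B : Type*} [Field K] [Field L] [Algebra K L] [CommRing A] [CommRing B]
  [Algebra A B] {p : Ideal A} (P : Ideal B) [P.LiesOver p]

variable [Algebra A K] [IsFractionRing A K] [Algebra A L] [IsScalarTower A K L] [Algebra B L]
  [IsScalarTower A B L] [IsFractionRing B L] [MulSemiringAction Gal(L/K) B]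
  [SMulDistribClass Gal(L/K) B L]

variable (E 𝓞E : Type*) [Field E] [Algebra E L] [IsInertiaField K L P E] [CommRing 𝓞E]
  [Algebra 𝓞E E] [IsFractionRing 𝓞E E] [Algebra 𝓞E B] [Algebra 𝓞E L] [IsScalarTower 𝓞E E L]
  [IsScalarTower 𝓞E B L] (𝓟E : Ideal 𝓞E) [hE : P.LiesOver 𝓟E]

variable [IsGalois K L] [IsDedekindDomain A] [IsDedekindDomain B] [Module.Finite A B]
  [Module.IsTorsionFree A B] [Algebra A 𝓞E] [Module.Finite A 𝓞E] [IsScalarTower A 𝓞E B]
  [IsDedekindDomain 𝓞E] [𝓟E.LiesOver p]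

variable [FiniteDimensional K L] [Ring.HasFiniteQuotients A] [𝓟E.IsMaximal] [P.IsMaximal]

omit [𝓟E.LiesOver p] in
include K L E P in
theorem inertiaField_ramificationIdxIn_eq (hp : p ≠ ⊥) [PerfectField 𝓟E.ResidueField] :
    ramificationIdxIn 𝓟E B = p.ramificationIdxIn B := by
  have inst₁ : Module.Finite 𝓞E B := Module.Finite.right A 𝓞E B
  have inst₂ : Module.IsTorsionFree 𝓞E B := by
    rw [Module.isTorsionFree_iff_faithfulSMul]
    apply Algebra.IsAlgebraic.faithfulSMul_tower_top A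
  have inst₄ : IsGaloisGroup Gal(L/K) A B := .of_isFractionRing _ _ _ K L
  have inst₅ : IsGaloisGroup (inertia Gal(L/K) P) 𝓞E B := .of_isFractionRing _ _ _ E L
  have : p.IsMaximal := over_def P p ▸ Ideal.IsMaximal.under A P
  have : Finite (A ⧸ p) := Ring.HasFiniteQuotients.finiteQuotient hp
  have h1 := card_inertia_eq_ramificationIdxIn (G := Gal(L/K)) p P
  have h2 := card_inertia_eq_ramificationIdxIn (G := inertia Gal(L/K) P) 𝓟E P
  rw [← h1, ← h2]
  have h3 : (P.inertia (inertia Gal(L/K) P)) = ⊤ := by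
    rw [eq_top_iff]
    intro g _
    exact Ideal.coe_mem_inertia.mp g.2
  rw [h3]
  exact Nat.card_congr Subgroup.topEquiv.toEquiv

include K L E P in
/-- Let `E` be the inertia field of `P` in `L/K` and `𝓟E` the prime of `E` below `P`.  Then
`𝓟E` is unramified over `K`. -/
theorem inertiaField_ramificationIdx_eq (hp : p ≠ ⊥) [PerfectField 𝓟E.ResidueField] :
    𝓟E.ramificationIdx A = 1 := by
  have inst₁ : Module.Finite 𝓞E B := Module.Finite.right A 𝓞E B
  have inst₂ : Module.IsTorsionFree 𝓞E B := by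
    rw [Module.isTorsionFree_iff_faithfulSMul]
    apply Algebra.IsAlgebraic.faithfulSMul_tower_top A
  have inst₃ : Module.IsTorsionFree A 𝓞E := Module.IsTorsionFree.of_faithfulSMul _ _ B
  have inst₄ : IsGaloisGroup Gal(L/K) A B := .of_isFractionRing _ _ _ K L
  have inst₅ : IsGaloisGroup (inertia Gal(L/K) P) 𝓞E B := .of_isFractionRing _ _ _ E L
  have := ramificationIdx_tower (R := A) 𝓟E P
  rwa [← ramificationIdxIn_eq_ramificationIdx 𝓟E P (inertia Gal(L/K) P),
    inertiaField_ramificationIdxIn_eq A K L P E 𝓞E 𝓟E hp,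
    ramificationIdxIn_eq_ramificationIdx p P Gal(L/K),
    right_eq_mul₀ <| (ramificationIdx_pos P A).ne'] at this

end


/-- Finite level form of "the inertia field is unramified": an element of the finite Galois
number field `F` fixed by the inertia group of `P` has the `P`-adic value of a power of `q`. -/
theorem exists_zpow_valuation_eq_one_of_fixed (F : Type*) [Field F] [NumberField F] [IsGalois ℚ F]
    (w : HeightOneSpectrum (𝓞 F)) (q : ℕ) (hq : q.Prime) (hqP : (q : 𝓞 F) ∈ w.asIdeal)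
    (y : F) (hy : y ≠ 0) (hfix : ∀ τ ∈ w.asIdeal.inertia Gal(F/ℚ), τ y = y) :
    ∃ k : ℤ, w.valuation F (y / (q : F) ^ k) = 1 := by
  classical
  set P : Ideal (𝓞 F) := w.asIdeal with hP
  haveI : P.IsPrime := w.isPrime
  haveI : P.IsMaximal := w.isMaximal
  let T : IntermediateField ℚ F := FixedPoints.intermediateField (inertia Gal(F/ℚ) P)
  let 𝓟T : Ideal (𝓞 T) := P.under (𝓞 T)
  let p : Ideal ℤ := P.under ℤ
  have hqp : (q : ℤ) ∈ p := by
    show algebraMap ℤ (𝓞 F) (q : ℤ) ∈ P
    simpa using hqP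
  have hp : p ≠ ⊥ := by
    intro h
    rw [h, Ideal.mem_bot] at hqp
    exact hq.ne_zero (by exact_mod_cast hqp)
  have hpq : p = Ideal.span {(q : ℤ)} := by
    have hmax : (Ideal.span {(q : ℤ)}).IsMaximal :=
      PrincipalIdealRing.isMaximal_of_irreducible
        (Nat.prime_iff_prime_int.mp hq).irreducible
    have hle : Ideal.span {(q : ℤ)} ≤ p := by
      rw [Ideal.span_singleton_le_iff_mem]; exact hqp
    exact (hmax.eq_of_le (Ideal.IsPrime.ne_top inferInstance) hle).symm
  have h𝓟T0 : 𝓟T ≠ ⊥ := Ideal.ne_bot_of_liesOver_of_ne_bot hp 𝓟T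
  haveI : 𝓟T.IsMaximal := Ring.DimensionLEOne.maximalOfPrime h𝓟T0 inferInstance
  haveI : Finite (𝓞 T ⧸ 𝓟T) := Ring.HasFiniteQuotients.finiteQuotient h𝓟T0
  have he : 𝓟T.ramificationIdx ℤ = 1 :=
    inertiaField_ramificationIdx_eq ℤ ℚ F P T (𝓞 T) 𝓟T hp
  let v : HeightOneSpectrum ℤ := ⟨p, inferInstance, hp⟩
  let wT : HeightOneSpectrum (𝓞 T) := ⟨𝓟T, inferInstance, h𝓟T0⟩
  haveI : wT.asIdeal.LiesOver v.asIdeal := (inferInstance : 𝓟T.LiesOver p)
  haveI : w.asIdeal.LiesOver wT.asIdeal := (inferInstance : P.LiesOver 𝓟T)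
  have he' : v.asIdeal.ramificationIdx' wT.asIdeal = 1 := by
    rw [Ideal.ramificationIdx'_eq_ramificationIdx v.asIdeal wT.asIdeal hp]
    exact he
  -- value of `q`
  have hvq : v.valuation ℚ (q : ℚ) = WithZero.exp (-1 : ℤ) := by
    have h1 : v.valuation ℚ ((q : ℤ) : ℚ) = v.intValuation (q : ℤ) :=
      v.valuation_of_algebraMap (q : ℤ)
    rw [Int.cast_natCast] at h1
    rw [h1]
    exact v.intValuation_singleton (by exact_mod_cast hq.ne_zero) hpq
  have hwq : wT.valuation T (q : T) = WithZero.exp (-1 : ℤ) := by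
    have h1 := HeightOneSpectrum.valuation_liesOver T v wT (q : ℚ)
    rw [he', pow_one, hvq] at h1
    rw [h1]
    simp
  -- `y` in `T`
  let yT : T := ⟨y, fun g => hfix g.1 g.2⟩
  have hyT : yT ≠ 0 := fun h => hy (congrArg Subtype.val h)
  have hwy : wT.valuation T yT ≠ 0 := (Valuation.ne_zero_iff _).mpr hyT
  refine ⟨- WithZero.log (wT.valuation T yT), ?_⟩
  have hz : wT.valuation T (yT / (q : T) ^ (- WithZero.log (wT.valuation T yT))) = 1 := by
    rw [map_div₀, map_zpow₀, hwq, ← WithZero.exp_zsmul]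
    simp only [smul_eq_mul, mul_neg, mul_one, neg_neg]
    rw [WithZero.exp_log hwy]
    exact div_self hwy
  have h2 := HeightOneSpectrum.valuation_liesOver F wT w
    (yT / (q : T) ^ (- WithZero.log (wT.valuation T yT)))
  rw [hz, one_pow] at h2
  have h3 : algebraMap T F (yT / (q : T) ^ (- WithZero.log (wT.valuation T yT))) =
      y / (q : F) ^ (- WithZero.log (wT.valuation T yT)) := by
    rw [map_div₀, map_zpow₀, map_natCast]
    rfl
  rw [← h3]
  exact h2.symm


end Fermat.Agent.A2.IF.H429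

end
-- ===== PACK-END A2/IF/H429/Hilbert.lean

-- ===== PACK-BEGIN A2/Mod/H142/S2Core.lean
section









/-!
# A2 / MODASM sub-assembly S2 (components normal) — abstract core (helper142)

Mathlib-only.  `F` a field, `V` a valuation subring of `F`, `B ⊆ V` a subalgebra (the chart),
`p = B ∩ 𝔪_V` (the component of the special fibre cut out by `V`).

* `isIntegrallyClosed_quotient_of_normal` (**core A**): if the image of `B` in the residue field
  `κ(V)` is integrally closed in `κ(V)` (elementwise form `NormalIn`), then `B ⧸ p` is an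
  integrally closed domain.
* `normalIn_transfer` (**core B**): transfer of `NormalIn` along a ring homomorphism
  `γ : F₀ → F` (a degeneracy map) with `γ⁻¹ V = V₀`, `γ B₀ ⊆ B`, residue degree one
  (`V = γ V₀ + 𝔪_V`) and `B` integral over `γ B₀` MODULO `𝔪_V`.

No integrality of `B` over `γ B₀` itself is needed (it fails in the chart at infinity).
-/

set_option autoImplicit false

noncomputable section

open Polynomial

namespace Fermat.Agent.A2.Mod.H142

section Integral

variable {A₀ A K : Type*} [CommRing A₀] [CommRing A] [CommRing K]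

/-- Transitivity of integrality for two ring homomorphisms into a common target. -/
theorem isIntegralElem_trans (ρ₀ : A₀ →+* K) (ρ : A →+* K)
    (h : ∀ a, ρ₀.IsIntegralElem (ρ a)) {x : K} (hx : ρ.IsIntegralElem x) :
    ρ₀.IsIntegralElem x := by
  let _ : Algebra A₀ K := ρ₀.toAlgebra
  have hmem : ∀ a, ρ a ∈ (integralClosure A₀ K).toSubring := fun a => h a
  obtain ⟨p, hp, hpx⟩ := hx
  let ρ' : A →+* (integralClosure A₀ K).toSubring := ρ.codRestrict _ hmem
  have hx' : IsIntegral (integralClosure A₀ K) x := by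
    refine ⟨p.map ρ', hp.map _, ?_⟩
    rw [eval₂_map]
    exact hpx
  exact isIntegral_trans x hx'

/-- A monic relation in `Fin`-indexed form gives integrality. -/
theorem isIntegralElem_of_fin (ρ : A →+* K) {x : K} (n : ℕ) (c : Fin n → A)
    (h : x ^ n + ∑ i : Fin n, ρ (c i) * x ^ (i : ℕ) = 0) : ρ.IsIntegralElem x := by
  refine ⟨X ^ n + ∑ i : Fin n, C (c i) * X ^ (i : ℕ),
    Polynomial.monic_X_pow_add (Polynomial.degree_sum_fin_lt c), ?_⟩
  rw [eval₂_add, eval₂_pow, eval₂_X, eval₂_finsetSum]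
  simpa using h

/-- Integrality gives a monic relation in `Fin`-indexed form. -/
theorem exists_fin_of_isIntegralElem (ρ : A →+* K) {x : K} (hx : ρ.IsIntegralElem x) :
    ∃ (n : ℕ) (c : Fin n → A), x ^ n + ∑ i : Fin n, ρ (c i) * x ^ (i : ℕ) = 0 := by
  obtain ⟨p, hp, hpx⟩ := hx
  refine ⟨p.natDegree, fun i => p.coeff i, ?_⟩
  have h1 := hp.as_sum
  have h2 : eval₂ ρ x p = x ^ p.natDegree + ∑ i : Fin p.natDegree, ρ (p.coeff i) * x ^ (i : ℕ) := by
    conv_lhs => rw [h1]
    rw [eval₂_add, eval₂_pow, eval₂_X, eval₂_finsetSum,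
      ← Fin.sum_univ_eq_sum_range (fun i => eval₂ ρ x (C (p.coeff i) * X ^ i)) p.natDegree]
    simp
  rw [← h2]
  exact hpx

end Integral

section Val

variable {R F : Type*} [CommRing R] [Field F] [Algebra R F]

/-- The residue class map `B → κ(V)` of a subalgebra `B ⊆ V`. -/
def resMap (V : ValuationSubring F) (B : Subalgebra R F) (hBV : ∀ b ∈ B, b ∈ V) :
    B →+* IsLocalRing.ResidueField V :=
  (IsLocalRing.residue V).comp
    { toFun := fun b => ⟨b.1, hBV b.1 b.2⟩
      map_one' := rfl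
      map_mul' := fun _ _ => rfl
      map_zero' := rfl
      map_add' := fun _ _ => rfl }

theorem residue_eq_zero_iff_val (V : ValuationSubring F) (f : V) :
    IsLocalRing.residue V f = 0 ↔ V.valuation (f : F) < 1 := by
  rw [IsLocalRing.residue_eq_zero_iff]
  exact V.valuation_lt_one_iff f

theorem resMap_apply (V : ValuationSubring F) (B : Subalgebra R F) (hBV : ∀ b ∈ B, b ∈ V)
    (b : B) : resMap V B hBV b = IsLocalRing.residue V ⟨b.1, hBV b.1 b.2⟩ := rfl

theorem resMap_eq_zero_iff (V : ValuationSubring F) (B : Subalgebra R F)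
    (hBV : ∀ b ∈ B, b ∈ V) (b : B) : resMap V B hBV b = 0 ↔ V.valuation (b : F) < 1 := by
  rw [resMap_apply, residue_eq_zero_iff_val]

/-- `f̄ = ḡ` in `κ(V)` iff `f - g ∈ 𝔪_V`. -/
theorem residue_eq_iff_val (V : ValuationSubring F) (f g : V) :
    IsLocalRing.residue V f = IsLocalRing.residue V g ↔ V.valuation ((f : F) - g) < 1 := by
  rw [← sub_eq_zero, ← map_sub, residue_eq_zero_iff_val]
  rfl

/-- The image of `B` in the residue field of `V` is integrally closed in it (elementwise form;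
the shape of `Mod.GoodRedAt.normal`). -/
def NormalIn (V : ValuationSubring F) (B : Set F) : Prop :=
  ∀ f ∈ V, (∃ (n : ℕ) (c : Fin n → F), (∀ i, c i ∈ B) ∧
      V.valuation (f ^ n + ∑ i : Fin n, c i * f ^ (i : ℕ)) < 1) →
    ∃ b ∈ B, V.valuation (f - b) < 1

/-- A monic relation modulo `𝔪_V` with coefficients in `B` is integrality of the residue class
over `B` (via `resMap`). -/
theorem isIntegralElem_residue_of_rel (V : ValuationSubring F) (B : Subalgebra R F)
    (hBV : ∀ b ∈ B, b ∈ V) (f : V) (n : ℕ) (c : Fin n → F) (hc : ∀ i, c i ∈ B)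
    (h : V.valuation ((f : F) ^ n + ∑ i : Fin n, c i * (f : F) ^ (i : ℕ)) < 1) :
    (resMap V B hBV).IsIntegralElem (IsLocalRing.residue V f) := by
  refine isIntegralElem_of_fin _ n (fun i => ⟨c i, hc i⟩) ?_
  have h1 : (f ^ n + ∑ i : Fin n, (⟨c i, hBV _ (hc i)⟩ : V) * f ^ (i : ℕ) : V) =
      (⟨(f : F) ^ n + ∑ i : Fin n, c i * (f : F) ^ (i : ℕ),
        V.add_mem _ _ (V.pow_mem f.2 n)
          (V.toSubring.sum_mem fun i _ => V.mul_mem _ _ (hBV _ (hc i)) (V.pow_mem f.2 _))⟩ : V) := by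
    apply Subtype.ext
    push_cast
    rfl
  have h2 : IsLocalRing.residue V (f ^ n + ∑ i : Fin n, (⟨c i, hBV _ (hc i)⟩ : V) * f ^ (i : ℕ))
      = 0 := by
    rw [h1, residue_eq_zero_iff_val]
    exact h
  rw [map_add, map_pow, map_sum] at h2
  simp only [map_mul, map_pow] at h2
  exact h2

/-- Integrality of a residue class over `B` gives a monic relation modulo `𝔪_V`. -/
theorem exists_rel_of_isIntegralElem_residue (V : ValuationSubring F) (B : Subalgebra R F)
    (hBV : ∀ b ∈ B, b ∈ V) (f : V)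
    (h : (resMap V B hBV).IsIntegralElem (IsLocalRing.residue V f)) :
    ∃ (n : ℕ) (c : Fin n → F), (∀ i, c i ∈ B) ∧
      V.valuation ((f : F) ^ n + ∑ i : Fin n, c i * (f : F) ^ (i : ℕ)) < 1 := by
  obtain ⟨n, c, hrel⟩ := exists_fin_of_isIntegralElem _ h
  refine ⟨n, fun i => (c i : F), fun i => (c i).2, ?_⟩
  have h1 : (f ^ n + ∑ i : Fin n, (⟨(c i : F), hBV _ (c i).2⟩ : V) * f ^ (i : ℕ) : V) =
      (⟨(f : F) ^ n + ∑ i : Fin n, (c i : F) * (f : F) ^ (i : ℕ),
        V.add_mem _ _ (V.pow_mem f.2 n)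
          (V.toSubring.sum_mem fun i _ =>
            V.mul_mem _ _ (hBV _ (c i).2) (V.pow_mem f.2 _))⟩ : V) := by
    apply Subtype.ext
    push_cast
    rfl
  have h2 : IsLocalRing.residue V (f ^ n + ∑ i : Fin n, (⟨(c i : F), hBV _ (c i).2⟩ : V) * f ^ (i : ℕ))
      = 0 := by
    rw [map_add, map_pow, map_sum]
    simp only [map_mul, map_pow]
    exact hrel
  rw [h1, residue_eq_zero_iff_val] at h2
  exact h2

/-- **Core A.**  If the image of `B` in `κ(V)` is integrally closed in `κ(V)`, then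
`B ⧸ (B ∩ 𝔪_V)` is an integrally closed domain. -/
theorem isIntegrallyClosed_quotient_of_normal
    (V : ValuationSubring F) (B : Subalgebra R F) (hBV : ∀ b ∈ B, b ∈ V)
    (p : Ideal B) (hp : ∀ b : B, b ∈ p ↔ V.valuation (b : F) < 1)
    (hnorm : NormalIn V (B : Set F)) :
    IsIntegrallyClosed (B ⧸ p) := by
  classical
  set ρ := resMap V B hBV with hρ
  have hker : ∀ b : B, b ∈ p → ρ b = 0 := fun b hb =>
    (resMap_eq_zero_iff V B hBV b).2 ((hp b).1 hb)
  let ρq : B ⧸ p →+* IsLocalRing.ResidueField V := Ideal.Quotient.lift p ρ hker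
  have hρq : ∀ b : B, ρq (Ideal.Quotient.mk p b) = ρ b := fun b => Ideal.Quotient.lift_mk p ρ hker
  have hinj : Function.Injective ρq := by
    rw [injective_iff_map_eq_zero]
    intro a ha
    obtain ⟨b, rfl⟩ := Ideal.Quotient.mk_surjective a
    rw [hρq] at ha
    exact Ideal.Quotient.eq_zero_iff_mem.2 ((hp b).2 ((resMap_eq_zero_iff V B hBV b).1 ha))
  have : IsDomain (B ⧸ p) := hinj.isDomain ρq
  rw [isIntegrallyClosed_iff (FractionRing (B ⧸ p))]
  intro x hx
  let ρK : FractionRing (B ⧸ p) →+* IsLocalRing.ResidueField V := IsFractionRing.lift hinj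
  have hρK : ∀ a : B ⧸ p, ρK (algebraMap _ _ a) = ρq a := fun a =>
    IsFractionRing.lift_algebraMap hinj a
  -- `ρK x` is integral over `B ⧸ p`, hence over `B`
  have h1 : ρq.IsIntegralElem (ρK x) := by
    obtain ⟨P, hP, hPx⟩ := hx
    refine ⟨P, hP, ?_⟩
    have h := congrArg ρK hPx
    rw [hom_eval₂, map_zero] at h
    have hcomp : ρK.comp (algebraMap (B ⧸ p) (FractionRing (B ⧸ p))) = ρq := by
      ext a
      exact hρK a
    rwa [hcomp] at h
  have h2 : ρ.IsIntegralElem (ρK x) := by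
    obtain ⟨n, c, hrel⟩ := exists_fin_of_isIntegralElem _ h1
    choose c' hc' using fun i => Ideal.Quotient.mk_surjective (c i)
    refine isIntegralElem_of_fin _ n c' ?_
    rw [← hrel]
    congr 1
    refine Finset.sum_congr rfl fun i _ => ?_
    rw [← hρq, hc']
  obtain ⟨f, hf⟩ := IsLocalRing.residue_surjective (R := V) (ρK x)
  rw [← hf] at h2
  obtain ⟨n, c, hc, hrel⟩ := exists_rel_of_isIntegralElem_residue V B hBV f h2
  obtain ⟨b, hb, hfb⟩ := hnorm f f.2 ⟨n, c, hc, hrel⟩
  refine ⟨Ideal.Quotient.mk p ⟨b, hb⟩, ?_⟩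
  apply ρK.injective
  rw [hρK, hρq, ← hf, resMap_apply]
  symm
  rw [residue_eq_iff_val]
  exact hfb

end Val

section Transfer

variable {R F₀ F : Type*} [CommRing R] [Field F₀] [Field F] [Algebra R F₀] [Algebra R F]

/-- A ring homomorphism mapping `V₀` into `V` reflects the maximal ideals. -/
theorem val_lt_one_of_map (γ : F₀ →+* F) (V₀ : ValuationSubring F₀) (V : ValuationSubring F)
    (hγV : ∀ g ∈ V₀, γ g ∈ V) {g : F₀} (hg : g ∈ V₀) (h : V.valuation (γ g) < 1) :
    V₀.valuation g < 1 := by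
  by_contra hcon
  rw [not_lt] at hcon
  have hone : V₀.valuation g = 1 := le_antisymm ((V₀.valuation_le_one_iff _).2 hg) hcon
  have hinv : g⁻¹ ∈ V₀ := by
    rw [← V₀.valuation_le_one_iff, map_inv₀, hone, inv_one]
  have h1 : (γ g)⁻¹ ∈ V := by
    rw [← map_inv₀]
    exact hγV _ hinv
  have h2 : V.valuation (γ g)⁻¹ ≤ 1 := (V.valuation_le_one_iff _).2 h1
  have hne : V.valuation (γ g) ≠ 0 := by
    intro h0
    rw [map_inv₀, h0, inv_zero] at h2
    have hg0 : γ g = 0 := (Valuation.zero_iff _).1 h0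
    have : g = 0 := by
      by_contra hg0'
      exact (map_ne_zero γ).2 hg0' hg0
    rw [this, map_zero] at hone
    exact zero_ne_one hone
  rw [map_inv₀, inv_le_one₀ (zero_lt_iff.2 hne)] at h2
  exact absurd h (not_lt.2 h2)

/-- The restriction `B₀ → B` of a ring homomorphism `γ : F₀ → F` with `γ B₀ ⊆ B`. -/
def mapSub (γ : F₀ →+* F) (B₀ : Subalgebra R F₀) (B : Subalgebra R F)
    (hγB : ∀ b ∈ B₀, γ b ∈ B) : B₀ →+* B where
  toFun b := ⟨γ b.1, hγB b.1 b.2⟩
  map_one' := Subtype.ext (map_one γ)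
  map_mul' a b := Subtype.ext (map_mul γ a.1 b.1)
  map_zero' := Subtype.ext (map_zero γ)
  map_add' a b := Subtype.ext (map_add γ a.1 b.1)

@[simp]
theorem coe_mapSub (γ : F₀ →+* F) (B₀ : Subalgebra R F₀) (B : Subalgebra R F)
    (hγB : ∀ b ∈ B₀, γ b ∈ B) (b : B₀) : ((mapSub γ B₀ B hγB b : B) : F) = γ b := rfl

/-- **Core B.**  Transfer of normality of the special fibre along `γ : F₀ → F`:
* `γ V₀ ⊆ V` and `γ 𝔪_{V₀} ⊆ 𝔪_V`;
* `γ B₀ ⊆ B`;
* residue degree one: `V = γ V₀ + 𝔪_V`;
* `B` is integral over `γ B₀` modulo `𝔪_V` (in the residue field of `V`). -/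
theorem normalIn_transfer (γ : F₀ →+* F)
    (V₀ : ValuationSubring F₀) (V : ValuationSubring F)
    (hγV : ∀ g ∈ V₀, γ g ∈ V)
    (hγp : ∀ g : F₀, V₀.valuation g < 1 → V.valuation (γ g) < 1)
    (B₀ : Subalgebra R F₀) (B : Subalgebra R F)
    (hB₀ : ∀ b ∈ B₀, b ∈ V₀) (hB : ∀ b ∈ B, b ∈ V)
    (hγB : ∀ b ∈ B₀, γ b ∈ B)
    (hres : ∀ f ∈ V, ∃ g ∈ V₀, V.valuation (f - γ g) < 1)
    (hint : ∀ b : B, ((resMap V B hB).comp (mapSub γ B₀ B hγB)).IsIntegralElem
      (resMap V B hB b))
    (hnorm₀ : NormalIn V₀ (B₀ : Set F₀)) :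
    NormalIn V (B : Set F) := by
  classical
  intro f hf ⟨n, c, hc, hrel⟩
  -- the two residue maps into `κ(V)`
  set ρ := resMap V B hB with hρ
  set ρ₀ : B₀ →+* IsLocalRing.ResidueField V := ρ.comp (mapSub γ B₀ B hγB) with hρ₀
  -- `f̄` is integral over `γ B̄₀`
  have h2 : ρ₀.IsIntegralElem (IsLocalRing.residue V ⟨f, hf⟩) :=
    isIntegralElem_trans ρ₀ ρ hint (isIntegralElem_residue_of_rel V B hB ⟨f, hf⟩ n c hc hrel)
  -- residue degree one
  obtain ⟨g, hg, hfg⟩ := hres f hf
  have hfg' : IsLocalRing.residue V ⟨f, hf⟩ = IsLocalRing.residue V ⟨γ g, hγV g hg⟩ := by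
    rw [residue_eq_iff_val]
    exact hfg
  rw [hfg'] at h2
  obtain ⟨m, d, hrel₀⟩ := exists_fin_of_isIntegralElem _ h2
  -- descend the relation to level `F₀`
  have hmem₀ : g ^ m + ∑ i : Fin m, (d i : F₀) * g ^ (i : ℕ) ∈ V₀ :=
    V₀.add_mem _ _ (V₀.pow_mem hg m)
      (V₀.toSubring.sum_mem fun i _ => V₀.mul_mem _ _ (hB₀ _ (d i).2) (V₀.pow_mem hg _))
  have hval : V.valuation (γ (g ^ m + ∑ i : Fin m, (d i : F₀) * g ^ (i : ℕ))) < 1 := by
    have hv : (⟨γ g, hγV g hg⟩ ^ m + ∑ i : Fin m,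
        (⟨γ (d i), hB _ (hγB _ (d i).2)⟩ : V) * ⟨γ g, hγV g hg⟩ ^ (i : ℕ) : V) =
        (⟨γ (g ^ m + ∑ i : Fin m, (d i : F₀) * g ^ (i : ℕ)), hγV _ hmem₀⟩ : V) := by
      apply Subtype.ext
      push_cast
      simp only [map_add, map_pow, map_sum, map_mul]
    have h3 : IsLocalRing.residue V (⟨γ g, hγV g hg⟩ ^ m + ∑ i : Fin m,
        (⟨γ (d i), hB _ (hγB _ (d i).2)⟩ : V) * ⟨γ g, hγV g hg⟩ ^ (i : ℕ)) = 0 := by
      rw [map_add, map_pow, map_sum]
      simp only [map_mul, map_pow]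
      exact hrel₀
    rw [hv, residue_eq_zero_iff_val] at h3
    exact h3
  obtain ⟨b₀, hb₀, hgb⟩ := hnorm₀ g hg ⟨m, fun i => (d i : F₀), fun i => (d i).2,
    val_lt_one_of_map γ V₀ V hγV hmem₀ hval⟩
  refine ⟨γ b₀, hγB b₀ hb₀, ?_⟩
  have hpres : V.valuation (γ (g - b₀)) < 1 := hγp _ hgb
  have : f - γ b₀ = (f - γ g) + γ (g - b₀) := by
    rw [map_sub]
    ring
  rw [this]
  exact lt_of_le_of_lt (Valuation.map_add _ _ _) (max_lt hfg hpres)

/-- The hypothesis `hint` of `normalIn_transfer` from a coordinate congruence: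
`B` integral over `R[y]`, `y ≡ γ c₀ mod 𝔪_V` with `c₀ ∈ B₀`. -/
theorem isIntegralElem_of_coord (γ : F₀ →+* F)
    (hγR : ∀ r : R, γ (algebraMap R F₀ r) = algebraMap R F r)
    (V : ValuationSubring F) (B₀ : Subalgebra R F₀) (B : Subalgebra R F)
    (hB : ∀ b ∈ B, b ∈ V) (hγB : ∀ b ∈ B₀, γ b ∈ B)
    (y : F) (hyB : y ∈ B) (c₀ : F₀) (hc₀ : c₀ ∈ B₀) (hy : V.valuation (y - γ c₀) < 1)
    (hBint : ∀ b ∈ B, IsIntegral (Algebra.adjoin R ({y} : Set F)) b) (b : B) :
    ((resMap V B hB).comp (mapSub γ B₀ B hγB)).IsIntegralElem (resMap V B hB b) := by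
  classical
  set ρ := resMap V B hB with hρ
  set ρ₀ : B₀ →+* IsLocalRing.ResidueField V := ρ.comp (mapSub γ B₀ B hγB) with hρ₀
  have hle : Algebra.adjoin R ({y} : Set F) ≤ B :=
    Algebra.adjoin_le (Set.singleton_subset_iff.2 hyB)
  let ι : Algebra.adjoin R ({y} : Set F) →+* B := (Subalgebra.inclusion hle).toRingHom
  have hι : ∀ a, ((ι a : B) : F) = (a : F) := fun _ => rfl
  -- `b̄` is integral over the image of `R[y]`
  have h1 : (ρ.comp ι).IsIntegralElem (ρ b) := by
    obtain ⟨Q, hQ, hQb⟩ := hBint b.1 b.2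
    refine ⟨Q, hQ, ?_⟩
    have h0 : Q.eval₂ ι b = 0 := by
      apply Subtype.ext
      have := Polynomial.hom_eval₂ Q ι B.val.toRingHom b
      rw [ZeroMemClass.coe_zero]
      calc ((Q.eval₂ ι b : B) : F) = B.val.toRingHom (Q.eval₂ ι b) := rfl
        _ = Q.eval₂ (B.val.toRingHom.comp ι) (B.val.toRingHom b) := this
        _ = 0 := hQb
    have := congrArg ρ h0
    rwa [Polynomial.hom_eval₂, map_zero] at this
  -- the image of `R[y]` lies in the image of `B₀`
  refine isIntegralElem_trans ρ₀ (ρ.comp ι) (fun a => ?_) h1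
  have hmem : (a : F) ∈ (Polynomial.aeval (R := R) y).range := by
    rw [← Algebra.adjoin_singleton_eq_range_aeval]
    exact a.2
  obtain ⟨Q, hQ⟩ := hmem
  have key : ρ.comp (Polynomial.aeval (R := R) (⟨y, hyB⟩ : B)).toRingHom =
      ρ₀.comp (Polynomial.aeval (R := R) (⟨c₀, hc₀⟩ : B₀)).toRingHom := by
    apply Polynomial.ringHom_ext
    · intro r
      simp only [RingHom.comp_apply, AlgHom.toRingHom_eq_coe, RingHom.coe_coe,
        Polynomial.aeval_C, hρ₀]
      rw [resMap_apply, resMap_apply]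
      congr 1
      apply Subtype.ext
      show algebraMap R F r = γ (algebraMap R F₀ r)
      exact (hγR r).symm
    · simp only [RingHom.comp_apply, AlgHom.toRingHom_eq_coe, RingHom.coe_coe,
        Polynomial.aeval_X, hρ₀]
      rw [resMap_apply, resMap_apply, residue_eq_iff_val]
      exact hy
  have h2 : (ρ.comp ι) a = ρ₀ (Polynomial.aeval (R := R) (⟨c₀, hc₀⟩ : B₀) Q) := by
    have h3 : ι a = Polynomial.aeval (R := R) (⟨y, hyB⟩ : B) Q := by
      apply Subtype.ext
      rw [hι, ← hQ]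
      exact (Polynomial.aeval_algHom_apply B.val (⟨y, hyB⟩ : B) Q).symm ▸ rfl
    rw [RingHom.comp_apply, h3]
    exact congrArg (fun φ : Polynomial R →+* IsLocalRing.ResidueField V => φ Q) key
  rw [h2]
  exact ρ₀.isIntegralElem_map

end Transfer

section Chart

variable {R F₀ F : Type*} [CommRing R] [Field F₀] [Field F] [Algebra R F₀] [Algebra R F]

/-- Integrality over `R[y]` in the form used by `Mod.chart`. -/
theorem isIntegral_adjoin_iff (y f : F) :
    IsIntegral (Algebra.adjoin R ({y} : Set F)) f ↔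
      ∃ p : Polynomial (Polynomial R), p.Monic ∧
        p.eval₂ (Polynomial.eval₂RingHom (algebraMap R F) y) f = 0 := by
  classical
  let ψ : Polynomial R →ₐ[R] Algebra.adjoin R ({y} : Set F) :=
    (Polynomial.aeval (R := R) y).codRestrict (Algebra.adjoin R ({y} : Set F)) (fun p => by
      rw [Algebra.adjoin_singleton_eq_range_aeval]
      exact ⟨p, rfl⟩)
  have hψ : (algebraMap (Algebra.adjoin R ({y} : Set F)) F).comp ψ.toRingHom =
      Polynomial.eval₂RingHom (algebraMap R F) y := by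
    apply Polynomial.ringHom_ext
    · intro r
      simp [ψ]
    · simp [ψ]
  have hsurj : Function.Surjective ψ.toRingHom := by
    rintro ⟨a, ha⟩
    have ha' : a ∈ (Polynomial.aeval (R := R) y).range := by
      rw [← Algebra.adjoin_singleton_eq_range_aeval]
      exact ha
    obtain ⟨Q, hQ⟩ := ha'
    exact ⟨Q, Subtype.ext hQ⟩
  constructor
  · rintro ⟨Q, hQ, hQf⟩
    have hlift : Q ∈ Polynomial.lifts ψ.toRingHom := by
      rw [Polynomial.lifts_iff_coeff_lifts]
      intro n
      exact hsurj _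
    obtain ⟨p, hp, -, hpm⟩ := Polynomial.lifts_and_natDegree_eq_and_monic hlift hQ
    refine ⟨p, hpm, ?_⟩
    rw [← hψ, ← Polynomial.eval₂_map, hp]
    exact hQf
  · rintro ⟨p, hp, hpf⟩
    refine ⟨p.map ψ.toRingHom, hp.map _, ?_⟩
    rw [Polynomial.eval₂_map, hψ]
    exact hpf

/-- A valuation subring containing `R` and `y` contains the integral closure of `R[y]`. -/
theorem mem_valuationSubring_of_isIntegral_adjoin (V : ValuationSubring F)
    (hR : ∀ r : R, algebraMap R F r ∈ V) {y : F} (hy : y ∈ V) {f : F}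
    (hf : IsIntegral (Algebra.adjoin R ({y} : Set F)) f) : f ∈ V := by
  classical
  let VA : Subalgebra R F :=
    { V.toSubring.toSubsemiring with algebraMap_mem' := hR }
  have hle : Algebra.adjoin R ({y} : Set F) ≤ VA :=
    Algebra.adjoin_le (Set.singleton_subset_iff.2 hy)
  obtain ⟨Q, hQ, hQf⟩ := hf
  let ι : Algebra.adjoin R ({y} : Set F) →+* V :=
    { toFun := fun a => ⟨a.1, hle a.2⟩
      map_one' := rfl
      map_mul' := fun _ _ => rfl
      map_zero' := rfl
      map_add' := fun _ _ => rfl }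
  have hint : IsIntegral V f := by
    refine ⟨Q.map ι, hQ.map _, ?_⟩
    rw [Polynomial.eval₂_map]
    exact hQf
  obtain ⟨z, hz⟩ := (IsIntegrallyClosed.isIntegral_iff (R := V) (K := F)).mp hint
  rw [← hz]
  exact z.2

/-- Functoriality of charts: if `γ y₀` is integral over `R[y]` then `γ` maps the integral
closure of `R[y₀]` into the integral closure of `R[y]`. -/
theorem isIntegral_adjoin_map (γ : F₀ →+* F)
    (hγR : ∀ r : R, γ (algebraMap R F₀ r) = algebraMap R F r) {y₀ : F₀} {y : F}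
    (hy : IsIntegral (Algebra.adjoin R ({y} : Set F)) (γ y₀)) {b : F₀}
    (hb : IsIntegral (Algebra.adjoin R ({y₀} : Set F₀)) b) :
    IsIntegral (Algebra.adjoin R ({y} : Set F)) (γ b) := by
  classical
  rw [isIntegral_adjoin_iff] at hb
  obtain ⟨p, hp, hpb⟩ := hb
  -- `γ b` is integral over `R[γ y₀]`
  have h1 : (Polynomial.eval₂RingHom (algebraMap R F) (γ y₀)).IsIntegralElem (γ b) := by
    refine ⟨p, hp, ?_⟩
    have h := congrArg γ hpb
    rw [Polynomial.hom_eval₂, map_zero] at h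
    have hcomp : γ.comp (Polynomial.eval₂RingHom (algebraMap R F₀) y₀) =
        Polynomial.eval₂RingHom (algebraMap R F) (γ y₀) := by
      apply Polynomial.ringHom_ext
      · intro r
        simp [hγR]
      · simp
    rwa [hcomp] at h
  -- `R[γ y₀]` is integral over `R[y]`
  refine isIntegralElem_trans (algebraMap (Algebra.adjoin R ({y} : Set F)) F)
    (Polynomial.eval₂RingHom (algebraMap R F) (γ y₀)) (fun a => ?_) h1
  show IsIntegral (Algebra.adjoin R ({y} : Set F)) (Polynomial.eval₂ (algebraMap R F) (γ y₀) a)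
  rw [Polynomial.eval₂_eq_sum_range]
  refine IsIntegral.sum _ fun i _ => IsIntegral.mul ?_ (hy.pow i)
  have : algebraMap R F (a.coeff i) =
      algebraMap (Algebra.adjoin R ({y} : Set F)) F (algebraMap R _ (a.coeff i)) := rfl
  rw [this]
  exact isIntegral_algebraMap

end Chart

end Fermat.Agent.A2.Mod.H142

end
end
-- ===== PACK-END A2/Mod/H142/S2Core.lean

-- ===== PACK-BEGIN A2/Mod/H189/ChartChange.lean
section






/-!
# Cell A2 / MOD, GOODRED part G3 (helper189): CHART CHANGE, abstract form (Mathlib only)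

`R` a commutative ring, `F` a field, `V` a subring of `F` (in the application the Gauss valuation
ring), `w : F` (the uniformiser).  For an `R`-subalgebra `A ⊆ F` (`A = R[y]`) we consider the
*chart* `IC(A)` = elements of `F` integral over `A`, and the two elementwise properties that make up
`Mod.GoodRedAt` (`A2/Mod/Spec.lean`):

* `QepOn V w A`    : `b ∈ IC(A)`, `b ∈ w V` ⟹ `b / w ∈ IC(A)`;
* `NormalOn V w A` : `f ∈ V` whose residue is integral over `IC(A) / w` is congruent modulo `w V`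
  to an element of `IC(A)`   (the special fibre of the chart is integrally closed in `κ(V)`).

Results:

* `isIntegral_of_forall_isIntegral` : `IC` only depends on `A` up to integral equivalence;
* `QepOn.loc`, `NormalOn.loc`       : both properties pass from `A` to `A[1/s]` (`s ∈ A` a unit of
  `V`);
* `QepOn.glue`, `NormalOn.glue`     : both properties glue along a covering `α s₁ + β s₂ = 1`.

These are the tools for changing the coordinate of a model with good reduction (e.g. from the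
Hauptmodul `t₂` or `t₃` used by row S18 for the residue characteristics `3` and `2` to `j`).
-/

set_option autoImplicit false

namespace Fermat.Agent.A2.Mod.H189

open Polynomial

variable {R : Type*} [CommRing R] {F : Type*} [Field F] [Algebra R F]

/-- `f ∈ w V`. -/
def InWV (V : Subring F) (w f : F) : Prop := f * w⁻¹ ∈ V

theorem InWV.mul_left {V : Subring F} {w f : F} (h : InWV V w f) {c : F} (hc : c ∈ V) :
    InWV V w (c * f) := by
  unfold InWV at h ⊢
  rw [mul_assoc]
  exact V.mul_mem hc h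

theorem InWV.add {V : Subring F} {w f g : F} (hf : InWV V w f) (hg : InWV V w g) :
    InWV V w (f + g) := by
  unfold InWV at hf hg ⊢
  rw [add_mul]
  exact V.add_mem hf hg

theorem InWV.sub {V : Subring F} {w f g : F} (hf : InWV V w f) (hg : InWV V w g) :
    InWV V w (f - g) := by
  unfold InWV at hf hg ⊢
  rw [sub_mul]
  exact V.sub_mem hf hg

/-- The `q`-expansion principle for the chart of `A`, elementwise. -/
def QepOn (V : Subring F) (w : F) (A : Subalgebra R F) : Prop :=
  ∀ b : F, IsIntegral A b → InWV V w b → IsIntegral A (b * w⁻¹)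

/-- Normality of the special fibre of the chart of `A`, elementwise: an element of `V` which is
integral over the chart modulo `w V` is congruent to an element of the chart. -/
def NormalOn (V : Subring F) (w : F) (A : Subalgebra R F) : Prop :=
  ∀ f ∈ V, (∃ (n : ℕ) (c : Fin n → F), (∀ i, IsIntegral A (c i)) ∧
      InWV V w (f ^ n + ∑ i : Fin n, c i * f ^ (i : ℕ))) →
    ∃ b : F, IsIntegral A b ∧ InWV V w (f - b)

/-! ### Integral equivalence -/

/-- Integrality over a subalgebra only depends on its integral closure. -/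
theorem isIntegral_of_forall_isIntegral {A A' : Subalgebra R F}
    (h : ∀ a ∈ A, IsIntegral A' a) {f : F} (hf : IsIntegral A f) : IsIntegral A' f := by
  -- `f` is integral over the integral closure `C'` of `A'`
  let C' : Subalgebra A' F := integralClosure A' F
  let ι : A →+* C' :=
    { toFun := fun a => ⟨(a : F), h a a.2⟩
      map_one' := rfl
      map_mul' := fun _ _ => rfl
      map_zero' := rfl
      map_add' := fun _ _ => rfl }
  have h1 : IsIntegral C' f := by
    have := IsIntegral.map_of_comp_eq (R := A) (S := F) (T := C') (U := F) ι (RingHom.id F)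
      (by ext a; rfl) hf
    simpa using this
  exact isIntegral_trans (R := A') (A := C') f h1

theorem isIntegral_iff_of_forall_isIntegral {A A' : Subalgebra R F}
    (h : ∀ a ∈ A, IsIntegral A' a) (h' : ∀ a ∈ A', IsIntegral A a) {f : F} :
    IsIntegral A f ↔ IsIntegral A' f :=
  ⟨isIntegral_of_forall_isIntegral h, isIntegral_of_forall_isIntegral h'⟩

theorem isIntegral_of_le {A A' : Subalgebra R F} (h : A ≤ A') {f : F} (hf : IsIntegral A f) :
    IsIntegral A' f :=
  isIntegral_of_forall_isIntegral (fun a ha => isIntegral_algebraMap (R := A') (x := ⟨a, h ha⟩)) hf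

theorem QepOn.congr {V : Subring F} {w : F} {A A' : Subalgebra R F}
    (h : ∀ a ∈ A, IsIntegral A' a) (h' : ∀ a ∈ A', IsIntegral A a) (hq : QepOn V w A) :
    QepOn V w A' := fun b hb hbw =>
  isIntegral_of_forall_isIntegral h (hq b (isIntegral_of_forall_isIntegral h' hb) hbw)

theorem NormalOn.congr {V : Subring F} {w : F} {A A' : Subalgebra R F}
    (h : ∀ a ∈ A, IsIntegral A' a) (h' : ∀ a ∈ A', IsIntegral A a) (hn : NormalOn V w A) :
    NormalOn V w A' := by
  rintro f hf ⟨n, c, hc, hcw⟩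
  obtain ⟨b, hb, hbw⟩ := hn f hf
    ⟨n, c, fun i => isIntegral_of_forall_isIntegral h' (hc i), hcw⟩
  exact ⟨b, isIntegral_of_forall_isIntegral h hb, hbw⟩

/-! ### Localisation of a subalgebra at one element -/

/-- `A[1/s]` as a subalgebra of the field `F`. -/
def locSub (A : Subalgebra R F) (s : F) : Subalgebra R F :=
  Algebra.adjoin R ((A : Set F) ∪ {s⁻¹})

theorem le_locSub (A : Subalgebra R F) (s : F) : A ≤ locSub A s := fun _ ha =>
  Algebra.subset_adjoin (Or.inl ha)

theorem inv_mem_locSub (A : Subalgebra R F) (s : F) : s⁻¹ ∈ locSub A s :=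
  Algebra.subset_adjoin (Or.inr rfl)

theorem locSub_le {A B : Subalgebra R F} {s : F} (hAB : A ≤ B) (hs : s⁻¹ ∈ B) : locSub A s ≤ B :=
  Algebra.adjoin_le (by
    rintro x (hx | hx)
    · exact hAB hx
    · rw [Set.mem_singleton_iff] at hx
      rw [hx]
      exact hs)

/-- Every element of `A[1/s]` is of the form `a / s ^ k`. -/
theorem exists_pow_mul_mem_of_mem_loc {A : Subalgebra R F} {s : F} (hs : s ∈ A) {b : F}
    (hb : b ∈ locSub A s) : ∃ k : ℕ, ∀ k', k ≤ k' → s ^ k' * b ∈ A := by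
  unfold locSub at hb
  induction hb using Algebra.adjoin_induction with
  | mem x hx =>
    rcases hx with hx | hx
    · exact ⟨0, fun k' _ => A.mul_mem (A.pow_mem hs k') hx⟩
    · rw [Set.mem_singleton_iff] at hx
      subst hx
      refine ⟨1, fun k' hk' => ?_⟩
      by_cases h0 : s = 0
      · subst h0
        simp
      · obtain ⟨k'', rfl⟩ := Nat.exists_eq_add_of_le hk'
        rw [pow_add, pow_one, mul_comm s, mul_assoc, mul_inv_cancel₀ h0, mul_one]
        exact A.pow_mem hs k''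
  | algebraMap r => exact ⟨0, fun k' _ => A.mul_mem (A.pow_mem hs k') (A.algebraMap_mem r)⟩
  | add x y _ _ hx hy =>
    obtain ⟨k₁, h₁⟩ := hx
    obtain ⟨k₂, h₂⟩ := hy
    refine ⟨max k₁ k₂, fun k' hk' => ?_⟩
    rw [mul_add]
    exact A.add_mem (h₁ k' (le_trans (le_max_left _ _) hk'))
      (h₂ k' (le_trans (le_max_right _ _) hk'))
  | mul x y _ _ hx hy =>
    obtain ⟨k₁, h₁⟩ := hx
    obtain ⟨k₂, h₂⟩ := hy
    refine ⟨k₁ + k₂, fun k' hk' => ?_⟩
    obtain ⟨k'', rfl⟩ := Nat.exists_eq_add_of_le hk'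
    have : s ^ (k₁ + k₂ + k'') * (x * y) = s ^ k'' * ((s ^ k₁ * x) * (s ^ k₂ * y)) := by
      rw [pow_add, pow_add]; ring
    rw [this]
    exact A.mul_mem (A.pow_mem hs k'') (A.mul_mem (h₁ k₁ le_rfl) (h₂ k₂ le_rfl))

/-- An element of `A` is integral over `A`. -/
theorem isIntegral_of_mem {A : Subalgebra R F} {a : F} (ha : a ∈ A) : IsIntegral A a :=
  isIntegral_algebraMap (R := A) (x := ⟨a, ha⟩)

/-- Integral closure commutes with localisation, elementwise: if `f` is integral over `A[1/s]`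
then `s ^ k f` is integral over `A` for all large `k`. -/
theorem exists_pow_mul_isIntegral {A : Subalgebra R F} {s : F} (hs : s ∈ A) {f : F}
    (hf : IsIntegral (locSub A s) f) : ∃ k : ℕ, ∀ k', k ≤ k' → IsIntegral A (s ^ k' * f) := by
  classical
  suffices h : ∃ k : ℕ, IsIntegral A (s ^ k * f) by
    obtain ⟨k, hk⟩ := h
    refine ⟨k, fun k' hk' => ?_⟩
    obtain ⟨k'', rfl⟩ := Nat.exists_eq_add_of_le hk'
    have : s ^ (k + k'') * f = s ^ k'' * (s ^ k * f) := by rw [pow_add]; ring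
    rw [this]
    exact (isIntegral_of_mem (A.pow_mem hs k'')).mul hk
  obtain ⟨p, hp, hpf⟩ := hf
  -- a common exponent for all coefficients
  have hcoef : ∀ i : ℕ, ∃ k : ℕ, ∀ k', k ≤ k' → s ^ k' * ((p.coeff i : locSub A s) : F) ∈ A :=
    fun i => exists_pow_mul_mem_of_mem_loc hs (p.coeff i).2
  choose kc hkc using hcoef
  set K : ℕ := (Finset.range (p.natDegree + 1)).sup kc with hK
  have hKle : ∀ i, i ≤ p.natDegree → kc i ≤ K := fun i hi =>
    Finset.le_sup (f := kc) (Finset.mem_range.2 (Nat.lt_succ_of_le hi))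
  -- the element `s ^ K` of `A[1/s]`
  let sK : locSub A s := ⟨s ^ K, (locSub A s).pow_mem (le_locSub A s hs) K⟩
  let ι : A →+* locSub A s := (Subalgebra.inclusion (le_locSub A s)).toRingHom
  have hιval : ∀ a : A, ((ι a : locSub A s) : F) = (a : F) := fun a => rfl
  have hlifts : scaleRoots p sK ∈ lifts ι := by
    rw [lifts_iff_coeff_lifts]
    intro i
    rw [coeff_scaleRoots]
    by_cases hi : i < p.natDegree
    · have h1 : s ^ (K * (p.natDegree - i)) * ((p.coeff i : locSub A s) : F) ∈ A := by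
        apply hkc i
        calc kc i ≤ K := hKle i hi.le
          _ = K * 1 := (mul_one K).symm
          _ ≤ K * (p.natDegree - i) := Nat.mul_le_mul_left K (by omega)
      refine ⟨⟨_, h1⟩, Subtype.ext ?_⟩
      show s ^ (K * (p.natDegree - i)) * ((p.coeff i : locSub A s) : F)
        = ((p.coeff i : locSub A s) : F) * (s ^ K) ^ (p.natDegree - i)
      rw [← pow_mul, mul_comm]
    · by_cases hi' : i = p.natDegree
      · subst hi'
        refine ⟨1, ?_⟩
        rw [map_one, Nat.sub_self, pow_zero, mul_one]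
        exact hp.coeff_natDegree.symm
      · have : p.coeff i = 0 := coeff_eq_zero_of_natDegree_lt (by omega)
        refine ⟨0, ?_⟩
        rw [map_zero, this, zero_mul]
  have hmonic : (scaleRoots p sK).Monic := (monic_scaleRoots_iff sK).2 hp
  obtain ⟨q, hq, -, hqm⟩ := lifts_and_degree_eq_and_monic hlifts hmonic
  refine ⟨K, q, hqm, ?_⟩
  have hcomp : (algebraMap (locSub A s) F).comp ι = algebraMap A F := by
    ext a
    rfl
  have h0 : eval₂ (algebraMap (locSub A s) F) (algebraMap (locSub A s) F sK * f) (scaleRoots p sK) = 0 :=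
    scaleRoots_eval₂_eq_zero (algebraMap (locSub A s) F) hpf
  rw [← hq, eval₂_map, hcomp] at h0
  exact h0

/-- Conversely `a / s ^ k` is integral over `A[1/s]` as soon as `a` is integral over `A`. -/
theorem isIntegral_loc_of_pow_mul {A : Subalgebra R F} {s : F} (hs0 : s ≠ 0) {b : F} {k : ℕ}
    (hb : IsIntegral A (s ^ k * b)) : IsIntegral (locSub A s) b := by
  have h1 : IsIntegral (locSub A s) (s ^ k * b) := isIntegral_of_le (le_locSub A s) hb
  have h2 : IsIntegral (locSub A s) (s⁻¹ ^ k) :=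
    isIntegral_of_mem ((locSub A s).pow_mem (inv_mem_locSub A s) k)
  have : b = s⁻¹ ^ k * (s ^ k * b) := by
    rw [← mul_assoc, ← mul_pow, inv_mul_cancel₀ hs0, one_pow, one_mul]
  rw [this]
  exact h2.mul h1

/-- **QEP passes to localisations.** -/
theorem QepOn.loc {V : Subring F} {w : F} {A : Subalgebra R F} (hq : QepOn V w A) {s : F}
    (hsA : s ∈ A) (hs0 : s ≠ 0) (hsV : s ∈ V) : QepOn V w (locSub A s) := by
  intro b hb hbw
  obtain ⟨k, hk⟩ := exists_pow_mul_isIntegral hsA hb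
  have h1 := hq (s ^ k * b) (hk k le_rfl) (hbw.mul_left (V.pow_mem hsV k))
  apply isIntegral_loc_of_pow_mul hs0 (k := k)
  rwa [← mul_assoc]

/-- **Normality of the special fibre passes to localisations.** -/
theorem NormalOn.loc {V : Subring F} {w : F} {A : Subalgebra R F} (hn : NormalOn V w A) {s : F}
    (hsA : s ∈ A) (hs0 : s ≠ 0) (hsV : s ∈ V) (hsV' : s⁻¹ ∈ V) : NormalOn V w (locSub A s) := by
  classical
  rintro f hf ⟨n, c, hc, hcw⟩
  have hex : ∀ i : Fin n, ∃ k : ℕ, ∀ k', k ≤ k' → IsIntegral A (s ^ k' * c i) :=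
    fun i => exists_pow_mul_isIntegral hsA (hc i)
  choose kc hkc using hex
  set K : ℕ := Finset.univ.sup kc with hK
  have hKle : ∀ i, kc i ≤ K := fun i => Finset.le_sup (f := kc) (Finset.mem_univ i)
  -- the scaled element and the scaled equation
  have hg : s ^ K * f ∈ V := V.mul_mem (V.pow_mem hsV K) hf
  have key : (s ^ K * f) ^ n + ∑ i : Fin n, (s ^ (K * (n - (i : ℕ))) * c i) * (s ^ K * f) ^ (i : ℕ)
      = s ^ (K * n) * (f ^ n + ∑ i : Fin n, c i * f ^ (i : ℕ)) := by
    rw [mul_add, Finset.mul_sum, mul_pow, ← pow_mul]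
    congr 1
    refine Finset.sum_congr rfl fun i _ => ?_
    have hi : K * n = K * (n - (i : ℕ)) + K * (i : ℕ) := by
      rw [← Nat.mul_add, Nat.sub_add_cancel i.2.le]
    rw [mul_pow, ← pow_mul, hi, pow_add]
    ring
  obtain ⟨b, hb, hbw⟩ := hn (s ^ K * f) hg ⟨n, fun i => s ^ (K * (n - (i : ℕ))) * c i,
    fun i => hkc i _ (by
      calc kc i ≤ K := hKle i
        _ = K * 1 := (mul_one K).symm
        _ ≤ K * (n - (i : ℕ)) := Nat.mul_le_mul_left K (by have := i.2; omega)),
    by rw [key]; exact hcw.mul_left (V.pow_mem hsV _)⟩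
  refine ⟨s⁻¹ ^ K * b, ?_, ?_⟩
  · apply isIntegral_loc_of_pow_mul hs0 (k := K)
    rw [← mul_assoc, ← mul_pow, mul_inv_cancel₀ hs0, one_pow, one_mul]
    exact hb
  · have : f - s⁻¹ ^ K * b = s⁻¹ ^ K * (s ^ K * f - b) := by
      rw [mul_sub, ← mul_assoc, ← mul_pow, inv_mul_cancel₀ hs0, one_pow, one_mul]
    rw [this]
    exact hbw.mul_left (V.pow_mem hsV' K)

/-! ### Gluing along a covering by two principal opens -/

/-- A partition of unity by high powers. -/
theorem exists_partition_pow {A : Subalgebra R F} {s₁ s₂ α β : F} (hs₁ : s₁ ∈ A) (hs₂ : s₂ ∈ A)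
    (hα : α ∈ A) (hβ : β ∈ A) (h1 : α * s₁ + β * s₂ = 1) (k : ℕ) :
    ∃ a₁ ∈ A, ∃ a₂ ∈ A, a₁ * s₁ ^ k + a₂ * s₂ ^ k = 1 := by
  have hc : IsCoprime (⟨s₁, hs₁⟩ : A) ⟨s₂, hs₂⟩ :=
    ⟨⟨α, hα⟩, ⟨β, hβ⟩, Subtype.ext h1⟩
  obtain ⟨a, b, hab⟩ := hc.pow (m := k) (n := k)
  exact ⟨a, a.2, b, b.2, congrArg Subtype.val hab⟩

/-- **QEP glues.** -/
theorem QepOn.glue {V : Subring F} {w : F} {A : Subalgebra R F} {s₁ s₂ α β : F}
    (hs₁ : s₁ ∈ A) (hs₂ : s₂ ∈ A) (hα : α ∈ A) (hβ : β ∈ A) (h1 : α * s₁ + β * s₂ = 1)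
    (hq₁ : QepOn V w (locSub A s₁)) (hq₂ : QepOn V w (locSub A s₂)) : QepOn V w A := by
  intro b hb hbw
  obtain ⟨k₁, hk₁⟩ := exists_pow_mul_isIntegral hs₁
    (hq₁ b (isIntegral_of_le (le_locSub A s₁) hb) hbw)
  obtain ⟨k₂, hk₂⟩ := exists_pow_mul_isIntegral hs₂
    (hq₂ b (isIntegral_of_le (le_locSub A s₂) hb) hbw)
  obtain ⟨a₁, ha₁, a₂, ha₂, ha⟩ := exists_partition_pow hs₁ hs₂ hα hβ h1 (max k₁ k₂)
  have e : b * w⁻¹ = a₁ * (s₁ ^ max k₁ k₂ * (b * w⁻¹)) + a₂ * (s₂ ^ max k₁ k₂ * (b * w⁻¹)) := by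
    linear_combination (-(b * w⁻¹)) * ha
  rw [e]
  exact ((isIntegral_of_mem ha₁).mul (hk₁ _ (le_max_left _ _))).add
    ((isIntegral_of_mem ha₂).mul (hk₂ _ (le_max_right _ _)))

/-- **Normality of the special fibre glues.** -/
theorem NormalOn.glue {V : Subring F} {w : F} {A : Subalgebra R F} {s₁ s₂ α β : F}
    (hAV : ∀ a ∈ A, a ∈ V)
    (hs₁ : s₁ ∈ A) (hs₂ : s₂ ∈ A) (hα : α ∈ A) (hβ : β ∈ A) (h1 : α * s₁ + β * s₂ = 1)
    (hn₁ : NormalOn V w (locSub A s₁)) (hn₂ : NormalOn V w (locSub A s₂)) : NormalOn V w A := by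
  rintro f hf ⟨n, c, hc, hcw⟩
  obtain ⟨b₁, hb₁, hbw₁⟩ := hn₁ f hf ⟨n, c, fun i => isIntegral_of_le (le_locSub A s₁) (hc i), hcw⟩
  obtain ⟨b₂, hb₂, hbw₂⟩ := hn₂ f hf ⟨n, c, fun i => isIntegral_of_le (le_locSub A s₂) (hc i), hcw⟩
  obtain ⟨k₁, hk₁⟩ := exists_pow_mul_isIntegral hs₁ hb₁
  obtain ⟨k₂, hk₂⟩ := exists_pow_mul_isIntegral hs₂ hb₂
  obtain ⟨a₁, ha₁, a₂, ha₂, ha⟩ := exists_partition_pow hs₁ hs₂ hα hβ h1 (max k₁ k₂)
  refine ⟨a₁ * (s₁ ^ max k₁ k₂ * b₁) + a₂ * (s₂ ^ max k₁ k₂ * b₂),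
    ((isIntegral_of_mem ha₁).mul (hk₁ _ (le_max_left _ _))).add
      ((isIntegral_of_mem ha₂).mul (hk₂ _ (le_max_right _ _))), ?_⟩
  have : f - (a₁ * (s₁ ^ max k₁ k₂ * b₁) + a₂ * (s₂ ^ max k₁ k₂ * b₂))
      = (a₁ * s₁ ^ max k₁ k₂) * (f - b₁) + (a₂ * s₂ ^ max k₁ k₂) * (f - b₂) := by
    linear_combination (-f) * ha
  rw [this]
  exact (hbw₁.mul_left (hAV _ (A.mul_mem ha₁ (A.pow_mem hs₁ _)))).add
    (hbw₂.mul_left (hAV _ (A.mul_mem ha₂ (A.pow_mem hs₂ _))))

end Fermat.Agent.A2.Mod.H189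

end
-- ===== PACK-END A2/Mod/H189/ChartChange.lean

-- ===== PACK-BEGIN A2/Mod/H732/SepEtale.lean
section





/-!
# A2 / MOD, piece S4 (SepCoord producer), part 1 (helper732): two-point etale criterion

Mathlib-only.  `R` a local ring with residue field `κ`, `S` a finite free `R`-algebra with basis
`b`.  If `𝔪 S = P₁ ⊓ P₂` for two different maximal ideals `P₁, P₂` of `S` and both residue fields
`S ⧸ Pᵢ` are separable over `κ` (elementwise, in the "liftable" form: every `s : S` is a root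
modulo `Pᵢ` of some `Q ∈ R[X]` with `Q'(s) ∉ Pᵢ`), then the discriminant of `b` is a unit of `R`.

This is the two-component version of `S18.H425.isUnit_discr_of_isSeparable_quotient`
(one component, `𝔪 S` maximal).

* `isSeparable_of_aeval_derivative_ne_zero₂` : a root `y` of `P` with `P'(y) ≠ 0` is separable;
* `traceForm_nondegenerate_of_algEquiv_prod` : the trace form of a product of two finite
  separable field extensions is nondegenerate;
* `isUnit_discr_of_two_maximal` : the criterion.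
-/

set_option autoImplicit false
set_option linter.style.haveILetI false

noncomputable section

namespace Fermat.Agent.A2.Mod.H732

open Polynomial IsLocalRing

/-- A root `y` of `P` with `P'(y) ≠ 0` is separable over the base field. -/
theorem isSeparable_of_aeval_derivative_ne_zero₂ {K F : Type*} [Field K] [Field F] [Algebra K F]
    (y : F) (P : K[X]) (h0 : aeval y P = 0) (h1 : aeval y (derivative P) ≠ 0) :
    IsSeparable K y := by
  have hP0 : P ≠ 0 := by
    rintro rfl
    simp at h1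
  have hint : IsIntegral K y := (isAlgebraic_iff_isIntegral).mp ⟨P, hP0, h0⟩
  obtain ⟨Q, hQ⟩ := minpoly.dvd K y h0
  have hirr : Irreducible (minpoly K y) := minpoly.irreducible hint
  rw [IsSeparable, separable_iff_derivative_ne_zero hirr]
  intro hd
  apply h1
  rw [hQ, derivative_mul, hd, zero_mul, zero_add, map_mul, minpoly.aeval, zero_mul]

section Prod

variable {κ C L₁ L₂ : Type*} [Field κ] [CommRing C] [Algebra κ C]
  [Field L₁] [Field L₂] [Algebra κ L₁] [Algebra κ L₂]
  [FiniteDimensional κ L₁] [FiniteDimensional κ L₂]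
  [Algebra.IsSeparable κ L₁] [Algebra.IsSeparable κ L₂]

/-- The trace form of an algebra isomorphic to a product of two finite separable field
extensions is left-separating. -/
theorem traceForm_separatingLeft_of_algEquiv_prod (e : C ≃ₐ[κ] L₁ × L₂) :
    (Algebra.traceForm κ C).SeparatingLeft := by
  intro x hx
  have key : ∀ z : C, Algebra.trace κ C z =
      Algebra.trace κ L₁ (e z).1 + Algebra.trace κ L₂ (e z).2 := by
    intro z
    rw [← Algebra.trace_prod_apply, Algebra.trace_eq_of_algEquiv e z]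
  have h1 : (e x).1 = 0 := by
    refine (_root_.traceForm_nondegenerate κ L₁).1 _ (fun c => ?_)
    have := hx (e.symm (c, 0))
    rw [Algebra.traceForm_apply, key, map_mul, AlgEquiv.apply_symm_apply] at this
    simpa [Algebra.traceForm_apply] using this
  have h2 : (e x).2 = 0 := by
    refine (_root_.traceForm_nondegenerate κ L₂).1 _ (fun c => ?_)
    have := hx (e.symm (0, c))
    rw [Algebra.traceForm_apply, key, map_mul, AlgEquiv.apply_symm_apply] at this
    simpa [Algebra.traceForm_apply] using this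
  have h3 : e x = 0 := Prod.ext h1 h2
  exact (map_eq_zero_iff e e.injective).1 h3

/-- The trace form of an algebra isomorphic to a product of two finite separable field
extensions is nondegenerate. -/
theorem traceForm_nondegenerate_of_algEquiv_prod (e : C ≃ₐ[κ] L₁ × L₂) :
    (Algebra.traceForm κ C).Nondegenerate := by
  have hl := traceForm_separatingLeft_of_algEquiv_prod e
  refine ⟨hl, ?_⟩
  intro y hy
  refine hl y (fun x => ?_)
  have := hy x
  rw [Algebra.traceForm_apply] at this ⊢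
  rwa [mul_comm]

end Prod

section TwoMax

variable {R S : Type*} [CommRing R] [CommRing S] [Algebra R S] [IsLocalRing R]

/-- A maximal ideal of `S` containing `𝔪 S` lies over `𝔪`. -/
theorem liesOver_maximalIdeal_of_map_le (P : Ideal S) (hP : P.IsMaximal)
    (hle : Ideal.map (algebraMap R S) (maximalIdeal R) ≤ P) :
    P.LiesOver (maximalIdeal R) := by
  constructor
  refine (IsLocalRing.maximalIdeal.isMaximal R).eq_of_le ?_ (Ideal.map_le_iff_le_comap.1 hle)
  exact Ideal.comap_ne_top _ hP.ne_top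

attribute [local instance] Ideal.Quotient.field

/-- Elementwise separability of `S ⧸ P` over `R ⧸ 𝔪` from the liftable form. -/
theorem isSeparable_quotient_of_lift (P : Ideal S) [P.IsMaximal] [P.LiesOver (maximalIdeal R)]
    (hsep : ∀ s : S, ∃ Q : R[X], aeval s Q ∈ P ∧ aeval s (derivative Q) ∉ P) :
    Algebra.IsSeparable (R ⧸ maximalIdeal R) (S ⧸ P) := by
  refine ⟨fun y => ?_⟩
  obtain ⟨s, rfl⟩ := Ideal.Quotient.mk_surjective y
  obtain ⟨Q, hQ0, hQ1⟩ := hsep s
  have hcomp : (algebraMap (R ⧸ maximalIdeal R) (S ⧸ P)).comp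
      (Ideal.Quotient.mk (maximalIdeal R)) = (Ideal.Quotient.mk P).comp (algebraMap R S) := by
    ext r
    rfl
  have hev : ∀ T : R[X], aeval (Ideal.Quotient.mk P s) (T.map (Ideal.Quotient.mk (maximalIdeal R)))
      = Ideal.Quotient.mk P (aeval s T) := by
    intro T
    rw [aeval_def, eval₂_map, hcomp, aeval_def, hom_eval₂]
  apply isSeparable_of_aeval_derivative_ne_zero₂ _ (Q.map (Ideal.Quotient.mk (maximalIdeal R)))
  · rw [hev]
    exact Ideal.Quotient.eq_zero_iff_mem.2 hQ0
  · rw [derivative_map, hev]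
    exact fun h => hQ1 (Ideal.Quotient.eq_zero_iff_mem.1 h)

variable [Module.Free R S] [Module.Finite R S]

/-- **Two-point etale criterion.**  `R` local, `S` finite free over `R` with basis `b`,
`𝔪 S = P₁ ⊓ P₂` with `P₁ ≠ P₂` maximal and both `S ⧸ Pᵢ` separable over `R ⧸ 𝔪` (liftable
elementwise form).  Then `discr R b` is a unit. -/
theorem isUnit_discr_of_two_maximal
    {ι : Type*} [Fintype ι] [DecidableEq ι] (b : Module.Basis ι R S)
    (P₁ P₂ : Ideal S) (h₁ : P₁.IsMaximal) (h₂ : P₂.IsMaximal) (hne : P₁ ≠ P₂)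
    (hinf : P₁ ⊓ P₂ = Ideal.map (algebraMap R S) (maximalIdeal R))
    (hsep₁ : ∀ s : S, ∃ Q : R[X], aeval s Q ∈ P₁ ∧ aeval s (derivative Q) ∉ P₁)
    (hsep₂ : ∀ s : S, ∃ Q : R[X], aeval s Q ∈ P₂ ∧ aeval s (derivative Q) ∉ P₂) :
    IsUnit (Algebra.discr R b) := by
  classical
  haveI := h₁
  haveI := h₂
  haveI : P₁.LiesOver (maximalIdeal R) :=
    liesOver_maximalIdeal_of_map_le P₁ h₁ (hinf ▸ inf_le_left)
  haveI : P₂.LiesOver (maximalIdeal R) :=
    liesOver_maximalIdeal_of_map_le P₂ h₂ (hinf ▸ inf_le_right)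
  haveI : Algebra.IsSeparable (R ⧸ maximalIdeal R) (S ⧸ P₁) :=
    isSeparable_quotient_of_lift P₁ hsep₁
  haveI : Algebra.IsSeparable (R ⧸ maximalIdeal R) (S ⧸ P₂) :=
    isSeparable_quotient_of_lift P₂ hsep₂
  haveI : Module.Finite (R ⧸ maximalIdeal R) (S ⧸ P₁) :=
    Module.Finite.of_restrictScalars_finite R _ _
  haveI : Module.Finite (R ⧸ maximalIdeal R) (S ⧸ P₂) :=
    Module.Finite.of_restrictScalars_finite R _ _
  -- the Chinese remainder isomorphism
  have hcop : IsCoprime P₁ P₂ := by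
    rw [Ideal.isCoprime_iff_sup_eq]
    exact Ideal.IsMaximal.coprime_of_ne h₁ h₂ hne
  let e₀ : (S ⧸ Ideal.map (algebraMap R S) (maximalIdeal R)) ≃+* (S ⧸ P₁) × (S ⧸ P₂) :=
    (Ideal.quotEquivOfEq hinf.symm).trans (Ideal.quotientInfEquivQuotientProd P₁ P₂ hcop)
  have he₀ : ∀ s : S, e₀ (Ideal.Quotient.mk _ s) =
      (Ideal.Quotient.mk P₁ s, Ideal.Quotient.mk P₂ s) := by
    intro s
    rfl
  let e : (S ⧸ Ideal.map (algebraMap R S) (maximalIdeal R)) ≃ₐ[R ⧸ maximalIdeal R]
      (S ⧸ P₁) × (S ⧸ P₂) :=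
    AlgEquiv.ofRingEquiv (f := e₀) (by
      intro r
      obtain ⟨r, rfl⟩ := Ideal.Quotient.mk_surjective r
      rfl)
  have hnd := traceForm_nondegenerate_of_algEquiv_prod e
  have hne0 : Algebra.discr (R ⧸ maximalIdeal R) (basisQuotient b) ≠ 0 := by
    rw [Algebra.discr_def, Algebra.traceMatrix_of_basis,
      ← LinearMap.BilinForm.nondegenerate_iff_det_ne_zero]
    exact hnd
  have hmk : Algebra.discr (R ⧸ maximalIdeal R) (basisQuotient b) =
      Ideal.Quotient.mk (maximalIdeal R) (Algebra.discr R b) := by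
    rw [Algebra.discr_def, Algebra.discr_def, RingHom.map_det]
    congr 1
    ext i j
    simp only [Algebra.traceMatrix_apply, Algebra.traceForm_apply, basisQuotient_apply,
      RingHom.mapMatrix_apply, Matrix.map_apply, ← map_mul]
    exact Algebra.trace_quotient_mk (b i * b j)
  rw [hmk] at hne0
  by_contra hu
  apply hne0
  rw [Ideal.Quotient.eq_zero_iff_mem]
  exact (IsLocalRing.mem_maximalIdeal _).mpr hu

end TwoMax

end Fermat.Agent.A2.Mod.H732

end
end
-- ===== PACK-END A2/Mod/H732/SepEtale.lean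

-- ===== PACK-BEGIN S35/H253/NormRed2.lean
section


/-!
# Norms commute with reduction: TWO extensions of a valuation ring (helper253)

Mathlib only.  `F / K` a finite field extension, `O` a valuation subring of `K`, `V₁`, `V₂`
valuation subrings of `F` lying over `O` (`V_i ∩ K = O`), with reductions
`π : O → k`, `ρ₁ : V₁ → κ₁`, `ρ₂ : V₂ → κ₂` onto fields.  If the two residue degrees add up to
`[F : K]` (so `V₁`, `V₂` are the only extensions and both are unramified), then for every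
`y ∈ V₁ ∩ V₂`

  `N_{F/K} y ∈ O`   and   `π (N_{F/K} y) = N_{κ₁/k} (ρ₁ y) * N_{κ₂/k} (ρ₂ y)`.

* `GoodFamily`        : an adapted family `m : ι₁ ⊕ ι₂ → F` (first block: residually independent
                        at `V₁`, in the maximal ideal of `V₂`; second block: the other way round);
* `GoodFamily.coeff_mem`, `GoodFamily.linearIndependent` : the lattice lemma;
* `GoodFamily.norm_red` : the norm formula for an adapted family whose residues are bases;
* `exists_approx`     : weak approximation for two incomparable valuation rings (any rank);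
* `norm_red_two`      : the norm formula from surjective reductions and the degree equality.

Intended use (S35 / S36 / toric package): `K = α(F_M) ⊆ F = F_{qM}`, `O` the Gauss valuation of
level `M`, `V₁ = V∞`, `V₂ = V₀` the two Gauss valuations of level `qM`; residue degrees `1` and `q`
(purely inseparable), see `NormInsep.lean`.
-/

set_option autoImplicit false

namespace Fermat.Agent.S35.H253

open scoped BigOperators

section Basic

variable {K F : Type*} [Field K] [Field F] [Algebra K F]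

/-- `V` lies over `O`: `V ∩ K = O`. -/
def Over (O : ValuationSubring K) (V : ValuationSubring F) : Prop :=
  ∀ a : K, algebraMap K F a ∈ V ↔ a ∈ O

theorem Over.val_lt_one_iff {O : ValuationSubring K} {V : ValuationSubring F}
    (h : Over O V) (a : K) :
    V.valuation (algebraMap K F a) < 1 ↔ O.valuation a < 1 := by
  rw [← ValuationSubring.mem_nonunits_iff, ← ValuationSubring.mem_nonunits_iff,
    ValuationSubring.mem_nonunits_iff_or, ValuationSubring.mem_nonunits_iff_or,
    ← map_inv₀, h a⁻¹, map_eq_zero]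

theorem Over.val_le_one_iff {O : ValuationSubring K} {V : ValuationSubring F}
    (h : Over O V) (a : K) :
    V.valuation (algebraMap K F a) ≤ 1 ↔ O.valuation a ≤ 1 := by
  rw [ValuationSubring.valuation_le_one_iff, ValuationSubring.valuation_le_one_iff, h a]

/-- A finite sum of elements of valuation `< 1` has valuation `< 1`. -/
theorem val_sum_lt_one {ι : Type*} (s : Finset ι) (V : ValuationSubring F) (f : ι → F)
    (hf : ∀ i ∈ s, V.valuation (f i) < 1) : V.valuation (∑ i ∈ s, f i) < 1 := by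
  classical
  induction s using Finset.induction_on with
  | empty => simp
  | insert a s ha ih =>
    rw [Finset.sum_insert ha]
    exact Valuation.map_add_lt _ (hf a (Finset.mem_insert_self a s))
      (ih fun i hi => hf i (Finset.mem_insert_of_mem hi))

theorem val_mul_lt_one_left (V : ValuationSubring F) {x y : F} (hx : V.valuation x < 1)
    (hy : V.valuation y ≤ 1) : V.valuation (x * y) < 1 := by
  rw [map_mul]
  calc V.valuation x * V.valuation y ≤ V.valuation x * 1 := by gcongr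
    _ = V.valuation x := mul_one _
    _ < 1 := hx

theorem val_mul_lt_one_right (V : ValuationSubring F) {x y : F} (hx : V.valuation x ≤ 1)
    (hy : V.valuation y < 1) : V.valuation (x * y) < 1 := by
  rw [mul_comm]; exact val_mul_lt_one_left V hy hx

end Basic

section Family

variable {K F : Type*} [Field K] [Field F] [Algebra K F]

/-- An adapted family for two extensions `V₁`, `V₂` of `O`: the members `m (inl i)` lie in `V₁`,
in the maximal ideal of `V₂`, and are residually independent at `V₁`; the members `m (inr j)` lie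
in `V₂`, in the maximal ideal of `V₁`, and are residually independent at `V₂`. -/
structure GoodFamily (O : ValuationSubring K) (V₁ V₂ : ValuationSubring F)
    {ι₁ ι₂ : Type*} [Fintype ι₁] [Fintype ι₂] (m : ι₁ ⊕ ι₂ → F) : Prop where
  over₁ : Over O V₁
  over₂ : Over O V₂
  mem₁ : ∀ i, m (Sum.inl i) ∈ V₁
  small₂ : ∀ i, V₂.valuation (m (Sum.inl i)) < 1
  mem₂ : ∀ j, m (Sum.inr j) ∈ V₂
  small₁ : ∀ j, V₁.valuation (m (Sum.inr j)) < 1
  indep₁ : ∀ a : ι₁ → K, (∀ i, a i ∈ O) →
    V₁.valuation (∑ i, algebraMap K F (a i) * m (Sum.inl i)) < 1 → ∀ i, O.valuation (a i) < 1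
  indep₂ : ∀ a : ι₂ → K, (∀ j, a j ∈ O) →
    V₂.valuation (∑ j, algebraMap K F (a j) * m (Sum.inr j)) < 1 → ∀ j, O.valuation (a j) < 1

namespace GoodFamily

variable {O : ValuationSubring K} {V₁ V₂ : ValuationSubring F}
  {ι₁ ι₂ : Type*} [Fintype ι₁] [Fintype ι₂] {m : ι₁ ⊕ ι₂ → F}

theorem mem₁' (h : GoodFamily O V₁ V₂ m) (l : ι₁ ⊕ ι₂) : m l ∈ V₁ := by
  rcases l with i | j
  · exact h.mem₁ i
  · exact (V₁.valuation_le_one_iff _).1 (h.small₁ j).le

theorem mem₂' (h : GoodFamily O V₁ V₂ m) (l : ι₁ ⊕ ι₂) : m l ∈ V₂ := by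
  rcases l with i | j
  · exact (V₂.valuation_le_one_iff _).1 (h.small₂ i).le
  · exact h.mem₂ j

theorem sum_split (a : ι₁ ⊕ ι₂ → K) (m : ι₁ ⊕ ι₂ → F) :
    ∑ l, algebraMap K F (a l) * m l =
      (∑ i, algebraMap K F (a (Sum.inl i)) * m (Sum.inl i)) +
        ∑ j, algebraMap K F (a (Sum.inr j)) * m (Sum.inr j) := by
  rw [Fintype.sum_sum_type]

/-- For integral coefficients: if the combination is small at `V₁`, the first block of
coefficients is small. -/
theorem small_inl (h : GoodFamily O V₁ V₂ m) (a : ι₁ ⊕ ι₂ → K) (ha : ∀ l, a l ∈ O)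
    (hz : V₁.valuation (∑ l, algebraMap K F (a l) * m l) < 1) (i : ι₁) :
    O.valuation (a (Sum.inl i)) < 1 := by
  refine h.indep₁ (fun i => a (Sum.inl i)) (fun i => ha _) ?_ i
  have e : (∑ i, algebraMap K F (a (Sum.inl i)) * m (Sum.inl i)) =
      (∑ l, algebraMap K F (a l) * m l) -
        ∑ j, algebraMap K F (a (Sum.inr j)) * m (Sum.inr j) := by
    rw [sum_split]; ring
  rw [e]
  refine Valuation.map_sub_lt _ hz (val_sum_lt_one _ _ _ fun j _ => ?_)
  exact val_mul_lt_one_right V₁ ((h.over₁.val_le_one_iff _).2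
    ((O.valuation_le_one_iff _).2 (ha _))) (h.small₁ j)

/-- For integral coefficients: if the combination is small at `V₂`, the second block of
coefficients is small. -/
theorem small_inr (h : GoodFamily O V₁ V₂ m) (a : ι₁ ⊕ ι₂ → K) (ha : ∀ l, a l ∈ O)
    (hz : V₂.valuation (∑ l, algebraMap K F (a l) * m l) < 1) (j : ι₂) :
    O.valuation (a (Sum.inr j)) < 1 := by
  refine h.indep₂ (fun j => a (Sum.inr j)) (fun j => ha _) ?_ j
  have e : (∑ j, algebraMap K F (a (Sum.inr j)) * m (Sum.inr j)) =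
      (∑ l, algebraMap K F (a l) * m l) -
        ∑ i, algebraMap K F (a (Sum.inl i)) * m (Sum.inl i) := by
    rw [sum_split]; ring
  rw [e]
  refine Valuation.map_sub_lt _ hz (val_sum_lt_one _ _ _ fun i _ => ?_)
  exact val_mul_lt_one_right V₂ ((h.over₂.val_le_one_iff _).2
    ((O.valuation_le_one_iff _).2 (ha _))) (h.small₂ i)

/-- **Lattice lemma.**  A combination of an adapted family lying in `V₁ ∩ V₂` has its
coefficients in `O`. -/
theorem coeff_mem (h : GoodFamily O V₁ V₂ m) (a : ι₁ ⊕ ι₂ → K)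
    (hz₁ : (∑ l, algebraMap K F (a l) * m l) ∈ V₁)
    (hz₂ : (∑ l, algebraMap K F (a l) * m l) ∈ V₂) (l : ι₁ ⊕ ι₂) : a l ∈ O := by
  classical
  by_contra hl
  have : Nonempty (ι₁ ⊕ ι₂) := ⟨l⟩
  obtain ⟨l₀, hl₀⟩ := Finite.exists_max (fun l => O.valuation (a l))
  have hbig : 1 < O.valuation (a l₀) := by
    have : ¬ O.valuation (a l) ≤ 1 := fun hh => hl ((O.valuation_le_one_iff _).1 hh)
    exact lt_of_lt_of_le (not_le.1 this) (hl₀ l)
  have h0 : a l₀ ≠ 0 := by
    intro h0; rw [h0, map_zero] at hbig; exact not_lt.2 zero_le_one hbig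
  have hinv : O.valuation (a l₀)⁻¹ < 1 := by
    rw [map_inv₀]; exact inv_lt_one_of_one_lt₀ hbig
  set c : ι₁ ⊕ ι₂ → K := fun l => a l * (a l₀)⁻¹ with hc
  have hcO : ∀ l, c l ∈ O := fun l => by
    rw [← O.valuation_le_one_iff, hc, map_mul, map_inv₀]
    have hpos : 0 < O.valuation (a l₀) := lt_trans zero_lt_one hbig
    calc O.valuation (a l) * (O.valuation (a l₀))⁻¹
        ≤ O.valuation (a l₀) * (O.valuation (a l₀))⁻¹ := by gcongr; exact hl₀ l
      _ = 1 := mul_inv_cancel₀ hpos.ne'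
  have hsum : (∑ l, algebraMap K F (c l) * m l) =
      (∑ l, algebraMap K F (a l) * m l) * algebraMap K F (a l₀)⁻¹ := by
    rw [Finset.sum_mul]
    refine Finset.sum_congr rfl fun l _ => ?_
    rw [hc, map_mul]; ring
  have hs₁ : V₁.valuation (∑ l, algebraMap K F (c l) * m l) < 1 := by
    rw [hsum]
    exact val_mul_lt_one_right V₁ ((V₁.valuation_le_one_iff _).2 hz₁)
      ((h.over₁.val_lt_one_iff _).2 hinv)
  have hs₂ : V₂.valuation (∑ l, algebraMap K F (c l) * m l) < 1 := by
    rw [hsum]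
    exact val_mul_lt_one_right V₂ ((V₂.valuation_le_one_iff _).2 hz₂)
      ((h.over₂.val_lt_one_iff _).2 hinv)
  have hc₀ : c l₀ = 1 := by rw [hc]; exact mul_inv_cancel₀ h0
  have hlt : O.valuation (c l₀) < 1 := by
    rcases l₀ with i | j
    · exact h.small_inl c hcO hs₁ i
    · exact h.small_inr c hcO hs₂ j
  rw [hc₀, map_one] at hlt
  exact lt_irrefl _ hlt

/-- A combination of an adapted family which is small at `V₁` and at `V₂` has small
coefficients. -/
theorem coeff_small (h : GoodFamily O V₁ V₂ m) (a : ι₁ ⊕ ι₂ → K)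
    (hz₁ : V₁.valuation (∑ l, algebraMap K F (a l) * m l) < 1)
    (hz₂ : V₂.valuation (∑ l, algebraMap K F (a l) * m l) < 1) (l : ι₁ ⊕ ι₂) :
    O.valuation (a l) < 1 := by
  have ha : ∀ l, a l ∈ O := h.coeff_mem a ((V₁.valuation_le_one_iff _).1 hz₁.le)
    ((V₂.valuation_le_one_iff _).1 hz₂.le)
  rcases l with i | j
  · exact h.small_inl a ha hz₁ i
  · exact h.small_inr a ha hz₂ j

/-- An adapted family is linearly independent. -/
theorem eq_zero_of_sum_eq_zero (h : GoodFamily O V₁ V₂ m) (a : ι₁ ⊕ ι₂ → K)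
    (hz : (∑ l, algebraMap K F (a l) * m l) = 0) (l : ι₁ ⊕ ι₂) : a l = 0 := by
  classical
  by_contra hl
  have : Nonempty (ι₁ ⊕ ι₂) := ⟨l⟩
  obtain ⟨l₀, hl₀⟩ := Finite.exists_max (fun l => O.valuation (a l))
  have hpos : 0 < O.valuation (a l₀) :=
    lt_of_lt_of_le (by rw [Valuation.pos_iff]; exact hl) (hl₀ l)
  have h0 : a l₀ ≠ 0 := by
    intro h0; rw [h0, map_zero] at hpos; exact lt_irrefl _ hpos
  set c : ι₁ ⊕ ι₂ → K := fun l => a l * (a l₀)⁻¹ with hc
  have hsum : (∑ l, algebraMap K F (c l) * m l) =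
      (∑ l, algebraMap K F (a l) * m l) * algebraMap K F (a l₀)⁻¹ := by
    rw [Finset.sum_mul]
    refine Finset.sum_congr rfl fun l _ => ?_
    rw [hc, map_mul]; ring
  rw [hz, zero_mul] at hsum
  have hlt : O.valuation (c l₀) < 1 :=
    h.coeff_small c (by rw [hsum, map_zero]; exact zero_lt_one)
      (by rw [hsum, map_zero]; exact zero_lt_one) l₀
  have hc₀ : c l₀ = 1 := by rw [hc]; exact mul_inv_cancel₀ h0
  rw [hc₀, map_one] at hlt
  exact lt_irrefl _ hlt

theorem linearIndependent (h : GoodFamily O V₁ V₂ m) : LinearIndependent K m := by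
  rw [Fintype.linearIndependent_iff]
  intro a ha l
  refine h.eq_zero_of_sum_eq_zero a ?_ l
  rw [← ha]
  exact Finset.sum_congr rfl fun l _ => (Algebra.smul_def _ _).symm

/-- Coordinates of elements of `V₁ ∩ V₂` in an adapted basis lie in `O`. -/
theorem repr_mem (h : GoodFamily O V₁ V₂ m) (b : Module.Basis (ι₁ ⊕ ι₂) K F) (hb : ⇑b = m)
    {z : F} (hz₁ : z ∈ V₁) (hz₂ : z ∈ V₂) (l : ι₁ ⊕ ι₂) : b.repr z l ∈ O := by
  have hz : (∑ l, algebraMap K F (b.repr z l) * m l) = z := by
    conv_rhs => rw [← b.sum_repr z]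
    refine Finset.sum_congr rfl fun l _ => ?_
    rw [Algebra.smul_def, hb]
  exact h.coeff_mem (fun l => b.repr z l) (by rw [hz]; exact hz₁) (by rw [hz]; exact hz₂) l

theorem sum_repr_eq (b : Module.Basis (ι₁ ⊕ ι₂) K F) (hb : ⇑b = m) (z : F) :
    (∑ l, algebraMap K F (b.repr z l) * m l) = z := by
  conv_rhs => rw [← b.sum_repr z]
  refine Finset.sum_congr rfl fun l _ => ?_
  rw [Algebra.smul_def, hb]

/-- The matrix, with entries in `O`, of multiplication by `y ∈ V₁ ∩ V₂` in an adapted basis. -/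
noncomputable def intMatrix (h : GoodFamily O V₁ V₂ m) (b : Module.Basis (ι₁ ⊕ ι₂) K F)
    (hb : ⇑b = m) {y : F} (hy₁ : y ∈ V₁) (hy₂ : y ∈ V₂) : Matrix (ι₁ ⊕ ι₂) (ι₁ ⊕ ι₂) O :=
  fun k l => ⟨b.repr (y * m l) k,
    h.repr_mem b hb (mul_mem hy₁ (h.mem₁' l)) (mul_mem hy₂ (h.mem₂' l)) k⟩

theorem intMatrix_apply (h : GoodFamily O V₁ V₂ m) (b : Module.Basis (ι₁ ⊕ ι₂) K F)
    (hb : ⇑b = m) {y : F} (hy₁ : y ∈ V₁) (hy₂ : y ∈ V₂) (k l : ι₁ ⊕ ι₂) :
    ((h.intMatrix b hb hy₁ hy₂ k l : O) : K) = b.repr (y * m l) k := rfl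

theorem intMatrix_map [DecidableEq ι₁] [DecidableEq ι₂] (h : GoodFamily O V₁ V₂ m)
    (b : Module.Basis (ι₁ ⊕ ι₂) K F) (hb : ⇑b = m) {y : F} (hy₁ : y ∈ V₁) (hy₂ : y ∈ V₂) :
    (h.intMatrix b hb hy₁ hy₂).map O.subtype = Algebra.leftMulMatrix b y := by
  ext k l
  rw [Matrix.map_apply, Algebra.leftMulMatrix_eq_repr_mul, hb]
  rfl

/-- The norm of `y ∈ V₁ ∩ V₂` is the determinant of the integral matrix. -/
theorem norm_eq_det_intMatrix [DecidableEq ι₁] [DecidableEq ι₂] (h : GoodFamily O V₁ V₂ m)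
    (b : Module.Basis (ι₁ ⊕ ι₂) K F) (hb : ⇑b = m) {y : F} (hy₁ : y ∈ V₁) (hy₂ : y ∈ V₂) :
    Algebra.norm K y = (((h.intMatrix b hb hy₁ hy₂).det : O) : K) := by
  rw [Algebra.norm_eq_matrix_det b, ← h.intMatrix_map b hb hy₁ hy₂]
  have := RingHom.map_det O.subtype (h.intMatrix b hb hy₁ hy₂)
  rw [RingHom.mapMatrix_apply] at this
  rw [← this]
  rfl

/-- In the expansion of `z = ∑ a_l m_l` (integral coefficients), the reduction at `V₁` only sees
the first block. -/
theorem rho_sum₁ (h : GoodFamily O V₁ V₂ m) {k κ₁ : Type*} [Field k] [Field κ₁] [Algebra k κ₁]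
    (π : O →+* k) (ρ₁ : V₁ →+* κ₁) (hρ₁ : ∀ z : V₁, V₁.valuation (z : F) < 1 → ρ₁ z = 0)
    (hc₁ : ∀ a : O, ρ₁ ⟨algebraMap K F a, (h.over₁ a).2 a.2⟩ = algebraMap k κ₁ (π a))
    (a : ι₁ ⊕ ι₂ → O) {z : F} (hz : z ∈ V₁)
    (hza : (∑ l, algebraMap K F (a l : K) * m l) = z) :
    ρ₁ ⟨z, hz⟩ = ∑ i, π (a (Sum.inl i)) • ρ₁ ⟨m (Sum.inl i), h.mem₁ i⟩ := by
  have e : (⟨z, hz⟩ : V₁) =
      ∑ l, (⟨algebraMap K F (a l : K), (h.over₁ (a l : K)).2 (a l).2⟩ : V₁) *
        ⟨m l, h.mem₁' l⟩ := by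
    apply Subtype.ext
    rw [AddSubmonoidClass.coe_finsetSum]
    simp only [MulMemClass.coe_mul]
    exact hza.symm
  rw [e, map_sum, Fintype.sum_sum_type]
  have h2 : (∑ j, ρ₁ ((⟨algebraMap K F (a (Sum.inr j) : K),
      (h.over₁ (a (Sum.inr j) : K)).2 (a _).2⟩ : V₁) *
      ⟨m (Sum.inr j), h.mem₁' (Sum.inr j)⟩)) = 0 := by
    refine Finset.sum_eq_zero fun j _ => ?_
    rw [map_mul, hρ₁ ⟨m (Sum.inr j), h.mem₁' (Sum.inr j)⟩ (h.small₁ j), mul_zero]
  rw [h2, add_zero]
  refine Finset.sum_congr rfl fun i _ => ?_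
  rw [map_mul, hc₁, Algebra.smul_def]

/-- In the expansion of `z = ∑ a_l m_l` (integral coefficients), the reduction at `V₂` only sees
the second block. -/
theorem rho_sum₂ (h : GoodFamily O V₁ V₂ m) {k κ₂ : Type*} [Field k] [Field κ₂] [Algebra k κ₂]
    (π : O →+* k) (ρ₂ : V₂ →+* κ₂) (hρ₂ : ∀ z : V₂, V₂.valuation (z : F) < 1 → ρ₂ z = 0)
    (hc₂ : ∀ a : O, ρ₂ ⟨algebraMap K F a, (h.over₂ a).2 a.2⟩ = algebraMap k κ₂ (π a))
    (a : ι₁ ⊕ ι₂ → O) {z : F} (hz : z ∈ V₂)
    (hza : (∑ l, algebraMap K F (a l : K) * m l) = z) :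
    ρ₂ ⟨z, hz⟩ = ∑ j, π (a (Sum.inr j)) • ρ₂ ⟨m (Sum.inr j), h.mem₂ j⟩ := by
  have e : (⟨z, hz⟩ : V₂) =
      ∑ l, (⟨algebraMap K F (a l : K), (h.over₂ (a l : K)).2 (a l).2⟩ : V₂) *
        ⟨m l, h.mem₂' l⟩ := by
    apply Subtype.ext
    rw [AddSubmonoidClass.coe_finsetSum]
    simp only [MulMemClass.coe_mul]
    exact hza.symm
  rw [e, map_sum, Fintype.sum_sum_type]
  have h2 : (∑ i, ρ₂ ((⟨algebraMap K F (a (Sum.inl i) : K),
      (h.over₂ (a (Sum.inl i) : K)).2 (a _).2⟩ : V₂) *
      ⟨m (Sum.inl i), h.mem₂' (Sum.inl i)⟩)) = 0 := by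
    refine Finset.sum_eq_zero fun i _ => ?_
    rw [map_mul, hρ₂ ⟨m (Sum.inl i), h.mem₂' (Sum.inl i)⟩ (h.small₂ i), mul_zero]
  rw [h2, zero_add]
  refine Finset.sum_congr rfl fun j _ => ?_
  rw [map_mul, hc₂, Algebra.smul_def]

/-- **Norms commute with reduction, two extensions** (adapted-family form). -/
theorem norm_red (h : GoodFamily O V₁ V₂ m)
    (hcard : Fintype.card ι₁ + Fintype.card ι₂ = Module.finrank K F)
    {k κ₁ κ₂ : Type*} [Field k] [Field κ₁] [Field κ₂] [Algebra k κ₁] [Algebra k κ₂]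
    (π : O →+* k) (ρ₁ : V₁ →+* κ₁) (ρ₂ : V₂ →+* κ₂)
    (hπ : ∀ a : O, O.valuation (a : K) < 1 → π a = 0)
    (hρ₁ : ∀ z : V₁, V₁.valuation (z : F) < 1 → ρ₁ z = 0)
    (hρ₂ : ∀ z : V₂, V₂.valuation (z : F) < 1 → ρ₂ z = 0)
    (hc₁ : ∀ a : O, ρ₁ ⟨algebraMap K F a, (h.over₁ a).2 a.2⟩ = algebraMap k κ₁ (π a))
    (hc₂ : ∀ a : O, ρ₂ ⟨algebraMap K F a, (h.over₂ a).2 a.2⟩ = algebraMap k κ₂ (π a))
    (b₁ : Module.Basis ι₁ k κ₁) (hb₁ : ∀ i, ρ₁ ⟨m (Sum.inl i), h.mem₁ i⟩ = b₁ i)
    (b₂ : Module.Basis ι₂ k κ₂) (hb₂ : ∀ j, ρ₂ ⟨m (Sum.inr j), h.mem₂ j⟩ = b₂ j)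
    {y : F} (hy₁ : y ∈ V₁) (hy₂ : y ∈ V₂) :
    ∃ hN : Algebra.norm K y ∈ O,
      π ⟨Algebra.norm K y, hN⟩ =
        Algebra.norm k (ρ₁ ⟨y, hy₁⟩) * Algebra.norm k (ρ₂ ⟨y, hy₂⟩) := by
  classical
  have hne : Nonempty (ι₁ ⊕ ι₂) := by
    by_contra hemp
    rw [not_nonempty_iff] at hemp
    have : IsEmpty ι₁ := ⟨fun i => hemp.false (Sum.inl i)⟩
    have : Subsingleton κ₁ := by
      refine ⟨fun x y => b₁.ext_elem fun i => (IsEmpty.false i).elim⟩
    exact one_ne_zero (Subsingleton.elim (1 : κ₁) 0)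
  have hcard' : Fintype.card (ι₁ ⊕ ι₂) = Module.finrank K F := by
    rw [Fintype.card_sum]; exact hcard
  set b : Module.Basis (ι₁ ⊕ ι₂) K F :=
    basisOfLinearIndependentOfCardEqFinrank h.linearIndependent hcard' with hbdef
  have hb : ⇑b = m := coe_basisOfLinearIndependentOfCardEqFinrank _ _
  set A := h.intMatrix b hb hy₁ hy₂ with hA
  have hnorm := h.norm_eq_det_intMatrix b hb hy₁ hy₂
  have hcol : ∀ l, (∑ k, algebraMap K F ((A k l : O) : K) * m k) = y * m l := fun l =>
    sum_repr_eq b hb (y * m l)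
  -- the reduced matrix is block diagonal
  have hred : π.mapMatrix A =
      Matrix.fromBlocks (Algebra.leftMulMatrix b₁ (ρ₁ ⟨y, hy₁⟩)) 0 0
        (Algebra.leftMulMatrix b₂ (ρ₂ ⟨y, hy₂⟩)) := by
    ext k l
    rw [RingHom.mapMatrix_apply, Matrix.map_apply]
    rcases l with i | j
    · -- column `inl i`
      have hz₁ : y * m (Sum.inl i) ∈ V₁ := mul_mem hy₁ (h.mem₁ i)
      have hsmall : V₂.valuation (y * m (Sum.inl i)) < 1 :=
        val_mul_lt_one_right V₂ ((V₂.valuation_le_one_iff _).2 hy₂) (h.small₂ i)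
      rcases k with i' | j'
      · rw [Matrix.fromBlocks_apply₁₁, Algebra.leftMulMatrix_eq_repr_mul]
        have e1 := h.rho_sum₁ π ρ₁ hρ₁ hc₁ (fun k => A k (Sum.inl i)) hz₁ (hcol (Sum.inl i))
        have e2 : ρ₁ ⟨y * m (Sum.inl i), hz₁⟩ = ρ₁ ⟨y, hy₁⟩ * b₁ i := by
          rw [← hb₁ i, ← map_mul]; rfl
        rw [← e2, e1]
        simp only [hb₁]
        rw [b₁.repr_sum_self]
      · rw [Matrix.fromBlocks_apply₂₁, Matrix.zero_apply]
        refine hπ _ ?_
        refine h.small_inr (fun k => ((A k (Sum.inl i) : O) : K)) (fun k => (A k _).2) ?_ j'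
        rw [hcol]; exact hsmall
    · -- column `inr j`
      have hz₂ : y * m (Sum.inr j) ∈ V₂ := mul_mem hy₂ (h.mem₂ j)
      have hsmall : V₁.valuation (y * m (Sum.inr j)) < 1 :=
        val_mul_lt_one_right V₁ ((V₁.valuation_le_one_iff _).2 hy₁) (h.small₁ j)
      rcases k with i' | j'
      · rw [Matrix.fromBlocks_apply₁₂, Matrix.zero_apply]
        refine hπ _ ?_
        refine h.small_inl (fun k => ((A k (Sum.inr j) : O) : K)) (fun k => (A k _).2) ?_ i'
        rw [hcol]; exact hsmall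
      · rw [Matrix.fromBlocks_apply₂₂, Algebra.leftMulMatrix_eq_repr_mul]
        have e1 := h.rho_sum₂ π ρ₂ hρ₂ hc₂ (fun k => A k (Sum.inr j)) hz₂ (hcol (Sum.inr j))
        have e2 : ρ₂ ⟨y * m (Sum.inr j), hz₂⟩ = ρ₂ ⟨y, hy₂⟩ * b₂ j := by
          rw [← hb₂ j, ← map_mul]; rfl
        rw [← e2, e1]
        simp only [hb₂]
        rw [b₂.repr_sum_self]
  have hN : Algebra.norm K y ∈ O := by rw [hnorm]; exact (A.det).2
  refine ⟨hN, ?_⟩
  have e : (⟨Algebra.norm K y, hN⟩ : O) = A.det := Subtype.ext hnorm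
  rw [e, RingHom.map_det, hred, Matrix.det_fromBlocks_zero₂₁,
    Algebra.norm_eq_matrix_det b₁, Algebra.norm_eq_matrix_det b₂]

end GoodFamily

end Family

section Approx

variable {F : Type*} [Field F]

/-- Two incomparable valuation rings: there is `t` in the maximal ideal of `V₁` whose inverse
lies in the maximal ideal of `V₂`. -/
theorem exists_separating {V₁ V₂ : ValuationSubring F} (hne₁ : ¬ V₁ ≤ V₂) (hne₂ : ¬ V₂ ≤ V₁) :
    ∃ t : F, t ≠ 0 ∧ V₁.valuation t < 1 ∧ V₂.valuation t⁻¹ < 1 := by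
  obtain ⟨a, ha1, ha2⟩ := SetLike.not_le_iff_exists.1 hne₁
  obtain ⟨b, hb2, hb1⟩ := SetLike.not_le_iff_exists.1 hne₂
  have ha0 : a ≠ 0 := by rintro rfl; exact ha2 (zero_mem _)
  have hb0 : b ≠ 0 := by rintro rfl; exact hb1 (zero_mem _)
  have hv1a : V₁.valuation a ≤ 1 := (V₁.valuation_le_one_iff a).2 ha1
  have hv2b : V₂.valuation b ≤ 1 := (V₂.valuation_le_one_iff b).2 hb2
  have hv1b : 1 < V₁.valuation b := by
    rw [← not_le, V₁.valuation_le_one_iff]; exact hb1
  have hv2a : 1 < V₂.valuation a := by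
    rw [← not_le, V₂.valuation_le_one_iff]; exact ha2
  refine ⟨a * b⁻¹, mul_ne_zero ha0 (inv_ne_zero hb0), ?_, ?_⟩
  · refine val_mul_lt_one_right V₁ hv1a ?_
    rw [map_inv₀]; exact inv_lt_one_of_one_lt₀ hv1b
  · rw [mul_inv, inv_inv]
    refine val_mul_lt_one_left V₂ ?_ hv2b
    rw [map_inv₀]; exact inv_lt_one_of_one_lt₀ hv2a

/-- Two incomparable valuation rings: there is `e` with `e ≡ 0` at `V₁` and `e ≡ 1` at `V₂`. -/
theorem exists_idem {V₁ V₂ : ValuationSubring F} (hne₁ : ¬ V₁ ≤ V₂) (hne₂ : ¬ V₂ ≤ V₁) :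
    ∃ e : F, V₁.valuation e < 1 ∧ V₂.valuation (1 - e) < 1 := by
  obtain ⟨t, ht0, ht1, ht2⟩ := exists_separating hne₁ hne₂
  have hu1 : V₁.valuation (1 + t) = 1 := Valuation.map_one_add_of_lt _ ht1
  have hne : 1 + t ≠ 0 := by
    intro h; rw [h, map_zero] at hu1; exact zero_ne_one hu1
  have hpos : 0 < V₂.valuation t := by rw [Valuation.pos_iff]; exact ht0
  have ht2' : 1 < V₂.valuation t := by
    rw [map_inv₀] at ht2
    exact (inv_lt_one₀ hpos).1 ht2
  have hu2 : V₂.valuation (1 + t) = V₂.valuation t := by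
    rw [add_comm]
    exact Valuation.map_add_eq_of_lt_left _ (by rw [map_one]; exact ht2')
  refine ⟨t * (1 + t)⁻¹, ?_, ?_⟩
  · rw [map_mul, map_inv₀, hu1, inv_one, mul_one]; exact ht1
  · have e : 1 - t * (1 + t)⁻¹ = (1 + t)⁻¹ := by field_simp; ring
    rw [e, map_inv₀, hu2, ← map_inv₀]; exact ht2

/-- **Weak approximation** for two incomparable valuation rings (any rank): every `b ∈ V₁` is
congruent modulo the maximal ideal of `V₁` to an element of the maximal ideal of `V₂`. -/
theorem exists_approx {V₁ V₂ : ValuationSubring F} (hne₁ : ¬ V₁ ≤ V₂) (hne₂ : ¬ V₂ ≤ V₁)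
    {b : F} (hb : b ∈ V₁) :
    ∃ g : F, g ∈ V₁ ∧ V₁.valuation (g - b) < 1 ∧ V₂.valuation g < 1 := by
  obtain ⟨e, he1, he2⟩ := exists_idem hne₁ hne₂
  have hb1 : V₁.valuation b ≤ 1 := (V₁.valuation_le_one_iff b).2 hb
  have he2' : V₂.valuation e = 1 := by
    have : e = 1 - (1 - e) := by ring
    rw [this]
    exact Valuation.map_one_sub_of_lt _ he2
  -- step 1: an element `b'` of `V₁ ∩ V₂` congruent to `b` at `V₁`
  obtain ⟨b', hb'1, hb'd, hb'2⟩ : ∃ b' : F, V₁.valuation b' ≤ 1 ∧ V₁.valuation (b' - b) < 1 ∧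
      V₂.valuation b' ≤ 1 := by
    by_cases hb2 : V₂.valuation b ≤ 1
    · exact ⟨b, hb1, by rw [sub_self, map_zero]; exact zero_lt_one, hb2⟩
    · rw [not_le] at hb2
      have hbe1 : V₁.valuation (b * e) < 1 := val_mul_lt_one_right V₁ hb1 he1
      have hu1 : V₁.valuation (1 + b * e) = 1 := Valuation.map_one_add_of_lt _ hbe1
      have hne : 1 + b * e ≠ 0 := by
        intro h; rw [h, map_zero] at hu1; exact zero_ne_one hu1
      have hbe2 : V₂.valuation (b * e) = V₂.valuation b := by rw [map_mul, he2', mul_one]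
      have hu2 : V₂.valuation (1 + b * e) = V₂.valuation b := by
        rw [add_comm, ← hbe2]
        exact Valuation.map_add_eq_of_lt_left _ (by rw [map_one, hbe2]; exact hb2)
      have hb0 : V₂.valuation b ≠ 0 := (lt_trans zero_lt_one hb2).ne'
      refine ⟨b * (1 + b * e)⁻¹, ?_, ?_, ?_⟩
      · rw [map_mul, map_inv₀, hu1, inv_one, mul_one]; exact hb1
      · have e' : b * (1 + b * e)⁻¹ - b = -(b * (b * e)) * (1 + b * e)⁻¹ := by
          field_simp; ring
        rw [e', map_mul, map_inv₀, hu1, inv_one, mul_one, Valuation.map_neg]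
        exact val_mul_lt_one_right V₁ hb1 hbe1
      · rw [map_mul, map_inv₀, hu2, mul_inv_cancel₀ hb0]
  -- step 2: multiply by `1 - e`
  refine ⟨b' * (1 - e), ?_, ?_, ?_⟩
  · rw [← V₁.valuation_le_one_iff, map_mul]
    have : V₁.valuation (1 - e) = 1 := Valuation.map_one_sub_of_lt _ he1
    rw [this, mul_one]; exact hb'1
  · have e' : b' * (1 - e) - b = (b' - b) - b' * e := by ring
    rw [e']
    exact Valuation.map_sub_lt _ hb'd (val_mul_lt_one_right V₁ hb'1 he1)
  · exact val_mul_lt_one_right V₂ hb'2 he2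

end Approx

section Main

variable {K F : Type*} [Field K] [Field F] [Algebra K F]

/-- The kernel of a surjective ring homomorphism from a valuation ring onto a field is the
maximal ideal. -/
theorem map_eq_zero_iff_val_lt_one {k : Type*} [Field k] {V : ValuationSubring F}
    (ρ : V →+* k) (hρ : Function.Surjective ρ) (z : V) :
    ρ z = 0 ↔ V.valuation (z : F) < 1 := by
  have h := IsLocalRing.eq_maximalIdeal (RingHom.ker_isMaximal_of_surjective ρ hρ)
  rw [← ValuationSubring.valuation_lt_one_iff, ← h, RingHom.mem_ker]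

/-- **Norms commute with reduction, two extensions.**  `V₁`, `V₂` incomparable valuation rings of
`F` over `O ⊆ K`, with surjective reductions onto fields `κ₁`, `κ₂` finite over the residue field
`k` of `O`, and `[κ₁ : k] + [κ₂ : k] = [F : K]`.  Then for `y ∈ V₁ ∩ V₂` the norm `N_{F/K} y` lies
in `O` and reduces to `N_{κ₁/k} (ρ₁ y) * N_{κ₂/k} (ρ₂ y)`. -/
theorem norm_red_two {O : ValuationSubring K} {V₁ V₂ : ValuationSubring F}
    (h₁ : Over O V₁) (h₂ : Over O V₂) (hne₁ : ¬ V₁ ≤ V₂) (hne₂ : ¬ V₂ ≤ V₁)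
    {k κ₁ κ₂ : Type*} [Field k] [Field κ₁] [Field κ₂] [Algebra k κ₁] [Algebra k κ₂]
    [Module.Finite k κ₁] [Module.Finite k κ₂]
    (π : O →+* k) (ρ₁ : V₁ →+* κ₁) (ρ₂ : V₂ →+* κ₂)
    (hπ : Function.Surjective π) (hρ₁ : Function.Surjective ρ₁) (hρ₂ : Function.Surjective ρ₂)
    (hc₁ : ∀ a : O, ρ₁ ⟨algebraMap K F a, (h₁ a).2 a.2⟩ = algebraMap k κ₁ (π a))
    (hc₂ : ∀ a : O, ρ₂ ⟨algebraMap K F a, (h₂ a).2 a.2⟩ = algebraMap k κ₂ (π a))
    (hdeg : Module.finrank k κ₁ + Module.finrank k κ₂ = Module.finrank K F)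
    {y : F} (hy₁ : y ∈ V₁) (hy₂ : y ∈ V₂) :
    ∃ hN : Algebra.norm K y ∈ O,
      π ⟨Algebra.norm K y, hN⟩ =
        Algebra.norm k (ρ₁ ⟨y, hy₁⟩) * Algebra.norm k (ρ₂ ⟨y, hy₂⟩) := by
  classical
  set b₁ := Module.finBasis k κ₁ with hb₁def
  set b₂ := Module.finBasis k κ₂ with hb₂def
  choose e₁ he₁ using fun i => hρ₁ (b₁ i)
  choose e₂ he₂ using fun j => hρ₂ (b₂ j)
  choose g₁ hg₁m hg₁d hg₁s using fun i => exists_approx hne₁ hne₂ (e₁ i).2
  choose g₂ hg₂m hg₂d hg₂s using fun j => exists_approx hne₂ hne₁ (e₂ j).2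
  have hρg₁ : ∀ i, ρ₁ ⟨g₁ i, hg₁m i⟩ = b₁ i := fun i => by
    rw [← he₁ i, ← sub_eq_zero, ← map_sub, map_eq_zero_iff_val_lt_one ρ₁ hρ₁]
    exact hg₁d i
  have hρg₂ : ∀ j, ρ₂ ⟨g₂ j, hg₂m j⟩ = b₂ j := fun j => by
    rw [← he₂ j, ← sub_eq_zero, ← map_sub, map_eq_zero_iff_val_lt_one ρ₂ hρ₂]
    exact hg₂d j
  have hπ0 : ∀ a : O, π a = 0 ↔ O.valuation (a : K) < 1 :=
    fun a => map_eq_zero_iff_val_lt_one π hπ a
  have hgood : GoodFamily O V₁ V₂ (Sum.elim g₁ g₂) :=
    { over₁ := h₁
      over₂ := h₂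
      mem₁ := fun i => hg₁m i
      small₂ := fun i => hg₁s i
      mem₂ := fun j => hg₂m j
      small₁ := fun j => hg₂s j
      indep₁ := by
        intro a ha hsmall i
        simp only [Sum.elim_inl] at hsmall
        have hmem : (∑ i, algebraMap K F (a i) * g₁ i) ∈ V₁ :=
          (V₁.valuation_le_one_iff _).1 hsmall.le
        have h0 : ρ₁ ⟨_, hmem⟩ = 0 := (map_eq_zero_iff_val_lt_one ρ₁ hρ₁ ⟨_, hmem⟩).2 hsmall
        have e : (⟨_, hmem⟩ : V₁) =
            ∑ i, (⟨algebraMap K F (a i), (h₁ (a i)).2 (ha i)⟩ : V₁) * ⟨g₁ i, hg₁m i⟩ := by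
          apply Subtype.ext
          rw [AddSubmonoidClass.coe_finsetSum]
          simp only [MulMemClass.coe_mul]
        rw [e, map_sum] at h0
        have h0' : ∑ i, π ⟨a i, ha i⟩ • b₁ i = 0 := by
          rw [← h0]
          refine Finset.sum_congr rfl fun i _ => ?_
          rw [map_mul, hρg₁, Algebra.smul_def, ← hc₁]
        have := Fintype.linearIndependent_iff.1 b₁.linearIndependent _ h0' i
        exact (hπ0 ⟨a i, ha i⟩).1 this
      indep₂ := by
        intro a ha hsmall j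
        simp only [Sum.elim_inr] at hsmall
        have hmem : (∑ j, algebraMap K F (a j) * g₂ j) ∈ V₂ :=
          (V₂.valuation_le_one_iff _).1 hsmall.le
        have h0 : ρ₂ ⟨_, hmem⟩ = 0 := (map_eq_zero_iff_val_lt_one ρ₂ hρ₂ ⟨_, hmem⟩).2 hsmall
        have e : (⟨_, hmem⟩ : V₂) =
            ∑ j, (⟨algebraMap K F (a j), (h₂ (a j)).2 (ha j)⟩ : V₂) * ⟨g₂ j, hg₂m j⟩ := by
          apply Subtype.ext
          rw [AddSubmonoidClass.coe_finsetSum]
          simp only [MulMemClass.coe_mul]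
        rw [e, map_sum] at h0
        have h0' : ∑ j, π ⟨a j, ha j⟩ • b₂ j = 0 := by
          rw [← h0]
          refine Finset.sum_congr rfl fun j _ => ?_
          rw [map_mul, hρg₂, Algebra.smul_def, ← hc₂]
        have := Fintype.linearIndependent_iff.1 b₂.linearIndependent _ h0' j
        exact (hπ0 ⟨a j, ha j⟩).1 this }
  refine hgood.norm_red (by simpa using hdeg) π ρ₁ ρ₂ (fun a ha => (hπ0 a).2 ha)
    (fun z hz => (map_eq_zero_iff_val_lt_one ρ₁ hρ₁ z).2 hz)
    (fun z hz => (map_eq_zero_iff_val_lt_one ρ₂ hρ₂ z).2 hz) hc₁ hc₂ b₁ hρg₁ b₂ hρg₂ hy₁ hy₂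

end Main

section Insep

variable {k κ : Type*} [Field k] [Field κ] [Algebra k κ]

/-- Norm in a residue extension of degree one. -/
theorem algebraMap_norm_of_finrank_eq_one (hdeg : Module.finrank k κ = 1) (z : κ) :
    algebraMap k κ (Algebra.norm k z) = z := by
  have hfin : FiniteDimensional k κ := Module.finite_of_finrank_pos (by rw [hdeg]; exact one_pos)
  have htop : (⊥ : Subalgebra k κ) = ⊤ := Subalgebra.bot_eq_top_of_finrank_eq_one hdeg
  have hz : z ∈ (⊥ : Subalgebra k κ) := by rw [htop]; exact Algebra.mem_top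
  obtain ⟨a, rfl⟩ := Algebra.mem_bot.1 hz
  rw [Algebra.norm_algebraMap, hdeg, pow_one]

/-- Norm in a purely inseparable residue extension of degree `q = char`: if `z ^ q` comes from
`a ∈ k`, then `N z = a`. -/
theorem norm_eq_of_pow_eq (q : ℕ) [Fact q.Prime] [CharP k q] (hdeg : Module.finrank k κ = q)
    {z : κ} {a : k} (ha : algebraMap k κ a = z ^ q) : Algebra.norm k z = a := by
  have h1 : (Algebra.norm k z) ^ q = a ^ q := by
    rw [← map_pow, ← ha, Algebra.norm_algebraMap, hdeg]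
  exact frobenius_inj k q h1

theorem algebraMap_norm_eq_pow (q : ℕ) [Fact q.Prime] [CharP k q]
    (hdeg : Module.finrank k κ = q) (hpow : ∀ z : κ, z ^ q ∈ (algebraMap k κ).range) (z : κ) :
    algebraMap k κ (Algebra.norm k z) = z ^ q := by
  obtain ⟨a, ha⟩ := hpow z
  rw [norm_eq_of_pow_eq q hdeg ha, ha]

end Insep

section Hecke

variable {K F : Type*} [Field K] [Field F] [Algebra K F]

/-- **Norm reduction for a degeneracy map at a prime of bad reduction.**
`[F : K] = q + 1`, two extensions `V₁` (residue degree `1`) and `V₂` (residue degree `q`, with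
`κ₂ ^ q ⊆ k`).  For `y ∈ V₁ ∩ V₂` the norm is integral and
`red (N y) = red₁ y * a`, where `a ∈ k` is the element with `a = (red₂ y) ^ q` in `κ₂`. -/
theorem norm_red_insep {O : ValuationSubring K} {V₁ V₂ : ValuationSubring F}
    (h₁ : Over O V₁) (h₂ : Over O V₂) (hne₁ : ¬ V₁ ≤ V₂) (hne₂ : ¬ V₂ ≤ V₁)
    {k κ₁ κ₂ : Type*} [Field k] [Field κ₁] [Field κ₂] [Algebra k κ₁] [Algebra k κ₂]
    (q : ℕ) [Fact q.Prime] [CharP k q]
    (π : O →+* k) (ρ₁ : V₁ →+* κ₁) (ρ₂ : V₂ →+* κ₂)
    (hπ : Function.Surjective π) (hρ₁ : Function.Surjective ρ₁) (hρ₂ : Function.Surjective ρ₂)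
    (hc₁ : ∀ a : O, ρ₁ ⟨algebraMap K F a, (h₁ a).2 a.2⟩ = algebraMap k κ₁ (π a))
    (hc₂ : ∀ a : O, ρ₂ ⟨algebraMap K F a, (h₂ a).2 a.2⟩ = algebraMap k κ₂ (π a))
    (hdeg₁ : Module.finrank k κ₁ = 1) (hdeg₂ : Module.finrank k κ₂ = q)
    (hdeg : Module.finrank K F = q + 1)
    {y : F} (hy₁ : y ∈ V₁) (hy₂ : y ∈ V₂) {a : k}
    (ha : algebraMap k κ₂ a = ρ₂ ⟨y, hy₂⟩ ^ q) :
    ∃ hN : Algebra.norm K y ∈ O,
      algebraMap k κ₁ (π ⟨Algebra.norm K y, hN⟩) = ρ₁ ⟨y, hy₁⟩ * algebraMap k κ₁ a := by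
  have hq : 0 < q := (Fact.out : q.Prime).pos
  have : Module.Finite k κ₁ := Module.finite_of_finrank_pos (by rw [hdeg₁]; exact one_pos)
  have : Module.Finite k κ₂ := Module.finite_of_finrank_pos (by rw [hdeg₂]; exact hq)
  obtain ⟨hN, hred⟩ := norm_red_two h₁ h₂ hne₁ hne₂ π ρ₁ ρ₂ hπ hρ₁ hρ₂ hc₁ hc₂
    (by rw [hdeg₁, hdeg₂, hdeg, add_comm]) hy₁ hy₂
  refine ⟨hN, ?_⟩
  rw [hred, map_mul, algebraMap_norm_of_finrank_eq_one hdeg₁, norm_eq_of_pow_eq q hdeg₂ ha]

end Hecke

end Fermat.Agent.S35.H253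

end
-- ===== PACK-END S35/H253/NormRed2.lean

-- ===== PACK-BEGIN S37/H697/FrobF.lean
section


/-!
# S37 (helper697): coefficientwise automorphisms of the function field `k(j(q^d) : d ∣ N)`

For a field `k` and a ring automorphism `φ` of `k`, the coefficientwise map `coeffMap φ` on
`k((q))` preserves `modularFunctionFieldFullC k N` (its generators have coefficients in the prime
ring).  This gives a semilinear automorphism `coeffSL N φ` of the function field, hence an action
on places and divisors (Prelude `SemilinearAut`).  For `φ` = Frobenius this is the map `Φ` of the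
Eichler–Shimura relation.
-/

set_option autoImplicit false

noncomputable section

open HahnSeries IntermediateField AlgebraicCurve ModularCurve

namespace Fermat.Agent.S37.H697

variable {k : Type*} [Field k] (N : ℕ)

theorem mem_fullC_iff {x : LaurentSeries k} :
    x ∈ modularFunctionFieldFullC k N ↔
      x ∈ Subfield.closure
        (Set.range (algebraMap k (LaurentSeries k)) ∪ divisorExpansionsC k N) :=
  Iff.rfl

theorem coeffMap_mem_fullC (φ : k →+* k) {x : LaurentSeries k}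
    (hx : x ∈ modularFunctionFieldFullC k N) :
    coeffMap φ x ∈ modularFunctionFieldFullC k N := by
  rw [mem_fullC_iff] at hx
  induction hx using Subfield.closure_induction with
  | mem y hy =>
      rcases hy with ⟨a, rfl⟩ | ⟨d, hd, hdN, rfl⟩
      · rw [coeffMap_algebraMap]
        exact (modularFunctionFieldFullC k N).algebraMap_mem _
      · have := hd
        rw [coeffMap_qExpand, coeffMap_jqModC]
        exact jqModCd_mem_full k N hdN
  | one => simp
  | add x y _ _ hx hy => simpa using add_mem hx hy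
  | neg x _ hx => simpa using neg_mem hx
  | inv x _ hx => simpa using inv_mem hx
  | mul x y _ _ hx hy => simpa using mul_mem hx hy

/-- The coefficientwise ring automorphism of `modularFunctionFieldFullC k N` induced by a ring
automorphism of `k`. -/
def coeffRingAut (φ : k ≃+* k) :
    (modularFunctionFieldFullC k N) ≃+* (modularFunctionFieldFullC k N) where
  toFun x := ⟨coeffMap (φ : k →+* k) (x : LaurentSeries k), coeffMap_mem_fullC N _ x.2⟩
  invFun x := ⟨coeffMap (φ.symm : k →+* k) (x : LaurentSeries k), coeffMap_mem_fullC N _ x.2⟩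
  left_inv x := Subtype.ext <| by
    show coeffMap (φ.symm : k →+* k) (coeffMap (φ : k →+* k) (x : LaurentSeries k))
      = (x : LaurentSeries k)
    rw [coeffMap_coeffMap,
      coeffMap_congr (g := RingHom.id k) (RingHom.ext fun a => φ.symm_apply_apply a)
        (x : LaurentSeries k),
      coeffMap_id]
  right_inv x := Subtype.ext <| by
    show coeffMap (φ : k →+* k) (coeffMap (φ.symm : k →+* k) (x : LaurentSeries k))
      = (x : LaurentSeries k)
    rw [coeffMap_coeffMap,
      coeffMap_congr (g := RingHom.id k) (RingHom.ext fun a => φ.apply_symm_apply a)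
        (x : LaurentSeries k),
      coeffMap_id]
  map_mul' x y :=
    Subtype.ext (map_mul (coeffMap (φ : k →+* k)) (x : LaurentSeries k) (y : LaurentSeries k))
  map_add' x y :=
    Subtype.ext (map_add (coeffMap (φ : k →+* k)) (x : LaurentSeries k) (y : LaurentSeries k))

@[simp]
theorem coe_coeffRingAut_apply (φ : k ≃+* k) (x : modularFunctionFieldFullC k N) :
    (coeffRingAut N φ x : LaurentSeries k) = coeffMap (φ : k →+* k) (x : LaurentSeries k) :=
  rfl

theorem coeffRingAut_algebraMap (φ : k ≃+* k) (a : k) :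
    coeffRingAut N φ (algebraMap k (modularFunctionFieldFullC k N) a)
      = algebraMap k (modularFunctionFieldFullC k N) (φ a) :=
  Subtype.ext (coeffMap_algebraMap (φ : k →+* k) a)

/-- The semilinear automorphism of `modularFunctionFieldFullC k N` induced by a ring automorphism
of `k`. -/
def coeffSL (φ : k ≃+* k) : SemilinearAut k (modularFunctionFieldFullC k N) :=
  ⟨(coeffRingAut N φ, φ), fun a => coeffRingAut_algebraMap N φ a⟩

@[simp]
theorem coe_coeffSL_smul (φ : k ≃+* k) (x : modularFunctionFieldFullC k N) :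
    ((coeffSL N φ • x : modularFunctionFieldFullC k N) : LaurentSeries k)
      = coeffMap (φ : k →+* k) (x : LaurentSeries k) :=
  rfl

theorem coeffSL_symm (φ : k ≃+* k) : coeffSL N φ.symm = (coeffSL N φ)⁻¹ := rfl

theorem coeffSL_refl : coeffSL N (RingEquiv.refl k) = 1 := by
  refine Subtype.ext (Prod.ext (RingEquiv.ext fun x => Subtype.ext ?_) rfl)
  show coeffMap ((RingEquiv.refl k : k ≃+* k) : k →+* k) (x : LaurentSeries k)
    = (x : LaurentSeries k)
  rw [show ((RingEquiv.refl k : k ≃+* k) : k →+* k) = RingHom.id k from RingHom.ext fun _ => rfl,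
    coeffMap_id]

end Fermat.Agent.S37.H697

end
end
-- ===== PACK-END S37/H697/FrobF.lean

-- ===== PACK-BEGIN A2/Alg/H754/LocU.lean
section


/-!
# A2 / ALG / P-S (helper754): elementwise local units

`B` a domain with fraction field `F`, `𝔮` a prime of `B`.  `LocU 𝔮 f` : `f` is a unit of `B_𝔮`,
elementwise (`f = a / b`, `a, b ∈ B ∖ 𝔮`).  Closure under products, inverses, integer powers;
comparison with a valuation subring `W = B_𝔮` of `F`.
-/

set_option autoImplicit false

namespace Fermat.Agent.A2.Alg.H754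

variable {B F : Type*} [CommRing B] [Field F] [Algebra B F]

/-- `f` is a unit of `B_𝔮`, elementwise. -/
def LocU (𝔮 : Ideal B) (f : F) : Prop :=
  ∃ a b : B, a ∉ 𝔮 ∧ b ∉ 𝔮 ∧ f * algebraMap B F b = algebraMap B F a

namespace LocU

variable {𝔮 : Ideal B}

theorem one (h1 : (1 : B) ∉ 𝔮) : LocU 𝔮 (1 : F) :=
  ⟨1, 1, h1, h1, by rw [map_one, mul_one]⟩

theorem of_notMem {b : B} (hb : b ∉ 𝔮) (h1 : (1 : B) ∉ 𝔮) : LocU 𝔮 (algebraMap B F b) :=
  ⟨b, 1, hb, h1, by rw [map_one, mul_one]⟩

theorem mono {𝔮' : Ideal B} (h : 𝔮 ≤ 𝔮') {f : F} (hf : LocU 𝔮' f) : LocU 𝔮 f := by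
  obtain ⟨a, b, ha, hb, hab⟩ := hf
  exact ⟨a, b, fun h' => ha (h h'), fun h' => hb (h h'), hab⟩

theorem mul [h𝔮 : 𝔮.IsPrime] {f g : F} (hf : LocU 𝔮 f) (hg : LocU 𝔮 g) : LocU 𝔮 (f * g) := by
  obtain ⟨a, b, ha, hb, hab⟩ := hf
  obtain ⟨a', b', ha', hb', hab'⟩ := hg
  refine ⟨a * a', b * b', ?_, ?_, ?_⟩
  · exact fun h => (h𝔮.mem_or_mem h).elim ha ha'
  · exact fun h => (h𝔮.mem_or_mem h).elim hb hb'
  · rw [map_mul, map_mul, ← hab, ← hab']
    ring

theorem pow [h𝔮 : 𝔮.IsPrime] {f : F} (hf : LocU 𝔮 f) (k : ℕ) : LocU 𝔮 (f ^ k) := by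
  induction k with
  | zero =>
    rw [pow_zero]
    exact one (fun h => h𝔮.ne_top ((Ideal.eq_top_iff_one _).2 h))
  | succ k ih =>
    rw [pow_succ]
    exact ih.mul hf

variable [FaithfulSMul B F]

theorem algebraMap_ne_zero {b : B} (hb : b ∉ 𝔮) : algebraMap B F b ≠ 0 := by
  intro h
  have : b = 0 := FaithfulSMul.algebraMap_injective B F (by rw [h, map_zero])
  exact hb (this ▸ 𝔮.zero_mem)

theorem ne_zero {f : F} (hf : LocU 𝔮 f) : f ≠ 0 := by
  obtain ⟨a, b, ha, hb, hab⟩ := hf
  rintro rfl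
  rw [zero_mul] at hab
  exact algebraMap_ne_zero ha hab.symm

theorem inv {f : F} (hf : LocU 𝔮 f) : LocU 𝔮 f⁻¹ := by
  have hf0 := hf.ne_zero
  obtain ⟨a, b, ha, hb, hab⟩ := hf
  refine ⟨b, a, hb, ha, ?_⟩
  rw [← hab, ← mul_assoc, inv_mul_cancel₀ hf0, one_mul]

theorem zpow [h𝔮 : 𝔮.IsPrime] {f : F} (hf : LocU 𝔮 f) (k : ℤ) : LocU 𝔮 (f ^ k) := by
  cases k with
  | ofNat k =>
    rw [Int.ofNat_eq_natCast, zpow_natCast]
    exact hf.pow k
  | negSucc k =>
    rw [zpow_negSucc]
    exact (hf.pow (k + 1)).inv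

/-- cancel a power: used with a valuation ring. -/
theorem of_mul_left [h𝔮 : 𝔮.IsPrime] {f g : F} (hfg : LocU 𝔮 (f * g)) (hg : LocU 𝔮 g) :
    LocU 𝔮 f := by
  have hg0 := hg.ne_zero
  have := hfg.mul hg.inv
  rwa [mul_assoc, mul_inv_cancel₀ hg0, mul_one] at this

end LocU

section Val

variable [FaithfulSMul B F]

/-- `f` and `f⁻¹` both in `B_𝔮` (elementwise) implies `f` is a unit of `B_𝔮`. -/
theorem locU_of_frac_of_inv_frac (𝔮 : Ideal B) [h𝔮 : 𝔮.IsPrime] {f : F} (hf : f ≠ 0)
    (h1 : ∃ a s : B, s ∉ 𝔮 ∧ f * algebraMap B F s = algebraMap B F a)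
    (h2 : ∃ a s : B, s ∉ 𝔮 ∧ f⁻¹ * algebraMap B F s = algebraMap B F a) : LocU 𝔮 f := by
  obtain ⟨a, s, hs, has⟩ := h1
  obtain ⟨a', s', hs', has'⟩ := h2
  refine ⟨a, s, ?_, hs, has⟩
  intro ha
  have e : algebraMap B F (a * a') = algebraMap B F (s * s') := by
    rw [map_mul, map_mul, ← has, ← has']
    field_simp
  have e' : a * a' = s * s' := FaithfulSMul.algebraMap_injective B F e
  have : s * s' ∈ 𝔮 := e' ▸ 𝔮.mul_mem_right a' ha
  exact (h𝔮.mem_or_mem this).elim hs hs'

/-- Units of a valuation subring `W = B_𝔮`. -/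
theorem locU_iff_of_valuationSubring (𝔮 : Ideal B) [h𝔮 : 𝔮.IsPrime] (W : ValuationSubring F)
    (hW : ∀ f : F, f ∈ W ↔ ∃ a s : B, s ∉ 𝔮 ∧ f * algebraMap B F s = algebraMap B F a)
    {f : F} (hf : f ≠ 0) : LocU 𝔮 f ↔ f ∈ W ∧ f⁻¹ ∈ W := by
  constructor
  · intro h
    refine ⟨?_, ?_⟩
    · obtain ⟨a, b, -, hb, hab⟩ := h
      exact (hW f).2 ⟨a, b, hb, hab⟩
    · obtain ⟨a, b, -, hb, hab⟩ := h.inv
      exact (hW f⁻¹).2 ⟨a, b, hb, hab⟩
  · rintro ⟨h1, h2⟩
    exact locU_of_frac_of_inv_frac 𝔮 hf ((hW f).1 h1) ((hW f⁻¹).1 h2)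

/-- In a valuation ring, an element whose positive power is a unit is a unit. -/
theorem locU_of_pow (𝔮 : Ideal B) [h𝔮 : 𝔮.IsPrime] (W : ValuationSubring F)
    (hW : ∀ f : F, f ∈ W ↔ ∃ a s : B, s ∉ 𝔮 ∧ f * algebraMap B F s = algebraMap B F a)
    {f : F} {m : ℕ} (hm : 0 < m) (h : LocU 𝔮 (f ^ m)) : LocU 𝔮 f := by
  have hf0 : f ≠ 0 := by
    rintro rfl
    rw [zero_pow hm.ne'] at h
    exact h.ne_zero rfl
  obtain ⟨k, rfl⟩ : ∃ k, m = k + 1 := ⟨m - 1, (Nat.sub_add_cancel hm).symm⟩
  obtain ⟨h1, h2⟩ := (locU_iff_of_valuationSubring 𝔮 W hW (pow_ne_zero _ hf0)).1 h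
  rw [locU_iff_of_valuationSubring 𝔮 W hW hf0]
  rcases W.mem_or_inv_mem f with hf | hf
  · refine ⟨hf, ?_⟩
    have e : f⁻¹ = f ^ k * (f ^ (k + 1))⁻¹ := by
      rw [pow_succ]
      field_simp
    rw [e]
    exact W.mul_mem _ _ (pow_mem hf k) h2
  · refine ⟨?_, hf⟩
    have e : f = f⁻¹ ^ k * f ^ (k + 1) := by
      rw [pow_succ, inv_pow]
      field_simp
    rw [e]
    exact W.mul_mem _ _ (pow_mem hf k) h1

end Val

end Fermat.Agent.A2.Alg.H754

end
-- ===== PACK-END A2/Alg/H754/LocU.lean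

-- ===== PACK-BEGIN S18/H754/LocalUFD.lean
section


/-!
# S18 / Route K / étale Kummer cover, piece P1 (helper754)

A Noetherian local domain whose maximal ideal is generated by a prime element `ϖ` and one more
element `t` is a unique factorisation domain.
-/

set_option autoImplicit false

noncomputable section

namespace Fermat.Agent.S18.H754

open IsLocalRing

section P1

variable {R : Type*} [CommRing R] [IsDomain R] [IsNoetherianRing R] [IsLocalRing R]

/-- The quotient of a Noetherian local domain by a prime element `ϖ` with `𝔪 = (ϖ, t)` is a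
principal ideal ring. -/
theorem isPrincipalIdealRing_quotient_of_regular_pair (ϖ t : R) (hϖ : Prime ϖ)
    (hm : maximalIdeal R = Ideal.span {ϖ, t}) :
    letI : (Ideal.span {ϖ}).IsPrime := (Ideal.span_singleton_prime hϖ.ne_zero).mpr hϖ
    IsPrincipalIdealRing (R ⧸ Ideal.span {ϖ}) := by
  haveI hprime : (Ideal.span {ϖ}).IsPrime := (Ideal.span_singleton_prime hϖ.ne_zero).mpr hϖ
  haveI : Nontrivial (R ⧸ Ideal.span {ϖ}) := Ideal.Quotient.nontrivial_iff.mpr hprime.ne_top
  haveI : IsLocalRing (R ⧸ Ideal.span {ϖ}) :=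
    IsLocalRing.of_surjective' (Ideal.Quotient.mk _) Ideal.Quotient.mk_surjective
  have hmax : maximalIdeal (R ⧸ Ideal.span {ϖ}) =
      Ideal.span {Ideal.Quotient.mk (Ideal.span {ϖ}) t} := by
    have h1 : maximalIdeal (R ⧸ Ideal.span {ϖ}) =
        (maximalIdeal R).map (Ideal.Quotient.mk (Ideal.span {ϖ})) := by
      haveI := IsLocalHom.of_surjective (Ideal.Quotient.mk (Ideal.span {ϖ}))
        Ideal.Quotient.mk_surjective
      ext x
      obtain ⟨x, rfl⟩ := Ideal.Quotient.mk_surjective x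
      simp [sup_eq_left.mpr (le_maximalIdeal hprime.ne_top)]
    rw [h1, hm, Ideal.map_span, Set.image_pair]
    have h0 : Ideal.Quotient.mk (Ideal.span {ϖ}) ϖ = 0 :=
      Ideal.Quotient.eq_zero_iff_mem.mpr (Ideal.mem_span_singleton_self ϖ)
    rw [h0]
    apply le_antisymm
    · rw [Ideal.span_le]
      rintro x (rfl | rfl)
      · exact Ideal.zero_mem _
      · exact Ideal.subset_span rfl
    · apply Ideal.span_mono
      intro x hx
      right
      exact hx
  have htfae := (tfae_of_isNoetherianRing_of_isLocalRing_of_isDomain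
    (R := R ⧸ Ideal.span {ϖ})).out 4 0
  exact htfae.mp ⟨⟨_, hmax⟩⟩

/-- **P1.** A Noetherian local domain with `𝔪 = (ϖ, t)`, `ϖ` prime, is a UFD. -/
theorem ufd_of_regular_pair (ϖ t : R) (hϖ : Prime ϖ)
    (hm : maximalIdeal R = Ideal.span {ϖ, t}) : UniqueFactorizationMonoid R := by
  haveI hprime : (Ideal.span {ϖ}).IsPrime := (Ideal.span_singleton_prime hϖ.ne_zero).mpr hϖ
  haveI hpid : IsPrincipalIdealRing (R ⧸ Ideal.span {ϖ}) :=
    isPrincipalIdealRing_quotient_of_regular_pair ϖ t hϖ hm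
  apply UniqueFactorizationMonoid.of_forall_isPrincipal_of_height_eq_one
  intro 𝔮 h𝔮 hht
  by_cases hϖ𝔮 : ϖ ∈ 𝔮
  · exact ⟨ϖ, 𝔮.eq_span_singleton_of_height_eq_one hht hϖ𝔮 hϖ⟩
  · -- the image of `𝔮` modulo `ϖ` is principal
    obtain ⟨fbar, hfbar⟩ := (hpid.principal (𝔮.map (Ideal.Quotient.mk (Ideal.span {ϖ})))).principal
    have hfmem : fbar ∈ 𝔮.map (Ideal.Quotient.mk (Ideal.span {ϖ})) := by
      rw [hfbar]
      exact Submodule.mem_span_singleton_self fbar
    obtain ⟨f, hf𝔮, rfl⟩ :=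
      (Ideal.mem_map_iff_of_surjective _ Ideal.Quotient.mk_surjective).1 hfmem
    refine ⟨f, le_antisymm ?_ ?_⟩
    · have key : 𝔮 ≤ Ideal.span {f} ⊔ Ideal.span {ϖ} • 𝔮 := by
        intro g hg
        have hgbar : Ideal.Quotient.mk (Ideal.span {ϖ}) g ∈
            𝔮.map (Ideal.Quotient.mk (Ideal.span {ϖ})) := Ideal.mem_map_of_mem _ hg
        rw [hfbar] at hgbar
        obtain ⟨abar, habar⟩ := Submodule.mem_span_singleton.1 hgbar
        obtain ⟨a, rfl⟩ := Ideal.Quotient.mk_surjective abar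
        have h1 : g - a * f ∈ Ideal.span {ϖ} := by
          rw [← Ideal.Quotient.eq_zero_iff_mem, map_sub, map_mul, sub_eq_zero]
          rw [← habar]
          rfl
        obtain ⟨g₁, hg₁⟩ := Ideal.mem_span_singleton'.1 h1
        have hg₁𝔮 : g₁ ∈ 𝔮 := by
          have h2 : g₁ * ϖ ∈ 𝔮 := by
            rw [hg₁]
            exact 𝔮.sub_mem hg (𝔮.mul_mem_left a hf𝔮)
          exact (h𝔮.mem_or_mem h2).resolve_right hϖ𝔮
        have h3 : g = a * f + ϖ * g₁ := by
          rw [mul_comm ϖ g₁, hg₁]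
          ring
        rw [h3]
        refine Submodule.add_mem_sup ?_ ?_
        · exact Ideal.mul_mem_left _ a (Ideal.mem_span_singleton_self f)
        · exact Submodule.smul_mem_smul (Ideal.mem_span_singleton_self ϖ) hg₁𝔮
      have hjac : Ideal.span {ϖ} ≤ Ideal.jacobson (⊥ : Ideal R) := by
        rw [IsLocalRing.jacobson_eq_maximalIdeal ⊥ bot_ne_top, Ideal.span_singleton_le_iff_mem]
        exact hϖ.not_unit
      exact Submodule.le_of_le_smul_of_le_jacobson_bot (IsNoetherian.noetherian 𝔮) hjac key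
    · rw [Submodule.span_singleton_le_iff_mem]
      exact hf𝔮

end P1

end Fermat.Agent.S18.H754

end

end
-- ===== PACK-END S18/H754/LocalUFD.lean

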