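import Mathlib
import Fermat.Prelude.Def_GroupCohomology_ContinuousUnramified
import Fermat.Prelude.Def_CuspForm_HeckeGaloisRepDatum
import Fermat.Prelude.Def_EllipticCurve_FrobeniusTrace
import Mathlib.NumberTheory.ModularForms.LevelOne.GradedRing
import Mathlib.NumberTheory.ModularForms.Derivative
import Mathlib.Analysis.Complex.LocallyUniformLimit
import Mathlib.Analysis.Complex.TaylorSeries
import Mathlib.Analysis.Calculus.Deriv.Polynomial
import Mathlib.RingTheory.PowerSeries.PiTopology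
import Fermat.Prelude.Def_ModularCurve_X0
import Mathlib.NumberTheory.ModularForms.QExpansion
import Mathlib.NumberTheory.ModularForms.EisensteinSeries.QExpansion
import Mathlib.NumberTheory.ModularForms.LevelOne.DimensionFormula
import Fermat.Statements.S22
import Fermat.Prelude.Def_GaloisRep_Residual
import Fermat.Prelude.Def_ModularCurve_HeckeModule
import Mathlib.Analysis.Complex.Liouville
import Mathlib.Analysis.Analytic.Order
import Mathlib.NumberTheory.ModularForms.CongruenceSubgroups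
import Mathlib.GroupTheory.GroupAction.Quotient
import Mathlib.GroupTheory.Index
import Fermat.Prelude.Def_ModularCurve_GenusNumerics
import Mathlib.Data.Nat.Squarefree
import Mathlib.Data.Nat.Factorization.Induction
import Mathlib.SetTheory.Cardinal.NatCard
import Fermat.Prelude.Def_AlgebraicCurve_CanonicalDivisor
import Fermat.Prelude.Def_ModularCurve_LaurentCoeff
import Fermat.Prelude.Def_ModularForm_HeckeOperatorForms
import Fermat.Prelude.Thm_ModularForm_heckeT_slash_eq_self_of_mem_Gamma0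
import Fermat.Prelude.Def_ModularCurve_PeriodMap
import Fermat.Prelude.Def_ModularCurve_ReductionModL
import Fermat.Statements.S21
import Mathlib.Analysis.InnerProductSpace.Basic
import Mathlib.Analysis.SpecificLimits.Basic
import Fermat.Prelude.Def_CuspForm_IntegralStructure
import Mathlib.NumberTheory.ModularForms.NormTrace
import Fermat.Prelude.Def_ModularForm_HeckeOperator
import Fermat.Prelude.Thm_CongruenceSubgroup_one_mem_strictPeriods_Gamma0
import Fermat.Prelude.Def_FormalHecke_Eigensystem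
import Fermat.Prelude.Def_AlgebraicCurve_Correspondence
import Mathlib.NumberTheory.ModularForms.LFunction
import Fermat.Prelude.Def_CuspForm_Newforms
import Fermat.Prelude.Def_CuspForm_HeckeAlgebra
import Fermat.Prelude.Thm_ModularFormClass_qCoeff_heckeT
import Fermat.Prelude.Thm_ModularFormClass_qCoeff_heckeU
import Fermat.Prelude.Def_ModularCurve_X0ModL
import Mathlib.LinearAlgebra.Matrix.SpecialLinearGroup
import Mathlib.Data.ZMod.Basic

-- ===== PACK-BEGIN S55/Bridge/Level.lean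
section



/-!
# S55 bridge, part B2a: a representation as in S55 factors through a finite Galois level
unramified outside `S`.
-/

set_option autoImplicit false

namespace Fermat.Agent.S55.Bridge

open IntermediateField

/-- `ℚ̄/ℚ` is algebraic (for the `Algebra ℚ ℚ̄` instance found by instance search). -/
theorem isAlgebraic_Qbar : Algebra.IsAlgebraic ℚ (AlgebraicClosure ℚ) :=
  AlgebraicClosure.isAlgebraic ℚ

/-- `ℚ̄/ℚ` is Galois (for the `Algebra ℚ ℚ̄` instance found by instance search). -/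
theorem isGalois_Qbar : IsGalois ℚ (AlgebraicClosure ℚ) := by
  haveI : Algebra.IsAlgebraic ℚ (AlgebraicClosure ℚ) := isAlgebraic_Qbar
  haveI : IsAlgClosure ℚ (AlgebraicClosure ℚ) := ⟨inferInstance, inferInstance⟩
  haveI : Normal ℚ (AlgebraicClosure ℚ) := IsAlgClosure.normal ℚ (AlgebraicClosure ℚ)
  exact isGalois_iff.mpr ⟨inferInstance, inferInstance⟩

attribute [local instance] isAlgebraic_Qbar isGalois_Qbar

/-- A subgroup of `G_ℚ` containing `G_F` for a finite `F/ℚ` and all inertia groups outside `S`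
is `G_L` for a finite `L/ℚ` unramified outside `S`. -/
theorem exists_level_of_subgroup (S : Finset Nat.Primes)
    (N : Subgroup (AlgebraicClosure ℚ ≃ₐ[ℚ] AlgebraicClosure ℚ))
    (F : IntermediateField ℚ (AlgebraicClosure ℚ)) (hFfin : FiniteDimensional ℚ F)
    (hF : F.fixingSubgroup ≤ N)
    (hur : ∀ q : Nat.Primes, q ∉ S → ∀ A : ValuationSubring (AlgebraicClosure ℚ),
      A.LiesOverPrime (q : ℕ) → A.inertiaSubgroupIn ℚ ≤ N) :
    ∃ L : IntermediateField ℚ (AlgebraicClosure ℚ),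
      L.IsUnramifiedOutside S ∧ L.fixingSubgroup = N ∧ L ≤ F := by
  have hopenF : IsOpen (F.fixingSubgroup : Set (AlgebraicClosure ℚ ≃ₐ[ℚ] AlgebraicClosure ℚ)) :=
    IntermediateField.fixingSubgroup_isOpen F
  have hopen : IsOpen (N : Set (AlgebraicClosure ℚ ≃ₐ[ℚ] AlgebraicClosure ℚ)) :=
    Subgroup.isOpen_mono hF hopenF
  have hclosed : IsClosed (N : Set (AlgebraicClosure ℚ ≃ₐ[ℚ] AlgebraicClosure ℚ)) :=
    Subgroup.isClosed_of_isOpen N hopen
  have hfix : (IntermediateField.fixedField N).fixingSubgroup = N :=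
    InfiniteGalois.fixingSubgroup_fixedField ⟨N, hclosed⟩
  have hle : IntermediateField.fixedField N ≤ F := by
    rw [← InfiniteGalois.fixedField_fixingSubgroup F]
    exact IntermediateField.fixedField_antitone hF
  refine ⟨IntermediateField.fixedField N, ⟨?_, ?_⟩, hfix, hle⟩
  · exact FiniteDimensional.of_injective (IntermediateField.inclusion hle).toLinearMap
      (IntermediateField.inclusion_injective hle)
  · intro q hq A hA
    rw [hfix]
    exact hur q hq A hA

/-- If moreover the subgroup is normal, the level is Galois over `ℚ`. -/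
theorem exists_galois_level_of_subgroup (S : Finset Nat.Primes)
    (N : Subgroup (AlgebraicClosure ℚ ≃ₐ[ℚ] AlgebraicClosure ℚ)) [N.Normal]
    (F : IntermediateField ℚ (AlgebraicClosure ℚ)) (hFfin : FiniteDimensional ℚ F)
    (hF : F.fixingSubgroup ≤ N)
    (hur : ∀ q : Nat.Primes, q ∉ S → ∀ A : ValuationSubring (AlgebraicClosure ℚ),
      A.LiesOverPrime (q : ℕ) → A.inertiaSubgroupIn ℚ ≤ N) :
    ∃ L : IntermediateField ℚ (AlgebraicClosure ℚ),
      L.IsUnramifiedOutside S ∧ IsGalois ℚ L ∧ L.fixingSubgroup = N ∧ L ≤ F := by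
  obtain ⟨L, hL, hfix, hle⟩ := exists_level_of_subgroup S N F hFfin hF hur
  refine ⟨L, hL, ?_, hfix, hle⟩
  have h := (InfiniteGalois.normal_iff_isGalois L).1 (by rw [hfix]; infer_instance)
  convert h
  exact Subsingleton.elim _ _

section Rep

variable {k : Type} [Field k]
  (M : Rep k (AlgebraicClosure ℚ ≃ₐ[ℚ] AlgebraicClosure ℚ)) [FiniteDimensional k M]

/-- Pointwise smoothness plus finite-dimensionality gives a uniform finite level. -/
theorem exists_finite_level_of_smooth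
    (hsm : ∀ m : M, ∃ F : IntermediateField ℚ (AlgebraicClosure ℚ), FiniteDimensional ℚ F ∧
      ∀ s ∈ F.fixingSubgroup, M.ρ s m = m) :
    ∃ F : IntermediateField ℚ (AlgebraicClosure ℚ), FiniteDimensional ℚ F ∧
      ∀ s ∈ F.fixingSubgroup, M.ρ s = 1 := by
  classical
  choose F hFfin hFfix using hsm
  let b := Module.finBasis k M
  refine ⟨⨆ i, F (b i), ?_, ?_⟩
  · haveI : ∀ i, FiniteDimensional ℚ (F (b i)) := fun i => hFfin (b i)
    exact IntermediateField.finiteDimensional_iSup_of_finite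
  · intro s hs
    apply b.ext
    intro i
    have hle : F (b i) ≤ ⨆ i, F (b i) := le_iSup (fun i => F (b i)) i
    exact hFfix (b i) s (IntermediateField.fixingSubgroup_antitone hle hs)

/-- **B2a.** The representation `M` of S55 factors through `Gal(L/ℚ)` for a finite Galois
extension `L/ℚ` unramified outside `S`; in fact `G_L = ker ρ`. -/
theorem exists_galois_level_of_rep (S : Finset Nat.Primes)
    (hsm : ∀ m : M, ∃ F : IntermediateField ℚ (AlgebraicClosure ℚ), FiniteDimensional ℚ F ∧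
      ∀ s ∈ F.fixingSubgroup, M.ρ s m = m)
    (hMur : ∀ q : Nat.Primes, q ∉ S → ∀ A : ValuationSubring (AlgebraicClosure ℚ),
      A.LiesOverPrime (q : ℕ) → ∀ g ∈ A.inertiaSubgroupIn ℚ, M.ρ g = 1) :
    ∃ L : IntermediateField ℚ (AlgebraicClosure ℚ),
      L.IsUnramifiedOutside S ∧ IsGalois ℚ L ∧ ∀ s, s ∈ L.fixingSubgroup ↔ M.ρ s = 1 := by
  obtain ⟨F, hFfin, hF⟩ := exists_finite_level_of_smooth M hsm
  obtain ⟨L, hL, hgal, hfix, -⟩ := exists_galois_level_of_subgroup S (MonoidHom.ker M.ρ) F hFfin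
    (fun s hs => MonoidHom.mem_ker.2 (hF s hs))
    (fun q hq A hA g hg => MonoidHom.mem_ker.2 (hMur q hq A hA g hg))
  refine ⟨L, hL, hgal, fun s => ?_⟩
  rw [hfix, MonoidHom.mem_ker]

end Rep

end Fermat.Agent.S55.Bridge

end
-- ===== PACK-END S55/Bridge/Level.lean

-- ===== PACK-BEGIN S55/Bridge/Cyclo.lean
section


/-!
# S55 bridge, part B2b: the mod `p` cyclotomic character is unramified outside `p`,
and `M.dualTwist (cycloChar p)` inherits smoothness and unramifiedness from `M`.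
-/

set_option autoImplicit false

namespace Fermat.Agent.S55.Bridge

open ExtCitation

section inertia

variable (A : ValuationSubring (AlgebraicClosure ℚ))

/-- Elements of the inertia group act trivially on the residue field. -/
theorem inertia_val_sub_lt_one {σ : AlgebraicClosure ℚ ≃ₐ[ℚ] AlgebraicClosure ℚ}
    (hσ : σ ∈ A.inertiaSubgroupIn ℚ) (z : AlgebraicClosure ℚ)
    (hz : A.valuation z ≤ 1) : A.valuation (σ z - z) < 1 := by
  obtain ⟨g, hg, rfl⟩ := hσ
  have hzA : z ∈ A := (A.valuation_le_one_iff z).mp hz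
  have h1 : MulSemiringAction.toRingAut (A.decompositionSubgroup ℚ)
      (IsLocalRing.ResidueField A) g = 1 := hg
  have h2 : g • (IsLocalRing.residue A ⟨z, hzA⟩) = IsLocalRing.residue A ⟨z, hzA⟩ := by
    have := congrArg (fun f => f (IsLocalRing.residue A ⟨z, hzA⟩)) h1
    simpa using this
  rw [← IsLocalRing.ResidueField.residue_smul] at h2
  have h3 : (g • (⟨z, hzA⟩ : A)) - ⟨z, hzA⟩ ∈ IsLocalRing.maximalIdeal A := by
    rw [← Ideal.Quotient.eq]
    exact h2
  rw [ValuationSubring.valuation_lt_one_iff] at h3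
  exact h3

variable {A}

theorem val_intCast_le_one (n : ℤ) : A.valuation (n : AlgebraicClosure ℚ) ≤ 1 :=
  (A.valuation_le_one_iff _).mpr (intCast_mem A n)

/-- A prime `p ≠ q` is a unit at a place over `q`. -/
theorem val_prime_eq_one {q p : ℕ} (hq : A.LiesOverPrime q) (hqp : q.Prime) (hp : p.Prime)
    (hne : q ≠ p) : A.valuation (p : AlgebraicClosure ℚ) = 1 := by
  have hq' : A.valuation (q : AlgebraicClosure ℚ) < 1 := (A.mem_nonunits_iff).mp hq
  have hcop : IsCoprime (q : ℤ) (p : ℤ) := by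
    rw [Int.isCoprime_iff_gcd_eq_one, Int.gcd_natCast_natCast]
    exact (Nat.coprime_primes hqp hp).2 hne
  obtain ⟨u, w, huw⟩ := hcop
  have h1 : (u : AlgebraicClosure ℚ) * (q : AlgebraicClosure ℚ)
      + (w : AlgebraicClosure ℚ) * (p : AlgebraicClosure ℚ) = 1 := by
    exact_mod_cast congrArg (Int.cast : ℤ → AlgebraicClosure ℚ) huw
  have hsmall : A.valuation ((u : AlgebraicClosure ℚ) * (q : AlgebraicClosure ℚ)) < 1 := by
    rw [map_mul]
    exact (mul_le_of_le_one_left' (val_intCast_le_one u)).trans_lt hq'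
  have hwn : A.valuation ((w : AlgebraicClosure ℚ) * (p : AlgebraicClosure ℚ)) = 1 := by
    have : (w : AlgebraicClosure ℚ) * (p : AlgebraicClosure ℚ)
        = 1 + -((u : AlgebraicClosure ℚ) * (q : AlgebraicClosure ℚ)) := by linear_combination h1
    rw [this, (A.valuation).map_add_eq_of_lt_left
      (by rw [Valuation.map_neg, map_one]; exact hsmall), map_one]
  rw [map_mul] at hwn
  have hp1 : A.valuation (p : AlgebraicClosure ℚ) ≤ 1 := by
    have := val_intCast_le_one (A := A) (p : ℤ)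
    simpa using this
  refine le_antisymm hp1 ?_
  calc (1 : A.ValueGroup)
      = A.valuation (w : AlgebraicClosure ℚ) * A.valuation (p : AlgebraicClosure ℚ) := hwn.symm
    _ ≤ 1 * A.valuation (p : AlgebraicClosure ℚ) := mul_le_mul_left (val_intCast_le_one w) _
    _ = A.valuation (p : AlgebraicClosure ℚ) := one_mul _

/-- A nontrivial `p`-th root of unity `η` has `v (1 - η) = 1` at places where `p` is a unit. -/
theorem val_one_sub_root_eq_one {p : ℕ} (hpv : A.valuation (p : AlgebraicClosure ℚ) = 1)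
    {η : AlgebraicClosure ℚ} (hη : η ^ p = 1) (hη1 : η ≠ 1) (hηA : η ∈ A) :
    A.valuation (1 - η) = 1 := by
  -- work in the ring `A`
  let e : A := ⟨η, hηA⟩
  have hdvd : (1 : A) - e ∣ ((∑ i ∈ Finset.range p, (Polynomial.X : Polynomial A) ^ i).eval 1
      - (∑ i ∈ Finset.range p, (Polynomial.X : Polynomial A) ^ i).eval e) :=
    Polynomial.sub_dvd_eval_sub 1 e _
  have hsum : ∑ i ∈ Finset.range p, η ^ i = 0 := by
    have h := geom_sum_mul η p
    rw [hη, sub_self] at h
    rcases mul_eq_zero.1 h with h | h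
    · exact h
    · exact absurd (sub_eq_zero.1 h) hη1
  have hsumA : ∑ i ∈ Finset.range p, e ^ i = 0 := by
    apply Subtype.ext
    simpa [e] using hsum
  have heval1 : (∑ i ∈ Finset.range p, (Polynomial.X : Polynomial A) ^ i).eval 1 = (p : A) := by
    simp [Polynomial.eval_finsetSum]
  have hevale : (∑ i ∈ Finset.range p, (Polynomial.X : Polynomial A) ^ i).eval e = 0 := by
    simpa [Polynomial.eval_finsetSum] using hsumA
  rw [heval1, hevale, sub_zero] at hdvd
  obtain ⟨y, hy⟩ := hdvd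
  have hy' : (p : AlgebraicClosure ℚ) = (1 - η) * (y : AlgebraicClosure ℚ) := by
    have := congrArg (fun a : A => (a : AlgebraicClosure ℚ)) hy
    simpa [e] using this
  have hle : A.valuation (1 - η) ≤ 1 :=
    (A.valuation_le_one_iff _).mpr (A.sub_mem A.one_mem hηA)
  refine le_antisymm hle ?_
  have hyv : A.valuation (y : AlgebraicClosure ℚ) ≤ 1 := A.valuation_le_one y
  calc (1 : A.ValueGroup) = A.valuation (p : AlgebraicClosure ℚ) := hpv.symm
    _ = A.valuation (1 - η) * A.valuation (y : AlgebraicClosure ℚ) := by rw [hy', map_mul]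
    _ ≤ A.valuation (1 - η) * 1 := mul_le_mul_right hyv _
    _ = A.valuation (1 - η) := mul_one _

/-- Two distinct `p`-th roots of unity stay distinct in the residue field at places where `p`
is a unit. -/
theorem val_sub_roots_eq_one {p : ℕ} (hp0 : p ≠ 0)
    (hpv : A.valuation (p : AlgebraicClosure ℚ) = 1)
    {a b : AlgebraicClosure ℚ} (ha : a ^ p = 1) (hb : b ^ p = 1) (hab : a ≠ b) :
    A.valuation (a - b) = 1 := by
  have hb0 : b ≠ 0 := by
    rintro rfl
    rw [zero_pow hp0] at hb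
    exact zero_ne_one hb
  have hvb : A.valuation b = 1 := by
    have h : (A.valuation b) ^ p = 1 := by rw [← map_pow, hb, map_one]
    exact (pow_eq_one_iff.1 h).resolve_right hp0
  have hva : A.valuation a = 1 := by
    have h : (A.valuation a) ^ p = 1 := by rw [← map_pow, ha, map_one]
    exact (pow_eq_one_iff.1 h).resolve_right hp0
  have hη : (a / b) ^ p = 1 := by rw [div_pow, ha, hb, div_one]
  have hη1 : a / b ≠ 1 := by
    intro h
    exact hab ((div_eq_one_iff_eq hb0).1 h)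
  have hηA : a / b ∈ A := by
    rw [← A.valuation_le_one_iff, map_div₀, hva, hvb, div_one]
  have h1 := val_one_sub_root_eq_one hpv hη hη1 hηA
  have : a - b = -(b * (1 - a / b)) := by
    field_simp
    ring
  rw [this, Valuation.map_neg, map_mul, hvb, h1, one_mul]

end inertia

section cyclo

variable (p : ℕ) [Fact p.Prime]

/-- Defining property of `cycloChar`. -/
theorem cycloChar_spec (σ : AlgebraicClosure ℚ ≃ₐ[ℚ] AlgebraicClosure ℚ)
    {t : (AlgebraicClosure ℚ)ˣ} (ht : t ∈ rootsOfUnity p (AlgebraicClosure ℚ)) :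
    σ (t : AlgebraicClosure ℚ)
      = (t : AlgebraicClosure ℚ) ^ ((cycloChar p σ : (ZMod p)ˣ) : ZMod p).val := by
  haveI : NeZero p := ⟨(Fact.out : p.Prime).ne_zero⟩
  have h := modularCyclotomicCharacter.spec (AlgebraicClosure ℚ) (card_rootsOfUnity_eq_self p)
    (σ : AlgebraicClosure ℚ ≃+* AlgebraicClosure ℚ) ht
  exact h

/-- If `σ` fixes all `p`-th roots of unity then `cycloChar p σ = 1`. -/
theorem cycloChar_eq_one_of_fixes (σ : AlgebraicClosure ℚ ≃ₐ[ℚ] AlgebraicClosure ℚ)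
    (hσ : ∀ t : (AlgebraicClosure ℚ)ˣ, t ∈ rootsOfUnity p (AlgebraicClosure ℚ) →
      σ (t : AlgebraicClosure ℚ) = t) : cycloChar p σ = 1 := by
  haveI : NeZero p := ⟨(Fact.out : p.Prime).ne_zero⟩
  haveI : Fact (1 < p) := ⟨(Fact.out : p.Prime).one_lt⟩
  have h := modularCyclotomicCharacter.unique (AlgebraicClosure ℚ) (card_rootsOfUnity_eq_self p)
    (σ : AlgebraicClosure ℚ ≃+* AlgebraicClosure ℚ) (c := 1)
    (fun t ht => by rw [ZMod.val_one, pow_one]; exact hσ t ht)
  apply Units.ext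
  exact h.symm

/-- `cycloChar p σ = 1` iff `σ` fixes all `p`-th roots of unity. -/
theorem cycloChar_eq_one_iff (σ : AlgebraicClosure ℚ ≃ₐ[ℚ] AlgebraicClosure ℚ) :
    cycloChar p σ = 1 ↔ ∀ t : (AlgebraicClosure ℚ)ˣ, t ∈ rootsOfUnity p (AlgebraicClosure ℚ) →
      σ (t : AlgebraicClosure ℚ) = t := by
  haveI : Fact (1 < p) := ⟨(Fact.out : p.Prime).one_lt⟩
  refine ⟨fun h t ht => ?_, cycloChar_eq_one_of_fixes p σ⟩
  rw [cycloChar_spec p σ ht, h, Units.val_one, ZMod.val_one, pow_one]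

/-- **B2b.** The mod `p` cyclotomic character is unramified at every prime `q ≠ p`. -/
theorem cycloChar_eq_one_of_mem_inertia {q : ℕ} (hq : q.Prime) (hqp : q ≠ p)
    (A : ValuationSubring (AlgebraicClosure ℚ)) (hA : A.LiesOverPrime q)
    (σ : AlgebraicClosure ℚ ≃ₐ[ℚ] AlgebraicClosure ℚ) (hσ : σ ∈ A.inertiaSubgroupIn ℚ) :
    cycloChar p σ = 1 := by
  have hp : p.Prime := Fact.out
  apply cycloChar_eq_one_of_fixes
  intro t ht
  have htp : (t : AlgebraicClosure ℚ) ^ p = 1 := by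
    have := (mem_rootsOfUnity p t).1 ht
    rw [← Units.val_pow_eq_pow_val, this, Units.val_one]
  by_contra hne
  have hpv := val_prime_eq_one (A := A) hA hq hp hqp
  have hσt : (σ (t : AlgebraicClosure ℚ)) ^ p = 1 := by rw [← map_pow, htp, map_one]
  have h1 := val_sub_roots_eq_one (A := A) hp.ne_zero hpv hσt htp hne
  have hvt : A.valuation (t : AlgebraicClosure ℚ) ≤ 1 := by
    have h : (A.valuation (t : AlgebraicClosure ℚ)) ^ p = 1 := by rw [← map_pow, htp, map_one]
    exact ((pow_eq_one_iff.1 h).resolve_right hp.ne_zero).le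
  have h2 := inertia_val_sub_lt_one A hσ t hvt
  rw [h1] at h2
  exact lt_irrefl _ h2

end cyclo

end Fermat.Agent.S55.Bridge

end
-- ===== PACK-END S55/Bridge/Cyclo.lean

-- ===== PACK-BEGIN S30/H990/Interface.lean
section
/-
S30 top glue (helper990): interface.

`ChebWeak`       : weak qualitative Chebotarev (hypothesis, to be supplied by the CHEB library).
`AdicEigenModule`: the output expected from the Galois tower for an eigencharacter `χ`:
                   a nonzero finite free `𝒪`-module with continuous Galois action, unramified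
                   outside `N p`, on which Frobenius elements satisfy the Eichler–Shimura relation.
-/


set_option autoImplicit false

namespace Fermat.Agent.S30.H990

/-- The absolute Galois group of `ℚ`. -/
abbrev GQ : Type := AlgebraicClosure ℚ ≃ₐ[ℚ] AlgebraicClosure ℚ

/-- Weak qualitative Chebotarev: for every finite subextension `L`, every `σ` and every finite set
`T` of primes there is a Frobenius element `τ` at a prime `ℓ ∉ T` such that `σ` agrees on `L`
with a power of `τ`.  (The usual qualitative Chebotarev theorem gives `j = 1`.) -/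
def ChebWeak : Prop :=
  ∀ L : IntermediateField ℚ (AlgebraicClosure ℚ), FiniteDimensional ℚ L →
    ∀ (σ : GQ) (T : Finset ℕ),
      ∃ ℓ : ℕ, ℓ.Prime ∧ ℓ ∉ T ∧
        ∃ A : ValuationSubring (AlgebraicClosure ℚ), A.LiesOverPrime ℓ ∧
          ∃ τ : GQ, A.IsFrobeniusAt τ ℓ ∧ ∃ j : ℕ, ∀ x ∈ L, σ x = (τ ^ j) x

/-- The adic eigenmodule attached to an eigencharacter `χ` of the Hecke algebra away from `S`. -/
structure AdicEigenModule (p N : ℕ) [NeZero N] (S : Finset ℕ)
    (𝒪 : Type) [CommRing 𝒪] [IsLocalRing 𝒪]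
    (χ : CuspForm.heckeAlgebra N 2 (↑S : Set ℕ) →+* 𝒪) : Type 1 where
  M : Type
  [instAddCommGroup : AddCommGroup M]
  [instModule : Module 𝒪 M]
  [instFree : Module.Free 𝒪 M]
  [instFinite : Module.Finite 𝒪 M]
  [instNontrivial : Nontrivial M]
  ρ : GQ →* Module.End 𝒪 M
  cont : GaloisActionIsAdicContinuous 𝒪 ρ
  unram : ∀ q : ℕ, q.Prime → ¬ q ∣ N → q ≠ p →
    ∀ P : ValuationSubring (AlgebraicClosure ℚ), P.LiesOverPrime q →
      ∀ σ ∈ P.inertiaSubgroupIn ℚ, ρ σ = 1
  frob : ∀ (ℓ : ℕ) (hℓ : ℓ.Prime) (hℓN : ¬ ℓ ∣ N) (hℓS : ℓ ∉ (↑S : Set ℕ)),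
    ∀ A : ValuationSubring (AlgebraicClosure ℚ), A.LiesOverPrime ℓ →
      ∀ σ : GQ, A.IsFrobeniusAt σ ℓ →
        ρ σ * ρ σ - χ (CuspForm.heckeAlgebra.T hℓ hℓN hℓS) • ρ σ + (ℓ : 𝒪) • 1 = 0

attribute [instance] AdicEigenModule.instAddCommGroup AdicEigenModule.instModule
  AdicEigenModule.instFree AdicEigenModule.instFinite AdicEigenModule.instNontrivial

/-- The tower hypothesis: every eigencharacter has an adic eigenmodule. -/
def HasAdicEigenModules : Prop :=
  ∀ (p : ℕ) [Fact p.Prime] (N : ℕ) [NeZero N] (S : Finset ℕ)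
    (_hpS : p ∈ S) (_hNS : ∀ q : ℕ, q.Prime → q ∣ N → q ∈ S)
    (𝒪' : Type) [CommRing 𝒪'] [IsDomain 𝒪'] [IsDiscreteValuationRing 𝒪']
    [IsAdicComplete (IsLocalRing.maximalIdeal 𝒪') 𝒪'] [Finite (IsLocalRing.ResidueField 𝒪')]
    [CharZero 𝒪'] (_hp𝒪' : (p : 𝒪') ∈ IsLocalRing.maximalIdeal 𝒪')
    (χ : CuspForm.heckeAlgebra N 2 (↑S : Set ℕ) →+* 𝒪'),
    Nonempty (AdicEigenModule p N S 𝒪' χ)

end Fermat.Agent.S30.H990

end
-- ===== PACK-END S30/H990/Interface.lean

-- ===== PACK-BEGIN Lib/Cheb/Spec.lean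
section



/-!
# Shared library CHEB — frozen interface statements

Tier 1 ("FROB", Frobenius' density theorem, qualitative): every `σ ∈ Gal(ℚ̄/ℚ)` generates, on any
finite extension, the same cyclic group as some Frobenius element at a prime outside a given
finite set.  Needs only the simple pole of Dedekind zeta functions.

Tier 2 (exact qualitative Chebotarev): `σ` itself is a Frobenius.  Needs Dirichlet `L`-series
over number fields (statement `CycStatement`).

All blocks prove one of the `Prop`s below, e.g. `theorem primeSum : Spec.PrimeSumStatement`.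
Plan, owners, status: `coord/CHEB.md` on branch `origin/helper993`.
-/

set_option autoImplicit false

open NumberField
open scoped Pointwise

namespace Fermat.Agent.Lib.Cheb.Spec

/-- `ℚ̄`. -/
abbrev Qb : Type := AlgebraicClosure ℚ

/-- `Gal(ℚ̄/ℚ)`. -/
abbrev GQ : Type := Qb ≃ₐ[ℚ] Qb

/-- Number of prime ideals of `𝓞 F` of absolute norm `p` (the degree-one primes above `p`). -/
noncomputable def primeCount (F : Type) [Field F] [NumberField F] (p : ℕ) : ℕ :=
  Nat.card {𝔮 : Ideal (𝓞 F) // 𝔮.IsPrime ∧ Ideal.absNorm 𝔮 = p}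

/-- The decomposition group of a prime `P` of `𝓞 L` in `Gal(L/ℚ)`. -/
abbrev decomp (L : Type) [Field L] [NumberField L] (P : Ideal (𝓞 L)) :
    Subgroup (L ≃ₐ[ℚ] L) :=
  MulAction.stabilizer (L ≃ₐ[ℚ] L) P

/-- The primes `P` of `𝓞 L` above `p` whose decomposition group is contained in `H`. -/
def primesLe (L : Type) [Field L] [NumberField L] (H : Subgroup (L ≃ₐ[ℚ] L)) (p : ℕ) :
    Set (Ideal (𝓞 L)) :=
  {P | P.IsPrime ∧ (p : 𝓞 L) ∈ P ∧ decomp L P ≤ H}

/-- `∑_{P ∣ p, D_P ≤ H} |D_P|`. -/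
noncomputable def decompWeight (L : Type) [Field L] [NumberField L]
    (H : Subgroup (L ≃ₐ[ℚ] L)) (p : ℕ) : ℕ :=
  ∑ᶠ P : primesLe L H p, Nat.card (decomp L P.1)

/-- The inertia group of `P` is trivial. -/
def InertiaTrivial (L : Type) [Field L] [NumberField L] (P : Ideal (𝓞 L)) : Prop :=
  ∀ ι : L ≃ₐ[ℚ] L, (∀ x : 𝓞 L, ι • x - x ∈ P) → ι = 1

/-! ## Tier 1 -/

/-- (Z) = F1 = W1: prime sums of degree-one primes, any number field. -/
def PrimeSumStatement : Prop :=
  ∀ (F : Type) [Field F] [NumberField F], ∃ C : ℝ, ∀ s : ℝ, 1 < s → s ≤ 2 →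
    |(∑' p : Nat.Primes, (primeCount F p : ℝ) * (p : ℝ) ^ (-s)) - Real.log (1 / (s - 1))| ≤ C

/-- (B0): at most `[F:ℚ]` primes of norm `p`. -/
def PrimeCountBoundStatement : Prop :=
  ∀ (F : Type) [Field F] [NumberField F] (p : ℕ), primeCount F p ≤ Module.finrank ℚ F

/-- (A) = F2+F3: degree-one primes of the fixed field `L^H` versus decomposition groups. -/
def CountStatement : Prop :=
  ∀ (L : Type) [Field L] [NumberField L] [IsGalois ℚ L] (H : Subgroup (L ≃ₐ[ℚ] L)),
    ∃ B : Finset ℕ, ∀ p : ℕ, p.Prime → p ∉ B →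
      primeCount (IntermediateField.fixedField H) p * Nat.card H = decompWeight L H p

/-- (D) = F5: outside a finite set of primes the decomposition group is generated by an
arithmetic Frobenius and the inertia group is trivial. -/
def FrobStatement : Prop :=
  ∀ (L : Type) [Field L] [NumberField L] [IsGalois ℚ L],
    ∃ B : Finset ℕ, ∀ p : ℕ, p.Prime → p ∉ B →
      ∀ P : Ideal (𝓞 L), P.IsPrime → (p : 𝓞 L) ∈ P →
        InertiaTrivial L P ∧
        ∃ τ : L ≃ₐ[ℚ] L, IsArithFrobAt ℤ τ P ∧ decomp L P = Subgroup.zpowers τ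

/-- (M) = F4: finite-level Frobenius density theorem (qualitative). -/
def FrobFiniteStatement : Prop :=
  ∀ (L : Type) [Field L] [NumberField L] [IsGalois ℚ L] (σ : L ≃ₐ[ℚ] L) (S : Finset ℕ),
    ∃ (p : ℕ) (P : Ideal (𝓞 L)) (τ : L ≃ₐ[ℚ] L),
      p.Prime ∧ p ∉ S ∧ P.IsPrime ∧ (p : 𝓞 L) ∈ P ∧ InertiaTrivial L P ∧
      IsArithFrobAt ℤ τ P ∧ Subgroup.zpowers τ = Subgroup.zpowers σ

/-- FROB, Prelude level: on every finite extension `E` of `ℚ` inside `ℚ̄`, `σ` and some Frobenius
element `τ` (at a prime `ℓ ∉ S`, with inertia acting trivially on `E`) are powers of each other. -/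
def FrobeniusDivisionStatement : Prop :=
  ∀ (E : IntermediateField ℚ Qb), FiniteDimensional ℚ E → ∀ (σ : GQ) (S : Finset ℕ),
    ∃ (ℓ : ℕ) (A : ValuationSubring Qb) (τ : GQ) (k j : ℕ),
      ℓ.Prime ∧ ℓ ∉ S ∧ A.LiesOverPrime ℓ ∧ A.IsFrobeniusAt τ ℓ ∧
      (∀ ι ∈ A.inertiaSubgroupIn ℚ, ∀ x ∈ E, ι x = x) ∧
      (∀ x ∈ E, τ x = (σ ^ k) x) ∧ (∀ x ∈ E, (τ ^ j) x = σ x)

/-- F6 = W5 (bridge), Tier 1. -/
def BridgeDivisionStatement : Prop :=
  FrobFiniteStatement → FrobeniusDivisionStatement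

/-! ## Tier 2 -/

/-- Number of ideals of `𝓞 F` of absolute norm `n`. -/
noncomputable def idealCount (F : Type) [Field F] [NumberField F] (n : ℕ) : ℕ :=
  Nat.card {I : Ideal (𝓞 F) // Ideal.absNorm I = n}

/-- (AN) analytic core of Tier 2: for a Dirichlet character `χ` mod `m` such that `χ ∘ N` is not
trivial on the ideals of `𝓞 F` prime to `m`, the series `L_F(s, χ ∘ N) = ∑_I χ(N I) N I ^ (-s)`
has a limit as `s → 1⁺`. -/
def DirichletLimitStatement : Prop :=
  ∀ (F : Type) [Field F] [NumberField F] (m : ℕ) [NeZero m] (χ : DirichletCharacter ℂ m),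
    (∃ I : Ideal (𝓞 F), χ (Ideal.absNorm I : ZMod m) ≠ 0 ∧ χ (Ideal.absNorm I : ZMod m) ≠ 1) →
    ∃ c : ℂ, Filter.Tendsto
      (fun s : ℝ => LSeries (fun n => χ (n : ZMod m) * (idealCount F n : ℂ)) (s : ℂ))
      (nhdsWithin 1 (Set.Ioi 1)) (nhds c)

/-- (CYC) cyclotomic case, stated inside a Galois number field `L ∋ ζ_m`: if the cyclic group
`⟨g⟩` acts faithfully on `ζ`, then `g` is an arithmetic Frobenius at a prime outside `S`. -/
def CycStatement : Prop :=
  ∀ (L : Type) [Field L] [NumberField L] [IsGalois ℚ L] (m : ℕ) (ζ : L), 0 < m →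
    IsPrimitiveRoot ζ m → ∀ g : L ≃ₐ[ℚ] L, (∀ k : ℕ, (g ^ k) ζ = ζ → g ^ k = 1) →
    ∀ S : Finset ℕ, ∃ (p : ℕ) (P : Ideal (𝓞 L)),
      p.Prime ∧ p ∉ S ∧ P.IsPrime ∧ (p : 𝓞 L) ∈ P ∧ InertiaTrivial L P ∧ IsArithFrobAt ℤ g P

/-- Finite-level qualitative Chebotarev. -/
def ChebFiniteStatement : Prop :=
  ∀ (L : Type) [Field L] [NumberField L] [IsGalois ℚ L] (σ : L ≃ₐ[ℚ] L) (S : Finset ℕ),
    ∃ (p : ℕ) (P : Ideal (𝓞 L)),
      p.Prime ∧ p ∉ S ∧ P.IsPrime ∧ (p : 𝓞 L) ∈ P ∧ InertiaTrivial L P ∧ IsArithFrobAt ℤ σ P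

/-- (CROSS) field crossing (may use (D) to discard ramified primes). -/
def CrossStatement : Prop :=
  FrobStatement → CycStatement → ChebFiniteStatement

/-- Qualitative Chebotarev, Prelude level. -/
def ChebotarevStatement : Prop :=
  ∀ (E : IntermediateField ℚ Qb), FiniteDimensional ℚ E → ∀ (σ : GQ) (S : Finset ℕ),
    ∃ (ℓ : ℕ) (A : ValuationSubring Qb) (τ : GQ),
      ℓ.Prime ∧ ℓ ∉ S ∧ A.LiesOverPrime ℓ ∧ A.IsFrobeniusAt τ ℓ ∧
      (∀ ι ∈ A.inertiaSubgroupIn ℚ, ∀ x ∈ E, ι x = x) ∧ (∀ x ∈ E, τ x = σ x)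

/-- Bridge, Tier 2. -/
def BridgeStatement : Prop :=
  ChebFiniteStatement → ChebotarevStatement

end Fermat.Agent.Lib.Cheb.Spec

end
-- ===== PACK-END Lib/Cheb/Spec.lean

-- ===== PACK-BEGIN S30/H990/Cheb.lean
section
/-
S30 top glue (helper990): the Chebotarev hypothesis used by the glue follows from the frozen
Tier 1 statement of the shared CHEB library.
-/



set_option autoImplicit false

namespace Fermat.Agent.S30.H990

/-- Tier 1 of the shared CHEB library implies the weak form consumed by the S30 glue. -/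
theorem chebWeak_of_frobeniusDivision
    (h : Fermat.Agent.Lib.Cheb.Spec.FrobeniusDivisionStatement) : ChebWeak := by
  intro L hL σ T
  obtain ⟨ℓ, A, τ, _k, j, hℓ, hℓT, hA, hτ, _, _, hj⟩ := h L hL σ T
  exact ⟨ℓ, hℓ, hℓT, A, hA, τ, hτ, j, fun x hx => (hj x hx).symm⟩

end Fermat.Agent.S30.H990

end
-- ===== PACK-END S30/H990/Cheb.lean

-- ===== PACK-BEGIN Lib/Cheb/H764/Orbit.lean
section


/-!
# CHEB / piece A: decomposition groups and primes of a fixed field (orbit count)

Abstract setting: `R ⊆ T ⊆ S` Dedekind-like rings, `G` a finite Galois group of `S/R`,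
`H ≤ G` a Galois group of `S/T`.
-/

set_option autoImplicit false
set_option linter.unusedSectionVars false

namespace Fermat.Agent.Lib.Cheb.H764

open Ideal MulAction
open scoped Pointwise

section abstract

variable {R T S : Type*} [CommRing R] [CommRing T] [CommRing S]
  [IsDomain R] [IsDomain T] [IsDomain S]
  [Algebra R T] [Algebra T S] [Algebra R S] [IsScalarTower R T S]
  [Module.Finite R S] [Module.Finite T S]
  [Module.Flat R S] [Module.Flat T S]
  {G : Type*} [Group G] [Finite G] [MulSemiringAction G S] [IsGaloisGroup G R S]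
  (H : Subgroup G) [IsGaloisGroup H T S]

/-- the stabilizer in the subgroup is the intersection with the subgroup -/
lemma stabilizer_subgroup_eq (Q : Ideal S) :
    stabilizer H Q = (stabilizer G Q).subgroupOf H := by
  ext h
  simp [Subgroup.mem_subgroupOf, Subgroup.smul_def]

lemma card_stabilizer_eq_mul (p : Ideal R) [p.IsPrime] [PerfectField p.ResidueField]
    (Q : Ideal S) [Q.IsPrime] [Q.LiesOver p] :
    Nat.card (stabilizer G Q) = Q.ramificationIdx R * Q.inertiaDeg R := by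
  rw [Ideal.card_stabilizer_eq (G := G) p Q, ramificationIdxIn_eq_ramificationIdx p Q G,
    inertiaDegIn_eq_inertiaDeg p Q G]

/-- `|D_Q(G)| = e(𝔮|p) f(𝔮|p) |D_Q(H)|` for `𝔮 = Q ∩ T`. -/
lemma card_stabilizer_eq_mul_card_stabilizer (p : Ideal R) [p.IsPrime]
    [PerfectField p.ResidueField]
    (q : Ideal T) [q.IsPrime] [q.LiesOver p] [PerfectField q.ResidueField]
    (Q : Ideal S) [Q.IsPrime] [Q.LiesOver q] [Q.LiesOver p] :
    Nat.card (stabilizer G Q) =
      (q.ramificationIdx R * q.inertiaDeg R) * Nat.card (stabilizer H Q) := by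
  have h1 : Nat.card (stabilizer H Q) = Q.ramificationIdx T * Q.inertiaDeg T :=
    card_stabilizer_eq_mul (G := H) q Q
  rw [card_stabilizer_eq_mul (G := G) p Q, h1,
    ramificationIdx_tower (R := R) q Q, inertiaDeg_tower (R := R) q Q]
  ring

lemma card_subgroupOf_eq_iff (A B : Subgroup G) :
    Nat.card (A.subgroupOf B) = Nat.card A ↔ A ≤ B := by
  constructor
  · intro h
    have h1 : Nat.card (A.subgroupOf B) = Nat.card (A ⊓ B : Subgroup G) := by
      rw [← Subgroup.inf_subgroupOf_right]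
      exact Nat.card_congr (Subgroup.subgroupOfEquivOfLe inf_le_right).toEquiv
    rw [h1] at h
    have h2 : (A ⊓ B : Subgroup G) = A :=
      Subgroup.eq_of_le_of_card_ge inf_le_left h.ge
    rw [← h2]
    exact inf_le_right
  · intro h
    exact Nat.card_congr (Subgroup.subgroupOfEquivOfLe h).toEquiv

/-- `e(𝔮|p) f(𝔮|p) = 1` iff the decomposition group of `Q` is contained in `H`. -/
lemma ramificationIdx_mul_inertiaDeg_eq_one_iff (p : Ideal R) [p.IsPrime]
    [PerfectField p.ResidueField]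
    (q : Ideal T) [q.IsPrime] [q.LiesOver p] [PerfectField q.ResidueField]
    (Q : Ideal S) [Q.IsPrime] [Q.LiesOver q] [Q.LiesOver p] :
    q.ramificationIdx R * q.inertiaDeg R = 1 ↔ stabilizer G Q ≤ H := by
  have key := card_stabilizer_eq_mul_card_stabilizer H p q Q
  have hpos : 0 < Nat.card (stabilizer H Q) := Nat.card_pos
  rw [stabilizer_subgroup_eq H Q] at key hpos
  rw [← card_subgroupOf_eq_iff]
  constructor
  · intro h
    rw [key, h, one_mul]
  · intro h
    rw [← h] at key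
    have h3 : 1 * Nat.card ((stabilizer G Q).subgroupOf H) =
        (q.ramificationIdx R * q.inertiaDeg R) * Nat.card ((stabilizer G Q).subgroupOf H) := by
      rw [one_mul]; exact key
    exact (Nat.eq_of_mul_eq_mul_right hpos h3).symm

/-- orbit-stabilizer for the primes above `p` -/
lemma ncard_primesOver_mul_card_stabilizer_aux
    (p : Ideal R) [p.IsPrime] (P : Ideal S) [P.IsPrime] [P.LiesOver p] :
    (p.primesOver S).ncard * Nat.card (stabilizer G P) = Nat.card G := by
  rw [← Algebra.IsInvariant.orbit_eq_primesOver R S G p P]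
  simpa using Nat.card_congr (MulAction.orbitProdStabilizerEquivGroup G P)

/-- the number of primes of `S` above `𝔮` times the order of the decomposition group in `H` -/
lemma ncard_primesOver_mul_card_stabilizer
    (q : Ideal T) [q.IsPrime] (Q : Ideal S) [Q.IsPrime] [Q.LiesOver q] :
    (q.primesOver S).ncard * Nat.card (stabilizer H Q) = Nat.card H :=
  ncard_primesOver_mul_card_stabilizer_aux (G := H) q Q

/-- inner sum of the orbit count: the primes of `S` above a prime `𝔮` of `T` with `e f = 1`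
contribute `|H|`. -/
lemma finsum_card_stabilizer_primesOver (p : Ideal R) [p.IsPrime] [PerfectField p.ResidueField]
    (q : Ideal T) [q.IsPrime] [q.LiesOver p] [PerfectField q.ResidueField]
    (hq : q.ramificationIdx R * q.inertiaDeg R = 1) (hfin : (q.primesOver S).Finite)
    (hne : (q.primesOver S).Nonempty) :
    ∑ᶠ Q ∈ q.primesOver S, Nat.card (stabilizer G Q) = Nat.card H := by
  classical
  have key : ∀ Q ∈ q.primesOver S,
      (q.primesOver S).ncard * Nat.card (stabilizer G Q) = Nat.card H := by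
    intro Q hQ
    haveI : Q.IsPrime := hQ.1
    haveI : Q.LiesOver q := hQ.2
    haveI : Q.LiesOver p := LiesOver.trans Q q p
    rw [card_stabilizer_eq_mul_card_stabilizer H p q Q, hq, one_mul]
    exact ncard_primesOver_mul_card_stabilizer H q Q
  have hn : 0 < (q.primesOver S).ncard := (Set.ncard_pos hfin).mpr hne
  have hconst : ∀ Q ∈ q.primesOver S,
      Nat.card (stabilizer G Q) = Nat.card H / (q.primesOver S).ncard := by
    intro Q hQ
    rw [← key Q hQ, Nat.mul_div_cancel_left _ hn]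
  rw [finsum_mem_congr rfl hconst, finsum_mem_eq_finite_toFinset_sum _ hfin, Finset.sum_const,
    smul_eq_mul, ← Set.ncard_eq_toFinset_card _ hfin]
  obtain ⟨Q, hQ⟩ := hne
  rw [← hconst Q hQ]
  exact key Q hQ

end abstract

end Fermat.Agent.Lib.Cheb.H764

end
-- ===== PACK-END Lib/Cheb/H764/Orbit.lean

-- ===== PACK-BEGIN Lib/Cheb/H764/Count.lean
section



/-!
# CHEB / piece A: `Spec.CountStatement`

For a Galois number field `L/ℚ`, a subgroup `H ≤ Gal(L/ℚ)`, `F = L^H` and a prime `p` not dividing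
the discriminant of `L`:
`#{primes of 𝓞 F of norm p} * |H| = ∑_{P ∣ p, D_P ≤ H} |D_P|`.
-/

set_option autoImplicit false
set_option linter.unusedSectionVars false
set_option linter.unusedVariables false
set_option linter.style.haveILetI false

open NumberField Ideal MulAction
open scoped Pointwise

namespace Fermat.Agent.Lib.Cheb.H764

open Fermat.Agent.Lib.Cheb.Spec

section

variable (L : Type) [Field L] [NumberField L] [IsGalois ℚ L]

/-- the bad set: primes dividing the discriminant -/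
noncomputable def badPrimes : Finset ℕ := (NumberField.discr L).natAbs.primeFactors

lemma not_dvd_discr_of_not_mem_badPrimes {p : ℕ} (hp : p.Prime) (hpB : p ∉ badPrimes L) :
    ¬ (p : ℤ) ∣ NumberField.discr L := by
  intro h
  apply hpB
  rw [badPrimes, Nat.mem_primeFactors]
  refine ⟨hp, ?_, ?_⟩
  · exact Int.natCast_dvd.mp h
  · exact Int.natAbs_ne_zero.mpr (NumberField.discr_ne_zero L)

lemma liesOver_of_mem {F : Type} [Field F] [NumberField F] {p : ℕ} (hp : p.Prime)
    (P : Ideal (𝓞 F)) [P.IsPrime] (hP : (p : 𝓞 F) ∈ P) :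
    P.LiesOver (Ideal.span {(p : ℤ)}) := by
  have hp' : Prime (p : ℤ) := Nat.prime_iff_prime_int.mp hp
  rw [Ideal.liesOver_span_iff (IsPrime.ne_top inferInstance) hp']
  simpa using hP

lemma mem_of_liesOver {F : Type} [Field F] [NumberField F] {p : ℕ} (hp : p.Prime)
    (P : Ideal (𝓞 F)) [P.IsPrime] [hP : P.LiesOver (Ideal.span {(p : ℤ)})] :
    (p : 𝓞 F) ∈ P := by
  have hp' : Prime (p : ℤ) := Nat.prime_iff_prime_int.mp hp
  have := (Ideal.liesOver_span_iff (IsPrime.ne_top inferInstance) hp').mp hP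
  simpa using this

lemma ramificationIdx_eq_one_of_not_mem_badPrimes {p : ℕ} (hp : p.Prime) (hpB : p ∉ badPrimes L)
    (P : Ideal (𝓞 L)) [P.IsPrime] (hP : (p : 𝓞 L) ∈ P) : P.ramificationIdx ℤ = 1 := by
  have hp' : Prime (p : ℤ) := Nat.prime_iff_prime_int.mp hp
  have h := (NumberField.not_dvd_discr_iff_forall_mem L (𝓞 L) hp').mp
    (not_dvd_discr_of_not_mem_badPrimes L hp hpB) P inferInstance (by simpa using hP)
  exact Ideal.ramificationIdx_eq_one_of_isUnramifiedAt

end

section main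

variable (L : Type) [Field L] [NumberField L] [IsGalois ℚ L] (H : Subgroup (L ≃ₐ[ℚ] L))

lemma isGaloisGroup_fixedField :
    IsGaloisGroup H (IntermediateField.fixedField H) L :=
  IsGaloisGroup.subgroup (L ≃ₐ[ℚ] L) ℚ L H

lemma isGaloisGroup_ringOfIntegers :
    IsGaloisGroup H (𝓞 (IntermediateField.fixedField H)) (𝓞 L) := by
  haveI := isGaloisGroup_fixedField L H
  exact IsGaloisGroup.of_isFractionRing H (𝓞 (IntermediateField.fixedField H)) (𝓞 L)
    (IntermediateField.fixedField H) L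

lemma span_isPrime {p : ℕ} (hp : p.Prime) : (Ideal.span {(p : ℤ)}).IsPrime :=
  (Ideal.span_singleton_prime (by exact_mod_cast hp.ne_zero)).mpr (Nat.prime_iff_prime_int.mp hp)

/-- data attached to a prime `𝔮` of `𝓞 F` of norm `p` -/
lemma ef_eq_one_of_absNorm_eq {p : ℕ} (hp : p.Prime) (hpB : p ∉ badPrimes L)
    (q : Ideal (𝓞 (IntermediateField.fixedField H))) [q.IsPrime] (hq : absNorm q = p) :
    q.LiesOver (Ideal.span {(p : ℤ)}) ∧ q.ramificationIdx ℤ * q.inertiaDeg ℤ = 1 := by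
  have hmem : (p : 𝓞 (IntermediateField.fixedField H)) ∈ q := by
    have := Ideal.absNorm_mem q
    rwa [hq] at this
  haveI hlo : q.LiesOver (Ideal.span {(p : ℤ)}) := liesOver_of_mem hp q hmem
  refine ⟨hlo, ?_⟩
  have hf : q.inertiaDeg ℤ = 1 := by
    have h1 := Ideal.pow_inertiaDeg p q
    rw [hq] at h1
    exact Nat.pow_right_injective hp.two_le (by simpa using h1)
  obtain ⟨⟨P, hP1, hP2⟩⟩ := (inferInstance : Nonempty (q.primesOver (𝓞 L)))
  haveI := hP1
  haveI := hP2
  have hPmem : (p : 𝓞 L) ∈ P := by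
    have h2 : algebraMap (𝓞 (IntermediateField.fixedField H)) (𝓞 L)
        (p : 𝓞 (IntermediateField.fixedField H)) ∈ P := by
      rw [← Ideal.mem_comap, ← Ideal.under_def, ← Ideal.over_def P q]
      exact hmem
    simpa using h2
  have he := ramificationIdx_eq_one_of_not_mem_badPrimes L hp hpB P hPmem
  rw [Ideal.ramificationIdx_tower (R := ℤ) q P] at he
  rw [hf, mul_one]
  exact Nat.eq_one_of_mul_eq_one_right he

/-- a prime `P` of `𝓞 L` over `p` with `D_P ≤ H` restricts to a prime of `𝓞 F` of norm `p` -/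
lemma absNorm_under_eq {p : ℕ} (hp : p.Prime)
    (P : Ideal (𝓞 L)) [P.IsPrime] (hP : (p : 𝓞 L) ∈ P)
    (hle : stabilizer (L ≃ₐ[ℚ] L) P ≤ H) :
    (P.under (𝓞 (IntermediateField.fixedField H))).IsPrime ∧
      absNorm (P.under (𝓞 (IntermediateField.fixedField H))) = p := by
  haveI := isGaloisGroup_ringOfIntegers L H
  haveI := span_isPrime hp
  haveI : P.LiesOver (Ideal.span {(p : ℤ)}) := liesOver_of_mem hp P hP
  haveI hqp : (P.under (𝓞 (IntermediateField.fixedField H))).IsPrime := inferInstance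
  haveI : (P.under (𝓞 (IntermediateField.fixedField H))).LiesOver (Ideal.span {(p : ℤ)}) :=
    LiesOver.tower_bot P _ _
  refine ⟨hqp, ?_⟩
  have h1 := (ramificationIdx_mul_inertiaDeg_eq_one_iff (G := L ≃ₐ[ℚ] L) H
    (Ideal.span {(p : ℤ)}) (P.under (𝓞 (IntermediateField.fixedField H))) P).mpr hle
  have hf : (P.under (𝓞 (IntermediateField.fixedField H))).inertiaDeg ℤ = 1 :=
    Nat.eq_one_of_mul_eq_one_left h1
  have h2 := Ideal.pow_inertiaDeg p (P.under (𝓞 (IntermediateField.fixedField H)))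
  rw [hf, pow_one] at h2
  exact h2.symm

/-- **Piece A**, for primes not dividing the discriminant. -/
theorem count_of_not_mem_badPrimes {p : ℕ} (hp : p.Prime) (hpB : p ∉ badPrimes L) :
    primeCount (IntermediateField.fixedField H) p * Nat.card H = decompWeight L H p := by
  classical
  haveI := isGaloisGroup_ringOfIntegers L H
  haveI := span_isPrime hp
  have hfinT : {q : Ideal (𝓞 (IntermediateField.fixedField H)) |
      q.IsPrime ∧ absNorm q = p}.Finite :=
    (Ideal.finite_setOf_absNorm_eq p).subset (fun q h => h.2)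
  have hfinS : (primesLe L H p).Finite := by
    refine Set.Finite.subset
      (Algebra.QuasiFinite.finite_primesOver (S := 𝓞 L) (Ideal.span {(p : ℤ)})) ?_
    rintro P ⟨hP1, hP2, -⟩
    haveI := hP1
    exact ⟨hP1, liesOver_of_mem hp P hP2⟩
  -- the left-hand side
  have hL : primeCount (IntermediateField.fixedField H) p = hfinT.toFinset.card := by
    rw [← Set.ncard_eq_toFinset_card _ hfinT, ← Nat.card_coe_set_eq]
    rfl
  -- the right-hand side
  have hR : decompWeight L H p = ∑ P ∈ hfinS.toFinset, Nat.card (decomp L P) := by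
    rw [decompWeight, finsum_set_coe_eq_finsum_mem (f := fun P => Nat.card (decomp L P)),
      finsum_mem_eq_finite_toFinset_sum _ hfinS]
  rw [hL, hR]
  have hmaps : ∀ P ∈ hfinS.toFinset,
      P.under (𝓞 (IntermediateField.fixedField H)) ∈ hfinT.toFinset := by
    intro P hP
    rw [Set.Finite.mem_toFinset] at hP ⊢
    obtain ⟨hP1, hP2, hP3⟩ := hP
    haveI := hP1
    exact absNorm_under_eq L H hp P hP2 hP3
  rw [← Finset.sum_fiberwise_of_maps_to hmaps, Finset.card_eq_sum_ones, Finset.sum_mul]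
  refine Finset.sum_congr rfl fun q hq => ?_
  rw [Set.Finite.mem_toFinset] at hq
  obtain ⟨hq1, hq2⟩ := hq
  haveI := hq1
  obtain ⟨hlo, hef⟩ := ef_eq_one_of_absNorm_eq L H hp hpB q hq2
  haveI := hlo
  rw [one_mul, ← finsum_card_stabilizer_primesOver (G := L ≃ₐ[ℚ] L) H (Ideal.span {(p : ℤ)}) q hef
    (Algebra.QuasiFinite.finite_primesOver (S := 𝓞 L) q) Set.Nonempty.of_subtype,
    ← finsum_mem_coe_finset]
  refine finsum_mem_congr ?_ (fun _ _ => rfl)
  ext P
  rw [Finset.coe_filter, Set.mem_setOf_eq, Set.Finite.mem_toFinset]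
  constructor
  · intro hP
    have hP1 : P.IsPrime := hP.1
    have hP2 : P.LiesOver q := hP.2
    haveI := hP1
    haveI := hP2
    haveI : P.LiesOver (Ideal.span {(p : ℤ)}) := LiesOver.trans P q _
    refine ⟨⟨hP1, mem_of_liesOver hp P, ?_⟩, (Ideal.over_def P q).symm⟩
    exact (ramificationIdx_mul_inertiaDeg_eq_one_iff (G := L ≃ₐ[ℚ] L) H
      (Ideal.span {(p : ℤ)}) q P).mp hef
  · rintro ⟨hP, hP4⟩
    exact ⟨hP.1, ⟨hP4.symm⟩⟩

/-- **Piece A** of the CHEB library: `Spec.CountStatement`. -/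
theorem count : Spec.CountStatement := by
  intro L _ _ _ H
  exact ⟨badPrimes L, fun p hp hpB => count_of_not_mem_badPrimes L H hp hpB⟩

end main

end Fermat.Agent.Lib.Cheb.H764

end
-- ===== PACK-END Lib/Cheb/H764/Count.lean

-- ===== PACK-BEGIN Lib/Cheb/H943/Frob.lean
section


/-!
# CHEB piece D: `Spec.FrobStatement` (helper943)

Outside the finite set of prime divisors of the absolute norm of the different ideal of a Galois
number field `L/ℚ`, every prime `P` of `𝓞 L` has trivial inertia group, an arithmetic Frobenius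
`τ`, and decomposition group `zpowers τ`.

Ingredients (all Mathlib): `not_dvd_differentIdeal_iff` (unramified ⇔ not dividing the
different), `AlgHom.IsArithFrobAt.eq_of_isUnramifiedAt` (uniqueness of Frobenius),
`IsArithFrobAt.exists_of_isInvariant` (existence), `Ideal.Quotient.stabilizerHom` and
`FiniteField.bijective_frobeniusAlgEquivOfAlgebraic_pow` (Galois groups of finite fields are
generated by Frobenius).
-/

set_option autoImplicit false
set_option linter.unusedSectionVars false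
set_option linter.style.haveILetI false

open NumberField
open scoped Pointwise

namespace Fermat.Agent.Lib.Cheb.H943

section Bad

attribute [local instance] FractionRing.liftAlgebra

variable (L : Type) [Field L] [NumberField L]

/-- The bad number: the absolute norm of the different ideal (`= |discr L|`). -/
noncomputable def badNat : ℕ := Ideal.absNorm (differentIdeal ℤ (𝓞 L))

lemma badNat_ne_zero : badNat L ≠ 0 := by
  unfold badNat
  rw [Ne, Ideal.absNorm_eq_zero_iff]
  exact differentIdeal_ne_bot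

variable {L}

/-- A rational prime contained in a prime ideal divides its absolute norm. -/
lemma prime_dvd_absNorm {p : ℕ} (hp : p.Prime) {P : Ideal (𝓞 L)} (hP : P.IsPrime)
    (hpP : (p : 𝓞 L) ∈ P) : p ∣ Ideal.absNorm P := by
  by_contra h
  have hcop : Nat.Coprime p (Ideal.absNorm P) := (Nat.Prime.coprime_iff_not_dvd hp).mpr h
  have h1 : ((Nat.gcd p (Ideal.absNorm P) : ℤ) : 𝓞 L) ∈ P := by
    rw [Nat.gcd_eq_gcd_ab]
    push_cast
    exact P.add_mem (P.mul_mem_right _ hpP) (P.mul_mem_right _ (Ideal.absNorm_mem P))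
  rw [hcop] at h1
  simp only [Nat.cast_one, Int.cast_one] at h1
  exact hP.ne_top ((Ideal.eq_top_iff_one P).mpr h1)

/-- Primes not dividing `badNat L` are unramified in `L`. -/
lemma isUnramifiedAt_of_not_dvd_badNat {p : ℕ} (hp : p.Prime) (hpB : ¬ p ∣ badNat L)
    {P : Ideal (𝓞 L)} [hP : P.IsPrime] (hpP : (p : 𝓞 L) ∈ P) :
    Algebra.IsUnramifiedAt ℤ P := by
  rw [← not_dvd_differentIdeal_iff]
  intro hdvd
  apply hpB
  exact (prime_dvd_absNorm hp hP hpP).trans
    (Ideal.absNorm_dvd_absNorm_of_le (Ideal.le_of_dvd hdvd))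

end Bad

variable {L : Type} [Field L] [NumberField L] [IsGalois ℚ L]

lemma faithful_gal : FaithfulSMul (L ≃ₐ[ℚ] L) (𝓞 L) :=
  IsGaloisGroup.faithful ℤ

lemma prime_ne_bot {p : ℕ} (hp : p.Prime) {P : Ideal (𝓞 L)} (hpP : (p : 𝓞 L) ∈ P) : P ≠ ⊥ := by
  rintro rfl
  rw [Ideal.mem_bot] at hpP
  exact hp.ne_zero (by exact_mod_cast hpP)

lemma finite_quot {p : ℕ} (hp : p.Prime) {P : Ideal (𝓞 L)} (hpP : (p : 𝓞 L) ∈ P) :
    Finite (𝓞 L ⧸ P) :=
  Ideal.finiteQuotientOfFreeOfNeBot P (prime_ne_bot hp hpP)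

/-- Existence of an arithmetic Frobenius at every prime above `p`. -/
lemma exists_isArithFrobAt {p : ℕ} (hp : p.Prime) {P : Ideal (𝓞 L)} [hP : P.IsPrime]
    (hpP : (p : 𝓞 L) ∈ P) : ∃ τ : L ≃ₐ[ℚ] L, IsArithFrobAt ℤ τ P := by
  haveI := finite_quot hp hpP
  exact IsArithFrobAt.exists_of_isInvariant ℤ (L ≃ₐ[ℚ] L) P

/-- Inertia is trivial at an unramified prime. -/
lemma inertiaTrivial_of_isUnramifiedAt {p : ℕ} (hp : p.Prime) {P : Ideal (𝓞 L)} [hP : P.IsPrime]
    (hpP : (p : 𝓞 L) ∈ P) [Algebra.IsUnramifiedAt ℤ P] : Spec.InertiaTrivial L P := by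
  intro ι hι
  obtain ⟨τ, hτ⟩ := exists_isArithFrobAt hp hpP
  have hιτ : IsArithFrobAt ℤ (ι * τ) P := by
    intro x
    have h1 := hι (τ • x)
    have h2 := hτ x
    have : (MulSemiringAction.toAlgHom ℤ (𝓞 L) (ι * τ)) x - x ^ Nat.card (ℤ ⧸ P.under ℤ)
        = (ι • (τ • x) - τ • x) + ((MulSemiringAction.toAlgHom ℤ (𝓞 L) τ) x
            - x ^ Nat.card (ℤ ⧸ P.under ℤ)) := by
      simp [mul_smul]
    rw [this]
    exact P.add_mem h1 h2
  have heq := AlgHom.IsArithFrobAt.eq_of_isUnramifiedAt hιτ hτ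
    (by intro x hx; exact mem_nonZeroDivisors_of_ne_zero (by rintro rfl; exact hx P.zero_mem))
  haveI := faithful_gal (L := L)
  have h3 : ι * τ = τ := by
    apply FaithfulSMul.eq_of_smul_eq_smul (α := 𝓞 L)
    intro x
    exact DFunLike.congr_fun heq x
  simpa using h3

attribute [local instance] Ideal.Quotient.field in
/-- If the inertia group is trivial, the decomposition group is generated by any Frobenius. -/
lemma decomp_eq_zpowers {p : ℕ} (hp : p.Prime) {P : Ideal (𝓞 L)} [hP : P.IsPrime]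
    (hpP : (p : 𝓞 L) ∈ P) (hI : Spec.InertiaTrivial L P) {τ : L ≃ₐ[ℚ] L}
    (hτ : IsArithFrobAt ℤ τ P) : Spec.decomp L P = Subgroup.zpowers τ := by
  have hne : P ≠ ⊥ := prime_ne_bot hp hpP
  haveI hmax : P.IsMaximal := Ideal.IsPrime.isMaximal hP hne
  haveI : Finite (𝓞 L ⧸ P) := Ideal.finiteQuotientOfFreeOfNeBot P hne
  haveI hmax' : (P.under ℤ).IsMaximal := Ideal.IsMaximal.under ℤ P
  haveI : Finite (ℤ ⧸ P.under ℤ) := hτ.finite_quotient
  letI : Fintype (ℤ ⧸ P.under ℤ) := Fintype.ofFinite _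
  have hτmem : τ ∈ MulAction.stabilizer (L ≃ₐ[ℚ] L) P := hτ.mem_stabilizer
  apply le_antisymm
  · intro σ hσ
    obtain ⟨n, hn⟩ := (FiniteField.bijective_frobeniusAlgEquivOfAlgebraic_pow
      (ℤ ⧸ P.under ℤ) (𝓞 L ⧸ P)).2
      (Ideal.Quotient.stabilizerHom P (P.under ℤ) (L ≃ₐ[ℚ] L) ⟨σ, hσ⟩)
    have hfrob : Ideal.Quotient.stabilizerHom P (P.under ℤ) (L ≃ₐ[ℚ] L) ⟨τ, hτmem⟩
        = FiniteField.frobeniusAlgEquivOfAlgebraic (ℤ ⧸ P.under ℤ) (𝓞 L ⧸ P) := by
      ext x
      obtain ⟨y, rfl⟩ := Ideal.Quotient.mk_surjective x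
      rw [FiniteField.coe_frobeniusAlgEquivOfAlgebraic]
      simp only [Ideal.Quotient.stabilizerHom_apply]
      rw [← Nat.card_eq_fintype_card]
      exact hτ.mk_apply y
    have hker : Ideal.Quotient.stabilizerHom P (P.under ℤ) (L ≃ₐ[ℚ] L)
        (⟨σ, hσ⟩ * (⟨τ, hτmem⟩ ^ n.1)⁻¹) = 1 := by
      rw [map_mul, map_inv, map_pow, hfrob]
      simp only at hn
      rw [hn, mul_inv_cancel]
    have h1 : σ * (τ ^ n.1)⁻¹ = 1 := by
      apply hI
      intro x
      have := DFunLike.congr_fun hker (Ideal.Quotient.mk P x)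
      simp only [Ideal.Quotient.stabilizerHom_apply, AlgEquiv.one_apply] at this
      rw [Ideal.Quotient.eq] at this
      exact this
    rw [mul_inv_eq_one] at h1
    rw [h1]
    exact Subgroup.pow_mem _ (Subgroup.mem_zpowers τ) _
  · rw [Subgroup.zpowers_le]
    exact hτmem

/-- Piece D with an explicit bad set: all conclusions at every prime not dividing `badNat L`. -/
theorem frob_of_not_dvd_badNat {p : ℕ} (hp : p.Prime) (hpB : ¬ p ∣ badNat L)
    (P : Ideal (𝓞 L)) (hP : P.IsPrime) (hpP : (p : 𝓞 L) ∈ P) :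
    Algebra.IsUnramifiedAt ℤ P ∧ Spec.InertiaTrivial L P ∧
      ∃ τ : L ≃ₐ[ℚ] L, IsArithFrobAt ℤ τ P ∧ Spec.decomp L P = Subgroup.zpowers τ := by
  haveI := hP
  haveI hU : Algebra.IsUnramifiedAt ℤ P := isUnramifiedAt_of_not_dvd_badNat hp hpB hpP
  have hI := inertiaTrivial_of_isUnramifiedAt hp hpP
  obtain ⟨τ, hτ⟩ := exists_isArithFrobAt hp hpP
  exact ⟨hU, hI, τ, hτ, decomp_eq_zpowers hp hpP hI hτ⟩

/-- **Piece D** of row CHEB: `Spec.FrobStatement`. -/
theorem frobStatement : Spec.FrobStatement := by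
  intro L _ _ _
  refine ⟨(badNat L).primeFactors, fun p hp hpB P hP hpP => ?_⟩
  have hpB' : ¬ p ∣ badNat L := fun h =>
    hpB (Nat.mem_primeFactors.mpr ⟨hp, h, badNat_ne_zero L⟩)
  obtain ⟨-, hI, hτ⟩ := frob_of_not_dvd_badNat hp hpB' P hP hpP
  exact ⟨hI, hτ⟩

end Fermat.Agent.Lib.Cheb.H943

end
-- ===== PACK-END Lib/Cheb/H943/Frob.lean

-- ===== PACK-BEGIN S24/JFun/Basic.lean
section



/-!
# The analytic `j`-function on the upper half plane (shared analytic core for S24 / S28)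

`jFun τ = E₄ τ ^ 3 / Δ τ`.  Basic properties: holomorphy, `SL(2,ℤ)`-invariance, periodicity.
-/

set_option autoImplicit false

namespace Fermat.Agent.S24.JFun

open UpperHalfPlane ModularForm EisensteinSeries MatrixGroups Complex
open scoped Manifold

/-- The analytic `j`-function `E₄³ / Δ` on the upper half plane. -/
noncomputable def jFun (τ : ℍ) : ℂ := E₄ τ ^ 3 / ModularForm.discriminant τ

theorem jFun_def (τ : ℍ) : jFun τ = E₄ τ ^ 3 / ModularForm.discriminant τ := rfl

theorem jFun_mul_discriminant (τ : ℍ) : jFun τ * ModularForm.discriminant τ = E₄ τ ^ 3 := by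
  rw [jFun, div_mul_cancel₀ _ (discriminant_ne_zero τ)]

theorem E₄_smul (γ : SL(2, ℤ)) (τ : ℍ) : E₄ (γ • τ) = denom γ τ ^ (4 : ℤ) * E₄ τ := by
  have h := SlashInvariantForm.slash_action_eqn'' E₄
    (show ((γ : SL(2, ℤ)) : GL (Fin 2) ℝ) ∈ 𝒮ℒ from ⟨γ, rfl⟩) τ
  simpa using h

theorem E₆_smul (γ : SL(2, ℤ)) (τ : ℍ) : E₆ (γ • τ) = denom γ τ ^ (6 : ℤ) * E₆ τ := by
  have h := SlashInvariantForm.slash_action_eqn'' E₆
    (show ((γ : SL(2, ℤ)) : GL (Fin 2) ℝ) ∈ 𝒮ℒ from ⟨γ, rfl⟩) τ
  simpa using h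

theorem discriminant_smul (γ : SL(2, ℤ)) (τ : ℍ) :
    ModularForm.discriminant (γ • τ) = denom γ τ ^ (12 : ℤ) * ModularForm.discriminant τ := by
  have h := SlashInvariantForm.slash_action_eqn'' CuspForm.discriminant
    (show ((γ : SL(2, ℤ)) : GL (Fin 2) ℝ) ∈ 𝒮ℒ from ⟨γ, rfl⟩) τ
  simpa using h

/-- `j` is invariant under `SL(2,ℤ)`. -/
theorem jFun_smul (γ : SL(2, ℤ)) (τ : ℍ) : jFun (γ • τ) = jFun τ := by
  have hd : denom γ τ ≠ 0 := denom_ne_zero _ _
  rw [jFun, jFun, E₄_smul, discriminant_smul, mul_pow, ← zpow_natCast, ← zpow_mul]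
  have h12 : ((4 : ℤ) * ((3 : ℕ) : ℤ)) = 12 := by norm_num
  rw [h12, mul_div_mul_left _ _ (zpow_ne_zero _ hd)]

/-- `j` is holomorphic on the upper half plane. -/
theorem jFun_mdifferentiable : MDiff jFun := by
  have h4 : MDiff (fun τ : ℍ => E₄ τ ^ 3) := by
    have := (E₄.holo'.pow 3)
    exact this
  exact h4.div CuspForm.discriminant.holo' discriminant_ne_zero

theorem jFun_eq_zero_iff (τ : ℍ) : jFun τ = 0 ↔ E₄ τ = 0 := by
  rw [jFun, div_eq_zero_iff]
  simp [discriminant_ne_zero τ]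

theorem jFun_sub_1728 (τ : ℍ) :
    jFun τ - 1728 = E₆ τ ^ 2 / ModularForm.discriminant τ := by
  have hΔ := discriminant_ne_zero τ
  have h := discriminant_eq_E₄_cube_sub_E₆_sq τ
  rw [jFun]
  field_simp
  rw [h]
  ring

theorem jFun_eq_1728_iff (τ : ℍ) : jFun τ = 1728 ↔ E₆ τ = 0 := by
  rw [← sub_eq_zero, jFun_sub_1728, div_eq_zero_iff]
  simp [discriminant_ne_zero τ]

end Fermat.Agent.S24.JFun

end
-- ===== PACK-END S24/JFun/Basic.lean

-- ===== PACK-BEGIN S24/JFun/EtaProd.lean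
section







/-!
# Formal versus analytic Euler product

The Taylor coefficients at `0` of the analytic function `q ↦ ∏' n, (1 - q ^ (n + 1))` on the unit
disc are the coefficients of the formal product `ModularCurve.etaProd`.
-/

set_option autoImplicit false

namespace Fermat.Agent.S24.JFun

open Filter Topology Complex Metric
open scoped PowerSeries.WithPiTopology

/-- Iterated derivatives of a locally uniform limit of holomorphic functions. -/
theorem tendstoLocallyUniformlyOn_iteratedDeriv {ι : Type*} {φ : Filter ι} {F : ι → ℂ → ℂ}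
    {f : ℂ → ℂ} {U : Set ℂ} (hU : IsOpen U) (hf : TendstoLocallyUniformlyOn F f φ U)
    (hF : ∀ᶠ n in φ, DifferentiableOn ℂ (F n) U) (m : ℕ) :
    TendstoLocallyUniformlyOn (fun n => iteratedDeriv m (F n)) (iteratedDeriv m f) φ U ∧
      ∀ᶠ n in φ, DifferentiableOn ℂ (iteratedDeriv m (F n)) U := by
  induction m with
  | zero => simpa [iteratedDeriv_zero] using And.intro hf hF
  | succ m ih =>
    obtain ⟨h1, h2⟩ := ih
    refine ⟨?_, ?_⟩
    · have := h1.deriv h2 hU
      simpa [iteratedDeriv_succ, Function.comp_def] using this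
    · filter_upwards [h2] with n hn
      rw [iteratedDeriv_succ]
      exact hn.deriv hU

theorem iteratedDeriv_polynomial_eval (P : Polynomial ℂ) (m : ℕ) :
    iteratedDeriv m (fun x : ℂ => P.eval x) = fun x => (Polynomial.derivative^[m] P).eval x := by
  induction m generalizing P with
  | zero => simp [iteratedDeriv_zero]
  | succ m ih =>
    rw [iteratedDeriv_succ', Function.iterate_succ_apply]
    have : deriv (fun x : ℂ => P.eval x) = fun x => (Polynomial.derivative P).eval x := by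
      funext x
      exact Polynomial.deriv P
    rw [this, ih]

theorem iteratedDeriv_polynomial_eval_zero (P : Polynomial ℂ) (m : ℕ) :
    iteratedDeriv m (fun x : ℂ => P.eval x) 0 = (m.factorial : ℂ) * P.coeff m := by
  rw [iteratedDeriv_polynomial_eval]
  simp only
  rw [← Polynomial.coeff_zero_eq_eval_zero, Polynomial.coeff_iterate_derivative]
  simp [Nat.descFactorial_self, nsmul_eq_mul]

/-- The partial Euler products as integer polynomials. -/
noncomputable def eulerPartial (s : Finset ℕ) : Polynomial ℤ :=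
  ∏ n ∈ s, (1 - Polynomial.X ^ (n + 1))

theorem eval_map_eulerPartial (s : Finset ℕ) (q : ℂ) :
    ((eulerPartial s).map (Int.castRingHom ℂ)).eval q = ∏ n ∈ s, (1 - q ^ (n + 1)) := by
  simp [eulerPartial, Polynomial.map_prod, Polynomial.eval_prod]

theorem coe_eulerPartial (s : Finset ℕ) :
    ((eulerPartial s : Polynomial ℤ) : PowerSeries ℤ) = ∏ n ∈ s, (1 - PowerSeries.X ^ (n + 1)) := by
  have h := map_prod (Polynomial.coeToPowerSeries.ringHom (R := ℤ))
    (fun n : ℕ => (1 - Polynomial.X ^ (n + 1) : Polynomial ℤ)) s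
  rw [eulerPartial]
  refine h.trans (Finset.prod_congr rfl fun n _ => ?_)
  simp

theorem tendsto_coeff_eulerPartial (m : ℕ) :
    Tendsto (fun s : Finset ℕ => (((eulerPartial s).coeff m : ℤ) : ℂ)) atTop
      (𝓝 ((ModularCurve.etaProd.coeff m : ℤ) : ℂ)) := by
  have h1 : HasProd (fun n : ℕ => (1 - PowerSeries.X ^ (n + 1) : PowerSeries ℤ))
      ModularCurve.etaProd :=
    (PowerSeries.WithPiTopology.multipliable_one_sub_X_pow ℤ).hasProd
  have h2 : Tendsto (fun s : Finset ℕ => ∏ n ∈ s, (1 - PowerSeries.X ^ (n + 1) : PowerSeries ℤ))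
      atTop (𝓝 ModularCurve.etaProd) := h1
  have h3 := (PowerSeries.WithPiTopology.tendsto_iff_coeff_tendsto ℤ _ _ _).1 h2 m
  have h4 : Continuous (fun z : ℤ => (z : ℂ)) := continuous_of_discreteTopology
  have h5 := (h4.tendsto _).comp h3
  refine h5.congr (fun s => ?_)
  simp only [Function.comp_apply]
  rw [← coe_eulerPartial, Polynomial.coeff_coe]

/-- The Taylor coefficients at `0` of the analytic Euler product are the coefficients of the
formal Euler product `ModularCurve.etaProd`. -/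
theorem iteratedDeriv_tprod_one_sub_pow (m : ℕ) :
    iteratedDeriv m (fun q : ℂ => ∏' n : ℕ, (1 - q ^ (n + 1))) 0
      = (m.factorial : ℂ) * ((ModularCurve.etaProd.coeff m : ℤ) : ℂ) := by
  have hU : IsOpen (ball (0 : ℂ) 1) := isOpen_ball
  have h0 : (0 : ℂ) ∈ ball (0 : ℂ) 1 := mem_ball_self one_pos
  have hloc : TendstoLocallyUniformlyOn
      (fun (s : Finset ℕ) (q : ℂ) => ∏ n ∈ s, (1 - q ^ (n + 1)))
      (fun q : ℂ => ∏' n : ℕ, (1 - q ^ (n + 1))) atTop (ball (0 : ℂ) 1) := by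
    have := ModularForm.multipliableLocallyUniformlyOn_one_sub_pow.hasProdLocallyUniformlyOn
    exact this
  have hF : ∀ᶠ s : Finset ℕ in atTop,
      DifferentiableOn ℂ (fun q : ℂ => ∏ n ∈ s, (1 - q ^ (n + 1))) (ball (0 : ℂ) 1) :=
    Eventually.of_forall fun s => by fun_prop
  have key := (tendstoLocallyUniformlyOn_iteratedDeriv hU hloc hF m).1.tendsto_at h0
  have hval : ∀ s : Finset ℕ,
      iteratedDeriv m (fun q : ℂ => ∏ n ∈ s, (1 - q ^ (n + 1))) 0
        = (m.factorial : ℂ) * (((eulerPartial s).coeff m : ℤ) : ℂ) := by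
    intro s
    have : (fun q : ℂ => ∏ n ∈ s, (1 - q ^ (n + 1)))
        = fun q => ((eulerPartial s).map (Int.castRingHom ℂ)).eval q := by
      funext q
      rw [eval_map_eulerPartial]
    rw [this, iteratedDeriv_polynomial_eval_zero, Polynomial.coeff_map]
    simp
  have key2 : Tendsto (fun s : Finset ℕ =>
      (m.factorial : ℂ) * (((eulerPartial s).coeff m : ℤ) : ℂ)) atTop
      (𝓝 (iteratedDeriv m (fun q : ℂ => ∏' n : ℕ, (1 - q ^ (n + 1))) 0)) :=
    key.congr hval
  exact tendsto_nhds_unique key2 ((tendsto_coeff_eulerPartial m).const_mul _)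

/-- The analytic Euler product is the sum of the formal Euler product on the open unit disc. -/
theorem hasSum_etaProd {q : ℂ} (hq : ‖q‖ < 1) :
    HasSum (fun m : ℕ => ((ModularCurve.etaProd.coeff m : ℤ) : ℂ) * q ^ m)
      (∏' n : ℕ, (1 - q ^ (n + 1))) := by
  have h := Complex.hasSum_taylorSeries_on_ball
    (f := fun q : ℂ => ∏' n : ℕ, (1 - q ^ (n + 1))) (c := 0) (r := 1)
    ModularForm.differentiableOn_tprod_one_sub_pow (z := q) (by simpa using hq)
  have heq : (fun n : ℕ => ((n.factorial : ℂ))⁻¹ • (q - 0) ^ n •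
      iteratedDeriv n (fun q : ℂ => ∏' n : ℕ, (1 - q ^ (n + 1))) 0)
      = fun m : ℕ => ((ModularCurve.etaProd.coeff m : ℤ) : ℂ) * q ^ m := by
    funext m
    rw [iteratedDeriv_tprod_one_sub_pow]
    have hm : (m.factorial : ℂ) ≠ 0 := by exact_mod_cast Nat.factorial_ne_zero m
    simp only [sub_zero, smul_eq_mul]
    field_simp
  rw [heq] at h
  exact h

end Fermat.Agent.S24.JFun

end
-- ===== PACK-END S24/JFun/EtaProd.lean

-- ===== PACK-BEGIN S24/JFun/QFun.lean
section



/-!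
# Functions on the upper half plane of the form `τ ↦ g (q(τ))`

For `g` holomorphic on the open unit disc, `ofQ g τ = g (exp (2πiτ))` is `1`-periodic, holomorphic,
bounded at `i∞`, and its `q`-expansion is the Taylor series of `g` at `0`.
-/

set_option autoImplicit false

namespace Fermat.Agent.S24.JFun

open Filter Topology Complex Metric Function
open UpperHalfPlane hiding I
open scoped Manifold

local notation "𝕢" => Function.Periodic.qParam

/-- The function `τ ↦ g (exp (2πiτ))` on the upper half plane. -/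
noncomputable def ofQ (g : ℂ → ℂ) : ℍ → ℂ := fun τ => g (𝕢 1 τ)

theorem ofQ_apply (g : ℂ → ℂ) (τ : ℍ) : ofQ g τ = g (𝕢 1 τ) := rfl

theorem norm_qParam_one_lt_one (τ : ℍ) : ‖𝕢 1 (τ : ℂ)‖ < 1 :=
  Function.Periodic.norm_qParam_lt_one one_pos τ.im_pos

theorem qParam_one_mem_ball (τ : ℍ) : 𝕢 1 (τ : ℂ) ∈ ball (0 : ℂ) 1 := by
  simpa using norm_qParam_one_lt_one τ

/-- A function on `ℍ` invariant under `τ ↦ τ + 1` gives a `1`-periodic function on `ℂ`. -/
theorem periodic_comp_ofComplex_of_vadd {f : ℍ → ℂ} (hf : ∀ τ : ℍ, f ((1 : ℝ) +ᵥ τ) = f τ) :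
    Periodic (f ∘ ofComplex) ((1 : ℝ) : ℂ) := by
  intro w
  by_cases hw : 0 < im w
  · have hw1 : 0 < im (w + ((1 : ℝ) : ℂ)) := by simpa using hw
    simp only [comp_apply, ofComplex_apply_of_im_pos hw1, ofComplex_apply_of_im_pos hw]
    rw [← hf ⟨w, hw⟩]
    congr 1
    ext
    simp [add_comm]
  · have hw' : im w ≤ 0 := not_lt.mp hw
    have hw1 : im (w + ((1 : ℝ) : ℂ)) ≤ 0 := by simpa using hw'
    simp only [comp_apply]
    rw [ofComplex_apply_eq_of_im_nonpos hw1 hw']

theorem qParam_one_add_one (z : ℂ) : 𝕢 1 (z + 1) = 𝕢 1 z := by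
  unfold Function.Periodic.qParam
  have h : 2 * (Real.pi : ℂ) * I * (z + 1) / ((1 : ℝ) : ℂ)
      = 2 * (Real.pi : ℂ) * I * z / ((1 : ℝ) : ℂ) + 2 * (Real.pi : ℂ) * I := by
    simp
    ring
  rw [h, Complex.exp_add, Complex.exp_two_pi_mul_I, mul_one]

theorem qParam_one_vadd (τ : ℍ) : 𝕢 1 (((1 : ℝ) +ᵥ τ : ℍ) : ℂ) = 𝕢 1 (τ : ℂ) := by
  have h := qParam_one_add_one (τ : ℂ)
  rw [← h]
  congr 1
  simp [add_comm]

theorem ofQ_vadd (g : ℂ → ℂ) (τ : ℍ) : ofQ g ((1 : ℝ) +ᵥ τ) = ofQ g τ := by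
  rw [ofQ_apply, ofQ_apply, qParam_one_vadd]

theorem ofQ_periodic (g : ℂ → ℂ) : Periodic (ofQ g ∘ ofComplex) ((1 : ℝ) : ℂ) :=
  periodic_comp_ofComplex_of_vadd (ofQ_vadd g)

theorem ofQ_mdiff {g : ℂ → ℂ} (hg : DifferentiableOn ℂ g (ball 0 1)) : MDiff (ofQ g) := by
  rw [UpperHalfPlane.mdifferentiable_iff]
  have h1 : DifferentiableOn ℂ (fun z : ℂ => g (𝕢 1 z)) {z : ℂ | 0 < z.im} := by
    intro z hz
    have hq : 𝕢 1 z ∈ ball (0 : ℂ) 1 := by
      simpa using Function.Periodic.norm_qParam_lt_one one_pos hz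
    have hgz : DifferentiableAt ℂ g (𝕢 1 z) := hg.differentiableAt (isOpen_ball.mem_nhds hq)
    have hqz : DifferentiableAt ℂ (𝕢 1) z := by
      unfold Function.Periodic.qParam
      fun_prop
    exact (hgz.comp z hqz).differentiableWithinAt
  refine h1.congr fun z hz => ?_
  simp [ofQ, ofComplex_apply_of_im_pos hz]

theorem ofQ_tendsto {g : ℂ → ℂ} (hg : DifferentiableOn ℂ g (ball 0 1)) :
    Tendsto (ofQ g) atImInfty (𝓝 (g 0)) := by
  have h0 : ContinuousAt g 0 :=
    (hg.differentiableAt (isOpen_ball.mem_nhds (mem_ball_self one_pos))).continuousAt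
  exact h0.tendsto.comp (UpperHalfPlane.qParam_tendsto_atImInfty one_pos)

theorem ofQ_bdd {g : ℂ → ℂ} (hg : DifferentiableOn ℂ g (ball 0 1)) :
    IsBoundedAtImInfty (ofQ g) :=
  (ofQ_tendsto hg).isBigO_one ℝ

theorem ofQ_analyticAt {g : ℂ → ℂ} (hg : DifferentiableOn ℂ g (ball 0 1)) :
    AnalyticAt ℂ (cuspFunction 1 (ofQ g)) 0 :=
  analyticAt_cuspFunction_zero one_pos (ofQ_periodic g) (ofQ_mdiff hg) (ofQ_bdd hg)

theorem ofQ_hasSum {g : ℂ → ℂ} (hg : DifferentiableOn ℂ g (ball 0 1)) (τ : ℍ) :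
    HasSum (fun m : ℕ => (((m.factorial : ℂ))⁻¹ * iteratedDeriv m g 0) • 𝕢 1 (τ : ℂ) ^ m)
      (ofQ g τ) := by
  have h := Complex.hasSum_taylorSeries_on_ball (f := g) (c := 0) (r := 1) hg
    (z := 𝕢 1 (τ : ℂ)) (by simpa using norm_qParam_one_lt_one τ)
  have heq : (fun n : ℕ => ((n.factorial : ℂ))⁻¹ • (𝕢 1 (τ : ℂ) - 0) ^ n • iteratedDeriv n g 0)
      = fun m : ℕ => (((m.factorial : ℂ))⁻¹ * iteratedDeriv m g 0) • 𝕢 1 (τ : ℂ) ^ m := by
    funext m
    simp only [sub_zero, smul_eq_mul]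
    ring
  rw [heq] at h
  exact h

/-- Uniqueness of `q`-expansion coefficients, for plain functions on `ℍ`. -/
theorem qExpansion_coeff_unique_fun {f : ℍ → ℂ} {c : ℕ → ℂ}
    (hfanalytic : AnalyticAt ℂ (cuspFunction 1 f) 0)
    (hf : ∀ τ : ℍ, HasSum (fun m : ℕ => c m • 𝕢 1 (τ : ℂ) ^ m) (f τ)) (m : ℕ) :
    (qExpansion 1 f).coeff m = c m := by
  have h1 := (hasFPowerSeriesOnBall_cuspFunction one_pos hfanalytic hf).hasFPowerSeriesAt
  have h2 := hfanalytic.hasFPowerSeriesAt
  have h3 := congr_arg (FormalMultilinearSeries.coeff · m) (h1.eq_formalMultilinearSeries h2)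
  simp only [FormalMultilinearSeries.coeff_ofScalars] at h3
  rw [qExpansion_coeff, h3, div_eq_inv_mul]

/-- The `q`-expansion of `τ ↦ g (q(τ))` is the Taylor expansion of `g` at `0`. -/
theorem qExpansion_ofQ_coeff {g : ℂ → ℂ} (hg : DifferentiableOn ℂ g (ball 0 1)) (m : ℕ) :
    (qExpansion 1 (ofQ g)).coeff m = ((m.factorial : ℂ))⁻¹ * iteratedDeriv m g 0 :=
  qExpansion_coeff_unique_fun (ofQ_analyticAt hg) (ofQ_hasSum hg) m

end Fermat.Agent.S24.JFun

end
-- ===== PACK-END S24/JFun/QFun.lean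

-- ===== PACK-BEGIN S24/JFun/QExp.lean
section






/-!
# The `q`-expansion of the analytic `j`-function is the formal `j` of the Prelude

Main results:
* `qExpansion_E₄` : `qExpansion 1 E₄ = ModularCurve.eisenstein4.map (Int.castRingHom ℂ)`;
* `qExpansion_qj` : `qExpansion 1 (τ ↦ q(τ) * j(τ)) = ModularCurve.jNum.map (Int.castRingHom ℂ)`;
* `hasSum_qj` : `q * j(τ) = ∑ jNum_n q ^ n` for every `τ : ℍ`.
-/

set_option autoImplicit false

namespace Fermat.Agent.S24.JFun

open Filter Topology Complex Metric Function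
open UpperHalfPlane hiding I
open ModularForm EisensteinSeries MatrixGroups
open scoped Manifold

local notation "𝕢" => Function.Periodic.qParam

/-- The analytic Euler product `∏ (1 - q ^ (n+1))` as a function of `τ`. -/
noncomputable def eulerFun : ℍ → ℂ := ofQ (fun q : ℂ => ∏' n : ℕ, (1 - q ^ (n + 1)))

theorem eulerFun_apply (τ : ℍ) :
    eulerFun τ = ∏' n : ℕ, (1 - 𝕢 1 (τ : ℂ) ^ (n + 1)) := rfl

theorem eulerFun_pow_eq_ofQ (k : ℕ) :
    (fun τ => eulerFun τ ^ k) = ofQ (fun q : ℂ => (∏' n : ℕ, (1 - q ^ (n + 1))) ^ k) := rfl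

theorem differentiableOn_euler_pow (k : ℕ) :
    DifferentiableOn ℂ (fun q : ℂ => (∏' n : ℕ, (1 - q ^ (n + 1))) ^ k) (ball 0 1) :=
  ModularForm.differentiableOn_tprod_one_sub_pow.fun_pow k

theorem analyticAt_eulerFun_pow (k : ℕ) :
    AnalyticAt ℂ (cuspFunction 1 (fun τ => eulerFun τ ^ k)) 0 := by
  rw [eulerFun_pow_eq_ofQ]
  exact ofQ_analyticAt (differentiableOn_euler_pow k)

theorem analyticAt_eulerFun : AnalyticAt ℂ (cuspFunction 1 eulerFun) 0 :=
  ofQ_analyticAt ModularForm.differentiableOn_tprod_one_sub_pow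

/-- The `q`-expansion of the analytic Euler product is the formal Euler product. -/
theorem qExpansion_eulerFun :
    qExpansion 1 eulerFun = ModularCurve.etaProd.map (Int.castRingHom ℂ) := by
  ext m
  rw [eulerFun, qExpansion_ofQ_coeff ModularForm.differentiableOn_tprod_one_sub_pow,
    iteratedDeriv_tprod_one_sub_pow, PowerSeries.coeff_map]
  have hm : (m.factorial : ℂ) ≠ 0 := by exact_mod_cast Nat.factorial_ne_zero m
  simp only [eq_intCast]
  field_simp

theorem qExpansion_eulerFun_pow (k : ℕ) :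
    qExpansion 1 (fun τ => eulerFun τ ^ k)
      = (ModularCurve.etaProd.map (Int.castRingHom ℂ)) ^ k := by
  induction k with
  | zero =>
    have h : (fun τ : ℍ => eulerFun τ ^ 0) = (1 : ℍ → ℂ) := by
      funext τ
      simp
    rw [h, qExpansion_one, pow_zero]
  | succ k ih =>
    have h : (fun τ : ℍ => eulerFun τ ^ (k + 1)) = (fun τ => eulerFun τ ^ k) * eulerFun := by
      funext τ
      simp [pow_succ]
    rw [h, qExpansion_mul (analyticAt_eulerFun_pow k) analyticAt_eulerFun, ih,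
      qExpansion_eulerFun, pow_succ]

/-- The discriminant as `q` times the 24-th power of the Euler product. -/
theorem discriminant_eq_q_mul_eulerFun (τ : ℍ) :
    ModularForm.discriminant τ = 𝕢 1 (τ : ℂ) * eulerFun τ ^ 24 := by
  rw [discriminant_eq_q_prod, eulerFun_apply]
  congr 1
  have hm : Multipliable (fun n : ℕ => (1 - 𝕢 1 (τ : ℂ) ^ (n + 1))) :=
    (ModularForm.multipliableLocallyUniformlyOn_one_sub_pow.multipliable
      (qParam_one_mem_ball τ))
  exact hm.tprod_pow 24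

/-- The `q`-expansion of `E₄` is the formal Eisenstein series of the Prelude. -/
theorem qExpansion_E₄ :
    qExpansion 1 E₄ = ModularCurve.eisenstein4.map (Int.castRingHom ℂ) := by
  ext m
  rw [PowerSeries.coeff_map, ModularCurve.eisenstein4, PowerSeries.coeff_mk]
  have h := E_qExpansion_coeff (k := 4) (by norm_num) ⟨2, rfl⟩ m
  have hE : (qExpansion 1 E₄).coeff m = (qExpansion 1 (E (k := 4) (by norm_num))).coeff m := rfl
  rw [hE, h]
  by_cases hm : m = 0
  · simp [hm]
  · simp only [hm, if_false]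
    rw [show bernoulli 4 = -1 / 30 by decide +kernel, ArithmeticFunction.sigma_apply]
    push_cast
    norm_num

theorem analyticAt_E₄ : AnalyticAt ℂ (cuspFunction 1 (E₄ : ℍ → ℂ)) 0 :=
  ModularFormClass.analyticAt_cuspFunction_zero E₄ one_pos one_mem_strictPeriods_SL

theorem qExpansion_E₄_cube :
    qExpansion 1 (fun τ => E₄ τ ^ 3)
      = (ModularCurve.eisenstein4.map (Int.castRingHom ℂ)) ^ 3 := by
  have h2 : (fun τ : ℍ => E₄ τ ^ 2) = (E₄ : ℍ → ℂ) * (E₄ : ℍ → ℂ) := by
    funext τ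
    simp [pow_two]
  have h3 : (fun τ : ℍ => E₄ τ ^ 3) = (fun τ : ℍ => E₄ τ ^ 2) * (E₄ : ℍ → ℂ) := by
    funext τ
    simp [pow_succ]
  have ha2 : AnalyticAt ℂ (cuspFunction 1 (fun τ : ℍ => E₄ τ ^ 2)) 0 := by
    rw [h2, cuspFunction_mul analyticAt_E₄.continuousAt analyticAt_E₄.continuousAt]
    exact analyticAt_E₄.mul analyticAt_E₄
  rw [h3, qExpansion_mul ha2 analyticAt_E₄, h2, qExpansion_mul analyticAt_E₄ analyticAt_E₄,
    qExpansion_E₄]
  ring

/-- The function `τ ↦ q(τ) * j(τ)`, holomorphic at the cusp. -/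
noncomputable def qjFun (τ : ℍ) : ℂ := 𝕢 1 (τ : ℂ) * jFun τ

theorem qjFun_apply (τ : ℍ) : qjFun τ = 𝕢 1 (τ : ℂ) * jFun τ := rfl

theorem qParam_one_ne_zero (z : ℂ) : 𝕢 1 z ≠ 0 := by
  unfold Function.Periodic.qParam
  exact Complex.exp_ne_zero _

theorem eulerFun_ne_zero (τ : ℍ) : eulerFun τ ≠ 0 := by
  intro h
  have := discriminant_ne_zero τ
  rw [discriminant_eq_q_mul_eulerFun, h] at this
  simp at this

theorem qjFun_mul_eulerFun (τ : ℍ) : qjFun τ * eulerFun τ ^ 24 = E₄ τ ^ 3 := by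
  rw [qjFun_apply, ← jFun_mul_discriminant, discriminant_eq_q_mul_eulerFun]
  ring

theorem qjFun_eq (τ : ℍ) : qjFun τ = E₄ τ ^ 3 / eulerFun τ ^ 24 := by
  rw [← qjFun_mul_eulerFun, mul_div_cancel_right₀ _ (pow_ne_zero _ (eulerFun_ne_zero τ))]

theorem jFun_vadd (τ : ℍ) : jFun ((1 : ℝ) +ᵥ τ) = jFun τ := by
  rw [← UpperHalfPlane.modular_T_smul, jFun_smul]

theorem qjFun_vadd (τ : ℍ) : qjFun ((1 : ℝ) +ᵥ τ) = qjFun τ := by
  rw [qjFun_apply, qjFun_apply, qParam_one_vadd, jFun_vadd]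

theorem qjFun_periodic : Periodic (qjFun ∘ ofComplex) ((1 : ℝ) : ℂ) :=
  periodic_comp_ofComplex_of_vadd qjFun_vadd

theorem mdiff_qParam : MDiff (fun τ : ℍ => 𝕢 1 (τ : ℂ)) :=
  ofQ_mdiff (g := fun q => q) differentiableOn_id

theorem qjFun_mdiff : MDiff qjFun :=
  mdiff_qParam.mul jFun_mdifferentiable

theorem tendsto_eulerFun : Tendsto eulerFun atImInfty (𝓝 1) := by
  have h := ofQ_tendsto ModularForm.differentiableOn_tprod_one_sub_pow
  simpa [eulerFun] using h

theorem E₄_bdd : IsBoundedAtImInfty (fun τ : ℍ => E₄ τ) :=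
  ModularFormClass.bdd_at_infty E₄

theorem qjFun_bdd : IsBoundedAtImInfty qjFun := by
  have h1 : IsBoundedAtImInfty (fun τ : ℍ => E₄ τ ^ 3) := by
    have := (E₄_bdd.mul E₄_bdd).mul E₄_bdd
    refine this.congr' ?_ (EventuallyEq.refl _ _)
    exact Eventually.of_forall fun τ => by simp [pow_succ]
  have h2 : Tendsto (fun τ : ℍ => (eulerFun τ ^ 24)⁻¹) atImInfty (𝓝 1) := by
    have := (tendsto_eulerFun.pow 24).inv₀ (by simp)
    simpa using this
  have h3 : IsBoundedAtImInfty (fun τ : ℍ => (eulerFun τ ^ 24)⁻¹) := h2.isBigO_one ℝ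
  have h4 := h1.mul h3
  refine h4.congr' ?_ (EventuallyEq.refl _ _)
  exact Eventually.of_forall fun τ => by
    simp only [Pi.mul_apply]
    rw [qjFun_eq, div_eq_mul_inv]

theorem analyticAt_qjFun : AnalyticAt ℂ (cuspFunction 1 qjFun) 0 :=
  analyticAt_cuspFunction_zero one_pos qjFun_periodic qjFun_mdiff qjFun_bdd

/-- **Bridge**: the `q`-expansion of `q · j` is the Prelude's formal power series `jNum`. -/
theorem qExpansion_qjFun :
    qExpansion 1 qjFun = ModularCurve.jNum.map (Int.castRingHom ℂ) := by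
  have hfun : qjFun * (fun τ => eulerFun τ ^ 24) = fun τ => E₄ τ ^ 3 := by
    funext τ
    exact qjFun_mul_eulerFun τ
  have h1 : qExpansion 1 qjFun * (ModularCurve.etaProd.map (Int.castRingHom ℂ)) ^ 24
      = (ModularCurve.eisenstein4.map (Int.castRingHom ℂ)) ^ 3 := by
    rw [← qExpansion_eulerFun_pow, ← qExpansion_mul analyticAt_qjFun (analyticAt_eulerFun_pow 24),
      hfun, qExpansion_E₄_cube]
  have h2 : ModularCurve.jNum * ModularCurve.etaProd ^ 24 = ModularCurve.eisenstein4 ^ 3 := by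
    have h := ModularCurve.dedekindEtaUnit_mul_inv
    rw [ModularCurve.dedekindEtaUnit] at h
    rw [ModularCurve.jNum, mul_assoc, mul_comm ModularCurve.dedekindEtaUnitInv, h, mul_one]
  have h3 : (ModularCurve.jNum.map (Int.castRingHom ℂ))
      * (ModularCurve.etaProd.map (Int.castRingHom ℂ)) ^ 24
      = (ModularCurve.eisenstein4.map (Int.castRingHom ℂ)) ^ 3 := by
    rw [← map_pow, ← map_pow, ← map_mul, h2]
  have hne : (ModularCurve.etaProd.map (Int.castRingHom ℂ)) ^ 24 ≠ 0 := by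
    apply pow_ne_zero
    intro h0
    have hc := congrArg (PowerSeries.coeff 0) h0
    rw [PowerSeries.coeff_map, PowerSeries.coeff_zero_eq_constantCoeff,
      ModularCurve.constantCoeff_etaProd] at hc
    simp at hc
  exact mul_right_cancel₀ hne (h1.trans h3.symm)

/-- **Bridge, summation form**: `q · j(τ) = ∑ₙ jNumₙ qⁿ` for every `τ` in the upper half plane. -/
theorem hasSum_qjFun (τ : ℍ) :
    HasSum (fun n : ℕ => ((ModularCurve.jNum.coeff n : ℤ) : ℂ) * 𝕢 1 (τ : ℂ) ^ n)
      (𝕢 1 (τ : ℂ) * jFun τ) := by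
  have h := hasSum_qExpansion one_pos qjFun_periodic qjFun_mdiff qjFun_bdd τ
  rw [qExpansion_qjFun, qjFun_apply] at h
  simpa [PowerSeries.coeff_map, smul_eq_mul] using h

end Fermat.Agent.S24.JFun

end
-- ===== PACK-END S24/JFun/QExp.lean

-- ===== PACK-BEGIN S18/H138/Charts.lean
section


/-!
# S18, Route K, ASM (helper138): the three charts of the `x`-line model inside a field

`R` a commutative ring, `F` a field which is an `R`-algebra, `x : F`.  The *charts* are

* `chart R {x}`        : elements of `F` integral over `R[x]`        (`B_fin`),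
* `chart R {x⁻¹}`      : elements of `F` integral over `R[x⁻¹]`      (`B_inf`),
* `chart R {x, x⁻¹}`   : elements of `F` integral over `R[x, x⁻¹]`   (`B_mid`).

This file proves the formal properties of the charts needed by the two-chart connectedness
lemma (`H558.cech_connected`):

* `exists_pow_mul_mem_chart`   : `B_mid = B_fin[1/x]`,
* `exists_inv_pow_mul_mem_chart` : every element of `B_fin` lies in `x ^ D • B_inf`,
* `chart_inter_eq` (in `ChartsConst.lean`) : `B_fin ∩ B_inf = R`.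
-/

set_option autoImplicit false
set_option linter.style.haveILetI false

namespace Fermat.Agent.S18.H138

open Polynomial

section Basic

variable (R : Type*) [CommRing R] {F : Type*} [Field F] [Algebra R F]

/-- The chart attached to `S ⊆ F`: the elements of `F` integral over `R[S]`. -/
def chart (S : Set F) : Subalgebra R F :=
  (integralClosure (Algebra.adjoin R S) F).restrictScalars R

variable {R}

theorem mem_chart {S : Set F} {y : F} :
    y ∈ chart R S ↔ IsIntegral (Algebra.adjoin R S) y := Iff.rfl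

theorem adjoin_le_chart (S : Set F) : Algebra.adjoin R S ≤ chart R S := by
  intro y hy
  rw [mem_chart]
  exact isIntegral_algebraMap (R := Algebra.adjoin R S) (x := ⟨y, hy⟩)

theorem mem_chart_of_mem {S : Set F} {y : F} (hy : y ∈ S) : y ∈ chart R S :=
  adjoin_le_chart S (Algebra.subset_adjoin hy)

/-- Integrality over a smaller subalgebra implies integrality over a bigger one. -/
theorem isIntegral_of_le {A₁ A₂ : Subalgebra R F} (h : A₁ ≤ A₂) {y : F}
    (hy : IsIntegral A₁ y) : IsIntegral A₂ y := by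
  have := IsIntegral.map_of_comp_eq (R := A₁) (S := F) (T := A₂) (U := F)
    (Subalgebra.inclusion h).toRingHom (RingHom.id F) (by ext; rfl) hy
  simpa using this

theorem chart_mono {S T : Set F} (h : S ⊆ T) : chart R S ≤ chart R T := fun _ hy =>
  isIntegral_of_le (Algebra.adjoin_mono h) hy

end Basic

section Denominators

variable {R : Type*} [CommRing R] {F : Type*} [Field F] [Algebra R F]

/-- Clearing denominators in `R[x, x⁻¹]`. -/
theorem exists_pow_mul_mem_adjoin {x : F} (hx : x ≠ 0) {a : F}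
    (ha : a ∈ Algebra.adjoin R ({x, x⁻¹} : Set F)) :
    ∃ K : ℕ, ∀ k : ℕ, K ≤ k → x ^ k * a ∈ Algebra.adjoin R ({x} : Set F) := by
  have hxA : x ∈ Algebra.adjoin R ({x} : Set F) := Algebra.subset_adjoin rfl
  induction ha using Algebra.adjoin_induction with
  | mem y hy =>
    rcases hy with rfl | rfl
    · exact ⟨0, fun k _ => Subalgebra.mul_mem _ (Subalgebra.pow_mem _ hxA k) hxA⟩
    · refine ⟨1, fun k hk => ?_⟩
      obtain ⟨k, rfl⟩ : ∃ j, k = j + 1 := ⟨k - 1, by omega⟩
      rw [pow_succ, mul_assoc, mul_inv_cancel₀ hx, mul_one]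
      exact Subalgebra.pow_mem _ hxA k
  | algebraMap r =>
    exact ⟨0, fun k _ => Subalgebra.mul_mem _ (Subalgebra.pow_mem _ hxA k)
      (Subalgebra.algebraMap_mem _ r)⟩
  | add y z _ _ hy hz =>
    obtain ⟨K₁, h₁⟩ := hy
    obtain ⟨K₂, h₂⟩ := hz
    refine ⟨max K₁ K₂, fun k hk => ?_⟩
    rw [mul_add]
    exact Subalgebra.add_mem _ (h₁ k (le_trans (le_max_left _ _) hk))
      (h₂ k (le_trans (le_max_right _ _) hk))
  | mul y z _ _ hy hz =>
    obtain ⟨K₁, h₁⟩ := hy
    obtain ⟨K₂, h₂⟩ := hz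
    refine ⟨K₁ + K₂, fun k hk => ?_⟩
    obtain ⟨j, rfl⟩ : ∃ j, k = K₁ + j := ⟨k - K₁, by omega⟩
    have : x ^ (K₁ + j) * (y * z) = (x ^ K₁ * y) * (x ^ j * z) := by ring
    rw [this]
    exact Subalgebra.mul_mem _ (h₁ K₁ le_rfl) (h₂ j (by omega))

/-- `B_mid = B_fin[1/x]`: an element integral over `R[x, x⁻¹]` becomes integral over `R[x]`
after multiplication by a power of `x`. -/
theorem exists_pow_mul_mem_chart {x : F} (hx : x ≠ 0) {y : F}
    (hy : y ∈ chart R ({x, x⁻¹} : Set F)) :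
    ∃ K : ℕ, x ^ K * y ∈ chart R ({x} : Set F) := by
  classical
  set Af : Subalgebra R F := Algebra.adjoin R ({x} : Set F) with hAf
  set Am : Subalgebra R F := Algebra.adjoin R ({x, x⁻¹} : Set F) with hAm
  have hle : Af ≤ Am := Algebra.adjoin_mono (by simp)
  have hxA : x ∈ Af := Algebra.subset_adjoin rfl
  letI : Algebra Af Am := (Subalgebra.inclusion hle).toRingHom.toAlgebra
  haveI : IsScalarTower Af Am F := IsScalarTower.of_algebraMap_eq (fun _ => rfl)
  let xf : Af := ⟨x, hxA⟩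
  haveI : IsLocalization (Submonoid.powers xf) Am := by
    rw [isLocalization_iff]
    refine ⟨?_, ?_, ?_⟩
    · rintro ⟨_, n, rfl⟩
      have hxinv : x⁻¹ ∈ Am := Algebra.subset_adjoin (by simp)
      refine IsUnit.of_mul_eq_one (⟨x⁻¹, hxinv⟩ ^ n) ?_
      apply Subtype.ext
      change x ^ n * (x⁻¹) ^ n = 1
      rw [← mul_pow, mul_inv_cancel₀ hx, one_pow]
    · intro z
      obtain ⟨K, hK⟩ := exists_pow_mul_mem_adjoin (R := R) hx z.2
      refine ⟨⟨⟨x ^ K * z, hK K le_rfl⟩, ⟨xf ^ K, K, rfl⟩⟩, ?_⟩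
      apply Subtype.ext
      change (z : F) * x ^ K = x ^ K * z
      ring
    · intro a b hab
      refine ⟨1, ?_⟩
      have : (a : F) = b := congrArg (fun t : Am => (t : F)) hab
      rw [Subtype.ext this]
  obtain ⟨⟨_, n, rfl⟩, hm⟩ :=
    IsIntegral.exists_multiple_integral_of_isLocalization (Submonoid.powers xf) (Rₘ := Am)
      (S := F) y hy
  refine ⟨n, ?_⟩
  rw [mem_chart]
  have : (⟨xf ^ n, n, rfl⟩ : Submonoid.powers xf) • y = x ^ n * y := rfl
  rwa [this] at hm

/-- Every element of `B_fin` lies in `x ^ D • B_inf`. -/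
theorem exists_inv_pow_mul_mem_chart {x : F} (hx : x ≠ 0) {y : F}
    (hy : y ∈ chart R ({x} : Set F)) :
    ∃ D : ℕ, x⁻¹ ^ D * y ∈ chart R ({x⁻¹} : Set F) := by
  have h1 : y ∈ chart R ({x⁻¹, x⁻¹⁻¹} : Set F) := by
    refine chart_mono ?_ hy
    rw [inv_inv]
    simp
  exact exists_pow_mul_mem_chart (inv_ne_zero hx) h1

end Denominators

end Fermat.Agent.S18.H138

end
-- ===== PACK-END S18/H138/Charts.lean

-- ===== PACK-BEGIN S18/H138/ChartsConst.lean
section


/-!
# S18, Route K, ASM (helper138): constants and finiteness of the charts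

* `mem_range_of_mem_adjoin_inter` : `R[x] ∩ R[x⁻¹] = R` for `x` transcendental over `R`.
* `isIntegral_of_mem_chart_inter` : an element of `F` integral over `R[x]` and over `R[x⁻¹]` is
  integral over `R` (for `R[X]` integrally closed, e.g. `R` a DVR).
* `exists_finite_gens`            : `B_fin` is generated over `R` by finitely many `x ^ j * bs i`.
-/

set_option autoImplicit false
set_option linter.style.haveILetI false

namespace Fermat.Agent.S18.H138

open Polynomial

variable {R : Type*} [CommRing R] {F : Type*} [Field F] [Algebra R F]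

theorem mem_adjoin_singleton_iff {x c : F} :
    c ∈ Algebra.adjoin R ({x} : Set F) ↔ ∃ P : R[X], aeval x P = c := by
  rw [Algebra.adjoin_singleton_eq_range_aeval]
  rfl

/-- `x ^ d * Q(x⁻¹) = (reflect d Q)(x)` for `natDegree Q ≤ d`. -/
theorem pow_mul_aeval_inv {x : F} (hx : x ≠ 0) (Q : R[X]) {d : ℕ} (hd : Q.natDegree ≤ d) :
    x ^ d * aeval x⁻¹ Q = aeval x (reflect d Q) := by
  letI : Invertible x := invertibleOfNonzero hx
  have h := eval₂_reflect_mul_pow (algebraMap R F) x d (reflect d Q)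
    (le_trans natDegree_reflect_le (by simp [hd]))
  rw [reflect_reflect] at h
  rw [invOf_eq_inv] at h
  rw [aeval_def, aeval_def, ← h, mul_comm]

theorem ne_zero_of_transcendental {x : F} (hx : Transcendental R x) : x ≠ 0 := by
  haveI : Nontrivial R := (algebraMap R F).domain_nontrivial
  rintro rfl
  exact hx ⟨X, X_ne_zero, by simp⟩

theorem transcendental_inv {x : F} (hx : Transcendental R x) : Transcendental R x⁻¹ := by
  have hx0 : x ≠ 0 := ne_zero_of_transcendental hx
  rw [transcendental_iff] at hx ⊢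
  intro Q hQ
  have h := pow_mul_aeval_inv (R := R) hx0 Q le_rfl
  rw [hQ, mul_zero] at h
  have h2 := hx _ h.symm
  have := congrArg (reflect Q.natDegree) h2
  rwa [reflect_reflect, reflect_zero] at this

/-- `R[x] ∩ R[x⁻¹] = R` inside `F`, for `x` transcendental over `R`. -/
theorem mem_range_of_mem_adjoin_inter {x : F} (hx : Transcendental R x) {c : F}
    (h1 : c ∈ Algebra.adjoin R ({x} : Set F)) (h2 : c ∈ Algebra.adjoin R ({x⁻¹} : Set F)) :
    c ∈ Set.range (algebraMap R F) := by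
  haveI : Nontrivial R := (algebraMap R F).domain_nontrivial
  have hx0 : x ≠ 0 := ne_zero_of_transcendental hx
  obtain ⟨P, rfl⟩ := mem_adjoin_singleton_iff.1 h1
  obtain ⟨Q, hQ⟩ := mem_adjoin_singleton_iff.1 h2
  have h := pow_mul_aeval_inv (R := R) hx0 Q le_rfl
  rw [hQ] at h
  have h3 : aeval x (X ^ Q.natDegree * P) = aeval x (reflect Q.natDegree Q) := by
    rw [map_mul, map_pow, aeval_X, h]
  have h4 : X ^ Q.natDegree * P = reflect Q.natDegree Q := by
    have := (transcendental_iff.1 hx) (X ^ Q.natDegree * P - reflect Q.natDegree Q)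
      (by rw [map_sub, h3, sub_self])
    exact sub_eq_zero.1 this
  by_cases hP : P = 0
  · subst hP
    exact ⟨0, by simp⟩
  have h5 : (X ^ Q.natDegree * P).natDegree = Q.natDegree + P.natDegree := by
    rw [natDegree_X_pow_mul _ hP, add_comm]
  have h6 : (reflect Q.natDegree Q).natDegree ≤ Q.natDegree :=
    le_trans natDegree_reflect_le (by simp)
  rw [← h4, h5] at h6
  have h7 : P.natDegree = 0 := by omega
  obtain ⟨r, hr⟩ := natDegree_eq_zero.1 h7
  exact ⟨r, by rw [← hr]; simp⟩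

section Integral

theorem isIntegrallyClosed_adjoin_singleton [IsIntegrallyClosed R[X]] {x : F}
    (hx : Transcendental R x) : IsIntegrallyClosed (Algebra.adjoin R ({x} : Set F)) := by
  have hinj : Function.Injective (aeval (R := R) x) :=
    (injective_iff_map_eq_zero _).2 (transcendental_iff.1 hx)
  let e : R[X] ≃ₐ[R] Algebra.adjoin R ({x} : Set F) :=
    (AlgEquiv.ofInjective (aeval (R := R) x) hinj).trans
      (Subalgebra.equivOfEq _ _ (Algebra.adjoin_singleton_eq_range_aeval R x).symm)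
  exact IsIntegrallyClosed.of_equiv e.toRingEquiv

theorem isNoetherianRing_adjoin_singleton [IsNoetherianRing R] {x : F}
    (hx : Transcendental R x) : IsNoetherianRing (Algebra.adjoin R ({x} : Set F)) := by
  have hinj : Function.Injective (aeval (R := R) x) :=
    (injective_iff_map_eq_zero _).2 (transcendental_iff.1 hx)
  let e : R[X] ≃ₐ[R] Algebra.adjoin R ({x} : Set F) :=
    (AlgEquiv.ofInjective (aeval (R := R) x) hinj).trans
      (Subalgebra.equivOfEq _ _ (Algebra.adjoin_singleton_eq_range_aeval R x).symm)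
  exact isNoetherianRing_of_ringEquiv _ e.toRingEquiv

/-- The field generated by `R` and `x` inside `F`. -/
def baseField (R : Type*) [CommRing R] {F : Type*} [Field F] [Algebra R F] (x : F) :
    Subfield F :=
  Subfield.closure (Set.range (algebraMap R F) ∪ {x})

theorem adjoin_le_baseField (x : F) {a : F} (ha : a ∈ Algebra.adjoin R ({x} : Set F)) :
    a ∈ baseField R x := by
  have : a ∈ (Algebra.adjoin R ({x} : Set F)).toSubring := ha
  rw [Algebra.adjoin_eq_ring_closure] at this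
  exact Subfield.subring_closure_le _ this

theorem inv_mem_baseField (x : F) : x⁻¹ ∈ baseField R x :=
  (baseField R x).inv_mem (Subfield.subset_closure (by simp))

theorem baseField_inv (x : F) : baseField R x⁻¹ = baseField R x := by
  apply le_antisymm
  · refine Subfield.closure_le.2 ?_
    rintro y (hy | hy)
    · exact Subfield.subset_closure (Or.inl hy)
    · rw [Set.mem_singleton_iff] at hy
      rw [hy]
      exact inv_mem_baseField x
  · refine Subfield.closure_le.2 ?_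
    rintro y (hy | hy)
    · exact Subfield.subset_closure (Or.inl hy)
    · rw [Set.mem_singleton_iff] at hy
      rw [hy]
      have := inv_mem_baseField (R := R) x⁻¹
      rwa [inv_inv] at this

theorem exists_div_of_mem_baseField (x : F) {z : F} (hz : z ∈ baseField R x) :
    ∃ a ∈ Algebra.adjoin R ({x} : Set F), ∃ b ∈ Algebra.adjoin R ({x} : Set F), z = a / b := by
  obtain ⟨a, ha, b, hb, rfl⟩ := Subfield.mem_closure_iff.1 hz
  rw [← Algebra.adjoin_eq_ring_closure] at ha hb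
  exact ⟨a, ha, b, hb, rfl⟩

/-- Coefficients of the minimal polynomial over the fraction field of an integrally closed
subalgebra `A` of `F` lie in `A`. -/
theorem minpoly_coeff_mem (A : Subalgebra R F) [IsIntegrallyClosed A] (K : Subfield F)
    (hAK : ∀ a ∈ A, a ∈ K) (hfrac : ∀ z ∈ K, ∃ a ∈ A, ∃ b ∈ A, z = a / b)
    {y : F} (hy : IsIntegral A y) (n : ℕ) :
    (((minpoly K y).coeff n : K) : F) ∈ A := by
  let φ : A →+* K :=
    { toFun := fun a => ⟨a, hAK a a.2⟩
      map_one' := rfl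
      map_mul' := fun _ _ => rfl
      map_zero' := rfl
      map_add' := fun _ _ => rfl }
  letI : Algebra A K := φ.toAlgebra
  haveI : IsScalarTower A K F := IsScalarTower.of_algebraMap_eq (fun _ => rfl)
  have hinj : Function.Injective (algebraMap A K) := by
    intro a b hab
    have : (a : F) = b := congrArg (fun t : K => (t : F)) hab
    exact Subtype.ext this
  haveI : FaithfulSMul A K := (faithfulSMul_iff_algebraMap_injective A K).2 hinj
  haveI : IsFractionRing A K := by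
    refine IsFractionRing.of_field A K (fun z => ?_)
    obtain ⟨a, ha, b, hb, h⟩ := hfrac z z.2
    exact ⟨⟨a, ha⟩, ⟨b, hb⟩, Subtype.ext h⟩
  have h := minpoly.isIntegrallyClosed_eq_field_fractions' (R := A) (S := F) K hy
  rw [h, coeff_map]
  exact ((minpoly A y).coeff n).2

/-- An element of `F` integral over `R[x]` and over `R[x⁻¹]` is integral over `R`. -/
theorem isIntegral_of_mem_chart_inter [IsIntegrallyClosed R[X]] {x : F}
    (hx : Transcendental R x) {y : F}
    (h1 : y ∈ chart R ({x} : Set F)) (h2 : y ∈ chart R ({x⁻¹} : Set F)) :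
    IsIntegral R y := by
  have hx0 : x ≠ 0 := ne_zero_of_transcendental hx
  have hxi : Transcendental R x⁻¹ := transcendental_inv hx
  haveI := isIntegrallyClosed_adjoin_singleton (R := R) hx
  haveI := isIntegrallyClosed_adjoin_singleton (R := R) hxi
  set K := baseField R x with hK
  have hc1 : ∀ n, (((minpoly K y).coeff n : K) : F) ∈ Algebra.adjoin R ({x} : Set F) :=
    minpoly_coeff_mem _ K (fun a ha => adjoin_le_baseField x ha)
      (fun z hz => exists_div_of_mem_baseField x hz) h1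
  have hc2 : ∀ n, (((minpoly K y).coeff n : K) : F) ∈ Algebra.adjoin R ({x⁻¹} : Set F) :=
    minpoly_coeff_mem _ K (fun a ha => by
        have := adjoin_le_baseField (R := R) x⁻¹ ha
        rwa [baseField_inv] at this)
      (fun z hz => by
        have hz' : z ∈ baseField R x⁻¹ := by rwa [baseField_inv]
        exact exists_div_of_mem_baseField x⁻¹ hz') h2
  have hc : ∀ n, (((minpoly K y).coeff n : K) : F) ∈ Set.range (algebraMap R F) := fun n =>
    mem_range_of_mem_adjoin_inter hx (hc1 n) (hc2 n)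
  have hyK : IsIntegral K y := by
    obtain ⟨p, hp, hp0⟩ := h1
    refine ⟨p.map (⟨⟨⟨fun a => (⟨a, adjoin_le_baseField x a.2⟩ : K), rfl⟩, fun _ _ => rfl⟩,
      rfl, fun _ _ => rfl⟩ : Algebra.adjoin R ({x} : Set F) →+* K), hp.map _, ?_⟩
    rw [eval₂_map]
    exact hp0
  have hmem : (minpoly K y).map (algebraMap K F) ∈ lifts (algebraMap R F) := by
    rw [lifts_iff_coeff_lifts]
    intro n
    rw [coeff_map]
    exact hc n
  obtain ⟨q, hq, -, hqm⟩ := lifts_and_natDegree_eq_and_monic hmem ((minpoly.monic hyK).map _)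
  refine ⟨q, hqm, ?_⟩
  rw [← eval_map, hq, eval_map, ← aeval_def]
  exact minpoly.aeval K y

end Integral

end Fermat.Agent.S18.H138

end
-- ===== PACK-END S18/H138/ChartsConst.lean

-- ===== PACK-BEGIN S22/H262/Glue.lean
section


set_option autoImplicit false

/-!
# S22 glue: a finitely generated, Hecke-stable, separating lattice of functionals
forces the Hecke algebra to be a finite `ℤ`-module.
-/

namespace Fermat.Agent.S22.H262

open CuspForm

section Abstract

variable {V : Type*} [AddCommGroup V] [Module ℂ V]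

/-- The `ℤ`-subalgebra of endomorphisms `t` such that `l ∘ t ∈ Λ` for all `l ∈ Λ`. -/
def stabAlg (Λ : Submodule ℤ (Module.Dual ℂ V)) : Subalgebra ℤ (Module.End ℂ V) where
  carrier := {t | ∀ l ∈ Λ, l ∘ₗ t ∈ Λ}
  mul_mem' := by
    intro a b ha hb l hl
    have : l ∘ₗ (a * b) = (l ∘ₗ a) ∘ₗ b := rfl
    rw [this]
    exact hb _ (ha _ hl)
  one_mem' := by
    intro l hl
    have : l ∘ₗ (1 : Module.End ℂ V) = l := rfl
    rw [this]
    exact hl
  add_mem' := by
    intro a b ha hb l hl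
    rw [LinearMap.comp_add]
    exact Λ.add_mem (ha _ hl) (hb _ hl)
  zero_mem' := by
    intro l _
    rw [LinearMap.comp_zero]
    exact Λ.zero_mem
  algebraMap_mem' := by
    intro n l hl
    have : l ∘ₗ (algebraMap ℤ (Module.End ℂ V) n) = n • l := by
      ext v
      simp
    rw [this]
    exact Λ.smul_mem n hl

theorem mem_stabAlg {Λ : Submodule ℤ (Module.Dual ℂ V)} {t : Module.End ℂ V} :
    t ∈ stabAlg Λ ↔ ∀ l ∈ Λ, l ∘ₗ t ∈ Λ := Iff.rfl

/-- The transpose action of the stabiliser algebra on the lattice, as a `ℤ`-linear map. -/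
def stabAct (Λ : Submodule ℤ (Module.Dual ℂ V)) : stabAlg Λ →ₗ[ℤ] (Λ →ₗ[ℤ] Λ) where
  toFun t :=
    { toFun := fun l => ⟨(l : Module.Dual ℂ V) ∘ₗ (t : Module.End ℂ V), t.2 _ l.2⟩
      map_add' := fun l l' => Subtype.ext (by simp [LinearMap.add_comp])
      map_smul' := fun n l => Subtype.ext (by
        ext v
        simp) }
  map_add' := fun t t' => LinearMap.ext fun l => Subtype.ext (by
    simp [LinearMap.comp_add])
  map_smul' := fun n t => LinearMap.ext fun l => Subtype.ext (by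
    ext v
    simp)

theorem stabAct_injective (Λ : Submodule ℤ (Module.Dual ℂ V))
    (hsep : ∀ v : V, (∀ l ∈ Λ, l v = 0) → v = 0) : Function.Injective (stabAct Λ) := by
  rw [injective_iff_map_eq_zero]
  intro t ht
  apply Subtype.ext
  apply LinearMap.ext
  intro v
  apply hsep
  intro l hl
  have := congrArg (fun (φ : Λ →ₗ[ℤ] Λ) => ((φ ⟨l, hl⟩ : Λ) : Module.Dual ℂ V) v) ht
  simpa [stabAct] using this

theorem moduleFinite_stabAlg (Λ : Submodule ℤ (Module.Dual ℂ V)) (hfg : Λ.FG)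
    (hsep : ∀ v : V, (∀ l ∈ Λ, l v = 0) → v = 0) : Module.Finite ℤ (stabAlg Λ) := by
  have : Module.Finite ℤ Λ := Module.Finite.iff_fg.mpr hfg
  have : IsAddTorsionFree (Module.Dual ℂ V) := .of_isTorsionFree ℂ _
  have : Module.Free ℤ Λ := Module.free_of_finite_type_torsion_free'
  have : Module.Finite ℤ (Λ →ₗ[ℤ] Λ) := Module.Finite.linearMap ℤ ℤ Λ Λ
  exact Module.Finite.of_injective (stabAct Λ) (stabAct_injective Λ hsep)

end Abstract

/-- **Glue lemma**: a finitely generated `ℤ`-lattice of functionals on `S_k(Γ₀(N))` which is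
stable under precomposition with the Hecke generators and separates points
forces the Hecke algebra to be module-finite over `ℤ`. -/
theorem moduleFinite_heckeAlgebra_of_lattice {N : ℕ} [NeZero N] {k : ℤ} {S : Set ℕ}
    (Λ : Submodule ℤ (Module.Dual ℂ (CuspForm (CongruenceSubgroup.Gamma0 N) k)))
    (hfg : Λ.FG)
    (hstab : ∀ T ∈ heckeGenerators N k S, ∀ l ∈ Λ, l ∘ₗ T ∈ Λ)
    (hsep : ∀ f : CuspForm (CongruenceSubgroup.Gamma0 N) k, (∀ l ∈ Λ, l f = 0) → f = 0) :
    Module.Finite ℤ (heckeAlgebra N k S) := by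
  have hle : heckeAlgebra N k S ≤ stabAlg Λ := Algebra.adjoin_le fun T hT => hstab T hT
  have := moduleFinite_stabAlg Λ hfg hsep
  exact Module.Finite.of_injective (Subalgebra.inclusion hle).toLinearMap
    (Subalgebra.inclusion_injective hle)

/-- If the space of cusp forms is trivial, the Hecke algebra is module-finite. -/
theorem moduleFinite_heckeAlgebra_of_subsingleton {N : ℕ} [NeZero N] {k : ℤ} {S : Set ℕ}
    (h : ∀ f : CuspForm (CongruenceSubgroup.Gamma0 N) k, f = 0) :
    Module.Finite ℤ (heckeAlgebra N k S) :=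
  moduleFinite_heckeAlgebra_of_lattice ⊥ Submodule.fg_bot
    (fun T _ l hl => by
      rw [Submodule.mem_bot] at hl ⊢
      rw [hl, LinearMap.zero_comp])
    (fun f _ => h f)

end Fermat.Agent.S22.H262

end
-- ===== PACK-END S22/H262/Glue.lean

-- ===== PACK-BEGIN S29/Defs.lean
section
/-
S29 row — FROZEN interface definitions (row-lead helper269).
Namespace `Fermat.Agent.S29`.  Do not edit; propose changes via a note kind='question' stmt='S29'.
-/



set_option autoImplicit false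

namespace Fermat.Agent.S29

open Polynomial

/-- The absolute Galois group of `ℚ`, as used by every frozen statement. -/
abbrev GQ : Type := AlgebraicClosure ℚ ≃ₐ[ℚ] AlgebraicClosure ℚ

/-- Valuation subrings of `ℚ̄` (the "places" of the frozen statements). -/
abbrev VQ : Type := ValuationSubring (AlgebraicClosure ℚ)

section Module

variable {F : Type} [Field F] {M : Type} [AddCommGroup M] [Module F M]

/-- Every vector is fixed by an open subgroup `Gal(ℚ̄/L)`, `L/ℚ` finite. -/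
def IsSmoothRep (ρ : GQ →* Module.End F M) : Prop :=
  ∀ x : M, ∃ L : IntermediateField ℚ (AlgebraicClosure ℚ), FiniteDimensional ℚ L ∧
    ∀ σ : GQ, (∀ y ∈ L, σ y = y) → ρ σ x = x

/-- Inertia at every prime `ℓ ∤ S` (all places above `ℓ`) acts trivially. -/
def IsUnramOutside (ρ : GQ →* Module.End F M) (S : ℕ) : Prop :=
  ∀ ℓ : ℕ, ℓ.Prime → ¬ ℓ ∣ S → ∀ A : VQ, A.LiesOverPrime ℓ →
    ∀ σ ∈ A.inertiaSubgroupIn ℚ, ρ σ = 1

/-- Every Frobenius element at every place above every prime `ℓ ∤ S` satisfies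
`σ² - a ℓ • σ + ℓ = 0` on the module. -/
def IsFrobQuadratic (ρ : GQ →* Module.End F M) (S : ℕ) (a : ℕ → F) : Prop :=
  ∀ ℓ : ℕ, ℓ.Prime → ¬ ℓ ∣ S → ∀ A : VQ, A.LiesOverPrime ℓ →
    ∀ σ : GQ, A.IsFrobeniusAt σ ℓ →
      ρ σ * ρ σ - a ℓ • ρ σ + (ℓ : F) • (1 : Module.End F M) = 0

end Module

/-- (UNUSED since skeleton v2: the assembly consumes CHEB Tier 1
`Fermat.Agent.Lib.Cheb.Spec.FrobeniusDivisionStatement` instead.)  Qualitative Chebotarev:
every element of `Gal(L/ℚ)` (`L/ℚ` finite) is the restriction of a Frobenius element at a place over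
some prime `ℓ ∤ S`. -/
def ChebStatement : Prop :=
  ∀ (L : IntermediateField ℚ (AlgebraicClosure ℚ)), FiniteDimensional ℚ L →
    ∀ (σ : GQ) (S : ℕ), S ≠ 0 →
      ∃ (ℓ : ℕ) (A : VQ) (τ : GQ), ℓ.Prime ∧ ¬ ℓ ∣ S ∧ A.LiesOverPrime ℓ ∧
        A.IsFrobeniusAt τ ℓ ∧ ∀ x ∈ L, τ x = σ x

/-- The conclusion of the assembly layer for a coefficient field `F` and a system `a`. -/
def HasAttachedRep (F : Type) [Field F] (S : ℕ) (a : ℕ → F) : Prop :=
  ∃ r : ResidualGaloisRep F,
    (∀ ℓ : ℕ, ℓ.Prime → ¬ ℓ ∣ S → ∀ A : VQ, A.LiesOverPrime ℓ →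
      ∀ σ : GQ, A.IsFrobeniusAt σ ℓ →
        LinearMap.charpoly (r.ρ σ) = X ^ 2 - C (a ℓ) * X + C ((ℓ : F))) ∧
    (∀ ℓ : ℕ, ℓ.Prime → ¬ ℓ ∣ S → r.IsUnramifiedAt ℓ)

/-- The output of the module layer ("torsion module"): a nonzero smooth `F[G_ℚ]`-module,
unramified outside `S`, on which all Frobenii at `ℓ ∤ S` satisfy the Eichler–Shimura relation. -/
def HasFrobModule (F : Type) [Field F] (S : ℕ) (a : ℕ → F) : Prop :=
  ∃ (M : Type) (_ : AddCommGroup M) (_ : Module F M) (ρ : GQ →* Module.End F M),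
    Nontrivial M ∧ IsSmoothRep ρ ∧ IsUnramOutside ρ S ∧ IsFrobQuadratic ρ S a

end Fermat.Agent.S29

end
-- ===== PACK-END S29/Defs.lean

-- ===== PACK-BEGIN S29/DefsM.lean
section
/-
S29 row — FROZEN interface definitions for layer M (the torsion module).  Row-lead helper269.
Namespace `Fermat.Agent.S29`.  Do not edit; propose changes via a note kind='question' stmt='S29'.
-/



set_option autoImplicit false

noncomputable section

namespace Fermat.Agent.S29

open ModularCurve AlgebraicCurve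
open scoped TensorProduct MatrixGroups

/-! ### The `p`-torsion of `J₀(N)(ℚ̄)` (Prelude `JZero N`) with Hecke and Galois operators -/

section Jp

variable (N : ℕ) [NeZero N] (p : ℕ)

/-- `J₀(N)(ℚ̄)[p]` as a `ℤ`-submodule of the Prelude's `JZero N`. -/
abbrev Jp : Submodule ℤ (JZero N) := Submodule.torsionBy ℤ (JZero N) (p : ℤ)

/-- The Prelude Hecke operator `T_ℓ` restricted to `J₀(N)[p]`. -/
def heckeJp (ℓ : Nat.Primes) : Jp N p →ₗ[ℤ] Jp N p :=
  (heckeOperatorBar N ℓ).restrict (p := Jp N p) (q := Jp N p) (fun x hx => by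
    rw [Submodule.mem_torsionBy_iff] at hx ⊢
    rw [← map_smul, hx, map_zero])

@[simp] theorem coe_heckeJp (ℓ : Nat.Primes) (x : Jp N p) :
    ((heckeJp N p ℓ x : Jp N p) : JZero N) = heckeOperatorBar N ℓ (x : JZero N) := rfl

/-- The Galois action on `J₀(N)[p]`. -/
def galJp (σ : GQ) : Jp N p →ₗ[ℤ] Jp N p :=
  ((DistribSMul.toAddMonoidHom (JZero N) σ).toIntLinearMap).restrict
    (p := Jp N p) (q := Jp N p) (fun x hx => by
    rw [Submodule.mem_torsionBy_iff] at hx ⊢
    rw [← map_smul, hx, map_zero])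

omit [NeZero N] in
@[simp] theorem coe_galJp (σ : GQ) (x : Jp N p) :
    ((galJp N p σ x : Jp N p) : JZero N) = σ • (x : JZero N) := rfl

end Jp

/-! ### Parabolic additive characters of `Γ₀(N)` and the cohomological Hecke operator -/

section ParHom

variable (N : ℕ)

/-- The group `Γ₀(N)` as a type. -/
abbrev G0 : Type := ↥(CongruenceSubgroup.Gamma0 N)

/-- Integer matrix of an element of `Γ₀(N)`. -/
def G0.mat {N : ℕ} (γ : G0 N) : Matrix (Fin 2) (Fin 2) ℤ := ((γ : SL(2, ℤ)) : Matrix (Fin 2) (Fin 2) ℤ)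

/-- `c : Γ₀(N) → A` is an additive character vanishing on all elements of trace `±2`
(cusp stabilisers, `-1`) and on all torsion (elliptic) elements. -/
structure IsParHom {N : ℕ} {A : Type*} [AddCommGroup A] (c : G0 N → A) : Prop where
  map_mul : ∀ γ γ' : G0 N, c (γ * γ') = c γ + c γ'
  parabolic : ∀ γ : G0 N, (γ.mat.trace = 2 ∨ γ.mat.trace = -2) → c γ = 0
  elliptic : ∀ (γ : G0 N) (n : ℕ), 0 < n → γ ^ n = 1 → c γ = 0

/-- Coset representatives of `Γ₀(N) \ Γ₀(N) diag(1,ℓ) Γ₀(N)` (`ℓ ∤ N` prime):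
`none ↦ [[ℓ,0],[0,1]]`, `some b ↦ [[1,b],[0,ℓ]]`. -/
def heckeRep (ℓ : ℕ) : Option (Fin ℓ) → Matrix (Fin 2) (Fin 2) ℤ
  | none => !![(ℓ : ℤ), 0; 0, 1]
  | some b => !![1, ((b : ℕ) : ℤ); 0, (ℓ : ℤ)]

/-- `heckeRep i * γ = γ' * heckeRep j`. -/
def IsHeckeFactor {N : ℕ} (ℓ : ℕ) (γ : G0 N) (i : Option (Fin ℓ)) (q : Option (Fin ℓ) × G0 N) :
    Prop :=
  heckeRep ℓ i * γ.mat = q.2.mat * heckeRep ℓ q.1

open Classical in
/-- The (unique, for `ℓ ∤ N` prime) pair `(j, γ')` with `heckeRep i * γ = γ' * heckeRep j`. -/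
def heckeFac (ℓ : ℕ) (γ : G0 N) (i : Option (Fin ℓ)) : Option (Fin ℓ) × G0 N :=
  if h : ∃ q : Option (Fin ℓ) × G0 N, IsHeckeFactor ℓ γ i q then Classical.choose h else (i, 1)

/-- The cohomological Hecke operator on functions `Γ₀(N) → A`:
`(T_ℓ c)(γ) = ∑ᵢ c(γ'ᵢ)` where `αᵢ γ = γ'ᵢ α_{π(i)}`. -/
def heckeCoh {A : Type*} [AddCommMonoid A] (ℓ : ℕ) (c : G0 N → A) : G0 N → A :=
  fun γ => ∑ i : Option (Fin ℓ), c (heckeFac N ℓ γ i).2

end ParHom

/-! ### External input: the frozen statement S37 -/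

/-- The frozen statement S37 as a `Prop` (row S37 proves it as `Fermat.Agent.S37.result`). -/
def S37Statement : Prop :=
  ∀ (N p : ℕ) [NeZero N] (_ : ModularCurve.HeckeOperatorsCommuteBar N),
    letI := ModularCurve.heckeModuleBar N
    ∀ (_ : SMulCommClass GQ ModularCurve.HeckeAlg (ModularCurve.JZero N)),
      ModularCurve.SpecializationExists (K := ℚ) (L := AlgebraicClosure ℚ) N p
        (ModularCurve.JZero N)

end Fermat.Agent.S29

end
end
-- ===== PACK-END S29/DefsM.lean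

-- ===== PACK-BEGIN S20/L1/Ramanujan.lean
section





/-!
# Level-one input for S20: Ramanujan identities and simple zeros

(helper140) Serre derivative of a level-one modular form is a level-one modular form;
Ramanujan identities for `E₄`, `E₆`, `Δ`; simple zeros.
-/

set_option autoImplicit false

open UpperHalfPlane ModularForm EisensteinSeries Derivative Filter Topology
open scoped MatrixGroups Manifold

noncomputable section

namespace Fermat.Agent.S20.L1

/-- If `F` is holomorphic on `ℍ` and bounded at `i∞`, then its derivative tends to zero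
at `i∞` (Cauchy estimate on discs of growing radius). -/
theorem isZeroAtImInfty_normalizedDeriv {F : ℍ → ℂ} (hF : MDiff F)
    (hb : IsBoundedAtImInfty F) : IsZeroAtImInfty (D F) := by
  rw [isBoundedAtImInfty_iff] at hb
  obtain ⟨M, A, hMA⟩ := hb
  rw [isZeroAtImInfty_iff]
  intro ε hε
  -- we may assume `M ≥ 0` and `A ≥ 1`
  set M' : ℝ := max M 0 with hM'
  set A' : ℝ := max A 1 with hA'
  have hM'0 : 0 ≤ M' := le_max_right _ _
  set R : ℝ := M' / ε + 1 with hR
  have hRpos : 0 < R := by positivity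
  refine ⟨A' + R, fun z hz ↦ ?_⟩
  have hdiff : DifferentiableOn ℂ (F ∘ ofComplex) upperHalfPlaneSet :=
    mdifferentiable_iff.mp hF
  have hsub : Metric.closedBall (z : ℂ) R ⊆ upperHalfPlaneSet := by
    intro w hw
    have h1 : |w.im - (z : ℂ).im| ≤ R := by
      have := Complex.abs_im_le_norm (w - z)
      rw [Complex.sub_im] at this
      exact this.trans (by simpa [dist_eq_norm] using hw)
    have h2 : (z : ℂ).im = z.im := rfl
    have h3 : A' + R ≤ (z : ℂ).im := by simpa using hz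
    have h4 : (1 : ℝ) ≤ A' := le_max_right _ _
    have h5 := abs_le.mp h1
    show 0 < w.im
    linarith [h5.1]
  have hd : DiffContOnCl ℂ (F ∘ ofComplex) (Metric.ball (z : ℂ) R) := by
    refine DifferentiableOn.diffContOnCl ?_
    rw [closure_ball _ hRpos.ne']
    exact hdiff.mono hsub
  have hC : ∀ w ∈ Metric.sphere (z : ℂ) R, ‖(F ∘ ofComplex) w‖ ≤ M' := by
    intro w hw
    have hwU : w ∈ upperHalfPlaneSet := hsub (Metric.sphere_subset_closedBall hw)
    have h1 : |w.im - (z : ℂ).im| ≤ R := by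
      have := Complex.abs_im_le_norm (w - z)
      rw [Complex.sub_im] at this
      exact this.trans (by simpa [dist_eq_norm] using (Metric.sphere_subset_closedBall hw))
    have h3 : A' + R ≤ (z : ℂ).im := by simpa using hz
    have h5 := abs_le.mp h1
    have hA : A ≤ (ofComplex w).im := by
      rw [ofComplex_apply_of_im_pos hwU]
      show A ≤ w.im
      have : A ≤ A' := le_max_left _ _
      linarith [h5.1]
    exact (hMA _ hA).trans (le_max_left _ _)
  have key := Complex.norm_deriv_le_of_forall_mem_sphere_norm_le hRpos hd hC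
  have h2pi : ‖(2 * (Real.pi : ℂ) * Complex.I)‖ = 2 * Real.pi := by
    simp [abs_of_pos Real.pi_pos]
  rw [normalizedDerivOfComplex, norm_mul, norm_inv, h2pi]
  have hpi : (1 : ℝ) ≤ 2 * Real.pi := by linarith [Real.two_le_pi]
  have hMR : M' / R ≤ ε := by
    rw [div_le_iff₀ hRpos, hR]
    have : M' = ε * (M' / ε) := by field_simp
    nlinarith
  calc (2 * Real.pi)⁻¹ * ‖deriv (F ∘ ofComplex) ↑z‖
      ≤ 1 * ‖deriv (F ∘ ofComplex) ↑z‖ := by
        gcongr
        exact inv_le_one_of_one_le₀ hpi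
    _ ≤ ε := by rw [one_mul]; exact key.trans hMR

/-- Build a level-one modular form from function-level data. -/
def mkLevelOne (k : ℤ) (F : ℍ → ℂ) (hol : MDiff F) (inv : ∀ γ : SL(2, ℤ), F ∣[k] γ = F)
    (bdd : IsBoundedAtImInfty F) : ModularForm 𝒮ℒ k where
  toFun := F
  slash_action_eq' A hA := by
    obtain ⟨A, rfl⟩ := hA
    exact inv A
  holo' := hol
  bdd_at_cusps' hc := by
    rw [Subgroup.IsArithmetic.isCusp_iff_isCusp_SL2Z] at hc
    rw [OnePoint.isBoundedAt_iff_forall_SL2Z hc]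
    intro γ _
    rw [inv γ]
    exact bdd

@[simp]
lemma coe_mkLevelOne (k : ℤ) (F : ℍ → ℂ) (hol : MDiff F) (inv : ∀ γ : SL(2, ℤ), F ∣[k] γ = F)
    (bdd : IsBoundedAtImInfty F) : ⇑(mkLevelOne k F hol inv bdd) = F := rfl

lemma levelOne_slash_eq {k : ℤ} (f : ModularForm 𝒮ℒ k) (γ : SL(2, ℤ)) :
    (f : ℍ → ℂ) ∣[k] γ = f :=
  SlashInvariantFormClass.slash_action_eq f _ ⟨γ, rfl⟩

lemma levelOne_isBoundedAtImInfty {k : ℤ} (f : ModularForm 𝒮ℒ k) :
    IsBoundedAtImInfty (f : ℍ → ℂ) := by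
  have := ModularFormClass.bdd_at_infty_slash f (1 : SL(2, ℤ))
  simpa using this

/-- The Serre derivative of a level-one modular form is bounded at `i∞`. -/
lemma isBoundedAtImInfty_serreDerivative {k : ℤ} (f : ModularForm 𝒮ℒ k) :
    IsBoundedAtImInfty (serreDerivative (k : ℂ) (f : ℍ → ℂ)) := by
  have h1 : IsBoundedAtImInfty (D (f : ℍ → ℂ)) :=
    (isZeroAtImInfty_normalizedDeriv f.holo' (levelOne_isBoundedAtImInfty f)).isBoundedAtImInfty
  have h2 : IsBoundedAtImInfty (fun z ↦ (k : ℂ) * 12⁻¹ * E2 z * f z) := by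
    have h3 : IsBoundedAtImInfty (fun z ↦ E2 z * f z) :=
      isBoundedAtImInfty_E2.mul (levelOne_isBoundedAtImInfty f)
    have h4 := h3.const_mul_left ((k : ℂ) * 12⁻¹)
    refine h4.congr_left ?_ |>.trans (Asymptotics.isBigO_refl _ _) 
    intro z
    simp [mul_assoc]
  rw [serreDerivative_eq]
  exact h1.sub h2

/-- The Serre derivative of a level-one modular form, as a modular form of weight `k + 2`. -/
def serreDerivativeForm {k : ℤ} (f : ModularForm 𝒮ℒ k) : ModularForm 𝒮ℒ (k + 2) :=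
  mkLevelOne (k + 2) (serreDerivative (k : ℂ) (f : ℍ → ℂ))
    (serreDerivative_mdifferentiable _ f.holo')
    (fun γ ↦ serreDerivative_slash_invariant f.holo' (levelOne_slash_eq f γ))
    (isBoundedAtImInfty_serreDerivative f)

@[simp]
lemma serreDerivativeForm_apply {k : ℤ} (f : ModularForm 𝒮ℒ k) (z : ℍ) :
    serreDerivativeForm f z = D (f : ℍ → ℂ) z - (k : ℂ) * 12⁻¹ * E2 z * f z := rfl

/-- A periodic holomorphic function bounded at `i∞` tends to the value of its cusp function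
at `0`. -/
lemma tendsto_atImInfty_cuspFunction {f : ℍ → ℂ} {h : ℝ} (hh : 0 < h)
    (hfper : Function.Periodic (f ∘ ofComplex) h) (hfhol : MDiff f)
    (hfbdd : IsBoundedAtImInfty f) :
    Tendsto f atImInfty (𝓝 (cuspFunction h f 0)) := by
  have han := analyticAt_cuspFunction_zero hh hfper hfhol hfbdd
  have : (cuspFunction h f ∘ fun τ : ℍ ↦ Function.Periodic.qParam h τ : ℍ → ℂ) = f := by
    funext τ
    simpa using eq_cuspFunction τ hh.ne' hfper
  simpa [this] using han.continuousAt.tendsto.comp (qParam_tendsto_atImInfty hh)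

/-- A level-one modular form tends to its zeroth `q`-expansion coefficient at `i∞`. -/
lemma levelOne_tendsto_atImInfty {k : ℤ} (f : ModularForm 𝒮ℒ k) :
    Tendsto (f : ℍ → ℂ) atImInfty (𝓝 ((qExpansion 1 f).coeff 0)) := by
  have hper := SlashInvariantFormClass.periodic_comp_ofComplex f one_mem_strictPeriods_SL
  have h1 := tendsto_atImInfty_cuspFunction one_pos hper f.holo' (levelOne_isBoundedAtImInfty f)
  have han := analyticAt_cuspFunction_zero one_pos hper f.holo' (levelOne_isBoundedAtImInfty f)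
  rwa [qExpansion_coeff_zero one_pos han hper, ← cuspFunction_apply_zero one_pos han hper]

lemma tendsto_E₄ : Tendsto (E₄ : ℍ → ℂ) atImInfty (𝓝 1) := by
  simpa [E_qExpansion_coeff_zero (by norm_num : 3 ≤ 4) ⟨2, rfl⟩] using levelOne_tendsto_atImInfty E₄

lemma tendsto_E₆ : Tendsto (E₆ : ℍ → ℂ) atImInfty (𝓝 1) := by
  simpa [E_qExpansion_coeff_zero (by norm_num : 3 ≤ 6) ⟨3, rfl⟩] using levelOne_tendsto_atImInfty E₆

lemma E2_periodic : Function.Periodic (E2 ∘ ofComplex) 1 := by
  intro w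
  simp only [Function.comp_apply]
  by_cases hw : 0 < w.im
  · have hw' : 0 < (w + 1).im := by simpa using hw
    rw [ofComplex_apply_of_im_pos hw, ofComplex_apply_of_im_pos hw']
    have h1 := (hasSum_qExpansion_E2 (z := ⟨w + 1, hw'⟩)).tsum_eq
    have h2 := (hasSum_qExpansion_E2 (z := ⟨w, hw⟩)).tsum_eq
    rw [← h1, ← h2]
    congr 1
    funext m
    congr 2
    rw [mul_add, Complex.exp_add]
    simp
  · have hw' : ¬ 0 < (w + 1).im := by simpa using hw
    rw [ofComplex_apply_of_im_nonpos (not_lt.mp hw), ofComplex_apply_of_im_nonpos (not_lt.mp hw')]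

lemma tendsto_E2 : Tendsto E2 atImInfty (𝓝 1) := by
  have h1 := tendsto_atImInfty_cuspFunction one_pos E2_periodic E2_mdifferentiable
    isBoundedAtImInfty_E2
  have han := analyticAt_cuspFunction_zero one_pos E2_periodic E2_mdifferentiable
    isBoundedAtImInfty_E2
  have hps := hasFPowerSeriesOnBall_cuspFunction (f := E2)
    (c := fun m : ℕ ↦ (if m = 0 then 1 else -24 * ArithmeticFunction.sigma 1 m : ℂ)) one_pos han
    (fun τ ↦ by
      simpa only [Function.Periodic.qParam, Complex.ofReal_one, div_one] using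
        hasSum_qExpansion_E2 (z := τ))
  have h0 := hps.coeff_zero 1
  simp [FormalMultilinearSeries.ofScalars] at h0
  rwa [← h0] at h1

lemma tendsto_serreDerivativeForm {k : ℤ} (f : ModularForm 𝒮ℒ k) {a : ℂ}
    (hf : Tendsto (f : ℍ → ℂ) atImInfty (𝓝 a)) :
    Tendsto (serreDerivativeForm f : ℍ → ℂ) atImInfty (𝓝 (-((k : ℂ) * 12⁻¹ * a))) := by
  have h1 : Tendsto (D (f : ℍ → ℂ)) atImInfty (𝓝 0) :=
    isZeroAtImInfty_normalizedDeriv f.holo' (levelOne_isBoundedAtImInfty f)
  have h2 : Tendsto (fun z ↦ (k : ℂ) * 12⁻¹ * E2 z * f z) atImInfty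
      (𝓝 ((k : ℂ) * 12⁻¹ * 1 * a)) :=
    (tendsto_E2.const_mul _).mul hf
  have h3 := h1.sub h2
  simp only [mul_one, zero_sub] at h3
  exact h3

/-- If two level-one forms of the same weight are proportional and we know their limits
at `i∞`, we can read off the constant. -/
lemma eq_smul_of_rank_one {k : ℤ} (hrank : Module.rank ℂ (ModularForm 𝒮ℒ k) = 1)
    (g f : ModularForm 𝒮ℒ k) {a b : ℂ} (hb : b ≠ 0)
    (hg : Tendsto (g : ℍ → ℂ) atImInfty (𝓝 a)) (hf : Tendsto (f : ℍ → ℂ) atImInfty (𝓝 b)) :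
    ∀ z, g z = a / b * f z := by
  have hf0 : f ≠ 0 := by
    rintro rfl
    have : Tendsto (fun _ : ℍ ↦ (0 : ℂ)) atImInfty (𝓝 b) := hf
    exact hb (tendsto_nhds_unique this tendsto_const_nhds)
  obtain ⟨c, hc⟩ := (finrank_eq_one_iff_of_nonzero' f hf0).mp
    (Module.rank_eq_one_iff_finrank_eq_one.mp hrank) g
  have hcz : ∀ z, g z = c * f z := fun z ↦ by rw [← hc]; rfl
  have hlim : Tendsto (g : ℍ → ℂ) atImInfty (𝓝 (c * b)) := by
    have := hf.const_mul c
    refine this.congr fun z ↦ (hcz z).symm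
  have hab : a = c * b := tendsto_nhds_unique hg hlim
  intro z
  rw [hcz z, hab]
  field_simp

lemma levelOne_weight_eight_rank_one : Module.rank ℂ (ModularForm 𝒮ℒ 8) = 1 := by
  have := dimension_level_one 8 ⟨4, rfl⟩
  simpa [Nat.ModEq] using this

/-- Ramanujan's identity for `E₄`: `D E₄ = (E₂ E₄ - E₆) / 3`. -/
theorem ramanujan_E₄ (z : ℍ) : D (E₄ : ℍ → ℂ) z = 3⁻¹ * (E2 z * E₄ z - E₆ z) := by
  have h := eq_smul_of_rank_one levelOne_weight_six_rank_one
    (mcast (by norm_num) (serreDerivativeForm E₄)) E₆ one_ne_zero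
    (by simpa using tendsto_serreDerivativeForm E₄ tendsto_E₄) tendsto_E₆ z
  simp only [coe_mcast, serreDerivativeForm_apply] at h
  push_cast at h
  linear_combination h

/-- Ramanujan's identity for `E₆`: `D E₆ = (E₂ E₆ - E₄²) / 2`. -/
theorem ramanujan_E₆ (z : ℍ) : D (E₆ : ℍ → ℂ) z = 2⁻¹ * (E2 z * E₆ z - E₄ z ^ 2) := by
  have hE4sq : Tendsto ((E₄.mul E₄ : ModularForm 𝒮ℒ (4 + 4)) : ℍ → ℂ) atImInfty (𝓝 (1 * 1)) :=
    tendsto_E₄.mul tendsto_E₄
  have h := eq_smul_of_rank_one levelOne_weight_eight_rank_one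
    (mcast (by norm_num) (serreDerivativeForm E₆)) (mcast (by norm_num) (E₄.mul E₄))
    (b := 1) one_ne_zero
    (by simpa using tendsto_serreDerivativeForm E₆ tendsto_E₆) (by simpa using hE4sq) z
  simp only [coe_mcast, serreDerivativeForm_apply, ModularForm.coe_mul, Pi.mul_apply] at h
  push_cast at h
  linear_combination h

/-- Ramanujan's identity for `Δ`: `D Δ = E₂ Δ`. -/
theorem ramanujan_discriminant (z : ℍ) :
    D ModularForm.discriminant z = E2 z * ModularForm.discriminant z := by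
  have hη : DifferentiableAt ℂ ModularForm.eta (z : ℂ) :=
    ModularForm.differentiableAt_eta_of_mem_upperHalfPlaneSet z.2
  have hη0 : ModularForm.eta (z : ℂ) ≠ 0 := by
    have := ModularForm.discriminant_ne_zero z
    intro h
    exact this (by simp [ModularForm.discriminant, h])
  have hlog := ModularForm.logDeriv_eta_eq_E2 z
  rw [logDeriv_apply, div_eq_iff hη0] at hlog
  have hev : (ModularForm.discriminant ∘ ofComplex) =ᶠ[𝓝 (z : ℂ)]
      fun w ↦ ModularForm.eta w ^ 24 := by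
    filter_upwards [isOpen_upperHalfPlaneSet.mem_nhds z.im_pos] with w hw
    simp [ModularForm.discriminant, ofComplex_apply_of_im_pos hw]
  have hd : HasDerivAt (fun w ↦ ModularForm.eta w ^ 24)
      (24 * ModularForm.eta (z : ℂ) ^ 23 * deriv ModularForm.eta (z : ℂ)) (z : ℂ) := by
    have := hη.hasDerivAt.fun_pow 24
    simpa using this
  have hderiv := (hd.congr_of_eventuallyEq hev).deriv
  simp only [normalizedDerivOfComplex, hderiv, hlog, ModularForm.discriminant]
  have hpi : (2 * (Real.pi : ℂ) * Complex.I) ≠ 0 := by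
    simp [Real.pi_ne_zero]
  field_simp
  ring

local notation "Δ" => ModularForm.discriminant

lemma mdiff_discriminant : MDiff (Δ : ℍ → ℂ) := CuspForm.discriminant.holo'

lemma mdiff_E₄ : MDiff (E₄ : ℍ → ℂ) := ModularFormClass.holo E₄

lemma mdiff_E₆ : MDiff (E₆ : ℍ → ℂ) := ModularFormClass.holo E₆

lemma E₄_cube_sub_E₆_sq (z : ℍ) : E₄ z ^ 3 - E₆ z ^ 2 = 1728 * Δ z := by
  rw [discriminant_eq_E₄_cube_sub_E₆_sq z]; ring

lemma E₆_ne_zero_of_E₄_eq_zero {z : ℍ} (h : E₄ z = 0) : E₆ z ≠ 0 := by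
  intro h6
  have := E₄_cube_sub_E₆_sq z
  rw [h, h6] at this
  have hΔ := discriminant_ne_zero z
  apply hΔ
  have : (1728 : ℂ) * Δ z = 0 := by rw [← this]; ring
  simpa using this

lemma E₄_ne_zero_of_E₆_eq_zero {z : ℍ} (h : E₆ z = 0) : E₄ z ≠ 0 := by
  intro h4
  exact E₆_ne_zero_of_E₄_eq_zero h4 h

/-- Zeros of `E₄` are simple. -/
theorem D_E₄_ne_zero {z : ℍ} (h : E₄ z = 0) : D (E₄ : ℍ → ℂ) z ≠ 0 := by
  rw [ramanujan_E₄, h]
  have := E₆_ne_zero_of_E₄_eq_zero h
  simpa using this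

/-- Zeros of `E₆` are simple. -/
theorem D_E₆_ne_zero {z : ℍ} (h : E₆ z = 0) : D (E₆ : ℍ → ℂ) z ≠ 0 := by
  rw [ramanujan_E₆, h]
  have := E₄_ne_zero_of_E₆_eq_zero h
  simpa using this

/-- The numerator `E₄(z)³ Δ(z₀) − E₄(z₀)³ Δ(z)` of `j(z) − j(z₀)`, a level one form of
weight 12 in `z`. -/
def jDiff (z₀ : ℍ) : ℍ → ℂ := fun z ↦ E₄ z ^ 3 * Δ z₀ - E₄ z₀ ^ 3 * Δ z

lemma jDiff_self (z₀ : ℍ) : jDiff z₀ z₀ = 0 := by simp [jDiff]

lemma jDiff_eq (z₀ : ℍ) :
    jDiff z₀ = (Δ z₀) • ((E₄ : ℍ → ℂ) ^ 3) - (E₄ z₀ ^ 3) • (Δ : ℍ → ℂ) := by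
  funext z
  simp [jDiff, mul_comm]

lemma mdiff_jDiff (z₀ : ℍ) : MDiff (jDiff z₀) := by
  rw [jDiff_eq]
  exact ((mdiff_E₄.pow 3).const_smul _).sub (mdiff_discriminant.const_smul _)

theorem D_jDiff (z₀ z : ℍ) :
    D (jDiff z₀) z = E2 z * jDiff z₀ z - E₄ z ^ 2 * E₆ z * Δ z₀ := by
  have h1 : MDiff ((E₄ : ℍ → ℂ) ^ 3) := mdiff_E₄.pow 3
  rw [jDiff_eq, normalizedDerivOfComplex_sub _ _ (h1.const_smul _)
    (mdiff_discriminant.const_smul _), normalizedDerivOfComplex_smul _ _ h1,
    normalizedDerivOfComplex_smul _ _ mdiff_discriminant,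
    normalizedDerivOfComplex_pow _ _ mdiff_E₄]
  simp only [Pi.sub_apply, Pi.smul_apply, Pi.mul_apply, Pi.pow_apply, smul_eq_mul,
    ramanujan_E₄, ramanujan_discriminant, Nat.cast_ofNat, Pi.ofNat_apply]
  ring

/-- Zeros of `jDiff z₀` at points where `E₄ E₆ ≠ 0` are simple. -/
theorem D_jDiff_ne_zero {z₀ z : ℍ} (h : jDiff z₀ z = 0) (h4 : E₄ z ≠ 0) (h6 : E₆ z ≠ 0) :
    D (jDiff z₀) z ≠ 0 := by
  rw [D_jDiff, h, mul_zero, zero_sub, neg_ne_zero]
  exact mul_ne_zero (mul_ne_zero (pow_ne_zero _ h4) h6) (discriminant_ne_zero z₀)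

/-- The `j`-invariant `E₄³ / Δ` (normalised so that `j = 1/q + ...`). -/
def jFun (z : ℍ) : ℂ := E₄ z ^ 3 / Δ z

lemma jFun_eq_iff (z z' : ℍ) : jFun z = jFun z' ↔ jDiff z' z = 0 := by
  rw [jFun, jFun, div_eq_div_iff (discriminant_ne_zero z) (discriminant_ne_zero z'), jDiff,
    sub_eq_zero]

lemma jFun_eq_zero_iff (z : ℍ) : jFun z = 0 ↔ E₄ z = 0 := by
  simp [jFun, discriminant_ne_zero z]

lemma jFun_eq_1728_iff (z : ℍ) : jFun z = 1728 ↔ E₆ z = 0 := by
  rw [jFun, div_eq_iff (discriminant_ne_zero z)]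
  have := E₄_cube_sub_E₆_sq z
  constructor
  · intro h
    have : E₆ z ^ 2 = 0 := by linear_combination h - this
    simpa using this
  · intro h
    rw [h] at this
    linear_combination this

lemma mdiff_jFun : MDiff jFun :=
  (mdiff_E₄.pow 3).div mdiff_discriminant discriminant_ne_zero

theorem D_jFun (z : ℍ) : D jFun z = - (E₄ z ^ 2 * E₆ z / Δ z) := by
  -- `jFun * Δ = E₄ ^ 3`
  have hmul : jFun * (Δ : ℍ → ℂ) = (E₄ : ℍ → ℂ) ^ 3 := by
    funext w
    simp [jFun, div_mul_cancel₀ _ (discriminant_ne_zero w)]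
  have h := congrFun (congrArg D hmul) z
  rw [normalizedDerivOfComplex_mul _ _ mdiff_jFun mdiff_discriminant,
    normalizedDerivOfComplex_pow _ _ mdiff_E₄] at h
  simp only [Pi.add_apply, Pi.mul_apply, Pi.pow_apply, ramanujan_E₄, ramanujan_discriminant,
    Nat.cast_ofNat, Pi.ofNat_apply] at h
  have hΔ := discriminant_ne_zero z
  have hj : jFun z = E₄ z ^ 3 / Δ z := rfl
  rw [hj] at h
  field_simp at h ⊢
  linear_combination h

theorem D_jFun_ne_zero {z : ℍ} (h4 : E₄ z ≠ 0) (h6 : E₆ z ≠ 0) : D jFun z ≠ 0 := by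
  rw [D_jFun, neg_ne_zero]
  exact div_ne_zero (mul_ne_zero (pow_ne_zero _ h4) h6) (discriminant_ne_zero z)

end Fermat.Agent.S20.L1

end
end
-- ===== PACK-END S20/L1/Ramanujan.lean

-- ===== PACK-BEGIN S24/M7/H47Level1.lean
section



/-!
# S24 / M1 items D3, D4 (helper47): level-one facts about `j = E₄³ / Δ`

* `exists_E₄_cube_eq_mul_discriminant`, `jFun_surjective` : `j : ℍ → ℂ` is surjective
  (if `E₄³ - c Δ` had no zero, its inverse would be a level-one form of weight `-12`).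
* `jFun_smul` : `j` is `SL(2, ℤ)`-invariant.
* `E₆_I`, `E₄_rho` : `E₆(i) = 0`, `E₄(ρ) = 0`; `jFun_I`, `jFun_rho`; `S_smul_I`, `ST_smul_rho`.
* `analyticOrderAt_jFun_sub_*` : the order of `j - j(z₀)` at `z₀` is `3`, `2`, `1` according to
  `E₄ z₀ = 0`, `E₆ z₀ = 0`, neither.

Built on helper140's `Fermat.Agent.S20.L1.Ramanujan` (Ramanujan identities, `jFun`, `D_jFun`).
-/

set_option autoImplicit false

open UpperHalfPlane ModularForm EisensteinSeries Derivative Filter Topology
open scoped MatrixGroups Manifold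

noncomputable section

namespace Fermat.Agent.S24.M7.H47

open Fermat.Agent.S20.L1

local notation "Δ" => ModularForm.discriminant


/-- Function-level transformation law from slash invariance. -/
lemma smul_eq_of_slash_eq {k : ℤ} {F : ℍ → ℂ} {γ : SL(2, ℤ)} (h : F ∣[k] γ = F) (z : ℍ) :
    F (γ • z) = denom γ z ^ k * F z := by
  have h1 := congrFun h z
  rw [SL_slash_apply] at h1
  have hd : denom γ z ≠ 0 := denom_ne_zero _ _
  rw [← h1, mul_comm, mul_assoc, ← zpow_add₀ hd]
  simp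

lemma discriminant_smul_eq (γ : SL(2, ℤ)) (z : ℍ) :
    Δ (γ • z) = denom γ z ^ (12 : ℤ) * Δ z :=
  smul_eq_of_slash_eq
    (SlashInvariantFormClass.slash_action_eq CuspForm.discriminant _ ⟨γ, rfl⟩) z

lemma E₄_smul_eq (γ : SL(2, ℤ)) (z : ℍ) :
    E₄ (γ • z) = denom γ z ^ (4 : ℤ) * E₄ z :=
  smul_eq_of_slash_eq (levelOne_slash_eq E₄ γ) z

lemma E₆_smul_eq (γ : SL(2, ℤ)) (z : ℍ) :
    E₆ (γ • z) = denom γ z ^ (6 : ℤ) * E₆ z :=
  smul_eq_of_slash_eq (levelOne_slash_eq E₆ γ) z

/-- The weight-12 numerator `E₄³ - c Δ` of `j - c`. -/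
def jNum (c : ℂ) : ℍ → ℂ := fun z ↦ E₄ z ^ 3 - c * Δ z

lemma mdiff_jNum (c : ℂ) : MDiff (jNum c) := by
  have h : jNum c = (E₄ : ℍ → ℂ) ^ 3 - c • (Δ : ℍ → ℂ) := by
    funext z; simp [jNum]
  rw [h]
  exact (mdiff_E₄.pow 3).sub (mdiff_discriminant.const_smul _)

lemma jNum_smul (c : ℂ) (γ : SL(2, ℤ)) (z : ℍ) :
    jNum c (γ • z) = denom γ z ^ (12 : ℤ) * jNum c z := by
  have hd : denom γ z ≠ 0 := denom_ne_zero _ _
  simp only [jNum, discriminant_smul_eq, E₄_smul_eq]
  rw [mul_pow, ← zpow_natCast (denom γ z ^ (4:ℤ)) 3, ← zpow_mul]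
  norm_num
  ring

lemma tendsto_jNum (c : ℂ) : Tendsto (jNum c) atImInfty (𝓝 1) := by
  have h1 : Tendsto (fun z : ℍ ↦ E₄ z ^ 3) atImInfty (𝓝 (1 ^ 3)) := tendsto_E₄.pow 3
  have h2 : Tendsto (fun z : ℍ ↦ c * Δ z) atImInfty (𝓝 (c * 0)) :=
    (discriminant_isZeroAtImInfty).const_mul c
  have h3 := h1.sub h2
  simp only [one_pow, mul_zero, sub_zero] at h3
  exact h3

/-- `E₄³ - c Δ` has a zero on `ℍ`, for every `c`. -/
theorem exists_jNum_eq_zero (c : ℂ) : ∃ z : ℍ, jNum c z = 0 := by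
  by_contra hne
  replace hne : ∀ z : ℍ, jNum c z ≠ 0 := fun z hz ↦ hne ⟨z, hz⟩
  have hol : MDiff (fun z ↦ (1 : ℂ) / jNum c z) :=
    (mdifferentiable_const (c := (1:ℂ))).div (mdiff_jNum c) hne
  have inv : ∀ γ : SL(2, ℤ), (fun z ↦ (1 : ℂ) / jNum c z) ∣[(-12 : ℤ)] γ
      = fun z ↦ (1 : ℂ) / jNum c z := by
    intro γ
    funext z
    have hd : denom γ z ≠ 0 := denom_ne_zero _ _
    rw [SL_slash_apply, jNum_smul]
    have := hne z
    simp only [neg_neg]
    field_simp
  have bdd : IsBoundedAtImInfty (fun z ↦ (1 : ℂ) / jNum c z) := by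
    have h : Tendsto (fun z ↦ (1 : ℂ) / jNum c z) atImInfty (𝓝 (1 / 1)) :=
      (tendsto_const_nhds).div (tendsto_jNum c) one_ne_zero
    exact h.isBigO_one ℝ
  have h0 := ModularFormClass.levelOne_neg_weight_eq_zero (by norm_num)
    (mkLevelOne (-12) _ hol inv bdd)
  have h1 := congrFun h0 UpperHalfPlane.I
  simp only [coe_mkLevelOne, Pi.zero_apply, one_div, inv_eq_zero] at h1
  exact hne _ h1

/-- For every `c : ℂ` there is `z ∈ ℍ` with `E₄(z)³ = c Δ(z)`. -/
theorem exists_E₄_cube_eq_mul_discriminant (c : ℂ) : ∃ z : ℍ, E₄ z ^ 3 = c * Δ z := by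
  obtain ⟨z, hz⟩ := exists_jNum_eq_zero c
  exact ⟨z, sub_eq_zero.mp hz⟩

/-- **`j` is surjective.** -/
theorem jFun_surjective : Function.Surjective jFun := by
  intro c
  obtain ⟨z, hz⟩ := exists_E₄_cube_eq_mul_discriminant c
  exact ⟨z, by rw [jFun, hz, mul_div_assoc, div_self (discriminant_ne_zero z), mul_one]⟩

/-- `j` is `SL(2, ℤ)`-invariant. -/
lemma jFun_smul (γ : SL(2, ℤ)) (z : ℍ) : jFun (γ • z) = jFun z := by
  have hd : denom γ z ≠ 0 := denom_ne_zero _ _
  have hΔ := discriminant_ne_zero z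
  simp only [jFun, discriminant_smul_eq, E₄_smul_eq]
  rw [mul_pow, ← zpow_natCast (denom γ z ^ (4:ℤ)) 3, ← zpow_mul]
  norm_num
  field_simp

/-! ### The elliptic points -/

lemma S_smul_I : ModularGroup.S • UpperHalfPlane.I = UpperHalfPlane.I := by
  rw [modular_S_smul]
  ext
  simp [Complex.inv_I]

/-- `E₆(i) = 0`. -/
theorem E₆_I : E₆ UpperHalfPlane.I = 0 := by
  have h := E₆_smul_eq ModularGroup.S UpperHalfPlane.I
  rw [S_smul_I, ModularGroup.denom_S] at h
  have h6 : ((UpperHalfPlane.I : ℍ) : ℂ) ^ (6 : ℤ) = -1 := by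
    have : ((UpperHalfPlane.I : ℍ) : ℂ) = Complex.I := rfl
    rw [this]
    norm_cast
    rw [show (6 : ℕ) = 2 * 3 by norm_num, pow_mul, Complex.I_sq]
    norm_num
  rw [h6] at h
  have : (2 : ℂ) * E₆ UpperHalfPlane.I = 0 := by linear_combination h
  simpa using this

/-- The elliptic point `ρ = e^{2πi/3} = -1/2 + (√3/2) i`. -/
def rho : ℍ := ⟨-1 / 2 + (Real.sqrt 3 / 2 : ℝ) * Complex.I, by simp⟩

lemma coe_rho : (rho : ℂ) = -1 / 2 + (Real.sqrt 3 / 2 : ℝ) * Complex.I := rfl

lemma rho_sq_add : (rho : ℂ) ^ 2 + (rho : ℂ) + 1 = 0 := by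
  rw [coe_rho]
  have h3 : ((Real.sqrt 3 : ℝ) : ℂ) ^ 2 = 3 := by
    norm_cast
    exact Real.sq_sqrt (by norm_num)
  push_cast
  linear_combination (Complex.I ^ 2 / 4) * h3 + (3 / 4 : ℂ) * Complex.I_sq

lemma ST_smul_rho : (ModularGroup.S * ModularGroup.T) • rho = rho := by
  ext
  rw [coe_specialLinearGroup_apply]
  have h := rho_sq_add
  have hne : (rho : ℂ) + 1 ≠ 0 := by
    intro h1
    have : (rho : ℂ) = -1 := by linear_combination h1
    rw [this] at h
    norm_num at h
  simp [ModularGroup.S, ModularGroup.T]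
  field_simp
  linear_combination -h

lemma denom_ST (z : ℍ) : denom (ModularGroup.S * ModularGroup.T : SL(2, ℤ)) z = (z : ℂ) + 1 := by
  rw [ModularGroup.denom_apply]
  simp [ModularGroup.S, ModularGroup.T, Matrix.mul_apply, Fin.sum_univ_two]

lemma denom_ST_rho : denom (ModularGroup.S * ModularGroup.T : SL(2, ℤ)) rho = (rho : ℂ) + 1 :=
  denom_ST rho

/-- `E₄(ρ) = 0`. -/
theorem E₄_rho : E₄ rho = 0 := by
  have h := E₄_smul_eq (ModularGroup.S * ModularGroup.T) rho
  rw [ST_smul_rho, denom_ST_rho] at h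
  have hr := rho_sq_add
  have h4 : ((rho : ℂ) + 1) ^ (4 : ℤ) = -(rho : ℂ) - 1 := by
    norm_cast
    have h2 : ((rho : ℂ) + 1) ^ 2 = (rho : ℂ) := by linear_combination hr
    rw [show (4 : ℕ) = 2 * 2 by norm_num, pow_mul, h2]
    linear_combination hr
  rw [h4] at h
  have hne : (rho : ℂ) + 2 ≠ 0 := by
    intro h1
    have : (rho : ℂ) = -2 := by linear_combination h1
    rw [this] at hr
    norm_num at hr
  have : ((rho : ℂ) + 2) * E₄ rho = 0 := by linear_combination h
  rcases mul_eq_zero.mp this with h' | h'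
  · exact absurd h' hne
  · exact h'

theorem jFun_I : jFun UpperHalfPlane.I = 1728 := (jFun_eq_1728_iff _).mpr E₆_I

theorem jFun_rho : jFun rho = 0 := (jFun_eq_zero_iff _).mpr E₄_rho



/-! ### Local orders of `j` -/

lemma analyticAt_comp_ofComplex {F : ℍ → ℂ} (hF : MDiff F) (z : ℍ) :
    AnalyticAt ℂ (F ∘ ofComplex) (z : ℂ) :=
  (UpperHalfPlane.mdifferentiable_iff.mp hF).analyticAt
    (isOpen_upperHalfPlaneSet.mem_nhds z.im_pos)

lemma deriv_comp_ofComplex_ne_zero {F : ℍ → ℂ} {z : ℍ} (h : D F z ≠ 0) :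
    deriv (F ∘ ofComplex) (z : ℂ) ≠ 0 := by
  intro h0
  apply h
  simp [normalizedDerivOfComplex, h0]

lemma mdiff_inv_discriminant : MDiff (fun z : ℍ ↦ (Δ z)⁻¹) := by
  have := (mdifferentiable_const (c := (1:ℂ))).div mdiff_discriminant discriminant_ne_zero
  have h : (fun z : ℍ ↦ (Δ z)⁻¹) = (fun _ ↦ (1 : ℂ)) / (Δ : ℍ → ℂ) := by
    funext z; simp
  rw [h]
  exact this

lemma analyticOrderAt_inv_discriminant (z : ℍ) :
    analyticOrderAt ((fun z : ℍ ↦ (Δ z)⁻¹) ∘ ofComplex) (z : ℂ) = 0 := by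
  rw [(analyticAt_comp_ofComplex mdiff_inv_discriminant z).analyticOrderAt_eq_zero]
  simp [discriminant_ne_zero]

/-- Zeros of `E₄` have order one. -/
theorem analyticOrderAt_E₄ {z : ℍ} (h : E₄ z = 0) :
    analyticOrderAt ((E₄ : ℍ → ℂ) ∘ ofComplex) (z : ℂ) = 1 :=
  (analyticAt_comp_ofComplex mdiff_E₄ z).analyticOrderAt_eq_one_of_zero_deriv_ne_zero
    (by simpa using h) (deriv_comp_ofComplex_ne_zero (D_E₄_ne_zero h))

/-- Zeros of `E₆` have order one. -/
theorem analyticOrderAt_E₆ {z : ℍ} (h : E₆ z = 0) :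
    analyticOrderAt ((E₆ : ℍ → ℂ) ∘ ofComplex) (z : ℂ) = 1 :=
  (analyticAt_comp_ofComplex mdiff_E₆ z).analyticOrderAt_eq_one_of_zero_deriv_ne_zero
    (by simpa using h) (deriv_comp_ofComplex_ne_zero (D_E₆_ne_zero h))

/-- At a point with `E₄ E₆ ≠ 0` (i.e. `j ≠ 0, 1728`), `j - j(z₀)` vanishes to order `1`. -/
theorem analyticOrderAt_jFun_sub_generic {z₀ : ℍ} (h4 : E₄ z₀ ≠ 0) (h6 : E₆ z₀ ≠ 0) :
    analyticOrderAt (fun w : ℂ ↦ jFun (ofComplex w) - jFun z₀) (z₀ : ℂ) = 1 := by
  have h := (analyticAt_comp_ofComplex mdiff_jFun z₀).analyticOrderAt_sub_eq_one_of_deriv_ne_zero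
    (deriv_comp_ofComplex_ne_zero (D_jFun_ne_zero h4 h6))
  simpa using h

/-- At a zero of `E₆` (i.e. `j = 1728`), `j - j(z₀)` vanishes to order `2`. -/
theorem analyticOrderAt_jFun_sub_of_E₆ {z₀ : ℍ} (h : E₆ z₀ = 0) :
    analyticOrderAt (fun w : ℂ ↦ jFun (ofComplex w) - jFun z₀) (z₀ : ℂ) = 2 := by
  have hfun : (fun w : ℂ ↦ jFun (ofComplex w) - jFun z₀)
      = ((E₆ : ℍ → ℂ) ∘ ofComplex) ^ 2 * ((fun z : ℍ ↦ (Δ z)⁻¹) ∘ ofComplex) := by
    funext w
    rw [(jFun_eq_1728_iff z₀).mpr h]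
    have hΔ := discriminant_ne_zero (ofComplex w)
    have := E₄_cube_sub_E₆_sq (ofComplex w)
    simp only [jFun, Pi.mul_apply, Pi.pow_apply, Function.comp_apply]
    field_simp
    linear_combination this
  rw [hfun, analyticOrderAt_mul ((analyticAt_comp_ofComplex mdiff_E₆ z₀).pow 2)
    (analyticAt_comp_ofComplex mdiff_inv_discriminant z₀),
    analyticOrderAt_pow (analyticAt_comp_ofComplex mdiff_E₆ z₀), analyticOrderAt_E₆ h,
    analyticOrderAt_inv_discriminant]
  rfl

/-- At a zero of `E₄` (i.e. `j = 0`), `j - j(z₀)` vanishes to order `3`. -/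
theorem analyticOrderAt_jFun_sub_of_E₄ {z₀ : ℍ} (h : E₄ z₀ = 0) :
    analyticOrderAt (fun w : ℂ ↦ jFun (ofComplex w) - jFun z₀) (z₀ : ℂ) = 3 := by
  have hfun : (fun w : ℂ ↦ jFun (ofComplex w) - jFun z₀)
      = ((E₄ : ℍ → ℂ) ∘ ofComplex) ^ 3 * ((fun z : ℍ ↦ (Δ z)⁻¹) ∘ ofComplex) := by
    funext w
    rw [(jFun_eq_zero_iff z₀).mpr h]
    simp only [jFun, Pi.mul_apply, Pi.pow_apply, Function.comp_apply, sub_zero, div_eq_mul_inv]
  rw [hfun, analyticOrderAt_mul ((analyticAt_comp_ofComplex mdiff_E₄ z₀).pow 3)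
    (analyticAt_comp_ofComplex mdiff_inv_discriminant z₀),
    analyticOrderAt_pow (analyticAt_comp_ofComplex mdiff_E₄ z₀), analyticOrderAt_E₄ h,
    analyticOrderAt_inv_discriminant]
  rfl

end Fermat.Agent.S24.M7.H47

end
end
-- ===== PACK-END S24/M7/H47Level1.lean

-- ===== PACK-BEGIN S29/H509/WeightedEis.lean
section


/-!
# Weighted Eisenstein sums (helper509, S29 piece TES, file 1)

For a bounded weight `w : (Fin 2 → ℤ) → ℂ` (`‖w v‖ ≤ 1`) and `3 ≤ k` we study
`wEis w k z = ∑' v, w v * eisSummand k v z`: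
absolute summability, the slash action of `SL(2, ℤ)`, holomorphy, boundedness at `i∞`
(of every `SL(2, ℤ)`-translate) and the limit along a vertical strip.
-/

set_option autoImplicit false

namespace Fermat.Agent.S29.H509

open ModularForm UpperHalfPlane Matrix CongruenceSubgroup EisensteinSeries Filter Topology
open scoped MatrixGroups Manifold

noncomputable section

/-- The weighted Eisenstein sum `∑' v, w v * (v 0 * z + v 1) ^ (-k)`. -/
def wEis (w : (Fin 2 → ℤ) → ℂ) (k : ℤ) (z : ℍ) : ℂ :=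
  ∑' v : Fin 2 → ℤ, w v * eisSummand k v z

lemma norm_wEis_summand_le {w : (Fin 2 → ℤ) → ℂ} (hw : ∀ v, ‖w v‖ ≤ 1) (k : ℤ)
    (v : Fin 2 → ℤ) (z : ℍ) : ‖w v * eisSummand k v z‖ ≤ ‖eisSummand k v z‖ := by
  rw [norm_mul]
  exact mul_le_of_le_one_left (norm_nonneg _) (hw v)

lemma summable_norm_wEis_summand {w : (Fin 2 → ℤ) → ℂ} (hw : ∀ v, ‖w v‖ ≤ 1) {k : ℤ}
    (hk : 3 ≤ k) (z : ℍ) : Summable fun v : Fin 2 → ℤ => ‖w v * eisSummand k v z‖ :=
  (summable_norm_eisSummand hk z).of_nonneg_of_le (fun _ => norm_nonneg _)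
    (fun v => norm_wEis_summand_le hw k v z)

lemma summable_wEis_summand {w : (Fin 2 → ℤ) → ℂ} (hw : ∀ v, ‖w v‖ ≤ 1) {k : ℤ}
    (hk : 3 ≤ k) (z : ℍ) : Summable fun v : Fin 2 → ℤ => w v * eisSummand k v z :=
  (summable_norm_wEis_summand hw hk z).of_norm

/-- Right multiplication by `γ ∈ SL(2, ℤ)` as a permutation of `Fin 2 → ℤ`. -/
def vecMulEquiv (γ : SL(2, ℤ)) : (Fin 2 → ℤ) ≃ (Fin 2 → ℤ) where
  toFun v := v ᵥ* γ
  invFun v := v ᵥ* ↑(γ⁻¹)
  left_inv v := by
    simp_rw [vecMul_vecMul, ← Matrix.SpecialLinearGroup.coe_mul, mul_inv_cancel,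
      Matrix.SpecialLinearGroup.coe_one, vecMul_one]
  right_inv v := by
    simp_rw [vecMul_vecMul, ← Matrix.SpecialLinearGroup.coe_mul, inv_mul_cancel,
      Matrix.SpecialLinearGroup.coe_one, vecMul_one]

@[simp] lemma vecMulEquiv_apply (γ : SL(2, ℤ)) (v : Fin 2 → ℤ) :
    vecMulEquiv γ v = v ᵥ* γ := rfl

@[simp] lemma vecMulEquiv_symm_apply (γ : SL(2, ℤ)) (v : Fin 2 → ℤ) :
    (vecMulEquiv γ).symm v = v ᵥ* ↑(γ⁻¹) := rfl

/-- The slash action permutes the weights. -/
theorem wEis_slash (w : (Fin 2 → ℤ) → ℂ) (k : ℤ) (γ : SL(2, ℤ)) :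
    wEis w k ∣[k] γ = wEis (fun v => w (v ᵥ* ↑(γ⁻¹))) k := by
  ext1 z
  simp_rw [SL_slash_apply, _root_.zpow_neg,
    mul_inv_eq_iff_eq_mul₀ (zpow_ne_zero _ <| denom_ne_zero _ z), wEis, eisSummand_SL2_apply,
    ← tsum_mul_right]
  conv_rhs => rw [← (vecMulEquiv γ).tsum_eq]
  refine tsum_congr fun v => ?_
  simp only [vecMulEquiv_apply, vecMul_vecMul, ← Matrix.SpecialLinearGroup.coe_mul, mul_inv_cancel,
    Matrix.SpecialLinearGroup.coe_one, vecMul_one]
  ring


/-! ### Locally uniform convergence and holomorphy -/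

theorem wEis_tendstoLocallyUniformly {w : (Fin 2 → ℤ) → ℂ} (hw : ∀ v, ‖w v‖ ≤ 1) {k : ℤ}
    (hk : 3 ≤ k) :
    TendstoLocallyUniformly
      (fun (s : Finset (Fin 2 → ℤ)) ↦ (∑ x ∈ s, w x * eisSummand k x ·))
      (wEis w k ·) Filter.atTop := by
  have hk' : (2 : ℝ) < k := by norm_cast
  have p_sum : Summable fun x : Fin 2 → ℤ ↦ ‖x‖ ^ (-k) :=
    mod_cast (summable_one_div_norm_rpow hk')
  simp only [tendstoLocallyUniformly_iff_forall_isCompact, wEis]
  intro K hK
  obtain ⟨A, B, hB, HABK⟩ := subset_verticalStrip_of_isCompact hK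
  refine (tendstoUniformlyOn_tsum (hu := p_sum.mul_left <| r ⟨⟨A, B⟩, hB⟩ ^ (-k : ℝ))
    (fun p z hz ↦ ?_)).mono HABK
  refine (norm_wEis_summand_le hw k p z).trans ?_
  simpa only [eisSummand, one_div, ← _root_.zpow_neg, norm_zpow, ← Real.rpow_intCast,
    Int.cast_neg] using summand_bound_of_mem_verticalStrip (by positivity) p hB hz

lemma wEis_tendstoLocallyUniformlyOn {w : (Fin 2 → ℤ) → ℂ} (hw : ∀ v, ‖w v‖ ≤ 1) {k : ℤ}
    (hk : 3 ≤ k) :
    TendstoLocallyUniformlyOn (fun (s : Finset (Fin 2 → ℤ)) ↦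
      ↑ₕ(fun (z : ℍ) ↦ ∑ x ∈ s, w x * eisSummand k x z)) (↑ₕ(wEis w k))
          Filter.atTop {z : ℂ | 0 < z.im} := by
  rw [← upperHalfPlaneSet, ← range_coe, ← Set.image_univ]
  apply TendstoLocallyUniformlyOn.comp (s := ⊤) _ _ _ (OpenPartialHomeomorph.continuousOn_symm _)
  · simp only [Set.top_eq_univ, tendstoLocallyUniformlyOn_univ]
    apply wEis_tendstoLocallyUniformly hw hk
  · simp only [IsOpenEmbedding.toOpenPartialHomeomorph_target, Set.top_eq_univ,
      Set.mapsTo_range_iff, Set.mem_univ, forall_const]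

/-- Weighted Eisenstein sums are holomorphic on `ℍ`. -/
theorem wEis_mdifferentiable {w : (Fin 2 → ℤ) → ℂ} (hw : ∀ v, ‖w v‖ ≤ 1) {k : ℤ}
    (hk : 3 ≤ k) : MDiff (wEis w k) := by
  intro τ
  suffices DifferentiableAt ℂ (↑ₕ(wEis w k)) τ.1 by
    convert!
      MDifferentiableAt.comp τ (DifferentiableAt.mdifferentiableAt this) τ.mdifferentiable_coe
    exact funext fun z ↦ (comp_ofComplex (wEis w k) z).symm
  refine DifferentiableOn.differentiableAt ?_ (isOpen_upperHalfPlaneSet.mem_nhds τ.2)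
  refine (wEis_tendstoLocallyUniformlyOn hw hk).differentiableOn
    (Eventually.of_forall fun s ↦ ?_) isOpen_upperHalfPlaneSet
  have h1 : DifferentiableOn ℂ (fun z : ℂ => ∑ x ∈ s, w x * (↑ₕ(eisSummand k x)) z)
      {z : ℂ | 0 < z.im} :=
    DifferentiableOn.fun_sum fun x _ ↦
      (eisSummand_extension_differentiableOn k x).const_mul (w x)
  refine h1.congr fun z _ => ?_
  simp only [Function.comp_apply]

/-! ### The majorant and boundedness at `i∞` -/

/-- The majorant `∑' v, ‖eisSummand k v z‖`. -/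
def eisMaj (k : ℤ) (z : ℍ) : ℝ := ∑' v : Fin 2 → ℤ, ‖eisSummand k v z‖

lemma norm_wEis_le_eisMaj {w : (Fin 2 → ℤ) → ℂ} (hw : ∀ v, ‖w v‖ ≤ 1) {k : ℤ}
    (hk : 3 ≤ k) (z : ℍ) : ‖wEis w k z‖ ≤ eisMaj k z := by
  refine (norm_tsum_le_tsum_norm (summable_norm_wEis_summand hw hk z)).trans ?_
  exact (summable_norm_wEis_summand hw hk z).tsum_le_tsum
    (fun v => norm_wEis_summand_le hw k v z) (summable_norm_eisSummand hk z)

lemma eisMaj_smul (k : ℤ) (γ : SL(2, ℤ)) (z : ℍ) :
    eisMaj k (γ • z) = ‖denom γ z‖ ^ k * eisMaj k z := by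
  unfold eisMaj
  simp_rw [eisSummand_SL2_apply, norm_mul, norm_zpow, tsum_mul_left]
  congr 1
  exact (vecMulEquiv γ).tsum_eq (fun v => ‖eisSummand k v z‖)

lemma denom_T_zpow (n : ℤ) (z : ℍ) : denom (ModularGroup.T ^ n : SL(2, ℤ)) z = 1 := by
  simp [denom, ModularGroup.coe_T_zpow, -map_zpow]

lemma eisMaj_T_zpow_smul (k : ℤ) (n : ℤ) (z : ℍ) :
    eisMaj k (ModularGroup.T ^ n • z) = eisMaj k z := by
  rw [eisMaj_smul, denom_T_zpow]
  simp

lemma eisMaj_le_of_mem_verticalStrip {k : ℤ} (hk : 3 ≤ k) {A B : ℝ} (hB : 0 < B) {z : ℍ}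
    (hz : z ∈ verticalStrip A B) :
    eisMaj k z ≤ ∑' x : Fin 2 → ℤ, r ⟨⟨A, B⟩, hB⟩ ^ (-k) * ‖x‖ ^ (-k) := by
  have hk' : (2 : ℝ) < k := by norm_cast
  apply (summable_norm_eisSummand hk _).tsum_le_tsum _
  · exact_mod_cast (summable_one_div_norm_rpow hk').mul_left <| r ⟨⟨A, B⟩, hB⟩ ^ (-k)
  · intro x
    simp_rw [eisSummand, norm_zpow]
    exact_mod_cast summand_bound_of_mem_verticalStrip (lt_trans two_pos hk').le x hB hz

/-- Weighted Eisenstein sums are bounded at `i∞`. -/
theorem isBoundedAtImInfty_wEis {w : (Fin 2 → ℤ) → ℂ} (hw : ∀ v, ‖w v‖ ≤ 1) {k : ℤ}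
    (hk : 3 ≤ k) : IsBoundedAtImInfty (wEis w k) := by
  rw [UpperHalfPlane.isBoundedAtImInfty_iff]
  refine ⟨∑' x : Fin 2 → ℤ, r ⟨⟨1, 2⟩, Nat.ofNat_pos⟩ ^ (-k) * ‖x‖ ^ (-k), 2, fun z hz => ?_⟩
  obtain ⟨n, hn⟩ := ModularGroup_T_zpow_mem_verticalStrip z (N := 1) one_pos
  refine (norm_wEis_le_eisMaj hw hk z).trans ?_
  rw [← eisMaj_T_zpow_smul k ((1 : ℕ) * n) z]
  refine eisMaj_le_of_mem_verticalStrip hk two_pos ?_
  exact verticalStrip_anti_right _ hz (by simpa using hn)

/-- Every `SL(2, ℤ)`-translate of a weighted Eisenstein sum is bounded at `i∞`. -/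
theorem isBoundedAtImInfty_wEis_slash {w : (Fin 2 → ℤ) → ℂ} (hw : ∀ v, ‖w v‖ ≤ 1) {k : ℤ}
    (hk : 3 ≤ k) (γ : SL(2, ℤ)) : IsBoundedAtImInfty (wEis w k ∣[k] γ) := by
  rw [wEis_slash]
  exact isBoundedAtImInfty_wEis (fun v => hw _) hk


/-! ### The limit at `i∞` -/

lemma norm_eisSummand_le_inv_im {k : ℤ} (hk : 1 ≤ k) {v : Fin 2 → ℤ} (hv : v 0 ≠ 0) (z : ℍ)
    (hz : 1 ≤ z.im) : ‖eisSummand k v z‖ ≤ (z.im)⁻¹ := by
  have him : z.im ≤ ‖(v 0 : ℂ) * (z : ℂ) + v 1‖ := by
    have h1 : |((v 0 : ℂ) * (z : ℂ) + v 1).im| ≤ ‖(v 0 : ℂ) * (z : ℂ) + v 1‖ :=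
      Complex.abs_im_le_norm _
    have h2 : ((v 0 : ℂ) * (z : ℂ) + v 1).im = (v 0 : ℝ) * z.im := by
      simp [Complex.add_im, Complex.mul_im]
    have h3 : (1 : ℝ) ≤ |(v 0 : ℝ)| := by
      have : (1 : ℤ) ≤ |v 0| := Int.one_le_abs hv
      exact_mod_cast this
    rw [h2, abs_mul, abs_of_pos z.im_pos] at h1
    nlinarith [z.im_pos]
  have hpos : 0 < z.im := z.im_pos
  obtain ⟨n, rfl⟩ : ∃ n : ℕ, k = (n : ℤ) := ⟨k.toNat, by omega⟩
  have hn : 1 ≤ n := by exact_mod_cast hk
  simp only [eisSummand, _root_.zpow_neg, zpow_natCast, norm_inv, norm_pow]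
  rw [inv_le_inv₀ (pow_pos (hpos.trans_le him) _) hpos]
  calc z.im ≤ ‖(v 0 : ℂ) * (z : ℂ) + v 1‖ := him
    _ = ‖(v 0 : ℂ) * (z : ℂ) + v 1‖ ^ 1 := (pow_one _).symm
    _ ≤ ‖(v 0 : ℂ) * (z : ℂ) + v 1‖ ^ n := pow_le_pow_right₀ (hz.trans him) hn

lemma tendsto_eisSummand_atImInfty {k : ℤ} (hk : 1 ≤ k) {v : Fin 2 → ℤ} (hv : v 0 ≠ 0) :
    Tendsto (eisSummand k v) atImInfty (𝓝 0) := by
  rw [tendsto_zero_iff_norm_tendsto_zero]
  refine squeeze_zero' (Eventually.of_forall fun _ => norm_nonneg _) ?_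
    (tendsto_inv_atTop_zero.comp tendsto_comap)
  rw [Filter.Eventually, atImInfty_mem]
  exact ⟨1, fun z hz => norm_eisSummand_le_inv_im hk hv z hz⟩

/-- The constant term of a weighted Eisenstein sum: the sum over the vectors `(0, d)`. -/
def wEisConst (w : (Fin 2 → ℤ) → ℂ) (k : ℤ) : ℂ :=
  ∑' v : Fin 2 → ℤ, if v 0 = 0 then w v * (v 1 : ℂ) ^ (-k) else 0

/-- Along any filter finer than `atImInfty` and eventually contained in a vertical strip, the
weighted Eisenstein sum tends to its constant term. -/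
theorem tendsto_wEis_of_le {w : (Fin 2 → ℤ) → ℂ} (hw : ∀ v, ‖w v‖ ≤ 1) {k : ℤ}
    (hk : 3 ≤ k) {l : Filter ℍ} (hl : l ≤ atImInfty) {A B : ℝ} (hB : 0 < B)
    (hstrip : ∀ᶠ z in l, z ∈ verticalStrip A B) :
    Tendsto (wEis w k) l (𝓝 (wEisConst w k)) := by
  have hk' : (2 : ℝ) < k := by norm_cast
  refine tendsto_tsum_of_dominated_convergence
    (bound := fun x : Fin 2 → ℤ => r ⟨⟨A, B⟩, hB⟩ ^ (-k) * ‖x‖ ^ (-k)) ?_ ?_ ?_
  · exact_mod_cast (summable_one_div_norm_rpow hk').mul_left (r ⟨⟨A, B⟩, hB⟩ ^ (-k))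
  · intro v
    by_cases hv : v 0 = 0
    · simp only [hv, if_true, eisSummand, Int.cast_zero, zero_mul, zero_add]
      exact tendsto_const_nhds
    · simp only [hv, if_false]
      have := ((tendsto_eisSummand_atImInfty (k := k) (by omega) hv).mono_left hl).const_mul (w v)
      simpa using this
  · filter_upwards [hstrip] with z hz v
    refine (norm_wEis_summand_le hw k v z).trans ?_
    simp_rw [eisSummand, norm_zpow]
    exact_mod_cast summand_bound_of_mem_verticalStrip (lt_trans two_pos hk').le v hB hz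

/-- The path `y ↦ i * max y 1` in the upper half plane. -/
def imAxis (y : ℝ) : ℍ := ⟨⟨0, max y 1⟩, lt_of_lt_of_le one_pos (le_max_right y 1)⟩

lemma imAxis_im (y : ℝ) : (imAxis y).im = max y 1 := rfl

lemma imAxis_re (y : ℝ) : (imAxis y).re = 0 := rfl

lemma tendsto_imAxis : Tendsto imAxis atTop atImInfty := by
  rw [atImInfty, tendsto_comap_iff]
  refine tendsto_atTop_mono (fun y => ?_) tendsto_id
  simp [Function.comp, imAxis_im]

/-- Along the imaginary axis the weighted Eisenstein sum tends to its constant term. -/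
theorem tendsto_wEis_imAxis {w : (Fin 2 → ℤ) → ℂ} (hw : ∀ v, ‖w v‖ ≤ 1) {k : ℤ}
    (hk : 3 ≤ k) : Tendsto (fun y : ℝ => wEis w k (imAxis y)) atTop (𝓝 (wEisConst w k)) := by
  have h := tendsto_wEis_of_le hw hk (l := Filter.map imAxis atTop) tendsto_imAxis
    (A := 0) (B := 1) one_pos
    (by
      rw [Filter.eventually_map]
      exact Eventually.of_forall fun y => ⟨by simp [imAxis_re], by simp [imAxis_im]⟩)
  exact h.comp tendsto_map

/-- A weighted Eisenstein sum with nonzero constant term is not identically zero. -/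
theorem wEis_ne_zero_of_const_ne_zero {w : (Fin 2 → ℤ) → ℂ} (hw : ∀ v, ‖w v‖ ≤ 1) {k : ℤ}
    (hk : 3 ≤ k) (hc : wEisConst w k ≠ 0) : wEis w k ≠ 0 := by
  intro h0
  have h := tendsto_wEis_imAxis hw hk
  simp only [h0, Pi.zero_apply] at h
  exact hc (tendsto_nhds_unique h tendsto_const_nhds)

/-- Periodicity: if the weight is invariant under `v ↦ v ᵥ* T ^ n`, the sum is invariant
under `z ↦ T ^ n • z`. -/
lemma wEis_T_zpow_smul {w : (Fin 2 → ℤ) → ℂ} {k : ℤ}
    (hT : ∀ (n : ℤ) (v : Fin 2 → ℤ), w (v ᵥ* (ModularGroup.T ^ n : SL(2, ℤ))) = w v)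
    (n : ℤ) (z : ℍ) : wEis w k (ModularGroup.T ^ n • z) = wEis w k z := by
  have h := congrFun (wEis_slash w k (ModularGroup.T ^ n)) z
  rw [SL_slash_apply, denom_T_zpow] at h
  simp only [_root_.one_zpow, mul_one] at h
  rw [h]
  congr 1
  funext v
  rw [← _root_.zpow_neg]
  exact hT (-n) v

/-- For `T`-invariant weights, the weighted Eisenstein sum tends to its constant term at `i∞`. -/
theorem tendsto_wEis_atImInfty {w : (Fin 2 → ℤ) → ℂ} (hw : ∀ v, ‖w v‖ ≤ 1) {k : ℤ}
    (hk : 3 ≤ k)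
    (hT : ∀ (n : ℤ) (v : Fin 2 → ℤ), w (v ᵥ* (ModularGroup.T ^ n : SL(2, ℤ))) = w v) :
    Tendsto (wEis w k) atImInfty (𝓝 (wEisConst w k)) := by
  have h := tendsto_wEis_of_le hw hk (l := atImInfty ⊓ 𝓟 (verticalStrip 1 1)) inf_le_left
    (A := 1) (B := 1) one_pos (eventually_inf_principal.mpr (Eventually.of_forall fun _ h => h))
  rw [Metric.tendsto_nhds] at h ⊢
  intro ε hε
  have h1 := h ε hε
  rw [eventually_inf_principal, Filter.Eventually, atImInfty_mem] at h1
  obtain ⟨A, hA⟩ := h1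
  rw [Filter.Eventually, atImInfty_mem]
  refine ⟨max A 1, fun z hz => ?_⟩
  obtain ⟨n, hn⟩ := ModularGroup_T_zpow_mem_verticalStrip z (N := 1) one_pos
  have hn' : ModularGroup.T ^ ((1 : ℕ) * n : ℤ) • z ∈ verticalStrip 1 1 :=
    verticalStrip_anti_right _ ((le_max_right _ _).trans hz) (by simpa using hn)
  have him : A ≤ (ModularGroup.T ^ ((1 : ℕ) * n : ℤ) • z).im := by
    rw [ModularGroup.im_T_zpow_smul]
    exact (le_max_left _ _).trans hz
  have := hA _ him hn'
  simp only [Set.mem_setOf_eq] at this ⊢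
  rwa [wEis_T_zpow_smul hT] at this

/-- If the weight vanishes at `(0, d)` for `d ≠ ±1`, the constant term has two summands. -/
lemma wEisConst_eq {w : (Fin 2 → ℤ) → ℂ} {k : ℤ}
    (hsupp : ∀ v : Fin 2 → ℤ, v 0 = 0 → v 1 ≠ 1 → v 1 ≠ -1 → w v = 0) :
    wEisConst w k = w ![0, 1] + w ![0, -1] * (-1 : ℂ) ^ (-k) := by
  unfold wEisConst
  have hne : (![0, 1] : Fin 2 → ℤ) ≠ ![0, -1] := by
    intro h
    have := congrFun h 1
    simp at this
  rw [tsum_eq_sum (s := {![0, 1], ![0, -1]})]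
  · rw [Finset.sum_pair hne]
    simp
  · intro v hv
    simp only [Finset.mem_insert, Finset.mem_singleton, not_or] at hv
    by_cases h0 : v 0 = 0
    · simp only [h0, if_true]
      have h1 : v 1 ≠ 1 := by
        intro h1
        apply hv.1
        ext i
        fin_cases i <;> simp [h0, h1]
      have h2 : v 1 ≠ -1 := by
        intro h2
        apply hv.2
        ext i
        fin_cases i <;> simp [h0, h2]
      rw [hsupp v h0 h1 h2, zero_mul]
    · simp [h0]

end

end Fermat.Agent.S29.H509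

end
-- ===== PACK-END S29/H509/WeightedEis.lean

-- ===== PACK-BEGIN S29/H509/TwistedEis.lean
section


/-!
# Twisted Eisenstein series (helper509, S29 piece TES, file 2)

For a subgroup `Γ ≤ SL(2, ℤ)` and a unitary character `χ : Γ →* ℂˣ` which is trivial on the
upper unipotent elements of `Γ`, the twisted Eisenstein series
`twEis χ k z = ∑_{(c, d) bottom row of γ ∈ Γ} χ(γ)⁻¹ (c z + d) ^ (-k)`
is holomorphic, satisfies `twEis χ k ∣[k] δ = χ δ • twEis χ k` for `δ ∈ Γ`, all its
`SL(2, ℤ)`-translates are bounded at `i∞`, and it is nonzero when `k` is even and `χ` is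
trivial on all elements of `Γ` fixing `∞`.
-/

set_option autoImplicit false

namespace Fermat.Agent.S29.H509

open ModularForm UpperHalfPlane Matrix CongruenceSubgroup EisensteinSeries Filter Topology
open scoped MatrixGroups Manifold

noncomputable section

/-- The bottom row of a matrix in `SL(2, ℤ)`. -/
def botRow (γ : SL(2, ℤ)) : Fin 2 → ℤ := fun j => (γ : Matrix (Fin 2) (Fin 2) ℤ) 1 j

lemma botRow_apply (γ : SL(2, ℤ)) (j : Fin 2) :
    botRow γ j = (γ : Matrix (Fin 2) (Fin 2) ℤ) 1 j := rfl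

lemma botRow_one : botRow 1 = ![0, 1] := by
  ext j
  fin_cases j <;> simp [botRow]

lemma botRow_mul (a b : SL(2, ℤ)) :
    botRow (a * b) = botRow a ᵥ* (b : Matrix (Fin 2) (Fin 2) ℤ) := by
  ext j
  simp [botRow, Matrix.vecMul, dotProduct, Matrix.mul_apply]

lemma botRow_snd_of_fst_eq_zero (γ : SL(2, ℤ)) (h : botRow γ 0 = 0) :
    botRow γ 1 = 1 ∨ botRow γ 1 = -1 := by
  have hdet := γ.det_coe
  rw [Matrix.det_fin_two] at hdet
  simp only [botRow_apply] at h ⊢
  rw [h, mul_zero, sub_zero] at hdet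
  rcases Int.eq_one_or_neg_one_of_mul_eq_one' hdet with h1 | h1
  · exact Or.inl h1.2
  · exact Or.inr h1.2

lemma botRow_eq_of_fst_eq_zero (γ : SL(2, ℤ)) (h : botRow γ 0 = 0) :
    botRow γ = ![0, 1] ∨ botRow γ = ![0, -1] := by
  rcases botRow_snd_of_fst_eq_zero γ h with h1 | h1
  · left
    ext j
    fin_cases j <;> simp [h, h1]
  · right
    ext j
    fin_cases j <;> simp [h, h1]

variable {Γ : Subgroup SL(2, ℤ)}

open Classical in
/-- The weight function attached to a character `χ` of `Γ`: `χ(γ)⁻¹` on the bottom row of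
`γ ∈ Γ`, and `0` on vectors which are not bottom rows of elements of `Γ`. -/
def chiWeight (χ : Γ →* ℂˣ) (v : Fin 2 → ℤ) : ℂ :=
  if h : ∃ γ : Γ, botRow (γ : SL(2, ℤ)) = v then (((χ h.choose)⁻¹ : ℂˣ) : ℂ) else 0

/-- `χ` is trivial on the upper unipotent elements of `Γ`. -/
def TrivOnUnip (χ : Γ →* ℂˣ) : Prop :=
  ∀ γ : Γ, botRow (γ : SL(2, ℤ)) = ![0, 1] → χ γ = 1

/-- `χ` is trivial on the elements of `Γ` fixing `∞`. -/
def TrivOnStabInfty (χ : Γ →* ℂˣ) : Prop :=
  ∀ γ : Γ, botRow (γ : SL(2, ℤ)) 0 = 0 → χ γ = 1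

lemma TrivOnStabInfty.trivOnUnip {χ : Γ →* ℂˣ} (h : TrivOnStabInfty χ) : TrivOnUnip χ :=
  fun γ hγ => h γ (by simp [hγ])

lemma chi_eq_of_botRow_eq {χ : Γ →* ℂˣ} (hχ : TrivOnUnip χ) {γ₁ γ₂ : Γ}
    (h : botRow (γ₁ : SL(2, ℤ)) = botRow (γ₂ : SL(2, ℤ))) : χ γ₁ = χ γ₂ := by
  have h1 : botRow ((γ₁ * γ₂⁻¹ : Γ) : SL(2, ℤ)) = ![0, 1] := by
    rw [Subgroup.coe_mul, botRow_mul, h, ← botRow_mul, Subgroup.coe_inv, mul_inv_cancel,
      botRow_one]
  have := hχ _ h1
  rwa [map_mul, map_inv, mul_inv_eq_one] at this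

lemma chiWeight_botRow {χ : Γ →* ℂˣ} (hχ : TrivOnUnip χ) (γ : Γ) :
    chiWeight χ (botRow (γ : SL(2, ℤ))) = (((χ γ)⁻¹ : ℂˣ) : ℂ) := by
  have hex : ∃ γ' : Γ, botRow (γ' : SL(2, ℤ)) = botRow (γ : SL(2, ℤ)) := ⟨γ, rfl⟩
  unfold chiWeight
  rw [dif_pos hex, chi_eq_of_botRow_eq hχ hex.choose_spec]

lemma chiWeight_of_not_exists (χ : Γ →* ℂˣ) {v : Fin 2 → ℤ}
    (h : ¬ ∃ γ : Γ, botRow (γ : SL(2, ℤ)) = v) : chiWeight χ v = 0 :=
  dif_neg h

lemma norm_chiWeight_le {χ : Γ →* ℂˣ} (hnorm : ∀ γ, ‖(χ γ : ℂ)‖ = 1) (v : Fin 2 → ℤ) :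
    ‖chiWeight χ v‖ ≤ 1 := by
  unfold chiWeight
  split_ifs with h
  · simp [hnorm]
  · simp

lemma chiWeight_vecMul_inv {χ : Γ →* ℂˣ} (hχ : TrivOnUnip χ) (δ : Γ) (v : Fin 2 → ℤ) :
    chiWeight χ (v ᵥ* (((δ : SL(2, ℤ))⁻¹ : SL(2, ℤ)) : Matrix (Fin 2) (Fin 2) ℤ)) =
      (χ δ : ℂ) * chiWeight χ v := by
  by_cases hex : ∃ γ : Γ, botRow (γ : SL(2, ℤ)) = v
  · obtain ⟨γ, rfl⟩ := hex
    have h1 : botRow (γ : SL(2, ℤ)) ᵥ* (((δ : SL(2, ℤ))⁻¹ : SL(2, ℤ)) :
        Matrix (Fin 2) (Fin 2) ℤ) = botRow ((γ * δ⁻¹ : Γ) : SL(2, ℤ)) := by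
      rw [Subgroup.coe_mul, botRow_mul, Subgroup.coe_inv]
    rw [h1, chiWeight_botRow hχ, chiWeight_botRow hχ, map_mul, map_inv]
    simp [mul_comm]
  · rw [chiWeight_of_not_exists χ hex, mul_zero]
    apply chiWeight_of_not_exists
    rintro ⟨γ, hγ⟩
    apply hex
    refine ⟨γ * δ, ?_⟩
    rw [Subgroup.coe_mul, botRow_mul, hγ, Matrix.vecMul_vecMul,
      ← Matrix.SpecialLinearGroup.coe_mul, inv_mul_cancel, Matrix.SpecialLinearGroup.coe_one,
      Matrix.vecMul_one]

/-- The twisted Eisenstein series of weight `k` attached to `χ`. -/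
def twEis (χ : Γ →* ℂˣ) (k : ℤ) : ℍ → ℂ := wEis (chiWeight χ) k

/-- The transformation law of the twisted Eisenstein series. -/
theorem twEis_slash {χ : Γ →* ℂˣ} (hχ : TrivOnUnip χ) (k : ℤ) (δ : Γ) :
    twEis χ k ∣[k] (δ : SL(2, ℤ)) = (χ δ : ℂ) • twEis χ k := by
  unfold twEis
  rw [wEis_slash]
  ext z
  simp only [wEis, Pi.smul_apply, smul_eq_mul, chiWeight_vecMul_inv hχ δ, mul_assoc,
    tsum_mul_left]

/-- The transformation law, pointwise. -/
theorem twEis_smul_apply {χ : Γ →* ℂˣ} (hχ : TrivOnUnip χ) (k : ℤ) (δ : Γ) (z : ℍ) :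
    twEis χ k ((δ : SL(2, ℤ)) • z) = (χ δ : ℂ) * denom (δ : SL(2, ℤ)) z ^ k * twEis χ k z := by
  have h := congrFun (twEis_slash hχ k δ) z
  rw [SL_slash_apply, Pi.smul_apply, smul_eq_mul, _root_.zpow_neg,
    mul_inv_eq_iff_eq_mul₀ (zpow_ne_zero _ <| denom_ne_zero _ z)] at h
  rw [h]
  ring

theorem twEis_mdifferentiable {χ : Γ →* ℂˣ} (hnorm : ∀ γ, ‖(χ γ : ℂ)‖ = 1) {k : ℤ}
    (hk : 3 ≤ k) : MDiff (twEis χ k) :=
  wEis_mdifferentiable (norm_chiWeight_le hnorm) hk

theorem isBoundedAtImInfty_twEis_slash {χ : Γ →* ℂˣ} (hnorm : ∀ γ, ‖(χ γ : ℂ)‖ = 1) {k : ℤ}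
    (hk : 3 ≤ k) (A : SL(2, ℤ)) : IsBoundedAtImInfty (twEis χ k ∣[k] A) :=
  isBoundedAtImInfty_wEis_slash (norm_chiWeight_le hnorm) hk A

lemma chiWeight_zero_one {χ : Γ →* ℂˣ} (hχ : TrivOnUnip χ) : chiWeight χ ![0, 1] = 1 := by
  have h := chiWeight_botRow hχ (1 : Γ)
  rw [Subgroup.coe_one, botRow_one] at h
  rw [h]
  simp

lemma chiWeight_zero_neg_one {χ : Γ →* ℂˣ} (hχ : TrivOnStabInfty χ) :
    chiWeight χ ![0, -1] = 0 ∨ chiWeight χ ![0, -1] = 1 := by
  by_cases hex : ∃ γ : Γ, botRow (γ : SL(2, ℤ)) = ![0, -1]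
  · obtain ⟨γ, hγ⟩ := hex
    right
    rw [← hγ, chiWeight_botRow hχ.trivOnUnip, hχ γ (by simp [hγ])]
    simp
  · exact Or.inl (chiWeight_of_not_exists χ hex)

lemma chiWeight_eq_zero_of_fst_eq_zero (χ : Γ →* ℂˣ) (v : Fin 2 → ℤ) (h0 : v 0 = 0)
    (h1 : v 1 ≠ 1) (h2 : v 1 ≠ -1) : chiWeight χ v = 0 := by
  apply chiWeight_of_not_exists
  rintro ⟨γ, rfl⟩
  rcases botRow_snd_of_fst_eq_zero _ h0 with h | h
  · exact h1 h
  · exact h2 h

/-- The constant term of the twisted Eisenstein series of even weight is `1` or `2`. -/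
lemma wEisConst_chiWeight {χ : Γ →* ℂˣ} (hχ : TrivOnStabInfty χ) {k : ℤ} (hk : Even k) :
    wEisConst (chiWeight χ) k = 1 ∨ wEisConst (chiWeight χ) k = 2 := by
  rw [wEisConst_eq (chiWeight_eq_zero_of_fst_eq_zero χ), chiWeight_zero_one hχ.trivOnUnip]
  have hpow : (-1 : ℂ) ^ (-k) = 1 := Even.neg_one_zpow hk.neg
  rw [hpow, mul_one]
  rcases chiWeight_zero_neg_one hχ with h | h
  · left
    rw [h, add_zero]
  · right
    rw [h]
    norm_num

/-- The twisted Eisenstein series of even weight `k ≥ 3` is not identically zero. -/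
theorem twEis_ne_zero {χ : Γ →* ℂˣ} (hnorm : ∀ γ, ‖(χ γ : ℂ)‖ = 1) (hχ : TrivOnStabInfty χ)
    {k : ℤ} (hk : 3 ≤ k) (heven : Even k) : twEis χ k ≠ 0 := by
  apply wEis_ne_zero_of_const_ne_zero (norm_chiWeight_le hnorm) hk
  rcases wEisConst_chiWeight hχ heven with h | h <;> rw [h] <;> norm_num

end

end Fermat.Agent.S29.H509

end
-- ===== PACK-END S29/H509/TwistedEis.lean

-- ===== PACK-BEGIN S20/H872/Coset.lean
section





/-!
# Combinatorics of `SL(2, ℤ) ⧸ Γ₀(N)` — coset criterion and fixed points of `S`, `S * T`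

Left cosets, Mathlib left-multiplication action.  Everything is expressed through the
first column `(g 0 0, g 1 0)` of a matrix.
-/

set_option autoImplicit false

open CongruenceSubgroup Matrix.SpecialLinearGroup
open scoped MatrixGroups

namespace Fermat.Agent.S20.H872

variable {N : ℕ}

/-- Determinant relation of an element of `SL(2, ℤ)`. -/
theorem det_rel (g : SL(2, ℤ)) : g 0 0 * g 1 1 - g 0 1 * g 1 0 = 1 := by
  have h := g.det_coe
  rw [Matrix.det_fin_two] at h
  exact h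

/-- The `(1,0)` entry of `g⁻¹ * h`. -/
theorem inv_mul_apply_one_zero (g h : SL(2, ℤ)) :
    (g⁻¹ * h) 1 0 = g 0 0 * h 1 0 - g 1 0 * h 0 0 := by
  have hg : (g⁻¹ : SL(2, ℤ)).1 = !![g 1 1, -g 0 1; -g 1 0, g 0 0] := by
    rw [Matrix.SpecialLinearGroup.coe_inv, Matrix.adjugate_fin_two]
  have : ((g⁻¹ * h : SL(2, ℤ)) : Matrix (Fin 2) (Fin 2) ℤ) 1 0
      = (-g 1 0) * h 0 0 + g 0 0 * h 1 0 := by
    rw [Matrix.SpecialLinearGroup.coe_mul, hg, Matrix.mul_apply, Fin.sum_univ_two]
    simp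
  rw [this]; ring

/-- **Coset criterion** in `ZMod N`. -/
theorem mk_eq_mk_iff (g h : SL(2, ℤ)) :
    (QuotientGroup.mk g : SL(2, ℤ) ⧸ Gamma0 N) = QuotientGroup.mk h ↔
      ((g 0 0 : ℤ) : ZMod N) * ((h 1 0 : ℤ) : ZMod N)
        = ((g 1 0 : ℤ) : ZMod N) * ((h 0 0 : ℤ) : ZMod N) := by
  rw [QuotientGroup.eq, Gamma0_mem, inv_mul_apply_one_zero]
  push_cast
  exact sub_eq_zero

/-- **Coset criterion**, divisibility form. -/
theorem mk_eq_mk_iff_dvd (g h : SL(2, ℤ)) :
    (QuotientGroup.mk g : SL(2, ℤ) ⧸ Gamma0 N) = QuotientGroup.mk h ↔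
      (N : ℤ) ∣ g 0 0 * h 1 0 - g 1 0 * h 0 0 := by
  rw [QuotientGroup.eq, Gamma0_mem, inv_mul_apply_one_zero,
    ZMod.intCast_zmod_eq_zero_iff_dvd]

theorem smul_mk (s g : SL(2, ℤ)) :
    s • (QuotientGroup.mk g : SL(2, ℤ) ⧸ Gamma0 N) = QuotientGroup.mk (s * g) := rfl

/-- First column of `S * g`. -/
theorem S_mul_apply_zero_zero (g : SL(2, ℤ)) : (ModularGroup.S * g) 0 0 = - g 1 0 := by
  rw [Matrix.SpecialLinearGroup.coe_mul, ModularGroup.coe_S, Matrix.mul_apply, Fin.sum_univ_two]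
  simp

theorem S_mul_apply_one_zero (g : SL(2, ℤ)) : (ModularGroup.S * g) 1 0 = g 0 0 := by
  rw [Matrix.SpecialLinearGroup.coe_mul, ModularGroup.coe_S, Matrix.mul_apply, Fin.sum_univ_two]
  simp

/-- First column of `T ^ k * g`. -/
theorem T_zpow_mul_apply_zero_zero (k : ℤ) (g : SL(2, ℤ)) :
    (ModularGroup.T ^ k * g) 0 0 = g 0 0 + k * g 1 0 := by
  rw [Matrix.SpecialLinearGroup.coe_mul, ModularGroup.coe_T_zpow, Matrix.mul_apply,
    Fin.sum_univ_two]
  simp

theorem T_zpow_mul_apply_one_zero (k : ℤ) (g : SL(2, ℤ)) :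
    (ModularGroup.T ^ k * g) 1 0 = g 1 0 := by
  rw [Matrix.SpecialLinearGroup.coe_mul, ModularGroup.coe_T_zpow, Matrix.mul_apply,
    Fin.sum_univ_two]
  simp

/-- First column of `S * T * g`. -/
theorem ST_mul_apply_zero_zero (g : SL(2, ℤ)) :
    (ModularGroup.S * ModularGroup.T * g) 0 0 = - g 1 0 := by
  rw [mul_assoc, S_mul_apply_zero_zero]
  have := T_zpow_mul_apply_one_zero 1 g
  rw [zpow_one] at this
  rw [this]

theorem ST_mul_apply_one_zero (g : SL(2, ℤ)) :
    (ModularGroup.S * ModularGroup.T * g) 1 0 = g 0 0 + g 1 0 := by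
  rw [mul_assoc, S_mul_apply_one_zero]
  have := T_zpow_mul_apply_zero_zero 1 g
  rw [zpow_one] at this
  rw [this]; ring

/-- The lower unipotent matrix `[[1,0],[u,1]]`. -/
def lowerUni (u : ℤ) : SL(2, ℤ) :=
  ⟨!![1, 0; u, 1], by simp [Matrix.det_fin_two_of]⟩

@[simp] theorem lowerUni_apply_zero_zero (u : ℤ) : lowerUni u 0 0 = 1 := rfl
@[simp] theorem lowerUni_apply_one_zero (u : ℤ) : lowerUni u 1 0 = u := rfl
@[simp] theorem lowerUni_apply_zero_one (u : ℤ) : lowerUni u 0 1 = 0 := rfl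
@[simp] theorem lowerUni_apply_one_one (u : ℤ) : lowerUni u 1 1 = 1 := rfl

/-- The coset of `[[1,0],[u,1]]` for `u : ZMod N`. -/
noncomputable def affinePt (N : ℕ) (u : ZMod N) : SL(2, ℤ) ⧸ Gamma0 N :=
  QuotientGroup.mk (lowerUni (ZMod.cast u : ℤ))

theorem mk_eq_affinePt_iff [NeZero N] (g : SL(2, ℤ)) (u : ZMod N) :
    (QuotientGroup.mk g : SL(2, ℤ) ⧸ Gamma0 N) = affinePt N u ↔
      ((g 0 0 : ℤ) : ZMod N) * u = ((g 1 0 : ℤ) : ZMod N) := by
  rw [affinePt, mk_eq_mk_iff]
  simp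

theorem affinePt_injective [NeZero N] : Function.Injective (affinePt N) := by
  intro u v h
  rw [affinePt, mk_eq_affinePt_iff] at h
  simpa using h.symm

theorem S_smul_affinePt_eq_iff [NeZero N] (u : ZMod N) :
    ModularGroup.S • affinePt N u = affinePt N u ↔ u ^ 2 + 1 = 0 := by
  rw [affinePt, smul_mk, ← affinePt, mk_eq_affinePt_iff, S_mul_apply_zero_zero,
    S_mul_apply_one_zero]
  simp only [lowerUni_apply_one_zero, lowerUni_apply_zero_zero, Int.cast_neg, ZMod.intCast_cast,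
    ZMod.cast_id', id_eq, Int.cast_one]
  constructor
  · intro h
    linear_combination -h
  · intro h
    linear_combination -h

theorem ST_smul_affinePt_eq_iff [NeZero N] (u : ZMod N) :
    (ModularGroup.S * ModularGroup.T) • affinePt N u = affinePt N u ↔ u ^ 2 + u + 1 = 0 := by
  rw [affinePt, smul_mk, ← affinePt, mk_eq_affinePt_iff, ST_mul_apply_zero_zero,
    ST_mul_apply_one_zero]
  simp only [lowerUni_apply_one_zero, lowerUni_apply_zero_zero, Int.cast_neg, ZMod.intCast_cast,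
    ZMod.cast_id', id_eq, Int.cast_one, Int.cast_add]
  constructor
  · intro h
    linear_combination -h
  · intro h
    linear_combination -h

/-- If `g 0 0` is a unit mod `N` (with inverse `w`), then the coset of `g` is an affine point. -/
theorem mk_eq_affinePt_of_inv [NeZero N] (g : SL(2, ℤ)) (w : ZMod N)
    (hw : ((g 0 0 : ℤ) : ZMod N) * w = 1) :
    (QuotientGroup.mk g : SL(2, ℤ) ⧸ Gamma0 N) = affinePt N (((g 1 0 : ℤ) : ZMod N) * w) := by
  rw [mk_eq_affinePt_iff]
  linear_combination ((g 1 0 : ℤ) : ZMod N) * hw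

theorem det_rel_zmod (g : SL(2, ℤ)) :
    ((g 0 0 : ℤ) : ZMod N) * ((g 1 1 : ℤ) : ZMod N)
      - ((g 0 1 : ℤ) : ZMod N) * ((g 1 0 : ℤ) : ZMod N) = 1 := by
  have := congrArg (Int.cast : ℤ → ZMod N) (det_rel g)
  push_cast at this
  exact this

/-- A coset fixed by `S` is an affine point. -/
theorem exists_affinePt_of_S_fixed [NeZero N] (x : SL(2, ℤ) ⧸ Gamma0 N)
    (hx : ModularGroup.S • x = x) : ∃ u : ZMod N, x = affinePt N u := by
  induction x using QuotientGroup.induction_on with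
  | H g =>
    rw [smul_mk, mk_eq_mk_iff, S_mul_apply_zero_zero, S_mul_apply_one_zero] at hx
    push_cast at hx
    have hd := det_rel_zmod (N := N) g
    set a : ZMod N := ((g 0 0 : ℤ) : ZMod N)
    set b : ZMod N := ((g 0 1 : ℤ) : ZMod N)
    set c : ZMod N := ((g 1 0 : ℤ) : ZMod N)
    set d : ZMod N := ((g 1 1 : ℤ) : ZMod N)
    refine ⟨c * (a * d ^ 2 - 2 * b * c * d - a * b ^ 2), mk_eq_affinePt_of_inv g _ ?_⟩
    change a * (a * d ^ 2 - 2 * b * c * d - a * b ^ 2) = 1
    linear_combination (a * d - b * c + 1) * hd + b ^ 2 * hx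

/-- A coset fixed by `S * T` is an affine point. -/
theorem exists_affinePt_of_ST_fixed [NeZero N] (x : SL(2, ℤ) ⧸ Gamma0 N)
    (hx : (ModularGroup.S * ModularGroup.T) • x = x) : ∃ u : ZMod N, x = affinePt N u := by
  induction x using QuotientGroup.induction_on with
  | H g =>
    rw [smul_mk, mk_eq_mk_iff, ST_mul_apply_zero_zero, ST_mul_apply_one_zero] at hx
    push_cast at hx
    have hd := det_rel_zmod (N := N) g
    set a : ZMod N := ((g 0 0 : ℤ) : ZMod N)
    set b : ZMod N := ((g 0 1 : ℤ) : ZMod N)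
    set c : ZMod N := ((g 1 0 : ℤ) : ZMod N)
    set d : ZMod N := ((g 1 1 : ℤ) : ZMod N)
    refine ⟨c * (a * d ^ 2 - 2 * b * c * d - b ^ 2 * (a + c)), mk_eq_affinePt_of_inv g _ ?_⟩
    change a * (a * d ^ 2 - 2 * b * c * d - b ^ 2 * (a + c)) = 1
    linear_combination (a * d - b * c + 1) * hd + b ^ 2 * hx

/-- **I2**: the fixed points of `S` on `SL(2, ℤ) ⧸ Γ₀(N)` are counted by `nuTwo N`. -/
theorem card_fixed_S (N : ℕ) [NeZero N] :
    Nat.card {x : SL(2, ℤ) ⧸ Gamma0 N // ModularGroup.S • x = x} = ModularCurve.nuTwo N := by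
  rw [ModularCurve.nuTwo]
  symm
  refine Nat.card_congr (Equiv.ofBijective
    (fun u => ⟨affinePt N u.1, (S_smul_affinePt_eq_iff u.1).2 u.2⟩) ⟨?_, ?_⟩)
  · intro u v h
    exact Subtype.ext (affinePt_injective (congrArg Subtype.val h))
  · rintro ⟨x, hx⟩
    obtain ⟨u, rfl⟩ := exists_affinePt_of_S_fixed x hx
    exact ⟨⟨u, (S_smul_affinePt_eq_iff u).1 hx⟩, rfl⟩

/-- **I3**: the fixed points of `S * T` on `SL(2, ℤ) ⧸ Γ₀(N)` are counted by `nuThree N`. -/
theorem card_fixed_ST (N : ℕ) [NeZero N] :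
    Nat.card {x : SL(2, ℤ) ⧸ Gamma0 N // (ModularGroup.S * ModularGroup.T) • x = x}
      = ModularCurve.nuThree N := by
  rw [ModularCurve.nuThree]
  symm
  refine Nat.card_congr (Equiv.ofBijective
    (fun u => ⟨affinePt N u.1, (ST_smul_affinePt_eq_iff u.1).2 u.2⟩) ⟨?_, ?_⟩)
  · intro u v h
    exact Subtype.ext (affinePt_injective (congrArg Subtype.val h))
  · rintro ⟨x, hx⟩
    obtain ⟨u, rfl⟩ := exists_affinePt_of_ST_fixed x hx
    exact ⟨⟨u, (ST_smul_affinePt_eq_iff u).1 hx⟩, rfl⟩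

end Fermat.Agent.S20.H872

end
-- ===== PACK-END S20/H872/Coset.lean

-- ===== PACK-BEGIN S20/H872/Index.lean
section





/-!
# `[SL(2, ℤ) : Γ₀(N)] = ψ(N)` (Dedekind psi function)

Route: `[Γ₀(N) : Γ₀(N p)] = p` if `p ∣ N`, `p + 1` otherwise, and induction on the prime
factorisation.
-/

set_option autoImplicit false

open CongruenceSubgroup Matrix.SpecialLinearGroup
open scoped MatrixGroups

namespace Fermat.Agent.S20.H872

/-! ### Arithmetic of `dedekindPsi` -/

theorem dedekindPsi_mul_prime_of_dvd {N p : ℕ} (hN : N ≠ 0) (hp : p.Prime) (hpN : p ∣ N) :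
    ModularCurve.dedekindPsi (N * p) = p * ModularCurve.dedekindPsi N := by
  unfold ModularCurve.dedekindPsi
  have hset : (N * p).divisors.filter Squarefree = N.divisors.filter Squarefree := by
    ext d
    simp only [Finset.mem_filter, Nat.mem_divisors]
    constructor
    · rintro ⟨⟨hd, _⟩, hsq⟩
      refine ⟨⟨?_, hN⟩, hsq⟩
      have h2 : d ∣ N ^ 2 := by
        rw [pow_two]
        exact hd.trans (mul_dvd_mul_left N hpN)
      exact (hsq.dvd_pow_iff_dvd two_ne_zero).1 h2
    · rintro ⟨⟨hd, _⟩, hsq⟩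
      exact ⟨⟨hd.mul_right p, mul_ne_zero hN hp.ne_zero⟩, hsq⟩
  rw [hset, Finset.mul_sum]
  refine Finset.sum_congr rfl fun d hd => ?_
  have hdN : d ∣ N := (Nat.mem_divisors.1 (Finset.mem_filter.1 hd).1).1
  obtain ⟨e, rfl⟩ := hdN
  have hd0 : 0 < d := Nat.pos_of_ne_zero (by rintro rfl; simp at hN)
  rw [mul_assoc, Nat.mul_div_cancel_left _ hd0, Nat.mul_div_cancel_left _ hd0, mul_comm]

theorem dedekindPsi_mul_prime_of_not_dvd {N p : ℕ} (hN : N ≠ 0) (hp : p.Prime) (hpN : ¬ p ∣ N) :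
    ModularCurve.dedekindPsi (N * p) = (p + 1) * ModularCurve.dedekindPsi N := by
  unfold ModularCurve.dedekindPsi
  have hcop : ∀ d, d ∣ N → Nat.Coprime d p := fun d hd =>
    (Nat.Coprime.symm ((Nat.Prime.coprime_iff_not_dvd hp).2 fun h => hpN (h.trans hd)))
  have hset : (N * p).divisors.filter Squarefree
      = (N.divisors.filter Squarefree) ∪ (N.divisors.filter Squarefree).image (· * p) := by
    ext d
    simp only [Finset.mem_filter, Nat.mem_divisors, Finset.mem_union, Finset.mem_image]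
    constructor
    · rintro ⟨⟨hd, _⟩, hsq⟩
      by_cases hpd : p ∣ d
      · right
        obtain ⟨e, rfl⟩ := hpd
        refine ⟨e, ⟨⟨?_, hN⟩, hsq.squarefree_of_dvd (Dvd.intro_left p rfl)⟩, mul_comm e p⟩
        rw [mul_comm p e] at hd
        exact Nat.dvd_of_mul_dvd_mul_right hp.pos hd
      · left
        refine ⟨⟨?_, hN⟩, hsq⟩
        have : Nat.Coprime d p := (Nat.Coprime.symm ((Nat.Prime.coprime_iff_not_dvd hp).2 hpd))
        exact this.dvd_of_dvd_mul_right hd
    · rintro (⟨⟨hd, _⟩, hsq⟩ | ⟨e, ⟨⟨he, _⟩, hsq⟩, rfl⟩)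
      · exact ⟨⟨hd.mul_right p, mul_ne_zero hN hp.ne_zero⟩, hsq⟩
      · refine ⟨⟨mul_dvd_mul_right he p, mul_ne_zero hN hp.ne_zero⟩, ?_⟩
        exact (Nat.squarefree_mul (hcop e he)).2 ⟨hsq, hp.squarefree⟩
  have hdisj : Disjoint (N.divisors.filter Squarefree)
      ((N.divisors.filter Squarefree).image (· * p)) := by
    rw [Finset.disjoint_left]
    intro d hd hd'
    simp only [Finset.mem_filter, Nat.mem_divisors, Finset.mem_image] at hd hd'
    obtain ⟨e, _, rfl⟩ := hd'
    exact hpN ((Dvd.intro_left e rfl).trans hd.1.1)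
  rw [hset, Finset.sum_union hdisj, Finset.sum_image, add_mul, one_mul, Finset.mul_sum]
  · congr 1
    · refine Finset.sum_congr rfl fun d hd => ?_
      have hdN : d ∣ N := (Nat.mem_divisors.1 (Finset.mem_filter.1 hd).1).1
      obtain ⟨e, rfl⟩ := hdN
      have hd0 : 0 < d := Nat.pos_of_ne_zero (by rintro rfl; simp at hN)
      rw [mul_assoc, Nat.mul_div_cancel_left _ hd0, Nat.mul_div_cancel_left _ hd0, mul_comm]
    · refine Finset.sum_congr rfl fun d hd => ?_
      exact Nat.mul_div_mul_right N d hp.pos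
  · intro a _ b _ hab
    exact Nat.eq_of_mul_eq_mul_right hp.pos hab

/-! ### The relative index `[Γ₀(N) : Γ₀(N p)]` -/

theorem Gamma0_mul_le (N p : ℕ) : Gamma0 (N * p) ≤ Gamma0 N := by
  intro g hg
  rw [Gamma0_mem, ZMod.intCast_zmod_eq_zero_iff_dvd] at hg ⊢
  exact (Dvd.intro _ (by push_cast; rfl)).trans hg

theorem lowerUni_mem_Gamma0 (N : ℕ) (t : ℤ) : lowerUni ((N : ℤ) * t) ∈ Gamma0 N := by
  rw [Gamma0_mem, ZMod.intCast_zmod_eq_zero_iff_dvd]
  exact Dvd.intro _ rfl

/-- Criterion for equality of cosets in `Γ₀(N) ⧸ Γ₀(N p)`. -/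
theorem rel_mk_eq_mk_iff (N p : ℕ) (g g' : SL(2, ℤ)) (hg : g ∈ Gamma0 N) (hg' : g' ∈ Gamma0 N) :
    (QuotientGroup.mk (⟨g, hg⟩ : Gamma0 N) :
        Gamma0 N ⧸ (Gamma0 (N * p)).subgroupOf (Gamma0 N)) = QuotientGroup.mk ⟨g', hg'⟩
      ↔ ((N : ℤ) * (p : ℤ)) ∣ g 0 0 * g' 1 0 - g 1 0 * g' 0 0 := by
  rw [QuotientGroup.eq, Subgroup.mem_subgroupOf]
  have : (((⟨g, hg⟩ : Gamma0 N)⁻¹ * (⟨g', hg'⟩ : Gamma0 N) : Gamma0 N) : SL(2, ℤ))
      = g⁻¹ * g' := rfl
  rw [this, Gamma0_mem, inv_mul_apply_one_zero, ZMod.intCast_zmod_eq_zero_iff_dvd]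
  push_cast
  rfl

theorem Gamma0_dvd (N : ℕ) (g : SL(2, ℤ)) (hg : g ∈ Gamma0 N) : (N : ℤ) ∣ g 1 0 := by
  rwa [Gamma0_mem, ZMod.intCast_zmod_eq_zero_iff_dvd] at hg

/-- Criterion in terms of `γ = c / N`. -/
theorem rel_mk_eq_mk_iff' {N : ℕ} (hN : N ≠ 0) (p : ℕ) (g g' : SL(2, ℤ)) (hg : g ∈ Gamma0 N)
    (hg' : g' ∈ Gamma0 N) (γ γ' : ℤ) (hγ : g 1 0 = N * γ) (hγ' : g' 1 0 = N * γ') :
    (QuotientGroup.mk (⟨g, hg⟩ : Gamma0 N) :
        Gamma0 N ⧸ (Gamma0 (N * p)).subgroupOf (Gamma0 N)) = QuotientGroup.mk ⟨g', hg'⟩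
      ↔ (p : ℤ) ∣ g 0 0 * γ' - γ * g' 0 0 := by
  rw [rel_mk_eq_mk_iff, hγ, hγ']
  have : g 0 0 * ((N : ℤ) * γ') - (N : ℤ) * γ * g' 0 0
      = (N : ℤ) * (g 0 0 * γ' - γ * g' 0 0) := by ring
  rw [this]
  exact mul_dvd_mul_iff_left (by exact_mod_cast hN)

/-- the affine representatives of `Γ₀(N) ⧸ Γ₀(N p)` -/
noncomputable def relPt (N p : ℕ) (t : ZMod p) :
    Gamma0 N ⧸ (Gamma0 (N * p)).subgroupOf (Gamma0 N) :=
  QuotientGroup.mk ⟨lowerUni ((N : ℤ) * (ZMod.cast t : ℤ)), lowerUni_mem_Gamma0 N _⟩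

theorem mk_eq_relPt_iff {N : ℕ} (hN : N ≠ 0) (p : ℕ) [NeZero p] (g : SL(2, ℤ))
    (hg : g ∈ Gamma0 N) (γ : ℤ) (hγ : g 1 0 = N * γ) (t : ZMod p) :
    (QuotientGroup.mk (⟨g, hg⟩ : Gamma0 N) :
        Gamma0 N ⧸ (Gamma0 (N * p)).subgroupOf (Gamma0 N)) = relPt N p t
      ↔ ((g 0 0 : ℤ) : ZMod p) * t = ((γ : ℤ) : ZMod p) := by
  rw [relPt, rel_mk_eq_mk_iff' hN p g _ hg _ γ (ZMod.cast t : ℤ) hγ rfl]
  rw [lowerUni_apply_zero_zero, mul_one, ← ZMod.intCast_zmod_eq_zero_iff_dvd]
  push_cast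
  try simp only [ZMod.intCast_cast, ZMod.cast_id', id_eq]
  exact sub_eq_zero

theorem relPt_injective {N : ℕ} (hN : N ≠ 0) (p : ℕ) [NeZero p] :
    Function.Injective (relPt N p) := by
  intro t t' h
  rw [relPt, mk_eq_relPt_iff hN p _ _ (ZMod.cast t : ℤ) rfl] at h
  simpa using h.symm

/-- If `a = g 0 0` is nonzero mod the prime `p`, the coset of `g` is an affine point. -/
theorem exists_relPt_of_ne_zero {N : ℕ} (hN : N ≠ 0) (p : ℕ) [Fact p.Prime] (g : SL(2, ℤ))
    (hg : g ∈ Gamma0 N) (ha : ((g 0 0 : ℤ) : ZMod p) ≠ 0) :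
    ∃ t : ZMod p,
      (QuotientGroup.mk (⟨g, hg⟩ : Gamma0 N) :
        Gamma0 N ⧸ (Gamma0 (N * p)).subgroupOf (Gamma0 N)) = relPt N p t := by
  obtain ⟨γ, hγ⟩ := Gamma0_dvd N g hg
  refine ⟨((γ : ℤ) : ZMod p) * (((g 0 0 : ℤ) : ZMod p))⁻¹, ?_⟩
  rw [mk_eq_relPt_iff hN p g hg γ hγ]
  field_simp

theorem card_rel_of_dvd {N p : ℕ} (hN : N ≠ 0) (hp : p.Prime) (hpN : p ∣ N) :
    (Gamma0 (N * p)).relIndex (Gamma0 N) = p := by
  have : Fact p.Prime := ⟨hp⟩
  rw [Subgroup.relIndex, Subgroup.index_eq_card]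
  have hbij : Function.Bijective (relPt N p) := by
    refine ⟨relPt_injective hN p, fun x => ?_⟩
    induction x using QuotientGroup.induction_on with
    | H k =>
      obtain ⟨g, hg⟩ := k
      have ha : ((g 0 0 : ℤ) : ZMod p) ≠ 0 := by
        intro h0
        rw [ZMod.intCast_zmod_eq_zero_iff_dvd] at h0
        have hc : (p : ℤ) ∣ g 1 0 := (Int.natCast_dvd_natCast.2 hpN).trans (Gamma0_dvd N g hg)
        have h1 : (p : ℤ) ∣ 1 := by
          rw [← det_rel g]
          exact dvd_sub (h0.mul_right _) (hc.mul_left _)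
        have h2 : p ∣ 1 := by exact_mod_cast h1
        exact hp.one_lt.ne' (Nat.dvd_one.1 h2)
      obtain ⟨t, ht⟩ := exists_relPt_of_ne_zero hN p g hg ha
      exact ⟨t, ht.symm⟩
  rw [← Nat.card_congr (Equiv.ofBijective _ hbij), Nat.card_eq_fintype_card, ZMod.card]

theorem exists_mem_Gamma0_col {N p : ℕ} (hcop : Nat.Coprime p N) :
    ∃ g : SL(2, ℤ), g ∈ Gamma0 N ∧ g 0 0 = p ∧ g 1 0 = N := by
  have h : IsCoprime (p : ℤ) (N : ℤ) := Nat.isCoprime_iff_coprime.2 hcop
  obtain ⟨u, v, huv⟩ := h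
  have hdet : (!![(p : ℤ), -v; (N : ℤ), u]).det = 1 := by
    rw [Matrix.det_fin_two_of]; linear_combination huv
  let g : SL(2, ℤ) := ⟨!![(p : ℤ), -v; (N : ℤ), u], hdet⟩
  refine ⟨g, ?_, rfl, rfl⟩
  rw [Gamma0_mem]
  change (((N : ℤ) : ℤ) : ZMod N) = 0
  simp

theorem card_rel_of_not_dvd {N p : ℕ} (hN : N ≠ 0) (hp : p.Prime) (hpN : ¬ p ∣ N) :
    (Gamma0 (N * p)).relIndex (Gamma0 N) = p + 1 := by
  have : Fact p.Prime := ⟨hp⟩
  rw [Subgroup.relIndex, Subgroup.index_eq_card]
  obtain ⟨g₀, hg₀, hk0, hk1⟩ :=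
    exists_mem_Gamma0_col ((Nat.Prime.coprime_iff_not_dvd hp).2 hpN)
  let f : Option (ZMod p) → Gamma0 N ⧸ (Gamma0 (N * p)).subgroupOf (Gamma0 N) := fun o =>
    o.elim (QuotientGroup.mk ⟨g₀, hg₀⟩) (relPt N p)
  have hinf : ∀ t : ZMod p,
      (QuotientGroup.mk (⟨g₀, hg₀⟩ : Gamma0 N) :
        Gamma0 N ⧸ (Gamma0 (N * p)).subgroupOf (Gamma0 N)) ≠ relPt N p t := by
    intro t h
    rw [mk_eq_relPt_iff hN p g₀ hg₀ 1 (by rw [hk1, mul_one]), hk0] at h
    simp at h
  have hbij : Function.Bijective f := by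
    constructor
    · rintro (_ | t) (_ | t') h
      · rfl
      · exact absurd h (hinf t')
      · exact absurd h.symm (hinf t)
      · exact congrArg some (relPt_injective hN p h)
    · intro x
      induction x using QuotientGroup.induction_on with
      | H k =>
        obtain ⟨g, hg⟩ := k
        by_cases ha : ((g 0 0 : ℤ) : ZMod p) = 0
        · refine ⟨none, ?_⟩
          obtain ⟨γ, hγ⟩ := Gamma0_dvd N g hg
          change (QuotientGroup.mk (⟨g₀, hg₀⟩ : Gamma0 N) :
            Gamma0 N ⧸ (Gamma0 (N * p)).subgroupOf (Gamma0 N)) = _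
          rw [rel_mk_eq_mk_iff' hN p g₀ g hg₀ hg 1 γ (by rw [hk1, mul_one]) hγ, hk0]
          rw [ZMod.intCast_zmod_eq_zero_iff_dvd] at ha
          exact dvd_sub (Dvd.intro _ rfl) (ha.mul_left _)
        · obtain ⟨t, ht⟩ := exists_relPt_of_ne_zero hN p g hg ha
          exact ⟨some t, ht.symm⟩
  rw [← Nat.card_congr (Equiv.ofBijective _ hbij), Nat.card_eq_fintype_card, Fintype.card_option,
    ZMod.card]

/-! ### The index formula -/

theorem Gamma0_one : Gamma0 1 = ⊤ := by
  ext g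
  simp only [Gamma0_mem, Subgroup.mem_top, iff_true]
  exact Subsingleton.elim _ _

/-- **I1**: `[SL(2, ℤ) : Γ₀(N)] = ψ(N)`. -/
theorem index_Gamma0 (N : ℕ) (hN : N ≠ 0) : (Gamma0 N).index = ModularCurve.dedekindPsi N := by
  induction N using induction_on_primes with
  | zero => exact absurd rfl hN
  | one => rw [Gamma0_one, Subgroup.index_top, ModularCurve.dedekindPsi_one]
  | prime_mul p M hp ih =>
    have hM : M ≠ 0 := by rintro rfl; simp at hN
    have ih' := ih hM
    rw [mul_comm p M, ← Subgroup.relIndex_mul_index (Gamma0_mul_le M p), ih']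
    by_cases hpM : p ∣ M
    · rw [card_rel_of_dvd hM hp hpM, dedekindPsi_mul_prime_of_dvd hM hp hpM]
    · rw [card_rel_of_not_dvd hM hp hpM, dedekindPsi_mul_prime_of_not_dvd hM hp hpM]

/-- **I1**, cardinality form. -/
theorem card_quot_Gamma0 (N : ℕ) [NeZero N] :
    Nat.card (SL(2, ℤ) ⧸ Gamma0 N) = ModularCurve.dedekindPsi N := by
  rw [← Subgroup.index_eq_card]
  exact index_Gamma0 N (NeZero.ne N)

end Fermat.Agent.S20.H872

end
-- ===== PACK-END S20/H872/Index.lean

-- ===== PACK-BEGIN S24/H84/Kaehler.lean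
section


/-!
# Kähler differentials of a function field in one variable (helper84, S24 piece KD1)

`K` a field of characteristic zero, `F/K` a field extension, `x : F` with `F` algebraic over
`K(x)`.  Then `Ω[F⁄K]` is spanned by `D x`.
-/

set_option autoImplicit false

open KaehlerDifferential Polynomial IntermediateField TensorProduct

namespace Fermat.Agent.S24.H84

section Kaehler

variable {K F : Type*} [Field K] [Field F] [Algebra K F]

/-- `D e ∈ span {D x}` for `e ∈ K⟮x⟯`. -/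
theorem D_mem_span_of_mem_adjoin_simple (x : F) {e : F} (he : e ∈ K⟮x⟯) :
    D K F e ∈ Submodule.span F {D K F x} := by
  obtain ⟨r, s, rfl⟩ := (IntermediateField.mem_adjoin_simple_iff K e).1 he
  rw [Derivation.leibniz_div, Derivation.map_aeval, Derivation.map_aeval]
  refine Submodule.smul_mem _ _ (Submodule.sub_mem _ ?_ ?_) <;>
  exact Submodule.smul_mem _ _ (Submodule.smul_mem _ _ (Submodule.mem_span_singleton_self _))

theorem map_mem_span_D (x : F) (y : Ω[K⟮x⟯⁄K]) :
    KaehlerDifferential.map K K K⟮x⟯ F y ∈ Submodule.span F {D K F x} := by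
  have hy : y ∈ Submodule.span K⟮x⟯ (Set.range (D K K⟮x⟯)) := by
    rw [span_range_derivation]; trivial
  induction hy using Submodule.span_induction with
  | mem z hz =>
    obtain ⟨e, rfl⟩ := hz
    rw [map_D]
    exact D_mem_span_of_mem_adjoin_simple x e.2
  | zero => simp
  | add u v _ _ hu hv => rw [map_add]; exact Submodule.add_mem _ hu hv
  | smul c u _ hu =>
    rw [map_smul, ← algebraMap_smul F c]
    exact Submodule.smul_mem _ _ hu

theorem mapBaseChange_mem_span_D (x : F) (t : F ⊗[K⟮x⟯] Ω[K⟮x⟯⁄K]) :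
    KaehlerDifferential.mapBaseChange K K⟮x⟯ F t ∈ Submodule.span F {D K F x} := by
  induction t using TensorProduct.induction_on with
  | zero => simp
  | tmul b y =>
    rw [mapBaseChange_tmul]
    exact Submodule.smul_mem _ _ (map_mem_span_D x y)
  | add a b ha hb => rw [map_add]; exact Submodule.add_mem _ ha hb

/-- If `F` is algebraic over `K⟮x⟯` (characteristic zero), then `D x` spans `Ω[F⁄K]`. -/
theorem span_D_eq_top [CharZero K] (x : F) [Algebra.IsAlgebraic K⟮x⟯ F] :
    Submodule.span F {D K F x} = ⊤ := by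
  have : CharZero K⟮x⟯ := charZero_of_injective_algebraMap (algebraMap K K⟮x⟯).injective
  have : Algebra.IsSeparable K⟮x⟯ F := Algebra.IsAlgebraic.isSeparable_of_perfectField
  have : Algebra.FormallyUnramified K⟮x⟯ F := Algebra.FormallyUnramified.of_isSeparable _ _
  have : Subsingleton Ω[F⁄K⟮x⟯] := Algebra.FormallyUnramified.subsingleton_kaehlerDifferential
  rw [eq_top_iff]
  intro ω _
  have hex := KaehlerDifferential.exact_mapBaseChange_map K K⟮x⟯ F
  have h0 : KaehlerDifferential.map K K⟮x⟯ F F ω = 0 := Subsingleton.elim _ _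
  obtain ⟨t, rfl⟩ := (hex ω).1 h0
  exact mapBaseChange_mem_span_D x t

end Kaehler

end Fermat.Agent.S24.H84

end
-- ===== PACK-END S24/H84/Kaehler.lean

-- ===== PACK-BEGIN S24/H84/LaurentDeriv.lean
section


/-!
# `d/dz` on Laurent series as a derivation (helper84, S24 piece KD3)

Mathlib has `LaurentSeries.derivative` only as a linear map.  We prove the Leibniz rule,
package it as a `Derivation`, and compute orders.
-/

set_option autoImplicit false

noncomputable section

namespace Fermat.Agent.S24.H84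

open HahnSeries

section Ring

variable {C : Type*} [CommRing C]

theorem laurent_derivative_coeff (f : LaurentSeries C) (n : ℤ) :
    (LaurentSeries.derivative C f).coeff n = ((n + 1 : ℤ) : C) * f.coeff (n + 1) := by
  rw [LaurentSeries.derivative_apply, LaurentSeries.hasseDeriv_coeff]
  simp [zsmul_eq_mul]

theorem laurent_derivative_ofPowerSeries (P : PowerSeries C) :
    LaurentSeries.derivative C (P : LaurentSeries C) =
      ((PowerSeries.derivative C P : PowerSeries C) : LaurentSeries C) := by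
  ext n
  rw [laurent_derivative_coeff, PowerSeries.coeff_coe, PowerSeries.coeff_coe]
  by_cases hn : n < 0
  · rw [if_pos hn]
    by_cases hn1 : n + 1 < 0
    · rw [if_pos hn1, mul_zero]
    · have : n + 1 = 0 := by omega
      rw [this]; simp
  · rw [if_neg hn, if_neg (by omega)]
    obtain ⟨k, rfl⟩ := Int.eq_ofNat_of_zero_le (not_lt.mp hn)
    have h1 : ((k : ℤ) + 1).natAbs = k + 1 := by omega
    rw [h1, Int.natAbs_natCast, PowerSeries.coeff_derivative]
    push_cast
    ring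

theorem laurent_derivative_single_mul (n : ℤ) (h : LaurentSeries C) :
    LaurentSeries.derivative C (single n (1 : C) * h) =
      (n : C) • (single (n - 1) (1 : C) * h) + single n (1 : C) * LaurentSeries.derivative C h := by
  ext k
  rw [laurent_derivative_coeff, HahnSeries.coeff_add, HahnSeries.coeff_smul,
    coeff_single_mul, coeff_single_mul, coeff_single_mul, laurent_derivative_coeff]
  have e1 : k - (n - 1) = k + 1 - n := by ring
  have e2 : k - n + 1 = k + 1 - n := by ring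
  rw [e1, e2]
  simp only [one_mul, smul_eq_mul]
  push_cast
  ring

theorem laurent_derivative_mul (f g : LaurentSeries C) :
    LaurentSeries.derivative C (f * g) =
      f * LaurentSeries.derivative C g + g * LaurentSeries.derivative C f := by
  obtain ⟨a, P, rfl⟩ : ∃ (a : ℤ) (P : PowerSeries C), f = single a (1 : C) * (P : LaurentSeries C) :=
    ⟨_, _, (LaurentSeries.single_order_mul_powerSeriesPart f).symm⟩
  obtain ⟨b, Q, rfl⟩ : ∃ (b : ℤ) (Q : PowerSeries C), g = single b (1 : C) * (Q : LaurentSeries C) :=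
    ⟨_, _, (LaurentSeries.single_order_mul_powerSeriesPart g).symm⟩
  have hfg : single a (1 : C) * (P : LaurentSeries C) * (single b (1 : C) * (Q : LaurentSeries C))
      = single (a + b) (1 : C) * ((P * Q : PowerSeries C) : LaurentSeries C) := by
    have : single (a + b) (1 : C) = single a (1 : C) * single b (1 : C) := by
      rw [single_mul_single, one_mul]
    rw [this]
    push_cast
    ring
  rw [hfg, laurent_derivative_single_mul, laurent_derivative_single_mul,
    laurent_derivative_single_mul, laurent_derivative_ofPowerSeries,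
    laurent_derivative_ofPowerSeries, laurent_derivative_ofPowerSeries,
    Derivation.leibniz, smul_eq_mul, smul_eq_mul]
  have h1 : single (a + b - 1) (1 : C) = single (a - 1) (1 : C) * single b (1 : C) := by
    rw [single_mul_single, one_mul, show a - 1 + b = a + b - 1 by omega]
  have h2 : single (a + b - 1) (1 : C) = single a (1 : C) * single (b - 1) (1 : C) := by
    rw [single_mul_single, one_mul, show a + (b - 1) = a + b - 1 by omega]
  have h3 : single (a + b) (1 : C) = single a (1 : C) * single b (1 : C) := by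
    rw [single_mul_single, one_mul]
  simp only [← HahnSeries.C_mul_eq_smul, PowerSeries.coe_add, PowerSeries.coe_mul]
  push_cast
  rw [h3]
  have h4 : (HahnSeries.C ((a : C) + (b : C)) : LaurentSeries C) * single (a + b - 1) (1 : C)
      = HahnSeries.C (a : C) * (single (a - 1) (1 : C) * single b (1 : C))
        + HahnSeries.C (b : C) * (single a (1 : C) * single (b - 1) (1 : C)) := by
    rw [← h1, ← h2, map_add]; ring
  linear_combination ((P : LaurentSeries C) * (Q : LaurentSeries C)) * h4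

theorem laurent_algebraMap_eq_C (c : C) :
    algebraMap C (LaurentSeries C) c = HahnSeries.C c := by
  rw [HahnSeries.algebraMap_apply', ← HahnSeries.ofPowerSeries_C]
  rfl

/-- The two `C`-actions on `C((z))` (via `Algebra.toModule` and via `HahnSeries.instModule`)
agree. -/
theorem laurent_algebra_smul_eq (c : C) (f : LaurentSeries C) :
    (@HSMul.hSMul C (LaurentSeries C) _
      (@instHSMul C (LaurentSeries C) (Algebra.toModule.toSMul)) c f) = HahnSeries.C c * f := by
  rw [Algebra.smul_def, laurent_algebraMap_eq_C]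

/-- `d/dz` on `C((z))` as a `C`-derivation. -/
def laurentD (C : Type*) [CommRing C] : Derivation C (LaurentSeries C) (LaurentSeries C) where
  toFun f := LaurentSeries.derivative C f
  map_add' f g := map_add _ f g
  map_smul' c f := by
    ext n
    simp only [RingHom.id_apply, laurent_derivative_coeff]
    rw [laurent_algebra_smul_eq,
      HahnSeries.C_mul_eq_smul, HahnSeries.coeff_smul,
      HahnSeries.coeff_smul, laurent_derivative_coeff]
    simp only [smul_eq_mul]
    ring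
  map_one_eq_zero' := by
    ext n
    show (LaurentSeries.derivative C (1 : LaurentSeries C)).coeff n = _
    rw [laurent_derivative_coeff]
    by_cases hn : n + 1 = 0
    · rw [hn]; simp
    · rw [HahnSeries.coeff_one, if_neg hn]; simp
  leibniz' f g := by
    show LaurentSeries.derivative C (f * g) = _
    rw [laurent_derivative_mul]
    simp [smul_eq_mul]

@[simp] theorem laurentD_apply (f : LaurentSeries C) :
    laurentD C f = LaurentSeries.derivative C f := rfl

theorem laurentD_coeff (f : LaurentSeries C) (n : ℤ) :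
    (laurentD C f).coeff n = ((n + 1 : ℤ) : C) * f.coeff (n + 1) :=
  laurent_derivative_coeff f n

theorem laurentD_C (c : C) : laurentD C (HahnSeries.C c) = 0 := by
  ext n
  rw [laurentD_coeff, HahnSeries.C_apply, HahnSeries.coeff_single]
  by_cases hn : n + 1 = 0
  · rw [hn]; simp
  · rw [if_neg hn]; simp

end Ring

section Field

variable {C : Type*} [Field C] [CharZero C]

/-- In characteristic zero, `ord (df/dz) = ord f - 1` whenever `ord f ≠ 0`. -/
theorem laurentD_order {f : LaurentSeries C} (hf : f.order ≠ 0) :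
    (laurentD C f).order = f.order - 1 := by
  have hf0 : f ≠ 0 := by rintro rfl; simp at hf
  have hc : (laurentD C f).coeff (f.order - 1) ≠ 0 := by
    rw [laurentD_coeff, sub_add_cancel]
    refine mul_ne_zero (by exact_mod_cast hf) ?_
    rw [← HahnSeries.leadingCoeff_eq]
    exact HahnSeries.leadingCoeff_ne_zero.2 hf0
  have hne : laurentD C f ≠ 0 := by
    intro h; rw [h] at hc; simp at hc
  refine le_antisymm (HahnSeries.order_le_of_coeff_ne_zero hc) ?_
  by_contra hlt
  rw [not_le] at hlt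
  have h2 : (laurentD C f).coeff (laurentD C f).order ≠ 0 := by
    rw [← HahnSeries.leadingCoeff_eq]
    exact HahnSeries.leadingCoeff_ne_zero.2 hne
  apply h2
  rw [laurentD_coeff, HahnSeries.coeff_eq_zero_of_lt_order (by omega), mul_zero]

theorem laurentD_ne_zero {f : LaurentSeries C} (hf : f.order ≠ 0) : laurentD C f ≠ 0 := by
  have hf0 : f ≠ 0 := by rintro rfl; simp at hf
  intro h
  have hc : (laurentD C f).coeff (f.order - 1) ≠ 0 := by
    rw [laurentD_coeff, sub_add_cancel]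
    refine mul_ne_zero (by exact_mod_cast hf) ?_
    rw [← HahnSeries.leadingCoeff_eq]
    exact HahnSeries.leadingCoeff_ne_zero.2 hf0
  rw [h] at hc
  simp at hc

omit [CharZero C] in
/-- In general `ord (df/dz) ≥ ord f - 1` (when `df/dz ≠ 0`). -/
theorem laurentD_order_ge {f : LaurentSeries C} (hdf : laurentD C f ≠ 0) :
    f.order - 1 ≤ (laurentD C f).order := by
  by_contra hlt
  rw [not_le] at hlt
  have h2 : (laurentD C f).coeff (laurentD C f).order ≠ 0 := by
    rw [← HahnSeries.leadingCoeff_eq]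
    exact HahnSeries.leadingCoeff_ne_zero.2 hdf
  apply h2
  rw [laurentD_coeff, HahnSeries.coeff_eq_zero_of_lt_order (by omega), mul_zero]

/-- `df/dz = 0` iff `f` is constant (characteristic zero). -/
theorem laurentD_eq_zero_iff {f : LaurentSeries C} :
    laurentD C f = 0 ↔ f = HahnSeries.C (f.coeff 0) := by
  constructor
  · intro h
    ext n
    rw [HahnSeries.C_apply, HahnSeries.coeff_single]
    by_cases hn : n = 0
    · rw [if_pos hn, hn]
    · rw [if_neg hn]
      have := congrArg (fun g : LaurentSeries C => g.coeff (n - 1)) h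
      simp only [laurentD_coeff, sub_add_cancel, HahnSeries.coeff_zero] at this
      rcases mul_eq_zero.1 this with h1 | h1
      · exact absurd (by exact_mod_cast h1) hn
      · exact h1
  · intro h
    rw [h, laurentD_C]

end Field

end Fermat.Agent.S24.H84

end
end
-- ===== PACK-END S24/H84/LaurentDeriv.lean

-- ===== PACK-BEGIN S24/H84/OrdDiff.lean
section




/-!
# Order of `dy` at a place via a Laurent-series embedding (helper84, S24 pieces KD2 + KD4)
-/

set_option autoImplicit false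

noncomputable section

open KaehlerDifferential IntermediateField AlgebraicCurve
open scoped IntermediateField.algebraAdjoinAdjoin

namespace Fermat.Agent.S24.H84

variable {K F : Type*} [Field K] [Field F] [Algebra K F]

/-- Constants have order zero at every place. -/
theorem place_ord_algebraMap (v : Place K F) (c : K) : v.ord (algebraMap K F c) = 0 := by
  rcases eq_or_ne c 0 with rfl | hc
  · simp
  · have hu : IsUnit (algebraMap K v.toValuationSubring c) := (IsUnit.mk0 c hc).map _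
    have := v.ord_coe_unit hu.unit
    simpa using this

/-- The (private) uniformizer of the Prelude, exposed. -/
theorem place_exists_uniformizer (v : Place K F) :
    ∃ π : F, v.ord π = 1 ∧ v.dCoord = D K F π :=
  ⟨_, v.ord_coe_irreducible
    (IsDiscreteValuationRing.exists_irreducible v.toValuationSubring).choose_spec, rfl⟩

/-- Over an algebraically closed field, an algebraic element is a constant. -/
theorem mem_range_algebraMap_of_isAlgebraic [IsAlgClosed K] {f : F} (halg : IsAlgebraic K f) :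
    ∃ c : K, algebraMap K F c = f := by
  have hint : IsIntegral K f := halg.isIntegral
  have hq : (minpoly K f).leadingCoeff = 1 := minpoly.monic hint
  have h : (minpoly K f).degree = 1 :=
    IsAlgClosed.degree_eq_one_of_irreducible K (minpoly.irreducible hint)
  have : Polynomial.aeval f (minpoly K f) = 0 := minpoly.aeval K f
  rw [Polynomial.eq_X_add_C_of_degree_eq_one h, hq, Polynomial.C_1, one_mul,
    Polynomial.aeval_add, Polynomial.aeval_X, Polynomial.aeval_C, add_eq_zero_iff_eq_neg] at this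
  exact ⟨-(minpoly K f).coeff 0, by rw [map_neg]; exact this.symm⟩

/-- Over an algebraically closed constant field, a function with nonzero order at some place is
transcendental. -/
theorem place_transcendental_of_ord_ne_zero [IsAlgClosed K] (v : Place K F) {f : F}
    (h : v.ord f ≠ 0) : Transcendental K f := by
  intro halg
  obtain ⟨c, rfl⟩ := mem_range_algebraMap_of_isAlgebraic halg
  exact h (place_ord_algebraMap v c)

/-- If `F` is finite over `K(j)` then `F` is algebraic over `K(π)` for every transcendental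
`π`. -/
theorem isAlgebraic_adjoin_simple_of_transcendental (j : F) [FiniteDimensional K⟮j⟯ F]
    {π : F} (hπ : Transcendental K π) : Algebra.IsAlgebraic K⟮π⟯ F := by
  have hA : Algebra.IsAlgebraic K⟮j⟯ F := Algebra.IsAlgebraic.of_finite _ _
  have hA' : Algebra.IsAlgebraic (Algebra.adjoin K {j}) F :=
    (IsFractionRing.comap_isAlgebraic_iff (A := Algebra.adjoin K {j}) (K := K⟮j⟯)).2 hA
  have h1 : Algebra.trdeg K F ≤ 1 := by
    simpa using Algebra.IsAlgebraic.trdeg_le_cardinalMk K ({j} : Set F)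
  have hind : AlgebraicIndependent K (fun _ : PUnit => π) :=
    algebraicIndependent_unique_type_iff.2 hπ
  have hb : IsTranscendenceBasis K (fun _ : PUnit => π) :=
    hind.isTranscendenceBasis_of_trdeg_le_of_finite (by simpa using h1)
  have := hb.isAlgebraic_field
  have hr : (Set.range fun _ : PUnit => π) = {π} := Set.range_const
  rwa [hr] at this

/-- `DCoordGenerates` for every place of a function field in one variable over an algebraically
closed field of characteristic zero. -/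
theorem place_dCoordGenerates [IsAlgClosed K] [CharZero K] (j : F) [FiniteDimensional K⟮j⟯ F]
    (v : Place K F) : v.DCoordGenerates := by
  obtain ⟨π, hπ, hd⟩ := place_exists_uniformizer v
  have htr : Transcendental K π :=
    place_transcendental_of_ord_ne_zero v (by rw [hπ]; exact one_ne_zero)
  have := isAlgebraic_adjoin_simple_of_transcendental j htr
  exact ⟨by rw [hd]; exact span_D_eq_top π⟩

section Embedding

variable {C : Type*} [Field C]

/-- Pull-back of `d/dz` along a field embedding `σ : F → C((z))` which is constant on `K`: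
there is an additive map `L : Ω[F⁄K] → C((z))`, `σ`-semilinear, with `L (D y) = d(σ y)/dz`. -/
theorem exists_kaehler_to_laurent (σ : F →+* LaurentSeries C) (ι : K →+* C)
    (hσ : ∀ c : K, σ (algebraMap K F c) = HahnSeries.C (ι c)) :
    ∃ L : Ω[F⁄K] →+ LaurentSeries C,
      (∀ (f : F) (ω : Ω[F⁄K]), L (f • ω) = σ f * L ω) ∧
      ∀ y : F, L (D K F y) = laurentD C (σ y) := by
  let : Module F (LaurentSeries C) := Module.compHom _ σ
  let : Module K (LaurentSeries C) := Module.compHom _ (σ.comp (algebraMap K F))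
  have hF : ∀ (f : F) (m : LaurentSeries C), f • m = σ f * m := fun _ _ => rfl
  have hK : ∀ (k : K) (m : LaurentSeries C), k • m = σ (algebraMap K F k) * m := fun _ _ => rfl
  have : IsScalarTower K F (LaurentSeries C) := ⟨fun k f m => by
    rw [hF, hK, hF, Algebra.smul_def, map_mul, mul_assoc]⟩
  let δ : Derivation K F (LaurentSeries C) :=
    { toFun := fun f => laurentD C (σ f)
      map_add' := fun f g => by rw [map_add, map_add]
      map_smul' := fun k f => by
        rw [RingHom.id_apply, hK, Algebra.smul_def, map_mul, Derivation.leibniz, hσ, laurentD_C,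
          smul_zero, add_zero, smul_eq_mul]
      map_one_eq_zero' := by
        show laurentD C (σ 1) = 0
        rw [map_one, Derivation.map_one_eq_zero]
      leibniz' := fun f g => by
        show laurentD C (σ (f * g)) = f • laurentD C (σ g) + g • laurentD C (σ f)
        rw [map_mul, Derivation.leibniz, hF, hF, smul_eq_mul, smul_eq_mul] }
  refine ⟨δ.liftKaehlerDifferential.toAddMonoidHom, fun f ω => ?_, fun y => ?_⟩
  · show δ.liftKaehlerDifferential (f • ω) = _
    rw [map_smul, hF]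
    rfl
  · exact δ.liftKaehlerDifferential_comp_D y

/-- If `σ y` has nonzero order then `dy ≠ 0` in `Ω[F⁄K]` (characteristic zero). -/
theorem D_ne_zero_of_embedding [CharZero C] (σ : F →+* LaurentSeries C) (ι : K →+* C)
    (hσ : ∀ c : K, σ (algebraMap K F c) = HahnSeries.C (ι c))
    {y : F} (hy : (σ y).order ≠ 0) : D K F y ≠ 0 := by
  obtain ⟨L, -, hL2⟩ := exists_kaehler_to_laurent σ ι hσ
  intro h
  have := hL2 y
  rw [h, map_zero] at this
  exact laurentD_ne_zero hy this.symm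

/-- `Ω[F⁄K]` is nontrivial as soon as some `σ y` has nonzero order. -/
theorem nontrivial_kaehler_of_embedding [CharZero C] (σ : F →+* LaurentSeries C) (ι : K →+* C)
    (hσ : ∀ c : K, σ (algebraMap K F c) = HahnSeries.C (ι c))
    {y : F} (hy : (σ y).order ≠ 0) : Nontrivial Ω[F⁄K] :=
  ⟨⟨_, _, D_ne_zero_of_embedding σ ι hσ hy⟩⟩

variable [CharZero C]

/-- **Local formula for the order of a differential.**  If the place `v` is induced by the
embedding `σ : F → C((z))` with multiplicity `g` (`ord_z ∘ σ = g · ord_v`), then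
`g · ord_v(dy) = ord_z (d(σ y)/dz) - (g - 1)`. -/
theorem place_ordDifferential_mul (v : Place K F) [v.DCoordGenerates]
    (σ : F →+* LaurentSeries C) (ι : K →+* C)
    (hσ : ∀ c : K, σ (algebraMap K F c) = HahnSeries.C (ι c))
    (g : ℕ) (hg : 0 < g) (hord : ∀ f : F, f ≠ 0 → (σ f).order = g * v.ord f)
    (y : F) (hy : laurentD C (σ y) ≠ 0) :
    (g : ℤ) * v.ordDifferential (D K F y) = (laurentD C (σ y)).order - (g - 1) := by
  obtain ⟨π, hπ1, hd⟩ := place_exists_uniformizer v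
  obtain ⟨L, hL1, hL2⟩ := exists_kaehler_to_laurent σ ι hσ
  have hc : v.differentialCoeff (D K F y) • v.dCoord = D K F y :=
    v.differentialCoeff_smul_dCoord _
  have h1 : laurentD C (σ y) = σ (v.differentialCoeff (D K F y)) * laurentD C (σ π) := by
    have h := congrArg L hc
    rw [hL1, hd, hL2, hL2] at h
    exact h.symm
  have hπ0 : π ≠ 0 := by rintro rfl; simp at hπ1
  have hπord : (σ π).order = g := by rw [hord π hπ0, hπ1, mul_one]
  have hgne : (σ π).order ≠ 0 := by rw [hπord]; exact_mod_cast hg.ne'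
  have hdπ : (laurentD C (σ π)).order = g - 1 := by rw [laurentD_order hgne, hπord]
  have hc0 : v.differentialCoeff (D K F y) ≠ 0 := by
    intro h; rw [h, map_zero, zero_mul] at h1; exact hy h1
  have hσc : σ (v.differentialCoeff (D K F y)) ≠ 0 := (map_ne_zero σ).2 hc0
  have hdπ0 : laurentD C (σ π) ≠ 0 := laurentD_ne_zero hgne
  rw [Place.ordDifferential, h1, HahnSeries.order_mul hσc hdπ0, hord _ hc0, hdπ]
  ring

/-- If `ord_v y ≠ 0` then `ord_v (dy) = ord_v y - 1`. -/
theorem place_ordDifferential_D_of_ord_ne_zero (v : Place K F) [v.DCoordGenerates]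
    (σ : F →+* LaurentSeries C) (ι : K →+* C)
    (hσ : ∀ c : K, σ (algebraMap K F c) = HahnSeries.C (ι c))
    (g : ℕ) (hg : 0 < g) (hord : ∀ f : F, f ≠ 0 → (σ f).order = g * v.ord f)
    (y : F) (hy : v.ord y ≠ 0) :
    v.ordDifferential (D K F y) = v.ord y - 1 := by
  have hy0 : y ≠ 0 := by rintro rfl; simp at hy
  have hgz : (g : ℤ) ≠ 0 := by exact_mod_cast hg.ne'
  have ho : (σ y).order ≠ 0 := by
    rw [hord y hy0]; exact mul_ne_zero hgz hy
  have := place_ordDifferential_mul v σ ι hσ g hg hord y (laurentD_ne_zero ho)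
  rw [laurentD_order ho, hord y hy0] at this
  have h2 : (g : ℤ) * v.ordDifferential (D K F y) = g * (v.ord y - 1) := by
    rw [this]; ring
  exact mul_left_cancel₀ hgz h2

/-- If `ord_v (y - a) ≠ 0` for a constant `a` then `ord_v (dy) = ord_v (y - a) - 1`. -/
theorem place_ordDifferential_D_of_ord_sub_ne_zero (v : Place K F) [v.DCoordGenerates]
    (σ : F →+* LaurentSeries C) (ι : K →+* C)
    (hσ : ∀ c : K, σ (algebraMap K F c) = HahnSeries.C (ι c))
    (g : ℕ) (hg : 0 < g) (hord : ∀ f : F, f ≠ 0 → (σ f).order = g * v.ord f)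
    (y : F) (a : K) (hy : v.ord (y - algebraMap K F a) ≠ 0) :
    v.ordDifferential (D K F y) = v.ord (y - algebraMap K F a) - 1 := by
  have := place_ordDifferential_D_of_ord_ne_zero v σ ι hσ g hg hord _ hy
  rwa [map_sub, Derivation.map_algebraMap, sub_zero] at this

/-- If `ord_v y⁻¹ ≠ 0` then `ord_v (dy) = - ord_v y⁻¹ - 1`. -/
theorem place_ordDifferential_D_of_ord_inv_ne_zero (v : Place K F) [v.DCoordGenerates]
    (σ : F →+* LaurentSeries C) (ι : K →+* C)
    (hσ : ∀ c : K, σ (algebraMap K F c) = HahnSeries.C (ι c))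
    (g : ℕ) (hg : 0 < g) (hord : ∀ f : F, f ≠ 0 → (σ f).order = g * v.ord f)
    (y : F) (hy : v.ord y⁻¹ ≠ 0) :
    v.ordDifferential (D K F y) = - v.ord y⁻¹ - 1 := by
  have h1 : v.ord y ≠ 0 := by
    rw [v.ord_inv] at hy; exact fun h => hy (by rw [h, neg_zero])
  rw [place_ordDifferential_D_of_ord_ne_zero v σ ι hσ g hg hord y h1, v.ord_inv, neg_neg]

end Embedding

end Fermat.Agent.S24.H84

end
end
-- ===== PACK-END S24/H84/OrdDiff.lean

-- ===== PACK-BEGIN S24/H117/OrbitCount.lean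
section


/-!
# S24 / H117 — an abstract orbit-counting squeeze

Let `perm` be a permutation of a finite set `X`, `φ : X → β` a `perm`-invariant map and
`e : β → ℕ` such that `e (φ x)` divides every period of `x`.  If `#X ≤ ∑_{v ∈ range φ} e v`, then
`φ` induces a bijection between the cycles of `perm` and `range φ`, and the cycle through `x`
has exactly `e (φ x)` elements.
-/

set_option autoImplicit false

noncomputable section

open MulAction

namespace Fermat.Agent.S24.H117

variable {X β : Type*}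

theorem map_eq_of_mem_orbit_zpowers (perm : Equiv.Perm X) (φ : X → β)
    (hperm : ∀ x, φ (perm x) = φ x) {x y : X}
    (h : y ∈ orbit (Subgroup.zpowers perm) x) : φ y = φ x := by
  obtain ⟨⟨g, hg⟩, rfl⟩ := h
  obtain ⟨k, rfl⟩ := Subgroup.mem_zpowers_iff.mp hg
  show φ ((perm ^ k) x) = φ x
  have hinv : ∀ z, φ (perm⁻¹ z) = φ z := fun z => by
    have := hperm (perm⁻¹ z)
    simpa using this.symm
  induction k using Int.induction_on generalizing x with
  | zero => simp
  | succ n ih =>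
    rw [zpow_add_one, Equiv.Perm.mul_apply, ih (x := perm x), hperm]
    exact Subgroup.zpow_mem _ (Subgroup.mem_zpowers perm) _
  | pred n ih =>
    rw [zpow_sub_one, Equiv.Perm.mul_apply, ih (x := perm⁻¹ x), hinv]
    exact Subgroup.zpow_mem _ (Subgroup.mem_zpowers perm) _

theorem orbit_count_squeeze [Fintype X] [DecidableEq β] (perm : Equiv.Perm X) (φ : X → β)
    (e : β → ℕ)
    (hperm : ∀ x, φ (perm x) = φ x)
    (hdiv : ∀ x (i : ℕ), (perm ^ i) x = x → e (φ x) ∣ i)
    (hsum : Fintype.card X ≤ ∑ v ∈ Finset.univ.image φ, e v) :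
    Nat.card (orbitRel.Quotient (Subgroup.zpowers perm) X) = (Finset.univ.image φ).card ∧
      (∀ x, Nat.card (orbit (Subgroup.zpowers perm) x) = e (φ x)) ∧
      (∑ v ∈ Finset.univ.image φ, e v = Fintype.card X) := by
  classical
  -- orbit sizes
  have hper : ∀ x, e (φ x) ≤ Fintype.card (orbit (Subgroup.zpowers perm) x) := by
    intro x
    have h1 : Function.minimalPeriod (perm • ·) x
        = Fintype.card (orbit (Subgroup.zpowers perm) x) := minimalPeriod_eq_card perm x
    have h2 : (perm ^ Function.minimalPeriod (perm • ·) x) x = x := by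
      have := Function.iterate_minimalPeriod (f := (perm • ·)) (x := x)
      rw [smul_iterate] at this
      exact this
    have h3 := hdiv x _ h2
    rw [h1] at h3
    have : Nonempty (orbit (Subgroup.zpowers perm) x) := (nonempty_orbit x).to_subtype
    exact Nat.le_of_dvd Fintype.card_pos h3
  -- the orbit is inside the fibre
  have hsub : ∀ x, (Finset.univ.filter (fun y : X => y ∈ orbit (Subgroup.zpowers perm) x))
      ⊆ Finset.univ.filter (fun y : X => φ y = φ x) := by
    intro x y hy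
    simp only [Finset.mem_filter, Finset.mem_univ, true_and] at hy ⊢
    exact map_eq_of_mem_orbit_zpowers perm φ hperm hy
  have hcardO : ∀ x, (Finset.univ.filter (fun y : X => y ∈ orbit (Subgroup.zpowers perm) x)).card
      = Fintype.card (orbit (Subgroup.zpowers perm) x) := by
    intro x
    rw [Fintype.card_subtype]
  have hle : ∀ v ∈ Finset.univ.image φ, e v ≤ (Finset.univ.filter (fun y : X => φ y = v)).card := by
    intro v hv
    obtain ⟨x, -, rfl⟩ := Finset.mem_image.mp hv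
    calc e (φ x) ≤ Fintype.card (orbit (Subgroup.zpowers perm) x) := hper x
      _ = _ := (hcardO x).symm
      _ ≤ _ := Finset.card_le_card (hsub x)
  have htot : Fintype.card X = ∑ v ∈ Finset.univ.image φ, (Finset.univ.filter (fun y : X => φ y = v)).card := by
    rw [← Finset.card_univ]
    exact Finset.card_eq_sum_card_fiberwise (fun x _ => Finset.mem_image_of_mem φ (Finset.mem_univ x))
  have hsumeq : ∑ v ∈ Finset.univ.image φ, e v
      = ∑ v ∈ Finset.univ.image φ, (Finset.univ.filter (fun y : X => φ y = v)).card := by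
    apply le_antisymm (Finset.sum_le_sum hle)
    rw [← htot]
    exact hsum
  have hfib : ∀ v ∈ Finset.univ.image φ, e v = (Finset.univ.filter (fun y : X => φ y = v)).card :=
    (Finset.sum_eq_sum_iff_of_le hle).mp hsumeq
  have hOeq : ∀ x, (Finset.univ.filter (fun y : X => y ∈ orbit (Subgroup.zpowers perm) x))
      = Finset.univ.filter (fun y : X => φ y = φ x) := by
    intro x
    apply Finset.eq_of_subset_of_card_le (hsub x)
    rw [← hfib _ (Finset.mem_image_of_mem φ (Finset.mem_univ x)), hcardO]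
    exact hper x
  refine ⟨?_, ?_, ?_⟩
  · -- bijection between orbits and the image
    let Φ : orbitRel.Quotient (Subgroup.zpowers perm) X → (Finset.univ.image φ : Finset β) :=
      fun ω => Quotient.liftOn' ω
        (fun x => (⟨φ x, Finset.mem_image_of_mem φ (Finset.mem_univ x)⟩ :
          (Finset.univ.image φ : Finset β)))
        (fun a b hab => Subtype.ext (map_eq_of_mem_orbit_zpowers perm φ hperm hab))
    have hΦbij : Function.Bijective Φ := by
      constructor
      · intro ω₁ ω₂ h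
        induction ω₁ using Quotient.inductionOn' with | _ x
        induction ω₂ using Quotient.inductionOn' with | _ y
        have hxy : φ x = φ y := congrArg Subtype.val h
        apply Quotient.sound'
        show x ∈ orbit (Subgroup.zpowers perm) y
        have : x ∈ Finset.univ.filter (fun z : X => φ z = φ y) := by simp [hxy]
        rw [← hOeq y] at this
        simpa using this
      · rintro ⟨v, hv⟩
        obtain ⟨x, -, rfl⟩ := Finset.mem_image.mp hv
        exact ⟨Quotient.mk'' x, rfl⟩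
    rw [Nat.card_congr (Equiv.ofBijective Φ hΦbij), Nat.card_eq_fintype_card, Fintype.card_coe]
  · intro x
    rw [Nat.card_eq_fintype_card, ← hcardO, hOeq, hfib _ (Finset.mem_image_of_mem φ (Finset.mem_univ x))]
  · rw [hsumeq, ← htot]

end Fermat.Agent.S24.H117

end
end
-- ===== PACK-END S24/H117/OrbitCount.lean

-- ===== PACK-BEGIN S29/H152/DescAut.lean
section
/-
S29 / DESC (helper152) — part 1: automorphisms of an algebraically closed field over an
algebraically closed subfield.  Mathlib-only.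

* `descAut_exists_add_one` : `x` transcendental over `K` in an algebraically closed field `C`
  ⇒ some `σ : C ≃ₐ[K] C` has `σ x = x + 1`.
* `descAut_mem_range_of_fixed` : `K`, `C` algebraically closed, `C` of characteristic zero,
  `H ≤ Aut(C/K)` of finite index, `x` fixed by `H` ⇒ `x ∈ K`.
-/


set_option autoImplicit false

namespace Fermat.Agent.S29.H152

open MvPolynomial

section Shift

variable {K : Type*} [Field K] {ι : Type*} [DecidableEq ι]

/-- The `K`-algebra endomorphism of `K[X_i]` with `X_{i₀} ↦ X_{i₀} + c`, other variables fixed. -/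
noncomputable def descShift (i₀ : ι) (c : K) : MvPolynomial ι K →ₐ[K] MvPolynomial ι K :=
  aeval fun i => if i = i₀ then X i + C c else X i

theorem descShift_X_self (i₀ : ι) (c : K) : descShift i₀ c (X i₀) = X i₀ + C c := by
  simp [descShift]

theorem descShift_X_of_ne (i₀ : ι) (c : K) {i : ι} (h : i ≠ i₀) :
    descShift i₀ c (X i) = X i := by
  simp [descShift, h]

theorem descShift_comp (i₀ : ι) (c d : K) :
    (descShift i₀ c).comp (descShift i₀ d) = descShift i₀ (c + d) := by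
  apply MvPolynomial.algHom_ext
  intro i
  by_cases h : i = i₀
  · subst h
    simp only [AlgHom.comp_apply, descShift_X_self, map_add]
    rw [show (descShift i c) (C d) = C d from (descShift i c).commutes d]
    ring
  · simp only [AlgHom.comp_apply, descShift_X_of_ne _ _ h]

theorem descShift_zero (i₀ : ι) : descShift i₀ (0 : K) = AlgHom.id K _ := by
  apply MvPolynomial.algHom_ext
  intro i
  by_cases h : i = i₀
  · subst h
    simp [descShift_X_self]
  · simp [descShift_X_of_ne _ _ h]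

/-- The shift as an algebra automorphism. -/
noncomputable def descShiftEquiv (i₀ : ι) (c : K) : MvPolynomial ι K ≃ₐ[K] MvPolynomial ι K :=
  AlgEquiv.ofAlgHom (descShift i₀ c) (descShift i₀ (-c))
    (by rw [descShift_comp, add_neg_cancel, descShift_zero])
    (by rw [descShift_comp, neg_add_cancel, descShift_zero])

theorem descShiftEquiv_X_self (i₀ : ι) (c : K) : descShiftEquiv i₀ c (X i₀) = X i₀ + C c :=
  descShift_X_self i₀ c

end Shift

section Aut

variable {K Ω : Type*} [Field K] [Field Ω] [Algebra K Ω] [IsAlgClosed Ω]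

/-- For `x` transcendental over `K` in an algebraically closed field `C`, some `K`-automorphism
of `C` maps `x` to `x + 1`. -/
theorem descAut_exists_add_one (x : Ω) (hx : Transcendental K x) :
    ∃ σ : Ω ≃ₐ[K] Ω, σ x = x + 1 := by
  classical
  have hind : AlgebraicIndepOn K id ({x} : Set Ω) := by
    show AlgebraicIndependent K fun i : ({x} : Set Ω) => id (i : Ω)
    let _ : Unique ({x} : Set Ω) := Set.uniqueSingleton x
    rw [algebraicIndependent_unique_type_iff]
    exact hx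
  obtain ⟨B, hxB, hB⟩ := exists_isTranscendenceBasis_superset hind
  have hxB' : x ∈ B := hxB (Set.mem_singleton x)
  let i₀ : B := ⟨x, hxB'⟩
  -- the subalgebra generated by the basis
  let A := Algebra.adjoin K (Set.range ((↑) : B → Ω))
  have hAC : IsAlgClosure A Ω := IsAlgClosed.isAlgClosure_of_transcendence_basis _ hB
  -- the automorphism of `A`
  let e : A ≃ₐ[K] A := (hB.1.aevalEquiv.symm.trans (descShiftEquiv i₀ 1)).trans hB.1.aevalEquiv
  let σ₀ : Ω ≃+* Ω := IsAlgClosure.equivOfEquiv Ω Ω e.toRingEquiv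
  have hσ₀ : ∀ a : A, σ₀ (algebraMap A Ω a) = algebraMap A Ω (e a) := fun a =>
    IsAlgClosure.equivOfEquiv_algebraMap Ω Ω e.toRingEquiv a
  have hK : ∀ r : K, σ₀ (algebraMap K Ω r) = algebraMap K Ω r := by
    intro r
    have h1 : algebraMap K Ω r = algebraMap A Ω (algebraMap K A r) := rfl
    rw [h1, hσ₀, e.commutes]
  refine ⟨AlgEquiv.ofRingEquiv (f := σ₀) hK, ?_⟩
  show σ₀ x = x + 1
  have hx1 : x = algebraMap A Ω (hB.1.aevalEquiv (X i₀)) := by
    rw [hB.1.algebraMap_aevalEquiv, aeval_X]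
  have he : e (hB.1.aevalEquiv (X i₀)) = hB.1.aevalEquiv (X i₀ + C 1) := by
    show hB.1.aevalEquiv ((descShiftEquiv i₀ 1) (hB.1.aevalEquiv.symm (hB.1.aevalEquiv (X i₀)))) = _
    rw [AlgEquiv.symm_apply_apply, descShiftEquiv_X_self]
  conv_lhs => rw [hx1]
  rw [hσ₀, he, hB.1.algebraMap_aevalEquiv, map_add, aeval_X, aeval_C]
  simp [i₀]

omit [IsAlgClosed Ω] in
/-- Iterating: `σ ^ n` maps `x` to `x + n`. -/
theorem descAut_pow_apply {σ : Ω ≃ₐ[K] Ω} {x : Ω} (h : σ x = x + 1) (n : ℕ) :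
    (σ ^ n) x = x + n := by
  induction n with
  | zero => simp
  | succ n ih =>
    rw [pow_succ', AlgEquiv.mul_apply, ih, map_add, h, map_natCast]
    push_cast
    ring

end Aut

section Fixed

variable {K Ω : Type*} [Field K] [Field Ω] [Algebra K Ω] [IsAlgClosed K] [IsAlgClosed Ω]
  [CharZero Ω]

/-- An element of `C` fixed by a finite-index subgroup of `Aut(C/K)` lies in `K`. -/
theorem descAut_mem_range_of_fixed (H : Subgroup (Ω ≃ₐ[K] Ω)) (hH : H.index ≠ 0) (x : Ω)
    (hx : ∀ σ ∈ H, σ x = x) : x ∈ Set.range (algebraMap K Ω) := by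
  by_contra hxK
  have htr : Transcendental K x := by
    intro halg
    apply hxK
    have hint : IsIntegral K x := halg.isIntegral
    have hdeg : (minpoly K x).degree = 1 :=
      IsAlgClosed.degree_eq_one_of_irreducible K (minpoly.irreducible hint)
    exact minpoly.mem_range_of_degree_eq_one K x hdeg
  obtain ⟨σ, hσ⟩ := descAut_exists_add_one x htr
  obtain ⟨n, hn, -, hmem⟩ := Subgroup.exists_pow_mem_of_index_ne_zero hH σ
  have h1 := hx _ hmem
  rw [descAut_pow_apply hσ] at h1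
  have : (n : Ω) = 0 := by simpa using h1
  exact hn.ne' (by exact_mod_cast this)

end Fixed

end Fermat.Agent.S29.H152

end
-- ===== PACK-END S29/H152/DescAut.lean

-- ===== PACK-BEGIN S29/H152/DescEchelon.lean
section
/-
S29 / DESC (helper152) — part 2: the "echelon" lemma.

A nonzero `C`-subspace `W` of `C((q))` whose nonzero elements have bounded order, stable under a
set `H` of coefficientwise ring endomorphisms, contains a nonzero vector fixed by all of `H`
(the vector of maximal order, normalised to leading coefficient `1`).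
-/



set_option autoImplicit false

namespace Fermat.Agent.S29.H152

open ModularCurve

variable {C : Type*} [Field C]

theorem descEchelon_exists_fixed (W : Submodule C (LaurentSeries C))
    (hW : ∃ v ∈ W, v ≠ 0) (B : ℤ) (hB : ∀ v ∈ W, v ≠ 0 → v.order ≤ B)
    (H : Set (C →+* C)) (hH : ∀ σ ∈ H, ∀ v ∈ W, coeffMap σ v ∈ W) :
    ∃ v ∈ W, v ≠ 0 ∧ ∀ σ ∈ H, coeffMap σ v = v := by
  classical
  -- maximal order
  obtain ⟨s, ⟨v₁, hv₁W, hv₁0, hv₁s⟩, hmax⟩ :=
    Int.exists_greatest_of_bdd (P := fun n : ℤ => ∃ v ∈ W, v ≠ 0 ∧ v.order = n)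
      ⟨B, fun z ⟨v, hvW, hv0, hvz⟩ => hvz ▸ hB v hvW hv0⟩
      (by obtain ⟨v, hvW, hv0⟩ := hW; exact ⟨v.order, v, hvW, hv0, rfl⟩)
  have hc : v₁.coeff s ≠ 0 := by
    rw [← hv₁s]
    exact fun h => hv₁0 (HahnSeries.coeff_order_eq_zero.mp h)
  set v : LaurentSeries C := (v₁.coeff s)⁻¹ • v₁ with hv
  have hvW : v ∈ W := W.smul_mem _ hv₁W
  have hvs : v.coeff s = 1 := by
    rw [hv, HahnSeries.coeff_smul, smul_eq_mul, inv_mul_cancel₀ hc]
  have hvlt : ∀ k < s, v.coeff k = 0 := by
    intro k hk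
    have h0 : v₁.coeff k = 0 := HahnSeries.coeff_eq_zero_of_lt_order (by rw [hv₁s]; exact hk)
    rw [hv, HahnSeries.coeff_smul, h0, smul_zero]
  have hv0 : v ≠ 0 := by
    intro h
    rw [h] at hvs
    simp at hvs
  refine ⟨v, hvW, hv0, fun σ hσ => ?_⟩
  by_contra hne
  have hd0 : coeffMap σ v - v ≠ 0 := sub_ne_zero.mpr hne
  have hdW : coeffMap σ v - v ∈ W := W.sub_mem (hH σ hσ v hvW) hvW
  have hle : (coeffMap σ v - v).order ≤ s := hmax _ ⟨_, hdW, hd0, rfl⟩
  have hcoeff : ∀ k ≤ s, (coeffMap σ v - v).coeff k = 0 := by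
    intro k hk
    rw [HahnSeries.coeff_sub, coeffMap_coeff]
    rcases hk.lt_or_eq with h | h
    · rw [hvlt k h, map_zero, sub_zero]
    · rw [h, hvs, map_one, sub_self]
  exact hd0 (HahnSeries.coeff_order_eq_zero.mp (hcoeff _ hle))

end Fermat.Agent.S29.H152

end
-- ===== PACK-END S29/H152/DescEchelon.lean

-- ===== PACK-BEGIN S29/H32/CoeffDescent.lean
section
/-
S29 row, helper32: descent of the field of constants for subfields of Laurent series.

Setting: `k ⊆ Ω` fields, `F₀ ⊆ ℚ((q))` an intermediate field.  The Prelude field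
`laurentBaseChange Ω F₀ ⊆ Ω((q))` is generated by `Ω` and `F₀`.

Main results (namespace `Fermat.Agent.S29.H32`):
* `exists_of_coeff_mem_range` : an element of `laurentBaseChange Ω F₀` all of whose coefficients
  lie in `k` is the image of an element of `laurentBaseChange k F₀`.
* `coeffMap_mem_laurentBaseChange_of_mem` : `laurentBaseChange k F₀` maps into
  `laurentBaseChange Ω F₀`.
-/



set_option autoImplicit false

namespace Fermat.Agent.S29.H32

open ModularCurve HahnSeries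

section General

variable {k Ω : Type*} [Field k] [Field Ω] [Algebra k Ω]

theorem coeffMap_algebraMap_injective :
    Function.Injective (coeffMap (algebraMap k Ω)) := by
  intro x y h
  ext n
  have := congrArg (fun z => z.coeff n) h
  simp only [coeffMap_coeff] at this
  exact (algebraMap k Ω).injective this

theorem coeff_algebraMap_mul (c : Ω) (z : LaurentSeries Ω) (n : ℤ) :
    (algebraMap Ω (LaurentSeries Ω) c * z).coeff n = c * z.coeff n := by
  rw [algebraMap_laurentSeries_eq_single]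
  simp

/-- The `Ω`-linear combination `∑ βᵢ * ι(gᵢ)` attached to a finitely supported family of Laurent
series over `k`. -/
noncomputable def comb {I : Type*} (β : I → Ω) (g : I →₀ LaurentSeries k) : LaurentSeries Ω :=
  g.sum fun i y => algebraMap Ω (LaurentSeries Ω) (β i) * coeffMap (algebraMap k Ω) y

theorem comb_zero {I : Type*} (β : I → Ω) : comb β (0 : I →₀ LaurentSeries k) = 0 := by
  simp [comb]

theorem comb_add {I : Type*} (β : I → Ω) (g h : I →₀ LaurentSeries k) :
    comb β (g + h) = comb β g + comb β h := by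
  classical
  unfold comb
  apply Finsupp.sum_add_index'
  · intro i; simp
  · intro i y z; simp [mul_add]

theorem comb_single {I : Type*} (β : I → Ω) (i : I) (y : LaurentSeries k) :
    comb β (Finsupp.single i y)
      = algebraMap Ω (LaurentSeries Ω) (β i) * coeffMap (algebraMap k Ω) y := by
  unfold comb
  rw [Finsupp.sum_single_index]
  simp

theorem comb_coeff {I : Type*} (β : I → Ω) (g : I →₀ LaurentSeries k) (n : ℤ) :
    (comb β g).coeff n = g.sum fun i y => algebraMap k Ω (y.coeff n) * β i := by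
  classical
  induction g using Finsupp.induction with
  | zero => simp [comb]
  | single_add i y g hi hy ih =>
    rw [comb_add, HahnSeries.coeff_add, ih, comb_single,
      Finsupp.sum_add_index' (by intro i; simp) (by intro i y z; simp [add_mul]),
      Finsupp.sum_single_index (by simp), coeff_algebraMap_mul, coeffMap_coeff, mul_comm]

/-- Left multiplication by a Laurent series over `k`, coordinatewise. -/
noncomputable def mulLeft {I : Type*} (x : LaurentSeries k) (g : I →₀ LaurentSeries k) :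
    I →₀ LaurentSeries k :=
  g.mapRange (fun y => x * y) (mul_zero x)

theorem comb_mulLeft {I : Type*} (β : I → Ω) (x : LaurentSeries k) (g : I →₀ LaurentSeries k) :
    comb β (mulLeft x g) = coeffMap (algebraMap k Ω) x * comb β g := by
  classical
  induction g using Finsupp.induction with
  | zero => simp [comb, mulLeft]
  | single_add i y g hi hy ih =>
    have h1 : mulLeft x (Finsupp.single i y + g) = Finsupp.single i (x * y) + mulLeft x g := by
      unfold mulLeft
      rw [Finsupp.mapRange_add (by intro a b; exact mul_add x a b), Finsupp.mapRange_single]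
    rw [h1, comb_add, comb_add, ih, comb_single, comb_single, map_mul, mul_add]
    congr 1
    ring

/-- Linear independence: if the `βᵢ` are `k`-linearly independent then `comb β` is injective. -/
theorem eq_zero_of_comb_eq_zero {I : Type*} {β : I → Ω} (hβ : LinearIndependent k β)
    (g : I →₀ LaurentSeries k) (h : comb β g = 0) : g = 0 := by
  classical
  ext i n
  have hn : (comb β g).coeff n = 0 := by rw [h]; rfl
  rw [comb_coeff] at hn
  let c : I →₀ k := g.mapRange (fun y => y.coeff n) rfl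
  have hc : Finsupp.linearCombination k β c = 0 := by
    rw [Finsupp.linearCombination_apply]
    rw [Finsupp.sum_mapRange_index (by intro i; simp)]
    rw [← hn]
    apply Finsupp.sum_congr
    intro j _
    rw [Algebra.smul_def]
  have := (linearIndependent_iff.mp hβ) c hc
  have hci : c i = 0 := by rw [this]; rfl
  simpa [c] using hci

end General

section BaseChange

variable {k Ω : Type*} [Field k] [Field Ω] [Algebra k Ω]

theorem coeffMap_algebraMap_up (c : k) :
    coeffMap (algebraMap k Ω) (algebraMap k (LaurentSeries k) c)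
      = algebraMap Ω (LaurentSeries Ω) (algebraMap k Ω c) := by
  rw [algebraMap_laurentSeries_eq_single, algebraMap_laurentSeries_eq_single, coeffMap_single]

variable [Algebra ℚ k] [Algebra ℚ Ω] [IsScalarTower ℚ k Ω]
variable (F₀ : IntermediateField ℚ (LaurentSeries ℚ))

theorem coeffMap_coeffEmb_up (x : LaurentSeries ℚ) :
    coeffMap (algebraMap k Ω) (coeffEmb k x) = coeffEmb Ω x := by
  rw [coeffEmb, coeffEmb, coeffMap_coeffMap]
  exact coeffMap_congr (IsScalarTower.algebraMap_eq ℚ k Ω).symm x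

/-- `laurentBaseChange k F₀` maps into `laurentBaseChange Ω F₀`. -/
theorem coeffMap_mem_laurentBaseChange_of_mem {x : LaurentSeries k}
    (hx : x ∈ laurentBaseChange k F₀) :
    coeffMap (algebraMap k Ω) x ∈ laurentBaseChange Ω F₀ := by
  rw [mem_laurentBaseChange_iff] at hx
  induction hx using Subfield.closure_induction with
  | mem y hy =>
      rcases hy with ⟨a, rfl⟩ | ⟨z, hz, rfl⟩
      · rw [coeffMap_algebraMap_up]
        exact (laurentBaseChange Ω F₀).algebraMap_mem _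
      · rw [coeffMap_coeffEmb_up]
        exact coeffEmb_mem_laurentBaseChange Ω hz
  | one => simp
  | add x y _ _ hx hy => simpa using add_mem hx hy
  | neg x _ hx => simpa using neg_mem hx
  | inv x _ hx => simpa using inv_mem hx
  | mul x y _ _ hx hy => simpa using mul_mem hx hy

/-- The generating set of `laurentBaseChange Ω F₀` is multiplicatively closed, so the generated
subalgebra is just the `Ω`-span. -/
theorem adjoin_le_span :
    (Algebra.adjoin Ω (⇑(coeffEmb Ω) '' (F₀ : Set (LaurentSeries ℚ)))).toSubmodule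
      ≤ @Submodule.span Ω (LaurentSeries Ω) _ _ Algebra.toModule
          (⇑(coeffEmb Ω) '' (F₀ : Set (LaurentSeries ℚ))) := by
  rw [Algebra.adjoin_eq_span]
  have h : ((Submonoid.closure (⇑(coeffEmb Ω) '' (F₀ : Set (LaurentSeries ℚ))) :
      Submonoid (LaurentSeries Ω)) : Set (LaurentSeries Ω))
      ⊆ (⇑(coeffEmb Ω) '' (F₀ : Set (LaurentSeries ℚ))) := by
    have : (⇑(coeffEmb Ω) '' (F₀ : Set (LaurentSeries ℚ)))
        = ((F₀.toSubfield.toSubring.toSubmonoid.map (coeffEmb Ω : LaurentSeries ℚ →* _) :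
            Submonoid (LaurentSeries Ω)) : Set (LaurentSeries Ω)) := by
      ext z
      simp
    rw [this, Submonoid.closure_eq]
  exact @Submodule.span_mono Ω (LaurentSeries Ω) _ _ Algebra.toModule _ _ h

/-- Every element of the `Ω`-span of `F₀` is a combination `∑ βᵢ * ι(gᵢ)` with
`gᵢ ∈ laurentBaseChange k F₀`, for any `k`-basis `β` of `Ω`. -/
theorem exists_comb_of_mem_span {I : Type*} (β : Module.Basis I k Ω) {a : LaurentSeries Ω}
    (ha : a ∈ Algebra.adjoin Ω (⇑(coeffEmb Ω) '' (F₀ : Set (LaurentSeries ℚ)))) :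
    ∃ g : I →₀ LaurentSeries k, (∀ i, g i ∈ laurentBaseChange k F₀) ∧ a = comb (⇑β) g := by
  classical
  -- auxiliary: `ω * ι(y)` for `y ∈ laurentBaseChange k F₀`
  have key : ∀ (ω : Ω) (y : LaurentSeries k), y ∈ laurentBaseChange k F₀ →
      ∃ g : I →₀ LaurentSeries k, (∀ i, g i ∈ laurentBaseChange k F₀) ∧
        algebraMap Ω (LaurentSeries Ω) ω * coeffMap (algebraMap k Ω) y = comb (⇑β) g := by
    intro ω y hy
    refine ⟨(β.repr ω).mapRange (fun c => algebraMap k (LaurentSeries k) c * y) (by simp),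
      fun i => ?_, ?_⟩
    · rw [Finsupp.mapRange_apply]
      exact mul_mem ((laurentBaseChange k F₀).algebraMap_mem _) hy
    · unfold comb
      rw [Finsupp.sum_mapRange_index (by intro i; simp)]
      conv_lhs => rw [← β.linearCombination_repr ω, Finsupp.linearCombination_apply]
      rw [Finsupp.sum, map_sum, Finset.sum_mul, Finsupp.sum]
      apply Finset.sum_congr rfl
      intro i _
      rw [map_mul, coeffMap_algebraMap_up, Algebra.smul_def (β.repr ω i) (β i), map_mul]
      ring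
  have ha' := adjoin_le_span (Ω := Ω) F₀ ha
  clear ha
  induction ha' using Submodule.span_induction with
  | mem x hx =>
      obtain ⟨f, hf, rfl⟩ := hx
      obtain ⟨g, hg, hge⟩ := key 1 (coeffEmb k f) (coeffEmb_mem_laurentBaseChange k hf)
      refine ⟨g, hg, ?_⟩
      rw [← hge, map_one, one_mul, coeffMap_coeffEmb_up]
  | zero => exact ⟨0, fun i => by simp, (comb_zero _).symm⟩
  | add x y _ _ hx hy =>
      obtain ⟨g, hg, rfl⟩ := hx
      obtain ⟨h, hh, rfl⟩ := hy
      exact ⟨g + h, fun i => by rw [Finsupp.add_apply]; exact add_mem (hg i) (hh i),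
        (comb_add _ g h).symm⟩
  | smul ω x _ hx =>
      obtain ⟨g, hg, rfl⟩ := hx
      rw [Algebra.smul_def]
      -- induct on `g`
      clear ‹_›
      induction g using Finsupp.induction with
      | zero => exact ⟨0, fun i => by simp, by rw [comb_zero, mul_zero]⟩
      | single_add i y g hi hy ih =>
          have hyi : y ∈ laurentBaseChange k F₀ := by
            have := hg i
            rwa [Finsupp.add_apply, Finsupp.single_eq_same,
              Finsupp.notMem_support_iff.mp hi, add_zero] at this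
          have hg' : ∀ j, g j ∈ laurentBaseChange k F₀ := by
            intro j
            by_cases hj : j = i
            · subst hj
              rw [Finsupp.notMem_support_iff.mp hi]
              exact zero_mem _
            · have := hg j
              rwa [Finsupp.add_apply, Finsupp.single_eq_of_ne hj, zero_add] at this
          obtain ⟨g₁, hg₁, e₁⟩ := key (ω * β i) y hyi
          obtain ⟨g₂, hg₂, e₂⟩ := ih hg'
          refine ⟨g₁ + g₂, fun j => by rw [Finsupp.add_apply]; exact add_mem (hg₁ j) (hg₂ j), ?_⟩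
          rw [comb_add, comb_add, mul_add, ← e₁, ← e₂, comb_single, map_mul, mul_assoc]

omit [Algebra ℚ k] [Algebra ℚ Ω] [IsScalarTower ℚ k Ω] in
/-- Lift of a Laurent series over `Ω` with coefficients in `k` to a Laurent series over `k`. -/
noncomputable def coeffDown (x : LaurentSeries Ω) : LaurentSeries k :=
  x.map (⟨Function.invFun (algebraMap k Ω), by
    have h := Function.leftInverse_invFun (algebraMap k Ω).injective (0 : k)
    rwa [map_zero] at h⟩ : ZeroHom Ω k)

omit [Algebra ℚ k] [Algebra ℚ Ω] [IsScalarTower ℚ k Ω] in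
theorem coeffMap_coeffDown {x : LaurentSeries Ω}
    (hx : ∀ n, x.coeff n ∈ Set.range (algebraMap k Ω)) :
    coeffMap (algebraMap k Ω) (coeffDown (k := k) x) = x := by
  ext n
  obtain ⟨c, hc⟩ := hx n
  simp only [coeffMap_coeff, coeffDown, HahnSeries.map_coeff, ZeroHom.coe_mk]
  rw [← hc, Function.leftInverse_invFun (algebraMap k Ω).injective c]

/-- **Descent of constants.**  An element of `laurentBaseChange Ω F₀` whose coefficients all lie
in `k` comes from `laurentBaseChange k F₀`. -/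
theorem exists_of_coeff_mem_range {x : LaurentSeries Ω} (hx : x ∈ laurentBaseChange Ω F₀)
    (hcoeff : ∀ n, x.coeff n ∈ Set.range (algebraMap k Ω)) :
    ∃ y ∈ laurentBaseChange k F₀, coeffMap (algebraMap k Ω) y = x := by
  classical
  let β := Module.Basis.ofVectorSpace k Ω
  refine ⟨coeffDown x, ?_, coeffMap_coeffDown hcoeff⟩
  set x₀ : LaurentSeries k := coeffDown x with hx₀
  have hx₀x : coeffMap (algebraMap k Ω) x₀ = x := coeffMap_coeffDown hcoeff
  obtain ⟨r, hr, s, hs, hxrs⟩ := IntermediateField.mem_adjoin_iff_div.mp hx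
  obtain ⟨gr, hgr, rfl⟩ := exists_comb_of_mem_span F₀ β hr
  obtain ⟨gs, hgs, rfl⟩ := exists_comb_of_mem_span F₀ β hs
  by_cases hs0 : comb (⇑β) gs = 0
  · -- then `x = 0`
    have hx0 : x = 0 := by rw [hxrs, hs0, div_zero]
    have : x₀ = 0 := by
      apply coeffMap_algebraMap_injective (Ω := Ω)
      rw [hx₀x, hx0, map_zero]
    rw [this]
    exact zero_mem _
  · have hmul : coeffMap (algebraMap k Ω) x₀ * comb (⇑β) gs = comb (⇑β) gr := by
      rw [hx₀x, hxrs, div_mul_cancel₀ _ hs0]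
    rw [← comb_mulLeft] at hmul
    have hgs0 : gs ≠ 0 := by
      rintro rfl
      exact hs0 (comb_zero _)
    obtain ⟨i, hi⟩ := Finsupp.ne_iff.mp hgs0
    have hsub : comb (⇑β) (mulLeft x₀ gs - gr) = 0 := by
      have := comb_add (⇑β) (mulLeft x₀ gs - gr) gr
      rw [sub_add_cancel, hmul] at this
      exact (add_eq_right.mp this.symm)
    have hz := eq_zero_of_comb_eq_zero β.linearIndependent _ hsub
    have hi' : x₀ * gs i = gr i := by
      have := congrArg (fun g => g i) hz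
      simp only [Finsupp.sub_apply, Finsupp.zero_apply, mulLeft, Finsupp.mapRange_apply] at this
      exact sub_eq_zero.mp this
    have hgsi : gs i ≠ 0 := by simpa using hi
    have : x₀ = gr i / gs i := by
      rw [eq_div_iff hgsi, hi']
    rw [this]
    exact div_mem (hgr i) (hgs i)

end BaseChange

end Fermat.Agent.S29.H32

end
-- ===== PACK-END S29/H32/CoeffDescent.lean

-- ===== PACK-BEGIN S29/H201/Transfer.lean
section





/-!
# S29 / P5-E2 (helper201) — the Hecke operator `T_p` on `Hom(Γ₀(N), A)` (transfer formula)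

For a prime `p ∤ N`, the Prelude's coset representatives `heckeRep p x`
(`x : OnePoint (ZMod p)`, i.e. `(1 j; 0 p)` and `(p 0; 0 1)`) satisfy
`heckeRep p x * γ = t * heckeRep p (redMatrix p γ • x)` with a unique `t ∈ Γ₀(N)`
(`heckeRep_mul` of the Prelude).  We call it `trf hpN γ x` and define
`(heckeHom p hpN A φ) γ = ∑ x, φ (trf hpN γ x)`.
-/

set_option autoImplicit false

open CongruenceSubgroup Matrix.SpecialLinearGroup
open scoped MatrixGroups
open P2MW.S_ModularForm_heckeT_slash_eq_self_of_mem_Gamma0.ModularForm.HeckeSlashInvariance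

namespace Fermat.Agent.S29.H201

variable {N : ℕ} {p : ℕ} [Fact p.Prime]

theorem dvd_of_mem_Gamma0 (γ : Gamma0 N) : (N : ℤ) ∣ (γ : SL(2, ℤ)) 1 0 :=
  (ZMod.intCast_zmod_eq_zero_iff_dvd _ _).mp (Gamma0_mem.mp γ.2)

theorem exists_trf (hpN : ¬ p ∣ N) (γ : Gamma0 N) (x : OnePoint (ZMod p)) :
    ∃ t : Gamma0 N, _root_.P2MW.S_ModularForm_heckeT_slash_eq_self_of_mem_Gamma0.ModularForm.HeckeSlashInvariance.heckeRep p x * mapGL ℝ (γ : SL(2, ℤ))
      = mapGL ℝ (t : SL(2, ℤ)) * _root_.P2MW.S_ModularForm_heckeT_slash_eq_self_of_mem_Gamma0.ModularForm.HeckeSlashInvariance.heckeRep p (redMatrix p (γ : SL(2, ℤ)) • x) := by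
  obtain ⟨g', hg', h⟩ := heckeRep_mul hpN (γ : SL(2, ℤ)) (dvd_of_mem_Gamma0 γ) x
  exact ⟨⟨g', Gamma0_mem.mpr ((ZMod.intCast_zmod_eq_zero_iff_dvd _ _).mpr hg')⟩, h⟩

/-- The transfer element: `heckeRep p x * γ = trf γ x * heckeRep p (redMatrix p γ • x)`. -/
noncomputable def trf (hpN : ¬ p ∣ N) (γ : Gamma0 N) (x : OnePoint (ZMod p)) : Gamma0 N :=
  (exists_trf hpN γ x).choose

theorem trf_spec (hpN : ¬ p ∣ N) (γ : Gamma0 N) (x : OnePoint (ZMod p)) :
    _root_.P2MW.S_ModularForm_heckeT_slash_eq_self_of_mem_Gamma0.ModularForm.HeckeSlashInvariance.heckeRep p x * mapGL ℝ (γ : SL(2, ℤ))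
      = mapGL ℝ ((trf hpN γ x : Gamma0 N) : SL(2, ℤ))
        * _root_.P2MW.S_ModularForm_heckeT_slash_eq_self_of_mem_Gamma0.ModularForm.HeckeSlashInvariance.heckeRep p (redMatrix p (γ : SL(2, ℤ)) • x) :=
  (exists_trf hpN γ x).choose_spec

theorem trf_unique (hpN : ¬ p ∣ N) (γ t : Gamma0 N) (x : OnePoint (ZMod p))
    (h : _root_.P2MW.S_ModularForm_heckeT_slash_eq_self_of_mem_Gamma0.ModularForm.HeckeSlashInvariance.heckeRep p x * mapGL ℝ (γ : SL(2, ℤ))
      = mapGL ℝ (t : SL(2, ℤ)) * _root_.P2MW.S_ModularForm_heckeT_slash_eq_self_of_mem_Gamma0.ModularForm.HeckeSlashInvariance.heckeRep p (redMatrix p (γ : SL(2, ℤ)) • x)) :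
    t = trf hpN γ x := by
  have h2 := trf_spec hpN γ x
  rw [h] at h2
  have h3 := mul_right_cancel h2
  exact Subtype.ext (mapGL_injective h3)

theorem redMatrix_mul (g g' : SL(2, ℤ)) :
    redMatrix p (g * g') = redMatrix p g' * redMatrix p g := by
  apply Matrix.GeneralLinearGroup.ext
  intro i j
  rw [Matrix.GeneralLinearGroup.coe_mul]
  fin_cases i <;> fin_cases j <;>
    simp [redMatrix, Matrix.mul_apply, Fin.sum_univ_two] <;> ring

theorem redMatrix_one : redMatrix p (1 : SL(2, ℤ)) = 1 := by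
  apply Matrix.GeneralLinearGroup.ext
  intro i j
  fin_cases i <;> fin_cases j <;> simp [redMatrix]

theorem trf_one (hpN : ¬ p ∣ N) (x : OnePoint (ZMod p)) : trf hpN (1 : Gamma0 N) x = 1 := by
  symm
  apply trf_unique
  simp [redMatrix_one]

theorem trf_mul (hpN : ¬ p ∣ N) (γ γ' : Gamma0 N) (x : OnePoint (ZMod p)) :
    trf hpN (γ * γ') x
      = trf hpN γ x * trf hpN γ' (redMatrix p (γ : SL(2, ℤ)) • x) := by
  symm
  apply trf_unique
  have h1 := trf_spec hpN γ x
  have h2 := trf_spec hpN γ' (redMatrix p (γ : SL(2, ℤ)) • x)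
  calc _root_.P2MW.S_ModularForm_heckeT_slash_eq_self_of_mem_Gamma0.ModularForm.HeckeSlashInvariance.heckeRep p x * mapGL ℝ ((γ * γ' : Gamma0 N) : SL(2, ℤ))
      = (_root_.P2MW.S_ModularForm_heckeT_slash_eq_self_of_mem_Gamma0.ModularForm.HeckeSlashInvariance.heckeRep p x * mapGL ℝ (γ : SL(2, ℤ))) * mapGL ℝ (γ' : SL(2, ℤ)) := by
        rw [Subgroup.coe_mul, map_mul, mul_assoc]
    _ = mapGL ℝ ((trf hpN γ x : Gamma0 N) : SL(2, ℤ)) *
          (_root_.P2MW.S_ModularForm_heckeT_slash_eq_self_of_mem_Gamma0.ModularForm.HeckeSlashInvariance.heckeRep p (redMatrix p (γ : SL(2, ℤ)) • x) * mapGL ℝ (γ' : SL(2, ℤ))) := by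
        rw [h1, mul_assoc]
    _ = mapGL ℝ ((trf hpN γ x : Gamma0 N) : SL(2, ℤ)) *
          (mapGL ℝ ((trf hpN γ' (redMatrix p (γ : SL(2, ℤ)) • x) : Gamma0 N) : SL(2, ℤ)) *
            _root_.P2MW.S_ModularForm_heckeT_slash_eq_self_of_mem_Gamma0.ModularForm.HeckeSlashInvariance.heckeRep p (redMatrix p (γ' : SL(2, ℤ)) • redMatrix p (γ : SL(2, ℤ)) • x)) := by
        rw [h2]
    _ = _ := by
        rw [Subgroup.coe_mul, map_mul, Subgroup.coe_mul, redMatrix_mul, mul_smul, mul_assoc]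

instance instNeZeroOfFactPrime : NeZero p := ⟨(Fact.out : p.Prime).ne_zero⟩

/-- The permutation of `ℙ¹(𝔽_p)` induced by `γ` (a right action). -/
noncomputable def permOf (γ : Gamma0 N) : Equiv.Perm (OnePoint (ZMod p)) :=
  MulAction.toPerm (redMatrix p (γ : SL(2, ℤ)))

theorem permOf_apply (γ : Gamma0 N) (x : OnePoint (ZMod p)) :
    permOf γ x = redMatrix p (γ : SL(2, ℤ)) • x := rfl

/-- The Hecke operator `T_p` on `Hom(Γ₀(N), A)` defined by the transfer formula. -/
noncomputable def heckeHom (p : ℕ) [Fact p.Prime] (hpN : ¬ p ∣ N) (A : Type*) [AddCommGroup A] :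
    (Additive (Gamma0 N) →+ A) →+ (Additive (Gamma0 N) →+ A) where
  toFun φ :=
    { toFun := fun γ => ∑ x : OnePoint (ZMod p), φ (Additive.ofMul (trf hpN (Additive.toMul γ) x))
      map_zero' := by
        show ∑ x : OnePoint (ZMod p), φ (Additive.ofMul (trf hpN (1 : Gamma0 N) x)) = 0
        simp [trf_one]
      map_add' := fun γ γ' => by
        show ∑ x : OnePoint (ZMod p),
            φ (Additive.ofMul (trf hpN (Additive.toMul γ * Additive.toMul γ') x)) = _
        simp only [trf_mul, ofMul_mul, map_add, Finset.sum_add_distrib]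
        congr 1
        exact Equiv.sum_comp (permOf (Additive.toMul γ))
          (fun y => φ (Additive.ofMul (trf hpN (Additive.toMul γ') y))) }
  map_zero' := by
    ext γ
    simp
  map_add' φ ψ := by
    ext γ
    simp [Finset.sum_add_distrib]

theorem heckeHom_apply (hpN : ¬ p ∣ N) {A : Type*} [AddCommGroup A]
    (φ : Additive (Gamma0 N) →+ A) (γ : Gamma0 N) :
    heckeHom p hpN A φ (Additive.ofMul γ)
      = ∑ x : OnePoint (ZMod p), φ (Additive.ofMul (trf hpN γ x)) := rfl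

/-- Functoriality of `heckeHom` in the coefficient group. -/
theorem heckeHom_comp (hpN : ¬ p ∣ N) {A B : Type*} [AddCommGroup A] [AddCommGroup B]
    (u : A →+ B) (φ : Additive (Gamma0 N) →+ A) :
    heckeHom p hpN B (u.comp φ) = u.comp (heckeHom p hpN A φ) := by
  ext γ
  show ∑ x : OnePoint (ZMod p), u (φ _) = u (∑ x : OnePoint (ZMod p), φ _)
  rw [map_sum]

end Fermat.Agent.S29.H201

end
-- ===== PACK-END S29/H201/Transfer.lean

-- ===== PACK-BEGIN S18/Spec.lean
section



/-!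
# S18 — frozen interfaces of the row (row-lead helper18)

`F  := modularFunctionFieldBar N ⊆ Q̄((q))`, `F_k := modularFunctionFieldFullC k N ⊆ k((q))`,
`A ⊆ Q̄` a valuation subring over `ℓ`, `k := A/𝔪`.

* `CoreStatement N A m` : the Kummer-type core (no places of `F_k`, no reduction map `r`).
* `StepAStatement`     : S18 for `(N, A, m)` follows from `CoreStatement N A m` (Prelude unfolding).
-/

set_option autoImplicit false

noncomputable section

namespace Fermat.Agent.S18

open ModularCurve AlgebraicCurve HahnSeries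

/-- The field `Q̄`. -/
abbrev Qb : Type := AlgebraicClosure ℚ

/-- `IsInt A N U`: the series `U ∈ A((q))` lies in `F_N` (after `A ⊆ Q̄`) and its coefficientwise
reduction lies in `F_{N,k}` and is nonzero.  (`O_int ∖ 𝔪` of the plan.) -/
def IsInt (A : ValuationSubring Qb) (N : ℕ) (U : LaurentSeries A) : Prop :=
  coeffMap A.subtype U ∈ modularFunctionFieldBar N ∧
    coeffMap (IsLocalRing.residue A) U ∈
      modularFunctionFieldFullC (IsLocalRing.ResidueField A) N ∧
    coeffMap (IsLocalRing.residue A) U ≠ 0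

/-- The element of `F_N` given by an integral series. -/
def toF {A : ValuationSubring Qb} {N : ℕ} {U : LaurentSeries A} (hU : IsInt A N U) :
    modularFunctionFieldBar N :=
  ⟨coeffMap A.subtype U, hU.1⟩

/-- CORE(N, A, m): two integral series with the same nonzero reduction whose quotient has a
divisor divisible by `m` differ by a constant times an `m`-th power in `F_N`. -/
def CoreStatement (N : ℕ) (A : ValuationSubring Qb) (m : ℕ) : Prop :=
  ∀ (U₁ U₂ : LaurentSeries A) (h₁ : IsInt A N U₁) (h₂ : IsInt A N U₂),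
    coeffMap (IsLocalRing.residue A) U₁ = coeffMap (IsLocalRing.residue A) U₂ →
    (∀ v : Place Qb (modularFunctionFieldBar N),
      (m : ℤ) ∣ v.ord (toF h₁) - v.ord (toF h₂)) →
    ∃ (c : Qb) (y : modularFunctionFieldBar N), c ≠ 0 ∧ y ≠ 0 ∧
      toF h₁ = algebraMap Qb (modularFunctionFieldBar N) c * y ^ m * toF h₂

/-- Step A (Prelude unfolding): S18 at `(N, A, m)` from CORE at `(N, A, m)`.
Uses the hypothesis `h` (place reduction `r` with (i),(ii) and PGI (iii)). -/
def StepAStatement (N : ℕ) [NeZero N] (A : ValuationSubring Qb) (m : ℕ) : Prop :=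
  CoreStatement N A m →
    ∀ (_h : ModularCurve.ReductionInputsModL A N) (z : ModularCurve.JZero N),
      m • z = 0 → ModularCurve.reductionModL A N z = 0 → z = 0

end Fermat.Agent.S18

end
end
-- ===== PACK-END S18/Spec.lean

-- ===== PACK-BEGIN S37/H340/KronBasic.lean
section




/-!
# S37 / R3-K : the formal Kronecker polynomial (helper340)

For a commutative ring `R`, `ℓ ≥ 1` and a Laurent series `f = ∑ aₙ qⁿ`, the ring `R((q))` is
free of rank `ℓ` over its subring `V (R((q))) = R((q^ℓ))` (`V = qExpand R ℓ`), with basis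
`1, q, …, q^(ℓ-1)`.  `kronMat ℓ f` is the matrix of multiplication by `f` in this basis and
`kron ℓ f` its characteristic polynomial ("`∏_b (Y - f(ζ^b q^{1/ℓ}))`").

Main statements of this file
* `decomp` : `g = ∑ i, q^i * V (sect ℓ i g)`;
* `single_mul_eq_sum` : `q^j * f = ∑ i, q^i * V (kronMat ℓ f i j)`;
* `kron_monic`, `kron_natDegree`;
* `kron_map` : compatibility with `coeffMap`;
* `kron_eval₂_self` : `(kron ℓ f).eval₂ V f = 0` (Cayley–Hamilton form).
-/

set_option autoImplicit false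

noncomputable section

namespace Fermat.Agent.S37.H340

open ModularCurve HahnSeries Polynomial Matrix

variable {R : Type*} [CommRing R] (ℓ : ℕ) [NeZero ℓ]

omit [NeZero ℓ] in
lemma exists_coeff_eq_zero_of_lt (f : LaurentSeries R) : ∃ b : ℤ, ∀ m < b, f.coeff m = 0 := by
  by_cases hf : f = 0
  · exact ⟨0, fun m _ => by simp [hf]⟩
  · exact ⟨f.order, fun m hm => HahnSeries.coeff_eq_zero_of_lt_order hm⟩

lemma sect_bdd (i : ℤ) (f : LaurentSeries R) :
    BddBelow (Function.support fun n : ℤ => f.coeff ((ℓ : ℤ) * n + i)) := by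
  have hℓ : (1 : ℤ) ≤ ℓ := by exact_mod_cast Nat.pos_of_ne_zero (NeZero.ne ℓ)
  obtain ⟨b, hb⟩ := exists_coeff_eq_zero_of_lt f
  refine ⟨min 0 (b - i), fun m hm => ?_⟩
  by_contra hlt
  rw [not_le] at hlt
  refine hm (hb _ ?_)
  have h0 : m < 0 := lt_of_lt_of_le hlt (min_le_left _ _)
  have h1 : m < b - i := lt_of_lt_of_le hlt (min_le_right _ _)
  nlinarith

/-- The `i`-th section: `sect ℓ i f = ∑ₙ f.coeff (ℓ n + i) qⁿ`. -/
def sect (i : ℤ) (f : LaurentSeries R) : LaurentSeries R :=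
  HahnSeries.ofSuppBddBelow (fun n : ℤ => f.coeff ((ℓ : ℤ) * n + i)) (sect_bdd ℓ i f)

@[simp]
lemma sect_coeff (i : ℤ) (f : LaurentSeries R) (n : ℤ) :
    (sect ℓ i f).coeff n = f.coeff ((ℓ : ℤ) * n + i) := by
  simp [sect]

/-- the variable `q` -/
def qq : LaurentSeries R := HahnSeries.single (1 : ℤ) (1 : R)

omit [NeZero ℓ] in
lemma qq_pow (n : ℕ) : (qq : LaurentSeries R) ^ n = HahnSeries.single (n : ℤ) (1 : R) := by
  rw [qq, HahnSeries.single_pow, one_pow]
  simp

omit [NeZero ℓ] in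
lemma coeff_qq_pow_mul (n : ℕ) (g : LaurentSeries R) (k : ℤ) :
    ((qq : LaurentSeries R) ^ n * g).coeff k = g.coeff (k - n) := by
  rw [qq_pow, HahnSeries.coeff_single_mul, one_mul]

lemma qExpand_coeff (g : LaurentSeries R) (k : ℤ) :
    (qExpand R ℓ g).coeff k = if (ℓ : ℤ) ∣ k then g.coeff (k / ℓ) else 0 := by
  have hℓ : (ℓ : ℤ) ≠ 0 := by exact_mod_cast NeZero.ne ℓ
  split_ifs with h
  · obtain ⟨m, rfl⟩ := h
    rw [qExpand_coeff_mul, Int.mul_ediv_cancel_left _ hℓ]
  · exact qExpand_coeff_of_not_dvd ℓ g h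

/-- **Decomposition** of a Laurent series along the basis `1, q, …, q^(ℓ-1)` of `R((q))` over
`R((q^ℓ))`. -/
theorem decomp (g : LaurentSeries R) :
    g = ∑ i : Fin ℓ, (qq : LaurentSeries R) ^ (i : ℕ) * qExpand R ℓ (sect ℓ (i : ℕ) g) := by
  have hℓ : (0 : ℤ) < ℓ := by exact_mod_cast Nat.pos_of_ne_zero (NeZero.ne ℓ)
  ext k
  rw [HahnSeries.coeff_sum]
  simp only [coeff_qq_pow_mul, qExpand_coeff, sect_coeff]
  -- the unique index `i ≡ k mod ℓ`
  have hr0 : 0 ≤ k % (ℓ : ℤ) := Int.emod_nonneg _ hℓ.ne'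
  have hr1 : k % (ℓ : ℤ) < ℓ := Int.emod_lt_of_pos _ hℓ
  set r : ℕ := (k % (ℓ : ℤ)).toNat with hr
  have hrk : (r : ℤ) = k % (ℓ : ℤ) := Int.toNat_of_nonneg hr0
  have hrlt : r < ℓ := by
    have : (r : ℤ) < ℓ := hrk ▸ hr1
    exact_mod_cast this
  rw [Finset.sum_eq_single (⟨r, hrlt⟩ : Fin ℓ)]
  · have hdvd : (ℓ : ℤ) ∣ k - (r : ℤ) := by
      rw [hrk]; exact Int.dvd_self_sub_emod
    simp only [hdvd, if_true]
    congr 1
    rw [Int.mul_ediv_cancel' hdvd]; ring
  · intro i _ hi
    rw [if_neg]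
    intro hdvd
    apply hi
    ext
    simp only
    have h1 : (ℓ : ℤ) ∣ (i : ℕ) - (r : ℤ) := by
      have h2 : (ℓ : ℤ) ∣ k - (r : ℤ) := by rw [hrk]; exact Int.dvd_self_sub_emod
      have := dvd_sub h2 hdvd
      simpa using this
    have hi1 : ((i : ℕ) : ℤ) < ℓ := by exact_mod_cast i.2
    have hi0 : (0 : ℤ) ≤ ((i : ℕ) : ℤ) := Int.natCast_nonneg _
    have hr0' : (0 : ℤ) ≤ (r : ℤ) := Int.natCast_nonneg _
    have hr1' : (r : ℤ) < ℓ := by exact_mod_cast hrlt
    obtain ⟨c, hc⟩ := h1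
    have hc0 : c = 0 := by
      by_contra hne
      rcases lt_or_gt_of_ne hne with h | h
      · have : (ℓ : ℤ) * c ≤ -ℓ := by nlinarith
        omega
      · have : (ℓ : ℤ) ≤ (ℓ : ℤ) * c := by nlinarith
        omega
    rw [hc0, mul_zero] at hc
    omega
  · intro h; exact absurd (Finset.mem_univ _) h

/-- The matrix of multiplication by `f` in the basis `1, q, …, q^(ℓ-1)`. -/
def kronMat (f : LaurentSeries R) : Matrix (Fin ℓ) (Fin ℓ) (LaurentSeries R) :=
  Matrix.of fun i j => sect ℓ ((i : ℕ) - (j : ℕ) : ℤ) f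

@[simp]
lemma kronMat_apply (f : LaurentSeries R) (i j : Fin ℓ) :
    kronMat ℓ f i j = sect ℓ ((i : ℕ) - (j : ℕ) : ℤ) f := rfl

/-- `q^j * f = ∑ i, q^i * V (M i j)`. -/
theorem qq_pow_mul_eq_sum (f : LaurentSeries R) (j : Fin ℓ) :
    (qq : LaurentSeries R) ^ (j : ℕ) * f =
      ∑ i : Fin ℓ, (qq : LaurentSeries R) ^ (i : ℕ) * qExpand R ℓ (kronMat ℓ f i j) := by
  conv_lhs => rw [decomp ℓ ((qq : LaurentSeries R) ^ (j : ℕ) * f)]
  refine Finset.sum_congr rfl fun i _ => ?_
  congr 2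
  ext n
  simp only [sect_coeff, coeff_qq_pow_mul, kronMat_apply]
  congr 1
  ring

/-- The **Kronecker polynomial** of `f`: the characteristic polynomial of multiplication by
`f(q)` on `R((q))` over `R((q^ℓ))`, with coefficients transported to `R((q))`. -/
def kron (f : LaurentSeries R) : (LaurentSeries R)[X] := (kronMat ℓ f).charpoly

theorem kron_monic (f : LaurentSeries R) : (kron ℓ f).Monic := Matrix.charpoly_monic _

theorem kron_natDegree [Nontrivial R] (f : LaurentSeries R) : (kron ℓ f).natDegree = ℓ := by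
  rw [kron, Matrix.charpoly_natDegree_eq_dim, Fintype.card_fin]

/-- Compatibility with change of coefficients. -/
theorem kronMat_map {S : Type*} [CommRing S] (g : R →+* S) (f : LaurentSeries R) :
    kronMat ℓ (coeffMap g f) = (kronMat ℓ f).map (coeffMap g) := by
  ext i j n
  simp

theorem kron_map {S : Type*} [CommRing S] (g : R →+* S) (f : LaurentSeries R) :
    kron ℓ (coeffMap g f) = (kron ℓ f).map (coeffMap g) := by
  rw [kron, kron, kronMat_map, Matrix.charpoly_map]

/-- **Cayley–Hamilton form**: `f` is a root of its Kronecker polynomial (coefficients pushed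
to `R((q^ℓ))` by `V = qExpand R ℓ`). -/
theorem kron_eval₂_self (f : LaurentSeries R) :
    (kron ℓ f).eval₂ (qExpand R ℓ) f = 0 := by
  classical
  set M' : Matrix (Fin ℓ) (Fin ℓ) (LaurentSeries R) := (kronMat ℓ f).map (qExpand R ℓ) with hM'
  set v : Fin ℓ → LaurentSeries R := fun i => (qq : LaurentSeries R) ^ (i : ℕ) with hv
  have hvM : Matrix.vecMul v M' = f • v := by
    funext j
    simp only [Matrix.vecMul, dotProduct, hM', Matrix.map_apply, hv, Pi.smul_apply, smul_eq_mul]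
    rw [mul_comm f, qq_pow_mul_eq_sum ℓ f j]
  have h1 : Matrix.vecMul v (Matrix.scalar (Fin ℓ) f - M') = 0 := by
    rw [Matrix.vecMul_sub, hvM]
    funext j
    simp [Matrix.scalar_apply]
  have h2 : (Matrix.scalar (Fin ℓ) f - M').det • v = 0 := by
    have := congrArg (fun w => Matrix.vecMul w (Matrix.adjugate (Matrix.scalar (Fin ℓ) f - M'))) h1
    simp only [Matrix.vecMul_vecMul, Matrix.mul_adjugate, Matrix.zero_vecMul] at this
    rw [Matrix.vecMul_smul, Matrix.vecMul_one] at this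
    exact this
  have h3 : (Matrix.scalar (Fin ℓ) f - M').det = 0 := by
    have h0 : (0 : ℕ) < ℓ := Nat.pos_of_ne_zero (NeZero.ne ℓ)
    have := congrFun h2 ⟨0, h0⟩
    simpa [hv] using this
  rw [kron, Polynomial.eval₂_eq_eval_map, ← Matrix.charpoly_map, ← hM', Matrix.eval_charpoly]
  exact h3

end Fermat.Agent.S37.H340

end
end
-- ===== PACK-END S37/H340/KronBasic.lean

-- ===== PACK-BEGIN S37/H340/KronTwist.lean
section


/-!
# S37 / R3-K : twists `q ↦ ζ q` and the product formula (helper340)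

* `twHom ℓ ζ hζ : R((q)) →+* R((q))`, `f(q) ↦ f(ζ q)` for `ζ ^ ℓ = 1`
  (coefficientwise `aₙ ↦ ζ ^ (n mod ℓ) aₙ`);
* `twHom_qExpand` : it fixes `R((q^ℓ))`;
* `kron_map_qExpand_eq_prod` : over a domain with a primitive `ℓ`-th root of unity `ζ`,
  `(kron ℓ f).map V = ∏_{b < ℓ} (Y - f(ζ^b q))`.
-/

set_option autoImplicit false

noncomputable section

namespace Fermat.Agent.S37.H340

open ModularCurve Polynomial Matrix

variable {R : Type*} [CommRing R] (ℓ : ℕ) [NeZero ℓ]

/-- `ζ ^ (k mod ℓ)` for an integer exponent `k`. -/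
def zpw (ζ : R) (k : ℤ) : R := ζ ^ (k % (ℓ : ℤ)).toNat

variable {ℓ}

lemma zpw_natCast {ζ : R} (hζ : ζ ^ ℓ = 1) (n : ℕ) : zpw ℓ ζ (n : ℤ) = ζ ^ n := by
  have hℓ : (ℓ : ℤ) ≠ 0 := by exact_mod_cast NeZero.ne ℓ
  unfold zpw
  have h1 : ((n : ℤ) % (ℓ : ℤ)).toNat = n % ℓ := by
    have : ((n : ℤ) % (ℓ : ℤ)) = ((n % ℓ : ℕ) : ℤ) := by push_cast; rfl
    rw [this, Int.toNat_natCast]
  rw [h1]
  conv_rhs => rw [← Nat.div_add_mod n ℓ, _root_.pow_add, pow_mul, hζ, one_pow, one_mul]

lemma zpw_add {ζ : R} (hζ : ζ ^ ℓ = 1) (i j : ℤ) :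
    zpw ℓ ζ (i + j) = zpw ℓ ζ i * zpw ℓ ζ j := by
  have hℓ : (0 : ℤ) < ℓ := by exact_mod_cast Nat.pos_of_ne_zero (NeZero.ne ℓ)
  unfold zpw
  rw [← _root_.pow_add]
  have hi0 := Int.emod_nonneg i hℓ.ne'
  have hj0 := Int.emod_nonneg j hℓ.ne'
  have hij0 := Int.emod_nonneg (i + j) hℓ.ne'
  -- (i % ℓ + j % ℓ) and (i+j) % ℓ differ by 0 or ℓ
  have key : ((i % ℓ).toNat + (j % ℓ).toNat) % ℓ = ((i + j) % (ℓ : ℤ)).toNat := by
    have : (((i % ℓ).toNat + (j % ℓ).toNat : ℕ) : ℤ) % ℓ = (i + j) % ℓ := by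
      push_cast
      rw [Int.toNat_of_nonneg hi0, Int.toNat_of_nonneg hj0, ← Int.add_emod]
    have h2 : ((((i % ℓ).toNat + (j % ℓ).toNat) % ℓ : ℕ) : ℤ) = (i + j) % ℓ := by
      rw [← this]; push_cast; rfl
    have := congrArg Int.toNat h2
    rwa [Int.toNat_natCast] at this
  rw [← key]
  conv_rhs => rw [← Nat.div_add_mod ((i % ℓ).toNat + (j % ℓ).toNat) ℓ, _root_.pow_add, pow_mul,
    hζ, one_pow, one_mul]

omit [NeZero ℓ] in
lemma zpw_mul_left {ζ : R} (n : ℤ) : zpw ℓ ζ ((ℓ : ℤ) * n) = 1 := by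
  unfold zpw
  simp

omit [NeZero ℓ] in
lemma zpw_zero {ζ : R} : zpw ℓ ζ 0 = 1 := by
  unfold zpw
  simp

variable (ℓ)

/-- The twist `f(q) ↦ f(ζ q)` as a function (needs `ζ ^ ℓ = 1` only for good properties). -/
def tw (ζ : R) (f : LaurentSeries R) : LaurentSeries R :=
  HahnSeries.ofSuppBddBelow (fun n : ℤ => zpw ℓ ζ n * f.coeff n) <| by
    obtain ⟨b, hb⟩ := exists_coeff_eq_zero_of_lt f
    refine ⟨b, fun m hm => ?_⟩
    by_contra hlt
    rw [not_le] at hlt
    exact hm (by simp [hb m hlt])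

omit [NeZero ℓ] in
@[simp]
lemma tw_coeff (ζ : R) (f : LaurentSeries R) (n : ℤ) :
    (tw ℓ ζ f).coeff n = zpw ℓ ζ n * f.coeff n := by
  simp [tw]

omit [NeZero ℓ] in
lemma tw_support_subset (ζ : R) (f : LaurentSeries R) : (tw ℓ ζ f).support ⊆ f.support := by
  intro n hn
  rw [HahnSeries.mem_support] at hn ⊢
  intro h
  exact hn (by simp [h])

variable {ℓ}

omit [NeZero ℓ] in
lemma coeff_mul_of_subsets {x y : LaurentSeries R} {s t : Set ℤ} (hs : s.IsPWO) (ht : t.IsPWO)
    (hxs : x.support ⊆ s) (hyt : y.support ⊆ t) (a : ℤ) :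
    (x * y).coeff a = ∑ ij ∈ Finset.antidiagonal hs ht a, x.coeff ij.1 * y.coeff ij.2 := by
  rw [HahnSeries.coeff_mul_left' hs hxs]
  refine Finset.sum_subset (Finset.antidiagonal_mono_right hyt) fun ij hij hnot => ?_
  have h1 := Finset.mem_antidiagonal.mp hij
  have h2 : ij.2 ∉ y.support := fun h => hnot (Finset.mem_antidiagonal.mpr ⟨h1.1, h, h1.2.2⟩)
  rw [HahnSeries.mem_support, not_not] at h2
  rw [h2, mul_zero]

lemma tw_mul {ζ : R} (hζ : ζ ^ ℓ = 1) (f g : LaurentSeries R) :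
    tw ℓ ζ (f * g) = tw ℓ ζ f * tw ℓ ζ g := by
  ext a
  rw [tw_coeff, HahnSeries.coeff_mul,
    coeff_mul_of_subsets f.isPWO_support g.isPWO_support (tw_support_subset ℓ ζ f)
      (tw_support_subset ℓ ζ g), Finset.mul_sum]
  refine Finset.sum_congr rfl fun ij hij => ?_
  have hsum : ij.1 + ij.2 = a := (Finset.mem_antidiagonal.mp hij).2.2
  rw [tw_coeff, tw_coeff, ← hsum, zpw_add hζ]
  ring

variable (ℓ) in
/-- The twist `f(q) ↦ f(ζ q)` as a ring homomorphism. -/
def twHom (ζ : R) (hζ : ζ ^ ℓ = 1) : LaurentSeries R →+* LaurentSeries R where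
  toFun := tw ℓ ζ
  map_one' := by
    ext n
    rw [tw_coeff, HahnSeries.coeff_one]
    split_ifs with h
    · subst h; simp [zpw_zero]
    · simp
  map_mul' := tw_mul hζ
  map_zero' := by ext n; simp
  map_add' f g := by ext n; simp [mul_add]

@[simp]
lemma twHom_apply {ζ : R} (hζ : ζ ^ ℓ = 1) (f : LaurentSeries R) :
    twHom ℓ ζ hζ f = tw ℓ ζ f := rfl

lemma twHom_coeff {ζ : R} (hζ : ζ ^ ℓ = 1) (f : LaurentSeries R) (n : ℤ) :
    (twHom ℓ ζ hζ f).coeff n = zpw ℓ ζ n * f.coeff n := tw_coeff ℓ ζ f n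

/-- The twist fixes `R((q^ℓ))`. -/
lemma tw_qExpand (ζ : R) (g : LaurentSeries R) :
    tw ℓ ζ (qExpand R ℓ g) = qExpand R ℓ g := by
  ext n
  rw [tw_coeff]
  by_cases h : (ℓ : ℤ) ∣ n
  · obtain ⟨m, rfl⟩ := h
    rw [zpw_mul_left, one_mul]
  · rw [qExpand_coeff_of_not_dvd ℓ g h, mul_zero]

lemma tw_qq_pow {ζ : R} (hζ : ζ ^ ℓ = 1) (n : ℕ) :
    tw ℓ ζ ((qq : LaurentSeries R) ^ n) = HahnSeries.C (ζ ^ n) * (qq : LaurentSeries R) ^ n := by
  ext k
  rw [tw_coeff, qq_pow, HahnSeries.C_mul_eq_smul, HahnSeries.coeff_smul, HahnSeries.coeff_single]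
  split_ifs with h
  · subst h; rw [zpw_natCast hζ]; simp
  · simp

omit [NeZero ℓ] in
/-- `tw` by a power of `ζ`. -/
lemma pow_pow_eq_one {ζ : R} (hζ : ζ ^ ℓ = 1) (b : ℕ) : (ζ ^ b) ^ ℓ = 1 := by
  rw [← pow_mul, mul_comm, pow_mul, hζ, one_pow]

/-- If `P * M = D * P` with `det P ≠ 0` over a domain, then `M` and `D` have the same
characteristic polynomial. -/
lemma charpoly_eq_of_intertwine {S : Type*} [CommRing S] [IsDomain S] {n : Type*} [Fintype n]
    [DecidableEq n] (P M D : Matrix n n S) (hPM : P * M = D * P) (hdet : P.det ≠ 0) :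
    M.charpoly = D.charpoly := by
  have hscal : (P.map C) * Matrix.scalar n (X : S[X]) = Matrix.scalar n (X : S[X]) * (P.map C) :=
    ((Matrix.scalar_commute (X : S[X]) (fun r' => Commute.all _ _)) (P.map C)).eq.symm
  have hmap : (P.map C) * (M.map C) = (D.map C) * (P.map (C : S →+* S[X])) := by
    rw [← Matrix.map_mul, ← Matrix.map_mul, hPM]
  have hchar : (P.map C) * charmatrix M = charmatrix D * (P.map C) := by
    rw [charmatrix, charmatrix, Matrix.mul_sub, Matrix.sub_mul, hscal]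
    congr 1
  have hdets := congrArg Matrix.det hchar
  rw [Matrix.det_mul, Matrix.det_mul] at hdets
  have hPC : (P.map (C : S →+* S[X])).det ≠ 0 := by
    have : (P.map (C : S →+* S[X])).det = C P.det := by
      rw [← RingHom.mapMatrix_apply, ← RingHom.map_det]
    rw [this]
    exact (map_ne_zero_iff _ C_injective).mpr hdet
  rw [mul_comm (charmatrix D).det] at hdets
  exact mul_left_cancel₀ hPC hdets

/-- the nodes `ζ^b q` -/
def node (ζ : R) (b : Fin ℓ) : LaurentSeries R :=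
  HahnSeries.C (ζ ^ (b : ℕ)) * (qq : LaurentSeries R)

lemma vandermonde_mul_kronMat {ζ : R} (hζ : ζ ^ ℓ = 1) (f : LaurentSeries R) :
    Matrix.vandermonde (node (ℓ := ℓ) ζ) * (kronMat ℓ f).map (qExpand R ℓ) =
      Matrix.diagonal (fun b : Fin ℓ => tw ℓ (ζ ^ (b : ℕ)) f) * Matrix.vandermonde (node ζ) := by
  ext b j
  rw [Matrix.mul_apply, Matrix.diagonal_mul]
  simp only [Matrix.vandermonde_apply, Matrix.map_apply, node]
  have hb : (ζ ^ (b : ℕ)) ^ ℓ = 1 := pow_pow_eq_one hζ b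
  have h1 := congrArg (tw ℓ (ζ ^ (b : ℕ))) (qq_pow_mul_eq_sum ℓ f j)
  rw [tw_mul hb, tw_qq_pow hb] at h1
  have h2 : tw ℓ (ζ ^ (b : ℕ))
      (∑ i : Fin ℓ, (qq : LaurentSeries R) ^ (i : ℕ) * qExpand R ℓ (kronMat ℓ f i j)) =
      ∑ i : Fin ℓ, (HahnSeries.C ((ζ ^ (b : ℕ)) ^ (i : ℕ)) * (qq : LaurentSeries R) ^ (i : ℕ))
        * qExpand R ℓ (kronMat ℓ f i j) := by
    rw [← twHom_apply hb, map_sum]
    refine Finset.sum_congr rfl fun i _ => ?_
    rw [map_mul, twHom_apply, twHom_apply, tw_qq_pow hb, tw_qExpand]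
  rw [h2] at h1
  simp only [mul_pow, ← map_pow]
  rw [← h1]
  ring_nf

omit [NeZero ℓ] in
lemma node_injective [IsDomain R] {ζ : R} (hζ : IsPrimitiveRoot ζ ℓ) :
    Function.Injective (node (ℓ := ℓ) ζ) := by
  intro b b' hbb'
  have hq : (qq : LaurentSeries R) ≠ 0 := by
    rw [qq]; exact HahnSeries.single_ne_zero one_ne_zero
  have h1 : HahnSeries.C (ζ ^ (b : ℕ)) = (HahnSeries.C (ζ ^ (b' : ℕ)) : LaurentSeries R) :=
    mul_right_cancel₀ hq hbb'
  have h2 : ζ ^ (b : ℕ) = ζ ^ (b' : ℕ) := HahnSeries.C_injective h1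
  exact Fin.ext (hζ.pow_inj b.2 b'.2 h2)

/-- **Product formula**: over a domain containing a primitive `ℓ`-th root of unity `ζ`, the
Kronecker polynomial (with coefficients pushed to `R((q^ℓ))`) is `∏_b (Y - f(ζ^b q))`. -/
theorem kron_map_qExpand_eq_prod [IsDomain R] {ζ : R} (hζ : IsPrimitiveRoot ζ ℓ)
    (f : LaurentSeries R) :
    (kron ℓ f).map (qExpand R ℓ) =
      ∏ b : Fin ℓ, (X - Polynomial.C (tw ℓ (ζ ^ (b : ℕ)) f)) := by
  classical
  rw [kron, ← Matrix.charpoly_map,
    charpoly_eq_of_intertwine _ _ _ (vandermonde_mul_kronMat hζ.pow_eq_one f)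
      (Matrix.det_vandermonde_ne_zero_iff.mpr (node_injective hζ)),
    Matrix.charpoly_diagonal]

end Fermat.Agent.S37.H340

end
end
-- ===== PACK-END S37/H340/KronTwist.lean

-- ===== PACK-BEGIN S29/H395/ProdChar.lean
section
/-
S29 / layer M / bridge BR, piece NORM (analytic half, character computation) — helper395.

For a function `h : ℍ → ℂ` which is `c`-automorphic for `Γ₀(N)` (`h (γ τ) = c γ * h τ`), the product
of its translates by the Prelude Hecke representatives,

  `heckeProd p h τ = ∏ x : ℙ¹(𝔽_p), h (heckeRep p x • τ)`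
                 `= h (p τ) * ∏_{j < p} h ((τ + j) / p)`,

is automorphic with multiplier `γ ↦ ∏ x, c (trf γ x)` (helper201's transfer elements).  In
particular for `c γ = ζ ^ χ γ` the multiplier is `ζ ^ (heckeHom χ) γ`: the Hecke operator on
`Hom(Γ₀(N), ℤ/m)` corresponds to `h ↦ heckeProd p h` on `m`-th roots of modular functions.
-/


set_option autoImplicit false

noncomputable section

open CongruenceSubgroup Matrix.SpecialLinearGroup UpperHalfPlane
open scoped MatrixGroups
open P2MW.S_ModularForm_heckeT_slash_eq_self_of_mem_Gamma0.ModularForm.HeckeSlashInvariance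

namespace Fermat.Agent.S29.H395

open Fermat.Agent.S29.H201

variable {N : ℕ} {p : ℕ} [Fact p.Prime]

/-- The product of the translates of `h` by the Hecke representatives
`(p 0; 0 1)`, `(1 j; 0 p)` (`j : ZMod p`). -/
def heckeProd (p : ℕ) [Fact p.Prime] (h : ℍ → ℂ) : ℍ → ℂ :=
  fun τ => ∏ x : OnePoint (ZMod p), h (_root_.P2MW.S_ModularForm_heckeT_slash_eq_self_of_mem_Gamma0.ModularForm.HeckeSlashInvariance.heckeRep p x • τ)

theorem heckeProd_apply (h : ℍ → ℂ) (τ : ℍ) :
    heckeProd p h τ = ∏ x : OnePoint (ZMod p), h (_root_.P2MW.S_ModularForm_heckeT_slash_eq_self_of_mem_Gamma0.ModularForm.HeckeSlashInvariance.heckeRep p x • τ) := rfl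

theorem heckeProd_mul (h h' : ℍ → ℂ) : heckeProd p (h * h') = heckeProd p h * heckeProd p h' := by
  funext τ
  simp only [heckeProd, Pi.mul_apply, Finset.prod_mul_distrib]

theorem heckeProd_one : heckeProd p (1 : ℍ → ℂ) = 1 := by
  funext τ
  simp [heckeProd]

theorem heckeProd_pow (h : ℍ → ℂ) (n : ℕ) : heckeProd p (h ^ n) = heckeProd p h ^ n := by
  funext τ
  simp only [heckeProd, Pi.pow_apply, Finset.prod_pow]

theorem heckeProd_inv (h : ℍ → ℂ) : heckeProd p (h⁻¹) = (heckeProd p h)⁻¹ := by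
  funext τ
  simp only [heckeProd, Pi.inv_apply, Finset.prod_inv_distrib]

theorem heckeProd_div (h h' : ℍ → ℂ) : heckeProd p (h / h') = heckeProd p h / heckeProd p h' := by
  funext τ
  simp only [heckeProd, Pi.div_apply, Finset.prod_div_distrib]

theorem heckeProd_const (a : ℂ) :
    heckeProd p (fun _ => a) = fun _ => a ^ (p + 1) := by
  funext τ
  simp only [heckeProd, Finset.prod_const, Finset.card_univ]
  congr 1
  rw [show Fintype.card (OnePoint (ZMod p)) = Fintype.card (Option (ZMod p)) from rfl,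
    Fintype.card_option, ZMod.card]

/-- the basic translation identity: `heckeRep x • γ • τ = trf γ x • heckeRep (x · γ) • τ`. -/
theorem heckeRep_smul_smul (hpN : ¬ p ∣ N) (γ : Gamma0 N) (x : OnePoint (ZMod p)) (τ : ℍ) :
    _root_.P2MW.S_ModularForm_heckeT_slash_eq_self_of_mem_Gamma0.ModularForm.HeckeSlashInvariance.heckeRep p x • ((γ : SL(2, ℤ)) • τ)
      = ((trf hpN γ x : Gamma0 N) : SL(2, ℤ)) • (_root_.P2MW.S_ModularForm_heckeT_slash_eq_self_of_mem_Gamma0.ModularForm.HeckeSlashInvariance.heckeRep p (redMatrix p (γ : SL(2, ℤ)) • x) • τ) := by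
  show _root_.P2MW.S_ModularForm_heckeT_slash_eq_self_of_mem_Gamma0.ModularForm.HeckeSlashInvariance.heckeRep p x • (mapGL ℝ (γ : SL(2, ℤ)) • τ)
      = mapGL ℝ ((trf hpN γ x : Gamma0 N) : SL(2, ℤ)) •
          (_root_.P2MW.S_ModularForm_heckeT_slash_eq_self_of_mem_Gamma0.ModularForm.HeckeSlashInvariance.heckeRep p (redMatrix p (γ : SL(2, ℤ)) • x) • τ)
  rw [← mul_smul, ← mul_smul, trf_spec hpN γ x]

/-- **Transfer formula for products.**  If `h (γ τ) = c γ * h τ` for all `γ ∈ Γ₀(N)`, then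
`heckeProd p h (γ τ) = (∏ x, c (trf γ x)) * heckeProd p h τ`. -/
theorem heckeProd_smul (hpN : ¬ p ∣ N) {h : ℍ → ℂ} {c : Gamma0 N → ℂ}
    (hc : ∀ (γ : Gamma0 N) (τ : ℍ), h ((γ : SL(2, ℤ)) • τ) = c γ * h τ)
    (γ : Gamma0 N) (τ : ℍ) :
    heckeProd p h ((γ : SL(2, ℤ)) • τ)
      = (∏ x : OnePoint (ZMod p), c (trf hpN γ x)) * heckeProd p h τ := by
  simp only [heckeProd]
  calc ∏ x : OnePoint (ZMod p), h (_root_.P2MW.S_ModularForm_heckeT_slash_eq_self_of_mem_Gamma0.ModularForm.HeckeSlashInvariance.heckeRep p x • ((γ : SL(2, ℤ)) • τ))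
      = ∏ x : OnePoint (ZMod p),
          c (trf hpN γ x) * h (_root_.P2MW.S_ModularForm_heckeT_slash_eq_self_of_mem_Gamma0.ModularForm.HeckeSlashInvariance.heckeRep p (redMatrix p (γ : SL(2, ℤ)) • x) • τ) := by
        refine Finset.prod_congr rfl fun x _ => ?_
        rw [heckeRep_smul_smul hpN γ x τ, hc]
    _ = (∏ x : OnePoint (ZMod p), c (trf hpN γ x)) *
          ∏ x : OnePoint (ZMod p), h (_root_.P2MW.S_ModularForm_heckeT_slash_eq_self_of_mem_Gamma0.ModularForm.HeckeSlashInvariance.heckeRep p (redMatrix p (γ : SL(2, ℤ)) • x) • τ) :=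
        Finset.prod_mul_distrib
    _ = _ := by
        congr 1
        exact Equiv.prod_comp (permOf γ) (fun y => h (_root_.P2MW.S_ModularForm_heckeT_slash_eq_self_of_mem_Gamma0.ModularForm.HeckeSlashInvariance.heckeRep p y • τ))

/-- The same with multiplier `c γ = ζ ^ χ γ` for an additive character `χ : Γ₀(N) → ZMod m` and an
`m`-th root of unity `ζ`: the multiplier of `heckeProd p h` is `ζ ^ (T_p χ) γ`. -/
theorem heckeProd_smul_of_char (hpN : ¬ p ∣ N) {m : ℕ} [NeZero m] {ζ : ℂ} (hζ : ζ ^ m = 1)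
    {h : ℍ → ℂ} (χ : Additive (Gamma0 N) →+ ZMod m)
    (hc : ∀ (γ : Gamma0 N) (τ : ℍ),
      h ((γ : SL(2, ℤ)) • τ) = ζ ^ (χ (Additive.ofMul γ)).val * h τ)
    (γ : Gamma0 N) (τ : ℍ) :
    heckeProd p h ((γ : SL(2, ℤ)) • τ)
      = ζ ^ (heckeHom p hpN (ZMod m) χ (Additive.ofMul γ)).val * heckeProd p h τ := by
  rw [heckeProd_smul hpN (c := fun γ => ζ ^ (χ (Additive.ofMul γ)).val) hc γ τ]
  congr 1
  rw [Finset.prod_pow_eq_pow_sum, heckeHom_apply]
  -- `ζ ^ a = ζ ^ b` when `a ≡ b mod m`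
  have key : ∀ a b : ℕ, (a : ZMod m) = (b : ZMod m) → ζ ^ a = ζ ^ b := by
    intro a b hab
    have hab' : a ≡ b [MOD m] := (ZMod.natCast_eq_natCast_iff a b m).mp hab
    rw [← Nat.div_add_mod a m, ← Nat.div_add_mod b m, pow_add, pow_add, pow_mul, pow_mul, hζ,
      one_pow, one_pow, one_mul, one_mul, hab']
  apply key
  rw [Nat.cast_sum, ZMod.natCast_zmod_val]
  simp only [ZMod.natCast_zmod_val]

end Fermat.Agent.S29.H395

end

end
-- ===== PACK-END S29/H395/ProdChar.lean

-- ===== PACK-BEGIN S30/H810/Classify.lean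
section
/-
S30 / piece ONTO (helper810), part 5 (Mathlib only): elements of `SL(2, ℤ)` of finite order and
of trace `±2`.

* `fixed_or_trivial_of_pow_eq_one` : `g ^ n = 1`, `n > 0` ⟹ `g` acts trivially on `ℍ` or has a
  fixed point in `ℍ`;
* `parabolic_conj` : `tr g = ±2` ⟹ `g` acts trivially or `g ∘ h = h ∘ T^n` on `ℍ` for some
  `h ∈ SL(2, ℤ)`, `n ≠ 0`.
-/


set_option autoImplicit false

noncomputable section

open UpperHalfPlane Matrix
open scoped MatrixGroups

namespace Fermat.Agent.S30.H810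

/-- the Chebyshev-type sequence `u₀ = 0, u₁ = 1, u_{k+2} = t u_{k+1} - u_k` -/
def chebSeq (t : ℤ) : ℕ → ℤ
  | 0 => 0
  | 1 => 1
  | (k + 2) => t * chebSeq t (k + 1) - chebSeq t k

theorem chebSeq_succ_succ (t : ℤ) (k : ℕ) :
    chebSeq t (k + 2) = t * chebSeq t (k + 1) - chebSeq t k := rfl

theorem chebSeq_abs_lt (t : ℤ) (ht : 2 ≤ |t|) (k : ℕ) :
    |chebSeq t k| + 1 ≤ |chebSeq t (k + 1)| := by
  induction k with
  | zero => simp [chebSeq]
  | succ k ih =>
    rw [chebSeq_succ_succ]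
    have h1 : |t * chebSeq t (k + 1)| - |chebSeq t k| ≤ |t * chebSeq t (k + 1) - chebSeq t k| :=
      abs_sub_abs_le_abs_sub _ _
    have h2 : 2 * |chebSeq t (k + 1)| ≤ |t * chebSeq t (k + 1)| := by
      rw [abs_mul]
      exact mul_le_mul_of_nonneg_right ht (abs_nonneg _)
    linarith

theorem chebSeq_succ_ne_zero (t : ℤ) (ht : 2 ≤ |t|) (k : ℕ) : chebSeq t (k + 1) ≠ 0 := by
  intro h
  have := chebSeq_abs_lt t ht k
  rw [h, abs_zero] at this
  have := abs_nonneg (chebSeq t k)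
  linarith

theorem sq_eq_of_det_one (A : Matrix (Fin 2) (Fin 2) ℤ) (hA : A.det = 1) (t : ℤ)
    (ht : A 0 0 + A 1 1 = t) : A * A = (t : Matrix (Fin 2) (Fin 2) ℤ) * A - 1 := by
  rw [Matrix.det_fin_two] at hA
  subst ht
  ext i j
  fin_cases i <;> fin_cases j <;>
    simp [Matrix.mul_apply, Fin.sum_univ_two, Matrix.intCast_apply] <;> nlinarith

theorem pow_succ_eq_chebSeq (A : Matrix (Fin 2) (Fin 2) ℤ) (hA : A.det = 1) (t : ℤ)
    (ht : A 0 0 + A 1 1 = t) (k : ℕ) :
    A ^ (k + 1) = (chebSeq t (k + 1) : Matrix (Fin 2) (Fin 2) ℤ) * A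
      - (chebSeq t k : Matrix (Fin 2) (Fin 2) ℤ) := by
  induction k with
  | zero => simp [chebSeq]
  | succ k ih =>
    rw [pow_succ, ih, sub_mul, mul_assoc, sq_eq_of_det_one A hA t ht, chebSeq_succ_succ]
    have hc : (chebSeq t (k + 1) : Matrix (Fin 2) (Fin 2) ℤ) * (t : Matrix (Fin 2) (Fin 2) ℤ)
        = (t : Matrix (Fin 2) (Fin 2) ℤ) * (chebSeq t (k + 1) : Matrix (Fin 2) (Fin 2) ℤ) :=
      (Int.cast_commute _ _).eq
    push_cast
    rw [mul_sub, ← mul_assoc, hc]
    noncomm_ring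

/-- A finite-order element of `SL(2, ℤ)` with `|tr| ≥ 2` is `±1`. -/
theorem eq_one_or_neg_one_of_pow_eq_one (g : SL(2, ℤ)) (n : ℕ) (hn : 0 < n) (h : g ^ n = 1)
    (ht : 2 ≤ |g 0 0 + g 1 1|) : g = 1 ∨ g = -1 := by
  obtain ⟨k, rfl⟩ : ∃ k, n = k + 1 := ⟨n - 1, by omega⟩
  have hA : (g : Matrix (Fin 2) (Fin 2) ℤ).det = 1 := g.2
  have hpow : (g : Matrix (Fin 2) (Fin 2) ℤ) ^ (k + 1) = 1 := by
    have := congrArg (fun x : SL(2, ℤ) => (x : Matrix (Fin 2) (Fin 2) ℤ)) h
    simpa using this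
  have hu := chebSeq_succ_ne_zero _ ht k
  have key := pow_succ_eq_chebSeq (g : Matrix (Fin 2) (Fin 2) ℤ) hA _ rfl k
  rw [hpow] at key
  have e00 := congrFun (congrFun key 0) 0
  have e01 := congrFun (congrFun key 0) 1
  have e10 := congrFun (congrFun key 1) 0
  have e11 := congrFun (congrFun key 1) 1
  simp [Matrix.mul_apply, Matrix.intCast_apply] at e00 e01 e10 e11
  have h01 : g 0 1 = 0 := by
    rcases e01 with h | h
    · exact absurd h hu
    · exact h
  have h10 : g 1 0 = 0 := by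
    rcases e10 with h | h
    · exact absurd h hu
    · exact h
  have hd : g 0 0 = g 1 1 := by
    have : chebSeq (g 0 0 + g 1 1) (k + 1) * (g 0 0 - g 1 1) = 0 := by linarith
    rcases mul_eq_zero.mp this with h | h
    · exact absurd h hu
    · linarith
  rw [Matrix.det_fin_two, h01, h10, ← hd] at hA
  have hsq : g 0 0 * g 0 0 = 1 := by linarith
  rcases Int.eq_one_or_neg_one_of_mul_eq_one' hsq with ⟨h1, -⟩ | ⟨h1, -⟩
  · left
    ext i j
    fin_cases i <;> fin_cases j <;> simp [h01, h10, ← hd, h1]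
  · right
    ext i j
    fin_cases i <;> fin_cases j <;> simp [h01, h10, ← hd, h1]

/-- **Finite order.** An element of `SL(2, ℤ)` of finite order acts trivially on `ℍ` or has a
fixed point in `ℍ`. -/
theorem fixed_or_trivial_of_pow_eq_one (g : SL(2, ℤ)) (n : ℕ) (hn : 0 < n) (h : g ^ n = 1) :
    (∀ τ : ℍ, g • τ = τ) ∨ ∃ τ₀ : ℍ, g • τ₀ = τ₀ := by
  by_cases ht : 2 ≤ |g 0 0 + g 1 1|
  · left
    rcases eq_one_or_neg_one_of_pow_eq_one g n hn h ht with rfl | rfl
    · intro τ; exact one_smul _ τ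
    · intro τ
      rw [ModularGroup.SL_neg_smul, one_smul]
  · right
    push Not at ht
    have hdet : ((g : GL (Fin 2) ℝ) : Matrix (Fin 2) (Fin 2) ℝ).det = 1 :=
      (Matrix.SpecialLinearGroup.map (Int.castRingHom ℝ) g).det_coe
    have hpos : 0 < ((g : GL (Fin 2) ℝ) : Matrix (Fin 2) (Fin 2) ℝ).det := by
      rw [hdet]; exact one_pos
    have hell : ((g : GL (Fin 2) ℝ) : Matrix (Fin 2) (Fin 2) ℝ).IsElliptic := by
      rw [Matrix.IsElliptic, Matrix.discr_fin_two, Matrix.trace_fin_two]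
      rw [hdet]
      have h1 : ((g : GL (Fin 2) ℝ) : Matrix (Fin 2) (Fin 2) ℝ) 0 0
          + ((g : GL (Fin 2) ℝ) : Matrix (Fin 2) (Fin 2) ℝ) 1 1 = ((g 0 0 + g 1 1 : ℤ) : ℝ) := by
        simp
      rw [h1]
      have h2 : |((g 0 0 + g 1 1 : ℤ) : ℝ)| < 2 := by
        rw [← Int.cast_abs]
        exact_mod_cast ht
      have h3 := abs_lt.mp h2
      nlinarith
    exact ⟨fixedPt (g : GL (Fin 2) ℝ) hell,
      (gl_smul_eq_self_iff_eq_fixedPt hpos hell).mpr rfl⟩

/-- conjugating into upper triangular form: if `(p, q)` is a primitive eigenvector of `g`, then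
`h⁻¹ g h` is upper triangular for a suitable `h ∈ SL(2, ℤ)`. -/
theorem exists_conj_upper (g : SL(2, ℤ)) (ε p q : ℤ) (hpq : IsCoprime p q)
    (h1 : g 0 0 * p + g 0 1 * q = ε * p) (h2 : g 1 0 * p + g 1 1 * q = ε * q) :
    ∃ h : SL(2, ℤ), (h⁻¹ * g * h) 1 0 = 0 := by
  obtain ⟨u, v, huv⟩ := hpq
  have hdet : (!![p, -v; q, u] : Matrix (Fin 2) (Fin 2) ℤ).det = 1 := by
    rw [Matrix.det_fin_two_of]; linarith
  let h : SL(2, ℤ) := ⟨!![p, -v; q, u], hdet⟩
  have hcoe : (h : Matrix (Fin 2) (Fin 2) ℤ) = !![p, -v; q, u] := rfl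
  refine ⟨h, ?_⟩
  rw [Matrix.SpecialLinearGroup.coe_mul, Matrix.SpecialLinearGroup.coe_mul,
    Matrix.SpecialLinearGroup.coe_inv, Matrix.adjugate_fin_two, hcoe]
  simp [Matrix.mul_apply, Fin.sum_univ_two, Matrix.vecMul, dotProduct]
  linear_combination p * h2 - q * h1

/-- **Trace `±2`.** An element of `SL(2, ℤ)` of trace `±2` is conjugate in `SL(2, ℤ)`, as a
transformation of `ℍ`, to a translation `T ^ n`. -/
theorem parabolic_conj (g : SL(2, ℤ)) (ht : g 0 0 + g 1 1 = 2 ∨ g 0 0 + g 1 1 = -2) :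
    ∃ (h : SL(2, ℤ)) (n : ℤ), ∀ τ : ℍ, g • (h • τ) = h • (ModularGroup.T ^ n • τ) := by
  have hdet : g 0 0 * g 1 1 - g 0 1 * g 1 0 = 1 := by
    have := g.det_coe
    rwa [Matrix.det_fin_two] at this
  obtain ⟨ε, hε, htr⟩ : ∃ ε : ℤ, ε * ε = 1 ∧ g 0 0 + g 1 1 = 2 * ε := by
    rcases ht with h | h
    · exact ⟨1, by norm_num, by rw [h]; norm_num⟩
    · exact ⟨-1, by norm_num, by rw [h]; norm_num⟩
  have key : ∃ h : SL(2, ℤ), (h⁻¹ * g * h) 1 0 = 0 := by
    by_cases hc : g 1 0 = 0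
    · exact ⟨1, by simpa using hc⟩
    · -- primitive eigenvector `(x, c) / gcd`
      set x : ℤ := g 0 0 - ε with hx
      have hxx : x * x = -(g 0 1 * g 1 0) := by
        have hd : g 1 1 = ε - x := by rw [hx]; linarith
        rw [hd] at hdet
        have : (g 0 0) = x + ε := by rw [hx]; ring
        rw [this] at hdet
        nlinarith
      set e : ℤ := ((Int.gcd x (g 1 0) : ℕ) : ℤ) with he
      have he0 : e ≠ 0 := by
        rw [he]
        exact_mod_cast (Int.gcd_pos_of_ne_zero_right x hc).ne'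
      obtain ⟨p, hp⟩ : e ∣ x := Int.gcd_dvd_left x (g 1 0)
      obtain ⟨q, hq⟩ : e ∣ g 1 0 := Int.gcd_dvd_right x (g 1 0)
      have hcop : IsCoprime p q := by
        have hpos : 0 < Int.gcd x (g 1 0) := Int.gcd_pos_of_ne_zero_right x hc
        have h1 : Int.gcd x (g 1 0) = Int.gcd x (g 1 0) * Int.gcd p q := by
          conv_lhs => rw [hp, hq, Int.gcd_mul_left]
          rw [he, Int.natAbs_natCast]
        have h2 : Int.gcd p q = 1 :=
          Nat.eq_of_mul_eq_mul_left hpos (by rw [mul_one]; exact h1.symm)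
        exact Int.isCoprime_iff_gcd_eq_one.mpr h2
      refine exists_conj_upper g ε p q hcop ?_ ?_
      · -- `a p + b q = ε p`
        have h3 : e * (g 0 0 * p + g 0 1 * q) = e * (ε * p) := by
          have hb : e * (g 0 1 * q) = g 0 1 * g 1 0 := by rw [hq]; ring
          have ha : e * (g 0 0 * p) = g 0 0 * x := by rw [hp]; ring
          have hr : e * (ε * p) = ε * x := by rw [hp]; ring
          rw [mul_add, ha, hb, hr]
          have : g 0 0 = x + ε := by rw [hx]; ring
          rw [this]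
          linarith
        exact mul_left_cancel₀ he0 h3
      · have h3 : e * (g 1 0 * p + g 1 1 * q) = e * (ε * q) := by
          have hb : e * (g 1 1 * q) = g 1 1 * g 1 0 := by rw [hq]; ring
          have ha : e * (g 1 0 * p) = g 1 0 * x := by rw [hp]; ring
          have hr : e * (ε * q) = ε * g 1 0 := by rw [hq]; ring
          rw [mul_add, ha, hb, hr]
          have hd : g 1 1 = ε - x := by rw [hx]; linarith
          rw [hd]
          ring
        exact mul_left_cancel₀ he0 h3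
  obtain ⟨h, hh⟩ := key
  obtain ⟨n, hn⟩ := ModularGroup.exists_eq_T_zpow_of_c_eq_zero hh
  refine ⟨h, n, fun τ => ?_⟩
  rw [← hn τ, ← mul_smul, ← mul_smul]
  congr 1
  group

end Fermat.Agent.S30.H810

end
end
-- ===== PACK-END S30/H810/Classify.lean

-- ===== PACK-BEGIN S20/H270/Parabolic.lean
section


/-!
# Elements of `SL(2,ℤ)` of trace `±2` are `±` conjugates of powers of `T`
-/

set_option autoImplicit false

open scoped MatrixGroups
open ModularGroup Matrix

namespace Fermat.Agent.S20.H270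

theorem SL2_det_expl (γ : SL(2, ℤ)) : γ 0 0 * γ 1 1 - γ 0 1 * γ 1 0 = 1 := by
  have h := γ.det_coe
  rw [Matrix.det_fin_two] at h
  exact h

theorem SL2_trace_expl (γ : SL(2, ℤ)) : (γ : Matrix (Fin 2) (Fin 2) ℤ).trace = γ 0 0 + γ 1 1 := by
  rw [Matrix.trace_fin_two]

/-- An element of `SL(2,ℤ)` whose first column is `(1, 0)` is a power of `T`. -/
theorem eq_T_zpow_of_col (γ : SL(2, ℤ)) (h00 : γ 0 0 = 1) (h10 : γ 1 0 = 0) :
    γ = T ^ (γ 0 1) := by
  have hdet := SL2_det_expl γ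
  rw [h00, h10, mul_zero, sub_zero, one_mul] at hdet
  ext i j
  rw [coe_T_zpow]
  fin_cases i <;> fin_cases j <;> simp [h00, h10, hdet]

/-- A fixed primitive vector gives a conjugation to a power of `T`. -/
theorem exists_conj_of_fixed_vector (γ : SL(2, ℤ)) (x z : ℤ) (hxz : IsCoprime x z)
    (h0 : γ 0 0 * x + γ 0 1 * z = x) (h1 : γ 1 0 * x + γ 1 1 * z = z) :
    ∃ (g : SL(2, ℤ)) (k : ℤ), γ = g * T ^ k * g⁻¹ := by
  obtain ⟨g, hg0, hg1⟩ := hxz.exists_SL2_col 0
  have hgdet := SL2_det_expl g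
  rw [hg0, hg1] at hgdet
  have hi00 : (g⁻¹ : SL(2, ℤ)) 0 0 = g 1 1 := by
    rw [Matrix.SpecialLinearGroup.SL2_inv_expl]; rfl
  have hi01 : (g⁻¹ : SL(2, ℤ)) 0 1 = -g 0 1 := by
    rw [Matrix.SpecialLinearGroup.SL2_inv_expl]; rfl
  have hi10 : (g⁻¹ : SL(2, ℤ)) 1 0 = -g 1 0 := by
    rw [Matrix.SpecialLinearGroup.SL2_inv_expl]; rfl
  have hi11 : (g⁻¹ : SL(2, ℤ)) 1 1 = g 0 0 := by
    rw [Matrix.SpecialLinearGroup.SL2_inv_expl]; rfl
  have key : g⁻¹ * γ * g = T ^ ((g⁻¹ * γ * g) 0 1) := by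
    apply eq_T_zpow_of_col
    · simp only [Matrix.SpecialLinearGroup.coe_mul, Matrix.mul_apply, Fin.sum_univ_two,
        hi00, hi01, hg0, hg1]
      linear_combination (g 1 1) * h0 - (g 0 1) * h1 + hgdet
    · simp only [Matrix.SpecialLinearGroup.coe_mul, Matrix.mul_apply, Fin.sum_univ_two,
        hi10, hi11, hg0, hg1]
      linear_combination (-z) * h0 + x * h1
  refine ⟨g, (g⁻¹ * γ * g) 0 1, ?_⟩
  rw [← key]
  group

/-- Elements of trace `2` are conjugate to powers of `T`. -/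
theorem exists_conj_T_zpow_of_trace_two (γ : SL(2, ℤ))
    (h : (γ : Matrix (Fin 2) (Fin 2) ℤ).trace = 2) :
    ∃ (g : SL(2, ℤ)) (k : ℤ), γ = g * T ^ k * g⁻¹ := by
  rw [SL2_trace_expl] at h
  have hdet := SL2_det_expl γ
  -- `e = a - 1`, `d = 1 - e`, `b c = - e ^ 2`
  by_cases hc : γ 1 0 = 0
  · -- upper triangular: `a d = 1`, `a + d = 2`, so `a = d = 1`
    have ha : γ 0 0 = 1 := by
      have h1 : (γ 0 0 - 1) ^ 2 = 0 := by
        have : γ 1 1 = 2 - γ 0 0 := by linarith
        rw [hc, this] at hdet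
        linear_combination -hdet
      have := pow_eq_zero_iff (two_ne_zero) |>.mp h1
      linarith
    refine exists_conj_of_fixed_vector γ 1 0 isCoprime_one_left ?_ ?_
    · rw [ha]; ring
    · rw [hc]; ring
  · -- the vector `(e, c) / gcd`
    have hpos : 0 < Int.gcd (γ 0 0 - 1) (γ 1 0) :=
      Int.gcd_pos_of_ne_zero_right _ hc
    obtain ⟨x, z, hgcd, hx, hz⟩ := Int.exists_gcd_one hpos
    have hxz : IsCoprime x z := Int.isCoprime_iff_gcd_eq_one.mpr hgcd
    set δ : ℤ := (Int.gcd (γ 0 0 - 1) (γ 1 0) : ℤ) with hδ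
    have hδ0 : δ ≠ 0 := by
      rw [hδ]; exact_mod_cast hpos.ne'
    refine exists_conj_of_fixed_vector γ x z hxz ?_ ?_
    · apply mul_right_cancel₀ hδ0
      have hd : γ 1 1 = 2 - γ 0 0 := by linarith
      rw [hd] at hdet
      -- (a x + b z) δ = a (e) + b c = a e - e^2 ... 
      have e1 : x * δ = γ 0 0 - 1 := hx.symm
      have e2 : z * δ = γ 1 0 := hz.symm
      linear_combination (γ 0 0 - 1) * e1 + γ 0 1 * e2 - hdet
    · apply mul_right_cancel₀ hδ0
      have hd : γ 1 1 = 2 - γ 0 0 := by linarith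
      have e1 : x * δ = γ 0 0 - 1 := hx.symm
      have e2 : z * δ = γ 1 0 := hz.symm
      linear_combination γ 1 0 * e1 + (γ 1 1 - 1) * e2 + γ 1 0 * hd

/-- **Parabolic elements.** Elements of `SL(2,ℤ)` with `trace ^ 2 = 4` are `±` conjugates of
powers of `T`. -/
theorem exists_conj_T_zpow_of_trace_sq (γ : SL(2, ℤ))
    (h : (γ : Matrix (Fin 2) (Fin 2) ℤ).trace ^ 2 = 4) :
    ∃ (g : SL(2, ℤ)) (k : ℤ), γ = g * T ^ k * g⁻¹ ∨ γ = -(g * T ^ k * g⁻¹) := by
  have h2 : (γ : Matrix (Fin 2) (Fin 2) ℤ).trace = 2 ∨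
      (γ : Matrix (Fin 2) (Fin 2) ℤ).trace = -2 := by
    have : ((γ : Matrix (Fin 2) (Fin 2) ℤ).trace - 2) *
        ((γ : Matrix (Fin 2) (Fin 2) ℤ).trace + 2) = 0 := by
      linear_combination h
    rcases mul_eq_zero.mp this with h' | h'
    · left; linarith
    · right; linarith
  rcases h2 with h2 | h2
  · obtain ⟨g, k, hk⟩ := exists_conj_T_zpow_of_trace_two γ h2
    exact ⟨g, k, Or.inl hk⟩
  · have h3 : ((-γ : SL(2, ℤ)) : Matrix (Fin 2) (Fin 2) ℤ).trace = 2 := by
      rw [Matrix.SpecialLinearGroup.coe_neg, Matrix.trace_neg, h2]; norm_num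
    obtain ⟨g, k, hk⟩ := exists_conj_T_zpow_of_trace_two (-γ) h3
    refine ⟨g, k, Or.inr ?_⟩
    rw [← hk, neg_neg]

end Fermat.Agent.S20.H270

end
-- ===== PACK-END S20/H270/Parabolic.lean

-- ===== PACK-BEGIN S21/ConjPartner.lean
section


/-!
# S21, interface theorem E1: the complex-conjugation partner

For a weight-2 cusp form `f` on `Γ₀(N)` with equivariant primitive `F`, the function
`g z = conj (f (-conj z))` is again a weight-2 cusp form on `Γ₀(N)`, with equivariant primitive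
`G z = - conj (F (-conj z))`, and the periods satisfy
`G (γ i) - G i = - conj (F ((jγj) i) - F i)`.
-/

set_option autoImplicit false

open ModularCurve ModularCurve.Period UpperHalfPlane CongruenceSubgroup Filter Topology
open scoped MatrixGroups ComplexConjugate ModularForm

namespace Fermat.Agent.S21

namespace ConjPartner

/-- `J γ = (jγj) J` in `GL(2, ℝ)`. -/
lemma J_mul_mapGL (γ : SL(2, ℤ)) :
    J * Matrix.SpecialLinearGroup.mapGL ℝ γ
      = Matrix.SpecialLinearGroup.mapGL ℝ (jConjSL γ) * J := by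
  ext i j
  fin_cases i <;> fin_cases j <;>
    simp [Matrix.mul_apply, Fin.sum_univ_two, jConjMat]

lemma J_inv_eq : (J : GL (Fin 2) ℝ)⁻¹ = J := by
  rw [inv_eq_iff_eq_inv, eq_inv_iff_mul_eq_one, ← sq, J_sq]

lemma J_mul_J : (J : GL (Fin 2) ℝ) * J = 1 := by
  rw [← sq, J_sq]

/-- `σ (γ z) = (jγj) (σ z)` for `σ z = -conj z`. -/
lemma J_smul_smul (γ : SL(2, ℤ)) (z : ℍ) : J • (γ • z) = jConjSL γ • (J • z) := by
  show J • (Matrix.SpecialLinearGroup.mapGL ℝ γ • z)
    = Matrix.SpecialLinearGroup.mapGL ℝ (jConjSL γ) • (J • z)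
  rw [← mul_smul, ← mul_smul, J_mul_mapGL]

lemma J_smul_I : J • UpperHalfPlane.I = UpperHalfPlane.I := by
  ext
  rw [coe_J_smul]
  simp

lemma im_J_smul (z : ℍ) : (J • z).im = z.im := by
  show ((J • z : ℍ) : ℂ).im = (z : ℂ).im
  rw [coe_J_smul]
  simp

lemma tendsto_J_smul_atImInfty : Tendsto (fun z : ℍ => J • z) atImInfty atImInfty := by
  rw [atImInfty, tendsto_comap_iff]
  have : (UpperHalfPlane.im ∘ fun z : ℍ => J • z) = UpperHalfPlane.im := by
    funext z; exact im_J_smul z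
  rw [this]
  exact tendsto_comap

open ConjAct Pointwise in
/-- `J` normalises `Γ₀(N)`. -/
lemma conjAct_J_Gamma0 (N : ℕ) :
    toConjAct (J : GL (Fin 2) ℝ)⁻¹ • ((Gamma0 N : Subgroup SL(2, ℤ)) : Subgroup (GL (Fin 2) ℝ))
      = ((Gamma0 N : Subgroup SL(2, ℤ)) : Subgroup (GL (Fin 2) ℝ)) := by
  ext g
  rw [Subgroup.mem_pointwise_smul_iff_inv_smul_mem, map_inv, inv_inv, ConjAct.toConjAct_smul,
    J_inv_eq]
  constructor
  · rintro ⟨γ, hγ, h⟩
    refine ⟨jConjSL γ, jConjSL_mem_Gamma0 hγ, ?_⟩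
    have : g = J * Matrix.SpecialLinearGroup.mapGL ℝ γ * J := by
      rw [h, mul_assoc, mul_assoc, J_mul_J, mul_one, ← mul_assoc, J_mul_J, one_mul]
    rw [this, J_mul_mapGL, mul_assoc, J_mul_J, mul_one]
  · rintro ⟨γ, hγ, rfl⟩
    refine ⟨jConjSL γ, jConjSL_mem_Gamma0 hγ, ?_⟩
    rw [J_mul_mapGL, mul_assoc, J_mul_J, mul_one]

/-- The cusp form `z ↦ conj (f (-conj z))`. -/
noncomputable def conjForm (N : ℕ) (f : CuspForm (Gamma0 N) 2) : CuspForm (Gamma0 N) 2 where
  toFun := ⇑f ∣[(2 : ℤ)] J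
  slash_action_eq' γ hγ :=
    (CuspForm.translate f J).slash_action_eq' γ ((conjAct_J_Gamma0 N).symm ▸ hγ)
  holo' := (CuspForm.translate f J).holo'
  zero_at_cusps' hc := (CuspForm.translate f J).zero_at_cusps' ((conjAct_J_Gamma0 N).symm ▸ hc)

lemma conjForm_apply (N : ℕ) (f : CuspForm (Gamma0 N) 2) (z : ℍ) :
    conjForm N f z = conj (f (J • z)) := by
  show (⇑f ∣[(2 : ℤ)] J) z = _
  simp [ModularForm.slash_def]

/-- The derivative of `w ↦ - conj (F (-conj w))`. -/
lemma hasDerivAt_conjPrimitive {F : ℍ → ℂ} {τ : ℍ} {a : ℂ}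
    (h : HasDerivAt (F ∘ ofComplex) a ↑(J • τ)) :
    HasDerivAt ((fun z : ℍ => - conj (F (J • z))) ∘ ofComplex) (conj a) ↑τ := by
  have hJ : (↑(J • τ) : ℂ) = -conj (τ : ℂ) := coe_J_smul τ
  have h' : HasDerivAt (F ∘ ofComplex) a (-(conj (τ : ℂ))) := by rw [← hJ]; exact h
  have h1 : HasDerivAt ((F ∘ ofComplex) ∘ Neg.neg) (a * (-1)) (conj (τ : ℂ)) :=
    HasDerivAt.comp (conj (τ : ℂ)) h' (hasDerivAt_neg (conj (τ : ℂ)))
  have h2 : HasDerivAt (conj ∘ ((F ∘ ofComplex) ∘ Neg.neg) ∘ conj) (conj (a * (-1))) (τ : ℂ) := by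
    rw [hasDerivAt_conj_conj_iff, Complex.conj_conj]
    exact h1
  have h3 := h2.neg
  have h4 : HasDerivAt (-(conj ∘ ((F ∘ ofComplex) ∘ Neg.neg) ∘ conj)) (conj a) (τ : ℂ) :=
    h3.congr_deriv (by simp)
  refine h4.congr_of_eventuallyEq ?_
  have hopen : {w : ℂ | 0 < w.im} ∈ 𝓝 (τ : ℂ) :=
    isOpen_upperHalfPlaneSet.mem_nhds τ.im_pos
  filter_upwards [hopen] with w hw
  simp only [Function.comp_apply, Pi.neg_apply]
  rw [J_smul, ofComplex_apply_of_im_pos hw]

/-- `G z = - conj (F (-conj z))` is an equivariant primitive of `conjForm N f`. -/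
theorem hasEquivariantPrimitive_conj (N : ℕ) (f : CuspForm (Gamma0 N) 2) {F : ℍ → ℂ}
    (hF : HasEquivariantPrimitive N f F) :
    HasEquivariantPrimitive N (conjForm N f) (fun z : ℍ => - conj (F (J • z))) := by
  obtain ⟨hderiv, hlim, hequiv, hcusp⟩ := hF
  refine ⟨?_, ?_, ?_, ?_⟩
  · intro τ
    rw [conjForm_apply]
    exact hasDerivAt_conjPrimitive (hderiv (J • τ))
  · have h1 : Tendsto (fun z : ℍ => F (J • z)) atImInfty (𝓝 0) :=
      hlim.comp tendsto_J_smul_atImInfty
    have h2 : Tendsto (fun z : ℍ => conj (F (J • z))) atImInfty (𝓝 (conj (0 : ℂ))) :=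
      (Complex.continuous_conj.tendsto 0).comp h1
    have h3 := h2.neg
    simpa using h3
  · intro γ
    obtain ⟨c, hc⟩ := hequiv (jConjGamma0 N γ)
    refine ⟨-conj c, fun z => ?_⟩
    have := hc (J • z)
    rw [jConjGamma0_coe] at this
    show -conj (F (J • ((γ : SL(2, ℤ)) • z))) - -conj (F (J • z)) = -conj c
    rw [J_smul_smul, ← this, map_sub]
    ring
  · intro δ
    obtain ⟨L, hL⟩ := hcusp (jConjSL δ)
    refine ⟨-conj L, ?_⟩
    have h1 : Tendsto (fun w : ℍ => F (jConjSL δ • (J • w))) atImInfty (𝓝 L) :=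
      hL.comp tendsto_J_smul_atImInfty
    have h2 : Tendsto (fun w : ℍ => conj (F (jConjSL δ • (J • w)))) atImInfty (𝓝 (conj L)) :=
      (Complex.continuous_conj.tendsto L).comp h1
    have h3 := h2.neg
    refine h3.congr fun w => ?_
    show -conj (F (jConjSL δ • (J • w))) = -conj (F (J • (δ • w)))
    rw [J_smul_smul]

end ConjPartner

open ConjPartner in
/-- **E1** (complex conjugation): for every cusp form `f` with primitive `F` there is a cusp form
`g` (namely `z ↦ conj (f (-conj z))`) with primitive `G` such that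
`G(γ i) - G(i) = - conj (F((jγj) i) - F(i))`. -/
theorem exists_conj_partner (N : ℕ) [NeZero N] (f : CuspForm (Gamma0 N) 2) {F : ℍ → ℂ}
    (hF : HasEquivariantPrimitive N f F) :
    ∃ (g : CuspForm (Gamma0 N) 2) (G : ℍ → ℂ), HasEquivariantPrimitive N g G ∧
      ∀ γ : Gamma0 N,
        G ((γ : SL(2, ℤ)) • UpperHalfPlane.I) - G UpperHalfPlane.I =
          - conj (F (((jConjGamma0 N γ : Gamma0 N) : SL(2, ℤ)) • UpperHalfPlane.I)
                    - F UpperHalfPlane.I) := by
  refine ⟨conjForm N f, fun z : ℍ => - conj (F (J • z)),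
    hasEquivariantPrimitive_conj N f hF, fun γ => ?_⟩
  show -conj (F (J • ((γ : SL(2, ℤ)) • UpperHalfPlane.I))) - -conj (F (J • UpperHalfPlane.I)) = _
  rw [J_smul_smul, J_smul_I, jConjGamma0_coe, map_sub]
  ring

end Fermat.Agent.S21

end
-- ===== PACK-END S21/ConjPartner.lean

-- ===== PACK-BEGIN S21/AbstractDirichlet.lean
section



/-!
# Abstract Dirichlet principle (S21, piece MS-E)

For a vector `a` and a subspace `V` of a real inner product space `H` (no completeness
assumed), a minimizing sequence `v n ∈ V` for `‖a + v‖ ^ 2` is Cauchy and `a + v n` is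
asymptotically orthogonal to `V`.
-/

namespace Fermat.Agent.S21

theorem abstract_dirichlet {H : Type*} [NormedAddCommGroup H] [InnerProductSpace ℝ H]
    (a : H) (V : Submodule ℝ H) :
    ∃ v : ℕ → H, (∀ n, v n ∈ V) ∧
      (∀ ε > 0, ∃ M, ∀ m ≥ M, ∀ n ≥ M, ‖v n - v m‖ ^ 2 < ε) ∧
      (∀ w ∈ V, Filter.Tendsto (fun n => inner ℝ (a + v n) w) Filter.atTop (nhds 0)) ∧
      (∀ n, ‖a + v n‖ ^ 2 ≤ ‖a‖ ^ 2 + 1) := by
  classical
  set S : Set ℝ := {r | ∃ v ∈ V, r = ‖a + v‖ ^ 2} with hS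
  have hSne : S.Nonempty := ⟨‖a + 0‖ ^ 2, 0, V.zero_mem, rfl⟩
  have hSbdd : BddBelow S := ⟨0, by
    rintro r ⟨v, -, rfl⟩
    positivity⟩
  set m : ℝ := sInf S with hm
  have hm_le : ∀ v ∈ V, m ≤ ‖a + v‖ ^ 2 := fun v hv => csInf_le hSbdd ⟨v, hv, rfl⟩
  have hm_le_a : m ≤ ‖a‖ ^ 2 := by
    have := hm_le 0 V.zero_mem
    simpa using this
  have hex : ∀ n : ℕ, ∃ v ∈ V, ‖a + v‖ ^ 2 < m + 1 / ((n : ℝ) + 1) := by
    intro n
    have hpos : (0 : ℝ) < 1 / ((n : ℝ) + 1) := by positivity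
    obtain ⟨r, ⟨v, hv, rfl⟩, hr⟩ := Real.lt_sInf_add_pos hSne hpos
    exact ⟨v, hv, hr⟩
  choose v hvV hvlt using hex
  have hone : ∀ n : ℕ, 1 / ((n : ℝ) + 1) ≤ 1 := by
    intro n
    have h1 : (1 : ℝ) ≤ (n : ℝ) + 1 := by
      have : (0 : ℝ) ≤ n := Nat.cast_nonneg n
      linarith
    exact (div_le_one (by positivity)).2 h1
  -- parallelogram estimate
  have hpar : ∀ n k : ℕ, ‖v n - v k‖ ^ 2 ≤ 2 / ((n : ℝ) + 1) + 2 / ((k : ℝ) + 1) := by
    intro n k
    have h1 := parallelogram_law_with_norm ℝ (a + v n) (a + v k)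
    have hmid : m ≤ ‖a + (1 / 2 : ℝ) • (v n + v k)‖ ^ 2 :=
      hm_le _ (V.smul_mem _ (V.add_mem (hvV n) (hvV k)))
    have hsum : (a + v n) + (a + v k) = (2 : ℝ) • (a + (1 / 2 : ℝ) • (v n + v k)) := by
      rw [smul_add, smul_smul]
      norm_num
      rw [two_smul]
      abel
    have hdiff : (a + v n) - (a + v k) = v n - v k := by abel
    rw [hsum, hdiff, norm_smul] at h1
    have h2 : ‖(2 : ℝ)‖ = 2 := by norm_num
    rw [h2] at h1
    have hn := hvlt n
    have hk := hvlt k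
    have e1 : 2 / ((n : ℝ) + 1) = 2 * (1 / ((n : ℝ) + 1)) := by ring
    have e2 : 2 / ((k : ℝ) + 1) = 2 * (1 / ((k : ℝ) + 1)) := by ring
    rw [e1, e2]
    nlinarith [h1, hmid, hn, hk]
  -- near orthogonality
  have horth : ∀ (n : ℕ) (w : H), w ∈ V →
      (inner ℝ (a + v n) w) ^ 2 ≤ ‖w‖ ^ 2 * (1 / ((n : ℝ) + 1)) := by
    intro n w hw
    set c : ℝ := inner ℝ (a + v n) w with hc
    by_cases hW : ‖w‖ ^ 2 = 0
    · have hw0 : w = 0 := by
        have : ‖w‖ = 0 := by simpa using hW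
        exact norm_eq_zero.1 this
      have : c = 0 := by rw [hc, hw0, inner_zero_right]
      rw [this, hW]
      simp
    · have hWpos : 0 < ‖w‖ ^ 2 := lt_of_le_of_ne (by positivity) (Ne.symm hW)
      set t : ℝ := -c / ‖w‖ ^ 2 with ht
      have hmem : v n + t • w ∈ V := V.add_mem (hvV n) (V.smul_mem _ hw)
      have h1 := hm_le _ hmem
      have hexp : ‖a + (v n + t • w)‖ ^ 2 = ‖a + v n‖ ^ 2 + 2 * t * c + t ^ 2 * ‖w‖ ^ 2 := by
        rw [← add_assoc, norm_add_sq_real, real_inner_smul_right, norm_smul, mul_pow]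
        simp only [Real.norm_eq_abs, sq_abs]
        rw [hc]
        ring
      rw [hexp] at h1
      have hn := hvlt n
      have hWne : ‖w‖ ^ 2 ≠ 0 := hW
      have key : 2 * t * c + t ^ 2 * ‖w‖ ^ 2 = -(c ^ 2) / ‖w‖ ^ 2 := by
        rw [ht]
        generalize ‖w‖ ^ 2 = W at hWne
        field_simp
        ring
      have h3 : 0 ≤ 1 / ((n : ℝ) + 1) + -(c ^ 2) / ‖w‖ ^ 2 := by
        rw [← key]; linarith
      have h4 : c ^ 2 / ‖w‖ ^ 2 ≤ 1 / ((n : ℝ) + 1) := by
        have : -(c ^ 2) / ‖w‖ ^ 2 = -(c ^ 2 / ‖w‖ ^ 2) := by ring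
        rw [this] at h3
        linarith
      rw [div_le_iff₀ hWpos] at h4
      linarith
  refine ⟨v, hvV, ?_, ?_, ?_⟩
  · intro ε hε
    obtain ⟨M, hM⟩ := exists_nat_gt (4 / ε)
    refine ⟨M, fun k hk n hn => ?_⟩
    have hMpos : (0 : ℝ) < (M : ℝ) + 1 := by positivity
    have hb : ∀ j : ℕ, j ≥ M → 2 / ((j : ℝ) + 1) < ε / 2 := by
      intro j hj
      have hj' : (M : ℝ) ≤ j := by exact_mod_cast hj
      have hjpos : (0 : ℝ) < (j : ℝ) + 1 := by positivity
      rw [div_lt_iff₀ hjpos]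
      have h4 : 4 / ε < (j : ℝ) + 1 := by linarith
      rw [div_lt_iff₀ hε] at h4
      linarith
    calc ‖v n - v k‖ ^ 2 ≤ 2 / ((n : ℝ) + 1) + 2 / ((k : ℝ) + 1) := hpar n k
      _ < ε / 2 + ε / 2 := add_lt_add (hb n hn) (hb k hk)
      _ = ε := by ring
  · intro w hw
    have hlim : Filter.Tendsto (fun n : ℕ => ‖w‖ ^ 2 * (1 / ((n : ℝ) + 1)))
        Filter.atTop (nhds 0) := by
      have := (tendsto_one_div_add_atTop_nhds_zero_nat (𝕜 := ℝ)).const_mul (‖w‖ ^ 2)
      simpa using this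
    have hsq : Filter.Tendsto (fun n : ℕ => (inner ℝ (a + v n) w) ^ 2)
        Filter.atTop (nhds 0) :=
      squeeze_zero (fun n => sq_nonneg _) (fun n => horth n w hw) hlim
    have habs : Filter.Tendsto (fun n : ℕ => |inner ℝ (a + v n) w|)
        Filter.atTop (nhds 0) := by
      have h := hsq.sqrt
      simpa [Real.sqrt_sq_eq_abs] using h
    exact (tendsto_zero_iff_abs_tendsto_zero _).2 habs
  · intro n
    have := hvlt n
    have := hone n
    linarith

end Fermat.Agent.S21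
end
-- ===== PACK-END S21/AbstractDirichlet.lean

-- ===== PACK-BEGIN S29/H201/Lattice.lean
section


/-!
# S29 / P5-E2 (helper201) — algebra: a finitely generated subgroup `L ≠ 0` of `ℂ`,
its multipliers are algebraic integers, and for every ring hom `ψ : ℤ̄ → F` (`F` a field of
characteristic `q > 0`) there is a nonzero additive `μ : L → F` with `μ (a x) = ψ a * μ x` for
all multipliers `a` (Nakayama).
-/

set_option autoImplicit false

namespace Fermat.Agent.S29.H201

/-- multipliers of a nonzero f.g. subgroup of `ℂ` are algebraic integers -/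
theorem isIntegral_of_mul_mem (L : AddSubgroup ℂ) (hL : L.FG) (hL0 : L ≠ ⊥) (a : ℂ)
    (ha : ∀ x ∈ L, a * x ∈ L) : IsIntegral ℤ a := by
  refine isIntegral_of_smul_mem_submodule (R := ℤ) (A := ℂ) (M := ℂ)
    (AddSubgroup.toIntSubmodule L) ?_ ?_ a ?_
  · intro h
    apply hL0
    have := congrArg Submodule.toAddSubgroup h
    simpa using this
  · rw [Submodule.fg_iff_addSubgroup_fg]
    simpa using hL
  · intro n hn
    exact ha n hn

/-- The multiplier ring of a subgroup of `ℂ`. -/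
def multRing (L : AddSubgroup ℂ) : Subring ℂ where
  carrier := {a | ∀ x ∈ L, a * x ∈ L}
  mul_mem' := fun {a b} ha hb x hx => by rw [mul_assoc]; exact ha _ (hb _ hx)
  one_mem' := fun x hx => by rwa [one_mul]
  add_mem' := fun {a b} ha hb x hx => by rw [add_mul]; exact L.add_mem (ha _ hx) (hb _ hx)
  zero_mem' := fun x _ => by rw [zero_mul]; exact L.zero_mem
  neg_mem' := fun {a} ha x hx => by rw [neg_mul]; exact L.neg_mem (ha _ hx)

theorem mem_multRing {L : AddSubgroup ℂ} {a : ℂ} : a ∈ multRing L ↔ ∀ x ∈ L, a * x ∈ L := Iff.rfl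

/-- `L` as a module over its multiplier ring. -/
def multModule (L : AddSubgroup ℂ) : Submodule (multRing L) ℂ where
  carrier := L
  add_mem' := L.add_mem
  zero_mem' := L.zero_mem
  smul_mem' := fun a _ hx => a.2 _ hx

theorem mem_multModule {L : AddSubgroup ℂ} {x : ℂ} : x ∈ multModule L ↔ x ∈ L := Iff.rfl

/-- **E2-alg** (Nakayama) -/
theorem exists_eigen_functional (L : AddSubgroup ℂ) (hL : L.FG) (hL0 : L ≠ ⊥)
    {F : Type*} [Field F] (q : ℕ) [Fact q.Prime] [CharP F q]
    (ψ : integralClosure ℤ ℂ →+* F) :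
    ∃ μ : L →+ F, μ ≠ 0 ∧
      ∀ a : integralClosure ℤ ℂ, ∀ ha : (∀ y ∈ L, (a : ℂ) * y ∈ L), ∀ x : L,
        μ ⟨(a : ℂ) * (x : ℂ), ha x x.2⟩ = ψ a * μ x := by
  -- the multiplier ring and its character
  set R := multRing L with hR
  have hint : ∀ a : R, (a : ℂ) ∈ integralClosure ℤ ℂ := fun a =>
    isIntegral_of_mul_mem L hL hL0 a a.2
  let ι : R →+* integralClosure ℤ ℂ := (R.subtype).codRestrict (integralClosure ℤ ℂ) hint
  let ψ' : R →+* F := ψ.comp ι
  set m : Ideal R := RingHom.ker ψ' with hm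
  haveI hprime : m.IsPrime := RingHom.ker_isPrime ψ'
  -- `R` is integral over `ℤ`
  haveI hRint : Algebra.IsIntegral ℤ R := by
    refine ⟨fun a => ?_⟩
    have h1 : IsIntegral ℤ (a : ℂ) := hint a
    obtain ⟨P, hP, hPa⟩ := h1
    refine ⟨P, hP, ?_⟩
    apply Subtype.ext
    have : ((Polynomial.eval₂ (algebraMap ℤ R) a P : R) : ℂ)
        = Polynomial.eval₂ (algebraMap ℤ ℂ) (a : ℂ) P := by
      rw [← Polynomial.aeval_def, ← Polynomial.aeval_def]
      exact (Polynomial.aeval_algHom_apply (R.subtype.toIntAlgHom) a P).symm ▸ rfl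
    rw [this, hPa]
    rfl
  -- `m` is maximal
  haveI hmax : m.IsMaximal := by
    refine Ideal.isMaximal_of_isIntegral_of_isMaximal_comap (R := ℤ) m ?_
    have hq : ((q : ℤ) : R) ∈ m := by
      rw [hm, RingHom.mem_ker, map_intCast]
      exact_mod_cast CharP.cast_eq_zero F q
    have hne : m.comap (algebraMap ℤ R) ≠ ⊥ := by
      intro h
      have h1 : (q : ℤ) ∈ m.comap (algebraMap ℤ R) := by
        rw [Ideal.mem_comap]
        exact hq
      rw [h, Ideal.mem_bot] at h1
      exact (Fact.out : q.Prime).ne_zero (by exact_mod_cast h1)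
    exact Ideal.IsPrime.isMaximal (Ideal.comap_isPrime _ _) hne
  -- Nakayama
  set M := multModule L with hM
  have hfg : (⊤ : Submodule R M).FG := by
    haveI : Module.Finite ℤ L := by
      rw [Module.Finite.iff_addGroup_fg]
      exact (AddGroup.fg_iff_addSubgroup_fg L).mpr hL
    have : Module.Finite ℤ M := ‹Module.Finite ℤ L›
    haveI : Module.Finite R M := Module.Finite.of_restrictScalars_finite ℤ R M
    exact Module.Finite.fg_top
  have hnak : ¬ ((⊤ : Submodule R M) ≤ m • ⊤) := by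
    intro hle
    obtain ⟨r, hr1, hr0⟩ := Submodule.exists_sub_one_mem_and_smul_eq_zero_of_fg_of_le_smul m
      (⊤ : Submodule R M) hfg hle
    obtain ⟨x₀, hx₀, hx₀0⟩ : ∃ x ∈ L, x ≠ 0 := by
      by_contra hcon
      push_neg at hcon
      exact hL0 ((AddSubgroup.eq_bot_iff_forall L).mpr hcon)
    have h2 := hr0 ⟨x₀, hx₀⟩ trivial
    have h3 : (r : ℂ) * x₀ = 0 := by
      have := congrArg Subtype.val h2
      simpa using this
    have h4 : (r : ℂ) = 0 := by
      rcases mul_eq_zero.mp h3 with h | h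
      · exact h
      · exact absurd h hx₀0
    have h5 : r = 0 := Subtype.ext h4
    rw [h5, zero_sub, hm, RingHom.mem_ker, map_neg, map_one, neg_eq_zero] at hr1
    exact one_ne_zero hr1
  obtain ⟨v, -, hv⟩ := SetLike.not_le_iff_exists.mp hnak
  -- a functional on the quotient
  letI : Field (R ⧸ m) := Ideal.Quotient.field m
  set Q := M ⧸ (m • ⊤ : Submodule R M) with hQ
  have hv0 : (Submodule.Quotient.mk v : Q) ≠ 0 := by
    rw [Ne, Submodule.Quotient.mk_eq_zero]
    exact hv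
  obtain ⟨φ, hφ⟩ : ∃ φ : Module.Dual (R ⧸ m) Q, φ (Submodule.Quotient.mk v) ≠ 0 := by
    by_contra hcon
    push_neg at hcon
    exact hv0 ((Module.forall_dual_apply_eq_zero_iff (R ⧸ m) _).mp hcon)
  let ψbar : (R ⧸ m) →+* F := RingHom.kerLift ψ'
  have hψbar : Function.Injective ψbar := RingHom.kerLift_injective ψ'
  let toM : L →+ M :=
    { toFun := fun x => ⟨x.1, x.2⟩
      map_zero' := rfl
      map_add' := fun _ _ => rfl }
  let μ : L →+ F :=
    ((ψbar : (R ⧸ m) →+ F).comp (φ : Q →+ (R ⧸ m))).comp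
      (((Submodule.mkQ (m • ⊤ : Submodule R M)) : M →+ Q).comp toM)
  refine ⟨μ, ?_, ?_⟩
  · intro h0
    have h1 : μ ⟨v.1, v.2⟩ = 0 := by rw [h0]; rfl
    have h2 : ψbar (φ (Submodule.Quotient.mk v)) = 0 := h1
    rw [← map_zero ψbar] at h2
    exact hφ (hψbar h2)
  · intro a ha x
    let a' : R := ⟨(a : ℂ), ha⟩
    have h1 : (toM ⟨(a : ℂ) * (x : ℂ), ha x x.2⟩ : M) = a' • toM x := rfl
    show ψbar (φ (Submodule.Quotient.mk (toM ⟨(a : ℂ) * (x : ℂ), ha x x.2⟩))) =
      ψ a * ψbar (φ (Submodule.Quotient.mk (toM x)))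
    rw [h1, Submodule.Quotient.mk_smul]
    have h2 : (a' • (Submodule.Quotient.mk (toM x) : Q))
        = (Ideal.Quotient.mk m a') • (Submodule.Quotient.mk (toM x) : Q) := rfl
    rw [h2, map_smul, smul_eq_mul, map_mul]
    congr 1

end Fermat.Agent.S29.H201

end
-- ===== PACK-END S29/H201/Lattice.lean

-- ===== PACK-BEGIN S23/Cap/Defs.lean
section



/-!
# S23 common definitions (captain: helper23)

Everything is phrased for plain functions `ℍ → ℂ` with the predicates `IsMF` / `IsCF`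
("is the underlying function of a modular / cusp form of level `Γ`, weight `k`"),
so that weights never appear in types.
-/

set_option autoImplicit false

namespace Fermat.Agent.S23.Cap

open UpperHalfPlane ModularForm ModularFormClass MatrixGroups CongruenceSubgroup

/-- `Γ₀(N)` as a subgroup of `GL(2,ℝ)` (this is what `CuspForm (Gamma0 N) k` elaborates to). -/
abbrev G0 (N : ℕ) : Subgroup (GL (Fin 2) ℝ) :=
  Subgroup.map (Matrix.SpecialLinearGroup.mapGL ℝ) (Gamma0 N)

/-- `SL(2,ℤ)` as a subgroup of `GL(2,ℝ)` (Mathlib notation `𝒮ℒ`). -/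
abbrev SLZ : Subgroup (GL (Fin 2) ℝ) := 𝒮ℒ

/-- `f` is (the function underlying) a modular form of level `Γ` and weight `k`. -/
def IsMF (Γ : Subgroup (GL (Fin 2) ℝ)) (k : ℤ) (f : ℍ → ℂ) : Prop :=
  ∃ g : ModularForm Γ k, (g : ℍ → ℂ) = f

/-- `f` is (the function underlying) a cusp form of level `Γ` and weight `k`. -/
def IsCF (Γ : Subgroup (GL (Fin 2) ℝ)) (k : ℤ) (f : ℍ → ℂ) : Prop :=
  ∃ g : CuspForm Γ k, (g : ℍ → ℂ) = f

/-- The `q`-expansion (period 1). -/
noncomputable abbrev qx (f : ℍ → ℂ) : PowerSeries ℂ := qExpansion 1 f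

/-- All coefficients are integers (same shape as in `CuspForm.intLattice`). -/
def IsIntSeries (F : PowerSeries ℂ) : Prop := ∀ n : ℕ, ∃ m : ℤ, PowerSeries.coeff n F = (m : ℂ)

/-- All coefficients are rational. -/
def IsRatSeries (F : PowerSeries ℂ) : Prop := ∀ n : ℕ, ∃ r : ℚ, PowerSeries.coeff n F = (r : ℂ)

end Fermat.Agent.S23.Cap

end
-- ===== PACK-END S23/Cap/Defs.lean

-- ===== PACK-BEGIN S23/H143/PrimElt.lean
section






set_option autoImplicit false

open UpperHalfPlane ModularForm CongruenceSubgroup Filter Topology Matrix.SpecialLinearGroup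
open scoped MatrixGroups ModularForm Manifold

namespace Fermat.Agent.S23.H143

noncomputable section

theorem primElt_det_eq (g : SL(2, ℤ)) : g 0 0 * g 1 1 - g 0 1 * g 1 0 = 1 := by
  have h := g.det_coe
  rwa [Matrix.det_fin_two] at h

/-- Hermite normal form: `diag(N,1) * g = h * [a b; 0 d]` with `h ∈ SL₂(ℤ)`, `a = gcd(N, c)`,
`a * d = N`. Integer-entry version. -/
theorem primElt_hermite_int {N : ℕ} (hN : N ≠ 0) (g : SL(2, ℤ)) :
    ∃ (h : SL(2, ℤ)) (b : ℤ) (a d : ℕ), a * d = N ∧ a = Int.gcd N (g 1 0) ∧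
      (N : ℤ) * g 0 0 = h 0 0 * a ∧ (N : ℤ) * g 0 1 = h 0 0 * b + h 0 1 * d ∧
      g 1 0 = h 1 0 * a ∧ g 1 1 = h 1 0 * b + h 1 1 * d := by
  have hdet := primElt_det_eq g
  set e : ℕ := Int.gcd N (g 1 0) with he
  have he0 : e ≠ 0 := by
    intro h0
    rw [he, Int.gcd_eq_zero_iff] at h0
    exact hN (by exact_mod_cast h0.1)
  have heN : (e : ℤ) ∣ N := Int.gcd_dvd_left _ _
  have hec : (e : ℤ) ∣ g 1 0 := Int.gcd_dvd_right _ _
  obtain ⟨n', hn'⟩ := heN
  obtain ⟨y, hy⟩ := hec
  -- gcd(n', y) = 1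
  have hcop1 : IsCoprime n' y := by
    have hgcd : Int.gcd (e * n') (e * y) = e := by rw [← hn', ← hy]
    rw [Int.gcd_mul_left, Int.natAbs_natCast] at hgcd
    have : Int.gcd n' y = 1 := by
      have he0' : 0 < e := Nat.pos_of_ne_zero he0
      exact Nat.eq_of_mul_eq_mul_left he0' (by rw [hgcd, mul_one])
    exact Int.isCoprime_iff_gcd_eq_one.mpr this
  -- gcd(g00, y) = 1 since gcd(g00, g10) = 1
  have hcop2 : IsCoprime (g 0 0) y := by
    have : IsCoprime (g 0 0) (g 1 0) := ⟨g 1 1, -g 0 1, by linear_combination hdet⟩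
    rw [hy] at this
    exact this.of_mul_right_right
  have hcop : IsCoprime (n' * g 0 0) y := hcop1.mul_left hcop2
  obtain ⟨h, h00, h10⟩ := hcop.exists_SL2_col 0
  have hdeth := primElt_det_eq h
  have hn'pos : 0 < n' := by
    have h1 : (0 : ℤ) < e * n' := by rw [← hn']; exact_mod_cast Nat.pos_of_ne_zero hN
    have h2 : (0 : ℤ) < e := by exact_mod_cast Nat.pos_of_ne_zero he0
    exact (pos_iff_pos_of_mul_pos h1).mp h2
  refine ⟨h, h 1 1 * N * g 0 1 - h 0 1 * g 1 1, e, n'.toNat, ?_, rfl, ?_, ?_, ?_, ?_⟩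
  · have : ((e * n'.toNat : ℕ) : ℤ) = (N : ℤ) := by
      push_cast
      rw [Int.toNat_of_nonneg hn'pos.le, hn']
    exact_mod_cast this
  · rw [h00, hn']; ring
  · rw [Int.toNat_of_nonneg hn'pos.le]
    rw [h00, h10] at hdeth
    rw [hy] at hdet
    rw [h00, hn']
    linear_combination (-(e * n' * g 0 1)) * hdeth + (n' * h 0 1) * hdet
  · rw [h10, hy]; ring
  · rw [Int.toNat_of_nonneg hn'pos.le]
    rw [h00, h10] at hdeth
    rw [hy] at hdet
    rw [h10, hn']
    linear_combination (-(g 1 1)) * hdeth + (h 1 1 * n') * hdet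

/-- Restriction of a modular form to a smaller subgroup. -/
def restrictMF {Γ Γ' : Subgroup (GL (Fin 2) ℝ)} {k : ℤ} (h : Γ ≤ Γ') (f : ModularForm Γ' k) :
    ModularForm Γ k where
  toFun := f
  slash_action_eq' γ hγ := f.slash_action_eq' γ (h hγ)
  holo' := f.holo'
  bdd_at_cusps' hc := f.bdd_at_cusps' (hc.mono h)

@[simp] theorem coe_restrictMF {Γ Γ' : Subgroup (GL (Fin 2) ℝ)} {k : ℤ} (h : Γ ≤ Γ')
    (f : ModularForm Γ' k) : ⇑(restrictMF h f) = ⇑f := rfl

/-- GL₂(ℝ) version of the Hermite decomposition. -/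
theorem primElt_hermite {N : ℕ} (hN : N ≠ 0) (g : SL(2, ℤ)) :
    ∃ (h : SL(2, ℤ)) (b : ℤ) (a d : ℕ) (had : (a : ℝ) * (d : ℝ) ≠ 0),
      a * d = N ∧ a = Int.gcd N (g 1 0) ∧
      heckeDiagMatrix N * mapGL ℝ g = mapGL ℝ h * upperTriangularGL a b d had := by
  obtain ⟨h, b, a, d, had, ha, h1, h2, h3, h4⟩ := primElt_hermite_int hN g
  have had' : (a : ℝ) * (d : ℝ) ≠ 0 := by
    have : ((a * d : ℕ) : ℝ) ≠ 0 := by rw [had]; exact_mod_cast hN
    exact_mod_cast this
  refine ⟨h, b, a, d, had', had, ha, ?_⟩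
  have e1 := congrArg (Int.cast : ℤ → ℝ) h1
  have e2 := congrArg (Int.cast : ℤ → ℝ) h2
  have e3 := congrArg (Int.cast : ℤ → ℝ) h3
  have e4 := congrArg (Int.cast : ℤ → ℝ) h4
  push_cast at e1 e2 e3 e4
  ext i j
  fin_cases i <;> fin_cases j <;>
    simp [hN, Matrix.mul_apply, Fin.sum_univ_two] <;> linarith

theorem det_upperTriangularGL (a b d : ℝ) (had : a * d ≠ 0) :
    ((upperTriangularGL a b d had).det : ℝ) = a * d := by
  rw [Matrix.GeneralLinearGroup.val_det_apply, val_upperTriangularGL, Matrix.det_fin_two_of]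
  ring

theorem slash_upperTriangularGL_apply (k : ℤ) {a d : ℝ} (b : ℝ) (ha : 0 < a) (hd : 0 < d)
    (had : a * d ≠ 0) (f : ℍ → ℂ) (τ : ℍ) :
    (f ∣[k] upperTriangularGL a b d had) τ =
      f (upperTriangularGL a b d had • τ) * ((a : ℂ) * d) ^ (k - 1) * (d : ℂ) ^ (-k) := by
  have hdet : 0 < ((upperTriangularGL a b d had).det : ℝ) := by
    rw [det_upperTriangularGL]; positivity
  have hσ : UpperHalfPlane.σ (upperTriangularGL a b d had) = .refl ℝ ℂ := by
    rw [UpperHalfPlane.σ, if_pos hdet]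
  have hden : UpperHalfPlane.denom (upperTriangularGL a b d had) τ = d := by
    simp [UpperHalfPlane.denom]
  rw [ModularForm.slash_apply, hσ, det_upperTriangularGL, hden]
  simp only [ContinuousAlgEquiv.refl_apply]
  rw [abs_of_pos (by positivity)]
  push_cast
  ring

theorem tendsto_E₄_atImInfty : Tendsto (⇑E₄) atImInfty (𝓝 1) := by
  have hanal := ModularFormClass.analyticAt_cuspFunction_zero E₄ one_pos
    one_mem_strictPeriods_SL
  have hper := SlashInvariantFormClass.periodic_comp_ofComplex E₄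
    one_mem_strictPeriods_SL
  have h0 : cuspFunction 1 (⇑E₄) 0 = 1 := by
    rw [cuspFunction_apply_zero one_pos hanal hper,
      ← qExpansion_coeff_zero one_pos hanal hper]
    exact EisensteinSeries.E_qExpansion_coeff_zero (by norm_num) (by decide)
  have := (hanal.continuousAt.tendsto.comp (qParam_tendsto_atImInfty one_pos)).congr
    (fun τ ↦ SlashInvariantFormClass.eq_cuspFunction E₄ τ
      one_mem_strictPeriods_SL one_ne_zero)
  rwa [h0] at this

theorem primElt_mapGL_apply (g : SL(2, ℤ)) (i j : Fin 2) :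
    (mapGL ℝ g : GL (Fin 2) ℝ) i j = ((g i j : ℤ) : ℝ) := by
  simp

theorem primElt_diag_mul_of_dvd {N : ℕ} (hN : N ≠ 0) (g : SL(2, ℤ)) (e : ℤ)
    (he : g 1 0 = N * e) :
    ∃ g' : SL(2, ℤ), heckeDiagMatrix N * mapGL ℝ g = mapGL ℝ g' * heckeDiagMatrix N := by
  have hdet := primElt_det_eq g
  refine ⟨⟨!![g 0 0, N * g 0 1; e, g 1 1], ?_⟩, ?_⟩
  · rw [Matrix.det_fin_two_of]
    linear_combination hdet + (g 0 1) * he
  · ext i j
    fin_cases i <;> fin_cases j <;>
      simp [hN, Matrix.mul_apply, Fin.sum_univ_two]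
    all_goals first
      | (have := congrArg (Int.cast : ℤ → ℝ) he; push_cast at this ⊢; linear_combination this)
      | (have := congrArg (Int.cast : ℤ → ℝ) he; push_cast at this ⊢; linear_combination -this)
      | ring1

open ConjAct Pointwise in
theorem Gamma0_le_conj_SL {N : ℕ} (hN : N ≠ 0) :
    (Gamma0 N : Subgroup (GL (Fin 2) ℝ)) ≤ toConjAct (heckeDiagMatrix N)⁻¹ • 𝒮ℒ := by
  rintro γ ⟨g, hg, rfl⟩
  rw [Subgroup.mem_pointwise_smul_iff_inv_smul_mem, ← map_inv, inv_inv, ConjAct.smul_def,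
    ConjAct.ofConjAct_toConjAct]
  have hg' : ((g 1 0 : ℤ) : ZMod N) = 0 := by simpa [Gamma0_mem] using hg
  obtain ⟨e, he⟩ := (ZMod.intCast_zmod_eq_zero_iff_dvd _ _).mp hg'
  obtain ⟨g', hg'⟩ := primElt_diag_mul_of_dvd hN g e he
  rw [hg', mul_inv_cancel_right]
  exact ⟨g', rfl⟩

/-- The primitive element `t = N³ E₄(N τ)`, a weight-4 modular form on `Γ₀(N)`. -/
def primElt (N : ℕ) [NeZero N] : ModularForm (Gamma0 N : Subgroup (GL (Fin 2) ℝ)) 4 :=
  restrictMF (Gamma0_le_conj_SL (NeZero.ne N)) (ModularForm.translate E₄ (heckeDiagMatrix N))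

theorem coe_primElt (N : ℕ) [NeZero N] :
    ⇑(primElt N) = (⇑E₄) ∣[(4 : ℤ)] heckeDiagMatrix N := rfl

theorem primElt_apply (N : ℕ) [NeZero N] (τ : ℍ) :
    primElt N τ = (N : ℂ) ^ 3 * E₄ (heckeDiagMatrix N • τ) := by
  rw [coe_primElt, slash_heckeDiagMatrix_apply 4 (NeZero.ne N)]
  norm_num

theorem tendsto_primElt_atImInfty (N : ℕ) [NeZero N] :
    Tendsto (⇑(primElt N)) atImInfty (𝓝 ((N : ℂ) ^ 3)) := by
  have h1 : Tendsto (fun τ : ℍ ↦ heckeDiagMatrix N • τ) atImInfty atImInfty :=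
    tendsto_smul_atImInfty (by simp [val_heckeDiagMatrix (NeZero.ne N)])
  have h2 := (tendsto_E₄_atImInfty.comp h1).const_mul ((N : ℂ) ^ 3)
  rw [mul_one] at h2
  exact h2.congr (fun τ ↦ (primElt_apply N τ).symm)

/-- Slash of the primitive element by an arbitrary `g ∈ SL₂(ℤ)`: its limit at `i∞` is
`N³ / d⁴` where `d = N / gcd(N, c)`. -/
theorem tendsto_primElt_slash_atImInfty (N : ℕ) [NeZero N] (g : SL(2, ℤ)) :
    ∃ a d : ℕ, a * d = N ∧ a = Int.gcd N (g 1 0) ∧
      Tendsto ((⇑(primElt N)) ∣[(4 : ℤ)] (mapGL ℝ g)) atImInfty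
        (𝓝 ((N : ℂ) ^ 3 * ((d : ℂ) ^ 4)⁻¹)) := by
  obtain ⟨h, b, a, d, had, hadN, ha, hmat⟩ := primElt_hermite (NeZero.ne N) g
  refine ⟨a, d, hadN, ha, ?_⟩
  have hN : (N : ℝ) ≠ 0 := by exact_mod_cast NeZero.ne N
  have ha0 : (0 : ℝ) < a := by
    rcases Nat.eq_zero_or_pos a with h0 | h0
    · simp [h0] at had
    · exact_mod_cast h0
  have hd0 : (0 : ℝ) < d := by
    rcases Nat.eq_zero_or_pos d with h0 | h0
    · simp [h0] at had
    · exact_mod_cast h0
  have hE : (⇑E₄) ∣[(4 : ℤ)] (mapGL ℝ h) = ⇑E₄ :=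
    SlashInvariantFormClass.slash_action_eq E₄ _ ⟨h, rfl⟩
  have hfun : (⇑(primElt N)) ∣[(4 : ℤ)] (mapGL ℝ g) =
      (⇑E₄) ∣[(4 : ℤ)] (upperTriangularGL a b d had) := by
    rw [coe_primElt, ← SlashAction.slash_mul, hmat, SlashAction.slash_mul, hE]
  rw [hfun]
  have h1 : Tendsto (fun τ : ℍ ↦ upperTriangularGL a b d had • τ) atImInfty atImInfty :=
    tendsto_smul_atImInfty (by simp)
  have h2 := ((tendsto_E₄_atImInfty.comp h1).mul_const
    (((a : ℂ) * d) ^ ((4 : ℤ) - 1))).mul_const ((d : ℂ) ^ (-(4 : ℤ)))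
  have hval : (1 : ℂ) * ((a : ℂ) * d) ^ ((4 : ℤ) - 1) * (d : ℂ) ^ (-(4 : ℤ)) =
      (N : ℂ) ^ 3 * ((d : ℂ) ^ 4)⁻¹ := by
    have : ((a : ℂ) * d) = N := by exact_mod_cast congrArg (Nat.cast : ℕ → ℂ) hadN
    rw [this, one_mul]
    norm_num [zpow_neg]
  rw [hval] at h2
  refine h2.congr (fun τ ↦ ?_)
  rw [slash_upperTriangularGL_apply 4 (b : ℝ) ha0 hd0 had]
  simp

theorem primElt_slash_ne (N : ℕ) [NeZero N] (g : SL(2, ℤ)) (hg : g ∉ Gamma0 N) :
    (⇑(primElt N)) ∣[(4 : ℤ)] (mapGL ℝ g) ≠ ⇑(primElt N) := by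
  intro heq
  obtain ⟨a, d, hadN, ha, hlim⟩ := tendsto_primElt_slash_atImInfty N g
  rw [heq] at hlim
  have huniq := tendsto_nhds_unique hlim (tendsto_primElt_atImInfty N)
  have hN : (N : ℂ) ≠ 0 := by exact_mod_cast NeZero.ne N
  have hd4 : ((d : ℂ) ^ 4)⁻¹ = 1 := by
    have := mul_left_cancel₀ (pow_ne_zero 3 hN) (huniq.trans (mul_one _).symm)
    exact this
  have hd4' : (d : ℂ) ^ 4 = 1 := by
    rw [inv_eq_one] at hd4; exact hd4
  have hd : d = 1 := by
    have : (d ^ 4 : ℕ) = 1 := by exact_mod_cast hd4'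
    exact (Nat.pow_eq_one.mp this).resolve_right (by norm_num)
  rw [hd, mul_one] at hadN
  rw [hadN] at ha
  apply hg
  rw [Gamma0_mem, ZMod.intCast_zmod_eq_zero_iff_dvd]
  have : ((Int.gcd N (g 1 0) : ℕ) : ℤ) ∣ g 1 0 := Int.gcd_dvd_right _ _
  rwa [← ha] at this

/-- The `q`-expansion coefficients of `E₄` are integers. -/
theorem E₄_qExpansion_coeff_int (m : ℕ) : ∃ z : ℤ, (qExpansion 1 E₄).coeff m = (z : ℂ) := by
  rw [EisensteinSeries.E_qExpansion_coeff (by norm_num : 3 ≤ 4) ⟨2, rfl⟩ m]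
  have hb : bernoulli 4 = -1 / 30 := by
    rw [bernoulli_eq_bernoulli'_of_ne_one (by norm_num), bernoulli'_four]
  split_ifs with h
  · exact ⟨1, by simp⟩
  · refine ⟨240 * (ArithmeticFunction.sigma 3 m : ℤ), ?_⟩
    rw [hb]
    push_cast
    norm_num

theorem qParam_heckeDiagMatrix_smul (N : ℕ) [NeZero N] (τ : ℍ) :
    Function.Periodic.qParam 1 ((heckeDiagMatrix N • τ : ℍ) : ℂ) =
      Function.Periodic.qParam 1 (τ : ℂ) ^ N := by
  rw [coe_heckeDiagMatrix_smul (NeZero.ne N), Function.Periodic.qParam, Function.Periodic.qParam,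
    ← Complex.exp_nat_mul]
  congr 1
  push_cast
  ring

/-- The `q`-expansion of the primitive element `N³ E₄(N τ)`. -/
theorem primElt_qExpansion_coeff (N : ℕ) [NeZero N] (n : ℕ) :
    (qExpansion 1 (primElt N)).coeff n =
      if N ∣ n then (N : ℂ) ^ 3 * (qExpansion 1 E₄).coeff (n / N) else 0 := by
  set c : ℕ → ℂ := fun n ↦ if N ∣ n then (N : ℂ) ^ 3 * (qExpansion 1 E₄).coeff (n / N) else 0
    with hc
  have hN : 0 < N := Nat.pos_of_ne_zero (NeZero.ne N)
  have hinj : Function.Injective (fun m : ℕ ↦ N * m) := fun a b h ↦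
    Nat.eq_of_mul_eq_mul_left hN h
  have key : ∀ τ : ℍ, HasSum (fun m ↦ c m • Function.Periodic.qParam 1 (τ : ℂ) ^ m)
      (primElt N τ) := by
    intro τ
    have h1 := ModularForm.hasSum_qExpansion E₄ one_pos one_mem_strictPeriods_SL
      (heckeDiagMatrix N • τ)
    rw [qParam_heckeDiagMatrix_smul] at h1
    have h2 := h1.mul_left ((N : ℂ) ^ 3)
    rw [← primElt_apply] at h2
    rw [← hinj.hasSum_iff]
    · have hfun : ((fun m ↦ c m • Function.Periodic.qParam 1 (τ : ℂ) ^ m) ∘ fun m : ℕ ↦ N * m) =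
          fun i ↦ (N : ℂ) ^ 3 * ((qExpansion 1 E₄).coeff i *
            (Function.Periodic.qParam 1 (τ : ℂ) ^ N) ^ i) := by
        funext m
        simp only [Function.comp_apply, hc, dvd_mul_right, if_true,
          Nat.mul_div_cancel_left m hN, smul_eq_mul]
        rw [pow_mul]
        ring
      rw [hfun]
      exact h2
    · intro x hx
      have : ¬ N ∣ x := fun ⟨m, hm⟩ ↦ hx ⟨m, hm.symm⟩
      simp [hc, this]
  exact (ModularFormClass.qExpansion_coeff_unique one_pos
    (CongruenceSubgroup.one_mem_strictPeriods_Gamma0 N) key n).symm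

theorem primElt_qExpansion_coeff_int (N : ℕ) [NeZero N] (n : ℕ) :
    ∃ z : ℤ, (qExpansion 1 (primElt N)).coeff n = (z : ℂ) := by
  rw [primElt_qExpansion_coeff]
  split_ifs with h
  · obtain ⟨z, hz⟩ := E₄_qExpansion_coeff_int (n / N)
    exact ⟨(N : ℤ) ^ 3 * z, by rw [hz]; push_cast; ring⟩
  · exact ⟨0, by simp⟩

section conjugates

open SlashInvariantForm

local notation "𝒢₀" N => (Gamma0 N : Subgroup (GL (Fin 2) ℝ))

/-- The conjugates of the primitive element under the nontrivial cosets of `Γ₀(N)` in `SL₂(ℤ)`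
are all different from the primitive element itself. -/
theorem quotientFunc_primElt_ne (N : ℕ) [NeZero N]
    (q : 𝒮ℒ ⧸ (𝒢₀ N).subgroupOf 𝒮ℒ) (hq : q ≠ QuotientGroup.mk 1) :
    quotientFunc (primElt N) q ≠ ⇑(primElt N) := by
  induction q using Quotient.inductionOn with
  | h r =>
    obtain ⟨g, hgr⟩ := MonoidHom.mem_range.mp r.2
    rw [quotientFunc_mk]
    have hg : g⁻¹ ∉ Gamma0 N := by
      intro hmem
      apply hq
      have h1 : (Quotient.mk _ r : 𝒮ℒ ⧸ (𝒢₀ N).subgroupOf 𝒮ℒ) = QuotientGroup.mk r := rfl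
      rw [h1, QuotientGroup.eq, mul_one, Subgroup.mem_subgroupOf]
      refine ⟨g⁻¹, hmem, ?_⟩
      rw [map_inv, hgr]
      rfl
    have := primElt_slash_ne N g⁻¹ hg
    rwa [map_inv, hgr] at this

theorem mdiff_quotientFunc_primElt (N : ℕ) [NeZero N]
    (q : 𝒮ℒ ⧸ (𝒢₀ N).subgroupOf 𝒮ℒ) : MDiff (quotientFunc (primElt N) q) := by
  induction q using Quotient.inductionOn with
  | h r => exact (ModularForm.translate (primElt N) r.val⁻¹).holo'

/-- The "different" `∏_{q ≠ 1} (t - t_q)` of the primitive element is not identically zero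
(function version, for any finset of cosets avoiding the trivial coset). -/
theorem prod_primElt_sub_quotientFunc_ne_zero (N : ℕ) [NeZero N]
    (s : Finset (𝒮ℒ ⧸ (𝒢₀ N).subgroupOf 𝒮ℒ)) (hs : QuotientGroup.mk 1 ∉ s) :
    (∏ q ∈ s, (⇑(primElt N) - quotientFunc (primElt N) q)) ≠ 0 := by
  intro h0
  have hmd : ∀ q ∈ s, MDiff (⇑(primElt N) - quotientFunc (primElt N) q) :=
    fun q _ ↦ (ModularFormClass.holo (primElt N)).sub (mdiff_quotientFunc_primElt N q)
  obtain ⟨q, hq, hq0⟩ := (UpperHalfPlane.prod_eq_zero_iff hmd).mp h0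
  have hq1 : q ≠ QuotientGroup.mk 1 := fun h ↦ hs (h ▸ hq)
  exact quotientFunc_primElt_ne N q hq1 (sub_eq_zero.mp hq0).symm

/-- Pointwise version. -/
theorem exists_prod_primElt_sub_quotientFunc_ne_zero (N : ℕ) [NeZero N]
    (s : Finset (𝒮ℒ ⧸ (𝒢₀ N).subgroupOf 𝒮ℒ)) (hs : QuotientGroup.mk 1 ∉ s) :
    ∃ τ : ℍ, (∏ q ∈ s, (primElt N τ - quotientFunc (primElt N) q τ)) ≠ 0 := by
  by_contra hcon
  push Not at hcon
  apply prod_primElt_sub_quotientFunc_ne_zero N s hs
  funext τ
  simpa using hcon τ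

end conjugates

end

end Fermat.Agent.S23.H143

end
-- ===== PACK-END S23/H143/PrimElt.lean

-- ===== PACK-BEGIN S23/BddDenom.lean
section


/-!
# Bounded denominators: a pure power-series lemma (S23, helper263)

`IntSpan` is the `ℂ`-subalgebra of `ℂ⟦X⟧` spanned by power series with integer coefficients.

Main result `Fermat.Agent.S23.BddDenom.bdd`:
if `x : ℂ⟦X⟧` has rational coefficients, is a root of a monic polynomial with coefficients in
`IntSpan`, and satisfies `D * x = F` with `D F ∈ IntSpan`, `D ≠ 0`, then some positive integer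
multiple of `x` has integer coefficients.
-/

set_option autoImplicit false

open PowerSeries

namespace Fermat.Agent.S23.BddDenom

noncomputable section

/-- The natural map `ℤ⟦X⟧ → ℂ⟦X⟧`. -/
abbrev iZC : ℤ⟦X⟧ →+* ℂ⟦X⟧ := PowerSeries.map (Int.castRingHom ℂ)

/-- The natural map `ℤ⟦X⟧ → ℚ⟦X⟧`. -/
abbrev iZQ : ℤ⟦X⟧ →+* ℚ⟦X⟧ := PowerSeries.map (Int.castRingHom ℚ)

/-- The natural map `ℚ⟦X⟧ → ℂ⟦X⟧`. -/
abbrev iQC : ℚ⟦X⟧ →+* ℂ⟦X⟧ := PowerSeries.map (algebraMap ℚ ℂ)

/-- The `ℂ`-subalgebra of `ℂ⟦X⟧` generated by the power series with integer coefficients. -/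
def IntSpan : Subalgebra ℂ ℂ⟦X⟧ := Algebra.adjoin ℂ (Set.range iZC)

theorem iZC_mem_IntSpan (z : ℤ⟦X⟧) : iZC z ∈ IntSpan :=
  Algebra.subset_adjoin ⟨z, rfl⟩

/-- A power series all of whose coefficients are integers lies in `IntSpan`. -/
theorem mem_IntSpan_of_int_coeff {s : ℂ⟦X⟧} (hs : ∀ n, ∃ m : ℤ, coeff n s = (m : ℂ)) :
    s ∈ IntSpan := by
  choose m hm using hs
  have : s = iZC (PowerSeries.mk m) := by
    ext n
    simp [hm n]
  rw [this]
  exact iZC_mem_IntSpan _

theorem IntSpan_toSubmodule :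
    Subalgebra.toSubmodule IntSpan = Submodule.span ℂ (Set.range iZC) := by
  rw [IntSpan, Algebra.adjoin_eq_span]
  congr 1
  have : (Submonoid.closure (Set.range iZC) : Set ℂ⟦X⟧) = ((MonoidHom.mrange (iZC : ℤ⟦X⟧ →* ℂ⟦X⟧) :
      Submonoid ℂ⟦X⟧) : Set ℂ⟦X⟧) := by
    have h : (Set.range iZC : Set ℂ⟦X⟧) =
        ((MonoidHom.mrange (iZC : ℤ⟦X⟧ →* ℂ⟦X⟧) : Submonoid ℂ⟦X⟧) : Set ℂ⟦X⟧) := by
      ext; simp
    rw [h, Submonoid.closure_eq]
  rw [this]
  ext; simp

theorem mem_IntSpan_iff {s : ℂ⟦X⟧} : s ∈ IntSpan ↔ s ∈ Submodule.span ℂ (Set.range iZC) := by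
  rw [← IntSpan_toSubmodule]
  rfl

/-- Coefficientwise application of a `ℚ`-linear map `ℂ → ℚ`. -/
def coeffMap (ρ : ℂ →ₗ[ℚ] ℚ) : ℂ⟦X⟧ →ₗ[ℚ] ℚ⟦X⟧ where
  toFun s := PowerSeries.mk fun n => ρ (coeff n s)
  map_add' s t := by
    ext n
    simp
  map_smul' r s := by
    ext n
    simp

@[simp]
theorem coeff_coeffMap (ρ : ℂ →ₗ[ℚ] ℚ) (n : ℕ) (s : ℂ⟦X⟧) :
    coeff n (coeffMap ρ s) = ρ (coeff n s) := by
  simp [coeffMap]

theorem coeffMap_mul_iQC (ρ : ℂ →ₗ[ℚ] ℚ) (s : ℂ⟦X⟧) (y : ℚ⟦X⟧) :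
    coeffMap ρ (s * iQC y) = coeffMap ρ s * y := by
  ext n
  rw [coeff_coeffMap, PowerSeries.coeff_mul, PowerSeries.coeff_mul, map_sum]
  refine Finset.sum_congr rfl fun p _ => ?_
  rw [coeff_coeffMap, PowerSeries.coeff_map]
  have : coeff p.1 s * (algebraMap ℚ ℂ) (coeff p.2 y) = (coeff p.2 y) • coeff p.1 s := by
    rw [Algebra.smul_def, mul_comm]
  rw [this, map_smul, smul_eq_mul, mul_comm]

theorem coeffMap_iQC (ρ : ℂ →ₗ[ℚ] ℚ) (h1 : ρ 1 = 1) (y : ℚ⟦X⟧) :
    coeffMap ρ (iQC y) = y := by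
  have := coeffMap_mul_iQC ρ 1 y
  rw [one_mul] at this
  rw [this]
  have h : coeffMap ρ 1 = 1 := by
    ext n
    rw [coeff_coeffMap, PowerSeries.coeff_one, PowerSeries.coeff_one]
    split_ifs
    · exact h1
    · exact map_zero ρ
  rw [h, one_mul]

/-- `ρ` precomposed with multiplication by `t`. -/
def twist (ρ : ℂ →ₗ[ℚ] ℚ) (t : ℂ) : ℂ →ₗ[ℚ] ℚ :=
  ρ.comp (LinearMap.mulLeft ℚ t)

@[simp]
theorem twist_apply (ρ : ℂ →ₗ[ℚ] ℚ) (t z : ℂ) : twist ρ t z = ρ (t * z) := rfl

theorem coeffMap_smul (ρ : ℂ →ₗ[ℚ] ℚ) (t : ℂ) (s : ℂ⟦X⟧) :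
    coeffMap ρ (t • s) = coeffMap (twist ρ t) s := by
  ext n
  simp

/-- Power series over `ℚ` with bounded denominators. -/
def BddQ (u : ℚ⟦X⟧) : Prop := ∃ c : ℕ, 0 < c ∧ ∃ z : ℤ⟦X⟧, (c : ℚ) • u = iZQ z

theorem iZQ_zsmul (a : ℤ) (z : ℤ⟦X⟧) : iZQ (a • z) = (a : ℚ) • iZQ z := by
  rw [zsmul_eq_mul, map_mul, map_intCast, Algebra.smul_def]
  congr 1
  simp

theorem BddQ.mul_nat {u : ℚ⟦X⟧} {c : ℕ} {z : ℤ⟦X⟧} (h : (c : ℚ) • u = iZQ z) (d : ℕ) :
    ((d * c : ℕ) : ℚ) • u = iZQ ((d : ℤ) • z) := by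
  rw [Nat.cast_mul, mul_smul, h, iZQ_zsmul]
  simp

theorem bddQ_coeffMap_of_mem {s : ℂ⟦X⟧} (hs : s ∈ IntSpan) :
    ∀ ρ : ℂ →ₗ[ℚ] ℚ, BddQ (coeffMap ρ s) := by
  rw [mem_IntSpan_iff] at hs
  induction hs using Submodule.span_induction with
  | mem s hs =>
    obtain ⟨β, rfl⟩ := hs
    intro ρ
    refine ⟨(ρ 1).den, (ρ 1).den_pos, (ρ 1).num • β, ?_⟩
    rw [iZQ_zsmul]
    ext n
    rw [PowerSeries.coeff_smul, coeff_coeffMap, PowerSeries.coeff_map, PowerSeries.coeff_smul,
      PowerSeries.coeff_map]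
    have h1 : ((Int.castRingHom ℂ) (coeff n β) : ℂ) = ((coeff n β : ℤ) : ℚ) • (1 : ℂ) := by
      simp [Algebra.smul_def]
    rw [h1, map_smul]
    simp only [smul_eq_mul, eq_intCast]
    have h2 : ((ρ 1).den : ℚ) * ρ 1 = ((ρ 1).num : ℚ) := by
      rw [mul_comm]
      exact Rat.mul_den_eq_num (ρ 1)
    calc ((ρ 1).den : ℚ) * (((coeff n β : ℤ) : ℚ) * ρ 1)
        = ((coeff n β : ℤ) : ℚ) * (((ρ 1).den : ℚ) * ρ 1) := by ring
      _ = ((ρ 1).num : ℚ) * ((coeff n β : ℤ) : ℚ) := by rw [h2]; ring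
  | zero =>
    intro ρ
    exact ⟨1, Nat.one_pos, 0, by simp⟩
  | add s t _ _ ihs iht =>
    intro ρ
    obtain ⟨c₁, hc₁, z₁, h₁⟩ := ihs ρ
    obtain ⟨c₂, hc₂, z₂, h₂⟩ := iht ρ
    refine ⟨c₂ * c₁, Nat.mul_pos hc₂ hc₁, (c₂ : ℤ) • z₁ + (c₁ : ℤ) • z₂, ?_⟩
    rw [map_add, smul_add, BddQ.mul_nat h₁ c₂, mul_comm c₂ c₁, BddQ.mul_nat h₂ c₁, map_add]
  | smul t s _ ih =>
    intro ρ
    rw [coeffMap_smul]
    exact ih (twist ρ t)

/-- A finite family of bounded-denominator series has a common denominator. -/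
theorem BddQ.common {ι : Type*} (s : Finset ι) (u : ι → ℚ⟦X⟧) (hu : ∀ i ∈ s, BddQ (u i)) :
    ∃ c : ℕ, 0 < c ∧ ∀ i ∈ s, ∃ z : ℤ⟦X⟧, (c : ℚ) • u i = iZQ z := by
  classical
  induction s using Finset.induction_on with
  | empty => exact ⟨1, Nat.one_pos, by simp⟩
  | insert a s ha ih =>
    obtain ⟨c, hc, hz⟩ := ih fun i hi => hu i (Finset.mem_insert_of_mem hi)
    obtain ⟨c', hc', z', hz'⟩ := hu a (Finset.mem_insert_self a s)
    refine ⟨c * c', Nat.mul_pos hc hc', fun i hi => ?_⟩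
    rcases Finset.mem_insert.mp hi with rfl | hi
    · exact ⟨_, BddQ.mul_nat hz' c⟩
    · obtain ⟨z, hz⟩ := hz i hi
      rw [mul_comm]
      exact ⟨_, BddQ.mul_nat hz c'⟩

theorem iZQ_injective : Function.Injective iZQ :=
  PowerSeries.map_injective _ (Int.cast_injective (α := ℚ))

/-- `ℤ⟦X⟧` is integrally closed, in the following concrete form: a power series over `ℚ` which is
a "fraction" of integral power series and is integral over `ℤ⟦X⟧` has integer coefficients. -/
theorem int_of_fraction_of_integral (y : ℚ⟦X⟧) (D F : ℤ⟦X⟧) (hD : D ≠ 0)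
    (hDF : iZQ D * y = iZQ F) (hy : iZQ.IsIntegralElem y) : ∃ z : ℤ⟦X⟧, iZQ z = y := by
  obtain ⟨P, hP, hPy⟩ := hy
  let K := FractionRing ℤ⟦X⟧
  let L := FractionRing ℚ⟦X⟧
  let g : ℤ⟦X⟧ →+* L := (algebraMap ℚ⟦X⟧ L).comp iZQ
  have hg : Function.Injective g :=
    (IsFractionRing.injective ℚ⟦X⟧ L).comp iZQ_injective
  let φ : K →+* L := IsFractionRing.lift hg
  have hφ : ∀ a : ℤ⟦X⟧, φ (algebraMap ℤ⟦X⟧ K a) = g a := IsFractionRing.lift_algebraMap hg
  let w : K := algebraMap ℤ⟦X⟧ K F / algebraMap ℤ⟦X⟧ K D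
  have hgD : g D ≠ 0 := fun h => hD (hg (by rw [h, map_zero]))
  have hφw : φ w = algebraMap ℚ⟦X⟧ L y := by
    have : φ w = g F / g D := by
      simp only [w, map_div₀, hφ]
    rw [this, div_eq_iff hgD]
    simp only [g, RingHom.comp_apply]
    rw [← map_mul, mul_comm, hDF]
  have hw : IsIntegral ℤ⟦X⟧ w := by
    refine ⟨P, hP, ?_⟩
    apply φ.injective
    rw [map_zero, Polynomial.hom_eval₂, hφw]
    have : φ.comp (algebraMap ℤ⟦X⟧ K) = g := RingHom.ext hφ
    rw [this]
    have h2 := Polynomial.hom_eval₂ P iZQ (algebraMap ℚ⟦X⟧ L) y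
    rw [hPy, map_zero] at h2
    exact h2.symm
  obtain ⟨z, hz⟩ := IsIntegrallyClosed.isIntegral_iff.mp hw
  refine ⟨z, ?_⟩
  have hKD : algebraMap ℤ⟦X⟧ K D ≠ 0 := fun h =>
    hD (IsFractionRing.injective ℤ⟦X⟧ K (by rw [h, map_zero]))
  have h3 : z * D = F := by
    apply IsFractionRing.injective ℤ⟦X⟧ K
    rw [map_mul, hz]
    exact div_mul_cancel₀ _ hKD
  have hQD : iZQ D ≠ 0 := fun h => hD (iZQ_injective (by rw [h, map_zero]))
  have h4 : iZQ D * iZQ z = iZQ D * y := by
    rw [hDF, ← map_mul, mul_comm, h3]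
  exact mul_left_cancel₀ hQD h4

/-- Existence of a `ℚ`-linear functional `ℂ → ℚ` taking the value `1` at a given nonzero `z`. -/
theorem exists_functional (z : ℂ) (hz : z ≠ 0) : ∃ ρ : ℂ →ₗ[ℚ] ℚ, ρ z = 1 := by
  let f : ℚ →ₗ[ℚ] ℂ := LinearMap.toSpanSingleton ℚ ℂ z
  have hf : LinearMap.ker f = ⊥ := by
    rw [LinearMap.ker_eq_bot]
    intro a b hab
    simp only [f, LinearMap.toSpanSingleton_apply] at hab
    exact smul_left_injective ℚ hz hab
  obtain ⟨ρ, hρ⟩ := LinearMap.exists_leftInverse_of_injective f hf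
  refine ⟨ρ, ?_⟩
  have := congrArg (fun l : ℚ →ₗ[ℚ] ℚ => l 1) hρ
  simpa [f, LinearMap.toSpanSingleton_apply] using this

/-- A power series with rational coefficients comes from `ℚ⟦X⟧`. -/
theorem exists_rat_series (x : ℂ⟦X⟧) (hx : ∀ n, ∃ r : ℚ, coeff n x = (r : ℂ)) :
    ∃ x₀ : ℚ⟦X⟧, iQC x₀ = x := by
  choose r hr using hx
  refine ⟨PowerSeries.mk r, ?_⟩
  ext n
  simp [hr n]

/-- **Bounded denominators.** Let `x : ℂ⟦X⟧` have rational coefficients. Assume `x` is a root of a
monic polynomial `X^μ + ∑_{m<μ} e m X^m` whose coefficients lie in `IntSpan`, and that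
`D * x = F` with `D, F ∈ IntSpan`, `D ≠ 0`. Then a positive integer multiple of `x` has integer
coefficients. -/
theorem bdd (x : ℂ⟦X⟧) (hx : ∀ n, ∃ r : ℚ, coeff n x = (r : ℂ))
    (μ : ℕ) (e : ℕ → ℂ⟦X⟧) (he : ∀ m, m < μ → e m ∈ IntSpan)
    (hmonic : x ^ μ + ∑ m ∈ Finset.range μ, e m * x ^ m = 0)
    (D F : ℂ⟦X⟧) (hD : D ∈ IntSpan) (hF : F ∈ IntSpan) (hD0 : D ≠ 0) (hDF : D * x = F) :
    ∃ c : ℕ, 0 < c ∧ ∀ n, ∃ m : ℤ, (c : ℂ) * coeff n x = (m : ℂ) := by
  obtain ⟨x₀, rfl⟩ := exists_rat_series x hx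
  -- Step 1: the monic equation over `ℚ⟦X⟧` with bounded-denominator coefficients.
  obtain ⟨ρ₁, hρ₁⟩ := exists_functional 1 one_ne_zero
  have hmonic' : x₀ ^ μ + ∑ m ∈ Finset.range μ, coeffMap ρ₁ (e m) * x₀ ^ m = 0 := by
    have := congrArg (coeffMap ρ₁) hmonic
    rw [map_add, map_sum, map_zero, ← map_pow, coeffMap_iQC ρ₁ hρ₁] at this
    rw [← this]
    congr 1
    refine Finset.sum_congr rfl fun m _ => ?_
    rw [← map_pow, coeffMap_mul_iQC]
  obtain ⟨c, hc, hcz⟩ := BddQ.common (Finset.range μ) (fun m => coeffMap ρ₁ (e m))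
    (fun m hm => bddQ_coeffMap_of_mem (he m (Finset.mem_range.mp hm)) ρ₁)
  have hcz' : ∀ m : ℕ, ∃ z : ℤ⟦X⟧, m < μ → (c : ℚ) • coeffMap ρ₁ (e m) = iZQ z := by
    intro m
    by_cases hm : m < μ
    · obtain ⟨z, hz⟩ := hcz m (Finset.mem_range.mpr hm)
      exact ⟨z, fun _ => hz⟩
    · exact ⟨0, fun h => absurd h hm⟩
  choose z hz using hcz'
  -- Step 2: the fraction relation over `ℚ⟦X⟧`.
  obtain ⟨n₀, hn₀⟩ : ∃ n, coeff n D ≠ 0 := by
    by_contra h
    exact hD0 (PowerSeries.ext fun n => by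
      rw [map_zero]
      by_contra h'
      exact h ⟨n, h'⟩)
  obtain ⟨ρ₂, hρ₂⟩ := exists_functional _ hn₀
  have hDF' : coeffMap ρ₂ D * x₀ = coeffMap ρ₂ F := by
    rw [← coeffMap_mul_iQC, hDF]
  have hD0' : coeffMap ρ₂ D ≠ 0 := by
    intro h
    have := congrArg (coeff n₀) h
    rw [coeff_coeffMap, hρ₂, map_zero] at this
    exact one_ne_zero this
  obtain ⟨cD, hcD, zD, hzD⟩ := bddQ_coeffMap_of_mem hD ρ₂
  obtain ⟨cF, hcF, zF, hzF⟩ := bddQ_coeffMap_of_mem hF ρ₂
  -- Step 3: apply normality of `ℤ⟦X⟧` to `y = c • x₀`.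
  have hcQ : (c : ℚ) ≠ 0 := Nat.cast_ne_zero.mpr hc.ne'
  have hcDQ : (cD : ℚ) ≠ 0 := Nat.cast_ne_zero.mpr hcD.ne'
  have hcFQ : (cF : ℚ) ≠ 0 := Nat.cast_ne_zero.mpr hcF.ne'
  have hzD0 : zD ≠ 0 := by
    rintro rfl
    rw [map_zero] at hzD
    exact hD0' ((smul_eq_zero.mp hzD).resolve_left hcDQ)
  have key : ∃ w : ℤ⟦X⟧, iZQ w = (c : ℚ) • x₀ := by
    refine int_of_fraction_of_integral ((c : ℚ) • x₀) ((cF : ℤ) • zD) (((cD * c : ℕ) : ℤ) • zF)
      ?_ ?_ ?_
    · intro h
      have h' := congrArg iZQ h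
      rw [iZQ_zsmul, map_zero] at h'
      rcases smul_eq_zero.mp h' with h'' | h''
      · exact hcFQ (by exact_mod_cast h'')
      · exact hzD0 (iZQ_injective (by rw [h'', map_zero]))
    · have e1 : iZQ ((cF : ℤ) • zD) = (cF : ℚ) • iZQ zD := by
        rw [iZQ_zsmul]; simp
      have e2 : iZQ (((cD * c : ℕ) : ℤ) • zF) = ((cD : ℚ) * (c : ℚ)) • iZQ zF := by
        rw [iZQ_zsmul]; simp
      rw [e1, e2, ← hzD, ← hzF, ← hDF']
      simp only [smul_mul_assoc, mul_smul_comm, smul_smul]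
      congr 1
      ring
    · -- the monic polynomial
      refine ⟨Polynomial.X ^ μ + ∑ i : Fin μ,
        Polynomial.C (((c : ℤ) ^ (μ - 1 - (i : ℕ))) • z i) * Polynomial.X ^ (i : ℕ),
        Polynomial.monic_X_pow_add (Polynomial.degree_sum_fin_lt _), ?_⟩
      rw [Polynomial.eval₂_add, Polynomial.eval₂_pow, Polynomial.eval₂_X,
        Polynomial.eval₂_finsetSum]
      simp only [Polynomial.eval₂_mul, Polynomial.eval₂_C, Polynomial.eval₂_pow,
        Polynomial.eval₂_X]
      have hsum : ∑ i : Fin μ, iZQ (((c : ℤ) ^ (μ - 1 - (i : ℕ))) • z i) * ((c : ℚ) • x₀) ^ (i : ℕ)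
          = ∑ m ∈ Finset.range μ, ((c : ℚ) ^ μ) • (coeffMap ρ₁ (e m) * x₀ ^ m) := by
        rw [Finset.sum_fin_eq_sum_range]
        refine Finset.sum_congr rfl fun m hm => ?_
        have hm' : m < μ := Finset.mem_range.mp hm
        rw [dif_pos hm']
        have e3 : iZQ (((c : ℤ) ^ (μ - 1 - m)) • z m) = ((c : ℚ) ^ (μ - 1 - m)) • iZQ (z m) := by
          rw [iZQ_zsmul]; simp
        rw [e3, ← hz m hm', smul_pow]
        simp only [smul_mul_assoc, mul_smul_comm, smul_smul]
        congr 1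
        have : μ = (μ - 1 - m) + 1 + m := by omega
        conv_rhs => rw [this]
        ring
      rw [hsum, smul_pow, ← Finset.smul_sum, ← smul_add, hmonic', smul_zero]
  obtain ⟨w, hw⟩ := key
  refine ⟨c, hc, fun n => ⟨coeff n w, ?_⟩⟩
  have := congrArg (coeff n) hw
  rw [PowerSeries.coeff_map, PowerSeries.coeff_smul, smul_eq_mul] at this
  rw [PowerSeries.coeff_map]
  have h5 := congrArg (algebraMap ℚ ℂ) this
  simp only [eq_intCast, map_mul, map_natCast, map_intCast] at h5
  rw [← h5]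

end

end Fermat.Agent.S23.BddDenom

end
-- ===== PACK-END S23/BddDenom.lean

-- ===== PACK-BEGIN S49/Formal.lean
section



set_option autoImplicit false

namespace Fermat.Agent.S49

variable {R : Type*} [CommRing R]

/-- Prime-power recursion from the formal Hecke relations. -/
theorem formal_prime_pow {e a : ℕ → R} (h : FormalHecke.IsEigensystem e a)
    (ℓ r : ℕ) (hℓ : ℓ.Prime) :
    a (ℓ ^ (r + 2)) = a ℓ * a (ℓ ^ (r + 1)) - e ℓ * a (ℓ ^ r) := by
  have h1 := h.2 ℓ hℓ (ℓ ^ (r + 1))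
  have hdvd : ℓ ∣ ℓ ^ (r + 1) := dvd_pow_self ℓ (Nat.succ_ne_zero r)
  rw [if_pos hdvd] at h1
  have hdiv : ℓ ^ (r + 1) / ℓ = ℓ ^ r := by
    rw [pow_succ, Nat.mul_div_cancel _ hℓ.pos]
  rw [hdiv] at h1
  have hpow : ℓ * ℓ ^ (r + 1) = ℓ ^ (r + 2) := by ring
  rw [hpow] at h1
  rw [← h1]; ring

/-- `a (ℓ^k * n) = a (ℓ^k) * a n` when `ℓ ∤ n`. -/
theorem formal_prime_pow_mul {e a : ℕ → R} (h : FormalHecke.IsEigensystem e a)
    (ℓ : ℕ) (hℓ : ℓ.Prime) (n : ℕ) (hn : ¬ ℓ ∣ n) (k : ℕ) :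
    a (ℓ ^ k * n) = a (ℓ ^ k) * a n := by
  induction k using Nat.strong_induction_on with
  | _ k ih =>
    match k, ih with
    | 0, _ => simp [h.1]
    | 1, _ =>
      have h1 := h.2 ℓ hℓ n
      rw [if_neg hn, mul_zero, add_zero] at h1
      simpa using h1
    | (k + 2), ih =>
      have h1 := h.2 ℓ hℓ (ℓ ^ (k + 1) * n)
      have hdvd : ℓ ∣ ℓ ^ (k + 1) * n := Dvd.dvd.mul_right (dvd_pow_self ℓ (Nat.succ_ne_zero k)) n
      rw [if_pos hdvd] at h1
      have hdiv : ℓ ^ (k + 1) * n / ℓ = ℓ ^ k * n := by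
        rw [pow_succ, mul_assoc, mul_comm ℓ n, ← mul_assoc, Nat.mul_div_cancel _ hℓ.pos]
      rw [hdiv] at h1
      have hpow : ℓ * (ℓ ^ (k + 1) * n) = ℓ ^ (k + 2) * n := by ring
      rw [hpow, ih (k + 1) (by omega), ih k (by omega)] at h1
      rw [formal_prime_pow h ℓ k hℓ]
      have : a (ℓ ^ (k + 2) * n) = a ℓ * (a (ℓ ^ (k + 1)) * a n) - e ℓ * (a (ℓ ^ k) * a n) := by
        rw [← h1]; ring
      rw [this]; ring

/-- Multiplicativity on coprime arguments from the formal Hecke relations. -/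
theorem formal_mul_of_coprime {e a : ℕ → R} (h : FormalHecke.IsEigensystem e a)
    (m n : ℕ) (hmn : m.Coprime n) : a (m * n) = a m * a n := by
  induction m using Nat.recOnPosPrimePosCoprime generalizing n with
  | zero =>
    have : n = 1 := by simpa using hmn
    subst this
    simp [h.1]
  | one => simp [h.1]
  | prime_pow p k hp hk =>
    have hpn : ¬ p ∣ n := by
      intro hdvd
      have := Nat.Coprime.coprime_dvd_left (dvd_pow_self p hk.ne') hmn
      exact hp.one_lt.ne' (Nat.Coprime.eq_one_of_dvd this hdvd)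
    exact formal_prime_pow_mul h p hp n hpn k
  | coprime x y hx hy hxy ihx ihy =>
    have hxn : x.Coprime n := Nat.Coprime.coprime_dvd_left (Dvd.intro y rfl) hmn
    have hyn : y.Coprime n := Nat.Coprime.coprime_dvd_left (Dvd.intro_left x rfl) hmn
    have hxyn : x.Coprime (y * n) := Nat.Coprime.mul_right hxy hxn
    rw [mul_assoc, ihx (y * n) hxyn, ihy n hyn, ihx y hxy]
    ring

/-- A formal Hecke eigensystem is recursive (multiplicative with prime-power recursion). -/
theorem isRecursive_of_isEigensystem {e a : ℕ → R} (h : FormalHecke.IsEigensystem e a) :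
    FormalHecke.IsRecursive e a :=
  ⟨h.1, formal_mul_of_coprime h, fun ℓ r hℓ => formal_prime_pow h ℓ r hℓ⟩

end Fermat.Agent.S49

end
-- ===== PACK-END S49/Formal.lean

-- ===== PACK-BEGIN S49/LinAlg.lean
section


set_option autoImplicit false

namespace Fermat.Agent.S49

/-- Auxiliary statement for `exists_eigenvector_ker_le'`: induction over invariant subspaces. -/
theorem exists_eigenvector_aux {K V A : Type*} [Field K] [IsAlgClosed K]
    [AddCommGroup V] [Module K V] [FiniteDimensional K V]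
    [CommRing A] (ρ : A →+* Module.End K V) (𝔫 : Ideal A) [h𝔫 : 𝔫.IsPrime] :
    ∀ (n : ℕ) (W : Submodule K V), Module.finrank K W = n → W ≠ ⊥ →
      (∀ t : A, ∀ w ∈ W, ρ t w ∈ W) →
      (∀ t : A, (∀ w ∈ W, ρ t w = 0) → t ∈ 𝔫) →
      ∃ (g : V) (χ : A →+* K), g ≠ 0 ∧ (∀ t, ρ t g = χ t • g) ∧ RingHom.ker χ ≤ 𝔫 := by
  intro n
  induction n using Nat.strong_induction_on with
  | _ n ih =>
    intro W hWn hW0 hstab hann
    have hcomm : ∀ s t : A, ∀ w : V, ρ s (ρ t w) = ρ t (ρ s w) := by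
      intro s t w
      rw [← Module.End.mul_apply, ← Module.End.mul_apply, ← map_mul, ← map_mul, mul_comm]
    by_cases hsc : ∀ t : A, ∃ c : K, ∀ w ∈ W, ρ t w = c • w
    · -- every `t` acts as a scalar on `W`
      obtain ⟨g, hgW, hg0⟩ := Submodule.exists_mem_ne_zero_of_ne_bot hW0
      choose c hc using hsc
      have huniq : ∀ a b : K, a • g = b • g → a = b := by
        intro a b hab
        by_contra hne
        have : (a - b) • g = 0 := by rw [sub_smul, hab, sub_self]
        rcases smul_eq_zero.mp this with h | h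
        · exact hne (sub_eq_zero.mp h)
        · exact hg0 h
      let χ : A →+* K :=
        { toFun := c
          map_one' := by
            apply huniq
            rw [← hc 1 g hgW, map_one, Module.End.one_apply, one_smul]
          map_mul' := by
            intro s t
            apply huniq
            rw [← hc (s * t) g hgW, map_mul, Module.End.mul_apply, hc t g hgW, map_smul,
              hc s g hgW, smul_smul, mul_comm]
          map_zero' := by
            apply huniq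
            rw [← hc 0 g hgW, map_zero, LinearMap.zero_apply, zero_smul]
          map_add' := by
            intro s t
            apply huniq
            rw [← hc (s + t) g hgW, map_add, LinearMap.add_apply, hc s g hgW, hc t g hgW,
              add_smul] }
      refine ⟨g, χ, hg0, fun t => hc t g hgW, ?_⟩
      intro t ht
      apply hann
      intro w hw
      have h0 : c t = 0 := ht
      rw [hc t w hw, h0, zero_smul]
    · -- some `t` does not act as a scalar on `W`
      push Not at hsc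
      obtain ⟨t, ht⟩ := hsc
      have : Nontrivial W := Submodule.nontrivial_iff_ne_bot.mpr hW0
      obtain ⟨μ, hμ⟩ := Module.End.exists_eigenvalue ((ρ t).restrict (hstab t))
      obtain ⟨v, hv⟩ := hμ.exists_hasEigenvector
      have hv0 : (v : V) ≠ 0 := fun h => hv.2 (Subtype.ext h)
      have hvμ : ρ t (v : V) = μ • (v : V) := by
        have := congrArg Subtype.val hv.apply_eq_smul
        simpa using this
      -- the operator `S = ρ t - μ`
      set S : Module.End K V := ρ t - μ • (1 : Module.End K V) with hS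
      have hSapp : ∀ w, S w = ρ t w - μ • w := by
        intro w
        simp [hS]
      have hScomm : ∀ s : A, ∀ w : V, ρ s (S w) = S (ρ s w) := by
        intro s w
        rw [hSapp, hSapp, map_sub, map_smul, hcomm s t w]
      have hSW : ∀ w ∈ W, S w ∈ W := by
        intro w hw
        rw [hSapp]
        exact W.sub_mem (hstab t w hw) (W.smul_mem μ hw)
      obtain ⟨w₀, hw₀W, hw₀⟩ := ht μ
      have hSw₀ : S w₀ ≠ 0 := by
        rw [hSapp]
        exact fun h => hw₀ (sub_eq_zero.mp h)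
      -- the two smaller invariant subspaces
      set W' : Submodule K V := W ⊓ LinearMap.ker S with hW'
      set W'' : Submodule K V := W.map S with hW''
      have hW'le : W' ≤ W := inf_le_left
      have hW''le : W'' ≤ W := by
        rintro _ ⟨w, hw, rfl⟩
        exact hSW w hw
      have hW'ne : W' ≠ ⊥ := by
        intro h
        have hvW' : (v : V) ∈ W' := by
          refine Submodule.mem_inf.mpr ⟨v.2, LinearMap.mem_ker.mpr ?_⟩
          rw [hSapp, hvμ, sub_self]
        rw [h] at hvW'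
        exact hv0 ((Submodule.mem_bot K).mp hvW')
      have hW''ne : W'' ≠ ⊥ := by
        intro h
        have : S w₀ ∈ W'' := ⟨w₀, hw₀W, rfl⟩
        rw [h] at this
        exact hSw₀ ((Submodule.mem_bot K).mp this)
      have hW'lt : W' < W := by
        refine lt_of_le_of_ne hW'le ?_
        intro h
        have : w₀ ∈ W' := h ▸ hw₀W
        exact hSw₀ (LinearMap.mem_ker.mp (Submodule.mem_inf.mp this).2)
      have hW''lt : W'' < W := by
        refine lt_of_le_of_ne hW''le ?_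
        intro h
        -- `S` restricted to `W` is surjective onto `W`, hence injective
        have hsurj : Function.Surjective (S.restrict hSW) := by
          rintro ⟨y, hy⟩
          have hy' : y ∈ W'' := h ▸ hy
          obtain ⟨x, hx, rfl⟩ := hy'
          exact ⟨⟨x, hx⟩, Subtype.ext rfl⟩
        have hinj : Function.Injective (S.restrict hSW) :=
          LinearMap.injective_iff_surjective.mpr hsurj
        have h1 : (S.restrict hSW) v = 0 := by
          apply Subtype.ext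
          simp only [LinearMap.coe_restrict_apply, ZeroMemClass.coe_zero]
          rw [hSapp, hvμ, sub_self]
        have : v = 0 := hinj (h1.trans (map_zero _).symm)
        exact hv.2 this
      have hW'stab : ∀ s : A, ∀ w ∈ W', ρ s w ∈ W' := by
        intro s w hw
        have hw' := Submodule.mem_inf.mp hw
        refine Submodule.mem_inf.mpr ⟨hstab s w hw'.1, LinearMap.mem_ker.mpr ?_⟩
        rw [← hScomm, LinearMap.mem_ker.mp hw'.2, map_zero]
      have hW''stab : ∀ s : A, ∀ w ∈ W'', ρ s w ∈ W'' := by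
        rintro s _ ⟨w, hw, rfl⟩
        exact ⟨ρ s w, hstab s w hw, (hScomm s w).symm⟩
      by_cases h' : ∀ s : A, (∀ w ∈ W', ρ s w = 0) → s ∈ 𝔫
      · exact ih (Module.finrank K W') (hWn ▸ Submodule.finrank_lt_finrank_of_lt hW'lt) W' rfl
          hW'ne hW'stab h'
      · push Not at h'
        obtain ⟨s', hs', hs'n⟩ := h'
        refine ih (Module.finrank K W'') (hWn ▸ Submodule.finrank_lt_finrank_of_lt hW''lt) W'' rfl
          hW''ne hW''stab ?_
        intro s'' hs''
        have hprod : s' * s'' ∈ 𝔫 := by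
          apply hann
          intro w hw
          rw [map_mul, Module.End.mul_apply]
          apply hs'
          refine Submodule.mem_inf.mpr ⟨hstab s'' w hw, LinearMap.mem_ker.mpr ?_⟩
          rw [← hScomm]
          exact hs'' _ ⟨w, hw, rfl⟩
        rcases h𝔫.mem_or_mem hprod with h | h
        · exact absurd h hs'n
        · exact h

/-- (C), general form: `ρ` need not be injective, only `ker ρ ≤ 𝔫`. -/
theorem exists_eigenvector_ker_le' {K V A : Type*} [Field K] [IsAlgClosed K]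
    [AddCommGroup V] [Module K V] [FiniteDimensional K V]
    [CommRing A] (ρ : A →+* Module.End K V)
    (𝔫 : Ideal A) [h𝔫 : 𝔫.IsPrime] (hρ : RingHom.ker ρ ≤ 𝔫) :
    ∃ (g : V) (χ : A →+* K), g ≠ 0 ∧ (∀ t, ρ t g = χ t • g) ∧ RingHom.ker χ ≤ 𝔫 := by
  have hann : ∀ t : A, (∀ w ∈ (⊤ : Submodule K V), ρ t w = 0) → t ∈ 𝔫 := by
    intro t ht
    apply hρ
    rw [RingHom.mem_ker]
    ext w
    simpa using ht w Submodule.mem_top
  refine exists_eigenvector_aux ρ 𝔫 _ ⊤ rfl ?_ (fun _ _ _ => Submodule.mem_top) hann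
  intro htop
  apply (Ideal.ne_top_iff_one 𝔫).mp h𝔫.ne_top
  apply hann
  intro w _
  have : w ∈ (⊥ : Submodule K V) := htop ▸ Submodule.mem_top
  rw [(Submodule.mem_bot K).mp this, map_zero]

/-- (C) linear algebra lemma: a commutative ring acting faithfully on a finite-dimensional
vector space over an algebraically closed field has, for every prime ideal `𝔫`, a simultaneous
eigenvector whose eigencharacter has kernel contained in `𝔫`. -/
theorem exists_eigenvector_ker_le {K V A : Type*} [Field K] [IsAlgClosed K]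
    [AddCommGroup V] [Module K V] [FiniteDimensional K V]
    [CommRing A] (ρ : A →+* Module.End K V) (hρ : Function.Injective ρ)
    (𝔫 : Ideal A) [𝔫.IsPrime] :
    ∃ (g : V) (χ : A →+* K), g ≠ 0 ∧ (∀ t, ρ t g = χ t • g) ∧ RingHom.ker χ ≤ 𝔫 := by
  apply exists_eigenvector_ker_le' ρ 𝔫
  intro t ht
  rw [RingHom.mem_ker] at ht
  rw [hρ (ht.trans (map_zero ρ).symm)]
  exact 𝔫.zero_mem

end Fermat.Agent.S49

end
-- ===== PACK-END S49/LinAlg.lean

-- ===== PACK-BEGIN S37/H818/PullFunct.lean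
section
/-
S37 / LEVEL TRANSFER (helper818), part 1: functoriality of the Prelude's `restrictAlong`,
`ramificationIndexAlong` and `pullbackAlong` under composition of field embeddings.
-/



set_option autoImplicit false
set_option linter.style.haveILetI false

noncomputable section

namespace Fermat.Agent.S37.H818

open AlgebraicCurve

variable {K F G G₁ : Type*} [Field K] [Field F] [Field G] [Field G₁]
  [Algebra K F] [Algebra K G] [Algebra K G₁]

/-- Restriction of a place along a composite is the composite of the restrictions. -/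
theorem restrictAlong_comp (φ : F →ₐ[K] G) (ψ : G →ₐ[K] G₁)
    (hφ : φ.toRingHom.IsIntegral) (hψ : ψ.toRingHom.IsIntegral)
    (hψφ : (ψ.comp φ).toRingHom.IsIntegral) (W : Place K G₁) :
    W.restrictAlong (ψ.comp φ) hψφ = (W.restrictAlong ψ hψ).restrictAlong φ hφ := by
  apply Place.ext
  rfl

/-- Existence of a uniformizer in the field for a place. -/
theorem exists_ord_eq_one (v : Place K F) : ∃ f : F, f ≠ 0 ∧ v.ord f = 1 := by
  obtain ⟨π, hπ⟩ := IsDiscreteValuationRing.exists_irreducible v.toValuationSubring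
  refine ⟨(π : F), ?_, v.ord_coe_irreducible hπ⟩
  simpa [ne_eq, ZeroMemClass.coe_eq_zero] using hπ.ne_zero

/-- Ramification indices are multiplicative in towers. -/
theorem ramificationIndexAlong_comp (φ : F →ₐ[K] G) (ψ : G →ₐ[K] G₁)
    (hφ : φ.toRingHom.IsIntegral) (hψ : ψ.toRingHom.IsIntegral)
    (hψφ : (ψ.comp φ).toRingHom.IsIntegral) (W : Place K G₁) :
    Place.ramificationIndexAlong (ψ.comp φ) W =
      Place.ramificationIndexAlong ψ W *
        Place.ramificationIndexAlong φ (W.restrictAlong ψ hψ) := by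
  obtain ⟨f, hf0, hf⟩ := exists_ord_eq_one ((W.restrictAlong ψ hψ).restrictAlong φ hφ)
  have h1 := Place.ord_restrictAlong (ψ.comp φ) hψφ W f
  have h2 := Place.ord_restrictAlong ψ hψ W (φ f)
  have h3 := Place.ord_restrictAlong φ hφ (W.restrictAlong ψ hψ) f
  rw [restrictAlong_comp φ ψ hφ hψ hψφ W, hf, mul_one] at h1
  rw [hf, mul_one] at h3
  rw [h3] at h2
  have h4 : (ψ.comp φ) f = ψ (φ f) := rfl
  rw [h4, h2] at h1
  exact_mod_cast h1.symm

variable [HasPrincipalDivisors K G] [HasPrincipalDivisors K G₁]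

/-- Pullback of divisors is functorial. -/
theorem pullbackAlong_comp (φ : F →ₐ[K] G) (ψ : G →ₐ[K] G₁)
    (hφ : φ.toRingHom.IsIntegral) (hψ : ψ.toRingHom.IsIntegral)
    (hψφ : (ψ.comp φ).toRingHom.IsIntegral) (D : Divisor K F) :
    Divisor.pullbackAlong (ψ.comp φ) hψφ D =
      Divisor.pullbackAlong ψ hψ (Divisor.pullbackAlong φ hφ D) := by
  ext W
  rw [Divisor.pullbackAlong_apply, Divisor.pullbackAlong_apply, Divisor.pullbackAlong_apply,
    ramificationIndexAlong_comp φ ψ hφ hψ hψφ W, restrictAlong_comp φ ψ hφ hψ hψφ W]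
  push_cast
  ring

end Fermat.Agent.S37.H818

end

end
-- ===== PACK-END S37/H818/PullFunct.lean

-- ===== PACK-BEGIN Lib/Newform/H958/X/Spec.lean
section




/-!
# NEWFORM, block X: cross-level strong multiplicity one via Hecke `L`-functions

Cross-level strong multiplicity one is *not* accessible by the Petersson-free algebra of the
rest of the library (level raising congruences show that any proof must use an Archimedean
input).  Mathlib has the completed `L`-function of a modular form with its functional equation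
(`Mathlib/NumberTheory/ModularForms/LFunction.lean`), and this is enough:

* `f`, `g` Prelude-newforms of levels `N`, `N'` with `a_ℓ(f) = a_ℓ(g)` for all primes `ℓ` outside
  a finite set `T ⊇ primes (N N')`.  Depleting at `T` gives, for `Re s > 2`,
  `Λ_f(s) ∏_{p ∈ T} P_{f,p}(p^{-s}) = Λ_g(s) ∏_{p ∈ T} P_{g,p}(p^{-s})`, hence for all `s`.
* Functional equations `Λ_f(2 - s) = - w_f N^{s-1} Λ_f(s)` (`w_f = ±1` by same-level
  multiplicity one) and the same for `g` give an identity between finite Dirichlet polynomials,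
  which splits prime by prime (independence of the functions `p^{-s}`):
  `X^{e'} P~_f P_g = c X^{e} P_f P~_g`, `e = v_q(N)`, `e' = v_q(N')`, `P~(X) = X² P(q⁻²/X)`.
* With `a_q ∈ {0, ±1}` at bad primes (`BadCoeff`) a coefficient comparison gives `e = e'` and
  `P_f = P_g`, except in the case `e = 1`, `e' = 0`, where it gives `a_q(g) = ±(q + 1)`; this
  is excluded by the strict trivial bound (helper263).  The case `e ≥ 2 > e'`, which is all
  that the Carayol-type statement S36 needs, does not use the strict bound.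

Every statement below is a `Prop`-valued definition (frozen interface).
-/

set_option autoImplicit false

open CongruenceSubgroup UpperHalfPlane Complex Polynomial
open scoped MatrixGroups ModularForm

namespace Fermat.Agent.Lib.Newform.H958.X

open ModularFormClass

/-- The Fricke matrix `[[0, -1], [N, 0]]`. -/
noncomputable def frickeMatrix (N : ℕ) [NeZero N] : GL (Fin 2) ℝ :=
  Matrix.GeneralLinearGroup.mkOfDetNeZero !![0, -1; (N : ℝ), 0]
    (by
      rw [Matrix.det_fin_two_of]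
      have : (N : ℝ) ≠ 0 := Nat.cast_ne_zero.mpr (NeZero.ne N)
      simpa using this)

/-- The completed `L`-function of a cusp form of weight `2` and level `Γ₀(N)` (Mathlib's). -/
noncomputable def Lam {N : ℕ} [NeZero N] (f : CuspForm (Gamma0 N) 2) : ℂ → ℂ :=
  ModularForm.Λ (k := 2) two_pos f

/-- The Euler polynomial `1 - a_p X + [p ∤ N] p X²`. -/
noncomputable def eulerPoly (N : ℕ) (a : ℕ → ℂ) (p : ℕ) : ℂ[X] :=
  1 - C (a p) * X + (if p ∣ N then 0 else C (p : ℂ) * X ^ 2)

/-- The reversed Euler polynomial `X² P(p⁻² X⁻¹) = X² - a_p p⁻² X + [p ∤ N] p⁻³`. -/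
noncomputable def eulerPolyRev (N : ℕ) (a : ℕ → ℂ) (p : ℕ) : ℂ[X] :=
  X ^ 2 - C (a p * ((p : ℂ) ^ 2)⁻¹) * X + (if p ∣ N then 0 else C (((p : ℂ) ^ 3)⁻¹))

/-! ## Leaves -/

/-- **X1** the Fricke involution preserves `S₂(Γ₀(N))`. -/
def FrickeOp : Prop :=
  ∀ (N : ℕ) [NeZero N] (f : CuspForm (Gamma0 N) 2),
    ∃ f' : CuspForm (Gamma0 N) 2, (⇑f' : ℍ → ℂ) = ⇑f ∣[(2 : ℤ)] frickeMatrix N

/-- **X1b** it is an involution (weight 2). -/
def FrickeInvol : Prop :=
  ∀ (N : ℕ) [NeZero N] (f : ℍ → ℂ),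
    (f ∣[(2 : ℤ)] frickeMatrix N) ∣[(2 : ℤ)] frickeMatrix N = f

/-- **X1c** it commutes with `T_ℓ`, `ℓ ∤ N`, on `Γ₀(N)`-invariant functions. -/
def FrickeHecke : Prop :=
  ∀ (N : ℕ) [NeZero N] (ℓ : ℕ), ℓ.Prime → ¬ ℓ ∣ N → ∀ f : CuspForm (Gamma0 N) 2,
    ModularForm.heckeT 2 ℓ (⇑f ∣[(2 : ℤ)] frickeMatrix N) =
      (ModularForm.heckeT 2 ℓ ⇑f) ∣[(2 : ℤ)] frickeMatrix N

/-- **X3** functional equation (from Mathlib's `WeakFEPair.functional_equation` for
`ModularForm.weakFEPair`, `ε = I² = -1`, and `(f ∣ S)(i t) = N⁻¹ (f ∣ W_N)(i t / N)`). -/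
def FunctionalEq : Prop :=
  ∀ (N : ℕ) [NeZero N] (f f' : CuspForm (Gamma0 N) 2),
    (⇑f' : ℍ → ℂ) = ⇑f ∣[(2 : ℤ)] frickeMatrix N →
    ∀ s : ℂ, Lam f (2 - s) = -((N : ℂ) ^ (s - 1)) * Lam f' s

/-- **X4** Dirichlet series (Mathlib's `CuspForm.hasSum_L`, width `1`). -/
def DirichletSeries : Prop :=
  ∀ (N : ℕ) [NeZero N] (f : CuspForm (Gamma0 N) 2) (s : ℂ), 2 < s.re →
    HasSum (fun n : ℕ => qCoeff f n / (n : ℂ) ^ s) (Lam f s * (2 / Gammaℂ s))

/-- **X5** depletion: multiplying by the Euler polynomials at the primes of a finite set `T`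
removes the coefficients `a_n` with `gcd(n, T) ≠ 1`. -/
def Deplete : Prop :=
  ∀ (N : ℕ) [NeZero N] (f : CuspForm (Gamma0 N) 2), f.IsNormalizedEigenform →
    ∀ (T : Finset ℕ), (∀ p ∈ T, p.Prime) → ∀ s : ℂ, 2 < s.re →
      HasSum (fun n : ℕ => (if ∀ p ∈ T, ¬ p ∣ n then qCoeff f n else 0) / (n : ℂ) ^ s)
        (Lam f s * (2 / Gammaℂ s) *
          ∏ p ∈ T, (eulerPoly N (qCoeff f) p).eval ((p : ℂ) ^ (-s)))

/-- **X7** independence of the functions `p^{-s}`: an identity between products of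
one-variable polynomials in `p^{-s}`, `p ∈ T`, splits prime by prime, up to constants. -/
def IndepLocal : Prop :=
  ∀ (T : Finset ℕ), (∀ p ∈ T, p.Prime) → ∀ (A B : ℕ → ℂ[X]),
    (∀ p ∈ T, A p ≠ 0) → (∀ p ∈ T, B p ≠ 0) →
    (∀ s : ℂ, ∏ p ∈ T, (A p).eval ((p : ℂ) ^ (-s)) = ∏ p ∈ T, (B p).eval ((p : ℂ) ^ (-s))) →
    ∀ q ∈ T, ∃ c : ℂ, c ≠ 0 ∧ A q = C c * B q

/-- **STRICT** (helper263): strict trivial bound, in the form used here. -/
def StrictBound : Prop :=
  ∀ (N : ℕ) [NeZero N] (g : CuspForm (Gamma0 N) 2), g.IsNormalizedEigenform →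
    ∀ ℓ : ℕ, ℓ.Prime → ¬ ℓ ∣ N → qCoeff g ℓ ^ 2 ≠ ((ℓ : ℂ) + 1) ^ 2

/-- **MULT-ONE** (same level; copy of `H23.MultOne`, to keep this file independent). -/
def MultOne : Prop :=
  ∀ (N : ℕ) [NeZero N] (f : CuspForm (Gamma0 N) 2), f.IsNewform →
    ∀ h : CuspForm (Gamma0 N) 2,
      (∀ (ℓ : ℕ) (hℓ : ℓ.Prime) (hℓN : ¬ ℓ ∣ N),
        CuspForm.heckeTLin 2 hℓ hℓN h = qCoeff f ℓ • h) →
      h = qCoeff h 1 • f

/-! ## Targets -/

/-- **X-LOCAL**: the local identity at every prime, for two newforms with the same eigenvalues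
outside a finite set. -/
def LocalIdentity : Prop :=
  ∀ (N N' : ℕ) [NeZero N] [NeZero N'] (f : CuspForm (Gamma0 N) 2)
    (g : CuspForm (Gamma0 N') 2), f.IsNewform → g.IsNewform →
    ∀ S : Finset ℕ, (∀ ℓ : ℕ, ℓ.Prime → ℓ ∉ S → qCoeff f ℓ = qCoeff g ℓ) →
    ∀ q : ℕ, q.Prime → ∃ c : ℂ, c ≠ 0 ∧
      X ^ (N'.factorization q) * eulerPolyRev N (qCoeff f) q * eulerPoly N' (qCoeff g) q =
        C c * (X ^ (N.factorization q) * eulerPoly N (qCoeff f) q *
          eulerPolyRev N' (qCoeff g) q)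

/-- **X-SQ** (what S36 needs): if a newform of level `N` and a normalized eigenform of level
`N'` have the same eigenvalues outside a finite set of primes, then `q² ∣ N → q² ∣ N'`. -/
def CrossLevelSq : Prop :=
  ∀ (N N' : ℕ) [NeZero N] [NeZero N'] (f : CuspForm (Gamma0 N) 2)
    (g : CuspForm (Gamma0 N') 2), f.IsNewform → g.IsNormalizedEigenform →
    ∀ S : Finset ℕ, (∀ ℓ : ℕ, ℓ.Prime → ℓ ∉ S → qCoeff f ℓ = qCoeff g ℓ) →
    ∀ q : ℕ, q.Prime → q ^ 2 ∣ N → q ^ 2 ∣ N'

/-- **X-LEVEL**: the level of a newform divides the level of every normalized eigenform with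
the same eigenvalues outside a finite set of primes. -/
def CrossLevel : Prop :=
  ∀ (N N' : ℕ) [NeZero N] [NeZero N'] (f : CuspForm (Gamma0 N) 2)
    (g : CuspForm (Gamma0 N') 2), f.IsNewform → g.IsNormalizedEigenform →
    ∀ S : Finset ℕ, (∀ ℓ : ℕ, ℓ.Prime → ℓ ∉ S → qCoeff f ℓ = qCoeff g ℓ) → N ∣ N'

/-- **X-SMO**: strong multiplicity one for Prelude-newforms. -/
def StrongMultOne : Prop :=
  ∀ (N N' : ℕ) [NeZero N] [NeZero N'] (f : CuspForm (Gamma0 N) 2)
    (g : CuspForm (Gamma0 N') 2), f.IsNewform → g.IsNewform →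
    ∀ S : Finset ℕ, (∀ ℓ : ℕ, ℓ.Prime → ℓ ∉ S → qCoeff f ℓ = qCoeff g ℓ) →
    N = N' ∧ ∀ n : ℕ, qCoeff f n = qCoeff g n

end Fermat.Agent.Lib.Newform.H958.X

end
-- ===== PACK-END Lib/Newform/H958/X/Spec.lean

-- ===== PACK-BEGIN Lib/Newform/H958/Spec.lean
section



/-!
# Shared library NEWFORM — frozen interface (all statements are `Prop`-valued definitions)

Prelude facts that make the whole library *Petersson-free*:

* `CuspForm.IsNormalizedEigenform` is a condition on the `q`-coefficients only;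
* `CuspForm.IsNewform` / `IsNewformAt` mean: the eigensystem away from the level does not
  occur (for a normalized eigenform) at a smaller level;
* `⇑(heckeTLin k hp hpN f) = ModularForm.heckeT k p ⇑f` and
  `⇑(heckeULin k hqN f) = ModularForm.heckeU k q ⇑f` hold by `rfl`, so the function-level
  Hecke operators do not depend on the level.

Leaf interfaces (to be proved by the blocks): `EigenT`, `EigenU`, `Incl`, `Occurs`,
`LowerU`, `TraceAL`.  The assembly (`MainOf.lean`) derives from them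

* `CuspForm.NewformBadPrimeCoeff N` (and the `IsNewformAt` versions),
* descent to a newform, and
* monotonicity of the level (stabilisation) with control of all good eigenvalues.
-/

set_option autoImplicit false

open CongruenceSubgroup
open scoped MatrixGroups

namespace Fermat.Agent.Lib.Newform.H958

/-- **E2T**: a normalized eigenform is an eigenvector of `T_p`, `p ∤ N`, with eigenvalue `a_p`. -/
def EigenT : Prop :=
  ∀ (N : ℕ) (g : CuspForm (Gamma0 N) 2), g.IsNormalizedEigenform →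
    ∀ (p : ℕ) (hp : p.Prime) (hpN : ¬ p ∣ N),
      CuspForm.heckeTLin 2 hp hpN g = ModularFormClass.qCoeff g p • g

/-- **E2U**: a normalized eigenform is an eigenvector of `U_p`, `p ∣ N`, with eigenvalue `a_p`. -/
def EigenU : Prop :=
  ∀ (N : ℕ) [NeZero N] (g : CuspForm (Gamma0 N) 2), g.IsNormalizedEigenform →
    ∀ (p : ℕ) (_ : p.Prime) (hpN : p ∣ N),
      CuspForm.heckeULin 2 hpN g = ModularFormClass.qCoeff g p • g

/-- **INCL**: a cusp form of level `M` is a cusp form of every level `C` with `M ∣ C`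
(same function). -/
def Incl : Prop :=
  ∀ (M C : ℕ), M ∣ C → ∀ g : CuspForm (Gamma0 M) 2,
    ∃ h : CuspForm (Gamma0 C) 2, (⇑h : UpperHalfPlane → ℂ) = ⇑g

/-- **OCC**: if a nonzero cusp form of level `M` is an eigenvector of `T_ℓ` with eigenvalue
`a ℓ` for all primes `ℓ ∤ M` in a set `P`, then there is a *normalized eigenform* of level `M`
with `a_ℓ = a ℓ` for all those `ℓ`. -/
def Occurs : Prop :=
  ∀ (M : ℕ) [NeZero M] (h : CuspForm (Gamma0 M) 2), h ≠ 0 →
    ∀ (P : Set ℕ) (a : ℕ → ℂ),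
      (∀ (ℓ : ℕ) (hℓ : ℓ.Prime) (hℓM : ¬ ℓ ∣ M), ℓ ∈ P →
        CuspForm.heckeTLin 2 hℓ hℓM h = a ℓ • h) →
      ∃ g : CuspForm (Gamma0 M) 2, g.IsNormalizedEigenform ∧
        ∀ ℓ : ℕ, ℓ.Prime → ¬ ℓ ∣ M → ℓ ∈ P → ModularFormClass.qCoeff g ℓ = a ℓ

/-- **LOWER-U**: if `q² ∣ N` then `U_q` maps level `N` to level `N / q`. -/
def LowerU : Prop :=
  ∀ (N q : ℕ) [NeZero N], q.Prime → q ^ 2 ∣ N → ∀ f : CuspForm (Gamma0 N) 2,
    ∃ g : CuspForm (Gamma0 (N / q)) 2,
      (⇑g : UpperHalfPlane → ℂ) = ModularForm.heckeU 2 q ⇑f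

/-- **TRACE-AL**: for `q ∥ N` there is an operator `W` (the Atkin–Lehner involution `W_q`)
on level `N`, commuting with all `T_ℓ`, `ℓ ∤ N`, such that both `f + U_q (W f)`
(the trace of `f`) and `W f + U_q f` (the trace of `W f`) have level `N / q`. -/
def TraceAL : Prop :=
  ∀ (N q : ℕ) [NeZero N], q.Prime → q ∣ N → ¬ q ^ 2 ∣ N →
    ∃ W : CuspForm (Gamma0 N) 2 →ₗ[ℂ] CuspForm (Gamma0 N) 2,
      (∀ (ℓ : ℕ) (hℓ : ℓ.Prime) (hℓN : ¬ ℓ ∣ N) (f : CuspForm (Gamma0 N) 2),
        W (CuspForm.heckeTLin 2 hℓ hℓN f) = CuspForm.heckeTLin 2 hℓ hℓN (W f)) ∧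
      (∀ f : CuspForm (Gamma0 N) 2, ∃ g : CuspForm (Gamma0 (N / q)) 2,
        (⇑g : UpperHalfPlane → ℂ) = ⇑f + ModularForm.heckeU 2 q ⇑(W f)) ∧
      (∀ f : CuspForm (Gamma0 N) 2, ∃ g : CuspForm (Gamma0 (N / q)) 2,
        (⇑g : UpperHalfPlane → ℂ) = ⇑(W f) + ModularForm.heckeU 2 q ⇑f)

/-! ## Targets (what the consumers use) -/

/-- **BAD-AT**: the coefficient at a bad prime of a form that is new at that prime. -/
def BadCoeffAt : Prop :=
  ∀ (N : ℕ) [NeZero N] (f : CuspForm (Gamma0 N) 2) (q : ℕ), q.Prime → f.IsNewformAt q →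
    (¬ q ^ 2 ∣ N → ModularFormClass.qCoeff f q ^ 2 = 1) ∧
    (q ^ 2 ∣ N → ModularFormClass.qCoeff f q = 0)

/-- **BAD**: the Prelude's `NewformBadPrimeCoeff` at all positive levels. -/
def BadCoeff : Prop := ∀ (N : ℕ) [NeZero N], CuspForm.NewformBadPrimeCoeff N

/-- **DESCENT**: every normalized eigenform comes from a newform of a level dividing its
level, with the same eigenvalues away from the level. -/
def Descent : Prop :=
  ∀ (N : ℕ) [NeZero N] (f : CuspForm (Gamma0 N) 2), f.IsNormalizedEigenform →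
    ∃ (M : ℕ) (_ : M ∣ N) (g : CuspForm (Gamma0 M) 2), g.IsNewform ∧
      ∀ ℓ : ℕ, ℓ.Prime → ¬ ℓ ∣ N → ModularFormClass.qCoeff g ℓ = ModularFormClass.qCoeff f ℓ

/-- **STAB**: a normalized eigenform of level `M` gives a normalized eigenform of every
positive level `C` divisible by `M`, with the same eigenvalues at *all* primes `ℓ ∤ C`. -/
def Stab : Prop :=
  ∀ (M C : ℕ) [NeZero C], M ∣ C → ∀ g : CuspForm (Gamma0 M) 2, g.IsNormalizedEigenform →
    ∃ g' : CuspForm (Gamma0 C) 2, g'.IsNormalizedEigenform ∧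
      ∀ ℓ : ℕ, ℓ.Prime → ¬ ℓ ∣ C → ModularFormClass.qCoeff g' ℓ = ModularFormClass.qCoeff g ℓ

end Fermat.Agent.Lib.Newform.H958

end
-- ===== PACK-END Lib/Newform/H958/Spec.lean

-- ===== PACK-BEGIN Lib/Newform/H683/Coeff.lean
section
/-
NEWFORM library (helper683) — part 1: q-coefficient calculus of the Prelude Hecke operators on
`CuspForm (Gamma0 N) k`, and the dictionary

  `IsNormalizedEigenform f`  ⟺  `a₁ = 1` and `f` is an eigenvector of all `T_p` (`p ∤ N`) and
                                  all `U_p` (`p ∣ N`).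
-/







set_option autoImplicit false

open CongruenceSubgroup ModularFormClass ModularForm UpperHalfPlane

namespace Fermat.Agent.Lib.Newform.H683

variable {N : ℕ}

/-- The constant coefficient of a cusp form vanishes. -/
theorem qCoeff_zero_cusp (k : ℤ) (f : CuspForm (Gamma0 N) k) : qCoeff ⇑f 0 = 0 := by
  unfold qCoeff
  have h1 := CongruenceSubgroup.one_mem_strictPeriods_Gamma0 N
  exact CuspFormClass.qExpansion_coeff_zero f (by norm_num) h1

theorem qCoeff_heckeT_cusp (k : ℤ) (f : CuspForm (Gamma0 N) k) {p : ℕ} (hp : p ≠ 0) (n : ℕ) :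
    qCoeff (heckeT k p ⇑f) n = coeffHeckeT k p (qCoeff ⇑f) n :=
  ModularFormClass.qCoeff_heckeT f (CongruenceSubgroup.one_mem_strictPeriods_Gamma0 N) hp n

theorem qCoeff_heckeU_cusp (k : ℤ) (f : CuspForm (Gamma0 N) k) {p : ℕ} (hp : p ≠ 0) (n : ℕ) :
    qCoeff (heckeU k p ⇑f) n = coeffHeckeU p (qCoeff ⇑f) n :=
  ModularFormClass.qCoeff_heckeU f (CongruenceSubgroup.one_mem_strictPeriods_Gamma0 N) hp n

/-- `q`-expansion principle for cusp forms on `Γ₀(N)`. -/
theorem cusp_eq_zero_of_qCoeff (k : ℤ) (f : CuspForm (Gamma0 N) k)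
    (h : ∀ n, qCoeff ⇑f n = 0) : f = 0 := by
  have h1 := CongruenceSubgroup.one_mem_strictPeriods_Gamma0 N
  haveI : Fact (IsCusp OnePoint.infty
      (Subgroup.map (Matrix.SpecialLinearGroup.mapGL ℝ) (Gamma0 N))) :=
    ⟨Subgroup.isCusp_of_mem_strictPeriods one_pos h1⟩
  have hq : qExpansion 1 ⇑f = 0 := by
    ext n
    simpa [qCoeff] using h n
  have := (UpperHalfPlane.qExpansion_eq_zero_iff (h := 1) one_pos
    (SlashInvariantFormClass.periodic_comp_ofComplex f h1) (CuspFormClass.holo f)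
    (ModularFormClass.bdd_at_infty f)).mp hq
  exact DFunLike.coe_injective (by simpa using this)

theorem qCoeff_sub_cusp (k : ℤ) (f g : CuspForm (Gamma0 N) k) (n : ℕ) :
    qCoeff ⇑(f - g) n = qCoeff ⇑f n - qCoeff ⇑g n := by
  have h1 := CongruenceSubgroup.one_mem_strictPeriods_Gamma0 N
  unfold qCoeff
  rw [FunLike.coe_sub, UpperHalfPlane.qExpansion_sub
    (ModularFormClass.analyticAt_cuspFunction_zero f one_pos h1)
    (ModularFormClass.analyticAt_cuspFunction_zero g one_pos h1)]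
  simp

theorem qCoeff_smul_cusp (k : ℤ) (c : ℂ) (f : CuspForm (Gamma0 N) k) (n : ℕ) :
    qCoeff ⇑(c • f) n = c * qCoeff ⇑f n := by
  have h1 := CongruenceSubgroup.one_mem_strictPeriods_Gamma0 N
  unfold qCoeff
  rw [FunLike.coe_smul, UpperHalfPlane.qExpansion_smul
    (ModularFormClass.analyticAt_cuspFunction_zero f one_pos h1)]
  simp

theorem cusp_ext_qCoeff (k : ℤ) (f g : CuspForm (Gamma0 N) k)
    (h : ∀ n, qCoeff ⇑f n = qCoeff ⇑g n) : f = g := by
  have := cusp_eq_zero_of_qCoeff k (f - g) (fun n => by rw [qCoeff_sub_cusp, h n, sub_self])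
  exact sub_eq_zero.mp this

end Fermat.Agent.Lib.Newform.H683

end
-- ===== PACK-END Lib/Newform/H683/Coeff.lean

-- ===== PACK-BEGIN Lib/Newform/H263/MaxPrinciple.lean
section
/-
NEWFORM library (helper263) — part 1: a maximum principle for invariant functions on `ℍ`.

A continuous nonnegative function on the upper half plane which is invariant under an arithmetic
subgroup and tends to `0` at every cusp attains its maximum.  (Compactness of the truncated
fundamental domain of `SL(2, ℤ)`; no integration.)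
-/


set_option autoImplicit false

open Filter Topology UpperHalfPlane Matrix.SpecialLinearGroup
open scoped Modular MatrixGroups

namespace Fermat.Agent.Lib.Newform.H263

/-- A finite family of continuous nonnegative functions on `ℍ`, permuted by `SL(2, ℤ)` and all
tending to `0` at `i∞`, has a global maximum. -/
theorem exists_max_of_family {ι : Type*} [Finite ι] [Nonempty ι] [MulAction SL(2, ℤ) ι]
    (F : ℍ → ι → ℝ) (hc : ∀ c, Continuous (F · c)) (hnn : ∀ τ c, 0 ≤ F τ c)
    (h0 : ∀ c, Tendsto (F · c) atImInfty (𝓝 0))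
    (hinv : ∀ (g : SL(2, ℤ)) τ c, F (g • τ) (g • c) = F τ c) :
    ∃ τ₀ c₀, ∀ τ c, F τ c ≤ F τ₀ c₀ := by
  classical
  by_cases hz : ∀ τ c, F τ c ≤ 0
  · exact ⟨UpperHalfPlane.I, Classical.arbitrary ι, fun τ c ↦ (hz τ c).trans (hnn _ _)⟩
  push Not at hz
  obtain ⟨τ₁, c₁, hpos⟩ := hz
  -- a uniform height above which everything is smaller than `F τ₁ c₁`
  have hY : ∀ c, ∃ Y : ℝ, ∀ τ : ℍ, Y ≤ τ.im → F τ c < F τ₁ c₁ := fun c ↦ by
    have := (h0 c).eventually (gt_mem_nhds hpos)
    exact (atImInfty_mem _).mp this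
  choose Yc hYc using hY
  obtain ⟨Y, hYub⟩ : ∃ Y : ℝ, ∀ c, Yc c < Y := by
    obtain ⟨B, hB⟩ := (Set.finite_range Yc).bddAbove
    exact ⟨B + 1, fun c ↦ lt_of_le_of_lt (hB (Set.mem_range_self c)) (lt_add_one B)⟩
  have hsmall : ∀ τ : ℍ, Y ≤ τ.im → ∀ c, F τ c < F τ₁ c₁ := fun τ hτ c ↦
    hYc c τ ((hYub c).le.trans hτ)
  -- the truncated fundamental domain is compact and contains a translate of `τ₁`
  obtain ⟨g₁, hg₁⟩ := ModularGroup.exists_smul_mem_fd τ₁
  have hmem₁ : g₁ • τ₁ ∈ ModularGroup.truncatedFundamentalDomain Y := by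
    refine ⟨hg₁, ?_⟩
    by_contra hlt
    have := hsmall (g₁ • τ₁) (not_le.mp hlt).le (g₁ • c₁)
    rw [hinv] at this
    exact lt_irrefl _ this
  have hne : (ModularGroup.truncatedFundamentalDomain Y).Nonempty := ⟨_, hmem₁⟩
  have hmax : ∀ c, ∃ τ ∈ ModularGroup.truncatedFundamentalDomain Y,
      ∀ τ' ∈ ModularGroup.truncatedFundamentalDomain Y, F τ' c ≤ F τ c := fun c ↦ by
    obtain ⟨τ, hτ, hτmax⟩ := (ModularGroup.isCompact_truncatedFundamentalDomain Y).exists_isMaxOn
      hne (hc c).continuousOn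
    exact ⟨τ, hτ, fun τ' hτ' ↦ hτmax hτ'⟩
  choose τc hτc hτcmax using hmax
  obtain ⟨c₀, hc₀⟩ := Finite.exists_max (fun c ↦ F (τc c) c)
  have key : ∀ τ ∈ ModularGroup.truncatedFundamentalDomain Y, ∀ c, F τ c ≤ F (τc c₀) c₀ :=
    fun τ hτ c ↦ (hτcmax c τ hτ).trans (hc₀ c)
  refine ⟨τc c₀, c₀, fun τ c ↦ ?_⟩
  obtain ⟨g, hg⟩ := ModularGroup.exists_smul_mem_fd τ
  rw [← hinv g τ c]
  by_cases hle : (g • τ).im ≤ Y
  · exact key _ ⟨hg, hle⟩ _
  · refine (hsmall (g • τ) (not_le.mp hle).le (g • c)).le.trans ?_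
    rw [← hinv g₁ τ₁ c₁]
    exact key _ hmem₁ _

/-- A continuous nonnegative function on `ℍ`, invariant under a finite-index subgroup of
`SL(2, ℤ)` and tending to `0` at every cusp, attains its maximum. -/
theorem exists_max_of_subgroup_invariant_SL {φ : ℍ → ℝ} (hc : Continuous φ) (hnn : ∀ τ, 0 ≤ φ τ)
    (h0 : ∀ g : SL(2, ℤ), Tendsto (fun τ ↦ φ (g • τ)) atImInfty (𝓝 0))
    {Γ : Subgroup SL(2, ℤ)} [Γ.FiniteIndex] (hinv : ∀ g ∈ Γ, ∀ τ, φ (g • τ) = φ τ) :
    ∃ τ₀, ∀ τ, φ τ ≤ φ τ₀ := by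
  let F τ : SL(2, ℤ) ⧸ Γ → ℝ := Quotient.lift (fun g ↦ φ (g⁻¹ • τ)) fun g h hgh ↦ by
    obtain ⟨j, hj, hj'⟩ : ∃ j ∈ Γ, h = g * j := by
      rw [← Quotient.eq_iff_equiv, Quotient.eq, QuotientGroup.leftRel_apply] at hgh
      exact ⟨g⁻¹ * h, hgh, (mul_inv_cancel_left g h).symm⟩
    simp [-ModularGroup.sl_moeb, hj', mul_smul, hinv j⁻¹ (inv_mem hj)]
  have hF_cont γ : Continuous (F · γ) := QuotientGroup.induction_on γ fun g ↦ by
    simp only [ModularGroup.sl_moeb, F]
    fun_prop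
  have hF_inv (g : SL(2, ℤ)) τ γ : F (g • τ) (g • γ) = F τ γ := by
    induction γ using QuotientGroup.induction_on
    simp [-ModularGroup.sl_moeb, F, mul_smul]
  have hF_infty γ : Tendsto (F · γ) atImInfty (𝓝 0) := γ.induction_on fun h ↦ h0 h⁻¹
  have hF_nn τ γ : 0 ≤ F τ γ := by
    induction γ using QuotientGroup.induction_on
    exact hnn _
  have : Finite (SL(2, ℤ) ⧸ Γ) := Subgroup.finite_quotient_of_finiteIndex
  obtain ⟨τ₀, c₀, hmax⟩ := exists_max_of_family F hF_cont hF_nn hF_infty hF_inv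
  induction c₀ using QuotientGroup.induction_on with
  | H g₀ =>
    refine ⟨g₀⁻¹ • τ₀, fun τ ↦ ?_⟩
    have := hmax τ ((1 : SL(2, ℤ)) : SL(2, ℤ) ⧸ Γ)
    simpa [-ModularGroup.sl_moeb, F] using this

/-- A continuous nonnegative function on `ℍ`, invariant under an arithmetic subgroup of
`GL(2, ℝ)` and tending to `0` at every cusp, attains its maximum. -/
theorem exists_max_of_subgroup_invariant {φ : ℍ → ℝ} (hc : Continuous φ) (hnn : ∀ τ, 0 ≤ φ τ)
    (h0 : ∀ g : SL(2, ℤ), Tendsto (fun τ ↦ φ (g • τ)) atImInfty (𝓝 0))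
    {Γ : Subgroup (GL (Fin 2) ℝ)} [Γ.IsArithmetic] (hinv : ∀ g ∈ Γ, ∀ τ, φ (g • τ) = φ τ) :
    ∃ τ₀, ∀ τ, φ τ ≤ φ τ₀ :=
  exists_max_of_subgroup_invariant_SL hc hnn h0 (Γ := Γ.comap (mapGL ℝ)) (hinv ·)

end Fermat.Agent.Lib.Newform.H263

end
-- ===== PACK-END Lib/Newform/H263/MaxPrinciple.lean

-- ===== PACK-BEGIN S28/H807/Section.lean
section
/-
S28 / helper807 — formal `p`-sections of Laurent series and the section matrix.

For `f ∈ R((T))` and `p ≥ 1`, the *section matrix* `secMat p f ∈ Mat_p(R((q)))` is the matrix of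
multiplication by `f` on `R((T))`, seen as a free module over `R((T^p)) = V_p(R((q)))` with
basis `1, T, …, T^{p-1}`.  Main result (`secMat_charpoly_eval`): the characteristic polynomial
of `secMat p f`, with coefficients pushed along `V_p = qExpand p`, kills `f`.
-/




set_option autoImplicit false

noncomputable section

open ModularCurve HahnSeries Polynomial Matrix

namespace Fermat.Agent.S28.H807

variable {R : Type*} [CommRing R]

/-- The `r`-th `p`-section `∑ₘ f_{pm+r} qᵐ` of a Laurent series `f`. -/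
def secL (p : ℕ) [NeZero p] (r : ℤ) (f : LaurentSeries R) : LaurentSeries R :=
  HahnSeries.ofSuppBddBelow (fun m : ℤ => f.coeff ((p : ℤ) * m + r))
    (HahnSeries.forallLTEqZero_supp_BddBelow _ ((f.order - r) / (p : ℤ)) (by
      intro m hm
      apply HahnSeries.coeff_eq_zero_of_lt_order
      have hp : (0 : ℤ) < (p : ℤ) := by exact_mod_cast Nat.pos_of_ne_zero (NeZero.ne p)
      have h1 : m + 1 ≤ (f.order - r) / (p : ℤ) := hm
      have h2 : (m + 1) * (p : ℤ) ≤ f.order - r := (Int.le_ediv_iff_mul_le hp).mp h1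
      nlinarith))

@[simp]
theorem secL_coeff (p : ℕ) [NeZero p] (r : ℤ) (f : LaurentSeries R) (m : ℤ) :
    (secL p r f).coeff m = f.coeff ((p : ℤ) * m + r) := by
  simp [secL]

theorem secL_coeffMap {S : Type*} [CommRing S] (φ : R →+* S) (p : ℕ) [NeZero p] (r : ℤ)
    (f : LaurentSeries R) : secL p r (coeffMap φ f) = coeffMap φ (secL p r f) := by
  ext m
  simp

/-- The section matrix of `f`: entry `(i', i)` is the `(i' - i)`-th section. -/
def secMat (p : ℕ) [NeZero p] (f : LaurentSeries R) :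
    Matrix (Fin p) (Fin p) (LaurentSeries R) :=
  fun i' i => secL p ((i' : ℤ) - (i : ℤ)) f

theorem secMat_apply (p : ℕ) [NeZero p] (f : LaurentSeries R) (i' i : Fin p) :
    secMat p f i' i = secL p ((i' : ℤ) - (i : ℤ)) f := rfl

theorem secMat_coeffMap {S : Type*} [CommRing S] (φ : R →+* S) (p : ℕ) [NeZero p]
    (f : LaurentSeries R) :
    secMat p (coeffMap φ f) = (secMat p f).map (coeffMap φ) := by
  ext i' i : 2
  simp [secMat_apply, Matrix.map_apply, secL_coeffMap]

/-- Key identity: `f · Tⁱ = ∑_{i'} V_p(M_{i',i}) · T^{i'}`. -/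
theorem mul_single_eq_sum_secMat (p : ℕ) [NeZero p] (f : LaurentSeries R) (i : Fin p) :
    f * HahnSeries.single ((i : ℕ) : ℤ) (1 : R) =
      ∑ i' : Fin p, qExpand R p (secMat p f i' i) * HahnSeries.single ((i' : ℕ) : ℤ) (1 : R) := by
  have hp : (0 : ℤ) < (p : ℤ) := by exact_mod_cast Nat.pos_of_ne_zero (NeZero.ne p)
  ext n
  rw [HahnSeries.coeff_mul_single, mul_one, HahnSeries.coeff_sum]
  -- the unique index i' with p ∣ n - i'
  have hlt : (n % (p : ℤ)).toNat < p := by
    have h1 : n % (p : ℤ) < p := Int.emod_lt_of_pos n hp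
    have h0 : 0 ≤ n % (p : ℤ) := Int.emod_nonneg n hp.ne'
    omega
  set i0 : Fin p := ⟨(n % (p : ℤ)).toNat, hlt⟩ with hi0
  have hi0v : ((i0 : ℕ) : ℤ) = n % (p : ℤ) := by
    simp only [hi0]
    exact Int.toNat_of_nonneg (Int.emod_nonneg n hp.ne')
  rw [Finset.sum_eq_single i0]
  · rw [HahnSeries.coeff_mul_single, mul_one]
    have hdvd : n - ((i0 : ℕ) : ℤ) = (p : ℤ) * (n / (p : ℤ)) := by
      rw [hi0v]; have := Int.emod_add_mul_ediv n (p : ℤ); linarith
    rw [hdvd, qExpand_coeff_mul, secMat_apply, secL_coeff]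
    congr 1
    rw [← hdvd]; ring
  · intro i' _ hne
    rw [HahnSeries.coeff_mul_single, mul_one]
    apply qExpand_coeff_of_not_dvd
    intro hdvd
    apply hne
    apply Fin.ext
    have h1 : n % (p : ℤ) = ((i' : ℕ) : ℤ) % (p : ℤ) := by
      have := (Int.emod_emod_of_dvd n (dvd_refl (p : ℤ)))
      exact (Int.emod_eq_emod_iff_emod_sub_eq_zero).mpr (Int.emod_eq_zero_of_dvd hdvd)
    have h2 : ((i' : ℕ) : ℤ) % (p : ℤ) = ((i' : ℕ) : ℤ) :=
      Int.emod_eq_of_lt (by positivity) (by exact_mod_cast i'.2)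
    have h3 : ((i0 : ℕ) : ℤ) = ((i' : ℕ) : ℤ) := by rw [hi0v, h1, h2]
    exact_mod_cast h3.symm
  · intro h; exact absurd (Finset.mem_univ _) h

/-- **Lemma F1** (Cayley–Hamilton for the section matrix): the characteristic polynomial of
`secMat p f`, with coefficients pushed along `V_p`, kills `f`. -/
theorem secMat_charpoly_eval (p : ℕ) [NeZero p] (f : LaurentSeries R) :
    (((secMat p f).charpoly).map (qExpand R p)).eval f = 0 := by
  set A : Matrix (Fin p) (Fin p) (LaurentSeries R) := (secMat p f).map (qExpand R p) with hA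
  set v : Fin p → LaurentSeries R := fun i => HahnSeries.single ((i : ℕ) : ℤ) (1 : R) with hv
  set B : Matrix (Fin p) (Fin p) (LaurentSeries R) := Matrix.scalar (Fin p) f - Aᵀ with hB
  have hBv : B *ᵥ v = 0 := by
    funext i
    simp only [hB, Matrix.sub_mulVec, Pi.sub_apply, Pi.zero_apply]
    rw [sub_eq_zero]
    have h1 : (Matrix.scalar (Fin p) f *ᵥ v) i = f * v i := by
      simp [Matrix.scalar_apply, Matrix.mulVec, dotProduct, Matrix.diagonal_apply]
    rw [h1]
    simp only [Matrix.mulVec, dotProduct, Matrix.transpose_apply, hA, Matrix.map_apply, hv]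
    exact mul_single_eq_sum_secMat p f i
  have hdet : B.det • v = 0 := by
    have h : (Matrix.adjugate B * B) *ᵥ v = (B.det • (1 : Matrix (Fin p) (Fin p) _)) *ᵥ v := by
      rw [Matrix.adjugate_mul]
    rw [← Matrix.mulVec_mulVec, hBv, Matrix.mulVec_zero] at h
    rw [Matrix.smul_mulVec, Matrix.one_mulVec] at h
    exact h.symm
  have h0 : B.det * v ⟨0, Nat.pos_of_ne_zero (NeZero.ne p)⟩ = 0 := by
    have := congrFun hdet ⟨0, Nat.pos_of_ne_zero (NeZero.ne p)⟩
    simpa using this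
  have hv0 : v ⟨0, Nat.pos_of_ne_zero (NeZero.ne p)⟩ = 1 := by
    simp only [hv]
    rfl
  rw [hv0, mul_one] at h0
  rw [← Matrix.charpoly_map, ← hA, ← Matrix.charpoly_transpose, Matrix.eval_charpoly]
  exact h0

end Fermat.Agent.S28.H807

end

end
-- ===== PACK-END S28/H807/Section.lean

-- ===== PACK-BEGIN S28/H806/Transcend.lean
section



set_option autoImplicit false
set_option linter.unusedSectionVars false
set_option linter.style.haveILetI false

noncomputable section

namespace Fermat.Agent.S28.H806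

open Polynomial ModularCurve

section LemmaT

variable {D : Type*} [CommRing D] [IsDomain D]

theorem order_C_mul_pow (t : HahnSeries ℤ D) (ht : t ≠ 0) {c : D} (hc : c ≠ 0) (i : ℕ) :
    (HahnSeries.C c * t ^ i).order = (i : ℤ) * t.order := by
  have hC : (HahnSeries.C c : HahnSeries ℤ D) ≠ 0 := by
    intro h
    exact hc (HahnSeries.C_injective (by rw [h, map_zero]))
  rw [HahnSeries.order_mul hC (pow_ne_zero _ ht), HahnSeries.order_pow, HahnSeries.order_C,
    zero_add, nsmul_eq_mul]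

/-- **Lemma T.** A Laurent series of nonzero order is transcendental over the coefficients:
`∑ cᵢ tⁱ = 0` forces all `cᵢ = 0`. -/
theorem eq_zero_of_eval₂_C_eq_zero (t : HahnSeries ℤ D) (ht : t.order ≠ 0) (p : D[X])
    (hp : p.eval₂ (HahnSeries.C (Γ := ℤ) (R := D)) t = 0) : p = 0 := by
  classical
  by_contra hp0
  have ht0 : t ≠ 0 := by
    rintro rfl
    exact ht HahnSeries.order_zero
  have hne : p.support.Nonempty := by
    rw [Finset.nonempty_iff_ne_empty, Ne, Polynomial.support_eq_empty]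
    exact hp0
  obtain ⟨i0, hi0, hmin⟩ := Finset.exists_min_image p.support (fun i : ℕ => (i : ℤ) * t.order) hne
  have hci0 : p.coeff i0 ≠ 0 := Polynomial.mem_support_iff.mp hi0
  rw [Polynomial.eval₂_eq_sum, Polynomial.sum_def] at hp
  have hcoef := congrArg (fun x : HahnSeries ℤ D => x.coeff ((i0 : ℤ) * t.order)) hp
  simp only [HahnSeries.coeff_zero] at hcoef
  have hsum : (∑ i ∈ p.support, HahnSeries.C (p.coeff i) * t ^ i).coeff ((i0 : ℤ) * t.order) =
      ∑ i ∈ p.support, (HahnSeries.C (p.coeff i) * t ^ i).coeff ((i0 : ℤ) * t.order) :=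
    map_sum (HahnSeries.coeff.addMonoidHom ((i0 : ℤ) * t.order)) _ p.support
  rw [hsum, Finset.sum_eq_single i0] at hcoef
  · have h1 : (HahnSeries.C (p.coeff i0) * t ^ i0) ≠ 0 := by
      apply mul_ne_zero
      · intro h
        exact hci0 (HahnSeries.C_injective (by rw [h, map_zero]))
      · exact pow_ne_zero _ ht0
    rw [← order_C_mul_pow t ht0 hci0 i0] at hcoef
    exact h1 (HahnSeries.coeff_order_eq_zero.mp hcoef)
  · intro i hi hii0
    have hci : p.coeff i ≠ 0 := Polynomial.mem_support_iff.mp hi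
    apply HahnSeries.coeff_eq_zero_of_lt_order
    rw [order_C_mul_pow t ht0 hci i]
    have hle := hmin i hi
    rcases lt_or_eq_of_le hle with h | h
    · exact h
    · exfalso
      apply hii0
      have := mul_right_cancel₀ ht h
      exact_mod_cast this.symm
  · intro h
    exact absurd hi0 h

end LemmaT

section JOrder

variable (D : Type*) [CommRing D] [IsDomain D]

theorem jqModC_order_neg : (jqModC D).order < 0 := by
  have h1 : (jqModC D).coeff (-1) ≠ 0 := by
    rw [coeff_jqModC_neg_one]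
    exact one_ne_zero
  exact lt_of_le_of_lt (HahnSeries.order_le_of_coeff_ne_zero h1) (by norm_num)

theorem jqModC_order_ne_zero : (jqModC D).order ≠ 0 := (jqModC_order_neg D).ne

theorem jqModC_ne_zero' : jqModC D ≠ 0 := jqModC_ne_zero_of_nontrivial D

variable (k : Type*) [Field k]

theorem jqModC_inv_order_ne_zero : ((jqModC k)⁻¹).order ≠ 0 := by
  have h0 := jqModC_ne_zero' k
  have h1 : (jqModC k)⁻¹ ≠ 0 := inv_ne_zero h0
  have h2 := HahnSeries.order_mul h0 h1
  rw [mul_inv_cancel₀ h0, HahnSeries.order_one] at h2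
  have h3 := jqModC_order_neg k
  omega

end JOrder

end Fermat.Agent.S28.H806

end
end
-- ===== PACK-END S28/H806/Transcend.lean

-- ===== PACK-BEGIN S18/H333/Trunc.lean
section


/-!
# S18 / c3 (helper333): kernel-computable truncated power-series arithmetic over `ℤ`

`tl n f` is the list of the first `n` coefficients of `f : ℤ⟦X⟧`.  The operations
`tmul`, `tadd`, `tsub`, `tsmul`, `tpow`, `tV` on lists compute `tl n` of products, sums, … and
are evaluated by `decide +kernel`.
-/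

set_option autoImplicit false

namespace Fermat.Agent.S18.H333

open PowerSeries

/-- computable truncated multiplication of coefficient lists (mod `X^n`). -/
def tmul (n : ℕ) (a b : List ℤ) : List ℤ :=
  (List.range n).map fun k =>
    ((List.range (k + 1)).map fun i => a.getD i 0 * b.getD (k - i) 0).sum

def tadd (n : ℕ) (a b : List ℤ) : List ℤ :=
  (List.range n).map fun k => a.getD k 0 + b.getD k 0

def tsub (n : ℕ) (a b : List ℤ) : List ℤ :=
  (List.range n).map fun k => a.getD k 0 - b.getD k 0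

def tsmul (n : ℕ) (c : ℤ) (a : List ℤ) : List ℤ :=
  (List.range n).map fun k => c * a.getD k 0

def tone (n : ℕ) : List ℤ :=
  (List.range n).map fun k => if k = 0 then 1 else 0

def tzero (n : ℕ) : List ℤ :=
  (List.range n).map fun _ => 0

def tX (n : ℕ) : List ℤ :=
  (List.range n).map fun k => if k = 1 then 1 else 0

def tpow (n : ℕ) (a : List ℤ) : ℕ → List ℤ
  | 0 => tone n
  | m + 1 => tmul n (tpow n a m) a

/-- `X ↦ X^p` on truncated lists -/
def tV (n p : ℕ) (a : List ℤ) : List ℤ :=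
  (List.range n).map fun k => if p ∣ k then a.getD (k / p) 0 else 0

def oneSubXpow (n j : ℕ) : List ℤ :=
  (List.range n).map fun k => (if k = 0 then 1 else 0) - (if k = j then 1 else 0)

/-- truncation of `∏_{i<m} (1 - X^(i+1))` -/
def etaLrec (n : ℕ) : ℕ → List ℤ
  | 0 => tone n
  | m + 1 => tmul n (etaLrec n m) (oneSubXpow n (m + 1))

/-- `X ↦ X ^ p` on power series, defined coefficientwise. -/
noncomputable def Vser {R : Type*} [Semiring R] (p : ℕ) (f : PowerSeries R) : PowerSeries R :=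
  PowerSeries.mk fun n => if p ∣ n then PowerSeries.coeff (n / p) f else 0

@[simp]
theorem coeff_Vser {R : Type*} [Semiring R] (p : ℕ) (f : PowerSeries R) (n : ℕ) :
    PowerSeries.coeff n (Vser p f) = if p ∣ n then PowerSeries.coeff (n / p) f else 0 := by
  rw [Vser, PowerSeries.coeff_mk]

theorem Vser_map {R S : Type*} [Semiring R] [Semiring S] (φ : R →+* S) (p : ℕ)
    (f : PowerSeries R) : (Vser p f).map φ = Vser p (f.map φ) := by
  ext n
  simp only [PowerSeries.coeff_map, coeff_Vser]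
  split_ifs <;> simp

/-- the list of the first `n` coefficients -/
noncomputable def tl (n : ℕ) (f : PowerSeries ℤ) : List ℤ :=
  (List.range n).map fun k => coeff k f

@[simp] theorem length_tl (n : ℕ) (f : PowerSeries ℤ) : (tl n f).length = n := by
  simp [tl]

theorem tl_getD (n : ℕ) (f : PowerSeries ℤ) {i : ℕ} (hi : i < n) :
    (tl n f).getD i 0 = coeff i f := by
  simp [tl, List.getD, hi]

theorem tl_ext_iff (n : ℕ) (f g : PowerSeries ℤ) :
    tl n f = tl n g ↔ ∀ k < n, coeff k f = coeff k g := by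
  constructor
  · intro h k hk
    rw [← tl_getD n f hk, ← tl_getD n g hk, h]
  · intro h
    refine List.map_congr_left fun k hk => h k (List.mem_range.mp hk)

theorem tl_eq_of_coeff (n : ℕ) (f : PowerSeries ℤ) (c : ℕ → ℤ) (h : ∀ k < n, coeff k f = c k) :
    tl n f = (List.range n).map c :=
  List.map_congr_left fun k hk => h k (List.mem_range.mp hk)

theorem tl_mul (n : ℕ) (f g : PowerSeries ℤ) : tl n (f * g) = tmul n (tl n f) (tl n g) := by
  refine List.map_congr_left fun k hk => ?_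
  have hk' : k < n := List.mem_range.mp hk
  rw [coeff_mul, Finset.Nat.sum_antidiagonal_eq_sum_range_succ_mk, ← List.sum_toFinset _
    (List.nodup_range), List.toFinset_range]
  refine Finset.sum_congr rfl fun i hi => ?_
  have hi' : i < k + 1 := Finset.mem_range.mp hi
  rw [tl_getD n f (by omega), tl_getD n g (by omega)]

theorem tl_add (n : ℕ) (f g : PowerSeries ℤ) : tl n (f + g) = tadd n (tl n f) (tl n g) := by
  refine List.map_congr_left fun k hk => ?_
  have hk' : k < n := List.mem_range.mp hk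
  rw [tl_getD n f hk', tl_getD n g hk', map_add]

theorem tl_sub (n : ℕ) (f g : PowerSeries ℤ) : tl n (f - g) = tsub n (tl n f) (tl n g) := by
  refine List.map_congr_left fun k hk => ?_
  have hk' : k < n := List.mem_range.mp hk
  rw [tl_getD n f hk', tl_getD n g hk', map_sub]

theorem tl_smul (n : ℕ) (c : ℤ) (f : PowerSeries ℤ) : tl n (c • f) = tsmul n c (tl n f) := by
  refine List.map_congr_left fun k hk => ?_
  have hk' : k < n := List.mem_range.mp hk
  rw [tl_getD n f hk', map_zsmul, smul_eq_mul]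

theorem tl_one (n : ℕ) : tl n 1 = tone n := by
  refine List.map_congr_left fun k _ => ?_
  rw [coeff_one]

theorem tl_zero (n : ℕ) : tl n 0 = tzero n := by
  refine List.map_congr_left fun k _ => ?_
  simp

theorem tl_X (n : ℕ) : tl n X = tX n := by
  refine List.map_congr_left fun k _ => ?_
  rw [coeff_X]

theorem tl_pow (n : ℕ) (f : PowerSeries ℤ) (m : ℕ) : tl n (f ^ m) = tpow n (tl n f) m := by
  induction m with
  | zero => rw [pow_zero, tl_one]; rfl
  | succ m ih => rw [pow_succ, tl_mul, ih]; rfl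

theorem tl_oneSubXpow (n j : ℕ) : tl n (1 - X ^ j) = oneSubXpow n j := by
  refine List.map_congr_left fun k _ => ?_
  rw [map_sub, coeff_one, coeff_X_pow]

theorem tl_Vser (n p : ℕ) (hp : 0 < p) (f : PowerSeries ℤ) :
    tl n (Vser p f) = tV n p (tl n f) := by
  refine List.map_congr_left fun k hk => ?_
  have hk' : k < n := List.mem_range.mp hk
  have : k / p < n := lt_of_le_of_lt (Nat.div_le_self k p) hk'
  rw [coeff_Vser, tl_getD n f this]

theorem tl_eq_tzero_iff (n : ℕ) (f : PowerSeries ℤ) :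
    tl n f = tzero n ↔ ∀ k < n, coeff k f = 0 := by
  rw [← tl_zero, tl_ext_iff]
  simp

/-- truncation of a finite product `∏_{i<m} (1 - X^(i+1))` -/
theorem tl_prod_range (n m : ℕ) :
    tl n (∏ i ∈ Finset.range m, ((1 : PowerSeries ℤ) - X ^ (i + 1))) = etaLrec n m := by
  induction m with
  | zero => rw [Finset.prod_range_zero, tl_one]; rfl
  | succ m ih => rw [Finset.prod_range_succ, tl_mul, ih, tl_oneSubXpow]; rfl

theorem tl_mul_congr (n : ℕ) {f f' g g' : PowerSeries ℤ} (hf : tl n f = tl n f')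
    (hg : tl n g = tl n g') : tl n (f * g) = tl n (f' * g') := by
  rw [tl_mul, tl_mul, hf, hg]

/-- factors `1 - X^(i+1)` with `n ≤ i + 1` do not change the first `n` coefficients -/
theorem tl_prod_of_le (n : ℕ) (s : Finset ℕ) (hs : ∀ i ∈ s, n ≤ i + 1) :
    tl n (∏ i ∈ s, ((1 : PowerSeries ℤ) - X ^ (i + 1))) = tl n 1 := by
  induction s using Finset.induction_on with
  | empty => rw [Finset.prod_empty]
  | insert a s ha ih =>
    rw [Finset.prod_insert ha]
    have h1 : tl n ((1 : PowerSeries ℤ) - X ^ (a + 1)) = tl n 1 := by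
      rw [tl_ext_iff]
      intro k hk
      have hka : k ≠ a + 1 := by
        have := hs a (Finset.mem_insert_self a s)
        omega
      rw [map_sub, coeff_X_pow, if_neg hka, sub_zero]
    have h2 := tl_mul_congr n h1 (ih fun i hi => hs i (Finset.mem_insert_of_mem hi))
    rw [h2, one_mul]

end Fermat.Agent.S18.H333

end
-- ===== PACK-END S18/H333/Trunc.lean

-- ===== PACK-BEGIN S20/Comb/Basic.lean
section






/-!
# Combinatorics on `SL(2,ℤ) ⧸ Gamma0 N` : basic coset criterion, fixed points of `S` and `S * T`.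

Left cosets, Mathlib's left-multiplication action (`MulAction.quotient`).
-/

set_option autoImplicit false

namespace Fermat.Agent.S20.Comb

open Matrix MatrixGroups CongruenceSubgroup

/-- The `(1,0)` entry of `g⁻¹ * g'`. -/
lemma inv_mul_apply_one_zero (g g' : SL(2, ℤ)) :
    (g⁻¹ * g') 1 0 = g 0 0 * g' 1 0 - g 1 0 * g' 0 0 := by
  rw [Matrix.SpecialLinearGroup.coe_mul, Matrix.SpecialLinearGroup.coe_inv,
    Matrix.adjugate_fin_two, Matrix.mul_apply, Fin.sum_univ_two]
  simp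
  ring

/-- Coset criterion: `g Γ₀(N) = g' Γ₀(N)` iff `a c' - c a' ≡ 0 mod N`, where `(a, c)`, `(a', c')`
are the first columns of `g`, `g'`. -/
lemma mk_eq_mk_iff (N : ℕ) (g g' : SL(2, ℤ)) :
    (QuotientGroup.mk g : SL(2, ℤ) ⧸ Gamma0 N) = QuotientGroup.mk g' ↔
      ((g 0 0 : ℤ) : ZMod N) * ((g' 1 0 : ℤ) : ZMod N)
        - ((g 1 0 : ℤ) : ZMod N) * ((g' 0 0 : ℤ) : ZMod N) = 0 := by
  rw [QuotientGroup.eq, Gamma0_mem, inv_mul_apply_one_zero]
  push_cast
  rfl

/-- Determinant relation in `ZMod N`. -/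
lemma det_cast (N : ℕ) (g : SL(2, ℤ)) :
    ((g 0 0 : ℤ) : ZMod N) * ((g 1 1 : ℤ) : ZMod N)
      - ((g 0 1 : ℤ) : ZMod N) * ((g 1 0 : ℤ) : ZMod N) = 1 := by
  have h := g.det_coe
  rw [Matrix.det_fin_two] at h
  have := congrArg (fun z : ℤ => (z : ZMod N)) h
  simpa using this

/-- Fixed-point criterion for a general element `γ`. -/
lemma smul_mk_eq_mk_iff (N : ℕ) (γ g : SL(2, ℤ)) :
    γ • (QuotientGroup.mk g : SL(2, ℤ) ⧸ Gamma0 N) = QuotientGroup.mk g ↔
      ((g 0 0 : ℤ) : ZMod N) * (((γ * g) 1 0 : ℤ) : ZMod N)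
        - ((g 1 0 : ℤ) : ZMod N) * (((γ * g) 0 0 : ℤ) : ZMod N) = 0 := by
  rw [MulAction.Quotient.smul_mk, smul_eq_mul, eq_comm, mk_eq_mk_iff]

lemma S_mul_apply_zero_zero (g : SL(2, ℤ)) : (ModularGroup.S * g) 0 0 = - g 1 0 := by
  rw [Matrix.SpecialLinearGroup.coe_mul, ModularGroup.coe_S, Matrix.mul_apply, Fin.sum_univ_two]
  simp

lemma S_mul_apply_one_zero (g : SL(2, ℤ)) : (ModularGroup.S * g) 1 0 = g 0 0 := by
  rw [Matrix.SpecialLinearGroup.coe_mul, ModularGroup.coe_S, Matrix.mul_apply, Fin.sum_univ_two]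
  simp

lemma coe_S_mul_T : ((ModularGroup.S * ModularGroup.T : SL(2, ℤ)) : Matrix (Fin 2) (Fin 2) ℤ)
    = !![0, -1; 1, 1] := by
  rw [Matrix.SpecialLinearGroup.coe_mul, ModularGroup.coe_S, ModularGroup.coe_T]
  ext i j
  fin_cases i <;> fin_cases j <;> simp [Matrix.mul_apply, Fin.sum_univ_two]

lemma ST_mul_apply_zero_zero (g : SL(2, ℤ)) :
    (ModularGroup.S * ModularGroup.T * g) 0 0 = - g 1 0 := by
  rw [Matrix.SpecialLinearGroup.coe_mul, coe_S_mul_T, Matrix.mul_apply, Fin.sum_univ_two]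
  simp

lemma ST_mul_apply_one_zero (g : SL(2, ℤ)) :
    (ModularGroup.S * ModularGroup.T * g) 1 0 = g 0 0 + g 1 0 := by
  rw [Matrix.SpecialLinearGroup.coe_mul, coe_S_mul_T, Matrix.mul_apply, Fin.sum_univ_two]
  simp

/-- `g Γ₀(N)` is fixed by `S` iff `a² + c² ≡ 0 mod N`. -/
lemma S_smul_mk_eq_mk_iff (N : ℕ) (g : SL(2, ℤ)) :
    ModularGroup.S • (QuotientGroup.mk g : SL(2, ℤ) ⧸ Gamma0 N) = QuotientGroup.mk g ↔
      ((g 0 0 : ℤ) : ZMod N) ^ 2 + ((g 1 0 : ℤ) : ZMod N) ^ 2 = 0 := by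
  rw [smul_mk_eq_mk_iff, S_mul_apply_zero_zero, S_mul_apply_one_zero]
  push_cast
  constructor <;> intro h <;> linear_combination h

/-- `g Γ₀(N)` is fixed by `S * T` iff `a² + a c + c² ≡ 0 mod N`. -/
lemma ST_smul_mk_eq_mk_iff (N : ℕ) (g : SL(2, ℤ)) :
    (ModularGroup.S * ModularGroup.T) • (QuotientGroup.mk g : SL(2, ℤ) ⧸ Gamma0 N)
        = QuotientGroup.mk g ↔
      ((g 0 0 : ℤ) : ZMod N) ^ 2 + ((g 0 0 : ℤ) : ZMod N) * ((g 1 0 : ℤ) : ZMod N)
        + ((g 1 0 : ℤ) : ZMod N) ^ 2 = 0 := by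
  rw [smul_mk_eq_mk_iff, ST_mul_apply_zero_zero, ST_mul_apply_one_zero]
  push_cast
  constructor <;> intro h <;> linear_combination h

/-- The matrix `[[x, -1], [1, 0]]` in `SL(2,ℤ)`. -/
def colRep (x : ℤ) : SL(2, ℤ) := ⟨!![x, -1; 1, 0], by simp [Matrix.det_fin_two]⟩

@[simp] lemma colRep_apply_zero_zero (x : ℤ) : colRep x 0 0 = x := rfl
@[simp] lemma colRep_apply_one_zero (x : ℤ) : colRep x 1 0 = 1 := rfl

/-- If `a² = c * r` in `ZMod N` for the first column `(a, c)` of `g ∈ SL(2,ℤ)`, then `c` has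
an explicit inverse. -/
lemma c_mul_inv_eq_one (N : ℕ) (g : SL(2, ℤ)) (r : ZMod N)
    (h : ((g 0 0 : ℤ) : ZMod N) ^ 2 = ((g 1 0 : ℤ) : ZMod N) * r) :
    ((g 1 0 : ℤ) : ZMod N) *
      (r * ((g 1 1 : ℤ) : ZMod N) ^ 2
        - 2 * ((g 0 0 : ℤ) : ZMod N) * ((g 0 1 : ℤ) : ZMod N) * ((g 1 1 : ℤ) : ZMod N)
        + ((g 0 1 : ℤ) : ZMod N) ^ 2 * ((g 1 0 : ℤ) : ZMod N)) = 1 := by
  have hdet := det_cast N g
  linear_combination (-(((g 1 1 : ℤ) : ZMod N)) ^ 2) * h
    + (((g 0 0 : ℤ) : ZMod N) * ((g 1 1 : ℤ) : ZMod N)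
        - ((g 0 1 : ℤ) : ZMod N) * ((g 1 0 : ℤ) : ZMod N) + 1) * hdet

end Fermat.Agent.S20.Comb

end
-- ===== PACK-END S20/Comb/Basic.lean

-- ===== PACK-BEGIN S24/Mod/H368Lift.lean
section


/-!
# S24 / MOD glue (helper368): lifting a ring hom from polynomial generators to a generated field

`exists_lift`: if `F' = K(s i : i ∈ ι) ⊆ E` and `Φ : MvPolynomial ι K →+* L` has the same kernel as
evaluation at the generators `s`, then `Φ` induces a ring hom `σ : F' →+* L`.
-/

set_option autoImplicit false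

noncomputable section

open MvPolynomial

namespace Fermat.Agent.S24.H368

variable {K E L ι : Type*} [Field K] [Field E] [Algebra K E] [Field L]

/-- The ring hom `Algebra.adjoin K (range s) →+* L` induced by `Φ`, when `ker (aeval s) ≤ ker Φ`. -/
theorem exists_ringHom_adjoin (s : ι → E) (Φ : MvPolynomial ι K →+* L)
    (h : ∀ p, aeval s p = 0 → Φ p = 0) :
    ∃ g : Algebra.adjoin K (Set.range s) →+* L,
      ∀ (p : MvPolynomial ι K) (x : Algebra.adjoin K (Set.range s)),
        (x : E) = aeval s p → g x = Φ p := by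
  classical
  have hrange : Algebra.adjoin K (Set.range s) = (aeval s : MvPolynomial ι K →ₐ[K] E).range :=
    Algebra.adjoin_range_eq_range_aeval K s
  -- a section of `aeval s` on the adjoin
  have hsec : ∀ x : Algebra.adjoin K (Set.range s), ∃ p : MvPolynomial ι K, aeval s p = (x : E) := by
    intro x
    have hx : (x : E) ∈ (aeval s : MvPolynomial ι K →ₐ[K] E).range := hrange ▸ x.2
    exact hx
  choose sec hsec' using hsec
  have key : ∀ (p : MvPolynomial ι K) (x : Algebra.adjoin K (Set.range s)),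
      (x : E) = aeval s p → Φ (sec x) = Φ p := by
    intro p x hx
    have : aeval s (sec x - p) = 0 := by rw [map_sub, hsec', hx, sub_self]
    have := h _ this
    rwa [map_sub, sub_eq_zero] at this
  refine ⟨{ toFun := fun x => Φ (sec x), map_one' := ?_, map_mul' := ?_, map_zero' := ?_,
            map_add' := ?_ }, fun p x hx => key p x hx⟩
  · rw [key 1 1 (by simp), map_one]
  · intro x y
    rw [key (sec x * sec y) (x * y) (by simp [hsec']), map_mul]
  · rw [key 0 0 (by simp), map_zero]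
  · intro x y
    rw [key (sec x + sec y) (x + y) (by simp [hsec']), map_add]

open scoped IntermediateField.algebraAdjoinAdjoin in
/-- **Lift.** If `Φ : MvPolynomial ι K →+* L` has the same kernel as evaluation at `s : ι → E`,
it induces a ring hom from the field `K(s)` to `L`. -/
theorem exists_lift (s : ι → E) (F' : IntermediateField K E)
    (hF : F' = IntermediateField.adjoin K (Set.range s))
    (Φ : MvPolynomial ι K →+* L) (h : ∀ p, Φ p = 0 ↔ aeval s p = 0) :
    ∃ σ : F' →+* L, ∀ (p : MvPolynomial ι K) (x : F'), (x : E) = aeval s p → σ x = Φ p := by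
  subst hF
  obtain ⟨g, hg⟩ := exists_ringHom_adjoin s Φ (fun p hp => (h p).2 hp)
  have hginj : Function.Injective g := by
    rw [injective_iff_map_eq_zero]
    intro x hx
    obtain ⟨p, hp⟩ : ∃ p : MvPolynomial ι K, aeval s p = (x : E) := by
      have hx' : (x : E) ∈ (aeval s : MvPolynomial ι K →ₐ[K] E).range :=
        (Algebra.adjoin_range_eq_range_aeval K s) ▸ x.2
      exact hx'
    have h1 : Φ p = 0 := by rw [← hg p x hp.symm, hx]
    have h2 := (h p).1 h1
    exact Subtype.ext (by rw [← hp, h2]; rfl)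
  refine ⟨IsFractionRing.lift (A := Algebra.adjoin K (Set.range s)) hginj, fun p x hx => ?_⟩
  have hxmem : (x : E) ∈ Algebra.adjoin K (Set.range s) := by
    rw [hx, Algebra.adjoin_range_eq_range_aeval]
    exact ⟨p, rfl⟩
  have hx' : x = algebraMap (Algebra.adjoin K (Set.range s))
      (IntermediateField.adjoin K (Set.range s)) ⟨(x : E), hxmem⟩ := Subtype.ext rfl
  rw [hx', IsFractionRing.lift_algebraMap]
  exact hg p _ hx

end Fermat.Agent.S24.H368

end
end
-- ===== PACK-END S24/Mod/H368Lift.lean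

-- ===== PACK-BEGIN S18/H845/EtaleVal.lean
section


/-!
# S18 / d1(c): constant-field extensions are unramified — the valuation-theoretic core

`R` a discrete valuation ring with uniformiser `π`, `L ⊇ R` a field, `B ⊆ L` a valuation subring
containing `R` in which `π` is not a unit.  Let `α ∈ L` be a root of a monic `p ∈ R[X]` whose
reduction modulo `π` is separable.  Then the value group of `B` on `Frac(R)[α]` is generated by
the value of `π`: for every `g ∈ R[X]` with `g(α) ≠ 0`, `v (g α) = v π ^ j` for some `j : ℕ`.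
-/

set_option autoImplicit false
set_option linter.unusedSectionVars false

namespace Fermat.Agent.S18.H845

open Polynomial IsLocalRing

section FL

variable {R L : Type*} [CommRing R] [IsDomain R] [IsDiscreteValuationRing R] [Field L]
  [Algebra R L]

/-- A polynomial over a DVR whose reduction vanishes is divisible by the uniformiser. -/
lemma exists_C_mul_of_map_residue_eq_zero {π : R} (hπ : Irreducible π) {q : R[X]}
    (hq : q.map (residue R) = 0) : ∃ G : R[X], q = C π * G := by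
  have h : C π ∣ q := by
    rw [Polynomial.C_dvd_iff_dvd_coeff]
    intro i
    have hi : residue R (q.coeff i) = 0 := by
      have := congrArg (fun f => f.coeff i) hq
      simpa using this
    rw [residue_eq_zero_iff, hπ.maximalIdeal_eq, Ideal.mem_span_singleton] at hi
    exact hi
  exact h

variable (B : ValuationSubring L)

omit [IsDomain R] [IsDiscreteValuationRing R] in
/-- Evaluation at an element of `B` of a polynomial with coefficients in `R ⊆ B` lies in `B`. -/
lemma aeval_mem_of_mem (hRB : ∀ r : R, algebraMap R L r ∈ B) {f : L} (hf : f ∈ B) (q : R[X]) :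
    aeval f q ∈ B := by
  induction q using Polynomial.induction_on' with
  | add p q hp hq => rw [map_add]; exact B.add_mem _ _ hp hq
  | monomial n a =>
    rw [aeval_monomial]
    exact B.mul_mem _ _ (hRB a) (pow_mem hf n)

omit [IsDomain R] [IsDiscreteValuationRing R] in
/-- A root of a monic polynomial over `R ⊆ B` lies in `B`. -/
lemma mem_of_monic_root (hRB : ∀ r : R, algebraMap R L r ∈ B) {α : L} {p : R[X]}
    (hp : p.Monic) (hpα : aeval α p = 0) : α ∈ B := by
  let fRB : R →+* B := (algebraMap R L).codRestrict B hRB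
  have hint : IsIntegral B α := by
    refine ⟨p.map fRB, hp.map _, ?_⟩
    rw [Polynomial.eval₂_map]
    have : (algebraMap B L).comp fRB = algebraMap R L := RingHom.ext fun _ => rfl
    rw [this]
    exact hpα
  obtain ⟨y, hy⟩ := (IsIntegrallyClosed.isIntegral_iff (R := B) (K := L)).mp hint
  rw [← hy]
  exact y.2

variable (hRB : ∀ r : R, algebraMap R L r ∈ B)
  {π : R} (hπ : Irreducible π) (hπB : B.valuation (algebraMap R L π) < 1)
  {α : L} {p : R[X]} (hp : p.Monic) (hpα : aeval α p = 0)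
  (hsep : (p.map (residue R)).Separable)

omit [IsDomain R] [IsDiscreteValuationRing R] in
include hRB in
lemma val_aeval_le_one {f : L} (hf : f ∈ B) (q : R[X]) : B.valuation (aeval f q) ≤ 1 :=
  (B.valuation_le_one_iff _).mpr (aeval_mem_of_mem B hRB hf q)

include hRB hπ hπB in
/-- `R → B` is a local homomorphism. -/
lemma isLocalHom_codRestrict : IsLocalHom ((algebraMap R L).codRestrict B hRB) := by
  refine ⟨fun a ha => ?_⟩
  by_contra hna
  have hmem : a ∈ maximalIdeal R := (mem_maximalIdeal a).mpr hna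
  rw [hπ.maximalIdeal_eq, Ideal.mem_span_singleton] at hmem
  obtain ⟨b, rfl⟩ := hmem
  have h1 : B.valuation (algebraMap R L (π * b)) = 1 := by
    have := (B.valuation_eq_one_iff ((algebraMap R L).codRestrict B hRB (π * b))).mp ha
    exact this
  rw [map_mul, map_mul] at h1
  have h2 : B.valuation (algebraMap R L b) ≤ 1 := (B.valuation_le_one_iff _).mpr (hRB b)
  have h3 : B.valuation (algebraMap R L π) * B.valuation (algebraMap R L b) < 1 :=
    mul_lt_one_of_lt_of_le hπB h2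
  exact absurd h1 h3.ne

include hRB hπ hπB hp hpα hsep in
/-- Key step: an element `g(α)` of positive valuation is `π` times another such element, up to
a unit of `B`. -/
lemma key_step (g : R[X]) (hg : B.valuation (aeval α g) < 1) :
    ∃ g₁ : R[X], B.valuation (aeval α g) =
      B.valuation (algebraMap R L π) * B.valuation (aeval α g₁) := by
  classical
  have hαB : α ∈ B := mem_of_monic_root B hRB hp hpα
  let fRB : R →+* B := (algebraMap R L).codRestrict B hRB
  have : IsLocalHom fRB := isLocalHom_codRestrict B hRB hπ hπB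
  let αB : B := ⟨α, hαB⟩
  let κ := ResidueField R
  let κB := ResidueField B
  let fκ : κ →+* κB := ResidueField.map fRB
  let ψ' : κ[X] →+* κB := Polynomial.eval₂RingHom fκ (residue B αB)
  -- compatibility
  have hcompat : ∀ q : R[X], ψ' (q.map (residue R)) =
      residue B ⟨aeval α q, aeval_mem_of_mem B hRB hαB q⟩ := by
    intro q
    have e1 : ψ' (q.map (residue R)) = Polynomial.eval₂ (fκ.comp (residue R)) (residue B αB) q := by
      show Polynomial.eval₂ fκ (residue B αB) (q.map (residue R)) = _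
      rw [Polynomial.eval₂_map]
    have e2 : fκ.comp (residue R) = (residue B).comp fRB := by
      ext r
      exact ResidueField.map_residue fRB r
    have e3 : Polynomial.eval₂ ((residue B).comp fRB) (residue B αB) q =
        residue B (Polynomial.eval₂ fRB αB q) := by
      rw [Polynomial.hom_eval₂]
    have e4 : Polynomial.eval₂ fRB αB q = ⟨aeval α q, aeval_mem_of_mem B hRB hαB q⟩ := by
      apply Subtype.ext
      have : (B.subtype : B →+* L) (Polynomial.eval₂ fRB αB q) =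
          Polynomial.eval₂ (B.subtype.comp fRB) (B.subtype αB) q := by
        rw [Polynomial.hom_eval₂]
      rw [show ((Polynomial.eval₂ fRB αB q : B) : L) = B.subtype (Polynomial.eval₂ fRB αB q)
        from rfl, this]
      rfl
    rw [e1, e2, e3, e4]
  -- vanishing
  have hres_zero : ∀ q : R[X], ψ' (q.map (residue R)) = 0 ↔ B.valuation (aeval α q) < 1 := by
    intro q
    rw [hcompat, residue_eq_zero_iff, B.valuation_lt_one_iff]
  set gb := g.map (residue R) with hgb
  set pb := p.map (residue R) with hpb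
  have hψg : ψ' gb = 0 := (hres_zero g).mpr hg
  have hψp : ψ' pb = 0 := (hres_zero p).mpr (by rw [hpα, map_zero]; exact zero_lt_one)
  -- gcd
  set d := EuclideanDomain.gcd gb pb with hd
  have hψd : ψ' d = 0 := by
    rw [hd, EuclideanDomain.gcd_eq_gcd_ab, map_add, map_mul, map_mul, hψg, hψp]
    simp
  obtain ⟨e, he⟩ : d ∣ pb := EuclideanDomain.gcd_dvd_right gb pb
  obtain ⟨h, hh⟩ : d ∣ gb := EuclideanDomain.gcd_dvd_left gb pb
  have hcop : IsCoprime d e := by
    have : (d * e).Separable := by rw [← he]; exact hsep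
    exact this.isCoprime
  have hψe : ψ' e ≠ 0 := by
    obtain ⟨a, b, hab⟩ := hcop
    intro h0
    have := congrArg ψ' hab
    rw [map_add, map_mul, map_mul, hψd, h0, map_one] at this
    simp at this
  -- lifts
  obtain ⟨D, hD⟩ := Polynomial.map_surjective (residue R) (residue_surjective) d
  obtain ⟨E, hE⟩ := Polynomial.map_surjective (residue R) (residue_surjective) e
  obtain ⟨H, hH⟩ := Polynomial.map_surjective (residue R) (residue_surjective) h
  obtain ⟨G, hG⟩ := exists_C_mul_of_map_residue_eq_zero hπ (q := g - D * H) (by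
    rw [Polynomial.map_sub, Polynomial.map_mul, hD, hH, ← hh, sub_self])
  obtain ⟨T, hT⟩ := exists_C_mul_of_map_residue_eq_zero hπ (q := D * E - p) (by
    rw [Polynomial.map_sub, Polynomial.map_mul, hD, hE, ← he, sub_self])
  refine ⟨H * T + G * E, ?_⟩
  have hpoly : g * E = H * p + C π * (H * T + G * E) := by
    have h1 : g = D * H + C π * G := by rw [← hG]; ring
    have h2 : D * E = p + C π * T := by rw [← hT]; ring
    calc g * E = (D * H + C π * G) * E := by rw [← h1]
      _ = H * (D * E) + C π * (G * E) := by ring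
      _ = H * (p + C π * T) + C π * (G * E) := by rw [h2]
      _ = H * p + C π * (H * T + G * E) := by ring
  have hev := congrArg (aeval α) hpoly
  rw [map_mul, map_add, map_mul, map_mul, hpα, mul_zero, zero_add, aeval_C] at hev
  have hEunit : B.valuation (aeval α E) = 1 := by
    have h1 : B.valuation (aeval α E) ≤ 1 := val_aeval_le_one B hRB hαB E
    have h2 : ¬ B.valuation (aeval α E) < 1 := by
      rw [← hres_zero, hE]
      exact hψe
    exact le_antisymm h1 (not_lt.mp h2)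
  have := congrArg B.valuation hev
  rw [map_mul, map_mul, hEunit, mul_one] at this
  exact this


include hRB in
/-- Units of `R` have valuation one. -/
lemma val_unit_eq_one (u : Rˣ) : B.valuation (algebraMap R L (u : R)) = 1 := by
  have h1 : B.valuation (algebraMap R L (u : R)) ≤ 1 := (B.valuation_le_one_iff _).mpr (hRB _)
  have h2 : B.valuation (algebraMap R L ((u⁻¹ : Rˣ) : R)) ≤ 1 :=
    (B.valuation_le_one_iff _).mpr (hRB _)
  have h3 : B.valuation (algebraMap R L (u : R)) * B.valuation (algebraMap R L ((u⁻¹ : Rˣ) : R))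
      = 1 := by
    rw [← map_mul, ← map_mul, Units.mul_inv, map_one, map_one]
  by_contra hne
  have hlt : B.valuation (algebraMap R L (u : R)) < 1 := lt_of_le_of_ne h1 hne
  have : B.valuation (algebraMap R L (u : R)) * B.valuation (algebraMap R L ((u⁻¹ : Rˣ) : R))
      < 1 := mul_lt_one_of_lt_of_le hlt h2
  exact absurd h3 this.ne

include hRB hπ in
/-- Nonzero elements of `R` have valuation a power of `v π`. -/
lemma val_algebraMap_eq_pow {c : R} (hc : c ≠ 0) :
    ∃ k : ℕ, B.valuation (algebraMap R L c) = B.valuation (algebraMap R L π) ^ k := by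
  obtain ⟨n, u, hu⟩ := IsDiscreteValuationRing.eq_unit_mul_pow_irreducible hc hπ
  refine ⟨n, ?_⟩
  rw [hu, map_mul, map_mul, val_unit_eq_one B hRB, one_mul, map_pow, map_pow]

include hRB hπ in
/-- Archimedean property: a nonzero element integral over `R` has valuation at least a power
of `v π`. -/
lemma exists_pow_le_val {f : L} (hf0 : f ≠ 0) (hfint : IsIntegral R f) :
    ∃ k : ℕ, B.valuation (algebraMap R L π) ^ k ≤ B.valuation f := by
  obtain ⟨a, ha, haf⟩ := hfint
  have haf' : aeval f a = 0 := haf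
  have hfB : f ∈ B := mem_of_monic_root B hRB ha haf'
  obtain ⟨a', ha', hnd⟩ :=
    Polynomial.exists_eq_pow_rootMultiplicity_mul_and_not_dvd a ha.ne_zero (0 : R)
  rw [map_zero, sub_zero] at ha' hnd
  have ha'f : aeval f a' = 0 := by
    have := haf'
    rw [ha', map_mul, map_pow, aeval_X] at this
    rcases mul_eq_zero.mp this with h | h
    · exact absurd (pow_eq_zero_iff'.mp h).1 hf0
    · exact h
  have hc0 : a'.coeff 0 ≠ 0 := fun h0 => hnd (Polynomial.X_dvd_iff.mpr h0)
  obtain ⟨k, hk⟩ := val_algebraMap_eq_pow B hRB hπ hc0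
  refine ⟨k, ?_⟩
  have hdec : a'.divX * X + C (a'.coeff 0) = a' := Polynomial.divX_mul_X_add a'
  have hev : aeval f a'.divX * f + algebraMap R L (a'.coeff 0) = 0 := by
    have := congrArg (aeval f) hdec
    rw [map_add, map_mul, aeval_X, aeval_C, ha'f] at this
    exact this
  have hc : algebraMap R L (a'.coeff 0) = -(aeval f a'.divX * f) := by
    rw [eq_neg_iff_add_eq_zero, add_comm]; exact hev
  rw [← hk, hc, Valuation.map_neg, map_mul]
  exact mul_le_of_le_one_left' (val_aeval_le_one B hRB hfB _)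

include hRB hp hpα in
lemma isIntegral_aeval (g : R[X]) : IsIntegral R (aeval α g) := by
  have hα : IsIntegral R α := ⟨p, hp, hpα⟩
  have h1 : aeval α g ∈ Algebra.adjoin R {α} := Polynomial.aeval_mem_adjoin_singleton R α
  have h2 : Algebra.adjoin R {α} ≤ integralClosure R L :=
    Algebra.adjoin_le (by rintro x ⟨rfl⟩; exact hα)
  exact h2 h1

include hRB hπ hπB hp hpα hsep in
lemma val_eq_pow_of_le (hinj : Function.Injective (algebraMap R L)) (k : ℕ) :
    ∀ g : R[X], aeval α g ≠ 0 →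
      B.valuation (algebraMap R L π) ^ k ≤ B.valuation (aeval α g) →
      ∃ j : ℕ, B.valuation (aeval α g) = B.valuation (algebraMap R L π) ^ j := by
  have hαB : α ∈ B := mem_of_monic_root B hRB hp hpα
  have hπ0 : B.valuation (algebraMap R L π) ≠ 0 := by
    rw [Valuation.ne_zero_iff]
    intro h
    exact hπ.ne_zero (hinj (by rw [h, map_zero]))
  induction k with
  | zero =>
    intro g _ hle
    refine ⟨0, ?_⟩
    rw [pow_zero] at hle ⊢
    exact le_antisymm (val_aeval_le_one B hRB hαB g) hle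
  | succ k ih =>
    intro g hg0 hle
    by_cases h1 : B.valuation (aeval α g) < 1
    · obtain ⟨g₁, hg₁⟩ := key_step B hRB hπ hπB hp hpα hsep g h1
      have hg₁0 : aeval α g₁ ≠ 0 := by
        intro h0
        rw [h0, map_zero, mul_zero] at hg₁
        exact hg0 ((Valuation.zero_iff _).mp hg₁)
      have hle' : B.valuation (algebraMap R L π) ^ k ≤ B.valuation (aeval α g₁) := by
        rw [hg₁, pow_succ'] at hle
        exact le_of_mul_le_mul_left hle (zero_lt_iff.mpr hπ0)
      obtain ⟨j, hj⟩ := ih g₁ hg₁0 hle'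
      exact ⟨j + 1, by rw [hg₁, hj, pow_succ']⟩
    · refine ⟨0, ?_⟩
      rw [pow_zero]
      exact le_antisymm (val_aeval_le_one B hRB hαB g) (not_lt.mp h1)

include hRB hπ hπB hp hpα hsep in
/-- **Unramifiedness, integral form.** -/
theorem val_aeval_eq_pow (hinj : Function.Injective (algebraMap R L)) (g : R[X])
    (hg : aeval α g ≠ 0) :
    ∃ j : ℕ, B.valuation (aeval α g) = B.valuation (algebraMap R L π) ^ j := by
  obtain ⟨k, hk⟩ := exists_pow_le_val B hRB hπ hg (isIntegral_aeval B hRB hp hpα g)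
  exact val_eq_pow_of_le B hRB hπ hπB hp hpα hsep hinj k g hg hk

end FL

end Fermat.Agent.S18.H845

end
-- ===== PACK-END S18/H845/EtaleVal.lean

-- ===== PACK-BEGIN S18/H203/IntegralDiv.lean
section


/-!
# S18 / b1 (helper203): divisibility by a prime element in an integral closure

`S` an integrally closed domain with fraction field `K`, `w ∈ S` a prime element, `t ∈ S` with
`w ∤ t`, `F / K` a field extension.  If `w z` and `t z` are integral over `S` for some `z ∈ F`,
then `z` is integral over `S`.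

Consequence (`dvd_of_dvd_smul`): in the integral closure `B` of `S` in `F`,
`w ∣ t • b → w ∣ b`; i.e. `B / w B` is a torsion-free `S / w S`-module
(`(w, t)` is a regular sequence on `B`).
-/

set_option autoImplicit false

namespace Fermat.Agent.S18.H203

open Polynomial

section Prime

variable {S : Type*} [CommRing S] [IsDomain S]

/-- If `w` is prime, `w ∤ t` and `w ^ i ∣ t ^ i * a`, then `w ^ i ∣ a`. -/
theorem pow_dvd_of_pow_dvd_pow_mul {w t : S} (hw : Prime w) (ht : ¬ w ∣ t) (i j : ℕ) {a : S}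
    (h : w ^ i ∣ t ^ j * a) : w ^ i ∣ a :=
  hw.pow_dvd_of_dvd_mul_left i (fun h' => ht (hw.dvd_of_dvd_pow h')) h

end Prime

section Field

variable {S K : Type*} [CommRing S] [IsDomain S] [Field K] [Algebra S K] [IsFractionRing S K]

/-- An element `c` of the fraction field with `w ^ i * c ∈ S` and `t ^ i * c ∈ S`, where `w` is
prime and `w ∤ t`, lies in `S`. -/
theorem mem_range_of_pow_mul_mem {w t : S} (hw : Prime w) (ht : ¬ w ∣ t) (i : ℕ) (c : K)
    (h1 : algebraMap S K w ^ i * c ∈ (algebraMap S K).range)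
    (h2 : algebraMap S K t ^ i * c ∈ (algebraMap S K).range) :
    c ∈ (algebraMap S K).range := by
  obtain ⟨a, ha⟩ := h1
  obtain ⟨a', ha'⟩ := h2
  have hinj : Function.Injective (algebraMap S K) := IsFractionRing.injective S K
  have hw0 : algebraMap S K w ≠ 0 := by
    simpa using (map_ne_zero_iff _ hinj).mpr hw.ne_zero
  -- `t ^ i * a = w ^ i * a'`
  have hrel : t ^ i * a = w ^ i * a' := by
    apply hinj
    simp only [map_mul, map_pow, ha, ha']
    ring
  have hdvd : w ^ i ∣ a := pow_dvd_of_pow_dvd_pow_mul hw ht i i ⟨a', hrel⟩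
  obtain ⟨s, rfl⟩ := hdvd
  refine ⟨s, ?_⟩
  have h3 : algebraMap S K w ^ i * algebraMap S K s = algebraMap S K w ^ i * c := by
    rw [← ha, map_mul, map_pow]
  exact mul_left_cancel₀ (pow_ne_zero i hw0) h3

end Field

section Integral

variable {S K F : Type*} [CommRing S] [IsDomain S] [IsIntegrallyClosed S]
  [Field K] [Algebra S K] [IsFractionRing S K]
  [Field F] [Algebra K F] [Algebra S F] [IsScalarTower S K F]

omit [IsIntegrallyClosed S] [IsDomain S] [IsFractionRing S K] in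
/-- A monic polynomial over `K` all of whose coefficients lie in `S` is the image of a monic
polynomial over `S`. -/
theorem exists_monic_map_eq {P : K[X]} (hP : P.Monic)
    (hc : ∀ n, P.coeff n ∈ (algebraMap S K).range) :
    ∃ Q : S[X], Q.Monic ∧ Q.map (algebraMap S K) = P := by
  have hl : P ∈ Polynomial.lifts (algebraMap S K) := by
    rw [Polynomial.lifts_iff_coeff_lifts]
    intro n
    obtain ⟨a, ha⟩ := hc n
    exact ⟨a, ha⟩
  obtain ⟨Q, hQ, -, hQm⟩ := Polynomial.lifts_and_degree_eq_and_monic hl hP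
  exact ⟨Q, hQm, hQ⟩

/-- The coefficients of the minimal polynomial over `K` of `a • z` (`a ∈ S` nonzero, `a • z`
integral over `S`) : `coeff i * a ^ (d - i) ∈ S`. -/
theorem coeff_minpoly_mul_pow_mem {a : S} (ha : a ≠ 0) {z : F} (hz : IsIntegral K z)
    (haz : IsIntegral S (algebraMap S F a * z)) (i : ℕ) :
    (minpoly K z).coeff i * algebraMap S K a ^ ((minpoly K z).natDegree - i) ∈
      (algebraMap S K).range := by
  have hinj : Function.Injective (algebraMap S K) := IsFractionRing.injective S K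
  have ha0 : algebraMap S K a ≠ 0 := by
    simpa using (map_ne_zero_iff _ hinj).mpr ha
  -- minimal polynomial of `a • z` over `K`
  have h1 : minpoly K (algebraMap S K a • z) = (minpoly K z).scaleRoots (algebraMap S K a) :=
    IsIntegrallyClosed.minpoly_smul ha0 hz
  have h2 : algebraMap S K a • z = algebraMap S F a * z := by
    rw [Algebra.smul_def, ← IsScalarTower.algebraMap_apply]
  rw [h2] at h1
  have h3 : minpoly K (algebraMap S F a * z) =
      (minpoly S (algebraMap S F a * z)).map (algebraMap S K) :=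
    minpoly.isIntegrallyClosed_eq_field_fractions' K haz
  have h4 : ((minpoly K z).scaleRoots (algebraMap S K a)).coeff i =
      (minpoly K z).coeff i * algebraMap S K a ^ ((minpoly K z).natDegree - i) :=
    Polynomial.coeff_scaleRoots _ _ _
  rw [← h4, ← h1, h3, Polynomial.coeff_map]
  exact ⟨_, rfl⟩

/-- **Key lemma.**  If `w z` and `t z` are integral over the integrally closed domain `S`, where
`w` is a prime element and `w ∤ t`, then `z` is integral over `S`. -/
theorem isIntegral_of_isIntegral_mul (K : Type*) [Field K] [Algebra S K] [IsFractionRing S K]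
    [Algebra K F] [IsScalarTower S K F] {w t : S} (hw : Prime w) (ht : ¬ w ∣ t) {z : F}
    (h1 : IsIntegral S (algebraMap S F w * z)) (h2 : IsIntegral S (algebraMap S F t * z)) :
    IsIntegral S z := by
  have hinjK : Function.Injective (algebraMap S K) := IsFractionRing.injective S K
  have hw0 : algebraMap S K w ≠ 0 := by
    simpa using (map_ne_zero_iff _ hinjK).mpr hw.ne_zero
  have hwF : algebraMap S F w ≠ 0 := by
    rw [IsScalarTower.algebraMap_apply S K F]
    simpa using (map_ne_zero_iff _ (algebraMap K F).injective).mpr hw0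
  have ht0 : t ≠ 0 := fun h => ht (h ▸ dvd_zero w)
  -- `z` is integral (algebraic) over `K`
  have hzK : IsIntegral K z := by
    have h3 : IsIntegral K (algebraMap S F w * z) := h1.tower_top
    have h4 : IsIntegral K (algebraMap K F (algebraMap S K w)⁻¹) := isIntegral_algebraMap
    have h5 := h4.mul h3
    rw [map_inv₀, ← IsScalarTower.algebraMap_apply S K F, inv_mul_cancel_left₀ hwF] at h5
    exact h5
  -- all coefficients of the minimal polynomial lie in `S`
  have hcoeff : ∀ n, (minpoly K z).coeff n ∈ (algebraMap S K).range := by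
    intro n
    have e1 := coeff_minpoly_mul_pow_mem (K := K) hw.ne_zero hzK h1 n
    have e2 := coeff_minpoly_mul_pow_mem (K := K) ht0 hzK h2 n
    rw [mul_comm] at e1 e2
    exact mem_range_of_pow_mul_mem hw ht _ _ e1 e2
  obtain ⟨Q, hQm, hQ⟩ := exists_monic_map_eq (minpoly.monic hzK) hcoeff
  refine ⟨Q, hQm, ?_⟩
  have h6 : Polynomial.aeval z (Q.map (algebraMap S K)) = 0 := by
    rw [hQ]; exact minpoly.aeval K z
  rwa [Polynomial.aeval_map_algebraMap] at h6

end Integral

end Fermat.Agent.S18.H203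

end
-- ===== PACK-END S18/H203/IntegralDiv.lean

-- ===== PACK-BEGIN S18/B12/H84/IntClosed.lean
section


/-!
# S18 / b2.5 / A8 (helper84): normality from the discriminant bounds

`intClosedOfDiscr_of_sfLattice : SFLatticeHyp → (IntClosedOfDiscrStatement, unfolded)`,
Mathlib-only; `SFLatticeHyp` is a verbatim copy of `SFLatticeStatement` of `origin/helper33`
`Fermat/Agent/S18/B12/Spec.lean`.  The `Spec`-typed wrapper
`SFLatticeStatement → IntClosedOfDiscrStatement` is `Fermat/Agent/S18/B12/H84/Stmt.lean`.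

`Λ` a PID, `C` a domain, free of rank `n` over `Λ` with `disc ≠ 0`, such that at every prime `t`
of `Λ` the reduced fibre `(C/tC)_red` is spanned by `s` elements and `t ^ (n - s + 1) ∤ disc`.
Then `C` is integrally closed.

Proof: for `f ∈ Frac C` integral over `C`, the ring `C[f]` is a free `Λ`-module of rank `n`
containing `C`; Theorem L (`SFLatticeStatement`) gives for every prime `t` a denominator
`g ∉ (t)` with `g f ∈ C`; the ideal of denominators of `f` contains a nonzero element and lies in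
no maximal ideal of the PID `Λ`, so it is the unit ideal.
-/

set_option autoImplicit false

namespace Fermat.Agent.S18.B12.H84

universe u v

/-- In a PID, an ideal containing a nonzero element and, for every prime `t`, an element not
divisible by `t`, is the unit ideal. -/
theorem ideal_eq_top_of_forall_prime {Λ : Type u} [CommRing Λ] [IsDomain Λ]
    [IsPrincipalIdealRing Λ] (I : Ideal Λ) (h0 : ∃ d ∈ I, d ≠ 0)
    (h : ∀ t : Λ, Prime t → ∃ g ∈ I, ¬ t ∣ g) : I = ⊤ := by
  by_contra hI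
  obtain ⟨𝔭, h𝔭, hle⟩ := Ideal.exists_le_maximal I hI
  have hgen : Ideal.span {Submodule.IsPrincipal.generator 𝔭} = 𝔭 :=
    Ideal.span_singleton_generator 𝔭
  set t := Submodule.IsPrincipal.generator 𝔭 with ht_def
  by_cases ht : t = 0
  · obtain ⟨d, hd, hd0⟩ := h0
    have h1 : d ∈ 𝔭 := hle hd
    rw [← hgen, ht, Ideal.mem_span_singleton, zero_dvd_iff] at h1
    exact hd0 h1
  · have hp : Prime t := by
      rw [← Ideal.span_singleton_prime ht, hgen]
      exact h𝔭.isPrime
    obtain ⟨g, hg, hgt⟩ := h t hp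
    have h1 : g ∈ 𝔭 := hle hg
    rw [← hgen, Ideal.mem_span_singleton] at h1
    exact hgt h1

/-- Every element of the fraction field of a domain `C` algebraic over `Λ` has a nonzero
denominator in `Λ`. -/
theorem exists_smul_mem_range {Λ : Type u} [CommRing Λ] [IsDomain Λ] {C : Type v} [CommRing C]
    [IsDomain C] [Algebra Λ C] [Algebra.IsAlgebraic Λ C] (x : FractionRing C) :
    ∃ d : Λ, d ≠ 0 ∧ ∃ c : C, d • x = algebraMap C (FractionRing C) c := by
  obtain ⟨a, b, hb, rfl⟩ := IsFractionRing.div_surjective C x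
  have hb0 : b ≠ 0 := nonZeroDivisors.ne_zero hb
  obtain ⟨r, hr, c, hc⟩ := (Algebra.IsAlgebraic.isAlgebraic (R := Λ) b).exists_nonzero_dvd hb
  refine ⟨r, hr, c * a, ?_⟩
  have hbK : algebraMap C (FractionRing C) b ≠ 0 := by
    intro h
    exact hb0 ((IsFractionRing.injective C (FractionRing C)) (h.trans (map_zero _).symm))
  rw [Algebra.smul_def, IsScalarTower.algebraMap_apply Λ C (FractionRing C), hc, map_mul, map_mul]
  field_simp

/-- Verbatim copy of `B12.SFLatticeStatement` (Theorem L, two-lattice form). -/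
def SFLatticeHyp : Prop :=
  ∀ (Λ : Type u) [CommRing Λ] [IsDomain Λ] [IsPrincipalIdealRing Λ] (t : Λ) (_ : Prime t)
    (L : Type v) [CommRing L] [Algebra Λ L] (C Ct : Subalgebra Λ L) (_ : C ≤ Ct)
    (n : ℕ) (b : Module.Basis (Fin n) Λ C) (_ : Module.Basis (Fin n) Λ Ct)
    (s : ℕ) (y : Fin s → C)
    (_ : ∀ x : C, ∃ a : Fin s → Λ,
        x - ∑ i, a i • y i ∈ (Ideal.span {algebraMap Λ C t}).radical),
    Algebra.discr Λ b ≠ 0 → ¬ t ^ (n - s + 1) ∣ Algebra.discr Λ b →
    ∀ x ∈ Ct, ∃ g : Λ, ¬ t ∣ g ∧ g • x ∈ C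

/-- **A8** from Theorem L: `SFLatticeStatement → IntClosedOfDiscrStatement` (unfolded). -/
theorem intClosedOfDiscr_of_sfLattice (hSF : SFLatticeHyp.{u, v})
    (Λ : Type u) [CommRing Λ] [IsDomain Λ] [IsPrincipalIdealRing Λ]
    (C : Type v) [CommRing C] [IsDomain C] [Algebra Λ C] (n : ℕ) (b : Module.Basis (Fin n) Λ C)
    (hdisc : Algebra.discr Λ b ≠ 0)
    (hbound : ∀ t : Λ, Prime t → ∃ (s : ℕ) (y : Fin s → C),
      (∀ c : C, ∃ a : Fin s → Λ,
        c - ∑ i, a i • y i ∈ (Ideal.span {algebraMap Λ C t}).radical) ∧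
      ¬ t ^ (n - s + 1) ∣ Algebra.discr Λ b) :
    IsIntegrallyClosed C := by
  classical
  have : Module.Free Λ C := Module.Free.of_basis b
  have : Module.Finite Λ C := Module.Finite.of_basis b
  have hinj : Function.Injective (algebraMap Λ C) := FaithfulSMul.algebraMap_injective Λ C
  have : Algebra.IsIntegral Λ C := Algebra.IsIntegral.of_finite Λ C
  have : Algebra.IsAlgebraic Λ C := Algebra.IsIntegral.isAlgebraic
  have hinjK : Function.Injective (algebraMap Λ (FractionRing C)) := by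
    rw [IsScalarTower.algebraMap_eq Λ C (FractionRing C)]
    exact (IsFractionRing.injective C (FractionRing C)).comp hinj
  have htfK : Module.IsTorsionFree Λ (FractionRing C) := by
    refine Module.IsTorsionFree.of_smul_eq_zero fun r m hrm => ?_
    rw [Algebra.smul_def, mul_eq_zero] at hrm
    rcases hrm with h | h
    · exact Or.inl (hinjK (h.trans (map_zero _).symm))
    · exact Or.inr h
  refine (isIntegrallyClosed_iff (FractionRing C)).mpr fun {f} hf => ?_
  have hfΛ : IsIntegral Λ f := isIntegral_trans f hf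
  -- the two lattices
  let φ : C →ₐ[Λ] FractionRing C := IsScalarTower.toAlgHom Λ C (FractionRing C)
  have hφ : Function.Injective φ := IsFractionRing.injective C (FractionRing C)
  let e : C ≃ₐ[Λ] φ.range := AlgEquiv.ofInjective φ hφ
  have hle : φ.range ≤ φ.range ⊔ Algebra.adjoin Λ {f} := le_sup_left
  have hfCt : f ∈ φ.range ⊔ Algebra.adjoin Λ {f} :=
    (le_sup_right : Algebra.adjoin Λ {f} ≤ φ.range ⊔ Algebra.adjoin Λ {f})
      (Algebra.self_mem_adjoin_singleton Λ f)
  have : Module.Finite Λ φ.range := Module.Finite.equiv e.toLinearEquiv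
  have : Module.Finite Λ (Algebra.adjoin Λ {f}) :=
    Module.Finite.iff_fg.mpr hfΛ.fg_adjoin_singleton
  have hfinCt : Module.Finite Λ ↥(φ.range ⊔ Algebra.adjoin Λ {f}) := Subalgebra.finite_sup _ _
  have : Module.IsTorsionFree Λ ↥(φ.range ⊔ Algebra.adjoin Λ {f}) :=
    Function.Injective.moduleIsTorsionFree
      (fun z : ↥(φ.range ⊔ Algebra.adjoin Λ {f}) => (z : FractionRing C))
      Subtype.val_injective (fun _ _ => rfl)
  have : Module.Free Λ ↥(φ.range ⊔ Algebra.adjoin Λ {f}) :=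
    Module.free_of_finite_type_torsion_free'
  have hrank0 : Module.finrank Λ φ.range = n := by
    rw [← e.toLinearEquiv.finrank_eq, Module.finrank_eq_card_basis b, Fintype.card_fin]
  -- a common denominator
  have hd : ∃ d : Λ, d ≠ 0 ∧ ∀ x ∈ φ.range ⊔ Algebra.adjoin Λ {f}, d • x ∈ φ.range := by
    have hfg : (Subalgebra.toSubmodule (φ.range ⊔ Algebra.adjoin Λ {f})).FG :=
      Module.Finite.iff_fg.mp hfinCt
    obtain ⟨S, hS⟩ := hfg
    choose dx hdx0 cx hcx using fun x : FractionRing C => exists_smul_mem_range (Λ := Λ) x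
    refine ⟨∏ x ∈ S, dx x, Finset.prod_ne_zero_iff.mpr fun x _ => hdx0 x, fun x hx => ?_⟩
    have hx' : x ∈ Submodule.span Λ (S : Set (FractionRing C)) := by
      rw [hS]; exact hx
    refine Submodule.span_induction (p := fun z _ => (∏ x ∈ S, dx x) • z ∈ φ.range)
      ?_ ?_ ?_ ?_ hx'
    · intro z hz
      have hzS : z ∈ S := hz
      rw [← Finset.mul_prod_erase S dx hzS, mul_comm, mul_smul, hcx z]
      have hmem : algebraMap C (FractionRing C) (cx z) ∈ φ.range := ⟨cx z, rfl⟩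
      exact Subalgebra.smul_mem _ hmem _
    · rw [smul_zero]; exact Subalgebra.zero_mem _
    · intro y z _ _ hy hz
      rw [smul_add]; exact Subalgebra.add_mem _ hy hz
    · intro a y _ hy
      rw [smul_comm]; exact Subalgebra.smul_mem _ hy _
  obtain ⟨d, hd0, hd⟩ := hd
  have hrank : Module.finrank Λ ↥(φ.range ⊔ Algebra.adjoin Λ {f}) = n := by
    apply le_antisymm
    · rw [← hrank0]
      let μ : ↥(φ.range ⊔ Algebra.adjoin Λ {f}) →ₗ[Λ] φ.range :=
        { toFun := fun z => ⟨d • (z : FractionRing C), hd z z.2⟩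
          map_add' := fun y z => Subtype.ext (smul_add d (y : FractionRing C) z)
          map_smul' := fun a z => Subtype.ext (smul_comm d a (z : FractionRing C)) }
      have hμ : Function.Injective μ := by
        intro y z hyz
        have h1 : d • (y : FractionRing C) = d • (z : FractionRing C) :=
          congrArg Subtype.val hyz
        exact Subtype.ext (smul_right_injective (FractionRing C) hd0 h1)
      exact LinearMap.finrank_le_finrank_of_injective hμ
    · rw [← hrank0]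
      exact LinearMap.finrank_le_finrank_of_injective
        (f := (Subalgebra.inclusion hle).toLinearMap) (Subalgebra.inclusion_injective hle)
  let bt : Module.Basis (Fin n) Λ ↥(φ.range ⊔ Algebra.adjoin Λ {f}) :=
    Module.finBasisOfFinrankEq Λ _ hrank
  let b₀ : Module.Basis (Fin n) Λ φ.range := b.map e.toLinearEquiv
  have hdisc₀ : Algebra.discr Λ b₀ = Algebra.discr Λ b := by
    rw [Algebra.discr_eq_discr_of_algEquiv b e]
    congr 1
  -- the ideal of denominators
  let I : Ideal Λ :=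
    { carrier := {g | g • f ∈ φ.range}
      add_mem' := fun {g h} hg hh => by
        change (g + h) • f ∈ φ.range
        rw [add_smul]; exact Subalgebra.add_mem _ hg hh
      zero_mem' := by
        change (0 : Λ) • f ∈ φ.range
        rw [zero_smul]; exact Subalgebra.zero_mem _
      smul_mem' := fun a g hg => by
        change (a • g) • f ∈ φ.range
        rw [smul_assoc]; exact Subalgebra.smul_mem _ hg _ }
  have hI : I = ⊤ := by
    refine ideal_eq_top_of_forall_prime I ⟨d, hd f hfCt, hd0⟩ fun t ht => ?_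
    obtain ⟨s, y, hy, hnd⟩ := hbound t ht
    have hy₀ : ∀ x : φ.range, ∃ a : Fin s → Λ,
        x - ∑ i, a i • e (y i) ∈ (Ideal.span {algebraMap Λ φ.range t}).radical := by
      intro x
      obtain ⟨a, ha⟩ := hy (e.symm x)
      refine ⟨a, ?_⟩
      obtain ⟨k, hk⟩ := ha
      obtain ⟨z, hz⟩ := Ideal.mem_span_singleton'.mp hk
      refine ⟨k, Ideal.mem_span_singleton'.mpr ⟨e z, ?_⟩⟩
      have h1 := congrArg e hz
      rw [map_mul, map_pow, map_sub, map_sum, AlgEquiv.apply_symm_apply, AlgEquiv.commutes] at h1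
      rw [h1]
      congr 2
      exact Finset.sum_congr rfl fun i _ => map_smul e (a i) (y i)
    obtain ⟨g, hgt, hg⟩ := hSF Λ t ht (FractionRing C) φ.range (φ.range ⊔ Algebra.adjoin Λ {f})
      hle n b₀ bt s (fun i => e (y i)) hy₀ (hdisc₀ ▸ hdisc) (hdisc₀ ▸ hnd) f hfCt
    exact ⟨g, hg, hgt⟩
  have h1 : (1 : Λ) ∈ I := by rw [hI]; exact Submodule.mem_top
  have h2 : (1 : Λ) • f ∈ φ.range := h1
  rw [one_smul] at h2
  obtain ⟨c, hc⟩ := h2
  exact ⟨c, hc⟩

end Fermat.Agent.S18.B12.H84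

end
-- ===== PACK-END S18/B12/H84/IntClosed.lean

-- ===== PACK-BEGIN S37/H278/Lattice.lean
section


/-!
# S37 / S18, piece b2-core (helper278): lattices in a finite algebra and their traces

`o` a PID with fraction field `K`, `L` a commutative `K`-algebra.  A subalgebra `R ⊆ L` which is a
finitely generated `o`-module spanning `L` is finite free over `o`, `L` is its localization, and the
trace of `L / K` restricted to `R` is the trace of `R / o`.
-/

set_option autoImplicit false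

namespace Fermat.Agent.S37.H278

open Module

section Lattice

variable {o K L : Type*} [CommRing o] [IsDomain o]
  [Field K] [Algebra o K] [IsFractionRing o K]
  [CommRing L] [Algebra K L] [Algebra o L] [IsScalarTower o K L]

omit [IsDomain o] in
theorem smul_eq_zero_of_fractionRing (K : Type*) [Field K] [Algebra o K] [IsFractionRing o K]
    [Algebra K L] [IsScalarTower o K L] {r : o} (hr : r ≠ 0) {x : L}
    (h : r • x = 0) : x = 0 := by
  have h' : (algebraMap o K r) • x = 0 := by rwa [algebraMap_smul]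
  have hne : algebraMap o K r ≠ 0 := by
    intro h0
    exact hr ((IsFractionRing.injective o K) (by rw [h0, map_zero]))
  rcases smul_eq_zero.mp h' with h1 | h1
  · exact absurd h1 hne
  · exact h1

/-- A lattice: a subalgebra of `L`, finitely generated as `o`-module, spanning `L`. -/
structure IsLattice (R : Subalgebra o L) : Prop where
  fg : (Subalgebra.toSubmodule R).FG
  span : ∀ l : L, ∃ σ : o, σ ≠ 0 ∧ σ • l ∈ R

variable {R : Subalgebra o L}

theorem IsLattice.finite (h : IsLattice R) : Module.Finite o R :=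
  Module.Finite.iff_fg.mpr h.fg

include K in
theorem isTorsionFree_subalgebra (R : Subalgebra o L) : Module.IsTorsionFree o R := by
  refine ⟨fun r hr x y hxy => ?_⟩
  have hr0 : r ≠ 0 := by
    rintro rfl
    have := hr.left
    exact one_ne_zero (this (by simp : (0 : o) * 1 = 0 * 0))
  have hxy' : r • ((x : L) - (y : L)) = 0 := by
    have := congrArg (Subtype.val) hxy
    simp only [Subalgebra.coe_smul] at this
    rw [smul_sub, this, sub_self]
  have := smul_eq_zero_of_fractionRing K hr0 hxy'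
  exact Subtype.ext (sub_eq_zero.mp this)

include K in
theorem IsLattice.free [IsPrincipalIdealRing o] (h : IsLattice R) : Module.Free o R := by
  haveI := h.finite
  haveI := isTorsionFree_subalgebra (K := K) R
  exact Module.free_of_finite_type_torsion_free'

include K in
theorem IsLattice.isLocalization (h : IsLattice R) :
    IsLocalization (Algebra.algebraMapSubmonoid R (nonZeroDivisors o)) L where
  map_units := by
    rintro ⟨y, σ, hσ, rfl⟩
    have hσ0 : σ ≠ 0 := nonZeroDivisors.ne_zero hσ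
    have hne : algebraMap o K σ ≠ 0 := by
      intro h0
      exact hσ0 ((IsFractionRing.injective o K) (by rw [h0, map_zero]))
    have : algebraMap R L (algebraMap o R σ) = algebraMap K L (algebraMap o K σ) := by
      rw [← IsScalarTower.algebraMap_apply, ← IsScalarTower.algebraMap_apply]
    rw [this]
    exact (IsUnit.mk0 _ hne).map (algebraMap K L)
  surj := by
    intro l
    obtain ⟨σ, hσ, hl⟩ := h.span l
    refine ⟨(⟨σ • l, hl⟩, ⟨algebraMap o R σ, σ, mem_nonZeroDivisors_of_ne_zero hσ, rfl⟩), ?_⟩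
    show l * algebraMap R L (algebraMap o R σ) = σ • l
    rw [← IsScalarTower.algebraMap_apply, Algebra.smul_def, mul_comm]
  exists_of_eq := by
    intro x y hxy
    refine ⟨1, ?_⟩
    have : x = y := Subtype.ext hxy
    rw [this]

include K in
theorem IsLattice.trace_eq [IsPrincipalIdealRing o] (h : IsLattice R) (a : R) :
    Algebra.trace K L (a : L) = algebraMap o K (Algebra.trace o R a) := by
  haveI := h.finite
  haveI := h.free (K := K)
  haveI := h.isLocalization (K := K)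
  exact Algebra.trace_localization o (nonZeroDivisors o) (Rₘ := K) (Sₘ := L) a

theorem isLattice_adjoin {G : Set L} (hG : G.Finite) (hint : ∀ g ∈ G, IsIntegral o g)
    (hspan : ∀ l : L, ∃ σ : o, σ ≠ 0 ∧ σ • l ∈ Algebra.adjoin o G) :
    IsLattice (Algebra.adjoin o G) :=
  ⟨fg_adjoin_of_finite hG hint, hspan⟩

end Lattice

section DVR

variable {o K L : Type*} [CommRing o] [IsDomain o] [IsDiscreteValuationRing o]
  [Field K] [Algebra o K] [IsFractionRing o K]
  [CommRing L] [Algebra K L] [Algebra o L] [IsScalarTower o K L]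

/-- In a finite free algebra over a local ring, the trace of an element which is nilpotent
modulo the maximal ideal lies in the maximal ideal. -/
theorem trace_mem_maximalIdeal_of_pow_mem {o S : Type*} [CommRing o] [IsLocalRing o]
    [CommRing S] [Algebra o S] [Module.Free o S] [Module.Finite o S] (a : S) (k : ℕ)
    (hk : a ^ k ∈ Ideal.map (algebraMap o S) (IsLocalRing.maximalIdeal o)) :
    Algebra.trace o S a ∈ IsLocalRing.maximalIdeal o := by
  have h1 := Algebra.trace_quotient_mk (R := o) (S := S) a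
  have hnil : IsNilpotent
      (Ideal.Quotient.mk (Ideal.map (algebraMap o S) (IsLocalRing.maximalIdeal o)) a) := by
    refine ⟨k, ?_⟩
    rw [← map_pow]
    exact Ideal.Quotient.eq_zero_iff_mem.mpr hk
  have h2 := Algebra.isNilpotent_trace_of_isNilpotent
    (R := o ⧸ IsLocalRing.maximalIdeal o) hnil
  rw [h1] at h2
  have h3 : (Ideal.Quotient.mk (IsLocalRing.maximalIdeal o)) (Algebra.trace o S a) = 0 := by
    haveI : IsReduced (o ⧸ IsLocalRing.maximalIdeal o) := by
      haveI : (IsLocalRing.maximalIdeal o).IsPrime := inferInstance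
      infer_instance
    exact h2.eq_zero
  exact Ideal.Quotient.eq_zero_iff_mem.mp h3

theorem dvd_trace_of_pow_mem {S : Type*} [CommRing S] [Algebra o S] [Module.Free o S]
    [Module.Finite o S] {t : o} (ht : Irreducible t) (a : S) (k : ℕ)
    (hk : ∃ a' : S, a ^ k = t • a') : t ∣ Algebra.trace o S a := by
  have hmax : IsLocalRing.maximalIdeal o = Ideal.span {t} := ht.maximalIdeal_eq
  obtain ⟨a', ha'⟩ := hk
  have hmem : a ^ k ∈ Ideal.map (algebraMap o S) (IsLocalRing.maximalIdeal o) := by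
    rw [ha', Algebra.smul_def]
    apply Ideal.mul_mem_right
    apply Ideal.mem_map_of_mem
    rw [hmax]
    exact Ideal.mem_span_singleton_self t
  have := trace_mem_maximalIdeal_of_pow_mem a k hmem
  rw [hmax] at this
  exact Ideal.mem_span_singleton.mp this

include K in
/-- trace of an element of a lattice, nilpotent modulo `t`, is divisible by `t` -/
theorem IsLattice.dvd_trace {R : Subalgebra o L} (h : IsLattice R) {t : o} (ht : Irreducible t)
    (a : R) (k : ℕ) (hk : ∃ a' : R, a ^ k = t • a') : t ∣ Algebra.trace o R a := by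
  haveI := h.finite
  haveI := h.free (K := K)
  exact dvd_trace_of_pow_mem ht a k hk

end DVR

end Fermat.Agent.S37.H278

end
-- ===== PACK-END S37/H278/Lattice.lean

-- ===== PACK-BEGIN A2/H372/Transversal.lean
section


/-!
# A2 / T-ALG : abstract transversality at the crossing points (helper372)

Mathlib-only commutative algebra.  Intended instance (helper609 memo `coord/A2-helper609.md`, (T)):

* `A = B_M`, `B = B_N` (`N = qM`): integral closures of `R[j]` in the function fields of level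
  `M` and `N` over a DVR `R` (uniformiser `w`, residue characteristic `q`);
* `α β : A →+* B` the two degeneracy maps (`j_d ↦ j_d`, `j_d ↦ j_{qd}`);
* `P₁ P₂` the centres on `B` of the two Gauss valuations (`P₁ ⊓ P₂ = wB`);
* `n` a maximal ideal of `B` containing `P₁` and `P₂` (a crossing point).

The Kronecker congruences are used in the SEMILINEAR form `KronCong`:
`∀ a, ∃ a', β a - (α a') ^ q ∈ P₁` and `∀ a, ∃ a', α a - (β a') ^ q ∈ P₂`
(over `ℤ_(q)` one takes `a' = a`; over a general `R` one takes for `a'` a lift of the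
coefficientwise inverse Frobenius of `a`), so no `𝔽_q`-structure and no base change is needed.

Main results (all elementwise, no localisation needed to state them):

* `KronCong.exists_transversal` : a local generator `α a₀` of the branch `B/P₁` at `n` is,
  up to a unit at `n` and modulo `P₁`, an element `f ∈ P₂`.
* `KronCong.exists_local_gen`   : `n = (f) + P₁` locally at `n`, with `f ∈ P₂`.
* `KronCong.exists_node`        : node datum `f ∈ P₂`, `g ∈ P₁` with
  `n = (f, g) + P₁ ⊓ P₂`, `P₁ = (g) + P₁ ⊓ P₂`, `P₂ = (f) + P₁ ⊓ P₂` locally at `n`.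
* `exists_smooth_gen`           : at a point of `P₁` not on `P₂`: `n = (α a₀) + P₁ ⊓ P₂` locally.
* `exists_isBranchUnif_of_isDedekindDomain` : the local generator `a₀` exists when
  `A ⧸ comap α P₁` is a Dedekind domain.
* `surjective_of_birational_of_integral` : `α` is onto `B/P₁` (finite birational onto normal).
* localised forms `KronCong.maximalIdeal_eq_span_node`.
-/

set_option autoImplicit false

namespace Fermat.Agent.A2.H372

open Ideal

variable {A B : Type*} [CommRing A] [CommRing B]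

/-- Semilinear Kronecker congruences between two ring homomorphisms `α β : A →+* B`
modulo two ideals `P₁ P₂` of `B`. -/
structure KronCong (q : ℕ) (α β : A →+* B) (P₁ P₂ : Ideal B) : Prop where
  cong₁ : ∀ a : A, ∃ a' : A, β a - (α a') ^ q ∈ P₁
  cong₂ : ∀ a : A, ∃ a' : A, α a - (β a') ^ q ∈ P₂

theorem KronCong.symm {q : ℕ} {α β : A →+* B} {P₁ P₂ : Ideal B}
    (h : KronCong q α β P₁ P₂) : KronCong q β α P₂ P₁ :=
  ⟨h.cong₂, h.cong₁⟩

/-- The linear Kronecker congruences (`a' = a`) give a `KronCong`. -/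
theorem KronCong.of_linear {q : ℕ} {α β : A →+* B} {P₁ P₂ : Ideal B}
    (h₁ : ∀ a : A, β a - (α a) ^ q ∈ P₁) (h₂ : ∀ a : A, α a - (β a) ^ q ∈ P₂) :
    KronCong q α β P₁ P₂ :=
  ⟨fun a => ⟨a, h₁ a⟩, fun a => ⟨a, h₂ a⟩⟩

/-- `a₀` is a local generator at `n` of the branch `B/P` parametrised by `α`:
`α a₀ ∈ n` and every `α a ∈ n` is, up to a factor `α s ∉ n` and modulo `P`, a multiple
of `α a₀`. -/
def IsBranchUnif (α : A →+* B) (P n : Ideal B) (a₀ : A) : Prop :=
  α a₀ ∈ n ∧ ∀ a : A, α a ∈ n → ∃ s y : A, α s ∉ n ∧ α s * α a - α a₀ * α y ∈ P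

theorem pow_sub_pow_mem_of_sub_mem {I : Ideal B} {x y : B} (h : x - y ∈ I) (k : ℕ) :
    x ^ k - y ^ k ∈ I := by
  obtain ⟨c, hc⟩ := sub_dvd_pow_sub_pow x y k
  rw [hc]
  exact I.mul_mem_right c h

/-- **Transversality, core.**  A local generator `α a₀` of the first branch at a crossing
point `n` agrees modulo `P₁`, up to a factor `u ∉ n`, with an element `f` of `P₂`. -/
theorem KronCong.exists_transversal {q : ℕ} (hq : 2 ≤ q) {α β : A →+* B}
    {P₁ P₂ n : Ideal B} [n.IsPrime] (hP₁ : P₁ ≤ n) (hP₂ : P₂ ≤ n)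
    (h : KronCong q α β P₁ P₂) {a₀ : A} (ha₀ : IsBranchUnif α P₁ n a₀) :
    ∃ f ∈ P₂, ∃ u : B, u ∉ n ∧ f - u * α a₀ ∈ P₁ := by
  obtain ⟨a₁, h₁⟩ := h.cong₂ a₀
  obtain ⟨a₂, h₂⟩ := h.cong₁ a₁
  have hq0 : q ≠ 0 := by omega
  have hβ : β a₁ ∈ n := by
    have : (β a₁) ^ q ∈ n := by
      have := n.sub_mem ha₀.1 (hP₂ h₁)
      simpa using this
    exact Ideal.IsPrime.mem_of_pow_mem inferInstance q this
  have hα₂ : α a₂ ∈ n := by
    have : (α a₂) ^ q ∈ n := by
      have := n.sub_mem hβ (hP₁ h₂)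
      simpa using this
    exact Ideal.IsPrime.mem_of_pow_mem inferInstance q this
  obtain ⟨s, y, hs, hsy⟩ := ha₀.2 a₂ hα₂
  have hQ : 1 ≤ q ^ 2 := Nat.one_le_pow _ _ (by omega)
  refine ⟨(α s) ^ (q ^ 2) * (α a₀ - (β a₁) ^ q), P₂.mul_mem_left _ h₁,
    (α s) ^ (q ^ 2) - (α a₀) ^ (q ^ 2 - 1) * (α y) ^ (q ^ 2), ?_, ?_⟩
  · intro hu
    have h1 : (α a₀) ^ (q ^ 2 - 1) ∈ n := by
      have hpos : q ^ 2 - 1 ≠ 0 := by
        have : 4 ≤ q ^ 2 := by nlinarith
        omega
      exact Ideal.pow_mem_of_mem n ha₀.1 _ (Nat.pos_of_ne_zero hpos)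
    have h2 : (α s) ^ (q ^ 2) ∈ n := by
      have := n.add_mem hu (n.mul_mem_right ((α y) ^ (q ^ 2)) h1)
      simpa using this
    exact hs (Ideal.IsPrime.mem_of_pow_mem inferInstance _ h2)
  · have e1 : ((β a₁) ^ q) - ((α a₂) ^ q) ^ q ∈ P₁ := pow_sub_pow_mem_of_sub_mem h₂ q
    have e2 : (α s * α a₂) ^ (q ^ 2) - (α a₀ * α y) ^ (q ^ 2) ∈ P₁ :=
      pow_sub_pow_mem_of_sub_mem hsy (q ^ 2)
    have hpow : (α a₀) ^ (q ^ 2 - 1) * α a₀ = (α a₀) ^ (q ^ 2) := by
      rw [← pow_succ, Nat.sub_add_cancel hQ]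
    have key : (α s) ^ (q ^ 2) * (α a₀ - (β a₁) ^ q)
        - ((α s) ^ (q ^ 2) - (α a₀) ^ (q ^ 2 - 1) * (α y) ^ (q ^ 2)) * α a₀
        = -((α s) ^ (q ^ 2) * ((β a₁) ^ q - ((α a₂) ^ q) ^ q))
          - ((α s * α a₂) ^ (q ^ 2) - (α a₀ * α y) ^ (q ^ 2)) := by
      have hp2 : ((α a₂) ^ q) ^ q = (α a₂) ^ (q ^ 2) := by rw [← pow_mul, sq]
      rw [hp2, mul_pow, mul_pow, ← hpow]
      ring
    rw [key]
    exact P₁.sub_mem (P₁.neg_mem (P₁.mul_mem_left _ e1)) e2

/-- **Transversality.**  If moreover `α` is onto `B/P₁`, then locally at the crossing point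
`n` one has `n = (f) + P₁` with `f ∈ P₂`; in particular `n = P₁ + P₂` locally at `n`. -/
theorem KronCong.exists_local_gen {q : ℕ} (hq : 2 ≤ q) {α β : A →+* B}
    {P₁ P₂ n : Ideal B} [n.IsPrime] (hP₁ : P₁ ≤ n) (hP₂ : P₂ ≤ n)
    (h : KronCong q α β P₁ P₂) (hα : ∀ b : B, ∃ a : A, b - α a ∈ P₁)
    {a₀ : A} (ha₀ : IsBranchUnif α P₁ n a₀) :
    ∃ f ∈ P₂, ∀ x ∈ n, ∃ t : B, t ∉ n ∧ ∃ z : B, t * x - f * z ∈ P₁ := by
  obtain ⟨f, hf, u, hu, hfu⟩ := h.exists_transversal hq hP₁ hP₂ ha₀
  refine ⟨f, hf, fun x hx => ?_⟩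
  obtain ⟨a, ha⟩ := hα x
  have han : α a ∈ n := by
    have := n.sub_mem hx (hP₁ ha)
    simpa using this
  obtain ⟨s, y, hs, hsy⟩ := ha₀.2 a han
  refine ⟨u * α s, fun hmem => ?_, α y, ?_⟩
  · rcases Ideal.IsPrime.mem_or_mem inferInstance hmem with h' | h'
    · exact hu h'
    · exact hs h'
  · have key : u * α s * x - f * α y
        = u * α s * (x - α a) + u * (α s * α a - α a₀ * α y) - (f - u * α a₀) * α y := by
      ring
    rw [key]
    exact P₁.sub_mem (P₁.add_mem (P₁.mul_mem_left _ ha) (P₁.mul_mem_left _ hsy))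
      (P₁.mul_mem_right _ hfu)

/-- `P₁ + P₂` is the maximal ideal locally at a crossing point. -/
theorem KronCong.mem_sup_of_mem {q : ℕ} (hq : 2 ≤ q) {α β : A →+* B}
    {P₁ P₂ n : Ideal B} [n.IsPrime] (hP₁ : P₁ ≤ n) (hP₂ : P₂ ≤ n)
    (h : KronCong q α β P₁ P₂) (hα : ∀ b : B, ∃ a : A, b - α a ∈ P₁)
    {a₀ : A} (ha₀ : IsBranchUnif α P₁ n a₀) {x : B} (hx : x ∈ n) :
    ∃ t : B, t ∉ n ∧ t * x ∈ P₁ ⊔ P₂ := by
  obtain ⟨f, hf, hloc⟩ := h.exists_local_gen hq hP₁ hP₂ hα ha₀
  obtain ⟨t, ht, z, hz⟩ := hloc x hx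
  refine ⟨t, ht, ?_⟩
  have : t * x = (t * x - f * z) + f * z := by ring
  rw [this]
  exact Ideal.add_mem _ (Ideal.mem_sup_left hz) (Ideal.mem_sup_right (P₂.mul_mem_right _ hf))

/-- **Node datum at a crossing point.**  There are `f ∈ P₂`, `g ∈ P₁` such that, locally at
`n` and modulo `P₁ ⊓ P₂` (`= wB` in the application): `n = (f, g)`, `P₁ = (g)`, `P₂ = (f)`;
and `f * g ∈ P₁ ⊓ P₂`. -/
theorem KronCong.exists_node {q : ℕ} (hq : 2 ≤ q) {α β : A →+* B}
    {P₁ P₂ n : Ideal B} [n.IsPrime] (hP₁ : P₁ ≤ n) (hP₂ : P₂ ≤ n)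
    (h : KronCong q α β P₁ P₂)
    (hα : ∀ b : B, ∃ a : A, b - α a ∈ P₁) (hβ : ∀ b : B, ∃ a : A, b - β a ∈ P₂)
    {a₀ b₀ : A} (ha₀ : IsBranchUnif α P₁ n a₀) (hb₀ : IsBranchUnif β P₂ n b₀) :
    ∃ f g : B, f ∈ P₂ ∧ g ∈ P₁ ∧ f * g ∈ P₁ ⊓ P₂ ∧
      (∀ x ∈ n, ∃ t : B, t ∉ n ∧ ∃ y z : B, t * x - (f * y + g * z) ∈ P₁ ⊓ P₂) ∧
      (∀ x ∈ P₁, ∃ t : B, t ∉ n ∧ ∃ z : B, t * x - g * z ∈ P₁ ⊓ P₂) ∧
      (∀ x ∈ P₂, ∃ t : B, t ∉ n ∧ ∃ y : B, t * x - f * y ∈ P₁ ⊓ P₂) := by
  obtain ⟨f, hf, hlocf⟩ := h.exists_local_gen hq hP₁ hP₂ hα ha₀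
  obtain ⟨g, hg, hlocg⟩ := h.symm.exists_local_gen hq hP₂ hP₁ hβ hb₀
  have hP1 : ∀ x ∈ P₁, ∃ t : B, t ∉ n ∧ ∃ z : B, t * x - g * z ∈ P₁ ⊓ P₂ := by
    intro x hx
    obtain ⟨t, ht, z, hz⟩ := hlocg x (hP₁ hx)
    exact ⟨t, ht, z, ⟨P₁.sub_mem (P₁.mul_mem_left _ hx) (P₁.mul_mem_right _ hg), hz⟩⟩
  have hP2 : ∀ x ∈ P₂, ∃ t : B, t ∉ n ∧ ∃ y : B, t * x - f * y ∈ P₁ ⊓ P₂ := by
    intro x hx
    obtain ⟨t, ht, z, hz⟩ := hlocf x (hP₂ hx)
    exact ⟨t, ht, z, ⟨hz, P₂.sub_mem (P₂.mul_mem_left _ hx) (P₂.mul_mem_right _ hf)⟩⟩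
  refine ⟨f, g, hf, hg, ⟨P₁.mul_mem_left _ hg, P₂.mul_mem_right _ hf⟩, ?_, hP1, hP2⟩
  intro x hx
  obtain ⟨t, ht, y, hy⟩ := hlocf x hx
  obtain ⟨t', ht', z, hz⟩ := hP1 _ hy
  refine ⟨t' * t, fun hmem => ?_, t' * y, z, ?_⟩
  · rcases Ideal.IsPrime.mem_or_mem inferInstance hmem with h' | h'
    · exact ht' h'
    · exact ht h'
  · have key : t' * t * x - (f * (t' * y) + g * z) = t' * (t * x - f * y) - g * z := by ring
    rw [key]
    exact hz

/-- **Smooth points.**  At a point `n` of the first branch which is not on the second one,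
`n = (α a₀) + P₁ ⊓ P₂` locally at `n`. -/
theorem exists_smooth_gen {α : A →+* B} {P₁ P₂ n : Ideal B} [n.IsPrime]
    (hP₁ : P₁ ≤ n) (hP₂ : ¬ P₂ ≤ n) (hα : ∀ b : B, ∃ a : A, b - α a ∈ P₁)
    {a₀ : A} (ha₀ : IsBranchUnif α P₁ n a₀) :
    ∀ x ∈ n, ∃ t : B, t ∉ n ∧ ∃ z : B, t * x - α a₀ * z ∈ P₁ ⊓ P₂ := by
  intro x hx
  obtain ⟨e, he, hen⟩ := SetLike.not_le_iff_exists.mp hP₂
  obtain ⟨a, ha⟩ := hα x
  have han : α a ∈ n := by
    have := n.sub_mem hx (hP₁ ha)
    simpa using this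
  obtain ⟨s, y, hs, hsy⟩ := ha₀.2 a han
  refine ⟨e * α s, fun hmem => ?_, e * α y, ?_⟩
  · rcases Ideal.IsPrime.mem_or_mem inferInstance hmem with h' | h'
    · exact hen h'
    · exact hs h'
  · have key : e * α s * x - α a₀ * (e * α y)
        = e * (α s * (x - α a) + (α s * α a - α a₀ * α y)) := by ring
    rw [key]
    exact ⟨P₁.mul_mem_left _ (P₁.add_mem (P₁.mul_mem_left _ ha) hsy), P₂.mul_mem_right _ he⟩

/-! ### Existence of the local generator on a Dedekind branch -/

/-- In a Dedekind domain every prime ideal is locally principal, in elementwise form. -/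
theorem exists_local_generator_of_isDedekindDomain (D : Type*) [CommRing D]
    [IsDedekindDomain D] (m : Ideal D) [m.IsPrime] :
    ∃ a₀ ∈ m, ∀ a ∈ m, ∃ s y : D, s ∉ m ∧ s * a = a₀ * y := by
  by_cases hm : m = ⊥
  · refine ⟨0, m.zero_mem, fun a ha => ⟨1, 0, ?_, ?_⟩⟩
    · exact fun h1 => (Ideal.IsPrime.ne_top inferInstance) ((Ideal.eq_top_iff_one m).mpr h1)
    · rw [hm] at ha
      rw [Ideal.mem_bot.mp ha]
      simp
  · let L := Localization.AtPrime m
    have : IsDiscreteValuationRing L :=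
      IsLocalization.AtPrime.isDiscreteValuationRing_of_dedekind_domain D hm L
    obtain ⟨ϖ, hϖ⟩ := IsDiscreteValuationRing.exists_irreducible L
    obtain ⟨a₀, s₀, rfl⟩ := IsLocalization.exists_mk'_eq m.primeCompl ϖ
    have hs₀ : IsUnit (algebraMap D L (s₀ : D)) := IsLocalization.map_units L s₀
    have hmax : IsLocalRing.maximalIdeal L = Ideal.span {algebraMap D L a₀} := by
      rw [hϖ.maximalIdeal_eq]
      apply Ideal.span_singleton_eq_span_singleton.mpr
      refine ⟨hs₀.unit, ?_⟩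
      simp [IsLocalization.mk'_spec]
    have hinj : Function.Injective (algebraMap D L) :=
      IsLocalization.injective L (Ideal.primeCompl_le_nonZeroDivisors m)
    have ha₀ : a₀ ∈ m := by
      rw [← IsLocalization.AtPrime.to_map_mem_maximal_iff L m a₀, hmax]
      exact Ideal.mem_span_singleton_self _
    refine ⟨a₀, ha₀, fun a ha => ?_⟩
    have : algebraMap D L a ∈ Ideal.span {algebraMap D L a₀} := by
      rw [← hmax]
      exact (IsLocalization.AtPrime.to_map_mem_maximal_iff L m a).mpr ha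
    obtain ⟨c, hc⟩ := Ideal.mem_span_singleton'.mp this
    obtain ⟨y, s, rfl⟩ := IsLocalization.exists_mk'_eq m.primeCompl c
    refine ⟨s, y, s.2, hinj ?_⟩
    rw [map_mul, map_mul, ← hc, ← IsLocalization.mk'_spec L y s]
    ring

/-- If the branch `A ⧸ comap α P` is a Dedekind domain, every prime `n ⊇ P` of `B` has a
local generator in the sense of `IsBranchUnif`. -/
theorem exists_isBranchUnif_of_isDedekindDomain (α : A →+* B) (P n : Ideal B) [n.IsPrime]
    (hP : P ≤ n) [IsDedekindDomain (A ⧸ Ideal.comap α P)] :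
    ∃ a₀ : A, IsBranchUnif α P n a₀ := by
  have hle : Ideal.comap α P ≤ Ideal.comap α n := Ideal.comap_mono hP
  let ψ : A ⧸ Ideal.comap α P →+* B ⧸ n := Ideal.quotientMap n α hle
  let m : Ideal (A ⧸ Ideal.comap α P) := RingHom.ker ψ
  have : m.IsPrime := RingHom.ker_isPrime ψ
  have hmem : ∀ a : A, Ideal.Quotient.mk (Ideal.comap α P) a ∈ m ↔ α a ∈ n := by
    intro a
    simp only [m, ψ, RingHom.mem_ker, Ideal.quotientMap_mk, Ideal.Quotient.eq_zero_iff_mem]
  obtain ⟨a₀', ha₀', hgen⟩ := exists_local_generator_of_isDedekindDomain _ m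
  obtain ⟨a₀, rfl⟩ := Ideal.Quotient.mk_surjective a₀'
  refine ⟨a₀, (hmem a₀).mp ha₀', fun a ha => ?_⟩
  obtain ⟨s', y', hs', hsy'⟩ := hgen _ ((hmem a).mpr ha)
  obtain ⟨s, rfl⟩ := Ideal.Quotient.mk_surjective s'
  obtain ⟨y, rfl⟩ := Ideal.Quotient.mk_surjective y'
  refine ⟨s, y, fun h => hs' ((hmem s).mpr h), ?_⟩
  have h0 : Ideal.Quotient.mk (Ideal.comap α P) (s * a - a₀ * y) = 0 := by
    rw [map_sub, map_mul, map_mul, hsy', sub_self]
  have := Ideal.Quotient.eq_zero_iff_mem.mp h0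
  rw [Ideal.mem_comap, map_sub, map_mul, map_mul] at this
  exact this

/-! ### Localised forms -/

section Localised

variable (R : Type*) [CommRing R] [Algebra B R]

/-- If every element of `n` lies in `J` up to a factor outside `n`, then `n` and `J` generate
the same ideal in the localisation at `n`. -/
theorem map_eq_map_of_local {n J : Ideal B} [n.IsPrime] [IsLocalization.AtPrime R n]
    (hJ : J ≤ n) (h : ∀ x ∈ n, ∃ t : B, t ∉ n ∧ t * x ∈ J) :
    Ideal.map (algebraMap B R) n = Ideal.map (algebraMap B R) J := by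
  refine le_antisymm ?_ (Ideal.map_mono hJ)
  rw [Ideal.map_le_iff_le_comap]
  intro x hx
  obtain ⟨t, ht, htx⟩ := h x hx
  have hu : IsUnit (algebraMap B R t) :=
    IsLocalization.map_units R (⟨t, ht⟩ : n.primeCompl)
  rw [Ideal.mem_comap]
  have hmem : algebraMap B R t * algebraMap B R x ∈ Ideal.map (algebraMap B R) J := by
    rw [← map_mul]
    exact Ideal.mem_map_of_mem _ htx
  exact (Ideal.unit_mul_mem_iff_mem _ hu).mp hmem

/-- **Node datum, localised form.**  In the local ring `R = B_n` at a crossing point: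
`𝔪 = (f, g) + (P₁ ⊓ P₂)R`, `P₁R = (g) + (P₁ ⊓ P₂)R`, `P₂R = (f) + (P₁ ⊓ P₂)R`. -/
theorem KronCong.map_eq_span_node {q : ℕ} (hq : 2 ≤ q) {α β : A →+* B}
    {P₁ P₂ n : Ideal B} [n.IsPrime] [IsLocalization.AtPrime R n]
    (hP₁ : P₁ ≤ n) (hP₂ : P₂ ≤ n) (h : KronCong q α β P₁ P₂)
    (hα : ∀ b : B, ∃ a : A, b - α a ∈ P₁) (hβ : ∀ b : B, ∃ a : A, b - β a ∈ P₂)
    {a₀ b₀ : A} (ha₀ : IsBranchUnif α P₁ n a₀) (hb₀ : IsBranchUnif β P₂ n b₀) :
    ∃ f g : B, f ∈ P₂ ∧ g ∈ P₁ ∧ f * g ∈ P₁ ⊓ P₂ ∧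
      Ideal.map (algebraMap B R) n =
        Ideal.span {algebraMap B R f, algebraMap B R g}
          ⊔ Ideal.map (algebraMap B R) (P₁ ⊓ P₂) ∧
      Ideal.map (algebraMap B R) P₁ =
        Ideal.span {algebraMap B R g} ⊔ Ideal.map (algebraMap B R) (P₁ ⊓ P₂) ∧
      Ideal.map (algebraMap B R) P₂ =
        Ideal.span {algebraMap B R f} ⊔ Ideal.map (algebraMap B R) (P₁ ⊓ P₂) := by
  obtain ⟨f, g, hf, hg, hfg, hn, h1, h2⟩ := h.exists_node hq hP₁ hP₂ hα hβ ha₀ hb₀
  refine ⟨f, g, hf, hg, hfg, ?_, ?_, ?_⟩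
  · have hJ : Ideal.span {f, g} ⊔ (P₁ ⊓ P₂) ≤ n := by
      refine sup_le ?_ (inf_le_left.trans hP₁)
      rw [Ideal.span_le]
      rintro x (rfl | rfl)
      · exact hP₂ hf
      · exact hP₁ hg
    rw [map_eq_map_of_local R hJ, Ideal.map_sup, Ideal.map_span, Set.image_pair]
    intro x hx
    obtain ⟨t, ht, y, z, hyz⟩ := hn x hx
    refine ⟨t, ht, ?_⟩
    have : t * x = (f * y + g * z) + (t * x - (f * y + g * z)) := by ring
    rw [this]
    refine Ideal.add_mem _ (Ideal.mem_sup_left ?_) (Ideal.mem_sup_right hyz)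
    exact Ideal.add_mem _
      (Ideal.mul_mem_right _ _ (Ideal.subset_span (Set.mem_insert _ _)))
      (Ideal.mul_mem_right _ _ (Ideal.subset_span (Set.mem_insert_of_mem _ rfl)))
  · refine le_antisymm ?_ ?_
    · rw [Ideal.map_le_iff_le_comap]
      intro x hx
      obtain ⟨t, ht, z, hz⟩ := h1 x hx
      have hu : IsUnit (algebraMap B R t) :=
        IsLocalization.map_units R (⟨t, ht⟩ : n.primeCompl)
      rw [Ideal.mem_comap]
      refine (Ideal.unit_mul_mem_iff_mem _ hu).mp ?_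
      have : algebraMap B R t * algebraMap B R x
          = algebraMap B R g * algebraMap B R z + algebraMap B R (t * x - g * z) := by
        simp only [map_sub, map_mul]; ring
      rw [this]
      exact Ideal.add_mem _
        (Ideal.mem_sup_left (Ideal.mul_mem_right _ _ (Ideal.mem_span_singleton_self _)))
        (Ideal.mem_sup_right (Ideal.mem_map_of_mem _ hz))
    · refine sup_le ?_ (Ideal.map_mono inf_le_left)
      rw [Ideal.span_le, Set.singleton_subset_iff]
      exact Ideal.mem_map_of_mem _ hg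
  · refine le_antisymm ?_ ?_
    · rw [Ideal.map_le_iff_le_comap]
      intro x hx
      obtain ⟨t, ht, z, hz⟩ := h2 x hx
      have hu : IsUnit (algebraMap B R t) :=
        IsLocalization.map_units R (⟨t, ht⟩ : n.primeCompl)
      rw [Ideal.mem_comap]
      refine (Ideal.unit_mul_mem_iff_mem _ hu).mp ?_
      have : algebraMap B R t * algebraMap B R x
          = algebraMap B R f * algebraMap B R z + algebraMap B R (t * x - f * z) := by
        simp only [map_sub, map_mul]; ring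
      rw [this]
      exact Ideal.add_mem _
        (Ideal.mem_sup_left (Ideal.mul_mem_right _ _ (Ideal.mem_span_singleton_self _)))
        (Ideal.mem_sup_right (Ideal.mem_map_of_mem _ hz))
    · refine sup_le ?_ (Ideal.map_mono inf_le_right)
      rw [Ideal.span_le, Set.singleton_subset_iff]
      exact Ideal.mem_map_of_mem _ hf

/-- **Node datum with a uniformiser.**  If moreover `P₁ ⊓ P₂ = (w)` (reduced special fibre with
exactly the two branches), then in `R = B_n`: `𝔪 = (f, g, w)` and `f * g = w * h`. -/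
theorem KronCong.map_eq_span_triple {q : ℕ} (hq : 2 ≤ q) {α β : A →+* B}
    {P₁ P₂ n : Ideal B} [n.IsPrime] [IsLocalization.AtPrime R n]
    (hP₁ : P₁ ≤ n) (hP₂ : P₂ ≤ n) (h : KronCong q α β P₁ P₂)
    (hα : ∀ b : B, ∃ a : A, b - α a ∈ P₁) (hβ : ∀ b : B, ∃ a : A, b - β a ∈ P₂)
    {a₀ b₀ : A} (ha₀ : IsBranchUnif α P₁ n a₀) (hb₀ : IsBranchUnif β P₂ n b₀)
    {w : B} (hw : P₁ ⊓ P₂ = Ideal.span {w}) :
    ∃ f g k : B, f ∈ P₂ ∧ g ∈ P₁ ∧ f * g = w * k ∧
      Ideal.map (algebraMap B R) n =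
        Ideal.span {algebraMap B R f, algebraMap B R g, algebraMap B R w} ∧
      Ideal.map (algebraMap B R) P₁ = Ideal.span {algebraMap B R g, algebraMap B R w} ∧
      Ideal.map (algebraMap B R) P₂ = Ideal.span {algebraMap B R f, algebraMap B R w} := by
  obtain ⟨f, g, hf, hg, hfg, hn, h1, h2⟩ :=
    h.map_eq_span_node R hq hP₁ hP₂ hα hβ ha₀ hb₀
  rw [hw] at hfg hn h1 h2
  obtain ⟨k, hk⟩ := Ideal.mem_span_singleton'.mp hfg
  refine ⟨f, g, k, hf, hg, by rw [← hk, mul_comm], ?_, ?_, ?_⟩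
  · rw [hn, Ideal.map_span, Set.image_singleton, ← Ideal.span_union]
    congr 1
    ext x
    simp only [Set.union_singleton, Set.mem_insert_iff, Set.mem_singleton_iff]
    tauto
  · rw [h1, Ideal.map_span, Set.image_singleton, ← Ideal.span_union]
    congr 1
  · rw [h2, Ideal.map_span, Set.image_singleton, ← Ideal.span_union]
    congr 1

/-- **Smooth points, localised form.** -/
theorem map_eq_span_smooth {α : A →+* B} {P₁ P₂ n : Ideal B} [n.IsPrime]
    [IsLocalization.AtPrime R n]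
    (hP₁ : P₁ ≤ n) (hP₂ : ¬ P₂ ≤ n) (hα : ∀ b : B, ∃ a : A, b - α a ∈ P₁)
    {a₀ : A} (ha₀ : IsBranchUnif α P₁ n a₀) :
    Ideal.map (algebraMap B R) n =
      Ideal.span {algebraMap B R (α a₀)} ⊔ Ideal.map (algebraMap B R) (P₁ ⊓ P₂) := by
  have hJ : Ideal.span {α a₀} ⊔ (P₁ ⊓ P₂) ≤ n := by
    refine sup_le ?_ (inf_le_left.trans hP₁)
    rw [Ideal.span_le, Set.singleton_subset_iff]
    exact ha₀.1
  rw [map_eq_map_of_local R hJ, Ideal.map_sup, Ideal.map_span, Set.image_singleton]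
  intro x hx
  obtain ⟨t, ht, z, hz⟩ := exists_smooth_gen hP₁ hP₂ hα ha₀ x hx
  refine ⟨t, ht, ?_⟩
  have : t * x = α a₀ * z + (t * x - α a₀ * z) := by ring
  rw [this]
  exact Ideal.add_mem _
    (Ideal.mem_sup_left (Ideal.mul_mem_right _ _ (Ideal.mem_span_singleton_self _)))
    (Ideal.mem_sup_right hz)

end Localised

/-! ### `α` is onto the branch: finite birational onto a normal domain -/

/-- An injective, integral, birational ring homomorphism out of an integrally closed domain is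
surjective.  (Used for `A ⧸ wA → B ⧸ P₁`: both have the same fraction field by the residue
degree count, the target is integral over `κ[j]`, the source is normal by `b2`.) -/
theorem surjective_of_birational_of_integral {C D : Type*} [CommRing C] [IsDomain C]
    [IsIntegrallyClosed C] [CommRing D] [IsDomain D] (φ : C →+* D)
    (hinj : Function.Injective φ) (hint : φ.IsIntegral)
    (hbir : ∀ d : D, ∃ c₁ c₂ : C, c₂ ≠ 0 ∧ φ c₂ * d = φ c₁) : Function.Surjective φ := by
  intro d
  obtain ⟨c₁, c₂, hc₂, hd⟩ := hbir d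
  obtain ⟨p, hp, hpd⟩ := hint d
  let K := FractionRing C
  let L := FractionRing D
  let g : C →+* L := (algebraMap D L).comp φ
  have hg : Function.Injective g := (IsFractionRing.injective D L).comp hinj
  let ι : K →+* L := IsFractionRing.lift hg
  have hι : ∀ c : C, ι (algebraMap C K c) = algebraMap D L (φ c) := fun c =>
    IsFractionRing.lift_algebraMap hg c
  have hc₂K : algebraMap C K c₂ ≠ 0 := by
    simpa using (IsFractionRing.injective C K).ne hc₂
  have hφc₂ : φ c₂ ≠ 0 := by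
    simpa using hinj.ne hc₂
  have hc₂L : algebraMap D L (φ c₂) ≠ 0 := by
    simpa using (IsFractionRing.injective D L).ne hφc₂
  set k : K := algebraMap C K c₁ / algebraMap C K c₂ with hk
  have hιk : ι k = algebraMap D L d := by
    rw [hk, map_div₀, hι, hι, ← hd, map_mul, mul_div_cancel_left₀ _ hc₂L]
  have hcomp : ι.comp (algebraMap C K) = (algebraMap D L).comp φ := by
    ext c; exact hι c
  have he : Polynomial.eval₂ (algebraMap C K) k p = 0 := by
    apply ι.injective
    rw [Polynomial.hom_eval₂, hcomp, hιk, ← Polynomial.hom_eval₂, hpd, map_zero, map_zero]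
  have hint' : IsIntegral C k := ⟨p, hp, he⟩
  obtain ⟨c, hc⟩ := IsIntegrallyClosed.isIntegral_iff.mp hint'
  refine ⟨c, ?_⟩
  have h1 : c * c₂ = c₁ := by
    apply IsFractionRing.injective C K
    rw [map_mul, hc, hk, div_mul_cancel₀ _ hc₂K]
  apply mul_left_cancel₀ hφc₂
  rw [hd, ← h1, map_mul, mul_comm]

end Fermat.Agent.A2.H372

end
-- ===== PACK-END A2/H372/Transversal.lean

-- ===== PACK-BEGIN S55/Bridge/H594/Profinite.lean
section


/-!
# S55 bridge (helper594): relative transitivity and residue surjectivity for a closed subgroup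

Let a profinite group `G` act continuously on a (discrete) commutative ring `B`, and let `H ≤ G`
be a closed subgroup.  Applying Mathlib's profinite invariant theory to `H` acting on `B` with
base ring the fixed subring `B^H`, we get:

* `exists_smul_eq_of_forall_fixed_mem_iff`: two primes of `B` with the same intersection with
  `B^H` are conjugate under `H`;
* `exists_stabilizer_congr_of_forall_fixed`: if `σ ∈ G` stabilises the prime `P` and acts
  trivially on `B^H` modulo `P`, then some `h ∈ H` stabilising `P` acts as `σ` on `B ⧸ P`.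
-/

set_option autoImplicit false
set_option linter.unusedSectionVars false
set_option linter.style.haveILetI false

namespace Fermat.Agent.S55.Bridge.H594

open scoped Pointwise

section abstract

variable {B : Type*} [CommRing B]
variable {G : Type*} [Group G] [MulSemiringAction G B]
variable [TopologicalSpace G] [CompactSpace G] [TotallyDisconnectedSpace G]
variable [IsTopologicalGroup G] [TopologicalSpace B] [DiscreteTopology B] [ContinuousSMul G B]

/-- `B` is invariant over its fixed subalgebra. -/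
theorem isInvariant_fixedPoints (H : Subgroup G) :
    Algebra.IsInvariant (FixedPoints.subalgebra ℤ B H) B H :=
  ⟨fun b hb => ⟨⟨b, hb⟩, rfl⟩⟩

theorem continuousSMul_subgroup (H : Subgroup G) : ContinuousSMul H B := by
  refine ⟨?_⟩
  have h1 : Continuous fun p : H × B => ((p.1 : G), p.2) :=
    (continuous_subtype_val.comp continuous_fst).prodMk continuous_snd
  exact (continuous_smul (M := G) (X := B)).comp h1

/-- Two primes of `B` with the same `H`-fixed elements are `H`-conjugate (`H` closed). -/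
theorem exists_smul_eq_of_forall_fixed_mem_iff (H : Subgroup G) (hH : IsClosed (H : Set G))
    (P Q : Ideal B) [P.IsPrime] [Q.IsPrime]
    (hPQ : ∀ b : B, (∀ h : H, h • b = b) → (b ∈ P ↔ b ∈ Q)) :
    ∃ h : H, Q = (h : G) • P := by
  haveI : CompactSpace H := isCompact_iff_compactSpace.mp hH.isCompact
  haveI := continuousSMul_subgroup (B := B) H
  haveI := isInvariant_fixedPoints (B := B) H
  have hunder : P.under (FixedPoints.subalgebra ℤ B H) = Q.under (FixedPoints.subalgebra ℤ B H) := by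
    ext ⟨b, hb⟩
    simp only [Ideal.under, Ideal.mem_comap]
    exact hPQ b hb
  obtain ⟨h, hh⟩ := Algebra.IsInvariant.exists_smul_of_under_eq_of_profinite
    (A := FixedPoints.subalgebra ℤ B H) (B := B) (G := H) P Q hunder
  exact ⟨h, hh⟩

/-- If `σ ∈ G` stabilises the prime `P` and acts trivially modulo `P` on the `H`-fixed elements,
then there is `h ∈ H` stabilising `P` and acting as `σ` on `B ⧸ P` (`H` closed). -/
theorem exists_stabilizer_congr_of_forall_fixed (H : Subgroup G) (hH : IsClosed (H : Set G))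
    (P : Ideal B) [P.IsPrime] (σ : G) (hσP : σ • P = P)
    (hσ : ∀ b : B, (∀ h : H, h • b = b) → σ • b - b ∈ P) :
    ∃ h : H, (h : G) • P = P ∧ ∀ b : B, (h : G) • b - σ • b ∈ P := by
  haveI : CompactSpace H := isCompact_iff_compactSpace.mp hH.isCompact
  haveI := continuousSMul_subgroup (B := B) H
  haveI := isInvariant_fixedPoints (B := B) H
  let A' := FixedPoints.subalgebra ℤ B H
  let p : Ideal A' := P.under A'
  haveI : P.LiesOver p := ⟨rfl⟩
  have hmap : P = P.map (MulSemiringAction.toRingEquiv G B σ) := by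
    conv_lhs => rw [← hσP]
    rfl
  let φ₀ : (B ⧸ P) ≃+* (B ⧸ P) :=
    Ideal.quotientEquiv P P (MulSemiringAction.toRingEquiv G B σ) hmap
  have hφ₀ : ∀ b : B, φ₀ (Ideal.Quotient.mk P b) = Ideal.Quotient.mk P (σ • b) := fun b => rfl
  let φ : (B ⧸ P) ≃ₐ[A' ⧸ p] (B ⧸ P) :=
    { φ₀ with
      commutes' := by
        rintro ⟨a⟩
        show φ₀ (Ideal.Quotient.mk P (a : B)) = Ideal.Quotient.mk P (a : B)
        rw [hφ₀, Ideal.Quotient.eq]
        exact hσ a a.2 }
  obtain ⟨h, hh⟩ := Ideal.Quotient.stabilizerHom_surjective_of_profinite (G := H) p P φ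
  refine ⟨h.1, ?_, fun b => ?_⟩
  · exact h.2
  · have h1 : (Ideal.Quotient.stabilizerHom P p H h) (Ideal.Quotient.mk P b) =
        φ (Ideal.Quotient.mk P b) := by rw [hh]
    rw [Ideal.Quotient.stabilizerHom_apply] at h1
    have h2 : φ (Ideal.Quotient.mk P b) = Ideal.Quotient.mk P (σ • b) := hφ₀ b
    rw [h2, Ideal.Quotient.eq] at h1
    exact h1

end abstract

end Fermat.Agent.S55.Bridge.H594

end
-- ===== PACK-END S55/Bridge/H594/Profinite.lean

-- ===== PACK-BEGIN A2/Mod/H378/L11Abstract.lean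
section


/-!
# A2 / MOD leaf L11 (helper378): residue degree one, abstract form

`K` a field, `V ⊆ K` a subring (a discrete valuation ring with uniformiser `w` in the
application), `O ⊆ V` a subring with `O ∩ w V = w O` and `O ∩ Vˣ = Oˣ`, `X ⊆ V` a set of
elements each satisfying a "Kronecker relation" `s (x - a) = w c` with `a ∈ O`,
`s, c ∈ B := O[X]`, `s ∈ Vˣ`.  If `K` is generated as a field by `O ∪ X`, then `V = O + w V`
(`ResOneData.exists_congr`): the localisation of `B` at `B ∩ w V` is a discrete valuation ring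
with fraction field `K` contained in `V`, hence equal to `V`, and its residue field is the
residue field of `O`.
-/

set_option autoImplicit false

namespace Fermat.Agent.A2.Mod.H378

variable {K : Type*} [Field K]

/-- The hypotheses of the abstract residue-degree-one lemma. -/
structure ResOneData (V O : Subring K) (w : K) (X : Set K) : Prop where
  O_le : ∀ x ∈ O, x ∈ V
  w_mem : w ∈ O
  w_ne : w ≠ 0
  w_nonunit : w⁻¹ ∉ V
  O_div : ∀ x ∈ O, x * w⁻¹ ∈ V → x * w⁻¹ ∈ O
  O_inv : ∀ x ∈ O, x⁻¹ ∈ V → x⁻¹ ∈ O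
  X_le : ∀ x ∈ X, x ∈ V
  disc : ∀ x ∈ V, x ≠ 0 → ∃ (n : ℕ) (u : K), u ∈ V ∧ u⁻¹ ∈ V ∧ x = w ^ n * u
  kron : ∀ x ∈ X, ∃ a ∈ O, ∃ s ∈ Subring.closure ((O : Set K) ∪ X), s ≠ 0 ∧ s⁻¹ ∈ V ∧
    ∃ c ∈ Subring.closure ((O : Set K) ∪ X), s * (x - a) = w * c
  gen : ∀ f : K, f ∈ Subfield.closure ((O : Set K) ∪ X)

namespace ResOneData

variable {V O : Subring K} {w : K} {X : Set K}

/-- `x ≡ g mod w V` for some `g ∈ O`. -/
def Cong (V O : Subring K) (w : K) (x : K) : Prop := ∃ g ∈ O, (x - g) * w⁻¹ ∈ V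

theorem w_mem_V (h : ResOneData V O w X) : w ∈ V := h.O_le w h.w_mem

theorem closure_le (h : ResOneData V O w X) : Subring.closure ((O : Set K) ∪ X) ≤ V := by
  rw [Subring.closure_le]
  rintro x (hx | hx)
  · exact h.O_le x hx
  · exact h.X_le x hx

theorem mem_closure_of_O (O : Subring K) (X : Set K) {x : K} (hx : x ∈ O) :
    x ∈ Subring.closure ((O : Set K) ∪ X) :=
  Subring.subset_closure (Or.inl hx)

theorem Cong.mem (h : ResOneData V O w X) {x : K} (hx : Cong V O w x) : x ∈ V := by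
  obtain ⟨g, hg, hv⟩ := hx
  have h1 : x = g + w * ((x - g) * w⁻¹) := by
    have := h.w_ne
    field_simp
    ring
  rw [h1]
  exact V.add_mem (h.O_le g hg) (V.mul_mem h.w_mem_V hv)

theorem Cong.of_O {x : K} (hx : x ∈ O) : Cong V O w x :=
  ⟨x, hx, by rw [sub_self, zero_mul]; exact V.zero_mem⟩

theorem Cong.add {x y : K} (hx : Cong V O w x) (hy : Cong V O w y) : Cong V O w (x + y) := by
  obtain ⟨g, hg, hv⟩ := hx
  obtain ⟨g', hg', hv'⟩ := hy
  refine ⟨g + g', O.add_mem hg hg', ?_⟩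
  have : (x + y - (g + g')) * w⁻¹ = (x - g) * w⁻¹ + (y - g') * w⁻¹ := by ring
  rw [this]
  exact V.add_mem hv hv'

theorem Cong.neg {x : K} (hx : Cong V O w x) : Cong V O w (-x) := by
  obtain ⟨g, hg, hv⟩ := hx
  refine ⟨-g, O.neg_mem hg, ?_⟩
  have : (-x - -g) * w⁻¹ = -((x - g) * w⁻¹) := by ring
  rw [this]
  exact V.neg_mem hv

theorem Cong.mul (h : ResOneData V O w X) {x y : K} (hx : Cong V O w x) (hy : Cong V O w y) :
    Cong V O w (x * y) := by
  have hyV := Cong.mem h hy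
  obtain ⟨g, hg, hv⟩ := hx
  obtain ⟨g', hg', hv'⟩ := hy
  refine ⟨g * g', O.mul_mem hg hg', ?_⟩
  have : (x * y - g * g') * w⁻¹ = (x - g) * w⁻¹ * y + g * ((y - g') * w⁻¹) := by ring
  rw [this]
  exact V.add_mem (V.mul_mem hv hyV) (V.mul_mem (h.O_le g hg) hv')

/-- A unit of `V` which is congruent to an element of `O` has its inverse congruent to an
element of `O`. -/
theorem Cong.inv (h : ResOneData V O w X) {x : K} (hx : Cong V O w x) (hx0 : x ≠ 0)
    (hxi : x⁻¹ ∈ V) : Cong V O w x⁻¹ := by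
  obtain ⟨g, hg, hv⟩ := hx
  have hw := h.w_ne
  have hxg : x = g + w * ((x - g) * w⁻¹) := by
    field_simp
    ring
  have hgV : g ∈ V := h.O_le g hg
  -- `g` is a unit of `V`
  have hg0 : g ≠ 0 := by
    rintro rfl
    apply h.w_nonunit
    have h1 : w⁻¹ = x⁻¹ * ((x - 0) * w⁻¹) := by
      rw [sub_zero]
      field_simp
    rw [h1]
    exact V.mul_mem hxi hv
  have hgi : g⁻¹ ∈ V := by
    obtain ⟨n, u, hu, hui, hgu⟩ := h.disc g hgV hg0
    rcases Nat.eq_zero_or_pos n with hn | hn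
    · rw [hn, pow_zero, one_mul] at hgu
      rw [hgu]
      exact hui
    · exfalso
      apply h.w_nonunit
      obtain ⟨m, rfl⟩ : ∃ m, n = m + 1 := ⟨n - 1, by omega⟩
      have h1 : w⁻¹ = x⁻¹ * (w ^ m * u + (x - g) * w⁻¹) := by
        have h2 : x = w * (w ^ m * u + (x - g) * w⁻¹) := by
          have h5 : w * (w ^ m * u + (x - g) * w⁻¹)
              = w ^ (m + 1) * u + w * ((x - g) * w⁻¹) := by ring
          rw [h5, ← hgu]
          exact hxg
        have h3 : w ^ m * u + (x - g) * w⁻¹ ≠ 0 := by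
          intro h0
          rw [h0, mul_zero] at h2
          exact hx0 h2
        set z := w ^ m * u + (x - g) * w⁻¹ with hz
        have h4 : x⁻¹ = w⁻¹ * z⁻¹ := by
          rw [h2, mul_inv]
        rw [h4, mul_assoc, inv_mul_cancel₀ h3, mul_one]
      rw [h1]
      exact V.mul_mem hxi (V.add_mem (V.mul_mem (V.pow_mem h.w_mem_V m) hu) hv)
  refine ⟨g⁻¹, h.O_inv g hg hgi, ?_⟩
  have : (x⁻¹ - g⁻¹) * w⁻¹ = -((x - g) * w⁻¹) * x⁻¹ * g⁻¹ := by
    field_simp
    ring
  rw [this]
  exact V.mul_mem (V.mul_mem (V.neg_mem hv) hxi) hgi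

/-- Every element of `B = O[X]` is congruent to an element of `O`. -/
theorem cong_of_mem_closure (h : ResOneData V O w X) {b : K}
    (hb : b ∈ Subring.closure ((O : Set K) ∪ X)) : Cong V O w b := by
  induction hb using Subring.closure_induction with
  | mem x hx =>
    rcases hx with hx | hx
    · exact Cong.of_O hx
    · obtain ⟨a, ha, s, hs, hs0, hsi, c, hc, he⟩ := h.kron x hx
      refine ⟨a, ha, ?_⟩
      have h1 : (x - a) * w⁻¹ = c * s⁻¹ := by
        have hw := h.w_ne
        field_simp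
        rw [mul_comm, he, mul_comm]
      rw [h1]
      exact V.mul_mem (h.closure_le hc) hsi
  | zero => exact Cong.of_O O.zero_mem
  | one => exact Cong.of_O O.one_mem
  | add x y _ _ hx hy => exact Cong.add hx hy
  | neg x _ hx => exact Cong.neg hx
  | mul x y _ _ hx hy => exact Cong.mul h hx hy

/-- The Kronecker relation for every element of `B = O[X]`. -/
theorem kron_closure (h : ResOneData V O w X) {b : K}
    (hb : b ∈ Subring.closure ((O : Set K) ∪ X)) :
    ∃ a ∈ O, ∃ s ∈ Subring.closure ((O : Set K) ∪ X), s ≠ 0 ∧ s⁻¹ ∈ V ∧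
      ∃ c ∈ Subring.closure ((O : Set K) ∪ X), s * (b - a) = w * c := by
  induction hb using Subring.closure_induction with
  | mem x hx =>
    rcases hx with hx | hx
    · exact ⟨x, hx, 1, Subring.one_mem _, one_ne_zero, by rw [inv_one]; exact V.one_mem,
        0, Subring.zero_mem _, by rw [sub_self, mul_zero, mul_zero]⟩
    · exact h.kron x hx
  | zero =>
    exact ⟨0, O.zero_mem, 1, Subring.one_mem _, one_ne_zero, by rw [inv_one]; exact V.one_mem,
        0, Subring.zero_mem _, by rw [sub_self, mul_zero, mul_zero]⟩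
  | one =>
    exact ⟨1, O.one_mem, 1, Subring.one_mem _, one_ne_zero, by rw [inv_one]; exact V.one_mem,
        0, Subring.zero_mem _, by rw [sub_self, mul_zero, mul_zero]⟩
  | add x y _ _ hx hy =>
    obtain ⟨a, ha, s, hs, hs0, hsi, c, hc, he⟩ := hx
    obtain ⟨a', ha', s', hs', hs0', hsi', c', hc', he'⟩ := hy
    refine ⟨a + a', O.add_mem ha ha', s * s', Subring.mul_mem _ hs hs', mul_ne_zero hs0 hs0', ?_,
      s' * c + s * c', Subring.add_mem _ (Subring.mul_mem _ hs' hc) (Subring.mul_mem _ hs hc'), ?_⟩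
    · rw [mul_inv]
      exact V.mul_mem hsi hsi'
    · have : s * s' * (x + y - (a + a')) = s' * (s * (x - a)) + s * (s' * (y - a')) := by ring
      rw [this, he, he']
      ring
  | neg x _ hx =>
    obtain ⟨a, ha, s, hs, hs0, hsi, c, hc, he⟩ := hx
    refine ⟨-a, O.neg_mem ha, s, hs, hs0, hsi, -c, Subring.neg_mem _ hc, ?_⟩
    have : s * (-x - -a) = -(s * (x - a)) := by ring
    rw [this, he]
    ring
  | mul x y hxB hyB hx hy =>
    obtain ⟨a, ha, s, hs, hs0, hsi, c, hc, he⟩ := hx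
    obtain ⟨a', ha', s', hs', hs0', hsi', c', hc', he'⟩ := hy
    refine ⟨a * a', O.mul_mem ha ha', s * s', Subring.mul_mem _ hs hs', mul_ne_zero hs0 hs0', ?_,
      c * s' * y + a * s * c', Subring.add_mem _
        (Subring.mul_mem _ (Subring.mul_mem _ hc hs') hyB)
        (Subring.mul_mem _ (Subring.mul_mem _ (mem_closure_of_O O X ha) hs) hc'), ?_⟩
    · rw [mul_inv]
      exact V.mul_mem hsi hsi'
    · have : s * s' * (x * y - a * a') = (s * (x - a)) * s' * y + a * s * (s' * (y - a')) := by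
        ring
      rw [this, he, he']
      ring

/-- `B ∩ w V ⊆ w B_𝔪`. -/
theorem div_closure (h : ResOneData V O w X) {b : K}
    (hb : b ∈ Subring.closure ((O : Set K) ∪ X)) (hbw : b * w⁻¹ ∈ V) :
    ∃ s ∈ Subring.closure ((O : Set K) ∪ X), s ≠ 0 ∧ s⁻¹ ∈ V ∧
      ∃ c ∈ Subring.closure ((O : Set K) ∪ X), s * b = w * c := by
  obtain ⟨a, ha, s, hs, hs0, hsi, c, hc, he⟩ := h.kron_closure hb
  have hw := h.w_ne
  have haw : a * w⁻¹ ∈ V := by
    have h1 : a * w⁻¹ = b * w⁻¹ - c * s⁻¹ := by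
      have h2 : c = s * (b - a) * w⁻¹ := by
        rw [he]
        field_simp
      rw [h2]
      field_simp
      ring
    rw [h1]
    exact V.sub_mem hbw (V.mul_mem (h.closure_le hc) hsi)
  have haO : a * w⁻¹ ∈ O := h.O_div a ha haw
  refine ⟨s, hs, hs0, hsi, s * (a * w⁻¹) + c,
    Subring.add_mem _ (Subring.mul_mem _ hs (mem_closure_of_O O X haO)) hc, ?_⟩
  have h1 : s * b = s * (b - a) + s * a := by ring
  rw [h1, he]
  field_simp
  ring

/-- Every nonzero element of `B` is `w ^ n` times a unit of `B_𝔪`. -/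
theorem unit_closure (h : ResOneData V O w X) (n : ℕ) :
    ∀ b ∈ Subring.closure ((O : Set K) ∪ X), ∀ u : K, u ∈ V → u⁻¹ ∈ V → u ≠ 0 →
      b = w ^ n * u →
      ∃ s ∈ Subring.closure ((O : Set K) ∪ X), s ≠ 0 ∧ s⁻¹ ∈ V ∧
        ∃ s' ∈ Subring.closure ((O : Set K) ∪ X), s' ≠ 0 ∧ s'⁻¹ ∈ V ∧ s * b = w ^ n * s' := by
  have hw := h.w_ne
  induction n with
  | zero =>
    intro b hb u hu hui hu0 hbu
    rw [pow_zero, one_mul] at hbu
    refine ⟨1, Subring.one_mem _, one_ne_zero, by rw [inv_one]; exact V.one_mem,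
      b, hb, by rw [hbu]; exact hu0, by rw [hbu]; exact hui, by rw [pow_zero]⟩
  | succ n ih =>
    intro b hb u hu hui hu0 hbu
    have hbw : b * w⁻¹ ∈ V := by
      have : b * w⁻¹ = w ^ n * u := by
        rw [hbu, pow_succ]
        field_simp
      rw [this]
      exact V.mul_mem (V.pow_mem h.w_mem_V n) hu
    obtain ⟨s, hs, hs0, hsi, c, hc, he⟩ := h.div_closure hb hbw
    have hc' : c = w ^ n * (s * u) := by
      have h1 : w * c = w * (w ^ n * (s * u)) := by
        rw [← he, hbu, pow_succ]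
        ring
      exact mul_left_cancel₀ hw h1
    obtain ⟨s₁, hs₁, hs₁0, hs₁i, s₂, hs₂, hs₂0, hs₂i, he₁⟩ :=
      ih c hc (s * u) (V.mul_mem (h.closure_le hs) hu)
        (by rw [mul_inv]; exact V.mul_mem hsi hui) (mul_ne_zero hs0 hu0) hc'
    refine ⟨s₁ * s, Subring.mul_mem _ hs₁ hs, mul_ne_zero hs₁0 hs0,
      by rw [mul_inv]; exact V.mul_mem hs₁i hsi, s₂, hs₂, hs₂0, hs₂i, ?_⟩
    rw [mul_assoc, he, mul_left_comm, he₁, pow_succ]
    ring

/-- Every element of `K` is a fraction of elements of `B`. -/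
theorem exists_frac (h : ResOneData V O w X) (f : K) :
    ∃ b₁ ∈ Subring.closure ((O : Set K) ∪ X), ∃ b₂ ∈ Subring.closure ((O : Set K) ∪ X),
      b₂ ≠ 0 ∧ f * b₂ = b₁ := by
  have hf := h.gen f
  induction hf using Subfield.closure_induction with
  | mem x hx =>
    exact ⟨x, Subring.subset_closure hx, 1, Subring.one_mem _, one_ne_zero, mul_one _⟩
  | one => exact ⟨1, Subring.one_mem _, 1, Subring.one_mem _, one_ne_zero, mul_one _⟩
  | add x y _ _ hx hy =>
    obtain ⟨b₁, hb₁, b₂, hb₂, h0, he⟩ := hx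
    obtain ⟨b₁', hb₁', b₂', hb₂', h0', he'⟩ := hy
    refine ⟨b₁ * b₂' + b₁' * b₂, Subring.add_mem _ (Subring.mul_mem _ hb₁ hb₂')
      (Subring.mul_mem _ hb₁' hb₂), b₂ * b₂', Subring.mul_mem _ hb₂ hb₂', mul_ne_zero h0 h0', ?_⟩
    rw [← he, ← he']
    ring
  | neg x _ hx =>
    obtain ⟨b₁, hb₁, b₂, hb₂, h0, he⟩ := hx
    exact ⟨-b₁, Subring.neg_mem _ hb₁, b₂, hb₂, h0, by rw [← he, neg_mul]⟩
  | inv x _ hx =>
    obtain ⟨b₁, hb₁, b₂, hb₂, h0, he⟩ := hx
    by_cases hx0 : x = 0
    · exact ⟨0, Subring.zero_mem _, 1, Subring.one_mem _, one_ne_zero,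
        by rw [hx0, inv_zero, zero_mul]⟩
    · have hb₁0 : b₁ ≠ 0 := by
        rw [← he]
        exact mul_ne_zero hx0 h0
      refine ⟨b₂, hb₂, b₁, hb₁, hb₁0, ?_⟩
      rw [← he, ← mul_assoc, inv_mul_cancel₀ hx0, one_mul]
  | mul x y _ _ hx hy =>
    obtain ⟨b₁, hb₁, b₂, hb₂, h0, he⟩ := hx
    obtain ⟨b₁', hb₁', b₂', hb₂', h0', he'⟩ := hy
    refine ⟨b₁ * b₁', Subring.mul_mem _ hb₁ hb₁', b₂ * b₂', Subring.mul_mem _ hb₂ hb₂',
      mul_ne_zero h0 h0', ?_⟩
    rw [← he, ← he']
    ring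

/-- **Residue degree one.**  Every element of `V` is congruent modulo `w V` to an element
of `O`. -/
theorem exists_congr (h : ResOneData V O w X) {f : K} (hf : f ∈ V) :
    ∃ g ∈ O, (f - g) * w⁻¹ ∈ V := by
  have hw := h.w_ne
  by_cases hf0 : f = 0
  · exact ⟨0, O.zero_mem, by rw [hf0, sub_zero, zero_mul]; exact V.zero_mem⟩
  obtain ⟨b₁, hb₁, b₂, hb₂, hb₂0, he⟩ := h.exists_frac f
  have hb₁0 : b₁ ≠ 0 := by
    rw [← he]
    exact mul_ne_zero hf0 hb₂0
  obtain ⟨n₁, u₁, hu₁, hu₁i, hbu₁⟩ := h.disc b₁ (h.closure_le hb₁) hb₁0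
  obtain ⟨n₂, u₂, hu₂, hu₂i, hbu₂⟩ := h.disc b₂ (h.closure_le hb₂) hb₂0
  have hu₁0 : u₁ ≠ 0 := by
    rintro rfl
    rw [mul_zero] at hbu₁
    exact hb₁0 hbu₁
  have hu₂0 : u₂ ≠ 0 := by
    rintro rfl
    rw [mul_zero] at hbu₂
    exact hb₂0 hbu₂
  obtain ⟨s₁, hs₁, hs₁0, hs₁i, t₁, ht₁, ht₁0, ht₁i, he₁⟩ :=
    h.unit_closure n₁ b₁ hb₁ u₁ hu₁ hu₁i hu₁0 hbu₁
  obtain ⟨s₂, hs₂, hs₂0, hs₂i, t₂, ht₂, ht₂0, ht₂i, he₂⟩ :=
    h.unit_closure n₂ b₂ hb₂ u₂ hu₂ hu₂i hu₂0 hbu₂
  -- `n₂ ≤ n₁`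
  have hle : n₂ ≤ n₁ := by
    by_contra hlt
    rw [not_le] at hlt
    obtain ⟨m, rfl⟩ : ∃ m, n₂ = n₁ + (m + 1) := ⟨n₂ - n₁ - 1, by omega⟩
    apply h.w_nonunit
    have h1 : w⁻¹ = w ^ m * f * u₂ * u₁⁻¹ := by
      have h2 : f * (w ^ (n₁ + (m + 1)) * u₂) = w ^ n₁ * u₁ := by
        rw [← hbu₂, ← hbu₁, he]
      have h3 : w ^ n₁ * (w * (w ^ m * f * u₂ * u₁⁻¹)) = w ^ n₁ * 1 := by
        have : w ^ n₁ * (w * (w ^ m * f * u₂ * u₁⁻¹))
            = f * (w ^ (n₁ + (m + 1)) * u₂) * u₁⁻¹ := by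
          rw [pow_add, pow_succ]
          ring
        rw [this, h2, mul_assoc, mul_inv_cancel₀ hu₁0]
      have h4 := mul_left_cancel₀ (pow_ne_zero n₁ hw) h3
      exact (eq_inv_of_mul_eq_one_right h4).symm ▸ rfl
    rw [h1]
    exact V.mul_mem (V.mul_mem (V.mul_mem (V.pow_mem h.w_mem_V m) hf) hu₂) hu₁i
  obtain ⟨k, rfl⟩ : ∃ k, n₁ = n₂ + k := ⟨n₁ - n₂, by omega⟩
  -- `f = w ^ k * (t₁ s₂) / (s₁ t₂)`
  have hfe : f = w ^ k * ((t₁ * s₂) * (s₁ * t₂)⁻¹) := by
    have h1 : b₁ = w ^ (n₂ + k) * t₁ * s₁⁻¹ := by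
      rw [← he₁]
      field_simp
    have h2 : b₂ = w ^ n₂ * t₂ * s₂⁻¹ := by
      rw [← he₂]
      field_simp
    have h3 : f = b₁ * b₂⁻¹ := by
      rw [← he]
      field_simp
    rw [h3, h1, h2, pow_add]
    field_simp
  have hC : Cong V O w f := by
    rw [hfe]
    refine Cong.mul h ?_ (Cong.mul h (Cong.mul h (h.cong_of_mem_closure ht₁)
      (h.cong_of_mem_closure hs₂)) ?_)
    · exact Cong.of_O (O.pow_mem h.w_mem k)
    · refine Cong.inv h (Cong.mul h (h.cong_of_mem_closure hs₁) (h.cong_of_mem_closure ht₂))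
        (mul_ne_zero hs₁0 ht₂0) ?_
      rw [mul_inv]
      exact V.mul_mem hs₁i ht₂i
  exact hC

end ResOneData

end Fermat.Agent.A2.Mod.H378

end
-- ===== PACK-END A2/Mod/H378/L11Abstract.lean

-- ===== PACK-BEGIN S35/H558/FixCore.lean
section


/-!
# S35 / FROB — leaf FIX, abstract core (helper558), Mathlib only

*Nodes are fixed by the square of a Frobenius lift.*

Setting: two ring homomorphisms `α β : A →+* B` (the two degeneracy maps between the charts of
levels `M` and `Mq`), two ideals `P₁ P₂` of `B` (the two components of the special fibre), a ring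
endomorphism `ψ` of `A` (the action of `σ⁻¹` on coefficients, `σ` a Frobenius lift) with the
PRECISE semilinear Kronecker congruences

    β a ≡ (α (ψ a)) ^ q  mod P₁,        α a ≡ (β (ψ a)) ^ q  mod P₂,

ring endomorphisms `Φ` of `B` and `Φ₀` of `A` (the action of `σ²`) with `Φ ∘ α = α ∘ Φ₀`,
`ψ ∘ ψ ∘ Φ₀ = id`, `Φ P₁ ⊆ P₁`, and `B = α A + P₁` (the first component is parametrised by `α`).

Then for every ideal `n ⊇ P₁ + P₂` (a NODE):

* `frob_sq_sub_pow_mem`  : `Φ b - b ^ (q ^ 2) ∈ n` for every `b : B`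
                           (`Φ` induces the `q²`-Frobenius on `B / n`);
* `frob_sq_mem`          : `b ∈ n → Φ b ∈ n`   (`Φ n ⊆ n`: the node is fixed);
* `frob_sq_mem_iff`      : `Φ b ∈ n ↔ b ∈ n` for prime `n`.

No noetherian hypothesis, no normality, nothing about valuations.
-/

set_option autoImplicit false

namespace Fermat.Agent.S35.H558

variable {A B : Type*} [CommRing A] [CommRing B]

/-- `x - y ∈ n` implies `x ^ k - y ^ k ∈ n` (`x - y ∣ x ^ k - y ^ k`). -/
theorem pow_sub_pow_mem_fix {n : Ideal B} {x y : B} (h : x - y ∈ n) (k : ℕ) :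
    x ^ k - y ^ k ∈ n := by
  obtain ⟨c, hc⟩ := sub_dvd_pow_sub_pow x y k
  rw [hc]
  exact n.mul_mem_right c h

section Core

variable {q : ℕ} {α β : A →+* B} {P₁ P₂ n : Ideal B} {ψ Φ₀ : A →+* A} {Φ : B →+* B}

/-- **Two Kronecker steps at a node**: `α a ≡ (α (ψ (ψ a))) ^ (q ^ 2)` modulo `n ⊇ P₁ + P₂`. -/
theorem alpha_sub_pow_sq_mem (hP₁ : P₁ ≤ n) (hP₂ : P₂ ≤ n)
    (hK₁ : ∀ a : A, β a - (α (ψ a)) ^ q ∈ P₁) (hK₂ : ∀ a : A, α a - (β (ψ a)) ^ q ∈ P₂)
    (a : A) : α a - (α (ψ (ψ a))) ^ (q ^ 2) ∈ n := by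
  have h1 : α a - (β (ψ a)) ^ q ∈ n := hP₂ (hK₂ a)
  have h2 : β (ψ a) - (α (ψ (ψ a))) ^ q ∈ n := hP₁ (hK₁ (ψ a))
  have h3 : (β (ψ a)) ^ q - ((α (ψ (ψ a))) ^ q) ^ q ∈ n := pow_sub_pow_mem_fix h2 q
  have h4 : α a - (α (ψ (ψ a))) ^ (q ^ 2) =
      (α a - (β (ψ a)) ^ q) + ((β (ψ a)) ^ q - ((α (ψ (ψ a))) ^ q) ^ q) := by
    rw [pow_two, pow_mul]
    ring
  rw [h4]
  exact n.add_mem h1 h3

/-- **FIX, core.**  `Φ` (the square of a Frobenius lift) induces the `q²`-power map on `B / n`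
for every ideal `n ⊇ P₁ + P₂` (the characteristic plays no role here). -/
theorem frob_sq_sub_pow_mem (hP₁ : P₁ ≤ n) (hP₂ : P₂ ≤ n)
    (hK₁ : ∀ a : A, β a - (α (ψ a)) ^ q ∈ P₁) (hK₂ : ∀ a : A, α a - (β (ψ a)) ^ q ∈ P₂)
    (hΦα : ∀ a : A, Φ (α a) = α (Φ₀ a)) (hψΦ : ∀ a : A, ψ (ψ (Φ₀ a)) = a)
    (hΦP : ∀ p ∈ P₁, Φ p ∈ P₁) (hsurj : ∀ b : B, ∃ a : A, b - α a ∈ P₁) (b : B) :
    Φ b - b ^ (q ^ 2) ∈ n := by
  obtain ⟨a, ha⟩ := hsurj b
  -- `Φ b ≡ Φ (α a) = α (Φ₀ a) ≡ (α a) ^ (q²) ≡ b ^ (q²)`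
  have h1 : Φ b - α (Φ₀ a) ∈ n := by
    have := hΦP _ ha
    rw [map_sub, hΦα] at this
    exact hP₁ this
  have h2 : α (Φ₀ a) - (α a) ^ (q ^ 2) ∈ n := by
    have := alpha_sub_pow_sq_mem (q := q) hP₁ hP₂ hK₁ hK₂ (Φ₀ a)
    rwa [hψΦ] at this
  have h3 : b ^ (q ^ 2) - (α a) ^ (q ^ 2) ∈ n := by
    have hb : b - α a ∈ n := hP₁ ha
    exact pow_sub_pow_mem_fix hb (q ^ 2)
  have h4 : Φ b - b ^ (q ^ 2) =
      (Φ b - α (Φ₀ a)) + (α (Φ₀ a) - (α a) ^ (q ^ 2)) - (b ^ (q ^ 2) - (α a) ^ (q ^ 2)) := by ring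
  rw [h4]
  exact n.sub_mem (n.add_mem h1 h2) h3

/-- **FIX.**  Every node `n ⊇ P₁ + P₂` is mapped into itself by `Φ`. -/
theorem frob_sq_mem (hq0 : 0 < q) (hP₁ : P₁ ≤ n) (hP₂ : P₂ ≤ n)
    (hK₁ : ∀ a : A, β a - (α (ψ a)) ^ q ∈ P₁) (hK₂ : ∀ a : A, α a - (β (ψ a)) ^ q ∈ P₂)
    (hΦα : ∀ a : A, Φ (α a) = α (Φ₀ a)) (hψΦ : ∀ a : A, ψ (ψ (Φ₀ a)) = a)
    (hΦP : ∀ p ∈ P₁, Φ p ∈ P₁) (hsurj : ∀ b : B, ∃ a : A, b - α a ∈ P₁)
    {b : B} (hb : b ∈ n) : Φ b ∈ n := by
  have h1 := frob_sq_sub_pow_mem hP₁ hP₂ hK₁ hK₂ hΦα hψΦ hΦP hsurj b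
  have h2 : b ^ (q ^ 2) ∈ n := n.pow_mem_of_mem hb _ (pow_pos hq0 2)
  have h3 : Φ b = (Φ b - b ^ (q ^ 2)) + b ^ (q ^ 2) := by ring
  rw [h3]
  exact n.add_mem h1 h2

/-- **FIX, iff form** for a prime (e.g. maximal) node. -/
theorem frob_sq_mem_iff [n.IsPrime] (hP₁ : P₁ ≤ n) (hP₂ : P₂ ≤ n)
    (hK₁ : ∀ a : A, β a - (α (ψ a)) ^ q ∈ P₁) (hK₂ : ∀ a : A, α a - (β (ψ a)) ^ q ∈ P₂)
    (hΦα : ∀ a : A, Φ (α a) = α (Φ₀ a)) (hψΦ : ∀ a : A, ψ (ψ (Φ₀ a)) = a)
    (hΦP : ∀ p ∈ P₁, Φ p ∈ P₁) (hsurj : ∀ b : B, ∃ a : A, b - α a ∈ P₁) (b : B) :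
    Φ b ∈ n ↔ b ∈ n := by
  refine ⟨fun h => ?_, fun h => ?_⟩
  swap
  · rcases Nat.eq_zero_or_pos q with h0 | hq0
    · -- `q = 0`: `b ^ (0 ^ 2) = 1`, so `Φ b - 1 ∈ n`; impossible for `b ∈ n` unless trivial
      have h1 := frob_sq_sub_pow_mem hP₁ hP₂ hK₁ hK₂ hΦα hψΦ hΦP hsurj (0 : B)
      rw [h0] at h1
      simp at h1
      exact absurd ((Ideal.eq_top_iff_one n).mpr h1) (Ideal.IsPrime.ne_top inferInstance)
    · exact frob_sq_mem hq0 hP₁ hP₂ hK₁ hK₂ hΦα hψΦ hΦP hsurj h
  have h1 := frob_sq_sub_pow_mem hP₁ hP₂ hK₁ hK₂ hΦα hψΦ hΦP hsurj b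
  have h2 : b ^ (q ^ 2) ∈ n := by
    have h3 : b ^ (q ^ 2) = Φ b - (Φ b - b ^ (q ^ 2)) := by ring
    rw [h3]
    exact n.sub_mem h h1
  exact Ideal.IsPrime.mem_of_pow_mem inferInstance _ h2

/-- `Φ` maps `n` ONTO `n` when `Φ` is bijective: `Ideal.map`/`comap` form. -/
theorem frob_sq_comap_eq [n.IsPrime] (hP₁ : P₁ ≤ n) (hP₂ : P₂ ≤ n)
    (hK₁ : ∀ a : A, β a - (α (ψ a)) ^ q ∈ P₁) (hK₂ : ∀ a : A, α a - (β (ψ a)) ^ q ∈ P₂)
    (hΦα : ∀ a : A, Φ (α a) = α (Φ₀ a)) (hψΦ : ∀ a : A, ψ (ψ (Φ₀ a)) = a)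
    (hΦP : ∀ p ∈ P₁, Φ p ∈ P₁) (hsurj : ∀ b : B, ∃ a : A, b - α a ∈ P₁) :
    n.comap Φ = n := by
  ext b
  rw [Ideal.mem_comap]
  exact frob_sq_mem_iff hP₁ hP₂ hK₁ hK₂ hΦα hψΦ hΦP hsurj b

end Core

end Fermat.Agent.S35.H558

end
-- ===== PACK-END S35/H558/FixCore.lean

-- ===== PACK-BEGIN A2/Mod/H816/L3Poly.lean
section


/-!
# A2 / MOD leaf L3, part 1 (helper816): a nonzero polynomial does not vanish at a polar series

`eval₂_C_ne_zero_of_polar`: over a field `k`, if `U ∈ k((t))` has a pole of exact order `a > 0`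
(`U.coeff n = 0` for `n < -a`, `U.coeff (-a) ≠ 0`) and `g ∈ k[X]` is nonzero, then `g(U) ≠ 0`;
more precisely the coefficient of `t^(-a·deg g)` in `g(U)` is `lc(g) · U.coeff(-a)^(deg g)`.
-/

set_option autoImplicit false

noncomputable section

namespace Fermat.Agent.A2.Mod.H816

open HahnSeries Polynomial

variable {k : Type*} [Field k]

/-- The order of a series with lowest term in degree `-a`. -/
theorem order_eq_of_polar {U : LaurentSeries k} {a : ℤ}
    (h0 : ∀ n : ℤ, n < a → U.coeff n = 0) (h1 : U.coeff a ≠ 0) : U.order = a := by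
  have hU : U ≠ 0 := by
    rintro rfl
    exact h1 (by simp)
  apply le_antisymm
  · exact order_le_of_coeff_ne_zero h1
  · by_contra hlt
    push Not at hlt
    exact (HahnSeries.coeff_order_eq_zero.not.mpr hU) (h0 _ hlt)

theorem ne_zero_of_polar {U : LaurentSeries k} {a : ℤ} (h1 : U.coeff a ≠ 0) : U ≠ 0 := by
  rintro rfl
  exact h1 (by simp)

/-- coefficients of powers of a series of order `a`. -/
theorem coeff_pow_of_lt {U : LaurentSeries k} {a : ℤ}
    (h0 : ∀ n : ℤ, n < a → U.coeff n = 0) (h1 : U.coeff a ≠ 0) (i : ℕ) {n : ℤ}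
    (hn : n < i * a) : (U ^ i).coeff n = 0 := by
  apply HahnSeries.coeff_eq_zero_of_lt_order
  rw [HahnSeries.order_pow, order_eq_of_polar h0 h1, nsmul_eq_mul]
  exact hn

/-- leading coefficient of powers of a series of order `a`. -/
theorem coeff_pow_order {U : LaurentSeries k} {a : ℤ}
    (h0 : ∀ n : ℤ, n < a → U.coeff n = 0) (h1 : U.coeff a ≠ 0) (i : ℕ) :
    (U ^ i).coeff (i * a) = U.coeff a ^ i := by
  induction i with
  | zero => simp
  | succ i ih =>
    have hU := order_eq_of_polar h0 h1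
    have hUi : (U ^ i).order = i * a := by
      rw [HahnSeries.order_pow, hU, nsmul_eq_mul]
    have key := HahnSeries.coeff_mul_order_add_order (U ^ i) U
    rw [HahnSeries.leadingCoeff_eq, HahnSeries.leadingCoeff_eq, hUi, hU, ih] at key
    rw [pow_succ, pow_succ]
    have : ((i + 1 : ℕ) : ℤ) * a = i * a + a := by push_cast; ring
    rw [this]
    exact key

/-- **Non-vanishing at a polar series.** -/
theorem coeff_eval₂_C_of_polar {U : LaurentSeries k} {a : ℤ} (ha : a < 0)
    (h0 : ∀ n : ℤ, n < a → U.coeff n = 0) (h1 : U.coeff a ≠ 0) (g : k[X]) :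
    (g.eval₂ (HahnSeries.C : k →+* LaurentSeries k) U).coeff (g.natDegree * a) =
      g.leadingCoeff * U.coeff a ^ g.natDegree := by
  rw [Polynomial.eval₂_eq_sum_range, HahnSeries.coeff_sum]
  rw [Finset.sum_eq_single g.natDegree]
  · rw [HahnSeries.C_mul_eq_smul, HahnSeries.coeff_smul, coeff_pow_order h0 h1, smul_eq_mul]
    rfl
  · intro i hi hne
    have hlt : i < g.natDegree := by
      have := Finset.mem_range.mp hi
      omega
    rw [HahnSeries.C_mul_eq_smul, HahnSeries.coeff_smul, coeff_pow_of_lt h0 h1 i, smul_zero]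
    have h2 : ((i : ℤ)) < (g.natDegree : ℤ) := by exact_mod_cast hlt
    nlinarith
  · intro h
    exact absurd (Finset.mem_range.mpr (Nat.lt_succ_self _)) h

theorem eval₂_C_ne_zero_of_polar {U : LaurentSeries k} {a : ℤ} (ha : a < 0)
    (h0 : ∀ n : ℤ, n < a → U.coeff n = 0) (h1 : U.coeff a ≠ 0) {g : k[X]} (hg : g ≠ 0) :
    g.eval₂ (HahnSeries.C : k →+* LaurentSeries k) U ≠ 0 := by
  intro h
  have := coeff_eval₂_C_of_polar ha h0 h1 g
  rw [h, HahnSeries.coeff_zero] at this
  have h2 : g.leadingCoeff * U.coeff a ^ g.natDegree ≠ 0 :=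
    mul_ne_zero (Polynomial.leadingCoeff_ne_zero.mpr hg) (pow_ne_zero _ h1)
  exact h2 this.symm

end Fermat.Agent.A2.Mod.H816

end

end
-- ===== PACK-END A2/Mod/H816/L3Poly.lean

-- ===== PACK-BEGIN S18/H754/DivisorPow.lean
section


/-!
# S18 / Route K / étale Kummer cover, piece P2 (helper754)

In a UFD `R` with fraction field `F`: if `u ∈ Fˣ` is, at every prime element `π`, a `π`-unit times
a `p`-th power, then `u` is a unit of `R` times a `p`-th power.
-/

set_option autoImplicit false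

noncomputable section

namespace Fermat.Agent.S18.H754

section P2

variable {R : Type*} [CommRing R] [IsDomain R]
  {F : Type*} [Field F] [Algebra R F] [IsFractionRing R F]

/-- `u` is a `π`-adic unit times a `p`-th power. -/
def LocallyPow (R : Type*) [CommRing R] {F : Type*} [Field F] [Algebra R F]
    (p : ℕ) (u : F) (π : R) : Prop :=
  ∃ t : F, ∃ a b : R, ¬ π ∣ a ∧ ¬ π ∣ b ∧ u * t ^ p * algebraMap R F b = algebraMap R F a

omit [IsDomain R] [IsFractionRing R F] in
lemma LocallyPow.mul_pow {p : ℕ} {u : F} {π : R} (h : LocallyPow R p u π) {c : F} (hc : c ≠ 0) :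
    LocallyPow R p (u * c ^ p) π := by
  obtain ⟨t, a, b, ha, hb, h⟩ := h
  refine ⟨t / c, a, b, ha, hb, ?_⟩
  rw [← h, div_pow]
  field_simp

omit [IsDomain R] in
lemma LocallyPow.inv {p : ℕ} {u : F} {π : R} (hu : u ≠ 0) (h : LocallyPow R p u π) :
    LocallyPow R p u⁻¹ π := by
  obtain ⟨t, a, b, ha, hb, h⟩ := h
  refine ⟨t⁻¹, b, a, hb, ha, ?_⟩
  by_cases hp : p = 0
  · subst hp
    simp only [pow_zero, mul_one] at h ⊢
    rw [← h]
    field_simp
  · have ht : t ≠ 0 := by
      rintro rfl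
      rw [zero_pow hp, mul_zero, zero_mul] at h
      have ha0 : a = 0 := IsFractionRing.injective R F (by rw [← h, map_zero])
      exact ha (ha0 ▸ dvd_zero π)
    rw [← h, inv_pow]
    field_simp

variable [UniqueFactorizationMonoid R]

/-- the key divisibility: a prime dividing the numerator but not the denominator of a locally
`p`-th power divides the numerator at least `p` times. -/
lemma pow_dvd_of_locallyPow {p : ℕ} {π : R} (hπ : Prime π) {a b : R} (ha : a ≠ 0) (hb : b ≠ 0)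
    (hπa : π ∣ a) (hπb : ¬ π ∣ b)
    (h : LocallyPow R p (algebraMap R F a / algebraMap R F b) π) : π ^ p ∣ a := by
  obtain ⟨t, a', b', ha', hb', h⟩ := h
  have ha'0 : a' ≠ 0 := fun h0 => ha' (h0 ▸ dvd_zero π)
  have hb'0 : b' ≠ 0 := fun h0 => hb' (h0 ▸ dvd_zero π)
  obtain ⟨c, d, hd, rfl⟩ := IsFractionRing.div_surjective (A := R) t
  have hd0 : d ≠ 0 := nonZeroDivisors.ne_zero hd
  have hinj := IsFractionRing.injective R F
  have hbF : algebraMap R F b ≠ 0 := fun h0 => hb (hinj (by rw [h0, map_zero]))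
  have hdF : algebraMap R F d ≠ 0 := fun h0 => hd0 (hinj (by rw [h0, map_zero]))
  have hc0 : c ≠ 0 := by
    rintro rfl
    by_cases hp : p = 0
    · subst hp
      simp only [pow_zero, mul_one] at h
      -- `a * b' = a' * b`
      have h2 : a * b' = a' * b := by
        apply hinj
        rw [map_mul, map_mul, ← h]
        field_simp
      have : π ∣ a' * b := h2 ▸ Dvd.dvd.mul_right hπa b'
      rcases hπ.dvd_or_dvd this with h3 | h3
      · exact ha' h3
      · exact hπb h3
    · rw [map_zero, zero_div, zero_pow hp, mul_zero, zero_mul] at h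
      exact ha'0 (hinj (by rw [← h, map_zero]))
  have heq : a * c ^ p * b' = a' * b * d ^ p := by
    apply hinj
    simp only [map_mul, map_pow]
    rw [← h, div_pow]
    field_simp
  -- multiplicities
  have hfin : ∀ x : R, x ≠ 0 → FiniteMultiplicity π x :=
    fun x hx => FiniteMultiplicity.of_prime_left hπ hx
  have e1 := congrArg (emultiplicity π) heq
  rw [emultiplicity_mul hπ, emultiplicity_mul hπ, emultiplicity_mul hπ, emultiplicity_mul hπ,
    emultiplicity_pow hπ, emultiplicity_pow hπ, emultiplicity_eq_zero.mpr ha',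
    emultiplicity_eq_zero.mpr hb', emultiplicity_eq_zero.mpr hπb,
    (hfin a ha).emultiplicity_eq_multiplicity, (hfin c hc0).emultiplicity_eq_multiplicity,
    (hfin d hd0).emultiplicity_eq_multiplicity] at e1
  have e2 : multiplicity π a + p * multiplicity π c = p * multiplicity π d := by
    have : ((multiplicity π a + p * multiplicity π c : ℕ) : ℕ∞) =
        ((p * multiplicity π d : ℕ) : ℕ∞) := by
      push_cast
      simpa using e1
    exact_mod_cast this
  have h1 : 1 ≤ multiplicity π a := by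
    rw [← (hfin a ha).pow_dvd_iff_le_multiplicity, pow_one]
    exact hπa
  have h2 : p ∣ multiplicity π a := by
    have : p ∣ multiplicity π a + p * multiplicity π c := ⟨multiplicity π d, e2⟩
    exact (Nat.dvd_add_left (Dvd.intro _ rfl)).mp this
  have h3 : p ≤ multiplicity π a := Nat.le_of_dvd h1 h2
  exact pow_dvd_of_le_multiplicity h3

lemma pow_dvd_of_locallyPow' {p : ℕ} {π : R} (hπ : Prime π) {a b : R} (ha : a ≠ 0) (hb : b ≠ 0)
    (hπa : ¬ π ∣ a) (hπb : π ∣ b)
    (h : LocallyPow R p (algebraMap R F a / algebraMap R F b) π) : π ^ p ∣ b := by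
  have hinj := IsFractionRing.injective R F
  have haF : algebraMap R F a ≠ 0 := fun h0 => ha (hinj (by rw [h0, map_zero]))
  have hbF : algebraMap R F b ≠ 0 := fun h0 => hb (hinj (by rw [h0, map_zero]))
  have h' := h.inv (div_ne_zero haF hbF)
  rw [inv_div] at h'
  exact pow_dvd_of_locallyPow hπ hb ha hπb hπa h'

/-- **P2.** In a UFD, an element of the fraction field which is locally (at every prime element)
a unit times a `p`-th power is a unit times a `p`-th power. -/
theorem exists_unit_mul_pow_aux (p : ℕ) (hp : 0 < p) :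
    ∀ x : R, x ≠ 0 → ∀ a b : R, a * b = x →
      (∀ π : R, Prime π → LocallyPow R p (algebraMap R F a / algebraMap R F b) π) →
      ∃ s : F, s ≠ 0 ∧ ∃ w : Rˣ,
        algebraMap R F a / algebraMap R F b * s ^ p = algebraMap R F w := by
  intro x
  refine WellFounded.induction (wellFounded_dvdNotUnit (α := R))
    (C := fun x => x ≠ 0 → ∀ a b : R, a * b = x →
      (∀ π : R, Prime π → LocallyPow R p (algebraMap R F a / algebraMap R F b) π) →
      ∃ s : F, s ≠ 0 ∧ ∃ w : Rˣ,
        algebraMap R F a / algebraMap R F b * s ^ p = algebraMap R F w) x ?_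
  intro x ih hx a b hab H
  have hinj := IsFractionRing.injective R F
  have ha : a ≠ 0 := fun h0 => hx (by rw [← hab, h0, zero_mul])
  have hb : b ≠ 0 := fun h0 => hx (by rw [← hab, h0, mul_zero])
  have haF : algebraMap R F a ≠ 0 := fun h0 => ha (hinj (by rw [h0, map_zero]))
  have hbF : algebraMap R F b ≠ 0 := fun h0 => hb (hinj (by rw [h0, map_zero]))
  by_cases hxu : IsUnit x
  · -- both `a` and `b` are units
    have hau : IsUnit a := isUnit_of_mul_isUnit_left (hab ▸ hxu)
    have hbu : IsUnit b := isUnit_of_mul_isUnit_right (hab ▸ hxu)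
    obtain ⟨ua, hua⟩ := hau
    obtain ⟨ub, hub⟩ := hbu
    refine ⟨1, one_ne_zero, ua * ub⁻¹, ?_⟩
    rw [one_pow, mul_one, Units.val_mul, map_mul, ← hua, ← hub, div_eq_mul_inv, map_units_inv]
  · obtain ⟨π, hπirr, hπx⟩ := WfDvdMonoid.exists_irreducible_factor hxu hx
    have hπ : Prime π := UniqueFactorizationMonoid.irreducible_iff_prime.mp hπirr
    have hπF : algebraMap R F π ≠ 0 := fun h0 => hπ.ne_zero (hinj (by rw [h0, map_zero]))
    by_cases hπa : π ∣ a
    · by_cases hπb : π ∣ b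
      · -- cancel `π`
        obtain ⟨a₁, rfl⟩ := hπa
        obtain ⟨b₁, rfl⟩ := hπb
        have ha₁ : a₁ ≠ 0 := right_ne_zero_of_mul ha
        have hb₁ : b₁ ≠ 0 := right_ne_zero_of_mul hb
        have hlt : DvdNotUnit (a₁ * b₁) x := by
          refine ⟨mul_ne_zero ha₁ hb₁, π * π, ?_, ?_⟩
          · intro hu
            exact hπ.not_unit (isUnit_of_mul_isUnit_left hu)
          · rw [← hab]; ring
        have hquot : algebraMap R F (π * a₁) / algebraMap R F (π * b₁) =
            algebraMap R F a₁ / algebraMap R F b₁ := by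
          rw [map_mul, map_mul]
          field_simp
        rw [hquot] at H ⊢
        exact ih (a₁ * b₁) hlt (mul_ne_zero ha₁ hb₁) a₁ b₁ rfl H
      · -- `π ^ p ∣ a`
        obtain ⟨a₂, rfl⟩ := pow_dvd_of_locallyPow hπ ha hb hπa hπb (H π hπ)
        have ha₂ : a₂ ≠ 0 := right_ne_zero_of_mul ha
        have hlt : DvdNotUnit (a₂ * b) x := by
          refine ⟨mul_ne_zero ha₂ hb, π ^ p, ?_, ?_⟩
          · intro hu
            exact hπ.not_unit (isUnit_of_dvd_unit (dvd_pow_self π hp.ne') hu)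
          · rw [← hab]; ring
        have hquot : algebraMap R F a₂ / algebraMap R F b =
            algebraMap R F (π ^ p * a₂) / algebraMap R F b * ((algebraMap R F π)⁻¹) ^ p := by
          rw [map_mul, map_pow, inv_pow]
          field_simp
        have H' : ∀ π' : R, Prime π' →
            LocallyPow R p (algebraMap R F a₂ / algebraMap R F b) π' := by
          intro π' hπ'
          rw [hquot]
          exact (H π' hπ').mul_pow (inv_ne_zero hπF)
        obtain ⟨s, hs, w, hw⟩ := ih (a₂ * b) hlt (mul_ne_zero ha₂ hb) a₂ b rfl H'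
        refine ⟨s * (algebraMap R F π)⁻¹, mul_ne_zero hs (inv_ne_zero hπF), w, ?_⟩
        rw [← hw, hquot]
        ring
    · have hπb : π ∣ b := by
        rcases hπ.dvd_or_dvd (hab ▸ hπx) with h | h
        · exact absurd h hπa
        · exact h
      obtain ⟨b₂, rfl⟩ := pow_dvd_of_locallyPow' hπ ha hb hπa hπb (H π hπ)
      have hb₂ : b₂ ≠ 0 := right_ne_zero_of_mul hb
      have hlt : DvdNotUnit (a * b₂) x := by
        refine ⟨mul_ne_zero ha hb₂, π ^ p, ?_, ?_⟩
        · intro hu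
          exact hπ.not_unit (isUnit_of_dvd_unit (dvd_pow_self π hp.ne') hu)
        · rw [← hab]; ring
      have hb₂F : algebraMap R F b₂ ≠ 0 := fun h0 => hb₂ (hinj (by rw [h0, map_zero]))
      have hquot : algebraMap R F a / algebraMap R F b₂ =
          algebraMap R F a / algebraMap R F (π ^ p * b₂) * (algebraMap R F π) ^ p := by
        rw [map_mul, map_pow]
        field_simp
      have H' : ∀ π' : R, Prime π' →
          LocallyPow R p (algebraMap R F a / algebraMap R F b₂) π' := by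
        intro π' hπ'
        rw [hquot]
        exact (H π' hπ').mul_pow hπF
      obtain ⟨s, hs, w, hw⟩ := ih (a * b₂) hlt (mul_ne_zero ha hb₂) a b₂ rfl H'
      refine ⟨s * algebraMap R F π, mul_ne_zero hs hπF, w, ?_⟩
      rw [← hw, hquot]
      ring

theorem exists_unit_mul_pow (p : ℕ) (hp : 0 < p) (u : F) (hu : u ≠ 0)
    (H : ∀ π : R, Prime π → LocallyPow R p u π) :
    ∃ s : F, s ≠ 0 ∧ ∃ w : Rˣ, u * s ^ p = algebraMap R F w := by
  obtain ⟨a, b, hb, rfl⟩ := IsFractionRing.div_surjective (A := R) u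
  have hb0 : b ≠ 0 := nonZeroDivisors.ne_zero hb
  have ha0 : a ≠ 0 := by
    rintro rfl
    rw [map_zero, zero_div] at hu
    exact hu rfl
  exact exists_unit_mul_pow_aux p hp (a * b) (mul_ne_zero ha0 hb0) a b rfl H

end P2

end Fermat.Agent.S18.H754

end

end
-- ===== PACK-END S18/H754/DivisorPow.lean

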