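import Fermat.Prelude.Def_ModularCurve_JqCoeff
import Fermat.Prelude.Def_ModularCurve_HeckeModule
import Fermat.Prelude.Def_EllipticCurve_FrobeniusTrace
import Mathlib
import Fermat.Prelude.Def_ModularCurve_PeriodHomPair
import Fermat.Statements.S21
import Fermat.Prelude.Thm_ModularFormClass_heckeT_heckeU_comm
import Fermat.Prelude.Thm_CongruenceSubgroup_one_mem_strictPeriods_Gamma0
import Fermat.Prelude.Def_ModularCurve_ReductionModL
import Mathlib.GroupTheory.Index
import Mathlib.SetTheory.Cardinal.NatCard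
import Mathlib.SetTheory.Cardinal.Finite
import Mathlib.Data.Nat.Factorization.Induction
import Mathlib.Algebra.Squarefree.Basic
import Mathlib.Data.Nat.Squarefree
import Fermat.Prelude.Def_ModularCurve_ArithmeticGalois
import Fermat.Prelude.Def_ModularCurve_X0ModL
import Mathlib.Algebra.Polynomial.Degree.Lemmas
import Mathlib.Algebra.Polynomial.Monic
import Mathlib.Tactic.FieldSimp
import Mathlib.Tactic.Ring
import Mathlib.Tactic.FinCases
import Fermat.Agent.Pack.S35.G0E0L3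
import Fermat.Agent.Pack.S35.G0E0L2
import Fermat.Agent.Pack.S35.G0E0L0
import Fermat.Agent.Pack.S35.G0E0L1

-- ===== PACK-BEGIN S55/H414/CycloLevel.lean
section


/-!
# S55, leaf CYC-INF (helper414), part 1: the cyclotomic levels `ℚ(ζ_N) ⊆ ℚ̄`

For `N ≠ 0` we define `cycloLevel N = ℚ(ζ_N)` as an intermediate field of `ℚ̄/ℚ`, show that it is
Galois with commutative Galois group, and that it is unramified at every prime not dividing `N`
(in the Prelude sense: inertia groups of valuation subrings of `ℚ̄` fix it pointwise).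
-/

set_option autoImplicit false

namespace Fermat.Agent.S55.H414

open ExtCitation Fermat.Agent.S55.Bridge

/-- A chosen primitive `N`-th root of unity in `ℚ̄`. -/
noncomputable def zetaBar (N : ℕ) [NeZero N] : AlgebraicClosure ℚ :=
  (HasEnoughRootsOfUnity.exists_primitiveRoot (AlgebraicClosure ℚ) N).choose

theorem zetaBar_spec (N : ℕ) [NeZero N] : IsPrimitiveRoot (zetaBar N) N :=
  (HasEnoughRootsOfUnity.exists_primitiveRoot (AlgebraicClosure ℚ) N).choose_spec

/-- The cyclotomic field `ℚ(ζ_N)` inside `ℚ̄`. -/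
noncomputable def cycloLevel (N : ℕ) [NeZero N] : IntermediateField ℚ (AlgebraicClosure ℚ) :=
  IntermediateField.adjoin ℚ {zetaBar N}

theorem zetaBar_mem_cycloLevel (N : ℕ) [NeZero N] : zetaBar N ∈ cycloLevel N :=
  IntermediateField.subset_adjoin ℚ _ rfl

instance isCyclotomicExtension_cycloLevel (N : ℕ) [NeZero N] :
    IsCyclotomicExtension {N} ℚ (cycloLevel N) :=
  haveI : Algebra.IsAlgebraic ℚ (AlgebraicClosure ℚ) := AlgebraicClosure.isAlgebraic ℚ
  haveI : Algebra.IsIntegral ℚ (AlgebraicClosure ℚ) := Algebra.IsAlgebraic.isIntegral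
  (zetaBar_spec N).intermediateField_adjoin_isCyclotomicExtension ℚ

instance finiteDimensional_cycloLevel (N : ℕ) [NeZero N] :
    FiniteDimensional ℚ (cycloLevel N) :=
  IsCyclotomicExtension.finiteDimensional {N} ℚ (cycloLevel N)

instance isGalois_cycloLevel (N : ℕ) [NeZero N] : IsGalois ℚ (cycloLevel N) :=
  IsCyclotomicExtension.isGalois {N} ℚ (cycloLevel N)

/-- An automorphism of `ℚ̄` fixes `ℚ(ζ_N)` pointwise iff it fixes `ζ_N`. -/
theorem mem_fixingSubgroup_cycloLevel_iff (N : ℕ) [NeZero N]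
    (σ : AlgebraicClosure ℚ ≃ₐ[ℚ] AlgebraicClosure ℚ) :
    σ ∈ (cycloLevel N).fixingSubgroup ↔ σ (zetaBar N) = zetaBar N := by
  constructor
  · intro h
    exact (IntermediateField.mem_fixingSubgroup_iff _ σ).1 h _ (zetaBar_mem_cycloLevel N)
  · intro h
    rw [IntermediateField.mem_fixingSubgroup_iff]
    intro x hx
    have hle : cycloLevel N ≤ IntermediateField.fixedField (Subgroup.zpowers σ) := by
      rw [cycloLevel, IntermediateField.adjoin_le_iff]
      rintro y rfl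
      rw [SetLike.mem_coe, IntermediateField.mem_fixedField_iff]
      intro τ hτ
      obtain ⟨k, rfl⟩ := Subgroup.mem_zpowers_iff.1 hτ
      have hfix : ∀ m : ℕ, (σ ^ m) (zetaBar N) = zetaBar N := by
        intro m
        induction m with
        | zero => simp
        | succ m ih => rw [pow_succ, AlgEquiv.mul_apply, h, ih]
      rcases Int.eq_nat_or_neg k with ⟨m, rfl | rfl⟩
      · rw [zpow_natCast]; exact hfix m
      · rw [zpow_neg, zpow_natCast]
        have := hfix m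
        calc (σ ^ m)⁻¹ (zetaBar N) = (σ ^ m)⁻¹ ((σ ^ m) (zetaBar N)) := by rw [this]
          _ = zetaBar N := by
            show ((σ ^ m)⁻¹ * (σ ^ m)) (zetaBar N) = zetaBar N
            rw [inv_mul_cancel]; rfl
    have := hle hx
    rw [IntermediateField.mem_fixedField_iff] at this
    exact this σ (Subgroup.mem_zpowers σ)

/-- Any `N`-th root of unity has valuation `1`. -/
theorem valuation_eq_one_of_pow_eq_one (A : ValuationSubring (AlgebraicClosure ℚ)) {N : ℕ}
    (hN : N ≠ 0) {a : AlgebraicClosure ℚ} (ha : a ^ N = 1) : A.valuation a = 1 := by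
  have h : (A.valuation a) ^ N = 1 := by rw [← map_pow, ha, map_one]
  exact (pow_eq_one_iff.1 h).resolve_right hN

/-- If `N` is a unit at `A` then `ℚ(ζ_N)` is fixed by the inertia group at `A`. -/
theorem inertia_le_fixingSubgroup_cycloLevel (N : ℕ) [NeZero N]
    (A : ValuationSubring (AlgebraicClosure ℚ))
    (hNv : A.valuation (N : AlgebraicClosure ℚ) = 1) :
    A.inertiaSubgroupIn ℚ ≤ (cycloLevel N).fixingSubgroup := by
  intro σ hσ
  rw [mem_fixingSubgroup_cycloLevel_iff]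
  by_contra hne
  have hz : zetaBar N ^ N = 1 := (zetaBar_spec N).pow_eq_one
  have hσz : (σ (zetaBar N)) ^ N = 1 := by rw [← map_pow, hz, map_one]
  have h1 := val_sub_roots_eq_one (A := A) (NeZero.ne N) hNv hσz hz hne
  have h2 := inertia_val_sub_lt_one A hσ (zetaBar N)
    (valuation_eq_one_of_pow_eq_one A (NeZero.ne N) hz).le
  rw [h1] at h2
  exact lt_irrefl _ h2

/-- `ℚ(ζ_{p^n})` is unramified outside every set of primes containing `p`. -/
theorem isUnramifiedOutside_cycloLevel (p : ℕ) [Fact p.Prime] (n : ℕ)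
    (S : Finset Nat.Primes) (hpS : pPrime p ∈ S) :
    (cycloLevel (p ^ n)).IsUnramifiedOutside S := by
  refine ⟨inferInstance, fun q hq A hA => ?_⟩
  apply inertia_le_fixingSubgroup_cycloLevel
  have hp : p.Prime := Fact.out
  have hqp : (q : ℕ) ≠ p := by
    rintro h
    apply hq
    have : q = pPrime p := Subtype.ext h
    rw [this]; exact hpS
  have := val_prime_eq_one (A := A) hA q.2 hp hqp
  rw [Nat.cast_pow, map_pow, this, one_pow]

end Fermat.Agent.S55.H414

end
-- ===== PACK-END S55/H414/CycloLevel.lean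

-- ===== PACK-BEGIN S55/H414/CycloPow.lean
section




/-!
# S55, leaf CYC-INF (helper414), part 3: the cyclotomic character mod `N` on `G_ℚ`, Frobenius

* `cycloPow N : G_ℚ →* (ZMod N)ˣ`, `σ ζ_N = ζ_N ^ (cycloPow N σ)`, with kernel the fixing subgroup
  of `ℚ(ζ_N)`;
* every valuation subring `A` of `ℚ̄` over a prime `q` has a Frobenius element
  (`exists_isFrobeniusAt`, the proof of `Fermat.Agent.S54.exists_frobenius` for a given `A`);
* a Frobenius element at `A | q`, `q ∤ N`, acts on `ζ_N` by `ζ ↦ ζ ^ q`;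
* hence for `q ≠ p` the local degree of `ℚ(ζ_{p^n})` at `A` is divisible by `p ^ k` for `n ≫ 0`.
-/

set_option autoImplicit false

namespace Fermat.Agent.S55.H414

open ExtCitation Fermat.Agent.S55.Bridge

/-- The cyclotomic character modulo `N` of `G_ℚ`. -/
noncomputable def cycloPow (N : ℕ) [NeZero N] :
    (AlgebraicClosure ℚ ≃ₐ[ℚ] AlgebraicClosure ℚ) →* (ZMod N)ˣ :=
  (zetaBar_spec N).autToPow ℚ

theorem cycloPow_spec (N : ℕ) [NeZero N] (σ : AlgebraicClosure ℚ ≃ₐ[ℚ] AlgebraicClosure ℚ) :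
    σ (zetaBar N) = zetaBar N ^ ((cycloPow N σ : (ZMod N)ˣ) : ZMod N).val :=
  ((zetaBar_spec N).autToPow_spec ℚ σ).symm

/-- Two powers of a primitive `N`-th root of unity agree iff the exponents agree in `ZMod N`. -/
theorem pow_eq_pow_iff_natCast_eq {R : Type*} [CommRing R] [IsDomain R] {ζ : R} {N : ℕ}
    [NeZero N] (hζ : IsPrimitiveRoot ζ N) (a b : ℕ) :
    ζ ^ a = ζ ^ b ↔ (a : ZMod N) = (b : ZMod N) := by
  obtain ⟨u, rfl⟩ := hζ.isUnit (NeZero.ne N)
  have hu : IsPrimitiveRoot u N := IsPrimitiveRoot.coe_units_iff.1 hζ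
  rw [ZMod.natCast_eq_natCast_iff, ← Units.val_pow_eq_pow_val, ← Units.val_pow_eq_pow_val,
    Units.val_inj, pow_eq_pow_iff_modEq, ← hu.eq_orderOf]

/-- Characterisation of the value of the cyclotomic character. -/
theorem cycloPow_eq_iff (N : ℕ) [NeZero N] (σ : AlgebraicClosure ℚ ≃ₐ[ℚ] AlgebraicClosure ℚ)
    (u : (ZMod N)ˣ) :
    cycloPow N σ = u ↔ σ (zetaBar N) = zetaBar N ^ (u : ZMod N).val := by
  rw [cycloPow_spec, pow_eq_pow_iff_natCast_eq (zetaBar_spec N), ZMod.natCast_zmod_val,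
    ZMod.natCast_zmod_val]
  exact Units.ext_iff

/-- If `σ ζ = ζ ^ a` then `cycloPow N σ` is the class of `a`. -/
theorem coe_cycloPow_of_apply_eq_pow (N : ℕ) [NeZero N]
    (σ : AlgebraicClosure ℚ ≃ₐ[ℚ] AlgebraicClosure ℚ) (a : ℕ)
    (h : σ (zetaBar N) = zetaBar N ^ a) :
    ((cycloPow N σ : (ZMod N)ˣ) : ZMod N) = (a : ZMod N) := by
  rw [cycloPow_spec, pow_eq_pow_iff_natCast_eq (zetaBar_spec N), ZMod.natCast_zmod_val] at h
  exact h

theorem ker_cycloPow (N : ℕ) [NeZero N] :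
    (cycloPow N).ker = (cycloLevel N).fixingSubgroup := by
  ext σ
  rw [MonoidHom.mem_ker, mem_fixingSubgroup_cycloLevel_iff, cycloPow_eq_iff]
  have h1 : zetaBar N ^ ((1 : (ZMod N)ˣ) : ZMod N).val = zetaBar N := by
    conv_rhs => rw [← pow_one (zetaBar N)]
    rw [pow_eq_pow_iff_natCast_eq (zetaBar_spec N), ZMod.natCast_zmod_val, Units.val_one,
      Nat.cast_one]
  rw [h1]

/-- The local degree `[D : D ∩ G_F]` for `F = ℚ(ζ_N)` is the order of the image of `D` under the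
cyclotomic character. -/
theorem relIndex_fixingSubgroup_cycloLevel (N : ℕ) [NeZero N]
    (D : Subgroup (AlgebraicClosure ℚ ≃ₐ[ℚ] AlgebraicClosure ℚ)) :
    (cycloLevel N).fixingSubgroup.relIndex D = Nat.card (D.map (cycloPow N)) := by
  rw [← ker_cycloPow, Subgroup.relIndex_ker]

/-- The local degree `[D : D ∩ G_F]` is the order of the image of `D` in `Gal(F/ℚ)`. -/
theorem relIndex_fixingSubgroup_eq_card_map_restrictNormalHom
    (F : IntermediateField ℚ (AlgebraicClosure ℚ)) [Normal ℚ F]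
    (D : Subgroup (AlgebraicClosure ℚ ≃ₐ[ℚ] AlgebraicClosure ℚ)) :
    F.fixingSubgroup.relIndex D = Nat.card (D.map (AlgEquiv.restrictNormalHom F)) := by
  have hker : (AlgEquiv.restrictNormalHom (F := ℚ) (K₁ := AlgebraicClosure ℚ) F).ker
      = F.fixingSubgroup := by
    ext x
    rw [MonoidHom.mem_ker, IntermediateField.mem_fixingSubgroup_iff]
    constructor
    · intro h a ha
      have h1 := AlgEquiv.restrictNormal_commutes x F ⟨a, ha⟩
      have h2 : x.restrictNormal F = 1 := h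
      rw [h2] at h1
      exact h1.symm
    · intro h
      apply AlgEquiv.ext
      intro a
      apply Subtype.ext
      have h1 := AlgEquiv.restrictNormal_commutes x F a
      have h2 := h a a.2
      exact h1.trans h2
  rw [← hker, Subgroup.relIndex_ker]

/-- Every valuation subring of `ℚ̄` over a prime number `ℓ` has a Frobenius element. -/
theorem exists_isFrobeniusAt (A : ValuationSubring (AlgebraicClosure ℚ)) (ℓ : ℕ) (hℓ : ℓ.Prime)
    (hA : A.LiesOverPrime ℓ) :
    ∃ σ : AlgebraicClosure ℚ ≃ₐ[ℚ] AlgebraicClosure ℚ, A.IsFrobeniusAt σ ℓ := by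
  open Fermat.Agent.S54 in
  open scoped Pointwise in
  have : Algebra.IsAlgebraic ℚ (AlgebraicClosure ℚ) := AlgebraicClosure.isAlgebraic ℚ
  have := primeBelow_isPrime A
  have hℓQ : (ℓ : integralClosure ℤ (AlgebraicClosure ℚ)) ∈ primeBelow A := by
    rw [mem_primeBelow]
    exact hA
  obtain ⟨σ, hσQ', hσF⟩ := exists_frob_integralClosure ℓ hℓ (primeBelow A) hℓQ
  have hσQ : ∀ x, σ • x ∈ primeBelow A ↔ x ∈ primeBelow A := by
    intro x
    conv_lhs => rw [← hσQ']
    exact Ideal.smul_mem_pointwise_smul_iff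
  have key : ∀ τ : AlgebraicClosure ℚ ≃ₐ[ℚ] AlgebraicClosure ℚ,
      (∀ x, τ • x ∈ primeBelow A ↔ x ∈ primeBelow A) → ∀ x ∈ A, τ x ∈ A := by
    intro τ hτ x hx
    obtain ⟨b, s, hb, hs, hsA, hxs⟩ := (mem_valuationSubring_iff A ℓ hℓ hA x).mp hx
    refine (mem_valuationSubring_iff A ℓ hℓ hA (τ x)).mpr
      ⟨τ b, τ s, hb.map τ, hs.map τ, ?_, ?_⟩
    · exact (hτ ⟨s, hs⟩).not.mpr hsA
    · rw [← map_mul, hxs]
  have hσA : σ ∈ A.decompositionSubgroup ℚ := by
    rw [MulAction.mem_stabilizer_iff]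
    ext x
    rw [ValuationSubring.mem_smul_pointwise_iff_exists]
    constructor
    · rintro ⟨s, hs, rfl⟩
      exact key σ hσQ s hs
    · intro hx
      refine ⟨σ⁻¹ • x, key σ⁻¹ ?_ x hx, by simp⟩
      intro y
      rw [← hσQ (σ⁻¹ • y)]
      simp
  refine ⟨σ, hσA, ?_⟩
  intro x
  obtain ⟨a, rfl⟩ := IsLocalRing.residue_surjective x
  obtain ⟨b, s, hb, hs, hsA, hxs⟩ := (mem_valuationSubring_iff A ℓ hℓ hA a).mp a.2
  have hbA : b ∈ A := isIntegral_mem_valuationSubring A hb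
  have hsA' : s ∈ A := isIntegral_mem_valuationSubring A hs
  have hint : ∀ (y : AlgebraicClosure ℚ) (hy : IsIntegral ℤ y),
      (⟨σ, hσA⟩ : A.decompositionSubgroup ℚ) •
        IsLocalRing.residue A ⟨y, isIntegral_mem_valuationSubring A hy⟩ =
      (IsLocalRing.residue A ⟨y, isIntegral_mem_valuationSubring A hy⟩) ^ ℓ := by
    intro y hy
    rw [← IsLocalRing.ResidueField.residue_smul, ← map_pow, ← sub_eq_zero, ← map_sub,
      IsLocalRing.residue_eq_zero_iff, ← ValuationSubring.coe_mem_nonunits_iff]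
    exact hσF ⟨y, hy⟩
  have h1 : IsLocalRing.residue A a * IsLocalRing.residue A ⟨s, hsA'⟩ =
      IsLocalRing.residue A ⟨b, hbA⟩ := by
    rw [← map_mul]
    congr 1
    exact Subtype.ext hxs
  have h2 : IsLocalRing.residue A ⟨s, hsA'⟩ ≠ 0 := by
    rw [Ne, IsLocalRing.residue_eq_zero_iff, ← ValuationSubring.coe_mem_nonunits_iff]
    exact hsA
  have h3 := congrArg (fun z => (⟨σ, hσA⟩ : A.decompositionSubgroup ℚ) • z) h1
  simp only [smul_mul'] at h3
  rw [hint s hs, hint b hb, ← h1, mul_pow] at h3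
  exact mul_right_cancel₀ (pow_ne_zero _ h2) h3

/-- A Frobenius element at `A` is congruent to the `q`-th power map on `A`. -/
theorem IsFrobeniusAt_val_sub_pow_lt_one {A : ValuationSubring (AlgebraicClosure ℚ)}
    {σ : AlgebraicClosure ℚ ≃ₐ[ℚ] AlgebraicClosure ℚ} {q : ℕ} (hσ : A.IsFrobeniusAt σ q)
    (z : AlgebraicClosure ℚ) (hz : z ∈ A) : A.valuation (σ z - z ^ q) < 1 := by
  obtain ⟨hσD, hF⟩ := hσ
  have h2 := hF (IsLocalRing.residue A ⟨z, hz⟩)
  rw [← IsLocalRing.ResidueField.residue_smul, ← map_pow] at h2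
  have h3 : ((⟨σ, hσD⟩ : A.decompositionSubgroup ℚ) • (⟨z, hz⟩ : A)) - (⟨z, hz⟩ : A) ^ q
      ∈ IsLocalRing.maximalIdeal A := by
    rw [← Ideal.Quotient.eq]
    exact h2
  rw [ValuationSubring.valuation_lt_one_iff] at h3
  exact h3

/-- A Frobenius element at `A | q` acts on `N`-th roots of unity (`N` a unit at `A`) by
`ζ ↦ ζ ^ q`. -/
theorem IsFrobeniusAt_apply_root {A : ValuationSubring (AlgebraicClosure ℚ)}
    {σ : AlgebraicClosure ℚ ≃ₐ[ℚ] AlgebraicClosure ℚ} {q : ℕ} (hσ : A.IsFrobeniusAt σ q)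
    {N : ℕ} (hN : N ≠ 0) (hNv : A.valuation (N : AlgebraicClosure ℚ) = 1)
    {z : AlgebraicClosure ℚ} (hz : z ^ N = 1) : σ z = z ^ q := by
  by_contra hne
  have hσz : (σ z) ^ N = 1 := by rw [← map_pow, hz, map_one]
  have hzq : (z ^ q) ^ N = 1 := by rw [← pow_mul, mul_comm, pow_mul, hz, one_pow]
  have h1 := val_sub_roots_eq_one (A := A) hN hNv hσz hzq hne
  have hzA : z ∈ A := (A.valuation_le_one_iff z).1 (valuation_eq_one_of_pow_eq_one A hN hz).le
  have h2 := IsFrobeniusAt_val_sub_pow_lt_one hσ z hzA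
  rw [h1] at h2
  exact lt_irrefl _ h2

/-- **CYC-INF, case `q ≠ p`.** For a valuation subring `A` of `ℚ̄` over a prime `q ≠ p` and every
`k`, for all large `n` the local degree at `A` of `ℚ(ζ_{p^n})/ℚ` is divisible by `p ^ k`. -/
theorem exists_forall_pow_dvd_relIndex_of_ne (p : ℕ) [Fact p.Prime] (q : ℕ) (hq : q.Prime)
    (hqp : q ≠ p) (A : ValuationSubring (AlgebraicClosure ℚ)) (hA : A.LiesOverPrime q) (k : ℕ) :
    ∃ n₀ : ℕ, ∀ n, n₀ ≤ n →
      p ^ k ∣ (cycloLevel (p ^ n)).fixingSubgroup.relIndex (A.decompositionSubgroup ℚ) := by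
  have hp : p.Prime := Fact.out
  obtain ⟨n₀, hn₀⟩ := exists_forall_pow_dvd_orderOf p q hp hq.two_le k
  obtain ⟨σ, hσ⟩ := exists_isFrobeniusAt A q hq hA
  refine ⟨n₀, fun n hn => ?_⟩
  rw [relIndex_fixingSubgroup_cycloLevel]
  have hNv : A.valuation ((p ^ n : ℕ) : AlgebraicClosure ℚ) = 1 := by
    rw [Nat.cast_pow, map_pow, val_prime_eq_one (A := A) hA hq hp hqp, one_pow]
  have hζ : σ (zetaBar (p ^ n)) = zetaBar (p ^ n) ^ q :=
    IsFrobeniusAt_apply_root hσ (NeZero.ne _) hNv (zetaBar_spec (p ^ n)).pow_eq_one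
  have hu := coe_cycloPow_of_apply_eq_pow (p ^ n) σ q hζ
  have hdvd := hn₀ n hn (cycloPow (p ^ n) σ) hu
  have hmem : cycloPow (p ^ n) σ ∈ (A.decompositionSubgroup ℚ).map (cycloPow (p ^ n)) :=
    Subgroup.mem_map_of_mem _ hσ.mem_decompositionSubgroup
  have h2 : orderOf (cycloPow (p ^ n) σ) ∣
      Nat.card ((A.decompositionSubgroup ℚ).map (cycloPow (p ^ n))) := by
    have := Subgroup.orderOf_dvd_natCard
      ((A.decompositionSubgroup ℚ).map (cycloPow (p ^ n))) hmem
    exact this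
  exact hdvd.trans h2

end Fermat.Agent.S55.H414

end
-- ===== PACK-END S55/H414/CycloPow.lean

-- ===== PACK-BEGIN S24/JFun/Laurent.lean
section



/-!
# Laurent (ℤ-indexed) form of the bridge `j(τ) = ∑ₙ jq_n qⁿ`

Adapters of `hasSum_qjFun` to the Prelude's Laurent series `ModularCurve.jqModC ℂ`.
-/

set_option autoImplicit false

namespace Fermat.Agent.S24.JFun

open Filter Topology Complex Function
open UpperHalfPlane hiding I
open ModularForm EisensteinSeries MatrixGroups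

local notation "𝕢" => Function.Periodic.qParam

/-- Coefficients of the Prelude's Laurent series `jqModC ℂ` in terms of `jNum`. -/
theorem coeff_jqModC_natCast_sub_one (k : ℕ) :
    (ModularCurve.jqModC ℂ).coeff ((k : ℤ) - 1) = ((ModularCurve.jNum.coeff k : ℤ) : ℂ) := by
  rw [ModularCurve.jqModC, HahnSeries.coeff_single_mul, one_mul,
    show ((k : ℤ) - 1 - (-1)) = (k : ℤ) by ring, HahnSeries.ofPowerSeries_apply_coeff,
    PowerSeries.coeff_map]
  simp

theorem coeff_jqModC_of_lt {n : ℤ} (hn : n < -1) : (ModularCurve.jqModC ℂ).coeff n = 0 := by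
  rw [ModularCurve.jqModC, HahnSeries.coeff_single_mul, one_mul]
  exact ModularCurve.ofPowerSeries_coeff_of_neg _ (by omega)

/-- **Bridge, Laurent form**: `j(τ) = ∑_{n ∈ ℤ} (jqModC ℂ)_n qⁿ` for every `τ : ℍ`. -/
theorem hasSum_jFun (τ : ℍ) :
    HasSum (fun n : ℤ => (ModularCurve.jqModC ℂ).coeff n * 𝕢 1 (τ : ℂ) ^ n) (jFun τ) := by
  have hq : 𝕢 1 (τ : ℂ) ≠ 0 := qParam_one_ne_zero _
  have hinj : Function.Injective (fun k : ℕ => ((k : ℤ) - 1)) := by
    intro a b hab
    simp only [sub_left_inj, Nat.cast_inj] at hab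
    exact hab
  have hsupp : ∀ n : ℤ, n ∉ Set.range (fun k : ℕ => ((k : ℤ) - 1)) →
      (ModularCurve.jqModC ℂ).coeff n * 𝕢 1 (τ : ℂ) ^ n = 0 := by
    intro n hn
    have hlt : n < -1 := by
      by_contra hcon
      have hcon : -1 ≤ n := not_lt.mp hcon
      apply hn
      refine ⟨(n + 1).toNat, ?_⟩
      simp only
      rw [Int.toNat_of_nonneg (by omega)]
      ring
    rw [coeff_jqModC_of_lt hlt, zero_mul]
  rw [← hinj.hasSum_iff hsupp]
  have h := (hasSum_qjFun τ).mul_left ((𝕢 1 (τ : ℂ))⁻¹)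
  rw [← mul_assoc, inv_mul_cancel₀ hq, one_mul] at h
  have hfun : ((fun n : ℤ => (ModularCurve.jqModC ℂ).coeff n * 𝕢 1 (τ : ℂ) ^ n) ∘
      fun k : ℕ => ((k : ℤ) - 1))
      = fun i : ℕ => (𝕢 1 (τ : ℂ))⁻¹ *
          (((ModularCurve.jNum.coeff i : ℤ) : ℂ) * 𝕢 1 (τ : ℂ) ^ i) := by
    funext k
    simp only [comp_apply]
    rw [coeff_jqModC_natCast_sub_one, zpow_sub₀ hq, zpow_natCast, zpow_one]
    field_simp
  rw [hfun]
  exact h

/-- The same with `q` written out as `exp (2πiτ)`. -/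
theorem hasSum_jFun_cexp (τ : ℍ) :
    HasSum (fun n : ℤ => (ModularCurve.jqModC ℂ).coeff n *
      Complex.exp (2 * (Real.pi : ℂ) * I * (τ : ℂ)) ^ n) (jFun τ) := by
  have h := hasSum_jFun τ
  have hq : 𝕢 1 (τ : ℂ) = Complex.exp (2 * (Real.pi : ℂ) * I * (τ : ℂ)) := by
    simp [Function.Periodic.qParam]
  rw [hq] at h
  exact h

/-- `ℕ`-indexed form with `q` written out as `exp (2πiτ)`. -/
theorem hasSum_qjFun_cexp (τ : ℍ) :
    HasSum (fun n : ℕ => ((ModularCurve.jNum.coeff n : ℤ) : ℂ) *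
      Complex.exp (2 * (Real.pi : ℂ) * I * (τ : ℂ)) ^ n)
      (Complex.exp (2 * (Real.pi : ℂ) * I * (τ : ℂ)) * jFun τ) := by
  have h := hasSum_qjFun τ
  have hq : 𝕢 1 (τ : ℂ) = Complex.exp (2 * (Real.pi : ℂ) * I * (τ : ℂ)) := by
    simp [Function.Periodic.qParam]
  rw [hq] at h
  exact h

end Fermat.Agent.S24.JFun

end
-- ===== PACK-END S24/JFun/Laurent.lean

-- ===== PACK-BEGIN S24/Deg/H648JBound.lean
section


/-!
# S24 / M6-AN (helper648): the concrete `j`-function satisfies the hypotheses of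
`J_scale_mem_goodRing`
-/

set_option autoImplicit false

noncomputable section

open UpperHalfPlane ModularGroup CongruenceSubgroup Polynomial ModularForm Filter Asymptotics
open scoped MatrixGroups Manifold Modular Real

namespace Fermat.Agent.S24.H648

/-- A continuous function on `ℍ` which is `O(exp(2π m im τ))` at `i∞` is bounded by a multiple
of `exp(2π m im τ)` on the whole fundamental domain. -/
lemma exists_bound_fd_of_isBigO_exp {f : ℍ → ℂ} (hf : Continuous f) (m : ℝ)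
    (hO : f =O[atImInfty] fun τ : ℍ => Real.exp (2 * π * m * τ.im)) :
    ∃ C : ℝ, ∀ τ : ℍ, τ ∈ 𝒟 → ‖f τ‖ ≤ C * Real.exp (2 * π * m * τ.im) := by
  obtain ⟨D, hD, hO'⟩ := hO.exists_pos
  rw [IsBigOWith, atImInfty, eventually_comap, eventually_atTop] at hO'
  obtain ⟨y, hy⟩ := hO'
  have hfm : ContinuousOn (fun τ : ℍ => ‖f τ‖ / Real.exp (2 * π * m * τ.im))
      (truncatedFundamentalDomain y) := by
    apply Continuous.continuousOn
    refine hf.norm.div ?_ fun τ => (Real.exp_pos _).ne'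
    exact Real.continuous_exp.comp (continuous_const.mul UpperHalfPlane.continuous_im)
  obtain ⟨E, hE⟩ : ∃ E, ∀ τ ∈ truncatedFundamentalDomain y,
      ‖f τ‖ / Real.exp (2 * π * m * τ.im) ≤ E := by
    obtain ⟨E, hE⟩ := (isCompact_truncatedFundamentalDomain y).exists_bound_of_continuousOn hfm
    refine ⟨E, fun τ hτ => ?_⟩
    have := hE τ hτ
    rwa [Real.norm_of_nonneg (by positivity)] at this
  refine ⟨max D E, fun τ hτ => ?_⟩
  rcases le_total y (im τ) with hτ' | hτ'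
  · have := hy _ hτ' τ rfl
    rw [Real.norm_of_nonneg (Real.exp_pos _).le] at this
    exact this.trans (mul_le_mul_of_nonneg_right (le_max_left _ _) (Real.exp_pos _).le)
  · rw [← div_le_iff₀ (Real.exp_pos _)]
    exact (hE τ ⟨hτ, hτ'⟩).trans (le_max_right _ _)

/-- The analytic `j`-function `E₄³/Δ`. -/
def jFun (τ : ℍ) : ℂ := E₄ τ ^ 3 / ModularForm.discriminant τ

lemma jFun_def (τ : ℍ) : jFun τ = E₄ τ ^ 3 / ModularForm.discriminant τ := rfl

lemma mdifferentiable_jFun : MDifferentiable 𝓘(ℂ) 𝓘(ℂ) jFun := by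
  have h4 : MDifferentiable 𝓘(ℂ) 𝓘(ℂ) (E₄ : ℍ → ℂ) := ModularFormClass.holo E₄
  have hΔ : MDifferentiable 𝓘(ℂ) 𝓘(ℂ) (ModularForm.discriminant : ℍ → ℂ) :=
    ModularFormClass.holo CuspForm.discriminant
  rw [UpperHalfPlane.mdifferentiable_iff] at h4 hΔ ⊢
  have : DifferentiableOn ℂ
      (fun z => ((E₄ : ℍ → ℂ) ∘ ofComplex) z ^ 3 / ((ModularForm.discriminant : ℍ → ℂ) ∘ ofComplex) z)
      {z | 0 < z.im} :=
    (h4.pow 3).div hΔ fun z _ => discriminant_ne_zero _
  exact this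

lemma jFun_smul (γ : SL(2, ℤ)) (τ : ℍ) : jFun (γ • τ) = jFun τ := by
  have : SlashInvariantFormClass (ModularForm 𝒮ℒ 4) Γ(1) 4 := Gamma_one_coe_eq_SL ▸ inferInstance
  have : SlashInvariantFormClass (CuspForm 𝒮ℒ 12) Γ(1) 12 :=
    Gamma_one_coe_eq_SL ▸ inferInstance
  have h4 := SlashInvariantForm.slash_action_eqn_SL'' E₄ (mem_Gamma_one γ) τ
  have h12 := SlashInvariantForm.slash_action_eqn_SL'' CuspForm.discriminant (mem_Gamma_one γ) τ
  have hd : denom γ τ ≠ 0 := denom_ne_zero _ τ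
  have hΔ : ModularForm.discriminant τ ≠ 0 := discriminant_ne_zero τ
  have h12' : ModularForm.discriminant (γ • τ) = denom γ τ ^ (12 : ℤ) * ModularForm.discriminant τ :=
    h12
  rw [jFun_def, jFun_def, h4, h12']
  have e1 : (denom γ τ ^ (4 : ℤ) * E₄ τ) ^ 3 = denom γ τ ^ (12 : ℤ) * E₄ τ ^ 3 := by
    rw [mul_pow, ← zpow_natCast, ← zpow_mul]
    norm_num
  rw [e1, mul_div_mul_left _ _ (zpow_ne_zero _ hd)]

lemma continuous_jFun : Continuous jFun := mdifferentiable_jFun.continuous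

lemma jFun_isBigO : jFun =O[atImInfty] fun τ : ℍ => Real.exp (2 * π * (1 : ℝ) * τ.im) := by
  have h4 : IsBoundedAtImInfty (E₄ : ℍ → ℂ) := ModularFormClass.bdd_at_infty E₄
  have h4' : (fun τ : ℍ => E₄ τ ^ 3) =O[atImInfty] (fun _ : ℍ => (1 : ℝ)) := by
    have h1 : (E₄ : ℍ → ℂ) =O[atImInfty] (fun _ : ℍ => (1 : ℝ)) := h4
    simpa using h1.pow 3
  have hΔ := exp_isBigO_discriminant
  -- `1/Δ = O(exp(2π im))`
  have hinv : (fun τ : ℍ => (ModularForm.discriminant τ)⁻¹)
      =O[atImInfty] fun τ : ℍ => (Real.exp (-2 * π * τ.im))⁻¹ := by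
    refine hΔ.inv_rev ?_
    exact Eventually.of_forall fun τ h => absurd h (Real.exp_pos _).ne'
  have hmul := h4'.mul hinv
  refine (hmul.congr_left fun τ => by rw [jFun_def, div_eq_mul_inv]).congr_right fun τ => ?_
  rw [one_mul, ← Real.exp_neg]
  congr 1
  ring

theorem jFun_bound_fd :
    ∃ C : ℝ, ∀ τ : ℍ, τ ∈ 𝒟 → ‖jFun τ‖ ≤ C * Real.exp (2 * π * τ.im) := by
  obtain ⟨C, hC⟩ := exists_bound_fd_of_isBigO_exp continuous_jFun 1 jFun_isBigO
  exact ⟨C, fun τ hτ => by simpa using hC τ hτ⟩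

/-- **`τ ↦ j (d τ)` is a good function of level `N` for `d ∣ N`.** -/
theorem jFun_scale_mem_goodRing (N : ℕ) (d : ℕ) (hd : 0 < d) (hdN : d ∣ N) (s : ℍ → ℍ)
    (hs : ∀ τ : ℍ, (s τ : ℂ) = d * τ) : (fun τ => jFun (s τ)) ∈ goodRing N :=
  J_scale_mem_goodRing N mdifferentiable_jFun jFun_smul jFun_bound_fd d hd hdN s hs

end Fermat.Agent.S24.H648

end
end
-- ===== PACK-END S24/Deg/H648JBound.lean

-- ===== PACK-BEGIN S24/Deg/H648D5.lean
section


/-!
# S24 / M6-AN (helper648): the polynomiality principle (D5) in `ExpGrowth` form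

A holomorphic `SL₂(ℤ)`-invariant function on `ℍ` of at most exponential growth at `i∞` is a
polynomial in `j = E₄³/Δ`.  (The function-level induction follows helper505's
`levelOne_structure`, re-proved here from Mathlib only.)
-/

set_option autoImplicit false

noncomputable section

open UpperHalfPlane ModularGroup CongruenceSubgroup ModularForm Filter Asymptotics
  SlashInvariantForm SlashInvariantFormClass ModularFormClass CuspFormClass
open scoped MatrixGroups Manifold Modular Real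

namespace Fermat.Agent.S24.H648

/-- `E₄ ^ n` as a modular form of weight `k = 4 n`. -/
def E4pow (n : ℕ) (k : ℤ) (hk : (n : ℤ) * 4 = k) : ModularForm 𝒮ℒ k :=
  ModularForm.mcast hk (E₄.pow n)

theorem E4pow_apply (n : ℕ) (k : ℤ) (hk : (n : ℤ) * 4 = k) (z : ℍ) :
    E4pow n k hk z = E₄ z ^ n := by
  simp [E4pow]

theorem qExpansion_E4pow_coeff_zero (n : ℕ) (k : ℤ) (hk : (n : ℤ) * 4 = k) :
    (qExpansion 1 (E4pow n k hk)).coeff 0 = 1 := by
  have h4 : (qExpansion 1 E₄).coeff 0 = 1 := EisensteinSeries.E_qExpansion_coeff_zero (by norm_num) (by decide)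
  rw [E4pow, ModularForm.qExpansion_mcast,
    ModularForm.qExpansion_pow one_pos one_mem_strictPeriods_SL,
    PowerSeries.coeff_zero_eq_constantCoeff, map_pow, ← PowerSeries.coeff_zero_eq_constantCoeff,
    h4, one_pow]

/-- Level one structure theorem, function level: a modular form of weight `12 m` is
`Δ^m · P(j)` with `deg P ≤ m`. -/
theorem levelOne_poly (m : ℕ) : ∀ (k : ℤ) (_ : k = 12 * m) (F : ModularForm 𝒮ℒ k),
    ∃ P : Polynomial ℂ, P.natDegree ≤ m ∧
      ∀ z : ℍ, F z = ModularForm.discriminant z ^ m * P.eval (jFun z) := by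
  induction m with
  | zero =>
    intro k hk F
    simp only [Nat.cast_zero, mul_zero] at hk
    subst hk
    obtain ⟨c, hc⟩ := levelOne_weight_zero_const F
    exact ⟨Polynomial.C c, by simp, fun z => by simp [hc]⟩
  | succ m ih =>
    intro k hk F
    set c₀ : ℂ := (qExpansion 1 F).coeff 0 with hc₀
    have hk4 : ((3 * (m + 1) : ℕ) : ℤ) * 4 = k := by rw [hk]; push_cast; ring
    set G : ModularForm 𝒮ℒ k := F - c₀ • E4pow (3 * (m + 1)) k hk4 with hG
    have hGq : qExpansion 1 G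
        = qExpansion 1 F - c₀ • qExpansion 1 (E4pow (3 * (m + 1)) k hk4) := by
      have h1 : (G : ℍ → ℂ) = ⇑F - ⇑(c₀ • E4pow (3 * (m + 1)) k hk4) := rfl
      rw [h1, ModularForm.qExpansion_sub one_pos one_mem_strictPeriods_SL]
      have h2 : (⇑(c₀ • E4pow (3 * (m + 1)) k hk4) : ℍ → ℂ)
          = c₀ • ⇑(E4pow (3 * (m + 1)) k hk4) := rfl
      rw [h2, ModularForm.qExpansion_smul one_pos one_mem_strictPeriods_SL]
    have hG0 : (qExpansion 1 G).coeff 0 = 0 := by
      rw [hGq, map_sub, PowerSeries.coeff_smul, qExpansion_E4pow_coeff_zero]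
      simp [hc₀]
    set H : ModularForm 𝒮ℒ (k - 12) := CuspForm.discriminantEquiv (G.toCuspForm hG0) with hH
    obtain ⟨P, hPdeg, hPval⟩ := ih (k - 12) (by rw [hk]; push_cast; ring) H
    have hGH : ∀ z, G z = ModularForm.discriminant z * H z := fun z => by
      rw [hH, discriminant_mul_discriminantEquiv_apply]; rfl
    have hFG : ∀ z, F z = c₀ * E₄ z ^ (3 * (m + 1)) + G z := fun z => by
      have : G z = F z - c₀ * E4pow (3 * (m + 1)) k hk4 z := rfl
      rw [this, E4pow_apply]; ring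
    refine ⟨Polynomial.C c₀ * Polynomial.X ^ (m + 1) + P, ?_, ?_⟩
    · refine (Polynomial.natDegree_add_le _ _).trans (max_le ?_ (hPdeg.trans (Nat.le_succ m)))
      exact Polynomial.natDegree_C_mul_X_pow_le _ _
    · intro z
      rw [hFG, hGH, hPval, Polynomial.eval_add, Polynomial.eval_mul, Polynomial.eval_C,
        Polynomial.eval_pow, Polynomial.eval_X, jFun_def]
      have hΔ := discriminant_ne_zero z
      have hJ : ModularForm.discriminant z * (E₄ z ^ 3 / ModularForm.discriminant z) = E₄ z ^ 3 :=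
        mul_div_cancel₀ _ hΔ
      have : ModularForm.discriminant z ^ (m + 1) *
          (c₀ * (E₄ z ^ 3 / ModularForm.discriminant z) ^ (m + 1) +
            Polynomial.eval (E₄ z ^ 3 / ModularForm.discriminant z) P) =
          c₀ * (ModularForm.discriminant z * (E₄ z ^ 3 / ModularForm.discriminant z)) ^ (m + 1) +
          ModularForm.discriminant z * (ModularForm.discriminant z ^ m *
            Polynomial.eval (E₄ z ^ 3 / ModularForm.discriminant z) P) := by ring
      rw [this, hJ, pow_mul]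


lemma discriminant_smul (γ : SL(2, ℤ)) (τ : ℍ) :
    ModularForm.discriminant (γ • τ) = denom γ τ ^ (12 : ℤ) * ModularForm.discriminant τ := by
  have : SlashInvariantFormClass (CuspForm 𝒮ℒ 12) Γ(1) 12 :=
    Gamma_one_coe_eq_SL ▸ inferInstance
  exact SlashInvariantForm.slash_action_eqn_SL'' CuspForm.discriminant (mem_Gamma_one γ) τ

lemma discriminant_pow_mul_slash (m : ℕ) (F : ℍ → ℂ)
    (inv : ∀ (γ : SL(2, ℤ)) (τ : ℍ), F (γ • τ) = F τ) (γ : SL(2, ℤ)) :
    (fun z => ModularForm.discriminant z ^ m * F z) ∣[(12 * m : ℤ)] γ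
      = fun z => ModularForm.discriminant z ^ m * F z := by
  funext z
  rw [ModularForm.SL_slash_apply]
  rw [inv, discriminant_smul, mul_pow, ← zpow_natCast (denom γ z ^ (12 : ℤ)) m, ← zpow_mul]
  have hd : denom γ z ≠ 0 := denom_ne_zero _ z
  have : denom γ z ^ ((12 : ℤ) * m) * ModularForm.discriminant z ^ m * F z
      * denom γ z ^ (-(12 * (m : ℤ)))
      = (denom γ z ^ ((12 : ℤ) * m) * denom γ z ^ (-(12 * (m : ℤ))))
        * (ModularForm.discriminant z ^ m * F z) := by ring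
  rw [this, ← zpow_add₀ hd]
  simp

/-- `Δ^m · F` as a modular form of weight `12 m`. -/
def mfOfInvariant (m : ℕ) (F : ℍ → ℂ) (hol : MDifferentiable 𝓘(ℂ) 𝓘(ℂ) F)
    (inv : ∀ (γ : SL(2, ℤ)) (τ : ℍ), F (γ • τ) = F τ)
    (bdd : IsBoundedAtImInfty (fun z => ModularForm.discriminant z ^ m * F z)) :
    ModularForm 𝒮ℒ (12 * m) where
  toFun := fun z => ModularForm.discriminant z ^ m * F z
  slash_action_eq' := fun _ ⟨γ, hγ⟩ => hγ ▸ discriminant_pow_mul_slash m F inv γ
  holo' := by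
    have hΔ : MDifferentiable 𝓘(ℂ) 𝓘(ℂ) (ModularForm.discriminant : ℍ → ℂ) :=
      ModularFormClass.holo CuspForm.discriminant
    exact (hΔ.pow m).mul hol
  bdd_at_cusps' {c} hc := by
    rw [Subgroup.IsArithmetic.isCusp_iff_isCusp_SL2Z] at hc
    rw [OnePoint.isBoundedAt_iff_forall_SL2Z hc]
    intro γ _
    rw [discriminant_pow_mul_slash m F inv γ]
    exact bdd

lemma mfOfInvariant_apply (m : ℕ) (F : ℍ → ℂ) (hol : MDifferentiable 𝓘(ℂ) 𝓘(ℂ) F)
    (inv : ∀ (γ : SL(2, ℤ)) (τ : ℍ), F (γ • τ) = F τ)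
    (bdd : IsBoundedAtImInfty (fun z => ModularForm.discriminant z ^ m * F z)) (z : ℍ) :
    mfOfInvariant m F hol inv bdd z = ModularForm.discriminant z ^ m * F z := rfl

/-- Polynomiality principle, `IsBoundedAtImInfty` form. -/
theorem exists_polynomial_of_isBoundedAtImInfty (m : ℕ) (F : ℍ → ℂ)
    (hol : MDifferentiable 𝓘(ℂ) 𝓘(ℂ) F)
    (inv : ∀ (γ : SL(2, ℤ)) (τ : ℍ), F (γ • τ) = F τ)
    (bdd : IsBoundedAtImInfty (fun z => ModularForm.discriminant z ^ m * F z)) :
    ∃ p : Polynomial ℂ, p.natDegree ≤ m ∧ ∀ τ, F τ = p.eval (jFun τ) := by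
  obtain ⟨P, hdeg, hP⟩ := levelOne_poly m (12 * m) rfl (mfOfInvariant m F hol inv bdd)
  refine ⟨P, hdeg, fun τ => ?_⟩
  have h := hP τ
  rw [mfOfInvariant_apply] at h
  exact mul_left_cancel₀ (pow_ne_zero m (discriminant_ne_zero τ)) h

lemma ExpGrowth.isBigO {F : ℍ → ℂ} {C : ℝ} {m : ℕ}
    (h : ∀ τ : ℍ, 1 ≤ τ.im → ‖F τ‖ ≤ C * Real.exp (2 * π * m * τ.im)) :
    F =O[atImInfty] fun τ : ℍ => Real.exp (2 * π * m * τ.im) := by
  refine IsBigO.of_bound C ?_
  rw [atImInfty, eventually_comap, eventually_atTop]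
  refine ⟨1, fun y hy τ hτ => ?_⟩
  rw [Real.norm_of_nonneg (Real.exp_pos _).le]
  exact h τ (hτ ▸ hy)

/-- **Polynomiality principle (D5), `ExpGrowth` form.** -/
theorem exists_polynomial_of_expGrowth (F : ℍ → ℂ)
    (hol : MDifferentiable 𝓘(ℂ) 𝓘(ℂ) F)
    (inv : ∀ (γ : SL(2, ℤ)) (τ : ℍ), F (γ • τ) = F τ) (gr : ExpGrowth F) :
    ∃ p : Polynomial ℂ, ∀ τ, F τ = p.eval (jFun τ) := by
  obtain ⟨C, m, h⟩ := gr
  have hF := ExpGrowth.isBigO h
  have hΔ : (ModularForm.discriminant : ℍ → ℂ)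
      =O[atImInfty] fun τ : ℍ => Real.exp (-2 * π * τ.im / 1) :=
    CuspFormClass.exp_decay_atImInfty CuspForm.discriminant one_pos one_mem_strictPeriods_SL
  have hprod := (hΔ.pow m).mul hF
  have bdd : IsBoundedAtImInfty (fun z => ModularForm.discriminant z ^ m * F z) := by
    refine hprod.congr_right fun τ => ?_
    rw [← Real.exp_nat_mul, ← Real.exp_add]
    have : (m : ℝ) * (-2 * π * τ.im / 1) + 2 * π * m * τ.im = 0 := by ring
    rw [this, Real.exp_zero]
    rfl
  obtain ⟨p, -, hp⟩ := exists_polynomial_of_isBoundedAtImInfty m F hol inv bdd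
  exact ⟨p, hp⟩

section final

variable {N : ℕ} [Fintype (SL(2, ℤ) ⧸ Gamma0 N)]

/-- **M6-AN, unconditional.**  For every good function `f` of level `N` the conjugate product
`∏ₓ (Y - f ∘ gₓ⁻¹)` has coefficients in `ℂ[j]`. -/
theorem exists_charPoly_jFun {f : ℍ → ℂ} (hf : f ∈ goodRing N) :
    ∃ P : Polynomial (Polynomial ℂ), P.Monic ∧
      P.natDegree = Fintype.card (SL(2, ℤ) ⧸ Gamma0 N) ∧
      ∀ τ : ℍ, P.map (Polynomial.evalRingHom (jFun τ)) = charPolyAt N f τ :=
  exists_charPoly jFun exists_polynomial_of_expGrowth hf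

/-- **Function-level `HYP(n)`, unconditional.** -/
theorem exists_charPoly_jFun_eval_eq_zero {f : ℍ → ℂ} (hf : f ∈ goodRing N) :
    ∃ P : Polynomial (Polynomial ℂ), P.Monic ∧
      P.natDegree = Fintype.card (SL(2, ℤ) ⧸ Gamma0 N) ∧
      ∀ τ : ℍ, (P.map (Polynomial.evalRingHom (jFun τ))).eval (f τ) = 0 :=
  exists_charPoly_eval_eq_zero jFun exists_polynomial_of_expGrowth hf

end final

end Fermat.Agent.S24.H648

end
end
-- ===== PACK-END S24/Deg/H648D5.lean

-- ===== PACK-BEGIN A2/H12/DeckTwo.lean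
section


/-!
# Cell A2 — route G: the deck lemma for a two-chart model, ring form (helper12)

Mathlib-only.  `R₁`, `R₂` are the two charts of the model of the cover, `Q₁ s`, `Q₂ s` the ideal of
the sheet `s` in the two charts, `ρ₁`, `ρ₂` the restriction of `τ̃⁻¹` to the charts.

* `fixes_all_two` : if `τ̃` fixes one sheet, is the identity modulo every fixed sheet (`h_triv`),
  a closed point carries at most one sheet of each colour (`h_uni` = COUNT), and the sheet graph
  is connected (`h_conn`), then `τ̃` fixes every sheet.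
-/

set_option autoImplicit false

namespace Fermat.Agent.A2.H12

section Two

variable {R₁ R₂ : Type*} [CommRing R₁] [CommRing R₂] {S C : Type*}

/-- adjacency: not comaximal in one of the two charts -/
def TwoAdj (Q₁ : S → Ideal R₁) (Q₂ : S → Ideal R₂) (s t : S) : Prop :=
  (¬ ∃ a ∈ Q₁ s, ∃ b ∈ Q₁ t, a + b = 1) ∨ (¬ ∃ a ∈ Q₂ s, ∃ b ∈ Q₂ t, a + b = 1)

/-- **Deck lemma, two charts, ring form.** -/
theorem fixes_all_two (ρ₁ : R₁ →+* R₁) (hρ₁ : Function.Surjective ρ₁)
    (ρ₂ : R₂ →+* R₂) (hρ₂ : Function.Surjective ρ₂)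
    (Q₁ : S → Ideal R₁) (Q₂ : S → Ideal R₂) (τS : S → S) (col : S → C)
    (hQ₁ : ∀ s b, b ∈ Q₁ (τS s) → ρ₁ b ∈ Q₁ s)
    (hQ₂ : ∀ s b, b ∈ Q₂ (τS s) → ρ₂ b ∈ Q₂ s)
    (h_col : ∀ s, col (τS s) = col s)
    (h_triv₁ : ∀ s, τS s = s → ∀ b, ρ₁ b - b ∈ Q₁ s)
    (h_triv₂ : ∀ s, τS s = s → ∀ b, ρ₂ b - b ∈ Q₂ s)
    (h_uni₁ : ∀ 𝔫 : Ideal R₁, 𝔫.IsMaximal → ∀ s t, col s = col t →
      Q₁ s ≤ 𝔫 → Q₁ t ≤ 𝔫 → s = t)
    (h_uni₂ : ∀ 𝔫 : Ideal R₂, 𝔫.IsMaximal → ∀ s t, col s = col t →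
      Q₂ s ≤ 𝔫 → Q₂ t ≤ 𝔫 → s = t)
    (h_conn : ∀ s t : S, Relation.ReflTransGen (TwoAdj Q₁ Q₂) s t)
    (s₀ : S) (h₀ : τS s₀ = s₀) : ∀ s, τS s = s := by
  classical
  -- points: maximal ideals of the two charts
  let Pt := {𝔫 : Ideal R₁ // 𝔫.IsMaximal} ⊕ {𝔫 : Ideal R₂ // 𝔫.IsMaximal}
  let inc : S → Pt → Prop := fun s p =>
    Sum.elim (fun 𝔫 => Q₁ s ≤ 𝔫.1) (fun 𝔫 => Q₂ s ≤ 𝔫.1) p
  let τP : Pt → Pt := fun p =>
    Sum.elim
      (fun 𝔫 => Sum.inl ⟨𝔫.1.comap ρ₁, by
        have := 𝔫.2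
        exact Ideal.comap_isMaximal_of_surjective ρ₁ hρ₁⟩)
      (fun 𝔫 => Sum.inr ⟨𝔫.1.comap ρ₂, by
        have := 𝔫.2
        exact Ideal.comap_isMaximal_of_surjective ρ₂ hρ₂⟩) p
  refine fixes_all inc col τS τP h_col ?_ ?_ ?_ ?_ s₀ h₀
  · -- incidence is preserved
    rintro s (𝔫 | 𝔫) hsp
    · intro b hb
      exact hsp (hQ₁ s b hb)
    · intro b hb
      exact hsp (hQ₂ s b hb)
  · -- points of a fixed sheet are fixed
    rintro s (𝔫 | 𝔫) hs hsp
    · have : 𝔫.1.comap ρ₁ = 𝔫.1 := by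
        ext b
        rw [Ideal.mem_comap]
        have h1 : ρ₁ b - b ∈ 𝔫.1 := hsp (h_triv₁ s hs b)
        constructor
        · intro h
          have : b = ρ₁ b - (ρ₁ b - b) := by ring
          rw [this]
          exact 𝔫.1.sub_mem h h1
        · intro h
          have : ρ₁ b = (ρ₁ b - b) + b := by ring
          rw [this]
          exact 𝔫.1.add_mem h1 h
      exact congrArg Sum.inl (Subtype.ext this)
    · have : 𝔫.1.comap ρ₂ = 𝔫.1 := by
        ext b
        rw [Ideal.mem_comap]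
        have h1 : ρ₂ b - b ∈ 𝔫.1 := hsp (h_triv₂ s hs b)
        constructor
        · intro h
          have : b = ρ₂ b - (ρ₂ b - b) := by ring
          rw [this]
          exact 𝔫.1.sub_mem h h1
        · intro h
          have : ρ₂ b = (ρ₂ b - b) + b := by ring
          rw [this]
          exact 𝔫.1.add_mem h1 h
      exact congrArg Sum.inr (Subtype.ext this)
  · -- COUNT
    rintro s t (𝔫 | 𝔫) hs ht hc
    · exact h_uni₁ 𝔫.1 𝔫.2 s t hc hs ht
    · exact h_uni₂ 𝔫.1 𝔫.2 s t hc hs ht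
  · -- connectedness
    intro s t
    refine Relation.ReflTransGen.mono ?_ _ _ (h_conn s t)
    rintro a b (h | h)
    · obtain ⟨𝔫, h𝔫, ha, hb⟩ := exists_maximal_of_not_comaximal _ _ h
      exact ⟨Sum.inl ⟨𝔫, h𝔫⟩, ha, hb⟩
    · obtain ⟨𝔫, h𝔫, ha, hb⟩ := exists_maximal_of_not_comaximal _ _ h
      exact ⟨Sum.inr ⟨𝔫, h𝔫⟩, ha, hb⟩

end Two

end Fermat.Agent.A2.H12

end
-- ===== PACK-END A2/H12/DeckTwo.lean

-- ===== PACK-BEGIN A2/H12/WallG.lean
section


/-!
# Cell A2 — route G: the WALL assembly in field form (helper12)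

Mathlib-only.  Setting: `L` a field (the split Kummer cover), `R → L` the base ring, `w ∈ R`,
three charts `Bfin, Binf ≤ Bmid` (subalgebras of `L`), a finite family of *sheets* `s ↦ M s`,
`M s` an additive subgroup of `L` absorbing `Bmid` (in the application `M s = 𝔪_{W_s}` is the maximal
ideal of the valuation ring of the sheet, or a height-one prime of `Bmid`), a ring automorphism
`τ` of `L` (the lift `τ̃`) preserving the charts and permuting the sheets by `τS`.

* `sheetGraph_connected_sub` : GRAPH-CONN in this language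
  (`hcech` = conclusion of `S18.H138.connected_special_fibre` for `L`).
* `wallG_fixes`  : `τ̃` fixes one sheet + `h_triv` + COUNT (`h_uni_*`) + reduced fibres + `hcech`
                   ⟹ `τ̃` fixes every sheet.
* `wallG_comm`   : free action of `Γ` on the sheets, `τ̃` normalises `Γ` ⟹ `τ̃` commutes with `Γ`.
* `wallG`        : all together, Kummer conclusion: `σ (τ̃ y / y) = τ̃ y / y` for all `σ ∈ Γ`.
-/

set_option autoImplicit false

namespace Fermat.Agent.A2.H12

open scoped Classical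

section Val

variable {R : Type*} [CommRing R] {L : Type*} [Field L] [Algebra R L]

/-- The ideal of a chart `C` cut out by an additive subgroup `M` of `L` absorbing `C`. -/
def chartIdeal (C : Subalgebra R L) (M : AddSubgroup L) (habs : ∀ c ∈ C, ∀ a ∈ M, c * a ∈ M) :
    Ideal C where
  carrier := {c | (c : L) ∈ M}
  add_mem' := fun ha hb => M.add_mem ha hb
  zero_mem' := M.zero_mem
  smul_mem' := fun c a ha => habs c c.2 a ha

theorem mem_chartIdeal (C : Subalgebra R L) (M : AddSubgroup L)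
    (habs : ∀ c ∈ C, ∀ a ∈ M, c * a ∈ M) (c : C) :
    c ∈ chartIdeal C M habs ↔ (c : L) ∈ M := Iff.rfl

variable {S : Type*}

/-- Sheets `s`, `t` are separated in the chart `C` (comaximal there). -/
def SepAt (C : Subalgebra R L) (M : S → AddSubgroup L) (s t : S) : Prop :=
  ∃ a ∈ C, a ∈ M s ∧ ∃ b ∈ C, b ∈ M t ∧ a + b = 1

/-- Adjacency in the sheet graph: not separated in one of the two charts. -/
def SubAdj (Bfin Binf : Subalgebra R L) (M : S → AddSubgroup L) (s t : S) : Prop :=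
  ¬ SepAt Bfin M s t ∨ ¬ SepAt Binf M s t

private theorem exists_chart_idem_sub [Fintype S] (C : Subalgebra R L) (M : S → AddSubgroup L)
    (habs : ∀ s, ∀ c ∈ C, ∀ a ∈ M s, c * a ∈ M s) (col : S → Prop)
    (hsep : ∀ s t, col s → ¬ col t → SepAt C M s t) :
    ∃ e ∈ C, (∀ s, col s → 1 - e ∈ M s) ∧ (∀ t, ¬ col t → e ∈ M t) := by
  obtain ⟨e, he1, he2⟩ := exists_idem_of_partition (C := C)
    (fun s => chartIdeal C (M s) (habs s)) col (by
      intro s t hs ht
      obtain ⟨a, haC, haP, b, hbC, hbP, hab⟩ := hsep s t hs ht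
      exact ⟨⟨a, haC⟩, haP, ⟨b, hbC⟩, hbP, Subtype.ext hab⟩)
  refine ⟨e, e.2, ?_, ?_⟩
  · intro s hs
    have := he1 s hs
    rw [mem_chartIdeal] at this
    simpa using this
  · intro t ht
    exact he2 t ht

/-- **GRAPH-CONN, field form.** -/
theorem sheetGraph_connected_sub [Fintype S] (w : R) (Bfin Binf Bmid : Subalgebra R L)
    (M : S → AddSubgroup L)
    (habs : ∀ s, ∀ c ∈ Bmid, ∀ a ∈ M s, c * a ∈ M s)
    (hfm : Bfin ≤ Bmid) (him : Binf ≤ Bmid)
    (hM1 : ∀ s, (1 : L) ∉ M s) (hwM : ∀ s, algebraMap R L w ∈ M s)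
    (hred_mid : ∀ b ∈ Bmid, (∀ s, b ∈ M s) → ∃ t ∈ Bmid, b = algebraMap R L w * t)
    (hred_fin : ∀ b ∈ Bfin, (∀ s, b ∈ M s) → ∃ t ∈ Bfin, b = algebraMap R L w * t)
    (hred_inf : ∀ b ∈ Binf, (∀ s, b ∈ M s) → ∃ t ∈ Binf, b = algebraMap R L w * t)
    (hcech : ∀ e₁ e₂ : L, e₁ ∈ Bfin → e₂ ∈ Binf →
      (∃ t ∈ Bfin, e₁ ^ 2 - e₁ = algebraMap R L w * t) →
      (∃ t ∈ Binf, e₂ ^ 2 - e₂ = algebraMap R L w * t) →
      (∃ t ∈ Bmid, e₁ - e₂ = algebraMap R L w * t) →
      ((∃ t ∈ Bfin, e₁ = algebraMap R L w * t) ∧ (∃ t ∈ Binf, e₂ = algebraMap R L w * t)) ∨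
      ((∃ t ∈ Bfin, 1 - e₁ = algebraMap R L w * t) ∧
        (∃ t ∈ Binf, 1 - e₂ = algebraMap R L w * t)))
    (s₀ t₀ : S) : Relation.ReflTransGen (SubAdj Bfin Binf M) s₀ t₀ := by
  by_contra hcon
  set col : S → Prop := fun s => Relation.ReflTransGen (SubAdj Bfin Binf M) s₀ s with hcol
  have hs₀ : col s₀ := Relation.ReflTransGen.refl
  have ht₀ : ¬ col t₀ := hcon
  have hsep : ∀ s t, col s → ¬ col t → SepAt Bfin M s t ∧ SepAt Binf M s t := by
    intro s t hs ht
    by_contra h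
    apply ht
    refine Relation.ReflTransGen.tail hs ?_
    rcases not_and_or.1 h with h | h
    · exact Or.inl h
    · exact Or.inr h
  obtain ⟨e₁, he₁C, he₁a, he₁b⟩ := exists_chart_idem_sub Bfin M
    (fun s c hc => habs s c (hfm hc)) col (fun s t hs ht => (hsep s t hs ht).1)
  obtain ⟨e₂, he₂C, he₂a, he₂b⟩ := exists_chart_idem_sub Binf M
    (fun s c hc => habs s c (him hc)) col (fun s t hs ht => (hsep s t hs ht).2)
  -- `e (1 - e) ∈ M s` for every sheet
  have hidem : ∀ e ∈ Bmid, (∀ s, col s → 1 - e ∈ M s) → (∀ t, ¬ col t → e ∈ M t) →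
      ∀ s, e ^ 2 - e ∈ M s := by
    intro e heB ha hb s
    by_cases hs : col s
    · have h : e ^ 2 - e = -(e * (1 - e)) := by ring
      rw [h]
      exact (M s).neg_mem (habs s e heB _ (ha s hs))
    · have h : e ^ 2 - e = -((1 - e) * e) := by ring
      rw [h]
      exact (M s).neg_mem (habs s _ (Bmid.sub_mem Bmid.one_mem heB) _ (hb s hs))
  have h1 := hred_fin _ (Bfin.sub_mem (Bfin.pow_mem he₁C 2) he₁C)
    (hidem e₁ (hfm he₁C) he₁a he₁b)
  have h2 := hred_inf _ (Binf.sub_mem (Binf.pow_mem he₂C 2) he₂C)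
    (hidem e₂ (him he₂C) he₂a he₂b)
  have h12 : ∃ t ∈ Bmid, e₁ - e₂ = algebraMap R L w * t := by
    apply hred_mid _ (Bmid.sub_mem (hfm he₁C) (him he₂C))
    intro s
    by_cases hs : col s
    · have : e₁ - e₂ = (1 - e₂) - (1 - e₁) := by ring
      rw [this]
      exact (M s).sub_mem (he₂a s hs) (he₁a s hs)
    · exact (M s).sub_mem (he₁b s hs) (he₂b s hs)
  have hwmul : ∀ s, ∀ t ∈ Bfin, algebraMap R L w * t ∈ M s := by
    intro s t ht
    rw [mul_comm]
    exact habs s t (hfm ht) _ (hwM s)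
  rcases hcech e₁ e₂ he₁C he₂C h1 h2 h12 with ⟨⟨t, htC, ht⟩, _⟩ | ⟨⟨t, htC, ht⟩, _⟩
  · -- `e₁ ∈ (w)`, but `1 - e₁ ∈ M s₀`
    apply hM1 s₀
    have h3 : e₁ ∈ M s₀ := by rw [ht]; exact hwmul s₀ t htC
    have : (1 : L) = (1 - e₁) + e₁ := by ring
    rw [this]
    exact (M s₀).add_mem (he₁a s₀ hs₀) h3
  · apply hM1 t₀
    have h3 : 1 - e₁ ∈ M t₀ := by rw [ht]; exact hwmul t₀ t htC
    have : (1 : L) = (1 - e₁) + e₁ := by ring
    rw [this]
    exact (M t₀).add_mem h3 (he₁b t₀ ht₀)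

/-- **Route G, step "τ̃ fixes every sheet".** -/
theorem wallG_fixes [Fintype S] (w : R) (Bfin Binf Bmid : Subalgebra R L)
    (M : S → AddSubgroup L)
    (habs : ∀ s, ∀ c ∈ Bmid, ∀ a ∈ M s, c * a ∈ M s)
    (hfm : Bfin ≤ Bmid) (him : Binf ≤ Bmid)
    (hM1 : ∀ s, (1 : L) ∉ M s) (hwM : ∀ s, algebraMap R L w ∈ M s)
    (hred_mid : ∀ b ∈ Bmid, (∀ s, b ∈ M s) → ∃ t ∈ Bmid, b = algebraMap R L w * t)
    (hred_fin : ∀ b ∈ Bfin, (∀ s, b ∈ M s) → ∃ t ∈ Bfin, b = algebraMap R L w * t)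
    (hred_inf : ∀ b ∈ Binf, (∀ s, b ∈ M s) → ∃ t ∈ Binf, b = algebraMap R L w * t)
    (hcech : ∀ e₁ e₂ : L, e₁ ∈ Bfin → e₂ ∈ Binf →
      (∃ t ∈ Bfin, e₁ ^ 2 - e₁ = algebraMap R L w * t) →
      (∃ t ∈ Binf, e₂ ^ 2 - e₂ = algebraMap R L w * t) →
      (∃ t ∈ Bmid, e₁ - e₂ = algebraMap R L w * t) →
      ((∃ t ∈ Bfin, e₁ = algebraMap R L w * t) ∧ (∃ t ∈ Binf, e₂ = algebraMap R L w * t)) ∨
      ((∃ t ∈ Bfin, 1 - e₁ = algebraMap R L w * t) ∧
        (∃ t ∈ Binf, 1 - e₂ = algebraMap R L w * t)))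
    (τ : L ≃+* L) (hτfin : ∀ b, b ∈ Bfin ↔ τ b ∈ Bfin) (hτinf : ∀ b, b ∈ Binf ↔ τ b ∈ Binf)
    (τS : S → S) (hτM : ∀ s b, b ∈ M s ↔ τ b ∈ M (τS s))
    {C : Type*} (col : S → C) (h_col : ∀ s, col (τS s) = col s)
    (h_triv : ∀ s, τS s = s → ∀ b, b ∈ Bfin ∨ b ∈ Binf → τ b - b ∈ M s)
    (h_uni_fin : ∀ 𝔫 : Ideal Bfin, 𝔫.IsMaximal → ∀ s t, col s = col t →
      (∀ c : Bfin, (c : L) ∈ M s → c ∈ 𝔫) → (∀ c : Bfin, (c : L) ∈ M t → c ∈ 𝔫) → s = t)
    (h_uni_inf : ∀ 𝔫 : Ideal Binf, 𝔫.IsMaximal → ∀ s t, col s = col t →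
      (∀ c : Binf, (c : L) ∈ M s → c ∈ 𝔫) → (∀ c : Binf, (c : L) ∈ M t → c ∈ 𝔫) → s = t)
    (s₀ : S) (h₀ : τS s₀ = s₀) : ∀ s, τS s = s := by
  -- the restrictions of `τ⁻¹` to the two charts
  have hsymm_fin : ∀ b ∈ Bfin, (τ.symm : L →+* L) b ∈ Bfin := by
    intro b hb
    rw [hτfin]
    simpa using hb
  have hsymm_inf : ∀ b ∈ Binf, (τ.symm : L →+* L) b ∈ Binf := by
    intro b hb
    rw [hτinf]
    simpa using hb
  let ρ₁ : Bfin →+* Bfin := RingHom.restrict (τ.symm : L →+* L) Bfin Bfin hsymm_fin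
  let ρ₂ : Binf →+* Binf := RingHom.restrict (τ.symm : L →+* L) Binf Binf hsymm_inf
  have hρ₁ : ∀ b : Bfin, ((ρ₁ b : Bfin) : L) = τ.symm (b : L) := fun b => rfl
  have hρ₂ : ∀ b : Binf, ((ρ₂ b : Binf) : L) = τ.symm (b : L) := fun b => rfl
  have hsurj₁ : Function.Surjective ρ₁ := by
    intro b
    refine ⟨⟨τ (b : L), (hτfin _).1 b.2⟩, Subtype.ext ?_⟩
    rw [hρ₁]
    simp
  have hsurj₂ : Function.Surjective ρ₂ := by
    intro b
    refine ⟨⟨τ (b : L), (hτinf _).1 b.2⟩, Subtype.ext ?_⟩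
    rw [hρ₂]
    simp
  refine fixes_all_two ρ₁ hsurj₁ ρ₂ hsurj₂
    (fun s => chartIdeal Bfin (M s) (fun c hc => habs s c (hfm hc)))
    (fun s => chartIdeal Binf (M s) (fun c hc => habs s c (him hc)))
    τS col ?_ ?_ h_col ?_ ?_ ?_ ?_ ?_ s₀ h₀
  · intro s b hb
    rw [mem_chartIdeal] at hb ⊢
    rw [hρ₁, hτM s]
    simpa using hb
  · intro s b hb
    rw [mem_chartIdeal] at hb ⊢
    rw [hρ₂, hτM s]
    simpa using hb
  · intro s hs b
    rw [mem_chartIdeal]
    have h := h_triv s hs (τ.symm (b : L)) (Or.inl (hsymm_fin _ b.2))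
    have h2 : ((ρ₁ b - b : Bfin) : L) = -(τ (τ.symm (b : L)) - τ.symm (b : L)) := by
      rw [Subalgebra.coe_sub, hρ₁]
      simp
    rw [h2]
    exact (M s).neg_mem h
  · intro s hs b
    rw [mem_chartIdeal]
    have h := h_triv s hs (τ.symm (b : L)) (Or.inr (hsymm_inf _ b.2))
    have h2 : ((ρ₂ b - b : Binf) : L) = -(τ (τ.symm (b : L)) - τ.symm (b : L)) := by
      rw [Subalgebra.coe_sub, hρ₂]
      simp
    rw [h2]
    exact (M s).neg_mem h
  · intro 𝔫 h𝔫 s t hc hs ht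
    exact h_uni_fin 𝔫 h𝔫 s t hc (fun c hcM => hs hcM) (fun c hcM => ht hcM)
  · intro 𝔫 h𝔫 s t hc hs ht
    exact h_uni_inf 𝔫 h𝔫 s t hc (fun c hcM => hs hcM) (fun c hcM => ht hcM)
  · intro s t
    refine Relation.ReflTransGen.mono ?_ _ _
      (sheetGraph_connected_sub w Bfin Binf Bmid M habs hfm him hM1 hwM hred_mid hred_fin
        hred_inf hcech s t)
    rintro a b (h | h)
    · left
      rintro ⟨c, hc, d, hd, hcd⟩
      exact h ⟨c.1, c.2, hc, d.1, d.2, hd, congrArg Subtype.val hcd⟩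
    · right
      rintro ⟨c, hc, d, hd, hcd⟩
      exact h ⟨c.1, c.2, hc, d.1, d.2, hd, congrArg Subtype.val hcd⟩

/-- **Route G, group part.**  `Γ` acts freely on the sheets, `τ̃` normalises `Γ` and fixes every
sheet: then `τ̃` commutes with `Γ`. -/
theorem wallG_comm (M : S → AddSubgroup L) (τ : L ≃+* L)
    (hall : ∀ s b, b ∈ M s ↔ τ b ∈ M s)
    (Γ : Subgroup (L ≃+* L))
    (hΓM : ∀ σ ∈ Γ, ∀ s, ∃ s', ∀ b, b ∈ M s ↔ σ b ∈ M s')
    (hfree : ∀ σ ∈ Γ, ∀ s, (∀ b, b ∈ M s ↔ σ b ∈ M s) → σ = 1)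
    (hnorm : ∀ σ ∈ Γ, τ * σ * τ⁻¹ ∈ Γ) (s₀ : S) :
    ∀ σ ∈ Γ, ∀ b, τ (σ b) = σ (τ b) := by
  intro σ hσ
  have hρ : σ⁻¹ * (τ * σ * τ⁻¹) ∈ Γ := Γ.mul_mem (Γ.inv_mem hσ) (hnorm σ hσ)
  obtain ⟨s', hs'⟩ := hΓM σ hσ s₀
  have h1 : σ⁻¹ * (τ * σ * τ⁻¹) = 1 := by
    refine hfree _ hρ s₀ (fun b => ?_)
    have e1 : (σ⁻¹ * (τ * σ * τ⁻¹)) b = σ.symm (τ (σ (τ.symm b))) := rfl
    rw [e1]
    -- `b ∈ M s₀ ↔ τ⁻¹ b ∈ M s₀ ↔ σ τ⁻¹ b ∈ M s' ↔ τ σ τ⁻¹ b ∈ M s' ↔ σ⁻¹ τ σ τ⁻¹ b ∈ M s₀`
    have a1 : b ∈ M s₀ ↔ τ.symm b ∈ M s₀ := by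
      rw [hall s₀ (τ.symm b)]
      simp
    have a2 : τ.symm b ∈ M s₀ ↔ σ (τ.symm b) ∈ M s' := hs' _
    have a3 : σ (τ.symm b) ∈ M s' ↔ τ (σ (τ.symm b)) ∈ M s' := hall s' _
    have a4 : σ.symm (τ (σ (τ.symm b))) ∈ M s₀ ↔ τ (σ (τ.symm b)) ∈ M s' := by
      rw [hs' (σ.symm (τ (σ (τ.symm b))))]
      simp
    rw [a1, a2, a3, a4]
  have h2 : τ * σ * τ⁻¹ = σ := by
    have := congrArg (fun ρ => σ * ρ) h1
    simpa [mul_assoc] using this
  have h3 : τ * σ = σ * τ := by
    have := congrArg (fun ρ => ρ * τ) h2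
    simpa [mul_assoc] using this
  intro b
  have := congrArg (fun ρ : L ≃+* L => ρ b) h3
  simpa using this

/-- **Route G: the WALL, field form.**  Under the hypotheses of `wallG_fixes` and `wallG_comm`,
for every Kummer generator `y` (each `σ ∈ Γ` multiplies `y` by a `τ̃`-fixed root of unity) the
quotient `τ̃ y / y` is `Γ`-invariant. -/
theorem wallG [Fintype S] (w : R) (Bfin Binf Bmid : Subalgebra R L)
    (M : S → AddSubgroup L)
    (habs : ∀ s, ∀ c ∈ Bmid, ∀ a ∈ M s, c * a ∈ M s)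
    (hfm : Bfin ≤ Bmid) (him : Binf ≤ Bmid)
    (hM1 : ∀ s, (1 : L) ∉ M s) (hwM : ∀ s, algebraMap R L w ∈ M s)
    (hred_mid : ∀ b ∈ Bmid, (∀ s, b ∈ M s) → ∃ t ∈ Bmid, b = algebraMap R L w * t)
    (hred_fin : ∀ b ∈ Bfin, (∀ s, b ∈ M s) → ∃ t ∈ Bfin, b = algebraMap R L w * t)
    (hred_inf : ∀ b ∈ Binf, (∀ s, b ∈ M s) → ∃ t ∈ Binf, b = algebraMap R L w * t)
    (hcech : ∀ e₁ e₂ : L, e₁ ∈ Bfin → e₂ ∈ Binf →
      (∃ t ∈ Bfin, e₁ ^ 2 - e₁ = algebraMap R L w * t) →
      (∃ t ∈ Binf, e₂ ^ 2 - e₂ = algebraMap R L w * t) →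
      (∃ t ∈ Bmid, e₁ - e₂ = algebraMap R L w * t) →
      ((∃ t ∈ Bfin, e₁ = algebraMap R L w * t) ∧ (∃ t ∈ Binf, e₂ = algebraMap R L w * t)) ∨
      ((∃ t ∈ Bfin, 1 - e₁ = algebraMap R L w * t) ∧
        (∃ t ∈ Binf, 1 - e₂ = algebraMap R L w * t)))
    (τ : L ≃+* L) (hτfin : ∀ b, b ∈ Bfin ↔ τ b ∈ Bfin) (hτinf : ∀ b, b ∈ Binf ↔ τ b ∈ Binf)
    (hτM : ∀ s, ∃ s', ∀ b, b ∈ M s ↔ τ b ∈ M s')
    (hMinj : Function.Injective M)
    {C : Type*} (col : S → C)
    (h_col : ∀ s s', (∀ b, b ∈ M s ↔ τ b ∈ M s') → col s' = col s)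
    (h_triv : ∀ s, (∀ b, b ∈ M s ↔ τ b ∈ M s) → ∀ b, b ∈ Bfin ∨ b ∈ Binf → τ b - b ∈ M s)
    (h_uni_fin : ∀ 𝔫 : Ideal Bfin, 𝔫.IsMaximal → ∀ s t, col s = col t →
      (∀ c : Bfin, (c : L) ∈ M s → c ∈ 𝔫) → (∀ c : Bfin, (c : L) ∈ M t → c ∈ 𝔫) → s = t)
    (h_uni_inf : ∀ 𝔫 : Ideal Binf, 𝔫.IsMaximal → ∀ s t, col s = col t →
      (∀ c : Binf, (c : L) ∈ M s → c ∈ 𝔫) → (∀ c : Binf, (c : L) ∈ M t → c ∈ 𝔫) → s = t)
    (s₀ : S) (h₀ : ∀ b, b ∈ M s₀ ↔ τ b ∈ M s₀)
    (Γ : Subgroup (L ≃+* L))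
    (hΓM : ∀ σ ∈ Γ, ∀ s, ∃ s', ∀ b, b ∈ M s ↔ σ b ∈ M s')
    (hfree : ∀ σ ∈ Γ, ∀ s, (∀ b, b ∈ M s ↔ σ b ∈ M s) → σ = 1)
    (hnorm : ∀ σ ∈ Γ, τ * σ * τ⁻¹ ∈ Γ)
    (y : L) (hy : y ≠ 0) (hζ : ∀ σ ∈ Γ, ∃ ζ : L, σ y = ζ * y ∧ τ ζ = ζ) :
    ∀ σ ∈ Γ, σ (τ y / y) = τ y / y := by
  choose τS hτS using hτM
  -- a sheet `s'` with `τ (M s) = M s'` is `τS s`
  have huniq : ∀ s s', (∀ b, b ∈ M s ↔ τ b ∈ M s') → τS s = s' := by
    intro s s' h
    apply hMinj
    ext c
    have h1 := hτS s (τ.symm c)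
    have h2 := h (τ.symm c)
    simp only [RingEquiv.apply_symm_apply] at h1 h2
    rw [← h1, h2]
  have hfix := wallG_fixes w Bfin Binf Bmid M habs hfm him hM1 hwM hred_mid hred_fin hred_inf
    hcech τ hτfin hτinf τS hτS col (fun s => h_col s (τS s) (hτS s))
    (fun s hs b hb => h_triv s (fun c => by
      have := hτS s c
      rwa [hs] at this) b hb)
    h_uni_fin h_uni_inf s₀ (huniq s₀ s₀ h₀)
  have hall : ∀ s b, b ∈ M s ↔ τ b ∈ M s := by
    intro s b
    have := hτS s b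
    rwa [hfix s] at this
  have hcomm := wallG_comm M τ hall Γ hΓM hfree hnorm s₀
  exact kummer_of_commute (Γ : Set (L ≃+* L)) τ y hy (fun g hg => hcomm g hg y)
    (fun g hg => hζ g hg)

end Val

end Fermat.Agent.A2.H12

end
-- ===== PACK-END A2/H12/WallG.lean

-- ===== PACK-BEGIN S24/Mod/H997Bridge.lean
section


/-!
# S24 / MOD — analytic interface (`HolBase`) and the bridge `e : R_N → Hol`

`HolBase N` packages a ring `Hol` of functions `ℍ → ℂ` (intended: holomorphic functions on `ℍ`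
invariant under `Γ(N)` and meromorphic at the cusps), stable under the action of `SL(2,ℤ)`,
containing the functions `J d = (τ ↦ j(dτ))` for `d ∣ N`, together with ONE injective expansion
ring hom `qexp : Hol →+* ℂ((z))` (intended: expansion at `i∞` in `z = q^{1/N}`) such that the
expansion of `J d` is the formal series `jq(z^{N d})` of the Prelude.

From this we construct the *bridge* `e : R_N →+* Hol` (injective, `e (j(q^d)) = J d`,
`e c = const (ι c)`), i.e. "formal relation ⇔ analytic relation".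
-/

set_option autoImplicit false

noncomputable section

open ModularCurve HahnSeries UpperHalfPlane
open scoped MatrixGroups

namespace Fermat.Agent.S24.H997

/-- Precomposition of a function on `ℍ` with the action of `g ∈ SL(2,ℤ)`. -/
def compSL (g : SL(2, ℤ)) (f : ℍ → ℂ) : ℍ → ℂ := fun τ => f (g • τ)

@[simp] theorem compSL_apply (g : SL(2, ℤ)) (f : ℍ → ℂ) (τ : ℍ) : compSL g f τ = f (g • τ) := rfl

theorem compSL_one (f : ℍ → ℂ) : compSL 1 f = f := by
  funext τ; simp [compSL]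

theorem compSL_mul (g h : SL(2, ℤ)) (f : ℍ → ℂ) : compSL (g * h) f = compSL h (compSL g f) := by
  funext τ; simp [compSL, mul_smul]

/-- The fixed embedding `ℚ̄ → ℂ`. -/
def ιKAlg : Kbar →ₐ[ℚ] ℂ :=
  haveI : Algebra.IsAlgebraic ℚ (AlgebraicClosure ℚ) := AlgebraicClosure.isAlgebraic ℚ
  IsAlgClosed.lift

/-- The fixed embedding `ℚ̄ → ℂ`. -/
def ιK : Kbar →+* ℂ := ιKAlg.toRingHom

theorem ιK_injective : Function.Injective ιK := ιK.injective

theorem ιK_algebraMap (c : ℚ) : ιK (algebraMap ℚ Kbar c) = (c : ℂ) := by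
  have := ιKAlg.commutes c
  simpa [ιK] using this

/-- Basic analytic interface. -/
structure HolBase (N : ℕ) [NeZero N] where
  /-- the ring of nice functions on `ℍ` -/
  Hol : Subring (ℍ → ℂ)
  const_mem : ∀ c : ℂ, (fun _ : ℍ => c) ∈ Hol
  comp_mem : ∀ (g : SL(2, ℤ)) (f : ℍ → ℂ), f ∈ Hol → compSL g f ∈ Hol
  /-- `J d τ = j(dτ)` -/
  J : ℕ → ℍ → ℂ
  J_mem : ∀ d, d ∣ N → J d ∈ Hol
  J_one_inv : ∀ (g : SL(2, ℤ)) (τ : ℍ), J 1 (g • τ) = J 1 τ
  J_inv : ∀ d, d ∣ N → ∀ g ∈ CongruenceSubgroup.Gamma0 N, ∀ τ : ℍ, J d (g • τ) = J d τ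
  J_distinct : ∀ g : SL(2, ℤ), (∀ τ : ℍ, J N (g • τ) = J N τ) → g ∈ CongruenceSubgroup.Gamma0 N
  /-- expansion at `i∞` in the variable `z = q^{1/N}` -/
  qexp : Hol →+* LaurentSeries ℂ
  qexp_injective : Function.Injective qexp
  qexp_const : ∀ c : ℂ, qexp ⟨_, const_mem c⟩ = HahnSeries.C c
  qexp_J : ∀ (d : ℕ) (hd : d ∣ N) (k : ℤ),
    (qexp ⟨J d, J_mem d hd⟩).coeff k
      = if ((N * d : ℕ) : ℤ) ∣ k then ((jq.coeff (k / ((N * d : ℕ) : ℤ)) : ℚ) : ℂ) else 0

namespace HolBase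

variable {N : ℕ} [NeZero N] (B : HolBase N)

/-- constant functions as elements of `Hol` -/
def constH (c : ℂ) : B.Hol := ⟨_, B.const_mem c⟩

/-- `J d` as an element of `Hol` -/
def JH (d : ℕ) (hd : d ∣ N) : B.Hol := ⟨B.J d, B.J_mem d hd⟩

/-- precomposition with `g ∈ SL(2,ℤ)` as a ring endomorphism of `Hol` -/
def compH (g : SL(2, ℤ)) : B.Hol →+* B.Hol where
  toFun h := ⟨compSL g h.1, B.comp_mem g h.1 h.2⟩
  map_one' := rfl
  map_mul' _ _ := rfl
  map_zero' := rfl
  map_add' _ _ := rfl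

@[simp] theorem compH_apply (g : SL(2, ℤ)) (h : B.Hol) (τ : ℍ) :
    (B.compH g h : ℍ → ℂ) τ = (h : ℍ → ℂ) (g • τ) := rfl

theorem compH_one (h : B.Hol) : B.compH 1 h = h := by
  apply Subtype.ext; funext τ; simp

theorem compH_mul (g g' : SL(2, ℤ)) (h : B.Hol) :
    B.compH (g * g') h = B.compH g' (B.compH g h) := by
  apply Subtype.ext; funext τ; simp [mul_smul]

theorem compH_injective (g : SL(2, ℤ)) : Function.Injective (B.compH g) := by
  intro h h' hh
  have := congrArg (B.compH g⁻¹) hh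
  rwa [← compH_mul, ← compH_mul, mul_inv_cancel, compH_one, compH_one] at this

theorem compH_constH (g : SL(2, ℤ)) (c : ℂ) : B.compH g (B.constH c) = B.constH c := rfl

theorem compH_JH_one (g : SL(2, ℤ)) : B.compH g (B.JH 1 (one_dvd N)) = B.JH 1 (one_dvd N) := by
  apply Subtype.ext; funext τ; exact B.J_one_inv g τ

theorem compH_JH_of_mem (d : ℕ) (hd : d ∣ N) {g : SL(2, ℤ)}
    (hg : g ∈ CongruenceSubgroup.Gamma0 N) : B.compH g (B.JH d hd) = B.JH d hd := by
  apply Subtype.ext; funext τ; exact B.J_inv d hd g hg τ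

/-- The formal comparison map `ℚ̄((q)) → ℂ((z))`, `q ↦ z^N`, coefficients via `ιK`. -/
def Φ (N : ℕ) [NeZero N] : LaurentSeries Kbar →+* LaurentSeries ℂ :=
  (qExpand ℂ N).comp (coeffMap ιK)

theorem Φ_injective : Function.Injective (Φ N) := by
  intro x y h
  have h1 : coeffMap ιK x = coeffMap ιK y := qExpand_injective N h
  ext k
  apply ιK_injective
  have := congrArg (fun s => s.coeff k) h1
  simpa using this

theorem Φ_coeff (x : LaurentSeries Kbar) (k : ℤ) :
    (Φ N x).coeff k = if (N : ℤ) ∣ k then ιK (x.coeff (k / N)) else 0 := by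
  split_ifs with h
  · obtain ⟨m, rfl⟩ := h
    have hN : (N : ℤ) ≠ 0 := by exact_mod_cast NeZero.ne N
    rw [Int.mul_ediv_cancel_left _ hN]
    show (qExpand ℂ N (coeffMap ιK x)).coeff (N * m) = _
    rw [qExpand_coeff_mul]; rfl
  · exact qExpand_coeff_of_not_dvd N _ h

theorem Φ_algebraMap (c : Kbar) :
    Φ N (algebraMap Kbar (LaurentSeries Kbar) c) = HahnSeries.C (ιK c) := by
  rw [algebraMap_laurentSeries_eq_single]
  show qExpand ℂ N (coeffMap ιK (HahnSeries.single 0 c)) = _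
  rw [coeffMap_single, qExpand_single, mul_zero]; rfl

theorem Φ_gen (d : ℕ) [NeZero d] (hd : d ∣ N) :
    Φ N (coeffEmb Kbar (qExpand ℚ d jq)) = B.qexp (B.JH d hd) := by
  ext k
  rw [Φ_coeff]
  show _ = (B.qexp ⟨B.J d, B.J_mem d hd⟩).coeff k
  rw [B.qexp_J d hd k]
  have hN : (N : ℤ) ≠ 0 := by exact_mod_cast NeZero.ne N
  have hd0 : (d : ℤ) ≠ 0 := by exact_mod_cast NeZero.ne d
  by_cases h1 : (N : ℤ) ∣ k
  · obtain ⟨m, rfl⟩ := h1
    rw [if_pos (dvd_mul_right _ _), Int.mul_ediv_cancel_left _ hN, coeffEmb_coeff, ιK_algebraMap]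
    by_cases h2 : (d : ℤ) ∣ m
    · obtain ⟨l, rfl⟩ := h2
      have h3 : ((N * d : ℕ) : ℤ) ∣ (N : ℤ) * (d * l) := ⟨l, by push_cast; ring⟩
      rw [if_pos h3, qExpand_coeff_mul]
      have : (N : ℤ) * (d * l) / ((N * d : ℕ) : ℤ) = l := by
        have h4 : (N : ℤ) * (d * l) = ((N * d : ℕ) : ℤ) * l := by push_cast; ring
        rw [h4, Int.mul_ediv_cancel_left]
        exact_mod_cast (Nat.mul_ne_zero (NeZero.ne N) (NeZero.ne d))
      rw [this]
    · have h3 : ¬ ((N * d : ℕ) : ℤ) ∣ (N : ℤ) * m := by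
        rintro ⟨l, hl⟩
        apply h2
        refine ⟨l, ?_⟩
        have : (N : ℤ) * m = N * (d * l) := by rw [hl]; push_cast; ring
        exact mul_left_cancel₀ hN this
      rw [if_neg h3, qExpand_coeff_of_not_dvd d _ h2]
      simp
  · have h3 : ¬ ((N * d : ℕ) : ℤ) ∣ k := by
      intro h; apply h1
      exact dvd_trans ⟨(d : ℤ), by push_cast; ring⟩ h
    rw [if_neg h1, if_neg h3]

theorem Φ_mem_range {r : LaurentSeries Kbar} (hr : r ∈ RN N) : Φ N r ∈ B.qexp.range := by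
  induction hr using Algebra.adjoin_induction with
  | mem x hx =>
      obtain ⟨y, ⟨d, hne, hd, rfl⟩, rfl⟩ := hx
      exact ⟨B.JH d hd, (B.Φ_gen d hd).symm⟩
  | algebraMap c =>
      exact ⟨B.constH (ιK c), by rw [Φ_algebraMap]; exact B.qexp_const _⟩
  | add _ _ _ _ hx hy => rw [map_add]; exact add_mem hx hy
  | mul _ _ _ _ hx hy => rw [map_mul]; exact mul_mem hx hy

/-- `Hol ≃ range qexp`. -/
def qexpEquiv : B.Hol ≃+* B.qexp.range :=
  RingEquiv.ofBijective B.qexp.rangeRestrict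
    ⟨fun x y h => B.qexp_injective (congrArg Subtype.val h), B.qexp.rangeRestrict_surjective⟩

/-- The bridge `e : R_N →+* Hol`. -/
def bridge : RN N →+* B.Hol :=
  (B.qexpEquiv.symm : B.qexp.range →+* B.Hol).comp
    (((Φ N).comp (RN N).val.toRingHom).codRestrict B.qexp.range fun r => B.Φ_mem_range r.2)

theorem qexp_bridge (r : RN N) : B.qexp (B.bridge r) = Φ N (r : LaurentSeries Kbar) := by
  have h := B.qexpEquiv.apply_symm_apply
    ((((Φ N).comp (RN N).val.toRingHom).codRestrict B.qexp.range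
      fun r => B.Φ_mem_range r.2) r)
  exact congrArg Subtype.val h

theorem bridge_injective : Function.Injective B.bridge := by
  intro r r' h
  apply Subtype.ext
  apply Φ_injective (N := N)
  rw [← qexp_bridge, ← qexp_bridge, h]

theorem bridge_algebraMap (c : Kbar) : B.bridge (algebraMap Kbar (RN N) c) = B.constH (ιK c) := by
  apply B.qexp_injective
  rw [qexp_bridge]
  show Φ N (algebraMap Kbar (LaurentSeries Kbar) c) = _
  rw [Φ_algebraMap]
  exact (B.qexp_const _).symm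

theorem bridge_jR (d : ℕ) [NeZero d] (hd : d ∣ N) : B.bridge (jR N d hd) = B.JH d hd := by
  apply B.qexp_injective
  rw [qexp_bridge]
  exact B.Φ_gen d hd

/-- Every `e r` is `Γ₀(N)`-invariant. -/
theorem compH_bridge_of_mem {g : SL(2, ℤ)} (hg : g ∈ CongruenceSubgroup.Gamma0 N) (r : RN N) :
    B.compH g (B.bridge r) = B.bridge r := by
  obtain ⟨r, hr⟩ := r
  induction hr using Algebra.adjoin_induction with
  | mem x hx =>
      obtain ⟨y, ⟨d, hne, hd, rfl⟩, rfl⟩ := hx
      have : (⟨coeffEmb Kbar (qExpand ℚ d jq), Algebra.subset_adjoin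
          ⟨_, ⟨d, hne, hd, rfl⟩, rfl⟩⟩ : RN N) = jR N d hd := rfl
      rw [this, bridge_jR]
      exact B.compH_JH_of_mem d hd hg
  | algebraMap c =>
      have : (⟨algebraMap Kbar (LaurentSeries Kbar) c, Subalgebra.algebraMap_mem _ c⟩ : RN N)
          = algebraMap Kbar (RN N) c := rfl
      rw [this, bridge_algebraMap]
      rfl
  | add x y hx hy ihx ihy =>
      have : (⟨x + y, add_mem hx hy⟩ : RN N) = ⟨x, hx⟩ + ⟨y, hy⟩ := rfl
      rw [this, map_add, map_add, ihx, ihy]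
  | mul x y hx hy ihx ihy =>
      have : (⟨x * y, mul_mem hx hy⟩ : RN N) = ⟨x, hx⟩ * ⟨y, hy⟩ := rfl
      rw [this, map_mul, map_mul, ihx, ihy]

end HolBase

end Fermat.Agent.S24.H997

end
end
-- ===== PACK-END S24/Mod/H997Bridge.lean

-- ===== PACK-BEGIN S24/Mod/H997Local.lean
section


/-!
# S24 / MOD — construction of `LocalData` from an abstract expansion with rotation data
-/

set_option autoImplicit false

noncomputable section

open ModularCurve HahnSeries UpperHalfPlane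
open scoped MatrixGroups

namespace Fermat.Agent.S24.H997

/-! ### The "rotation relation" on Laurent series -/

/-- `b` has the same order as `a`, and leading coefficient `ζ ^ order * (leading coeff of a)`. -/
def RotRel (ζ : ℂ) (a b : LaurentSeries ℂ) : Prop :=
  b.order = a.order ∧ b.leadingCoeff = ζ ^ a.order * a.leadingCoeff

namespace RotRel

variable {ζ : ℂ} {a b a' b' : LaurentSeries ℂ}

theorem zero : RotRel ζ 0 0 := ⟨rfl, by simp⟩

theorem eq_zero_iff (h : RotRel ζ a b) (hζ : ζ ≠ 0) : b = 0 ↔ a = 0 := by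
  rw [← leadingCoeff_eq_zero (x := b), ← leadingCoeff_eq_zero (x := a), h.2]
  simp [zpow_ne_zero _ hζ]

theorem mul (hζ : ζ ≠ 0) (h : RotRel ζ a b) (h' : RotRel ζ a' b') :
    RotRel ζ (a * a') (b * b') := by
  by_cases ha : a = 0
  · have hb : b = 0 := (h.eq_zero_iff hζ).mpr ha
    simp only [ha, hb, zero_mul]; exact zero
  by_cases ha' : a' = 0
  · have hb' : b' = 0 := (h'.eq_zero_iff hζ).mpr ha'
    simp only [ha', hb', mul_zero]; exact zero
  have hb : b ≠ 0 := fun hb => ha ((h.eq_zero_iff hζ).mp hb)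
  have hb' : b' ≠ 0 := fun hb' => ha' ((h'.eq_zero_iff hζ).mp hb')
  have hab : a.leadingCoeff * a'.leadingCoeff ≠ 0 :=
    mul_ne_zero (leadingCoeff_ne_zero.mpr ha) (leadingCoeff_ne_zero.mpr ha')
  have hbb : b.leadingCoeff * b'.leadingCoeff ≠ 0 :=
    mul_ne_zero (leadingCoeff_ne_zero.mpr hb) (leadingCoeff_ne_zero.mpr hb')
  refine ⟨?_, ?_⟩
  · rw [order_mul_of_ne_zero hab, order_mul_of_ne_zero hbb, h.1, h'.1]
  · rw [leadingCoeff_mul, leadingCoeff_mul, order_mul_of_ne_zero hab, h.2, h'.2, zpow_add₀ hζ]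
    ring

theorem one : RotRel ζ 1 1 := ⟨rfl, by simp⟩

theorem order_inv' {x : LaurentSeries ℂ} (hx : x ≠ 0) : x⁻¹.order = -x.order := by
  have hxi : x⁻¹ ≠ 0 := inv_ne_zero hx
  have h : x.leadingCoeff * x⁻¹.leadingCoeff ≠ 0 :=
    mul_ne_zero (leadingCoeff_ne_zero.mpr hx) (leadingCoeff_ne_zero.mpr hxi)
  have := order_mul_of_ne_zero h
  rw [mul_inv_cancel₀ hx, order_one] at this
  omega

theorem leadingCoeff_inv' {x : LaurentSeries ℂ} (hx : x ≠ 0) :
    x⁻¹.leadingCoeff = (x.leadingCoeff)⁻¹ := by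
  have := leadingCoeff_mul x x⁻¹
  rw [mul_inv_cancel₀ hx, leadingCoeff_one] at this
  exact eq_inv_of_mul_eq_one_right this.symm

theorem inv (hζ : ζ ≠ 0) (h : RotRel ζ a b) : RotRel ζ a⁻¹ b⁻¹ := by
  by_cases ha : a = 0
  · have hb : b = 0 := (h.eq_zero_iff hζ).mpr ha
    simp only [ha, hb, inv_zero]; exact zero
  have hb : b ≠ 0 := fun hb => ha ((h.eq_zero_iff hζ).mp hb)
  refine ⟨?_, ?_⟩
  · rw [order_inv' hb, order_inv' ha, h.1]
  · rw [leadingCoeff_inv' hb, leadingCoeff_inv' ha, order_inv' ha, h.2, mul_inv, zpow_neg]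

theorem div (hζ : ζ ≠ 0) (h : RotRel ζ a b) (h' : RotRel ζ a' b') :
    RotRel ζ (a / a') (b / b') := by
  rw [div_eq_mul_inv, div_eq_mul_inv]
  exact h.mul hζ (h'.inv hζ)

end RotRel

variable {N : ℕ} [NeZero N]

/-- An abstract injective expansion ring hom on `Hol`. -/
structure Expansion (B : HolBase N) where
  E : B.Hol →+* LaurentSeries ℂ
  inj : Function.Injective E
  const : ∀ c : ℂ, E (B.constH c) = HahnSeries.C c

/-- Rotation data for an expansion: precomposition with `ε` rotates the local coordinate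
by the primitive `m`-th root of unity `ζ` (to first order). -/
structure RotData (B : HolBase N) (X : Expansion B) (ε : SL(2, ℤ)) where
  m : ℕ
  m_pos : 0 < m
  ζ : ℂ
  hζ : IsPrimitiveRoot ζ m
  rot : ∀ h : B.Hol, RotRel ζ (X.E h) (X.E (B.compH ε h))

namespace HolBase

variable (B : HolBase N) (X : Expansion B)

/-- the ring hom `R_N → ℂ((z))`, `r ↦ E (e r ∘ g⁻¹)` -/
def sG (g : SL(2, ℤ)) : RN N →+* LaurentSeries ℂ :=
  X.E.comp ((B.compH g⁻¹).comp B.bridge)

theorem sG_apply (g : SL(2, ℤ)) (r : RN N) :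
    B.sG X g r = X.E (B.compH g⁻¹ (B.bridge r)) := rfl

theorem sG_injective (g : SL(2, ℤ)) : Function.Injective (B.sG X g) :=
  X.inj.comp ((B.compH_injective g⁻¹).comp B.bridge_injective)

/-- the embedding `FF N → ℂ((z))` attached to `g` -/
def sigmaG (g : SL(2, ℤ)) : FF N →+* LaurentSeries ℂ :=
  liftF (B.sG X g) (B.sG_injective X g)

theorem sigmaG_inclRN (g : SL(2, ℤ)) (r : RN N) :
    B.sigmaG X g (inclRN N r) = X.E (B.compH g⁻¹ (B.bridge r)) :=
  liftF_inclRN _ _ r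

theorem sigmaG_algebraMap (g : SL(2, ℤ)) (c : Kbar) :
    B.sigmaG X g (algebraMap Kbar (FF N) c) = HahnSeries.C (ιK c) := by
  rw [sigmaG, liftF_algebraMap, sG_apply, bridge_algebraMap, compH_constH, X.const]

theorem sigmaG_jF (g : SL(2, ℤ)) :
    B.sigmaG X g (jF N) = X.E (B.JH 1 (one_dvd N)) := by
  rw [← inclRN_jR_one, sigmaG_inclRN, bridge_jR, compH_JH_one]

theorem sG_mul_of_mem (g : SL(2, ℤ)) {δ : SL(2, ℤ)} (hδ : δ ∈ CongruenceSubgroup.Gamma0 N) :
    B.sG X (g * δ) = B.sG X g := by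
  ext1 r
  rw [sG_apply, sG_apply, mul_inv_rev, compH_mul,
    B.compH_bridge_of_mem (inv_mem hδ)]

theorem sigmaG_mul_of_mem (g : SL(2, ℤ)) {δ : SL(2, ℤ)}
    (hδ : δ ∈ CongruenceSubgroup.Gamma0 N) : B.sigmaG X (g * δ) = B.sigmaG X g := by
  unfold sigmaG
  congr 1
  exact B.sG_mul_of_mem X g hδ

theorem sigmaG_eq_of_mk_eq {g g' : SL(2, ℤ)}
    (h : (g : XX N) = (g' : XX N)) : B.sigmaG X g = B.sigmaG X g' := by
  have hmem : g⁻¹ * g' ∈ CongruenceSubgroup.Gamma0 N := QuotientGroup.eq.mp h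
  have := B.sigmaG_mul_of_mem X g hmem
  rw [mul_inv_cancel_left] at this
  exact this.symm

/-- the embedding attached to a coset -/
def sigmaX (x : XX N) : FF N →+* LaurentSeries ℂ := B.sigmaG X (Quotient.out x)

theorem sigmaX_mk (g : SL(2, ℤ)) : B.sigmaX X (g : XX N) = B.sigmaG X g :=
  B.sigmaG_eq_of_mk_eq X (QuotientGroup.out_eq' _)

theorem sigmaX_injective : Function.Injective (B.sigmaX X) := by
  intro x y hxy
  obtain ⟨g, rfl⟩ := QuotientGroup.mk_surjective x
  obtain ⟨g', rfl⟩ := QuotientGroup.mk_surjective y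
  rw [sigmaX_mk, sigmaX_mk] at hxy
  have h1 := congrArg (fun s => s (inclRN N (jR N N dvd_rfl))) hxy
  simp only [sigmaG_inclRN, bridge_jR] at h1
  have h2 := X.inj h1
  apply QuotientGroup.eq.mpr
  apply B.J_distinct
  intro τ
  have h3 := congrArg (fun h : B.Hol => (h : ℍ → ℂ) (g' • τ)) h2
  simp only [compH_apply] at h3
  rw [← mul_smul, ← mul_smul, inv_mul_cancel, one_smul] at h3
  exact h3

theorem rotRel_sigmaG (ε : SL(2, ℤ)) (R : RotData B X ε) (g : SL(2, ℤ)) (f : FF N) :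
    RotRel R.ζ (B.sigmaG X g f) (B.sigmaG X (ε⁻¹ * g) f) := by
  have hζ : R.ζ ≠ 0 := R.hζ.ne_zero R.m_pos.ne'
  obtain ⟨r, t, -, rfl⟩ := exists_div_inclRN N f
  rw [map_div₀, map_div₀]
  have key : ∀ r : RN N, RotRel R.ζ (B.sigmaG X g (inclRN N r))
      (B.sigmaG X (ε⁻¹ * g) (inclRN N r)) := by
    intro r
    rw [sigmaG_inclRN, sigmaG_inclRN, mul_inv_rev, inv_inv, compH_mul]
    exact R.rot _
  exact (key r).div hζ (key t)

/-- `LocalData` from an expansion with rotation data. -/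
def mkLocalData (ε : SL(2, ℤ)) (R : RotData B X ε) (t : FF N) (u : LaurentSeries ℂ)
    (ht : ∀ g : SL(2, ℤ), B.sigmaG X g t = u) (hu : u.order = (R.m : ℤ)) :
    LocalData Kbar (FF N) ℂ (XX N) t where
  m := R.m
  m_pos := R.m_pos
  ζ := R.ζ
  hζ := R.hζ
  ι := ιK
  perm := permOf N ε⁻¹
  σ := B.sigmaX X
  σ_inj := B.sigmaX_injective X
  σ_const x c := B.sigmaG_algebraMap X _ c
  σ_t_eq x y := by
    show B.sigmaG X _ t = B.sigmaG X _ t
    rw [ht, ht]
  σ_t_order x := by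
    show (B.sigmaG X _ t).order = _
    rw [ht, hu]
  σ_perm_order x f := by
    obtain ⟨g, rfl⟩ := QuotientGroup.mk_surjective x
    have h : permOf N ε⁻¹ (g : XX N) = ((ε⁻¹ * g : SL(2, ℤ)) : XX N) := rfl
    rw [h, sigmaX_mk, sigmaX_mk]
    exact (B.rotRel_sigmaG X ε R g f).1
  σ_perm_leadingCoeff x f := by
    obtain ⟨g, rfl⟩ := QuotientGroup.mk_surjective x
    have h : permOf N ε⁻¹ (g : XX N) = ((ε⁻¹ * g : SL(2, ℤ)) : XX N) := rfl
    rw [h, sigmaX_mk, sigmaX_mk]
    exact (B.rotRel_sigmaG X ε R g f).2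

@[simp] theorem mkLocalData_perm (ε : SL(2, ℤ)) (R : RotData B X ε) (t : FF N)
    (u : LaurentSeries ℂ) (ht : ∀ g : SL(2, ℤ), B.sigmaG X g t = u)
    (hu : u.order = (R.m : ℤ)) :
    (B.mkLocalData X ε R t u ht hu).perm = permOf N ε⁻¹ := rfl

end HolBase

end Fermat.Agent.S24.H997

end
end
-- ===== PACK-END S24/Mod/H997Local.lean

-- ===== PACK-BEGIN S29/H509/TwistedMF.lean
section


/-!
# Twisted Eisenstein series: modular forms and twisted quotients (helper509, S29 piece TES, file 3)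

For a finite index subgroup `Γ ≤ SL(2, ℤ)` and a character `χ : Γ →* ℂˣ` with `χ ^ p = 1`,
trivial on the stabiliser of `∞` in `Γ`:

* `twEisPowMF` : the `p`-th power of the twisted Eisenstein series as a `ModularForm Γ (k * p)`;
* `twEisOneMF` : the untwisted Eisenstein series of `Γ` as a `ModularForm Γ k`;
* `exists_twisted_pair` : the summary statement used downstream.
-/

set_option autoImplicit false

namespace Fermat.Agent.S29.H509

open ModularForm UpperHalfPlane Matrix CongruenceSubgroup EisensteinSeries Filter Topology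
open scoped MatrixGroups Manifold

noncomputable section

/-- Slash action on powers. -/
lemma pow_slash_SL2 (f : ℍ → ℂ) (k : ℤ) (n : ℕ) (A : SL(2, ℤ)) :
    (f ^ n) ∣[k * n] A = (f ∣[k] A) ^ n := by
  ext z
  simp only [SL_slash_apply, Pi.pow_apply, mul_pow]
  congr 1
  rw [← zpow_natCast, ← _root_.zpow_mul, neg_mul]

lemma isBoundedAtImInfty_pow {f : ℍ → ℂ} (hf : IsBoundedAtImInfty f) (n : ℕ) :
    IsBoundedAtImInfty (f ^ n) := by
  induction n with
  | zero =>
    simp only [pow_zero]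
    exact Filter.const_boundedAtFilter _ (1 : ℂ)
  | succ n ih =>
    rw [pow_succ]
    exact Filter.BoundedAtFilter.mul ih hf

lemma norm_eq_one_of_pow_eq_one' {u : ℂˣ} {p : ℕ} (hp : p ≠ 0) (h : u ^ p = 1) :
    ‖(u : ℂ)‖ = 1 := by
  have h1 : (u : ℂ) ^ p = 1 := by
    have := congrArg (fun x : ℂˣ => (x : ℂ)) h
    simpa using this
  exact Complex.norm_eq_one_of_pow_eq_one h1 hp

variable {Γ : Subgroup SL(2, ℤ)}

/-- The `p`-th power of the twisted Eisenstein series is slash invariant under `Γ`. -/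
lemma twEis_pow_slash {χ : Γ →* ℂˣ} (hχ : TrivOnUnip χ) {p : ℕ} (hχp : ∀ γ, χ γ ^ p = 1)
    (k : ℤ) (δ : Γ) :
    (twEis χ k ^ p) ∣[k * p] (δ : SL(2, ℤ)) = twEis χ k ^ p := by
  rw [pow_slash_SL2, twEis_slash hχ]
  ext z
  simp only [Pi.pow_apply, Pi.smul_apply, smul_eq_mul, mul_pow]
  have h1 : (χ δ : ℂ) ^ p = 1 := by
    have := congrArg (fun x : ℂˣ => (x : ℂ)) (hχp δ)
    simpa using this
  rw [h1, one_mul]

/-- The `p`-th power of the twisted Eisenstein series, as a modular form of weight `k * p`. -/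
def twEisPowMF [Γ.FiniteIndex] (χ : Γ →* ℂˣ) (hχ : TrivOnUnip χ) {p : ℕ} (hp : p ≠ 0)
    (hχp : ∀ γ, χ γ ^ p = 1) {k : ℤ} (hk : 3 ≤ k) :
    ModularForm (Γ : Subgroup (GL (Fin 2) ℝ)) (k * p) where
  toFun := twEis χ k ^ p
  slash_action_eq' A hA := by
    obtain ⟨A, hA, rfl⟩ := hA
    exact twEis_pow_slash hχ hχp k ⟨A, hA⟩
  holo' := (twEis_mdifferentiable (fun γ => norm_eq_one_of_pow_eq_one' hp (hχp γ)) hk).pow p
  bdd_at_cusps' {c} hc := by
    rw [Subgroup.IsArithmetic.isCusp_iff_isCusp_SL2Z] at hc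
    rw [OnePoint.isBoundedAt_iff_forall_SL2Z hc]
    intro γ _
    rw [pow_slash_SL2]
    exact isBoundedAtImInfty_pow
      (isBoundedAtImInfty_twEis_slash (fun γ => norm_eq_one_of_pow_eq_one' hp (hχp γ)) hk γ) p

@[simp] lemma twEisPowMF_apply [Γ.FiniteIndex] (χ : Γ →* ℂˣ) (hχ : TrivOnUnip χ) {p : ℕ}
    (hp : p ≠ 0) (hχp : ∀ γ, χ γ ^ p = 1) {k : ℤ} (hk : 3 ≤ k) (z : ℍ) :
    twEisPowMF χ hχ hp hχp hk z = twEis χ k z ^ p := rfl

lemma twEisPowMF_ne_zero [Γ.FiniteIndex] (χ : Γ →* ℂˣ) (hχ : TrivOnStabInfty χ) {p : ℕ}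
    (hp : p ≠ 0) (hχp : ∀ γ, χ γ ^ p = 1) {k : ℤ} (hk : 3 ≤ k) (heven : Even k) :
    twEisPowMF χ hχ.trivOnUnip hp hχp hk ≠ 0 := by
  intro h0
  have hne := twEis_ne_zero (fun γ => norm_eq_one_of_pow_eq_one' hp (hχp γ)) hχ hk heven
  apply hne
  funext z
  have h1 : twEisPowMF χ hχ.trivOnUnip hp hχp hk z = 0 := by rw [h0]; rfl
  rw [twEisPowMF_apply] at h1
  exact pow_eq_zero_iff hp |>.mp h1

/-- Summary: existence of the twisted Eisenstein series with all the properties used downstream.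
For a character `χ` of `Γ` of order dividing `p`, trivial on the stabiliser of `∞`, and every even
weight `k ≥ 4` there is a nonzero holomorphic `E : ℍ → ℂ` with `E ∣[k] δ = χ δ • E` on `Γ`, all
of whose `SL(2, ℤ)`-translates are bounded at `i∞`, and such that `E ^ p` is a modular form of
weight `k * p` on `Γ`. -/
theorem exists_twisted_eisenstein [Γ.FiniteIndex] (χ : Γ →* ℂˣ) (hχ : TrivOnStabInfty χ)
    {p : ℕ} (hp : p ≠ 0) (hχp : ∀ γ, χ γ ^ p = 1) {k : ℤ} (hk : 3 ≤ k) (heven : Even k) :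
    ∃ (E : ℍ → ℂ) (F : ModularForm (Γ : Subgroup (GL (Fin 2) ℝ)) (k * p)),
      MDiff E ∧ E ≠ 0 ∧
      (∀ δ : Γ, E ∣[k] (δ : SL(2, ℤ)) = (χ δ : ℂ) • E) ∧
      (∀ (δ : Γ) (z : ℍ), E ((δ : SL(2, ℤ)) • z) =
        (χ δ : ℂ) * denom (δ : SL(2, ℤ)) z ^ k * E z) ∧
      (∀ A : SL(2, ℤ), IsBoundedAtImInfty (E ∣[k] A)) ∧
      (∀ z, F z = E z ^ p) ∧ F ≠ 0 :=
  ⟨twEis χ k, twEisPowMF χ hχ.trivOnUnip hp hχp hk,
    twEis_mdifferentiable (fun γ => norm_eq_one_of_pow_eq_one' hp (hχp γ)) hk,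
    twEis_ne_zero (fun γ => norm_eq_one_of_pow_eq_one' hp (hχp γ)) hχ hk heven,
    twEis_slash hχ.trivOnUnip k,
    twEis_smul_apply hχ.trivOnUnip k,
    isBoundedAtImInfty_twEis_slash (fun γ => norm_eq_one_of_pow_eq_one' hp (hχp γ)) hk,
    fun _ => rfl,
    twEisPowMF_ne_zero χ hχ hp hχp hk heven⟩

end

end Fermat.Agent.S29.H509

end
-- ===== PACK-END S29/H509/TwistedMF.lean

-- ===== PACK-BEGIN S29/Parts.lean
section
/-
S29 row — the REMAINING INPUTS of the final chain, as `Prop`s (row-lead helper269).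
`Fermat/Agent/S29/Main.lean` proves  `S29_of_parts : FrobeniusDivisionStatement → RawESStatement →
M4aStatement → M4bStatement → HCohStatement → (frozen S29 statement)`,  sorry-free.
A piece is DONE when it proves one of these `Prop`s verbatim.
-/


set_option autoImplicit false

noncomputable section

namespace Fermat.Agent.S29

open ModularCurve AlgebraicCurve

/-- EXTERNAL (rows S37/S18): RAW Eichler–Shimura on the `p`-torsion of the Prelude `JZero N`:
inertia at `ℓ ∤ N p` acts trivially and every Frobenius at `ℓ` satisfies `σ² - T_ℓ σ + ℓ = 0`,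
`T_ℓ = heckeOperatorBar N ℓ`.  (Implied by `M.ESStatement` of helper30, by `M.RedStatement`, and by
the frozen S37 together with `HeckeOperatorsCommuteBar`.) -/
def RawESStatement : Prop :=
  ∀ (N p : ℕ) [NeZero N], p.Prime → ∀ (ℓ : ℕ) (hℓ : ℓ.Prime), ¬ ℓ ∣ N * p →
    ∀ A : VQ, A.LiesOverPrime ℓ →
      (∀ σ ∈ A.inertiaSubgroupIn ℚ, ∀ x : JZero N, (p : ℤ) • x = 0 → σ • x = x) ∧
      (∀ σ : GQ, A.IsFrobeniusAt σ ℓ → ∀ x : JZero N, (p : ℤ) • x = 0 →
        σ • σ • x - heckeOperatorBar N ⟨ℓ, hℓ⟩ (σ • x) + (ℓ : ℤ) • x = 0)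

/-- PIECE `M4a` (eigensystem occurs in `Hom_par(Γ₀(N), 𝔽_p) ⊗ F`, in coordinates). -/
def M4aStatement : Prop :=
  ∀ (N : ℕ) [NeZero N] (g : CuspForm (CongruenceSubgroup.Gamma0 N) 2),
    g.IsNormalizedEigenform → ∀ (p : ℕ) [Fact p.Prime] (F : Type) [Field F] [IsAlgClosed F]
    [CharP F p] [Algebra (ZMod p) F] (ψ : integralClosure ℤ ℂ →+* F)
    (a : ℕ → integralClosure ℤ ℂ),
    (∀ ℓ : ℕ, ℓ.Prime → ¬ ℓ ∣ N →
      ((a ℓ : integralClosure ℤ ℂ) : ℂ) = ModularFormClass.qCoeff g ℓ) →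
    ∃ (n : ℕ) (w : Fin n → F) (c : Fin n → G0 N → ZMod p),
      LinearIndependent (ZMod p) w ∧ (∀ j, IsParHom (c j)) ∧ (∃ j, c j ≠ 0) ∧
      ∀ ℓ : ℕ, ℓ.Prime → ¬ ℓ ∣ N * p → ∀ γ : G0 N,
        ∑ j, w j * algebraMap (ZMod p) F (heckeCoh N ℓ (c j) γ)
          = ψ (a ℓ) * ∑ j, w j * algebraMap (ZMod p) F (c j γ)

/-- PIECE `M4b` (the Kummer map / bridge). -/
def M4bStatement : Prop :=
  ∀ (N : ℕ) [NeZero N] (p : ℕ) [Fact p.Prime],
    ∃ κ : (G0 N → ZMod p) → Jp N p,
      (∀ c c', IsParHom c → IsParHom c' → κ (c + c') = κ c + κ c') ∧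
      (∀ c, IsParHom c → κ c = 0 → c = 0) ∧
      (∀ ℓ : Nat.Primes, ¬ (ℓ : ℕ) ∣ N * p → ∀ c, IsParHom c →
        κ (heckeCoh N ℓ c) = heckeJp N p ℓ (κ c))

/-- PIECE `HCoh` (the cohomological Hecke operator preserves parabolic characters), for the
coefficient groups `ℤ/p`. -/
def HCohStatement : Prop :=
  ∀ (N : ℕ) [NeZero N] (p : ℕ) (ℓ : ℕ), ℓ.Prime → ¬ ℓ ∣ N →
    ∀ c : G0 N → ZMod p, IsParHom c → IsParHom (heckeCoh N ℓ c)

end Fermat.Agent.S29

end
end
-- ===== PACK-END S29/Parts.lean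

-- ===== PACK-BEGIN S29/M4a/Fac.lean
section
/-
S29 / M4a-TOP (helper391) — part 1: the factorisation `heckeFac` of `DefsM.lean` coincides with the
transfer element `H201.trf` of helper201's `Transfer.lean` (Prelude coset representatives).

* `M4aTop_heckeRep_unique` : uniqueness of `t * heckeRep ℓ j` (integer matrices, `det t = 1`).
* `M4aTop_heckeFac_eq`     : `IsHeckeFactor ℓ γ i q → heckeFac N ℓ γ i = q`.
* `M4aTop_idx`             : the bijection `Option (Fin ℓ) ≃ OnePoint (ZMod ℓ)`.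
* `M4aTop_isHeckeFactor_trf`, `M4aTop_heckeFac_eq_trf`, `M4aTop_heckeCoh_eq_sum_trf`.
-/



set_option autoImplicit false

noncomputable section

namespace Fermat.Agent.S29

open CongruenceSubgroup Matrix.SpecialLinearGroup
open scoped MatrixGroups

/-! ### Uniqueness of the factorisation -/

theorem M4aTop_heckeRep_none (ℓ : ℕ) : heckeRep ℓ none = !![(ℓ : ℤ), 0; 0, 1] := rfl

theorem M4aTop_heckeRep_some (ℓ : ℕ) (b : Fin ℓ) :
    heckeRep ℓ (some b) = !![1, ((b : ℕ) : ℤ); 0, (ℓ : ℤ)] := rfl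

theorem M4aTop_det_heckeRep (ℓ : ℕ) (j : Option (Fin ℓ)) : (heckeRep ℓ j).det = (ℓ : ℤ) := by
  cases j with
  | none => rw [M4aTop_heckeRep_none, Matrix.det_fin_two_of]; ring
  | some b => rw [M4aTop_heckeRep_some, Matrix.det_fin_two_of]; ring

/-- Right cancellation of a coset representative. -/
theorem M4aTop_mul_heckeRep_cancel {ℓ : ℕ} (hℓ : ℓ ≠ 0) (j : Option (Fin ℓ))
    {t t' : Matrix (Fin 2) (Fin 2) ℤ} (h : t * heckeRep ℓ j = t' * heckeRep ℓ j) : t = t' := by
  have h2 := congrArg (fun M => M * (heckeRep ℓ j).adjugate) h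
  simp only [Matrix.mul_assoc, Matrix.mul_adjugate, M4aTop_det_heckeRep] at h2
  have hℓ' : (ℓ : ℤ) ≠ 0 := by exact_mod_cast hℓ
  ext a b
  have h3 := congrFun (congrFun h2 a) b
  simp only [Matrix.mul_smul, Matrix.mul_one, Matrix.smul_apply, smul_eq_mul] at h3
  exact mul_left_cancel₀ hℓ' h3

theorem M4aTop_heckeRep_unique {ℓ : ℕ} (hℓ : 2 ≤ ℓ) {t t' : Matrix (Fin 2) (Fin 2) ℤ}
    (ht : t.det = 1) (ht' : t'.det = 1) {j j' : Option (Fin ℓ)}
    (h : t * heckeRep ℓ j = t' * heckeRep ℓ j') : j = j' ∧ t = t' := by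
  have hℓ0 : ℓ ≠ 0 := by omega
  have hj : j = j' := by
    rw [Matrix.det_fin_two] at ht ht'
    have h00 := congrFun (congrFun h 0) 0
    have h01 := congrFun (congrFun h 0) 1
    have h10 := congrFun (congrFun h 1) 0
    have h11 := congrFun (congrFun h 1) 1
    have hnot : ¬ ((ℓ : ℤ) ∣ 1) := by
      intro hd
      have := Int.le_of_dvd one_pos hd
      have : (2 : ℤ) ≤ ℓ := by exact_mod_cast hℓ
      omega
    cases j with
    | none =>
      cases j' with
      | none => rfl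
      | some b' =>
        exfalso
        simp only [M4aTop_heckeRep_none, M4aTop_heckeRep_some, Matrix.mul_apply, Fin.sum_univ_two,
          Matrix.of_apply, Matrix.cons_val_zero, Matrix.cons_val_one, Matrix.cons_val',
          Matrix.cons_val_fin_one] at h00 h10
        -- `t' 0 0 = ℓ * t 0 0`, `t' 1 0 = ℓ * t 1 0`
        apply hnot
        refine ⟨t 0 0 * t' 1 1 - t' 0 1 * t 1 0, ?_⟩
        rw [← ht']
        have e0 : t' 0 0 = t 0 0 * ℓ := by linarith
        have e1 : t' 1 0 = t 1 0 * ℓ := by linarith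
        rw [e0, e1]; ring
    | some b =>
      cases j' with
      | none =>
        exfalso
        simp only [M4aTop_heckeRep_none, M4aTop_heckeRep_some, Matrix.mul_apply, Fin.sum_univ_two,
          Matrix.of_apply, Matrix.cons_val_zero, Matrix.cons_val_one, Matrix.cons_val',
          Matrix.cons_val_fin_one] at h00 h10
        apply hnot
        refine ⟨t' 0 0 * t 1 1 - t 0 1 * t' 1 0, ?_⟩
        rw [← ht]
        have e0 : t 0 0 = t' 0 0 * ℓ := by linarith
        have e1 : t 1 0 = t' 1 0 * ℓ := by linarith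
        rw [e0, e1]; ring
      | some b' =>
        simp only [M4aTop_heckeRep_some, Matrix.mul_apply, Fin.sum_univ_two,
          Matrix.of_apply, Matrix.cons_val_zero, Matrix.cons_val_one, Matrix.cons_val',
          Matrix.cons_val_fin_one] at h00 h01 h10 h11
        have e0 : t 0 0 = t' 0 0 := by linarith
        have e1 : t 1 0 = t' 1 0 := by linarith
        -- `(b - b') = ℓ * (...)`
        have hd : (ℓ : ℤ) ∣ ((b : ℕ) : ℤ) - ((b' : ℕ) : ℤ) := by
          refine ⟨(t' 0 1 - t 0 1) * t 1 1 - (t' 1 1 - t 1 1) * t 0 1, ?_⟩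
          have k0 : t 0 0 * ((b : ℕ) : ℤ) + t 0 1 * ℓ = t 0 0 * ((b' : ℕ) : ℤ) + t' 0 1 * ℓ := by
            rw [← e0] at h01; exact h01
          have k1 : t 1 0 * ((b : ℕ) : ℤ) + t 1 1 * ℓ = t 1 0 * ((b' : ℕ) : ℤ) + t' 1 1 * ℓ := by
            rw [← e1] at h11; exact h11
          have : ((b : ℕ) : ℤ) - ((b' : ℕ) : ℤ)
              = (t 0 0 * t 1 1 - t 0 1 * t 1 0) * (((b : ℕ) : ℤ) - ((b' : ℕ) : ℤ)) := by
            rw [ht, one_mul]
          rw [this]
          linear_combination t 1 1 * k0 - t 0 1 * k1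
        have hb : (b : ℕ) < ℓ := b.2
        have hb' : (b' : ℕ) < ℓ := b'.2
        have : ((b : ℕ) : ℤ) - ((b' : ℕ) : ℤ) = 0 := by
          apply Int.eq_zero_of_abs_lt_dvd hd
          rw [abs_lt]
          constructor <;> omega
        have hbb : (b : ℕ) = (b' : ℕ) := by omega
        rw [Fin.ext hbb]
  subst hj
  exact ⟨rfl, M4aTop_mul_heckeRep_cancel hℓ0 j h⟩

theorem M4aTop_G0_ext {N : ℕ} {γ γ' : G0 N} (h : γ.mat = γ'.mat) : γ = γ' :=
  Subtype.ext (Subtype.ext h)

theorem M4aTop_det_mat {N : ℕ} (γ : G0 N) : γ.mat.det = 1 := (γ : SL(2, ℤ)).2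

theorem M4aTop_isHeckeFactor_unique {N ℓ : ℕ} (hℓ : 2 ≤ ℓ) {γ : G0 N} {i : Option (Fin ℓ)}
    {q q' : Option (Fin ℓ) × G0 N} (hq : IsHeckeFactor ℓ γ i q) (hq' : IsHeckeFactor ℓ γ i q') :
    q = q' := by
  have h : q.2.mat * heckeRep ℓ q.1 = q'.2.mat * heckeRep ℓ q'.1 := by
    rw [← hq, ← hq']
  obtain ⟨h1, h2⟩ := M4aTop_heckeRep_unique hℓ (M4aTop_det_mat q.2) (M4aTop_det_mat q'.2) h
  exact Prod.ext h1 (M4aTop_G0_ext h2)

theorem M4aTop_heckeFac_spec {N ℓ : ℕ} {γ : G0 N} {i : Option (Fin ℓ)}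
    (h : ∃ q : Option (Fin ℓ) × G0 N, IsHeckeFactor ℓ γ i q) :
    IsHeckeFactor ℓ γ i (heckeFac N ℓ γ i) := by
  unfold heckeFac
  rw [dif_pos h]
  exact Classical.choose_spec h

theorem M4aTop_heckeFac_eq {N ℓ : ℕ} (hℓ : 2 ≤ ℓ) {γ : G0 N} {i : Option (Fin ℓ)}
    {q : Option (Fin ℓ) × G0 N} (hq : IsHeckeFactor ℓ γ i q) : heckeFac N ℓ γ i = q :=
  M4aTop_isHeckeFactor_unique hℓ (M4aTop_heckeFac_spec ⟨q, hq⟩) hq


/-! ### Comparison with the Prelude coset representatives and `H201.trf` -/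

/-- The Prelude's coset representative (in `GL₂(ℝ)`, indexed by `ℙ¹(𝔽_ℓ)`). -/
abbrev M4aTop_pRep (ℓ : ℕ) (x : OnePoint (ZMod ℓ)) : GL (Fin 2) ℝ :=
  P2MW.S_ModularForm_heckeT_slash_eq_self_of_mem_Gamma0.ModularForm.HeckeSlashInvariance.heckeRep
    ℓ x

/-- The index bijection `Option (Fin ℓ) ≃ OnePoint (ZMod ℓ)`. -/
def M4aTop_idx (ℓ : ℕ) [NeZero ℓ] : Option (Fin ℓ) ≃ OnePoint (ZMod ℓ) :=
  Equiv.optionCongr (ZMod.finEquiv ℓ).toEquiv

theorem M4aTop_idx_none (ℓ : ℕ) [NeZero ℓ] : M4aTop_idx ℓ none = OnePoint.infty := rfl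

theorem M4aTop_idx_some (ℓ : ℕ) [NeZero ℓ] (b : Fin ℓ) :
    M4aTop_idx ℓ (some b) = OnePoint.some (ZMod.finEquiv ℓ b) := rfl

theorem M4aTop_val_finEquiv (ℓ : ℕ) [NeZero ℓ] (b : Fin ℓ) : (ZMod.finEquiv ℓ b).val = (b : ℕ) := by
  cases ℓ with
  | zero => exact (NeZero.ne 0 rfl).elim
  | succ n => rfl

/-- The Prelude representative is the real image of the integral one. -/
theorem M4aTop_pRep_idx (ℓ : ℕ) [NeZero ℓ] (i : Option (Fin ℓ)) :
    ((M4aTop_pRep ℓ (M4aTop_idx ℓ i) : GL (Fin 2) ℝ) : Matrix (Fin 2) (Fin 2) ℝ)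
      = (heckeRep ℓ i).map (Int.castRingHom ℝ) := by
  have hℓ : ℓ ≠ 0 := NeZero.ne ℓ
  cases i with
  | none =>
    rw [M4aTop_idx_none, M4aTop_heckeRep_none]
    show ((ModularForm.heckeDiagMatrix ℓ : GL (Fin 2) ℝ) : Matrix (Fin 2) (Fin 2) ℝ) = _
    rw [ModularForm.val_heckeDiagMatrix hℓ]
    ext a b
    fin_cases a <;> fin_cases b <;> simp
  | some b =>
    rw [M4aTop_idx_some, M4aTop_heckeRep_some]
    show ((ModularForm.heckeMatrix ℓ (ZMod.finEquiv ℓ b).val : GL (Fin 2) ℝ) :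
      Matrix (Fin 2) (Fin 2) ℝ) = _
    rw [ModularForm.val_heckeMatrix hℓ, M4aTop_val_finEquiv]
    ext a b
    fin_cases a <;> fin_cases b <;> simp

theorem M4aTop_mapGL_coe {N : ℕ} (γ : G0 N) :
    ((mapGL ℝ (γ : SL(2, ℤ)) : GL (Fin 2) ℝ) : Matrix (Fin 2) (Fin 2) ℝ)
      = γ.mat.map (Int.castRingHom ℝ) := rfl

section Trf

variable {N ℓ : ℕ} [Fact ℓ.Prime]

/-- The index permutation induced by `γ`, transported to `Option (Fin ℓ)`. -/
def M4aTop_perm (γ : G0 N) : Equiv.Perm (Option (Fin ℓ)) :=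
  ((M4aTop_idx ℓ).trans (H201.permOf (p := ℓ) γ)).trans (M4aTop_idx ℓ).symm

theorem M4aTop_idx_perm (γ : G0 N) (i : Option (Fin ℓ)) :
    M4aTop_idx ℓ (M4aTop_perm γ i)
      = P2MW.S_ModularForm_heckeT_slash_eq_self_of_mem_Gamma0.ModularForm.HeckeSlashInvariance.redMatrix
          ℓ (γ : SL(2, ℤ)) • M4aTop_idx ℓ i := by
  simp [M4aTop_perm, H201.permOf_apply]

/-- `H201.trf` realises the factorisation of `DefsM.lean`. -/
theorem M4aTop_isHeckeFactor_trf (hℓN : ¬ ℓ ∣ N) (γ : G0 N) (i : Option (Fin ℓ)) :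
    IsHeckeFactor ℓ γ i (M4aTop_perm γ i, H201.trf hℓN γ (M4aTop_idx ℓ i)) := by
  have h := H201.trf_spec hℓN γ (M4aTop_idx ℓ i)
  rw [← M4aTop_idx_perm] at h
  have h2 := congrArg (fun M : GL (Fin 2) ℝ => (M : Matrix (Fin 2) (Fin 2) ℝ)) h
  simp only [Matrix.GeneralLinearGroup.coe_mul] at h2
  have h3 : (heckeRep ℓ i * γ.mat).map (Int.castRingHom ℝ)
      = (G0.mat (H201.trf hℓN γ (M4aTop_idx ℓ i)) * heckeRep ℓ (M4aTop_perm γ i)).map
          (Int.castRingHom ℝ) := by
    rw [Matrix.map_mul, Matrix.map_mul, ← M4aTop_pRep_idx, ← M4aTop_pRep_idx, ← M4aTop_mapGL_coe,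
      ← M4aTop_mapGL_coe]
    exact h2
  exact Matrix.map_injective (RingHom.injective_int (Int.castRingHom ℝ)) h3

theorem M4aTop_heckeFac_eq_trf (hℓN : ¬ ℓ ∣ N) (γ : G0 N) (i : Option (Fin ℓ)) :
    heckeFac N ℓ γ i = (M4aTop_perm γ i, H201.trf hℓN γ (M4aTop_idx ℓ i)) :=
  M4aTop_heckeFac_eq (Fact.out : ℓ.Prime).two_le (M4aTop_isHeckeFactor_trf hℓN γ i)

/-- The cohomological Hecke operator of `DefsM.lean` is helper201's transfer sum. -/
theorem M4aTop_heckeCoh_eq_sum_trf (hℓN : ¬ ℓ ∣ N) {A : Type*} [AddCommMonoid A] (c : G0 N → A)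
    (γ : G0 N) :
    heckeCoh N ℓ c γ = ∑ x : OnePoint (ZMod ℓ), c (H201.trf hℓN γ x) := by
  unfold heckeCoh
  simp only [M4aTop_heckeFac_eq_trf hℓN]
  exact Equiv.sum_comp (M4aTop_idx ℓ) (fun x => c (H201.trf hℓN γ x))

end Trf

end Fermat.Agent.S29

end
end
-- ===== PACK-END S29/M4a/Fac.lean

-- ===== PACK-BEGIN S37/H400/KronNorm.lean
section
/-
S37 / helper400 — piece KRON, part (K6): the Kronecker NORM, formal version.

`kronNorm p f := V_p f · det (secMat p f)`  (classically `f(q^p) · ∏_b f(ζ^b q^{1/p})`, i.e. the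
`q`-expansion of `Nm_α(β f)` once NORM-ID identifies the characteristic polynomial of `β f` over
`α F_N` with `kronPoly p f`).

* `kronNorm_mul`, `kronNorm_one`, `kronNorm_pow` : multiplicativity.
* `coeffMap_kronNorm` : compatibility with coefficient homomorphisms (reduction `A → k`).
* `det_secMat_char`, `kronNorm_char` : over a domain of characteristic `p`
    `det (secMat p f) = frob f`,  `kronNorm p f = V_p f · frob f`.
* `kronNorm_char_of_frobenius` : if `f = frob g` coefficientwise then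
    `kronNorm p f = g ^ p · frob f`  (`= (Φ⁻¹ f)^p · Φ f`, the form used in step (E)).
* `coeffMap_kronNorm_char` : the reduction statement
    `coeffMap φ (kronNorm p f) = V_p f̄ · frob f̄` for `φ : S → R`, `R` a domain of char. `p`.
* `kronPoly_coeff_zero` : constant term of `kronPoly` is `(-1)^(p+1) · kronNorm`.
-/


set_option autoImplicit false

noncomputable section

set_option linter.style.haveILetI false

open ModularCurve Polynomial Matrix

namespace Fermat.Agent.S37.H400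

variable {R : Type*} [CommRing R]

/-- The formal Kronecker norm `V_p f · det (secMat p f)`. -/
def kronNorm (p : ℕ) [NeZero p] (f : LaurentSeries R) : LaurentSeries R :=
  qExpand R p f * (secMat p f).det

theorem kronNorm_mul (p : ℕ) [NeZero p] (f g : LaurentSeries R) :
    kronNorm p (f * g) = kronNorm p f * kronNorm p g := by
  rw [kronNorm, kronNorm, kronNorm, map_mul, secMat_mul, Matrix.det_mul]
  ring

theorem kronNorm_one (p : ℕ) [NeZero p] : kronNorm p (1 : LaurentSeries R) = 1 := by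
  rw [kronNorm, map_one, secMat_one, Matrix.det_one, mul_one]

/-- `kronNorm` as a monoid homomorphism. -/
def kronNormHom (p : ℕ) [NeZero p] : LaurentSeries R →* LaurentSeries R where
  toFun := kronNorm p
  map_one' := kronNorm_one p
  map_mul' := kronNorm_mul p

theorem kronNormHom_apply (p : ℕ) [NeZero p] (f : LaurentSeries R) :
    kronNormHom p f = kronNorm p f := rfl

theorem kronNorm_pow (p : ℕ) [NeZero p] (f : LaurentSeries R) (n : ℕ) :
    kronNorm p (f ^ n) = kronNorm p f ^ n :=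
  map_pow (kronNormHom p) f n

theorem coeffMap_qExpand_h400 {S : Type*} [CommRing S] (φ : R →+* S) (n : ℕ)
    [NeZero n] (x : LaurentSeries R) : coeffMap φ (qExpand R n x) = qExpand S n (coeffMap φ x) := by
  ext k
  by_cases hk : (n : ℤ) ∣ k
  · obtain ⟨m, rfl⟩ := hk
    rw [coeffMap_coeff, qExpand_coeff_mul, qExpand_coeff_mul, coeffMap_coeff]
  · rw [coeffMap_coeff, qExpand_coeff_of_not_dvd n _ hk, qExpand_coeff_of_not_dvd n _ hk,
      map_zero]

/-- Base change of the Kronecker norm along a coefficient homomorphism. -/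
theorem coeffMap_kronNorm {S : Type*} [CommRing S] (φ : R →+* S) (p : ℕ) [NeZero p]
    (f : LaurentSeries R) :
    coeffMap φ (kronNorm p f) = kronNorm p (coeffMap φ f) := by
  rw [kronNorm, kronNorm, map_mul, coeffMap_qExpand_h400, RingHom.map_det,
    RingHom.mapMatrix_apply, secMat_coeffMap]

/-- Over a domain of characteristic `p`, `det (secMat p f) = frob f`. -/
theorem det_secMat_char [IsDomain R] (p : ℕ) [Fact p.Prime] [CharP R p]
    (f : LaurentSeries R) :
    haveI : NeZero p := ⟨(Fact.out : p.Prime).ne_zero⟩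
    (secMat p f).det = coeffMap (frobenius R p) f := by
  haveI : NeZero p := ⟨(Fact.out : p.Prime).ne_zero⟩
  haveI := charP_laurentSeries (R := R) p
  show (secMat p f).det = coeffMap (frobenius R p) f
  rw [Matrix.det_eq_sign_charpoly_coeff, charpoly_secMat_char, Fintype.card_fin,
    coeff_sub, coeff_X_pow, coeff_C_zero, if_neg (Fact.out : p.Prime).pos.ne, zero_sub]
  rcases (Fact.out : p.Prime).eq_two_or_odd' with h2 | hodd
  · subst h2
    have h2' : (2 : LaurentSeries R) = 0 := by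
      have := CharP.cast_eq_zero (LaurentSeries R) 2
      exact_mod_cast this
    have : -(coeffMap (frobenius R 2) f) = coeffMap (frobenius R 2) f := by
      rw [neg_eq_iff_add_eq_zero, ← two_mul, h2', zero_mul]
    rw [this]
    simp
  · rw [hodd.neg_one_pow]
    ring

/-- Over a domain of characteristic `p`: `kronNorm p f = V_p f · frob f`. -/
theorem kronNorm_char [IsDomain R] (p : ℕ) [Fact p.Prime] [CharP R p] (f : LaurentSeries R) :
    haveI : NeZero p := ⟨(Fact.out : p.Prime).ne_zero⟩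
    kronNorm p f = qExpand R p f * coeffMap (frobenius R p) f := by
  haveI : NeZero p := ⟨(Fact.out : p.Prime).ne_zero⟩
  show kronNorm p f = _
  rw [kronNorm, det_secMat_char]

/-- Over a domain of characteristic `p`, if `f = frob g` coefficientwise (`g = Φ⁻¹ f`), then
`kronNorm p f = g ^ p · frob f = (Φ⁻¹ f) ^ p · Φ f`. -/
theorem kronNorm_char_of_frobenius [IsDomain R] (p : ℕ) [Fact p.Prime] [CharP R p]
    (f g : LaurentSeries R) (hg : coeffMap (frobenius R p) g = f) :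
    haveI : NeZero p := ⟨(Fact.out : p.Prime).ne_zero⟩
    kronNorm p f = g ^ p * coeffMap (frobenius R p) f := by
  haveI : NeZero p := ⟨(Fact.out : p.Prime).ne_zero⟩
  show kronNorm p f = _
  rw [kronNorm_char, laurent_pow_char, hg]

/-- Over `𝔽_p`: `kronNorm p f = f ^ (p + 1)`. -/
theorem kronNorm_zmod (p : ℕ) [Fact p.Prime] (f : LaurentSeries (ZMod p)) :
    haveI : NeZero p := ⟨(Fact.out : p.Prime).ne_zero⟩
    kronNorm p f = f ^ (p + 1) := by
  haveI : NeZero p := ⟨(Fact.out : p.Prime).ne_zero⟩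
  show kronNorm p f = _
  rw [kronNorm_char_of_frobenius p f f (coeffMap_frobenius_zmod p f), coeffMap_frobenius_zmod,
    pow_succ]

/-- **Kronecker congruence for norms.**  For `f` with coefficients in `S` and a reduction
`φ : S → R` to a domain of characteristic `p`, the reduction of the Kronecker norm of `f` is
`V_p f̄ · frob f̄`. -/
theorem coeffMap_kronNorm_char {S : Type*} [CommRing S] [IsDomain R] (p : ℕ) [Fact p.Prime]
    [CharP R p] (φ : S →+* R) (f : LaurentSeries S) :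
    haveI : NeZero p := ⟨(Fact.out : p.Prime).ne_zero⟩
    coeffMap φ (kronNorm p f) =
      qExpand R p (coeffMap φ f) * coeffMap (frobenius R p) (coeffMap φ f) := by
  haveI : NeZero p := ⟨(Fact.out : p.Prime).ne_zero⟩
  show coeffMap φ (kronNorm p f) = _
  rw [coeffMap_kronNorm, kronNorm_char]

/-- The reduction of the Kronecker norm is nonzero as soon as the reduction of `f` is. -/
theorem coeffMap_kronNorm_ne_zero {S : Type*} [CommRing S] [IsDomain R] (p : ℕ) [Fact p.Prime]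
    [CharP R p] (φ : S →+* R) (f : LaurentSeries S) (hf : coeffMap φ f ≠ 0) :
    haveI : NeZero p := ⟨(Fact.out : p.Prime).ne_zero⟩
    coeffMap φ (kronNorm p f) ≠ 0 := by
  haveI : NeZero p := ⟨(Fact.out : p.Prime).ne_zero⟩
  show coeffMap φ (kronNorm p f) ≠ 0
  rw [coeffMap_kronNorm_char]
  refine mul_ne_zero ?_ ?_
  · intro h
    exact hf (qExpand_injective (R := R) (N := p) (by rw [h, map_zero]))
  · intro h
    apply hf
    ext k
    have hk := congrArg (fun x : LaurentSeries R => x.coeff k) h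
    simp only [coeffMap_coeff, HahnSeries.coeff_zero] at hk ⊢
    exact frobenius_inj R p (by rw [hk, map_zero])

/-- The constant term of `kronPoly` is `(-1)^(p+1)` times the Kronecker norm. -/
theorem kronPoly_coeff_zero (p : ℕ) [NeZero p] (f : LaurentSeries R) :
    (kronPoly p f).coeff 0 = (-1) ^ (p + 1) * kronNorm p f := by
  rw [kronPoly, Polynomial.mul_coeff_zero, coeff_sub, coeff_X_zero, coeff_C_zero, zero_sub,
    kronNorm, Matrix.det_eq_sign_charpoly_coeff, Fintype.card_fin, pow_succ]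
  have h : ((-1 : LaurentSeries R) ^ p) * (-1) ^ p = 1 := by
    rw [← mul_pow]; simp
  linear_combination (qExpand R p f * (secMat p f).charpoly.coeff 0) * h

end Fermat.Agent.S37.H400

end

end
-- ===== PACK-END S37/H400/KronNorm.lean

-- ===== PACK-BEGIN S29/H222/ESKSpec.lean
section
/-
S29 / helper222 — piece ESK: the Eichler–Shimura input of layer M ("ES raw": inertia acts trivially
on `J₀(N)(ℚ̄)[m]`, Frobenius satisfies `σ² - T_ℓ σ + ℓ = 0` on `J₀(N)(ℚ̄)[m]`) DIRECTLY from the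
S18 hub `CoreStatement N A m`, WITHOUT S37 (no special fibre, no place reduction map, no `J'`, no
commutativity of Hecke operators).

This file: the interface (definitions + the two target statements as `Prop`s).
-/





set_option autoImplicit false

noncomputable section

namespace Fermat.Agent.S29.H222

open ModularCurve AlgebraicCurve HahnSeries
open Fermat.Agent.S18 (Qb IsInt toF CoreStatement)

/-- The absolute Galois group of `ℚ`. -/
abbrev GQ' : Type := Qb ≃ₐ[ℚ] Qb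

/-- The norm along `α : F_N → F_{Nℓ}` (inclusion) of `β y` (`β = q ↦ q^ℓ`): the function whose
divisor is `T_ℓ (div y)` for the Prelude Hecke correspondence. -/
def heckeNorm (N ℓ : ℕ) [NeZero N] [NeZero ℓ] (y : modularFunctionFieldBar N) :
    modularFunctionFieldBar N :=
  letI := algebraAlong (heckeAlphaBar Qb N ℓ)
  Algebra.norm (modularFunctionFieldBar N) (heckeBetaBar Qb N ℓ y)

/-- **NORM-ID** (piece NKI of the S37 row): the norm along `α` of `β y` has `q`-expansion the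
formal Kronecker norm `V_ℓ y · det (secMat ℓ y)` (`Fermat.Agent.S37.H400.kronNorm`, on main). -/
def NormId (N ℓ : ℕ) [NeZero N] [NeZero ℓ] : Prop :=
  ∀ y : modularFunctionFieldBar N,
    ((heckeNorm N ℓ y : modularFunctionFieldBar N) : LaurentSeries Qb)
      = Fermat.Agent.S37.H400.kronNorm ℓ (y : LaurentSeries Qb)

/-- Target (U): inertia at `A` acts trivially on the `m`-torsion of `J₀(N)(ℚ̄)`. -/
def InertiaTrivialOn (N : ℕ) (A : ValuationSubring Qb) (m : ℕ) : Prop :=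
  ∀ τ ∈ A.inertiaSubgroupIn ℚ, ∀ x : JZero N, (m : ℤ) • x = 0 → τ • x = x

/-- Target (F): every Frobenius element at `A` satisfies the Eichler–Shimura relation
`σ² - T_ℓ σ + ℓ = 0` on the `m`-torsion of `J₀(N)(ℚ̄)` (`T_ℓ` = the RAW Prelude operator). -/
def FrobQuadraticOn (N : ℕ) [NeZero N] (ℓ : ℕ) (hℓ : ℓ.Prime) (A : ValuationSubring Qb)
    (m : ℕ) : Prop :=
  ∀ σ : GQ', A.IsFrobeniusAt σ ℓ → ∀ x : JZero N, (m : ℤ) • x = 0 →
    σ • σ • x - heckeOperatorBar N ⟨ℓ, hℓ⟩ (σ • x) + (ℓ : ℤ) • x = 0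

/-- The statement of piece ESK-U. -/
def ESKInertiaStatement : Prop :=
  ∀ (N : ℕ) [NeZero N] (m : ℕ), m ≠ 0 → ∀ A : ValuationSubring Qb,
    CoreStatement N A m → PrincipalGeneratedByIntegral A (IsLocalRing.residue A) N →
      InertiaTrivialOn N A m

/-- The statement of piece ESK-F. -/
def ESKFrobStatement : Prop :=
  ∀ (N : ℕ) [NeZero N] (ℓ : ℕ) (hℓ : ℓ.Prime) (m : ℕ), m ≠ 0 → ∀ A : ValuationSubring Qb,
    A.LiesOverPrime ℓ →
    CoreStatement N A m → PrincipalGeneratedByIntegral A (IsLocalRing.residue A) N →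
    (haveI : NeZero ℓ := ⟨hℓ.ne_zero⟩; HeckeInputsAlong Qb N ℓ) →
    (haveI : NeZero ℓ := ⟨hℓ.ne_zero⟩; NormId N ℓ) →
      FrobQuadraticOn N ℓ hℓ A m

end Fermat.Agent.S29.H222

end
end
-- ===== PACK-END S29/H222/ESKSpec.lean

-- ===== PACK-BEGIN Lib/HFree/H412/Basic.lean
section




/-!
# Shapiro cocycles for a subgroup `Γ ≤ SL(2,ℤ)` with values in an arbitrary abelian group

`X = SL(2,ℤ) ⧸ Γ`.  For an additive character `c : Γ → A` we construct the induced cocycle
`shap c : SL(2,ℤ) → (X → A)` (values in the permutation module), with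
`shap c γ x₀ = c γ` for `γ ∈ Γ`, and conversely restrict cocycles to characters.
-/

set_option autoImplicit false

open scoped MatrixGroups
open ModularGroup

namespace Fermat.Agent.Lib.HFree.H412

open Fermat.Agent.S20.H270 (Umat IsCocycle)

section PermRep

variable (A : Type*) [AddCommGroup A] {G : Type*} [Group G] {X : Type*} [MulAction G X]

/-- The permutation representation of `G` on `X → A`, by `ℤ`-linear equivalences:
`(g • m) x = m (g⁻¹ • x)`. -/
def permRep : G →* ((X → A) ≃ₗ[ℤ] (X → A)) where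
  toFun g :=
    { toFun := fun m x => m (g⁻¹ • x)
      invFun := fun m x => m (g • x)
      map_add' := fun _ _ => rfl
      map_smul' := fun _ _ => rfl
      left_inv := fun m => by funext x; simp
      right_inv := fun m => by funext x; simp }
  map_one' := by
    ext m x
    simp
  map_mul' g h := by
    ext m x
    simp [mul_smul]

@[simp] theorem permRep_apply (g : G) (m : X → A) (x : X) :
    permRep A g m x = m (g⁻¹ • x) := rfl

variable {A}

theorem permRep_single [DecidableEq X] (g : G) (x : X) (a : A) :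
    permRep A g (Pi.single x a) = Pi.single (g • x) a := by
  funext y
  rw [permRep_apply]
  by_cases h : y = g • x
  · subst h
    simp
  · rw [Pi.single_eq_of_ne h, Pi.single_eq_of_ne]
    intro h'
    apply h
    rw [← h', smul_inv_smul]

theorem sum_permRep [Fintype X] (g : G) (m : X → A) :
    ∑ x, permRep A g m x = ∑ x, m x := by
  simp only [permRep_apply]
  exact Fintype.sum_equiv (MulAction.toPerm g⁻¹) _ _ (fun _ => rfl)

/-- The permutation `x ↦ g⁻¹ • x`. -/
def invPerm (X : Type*) [MulAction G X] (g : G) : Equiv.Perm X := MulAction.toPerm g⁻¹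

@[simp] theorem invPerm_apply (g : G) (x : X) : invPerm X g x = g⁻¹ • x := rfl

theorem invPerm_pow_apply (g : G) (k : ℕ) (x : X) : (invPerm X g ^ k) x = (g ^ k)⁻¹ • x := by
  induction k generalizing x with
  | zero => simp
  | succ k ih =>
    rw [pow_succ, Equiv.Perm.mul_apply, ih, invPerm_apply, ← mul_smul, pow_succ', mul_inv_rev]

theorem invPerm_finOrder [Finite X] (g : G) : ∃ n : ℕ, 0 < n ∧ invPerm X g ^ n = 1 :=
  isOfFinOrder_iff_pow_eq_one.mp (isOfFinOrder_of_finite (invPerm X g))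

end PermRep

section Cocycle

variable {A : Type*} [AddCommGroup A] {Γ : Subgroup SL(2, ℤ)}

/-- Power formula for cocycles with values in a permutation module. -/
theorem cocycle_pow_apply {z : SL(2, ℤ) → ((SL(2, ℤ) ⧸ Γ) → A)}
    (hz : IsCocycle (permRep A) z) (g : SL(2, ℤ)) (j : ℕ) (y : SL(2, ℤ) ⧸ Γ) :
    z (g ^ j) y = orbSum (invPerm (SL(2, ℤ) ⧸ Γ) g) (z g) y j := by
  induction j with
  | zero =>
    rw [pow_zero, hz.map_one]
    simp [orbSum]
  | succ j ih =>
    rw [orbSum_succ, ← ih, pow_succ, hz (g ^ j) g, Pi.add_apply, permRep_apply,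
      invPerm_pow_apply]

/-- A cocycle whose "closed orbit values" `z (g ^ j) y`, `g ^ j • y = y`, vanish is a coboundary
on `g`. -/
theorem exists_eq_coboundary_at [Finite (SL(2, ℤ) ⧸ Γ)]
    {z : SL(2, ℤ) → ((SL(2, ℤ) ⧸ Γ) → A)}
    (hz : IsCocycle (permRep A) z) (g : SL(2, ℤ))
    (h0 : ∀ (y : SL(2, ℤ) ⧸ Γ) (j : ℕ), (g ^ j)⁻¹ • y = y → z (g ^ j) y = 0) :
    ∃ m : (SL(2, ℤ) ⧸ Γ) → A, z g = permRep A g m - m := by
  obtain ⟨m, hm⟩ := exists_coboundary_of_orbSum (invPerm (SL(2, ℤ) ⧸ Γ) g)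
    (invPerm_finOrder g) (z g) (fun y j hj => by
      rw [← cocycle_pow_apply hz]
      exact h0 y j (by rwa [invPerm_pow_apply] at hj))
  refine ⟨m, ?_⟩
  funext y
  rw [hm y]
  rfl

/-- If `z g = g • m - m` then `z (g ^ k) = g ^ k • m - m` for all integers `k`. -/
theorem cocycle_zpow_of_coboundary {z : SL(2, ℤ) → ((SL(2, ℤ) ⧸ Γ) → A)}
    (hz : IsCocycle (permRep A) z) (g : SL(2, ℤ)) (m : (SL(2, ℤ) ⧸ Γ) → A)
    (hg : z g = permRep A g m - m) (k : ℤ) :
    z (g ^ k) = permRep A (g ^ k) m - m := by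
  let H : Subgroup SL(2, ℤ) :=
    { carrier := {h | z h = permRep A h m - m}
      one_mem' := by
        show z 1 = permRep A 1 m - m
        rw [hz.map_one, map_one]
        simp
      mul_mem' := fun {a b} ha hb => by
        show z (a * b) = permRep A (a * b) m - m
        have ha' : z a = permRep A a m - m := ha
        have hb' : z b = permRep A b m - m := hb
        rw [hz a b, ha', hb', map_sub, map_mul]
        simp only [LinearEquiv.mul_apply]
        abel
      inv_mem' := fun {a} ha => by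
        show z a⁻¹ = permRep A a⁻¹ m - m
        have ha' : z a = permRep A a m - m := ha
        rw [hz.map_inv, ha', map_sub, ← LinearEquiv.mul_apply, ← map_mul, inv_mul_cancel,
          map_one]
        simp }
  have hgH : g ∈ H := hg
  exact H.zpow_mem hgH k

end Cocycle

section Shapiro

variable {A : Type*} [AddCommGroup A] {Γ : Subgroup SL(2, ℤ)}

/-- The twisting element `s(x)⁻¹ g s(g⁻¹ x)`. -/
noncomputable def tw (g : SL(2, ℤ)) (x : SL(2, ℤ) ⧸ Γ) : SL(2, ℤ) :=
  (Quotient.out x)⁻¹ * g * Quotient.out (g⁻¹ • x)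

theorem mk_out (x : SL(2, ℤ) ⧸ Γ) : (QuotientGroup.mk (Quotient.out x) : SL(2, ℤ) ⧸ Γ) = x :=
  QuotientGroup.out_eq' x

theorem tw_mem (g : SL(2, ℤ)) (x : SL(2, ℤ) ⧸ Γ) : tw g x ∈ Γ := by
  unfold tw
  rw [mul_assoc, ← QuotientGroup.eq, mk_out]
  have : (QuotientGroup.mk (g * Quotient.out (g⁻¹ • x)) : SL(2, ℤ) ⧸ Γ) =
      g • (QuotientGroup.mk (Quotient.out (g⁻¹ • x)) : SL(2, ℤ) ⧸ Γ) := rfl
  rw [this, mk_out, smul_inv_smul]

theorem tw_mul (g h : SL(2, ℤ)) (x : SL(2, ℤ) ⧸ Γ) :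
    tw (g * h) x = tw g x * tw h (g⁻¹ • x) := by
  unfold tw
  rw [mul_inv_rev, mul_smul]
  group

/-- If `g⁻¹` fixes `x`, the twisting element is a conjugate of `g`. -/
theorem tw_of_fixed {g : SL(2, ℤ)} {x : SL(2, ℤ) ⧸ Γ} (h : g⁻¹ • x = x) :
    tw g x = (Quotient.out x)⁻¹ * g * Quotient.out x := by
  unfold tw
  rw [h]

variable (Γ) in
/-- The base point of `SL(2,ℤ) ⧸ Γ`. -/
def bpt : SL(2, ℤ) ⧸ Γ := QuotientGroup.mk 1

theorem smul_bpt_of_mem {γ : SL(2, ℤ)} (hγ : γ ∈ Γ) : γ • bpt Γ = bpt Γ := by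
  show (QuotientGroup.mk (γ * 1) : SL(2, ℤ) ⧸ Γ) = QuotientGroup.mk 1
  rw [mul_one, QuotientGroup.eq, mul_one]
  exact Γ.inv_mem hγ

theorem inv_smul_bpt_of_mem {γ : SL(2, ℤ)} (hγ : γ ∈ Γ) : γ⁻¹ • bpt Γ = bpt Γ :=
  smul_bpt_of_mem (Γ.inv_mem hγ)

theorem exists_smul_bpt (x : SL(2, ℤ) ⧸ Γ) : ∃ g : SL(2, ℤ), g • bpt Γ = x := by
  refine ⟨Quotient.out x, ?_⟩
  show (QuotientGroup.mk (Quotient.out x * 1) : SL(2, ℤ) ⧸ Γ) = x
  rw [mul_one, mk_out]

theorem out_bpt_mem : Quotient.out (bpt Γ) ∈ Γ := by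
  have h : (QuotientGroup.mk (Quotient.out (bpt Γ)) : SL(2, ℤ) ⧸ Γ) = QuotientGroup.mk 1 :=
    mk_out (bpt Γ)
  rw [QuotientGroup.eq] at h
  have h2 := Γ.inv_mem h
  rwa [mul_one, inv_inv] at h2

theorem neg_one_smul_coset (hneg : (-1 : SL(2, ℤ)) ∈ Γ) (x : SL(2, ℤ) ⧸ Γ) :
    (-1 : SL(2, ℤ)) • x = x := by
  induction x using QuotientGroup.induction_on with
  | H h =>
    show (QuotientGroup.mk (-1 * h) : SL(2, ℤ) ⧸ Γ) = QuotientGroup.mk h
    rw [QuotientGroup.eq]
    have : (-1 * h)⁻¹ * h = -1 := by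
      have h1 : (-1 * h) * (-1 : SL(2, ℤ)) = h := by simp
      calc (-1 * h)⁻¹ * h = (-1 * h)⁻¹ * ((-1 * h) * (-1 : SL(2, ℤ))) := by rw [h1]
        _ = -1 := by rw [inv_mul_cancel_left]
    rw [this]
    exact hneg

theorem permRep_neg_one (A : Type*) [AddCommGroup A] (hneg : (-1 : SL(2, ℤ)) ∈ Γ) :
    permRep A (-1 : SL(2, ℤ)) = (1 : ((SL(2, ℤ) ⧸ Γ) → A) ≃ₗ[ℤ] ((SL(2, ℤ) ⧸ Γ) → A)) := by
  ext m x
  show m ((-1 : SL(2, ℤ))⁻¹ • x) = m x
  have : ((-1 : SL(2, ℤ))⁻¹) = -1 := by decide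
  rw [this, neg_one_smul_coset hneg]

/-- Additive characters of `Γ` (as raw functions). -/
def IsAddChar (c : Γ → A) : Prop := ∀ γ γ' : Γ, c (γ * γ') = c γ + c γ'

namespace IsAddChar

variable {c : Γ → A}

theorem map_one (hc : IsAddChar c) : c 1 = 0 := by
  have h := hc 1 1
  rw [mul_one] at h
  have : c 1 + c 1 = c 1 + 0 := by rw [← h, add_zero]
  exact add_left_cancel this

theorem map_inv (hc : IsAddChar c) (γ : Γ) : c γ⁻¹ = -c γ := by
  have h := hc γ⁻¹ γ
  rw [inv_mul_cancel, hc.map_one] at h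
  exact eq_neg_of_add_eq_zero_left h.symm

theorem map_conj (hc : IsAddChar c) (γ δ : Γ) : c (δ⁻¹ * γ * δ) = c γ := by
  rw [hc, hc, hc.map_inv]
  abel

end IsAddChar

/-- The Shapiro cocycle of a function `c : Γ → A`. -/
noncomputable def shap (c : Γ → A) : SL(2, ℤ) → ((SL(2, ℤ) ⧸ Γ) → A) :=
  fun g x => c ⟨tw g x, tw_mem g x⟩

omit [AddCommGroup A] in
theorem shap_apply (c : Γ → A) (g : SL(2, ℤ)) (x : SL(2, ℤ) ⧸ Γ) :
    shap c g x = c ⟨tw g x, tw_mem g x⟩ := rfl

theorem isCocycle_shap {c : Γ → A} (hc : IsAddChar c) : IsCocycle (permRep A) (shap c) := by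
  intro g h
  funext x
  rw [Pi.add_apply, permRep_apply, shap_apply, shap_apply, shap_apply, ← hc]
  congr 1
  exact Subtype.ext (tw_mul g h x)

theorem shap_bpt {c : Γ → A} (hc : IsAddChar c) (γ : Γ) : shap c (γ : SL(2, ℤ)) (bpt Γ) = c γ := by
  rw [shap_apply]
  have h1 : (⟨tw (γ : SL(2, ℤ)) (bpt Γ), tw_mem _ _⟩ : Γ) =
      (⟨Quotient.out (bpt Γ), out_bpt_mem⟩ : Γ)⁻¹ * γ * ⟨Quotient.out (bpt Γ), out_bpt_mem⟩ := by
    apply Subtype.ext
    exact tw_of_fixed (inv_smul_bpt_of_mem γ.2)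
  rw [h1, hc.map_conj]

/-- Restriction of a cocycle to a character of `Γ`. -/
def resChar (z : SL(2, ℤ) → ((SL(2, ℤ) ⧸ Γ) → A)) : Γ → A := fun γ => z (γ : SL(2, ℤ)) (bpt Γ)

theorem isAddChar_resChar {z : SL(2, ℤ) → ((SL(2, ℤ) ⧸ Γ) → A)}
    (hz : IsCocycle (permRep A) z) : IsAddChar (resChar z) := by
  intro γ γ'
  show z ((γ : SL(2, ℤ)) * γ') (bpt Γ) = z γ (bpt Γ) + z γ' (bpt Γ)
  rw [hz, Pi.add_apply, permRep_apply, inv_smul_bpt_of_mem γ.2]

/-- Value of a cocycle on a conjugate `g h g⁻¹ ∈ Γ`, at the base point. -/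
theorem cocycle_conj_bpt {z : SL(2, ℤ) → ((SL(2, ℤ) ⧸ Γ) → A)}
    (hz : IsCocycle (permRep A) z) (g h : SL(2, ℤ)) (hmem : g * h * g⁻¹ ∈ Γ) :
    z (g * h * g⁻¹) (bpt Γ) = z h (g⁻¹ • bpt Γ) := by
  have e1 : z (g * h * g⁻¹) = z g + permRep A g (z h) - permRep A (g * h * g⁻¹) (z g) := by
    rw [hz (g * h) g⁻¹, hz g h, hz.map_inv, map_neg, ← LinearEquiv.mul_apply, ← map_mul]
    abel
  rw [e1]
  simp only [Pi.add_apply, Pi.sub_apply, permRep_apply]
  rw [inv_smul_bpt_of_mem hmem]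
  abel

end Shapiro

end Fermat.Agent.Lib.HFree.H412

end
-- ===== PACK-END Lib/HFree/H412/Basic.lean

-- ===== PACK-BEGIN Lib/HFree/H412/Trans.lean
section


/-!
# The augmentation kernel of the permutation module is `(S⁻¹ - 1) M + (T - 1) M`

`X = SL(2,ℤ) ⧸ Γ` finite, `M = (X → ℤ)`.  Since `S, T` generate `SL(2,ℤ)`, which acts
transitively on `X`, every `e : X → ℤ` with `∑ e = 0` is of the form
`(S⁻¹ • n - n) + (T • k - k)`.
-/

set_option autoImplicit false

open scoped MatrixGroups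
open ModularGroup

namespace Fermat.Agent.Lib.HFree.H412

variable {Γ : Subgroup SL(2, ℤ)}

/-- The subgroup `(S⁻¹ - 1) M + (T - 1) M` of `M = (X → ℤ)`. -/
def augGen (Γ : Subgroup SL(2, ℤ)) : AddSubgroup ((SL(2, ℤ) ⧸ Γ) → ℤ) where
  carrier := {e | ∃ n k : (SL(2, ℤ) ⧸ Γ) → ℤ,
    e = (permRep ℤ (S⁻¹ : SL(2, ℤ)) n - n) + (permRep ℤ (T : SL(2, ℤ)) k - k)}
  zero_mem' := ⟨0, 0, by simp⟩
  add_mem' := by
    rintro _ _ ⟨n, k, rfl⟩ ⟨n', k', rfl⟩
    refine ⟨n + n', k + k', ?_⟩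
    rw [map_add, map_add]
    abel
  neg_mem' := by
    rintro _ ⟨n, k, rfl⟩
    refine ⟨-n, -k, ?_⟩
    rw [map_neg, map_neg]
    abel

theorem mem_augGen {e : (SL(2, ℤ) ⧸ Γ) → ℤ} :
    e ∈ augGen Γ ↔ ∃ n k : (SL(2, ℤ) ⧸ Γ) → ℤ,
      e = (permRep ℤ (S⁻¹ : SL(2, ℤ)) n - n) + (permRep ℤ (T : SL(2, ℤ)) k - k) := Iff.rfl

open Classical in
theorem single_smul_sub_single_mem (h : SL(2, ℤ)) (x : SL(2, ℤ) ⧸ Γ) :
    (Pi.single (h • x) (1 : ℤ) - Pi.single x 1 : (SL(2, ℤ) ⧸ Γ) → ℤ) ∈ augGen Γ := by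
  let H : Subgroup SL(2, ℤ) :=
    { carrier := {h | ∀ x : SL(2, ℤ) ⧸ Γ,
        (Pi.single (h • x) (1 : ℤ) - Pi.single x 1 : (SL(2, ℤ) ⧸ Γ) → ℤ) ∈ augGen Γ}
      one_mem' := fun x => by
        rw [one_smul, sub_self]
        exact (augGen Γ).zero_mem
      mul_mem' := fun {a b} ha hb x => by
        have h1 := ha (b • x)
        have h2 := hb x
        have := (augGen Γ).add_mem h1 h2
        rw [sub_add_sub_cancel, ← mul_smul] at this
        exact this
      inv_mem' := fun {a} ha x => by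
        have h1 := (augGen Γ).neg_mem (ha (a⁻¹ • x))
        rw [smul_inv_smul, neg_sub] at h1
        exact h1 }
  have hS : (S : SL(2, ℤ)) ∈ H := by
    have hS' : (S⁻¹ : SL(2, ℤ)) ∈ H := fun x => by
      refine ⟨Pi.single x 1, 0, ?_⟩
      rw [permRep_single]
      simp
    have := H.inv_mem hS'
    rwa [inv_inv] at this
  have hT : (T : SL(2, ℤ)) ∈ H := fun x => by
    refine ⟨0, Pi.single x 1, ?_⟩
    rw [permRep_single]
    simp
  have htop : H = ⊤ := by
    rw [eq_top_iff, ← SpecialLinearGroup.SL2Z_generators, Subgroup.closure_le]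
    rintro g (rfl | hg)
    · exact hS
    · rw [Set.mem_singleton_iff] at hg
      subst hg
      exact hT
  have : h ∈ H := by rw [htop]; trivial
  exact this x

open Classical in
/-- **Transitivity lemma.** -/
theorem mem_augGen_of_sum_eq_zero [Fintype (SL(2, ℤ) ⧸ Γ)] (e : (SL(2, ℤ) ⧸ Γ) → ℤ)
    (he : ∑ x, e x = 0) : e ∈ augGen Γ := by
  have h1 : e = ∑ x, e x • (Pi.single x (1 : ℤ) - Pi.single (bpt Γ) 1 :
      (SL(2, ℤ) ⧸ Γ) → ℤ) := by
    simp only [smul_sub, Finset.sum_sub_distrib, ← Finset.sum_smul, he, zero_smul, sub_zero]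
    funext y
    rw [Finset.sum_apply]
    simp [Pi.single_apply]
  rw [h1]
  refine (augGen Γ).sum_mem fun x _ => (augGen Γ).zsmul_mem ?_ _
  obtain ⟨g, hg⟩ := exists_smul_bpt x
  rw [← hg]
  exact single_smul_sub_single_mem g (bpt Γ)

end Fermat.Agent.Lib.HFree.H412

end
-- ===== PACK-END Lib/HFree/H412/Trans.lean

-- ===== PACK-BEGIN S21/H381/Parabolic.lean
section




/-!
# S21, piece B: periods of cusp forms are parabolic homomorphisms
-/

set_option autoImplicit false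

namespace Fermat.Agent.S21.H381

open CongruenceSubgroup ModularCurve ModularCurve.Period Filter Topology Function Complex
open UpperHalfPlane hiding I
open scoped Manifold MatrixGroups ModularForm

/-- An element of `SL(2, ℤ)` with `trace ^ 2 = 4` is conjugate (as a Möbius transformation)
to a translation `T ^ n`. -/
theorem exists_conj_T_zpow (γ : SL(2, ℤ))
    (htr : ((γ : Matrix (Fin 2) (Fin 2) ℤ).trace) ^ 2 = 4) :
    ∃ δ : SL(2, ℤ), ∃ n : ℤ, ∀ w : ℍ, γ • (δ • w) = δ • (ModularGroup.T ^ n • w) := by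
  have hdet := γ.det_coe
  rw [Matrix.det_fin_two] at hdet
  rw [Matrix.trace_fin_two] at htr
  by_cases hc : γ 1 0 = 0
  · obtain ⟨n, hn⟩ := ModularGroup.exists_eq_T_zpow_of_c_eq_zero hc
    exact ⟨1, n, fun w => by simp [hn]⟩
  · set a := γ 0 0 with ha
    set b := γ 0 1 with hb
    set c := γ 1 0 with hc'
    set d := γ 1 1 with hd
    set g : ℤ := (Int.gcd (a - d) (2 * c) : ℤ) with hg
    have hg0 : g ≠ 0 := by
      rw [hg]
      intro h
      have h2 : Int.gcd (a - d) (2 * c) = 0 := by exact_mod_cast h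
      rw [Int.gcd_eq_zero_iff] at h2
      have : c = 0 := by omega
      exact hc this
    have hga : g ∣ (a - d) := Int.gcd_dvd_left _ _
    have hgc : g ∣ (2 * c) := Int.gcd_dvd_right _ _
    obtain ⟨p, hp⟩ := hga
    obtain ⟨q, hq⟩ := hgc
    have hcop : IsCoprime p q := by
      have hbez := Int.gcd_eq_gcd_ab (a - d) (2 * c)
      rw [← hg] at hbez
      refine ⟨Int.gcdA (a - d) (2 * c), Int.gcdB (a - d) (2 * c), ?_⟩
      have : g * (Int.gcdA (a - d) (2 * c) * p + Int.gcdB (a - d) (2 * c) * q) = g * 1 := by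
        have e1 : g * p = a - d := hp.symm
        have e2 : g * q = 2 * c := hq.symm
        calc g * (Int.gcdA (a - d) (2 * c) * p + Int.gcdB (a - d) (2 * c) * q)
            = (g * p) * Int.gcdA (a - d) (2 * c) + (g * q) * Int.gcdB (a - d) (2 * c) := by ring
          _ = g := by rw [e1, e2]; exact hbez.symm
          _ = g * 1 := (mul_one g).symm
      exact mul_left_cancel₀ hg0 this
    obtain ⟨δ, hδ0, hδ1⟩ := hcop.exists_SL2_col 0
    have hδdet := δ.det_coe
    rw [Matrix.det_fin_two, hδ0, hδ1] at hδdet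
    have hM : (δ⁻¹ * γ * δ) 1 0 = 0 := by
      have hQ : g ^ 2 * (c * p ^ 2 + (d - a) * p * q - b * q ^ 2) = 0 := by
        have e1 : g * p = a - d := hp.symm
        have e2 : g * q = 2 * c := hq.symm
        have : g ^ 2 * (c * p ^ 2 + (d - a) * p * q - b * q ^ 2)
            = c * (g * p) ^ 2 + (d - a) * (g * p) * (g * q) - b * (g * q) ^ 2 := by ring
        rw [this, e1, e2]
        have h4 : (a + d) ^ 2 = 4 := htr
        have h1 : a * d - b * c = 1 := hdet
        linear_combination (-c) * h4 + (4 * c) * h1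
      have hQ' : c * p ^ 2 + (d - a) * p * q - b * q ^ 2 = 0 := by
        rcases mul_eq_zero.mp hQ with h | h
        · exact absurd (pow_eq_zero_iff two_ne_zero |>.mp h) hg0
        · exact h
      simp only [Matrix.SpecialLinearGroup.coe_mul, Matrix.SpecialLinearGroup.coe_inv,
        Matrix.adjugate_fin_two, Matrix.mul_apply, Fin.sum_univ_two, Matrix.of_apply,
        Matrix.cons_val', Matrix.cons_val_zero, Matrix.cons_val_one, Matrix.empty_val',
        Matrix.cons_val_fin_one, hδ0, hδ1]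
      rw [← ha, ← hb, ← hc', ← hd]
      linear_combination hQ'
    obtain ⟨n, hn⟩ := ModularGroup.exists_eq_T_zpow_of_c_eq_zero hM
    refine ⟨δ, n, fun w => ?_⟩
    rw [← hn w, ← mul_smul, ← mul_smul]
    congr 1
    group

/-- Translation by `T ^ n` preserves the filter `atImInfty`. -/
theorem tendsto_T_zpow_smul_atImInfty (n : ℤ) :
    Tendsto (fun w : ℍ => ModularGroup.T ^ n • w) atImInfty atImInfty := by
  rw [atImInfty, tendsto_comap_iff]
  have : (UpperHalfPlane.im ∘ fun w : ℍ => ModularGroup.T ^ n • w) = UpperHalfPlane.im := by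
    funext w
    exact ModularGroup.im_T_zpow_smul w n
  rw [this]
  exact tendsto_comap

variable {N : ℕ} [NeZero N]

/-- **Piece B**: the period homomorphism of a cusp form kills every `γ` with `trace ^ 2 = 4`. -/
theorem periodMap_mem_parabolicHoms (f : CuspForm (Gamma0 N) 2) :
    periodMap N f ∈ parabolicHoms ℂ (Gamma0 N) ℂ := by
  rw [mem_parabolicHoms_iff]
  intro γ hγ
  obtain ⟨F, hF⟩ := exists_hasEquivariantPrimitive f
  obtain ⟨δ, n, hδ⟩ := exists_conj_T_zpow (γ : SL(2, ℤ)) hγ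
  obtain ⟨L, hL⟩ := hF.2.2.2 δ
  have hconst : ∀ w : ℍ, periodMap N f (Additive.ofMul γ)
      = F (δ • (ModularGroup.T ^ n • w)) - F (δ • w) := by
    intro w
    rw [_root_.Fermat.Agent.S21.H381.periodMap_apply hF γ (δ • w), hδ w]
  have h1 : Tendsto (fun w : ℍ => F (δ • (ModularGroup.T ^ n • w)) - F (δ • w)) atImInfty
      (𝓝 (L - L)) :=
    (hL.comp (tendsto_T_zpow_smul_atImInfty n)).sub hL
  have h2 : Tendsto (fun w : ℍ => F (δ • (ModularGroup.T ^ n • w)) - F (δ • w)) atImInfty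
      (𝓝 (periodMap N f (Additive.ofMul γ))) := by
    have : (fun w : ℍ => F (δ • (ModularGroup.T ^ n • w)) - F (δ • w))
        = fun _ => periodMap N f (Additive.ofMul γ) := funext fun w => (hconst w).symm
    rw [this]; exact tendsto_const_nhds
  have := tendsto_nhds_unique h2 h1
  rw [sub_self] at this
  exact this

/-- **Piece B'**: the range of `periodHomPair` consists of parabolic homomorphisms. -/
theorem range_periodHomPair_le :
    LinearMap.range (periodHomPair N) ≤ parabolicHoms ℂ (Gamma0 N) ℂ := by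
  rintro ψ ⟨⟨f, g⟩, rfl⟩
  rw [_root_.Fermat.Agent.S21.H381.periodHomPair_apply]
  have hf := _root_.Fermat.Agent.S21.H381.periodMap_mem_parabolicHoms f
  have hg := _root_.Fermat.Agent.S21.H381.periodMap_mem_parabolicHoms g
  exact Submodule.add_mem _
    (Submodule.add_mem _ hf (charInvolution_mem_parabolicHoms N ℂ ℂ hf))
    (Submodule.sub_mem _ hg (charInvolution_mem_parabolicHoms N ℂ ℂ hg))

end Fermat.Agent.S21.H381

end
-- ===== PACK-END S21/H381/Parabolic.lean

-- ===== PACK-BEGIN S21/Interface.lean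
section





/-!
# S21 (Eichler–Shimura, weight 2, Γ₀(N)) — interface statements

The analytic inputs `A1 A2 B C'` (proved by helper381 / helper81; `E1` is in `ConjPartner.lean`
by helper759, `D'` is in `HodgeAssembly.lean`).  Everything else is glue (`Glue.lean`).
-/

set_option autoImplicit false

open ModularCurve ModularCurve.Period UpperHalfPlane CongruenceSubgroup
open scoped MatrixGroups ComplexConjugate

namespace Fermat.Agent.S21

/-- **A1**: every weight-2 cusp form on `Γ₀(N)` has an equivariant primitive. -/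
theorem exists_primitive (N : ℕ) [NeZero N] (f : CuspForm (Gamma0 N) 2) :
    ∃ F : ℍ → ℂ, HasEquivariantPrimitive N f F :=
  H381.exists_hasEquivariantPrimitive f

/-- **A2**: the equivariant primitive is unique (only the derivative and the limit at `i∞` are
used). -/
theorem primitive_unique (N : ℕ) (f : CuspForm (Gamma0 N) 2) {F₁ F₂ : ℍ → ℂ}
    (h₁ : HasEquivariantPrimitive N f F₁) (h₂ : HasEquivariantPrimitive N f F₂) : F₁ = F₂ :=
  H381.hasEquivariantPrimitive_unique h₁ h₂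

/-- **B**: periods of cusp forms vanish on parabolic elements. -/
theorem periodMap_mem_parabolicHoms' (N : ℕ) [NeZero N] (f : CuspForm (Gamma0 N) 2) :
    periodMap N f ∈ parabolicHoms ℂ (Gamma0 N) ℂ :=
  H381.periodMap_mem_parabolicHoms f

/-- **C'**: a cusp form all of whose periods are purely imaginary is zero. -/
theorem eq_zero_of_re_period_eq_zero (N : ℕ) [NeZero N] (f : CuspForm (Gamma0 N) 2) {F : ℍ → ℂ}
    (hF : HasEquivariantPrimitive N f F)
    (h : ∀ γ : Gamma0 N, (F ((γ : SL(2, ℤ)) • UpperHalfPlane.I) - F UpperHalfPlane.I).re = 0) :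
    f = 0 :=
  H81.eq_zero_of_re_period_eq_zero N f hF h

end Fermat.Agent.S21

end
-- ===== PACK-END S21/Interface.lean

-- ===== PACK-BEGIN S21/DefsMS.lean
section


/-!
# S21 — definitions for the minimizing-sequence part (MS)
-/

set_option autoImplicit false

open UpperHalfPlane CongruenceSubgroup
open scoped MatrixGroups ContDiff

namespace Fermat.Agent.S21

/-- Test functions: smooth, compactly supported in the upper half plane. -/
def IsTest (η : ℂ → ℝ) : Prop :=
  ContDiff ℝ ∞ η ∧ HasCompactSupport η ∧ tsupport η ⊆ Uhp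

/-- The properties of a smooth `SL(2,ℤ)`-partition of unity (output of MS-A). -/
structure IsSL2ZPartition (χ₁ : ℂ → ℝ) : Prop where
  smooth : ContDiffOn ℝ ∞ χ₁ Uhp
  nonneg : ∀ z, 0 ≤ χ₁ z
  supp : ∀ z, χ₁ z ≠ 0 → |z.re| ≤ 1 ∧ 1 / 2 < z.im
  locfin : ∀ K : Set ℂ, IsCompact K → K ⊆ Uhp →
    {g : SL(2, ℤ) | ∃ z ∈ K, χ₁ (mob g z) ≠ 0}.Finite
  sum_eq_one : ∀ z ∈ Uhp, ∑ᶠ g : SL(2, ℤ), χ₁ (mob g z) = 1

/-- The `Γ₀(N)`-partition of unity built from an `SL(2,ℤ)`-partition `χ₁`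
(sum over representatives of the left cosets `g Γ₀(N)`), extended by `0` off the upper half
plane. -/
noncomputable def chi (N : ℕ) (χ₁ : ℂ → ℝ) : ℂ → ℝ :=
  Set.indicator Uhp fun z => ∑ᶠ q : SL(2, ℤ) ⧸ Gamma0 N, χ₁ (mob (Quotient.out q) z)

/-- `Γ₀(N)`-symmetrization of a test function. -/
noncomputable def sym (N : ℕ) (η : ℂ → ℝ) : ℂ → ℝ :=
  fun z => ∑ᶠ γ : Gamma0 N, η (mob (γ : SL(2, ℤ)) z)

end Fermat.Agent.S21

end
-- ===== PACK-END S21/DefsMS.lean

-- ===== PACK-BEGIN S21/Partition.lean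
section


/-!
# S21 / MS-A — a smooth `SL(2,ℤ)`-partition of unity on the upper half plane

Main results:
* `Fermat.Agent.S21.finite_mob_inter` (G1): proper discontinuity in terms of `mob`.
* `Fermat.Agent.S21.c_eq_zero_of_two_le_im` (G2).
* `Fermat.Agent.S21.exists_partition_SL2Z`.

All auxiliary lemmas live in the namespace `Fermat.Agent.S21.PartitionAux`
(`mob_mob`, `mob_im`, `mob_eq_div`, `mob_contDiffAt`, `mob_im_le_max`, `psiFn`, `PsiSum`,
`chiOne` and its properties).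
-/

set_option autoImplicit false

open UpperHalfPlane Matrix
open scoped MatrixGroups ContDiff

namespace Fermat.Agent.S21.PartitionAux

/-! ### Basic facts about `mob` -/

theorem mob_coe (g : SL(2, ℤ)) (w : ℍ) : mob g (w : ℂ) = ((g • w : ℍ) : ℂ) := by
  simp [mob]

theorem mob_of_mem {z : ℂ} (hz : z ∈ Uhp) (g : SL(2, ℤ)) :
    mob g z = ((g • (⟨z, hz⟩ : ℍ) : ℍ) : ℂ) := by
  simp [mob, ofComplex_apply_of_im_pos hz]

theorem mob_mem_Uhp (g : SL(2, ℤ)) (z : ℂ) : mob g z ∈ Uhp := coe_mem_Uhp _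

theorem mob_mob (g h : SL(2, ℤ)) (z : ℂ) : mob g (mob h z) = mob (g * h) z := by
  simp [mob, mul_smul]

theorem mob_one {z : ℂ} (hz : z ∈ Uhp) : mob 1 z = z := by
  simp [mob_of_mem hz]

theorem mob_im (g : SL(2, ℤ)) {z : ℂ} (hz : z ∈ Uhp) :
    (mob g z).im = z.im / Complex.normSq (cd g z) := by
  rw [mob_of_mem hz]
  have h := ModularGroup.im_smul_eq_div_normSq g (⟨z, hz⟩ : ℍ)
  rw [ModularGroup.denom_apply] at h
  exact h

theorem mob_eq_div (g : SL(2, ℤ)) {z : ℂ} (hz : z ∈ Uhp) :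
    mob g z = (((g 0 0 : ℤ) : ℂ) * z + ((g 0 1 : ℤ) : ℂ)) / cd g z := by
  rw [mob_of_mem hz, coe_specialLinearGroup_apply]
  simp [cd]

theorem cd_ne_zero (g : SL(2, ℤ)) {z : ℂ} (hz : z ∈ Uhp) : cd g z ≠ 0 := by
  have h := UpperHalfPlane.denom_ne_zero g (⟨z, hz⟩ : ℍ)
  rw [ModularGroup.denom_apply] at h
  exact h

/-! ### Bounds on the imaginary part -/

theorem normSq_cd (g : SL(2, ℤ)) (z : ℂ) :
    Complex.normSq (cd g z) =
      ((g 1 0 : ℤ) * z.re + (g 1 1 : ℤ)) ^ 2 + ((g 1 0 : ℤ) * z.im) ^ 2 := by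
  simp [cd, Complex.normSq_apply]
  ring

theorem sq_im_le_normSq_cd (g : SL(2, ℤ)) (z : ℂ) (hc : g 1 0 ≠ 0) :
    z.im ^ 2 ≤ Complex.normSq (cd g z) := by
  rw [normSq_cd]
  have h1 : (1 : ℝ) ≤ ((g 1 0 : ℤ) : ℝ) ^ 2 := by
    have : (1 : ℤ) ≤ (g 1 0) ^ 2 := by
      have := sq_pos_of_ne_zero hc  -- 0 < c^2
      omega
    exact_mod_cast this
  have h2 : 0 ≤ (((g 1 0 : ℤ) : ℝ) * z.re + ((g 1 1 : ℤ) : ℝ)) ^ 2 := sq_nonneg _
  have h3 : 0 ≤ z.im ^ 2 := sq_nonneg _
  nlinarith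

theorem one_le_normSq_cd (g : SL(2, ℤ)) (z : ℂ) (hc : g 1 0 = 0) :
    1 ≤ Complex.normSq (cd g z) := by
  rw [normSq_cd, hc]
  have hd : g 1 1 ≠ 0 := by
    intro hd
    have hdet := g.det_coe
    rw [Matrix.det_fin_two, hc, hd] at hdet
    simp at hdet
  have h1 : (1 : ℝ) ≤ ((g 1 1 : ℤ) : ℝ) ^ 2 := by
    have : (1 : ℤ) ≤ (g 1 1) ^ 2 := by
      have := sq_pos_of_ne_zero hd
      omega
    exact_mod_cast this
  simpa using h1

theorem mob_im_le_inv (g : SL(2, ℤ)) {z : ℂ} (hz : z ∈ Uhp) (hc : g 1 0 ≠ 0) :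
    (mob g z).im ≤ 1 / z.im := by
  have hz' : 0 < z.im := hz
  rw [mob_im g hz]
  have h := sq_im_le_normSq_cd g z hc
  have hpos : 0 < Complex.normSq (cd g z) := lt_of_lt_of_le (by positivity) h
  rw [div_le_div_iff₀ hpos hz']
  nlinarith

theorem mob_im_le_self (g : SL(2, ℤ)) {z : ℂ} (hz : z ∈ Uhp) (hc : g 1 0 = 0) :
    (mob g z).im ≤ z.im := by
  have hz' : 0 < z.im := hz
  rw [mob_im g hz]
  have h := one_le_normSq_cd g z hc
  exact div_le_self hz'.le h

theorem mob_im_le_max (g : SL(2, ℤ)) {z : ℂ} (hz : z ∈ Uhp) :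
    (mob g z).im ≤ max z.im (1 / z.im) := by
  by_cases hc : g 1 0 = 0
  · exact (mob_im_le_self g hz hc).trans (le_max_left _ _)
  · exact (mob_im_le_inv g hz hc).trans (le_max_right _ _)

end Fermat.Agent.S21.PartitionAux

namespace Fermat.Agent.S21

open PartitionAux

/-- (G2) If `Im z ≥ 2` and `Im (g z) > 1/2` then the lower-left entry of `g` vanishes. -/
theorem c_eq_zero_of_two_le_im (g : SL(2, ℤ)) (z : ℂ) (hz : 2 ≤ z.im)
    (hg : 1 / 2 < (mob g z).im) : g 1 0 = 0 := by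
  by_contra hc
  have hzU : z ∈ Uhp := lt_of_lt_of_le (by norm_num) hz
  have h1 := mob_im_le_inv g hzU hc
  have h2 : 1 / z.im ≤ 1 / 2 := by
    apply one_div_le_one_div_of_le (by norm_num) hz
  linarith

/-! ### Proper discontinuity -/

/-- (G1) Proper discontinuity of the action of `SL(2,ℤ)` in terms of `mob`. -/
theorem finite_mob_inter (K : Set ℂ) (hK : IsCompact K) (hKU : K ⊆ Uhp) :
    {g : SL(2, ℤ) | ∃ z ∈ K, mob g z ∈ K}.Finite := by
  set K' : Set ℍ := (fun w : ℍ => (w : ℂ)) ⁻¹' K with hK'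
  have hK'c : IsCompact K' :=
    UpperHalfPlane.isEmbedding_coe.isInducing.isCompact_preimage' hK
      (fun z hz => ⟨⟨z, hKU hz⟩, rfl⟩)
  have hpd := (Subgroup.properlyDiscontinuousSMul_iff (α := ℍ) 𝒮ℒ).mp inferInstance hK'c hK'c
  refine (hpd.preimage (f := SpecialLinearGroup.mapGL ℝ)
    (SpecialLinearGroup.mapGL_injective.injOn)).subset ?_
  rintro g ⟨z, hz, hgz⟩
  refine ⟨⟨g, rfl⟩, ?_⟩
  refine ⟨g • (⟨z, hKU hz⟩ : ℍ), ⟨⟨z, hKU hz⟩, hz, rfl⟩, ?_⟩
  show ((g • (⟨z, hKU hz⟩ : ℍ) : ℍ) : ℂ) ∈ K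
  rw [← mob_of_mem (hKU hz)]
  exact hgz

end Fermat.Agent.S21

namespace Fermat.Agent.S21.PartitionAux

/-! ### The bump function `ψ` -/

/-- A smooth bump in the real direction: `= 1` on `[-1/2, 1/2]`, support in `(-1, 1)`. -/
noncomputable def betaFn (x : ℝ) : ℝ :=
  Real.smoothTransition (2 * (1 - x)) * Real.smoothTransition (2 * (1 + x))

/-- The bump `ψ(z) = β(Re z) θ(Im z)` with `θ(y) = smoothTransition (y - 1/2)`. -/
noncomputable def psiFn (z : ℂ) : ℝ :=
  betaFn z.re * Real.smoothTransition (z.im - 1 / 2)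

theorem betaFn_nonneg (x : ℝ) : 0 ≤ betaFn x :=
  mul_nonneg (Real.smoothTransition.nonneg _) (Real.smoothTransition.nonneg _)

theorem psiFn_nonneg (z : ℂ) : 0 ≤ psiFn z :=
  mul_nonneg (betaFn_nonneg _) (Real.smoothTransition.nonneg _)

theorem betaFn_contDiff : ContDiff ℝ ∞ betaFn := by
  unfold betaFn
  exact (Real.smoothTransition.contDiff.comp (contDiff_const.mul (contDiff_const.sub contDiff_id))).mul
    (Real.smoothTransition.contDiff.comp (contDiff_const.mul (contDiff_const.add contDiff_id)))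

theorem psiFn_contDiff : ContDiff ℝ ∞ psiFn := by
  unfold psiFn
  exact (betaFn_contDiff.comp Complex.reCLM.contDiff).mul
    (Real.smoothTransition.contDiff.comp (Complex.imCLM.contDiff.sub contDiff_const))

theorem psiFn_ne_zero {z : ℂ} (h : psiFn z ≠ 0) : |z.re| < 1 ∧ 1 / 2 < z.im := by
  unfold psiFn betaFn at h
  have h1 : Real.smoothTransition (2 * (1 - z.re)) ≠ 0 := fun h0 => h (by rw [h0]; ring)
  have h2 : Real.smoothTransition (2 * (1 + z.re)) ≠ 0 := fun h0 => h (by rw [h0]; ring)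
  have h3 : Real.smoothTransition (z.im - 1 / 2) ≠ 0 := fun h0 => h (by rw [h0]; ring)
  rw [Ne, Real.smoothTransition.zero_iff_nonpos, not_le] at h1 h2 h3
  refine ⟨abs_lt.mpr ⟨by linarith, by linarith⟩, by linarith⟩

theorem psiFn_pos {z : ℂ} (h1 : |z.re| ≤ 1 / 2) (h2 : 1 / 2 < z.im) : 0 < psiFn z := by
  unfold psiFn betaFn
  have := abs_le.mp h1
  refine mul_pos (mul_pos ?_ ?_) ?_
  · exact Real.smoothTransition.pos_of_pos (by linarith)
  · exact Real.smoothTransition.pos_of_pos (by linarith)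
  · exact Real.smoothTransition.pos_of_pos (by linarith)

/-! ### Local finiteness -/

theorem finite_psi_support (K : Set ℂ) (hK : IsCompact K) (hKU : K ⊆ Uhp) :
    {g : SL(2, ℤ) | ∃ z ∈ K, psiFn (mob g z) ≠ 0}.Finite := by
  rcases K.eq_empty_or_nonempty with rfl | hne
  · simp
  -- bounds for the imaginary part on `K`
  obtain ⟨z₁, hz₁K, hz₁⟩ := hK.exists_isMinOn hne Complex.continuous_im.continuousOn
  obtain ⟨z₂, hz₂K, hz₂⟩ := hK.exists_isMaxOn hne Complex.continuous_im.continuousOn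
  have hm : 0 < z₁.im := hKU hz₁K
  set M : ℝ := max z₂.im (1 / z₁.im) with hM
  set L : Set ℂ := Set.Icc (-1 : ℝ) 1 ×ℂ Set.Icc (1 / 2 : ℝ) M with hL
  have hLc : IsCompact L := isCompact_Icc.reProdIm isCompact_Icc
  have hLU : L ⊆ Uhp := by
    intro w hw
    have : (1 / 2 : ℝ) ≤ w.im := hw.2.1
    exact lt_of_lt_of_le (by norm_num) this
  refine (finite_mob_inter (K ∪ L) (hK.union hLc) (Set.union_subset hKU hLU)).subset ?_
  rintro g ⟨z, hzK, hgz⟩
  refine ⟨z, Or.inl hzK, Or.inr ?_⟩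
  obtain ⟨hre, him⟩ := psiFn_ne_zero hgz
  have hzU : z ∈ Uhp := hKU hzK
  have hzpos : 0 < z.im := hzU
  have hb := mob_im_le_max g hzU
  have h1 : z.im ≤ z₂.im := hz₂ hzK
  have h2 : z₁.im ≤ z.im := hz₁ hzK
  have h3 : 1 / z.im ≤ 1 / z₁.im := one_div_le_one_div_of_le hm h2
  have h4 : (mob g z).im ≤ M := hb.trans (max_le_max h1 h3)
  have := abs_lt.mp hre
  exact ⟨⟨by linarith, by linarith⟩, ⟨him.le, h4⟩⟩

/-! ### The invariant sum `Ψ` -/

/-- `Ψ(z) = ∑_g ψ(g z)`. -/
noncomputable def PsiSum (z : ℂ) : ℝ := ∑ᶠ g : SL(2, ℤ), psiFn (mob g z)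

theorem PsiSum_nonneg (z : ℂ) : 0 ≤ PsiSum z := finsum_nonneg fun _ => psiFn_nonneg _

theorem PsiSum_mob (h : SL(2, ℤ)) (z : ℂ) : PsiSum (mob h z) = PsiSum z := by
  unfold PsiSum
  simp only [mob_mob]
  exact finsum_comp_equiv (Equiv.mulRight h) (f := fun g => psiFn (mob g z))

theorem finite_support_psi {z : ℂ} (hz : z ∈ Uhp) :
    (Function.support fun g : SL(2, ℤ) => psiFn (mob g z)).Finite := by
  refine (finite_psi_support {z} isCompact_singleton (by simpa using hz)).subset ?_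
  intro g hg
  exact ⟨z, rfl, hg⟩

theorem PsiSum_pos {z : ℂ} (hz : z ∈ Uhp) : 0 < PsiSum z := by
  obtain ⟨g, hg⟩ := ModularGroup.exists_smul_mem_fd (⟨z, hz⟩ : ℍ)
  refine finsum_pos (fun _ => psiFn_nonneg _) ⟨g, ?_⟩ (finite_support_psi hz)
  have h3 := ModularGroup.three_le_four_mul_im_sq_of_mem_fd hg
  have hre : |(g • (⟨z, hz⟩ : ℍ)).re| ≤ 1 / 2 := hg.2
  have him : 0 < (g • (⟨z, hz⟩ : ℍ)).im := (g • (⟨z, hz⟩ : ℍ)).im_pos
  rw [mob_of_mem hz]
  refine psiFn_pos hre ?_
  show 1 / 2 < (g • (⟨z, hz⟩ : ℍ)).im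
  nlinarith

/-! ### Smoothness -/

theorem mob_contDiffAt (g : SL(2, ℤ)) {z : ℂ} (hz : z ∈ Uhp) : ContDiffAt ℝ ∞ (mob g) z := by
  have h1 : ContDiffAt ℝ ∞
      (fun w : ℂ => (((g 0 0 : ℤ) : ℂ) * w + ((g 0 1 : ℤ) : ℂ)) / cd g w) z := by
    have hnum : ContDiffAt ℝ ∞ (fun w : ℂ => ((g 0 0 : ℤ) : ℂ) * w + ((g 0 1 : ℤ) : ℂ)) z :=
      (contDiffAt_const.mul contDiffAt_id).add contDiffAt_const
    have hden : ContDiffAt ℝ ∞ (fun w : ℂ => cd g w) z := by
      show ContDiffAt ℝ ∞ (fun w : ℂ => ((g 1 0 : ℤ) : ℂ) * w + ((g 1 1 : ℤ) : ℂ)) z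
      exact (contDiffAt_const.mul contDiffAt_id).add contDiffAt_const
    have hinv : ContDiffAt ℝ ∞ (fun w : ℂ => (cd g w)⁻¹) z := hden.inv (_root_.Fermat.Agent.S21.PartitionAux.cd_ne_zero g hz)
    simpa only [div_eq_mul_inv] using hnum.mul hinv
  refine h1.congr_of_eventuallyEq ?_
  filter_upwards [isOpen_Uhp.mem_nhds hz] with w hw
  exact _root_.Fermat.Agent.S21.PartitionAux.mob_eq_div g hw

theorem mob_contDiffOn (g : SL(2, ℤ)) : ContDiffOn ℝ ∞ (mob g) Uhp :=
  fun _ hz => (mob_contDiffAt g hz).contDiffWithinAt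

theorem PsiSum_contDiffOn : ContDiffOn ℝ ∞ PsiSum Uhp := by
  intro z₀ hz₀
  apply ContDiffAt.contDiffWithinAt
  obtain ⟨K, hKc, hzK, hKU⟩ := exists_compact_subset isOpen_Uhp hz₀
  have hfin := finite_psi_support K hKc hKU
  have h1 : ContDiffAt ℝ ∞ (fun z => ∑ g ∈ hfin.toFinset, psiFn (mob g z)) z₀ := by
    apply ContDiffAt.sum
    intro g _
    exact psiFn_contDiff.contDiffAt.comp z₀ (mob_contDiffAt g hz₀)
  refine h1.congr_of_eventuallyEq ?_
  filter_upwards [mem_interior_iff_mem_nhds.mp hzK] with z hz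
  unfold PsiSum
  apply finsum_eq_sum_of_support_subset
  intro g hg
  rw [Set.Finite.coe_toFinset]
  exact ⟨z, hz, hg⟩

/-! ### The partition of unity -/

/-- The partition function `χ₁ = ψ / Ψ`. -/
noncomputable def chiOne (z : ℂ) : ℝ := psiFn z / PsiSum z

theorem chiOne_contDiffOn : ContDiffOn ℝ ∞ chiOne Uhp :=
  psiFn_contDiff.contDiffOn.div PsiSum_contDiffOn (fun _ hz => (PsiSum_pos hz).ne')

theorem chiOne_nonneg (z : ℂ) : 0 ≤ chiOne z := div_nonneg (psiFn_nonneg z) (PsiSum_nonneg z)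

theorem psiFn_ne_zero_of_chiOne {z : ℂ} (h : chiOne z ≠ 0) : psiFn z ≠ 0 := by
  intro h0
  exact h (by unfold chiOne; rw [h0, zero_div])

theorem chiOne_support {z : ℂ} (h : chiOne z ≠ 0) : |z.re| < 1 ∧ 1 / 2 < z.im :=
  psiFn_ne_zero (psiFn_ne_zero_of_chiOne h)

theorem finite_chiOne_support (K : Set ℂ) (hK : IsCompact K) (hKU : K ⊆ Uhp) :
    {g : SL(2, ℤ) | ∃ z ∈ K, chiOne (mob g z) ≠ 0}.Finite := by
  refine (finite_psi_support K hK hKU).subset ?_
  rintro g ⟨z, hz, h⟩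
  exact ⟨z, hz, psiFn_ne_zero_of_chiOne h⟩

theorem finsum_chiOne {z : ℂ} (hz : z ∈ Uhp) : ∑ᶠ g : SL(2, ℤ), chiOne (mob g z) = 1 := by
  unfold chiOne
  simp only [PsiSum_mob, div_eq_mul_inv]
  rw [← finsum_mul]
  exact mul_inv_cancel₀ (PsiSum_pos hz).ne'

end Fermat.Agent.S21.PartitionAux

namespace Fermat.Agent.S21

open PartitionAux

/-- **MS-A**: a smooth `SL(2,ℤ)`-partition of unity on the upper half plane. -/
theorem exists_partition_SL2Z : ∃ χ₁ : ℂ → ℝ, ContDiffOn ℝ ∞ χ₁ Uhp ∧ (∀ z, 0 ≤ χ₁ z) ∧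
    (∀ z, χ₁ z ≠ 0 → |z.re| ≤ 1 ∧ 1 / 2 < z.im) ∧
    (∀ K : Set ℂ, IsCompact K → K ⊆ Uhp →
      {g : SL(2, ℤ) | ∃ z ∈ K, χ₁ (mob g z) ≠ 0}.Finite) ∧
    (∀ z ∈ Uhp, ∑ᶠ g : SL(2, ℤ), χ₁ (mob g z) = 1) :=
  ⟨chiOne, chiOne_contDiffOn, chiOne_nonneg,
    fun _ h => ⟨(chiOne_support h).1.le, (chiOne_support h).2⟩,
    finite_chiOne_support, fun _ hz => finsum_chiOne hz⟩

end Fermat.Agent.S21

end
-- ===== PACK-END S21/Partition.lean

-- ===== PACK-BEGIN S21/H81/U0.lean
section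


/-!
# S21, piece MS-C: the smooth function `u₀` with prescribed periods, constant near the cusps

Built from an `SL(2,ℤ)`-partition of unity `χ₁` (piece MS-A) and a section `φt` of the parabolic
homomorphism `φ` (piece MS-B), both taken as hypotheses.
-/

set_option autoImplicit false

open UpperHalfPlane CongruenceSubgroup Filter Topology Complex ModularCurve ModularCurve.Period
open scoped MatrixGroups Manifold ContDiff

namespace Fermat.Agent.S21.H81

theorem u0_mob_mul (g h : SL(2, ℤ)) (z : ℂ) : mob (g * h) z = mob g (mob h z) := by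
  simp only [mob, ofComplex_apply, mul_smul]

theorem u0_mob_mem (g : SL(2, ℤ)) (z : ℂ) : mob g z ∈ Uhp := by
  simp only [mob]
  exact coe_mem_Uhp _

theorem u0_mob_one (z : ℂ) (hz : z ∈ Uhp) : mob 1 z = z := by
  simp only [mob, one_smul]
  rw [ofComplex_apply_of_im_pos hz]

theorem u0_mob_coe (g : SL(2, ℤ)) (z : ℍ) : mob g (z : ℂ) = ((g • z : ℍ) : ℂ) := by
  simp only [mob, ofComplex_apply]

theorem u0_contDiffOn_mob (g : SL(2, ℤ)) : ContDiffOn ℝ ∞ (mob g) Uhp := by
  have h1 : DifferentiableOn ℂ (mob g) Uhp := fun z hz =>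
    (SmallAux.hasStrictDerivAt_mob g hz).hasDerivAt.differentiableAt.differentiableWithinAt
  exact (h1.contDiffOn isOpen_Uhp).restrict_scalars ℝ

/-- A matrix in `SL(2,ℤ)` with lower-left entry `0` is `± T ^ n`. -/
theorem u0_eq_T_zpow_of_c_eq_zero (g : SL(2, ℤ)) (h : g 1 0 = 0) :
    ∃ n : ℤ, g = ModularGroup.T ^ n ∨ g = -ModularGroup.T ^ n := by
  have hdet := Matrix.SpecialLinearGroup.det_coe g
  rw [Matrix.det_fin_two] at hdet
  have h' : (g : Matrix (Fin 2) (Fin 2) ℤ) 1 0 = 0 := h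
  rw [h', mul_zero, sub_zero] at hdet
  rcases Int.eq_one_or_neg_one_of_mul_eq_one' hdet with ⟨ha, hd⟩ | ⟨ha, hd⟩
  · refine ⟨g 0 1, Or.inl ?_⟩
    apply Matrix.SpecialLinearGroup.ext
    intro i j
    rw [ModularGroup.coe_T_zpow]
    fin_cases i <;> fin_cases j <;> simp [ha, hd, h']
  · refine ⟨-g 0 1, Or.inr ?_⟩
    apply Matrix.SpecialLinearGroup.ext
    intro i j
    rw [Matrix.SpecialLinearGroup.coe_neg, ModularGroup.coe_T_zpow]
    fin_cases i <;> fin_cases j <;> simp [ha, hd, h']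

theorem u0_section_T_zpow {φt : SL(2, ℤ) → ℝ}
    (hφt2 : ∀ g : SL(2, ℤ), φt (ModularGroup.T * g) = φt g) (n : ℤ) (g : SL(2, ℤ)) :
    φt (ModularGroup.T ^ n * g) = φt g := by
  induction n using Int.induction_on generalizing g with
  | zero => simp
  | succ k ih =>
    rw [zpow_add_one, mul_assoc, ih, hφt2]
  | pred k ih =>
    have := hφt2 (ModularGroup.T ^ (-(k : ℤ) - 1) * g)
    rw [← mul_assoc, ← zpow_one_add] at this
    rw [← this]
    have e : (1 : ℤ) + (-(k : ℤ) - 1) = -(k : ℤ) := by ring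
    rw [e, ih]


section construction

variable (χ₁ : ℂ → ℝ) (φt : SL(2, ℤ) → ℝ)

/-- The function `u₀ = -∑ g, φt g · χ₁ (g z)`. -/
noncomputable def u0 : ℂ → ℝ := fun z => -∑ᶠ g : SL(2, ℤ), φt g * χ₁ (mob g z)

variable {χ₁ φt}

theorem u0_support_finite
    (hχfin : ∀ K : Set ℂ, IsCompact K → K ⊆ Uhp →
      {g : SL(2, ℤ) | ∃ z ∈ K, χ₁ (mob g z) ≠ 0}.Finite)
    {z : ℂ} (hz : z ∈ Uhp) : (Function.support fun g : SL(2, ℤ) => χ₁ (mob g z)).Finite := by
  refine (hχfin {z} isCompact_singleton (by simpa using hz)).subset ?_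
  intro g hg
  exact ⟨z, rfl, hg⟩

theorem u0_support_finite' (ψ : SL(2, ℤ) → ℝ)
    (hχfin : ∀ K : Set ℂ, IsCompact K → K ⊆ Uhp →
      {g : SL(2, ℤ) | ∃ z ∈ K, χ₁ (mob g z) ≠ 0}.Finite)
    {z : ℂ} (hz : z ∈ Uhp) :
    (Function.support fun g : SL(2, ℤ) => ψ g * χ₁ (mob g z)).Finite := by
  refine (u0_support_finite hχfin hz).subset ?_
  intro g hg
  simp only [Function.mem_support, ne_eq] at hg ⊢
  exact fun h => hg (by rw [h, mul_zero])

theorem u0_contDiffOn (hχsmooth : ContDiffOn ℝ ∞ χ₁ Uhp)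
    (hχfin : ∀ K : Set ℂ, IsCompact K → K ⊆ Uhp →
      {g : SL(2, ℤ) | ∃ z ∈ K, χ₁ (mob g z) ≠ 0}.Finite) :
    ContDiffOn ℝ ∞ (u0 χ₁ φt) Uhp := by
  intro z₀ hz₀
  -- a compact neighbourhood of `z₀` inside `Uhp`
  obtain ⟨r, hr, hball⟩ := Metric.nhds_basis_closedBall.mem_iff.mp (isOpen_Uhp.mem_nhds hz₀)
  have hfin := hχfin (Metric.closedBall z₀ r) (isCompact_closedBall z₀ r) hball
  set S := hfin.toFinset with hS
  have hterm : ∀ g : SL(2, ℤ), ContDiffOn ℝ ∞ (fun z => φt g * χ₁ (mob g z)) Uhp := by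
    intro g
    have h1 : ContDiffOn ℝ ∞ (fun z => χ₁ (mob g z)) Uhp :=
      hχsmooth.comp (u0_contDiffOn_mob g) (fun z _ => u0_mob_mem g z)
    exact contDiffOn_const.mul h1
  have hsum : ContDiffOn ℝ ∞ (fun z => -∑ g ∈ S, φt g * χ₁ (mob g z)) Uhp :=
    (ContDiffOn.sum fun g _ => hterm g).neg
  have heq : ∀ z ∈ Metric.closedBall z₀ r, u0 χ₁ φt z = -∑ g ∈ S, φt g * χ₁ (mob g z) := by
    intro z hz
    simp only [u0]
    congr 1
    apply finsum_eq_sum_of_support_subset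
    intro g hg
    simp only [Function.mem_support, ne_eq] at hg
    rw [hS, Set.Finite.coe_toFinset]
    refine ⟨z, hz, fun h => hg ?_⟩
    rw [h, mul_zero]
  have hat : ContDiffAt ℝ ∞ (u0 χ₁ φt) z₀ := by
    refine (hsum.contDiffAt (isOpen_Uhp.mem_nhds hz₀)).congr_of_eventuallyEq ?_
    filter_upwards [Metric.closedBall_mem_nhds z₀ hr] with z hz using heq z hz
  exact hat.contDiffWithinAt

theorem u0_period {N : ℕ} {φ : Additive (Gamma0 N) →+ ℝ}
    (hχfin : ∀ K : Set ℂ, IsCompact K → K ⊆ Uhp →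
      {g : SL(2, ℤ) | ∃ z ∈ K, χ₁ (mob g z) ≠ 0}.Finite)
    (hχsum : ∀ z ∈ Uhp, ∑ᶠ g : SL(2, ℤ), χ₁ (mob g z) = 1)
    (hφt1 : ∀ (g : SL(2, ℤ)) (γ : Gamma0 N),
      φt (g * (γ : SL(2, ℤ))) = φt g + φ (Additive.ofMul γ))
    (γ : Gamma0 N) (z : ℍ) :
    u0 χ₁ φt ↑((γ : SL(2, ℤ)) • z) = u0 χ₁ φt ↑z + φ (Additive.ofMul γ) := by
  have hz : (z : ℂ) ∈ Uhp := coe_mem_Uhp z
  simp only [u0]
  have h3 : ∑ᶠ g : SL(2, ℤ), φt g * χ₁ (mob g ↑((γ : SL(2, ℤ)) • z))
      = ∑ᶠ g' : SL(2, ℤ), (φt g' - φ (Additive.ofMul γ)) * χ₁ (mob g' ↑z) := by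
    rw [← finsum_comp_equiv (Equiv.mulRight (γ : SL(2, ℤ)))
      (f := fun g' : SL(2, ℤ) => (φt g' - φ (Additive.ofMul γ)) * χ₁ (mob g' ↑z))]
    refine finsum_congr fun g => ?_
    simp only [Equiv.coe_mulRight]
    rw [hφt1 g γ, add_sub_cancel_right, u0_mob_mul, u0_mob_coe (γ : SL(2, ℤ)) z]
  rw [h3]
  have h2 : ∀ g' : SL(2, ℤ), (φt g' - φ (Additive.ofMul γ)) * χ₁ (mob g' ↑z)
      = φt g' * χ₁ (mob g' ↑z) - φ (Additive.ofMul γ) * χ₁ (mob g' ↑z) := fun g' => by ring
  rw [finsum_congr h2, finsum_sub_distrib (u0_support_finite' _ hχfin hz)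
    (u0_support_finite' _ hχfin hz), ← mul_finsum, hχsum _ hz]
  ring

theorem u0_cusp
    (hχsupp : ∀ z, χ₁ z ≠ 0 → |z.re| ≤ 1 ∧ 1 / 2 < z.im)
    (hχsum : ∀ z ∈ Uhp, ∑ᶠ g : SL(2, ℤ), χ₁ (mob g z) = 1)
    (hG2 : ∀ (g : SL(2, ℤ)) (z : ℂ), 2 ≤ z.im → 1 / 2 < (mob g z).im → g 1 0 = 0)
    (hφt2 : ∀ g : SL(2, ℤ), φt (ModularGroup.T * g) = φt g)
    (hφt3 : ∀ g : SL(2, ℤ), φt (-g) = φt g)
    (δ : SL(2, ℤ)) (z : ℂ) (hz : 2 ≤ z.im) :
    u0 χ₁ φt (mob δ z) = -φt δ⁻¹ := by
  simp only [u0]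
  congr 1
  have hmem : mob δ z ∈ Uhp := u0_mob_mem δ z
  have h1 : ∀ g : SL(2, ℤ), φt g * χ₁ (mob g (mob δ z)) = φt δ⁻¹ * χ₁ (mob g (mob δ z)) := by
    intro g
    by_cases h0 : χ₁ (mob g (mob δ z)) = 0
    · rw [h0, mul_zero, mul_zero]
    · congr 1
      have him := (hχsupp _ h0).2
      rw [← u0_mob_mul] at him
      have hc := hG2 (g * δ) z hz him
      obtain ⟨n, hn | hn⟩ := u0_eq_T_zpow_of_c_eq_zero (g * δ) hc
      · have : g = ModularGroup.T ^ n * δ⁻¹ := by rw [← hn]; group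
        rw [this, u0_section_T_zpow hφt2]
      · have : g = -(ModularGroup.T ^ n * δ⁻¹) := by
          rw [← neg_mul, ← hn]; group
        rw [this, hφt3, u0_section_T_zpow hφt2]
  rw [finsum_congr h1, ← mul_finsum, hχsum _ hmem, mul_one]

end construction

/-- **MS-C**: existence of a smooth function on the upper half plane with periods `φ`, which
is constant on every cusp neighbourhood `δ {Im ≥ 2}`. Takes the outputs of MS-A (partition of
unity, and the lemma `G2`) and MS-B (section) as hypotheses. -/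
theorem exists_u0_of (N : ℕ) (φ : Additive (Gamma0 N) →+ ℝ)
    (hA : ∃ χ₁ : ℂ → ℝ, ContDiffOn ℝ ∞ χ₁ Uhp ∧ (∀ z, 0 ≤ χ₁ z) ∧
      (∀ z, χ₁ z ≠ 0 → |z.re| ≤ 1 ∧ 1 / 2 < z.im) ∧
      (∀ K : Set ℂ, IsCompact K → K ⊆ Uhp →
        {g : SL(2, ℤ) | ∃ z ∈ K, χ₁ (mob g z) ≠ 0}.Finite) ∧
      (∀ z ∈ Uhp, ∑ᶠ g : SL(2, ℤ), χ₁ (mob g z) = 1))
    (hG2 : ∀ (g : SL(2, ℤ)) (z : ℂ), 2 ≤ z.im → 1 / 2 < (mob g z).im → g 1 0 = 0)
    (hB : ∃ φt : SL(2, ℤ) → ℝ,
      (∀ (g : SL(2, ℤ)) (γ : Gamma0 N), φt (g * (γ : SL(2, ℤ))) = φt g + φ (Additive.ofMul γ)) ∧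
      (∀ g : SL(2, ℤ), φt (ModularGroup.T * g) = φt g) ∧ (∀ g : SL(2, ℤ), φt (-g) = φt g)) :
    ∃ (u₀ : ℂ → ℝ) (c : SL(2, ℤ) → ℝ), ContDiffOn ℝ ∞ u₀ Uhp ∧
      (∀ (γ : Gamma0 N) (z : ℍ),
        u₀ ↑((γ : SL(2, ℤ)) • z) = u₀ ↑z + φ (Additive.ofMul γ)) ∧
      (∀ (δ : SL(2, ℤ)) (z : ℂ), 2 ≤ z.im → u₀ (mob δ z) = c δ) ∧
      (∀ (δ : SL(2, ℤ)) (z : ℂ), 2 < z.im → dz u₀ (mob δ z) = 0) := by
  obtain ⟨χ₁, hχsmooth, -, hχsupp, hχfin, hχsum⟩ := hA
  obtain ⟨φt, hφt1, hφt2, hφt3⟩ := hB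
  have hsm := u0_contDiffOn (φt := φt) hχsmooth hχfin
  have hcusp := u0_cusp hχsupp hχsum hG2 hφt2 hφt3
  refine ⟨u0 χ₁ φt, fun δ => -φt δ⁻¹, hsm, u0_period hχfin hχsum hφt1, hcusp, ?_⟩
  intro δ z hz
  have hzU : z ∈ Uhp := by
    show 0 < z.im
    linarith
  -- `u₀ ∘ mob δ` is constant near `z`
  have hconst : (fun w => u0 χ₁ φt (mob δ w)) =ᶠ[𝓝 z] fun _ => -φt δ⁻¹ := by
    have hopen : IsOpen {w : ℂ | 2 < w.im} := isOpen_lt continuous_const Complex.continuous_im
    filter_upwards [hopen.mem_nhds hz] with w hw using hcusp δ w (le_of_lt hw)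
  have hd : DifferentiableAt ℝ (u0 χ₁ φt) (mob δ z) :=
    ((hsm.contDiffAt (isOpen_Uhp.mem_nhds (u0_mob_mem δ z))).differentiableAt (by simp))
  have h1 := dz_comp_mob (u0 χ₁ φt) δ z hzU hd
  have h2 : dz (fun w => u0 χ₁ φt (mob δ w)) z = 0 := by
    simp only [dz]
    rw [hconst.fderiv_eq]
    simp
  rw [h2] at h1
  have hcd : (cd δ z) ^ 2 ≠ 0 := pow_ne_zero _ (SmallAux.cd_ne_zero δ hzU)
  have := h1.symm
  rw [div_eq_zero_iff] at this
  exact this.resolve_right hcd

end Fermat.Agent.S21.H81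

end
-- ===== PACK-END S21/H81/U0.lean

-- ===== PACK-BEGIN S21/H81/U0Final.lean
section




/-!
# S21 — piece MS-C, exact interface statement

`Fermat.Agent.S21.H81.exists_u0` is verbatim the statement `exists_u0` of
`Fermat/Agent/S21/MSInterface.lean` (helper201), obtained from `exists_u0_of` by plugging in
MS-A (`exists_partition_SL2Z`, helper896), G2 (`c_eq_zero_of_two_le_im`, helper896) and
MS-B (`exists_section`, helper944).
-/

set_option autoImplicit false

open UpperHalfPlane CongruenceSubgroup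
open scoped MatrixGroups ContDiff

namespace Fermat.Agent.S21.H81

/-- **MS-C** (strong form): the initial function `u₀` with periods `φ`, constant high in every
cusp. -/
theorem exists_u0_const (N : ℕ) [NeZero N] (φ : Additive (Gamma0 N) →+ ℝ)
    (hφ : ModularCurve.Period.IsParabolicHom (Gamma0 N) φ) :
    ∃ (u₀ : ℂ → ℝ) (c : SL(2, ℤ) → ℝ), ContDiffOn ℝ ∞ u₀ Uhp ∧
      (∀ (γ : Gamma0 N) (z : ℍ),
        u₀ ↑((γ : SL(2, ℤ)) • z) = u₀ ↑z + φ (Additive.ofMul γ)) ∧
      (∀ (δ : SL(2, ℤ)) (z : ℂ), 2 ≤ z.im → u₀ (mob δ z) = c δ) ∧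
      (∀ (δ : SL(2, ℤ)) (z : ℂ), 2 < z.im → dz u₀ (mob δ z) = 0) :=
  exists_u0_of N φ exists_partition_SL2Z c_eq_zero_of_two_le_im (exists_section N φ hφ)

/-- **MS-C**: the initial function `u₀` with periods `φ`, locally constant high in every cusp.
(Verbatim the statement `exists_u0` of `MSInterface.lean`.) -/
theorem exists_u0 (N : ℕ) [NeZero N] (φ : Additive (Gamma0 N) →+ ℝ)
    (hφ : ModularCurve.Period.IsParabolicHom (Gamma0 N) φ) :
    ∃ u₀ : ℂ → ℝ, ContDiffOn ℝ ∞ u₀ Uhp ∧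
      (∀ (γ : Gamma0 N) (z : ℍ), u₀ ↑((γ : SL(2, ℤ)) • z) = u₀ ↑z + φ (Additive.ofMul γ)) ∧
      (∀ (δ : SL(2, ℤ)) (z : ℂ), 2 < z.im → dz u₀ (mob δ z) = 0) := by
  obtain ⟨u₀, -, h1, h2, -, h4⟩ := exists_u0_const N φ hφ
  exact ⟨u₀, h1, h2, h4⟩

end Fermat.Agent.S21.H81

end
-- ===== PACK-END S21/H81/U0Final.lean

-- ===== PACK-BEGIN S21/IntA.lean
section


/-!
# S21 — INT-A: the `Γ₀(N)`-partition of unity `chi N χ₁` built from an `SL(2,ℤ)`-partition `χ₁`
-/

set_option autoImplicit false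
set_option linter.unusedSectionVars false
set_option linter.style.haveILetI false

open UpperHalfPlane CongruenceSubgroup MeasureTheory
open scoped MatrixGroups ContDiff

namespace Fermat.Agent.S21

namespace IntAAux

theorem mob_mem_Uhp (g : SL(2, ℤ)) (z : ℂ) : mob g z ∈ Uhp := (g • ofComplex z).im_pos

theorem mob_mul (g h : SL(2, ℤ)) (z : ℂ) : mob (g * h) z = mob g (mob h z) := by
  simp only [mob, ofComplex_apply, mul_smul]

theorem continuousOn_mob (g : SL(2, ℤ)) : ContinuousOn (mob g) Uhp := by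
  intro z hz
  have h1 : ContinuousAt (ofComplex : ℂ → ℍ) z := (contMDiffAt_ofComplex (n := 0) hz).continuousAt
  have h2 : ContinuousAt (fun w : ℍ => g • w) (ofComplex z) :=
    (continuous_const_smul (g : GL (Fin 2) ℝ)).continuousAt
  have h3 : ContinuousAt (fun w : ℍ => (w : ℂ)) (g • ofComplex z) :=
    UpperHalfPlane.continuous_coe.continuousAt
  have h4 : ContinuousAt (fun w : ℂ => g • ofComplex w) z :=
    ContinuousAt.comp (f := (ofComplex : ℂ → ℍ)) (g := fun w : ℍ => g • w) h2 h1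
  exact (ContinuousAt.comp (f := fun w : ℂ => g • ofComplex w)
    (g := fun w : ℍ => (w : ℂ)) h3 h4).continuousWithinAt

/-- The support of `g ↦ χ₁ (mob g z)` is finite. -/
theorem finite_support (χ₁ : ℂ → ℝ) (hχ : IsSL2ZPartition χ₁) (z : ℂ) (hz : z ∈ Uhp) :
    (Function.support fun g : SL(2, ℤ) => χ₁ (mob g z)).Finite := by
  refine (hχ.locfin {z} isCompact_singleton (by simpa using hz)).subset ?_
  intro g hg
  exact ⟨z, rfl, hg⟩

/-- `chi` on the upper half plane. -/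
theorem chi_of_mem (N : ℕ) (χ₁ : ℂ → ℝ) {z : ℂ} (hz : z ∈ Uhp) :
    chi N χ₁ z = ∑ᶠ q : SL(2, ℤ) ⧸ Gamma0 N, χ₁ (mob (Quotient.out q) z) := by
  unfold chi
  rw [Set.indicator_of_mem hz]

theorem chi_of_notMem (N : ℕ) (χ₁ : ℂ → ℝ) {z : ℂ} (hz : z ∉ Uhp) :
    chi N χ₁ z = 0 := by
  unfold chi
  rw [Set.indicator_of_notMem hz]

/-- The bijection `(γ, q) ↦ q.out * γ`. -/
noncomputable def prodEquiv (Γ : Subgroup SL(2, ℤ)) : Γ × (SL(2, ℤ) ⧸ Γ) ≃ SL(2, ℤ) where
  toFun p := Quotient.out p.2 * (p.1 : SL(2, ℤ))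
  invFun g := (⟨(Quotient.out (QuotientGroup.mk g : SL(2, ℤ) ⧸ Γ))⁻¹ * g, by
      rw [← QuotientGroup.eq]
      exact QuotientGroup.out_eq' _⟩, QuotientGroup.mk g)
  left_inv := by
    rintro ⟨γ, q⟩
    have h : (QuotientGroup.mk (Quotient.out q * (γ : SL(2, ℤ))) : SL(2, ℤ) ⧸ Γ) = q := by
      rw [QuotientGroup.mk_mul_of_mem _ γ.2]
      exact QuotientGroup.out_eq' q
    ext1
    · apply Subtype.ext
      simp only [h]
      group
    · exact h
  right_inv := by
    intro g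
    simp

theorem prodEquiv_apply (Γ : Subgroup SL(2, ℤ)) (γ : Γ) (q : SL(2, ℤ) ⧸ Γ) :
    prodEquiv Γ (γ, q) = Quotient.out q * (γ : SL(2, ℤ)) := rfl

end IntAAux

open IntAAux

section INT

variable (N : ℕ) [NeZero N] {χ₁ : ℂ → ℝ}

theorem chi_nonneg (hχ : IsSL2ZPartition χ₁) (z : ℂ) : 0 ≤ chi N χ₁ z := by
  unfold chi
  exact Set.indicator_nonneg (fun w _ => finsum_nonneg fun q => hχ.nonneg _) z

theorem chi_le_one (hχ : IsSL2ZPartition χ₁) (z : ℂ) : chi N χ₁ z ≤ 1 := by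
  by_cases hz : z ∈ Uhp
  · rw [chi_of_mem N χ₁ hz, ← hχ.sum_eq_one z hz]
    have hfin := finite_support χ₁ hχ z hz
    -- rewrite the left-hand side as a sum over `SL(2,ℤ)` supported on the range of `Quotient.out`
    classical
    have hinj : Function.Injective (Quotient.out : SL(2, ℤ) ⧸ Gamma0 N → SL(2, ℤ)) :=
      Quotient.out_injective
    have h1 : ∑ᶠ q : SL(2, ℤ) ⧸ Gamma0 N, χ₁ (mob (Quotient.out q) z)
        = ∑ᶠ g ∈ Set.range (Quotient.out : SL(2, ℤ) ⧸ Gamma0 N → SL(2, ℤ)), χ₁ (mob g z) :=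
      (finsum_mem_range (f := fun g : SL(2, ℤ) => χ₁ (mob g z)) hinj).symm
    rw [h1, finsum_mem_def]
    refine finsum_le_finsum' ?_ hfin (fun g => ?_)
    · refine hfin.subset fun g hg => ?_
      simp only [Function.mem_support, ne_eq] at hg ⊢
      intro h0
      apply hg
      rw [Set.indicator_apply, h0, ite_self]
    · show Set.indicator _ _ g ≤ _
      rw [Set.indicator_apply]
      split_ifs
      · exact le_rfl
      · exact hχ.nonneg _
  · rw [chi_of_notMem N χ₁ hz]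
    exact zero_le_one

theorem continuousOn_chi (hχ : IsSL2ZPartition χ₁) : ContinuousOn (chi N χ₁) Uhp := by
  haveI : Finite (SL(2, ℤ) ⧸ Gamma0 N) := Subgroup.finite_quotient_of_finiteIndex
  letI : Fintype (SL(2, ℤ) ⧸ Gamma0 N) := Fintype.ofFinite _
  have h : ContinuousOn
      (fun z => ∑ q : SL(2, ℤ) ⧸ Gamma0 N, χ₁ (mob (Quotient.out q) z)) Uhp := by
    refine continuousOn_finsetSum _ fun q _ => ?_
    exact hχ.smooth.continuousOn.comp (_root_.Fermat.Agent.S21.IntAAux.continuousOn_mob _) fun z _ => _root_.Fermat.Agent.S21.IntAAux.mob_mem_Uhp _ z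
  refine h.congr fun z hz => ?_
  rw [chi_of_mem N χ₁ hz, finsum_eq_sum_of_fintype]

theorem measurable_chi (hχ : IsSL2ZPartition χ₁) : Measurable (chi N χ₁) := by
  classical
  have h1 : chi N χ₁ = Uhp.piecewise (chi N χ₁) (fun _ => (0 : ℝ)) := by
    funext z
    by_cases hz : z ∈ Uhp
    · rw [Set.piecewise_eq_of_mem _ _ _ hz]
    · rw [Set.piecewise_eq_of_notMem _ _ _ hz, chi_of_notMem N χ₁ hz]
  rw [h1]
  exact (continuousOn_chi N hχ).measurable_piecewise continuousOn_const isOpen_Uhp.measurableSet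

theorem chi_locfin (hχ : IsSL2ZPartition χ₁) (K : Set ℂ) (hK : IsCompact K) (hKU : K ⊆ Uhp) :
    {γ : Gamma0 N | ∃ z ∈ K, chi N χ₁ (mob (γ : SL(2, ℤ)) z) ≠ 0}.Finite := by
  haveI : Finite (SL(2, ℤ) ⧸ Gamma0 N) := Subgroup.finite_quotient_of_finiteIndex
  have hF := hχ.locfin K hK hKU
  -- the finite set of all `q.out⁻¹ * g`, `g ∈ F`
  have hfin : (Set.image2 (fun (q : SL(2, ℤ) ⧸ Gamma0 N) (g : SL(2, ℤ)) => (Quotient.out q)⁻¹ * g)
      Set.univ {g : SL(2, ℤ) | ∃ z ∈ K, χ₁ (mob g z) ≠ 0}).Finite :=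
    Set.Finite.image2 _ Set.finite_univ hF
  refine Set.Finite.of_finite_image (f := fun γ : Gamma0 N => (γ : SL(2, ℤ)))
    (hfin.subset ?_) Subtype.val_injective.injOn
  rintro _ ⟨γ, ⟨z, hzK, hz⟩, rfl⟩
  rw [chi_of_mem N χ₁ (_root_.Fermat.Agent.S21.IntAAux.mob_mem_Uhp _ z)] at hz
  obtain ⟨q, hq⟩ : ∃ q : SL(2, ℤ) ⧸ Gamma0 N,
      χ₁ (mob (Quotient.out q) (mob (γ : SL(2, ℤ)) z)) ≠ 0 := by
    by_contra hcon
    push Not at hcon
    exact hz (by simp [hcon])
  refine ⟨q, Set.mem_univ _, Quotient.out q * (γ : SL(2, ℤ)), ⟨z, hzK, ?_⟩, by group⟩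
  rwa [_root_.Fermat.Agent.S21.IntAAux.mob_mul]

theorem chi_sum_eq_one (hχ : IsSL2ZPartition χ₁) (z : ℂ) (hz : z ∈ Uhp) :
    ∑ᶠ γ : Gamma0 N, chi N χ₁ (mob (γ : SL(2, ℤ)) z) = 1 := by
  have hfin := finite_support χ₁ hχ z hz
  have h1 : ∀ γ : Gamma0 N, chi N χ₁ (mob (γ : SL(2, ℤ)) z)
      = ∑ᶠ q : SL(2, ℤ) ⧸ Gamma0 N, χ₁ (mob (prodEquiv (Gamma0 N) (γ, q)) z) := by
    intro γ
    rw [chi_of_mem N χ₁ (_root_.Fermat.Agent.S21.IntAAux.mob_mem_Uhp _ z)]
    refine finsum_congr fun q => ?_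
    rw [prodEquiv_apply, _root_.Fermat.Agent.S21.IntAAux.mob_mul]
  simp only [h1]
  have hfin' : (Function.support fun p : Gamma0 N × (SL(2, ℤ) ⧸ Gamma0 N) =>
      χ₁ (mob (prodEquiv (Gamma0 N) p) z)).Finite := by
    have : (Function.support fun p : Gamma0 N × (SL(2, ℤ) ⧸ Gamma0 N) =>
        χ₁ (mob (prodEquiv (Gamma0 N) p) z))
        = (prodEquiv (Gamma0 N)) ⁻¹' (Function.support fun g : SL(2, ℤ) => χ₁ (mob g z)) := rfl
    rw [this]
    exact hfin.preimage (prodEquiv (Gamma0 N)).injective.injOn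
  rw [← finsum_curry (fun p : Gamma0 N × (SL(2, ℤ) ⧸ Gamma0 N) =>
      χ₁ (mob (prodEquiv (Gamma0 N) p) z)) hfin']
  rw [finsum_comp_equiv (prodEquiv (Gamma0 N)) (f := fun g : SL(2, ℤ) => χ₁ (mob g z))]
  exact hχ.sum_eq_one z hz

end INT

end Fermat.Agent.S21

end
-- ===== PACK-END S21/IntA.lean

-- ===== PACK-BEGIN S21/IntB.lean
section



/-!
# S21 — INT-B: `Γ₀(N)`-symmetrization of a test function

`sym N η z = ∑ᶠ γ : Γ₀(N), η (γ z)` is smooth on the upper half plane, `Γ₀(N)`-invariant,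
additive and homogeneous in `η`, and has finite energy on a fundamental domain.
-/

set_option autoImplicit false
set_option linter.unusedSectionVars false
set_option linter.unusedVariables false

open UpperHalfPlane CongruenceSubgroup MeasureTheory
open scoped MatrixGroups ContDiff Topology Pointwise

namespace Fermat.Agent.S21

namespace IntB

theorem mob_mem_Uhp (g : SL(2, ℤ)) (z : ℂ) : mob g z ∈ Uhp := (g • ofComplex z).im_pos

theorem mob_mul (g h : SL(2, ℤ)) (z : ℂ) : mob (g * h) z = mob g (mob h z) := by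
  simp [mob, mul_smul, ofComplex_apply]

theorem mob_one {z : ℂ} (hz : z ∈ Uhp) : mob 1 z = z := by
  have hz' : 0 < z.im := hz
  simp [mob, ofComplex_apply_of_im_pos hz']

theorem mob_inv_mob (g : SL(2, ℤ)) {z : ℂ} (hz : z ∈ Uhp) : mob g⁻¹ (mob g z) = z := by
  rw [← _root_.Fermat.Agent.S21.IntB.mob_mul, inv_mul_cancel, _root_.Fermat.Agent.S21.IntB.mob_one hz]

theorem mob_mob_inv (g : SL(2, ℤ)) {z : ℂ} (hz : z ∈ Uhp) : mob g (mob g⁻¹ z) = z := by
  rw [← _root_.Fermat.Agent.S21.IntB.mob_mul, mul_inv_cancel, _root_.Fermat.Agent.S21.IntB.mob_one hz]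

theorem analyticAt_mob (g : SL(2, ℤ)) {z : ℂ} (hz : z ∈ Uhp) : AnalyticAt ℂ (mob g) z := by
  have hdet : (0 : ℝ) < ((g : GL (Fin 2) ℝ) : Matrix (Fin 2) (Fin 2) ℝ).det := by
    have : ((g : GL (Fin 2) ℝ) : Matrix (Fin 2) (Fin 2) ℝ).det = 1 :=
      (Matrix.SpecialLinearGroup.map (Int.castRingHom ℝ) g).det_coe
    rw [this]; exact one_pos
  exact UpperHalfPlane.analyticAt_smul hdet ⟨z, hz⟩

theorem contDiffAt_mob (g : SL(2, ℤ)) {z : ℂ} (hz : z ∈ Uhp) : ContDiffAt ℝ ∞ (mob g) z :=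
  ((analyticAt_mob g hz).contDiffAt (n := ∞)).restrict_scalars ℝ

theorem continuousAt_mob (g : SL(2, ℤ)) {z : ℂ} (hz : z ∈ Uhp) : ContinuousAt (mob g) z :=
  (analyticAt_mob g hz).continuousAt

theorem continuousOn_mob (g : SL(2, ℤ)) : ContinuousOn (mob g) Uhp :=
  fun _ hz => (continuousAt_mob g hz).continuousWithinAt

/-- Proper discontinuity of the action of `SL(2,ℤ)`, phrased on `ℂ`. -/
theorem finite_mob {K L : Set ℂ} (hK : IsCompact K) (hKU : K ⊆ Uhp) (hL : IsCompact L)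
    (hLU : L ⊆ Uhp) : {g : SL(2, ℤ) | ∃ z ∈ K, mob g z ∈ L}.Finite := by
  have hrange : Set.range (UpperHalfPlane.coe) = Uhp := by
    ext z
    constructor
    · rintro ⟨w, rfl⟩; exact w.im_pos
    · intro hz; exact ⟨⟨z, hz⟩, rfl⟩
  have hK' : IsCompact ((UpperHalfPlane.coe) ⁻¹' K) :=
    (isEmbedding_coe.isInducing.isCompact_preimage_iff (by rw [hrange]; exact hKU)).mpr hK
  have hL' : IsCompact ((UpperHalfPlane.coe) ⁻¹' L) :=
    (isEmbedding_coe.isInducing.isCompact_preimage_iff (by rw [hrange]; exact hLU)).mpr hL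
  have h := (Subgroup.properlyDiscontinuousSMul_iff 𝒮ℒ).mp properlyDiscontinuousSL2ZRange hK' hL'
  have hinj : Function.Injective (Matrix.SpecialLinearGroup.mapGL ℝ : SL(2, ℤ) →* GL (Fin 2) ℝ) :=
    Matrix.SpecialLinearGroup.mapGL_injective
  refine (h.preimage hinj.injOn).subset ?_
  rintro g ⟨z, hz, hgz⟩
  refine ⟨⟨g, rfl⟩, (Matrix.SpecialLinearGroup.mapGL ℝ g) • ofComplex z,
    ⟨ofComplex z, ?_, rfl⟩, ?_⟩
  · show ((ofComplex z : ℍ) : ℂ) ∈ K
    rw [ofComplex_apply_of_im_pos (hKU hz)]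
    exact hz
  · exact hgz

/-- Local finiteness of the symmetrization sum. -/
theorem finite_sym_support (N : ℕ) {η : ℂ → ℝ} (hη : IsTest η) {K : Set ℂ} (hK : IsCompact K)
    (hKU : K ⊆ Uhp) : {γ : Gamma0 N | ∃ z ∈ K, η (mob (γ : SL(2, ℤ)) z) ≠ 0}.Finite := by
  have h := finite_mob hK hKU hη.2.1 hη.2.2
  refine (h.preimage Subtype.val_injective.injOn).subset ?_
  rintro γ ⟨z, hz, hne⟩
  exact ⟨z, hz, subset_tsupport _ hne⟩

theorem sym_eq_sum (N : ℕ) {η : ℂ → ℝ} (hη : IsTest η) {K : Set ℂ} (hK : IsCompact K)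
    (hKU : K ⊆ Uhp) : ∀ z ∈ K, sym N η z
      = ∑ γ ∈ (finite_sym_support N hη hK hKU).toFinset, η (mob (γ : SL(2, ℤ)) z) := by
  intro z hz
  unfold sym
  apply finsum_eq_sum_of_support_subset
  intro γ hγ
  simp only [Set.Finite.coe_toFinset, Set.mem_ofPred_eq]
  exact ⟨z, hz, hγ⟩

theorem finite_support_point (N : ℕ) {η : ℂ → ℝ} (hη : IsTest η) {z : ℂ} (hz : z ∈ Uhp) :
    (Function.support fun γ : Gamma0 N => η (mob (γ : SL(2, ℤ)) z)).Finite :=
  (finite_sym_support N hη isCompact_singleton (Set.singleton_subset_iff.mpr hz)).subset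
    (fun _ hγ => ⟨z, rfl, hγ⟩)

theorem continuousOn_dz {u : ℂ → ℝ} (hu : ContDiffOn ℝ ∞ u Uhp) :
    ContinuousOn (fun z => dz u z) Uhp := by
  have h1 : ContinuousOn (fderiv ℝ u) Uhp :=
    hu.continuousOn_fderiv_of_isOpen isOpen_Uhp (by simp)
  have h2 : ∀ v : ℂ, ContinuousOn (fun z => ((fderiv ℝ u z v : ℝ) : ℂ)) Uhp := fun v =>
    Complex.continuous_ofReal.comp_continuousOn (h1.clm_apply continuousOn_const)
  unfold dz
  exact (h2 1).sub (continuousOn_const.mul (h2 Complex.I))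

/-- Away from the `Γ₀(N)`-orbit of the support of `η` the symmetrization is locally zero. -/
theorem dz_sym_eq_zero (N : ℕ) {η : ℂ → ℝ} (hη : IsTest η) {z : ℂ} (hz : z ∈ Uhp)
    (h : ∀ γ : Gamma0 N, mob (γ : SL(2, ℤ)) z ∉ tsupport η) : dz (sym N η) z = 0 := by
  obtain ⟨K, hK, hzK, hKU⟩ := exists_compact_subset isOpen_Uhp hz
  have hev : sym N η =ᶠ[𝓝 z] fun _ => (0 : ℝ) := by
    have h1 : ∀ γ ∈ (finite_sym_support N hη hK hKU).toFinset,
        ∀ᶠ w in 𝓝 z, η (mob (γ : SL(2, ℤ)) w) = 0 := by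
      intro γ _
      have h0 : η =ᶠ[𝓝 (mob (γ : SL(2, ℤ)) z)] 0 := notMem_tsupport_iff_eventuallyEq.mp (h γ)
      exact (continuousAt_mob (γ : SL(2, ℤ)) hz).eventually h0
    have h2 := (Filter.eventually_all_finset _).mpr h1
    filter_upwards [mem_interior_iff_mem_nhds.mp hzK, h2] with w hw hw2
    rw [sym_eq_sum N hη hK hKU w hw]
    exact Finset.sum_eq_zero hw2
  have hfd : fderiv ℝ (sym N η) z = 0 := by
    rw [hev.fderiv_eq]
    simp
  simp [dz, hfd]

theorem finite_chi_support (N : ℕ) {χ₁ : ℂ → ℝ} (hχ : IsSL2ZPartition χ₁) {K : Set ℂ}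
    (hK : IsCompact K) (hKU : K ⊆ Uhp) :
    {q : SL(2, ℤ) ⧸ Gamma0 N | ∃ z ∈ K, χ₁ (mob (Quotient.out q) z) ≠ 0}.Finite := by
  have h := hχ.locfin K hK hKU
  refine (h.preimage (Quotient.out_injective.injOn)).subset ?_
  rintro q ⟨z, hz, hne⟩
  exact ⟨z, hz, hne⟩

theorem continuousOn_chi_aux (N : ℕ) {χ₁ : ℂ → ℝ} (hχ : IsSL2ZPartition χ₁) :
    ContinuousOn (chi N χ₁) Uhp := by
  intro z₀ hz₀
  obtain ⟨K, hK, hzK, hKU⟩ := exists_compact_subset isOpen_Uhp hz₀
  have hev : chi N χ₁ =ᶠ[𝓝 z₀] fun z =>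
      ∑ q ∈ (finite_chi_support N hχ hK hKU).toFinset, χ₁ (mob (Quotient.out q) z) := by
    filter_upwards [mem_interior_iff_mem_nhds.mp hzK] with z hz
    have hzK' : z ∈ K := hz
    unfold chi
    rw [Set.indicator_of_mem (hKU hzK')]
    apply finsum_eq_sum_of_support_subset
    intro q hq
    simp only [Set.Finite.coe_toFinset, Set.mem_ofPred_eq]
    exact ⟨z, hzK', hq⟩
  have hc : ContinuousAt (fun z =>
      ∑ q ∈ (finite_chi_support N hχ hK hKU).toFinset, χ₁ (mob (Quotient.out q) z)) z₀ := by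
    apply tendsto_finsetSum
    intro q _
    have h1 : ContinuousAt χ₁ (mob (Quotient.out q) z₀) :=
      hχ.smooth.continuousOn.continuousAt (isOpen_Uhp.mem_nhds (_root_.Fermat.Agent.S21.IntB.mob_mem_Uhp _ _))
    exact h1.comp (continuousAt_mob _ hz₀)
  exact (hc.congr hev.symm).continuousWithinAt

theorem exists_of_chi_ne_zero (N : ℕ) {χ₁ : ℂ → ℝ} {z : ℂ} (h : chi N χ₁ z ≠ 0) :
    z ∈ Uhp ∧ ∃ q : SL(2, ℤ) ⧸ Gamma0 N, χ₁ (mob (Quotient.out q) z) ≠ 0 := by
  unfold chi at h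
  have hz : z ∈ Uhp := by
    by_contra hz
    exact h (Set.indicator_of_notMem hz _)
  refine ⟨hz, ?_⟩
  rw [Set.indicator_of_mem hz] at h
  by_contra hne
  push Not at hne
  exact h (finsum_eq_zero_of_forall_eq_zero hne)

end IntB

section INT

variable (N : ℕ) [NeZero N] {χ₁ : ℂ → ℝ}

theorem contDiffOn_sym {η : ℂ → ℝ} (hη : IsTest η) : ContDiffOn ℝ ∞ (sym N η) Uhp := by
  intro z₀ hz₀
  obtain ⟨K, hK, hzK, hKU⟩ := exists_compact_subset isOpen_Uhp hz₀
  have hev : sym N η =ᶠ[𝓝 z₀] fun z =>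
      ∑ γ ∈ (IntB.finite_sym_support N hη hK hKU).toFinset, η (mob (γ : SL(2, ℤ)) z) := by
    filter_upwards [mem_interior_iff_mem_nhds.mp hzK] with z hz
      using IntB.sym_eq_sum N hη hK hKU z hz
  have hsm : ContDiffAt ℝ ∞ (fun z =>
      ∑ γ ∈ (IntB.finite_sym_support N hη hK hKU).toFinset, η (mob (γ : SL(2, ℤ)) z)) z₀ := by
    apply ContDiffAt.sum
    intro γ _
    exact hη.1.contDiffAt.comp z₀ (IntB.contDiffAt_mob (γ : SL(2, ℤ)) hz₀)
  exact (hsm.congr_of_eventuallyEq hev).contDiffWithinAt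

theorem sym_mob {η : ℂ → ℝ} (hη : IsTest η) (γ : Gamma0 N) (z : ℂ) (hz : z ∈ Uhp) :
    sym N η (mob (γ : SL(2, ℤ)) z) = sym N η z := by
  unfold sym
  have h : ∀ γ' : Gamma0 N, η (mob (γ' : SL(2, ℤ)) (mob (γ : SL(2, ℤ)) z))
      = η (mob ((γ' * γ : Gamma0 N) : SL(2, ℤ)) z) := by
    intro γ'
    rw [Subgroup.coe_mul, IntB.mob_mul]
  simp_rw [h]
  exact finsum_comp_equiv (Equiv.mulRight γ)
    (f := fun γ'' : Gamma0 N => η (mob (γ'' : SL(2, ℤ)) z))

theorem sym_add {η₁ η₂ : ℂ → ℝ} (h₁ : IsTest η₁) (h₂ : IsTest η₂) (z : ℂ) (hz : z ∈ Uhp) :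
    sym N (fun w => η₁ w + η₂ w) z = sym N η₁ z + sym N η₂ z := by
  unfold sym
  exact finsum_add_distrib (IntB.finite_support_point N h₁ hz) (IntB.finite_support_point N h₂ hz)

theorem sym_smul {η : ℂ → ℝ} (hη : IsTest η) (c : ℝ) (z : ℂ) (hz : z ∈ Uhp) :
    sym N (fun w => c * η w) z = c * sym N η z := by
  unfold sym
  exact (mul_finsum _ c).symm

/-- finite energy of a symmetrized test function -/
theorem integrable_energy_sym (hχ : IsSL2ZPartition χ₁) {η : ℂ → ℝ} (hη : IsTest η) :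
    Integrable (fun z => ‖dz (sym N η) z‖ ^ 2 * chi N χ₁ z) := by
  classical
  set K : Set ℂ := tsupport η with hKdef
  have hK : IsCompact K := hη.2.1
  have hKU : K ⊆ Uhp := hη.2.2
  have hG := hχ.locfin K hK hKU
  -- the compact set carrying the integrand
  set C : Set ℂ := ⋃ g ∈ hG.toFinset,
    mob ((Quotient.out (QuotientGroup.mk g : SL(2, ℤ) ⧸ Gamma0 N))⁻¹ * g) '' K with hCdef
  have hC : IsCompact C :=
    hG.toFinset.isCompact_biUnion fun g _ =>
      hK.image_of_continuousOn ((IntB.continuousOn_mob _).mono hKU)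
  have hCU : C ⊆ Uhp := by
    intro z hz
    simp only [hCdef, Set.mem_iUnion] at hz
    obtain ⟨g, _, w, _, rfl⟩ := hz
    exact IntB.mob_mem_Uhp _ _
  have hcont : ContinuousOn (fun z => ‖dz (sym N η) z‖ ^ 2 * chi N χ₁ z) Uhp :=
    (((IntB.continuousOn_dz (contDiffOn_sym N hη)).norm).pow 2).mul
      (IntB.continuousOn_chi_aux N hχ)
  have hint : IntegrableOn (fun z => ‖dz (sym N η) z‖ ^ 2 * chi N χ₁ z) C :=
    (hcont.mono hCU).integrableOn_compact hC
  refine hint.integrable_of_forall_notMem_eq_zero ?_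
  intro z hzC
  by_contra hne
  have h1 : dz (sym N η) z ≠ 0 := by
    intro h0
    apply hne
    simp [h0]
  have h2 : chi N χ₁ z ≠ 0 := by
    intro h0
    apply hne
    simp [h0]
  obtain ⟨hzU, q, hq⟩ := IntB.exists_of_chi_ne_zero N h2
  have h3 : ∃ γ : Gamma0 N, mob (γ : SL(2, ℤ)) z ∈ tsupport η := by
    by_contra hcon
    push Not at hcon
    exact h1 (IntB.dz_sym_eq_zero N hη hzU hcon)
  obtain ⟨γ, hγ⟩ := h3
  apply hzC
  set g : SL(2, ℤ) := Quotient.out q * (γ : SL(2, ℤ))⁻¹ with hgdef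
  have hgz : mob g (mob (γ : SL(2, ℤ)) z) = mob (Quotient.out q) z := by
    rw [hgdef, IntB.mob_mul, IntB.mob_inv_mob _ hzU]
  have hgG : g ∈ hG.toFinset := by
    simp only [Set.Finite.mem_toFinset, Set.mem_ofPred_eq]
    exact ⟨mob (γ : SL(2, ℤ)) z, hγ, by rw [hgz]; exact hq⟩
  have hmk : (QuotientGroup.mk g : SL(2, ℤ) ⧸ Gamma0 N) = q := by
    rw [hgdef, QuotientGroup.mk_mul_of_mem _ (Subgroup.inv_mem _ γ.2)]
    exact QuotientGroup.out_eq' q
  have hh : (Quotient.out (QuotientGroup.mk g : SL(2, ℤ) ⧸ Gamma0 N))⁻¹ * g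
      = (γ : SL(2, ℤ))⁻¹ := by
    rw [hmk, hgdef, ← mul_assoc, inv_mul_cancel, one_mul]
  simp only [hCdef, Set.mem_iUnion]
  refine ⟨g, hgG, mob (γ : SL(2, ℤ)) z, hγ, ?_⟩
  rw [hh, IntB.mob_inv_mob _ hzU]

end INT

end Fermat.Agent.S21

end
-- ===== PACK-END S21/IntB.lean

-- ===== PACK-BEGIN S21/H544/IntCBasic.lean
section



/-!
# S21 INT-C (helper544): basic facts on `mob`, proper discontinuity from a partition of unity
-/

set_option autoImplicit false

open UpperHalfPlane CongruenceSubgroup Filter Topology MeasureTheory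
open scoped MatrixGroups ComplexConjugate ContDiff

namespace Fermat.Agent.S21.H544

open Fermat.Agent.S21

theorem mob_mem_Uhp (g : SL(2, ℤ)) (z : ℂ) : mob g z ∈ Uhp :=
  (g • ofComplex z : ℍ).im_pos

theorem ofComplex_mob (g : SL(2, ℤ)) (z : ℂ) : ofComplex (mob g z) = g • ofComplex z := by
  unfold mob
  exact ofComplex_apply _

theorem mob_mul (g h : SL(2, ℤ)) (z : ℂ) : mob (g * h) z = mob g (mob h z) := by
  unfold mob
  rw [ofComplex_apply, mul_smul]

theorem mob_one {z : ℂ} (hz : z ∈ Uhp) : mob 1 z = z := by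
  unfold mob
  rw [one_smul, ofComplex_apply_of_im_pos hz]

theorem mob_inv_mob (g : SL(2, ℤ)) {z : ℂ} (hz : z ∈ Uhp) : mob g⁻¹ (mob g z) = z := by
  rw [← _root_.Fermat.Agent.S21.H544.mob_mul, inv_mul_cancel, _root_.Fermat.Agent.S21.H544.mob_one hz]

theorem mob_mob_inv (g : SL(2, ℤ)) {z : ℂ} (hz : z ∈ Uhp) : mob g (mob g⁻¹ z) = z := by
  rw [← _root_.Fermat.Agent.S21.H544.mob_mul, mul_inv_cancel, _root_.Fermat.Agent.S21.H544.mob_one hz]

theorem mob_image_Uhp (g : SL(2, ℤ)) : mob g '' Uhp = Uhp := by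
  ext w
  constructor
  · rintro ⟨z, _, rfl⟩
    exact _root_.Fermat.Agent.S21.H544.mob_mem_Uhp g z
  · intro hw
    exact ⟨mob g⁻¹ w, _root_.Fermat.Agent.S21.H544.mob_mem_Uhp _ _, mob_mob_inv g hw⟩

theorem continuousOn_mob (g : SL(2, ℤ)) : ContinuousOn (mob g) Uhp := fun _ hz =>
  ((SmallAux.hasStrictDerivAt_mob g hz).hasDerivAt.continuousAt).continuousWithinAt

theorem differentiableAt_mob (g : SL(2, ℤ)) {z : ℂ} (hz : z ∈ Uhp) :
    DifferentiableAt ℝ (mob g) z :=
  ((SmallAux.hasStrictDerivAt_mob g hz).hasDerivAt.differentiableAt).restrictScalars ℝ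

/-- Proper discontinuity of the `SL(2,ℤ)`-action, derived from a partition of unity. -/
theorem finite_mob_mem {χ₁ : ℂ → ℝ} (hχ : IsSL2ZPartition χ₁) (K₁ K₂ : Set ℂ)
    (hK₁ : IsCompact K₁) (h₁ : K₁ ⊆ Uhp) (hK₂ : IsCompact K₂) (h₂ : K₂ ⊆ Uhp) :
    {g : SL(2, ℤ) | ∃ z ∈ K₁, mob g z ∈ K₂}.Finite := by
  have hG₁ := hχ.locfin K₁ hK₁ h₁
  have hG₂ := hχ.locfin K₂ hK₂ h₂
  refine ((hG₂.prod hG₁).image (fun p : SL(2, ℤ) × SL(2, ℤ) => p.1⁻¹ * p.2)).subset ?_
  rintro γ ⟨z, hz, hw⟩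
  have hsum := hχ.sum_eq_one (mob γ z) (h₂ hw)
  obtain ⟨g, hg⟩ : ∃ g : SL(2, ℤ), χ₁ (mob g (mob γ z)) ≠ 0 := by
    by_contra hcon
    simp only [not_exists, not_not] at hcon
    rw [finsum_congr hcon] at hsum
    simp at hsum
  refine ⟨(g, g * γ), ⟨⟨mob γ z, hw, hg⟩, ⟨z, hz, ?_⟩⟩, by simp⟩
  rw [_root_.Fermat.Agent.S21.H544.mob_mul]
  exact hg

end Fermat.Agent.S21.H544

end
-- ===== PACK-END S21/H544/IntCBasic.lean

-- ===== PACK-BEGIN S21/H544/IntCDens.lean
section


/-!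
# S21 INT-C (helper544): the Dirichlet density and its behaviour under symmetrization
-/

set_option autoImplicit false

open UpperHalfPlane CongruenceSubgroup Filter Topology MeasureTheory
open scoped MatrixGroups ComplexConjugate ContDiff

namespace Fermat.Agent.S21.H544

open Fermat.Agent.S21

/-- The Dirichlet form density `u_x η_x + u_y η_y`. -/
noncomputable def dens (u η : ℂ → ℝ) (w : ℂ) : ℝ :=
  fderiv ℝ u w 1 * fderiv ℝ η w 1 + fderiv ℝ u w Complex.I * fderiv ℝ η w Complex.I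

theorem dens_eq_re (u η : ℂ → ℝ) (w : ℂ) : dens u η w = (conj (dz u w) * dz η w).re := by
  unfold dens dz
  simp

theorem dens_eq_zero_of_notMem_tsupport {u η : ℂ → ℝ} {w : ℂ} (hw : w ∉ tsupport η) :
    dens u η w = 0 := by
  have h : fderiv ℝ η w = 0 := by
    have h0 : η =ᶠ[𝓝 w] fun _ => (0 : ℝ) := notMem_tsupport_iff_eventuallyEq.mp hw
    rw [h0.fderiv_eq]
    simp
  simp [dens, h]

/-- Behaviour of the density under composition with a Möbius transformation. -/
theorem dens_comp_mob (u η : ℂ → ℝ) (g : SL(2, ℤ)) {z : ℂ} (hz : z ∈ Uhp)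
    (hη : DifferentiableAt ℝ η (mob g z))
    (hinv : dz u (mob g z) = (cd g z) ^ 2 * dz u z) :
    dens u (fun w => η (mob g w)) z = dens u η (mob g z) / ‖cd g z‖ ^ 4 := by
  rw [dens_eq_re, dens_eq_re, dz_comp_mob η g z hz hη, hinv]
  have hc : cd g z ≠ 0 := SmallAux.cd_ne_zero g hz
  set c := cd g z with hcdef
  set a := dz u z
  set b := dz η (mob g z)
  have hc4 : ((‖c‖ ^ 4 : ℝ) : ℂ) = c ^ 2 * (conj c) ^ 2 := by
    rw [← mul_pow, Complex.mul_conj, Complex.normSq_eq_norm_sq]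
    push_cast
    ring
  have hcc : conj c ≠ 0 := by simpa using hc
  have key : conj a * (b / c ^ 2) = (conj (c ^ 2 * a) * b) / ((‖c‖ ^ 4 : ℝ) : ℂ) := by
    rw [hc4]
    simp only [map_mul, map_pow]
    field_simp
  rw [key, Complex.div_ofReal_re]

end Fermat.Agent.S21.H544

end
-- ===== PACK-END S21/H544/IntCDens.lean

-- ===== PACK-BEGIN S21/IntDCore.lean
section




/-!
# S21 / INT-D — folding inequality, multiplicity bounds, finite energy of `u₀`

This file contains the parts of INT-D which do not depend on INT-A, together with versions of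
`folding` and `integrable_energy_u0` which take the needed INT-A facts as hypotheses.
-/

set_option autoImplicit false
set_option linter.unusedVariables false

open UpperHalfPlane CongruenceSubgroup MeasureTheory
open scoped MatrixGroups ContDiff Topology ENNReal

namespace Fermat.Agent.S21

open PartitionAux

/-! ### Multiplicity bounds -/

/-- multiplicity of a compact set -/
theorem mult_compact (K : Set ℂ) (hK : IsCompact K) (hKU : K ⊆ Uhp) :
    ∃ M : ℕ, ∀ w ∈ Uhp, {g : SL(2, ℤ) | mob g w ∈ K}.encard ≤ M := by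
  have hfin := finite_mob_inter K hK hKU
  refine ⟨hfin.toFinset.card, fun w _ => ?_⟩
  rcases Set.eq_empty_or_nonempty {g : SL(2, ℤ) | mob g w ∈ K} with hemp | ⟨g₀, hg₀⟩
  · rw [hemp]; simp
  · have hsub : {g : SL(2, ℤ) | mob g w ∈ K} ⊆
        (fun h => h * g₀) '' {h : SL(2, ℤ) | ∃ z ∈ K, mob h z ∈ K} := by
      intro g hg
      refine ⟨g * g₀⁻¹, ⟨mob g₀ w, hg₀, ?_⟩, by simp⟩
      rw [mob_mob]
      simpa using hg
    calc {g : SL(2, ℤ) | mob g w ∈ K}.encard
        ≤ ((fun h => h * g₀) '' {h : SL(2, ℤ) | ∃ z ∈ K, mob h z ∈ K}).encard :=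
          Set.encard_le_encard hsub
      _ ≤ {h : SL(2, ℤ) | ∃ z ∈ K, mob h z ∈ K}.encard := Set.encard_image_le _ _
      _ = hfin.toFinset.card := hfin.encard_eq_coe_toFinset_card

/-- auxiliary: the shape of an element of `SL(2,ℤ)` mapping a point of a cusp strip to a point
of a cusp strip -/
theorem IntDAux.strip_elt (h : SL(2, ℤ)) (Y : ℝ) {z₀ z : ℂ} (hz₀ : z₀ ∈ strip Y)
    (hz : z ∈ strip Y) (hh : mob h z₀ = z) :
    h 1 0 = 0 ∧ (h 0 0 = 1 ∨ h 0 0 = -1) ∧ h 1 1 = h 0 0 ∧ |h 0 1| ≤ 2 := by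
  obtain ⟨hre₀, him₀, -⟩ := hz₀
  obtain ⟨hre, him, -⟩ := hz
  have hz₀U : z₀ ∈ Uhp := lt_of_lt_of_le (by norm_num) him₀
  have hc : h 1 0 = 0 := by
    apply c_eq_zero_of_two_le_im h z₀ him₀
    rw [hh]
    linarith
  have had : h 0 0 * h 1 1 = 1 := by
    have hdet := h.det_coe
    rw [Matrix.det_fin_two, hc] at hdet
    linarith
  have hcd : cd h z₀ = ((h 1 1 : ℤ) : ℂ) := by simp [cd, hc]
  have hmob := _root_.Fermat.Agent.S21.PartitionAux.mob_eq_div h hz₀U
  rw [hh, hcd] at hmob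
  rcases Int.eq_one_or_neg_one_of_mul_eq_one' had with (⟨ha, hd⟩ | ⟨ha, hd⟩)
  · refine ⟨hc, Or.inl ha, by rw [ha, hd], ?_⟩
    rw [ha, hd] at hmob
    have hre' : z.re = z₀.re + (h 0 1 : ℤ) := by
      rw [hmob]; simp
    have habs : |((h 0 1 : ℤ) : ℝ)| ≤ 2 := by
      rw [abs_le] at hre hre₀ ⊢
      constructor <;> linarith [hre.1, hre.2, hre₀.1, hre₀.2]
    exact_mod_cast habs
  · refine ⟨hc, Or.inr ha, by rw [ha, hd], ?_⟩
    rw [ha, hd] at hmob
    have hre' : z.re = z₀.re - (h 0 1 : ℤ) := by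
      rw [hmob]; simp [div_neg]; ring
    have habs : |((h 0 1 : ℤ) : ℝ)| ≤ 2 := by
      rw [abs_le] at hre hre₀ ⊢
      constructor <;> linarith [hre.1, hre.2, hre₀.1, hre₀.2]
    exact_mod_cast habs

/-- multiplicity of a cusp strip -/
theorem mult_strip (δ : SL(2, ℤ)) (Y : ℝ) (w : ℂ) (hw : w ∈ Uhp) :
    {g : SL(2, ℤ) | mob g w ∈ mob δ '' strip Y}.encard ≤ 10 := by
  rcases Set.eq_empty_or_nonempty {g : SL(2, ℤ) | mob g w ∈ mob δ '' strip Y} with
    hemp | ⟨g₀, z₀, hz₀, hg₀⟩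
  · rw [hemp]; simp
  have hkey : ∀ g ∈ {g : SL(2, ℤ) | mob g w ∈ mob δ '' strip Y},
      (δ⁻¹ * g * g₀⁻¹ * δ) 1 0 = 0 ∧
      ((δ⁻¹ * g * g₀⁻¹ * δ) 0 0 = 1 ∨ (δ⁻¹ * g * g₀⁻¹ * δ) 0 0 = -1) ∧
      (δ⁻¹ * g * g₀⁻¹ * δ) 1 1 = (δ⁻¹ * g * g₀⁻¹ * δ) 0 0 ∧
      |(δ⁻¹ * g * g₀⁻¹ * δ) 0 1| ≤ 2 := by
    rintro g ⟨z, hz, hgz⟩
    have hzU : z ∈ Uhp := lt_of_lt_of_le (by norm_num) hz.2.1
    refine IntDAux.strip_elt _ Y hz₀ hz ?_
    calc mob (δ⁻¹ * g * g₀⁻¹ * δ) z₀ = mob (δ⁻¹ * g * g₀⁻¹) (mob δ z₀) := by rw [mob_mob]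
      _ = mob (δ⁻¹ * g * g₀⁻¹) (mob g₀ w) := by rw [hg₀]
      _ = mob (δ⁻¹ * g) w := by rw [mob_mob]; congr 1; group
      _ = mob δ⁻¹ (mob g w) := by rw [mob_mob]
      _ = mob δ⁻¹ (mob δ z) := by rw [hgz]
      _ = z := by rw [mob_mob, inv_mul_cancel, _root_.Fermat.Agent.S21.PartitionAux.mob_one hzU]
  let f : SL(2, ℤ) → ℤ × ℤ := fun g => ((δ⁻¹ * g * g₀⁻¹ * δ) 0 0, (δ⁻¹ * g * g₀⁻¹ * δ) 0 1)
  let t : Finset (ℤ × ℤ) := ({1, -1} : Finset ℤ) ×ˢ Finset.Icc (-2) 2
  have hmaps : Set.MapsTo f {g : SL(2, ℤ) | mob g w ∈ mob δ '' strip Y} (t : Set (ℤ × ℤ)) := by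
    intro g hg
    obtain ⟨-, ha, -, hb⟩ := hkey g hg
    simp only [Finset.coe_product, Set.mem_prod, Finset.mem_coe, Finset.mem_insert,
      Finset.mem_singleton, Finset.mem_Icc, f, t]
    exact ⟨ha, abs_le.mp hb⟩
  have hinj : Set.InjOn f {g : SL(2, ℤ) | mob g w ∈ mob δ '' strip Y} := by
    intro g hg g' hg' hfg
    obtain ⟨hc, -, hd, -⟩ := hkey g hg
    obtain ⟨hc', -, hd', -⟩ := hkey g' hg'
    have h00 : (δ⁻¹ * g * g₀⁻¹ * δ) 0 0 = (δ⁻¹ * g' * g₀⁻¹ * δ) 0 0 := congrArg Prod.fst hfg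
    have h01 : (δ⁻¹ * g * g₀⁻¹ * δ) 0 1 = (δ⁻¹ * g' * g₀⁻¹ * δ) 0 1 := congrArg Prod.snd hfg
    have heq : δ⁻¹ * g * g₀⁻¹ * δ = δ⁻¹ * g' * g₀⁻¹ * δ := by
      ext i j
      fin_cases i <;> fin_cases j
      · exact h00
      · exact h01
      · exact hc.trans hc'.symm
      · exact (hd.trans h00).trans hd'.symm
    have h1 := mul_right_cancel heq
    have h2 := mul_right_cancel h1
    exact mul_left_cancel h2
  calc {g : SL(2, ℤ) | mob g w ∈ mob δ '' strip Y}.encard
      ≤ (t : Set (ℤ × ℤ)).encard := Set.encard_le_encard_of_injOn hmaps hinj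
    _ = t.card := Set.encard_coe_eq_coe_finsetCard t
    _ = 10 := by
        have : t.card = 10 := by decide
        rw [this]; rfl

/-! ### Finite energy of `u₀` -/

/-- `chi` vanishes off the upper half plane. -/
theorem IntDAux.chi_eq_zero_of_notMem (N : ℕ) (χ₁ : ℂ → ℝ) {z : ℂ} (hz : z ∉ Uhp) :
    chi N χ₁ z = 0 := by
  unfold chi
  exact Set.indicator_of_notMem hz _

/-- where `chi` does not vanish, some translate lies in the support of `χ₁`. -/
theorem IntDAux.exists_of_chi_ne_zero (N : ℕ) {χ₁ : ℂ → ℝ} {z : ℂ} (h : chi N χ₁ z ≠ 0) :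
    z ∈ Uhp ∧ ∃ q : SL(2, ℤ) ⧸ Gamma0 N, χ₁ (mob (Quotient.out q) z) ≠ 0 := by
  have hz : z ∈ Uhp := by
    by_contra hz
    exact h (IntDAux.chi_eq_zero_of_notMem N χ₁ hz)
  refine ⟨hz, ?_⟩
  by_contra hcon
  have hcon' : ∀ q : SL(2, ℤ) ⧸ Gamma0 N, χ₁ (mob (Quotient.out q) z) = 0 := fun q =>
    by_contra fun hq => hcon ⟨q, hq⟩
  apply h
  unfold chi
  rw [Set.indicator_of_mem hz]
  exact finsum_eq_zero_of_forall_eq_zero hcon'

/-- the compact rectangle `{|Re z| ≤ 1, 1/2 ≤ Im z ≤ 2}` -/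
def IntDAux.rect : Set ℂ := Set.Icc (-1 : ℝ) 1 ×ℂ Set.Icc (1 / 2 : ℝ) 2

theorem IntDAux.isCompact_rect : IsCompact IntDAux.rect :=
  Metric.isCompact_of_isClosed_isBounded (isClosed_Icc.reProdIm isClosed_Icc)
    ((Metric.isBounded_Icc (-1 : ℝ) 1).reProdIm (Metric.isBounded_Icc (1 / 2 : ℝ) 2))

theorem IntDAux.rect_subset : IntDAux.rect ⊆ Uhp := by
  intro z hz
  have h := hz.2.1
  exact lt_of_lt_of_le (by norm_num) h

theorem IntDAux.continuousOn_dz {u : ℂ → ℝ} (hu : ContDiffOn ℝ 1 u Uhp) :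
    ContinuousOn (dz u) Uhp := by
  have h1 := hu.continuousOn_fderiv_of_isOpen isOpen_Uhp le_rfl
  have hv : ∀ v : ℂ, ContinuousOn (fun z => ((fderiv ℝ u z v : ℝ) : ℂ)) Uhp := fun v =>
    Complex.continuous_ofReal.comp_continuousOn (h1.clm_apply continuousOn_const)
  unfold dz
  exact (hv 1).sub (continuousOn_const.mul (hv Complex.I))

/-- finite energy of `u₀`, with the continuity of `chi` (INT-A) as a hypothesis -/
theorem IntDAux.integrable_energy_u0_of (N : ℕ) [NeZero N] {χ₁ : ℂ → ℝ}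
    (hχ : IsSL2ZPartition χ₁) (hcont : ContinuousOn (chi N χ₁) Uhp) (u₀ : ℂ → ℝ)
    (hu : ContDiffOn ℝ ∞ u₀ Uhp)
    (hcusp : ∀ (δ : SL(2, ℤ)) (z : ℂ), 2 < z.im → dz u₀ (mob δ z) = 0) :
    Integrable (fun z => ‖dz u₀ z‖ ^ 2 * chi N χ₁ z) := by
  set C : Set ℂ := ⋃ q : SL(2, ℤ) ⧸ Gamma0 N, mob (Quotient.out q)⁻¹ '' IntDAux.rect with hC
  have hCc : IsCompact C := by
    have : Finite (SL(2, ℤ) ⧸ Gamma0 N) := Subgroup.finite_quotient_of_finiteIndex
    refine isCompact_iUnion fun q => ?_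
    exact IntDAux.isCompact_rect.image_of_continuousOn
      ((mob_contDiffOn _).continuousOn.mono IntDAux.rect_subset)
  have hCU : C ⊆ Uhp := by
    intro z hz
    obtain ⟨q, w, -, rfl⟩ := Set.mem_iUnion.mp hz
    exact _root_.Fermat.Agent.S21.PartitionAux.mob_mem_Uhp _ _
  have hsupp : Function.support (fun z => ‖dz u₀ z‖ ^ 2 * chi N χ₁ z) ⊆ C := by
    intro z hz
    rw [Function.mem_support] at hz
    have h1 : chi N χ₁ z ≠ 0 := right_ne_zero_of_mul hz
    have h2 : dz u₀ z ≠ 0 := by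
      intro h0
      apply hz
      rw [h0]; simp
    obtain ⟨hzU, q, hq⟩ := IntDAux.exists_of_chi_ne_zero N h1
    obtain ⟨hre, him⟩ := hχ.supp _ hq
    have hback : mob (Quotient.out q)⁻¹ (mob (Quotient.out q) z) = z := by
      rw [mob_mob, inv_mul_cancel, _root_.Fermat.Agent.S21.PartitionAux.mob_one hzU]
    have him2 : (mob (Quotient.out q) z).im ≤ 2 := by
      by_contra hlt
      rw [not_le] at hlt
      apply h2
      rw [← hback]
      exact hcusp _ _ hlt
    refine Set.mem_iUnion.mpr ⟨q, mob (Quotient.out q) z, ?_, hback⟩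
    exact ⟨abs_le.mp hre, him.le, him2⟩
  have hcontf : ContinuousOn (fun z => ‖dz u₀ z‖ ^ 2 * chi N χ₁ z) Uhp :=
    (((IntDAux.continuousOn_dz (hu.of_le (by simp))).norm).pow 2).mul hcont
  rw [← integrableOn_iff_integrable_of_support_subset hsupp]
  exact (hcontf.mono hCU).integrableOn_compact hCc

/-! ### The folding inequality -/

namespace IntDAux

theorem countable_matrix : Countable (Matrix (Fin 2) (Fin 2) ℤ) := by
  unfold Matrix; infer_instance

theorem countable_SL2Z : Countable SL(2, ℤ) := by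
  have := countable_matrix
  unfold Matrix.SpecialLinearGroup; infer_instance

theorem countable_Gamma0 (N : ℕ) : Countable (Gamma0 N) := by
  have := countable_SL2Z
  infer_instance

theorem injOn_mob (δ : SL(2, ℤ)) {K : Set ℂ} (hKU : K ⊆ Uhp) : Set.InjOn (mob δ) K := by
  intro z hz w hw hzw
  have h := congrArg (mob δ⁻¹) hzw
  rwa [mob_mob, mob_mob, inv_mul_cancel, _root_.Fermat.Agent.S21.PartitionAux.mob_one (hKU hz), _root_.Fermat.Agent.S21.PartitionAux.mob_one (hKU hw)] at h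

theorem abs_det_smulFDeriv (δ : SL(2, ℤ)) {z : ℂ} (hz : z ∈ Uhp) :
    |(smulFDeriv (δ : GL (Fin 2) ℝ) z).det| = 1 / ‖cd δ z‖ ^ 4 := by
  have hpos : (0 : ℝ) < ‖denom (δ : GL (Fin 2) ℝ) z‖ ^ 4 :=
    pow_pos (norm_pos_iff.mpr (denom_ne_zero (δ : GL (Fin 2) ℝ) ⟨z, hz⟩)) 4
  simp only [det_smulFDeriv, SmallAux.cd_eq_denom]
  simp [abs_of_pos hpos]

/-- change of variables for the lower Lebesgue integral under a Möbius transformation -/
theorem lintegral_mob (δ : SL(2, ℤ)) (K : Set ℂ) (hK : MeasurableSet K) (hKU : K ⊆ Uhp)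
    (h : ℂ → ℝ≥0∞) :
    ∫⁻ w in mob δ '' K, h w = ∫⁻ z in K, ENNReal.ofReal (1 / ‖cd δ z‖ ^ 4) * h (mob δ z) := by
  have hd : ∀ z ∈ K, HasFDerivWithinAt (mob δ) (smulFDeriv (δ : GL (Fin 2) ℝ) z) K z :=
    fun z hz =>
      (hasStrictFDerivAt_smul (δ : GL (Fin 2) ℝ) ⟨z, hKU hz⟩).hasFDerivAt.hasFDerivWithinAt
  rw [lintegral_image_eq_lintegral_abs_det_fderiv_mul volume hK hd (injOn_mob δ hKU)]
  refine setLIntegral_congr_fun hK fun z hz => ?_
  show ENNReal.ofReal |(smulFDeriv (δ : GL (Fin 2) ℝ) z).det| * h (mob δ z) = _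
  rw [abs_det_smulFDeriv δ (hKU hz)]

theorem measurableSet_mob_image (δ : SL(2, ℤ)) (K : Set ℂ) (hK : MeasurableSet K)
    (hKU : K ⊆ Uhp) : MeasurableSet (mob δ '' K) :=
  hK.image_of_continuousOn_injOn ((mob_contDiffOn δ).continuousOn.mono hKU) (injOn_mob δ hKU)

theorem aemeasurable_mob (δ : SL(2, ℤ)) (K : Set ℂ) (hKU : K ⊆ Uhp) :
    AEMeasurable (mob δ) (volume.restrict K) :=
  ((mob_contDiffOn δ).continuousOn.aemeasurable isOpen_Uhp.measurableSet).mono_measure
    (Measure.restrict_mono hKU le_rfl)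

end IntDAux

/-- The folding inequality, with the needed INT-A facts as hypotheses. -/
theorem IntDAux.folding_of (N : ℕ) [NeZero N] {χ₁ : ℂ → ℝ}
    (hnn : ∀ z, 0 ≤ chi N χ₁ z) (hmeas : Measurable (chi N χ₁))
    (hlocfin : ∀ z ∈ Uhp, {γ : Gamma0 N | chi N χ₁ (mob (γ : SL(2, ℤ)) z) ≠ 0}.Finite)
    (hsum : ∀ z ∈ Uhp, ∑ᶠ γ : Gamma0 N, chi N χ₁ (mob (γ : SL(2, ℤ)) z) = 1)
    (G : ℂ → ℂ) (hG : ContinuousOn G Uhp)
    (hinv : ∀ γ : Gamma0 N, ∀ z ∈ Uhp,
      G (mob (γ : SL(2, ℤ)) z) = (cd (γ : SL(2, ℤ)) z) ^ 2 * G z)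
    (hfin : Integrable (fun z => ‖G z‖ ^ 2 * chi N χ₁ z))
    (A : Set ℂ) (hA : MeasurableSet A) (hAU : A ⊆ Uhp) (M : ℕ)
    (hM : ∀ w ∈ Uhp, {g : SL(2, ℤ) | mob g w ∈ A}.encard ≤ M) :
    ∫ z in A, ‖G z‖ ^ 2 ≤ M * ∫ z, ‖G z‖ ^ 2 * chi N χ₁ z := by
  classical
  have hcount : Countable (Gamma0 N) := IntDAux.countable_Gamma0 N
  set h : ℂ → ℝ≥0∞ := fun w => ENNReal.ofReal (‖G w‖ ^ 2 * chi N χ₁ w) with hh
  have hh_meas : AEMeasurable h volume := hfin.aestronglyMeasurable.aemeasurable.ennreal_ofReal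
  have hGA : AEMeasurable G (volume.restrict A) :=
    (hG.aemeasurable isOpen_Uhp.measurableSet).mono_measure (Measure.restrict_mono hAU le_rfl)
  -- (a) pointwise partition of unity
  have hone : ∀ z ∈ Uhp, ∑' γ : Gamma0 N, ENNReal.ofReal (chi N χ₁ (mob (γ : SL(2, ℤ)) z)) = 1 := by
    intro z hz
    have hfinz := hlocfin z hz
    have h1 : ∑' γ : Gamma0 N, ENNReal.ofReal (chi N χ₁ (mob (γ : SL(2, ℤ)) z)) =
        ∑ γ ∈ hfinz.toFinset, ENNReal.ofReal (chi N χ₁ (mob (γ : SL(2, ℤ)) z)) := by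
      refine tsum_eq_sum fun γ hγ => ?_
      have : chi N χ₁ (mob (γ : SL(2, ℤ)) z) = 0 := by
        by_contra hne
        exact hγ (hfinz.mem_toFinset.mpr hne)
      rw [this, ENNReal.ofReal_zero]
    have h2 : ∑ᶠ γ : Gamma0 N, chi N χ₁ (mob (γ : SL(2, ℤ)) z) =
        ∑ γ ∈ hfinz.toFinset, chi N χ₁ (mob (γ : SL(2, ℤ)) z) := by
      refine finsum_eq_sum_of_support_subset _ fun γ hγ => ?_
      exact Finset.mem_coe.mpr (hfinz.mem_toFinset.mpr hγ)
    rw [h1, ← ENNReal.ofReal_sum_of_nonneg (fun γ _ => hnn _), ← h2, hsum z hz,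
      ENNReal.ofReal_one]
  have hpt : ∀ z ∈ A, ENNReal.ofReal (‖G z‖ ^ 2) =
      ∑' γ : Gamma0 N, ENNReal.ofReal (‖G z‖ ^ 2 * chi N χ₁ (mob (γ : SL(2, ℤ)) z)) := by
    intro z hz
    have : ∀ γ : Gamma0 N, ENNReal.ofReal (‖G z‖ ^ 2 * chi N χ₁ (mob (γ : SL(2, ℤ)) z)) =
        ENNReal.ofReal (‖G z‖ ^ 2) * ENNReal.ofReal (chi N χ₁ (mob (γ : SL(2, ℤ)) z)) :=
      fun γ => ENNReal.ofReal_mul (by positivity)
    simp_rw [this]
    rw [ENNReal.tsum_mul_left, hone z (hAU hz), mul_one]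
  -- (c) change of variables
  have hcv : ∀ γ : Gamma0 N,
      ∫⁻ z in A, ENNReal.ofReal (‖G z‖ ^ 2 * chi N χ₁ (mob (γ : SL(2, ℤ)) z)) =
        ∫⁻ w in mob (γ : SL(2, ℤ)) '' A, h w := by
    intro γ
    rw [IntDAux.lintegral_mob (γ : SL(2, ℤ)) A hA hAU h]
    refine setLIntegral_congr_fun hA fun z hz => ?_
    have hzU := hAU hz
    have hcd : cd (γ : SL(2, ℤ)) z ≠ 0 := SmallAux.cd_ne_zero _ hzU
    have hpos : 0 < ‖cd (γ : SL(2, ℤ)) z‖ := norm_pos_iff.mpr hcd
    simp only [hh]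
    rw [← ENNReal.ofReal_mul (by positivity), hinv γ z hzU, norm_mul, norm_pow]
    congr 1
    field_simp
  -- measurability of the terms
  have hterm : ∀ γ : Gamma0 N, AEMeasurable
      (fun z => ENNReal.ofReal (‖G z‖ ^ 2 * chi N χ₁ (mob (γ : SL(2, ℤ)) z)))
      (volume.restrict A) := by
    intro γ
    refine ENNReal.measurable_ofReal.comp_aemeasurable ?_
    exact (hGA.norm.pow_const 2).mul
      (hmeas.comp_aemeasurable (IntDAux.aemeasurable_mob _ A hAU))
  -- (d) the multiplicity bound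
  have hmult : ∀ w : ℂ, ∑' γ : Gamma0 N, (mob (γ : SL(2, ℤ)) '' A).indicator h w ≤ M * h w := by
    intro w
    by_cases hw0 : h w = 0
    · have : ∀ γ : Gamma0 N, (mob (γ : SL(2, ℤ)) '' A).indicator h w = 0 := by
        intro γ
        by_cases hmem : w ∈ mob (γ : SL(2, ℤ)) '' A
        · rw [Set.indicator_of_mem hmem, hw0]
        · exact Set.indicator_of_notMem hmem _
      simp [this, hw0]
    · have hwU : w ∈ Uhp := by
        by_contra hwU
        apply hw0
        simp only [hh]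
        rw [IntDAux.chi_eq_zero_of_notMem N χ₁ hwU, mul_zero, ENNReal.ofReal_zero]
      set S : Set (Gamma0 N) := {γ | w ∈ mob (γ : SL(2, ℤ)) '' A} with hS
      have hind : ∀ γ : Gamma0 N, (mob (γ : SL(2, ℤ)) '' A).indicator h w =
          S.indicator (fun _ => h w) γ := by
        intro γ
        by_cases hmem : w ∈ mob (γ : SL(2, ℤ)) '' A
        · rw [Set.indicator_of_mem hmem, Set.indicator_of_mem (show γ ∈ S from hmem)]
        · rw [Set.indicator_of_notMem hmem, Set.indicator_of_notMem (show γ ∉ S from hmem)]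
      simp_rw [hind]
      rw [← tsum_subtype S (fun _ => h w), ENNReal.tsum_set_const]
      have hSle : S.encard ≤ M := by
        refine le_trans ?_ (hM w hwU)
        refine Set.encard_le_encard_of_injOn (f := fun γ : Gamma0 N => ((γ : SL(2, ℤ)))⁻¹) ?_ ?_
        · rintro γ ⟨z, hz, hzw⟩
          show mob ((γ : SL(2, ℤ)))⁻¹ w ∈ A
          rw [← hzw, mob_mob, inv_mul_cancel, _root_.Fermat.Agent.S21.PartitionAux.mob_one (hAU hz)]
          exact hz
        · intro γ _ γ' _ hγ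
          exact Subtype.ext (inv_injective hγ)
      exact mul_le_mul_left (by exact_mod_cast hSle) _
  -- assemble the `lintegral` inequality
  have hlint : ∫⁻ z in A, ENNReal.ofReal (‖G z‖ ^ 2) ≤ M * ∫⁻ w, h w := by
    calc ∫⁻ z in A, ENNReal.ofReal (‖G z‖ ^ 2)
        = ∫⁻ z in A, ∑' γ : Gamma0 N,
            ENNReal.ofReal (‖G z‖ ^ 2 * chi N χ₁ (mob (γ : SL(2, ℤ)) z)) :=
          setLIntegral_congr_fun hA hpt
      _ = ∑' γ : Gamma0 N, ∫⁻ z in A,
            ENNReal.ofReal (‖G z‖ ^ 2 * chi N χ₁ (mob (γ : SL(2, ℤ)) z)) :=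
          lintegral_tsum hterm
      _ = ∑' γ : Gamma0 N, ∫⁻ w, (mob (γ : SL(2, ℤ)) '' A).indicator h w := by
          congr 1
          funext γ
          rw [hcv γ, lintegral_indicator (IntDAux.measurableSet_mob_image _ A hA hAU)]
      _ = ∫⁻ w, ∑' γ : Gamma0 N, (mob (γ : SL(2, ℤ)) '' A).indicator h w :=
          (lintegral_tsum fun γ =>
            hh_meas.indicator (IntDAux.measurableSet_mob_image _ A hA hAU)).symm
      _ ≤ ∫⁻ w, M * h w := lintegral_mono hmult
      _ = M * ∫⁻ w, h w := lintegral_const_mul'' _ hh_meas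
  -- back to Bochner integrals
  have hnn' : 0 ≤ᵐ[volume] fun z => ‖G z‖ ^ 2 * chi N χ₁ z :=
    Filter.Eventually.of_forall fun z => mul_nonneg (by positivity) (hnn z)
  have hI : ∫⁻ w, h w = ENNReal.ofReal (∫ z, ‖G z‖ ^ 2 * chi N χ₁ z) :=
    (ofReal_integral_eq_lintegral_ofReal hfin hnn').symm
  have hInn : 0 ≤ ∫ z, ‖G z‖ ^ 2 * chi N χ₁ z := integral_nonneg_of_ae hnn'
  rw [integral_eq_lintegral_of_nonneg_ae (Filter.Eventually.of_forall fun z => by positivity)
    (hGA.norm.pow_const 2).aestronglyMeasurable]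
  rw [hI] at hlint
  calc (∫⁻ z in A, ENNReal.ofReal (‖G z‖ ^ 2)).toReal
      ≤ ((M : ℝ≥0∞) * ENNReal.ofReal (∫ z, ‖G z‖ ^ 2 * chi N χ₁ z)).toReal :=
        ENNReal.toReal_mono (ENNReal.mul_ne_top (ENNReal.natCast_ne_top M) ENNReal.ofReal_ne_top)
          hlint
    _ = M * ∫ z, ‖G z‖ ^ 2 * chi N χ₁ z := by
        rw [ENNReal.toReal_mul, ENNReal.toReal_natCast, ENNReal.toReal_ofReal hInn]

end Fermat.Agent.S21

end
-- ===== PACK-END S21/IntDCore.lean

-- ===== PACK-BEGIN S21/IntD.lean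
section



/-!
# S21 / INT-D — folding inequality and finite energy of `u₀` (exact interface statements)

`mult_compact` and `mult_strip` are in `IntDCore.lean`.
-/

set_option autoImplicit false
set_option linter.unusedVariables false

open UpperHalfPlane CongruenceSubgroup MeasureTheory
open scoped MatrixGroups ContDiff

namespace Fermat.Agent.S21

section INT

variable (N : ℕ) [NeZero N] {χ₁ : ℂ → ℝ}

theorem folding (hχ : IsSL2ZPartition χ₁) (G : ℂ → ℂ) (hG : ContinuousOn G Uhp)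
    (hinv : ∀ γ : Gamma0 N, ∀ z ∈ Uhp,
      G (mob (γ : SL(2, ℤ)) z) = (cd (γ : SL(2, ℤ)) z) ^ 2 * G z)
    (hfin : Integrable (fun z => ‖G z‖ ^ 2 * chi N χ₁ z))
    (A : Set ℂ) (hA : MeasurableSet A) (hAU : A ⊆ Uhp) (M : ℕ)
    (hM : ∀ w ∈ Uhp, {g : SL(2, ℤ) | mob g w ∈ A}.encard ≤ M) :
    ∫ z in A, ‖G z‖ ^ 2 ≤ M * ∫ z, ‖G z‖ ^ 2 * chi N χ₁ z := by
  refine IntDAux.folding_of N (chi_nonneg N hχ) (measurable_chi N hχ) (fun z hz => ?_)
    (chi_sum_eq_one N hχ) G hG hinv hfin A hA hAU M hM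
  refine (chi_locfin N hχ {z} isCompact_singleton (by simpa using hz)).subset ?_
  intro γ hγ
  exact ⟨z, rfl, hγ⟩

/-- finite energy of `u₀` -/
theorem integrable_energy_u0 (hχ : IsSL2ZPartition χ₁) (u₀ : ℂ → ℝ)
    (hu : ContDiffOn ℝ ∞ u₀ Uhp)
    (hcusp : ∀ (δ : SL(2, ℤ)) (z : ℂ), 2 < z.im → dz u₀ (mob δ z) = 0) :
    Integrable (fun z => ‖dz u₀ z‖ ^ 2 * chi N χ₁ z) :=
  IntDAux.integrable_energy_u0_of N hχ (continuousOn_chi N hχ) u₀ hu hcusp

end INT

end Fermat.Agent.S21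

end
-- ===== PACK-END S21/IntD.lean

-- ===== PACK-BEGIN S29/H201/PeriodHecke.lean
section



/-!
# S29 / P5-E2 (helper201) — Hecke equivariance of the period map

`periodMap N (T_p f) = heckeHom p (periodMap N f)` for `p ∤ N`.
-/

set_option autoImplicit false

open CongruenceSubgroup Matrix.SpecialLinearGroup UpperHalfPlane ModularCurve ModularCurve.Period
open Filter Topology
open scoped MatrixGroups ModularForm
open P2MW.S_ModularForm_heckeT_slash_eq_self_of_mem_Gamma0.ModularForm.HeckeSlashInvariance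

namespace Fermat.Agent.S29.H201

variable {N : ℕ} {p : ℕ} [Fact p.Prime]

/-- The Hecke transform of a primitive. -/
noncomputable def heckePrim (p : ℕ) [Fact p.Prime] (F : ℍ → ℂ) : ℍ → ℂ :=
  fun τ => ∑ x : OnePoint (ZMod p), F (_root_.P2MW.S_ModularForm_heckeT_slash_eq_self_of_mem_Gamma0.ModularForm.HeckeSlashInvariance.heckeRep p x • τ)

omit [Fact p.Prime] in
theorem det_heckeRep_pos (x : OnePoint (ZMod p)) :
    0 < ((_root_.P2MW.S_ModularForm_heckeT_slash_eq_self_of_mem_Gamma0.ModularForm.HeckeSlashInvariance.heckeRep p x : GL (Fin 2) ℝ) : Matrix (Fin 2) (Fin 2) ℝ).det := by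
  induction x using OnePoint.rec with
  | infty =>
    have := ModularForm.det_heckeDiagMatrix_pos p
    rwa [Matrix.GeneralLinearGroup.val_det_apply] at this
  | coe j =>
    have := ModularForm.det_heckeMatrix_pos p j.val
    rwa [Matrix.GeneralLinearGroup.val_det_apply] at this

/-- Chain rule for the action of `g ∈ GL₂(ℝ)⁺`. -/
theorem hasDerivAt_comp_smul_GL {F f : ℍ → ℂ}
    (hF : ∀ τ : ℍ, HasDerivAt (F ∘ ofComplex) (f τ) ↑τ) (g : GL (Fin 2) ℝ)
    (hpos : 0 < (g : Matrix (Fin 2) (Fin 2) ℝ).det) (τ : ℍ) :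
    HasDerivAt ((fun w : ℍ => F (g • w)) ∘ ofComplex) ((f ∣[(2 : ℤ)] g) τ) ↑τ := by
  have h_smul : HasDerivAt (fun w ↦ ↑(g • ofComplex w) : ℂ → ℂ)
      (((g : Matrix (Fin 2) (Fin 2) ℝ).det : ℂ) / denom g τ ^ 2) ↑τ :=
    (hasStrictDerivAt_smul hpos τ).hasDerivAt
  have h_F : HasDerivAt (F ∘ ofComplex) (f (g • τ)) ↑(g • ofComplex (τ : ℂ)) := by
    rw [ofComplex_apply]
    exact hF (g • τ)
  have hcomp := h_F.comp (τ : ℂ) h_smul
  have heq : ((fun w : ℍ => F (g • w)) ∘ ofComplex)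
      = (F ∘ ofComplex) ∘ (fun w ↦ ↑(g • ofComplex w) : ℂ → ℂ) := by
    funext z
    simp only [Function.comp_apply, ofComplex_apply]
  rw [heq]
  refine hcomp.congr_deriv ?_
  have hdet' : 0 < (g.det : ℝ) := by
    rwa [Matrix.GeneralLinearGroup.val_det_apply]
  rw [ModularForm.slash_apply, UpperHalfPlane.σ, if_pos hdet']
  have hz := denom_ne_zero g τ
  simp only [ContinuousAlgEquiv.refl_apply]
  rw [show (2 : ℤ) - 1 = 1 by norm_num, zpow_one, zpow_neg, abs_of_pos hdet',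
    Matrix.GeneralLinearGroup.val_det_apply]
  rw [div_eq_mul_inv, mul_assoc]
  norm_cast

theorem im_heckeRep_smul (x : OnePoint (ZMod p)) (τ : ℍ) :
    τ.im / p ≤ (_root_.P2MW.S_ModularForm_heckeT_slash_eq_self_of_mem_Gamma0.ModularForm.HeckeSlashInvariance.heckeRep p x • τ).im := by
  have hp : p ≠ 0 := (Fact.out : p.Prime).ne_zero
  have hp1 : (1 : ℝ) ≤ p := by exact_mod_cast (Fact.out : p.Prime).one_le
  have hpos : (0 : ℝ) < p := by linarith
  have him : 0 < τ.im := τ.im_pos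
  induction x using OnePoint.rec with
  | infty =>
    have h := ModularForm.coe_heckeDiagMatrix_smul hp τ
    have h2 : (_root_.P2MW.S_ModularForm_heckeT_slash_eq_self_of_mem_Gamma0.ModularForm.HeckeSlashInvariance.heckeRep p (OnePoint.infty : OnePoint (ZMod p)) • τ).im = p * τ.im := by
      have := congrArg Complex.im h
      simpa using this
    rw [h2]
    calc τ.im / p ≤ τ.im := div_le_self him.le hp1
      _ ≤ p * τ.im := le_mul_of_one_le_left him.le hp1
  | coe j =>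
    have h := ModularForm.coe_heckeMatrix_smul hp j.val τ
    have h2 : (_root_.P2MW.S_ModularForm_heckeT_slash_eq_self_of_mem_Gamma0.ModularForm.HeckeSlashInvariance.heckeRep p (j : OnePoint (ZMod p)) • τ).im = τ.im / p := by
      have := congrArg Complex.im h
      rw [UpperHalfPlane.coe_im] at this
      show (ModularForm.heckeMatrix p j.val • τ).im = _
      rw [this, Complex.div_natCast_im, Complex.add_im, Complex.natCast_im, add_zero,
        UpperHalfPlane.coe_im]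
    rw [h2]

theorem tendsto_heckeRep_smul (x : OnePoint (ZMod p)) :
    Tendsto (fun τ : ℍ => _root_.P2MW.S_ModularForm_heckeT_slash_eq_self_of_mem_Gamma0.ModularForm.HeckeSlashInvariance.heckeRep p x • τ) atImInfty atImInfty := by
  have hpos : (0 : ℝ) < p := by exact_mod_cast (Fact.out : p.Prime).pos
  rw [atImInfty, tendsto_comap_iff]
  refine tendsto_atTop_mono (fun τ => im_heckeRep_smul x τ) ?_
  exact (tendsto_comap.atTop_div_const hpos)

theorem SL_smul_eq_mapGL_smul (γ : SL(2, ℤ)) (τ : ℍ) : γ • τ = (mapGL ℝ γ) • τ := rfl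

theorem heckePrim_smul_sub (hpN : ¬ p ∣ N)
    {f : CuspForm (Gamma0 N) 2} {F : ℍ → ℂ} (hF : HasEquivariantPrimitive N f F)
    (γ : Gamma0 N) (τ : ℍ) :
    heckePrim p F ((γ : SL(2, ℤ)) • τ) - heckePrim p F τ
      = ∑ x : OnePoint (ZMod p), hF.2.2.1.period (trf hpN γ x) := by
  have key : ∀ x : OnePoint (ZMod p), F (_root_.P2MW.S_ModularForm_heckeT_slash_eq_self_of_mem_Gamma0.ModularForm.HeckeSlashInvariance.heckeRep p x • ((γ : SL(2, ℤ)) • τ))
      = F (_root_.P2MW.S_ModularForm_heckeT_slash_eq_self_of_mem_Gamma0.ModularForm.HeckeSlashInvariance.heckeRep p (permOf γ x) • τ) + hF.2.2.1.period (trf hpN γ x) := by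
    intro x
    have h1 : _root_.P2MW.S_ModularForm_heckeT_slash_eq_self_of_mem_Gamma0.ModularForm.HeckeSlashInvariance.heckeRep p x • ((γ : SL(2, ℤ)) • τ)
        = ((trf hpN γ x : Gamma0 N) : SL(2, ℤ)) • (_root_.P2MW.S_ModularForm_heckeT_slash_eq_self_of_mem_Gamma0.ModularForm.HeckeSlashInvariance.heckeRep p (permOf γ x) • τ) := by
      rw [SL_smul_eq_mapGL_smul, SL_smul_eq_mapGL_smul, ← mul_smul, ← mul_smul, trf_spec hpN γ x]
      rfl
    rw [h1, ← hF.2.2.1.sub_eq_period (trf hpN γ x) (_root_.P2MW.S_ModularForm_heckeT_slash_eq_self_of_mem_Gamma0.ModularForm.HeckeSlashInvariance.heckeRep p (permOf γ x) • τ)]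
    ring
  unfold heckePrim
  simp only [key, Finset.sum_add_distrib]
  rw [Equiv.sum_comp (permOf γ) (fun y => F (_root_.P2MW.S_ModularForm_heckeT_slash_eq_self_of_mem_Gamma0.ModularForm.HeckeSlashInvariance.heckeRep p y • τ))]
  ring

theorem hasEquivariantPrimitive_heckePrim (hp : p.Prime) (hpN : ¬ p ∣ N)
    {f : CuspForm (Gamma0 N) 2} {F : ℍ → ℂ} (hF : HasEquivariantPrimitive N f F) :
    HasEquivariantPrimitive N (CuspForm.heckeTLin 2 hp hpN f) (heckePrim p F) := by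
  refine ⟨fun τ => ?_, ?_, fun γ => ?_, fun δ => ?_⟩
  · -- derivative
    have hsum : (heckePrim p F ∘ ofComplex)
        = fun z => ∑ x : OnePoint (ZMod p), ((fun w : ℍ => F (_root_.P2MW.S_ModularForm_heckeT_slash_eq_self_of_mem_Gamma0.ModularForm.HeckeSlashInvariance.heckeRep p x • w)) ∘ ofComplex) z := by
      funext z
      rfl
    rw [hsum, CuspForm.heckeTLin_apply_apply, heckeT_eq_sum_onePoint, Finset.sum_apply]
    exact HasDerivAt.fun_sum fun x _ =>
      hasDerivAt_comp_smul_GL hF.1 (_root_.P2MW.S_ModularForm_heckeT_slash_eq_self_of_mem_Gamma0.ModularForm.HeckeSlashInvariance.heckeRep p x) (det_heckeRep_pos x) τ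
  · -- limit `0` at `i∞`
    have h : Tendsto (fun τ : ℍ => ∑ x : OnePoint (ZMod p), F (_root_.P2MW.S_ModularForm_heckeT_slash_eq_self_of_mem_Gamma0.ModularForm.HeckeSlashInvariance.heckeRep p x • τ)) atImInfty
        (𝓝 (∑ _x : OnePoint (ZMod p), (0 : ℂ))) :=
      tendsto_finsetSum _ fun x _ => hF.2.1.comp (tendsto_heckeRep_smul x)
    rw [Finset.sum_const_zero] at h
    exact h
  · exact ⟨_, fun z => heckePrim_smul_sub hpN hF γ z⟩
  · -- limits at the cusps
    have h1 : ¬ p ∣ 1 := fun h => hp.one_lt.ne' (Nat.dvd_one.mp h)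
    have hx : ∀ x : OnePoint (ZMod p), ∃ L : ℂ,
        Tendsto (fun w : ℍ => F (_root_.P2MW.S_ModularForm_heckeT_slash_eq_self_of_mem_Gamma0.ModularForm.HeckeSlashInvariance.heckeRep p x • (δ • w))) atImInfty (𝓝 L) := by
      intro x
      obtain ⟨g', -, hg'⟩ := heckeRep_mul (N := 1) h1 δ (one_dvd _) x
      obtain ⟨L, hL⟩ := hF.2.2.2 g'
      refine ⟨L, ?_⟩
      have heq : (fun w : ℍ => F (_root_.P2MW.S_ModularForm_heckeT_slash_eq_self_of_mem_Gamma0.ModularForm.HeckeSlashInvariance.heckeRep p x • (δ • w)))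
          = (fun w : ℍ => F (g' • w)) ∘ (fun w : ℍ => _root_.P2MW.S_ModularForm_heckeT_slash_eq_self_of_mem_Gamma0.ModularForm.HeckeSlashInvariance.heckeRep p (redMatrix p δ • x) • w) := by
        funext w
        simp only [Function.comp_apply]
        rw [SL_smul_eq_mapGL_smul, SL_smul_eq_mapGL_smul, ← mul_smul, ← mul_smul, hg']
      rw [heq]
      exact hL.comp (tendsto_heckeRep_smul _)
    choose L hL using hx
    exact ⟨∑ x : OnePoint (ZMod p), L x, tendsto_finsetSum _ fun x _ => hL x⟩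

/-- **E2a**: Hecke equivariance of the period map. -/
theorem periodMap_heckeTLin (hp : p.Prime) (hpN : ¬ p ∣ N) (f : CuspForm (Gamma0 N) 2) :
    periodMap N (CuspForm.heckeTLin 2 hp hpN f) = heckeHom p hpN ℂ (periodMap N f) := by
  haveI : NeZero N := ⟨fun h => hpN (h ▸ dvd_zero p)⟩
  obtain ⟨F, hF⟩ := Fermat.Agent.S21.H381.exists_hasEquivariantPrimitive f
  refine AddMonoidHom.ext fun γ => ?_
  obtain ⟨γ, rfl⟩ : ∃ γ' : Gamma0 N, Additive.ofMul γ' = γ := ⟨Additive.toMul γ, rfl⟩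
  rw [Fermat.Agent.S21.H381.periodMap_apply (hasEquivariantPrimitive_heckePrim hp hpN hF) γ
    UpperHalfPlane.I, heckePrim_smul_sub hpN hF γ UpperHalfPlane.I, heckeHom_apply]
  refine Finset.sum_congr rfl fun x _ => ?_
  rw [Fermat.Agent.S21.H381.periodMap_apply hF (trf hpN γ x) UpperHalfPlane.I,
    hF.2.2.1.sub_eq_period]

end Fermat.Agent.S29.H201

end
-- ===== PACK-END S29/H201/PeriodHecke.lean

-- ===== PACK-BEGIN S21/H81/Inj.lean
section


/-!
# S21, piece C: injectivity of `periodHomPair`, assuming existence of equivariant primitives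
and linearity of the period map.
-/

set_option autoImplicit false

open UpperHalfPlane CongruenceSubgroup Filter Topology Complex ModularCurve ModularCurve.Period
open scoped MatrixGroups Manifold ComplexConjugate

namespace Fermat.Agent.S21.H81

/-- The reflection `J` intertwines `g` and `jConjSL g`. -/
theorem inj_J_smul_smul (g : SL(2, ℤ)) (z : ℍ) :
    J • (g • z) = jConjSL g • (J • z) := by
  ext
  rw [coe_J_smul, coe_specialLinearGroup_apply, coe_specialLinearGroup_apply, coe_J_smul]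
  have h00 : (jConjSL g) 0 0 = g 0 0 := by
    show ((jConjSL g : SL(2, ℤ)) : Matrix (Fin 2) (Fin 2) ℤ) 0 0 = _
    rw [jConjSL_coe, jConjMat_apply_zero_zero]
  have h01 : (jConjSL g) 0 1 = -g 0 1 := by
    show ((jConjSL g : SL(2, ℤ)) : Matrix (Fin 2) (Fin 2) ℤ) 0 1 = _
    rw [jConjSL_coe, jConjMat_apply_zero_one]
  have h10 : (jConjSL g) 1 0 = -g 1 0 := by
    show ((jConjSL g : SL(2, ℤ)) : Matrix (Fin 2) (Fin 2) ℤ) 1 0 = _
    rw [jConjSL_coe, jConjMat_apply_one_zero]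
  have h11 : (jConjSL g) 1 1 = g 1 1 := by
    show ((jConjSL g : SL(2, ℤ)) : Matrix (Fin 2) (Fin 2) ℤ) 1 1 = _
    rw [jConjSL_coe, jConjMat_apply_one_one]
  rw [h00, h01, h10, h11]
  simp only [map_div₀, map_add, map_mul, algebraMap_int_eq, eq_intCast,
    Complex.ofReal_intCast, Complex.ofReal_neg, map_intCast, map_neg]
  rw [← neg_div]
  congr 1 <;> ring


/-- The reflected function `z ↦ -conj (F (-conj z))`. -/
noncomputable def injRefl (F : ℍ → ℂ) : ℍ → ℂ := fun z => -conj (F (J • z))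

theorem injRefl_differentiableAt {F : ℍ → ℂ}
    (hol : ∀ τ : ℍ, DifferentiableAt ℂ (F ∘ ofComplex) (τ : ℂ)) (τ : ℍ) :
    DifferentiableAt ℂ (injRefl F ∘ ofComplex) (τ : ℂ) := by
  -- near `τ`, `injRefl F ∘ ofComplex` equals `z ↦ -(conj ∘ (F ∘ ofComplex) ∘ conj) (-z)`
  have h0 : DifferentiableAt ℂ (F ∘ ofComplex) (conj (-(τ : ℂ))) := by
    have := hol (J • τ)
    rwa [coe_J_smul, ← map_neg] at this
  have h1 : DifferentiableAt ℂ (conj ∘ (F ∘ ofComplex) ∘ conj) (-(τ : ℂ)) := by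
    have := h0.hasDerivAt.conj_conj
    rw [Complex.conj_conj] at this
    exact this.differentiableAt
  have h2 : DifferentiableAt ℂ (fun z : ℂ => -(conj ∘ (F ∘ ofComplex) ∘ conj) (-z)) (τ : ℂ) := by
    have h3 : DifferentiableAt ℂ (fun z : ℂ => -z) (τ : ℂ) := differentiableAt_id.neg
    exact (DifferentiableAt.comp (τ : ℂ) h1 h3).neg
  refine h2.congr_of_eventuallyEq ?_
  have hopen : {z : ℂ | 0 < z.im} ∈ 𝓝 (τ : ℂ) :=
    isOpen_upperHalfPlaneSet.mem_nhds τ.im_pos
  filter_upwards [hopen] with z hz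
  simp only [Function.comp_apply, injRefl]
  congr 3
  rw [ofComplex_apply_of_im_pos hz]
  have : (J • (⟨z, hz⟩ : ℍ) : ℍ) = ofComplex (conj (-z)) := by
    have h4 : 0 < (conj (-z)).im := by simpa using hz
    rw [ofComplex_apply_of_im_pos h4]
    ext
    rw [coe_J_smul]
    simp
  exact this

theorem injRefl_tendsto {F : ℍ → ℂ}
    (hcusp : ∀ δ : SL(2, ℤ), ∃ L : ℂ, Tendsto (fun w : ℍ => F (δ • w)) atImInfty (𝓝 L))
    (δ : SL(2, ℤ)) : ∃ L : ℂ, Tendsto (fun w : ℍ => injRefl F (δ • w)) atImInfty (𝓝 L) := by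
  obtain ⟨L, hL⟩ := hcusp (jConjSL δ)
  refine ⟨-conj L, ?_⟩
  have hJ : Tendsto (fun w : ℍ => J • w) atImInfty atImInfty :=
    tendsto_smul_atImInfty (by simp [J])
  have h1 : Tendsto (fun w : ℍ => F (jConjSL δ • (J • w))) atImInfty (𝓝 L) := hL.comp hJ
  have h2 : Tendsto (fun w : ℍ => -conj (F (jConjSL δ • (J • w)))) atImInfty (𝓝 (-conj L)) :=
    ((Complex.continuous_conj.tendsto L).comp h1).neg
  refine h2.congr ?_
  intro w
  simp only [injRefl, inj_J_smul_smul]

section half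

variable {N : ℕ} [NeZero N] {f : CuspForm (Gamma0 N) 2} {F : ℍ → ℂ}

/-- If the periods of `f` satisfy `p (jγj) = s * p γ` with `s = ±1` then `f = 0`. -/
theorem inj_half (hF : HasEquivariantPrimitive N f F) (s : ℝ) (hs : s * s = 1)
    (hsym : ∀ γ : Gamma0 N, hF.2.2.1.period (jConjGamma0 N γ) = s * hF.2.2.1.period γ) :
    f = 0 := by
  have hFd := hF.1
  have hFeq := hF.2.2.1
  have hFcusp := hF.2.2.2
  have hFhol : ∀ τ : ℍ, DifferentiableAt ℂ (F ∘ ofComplex) (τ : ℂ) :=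
    fun τ => (hFd τ).differentiableAt
  have hHhol := injRefl_differentiableAt hFhol
  have hHcusp := injRefl_tendsto hFcusp
  -- increments of the reflected function
  have hHinc : ∀ (γ : Gamma0 N) (z : ℍ),
      injRefl F ((γ : SL(2, ℤ)) • z) - injRefl F z = -(s * conj (hFeq.period γ)) := by
    intro γ z
    have h1 := hFeq.sub_eq_period (jConjGamma0 N γ) (J • z)
    rw [hsym γ, jConjGamma0_coe, ← inj_J_smul_smul] at h1
    simp only [injRefl]
    have h2 : conj (F (J • ((γ : SL(2, ℤ)) • z))) - conj (F (J • z))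
        = conj ((s : ℂ) * hFeq.period γ) := by
      rw [← h1, map_sub]
    rw [map_mul, Complex.conj_ofReal] at h2
    linear_combination -h2
  -- the two auxiliary functions
  let A₁ : ℍ → ℂ := fun z => F z + (s : ℂ) * injRefl F z
  let A₂ : ℍ → ℂ := fun z => Complex.I * (F z - (s : ℂ) * injRefl F z)
  have hs' : (s : ℂ) * (s : ℂ) = 1 := by exact_mod_cast hs
  have hA₁ : ∀ τ : ℍ, deriv (A₁ ∘ ofComplex) (τ : ℂ) = 0 := by
    refine injCore_deriv_eq_zero (N := N) ?_ ?_ ?_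
    · intro τ
      exact (hFhol τ).add ((hHhol τ).const_mul (s : ℂ))
    · intro γ hγ
      refine ⟨hFeq.period ⟨γ, hγ⟩ - conj (hFeq.period ⟨γ, hγ⟩), ?_, ?_⟩
      · simp
      · intro z
        have h1 := hFeq.sub_eq_period ⟨γ, hγ⟩ z
        have h2 := hHinc ⟨γ, hγ⟩ z
        simp only [A₁]
        simp only at h1 h2
        linear_combination h1 + (s : ℂ) * h2 - conj (hFeq.period ⟨γ, hγ⟩) * hs'
    · intro δ
      obtain ⟨L₁, hL₁⟩ := hFcusp δ
      obtain ⟨L₂, hL₂⟩ := hHcusp δ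
      exact ⟨L₁ + (s : ℂ) * L₂, hL₁.add (hL₂.const_mul (s : ℂ))⟩
  have hA₂ : ∀ τ : ℍ, deriv (A₂ ∘ ofComplex) (τ : ℂ) = 0 := by
    refine injCore_deriv_eq_zero (N := N) ?_ ?_ ?_
    · intro τ
      exact ((hFhol τ).sub ((hHhol τ).const_mul (s : ℂ))).const_mul Complex.I
    · intro γ hγ
      refine ⟨Complex.I * (hFeq.period ⟨γ, hγ⟩ + conj (hFeq.period ⟨γ, hγ⟩)), ?_, ?_⟩
      · simp [Complex.add_conj]
      · intro z
        have h1 := hFeq.sub_eq_period ⟨γ, hγ⟩ z
        have h2 := hHinc ⟨γ, hγ⟩ z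
        simp only [A₂]
        simp only at h1 h2
        linear_combination Complex.I * h1 - Complex.I * (s : ℂ) * h2
          + Complex.I * conj (hFeq.period ⟨γ, hγ⟩) * hs'
    · intro δ
      obtain ⟨L₁, hL₁⟩ := hFcusp δ
      obtain ⟨L₂, hL₂⟩ := hHcusp δ
      exact ⟨Complex.I * (L₁ - (s : ℂ) * L₂), (hL₁.sub (hL₂.const_mul (s : ℂ))).const_mul _⟩
  -- conclude
  ext τ
  have hH' := (hHhol τ).hasDerivAt
  set h := deriv (injRefl F ∘ ofComplex) (τ : ℂ) with hh
  have e₁ : HasDerivAt (A₁ ∘ ofComplex) (f τ + (s : ℂ) * h) (τ : ℂ) :=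
    (hFd τ).add (hH'.const_mul (s : ℂ))
  have e₂ : HasDerivAt (A₂ ∘ ofComplex) (Complex.I * (f τ - (s : ℂ) * h)) (τ : ℂ) :=
    ((hFd τ).sub (hH'.const_mul (s : ℂ))).const_mul Complex.I
  have z₁ : f τ + (s : ℂ) * h = 0 := by rw [← e₁.deriv]; exact hA₁ τ
  have z₂ : Complex.I * (f τ - (s : ℂ) * h) = 0 := by rw [← e₂.deriv]; exact hA₂ τ
  have z₃ : f τ - (s : ℂ) * h = 0 := (mul_eq_zero.mp z₂).resolve_left Complex.I_ne_zero
  have : f τ = 0 := by linear_combination (1 / 2 : ℂ) * z₁ + (1 / 2 : ℂ) * z₃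
  simpa using this

end half

section final

variable (N : ℕ) [NeZero N]

omit [NeZero N] in
/-- Unfolding of `periodHomPair` at a pair, evaluated at `γ`. -/
theorem inj_periodHomPair_apply (hlin : ExistsPeriodMapLinear N)
    (f g : CuspForm (Gamma0 N) 2) (γ : Gamma0 N) :
    periodHomPair N (f, g) (Additive.ofMul γ)
      = (periodMap N f (Additive.ofMul γ)
          + periodMap N f (Additive.ofMul (jConjGamma0 N γ)))
        + (periodMap N g (Additive.ofMul γ)
          - periodMap N g (Additive.ofMul (jConjGamma0 N γ))) := by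
  obtain ⟨pml, hpml, hdef⟩ := periodHomPair_def N hlin
  rw [hdef]
  simp only [LinearMap.coprod_apply, LinearMap.coe_comp, Function.comp_apply,
    LinearMap.add_apply, LinearMap.sub_apply, LinearMap.id_coe, id_eq, hpml,
    AddMonoidHom.add_apply, AddMonoidHom.sub_apply, charInvolution_apply, toMul_ofMul]

/-- **Injectivity of `periodHomPair`**, assuming that every cusp form has an equivariant
primitive and that the period map is linear. -/
theorem injective_periodHomPair_of (hlin : ExistsPeriodMapLinear N)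
    (hA : ∀ f : CuspForm (Gamma0 N) 2, ∃ F : ℍ → ℂ, HasEquivariantPrimitive N f F) :
    Function.Injective (periodHomPair N) := by
  rw [injective_iff_map_eq_zero]
  rintro ⟨f, g⟩ hfg
  have key : ∀ γ : Gamma0 N,
      (periodMap N f (Additive.ofMul γ)
          + periodMap N f (Additive.ofMul (jConjGamma0 N γ)))
        + (periodMap N g (Additive.ofMul γ)
          - periodMap N g (Additive.ofMul (jConjGamma0 N γ))) = 0 := by
    intro γ
    rw [← inj_periodHomPair_apply N hlin f g γ, hfg]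
    rfl
  have keyf : ∀ γ : Gamma0 N, periodMap N f (Additive.ofMul (jConjGamma0 N γ))
      = ((-1 : ℝ) : ℂ) * periodMap N f (Additive.ofMul γ) := by
    intro γ
    have h1 := key γ
    have h2 := key (jConjGamma0 N γ)
    rw [jConjGamma0_jConjGamma0] at h2
    push_cast
    linear_combination (1 / 2 : ℂ) * h1 + (1 / 2 : ℂ) * h2
  have keyg : ∀ γ : Gamma0 N, periodMap N g (Additive.ofMul (jConjGamma0 N γ))
      = ((1 : ℝ) : ℂ) * periodMap N g (Additive.ofMul γ) := by
    intro γ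
    have h1 := key γ
    have h2 := key (jConjGamma0 N γ)
    rw [jConjGamma0_jConjGamma0] at h2
    push_cast
    linear_combination (-1 / 2 : ℂ) * h1 + (1 / 2 : ℂ) * h2
  have hf0 : f = 0 := by
    obtain ⟨F, hF⟩ := hA f
    obtain ⟨F₀, h₀, hP⟩ := periodMap_def N f hF
    refine inj_half h₀ (-1) (by norm_num) ?_
    intro γ
    have := keyf γ
    rw [hP] at this
    exact this
  have hg0 : g = 0 := by
    obtain ⟨G, hG⟩ := hA g
    obtain ⟨G₀, h₀, hP⟩ := periodMap_def N g hG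
    refine inj_half h₀ 1 (by norm_num) ?_
    intro γ
    have := keyg γ
    rw [hP] at this
    exact this
  rw [hf0, hg0]
  rfl

end final

end Fermat.Agent.S21.H81

end
-- ===== PACK-END S21/H81/Inj.lean

-- ===== PACK-BEGIN S29/H201/E2.lean
section






/-!
# S29 / P5-E2 (helper201) — the eigensystem of a normalized eigenform occurs in
`Hom_par(Γ₀(N), F)`, `F` any field of characteristic `q > 0`.
-/

set_option autoImplicit false

open CongruenceSubgroup Matrix.SpecialLinearGroup UpperHalfPlane ModularCurve ModularCurve.Period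
open scoped MatrixGroups

namespace Fermat.Agent.S29.H201

variable {N : ℕ}

/-- The period map is injective (from helper81's injectivity of `periodHomPair`). -/
theorem periodMap_ne_zero [NeZero N] {g : CuspForm (Gamma0 N) 2} (hg : g ≠ 0) :
    periodMap N g ≠ 0 := by
  intro h
  have hinj := Fermat.Agent.S21.H81.injective_periodHomPair_of N
    (Fermat.Agent.S21.H381.existsPeriodMapLinear N)
    (fun f => Fermat.Agent.S21.H381.exists_hasEquivariantPrimitive f)
  have h0 : periodMap N (0 : CuspForm (Gamma0 N) 2) = 0 :=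
    (Fermat.Agent.S21.H381.periodMapLin N).map_zero
  have h1 : periodHomPair N (g, 0) = 0 := by
    rw [Fermat.Agent.S21.H381.periodHomPair_apply, h, h0]
    simp
  have h2 := hinj (h1.trans (map_zero (periodHomPair N)).symm)
  exact hg (congrArg Prod.fst h2)

theorem isNormalizedEigenform_ne_zero {g : CuspForm (Gamma0 N) 2}
    (hg : g.IsNormalizedEigenform) : g ≠ 0 := by
  rintro rfl
  have h1 := hg.qCoeff_one
  have h0 : ModularFormClass.qCoeff (⇑(0 : CuspForm (Gamma0 N) 2)) 1 = 0 := by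
    unfold ModularFormClass.qCoeff
    rw [FunLike.coe_zero, qExpansion_zero]
    simp
  rw [h0] at h1
  exact zero_ne_one h1

instance instFGSL2Z : Group.FG SL(2, ℤ) := by
  rw [Group.fg_iff]
  exact ⟨{ModularGroup.S, ModularGroup.T}, SpecialLinearGroup.SL2Z_generators, by simp⟩

theorem fg_Gamma0 [NeZero N] : AddGroup.FG (Additive (Gamma0 N)) := by
  haveI : Group.FG (Gamma0 N) := inferInstance
  exact AddGroup.fg_iff_mul_fg.mpr ‹_›

/-- **E2c, strong form**: for a normalized eigenform `g` of level `N ≥ 1`, a field `F` of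
characteristic `q > 0` and a ring hom `ψ : ℤ̄ → F`, there is a nonzero parabolic homomorphism
`χ : Γ₀(N) → F`, vanishing on every element on which the period of `g` vanishes (in particular
on all elements of finite order), with `T_ℓ χ = ψ(a_ℓ) χ` for every prime `ℓ ∤ N`. -/
theorem exists_eigen_parabolicHom_strong [NeZero N] {g : CuspForm (Gamma0 N) 2}
    (hg : g.IsNormalizedEigenform)
    {F : Type*} [Field F] (q : ℕ) [Fact q.Prime] [CharP F q]
    (ψ : integralClosure ℤ ℂ →+* F) :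
    ∃ χ : Additive (Gamma0 N) →+ F, χ ≠ 0 ∧ IsParabolicHom (Gamma0 N) χ ∧
      (∀ γ : Gamma0 N, periodMap N g (Additive.ofMul γ) = 0 → χ (Additive.ofMul γ) = 0) ∧
      (∀ γ : Gamma0 N, IsOfFinOrder γ → χ (Additive.ofMul γ) = 0) ∧
      ∀ (ℓ : ℕ) [Fact ℓ.Prime] (hℓN : ¬ ℓ ∣ N),
        ∃ a : integralClosure ℤ ℂ, (a : ℂ) = ModularFormClass.qCoeff g ℓ ∧
          heckeHom ℓ hℓN F χ = (AddMonoidHom.mulLeft (ψ a)).comp χ := by
  set v : Additive (Gamma0 N) →+ ℂ := periodMap N g with hv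
  have hv0 : v ≠ 0 := periodMap_ne_zero (isNormalizedEigenform_ne_zero hg)
  set L : AddSubgroup ℂ := v.range with hLdef
  have hLfg : L.FG := by
    haveI := fg_Gamma0 (N := N)
    rw [hLdef, ← AddGroup.fg_iff_addSubgroup_fg]
    exact AddGroup.fg_of_surjective (f := v.rangeRestrict) v.rangeRestrict_surjective
  have hL0 : L ≠ ⊥ := by
    intro h
    apply hv0
    refine AddMonoidHom.ext fun γ => ?_
    have : v γ ∈ L := ⟨γ, rfl⟩
    rw [h, AddSubgroup.mem_bot] at this
    simpa using this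
  -- the Hecke eigenvalue relation on periods
  have hT : ∀ (ℓ : ℕ) [Fact ℓ.Prime] (hℓN : ¬ ℓ ∣ N),
      heckeHom ℓ hℓN ℂ v = (AddMonoidHom.mulLeft (ModularFormClass.qCoeff g ℓ)).comp v := by
    intro ℓ _ hℓN
    have hℓ : ℓ.Prime := Fact.out
    rw [hv, ← periodMap_heckeTLin hℓ hℓN g, heckeTLin_eq_smul_of_isNormalizedEigenform hg hℓ hℓN,
      Fermat.Agent.S21.H381.periodMap_smul]
    refine AddMonoidHom.ext fun γ => ?_
    rfl
  have hmult : ∀ (ℓ : ℕ) [Fact ℓ.Prime] (_hℓN : ¬ ℓ ∣ N), ∀ y ∈ L,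
      ModularFormClass.qCoeff g ℓ * y ∈ L := by
    intro ℓ _ hℓN y hy
    obtain ⟨γ, rfl⟩ := hy
    obtain ⟨γ, rfl⟩ : ∃ γ' : Gamma0 N, Additive.ofMul γ' = γ := ⟨Additive.toMul γ, rfl⟩
    have h1 := DFunLike.congr_fun (hT ℓ hℓN) (Additive.ofMul γ)
    rw [heckeHom_apply] at h1
    have h2 : ModularFormClass.qCoeff g ℓ * v (Additive.ofMul γ)
        = ∑ x : OnePoint (ZMod ℓ), v (Additive.ofMul (trf hℓN γ x)) := h1.symm
    rw [h2]
    exact L.sum_mem fun x _ => ⟨_, rfl⟩
  obtain ⟨μ, hμ0, hμ⟩ := exists_eigen_functional L hLfg hL0 q ψ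
  set vr : Additive (Gamma0 N) →+ L := v.rangeRestrict with hvr
  have hker : ∀ γ : Gamma0 N, v (Additive.ofMul γ) = 0 → (μ.comp vr) (Additive.ofMul γ) = 0 := by
    intro γ h2
    have h3 : vr (Additive.ofMul γ) = 0 := Subtype.ext h2
    rw [AddMonoidHom.comp_apply, h3, map_zero]
  refine ⟨μ.comp vr, ?_, ?_, hker, ?_, ?_⟩
  · intro h
    apply hμ0
    refine AddMonoidHom.ext fun y => ?_
    obtain ⟨γ, hγ⟩ := y.2
    have h1 := DFunLike.congr_fun h γ
    have h2 : vr γ = y := Subtype.ext hγ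
    rw [AddMonoidHom.comp_apply, h2] at h1
    simpa using h1
  · intro γ hγ
    have h1 := Fermat.Agent.S21.H381.periodMap_mem_parabolicHoms g
    rw [mem_parabolicHoms_iff] at h1
    exact hker γ (h1 γ hγ)
  · intro γ hγ
    apply hker
    obtain ⟨n, hn, hγn⟩ := hγ.exists_pow_eq_one
    have h1 : (n : ℂ) * v (Additive.ofMul γ) = 0 := by
      have h2 : v (Additive.ofMul (γ ^ n)) = n • v (Additive.ofMul γ) := by
        rw [ofMul_pow, map_nsmul]
      rw [hγn] at h2
      have h3 : v (Additive.ofMul (1 : Gamma0 N)) = 0 := by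
        rw [ofMul_one, map_zero]
      rw [h3, nsmul_eq_mul] at h2
      exact h2.symm
    rcases mul_eq_zero.mp h1 with h | h
    · exact absurd (by exact_mod_cast h) hn.ne'
    · exact h
  · intro ℓ _ hℓN
    have hint : IsIntegral ℤ (ModularFormClass.qCoeff g ℓ) :=
      isIntegral_of_mul_mem L hLfg hL0 _ (hmult ℓ hℓN)
    refine ⟨⟨ModularFormClass.qCoeff g ℓ, hint⟩, rfl, ?_⟩
    rw [heckeHom_comp]
    refine AddMonoidHom.ext fun γ => ?_
    obtain ⟨γ, rfl⟩ : ∃ γ' : Gamma0 N, Additive.ofMul γ' = γ := ⟨Additive.toMul γ, rfl⟩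
    have h1 : heckeHom ℓ hℓN L vr (Additive.ofMul γ)
        = ⟨ModularFormClass.qCoeff g ℓ * (vr (Additive.ofMul γ) : ℂ),
            hmult ℓ hℓN _ (vr (Additive.ofMul γ)).2⟩ := by
      apply Subtype.ext
      have h2 := DFunLike.congr_fun (heckeHom_comp hℓN L.subtype vr) (Additive.ofMul γ)
      have h3 : L.subtype.comp vr = v := AddMonoidHom.ext fun γ' => rfl
      rw [h3, hT ℓ hℓN] at h2
      exact h2.symm
    rw [AddMonoidHom.comp_apply, h1]
    exact hμ ⟨ModularFormClass.qCoeff g ℓ, hint⟩ (hmult ℓ hℓN) (vr (Additive.ofMul γ))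

/-- **E2c**: for a normalized eigenform `g` of level `N ≥ 1`, a field `F` of characteristic
`q > 0` and a ring hom `ψ : ℤ̄ → F`, there is a nonzero parabolic homomorphism
`χ : Γ₀(N) → F` with `T_ℓ χ = ψ(a_ℓ) χ` for every prime `ℓ ∤ N`. -/
theorem exists_eigen_parabolicHom [NeZero N] {g : CuspForm (Gamma0 N) 2}
    (hg : g.IsNormalizedEigenform)
    {F : Type*} [Field F] (q : ℕ) [Fact q.Prime] [CharP F q]
    (ψ : integralClosure ℤ ℂ →+* F) :
    ∃ χ : Additive (Gamma0 N) →+ F, χ ≠ 0 ∧ IsParabolicHom (Gamma0 N) χ ∧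
      ∀ (ℓ : ℕ) [Fact ℓ.Prime] (hℓN : ¬ ℓ ∣ N),
        ∃ a : integralClosure ℤ ℂ, (a : ℂ) = ModularFormClass.qCoeff g ℓ ∧
          heckeHom ℓ hℓN F χ = (AddMonoidHom.mulLeft (ψ a)).comp χ := by
  obtain ⟨χ, h1, h2, -, -, h3⟩ := exists_eigen_parabolicHom_strong hg q ψ
  exact ⟨χ, h1, h2, h3⟩

end Fermat.Agent.S29.H201

end
-- ===== PACK-END S29/H201/E2.lean

-- ===== PACK-BEGIN Lib/Newform/H958/MainOf.lean
section




/-!
# Shared library NEWFORM — assembly

Everything in this file is proved from the leaf interfaces of `Spec.lean`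
(hypothesis-parametrised, no `sorry`).
-/

set_option autoImplicit false

open CongruenceSubgroup UpperHalfPlane
open scoped MatrixGroups

namespace Fermat.Agent.Lib.Newform.H958

open CuspForm ModularFormClass

/-! ## Descent to a newform (no interface needed) -/

theorem descent : Descent := by
  intro N
  induction N using Nat.strong_induction_on with
  | _ N ih =>
    intro _ f hf
    by_cases hnew : f.IsNewform
    · exact ⟨N, dvd_rfl, f, hnew, fun _ _ _ => rfl⟩
    · have hex : ∃ M, M ∣ N ∧ M ≠ N ∧ GoodEigensystemOccursAt f M := by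
        by_contra h
        exact hnew ⟨hf, fun M hM hMN hocc => h ⟨M, hM, hMN, hocc⟩⟩
      obtain ⟨M, hMN, hne, g, hg, hgf⟩ := hex
      have hN : N ≠ 0 := NeZero.ne N
      have hM0 : M ≠ 0 := fun h => by subst h; exact hN (zero_dvd_iff.mp hMN)
      have hlt : M < N := lt_of_le_of_ne (Nat.le_of_dvd (Nat.pos_of_ne_zero hN) hMN) hne
      haveI : NeZero M := ⟨hM0⟩
      obtain ⟨M', hM', g', hg', hgg'⟩ := ih M hlt g hg
      refine ⟨M', hM'.trans hMN, g', hg', fun ℓ hℓ hℓN => ?_⟩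
      rw [hgg' ℓ hℓ (fun h => hℓN (h.trans hMN)), hgf ℓ hℓ hℓN]

/-! ## Helpers -/

/-- A cusp form with the same underlying function as a normalized eigenform, at a level with
the same "bad/good" dichotomy, is a normalized eigenform. -/
theorem isNormalizedEigenform_of_coe_eq {N N' : ℕ} {f : CuspForm (Gamma0 N) 2}
    {f' : CuspForm (Gamma0 N') 2} (hf : f.IsNormalizedEigenform)
    (hcoe : (⇑f' : ℍ → ℂ) = ⇑f) (hdvd : ∀ p : ℕ, p.Prime → (p ∣ N' ↔ p ∣ N)) :
    f'.IsNormalizedEigenform where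
  qCoeff_one := by rw [hcoe]; exact hf.qCoeff_one
  qCoeff_mul_of_coprime := by rw [hcoe]; exact hf.qCoeff_mul_of_coprime
  qCoeff_prime_pow_of_not_dvd := by
    rw [hcoe]
    intro p r hp hpN
    exact hf.qCoeff_prime_pow_of_not_dvd p r hp (fun h => hpN ((hdvd p hp).mpr h))
  qCoeff_prime_pow_of_dvd := by
    rw [hcoe]
    intro p r hp hpN
    exact hf.qCoeff_prime_pow_of_dvd p r hp ((hdvd p hp).mp hpN)

theorem coe_ne_zero_of_isNormalizedEigenform {N : ℕ} {f : CuspForm (Gamma0 N) 2}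
    (hf : f.IsNormalizedEigenform) : (⇑f : ℍ → ℂ) ≠ 0 := by
  intro h
  apply hf.ne_zero
  exact DFunLike.coe_injective h

/-! ## Stabilisation -/

theorem stab_of (hE : EigenT) (hI : Incl) (hO : Occurs) : Stab := by
  intro M C _ hMC g hg
  obtain ⟨h, hh⟩ := hI M C hMC g
  have hh0 : h ≠ 0 := by
    intro h0
    apply coe_ne_zero_of_isNormalizedEigenform hg
    rw [← hh, h0]
    rfl
  obtain ⟨g', hg', hcoef⟩ := hO C h hh0 Set.univ (fun ℓ => qCoeff g ℓ) (by
    intro ℓ hℓ hℓC _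
    have hℓM : ¬ ℓ ∣ M := fun h => hℓC (h.trans hMC)
    apply DFunLike.coe_injective
    have key := congrArg (fun F : CuspForm (Gamma0 M) 2 => (⇑F : ℍ → ℂ)) (hE M g hg ℓ hℓ hℓM)
    simp only [CuspForm.coe_heckeTLin_apply] at key
    rw [CuspForm.coe_heckeTLin_apply, hh, key]
    ext τ
    simp [hh])
  exact ⟨g', hg', fun ℓ hℓ hℓC => hcoef ℓ hℓ hℓC trivial⟩

/-! ## Coefficients at bad primes -/

/-- Case `q² ∣ N`. -/
theorem qCoeff_eq_zero_of (hEU : EigenU) (hL : LowerU)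
    {N : ℕ} [NeZero N] {f : CuspForm (Gamma0 N) 2} {q : ℕ} (hq : q.Prime)
    (hf : f.IsNewformAt q) (hq2 : q ^ 2 ∣ N) : qCoeff f q = 0 := by
  obtain ⟨hfe, hqN, hnocc⟩ := hf
  by_contra ha
  apply hnocc
  obtain ⟨g, hg⟩ := hL N q hq hq2 f
  have hU := congrArg (fun F : CuspForm (Gamma0 N) 2 => (⇑F : ℍ → ℂ)) (hEU N f hfe q hq hqN)
  simp only [CuspForm.coe_heckeULin_apply] at hU
  -- `g = a_q • f` as functions
  have hgf : (⇑((qCoeff f q)⁻¹ • g) : ℍ → ℂ) = ⇑f := by
    ext τ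
    have h1 : (g : ℍ → ℂ) τ = (qCoeff f q • f : CuspForm (Gamma0 N) 2) τ := by
      rw [hg, hU]
    simp only [CuspForm.IsGLPos.coe_smul, Pi.smul_apply, smul_eq_mul] at h1 ⊢
    rw [h1, ← mul_assoc, inv_mul_cancel₀ ha, one_mul]
  have hdvd : ∀ p : ℕ, p.Prime → (p ∣ N / q ↔ p ∣ N) := by
    intro p hp
    constructor
    · intro h
      exact h.trans (Nat.div_dvd_of_dvd hqN)
    · intro h
      obtain ⟨c, hc⟩ := hq2
      have hNq : N / q = q * c := by
        rw [hc, pow_two, mul_assoc, Nat.mul_div_cancel_left _ hq.pos]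
      rw [hNq]
      rw [hc, pow_two, mul_assoc] at h
      rcases (Nat.Prime.dvd_mul hp).mp h with h1 | h1
      · exact h1.trans (dvd_mul_right q c)
      · exact h1
  exact ⟨(qCoeff f q)⁻¹ • g, isNormalizedEigenform_of_coe_eq hfe hgf hdvd,
    fun ℓ _ _ => by rw [hgf]⟩

/-- Both traces of a form in the eigenspace of a form that is new at `q ∥ N` vanish:
this is the form in which newness is used. -/
theorem eq_zero_of_level_div (hO : Occurs)
    {N : ℕ} [NeZero N] {f : CuspForm (Gamma0 N) 2} {q : ℕ} (hq : q.Prime)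
    (hf : f.IsNewformAt q) (G : CuspForm (Gamma0 (N / q)) 2)
    (hG : ∀ ℓ : ℕ, ℓ.Prime → ¬ ℓ ∣ N →
      ModularForm.heckeT 2 ℓ (⇑G : ℍ → ℂ) = qCoeff f ℓ • (⇑G : ℍ → ℂ)) : G = 0 := by
  obtain ⟨hfe, hqN, hnocc⟩ := hf
  by_contra hG0
  apply hnocc
  have hN : N ≠ 0 := NeZero.ne N
  have hM0 : N / q ≠ 0 := by
    intro h
    have := Nat.div_mul_cancel hqN
    rw [h, zero_mul] at this
    exact hN this.symm
  haveI : NeZero (N / q) := ⟨hM0⟩
  obtain ⟨g, hg, hcoef⟩ := hO (N / q) G hG0 {ℓ | ¬ ℓ ∣ N} (fun ℓ => qCoeff f ℓ) (by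
    intro ℓ hℓ hℓM hℓN
    apply DFunLike.coe_injective
    rw [CuspForm.coe_heckeTLin_apply, hG ℓ hℓ hℓN]
    rfl)
  exact ⟨g, hg, fun ℓ hℓ hℓN =>
    hcoef ℓ hℓ (fun h => hℓN (h.trans (Nat.div_dvd_of_dvd hqN))) hℓN⟩

/-- Case `q ∥ N`. -/
theorem qCoeff_sq_eq_one_of (hET : EigenT) (hEU : EigenU) (hO : Occurs) (hT : TraceAL)
    {N : ℕ} [NeZero N] {f : CuspForm (Gamma0 N) 2} {q : ℕ} (hq : q.Prime)
    (hf : f.IsNewformAt q) (hq2 : ¬ q ^ 2 ∣ N) : qCoeff f q ^ 2 = 1 := by
  have hfe := hf.1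
  have hqN := hf.2.1
  obtain ⟨W, hWT, hTr, hTr'⟩ := hT N q hq hqN hq2
  have hper := CongruenceSubgroup.one_mem_strictPeriods_Gamma0 N
  -- `T_ℓ f = a_ℓ f` and `T_ℓ (W f) = a_ℓ (W f)` as functions
  have hTf : ∀ ℓ : ℕ, ℓ.Prime → ¬ ℓ ∣ N →
      ModularForm.heckeT 2 ℓ (⇑f : ℍ → ℂ) = qCoeff f ℓ • (⇑f : ℍ → ℂ) := by
    intro ℓ hℓ hℓN
    have := congrArg (fun F : CuspForm (Gamma0 N) 2 => (⇑F : ℍ → ℂ)) (hET N f hfe ℓ hℓ hℓN)
    simpa using this
  have hTWf : ∀ ℓ : ℕ, ℓ.Prime → ¬ ℓ ∣ N →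
      ModularForm.heckeT 2 ℓ (⇑(W f) : ℍ → ℂ) = qCoeff f ℓ • (⇑(W f) : ℍ → ℂ) := by
    intro ℓ hℓ hℓN
    have h1 := hWT ℓ hℓ hℓN f
    rw [hET N f hfe ℓ hℓ hℓN, map_smul] at h1
    have := congrArg (fun F : CuspForm (Gamma0 N) 2 => (⇑F : ℍ → ℂ)) h1
    simpa using this.symm
  have hcop : ∀ ℓ : ℕ, ℓ.Prime → ¬ ℓ ∣ N → Nat.Coprime ℓ q := by
    intro ℓ hℓ hℓN
    rw [Nat.coprime_primes hℓ hq]
    rintro rfl
    exact hℓN hqN
  -- the two traces
  obtain ⟨G, hG⟩ := hTr f
  obtain ⟨G', hG'⟩ := hTr' f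
  have hG0 : G = 0 := by
    apply eq_zero_of_level_div hO hq hf G
    intro ℓ hℓ hℓN
    rw [hG, ModularForm.heckeT_add,
      ModularFormClass.heckeT_heckeU_comm (W f) hper (hcop ℓ hℓ hℓN), hTf ℓ hℓ hℓN,
      hTWf ℓ hℓ hℓN, ModularForm.heckeU_smul, smul_add]
  have hG'0 : G' = 0 := by
    apply eq_zero_of_level_div hO hq hf G'
    intro ℓ hℓ hℓN
    rw [hG', ModularForm.heckeT_add,
      ModularFormClass.heckeT_heckeU_comm f hper (hcop ℓ hℓ hℓN), hTf ℓ hℓ hℓN,
      hTWf ℓ hℓ hℓN, ModularForm.heckeU_smul, smul_add]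
  have hUf : ModularForm.heckeU 2 q (⇑f : ℍ → ℂ) = qCoeff f q • (⇑f : ℍ → ℂ) := by
    have := congrArg (fun F : CuspForm (Gamma0 N) 2 => (⇑F : ℍ → ℂ)) (hEU N f hfe q hq hqN)
    simpa using this
  -- `W f = - a_q f`
  have hWf : (⇑(W f) : ℍ → ℂ) = -(qCoeff f q • (⇑f : ℍ → ℂ)) := by
    have h0 : (⇑G' : ℍ → ℂ) = 0 := by rw [hG'0]; rfl
    rw [hG', hUf] at h0
    exact eq_neg_of_add_eq_zero_left h0
  -- `f - a_q² f = 0`
  have h0 : (⇑G : ℍ → ℂ) = 0 := by rw [hG0]; rfl
  rw [hG, hWf, ModularForm.heckeU_neg, ModularForm.heckeU_smul, hUf] at h0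
  have hfne := coe_ne_zero_of_isNormalizedEigenform hfe
  have h1 : (1 - qCoeff f q ^ 2) • (⇑f : ℍ → ℂ) = 0 := by
    rw [sub_smul, one_smul, pow_two, mul_smul]
    rw [← sub_eq_add_neg] at h0
    exact h0
  rcases smul_eq_zero.mp h1 with h | h
  · exact (sub_eq_zero.mp h).symm
  · exact absurd h hfne

theorem badCoeffAt_of (hET : EigenT) (hEU : EigenU) (hO : Occurs) (hL : LowerU)
    (hT : TraceAL) : BadCoeffAt :=
  fun _ _ _ _ hq hf =>
    ⟨fun hq2 => qCoeff_sq_eq_one_of hET hEU hO hT hq hf hq2,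
     fun hq2 => qCoeff_eq_zero_of hEU hL hq hf hq2⟩

theorem badCoeff_of (hB : BadCoeffAt) : BadCoeff :=
  fun N _ f hf q hq hqN => hB N f q hq (hf.isNewformAt hq hqN (NeZero.ne N))

end Fermat.Agent.Lib.Newform.H958

end
-- ===== PACK-END Lib/Newform/H958/MainOf.lean

-- ===== PACK-BEGIN S28/H25/ThetaAnalytic.lean
section




/-!
# The `θ`-identity for `j`, analytic part (helper25, S28 piece [A-θ])

In `ℂ⟦q⟧`, with `e4, e6, δ` the `q`-expansions of `E₄, E₆, Δ` and `θ = q d/dq`: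
* `e4 ^ 3 - e6 ^ 2 = 1728 * δ`;
* `3 * e4 ^ 2 * θ e4 * δ - e4 ^ 3 * θ δ = - (e4 ^ 2 * e6 * δ)`.
-/

set_option autoImplicit false

open UpperHalfPlane hiding I
open Function Derivative Complex ModularForm EisensteinSeries
open scoped Manifold MatrixGroups

noncomputable section

namespace Fermat.Agent.S28.H25

/-- Functions on `ℍ` whose cusp function (period `1`) is analytic at `0`. -/
def qAnalytic : Subring (ℍ → ℂ) where
  carrier := {F | AnalyticAt ℂ (cuspFunction 1 F) 0}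
  mul_mem' {f g} hf hg := by
    simp only [Set.mem_ofPred_eq] at hf hg ⊢
    rw [cuspFunction_mul hf.continuousAt hg.continuousAt]
    exact hf.mul hg
  one_mem' := by
    simp only [Set.mem_ofPred_eq]
    have h1 : cuspFunction 1 (1 : ℍ → ℂ) = 1 := by
      ext q
      rcases eq_or_ne q 0 with rfl | hq
      · simpa [cuspFunction, Function.Periodic.cuspFunction] using!
          tendsto_const_nhds.limUnder_eq
      · simp [cuspFunction, Function.Periodic.cuspFunction_eq_of_nonzero 1 _ hq]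
    rw [h1]
    exact analyticAt_const
  add_mem' {f g} hf hg := by
    simp only [Set.mem_ofPred_eq] at hf hg ⊢
    rw [cuspFunction_add hf.continuousAt hg.continuousAt]
    exact hf.add hg
  zero_mem' := by
    simp only [Set.mem_ofPred_eq]
    have h0 : cuspFunction 1 (0 : ℍ → ℂ) = 0 := by
      ext q
      rcases eq_or_ne q 0 with rfl | hq
      · simpa [cuspFunction, Function.Periodic.cuspFunction] using!
          tendsto_const_nhds.limUnder_eq
      · simp [cuspFunction, Function.Periodic.cuspFunction_eq_of_nonzero 1 _ hq]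
    rw [h0]
    exact analyticAt_const
  neg_mem' {f} hf := by
    simp only [Set.mem_ofPred_eq] at hf ⊢
    rw [cuspFunction_neg hf.continuousAt]
    exact hf.neg

theorem mem_qAnalytic_iff {F : ℍ → ℂ} :
    F ∈ qAnalytic ↔ AnalyticAt ℂ (cuspFunction 1 F) 0 := Iff.rfl

/-- The `q`-expansion, as a ring homomorphism on `qAnalytic`. -/
def qExpRingHom : qAnalytic →+* PowerSeries ℂ where
  toFun F := qExpansion 1 (F : ℍ → ℂ)
  map_one' := qExpansion_one 1
  map_mul' F G := qExpansion_mul F.2 G.2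
  map_zero' := qExpansion_zero 1
  map_add' F G := qExpansion_add F.2 G.2

@[simp] theorem qExpRingHom_apply (F : qAnalytic) :
    qExpRingHom F = qExpansion 1 (F : ℍ → ℂ) := rfl

theorem mem_qAnalytic_of_modularForm {k : ℤ} (f : ModularForm 𝒮ℒ k) :
    (f : ℍ → ℂ) ∈ qAnalytic :=
  ModularFormClass.analyticAt_cuspFunction_zero f one_pos one_mem_strictPeriods_SL

theorem periodic_of_modularForm {k : ℤ} (f : ModularForm 𝒮ℒ k) :
    Periodic ((f : ℍ → ℂ) ∘ ofComplex) (1 : ℝ) :=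
  SlashInvariantFormClass.periodic_comp_ofComplex f one_mem_strictPeriods_SL

theorem mem_qAnalytic_D_of_modularForm {k : ℤ} (f : ModularForm 𝒮ℒ k) :
    D (f : ℍ → ℂ) ∈ qAnalytic :=
  analyticAt_cuspFunction_D one_pos (periodic_of_modularForm f) (ModularFormClass.holo f)
    (ModularFormClass.bdd_at_infty f)

theorem qExpansion_D_of_modularForm {k : ℤ} (f : ModularForm 𝒮ℒ k) :
    qExpansion 1 (D (f : ℍ → ℂ)) = thetaP (qExpansion 1 (f : ℍ → ℂ)) :=
  qExpansion_D (periodic_of_modularForm f) (ModularFormClass.holo f)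
    (ModularFormClass.bdd_at_infty f)

/-- `Δ` as a modular form of weight 12 -/
def discForm : ModularForm 𝒮ℒ 12 := (CuspForm.discriminant : CuspForm 𝒮ℒ 12)

theorem coe_discForm : (discForm : ℍ → ℂ) = ModularForm.discriminant := rfl

/-- `e4 ^ 3 - e6 ^ 2 = 1728 δ` in `ℂ⟦q⟧`. -/
theorem qExp_E4_cube_sub_E6_sq :
    qExpansion 1 E₄ ^ 3 - qExpansion 1 E₆ ^ 2 =
      1728 * qExpansion 1 ModularForm.discriminant := by
  let a4 : qAnalytic := ⟨E₄, mem_qAnalytic_of_modularForm E₄⟩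
  let a6 : qAnalytic := ⟨E₆, mem_qAnalytic_of_modularForm E₆⟩
  let aΔ : qAnalytic := ⟨ModularForm.discriminant, mem_qAnalytic_of_modularForm discForm⟩
  have key : a4 ^ 3 - a6 ^ 2 = 1728 * aΔ := by
    apply Subtype.ext
    funext z
    have := Fermat.Agent.S20.L1.E₄_cube_sub_E₆_sq z
    have h3 : ((1728 : qAnalytic) : ℍ → ℂ) z = 1728 := rfl
    push_cast
    simp only [a4, a6, aΔ, Pi.sub_apply, Pi.mul_apply, Pi.pow_apply]
    rw [h3]
    exact this
  have := congrArg qExpRingHom key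
  simpa only [map_sub, map_pow, map_mul, map_ofNat, qExpRingHom_apply] using this

/-- `3 e4² θ(e4) δ - e4³ θ(δ) = - e4² e6 δ` in `ℂ⟦q⟧`. -/
theorem qExp_theta_relation :
    3 * qExpansion 1 E₄ ^ 2 * thetaP (qExpansion 1 E₄) * qExpansion 1 ModularForm.discriminant
      - qExpansion 1 E₄ ^ 3 * thetaP (qExpansion 1 ModularForm.discriminant) =
      - (qExpansion 1 E₄ ^ 2 * qExpansion 1 E₆ * qExpansion 1 ModularForm.discriminant) := by
  let a4 : qAnalytic := ⟨E₄, mem_qAnalytic_of_modularForm E₄⟩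
  let a6 : qAnalytic := ⟨E₆, mem_qAnalytic_of_modularForm E₆⟩
  let aΔ : qAnalytic := ⟨ModularForm.discriminant, mem_qAnalytic_of_modularForm discForm⟩
  let d4 : qAnalytic := ⟨D (E₄ : ℍ → ℂ), mem_qAnalytic_D_of_modularForm E₄⟩
  let dΔ : qAnalytic := ⟨D (ModularForm.discriminant : ℍ → ℂ),
    mem_qAnalytic_D_of_modularForm discForm⟩
  have key : 3 * a4 ^ 2 * d4 * aΔ - a4 ^ 3 * dΔ = - (a4 ^ 2 * a6 * aΔ) := by
    apply Subtype.ext
    funext z
    have h4 := Fermat.Agent.S20.L1.ramanujan_E₄ z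
    have hΔ := Fermat.Agent.S20.L1.ramanujan_discriminant z
    have h3 : ((3 : qAnalytic) : ℍ → ℂ) z = 3 := rfl
    push_cast
    simp only [a4, a6, aΔ, d4, dΔ, Pi.sub_apply, Pi.mul_apply, Pi.pow_apply, Pi.neg_apply]
    rw [h3, h4, hΔ]
    ring
  have := congrArg qExpRingHom key
  simp only [map_sub, map_pow, map_mul, map_neg, map_ofNat, qExpRingHom_apply] at this
  have e1 : qExpansion 1 (D (E₄ : ℍ → ℂ)) = thetaP (qExpansion 1 E₄) :=
    qExpansion_D_of_modularForm E₄
  have e2 : qExpansion 1 (D (ModularForm.discriminant : ℍ → ℂ)) =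
      thetaP (qExpansion 1 ModularForm.discriminant) :=
    qExpansion_D_of_modularForm discForm
  simpa only [a4, a6, aΔ, d4, dΔ, e1, e2] using this

end Fermat.Agent.S28.H25

end
end
-- ===== PACK-END S28/H25/ThetaAnalytic.lean

-- ===== PACK-BEGIN S28/H25/ThetaFormal.lean
section




/-!
# The `θ`-identity for `j`, formal part (helper25, S28 piece [A-θ])

`(θ j)⁶ = Δ · j⁴ · (j - 1728)³` in `ℤ((q))`, for the Prelude's formal `j = jqModC ℤ`,
`Δ = q · dedekindEtaUnit`, `θ = q d/dq`, assuming the two bridges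
* `qExpansion 1 E₄ = eisenstein4` (proved here) and
* `qExpansion 1 Δ = X * dedekindEtaUnit` (hypothesis `DeltaBridge`).
-/

set_option autoImplicit false

open UpperHalfPlane hiding I
open ModularForm EisensteinSeries ModularCurve
open scoped MatrixGroups

noncomputable section

namespace Fermat.Agent.S28.H25

section thetaP

variable {R : Type*} [CommRing R]

theorem thetaP_mul (f g : PowerSeries R) :
    thetaP (f * g) = thetaP f * g + f * thetaP g := by
  unfold thetaP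
  rw [Derivation.leibniz]
  simp only [smul_eq_mul]
  ring

theorem thetaP_X : thetaP (PowerSeries.X : PowerSeries R) = PowerSeries.X := by
  unfold thetaP
  rw [PowerSeries.derivative_X, mul_one]

theorem thetaP_pow_three (f : PowerSeries R) :
    thetaP (f ^ 3) = 3 * f ^ 2 * thetaP f := by
  have : f ^ 3 = f * (f * f) := by ring
  rw [this, thetaP_mul, thetaP_mul]
  ring

theorem thetaP_map {S : Type*} [CommRing S] (φ : R →+* S) (f : PowerSeries R) :
    thetaP (f.map φ) = (thetaP f).map φ := by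
  ext n
  simp [coeff_thetaP]

end thetaP

/-- Pure algebra: the `θ`-identity from the two analytic relations, over a field. -/
theorem theta_identity_of_relations {K : Type*} [Field K]
    (E e6 et eti u : PowerSeries K) (h0 : et * eti = 1) (hu : u = E ^ 3 * eti)
    (hi : E ^ 3 - e6 ^ 2 = 1728 * (PowerSeries.X * et))
    (hii : 3 * E ^ 2 * thetaP E * (PowerSeries.X * et) - E ^ 3 * thetaP (PowerSeries.X * et) =
      - (E ^ 2 * e6 * (PowerSeries.X * et))) :
    (thetaP u - u) ^ 6 = et * u ^ 4 * (u - 1728 * PowerSeries.X) ^ 3 := by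
  have heta : et ≠ 0 := by
    rintro rfl
    simp at h0
  have hX : (PowerSeries.X : PowerSeries K) ≠ 0 := PowerSeries.X_ne_zero
  have hueta : u * et = E ^ 3 := by
    rw [hu]
    linear_combination E ^ 3 * h0
  have hθ : thetaP u * et + u * thetaP et = 3 * E ^ 2 * thetaP E := by
    rw [← thetaP_mul, hueta, thetaP_pow_three]
  have hbr : 3 * E ^ 2 * thetaP E * et - E ^ 3 * et - E ^ 3 * thetaP et + E ^ 2 * e6 * et = 0 := by
    have h1 : PowerSeries.X * (3 * E ^ 2 * thetaP E * et - E ^ 3 * et - E ^ 3 * thetaP et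
        + E ^ 2 * e6 * et) = 0 := by
      rw [thetaP_mul, thetaP_X] at hii
      linear_combination hii
    rcases mul_eq_zero.mp h1 with h | h
    · exact absurd h hX
    · exact h
  have h1 : (thetaP u - u) * et = - (E ^ 2 * e6) := by
    apply mul_right_cancel₀ heta
    linear_combination et * hθ + hbr - (thetaP et + et) * hueta
  have h2 : e6 ^ 2 = et * (u - 1728 * PowerSeries.X) := by
    linear_combination -hi - hueta
  have h3 : ((thetaP u - u) * et) ^ 6 = et ^ 6 * (et * u ^ 4 * (u - 1728 * PowerSeries.X) ^ 3) := by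
    calc ((thetaP u - u) * et) ^ 6 = (- (E ^ 2 * e6)) ^ 6 := by rw [h1]
      _ = (E ^ 3) ^ 4 * (e6 ^ 2) ^ 3 := by ring
      _ = (u * et) ^ 4 * (et * (u - 1728 * PowerSeries.X)) ^ 3 := by rw [hueta, h2]
      _ = et ^ 6 * (et * u ^ 4 * (u - 1728 * PowerSeries.X) ^ 3) := by ring
  apply mul_left_cancel₀ (pow_ne_zero 6 heta)
  rw [← h3]
  ring

/-- Bridge B1: the `q`-expansion of `E₄` is the Prelude's `eisenstein4`. -/
theorem qExpansion_E4_eq_eisenstein4 :
    qExpansion 1 E₄ = eisenstein4.map (Int.castRingHom ℂ) := by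
  ext m
  rw [E_qExpansion_coeff _ ⟨2, rfl⟩]
  simp only [eisenstein4, PowerSeries.coeff_map, PowerSeries.coeff_mk]
  split_ifs with h
  · simp
  · norm_num [show bernoulli 4 = -1 / 30 by decide +kernel, ArithmeticFunction.sigma_apply]

/-- Bridge B2 (to be supplied): the `q`-expansion of `Δ` is `q ∏ (1 - qⁿ)²⁴`. -/
def DeltaBridge : Prop :=
  qExpansion 1 ModularForm.discriminant =
    PowerSeries.X * dedekindEtaUnit.map (Int.castRingHom ℂ)

/-- The `θ`-identity in `ℤ⟦q⟧`: with `u = q · j = E₄³ / ∏(1-qⁿ)²⁴`,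
`(θ u - u)⁶ = ∏(1-qⁿ)²⁴ · u⁴ · (u - 1728 q)³`. -/
theorem theta_identity_powerSeries (hΔ : DeltaBridge) :
    (thetaP jNum - jNum) ^ 6 =
      dedekindEtaUnit * jNum ^ 4 * (jNum - 1728 * PowerSeries.X) ^ 3 := by
  have hinj : Function.Injective (PowerSeries.map (Int.castRingHom ℂ)) := by
    intro f g hfg
    ext n
    have := congrArg (PowerSeries.coeff n) hfg
    simpa using this
  apply hinj
  have hΔ' : qExpansion 1 ModularForm.discriminant =
      PowerSeries.X * dedekindEtaUnit.map (Int.castRingHom ℂ) := hΔ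
  have h := theta_identity_of_relations (K := ℂ) (eisenstein4.map (Int.castRingHom ℂ))
    (qExpansion 1 E₆) (dedekindEtaUnit.map (Int.castRingHom ℂ))
    (dedekindEtaUnitInv.map (Int.castRingHom ℂ)) (jNum.map (Int.castRingHom ℂ))
    (by rw [← map_mul, dedekindEtaUnit_mul_inv, map_one])
    (by rw [jNum, map_mul, map_pow])
    (by rw [← qExpansion_E4_eq_eisenstein4, ← hΔ']; exact qExp_E4_cube_sub_E6_sq)
    (by rw [← qExpansion_E4_eq_eisenstein4, ← hΔ']; exact qExp_theta_relation)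
  simp only [map_pow, map_mul, map_sub, map_ofNat, PowerSeries.map_X, ← thetaP_map]
  exact h

end Fermat.Agent.S28.H25

end
end
-- ===== PACK-END S28/H25/ThetaFormal.lean

-- ===== PACK-BEGIN S18/H516/GaussSpan.lean
section




/-!
# S18 / MOD (helper516): base change of the S28 basis from `ℚ` to an arbitrary field `L ⊇ ℚ`

`F_L := laurentBaseChange L (modularFunctionFieldFull N) ⊆ L((q))` is exactly the `L(j)`-span of
the images of the S28 "monomials" `y i ∈ ℤ[j_d : d ∣ N]`.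
-/

set_option autoImplicit false
set_option linter.unusedSectionVars false

noncomputable section

namespace Fermat.Agent.S18.H516

open ModularCurve HahnSeries IntermediateField Polynomial Fermat.Agent.S28

section CoeffEmb

variable (L : Type*) [Field L] [Algebra ℚ L]

theorem coeffEmb_jq : coeffEmb L jq = jqModC L := by
  rw [← jqModC_rat, coeffEmb, coeffMap_jqModC]

theorem coeffEmb_aeval (x : LaurentSeries ℚ) (r : ℚ[X]) :
    coeffEmb L (aeval x r) = aeval (coeffEmb L x) (r.map (algebraMap ℚ L)) := by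
  rw [aeval_def, aeval_def, hom_eval₂, eval₂_map]
  congr 1
  exact RingHom.ext_rat _ _

/-- `coeffEmb` maps `ℚ(j)` into `L(j)`. -/
theorem coeffEmb_mem_jField {c : LaurentSeries ℚ} (hc : c ∈ jField ℚ) :
    coeffEmb L c ∈ jField L := by
  rw [jField, mem_adjoin_simple_iff] at hc
  obtain ⟨r, s, rfl⟩ := hc
  have hj : coeffEmb L (jqModC ℚ) = jqModC L := by
    rw [coeffEmb, coeffMap_jqModC]
  rw [map_div₀, coeffEmb_aeval, coeffEmb_aeval, hj]
  rw [jField, mem_adjoin_simple_iff]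
  exact ⟨_, _, rfl⟩

theorem coeffMap_intCast_eq_coeffEmb (y : LaurentSeries ℤ) :
    coeffMap (Int.castRingHom L) y = coeffEmb L (coeffMap (Int.castRingHom ℚ) y) := by
  rw [coeffEmb, coeffMap_coeffMap]
  exact coeffMap_congr (RingHom.ext_int _ _) y

end CoeffEmb

section Closure

variable (R : Type*) [CommRing R] (N : ℕ)

/-- The generators `j(q^d)`, `d ∣ N` over an arbitrary ring. -/
theorem coeffMap_mem_of_mem_closure {K : Type*} [Field K] [NeZero N] {y : LaurentSeries ℤ}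
    (hy : y ∈ Subring.closure (intDivisorExpansions N)) :
    coeffMap (Int.castRingHom K) y ∈ modularFunctionFieldFullC K N := by
  induction hy using Subring.closure_induction with
  | mem x hx =>
    obtain ⟨d, hd, hdN, rfl⟩ := hx
    rw [coeffMap_qExpand, coeffMap_jqModC]
    exact jqModCd_mem_full K N hdN
  | zero => rw [map_zero]; exact zero_mem _
  | one => rw [map_one]; exact one_mem _
  | add x y _ _ hx hy => rw [map_add]; exact add_mem hx hy
  | neg x _ hx => rw [map_neg]; exact neg_mem hx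
  | mul x y _ _ hx hy => rw [map_mul]; exact mul_mem hx hy

end Closure

section Span

variable (L : Type*) [Field L] [Algebra ℚ L] (N : ℕ) [NeZero N]
variable {n : ℕ} (y : Fin n → LaurentSeries ℤ)

/-- The `L(j)`-span of the base-changed monomials. -/
def spanL : Submodule (jField L) (LaurentSeries L) :=
  Submodule.span (jField L) (Set.range fun i => coeffMap (Int.castRingHom L) (y i))

/-- Hypothesis package extracted from `CoreData.exists_basis` (char-0 half). -/
def SpansQ : Prop :=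
  (∀ i, y i ∈ Subring.closure (intDivisorExpansions N)) ∧
    ∀ x ∈ modularFunctionFieldFull N,
      x ∈ Submodule.span (jField ℚ) (Set.range fun i => coeffMap (Int.castRingHom ℚ) (y i))

variable {N y}

omit [Algebra ℚ L] in
theorem yL_mem_spanL (i : Fin n) : coeffMap (Int.castRingHom L) (y i) ∈ spanL L y :=
  Submodule.subset_span ⟨i, rfl⟩

theorem coeffEmb_mem_spanL (h : SpansQ N y) {x : LaurentSeries ℚ}
    (hx : x ∈ modularFunctionFieldFull N) : coeffEmb L x ∈ spanL L y := by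
  have hx' := h.2 x hx
  clear hx
  induction hx' using Submodule.span_induction with
  | mem z hz =>
    obtain ⟨i, rfl⟩ := hz
    rw [← coeffMap_intCast_eq_coeffEmb L (y i)]
    exact yL_mem_spanL L i
  | zero => rw [map_zero]; exact zero_mem _
  | add a b _ _ ha hb => rw [map_add]; exact add_mem ha hb
  | smul c a _ ha =>
    have : coeffEmb L (c • a) = (⟨coeffEmb L c, coeffEmb_mem_jField L c.2⟩ : jField L) •
        coeffEmb L a := by
      show coeffEmb L ((c : LaurentSeries ℚ) * a) = coeffEmb L c * coeffEmb L a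
      rw [map_mul]
    rw [this]
    exact Submodule.smul_mem _ _ ha

theorem yQ_mem_full (h : SpansQ N y) (i : Fin n) :
    coeffMap (Int.castRingHom ℚ) (y i) ∈ modularFunctionFieldFull N := by
  have := coeffMap_mem_of_mem_closure (K := ℚ) N (h.1 i)
  rwa [modularFunctionFieldFullC_rat] at this

theorem one_mem_spanL (h : SpansQ N y) : (1 : LaurentSeries L) ∈ spanL L y := by
  have := coeffEmb_mem_spanL L h (one_mem (modularFunctionFieldFull N))
  rwa [map_one] at this

theorem mul_mem_spanL (h : SpansQ N y) {a b : LaurentSeries L} (ha : a ∈ spanL L y)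
    (hb : b ∈ spanL L y) : a * b ∈ spanL L y := by
  induction ha using Submodule.span_induction with
  | mem z hz =>
    obtain ⟨i, rfl⟩ := hz
    induction hb using Submodule.span_induction with
    | mem w hw =>
      obtain ⟨j, rfl⟩ := hw
      show coeffMap (Int.castRingHom L) (y i) * coeffMap (Int.castRingHom L) (y j) ∈ _
      rw [coeffMap_intCast_eq_coeffEmb L (y i), coeffMap_intCast_eq_coeffEmb L (y j), ← map_mul]
      exact coeffEmb_mem_spanL L h (mul_mem (yQ_mem_full h i) (yQ_mem_full h j))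
    | zero => rw [mul_zero]; exact zero_mem _
    | add a b _ _ ha hb => rw [mul_add]; exact add_mem ha hb
    | smul c a _ ha =>
      have : (fun i => coeffMap (Int.castRingHom L) (y i)) i * (c • a) =
          c • ((fun i => coeffMap (Int.castRingHom L) (y i)) i * a) := by
        show _ * ((c : LaurentSeries L) * a) = (c : LaurentSeries L) * (_ * a)
        ring
      rw [this]
      exact Submodule.smul_mem _ _ ha
  | zero => rw [zero_mul]; exact zero_mem _
  | add a b _ _ ha hb => rw [add_mul]; exact add_mem ha hb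
  | smul c a _ ha =>
    have : (c • a) * b = c • (a * b) := by
      show ((c : LaurentSeries L) * a) * b = (c : LaurentSeries L) * (a * b)
      ring
    rw [this]
    exact Submodule.smul_mem _ _ ha

/-- The span as a subalgebra over `L(j)`. -/
def spanAlg (h : SpansQ N y) : Subalgebra (jField L) (LaurentSeries L) where
  carrier := spanL L y
  mul_mem' := fun ha hb => mul_mem_spanL L h ha hb
  add_mem' := fun ha hb => add_mem ha hb
  algebraMap_mem' c := by
    have : algebraMap (jField L) (LaurentSeries L) c = c • (1 : LaurentSeries L) := by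
      rw [Algebra.smul_def, mul_one]
    rw [this]
    exact Submodule.smul_mem _ _ (one_mem_spanL L h)

theorem mem_spanAlg (h : SpansQ N y) {x : LaurentSeries L} :
    x ∈ spanAlg L h ↔ x ∈ spanL L y := Iff.rfl

theorem inv_mem_spanL (h : SpansQ N y) {x : LaurentSeries L} (hx : x ∈ spanL L y) :
    x⁻¹ ∈ spanL L y := by
  have hfin : Module.Finite (jField L) (spanAlg L h) := by
    have : Module.Finite (jField L) (spanL L y) :=
      Module.Finite.span_of_finite _ (Set.finite_range _)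
    exact this
  have hint : IsIntegral (jField L) (⟨x, hx⟩ : spanAlg L h) := IsIntegral.of_finite _ _
  have halg : IsAlgebraic (jField L) ((⟨x, hx⟩ : spanAlg L h) : LaurentSeries L) :=
    (hint.isAlgebraic).algebraMap (A := LaurentSeries L)
  exact (spanAlg L h).inv_mem_of_algebraic (x := ⟨x, hx⟩) halg

/-- The span as an intermediate field of `L((q))/L`. -/
def spanField (h : SpansQ N y) : IntermediateField L (LaurentSeries L) where
  carrier := spanL L y
  mul_mem' := fun ha hb => mul_mem_spanL L h ha hb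
  add_mem' := fun ha hb => add_mem ha hb
  one_mem' := one_mem_spanL L h
  zero_mem' := zero_mem _
  algebraMap_mem' c := by
    have hc : algebraMap L (LaurentSeries L) c ∈ jField L := (jField L).algebraMap_mem c
    have : algebraMap L (LaurentSeries L) c =
        (⟨_, hc⟩ : jField L) • (1 : LaurentSeries L) := by
      show _ = algebraMap L (LaurentSeries L) c * 1
      rw [mul_one]
    rw [this]
    exact Submodule.smul_mem _ _ (one_mem_spanL L h)
  inv_mem' := fun x hx => inv_mem_spanL L h hx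

theorem jField_le_baseChange : jField L ≤ laurentBaseChange L (modularFunctionFieldFull N) := by
  rw [jField, adjoin_le_iff]
  rintro x rfl
  have hj : jq ∈ modularFunctionFieldFull N := modularFunctionField_le_full N (jq_mem N)
  have := coeffEmb_mem_laurentBaseChange L hj
  rwa [coeffEmb_jq] at this

/-- **Base change of the S28 basis.** `F_L` is the `L(j)`-span of the monomials. -/
theorem mem_baseChange_iff_mem_spanL (h : SpansQ N y) {x : LaurentSeries L} :
    x ∈ laurentBaseChange L (modularFunctionFieldFull N) ↔ x ∈ spanL L y := by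
  constructor
  · intro hx
    have hle : laurentBaseChange L (modularFunctionFieldFull N) ≤ spanField L h := by
      rw [laurentBaseChange, adjoin_le_iff]
      rintro z ⟨w, hw, rfl⟩
      exact coeffEmb_mem_spanL L h hw
    exact hle hx
  · intro hx
    induction hx using Submodule.span_induction with
    | mem z hz =>
      obtain ⟨i, rfl⟩ := hz
      show coeffMap (Int.castRingHom L) (y i) ∈ _
      rw [coeffMap_intCast_eq_coeffEmb L (y i)]
      exact coeffEmb_mem_laurentBaseChange L (yQ_mem_full h i)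
    | zero => exact zero_mem _
    | add a b _ _ ha hb => exact add_mem ha hb
    | smul c a _ ha =>
      exact mul_mem (jField_le_baseChange L c.2) ha

end Span

end Fermat.Agent.S18.H516

end
end
-- ===== PACK-END S18/H516/GaussSpan.lean

-- ===== PACK-BEGIN S18/H516/GaussDecomp.lean
section






/-!
# S18 / MOD (helper516): Gauss decomposition from the S28 basis

`A` a valuation subring of a field `L ⊇ ℚ`, `π : A →+* k` any ring hom to a field `k`
such that `CoreData N k` holds (S28; true when `char k ∤ N`).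

* `exists_gauss_decomp` (G4): every `f ≠ 0` in `F_L` is `c · U₁ / U₂` with `U₁, U₂ ∈ A((q))`,
  images in `F_L`, reductions in `F_k` and nonzero.  (This is `PrincipalGeneratedByIntegral`
  as a theorem, valid at every level.)
* `red_mem_of_incl_mem` (G5): `U ∈ A((q))` with image in `F_L` has reduction in `F_k`.
-/

set_option autoImplicit false
set_option linter.unusedSectionVars false

noncomputable section

namespace Fermat.Agent.S18.H516

open ModularCurve IntermediateField Polynomial Fermat.Agent.S28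

section Scale

variable {L : Type*} [Field L] (A : ValuationSubring L)

/-- Joint scaling of a finite family of polynomials over the fraction field of a valuation ring:
after division by a suitable constant all coefficients are integral and one of them is `1`. -/
theorem exists_scale {n : ℕ} (H : Fin n → L[X]) (hH : ∃ i, H i ≠ 0) :
    ∃ (c : L) (H' : Fin n → A[X]), c ≠ 0 ∧
      (∀ i, (H' i).map A.subtype = C c⁻¹ * H i) ∧ ∃ i m, (H' i).coeff m = 1 := by
  classical
  set T : Finset (Σ _ : Fin n, ℕ) := Finset.univ.sigma (fun i => (H i).support) with hT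
  have hTne : T.Nonempty := by
    obtain ⟨i, hi⟩ := hH
    obtain ⟨m, hm⟩ : (H i).support.Nonempty := by
      rw [Finset.nonempty_iff_ne_empty, Ne, Polynomial.support_eq_empty]
      exact hi
    exact ⟨⟨i, m⟩, by simp [hT, hm]⟩
  obtain ⟨⟨i0, m0⟩, h0T, hmax⟩ := Finset.exists_max_image T
    (fun p => A.valuation ((H p.1).coeff p.2)) hTne
  have hc : (H i0).coeff m0 ≠ 0 := by
    have : m0 ∈ (H i0).support := by simpa [hT] using h0T
    exact Polynomial.mem_support_iff.mp this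
  set c : L := (H i0).coeff m0 with hcdef
  have hmem : ∀ i m, c⁻¹ * (H i).coeff m ∈ A := by
    intro i m
    by_cases h0 : (H i).coeff m = 0
    · rw [h0, mul_zero]; exact zero_mem _
    · have hT' : (⟨i, m⟩ : Σ _ : Fin n, ℕ) ∈ T := by
        simp [hT, Polynomial.mem_support_iff, h0]
      have hle := hmax ⟨i, m⟩ hT'
      rw [← A.valuation_le_one_iff, map_mul, map_inv₀]
      have hvc : A.valuation c ≠ 0 := (_root_.map_ne_zero _).mpr hc
      rw [inv_mul_le_iff₀ (zero_lt_iff.mpr hvc), mul_one]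
      exact hle
  have hsub : ∀ i, (↑(C c⁻¹ * H i).coeffs : Set L) ⊆ A.toSubring := by
    intro i x hx
    rw [Finset.mem_coe, Polynomial.mem_coeffs_iff] at hx
    obtain ⟨m, -, rfl⟩ := hx
    rw [Polynomial.coeff_C_mul]
    exact hmem i m
  refine ⟨c, fun i => (C c⁻¹ * H i).toSubring A.toSubring (hsub i), hc,
    fun i => Polynomial.map_toSubring _ A.toSubring (hsub i), i0, m0, ?_⟩
  apply Subtype.ext
  rw [Polynomial.coeff_toSubring, Polynomial.coeff_C_mul]
  show c⁻¹ * c = 1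
  exact inv_mul_cancel₀ hc

end Scale

section Eval

variable {R S : Type*} [CommRing R] [CommRing S]

theorem coeffMap_C (f : R →+* S) (a : R) :
    coeffMap f (HahnSeries.C (Γ := ℤ) a) = HahnSeries.C (f a) := by
  rw [HahnSeries.C_apply, HahnSeries.C_apply, coeffMap_single]

/-- Evaluation of a polynomial at `j ∈ R((q))`. -/
def evJ (P : R[X]) : LaurentSeries R := P.eval₂ (HahnSeries.C (Γ := ℤ) (R := R)) (jqModC R)

theorem coeffMap_evJ (f : R →+* S) (P : R[X]) : coeffMap f (evJ P) = evJ (P.map f) := by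
  rw [evJ, evJ, hom_eval₂, eval₂_map, coeffMap_jqModC]
  congr 1
  ext a
  exact congrArg (fun z : LaurentSeries S => z.coeff _) (coeffMap_C f a)

theorem evJ_add (P Q : R[X]) : evJ (P + Q) = evJ P + evJ Q := eval₂_add _ _

theorem evJ_mul (P Q : R[X]) : evJ (P * Q) = evJ P * evJ Q := eval₂_mul _ _

theorem evJ_C (a : R) : evJ (C a) = HahnSeries.C a := eval₂_C _ _

theorem evJ_zero : evJ (0 : R[X]) = 0 := eval₂_zero _ _

theorem evJ_one : evJ (1 : R[X]) = 1 := eval₂_one _ _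

theorem evJ_prod {ι : Type*} (s : Finset ι) (g : ι → R[X]) :
    evJ (∏ i ∈ s, g i) = ∏ i ∈ s, evJ (g i) :=
  eval₂_finsetProd _ _ _ _

end Eval

section Field

variable (K : Type*) [Field K]

theorem aeval_eq_evJ (Q : K[X]) : aeval (jqModC K) Q = evJ Q := by
  rw [aeval_def, evJ]
  congr 1
  ext a
  rw [algebraMap_laurentSeries_eq_single, HahnSeries.C_apply]

theorem evJ_eq_zero_iff {Q : K[X]} : evJ Q = 0 ↔ Q = 0 := by
  constructor
  · intro h
    exact Fermat.Agent.S28.H806.eq_zero_of_eval₂_C_eq_zero (jqModC K)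
      (Fermat.Agent.S28.H806.jqModC_order_ne_zero K) Q h
  · rintro rfl
    exact evJ_zero

theorem evJ_mem_jField (Q : K[X]) : evJ Q ∈ jField K := by
  rw [← aeval_eq_evJ, jField, mem_adjoin_simple_iff]
  exact ⟨Q, 1, by simp⟩

theorem exists_fraction {c : LaurentSeries K} (hc : c ∈ jField K) :
    ∃ r s : K[X], s ≠ 0 ∧ evJ s * c = evJ r := by
  rw [jField, mem_adjoin_simple_iff] at hc
  obtain ⟨r, s, rfl⟩ := hc
  by_cases hs : s = 0
  · refine ⟨0, 1, one_ne_zero, ?_⟩
    rw [hs, map_zero, div_zero, mul_zero, evJ_zero]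
  · refine ⟨r, s, hs, ?_⟩
    have hs' : aeval (jqModC K) s ≠ 0 := by
      rw [aeval_eq_evJ]
      exact fun h => hs (evJ_eq_zero_iff K |>.mp h)
    rw [← aeval_eq_evJ, ← aeval_eq_evJ]
    field_simp

/-- Clearing denominators in a `K(j)`-linear combination. -/
theorem exists_cleared {n : ℕ} (v : Fin n → LaurentSeries K) {x : LaurentSeries K}
    (hx : x ∈ Submodule.span (jField K) (Set.range v)) :
    ∃ (G : K[X]) (H : Fin n → K[X]), G ≠ 0 ∧ evJ G * x = ∑ i, evJ (H i) * v i := by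
  classical
  obtain ⟨c, rfl⟩ := (Submodule.mem_span_range_iff_exists_fun (jField K)).mp hx
  have hc : ∀ i, ∃ r s : K[X], s ≠ 0 ∧ evJ s * (c i : LaurentSeries K) = evJ r :=
    fun i => exists_fraction K (c i).2
  choose r s hs hrs using hc
  refine ⟨∏ i, s i, fun i => r i * ∏ j ∈ Finset.univ.erase i, s j, ?_, ?_⟩
  · exact Finset.prod_ne_zero_iff.mpr fun i _ => hs i
  · rw [Finset.mul_sum]
    refine Finset.sum_congr rfl fun i _ => ?_
    rw [← Finset.mul_prod_erase Finset.univ s (Finset.mem_univ i), evJ_mul, evJ_mul,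
      IntermediateField.smul_def, smul_eq_mul, ← hrs i]
    ring

end Field

section Decomp

variable {L : Type*} [Field L] [Algebra ℚ L] (A : ValuationSubring L)
variable {k : Type} [Field k] (π : A →+* k) (N : ℕ) [NeZero N]

/-- Integral series: image in `F_L`, reduction in `F_k` and nonzero. -/
def IsIntSeries (U : LaurentSeries A) : Prop :=
  coeffMap A.subtype U ∈ laurentBaseChange L (modularFunctionFieldFull N) ∧
    coeffMap π U ∈ modularFunctionFieldFullC k N ∧ coeffMap π U ≠ 0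

omit [Algebra ℚ L] in
theorem incl_injective : Function.Injective (coeffMap A.subtype) := by
  intro x y hxy
  ext m
  have := congrArg (fun z : LaurentSeries L => z.coeff m) hxy
  exact this

theorem jField_le_fullC (K : Type*) [Field K] : jField K ≤ modularFunctionFieldFullC K N := by
  rw [jField, adjoin_le_iff]
  rintro x rfl
  exact jqModC_mem_full K N

theorem C_mem_baseChange (c : L) :
    HahnSeries.C (Γ := ℤ) c ∈ laurentBaseChange L (modularFunctionFieldFull N) := by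
  have := (laurentBaseChange L (modularFunctionFieldFull N)).algebraMap_mem c
  rwa [algebraMap_laurentSeries_eq_single, ← HahnSeries.C_apply] at this

/-- **(G4) Gauss decomposition.** -/
theorem exists_gauss_decomp (core : CoreData N k) {f : LaurentSeries L}
    (hf : f ∈ laurentBaseChange L (modularFunctionFieldFull N)) (hf0 : f ≠ 0) :
    ∃ (c : L) (U₁ U₂ : LaurentSeries A), c ≠ 0 ∧ IsIntSeries A π N U₁ ∧ IsIntSeries A π N U₂ ∧
      f * coeffMap A.subtype U₂ = HahnSeries.C c * coeffMap A.subtype U₁ := by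
  classical
  obtain ⟨n, y, hy, hspan, hli⟩ := core.exists_basis
  have hS : SpansQ N y := ⟨hy, hspan⟩
  have hfs := (mem_baseChange_iff_mem_spanL L hS).mp hf
  obtain ⟨G, H, hG, hGH⟩ := exists_cleared L _ hfs
  have hGne : evJ G ≠ 0 := fun h => hG ((evJ_eq_zero_iff L).mp h)
  have hH : ∃ i, H i ≠ 0 := by
    by_contra hcon
    push Not at hcon
    have : evJ G * f = 0 := by
      rw [hGH]
      exact Finset.sum_eq_zero fun i _ => by rw [hcon i, evJ_zero, zero_mul]
    rcases mul_eq_zero.mp this with h | h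
    · exact hGne h
    · exact hf0 h
  obtain ⟨g0, G', hg0, hG', i1, m1, hG1⟩ := exists_scale A (fun _ : Fin 1 => G) ⟨0, hG⟩
  obtain rfl : i1 = 0 := Subsingleton.elim _ _
  obtain ⟨h0, H', hh0, hH', i0, m0, hH1⟩ := exists_scale A H hH
  set U₂ : LaurentSeries A := evJ (G' 0) with hU₂
  set U₁ : LaurentSeries A := ∑ i, evJ (H' i) * coeffMap (Int.castRingHom A) (y i) with hU₁
  have hU₂L : coeffMap A.subtype U₂ = HahnSeries.C g0⁻¹ * evJ G := by
    rw [hU₂, coeffMap_evJ, hG' 0, evJ_mul, evJ_C]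
  have hU₁L : coeffMap A.subtype U₁ =
      HahnSeries.C h0⁻¹ * ∑ i, evJ (H i) * coeffMap (Int.castRingHom L) (y i) := by
    rw [hU₁, map_sum, Finset.mul_sum]
    refine Finset.sum_congr rfl fun i _ => ?_
    rw [map_mul, coeffMap_evJ, hH' i, evJ_mul, evJ_C, coeffMap_coeffMap,
      show (A.subtype.comp (Int.castRingHom A)) = Int.castRingHom L from RingHom.ext_int _ _]
    ring
  have hU₁k : coeffMap π U₁ =
      ∑ i, evJ ((H' i).map π) * coeffMap (Int.castRingHom k) (y i) := by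
    rw [hU₁, map_sum]
    refine Finset.sum_congr rfl fun i _ => ?_
    rw [map_mul, coeffMap_evJ, coeffMap_coeffMap,
      show (π.comp (Int.castRingHom A)) = Int.castRingHom k from RingHom.ext_int _ _]
  have hU₂k : coeffMap π U₂ = evJ ((G' 0).map π) := by
    rw [hU₂, coeffMap_evJ]
  refine ⟨h0 * g0⁻¹, U₁, U₂, mul_ne_zero hh0 (inv_ne_zero hg0), ⟨?_, ?_, ?_⟩, ⟨?_, ?_, ?_⟩, ?_⟩
  · rw [hU₁L, ← hGH]
    exact mul_mem (C_mem_baseChange N _)
      (mul_mem (jField_le_baseChange L (evJ_mem_jField L G)) hf)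
  · rw [hU₁k]
    refine sum_mem fun i _ => mul_mem (jField_le_fullC N k (evJ_mem_jField k _)) ?_
    exact coeffMap_mem_of_mem_closure N (hy i)
  · rw [hU₁k]
    intro h0'
    have hli' := Fintype.linearIndependent_iff.mp hli
      (fun i => (⟨evJ ((H' i).map π), evJ_mem_jField k _⟩ : jField k)) h0' i0
    have h1 : evJ ((H' i0).map π) = 0 := congrArg Subtype.val hli'
    have h2 := (evJ_eq_zero_iff k).mp h1
    have h3 := congrArg (fun P : k[X] => P.coeff m0) h2
    simp only [Polynomial.coeff_map, Polynomial.coeff_zero, hH1, map_one] at h3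
    exact one_ne_zero h3
  · rw [hU₂L]
    exact mul_mem (C_mem_baseChange N _) (jField_le_baseChange L (evJ_mem_jField L G))
  · rw [hU₂k]
    exact jField_le_fullC N k (evJ_mem_jField k _)
  · rw [hU₂k]
    intro h1
    have h2 := (evJ_eq_zero_iff k).mp h1
    have h3 := congrArg (fun P : k[X] => P.coeff m1) h2
    simp only [Polynomial.coeff_map, Polynomial.coeff_zero, hG1, map_one] at h3
    exact one_ne_zero h3
  · rw [hU₂L, hU₁L, ← hGH, map_mul]
    have hC : HahnSeries.C (Γ := ℤ) h0 * HahnSeries.C h0⁻¹ = 1 := by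
      rw [← map_mul, mul_inv_cancel₀ hh0, map_one]
    calc f * (HahnSeries.C g0⁻¹ * evJ G)
        = (HahnSeries.C (Γ := ℤ) h0 * HahnSeries.C h0⁻¹) * (HahnSeries.C g0⁻¹ * (evJ G * f)) := by
          rw [hC]; ring
      _ = HahnSeries.C h0 * HahnSeries.C g0⁻¹ * (HahnSeries.C h0⁻¹ * (evJ G * f)) := by ring

theorem C_mem_fullC (K : Type*) [Field K] (c : K) :
    HahnSeries.C (Γ := ℤ) c ∈ modularFunctionFieldFullC K N := by
  have := (modularFunctionFieldFullC K N).algebraMap_mem c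
  rwa [algebraMap_laurentSeries_eq_single, ← HahnSeries.C_apply] at this

/-- **(G5)** A series with coefficients in `A` lying in `F_L` reduces into `F_k`. -/
theorem red_mem_of_incl_mem (core : CoreData N k) {U : LaurentSeries A}
    (hU : coeffMap A.subtype U ∈ laurentBaseChange L (modularFunctionFieldFull N)) :
    coeffMap π U ∈ modularFunctionFieldFullC k N := by
  by_cases hU0 : U = 0
  · rw [hU0, map_zero]; exact zero_mem _
  have hU0' : coeffMap A.subtype U ≠ 0 := fun h => hU0 (incl_injective A (by rw [h, map_zero]))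
  obtain ⟨c, U₁, U₂, hc, h₁, h₂, heq⟩ := exists_gauss_decomp A π N core hU hU0'
  rcases A.mem_or_inv_mem c with hcA | hcA
  · have h1 : U * U₂ = HahnSeries.C ⟨c, hcA⟩ * U₁ := by
      apply incl_injective A
      rw [map_mul, map_mul, coeffMap_C, heq]
      rfl
    have hk := congrArg (coeffMap π) h1
    rw [map_mul, map_mul, coeffMap_C] at hk
    have h2 : coeffMap π U =
        HahnSeries.C (π ⟨c, hcA⟩) * coeffMap π U₁ * (coeffMap π U₂)⁻¹ := by
      rw [← hk, mul_assoc, mul_inv_cancel₀ h₂.2.2, mul_one]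
    rw [h2]
    exact mul_mem (mul_mem (C_mem_fullC N k _) h₁.2.1) (inv_mem h₂.2.1)
  · have h1 : HahnSeries.C ⟨c⁻¹, hcA⟩ * (U * U₂) = U₁ := by
      apply incl_injective A
      rw [map_mul, map_mul, coeffMap_C, heq]
      show HahnSeries.C c⁻¹ * (HahnSeries.C c * _) = _
      rw [← mul_assoc, ← map_mul, inv_mul_cancel₀ hc, map_one, one_mul]
    have hk := congrArg (coeffMap π) h1
    rw [map_mul, map_mul, coeffMap_C] at hk
    have hne : HahnSeries.C (Γ := ℤ) (π ⟨c⁻¹, hcA⟩) ≠ 0 := by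
      intro h0
      rw [h0, zero_mul] at hk
      exact h₁.2.2 hk.symm
    have h2 : coeffMap π U =
        (HahnSeries.C (Γ := ℤ) (π ⟨c⁻¹, hcA⟩))⁻¹ * coeffMap π U₁ * (coeffMap π U₂)⁻¹ := by
      rw [← hk, ← mul_assoc, inv_mul_cancel₀ hne, one_mul, mul_assoc,
        mul_inv_cancel₀ h₂.2.2, mul_one]
    rw [h2]
    exact mul_mem (mul_mem (inv_mem (C_mem_fullC N k _)) h₁.2.1) (inv_mem h₂.2.1)

end Decomp

end Fermat.Agent.S18.H516

end
end
-- ===== PACK-END S18/H516/GaussDecomp.lean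

-- ===== PACK-BEGIN S28/H505/LevelOne.lean
section



open UpperHalfPlane ModularForm EisensteinSeries Filter Topology MatrixGroups
  SlashInvariantForm SlashInvariantFormClass ModularFormClass CuspFormClass
open scoped PowerSeries.WithPiTopology

namespace Fermat.Agent.S28.H505

/-- the modular `j`-function (normalised as `q⁻¹ + 744 + ⋯`) -/
noncomputable def jFun (z : ℍ) : ℂ := E₄ z ^ 3 / ModularForm.discriminant z

/-- formal `E₄` over `ℂ` -/
noncomputable def e4C : PowerSeries ℂ := ModularCurve.eisenstein4.map (Int.castRingHom ℂ)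

/-- formal `Δ` over `ℂ` -/
noncomputable def deltaC : PowerSeries ℂ :=
  PowerSeries.X * (ModularCurve.etaProd.map (Int.castRingHom ℂ)) ^ 24

theorem qExpansion_E₄_eq_e4C : qExpansion 1 E₄ = e4C := qExpansion_E₄_eq

theorem qExpansion_discriminant_eq_deltaC : qExpansion 1 ModularForm.discriminant = deltaC :=
  qExpansion_discriminant_eq

theorem ofPowerSeries_e4C_pow_three :
    (HahnSeries.ofPowerSeries ℤ ℂ e4C) ^ 3 =
      ModularCurve.jqModC ℂ * HahnSeries.ofPowerSeries ℤ ℂ deltaC := by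
  have h1 : ModularCurve.jNum * ModularCurve.etaProd ^ 24 = ModularCurve.eisenstein4 ^ 3 := by
    have := ModularCurve.dedekindEtaUnit_mul_inv
    rw [ModularCurve.dedekindEtaUnit] at this
    rw [ModularCurve.jNum, mul_assoc, mul_comm ModularCurve.dedekindEtaUnitInv, this, mul_one]
  have h2 := congrArg (PowerSeries.map (Int.castRingHom ℂ)) h1
  rw [map_mul, map_pow, map_pow] at h2
  have h3 : HahnSeries.ofPowerSeries ℤ ℂ deltaC =
      HahnSeries.single (1 : ℤ) (1 : ℂ) *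
        HahnSeries.ofPowerSeries ℤ ℂ ((ModularCurve.etaProd.map (Int.castRingHom ℂ)) ^ 24) := by
    rw [deltaC, map_mul, HahnSeries.ofPowerSeries_X]
  rw [h3, ModularCurve.jqModC, e4C, ← map_pow, ← h2, map_mul]
  have h4 : HahnSeries.single (-1 : ℤ) (1 : ℂ) * HahnSeries.single (1 : ℤ) (1 : ℂ) = 1 := by
    rw [HahnSeries.single_mul_single]; simp
  calc _ = (HahnSeries.single (-1 : ℤ) (1 : ℂ) * HahnSeries.single (1 : ℤ) (1 : ℂ)) *
        (HahnSeries.ofPowerSeries ℤ ℂ (ModularCurve.jNum.map (Int.castRingHom ℂ)) *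
        HahnSeries.ofPowerSeries ℤ ℂ ((ModularCurve.etaProd.map (Int.castRingHom ℂ)) ^ 24)) := by
          rw [h4, one_mul]
    _ = _ := by ring


theorem algebraMap_laurent_eq_C (c : ℂ) :
    algebraMap ℂ (LaurentSeries ℂ) c = HahnSeries.C c := by
  rw [HahnSeries.algebraMap_apply']
  simp

theorem aeval_laurent_eq_eval₂ (x : LaurentSeries ℂ) (P : Polynomial ℂ) :
    Polynomial.aeval x P = Polynomial.eval₂ HahnSeries.C x P := by
  rw [Polynomial.aeval_def]
  congr 1
  ext c : 1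
  exact algebraMap_laurent_eq_C c

theorem e4C_coeff_zero : e4C.coeff 0 = 1 := by
  rw [← qExpansion_E₄_eq_e4C]
  exact E_qExpansion_coeff_zero (by norm_num) (by decide)

/-- `E₄ ^ n` as a modular form of weight `k = 4 n`. -/
noncomputable def E4pow (n : ℕ) (k : ℤ) (hk : (n : ℤ) * 4 = k) : ModularForm 𝒮ℒ k :=
  ModularForm.mcast hk (E₄.pow n)

theorem E4pow_apply (n : ℕ) (k : ℤ) (hk : (n : ℤ) * 4 = k) (z : ℍ) :
    E4pow n k hk z = E₄ z ^ n := by
  simp [E4pow]

theorem qExpansion_E4pow (n : ℕ) (k : ℤ) (hk : (n : ℤ) * 4 = k) :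
    qExpansion 1 (E4pow n k hk) = e4C ^ n := by
  rw [E4pow, ModularForm.qExpansion_mcast,
    ModularForm.qExpansion_pow one_pos one_mem_strictPeriods_SL, qExpansion_E₄_eq_e4C]

theorem levelOne_structure (m : ℕ) : ∀ (k : ℤ) (_ : k = 12 * m) (F : ModularForm 𝒮ℒ k),
    ∃ P : Polynomial ℂ, P.natDegree ≤ m ∧
      (∀ z : ℍ, F z = ModularForm.discriminant z ^ m * P.eval (jFun z)) ∧
      (HahnSeries.ofPowerSeries ℤ ℂ (qExpansion 1 F) =
        (HahnSeries.ofPowerSeries ℤ ℂ deltaC) ^ m *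
          Polynomial.aeval (ModularCurve.jqModC ℂ) P) := by
  induction m with
  | zero =>
    intro k hk F
    simp only [Nat.cast_zero, mul_zero] at hk
    subst hk
    obtain ⟨c, hc⟩ := levelOne_weight_zero_const F
    refine ⟨Polynomial.C c, by simp, fun z => by simp [hc], ?_⟩
    have h1 : qExpansion 1 F = PowerSeries.C c := by
      have : (F : ℍ → ℂ) = c • ⇑(1 : ModularForm 𝒮ℒ 0) := by
        rw [hc]; ext z; simp
      rw [this, ModularForm.qExpansion_smul one_pos one_mem_strictPeriods_SL,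
        ModularForm.qExpansion_one, PowerSeries.smul_eq_C_mul, mul_one]
    rw [h1, HahnSeries.ofPowerSeries_C, pow_zero, one_mul, Polynomial.aeval_C,
      algebraMap_laurent_eq_C]
  | succ m ih =>
    intro k hk F
    set c₀ : ℂ := (qExpansion 1 F).coeff 0 with hc₀
    have hk4 : ((3 * (m + 1) : ℕ) : ℤ) * 4 = k := by rw [hk]; push_cast; ring
    set G : ModularForm 𝒮ℒ k := F - c₀ • E4pow (3 * (m + 1)) k hk4 with hG
    have hGq : qExpansion 1 G = qExpansion 1 F - PowerSeries.C c₀ * e4C ^ (3 * (m + 1)) := by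
      have h1 : (G : ℍ → ℂ) = ⇑F - ⇑(c₀ • E4pow (3 * (m + 1)) k hk4) := rfl
      rw [h1, ModularForm.qExpansion_sub one_pos one_mem_strictPeriods_SL]
      have h2 : (⇑(c₀ • E4pow (3 * (m + 1)) k hk4) : ℍ → ℂ) = c₀ • ⇑(E4pow (3 * (m + 1)) k hk4) :=
        rfl
      rw [h2, ModularForm.qExpansion_smul one_pos one_mem_strictPeriods_SL, qExpansion_E4pow,
        PowerSeries.smul_eq_C_mul]
    have hG0 : (qExpansion 1 G).coeff 0 = 0 := by
      rw [hGq, map_sub, PowerSeries.coeff_zero_eq_constantCoeff, map_mul, map_pow]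
      simp only [← PowerSeries.coeff_zero_eq_constantCoeff, e4C_coeff_zero]
      simp [hc₀]
    set H : ModularForm 𝒮ℒ (k - 12) := CuspForm.discriminantEquiv (G.toCuspForm hG0) with hH
    obtain ⟨P, hPdeg, hPval, hPq⟩ := ih (k - 12) (by rw [hk]; push_cast; ring) H
    have hGH : ∀ z, G z = ModularForm.discriminant z * H z := fun z => by
      rw [hH, discriminant_mul_discriminantEquiv_apply]; rfl
    have hFG : ∀ z, F z = c₀ * E₄ z ^ (3 * (m + 1)) + G z := fun z => by
      have : G z = F z - c₀ * E4pow (3 * (m + 1)) k hk4 z := rfl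
      rw [this, E4pow_apply]; ring
    refine ⟨Polynomial.C c₀ * Polynomial.X ^ (m + 1) + P, ?_, ?_, ?_⟩
    · refine (Polynomial.natDegree_add_le _ _).trans (max_le ?_ (hPdeg.trans (Nat.le_succ m)))
      exact Polynomial.natDegree_C_mul_X_pow_le _ _
    · intro z
      rw [hFG, hGH, hPval, Polynomial.eval_add, Polynomial.eval_mul, Polynomial.eval_C,
        Polynomial.eval_pow, Polynomial.eval_X, jFun]
      have hΔ := discriminant_ne_zero z
      have hJ : ModularForm.discriminant z * (E₄ z ^ 3 / ModularForm.discriminant z) = E₄ z ^ 3 :=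
        mul_div_cancel₀ _ hΔ
      have : ModularForm.discriminant z ^ (m + 1) *
          (c₀ * (E₄ z ^ 3 / ModularForm.discriminant z) ^ (m + 1) +
            Polynomial.eval (E₄ z ^ 3 / ModularForm.discriminant z) P) =
          c₀ * (ModularForm.discriminant z * (E₄ z ^ 3 / ModularForm.discriminant z)) ^ (m + 1) +
          ModularForm.discriminant z * (ModularForm.discriminant z ^ m *
            Polynomial.eval (E₄ z ^ 3 / ModularForm.discriminant z) P) := by ring
      rw [this, hJ, pow_mul]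
    · have h1 : qExpansion 1 F = PowerSeries.C c₀ * e4C ^ (3 * (m + 1)) +
          deltaC * qExpansion 1 H := by
        have := ModularForm.qExpansion_eq_qExpansion_discriminant_mul G hG0
        rw [qExpansion_discriminant_eq_deltaC, ← hH, hGq] at this
        rw [← this]; ring
      rw [h1, map_add, map_mul, map_mul, map_pow, hPq, pow_mul, ofPowerSeries_e4C_pow_three,
        HahnSeries.ofPowerSeries_C, map_add, map_mul, Polynomial.aeval_C, map_pow,
        Polynomial.aeval_X, algebraMap_laurent_eq_C]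
      ring

end Fermat.Agent.S28.H505

end
-- ===== PACK-END S28/H505/LevelOne.lean

-- ===== PACK-BEGIN S20/Comb/RelIndex.lean
section





/-!
# Relative index of `Gamma0 (p * M)` in `Gamma0 M`

`(Gamma0 (p * M)).relIndex (Gamma0 M) = p` if `p ∣ M`, and `p + 1` otherwise (`p` prime, `M ≠ 0`).
-/

set_option autoImplicit false

namespace Fermat.Agent.S20.Comb

open Matrix MatrixGroups CongruenceSubgroup

lemma mem_Gamma0_iff_dvd (N : ℕ) (g : SL(2, ℤ)) : g ∈ Gamma0 N ↔ (N : ℤ) ∣ g 1 0 := by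
  rw [Gamma0_mem]
  exact ZMod.intCast_zmod_eq_zero_iff_dvd _ _

lemma Gamma0_mul_le (p M : ℕ) : Gamma0 (p * M) ≤ Gamma0 M := by
  intro g hg
  rw [mem_Gamma0_iff_dvd] at hg ⊢
  refine dvd_trans ?_ hg
  push_cast
  exact dvd_mul_left _ _

/-- The matrix `[[1, 0], [c, 1]]` in `SL(2,ℤ)`. -/
def lowRep (c : ℤ) : SL(2, ℤ) := ⟨!![1, 0; c, 1], by simp [Matrix.det_fin_two]⟩

@[simp] lemma lowRep_apply_zero_zero (c : ℤ) : lowRep c 0 0 = 1 := rfl
@[simp] lemma lowRep_apply_one_zero (c : ℤ) : lowRep c 1 0 = c := rfl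

lemma lowRep_mem (M : ℕ) (t : ℤ) : lowRep ((M : ℤ) * t) ∈ Gamma0 M := by
  rw [mem_Gamma0_iff_dvd, lowRep_apply_one_zero]
  exact dvd_mul_right _ _

/-- Coset criterion for `Gamma0 M ⧸ (Gamma0 (p * M)).subgroupOf (Gamma0 M)`. -/
lemma subMk_eq_iff (p M : ℕ) (hM : M ≠ 0) (g g' : Gamma0 M) (c₁ c₁' : ℤ)
    (hc : (g : SL(2, ℤ)) 1 0 = M * c₁) (hc' : (g' : SL(2, ℤ)) 1 0 = M * c₁') :
    (QuotientGroup.mk g : Gamma0 M ⧸ (Gamma0 (p * M)).subgroupOf (Gamma0 M))
        = QuotientGroup.mk g' ↔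
      (p : ℤ) ∣ ((g : SL(2, ℤ)) 0 0 * c₁' - c₁ * (g' : SL(2, ℤ)) 0 0) := by
  rw [QuotientGroup.eq, Subgroup.mem_subgroupOf, mem_Gamma0_iff_dvd]
  simp only [Subgroup.coe_mul, Subgroup.coe_inv, inv_mul_apply_one_zero, hc, hc']
  have h : (g : SL(2, ℤ)) 0 0 * ((M : ℤ) * c₁') - (M : ℤ) * c₁ * (g' : SL(2, ℤ)) 0 0
      = (M : ℤ) * ((g : SL(2, ℤ)) 0 0 * c₁' - c₁ * (g' : SL(2, ℤ)) 0 0) := by ring
  rw [h]
  push_cast
  rw [mul_comm (p : ℤ) (M : ℤ)]
  exact mul_dvd_mul_iff_left (by exact_mod_cast hM)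

/-- For `g ∈ Gamma0 M` with `p ∣ M`, the entry `g 0 0` is nonzero mod `p`. -/
lemma a_ne_zero_of_dvd (p M : ℕ) (hp : p.Prime) (h : p ∣ M) (g : Gamma0 M) :
    ¬ (p : ℤ) ∣ (g : SL(2, ℤ)) 0 0 := by
  intro ha
  have hg := (mem_Gamma0_iff_dvd M _).mp g.2
  have hpc : (p : ℤ) ∣ (g : SL(2, ℤ)) 1 0 := dvd_trans (by exact_mod_cast h) hg
  have hdet := (g : SL(2, ℤ)).det_coe
  rw [Matrix.det_fin_two] at hdet
  have h1 : (p : ℤ) ∣ 1 := by
    rw [← hdet]
    exact dvd_sub (dvd_mul_of_dvd_left ha _) (dvd_mul_of_dvd_right hpc _)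
  have := Int.natCast_dvd_natCast.mp (by simpa using h1 : ((p : ℕ) : ℤ) ∣ ((1 : ℕ) : ℤ))
  exact hp.one_lt.ne' (Nat.dvd_one.mp this)

/-- The coset representative attached to `t : ZMod p`. -/
noncomputable def relRep (p M : ℕ) (t : ZMod p) :
    Gamma0 M ⧸ (Gamma0 (p * M)).subgroupOf (Gamma0 M) :=
  QuotientGroup.mk ⟨lowRep ((M : ℤ) * (ZMod.cast t : ℤ)), lowRep_mem M _⟩

lemma relRep_injective (p M : ℕ) (hM : M ≠ 0) : Function.Injective (relRep p M) := by
  intro t t' h
  simp only [relRep] at h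
  rw [subMk_eq_iff p M hM _ _ (ZMod.cast t : ℤ) (ZMod.cast t' : ℤ) rfl rfl] at h
  simp only [lowRep_apply_zero_zero, one_mul, mul_one] at h
  have := (ZMod.intCast_zmod_eq_zero_iff_dvd _ p).mpr h
  push_cast at this
  exact (sub_eq_zero.mp this).symm

/-- Elements with `p ∤ a` are in the range of `relRep`. -/
lemma mem_range_relRep (p M : ℕ) (hM : M ≠ 0) (hp : p.Prime) (g : Gamma0 M)
    (ha : ¬ (p : ℤ) ∣ (g : SL(2, ℤ)) 0 0) :
    (QuotientGroup.mk g : Gamma0 M ⧸ (Gamma0 (p * M)).subgroupOf (Gamma0 M))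
      ∈ Set.range (relRep p M) := by
  haveI : Fact p.Prime := ⟨hp⟩
  obtain ⟨c₁, hc₁⟩ := (mem_Gamma0_iff_dvd M _).mp g.2
  have ha' : (((g : SL(2, ℤ)) 0 0 : ℤ) : ZMod p) ≠ 0 := by
    rwa [Ne, ZMod.intCast_zmod_eq_zero_iff_dvd]
  refine ⟨(c₁ : ZMod p) * (((g : SL(2, ℤ)) 0 0 : ℤ) : ZMod p)⁻¹, ?_⟩
  simp only [relRep]
  rw [subMk_eq_iff p M hM _ _ _ c₁ rfl hc₁]
  simp only [lowRep_apply_zero_zero, one_mul]
  rw [← ZMod.intCast_zmod_eq_zero_iff_dvd]
  push_cast
  rw [mul_assoc, inv_mul_cancel₀ ha', mul_one, sub_self]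

/-- **Relative index, ramified case**: `[Γ₀(M) : Γ₀(pM)] = p` if `p ∣ M`. -/
theorem relIndex_Gamma0_of_dvd (p M : ℕ) (hM : M ≠ 0) (hp : p.Prime) (h : p ∣ M) :
    (Gamma0 (p * M)).relIndex (Gamma0 M) = p := by
  have hbij : Function.Bijective (relRep p M) := by
    refine ⟨relRep_injective p M hM, ?_⟩
    intro q
    obtain ⟨g, rfl⟩ := QuotientGroup.mk_surjective q
    exact mem_range_relRep p M hM hp g (a_ne_zero_of_dvd p M hp h g)
  rw [Subgroup.relIndex, Subgroup.index, ← Nat.card_eq_of_bijective _ hbij, Nat.card_zmod]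

/-- An element of `Gamma0 M` with first column `(p, M)`, for `p ∤ M`. -/
lemma exists_special (p M : ℕ) (hp : p.Prime) (h : ¬ p ∣ M) :
    ∃ g : Gamma0 M, (g : SL(2, ℤ)) 0 0 = p ∧ (g : SL(2, ℤ)) 1 0 = M := by
  have hcop : IsCoprime (p : ℤ) (M : ℤ) := by
    rw [Int.isCoprime_iff_gcd_eq_one, Int.gcd_natCast_natCast]
    exact (Nat.Prime.coprime_iff_not_dvd hp).mpr h
  obtain ⟨g, hg0, hg1⟩ := IsCoprime.exists_SL2_col hcop 0
  refine ⟨⟨g, ?_⟩, hg0, hg1⟩
  rw [mem_Gamma0_iff_dvd, hg1]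

/-- **Relative index, unramified case**: `[Γ₀(M) : Γ₀(pM)] = p + 1` if `p ∤ M`. -/
theorem relIndex_Gamma0_of_not_dvd (p M : ℕ) (hM : M ≠ 0) (hp : p.Prime) (h : ¬ p ∣ M) :
    (Gamma0 (p * M)).relIndex (Gamma0 M) = p + 1 := by
  haveI : Fact p.Prime := ⟨hp⟩
  obtain ⟨g₀, hg₀0, hg₀1⟩ := exists_special p M hp h
  let f : Option (ZMod p) → Gamma0 M ⧸ (Gamma0 (p * M)).subgroupOf (Gamma0 M) :=
    fun o => o.elim (QuotientGroup.mk g₀) (relRep p M)
  have hne : ∀ t : ZMod p, relRep p M t ≠ QuotientGroup.mk g₀ := by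
    intro t ht
    simp only [relRep] at ht
    rw [subMk_eq_iff p M hM _ _ (ZMod.cast t : ℤ) 1 rfl (by rw [hg₀1, mul_one])] at ht
    simp only [lowRep_apply_zero_zero, one_mul, hg₀0] at ht
    have h1 : (p : ℤ) ∣ 1 := by
      have := dvd_add ht (dvd_mul_left (p : ℤ) (ZMod.cast t : ℤ))
      simpa using this
    have := Int.natCast_dvd_natCast.mp (by simpa using h1 : ((p : ℕ) : ℤ) ∣ ((1 : ℕ) : ℤ))
    exact hp.one_lt.ne' (Nat.dvd_one.mp this)
  have hbij : Function.Bijective f := by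
    constructor
    · rintro (_ | t) (_ | t') hh
      · rfl
      · exact absurd hh.symm (hne t')
      · exact absurd hh (hne t)
      · exact congrArg some (relRep_injective p M hM hh)
    · intro q
      obtain ⟨g, rfl⟩ := QuotientGroup.mk_surjective q
      by_cases ha : (p : ℤ) ∣ (g : SL(2, ℤ)) 0 0
      · refine ⟨none, ?_⟩
        obtain ⟨c₁, hc₁⟩ := (mem_Gamma0_iff_dvd M _).mp g.2
        show QuotientGroup.mk g₀ = _
        rw [subMk_eq_iff p M hM _ _ 1 c₁ (by rw [hg₀1, mul_one]) hc₁, hg₀0]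
        exact dvd_sub (dvd_mul_right _ _) (by simpa using ha)
      · obtain ⟨t, ht⟩ := mem_range_relRep p M hM hp g ha
        exact ⟨some t, ht⟩
  rw [Subgroup.relIndex, Subgroup.index, ← Nat.card_eq_of_bijective _ hbij, Finite.card_option,
    Nat.card_zmod]

end Fermat.Agent.S20.Comb

end
-- ===== PACK-END S20/Comb/RelIndex.lean

-- ===== PACK-BEGIN S20/Comb/Index.lean
section





/-!
# The index of `Gamma0 N` in `SL(2,ℤ)` is the Dedekind psi function

* `index_Gamma0 : (Gamma0 N).index = ModularCurve.dedekindPsi N` (all `N`, including `N = 0`)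
* `card_quotient_Gamma0 : Nat.card (SL(2,ℤ) ⧸ Gamma0 N) = ModularCurve.dedekindPsi N`
-/

set_option autoImplicit false

namespace Fermat.Agent.S20.Comb

open Matrix MatrixGroups CongruenceSubgroup

lemma dedekindPsi_prime_mul_of_dvd (p M : ℕ) (hp : p.Prime) (hM : M ≠ 0) (h : p ∣ M) :
    ModularCurve.dedekindPsi (p * M) = p * ModularCurve.dedekindPsi M := by
  unfold ModularCurve.dedekindPsi
  have hset : (p * M).divisors.filter Squarefree = M.divisors.filter Squarefree := by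
    ext d
    simp only [Finset.mem_filter, Nat.mem_divisors]
    constructor
    · rintro ⟨⟨hd, -⟩, hsq⟩
      refine ⟨⟨?_, hM⟩, hsq⟩
      by_cases hpd : p ∣ d
      · obtain ⟨d', rfl⟩ := hpd
        have hd' : d' ∣ M := (Nat.mul_dvd_mul_iff_left hp.pos).mp hd
        have hcop : Nat.Coprime p d' := by
          rw [Nat.Prime.coprime_iff_not_dvd hp]
          intro hpd'
          have h2 : p * p ∣ p * d' := Nat.mul_dvd_mul_left p hpd'
          have h3 := hsq p h2
          exact hp.one_lt.ne' (Nat.isUnit_iff.mp h3)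
        exact Nat.Coprime.mul_dvd_of_dvd_of_dvd hcop h hd'
      · exact Nat.Coprime.dvd_of_dvd_mul_left
          ((Nat.Prime.coprime_iff_not_dvd hp).mpr hpd).symm hd
    · rintro ⟨⟨hd, -⟩, hsq⟩
      exact ⟨⟨dvd_mul_of_dvd_right hd p, mul_ne_zero hp.ne_zero hM⟩, hsq⟩
  rw [hset, Finset.mul_sum]
  refine Finset.sum_congr rfl fun d hd => ?_
  have hd' : d ∣ M := (Nat.mem_divisors.mp (Finset.mem_filter.mp hd).1).1
  exact Nat.mul_div_assoc p hd'

lemma dedekindPsi_prime_mul_of_not_dvd (p M : ℕ) (hp : p.Prime) (hM : M ≠ 0) (h : ¬ p ∣ M) :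
    ModularCurve.dedekindPsi (p * M) = (p + 1) * ModularCurve.dedekindPsi M := by
  unfold ModularCurve.dedekindPsi
  rw [← Finset.sum_filter_add_sum_filter_not ((p * M).divisors.filter Squarefree) (fun d => p ∣ d)]
  have hset1 : ((p * M).divisors.filter Squarefree).filter (fun d => ¬ p ∣ d)
      = M.divisors.filter Squarefree := by
    ext d
    simp only [Finset.mem_filter, Nat.mem_divisors]
    constructor
    · rintro ⟨⟨⟨hd, -⟩, hsq⟩, hpd⟩
      exact ⟨⟨Nat.Coprime.dvd_of_dvd_mul_left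
        ((Nat.Prime.coprime_iff_not_dvd hp).mpr hpd).symm hd, hM⟩, hsq⟩
    · rintro ⟨⟨hd, -⟩, hsq⟩
      exact ⟨⟨⟨dvd_mul_of_dvd_right hd p, mul_ne_zero hp.ne_zero hM⟩, hsq⟩,
        fun hpd => h (dvd_trans hpd hd)⟩
  have hset2 : ((p * M).divisors.filter Squarefree).filter (fun d => p ∣ d)
      = (M.divisors.filter Squarefree).image (fun d => p * d) := by
    ext d
    simp only [Finset.mem_filter, Nat.mem_divisors, Finset.mem_image]
    constructor
    · rintro ⟨⟨⟨hd, -⟩, hsq⟩, ⟨d', rfl⟩⟩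
      exact ⟨d', ⟨⟨(Nat.mul_dvd_mul_iff_left hp.pos).mp hd, hM⟩, hsq.of_mul_right⟩, rfl⟩
    · rintro ⟨d', ⟨⟨hd', -⟩, hsq'⟩, rfl⟩
      have hcop : Nat.Coprime p d' :=
        (Nat.Prime.coprime_iff_not_dvd hp).mpr fun hpd => h (dvd_trans hpd hd')
      exact ⟨⟨⟨Nat.mul_dvd_mul_left p hd', mul_ne_zero hp.ne_zero hM⟩,
        (Nat.squarefree_mul hcop).mpr ⟨hp.prime.squarefree, hsq'⟩⟩, dvd_mul_right _ _⟩
  rw [hset1, hset2, Finset.sum_image (fun x _ y _ hxy => Nat.eq_of_mul_eq_mul_left hp.pos hxy),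
    add_mul, one_mul, Finset.mul_sum, add_comm]
  congr 1
  · refine Finset.sum_congr rfl fun d hd => ?_
    have hd' : d ∣ M := (Nat.mem_divisors.mp (Finset.mem_filter.mp hd).1).1
    exact Nat.mul_div_assoc p hd'
  · refine Finset.sum_congr rfl fun d hd => ?_
    exact Nat.mul_div_mul_left M d hp.pos

lemma Gamma0_one_eq_top : Gamma0 1 = ⊤ := by
  ext g
  simp only [Gamma0_mem, Subgroup.mem_top, iff_true]
  exact Subsingleton.elim _ _

lemma index_Gamma0_zero : (Gamma0 0).index = 0 := by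
  rw [Subgroup.index]
  haveI : Infinite (SL(2, ℤ) ⧸ Gamma0 0) := by
    refine Infinite.of_injective
      (fun t : ℤ => (QuotientGroup.mk (lowRep t) : SL(2, ℤ) ⧸ Gamma0 0)) ?_
    intro t t' h
    simp only at h
    rw [mk_eq_mk_iff] at h
    simp only [lowRep_apply_zero_zero, lowRep_apply_one_zero, Int.cast_one, one_mul,
      mul_one] at h
    have h' : ((t' - t : ℤ) : ZMod 0) = 0 := h
    have h'' := (ZMod.intCast_zmod_eq_zero_iff_dvd (t' - t) 0).mp h'
    simp only [Nat.cast_zero, zero_dvd_iff] at h''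
    exact (sub_eq_zero.mp h'').symm
  exact Nat.card_eq_zero_of_infinite

lemma dedekindPsi_zero : ModularCurve.dedekindPsi 0 = 0 := by
  simp [ModularCurve.dedekindPsi]

/-- **(I1)** The index of `Γ₀(N)` in `SL(2,ℤ)` is `ψ(N)` (for `N ≠ 0`). -/
theorem index_Gamma0_of_ne_zero (N : ℕ) (hN : N ≠ 0) :
    (Gamma0 N).index = ModularCurve.dedekindPsi N := by
  induction N using induction_on_primes with
  | zero => exact absurd rfl hN
  | one => rw [ModularCurve.dedekindPsi_one, Gamma0_one_eq_top, Subgroup.index_top]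
  | prime_mul p M hp ih =>
    have hM : M ≠ 0 := fun h => hN (by rw [h, mul_zero])
    rw [← Subgroup.relIndex_mul_index (Gamma0_mul_le p M), ih hM]
    by_cases h : p ∣ M
    · rw [relIndex_Gamma0_of_dvd p M hM hp h, dedekindPsi_prime_mul_of_dvd p M hp hM h]
    · rw [relIndex_Gamma0_of_not_dvd p M hM hp h, dedekindPsi_prime_mul_of_not_dvd p M hp hM h]

/-- **(I1)** The index of `Γ₀(N)` in `SL(2,ℤ)` is `ψ(N)` (all `N`; both sides are `0` for
`N = 0`). -/
theorem index_Gamma0 (N : ℕ) : (Gamma0 N).index = ModularCurve.dedekindPsi N := by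
  rcases eq_or_ne N 0 with rfl | hN
  · rw [index_Gamma0_zero, dedekindPsi_zero]
  · exact index_Gamma0_of_ne_zero N hN

/-- **(I1)** `#(SL(2,ℤ) ⧸ Γ₀(N)) = ψ(N)`. -/
theorem card_quotient_Gamma0 (N : ℕ) :
    Nat.card (SL(2, ℤ) ⧸ Gamma0 N) = ModularCurve.dedekindPsi N :=
  index_Gamma0 N

end Fermat.Agent.S20.Comb

end
-- ===== PACK-END S20/Comb/Index.lean

-- ===== PACK-BEGIN Lib/RR/Approx.lean
section


/-!
# RR library: separation / approximation for finitely many places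

(The first three lemmas follow helper144's `S24/Alg/LocApprox.lean`.)
-/

set_option autoImplicit false

noncomputable section

open AlgebraicCurve

namespace Fermat.Agent.Lib.RR

variable {K F : Type*} [Field K] [Field F] [Algebra K F]

/-- The valuation rings of two places are comparable only if the places are equal. -/
theorem place_eq_of_le {v w : Place K F} (h : v.toValuationSubring ≤ w.toValuationSubring) :
    v = w := by
  apply Place.ext
  refine le_antisymm h ?_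
  intro f hf
  by_contra hfv
  have hfw : 0 ≤ w.ord f := ord_nonneg_of_mem w hf
  have hfv' : v.ord f < 0 := by
    by_contra h0
    exact hfv (mem_of_ord_nonneg v (not_lt.mp h0))
  have hf0 : f ≠ 0 := ne_zero_of_ord_ne_zero v hfv'.ne
  obtain ⟨h1, hh1⟩ := exists_ord_eq_one w
  have hh0 : h1 ≠ 0 := ne_zero_of_ord_ne_zero w (by omega)
  set r : ℕ := (v.ord h1).toNat + 1 with hr
  have hfr : f ^ r ≠ 0 := pow_ne_zero r hf0
  have hv : v.ord (f ^ r * h1) < 0 := by
    rw [v.ord_mul hfr hh0, ord_pow]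
    have : (r : ℤ) * v.ord f ≤ -(r : ℤ) := by nlinarith
    have : v.ord h1 ≤ (v.ord h1).toNat := Int.self_le_toNat _
    have : (r : ℤ) = (v.ord h1).toNat + 1 := by rw [hr]; push_cast; ring
    omega
  have hmem : (f ^ r * h1)⁻¹ ∈ w.toValuationSubring := by
    apply h
    apply mem_of_ord_nonneg
    rw [v.ord_inv]; omega
  have hw := ord_nonneg_of_mem w hmem
  rw [w.ord_inv, w.ord_mul hfr hh0, ord_pow, hh1] at hw
  have : 0 ≤ (r : ℤ) * w.ord f := mul_nonneg (Int.natCast_nonneg r) hfw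
  omega

/-- Two distinct places are separated by a function. -/
theorem exists_sep {v w : Place K F} (hvw : v ≠ w) :
    ∃ c : F, 0 < v.ord c ∧ w.ord c < 0 := by
  have h1 : ¬ v.toValuationSubring ≤ w.toValuationSubring := fun h => hvw (place_eq_of_le h)
  have h2 : ¬ w.toValuationSubring ≤ v.toValuationSubring :=
    fun h => hvw (place_eq_of_le h).symm
  obtain ⟨a, hav, haw⟩ := SetLike.not_le_iff_exists.mp h1
  obtain ⟨b, hbw, hbv⟩ := SetLike.not_le_iff_exists.mp h2
  have hav' : 0 ≤ v.ord a := ord_nonneg_of_mem v hav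
  have hbw' : 0 ≤ w.ord b := ord_nonneg_of_mem w hbw
  have haw' : w.ord a < 0 := by
    by_contra h0; exact haw (mem_of_ord_nonneg w (not_lt.mp h0))
  have hbv' : v.ord b < 0 := by
    by_contra h0; exact hbv (mem_of_ord_nonneg v (not_lt.mp h0))
  have ha0 : a ≠ 0 := ne_zero_of_ord_ne_zero w haw'.ne
  have hb0 : b ≠ 0 := ne_zero_of_ord_ne_zero v hbv'.ne
  refine ⟨a * b⁻¹, ?_, ?_⟩
  · rw [v.ord_mul ha0 (inv_ne_zero hb0), v.ord_inv]; omega
  · rw [w.ord_mul ha0 (inv_ne_zero hb0), w.ord_inv]; omega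

/-- For a place `v` outside a finite set `S` of places there is a function with a zero at `v` and
poles at all places of `S`. -/
theorem exists_zero_poles (v : Place K F) (S : Finset (Place K F)) (hv : v ∉ S) :
    ∃ g : F, 0 < v.ord g ∧ ∀ w ∈ S, w.ord g < 0 := by
  classical
  induction S using Finset.induction_on with
  | empty =>
    obtain ⟨h, hh⟩ := exists_ord_eq_one v
    exact ⟨h, by omega, by simp⟩
  | insert w₀ S' hw₀ ih =>
    have hv' : v ∉ S' := fun h => hv (Finset.mem_insert_of_mem h)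
    have hvw₀ : v ≠ w₀ := fun h => hv (h ▸ Finset.mem_insert_self _ _)
    obtain ⟨g, hgv, hgS⟩ := ih hv'
    obtain ⟨c, hcv, hcw⟩ := exists_sep hvw₀
    have hg0 : g ≠ 0 := ne_zero_of_ord_ne_zero v hgv.ne'
    have hc0 : c ≠ 0 := ne_zero_of_ord_ne_zero v hcv.ne'
    by_cases hgw : w₀.ord g < 0
    · refine ⟨g, hgv, ?_⟩
      intro w hw
      rcases Finset.mem_insert.mp hw with rfl | hw
      · exact hgw
      · exact hgS w hw
    · have hgw := not_lt.mp hgw
      set r : ℕ := (∑ w ∈ S', (w.ord c).natAbs) + 1 with hr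
      have hrS : ∀ w ∈ S', -(r : ℤ) < w.ord c := by
        intro w hw
        have h1 : (w.ord c).natAbs ≤ ∑ w ∈ S', (w.ord c).natAbs :=
          Finset.single_le_sum (f := fun w : Place K F => (w.ord c).natAbs)
            (fun _ _ => Nat.zero_le _) hw
        have h2 : (r : ℤ) = ((∑ w ∈ S', (w.ord c).natAbs : ℕ) : ℤ) + 1 := by
          rw [hr]; push_cast; ring
        have h3 : ((w.ord c).natAbs : ℤ) ≤ ((∑ w ∈ S', (w.ord c).natAbs : ℕ) : ℤ) := by
          exact_mod_cast h1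
        omega
      have hr1 : 1 ≤ r := by omega
      have hgr0 : g ^ r ≠ 0 := pow_ne_zero r hg0
      have hw₀' : w₀.ord (c + g ^ r) = w₀.ord c := by
        apply ord_add_eq_of_lt w₀ hc0 hgr0
        rw [ord_pow]
        have : 0 ≤ (r : ℤ) * w₀.ord g := mul_nonneg (Int.natCast_nonneg r) hgw
        omega
      have hsum0 : c + g ^ r ≠ 0 := ne_zero_of_ord_ne_zero w₀ (by rw [hw₀']; omega)
      refine ⟨c + g ^ r, ?_, ?_⟩
      · have h1 := ord_add v hc0 hgr0 hsum0
        rw [ord_pow] at h1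
        have h2 : 0 < (r : ℤ) * v.ord g := mul_pos (by exact_mod_cast hr1) hgv
        have h3 : 0 < min (v.ord c) ((r : ℤ) * v.ord g) := lt_min hcv h2
        omega
      · intro w hw
        rcases Finset.mem_insert.mp hw with rfl | hw
        · rw [hw₀']; exact hcw
        · have h1 : w.ord (g ^ r) < w.ord c := by
            rw [ord_pow]
            have h2 := hgS w hw
            have h3 := hrS w hw
            have h4 : (r : ℤ) * w.ord g ≤ -(r : ℤ) := by nlinarith
            omega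
          rw [add_comm, ord_add_eq_of_lt w hgr0 hc0 h1, ord_pow]
          have h2 := hgS w hw
          have hrpos : (0 : ℤ) < r := by exact_mod_cast hr1
          exact mul_neg_of_pos_of_neg hrpos h2

/-- For a place `v` outside a finite set `S` of places and every `M` there is a function which is
a unit at `v` and vanishes to order at least `M` at all places of `S`. -/
theorem exists_unit_zeros (v : Place K F) (S : Finset (Place K F)) (hv : v ∉ S) (M : ℕ) :
    ∃ s : F, s ≠ 0 ∧ v.ord s = 0 ∧ ∀ w ∈ S, (M : ℤ) ≤ w.ord s := by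
  obtain ⟨g, hgv, hgS⟩ := exists_zero_poles v S hv
  have hg0 : g ≠ 0 := ne_zero_of_ord_ne_zero v hgv.ne'
  -- `u = g⁻¹` has a pole at `v` and zeros on `S`; `s = 1 / (1 + g ^ (M+1))`
  set r : ℕ := M + 1 with hr
  have hgr0 : g ^ r ≠ 0 := pow_ne_zero r hg0
  have hrpos : (0 : ℤ) < r := by rw [hr]; push_cast; omega
  have hv1 : v.ord (1 + g ^ r) = 0 := by
    have h1 : v.ord (1 : F) < v.ord (g ^ r) := by
      rw [v.ord_one, ord_pow]; exact mul_pos hrpos hgv
    rw [ord_add_eq_of_lt v one_ne_zero hgr0 h1, v.ord_one]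
  have hne : (1 + g ^ r : F) ≠ 0 := by
    intro h0
    have h1 : v.ord (1 : F) < v.ord (g ^ r) := by
      rw [v.ord_one, ord_pow]; exact mul_pos hrpos hgv
    have h2 : g ^ r = -1 := by rw [← sub_eq_zero, sub_neg_eq_add, add_comm]; exact h0
    rw [h2, ord_neg, v.ord_one] at h1
    exact lt_irrefl _ h1
  refine ⟨(1 + g ^ r)⁻¹, inv_ne_zero hne, by rw [v.ord_inv, hv1, neg_zero], ?_⟩
  intro w hw
  have hgw := hgS w hw
  have h1 : w.ord (g ^ r) < w.ord (1 : F) := by
    rw [w.ord_one, ord_pow]; exact mul_neg_of_pos_of_neg hrpos hgw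
  have h2 : w.ord (1 + g ^ r) = w.ord (g ^ r) := by
    rw [add_comm]; exact ord_add_eq_of_lt w hgr0 one_ne_zero h1
  rw [w.ord_inv, h2, ord_pow]
  have h3 : (r : ℤ) * w.ord g ≤ -(r : ℤ) := by nlinarith
  rw [hr] at h3 ⊢
  push_cast at h3 ⊢
  omega

/-- The order of a finite sum all of whose terms are `0` or of order `> n`. -/
theorem ord_sum_gt (v : Place K F) {ι : Type*} (s : Finset ι) (y : ι → F) (n : ℤ)
    (h : ∀ i ∈ s, y i = 0 ∨ n < v.ord (y i)) :
    ∑ i ∈ s, y i = 0 ∨ n < v.ord (∑ i ∈ s, y i) := by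
  classical
  induction s using Finset.induction_on with
  | empty => left; simp
  | insert a s ha ih =>
    rw [Finset.sum_insert ha]
    have h1 := h a (Finset.mem_insert_self _ _)
    have h2 := ih (fun i hi => h i (Finset.mem_insert_of_mem hi))
    have h1' : y a = 0 ∨ n + 1 ≤ v.ord (y a) := h1.imp id (fun h => by omega)
    have h2' : ∑ i ∈ s, y i = 0 ∨ n + 1 ≤ v.ord (∑ i ∈ s, y i) := h2.imp id (fun h => by omega)
    exact (ord_add_of_le v h1' h2').imp id (fun h => by omega)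

end Fermat.Agent.Lib.RR

end
end
-- ===== PACK-END Lib/RR/Approx.lean

-- ===== PACK-BEGIN S18/H264/SepGraph.lean
section


/-!
# S18 / G-SEP (helper264): the field `separable` of `Alg.GoodModel` from a reduction *relation*

Mathlib-only, abstract.  Instead of a reduction homomorphism on the valuation ring `V` we use a
subring `T ≤ Ω × L` ("`(g, ḡ) ∈ T` iff `ḡ` is a reduction of `g`"); no well-definedness is
needed.  `L` is a field of characteristic `ℓ` with a `ℤ`-valued valuation (`L = k((q))`).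

* `evalZZ x y` : evaluation `ℤ[X][Y] → B`, `X ↦ x`, `Y ↦ y`;
* `evalZZ_mem_graph` : `(P(x, f), P(x̄, f̄)) ∈ T`;
* `exists_poly_of_graph` : from `P ∈ ℤ[X][Y]` with `P(x̄, f̄) = 0`, `(∂P/∂Y)(x̄, f̄) ≠ 0`
  to the conclusion of the field `separable` (with coefficients even in `ℤ[x]`);
* `exists_poly_of_graph_sep` : the same from `f̄` algebraic over `𝔽_ℓ(x̄)` and `ℓ ∤ v(x̄)`.
-/

set_option autoImplicit false

namespace Fermat.Agent.S18.H264

open Polynomial

section EvalZZ

/-- Evaluation of an integral bivariate polynomial: `X ↦ x` (inner variable), `Y ↦ y`. -/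
noncomputable def evalZZ {B : Type*} [CommRing B] (x y : B) : Polynomial (Polynomial ℤ) →+* B :=
  Polynomial.eval₂RingHom (Polynomial.eval₂RingHom (Int.castRingHom B) x) y

theorem evalZZ_apply {B : Type*} [CommRing B] (x y : B) (P : Polynomial (Polynomial ℤ)) :
    evalZZ x y P = P.eval₂ (Polynomial.eval₂RingHom (Int.castRingHom B) x) y := rfl

theorem map_evalZZ {B C : Type*} [CommRing B] [CommRing C] (φ : B →+* C) (x y : B)
    (P : Polynomial (Polynomial ℤ)) : φ (evalZZ x y P) = evalZZ (φ x) (φ y) P := by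
  have h : φ.comp (Polynomial.eval₂RingHom (Int.castRingHom B) x) =
      Polynomial.eval₂RingHom (Int.castRingHom C) (φ x) := by
    refine Polynomial.ringHom_ext (fun n => ?_) ?_
    · simp
    · simp
  rw [evalZZ_apply, evalZZ_apply, Polynomial.hom_eval₂, h]

end EvalZZ

section Graph

variable {Ω L : Type*} [Field Ω] [Field L]

/-- Polynomial expressions respect the reduction relation. -/
theorem evalZZ_mem_graph (T : Subring (Ω × L)) {x f : Ω} {xb fb : L} (hx : (x, xb) ∈ T)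
    (hf : (f, fb) ∈ T) (P : Polynomial (Polynomial ℤ)) :
    (evalZZ x f P, evalZZ xb fb P) ∈ T := by
  have h1 := map_evalZZ ((RingHom.fst Ω L).comp T.subtype) ⟨(x, xb), hx⟩ ⟨(f, fb), hf⟩ P
  have h2 := map_evalZZ ((RingHom.snd Ω L).comp T.subtype) ⟨(x, xb), hx⟩ ⟨(f, fb), hf⟩ P
  have h3 : ((evalZZ (⟨(x, xb), hx⟩ : T) ⟨(f, fb), hf⟩ P : T) : Ω × L) =
      (evalZZ x f P, evalZZ xb fb P) := Prod.ext h1 h2
  rw [← h3]
  exact Subtype.property _

/-- The value at `x` of an integral polynomial lies in every subring containing `x`. -/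
theorem eval₂_intCast_mem (S : Subring Ω) {x : Ω} (hx : x ∈ S) (g : Polynomial ℤ) :
    Polynomial.eval₂ (Int.castRingHom Ω) x g ∈ S := by
  rw [eval₂_eq_sum_range]
  refine sum_mem fun i _ => ?_
  exact mul_mem (by simp) (pow_mem hx _)

/-- **The field `separable` from a reduction relation and an integral polynomial.** -/
theorem exists_poly_of_graph (T : Subring (Ω × L)) (V R : Subring Ω) (w x f : Ω) (xb fb : L)
    (hx : (x, xb) ∈ T) (hf : (f, fb) ∈ T)
    (hker : ∀ g : Ω, (g, (0 : L)) ∈ T → g * w⁻¹ ∈ V)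
    (hunit : ∀ (g : Ω) (b : L), (g, b) ∈ T → b ≠ 0 → g ≠ 0 ∧ g⁻¹ ∈ V)
    (P : Polynomial (Polynomial ℤ)) (h0 : evalZZ xb fb P = 0)
    (h1 : evalZZ xb fb (derivative P) ≠ 0) :
    ∃ PΩ : Polynomial Ω, (∀ i, PΩ.coeff i ∈ Subring.closure ((R : Set Ω) ∪ {x})) ∧
      PΩ.eval f * w⁻¹ ∈ V ∧ (derivative PΩ).eval f ≠ 0 ∧ ((derivative PΩ).eval f)⁻¹ ∈ V := by
  refine ⟨P.map (Polynomial.eval₂RingHom (Int.castRingHom Ω) x), ?_, ?_, ?_⟩
  · intro i
    rw [coeff_map, coe_eval₂RingHom]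
    exact eval₂_intCast_mem _
      (Subring.subset_closure (Set.mem_union_right _ (Set.mem_singleton x))) _
  · rw [eval_map, ← evalZZ_apply]
    apply hker
    have h := evalZZ_mem_graph T hx hf P
    rwa [h0] at h
  · rw [derivative_map, eval_map, ← evalZZ_apply]
    exact hunit _ _ (evalZZ_mem_graph T hx hf (derivative P)) h1

end Graph

section Sep

variable {Ω L : Type*} [Field Ω] [Field L] (ℓ : ℕ) [hℓ : Fact ℓ.Prime] [Algebra (ZMod ℓ) L]

/-- Lifting a bivariate polynomial over `𝔽_ℓ` to `ℤ`. -/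
theorem exists_int_lift (xb fb : L) (Pbar : Polynomial (Polynomial (ZMod ℓ))) :
    ∃ P : Polynomial (Polynomial ℤ),
      evalZZ xb fb P =
        Pbar.eval₂ (aeval xb : Polynomial (ZMod ℓ) →ₐ[ZMod ℓ] L).toRingHom fb ∧
      evalZZ xb fb (derivative P) =
        (derivative Pbar).eval₂ (aeval xb : Polynomial (ZMod ℓ) →ₐ[ZMod ℓ] L).toRingHom fb := by
  obtain ⟨P, hP⟩ := Polynomial.map_surjective
    (Polynomial.mapRingHom (Int.castRingHom (ZMod ℓ)))
    (Polynomial.map_surjective _ (ZMod.intCast_surjective)) Pbar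
  have hcomp : ((aeval xb : Polynomial (ZMod ℓ) →ₐ[ZMod ℓ] L).toRingHom).comp
      (Polynomial.mapRingHom (Int.castRingHom (ZMod ℓ))) =
      Polynomial.eval₂RingHom (Int.castRingHom L) xb := by
    refine Polynomial.ringHom_ext (fun n => ?_) ?_
    · simp
    · simp
  refine ⟨P, ?_, ?_⟩
  · rw [← hP, Polynomial.eval₂_map, hcomp, evalZZ_apply]
  · rw [← hP, derivative_map, Polynomial.eval₂_map, hcomp, evalZZ_apply]

/-- **The field `separable` from a reduction relation**, for `L` of characteristic `ℓ` with a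
`ℤ`-valued valuation `v`, `ℓ ∤ v x̄`, `f̄` algebraic over `𝔽_ℓ(x̄)`. -/
theorem exists_poly_of_graph_sep (v : AddValuation L (WithTop ℤ))
    (T : Subring (Ω × L)) (V R : Subring Ω) (w x f : Ω) (xb fb : L)
    (hx : (x, xb) ∈ T) (hf : (f, fb) ∈ T)
    (hker : ∀ g : Ω, (g, (0 : L)) ∈ T → g * w⁻¹ ∈ V)
    (hunit : ∀ (g : Ω) (b : L), (g, b) ∈ T → b ≠ 0 → g ≠ 0 ∧ g⁻¹ ∈ V)
    (n : ℤ) (hv : v xb = (n : WithTop ℤ)) (hn : ¬ (ℓ : ℤ) ∣ n)
    (halg : IsAlgebraic (IntermediateField.adjoin (ZMod ℓ) {xb}) fb) :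
    ∃ PΩ : Polynomial Ω, (∀ i, PΩ.coeff i ∈ Subring.closure ((R : Set Ω) ∪ {x})) ∧
      PΩ.eval f * w⁻¹ ∈ V ∧ (derivative PΩ).eval f ≠ 0 ∧ ((derivative PΩ).eval f)⁻¹ ∈ V := by
  have hsep := isSeparable_of_isAlgebraic_of_addVal (κ := ZMod ℓ) ℓ v xb n hv hn fb halg
  obtain ⟨Pbar, hb0, hb1⟩ := exists_bivariate_simple_root xb fb hsep
  obtain ⟨P, hP0, hP1⟩ := exists_int_lift ℓ xb fb Pbar
  exact exists_poly_of_graph T V R w x f xb fb hx hf hker hunit P (by rw [hP0, hb0])
    (by rw [hP1]; exact hb1)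

end Sep

end Fermat.Agent.S18.H264

end
-- ===== PACK-END S18/H264/SepGraph.lean

-- ===== PACK-BEGIN S18/H214/LocalExist.lean
section




/-!
# S18, route K, piece LE ("local existence"): the input `σ₀, σ₁` of the Kummer endgame

One chart (`exists_sigma`): `B` a noetherian integrally closed domain, `F = Frac B`, `ϖ ∈ B` prime,
special fibre regular (`H754.RegularAlong ϖ`, output of b2), `u ≡ 1 mod ϖ` (`H754.OneModPi`),
`m ∣ div u` (`H754.DivisibleDivisor B m u`).  Then there is `σ ∈ F` with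
`σ ^ m * u ∈ 1 + ϖ B` and `σ ∈ 1 + ϖ B_(ϖ)`.
-/

set_option autoImplicit false

namespace Fermat.Agent.S18.H214

open Fermat.Agent.S18.H754

section LocalRing

variable {B : Type*} [CommRing B] [IsDomain B]

/-- The image of a prime element `ϖ ∈ 𝔪` in the localisation at `𝔪` is prime. -/
theorem prime_algebraMap_atPrime (ϖ : B) (hϖ : Prime ϖ) (𝔪 : Ideal B) [𝔪.IsPrime]
    (hm : ϖ ∈ 𝔪) : Prime (algebraMap B (Localization.AtPrime 𝔪) ϖ) := by
  have hinj : Function.Injective (algebraMap B (Localization.AtPrime 𝔪)) :=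
    IsLocalization.injective (Localization.AtPrime 𝔪) 𝔪.primeCompl_le_nonZeroDivisors
  have h0 : algebraMap B (Localization.AtPrime 𝔪) ϖ ≠ 0 := by
    rw [Ne, ← map_zero (algebraMap B (Localization.AtPrime 𝔪))]
    exact fun h => hϖ.ne_zero (hinj h)
  rw [← Ideal.span_singleton_prime h0]
  have hp : (Ideal.span {ϖ}).IsPrime := (Ideal.span_singleton_prime hϖ.ne_zero).2 hϖ
  have hd : Disjoint (𝔪.primeCompl : Set B) (Ideal.span {ϖ} : Ideal B) := by
    rw [Set.disjoint_left]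
    intro x hx hx'
    exact hx ((Ideal.span_singleton_le_iff_mem 𝔪).2 hm hx')
  have := IsLocalization.isPrime_of_isPrime_disjoint 𝔪.primeCompl (Localization.AtPrime 𝔪)
    (Ideal.span {ϖ}) hp hd
  rwa [Ideal.map_span, Set.image_singleton] at this

/-- Divisibility by `ϖ` descends from the localisation at `𝔪 ∋ ϖ`. -/
theorem dvd_of_algebraMap_dvd_atPrime (ϖ : B) (hϖ : Prime ϖ) (𝔪 : Ideal B) [𝔪.IsPrime]
    (hm : ϖ ∈ 𝔪) (x : B)
    (h : algebraMap B (Localization.AtPrime 𝔪) ϖ ∣ algebraMap B (Localization.AtPrime 𝔪) x) :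
    ϖ ∣ x := by
  have hinj : Function.Injective (algebraMap B (Localization.AtPrime 𝔪)) :=
    IsLocalization.injective (Localization.AtPrime 𝔪) 𝔪.primeCompl_le_nonZeroDivisors
  obtain ⟨y, hy⟩ := h
  obtain ⟨b, r, rfl⟩ := IsLocalization.exists_mk'_eq 𝔪.primeCompl y
  have h1 : algebraMap B (Localization.AtPrime 𝔪) (x * r) =
      algebraMap B (Localization.AtPrime 𝔪) (ϖ * b) := by
    rw [map_mul, map_mul, hy, mul_assoc, IsLocalization.mk'_spec]
  have h2 : x * r = ϖ * b := hinj h1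
  have h3 : ϖ ∣ x * r := ⟨b, h2⟩
  rcases hϖ.dvd_or_dvd h3 with h4 | h4
  · exact h4
  · exact absurd (𝔪.mem_of_dvd h4 hm) r.2

/-- b2 output ⟹ the local ring of the special fibre at a closed point is a principal ideal ring
(a discrete valuation ring or a field). -/
theorem isPrincipalIdealRing_quotient_atPrime [IsNoetherianRing B] (ϖ : B) (hϖ : Prime ϖ)
    (hreg : RegularAlong ϖ) (𝔪 : Ideal B) [h𝔪 : 𝔪.IsMaximal] (hm : ϖ ∈ 𝔪) :
    IsPrincipalIdealRing (Localization.AtPrime 𝔪 ⧸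
      Ideal.span {algebraMap B (Localization.AtPrime 𝔪) ϖ}) := by
  set A := Localization.AtPrime 𝔪 with hA
  set ϖA := algebraMap B A ϖ with hϖA
  have hpr : Prime ϖA := prime_algebraMap_atPrime ϖ hϖ 𝔪 hm
  have hI : (Ideal.span {ϖA}).IsPrime := (Ideal.span_singleton_prime hpr.ne_zero).2 hpr
  have : IsLocalRing (A ⧸ Ideal.span {ϖA}) :=
    IsLocalRing.of_surjective' (Ideal.Quotient.mk (Ideal.span {ϖA})) Ideal.Quotient.mk_surjective
  obtain ⟨t, htm, ht⟩ := hreg 𝔪 h𝔪 hm
  have hϖmax : ϖA ∈ IsLocalRing.maximalIdeal A :=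
    (IsLocalization.AtPrime.to_map_mem_maximal_iff A 𝔪 ϖ).2 hm
  have htmax : algebraMap B A t ∈ IsLocalRing.maximalIdeal A :=
    (IsLocalization.AtPrime.to_map_mem_maximal_iff A 𝔪 t).2 htm
  -- the maximal ideal of the quotient is generated by the image of `t`
  have key : IsLocalRing.maximalIdeal (A ⧸ Ideal.span {ϖA}) =
      Ideal.span {Ideal.Quotient.mk (Ideal.span {ϖA}) (algebraMap B A t)} := by
    apply le_antisymm
    · intro x hx
      obtain ⟨y, rfl⟩ := Ideal.Quotient.mk_surjective x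
      have hy : y ∈ IsLocalRing.maximalIdeal A := by
        rw [IsLocalRing.mem_maximalIdeal, mem_nonunits_iff] at hx ⊢
        exact fun hu => hx (hu.map _)
      obtain ⟨b, r, rfl⟩ := IsLocalization.exists_mk'_eq 𝔪.primeCompl y
      rw [IsLocalization.AtPrime.mk'_mem_maximal_iff A 𝔪] at hy
      obtain ⟨s, hs, hsb⟩ := ht b hy
      obtain ⟨c₁, c₂, hc⟩ := Ideal.mem_span_pair.1 hsb
      have hsu : IsUnit (algebraMap B A s) :=
        (IsLocalization.AtPrime.isUnit_to_map_iff A 𝔪 s).2 hs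
      have hru : IsUnit (algebraMap B A r) :=
        (IsLocalization.AtPrime.isUnit_to_map_iff A 𝔪 r).2 r.2
      obtain ⟨su, hsu'⟩ := hsu
      obtain ⟨ru, hru'⟩ := hru
      have e1 : IsLocalization.mk' A b r * algebraMap B A r = algebraMap B A b :=
        IsLocalization.mk'_spec A b r
      have e2 : algebraMap B A s * algebraMap B A b =
          algebraMap B A c₁ * ϖA + algebraMap B A c₂ * algebraMap B A t := by
        rw [← map_mul, ← hc, map_add, map_mul, map_mul]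
      have e3 : IsLocalization.mk' A b r =
          ((su⁻¹ * ru⁻¹ : Aˣ) : A) * algebraMap B A c₁ * ϖA +
            ((su⁻¹ * ru⁻¹ : Aˣ) : A) * algebraMap B A c₂ * algebraMap B A t := by
        have : IsLocalization.mk' A b r * ((su * ru : Aˣ) : A) =
            algebraMap B A c₁ * ϖA + algebraMap B A c₂ * algebraMap B A t := by
          rw [Units.val_mul, hsu', hru', ← e2, ← e1]; ring
        calc IsLocalization.mk' A b r
            = IsLocalization.mk' A b r * ((su * ru : Aˣ) : A) * ((su⁻¹ * ru⁻¹ : Aˣ) : A) := by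
              rw [mul_assoc, ← Units.val_mul]
              have : su * ru * (su⁻¹ * ru⁻¹) = 1 := by
                rw [mul_comm su⁻¹, mul_assoc, ← mul_assoc ru, mul_inv_cancel, one_mul,
                  mul_inv_cancel]
              rw [this, Units.val_one, mul_one]
          _ = _ := by rw [this]; ring
      refine Ideal.mem_span_singleton'.2
        ⟨Ideal.Quotient.mk (Ideal.span {ϖA}) (((su⁻¹ * ru⁻¹ : Aˣ) : A) * algebraMap B A c₂), ?_⟩
      rw [← map_mul, Ideal.Quotient.eq, Ideal.mem_span_singleton]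
      refine ⟨-(((su⁻¹ * ru⁻¹ : Aˣ) : A) * algebraMap B A c₁), ?_⟩
      rw [e3]; ring
    · rw [Ideal.span_singleton_le_iff_mem, IsLocalRing.mem_maximalIdeal, mem_nonunits_iff]
      intro hu
      obtain ⟨e, he⟩ := hu.exists_right_inv
      obtain ⟨e', rfl⟩ := Ideal.Quotient.mk_surjective e
      have he' : algebraMap B A t * e' - 1 ∈ Ideal.span {ϖA} := by
        rw [← Ideal.Quotient.eq, map_mul, map_one]; exact he
      obtain ⟨d, hd⟩ := Ideal.mem_span_singleton.1 he'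
      have h1 : (1 : A) = algebraMap B A t * e' - ϖA * d := by rw [← hd]; ring
      have h2 : (1 : A) ∈ IsLocalRing.maximalIdeal A := by
        rw [h1]
        exact Ideal.sub_mem _ (Ideal.mul_mem_right _ _ htmax) (Ideal.mul_mem_right _ _ hϖmax)
      exact (Ideal.ne_top_iff_one _).1 (IsLocalRing.maximalIdeal.isMaximal A).ne_top h2
  have hprin : (IsLocalRing.maximalIdeal (A ⧸ Ideal.span {ϖA})).IsPrincipal := ⟨⟨_, key⟩⟩
  exact ((tfae_of_isNoetherianRing_of_isLocalRing_of_isDomain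
    (R := A ⧸ Ideal.span {ϖA})).out 0 4).2 hprin

end LocalRing

section LocalData

variable {B : Type*} [CommRing B] [IsDomain B] [IsNoetherianRing B]
  {F : Type*} [Field F] [Algebra B F] [IsFractionRing B F]

/-- **Local data at a closed point of the special fibre**, written without denominators in `B`:
`u = a / s = (b / r) · (t₁ / t₂) ^ m` with `r ∉ 𝔪`, `t₁ ≡ t₂ ≢ 0 mod ϖ`. -/
theorem exists_local_data (ϖ : B) (hϖ : Prime ϖ) (hreg : RegularAlong ϖ) (m : ℕ) (hm : m ≠ 0)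
    (a s : B) (hs : ¬ ϖ ∣ s) (has : ϖ ∣ a - s)
    (u : F) (hu : u * algebraMap B F s = algebraMap B F a)
    (hdiv : DivisibleDivisor B m u)
    (𝔪 : Ideal B) [h𝔪 : 𝔪.IsMaximal] (hm𝔪 : ϖ ∈ 𝔪) :
    ∃ t₁ t₂ b r : B, r ∉ 𝔪 ∧ ¬ ϖ ∣ t₁ ∧ ¬ ϖ ∣ t₂ ∧ ϖ ∣ t₁ - t₂ ∧
      a * t₂ ^ m * r = b * s * t₁ ^ m := by
  classical
  set A := Localization.AtPrime 𝔪 with hA
  set f := algebraMap B A with hf
  have hinj : Function.Injective f :=
    IsLocalization.injective A 𝔪.primeCompl_le_nonZeroDivisors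
  have hinjF : Function.Injective (algebraMap B F) := IsFractionRing.injective B F
  have ha : ¬ ϖ ∣ a := by
    intro h
    apply hs
    have := dvd_sub h has
    rwa [sub_sub_cancel] at this
  have hpr : Prime (f ϖ) := prime_algebraMap_atPrime ϖ hϖ 𝔪 hm𝔪
  have hI : (Ideal.span {f ϖ}).IsPrime := (Ideal.span_singleton_prime hpr.ne_zero).2 hpr
  have : IsPrincipalIdealRing (A ⧸ Ideal.span {f ϖ}) :=
    isPrincipalIdealRing_quotient_atPrime ϖ hϖ hreg 𝔪 hm𝔪
  have : UniqueFactorizationMonoid A :=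
    ufd_of_quotient_isPrincipalIdealRing (f ϖ) hpr.ne_zero hpr.not_isUnit hI
  have hndvd : ∀ x : B, ¬ ϖ ∣ x → ¬ f ϖ ∣ f x := fun x hx h =>
    hx (dvd_of_algebraMap_dvd_atPrime ϖ hϖ 𝔪 hm𝔪 x h)
  -- the hypothesis of `local_kummer_structure`
  have hloc : ∀ π : A, Prime π → ¬ Associated π (f ϖ) → ∃ a' s' z₁ z₂ : A, ¬ π ∣ a' ∧ ¬ π ∣ s' ∧
      z₁ ≠ 0 ∧ z₂ ≠ 0 ∧ f a * s' * z₂ ^ m = a' * f s * z₁ ^ m := by
    intro π hπ _
    have hπI : (Ideal.span {π}).IsPrime := (Ideal.span_singleton_prime hπ.ne_zero).2 hπ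
    set 𝔭 : Ideal B := (Ideal.span {π}).under B with h𝔭
    have h𝔭prime : 𝔭.IsPrime := Ideal.IsPrime.under B (Ideal.span {π})
    have hht : 𝔭.height = 1 := by
      rw [h𝔭, IsLocalization.height_under 𝔪.primeCompl]
      exact Ideal.height_span_singleton_eq_one_of_mem_nonZeroDivisors
        (mem_nonZeroDivisors_of_ne_zero hπ.ne_zero) hπ.not_isUnit
    obtain ⟨t, a', s', ha', hs', heq⟩ := hdiv 𝔭 h𝔭prime hht
    have hmem : ∀ x : B, x ∉ 𝔭 → ¬ π ∣ f x := by
      intro x hx hd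
      apply hx
      rw [h𝔭, Ideal.under_def, Ideal.mem_comap, Ideal.mem_span_singleton]
      exact hd
    obtain ⟨n, d, hd, rfl⟩ := IsFractionRing.div_surjective B t
    have hd0 : d ≠ 0 := nonZeroDivisors.ne_zero hd
    have hdF : algebraMap B F d ≠ 0 := fun h => hd0 (hinjF (by rw [h, map_zero]))
    have hs0 : s ≠ 0 := fun h => hs (h ▸ dvd_zero ϖ)
    have hsF : algebraMap B F s ≠ 0 := fun h => hs0 (hinjF (by rw [h, map_zero]))
    have ha'0 : a' ≠ 0 := fun h => ha' (h ▸ 𝔭.zero_mem)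
    -- the identity in `B`
    have key : a * s' * n ^ m = a' * s * d ^ m := by
      apply hinjF
      simp only [map_mul, map_pow]
      have hu' : u = algebraMap B F a / algebraMap B F s := by
        rw [eq_div_iff hsF]; exact hu
      rw [hu', div_pow] at heq
      field_simp at heq
      linear_combination heq
    have hn0 : n ≠ 0 := by
      rintro rfl
      rw [zero_pow hm, mul_zero] at key
      have := key.symm
      rcases mul_eq_zero.1 this with h | h
      · rcases mul_eq_zero.1 h with h | h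
        · exact ha'0 h
        · exact hs0 h
      · exact hd0 (pow_eq_zero_iff hm |>.1 h)
    refine ⟨f a', f s', f d, f n, hmem a' ha', hmem s' hs', ?_, ?_, ?_⟩
    · exact fun h => hd0 (hinj (by rw [h, map_zero]))
    · exact fun h => hn0 (hinj (by rw [h, map_zero]))
    · rw [← map_pow, ← map_pow, ← map_mul, ← map_mul, ← map_mul, ← map_mul, key]
  obtain ⟨c, t₁, t₂, ht₁, ht₂, ht₁₂, -, heq⟩ :=
    local_kummer_structure (f ϖ) hpr m hm (f a) (f s) (hndvd a ha) (hndvd s hs)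
      (by rw [← map_sub]; exact map_dvd f has) hloc
  -- clear denominators
  obtain ⟨b₁, r₁, rfl⟩ := IsLocalization.exists_mk'_eq 𝔪.primeCompl t₁
  obtain ⟨b₂, r₂, rfl⟩ := IsLocalization.exists_mk'_eq 𝔪.primeCompl t₂
  obtain ⟨bc, rc, hc⟩ := IsLocalization.exists_mk'_eq 𝔪.primeCompl (c : A)
  have e₁ : f (b₁ * r₂) = IsLocalization.mk' A b₁ r₁ * (f r₁ * f r₂) := by
    rw [map_mul, ← mul_assoc, IsLocalization.mk'_spec]
  have e₂ : f (b₂ * r₁) = IsLocalization.mk' A b₂ r₂ * (f r₁ * f r₂) := by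
    rw [map_mul, mul_comm (f r₁), ← mul_assoc, IsLocalization.mk'_spec]
  have ec : (c : A) * f rc = f bc := by rw [← hc, IsLocalization.mk'_spec]
  have hr₁u : IsUnit (f r₁) := (IsLocalization.AtPrime.isUnit_to_map_iff A 𝔪 r₁).2 r₁.2
  have hr₂u : IsUnit (f r₂) := (IsLocalization.AtPrime.isUnit_to_map_iff A 𝔪 r₂).2 r₂.2
  have hru : IsUnit (f r₁ * f r₂) := hr₁u.mul hr₂u
  refine ⟨b₁ * r₂, b₂ * r₁, bc, rc, rc.2, ?_, ?_, ?_, ?_⟩
  · intro h
    have h1 : f ϖ ∣ IsLocalization.mk' A b₁ r₁ * (f r₁ * f r₂) := by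
      rw [← e₁]; exact map_dvd f h
    exact ht₁ ((hru.dvd_mul_right).1 h1)
  · intro h
    have h1 : f ϖ ∣ IsLocalization.mk' A b₂ r₂ * (f r₁ * f r₂) := by
      rw [← e₂]; exact map_dvd f h
    exact ht₂ ((hru.dvd_mul_right).1 h1)
  · apply dvd_of_algebraMap_dvd_atPrime ϖ hϖ 𝔪 hm𝔪
    rw [map_sub]
    show f ϖ ∣ f (b₁ * r₂) - f (b₂ * r₁)
    rw [e₁, e₂, ← sub_mul]
    exact Dvd.dvd.mul_right ht₁₂ _
  · apply hinj
    rw [map_mul, map_mul, map_mul, map_mul, map_pow, map_pow, e₁, e₂, ← ec]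
    have : f a * IsLocalization.mk' A b₂ r₂ ^ m =
        (c : A) * f s * IsLocalization.mk' A b₁ r₁ ^ m := heq
    rw [mul_pow, mul_pow]
    linear_combination (f r₁ * f r₂) ^ m * f rc * this

omit [IsNoetherianRing B] in
/-- Elements `σ` with `σ ^ m * u ∈ B` are closed under addition (`B` integrally closed). -/
theorem exists_add_pow_mul_eq [IsIntegrallyClosed B] (m : ℕ) (hm : m ≠ 0) (u σ₁ σ₂ : F)
    (b₁ b₂ : B) (h₁ : σ₁ ^ m * u = algebraMap B F b₁) (h₂ : σ₂ ^ m * u = algebraMap B F b₂) :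
    ∃ b : B, (σ₁ + σ₂) ^ m * u = algebraMap B F b := by
  classical
  have hterm : ∀ k ∈ Finset.range (m + 1), ∃ c : B,
      σ₁ ^ k * σ₂ ^ (m - k) * u = algebraMap B F c := by
    intro k hk
    have hk' : k ≤ m := Nat.lt_succ_iff.1 (Finset.mem_range.1 hk)
    have hpow : (σ₁ ^ k * σ₂ ^ (m - k) * u) ^ m = algebraMap B F (b₁ ^ k * b₂ ^ (m - k)) := by
      rw [map_mul, map_pow, map_pow, ← h₁, ← h₂]
      have : u ^ m = u ^ k * u ^ (m - k) := by rw [← pow_add, Nat.add_sub_cancel' hk']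
      rw [mul_pow, mul_pow, this]
      ring
    have hint : IsIntegral B (σ₁ ^ k * σ₂ ^ (m - k) * u) :=
      IsIntegral.of_pow (Nat.pos_of_ne_zero hm) (hpow ▸ isIntegral_algebraMap)
    obtain ⟨c, hc⟩ := IsIntegrallyClosed.isIntegral_iff.1 hint
    exact ⟨c, hc.symm⟩
  choose! c hc using hterm
  refine ⟨∑ k ∈ Finset.range (m + 1), c k * (m.choose k : B), ?_⟩
  rw [add_pow, Finset.sum_mul, map_sum]
  refine Finset.sum_congr rfl fun k hk => ?_
  rw [map_mul, ← hc k hk, map_natCast]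
  ring

/-- **LE, one chart.**  There is `σ ∈ F` with `σ ^ m * u ∈ 1 + ϖ B` and `σ ∈ 1 + ϖ B_(ϖ)`. -/
theorem exists_sigma [IsIntegrallyClosed B] (ϖ : B) (hϖ : Prime ϖ) (hreg : RegularAlong ϖ)
    (m : ℕ) (hm : m ≠ 0) (u : F) (hu : OneModPi ϖ u) (hdiv : DivisibleDivisor B m u) :
    ∃ σ : F, (∃ b : B, σ ^ m * u - 1 = algebraMap B F (ϖ * b)) ∧
      ∃ a' s' : B, ¬ ϖ ∣ s' ∧ (σ - 1) * algebraMap B F s' = algebraMap B F (ϖ * a') := by
  classical
  obtain ⟨a, s, hs, has, hus⟩ := hu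
  rw [Ideal.mem_span_singleton] at hs has
  have hinjF : Function.Injective (algebraMap B F) := IsFractionRing.injective B F
  have hs0 : s ≠ 0 := fun h => hs (h ▸ dvd_zero ϖ)
  have hsF : algebraMap B F s ≠ 0 := fun h => hs0 (hinjF (by rw [h, map_zero]))
  -- the ideal of "good" elements
  let Good : B → Prop := fun g => ∃ σ : F, (∃ b : B, σ ^ m * u = algebraMap B F b) ∧
    ∃ a' s' : B, ¬ ϖ ∣ s' ∧ (σ - algebraMap B F g) * algebraMap B F s' = algebraMap B F (ϖ * a')
  let I : Ideal B :=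
    { carrier := {g | Good g}
      zero_mem' := by
        refine ⟨0, ⟨0, by rw [zero_pow hm, zero_mul, map_zero]⟩, 0, 1, hϖ.not_dvd_one, ?_⟩
        simp
      add_mem' := by
        rintro g₁ g₂ ⟨σ₁, ⟨b₁, hb₁⟩, a₁, s₁, hs₁, e₁⟩ ⟨σ₂, ⟨b₂, hb₂⟩, a₂, s₂, hs₂, e₂⟩
        refine ⟨σ₁ + σ₂, exists_add_pow_mul_eq m hm u σ₁ σ₂ b₁ b₂ hb₁ hb₂,
          a₁ * s₂ + a₂ * s₁, s₁ * s₂, ?_, ?_⟩
        · exact fun h => (hϖ.dvd_or_dvd h).elim hs₁ hs₂
        · simp only [map_add, map_mul] at e₁ e₂ ⊢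
          linear_combination algebraMap B F s₂ * e₁ + algebraMap B F s₁ * e₂
      smul_mem' := by
        rintro c g ⟨σ, ⟨b, hb⟩, a', s', hs', e⟩
        refine ⟨algebraMap B F c * σ, ⟨c ^ m * b, ?_⟩, c * a', s', hs', ?_⟩
        · rw [mul_pow, mul_assoc, hb, map_mul, map_pow]
        · simp only [smul_eq_mul, map_mul] at e ⊢
          linear_combination algebraMap B F c * e }
  have hI : ∀ g : B, g ∈ I ↔ Good g := fun g => Iff.rfl
  -- `ϖ ∈ I`
  have hϖI : ϖ ∈ I := by
    obtain ⟨k, rfl⟩ : ∃ k, m = k + 1 := ⟨m - 1, by omega⟩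
    refine ⟨algebraMap B F (ϖ * s), ⟨ϖ ^ (k + 1) * s ^ k * a, ?_⟩, s - 1, 1, hϖ.not_dvd_one, ?_⟩
    · simp only [map_mul, map_pow]
      rw [← hus]; ring
    · simp only [map_mul, map_sub, map_one]; ring
  -- `I` is contained in no maximal ideal
  have htop : I = ⊤ := by
    by_contra hne
    obtain ⟨𝔪, h𝔪, hle⟩ := Ideal.exists_le_maximal I hne
    have hm𝔪 : ϖ ∈ 𝔪 := hle hϖI
    obtain ⟨t₁, t₂, b, r, hr, ht₁, ht₂, ⟨d, hd⟩, heq⟩ :=
      exists_local_data ϖ hϖ hreg m hm a s hs has u hus hdiv 𝔪 hm𝔪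
    apply hr
    apply hle
    have ht₁0 : t₁ ≠ 0 := fun h => ht₁ (h ▸ dvd_zero ϖ)
    have ht₁F : algebraMap B F t₁ ≠ 0 := fun h => ht₁0 (hinjF (by rw [h, map_zero]))
    obtain ⟨k, rfl⟩ : ∃ k, m = k + 1 := ⟨m - 1, by omega⟩
    refine ⟨algebraMap B F r * algebraMap B F t₂ / algebraMap B F t₁,
      ⟨r ^ k * b, ?_⟩, -(r * d), t₁, ht₁, ?_⟩
    · have hu' : u = algebraMap B F a / algebraMap B F s := by
        rw [eq_div_iff hsF]; exact hus
      have heqF := congrArg (algebraMap B F) heq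
      simp only [map_mul, map_pow] at heqF ⊢
      rw [hu', div_pow, div_mul_div_comm, div_eq_iff (mul_ne_zero (pow_ne_zero _ ht₁F) hsF)]
      linear_combination (algebraMap B F r) ^ k * heqF
    · have hdF := congrArg (algebraMap B F) hd
      simp only [map_mul, map_sub, map_neg] at hdF ⊢
      rw [sub_mul, div_mul_cancel₀ _ ht₁F]
      linear_combination (-(algebraMap B F r)) * hdF
  have h1 : (1 : B) ∈ I := by rw [htop]; exact Submodule.mem_top
  obtain ⟨σ, ⟨b, hb⟩, a', s', hs', e⟩ := h1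
  rw [map_one] at e
  refine ⟨σ, ?_, a', s', hs', e⟩
  -- `ϖ ∣ b - 1`
  obtain ⟨a'', ha''⟩ := has
  have key : b * s' ^ m * s = (s' + ϖ * a') ^ m * a := by
    apply hinjF
    simp only [map_mul, map_pow, map_add]
    rw [← hb, ← hus]
    have : algebraMap B F s' + algebraMap B F ϖ * algebraMap B F a' = σ * algebraMap B F s' := by
      rw [map_mul] at e
      linear_combination -e
    rw [this]; ring
  have hdvd1 : ϖ ∣ (s' + ϖ * a') ^ m - s' ^ m := by
    have := sub_dvd_pow_sub_pow (s' + ϖ * a') s' m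
    rw [add_sub_cancel_left] at this
    exact (Dvd.intro _ rfl).trans this
  have hdvd2 : ϖ ∣ (b - 1) * (s' ^ m * s) := by
    obtain ⟨e₁, he₁⟩ := hdvd1
    refine ⟨e₁ * a + s' ^ m * a'', ?_⟩
    linear_combination key + a * he₁ + s' ^ m * ha''
  have hdvd3 : ϖ ∣ b - 1 := by
    rcases hϖ.dvd_or_dvd hdvd2 with h | h
    · exact h
    · rcases hϖ.dvd_or_dvd h with h' | h'
      · exact absurd (hϖ.dvd_of_dvd_pow h') hs'
      · exact absurd h' hs
  obtain ⟨b', hb'⟩ := hdvd3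
  refine ⟨b', ?_⟩
  rw [hb, ← map_one (algebraMap B F), ← map_sub, hb']

end LocalData

section TwoCharts

variable {R : Type*} [CommRing R] {F : Type*} [Field F] [Algebra R F]

/-- In an `m`-root closed subalgebra, `{σ | σ ^ m * u ∈ M}` is closed under addition. -/
theorem add_pow_mul_mem_of_rootClosed (M : Subalgebra R F) (m : ℕ)
    (hrc : ∀ f : F, f ^ m ∈ M → f ∈ M) (u σ₁ σ₂ : F)
    (h₁ : σ₁ ^ m * u ∈ M) (h₂ : σ₂ ^ m * u ∈ M) : (σ₁ + σ₂) ^ m * u ∈ M := by
  classical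
  rw [add_pow, Finset.sum_mul]
  refine M.sum_mem fun k hk => ?_
  have hk' : k ≤ m := Nat.lt_succ_iff.1 (Finset.mem_range.1 hk)
  have hterm : σ₁ ^ k * σ₂ ^ (m - k) * u ∈ M := by
    apply hrc
    have : (σ₁ ^ k * σ₂ ^ (m - k) * u) ^ m = (σ₁ ^ m * u) ^ k * (σ₂ ^ m * u) ^ (m - k) := by
      have hu : u ^ m = u ^ k * u ^ (m - k) := by rw [← pow_add, Nat.add_sub_cancel' hk']
      rw [mul_pow, mul_pow, hu]
      ring
    rw [this]
    exact M.mul_mem (M.pow_mem h₁ _) (M.pow_mem h₂ _)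
  have : σ₁ ^ k * σ₂ ^ (m - k) * (m.choose k : F) * u =
      (m.choose k : F) * (σ₁ ^ k * σ₂ ^ (m - k) * u) := by ring
  rw [this]
  exact M.mul_mem (natCast_mem M _) hterm

/-- **LE, two charts**: exactly the input `σ₀, σ₁, h₀, h₁, h₀₁` of `H394.kummer_endgame`.

Hypotheses per chart `B ∈ {B₀, B₁}` (as a ring `↥B`): noetherian, integrally closed with fraction
field `F`, `w` prime, special fibre regular (b2), `u ≡ 1 mod w`, `m ∣ div u`.
On the overlap `M`: `m`-root closed, and saturated (`hsat`: an element `f` with `w f ∈ M` and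
`s₀ s₁ f ∈ M` for some `sᵢ ∈ Bᵢ ∖ w Bᵢ` lies in `M`; this is the `q`-expansion principle on `M`). -/
theorem local_existence (m : ℕ) (hm : m ≠ 0) (w : R) (u : F) (B₀ B₁ M : Subalgebra R F)
    (h0M : B₀ ≤ M) (h1M : B₁ ≤ M)
    [IsNoetherianRing B₀] [IsIntegrallyClosed B₀] [IsFractionRing B₀ F]
    [IsNoetherianRing B₁] [IsIntegrallyClosed B₁] [IsFractionRing B₁ F]
    (hw₀ : Prime (algebraMap R B₀ w)) (hw₁ : Prime (algebraMap R B₁ w))
    (hreg₀ : RegularAlong (algebraMap R B₀ w)) (hreg₁ : RegularAlong (algebraMap R B₁ w))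
    (hu₀ : OneModPi (algebraMap R B₀ w) u) (hu₁ : OneModPi (algebraMap R B₁ w) u)
    (hdiv₀ : DivisibleDivisor B₀ m u) (hdiv₁ : DivisibleDivisor B₁ m u)
    (hrcM : ∀ f : F, f ^ m ∈ M → f ∈ M)
    (hsat : ∀ f : F, ∀ s₀ : B₀, ¬ algebraMap R B₀ w ∣ s₀ → ∀ s₁ : B₁, ¬ algebraMap R B₁ w ∣ s₁ →
      (s₀ : F) * (s₁ : F) * f ∈ M → algebraMap R F w * f ∈ M → f ∈ M) :
    ∃ σ₀ σ₁ : F, (∃ b ∈ B₀, σ₀ ^ m * u - 1 = algebraMap R F w * b) ∧
      (∃ b ∈ B₁, σ₁ ^ m * u - 1 = algebraMap R F w * b) ∧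
      ∃ γ : F, σ₀ - σ₁ = algebraMap R F w * γ ∧ γ ^ m * u ∈ M := by
  classical
  obtain ⟨σ₀, ⟨b₀, hb₀⟩, a₀, s₀, hs₀, e₀⟩ := exists_sigma _ hw₀ hreg₀ m hm u hu₀ hdiv₀
  obtain ⟨σ₁, ⟨b₁, hb₁⟩, a₁, s₁, hs₁, e₁⟩ := exists_sigma _ hw₁ hreg₁ m hm u hu₁ hdiv₁
  obtain ⟨a, s, hs, -, hus⟩ := hu₀
  rw [Ideal.mem_span_singleton] at hs
  set W : F := algebraMap R F w with hW
  have hW0 : W ≠ 0 := by
    intro h
    apply hw₀.ne_zero
    apply Subtype.ext
    exact h
  have hc₀ : ∀ x : B₀, algebraMap B₀ F x = (x : F) := fun _ => rfl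
  have hc₁ : ∀ x : B₁, algebraMap B₁ F x = (x : F) := fun _ => rfl
  have hwc₀ : ((algebraMap R B₀ w : B₀) : F) = W := rfl
  have hwc₁ : ((algebraMap R B₁ w : B₁) : F) = W := rfl
  simp only [hc₀, Subalgebra.coe_mul, hwc₀] at hb₀ e₀ hus
  simp only [hc₁, Subalgebra.coe_mul, hwc₁] at hb₁ e₁
  refine ⟨σ₀, σ₁, ⟨b₀, b₀.2, hb₀⟩, ⟨b₁, b₁.2, hb₁⟩, (σ₀ - σ₁) / W, ?_, ?_⟩
  · rw [mul_div_cancel₀ _ hW0]
  -- `f := γ ^ m * u`
  set f : F := ((σ₀ - σ₁) / W) ^ m * u with hf
  -- (i) `W ^ m * f ∈ M`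
  have hσ₀M : σ₀ ^ m * u ∈ M := by
    have : σ₀ ^ m * u = 1 + W * b₀ := by rw [← hb₀]; ring
    rw [this]
    exact M.add_mem M.one_mem (M.mul_mem (M.algebraMap_mem w) (h0M b₀.2))
  have hσ₁M : σ₁ ^ m * u ∈ M := by
    have : σ₁ ^ m * u = 1 + W * b₁ := by rw [← hb₁]; ring
    rw [this]
    exact M.add_mem M.one_mem (M.mul_mem (M.algebraMap_mem w) (h1M b₁.2))
  have hnegM : (-σ₁) ^ m * u ∈ M := by
    rcases Nat.even_or_odd m with h | h
    · rwa [h.neg_pow]
    · rw [h.neg_pow, neg_mul]; exact M.neg_mem hσ₁M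
  have hi : W ^ m * f ∈ M := by
    have h := add_pow_mul_mem_of_rootClosed M m hrcM u σ₀ (-σ₁) hσ₀M hnegM
    have : W ^ m * f = (σ₀ + -σ₁) ^ m * u := by
      rw [hf, div_pow, ← sub_eq_add_neg]
      field_simp
    rw [this]; exact h
  -- (ii) `D * f ∈ M`
  set S₀ : B₀ := s₀ ^ m * s with hS₀
  set S₁ : B₁ := s₁ ^ m with hS₁
  have hS₀' : ¬ algebraMap R B₀ w ∣ S₀ := by
    intro h
    rcases hw₀.dvd_or_dvd h with h' | h'
    · exact hs₀ (hw₀.dvd_of_dvd_pow h')
    · exact hs h'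
  have hS₁' : ¬ algebraMap R B₁ w ∣ S₁ := fun h => hs₁ (hw₁.dvd_of_dvd_pow h)
  have hii : (S₀ : F) * (S₁ : F) * f ∈ M := by
    have hγ : (σ₀ - σ₁) / W * ((s₀ : F) * (s₁ : F)) = (a₀ : F) * s₁ - (a₁ : F) * s₀ := by
      field_simp
      linear_combination (s₁ : F) * e₀ - (s₀ : F) * e₁
    have hS₀c : (S₀ : F) = (s₀ : F) ^ m * (s : F) := by
      rw [hS₀, Subalgebra.coe_mul, Subalgebra.coe_pow]
    have hS₁c : (S₁ : F) = (s₁ : F) ^ m := by
      rw [hS₁, Subalgebra.coe_pow]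
    have : (S₀ : F) * (S₁ : F) * f = ((a₀ : F) * s₁ - (a₁ : F) * s₀) ^ m * (a : F) := by
      rw [← hγ, ← hus, hf, hS₀c, hS₁c, mul_pow, mul_pow]
      ring
    rw [this]
    exact M.mul_mem (M.pow_mem (M.sub_mem (M.mul_mem (h0M a₀.2) (h1M s₁.2))
      (M.mul_mem (h1M a₁.2) (h0M s₀.2))) _) (h0M a.2)
  -- (iii) descend
  have hdesc : ∀ k : ℕ, k ≤ m → W ^ (m - k) * f ∈ M := by
    intro k
    induction k with
    | zero => intro _; simpa using hi
    | succ k ih =>
      intro hk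
      have h1 := ih (Nat.le_of_succ_le hk)
      apply hsat _ S₀ hS₀' S₁ hS₁'
      · have : (S₀ : F) * (S₁ : F) * (W ^ (m - (k + 1)) * f) =
            W ^ (m - (k + 1)) * ((S₀ : F) * (S₁ : F) * f) := by ring
        rw [this]
        exact M.mul_mem (M.pow_mem (M.algebraMap_mem w) _) hii
      · have : W * (W ^ (m - (k + 1)) * f) = W ^ (m - k) * f := by
          rw [← mul_assoc, ← pow_succ']
          congr 2
          omega
        rw [this]; exact h1
  have := hdesc m le_rfl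
  simpa using this

end TwoCharts

end Fermat.Agent.S18.H214

end
-- ===== PACK-END S18/H214/LocalExist.lean

-- ===== PACK-BEGIN S18/H498/CechFinite.lean
section



/-!
# S18, piece b5 (continued): the torsion bound and finiteness of `C / (B₁ + B₂)`

* `exists_torsion_bound`: in a finite module over a noetherian ring, the `ϖ`-power torsion is
  killed by a fixed power `ϖ ^ c`.
* `finite_cech_quotient`: if `C = B₁[1/x]`, `B₁ ⊆ B₂[x]`, `x⁻¹ ∈ B₂` and `B₁` is a finite
  `R[x]`-module, then `C / (B₁ + B₂)` is a finite `R`-module (this is "H¹ of a projective curve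
  over `R` is finite", by hand).
* `idem_trivial_of_cech_finite`: the connectedness statement with these inputs.
-/

set_option autoImplicit false
set_option linter.style.haveILetI false

namespace Fermat.Agent.S18.H498

section Torsion

variable {R M : Type*} [CommRing R] [IsNoetherianRing R] [AddCommGroup M] [Module R M]
  [Module.Finite R M]

theorem exists_torsion_bound (ϖ : R) :
    ∃ c : ℕ, ∀ (n : ℕ) (m : M), ϖ ^ n • m = 0 → ϖ ^ c • m = 0 := by
  haveI : IsNoetherian R M := isNoetherian_of_isNoetherianRing_of_finite R M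
  let T : ℕ →o Submodule R M :=
    { toFun := fun n => LinearMap.ker (LinearMap.lsmul R M (ϖ ^ n))
      monotone' := by
        intro a b hab m hm
        simp only [LinearMap.mem_ker, LinearMap.lsmul_apply] at hm ⊢
        obtain ⟨k, rfl⟩ := Nat.exists_eq_add_of_le hab
        rw [pow_add, mul_comm, mul_smul, hm, smul_zero] }
  obtain ⟨c, hc⟩ := monotone_stabilizes_iff_noetherian.mpr ‹IsNoetherian R M› T
  have hT : ∀ (n : ℕ) (m : M), m ∈ T n ↔ ϖ ^ n • m = 0 := by
    intro n m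
    change m ∈ LinearMap.ker (LinearMap.lsmul R M (ϖ ^ n)) ↔ _
    rw [LinearMap.mem_ker, LinearMap.lsmul_apply]
  refine ⟨c, fun n m hm => ?_⟩
  rcases le_total c n with h | h
  · have hmem : m ∈ T n := (hT n m).mpr hm
    rw [← hc n h] at hmem
    exact (hT c m).mp hmem
  · obtain ⟨k, rfl⟩ := Nat.exists_eq_add_of_le h
    rw [pow_add, mul_comm, mul_smul, hm, smul_zero]

end Torsion

section Finite

variable {R C : Type*} [CommRing R] [CommRing C] [Algebra R C]

/-- Finiteness of the Čech `H¹` for two charts glued along `x ↦ x⁻¹`. -/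
theorem finite_cech_quotient (B₁ B₂ : Subalgebra R C) (x x' : C) (hx : x ∈ B₁) (hx' : x' ∈ B₂)
    (hxx' : x * x' = 1)
    (ι : Type*) [Finite ι] (g : ι → C) (hg : ∀ i, g i ∈ B₁)
    (hgen : ∀ b ∈ B₁, ∃ P : ι → Polynomial R, b = ∑ᶠ i, Polynomial.aeval x (P i) * g i)
    (hloc : ∀ y : C, ∃ n : ℕ, x ^ n * y ∈ B₁)
    (hinf : ∀ i, ∃ n : ℕ, x' ^ n * g i ∈ B₂) :
    Module.Finite R (C ⧸ (Subalgebra.toSubmodule B₁ ⊔ Subalgebra.toSubmodule B₂)) := by
  classical
  haveI : Fintype ι := Fintype.ofFinite ι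
  choose N hN using hinf
  let Nmax : ℕ := Finset.univ.sup N
  have hNmax : ∀ i, ∀ a, Nmax ≤ a → x' ^ a * g i ∈ B₂ := by
    intro i a ha
    have hle : N i ≤ a := le_trans (Finset.le_sup (f := N) (Finset.mem_univ i)) ha
    obtain ⟨k, rfl⟩ := Nat.exists_eq_add_of_le hle
    rw [pow_add, mul_comm (x' ^ N i), mul_assoc]
    exact B₂.mul_mem (B₂.pow_mem hx' k) (hN i)
  -- the finite generating family
  let W : Submodule R C := Submodule.span R
    (Set.range fun q : ι × Fin Nmax => x' ^ (q.2 : ℕ) * g q.1)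
  let S : Submodule R C := Subalgebra.toSubmodule B₁ ⊔ Subalgebra.toSubmodule B₂
  have hkey : ∀ (i : ι) (n j : ℕ), x' ^ n * (x ^ j * g i) ∈ S ⊔ W := by
    intro i n j
    rcases le_total n j with h | h
    · -- `x^(j-n) g i ∈ B₁`
      obtain ⟨k, rfl⟩ := Nat.exists_eq_add_of_le h
      have : x' ^ n * (x ^ (n + k) * g i) = x ^ k * g i := by
        rw [pow_add, ← mul_assoc, ← mul_assoc, ← mul_pow, mul_comm x' x, hxx', one_pow, one_mul]
      rw [this]
      exact Submodule.mem_sup_left (Submodule.mem_sup_left (B₁.mul_mem (B₁.pow_mem hx k) (hg i)))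
    · obtain ⟨k, rfl⟩ := Nat.exists_eq_add_of_le h
      have : x' ^ (j + k) * (x ^ j * g i) = x' ^ k * g i := by
        rw [pow_add, mul_comm (x' ^ j), mul_assoc, ← mul_assoc (x' ^ j), ← mul_pow,
          mul_comm x' x, hxx', one_pow, one_mul]
      rw [this]
      rcases lt_or_ge k Nmax with hk | hk
      · exact Submodule.mem_sup_right (Submodule.subset_span ⟨(i, ⟨k, hk⟩), rfl⟩)
      · exact Submodule.mem_sup_left (Submodule.mem_sup_right (hNmax i k hk))
  have hpoly : ∀ (i : ι) (n : ℕ) (P : Polynomial R),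
      x' ^ n * (Polynomial.aeval x P * g i) ∈ S ⊔ W := by
    intro i n P
    induction P using Polynomial.induction_on' with
    | add P Q hP hQ =>
      rw [map_add, add_mul, mul_add]
      exact Submodule.add_mem _ hP hQ
    | monomial j a =>
      rw [Polynomial.aeval_monomial, mul_assoc, ← Algebra.smul_def, mul_smul_comm]
      exact Submodule.smul_mem _ _ (hkey i n j)
  have htop : S ⊔ W = ⊤ := by
    rw [eq_top_iff]
    intro y _
    obtain ⟨n, hn⟩ := hloc y
    obtain ⟨P, hP⟩ := hgen _ hn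
    have hy : y = x' ^ n * (x ^ n * y) := by
      rw [← mul_assoc, ← mul_pow, mul_comm x' x, hxx', one_pow, one_mul]
    rw [hy, hP, finsum_eq_sum_of_fintype, Finset.mul_sum]
    exact Submodule.sum_mem _ fun i _ => hpoly i n (P i)
  have hWfg : W.FG := Submodule.fg_span (Set.finite_range _)
  -- `C ⧸ S` is the image of `W`
  have hsurj : Function.Surjective (S.mkQ.comp W.subtype) := by
    intro q
    obtain ⟨y, rfl⟩ := S.mkQ_surjective q
    have hy : y ∈ S ⊔ W := htop ▸ Submodule.mem_top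
    obtain ⟨s, hs, w, hw, rfl⟩ := Submodule.mem_sup.mp hy
    refine ⟨⟨w, hw⟩, ?_⟩
    simp only [LinearMap.comp_apply, Submodule.subtype_apply, Submodule.mkQ_apply,
      Submodule.Quotient.mk_add]
    rw [(Submodule.Quotient.mk_eq_zero S).mpr hs, zero_add]
  haveI : Module.Finite R W := Module.Finite.iff_fg.mpr hWfg
  exact Module.Finite.of_surjective _ hsurj

end Finite

section Main

variable {R C : Type*} [CommRing R] [IsLocalRing R] [IsNoetherianRing R] [CommRing C]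
  [Algebra R C]

/-- Connectedness with the finiteness hypothesis on `C / (B₁ + B₂)`. -/
theorem idem_trivial_of_cech_finite (ϖ : R) (B₁ B₂ : Subalgebra R C)
    (hint : ∀ y : C, y ∈ B₁ → y ∈ B₂ → ∃ r : R, algebraMap R C r = y)
    [Module.Finite R (C ⧸ (Subalgebra.toSubmodule B₁ ⊔ Subalgebra.toSubmodule B₂))]
    (e₁ e₂ : C) (he₁ : e₁ ∈ B₁) (he₂ : e₂ ∈ B₂)
    (h₁ : ∃ a ∈ B₁, e₁ ^ 2 - e₁ = algebraMap R C ϖ * a)
    (h₂ : ∃ a ∈ B₂, e₂ ^ 2 - e₂ = algebraMap R C ϖ * a)
    (h₁₂ : ∃ y : C, e₁ - e₂ = algebraMap R C ϖ * y) :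
    (∃ a ∈ B₁, e₁ = algebraMap R C ϖ * a) ∨ (∃ a ∈ B₁, 1 - e₁ = algebraMap R C ϖ * a) := by
  obtain ⟨c, hc⟩ := exists_torsion_bound
    (M := C ⧸ (Subalgebra.toSubmodule B₁ ⊔ Subalgebra.toSubmodule B₂)) ϖ
  refine idem_trivial_of_cech ϖ B₁ B₂ hint c ?_ e₁ e₂ he₁ he₂ h₁ h₂ h₁₂
  intro n y hy
  have hmem : ∀ k : ℕ, (∃ b₁ ∈ B₁, ∃ b₂ ∈ B₂, algebraMap R C ϖ ^ k * y = b₁ + b₂) ↔
      ϖ ^ k • (Submodule.Quotient.mk y :
        C ⧸ (Subalgebra.toSubmodule B₁ ⊔ Subalgebra.toSubmodule B₂)) = 0 := by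
    intro k
    rw [← Submodule.Quotient.mk_smul, Submodule.Quotient.mk_eq_zero, Submodule.mem_sup,
      Algebra.smul_def, map_pow]
    constructor
    · rintro ⟨b₁, hb₁, b₂, hb₂, h⟩
      exact ⟨b₁, hb₁, b₂, hb₂, h.symm⟩
    · rintro ⟨b₁, hb₁, b₂, hb₂, h⟩
      exact ⟨b₁, hb₁, b₂, hb₂, h.symm⟩
  exact (hmem c).mpr (hc n _ ((hmem n).mp hy))

end Main

end Fermat.Agent.S18.H498

end
-- ===== PACK-END S18/H498/CechFinite.lean

-- ===== PACK-BEGIN S18/H394/KummerEndgame.lean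
section




/-!
# S18, Route K, pieces b3+b4 (helper394): the Kummer endgame

Abstract statement (`kummer_endgame_aux`): two charts `B₀, B₁ ⊆ M ⊆ F` over a noetherian local
ring `R`, an element `u ∈ F` of exact order `m` modulo constants and `m`-th powers, and
"local existence" data `σ₀, σ₁` (`σⱼ ^ m * u ≡ 1 mod w Bⱼ`, `σ₀ ≡ σ₁`) are contradictory.
The proof applies the two-chart connectedness theorem (b5, `H498.idem_trivial_of_cech_finite`)
to the graded Kummer algebra of `Graded.lean`.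
-/

set_option autoImplicit false

namespace Fermat.Agent.S18.H394

open Polynomial

section Identities

variable {C : Type*} [CommRing C]

theorem idem_identity (t β ω ν : C) (n : ℕ) (hn : ν * (n : C) = 1) (ht : t ^ n = 1 + ω * β) :
    (ν * ∑ i ∈ Finset.range n, t ^ i) ^ 2 - ν * ∑ i ∈ Finset.range n, t ^ i =
      ω * (ν ^ 2 * β * ∑ i ∈ Finset.range n, ∑ j ∈ Finset.range i, t ^ j) := by
  set S := ∑ i ∈ Finset.range n, t ^ i with hS
  have h1 : S * (t - 1) = ω * β := by rw [hS, geom_sum_mul, ht]; ring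
  have h2 : S * S - (n : C) * S = (∑ i ∈ Finset.range n, ∑ j ∈ Finset.range i, t ^ j) * (ω * β) := by
    have : S * S - (n : C) * S = ∑ i ∈ Finset.range n, (t ^ i - 1) * S := by
      rw [← Finset.sum_mul, Finset.sum_sub_distrib, ← hS]
      simp [sub_mul]
    rw [this, Finset.sum_mul]
    refine Finset.sum_congr rfl fun i _ => ?_
    rw [← geom_sum_mul, mul_assoc, mul_comm (t - 1) S, h1]
  have h3 : (ν * S) ^ 2 - ν * S = ν ^ 2 * (S * S - (n : C) * S) + ν * (ν * (n : C) - 1) * S := by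
    ring
  rw [h3, h2, hn]
  ring

theorem diff_identity (t₀ t₁ : C) (n : ℕ) :
    ∑ i ∈ Finset.range n, t₀ ^ i - ∑ i ∈ Finset.range n, t₁ ^ i =
      (t₀ - t₁) * ∑ i ∈ Finset.range n, ∑ a ∈ Finset.range i, t₀ ^ a * t₁ ^ (i - 1 - a) := by
  rw [← Finset.sum_sub_distrib, Finset.mul_sum]
  refine Finset.sum_congr rfl fun i _ => ?_
  rw [← geom_sum₂_mul, mul_comm]

end Identities

section Localisation

variable {R F C : Type*} [CommRing R] [Field F] [Algebra R F] [CommRing C] [Algebra F C]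
  [Algebra R C] [IsScalarTower R F C]

/-- If `M = B[1/z]` then the Kummer algebra of `M` is the localisation of that of `B`. -/
theorem exists_pow_mul_mem_kummerSub (pb : PowerBasis F C) (u : F)
    (hT : pb.gen ^ pb.dim = algebraMap F C u) (hm0 : 0 < pb.dim)
    (B M : Subalgebra R F) (hB : RootClosed pb.dim B) (hM : RootClosed pb.dim M)
    (z : F) (hz : z ∈ B) (hloc : ∀ y ∈ M, ∃ n : ℕ, z ^ n * y ∈ B)
    (c : C) (hc : c ∈ kummerSub pb u hT hm0 M hM) :
    ∃ n : ℕ, algebraMap F C z ^ n * c ∈ kummerSub pb u hT hm0 B hB := by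
  classical
  have h : ∀ k : Fin pb.dim, ∃ n : ℕ, z ^ n * (co pb k c ^ pb.dim * u ^ (k : ℕ)) ∈ B :=
    fun k => hloc _ (hc k)
  choose N hN using h
  refine ⟨∑ k, N k, fun k => ?_⟩
  rw [← map_pow, co_algebraMap_mul, mem_degSet]
  have hle : N k ≤ (∑ k, N k) * pb.dim := by
    calc N k ≤ ∑ k, N k := Finset.single_le_sum (fun _ _ => Nat.zero_le _) (Finset.mem_univ k)
      _ ≤ (∑ k, N k) * pb.dim := Nat.le_mul_of_pos_right _ hm0
  obtain ⟨d, hd⟩ := Nat.exists_eq_add_of_le hle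
  have : (z ^ (∑ k, N k) * co pb k c) ^ pb.dim * u ^ (k : ℕ)
      = z ^ d * (z ^ N k * (co pb k c ^ pb.dim * u ^ (k : ℕ))) := by
    rw [mul_pow, ← pow_mul, hd, pow_add]
    ring
  rw [this]
  exact B.mul_mem (B.pow_mem hz d) (hN k)

end Localisation

section Main

variable {R F C : Type*} [CommRing R] [IsLocalRing R] [IsNoetherianRing R] [Field F] [Algebra R F]
  [CommRing C] [Algebra F C] [Algebra R C] [IsScalarTower R F C]

omit [IsLocalRing R] [IsNoetherianRing R] in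
/-- The intersection of the two Kummer charts consists of constants. -/
theorem kummerSub_inf (pb : PowerBasis F C) (u : F)
    (hT : pb.gen ^ pb.dim = algebraMap F C u) (hm0 : 0 < pb.dim)
    (B₀ B₁ : Subalgebra R F) (hrc0 : RootClosed pb.dim B₀) (hrc1 : RootClosed pb.dim B₁)
    (hint : ∀ y : F, y ∈ B₀ → y ∈ B₁ → ∃ r : R, algebraMap R F r = y)
    (hord : ∀ i : ℕ, 0 < i → i < pb.dim → ∀ f : F, f ≠ 0 → ∀ r : R,
        f ^ pb.dim * u ^ i ≠ algebraMap R F r)
    (c : C) (h0 : c ∈ kummerSub pb u hT hm0 B₀ hrc0) (h1 : c ∈ kummerSub pb u hT hm0 B₁ hrc1) :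
    ∃ r : R, algebraMap R C r = c := by
  classical
  have hk : ∀ k : Fin pb.dim, (k : ℕ) ≠ 0 → co pb k c = 0 := by
    intro k hk0
    by_contra hne
    obtain ⟨r, hr⟩ := hint _ (h0 k) (h1 k)
    exact hord k (Nat.pos_of_ne_zero hk0) k.2 _ hne r hr.symm
  have h00 : co pb ⟨0, hm0⟩ c ∈ B₀ := mem_of_mem_degSet_zero hrc0 (h0 ⟨0, hm0⟩)
  have h01 : co pb ⟨0, hm0⟩ c ∈ B₁ := mem_of_mem_degSet_zero hrc1 (h1 ⟨0, hm0⟩)
  obtain ⟨r, hr⟩ := hint _ h00 h01
  refine ⟨r, ?_⟩
  rw [← sum_co pb c, Finset.sum_eq_single (⟨0, hm0⟩ : Fin pb.dim)]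
  · rw [← hr, pow_zero, mul_one, ← IsScalarTower.algebraMap_apply]
  · intro k _ hk0
    rw [hk k (fun h => hk0 (Fin.ext h)), map_zero, zero_mul]
  · intro h
    exact absurd (Finset.mem_univ _) h

/-- **Kummer endgame (abstract form).**  See the module docstring. -/
theorem kummer_endgame_aux
    (pb : PowerBasis F C) (u : F) (hT : pb.gen ^ pb.dim = algebraMap F C u)
    (hm0 : 0 < pb.dim) (hm1 : 1 < pb.dim)
    (ν : R) (hν : ν * (pb.dim : R) = 1)
    (w : R)
    (B₀ B₁ M : Subalgebra R F)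
    (hrc0 : RootClosed pb.dim B₀) (hrc1 : RootClosed pb.dim B₁) (hrcM : RootClosed pb.dim M)
    (x : F) (hx0 : x ≠ 0) (hx : x ∈ B₀) (hx' : x⁻¹ ∈ B₁)
    (h0M : B₀ ≤ M) (h1M : B₁ ≤ M)
    (hloc0 : ∀ y ∈ M, ∃ n : ℕ, x ^ n * y ∈ B₀)
    (hloc1 : ∀ y ∈ M, ∃ n : ℕ, x⁻¹ ^ n * y ∈ B₁)
    (hint : ∀ y : F, y ∈ B₀ → y ∈ B₁ → ∃ r : R, algebraMap R F r = y)
    (ι : Type*) [Finite ι] (g : ι → C)
    (hg : ∀ i, g i ∈ kummerSub pb u hT hm0 B₀ hrc0)
    (hgen : ∀ b ∈ kummerSub pb u hT hm0 B₀ hrc0, ∃ P : ι → Polynomial R,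
        b = ∑ᶠ i, Polynomial.aeval (algebraMap F C x) (P i) * g i)
    (hw1 : ∀ b ∈ B₀, algebraMap R F w * b ≠ 1)
    (hord : ∀ i : ℕ, 0 < i → i < pb.dim → ∀ f : F, f ≠ 0 → ∀ r : R,
        f ^ pb.dim * u ^ i ≠ algebraMap R F r)
    (σ₀ σ₁ : F)
    (h₀ : ∃ b ∈ B₀, σ₀ ^ pb.dim * u - 1 = algebraMap R F w * b)
    (h₁ : ∃ b ∈ B₁, σ₁ ^ pb.dim * u - 1 = algebraMap R F w * b)
    (h₀₁ : ∃ γ : F, σ₀ - σ₁ = algebraMap R F w * γ ∧ γ ^ pb.dim * u ∈ M) : False := by
  classical
  haveI : Fintype ι := Fintype.ofFinite ι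
  obtain ⟨b₀, hb₀, hσ₀⟩ := h₀
  obtain ⟨b₁, hb₁, hσ₁⟩ := h₁
  obtain ⟨γ, hγ, hγM⟩ := h₀₁
  -- the three Kummer algebras
  set K0 := kummerSub pb u hT hm0 B₀ hrc0 with hK0
  set K1 := kummerSub pb u hT hm0 B₁ hrc1 with hK1
  set KM := kummerSub pb u hT hm0 M hrcM with hKM
  have hK0M : K0 ≤ KM := kummerSub_mono hT hm0 hrc0 hrcM h0M
  have hK1M : K1 ≤ KM := kummerSub_mono hT hm0 hrc1 hrcM h1M
  -- basic elements
  have hwC : algebraMap R C w = algebraMap F C (algebraMap R F w) :=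
    IsScalarTower.algebraMap_apply R F C w
  have hνC : algebraMap R C ν * ((pb.dim : ℕ) : C) = 1 := by
    rw [← map_natCast (algebraMap R C), ← map_mul, hν, map_one]
  set t₀ : C := algebraMap F C σ₀ * pb.gen with ht₀
  set t₁ : C := algebraMap F C σ₁ * pb.gen with ht₁
  have hσ₀B : σ₀ ∈ degSet B₀ pb.dim u 1 := by
    rw [mem_degSet, pow_one]
    have : σ₀ ^ pb.dim * u = 1 + algebraMap R F w * b₀ := by rw [← hσ₀]; ring
    rw [this]
    exact B₀.add_mem B₀.one_mem (B₀.mul_mem (B₀.algebraMap_mem w) hb₀)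
  have hσ₁B : σ₁ ∈ degSet B₁ pb.dim u 1 := by
    rw [mem_degSet, pow_one]
    have : σ₁ ^ pb.dim * u = 1 + algebraMap R F w * b₁ := by rw [← hσ₁]; ring
    rw [this]
    exact B₁.add_mem B₁.one_mem (B₁.mul_mem (B₁.algebraMap_mem w) hb₁)
  have ht₀K : t₀ ∈ K0 := by
    have := monomial_mem_kummerSub hT hm0 hrc0 hσ₀B
    rwa [pow_one] at this
  have ht₁K : t₁ ∈ K1 := by
    have := monomial_mem_kummerSub hT hm0 hrc1 hσ₁B
    rwa [pow_one] at this
  have ht₀m : t₀ ^ pb.dim = 1 + algebraMap R C w * algebraMap F C b₀ := by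
    rw [ht₀, mul_pow, hT, ← map_pow, ← map_mul, hwC, ← map_mul, ← map_one (algebraMap F C),
      ← map_add]
    congr 1
    rw [← hσ₀]; ring
  have ht₁m : t₁ ^ pb.dim = 1 + algebraMap R C w * algebraMap F C b₁ := by
    rw [ht₁, mul_pow, hT, ← map_pow, ← map_mul, hwC, ← map_mul, ← map_one (algebraMap F C),
      ← map_add]
    congr 1
    rw [← hσ₁]; ring
  set E₀ : C := algebraMap R C ν * ∑ i ∈ Finset.range pb.dim, t₀ ^ i with hE₀
  set E₁ : C := algebraMap R C ν * ∑ i ∈ Finset.range pb.dim, t₁ ^ i with hE₁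
  have hE₀K : E₀ ∈ K0 :=
    K0.mul_mem (K0.algebraMap_mem ν) (K0.sum_mem fun i _ => K0.pow_mem ht₀K i)
  have hE₁K : E₁ ∈ K1 :=
    K1.mul_mem (K1.algebraMap_mem ν) (K1.sum_mem fun i _ => K1.pow_mem ht₁K i)
  -- idempotent mod `w`
  have hid₀ : ∃ a ∈ K0, E₀ ^ 2 - E₀ = algebraMap R C w * a := by
    refine ⟨_, ?_, idem_identity t₀ (algebraMap F C b₀) (algebraMap R C w) (algebraMap R C ν)
      pb.dim hνC ht₀m⟩
    refine K0.mul_mem (K0.mul_mem (K0.pow_mem (K0.algebraMap_mem ν) 2)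
      (algebraMap_mem_kummerSub hT hm0 hrc0 hb₀)) ?_
    exact K0.sum_mem fun i _ => K0.sum_mem fun j _ => K0.pow_mem ht₀K j
  have hid₁ : ∃ a ∈ K1, E₁ ^ 2 - E₁ = algebraMap R C w * a := by
    refine ⟨_, ?_, idem_identity t₁ (algebraMap F C b₁) (algebraMap R C w) (algebraMap R C ν)
      pb.dim hνC ht₁m⟩
    refine K1.mul_mem (K1.mul_mem (K1.pow_mem (K1.algebraMap_mem ν) 2)
      (algebraMap_mem_kummerSub hT hm0 hrc1 hb₁)) ?_
    exact K1.sum_mem fun i _ => K1.sum_mem fun j _ => K1.pow_mem ht₁K j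
  -- compatibility on the overlap
  have hγK : algebraMap F C γ * pb.gen ∈ KM := by
    have hγd : γ ∈ degSet M pb.dim u 1 := by rw [mem_degSet, pow_one]; exact hγM
    have := monomial_mem_kummerSub hT hm0 hrcM hγd
    rwa [pow_one] at this
  have hdiff : ∃ y ∈ KM, E₀ - E₁ = algebraMap R C w * y := by
    refine ⟨algebraMap R C ν * ((algebraMap F C γ * pb.gen) *
      ∑ i ∈ Finset.range pb.dim, ∑ a ∈ Finset.range i, t₀ ^ a * t₁ ^ (i - 1 - a)), ?_, ?_⟩
    · refine KM.mul_mem (KM.algebraMap_mem ν) (KM.mul_mem hγK ?_)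
      exact KM.sum_mem fun i _ => KM.sum_mem fun a _ =>
        KM.mul_mem (KM.pow_mem (hK0M ht₀K) a) (KM.pow_mem (hK1M ht₁K) _)
    · have htt : t₀ - t₁ = algebraMap R C w * (algebraMap F C γ * pb.gen) := by
        rw [ht₀, ht₁, ← sub_mul, ← map_sub, hγ, map_mul, hwC, mul_assoc]
      rw [hE₀, hE₁, ← mul_sub, diff_identity, htt]
      ring
  -- the ambient ring and the charts
  let C0 : Subalgebra R KM := K0.comap KM.val
  let C1 : Subalgebra R KM := K1.comap KM.val
  have hxK0 : algebraMap F C x ∈ K0 := algebraMap_mem_kummerSub hT hm0 hrc0 hx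
  have hxK1 : algebraMap F C x⁻¹ ∈ K1 := algebraMap_mem_kummerSub hT hm0 hrc1 hx'
  let xK : KM := ⟨algebraMap F C x, hK0M hxK0⟩
  let xK' : KM := ⟨algebraMap F C x⁻¹, hK1M hxK1⟩
  have hxx' : xK * xK' = 1 := by
    apply Subtype.ext
    show algebraMap F C x * algebraMap F C x⁻¹ = 1
    rw [← map_mul, mul_inv_cancel₀ hx0, map_one]
  have hlocK : ∀ y : KM, ∃ n : ℕ, xK ^ n * y ∈ C0 := by
    intro y
    obtain ⟨n, hn⟩ := exists_pow_mul_mem_kummerSub pb u hT hm0 B₀ M hrc0 hrcM x hx hloc0 y y.2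
    exact ⟨n, hn⟩
  have hlocK' : ∀ y : KM, ∃ n : ℕ, xK' ^ n * y ∈ C1 := by
    intro y
    obtain ⟨n, hn⟩ := exists_pow_mul_mem_kummerSub pb u hT hm0 B₁ M hrc1 hrcM x⁻¹ hx' hloc1 y y.2
    exact ⟨n, hn⟩
  let gK : ι → KM := fun i => ⟨g i, hK0M (hg i)⟩
  have hgenK : ∀ b ∈ C0, ∃ P : ι → Polynomial R, b = ∑ᶠ i, Polynomial.aeval xK (P i) * gK i := by
    intro b hb
    obtain ⟨P, hP⟩ := hgen (b : C) hb
    refine ⟨P, Subtype.ext ?_⟩
    rw [hP, finsum_eq_sum_of_fintype, finsum_eq_sum_of_fintype]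
    rw [show ((∑ i, Polynomial.aeval xK (P i) * gK i : KM) : C)
        = KM.val (∑ i, Polynomial.aeval xK (P i) * gK i) from rfl, map_sum]
    refine Finset.sum_congr rfl fun i _ => ?_
    rw [map_mul, ← Polynomial.aeval_algHom_apply]
    rfl
  haveI : Module.Finite R (↥KM ⧸ (Subalgebra.toSubmodule C0 ⊔ Subalgebra.toSubmodule C1)) :=
    H498.finite_cech_quotient C0 C1 xK xK' hxK0 hxK1 hxx' ι gK hg hgenK hlocK
      (fun i => hlocK' (gK i))
  have hintK : ∀ y : KM, y ∈ C0 → y ∈ C1 → ∃ r : R, algebraMap R KM r = y := by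
    intro y hy0 hy1
    obtain ⟨r, hr⟩ := kummerSub_inf pb u hT hm0 B₀ B₁ hrc0 hrc1 hint hord (y : C) hy0 hy1
    exact ⟨r, Subtype.ext hr⟩
  let e₀ : KM := ⟨E₀, hK0M hE₀K⟩
  let e₁ : KM := ⟨E₁, hK1M hE₁K⟩
  have h1K : ∃ a ∈ C0, e₀ ^ 2 - e₀ = algebraMap R KM w * a := by
    obtain ⟨a, ha, h⟩ := hid₀
    exact ⟨⟨a, hK0M ha⟩, ha, Subtype.ext h⟩
  have h2K : ∃ a ∈ C1, e₁ ^ 2 - e₁ = algebraMap R KM w * a := by
    obtain ⟨a, ha, h⟩ := hid₁
    exact ⟨⟨a, hK1M ha⟩, ha, Subtype.ext h⟩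
  have h12K : ∃ y : KM, e₀ - e₁ = algebraMap R KM w * y := by
    obtain ⟨y, hy, h⟩ := hdiff
    exact ⟨⟨y, hy⟩, Subtype.ext h⟩
  have hconcl := H498.idem_trivial_of_cech_finite w C0 C1 hintK e₀ e₁ hE₀K hE₁K h1K h2K h12K
  -- the coefficient of `T` in `E₀`
  let k1 : Fin pb.dim := ⟨1, hm1⟩
  have hco1 : co pb k1 (1 : C) = 0 := by
    have h1 : (1 : C) = algebraMap F C 1 * pb.gen ^ (0 * pb.dim + ((⟨0, hm0⟩ : Fin pb.dim) : ℕ)) := by
      simp
    rw [h1, co_monomial pb hT, if_neg]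
    intro h
    have := congrArg Fin.val h
    simp [k1] at this
  have hcoE : co pb k1 E₀ = algebraMap R F ν * σ₀ := by
    have hE : E₀ = ∑ i : Fin pb.dim,
        algebraMap F C (algebraMap R F ν * σ₀ ^ (i : ℕ)) * pb.gen ^ (0 * pb.dim + (i : ℕ)) := by
      rw [hE₀, ← Fin.sum_univ_eq_sum_range (fun i => t₀ ^ i) pb.dim, Finset.mul_sum]
      refine Finset.sum_congr rfl fun i _ => ?_
      rw [ht₀, mul_pow, zero_mul, zero_add, map_mul, map_pow,
        ← IsScalarTower.algebraMap_apply R F C, mul_assoc]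
    rw [hE, map_sum]
    rw [Finset.sum_congr rfl (fun i _ => co_monomial pb hT _ 0 i k1)]
    rw [Finset.sum_ite_eq' Finset.univ k1]
    simp [k1]
  have hfinal : ∀ a₁ : F, a₁ ∈ degSet B₀ pb.dim u 1 → ∀ ε : F, (ε = 1 ∨ ε = -1) →
      algebraMap R F ν * σ₀ = ε * (algebraMap R F w * a₁) → False := by
    intro a₁ ha₁ ε hε h
    rw [mem_degSet, pow_one] at ha₁
    have hνF : algebraMap R F ν * ((pb.dim : ℕ) : F) = 1 := by
      rw [← map_natCast (algebraMap R F), ← map_mul, hν, map_one]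
    have hσ : σ₀ = ((pb.dim : ℕ) : F) * ε * algebraMap R F w * a₁ := by
      calc σ₀ = (algebraMap R F ν * ((pb.dim : ℕ) : F)) * σ₀ := by rw [hνF, one_mul]
        _ = ((pb.dim : ℕ) : F) * (algebraMap R F ν * σ₀) := by ring
        _ = ((pb.dim : ℕ) : F) * ε * algebraMap R F w * a₁ := by rw [h]; ring
    obtain ⟨d, hd⟩ : ∃ d, pb.dim = d + 1 := Nat.exists_eq_succ_of_ne_zero hm0.ne'
    have hεB : ε ∈ B₀ := by
      rcases hε with rfl | rfl
      · exact B₀.one_mem
      · exact B₀.neg_mem B₀.one_mem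
    have hkey : (1 : F) = algebraMap R F w *
        ((((pb.dim : ℕ) : F) * ε) ^ pb.dim * algebraMap R F w ^ d * (a₁ ^ pb.dim * u) - b₀) := by
      have h1 : σ₀ ^ pb.dim * u = algebraMap R F w *
          ((((pb.dim : ℕ) : F) * ε) ^ pb.dim * algebraMap R F w ^ d * (a₁ ^ pb.dim * u)) := by
        conv_lhs => rw [hσ]
        rw [mul_pow, mul_pow]
        conv_lhs => rw [show algebraMap R F w ^ pb.dim = algebraMap R F w ^ d * algebraMap R F w
          from by rw [hd, pow_succ]]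
        ring
      rw [mul_sub, ← h1, ← hσ₀]
      ring
    refine hw1 _ ?_ hkey.symm
    refine B₀.sub_mem (B₀.mul_mem (B₀.mul_mem (B₀.pow_mem (B₀.mul_mem (natCast_mem B₀ _) hεB) _)
      (B₀.pow_mem (B₀.algebraMap_mem w) d)) ha₁) hb₀
  rcases hconcl with ⟨a, ha, hEa⟩ | ⟨a, ha, hEa⟩
  · have hEa' : E₀ = algebraMap R C w * (a : C) := congrArg Subtype.val hEa
    have h := congrArg (co pb k1) hEa'
    rw [hcoE, hwC, co_algebraMap_mul] at h
    exact hfinal (co pb k1 (a : C)) (ha k1) 1 (Or.inl rfl) (by rw [h, one_mul])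
  · have hEa' : 1 - E₀ = algebraMap R C w * (a : C) := congrArg Subtype.val hEa
    have h := congrArg (co pb k1) hEa'
    rw [map_sub, hco1, hcoE, hwC, co_algebraMap_mul, zero_sub] at h
    refine hfinal (co pb k1 (a : C)) (ha k1) (-1) (Or.inr rfl) ?_
    rw [neg_one_mul, ← h, neg_neg]

end Main

end Fermat.Agent.S18.H394

end
-- ===== PACK-END S18/H394/KummerEndgame.lean

-- ===== PACK-BEGIN A2/H372/Radical.lean
section


/-!
# A2 / MOD M5 (d4) : `p₁ + p₂` is a radical ideal (helper372)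

Corollaries of `Fermat.Agent.A2.H372.Transversal` in the exact form of the field
`SSChart.transversal` of `Fermat/Agent/A2/Spec.lean` (row-lead helper13):
`(P₁ ⊔ P₂).IsRadical`.

* `isRadical_of_local` : an ideal `J` such that every maximal ideal `n ⊇ J` is generated by `J`
  locally at `n` (elementwise form) is radical.
* `KronCong.sup_isRadical` : transversality from the (semilinear) Kronecker congruences, `α` onto
  `B/P₁`, and local generators of the first branch at the crossing points.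
* `KronCong.sup_isRadical_of_isDedekindDomain` : the same when the first branch
  `A ⧸ comap α P₁` is a Dedekind domain (= `B_M / w` normal, S18 b2 at level `M`).
-/

set_option autoImplicit false

namespace Fermat.Agent.A2.H372

open Ideal

variable {A B : Type*} [CommRing A] [CommRing B]

/-- An ideal which, locally at every maximal ideal containing it, is equal to that maximal
ideal, is radical. -/
theorem isRadical_of_local {J : Ideal B}
    (h : ∀ n : Ideal B, n.IsMaximal → J ≤ n → ∀ x ∈ n, ∃ t : B, t ∉ n ∧ t * x ∈ J) :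
    J.IsRadical := by
  intro x hx
  -- the conductor `I = (J : x)`
  let I : Ideal B :=
    { carrier := {t | t * x ∈ J}
      add_mem' := fun {a b} ha hb => by
        change (a + b) * x ∈ J
        rw [add_mul]; exact J.add_mem ha hb
      zero_mem' := by simp
      smul_mem' := fun c a ha => by
        change c * a * x ∈ J
        rw [mul_assoc]; exact J.mul_mem_left c ha }
  have hI : ∀ t, t ∈ I ↔ t * x ∈ J := fun t => Iff.rfl
  by_contra hxJ
  have hne : I ≠ ⊤ := by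
    intro htop
    have : (1 : B) ∈ I := by rw [htop]; trivial
    rw [hI, one_mul] at this
    exact hxJ this
  obtain ⟨n, hn, hIn⟩ := Ideal.exists_le_maximal I hne
  have hJI : J ≤ I := fun t ht => (hI t).mpr (J.mul_mem_right x ht)
  have hJn : J ≤ n := hJI.trans hIn
  have hxn : x ∈ n := by
    obtain ⟨k, hk⟩ := hx
    exact hn.isPrime.mem_of_pow_mem k (hJn hk)
  obtain ⟨t, ht, htx⟩ := h n hn hJn x hxn
  exact ht (hIn ((hI t).mpr htx))

/-- **Transversality** (`SSChart.transversal`): `P₁ + P₂` is radical. -/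
theorem KronCong.sup_isRadical {q : ℕ} (hq : 2 ≤ q) {α β : A →+* B} {P₁ P₂ : Ideal B}
    (h : KronCong q α β P₁ P₂) (hα : ∀ b : B, ∃ a : A, b - α a ∈ P₁)
    (huni : ∀ n : Ideal B, n.IsMaximal → P₁ ≤ n → P₂ ≤ n → ∃ a₀ : A, IsBranchUnif α P₁ n a₀) :
    (P₁ ⊔ P₂).IsRadical := by
  refine isRadical_of_local fun n hn hJn x hx => ?_
  have hP₁ : P₁ ≤ n := le_sup_left.trans hJn
  have hP₂ : P₂ ≤ n := le_sup_right.trans hJn
  obtain ⟨a₀, ha₀⟩ := huni n hn hP₁ hP₂
  have := hn.isPrime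
  exact h.mem_sup_of_mem hq hP₁ hP₂ hα ha₀ hx

/-- **Transversality** when the first branch is a Dedekind domain. -/
theorem KronCong.sup_isRadical_of_isDedekindDomain {q : ℕ} (hq : 2 ≤ q) {α β : A →+* B}
    {P₁ P₂ : Ideal B} (h : KronCong q α β P₁ P₂) (hα : ∀ b : B, ∃ a : A, b - α a ∈ P₁)
    [IsDedekindDomain (A ⧸ Ideal.comap α P₁)] :
    (P₁ ⊔ P₂).IsRadical :=
  h.sup_isRadical hq hα fun n hn hP₁ _ =>
    haveI := hn.isPrime
    exists_isBranchUnif_of_isDedekindDomain α P₁ n hP₁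

end Fermat.Agent.A2.H372

end
-- ===== PACK-END A2/H372/Radical.lean

-- ===== PACK-BEGIN A2/H372/NodeLoc.lean
section


/-!
# A2 / NODE-LOC : from the global semistable chart to the local data at a closed point (helper372)

Adapter between MODEL (global statements on a chart `B`: the fields of `SSChart` in
`Fermat/Agent/A2/Spec.lean`) and the local purity / LP lemmas
(`A2.H609.exists_unit_mul_pow_of_node`, `exists_unit_mul_pow_of_smooth`, `A2.H673`, `A2.H672`),
which live in the local ring `O = B_n` at a closed point `n` of the special fibre.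

INPUT (global, on the chart `B`): primes `p₁ p₂` with `p₁ ⊓ p₂ = (w)`, `B ⧸ pᵢ` Dedekind,
`p₁ ⊔ p₂` radical (or the elementwise local generation of `Transversal.lean`), `n` a prime
(maximal) ideal containing `w`.

OUTPUT (local, in `O` with `[IsLocalization.AtPrime O n]`), `Pᵢ := pᵢ O`:

* node (`p₁ ≤ n`, `p₂ ≤ n`) : `P₁`, `P₂` prime, `P₁ ⊓ P₂ = (w)`, `P₁ ⊔ P₂ = n O`
  (`= maximalIdeal O`), `O ⧸ Pᵢ` discrete valuation rings       — `node_local_data`;
* smooth (`p₁ ≤ n`, `¬ p₂ ≤ n`) : `P₁` prime, `P₁ = (w)`, `O ⧸ P₁` a discrete valuation ring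
                                                               — `smooth_local_data`;
* `exists_mul_mem_of_isRadical` : elementwise local generation `t x ∈ J`, `t ∉ n`, for a
  radical ideal `J ≤ n` containing a prime `p` with `B ⧸ p` Dedekind, `J ≠ p`.
-/

set_option autoImplicit false

namespace Fermat.Agent.A2.H372

open Ideal

variable {B : Type*} [CommRing B]

/-- In a discrete valuation ring, a nonzero proper radical ideal is the maximal ideal. -/
theorem eq_maximalIdeal_of_isRadical_of_dvr {L : Type*} [CommRing L] [IsDomain L]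
    [IsDiscreteValuationRing L] {I : Ideal L} (hI : I.IsRadical) (h0 : I ≠ ⊥) (h1 : I ≠ ⊤) :
    I = IsLocalRing.maximalIdeal L := by
  obtain ⟨ϖ, hϖ⟩ := IsDiscreteValuationRing.exists_irreducible L
  obtain ⟨k, hk⟩ := IsDiscreteValuationRing.ideal_eq_span_pow_irreducible h0 hϖ
  have hk0 : k ≠ 0 := by
    rintro rfl
    apply h1
    rw [hk, pow_zero, Ideal.span_singleton_one]
  have hmem : ϖ ∈ I := hI ⟨k, by rw [hk]; exact Ideal.mem_span_singleton_self _⟩
  refine le_antisymm (IsLocalRing.le_maximalIdeal h1) ?_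
  rw [hϖ.maximalIdeal_eq, Ideal.span_le, Set.singleton_subset_iff]
  exact hmem

/-- The image of a prime `n ⊇ p` in `B ⧸ p`. -/
theorem map_mk_isPrime {p n : Ideal B} [n.IsPrime] (hpn : p ≤ n) :
    (n.map (Ideal.Quotient.mk p)).IsPrime :=
  Ideal.map_isPrime_of_surjective Ideal.Quotient.mk_surjective
    (by rw [Ideal.mk_ker]; exact hpn)

theorem mk_mem_map_mk_iff {p n : Ideal B} (hpn : p ≤ n) (x : B) :
    Ideal.Quotient.mk p x ∈ n.map (Ideal.Quotient.mk p) ↔ x ∈ n := by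
  constructor
  · intro h
    obtain ⟨y, hy, hxy⟩ :=
      (Ideal.mem_map_iff_of_surjective _ Ideal.Quotient.mk_surjective).mp h
    have : x - y ∈ p := by
      rw [← Ideal.Quotient.eq]
      exact hxy.symm
    have := n.add_mem (hpn this) hy
    simpa using this
  · exact fun h => Ideal.mem_map_of_mem _ h

theorem map_mk_ne_bot {p n : Ideal B} (hpn : p ≤ n) (hne : p ≠ n) :
    n.map (Ideal.Quotient.mk p) ≠ ⊥ := by
  intro h
  apply hne
  refine le_antisymm hpn fun x hx => ?_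
  have : Ideal.Quotient.mk p x ∈ n.map (Ideal.Quotient.mk p) := Ideal.mem_map_of_mem _ hx
  rw [h, Ideal.mem_bot] at this
  exact Ideal.Quotient.eq_zero_iff_mem.mp this

/-- **Local generation from radicality.**  `p` prime with `B ⧸ p` Dedekind, `J` a radical ideal
with `p ≤ J ≤ n`, `J ≠ p`, `n` prime.  Then `J` generates `n` locally at `n`. -/
theorem exists_mul_mem_of_isRadical {p J n : Ideal B} [p.IsPrime] [n.IsPrime]
    [IsDedekindDomain (B ⧸ p)] (hpJ : p ≤ J) (hJn : J ≤ n) (hne : ¬ J ≤ p)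
    (hJ : J.IsRadical) {x : B} (hx : x ∈ n) : ∃ t : B, t ∉ n ∧ t * x ∈ J := by
  have hpn : p ≤ n := hpJ.trans hJn
  set D := B ⧸ p
  set nb : Ideal D := n.map (Ideal.Quotient.mk p) with hnb
  set Jb : Ideal D := J.map (Ideal.Quotient.mk p) with hJb
  have : nb.IsPrime := map_mk_isPrime hpn
  have hJbn : Jb ≤ nb := Ideal.map_mono hJn
  have hJb0 : Jb ≠ ⊥ := by
    intro h
    apply hne
    intro y hy
    have : Ideal.Quotient.mk p y ∈ Jb := Ideal.mem_map_of_mem _ hy
    rw [h, Ideal.mem_bot] at this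
    exact Ideal.Quotient.eq_zero_iff_mem.mp this
  have hnb0 : nb ≠ ⊥ := fun h => hJb0 (le_bot_iff.mp (h ▸ hJbn))
  have hJbrad : Jb.IsRadical := by
    intro y hy
    obtain ⟨y, rfl⟩ := Ideal.Quotient.mk_surjective y
    obtain ⟨k, hk⟩ := hy
    rw [← map_pow] at hk
    have hk' : y ^ k ∈ J := (mk_mem_map_mk_iff hpJ _).mp hk
    exact Ideal.mem_map_of_mem _ (hJ ⟨k, hk'⟩)
  let L := Localization.AtPrime nb
  have : IsDiscreteValuationRing L :=
    IsLocalization.AtPrime.isDiscreteValuationRing_of_dedekind_domain D hnb0 L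
  have hinj : Function.Injective (algebraMap D L) :=
    IsLocalization.injective L (Ideal.primeCompl_le_nonZeroDivisors nb)
  set I : Ideal L := Jb.map (algebraMap D L) with hI
  have hIrad : I.IsRadical := by
    have := IsLocalization.map_radical nb.primeCompl L Jb
    rw [hJbrad.radical] at this
    rw [Ideal.IsRadical, hI, ← this]
  have hI0 : I ≠ ⊥ := by
    intro h
    apply hJb0
    rw [eq_bot_iff]
    intro y hy
    have : algebraMap D L y ∈ I := Ideal.mem_map_of_mem _ hy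
    rw [h, Ideal.mem_bot] at this
    rw [Ideal.mem_bot]
    exact hinj (by rw [this, map_zero])
  have hI1 : I ≠ ⊤ := by
    rw [hI]
    exact (IsLocalization.map_algebraMap_ne_top_iff_disjoint nb.primeCompl L Jb).mpr
      (Set.disjoint_left.mpr fun y hy hyJ => hy (hJbn hyJ))
  have hImax : I = IsLocalRing.maximalIdeal L :=
    eq_maximalIdeal_of_isRadical_of_dvr hIrad hI0 hI1
  have hxL : algebraMap D L (Ideal.Quotient.mk p x) ∈ I := by
    rw [hImax]
    exact (IsLocalization.AtPrime.to_map_mem_maximal_iff L nb _).mpr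
      (Ideal.mem_map_of_mem _ hx)
  obtain ⟨tb, htb, htx⟩ :=
    (IsLocalization.algebraMap_mem_map_algebraMap_iff nb.primeCompl L Jb _).mp hxL
  obtain ⟨t, rfl⟩ := Ideal.Quotient.mk_surjective tb
  refine ⟨t, fun ht => htb (Ideal.mem_map_of_mem _ ht), ?_⟩
  rw [← map_mul] at htx
  exact (mk_mem_map_mk_iff hpJ _).mp htx

section Local

variable (O : Type*) [CommRing O] [Algebra B O]

/-- The quotient of the local ring `O = B_n` by `p O` is a discrete valuation ring when
`B ⧸ p` is Dedekind and `p < n`. -/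
theorem isDiscreteValuationRing_quotient_map {p n : Ideal B} [p.IsPrime] [n.IsPrime]
    [IsLocalization.AtPrime O n] [IsDedekindDomain (B ⧸ p)] (hpn : p ≤ n) (hne : p ≠ n)
    [(p.map (algebraMap B O)).IsPrime] :
    IsDiscreteValuationRing (O ⧸ p.map (algebraMap B O)) := by
  set nb : Ideal (B ⧸ p) := n.map (Ideal.Quotient.mk p) with hnb
  have : nb.IsPrime := map_mk_isPrime hpn
  have hnb0 : nb ≠ ⊥ := map_mk_ne_bot hpn hne
  have hM : Algebra.algebraMapSubmonoid (B ⧸ p) n.primeCompl = nb.primeCompl := by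
    ext y
    obtain ⟨y, rfl⟩ := Ideal.Quotient.mk_surjective y
    constructor
    · rintro ⟨z, hz, hzy⟩
      intro hy
      have hzy' : Ideal.Quotient.mk p z = Ideal.Quotient.mk p y := hzy
      have hy' : Ideal.Quotient.mk p z ∈ nb := by rw [hzy']; exact hy
      exact hz ((mk_mem_map_mk_iff hpn z).mp hy')
    · intro hy
      exact ⟨y, fun h => hy (Ideal.mem_map_of_mem _ h), rfl⟩
  have h1 : IsLocalization (Algebra.algebraMapSubmonoid (B ⧸ p) n.primeCompl)
      (O ⧸ p.map (algebraMap B O)) := inferInstance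
  have : IsLocalization.AtPrime (O ⧸ p.map (algebraMap B O)) nb := by
    change IsLocalization nb.primeCompl _
    rw [← hM]
    exact h1
  exact IsLocalization.AtPrime.isDiscreteValuationRing_of_dedekind_domain (B ⧸ p) hnb0 _

/-- **NODE-LOC, node case.**  Local data at a crossing point `n ⊇ p₁ + p₂` of a semistable
chart, in the exact shape of the hypotheses of `A2.H609.exists_unit_mul_pow_of_node`. -/
theorem node_local_data {p₁ p₂ n : Ideal B} [p₁.IsPrime] [p₂.IsPrime] [n.IsPrime]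
    [IsLocalization.AtPrime O n] [IsDedekindDomain (B ⧸ p₁)] [IsDedekindDomain (B ⧸ p₂)]
    {w : B} (hinf : p₁ ⊓ p₂ = Ideal.span {w}) (h₁₂ : ¬ p₁ ≤ p₂) (h₂₁ : ¬ p₂ ≤ p₁)
    (htr : (p₁ ⊔ p₂).IsRadical) (h₁ : p₁ ≤ n) (h₂ : p₂ ≤ n) :
    ∃ (_ : (p₁.map (algebraMap B O)).IsPrime) (_ : (p₂.map (algebraMap B O)).IsPrime),
      p₁.map (algebraMap B O) ⊓ p₂.map (algebraMap B O) = Ideal.span {algebraMap B O w} ∧
      p₁.map (algebraMap B O) ⊔ p₂.map (algebraMap B O) = n.map (algebraMap B O) ∧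
      IsDiscreteValuationRing (O ⧸ p₁.map (algebraMap B O)) ∧
      IsDiscreteValuationRing (O ⧸ p₂.map (algebraMap B O)) := by
  have hd₁ : Disjoint (n.primeCompl : Set B) (p₁ : Set B) :=
    Set.disjoint_left.mpr fun y hy hyp => hy (h₁ hyp)
  have hd₂ : Disjoint (n.primeCompl : Set B) (p₂ : Set B) :=
    Set.disjoint_left.mpr fun y hy hyp => hy (h₂ hyp)
  have hP₁ : (p₁.map (algebraMap B O)).IsPrime :=
    IsLocalization.isPrime_of_isPrime_disjoint n.primeCompl O p₁ inferInstance hd₁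
  have hP₂ : (p₂.map (algebraMap B O)).IsPrime :=
    IsLocalization.isPrime_of_isPrime_disjoint n.primeCompl O p₂ inferInstance hd₂
  have hne₁ : p₁ ≠ n := fun h => h₂₁ (h ▸ h₂)
  have hne₂ : p₂ ≠ n := fun h => h₁₂ (h ▸ h₁)
  refine ⟨hP₁, hP₂, ?_, ?_, ?_, ?_⟩
  · rw [← IsLocalization.map_inf n.primeCompl O, hinf, Ideal.map_span, Set.image_singleton]
  · rw [← Ideal.map_sup]
    symm
    refine map_eq_map_of_local O (sup_le h₁ h₂) fun x hx => ?_
    exact exists_mul_mem_of_isRadical (p := p₁) le_sup_left (sup_le h₁ h₂)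
      (fun h => h₂₁ (le_sup_right.trans h)) htr hx
  · exact isDiscreteValuationRing_quotient_map O h₁ hne₁
  · exact isDiscreteValuationRing_quotient_map O h₂ hne₂

/-- **NODE-LOC, smooth case.**  Local data at a point `n` of the first component which is not
on the second one, in the exact shape of `A2.H609.exists_unit_mul_pow_of_smooth`. -/
theorem smooth_local_data {p₁ p₂ n : Ideal B} [p₁.IsPrime] [n.IsPrime]
    [IsLocalization.AtPrime O n] [IsDedekindDomain (B ⧸ p₁)]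
    {w : B} (hinf : p₁ ⊓ p₂ = Ideal.span {w}) (h₁ : p₁ ≤ n) (hne : p₁ ≠ n) (h₂ : ¬ p₂ ≤ n) :
    ∃ (_ : (p₁.map (algebraMap B O)).IsPrime),
      p₁.map (algebraMap B O) = Ideal.span {algebraMap B O w} ∧
      IsDiscreteValuationRing (O ⧸ p₁.map (algebraMap B O)) := by
  have hd₁ : Disjoint (n.primeCompl : Set B) (p₁ : Set B) :=
    Set.disjoint_left.mpr fun y hy hyp => hy (h₁ hyp)
  have hP₁ : (p₁.map (algebraMap B O)).IsPrime :=
    IsLocalization.isPrime_of_isPrime_disjoint n.primeCompl O p₁ inferInstance hd₁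
  have htop : p₂.map (algebraMap B O) = ⊤ := by
    obtain ⟨e, he, hen⟩ := SetLike.not_le_iff_exists.mp h₂
    rw [Ideal.eq_top_iff_one]
    have hu : IsUnit (algebraMap B O e) := IsLocalization.map_units O (⟨e, hen⟩ : n.primeCompl)
    have : algebraMap B O e ∈ p₂.map (algebraMap B O) := Ideal.mem_map_of_mem _ he
    exact (Ideal.eq_top_of_isUnit_mem _ this hu) ▸ Submodule.mem_top
  refine ⟨hP₁, ?_, isDiscreteValuationRing_quotient_map O h₁ hne⟩
  have := IsLocalization.map_inf n.primeCompl O p₁ p₂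
  rw [htop, inf_top_eq, hinf, Ideal.map_span, Set.image_singleton] at this
  exact this.symm

end Local

/-- **NODE-LOC, node case**, for `O = Localization.AtPrime n`, with `IsLocalRing.maximalIdeal`:
verbatim the hypotheses `hinf`, `hsup` and the instances of
`A2.H609.exists_unit_mul_pow_of_node`. -/
theorem node_local_data_atPrime {p₁ p₂ n : Ideal B} [p₁.IsPrime] [p₂.IsPrime] [n.IsPrime]
    [IsDedekindDomain (B ⧸ p₁)] [IsDedekindDomain (B ⧸ p₂)]
    {w : B} (hinf : p₁ ⊓ p₂ = Ideal.span {w}) (h₁₂ : ¬ p₁ ≤ p₂) (h₂₁ : ¬ p₂ ≤ p₁)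
    (htr : (p₁ ⊔ p₂).IsRadical) (h₁ : p₁ ≤ n) (h₂ : p₂ ≤ n) :
    ∃ (_ : (p₁.map (algebraMap B (Localization.AtPrime n))).IsPrime)
      (_ : (p₂.map (algebraMap B (Localization.AtPrime n))).IsPrime),
      p₁.map (algebraMap B (Localization.AtPrime n)) ⊓
          p₂.map (algebraMap B (Localization.AtPrime n)) =
        Ideal.span {algebraMap B (Localization.AtPrime n) w} ∧
      p₁.map (algebraMap B (Localization.AtPrime n)) ⊔
          p₂.map (algebraMap B (Localization.AtPrime n)) =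
        IsLocalRing.maximalIdeal (Localization.AtPrime n) ∧
      IsDiscreteValuationRing
        (Localization.AtPrime n ⧸ p₁.map (algebraMap B (Localization.AtPrime n))) ∧
      IsDiscreteValuationRing
        (Localization.AtPrime n ⧸ p₂.map (algebraMap B (Localization.AtPrime n))) := by
  obtain ⟨hP₁, hP₂, hi, hs, hd₁, hd₂⟩ :=
    node_local_data (Localization.AtPrime n) hinf h₁₂ h₂₁ htr h₁ h₂
  exact ⟨hP₁, hP₂, hi, by rw [hs, Localization.AtPrime.map_eq_maximalIdeal], hd₁, hd₂⟩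

end Fermat.Agent.A2.H372

end
-- ===== PACK-END A2/H372/NodeLoc.lean

-- ===== PACK-BEGIN A2/H708/GaussInf.lean
section




/-!
# A2 (helper708): the Gauss valuation at `∞`, generic construction

`L ⊇ ℚ` a field, `A` a valuation subring of `L`, `F₀ ⊆ ℚ((t))` a field,
`F = laurentBaseChange L F₀ = L·F₀ ⊆ L((t))`.  Hypotheses:

* `IntGen F₀` : every element of `F₀` is a fraction of series with INTEGER coefficients lying in
  `F₀` (true for `modularFunctionFieldFull N`, all `N`: see `GaussInfModular.lean`);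
* `AttainsMax A F₀` : a nonzero element of `F` with bounded denominators has a coefficient of
  maximal valuation (true if `A` is noetherian, e.g. a DVR: `attainsMax_of_isNoetherianRing`;
  true for every valuation subring of `ℚ̄` over a prime: `GaussInfQbar.lean`).

Results:

* `exists_normal_form` : every `f ∈ Fˣ` satisfies `f · U₂ = c · U₁` with `c ∈ Lˣ` and `U₁, U₂`
  PRIMITIVE `A`-integral series in `F` (nonzero reduction).
* `gaussInf A F₀ hgen hmax : ValuationSubring F` : the Gauss valuation ring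
  `{U₁ / U₂ : U₂ primitive}`; `mem_gaussInf_iff`, `algebraMap_mem_gaussInf_iff`
  (`V ∩ L = A`), `exists_const_mul_unit` (value group of `V` = value group of `A`),
  `valuation_lt_one_iff'` (description of the maximal ideal).
* `redInf : gaussInf →+* k((t))`, `redInf_eq_zero_iff` (kernel = maximal ideal),
  `redInf_of_incl` (on integral series it is the coefficientwise reduction).
-/

set_option autoImplicit false

noncomputable section

namespace Fermat.Agent.A2.H708

open ModularCurve HahnSeries IntermediateField Fermat.Agent.S18.H602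

variable {L : Type*} [Field L] (A : ValuationSubring L)

/-- inclusion of `A`-integral series. -/
abbrev incl : LaurentSeries A →+* LaurentSeries L := coeffMap A.subtype

/-- reduction of `A`-integral series. -/
abbrev red : LaurentSeries A →+* LaurentSeries (IsLocalRing.ResidueField A) :=
  coeffMap (IsLocalRing.residue A)

/-- constants. -/
abbrev cst (c : L) : LaurentSeries L := algebraMap L (LaurentSeries L) c

theorem incl_injective : Function.Injective (incl A) :=
  coeffMap_injective A.subtype Subtype.val_injective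

theorem coeff_cst_mul (c : L) (x : LaurentSeries L) (n : ℤ) :
    (cst c * x).coeff n = c * x.coeff n := by
  rw [cst, algebraMap_laurentSeries_eq_single, HahnSeries.coeff_single_zero_mul]

theorem cst_mul (c d : L) : cst (c * d) = cst c * cst d := map_mul _ _ _

theorem cst_one : cst (1 : L) = 1 := map_one _

theorem cst_ne_zero {c : L} (hc : c ≠ 0) : cst c ≠ 0 := by
  intro h
  have := congrArg (fun z => z.coeff 0) h
  simp [cst, algebraMap_laurentSeries_eq_single] at this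
  exact hc this

theorem cst_inv_mul_cst {c : L} (hc : c ≠ 0) : cst c⁻¹ * cst c = 1 := by
  rw [← cst_mul, inv_mul_cancel₀ hc, cst_one]

theorem cst_mul_cst_inv {c : L} (hc : c ≠ 0) : cst c * cst c⁻¹ = 1 := by
  rw [← cst_mul, mul_inv_cancel₀ hc, cst_one]

/-- constants of `A` as integral series. -/
def cstA (a : A) : LaurentSeries A := HahnSeries.single 0 a

theorem incl_cstA (a : A) : incl A (cstA A a) = cst (a : L) := by
  rw [cstA, cst, algebraMap_laurentSeries_eq_single, coeffMap_single]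
  rfl

theorem red_cstA (a : A) :
    red A (cstA A a) = HahnSeries.single 0 (IsLocalRing.residue A a) := by
  rw [cstA, coeffMap_single]

theorem coeff_incl (U : LaurentSeries A) (n : ℤ) : (incl A U).coeff n = ((U.coeff n : A) : L) :=
  rfl

theorem red_eq_zero_iff (U : LaurentSeries A) :
    red A U = 0 ↔ ∀ n, A.valuation ((U.coeff n : A) : L) < 1 := by
  constructor
  · intro h n
    have := congrArg (fun z => z.coeff n) h
    simp only [coeffMap_coeff, HahnSeries.coeff_zero, IsLocalRing.residue_eq_zero_iff] at this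
    exact (A.valuation_lt_one_iff _).mp this
  · intro h
    ext n
    simp only [coeffMap_coeff, HahnSeries.coeff_zero, IsLocalRing.residue_eq_zero_iff]
    exact (A.valuation_lt_one_iff _).mpr (h n)

theorem red_ne_zero_iff (U : LaurentSeries A) :
    red A U ≠ 0 ↔ ∃ n, A.valuation ((U.coeff n : A) : L) = 1 := by
  rw [Ne, red_eq_zero_iff]
  constructor
  · intro h
    by_contra hcon
    apply h
    intro n
    have h1 : A.valuation ((U.coeff n : A) : L) ≤ 1 := (A.valuation_le_one_iff _).mpr (U.coeff n).2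
    exact lt_of_le_of_ne h1 (fun h2 => hcon ⟨n, h2⟩)
  · rintro ⟨n, hn⟩ h
    exact (h n).ne hn

theorem ne_zero_of_red_ne_zero {U : LaurentSeries A} (h : red A U ≠ 0) : U ≠ 0 := by
  rintro rfl
  exact h (map_zero _)

theorem incl_ne_zero {U : LaurentSeries A} (h : U ≠ 0) : incl A U ≠ 0 :=
  fun h0 => h (incl_injective A (h0.trans (map_zero _).symm))

/-- Lifting a series with coefficients in `A`. -/
theorem exists_incl_eq {x : LaurentSeries L} (h : ∀ n, x.coeff n ∈ A) :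
    ∃ U : LaurentSeries A, incl A U = x :=
  exists_coeffMap_eq A.subtype Subtype.val_injective x (fun n => ⟨⟨x.coeff n, h n⟩, rfl⟩)

/-- If `c · (primitive) = integral` then `c ∈ A`. -/
theorem mem_of_cst_mul_prim {c : L} {U U' : LaurentSeries A} (hU : red A U ≠ 0)
    (h : cst c * incl A U = incl A U') : c ∈ A := by
  obtain ⟨n, hn⟩ := (red_ne_zero_iff A U).mp hU
  have h1 := congrArg (fun z => z.coeff n) h
  simp only [coeff_cst_mul, coeff_incl] at h1
  rw [← A.valuation_le_one_iff]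
  have h2 : A.valuation (c * ((U.coeff n : A) : L)) ≤ 1 := by
    rw [h1]; exact (A.valuation_le_one_iff _).mpr (U'.coeff n).2
  rwa [map_mul, hn, mul_one] at h2

/-- If `c · (primitive) = integral with zero reduction` then `v(c) < 1`. -/
theorem valuation_lt_one_of_cst_mul_prim {c : L} {U U' : LaurentSeries A} (hU : red A U ≠ 0)
    (hU' : red A U' = 0) (h : cst c * incl A U = incl A U') : A.valuation c < 1 := by
  obtain ⟨n, hn⟩ := (red_ne_zero_iff A U).mp hU
  have h1 := congrArg (fun z => z.coeff n) h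
  simp only [coeff_cst_mul, coeff_incl] at h1
  have h2 : A.valuation (c * ((U.coeff n : A) : L)) < 1 := by
    rw [h1]; exact (red_eq_zero_iff A U').mp hU' n
  rwa [map_mul, hn, mul_one] at h2

/-- `c · integral` with `v(c) < 1` has zero reduction. -/
theorem red_eq_zero_of_cst_mul {c : L} (hc : A.valuation c < 1) {U U' : LaurentSeries A}
    (h : cst c * incl A U = incl A U') : red A U' = 0 := by
  rw [red_eq_zero_iff]
  intro n
  have h1 := congrArg (fun z => z.coeff n) h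
  simp only [coeff_cst_mul, coeff_incl] at h1
  rw [← h1, map_mul]
  calc A.valuation c * A.valuation ((U.coeff n : A) : L) ≤ A.valuation c * 1 := by
        exact mul_le_mul_right ((A.valuation_le_one_iff _).mpr (U.coeff n).2) _
    _ = A.valuation c := mul_one _
    _ < 1 := hc


/-! ## Attained maximum and normalisation -/

section attained

variable [Algebra ℚ L] (F₀ : IntermediateField ℚ (LaurentSeries ℚ))

/-- A nonzero element of `F = L·F₀` with bounded denominators has a coefficient of maximal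
valuation. -/
def AttainsMax : Prop :=
  ∀ x : LaurentSeries L, x ∈ laurentBaseChange L F₀ → x ≠ 0 →
    (∃ d : L, d ≠ 0 ∧ ∀ n, d * x.coeff n ∈ A) →
    ∃ n₀, x.coeff n₀ ≠ 0 ∧ ∀ n, A.valuation (x.coeff n) ≤ A.valuation (x.coeff n₀)

omit [Algebra ℚ L] in
/-- The maximum is attained for every bounded series when `A` is noetherian (e.g. a DVR). -/
theorem exists_max_coeff_of_isNoetherianRing [IsNoetherianRing A] {x : LaurentSeries L}
    (hx0 : x ≠ 0) (hb : ∃ d : L, d ≠ 0 ∧ ∀ n, d * x.coeff n ∈ A) :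
    ∃ n₀, x.coeff n₀ ≠ 0 ∧ ∀ n, A.valuation (x.coeff n) ≤ A.valuation (x.coeff n₀) := by
  classical
  obtain ⟨d, hd0, hd⟩ := hb
  have hM : Submodule.span A (Set.range x.coeff) ≤ Submodule.span A {d⁻¹} := by
    rw [Submodule.span_le]
    rintro _ ⟨n, rfl⟩
    rw [SetLike.mem_coe, Submodule.mem_span_singleton]
    refine ⟨⟨d * x.coeff n, hd n⟩, ?_⟩
    show (d * x.coeff n) * d⁻¹ = x.coeff n
    field_simp
  have hfg : (Submodule.span A (Set.range x.coeff)).FG :=
    Submodule.FG.of_le (Submodule.fg_span_singleton _) hM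
  obtain ⟨s, hs, hspan⟩ := (Submodule.fg_span_iff_fg_span_finset_subset _).mp hfg
  obtain ⟨n₁, hn₁⟩ : ∃ n, x.coeff n ≠ 0 := by
    by_contra h
    push Not at h
    exact hx0 (HahnSeries.ext (funext h))
  have hsne : s.Nonempty := by
    by_contra h
    rw [Finset.not_nonempty_iff_eq_empty] at h
    rw [h, Finset.coe_empty, Submodule.span_empty] at hspan
    have : x.coeff n₁ ∈ Submodule.span A (Set.range x.coeff) :=
      Submodule.subset_span ⟨n₁, rfl⟩
    rw [hspan, Submodule.mem_bot] at this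
    exact hn₁ this
  obtain ⟨e₀, he₀, hmax⟩ := Finset.exists_max_image s (fun e => A.valuation e) hsne
  obtain ⟨n₀, rfl⟩ := hs he₀
  have key : ∀ z ∈ Submodule.span A (s : Set L), A.valuation z ≤ A.valuation (x.coeff n₀) := by
    intro z hz
    induction hz using Submodule.span_induction with
    | mem z hz => exact hmax z hz
    | zero => simp
    | add a b _ _ ha hb => exact (A.valuation.map_add a b).trans (max_le ha hb)
    | smul r z _ hz =>
      have : r • z = (r : L) * z := rfl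
      rw [this, map_mul]
      calc A.valuation (r : L) * A.valuation z ≤ 1 * A.valuation z := by
            exact mul_le_mul_left ((A.valuation_le_one_iff _).mpr r.2) _
        _ = A.valuation z := one_mul _
        _ ≤ _ := hz
  have hall : ∀ n, A.valuation (x.coeff n) ≤ A.valuation (x.coeff n₀) := fun n =>
    key _ (hspan ▸ Submodule.subset_span ⟨n, rfl⟩)
  refine ⟨n₀, ?_, hall⟩
  intro h0
  have h1 := hall n₁
  rw [h0, map_zero] at h1
  have h2 : A.valuation (x.coeff n₁) = 0 := le_antisymm h1 zero_le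
  rw [map_eq_zero] at h2
  exact hn₁ h2

theorem attainsMax_of_isNoetherianRing [IsNoetherianRing A] : AttainsMax A F₀ :=
  fun _ _ hx0 hb => exists_max_coeff_of_isNoetherianRing A hx0 hb

variable {A F₀}

/-- **Normalisation.** A nonzero `A`-integral element of `F` is a constant times a primitive
`A`-integral series. -/
theorem exists_prim_scale (hmax : AttainsMax A F₀) {U : LaurentSeries A}
    (hU : incl A U ∈ laurentBaseChange L F₀) (hU0 : U ≠ 0) :
    ∃ (c : A) (U' : LaurentSeries A), c ≠ 0 ∧ red A U' ≠ 0 ∧ U = cstA A c * U' ∧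
      incl A U' ∈ laurentBaseChange L F₀ := by
  have hx0 : incl A U ≠ 0 := incl_ne_zero A hU0
  obtain ⟨n₀, hn₀, hmax'⟩ := hmax _ hU hx0
    ⟨1, one_ne_zero, fun n => by rw [one_mul]; exact (U.coeff n).2⟩
  set c : A := U.coeff n₀ with hc
  have hcQ : (c : L) ≠ 0 := hn₀
  have hc0 : c ≠ 0 := fun h => hcQ (by rw [h]; rfl)
  have hint : ∀ n, (cst (c : L)⁻¹ * incl A U).coeff n ∈ A := by
    intro n
    rw [coeff_cst_mul, ← A.valuation_le_one_iff, map_mul, map_inv₀]
    have hv0 : A.valuation (c : L) ≠ 0 := (Valuation.ne_zero_iff _).mpr hcQ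
    rw [inv_mul_le_iff₀ (zero_lt_iff.mpr hv0), mul_one]
    exact hmax' n
  obtain ⟨U', hU'⟩ := exists_incl_eq A hint
  have hmul : U = cstA A c * U' := by
    apply incl_injective A
    rw [map_mul, incl_cstA, hU', ← mul_assoc, ← cst_mul, mul_inv_cancel₀ hcQ, cst_one, one_mul]
  refine ⟨c, U', hc0, ?_, hmul, ?_⟩
  · rw [red_ne_zero_iff]
    refine ⟨n₀, ?_⟩
    have h1 : ((U'.coeff n₀ : A) : L) = (c : L)⁻¹ * (incl A U).coeff n₀ := by
      rw [← coeff_cst_mul, ← hU']
      rfl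
    rw [h1]
    have h2 : (incl A U).coeff n₀ = (c : L) := rfl
    rw [h2, inv_mul_cancel₀ hcQ, map_one]
  · rw [hU']
    exact mul_mem ((laurentBaseChange L F₀).algebraMap_mem _) hU

end attained


/-! ## Every element of `F` is a fraction of integral series -/

section frac

variable [Algebra ℚ L] (F₀ : IntermediateField ℚ (LaurentSeries ℚ))

/-- integer series as `A`-integral series. -/
abbrev castA : LaurentSeries ℤ →+* LaurentSeries A := coeffMap (Int.castRingHom A)

/-- integer series as rational series. -/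
abbrev castQ : LaurentSeries ℤ →+* LaurentSeries ℚ := coeffMap (Int.castRingHom ℚ)

theorem incl_castA (P : LaurentSeries ℤ) : incl A (castA A P) = coeffEmb L (castQ P) := by
  rw [incl, castA, coeffMap_coeffMap, coeffEmb, castQ, coeffMap_coeffMap]
  exact coeffMap_congr (RingHom.ext_int _ _) P

theorem castA_injective : Function.Injective (castA A) := by
  have : CharZero L := algebraRat.charZero L
  have hA : Function.Injective (Int.castRingHom A) := by
    intro a b h
    have h1 : ((a : A) : L) = ((b : A) : L) := congrArg Subtype.val h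
    have h2 : ((a : ℤ) : L) = ((b : ℤ) : L) := by simpa using h1
    exact_mod_cast h2
  exact coeffMap_injective _ hA

/-- Every element of `F₀` is a fraction of series with integer coefficients lying in `F₀`. -/
def IntGen : Prop :=
  ∀ z ∈ F₀, ∃ P Q : LaurentSeries ℤ, Q ≠ 0 ∧ castQ Q ∈ F₀ ∧ z * castQ Q = castQ P

/-- `x` is a fraction of `A`-integral series of `F`. -/
def IsFrac (x : LaurentSeries L) : Prop :=
  ∃ U₁ U₂ : LaurentSeries A, U₂ ≠ 0 ∧ incl A U₂ ∈ laurentBaseChange L F₀ ∧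
    x * incl A U₂ = incl A U₁

variable {A F₀}

theorem isFrac_of_mem (hgen : IntGen F₀) {x : LaurentSeries L}
    (hx : x ∈ laurentBaseChange L F₀) : IsFrac A F₀ x := by
  have hF : ∀ y, y ∈ Subfield.closure (Set.range (algebraMap L (LaurentSeries L)) ∪
      ⇑(coeffEmb L) '' (F₀ : Set (LaurentSeries ℚ))) → y ∈ laurentBaseChange L F₀ :=
    fun y hy => mem_laurentBaseChange_iff.mpr hy
  rw [mem_laurentBaseChange_iff] at hx
  induction hx using Subfield.closure_induction with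
  | mem y hy =>
    rcases hy with ⟨a, rfl⟩ | ⟨z, hz, rfl⟩
    · rcases A.mem_or_inv_mem a with ha | ha
      · refine ⟨cstA A ⟨a, ha⟩, 1, one_ne_zero, ?_, ?_⟩
        · rw [map_one]; exact one_mem _
        · rw [map_one, mul_one, incl_cstA]
      · by_cases ha0 : a = 0
        · refine ⟨0, 1, one_ne_zero, ?_, ?_⟩
          · rw [map_one]; exact one_mem _
          · rw [ha0, map_zero, map_zero, zero_mul]
        · refine ⟨1, cstA A ⟨a⁻¹, ha⟩, ?_, ?_, ?_⟩
          · intro h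
            have := congrArg (incl A) h
            rw [incl_cstA, map_zero] at this
            exact cst_ne_zero (inv_ne_zero ha0) this
          · rw [incl_cstA]
            exact (laurentBaseChange L F₀).algebraMap_mem _
          · rw [incl_cstA, map_one]
            exact cst_mul_cst_inv ha0
    · obtain ⟨P, Q, hQ0, hQ, hPQ⟩ := hgen z hz
      refine ⟨castA A P, castA A Q, ?_, ?_, ?_⟩
      · intro h
        exact hQ0 (castA_injective A (h.trans (map_zero _).symm))
      · rw [incl_castA]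
        exact coeffEmb_mem_laurentBaseChange L hQ
      · rw [incl_castA, incl_castA, ← map_mul, hPQ]
  | one =>
    refine ⟨1, 1, one_ne_zero, ?_, ?_⟩
    · rw [map_one]; exact one_mem _
    · rw [map_one, mul_one]
  | add x y hx hy ihx ihy =>
    obtain ⟨U₁, U₂, h0, hm, he⟩ := ihx
    obtain ⟨U₁', U₂', h0', hm', he'⟩ := ihy
    refine ⟨U₁ * U₂' + U₁' * U₂, U₂ * U₂', mul_ne_zero h0 h0', ?_, ?_⟩
    · rw [map_mul]; exact mul_mem hm hm'
    · rw [map_add, map_mul, map_mul, map_mul, ← he, ← he']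
      ring
  | neg x hx ihx =>
    obtain ⟨U₁, U₂, h0, hm, he⟩ := ihx
    exact ⟨-U₁, U₂, h0, hm, by rw [map_neg, ← he, neg_mul]⟩
  | inv x hx ihx =>
    obtain ⟨U₁, U₂, h0, hm, he⟩ := ihx
    by_cases hx0 : x = 0
    · refine ⟨0, 1, one_ne_zero, ?_, ?_⟩
      · rw [map_one]; exact one_mem _
      · rw [hx0, inv_zero, zero_mul, map_zero]
    · have hU₁ : U₁ ≠ 0 := by
        rintro rfl
        rw [map_zero] at he
        rcases mul_eq_zero.mp he with h | h
        · exact hx0 h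
        · exact incl_ne_zero A h0 h
      refine ⟨U₂, U₁, hU₁, ?_, ?_⟩
      · rw [← he]
        exact mul_mem (hF x hx) hm
      · rw [← he, ← mul_assoc, inv_mul_cancel₀ hx0, one_mul]
  | mul x y hx hy ihx ihy =>
    obtain ⟨U₁, U₂, h0, hm, he⟩ := ihx
    obtain ⟨U₁', U₂', h0', hm', he'⟩ := ihy
    refine ⟨U₁ * U₁', U₂ * U₂', mul_ne_zero h0 h0', ?_, ?_⟩
    · rw [map_mul]; exact mul_mem hm hm'
    · rw [map_mul, map_mul, ← he, ← he']
      ring

/-- **Normal form.** Every nonzero `f ∈ F` satisfies `f · U₂ = c · U₁` with `c ∈ Lˣ` and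
`U₁`, `U₂` primitive integral series of `F`. -/
theorem exists_normal_form (hgen : IntGen F₀) (hmax : AttainsMax A F₀) {x : LaurentSeries L}
    (hx : x ∈ laurentBaseChange L F₀) (hx0 : x ≠ 0) :
    ∃ (c : L) (U₁ U₂ : LaurentSeries A), c ≠ 0 ∧ red A U₁ ≠ 0 ∧ red A U₂ ≠ 0 ∧
      incl A U₁ ∈ laurentBaseChange L F₀ ∧ incl A U₂ ∈ laurentBaseChange L F₀ ∧
      x * incl A U₂ = cst c * incl A U₁ := by
  obtain ⟨W₁, W₂, h0, hm, he⟩ := isFrac_of_mem (A := A) hgen hx
  have hW₁0 : W₁ ≠ 0 := by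
    rintro rfl
    rw [map_zero] at he
    rcases mul_eq_zero.mp he with h | h
    · exact hx0 h
    · exact incl_ne_zero A h0 h
  have hm₁ : incl A W₁ ∈ laurentBaseChange L F₀ := by
    rw [← he]; exact mul_mem hx hm
  obtain ⟨c₁, U₁, hc₁, hp₁, rfl, hU₁⟩ := exists_prim_scale hmax hm₁ hW₁0
  obtain ⟨c₂, U₂, hc₂, hp₂, rfl, hU₂⟩ := exists_prim_scale hmax hm h0
  have hc₂L : (c₂ : L) ≠ 0 := fun h => hc₂ (Subtype.ext h)
  have hc₁L : (c₁ : L) ≠ 0 := fun h => hc₁ (Subtype.ext h)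
  refine ⟨(c₁ : L) * (c₂ : L)⁻¹, U₁, U₂, mul_ne_zero hc₁L (inv_ne_zero hc₂L), hp₁, hp₂, hU₁,
    hU₂, ?_⟩
  rw [map_mul, map_mul, incl_cstA, incl_cstA] at he
  have h1 : x * incl A U₂ = cst (c₂ : L)⁻¹ * (x * (cst (c₂ : L) * incl A U₂)) := by
    rw [← mul_assoc, mul_comm (cst _) x, mul_assoc x, ← mul_assoc (cst _), cst_inv_mul_cst hc₂L,
      one_mul]
  rw [h1, he, ← mul_assoc, ← cst_mul, mul_comm (c₂ : L)⁻¹]

end frac


/-! ## The Gauss valuation ring -/

section gauss

variable [Algebra ℚ L] (F₀ : IntermediateField ℚ (LaurentSeries ℚ))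

/-- `f = U₁ / U₂` with `U₁, U₂` integral series, `U₂ ∈ F` primitive. -/
def IsGaussInt (f : LaurentSeries L) : Prop :=
  ∃ U₁ U₂ : LaurentSeries A, red A U₂ ≠ 0 ∧ incl A U₂ ∈ laurentBaseChange L F₀ ∧
    f * incl A U₂ = incl A U₁

variable {A F₀}

theorem IsGaussInt.zero : IsGaussInt A F₀ 0 :=
  ⟨0, 1, by rw [map_one]; exact one_ne_zero, by rw [map_one]; exact one_mem _,
    by rw [zero_mul, map_zero]⟩

theorem IsGaussInt.one : IsGaussInt A F₀ 1 :=
  ⟨1, 1, by rw [map_one]; exact one_ne_zero, by rw [map_one]; exact one_mem _,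
    by rw [one_mul]⟩

theorem IsGaussInt.mul {f g : LaurentSeries L} (hf : IsGaussInt A F₀ f)
    (hg : IsGaussInt A F₀ g) : IsGaussInt A F₀ (f * g) := by
  obtain ⟨U₁, U₂, h0, hm, he⟩ := hf
  obtain ⟨U₁', U₂', h0', hm', he'⟩ := hg
  refine ⟨U₁ * U₁', U₂ * U₂', ?_, ?_, ?_⟩
  · rw [map_mul]; exact mul_ne_zero h0 h0'
  · rw [map_mul]; exact mul_mem hm hm'
  · rw [map_mul, map_mul, ← he, ← he']
    ring

theorem IsGaussInt.add {f g : LaurentSeries L} (hf : IsGaussInt A F₀ f)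
    (hg : IsGaussInt A F₀ g) : IsGaussInt A F₀ (f + g) := by
  obtain ⟨U₁, U₂, h0, hm, he⟩ := hf
  obtain ⟨U₁', U₂', h0', hm', he'⟩ := hg
  refine ⟨U₁ * U₂' + U₁' * U₂, U₂ * U₂', ?_, ?_, ?_⟩
  · rw [map_mul]; exact mul_ne_zero h0 h0'
  · rw [map_mul]; exact mul_mem hm hm'
  · rw [map_add, map_mul, map_mul, map_mul, ← he, ← he']
    ring

theorem IsGaussInt.neg {f : LaurentSeries L} (hf : IsGaussInt A F₀ f) :
    IsGaussInt A F₀ (-f) := by
  obtain ⟨U₁, U₂, h0, hm, he⟩ := hf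
  exact ⟨-U₁, U₂, h0, hm, by rw [map_neg, ← he, neg_mul]⟩

/-- integral elements of `F` are Gauss-integral. -/
theorem IsGaussInt.of_incl (U : LaurentSeries A) : IsGaussInt A F₀ (incl A U) :=
  ⟨U, 1, by rw [map_one]; exact one_ne_zero, by rw [map_one]; exact one_mem _,
    by rw [map_one, mul_one]⟩

/-- In normal form `f · U₂ = c · U₁`: `f` is Gauss-integral iff `c ∈ A`. -/
theorem isGaussInt_iff_of_normal_form {f : LaurentSeries L} {c : L} {U₁ U₂ : LaurentSeries A}
    (h₁ : red A U₁ ≠ 0) (h₂ : red A U₂ ≠ 0) (hm₂ : incl A U₂ ∈ laurentBaseChange L F₀)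
    (he : f * incl A U₂ = cst c * incl A U₁) : IsGaussInt A F₀ f ↔ c ∈ A := by
  constructor
  · rintro ⟨W₁, W₂, hW, -, heW⟩
    have key : cst c * incl A (U₁ * W₂) = incl A (W₁ * U₂) := by
      rw [map_mul, map_mul, ← mul_assoc, ← he, ← heW]
      ring
    refine mem_of_cst_mul_prim A ?_ key
    rw [map_mul]
    exact mul_ne_zero h₁ hW
  · intro hc
    exact ⟨cstA A ⟨c, hc⟩ * U₁, U₂, h₂, hm₂, by rw [map_mul, incl_cstA, he]⟩

omit [Algebra ℚ L] in
/-- In normal form `f · U₂ = c · U₁`, the inverse has normal form `f⁻¹ · U₁ = c⁻¹ · U₂`. -/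
theorem normal_form_inv {f : LaurentSeries L} {c : L} {U₁ U₂ : LaurentSeries A}
    (hf : f ≠ 0) (hc : c ≠ 0) (he : f * incl A U₂ = cst c * incl A U₁) :
    f⁻¹ * incl A U₁ = cst c⁻¹ * incl A U₂ := by
  have h1 : incl A U₁ = cst c⁻¹ * (f * incl A U₂) := by
    rw [he, ← mul_assoc, cst_inv_mul_cst hc, one_mul]
  rw [h1]
  field_simp

variable (A F₀) in
/-- **The Gauss valuation ring at `∞`** of `F = L·F₀` with respect to the valuation ring `A` of
`L`: fractions `U₁ / U₂` of `A`-integral series with `U₂` primitive. -/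
def gaussInf (hgen : IntGen F₀) (hmax : AttainsMax A F₀) :
    ValuationSubring ↥(laurentBaseChange L F₀) where
  carrier := {f | IsGaussInt A F₀ (f : LaurentSeries L)}
  mul_mem' := fun hf hg => IsGaussInt.mul hf hg
  one_mem' := IsGaussInt.one
  add_mem' := fun hf hg => IsGaussInt.add hf hg
  zero_mem' := IsGaussInt.zero
  neg_mem' := fun hf => IsGaussInt.neg hf
  mem_or_inv_mem' := by
    intro f
    by_cases hf : f = 0
    · left
      rw [hf]
      exact IsGaussInt.zero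
    · have hf' : (f : LaurentSeries L) ≠ 0 := fun h => hf (Subtype.ext h)
      obtain ⟨c, U₁, U₂, hc, h₁, h₂, hm₁, hm₂, he⟩ := exists_normal_form hgen hmax f.2 hf'
      rcases A.mem_or_inv_mem c with hcA | hcA
      · left
        exact (isGaussInt_iff_of_normal_form h₁ h₂ hm₂ he).mpr hcA
      · right
        show IsGaussInt A F₀ ((f⁻¹ : ↥(laurentBaseChange L F₀)) : LaurentSeries L)
        rw [IntermediateField.coe_inv]
        exact (isGaussInt_iff_of_normal_form h₂ h₁ hm₁ (normal_form_inv hf' hc he)).mpr hcA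

variable (hgen : IntGen F₀) (hmax : AttainsMax A F₀)

theorem mem_gaussInf_iff {f : ↥(laurentBaseChange L F₀)} :
    f ∈ gaussInf A F₀ hgen hmax ↔ IsGaussInt A F₀ (f : LaurentSeries L) := Iff.rfl

/-- `V ∩ L = A`. -/
theorem algebraMap_mem_gaussInf_iff (c : L) :
    algebraMap L ↥(laurentBaseChange L F₀) c ∈ gaussInf A F₀ hgen hmax ↔ c ∈ A := by
  rw [mem_gaussInf_iff]
  have he : ((algebraMap L ↥(laurentBaseChange L F₀) c : ↥(laurentBaseChange L F₀)) :
      LaurentSeries L) * incl A 1 = cst c * incl A 1 := rfl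
  exact isGaussInt_iff_of_normal_form (by rw [map_one]; exact one_ne_zero)
    (by rw [map_one]; exact one_ne_zero) (by rw [map_one]; exact one_mem _) he

/-- membership in normal form. -/
theorem mem_gaussInf_iff_of_normal_form {f : ↥(laurentBaseChange L F₀)} {c : L}
    {U₁ U₂ : LaurentSeries A} (h₁ : red A U₁ ≠ 0) (h₂ : red A U₂ ≠ 0)
    (hm₂ : incl A U₂ ∈ laurentBaseChange L F₀)
    (he : (f : LaurentSeries L) * incl A U₂ = cst c * incl A U₁) :
    f ∈ gaussInf A F₀ hgen hmax ↔ c ∈ A :=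
  isGaussInt_iff_of_normal_form h₁ h₂ hm₂ he

/-- the valuation in normal form: `v_V(f) ≤ 1 ↔ v_A(c) ≤ 1`. -/
theorem valuation_le_one_iff_of_normal_form {f : ↥(laurentBaseChange L F₀)} {c : L}
    {U₁ U₂ : LaurentSeries A} (h₁ : red A U₁ ≠ 0) (h₂ : red A U₂ ≠ 0)
    (hm₂ : incl A U₂ ∈ laurentBaseChange L F₀)
    (he : (f : LaurentSeries L) * incl A U₂ = cst c * incl A U₁) :
    (gaussInf A F₀ hgen hmax).valuation f ≤ 1 ↔ A.valuation c ≤ 1 := by
  rw [ValuationSubring.valuation_le_one_iff, ValuationSubring.valuation_le_one_iff]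
  exact mem_gaussInf_iff_of_normal_form hgen hmax h₁ h₂ hm₂ he

/-- the valuation in normal form: `v_V(f) < 1 ↔ v_A(c) < 1`. -/
theorem valuation_lt_one_iff_of_normal_form {f : ↥(laurentBaseChange L F₀)} {c : L}
    {U₁ U₂ : LaurentSeries A} (hc : c ≠ 0) (h₁ : red A U₁ ≠ 0) (h₂ : red A U₂ ≠ 0)
    (hm₁ : incl A U₁ ∈ laurentBaseChange L F₀)
    (he : (f : LaurentSeries L) * incl A U₂ = cst c * incl A U₁) :
    (gaussInf A F₀ hgen hmax).valuation f < 1 ↔ A.valuation c < 1 := by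
  have hf0 : (f : LaurentSeries L) ≠ 0 := by
    intro h
    rw [h, zero_mul] at he
    rcases mul_eq_zero.mp he.symm with h' | h'
    · exact cst_ne_zero hc h'
    · exact incl_ne_zero A (ne_zero_of_red_ne_zero A h₁) h'
  have hf : f ≠ 0 := fun h => hf0 (by rw [h]; rfl)
  have hinv : ((f⁻¹ : ↥(laurentBaseChange L F₀)) : LaurentSeries L) * incl A U₁
      = cst c⁻¹ * incl A U₂ := by
    rw [IntermediateField.coe_inv]
    exact normal_form_inv hf0 hc he
  have h1 := valuation_le_one_iff_of_normal_form hgen hmax h₂ h₁ hm₁ hinv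
  rw [map_inv₀, map_inv₀] at h1
  have hv : (gaussInf A F₀ hgen hmax).valuation f ≠ 0 := (Valuation.ne_zero_iff _).mpr hf
  have hvc : A.valuation c ≠ 0 := (Valuation.ne_zero_iff _).mpr hc
  rw [inv_le_one₀ (zero_lt_iff.mpr hv), inv_le_one₀ (zero_lt_iff.mpr hvc)] at h1
  rw [← not_le, ← not_le, h1]

/-- **The value group of `V` is the value group of `A`**: every nonzero `f` is a constant
times a unit of `V`. -/
theorem exists_const_mul_unit {f : ↥(laurentBaseChange L F₀)} (hf : f ≠ 0) :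
    ∃ c : L, c ≠ 0 ∧
      (gaussInf A F₀ hgen hmax).valuation
        (f * (algebraMap L ↥(laurentBaseChange L F₀) c)⁻¹) = 1 := by
  have hf' : (f : LaurentSeries L) ≠ 0 := fun h => hf (Subtype.ext h)
  obtain ⟨c, U₁, U₂, hc, h₁, h₂, hm₁, hm₂, he⟩ := exists_normal_form hgen hmax f.2 hf'
  refine ⟨c, hc, ?_⟩
  set u : ↥(laurentBaseChange L F₀) := f * (algebraMap L ↥(laurentBaseChange L F₀) c)⁻¹ with hu
  have heu : (u : LaurentSeries L) * incl A U₂ = cst 1 * incl A U₁ := by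
    have : (u : LaurentSeries L) = (f : LaurentSeries L) * (cst c)⁻¹ := by
      rw [hu, IntermediateField.coe_mul, IntermediateField.coe_inv]
      rfl
    rw [this, mul_assoc, mul_comm (cst c)⁻¹, ← mul_assoc, he, cst_one, one_mul,
      mul_comm (cst c), mul_assoc, mul_inv_cancel₀ (cst_ne_zero hc), mul_one]
  have h1 := valuation_le_one_iff_of_normal_form hgen hmax h₁ h₂ hm₂ heu
  have h2 := valuation_lt_one_iff_of_normal_form hgen hmax one_ne_zero h₁ h₂ hm₁ heu
  rw [map_one] at h1 h2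
  exact le_antisymm (h1.mpr le_rfl) (not_lt.mp (fun h => lt_irrefl _ (h2.mp h)))

end gauss

end Fermat.Agent.A2.H708

end
end
-- ===== PACK-END A2/H708/GaussInf.lean

-- ===== PACK-BEGIN A2/ModDefs.lean
section


/-!
# WALL A2 — concrete objects at a good level and the MOD interface (row-lead helper13)

Definitions only (no `sorry`); LANDED, never to change again.

* `FE E N`            : `F_{N,E} = E(j(t^d) : d ∣ N) ⊆ E((t))`;
* `algREFE`, `towerREFE` : its structure over `R_E = P ∩ E`;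
* `GoodField.res`     : restriction of `τ ∈ I_P` to a good level;
* `ModSSData P E N`   : the semistable two-chart model with coordinate `x`
  (intended: `x = j(t) · j(t^q)`, so that `α^*`, `β^*` map the level-`M` charts of `j^{±1}` into
  the level-`N` charts of `x^{±1}`; any coordinate is allowed by the structure);
* `ModSSStatement`    : the MOD interface statement.
-/

set_option autoImplicit false
set_option synthInstance.maxHeartbeats 400000
set_option maxHeartbeats 1600000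

noncomputable section

namespace Fermat.Agent.A2

open ModularCurve AlgebraicCurve

section Mod

variable (P : ValuationSubring Qb) (E : IntermediateField ℚ Qb) (N q : ℕ)

/-- `F_{N,E} = E(j(t^d) : d ∣ N) ⊆ E((t))`. -/
abbrev FE : IntermediateField E (LaurentSeries E) :=
  laurentBaseChange E (modularFunctionFieldFull N)

/-- The algebra structure of `F_{N,E}` over `R_E = P ∩ E`. -/
instance algREFE : Algebra (RE P E) (FE E N) :=
  ((algebraMap E (FE E N)).comp (RE P E).subtype).toAlgebra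

instance towerREFE : IsScalarTower (RE P E) E (FE E N) :=
  IsScalarTower.of_algebraMap_eq fun _ => rfl

/-- The restriction of `τ ∈ I_P` to a good level. -/
def GoodField.res {P : ValuationSubring Qb} {E : IntermediateField ℚ Qb} (hE : GoodField P E)
    (τ : Qb ≃ₐ[ℚ] Qb) (hτ : τ ∈ P.inertiaSubgroupIn ℚ) : E ≃ₐ[ℚ] E :=
  AlgEquiv.ofBijective
    { toFun := fun e => ⟨τ (e : Qb), hE.stable τ hτ e e.2⟩
      map_one' := Subtype.ext (map_one τ)
      map_mul' := fun a b => Subtype.ext (map_mul τ (a : Qb) (b : Qb))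
      map_zero' := Subtype.ext (map_zero τ)
      map_add' := fun a b => Subtype.ext (map_add τ (a : Qb) (b : Qb))
      commutes' := fun r => Subtype.ext (τ.commutes r) }
    ⟨fun a b hab => Subtype.ext (τ.injective (congrArg Subtype.val hab)),
      fun b => ⟨⟨τ⁻¹ (b : Qb), hE.stable τ⁻¹ (inv_mem hτ) b b.2⟩,
        Subtype.ext (τ.apply_symm_apply (b : Qb))⟩⟩

/-- The semistable model of `X₀(N)`, `q ‖ N`, over `R_E` for a good level `E`, with coordinate
`x`. -/
structure ModSSData where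
  /-- the coordinate -/
  x : FE E N
  hx : Transcendental E x
  hfin : FiniteDimensional (IntermediateField.adjoin E ({x} : Set (FE E N))) (FE E N)
  hconst : ∀ f : FE E N, IsAlgebraic E f → f ∈ (algebraMap E (FE E N)).range
  /-- the finite chart -/
  Bf : Subalgebra (RE P E) (FE E N)
  /-- the chart at infinity -/
  Bi : Subalgebra (RE P E) (FE E N)
  hBf : ∀ f : FE E N, f ∈ Bf ↔ IsIntegral (Algebra.adjoin (RE P E) ({x} : Set (FE E N))) f
  hBi : ∀ f : FE E N, f ∈ Bi ↔ IsIntegral (Algebra.adjoin (RE P E) ({x⁻¹} : Set (FE E N))) f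
  cf : ∀ w : RE P E, Irreducible w → Nonempty (SSChart w Bf)
  ci : ∀ w : RE P E, Irreducible w → Nonempty (SSChart w Bi)
  sf : SepCoord (RE P E) E x Bf
  si : SepCoord (RE P E) E x⁻¹ Bi
  /-- inertia fixes the coordinate and acts trivially modulo `w` on both charts -/
  hτx : ∀ (hE : GoodField P E) (τ : Qb ≃ₐ[ℚ] Qb) (hτ : τ ∈ P.inertiaSubgroupIn ℚ),
    arithmeticRingAut (modularFunctionFieldFull N) (hE.res τ hτ) x = x
  hτf : ∀ (hE : GoodField P E) (τ : Qb ≃ₐ[ℚ] Qb) (hτ : τ ∈ P.inertiaSubgroupIn ℚ)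
    (w : RE P E), Irreducible w → ∀ b ∈ Bf, ∃ c ∈ Bf,
      arithmeticRingAut (modularFunctionFieldFull N) (hE.res τ hτ) b - b =
        algebraMap (RE P E) (FE E N) w * c
  hτi : ∀ (hE : GoodField P E) (τ : Qb ≃ₐ[ℚ] Qb) (hτ : τ ∈ P.inertiaSubgroupIn ℚ)
    (w : RE P E), Irreducible w → ∀ b ∈ Bi, ∃ c ∈ Bi,
      arithmeticRingAut (modularFunctionFieldFull N) (hE.res τ hτ) b - b =
        algebraMap (RE P E) (FE E N) w * c

end Mod

/-- **MOD (interface statement).**  For `q ‖ N` the modular function field has a semistable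
two-component model over every good level. -/
def ModSSStatement : Prop :=
  ∀ (P : ValuationSubring Qb) (E : IntermediateField ℚ Qb) (N q : ℕ),
    q.Prime → q ∣ N → ¬ q ^ 2 ∣ N → N ≠ 0 → P.LiesOverPrime q → GoodField P E →
      Nonempty (ModSSData P E N)

/-- **T1 (interface statement)**: `ALG + IF + MOD ⟹ KummerTarget`. -/
def T1Statement : Prop :=
  AlgSSStatement → IFStatement → ModSSStatement →
    ∀ (N q m : ℕ), q.Prime → q ∣ N → ¬ q ^ 2 ∣ N → N ≠ 0 → 0 < m → ¬ q ∣ m →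
      KummerTarget N q m

end Fermat.Agent.A2

end
end
-- ===== PACK-END A2/ModDefs.lean

-- ===== PACK-BEGIN S28/H988/Purity.lean
section
/-
S28 / [L.UP] upper bound, helper988.
Newton-polygon purity for monic polynomials over `k⸨X⸩` (Mathlib only):
* `IsPure G s`: `G` is monic and its Newton polygon is the single segment of slope `s`.
* `IsPure.isCoprime`: pure polynomials of different slopes are coprime.
* `isPure_of_root`: a monic polynomial of degree `p` with coefficients of order divisible by `p`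
  and with a root of order `-1` is pure of slope `-1`.
-/



set_option autoImplicit false

noncomputable section

open Polynomial

namespace Fermat.Agent.S28.H988

variable {k : Type*} [Field k]

/-- A Laurent series of non-negative order is a power series. -/
theorem mem_range_algebraMap_of_orderTop_nonneg (f : LaurentSeries k) (h : 0 ≤ f.orderTop) :
    f ∈ Set.range (algebraMap (PowerSeries k) (LaurentSeries k)) := by
  refine ⟨PowerSeries.mk fun n => f.coeff n, ?_⟩
  rw [LaurentSeries.coe_algebraMap]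
  ext n
  rcases le_or_gt 0 n with hn | hn
  · lift n to ℕ using hn
    rw [HahnSeries.ofPowerSeries_apply_coeff, PowerSeries.coeff_mk]
  · have h1 : ((HahnSeries.ofPowerSeries ℤ k) (PowerSeries.mk fun n => f.coeff n)).coeff n = 0 := by
      rw [HahnSeries.ofPowerSeries_apply]
      apply HahnSeries.embDomain_of_notMem_range
      rintro ⟨m, hm⟩
      have : (0 : ℤ) ≤ n := by rw [← hm]; exact Int.natCast_nonneg m
      omega
    rw [h1]
    symm
    apply HahnSeries.coeff_eq_zero_of_lt_orderTop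
    refine lt_of_lt_of_le ?_ h
    exact_mod_cast hn

/-- `G` is pure of slope `s`: monic, the coefficient of `X ^ i` has order at least
`(deg G - i) * s`, with equality for `i = 0`. -/
structure IsPure (G : Polynomial (LaurentSeries k)) (s : ℤ) : Prop where
  monic : G.Monic
  le_coeff : ∀ i : ℕ, ((((G.natDegree : ℤ) - i) * s : ℤ) : WithTop ℤ) ≤ (G.coeff i).orderTop
  coeff_zero : (G.coeff 0).orderTop = (((G.natDegree : ℤ) * s : ℤ) : WithTop ℤ)

theorem orderTop_single_one (n : ℤ) :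
    (HahnSeries.single n (1 : k)).orderTop = (n : WithTop ℤ) :=
  HahnSeries.orderTop_single one_ne_zero

theorem single_pow_one (n : ℤ) (m : ℕ) :
    (HahnSeries.single n (1 : k)) ^ m = HahnSeries.single ((m : ℤ) * n) (1 : k) := by
  induction m with
  | zero => simp
  | succ m ih =>
    rw [pow_succ, ih, HahnSeries.single_mul_single, mul_one]
    congr 1
    push_cast
    ring_nf

theorem isUnit_single_one (n : ℤ) : IsUnit (HahnSeries.single n (1 : k)) := by
  refine IsUnit.of_mul_eq_one (HahnSeries.single (-n) (1 : k)) ?_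
  rw [HahnSeries.single_mul_single, mul_one, add_neg_cancel]
  rfl

/-- order of the coefficients of the rescaled polynomial -/
theorem orderTop_coeff_scaleRoots (G : Polynomial (LaurentSeries k)) (t : ℤ) (i : ℕ)
    (hi : i ≤ G.natDegree) :
    ((G.scaleRoots (HahnSeries.single t (1 : k))).coeff i).orderTop =
      (G.coeff i).orderTop + ((((G.natDegree : ℤ) - i) * t : ℤ) : WithTop ℤ) := by
  rw [coeff_scaleRoots, HahnSeries.orderTop_mul, single_pow_one, orderTop_single_one]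
  congr 2
  push_cast [Nat.cast_sub hi]
  ring

/-- Pure polynomials of different slopes are coprime (auxiliary ordered version). -/
theorem IsPure.isCoprime_of_lt {G₁ G₂ : Polynomial (LaurentSeries k)} {s₁ s₂ : ℤ}
    (h₁ : IsPure G₁ s₁) (h₂ : IsPure G₂ s₂) (hs : s₁ < s₂) : IsCoprime G₁ G₂ := by
  set u : LaurentSeries k := HahnSeries.single (-s₁) (1 : k) with hu
  set u' : LaurentSeries k := HahnSeries.single s₁ (1 : k) with hu'
  have huu' : u * u' = 1 := by
    rw [hu, hu', HahnSeries.single_mul_single, mul_one, neg_add_cancel]; rfl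
  suffices h : IsCoprime (G₁.scaleRoots u) (G₂.scaleRoots u) by
    have := isCoprime_scaleRoots _ _ u' (isUnit_single_one s₁) h
    rwa [← scaleRoots_mul, ← scaleRoots_mul, huu', scaleRoots_one, scaleRoots_one] at this
  -- orders of the coefficients
  have o1 : ∀ i, (0 : WithTop ℤ) ≤ ((G₁.scaleRoots u).coeff i).orderTop := by
    intro i
    rcases le_or_gt i G₁.natDegree with hi | hi
    · rw [orderTop_coeff_scaleRoots G₁ (-s₁) i hi]
      have := h₁.le_coeff i
      calc (0 : WithTop ℤ) = (((((G₁.natDegree : ℤ) - i) * s₁ : ℤ)) : WithTop ℤ)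
            + ((((G₁.natDegree : ℤ) - i) * (-s₁) : ℤ) : WithTop ℤ) := by
              rw [← WithTop.coe_add]; norm_cast; ring
        _ ≤ _ := by gcongr
    · rw [coeff_eq_zero_of_natDegree_lt (by rwa [natDegree_scaleRoots]), HahnSeries.orderTop_zero]
      exact le_top
  have o1' : ((G₁.scaleRoots u).coeff 0).orderTop = 0 := by
    rw [orderTop_coeff_scaleRoots G₁ (-s₁) 0 (Nat.zero_le _), h₁.coeff_zero, ← WithTop.coe_add]
    have h0 : ((G₁.natDegree : ℤ) * s₁ + ((G₁.natDegree : ℤ) - ((0 : ℕ) : ℤ)) * (-s₁)) = 0 := by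
      push_cast; ring
    rw [h0]
    rfl
  have o2 : ∀ i, i < G₂.natDegree → (0 : WithTop ℤ) < ((G₂.scaleRoots u).coeff i).orderTop := by
    intro i hi
    rw [orderTop_coeff_scaleRoots G₂ (-s₁) i hi.le]
    have := h₂.le_coeff i
    have hpos : (0 : ℤ) < ((G₂.natDegree : ℤ) - i) * s₂ + ((G₂.natDegree : ℤ) - i) * (-s₁) := by
      have h1 : (0 : ℤ) < (G₂.natDegree : ℤ) - i := by
        have : (i : ℤ) < G₂.natDegree := by exact_mod_cast hi
        linarith
      have h2 : (0 : ℤ) < s₂ - s₁ := by linarith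
      nlinarith [mul_pos h1 h2]
    calc (0 : WithTop ℤ) < (((((G₂.natDegree : ℤ) - i) * s₂
            + ((G₂.natDegree : ℤ) - i) * (-s₁) : ℤ)) : WithTop ℤ) := by exact_mod_cast hpos
      _ = (((((G₂.natDegree : ℤ) - i) * s₂ : ℤ)) : WithTop ℤ)
            + ((((G₂.natDegree : ℤ) - i) * (-s₁) : ℤ) : WithTop ℤ) := by
              rw [← WithTop.coe_add]
      _ ≤ _ := by gcongr
  have o2' : ∀ i, (0 : WithTop ℤ) ≤ ((G₂.scaleRoots u).coeff i).orderTop := by
    intro i
    rcases lt_trichotomy i G₂.natDegree with hi | hi | hi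
    · exact (o2 i hi).le
    · have hm : (G₂.scaleRoots u).Monic := (monic_scaleRoots_iff u).mpr h₂.monic
      have : (G₂.scaleRoots u).coeff i = 1 := by
        rw [hi, ← natDegree_scaleRoots G₂ u]; exact hm.coeff_natDegree
      rw [this, HahnSeries.orderTop_one]
    · rw [coeff_eq_zero_of_natDegree_lt (by rwa [natDegree_scaleRoots]), HahnSeries.orderTop_zero]
      exact le_top
  -- lift to power series
  have l1 : G₁.scaleRoots u ∈ lifts (algebraMap (PowerSeries k) (LaurentSeries k)) :=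
    (lifts_iff_coeff_lifts _).mpr fun i => mem_range_algebraMap_of_orderTop_nonneg _ (o1 i)
  have l2 : G₂.scaleRoots u ∈ lifts (algebraMap (PowerSeries k) (LaurentSeries k)) :=
    (lifts_iff_coeff_lifts _).mpr fun i => mem_range_algebraMap_of_orderTop_nonneg _ (o2' i)
  obtain ⟨g₁, hg₁, hd₁, hm₁⟩ :=
    lifts_and_natDegree_eq_and_monic l1 ((monic_scaleRoots_iff u).mpr h₁.monic)
  obtain ⟨g₂, hg₂, hd₂, hm₂⟩ :=
    lifts_and_natDegree_eq_and_monic l2 ((monic_scaleRoots_iff u).mpr h₂.monic)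
  have key : ∀ (g : Polynomial (PowerSeries k)) (i : ℕ),
      PowerSeries.constantCoeff (g.coeff i) =
        ((g.map (algebraMap (PowerSeries k) (LaurentSeries k))).coeff i).coeff 0 := by
    intro g i
    rw [coeff_map, LaurentSeries.coe_algebraMap]
    have := HahnSeries.ofPowerSeries_apply_coeff (Γ := ℤ) (g.coeff i) 0
    rw [Nat.cast_zero] at this
    rw [this, PowerSeries.coeff_zero_eq_constantCoeff]
  rw [← hg₁, ← hg₂]
  refine isCoprime_map_of_reduction g₁ g₂ hm₁ hm₂ ?_ ?_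
  · rw [key, hg₁]
    exact HahnSeries.coeff_orderTop_ne (by rw [o1']; rfl)
  · intro i hi
    rw [key, hg₂]
    apply HahnSeries.coeff_eq_zero_of_lt_orderTop
    have := o2 i (by rwa [hd₂, natDegree_scaleRoots] at hi)
    exact_mod_cast this

/-- Pure polynomials of different slopes are coprime. -/
theorem IsPure.isCoprime {G₁ G₂ : Polynomial (LaurentSeries k)} {s₁ s₂ : ℤ}
    (h₁ : IsPure G₁ s₁) (h₂ : IsPure G₂ s₂) (hs : s₁ ≠ s₂) : IsCoprime G₁ G₂ := by
  rcases lt_or_gt_of_ne hs with h | h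
  · exact h₁.isCoprime_of_lt h₂ h
  · exact (h₂.isCoprime_of_lt h₁ h).symm

/-- order of a nonzero element as an integer -/
theorem exists_orderTop_eq (f : LaurentSeries k) (hf : f ≠ 0) :
    ∃ m : ℤ, f.orderTop = (m : WithTop ℤ) := by
  have : f.orderTop ≠ ⊤ := HahnSeries.orderTop_ne_top.mpr hf
  obtain ⟨m, hm⟩ := WithTop.ne_top_iff_exists.mp this
  exact ⟨m, hm.symm⟩

theorem orderTop_pow_of_eq (y : LaurentSeries k) (a : ℤ) (hy : y.orderTop = (a : WithTop ℤ))
    (i : ℕ) : (y ^ i).orderTop = (((i : ℤ) * a : ℤ) : WithTop ℤ) := by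
  induction i with
  | zero => simp
  | succ i ih =>
    rw [pow_succ, HahnSeries.orderTop_mul, ih, hy, ← WithTop.coe_add]
    congr 1
    push_cast
    ring

/-- **Purity from a root of order `-1`.** A monic polynomial of degree `p` whose coefficients
have order divisible by `p` and which has a root of order `-1` is pure of slope `-1`. -/
theorem isPure_of_root (p : ℕ) (P : Polynomial (LaurentSeries k)) (hmonic : P.Monic)
    (hdeg : P.natDegree = p)
    (hrange : ∀ i, P.coeff i ≠ 0 → ∃ n : ℤ, (P.coeff i).orderTop = (((p : ℤ) * n : ℤ) : WithTop ℤ))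
    (y : LaurentSeries k) (hy : y.orderTop = ((-1 : ℤ) : WithTop ℤ)) (hroot : P.eval y = 0) :
    IsPure P (-1) := by
  classical
  set a : ℕ → LaurentSeries k := fun i => P.coeff i * y ^ i with ha
  have hsum : ∑ i ∈ Finset.range (p + 1), a i = 0 := by
    rw [← hroot, eval_eq_sum_range, hdeg]
  have hypow : ∀ i : ℕ, (y ^ i).orderTop = ((-(i : ℤ) : ℤ) : WithTop ℤ) := by
    intro i
    rw [orderTop_pow_of_eq y (-1) hy i]
    congr 1
    ring
  have hord : ∀ i, (a i).orderTop = (P.coeff i).orderTop + ((-(i : ℤ) : ℤ) : WithTop ℤ) := by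
    intro i
    rw [ha, HahnSeries.orderTop_mul, hypow]
  have hva : ∀ i, a i ≠ 0 → ∃ n : ℤ, (a i).orderTop = (((p : ℤ) * n - i : ℤ) : WithTop ℤ) := by
    intro i hi
    have hc : P.coeff i ≠ 0 := by
      intro h0
      apply hi
      rw [ha]
      simp only [h0, zero_mul]
    obtain ⟨n, hn⟩ := hrange i hc
    refine ⟨n, ?_⟩
    rw [hord, hn, ← WithTop.coe_add]
    congr 1
  have hap : (a p).orderTop = ((-(p : ℤ) : ℤ) : WithTop ℤ) := by
    have h1 : P.coeff p = 1 := by rw [← hdeg]; exact hmonic.coeff_natDegree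
    rw [ha]
    simp only [h1, one_mul]
    exact hypow p
  -- a minimal index
  obtain ⟨i₀, hi₀, hmin⟩ := Finset.exists_min_image (Finset.range (p + 1))
    (fun i => (a i).orderTop) ⟨p, Finset.mem_range.mpr (Nat.lt_succ_self p)⟩
  have hpmem : p ∈ Finset.range (p + 1) := Finset.mem_range.mpr (Nat.lt_succ_self p)
  have hg_le : (a i₀).orderTop ≤ ((-(p : ℤ) : ℤ) : WithTop ℤ) := by
    rw [← hap]; exact hmin p hpmem
  have hg_ne_top : (a i₀).orderTop ≠ ⊤ := by
    intro h
    rw [h] at hg_le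
    exact absurd hg_le (by simp)
  have hai₀ : a i₀ ≠ 0 := HahnSeries.orderTop_ne_top.mp hg_ne_top
  -- a second index with the same order
  have hex : ∃ i₁ ∈ Finset.range (p + 1), i₁ ≠ i₀ ∧ (a i₁).orderTop = (a i₀).orderTop := by
    by_contra hcon
    push Not at hcon
    have hlt : ∀ i ∈ (Finset.range (p + 1)).erase i₀, (a i₀).orderTop < (a i).orderTop := by
      intro i hi
      have hi' := Finset.mem_erase.mp hi
      exact lt_of_le_of_ne (hmin i hi'.2) (fun h => hcon i hi'.2 hi'.1 h.symm)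
    have h1 := (HahnSeries.addVal ℤ k).map_lt_sum hg_ne_top
      (s := (Finset.range (p + 1)).erase i₀) (f := a) (by
        intro i hi
        rw [HahnSeries.addVal_apply]
        exact hlt i hi)
    have h2 : ∑ i ∈ (Finset.range (p + 1)).erase i₀, a i = - a i₀ := by
      have := Finset.add_sum_erase (Finset.range (p + 1)) a hi₀
      rw [hsum] at this
      exact eq_neg_of_add_eq_zero_right this
    rw [h2, HahnSeries.addVal_apply, HahnSeries.orderTop_neg] at h1
    exact lt_irrefl _ h1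
  obtain ⟨i₁, hi₁, hne, heq⟩ := hex
  have hai₁ : a i₁ ≠ 0 := by
    apply HahnSeries.orderTop_ne_top.mp
    rw [heq]; exact hg_ne_top
  obtain ⟨n₀, hn₀⟩ := hva i₀ hai₀
  obtain ⟨n₁, hn₁⟩ := hva i₁ hai₁
  have hi₀le : i₀ ≤ p := Nat.lt_succ_iff.mp (Finset.mem_range.mp hi₀)
  have hi₁le : i₁ ≤ p := Nat.lt_succ_iff.mp (Finset.mem_range.mp hi₁)
  have hrel : (p : ℤ) * n₁ - i₁ = (p : ℤ) * n₀ - i₀ := by
    have := heq
    rw [hn₀, hn₁] at this
    exact_mod_cast this
  have hcases : (i₀ = 0 ∧ i₁ = p) ∨ (i₀ = p ∧ i₁ = 0) := by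
    have hd : (p : ℤ) * (n₁ - n₀) = (i₁ : ℤ) - i₀ := by linarith
    have h0 : (0 : ℤ) ≤ i₀ := Int.natCast_nonneg _
    have h1 : (0 : ℤ) ≤ i₁ := Int.natCast_nonneg _
    have h0' : (i₀ : ℤ) ≤ p := by exact_mod_cast hi₀le
    have h1' : (i₁ : ℤ) ≤ p := by exact_mod_cast hi₁le
    have hne' : (i₁ : ℤ) ≠ i₀ := by exact_mod_cast hne
    have hp0 : (0 : ℤ) ≤ p := Int.natCast_nonneg _
    rcases lt_trichotomy (n₁ - n₀) 0 with hneg | hzero | hpos
    · have : (p : ℤ) * (n₁ - n₀) ≤ -(p : ℤ) := by nlinarith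
      right
      constructor
      · have : (i₀ : ℤ) = p := by linarith
        exact_mod_cast this
      · have : (i₁ : ℤ) = 0 := by linarith
        exact_mod_cast this
    · rw [hzero, mul_zero] at hd
      exact absurd (by linarith) hne'
    · have : (p : ℤ) ≤ (p : ℤ) * (n₁ - n₀) := by nlinarith
      left
      constructor
      · have : (i₀ : ℤ) = 0 := by linarith
        exact_mod_cast this
      · have : (i₁ : ℤ) = p := by linarith
        exact_mod_cast this
  have hg : (a i₀).orderTop = ((-(p : ℤ) : ℤ) : WithTop ℤ) := by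
    rcases hcases with ⟨_, h⟩ | ⟨h, _⟩
    · rw [← heq, h, hap]
    · rw [h, hap]
  have ha0 : (a 0).orderTop = ((-(p : ℤ) : ℤ) : WithTop ℤ) := by
    rcases hcases with ⟨h, _⟩ | ⟨_, h⟩
    · rw [← h, hg]
    · rw [← h, heq, hg]
  refine ⟨hmonic, ?_, ?_⟩
  · intro i
    rcases le_or_gt i p with hi | hi
    · by_cases hc : P.coeff i = 0
      · rw [hc, HahnSeries.orderTop_zero]; exact le_top
      · obtain ⟨m, hm⟩ := exists_orderTop_eq _ hc
        have h1 : (a i₀).orderTop ≤ (a i).orderTop :=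
          hmin i (Finset.mem_range.mpr (Nat.lt_succ_of_le hi))
        rw [hg, hord, hm, ← WithTop.coe_add] at h1
        have h2 : -(p : ℤ) ≤ m + -(i : ℤ) := by exact_mod_cast h1
        rw [hm, hdeg]
        have h3 : ((p : ℤ) - i) * (-1) ≤ m := by linarith
        exact_mod_cast h3
    · rw [coeff_eq_zero_of_natDegree_lt (by rwa [hdeg]), HahnSeries.orderTop_zero]
      exact le_top
  · have h0 : a 0 = P.coeff 0 := by rw [ha]; simp
    rw [← h0, ha0, hdeg]
    congr 1
    ring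

end Fermat.Agent.S28.H988

end

end
-- ===== PACK-END S28/H988/Purity.lean

-- ===== PACK-BEGIN S28/H988/Gen.lean
section
/-
S28 / [L.UP] upper bound, helper988.
The generation step (zeta-free): for distinct `p ≠ r` with modular relations
`Φ_p`, `Φ_r` and `e ≠ 0`:  `j(q^{epr}) ∈ k(j(q^{er}), j(q^{ep}))`.
-/




set_option autoImplicit false

noncomputable section

open Polynomial ModularCurve

namespace Fermat.Agent.S28.H988

/-! ### Total versions of `qExpand` and `j(q^e)` -/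

section Basic

variable (k : Type*) [Field k]

/-- `q ↦ q^m`, total in `m` (identity for `m = 0`). -/
def Vm (m : ℕ) : LaurentSeries k →+* LaurentSeries k :=
  if h : m = 0 then RingHom.id _ else @qExpand k _ m ⟨h⟩

theorem Vm_eq (m : ℕ) [NeZero m] : Vm k m = qExpand k m := by
  unfold Vm
  rw [dif_neg (NeZero.ne m)]

theorem Vm_of_ne {m : ℕ} (hm : m ≠ 0) : Vm k m = @qExpand k _ m ⟨hm⟩ := by
  unfold Vm
  rw [dif_neg hm]

theorem Vm_one : Vm k 1 = RingHom.id _ := by
  ext1 f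
  rw [Vm_eq k 1]
  exact qExpand_one_apply f

theorem Vm_injective (m : ℕ) : Function.Injective (Vm k m) := by
  by_cases h : m = 0
  · subst h
    unfold Vm
    rw [dif_pos rfl]
    exact fun _ _ h => h
  · rw [Vm_of_ne k h]
    exact @qExpand_injective k _ m ⟨h⟩

theorem Vm_Vm {m n : ℕ} (hm : m ≠ 0) (hn : n ≠ 0) (f : LaurentSeries k) :
    Vm k m (Vm k n f) = Vm k (m * n) f := by
  have : NeZero m := ⟨hm⟩
  have : NeZero n := ⟨hn⟩
  have : NeZero (m * n) := ⟨Nat.mul_ne_zero hm hn⟩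
  rw [Vm_eq k m, Vm_eq k n, Vm_eq k (m * n)]
  exact qExpand_qExpand n m f

/-- `j(q^e)`, total in `e`. -/
def jd (e : ℕ) : LaurentSeries k := Vm k e (jqModC k)

theorem jd_eq (e : ℕ) [NeZero e] : jd k e = qExpand k e (jqModC k) := by
  unfold jd
  rw [Vm_eq]

theorem jd_one : jd k 1 = jqModC k := by
  unfold jd
  rw [Vm_one]
  rfl

theorem Vm_jd {m e : ℕ} (hm : m ≠ 0) (he : e ≠ 0) : Vm k m (jd k e) = jd k (m * e) := by
  unfold jd
  exact Vm_Vm k hm he _

theorem orderTop_Vm {m : ℕ} (hm : m ≠ 0) (f : LaurentSeries k) (a : ℤ)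
    (h : f.orderTop = (a : WithTop ℤ)) :
    (Vm k m f).orderTop = (((m : ℤ) * a : ℤ) : WithTop ℤ) := by
  have : NeZero m := ⟨hm⟩
  rw [Vm_eq k m]
  have hmpos : (0 : ℤ) < m := by exact_mod_cast Nat.pos_of_ne_zero hm
  apply HahnSeries.orderTop_eq_of_le
  · rw [HahnSeries.mem_support, qExpand_coeff_mul]
    exact HahnSeries.coeff_orderTop_ne h
  · intro g hg
    rw [HahnSeries.mem_support] at hg
    by_cases hdvd : (m : ℤ) ∣ g
    · obtain ⟨c, rfl⟩ := hdvd
      rw [qExpand_coeff_mul] at hg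
      have : (a : WithTop ℤ) ≤ c := by
        rw [← h]; exact HahnSeries.orderTop_le_of_coeff_ne_zero hg
      have hac : a ≤ c := by exact_mod_cast this
      exact mul_le_mul_of_nonneg_left hac hmpos.le
    · exact absurd (qExpand_coeff_of_not_dvd m f hdvd) hg

theorem orderTop_jq : (jqModC k).orderTop = ((-1 : ℤ) : WithTop ℤ) := by
  apply HahnSeries.orderTop_eq_of_le
  · rw [HahnSeries.mem_support, coeff_jqModC_neg_one]
    exact one_ne_zero
  · intro g hg
    rw [HahnSeries.mem_support] at hg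
    by_contra hlt
    exact hg (coeff_jqModC_of_lt k (not_le.mp hlt))

theorem orderTop_jd {e : ℕ} (he : e ≠ 0) :
    (jd k e).orderTop = ((-(e : ℤ) : ℤ) : WithTop ℤ) := by
  unfold jd
  rw [orderTop_Vm k he _ (-1) (orderTop_jq k)]
  congr 1
  ring

theorem jd_ne {e e' : ℕ} (he : e ≠ 0) (he' : e' ≠ 0) (h : e ≠ e') : jd k e ≠ jd k e' := by
  intro heq
  have h1 := orderTop_jd k he
  rw [heq, orderTop_jd k he'] at h1
  have : (-(e' : ℤ)) = -(e : ℤ) := by exact_mod_cast h1
  apply h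
  have : (e' : ℤ) = e := by linarith
  exact_mod_cast this.symm

/-- `Vm` scales orders of nonzero elements. -/
theorem exists_orderTop_Vm (m : ℕ) (hm : m ≠ 0) (c : LaurentSeries k) (hc : Vm k m c ≠ 0) :
    ∃ n : ℤ, (Vm k m c).orderTop = (((m : ℤ) * n : ℤ) : WithTop ℤ) := by
  have hc' : c ≠ 0 := by
    rintro rfl
    exact hc (map_zero _)
  obtain ⟨n, hn⟩ := exists_orderTop_eq c hc'
  exact ⟨n, orderTop_Vm k hm c n hn⟩

/-- `Vm` scales slopes. -/
theorem IsPure.map_Vm {G : Polynomial (LaurentSeries k)} {s : ℤ} (h : IsPure G s) {m : ℕ}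
    (hm : m ≠ 0) : IsPure (G.map (Vm k m)) ((m : ℤ) * s) := by
  have hdeg : (G.map (Vm k m)).natDegree = G.natDegree :=
    natDegree_map_eq_of_injective (Vm_injective k m) G
  have hmpos : (0 : ℤ) < m := by exact_mod_cast Nat.pos_of_ne_zero hm
  refine ⟨h.monic.map _, ?_, ?_⟩
  · intro i
    rw [coeff_map, hdeg]
    by_cases hc : G.coeff i = 0
    · rw [hc, map_zero, HahnSeries.orderTop_zero]; exact le_top
    · obtain ⟨n, hn⟩ := exists_orderTop_eq _ hc
      rw [orderTop_Vm k hm _ n hn]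
      have := h.le_coeff i
      rw [hn] at this
      have h1 : ((G.natDegree : ℤ) - i) * s ≤ n := by exact_mod_cast this
      have h2 : ((G.natDegree : ℤ) - i) * ((m : ℤ) * s) ≤ (m : ℤ) * n := by
        have := mul_le_mul_of_nonneg_left h1 hmpos.le
        linarith
      exact_mod_cast h2
  · rw [coeff_map, hdeg, orderTop_Vm k hm _ _ h.coeff_zero]
    congr 1
    ring

end Basic

/-! ### Specialising a two-variable integral polynomial -/

section PhiAt

variable {S T : Type*} [CommRing S] [CommRing T]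

/-- `Φ(X, y)` for `Φ ∈ ℤ[Y][X]`. -/
def PhiAt (Φ : Polynomial (Polynomial ℤ)) (y : S) : Polynomial S :=
  Φ.map (eval₂RingHom (Int.castRingHom S) y)

theorem PhiAt_map (Φ : Polynomial (Polynomial ℤ)) (y : S) (σ : S →+* T) :
    (PhiAt Φ y).map σ = PhiAt Φ (σ y) := by
  unfold PhiAt
  rw [Polynomial.map_map]
  congr 1
  apply Polynomial.ringHom_ext
  · intro a
    simp
  · simp

theorem PhiAt_monic {Φ : Polynomial (Polynomial ℤ)} (hΦ : Φ.Monic) (y : S) :
    (PhiAt Φ y).Monic := hΦ.map _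

theorem PhiAt_natDegree [Nontrivial S] {Φ : Polynomial (Polynomial ℤ)} (hΦ : Φ.Monic) (y : S) :
    (PhiAt Φ y).natDegree = Φ.natDegree := hΦ.natDegree_map _

end PhiAt

/-! ### Modular relations and the quotient polynomial -/

section Rel

variable (k : Type*) [Field k]

/-- The two modular relations of level `p` over the field `k`:
`Φ(j(q^p), j) = 0` and `Φ(j, j(q^p)) = 0`, for a monic `Φ ∈ ℤ[Y][X]` of degree `p + 1`. -/
structure PhiRel (p : ℕ) (Φ : Polynomial (Polynomial ℤ)) : Prop where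
  monic : Φ.Monic
  natDegree_eq : Φ.natDegree = p + 1
  root_jp : (PhiAt Φ (jqModC k)).IsRoot (jd k p)
  root_j : (PhiAt Φ (jd k p)).IsRoot (jqModC k)

variable {k} {p : ℕ} {Φ : Polynomial (Polynomial ℤ)}

theorem PhiRel.root1 (h : PhiRel k p Φ) (hp : p ≠ 0) {e : ℕ} (he : e ≠ 0) :
    (PhiAt Φ (jd k e)).IsRoot (jd k (e * p)) := by
  have := h.root_jp.map (f := Vm k e)
  rwa [PhiAt_map, Vm_jd k he hp] at this

theorem PhiRel.root2 (h : PhiRel k p Φ) (hp : p ≠ 0) {e : ℕ} (he : e ≠ 0) :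
    (PhiAt Φ (jd k (e * p))).IsRoot (jd k e) := by
  have := h.root_j.map (f := Vm k e)
  rwa [PhiAt_map, Vm_jd k he hp] at this

variable (k) in
/-- The quotient `Φ(X, j(q^e)) / (X - j(q^{ep}))`. -/
def quot (Φ : Polynomial (Polynomial ℤ)) (p e : ℕ) : Polynomial (LaurentSeries k) :=
  PhiAt Φ (jd k e) /ₘ (X - C (jd k (e * p)))

theorem quot_map_Vm (Φ : Polynomial (Polynomial ℤ)) (hp : p ≠ 0) {e m : ℕ} (he : e ≠ 0)
    (hm : m ≠ 0) : (quot k Φ p e).map (Vm k m) = quot k Φ p (m * e) := by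
  unfold quot
  rw [map_divByMonic _ (monic_X_sub_C _), PhiAt_map, Polynomial.map_sub, map_X, map_C,
    Vm_jd k hm he, Vm_jd k hm (Nat.mul_ne_zero he hp), mul_assoc]

theorem PhiRel.quot_spec (h : PhiRel k p Φ) (hp : p ≠ 0) {e : ℕ} (he : e ≠ 0) :
    (X - C (jd k (e * p))) * quot k Φ p e = PhiAt Φ (jd k e) :=
  mul_divByMonic_eq_iff_isRoot.mpr (h.root1 hp he)

theorem PhiRel.quot_monic (h : PhiRel k p Φ) (e : ℕ) : (quot k Φ p e).Monic := by
  unfold quot
  have hm : (PhiAt Φ (jd k e)).Monic := PhiAt_monic h.monic _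
  have hd : (X - C (jd k (e * p)) : Polynomial (LaurentSeries k)).degree
      ≤ (PhiAt Φ (jd k e)).degree := by
    rw [degree_X_sub_C, degree_eq_natDegree hm.ne_zero, PhiAt_natDegree h.monic, h.natDegree_eq]
    exact_mod_cast Nat.le_add_left 1 p
  rw [Monic, leadingCoeff_divByMonic_of_monic (monic_X_sub_C _) hd]
  exact hm

theorem PhiRel.quot_natDegree (h : PhiRel k p Φ) (e : ℕ) : (quot k Φ p e).natDegree = p := by
  unfold quot
  rw [natDegree_divByMonic _ (monic_X_sub_C _), natDegree_X_sub_C, PhiAt_natDegree h.monic,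
    h.natDegree_eq]
  rfl

theorem PhiRel.isPure_quot_self (h : PhiRel k p Φ) (hp : 1 < p) : IsPure (quot k Φ p p) (-1) := by
  have hp0 : p ≠ 0 := by omega
  have hmap : quot k Φ p p = (quot k Φ p 1).map (Vm k p) := by
    rw [quot_map_Vm Φ hp0 one_ne_zero hp0, mul_one]
  refine isPure_of_root p _ (h.quot_monic p) (h.quot_natDegree p) ?_ (jqModC k) (orderTop_jq k) ?_
  · intro i hi
    rw [hmap, coeff_map] at hi ⊢
    exact exists_orderTop_Vm k p hp0 _ hi
  · have h1 := h.root2 hp0 one_ne_zero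
    rw [one_mul, jd_one] at h1
    have h2 := h.quot_spec hp0 hp0
    rw [IsRoot.def, ← h2, eval_mul, eval_sub, eval_X, eval_C] at h1
    rcases mul_eq_zero.mp h1 with h3 | h3
    · exfalso
      have h4 : jd k 1 = jd k (p * p) := by
        rw [jd_one]; exact sub_eq_zero.mp h3
      refine jd_ne k one_ne_zero (Nat.mul_ne_zero hp0 hp0) ?_ h4
      intro h5
      have : 1 < p * p := by nlinarith
      omega
    · exact h3

theorem PhiRel.isPure_quot (h : PhiRel k p Φ) (hp : 1 < p) {m : ℕ} (hm : m ≠ 0) :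
    IsPure (quot k Φ p (m * p)) (-(m : ℤ)) := by
  have hp0 : p ≠ 0 := by omega
  have := (h.isPure_quot_self hp).map_Vm k hm
  rw [quot_map_Vm Φ hp0 hp0 hm] at this
  have e : (m : ℤ) * (-1) = -(m : ℤ) := by ring
  rwa [e] at this

/-- Coprimality of the two quotient polynomials (zeta-free, via Newton polygons). -/
theorem isCoprime_quot {r : ℕ} {Φr : Polynomial (Polynomial ℤ)}
    (hΦ : PhiRel k p Φ) (hΦr : PhiRel k r Φr) (hp : 1 < p) (hr : 1 < r) (hpr : p ≠ r)
    {e : ℕ} (he : e ≠ 0) :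
    IsCoprime (quot k Φ p (e * r)) (quot k Φr r (e * p)) := by
  have hp0 : p ≠ 0 := by omega
  have hr0 : r ≠ 0 := by omega
  have hpr0 : p * r ≠ 0 := Nat.mul_ne_zero hp0 hr0
  rw [← isCoprime_map (Vm k (p * r))]
  rw [quot_map_Vm Φ hp0 (Nat.mul_ne_zero he hr0) hpr0,
    quot_map_Vm Φr hr0 (Nat.mul_ne_zero he hp0) hpr0]
  have e1 : p * r * (e * r) = (e * r * r) * p := by ring
  have e2 : p * r * (e * p) = (e * p * p) * r := by ring
  rw [e1, e2]
  have hm1 : e * r * r ≠ 0 := Nat.mul_ne_zero (Nat.mul_ne_zero he hr0) hr0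
  have hm2 : e * p * p ≠ 0 := Nat.mul_ne_zero (Nat.mul_ne_zero he hp0) hp0
  refine (hΦ.isPure_quot hp hm1).isCoprime (hΦr.isPure_quot hr hm2) ?_
  intro hcon
  have h1 : ((e * r * r : ℕ) : ℤ) = ((e * p * p : ℕ) : ℤ) := by linarith
  have h2 : e * r * r = e * p * p := by exact_mod_cast h1
  have h3 : r * r = p * p := by
    have : e * (r * r) = e * (p * p) := by rw [← mul_assoc, ← mul_assoc]; exact h2
    exact Nat.eq_of_mul_eq_mul_left (Nat.pos_of_ne_zero he) this
  have h4 : r = p := by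
    rcases lt_trichotomy r p with hlt | heq | hgt
    · exact absurd h3 (ne_of_lt (Nat.mul_lt_mul'' hlt hlt))
    · exact heq
    · exact absurd h3 (ne_of_gt (Nat.mul_lt_mul'' hgt hgt))
  exact hpr h4.symm

/-- **Generation step.** If an intermediate field contains `j(q^{er})` and `j(q^{ep})`
(`p ≠ r`), then it contains `j(q^{epr})`. -/
theorem jd_mem_of_mem {r : ℕ} {Φr : Polynomial (Polynomial ℤ)}
    (hΦ : PhiRel k p Φ) (hΦr : PhiRel k r Φr) (hp : 1 < p) (hr : 1 < r) (hpr : p ≠ r)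
    {e : ℕ} (he : e ≠ 0) (F : IntermediateField k (LaurentSeries k))
    (h1 : jd k (e * r) ∈ F) (h2 : jd k (e * p) ∈ F) : jd k (e * p * r) ∈ F := by
  have hp0 : p ≠ 0 := by omega
  have hr0 : r ≠ 0 := by omega
  have hcomm : e * r * p = e * p * r := Nat.mul_right_comm e r p
  set A : Polynomial F := PhiAt Φ (⟨jd k (e * r), h1⟩ : F) with hA
  set B : Polynomial F := PhiAt Φr (⟨jd k (e * p), h2⟩ : F) with hB
  have hAmap : A.map (algebraMap F (LaurentSeries k)) = PhiAt Φ (jd k (e * r)) := by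
    rw [hA, PhiAt_map]; rfl
  have hBmap : B.map (algebraMap F (LaurentSeries k)) = PhiAt Φr (jd k (e * p)) := by
    rw [hB, PhiAt_map]; rfl
  have hAne : A ≠ 0 := (PhiAt_monic hΦ.monic _).ne_zero
  have hrootA : (A.map (algebraMap F (LaurentSeries k))).IsRoot (jd k (e * p * r)) := by
    rw [hAmap, ← hcomm]
    exact hΦ.root1 hp0 (Nat.mul_ne_zero he hr0)
  have hrootB : (B.map (algebraMap F (LaurentSeries k))).IsRoot (jd k (e * p * r)) := by
    rw [hBmap]
    exact hΦr.root1 hr0 (Nat.mul_ne_zero he hp0)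
  have hcop : IsCoprime ((A.map (algebraMap F (LaurentSeries k))) /ₘ (X - C (jd k (e * p * r))))
      ((B.map (algebraMap F (LaurentSeries k))) /ₘ (X - C (jd k (e * p * r)))) := by
    have := isCoprime_quot hΦ hΦr hp hr hpr he
    unfold quot at this
    rw [hcomm] at this
    rwa [hAmap, hBmap]
  obtain ⟨y, hy⟩ := mem_range_of_common_root A B hAne _ hrootA hrootB hcop
  rw [← hy]
  exact y.2

end Rel

end Fermat.Agent.S28.H988

end

end
-- ===== PACK-END S28/H988/Gen.lean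

-- ===== PACK-BEGIN A2/H708/GaussInfModular.lean
section




/-!
# A2 (helper708): `modularFunctionFieldFull N` is generated by integer series

`intGen_full N : IntGen (modularFunctionFieldFull N)` : every element of
`ℚ(j(t^d) : d ∣ N) ⊆ ℚ((t))` is a fraction `P / Q` of series with INTEGER coefficients lying in
the field.  This is the hypothesis `hgen` of the Gauss valuation ring `gaussInf` (all levels `N`,
all residue characteristics).
-/

set_option autoImplicit false

noncomputable section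

namespace Fermat.Agent.A2.H708

open ModularCurve HahnSeries IntermediateField Fermat.Agent.S18.H602

theorem castQ_injective : Function.Injective castQ :=
  coeffMap_injective _ (RingHom.injective_int (Int.castRingHom ℚ))

/-- `j(t^d)` with integer coefficients. -/
def jInt (d : ℕ) [NeZero d] : LaurentSeries ℤ := jqNModC ℤ d

theorem castQ_jInt (d : ℕ) [NeZero d] : castQ (jInt d) = qExpand ℚ d jq := by
  rw [castQ, jInt, coeffMap_jqNModC, jqNModC, jqModC_rat]

theorem castQ_single_zero (a : ℤ) :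
    castQ (HahnSeries.single 0 a) = algebraMap ℚ (LaurentSeries ℚ) (a : ℚ) := by
  rw [castQ, coeffMap_single, algebraMap_laurentSeries_eq_single]
  rfl

/-- fractions of integer series in a subfield of `ℚ((t))`. -/
def IsIntFrac (F₀ : IntermediateField ℚ (LaurentSeries ℚ)) (z : LaurentSeries ℚ) : Prop :=
  ∃ P Q : LaurentSeries ℤ, Q ≠ 0 ∧ castQ Q ∈ F₀ ∧ z * castQ Q = castQ P

theorem castQ_ne_zero {Q : LaurentSeries ℤ} (h : Q ≠ 0) : castQ Q ≠ 0 :=
  fun h0 => h (castQ_injective (h0.trans (map_zero _).symm))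

/-- A field generated over `ℚ` by integer series consists of fractions of integer series. -/
theorem intGen_adjoin (S : Set (LaurentSeries ℤ)) :
    IntGen (IntermediateField.adjoin ℚ (castQ '' S)) := by
  intro z hz
  show IsIntFrac _ z
  induction hz using IntermediateField.adjoin_induction with
  | mem y hy =>
    obtain ⟨s, hs, rfl⟩ := hy
    refine ⟨s, 1, one_ne_zero, ?_, ?_⟩
    · rw [map_one]; exact one_mem _
    · rw [map_one, mul_one]
  | algebraMap c =>
    refine ⟨HahnSeries.single 0 c.num, HahnSeries.single 0 (c.den : ℤ), ?_, ?_, ?_⟩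
    · intro h
      have := congrArg (fun z => z.coeff 0) h
      simp at this
    · rw [castQ_single_zero]
      exact IntermediateField.algebraMap_mem _ _
    · rw [castQ_single_zero, castQ_single_zero, ← map_mul]
      congr 1
      have := Rat.mul_den_eq_num c
      exact_mod_cast this
  | add x y hx hy ihx ihy =>
    obtain ⟨P, Q, h0, hm, he⟩ := ihx
    obtain ⟨P', Q', h0', hm', he'⟩ := ihy
    refine ⟨P * Q' + P' * Q, Q * Q', mul_ne_zero h0 h0', ?_, ?_⟩
    · rw [map_mul]; exact mul_mem hm hm'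
    · rw [map_add, map_mul, map_mul, map_mul, ← he, ← he']
      ring
  | inv x hx ihx =>
    obtain ⟨P, Q, h0, hm, he⟩ := ihx
    by_cases hx0 : x = 0
    · refine ⟨0, 1, one_ne_zero, ?_, ?_⟩
      · rw [map_one]; exact one_mem _
      · rw [hx0, inv_zero, zero_mul, map_zero]
    · have hP : P ≠ 0 := by
        rintro rfl
        rw [map_zero] at he
        rcases mul_eq_zero.mp he with h | h
        · exact hx0 h
        · exact castQ_ne_zero h0 h
      refine ⟨Q, P, hP, ?_, ?_⟩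
      · rw [← he]
        exact mul_mem hx hm
      · rw [← he, ← mul_assoc, inv_mul_cancel₀ hx0, one_mul]
  | mul x y hx hy ihx ihy =>
    obtain ⟨P, Q, h0, hm, he⟩ := ihx
    obtain ⟨P', Q', h0', hm', he'⟩ := ihy
    refine ⟨P * P', Q * Q', mul_ne_zero h0 h0', ?_, ?_⟩
    · rw [map_mul]; exact mul_mem hm hm'
    · rw [map_mul, map_mul, ← he, ← he']
      ring

/-- the integer generators of `modularFunctionFieldFull N`. -/
def intGens (N : ℕ) : Set (LaurentSeries ℤ) :=
  {x | ∃ (d : ℕ) (_ : NeZero d), d ∣ N ∧ x = jInt d}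

theorem castQ_image_intGens (N : ℕ) : castQ '' intGens N = divisorExpansions N := by
  ext x
  constructor
  · rintro ⟨_, ⟨d, hd, hdN, rfl⟩, rfl⟩
    exact ⟨d, hd, hdN, castQ_jInt d⟩
  · rintro ⟨d, hd, hdN, rfl⟩
    exact ⟨jInt d, ⟨d, hd, hdN, rfl⟩, castQ_jInt d⟩

/-- **`ℚ(j(t^d) : d ∣ N)` is generated by integer series** (every level `N`). -/
theorem intGen_full (N : ℕ) : IntGen (modularFunctionFieldFull N) := by
  have h := intGen_adjoin (intGens N)
  rw [castQ_image_intGens] at h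
  exact h

end Fermat.Agent.A2.H708

end
end
-- ===== PACK-END A2/H708/GaussInfModular.lean

-- ===== PACK-BEGIN A2/Mod/H372/Branch.lean
section




/-!
# A2 / MODASM S3, generic part (helper372): the branches are Dedekind

Mathlib + `A2.H372` only.

* `dimensionLEOne_quotient_of_integral` : `B` integral over `R[y]` (`R` local), `p` a prime of
  `B` containing the maximal ideal of `R` ⟹ every nonzero prime of `B ⧸ p` is maximal;
* `isDedekindDomain_quotient_of_integral` : if moreover `B` is noetherian and `B ⧸ p` is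
  integrally closed, then `B ⧸ p` is a Dedekind domain;
* `exists_isBranchUnif_of_quotient` : local generators of the branch `B ⧸ P` in terms of a
  parametrisation `α : A → B` onto `B ⧸ P`;
* `KronCong.sup_isRadical_of_quotient` : transversality (`SSChart.transversal`) from the
  semilinear Kronecker congruences when the branch `B ⧸ P₁` is Dedekind.
-/

set_option autoImplicit false
set_option linter.style.haveILetI false

namespace Fermat.Agent.A2.Mod.H372

open Polynomial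

section Dim

variable {R B : Type*} [CommRing R] [IsLocalRing R] [CommRing B]

/-- Every nonzero prime of `B ⧸ p` is maximal. -/
theorem dimensionLEOne_quotient_of_integral (c : R →+* B) (y : B)
    (hint : ∀ b : B, (Polynomial.eval₂RingHom c y).IsIntegralElem b)
    (p : Ideal B) [p.IsPrime] (hp : ∀ r ∈ IsLocalRing.maximalIdeal R, c r ∈ p) :
    Ring.DimensionLEOne (B ⧸ p) := by
  let k := IsLocalRing.ResidueField R
  let ι : k →+* B ⧸ p :=
    Ideal.Quotient.lift (IsLocalRing.maximalIdeal R) ((Ideal.Quotient.mk p).comp c)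
      (fun r hr => Ideal.Quotient.eq_zero_iff_mem.mpr (hp r hr))
  let θ : Polynomial k →+* B ⧸ p := Polynomial.eval₂RingHom ι (Ideal.Quotient.mk p y)
  have hθ : θ.IsIntegral := by
    intro z
    obtain ⟨b, rfl⟩ := Ideal.Quotient.mk_surjective z
    have h1 := isIntegralElem_map (Polynomial.eval₂RingHom c y) (Ideal.Quotient.mk p) (hint b)
    refine isIntegralElem_of_forall_exists _ _ (fun f => ?_) h1
    refine ⟨f.map (IsLocalRing.residue R), ?_⟩
    show Polynomial.eval₂ ι (Ideal.Quotient.mk p y) (f.map (IsLocalRing.residue R)) = _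
    rw [Polynomial.eval₂_map, RingHom.comp_apply, Polynomial.coe_eval₂RingHom,
      Polynomial.hom_eval₂]
    rfl
  letI := θ.toAlgebra
  haveI : Algebra.IsIntegral (Polynomial k) (B ⧸ p) := ⟨hθ⟩
  refine ⟨fun {𝔮} h𝔮 hprime => ?_⟩
  have hne : 𝔮.comap (algebraMap (Polynomial k) (B ⧸ p)) ≠ ⊥ := fun h =>
    h𝔮 (Ideal.eq_bot_of_comap_eq_bot h)
  have hmax : (𝔮.comap (algebraMap (Polynomial k) (B ⧸ p))).IsMaximal :=
    Ring.DimensionLEOne.maximalOfPrime hne (Ideal.comap_isPrime _ _)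
  exact Ideal.isMaximal_of_isIntegral_of_isMaximal_comap 𝔮 hmax

/-- The branch `B ⧸ p` is a Dedekind domain. -/
theorem isDedekindDomain_quotient_of_integral [IsNoetherianRing B] (c : R →+* B) (y : B)
    (hint : ∀ b : B, (Polynomial.eval₂RingHom c y).IsIntegralElem b)
    (p : Ideal B) [p.IsPrime] (hp : ∀ r ∈ IsLocalRing.maximalIdeal R, c r ∈ p)
    [IsIntegrallyClosed (B ⧸ p)] : IsDedekindDomain (B ⧸ p) :=
  { dimensionLEOne_quotient_of_integral c y hint p hp with
    toIsDomain := inferInstance }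

end Dim

section Branch

variable {A B : Type*} [CommRing A] [CommRing B]

open Fermat.Agent.A2.H372 in
/-- If the branch `B ⧸ P` is a Dedekind domain and `α` is onto `B ⧸ P`, every prime `n ⊇ P` has
a local generator in the sense of `IsBranchUnif`. -/
theorem exists_isBranchUnif_of_quotient (α : A →+* B) (P n : Ideal B) [n.IsPrime]
    (hP : P ≤ n) [IsDedekindDomain (B ⧸ P)] (hα : ∀ b : B, ∃ a : A, b - α a ∈ P) :
    ∃ a₀ : A, IsBranchUnif α P n a₀ := by
  let ψ : B ⧸ P →+* B ⧸ n := Ideal.Quotient.factor hP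
  let m : Ideal (B ⧸ P) := RingHom.ker ψ
  have : m.IsPrime := RingHom.ker_isPrime ψ
  have hmem : ∀ b : B, Ideal.Quotient.mk P b ∈ m ↔ b ∈ n := by
    intro b
    simp only [m, ψ, RingHom.mem_ker, Ideal.Quotient.factor_mk, Ideal.Quotient.eq_zero_iff_mem]
  have hmk : ∀ z : B ⧸ P, ∃ a : A, z = Ideal.Quotient.mk P (α a) := by
    intro z
    obtain ⟨b, rfl⟩ := Ideal.Quotient.mk_surjective z
    obtain ⟨a, ha⟩ := hα b
    exact ⟨a, Ideal.Quotient.eq.mpr ha⟩
  obtain ⟨a₀', ha₀', hgen⟩ := H372.exists_local_generator_of_isDedekindDomain _ m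
  obtain ⟨a₀, rfl⟩ := hmk a₀'
  refine ⟨a₀, (hmem _).mp ha₀', fun a ha => ?_⟩
  obtain ⟨s', y', hs', hsy'⟩ := hgen _ ((hmem (α a)).mpr ha)
  obtain ⟨s, rfl⟩ := hmk s'
  obtain ⟨y, rfl⟩ := hmk y'
  refine ⟨s, y, fun h => hs' ((hmem _).mpr h), ?_⟩
  have h0 : Ideal.Quotient.mk P (α s * α a - α a₀ * α y) = 0 := by
    rw [map_sub, map_mul, map_mul, hsy', sub_self]
  exact Ideal.Quotient.eq_zero_iff_mem.mp h0

open Fermat.Agent.A2.H372 in
/-- **Transversality** when the first branch `B ⧸ P₁` is a Dedekind domain. -/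
theorem sup_isRadical_of_quotient {q : ℕ} (hq : 2 ≤ q) {α β : A →+* B}
    {P₁ P₂ : Ideal B} (h : KronCong q α β P₁ P₂) (hα : ∀ b : B, ∃ a : A, b - α a ∈ P₁)
    [IsDedekindDomain (B ⧸ P₁)] : (P₁ ⊔ P₂).IsRadical :=
  h.sup_isRadical hq hα fun n hn hP₁ _ =>
    haveI := hn.isPrime
    exists_isBranchUnif_of_quotient α P₁ n hP₁ hα

end Branch

end Fermat.Agent.A2.Mod.H372

end
-- ===== PACK-END A2/Mod/H372/Branch.lean

-- ===== PACK-BEGIN A2/Mod/H189/ChartChangeAux.lean
section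







/-!
# Cell A2 / MOD, GOODRED part G3 (helper189): chart change, auxiliary lemmas (Mathlib only)

* `isIntegral_of_monic_eq`, `isIntegral_of_unit_eq`, `isIntegral_of_cubic`, `isIntegral_of_quartic`:
  integrality over a subalgebra from an explicit equation with unit leading coefficient;
* `icSub A` : the integral closure of a subalgebra `A ⊆ F`, as an `R`-subalgebra of `F`;
* `GoodOn V w A := QepOn V w A ∧ NormalOn V w A` with `GoodOn.loc`, `GoodOn.glue`, `GoodOn.congr`,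
  `GoodOn.of_le_of_le`.
-/

set_option autoImplicit false

namespace Fermat.Agent.A2.Mod.H189

open Polynomial

variable {R : Type*} [CommRing R] {F : Type*} [Field F] [Algebra R F]

/-- Integrality from a monic equation with coefficients in `A`. -/
theorem isIntegral_of_monic_eq {A : Subalgebra R F} {x : F} (n : ℕ) (c : Fin n → F)
    (hc : ∀ i, c i ∈ A) (h : x ^ n + ∑ i : Fin n, c i * x ^ (i : ℕ) = 0) : IsIntegral A x := by
  refine ⟨X ^ n + ∑ i : Fin n, C (⟨c i, hc i⟩ : A) * X ^ (i : ℕ),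
    monic_X_pow_add (degree_sum_fin_lt _), ?_⟩
  rw [eval₂_add, eval₂_pow, eval₂_X, eval₂_finsetSum]
  simp only [eval₂_mul, eval₂_C, eval₂_pow, eval₂_X]
  exact h

/-- Integrality from an equation whose leading coefficient is a unit of `A`. -/
theorem isIntegral_of_unit_eq {A : Subalgebra R F} {x : F} (n : ℕ) {a v : F}
    (hv : v ∈ A) (hav : v * a = 1) (c : Fin n → F)
    (hc : ∀ i, c i ∈ A) (h : a * x ^ n + ∑ i : Fin n, c i * x ^ (i : ℕ) = 0) :
    IsIntegral A x := by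
  refine isIntegral_of_monic_eq n (fun i => v * c i) (fun i => A.mul_mem hv (hc i)) ?_
  have h1 := congrArg (fun z => v * z) h
  simp only [mul_zero, mul_add, ← mul_assoc, hav, one_mul, Finset.mul_sum] at h1
  exact h1

/-- Integrality from a cubic equation with unit leading coefficient. -/
theorem isIntegral_of_cubic {A : Subalgebra R F} {x a v c₂ c₁ c₀ : F}
    (hv : v ∈ A) (hav : v * a = 1) (h₂ : c₂ ∈ A) (h₁ : c₁ ∈ A) (h₀ : c₀ ∈ A)
    (h : a * x ^ 3 + c₂ * x ^ 2 + c₁ * x + c₀ = 0) : IsIntegral A x := by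
  refine isIntegral_of_unit_eq 3 hv hav ![c₀, c₁, c₂] ?_ ?_
  · intro i
    fin_cases i <;> simpa
  · rw [Fin.sum_univ_three]
    simp only [Matrix.cons_val_zero, Matrix.cons_val_one, Matrix.cons_val_two, Matrix.head_cons,
      Matrix.tail_cons, Fin.val_zero, Fin.val_one, Fin.val_two, pow_zero, pow_one, mul_one]
    linear_combination h

/-- Integrality from a quartic equation with unit leading coefficient. -/
theorem isIntegral_of_quartic {A : Subalgebra R F} {x a v c₃ c₂ c₁ c₀ : F}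
    (hv : v ∈ A) (hav : v * a = 1) (h₃ : c₃ ∈ A) (h₂ : c₂ ∈ A) (h₁ : c₁ ∈ A) (h₀ : c₀ ∈ A)
    (h : a * x ^ 4 + c₃ * x ^ 3 + c₂ * x ^ 2 + c₁ * x + c₀ = 0) : IsIntegral A x := by
  refine isIntegral_of_unit_eq 4 hv hav ![c₀, c₁, c₂, c₃] ?_ ?_
  · intro i
    fin_cases i <;> simpa
  · rw [Fin.sum_univ_four]
    simp only [Matrix.cons_val_zero, Matrix.cons_val_one, Matrix.cons_val_two,
      Matrix.cons_val_three, Matrix.head_cons,
      Matrix.tail_cons, Fin.val_zero, Fin.val_one, Fin.val_two, pow_zero, pow_one, mul_one]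
    simp
    linear_combination h

/-- The integral closure of a subalgebra `A ⊆ F`, as an `R`-subalgebra of `F`. -/
def icSub (A : Subalgebra R F) : Subalgebra R F :=
  (integralClosure A F).restrictScalars R

theorem mem_icSub {A : Subalgebra R F} {x : F} : x ∈ icSub A ↔ IsIntegral A x := Iff.rfl

theorem le_icSub (A : Subalgebra R F) : A ≤ icSub A := fun _ ha => isIntegral_of_mem ha

/-- A subalgebra generated by integral elements is integral. -/
theorem isIntegral_of_mem_adjoin {A : Subalgebra R F} {S : Set F}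
    (hS : ∀ x ∈ S, IsIntegral A x) {b : F} (hb : b ∈ Algebra.adjoin R S) : IsIntegral A b :=
  (Algebra.adjoin_le (S := icSub A) hS) hb

/-- Elements of `A[1/s]` are integral over `A'` as soon as `A` and `1/s` are. -/
theorem isIntegral_of_mem_locSub {A A' : Subalgebra R F} {s : F}
    (hA : ∀ a ∈ A, IsIntegral A' a) (hs : IsIntegral A' s⁻¹) {b : F} (hb : b ∈ locSub A s) :
    IsIntegral A' b :=
  isIntegral_of_mem_adjoin (A := A') (by
    rintro x (hx | hx)
    · exact hA x hx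
    · rw [Set.mem_singleton_iff] at hx
      rw [hx]
      exact hs) hb

/-- Both halves of `Mod.GoodRedAt` for the chart of `A`. -/
def GoodOn (V : Subring F) (w : F) (A : Subalgebra R F) : Prop :=
  QepOn V w A ∧ NormalOn V w A

theorem GoodOn.congr {V : Subring F} {w : F} {A A' : Subalgebra R F}
    (h : ∀ a ∈ A, IsIntegral A' a) (h' : ∀ a ∈ A', IsIntegral A a) (hg : GoodOn V w A) :
    GoodOn V w A' :=
  ⟨hg.1.congr h h', hg.2.congr h h'⟩

theorem GoodOn.of_le_of_le {V : Subring F} {w : F} {A A' : Subalgebra R F}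
    (h : A ≤ A') (h' : A' ≤ A) (hg : GoodOn V w A) : GoodOn V w A' :=
  hg.congr (fun _ ha => isIntegral_of_mem (h ha)) (fun _ ha => isIntegral_of_mem (h' ha))

theorem GoodOn.loc {V : Subring F} {w : F} {A : Subalgebra R F} (hg : GoodOn V w A) {s : F}
    (hsA : s ∈ A) (hs0 : s ≠ 0) (hsV : s ∈ V) (hsV' : s⁻¹ ∈ V) : GoodOn V w (locSub A s) :=
  ⟨hg.1.loc hsA hs0 hsV, hg.2.loc hsA hs0 hsV hsV'⟩

theorem GoodOn.glue {V : Subring F} {w : F} {A : Subalgebra R F} {s₁ s₂ α β : F}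
    (hAV : ∀ a ∈ A, a ∈ V)
    (hs₁ : s₁ ∈ A) (hs₂ : s₂ ∈ A) (hα : α ∈ A) (hβ : β ∈ A) (h1 : α * s₁ + β * s₂ = 1)
    (hg₁ : GoodOn V w (locSub A s₁)) (hg₂ : GoodOn V w (locSub A s₂)) : GoodOn V w A :=
  ⟨QepOn.glue hs₁ hs₂ hα hβ h1 hg₁.1 hg₂.1, NormalOn.glue hAV hs₁ hs₂ hα hβ h1 hg₁.2 hg₂.2⟩

/-- A subalgebra generated by elements of `V` lies in `V` (`V ⊇ R` a subring). -/
theorem adjoin_subset_subring {V : Subring F} (hRV : ∀ r : R, algebraMap R F r ∈ V) {S : Set F}
    (hS : ∀ x ∈ S, x ∈ V) : ∀ a ∈ Algebra.adjoin R S, a ∈ V := by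
  intro a ha
  induction ha using Algebra.adjoin_induction with
  | mem x hx => exact hS x hx
  | algebraMap r => exact hRV r
  | add x y _ _ hx hy => exact V.add_mem hx hy
  | mul x y _ _ hx hy => exact V.mul_mem hx hy

end Fermat.Agent.A2.Mod.H189

end
-- ===== PACK-END A2/Mod/H189/ChartChangeAux.lean

-- ===== PACK-BEGIN A2/Mod/H189/ChartChangeT2.lean
section


/-!
# Cell A2 / MOD, GOODRED part G3 (helper189): from the `t₂`-charts to the `j`-charts (`q = 3`)

Abstract setting (Mathlib only): `F` a field over `R`, `2` a unit of `R`, `t, j ∈ F` with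
`j t² = (t + 256)³` (`t` = Hauptmodul of `X₀(2)`), `j ≠ 0`; `V` a subring of `F` containing `R`
in which `t` and `t + 256` are units (the Gauss valuation ring), `w : F`.

* `goodOn_j_of_t2`    : `GoodOn` for the chart of `R[t]` ⟹ `GoodOn` for the chart of `R[j]`
  (`IC(R[j]) = IC(R[t])[1/t]`);
* `goodOn_jinv_of_t2` : `GoodOn` for the charts of `R[t]` and `R[1/t]` ⟹ `GoodOn` for the chart of
  `R[1/j]`  (`IC(R[1/j]) = IC(R[u])`, `u = 1/(t+256)`, glued from `IC(R[t])[1/(t+256)]` and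
  `IC(R[1/t])[1/(1+256/t)]`).
-/

set_option autoImplicit false

namespace Fermat.Agent.A2.Mod.H189

variable {R : Type*} [CommRing R] {F : Type*} [Field F] [Algebra R F]

/-- `R[y] ⊆ F`. -/
abbrev Aof (R : Type*) [CommRing R] {F : Type*} [Field F] [Algebra R F] (y : F) :
    Subalgebra R F := Algebra.adjoin R ({y} : Set F)

theorem self_mem_Aof (y : F) : y ∈ Aof R y := Algebra.subset_adjoin rfl

theorem Aof_le {y : F} {B : Subalgebra R F} (hy : y ∈ B) : Aof R y ≤ B :=
  Algebra.adjoin_le (by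
    intro x hx
    rw [Set.mem_singleton_iff] at hx
    rw [hx]
    exact hy)

theorem ofNat_mem_sub (A : Subalgebra R F) (n : ℕ) [n.AtLeastTwo] : (OfNat.ofNat n : F) ∈ A := by
  have : (OfNat.ofNat n : F) = algebraMap R F (OfNat.ofNat n) := (map_ofNat _ n).symm
  rw [this]
  exact A.algebraMap_mem _

section T2

variable {V : Subring F} {w : F} {t j : F} (i : R)

include i in
theorem t2_facts (hi : (256 : R) * i = 1) (hj : j ≠ 0) (hrel : j * t ^ 2 = (t + 256) ^ 3) :
    (256 : F) * algebraMap R F i = 1 ∧ (256 : F) ≠ 0 ∧ t ≠ 0 ∧ t + 256 ≠ 0 := by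
  have h1 : (256 : F) * algebraMap R F i = 1 := by
    have := congrArg (algebraMap R F) hi
    rwa [map_mul, map_one, map_ofNat] at this
  have h2 : (256 : F) ≠ 0 := fun h => by rw [h, zero_mul] at h1; exact zero_ne_one h1
  have h3 : t ≠ 0 := by
    intro h
    rw [h] at hrel
    simp only [ne_eq, OfNat.ofNat_ne_zero, not_false_eq_true, zero_pow, mul_zero, zero_add] at hrel
    exact pow_ne_zero 3 h2 hrel.symm
  refine ⟨h1, h2, h3, fun h => ?_⟩
  rw [h] at hrel
  simp only [ne_eq, OfNat.ofNat_ne_zero, not_false_eq_true, zero_pow, mul_eq_zero,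
    pow_eq_zero_iff] at hrel
  rcases hrel with h | h
  · exact hj h
  · exact h3 h

include i in
/-- **`t₂ → j`, finite chart.** -/
theorem goodOn_j_of_t2 (hi : (256 : R) * i = 1) (hj : j ≠ 0) (hrel : j * t ^ 2 = (t + 256) ^ 3)
    (htV : t ∈ V) (htV' : t⁻¹ ∈ V) (hg : GoodOn V w (Aof R t)) : GoodOn V w (Aof R j) := by
  obtain ⟨hi', h256, ht0, -⟩ := t2_facts i hi hj hrel
  have hjeq : j = (t + 256) ^ 3 * t⁻¹ ^ 2 := by
    field_simp
    exact hrel
  refine (hg.loc (self_mem_Aof t) ht0 htV htV').congr ?_ ?_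
  · -- `R[t, 1/t]` is integral over `R[j]`
    intro a ha
    refine isIntegral_of_mem_locSub (A' := Aof R j) (fun a ha => ?_) ?_ ha
    · refine isIntegral_of_mem_adjoin (A := Aof R j) (S := {t}) (fun x hx => ?_) ha
      rw [Set.mem_singleton_iff] at hx
      subst hx
      -- `t ^ 3 + (768 - j) t ^ 2 + 196608 t + 16777216 = 0`
      refine isIntegral_of_cubic (a := 1) (v := 1) (c₂ := 768 - j) (c₁ := 196608)
        (c₀ := 16777216) (Subalgebra.one_mem _) (one_mul 1)
        (Subalgebra.sub_mem _ (ofNat_mem_sub _ 768) (self_mem_Aof j))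
        (ofNat_mem_sub _ 196608) (ofNat_mem_sub _ 16777216) ?_
      linear_combination -hrel
    · -- `1 / t`
      refine isIntegral_of_cubic (a := 16777216) (v := algebraMap R F (i ^ 3))
        (c₂ := 196608) (c₁ := 768 - j) (c₀ := 1) (Subalgebra.algebraMap_mem _ _) ?_
        (ofNat_mem_sub _ 196608)
        (Subalgebra.sub_mem _ (ofNat_mem_sub _ 768) (self_mem_Aof j)) (Subalgebra.one_mem _) ?_
      · rw [map_pow]
        have : (16777216 : F) = 256 ^ 3 := by norm_num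
        rw [this, ← mul_pow, mul_comm, hi', one_pow]
      · field_simp
        linear_combination -hrel
  · -- `R[j] ⊆ R[t, 1/t]`
    intro a ha
    refine isIntegral_of_mem (Aof_le (B := locSub (Aof R t) t) ?_ ha)
    rw [hjeq]
    refine Subalgebra.mul_mem _ (Subalgebra.pow_mem _ (Subalgebra.add_mem _
      (le_locSub _ _ (self_mem_Aof t)) (ofNat_mem_sub _ 256)) 3)
      (Subalgebra.pow_mem _ (inv_mem_locSub _ _) 2)

include i in
/-- **`t₂ → j`, chart at infinity.** -/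
theorem goodOn_jinv_of_t2 (hi : (256 : R) * i = 1) (hj : j ≠ 0)
    (hrel : j * t ^ 2 = (t + 256) ^ 3) (hRV : ∀ r : R, algebraMap R F r ∈ V)
    (htV : t ∈ V) (htV' : t⁻¹ ∈ V) (huV : (t + 256)⁻¹ ∈ V)
    (hg : GoodOn V w (Aof R t)) (hg' : GoodOn V w (Aof R t⁻¹)) : GoodOn V w (Aof R j⁻¹) := by
  obtain ⟨hi', h256, ht0, htu0⟩ := t2_facts i hi hj hrel
  have h256V : (256 : F) ∈ V := by
    have := hRV 256
    rwa [map_ofNat] at this
  set u : F := (t + 256)⁻¹ with hu
  have hu0 : u ≠ 0 := inv_ne_zero htu0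
  have htu : t * u = 1 - 256 * u := by
    rw [hu]
    field_simp
    ring
  have hjinv : j⁻¹ = (1 - 256 * u) ^ 2 * u := by
    rw [← htu, hu]
    field_simp
    linear_combination -hrel
  have h1u0 : 1 - 256 * u ≠ 0 := by
    rw [← htu]
    exact mul_ne_zero ht0 hu0
  have h1t0 : 1 + 256 * t⁻¹ ≠ 0 := by
    have : 1 + 256 * t⁻¹ = (t + 256) * t⁻¹ := by field_simp
    rw [this]
    exact mul_ne_zero htu0 (inv_ne_zero ht0)
  have hinv1 : (1 - 256 * u)⁻¹ = 1 + 256 * t⁻¹ := by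
    rw [← htu, hu]
    field_simp
  have hinv2 : (1 + 256 * t⁻¹)⁻¹ = 1 - 256 * u := by
    rw [← hinv1, inv_inv]
  -- the chart of `R[u]`
  have hgu : GoodOn V w (Aof R u) := by
    refine GoodOn.glue (s₁ := u) (s₂ := 1 - 256 * u) (α := 256) (β := 1)
      (adjoin_subset_subring hRV (by
        intro x hx
        rw [Set.mem_singleton_iff] at hx
        rw [hx]
        exact huV))
      (self_mem_Aof u)
      (Subalgebra.sub_mem _ (Subalgebra.one_mem _)
        (Subalgebra.mul_mem _ (ofNat_mem_sub _ 256) (self_mem_Aof u)))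
      (ofNat_mem_sub _ 256) (Subalgebra.one_mem _) (by ring) ?_ ?_
    · -- `R[u, 1/u] = R[t, 1/(t+256)]`
      refine (hg.loc (s := t + 256) (Subalgebra.add_mem _ (self_mem_Aof t) (ofNat_mem_sub _ 256))
        htu0 (V.add_mem htV h256V) huV).of_le_of_le ?_ ?_
      · refine locSub_le (Aof_le ?_) ?_
        · -- `t = 1/u - 256`
          have : t = u⁻¹ - 256 := by rw [hu, inv_inv]; ring
          rw [this]
          exact Subalgebra.sub_mem _ (inv_mem_locSub _ _) (ofNat_mem_sub _ 256)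
        · exact le_locSub _ _ (self_mem_Aof u)
      · refine locSub_le (Aof_le ?_) ?_
        · exact inv_mem_locSub _ _
        · rw [hu, inv_inv]
          exact le_locSub _ _ (Subalgebra.add_mem _ (self_mem_Aof t) (ofNat_mem_sub _ 256))
    · -- `R[u, 1/(1-256u)] = R[1/t, 1/(1+256/t)]`
      refine (hg'.loc (s := 1 + 256 * t⁻¹)
        (Subalgebra.add_mem _ (Subalgebra.one_mem _)
          (Subalgebra.mul_mem _ (ofNat_mem_sub _ 256) (self_mem_Aof t⁻¹)))
        h1t0 (V.add_mem V.one_mem (V.mul_mem h256V htV')) ?_).of_le_of_le ?_ ?_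
      · rw [hinv2, ← htu]
        exact V.mul_mem htV huV
      · refine locSub_le (Aof_le ?_) ?_
        · -- `1/t = i ((1 - 256 u)⁻¹ - 1)`
          have : t⁻¹ = algebraMap R F i * ((1 - 256 * u)⁻¹ - 1) := by
            rw [hinv1]
            linear_combination (-t⁻¹) * hi'
          rw [this]
          exact Subalgebra.mul_mem _ (Subalgebra.algebraMap_mem _ _)
            (Subalgebra.sub_mem _ (inv_mem_locSub _ _) (Subalgebra.one_mem _))
        · rw [hinv2]
          exact le_locSub _ _ (Subalgebra.sub_mem _ (Subalgebra.one_mem _)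
            (Subalgebra.mul_mem _ (ofNat_mem_sub _ 256) (self_mem_Aof u)))
      · refine locSub_le (Aof_le ?_) ?_
        · -- `u = (1/t) (1 + 256/t)⁻¹`
          have : u = t⁻¹ * (1 + 256 * t⁻¹)⁻¹ := by
            rw [hinv2, ← htu]
            field_simp
          rw [this]
          exact Subalgebra.mul_mem _ (le_locSub _ _ (self_mem_Aof t⁻¹)) (inv_mem_locSub _ _)
        · rw [hinv1]
          exact le_locSub _ _ (Subalgebra.add_mem _ (Subalgebra.one_mem _)
            (Subalgebra.mul_mem _ (ofNat_mem_sub _ 256) (self_mem_Aof t⁻¹)))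
  -- `IC(R[1/j]) = IC(R[u])`
  refine hgu.congr ?_ ?_
  · intro a ha
    refine isIntegral_of_mem_adjoin (A := Aof R j⁻¹) (S := {u}) (fun x hx => ?_) ha
    rw [Set.mem_singleton_iff] at hx
    subst hx
    -- `65536 u ^ 3 - 512 u ^ 2 + u - 1/j = 0`
    refine isIntegral_of_cubic (a := 65536) (v := algebraMap R F (i ^ 2))
      (c₂ := -512) (c₁ := 1) (c₀ := -j⁻¹) (Subalgebra.algebraMap_mem _ _) ?_
      (Subalgebra.neg_mem _ (ofNat_mem_sub _ 512)) (Subalgebra.one_mem _)
      (Subalgebra.neg_mem _ (self_mem_Aof j⁻¹)) ?_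
    · rw [map_pow]
      have : (65536 : F) = 256 ^ 2 := by norm_num
      rw [this, ← mul_pow, mul_comm, hi', one_pow]
    · rw [hjinv]
      ring
  · intro a ha
    refine isIntegral_of_mem (Aof_le (B := Aof R u) ?_ ha)
    rw [hjinv]
    exact Subalgebra.mul_mem _ (Subalgebra.pow_mem _ (Subalgebra.sub_mem _ (Subalgebra.one_mem _)
      (Subalgebra.mul_mem _ (ofNat_mem_sub _ 256) (self_mem_Aof u))) 2) (self_mem_Aof u)

end T2

end Fermat.Agent.A2.Mod.H189

end
-- ===== PACK-END A2/Mod/H189/ChartChangeT2.lean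

-- ===== PACK-BEGIN S18/H602/Sep.lean
section


/-!
# Separability from a derivation  (helper602, S18 / MOD piece SEP, part 2)

Let `k` be a perfect field, `L ⊇ k` a field with a `k`-derivation `D : L → L`, and `x ∈ L` with
`D x ≠ 0`.  Then

* `transcendental_of_derivation_ne_zero` : `x` is transcendental over `k`;
* `separable_minpoly_of_derivation` : every `y ∈ L` integral over `k(x)` has separable minimal
  polynomial over `k(x)`;
* `isSeparable_of_derivation` : the same as `IsSeparable k⟮x⟯ y`.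

Specialised to `L = k((q))`, `D = d/dq`:

* `laurent_transcendental`, `laurent_separable_minpoly`, `laurent_isSeparable`.
-/

set_option autoImplicit false

noncomputable section

namespace Fermat.Agent.S18.H602

open Polynomial IntermediateField

section Generic

variable {k L : Type*} [Field k] [Field L] [Algebra k L]

/-- If `D x ≠ 0` for a `k`-derivation `D` and `k` is perfect, then `x` is transcendental. -/
theorem transcendental_of_derivation_ne_zero [PerfectField k] (D : Derivation k L L) (x : L)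
    (hx : D x ≠ 0) : Transcendental k x := by
  intro halg
  have hint : IsIntegral k x := halg.isIntegral
  have hsep : (minpoly k x).Separable :=
    PerfectField.separable_of_irreducible (minpoly.irreducible hint)
  have h0 : aeval x (minpoly k x) = 0 := minpoly.aeval k x
  have h1 := D.map_aeval (minpoly k x) x
  rw [h0, map_zero] at h1
  have h2 := hsep.aeval_derivative_ne_zero h0
  rcases smul_eq_zero.mp h1.symm with h | h
  · exact h2 h
  · exact hx h

theorem aeval_mem_adjoin_simple (x : L) (r : k[X]) : aeval x r ∈ k⟮x⟯ :=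
  (mem_adjoin_simple_iff k _).mpr ⟨r, 1, by simp⟩

/-- For `c ∈ k(x)`, `D c ∈ k(x) · D x`. -/
theorem exists_mem_adjoin_derivation_eq (D : Derivation k L L) (x : L) {c : L}
    (hc : c ∈ k⟮x⟯) : ∃ c' ∈ k⟮x⟯, D c = c' * D x := by
  obtain ⟨r, s, rfl⟩ := (mem_adjoin_simple_iff k c).mp hc
  refine ⟨((aeval x s)⁻¹ ^ 2 *
    (aeval x s * aeval x (derivative r) - aeval x r * aeval x (derivative s))), ?_, ?_⟩
  · exact mul_mem (pow_mem (inv_mem (aeval_mem_adjoin_simple x s)) 2)
      (sub_mem (mul_mem (aeval_mem_adjoin_simple x s) (aeval_mem_adjoin_simple x _))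
        (mul_mem (aeval_mem_adjoin_simple x r) (aeval_mem_adjoin_simple x _)))
  · rw [Derivation.leibniz_div, D.map_aeval, D.map_aeval]
    simp only [smul_eq_mul]
    ring

/-- Kernel of `D` on `k(x)`: `p`-th powers. -/
theorem exists_pow_eq_of_derivation_eq_zero [PerfectField k] (p : ℕ) [hp : Fact p.Prime]
    [CharP k p] (D : Derivation k L L) (x : L) (hx : D x ≠ 0) {c : L} (hc : c ∈ k⟮x⟯)
    (hDc : D c = 0) : ∃ d ∈ k⟮x⟯, d ^ p = c := by
  have : CharP L p := charP_of_injective_algebraMap (algebraMap k L).injective p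
  obtain ⟨r, s, rfl⟩ := (mem_adjoin_simple_iff k c).mp hc
  by_cases hs : aeval x s = 0
  · refine ⟨0, zero_mem _, ?_⟩
    rw [hs, div_zero, zero_pow hp.out.ne_zero]
  set R := r * s ^ (p - 1) with hR
  have hpow : (aeval x s) ^ p = aeval x s ^ (p - 1) * aeval x s := by
    rw [← pow_succ, Nat.sub_add_cancel hp.out.one_le]
  have hRx : aeval x R = (aeval x r / aeval x s) * (aeval x s) ^ p := by
    rw [hR, map_mul, map_pow, hpow]
    field_simp
  have hDR : D (aeval x R) = 0 := by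
    rw [hRx, D.leibniz, hDc, smul_zero, add_zero, D.leibniz_pow]
    simp [CharP.cast_eq_zero]
  have hR' : derivative R = 0 := by
    have h1 := D.map_aeval R x
    rw [hDR] at h1
    rcases smul_eq_zero.mp h1.symm with h | h
    · exact (transcendental_iff.mp (transcendental_of_derivation_ne_zero D x hx)) _ h
    · exact absurd h hx
  have hexp := expand_contract p hR' hp.out.ne_zero
  have : ExpChar k p := ExpChar.prime hp.out
  have : PerfectRing k p := PerfectField.toPerfectRing p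
  rw [polynomial_expand_eq] at hexp
  refine ⟨aeval x (map ((frobeniusEquiv k p).symm : k →+* k) (contract p R)) / aeval x s,
    ?_, ?_⟩
  · exact (mem_adjoin_simple_iff k _).mpr ⟨_, s, rfl⟩
  · rw [div_pow, ← map_pow, hexp, hRx]
    field_simp

/-- **Separability from a derivation**, characteristic `p`. -/
theorem separable_minpoly_of_derivation_charP [PerfectField k] (p : ℕ) [hp : Fact p.Prime]
    [CharP k p] (D : Derivation k L L) (x : L) (hx : D x ≠ 0) (y : L)
    (hy : IsIntegral k⟮x⟯ y) : (minpoly k⟮x⟯ y).Separable := by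
  have hK : CharP k⟮x⟯ p := charP_of_injective_algebraMap (algebraMap k k⟮x⟯).injective p
  have hL : CharP L p := charP_of_injective_algebraMap (algebraMap k L).injective p
  have hE : ExpChar k⟮x⟯ p := ExpChar.prime hp.out
  have hirr := minpoly.irreducible hy
  rcases separable_or p hirr with h | ⟨-, g, hg, hgP⟩
  · exact h
  exfalso
  have hgm : g.Monic := (monic_expand_iff hp.out.pos).mp (hgP ▸ minpoly.monic hy)
  have h0 : aeval (y ^ p) g = 0 := by
    rw [← expand_aeval, hgP]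
    exact minpoly.aeval _ y
  have hgmin : g = minpoly k⟮x⟯ (y ^ p) := minpoly.eq_of_irreducible_of_monic hg h0 hgm
  -- the derivative function `δ` on `k(x)`
  have hδ : ∀ c : k⟮x⟯, ∃ c' : k⟮x⟯, D (c : L) = (c' : L) * D x := fun c => by
    obtain ⟨c', hc', h⟩ := exists_mem_adjoin_derivation_eq D x c.2
    exact ⟨⟨c', hc'⟩, h⟩
  choose δ hδ using hδ
  have hδ0 : ∀ c : k⟮x⟯, δ c = 0 → D (c : L) = 0 := fun c hc => by
    rw [hδ c, hc, ZeroMemClass.coe_zero, zero_mul]
  have hδ1 : δ 1 = 0 := by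
    have h1 := hδ 1
    rw [OneMemClass.coe_one, D.map_one_eq_zero] at h1
    rcases mul_eq_zero.mp h1.symm with h | h
    · exact Subtype.ext h
    · exact absurd h hx
  have hDyp : D (y ^ p) = 0 := by
    rw [D.leibniz_pow]
    simp [CharP.cast_eq_zero]
  have hDypj : ∀ j : ℕ, D ((y ^ p) ^ j) = 0 := fun j => by
    rw [D.leibniz_pow, hDyp, smul_zero, smul_zero]
  set n := g.natDegree with hn
  set G : (k⟮x⟯)[X] := ∑ j ∈ Finset.range (n + 1), monomial j (δ (g.coeff j)) with hG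
  have hGcoeff : ∀ m, G.coeff m = if m < n + 1 then δ (g.coeff m) else 0 := fun m => by
    rw [hG, finsetSum_coeff]
    simp only [coeff_monomial]
    rw [Finset.sum_ite_eq' (Finset.range (n + 1)) m]
    simp only [Finset.mem_range]
  have hGy : aeval (y ^ p) G = 0 := by
    have h1 : D (aeval (y ^ p) g) = 0 := by rw [h0, map_zero]
    rw [aeval_eq_sum_range, map_sum] at h1
    have h2 : aeval (y ^ p) G * D x = 0 := by
      rw [hG, map_sum, Finset.sum_mul, ← h1]
      refine Finset.sum_congr rfl fun j _ => ?_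
      rw [aeval_monomial, Algebra.smul_def, D.leibniz, hDypj, smul_zero, zero_add,
        IntermediateField.algebraMap_apply, IntermediateField.algebraMap_apply, hδ,
        smul_eq_mul]
      ring
    rcases mul_eq_zero.mp h2 with h | h
    · exact h
    · exact absurd h hx
  have hG0 : G = 0 := by
    by_contra hne
    have hle := minpoly.degree_le_of_ne_zero k⟮x⟯ (y ^ p) hne hGy
    rw [← hgmin] at hle
    have hlt : G.degree < g.degree := by
      rw [degree_eq_natDegree hgm.ne_zero, degree_lt_iff_coeff_zero]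
      intro m hm
      rw [hGcoeff]
      split_ifs with h
      · have : m = n := by omega
        rw [this, hn, hgm.coeff_natDegree, hδ1]
      · rfl
    exact absurd hle (not_le.mpr hlt)
  have hcoeff : ∀ j, D ((g.coeff j : k⟮x⟯) : L) = 0 := fun j => by
    by_cases hj : j < n + 1
    · apply hδ0
      have := hGcoeff j
      rw [if_pos hj, hG0, coeff_zero] at this
      exact this.symm
    · rw [coeff_eq_zero_of_natDegree_lt (by omega), ZeroMemClass.coe_zero, map_zero]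
  have hlift : g ∈ lifts (frobenius k⟮x⟯ p) := by
    rw [lifts_iff_coeff_lifts]
    intro j
    obtain ⟨d, hd, hdp⟩ := exists_pow_eq_of_derivation_eq_zero p D x hx (g.coeff j).2 (hcoeff j)
    exact ⟨⟨d, hd⟩, Subtype.ext (by simpa [frobenius_def] using hdp)⟩
  obtain ⟨g₀, hg₀⟩ := (mem_lifts g).mp hlift
  have hpow : minpoly k⟮x⟯ y = g₀ ^ p := by
    rw [← hgP, ← hg₀, ← map_expand, map_frobenius_expand]
  rw [hpow] at hirr
  exact not_irreducible_pow hp.out.ne_one hirr

/-- **Separability from a derivation.**  `k` perfect, `D : L → L` a `k`-derivation of the field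
`L`, `D x ≠ 0`: every `y ∈ L` integral over `k(x)` has separable minimal polynomial. -/
theorem separable_minpoly_of_derivation [PerfectField k] (D : Derivation k L L) (x : L)
    (hx : D x ≠ 0) (y : L) (hy : IsIntegral k⟮x⟯ y) : (minpoly k⟮x⟯ y).Separable := by
  obtain ⟨p, hp⟩ := CharP.exists k
  rcases CharP.char_is_prime_or_zero k p with h | h
  · have : Fact p.Prime := ⟨h⟩
    exact separable_minpoly_of_derivation_charP p D x hx y hy
  · subst h
    have : CharZero k := CharP.charP_to_charZero k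
    have : CharZero k⟮x⟯ := charZero_of_injective_algebraMap (algebraMap k k⟮x⟯).injective
    exact PerfectField.separable_of_irreducible (minpoly.irreducible hy)

/-- The same, as `IsSeparable`. -/
theorem isSeparable_of_derivation [PerfectField k] (D : Derivation k L L) (x : L)
    (hx : D x ≠ 0) (y : L) (hy : IsIntegral k⟮x⟯ y) : IsSeparable k⟮x⟯ y :=
  separable_minpoly_of_derivation D x hx y hy

/-- Consequently the relative separable closure of `k(x)` in `L` is all of the algebraic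
closure: any intermediate field `k(x) ≤ F ≤ L` algebraic over `k(x)` is separable over `k(x)`. -/
theorem isSeparable_of_derivation_of_isAlgebraic [PerfectField k] (D : Derivation k L L) (x : L)
    (hx : D x ≠ 0) (F : IntermediateField k⟮x⟯ L) [Algebra.IsAlgebraic k⟮x⟯ F] :
    Algebra.IsSeparable k⟮x⟯ F := by
  refine ⟨fun z => ?_⟩
  have hz : IsIntegral k⟮x⟯ (z : L) :=
    (isIntegral_algebraMap_iff (algebraMap F L).injective).mpr
      (Algebra.IsIntegral.isIntegral (R := k⟮x⟯) z)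
  have := separable_minpoly_of_derivation D x hx (z : L) hz
  rwa [IsSeparable, ← minpoly.algebraMap_eq (algebraMap F L).injective z]

/-- Clearing denominators: a polynomial over `k(x)`, multiplied by a suitable nonzero element of
`k[x]`, has coefficients in `k[x]`. -/
theorem exists_clear_denominators (x : L) (m : (k⟮x⟯)[X]) :
    ∃ (s : k[X]) (P : k[X][X]), aeval x s ≠ 0 ∧
      P.map (aeval x : k[X] →ₐ[k] L).toRingHom = C (aeval x s) * m.map (algebraMap k⟮x⟯ L) := by
  induction m using Polynomial.induction_on' with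
  | add m₁ m₂ h₁ h₂ =>
    obtain ⟨s₁, P₁, hs₁, hP₁⟩ := h₁
    obtain ⟨s₂, P₂, hs₂, hP₂⟩ := h₂
    refine ⟨s₁ * s₂, C s₂ * P₁ + C s₁ * P₂, ?_, ?_⟩
    · rw [map_mul]
      exact mul_ne_zero hs₁ hs₂
    · rw [Polynomial.map_add, Polynomial.map_mul, Polynomial.map_mul, hP₁, hP₂, map_C, map_C,
        Polynomial.map_add, map_mul, C_mul]
      simp only [AlgHom.toRingHom_eq_coe, RingHom.coe_coe]
      ring
  | monomial n c =>
    obtain ⟨r, s, hc⟩ := (mem_adjoin_simple_iff k (c : L)).mp c.2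
    by_cases hs : aeval x s = 0
    · refine ⟨1, 0, by simp, ?_⟩
      have hc0 : algebraMap k⟮x⟯ L c = 0 := by
        rw [IntermediateField.algebraMap_apply, hc, hs, div_zero]
      rw [Polynomial.map_zero, map_monomial, hc0, monomial_zero_right, mul_zero]
    · refine ⟨s, monomial n r, hs, ?_⟩
      rw [map_monomial, map_monomial, C_mul_monomial, IntermediateField.algebraMap_apply, hc,
        mul_div_cancel₀ _ hs]
      rfl

/-- **Separability, polynomial form.**  `k` perfect, `D x ≠ 0`, `y` algebraic over `k(x)`: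
there is `P ∈ k[X][T]` with `P(x, y) = 0` and `(∂P/∂T)(x, y) ≠ 0`. -/
theorem exists_sep_poly_of_derivation [PerfectField k] (D : Derivation k L L) (x : L)
    (hx : D x ≠ 0) (y : L) (hy : IsIntegral k⟮x⟯ y) :
    ∃ P : k[X][X], eval₂ (aeval x : k[X] →ₐ[k] L).toRingHom y P = 0 ∧
      eval₂ (aeval x : k[X] →ₐ[k] L).toRingHom y (derivative P) ≠ 0 := by
  have hsep := separable_minpoly_of_derivation D x hx y hy
  obtain ⟨s, P, hs, hP⟩ := exists_clear_denominators x (minpoly k⟮x⟯ y)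
  refine ⟨P, ?_, ?_⟩
  · rw [eval₂_eq_eval_map, hP, eval_mul, eval_C, eval_map_algebraMap, minpoly.aeval, mul_zero]
  · rw [eval₂_eq_eval_map, ← derivative_map, hP, derivative_mul, derivative_C, zero_mul,
      zero_add, eval_mul, eval_C, derivative_map, eval_map_algebraMap]
    exact mul_ne_zero hs (hsep.aeval_derivative_ne_zero (minpoly.aeval _ y))

end Generic

section Laurent

/-- `Derivation k L L` for a field extension, with the `k`-module structure on `L` coming from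
the algebra structure (for `L = k((q))` Mathlib has a second, non-defeq, instance path). -/
abbrev FieldDerivation (k L : Type*) [Field k] [Field L] [Algebra k L] : Type _ :=
  Derivation k L L

variable {k : Type*} [Field k]

/-- `d/dq` as a `k`-derivation of the field `k((q))` (algebra-module structure). -/
def dqDerAlg (k : Type*) [Field k] : FieldDerivation k (LaurentSeries k) :=
  letI : Module k (LaurentSeries k) := Algebra.toModule
  { toFun := dq
    map_add' := dq_add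
    map_smul' := fun c f => by
      rw [Algebra.smul_def, dq_mul, dq_algebraMap, mul_zero, add_zero, RingHom.id_apply,
        Algebra.smul_def]
    map_one_eq_zero' := dq_one
    leibniz' := fun a b => by
      have := dq_mul a b
      simpa [smul_eq_mul] using this }

@[simp]
theorem dqDerAlg_apply (f : LaurentSeries k) : dqDerAlg k f = dq f := rfl

/-- Criterion for `dx/dq ≠ 0`: some coefficient `a_n` with `n · a_n ≠ 0`. -/
theorem dq_ne_zero_of_coeff (x : LaurentSeries k) (n : ℤ) (h : (n : k) * x.coeff n ≠ 0) :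
    dq x ≠ 0 := by
  intro h0
  have h1 : (dq x).coeff (n - 1) = (n : k) * x.coeff n := by
    rw [dq_coeff, sub_add_cancel, zsmul_eq_mul]
  rw [h0, HahnSeries.coeff_zero] at h1
  exact h h1.symm

/-- `x = a q⁻¹ + …` with `a ≠ 0` (e.g. `x = j`) has `dx/dq ≠ 0`, in any characteristic. -/
theorem dq_ne_zero_of_coeff_neg_one (x : LaurentSeries k) (h : x.coeff (-1) ≠ 0) : dq x ≠ 0 := by
  refine dq_ne_zero_of_coeff x (-1) ?_
  simpa using h

/-- `x = … + a q + …` with `a ≠ 0` (e.g. `x = 1/j`) has `dx/dq ≠ 0`, in any characteristic. -/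
theorem dq_ne_zero_of_coeff_one (x : LaurentSeries k) (h : x.coeff 1 ≠ 0) : dq x ≠ 0 := by
  refine dq_ne_zero_of_coeff x 1 ?_
  simpa using h

variable [PerfectField k]

/-- `x ∈ k((q))` with `dx/dq ≠ 0` is transcendental over the perfect field `k`. -/
theorem laurent_transcendental (x : LaurentSeries k) (hx : dq x ≠ 0) : Transcendental k x :=
  have hx' : dqDerAlg k x ≠ 0 := hx
  transcendental_of_derivation_ne_zero (dqDerAlg k) x hx'

/-- **SEP.**  `k` perfect, `x ∈ k((q))` with `dx/dq ≠ 0`: every `y ∈ k((q))` algebraic over `k(x)`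
has separable minimal polynomial over `k(x)`. -/
theorem laurent_separable_minpoly (x : LaurentSeries k) (hx : dq x ≠ 0) (y : LaurentSeries k)
    (hy : IsIntegral k⟮x⟯ y) : (minpoly k⟮x⟯ y).Separable :=
  have hx' : dqDerAlg k x ≠ 0 := hx
  separable_minpoly_of_derivation (dqDerAlg k) x hx' y hy

theorem laurent_isSeparable (x : LaurentSeries k) (hx : dq x ≠ 0) (y : LaurentSeries k)
    (hy : IsAlgebraic k⟮x⟯ y) : IsSeparable k⟮x⟯ y :=
  laurent_separable_minpoly x hx y hy.isIntegral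

/-- Any intermediate field of `k((q)) / k(x)` algebraic over `k(x)` is separable over `k(x)`. -/
theorem laurent_algebra_isSeparable (x : LaurentSeries k) (hx : dq x ≠ 0)
    (F : IntermediateField k⟮x⟯ (LaurentSeries k)) [Algebra.IsAlgebraic k⟮x⟯ F] :
    Algebra.IsSeparable k⟮x⟯ F :=
  have hx' : dqDerAlg k x ≠ 0 := hx
  isSeparable_of_derivation_of_isAlgebraic (dqDerAlg k) x hx' F

/-- **SEP, polynomial form**: `P ∈ k[X][T]` with `P(x, y) = 0`, `(∂P/∂T)(x, y) ≠ 0`. -/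
theorem laurent_exists_sep_poly (x : LaurentSeries k) (hx : dq x ≠ 0) (y : LaurentSeries k)
    (hy : IsAlgebraic k⟮x⟯ y) :
    ∃ P : k[X][X], eval₂ (aeval x : k[X] →ₐ[k] LaurentSeries k).toRingHom y P = 0 ∧
      eval₂ (aeval x : k[X] →ₐ[k] LaurentSeries k).toRingHom y (derivative P) ≠ 0 :=
  have hx' : dqDerAlg k x ≠ 0 := hx
  exists_sep_poly_of_derivation (dqDerAlg k) x hx' y hy.isIntegral

end Laurent

end Fermat.Agent.S18.H602

end
end
-- ===== PACK-END S18/H602/Sep.lean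

-- ===== PACK-BEGIN S35/G/H199/ValAut.lean
section


/-!
# S35 / (G') leaf TORIC — valuation rings stable under an automorphism (helper199)

Mathlib-only (plus `A2.H48.IsUnif`).  `V` a valuation subring of a field `F`, `σ` an
automorphism of `F` with `σ V ⊆ V` and `σ⁻¹ V ⊆ V` (`StabAut V σ`).

* `StabAut.val_le_one_iff`, `val_eq_one_iff`, `val_lt_one_iff` : `σ` preserves the valuation
  conditions `≤ 1`, `= 1`, `< 1`;
* `StabAut.val_ratio` : if `V` is discrete with uniformiser `π`, then `σ f / f` is a unit of `V`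
  for every `f ≠ 0`;
* `exists_pow_sub_mem_maximalIdeal_h199` : in a local ring with algebraically closed residue
  field every unit is an `m`-th power modulo the maximal ideal (`m > 0`).
-/

set_option autoImplicit false

namespace Fermat.Agent.S35.G.H199

open Fermat.Agent.A2.H48

variable {F : Type*} [Field F]

/-- units of a valuation subring in terms of the valuation -/
theorem val_eq_one_iff_h199 (V : ValuationSubring F) {f : F} (hf : f ≠ 0) :
    V.valuation f = 1 ↔ f ∈ V ∧ f⁻¹ ∈ V := by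
  rw [← V.valuation_le_one_iff, ← V.valuation_le_one_iff, map_inv₀]
  have h0 : 0 < V.valuation f := zero_lt_iff.2 ((Valuation.ne_zero_iff _).2 hf)
  constructor
  · intro h
    rw [h]
    simp
  · rintro ⟨h1, h2⟩
    rw [inv_le_one₀ h0] at h2
    exact le_antisymm h1 h2

theorem val_lt_one_iff_h199 (V : ValuationSubring F) {f : F} :
    V.valuation f < 1 ↔ f ∈ V ∧ (f = 0 ∨ f⁻¹ ∉ V) := by
  by_cases hf : f = 0
  · subst hf
    simp
  have h1 := val_eq_one_iff_h199 V hf
  rw [← V.valuation_le_one_iff] at h1 ⊢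
  constructor
  · intro h
    refine ⟨h.le, Or.inr fun h2 => ?_⟩
    have h3 : V.valuation f⁻¹ ≤ 1 := (V.valuation_le_one_iff _).2 h2
    rw [map_inv₀, inv_le_one₀ (zero_lt_iff.2 ((Valuation.ne_zero_iff _).2 hf))] at h3
    exact absurd h (not_lt.2 h3)
  · rintro ⟨h2, h3 | h3⟩
    · exact absurd h3 hf
    · rcases lt_or_eq_of_le h2 with h4 | h4
      · exact h4
      · exact absurd (h1.1 h4).2 h3

/-- `σ` and `σ⁻¹` map `V` into itself. -/
structure StabAut (V : ValuationSubring F) (σ : F ≃+* F) : Prop where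
  map : ∀ f ∈ V, σ f ∈ V
  symm : ∀ f ∈ V, σ.symm f ∈ V

namespace StabAut

variable {V : ValuationSubring F} {σ : F ≃+* F}

theorem mem_iff (h : StabAut V σ) {f : F} : σ f ∈ V ↔ f ∈ V :=
  ⟨fun hf => by simpa using h.symm _ hf, h.map f⟩

theorem val_le_one_iff (h : StabAut V σ) (f : F) :
    V.valuation (σ f) ≤ 1 ↔ V.valuation f ≤ 1 := by
  rw [V.valuation_le_one_iff, V.valuation_le_one_iff, h.mem_iff]

theorem val_eq_one_iff (h : StabAut V σ) (f : F) :
    V.valuation (σ f) = 1 ↔ V.valuation f = 1 := by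
  by_cases hf : f = 0
  · subst hf
    simp
  have hσf : σ f ≠ 0 := (map_ne_zero_iff σ σ.injective).2 hf
  rw [val_eq_one_iff_h199 V hf, val_eq_one_iff_h199 V hσf, ← map_inv₀, h.mem_iff, h.mem_iff]

theorem val_lt_one_iff (h : StabAut V σ) (f : F) :
    V.valuation (σ f) < 1 ↔ V.valuation f < 1 := by
  rw [lt_iff_le_and_ne, lt_iff_le_and_ne, h.val_le_one_iff, Ne, Ne, h.val_eq_one_iff]

/-- the inverse automorphism -/
theorem inv (h : StabAut V σ) : StabAut V σ.symm :=
  ⟨h.symm, fun f hf => by simpa using h.map f hf⟩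

/-- composition -/
theorem comp {τ : F ≃+* F} (h : StabAut V σ) (h' : StabAut V τ) :
    StabAut V (τ.trans σ) :=
  ⟨fun f hf => h.map _ (h'.map f hf), fun f hf => h'.symm _ (h.symm f hf)⟩

/-- **Ratio.**  `V` discrete with uniformiser `π`: `σ f / f` is a unit of `V`. -/
theorem val_ratio (h : StabAut V σ) {π : F} (hπ : IsUnif V π)
    (hdisc : ∀ x ∈ V, x ≠ 0 → ∃ (n : ℕ) (u : F), u ∈ V ∧ u⁻¹ ∈ V ∧ x = π ^ n * u)
    {f : F} (hf : f ≠ 0) : V.valuation (σ f / f) = 1 := by
  -- the uniformiser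
  have hπ0 : π ≠ 0 := hπ.ne_zero
  have hσπ : V.valuation (σ π) < 1 := (h.val_lt_one_iff π).2 hπ.val_lt_one
  have h1 : V.valuation (σ π) ≤ V.valuation π := hπ.val_le_of_lt_one hσπ
  have hσπ' : V.valuation (σ.symm π) < 1 := (h.inv.val_lt_one_iff π).2 hπ.val_lt_one
  have h2 : V.valuation (σ.symm π / π) ≤ 1 := by
    rw [map_div₀]
    exact div_le_one_of_le₀ (hπ.val_le_of_lt_one hσπ') zero_le
  have h3 : V.valuation (π / σ π) ≤ 1 := by
    have := (h.val_le_one_iff (σ.symm π / π)).2 h2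
    rwa [map_div₀, RingEquiv.apply_symm_apply] at this
  have hσπ0 : σ π ≠ 0 := (map_ne_zero_iff σ σ.injective).2 hπ0
  have hπv : V.valuation (σ π) = V.valuation π := by
    refine le_antisymm h1 ?_
    rw [map_div₀] at h3
    rwa [div_le_one₀ (zero_lt_iff.2 ((Valuation.ne_zero_iff _).2 hσπ0))] at h3
  -- elements of `V`
  have key : ∀ x ∈ V, x ≠ 0 → V.valuation (σ x) = V.valuation x := by
    intro x hx hx0
    obtain ⟨n, u, hu, hui, rfl⟩ := hdisc x hx hx0
    have hu0 : u ≠ 0 := right_ne_zero_of_mul hx0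
    have hu1 : V.valuation u = 1 := (val_eq_one_iff_h199 V hu0).2 ⟨hu, hui⟩
    rw [map_mul, map_pow, map_mul, map_mul, map_pow, map_pow, hπv, hu1,
      (h.val_eq_one_iff u).2 hu1]
  have hv : V.valuation (σ f) = V.valuation f := by
    rcases V.mem_or_inv_mem f with hfV | hfV
    · exact key f hfV hf
    · have := key f⁻¹ hfV (inv_ne_zero hf)
      rwa [map_inv₀, map_inv₀, map_inv₀, inv_inj] at this
  rw [map_div₀, hv, div_self ((Valuation.ne_zero_iff _).2 hf)]

end StabAut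

/-- In a local ring with algebraically closed residue field every unit is an `m`-th power of a
unit modulo the maximal ideal. -/
theorem exists_pow_sub_mem_maximalIdeal_h199 {R : Type*} [CommRing R] [IsLocalRing R]
    [IsAlgClosed (IsLocalRing.ResidueField R)] {m : ℕ} (hm : 0 < m) {e : R} (he : IsUnit e) :
    ∃ r : R, IsUnit r ∧ e - r ^ m ∈ IsLocalRing.maximalIdeal R := by
  obtain ⟨z, hz⟩ := IsAlgClosed.exists_pow_nat_eq (IsLocalRing.residue R e) hm
  obtain ⟨r, rfl⟩ := IsLocalRing.residue_surjective z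
  have hr : IsUnit r := by
    by_contra hr
    have h0 : IsLocalRing.residue R r = 0 :=
      (IsLocalRing.residue_eq_zero_iff r).2 ((IsLocalRing.mem_maximalIdeal r).2 hr)
    rw [h0, zero_pow hm.ne'] at hz
    have h1 : e ∈ IsLocalRing.maximalIdeal R := (IsLocalRing.residue_eq_zero_iff e).1 hz.symm
    exact (IsLocalRing.mem_maximalIdeal e).1 h1 he
  refine ⟨r, hr, ?_⟩
  rw [← IsLocalRing.residue_eq_zero_iff, map_sub, map_pow, hz, sub_self]

end Fermat.Agent.S35.G.H199

namespace Fermat.Agent.S35.G.H199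

open Fermat.Agent.A2.H48

variable {F : Type*} [Field F]

/-! ## The conjugate valuation ring `V ∘ e` -/

section Comap

variable (V : ValuationSubring F) (e : F ≃+* F)

theorem comap_val_le_one_iff (z : F) :
    (V.comap (e : F →+* F)).valuation z ≤ 1 ↔ V.valuation (e z) ≤ 1 := by
  rw [ValuationSubring.valuation_le_one_iff, ValuationSubring.valuation_le_one_iff,
    ValuationSubring.mem_comap]
  rfl

theorem comap_val_eq_one_iff (z : F) :
    (V.comap (e : F →+* F)).valuation z = 1 ↔ V.valuation (e z) = 1 := by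
  by_cases hz : z = 0
  · subst hz
    simp
  have hez : e z ≠ 0 := (map_ne_zero_iff e e.injective).2 hz
  rw [val_eq_one_iff_h199 _ hz, val_eq_one_iff_h199 _ hez, ValuationSubring.mem_comap,
    ValuationSubring.mem_comap, ← map_inv₀]
  rfl

theorem comap_val_lt_one_iff (z : F) :
    (V.comap (e : F →+* F)).valuation z < 1 ↔ V.valuation (e z) < 1 := by
  rw [lt_iff_le_and_ne, lt_iff_le_and_ne, comap_val_le_one_iff, Ne, Ne, comap_val_eq_one_iff]

variable {V e}

theorem isUnif_comap {π : F} (hπ : IsUnif V π) (he : e π = π) :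
    IsUnif (V.comap (e : F →+* F)) π where
  mem := by
    rw [ValuationSubring.mem_comap]
    show e π ∈ V
    rw [he]
    exact hπ.mem
  inv_not_mem := by
    rw [ValuationSubring.mem_comap]
    show ¬ e π⁻¹ ∈ V
    rw [map_inv₀, he]
    exact hπ.inv_not_mem
  gen := by
    intro f hf hfi
    rw [ValuationSubring.mem_comap] at hf hfi ⊢
    show e (f * π⁻¹) ∈ V
    rw [map_mul, map_inv₀, he]
    refine hπ.gen _ hf ?_
    intro h
    apply hfi
    show e f⁻¹ ∈ V
    rwa [map_inv₀]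

theorem disc_comap {π : F} (he : e π = π)
    (hdisc : ∀ x ∈ V, x ≠ 0 → ∃ (n : ℕ) (u : F), u ∈ V ∧ u⁻¹ ∈ V ∧ x = π ^ n * u) :
    ∀ x ∈ V.comap (e : F →+* F), x ≠ 0 →
      ∃ (n : ℕ) (u : F), u ∈ V.comap (e : F →+* F) ∧ u⁻¹ ∈ V.comap (e : F →+* F) ∧
        x = π ^ n * u := by
  intro x hx hx0
  rw [ValuationSubring.mem_comap] at hx
  have hex : e x ≠ 0 := (map_ne_zero_iff e e.injective).2 hx0
  obtain ⟨n, u, hu, hui, hxu⟩ := hdisc (e x) hx hex
  refine ⟨n, e.symm u, ?_, ?_, ?_⟩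
  · rw [ValuationSubring.mem_comap]
    show e (e.symm u) ∈ V
    rwa [RingEquiv.apply_symm_apply]
  · rw [ValuationSubring.mem_comap]
    show e (e.symm u)⁻¹ ∈ V
    rwa [map_inv₀, RingEquiv.apply_symm_apply]
  · apply e.injective
    rw [map_mul, map_pow, he, RingEquiv.apply_symm_apply]
    exact hxu

theorem StabAut.comap {σ : F ≃+* F} (h : StabAut V σ) (hc : ∀ f, σ (e f) = e (σ f)) :
    StabAut (V.comap (e : F →+* F)) σ where
  map := by
    intro f hf
    rw [ValuationSubring.mem_comap] at hf ⊢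
    show e (σ f) ∈ V
    rw [← hc]
    exact h.map _ hf
  symm := by
    intro f hf
    rw [ValuationSubring.mem_comap] at hf ⊢
    show e (σ.symm f) ∈ V
    have h1 : e (σ.symm f) = σ.symm (e f) := by
      apply σ.injective
      rw [hc, RingEquiv.apply_symm_apply, RingEquiv.apply_symm_apply]
    rw [h1]
    exact h.symm _ hf

end Comap

end Fermat.Agent.S35.G.H199

namespace Fermat.Agent.S35.G.H199

variable {F : Type*} [Field F]

/-! ## Local embeddings -/

section Local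

variable {K : Type*} [Field K] {O : ValuationSubring K} {V : ValuationSubring F} {φ : K →+* F}

theorem local_val_le_one_iff (h : ∀ a, φ a ∈ V ↔ a ∈ O) (a : K) :
    V.valuation (φ a) ≤ 1 ↔ O.valuation a ≤ 1 := by
  rw [ValuationSubring.valuation_le_one_iff, ValuationSubring.valuation_le_one_iff, h]

theorem local_val_eq_one_iff (h : ∀ a, φ a ∈ V ↔ a ∈ O) (a : K) :
    V.valuation (φ a) = 1 ↔ O.valuation a = 1 := by
  by_cases ha : a = 0
  · subst ha
    simp
  have hφa : φ a ≠ 0 := (map_ne_zero φ).2 ha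
  rw [val_eq_one_iff_h199 _ ha, val_eq_one_iff_h199 _ hφa, ← map_inv₀, h, h]

theorem local_val_lt_one_iff (h : ∀ a, φ a ∈ V ↔ a ∈ O) (a : K) :
    V.valuation (φ a) < 1 ↔ O.valuation a < 1 := by
  rw [lt_iff_le_and_ne, lt_iff_le_and_ne, local_val_le_one_iff h, Ne, Ne, local_val_eq_one_iff h]

end Local

end Fermat.Agent.S35.G.H199

end
-- ===== PACK-END S35/G/H199/ValAut.lean

-- ===== PACK-BEGIN A2/H348/Glue.lean
section



/-!
# A2 / piece E (ALG_ss), part 3: the Kummer idempotent on a two-chart model with reduced fibre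

Mathlib-only.  See `exists_kummer_idempotents` at the end of the file.
-/

set_option autoImplicit false
set_option linter.unusedSectionVars false
set_option linter.style.haveILetI false

open Module

namespace Fermat.Agent.A2.H348

variable {A F F' : Type*} [CommRing A] [Field F] [CommRing F'] [Nontrivial F'] [Algebra A F]
  [Algebra F F'] [Algebra A F'] [IsScalarTower A F F']

/-- integrality over a smaller subalgebra implies integrality over a bigger one. -/
theorem isIntegral_of_le {B O : Subalgebra A F} (hBO : B ≤ O) {c : F'} (hc : IsIntegral B c) :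
    IsIntegral O c := by
  letI : Algebra B O := (Subalgebra.inclusion hBO).toRingHom.toAlgebra
  haveI : IsScalarTower B O F' := IsScalarTower.of_algebraMap_eq fun b => rfl
  exact hc.tower_top

/-- The data attached to the semilocal "Gauss ring" `V` (intersection of the valuation rings of the
generic points of the special fibre). -/
structure GaussData (ϖ : A) (m : ℕ) (u : F) (V : Subalgebra A F) : Prop where
  closed : ∀ f : F, IsIntegral V f → f ∈ V
  ϖ_inv_notMem : (algebraMap A F ϖ)⁻¹ ∉ V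
  rad : ∀ t ∈ V, (1 + algebraMap A F ϖ * t)⁻¹ ∈ V
  m_ne : (m : F) ≠ 0
  m_inv : ((m : F))⁻¹ ∈ (⊥ : Subalgebra A F)
  u_one : ∃ t ∈ V, u = 1 + algebraMap A F ϖ * t

/-- The data attached to one chart `B` of the model. -/
structure ChartData (ϖ : A) (m : ℕ) (u : F) (B V : Subalgebra A F) : Prop where
  le_V : B ≤ V
  closed : ∀ f : F, IsIntegral B f → f ∈ B
  /-- reducedness of the special fibre (`q`-expansion principle): `B ∩ ϖ V = ϖ B`. -/
  qep : ∀ b ∈ B, ∀ t ∈ V, b = algebraMap A F ϖ * t → t ∈ B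
  /-- local factorisation `u = ε h ^ m` at every closed point of the special fibre,
  `ε ∈ 1 + ϖ B_𝔪`, `h ∈ 1 + ϖ V`. -/
  loc : ∀ 𝔪 : Ideal B, 𝔪.IsMaximal → algebraMap A B ϖ ∈ 𝔪 →
    ∃ h : F, (∃ t ∈ V, h = 1 + algebraMap A F ϖ * t) ∧
      ∃ s a : B, s ∉ 𝔪 ∧ u * (s : F) = h ^ m * ((s : F) + algebraMap A F ϖ * (a : F))

section Gauss

variable {ϖ : A} {m : ℕ} {u : F} {V : Subalgebra A F} (hV : GaussData ϖ m u V)

include hV

theorem GaussData.ϖ_ne : algebraMap A F ϖ ≠ 0 := by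
  intro h
  apply hV.ϖ_inv_notMem
  rw [h, inv_zero]
  exact V.zero_mem

theorem GaussData.one_add_ne {t : F} (ht : t ∈ V) : 1 + algebraMap A F ϖ * t ≠ 0 := by
  intro h
  apply hV.ϖ_inv_notMem
  have h1 : algebraMap A F ϖ * (-t) = 1 := by linear_combination -h
  have h2 : (algebraMap A F ϖ)⁻¹ = -t := inv_eq_of_mul_eq_one_right h1
  rw [h2]
  exact V.neg_mem ht

theorem GaussData.m_inv_mem (O : Subalgebra A F) : ((m : F))⁻¹ ∈ O := by
  have := hV.m_inv
  rw [Algebra.mem_bot] at this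
  obtain ⟨a, ha⟩ := this
  rw [← ha]
  exact O.algebraMap_mem a

theorem GaussData.u_mem : u ∈ V := by
  obtain ⟨t, ht, rfl⟩ := hV.u_one
  exact V.add_mem V.one_mem (V.mul_mem (V.algebraMap_mem ϖ) ht)

theorem GaussData.u_ne : u ≠ 0 := by
  obtain ⟨t, ht, rfl⟩ := hV.u_one
  exact hV.one_add_ne ht

theorem GaussData.u_inv_mem : u⁻¹ ∈ V := by
  obtain ⟨t, ht, rfl⟩ := hV.u_one
  exact hV.rad t ht

end Gauss

section Chart

variable {ϖ : A} {m : ℕ} {u : F} {B V : Subalgebra A F}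

theorem smul_eq_algebraMap_mul (B : Subalgebra A F) (b : B) (c : F') :
    b • c = algebraMap F F' (b : F) * c := by
  rw [Algebra.smul_def]; rfl

variable (F) in
theorem algebraMap_eq_comp (a : A) : algebraMap A F' a = algebraMap F F' (algebraMap A F a) :=
  IsScalarTower.algebraMap_apply A F F' a

/-- local package at a closed point of the special fibre. -/
theorem ChartData.exists_local (hV : GaussData ϖ m u V) (hB : ChartData ϖ m u B V)
    {z : F'} (kb : KummerBasis m u z) (𝔪 : Ideal B) [h𝔪 : 𝔪.IsMaximal]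
    (hϖ : algebraMap A B ϖ ∈ 𝔪) :
    ∃ (h ε : F) (ζ : F') (_ : KummerBasis m ε ζ),
      h ≠ 0 ∧ z = ζ * algebraMap F F' h ∧ (∃ t ∈ V, h = 1 + algebraMap A F ϖ * t) ∧
      ε ∈ locAt B 𝔪 ∧ ((m : F) * ε)⁻¹ ∈ locAt B 𝔪 ∧ ε ∈ V ∧ ((m : F) * ε)⁻¹ ∈ V ∧
      (m : F) * ε ≠ 0 := by
  obtain ⟨h, ⟨t, ht, hh⟩, s, a, hs, hus⟩ := hB.loc 𝔪 h𝔪 hϖ
  have hh0 : h ≠ 0 := by rw [hh]; exact hV.one_add_ne ht
  have hs0 : (s : F) ≠ 0 := coe_ne_zero_of_notMem 𝔪 hs
  have hhm0 : h ^ m ≠ 0 := pow_ne_zero _ hh0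
  have hhV : h ∈ V := by
    rw [hh]; exact V.add_mem V.one_mem (V.mul_mem (V.algebraMap_mem ϖ) ht)
  have hhinvV : h⁻¹ ∈ V := by rw [hh]; exact hV.rad t ht
  set ε : F := u * (h ^ m)⁻¹ with hε
  have hεs : (s : F) * ε = (s : F) + algebraMap A F ϖ * (a : F) := by
    rw [hε, ← mul_assoc, mul_comm (s : F) u, hus]
    field_simp
  have hε1 : ε = 1 + algebraMap A F ϖ * ((a : F) * (s : F)⁻¹) := by
    have : ε = ((s : F) * ε) * (s : F)⁻¹ := by field_simp
    rw [this, hεs]
    field_simp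
  have hεO : ε ∈ locAt B 𝔪 := by
    refine ⟨s, hs, ?_⟩
    rw [hεs]
    exact B.add_mem s.2 (B.mul_mem (B.algebraMap_mem ϖ) a.2)
  have hasO : (a : F) * (s : F)⁻¹ ∈ locAt B 𝔪 :=
    (locAt B 𝔪).mul_mem (le_locAt 𝔪 a.2) (inv_mem_locAt 𝔪 hs)
  have hεinvO : ε⁻¹ ∈ locAt B 𝔪 := by
    rw [hε1]
    exact one_add_mul_inv_mem_locAt 𝔪 hϖ hasO
  have hεV : ε ∈ V := V.mul_mem hV.u_mem (by rw [← inv_pow]; exact V.pow_mem hhinvV m)
  have hεinvV : ε⁻¹ ∈ V := by
    rw [hε, mul_inv, inv_inv]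
    exact V.mul_mem hV.u_inv_mem (V.pow_mem hhV m)
  have hε0 : ε ≠ 0 := mul_ne_zero hV.u_ne (inv_ne_zero hhm0)
  refine ⟨h, ε, z * algebraMap F F' h⁻¹, kb.scale h hh0, hh0, ?_, ⟨t, ht, hh⟩, hεO, ?_, hεV, ?_,
    mul_ne_zero hV.m_ne hε0⟩
  · rw [mul_assoc, ← map_mul, inv_mul_cancel₀ hh0, map_one, mul_one]
  · rw [mul_inv]
    exact (locAt B 𝔪).mul_mem (hV.m_inv_mem _) hεinvO
  · rw [mul_inv]
    exact V.mul_mem (hV.m_inv_mem _) hεinvV

/-- **Unmixedness** of `ϖ` on the integral closure of a chart in the Kummer extension: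
an element integral over `B` which is `ϖ` times an element integral over `V` is `ϖ` times an
element integral over `B`. -/
theorem ChartData.unmixed (hV : GaussData ϖ m u V) (hB : ChartData ϖ m u B V)
    {z : F'} (kb : KummerBasis m u z) {c c' : F'} (hc : IsIntegral B c) (hc' : IsIntegral V c')
    (hcc : c = algebraMap A F' ϖ * c') : IsIntegral B c' := by
  have key : c' ∈ (integralClosure B F').toSubmodule := by
    refine mem_of_forall_maximal B _ c' fun 𝔪 h𝔪 => ?_
    by_cases hϖ : algebraMap A B ϖ ∈ 𝔪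
    · obtain ⟨h, ε, ζ, kb', -, -, -, hεO, hmεO, hεV, hmεV, hmε0⟩ :=
        hB.exists_local hV kb 𝔪 hϖ
      have hcO : IsIntegral (locAt B 𝔪) c := isIntegral_of_le (le_locAt 𝔪) hc
      have hci : ∀ i, kb'.basis.repr c i ∈ locAt B 𝔪 := fun i =>
        kb'.repr_mem_of_isIntegral _ (locAt_integrallyClosed hB.closed 𝔪) hεO hmεO hmε0 hcO i
      have hc'i : ∀ i, kb'.basis.repr c' i ∈ V := fun i =>
        kb'.repr_mem_of_isIntegral _ hV.closed hεV hmεV hmε0 hc' i
      have hrel : ∀ i, kb'.basis.repr c i = algebraMap A F ϖ * kb'.basis.repr c' i := by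
        intro i
        have : c = (algebraMap A F ϖ) • c' := by
          rw [hcc, Algebra.smul_def, algebraMap_eq_comp F]
        rw [this, map_smul, Finsupp.smul_apply, smul_eq_mul]
      have hc'O : ∀ i, kb'.basis.repr c' i ∈ locAt B 𝔪 := by
        intro i
        obtain ⟨s, hs, hsc⟩ := hci i
        refine ⟨s, hs, ?_⟩
        refine hB.qep _ hsc ((s : F) * kb'.basis.repr c' i)
          (V.mul_mem (hB.le_V s.2) (hc'i i)) ?_
        rw [hrel i]; ring
      have hc'int : IsIntegral (locAt B 𝔪) c' := kb'.isIntegral_of_repr_mem _ hεO hc'O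
      obtain ⟨s, hs, hsint⟩ := exists_smul_isIntegral_of_locAt 𝔪 c' hc'int
      refine ⟨s, hs, ?_⟩
      rw [smul_eq_algebraMap_mul]
      exact hsint
    · refine ⟨algebraMap A B ϖ, hϖ, ?_⟩
      rw [smul_eq_algebraMap_mul]
      have : algebraMap F F' ((algebraMap A B ϖ : B) : F) * c' = c := by
        rw [hcc]
        congr 1
        exact (algebraMap_eq_comp F ϖ).symm
      rw [this]
      exact hc
  exact key

end Chart

section Idem

/-- The Kummer idempotent `m⁻¹ ∑_{i<m} z^i` (the sheet `z ≡ 1`). -/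
noncomputable def kummerE (F : Type*) [Field F] {F' : Type*} [CommRing F'] [Algebra F F']
    (m : ℕ) (z : F') : F' :=
  algebraMap F F' ((m : F)⁻¹) * ∑ i ∈ Finset.range m, z ^ i

variable {ϖ : A} {m : ℕ} {u : F} {B V : Subalgebra A F}

theorem sum_pow_sub_one (z : F') (n : ℕ) :
    ∑ i ∈ Finset.range n, (z ^ i - 1) =
      (z - 1) * ∑ i ∈ Finset.range n, ∑ j ∈ Finset.range i, z ^ j := by
  rw [Finset.mul_sum]
  refine Finset.sum_congr rfl fun i _ => ?_
  rw [mul_geom_sum]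

theorem GaussData.isIntegral_z (hV : GaussData ϖ m u V) {z : F'} (kb : KummerBasis m u z) :
    IsIntegral V z := kb.isIntegral_zeta V hV.u_mem

theorem GaussData.isIntegral_kummerE (hV : GaussData ϖ m u V) {z : F'}
    (kb : KummerBasis m u z) : IsIntegral V (kummerE F m z) :=
  (isIntegral_algebraMap_of_mem' V (hV.m_inv_mem V)).mul
    (IsIntegral.sum _ fun i _ => (hV.isIntegral_z kb).pow i)

/-- the Kummer idempotent is idempotent modulo `ϖ`. -/
theorem GaussData.kummerE_idem (hV : GaussData ϖ m u V) {z : F'} (kb : KummerBasis m u z) :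
    ∃ q : F', IsIntegral V q ∧
      kummerE F m z ^ 2 - kummerE F m z = algebraMap A F' ϖ * q := by
  obtain ⟨t₀, ht₀, hu⟩ := hV.u_one
  set S : F' := ∑ i ∈ Finset.range m, z ^ i with hS
  set Q : F' := ∑ i ∈ Finset.range m, ∑ j ∈ Finset.range i, z ^ j with hQ
  have hz := hV.isIntegral_z kb
  have hQint : IsIntegral V Q :=
    IsIntegral.sum _ fun i _ => IsIntegral.sum _ fun j _ => hz.pow j
  have h1 : (z - 1) * S = algebraMap A F' ϖ * algebraMap F F' t₀ := by
    rw [hS, mul_geom_sum, kb.pow_eq, hu, map_add, map_one, map_mul, ← algebraMap_eq_comp F]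
    ring
  have h2 : S - (m : F') = (z - 1) * Q := by
    rw [hQ, ← sum_pow_sub_one, Finset.sum_sub_distrib, hS]
    simp
  have hm : algebraMap F F' ((m : F)⁻¹) * (m : F') = 1 := by
    rw [← map_natCast (algebraMap F F') m, ← map_mul, inv_mul_cancel₀ hV.m_ne, map_one]
  refine ⟨algebraMap F F' ((m : F)⁻¹) ^ 2 * (algebraMap F F' t₀ * Q), ?_, ?_⟩
  · exact ((isIntegral_algebraMap_of_mem' V (hV.m_inv_mem V)).pow 2).mul
      ((isIntegral_algebraMap_of_mem' V ht₀).mul hQint)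
  · have h3 : kummerE F m z ^ 2 - kummerE F m z
        = algebraMap F F' ((m : F)⁻¹) ^ 2 * (S * (S - (m : F'))) := by
      unfold kummerE
      rw [← hS]
      have : algebraMap F F' ((m : F)⁻¹) * S
          = algebraMap F F' ((m : F)⁻¹) ^ 2 * (S * (m : F')) := by
        rw [pow_two, mul_assoc, mul_comm S, ← mul_assoc (algebraMap F F' ((m : F)⁻¹)) (m : F') S,
          hm, one_mul]
      rw [mul_sub, mul_sub, ← this]
      ring
    rw [h3, h2, ← mul_assoc S, mul_comm S, h1]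
    ring

/-- coordinates of the Kummer idempotent. -/
theorem kummerE_repr {z : F'} (kb : KummerBasis m u z) (i : Fin m) :
    kb.basis.repr (kummerE F m z) i = (m : F)⁻¹ := by
  have : kummerE F m z = ∑ j : Fin m, algebraMap F F' ((fun _ => (m : F)⁻¹) j) * z ^ (j : ℕ) := by
    unfold kummerE
    rw [Finset.mul_sum, Fin.sum_univ_eq_sum_range (fun j => algebraMap F F' ((m : F)⁻¹) * z ^ j) m]
  rw [this, kb.repr_sum]

/-- coordinates of `1`. -/
theorem one_repr {z : F'} (kb : KummerBasis m u z) (i : Fin m) :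
    kb.basis.repr (1 : F') i = if (i : ℕ) = 0 then 1 else 0 := by
  classical
  have : (1 : F') = ∑ j : Fin m,
      algebraMap F F' ((fun j : Fin m => if (j : ℕ) = 0 then (1 : F) else 0) j) * z ^ (j : ℕ) := by
    rw [Finset.sum_eq_single (⟨0, kb.m_pos⟩ : Fin m)]
    · simp
    · intro j _ hj
      have : (j : ℕ) ≠ 0 := fun h => hj (Fin.ext h)
      simp [this]
    · intro h; exact absurd (Finset.mem_univ _) h
  conv_lhs => rw [this]
  rw [kb.repr_sum]

/-- **Gluing**: the Kummer idempotent is congruent modulo `ϖ` to an element integral over the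
chart `B`. -/
theorem ChartData.exists_lift (hV : GaussData ϖ m u V) (hB : ChartData ϖ m u B V)
    {z : F'} (kb : KummerBasis m u z) :
    ∃ e c : F', IsIntegral B e ∧ IsIntegral V c ∧ kummerE F m z = e + algebraMap A F' ϖ * c := by
  let M : Submodule B F' :=
    { carrier := {y | ∃ y₁ y₂ : F', IsIntegral B y₁ ∧ IsIntegral V y₂ ∧
        y = y₁ + algebraMap A F' ϖ * y₂}
      add_mem' := by
        rintro a b ⟨a₁, a₂, ha₁, ha₂, rfl⟩ ⟨b₁, b₂, hb₁, hb₂, rfl⟩
        exact ⟨a₁ + b₁, a₂ + b₂, ha₁.add hb₁, ha₂.add hb₂, by ring⟩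
      zero_mem' := ⟨0, 0, isIntegral_zero, isIntegral_zero, by simp⟩
      smul_mem' := by
        rintro b y ⟨y₁, y₂, hy₁, hy₂, rfl⟩
        refine ⟨algebraMap F F' (b : F) * y₁, algebraMap F F' (b : F) * y₂,
          (isIntegral_algebraMap_of_mem' B b.2).mul hy₁,
          (isIntegral_algebraMap_of_mem' V (hB.le_V b.2)).mul hy₂, ?_⟩
        rw [smul_eq_algebraMap_mul]
        ring }
  have key : kummerE F m z ∈ M := by
    refine mem_of_forall_maximal B M _ fun 𝔪 h𝔪 => ?_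
    by_cases hϖ : algebraMap A B ϖ ∈ 𝔪
    · obtain ⟨h, ε, ζ, kb', hh0, hz, ⟨t, ht, hh⟩, hεO, hmεO, hεV, hmεV, hmε0⟩ :=
        hB.exists_local hV kb 𝔪 hϖ
      have hhV : h ∈ V := by
        rw [hh]; exact V.add_mem V.one_mem (V.mul_mem (V.algebraMap_mem ϖ) ht)
      have hζO : IsIntegral (locAt B 𝔪) ζ := kb'.isIntegral_zeta _ hεO
      have hζV : IsIntegral V ζ := kb'.isIntegral_zeta _ hεV
      have heO : IsIntegral (locAt B 𝔪) (kummerE F m ζ) :=
        (isIntegral_algebraMap_of_mem' _ (hV.m_inv_mem _)).mul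
          (IsIntegral.sum _ fun i _ => hζO.pow i)
      obtain ⟨s, hs, hsint⟩ := exists_smul_isIntegral_of_locAt 𝔪 _ heO
      -- the difference
      set y₂ : F' := algebraMap F F' ((m : F)⁻¹) * ∑ i ∈ Finset.range m,
        ζ ^ i * (algebraMap F F' t * ∑ j ∈ Finset.range i, algebraMap F F' h ^ j) with hy₂
      have hy₂int : IsIntegral V y₂ :=
        (isIntegral_algebraMap_of_mem' V (hV.m_inv_mem V)).mul
          (IsIntegral.sum _ fun i _ => (hζV.pow i).mul
            ((isIntegral_algebraMap_of_mem' V ht).mul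
              (IsIntegral.sum _ fun j _ => (isIntegral_algebraMap_of_mem' V hhV).pow j)))
      have hdiff : kummerE F m z = kummerE F m ζ + algebraMap A F' ϖ * y₂ := by
        unfold kummerE
        rw [hy₂, ← mul_assoc (algebraMap A F' ϖ), mul_comm (algebraMap A F' ϖ),
          mul_assoc _ (algebraMap A F' ϖ), ← mul_add, Finset.mul_sum (a := algebraMap A F' ϖ),
          ← Finset.sum_add_distrib]
        congr 1
        refine Finset.sum_congr rfl fun i _ => ?_
        have hgeom : algebraMap F F' h ^ i - 1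
            = algebraMap A F' ϖ * algebraMap F F' t *
              ∑ j ∈ Finset.range i, algebraMap F F' h ^ j := by
          rw [← mul_geom_sum, hh, map_add, map_one, map_mul, ← algebraMap_eq_comp F]
          ring
        rw [hz, mul_pow]
        have : ζ ^ i * algebraMap F F' h ^ i
            = ζ ^ i + ζ ^ i * (algebraMap F F' h ^ i - 1) := by ring
        rw [this, hgeom]
        ring
      refine ⟨s, hs, ?_⟩
      refine ⟨algebraMap F F' (s : F) * kummerE F m ζ, algebraMap F F' (s : F) * y₂, hsint,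
        (isIntegral_algebraMap_of_mem' V (hB.le_V s.2)).mul hy₂int, ?_⟩
      rw [smul_eq_algebraMap_mul, hdiff]
      ring
    · refine ⟨algebraMap A B ϖ, hϖ, ?_⟩
      refine ⟨0, kummerE F m z, isIntegral_zero, hV.isIntegral_kummerE kb, ?_⟩
      rw [smul_eq_algebraMap_mul, zero_add]
      congr 1
      exact (algebraMap_eq_comp F ϖ).symm
  obtain ⟨e, c, he, hc, hec⟩ := key
  exact ⟨e, c, he, hc, hec⟩

end Idem

section Main

variable {ϖ : A} {m : ℕ} {u : F} {Bfin Binf Bmid V : Subalgebra A F}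

/-- unmixedness on the middle chart `Bmid = Bfin[1/x]`. -/
theorem unmixed_mid (hV : GaussData ϖ m u V) (hfin : ChartData ϖ m u Bfin V)
    (hfm : Bfin ≤ Bmid) (x : Bfin) (hx0 : (x : F) ≠ 0) (hxinv : ((x : F))⁻¹ ∈ Bmid)
    (hloc : ∀ f ∈ Bmid, ∃ K : ℕ, (x : F) ^ K * f ∈ Bfin)
    {z : F'} (kb : KummerBasis m u z) {c c' : F'} (hc : IsIntegral Bmid c)
    (hc' : IsIntegral V c') (hcc : c = algebraMap A F' ϖ * c') : IsIntegral Bmid c' := by
  obtain ⟨s, ⟨K, hK⟩, hs⟩ := exists_smul_isIntegral_of_subLoc Bfin Bmid hfm (Submonoid.powers x)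
    (by
      rintro s ⟨K, rfl⟩
      simpa using pow_ne_zero K hx0)
    (by
      intro f hf
      obtain ⟨K, hK⟩ := hloc f hf
      exact ⟨x ^ K, ⟨K, rfl⟩, by simpa using hK⟩)
    (by
      rintro s ⟨K, rfl⟩
      have : (((x ^ K : Bfin) : F))⁻¹ = ((x : F)⁻¹) ^ K := by simp
      rw [this]
      exact Bmid.pow_mem hxinv K) c hc
  have hsF : (s : F) = (x : F) ^ K := by rw [← hK]; simp
  have hs0 : (s : F) ≠ 0 := by rw [hsF]; exact pow_ne_zero K hx0
  have h1 : IsIntegral Bfin (algebraMap F F' (s : F) * c') := by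
    refine hfin.unmixed hV kb hs ((isIntegral_algebraMap_of_mem' V (hfin.le_V s.2)).mul hc') ?_
    rw [hcc]; ring
  have h2 : IsIntegral Bmid (algebraMap F F' (s : F) * c') := isIntegral_of_le hfm h1
  have hsinv : ((s : F))⁻¹ ∈ Bmid := by
    rw [hsF, ← inv_pow]; exact Bmid.pow_mem hxinv K
  have h3 : c' = algebraMap F F' ((s : F)⁻¹) * (algebraMap F F' (s : F) * c') := by
    rw [← mul_assoc, ← map_mul, inv_mul_cancel₀ hs0, map_one, one_mul]
  rw [h3]
  exact (isIntegral_algebraMap_of_mem' Bmid hsinv).mul h2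

/-- **ALG_ss, lifting form.**  On a two-chart model `(Bfin, Binf, Bmid = Bfin[1/x])` with
semilocal Gauss ring `V` (reduced special fibre: `B ∩ ϖ V = ϖ B`), let `u ∈ 1 + ϖ V` admit at every
closed point `𝔪` of the special fibre of each chart a factorisation `u = ε h ^ m` with
`ε ∈ 1 + ϖ B_𝔪`, `h ∈ 1 + ϖ V`.  Then in the Kummer algebra `F' = F[z]/(z ^ m - u)` the element
`E = m⁻¹ ∑ z^i` has lifts `e₁`, `e₂` (modulo `ϖ` times `V`-integral elements) which are integral
over the two charts, idempotent modulo `ϖ` in the integral closure of each chart, and congruent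
modulo `ϖ` on the overlap. -/
theorem exists_kummer_lifts (hV : GaussData ϖ m u V)
    (hfin : ChartData ϖ m u Bfin V) (hinf : ChartData ϖ m u Binf V)
    (hfm : Bfin ≤ Bmid) (him : Binf ≤ Bmid)
    (x : Bfin) (hx0 : (x : F) ≠ 0) (hxinv : ((x : F))⁻¹ ∈ Bmid)
    (hloc : ∀ f ∈ Bmid, ∃ K : ℕ, (x : F) ^ K * f ∈ Bfin)
    {z : F'} (kb : KummerBasis m u z) :
    ∃ e₁ e₂ c₁ : F', IsIntegral Bfin e₁ ∧ IsIntegral Binf e₂ ∧ IsIntegral V c₁ ∧
      kummerE F m z = e₁ + algebraMap A F' ϖ * c₁ ∧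
      (∃ t : F', IsIntegral Bfin t ∧ e₁ ^ 2 - e₁ = algebraMap A F' ϖ * t) ∧
      (∃ t : F', IsIntegral Binf t ∧ e₂ ^ 2 - e₂ = algebraMap A F' ϖ * t) ∧
      (∃ t : F', IsIntegral Bmid t ∧ e₁ - e₂ = algebraMap A F' ϖ * t) := by
  obtain ⟨e₁, c₁, he₁, hc₁, h1⟩ := hfin.exists_lift hV kb
  obtain ⟨e₂, c₂, he₂, hc₂, h2⟩ := hinf.exists_lift hV kb
  obtain ⟨q, hq, hidem⟩ := hV.kummerE_idem kb
  have hE := hV.isIntegral_kummerE kb
  have hϖV : IsIntegral V (algebraMap A F' ϖ) := by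
    rw [algebraMap_eq_comp F]
    exact isIntegral_algebraMap_of_mem' V (V.algebraMap_mem ϖ)
  set E : F' := kummerE F m z with hEdef
  -- idempotency on a chart
  have idem : ∀ (B : Subalgebra A F) (hB : ChartData ϖ m u B V) (e c : F'),
      IsIntegral B e → IsIntegral V c → E = e + algebraMap A F' ϖ * c →
      ∃ t : F', IsIntegral B t ∧ e ^ 2 - e = algebraMap A F' ϖ * t := by
    intro B hB e c he hc hEe
    have hrel : e ^ 2 - e = algebraMap A F' ϖ *
        (q - 2 * c * E + algebraMap A F' ϖ * c ^ 2 + c) := by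
      have he' : e = E - algebraMap A F' ϖ * c := by rw [hEe]; ring
      have : e ^ 2 - e = (E ^ 2 - E) + algebraMap A F' ϖ *
          (- 2 * c * E + algebraMap A F' ϖ * c ^ 2 + c) := by
        rw [he']; ring
      rw [this, hidem]; ring
    have hint : IsIntegral V (q - 2 * c * E + algebraMap A F' ϖ * c ^ 2 + c) := by
      refine IsIntegral.add (IsIntegral.add (IsIntegral.sub hq ?_) (hϖV.mul (hc.pow 2))) hc
      have h2int : IsIntegral V (2 : F') := by
        have : (2 : F') = algebraMap F F' (2 : F) := (map_ofNat (algebraMap F F') 2).symm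
        rw [this]
        exact isIntegral_algebraMap_of_mem' V (by
          have : (2 : F) = 1 + 1 := by norm_num
          rw [this]; exact V.add_mem V.one_mem V.one_mem)
      exact (h2int.mul hc).mul hE
    exact ⟨_, hB.unmixed hV kb ((he.pow 2).sub he) hint hrel, hrel⟩
  refine ⟨e₁, e₂, c₁, he₁, he₂, hc₁, h1, idem Bfin hfin e₁ c₁ he₁ hc₁ h1,
    idem Binf hinf e₂ c₂ he₂ hc₂ h2, ?_⟩
  -- compatibility
  have hrel : e₁ - e₂ = algebraMap A F' ϖ * (c₂ - c₁) := by
    have e1 : e₁ = E - algebraMap A F' ϖ * c₁ := by rw [h1]; ring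
    have e2 : e₂ = E - algebraMap A F' ϖ * c₂ := by rw [h2]; ring
    rw [e1, e2]; ring
  refine ⟨c₂ - c₁, ?_, hrel⟩
  exact unmixed_mid hV hfin hfm x hx0 hxinv hloc kb
    ((isIntegral_of_le hfm he₁).sub (isIntegral_of_le him he₂)) (hc₂.sub hc₁) hrel

/-- coordinates of `V`-integral elements lie in `V`. -/
theorem GaussData.repr_mem (hV : GaussData ϖ m u V) {z : F'} (kb : KummerBasis m u z)
    {y : F'} (hy : IsIntegral V y) (i : Fin m) : kb.basis.repr y i ∈ V := by
  have hmεV : ((m : F) * u)⁻¹ ∈ V := by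
    rw [mul_inv]; exact V.mul_mem (hV.m_inv_mem V) hV.u_inv_mem
  have hmε0 : (m : F) * u ≠ 0 := mul_ne_zero hV.m_ne hV.u_ne
  exact kb.repr_mem_of_isIntegral V hV.closed hV.u_mem hmεV hmε0 hy i

/-- `m⁻¹` is not divisible by `ϖ` in `V`. -/
theorem GaussData.m_inv_ne (hV : GaussData ϖ m u V) (v : F) (hv : v ∈ V) :
    (m : F)⁻¹ ≠ algebraMap A F ϖ * v := by
  intro h
  apply hV.ϖ_inv_notMem
  have h1 : algebraMap A F ϖ * ((m : F) * v) = 1 := by
    rw [mul_left_comm, ← h, mul_inv_cancel₀ hV.m_ne]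
  rw [inv_eq_of_mul_eq_one_right h1]
  exact V.mul_mem (by
    have : (m : F) = algebraMap A F (m : A) := by simp
    rw [this]; exact V.algebraMap_mem _) hv

theorem smul_repr {z : F'} (kb : KummerBasis m u z) (y : F') (i : Fin m) :
    kb.basis.repr (algebraMap A F' ϖ * y) i = algebraMap A F ϖ * kb.basis.repr y i := by
  have : algebraMap A F' ϖ * y = (algebraMap A F ϖ) • y := by
    rw [Algebra.smul_def, algebraMap_eq_comp F]
  rw [this, map_smul, Finsupp.smul_apply, smul_eq_mul]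

/-- **ALG_ss, idempotent form.**  In the situation of `exists_kummer_lifts`, if `m ≥ 2`, the pair
`(e₁, e₂)` is NOT congruent to `0` or `1` modulo `ϖ`.  (If `F'` is a field with the same constants,
a two-chart Čech connectedness lemma for `F'` then gives a contradiction.) -/
theorem exists_kummer_idempotents (hV : GaussData ϖ m u V)
    (hfin : ChartData ϖ m u Bfin V) (hinf : ChartData ϖ m u Binf V)
    (hfm : Bfin ≤ Bmid) (him : Binf ≤ Bmid)
    (x : Bfin) (hx0 : (x : F) ≠ 0) (hxinv : ((x : F))⁻¹ ∈ Bmid)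
    (hloc : ∀ f ∈ Bmid, ∃ K : ℕ, (x : F) ^ K * f ∈ Bfin)
    (hm2 : 2 ≤ m) {z : F'} (kb : KummerBasis m u z) :
    ∃ e₁ e₂ : F', IsIntegral Bfin e₁ ∧ IsIntegral Binf e₂ ∧
      (∃ t : F', IsIntegral Bfin t ∧ e₁ ^ 2 - e₁ = algebraMap A F' ϖ * t) ∧
      (∃ t : F', IsIntegral Binf t ∧ e₂ ^ 2 - e₂ = algebraMap A F' ϖ * t) ∧
      (∃ t : F', IsIntegral Bmid t ∧ e₁ - e₂ = algebraMap A F' ϖ * t) ∧
      (¬ ∃ t : F', IsIntegral Bfin t ∧ e₁ = algebraMap A F' ϖ * t) ∧
      (¬ ∃ t : F', IsIntegral Bfin t ∧ 1 - e₁ = algebraMap A F' ϖ * t) := by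
  obtain ⟨e₁, e₂, c₁, he₁, he₂, hc₁, h1, hi1, hi2, h12⟩ :=
    exists_kummer_lifts hV hfin hinf hfm him x hx0 hxinv hloc kb
  set E : F' := kummerE F m z with hEdef
  refine ⟨e₁, e₂, he₁, he₂, hi1, hi2, h12, ?_, ?_⟩
  · rintro ⟨t, ht, het⟩
    have hEt : E = algebraMap A F' ϖ * (t + c₁) := by rw [h1, het]; ring
    have hint : IsIntegral V (t + c₁) := (isIntegral_of_le hfin.le_V ht).add hc₁
    have h0 := kummerE_repr kb ⟨0, by omega⟩
    rw [← hEdef, hEt, smul_repr] at h0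
    exact hV.m_inv_ne _ (hV.repr_mem kb hint _) h0.symm
  · rintro ⟨t, ht, het⟩
    have hEt : 1 - E = algebraMap A F' ϖ * (t - c₁) := by
      have : 1 - E = (1 - e₁) - algebraMap A F' ϖ * c₁ := by rw [h1]; ring
      rw [this, het]; ring
    have hint : IsIntegral V (t - c₁) := (isIntegral_of_le hfin.le_V ht).sub hc₁
    have h0 : kb.basis.repr (1 - E) ⟨1, by omega⟩ = -(m : F)⁻¹ := by
      rw [map_sub, Finsupp.sub_apply, one_repr kb, hEdef, kummerE_repr kb]
      simp
    rw [hEt, smul_repr] at h0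
    refine hV.m_inv_ne (-(kb.basis.repr (t - c₁) ⟨1, by omega⟩)) (V.neg_mem (hV.repr_mem kb hint _)) ?_
    rw [mul_neg, h0, neg_neg]

end Main

end Fermat.Agent.A2.H348

end
-- ===== PACK-END A2/H348/Glue.lean

-- ===== PACK-BEGIN A2/H348/Root.lean
section


/-!
# A2 / piece E (ALG_ss), part 4: from the Kummer idempotent to an `m`-th root

Mathlib-only.

* `isIntegral_map_algHom` : `F`-algebra maps preserve integrality over a subalgebra of `F`.
* `GaussData.mem_range_of_sub_one` (**rigidity**): a root `y₀` of `X ^ m - u` (in any field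
  extension `Ω` of `F`) which is `≡ 1` modulo `ϖ` times a `V`-integral element lies in `F`.
* `exists_root_of_connected` (**ALG_ss, abstract final form**): in the situation of
  `exists_kummer_lifts`, if every residue field `F' ⧸ 𝔫` of the Kummer algebra satisfies the
  two-chart connectedness statement, then `u = y ^ m` with `y ∈ F`, `y ∈ 1 + ϖ V`.
-/

set_option autoImplicit false
set_option linter.unusedSectionVars false
set_option linter.style.haveILetI false

open Module Polynomial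

namespace Fermat.Agent.A2.H348

variable {A F : Type*} [CommRing A] [Field F] [Algebra A F]

/-- `F`-algebra maps preserve integrality over a subalgebra of `F`. -/
theorem isIntegral_map_algHom (O : Subalgebra A F) {S T : Type*} [CommRing S] [CommRing T]
    [Algebra F S] [Algebra F T] (f : S →ₐ[F] T) {c : S} (hc : IsIntegral O c) :
    IsIntegral O (f c) := by
  obtain ⟨P, hP, hPc⟩ := hc
  refine ⟨P, hP, ?_⟩
  have h := congrArg (f : S →+* T) hPc
  rw [map_zero, Polynomial.hom_eval₂] at h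
  have h2 : ((f : S →+* T).comp (algebraMap O S)) = algebraMap O T := by
    ext a
    exact f.commutes (a : F)
  rw [h2] at h
  exact h

section Rigid

variable {ϖ : A} {m : ℕ} {u : F} {V : Subalgebra A F}
variable {Ω : Type*} [Field Ω] [Algebra F Ω] [Algebra A Ω] [IsScalarTower A F Ω]

/-- a root of unity `η ≠ 1` of order dividing `m`: `m = (1 - η) * S` with `S` a sum of powers
of `η`. -/
theorem natCast_eq_one_sub_mul {η : Ω} (hη : η ^ m = 1) (hη1 : η ≠ 1) :
    (m : Ω) = (1 - η) * ∑ i ∈ Finset.range m, ∑ j ∈ Finset.range i, η ^ j := by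
  have h0 : ∑ i ∈ Finset.range m, η ^ i = 0 := by
    have h2 : (η - 1) * ∑ k ∈ Finset.range m, η ^ k = 0 := by
      rw [mul_geom_sum, hη, sub_self]
    rcases mul_eq_zero.1 h2 with h3 | h3
    · exact absurd (sub_eq_zero.1 h3) hη1
    · exact h3
  have h1 : ∀ i : ℕ, (1 - η) * ∑ j ∈ Finset.range i, η ^ j = 1 - η ^ i := by
    intro i
    have := mul_geom_sum η i
    linear_combination -this
  rw [Finset.mul_sum, Finset.sum_congr rfl fun i _ => h1 i, Finset.sum_sub_distrib, h0]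
  simp

/-- **Rigidity.**  A root `y₀` of `X ^ m - u` with `y₀ - 1 ∈ ϖ · (V-integral elements)` lies in
`F`. -/
theorem GaussData.mem_range_of_sub_one (hV : GaussData ϖ m u V) [IsAlgClosed Ω]
    {y₀ : Ω} (hy : y₀ ^ m = algebraMap F Ω u) {τ : Ω} (hτ : IsIntegral V τ)
    (h : y₀ - 1 = algebraMap F Ω (algebraMap A F ϖ) * τ) :
    y₀ ∈ Set.range (algebraMap F Ω) := by
  classical
  have hm0 : m ≠ 0 := by
    rintro rfl
    exact hV.m_ne (by simp)
  have hmpos : 0 < m := Nat.pos_of_ne_zero hm0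
  have hu0 : u ≠ 0 := hV.u_ne
  have hϖ0 : algebraMap A F ϖ ≠ 0 := hV.ϖ_ne
  have hϖΩ : algebraMap F Ω (algebraMap A F ϖ) ≠ 0 := (_root_.map_ne_zero _).2 hϖ0
  have hy0 : y₀ ≠ 0 := by
    intro h0
    rw [h0, zero_pow hm0] at hy
    exact hu0 ((map_eq_zero (algebraMap F Ω)).1 hy.symm)
  have hyint : IsIntegral F y₀ := by
    refine IsIntegral.of_pow hmpos ?_
    rw [hy]; exact isIntegral_algebraMap
  by_contra hnot
  have hdeg : 2 ≤ (minpoly F y₀).natDegree := (minpoly.two_le_natDegree_iff hyint).2 hnot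
  set P := minpoly F y₀ with hP
  have hdvd : P ∣ X ^ m - C u := minpoly.dvd F y₀ (by simp [hy])
  have hsep : (P.map (algebraMap F Ω)).Separable :=
    ((separable_X_pow_sub_C u hV.m_ne hu0).of_dvd hdvd).map
  have hnodup := nodup_roots hsep
  have hcard : (P.map (algebraMap F Ω)).roots.card = P.natDegree := by
    rw [IsAlgClosed.card_roots_eq_natDegree, natDegree_map]
  -- another root
  obtain ⟨y₁, hy₁mem, hy₁ne⟩ : ∃ y₁ ∈ (P.map (algebraMap F Ω)).roots, y₁ ≠ y₀ := by
    by_contra hcon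
    simp only [not_exists, not_and, not_not] at hcon
    have hsub : (P.map (algebraMap F Ω)).roots ≤ {y₀} := by
      rw [Multiset.le_iff_subset hnodup]
      intro y hy'
      rw [Multiset.mem_singleton]
      exact hcon y hy'
    have := Multiset.card_le_card hsub
    rw [hcard, Multiset.card_singleton] at this
    omega
  have hPne : P.map (algebraMap F Ω) ≠ 0 :=
    map_monic_ne_zero (minpoly.monic hyint)
  have hy₁P : aeval y₁ P = 0 := by
    have := (mem_roots hPne).1 hy₁mem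
    rwa [IsRoot.def, eval_map, ← aeval_def] at this
  have haeval_of_dvd : ∀ G : F[X], aeval y₀ G = 0 → aeval y₁ G = 0 := by
    intro G hG
    obtain ⟨Q, hQ⟩ := minpoly.dvd F y₀ hG
    rw [hQ, map_mul, hy₁P, zero_mul]
  have hy₁ : y₁ ^ m = algebraMap F Ω u := by
    have := haeval_of_dvd (X ^ m - C u) (by simp [hy])
    simpa [sub_eq_zero] using this
  -- transport of integrality
  obtain ⟨Q₀, hQ₀m, hQ₀⟩ := hτ
  set ϖ' : F := algebraMap A F ϖ with hϖ'
  set G : F[X] := (Q₀.map (algebraMap V F)).comp (C ϖ'⁻¹ * (X - 1)) with hG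
  have hGeval : ∀ y : Ω, aeval y G =
      eval₂ (algebraMap V Ω) (algebraMap F Ω ϖ'⁻¹ * (y - 1)) Q₀ := by
    intro y
    rw [hG, aeval_comp, aeval_def, eval₂_map]
    have : (algebraMap F Ω).comp (algebraMap V F) = algebraMap V Ω := by
      ext a; rfl
    rw [this]
    simp
  have hτeq : algebraMap F Ω ϖ'⁻¹ * (y₀ - 1) = τ := by
    rw [h, ← mul_assoc, ← map_mul, inv_mul_cancel₀ hϖ0, map_one, one_mul]
  have hG0 : aeval y₀ G = 0 := by rw [hGeval, hτeq]; exact hQ₀
  have hG1 := haeval_of_dvd G hG0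
  rw [hGeval] at hG1
  set τ₁ : Ω := algebraMap F Ω ϖ'⁻¹ * (y₁ - 1) with hτ₁
  have hτ₁int : IsIntegral V τ₁ := ⟨Q₀, hQ₀m, hG1⟩
  have hτint : IsIntegral V τ := ⟨Q₀, hQ₀m, hQ₀⟩
  have h1 : y₁ - 1 = algebraMap F Ω ϖ' * τ₁ := by
    rw [hτ₁, ← mul_assoc, ← map_mul, mul_inv_cancel₀ hϖ0, map_one, one_mul]
  -- the root of unity
  set η : Ω := y₁ * y₀⁻¹ with hη
  have hηm : η ^ m = 1 := by
    rw [hη, mul_pow, inv_pow, hy₁, hy, mul_inv_cancel₀]
    exact (_root_.map_ne_zero _).2 hu0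
  have hη1 : η ≠ 1 := by
    intro h1'
    apply hy₁ne
    have : y₁ = η * y₀ := by rw [hη, mul_assoc, inv_mul_cancel₀ hy0, mul_one]
    rw [this, h1', one_mul]
  have hηint : IsIntegral V η := by
    refine IsIntegral.of_pow hmpos ?_
    rw [hηm]; exact isIntegral_one
  have hy0inv : IsIntegral V y₀⁻¹ := by
    refine IsIntegral.of_pow hmpos ?_
    rw [inv_pow, hy, ← map_inv₀]
    exact isIntegral_algebraMap_of_mem' V hV.u_inv_mem
  have hone : 1 - η = algebraMap F Ω ϖ' * ((τ - τ₁) * y₀⁻¹) := by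
    have : 1 - η = (y₀ - y₁) * y₀⁻¹ := by
      rw [hη, sub_mul, mul_inv_cancel₀ hy0]
    rw [this]
    have : y₀ - y₁ = algebraMap F Ω ϖ' * (τ - τ₁) := by
      have e0 : y₀ = 1 + algebraMap F Ω ϖ' * τ := by rw [← h]; ring
      have e1 : y₁ = 1 + algebraMap F Ω ϖ' * τ₁ := by rw [← h1]; ring
      rw [e0, e1]; ring
    rw [this]; ring
  have hmeq := natCast_eq_one_sub_mul hηm hη1
  set S : Ω := ∑ i ∈ Finset.range m, ∑ j ∈ Finset.range i, η ^ j with hS
  have hSint : IsIntegral V S :=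
    IsIntegral.sum _ fun i _ => IsIntegral.sum _ fun j _ => hηint.pow j
  have hT : IsIntegral V ((τ - τ₁) * y₀⁻¹ * S) := ((hτint.sub hτ₁int).mul hy0inv).mul hSint
  have hmT : algebraMap F Ω ((m : F) * ϖ'⁻¹) = (τ - τ₁) * y₀⁻¹ * S := by
    have hm' : algebraMap F Ω (m : F) = (m : Ω) := by simp
    rw [map_mul, hm', hmeq, hone, map_inv₀]
    field_simp
  rw [← hmT] at hT
  have hmem : (m : F) * ϖ'⁻¹ ∈ V :=
    hV.closed _ ((isIntegral_algebraMap_iff (algebraMap F Ω).injective).1 hT)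
  apply hV.ϖ_inv_notMem
  have : ϖ'⁻¹ = (m : F)⁻¹ * ((m : F) * ϖ'⁻¹) := by
    rw [← mul_assoc, inv_mul_cancel₀ hV.m_ne, one_mul]
  rw [this]
  exact V.mul_mem (hV.m_inv_mem V) hmem

end Rigid

section Main

variable {F' : Type*} [CommRing F'] [Nontrivial F'] [Algebra F F'] [Algebra A F']
  [IsScalarTower A F F']
variable {ϖ : A} {m : ℕ} {u : F} {Bfin Binf Bmid V : Subalgebra A F}

/-- The two-chart connectedness statement for an `F`-algebra `L` (in the application: a finite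
field extension of `F` with the same constants), in the language of integrality over the charts
of `F`. -/
def ConnAt (ϖ : A) (Bfin Binf Bmid : Subalgebra A F) (L : Type*) [CommRing L] [Algebra F L] :
    Prop :=
  ∀ e₁ e₂ : L, IsIntegral Bfin e₁ → IsIntegral Binf e₂ →
    (∃ t : L, IsIntegral Bfin t ∧ e₁ ^ 2 - e₁ = algebraMap F L (algebraMap A F ϖ) * t) →
    (∃ t : L, IsIntegral Binf t ∧ e₂ ^ 2 - e₂ = algebraMap F L (algebraMap A F ϖ) * t) →
    (∃ t : L, IsIntegral Bmid t ∧ e₁ - e₂ = algebraMap F L (algebraMap A F ϖ) * t) →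
    (∃ t : L, IsIntegral Bfin t ∧ e₁ = algebraMap F L (algebraMap A F ϖ) * t) ∨
    (∃ t : L, IsIntegral Bfin t ∧ 1 - e₁ = algebraMap F L (algebraMap A F ϖ) * t)

omit [Nontrivial F'] [Algebra A F] [Algebra A F'] [IsScalarTower A F F'] in
theorem kummerE_mul_sub_one (hm : (m : F) ≠ 0) {z : F'} (hz : z ^ m = algebraMap F F' u) :
    algebraMap F F' (m : F) * kummerE F m z * (z - 1) = algebraMap F F' (u - 1) := by
  unfold kummerE
  rw [← mul_assoc, ← map_mul, mul_inv_cancel₀ hm, map_one, one_mul, geom_sum_mul, hz, map_sub,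
    map_one]

/-- **ALG_ss, abstract final form.**  On a two-chart model `(Bfin, Binf, Bmid = Bfin[1/x])` with
semilocal Gauss ring `V` and reduced special fibre, let `u ∈ 1 + ϖ V` admit local factorisations
`u = ε h ^ m` (`ε ∈ 1 + ϖ B_𝔪`, `h ∈ 1 + ϖ V`) at every closed point of the special fibre of both
charts.  If the special fibres of the normalisations of the model in the residue fields of the
Kummer algebra `F' = F[z]/(z ^ m - u)` are connected (`ConnAt`), then `u` is the `m`-th power of an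
element of `F` which is `≡ 1` modulo `ϖ V`. -/
theorem exists_root_of_connected (hV : GaussData ϖ m u V)
    (hfin : ChartData ϖ m u Bfin V) (hinf : ChartData ϖ m u Binf V)
    (hfm : Bfin ≤ Bmid) (him : Binf ≤ Bmid)
    (x : Bfin) (hx0 : (x : F) ≠ 0) (hxinv : ((x : F))⁻¹ ∈ Bmid)
    (hloc : ∀ f ∈ Bmid, ∃ K : ℕ, (x : F) ^ K * f ∈ Bfin)
    {z : F'} (kb : KummerBasis m u z)
    (hconn : ∀ 𝔫 : Ideal F', 𝔫.IsMaximal → ConnAt ϖ Bfin Binf Bmid (F' ⧸ 𝔫)) :
    ∃ y : F, y ^ m = u ∧ ∃ t ∈ V, y = 1 + algebraMap A F ϖ * t := by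
  classical
  obtain ⟨e₁, e₂, c₁, he₁, he₂, hc₁, hE, hi1, hi2, h12⟩ :=
    exists_kummer_lifts hV hfin hinf hfm him x hx0 hxinv hloc kb
  have hm0 : (m : F) ≠ 0 := hV.m_ne
  haveI : NeZero (m : F) := ⟨hm0⟩
  have hmpos : 0 < m := kb.m_pos
  have hϖ0 : algebraMap A F ϖ ≠ 0 := hV.ϖ_ne
  set Ω := AlgebraicClosure F with hΩ
  obtain ⟨ω, hω⟩ := HasEnoughRootsOfUnity.exists_primitiveRoot Ω m
  obtain ⟨r, hr⟩ := IsAlgClosed.exists_pow_nat_eq (algebraMap F Ω u) hmpos
  haveI := kb.finiteDimensional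
  haveI : IsArtinianRing F' := IsArtinianRing.of_finite F F'
  -- the evaluations
  set ev : ℕ → (F' →ₐ[F] Ω) :=
    fun k => kb.evalAt (ω ^ k * r) (KummerBasis.mul_pow_eq hω hr k) with hev
  set ϖ' : F := algebraMap A F ϖ with hϖ'
  have hϖF' : algebraMap A F' ϖ = algebraMap F F' ϖ' := algebraMap_eq_comp F ϖ
  -- the alternative at each evaluation
  have key : ∀ k : ℕ, (∃ τ : Ω, IsIntegral Bfin τ ∧ ev k e₁ = algebraMap F Ω ϖ' * τ) ∨
      (∃ τ : Ω, IsIntegral Bfin τ ∧ 1 - ev k e₁ = algebraMap F Ω ϖ' * τ) := by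
    intro k
    set 𝔫 : Ideal F' := RingHom.ker (ev k : F' →+* Ω) with h𝔫
    haveI : 𝔫.IsPrime := RingHom.ker_isPrime _
    haveI : 𝔫.IsMaximal := inferInstance
    set π : F' →ₐ[F] F' ⧸ 𝔫 := Ideal.Quotient.mkₐ F 𝔫 with hπ
    set ι : F' ⧸ 𝔫 →ₐ[F] Ω := Ideal.Quotient.liftₐ 𝔫 (ev k) (fun a ha => ha) with hι
    have hιπ : ∀ a, ι (π a) = ev k a := fun a => rfl
    have hrel : ∀ a t : F', a = algebraMap A F' ϖ * t →
        π a = algebraMap F (F' ⧸ 𝔫) ϖ' * π t := by
      intro a t h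
      rw [h, hϖF', map_mul, AlgHom.commutes]
    have hc := hconn 𝔫 inferInstance (π e₁) (π e₂) (isIntegral_map_algHom Bfin π he₁)
      (isIntegral_map_algHom Binf π he₂)
      (by
        obtain ⟨t, ht, h⟩ := hi1
        refine ⟨π t, isIntegral_map_algHom Bfin π ht, ?_⟩
        rw [← hrel _ t h, map_sub, map_pow])
      (by
        obtain ⟨t, ht, h⟩ := hi2
        refine ⟨π t, isIntegral_map_algHom Binf π ht, ?_⟩
        rw [← hrel _ t h, map_sub, map_pow])
      (by
        obtain ⟨t, ht, h⟩ := h12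
        refine ⟨π t, isIntegral_map_algHom Bmid π ht, ?_⟩
        rw [← hrel _ t h, map_sub])
    rcases hc with ⟨t, ht, h⟩ | ⟨t, ht, h⟩
    · left
      refine ⟨ι t, isIntegral_map_algHom Bfin ι ht, ?_⟩
      have := congrArg ι h
      rw [hιπ, map_mul, AlgHom.commutes] at this
      exact this
    · right
      refine ⟨ι t, isIntegral_map_algHom Bfin ι ht, ?_⟩
      have := congrArg ι h
      rw [map_sub, map_one, hιπ, map_mul, AlgHom.commutes] at this
      exact this
  by_cases hB : ∃ k : ℕ, ∃ τ : Ω, IsIntegral Bfin τ ∧ 1 - ev k e₁ = algebraMap F Ω ϖ' * τ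
  · -- rigidity
    obtain ⟨k, τ, hτ, hk⟩ := hB
    set y₀ : Ω := ω ^ k * r with hy₀def
    have hy₀ : y₀ ^ m = algebraMap F Ω u := KummerBasis.mul_pow_eq hω hr k
    have hevz : ev k z = y₀ := kb.evalAt_zeta _ _
    have hevE : ev k (kummerE F m z) = ev k e₁ + algebraMap F Ω ϖ' * ev k c₁ := by
      rw [hE, map_add, map_mul, hϖF', AlgHom.commutes]
    have h1E : 1 - ev k (kummerE F m z) = algebraMap F Ω ϖ' * (τ - ev k c₁) := by
      rw [hevE]; linear_combination hk
    obtain ⟨t₀, ht₀, hu⟩ := hV.u_one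
    have hmE : algebraMap F Ω (m : F) * ev k (kummerE F m z) * (y₀ - 1) =
        algebraMap F Ω (u - 1) := by
      have := congrArg (ev k) (kummerE_mul_sub_one (F := F) hm0 kb.pow_eq)
      rw [map_mul, map_mul, map_sub, map_one, hevz, AlgHom.commutes, AlgHom.commutes] at this
      exact this
    have hu' : algebraMap F Ω (u - 1) = algebraMap F Ω ϖ' * algebraMap F Ω t₀ := by
      rw [hu, ← map_mul]; congr 1; ring
    have hmΩ : algebraMap F Ω (m : F) * algebraMap F Ω ((m : F)⁻¹) = 1 := by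
      rw [← map_mul, mul_inv_cancel₀ hm0, map_one]
    have hy1 : y₀ - 1 = algebraMap F Ω ϖ' *
        ((y₀ - 1) * (τ - ev k c₁) + algebraMap F Ω ((m : F)⁻¹) * algebraMap F Ω t₀) := by
      linear_combination (y₀ - 1) * h1E + algebraMap F Ω ((m : F)⁻¹) * hmE +
        algebraMap F Ω ((m : F)⁻¹) * hu' - ((y₀ - 1) * ev k (kummerE F m z)) * hmΩ
    have hy₀int : IsIntegral V y₀ := by
      refine IsIntegral.of_pow hmpos ?_
      rw [hy₀]; exact isIntegral_algebraMap_of_mem' V hV.u_mem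
    have hτ' : IsIntegral V
        ((y₀ - 1) * (τ - ev k c₁) + algebraMap F Ω ((m : F)⁻¹) * algebraMap F Ω t₀) := by
      refine IsIntegral.add (IsIntegral.mul (hy₀int.sub isIntegral_one)
        ((isIntegral_of_le hfin.le_V hτ).sub (isIntegral_map_algHom V (ev k) hc₁))) ?_
      exact (isIntegral_algebraMap_of_mem' V (hV.m_inv_mem V)).mul
        (isIntegral_algebraMap_of_mem' V ht₀)
    obtain ⟨y, hy⟩ := hV.mem_range_of_sub_one hy₀ hτ' hy1
    have hinj := (algebraMap F Ω).injective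
    refine ⟨y, ?_, (y - 1) * ϖ'⁻¹, ?_, ?_⟩
    · apply hinj
      rw [map_pow, hy, hy₀]
    · apply hV.closed
      rw [← isIntegral_algebraMap_iff (B := Ω) hinj]
      have : algebraMap F Ω ((y - 1) * ϖ'⁻¹) =
          (y₀ - 1) * (τ - ev k c₁) + algebraMap F Ω ((m : F)⁻¹) * algebraMap F Ω t₀ := by
        have hϖΩ : algebraMap F Ω ϖ' ≠ 0 := (_root_.map_ne_zero _).2 hϖ0
        apply mul_left_cancel₀ hϖΩ
        rw [← hy1, ← map_mul, mul_comm (y - 1), ← mul_assoc, mul_inv_cancel₀ hϖ0, one_mul,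
          map_sub, map_one, hy]
      rw [this]
      exact hτ'
    · rw [mul_comm (y - 1), ← mul_assoc, mul_inv_cancel₀ hϖ0]
      ring
  · -- impossible: all evaluations of `e₁` vanish modulo `ϖ`
    exfalso
    have hA : ∀ k : ℕ, ∃ τ : Ω, IsIntegral Bfin τ ∧ ev k e₁ = algebraMap F Ω ϖ' * τ :=
      fun k => (key k).resolve_right fun h => hB ⟨k, h⟩
    choose τ hτint hτ using hA
    have hsum := kb.sum_evalAt hω hr e₁ ⟨0, hmpos⟩
    simp only [Nat.sub_zero, hω.pow_eq_one, one_pow, one_mul, pow_zero, mul_one] at hsum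
    have hsum' : ∑ k ∈ Finset.range m, ev k e₁ =
        (m : Ω) * algebraMap F Ω (kb.basis.repr e₁ ⟨0, hmpos⟩) := hsum
    rw [Finset.sum_congr rfl fun k _ => hτ k, ← Finset.mul_sum] at hsum'
    have hmΩ : (m : Ω) = algebraMap F Ω (m : F) := by simp
    have hint : IsIntegral V (algebraMap F Ω ((m : F)⁻¹) * ∑ k ∈ Finset.range m, τ k) :=
      (isIntegral_algebraMap_of_mem' V (hV.m_inv_mem V)).mul
        (IsIntegral.sum _ fun k _ => isIntegral_of_le hfin.le_V (hτint k))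
    have heq : algebraMap F Ω (kb.basis.repr e₁ ⟨0, hmpos⟩ * ϖ'⁻¹) =
        algebraMap F Ω ((m : F)⁻¹) * ∑ k ∈ Finset.range m, τ k := by
      have hSumτ : ∑ k ∈ Finset.range m, τ k =
          algebraMap F Ω ϖ'⁻¹ * ((m : Ω) * algebraMap F Ω (kb.basis.repr e₁ ⟨0, hmpos⟩)) := by
        rw [← hsum', ← mul_assoc, ← map_mul, inv_mul_cancel₀ hϖ0, map_one, one_mul]
      rw [hSumτ, hmΩ]
      simp only [← map_mul]
      congr 1
      field_simp
    rw [← heq] at hint
    have hv : kb.basis.repr e₁ ⟨0, hmpos⟩ * ϖ'⁻¹ ∈ V :=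
      hV.closed _ ((isIntegral_algebraMap_iff (algebraMap F Ω).injective).1 hint)
    have h0 := kummerE_repr kb ⟨0, hmpos⟩
    rw [hE, map_add, Finsupp.add_apply, smul_repr] at h0
    refine hV.m_inv_ne (kb.basis.repr e₁ ⟨0, hmpos⟩ * ϖ'⁻¹ + kb.basis.repr c₁ ⟨0, hmpos⟩)
      (V.add_mem hv (hV.repr_mem kb hc₁ _)) ?_
    rw [← h0, mul_add, mul_comm (kb.basis.repr e₁ ⟨0, hmpos⟩), ← mul_assoc,
      mul_inv_cancel₀ hϖ0, one_mul]

end Main

end Fermat.Agent.A2.H348

end
-- ===== PACK-END A2/H348/Root.lean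

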