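import Fermat.Prelude.Def_ModularCurve_X0ModL
import Mathlib
import Fermat.Prelude.Def_ModularCurve_X0
import Fermat.Prelude.Def_ModularCurve_JqCoeff
import Fermat.Prelude.Def_ModularCurve_HeckeModule
import Mathlib.NumberTheory.LSeries.Injectivity
import Fermat.Prelude.Def_ModularForm_HeckeOperator
import Fermat.Prelude.Thm_ModularForm_sturm_bound_Gamma0
import Fermat.Prelude.Thm_CuspForm_heckeTLin_comm
import Fermat.Prelude.Thm_CuspForm_heckeTLin_heckeULin_comm
import Fermat.Prelude.Thm_CuspForm_heckeULin_comm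
import Mathlib.NumberTheory.ModularForms.NormTrace
import Fermat.Prelude.Def_ModularForm_HeckeOperatorForms
import Fermat.Prelude.Thm_CongruenceSubgroup_one_mem_strictPeriods_Gamma0
import Fermat.Prelude.Def_FLTPrelim_Modularity
import Fermat.Prelude.Sol.S_ModularForm_heckeU_slash_eq_self_of_mem_Gamma0
import Mathlib.RingTheory.DiscreteValuationRing.Basic
import Mathlib.RingTheory.Valuation.ValuationSubring
import Mathlib.RingTheory.Algebraic.Integral
import Mathlib.RingTheory.Localization.FractionRing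
import Mathlib.RingTheory.Polynomial.UniqueFactorization
import Mathlib.Tactic.FieldSimp
import Mathlib.RingTheory.Valuation.LocalSubring
import Mathlib.RingTheory.RootsOfUnity.AlgebraicallyClosed
import Mathlib.RingTheory.LocalRing.RingHom.Basic
import Fermat.Agent.Pack.S35.G0E0L3
import Fermat.Agent.Pack.S35.G0E0L1
import Fermat.Agent.Pack.S35.G0E0L0
import Fermat.Agent.Pack.S35.G0E0L2

-- ===== PACK-BEGIN Lib/Cheb/H761/PrimeSum.lean
section



/-!
# Piece Z of the shared library CHEB: `Spec.PrimeSumStatement`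

`∑_p c_F(p) p^(-s) = log (1 / (s - 1)) + O(1)` on `(1, 2]`, where `c_F(p)` is the number of prime
ideals of `𝓞 F` of norm `p`.
-/

set_option autoImplicit false
set_option linter.unusedSectionVars false
set_option linter.unusedVariables false

namespace Fermat.Agent.Lib.Cheb.H761

open IsDedekindDomain Filter Topology NumberField Ideal

noncomputable section

variable (F : Type*) [Field F] [NumberField F]

/-- At most `[F : ℚ]` primes of `𝓞 F` contain a given rational prime. -/
lemma card_le_of_natCast_mem {p : ℕ} (hp : p.Prime) (T : Finset (HeightOneSpectrum (𝓞 F)))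
    (hT : ∀ 𝔭 ∈ T, (p : 𝓞 F) ∈ 𝔭.asIdeal) : T.card ≤ Module.finrank ℤ (𝓞 F) := by
  classical
  have hdvd : ∀ 𝔭 ∈ T, 𝔭.asIdeal ∣ span {(p : 𝓞 F)} := fun 𝔭 h𝔭 =>
    Ideal.dvd_iff_le.mpr ((span_singleton_le_iff_mem _).mpr (hT 𝔭 h𝔭))
  have hprod : ∏ 𝔭 ∈ T, 𝔭.asIdeal ∣ span {(p : 𝓞 F)} := by
    have := Finset.prod_primes_dvd (s := T.image (fun 𝔭 => 𝔭.asIdeal)) (span {(p : 𝓞 F)})
      (by
        intro a ha
        obtain ⟨𝔭, -, rfl⟩ := Finset.mem_image.mp ha
        exact 𝔭.prime)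
      (by
        intro a ha
        obtain ⟨𝔭, h𝔭, rfl⟩ := Finset.mem_image.mp ha
        exact hdvd 𝔭 h𝔭)
    rwa [Finset.prod_image (fun x _ y _ h => HeightOneSpectrum.ext h)] at this
  have hnorm := Ideal.absNorm_dvd_absNorm_of_le (Ideal.dvd_iff_le.mp hprod)
  rw [Ideal.absNorm_span_natCast, map_prod] at hnorm
  have hle : ∀ 𝔭 ∈ T, p ≤ absNorm 𝔭.asIdeal := by
    intro 𝔭 h𝔭
    have h1 := Ideal.absNorm_dvd_absNorm_of_le (Ideal.dvd_iff_le.mp (hdvd 𝔭 h𝔭))
    rw [Ideal.absNorm_span_natCast] at h1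
    obtain ⟨k, -, hk⟩ := (Nat.dvd_prime_pow hp).mp h1
    have hk0 : k ≠ 0 := by
      rintro rfl
      rw [pow_zero, Ideal.absNorm_eq_one_iff] at hk
      exact 𝔭.isPrime.ne_top hk
    rw [hk]
    exact Nat.le_self_pow hk0 p
  have h2 : p ^ T.card ≤ ∏ 𝔭 ∈ T, absNorm 𝔭.asIdeal := by
    rw [← Finset.prod_const]
    exact Finset.prod_le_prod' hle
  have h3 : ∏ 𝔭 ∈ T, absNorm 𝔭.asIdeal ≤ p ^ Module.finrank ℤ (𝓞 F) :=
    Nat.le_of_dvd (pow_pos hp.pos _) hnorm
  exact (Nat.pow_le_pow_iff_right hp.one_lt).mp (h2.trans h3)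

/-- the rational prime below a prime ideal -/
def primeBelow (𝔭 : HeightOneSpectrum (𝓞 F)) : ℕ :=
  haveI := 𝔭.isMaximal
  (Ideal.exists_prime_and_absNorm_eq_pow 𝔭.asIdeal).choose

lemma primeBelow_spec (𝔭 : HeightOneSpectrum (𝓞 F)) :
    ∃ n, 0 < n ∧ (primeBelow F 𝔭 : 𝓞 F) ∈ 𝔭.asIdeal ∧ (primeBelow F 𝔭).Prime ∧
      absNorm 𝔭.asIdeal = primeBelow F 𝔭 ^ n :=
  haveI := 𝔭.isMaximal
  (Ideal.exists_prime_and_absNorm_eq_pow 𝔭.asIdeal).choose_spec

/-- For a prime of non-prime norm, `N𝔭 ≥ p²`. -/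
lemma sq_primeBelow_le (𝔭 : HeightOneSpectrum (𝓞 F)) (h : ¬ (absNorm 𝔭.asIdeal).Prime) :
    primeBelow F 𝔭 ^ 2 ≤ absNorm 𝔭.asIdeal := by
  obtain ⟨n, hn, -, hp, hN⟩ := primeBelow_spec F 𝔭
  have hn2 : 2 ≤ n := by
    by_contra hlt
    have : n = 1 := by omega
    rw [this, pow_one] at hN
    exact h (hN ▸ hp)
  rw [hN]
  exact Nat.pow_le_pow_right hp.pos hn2

/-- the primes of non-prime norm -/
def highPrimes : Set (HeightOneSpectrum (𝓞 F)) := {𝔭 | ¬ (absNorm 𝔭.asIdeal).Prime}

/-- the constant bounding the contribution of the primes of degree `≥ 2` -/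
def highBound : ℝ := (Module.finrank ℤ (𝓞 F) : ℝ) * ∑' n : ℕ, ((n : ℝ) ^ 2)⁻¹

lemma summable_inv_sq : Summable (fun n : ℕ => ((n : ℝ) ^ 2)⁻¹) := by
  have := (Real.summable_nat_pow_inv (p := 2)).mpr (by norm_num)
  exact this

lemma sum_highPrimes_le {s : ℝ} (hs : 1 ≤ s) (T : Finset (HeightOneSpectrum (𝓞 F)))
    (hT : ∀ 𝔭 ∈ T, ¬ (absNorm 𝔭.asIdeal).Prime) :
    ∑ 𝔭 ∈ T, normPow F s 𝔭.asIdeal ≤ highBound F := by
  classical
  have h1 : ∀ 𝔭 ∈ T, normPow F s 𝔭.asIdeal ≤ (((primeBelow F 𝔭 : ℕ) : ℝ) ^ 2)⁻¹ := by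
    intro 𝔭 h𝔭
    have hsq := sq_primeBelow_le F 𝔭 (hT 𝔭 h𝔭)
    obtain ⟨n, hn, -, hp, hN⟩ := primeBelow_spec F 𝔭
    have hpos : (0 : ℝ) < (primeBelow F 𝔭 : ℝ) ^ 2 := by
      have : (0 : ℝ) < primeBelow F 𝔭 := by exact_mod_cast hp.pos
      positivity
    have hle : ((primeBelow F 𝔭 : ℝ)) ^ 2 ≤ (absNorm 𝔭.asIdeal : ℝ) := by exact_mod_cast hsq
    have h1N : (1 : ℝ) ≤ absNorm 𝔭.asIdeal := by
      have : (1 : ℝ) ≤ (primeBelow F 𝔭 : ℝ) ^ 2 := by
        have : (1 : ℝ) ≤ primeBelow F 𝔭 := by exact_mod_cast hp.one_lt.le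
        nlinarith
      linarith
    calc normPow F s 𝔭.asIdeal ≤ normPow F 1 𝔭.asIdeal :=
          normPow_anti F hs 𝔭.asIdeal one_pos
      _ = (absNorm 𝔭.asIdeal : ℝ)⁻¹ := by
          rw [normPow, Real.rpow_neg_one]
      _ ≤ (((primeBelow F 𝔭 : ℕ) : ℝ) ^ 2)⁻¹ := inv_anti₀ hpos hle
  calc ∑ 𝔭 ∈ T, normPow F s 𝔭.asIdeal
      ≤ ∑ 𝔭 ∈ T, (((primeBelow F 𝔭 : ℕ) : ℝ) ^ 2)⁻¹ := Finset.sum_le_sum h1
    _ = ∑ p ∈ T.image (primeBelow F),
          ∑ 𝔭 ∈ T.filter (fun 𝔭 => primeBelow F 𝔭 = p), (((primeBelow F 𝔭 : ℕ) : ℝ) ^ 2)⁻¹ := by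
        rw [Finset.sum_fiberwise_of_maps_to (fun 𝔭 h𝔭 => Finset.mem_image_of_mem _ h𝔭)]
    _ ≤ ∑ p ∈ T.image (primeBelow F), (Module.finrank ℤ (𝓞 F) : ℝ) * ((p : ℝ) ^ 2)⁻¹ := by
        refine Finset.sum_le_sum fun p hp => ?_
        obtain ⟨𝔮, h𝔮, rfl⟩ := Finset.mem_image.mp hp
        have hcard : (T.filter (fun 𝔭 => primeBelow F 𝔭 = primeBelow F 𝔮)).card ≤
            Module.finrank ℤ (𝓞 F) := by
          obtain ⟨n, -, -, hpr, -⟩ := primeBelow_spec F 𝔮
          refine card_le_of_natCast_mem F hpr _ fun 𝔭 h𝔭 => ?_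
          obtain ⟨-, h⟩ := Finset.mem_filter.mp h𝔭
          obtain ⟨m, -, hmem, -, -⟩ := primeBelow_spec F 𝔭
          rwa [h] at hmem
        calc ∑ 𝔭 ∈ T.filter (fun 𝔭 => primeBelow F 𝔭 = primeBelow F 𝔮),
              (((primeBelow F 𝔭 : ℕ) : ℝ) ^ 2)⁻¹
            = ∑ 𝔭 ∈ T.filter (fun 𝔭 => primeBelow F 𝔭 = primeBelow F 𝔮),
              (((primeBelow F 𝔮 : ℕ) : ℝ) ^ 2)⁻¹ := by
              refine Finset.sum_congr rfl fun 𝔭 h𝔭 => ?_
              rw [(Finset.mem_filter.mp h𝔭).2]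
          _ = ((T.filter (fun 𝔭 => primeBelow F 𝔭 = primeBelow F 𝔮)).card : ℝ) *
              (((primeBelow F 𝔮 : ℕ) : ℝ) ^ 2)⁻¹ := by
              rw [Finset.sum_const, nsmul_eq_mul]
          _ ≤ (Module.finrank ℤ (𝓞 F) : ℝ) * (((primeBelow F 𝔮 : ℕ) : ℝ) ^ 2)⁻¹ := by
              gcongr
    _ = (Module.finrank ℤ (𝓞 F) : ℝ) * ∑ p ∈ T.image (primeBelow F), ((p : ℝ) ^ 2)⁻¹ := by
        rw [Finset.mul_sum]
    _ ≤ highBound F := by
        rw [highBound]
        gcongr
        exact summable_inv_sq.sum_le_tsum _ (fun n _ => by positivity)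

lemma highBound_nonneg : 0 ≤ highBound F := by
  rw [highBound]
  have : 0 ≤ ∑' n : ℕ, ((n : ℝ) ^ 2)⁻¹ := tsum_nonneg fun n => by positivity
  positivity

/-- The primes of degree `≥ 2` contribute at most `highBound F`. -/
theorem tsum_highPrimes_le {s : ℝ} (hs : 1 < s) :
    ∑' 𝔭 : highPrimes F, normPow F s 𝔭.1.asIdeal ≤ highBound F := by
  classical
  have hsum : Summable (fun 𝔭 : highPrimes F => normPow F s 𝔭.1.asIdeal) :=
    (summable_primeSum F hs).subtype _
  refine hsum.tsum_le_of_sum_le fun T => ?_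
  have := sum_highPrimes_le F hs.le (T.image Subtype.val) (by
    intro 𝔭 h𝔭
    obtain ⟨x, -, rfl⟩ := Finset.mem_image.mp h𝔭
    exact x.2)
  rwa [Finset.sum_image (fun x _ y _ h => Subtype.ext h)] at this

/-- the primes of prime norm -/
def lowPrimes : Set (HeightOneSpectrum (𝓞 F)) := {𝔭 | (absNorm 𝔭.asIdeal).Prime}

/-- the norm map on primes of prime norm -/
def lowNorm (𝔭 : lowPrimes F) : Nat.Primes := ⟨absNorm 𝔭.1.asIdeal, 𝔭.2⟩

/-- the fibre of `lowNorm` is the set counted by `Spec.primeCount` -/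
def fibreEquiv (p : Nat.Primes) :
    {𝔭 : lowPrimes F // lowNorm F 𝔭 = p} ≃
      {𝔮 : Ideal (𝓞 F) // 𝔮.IsPrime ∧ Ideal.absNorm 𝔮 = (p : ℕ)} where
  toFun x := ⟨x.1.1.asIdeal, x.1.1.isPrime, congrArg Subtype.val x.2⟩
  invFun 𝔮 := ⟨⟨⟨𝔮.1, 𝔮.2.1, by
      rintro h
      have := 𝔮.2.2
      rw [h, Ideal.absNorm_bot] at this
      exact p.2.ne_zero this.symm⟩, by
      show (absNorm 𝔮.1).Prime
      rw [𝔮.2.2]; exact p.2⟩, Subtype.ext 𝔮.2.2⟩
  left_inv x := by
    apply Subtype.ext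
    apply Subtype.ext
    apply HeightOneSpectrum.ext
    rfl
  right_inv 𝔮 := by
    apply Subtype.ext
    rfl

end

noncomputable section Final

variable (F : Type) [Field F] [NumberField F]

lemma finite_fibre (p : Nat.Primes) : Finite {𝔭 : lowPrimes F // lowNorm F 𝔭 = p} := by
  have hfin : Finite {𝔮 : Ideal (𝓞 F) // 𝔮.IsPrime ∧ Ideal.absNorm 𝔮 = (p : ℕ)} :=
    ((Ideal.finite_setOfPred_absNorm_eq (S := 𝓞 F) (p : ℕ)).subset
      (fun 𝔮 h𝔮 => h𝔮.2)).to_subtype
  exact Finite.of_equiv _ (fibreEquiv F p).symm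

lemma card_fibre (p : Nat.Primes) :
    Nat.card {𝔭 : lowPrimes F // lowNorm F 𝔭 = p} = Spec.primeCount F p :=
  Nat.card_congr (fibreEquiv F p)

lemma tsum_fibre (s : ℝ) (p : Nat.Primes) :
    ∑' x : {𝔭 : lowPrimes F // lowNorm F 𝔭 = p}, normPow F s x.1.1.asIdeal =
      (Spec.primeCount F p : ℝ) * ((p : ℕ) : ℝ) ^ (-s) := by
  have := finite_fibre F p
  have : Fintype {𝔭 : lowPrimes F // lowNorm F 𝔭 = p} := Fintype.ofFinite _
  rw [tsum_fintype]
  have h : ∀ x : {𝔭 : lowPrimes F // lowNorm F 𝔭 = p},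
      normPow F s x.1.1.asIdeal = ((p : ℕ) : ℝ) ^ (-s) := by
    intro x
    have := congrArg Subtype.val x.2
    simp only [lowNorm] at this
    simp only [normPow, this]
  simp only [h, Finset.sum_const, Finset.card_univ, nsmul_eq_mul, ← card_fibre F p,
    Nat.card_eq_fintype_card]

/-- The sum over the primes of prime norm, indexed by the rational primes. -/
theorem tsum_lowPrimes_eq {s : ℝ} (hs : 1 < s) :
    ∑' 𝔭 : lowPrimes F, normPow F s 𝔭.1.asIdeal =
      ∑' p : Nat.Primes, (Spec.primeCount F p : ℝ) * ((p : ℕ) : ℝ) ^ (-s) := by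
  have hsum : Summable (fun 𝔭 : lowPrimes F => normPow F s 𝔭.1.asIdeal) :=
    (summable_primeSum F hs).subtype _
  have hsum' : Summable (fun y : Σ p : Nat.Primes, {𝔭 : lowPrimes F // lowNorm F 𝔭 = p} =>
      normPow F s y.2.1.1.asIdeal) :=
    ((Equiv.sigmaFiberEquiv (lowNorm F)).summable_iff
      (f := fun 𝔭 : lowPrimes F => normPow F s 𝔭.1.asIdeal)).mpr hsum
  calc ∑' 𝔭 : lowPrimes F, normPow F s 𝔭.1.asIdeal
      = ∑' y : Σ p : Nat.Primes, {𝔭 : lowPrimes F // lowNorm F 𝔭 = p},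
          normPow F s y.2.1.1.asIdeal :=
        ((Equiv.sigmaFiberEquiv (lowNorm F)).tsum_eq
          (fun 𝔭 : lowPrimes F => normPow F s 𝔭.1.asIdeal)).symm
    _ = ∑' p : Nat.Primes, ∑' x : {𝔭 : lowPrimes F // lowNorm F 𝔭 = p},
          normPow F s x.1.1.asIdeal := hsum'.tsum_sigma
    _ = _ := tsum_congr fun p => tsum_fibre F s p

/-- **Piece Z**: `Spec.PrimeSumStatement`. -/
theorem primeSum_statement : Spec.PrimeSumStatement := by
  intro F _ _
  obtain ⟨C, hC⟩ := exists_primeSum_bound F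
  refine ⟨C + highBound F, fun s hs1 hs2 => ?_⟩
  have h1 := hC s hs1 hs2
  have hsum := summable_primeSum F hs1
  have hsplit : primeSum F s =
      (∑' 𝔭 : lowPrimes F, normPow F s 𝔭.1.asIdeal) +
        ∑' 𝔭 : highPrimes F, normPow F s 𝔭.1.asIdeal := by
    have hc : highPrimes F = (lowPrimes F)ᶜ := rfl
    rw [primeSum, hc]
    exact ((hsum.subtype _).tsum_add_tsum_compl (hsum.subtype _)).symm
  have hhigh := tsum_highPrimes_le F hs1
  have hhigh0 : 0 ≤ ∑' 𝔭 : highPrimes F, normPow F s 𝔭.1.asIdeal :=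
    tsum_nonneg fun _ => normPow_nonneg F s _
  have hlog : Real.log (1 / (s - 1)) = -Real.log (s - 1) := by
    rw [one_div, Real.log_inv]
  rw [← tsum_lowPrimes_eq F hs1, hlog]
  rw [abs_le] at h1 ⊢
  rw [hsplit] at h1
  constructor <;> linarith [h1.1, h1.2]

end Final

end Fermat.Agent.Lib.Cheb.H761

end
-- ===== PACK-END Lib/Cheb/H761/PrimeSum.lean

-- ===== PACK-BEGIN Lib/Cheb/H761/PrimeCountBound.lean
section


/-!
# Piece B0 of the shared library CHEB: `Spec.PrimeCountBoundStatement`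

There are at most `[F : ℚ]` prime ideals of `𝓞 F` of any given norm.
-/

set_option autoImplicit false

namespace Fermat.Agent.Lib.Cheb.H761

open IsDedekindDomain NumberField Ideal

/-- A nonzero prime ideal of norm `n` contains the least prime factor of `n`. -/
lemma minFac_mem_of_absNorm_eq {F : Type} [Field F] [NumberField F]
    (𝔭 : HeightOneSpectrum (𝓞 F)) : ((absNorm 𝔭.asIdeal).minFac : 𝓞 F) ∈ 𝔭.asIdeal := by
  have := 𝔭.isMaximal
  obtain ⟨p, n, hn, hmem, hp, hN⟩ := Ideal.exists_prime_and_absNorm_eq_pow 𝔭.asIdeal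
  rw [hN, hp.pow_minFac hn.ne']
  exact hmem

/-- **Piece B0**: `Spec.PrimeCountBoundStatement`. -/
theorem primeCountBound_statement : Spec.PrimeCountBoundStatement := by
  classical
  intro F _ _ p
  rw [Spec.primeCount]
  have hfinset : {𝔮 : Ideal (𝓞 F) | 𝔮.IsPrime ∧ Ideal.absNorm 𝔮 = p}.Finite :=
    (Ideal.finite_setOfPred_absNorm_eq (S := 𝓞 F) p).subset (fun 𝔮 h𝔮 => h𝔮.2)
  have hd : 1 ≤ Module.finrank ℚ F := Module.finrank_pos
  rcases Nat.eq_zero_or_pos p with rfl | hp0
  · -- only the zero ideal has norm `0`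
    have hsub : Subsingleton {𝔮 : Ideal (𝓞 F) // 𝔮.IsPrime ∧ Ideal.absNorm 𝔮 = 0} := by
      refine ⟨fun a b => Subtype.ext ?_⟩
      rw [Ideal.absNorm_eq_zero_iff.mp a.2.2, Ideal.absNorm_eq_zero_iff.mp b.2.2]
    exact (Finite.card_le_one_iff_subsingleton.mpr hsub).trans hd
  · have hfin : Finite {𝔮 : Ideal (𝓞 F) // 𝔮.IsPrime ∧ Ideal.absNorm 𝔮 = p} :=
      hfinset.to_subtype
    have : Fintype {𝔮 : Ideal (𝓞 F) // 𝔮.IsPrime ∧ Ideal.absNorm 𝔮 = p} := Fintype.ofFinite _
    rw [Nat.card_eq_fintype_card]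
    by_cases hne : Nonempty {𝔮 : Ideal (𝓞 F) // 𝔮.IsPrime ∧ Ideal.absNorm 𝔮 = p}
    · -- every such prime contains `p.minFac`, which is prime
      let ι : {𝔮 : Ideal (𝓞 F) // 𝔮.IsPrime ∧ Ideal.absNorm 𝔮 = p} → HeightOneSpectrum (𝓞 F) :=
        fun 𝔮 => ⟨𝔮.1, 𝔮.2.1, by
          rintro h
          have := 𝔮.2.2
          rw [h, Ideal.absNorm_bot] at this
          omega⟩
      have hι : Function.Injective ι := by
        intro a b h
        apply Subtype.ext
        exact congrArg HeightOneSpectrum.asIdeal h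
      have hp1 : p ≠ 1 := by
        rintro rfl
        obtain ⟨𝔮⟩ := hne
        exact 𝔮.2.1.ne_top (Ideal.absNorm_eq_one_iff.mp 𝔮.2.2)
      have hprime : p.minFac.Prime := Nat.minFac_prime hp1
      have hcard := card_le_of_natCast_mem F hprime (Finset.univ.image ι) (by
        intro 𝔭 h𝔭
        obtain ⟨𝔮, -, rfl⟩ := Finset.mem_image.mp h𝔭
        have := minFac_mem_of_absNorm_eq (ι 𝔮)
        have hN : absNorm (ι 𝔮).asIdeal = p := 𝔮.2.2
        rwa [hN] at this)
      rw [Finset.card_image_of_injective _ hι, Finset.card_univ,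
        NumberField.RingOfIntegers.rank] at hcard
      exact hcard
    · rw [not_nonempty_iff] at hne
      rw [Fintype.card_eq_zero]
      exact Nat.zero_le _

end Fermat.Agent.Lib.Cheb.H761

end
-- ===== PACK-END Lib/Cheb/H761/PrimeCountBound.lean

-- ===== PACK-BEGIN S24/Deg/H457_Alg.lean
section




/-!
# S24 / DEG-ALG (helper457), part 3: the degree bound from relations over `ℂ`

Interface hypothesis `Hyp L N n` (to be proved analytically for `L = ℂ`, `n = |SL₂(ℤ)/Γ₀(N)|`):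
every element of the `L`-subalgebra of `L((q))` generated by the `j(q^d)`, `d ∣ N`, is a root of a
monic polynomial of degree `n` with coefficients in `L[j]`.

Main result: `finiteDimensional_and_finrank_le`.
-/

set_option autoImplicit false

noncomputable section

open Polynomial ModularCurve IntermediateField

namespace Fermat.Agent.S24.Deg457

section General

variable (K : Type*) [Field K] [Algebra ℚ K]

/-- `j` as a Laurent series over `K` -/
def JK : LaurentSeries K := coeffEmb K jq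

theorem JK_eq : JK K = jqModC K := by
  rw [JK, coeffEmb, ← jqModC_rat, coeffMap_jqModC]

theorem aeval_JK_ne_zero {t : K[X]} (ht : t ≠ 0) : aeval (JK K) t ≠ 0 := by
  intro hp
  rw [JK_eq] at hp
  set n := t.natDegree with hn
  have hcoeff : (aeval (jqModC K) t).coeff (-(n : ℤ)) = t.coeff n := by
    rw [aeval_def, eval₂_eq_sum_range, HahnSeries.coeff_sum, Finset.sum_eq_single n]
    · rw [algebraMap_laurentSeries_eq_single, HahnSeries.coeff_single_zero_mul,
        coeff_jqModC_pow_self, mul_one]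
    · intro i hi hin
      have hilt : i < n := lt_of_le_of_ne (Nat.lt_succ_iff.mp (Finset.mem_range.mp hi)) hin
      rw [algebraMap_laurentSeries_eq_single, HahnSeries.coeff_single_zero_mul,
        coeff_jqModC_pow_of_lt, mul_zero]
      omega
    · intro hn'
      exact absurd (Finset.self_mem_range_succ n) hn'
  rw [hp] at hcoeff
  simp only [HahnSeries.coeff_zero] at hcoeff
  exact ht (leadingCoeff_eq_zero.mp hcoeff.symm)

/-- the generators `j(q^d)`, `d ∣ N`, over `K` -/
def gens (N : ℕ) : Set (LaurentSeries K) := ⇑(coeffEmb K) '' divisorExpansions N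

/-- the `K`-algebra generated by the `j(q^d)` -/
def AK (N : ℕ) : Subalgebra K (LaurentSeries K) := Algebra.adjoin K (gens K N)

theorem JK_mem_gens (N : ℕ) : JK K ∈ gens K N := by
  refine ⟨jq, ?_, rfl⟩
  have := mem_divisorExpansions N (d := 1) (one_dvd N)
  rwa [qExpand_one_apply] at this

theorem JK_mem_AK (N : ℕ) : JK K ∈ AK K N := Algebra.subset_adjoin (JK_mem_gens K N)

theorem aeval_JK_mem_AK (N : ℕ) (t : K[X]) : aeval (JK K) t ∈ AK K N := by
  rw [aeval_def, eval₂_eq_sum_range]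
  refine Subalgebra.sum_mem _ fun i _ => ?_
  exact Subalgebra.mul_mem _ (Subalgebra.algebraMap_mem _ _)
    (Subalgebra.pow_mem _ (JK_mem_AK K N) _)

/-- The interface hypothesis. -/
def Hyp (N n : ℕ) : Prop :=
  ∀ b ∈ AK K N, ∃ P : K[X][X], P.Monic ∧ P.natDegree = n ∧ P.eval₂ (evJ (JK K)) b = 0

/-- `x` is a root of a nonzero polynomial of degree `≤ n` over `K[j]`. -/
def AlgDeg (n : ℕ) (x : LaurentSeries K) : Prop :=
  ∃ Q : K[X][X], Q ≠ 0 ∧ Q.natDegree ≤ n ∧ Q.eval₂ (evJ (JK K)) x = 0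

variable {K}

theorem eval₂_mem_AK {N : ℕ} (Q : K[X][X]) {s : LaurentSeries K} (hs : s ∈ AK K N) :
    Q.eval₂ (evJ (JK K)) s ∈ AK K N := by
  rw [eval₂_eq_sum_range]
  refine Subalgebra.sum_mem _ fun i _ => ?_
  exact Subalgebra.mul_mem _ (aeval_JK_mem_AK K N _) (Subalgebra.pow_mem _ hs _)

theorem AlgDeg.of_mul_eq {n : ℕ} {x a : LaurentSeries K} {t : K[X]} (ht : t ≠ 0)
    (hxa : x * aeval (JK K) t = a) (ha : AlgDeg K n a) : AlgDeg K n x := by
  obtain ⟨Q, hQ0, hQn, hQ⟩ := ha
  have hlin : (C t * X : K[X][X]) ≠ C ((C t * X : K[X][X]).coeff 0) := by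
    intro h
    have h1 := congrArg (fun p : K[X][X] => p.coeff 1) h
    simp only [coeff_C_mul, coeff_X_one, mul_one, coeff_X_zero, mul_zero, map_zero,
      coeff_zero] at h1
    exact ht h1
  refine ⟨Q.comp (C t * X), ?_, ?_, ?_⟩
  · intro h
    rcases (comp_eq_zero_iff.mp h) with h | ⟨_, h⟩
    · exact hQ0 h
    · exact hlin h
  · rw [natDegree_comp]
    have : (C t * X : K[X][X]).natDegree ≤ 1 := by
      refine (natDegree_C_mul_le _ _).trans ?_
      exact natDegree_X_le
    calc Q.natDegree * (C t * X : K[X][X]).natDegree ≤ Q.natDegree * 1 :=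
          Nat.mul_le_mul_left _ this
      _ = Q.natDegree := mul_one _
      _ ≤ n := hQn
  · rw [eval₂_comp, eval₂_mul, eval₂_C, eval₂_X, evJ_apply, mul_comm, hxa]
    exact hQ

/-- a nonzero algebraic element of `A` has an "inverse up to a polynomial in `j`" in `A`. -/
theorem exists_mul_eq_aeval {N n : ℕ} {s : LaurentSeries K} (hs : s ∈ AK K N) (hs0 : s ≠ 0)
    (ha : AlgDeg K n s) : ∃ g ∈ AK K N, ∃ t : K[X], t ≠ 0 ∧ s * g = aeval (JK K) t := by
  obtain ⟨Q, hQ0, -, hQ⟩ := ha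
  -- strong induction on the degree to reach a nonzero constant coefficient
  have key : ∀ m : ℕ, ∀ Q : K[X][X], Q.natDegree ≤ m → Q ≠ 0 → Q.eval₂ (evJ (JK K)) s = 0 →
      ∃ Q₁ : K[X][X], Q₁.coeff 0 ≠ 0 ∧ Q₁.eval₂ (evJ (JK K)) s = 0 := by
    intro m
    induction m with
    | zero =>
      intro Q hdeg hQ0 hQ
      refine ⟨Q, ?_, hQ⟩
      intro h0
      apply hQ0
      rw [eq_C_of_natDegree_le_zero hdeg, h0, map_zero]
    | succ m ih =>
      intro Q hdeg hQ0 hQ
      by_cases h0 : Q.coeff 0 = 0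
      · have hdiv : Q = divX Q * X := by
          conv_lhs => rw [← divX_mul_X_add Q, h0, map_zero, add_zero]
        have hd0 : divX Q ≠ 0 := by
          intro h; apply hQ0; rw [hdiv, h, zero_mul]
        have hev : (divX Q).eval₂ (evJ (JK K)) s = 0 := by
          rw [hdiv, eval₂_mul, eval₂_X] at hQ
          rcases mul_eq_zero.mp hQ with h | h
          · exact h
          · exact absurd h hs0
        refine ih (divX Q) ?_ hd0 hev
        rw [natDegree_divX_eq_natDegree_tsub_one]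
        omega
      · exact ⟨Q, h0, hQ⟩
  obtain ⟨Q₁, h0, hQ₁⟩ := key Q.natDegree Q le_rfl hQ0 hQ
  refine ⟨-(divX Q₁).eval₂ (evJ (JK K)) s, Subalgebra.neg_mem _ (eval₂_mem_AK _ hs),
    Q₁.coeff 0, h0, ?_⟩
  have hsplit : Q₁.eval₂ (evJ (JK K)) s
      = (divX Q₁).eval₂ (evJ (JK K)) s * s + aeval (JK K) (Q₁.coeff 0) := by
    conv_lhs => rw [← divX_mul_X_add Q₁]
    rw [eval₂_add, eval₂_mul, eval₂_X, eval₂_C, evJ_apply]
  rw [hQ₁] at hsplit
  linear_combination hsplit

end General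

section Descent

variable {K L : Type*} [Field K] [Algebra ℚ K] [Field L] [Algebra ℚ L]

theorem coeffMap_coeffEmb' (ι : K →+* L) (y : LaurentSeries ℚ) :
    coeffMap ι (coeffEmb K y) = coeffEmb L y := by
  rw [coeffEmb, coeffMap_coeffMap, coeffEmb]
  exact coeffMap_congr (Subsingleton.elim _ _) y

theorem coeffMap_JK (ι : K →+* L) : coeffMap ι (JK K) = JK L := coeffMap_coeffEmb' ι jq

theorem coeffMap_mem_AK (ι : K →+* L) {N : ℕ} {a : LaurentSeries K} (ha : a ∈ AK K N) :
    coeffMap ι a ∈ AK L N := by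
  unfold AK at ha
  induction ha using Algebra.adjoin_induction with
  | mem x hx =>
    obtain ⟨y, hy, rfl⟩ := hx
    rw [coeffMap_coeffEmb']
    exact Algebra.subset_adjoin ⟨y, hy, rfl⟩
  | algebraMap r =>
    rw [coeffMap_algebraMap']
    exact Subalgebra.algebraMap_mem _ _
  | add x y _ _ hx hy =>
    rw [map_add]; exact Subalgebra.add_mem _ hx hy
  | mul x y _ _ hx hy =>
    rw [map_mul]; exact Subalgebra.mul_mem _ hx hy

/-- Lemma B: elements of `A_K` are algebraic of degree `≤ n` over `K[j]`, given the hypothesis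
over the bigger field `L`. -/
theorem algDeg_of_mem_AK (ι : K →+* L) {N n : ℕ} (hyp : Hyp L N n) {a : LaurentSeries K}
    (ha : a ∈ AK K N) : AlgDeg K n a := by
  obtain ⟨P, hP, hn, h0⟩ := hyp _ (coeffMap_mem_AK ι ha)
  rw [← coeffMap_JK ι] at h0
  exact exists_relation_of_coeffMap_monic ι (JK K) a n P hP hn h0

end Descent

section Field

variable {K L : Type*} [Field K] [Algebra ℚ K] [Field L] [Algebra ℚ L]

theorem coeffEmb_mem_adjoin_gens (N : ℕ) {y : LaurentSeries ℚ}
    (hy : y ∈ IntermediateField.adjoin ℚ (divisorExpansions N)) :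
    coeffEmb K y ∈ IntermediateField.adjoin K (gens K N) := by
  refine IntermediateField.adjoin_induction ℚ
    (p := fun y _ => coeffEmb K y ∈ IntermediateField.adjoin K (gens K N)) ?_ ?_ ?_ ?_ ?_ hy
  · intro x hx
    exact IntermediateField.subset_adjoin K _ ⟨x, hx, rfl⟩
  · intro c
    have : coeffEmb K (algebraMap ℚ (LaurentSeries ℚ) c)
        = algebraMap K (LaurentSeries K) (algebraMap ℚ K c) := by
      rw [coeffEmb, coeffMap_algebraMap']
    rw [this]
    exact IntermediateField.algebraMap_mem _ _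
  · intro x y _ _ hx hy
    rw [map_add]; exact add_mem hx hy
  · intro x _ hx
    rw [map_inv₀]; exact inv_mem hx
  · intro x y _ _ hx hy
    rw [map_mul]; exact mul_mem hx hy

/-- the base-changed function field is generated over `K` by the `j(q^d)`. -/
theorem laurentBaseChange_full_le (N : ℕ) :
    laurentBaseChange K (modularFunctionFieldFull N) ≤ IntermediateField.adjoin K (gens K N) := by
  rw [laurentBaseChange, IntermediateField.adjoin_le_iff]
  rintro _ ⟨y, hy, rfl⟩
  exact coeffEmb_mem_adjoin_gens N hy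

/-- Lemma H: every element of the function field is algebraic of degree `≤ n` over `K[j]`. -/
theorem algDeg_of_mem_field (ι : K →+* L) {N n : ℕ} (hyp : Hyp L N n) {x : LaurentSeries K}
    (hx : x ∈ laurentBaseChange K (modularFunctionFieldFull N)) : AlgDeg K n x := by
  have hx' := laurentBaseChange_full_le (K := K) N hx
  rw [IntermediateField.mem_adjoin_iff_div] at hx'
  obtain ⟨r, hr, s, hs, rfl⟩ := hx'
  have hr' : r ∈ AK K N := hr
  have hs' : s ∈ AK K N := hs
  by_cases hs0 : s = 0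
  · subst hs0
    rw [div_zero]
    exact algDeg_of_mem_AK ι hyp (Subalgebra.zero_mem _)
  · obtain ⟨g, hg, t, ht, hst⟩ := exists_mul_eq_aeval hs' hs0 (algDeg_of_mem_AK ι hyp hs')
    refine AlgDeg.of_mul_eq (a := r * g) ht ?_ (algDeg_of_mem_AK ι hyp (Subalgebra.mul_mem _ hr' hg))
    rw [← hst]
    field_simp

end Field

end Fermat.Agent.S24.Deg457

end
end
-- ===== PACK-END S24/Deg/H457_Alg.lean

-- ===== PACK-BEGIN S24/Deg/H457_Main.lean
section


/-!
# S24 / DEG-ALG (helper457), part 4: the degree bound for `FF N / Kbar(jF N)`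

`finiteDimensional_and_finrank_le`: from the interface hypothesis `Hyp ℂ N n` (relations over `ℂ`)
we get `FiniteDimensional Kbar⟮jF N⟯ (FF N)` and `finrank ≤ n`.
-/

set_option autoImplicit false

noncomputable section

open Polynomial ModularCurve IntermediateField

namespace Fermat.Agent.S24.Deg457

/-- Lemma X: a bivariate relation gives integrality + degree bound over an intermediate field. -/
theorem isIntegral_and_natDegree_le_of_relation {K M E : Type*} [Field K] [Field M] [Field E]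
    [Algebra K M] [Algebra M E] [Algebra K E] [IsScalarTower K M E] (j : M)
    (hj : ∀ t : K[X], t ≠ 0 → aeval j t ≠ 0) (x : E) (Q : K[X][X]) (hQ0 : Q ≠ 0) (n : ℕ)
    (hQn : Q.natDegree ≤ n)
    (hQ : Q.eval₂ ((aeval (algebraMap M E j) : K[X] →ₐ[K] E).toRingHom) x = 0) :
    IsIntegral M x ∧ (minpoly M x).natDegree ≤ n := by
  set φ : K[X] →+* M := (aeval j : K[X] →ₐ[K] M).toRingHom with hφ
  have hφinj : Function.Injective φ := by
    rw [injective_iff_map_eq_zero]
    intro t ht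
    by_contra h0
    exact hj t h0 ht
  have hp0 : Q.map φ ≠ 0 := by
    rw [Ne, Polynomial.map_eq_zero_iff hφinj]
    exact hQ0
  have hcomp : (algebraMap M E).comp φ = (aeval (algebraMap M E j) : K[X] →ₐ[K] E).toRingHom := by
    refine Polynomial.ringHom_ext ?_ ?_
    · intro c
      simp [hφ, ← IsScalarTower.algebraMap_apply]
    · simp [hφ]
  have hroot : aeval x (Q.map φ) = 0 := by
    rw [aeval_def, eval₂_map, hcomp]
    exact hQ
  have hint : IsIntegral M x := (IsAlgebraic.isIntegral ⟨Q.map φ, hp0, hroot⟩)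
  refine ⟨hint, ?_⟩
  have h1 := minpoly.degree_le_of_ne_zero M x hp0 hroot
  have h2 := natDegree_le_natDegree h1
  exact h2.trans ((natDegree_map_le).trans hQn)

/-- an embedding `ℚ̄ → ℂ` -/
def iotaC : Kbar →+* ℂ := by
  haveI : Algebra.IsAlgebraic ℚ (AlgebraicClosure ℚ) := AlgebraicClosure.isAlgebraic ℚ
  exact ((IsAlgClosed.lift : AlgebraicClosure ℚ →ₐ[ℚ] ℂ) : AlgebraicClosure ℚ →+* ℂ)

variable (N : ℕ) [NeZero N]

theorem coe_jF : ((jF N : FF N) : LaurentSeries Kbar) = JK Kbar := rfl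

/-- **Degree bound** (DEG-ALG): from the analytic interface hypothesis over `ℂ`. -/
theorem finiteDimensional_and_finrank_le (n : ℕ) (hyp : Hyp ℂ N n) :
    FiniteDimensional ↥(IntermediateField.adjoin Kbar {jF N}) (FF N) ∧
      Module.finrank ↥(IntermediateField.adjoin Kbar {jF N}) (FF N) ≤ n := by
  refine finiteDimensional_and_finrank_le_of_forall_natDegree_minpoly_le n fun x => ?_
  obtain ⟨Q, hQ0, hQn, hQ⟩ := algDeg_of_mem_field iotaC hyp x.2
  have hinc : Function.Injective (algebraMap (FF N) (LaurentSeries Kbar)) :=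
    (algebraMap (FF N) (LaurentSeries Kbar)).injective
  refine isIntegral_and_natDegree_le_of_relation (K := Kbar)
    (AdjoinSimple.gen Kbar (jF N)) ?_ x Q hQ0 n hQn ?_
  · intro t ht h0
    apply aeval_JK_ne_zero Kbar ht
    have h1 := congrArg (algebraMap ↥(IntermediateField.adjoin Kbar {jF N}) (FF N)) h0
    rw [← aeval_algebraMap_apply, map_zero, AdjoinSimple.algebraMap_gen] at h1
    have h2 := congrArg (algebraMap (FF N) (LaurentSeries Kbar)) h1
    rw [← aeval_algebraMap_apply, map_zero] at h2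
    exact h2
  · apply hinc
    rw [map_zero, Polynomial.hom_eval₂, AdjoinSimple.algebraMap_gen]
    have hcomp : (algebraMap (FF N) (LaurentSeries Kbar)).comp
        ((aeval (jF N) : Kbar[X] →ₐ[Kbar] FF N).toRingHom) = evJ (JK Kbar) := by
      refine Polynomial.ringHom_ext ?_ ?_
      · intro c
        simp [evJ, ← IsScalarTower.algebraMap_apply]
      · simp [evJ]
        rfl
    rw [hcomp]
    exact hQ

end Fermat.Agent.S24.Deg457

end
end
-- ===== PACK-END S24/Deg/H457_Main.lean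

-- ===== PACK-BEGIN S18/H138/CechSub.lean
section


/-!
# S18, Route K, ASM (helper138): two-chart connectedness inside an ambient ring

`H558.cech_connected` is stated with `B_mid` as the ambient ring.  In the assembly the three
charts `Bf, Bi ≤ Bm` are subalgebras of a big field `F'`; this file transports the lemma.
-/

set_option autoImplicit false
set_option linter.style.haveILetI false

namespace Fermat.Agent.S18.H138

variable {R F : Type*} [CommRing R] [CommRing F] [Algebra R F]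

/-- **Two-chart connectedness, subalgebra form.**  `Bf, Bi ≤ Bm` subalgebras of an ambient
`R`-algebra `F`, `x ∈ Bf`, `y ∈ Bi`, `x y = 1`, `Bm = Bf[1/x]`, `Bf` generated over `R[x]` by
finitely many `bs i` with `y ^ D * bs i ∈ Bi`, `Bf ∩ Bi = R`, `R/w → Bf/w` injective, `w` prime.
Then a pair `e₁ ∈ Bf`, `e₂ ∈ Bi` of idempotents modulo `w` (in their charts) which are congruent
modulo `w Bm` is `(0,0)` or `(1,1)` modulo `w`. -/
theorem cech_connected_sub [IsNoetherianRing R] {ι : Type*} [Finite ι] (w : R) (x y : F)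
    (hxy : x * y = 1) (Bf Bi Bm : Subalgebra R F) (hfm : Bf ≤ Bm) (him : Bi ≤ Bm)
    (hx : x ∈ Bf) (hy : y ∈ Bi)
    (bs : ι → F) (hbs : ∀ i, bs i ∈ Bf)
    (hgen : ∀ b ∈ Bf, b ∈ Submodule.span R {z : F | ∃ (j : ℕ) (i : ι), z = x ^ j * bs i})
    (hloc : ∀ b ∈ Bm, ∃ K : ℕ, x ^ K * b ∈ Bf)
    (hinf : ∀ i, ∃ D : ℕ, y ^ D * bs i ∈ Bi)
    (hH0 : ∀ b : F, b ∈ Bf → b ∈ Bi → ∃ a : R, algebraMap R F a = b)
    (hinj : ∀ a : R, (∃ t ∈ Bf, algebraMap R F a = algebraMap R F w * t) → w ∣ a)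
    (hprime : ∀ a b : R, w ∣ a * b → w ∣ a ∨ w ∣ b)
    (e₁ e₂ : F) (he₁ : e₁ ∈ Bf) (he₂ : e₂ ∈ Bi)
    (hi₁ : ∃ t ∈ Bf, e₁ ^ 2 - e₁ = algebraMap R F w * t)
    (hi₂ : ∃ t ∈ Bi, e₂ ^ 2 - e₂ = algebraMap R F w * t)
    (h₁₂ : ∃ t ∈ Bm, e₁ - e₂ = algebraMap R F w * t) :
    ((∃ t ∈ Bf, e₁ = algebraMap R F w * t) ∧ (∃ t ∈ Bi, e₂ = algebraMap R F w * t)) ∨
    ((∃ t ∈ Bf, 1 - e₁ = algebraMap R F w * t) ∧
      (∃ t ∈ Bi, 1 - e₂ = algebraMap R F w * t)) := by
  classical
  -- the ambient ring is `Bm`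
  let ι' : Bm →ₐ[R] F := Bm.val
  have hι' : Function.Injective ι' := Subtype.val_injective
  let Bf' : Subalgebra R Bm := Bf.comap ι'
  let Bi' : Subalgebra R Bm := Bi.comap ι'
  have hxm : x ∈ Bm := hfm hx
  have hym : y ∈ Bm := him hy
  have hwm : ∀ a : R, ((algebraMap R Bm a : Bm) : F) = algebraMap R F a := fun a => rfl
  have key := H558.cech_connected (A := R) (B := Bm) (ι := ι) w ⟨x, hxm⟩ ⟨y, hym⟩
    (Subtype.ext (by simpa using hxy)) Bf' Bi' (by simpa [Bf', ι'] using hx)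
    (by simpa [Bi', ι'] using hy)
    (fun i => ⟨bs i, hfm (hbs i)⟩) (fun i => by simpa [Bf', ι'] using hbs i)
    (by
      intro b hb
      have hb' : (b : F) ∈ Bf := by simpa [Bf', ι'] using hb
      have h1 := hgen _ hb'
      -- transport the span along the injective map `Bm → F`
      have h2 : Submodule.span R {z : F | ∃ (j : ℕ) (i : ι), z = x ^ j * bs i} =
          Submodule.map ι'.toLinearMap (Submodule.span R
            {z : Bm | ∃ (j : ℕ) (i : ι), z = (⟨x, hxm⟩ : Bm) ^ j * ⟨bs i, hfm (hbs i)⟩}) := by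
        rw [Submodule.map_span]
        congr 1
        ext z
        constructor
        · rintro ⟨j, i, rfl⟩
          exact ⟨(⟨x, hxm⟩ : Bm) ^ j * ⟨bs i, hfm (hbs i)⟩, ⟨j, i, rfl⟩, by simp [ι']⟩
        · rintro ⟨z', ⟨j, i, rfl⟩, rfl⟩
          exact ⟨j, i, by simp [ι']⟩
      rw [h2] at h1
      obtain ⟨c, hc, hcb⟩ := h1
      have : c = b := hι' hcb
      rwa [this] at hc)
    (by
      intro b
      obtain ⟨K, hK⟩ := hloc b b.2
      exact ⟨K, by simpa [Bf', ι'] using hK⟩)
    (by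
      intro i
      obtain ⟨D, hD⟩ := hinf i
      exact ⟨D, by simpa [Bi', ι'] using hD⟩)
    (by
      intro b hbf hbi
      obtain ⟨a, ha⟩ := hH0 b (by simpa [Bf', ι'] using hbf) (by simpa [Bi', ι'] using hbi)
      exact ⟨a, Subtype.ext ha⟩)
    (by
      rintro a ⟨t, ht, hat⟩
      refine hinj a ⟨t, by simpa [Bf', ι'] using ht, ?_⟩
      have := congrArg (Subtype.val) hat
      simpa using this)
    hprime ⟨e₁, hfm he₁⟩ ⟨e₂, him he₂⟩ (by simpa [Bf', ι'] using he₁)
    (by simpa [Bi', ι'] using he₂)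
    (by
      obtain ⟨t, ht, h⟩ := hi₁
      exact ⟨⟨t, hfm ht⟩, by simpa [Bf', ι'] using ht, Subtype.ext (by simpa using h)⟩)
    (by
      obtain ⟨t, ht, h⟩ := hi₂
      exact ⟨⟨t, him ht⟩, by simpa [Bi', ι'] using ht, Subtype.ext (by simpa using h)⟩)
    (by
      obtain ⟨t, ht, h⟩ := h₁₂
      exact ⟨⟨t, ht⟩, Subtype.ext (by simpa using h)⟩)
  have conv : ∀ (C : Subalgebra R F) (u : F) (hu : u ∈ Bm),
      (∃ t ∈ C.comap ι', (⟨u, hu⟩ : Bm) = algebraMap R Bm w * t) →
        ∃ t ∈ C, u = algebraMap R F w * t := by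
    rintro C u hu ⟨t, ht, h⟩
    refine ⟨t, by simpa [ι'] using ht, ?_⟩
    have := congrArg Subtype.val h
    simpa using this
  rcases key with ⟨h1, h2⟩ | ⟨h1, h2⟩
  · exact Or.inl ⟨conv Bf e₁ (hfm he₁) h1, conv Bi e₂ (him he₂) h2⟩
  · refine Or.inr ⟨conv Bf (1 - e₁) (Bm.sub_mem Bm.one_mem (hfm he₁)) ?_,
      conv Bi (1 - e₂) (Bm.sub_mem Bm.one_mem (him he₂)) ?_⟩
    · obtain ⟨t, ht, h⟩ := h1
      exact ⟨t, ht, by rw [← h]; rfl⟩
    · obtain ⟨t, ht, h⟩ := h2
      exact ⟨t, ht, by rw [← h]; rfl⟩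

end Fermat.Agent.S18.H138

end
-- ===== PACK-END S18/H138/CechSub.lean

-- ===== PACK-BEGIN S18/H138/Connected.lean
section



/-!
# S18, Route K, ASM (helper138): the special fibre of the `x`-line model is connected

Setting: `R` a noetherian domain with `R[X]` integrally closed (e.g. a DVR), `w ∈ R` a prime
element, `F` a field of characteristic `0` containing `R`, `x ∈ F` transcendental over `R`,
`F` finite over the subfield `baseField R x` generated by `R` and `x`, and `R` integrally closed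
in `F` (i.e. `Frac R` is algebraically closed in `F` and `R` is normal).

`B_fin = chart R {x}`, `B_inf = chart R {x⁻¹}`, `B_mid = chart R {x, x⁻¹}` are the integral
closures of `R[x]`, `R[x⁻¹]`, `R[x, x⁻¹]` in `F`.

**Theorem** (`connected_special_fibre`).  If `e₁ ∈ B_fin`, `e₂ ∈ B_inf` are idempotent modulo
`w` (in their charts) and `e₁ ≡ e₂ mod w B_mid`, then `(e₁, e₂) ≡ (0, 0)` or `(1, 1)` modulo `w`.

This is the statement "`H⁰(X_k, O) = k`" for the normal model `X = Spec B_fin ∪ Spec B_inf`,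
proved by the two-chart Čech argument of `H558.cech_connected` (`H¹(X, O)` is a finitely
generated `R`-module).
-/

set_option autoImplicit false
set_option linter.style.haveILetI false

namespace Fermat.Agent.S18.H138

open Polynomial

variable {R : Type*} [CommRing R] {F : Type*} [Field F] [Algebra R F]

/-- Elements of the base field integral over an integrally closed subalgebra with that
fraction field lie in the subalgebra. -/
theorem mem_of_isIntegral_of_mem (A : Subalgebra R F) [IsIntegrallyClosed A] (K : Subfield F)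
    (hAK : ∀ a ∈ A, a ∈ K) (hfrac : ∀ z ∈ K, ∃ a ∈ A, ∃ b ∈ A, z = a / b)
    {z : F} (hzK : z ∈ K) (hz : IsIntegral A z) : z ∈ A := by
  have h := minpoly_coeff_mem A K hAK hfrac hz 0
  have h2 : minpoly K z = X - C (⟨z, hzK⟩ : K) :=
    minpoly.eq_X_sub_C_of_algebraMap_inj (⟨z, hzK⟩ : K) (algebraMap K F).injective
  rw [h2] at h
  simp only [coeff_sub, coeff_X_zero, coeff_C_zero, zero_sub] at h
  have : -(-z) ∈ A := A.neg_mem h
  simpa using this

/-- `R / w → B_fin / w` is injective. -/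
theorem dvd_of_algebraMap_eq_mul [IsIntegrallyClosed R[X]]
    (hinjR : Function.Injective (algebraMap R F)) {x : F} (hx : Transcendental R x)
    (w a : R) {t : F} (ht : t ∈ chart R ({x} : Set F))
    (h : algebraMap R F a = algebraMap R F w * t) : w ∣ a := by
  by_cases hw : w = 0
  · subst hw
    rw [map_zero, zero_mul] at h
    have : a = 0 := hinjR (by rw [h, map_zero])
    rw [this]
  have hwF : algebraMap R F w ≠ 0 := fun h0 => hw (hinjR (by rw [h0, map_zero]))
  haveI := isIntegrallyClosed_adjoin_singleton (R := R) hx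
  have htK : t ∈ baseField R x := by
    have : t = algebraMap R F a / algebraMap R F w := by
      rw [h, mul_div_cancel_left₀ _ hwF]
    rw [this]
    exact (baseField R x).div_mem (Subfield.subset_closure (Or.inl ⟨a, rfl⟩))
      (Subfield.subset_closure (Or.inl ⟨w, rfl⟩))
  have htA : t ∈ Algebra.adjoin R ({x} : Set F) :=
    mem_of_isIntegral_of_mem _ (baseField R x) (fun a ha => adjoin_le_baseField x ha)
      (fun z hz => exists_div_of_mem_baseField x hz) htK ht
  obtain ⟨P, rfl⟩ := mem_adjoin_singleton_iff.1 htA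
  have h3 : aeval x (C a - C w * P) = 0 := by
    rw [map_sub, map_mul, aeval_C, aeval_C, h, sub_self]
  have h4 := (transcendental_iff.1 hx) _ h3
  have h5 : C a = C w * P := sub_eq_zero.1 h4
  refine ⟨P.coeff 0, ?_⟩
  have := congrArg (fun p : R[X] => p.coeff 0) h5
  simpa using this

section Finite

variable [IsNoetherianRing R] [IsIntegrallyClosed R[X]] [CharZero F]

/-- `B_fin` is generated as an `R`-module by finitely many families `x ^ j * bs i`. -/
theorem exists_finite_gens {x : F} (hx : Transcendental R x)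
    [FiniteDimensional (baseField R x) F] :
    ∃ (n : ℕ) (bs : Fin n → F), (∀ i, bs i ∈ chart R ({x} : Set F)) ∧
      ∀ b ∈ chart R ({x} : Set F),
        b ∈ Submodule.span R {z : F | ∃ (j : ℕ) (i : Fin n), z = x ^ j * bs i} := by
  classical
  set A : Subalgebra R F := Algebra.adjoin R ({x} : Set F) with hA
  set K : Subfield F := baseField R x with hK
  haveI := isIntegrallyClosed_adjoin_singleton (R := R) hx
  haveI := isNoetherianRing_adjoin_singleton (R := R) hx
  let φ : A →+* K :=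
    { toFun := fun a => ⟨a, adjoin_le_baseField x a.2⟩
      map_one' := rfl
      map_mul' := fun _ _ => rfl
      map_zero' := rfl
      map_add' := fun _ _ => rfl }
  letI : Algebra A K := φ.toAlgebra
  haveI : IsScalarTower A K F := IsScalarTower.of_algebraMap_eq (fun _ => rfl)
  have hinj : Function.Injective (algebraMap A K) := by
    intro a b hab
    have : (a : F) = b := congrArg (fun t : K => (t : F)) hab
    exact Subtype.ext this
  haveI : FaithfulSMul A K := (faithfulSMul_iff_algebraMap_injective A K).2 hinj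
  haveI : IsFractionRing A K := by
    refine IsFractionRing.of_field A K (fun z => ?_)
    obtain ⟨a, ha, b, hb, h⟩ := exists_div_of_mem_baseField (R := R) x z.2
    exact ⟨⟨a, ha⟩, ⟨b, hb⟩, Subtype.ext h⟩
  haveI : CharZero K := (algebraMap K F).charZero
  haveI : Module.Finite A (integralClosure A F) :=
    IsIntegralClosure.finite A K F (integralClosure A F)
  obtain ⟨n, s, hs⟩ := Module.Finite.exists_fin (R := A) (M := integralClosure A F)
  refine ⟨n, fun i => (s i : F), fun i => (s i).2, ?_⟩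
  intro b hb
  set T : Submodule R F :=
    Submodule.span R {z : F | ∃ (j : ℕ) (i : Fin n), z = x ^ j * (s i : F)} with hT
  -- `T` is stable under multiplication by `x`, hence by `A`
  have hxT : ∀ z ∈ T, x * z ∈ T := by
    intro z hz
    induction hz using Submodule.span_induction with
    | mem z hz =>
      obtain ⟨j, i, rfl⟩ := hz
      exact Submodule.subset_span ⟨j + 1, i, by ring⟩
    | zero => simp
    | add y z _ _ hy hz => rw [mul_add]; exact T.add_mem hy hz
    | smul r z _ hz => rw [mul_smul_comm]; exact T.smul_mem r hz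
  have hAT : ∀ a ∈ A, ∀ z ∈ T, a * z ∈ T := by
    intro a ha
    induction ha using Algebra.adjoin_induction with
    | mem y hy =>
      rw [Set.mem_singleton_iff] at hy
      subst hy
      exact hxT
    | algebraMap r =>
      intro z hz
      rw [← Algebra.smul_def]
      exact T.smul_mem r hz
    | add y z _ _ hy hz =>
      intro u hu
      rw [add_mul]
      exact T.add_mem (hy u hu) (hz u hu)
    | mul y z _ _ hy hz =>
      intro u hu
      rw [mul_assoc]
      exact hy _ (hz u hu)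
  have hb' : (⟨b, hb⟩ : integralClosure A F) ∈ Submodule.span A (Set.range s) := by
    rw [hs]; trivial
  have key : ∀ c : integralClosure A F, c ∈ Submodule.span A (Set.range s) → (c : F) ∈ T := by
    intro c hc
    induction hc using Submodule.span_induction with
    | mem c hc =>
      obtain ⟨i, rfl⟩ := hc
      exact Submodule.subset_span ⟨0, i, by simp⟩
    | zero => simp
    | add y z _ _ hy hz => exact T.add_mem hy hz
    | smul a z _ hz => exact hAT a a.2 _ hz
  exact key _ hb'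

/-- **Connectedness of the special fibre of the normal `x`-line model.** -/
theorem connected_special_fibre
    (hinjR : Function.Injective (algebraMap R F))
    (hRF : ∀ y : F, IsIntegral R y → y ∈ Set.range (algebraMap R F))
    {x : F} (hx : Transcendental R x) [FiniteDimensional (baseField R x) F]
    (w : R) (hw : Prime w)
    (e₁ e₂ : F) (he₁ : e₁ ∈ chart R ({x} : Set F)) (he₂ : e₂ ∈ chart R ({x⁻¹} : Set F))
    (hi₁ : ∃ t ∈ chart R ({x} : Set F), e₁ ^ 2 - e₁ = algebraMap R F w * t)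
    (hi₂ : ∃ t ∈ chart R ({x⁻¹} : Set F), e₂ ^ 2 - e₂ = algebraMap R F w * t)
    (h₁₂ : ∃ t ∈ chart R ({x, x⁻¹} : Set F), e₁ - e₂ = algebraMap R F w * t) :
    ((∃ t ∈ chart R ({x} : Set F), e₁ = algebraMap R F w * t) ∧
      (∃ t ∈ chart R ({x⁻¹} : Set F), e₂ = algebraMap R F w * t)) ∨
    ((∃ t ∈ chart R ({x} : Set F), 1 - e₁ = algebraMap R F w * t) ∧
      (∃ t ∈ chart R ({x⁻¹} : Set F), 1 - e₂ = algebraMap R F w * t)) := by
  have hx0 : x ≠ 0 := ne_zero_of_transcendental hx
  obtain ⟨n, bs, hbs, hgen⟩ := exists_finite_gens (R := R) hx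
  exact cech_connected_sub (ι := Fin n) w x x⁻¹ (mul_inv_cancel₀ hx0)
    (chart R {x}) (chart R {x⁻¹}) (chart R {x, x⁻¹})
    (chart_mono (by simp)) (chart_mono (by simp))
    (mem_chart_of_mem rfl) (mem_chart_of_mem rfl) bs hbs hgen
    (fun b hb => exists_pow_mul_mem_chart hx0 hb)
    (fun i => exists_inv_pow_mul_mem_chart hx0 (hbs i))
    (fun b hbf hbi => by
      obtain ⟨a, ha⟩ := hRF b (isIntegral_of_mem_chart_inter hx hbf hbi)
      exact ⟨a, ha⟩)
    (fun a ⟨t, ht, h⟩ => dvd_of_algebraMap_eq_mul hinjR hx w a ht h)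
    (fun a b h => hw.dvd_or_dvd h)
    e₁ e₂ he₁ he₂ hi₁ hi₂ h₁₂

end Finite

end Fermat.Agent.S18.H138

end
-- ===== PACK-END S18/H138/Connected.lean

-- ===== PACK-BEGIN S28/H565/JExp.lean
section





/-!
# S28 analytic bridge, part 3: the `q`-expansions of `Δ`, `E₄` and `j` (helper565)

We identify the analytic `q`-expansions of Mathlib's `Δ`, `E₄` and of `j = E₄³/Δ` with the
formal series of the Prelude (`ModularCurve.etaProd`, `ModularCurve.eisenstein4`,
`ModularCurve.jqModC ℂ`).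
-/

set_option autoImplicit false

noncomputable section

open UpperHalfPlane Complex Function Filter Topology ModularForm
open scoped Real PowerSeries.WithPiTopology MatrixGroups

namespace Fermat.Agent.S28.H565

local notation "𝕢" => Periodic.qParam

/-- The Taylor series at `0` of a function on the unit disc, as a formal power series. -/
def taylorPS (G : ℂ → ℂ) : PowerSeries ℂ :=
  PowerSeries.mk fun n => (n.factorial : ℂ)⁻¹ * iteratedDeriv n G 0

theorem hasPExp_of_differentiableOn {G : ℂ → ℂ}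
    (hG : DifferentiableOn ℂ G (Metric.ball 0 1)) {h : ℝ} (hh : 0 < h) :
    HasPExp h (fun τ => G (𝕢 h τ)) (taylorPS G) := by
  intro τ
  have hq : 𝕢 h τ ∈ Metric.ball (0 : ℂ) 1 := by
    simpa using Periodic.norm_qParam_lt_one hh τ.im_pos
  have := hasSum_taylorSeries_on_ball hG hq
  refine this.congr_fun ?_ |>.mono_left le_rfl
  intro k
  simp only [taylorPS, PowerSeries.coeff_mk, sub_zero, smul_eq_mul]
  ring

theorem hasPExp_eulerFun {h : ℝ} (hh : 0 < h) :
    HasPExp h (fun τ => eulerFun (𝕢 h τ)) etaProdC :=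
  fun τ => hasSum_etaProdC (Periodic.norm_qParam_lt_one hh τ.im_pos)

theorem eulerFun_zero : eulerFun 0 = 1 := by
  simp [eulerFun]

theorem eulerFun_ne_zero {q : ℂ} (hq : ‖q‖ < 1) : eulerFun q ≠ 0 := by
  rcases eq_or_ne q 0 with rfl | hq0
  · rw [eulerFun_zero]; exact one_ne_zero
  · have him := Periodic.im_invQParam_pos_of_norm_lt_one one_pos hq hq0
    have h1 := ModularForm.eta_tprod_ne_zero (z := Periodic.invQParam 1 q) him
    have h2 : ∀ n : ℕ, ModularForm.eta_q n (Periodic.invQParam 1 q) = q ^ (n + 1) := by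
      intro n
      rw [ModularForm.eta_q_eq_pow]
      congr 1
      have := Periodic.qParam_right_inv one_ne_zero hq0
      simpa [Periodic.qParam] using this
    simpa [eulerFun, h2] using h1

theorem discriminant_eq_eulerFun (τ : ℍ) :
    ModularForm.discriminant τ = 𝕢 1 τ * eulerFun (𝕢 1 τ) ^ 24 := by
  rw [ModularForm.discriminant_eq_q_prod]
  have hq : ‖𝕢 1 (τ : ℂ)‖ < 1 := Periodic.norm_qParam_lt_one one_pos τ.im_pos
  have h2 : ∀ n : ℕ, ModularForm.eta_q n (τ : ℂ) = 𝕢 1 τ ^ (n + 1) := by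
    intro n
    rw [ModularForm.eta_q_eq_pow]
    simp [Periodic.qParam]
  simp only [h2]
  rw [(ModularForm.multipliable_one_sub_pow hq).tprod_pow 24]
  rfl

/-- The complex version of the formal series `dedekindEtaUnit = etaProd ^ 24`. -/
theorem map_dedekindEtaUnit :
    PowerSeries.map (Int.castRingHom ℂ) ModularCurve.dedekindEtaUnit = etaProdC ^ 24 := by
  rw [ModularCurve.dedekindEtaUnit, map_pow, etaProdC]

/-- The complex version of the formal inverse of `etaProd ^ 24`. -/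
def etaInvC : PowerSeries ℂ := PowerSeries.map (Int.castRingHom ℂ) ModularCurve.dedekindEtaUnitInv

theorem etaProdC_pow_mul_etaInvC : etaProdC ^ 24 * etaInvC = 1 := by
  rw [← map_dedekindEtaUnit, etaInvC, ← map_mul, ModularCurve.dedekindEtaUnit_mul_inv, map_one]

theorem hasPExp_eulerFun_pow_inv {h : ℝ} (hh : 0 < h) :
    HasPExp h (fun τ => (eulerFun (𝕢 h τ) ^ 24)⁻¹) etaInvC := by
  have hd : DifferentiableOn ℂ (fun q => (eulerFun q ^ 24)⁻¹) (Metric.ball 0 1) := by
    refine DifferentiableOn.inv (differentiableOn_eulerFun.pow 24) ?_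
    intro q hq
    exact pow_ne_zero _ (eulerFun_ne_zero (by simpa using hq))
  have h1 := hasPExp_of_differentiableOn hd hh
  have h2 := (hasPExp_eulerFun hh).pow 24
  have h3 := h1.mul h2
  have h4 : HasPExp h 1 (taylorPS (fun q => (eulerFun q ^ 24)⁻¹) * etaProdC ^ 24) := by
    refine h3.congr fun τ => ?_
    have hne : eulerFun (𝕢 h τ) ^ 24 ≠ 0 :=
      pow_ne_zero _ (eulerFun_ne_zero (Periodic.norm_qParam_lt_one hh τ.im_pos))
    simp only [Pi.mul_apply, Pi.pow_apply, Pi.one_apply]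
    exact inv_mul_cancel₀ hne
  have h5 : HasPExp h 1 1 := by
    have := HasPExp.const (h := h) 1
    rwa [map_one] at this
  have h6 := h4.unique hh h5
  have h7 : taylorPS (fun q => (eulerFun q ^ 24)⁻¹) = etaInvC := by
    calc taylorPS (fun q => (eulerFun q ^ 24)⁻¹)
        = taylorPS (fun q => (eulerFun q ^ 24)⁻¹) * (etaProdC ^ 24 * etaInvC) := by
          rw [etaProdC_pow_mul_etaInvC, mul_one]
      _ = etaInvC := by rw [← mul_assoc, h6, one_mul]
  rw [← h7]
  exact h1

/-- The formal `q`-expansion of `Δ`, over `ℂ`. -/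
def deltaSeriesC : LaurentSeries ℂ :=
  HahnSeries.single (1 : ℤ) (1 : ℂ) * HahnSeries.ofPowerSeries ℤ ℂ (etaProdC ^ 24)

/-- The formal `q`-expansion of `Δ⁻¹`, over `ℂ`. -/
def deltaInvSeriesC : LaurentSeries ℂ :=
  HahnSeries.single (-1 : ℤ) (1 : ℂ) * HahnSeries.ofPowerSeries ℤ ℂ etaInvC

theorem deltaSeriesC_mul_inv : deltaSeriesC * deltaInvSeriesC = 1 := by
  rw [deltaSeriesC, deltaInvSeriesC]
  have h1 : HahnSeries.single (1 : ℤ) (1 : ℂ) * HahnSeries.single (-1 : ℤ) (1 : ℂ) = 1 := by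
    rw [HahnSeries.single_mul_single]
    simp
  have h2 : HahnSeries.ofPowerSeries ℤ ℂ (etaProdC ^ 24) * HahnSeries.ofPowerSeries ℤ ℂ etaInvC
      = 1 := by
    rw [← map_mul, etaProdC_pow_mul_etaInvC, map_one]
  calc HahnSeries.single (1 : ℤ) (1 : ℂ) * HahnSeries.ofPowerSeries ℤ ℂ (etaProdC ^ 24) *
        (HahnSeries.single (-1 : ℤ) (1 : ℂ) * HahnSeries.ofPowerSeries ℤ ℂ etaInvC)
      = (HahnSeries.single (1 : ℤ) (1 : ℂ) * HahnSeries.single (-1 : ℤ) (1 : ℂ)) *
        (HahnSeries.ofPowerSeries ℤ ℂ (etaProdC ^ 24) * HahnSeries.ofPowerSeries ℤ ℂ etaInvC) := by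
          ring
    _ = 1 := by rw [h1, h2, mul_one]

/-- **`q`-expansion of `Δ`**. -/
theorem hasTExp_discriminant : HasTExp 1 ModularForm.discriminant deltaSeriesC := by
  rw [deltaSeriesC, hasTExp_single_mul_iff]
  refine ((hasPExp_eulerFun one_pos).pow 24).congr fun τ => ?_
  have hq : 𝕢 1 (τ : ℂ) ≠ 0 := Periodic.qParam_ne_zero _
  rw [discriminant_eq_eulerFun, zpow_neg, zpow_one]
  simp only [Pi.pow_apply]
  field_simp

/-- **`q`-expansion of `Δ⁻¹`**. -/
theorem hasTExp_discriminant_inv :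
    HasTExp 1 (fun τ => (ModularForm.discriminant τ)⁻¹) deltaInvSeriesC := by
  rw [deltaInvSeriesC, hasTExp_single_mul_iff]
  refine (hasPExp_eulerFun_pow_inv one_pos).congr fun τ => ?_
  have hq : 𝕢 1 (τ : ℂ) ≠ 0 := Periodic.qParam_ne_zero _
  rw [discriminant_eq_eulerFun, neg_neg, zpow_one, mul_inv]
  field_simp

/-- The complex version of the formal Eisenstein series `E₄`. -/
def e4C : PowerSeries ℂ := PowerSeries.map (Int.castRingHom ℂ) ModularCurve.eisenstein4

theorem qExpansion_E₄ : qExpansion 1 E₄ = e4C := by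
  ext m
  rw [EisensteinSeries.E_qExpansion_coeff _ ⟨2, rfl⟩, e4C, PowerSeries.coeff_map,
    ModularCurve.eisenstein4, PowerSeries.coeff_mk]
  by_cases hm : m = 0
  · simp [hm]
  · rw [if_neg hm, if_neg hm, show bernoulli 4 = -1 / 30 by decide +kernel,
      ArithmeticFunction.sigma_apply, eq_intCast]
    push_cast
    ring

/-- **`q`-expansion of `E₄`**. -/
theorem hasPExp_E₄ : HasPExp 1 E₄ e4C := by
  intro τ
  have := ModularForm.hasSum_qExpansion E₄ one_pos one_mem_strictPeriods_SL τ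
  rwa [qExpansion_E₄] at this

/-- The analytic `j`-function `E₄³/Δ`. -/
def jFun (τ : ℍ) : ℂ := E₄ τ ^ 3 / ModularForm.discriminant τ

theorem jqModC_eq : ModularCurve.jqModC ℂ =
    HahnSeries.single (-1 : ℤ) (1 : ℂ) * HahnSeries.ofPowerSeries ℤ ℂ (e4C ^ 3 * etaInvC) := by
  rw [ModularCurve.jqModC, ModularCurve.jNum, map_mul, map_pow, e4C, etaInvC]

/-- **`q`-expansion of `j`**: the analytic `j`-function has the Prelude's formal series
`jqModC ℂ` as its convergent Laurent expansion in `q = exp (2πiτ)`. -/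
theorem hasTExp_jFun : HasTExp 1 jFun (ModularCurve.jqModC ℂ) := by
  rw [jqModC_eq, hasTExp_single_mul_iff]
  refine ((hasPExp_E₄.pow 3).mul (hasPExp_eulerFun_pow_inv one_pos)).congr fun τ => ?_
  have hq : 𝕢 1 (τ : ℂ) ≠ 0 := Periodic.qParam_ne_zero _
  have hE : eulerFun (𝕢 1 τ) ^ 24 ≠ 0 :=
    pow_ne_zero _ (eulerFun_ne_zero (Periodic.norm_qParam_lt_one one_pos τ.im_pos))
  simp only [Pi.mul_apply, Pi.pow_apply, jFun]
  rw [discriminant_eq_eulerFun, neg_neg, zpow_one]
  field_simp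

end Fermat.Agent.S28.H565

end
end
-- ===== PACK-END S28/H565/JExp.lean

-- ===== PACK-BEGIN S28/H565/PolyPrinciple.lean
section






/-!
# S28 analytic bridge, part 4: the polynomial principle (helper565)

A holomorphic function on `ℍ` which is invariant under `SL(2, ℤ)` and has a convergent Laurent
expansion at `∞` (finitely many negative exponents) is a polynomial in `j`; consequently its
expansion is the same polynomial in the formal series `jqModC ℂ`.
-/

set_option autoImplicit false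

noncomputable section

open UpperHalfPlane Complex Function Filter Topology ModularForm
open scoped Real MatrixGroups Manifold

namespace Fermat.Agent.S28.H565

local notation "𝕢" => Periodic.qParam
local notation "Δ" => ModularForm.discriminant

theorem discriminant_slash (γ : SL(2, ℤ)) : (Δ ∣[(12 : ℤ)] γ) = Δ :=
  SlashInvariantForm.slash_action_generators_SL2Z discriminant_S_invariant
    discriminant_T_invariant γ

theorem discriminant_smul (γ : SL(2, ℤ)) (τ : ℍ) :
    Δ (γ • τ) = ((γ 1 0 : ℂ) * τ + (γ 1 1 : ℂ)) ^ (12 : ℤ) * Δ τ :=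
  (slash_action_eq'_iff 12 Δ γ τ).mp (congrFun (discriminant_slash γ) τ)

theorem E₄_smul (γ : SL(2, ℤ)) (τ : ℍ) :
    E₄ (γ • τ) = ((γ 1 0 : ℂ) * τ + (γ 1 1 : ℂ)) ^ (4 : ℤ) * E₄ τ := by
  have h : (⇑E₄ ∣[(4 : ℤ)] γ) = ⇑E₄ :=
    SlashInvariantForm.slash_action_eqn E₄ _ ⟨γ, rfl⟩
  exact (slash_action_eq'_iff 4 E₄ γ τ).mp (congrFun h τ)

theorem denom_ne_zero' (γ : SL(2, ℤ)) (τ : ℍ) : ((γ 1 0 : ℂ) * τ + (γ 1 1 : ℂ)) ≠ 0 := by
  have := UpperHalfPlane.denom_ne_zero (γ : GL (Fin 2) ℝ) τ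
  simpa [UpperHalfPlane.denom] using this

/-- `j` is invariant under `SL(2, ℤ)`. -/
theorem jFun_smul (γ : SL(2, ℤ)) (τ : ℍ) : jFun (γ • τ) = jFun τ := by
  have hd := denom_ne_zero' γ τ
  have hΔ := discriminant_ne_zero τ
  simp only [jFun]
  rw [discriminant_smul, E₄_smul]
  rw [mul_pow, ← zpow_natCast (((γ 1 0 : ℂ) * τ + (γ 1 1 : ℂ)) ^ (4 : ℤ)) 3, ← zpow_mul]
  norm_num
  field_simp

theorem mdifferentiable_discriminant : MDiff Δ := CuspForm.discriminant.holo'

theorem mdifferentiable_jFun : MDiff jFun := by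
  have h1 : MDiff (fun τ => E₄ τ ^ 3) := (ModularFormClass.holo E₄).pow 3
  exact h1.div mdifferentiable_discriminant discriminant_ne_zero

theorem E₄_pow_three (τ : ℍ) : E₄ τ ^ 3 = jFun τ * Δ τ := by
  rw [jFun, div_mul_cancel₀ _ (discriminant_ne_zero τ)]

theorem hasPExp_modularForm {k : ℤ} (G : ModularForm 𝒮ℒ k) :
    HasPExp 1 G (qExpansion 1 G) :=
  fun τ => ModularForm.hasSum_qExpansion G one_pos one_mem_strictPeriods_SL τ

theorem constantCoeff_e4C : PowerSeries.constantCoeff e4C = 1 := by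
  rw [e4C, ← PowerSeries.coeff_zero_eq_constantCoeff, PowerSeries.coeff_map,
    PowerSeries.coeff_zero_eq_constantCoeff, ModularCurve.constantCoeff_eisenstein4]
  simp

/-- Level one modular forms of weight `12 m` are of the form `Q(j) Δ^m` with `deg Q ≤ m`. -/
theorem exists_polynomial_of_modularForm (m : ℕ) : ∀ (k : ℤ), k = 12 * m →
    ∀ G : ModularForm 𝒮ℒ k,
      ∃ Q : Polynomial ℂ, Q.natDegree ≤ m ∧ ∀ τ, G τ = Q.eval (jFun τ) * Δ τ ^ m := by
  induction m with
  | zero =>
    intro k hk G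
    have hk0 : k = 0 := by simpa using hk
    obtain ⟨c, hc⟩ := ModularFormClass.levelOne_weight_zero_const (ModularForm.mcast hk0 G)
    refine ⟨Polynomial.C c, by simp, fun τ => ?_⟩
    have := congrFun hc τ
    simpa using this
  | succ m ih =>
    intro k hk G
    set c : ℂ := PowerSeries.coeff 0 (qExpansion 1 G) with hc
    have hw : ((3 * (m + 1) : ℕ) : ℤ) * 4 = k := by rw [hk]; push_cast; ring
    set E4pow : ModularForm 𝒮ℒ k := ModularForm.mcast hw (E₄.pow (3 * (m + 1))) with hE4pow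
    have hE4pow_apply : ∀ τ, E4pow τ = E₄ τ ^ (3 * (m + 1)) := by
      intro τ
      rw [hE4pow, ModularForm.coe_mcast, ModularForm.coe_pow]
      rfl
    set G₁ : ModularForm 𝒮ℒ k := G - c • E4pow with hG₁
    have hG₁_apply : ∀ τ, G₁ τ = G τ - c * E₄ τ ^ (3 * (m + 1)) := by
      intro τ
      simp [hG₁, hE4pow_apply]
    have hexp1 : HasPExp 1 G₁ (qExpansion 1 G - c • e4C ^ (3 * (m + 1))) := by
      refine ((hasPExp_modularForm G).sub ((hasPExp_E₄.pow (3 * (m + 1))).smul c)).congr ?_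
      intro τ
      simp [hG₁_apply]
    have hq : qExpansion 1 G₁ = qExpansion 1 G - c • e4C ^ (3 * (m + 1)) :=
      (hasPExp_modularForm G₁).unique one_pos hexp1
    have hcusp : PowerSeries.coeff 0 (qExpansion 1 G₁) = 0 := by
      rw [hq, map_sub, PowerSeries.coeff_smul, ← hc]
      simp [constantCoeff_e4C]
    have hw' : k - 12 = 12 * (m : ℤ) := by rw [hk]; push_cast; ring
    obtain ⟨Q', hQ'deg, hQ'⟩ := ih (k - 12) hw' (CuspForm.discriminantEquiv (G₁.toCuspForm hcusp))
    refine ⟨Polynomial.C c * Polynomial.X ^ (m + 1) + Q', ?_, fun τ => ?_⟩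
    · refine (Polynomial.natDegree_add_le _ _).trans (max_le ?_ (hQ'deg.trans (Nat.le_succ m)))
      exact Polynomial.natDegree_C_mul_X_pow_le c (m + 1)
    · have h1 := hQ' τ
      rw [CuspForm.discriminantEquiv_apply, ModularForm.toCuspForm_apply, hG₁_apply] at h1
      have hΔ := discriminant_ne_zero τ
      have h2 : G τ - c * E₄ τ ^ (3 * (m + 1)) = Q'.eval (jFun τ) * Δ τ ^ m * Δ τ := by
        rw [← h1, div_mul_cancel₀ _ hΔ]
      have h3 : E₄ τ ^ (3 * (m + 1)) = (jFun τ * Δ τ) ^ (m + 1) := by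
        rw [pow_mul, E₄_pow_three]
      rw [h3] at h2
      simp only [Polynomial.eval_add, Polynomial.eval_mul, Polynomial.eval_C, Polynomial.eval_pow,
        Polynomial.eval_X]
      linear_combination h2

/-- `q = t^N` for the parameters `q = exp (2πiτ)` and `t = exp (2πiτ/N)`. -/
theorem qParam_one_eq_pow (N : ℕ) (hN : N ≠ 0) (z : ℂ) : 𝕢 1 z = 𝕢 N z ^ N := by
  have h := qParam_mul_pow 1 N hN z 1
  rw [one_mul, mul_one, zpow_one, zpow_natCast] at h
  exact h.symm

theorem isBoundedAtImInfty_mul_discriminant_pow {N : ℕ} [NeZero N] {f : ℍ → ℂ}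
    {φ : LaurentSeries ℂ} (hexp : HasTExp N f φ) (m : ℕ) (hm : 0 ≤ φ.order + N * m) :
    IsBoundedAtImInfty (fun τ => f τ * Δ τ ^ m) := by
  have hN : (0 : ℝ) < N := by exact_mod_cast Nat.pos_of_ne_zero (NeZero.ne N)
  obtain ⟨k, hk⟩ := Int.eq_ofNat_of_zero_le hm
  have b1 := hexp.hasPExp.isBoundedAtImInfty hN
  have b2 := ((HasPExp.X (h := N)).pow k).isBoundedAtImInfty hN
  have b3 := ((hasPExp_eulerFun one_pos).pow (24 * m)).isBoundedAtImInfty one_pos
  have b := (b1.mul b2).mul b3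
  have hfun : (fun τ : ℍ => f τ * Δ τ ^ m) =
      ((fun τ : ℍ => f τ * 𝕢 N τ ^ (-φ.order)) * ((fun τ : ℍ => 𝕢 N τ) ^ k)) *
        ((fun τ : ℍ => eulerFun (𝕢 1 τ)) ^ (24 * m)) := by
    funext τ
    have ht : 𝕢 N (τ : ℂ) ≠ 0 := Periodic.qParam_ne_zero _
    simp only [Pi.mul_apply, Pi.pow_apply]
    rw [discriminant_eq_eulerFun, qParam_one_eq_pow N (NeZero.ne N)]
    have e1 : 𝕢 N (τ : ℂ) ^ (-φ.order) * 𝕢 N (τ : ℂ) ^ k = 𝕢 N (τ : ℂ) ^ (N * m) := by
      rw [← zpow_natCast (𝕢 N (τ : ℂ)) k, ← zpow_add₀ ht, ← hk, ← zpow_natCast]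
      congr 1
      push_cast
      ring
    rw [mul_pow, ← pow_mul]
    linear_combination (-(f τ * eulerFun (𝕢 N (τ : ℂ) ^ N) ^ (24 * m))) * e1
  rw [hfun]
  exact b

/-- **Polynomial principle.** A holomorphic `SL(2, ℤ)`-invariant function on `ℍ` with a
convergent Laurent expansion `φ` in `t = exp (2πiτ/N)` is a polynomial `Q` in `j`, and
`φ = Q (j(t^N))` as formal Laurent series. -/
theorem exists_polynomial_of_invariant {N : ℕ} [NeZero N] {f : ℍ → ℂ} {φ : LaurentSeries ℂ}
    (hf : MDiff f) (hinv : ∀ (γ : SL(2, ℤ)) (τ : ℍ), f (γ • τ) = f τ)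
    (hexp : HasTExp N f φ) :
    ∃ Q : Polynomial ℂ, (∀ τ, f τ = Q.eval (jFun τ)) ∧
      φ = Polynomial.aeval (ModularCurve.qExpand ℂ N (ModularCurve.jqModC ℂ)) Q := by
  have hN : (0 : ℝ) < N := by exact_mod_cast Nat.pos_of_ne_zero (NeZero.ne N)
  set m : ℕ := (-φ.order).toNat with hm
  have hm0 : 0 ≤ φ.order + N * m := by
    have h1 : -φ.order ≤ (m : ℤ) := Int.self_le_toNat _
    have h2 : (1 : ℤ) ≤ N := by exact_mod_cast Nat.pos_of_ne_zero (NeZero.ne N)
    nlinarith [Int.natCast_nonneg m]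
  have hbdd := isBoundedAtImInfty_mul_discriminant_pow hexp m hm0
  have hslash : ∀ γ : SL(2, ℤ),
      ((fun τ => f τ * Δ τ ^ m) ∣[(12 * m : ℤ)] γ) = fun τ => f τ * Δ τ ^ m := by
    intro γ
    funext τ
    rw [slash_action_eq'_iff, hinv, discriminant_smul, mul_pow, ← zpow_natCast
      (((γ 1 0 : ℂ) * τ + (γ 1 1 : ℂ)) ^ (12 : ℤ)) m, ← zpow_mul]
    ring
  let G : ModularForm 𝒮ℒ (12 * m) :=
    { toFun := fun τ => f τ * Δ τ ^ m
      slash_action_eq' := fun _ ⟨γ, hγ⟩ => hγ ▸ hslash γ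
      holo' := hf.mul (mdifferentiable_discriminant.pow m)
      bdd_at_cusps' := fun {c} hc => by
        rw [Subgroup.IsArithmetic.isCusp_iff_isCusp_SL2Z] at hc
        rw [OnePoint.isBoundedAt_iff_forall_SL2Z hc]
        intro γ _
        rw [hslash γ]
        exact hbdd }
  obtain ⟨Q, -, hQ⟩ := exists_polynomial_of_modularForm m _ rfl G
  have hfQ : ∀ τ, f τ = Q.eval (jFun τ) := by
    intro τ
    have h1 : f τ * Δ τ ^ m = Q.eval (jFun τ) * Δ τ ^ m := hQ τ
    exact mul_right_cancel₀ (pow_ne_zero m (discriminant_ne_zero τ)) h1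
  refine ⟨Q, hfQ, ?_⟩
  have h1 : HasTExp N jFun (ModularCurve.qExpand ℂ N (ModularCurve.jqModC ℂ)) :=
    hasTExp_jFun.qExpand_one N
  have h2 := h1.polynomial_aeval Q
  have h3 : HasTExp N f (Polynomial.aeval (ModularCurve.qExpand ℂ N (ModularCurve.jqModC ℂ)) Q) :=
    h2.congr fun τ => (hfQ τ).symm
  exact hexp.unique hN h3

end Fermat.Agent.S28.H565

end
end
-- ===== PACK-END S28/H565/PolyPrinciple.lean

-- ===== PACK-BEGIN S28/H685/EtaBridge.lean
section




/-!
# S28 helper (helper685): the formal eta product is the Taylor series of the analytic one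

The Prelude defines `ModularCurve.etaProd = ∏' n, (1 - X ^ (n + 1))` as a formal product in
`PowerSeries ℤ` (Pi topology).  We show that its coefficients are the Taylor coefficients of the
analytic function `q ↦ ∏' n, (1 - q ^ (n + 1))` on the open unit disc.
-/

set_option autoImplicit false

namespace Fermat.Agent.S28.H685

open UpperHalfPlane Function Complex Filter
open scoped Topology Manifold PowerSeries.WithPiTopology

noncomputable section

local notation "𝕢" => Periodic.qParam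

/-- Iterated derivatives of a locally uniform limit of holomorphic functions. -/
theorem tendstoLocallyUniformlyOn_iteratedDeriv {ι : Type*} {l : Filter ι} {U : Set ℂ}
    (hU : IsOpen U) {F : ι → ℂ → ℂ} {f : ℂ → ℂ} (hF : TendstoLocallyUniformlyOn F f l U)
    (hd : ∀ᶠ i in l, DifferentiableOn ℂ (F i) U) (k : ℕ) :
    TendstoLocallyUniformlyOn (fun i => iteratedDeriv k (F i)) (iteratedDeriv k f) l U ∧
      ∀ᶠ i in l, DifferentiableOn ℂ (iteratedDeriv k (F i)) U := by
  induction k with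
  | zero =>
    simp only [iteratedDeriv_zero]
    exact ⟨hF, hd⟩
  | succ k ih =>
    obtain ⟨h1, h2⟩ := ih
    refine ⟨?_, ?_⟩
    · have := h1.deriv h2 hU
      simpa only [iteratedDeriv_succ, Function.comp_def] using this
    · filter_upwards [h2] with i hi
      simpa only [iteratedDeriv_succ] using hi.deriv hU

theorem iteratedDeriv_polynomial_eval (P : Polynomial ℂ) (k : ℕ) :
    iteratedDeriv k (fun x => P.eval x) = fun x => (Polynomial.derivative^[k] P).eval x := by
  induction k with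
  | zero => simp
  | succ k ih =>
    rw [iteratedDeriv_succ, ih]
    funext x
    rw [Polynomial.deriv, Function.iterate_succ_apply']

theorem iteratedDeriv_polynomial_eval_zero (P : Polynomial ℂ) (k : ℕ) :
    iteratedDeriv k (fun x => P.eval x) 0 = k.factorial * P.coeff k := by
  rw [iteratedDeriv_polynomial_eval]
  beta_reduce
  rw [← Polynomial.coeff_zero_eq_eval_zero,
    Polynomial.coeff_iterate_derivative, zero_add, Nat.descFactorial_self, nsmul_eq_mul]

/-- The analytic eta product `∏ (1 - q ^ (n + 1))`. -/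
def etaC (q : ℂ) : ℂ := ∏' n : ℕ, (1 - q ^ (n + 1))

/-- Partial products of the eta product, as integer polynomials. -/
def etaPartial (s : Finset ℕ) : Polynomial ℤ := ∏ n ∈ s, (1 - Polynomial.X ^ (n + 1))

theorem coe_etaPartial (s : Finset ℕ) :
    ((etaPartial s : Polynomial ℤ) : PowerSeries ℤ) = ∏ n ∈ s, (1 - PowerSeries.X ^ (n + 1)) := by
  have := map_prod (Polynomial.coeToPowerSeries.ringHom (R := ℤ))
    (fun n : ℕ => (1 - Polynomial.X ^ (n + 1) : Polynomial ℤ)) s
  rw [etaPartial]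
  rw [Polynomial.coeToPowerSeries.ringHom_apply] at this
  rw [this]
  refine Finset.prod_congr rfl fun n _ => ?_
  rw [Polynomial.coeToPowerSeries.ringHom_apply]
  simp

theorem eval_etaPartial (s : Finset ℕ) (q : ℂ) :
    ((etaPartial s).map (Int.castRingHom ℂ)).eval q = ∏ n ∈ s, (1 - q ^ (n + 1)) := by
  simp [etaPartial, Polynomial.map_prod, Polynomial.eval_prod]

theorem tendsto_coeff_etaPartial (k : ℕ) :
    Tendsto (fun s : Finset ℕ => (((etaPartial s).coeff k : ℤ) : ℂ)) atTop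
      (𝓝 ((PowerSeries.coeff k ModularCurve.etaProd : ℤ) : ℂ)) := by
  have h1 : HasProd (fun n : ℕ => (1 - PowerSeries.X ^ (n + 1) : PowerSeries ℤ))
      ModularCurve.etaProd :=
    (PowerSeries.WithPiTopology.multipliable_one_sub_X_pow ℤ).hasProd
  have h2 : Tendsto (fun s : Finset ℕ => ∏ n ∈ s, (1 - PowerSeries.X ^ (n + 1) : PowerSeries ℤ))
      atTop (𝓝 ModularCurve.etaProd) := h1
  have h3 := ((PowerSeries.WithPiTopology.continuous_coeff ℤ k).tendsto _).comp h2
  have h4 : Continuous (fun n : ℤ => (n : ℂ)) := continuous_of_discreteTopology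
  have h5 := (h4.tendsto _).comp h3
  refine h5.congr fun s => ?_
  simp only [Function.comp_apply]
  rw [← coe_etaPartial, Polynomial.coeff_coe]

theorem differentiableOn_etaC : DifferentiableOn ℂ etaC (Metric.ball 0 1) :=
  ModularForm.differentiableOn_tprod_one_sub_pow

theorem taylor_etaC (k : ℕ) :
    (k.factorial : ℂ)⁻¹ * iteratedDeriv k etaC 0 =
      ((PowerSeries.coeff k ModularCurve.etaProd : ℤ) : ℂ) := by
  have hloc : TendstoLocallyUniformlyOn
      (fun (s : Finset ℕ) (q : ℂ) => ∏ n ∈ s, (1 - q ^ (n + 1))) etaC atTop (Metric.ball 0 1) :=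
    hasProdLocallyUniformlyOn_iff_tendstoLocallyUniformlyOn.mp
      ModularForm.multipliableLocallyUniformlyOn_one_sub_pow.hasProdLocallyUniformlyOn
  have hd : ∀ᶠ s : Finset ℕ in atTop,
      DifferentiableOn ℂ (fun q : ℂ => ∏ n ∈ s, (1 - q ^ (n + 1))) (Metric.ball 0 1) :=
    .of_forall fun s => by
      have : DifferentiableOn ℂ (∏ n ∈ s, fun q : ℂ => (1 - q ^ (n + 1))) (Metric.ball 0 1) :=
        DifferentiableOn.finsetProd (fun _ _ => by fun_prop)
      simpa [Finset.prod_fn] using this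
  have h1 := (tendstoLocallyUniformlyOn_iteratedDeriv Metric.isOpen_ball hloc hd k).1.tendsto_at
    (Metric.mem_ball_self (one_pos : (0 : ℝ) < 1))
  have h2 : ∀ s : Finset ℕ, iteratedDeriv k (fun q : ℂ => ∏ n ∈ s, (1 - q ^ (n + 1))) 0 =
      k.factorial * (((etaPartial s).coeff k : ℤ) : ℂ) := by
    intro s
    have := iteratedDeriv_polynomial_eval_zero ((etaPartial s).map (Int.castRingHom ℂ)) k
    simp only [eval_etaPartial, Polynomial.coeff_map, eq_intCast] at this
    exact this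
  simp only [h2] at h1
  have h3 := (tendsto_coeff_etaPartial k).const_mul (k.factorial : ℂ)
  have h4 := tendsto_nhds_unique h1 h3
  rw [h4, ← mul_assoc, inv_mul_cancel₀ (by exact_mod_cast k.factorial_ne_zero), one_mul]

/-- The formal eta product with complex coefficients. -/
def etaProdC : PowerSeries ℂ := ModularCurve.etaProd.map (Int.castRingHom ℂ)

theorem hasSum_etaC {q : ℂ} (hq : ‖q‖ < 1) :
    HasSum (fun n : ℕ => PowerSeries.coeff n etaProdC * q ^ n) (etaC q) := by
  have := Complex.hasSum_taylorSeries_on_ball differentiableOn_etaC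
    (z := q) (by simpa using hq)
  simp only [sub_zero, smul_eq_mul] at this
  have hfun : (fun n : ℕ => PowerSeries.coeff n etaProdC * q ^ n) =
      fun n : ℕ => ((n.factorial : ℂ))⁻¹ * (q ^ n * iteratedDeriv n etaC 0) := by
    funext n
    rw [etaProdC, PowerSeries.coeff_map, eq_intCast, ← taylor_etaC]
    ring
  rw [hfun]
  exact this

/-- The function `τ ↦ ∏ (1 - q ^ (n + 1))` has `q`-expansion the formal eta product. -/
theorem hasQExp_etaC : HasQExp 1 (fun τ => etaC (𝕢 1 τ)) etaProdC :=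
  fun τ => hasSum_etaC (Periodic.norm_qParam_lt_one one_pos τ.im_pos)

end

end Fermat.Agent.S28.H685

end
-- ===== PACK-END S28/H685/EtaBridge.lean

-- ===== PACK-BEGIN S28/H685/JPrinciple.lean
section



/-!
# S28 helper (helper685): the `j`-polynomial principle (abstract Hauptmodul form)

A function on `ℍ` which is the sum of a convergent Laurent series in `q = exp (2 π i τ)` with
finitely many negative exponents and which is invariant under `τ ↦ -1/τ` is a polynomial in any
"Hauptmodul" `j` (an `S`-invariant function with a convergent expansion `q⁻¹ + O(1)`), and the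
same identity holds for the formal Laurent series.
-/

set_option autoImplicit false

namespace Fermat.Agent.S28.H685

open UpperHalfPlane Function Complex Filter HahnSeries ModularForm SlashInvariantForm
  ModularFormClass
open scoped Topology Manifold MatrixGroups

noncomputable section

local notation "𝕢" => Periodic.qParam

/-- Weight-zero slash invariance is invariance. -/
theorem slash_zero_eq_of_invariant (F : ℍ → ℂ) (γ : SL(2, ℤ))
    (hγ : ∀ τ, F (γ • τ) = F τ) : F ∣[(0 : ℤ)] γ = F := by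
  ext z
  rw [SL_slash_apply]
  simp only [neg_zero, zpow_zero, mul_one]
  exact hγ z

/-- A holomorphic function, bounded at `i∞` and invariant under `S` and `T`, as a modular form
of weight zero and level one. -/
def levelOneOfInvariant (F : ℍ → ℂ) (hol : MDiff F) (bdd : IsBoundedAtImInfty F)
    (hS : ∀ τ, F (ModularGroup.S • τ) = F τ) (hT : ∀ τ, F (ModularGroup.T • τ) = F τ) :
    ModularForm 𝒮ℒ 0 where
  toFun := F
  slash_action_eq' A hA := by
    obtain ⟨A, rfl⟩ := hA
    exact slash_action_generators_SL2Z (slash_zero_eq_of_invariant F _ hS)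
      (slash_zero_eq_of_invariant F _ hT) A
  holo' := hol
  bdd_at_cusps' hc := by
    rw [Subgroup.IsArithmetic.isCusp_iff_isCusp_SL2Z] at hc
    rw [OnePoint.isBoundedAt_iff_forall_SL2Z hc]
    intro γ _
    rw [slash_action_generators_SL2Z (slash_zero_eq_of_invariant F _ hS)
      (slash_zero_eq_of_invariant F _ hT)]
    exact bdd

/-- A holomorphic function on `ℍ`, bounded at `i∞` and invariant under `S` and `T`, is
constant. -/
theorem exists_const_of_invariant (F : ℍ → ℂ) (hol : MDiff F) (bdd : IsBoundedAtImInfty F)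
    (hS : ∀ τ, F (ModularGroup.S • τ) = F τ) (hT : ∀ τ, F (ModularGroup.T • τ) = F τ) :
    ∃ c : ℂ, ∀ τ, F τ = c := by
  obtain ⟨c, hc⟩ := levelOne_weight_zero_const (levelOneOfInvariant F hol bdd hS hT)
  exact ⟨c, fun τ => congrFun hc τ⟩

/-- Invariance under `T` of a function given by a `q`-series of period one. -/
theorem HasQLaurent.T_invariant {F : ℍ → ℂ} {φ : LaurentSeries ℂ} (hF : HasQLaurent 1 F φ)
    (τ : ℍ) : F (ModularGroup.T • τ) = F τ := by
  refine hF.vadd_period one_pos τ _ ?_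
  rw [UpperHalfPlane.modular_T_smul]
  simp [add_comm]

/-- A Laurent series without negative exponents is a power series. -/
theorem exists_ofPowerSeries_eq (φ : LaurentSeries ℂ) (hφ : ∀ n : ℤ, n < 0 → φ.coeff n = 0) :
    ∃ A : PowerSeries ℂ, HahnSeries.ofPowerSeries ℤ ℂ A = φ := by
  refine ⟨PowerSeries.mk fun n => φ.coeff n, ?_⟩
  ext n
  rcases lt_or_ge n 0 with hn | hn
  · rw [ofPS_coeff_of_neg _ hn, hφ n hn]
  · lift n to ℕ using hn
    rw [HahnSeries.ofPowerSeries_apply_coeff, PowerSeries.coeff_mk]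

/-- The constant case of the principle. -/
theorem exists_const_of_S_invariant (F : ℍ → ℂ) (φ : LaurentSeries ℂ)
    (hφ : ∀ n : ℤ, n < 0 → φ.coeff n = 0) (hF : HasQLaurent 1 F φ)
    (hS : ∀ τ, F (ModularGroup.S • τ) = F τ) :
    ∃ c : ℂ, φ = HahnSeries.C c ∧ ∀ τ, F τ = c := by
  obtain ⟨A, rfl⟩ := exists_ofPowerSeries_eq φ hφ
  have hA : HasQExp 1 F A := hF.hasQExp_of_ofPowerSeries
  obtain ⟨c, hc⟩ := exists_const_of_invariant F (hA.mdifferentiable one_pos)
    (hA.isBoundedAtImInfty one_pos) hS hF.T_invariant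
  refine ⟨c, ?_, hc⟩
  have h1 : HasQLaurent 1 (fun _ => c) (HahnSeries.ofPowerSeries ℤ ℂ A) := hF.congr_fun hc
  exact h1.unique one_pos (HasQLaurent.const c)

/-- Structure of the powers of a series `q⁻¹ (1 + O(q))`. -/
theorem hauptmodul_pow (J : PowerSeries ℂ) (n : ℕ) :
    (HahnSeries.single (-1 : ℤ) (1 : ℂ) * HahnSeries.ofPowerSeries ℤ ℂ J) ^ n =
      HahnSeries.single (-(n : ℤ)) (1 : ℂ) * HahnSeries.ofPowerSeries ℤ ℂ (J ^ n) := by
  have h : n • (-1 : ℤ) = -(n : ℤ) := by simp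
  rw [mul_pow, HahnSeries.single_pow, one_pow, h, ← map_pow]

theorem coeff_hauptmodul_pow_self (J : PowerSeries ℂ) (hJ : PowerSeries.constantCoeff J = 1)
    (n : ℕ) :
    ((HahnSeries.single (-1 : ℤ) (1 : ℂ) * HahnSeries.ofPowerSeries ℤ ℂ J) ^ n).coeff
      (-(n : ℤ)) = 1 := by
  rw [hauptmodul_pow]
  have := coeff_single_mul_ofPS (-(n : ℤ)) (J ^ n) 0
  simp only [Nat.cast_zero, zero_add] at this
  rw [this, PowerSeries.coeff_zero_eq_constantCoeff, map_pow, hJ, one_pow]

theorem coeff_hauptmodul_pow_of_lt (J : PowerSeries ℂ) (n : ℕ) {k : ℤ} (hk : k < -(n : ℤ)) :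
    ((HahnSeries.single (-1 : ℤ) (1 : ℂ) * HahnSeries.ofPowerSeries ℤ ℂ J) ^ n).coeff k = 0 := by
  rw [hauptmodul_pow]
  exact coeff_single_mul_ofPS_of_lt _ _ hk

/-- **The `j`-polynomial principle**, abstract form. -/
theorem exists_polynomial_of_S_invariant_aux
    (jF : ℍ → ℂ) (J : PowerSeries ℂ) (hJ0 : PowerSeries.constantCoeff J = 1)
    (hj : HasQLaurent 1 jF (HahnSeries.single (-1 : ℤ) (1 : ℂ) * HahnSeries.ofPowerSeries ℤ ℂ J))
    (hjS : ∀ τ, jF (ModularGroup.S • τ) = jF τ) :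
    ∀ (m : ℕ) (F : ℍ → ℂ) (φ : LaurentSeries ℂ), (∀ n : ℤ, n < -(m : ℤ) → φ.coeff n = 0) →
      HasQLaurent 1 F φ → (∀ τ, F (ModularGroup.S • τ) = F τ) →
      ∃ P : Polynomial ℂ, P.natDegree ≤ m ∧
        φ = Polynomial.aeval
          (HahnSeries.single (-1 : ℤ) (1 : ℂ) * HahnSeries.ofPowerSeries ℤ ℂ J) P ∧
        ∀ τ, F τ = P.eval (jF τ) := by
  intro m
  induction m with
  | zero =>
    intro F φ hφ hF hS
    obtain ⟨c, hc, hFc⟩ := exists_const_of_S_invariant F φ (by simpa using hφ) hF hS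
    refine ⟨Polynomial.C c, by simp, ?_, fun τ => by simpa using hFc τ⟩
    rw [hc, Polynomial.aeval_C, algebraMap_eq_C]
  | succ m ih =>
    intro F φ hφ hF hS
    set jφ := HahnSeries.single (-1 : ℤ) (1 : ℂ) * HahnSeries.ofPowerSeries ℤ ℂ J with hjφ
    set a := φ.coeff (-((m + 1 : ℕ) : ℤ)) with ha
    have hF' : HasQLaurent 1 (fun τ => F τ - a * jF τ ^ (m + 1))
        (φ - HahnSeries.C a * jφ ^ (m + 1)) := hF.sub ((hj.pow (m + 1)).const_mul a)
    have hS' : ∀ τ, (fun τ => F τ - a * jF τ ^ (m + 1)) (ModularGroup.S • τ) =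
        (fun τ => F τ - a * jF τ ^ (m + 1)) τ := by
      intro τ
      simp only [hS τ, hjS τ]
    have hφ' : ∀ n : ℤ, n < -(m : ℤ) → (φ - HahnSeries.C a * jφ ^ (m + 1)).coeff n = 0 := by
      intro n hn
      rw [HahnSeries.coeff_sub, HahnSeries.C_mul_eq_smul, HahnSeries.coeff_smul, smul_eq_mul]
      rcases lt_or_eq_of_le (show n ≤ -((m + 1 : ℕ) : ℤ) by push_cast; omega) with h1 | h1
      · rw [hφ n h1, coeff_hauptmodul_pow_of_lt J (m + 1) h1, mul_zero, sub_zero]
      · rw [h1, coeff_hauptmodul_pow_self J hJ0 (m + 1), mul_one, ← ha, sub_self]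
    obtain ⟨P, hPdeg, hPφ, hPF⟩ := ih _ _ hφ' hF' hS'
    refine ⟨P + Polynomial.C a * Polynomial.X ^ (m + 1), ?_, ?_, ?_⟩
    · refine (Polynomial.natDegree_add_le _ _).trans (max_le (hPdeg.trans (Nat.le_succ m)) ?_)
      exact (Polynomial.natDegree_C_mul_X_pow_le a (m + 1))
    · rw [map_add, ← hPφ, map_mul, map_pow, Polynomial.aeval_X, Polynomial.aeval_C,
        algebraMap_eq_C]
      ring
    · intro τ
      have := hPF τ
      simp only [Polynomial.eval_add, Polynomial.eval_mul, Polynomial.eval_C,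
        Polynomial.eval_pow, Polynomial.eval_X]
      rw [← this]
      ring

end

end Fermat.Agent.S28.H685

end
-- ===== PACK-END S28/H685/JPrinciple.lean

-- ===== PACK-BEGIN S28/H685/JFun.lean
section





/-!
# S28 helper (helper685): the analytic `j`-function and its formal `q`-expansion

* `jFun τ = E₄ τ ^ 3 / Δ τ`, holomorphic on `ℍ`, invariant under `SL(2, ℤ)`.
* `hasQLaurent_jFun` : `jFun` is the sum of the Prelude's formal series `ModularCurve.jqModC ℂ`
  (the image of `ModularCurve.jq` in `ℂ((q))`).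
* `exists_polynomial_of_S_invariant` : **the `j`-polynomial principle**.
* `exists_polynomial_of_S_invariant_of_mem` : integrality of the polynomial.
-/

set_option autoImplicit false

namespace Fermat.Agent.S28.H685

open UpperHalfPlane Function Complex Filter HahnSeries ModularForm SlashInvariantForm
  ModularFormClass EisensteinSeries
open scoped Topology Manifold MatrixGroups

noncomputable section

local notation "𝕢" => Periodic.qParam

/-- The analytic `j`-function (normalised as `q⁻¹ + 744 + ⋯`). -/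
def jFun (τ : ℍ) : ℂ := E₄ τ ^ 3 / ModularForm.discriminant τ

/-- The formal `q`-expansion of `E₄`, with complex coefficients. -/
def eisenstein4C : PowerSeries ℂ := ModularCurve.eisenstein4.map (Int.castRingHom ℂ)

theorem qExpansion_E4_eq : qExpansion 1 E₄ = eisenstein4C := by
  ext m
  rw [E_qExpansion_coeff _ ⟨2, rfl⟩]
  simp only [eisenstein4C, ModularCurve.eisenstein4, PowerSeries.coeff_map, PowerSeries.coeff_mk]
  split_ifs with h
  · simp
  · rw [show bernoulli 4 = -1 / 30 by decide +kernel, ArithmeticFunction.sigma_apply]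
    simp only [eq_intCast]
    push_cast
    norm_num

theorem hasQExp_E4 : HasQExp 1 E₄ eisenstein4C := by
  intro τ
  have := ModularForm.hasSum_qExpansion E₄ one_pos one_mem_strictPeriods_SL τ
  rwa [qExpansion_E4_eq] at this

theorem discriminant_eq_etaC (τ : ℍ) :
    ModularForm.discriminant τ = 𝕢 1 τ * etaC (𝕢 1 τ) ^ 24 := by
  rw [discriminant_eq_q_prod]
  congr 1
  have hq : ‖𝕢 1 (τ : ℂ)‖ < 1 := Periodic.norm_qParam_lt_one one_pos τ.im_pos
  rw [etaC, ← (multipliable_one_sub_pow hq).tprod_pow]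

theorem etaC_qParam_ne_zero (τ : ℍ) : etaC (𝕢 1 τ) ≠ 0 := by
  intro h0
  have := discriminant_ne_zero τ
  rw [discriminant_eq_etaC, h0] at this
  simp at this

/-- The formal series `η^24 / q`, with complex coefficients. -/
def dedekindEtaUnitC : PowerSeries ℂ := ModularCurve.dedekindEtaUnit.map (Int.castRingHom ℂ)

theorem dedekindEtaUnitC_eq : dedekindEtaUnitC = etaProdC ^ 24 := by
  rw [dedekindEtaUnitC, ModularCurve.dedekindEtaUnit, map_pow, etaProdC]

theorem hasQExp_dedekindEtaUnitC : HasQExp 1 (fun τ => etaC (𝕢 1 τ) ^ 24) dedekindEtaUnitC := by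
  rw [dedekindEtaUnitC_eq]
  exact hasQExp_etaC.pow 24

theorem dedekindEtaUnitC_inv :
    dedekindEtaUnitC⁻¹ = ModularCurve.dedekindEtaUnitInv.map (Int.castRingHom ℂ) := by
  have h0 : PowerSeries.constantCoeff dedekindEtaUnitC ≠ 0 := by
    rw [dedekindEtaUnitC, ← PowerSeries.coeff_zero_eq_constantCoeff, PowerSeries.coeff_map,
      PowerSeries.coeff_zero_eq_constantCoeff, ModularCurve.constantCoeff_dedekindEtaUnit]
    simp
  symm
  rw [PowerSeries.eq_inv_iff_mul_eq_one h0, dedekindEtaUnitC, ← map_mul, mul_comm,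
    ModularCurve.dedekindEtaUnit_mul_inv, map_one]

/-- The formal numerator of `j`, with complex coefficients. -/
def jNumC : PowerSeries ℂ := ModularCurve.jNum.map (Int.castRingHom ℂ)

theorem jNumC_eq : jNumC = eisenstein4C ^ 3 * dedekindEtaUnitC⁻¹ := by
  rw [jNumC, ModularCurve.jNum, map_mul, map_pow, dedekindEtaUnitC_inv, eisenstein4C]

theorem constantCoeff_jNumC : PowerSeries.constantCoeff jNumC = 1 := by
  rw [jNumC, ← PowerSeries.coeff_zero_eq_constantCoeff, PowerSeries.coeff_map,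
    PowerSeries.coeff_zero_eq_constantCoeff, ModularCurve.constantCoeff_jNum]
  simp

theorem hasQExp_jNumC : HasQExp 1 (fun τ => E₄ τ ^ 3 * (etaC (𝕢 1 τ) ^ 24)⁻¹) jNumC := by
  rw [jNumC_eq]
  refine (hasQExp_E4.pow 3).mul (hasQExp_dedekindEtaUnitC.inv one_pos
    (fun τ => pow_ne_zero _ (etaC_qParam_ne_zero τ)) ?_)
  rw [dedekindEtaUnitC, PowerSeries.coeff_map, PowerSeries.coeff_zero_eq_constantCoeff,
    ModularCurve.constantCoeff_dedekindEtaUnit]
  simp

theorem jqModC_eq : ModularCurve.jqModC ℂ =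
    HahnSeries.single (-1 : ℤ) (1 : ℂ) * HahnSeries.ofPowerSeries ℤ ℂ jNumC := rfl

/-- **Bridge**: the analytic `j`-function is the sum of the Prelude's formal series `jq`. -/
theorem hasQLaurent_jFun : HasQLaurent 1 jFun (ModularCurve.jqModC ℂ) := by
  rw [jqModC_eq, hasQLaurent_single_mul_iff]
  refine hasQExp_jNumC.congr_fun fun τ => ?_
  have hq : 𝕢 1 (τ : ℂ) ≠ 0 := Periodic.qParam_ne_zero _
  have hη := etaC_qParam_ne_zero τ
  rw [jFun, discriminant_eq_etaC]
  simp only [neg_neg, zpow_one]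
  field_simp

/-- `jFun` in the explicit `HasSum` form, in terms of `ModularCurve.jq`. -/
theorem hasSum_jq (τ : ℍ) :
    HasSum (fun n : ℤ => ((ModularCurve.jq.coeff n : ℚ) : ℂ) * 𝕢 1 τ ^ n) (jFun τ) := by
  have := hasQLaurent_jFun τ
  have hc : ∀ n : ℤ, (ModularCurve.jqModC ℂ).coeff n = ((ModularCurve.jq.coeff n : ℚ) : ℂ) := by
    intro n
    rw [← ModularCurve.jqModC_rat, ← ModularCurve.map_jqModC (algebraMap ℚ ℂ),
      HahnSeries.map_coeff]
    rfl
  simpa only [hc] using this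

theorem jFun_S (τ : ℍ) : jFun (ModularGroup.S • τ) = jFun τ := by
  have hS : ((ModularGroup.S : SL(2, ℤ)) : GL (Fin 2) ℝ) ∈ 𝒮ℒ := ⟨ModularGroup.S, rfl⟩
  have h1 : E₄ (ModularGroup.S • τ) = _ := slash_action_eqn'' E₄ hS τ
  have h2 : CuspForm.discriminant (ModularGroup.S • τ) = _ :=
    slash_action_eqn'' CuspForm.discriminant hS τ
  have hd : denom ((ModularGroup.S : SL(2, ℤ)) : GL (Fin 2) ℝ) τ ≠ 0 := denom_ne_zero _ _
  have hΔ := discriminant_ne_zero τ
  rw [CuspForm.coe_discriminant] at h2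
  rw [jFun, jFun]
  rw [h1, h2]
  rw [div_eq_div_iff (mul_ne_zero (zpow_ne_zero _ hd) hΔ) hΔ]
  rw [mul_pow, ← zpow_natCast, ← zpow_mul]
  norm_num
  ring

theorem jFun_T (τ : ℍ) : jFun (ModularGroup.T • τ) = jFun τ :=
  hasQLaurent_jFun.T_invariant τ

theorem mdifferentiable_jFun : MDiff jFun :=
  hasQLaurent_jFun.mdifferentiable one_pos

/-- **The `j`-polynomial principle.**  A function on `ℍ` which is the sum of a convergent
Laurent series `φ` in `q = exp (2 π i τ)` with exponents `≥ -m` and which is invariant under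
`τ ↦ -1/τ` is a polynomial of degree `≤ m` in `j`; the same identity holds formally. -/
theorem exists_polynomial_of_S_invariant (m : ℕ) (F : ℍ → ℂ) (φ : LaurentSeries ℂ)
    (hφ : ∀ n : ℤ, n < -(m : ℤ) → φ.coeff n = 0) (hF : HasQLaurent 1 F φ)
    (hS : ∀ τ, F (ModularGroup.S • τ) = F τ) :
    ∃ P : Polynomial ℂ, P.natDegree ≤ m ∧ φ = Polynomial.aeval (ModularCurve.jqModC ℂ) P ∧
      ∀ τ, F τ = P.eval (jFun τ) :=
  exists_polynomial_of_S_invariant_aux jFun jNumC constantCoeff_jNumC hasQLaurent_jFun jFun_S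
    m F φ hφ hF hS

/-- Version without an a priori bound on the pole order. -/
theorem exists_polynomial_of_S_invariant' (F : ℍ → ℂ) (φ : LaurentSeries ℂ)
    (hF : HasQLaurent 1 F φ) (hS : ∀ τ, F (ModularGroup.S • τ) = F τ) :
    ∃ P : Polynomial ℂ, φ = Polynomial.aeval (ModularCurve.jqModC ℂ) P ∧
      ∀ τ, F τ = P.eval (jFun τ) := by
  obtain ⟨P, -, h1, h2⟩ := exists_polynomial_of_S_invariant (-φ.order).toNat F φ
    (fun n hn => HahnSeries.coeff_eq_zero_of_lt_order (by omega)) hF hS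
  exact ⟨P, h1, h2⟩

end

end Fermat.Agent.S28.H685

end
-- ===== PACK-END S28/H685/JFun.lean

-- ===== PACK-BEGIN S24/Alg/LocPlace.lean
section


/-!
# S24 / ALG-LOC, part 2: the place cut out by an embedding into Laurent series
-/

set_option autoImplicit false

noncomputable section

open AlgebraicCurve

namespace Fermat.Agent.S24.H144

variable {K F : Type*} [Field K] [Field F] [Algebra K F]
variable {C : Type*} [Field C]

/-- The valuation subring of `F` cut out by an embedding `σ : F → C((z))`. -/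
def locValSubring (σ : F →+* LaurentSeries C) : ValuationSubring F where
  carrier := {f | 0 ≤ (σ f).order}
  mul_mem' := by
    intro a b ha hb
    simp only [Set.mem_setOf_eq] at ha hb ⊢
    rcases eq_or_ne a 0 with rfl | ha0
    · simp
    rcases eq_or_ne b 0 with rfl | hb0
    · simp
    rw [loc_order_map_mul σ ha0 hb0]; omega
  one_mem' := by simp [loc_order_map_one]
  add_mem' := by
    intro a b ha hb
    simp only [Set.mem_setOf_eq] at ha hb ⊢
    rcases eq_or_ne (a + b) 0 with h | h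
    · rw [h]; simp
    · have := loc_order_map_add_le σ h
      exact le_trans (le_min ha hb) this
  zero_mem' := by simp
  neg_mem' := by
    intro a ha
    simp only [Set.mem_setOf_eq] at ha ⊢
    rw [map_neg, HahnSeries.order_neg]; exact ha
  mem_or_inv_mem' := by
    intro a
    simp only [Set.mem_setOf_eq]
    rw [loc_order_map_inv]
    omega

@[simp]
theorem mem_locValSubring (σ : F →+* LaurentSeries C) (f : F) :
    f ∈ locValSubring σ ↔ 0 ≤ (σ f).order := Iff.rfl

theorem locValSubring_isPrincipalIdealRing (σ : F →+* LaurentSeries C) :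
    IsPrincipalIdealRing (locValSubring σ) := by
  classical
  refine ⟨fun I => ?_⟩
  by_cases hI : I = ⊥
  · rw [hI]; exact ⟨⟨0, by simp⟩⟩
  -- pick a nonzero element of minimal order
  have hne : ∃ n : ℕ, ∃ a ∈ I, a ≠ 0 ∧ (σ (a : F)).order.toNat = n := by
    obtain ⟨a, ha, ha0⟩ := Submodule.exists_mem_ne_zero_of_ne_bot hI
    exact ⟨_, a, ha, ha0, rfl⟩
  obtain ⟨a, haI, ha0, han⟩ := Nat.find_spec hne
  have hmin : ∀ b ∈ I, b ≠ 0 → (σ (a : F)).order ≤ (σ (b : F)).order := by
    intro b hb hb0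
    have h1 : Nat.find hne ≤ (σ (b : F)).order.toNat := Nat.find_min' hne ⟨b, hb, hb0, rfl⟩
    have h2 : 0 ≤ (σ (a : F)).order := a.2
    have h3 : 0 ≤ (σ (b : F)).order := b.2
    omega
  have haF : (a : F) ≠ 0 := by simpa using ha0
  refine ⟨⟨a, le_antisymm ?_ ?_⟩⟩
  · intro b hb
    rw [Submodule.mem_span_singleton]
    rcases eq_or_ne b 0 with rfl | hb0
    · exact ⟨0, by simp⟩
    have hbF : (b : F) ≠ 0 := by simpa using hb0
    have hq : (b : F) * (a : F)⁻¹ ∈ locValSubring σ := by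
      rw [mem_locValSubring, loc_order_map_mul σ hbF (inv_ne_zero haF), loc_order_map_inv]
      have := hmin b hb hb0
      omega
    refine ⟨⟨_, hq⟩, ?_⟩
    ext
    simp [haF]
  · rw [Submodule.span_le]
    intro b hb
    rw [Set.mem_singleton_iff] at hb
    rw [hb]; exact haI

/-- The place of `F` cut out by an embedding `σ : F → C((z))` which is constant on `K`
and has some element of negative order. -/
def placeOfEmb (σ : F →+* LaurentSeries C)
    (hK : ∀ c : K, 0 ≤ (σ (algebraMap K F c)).order)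
    (hneg : ∃ f : F, (σ f).order < 0) : Place K F where
  toValuationSubring := locValSubring σ
  algebraMap_mem' := hK
  ne_top' := by
    obtain ⟨f, hf⟩ := hneg
    intro h
    have : f ∈ locValSubring σ := by rw [h]; exact ValuationSubring.mem_top f
    rw [mem_locValSubring] at this
    omega
  isPrincipalIdealRing' := locValSubring_isPrincipalIdealRing σ

theorem induces_placeOfEmb (σ : F →+* LaurentSeries C)
    (hK : ∀ c : K, 0 ≤ (σ (algebraMap K F c)).order)
    (hneg : ∃ f : F, (σ f).order < 0) : Induces σ (placeOfEmb σ hK hneg) :=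
  fun _ => Iff.rfl

/-- Two places induced by the same embedding coincide. -/
theorem Induces.unique {σ : F →+* LaurentSeries C} {v w : Place K F}
    (hv : Induces σ v) (hw : Induces σ w) : v = w := by
  apply Place.ext
  ext f
  rw [hv f, hw f]

/-- If two embeddings have the same order function, they induce the same places. -/
theorem Induces.of_order_eq {σ τ : F →+* LaurentSeries C} {v : Place K F}
    (hv : Induces σ v) (h : ∀ f, (τ f).order = (σ f).order) : Induces τ v :=
  fun f => by rw [hv f, h f]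

end Fermat.Agent.S24.H144

end
end
-- ===== PACK-END S24/Alg/LocPlace.lean

-- ===== PACK-BEGIN S24/Alg/LocApprox.lean
section


/-!
# S24 / ALG-LOC: approximation for finitely many places

Distinct places are incomparable; for a place `v` outside a finite set `S` of places there is a
function with a pole at `v` and zeros at all places of `S`.
-/

set_option autoImplicit false

noncomputable section

open AlgebraicCurve

namespace Fermat.Agent.S24.H144

variable {K F : Type*} [Field K] [Field F] [Algebra K F]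

/-- Every place has an element of order `1`. -/
theorem loc_exists_ord_eq_one (v : Place K F) : ∃ h : F, v.ord h = 1 := by
  obtain ⟨π, hπ⟩ := IsDiscreteValuationRing.exists_irreducible v.toValuationSubring
  exact ⟨π, v.ord_coe_irreducible hπ⟩

theorem loc_ne_zero_of_ord_ne_zero (v : Place K F) {f : F} (h : v.ord f ≠ 0) : f ≠ 0 := by
  rintro rfl; exact h v.ord_zero

/-- The valuation rings of two places are comparable only if the places are equal. -/
theorem loc_eq_of_le {v w : Place K F} (h : v.toValuationSubring ≤ w.toValuationSubring) :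
    v = w := by
  apply Place.ext
  refine le_antisymm h ?_
  intro f hf
  by_contra hfv
  have hfw : 0 ≤ w.ord f := loc_ord_nonneg_of_mem w hf
  have hfv' : v.ord f < 0 := by
    by_contra h0
    exact hfv (loc_mem_of_ord_nonneg v (not_lt.mp h0))
  have hf0 : f ≠ 0 := loc_ne_zero_of_ord_ne_zero v hfv'.ne
  obtain ⟨h1, hh1⟩ := loc_exists_ord_eq_one w
  have hh0 : h1 ≠ 0 := loc_ne_zero_of_ord_ne_zero w (by omega)
  -- choose `r` large
  set r : ℕ := (v.ord h1).toNat + 1 with hr
  have hfr : f ^ r ≠ 0 := pow_ne_zero r hf0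
  have hv : v.ord (f ^ r * h1) < 0 := by
    rw [v.ord_mul hfr hh0, loc_ord_pow]
    have : (r : ℤ) * v.ord f ≤ -(r : ℤ) := by nlinarith
    have : v.ord h1 ≤ (v.ord h1).toNat := Int.self_le_toNat _
    have : (r : ℤ) = (v.ord h1).toNat + 1 := by rw [hr]; push_cast; ring
    omega
  have hmem : (f ^ r * h1)⁻¹ ∈ w.toValuationSubring := by
    apply h
    apply loc_mem_of_ord_nonneg
    rw [v.ord_inv]; omega
  have hw := loc_ord_nonneg_of_mem w hmem
  rw [w.ord_inv, w.ord_mul hfr hh0, loc_ord_pow, hh1] at hw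
  have : 0 ≤ (r : ℤ) * w.ord f := mul_nonneg (Int.natCast_nonneg r) hfw
  omega

/-- Two distinct places are separated by a function. -/
theorem loc_exists_sep {v w : Place K F} (hvw : v ≠ w) :
    ∃ c : F, 0 < v.ord c ∧ w.ord c < 0 := by
  have h1 : ¬ v.toValuationSubring ≤ w.toValuationSubring := fun h => hvw (loc_eq_of_le h)
  have h2 : ¬ w.toValuationSubring ≤ v.toValuationSubring :=
    fun h => hvw (loc_eq_of_le h).symm
  obtain ⟨a, hav, haw⟩ := SetLike.not_le_iff_exists.mp h1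
  obtain ⟨b, hbw, hbv⟩ := SetLike.not_le_iff_exists.mp h2
  have hav' : 0 ≤ v.ord a := loc_ord_nonneg_of_mem v hav
  have hbw' : 0 ≤ w.ord b := loc_ord_nonneg_of_mem w hbw
  have haw' : w.ord a < 0 := by
    by_contra h0; exact haw (loc_mem_of_ord_nonneg w (not_lt.mp h0))
  have hbv' : v.ord b < 0 := by
    by_contra h0; exact hbv (loc_mem_of_ord_nonneg v (not_lt.mp h0))
  have ha0 : a ≠ 0 := loc_ne_zero_of_ord_ne_zero w haw'.ne
  have hb0 : b ≠ 0 := loc_ne_zero_of_ord_ne_zero v hbv'.ne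
  refine ⟨a * b⁻¹, ?_, ?_⟩
  · rw [v.ord_mul ha0 (inv_ne_zero hb0), v.ord_inv]; omega
  · rw [w.ord_mul ha0 (inv_ne_zero hb0), w.ord_inv]; omega

/-- **Approximation.** For a place `v` outside a finite set `S` of places there is a function
with a zero at `v` and poles at all places of `S`. -/
theorem loc_exists_zero_poles (v : Place K F) (S : Finset (Place K F)) (hv : v ∉ S) :
    ∃ g : F, 0 < v.ord g ∧ ∀ w ∈ S, w.ord g < 0 := by
  classical
  induction S using Finset.induction_on with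
  | empty =>
    obtain ⟨h, hh⟩ := loc_exists_ord_eq_one v
    exact ⟨h, by omega, by simp⟩
  | insert w₀ S' hw₀ ih =>
    have hv' : v ∉ S' := fun h => hv (Finset.mem_insert_of_mem h)
    have hvw₀ : v ≠ w₀ := fun h => hv (h ▸ Finset.mem_insert_self _ _)
    obtain ⟨g, hgv, hgS⟩ := ih hv'
    obtain ⟨c, hcv, hcw⟩ := loc_exists_sep hvw₀
    have hg0 : g ≠ 0 := loc_ne_zero_of_ord_ne_zero v hgv.ne'
    have hc0 : c ≠ 0 := loc_ne_zero_of_ord_ne_zero v hcv.ne'
    by_cases hgw : w₀.ord g < 0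
    · refine ⟨g, hgv, ?_⟩
      intro w hw
      rcases Finset.mem_insert.mp hw with rfl | hw
      · exact hgw
      · exact hgS w hw
    · have hgw := not_lt.mp hgw
      -- choose `r` large
      set r : ℕ := (∑ w ∈ S', (w.ord c).natAbs) + 1 with hr
      have hrS : ∀ w ∈ S', -(r : ℤ) < w.ord c := by
        intro w hw
        have h1 : (w.ord c).natAbs ≤ ∑ w ∈ S', (w.ord c).natAbs :=
          Finset.single_le_sum (f := fun w : Place K F => (w.ord c).natAbs)
            (fun _ _ => Nat.zero_le _) hw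
        have h2 : (r : ℤ) = ((∑ w ∈ S', (w.ord c).natAbs : ℕ) : ℤ) + 1 := by
          rw [hr]; push_cast; ring
        have h3 : ((w.ord c).natAbs : ℤ) ≤ ((∑ w ∈ S', (w.ord c).natAbs : ℕ) : ℤ) := by
          exact_mod_cast h1
        omega
      have hr1 : 1 ≤ r := by omega
      have hgr0 : g ^ r ≠ 0 := pow_ne_zero r hg0
      have hw₀ : w₀.ord (c + g ^ r) = w₀.ord c := by
        apply loc_ord_add_eq_of_lt w₀ hc0 hgr0
        rw [loc_ord_pow]
        have : 0 ≤ (r : ℤ) * w₀.ord g := mul_nonneg (Int.natCast_nonneg r) hgw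
        omega
      have hsum0 : c + g ^ r ≠ 0 := loc_ne_zero_of_ord_ne_zero w₀ (by rw [hw₀]; omega)
      refine ⟨c + g ^ r, ?_, ?_⟩
      · have h1 := loc_ord_add v hc0 hgr0 hsum0
        rw [loc_ord_pow] at h1
        have h2 : 0 < (r : ℤ) * v.ord g := mul_pos (by exact_mod_cast hr1) hgv
        have h3 : 0 < min (v.ord c) ((r : ℤ) * v.ord g) := lt_min hcv h2
        omega
      · intro w hw
        rcases Finset.mem_insert.mp hw with rfl | hw
        · rw [hw₀]; exact hcw
        · have h1 : w.ord (g ^ r) < w.ord c := by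
            rw [loc_ord_pow]
            have h2 := hgS w hw
            have h3 := hrS w hw
            have h4 : (r : ℤ) * w.ord g ≤ -(r : ℤ) := by nlinarith
            omega
          rw [add_comm, loc_ord_add_eq_of_lt w hgr0 hc0 h1, loc_ord_pow]
          have h2 := hgS w hw
          have : (r : ℤ) * w.ord g < 0 := by
            have hrpos : (0 : ℤ) < r := by exact_mod_cast hr1
            exact mul_neg_of_pos_of_neg hrpos h2
          exact this

/-- **Approximation**, pole version: for a place `v` outside a finite set `S` of places there is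
a function with a pole at `v` and zeros at all places of `S`. -/
theorem loc_exists_pole_zeros (v : Place K F) (S : Finset (Place K F)) (hv : v ∉ S) :
    ∃ u : F, v.ord u < 0 ∧ ∀ w ∈ S, 0 < w.ord u := by
  obtain ⟨g, hg, hgS⟩ := loc_exists_zero_poles v S hv
  refine ⟨g⁻¹, ?_, ?_⟩
  · rw [v.ord_inv]; omega
  · intro w hw
    rw [w.ord_inv]
    have := hgS w hw
    omega

end Fermat.Agent.S24.H144

end
end
-- ===== PACK-END S24/Alg/LocApprox.lean

-- ===== PACK-BEGIN S24/Alg/LocRat.lean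
section



/-!
# S24 / ALG-LOC: valuations on the rational subfield `K(t)`

Any two "valuations" of `F` which are trivial on `K` and positive on `t` are proportional on
`K(t)`: on `K(t)` each of them is a multiple of the `t`-adic order.
-/

set_option autoImplicit false

noncomputable section

open AlgebraicCurve Polynomial IntermediateField

namespace Fermat.Agent.S24.H144

variable {K F : Type*} [Field K] [Field F] [Algebra K F]

/-- An integer valued discrete valuation (with the convention `w 0 = 0`) which is trivial on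
`K` and positive at `t`. -/
structure IsTVal (K : Type*) {F : Type*} [Field K] [Field F] [Algebra K F] (t : F)
    (w : F → ℤ) : Prop where
  map_zero : w 0 = 0
  map_mul : ∀ f g : F, f ≠ 0 → g ≠ 0 → w (f * g) = w f + w g
  map_add : ∀ f g : F, f ≠ 0 → g ≠ 0 → f + g ≠ 0 → min (w f) (w g) ≤ w (f + g)
  map_neg : ∀ f : F, w (-f) = w f
  map_const : ∀ c : K, w (algebraMap K F c) = 0
  pos : 0 < w t

namespace IsTVal

variable {t : F} {w : F → ℤ}

theorem ne_zero_of_ne (hw : IsTVal K t w) {f : F} (h : w f ≠ 0) : f ≠ 0 := by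
  rintro rfl; exact h hw.map_zero

theorem t_ne_zero (hw : IsTVal K t w) : t ≠ 0 := hw.ne_zero_of_ne hw.pos.ne'

theorem map_one (hw : IsTVal K t w) : w 1 = 0 := by
  have := hw.map_const 1
  rwa [_root_.map_one] at this

theorem map_inv (hw : IsTVal K t w) (f : F) : w f⁻¹ = -w f := by
  rcases eq_or_ne f 0 with rfl | hf
  · simp [hw.map_zero]
  have h := hw.map_mul f f⁻¹ hf (inv_ne_zero hf)
  rw [mul_inv_cancel₀ hf, hw.map_one] at h
  omega

theorem map_div (hw : IsTVal K t w) {f g : F} (hf : f ≠ 0) (hg : g ≠ 0) :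
    w (f / g) = w f - w g := by
  rw [div_eq_mul_inv, hw.map_mul f g⁻¹ hf (inv_ne_zero hg), hw.map_inv]; ring

/-- Strict case of the ultrametric inequality. -/
theorem map_add_of_lt (hw : IsTVal K t w) {f g : F} (hf : f ≠ 0) (hg : g ≠ 0)
    (h : w f < w g) : f + g ≠ 0 ∧ w (f + g) = w f := by
  have hfg : f + g ≠ 0 := by
    intro h0
    have : g = -f := by rw [← sub_eq_zero]; rw [sub_neg_eq_add, add_comm]; exact h0
    rw [this, hw.map_neg] at h
    exact lt_irrefl _ h
  refine ⟨hfg, ?_⟩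
  have h1 := hw.map_add f g hf hg hfg
  rw [min_eq_left h.le] at h1
  have hng : -g ≠ 0 := neg_ne_zero.mpr hg
  have h2 := hw.map_add (f + g) (-g) hfg hng (by simpa using hf)
  rw [add_neg_cancel_right, hw.map_neg] at h2
  rcases le_total (w (f + g)) (w g) with h3 | h3
  · rw [min_eq_left h3] at h2; omega
  · rw [min_eq_right h3] at h2; omega

end IsTVal

/-- The order of vanishing of a place at which `t` vanishes is a `t`-valuation. -/
theorem isTVal_ord (v : Place K F) {t : F} (ht : 0 < v.ord t) : IsTVal K t v.ord where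
  map_zero := v.ord_zero
  map_mul := fun _ _ hf hg => v.ord_mul hf hg
  map_add := fun _ _ hf hg hfg => loc_ord_add v hf hg hfg
  map_neg := loc_ord_neg v
  map_const := loc_ord_algebraMap v
  pos := ht

/-- The order of an embedding into Laurent series, constant on `K`, is a `t`-valuation. -/
theorem isTVal_order {C : Type*} [Field C] (σ : F →+* LaurentSeries C) {t : F}
    (hK : ∀ c : K, (σ (algebraMap K F c)).order = 0) (ht : 0 < (σ t).order) :
    IsTVal K t (fun f => (σ f).order) where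
  map_zero := by simp
  map_mul := fun _ _ hf hg => loc_order_map_mul σ hf hg
  map_add := fun _ _ _ _ hfg => loc_order_map_add_le σ hfg
  map_neg := fun f => by simp only [map_neg, HahnSeries.order_neg]
  map_const := hK
  pos := ht

/-- For a nonzero polynomial `p` over `K`, every `t`-valuation of `p(t)` is the same multiple
of the valuation of `t`. -/
theorem loc_exists_mult_aeval (t : F) (p : K[X]) (hp : p ≠ 0) :
    ∃ k : ℕ, (p.coeff 0 = 0 → 0 < k) ∧
      ∀ w : F → ℤ, IsTVal K t w → aeval t p ≠ 0 ∧ w (aeval t p) = k * w t := by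
  induction p using Polynomial.recOnHorner with
  | M0 => exact absurd rfl hp
  | MC p a hp0 ha ih =>
    refine ⟨0, ?_, ?_⟩
    · intro h
      rw [coeff_add, hp0, coeff_C_zero, zero_add] at h
      exact absurd h ha
    · intro w hw
      have haF : algebraMap K F a ≠ 0 := by
        simpa using ha
      rcases eq_or_ne p 0 with rfl | hpne
      · simp only [zero_add, aeval_C]
        exact ⟨haF, by rw [hw.map_const]; simp⟩
      obtain ⟨k, hk, hkw⟩ := ih hpne
      obtain ⟨hne, hval⟩ := hkw w hw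
      have hkpos := hk hp0
      have hlt : w (algebraMap K F a) < w (aeval t p) := by
        rw [hw.map_const, hval]
        exact mul_pos (by exact_mod_cast hkpos) hw.pos
      obtain ⟨h1, h2⟩ := hw.map_add_of_lt haF hne hlt
      rw [map_add, aeval_C, add_comm]
      refine ⟨h1, ?_⟩
      rw [h2, hw.map_const]; simp
  | MX p hpne ih =>
    obtain ⟨k, _, hkw⟩ := ih hpne
    refine ⟨k + 1, fun _ => Nat.succ_pos k, ?_⟩
    intro w hw
    obtain ⟨hne, hval⟩ := hkw w hw
    rw [map_mul, aeval_X]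
    refine ⟨mul_ne_zero hne hw.t_ne_zero, ?_⟩
    rw [hw.map_mul _ _ hne hw.t_ne_zero, hval]
    push_cast; ring

/-- **Valuations on `K(t)`.** For `y ∈ K(t)` there is an integer `n` (the `t`-adic order of `y`)
such that `w y = n * w t` for every `t`-valuation `w`. -/
theorem loc_exists_mult_of_mem_adjoin (t : F) {y : F} (hy : y ∈ K⟮t⟯) :
    ∃ n : ℤ, ∀ w : F → ℤ, IsTVal K t w → w y = n * w t := by
  obtain ⟨r, s, rfl⟩ := (mem_adjoin_simple_iff K y).mp hy
  rcases eq_or_ne r 0 with rfl | hr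
  · exact ⟨0, fun w hw => by simp [hw.map_zero]⟩
  rcases eq_or_ne s 0 with rfl | hs
  · exact ⟨0, fun w hw => by simp [hw.map_zero]⟩
  obtain ⟨kr, _, hkr⟩ := loc_exists_mult_aeval t r hr
  obtain ⟨ks, _, hks⟩ := loc_exists_mult_aeval t s hs
  refine ⟨(kr : ℤ) - ks, fun w hw => ?_⟩
  obtain ⟨hr0, hrv⟩ := hkr w hw
  obtain ⟨hs0, hsv⟩ := hks w hw
  rw [hw.map_div hr0 hs0, hrv, hsv]; ring

/-- Two `t`-valuations are proportional on `K(t)`. -/
theorem loc_tval_proportional (t : F) {y : F} (hy : y ∈ K⟮t⟯) {w₁ w₂ : F → ℤ}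
    (h₁ : IsTVal K t w₁) (h₂ : IsTVal K t w₂) : w₂ t * w₁ y = w₁ t * w₂ y := by
  obtain ⟨n, hn⟩ := loc_exists_mult_of_mem_adjoin (K := K) t hy
  rw [hn w₁ h₁, hn w₂ h₂]; ring

/-- Sign transfer on `K(t)`. -/
theorem loc_tval_nonneg (t : F) {y : F} (hy : y ∈ K⟮t⟯) {w₁ w₂ : F → ℤ}
    (h₁ : IsTVal K t w₁) (h₂ : IsTVal K t w₂) (h : 0 ≤ w₁ y) : 0 ≤ w₂ y := by
  have hprop := loc_tval_proportional t hy h₁ h₂
  have hp1 := h₁.pos
  have hp2 := h₂.pos
  by_contra hneg
  have hneg' : w₂ y < 0 := not_le.mp hneg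
  have h3 : w₁ t * w₂ y < 0 := mul_neg_of_pos_of_neg hp1 hneg'
  have h4 : 0 ≤ w₂ t * w₁ y := mul_nonneg hp2.le h
  omega

end Fermat.Agent.S24.H144

end
end
-- ===== PACK-END S24/Alg/LocRat.lean

-- ===== PACK-BEGIN S24/Alg/LocSurj.lean
section





/-!
# S24 / ALG-LOC, part 2 (LOC2): every place over `t = 0` is induced by an embedding

For local data `L : LocalData K F C X t` with `[F : F₀] = |X|` (`F₀ ⊆ K(t)`), every place `v` of
`F/K` with `ord_v t > 0` is the place cut out by one of the embeddings `L.σ x`.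
-/

set_option autoImplicit false

noncomputable section

open AlgebraicCurve Polynomial IntermediateField

namespace Fermat.Agent.S24.H144

variable {K F : Type*} [Field K] [Field F] [Algebra K F]
variable {C : Type*} [Field C] {X : Type*} {t : F}

theorem loc_order_const (L : LocalData K F C X t) (x : X) (c : K) :
    (L.σ x (algebraMap K F c)).order = 0 := by
  rw [L.σ_const]; exact HahnSeries.order_C

theorem loc_order_t_pos (L : LocalData K F C X t) (x : X) : 0 < (L.σ x t).order := by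
  rw [L.σ_t_order]; exact_mod_cast L.m_pos

theorem loc_isTVal (L : LocalData K F C X t) (x : X) :
    IsTVal K t (fun f => (L.σ x f).order) :=
  isTVal_order (L.σ x) (loc_order_const L x) (loc_order_t_pos L x)

/-- The place of `F` cut out by the embedding `L.σ x`. -/
def locPlace (L : LocalData K F C X t) (x : X) : Place K F :=
  placeOfEmb (L.σ x) (fun c => (loc_order_const L x c).ge)
    ⟨t⁻¹, by rw [loc_order_map_inv]; have := loc_order_t_pos L x; omega⟩

theorem loc_induces_locPlace (L : LocalData K F C X t) (x : X) :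
    Induces (L.σ x) (locPlace L x) :=
  induces_placeOfEmb _ _ _

theorem loc_mem_locPlace (L : LocalData K F C X t) (x : X) (f : F) :
    f ∈ (locPlace L x).toValuationSubring ↔ 0 ≤ (L.σ x f).order :=
  loc_induces_locPlace L x f

/-- All the embeddings `L.σ x` agree on `K(t)`. -/
theorem loc_agree (L : LocalData K F C X t) (x y : X) {c : F} (hc : c ∈ K⟮t⟯) :
    L.σ x c = L.σ y c := by
  induction hc using IntermediateField.adjoin_induction with
  | mem c hc =>
    rw [Set.mem_singleton_iff] at hc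
    rw [hc]; exact L.σ_t_eq x y
  | algebraMap c => rw [L.σ_const, L.σ_const]
  | add a b _ _ iha ihb => rw [map_add, map_add, iha, ihb]
  | inv a _ iha => rw [map_inv₀, map_inv₀, iha]
  | mul a b _ _ iha ihb => rw [map_mul, map_mul, iha, ihb]

/-- The subring of Laurent series of non-negative order. -/
def locPowerSubring (C : Type*) [Field C] : Subring (LaurentSeries C) :=
  (locValSubring (RingHom.id (LaurentSeries C))).toSubring

theorem mem_locPowerSubring {s : LaurentSeries C} : s ∈ locPowerSubring C ↔ 0 ≤ s.order :=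
  Iff.rfl

/-- **Integrality criterion.** If all conjugates `L.σ x u` have non-negative order, then `u` lies
in the valuation ring of every place `v` at which `t` vanishes. -/
theorem loc_mem_of_forall_order_nonneg [CharZero K] [Finite X] (L : LocalData K F C X t)
    (F₀ : IntermediateField K F) (hF₀ : F₀ ≤ K⟮t⟯) [FiniteDimensional F₀ F]
    (hrank : Module.finrank F₀ F = Nat.card X)
    (v : Place K F) (hv : 0 < v.ord t) (u : F) (hu : ∀ x, 0 ≤ (L.σ x u).order) :
    u ∈ v.toValuationSubring := by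
  classical
  -- `X` is nonempty
  have hX : Nonempty X := by
    have hpos : 0 < Module.finrank F₀ F := Module.finrank_pos
    rw [hrank] at hpos
    exact (Nat.card_pos_iff.mp hpos).1
  obtain ⟨x₀⟩ := hX
  have hagree : ∀ (x y : X) (c : F₀), L.σ x (algebraMap F₀ F c) = L.σ y (algebraMap F₀ F c) :=
    fun x y c => loc_agree L x y (hF₀ c.2)
  -- coefficients of the minimal polynomial have non-negative order
  have hcoeff : ∀ i, (algebraMap F₀ F ((minpoly F₀ u).coeff i)) ∈ v.toValuationSubring := by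
    intro i
    have h1 := loc_minpoly_coeff_mem (F₀ := F₀) L.σ L.σ_inj hagree hrank (locPowerSubring C) u
      (fun x => mem_locPowerSubring.mpr (hu x)) x₀ i
    rw [mem_locPowerSubring] at h1
    apply loc_mem_of_ord_nonneg
    exact loc_tval_nonneg (K := K) t (hF₀ ((minpoly F₀ u).coeff i).2) (loc_isTVal L x₀)
      (isTVal_ord v hv) h1
  -- hence `u` is integral over the valuation ring
  have hint : IsIntegral F₀ u := Algebra.IsIntegral.isIntegral u
  have hmonic : ((minpoly F₀ u).map (algebraMap F₀ F)).Monic := (minpoly.monic hint).map _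
  have hlift : (minpoly F₀ u).map (algebraMap F₀ F)
      ∈ Polynomial.lifts (algebraMap v.toValuationSubring F) := by
    rw [lifts_iff_coeff_lifts]
    intro i
    rw [coeff_map]
    exact ⟨⟨_, hcoeff i⟩, rfl⟩
  obtain ⟨q, hq, _, hqm⟩ := lifts_and_degree_eq_and_monic hlift hmonic
  have hroot : eval₂ (algebraMap v.toValuationSubring F) u q = 0 := by
    rw [← eval_map, hq, eval_map, ← aeval_def]
    exact minpoly.aeval F₀ u
  have hintv : IsIntegral v.toValuationSubring u := ⟨q, hqm, hroot⟩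
  obtain ⟨y, hy⟩ := IsIntegrallyClosed.isIntegral_iff.mp hintv
  rw [← hy]; exact y.2

/-- **LOC2.** Every place at which `t` vanishes is induced by one of the embeddings. -/
theorem loc_exists_emb [CharZero K] [Finite X] (L : LocalData K F C X t)
    (F₀ : IntermediateField K F) (hF₀ : F₀ ≤ K⟮t⟯) [FiniteDimensional F₀ F]
    (hrank : Module.finrank F₀ F = Nat.card X)
    (v : Place K F) (hv : 0 < v.ord t) : ∃ x, Induces (L.σ x) v := by
  classical
  by_contra hno
  have hne : ∀ x, v ≠ locPlace L x := by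
    intro x hx
    exact hno ⟨x, hx ▸ loc_induces_locPlace L x⟩
  have : Fintype X := Fintype.ofFinite X
  have hvS : v ∉ Finset.univ.image (locPlace L) := by
    intro h
    obtain ⟨x, _, hx⟩ := Finset.mem_image.mp h
    exact hne x hx.symm
  obtain ⟨u, huv, huS⟩ := loc_exists_pole_zeros v _ hvS
  have hu : ∀ x, 0 ≤ (L.σ x u).order := by
    intro x
    have h1 := huS (locPlace L x) (Finset.mem_image_of_mem _ (Finset.mem_univ x))
    exact (loc_mem_locPlace L x u).mp (loc_mem_of_ord_nonneg _ h1.le)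
  have := loc_ord_nonneg_of_mem v (loc_mem_of_forall_order_nonneg L F₀ hF₀ hrank v hv u hu)
  omega

end Fermat.Agent.S24.H144

end
end
-- ===== PACK-END S24/Alg/LocSurj.lean

-- ===== PACK-BEGIN S29/M/Defs.lean
section
/-
S29 row, LAYER M (the torsion module) -- interface definitions (deputy helper30).
Namespace `Fermat.Agent.S29.M`.  Frozen once adopted by the row-lead (helper269).
-/




set_option autoImplicit false

noncomputable section

namespace Fermat.Agent.S29.M

open ModularCurve AlgebraicCurve CongruenceSubgroup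
open scoped TensorProduct MatrixGroups

/-! ## External input: the Eichler-Shimura relation on `JZero N` (rows S37 / S18) -/

/-- What layer M consumes from rows S37/S18: for every prime `ℓ ∤ N p` and every place `A` over `ℓ`,
inertia at `A` acts trivially on the `p`-power torsion of `JZero N`, and every Frobenius element at
`A` satisfies `σ² - T_ℓ σ + ℓ = 0` there, `T_ℓ` the Prelude operator `heckeOperatorBar N ℓ`.
(No commutativity of the Hecke operators and no `HeckeAlg`-module structure is involved.) -/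
def ESStatement : Prop :=
  ∀ (N p : ℕ) [NeZero N] (ℓ : ℕ) (hℓ : ℓ.Prime), ¬ ℓ ∣ N * p →
    ∀ A : VQ, A.LiesOverPrime ℓ →
      (∀ τ ∈ A.inertiaSubgroupIn ℚ, ∀ x : JZero N, (∃ n : ℕ, p ^ n • x = 0) → τ • x = x) ∧
      (∀ σ : GQ, A.IsFrobeniusAt σ ℓ → ∀ x : JZero N, (∃ n : ℕ, p ^ n • x = 0) →
        σ • σ • x - heckeOperatorBar N ⟨ℓ, hℓ⟩ (σ • x) + ℓ • x = 0)

/-- The "reduction map" form in which row S37 proves its statement (route R1 of
`origin/helper37:coord/S37-route.md`); it implies `ESStatement` formally (`esStatement_of_red`). -/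
def RedStatement : Prop :=
  ∀ (N p : ℕ) [NeZero N] (ℓ : ℕ) (hℓ : ℓ.Prime), ¬ ℓ ∣ N * p →
    ∀ A : VQ, A.LiesOverPrime ℓ →
      ∃ (Y : Type) (_ : AddCommGroup Y) (red : JZero N →+ Y),
        (∀ τ ∈ A.inertiaSubgroupIn ℚ, ∀ x : JZero N, red (τ • x) = red x) ∧
        (∀ x : JZero N, (∃ n : ℕ, p ^ n • x = 0) → red x = 0 → x = 0) ∧
        (∀ σ : GQ, A.IsFrobeniusAt σ ℓ → ∀ x : JZero N,
          red (σ • σ • x - heckeOperatorBar N ⟨ℓ, hℓ⟩ (σ • x) + ℓ • x) = 0)

/-! ## The `p`-torsion of `JZero N` as a `ZMod p`-module with Hecke and Galois operators -/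

/-- `J₀(N)[p]`, the `p`-torsion subgroup of the Prelude `JZero N`. -/
abbrev Vp (N p : ℕ) : Type :=
  ↥(Pic0.torsion (AlgebraicClosure ℚ) (modularFunctionFieldBar N) p)

/-- The Prelude Hecke operator `T_ℓ` preserves `p`-torsion. -/
theorem heckeOperatorBar_mem_torsion (N p : ℕ) [NeZero N] (ℓ : Nat.Primes) {x : JZero N}
    (hx : x ∈ Pic0.torsion (AlgebraicClosure ℚ) (modularFunctionFieldBar N) p) :
    heckeOperatorBar N ℓ x ∈ Pic0.torsion (AlgebraicClosure ℚ) (modularFunctionFieldBar N) p := by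
  rw [Pic0.mem_torsion] at hx ⊢
  rw [← map_zsmul, hx, map_zero]

/-- `T_ℓ` on `J₀(N)[p]`, as an additive map. -/
def heckeTorsAdd (N p : ℕ) [NeZero N] (ℓ : Nat.Primes) : Vp N p →+ Vp N p where
  toFun x := ⟨heckeOperatorBar N ℓ (x : JZero N), heckeOperatorBar_mem_torsion N p ℓ x.2⟩
  map_zero' := Subtype.ext (map_zero (heckeOperatorBar N ℓ))
  map_add' x y := Subtype.ext (map_add (heckeOperatorBar N ℓ) (x : JZero N) (y : JZero N))

/-- `T_ℓ` on `J₀(N)[p]`, as a `ZMod p`-linear map. -/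
def heckeTors (N p : ℕ) [NeZero N] (ℓ : Nat.Primes) : Vp N p →ₗ[ZMod p] Vp N p :=
  (heckeTorsAdd N p ℓ).toZModLinearMap p

@[simp] theorem coe_heckeTors_apply (N p : ℕ) [NeZero N] (ℓ : Nat.Primes) (x : Vp N p) :
    ((heckeTors N p ℓ x : Vp N p) : JZero N) = heckeOperatorBar N ℓ (x : JZero N) := rfl

/-- The Galois action on `J₀(N)[p]` (Prelude `JZero.torsionGaloisRep`). -/
abbrev galTors (N p : ℕ) : GQ →* Module.End (ZMod p) (Vp N p) :=
  JZero.torsionGaloisRep N p

/-! ## The topological side: homomorphisms `Γ₀(N) → ℤ/p` and their Hecke operators -/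

/-- Homomorphisms `Γ₀(N) → ℤ/p` vanishing on parabolic elements (`tr² = 4`, this includes `-1`)
and on elements of finite order. -/
def peHoms (N p : ℕ) : Submodule (ZMod p) (Additive (Gamma0 N) →+ ZMod p) where
  carrier := {χ | (∀ γ : Gamma0 N,
      ((γ : SL(2, ℤ)) : Matrix (Fin 2) (Fin 2) ℤ).trace ^ 2 = 4 → χ (Additive.ofMul γ) = 0) ∧
    (∀ γ : Gamma0 N, IsOfFinOrder γ → χ (Additive.ofMul γ) = 0)}
  zero_mem' := ⟨fun _ _ => rfl, fun _ _ => rfl⟩
  add_mem' := by
    rintro χ χ' ⟨h1, h2⟩ ⟨h1', h2'⟩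
    refine ⟨fun γ hγ => ?_, fun γ hγ => ?_⟩
    · show χ (Additive.ofMul γ) + χ' (Additive.ofMul γ) = 0
      rw [h1 γ hγ, h1' γ hγ, add_zero]
    · show χ (Additive.ofMul γ) + χ' (Additive.ofMul γ) = 0
      rw [h2 γ hγ, h2' γ hγ, add_zero]
  smul_mem' := by
    rintro c χ ⟨h1, h2⟩
    refine ⟨fun γ hγ => ?_, fun γ hγ => ?_⟩
    · show c • χ (Additive.ofMul γ) = 0
      rw [h1 γ hγ, smul_zero]
    · show c • χ (Additive.ofMul γ) = 0
      rw [h2 γ hγ, smul_zero]

/-- The standard representatives of `Γ₀(N) \ Γ₀(N) diag(1,ℓ) Γ₀(N)` (`ℓ ∤ N`):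
`(1 b; 0 ℓ)` for `b < ℓ` and `(ℓ 0; 0 1)` for the last index. -/
def heckeRep (ℓ : ℕ) (i : Fin (ℓ + 1)) : Matrix (Fin 2) (Fin 2) ℤ :=
  if (i : ℕ) < ℓ then !![1, (i : ℕ); 0, ℓ] else !![ℓ, 0; 0, 1]

/-- `χ' = T_ℓ χ` on `Hom(Γ₀(N), A)`: the transfer formula `χ'(γ) = ∑ᵢ χ(δᵢ)` whenever
`αᵢ γ = δᵢ α_{π i}` for the standard representatives `αᵢ = heckeRep ℓ i`. -/
def IsHeckeImage (N ℓ : ℕ) {A : Type*} [AddCommGroup A] (χ χ' : Additive (Gamma0 N) →+ A) : Prop :=
  ∀ (γ : Gamma0 N) (π : Fin (ℓ + 1) → Fin (ℓ + 1)) (δ : Fin (ℓ + 1) → Gamma0 N),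
    (∀ i, _root_.Fermat.Agent.S29.M.heckeRep ℓ i * ((γ : SL(2, ℤ)) : Matrix (Fin 2) (Fin 2) ℤ)
        = ((δ i : SL(2, ℤ)) : Matrix (Fin 2) (Fin 2) ℤ) * _root_.Fermat.Agent.S29.M.heckeRep ℓ (π i)) →
      χ' (Additive.ofMul γ) = ∑ i, χ (Additive.ofMul (δ i))

end Fermat.Agent.S29.M

end

end
-- ===== PACK-END S29/M/Defs.lean

-- ===== PACK-BEGIN Lib/Newform/H958/X/Dirichlet.lean
section


/-!
# NEWFORM block X — leaf X4 (`DirichletSeries`)
-/

set_option autoImplicit false

open CongruenceSubgroup UpperHalfPlane Complex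
open scoped MatrixGroups ModularForm

namespace Fermat.Agent.Lib.Newform.H958.X

open ModularFormClass

theorem T_mem_Gamma0 (N : ℕ) : ModularGroup.T ∈ Gamma0 N := by
  rw [Gamma0_mem]
  simp [ModularGroup.T]

theorem strictWidthInfty_Gamma0 (N : ℕ) :
    (Gamma0 N : Subgroup (GL (Fin 2) ℝ)).strictWidthInfty = 1 :=
  Subgroup.strictWidthInfty_eq_one_of_T_mem (T_mem_Gamma0 N)

theorem dirichletSeries : DirichletSeries := by
  intro N _ f s hs
  have h := CuspForm.hasSum_L (Γ := (Gamma0 N : Subgroup (GL (Fin 2) ℝ))) (k := 2) two_pos f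
    (s := s) (by norm_num; linarith)
  rw [strictWidthInfty_Gamma0 N] at h
  simp only [ofReal_one, one_cpow, one_mul] at h
  exact h

end Fermat.Agent.Lib.Newform.H958.X

end
-- ===== PACK-END Lib/Newform/H958/X/Dirichlet.lean

-- ===== PACK-BEGIN Lib/Newform/H958/X/Basic.lean
section



/-!
# NEWFORM block X — basic facts on `Lam` and the Euler polynomials
-/

set_option autoImplicit false

open CongruenceSubgroup Complex Polynomial
open UpperHalfPlane hiding I
open scoped MatrixGroups ModularForm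

namespace Fermat.Agent.Lib.Newform.H958.X

open ModularFormClass

variable {N : ℕ} [NeZero N]

theorem Lam_eq_mellin (f : CuspForm (Gamma0 N) 2) :
    Lam f = mellin (fun t : ℝ => f (ofComplex (I * t))) :=
  CuspForm.Λ_eq_mellin two_pos f

theorem differentiable_Lam (f : CuspForm (Gamma0 N) 2) : Differentiable ℂ (Lam f) :=
  CuspForm.differentiable_Λ two_pos f

theorem Lam_smul (c : ℂ) (f : CuspForm (Gamma0 N) 2) (s : ℂ) :
    Lam (c • f) s = c * Lam f s := by
  rw [Lam_eq_mellin, Lam_eq_mellin]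
  have : (fun t : ℝ => (c • f) (ofComplex (I * t))) =
      fun t : ℝ => c • (fun t : ℝ => f (ofComplex (I * t))) t := by
    funext t
    rfl
  rw [this, mellin_const_smul, smul_eq_mul]

theorem term_eq_div (a : ℕ → ℂ) {s : ℂ} (hs : 2 < s.re) (n : ℕ) :
    LSeries.term a s n = a n / (n : ℂ) ^ s := by
  have hs0 : s ≠ 0 := by
    rintro rfl
    simp at hs
    linarith
  exact LSeries.term_of_ne_zero' hs0 a n

theorem lseriesHasSum_of_hasSum {a : ℕ → ℂ} {s c : ℂ} (hs : 2 < s.re)
    (h : HasSum (fun n : ℕ => a n / (n : ℂ) ^ s) c) : LSeriesHasSum a s c := by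
  unfold LSeriesHasSum
  have : LSeries.term a s = fun n : ℕ => a n / (n : ℂ) ^ s :=
    funext (term_eq_div a hs)
  rw [this]
  exact h

theorem lseries_qCoeff (hD : DirichletSeries) (f : CuspForm (Gamma0 N) 2) {s : ℂ}
    (hs : 2 < s.re) : LSeries (fun n => qCoeff f n) s = Lam f s * (2 / Gammaℂ s) :=
  (lseriesHasSum_of_hasSum hs (hD N f s hs)).LSeries_eq

theorem abscissa_qCoeff_lt_top (hD : DirichletSeries) (f : CuspForm (Gamma0 N) 2) :
    LSeries.abscissaOfAbsConv (fun n => qCoeff f n) < ⊤ := by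
  refine lt_of_le_of_lt
    (LSeries.abscissaOfAbsConv_le_of_forall_lt_LSeriesSummable (x := 2) fun y hy => ?_)
    (EReal.coe_lt_top 2)
  have hy' : 2 < ((y : ℝ) : ℂ).re := by simpa using hy
  exact (lseriesHasSum_of_hasSum hy' (hD N f _ hy')).LSeriesSummable

/-- `Lam f` does not vanish identically on `Re s > 2` if `a_1(f) = 1`. -/
theorem exists_Lam_ne_zero (hD : DirichletSeries) (f : CuspForm (Gamma0 N) 2)
    (h1 : qCoeff f 1 = 1) : ∃ s : ℂ, 2 < s.re ∧ Lam f s ≠ 0 := by
  by_contra hcon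
  replace hcon : ∀ s : ℂ, 2 < s.re → Lam f s = 0 := by
    intro s hs
    by_contra h
    exact hcon ⟨s, hs, h⟩
  have hlim := LSeries.tendsto_atTop (abscissa_qCoeff_lt_top hD f)
  have hzero : (fun x : ℝ => LSeries (fun n => qCoeff f n) x) =ᶠ[Filter.atTop] fun _ => 0 := by
    filter_upwards [Filter.eventually_gt_atTop (2 : ℝ)] with x hx
    have hx' : 2 < ((x : ℝ) : ℂ).re := by simpa using hx
    rw [lseries_qCoeff hD f hx', hcon _ hx', zero_mul]
  have h0 : Filter.Tendsto (fun x : ℝ => LSeries (fun n => qCoeff f n) x) Filter.atTop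
      (nhds 0) := (tendsto_const_nhds).congr' hzero.symm
  have := tendsto_nhds_unique hlim h0
  rw [h1] at this
  exact one_ne_zero this

/-! ## Euler polynomials -/

theorem eulerPoly_coeff_zero (N : ℕ) (a : ℕ → ℂ) (p : ℕ) : (eulerPoly N a p).coeff 0 = 1 := by
  unfold eulerPoly
  split_ifs <;> simp

theorem eulerPoly_ne_zero (N : ℕ) (a : ℕ → ℂ) (p : ℕ) : eulerPoly N a p ≠ 0 := by
  intro h
  have := eulerPoly_coeff_zero N a p
  rw [h] at this
  simp at this

theorem eulerPolyRev_coeff_two (N : ℕ) (a : ℕ → ℂ) (p : ℕ) :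
    (eulerPolyRev N a p).coeff 2 = 1 := by
  unfold eulerPolyRev
  split_ifs <;> simp

theorem eulerPolyRev_ne_zero (N : ℕ) (a : ℕ → ℂ) (p : ℕ) : eulerPolyRev N a p ≠ 0 := by
  intro h
  have := eulerPolyRev_coeff_two N a p
  rw [h] at this
  simp at this

/-- `X² P(p⁻² / X) = P~(X)` for `X ≠ 0`. -/
theorem eval_eulerPolyRev (N : ℕ) (a : ℕ → ℂ) {p : ℕ} (hp : p ≠ 0) {x : ℂ} (hx : x ≠ 0) :
    (eulerPolyRev N a p).eval x = x ^ 2 * (eulerPoly N a p).eval (((p : ℂ) ^ 2)⁻¹ / x) := by
  have hpc : (p : ℂ) ≠ 0 := Nat.cast_ne_zero.mpr hp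
  unfold eulerPolyRev eulerPoly
  split_ifs
  · simp only [eval_add, eval_sub, eval_pow, eval_X, eval_mul, eval_C, eval_zero, eval_one]
    field_simp
    ring
  · simp only [eval_add, eval_sub, eval_pow, eval_X, eval_mul, eval_C, eval_one]
    field_simp

end Fermat.Agent.Lib.Newform.H958.X

end
-- ===== PACK-END Lib/Newform/H958/X/Basic.lean

-- ===== PACK-BEGIN Lib/Newform/H958/X/FE.lean
section



/-!
# NEWFORM block X — leaf X3 (`FunctionalEq`)

`Λ_f(2 - s) = - N^{s-1} Λ_{f ∣ W_N}(s)`, from Mathlib's functional equation for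
`ModularForm.weakFEPair` and the substitution `t ↦ N t` in the Mellin transform.
-/

set_option autoImplicit false

open CongruenceSubgroup Complex
open UpperHalfPlane hiding I
open scoped MatrixGroups ModularForm

namespace Fermat.Agent.Lib.Newform.H958.X

open ModularFormClass ModularForm

/-- `W_N = S * diag(N, 1)`. -/
theorem frickeMatrix_eq (N : ℕ) [NeZero N] :
    frickeMatrix N = (ModularGroup.S : GL (Fin 2) ℝ) * heckeDiagMatrix N := by
  apply Matrix.GeneralLinearGroup.ext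
  intro i j
  have hN : N ≠ 0 := NeZero.ne N
  rw [Matrix.GeneralLinearGroup.coe_mul, val_heckeDiagMatrix hN]
  fin_cases i <;> fin_cases j <;>
    simp [frickeMatrix, ModularGroup.S, Matrix.mul_apply, Fin.sum_univ_two]

/-- `(f ∣ W_N)(τ) = N (f ∣ S)(N τ)`. -/
theorem slash_frickeMatrix_apply (N : ℕ) [NeZero N] (f : ℍ → ℂ) (τ : ℍ) :
    (f ∣[(2 : ℤ)] frickeMatrix N) τ =
      (N : ℂ) * (f ∣[(2 : ℤ)] (ModularGroup.S : GL (Fin 2) ℝ)) (heckeDiagMatrix N • τ) := by
  rw [frickeMatrix_eq, SlashAction.slash_mul, slash_heckeDiagMatrix_apply 2 (NeZero.ne N)]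
  norm_num

theorem heckeDiagMatrix_smul_ofComplex (N : ℕ) [NeZero N] {t : ℝ} (ht : 0 < t) :
    heckeDiagMatrix N • ofComplex (I * t) = ofComplex (I * (((N : ℝ) * t : ℝ) : ℂ)) := by
  have hN : (0 : ℝ) < N := Nat.cast_pos.mpr (Nat.pos_of_ne_zero (NeZero.ne N))
  apply UpperHalfPlane.ext
  rw [coe_heckeDiagMatrix_smul (NeZero.ne N)]
  rw [ofComplex_apply_of_im_pos (by simpa using ht),
    ofComplex_apply_of_im_pos (by simpa using mul_pos hN ht)]
  push_cast
  ring

theorem functionalEq : FunctionalEq := by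
  intro N _ f f' hf' s
  have hN : (0 : ℝ) < N := Nat.cast_pos.mpr (Nat.pos_of_ne_zero (NeZero.ne N))
  have hNc : (N : ℂ) ≠ 0 := Nat.cast_ne_zero.mpr (NeZero.ne N)
  have hP : IsStrongFEPair
      (weakFEPair (Γ := (Gamma0 N : Subgroup (GL (Fin 2) ℝ))) (k := 2) two_pos f) :=
    CuspForm.isStrongFEPair two_pos f
  have hfe := (weakFEPair (Γ := (Gamma0 N : Subgroup (GL (Fin 2) ℝ))) (k := 2) two_pos f
    ).functional_equation s
  rw [hP.symm_Λ_eq] at hfe
  have hε : (weakFEPair (Γ := (Gamma0 N : Subgroup (GL (Fin 2) ℝ))) (k := 2) two_pos f).ε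
      = -1 := by
    simp [weakFEPair]
  have hk : ((weakFEPair (Γ := (Gamma0 N : Subgroup (GL (Fin 2) ℝ))) (k := 2) two_pos f).k : ℂ)
      = 2 := by
    simp [weakFEPair]
  rw [hε, hk] at hfe
  -- the Mellin transform of `t ↦ (f ∣ S)(i t)`
  have hmel : mellin
      (weakFEPair (Γ := (Gamma0 N : Subgroup (GL (Fin 2) ℝ))) (k := 2) two_pos f).g s =
      (N : ℂ) ^ (s - 1) * Lam f' s := by
    have h1 : Lam f' = mellin (fun t : ℝ => f' (ofComplex (I * t))) :=
      CuspForm.Λ_eq_mellin two_pos f'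
    rw [h1]
    have h2 : mellin
        (weakFEPair (Γ := (Gamma0 N : Subgroup (GL (Fin 2) ℝ))) (k := 2) two_pos f).g s =
        mellin (fun t : ℝ => ((N : ℂ)⁻¹) •
          (fun u : ℝ => f' (ofComplex (I * u))) ((N : ℝ)⁻¹ * t)) s := by
      refine MeasureTheory.setIntegral_congr_fun measurableSet_Ioi fun t ht => ?_
      have ht' : (0 : ℝ) < t := ht
      have hu : (0 : ℝ) < (N : ℝ)⁻¹ * t := mul_pos (inv_pos.mpr hN) ht'
      dsimp only
      congr 1
      simp only [weakFEPair, smul_eq_mul]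
      rw [hf', slash_frickeMatrix_apply, heckeDiagMatrix_smul_ofComplex N hu,
        ← mul_assoc, inv_mul_cancel₀ hNc, one_mul]
      have : (N : ℝ) * ((N : ℝ)⁻¹ * t) = t := by field_simp
      rw [this]
      rfl
    have h3 := mellin_comp_mul_left (fun u : ℝ => f' (ofComplex (I * u))) s (inv_pos.mpr hN)
    rw [h2, mellin_const_smul]
    dsimp only at h3 ⊢
    rw [h3]
    simp only [smul_eq_mul]
    rw [← mul_assoc]
    congr 1
    rw [ofReal_inv, ofReal_natCast, inv_cpow_eq_ite]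
    have harg : ((N : ℂ)).arg ≠ Real.pi := by
      rw [Complex.natCast_arg]
      exact Real.pi_ne_zero.symm
    rw [if_neg harg, Complex.cpow_neg, inv_inv, Complex.cpow_sub _ _ hNc, Complex.cpow_one]
    field_simp
  show ModularForm.Λ (k := 2) two_pos f (2 - s) = _
  rw [ModularForm.Λ, hfe, hmel]
  simp

end Fermat.Agent.Lib.Newform.H958.X

end
-- ===== PACK-END Lib/Newform/H958/X/FE.lean

-- ===== PACK-BEGIN Lib/Newform/H958/X/Eigen.lean
section




/-!
# NEWFORM block X — step X2: a newform is an eigenvector of the Fricke involution,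
and the functional equation of its `L`-function
-/

set_option autoImplicit false

open CongruenceSubgroup Complex Polynomial
open UpperHalfPlane hiding I
open scoped MatrixGroups ModularForm

namespace Fermat.Agent.Lib.Newform.H958.X

open ModularFormClass ModularForm

variable {N : ℕ} [NeZero N]

theorem det_frickeMatrix (N : ℕ) [NeZero N] : ((frickeMatrix N).det : ℝ) = N := by
  rw [Matrix.GeneralLinearGroup.val_det_apply]
  simp [frickeMatrix, Matrix.det_fin_two_of]

theorem σ_frickeMatrix (N : ℕ) [NeZero N] : UpperHalfPlane.σ (frickeMatrix N) = .refl ℝ ℂ := by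
  have hN : (0 : ℝ) < N := Nat.cast_pos.mpr (Nat.pos_of_ne_zero (NeZero.ne N))
  rw [UpperHalfPlane.σ, if_pos (by rw [det_frickeMatrix]; exact hN)]

theorem smul_slash_frickeMatrix (N : ℕ) [NeZero N] (c : ℂ) (f : ℍ → ℂ) :
    (c • f) ∣[(2 : ℤ)] frickeMatrix N = c • (f ∣[(2 : ℤ)] frickeMatrix N) := by
  rw [ModularForm.smul_slash, σ_frickeMatrix, ContinuousAlgEquiv.refl_apply]

/-- **X2**: the Fricke involution acts on a newform by a sign. -/
theorem frickeEigen_of (hO : FrickeOp) (hI : FrickeInvol) (hH : FrickeHecke) (hM : MultOne)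
    (hET : Fermat.Agent.Lib.Newform.H958.EigenT)
    {f : CuspForm (Gamma0 N) 2} (hf : f.IsNewform) :
    ∃ w : ℂ, w ^ 2 = 1 ∧ ∀ f' : CuspForm (Gamma0 N) 2,
      (⇑f' : ℍ → ℂ) = ⇑f ∣[(2 : ℤ)] frickeMatrix N → f' = w • f := by
  obtain ⟨f₁, hf₁⟩ := hO N f
  -- `f₁` is an eigenvector of all `T_ℓ`
  have heig : ∀ (ℓ : ℕ) (hℓ : ℓ.Prime) (hℓN : ¬ ℓ ∣ N),
      CuspForm.heckeTLin 2 hℓ hℓN f₁ = qCoeff f ℓ • f₁ := by
    intro ℓ hℓ hℓN
    apply DFunLike.coe_injective
    have h1 := congrArg (fun F : CuspForm (Gamma0 N) 2 => (⇑F : ℍ → ℂ))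
      (hET N f hf.1 ℓ hℓ hℓN)
    simp only [CuspForm.coe_heckeTLin_apply] at h1
    rw [CuspForm.coe_heckeTLin_apply, hf₁, hH N ℓ hℓ hℓN f, h1]
    have h2 : (⇑(qCoeff f ℓ • f) : ℍ → ℂ) = qCoeff f ℓ • (⇑f : ℍ → ℂ) := rfl
    have h3 : (⇑(qCoeff f ℓ • f₁) : ℍ → ℂ) = qCoeff f ℓ • (⇑f₁ : ℍ → ℂ) := rfl
    rw [h2, h3, smul_slash_frickeMatrix, hf₁]
  have hf₁w := hM N f hf f₁ heig
  set w := qCoeff f₁ 1 with hw
  refine ⟨w, ?_, ?_⟩
  · -- `f = (f ∣ W) ∣ W = w² f`
    have h4 : (⇑f : ℍ → ℂ) = (w * w) • (⇑f : ℍ → ℂ) := by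
      have h5 := hI N (⇑f : ℍ → ℂ)
      rw [← hf₁] at h5
      have h6 : (⇑f₁ : ℍ → ℂ) = w • (⇑f : ℍ → ℂ) := by
        rw [hf₁w]
        rfl
      rw [h6, smul_slash_frickeMatrix, ← hf₁, h6, smul_smul] at h5
      exact h5.symm
    have hfne : (⇑f : ℍ → ℂ) ≠ 0 := by
      intro h
      exact hf.ne_zero (DFunLike.coe_injective h)
    have h7 : (1 - w * w) • (⇑f : ℍ → ℂ) = 0 := by
      rw [sub_smul, one_smul, ← h4, sub_self]
    rcases smul_eq_zero.mp h7 with h | h
    · rw [pow_two]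
      exact (sub_eq_zero.mp h).symm
    · exact absurd h hfne
  · intro f' hf'
    have : f' = f₁ := DFunLike.coe_injective (by rw [hf', hf₁])
    rw [this]
    exact hf₁w

/-- Functional equation of a newform: `Λ_f(2 - s) = - w N^{s-1} Λ_f(s)`, `w = ±1`. -/
theorem functionalEq_newform_of (hO : FrickeOp) (hI : FrickeInvol) (hH : FrickeHecke)
    (hM : MultOne) (hET : Fermat.Agent.Lib.Newform.H958.EigenT)
    {f : CuspForm (Gamma0 N) 2} (hf : f.IsNewform) :
    ∃ w : ℂ, w ^ 2 = 1 ∧ ∀ s : ℂ, Lam f (2 - s) = -(w * (N : ℂ) ^ (s - 1)) * Lam f s := by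
  obtain ⟨w, hw, hfw⟩ := frickeEigen_of hO hI hH hM hET hf
  obtain ⟨f₁, hf₁⟩ := hO N f
  refine ⟨w, hw, fun s => ?_⟩
  rw [functionalEq N f f₁ hf₁ s, hfw f₁ hf₁, Lam_smul]
  ring

end Fermat.Agent.Lib.Newform.H958.X

end
-- ===== PACK-END Lib/Newform/H958/X/Eigen.lean

-- ===== PACK-BEGIN Lib/Newform/H683/Eigen.lean
section
/-
NEWFORM library (helper683) — part 2: the dictionary

  `IsNormalizedEigenform f`  ⟺  `a₁ = 1` and `f` is an eigenvector of all `T_p` (`p ∤ N`) and
                                  all `U_p` (`p ∣ N`).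
-/


set_option autoImplicit false

open CongruenceSubgroup ModularFormClass ModularForm UpperHalfPlane

namespace Fermat.Agent.Lib.Newform.H683

variable {N : ℕ}

/-! ### From the multiplicative relations to the Hecke relations -/

/-- `a(p^(e+1)) + p a(p^(e-1)) = a_p a(p^e)` for `p ∤ N` (with the convention that the second
term is absent for `e = 0`). -/
theorem coeff_mul_prime_of_not_dvd
    {f : CuspForm (Gamma0 N) 2} (hf : f.IsNormalizedEigenform) {p : ℕ} (hp : p.Prime)
    (hpN : ¬ p ∣ N) (n : ℕ) :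
    qCoeff ⇑f (n * p) + (if p ∣ n then (p : ℂ) * qCoeff ⇑f (n / p) else 0)
      = qCoeff ⇑f p * qCoeff ⇑f n := by
  rcases Nat.eq_zero_or_pos n with rfl | hn
  · simp [qCoeff_zero_cusp]
  obtain ⟨e, m, hm, rfl⟩ := Nat.exists_eq_pow_mul_and_not_dvd hn.ne' p hp.ne_one
  have hcop : ∀ j, Nat.Coprime (p ^ j) m := fun j =>
    Nat.Coprime.pow_left j ((Nat.Prime.coprime_iff_not_dvd hp).mpr hm)
  have e1 : p ^ e * m * p = p ^ (e + 1) * m := by ring
  rw [e1, hf.qCoeff_mul_of_coprime _ _ (hcop _), hf.qCoeff_mul_of_coprime _ _ (hcop _)]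
  rcases Nat.eq_zero_or_pos e with rfl | he
  · have : ¬ p ∣ p ^ 0 * m := by simpa using hm
    rw [if_neg this]
    simp [hf.qCoeff_one]
  · obtain ⟨r, rfl⟩ : ∃ r, e = r + 1 := ⟨e - 1, by omega⟩
    have hdvd : p ∣ p ^ (r + 1) * m := Dvd.dvd.mul_right (dvd_pow_self p (by omega)) m
    rw [if_pos hdvd]
    have e2 : p ^ (r + 1) * m / p = p ^ r * m := by
      rw [pow_succ, mul_assoc, mul_comm p m, ← mul_assoc]
      exact Nat.mul_div_cancel _ hp.pos
    rw [e2, hf.qCoeff_mul_of_coprime _ _ (hcop _), hf.qCoeff_prime_pow_of_not_dvd p r hp hpN]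
    ring

theorem coeff_mul_prime_of_dvd
    {f : CuspForm (Gamma0 N) 2} (hf : f.IsNormalizedEigenform) {p : ℕ} (hp : p.Prime)
    (hpN : p ∣ N) (n : ℕ) :
    qCoeff ⇑f (n * p) = qCoeff ⇑f p * qCoeff ⇑f n := by
  rcases Nat.eq_zero_or_pos n with rfl | hn
  · simp [qCoeff_zero_cusp]
  obtain ⟨e, m, hm, rfl⟩ := Nat.exists_eq_pow_mul_and_not_dvd hn.ne' p hp.ne_one
  have hcop : ∀ j, Nat.Coprime (p ^ j) m := fun j =>
    Nat.Coprime.pow_left j ((Nat.Prime.coprime_iff_not_dvd hp).mpr hm)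
  have e1 : p ^ e * m * p = p ^ (e + 1) * m := by ring
  rw [e1, hf.qCoeff_mul_of_coprime _ _ (hcop _), hf.qCoeff_mul_of_coprime _ _ (hcop _)]
  rcases Nat.eq_zero_or_pos e with rfl | he
  · simp [hf.qCoeff_one]
  · obtain ⟨r, rfl⟩ : ∃ r, e = r + 1 := ⟨e - 1, by omega⟩
    rw [hf.qCoeff_prime_pow_of_dvd p r hp hpN]
    ring

/-- **(E1)** A normalized eigenform is an eigenvector of `T_p`, `p ∤ N`, with eigenvalue `a_p`. -/
theorem heckeTLin_eq_of_eigenform
    {f : CuspForm (Gamma0 N) 2} (hf : f.IsNormalizedEigenform) {p : ℕ} (hp : p.Prime)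
    (hpN : ¬ p ∣ N) :
    CuspForm.heckeTLin 2 hp hpN f = qCoeff ⇑f p • f := by
  apply cusp_ext_qCoeff
  intro n
  rw [qCoeff_smul_cusp, CuspForm.coe_heckeTLin_apply, qCoeff_heckeT_cusp 2 f hp.ne_zero,
    coeffHeckeT_apply, ← coeff_mul_prime_of_not_dvd hf hp hpN n]
  norm_num

/-- **(E1)** function-level version. -/
theorem heckeT_eq_of_eigenform
    {f : CuspForm (Gamma0 N) 2} (hf : f.IsNormalizedEigenform) {p : ℕ} (hp : p.Prime)
    (hpN : ¬ p ∣ N) :
    heckeT 2 p ⇑f = qCoeff ⇑f p • ⇑f := by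
  have := congrArg (fun g : CuspForm (Gamma0 N) 2 => (⇑g : ℍ → ℂ)) (heckeTLin_eq_of_eigenform hf hp hpN)
  simpa using this

/-- **(E1)** A normalized eigenform is an eigenvector of `U_p`, `p ∣ N`, with eigenvalue `a_p`. -/
theorem heckeULin_eq_of_eigenform [NeZero N]
    {f : CuspForm (Gamma0 N) 2} (hf : f.IsNormalizedEigenform) {p : ℕ} (hp : p.Prime)
    (hpN : p ∣ N) :
    CuspForm.heckeULin 2 hpN f = qCoeff ⇑f p • f := by
  apply cusp_ext_qCoeff
  intro n
  rw [qCoeff_smul_cusp, CuspForm.coe_heckeULin_apply, qCoeff_heckeU_cusp 2 f hp.ne_zero,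
    coeffHeckeU_apply, coeff_mul_prime_of_dvd hf hp hpN n]

theorem heckeU_eq_of_eigenform [NeZero N]
    {f : CuspForm (Gamma0 N) 2} (hf : f.IsNormalizedEigenform) {p : ℕ} (hp : p.Prime)
    (hpN : p ∣ N) :
    heckeU 2 p ⇑f = qCoeff ⇑f p • ⇑f := by
  have := congrArg (fun g : CuspForm (Gamma0 N) 2 => (⇑g : ℍ → ℂ)) (heckeULin_eq_of_eigenform hf hp hpN)
  simpa using this

/-! ### From the Hecke relations to the multiplicative relations -/

/-- Coefficientwise form of `T_p g = c • g`. -/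
theorem coeff_of_heckeT_eq (g : CuspForm (Gamma0 N) 2) {p : ℕ} (hp : p.Prime) (c : ℂ)
    (h : heckeT 2 p ⇑g = c • ⇑g) (n : ℕ) :
    qCoeff ⇑g (n * p) + (if p ∣ n then (p : ℂ) * qCoeff ⇑g (n / p) else 0)
      = c * qCoeff ⇑g n := by
  have h1 := qCoeff_heckeT_cusp 2 g hp.ne_zero n
  rw [h, coeffHeckeT_apply] at h1
  have h2 := qCoeff_smul_cusp 2 c g n
  rw [FunLike.coe_smul] at h2
  rw [← h2, h1]
  norm_num

/-- Coefficientwise form of `U_p g = c • g`. -/
theorem coeff_of_heckeU_eq (g : CuspForm (Gamma0 N) 2) {p : ℕ} (hp : p.Prime) (c : ℂ)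
    (h : heckeU 2 p ⇑g = c • ⇑g) (n : ℕ) :
    qCoeff ⇑g (n * p) = c * qCoeff ⇑g n := by
  have h1 := qCoeff_heckeU_cusp 2 g hp.ne_zero n
  rw [h, coeffHeckeU_apply] at h1
  have h2 := qCoeff_smul_cusp 2 c g n
  rw [FunLike.coe_smul] at h2
  rw [← h2, h1]

/-- If `g` is an eigenvector of every `T_p` (`p ∤ N`) and `U_p` (`p ∣ N`) and `a₁(g) = 0`,
then `g = 0`. -/
theorem eq_zero_of_eigen_of_coeff_one_eq_zero (g : CuspForm (Gamma0 N) 2)
    (hT : ∀ p : ℕ, p.Prime → ¬ p ∣ N → ∃ c : ℂ, heckeT 2 p ⇑g = c • ⇑g)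
    (hU : ∀ p : ℕ, p.Prime → p ∣ N → ∃ c : ℂ, heckeU 2 p ⇑g = c • ⇑g)
    (h1 : qCoeff ⇑g 1 = 0) : g = 0 := by
  apply cusp_eq_zero_of_qCoeff
  intro n
  induction n using Nat.strong_induction_on with
  | _ n ih =>
    rcases Nat.eq_zero_or_pos n with rfl | hn
    · exact qCoeff_zero_cusp 2 g
    rcases Nat.eq_or_lt_of_le (Nat.succ_le_of_lt hn) with h | h
    · rw [← h]; exact h1
    · have hn1 : n ≠ 1 := by omega
      obtain ⟨p, hp, hpn⟩ := Nat.exists_prime_and_dvd hn1
      obtain ⟨m, rfl⟩ := hpn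
      have hm : 0 < m := Nat.pos_of_ne_zero (by rintro rfl; simp at hn)
      have hlt : m < p * m := by
        have := hp.one_lt
        nlinarith
      rw [mul_comm p m]
      by_cases hpN : p ∣ N
      · obtain ⟨c, hc⟩ := hU p hp hpN
        rw [coeff_of_heckeU_eq g hp c hc m, ih m hlt, mul_zero]
      · obtain ⟨c, hc⟩ := hT p hp hpN
        have := coeff_of_heckeT_eq g hp c hc m
        rw [ih m hlt, mul_zero] at this
        by_cases hpm : p ∣ m
        · rw [if_pos hpm, ih (m / p) (lt_of_le_of_lt (Nat.div_le_self m p) hlt), mul_zero,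
            add_zero] at this
          exact this
        · rw [if_neg hpm, add_zero] at this
          exact this

/-- The eigenvalue of `T_p` on a normalised form is `a_p`. -/
theorem eigenvalue_T_eq_coeff (g : CuspForm (Gamma0 N) 2) (h1 : qCoeff ⇑g 1 = 1)
    {p : ℕ} (hp : p.Prime) (c : ℂ) (h : heckeT 2 p ⇑g = c • ⇑g) : c = qCoeff ⇑g p := by
  have := coeff_of_heckeT_eq g hp c h 1
  have hp1 : ¬ p ∣ 1 := fun h => hp.one_lt.ne' (Nat.dvd_one.mp h)
  rw [if_neg hp1, h1, one_mul, add_zero, mul_one] at this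
  exact this.symm

/-- The eigenvalue of `U_p` on a normalised form is `a_p`. -/
theorem eigenvalue_U_eq_coeff (g : CuspForm (Gamma0 N) 2) (h1 : qCoeff ⇑g 1 = 1)
    {p : ℕ} (hp : p.Prime) (c : ℂ) (h : heckeU 2 p ⇑g = c • ⇑g) : c = qCoeff ⇑g p := by
  have := coeff_of_heckeU_eq g hp c h 1
  rw [h1, one_mul, mul_one] at this
  exact this.symm

/-- **(E1')** A cusp form with `a₁ = 1` which is an eigenvector of every `T_p` (`p ∤ N`) and every
`U_p` (`p ∣ N`) is a normalized eigenform in the sense of the Prelude. -/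
theorem isNormalizedEigenform_of_eigen (g : CuspForm (Gamma0 N) 2) (h1 : qCoeff ⇑g 1 = 1)
    (hT : ∀ p : ℕ, p.Prime → ¬ p ∣ N → ∃ c : ℂ, heckeT 2 p ⇑g = c • ⇑g)
    (hU : ∀ p : ℕ, p.Prime → p ∣ N → ∃ c : ℂ, heckeU 2 p ⇑g = c • ⇑g) :
    g.IsNormalizedEigenform := by
  -- the two recursions
  have recT : ∀ p : ℕ, p.Prime → ¬ p ∣ N → ∀ n : ℕ,
      qCoeff ⇑g (n * p) + (if p ∣ n then (p : ℂ) * qCoeff ⇑g (n / p) else 0)
        = qCoeff ⇑g p * qCoeff ⇑g n := by
    intro p hp hpN n
    obtain ⟨c, hc⟩ := hT p hp hpN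
    rw [← eigenvalue_T_eq_coeff g h1 hp c hc]
    exact coeff_of_heckeT_eq g hp c hc n
  have recU : ∀ p : ℕ, p.Prime → p ∣ N → ∀ n : ℕ,
      qCoeff ⇑g (n * p) = qCoeff ⇑g p * qCoeff ⇑g n := by
    intro p hp hpN n
    obtain ⟨c, hc⟩ := hU p hp hpN
    rw [← eigenvalue_U_eq_coeff g h1 hp c hc]
    exact coeff_of_heckeU_eq g hp c hc n
  refine ⟨h1, ?_, ?_, ?_⟩
  · -- multiplicativity
    intro m n
    induction n using Nat.strong_induction_on generalizing m with
    | _ n ih =>
      intro hmn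
      rcases Nat.eq_zero_or_pos n with rfl | hn
      · have hm1 : m = 1 := by simpa using hmn
        subst hm1
        simp [h1]
      rcases Nat.eq_or_lt_of_le (Nat.succ_le_of_lt hn) with h | h
      · rw [← h]; simp [h1]
      have hn1 : n ≠ 1 := by omega
      obtain ⟨p, hp, hpn⟩ := Nat.exists_prime_and_dvd hn1
      obtain ⟨n', rfl⟩ := hpn
      have hn' : 0 < n' := Nat.pos_of_ne_zero (by rintro rfl; simp at hn)
      have hlt : n' < p * n' := by
        have := hp.one_lt
        nlinarith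
      have hmn' : Nat.Coprime m n' := Nat.Coprime.coprime_mul_left_right hmn
      have hmp : Nat.Coprime m p := Nat.Coprime.coprime_mul_right_right hmn
      have hpm : ¬ p ∣ m := fun h =>
        hp.one_lt.ne' (Nat.Coprime.eq_one_of_dvd hmp.symm h)
      have e1 : m * (p * n') = m * n' * p := by ring
      have e2 : p * n' = n' * p := by ring
      have ihn' := ih n' hlt m hmn'
      by_cases hpN : p ∣ N
      · rw [e1, recU p hp hpN (m * n'), ihn', e2, recU p hp hpN n']
        ring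
      · have r1 := recT p hp hpN (m * n')
        have r2 := recT p hp hpN n'
        by_cases hpn' : p ∣ n'
        · have hd : p ∣ m * n' := Dvd.dvd.mul_left hpn' m
          rw [if_pos hd] at r1
          rw [if_pos hpn'] at r2
          have hlt2 : n' / p < p * n' := lt_of_le_of_lt (Nat.div_le_self n' p) hlt
          have hcop2 : Nat.Coprime m (n' / p) :=
            Nat.Coprime.coprime_dvd_right (Nat.div_dvd_of_dvd hpn') hmn'
          have e3 : m * n' / p = m * (n' / p) := Nat.mul_div_assoc m hpn'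
          rw [e3, ih (n' / p) hlt2 m hcop2, ihn'] at r1
          rw [e1, e2]
          linear_combination r1 - qCoeff ⇑g m * r2
        · have hd : ¬ p ∣ m * n' := fun h =>
            (hp.dvd_mul.mp h).elim hpm hpn'
          rw [if_neg hd, add_zero, ihn'] at r1
          rw [if_neg hpn', add_zero] at r2
          rw [e1, e2, r1, r2]
          ring
  · intro p r hp hpN
    have := recT p hp hpN (p ^ (r + 1))
    have hd : p ∣ p ^ (r + 1) := dvd_pow_self p (by omega)
    rw [if_pos hd] at this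
    have e1 : p ^ (r + 1) * p = p ^ (r + 2) := by ring
    have e2 : p ^ (r + 1) / p = p ^ r := by
      rw [pow_succ]; exact Nat.mul_div_cancel _ hp.pos
    rw [e1, e2] at this
    linear_combination this
  · intro p r hp hpN
    have := recU p hp hpN (p ^ (r + 1))
    have e1 : p ^ (r + 1) * p = p ^ (r + 2) := by ring
    rw [e1] at this
    exact this

end Fermat.Agent.Lib.Newform.H683

end
-- ===== PACK-END Lib/Newform/H683/Eigen.lean

-- ===== PACK-BEGIN Lib/Newform/H683/XIndep.lean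
section
/-
NEWFORM library, block X (helper683) — **X7 IndepLocal**: independence of the functions
`s ↦ p ^ (-s)`, `p` prime: an identity between products of one-variable polynomials in the
`p ^ (-s)` splits prime by prime, up to constants.

Pure algebra (Dedekind independence of characters + unique factorization); Mathlib only
(+ the frozen interface `H958/X/Spec.lean`).
-/


set_option autoImplicit false

open Complex Polynomial

namespace Fermat.Agent.Lib.Newform.H683

/-- the integer `∏ p ^ d p` attached to an exponent vector on the primes -/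
noncomputable def primeMonomial (d : Nat.Primes →₀ ℕ) : ℕ := d.prod fun p k => (p : ℕ) ^ k

theorem primeMonomial_ne_zero (d : Nat.Primes →₀ ℕ) : primeMonomial d ≠ 0 := by
  unfold primeMonomial Finsupp.prod
  exact Finset.prod_ne_zero_iff.mpr fun p _ => pow_ne_zero _ p.2.ne_zero

theorem primeMonomial_injective : Function.Injective primeMonomial := by
  intro d d' h
  have hinj : Function.Injective (fun p : Nat.Primes => (p : ℕ)) := Nat.Primes.coe_nat_injective
  have key : ∀ e : Nat.Primes →₀ ℕ,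
      (primeMonomial e).factorization = Finsupp.mapDomain (fun p : Nat.Primes => (p : ℕ)) e := by
    intro e
    have h1 : primeMonomial e =
        (Finsupp.mapDomain (fun p : Nat.Primes => (p : ℕ)) e).prod (· ^ ·) := by
      unfold primeMonomial
      rw [Finsupp.prod_mapDomain_index_inj hinj]
    rw [h1]
    apply Nat.prod_pow_factorization_eq_self
    intro p hp
    have := Finsupp.mapDomain_support hp
    simp only [Finset.mem_image] at this
    obtain ⟨q, -, rfl⟩ := this
    exact q.2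
  have h2 := key d
  rw [h, key d'] at h2
  exact (Finsupp.mapDomain_injective hinj h2).symm

/-- the character `s ↦ ∏ (p ^ (-s)) ^ d p` of the additive group of `ℂ` -/
noncomputable def primeChar (d : Nat.Primes →₀ ℕ) : Multiplicative ℂ →* ℂ where
  toFun s := ∏ i ∈ d.support, (((i : ℕ) : ℂ) ^ (-(Multiplicative.toAdd s))) ^ d i
  map_one' := by simp
  map_mul' s t := by
    rw [← Finset.prod_mul_distrib]
    refine Finset.prod_congr rfl fun i _ => ?_
    have hi : ((i : ℕ) : ℂ) ≠ 0 := Nat.cast_ne_zero.mpr i.2.ne_zero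
    rw [← mul_pow, toAdd_mul, neg_add, cpow_add _ _ hi]

theorem primeChar_apply (d : Nat.Primes →₀ ℕ) (s : ℂ) :
    primeChar d (Multiplicative.ofAdd s) = ∏ i ∈ d.support, (((i : ℕ) : ℂ) ^ (-s)) ^ d i := rfl

theorem primeChar_injective : Function.Injective primeChar := by
  intro d d' h
  apply primeMonomial_injective
  have h1 := congrArg (fun χ : Multiplicative ℂ →* ℂ => χ (Multiplicative.ofAdd (-1))) h
  simp only [primeChar_apply, neg_neg, cpow_one] at h1
  have h2 : ∀ e : Nat.Primes →₀ ℕ,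
      (∏ i ∈ e.support, (((i : ℕ) : ℂ)) ^ e i) = ((primeMonomial e : ℕ) : ℂ) := by
    intro e
    unfold primeMonomial Finsupp.prod
    push_cast
    rfl
  rw [h2, h2] at h1
  exact_mod_cast h1

/-- **Independence**: a polynomial in the functions `p ^ (-s)` which vanishes identically
is zero. -/
theorem mvPolynomial_eq_zero_of_eval_primes (G : MvPolynomial Nat.Primes ℂ)
    (h : ∀ s : ℂ, MvPolynomial.eval (fun p : Nat.Primes => ((p : ℕ) : ℂ) ^ (-s)) G = 0) :
    G = 0 := by
  have hli : LinearIndependent ℂ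
      ((fun f : Multiplicative ℂ →* ℂ => (f : Multiplicative ℂ → ℂ)) ∘ primeChar) :=
    (linearIndependent_monoidHom (Multiplicative ℂ) ℂ).comp primeChar primeChar_injective
  have hsum : ∑ d ∈ G.support, G.coeff d •
      ((fun f : Multiplicative ℂ →* ℂ => (f : Multiplicative ℂ → ℂ)) ∘ primeChar) d = 0 := by
    funext s
    have := h (Multiplicative.toAdd s)
    rw [MvPolynomial.eval_eq] at this
    simp only [Finset.sum_apply, Pi.smul_apply, Function.comp_apply, smul_eq_mul, Pi.zero_apply]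
    exact this
  have hzero := linearIndependent_iff'.mp hli G.support (fun d => G.coeff d) hsum
  by_contra hG
  obtain ⟨d, hd⟩ := MvPolynomial.support_nonempty.mpr hG |>.exists_mem
    |> fun ⟨d, hd⟩ => (⟨d, hd⟩ : ∃ d, d ∈ G.support)
  exact (MvPolynomial.mem_support_iff.mp hd) (hzero d hd)

/-- a nonzero complex polynomial has a non-root; two of them have a common non-root -/
theorem exists_eval_ne_zero_both {P Q : ℂ[X]} (hP : P ≠ 0) (hQ : Q ≠ 0) :
    ∃ x : ℂ, P.eval x ≠ 0 ∧ Q.eval x ≠ 0 := by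
  have hPQ : P * Q ≠ 0 := mul_ne_zero hP hQ
  by_contra hcon
  push Not at hcon
  apply hPQ
  apply Polynomial.eq_zero_of_infinite_isRoot
  have : {x : ℂ | (P * Q).IsRoot x} = Set.univ := by
    ext x
    simp only [Set.mem_univ, iff_true, Polynomial.IsRoot, Polynomial.eval_mul]
    by_cases h : P.eval x = 0
    · simp [h]
    · simp [hcon x h]
  rw [this]
  exact Set.infinite_univ

/-- **X7 IndepLocal.** -/
theorem indepLocal : Fermat.Agent.Lib.Newform.H958.X.IndepLocal := by
  classical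
  intro T hT A B hA hB hid q hq
  -- the two polynomials in the variables `X_p`
  let v : {p // p ∈ T} → Nat.Primes := fun p => ⟨p.1, hT p.1 p.2⟩
  let FA : MvPolynomial Nat.Primes ℂ :=
    ∏ p ∈ T.attach, Polynomial.aeval (MvPolynomial.X (v p) : MvPolynomial Nat.Primes ℂ) (A p.1)
  let FB : MvPolynomial Nat.Primes ℂ :=
    ∏ p ∈ T.attach, Polynomial.aeval (MvPolynomial.X (v p) : MvPolynomial Nat.Primes ℂ) (B p.1)
  have hev : ∀ (P : ℕ → ℂ[X]) (x : Nat.Primes → ℂ),
      MvPolynomial.eval x (∏ p ∈ T.attach,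
        Polynomial.aeval (MvPolynomial.X (v p) : MvPolynomial Nat.Primes ℂ) (P p.1))
        = ∏ p ∈ T.attach, (P p.1).eval (x (v p)) := by
    intro P x
    rw [map_prod]
    refine Finset.prod_congr rfl fun p _ => ?_
    have := Polynomial.aeval_algHom_apply (MvPolynomial.aeval x : MvPolynomial Nat.Primes ℂ →ₐ[ℂ] ℂ)
      (MvPolynomial.X (v p)) (P p.1)
    rw [MvPolynomial.aeval_X] at this
    rw [← MvPolynomial.coe_aeval_eq_eval]
    simpa [Polynomial.aeval_def, Polynomial.eval₂_eq_eval_map] using this.symm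
  have heq : FA = FB := by
    refine sub_eq_zero.mp (mvPolynomial_eq_zero_of_eval_primes (FA - FB) fun s => ?_)
    rw [map_sub, hev A, hev B, sub_eq_zero]
    have h1 := hid s
    rw [← Finset.prod_attach T, ← Finset.prod_attach T (fun p => (B p).eval ((p : ℂ) ^ (-s)))]
      at h1
    exact h1
  -- good evaluation points
  have hex : ∀ p : ℕ, ∃ x : ℂ, p ∈ T → ((A p).eval x ≠ 0 ∧ (B p).eval x ≠ 0) := by
    intro p
    by_cases hp : p ∈ T
    · obtain ⟨x, hx⟩ := exists_eval_ne_zero_both (hA p hp) (hB p hp)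
      exact ⟨x, fun _ => hx⟩
    · exact ⟨0, fun h => absurd h hp⟩
  choose x hx using hex
  -- specialise all variables except `X_q`
  let φ : MvPolynomial Nat.Primes ℂ →ₐ[ℂ] ℂ[X] :=
    MvPolynomial.aeval (fun p : Nat.Primes => if (p : ℕ) = q then (X : ℂ[X]) else C (x p))
  have hφ : ∀ (P : ℕ → ℂ[X]),
      φ (∏ p ∈ T.attach,
        Polynomial.aeval (MvPolynomial.X (v p) : MvPolynomial Nat.Primes ℂ) (P p.1))
        = P q * C (∏ p ∈ T.erase q, (P p).eval (x p)) := by
    intro P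
    rw [map_prod]
    have h1 : ∀ p : {p // p ∈ T},
        φ (Polynomial.aeval (MvPolynomial.X (v p) : MvPolynomial Nat.Primes ℂ) (P p.1))
          = (fun p : ℕ => if p = q then P p else C ((P p).eval (x p))) p.1 := by
      intro p
      rw [← Polynomial.aeval_algHom_apply, MvPolynomial.aeval_X]
      by_cases hpq : p.1 = q
      · have : ((v p : Nat.Primes) : ℕ) = q := hpq
        simp only [this, if_true, hpq]
        exact Polynomial.aeval_X_left_apply _
      · have : ¬ ((v p : Nat.Primes) : ℕ) = q := hpq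
        simp only [this, if_false, hpq]
        rw [Polynomial.C_eq_algebraMap, Polynomial.aeval_algebraMap_apply_eq_algebraMap_eval]
        rfl
    rw [Finset.prod_congr rfl (fun p _ => h1 p),
      Finset.prod_attach T (fun p : ℕ => if p = q then P p else C ((P p).eval (x p))),
      ← Finset.mul_prod_erase T _ hq, if_pos rfl, map_prod]
    congr 1
    refine Finset.prod_congr rfl fun p hp => ?_
    rw [if_neg (Finset.ne_of_mem_erase hp)]
  have hAB : A q * C (∏ p ∈ T.erase q, (A p).eval (x p))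
      = B q * C (∏ p ∈ T.erase q, (B p).eval (x p)) := by
    rw [← hφ A, ← hφ B]
    exact congrArg φ heq
  set α : ℂ := ∏ p ∈ T.erase q, (A p).eval (x p) with hα
  set β : ℂ := ∏ p ∈ T.erase q, (B p).eval (x p) with hβ
  have hα0 : α ≠ 0 := Finset.prod_ne_zero_iff.mpr fun p hp =>
    (hx p (Finset.mem_of_mem_erase hp)).1
  have hβ0 : β ≠ 0 := Finset.prod_ne_zero_iff.mpr fun p hp =>
    (hx p (Finset.mem_of_mem_erase hp)).2
  refine ⟨β * α⁻¹, mul_ne_zero hβ0 (inv_ne_zero hα0), ?_⟩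
  calc A q = A q * C α * C α⁻¹ := by
        rw [mul_assoc, ← C_mul, mul_inv_cancel₀ hα0, C_1, mul_one]
    _ = B q * C β * C α⁻¹ := by rw [hAB]
    _ = C (β * α⁻¹) * B q := by rw [C_mul]; ring

end Fermat.Agent.Lib.Newform.H683

end
-- ===== PACK-END Lib/Newform/H683/XIndep.lean

-- ===== PACK-BEGIN Lib/Newform/H683/XDeplete.lean
section
/-
NEWFORM library, block X (helper683) — **X5 Deplete**: multiplying the Dirichlet series of a
normalized eigenform by the Euler polynomials at the primes of a finite set `T` removes the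
coefficients `a_n` with `gcd(n, T) ≠ 1`.

`deplete_of : DirichletSeries → Deplete` (frozen interface `H958/X/Spec.lean`).
-/



set_option autoImplicit false

open CongruenceSubgroup UpperHalfPlane Complex Polynomial ModularFormClass

namespace Fermat.Agent.Lib.Newform.H683

open Fermat.Agent.Lib.Newform.H958.X

/-! ### Shifting a Dirichlet series by a prime -/

/-- the shift `b ↦ (n ↦ [p ∣ n] b (n / p))` on coefficient sequences -/
def dShift (p : ℕ) (b : ℕ → ℂ) (n : ℕ) : ℂ := if p ∣ n then b (n / p) else 0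

theorem dShift_mul {p : ℕ} (hp : 0 < p) (b : ℕ → ℂ) (m : ℕ) : dShift p b (m * p) = b m := by
  simp [dShift, Nat.mul_div_cancel m hp]

theorem dShift_of_not_dvd {p : ℕ} (b : ℕ → ℂ) {n : ℕ} (h : ¬ p ∣ n) : dShift p b n = 0 := by
  simp [dShift, h]

theorem hasSum_dShift {p : ℕ} (hp : 0 < p) (b : ℕ → ℂ) (s L : ℂ)
    (h : HasSum (fun n : ℕ => b n / (n : ℂ) ^ s) L) :
    HasSum (fun n : ℕ => dShift p b n / (n : ℂ) ^ s) ((p : ℂ) ^ (-s) * L) := by
  have hinj : Function.Injective (fun m : ℕ => m * p) := fun a c hac =>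
    Nat.eq_of_mul_eq_mul_right hp hac
  have hzero : ∀ x : ℕ, x ∉ Set.range (fun m : ℕ => m * p) →
      dShift p b x / (x : ℂ) ^ s = 0 := by
    intro x hx
    have : ¬ p ∣ x := fun ⟨m, hm⟩ => hx ⟨m, by simp [hm, mul_comm]⟩
    simp [dShift, this]
  rw [← hinj.hasSum_iff hzero]
  have hfun : ((fun n : ℕ => dShift p b n / (n : ℂ) ^ s) ∘ fun m : ℕ => m * p)
      = fun m : ℕ => (p : ℂ) ^ (-s) * (b m / (m : ℂ) ^ s) := by
    funext m
    simp only [Function.comp_apply, dShift_mul hp]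
    rw [Nat.cast_mul, natCast_mul_natCast_cpow, cpow_neg]
    field_simp
  rw [hfun]
  exact h.mul_left _

/-! ### The local relation -/

/-- the depleted coefficient sequence -/
noncomputable def depl (T : Finset ℕ) (a : ℕ → ℂ) (n : ℕ) : ℂ :=
  haveI : Decidable (∀ p ∈ T, ¬ p ∣ n) := Classical.dec _
  if ∀ p ∈ T, ¬ p ∣ n then a n else 0

theorem depl_pos {T : Finset ℕ} {a : ℕ → ℂ} {n : ℕ} (h : ∀ p ∈ T, ¬ p ∣ n) :
    depl T a n = a n := by
  unfold depl; exact if_pos h

theorem depl_neg {T : Finset ℕ} {a : ℕ → ℂ} {n : ℕ} (h : ¬ ∀ p ∈ T, ¬ p ∣ n) :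
    depl T a n = 0 := by
  unfold depl; exact if_neg h

theorem depl_insert_eq {N : ℕ} (f : CuspForm (Gamma0 N) 2) (hf : f.IsNormalizedEigenform)
    (T : Finset ℕ) (hT : ∀ q ∈ T, q.Prime) {p : ℕ} (hp : p.Prime) (hpT : p ∉ T) (n : ℕ) :
    depl (insert p T) (qCoeff ⇑f) n =
      depl T (qCoeff ⇑f) n - qCoeff ⇑f p * dShift p (depl T (qCoeff ⇑f)) n
        + (if p ∣ N then 0 else (p : ℂ)) * dShift p (dShift p (depl T (qCoeff ⇑f))) n := by
  have hcond : ∀ m : ℕ, (∀ q ∈ T, ¬ q ∣ m * p) ↔ (∀ q ∈ T, ¬ q ∣ m) := by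
    intro m
    refine forall₂_congr (fun q hq => ?_)
    have hqp : ¬ q ∣ p := fun h =>
      hpT (((Nat.prime_dvd_prime_iff_eq (hT q hq) hp).mp h) ▸ hq)
    constructor
    · exact fun h h' => h (Dvd.dvd.mul_right h' p)
    · intro h h'
      rcases ((hT q hq).dvd_mul).mp h' with h1 | h1
      · exact h h1
      · exact hqp h1
  by_cases hpn : p ∣ n
  · obtain ⟨m, rfl⟩ := hpn
    have hins : ¬ (∀ q ∈ insert p T, ¬ q ∣ p * m) := fun h =>
      h p (Finset.mem_insert_self p T) (dvd_mul_right p m)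
    rw [depl_neg hins, mul_comm p m, dShift_mul hp.pos]
    by_cases hpN : p ∣ N
    · have r := coeff_mul_prime_of_dvd hf hp hpN m
      rw [if_pos hpN, zero_mul, add_zero]
      by_cases hm : ∀ q ∈ T, ¬ q ∣ m
      · rw [depl_pos ((hcond m).mpr hm), depl_pos hm, r]; ring
      · rw [depl_neg (fun h => hm ((hcond m).mp h)), depl_neg hm]; ring
    · have r := coeff_mul_prime_of_not_dvd hf hp hpN m
      rw [if_neg hpN]
      by_cases hpm : p ∣ m
      · obtain ⟨m', rfl⟩ := hpm
        rw [mul_comm p m'] at r ⊢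
        rw [if_pos (dvd_mul_left p m'), Nat.mul_div_cancel m' hp.pos] at r
        rw [dShift_mul hp.pos, dShift_mul hp.pos]
        by_cases hm : ∀ q ∈ T, ¬ q ∣ m'
        · have hm1 : ∀ q ∈ T, ¬ q ∣ m' * p := (hcond m').mpr hm
          have hm2 : ∀ q ∈ T, ¬ q ∣ m' * p * p := (hcond (m' * p)).mpr hm1
          rw [depl_pos hm2, depl_pos hm1, depl_pos hm]
          linear_combination (-1 : ℂ) * r
        · have hm1 : ¬ ∀ q ∈ T, ¬ q ∣ m' * p := fun h => hm ((hcond m').mp h)
          have hm2 : ¬ ∀ q ∈ T, ¬ q ∣ m' * p * p := fun h => hm1 ((hcond (m' * p)).mp h)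
          rw [depl_neg hm2, depl_neg hm1, depl_neg hm]; ring
      · rw [if_neg hpm, add_zero] at r
        rw [dShift_mul hp.pos, dShift_of_not_dvd _ hpm, mul_zero, add_zero]
        by_cases hm : ∀ q ∈ T, ¬ q ∣ m
        · rw [depl_pos ((hcond m).mpr hm), depl_pos hm, r]; ring
        · rw [depl_neg (fun h => hm ((hcond m).mp h)), depl_neg hm]; ring
  · have hiff : (∀ q ∈ insert p T, ¬ q ∣ n) ↔ (∀ q ∈ T, ¬ q ∣ n) := by
      constructor
      · exact fun h q hq => h q (Finset.mem_insert_of_mem hq)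
      · intro h q hq
        rcases Finset.mem_insert.mp hq with rfl | hq
        · exact hpn
        · exact h q hq
    rw [dShift_of_not_dvd _ hpn, dShift_of_not_dvd _ hpn, mul_zero, mul_zero, sub_zero, add_zero]
    by_cases hm : ∀ q ∈ T, ¬ q ∣ n
    · rw [depl_pos (hiff.mpr hm), depl_pos hm]
    · rw [depl_neg (fun h => hm (hiff.mp h)), depl_neg hm]

/-- the Spec's depleted sequence is `depl` -/
theorem ite_eq_depl (T : Finset ℕ) (a : ℕ → ℂ) (n : ℕ) [Decidable (∀ p ∈ T, ¬ p ∣ n)] :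
    (if ∀ p ∈ T, ¬ p ∣ n then a n else 0) = depl T a n := by
  by_cases h : ∀ p ∈ T, ¬ p ∣ n
  · rw [if_pos h, depl_pos h]
  · rw [if_neg h, depl_neg h]

theorem eval_eulerPoly (N : ℕ) (a : ℕ → ℂ) (p : ℕ) (x : ℂ) :
    (eulerPoly N a p).eval x = 1 - a p * x + (if p ∣ N then 0 else (p : ℂ)) * x ^ 2 := by
  unfold eulerPoly
  by_cases h : p ∣ N
  · simp [h]
  · simp [h]

/-- **X5 Deplete**, from the Dirichlet series `X4`. -/
theorem deplete_of (h4 : DirichletSeries) : Deplete := by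
  classical
  intro N _ f hf T
  induction T using Finset.induction_on with
  | empty =>
    intro _ s hs
    simpa using h4 N f s hs
  | insert p T hpT ih =>
    intro hT s hs
    have hp : p.Prime := hT p (Finset.mem_insert_self p T)
    have hT' : ∀ q ∈ T, q.Prime := fun q hq => hT q (Finset.mem_insert_of_mem hq)
    have h0 := ih hT' s hs
    set L : ℂ := Lam f s * (2 / Gammaℂ s) *
      ∏ q ∈ T, (eulerPoly N (qCoeff ⇑f) q).eval ((q : ℂ) ^ (-s)) with hL
    have hb : HasSum (fun n : ℕ => depl T (qCoeff ⇑f) n / (n : ℂ) ^ s) L := by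
      convert h0 using 2 with n
      rw [ite_eq_depl]
    have hb1 := hasSum_dShift hp.pos _ s L hb
    have hb2 := hasSum_dShift hp.pos _ s _ hb1
    have hsum := (hb.sub (hb1.mul_left (qCoeff ⇑f p))).add
      (hb2.mul_left (if p ∣ N then 0 else (p : ℂ)))
    have hfun : (fun n : ℕ => (if ∀ q ∈ insert p T, ¬ q ∣ n then qCoeff ⇑f n else 0)
        / (n : ℂ) ^ s) =
        fun n : ℕ => depl T (qCoeff ⇑f) n / (n : ℂ) ^ s
          - qCoeff ⇑f p * (dShift p (depl T (qCoeff ⇑f)) n / (n : ℂ) ^ s)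
          + (if p ∣ N then 0 else (p : ℂ)) *
              (dShift p (dShift p (depl T (qCoeff ⇑f))) n / (n : ℂ) ^ s) := by
      funext n
      rw [ite_eq_depl, depl_insert_eq f hf T hT' hp hpT n]
      ring
    rw [hfun, Finset.prod_insert hpT, eval_eulerPoly]
    have hval : (L - qCoeff ⇑f p * ((p : ℂ) ^ (-s) * L)
        + (if p ∣ N then 0 else (p : ℂ)) * ((p : ℂ) ^ (-s) * ((p : ℂ) ^ (-s) * L)))
        = Lam f s * (2 / Gammaℂ s) *
          ((1 - qCoeff ⇑f p * (p : ℂ) ^ (-s)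
              + (if p ∣ N then 0 else (p : ℂ)) * ((p : ℂ) ^ (-s)) ^ 2) *
            ∏ q ∈ T, (eulerPoly N (qCoeff ⇑f) q).eval ((q : ℂ) ^ (-s))) := by
      rw [hL]; ring
    rw [hval] at hsum
    exact hsum

end Fermat.Agent.Lib.Newform.H683

end
-- ===== PACK-END Lib/Newform/H683/XDeplete.lean

-- ===== PACK-BEGIN Lib/Newform/H683/XDepleteMain.lean
section
/-
NEWFORM library, block X (helper683) — **X5 Deplete**, unconditional
(`H958.X.dirichletSeries` is on main).
-/



set_option autoImplicit false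

namespace Fermat.Agent.Lib.Newform.H683

/-- **X5 Deplete** (unconditional). -/
theorem deplete : Fermat.Agent.Lib.Newform.H958.X.Deplete :=
  deplete_of Fermat.Agent.Lib.Newform.H958.X.dirichletSeries

end Fermat.Agent.Lib.Newform.H683

end
-- ===== PACK-END Lib/Newform/H683/XDepleteMain.lean

-- ===== PACK-BEGIN Lib/Newform/H683/FinDim.lean
section
/-
NEWFORM library (helper683) — `S_k(Γ₀(N))` is finite-dimensional (from the Prelude Sturm bound).
-/



set_option autoImplicit false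

open CongruenceSubgroup ModularFormClass ModularForm UpperHalfPlane

namespace Fermat.Agent.Lib.Newform.H683

variable {N : ℕ}

theorem qCoeff_add_cusp (k : ℤ) (f g : CuspForm (Gamma0 N) k) (n : ℕ) :
    qCoeff ⇑(f + g) n = qCoeff ⇑f n + qCoeff ⇑g n := by
  have h1 := CongruenceSubgroup.one_mem_strictPeriods_Gamma0 N
  unfold qCoeff
  rw [FunLike.coe_add, UpperHalfPlane.qExpansion_add
    (ModularFormClass.analyticAt_cuspFunction_zero f one_pos h1)
    (ModularFormClass.analyticAt_cuspFunction_zero g one_pos h1)]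
  simp

/-- the `n`-th `q`-coefficient as a linear functional on cusp forms -/
noncomputable def coeffLin (N : ℕ) (k : ℤ) (n : ℕ) : CuspForm (Gamma0 N) k →ₗ[ℂ] ℂ where
  toFun f := qCoeff ⇑f n
  map_add' f g := qCoeff_add_cusp k f g n
  map_smul' c f := by
    simp only [RingHom.id_apply, smul_eq_mul]
    exact qCoeff_smul_cusp k c f n

@[simp] theorem coeffLin_apply (N : ℕ) (k : ℤ) (n : ℕ) (f : CuspForm (Gamma0 N) k) :
    coeffLin N k n f = qCoeff ⇑f n := rfl

/-- the Sturm truncation map -/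
noncomputable def sturmTrunc (N : ℕ) (k : ℤ) :
    CuspForm (Gamma0 N) k →ₗ[ℂ] (Fin ((k * (Gamma0 N).index).toNat / 12 + 1) → ℂ) :=
  LinearMap.pi fun i => coeffLin N k i

theorem sturmTrunc_injective (N : ℕ) [NeZero N] (k : ℤ) :
    Function.Injective (sturmTrunc N k) := by
  rw [← LinearMap.ker_eq_bot, LinearMap.ker_eq_bot']
  intro f hf
  have hg : CuspForm.toModularFormₗ f = 0 := by
    refine ModularForm.sturm_bound_Gamma0 N _ (fun n hn => ?_)
    have := congrFun hf ⟨n, Nat.lt_succ_of_le hn⟩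
    have h2 : (⇑(CuspForm.toModularFormₗ f) : ℍ → ℂ) = ⇑f := rfl
    rw [h2]
    simpa [sturmTrunc, qCoeff] using this
  exact CuspForm.toModularFormₗ_injective (by simpa using hg)

theorem finiteDimensional_cuspForm (N : ℕ) [NeZero N] (k : ℤ) :
    FiniteDimensional ℂ (CuspForm (Gamma0 N) k) :=
  FiniteDimensional.of_injective (sturmTrunc N k) (sturmTrunc_injective N k)

end Fermat.Agent.Lib.Newform.H683

end
-- ===== PACK-END Lib/Newform/H683/FinDim.lean

-- ===== PACK-BEGIN Lib/Newform/H683/Extract.lean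
section
/-
NEWFORM library (helper683) — part 3: EXTRACTION of a normalized eigenform from any nonzero
common eigenvector of the good Hecke operators, and existence of a newform below any eigenform.
-/







set_option autoImplicit false

open CongruenceSubgroup ModularFormClass ModularForm UpperHalfPlane

namespace Fermat.Agent.Lib.Newform.H683

variable {M : ℕ}

/-- The full family of Hecke operators at level `M`, indexed by the primes:
`T_p` for `p ∤ M` and `U_p` for `p ∣ M`. -/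
noncomputable def heckeFamily (M : ℕ) [NeZero M] (p : Nat.Primes) :
    Module.End ℂ (CuspForm (Gamma0 M) 2) :=
  if hpM : (p : ℕ) ∣ M then CuspForm.heckeULin 2 hpM else CuspForm.heckeTLin 2 p.2 hpM

theorem heckeFamily_of_dvd [NeZero M] (p : Nat.Primes) (hpM : (p : ℕ) ∣ M) :
    heckeFamily M p = CuspForm.heckeULin 2 hpM := by
  simp [heckeFamily, hpM]

theorem heckeFamily_of_not_dvd [NeZero M] (p : Nat.Primes) (hpM : ¬ (p : ℕ) ∣ M) :
    heckeFamily M p = CuspForm.heckeTLin 2 p.2 hpM := by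
  simp [heckeFamily, hpM]

theorem heckeFamily_commute [NeZero M] (p q : Nat.Primes) :
    Commute (heckeFamily M p) (heckeFamily M q) := by
  by_cases hp : (p : ℕ) ∣ M <;> by_cases hq : (q : ℕ) ∣ M
  · rw [heckeFamily_of_dvd p hp, heckeFamily_of_dvd q hq]
    exact CuspForm.heckeULin_comm 2 hp hq
  · rw [heckeFamily_of_dvd p hp, heckeFamily_of_not_dvd q hq]
    exact (CuspForm.heckeTLin_heckeULin_comm 2 q.2 hq hp).symm
  · rw [heckeFamily_of_not_dvd p hp, heckeFamily_of_dvd q hq]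
    exact CuspForm.heckeTLin_heckeULin_comm 2 p.2 hp hq
  · rw [heckeFamily_of_not_dvd p hp, heckeFamily_of_not_dvd q hq]
    exact CuspForm.heckeTLin_comm 2 p.2 hp q.2 hq

/-- The simultaneous eigenspace of the `T_ℓ`, `ℓ ∤ M`, `ℓ ∈ P`, for the eigenvalues `a ℓ`. -/
noncomputable def eigenSub (M : ℕ) [NeZero M] (P : ℕ → Prop) (a : ℕ → ℂ) :
    Submodule ℂ (CuspForm (Gamma0 M) 2) where
  carrier := {v | ∀ ℓ : ℕ, ℓ.Prime → ¬ ℓ ∣ M → P ℓ → heckeT 2 ℓ ⇑v = a ℓ • ⇑v}
  add_mem' := by
    intro v w hv hw ℓ h1 h2 h3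
    rw [FunLike.coe_add, heckeT_add, hv ℓ h1 h2 h3, hw ℓ h1 h2 h3, smul_add]
  zero_mem' := by
    intro ℓ _ _ _
    rw [FunLike.coe_zero, heckeT_zero, smul_zero]
  smul_mem' := by
    intro c v hv ℓ h1 h2 h3
    rw [FunLike.coe_smul, heckeT_smul, hv ℓ h1 h2 h3, smul_comm]

theorem mem_eigenSub [NeZero M] (P : ℕ → Prop) (a : ℕ → ℂ) (v : CuspForm (Gamma0 M) 2) :
    v ∈ eigenSub M P a ↔
      ∀ ℓ : ℕ, ℓ.Prime → ¬ ℓ ∣ M → P ℓ → heckeT 2 ℓ ⇑v = a ℓ • ⇑v := Iff.rfl

theorem eigenSub_stable [NeZero M] (P : ℕ → Prop) (a : ℕ → ℂ) (p : Nat.Primes)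
    (v : CuspForm (Gamma0 M) 2) (hv : v ∈ eigenSub M P a) :
    heckeFamily M p v ∈ eigenSub M P a := by
  intro ℓ hℓ hℓM hPℓ
  have hcm := heckeFamily_commute (M := M) ⟨ℓ, hℓ⟩ p
  rw [heckeFamily_of_not_dvd ⟨ℓ, hℓ⟩ hℓM] at hcm
  have h1 : CuspForm.heckeTLin 2 hℓ hℓM (heckeFamily M p v)
      = heckeFamily M p (CuspForm.heckeTLin 2 hℓ hℓM v) := by
    have := congrArg (fun f : Module.End ℂ (CuspForm (Gamma0 M) 2) => f v) hcm.eq
    simpa using this
  have h2 : CuspForm.heckeTLin 2 hℓ hℓM v = a ℓ • v := by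
    apply DFunLike.coe_injective
    rw [CuspForm.coe_heckeTLin_apply, hv ℓ hℓ hℓM hPℓ, FunLike.coe_smul]
  rw [h2, map_smul] at h1
  have := congrArg (fun g : CuspForm (Gamma0 M) 2 => (⇑g : ℍ → ℂ)) h1
  simpa using this

/-- **(E2) Extraction.** If some nonzero cusp form of level `M` is an eigenvector of the `T_ℓ`
for all primes `ℓ ∤ M` in a set `P`, with eigenvalues `a ℓ`, then there is a *normalized
eigenform* (Prelude sense: all `T_p`, `p ∤ M`, and all `U_p`, `p ∣ M`) of level `M` whose `ℓ`-th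
coefficient is `a ℓ` for all those `ℓ`. -/
theorem exists_normalizedEigenform_of_eigenvector [NeZero M] (P : ℕ → Prop) (a : ℕ → ℂ)
    (h : CuspForm (Gamma0 M) 2) (hh : h ≠ 0)
    (heig : ∀ ℓ : ℕ, ℓ.Prime → ¬ ℓ ∣ M → P ℓ → heckeT 2 ℓ ⇑h = a ℓ • ⇑h) :
    ∃ g : CuspForm (Gamma0 M) 2, g.IsNormalizedEigenform ∧
      ∀ ℓ : ℕ, ℓ.Prime → ¬ ℓ ∣ M → P ℓ → qCoeff ⇑g ℓ = a ℓ := by
  haveI := finiteDimensional_cuspForm M 2
  have hE : eigenSub M P a ≠ ⊥ := by
    intro hbot
    have : h ∈ (⊥ : Submodule ℂ (CuspForm (Gamma0 M) 2)) := hbot ▸ heig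
    exact hh (by simpa using this)
  obtain ⟨g₀, hg₀E, hg₀, hg₀eig⟩ := exists_common_eigenvector (heckeFamily M)
    heckeFamily_commute (eigenSub M P a) hE (fun p v hv => eigenSub_stable P a p v hv)
  have hT : ∀ p : ℕ, p.Prime → ¬ p ∣ M → ∃ c : ℂ, heckeT 2 p ⇑g₀ = c • ⇑g₀ := by
    intro p hp hpM
    obtain ⟨c, hc⟩ := hg₀eig ⟨p, hp⟩
    rw [heckeFamily_of_not_dvd ⟨p, hp⟩ hpM] at hc
    refine ⟨c, ?_⟩
    have := congrArg (fun g : CuspForm (Gamma0 M) 2 => (⇑g : ℍ → ℂ)) hc
    simpa using this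
  have hU : ∀ p : ℕ, p.Prime → p ∣ M → ∃ c : ℂ, heckeU 2 p ⇑g₀ = c • ⇑g₀ := by
    intro p hp hpM
    obtain ⟨c, hc⟩ := hg₀eig ⟨p, hp⟩
    rw [heckeFamily_of_dvd ⟨p, hp⟩ hpM] at hc
    refine ⟨c, ?_⟩
    have := congrArg (fun g : CuspForm (Gamma0 M) 2 => (⇑g : ℍ → ℂ)) hc
    simpa using this
  have h1 : qCoeff ⇑g₀ 1 ≠ 0 := fun h0 =>
    hg₀ (eq_zero_of_eigen_of_coeff_one_eq_zero g₀ hT hU h0)
  set c₀ : ℂ := (qCoeff ⇑g₀ 1)⁻¹ with hc₀
  have hc₀ne : c₀ ≠ 0 := inv_ne_zero h1
  refine ⟨c₀ • g₀, ?_, ?_⟩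
  · apply isNormalizedEigenform_of_eigen
    · rw [qCoeff_smul_cusp, hc₀, inv_mul_cancel₀ h1]
    · intro p hp hpM
      obtain ⟨c, hc⟩ := hT p hp hpM
      exact ⟨c, by rw [FunLike.coe_smul, heckeT_smul, hc, smul_comm]⟩
    · intro p hp hpM
      obtain ⟨c, hc⟩ := hU p hp hpM
      exact ⟨c, by rw [FunLike.coe_smul, heckeU_smul, hc, smul_comm]⟩
  · intro ℓ hℓ hℓM hPℓ
    have hmem : c₀ • g₀ ∈ eigenSub M P a := Submodule.smul_mem _ _ hg₀E
    have := eigenvalue_T_eq_coeff (c₀ • g₀)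
      (by rw [qCoeff_smul_cusp, hc₀, inv_mul_cancel₀ h1]) hℓ (a ℓ) (hmem ℓ hℓ hℓM hPℓ)
    exact this.symm

/-- **(E3) Newform below.** Every normalized eigenform `f` of level `N` shares its good
eigenvalues with a *newform* (Prelude sense) of some level `M ∣ N`. -/
theorem exists_newform_below {N : ℕ} (hN : N ≠ 0) (f : CuspForm (Gamma0 N) 2)
    (hf : f.IsNormalizedEigenform) :
    ∃ (M : ℕ) (_ : M ∣ N) (g : CuspForm (Gamma0 M) 2), g.IsNewform ∧
      ∀ ℓ : ℕ, ℓ.Prime → ¬ ℓ ∣ N → qCoeff ⇑g ℓ = qCoeff ⇑f ℓ := by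
  induction N using Nat.strong_induction_on with
  | _ N ih =>
    by_cases hnew : f.IsNewform
    · exact ⟨N, dvd_rfl, f, hnew, fun _ _ _ => rfl⟩
    · have : ∃ M : ℕ, M ∣ N ∧ M ≠ N ∧ CuspForm.GoodEigensystemOccursAt f M := by
        by_contra hcon
        push Not at hcon
        exact hnew ⟨hf, fun M hM hMN hocc => hcon M hM hMN hocc⟩
      obtain ⟨M, hMN, hne, g, hg, hgf⟩ := this
      have hM0 : M ≠ 0 := fun h0 => hN (by simpa [h0] using hMN)
      have hlt : M < N := lt_of_le_of_ne (Nat.le_of_dvd (Nat.pos_of_ne_zero hN) hMN) hne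
      obtain ⟨M', hM'M, g', hg', hg'g⟩ := ih M hlt hM0 g hg
      refine ⟨M', hM'M.trans hMN, g', hg', fun ℓ hℓ hℓN => ?_⟩
      rw [hg'g ℓ hℓ (fun h => hℓN (h.trans hMN)), hgf ℓ hℓ hℓN]

end Fermat.Agent.Lib.Newform.H683

end
-- ===== PACK-END Lib/Newform/H683/Extract.lean

-- ===== PACK-BEGIN Lib/Newform/H803/Ops.lean
section



/-!
# Averaging operators on `Γ(N)`-invariant functions (helper803)

* `SlInv k Γ F` : `F` is invariant under the weight `k` slash action of `Γ ≤ SL(2, ℤ)`;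
* `avg k N J F` : average of `F ∣[k] γ` over `γ ∈ J` modulo `Γ(N)`;
* `avgT k x p F` : `p⁻¹ ∑_{j < p} F ∣[k] T^{j x}`.
-/

set_option autoImplicit false

namespace Fermat.Agent.Lib.Newform.H803

open Matrix Matrix.SpecialLinearGroup CongruenceSubgroup UpperHalfPlane ModularForm
open scoped MatrixGroups ModularForm

variable {k : ℤ}

/-- `F` is invariant under the weight-`k` slash action of `Γ`. -/
def SlInv (k : ℤ) (Γ : Subgroup SL(2, ℤ)) (F : ℍ → ℂ) : Prop := ∀ γ ∈ Γ, F ∣[k] γ = F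

theorem SlInv.mono {Γ Γ' : Subgroup SL(2, ℤ)} (h : Γ ≤ Γ') {F : ℍ → ℂ} (hF : SlInv k Γ' F) :
    SlInv k Γ F := fun γ hγ => hF γ (h hγ)

theorem SlInv.zero (Γ : Subgroup SL(2, ℤ)) : SlInv k Γ (0 : ℍ → ℂ) :=
  fun _ _ => SlashAction.zero_slash _ _

theorem SlInv.add {Γ : Subgroup SL(2, ℤ)} {F G : ℍ → ℂ} (hF : SlInv k Γ F) (hG : SlInv k Γ G) :
    SlInv k Γ (F + G) := fun γ hγ => by rw [SlashAction.add_slash, hF γ hγ, hG γ hγ]

theorem SlInv.smul {Γ : Subgroup SL(2, ℤ)} {F : ℍ → ℂ} (c : ℂ) (hF : SlInv k Γ F) :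
    SlInv k Γ (c • F) := fun γ hγ => by rw [ModularForm.SL_smul_slash, hF γ hγ]

theorem SlInv.neg {Γ : Subgroup SL(2, ℤ)} {F : ℍ → ℂ} (hF : SlInv k Γ F) :
    SlInv k Γ (-F) := fun γ hγ => by rw [SlashAction.neg_slash, hF γ hγ]

theorem SlInv.sub {Γ : Subgroup SL(2, ℤ)} {F G : ℍ → ℂ} (hF : SlInv k Γ F) (hG : SlInv k Γ G) :
    SlInv k Γ (F - G) := by
  rw [sub_eq_add_neg]; exact hF.add hG.neg

theorem SlInv.sum {Γ : Subgroup SL(2, ℤ)} {ι : Type*} (s : Finset ι) {F : ι → ℍ → ℂ}
    (hF : ∀ i ∈ s, SlInv k Γ (F i)) : SlInv k Γ (∑ i ∈ s, F i) := by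
  intro γ hγ
  rw [SlashAction.sum_slash]
  exact Finset.sum_congr rfl fun i hi => hF i hi γ hγ

theorem sub_slash (F G : ℍ → ℂ) (γ : SL(2, ℤ)) : (F - G) ∣[k] γ = F ∣[k] γ - G ∣[k] γ := by
  rw [sub_eq_add_neg, SlashAction.add_slash, SlashAction.neg_slash, ← sub_eq_add_neg]

/-- For a `Γ(N)`-invariant function, `F ∣ g` only depends on `g` modulo `Γ(N)`. -/
theorem slash_congr {N : ℕ} {F : ℍ → ℂ} (hF : SlInv k (Gamma N) F) {g h : SL(2, ℤ)}
    (hgh : g * h⁻¹ ∈ Gamma N) : F ∣[k] g = F ∣[k] h := by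
  have e : g = (g * h⁻¹) * h := by group
  rw [e, SlashAction.slash_mul, hF _ hgh]

theorem SlInv.slash {N : ℕ} {F : ℍ → ℂ} (hF : SlInv k (Gamma N) F) (g : SL(2, ℤ)) :
    SlInv k (Gamma N) (F ∣[k] g) := by
  intro γ hγ
  rw [← SlashAction.slash_mul]
  apply slash_congr hF
  have e : g * γ * g⁻¹ ∈ Gamma N := (Gamma_normal N).conj_mem γ hγ g
  exact e

/-- Commutation of the slash operators of two elements commuting modulo `Γ(N)`. -/
theorem slash_comm_of_mem {N : ℕ} {F : ℍ → ℂ} (hF : SlInv k (Gamma N) F) {g h : SL(2, ℤ)}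
    (hgh : (g * h) * (h * g)⁻¹ ∈ Gamma N) : (F ∣[k] g) ∣[k] h = (F ∣[k] h) ∣[k] g := by
  rw [← SlashAction.slash_mul, ← SlashAction.slash_mul]
  exact slash_congr hF hgh

theorem slash_comm {N a b : ℕ} (hN : N ∣ a * b) {F : ℍ → ℂ} (hF : SlInv k (Gamma N) F)
    {g h : SL(2, ℤ)} (hg : g ∈ Gamma a) (hh : h ∈ Gamma b) :
    (F ∣[k] g) ∣[k] h = (F ∣[k] h) ∣[k] g :=
  slash_comm_of_mem hF (comm_mem_Gamma hN hg hh)

/-! ### The averaging operator over a subgroup modulo `Γ(N)` -/

/-- Reduction modulo `N`. -/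
noncomputable abbrev redN (N : ℕ) : SL(2, ℤ) →* SL(2, ZMod N) :=
  Matrix.SpecialLinearGroup.map (Int.castRingHom (ZMod N))

theorem mem_Gamma_iff_redN {N : ℕ} {g : SL(2, ℤ)} : g ∈ Gamma N ↔ redN N g = 1 := Iff.rfl

theorem mul_inv_mem_Gamma_of_redN_eq {N : ℕ} {g h : SL(2, ℤ)} (e : redN N g = redN N h) :
    g * h⁻¹ ∈ Gamma N := by
  rw [mem_Gamma_iff_redN, map_mul, map_inv, e, mul_inv_cancel]

/-- A chosen lift in `J` of an element of the image of `J` modulo `N`. -/
noncomputable def liftJ (N : ℕ) (J : Subgroup SL(2, ℤ)) (x : J.map (redN N)) : SL(2, ℤ) :=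
  (Subgroup.mem_map.mp x.2).choose

theorem liftJ_mem (N : ℕ) (J : Subgroup SL(2, ℤ)) (x : J.map (redN N)) : liftJ N J x ∈ J :=
  (Subgroup.mem_map.mp x.2).choose_spec.1

theorem redN_liftJ (N : ℕ) (J : Subgroup SL(2, ℤ)) (x : J.map (redN N)) :
    redN N (liftJ N J x) = x.1 :=
  (Subgroup.mem_map.mp x.2).choose_spec.2

/-- The averaging operator over `J` modulo `Γ(N)`. -/
noncomputable def avg (k : ℤ) (N : ℕ) [NeZero N] (J : Subgroup SL(2, ℤ)) (F : ℍ → ℂ) : ℍ → ℂ :=
  letI := Fintype.ofFinite (J.map (redN N))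
  ((Nat.card (J.map (redN N)) : ℂ)⁻¹) • ∑ x : J.map (redN N), F ∣[k] liftJ N J x

theorem avg_def (N : ℕ) [NeZero N] (J : Subgroup SL(2, ℤ)) (F : ℍ → ℂ) :
    avg k N J F = ((Nat.card (J.map (redN N)) : ℂ)⁻¹) •
      @Finset.sum _ _ _ (@Finset.univ _ (Fintype.ofFinite (J.map (redN N))))
        (fun x : J.map (redN N) => F ∣[k] liftJ N J x) := rfl

theorem avg_add (N : ℕ) [NeZero N] (J : Subgroup SL(2, ℤ)) (F G : ℍ → ℂ) :
    avg k N J (F + G) = avg k N J F + avg k N J G := by
  simp only [avg_def, SlashAction.add_slash, Finset.sum_add_distrib, smul_add]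

theorem avg_smul (N : ℕ) [NeZero N] (J : Subgroup SL(2, ℤ)) (c : ℂ) (F : ℍ → ℂ) :
    avg k N J (c • F) = c • avg k N J F := by
  simp only [avg_def, ModularForm.SL_smul_slash, ← Finset.smul_sum]
  rw [smul_comm]

theorem avg_neg (N : ℕ) [NeZero N] (J : Subgroup SL(2, ℤ)) (F : ℍ → ℂ) :
    avg k N J (-F) = - avg k N J F := by
  simp only [avg_def, SlashAction.neg_slash, Finset.sum_neg_distrib, smul_neg]

theorem avg_sub (N : ℕ) [NeZero N] (J : Subgroup SL(2, ℤ)) (F G : ℍ → ℂ) :
    avg k N J (F - G) = avg k N J F - avg k N J G := by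
  rw [sub_eq_add_neg, avg_add, avg_neg, ← sub_eq_add_neg]

theorem avg_zero (N : ℕ) [NeZero N] (J : Subgroup SL(2, ℤ)) :
    avg k N J (0 : ℍ → ℂ) = 0 := by
  simp only [avg_def, SlashAction.zero_slash, Finset.sum_const_zero, smul_zero]

/-- (i) the average is `J`-invariant. -/
theorem avg_slash_of_mem {N : ℕ} [NeZero N] {J : Subgroup SL(2, ℤ)} {F : ℍ → ℂ}
    (hF : SlInv k (Gamma N) F) {γ : SL(2, ℤ)} (hγ : γ ∈ J) :
    (avg k N J F) ∣[k] γ = avg k N J F := by
  let _ := Fintype.ofFinite (J.map (redN N))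
  rw [avg_def, ModularForm.SL_smul_slash, SlashAction.sum_slash]
  congr 1
  let r : J.map (redN N) := ⟨redN N γ, Subgroup.mem_map_of_mem _ hγ⟩
  have key : ∀ x : J.map (redN N), (F ∣[k] liftJ N J x) ∣[k] γ = F ∣[k] liftJ N J (x * r) := by
    intro x
    rw [← SlashAction.slash_mul]
    apply slash_congr hF
    apply mul_inv_mem_Gamma_of_redN_eq
    rw [map_mul, redN_liftJ, redN_liftJ]
    rfl
  simp only [key]
  exact Equiv.sum_comp (Equiv.mulRight r) (fun x => F ∣[k] liftJ N J x)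

theorem avg_slInv {N : ℕ} [NeZero N] {J : Subgroup SL(2, ℤ)} {F : ℍ → ℂ}
    (hF : SlInv k (Gamma N) F) : SlInv k J (avg k N J F) :=
  fun _ hγ => avg_slash_of_mem hF hγ

/-- (ii) the average of a `J`-invariant function is the function. -/
theorem avg_of_slInv {N : ℕ} [NeZero N] {J : Subgroup SL(2, ℤ)} {F : ℍ → ℂ}
    (hF : SlInv k J F) : avg k N J F = F := by
  let _ := Fintype.ofFinite (J.map (redN N))
  rw [avg_def]
  have key : ∀ x : J.map (redN N), F ∣[k] liftJ N J x = F := fun x => hF _ (liftJ_mem N J x)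
  simp only [key, Finset.sum_const, Finset.card_univ]
  rw [← Nat.card_eq_fintype_card, ← Nat.cast_smul_eq_nsmul ℂ, smul_smul, inv_mul_cancel₀, one_smul]
  have : Nat.card (J.map (redN N)) ≠ 0 := Nat.card_pos.ne'
  exact_mod_cast this

/-- (iii) the average commutes with the slash by an element commuting with `J` mod `Γ(N)`. -/
theorem avg_slash_comm {N : ℕ} [NeZero N] {J : Subgroup SL(2, ℤ)} {F : ℍ → ℂ}
    (hF : SlInv k (Gamma N) F) {g : SL(2, ℤ)}
    (hg : ∀ γ ∈ J, (γ * g) * (g * γ)⁻¹ ∈ Gamma N) :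
    (avg k N J F) ∣[k] g = avg k N J (F ∣[k] g) := by
  let _ := Fintype.ofFinite (J.map (redN N))
  rw [avg_def, avg_def, ModularForm.SL_smul_slash, SlashAction.sum_slash]
  congr 1
  refine Finset.sum_congr rfl fun x _ => ?_
  exact slash_comm_of_mem hF (hg _ (liftJ_mem N J x))

/-- (iv) stability of slash-stable submodules. -/
theorem avg_mem {N : ℕ} [NeZero N] (J : Subgroup SL(2, ℤ)) {𝒮 : Submodule ℂ (ℍ → ℂ)}
    (h𝒮 : ∀ F ∈ 𝒮, ∀ γ : SL(2, ℤ), F ∣[k] γ ∈ 𝒮) {F : ℍ → ℂ} (hF : F ∈ 𝒮) :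
    avg k N J F ∈ 𝒮 := by
  let _ := Fintype.ofFinite (J.map (redN N))
  rw [avg_def]
  exact 𝒮.smul_mem _ (𝒮.sum_mem fun x _ => h𝒮 F hF _)

/-! ### The translation averaging operator -/

/-- `avgT k x p F = p⁻¹ ∑_{j < p} F ∣[k] T^{j x}`. -/
noncomputable def avgT (k : ℤ) (x : ℤ) (p : ℕ) (F : ℍ → ℂ) : ℍ → ℂ :=
  ((p : ℂ)⁻¹) • ∑ j ∈ Finset.range p, F ∣[k] tU (j * x)

theorem avgT_add (x : ℤ) (p : ℕ) (F G : ℍ → ℂ) :
    avgT k x p (F + G) = avgT k x p F + avgT k x p G := by
  simp only [avgT, SlashAction.add_slash, Finset.sum_add_distrib, smul_add]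

theorem avgT_neg (x : ℤ) (p : ℕ) (F : ℍ → ℂ) :
    avgT k x p (-F) = - avgT k x p F := by
  simp only [avgT, SlashAction.neg_slash, Finset.sum_neg_distrib, smul_neg]

theorem avgT_sub (x : ℤ) (p : ℕ) (F G : ℍ → ℂ) :
    avgT k x p (F - G) = avgT k x p F - avgT k x p G := by
  rw [sub_eq_add_neg, avgT_add, avgT_neg, ← sub_eq_add_neg]

theorem avgT_smul (x : ℤ) (p : ℕ) (c : ℂ) (F : ℍ → ℂ) :
    avgT k x p (c • F) = c • avgT k x p F := by
  simp only [avgT, ModularForm.SL_smul_slash, ← Finset.smul_sum]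
  rw [smul_comm]

theorem avgT_zero (x : ℤ) (p : ℕ) : avgT k x p (0 : ℍ → ℂ) = 0 := by
  simp only [avgT, SlashAction.zero_slash, Finset.sum_const_zero, smul_zero]

theorem avgT_mem (x : ℤ) (p : ℕ) {𝒮 : Submodule ℂ (ℍ → ℂ)}
    (h𝒮 : ∀ F ∈ 𝒮, ∀ γ : SL(2, ℤ), F ∣[k] γ ∈ 𝒮) {F : ℍ → ℂ} (hF : F ∈ 𝒮) :
    avgT k x p F ∈ 𝒮 :=
  𝒮.smul_mem _ (𝒮.sum_mem fun _ _ => h𝒮 F hF _)

theorem avgT_slInv_Gamma {N : ℕ} (x : ℤ) (p : ℕ) {F : ℍ → ℂ} (hF : SlInv k (Gamma N) F) :
    SlInv k (Gamma N) (avgT k x p F) :=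
  SlInv.smul _ (SlInv.sum _ fun _ _ => hF.slash _)

/-- `avgT` commutes with the slash by `g` if `g` commutes with the translations mod `Γ(N)`. -/
theorem avgT_slash_comm {N : ℕ} {x : ℤ} {p : ℕ} {F : ℍ → ℂ} (hF : SlInv k (Gamma N) F)
    {g : SL(2, ℤ)} (hg : ∀ j : ℤ, (tU (j * x) * g) * (g * tU (j * x))⁻¹ ∈ Gamma N) :
    (avgT k x p F) ∣[k] g = avgT k x p (F ∣[k] g) := by
  rw [avgT, avgT, ModularForm.SL_smul_slash, SlashAction.sum_slash]
  congr 1
  refine Finset.sum_congr rfl fun j _ => ?_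
  exact slash_comm_of_mem hF (hg j)

theorem slash_tU_mul {x : ℤ} {F : ℍ → ℂ} (h : F ∣[k] tU x = F) (j : ℤ) :
    F ∣[k] tU (j * x) = F := by
  induction j using Int.induction_on with
  | zero => rw [zero_mul, tU_zero, SlashAction.slash_one]
  | succ i ih =>
    rw [add_mul, one_mul, tU_add, SlashAction.slash_mul, ih, h]
  | pred i ih =>
    have e : tU ((-(i : ℤ)) * x) = tU ((-(i : ℤ) - 1) * x) * tU x := by
      rw [← tU_add]; congr 1; ring
    rw [e, SlashAction.slash_mul] at ih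
    have h' : F ∣[k] (tU x)⁻¹ = F := by
      conv_lhs => rw [← h]
      rw [← SlashAction.slash_mul, mul_inv_cancel, SlashAction.slash_one]
    calc F ∣[k] tU ((-(i : ℤ) - 1) * x)
        = ((F ∣[k] tU ((-(i : ℤ) - 1) * x)) ∣[k] tU x) ∣[k] (tU x)⁻¹ := by
          rw [← SlashAction.slash_mul, mul_inv_cancel, SlashAction.slash_one]
      _ = F := by rw [ih, h']

/-- (d) `avgT` fixes functions invariant under the translation. -/
theorem avgT_of_slash_eq {x : ℤ} {p : ℕ} (hp : p ≠ 0) {F : ℍ → ℂ} (h : F ∣[k] tU x = F) :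
    avgT k x p F = F := by
  rw [avgT]
  have key : ∀ j ∈ Finset.range p, F ∣[k] tU ((j : ℤ) * x) = F := fun j _ => slash_tU_mul h j
  rw [Finset.sum_congr rfl key, Finset.sum_const, Finset.card_range,
    ← Nat.cast_smul_eq_nsmul ℂ, smul_smul, inv_mul_cancel₀ (by exact_mod_cast hp), one_smul]

/-- (c) `avgT F` is invariant under the translation, if `F` is invariant under its `p`-th power. -/
theorem avgT_slash_tU {x : ℤ} {p : ℕ} {F : ℍ → ℂ} (h : F ∣[k] tU (p * x) = F) :
    (avgT k x p F) ∣[k] tU x = avgT k x p F := by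
  rw [avgT, ModularForm.SL_smul_slash, SlashAction.sum_slash]
  congr 1
  have key : ∀ j : ℕ, (F ∣[k] tU ((j : ℤ) * x)) ∣[k] tU x = F ∣[k] tU (((j + 1 : ℕ) : ℤ) * x) := by
    intro j
    rw [← SlashAction.slash_mul, ← tU_add]
    congr 2
    push_cast; ring
  simp only [key]
  have h1 := Finset.sum_range_succ' (fun j : ℕ => F ∣[k] tU ((j : ℤ) * x)) p
  have h2 := Finset.sum_range_succ (fun j : ℕ => F ∣[k] tU ((j : ℤ) * x)) p
  simp only [Nat.cast_zero, zero_mul, tU_zero, SlashAction.slash_one] at h1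
  rw [h] at h2
  rw [h2] at h1
  exact (add_right_cancel h1).symm

end Fermat.Agent.Lib.Newform.H803

end
-- ===== PACK-END Lib/Newform/H803/Ops.lean

-- ===== PACK-BEGIN Lib/Newform/H803/Main.lean
section



/-!
# The Atkin–Lehner main lemma, `Γ⁰(N)` form on functions (helper803)

`killL k N L F` is `∏_{p ∈ L} (1 - π_p) F` where `π_p = avgT k (N/p) p` is the average over the
translations `T^{j N / p}`.  Main result `main_hat`: if `F` is `Γ⁰(N)`-invariant and
`killL k N L F = 0` for a list `L` of distinct primes dividing `N`, then `F = ∑_{p ∈ L} G_p` with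
`G_p` invariant under `Γ⁰(N / p)`; moreover the `G_p` stay in any slash-stable submodule
containing `F`.
-/

set_option autoImplicit false

namespace Fermat.Agent.Lib.Newform.H803

open Matrix Matrix.SpecialLinearGroup CongruenceSubgroup UpperHalfPlane ModularForm
open scoped MatrixGroups ModularForm

variable {k : ℤ}

/-- `∏_{p ∈ L} (1 - π_p)`. -/
noncomputable def killL (k : ℤ) (N : ℕ) : List ℕ → (ℍ → ℂ) → (ℍ → ℂ)
  | [], F => F
  | p :: L, F => killL k N L F - avgT k (↑(N / p)) p (killL k N L F)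

@[simp] theorem killL_nil (N : ℕ) (F : ℍ → ℂ) : killL k N [] F = F := rfl

theorem killL_cons (N : ℕ) (p : ℕ) (L : List ℕ) (F : ℍ → ℂ) :
    killL k N (p :: L) F = killL k N L F - avgT k (↑(N / p)) p (killL k N L F) := rfl

theorem killL_sub (N : ℕ) (L : List ℕ) (F G : ℍ → ℂ) :
    killL k N L (F - G) = killL k N L F - killL k N L G := by
  induction L with
  | nil => rfl
  | cons p L ih =>
    rw [killL_cons, killL_cons, killL_cons, ih, avgT_sub]
    abel

theorem killL_mem (N : ℕ) (L : List ℕ) {𝒮 : Submodule ℂ (ℍ → ℂ)}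
    (h𝒮 : ∀ F ∈ 𝒮, ∀ γ : SL(2, ℤ), F ∣[k] γ ∈ 𝒮) {F : ℍ → ℂ} (hF : F ∈ 𝒮) :
    killL k N L F ∈ 𝒮 := by
  induction L with
  | nil => exact hF
  | cons p L ih => exact 𝒮.sub_mem ih (avgT_mem _ _ h𝒮 ih)

theorem killL_slInv_Gamma (N : ℕ) (L : List ℕ) {F : ℍ → ℂ} (hF : SlInv k (Gamma N) F) :
    SlInv k (Gamma N) (killL k N L F) := by
  induction L with
  | nil => exact hF
  | cons p L ih => exact ih.sub (avgT_slInv_Gamma _ _ ih)

/-- `killL` commutes with the slash by `g` if `g` commutes with the translations. -/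
theorem killL_slash_comm {N : ℕ} (L : List ℕ) {F : ℍ → ℂ} (hF : SlInv k (Gamma N) F)
    {g : SL(2, ℤ)}
    (hg : ∀ q ∈ L, ∀ j : ℤ, (tU (j * ↑(N / q)) * g) * (g * tU (j * ↑(N / q)))⁻¹ ∈ Gamma N) :
    (killL k N L F) ∣[k] g = killL k N L (F ∣[k] g) := by
  induction L with
  | nil => rfl
  | cons p L ih =>
    have ih' := ih fun q hq => hg q (List.mem_cons_of_mem _ hq)
    rw [killL_cons, killL_cons, sub_slash, ih',
      avgT_slash_comm (killL_slInv_Gamma N L hF) (hg p List.mem_cons_self), ih']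

theorem avg_sum {N : ℕ} [NeZero N] (J : Subgroup SL(2, ℤ)) {ι : Type*} (s : Finset ι)
    (F : ι → ℍ → ℂ) : avg k N J (∑ i ∈ s, F i) = ∑ i ∈ s, avg k N J (F i) := by
  classical
  induction s using Finset.induction_on with
  | empty => simp [avg_zero]
  | insert a s ha ih => rw [Finset.sum_insert ha, Finset.sum_insert ha, avg_add, ih]

/-- `avgT` commutes with `avg`. -/
theorem avgT_avg_comm {N : ℕ} [NeZero N] {J : Subgroup SL(2, ℤ)} {x : ℤ} (p : ℕ) {F : ℍ → ℂ}
    (hF : SlInv k (Gamma N) F)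
    (hJ : ∀ γ ∈ J, ∀ j : ℤ, (γ * tU (j * x)) * (tU (j * x) * γ)⁻¹ ∈ Gamma N) :
    avgT k x p (avg k N J F) = avg k N J (avgT k x p F) := by
  rw [avgT, avgT, avg_smul, avg_sum]
  congr 1
  refine Finset.sum_congr rfl fun j _ => ?_
  exact avg_slash_comm hF fun γ hγ => hJ γ hγ j

/-- `killL` commutes with `avg`. -/
theorem killL_avg_comm {N : ℕ} [NeZero N] {J : Subgroup SL(2, ℤ)} (L : List ℕ) {F : ℍ → ℂ}
    (hF : SlInv k (Gamma N) F)
    (hJ : ∀ q ∈ L, ∀ γ ∈ J, ∀ j : ℤ,
      (γ * tU (j * ↑(N / q))) * (tU (j * ↑(N / q)) * γ)⁻¹ ∈ Gamma N) :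
    killL k N L (avg k N J F) = avg k N J (killL k N L F) := by
  induction L with
  | nil => rfl
  | cons p L ih =>
    have ih' := ih fun q hq => hJ q (List.mem_cons_of_mem _ hq)
    rw [killL_cons, killL_cons, ih', avg_sub,
      avgT_avg_comm p (killL_slInv_Gamma N L hF) (hJ p List.mem_cons_self)]

theorem ord_facts_aux {N p P m : ℕ} (hp : p.Prime) (hpN : p ∣ N) (hPm : P * m = N)
    (hpP : p ∣ P) (hqP : ∀ q : ℕ, q.Prime → q ≠ p → Nat.Coprime q P) :
    m ∣ N / p ∧ N / p ∣ P * m ∧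
      ∀ q : ℕ, q.Prime → q ≠ p → q ∣ N → N ∣ m * (N / q) := by
  refine ⟨?_, ?_, ?_⟩
  · obtain ⟨P', rfl⟩ := hpP
    refine ⟨P', ?_⟩
    have h1 : N = p * (m * P') := by rw [← hPm]; ring
    conv_lhs => rw [h1]
    exact Nat.mul_div_cancel_left _ hp.pos
  · rw [hPm]
    exact Nat.div_dvd_of_dvd hpN
  · intro q hq hqp hqN
    have hcop' : Nat.Coprime q P := hqP q hq hqp
    have hqm : q ∣ m := by
      have : q ∣ P * m := by rw [hPm]; exact hqN
      exact hcop'.dvd_of_dvd_mul_left this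
    obtain ⟨m', hm'⟩ := hqm
    refine ⟨m', ?_⟩
    rw [hm']
    have : q * (N / q) = N := Nat.mul_div_cancel' hqN
    calc q * m' * (N / q) = (q * (N / q)) * m' := by ring
      _ = N * m' := by rw [this]

/-- Arithmetic of the `p`-part and the prime-to-`p` part of `N`. -/
theorem ord_facts {N p : ℕ} (hN : N ≠ 0) (hp : p.Prime) (hpN : p ∣ N) :
    ∃ P m : ℕ, P * m = N ∧ Nat.Coprime P m ∧ m ∣ N / p ∧ N / p ∣ P * m ∧
      ∀ q : ℕ, q.Prime → q ≠ p → q ∣ N → N ∣ m * (N / q) := by
  have hPm := Nat.ordProj_mul_ordCompl_eq_self N p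
  have hcop : Nat.Coprime (ordProj[p] N) (ordCompl[p] N) :=
    (Nat.coprime_ordCompl hp hN).pow_left _
  have hpP : p ∣ ordProj[p] N := Nat.dvd_ordProj_of_dvd hN hp hpN
  have hqP : ∀ q : ℕ, q.Prime → q ≠ p → Nat.Coprime q (ordProj[p] N) := fun q hq hqp =>
    ((Nat.coprime_primes hq hp).mpr hqp).pow_right _
  exact ⟨ordProj[p] N, ordCompl[p] N, hPm, hcop, ord_facts_aux hp hpN hPm hpP hqP⟩

/-- **Atkin–Lehner main lemma**, `Γ⁰(N)`-form. -/
theorem main_hat (N : ℕ) [NeZero N] {𝒮 : Submodule ℂ (ℍ → ℂ)}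
    (h𝒮 : ∀ F ∈ 𝒮, ∀ γ : SL(2, ℤ), F ∣[k] γ ∈ 𝒮) :
    ∀ L : List ℕ, L.Nodup → (∀ p ∈ L, p.Prime ∧ p ∣ N) →
      ∀ F ∈ 𝒮, SlInv k (GammaU N) F → killL k N L F = 0 →
      ∃ G : ℕ → (ℍ → ℂ), (∀ p ∈ L, G p ∈ 𝒮 ∧ SlInv k (GammaU (N / p)) (G p)) ∧
        F = (L.map G).sum := by
  have hN0 : N ≠ 0 := NeZero.ne N
  intro L
  induction L with
  | nil =>
    intro _ _ F _ _ hK
    refine ⟨fun _ => 0, by simp, ?_⟩
    simpa using hK
  | cons p L ih =>
    intro hnd hL F hF𝒮 hF hK
    obtain ⟨hp, hpN⟩ := hL p List.mem_cons_self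
    have hpL : p ∉ L := (List.nodup_cons.mp hnd).1
    have hndL : L.Nodup := (List.nodup_cons.mp hnd).2
    have hL' : ∀ q ∈ L, q.Prime ∧ q ∣ N := fun q hq => hL q (List.mem_cons_of_mem _ hq)
    obtain ⟨P, m, hPm, hcop, hmd, hdN, hq⟩ := ord_facts hN0 hp hpN
    set d : ℕ := N / p with hd
    have hpd : p * d = N := Nat.mul_div_cancel' hpN
    have hdN' : d ∣ N := Nat.div_dvd_of_dvd hpN
    have hmN : m ∣ N := Dvd.intro_left P hPm
    have hFΓ : SlInv k (Gamma N) F := hF.mono (Gamma_le_GammaU N)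
    -- the subgroups
    set J : Subgroup SL(2, ℤ) := Gamma m ⊓ GammaU d with hJ
    have hΓJ : Gamma N ≤ J := le_inf (Gamma_mono hmN) ((Gamma_le_GammaU N).trans (GammaU_mono hdN'))
    -- commutation of `J` with the other translations
    have hJq : ∀ q ∈ L, ∀ γ ∈ J, ∀ j : ℤ,
        (γ * tU (j * ↑(N / q))) * (tU (j * ↑(N / q)) * γ)⁻¹ ∈ Gamma N := by
      intro q hqL γ hγ j
      have hqp : q ≠ p := fun h => hpL (h ▸ hqL)
      exact comm_mem_Gamma (hq q (hL' q hqL).1 hqp (hL' q hqL).2) hγ.1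
        (tU_mem_Gamma (Dvd.intro_left _ rfl))
    have hqJ : ∀ q ∈ L, ∀ γ ∈ Gamma m, ∀ j : ℤ,
        (tU (j * ↑(N / q)) * γ) * (γ * tU (j * ↑(N / q)))⁻¹ ∈ Gamma N := by
      intro q hqL γ hγ j
      have hqp : q ≠ p := fun h => hpL (h ▸ hqL)
      have h1 : N ∣ (N / q) * m := by
        rw [mul_comm]; exact hq q (hL' q hqL).1 hqp (hL' q hqL).2
      exact comm_mem_Gamma h1 (tU_mem_Gamma (Dvd.intro_left _ rfl)) hγ
    -- `w = killL L F`
    set w : ℍ → ℂ := killL k N L F with hw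
    have hwΓ : SlInv k (Gamma N) w := killL_slInv_Gamma N L hFΓ
    have hπw : avgT k (↑d) p w = w := by
      have := hK
      rw [killL_cons, sub_eq_zero] at this
      exact this.symm
    -- `w` is invariant under the translation `tU d`
    have hwT : w ∣[k] tU (↑d) = w := by
      have h1 : w ∣[k] tU ((p : ℤ) * (d : ℤ)) = w := by
        apply hwΓ
        apply tU_mem_Gamma
        rw [← Nat.cast_mul, hpd]
      have := avgT_slash_tU (k := k) (x := (d : ℤ)) (p := p) (F := w) h1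
      rwa [hπw] at this
    -- `w` is invariant under `Γ(m) ⊓ Γ⁰(N)`
    have hwH : SlInv k (Gamma m ⊓ GammaU N) w := by
      intro h hh
      rw [hw, killL_slash_comm L hFΓ (fun q hqL j => hqJ q hqL h hh.1 j), hF h hh.2]
    -- hence under `J`
    have hwJ : SlInv k J w := by
      intro γ hγ
      obtain ⟨i, j, hij⟩ := exists_tU_mul_mem_GammaU hp hγ.2
      rw [hpd] at hij
      have hmem : tU (i * ↑d) * γ * tU (j * ↑d) ∈ Gamma m ⊓ GammaU N := by
        refine ⟨?_, hij⟩
        have hm' : (m : ℤ) ∣ (d : ℤ) := Int.natCast_dvd_natCast.mpr hmd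
        exact Subgroup.mul_mem _ (Subgroup.mul_mem _ (tU_mem_Gamma (Dvd.dvd.mul_left hm' _)) hγ.1)
          (tU_mem_Gamma (Dvd.dvd.mul_left hm' _))
      have h1 := hwH _ hmem
      rw [SlashAction.slash_mul, SlashAction.slash_mul, slash_tU_mul hwT] at h1
      -- `(w ∣ γ) ∣ tU (j d) = w`
      have h2 : ((w ∣[k] γ) ∣[k] tU (j * ↑d)) ∣[k] tU (-j * ↑d) = w ∣[k] tU (-j * ↑d) := by
        rw [h1]
      rw [← SlashAction.slash_mul, ← tU_add, slash_tU_mul hwT] at h2
      have e : j * (d : ℤ) + -j * (d : ℤ) = 0 := by ring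
      rwa [e, tU_zero, SlashAction.slash_one] at h2
    -- the two pieces
    set v₁ : ℍ → ℂ := avg k N J F with hv₁
    have hv₁𝒮 : v₁ ∈ 𝒮 := avg_mem J h𝒮 hF𝒮
    have hv₁J : SlInv k J v₁ := avg_slInv hFΓ
    have hv₁H : SlInv k (Gamma P ⊓ GammaU (P * m)) v₁ := by
      intro h hh
      rw [hv₁, avg_slash_comm hFΓ (g := h), hF h (by rw [← hPm]; exact hh.2)]
      intro γ hγ
      exact comm_mem_Gamma (by rw [mul_comm, hPm]) hγ.1 hh.1
    have hv₁U : SlInv k (GammaU d) v₁ := by
      intro g hg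
      obtain ⟨g₁, hg₁, g₂, hg₂, rfl⟩ := exists_mul_of_mem_GammaU hcop hmd hdN hg
      rw [SlashAction.slash_mul, hv₁J g₁ hg₁, hv₁H g₂ hg₂]
    have hv₂𝒮 : F - v₁ ∈ 𝒮 := 𝒮.sub_mem hF𝒮 hv₁𝒮
    have hv₂U : SlInv k (GammaU N) (F - v₁) := hF.sub (hv₁U.mono (GammaU_mono hdN'))
    have hv₂K : killL k N L (F - v₁) = 0 := by
      rw [killL_sub, hv₁, killL_avg_comm L hFΓ hJq, ← hw, avg_of_slInv hwJ, sub_self]
    obtain ⟨G, hG, hGsum⟩ := ih hndL hL' (F - v₁) hv₂𝒮 hv₂U hv₂K
    refine ⟨Function.update G p v₁, ?_, ?_⟩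
    · intro q hqL
      rcases List.mem_cons.mp hqL with rfl | hqL'
      · rw [Function.update_self]
        exact ⟨hv₁𝒮, hv₁U⟩
      · have hqp : q ≠ p := fun h => hpL (h ▸ hqL')
        rw [Function.update_of_ne hqp]
        exact hG q hqL'
    · rw [List.map_cons, List.sum_cons, Function.update_self]
      have e : L.map (Function.update G p v₁) = L.map G := by
        apply List.map_congr_left
        intro q hqL
        have hqp : q ≠ p := fun h => hpL (h ▸ hqL)
        rw [Function.update_of_ne hqp]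
      rw [e, ← hGsum]
      abel

end Fermat.Agent.Lib.Newform.H803

end
-- ===== PACK-END Lib/Newform/H803/Main.lean

-- ===== PACK-BEGIN Lib/Newform/H803/Cuspidal.lean
section



/-!
# Cuspidal functions (helper803)

`IsCuspidal k F`: `F : ℍ → ℂ` is holomorphic and vanishes (in weight `k`) at every rational cusp.
This class is stable under the slash action of `GL(2, ℚ)`, contains all cusp forms for
arithmetic subgroups, and an `IsCuspidal` function invariant under `Γ ≤ SL(2, ℤ)` is a cusp form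
for `Γ`.
-/

set_option autoImplicit false

namespace Fermat.Agent.Lib.Newform.H803

open Matrix Matrix.SpecialLinearGroup CongruenceSubgroup UpperHalfPlane ModularForm OnePoint
open scoped MatrixGroups ModularForm Manifold Pointwise

variable {k : ℤ}

/-- Holomorphic and vanishing at all rational cusps. -/
def IsCuspidal (k : ℤ) (F : ℍ → ℂ) : Prop :=
  MDiff F ∧ ∀ c : OnePoint ℝ, IsCusp c 𝒮ℒ → c.IsZeroAt F k

theorem IsCuspidal.add {F G : ℍ → ℂ} (hF : IsCuspidal k F) (hG : IsCuspidal k G) :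
    IsCuspidal k (F + G) :=
  ⟨hF.1.add hG.1, fun c hc => (hF.2 c hc).add (hG.2 c hc)⟩

theorem IsCuspidal.zero : IsCuspidal k (0 : ℍ → ℂ) := by
  refine ⟨mdifferentiable_const, fun c _ g _ => ?_⟩
  rw [SlashAction.zero_slash]
  exact Filter.zero_zeroAtFilter _

theorem IsCuspidal.smul {F : ℍ → ℂ} (a : ℂ) (hF : IsCuspidal k F) : IsCuspidal k (a • F) := by
  refine ⟨hF.1.const_smul a, fun c hc g hg => ?_⟩
  rw [ModularForm.smul_slash]
  exact Filter.ZeroAtFilter.smul _ (hF.2 c hc g hg)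

/-- The submodule of cuspidal functions. -/
def cuspSub (k : ℤ) : Submodule ℂ (ℍ → ℂ) where
  carrier := {F | IsCuspidal k F}
  add_mem' := fun hF hG => hF.add hG
  zero_mem' := IsCuspidal.zero
  smul_mem' := fun a _ hF => hF.smul a

@[simp] theorem mem_cuspSub {F : ℍ → ℂ} : F ∈ cuspSub k ↔ IsCuspidal k F := Iff.rfl

/-- Stability under the slash action of rational matrices. -/
theorem IsCuspidal.slash_rat {F : ℍ → ℂ} (hF : IsCuspidal k F) (g : GL (Fin 2) ℚ) :
    IsCuspidal k (F ∣[k] (g.map (Rat.castHom ℝ))) := by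
  refine ⟨hF.1.slash k _, fun c hc => ?_⟩
  rw [← IsZeroAt.smul_iff]
  apply hF.2
  have h1 := hc.smul (g.map (Rat.castHom ℝ))
  have := isArithmetic_conj_SL2Z g
  exact (Subgroup.IsArithmetic.isCusp_iff_isCusp_SL2Z _).mp h1

/-- Stability under the slash action of `SL(2, ℤ)`. -/
theorem IsCuspidal.slash_SL {F : ℍ → ℂ} (hF : IsCuspidal k F) (γ : SL(2, ℤ)) :
    IsCuspidal k (F ∣[k] γ) := by
  refine ⟨hF.1.slash k _, fun c hc => ?_⟩
  rw [ModularForm.SL_slash, ← IsZeroAt.smul_iff]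
  apply hF.2
  exact hc.smul_of_mem ⟨γ, rfl⟩

theorem cuspSub_slash_stable : ∀ F ∈ cuspSub k, ∀ γ : SL(2, ℤ), F ∣[k] γ ∈ cuspSub k :=
  fun _ hF γ => IsCuspidal.slash_SL hF γ

/-- Cusp forms for arithmetic subgroups are cuspidal. -/
theorem isCuspidal_of_cuspForm {Γ : Subgroup (GL (Fin 2) ℝ)} [Γ.IsArithmetic]
    (f : CuspForm Γ k) : IsCuspidal k (f : ℍ → ℂ) :=
  ⟨f.holo', fun _ hc => f.zero_at_cusps' ((Subgroup.IsArithmetic.isCusp_iff_isCusp_SL2Z Γ).mpr hc)⟩

/-- A cuspidal function invariant under `Γ ≤ SL(2, ℤ)` is a cusp form for `Γ`. -/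
def cuspFormOfIsCuspidal (Γ : Subgroup SL(2, ℤ)) (F : ℍ → ℂ) (hF : IsCuspidal k F)
    (hinv : SlInv k Γ F) : CuspForm Γ k where
  toFun := F
  slash_action_eq' := by
    rintro γ ⟨γ', hγ', rfl⟩
    exact hinv γ' hγ'
  holo' := hF.1
  zero_at_cusps' := fun {c} hc => hF.2 c (hc.mono (by
    rintro γ ⟨γ', _, rfl⟩
    exact ⟨γ', rfl⟩))

@[simp] theorem coe_cuspFormOfIsCuspidal (Γ : Subgroup SL(2, ℤ)) (F : ℍ → ℂ)
    (hF : IsCuspidal k F) (hinv : SlInv k Γ F) :
    ((cuspFormOfIsCuspidal Γ F hF hinv : CuspForm Γ k) : ℍ → ℂ) = F := rfl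

end Fermat.Agent.Lib.Newform.H803

end
-- ===== PACK-END Lib/Newform/H803/Cuspidal.lean

-- ===== PACK-BEGIN Lib/Newform/H863/Degeneracy.lean
section





/-!
# NEWFORM library, layer 0 (helper863): level inclusion and degeneracy maps

For weight 2 cusp forms on `Γ₀(M)`:

* `levelIncl (h : M ∣ N) : S₂(Γ₀(M)) →ₗ S₂(Γ₀(N))`, same function, same `q`-coefficients;
* `degen d : S₂(Γ₀(M)) →ₗ S₂(Γ₀(M * d))`, `(degen d f) τ = f (d τ)`,
  `qCoeff (degen d f) n = if d ∣ n then qCoeff f (n / d) else 0`.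
-/

set_option autoImplicit false

open UpperHalfPlane ModularForm CongruenceSubgroup Matrix.SpecialLinearGroup ModularFormClass
open scoped MatrixGroups ModularForm Manifold

namespace Fermat.Agent.Lib.Newform.H863

noncomputable section

/-- Restriction of a cusp form to a smaller subgroup. -/
def restrictCF {Γ Γ' : Subgroup (GL (Fin 2) ℝ)} {k : ℤ} (h : Γ ≤ Γ') (f : CuspForm Γ' k) :
    CuspForm Γ k where
  toFun := f
  slash_action_eq' γ hγ := f.slash_action_eq' γ (h hγ)
  holo' := f.holo'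
  zero_at_cusps' hc := f.zero_at_cusps' (hc.mono h)

@[simp] theorem coe_restrictCF {Γ Γ' : Subgroup (GL (Fin 2) ℝ)} {k : ℤ} (h : Γ ≤ Γ')
    (f : CuspForm Γ' k) : ⇑(restrictCF h f) = ⇑f := rfl

theorem Gamma0_le_of_dvd {M N : ℕ} (h : M ∣ N) : Gamma0 N ≤ Gamma0 M := by
  intro g hg
  rw [Gamma0_mem] at hg ⊢
  have h1 : (N : ℤ) ∣ g 1 0 := (ZMod.intCast_zmod_eq_zero_iff_dvd _ _).mp hg
  exact (ZMod.intCast_zmod_eq_zero_iff_dvd _ _).mpr ((Int.natCast_dvd_natCast.mpr h).trans h1)

theorem Gamma0_map_le_of_dvd {M N : ℕ} (h : M ∣ N) :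
    (Gamma0 N : Subgroup (GL (Fin 2) ℝ)) ≤ (Gamma0 M : Subgroup (GL (Fin 2) ℝ)) :=
  Subgroup.map_mono (Gamma0_le_of_dvd h)

/-- Level inclusion `S₂(Γ₀(M)) → S₂(Γ₀(N))` for `M ∣ N`. -/
def levelIncl {M N : ℕ} (h : M ∣ N) :
    CuspForm (Gamma0 M) 2 →ₗ[ℂ] CuspForm (Gamma0 N) 2 where
  toFun f := restrictCF (Gamma0_map_le_of_dvd h) f
  map_add' _ _ := DFunLike.coe_injective rfl
  map_smul' _ _ := DFunLike.coe_injective rfl

@[simp] theorem coe_levelIncl {M N : ℕ} (h : M ∣ N) (f : CuspForm (Gamma0 M) 2) :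
    ⇑(levelIncl h f) = ⇑f := rfl

theorem qCoeff_levelIncl {M N : ℕ} (h : M ∣ N) (f : CuspForm (Gamma0 M) 2) (n : ℕ) :
    qCoeff ⇑(levelIncl h f) n = qCoeff ⇑f n := rfl

theorem levelIncl_injective {M N : ℕ} (h : M ∣ N) : Function.Injective (levelIncl h) := by
  intro f g hfg
  apply DFunLike.coe_injective
  have := congrArg (fun F : CuspForm (Gamma0 N) 2 => (⇑F : ℍ → ℂ)) hfg
  simpa using this

/-! ### The degeneracy map `f(τ) ↦ f(d τ)` -/

theorem degen_det_eq (g : SL(2, ℤ)) : g 0 0 * g 1 1 - g 0 1 * g 1 0 = 1 := by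
  have := g.det_coe
  rw [Matrix.det_fin_two] at this
  exact this

/-- `diag(d,1) g = g' diag(d,1)` with explicit `g'`, when `d ∣ g 1 0`. -/
theorem degen_diag_mul {d : ℕ} (hd : d ≠ 0) (g : SL(2, ℤ)) (e : ℤ) (he : g 1 0 = d * e) :
    ∃ g' : SL(2, ℤ), g' 1 0 = e ∧
      heckeDiagMatrix d * mapGL ℝ g = mapGL ℝ g' * heckeDiagMatrix d := by
  have hdet := degen_det_eq g
  refine ⟨⟨!![g 0 0, d * g 0 1; e, g 1 1], ?_⟩, ?_, ?_⟩
  · rw [Matrix.det_fin_two_of]
    linear_combination hdet + (g 0 1) * he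
  · simp
  · ext i j
    fin_cases i <;> fin_cases j <;>
      simp [hd, Matrix.mul_apply, Fin.sum_univ_two]
    all_goals first
      | (have := congrArg (Int.cast : ℤ → ℝ) he; push_cast at this ⊢; linear_combination this)
      | (have := congrArg (Int.cast : ℤ → ℝ) he; push_cast at this ⊢; linear_combination -this)
      | ring1

open ConjAct Pointwise in
theorem Gamma0_mul_le_conj {M d : ℕ} (hd : d ≠ 0) :
    (Gamma0 (M * d) : Subgroup (GL (Fin 2) ℝ)) ≤
      toConjAct (heckeDiagMatrix d)⁻¹ • (Gamma0 M : Subgroup (GL (Fin 2) ℝ)) := by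
  rintro γ ⟨g, hg, rfl⟩
  rw [Subgroup.mem_pointwise_smul_iff_inv_smul_mem, ← map_inv, inv_inv, ConjAct.smul_def,
    ConjAct.ofConjAct_toConjAct]
  have hg' : ((g 1 0 : ℤ) : ZMod (M * d)) = 0 := by simpa [Gamma0_mem] using hg
  obtain ⟨e', he'⟩ := (ZMod.intCast_zmod_eq_zero_iff_dvd _ _).mp hg'
  have he : g 1 0 = d * (M * e') := by rw [he']; push_cast; ring
  obtain ⟨g', hg'10, hg'⟩ := degen_diag_mul hd g (M * e') he
  rw [hg', mul_inv_cancel_right]
  refine ⟨g', Gamma0_mem.mpr ?_, rfl⟩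
  rw [hg'10]
  push_cast
  simp

/-- The degeneracy map `B_d : S₂(Γ₀(M)) → S₂(Γ₀(M d))`, `f(τ) ↦ f(d τ)`. -/
def degen (d : ℕ) [NeZero d] {M : ℕ} :
    CuspForm (Gamma0 M) 2 →ₗ[ℂ] CuspForm (Gamma0 (M * d)) 2 where
  toFun f := (d : ℂ)⁻¹ • restrictCF (Gamma0_mul_le_conj (NeZero.ne d))
    (CuspForm.translate f (heckeDiagMatrix d))
  map_add' f g := by
    apply DFunLike.coe_injective
    ext τ
    simp only [CuspForm.IsGLPos.coe_smul, coe_restrictCF, CuspForm.coe_add, Pi.smul_apply,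
      Pi.add_apply, smul_eq_mul]
    change _ * ((⇑(f + g)) ∣[(2 : ℤ)] heckeDiagMatrix d) τ = _ * ((⇑f) ∣[(2 : ℤ)] heckeDiagMatrix d) τ
      + _ * ((⇑g) ∣[(2 : ℤ)] heckeDiagMatrix d) τ
    rw [CuspForm.coe_add, SlashAction.add_slash, Pi.add_apply, mul_add]
  map_smul' c f := by
    apply DFunLike.coe_injective
    ext τ
    simp only [CuspForm.IsGLPos.coe_smul, coe_restrictCF, Pi.smul_apply, smul_eq_mul,
      RingHom.id_apply]
    change _ * ((⇑(c • f)) ∣[(2 : ℤ)] heckeDiagMatrix d) τ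
      = c * (_ * ((⇑f) ∣[(2 : ℤ)] heckeDiagMatrix d) τ)
    rw [slash_heckeDiagMatrix_apply 2 (NeZero.ne d), slash_heckeDiagMatrix_apply 2 (NeZero.ne d),
      CuspForm.IsGLPos.coe_smul, Pi.smul_apply, smul_eq_mul]
    ring

theorem degen_apply (d : ℕ) [NeZero d] {M : ℕ} (f : CuspForm (Gamma0 M) 2) (τ : ℍ) :
    degen d f τ = f (heckeDiagMatrix d • τ) := by
  change ((d : ℂ)⁻¹ • restrictCF (Gamma0_mul_le_conj (NeZero.ne d))
    (CuspForm.translate f (heckeDiagMatrix d))) τ = _
  rw [CuspForm.IsGLPos.coe_smul, Pi.smul_apply, smul_eq_mul, coe_restrictCF]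
  change _ * ((⇑f) ∣[(2 : ℤ)] heckeDiagMatrix d) τ = _
  rw [slash_heckeDiagMatrix_apply 2 (NeZero.ne d)]
  have hd : (d : ℂ) ≠ 0 := Nat.cast_ne_zero.mpr (NeZero.ne d)
  norm_num
  field_simp

theorem qParam_diag_smul (d : ℕ) [NeZero d] (τ : ℍ) :
    Function.Periodic.qParam 1 ((heckeDiagMatrix d • τ : ℍ) : ℂ) =
      Function.Periodic.qParam 1 (τ : ℂ) ^ d := by
  rw [coe_heckeDiagMatrix_smul (NeZero.ne d), Function.Periodic.qParam, Function.Periodic.qParam,
    ← Complex.exp_nat_mul]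
  congr 1
  push_cast
  ring

/-- The `q`-expansion of `f(d τ)`. -/
theorem qCoeff_degen (d : ℕ) [NeZero d] {M : ℕ} (f : CuspForm (Gamma0 M) 2) (n : ℕ) :
    qCoeff ⇑(degen d f) n = if d ∣ n then qCoeff ⇑f (n / d) else 0 := by
  set c : ℕ → ℂ := fun n ↦ if d ∣ n then qCoeff ⇑f (n / d) else 0 with hc
  have hd : 0 < d := Nat.pos_of_ne_zero (NeZero.ne d)
  have hinj : Function.Injective (fun m : ℕ ↦ d * m) := fun a b h ↦
    Nat.eq_of_mul_eq_mul_left hd h
  haveI : Fact (IsCusp OnePoint.infty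
      (Subgroup.map (Matrix.SpecialLinearGroup.mapGL ℝ) (Gamma0 M))) :=
    ⟨Subgroup.isCusp_of_mem_strictPeriods one_pos (one_mem_strictPeriods_Gamma0 M)⟩
  have key : ∀ τ : ℍ, HasSum (fun m ↦ c m • Function.Periodic.qParam 1 (τ : ℂ) ^ m)
      (degen d f τ) := by
    intro τ
    have h1 := ModularForm.hasSum_qExpansion (f := f) one_pos (one_mem_strictPeriods_Gamma0 M)
      (heckeDiagMatrix d • τ)
    rw [qParam_diag_smul] at h1
    rw [← degen_apply] at h1
    rw [← hinj.hasSum_iff]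
    · have hfun : ((fun m ↦ c m • Function.Periodic.qParam 1 (τ : ℂ) ^ m) ∘ fun m : ℕ ↦ d * m) =
          fun i ↦ (qExpansion 1 ⇑f).coeff i * (Function.Periodic.qParam 1 (τ : ℂ) ^ d) ^ i := by
        funext m
        simp only [Function.comp_apply, hc, dvd_mul_right, if_true,
          Nat.mul_div_cancel_left m hd, smul_eq_mul, qCoeff]
        rw [pow_mul]
      rw [hfun]
      exact h1
    · intro x hx
      have : ¬ d ∣ x := fun ⟨m, hm⟩ ↦ hx ⟨m, hm.symm⟩
      simp [hc, this]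
  exact (ModularFormClass.qExpansion_coeff_unique one_pos
    (one_mem_strictPeriods_Gamma0 (M * d)) key n).symm

theorem degen_injective (d : ℕ) [NeZero d] {M : ℕ} :
    Function.Injective (degen d : CuspForm (Gamma0 M) 2 → CuspForm (Gamma0 (M * d)) 2) := by
  intro f g hfg
  have h0 : f - g = 0 := by
    apply Fermat.Agent.S49.glue_eq_zero_of_qCoeff
    intro n
    have h1 := congrArg (fun F : CuspForm (Gamma0 (M * d)) 2 => qCoeff ⇑F (d * n)) hfg
    simp only [qCoeff_degen, dvd_mul_right, if_true,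
      Nat.mul_div_cancel_left n (Nat.pos_of_ne_zero (NeZero.ne d))] at h1
    rw [Fermat.Agent.S49.glue_qCoeff_sub, h1, sub_self]
  exact sub_eq_zero.mp h0

end

end Fermat.Agent.Lib.Newform.H863

end
-- ===== PACK-END Lib/Newform/H863/Degeneracy.lean

-- ===== PACK-BEGIN Lib/Newform/H863/OldForms.lean
section



/-!
# NEWFORM library, layer 1 (helper863): Hecke operators and oldforms

Compatibility of `levelIncl`, `degen` with the Hecke operators (all proofs through
`q`-coefficients).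
-/

set_option autoImplicit false

open UpperHalfPlane ModularForm CongruenceSubgroup ModularFormClass CuspForm
open Fermat.Agent.S49

namespace Fermat.Agent.Lib.Newform.H863

/-- Cusp forms of weight 2 on `Γ₀(N)` are determined by their `q`-coefficients. -/
theorem cuspForm_ext_qCoeff {N : ℕ} {f g : CuspForm (Gamma0 N) 2}
    (h : ∀ n, qCoeff ⇑f n = qCoeff ⇑g n) : f = g := by
  have h0 : f - g = 0 := glue_eq_zero_of_qCoeff _ (fun n => by rw [glue_qCoeff_sub, h n, sub_self])
  exact sub_eq_zero.mp h0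

theorem heckeTLin_levelIncl {M N ℓ : ℕ} (h : M ∣ N) (hℓ : ℓ.Prime) (hℓN : ¬ ℓ ∣ N)
    (f : CuspForm (Gamma0 M) 2) :
    CuspForm.heckeTLin 2 hℓ hℓN (levelIncl h f)
      = levelIncl h (CuspForm.heckeTLin 2 hℓ (fun hd => hℓN (hd.trans h)) f) :=
  DFunLike.coe_injective rfl

theorem heckeULin_levelIncl {M N q : ℕ} [NeZero M] [NeZero N] (h : M ∣ N) (hqM : q ∣ M)
    (f : CuspForm (Gamma0 M) 2) :
    CuspForm.heckeULin 2 (hqM.trans h) (levelIncl h f)
      = levelIncl h (CuspForm.heckeULin 2 hqM f) :=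
  DFunLike.coe_injective rfl

/-- For a prime `q ∤ M`: `U_q ∘ incl = incl ∘ T_q - q • B_q` from level `M` to level `M q`. -/
theorem heckeULin_levelIncl_of_not_dvd {M q : ℕ} [NeZero M] [NeZero q] [NeZero (M * q)]
    (hq : q.Prime) (hqM : ¬ q ∣ M) (f : CuspForm (Gamma0 M) 2) :
    CuspForm.heckeULin 2 (Dvd.intro_left M rfl : q ∣ M * q) (levelIncl (Dvd.intro q rfl) f)
      = levelIncl (Dvd.intro q rfl) (CuspForm.heckeTLin 2 hq hqM f) - (q : ℂ) • degen q f := by
  apply cuspForm_ext_qCoeff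
  intro n
  rw [glue_qCoeff_heckeULin hq, glue_qCoeff_sub, glue_qCoeff_smul, qCoeff_levelIncl,
    qCoeff_levelIncl, glue_qCoeff_heckeTLin hq hqM, qCoeff_degen]
  split_ifs <;> ring

/-- `U_q ∘ B_q = incl`. -/
theorem heckeULin_degen {M q : ℕ} [NeZero q] [NeZero (M * q)] (hq : q.Prime)
    (f : CuspForm (Gamma0 M) 2) :
    CuspForm.heckeULin 2 (Dvd.intro_left M rfl : q ∣ M * q) (degen q f)
      = levelIncl (Dvd.intro q rfl) f := by
  apply cuspForm_ext_qCoeff
  intro n
  rw [glue_qCoeff_heckeULin hq, qCoeff_degen, qCoeff_levelIncl, if_pos (Dvd.intro_left n rfl),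
    Nat.mul_div_cancel n hq.pos]

/-- `T_ℓ` commutes with `B_d` for `ℓ ∤ M d`. -/
theorem heckeTLin_degen {M d ℓ : ℕ} [NeZero d] (hℓ : ℓ.Prime) (hℓN : ¬ ℓ ∣ M * d)
    (f : CuspForm (Gamma0 M) 2) :
    CuspForm.heckeTLin 2 hℓ hℓN (degen d f)
      = degen d (CuspForm.heckeTLin 2 hℓ (fun hd => hℓN (hd.mul_right d)) f) := by
  have hℓd : ¬ ℓ ∣ d := fun hd => hℓN (hd.mul_left M)
  have hcop : Nat.Coprime d ℓ := ((Nat.Prime.coprime_iff_not_dvd hℓ).mpr hℓd).symm
  apply cuspForm_ext_qCoeff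
  intro n
  rw [glue_qCoeff_heckeTLin hℓ hℓN, qCoeff_degen, qCoeff_degen, qCoeff_degen]
  by_cases hdn : d ∣ n
  · obtain ⟨m, rfl⟩ := hdn
    have hd0 : 0 < d := Nat.pos_of_ne_zero (NeZero.ne d)
    rw [if_pos (Dvd.intro _ rfl), if_pos ((Dvd.intro m rfl).mul_right ℓ),
      glue_qCoeff_heckeTLin hℓ, Nat.mul_div_cancel_left m hd0, mul_assoc,
      Nat.mul_div_cancel_left (m * ℓ) hd0]
    by_cases hℓm : ℓ ∣ m
    · obtain ⟨r, rfl⟩ := hℓm
      rw [if_pos (Dvd.intro r rfl), if_pos ((Dvd.intro r rfl).mul_left d),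
        Nat.mul_div_cancel_left r hℓ.pos,
        show d * (ℓ * r) / ℓ = d * r by
          rw [Nat.mul_left_comm, Nat.mul_div_cancel_left _ hℓ.pos],
        if_pos (Dvd.intro r rfl), Nat.mul_div_cancel_left r hd0]
    · have : ¬ ℓ ∣ d * m := fun h => hℓm ((Nat.Coprime.dvd_mul_left hcop.symm).mp h)
      rw [if_neg hℓm, if_neg this]
  · have h1 : ¬ d ∣ n * ℓ := fun h => hdn ((Nat.Coprime.dvd_mul_right hcop).mp h)
    rw [if_neg hdn, if_neg h1, zero_add]
    by_cases hℓn : ℓ ∣ n
    · obtain ⟨r, rfl⟩ := hℓn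
      have h2 : ¬ d ∣ r := fun h => hdn (h.mul_left ℓ)
      rw [if_pos (Dvd.intro r rfl), Nat.mul_div_cancel_left r hℓ.pos, if_neg h2, mul_zero]
    · rw [if_neg hℓn]

end Fermat.Agent.Lib.Newform.H863

end
-- ===== PACK-END Lib/Newform/H863/OldForms.lean

-- ===== PACK-BEGIN Lib/Newform/H563/SqDvd.lean
section



/-!
# NEWFORM library (helper563): `a_q = 0` for a newform when `q² ∣ N`

Petersson-free: if `q² ∣ N` then `U_q` maps `Γ₀(N)`-invariant functions to `Γ₀(N/q)`-invariant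
functions; for a normalised eigenform `U_q f = a_q f`, so `a_q ≠ 0` would make `f` itself a
normalised eigenform of level `N/q`, contradicting the Prelude definition of `IsNewform`.
-/

set_option autoImplicit false

noncomputable section

namespace Fermat.Agent.Lib.Newform.H563

open UpperHalfPlane ModularForm CongruenceSubgroup ModularFormClass Matrix.SpecialLinearGroup
open scoped MatrixGroups Manifold

open P2MW.S_ModularForm_heckeU_slash_eq_self_of_mem_Gamma0.ModularForm.HeckeSlashInvariance in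
/-- If `p ∣ M` then `U_p` maps `Γ₀(pM)`-invariant functions to `Γ₀(M)`-invariant functions. -/
theorem heckeU_slash_of_dvd {M p : ℕ} [NeZero p] (k : ℤ) (hpM : p ∣ M) {f : ℍ → ℂ}
    (hf : ∀ γ ∈ (Gamma0 (p * M) : Subgroup (GL (Fin 2) ℝ)), f ∣[k] γ = f)
    (γ : GL (Fin 2) ℝ) (hγ : γ ∈ (Gamma0 M : Subgroup (GL (Fin 2) ℝ))) :
    heckeU k p f ∣[k] γ = heckeU k p f := by
  obtain ⟨g, hg, rfl⟩ := Subgroup.mem_map.mp hγ
  have hcM : (M : ℤ) ∣ g 1 0 :=
    (ZMod.intCast_zmod_eq_zero_iff_dvd _ _).mp (CongruenceSubgroup.Gamma0_mem.mp hg)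
  have hc : (p : ℤ) ∣ g 1 0 := (Int.natCast_dvd_natCast.mpr hpM).trans hcM
  rw [heckeU_eq_sum_zmod k f, SlashAction.sum_slash]
  calc ∑ x : ZMod p, (f ∣[k] heckeMatrix p x.val) ∣[k] mapGL ℝ g
      = ∑ x : ZMod p, f ∣[k] heckeMatrix p
          (affinePerm g ((ZMod.intCast_zmod_eq_zero_iff_dvd _ _).mpr hc) x).val := by
        refine Finset.sum_congr rfl fun x _ ↦ ?_
        obtain ⟨g', hg', hmul⟩ := heckeMatrix_mul_of_dvd g hc x
        have hg'N : g' ∈ CongruenceSubgroup.Gamma0 (p * M) := by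
          rw [CongruenceSubgroup.Gamma0_mem, hg', ZMod.intCast_zmod_eq_zero_iff_dvd]
          push_cast
          exact mul_dvd_mul_left _ hcM
        rw [← SlashAction.slash_mul, hmul, SlashAction.slash_mul,
          hf _ (Subgroup.mem_map_of_mem (mapGL ℝ) hg'N)]
    _ = ∑ x : ZMod p, f ∣[k] heckeMatrix p x.val :=
        Equiv.sum_comp (affinePerm g _) (fun x ↦ f ∣[k] heckeMatrix p x.val)

/-- **Atkin–Lehner, bad primes (i).** For a newform (Prelude sense) of level `N` and a prime `q`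
with `q² ∣ N`, the `q`-th Fourier coefficient vanishes. -/
theorem qCoeff_eq_zero_of_sq_dvd {N : ℕ} [NeZero N] {f : CuspForm (Gamma0 N) 2}
    (hf : f.IsNewform) {q : ℕ} (hq : q.Prime) (hq2 : q ^ 2 ∣ N) : qCoeff f q = 0 := by
  by_contra ha
  obtain ⟨M, hM⟩ : q ∣ N := dvd_trans (dvd_pow_self q two_ne_zero) hq2
  have hqM : q ∣ M := by
    rw [hM, pow_two] at hq2
    exact (Nat.mul_dvd_mul_iff_left hq.pos).mp hq2
  have hN0 : N ≠ 0 := NeZero.ne N
  have hM0 : M ≠ 0 := by rintro rfl; exact hN0 (by simpa using hM)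
  have : NeZero M := ⟨hM0⟩
  have : NeZero q := ⟨hq.ne_zero⟩
  have hfe := hf.isNormalizedEigenform
  have hU : heckeU 2 q ⇑f = qCoeff f q • ⇑f := heckeU_eq_smul hfe hq (hM ▸ dvd_mul_right q M)
  have hfN : ∀ γ ∈ (Gamma0 (q * M) : Subgroup (GL (Fin 2) ℝ)), (⇑f) ∣[(2 : ℤ)] γ = ⇑f := by
    intro γ hγ
    rw [← hM] at hγ
    exact SlashInvariantFormClass.slash_action_eq f γ hγ
  have hinv : ∀ γ ∈ (Gamma0 M : Subgroup (GL (Fin 2) ℝ)), (⇑f) ∣[(2 : ℤ)] γ = ⇑f := by
    intro γ hγ
    have h1 := heckeU_slash_of_dvd (2 : ℤ) hqM hfN γ hγ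
    rw [hU] at h1
    have h2 : (⇑f : ℍ → ℂ) = (qCoeff f q)⁻¹ • (qCoeff f q • ⇑f) := by
      rw [smul_smul, inv_mul_cancel₀ ha, one_smul]
    rw [h2, ModularForm.smul_slash, h1]
    congr 1
    obtain ⟨g, -, rfl⟩ := Subgroup.mem_map.mp hγ
    simp [UpperHalfPlane.σ]
  refine hf.2 M ⟨q, by rw [hM]; ring⟩ ?_ ⟨lowerLevel f hinv, ⟨hfe.qCoeff_one, hfe.qCoeff_mul_of_coprime,
    fun p r hp hpM => hfe.qCoeff_prime_pow_of_not_dvd p r hp ?_,
    fun p r hp hpM => hfe.qCoeff_prime_pow_of_dvd p r hp (hM ▸ hpM.mul_left q)⟩, fun _ _ _ => rfl⟩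
  · intro h
    rw [hM] at h
    have : q * M = 1 * M := by rw [one_mul]; exact h.symm
    exact hq.ne_one (Nat.eq_of_mul_eq_mul_right (Nat.pos_of_ne_zero hM0) this)
  · intro hpN
    rw [hM] at hpN
    rcases (Nat.Prime.dvd_mul hp).mp hpN with h | h
    · exact hpM (((Nat.prime_dvd_prime_iff_eq hp hq).mp h) ▸ hqM)
    · exact hpM h

end Fermat.Agent.Lib.Newform.H563

end
end
-- ===== PACK-END Lib/Newform/H563/SqDvd.lean

-- ===== PACK-BEGIN Lib/Newform/H563/LowerU.lean
section



/-!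
# NEWFORM library (helper563): leaf `LowerU` of the frozen interface `H958/Spec.lean`.
-/

set_option autoImplicit false

noncomputable section

namespace Fermat.Agent.Lib.Newform.H563

open UpperHalfPlane ModularForm CongruenceSubgroup ModularFormClass
open scoped MatrixGroups Manifold

/-- Leaf **LOWER-U**: if `q² ∣ N` then `U_q` maps level `N` to level `N / q`. -/
theorem lowerU : H958.LowerU := by
  intro N q _ hq hq2 f
  obtain ⟨M, hM⟩ : q ∣ N := dvd_trans (dvd_pow_self q two_ne_zero) hq2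
  have hqM : q ∣ M := by
    rw [hM, pow_two] at hq2
    exact (Nat.mul_dvd_mul_iff_left hq.pos).mp hq2
  have hN0 : N ≠ 0 := NeZero.ne N
  have hM0 : M ≠ 0 := by rintro rfl; exact hN0 (by simpa using hM)
  have hdiv : N / q = M := by rw [hM]; exact Nat.mul_div_cancel_left M hq.pos
  have : NeZero M := ⟨hM0⟩
  have : NeZero q := ⟨hq.ne_zero⟩
  have hfN : ∀ γ ∈ (Gamma0 (q * M) : Subgroup (GL (Fin 2) ℝ)), (⇑f) ∣[(2 : ℤ)] γ = ⇑f := by
    intro γ hγ
    rw [← hM] at hγ
    exact SlashInvariantFormClass.slash_action_eq f γ hγ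
  have hinv : ∀ γ ∈ (Gamma0 M : Subgroup (GL (Fin 2) ℝ)),
      (⇑(CuspForm.heckeULin 2 (hM ▸ dvd_mul_right q M : q ∣ N) f)) ∣[(2 : ℤ)] γ
        = ⇑(CuspForm.heckeULin 2 (hM ▸ dvd_mul_right q M : q ∣ N) f) := by
    intro γ hγ
    exact heckeU_slash_of_dvd (2 : ℤ) hqM hfN γ hγ
  rw [hdiv]
  exact ⟨lowerLevel _ hinv, rfl⟩

end Fermat.Agent.Lib.Newform.H563

end
end
-- ===== PACK-END Lib/Newform/H563/LowerU.lean

-- ===== PACK-BEGIN Lib/Newform/H263/EigenBound.lean
section
/-
NEWFORM library (helper263) — part 2: the strict trivial bound for Hecke eigenvalues.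

For a nonzero weight-2 cusp form `f` on an arithmetic group and a prime `ℓ`:
`heckeT 2 ℓ f = c • f  ⟹  ‖c‖ < ℓ + 1`, and `heckeU 2 ℓ f = c • f ⟹ ‖c‖ ≤ ℓ`.
Proof: the invariant height `‖f τ‖ · im τ` attains its maximum (part 1); evaluate the eigen-equation
at a maximum point and iterate `τ ↦ ℓ τ` towards `i∞`.
-/




set_option autoImplicit false

open Filter Topology UpperHalfPlane ModularForm Matrix.SpecialLinearGroup
open scoped Modular MatrixGroups ModularForm

namespace Fermat.Agent.Lib.Newform.H263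

/-- The weight-2 invariant height `‖f τ‖ · im τ` of a function on the upper half plane. -/
noncomputable def height (f : ℍ → ℂ) (τ : ℍ) : ℝ := ‖f τ‖ * τ.im

theorem height_nonneg (f : ℍ → ℂ) (τ : ℍ) : 0 ≤ height f τ :=
  mul_nonneg (norm_nonneg _) τ.im_pos.le

theorem height_sq (f : ℍ → ℂ) (τ : ℍ) : height f τ ^ 2 = ‖petersson 2 f f τ‖ := by
  simp only [height, petersson, norm_mul, Complex.norm_conj, norm_zpow, Complex.norm_real,
    Real.norm_of_nonneg τ.im_pos.le]
  norm_cast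
  ring

theorem height_eq_sqrt (f : ℍ → ℂ) (τ : ℍ) : height f τ = Real.sqrt ‖petersson 2 f f τ‖ := by
  rw [← height_sq, Real.sqrt_sq (height_nonneg f τ)]

theorem height_pos_iff (f : ℍ → ℂ) (τ : ℍ) : 0 < height f τ ↔ f τ ≠ 0 := by
  rw [height, mul_pos_iff_of_pos_right τ.im_pos, norm_pos_iff]

theorem height_smul (c : ℂ) (f : ℍ → ℂ) (τ : ℍ) : height (c • f) τ = ‖c‖ * height f τ := by
  simp [height, mul_assoc]

section cusp

variable (Γ : Subgroup (GL (Fin 2) ℝ)) [Γ.IsArithmetic] {F : Type*} [FunLike F ℍ ℂ]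
  [CuspFormClass F Γ 2]

include Γ

theorem height_smul_of_mem (f : F) {g : GL (Fin 2) ℝ} (hg : g ∈ Γ) (τ : ℍ) :
    height f (g • τ) = height f τ := by
  rw [height_eq_sqrt, height_eq_sqrt, SlashInvariantFormClass.norm_petersson_smul hg]

omit [Γ.IsArithmetic] in
theorem continuous_height (f : F) : Continuous (height (⇑f)) := by
  have hf : Continuous (⇑f) := ModularFormClass.continuous (Γ := Γ) (k := 2) f
  unfold height
  fun_prop

open ConjAct Pointwise in
theorem tendsto_height_smul (f : F) (g : SL(2, ℤ)) :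
    Tendsto (fun τ ↦ height f (g • τ)) atImInfty (𝓝 0) := by
  have h1 : IsZeroAtImInfty (fun τ ↦ petersson 2 f f (g • τ)) := by
    simp_rw [← UpperHalfPlane.petersson_slash_SL]
    have : ((toConjAct (g : GL (Fin 2) ℝ)⁻¹) • Γ).IsArithmetic := by
      simpa [(show Rat.castHom ℝ = algebraMap ℚ ℝ by rfl), map_inv, map_mapGL]
        using! Subgroup.IsArithmetic.conj Γ (mapGL ℚ g)⁻¹
    exact (CuspFormClass.zero_at_infty <| CuspForm.translate f g).petersson_isZeroAtImInfty_left 2 _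
      (ModularForm.translate f g)
  have h2 : Tendsto (fun τ ↦ ‖petersson 2 f f (g • τ)‖) atImInfty (𝓝 0) := by
    rw [IsZeroAtImInfty, ZeroAtFilter] at h1
    simpa using h1.norm
  have h3 := (Real.continuous_sqrt.tendsto 0).comp h2
  simp only [Real.sqrt_zero] at h3
  refine h3.congr fun τ ↦ ?_
  simp [height_eq_sqrt]

theorem tendsto_height (f : F) : Tendsto (height (⇑f)) atImInfty (𝓝 0) := by
  simpa using tendsto_height_smul Γ f 1

/-- The invariant height of a weight-2 cusp form attains its maximum. -/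
theorem exists_max_height (f : F) : ∃ τ₀, ∀ τ, height f τ ≤ height f τ₀ :=
  exists_max_of_subgroup_invariant (continuous_height Γ f) (height_nonneg _)
    (tendsto_height_smul Γ f) (Γ := Γ) (fun _ hg τ ↦ height_smul_of_mem Γ f hg τ)

end cusp

/-! ### The Hecke inequality -/

theorem im_heckeMatrix_smul {p : ℕ} (hp : p ≠ 0) (j : ℕ) (τ : ℍ) :
    (heckeMatrix p j • τ).im = τ.im / p := by
  have h := congrArg Complex.im (coe_heckeMatrix_smul hp j τ)
  rw [UpperHalfPlane.coe_im] at h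
  rw [h, Complex.div_natCast_im, Complex.add_im, Complex.natCast_im, add_zero,
    UpperHalfPlane.coe_im]

theorem im_heckeDiagMatrix_smul {p : ℕ} (hp : p ≠ 0) (τ : ℍ) :
    (heckeDiagMatrix p • τ).im = p * τ.im := by
  have h := congrArg Complex.im (coe_heckeDiagMatrix_smul hp τ)
  rw [UpperHalfPlane.coe_im] at h
  rw [h, Complex.mul_im, Complex.natCast_re, Complex.natCast_im, zero_mul, add_zero,
    UpperHalfPlane.coe_im]

theorem height_heckeU_le (f : ℍ → ℂ) {p : ℕ} (hp : p ≠ 0) (τ : ℍ) :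
    height (heckeU 2 p f) τ ≤ ∑ j ∈ Finset.range p, height f (heckeMatrix p j • τ) := by
  have hp' : (0 : ℝ) < p := by exact_mod_cast Nat.pos_of_ne_zero hp
  rw [height, heckeU_apply 2 hp, norm_mul, norm_inv, Complex.norm_natCast]
  calc (p : ℝ)⁻¹ * ‖∑ j ∈ Finset.range p, f (heckeMatrix p j • τ)‖ * τ.im
      ≤ (p : ℝ)⁻¹ * (∑ j ∈ Finset.range p, ‖f (heckeMatrix p j • τ)‖) * τ.im := by
        gcongr
        exact norm_sum_le _ _
    _ = ∑ j ∈ Finset.range p, height f (heckeMatrix p j • τ) := by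
        rw [Finset.mul_sum, Finset.sum_mul]
        refine Finset.sum_congr rfl fun j _ ↦ ?_
        rw [height, im_heckeMatrix_smul hp]
        field_simp

theorem height_heckeT_le (f : ℍ → ℂ) {p : ℕ} (hp : p ≠ 0) (τ : ℍ) :
    height (heckeT 2 p f) τ ≤
      ∑ j ∈ Finset.range p, height f (heckeMatrix p j • τ) + height f (heckeDiagMatrix p • τ) := by
  have h1 : height (heckeT 2 p f) τ ≤ height (heckeU 2 p f) τ
      + height (f ∣[(2 : ℤ)] heckeDiagMatrix p) τ := by
    rw [heckeT_eq_heckeU_add]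
    simp only [height, Pi.add_apply, ← add_mul]
    gcongr
    exact norm_add_le _ _
  have h2 : height (f ∣[(2 : ℤ)] heckeDiagMatrix p) τ = height f (heckeDiagMatrix p • τ) := by
    rw [height, height, slash_heckeDiagMatrix_apply 2 hp, im_heckeDiagMatrix_smul hp, norm_mul]
    simp
    ring
  rw [h2] at h1
  exact h1.trans (by gcongr; exact height_heckeU_le f hp τ)

/-! ### The strict trivial bound -/

section bound

variable (Γ : Subgroup (GL (Fin 2) ℝ)) [Γ.IsArithmetic] {F : Type*} [FunLike F ℍ ℂ]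
  [CuspFormClass F Γ 2]

include Γ

/-- **Strict trivial bound.** If a nonzero weight-2 cusp form `f` satisfies `T_p f = c f`
(function-level Prelude operator `heckeT 2 p`, any `p ≥ 2`), then `‖c‖ < p + 1`. -/
theorem norm_lt_of_heckeT_eq (f : F) (hf : (⇑f : ℍ → ℂ) ≠ 0) {p : ℕ} (hp : 2 ≤ p) {c : ℂ}
    (h : heckeT 2 p ⇑f = c • ⇑f) : ‖c‖ < p + 1 := by
  obtain ⟨τ₀, hmax⟩ := exists_max_height Γ f
  set m := height f τ₀ with hm_def
  have hm : 0 < m := by
    obtain ⟨τ, hτ⟩ : ∃ τ, f τ ≠ 0 := by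
      by_contra h'
      push Not at h'
      exact hf (funext h')
    exact ((height_pos_iff _ _).mpr hτ).trans_le (hmax τ)
  by_contra hc
  push Not at hc
  have hp0 : p ≠ 0 := by omega
  -- a maximum point `τ` gives the maximum point `p τ`
  have step : ∀ τ, height f τ = m → height f (heckeDiagMatrix p • τ) = m := by
    intro τ hτ
    have h1 := height_heckeT_le f hp0 τ
    rw [h, height_smul, hτ] at h1
    have h2 : ∑ j ∈ Finset.range p, height f (heckeMatrix p j • τ) ≤ p * m := by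
      calc ∑ j ∈ Finset.range p, height f (heckeMatrix p j • τ)
          ≤ ∑ _j ∈ Finset.range p, m := Finset.sum_le_sum fun j _ ↦ hmax _
        _ = p * m := by simp
    have h3 : ((p : ℝ) + 1) * m ≤ ‖c‖ * m := by gcongr
    exact le_antisymm (hmax _) (by nlinarith)
  have iter : ∀ r : ℕ, ∃ τ : ℍ, height f τ = m ∧ τ.im = (p : ℝ) ^ r * τ₀.im := by
    intro r
    induction r with
    | zero => exact ⟨τ₀, rfl, by simp⟩
    | succ r ih =>
      obtain ⟨τ, h1, h2⟩ := ih
      exact ⟨heckeDiagMatrix p • τ, step τ h1, by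
        rw [im_heckeDiagMatrix_smul hp0, h2]; ring⟩
  obtain ⟨Y, hY⟩ := (atImInfty_mem _).mp ((tendsto_height Γ f).eventually (gt_mem_nhds hm))
  obtain ⟨r, hr⟩ : ∃ r : ℕ, Y ≤ (p : ℝ) ^ r * τ₀.im := by
    have hp1 : (1 : ℝ) < p := by exact_mod_cast hp
    have : Tendsto (fun r : ℕ ↦ (p : ℝ) ^ r * τ₀.im) atTop atTop :=
      (tendsto_pow_atTop_atTop_of_one_lt hp1).atTop_mul_const τ₀.im_pos
    exact (this.eventually_ge_atTop Y).exists
  obtain ⟨τ, h1, h2⟩ := iter r
  have h4 := hY τ (h2 ▸ hr)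
  exact absurd h1 (ne_of_lt h4)

/-- **Trivial bound for `U_p`.** If a nonzero weight-2 cusp form `f` satisfies `U_p f = c f`
(function-level Prelude operator `heckeU 2 p`, `p ≠ 0`), then `‖c‖ ≤ p`. -/
theorem norm_le_of_heckeU_eq (f : F) (hf : (⇑f : ℍ → ℂ) ≠ 0) {p : ℕ} (hp : p ≠ 0) {c : ℂ}
    (h : heckeU 2 p ⇑f = c • ⇑f) : ‖c‖ ≤ p := by
  obtain ⟨τ₀, hmax⟩ := exists_max_height Γ f
  set m := height f τ₀ with hm_def
  have hm : 0 < m := by
    obtain ⟨τ, hτ⟩ : ∃ τ, f τ ≠ 0 := by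
      by_contra h'
      push Not at h'
      exact hf (funext h')
    exact ((height_pos_iff _ _).mpr hτ).trans_le (hmax τ)
  have h1 := height_heckeU_le f hp τ₀
  rw [h, height_smul] at h1
  have h2 : ∑ j ∈ Finset.range p, height f (heckeMatrix p j • τ₀) ≤ p * m := by
    calc ∑ j ∈ Finset.range p, height f (heckeMatrix p j • τ₀)
        ≤ ∑ _j ∈ Finset.range p, m := Finset.sum_le_sum fun j _ ↦ hmax _
      _ = p * m := by simp
  exact le_of_mul_le_mul_right (h1.trans h2) hm

end bound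

/-! ### Level `Γ₀(N)`: the Prelude's bundled operators -/

section Gamma0

open CongruenceSubgroup

variable {N : ℕ}

theorem cuspForm_coe_ne_zero {k : ℤ} {f : CuspForm (Gamma0 N) k} (hf : f ≠ 0) :
    (⇑f : ℍ → ℂ) ≠ 0 := fun h ↦ hf (DFunLike.coe_injective (by rw [h]; rfl))

/-- **Strict trivial bound**, bundled form: an eigenvalue `c` of `T_ℓ` (`ℓ ∤ N` prime) on
`S₂(Γ₀(N))` satisfies `‖c‖ < ℓ + 1`. -/
theorem norm_lt_of_heckeTLin_eq {f : CuspForm (Gamma0 N) 2} (hf : f ≠ 0) {ℓ : ℕ} (hℓ : ℓ.Prime)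
    (hℓN : ¬ ℓ ∣ N) {c : ℂ} (h : CuspForm.heckeTLin 2 hℓ hℓN f = c • f) : ‖c‖ < ℓ + 1 := by
  have : NeZero N := ⟨fun h0 ↦ hℓN (h0 ▸ dvd_zero ℓ)⟩
  refine norm_lt_of_heckeT_eq (Gamma0 N : Subgroup (GL (Fin 2) ℝ)) f (cuspForm_coe_ne_zero hf)
    hℓ.two_le ?_
  have := congrArg (fun g : CuspForm (Gamma0 N) 2 ↦ (⇑g : ℍ → ℂ)) h
  simpa using this

/-- **Trivial bound for `U_q`**, bundled form: an eigenvalue `c` of `U_q` (`q ∣ N`) on
`S₂(Γ₀(N))` satisfies `‖c‖ ≤ q`. -/
theorem norm_le_of_heckeULin_eq [NeZero N] {f : CuspForm (Gamma0 N) 2} (hf : f ≠ 0) {q : ℕ}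
    (hq : q ≠ 0) (hqN : q ∣ N) {c : ℂ} (h : CuspForm.heckeULin 2 hqN f = c • f) : ‖c‖ ≤ q := by
  refine norm_le_of_heckeU_eq (Gamma0 N : Subgroup (GL (Fin 2) ℝ)) f (cuspForm_coe_ne_zero hf)
    hq ?_
  have := congrArg (fun g : CuspForm (Gamma0 N) 2 ↦ (⇑g : ℍ → ℂ)) h
  simpa using this

/-- An eigenvalue `c` of `T_ℓ` on `S₂(Γ₀(N))` never satisfies `c² = (ℓ + 1)²`. -/
theorem sq_ne_of_heckeTLin_eq {f : CuspForm (Gamma0 N) 2} (hf : f ≠ 0) {ℓ : ℕ} (hℓ : ℓ.Prime)
    (hℓN : ¬ ℓ ∣ N) {c : ℂ} (h : CuspForm.heckeTLin 2 hℓ hℓN f = c • f) :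
    c ^ 2 ≠ ((ℓ : ℂ) + 1) ^ 2 := by
  intro hc
  have h1 := norm_lt_of_heckeTLin_eq hf hℓ hℓN h
  have h2 : ‖c‖ ^ 2 = ((ℓ : ℝ) + 1) ^ 2 := by
    rw [← norm_pow, hc, norm_pow]
    congr 1
    have : ((ℓ : ℂ) + 1) = (((ℓ + 1 : ℕ) : ℝ) : ℂ) := by push_cast; ring
    rw [this, Complex.norm_real, Real.norm_of_nonneg (by positivity)]
    push_cast; ring
  nlinarith [norm_nonneg c]

end Gamma0

end Fermat.Agent.Lib.Newform.H263

end
-- ===== PACK-END Lib/Newform/H263/EigenBound.lean

-- ===== PACK-BEGIN Lib/Newform/H263/Eigenform.lean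
section
/-
NEWFORM library (helper263) — part 3: consequences of the strict trivial bound for normalized
eigenforms and for the Hecke operators on `S₂(Γ₀(N))`.

* `norm_qCoeff_lt`            : `‖a_ℓ(f)‖ < ℓ + 1` for a normalized eigenform, `ℓ ∤ N`;
* `qCoeff_sq_ne`              : `a_ℓ(f)² ≠ (ℓ + 1)²`;
* `root_sq_ne_one`            : roots `α` of `X² - a_ℓ X + ℓ` satisfy `α² ≠ 1`;
* `not_isNewAt_of_root`       : an eigenform whose `q`-th coefficient is such a root is not
                                `IsNewAt q` (`q`-old stabilisations are never new at `q`);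
* `heckeTLin_sub_smul_injective/bijective`, `ribetDet_injective/bijective`, `isUnit_ribetDet` :
  `T_ℓ - c` (`‖c‖ ≥ ℓ + 1`) and `ribetDet = T_ℓ² - (ℓ + 1)²` are bijective on `S₂(Γ₀(N))`
  (the determinant of Ribet's level-raising matrix `[[ℓ+1, T_ℓ], [T_ℓ, ℓ+1]]` is invertible
  over `ℂ`).
-/




set_option autoImplicit false

open CongruenceSubgroup ModularFormClass ModularForm UpperHalfPlane

namespace Fermat.Agent.Lib.Newform.H263

variable {N : ℕ}

/-- **Strict trivial bound** for the coefficients of a normalized eigenform at good primes. -/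
theorem norm_qCoeff_lt {f : CuspForm (Gamma0 N) 2} (hf : f.IsNormalizedEigenform) {ℓ : ℕ}
    (hℓ : ℓ.Prime) (hℓN : ¬ ℓ ∣ N) : ‖qCoeff ⇑f ℓ‖ < ℓ + 1 :=
  norm_lt_of_heckeTLin_eq hf.ne_zero hℓ hℓN (H683.heckeTLin_eq_of_eigenform hf hℓ hℓN)

/-- Trivial bound for the coefficients of a normalized eigenform at bad primes. -/
theorem norm_qCoeff_le_of_dvd [NeZero N] {f : CuspForm (Gamma0 N) 2}
    (hf : f.IsNormalizedEigenform) {q : ℕ} (hq : q.Prime) (hqN : q ∣ N) : ‖qCoeff ⇑f q‖ ≤ q :=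
  norm_le_of_heckeULin_eq hf.ne_zero hq.ne_zero hqN (H683.heckeULin_eq_of_eigenform hf hq hqN)

/-- `a_ℓ(f)² ≠ (ℓ + 1)²` for a normalized eigenform and a good prime `ℓ`. -/
theorem qCoeff_sq_ne {f : CuspForm (Gamma0 N) 2} (hf : f.IsNormalizedEigenform) {ℓ : ℕ}
    (hℓ : ℓ.Prime) (hℓN : ¬ ℓ ∣ N) : qCoeff ⇑f ℓ ^ 2 ≠ ((ℓ : ℂ) + 1) ^ 2 :=
  sq_ne_of_heckeTLin_eq hf.ne_zero hℓ hℓN (H683.heckeTLin_eq_of_eigenform hf hℓ hℓN)

/-- The roots of the Hecke polynomial `X² - a_ℓ X + ℓ` of a normalized eigenform at a good prime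
are different from `±1`. -/
theorem root_sq_ne_one {f : CuspForm (Gamma0 N) 2} (hf : f.IsNormalizedEigenform) {ℓ : ℕ}
    (hℓ : ℓ.Prime) (hℓN : ¬ ℓ ∣ N) {α : ℂ} (hα : α ^ 2 - qCoeff ⇑f ℓ * α + ℓ = 0) :
    α ^ 2 ≠ 1 := by
  intro h1
  refine qCoeff_sq_ne hf hℓ hℓN ?_
  have h2 : qCoeff ⇑f ℓ * α = (ℓ : ℂ) + 1 := by
    have := hα
    rw [h1] at this
    linear_combination -this
  calc qCoeff ⇑f ℓ ^ 2 = (qCoeff ⇑f ℓ * α) ^ 2 := by rw [mul_pow, h1, mul_one]
    _ = ((ℓ : ℂ) + 1) ^ 2 := by rw [h2]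

/-- An eigenform (of any level) whose `q`-th coefficient is a root of the Hecke polynomial
`X² - a_q(f) X + q` of a normalized eigenform `f` of level prime to `q` is not `IsNewAt q`:
the `q`-old stabilisations of `f` are never new at `q`. -/
theorem not_isNewAt_of_root {f : CuspForm (Gamma0 N) 2} (hf : f.IsNormalizedEigenform) {q : ℕ}
    (hq : q.Prime) (hqN : ¬ q ∣ N) {M : ℕ} (g : CuspForm (Gamma0 M) 2)
    (hg : qCoeff ⇑g q ^ 2 - qCoeff ⇑f q * qCoeff ⇑g q + q = 0) : ¬ g.IsNewAt q :=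
  fun h ↦ root_sq_ne_one hf hq hqN hg h

/-! ### Linear algebra on `S₂(Γ₀(N))` -/

/-- `T_ℓ - c` is injective on `S₂(Γ₀(N))` as soon as `‖c‖ ≥ ℓ + 1`. -/
theorem heckeTLin_sub_smul_injective {ℓ : ℕ} (hℓ : ℓ.Prime) (hℓN : ¬ ℓ ∣ N) {c : ℂ}
    (hc : (ℓ : ℝ) + 1 ≤ ‖c‖) :
    Function.Injective
      (CuspForm.heckeTLin (N := N) 2 hℓ hℓN - c • (1 : Module.End ℂ (CuspForm (Gamma0 N) 2))) := by
  rw [← LinearMap.ker_eq_bot, LinearMap.ker_eq_bot']
  intro f hf
  by_contra hne
  have h : CuspForm.heckeTLin 2 hℓ hℓN f = c • f := by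
    have := hf
    simp only [LinearMap.sub_apply, LinearMap.smul_apply, Module.End.one_apply] at this
    exact sub_eq_zero.mp this
  exact absurd (norm_lt_of_heckeTLin_eq hne hℓ hℓN h) (not_lt.mpr hc)

/-- `T_ℓ - c` is bijective on `S₂(Γ₀(N))` as soon as `‖c‖ ≥ ℓ + 1`. -/
theorem heckeTLin_sub_smul_bijective {ℓ : ℕ} (hℓ : ℓ.Prime) (hℓN : ¬ ℓ ∣ N) {c : ℂ}
    (hc : (ℓ : ℝ) + 1 ≤ ‖c‖) :
    Function.Bijective
      (CuspForm.heckeTLin (N := N) 2 hℓ hℓN - c • (1 : Module.End ℂ (CuspForm (Gamma0 N) 2))) := by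
  have : NeZero N := ⟨fun h0 ↦ hℓN (h0 ▸ dvd_zero ℓ)⟩
  have := H683.finiteDimensional_cuspForm N 2
  have hinj := heckeTLin_sub_smul_injective (N := N) hℓ hℓN hc
  exact ⟨hinj, LinearMap.surjective_of_injective hinj⟩

/-- Every eigenvalue of `T_ℓ` on `S₂(Γ₀(N))` has norm `< ℓ + 1`. -/
theorem norm_lt_of_hasEigenvalue {ℓ : ℕ} (hℓ : ℓ.Prime) (hℓN : ¬ ℓ ∣ N) {c : ℂ}
    (hc : Module.End.HasEigenvalue (CuspForm.heckeTLin (N := N) 2 hℓ hℓN) c) : ‖c‖ < ℓ + 1 := by
  obtain ⟨f, hf⟩ := hc.exists_hasEigenvector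
  exact norm_lt_of_heckeTLin_eq hf.2 hℓ hℓN (hf.apply_eq_smul)

/-- The endomorphism `T_ℓ² - (ℓ + 1)²` of `S₂(Γ₀(N))`: minus the determinant of Ribet's
level-raising matrix `[[ℓ + 1, T_ℓ], [T_ℓ, ℓ + 1]]`. -/
noncomputable def ribetDet (N : ℕ) {ℓ : ℕ} (hℓ : ℓ.Prime) (hℓN : ¬ ℓ ∣ N) :
    Module.End ℂ (CuspForm (Gamma0 N) 2) :=
  (CuspForm.heckeTLin 2 hℓ hℓN) ^ 2 - (((ℓ : ℂ) + 1) ^ 2) • 1

theorem ribetDet_apply {ℓ : ℕ} (hℓ : ℓ.Prime) (hℓN : ¬ ℓ ∣ N) (f : CuspForm (Gamma0 N) 2) :
    ribetDet N hℓ hℓN f =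
      CuspForm.heckeTLin 2 hℓ hℓN (CuspForm.heckeTLin 2 hℓ hℓN f) - (((ℓ : ℂ) + 1) ^ 2) • f := by
  simp [ribetDet, pow_two]

/-- `T_ℓ² - (ℓ + 1)²` is injective on `S₂(Γ₀(N))`. -/
theorem ribetDet_injective {ℓ : ℕ} (hℓ : ℓ.Prime) (hℓN : ¬ ℓ ∣ N) :
    Function.Injective (ribetDet N hℓ hℓN) := by
  rw [← LinearMap.ker_eq_bot, LinearMap.ker_eq_bot']
  intro f hf
  rw [ribetDet_apply, sub_eq_zero] at hf
  have hnorm : ‖((ℓ : ℂ) + 1)‖ = (ℓ : ℝ) + 1 := by
    have : ((ℓ : ℂ) + 1) = (((ℓ + 1 : ℕ) : ℝ) : ℂ) := by push_cast; ring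
    rw [this, Complex.norm_real, Real.norm_of_nonneg (by positivity)]
    push_cast; ring
  by_contra hne
  by_cases hg : CuspForm.heckeTLin 2 hℓ hℓN f + ((ℓ : ℂ) + 1) • f = 0
  · have h : CuspForm.heckeTLin 2 hℓ hℓN f = (-((ℓ : ℂ) + 1)) • f := by
      exact (eq_neg_of_add_eq_zero_left hg).trans (_root_.neg_smul _ _).symm
    have := norm_lt_of_heckeTLin_eq hne hℓ hℓN h
    rw [norm_neg, hnorm] at this
    exact lt_irrefl _ this
  · have h : CuspForm.heckeTLin 2 hℓ hℓN (CuspForm.heckeTLin 2 hℓ hℓN f + ((ℓ : ℂ) + 1) • f)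
        = ((ℓ : ℂ) + 1) • (CuspForm.heckeTLin 2 hℓ hℓN f + ((ℓ : ℂ) + 1) • f) := by
      rw [map_add, map_smul, hf, smul_add, smul_smul, pow_two]
      abel
    have := norm_lt_of_heckeTLin_eq hg hℓ hℓN h
    rw [hnorm] at this
    exact lt_irrefl _ this

/-- `T_ℓ² - (ℓ + 1)²` is bijective on `S₂(Γ₀(N))`: the determinant of Ribet's matrix
`[[ℓ + 1, T_ℓ], [T_ℓ, ℓ + 1]]` is invertible over `ℂ`. -/
theorem ribetDet_bijective {ℓ : ℕ} (hℓ : ℓ.Prime) (hℓN : ¬ ℓ ∣ N) :
    Function.Bijective (ribetDet N hℓ hℓN) := by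
  have : NeZero N := ⟨fun h0 ↦ hℓN (h0 ▸ dvd_zero ℓ)⟩
  have := H683.finiteDimensional_cuspForm N 2
  have hinj := ribetDet_injective (N := N) hℓ hℓN
  exact ⟨hinj, LinearMap.surjective_of_injective hinj⟩

/-- `T_ℓ² - (ℓ + 1)²` is a unit of `End(S₂(Γ₀(N)))`. -/
theorem isUnit_ribetDet {ℓ : ℕ} (hℓ : ℓ.Prime) (hℓN : ¬ ℓ ∣ N) : IsUnit (ribetDet N hℓ hℓN) :=
  (Module.End.isUnit_iff _).mpr (ribetDet_bijective hℓ hℓN)

end Fermat.Agent.Lib.Newform.H263

end
-- ===== PACK-END Lib/Newform/H263/Eigenform.lean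

-- ===== PACK-BEGIN S28/H867/IntZ.lean
section



set_option autoImplicit false
noncomputable section
open ModularCurve HahnSeries Polynomial

namespace Fermat.Agent.S28.H867

section IntZ

variable {A : Type*} [CommRing A]

theorem ringHom_comp_evalAt {B : Type*} [CommRing B] (ψ : LaurentSeries A →+* LaurentSeries B)
    (y : LaurentSeries A) : ψ.comp (evalAt y) = evalAt (ψ y) := by
  apply Polynomial.ringHom_ext
  · intro a; simp [evalAt]
  · simp [evalAt]

/-- Integrality is transported by ring homomorphisms. -/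
theorem isIntegralElem_map {B : Type*} [CommRing B] (ψ : LaurentSeries A →+* LaurentSeries B)
    {y x : LaurentSeries A} (h : (evalAt y).IsIntegralElem x) :
    (evalAt (ψ y)).IsIntegralElem (ψ x) := by
  obtain ⟨P, hP, hPx⟩ := h
  refine ⟨P, hP, ?_⟩
  rw [← ringHom_comp_evalAt, ← Polynomial.hom_eval₂, hPx, map_zero]

/-- Transitivity: `y` integral over `ℤ[j]` and `x` integral over `ℤ[y]` imply `x` integral
over `ℤ[j]`. -/
theorem isIntegralElem_trans {j y x : LaurentSeries A} (hy : (evalAt j).IsIntegralElem y)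
    (hx : (evalAt y).IsIntegralElem x) : (evalAt j).IsIntegralElem x := by
  let _ : Algebra (Polynomial ℤ) (LaurentSeries A) := (evalAt j).toAlgebra
  have hy' : IsIntegral (Polynomial ℤ) y := hy
  set C := integralClosure (Polynomial ℤ) (LaurentSeries A) with hC
  have hyC : y ∈ C := hy'
  obtain ⟨P, hP, hPx⟩ := hx
  let φ : Polynomial ℤ →+* C := (Polynomial.aeval (R := ℤ) (⟨y, hyC⟩ : C)).toRingHom
  have hφ : (algebraMap C (LaurentSeries A)).comp φ = evalAt y := by
    apply Polynomial.ringHom_ext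
    · intro a; simp [φ, evalAt]
    · simp [φ, evalAt]
  have hxC : IsIntegral C x := by
    refine ⟨P.map φ, hP.map _, ?_⟩
    rw [Polynomial.eval₂_map, hφ]
    exact hPx
  exact isIntegral_trans (R := Polynomial ℤ) (A := C) x hxC

end IntZ

section Jd

/-- `j(q^d)` is integral over `ℤ[j]`, given modular polynomials at all primes dividing `d`. -/
theorem isIntegralElem_jd (d : ℕ) (hd : d ≠ 0)
    (hΦ : ∀ p : ℕ, p.Prime → p ∣ d → ∀ [NeZero p], Nonempty (ModPolyData p)) :
    (evalAt (jqModC ℤ)).IsIntegralElem (@qExpand ℤ _ d ⟨hd⟩ (jqModC ℤ)) := by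
  induction d using Nat.recOnMul with
  | zero => exact absurd rfl hd
  | one =>
    rw [qExpand_one_apply]
    refine ⟨Polynomial.X - Polynomial.C Polynomial.X, Polynomial.monic_X_sub_C _, ?_⟩
    simp [evalAt]
  | prime p hp =>
    have : NeZero p := ⟨hp.ne_zero⟩
    obtain ⟨D⟩ := hΦ p hp dvd_rfl
    exact ⟨D.Φ, D.monic, D.eval_jp⟩
  | mul a b iha ihb =>
    have ha0 : a ≠ 0 := fun h => hd (by rw [h, zero_mul])
    have hb0 : b ≠ 0 := fun h => hd (by rw [h, mul_zero])
    have : NeZero a := ⟨ha0⟩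
    have : NeZero b := ⟨hb0⟩
    have h1 := iha ha0 fun p hp hpa => hΦ p hp (hpa.mul_right b)
    have h2 := ihb hb0 fun p hp hpb => hΦ p hp (hpb.mul_left a)
    have h3 := isIntegralElem_map (qExpand ℤ a) h2
    rw [qExpand_qExpand] at h3
    exact isIntegralElem_trans h1 h3

/-- The `integral` field of `CoreData`. -/
theorem coreData_integral (N : ℕ) [NeZero N]
    (hΦ : ∀ p : ℕ, p.Prime → p ∣ N → ∀ [NeZero p], Nonempty (ModPolyData p)) :
    ∀ (d : ℕ) [NeZero d], d ∣ N →
      ∃ P : Polynomial (Polynomial ℤ), P.Monic ∧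
        P.eval₂ (evalAt (jqModC ℤ)) (qExpand ℤ d (jqModC ℤ)) = 0 := by
  intro d hd hdN
  exact isIntegralElem_jd d hd.out fun p hp hpd => hΦ p hp (hpd.trans hdN)

end Jd

end Fermat.Agent.S28.H867

end
end
-- ===== PACK-END S28/H867/IntZ.lean

-- ===== PACK-BEGIN S28/H807/Conv.lean
section
/-
S28 / helper807 — pointwise convergent Laurent series: ring laws, `V_p`, sections.
-/



set_option autoImplicit false
set_option maxHeartbeats 400000

noncomputable section

open ModularCurve HahnSeries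

namespace Fermat.Agent.S28.H807

/-- The Laurent series `c` converges at the point `z` with sum `A`. -/
def HasLSum (c : LaurentSeries ℂ) (z A : ℂ) : Prop :=
  HasSum (fun n : ℤ => c.coeff n * z ^ n) A

theorem HasLSum.unique {c : LaurentSeries ℂ} {z A B : ℂ} (h1 : HasLSum c z A)
    (h2 : HasLSum c z B) : A = B :=
  HasSum.unique h1 h2

theorem hasLSum_zero (z : ℂ) : HasLSum 0 z 0 := by
  unfold HasLSum
  simpa using (hasSum_zero : HasSum (fun _ : ℤ => (0 : ℂ)) 0)

theorem hasLSum_single (z : ℂ) (k : ℤ) (a : ℂ) :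
    HasLSum (HahnSeries.single k a) z (a * z ^ k) := by
  unfold HasLSum
  have h := hasSum_sum_of_ne_finset_zero (f := fun n : ℤ => (HahnSeries.single k a).coeff n * z ^ n)
    (s := {k}) (L := SummationFilter.unconditional ℤ) (by
      intro b hb
      have hb' : b ≠ k := by simpa using hb
      simp [HahnSeries.coeff_single_of_ne hb'])
  simpa using h

theorem hasLSum_one (z : ℂ) : HasLSum 1 z 1 := by
  have h := hasLSum_single z 0 1
  simpa using h

theorem hasLSum_C (z : ℂ) (a : ℂ) : HasLSum (HahnSeries.C a) z a := by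
  have h := hasLSum_single z 0 a
  simpa using h

theorem HasLSum.add {c d : LaurentSeries ℂ} {z A B : ℂ} (h1 : HasLSum c z A)
    (h2 : HasLSum d z B) : HasLSum (c + d) z (A + B) := by
  unfold HasLSum at *
  have := HasSum.add h1 h2
  simpa [add_mul] using this

theorem HasLSum.neg {c : LaurentSeries ℂ} {z A : ℂ} (h1 : HasLSum c z A) :
    HasLSum (-c) z (-A) := by
  unfold HasLSum at *
  have := HasSum.neg h1
  simpa using this

theorem HasLSum.sub {c d : LaurentSeries ℂ} {z A B : ℂ} (h1 : HasLSum c z A)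
    (h2 : HasLSum d z B) : HasLSum (c - d) z (A - B) := by
  rw [sub_eq_add_neg, sub_eq_add_neg]
  exact h1.add h2.neg

/-- Cauchy product for pointwise convergent Laurent series. -/
theorem HasLSum.mul {c d : LaurentSeries ℂ} {z A B : ℂ} (hz : z ≠ 0) (h1 : HasLSum c z A)
    (h2 : HasLSum d z B) : HasLSum (c * d) z (A * B) := by
  unfold HasLSum at *
  -- the double family is summable
  have hn1 : Summable (fun n : ℤ => ‖c.coeff n * z ^ n‖) := h1.summable.norm
  have hn2 : Summable (fun n : ℤ => ‖d.coeff n * z ^ n‖) := h2.summable.norm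
  have hs : Summable (fun x : ℤ × ℤ => (c.coeff x.1 * z ^ x.1) * (d.coeff x.2 * z ^ x.2)) :=
    summable_mul_of_summable_norm (f := fun n : ℤ => c.coeff n * z ^ n)
      (g := fun n : ℤ => d.coeff n * z ^ n) hn1 hn2
  have hprod : HasSum (fun x : ℤ × ℤ => (c.coeff x.1 * z ^ x.1) * (d.coeff x.2 * z ^ x.2))
      (A * B) := HasSum.mul (f := fun n : ℤ => c.coeff n * z ^ n)
      (g := fun n : ℤ => d.coeff n * z ^ n) h1 h2 hs
  -- reindex by (n, i) ↦ (i, n - i)
  let e : ℤ × ℤ ≃ ℤ × ℤ :=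
    { toFun := fun x => (x.2, x.1 - x.2)
      invFun := fun x => (x.1 + x.2, x.1)
      left_inv := fun x => by simp
      right_inv := fun x => by simp }
  have hprod' : HasSum (fun x : ℤ × ℤ =>
      (c.coeff x.2 * z ^ x.2) * (d.coeff (x.1 - x.2) * z ^ (x.1 - x.2))) (A * B) := by
    have := (e.hasSum_iff (f := fun x : ℤ × ℤ =>
      (c.coeff x.1 * z ^ x.1) * (d.coeff x.2 * z ^ x.2)) (a := A * B)).mpr hprod
    exact this
  refine HasSum.prod_fiberwise hprod' ?_
  intro n
  -- the fibre over `n` is a finite sum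
  set s : Finset ℤ := (Finset.antidiagonal c.isPWO_support d.isPWO_support n).image Prod.fst
    with hs_def
  have hfib := hasSum_sum_of_ne_finset_zero
    (f := fun i : ℤ => (c.coeff i * z ^ i) * (d.coeff (n - i) * z ^ (n - i)))
    (s := s) (L := SummationFilter.unconditional ℤ) (by
      intro i hi
      by_cases hci : c.coeff i = 0
      · simp [hci]
      by_cases hdi : d.coeff (n - i) = 0
      · simp [hdi]
      exfalso
      apply hi
      rw [hs_def, Finset.mem_image]
      refine ⟨(i, n - i), ?_, rfl⟩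
      rw [Finset.mem_antidiagonal]
      exact ⟨hci, hdi, by ring⟩)
  convert hfib using 1
  rw [HahnSeries.coeff_mul, Finset.sum_mul, hs_def, Finset.sum_image]
  · apply Finset.sum_congr rfl
    intro x hx
    rw [Finset.mem_antidiagonal] at hx
    obtain ⟨_, _, hx3⟩ := hx
    have hx2 : x.2 = n - x.1 := by linarith
    rw [← hx2]
    have hzn : z ^ n = z ^ x.1 * z ^ x.2 := by rw [← zpow_add₀ hz, hx3]
    rw [hzn]; ring
  · intro x hx y hy hxy
    rw [Finset.mem_coe, Finset.mem_antidiagonal] at hx hy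
    apply Prod.ext hxy
    have h3 := hx.2.2
    have h4 := hy.2.2
    rw [hxy] at h3
    linarith

theorem HasLSum.pow {c : LaurentSeries ℂ} {z A : ℂ} (hz : z ≠ 0) (h1 : HasLSum c z A)
    (k : ℕ) : HasLSum (c ^ k) z (A ^ k) := by
  induction k with
  | zero => simpa using hasLSum_one z
  | succ k ih => rw [pow_succ, pow_succ]; exact ih.mul hz h1

/-- Substitution `q ↦ q^p`. -/
theorem HasLSum.expand {c : LaurentSeries ℂ} {z A : ℂ} (p : ℕ) [NeZero p]
    (h : HasLSum c (z ^ p) A) : HasLSum (ModularCurve.qExpand ℂ p c) z A := by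
  unfold HasLSum at *
  have hinj : Function.Injective (fun m : ℤ => (p : ℤ) * m) :=
    mul_right_injective₀ (by exact_mod_cast NeZero.ne p)
  refine (hinj.hasSum_iff (f := fun n : ℤ => (ModularCurve.qExpand ℂ p c).coeff n * z ^ n) ?_).mp ?_
  · intro n hn
    have : ¬ (p : ℤ) ∣ n := by
      rintro ⟨m, rfl⟩
      exact hn ⟨m, rfl⟩
    simp [qExpand_coeff_of_not_dvd p c this]
  · convert h using 2 with m
    simp only [Function.comp_apply, qExpand_coeff_mul]
    congr 1
    rw [zpow_mul, zpow_natCast]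

/-- Sections of a convergent series converge. -/
theorem HasLSum.summable_secL {c : LaurentSeries ℂ} {y A : ℂ} (p : ℕ) [NeZero p] (hy : y ≠ 0)
    (h : HasLSum c y A) (r : ℤ) :
    Summable (fun m : ℤ => (secL p r c).coeff m * (y ^ p) ^ m) := by
  unfold HasLSum at h
  have hinj : Function.Injective (fun m : ℤ => (p : ℤ) * m + r) := by
    intro a b hab
    have : (p : ℤ) * a = (p : ℤ) * b := by simpa using hab
    exact mul_right_injective₀ (by exact_mod_cast NeZero.ne p) this
  have h1 : Summable ((fun n : ℤ => c.coeff n * y ^ n) ∘ fun m : ℤ => (p : ℤ) * m + r) :=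
    h.summable.comp_injective hinj
  have h2 := h1.mul_left (y ^ (-r))
  refine h2.congr ?_
  intro m
  simp only [Function.comp_apply, secL_coeff]
  have : y ^ ((p : ℤ) * m + r) = (y ^ p) ^ m * y ^ r := by
    rw [zpow_add₀ hy, zpow_mul, zpow_natCast]
  rw [this, zpow_neg]
  field_simp

/-- Value of the `r`-th section at `y^p`. -/
def secVal (p : ℕ) [NeZero p] (c : LaurentSeries ℂ) (y : ℂ) (r : ℤ) : ℂ :=
  ∑' m : ℤ, (secL p r c).coeff m * (y ^ p) ^ m

theorem HasLSum.hasLSum_secL {c : LaurentSeries ℂ} {y A : ℂ} (p : ℕ) [NeZero p] (hy : y ≠ 0)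
    (h : HasLSum c y A) (r : ℤ) : HasLSum (secL p r c) (y ^ p) (secVal p c y r) :=
  (h.summable_secL p hy r).hasSum

/-- The section values only depend on `y^p`. -/
theorem secVal_congr (p : ℕ) [NeZero p] (c : LaurentSeries ℂ) {y y' : ℂ} (h : y ^ p = y' ^ p)
    (r : ℤ) : secVal p c y r = secVal p c y' r := by
  unfold secVal
  rw [h]

/-- Regrouping by residues mod `p`: `A · yⁱ = ∑_{i'} y^{i'} · S_{i'-i}(y^p)`. -/
theorem HasLSum.regroup {c : LaurentSeries ℂ} {y A : ℂ} (p : ℕ) [NeZero p] (hy : y ≠ 0)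
    (h : HasLSum c y A) (i : Fin p) :
    ∑ i' : Fin p, y ^ (i' : ℕ) * secVal p c y ((i' : ℤ) - (i : ℤ)) = A * y ^ (i : ℕ) := by
  have hp0 : (p : ℤ) ≠ 0 := by exact_mod_cast NeZero.ne p
  -- the shifted family
  have h1 : HasSum (fun n : ℤ => c.coeff (n - i) * y ^ n) (A * y ^ (i : ℕ)) := by
    have h0 : HasSum (fun n : ℤ => c.coeff n * y ^ n * y ^ (i : ℕ)) (A * y ^ (i : ℕ)) :=
      HasSum.mul_right _ h
    have := ((Equiv.subRight ((i : ℕ) : ℤ)).hasSum_iff
      (f := fun n : ℤ => c.coeff n * y ^ n * y ^ (i : ℕ)) (a := A * y ^ (i : ℕ))).mpr h0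
    refine this.congr_fun ?_
    intro n
    simp only [Function.comp_apply, Equiv.subRight_apply]
    have : y ^ n = y ^ (n - (i : ℕ)) * y ^ (i : ℕ) := by
      rw [← zpow_natCast y (i : ℕ), ← zpow_add₀ hy]; congr 1; ring
    rw [this]; ring
  -- split `n = m * p + i'`
  have h2 : HasSum (fun x : ℤ × Fin p =>
      c.coeff (x.1 * (p : ℤ) + ((x.2 : ℕ) : ℤ) - (i : ℕ)) * y ^ (x.1 * (p : ℤ) + ((x.2 : ℕ) : ℤ)))
      (A * y ^ (i : ℕ)) := by
    have := ((Int.divModEquiv p).symm.hasSum_iff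
      (f := fun n : ℤ => c.coeff (n - i) * y ^ n) (a := A * y ^ (i : ℕ))).mpr h1
    refine this.congr_fun ?_
    intro x
    simp only [Function.comp_apply, Int.divModEquiv_symm_apply]
  have h3 : HasSum (fun m : ℤ => ∑ i' : Fin p,
      c.coeff (m * (p : ℤ) + ((i' : ℕ) : ℤ) - (i : ℕ)) * y ^ (m * (p : ℤ) + ((i' : ℕ) : ℤ)))
      (A * y ^ (i : ℕ)) := by
    refine HasSum.prod_fiberwise h2 ?_
    intro m
    exact hasSum_fintype _
  have h4 : ∀ i' : Fin p, HasSum (fun m : ℤ =>
      c.coeff (m * (p : ℤ) + ((i' : ℕ) : ℤ) - (i : ℕ)) * y ^ (m * (p : ℤ) + ((i' : ℕ) : ℤ)))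
      (y ^ (i' : ℕ) * secVal p c y ((i' : ℤ) - (i : ℤ))) := by
    intro i'
    have h5 := (h.hasLSum_secL p hy ((i' : ℤ) - (i : ℤ)))
    unfold HasLSum at h5
    have h6 := h5.mul_left (y ^ (i' : ℕ))
    refine h6.congr_fun ?_
    intro m
    simp only [secL_coeff]
    have e1 : m * (p : ℤ) + ((i' : ℕ) : ℤ) - ((i : ℕ) : ℤ)
        = (p : ℤ) * m + (((i' : ℕ) : ℤ) - ((i : ℕ) : ℤ)) := by ring
    have e2 : y ^ (m * (p : ℤ) + ((i' : ℕ) : ℤ)) = y ^ (i' : ℕ) * (y ^ p) ^ m := by
      rw [zpow_add₀ hy, zpow_natCast, mul_comm m, zpow_mul, zpow_natCast, mul_comm]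
    rw [e1, e2]; ring
  have h7 := hasSum_sum (s := Finset.univ) (fun i' _ => h4 i')
  exact (h7.unique h3)

end Fermat.Agent.S28.H807

end

end
-- ===== PACK-END S28/H807/Conv.lean

-- ===== PACK-BEGIN S28/H807/Eigen.lean
section
/-
S28 / helper807 — evaluation of the section-matrix characteristic polynomial:
`charpoly (secMat p g)` evaluated at `q = y^p` is `∏_b (X - G_b)`, where `G_b` is the value of
`g` at the `p` distinct `p`-th roots `y_b` of `q`.
-/



set_option autoImplicit false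
set_option maxHeartbeats 400000

noncomputable section

open ModularCurve Polynomial Matrix

namespace Fermat.Agent.S28.H807

/-- The subring of Laurent series converging at a nonzero point `z`. -/
def convSubring (z : ℂ) (hz : z ≠ 0) : Subring (LaurentSeries ℂ) where
  carrier := {c | Summable (fun n : ℤ => c.coeff n * z ^ n)}
  mul_mem' := fun {a b} ha hb =>
    (HasLSum.mul hz (c := a) (d := b) ha.hasSum hb.hasSum).summable
  one_mem' := (hasLSum_one z).summable
  add_mem' := fun {a b} ha hb => (HasLSum.add (c := a) (d := b) ha.hasSum hb.hasSum).summable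
  zero_mem' := (hasLSum_zero z).summable
  neg_mem' := fun {a} ha => (HasLSum.neg (c := a) ha.hasSum).summable

theorem mem_convSubring {z : ℂ} {hz : z ≠ 0} {c : LaurentSeries ℂ} :
    c ∈ convSubring z hz ↔ Summable (fun n : ℤ => c.coeff n * z ^ n) := Iff.rfl

theorem HasLSum.mem_convSubring {z A : ℂ} (hz : z ≠ 0) {c : LaurentSeries ℂ}
    (h : HasLSum c z A) : c ∈ convSubring z hz := h.summable

/-- Evaluation of a Laurent series at a point (junk value if not convergent). -/
def evalL (z : ℂ) (c : LaurentSeries ℂ) : ℂ := ∑' n : ℤ, c.coeff n * z ^ n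

theorem HasLSum.evalL_eq {z A : ℂ} {c : LaurentSeries ℂ} (h : HasLSum c z A) :
    evalL z c = A := HasSum.tsum_eq h

theorem hasLSum_evalL {z : ℂ} {hz : z ≠ 0} {c : LaurentSeries ℂ} (h : c ∈ convSubring z hz) :
    HasLSum c z (evalL z c) := Summable.hasSum h

/-- Evaluation at `z` as a ring homomorphism on the convergent subring. -/
def evalHom (z : ℂ) (hz : z ≠ 0) : convSubring z hz →+* ℂ where
  toFun c := evalL z c.1
  map_one' := (hasLSum_one z).evalL_eq
  map_zero' := (hasLSum_zero z).evalL_eq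
  map_add' := fun a b => ((hasLSum_evalL a.2).add (hasLSum_evalL b.2)).evalL_eq
  map_mul' := fun a b => ((hasLSum_evalL a.2).mul hz (hasLSum_evalL b.2)).evalL_eq

theorem evalHom_apply (z : ℂ) (hz : z ≠ 0) (c : convSubring z hz) :
    evalHom z hz c = evalL z c.1 := rfl

/-- A matrix with a full system of left eigenvectors `(y_b^i)_i` (Vandermonde) has
characteristic polynomial `∏_b (X - G_b)`. -/
theorem charpoly_eq_prod_of_vandermonde {p : ℕ} (M : Matrix (Fin p) (Fin p) ℂ) (y : Fin p → ℂ)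
    (hy : Function.Injective y) (G : Fin p → ℂ)
    (h : ∀ b i : Fin p, ∑ i' : Fin p, y b ^ (i' : ℕ) * M i' i = G b * y b ^ (i : ℕ)) :
    M.charpoly = ∏ b : Fin p, (X - C (G b)) := by
  set W : Matrix (Fin p) (Fin p) ℂ := Matrix.vandermonde y with hW
  have hWM : W * M = Matrix.diagonal G * W := by
    ext b i
    rw [Matrix.mul_apply, Matrix.diagonal_mul]
    simp only [hW, Matrix.vandermonde_apply]
    exact h b i
  have hdet : IsUnit W.det := by
    rw [isUnit_iff_ne_zero]
    exact Matrix.det_vandermonde_ne_zero_iff.mpr hy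
  have hWu : IsUnit W := (Matrix.isUnit_iff_isUnit_det W).mpr hdet
  obtain ⟨u, hu⟩ := hWu
  have hM : M = u.val⁻¹ * Matrix.diagonal G * u.val := by
    have h1 : u.val⁻¹ * (u.val * M) = M := by
      rw [← Matrix.mul_assoc, Matrix.nonsing_inv_mul _ (by rw [hu]; exact hdet), Matrix.one_mul]
    rw [← h1, hu, hWM, Matrix.mul_assoc]
  rw [hM, Matrix.charpoly_units_conj', Matrix.charpoly_diagonal]

/-- **Evaluation of the section charpoly.** -/
theorem hasLSum_coeff_mul_charpoly {p : ℕ} [NeZero p] (g e : LaurentSeries ℂ) (q : ℂ)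
    (y : Fin p → ℂ) (hy0 : ∀ b, y b ≠ 0) (hyq : ∀ b, y b ^ p = q) (hy : Function.Injective y)
    (Gv : Fin p → ℂ) (hG : ∀ b, HasLSum g (y b) (Gv b)) (Ev : ℂ) (hE : HasLSum e q Ev) (k : ℕ) :
    HasLSum (((X - C e) * (secMat p g).charpoly).coeff k) q
      (((X - C Ev) * ∏ b : Fin p, (X - C (Gv b))).coeff k) := by
  have hp : 0 < p := Nat.pos_of_ne_zero (NeZero.ne p)
  set b0 : Fin p := ⟨0, hp⟩
  have hq : q ≠ 0 := by rw [← hyq b0]; exact pow_ne_zero _ (hy0 b0)
  -- entries of the section matrix converge at `q`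
  have hent : ∀ i' i : Fin p, secMat p g i' i ∈ convSubring q hq := by
    intro i' i
    have := (hG b0).hasLSum_secL p (hy0 b0) ((i' : ℤ) - (i : ℤ))
    rw [hyq b0] at this
    exact this.mem_convSubring hq
  set M' : Matrix (Fin p) (Fin p) (convSubring q hq) := fun i' i => ⟨secMat p g i' i, hent i' i⟩
    with hM'
  set e' : convSubring q hq := ⟨e, hE.mem_convSubring hq⟩ with he'
  set Φ' : Polynomial (convSubring q hq) := (X - C e') * M'.charpoly with hΦ'
  have hsub : Φ'.map (convSubring q hq).subtype = (X - C e) * (secMat p g).charpoly := by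
    rw [hΦ', Polynomial.map_mul, Polynomial.map_sub, Polynomial.map_X, Polynomial.map_C,
      ← Matrix.charpoly_map]
    rfl
  -- evaluated matrix
  set Mτ : Matrix (Fin p) (Fin p) ℂ := M'.map (evalHom q hq) with hMτ
  have hMτ_apply : ∀ i' i : Fin p, Mτ i' i = secVal p g (y b0) ((i' : ℤ) - (i : ℤ)) := by
    intro i' i
    simp only [hMτ, Matrix.map_apply, evalHom_apply, hM']
    have := (hG b0).hasLSum_secL p (hy0 b0) ((i' : ℤ) - (i : ℤ))
    rw [hyq b0] at this
    exact this.evalL_eq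
  have hchar : Mτ.charpoly = ∏ b : Fin p, (X - C (Gv b)) := by
    apply charpoly_eq_prod_of_vandermonde Mτ y hy Gv
    intro b i
    have hreg := (hG b).regroup p (hy0 b) i
    rw [← hreg]
    apply Finset.sum_congr rfl
    intro i' _
    rw [hMτ_apply, secVal_congr p g (y := y b) (y' := y b0) (by rw [hyq, hyq])]
  have hev : Φ'.map (evalHom q hq) = (X - C Ev) * ∏ b : Fin p, (X - C (Gv b)) := by
    rw [hΦ', Polynomial.map_mul, Polynomial.map_sub, Polynomial.map_X, Polynomial.map_C,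
      ← Matrix.charpoly_map, ← hMτ, hchar]
    congr 3
    exact hE.evalL_eq
  have h1 : ((X - C e) * (secMat p g).charpoly).coeff k = ((Φ'.coeff k : convSubring q hq) :
      LaurentSeries ℂ) := by
    rw [← hsub, Polynomial.coeff_map]; rfl
  have h2 : ((X - C Ev) * ∏ b : Fin p, (X - C (Gv b))).coeff k = evalHom q hq (Φ'.coeff k) := by
    rw [← hev, Polynomial.coeff_map]
  rw [h1, h2]
  exact hasLSum_evalL (Φ'.coeff k).2

end Fermat.Agent.S28.H807

end

end
-- ===== PACK-END S28/H807/Eigen.lean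

-- ===== PACK-BEGIN S18/H333/Series.lean
section



/-!
# S18 / c3 (helper333): the formal series `E₄`, `Δ`, their `V_p`-images and truncations
-/

set_option autoImplicit false

namespace Fermat.Agent.S18.H333

open PowerSeries ModularCurve Filter Topology
open scoped PowerSeries.WithPiTopology

/-- formal `E₄` -/
noncomputable def Ez : PowerSeries ℤ := eisenstein4

/-- formal `Δ = q ∏ (1 - q^n)^24` -/
noncomputable def Dz : PowerSeries ℤ := X * etaProd ^ 24

theorem tl_etaProd (n : ℕ) : tl n etaProd = etaLrec n n := by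
  rw [← tl_prod_range, tl_ext_iff]
  intro k hk
  have h1 : Tendsto (fun t : Finset ℕ => ∏ i ∈ t, ((1 : PowerSeries ℤ) - X ^ (i + 1)))
      atTop (𝓝 etaProd) :=
    (PowerSeries.WithPiTopology.multipliable_one_sub_X_pow ℤ).hasProd
  have h2 := ((PowerSeries.WithPiTopology.continuous_coeff ℤ k).tendsto _).comp h1
  rw [nhds_discrete, tendsto_pure] at h2
  obtain ⟨t, ht, htn⟩ := (h2.and (eventually_ge_atTop (Finset.range n))).exists
  simp only [Function.comp_apply] at ht
  rw [← ht]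
  have hsplit : ∏ i ∈ t, ((1 : PowerSeries ℤ) - X ^ (i + 1)) =
      (∏ i ∈ t \ Finset.range n, ((1 : PowerSeries ℤ) - X ^ (i + 1))) *
        ∏ i ∈ Finset.range n, ((1 : PowerSeries ℤ) - X ^ (i + 1)) :=
    (Finset.prod_sdiff htn).symm
  have h3 : tl n (∏ i ∈ t \ Finset.range n, ((1 : PowerSeries ℤ) - X ^ (i + 1))) = tl n 1 := by
    refine tl_prod_of_le n _ fun i hi => ?_
    have := (Finset.mem_sdiff.mp hi).2
    rw [Finset.mem_range] at this
    omega
  have h4 := tl_mul_congr n h3 (rfl : tl n (∏ i ∈ Finset.range n,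
    ((1 : PowerSeries ℤ) - X ^ (i + 1))) = _)
  rw [one_mul, ← hsplit] at h4
  exact ((tl_ext_iff n _ _).mp h4 k hk)

theorem tl_Ez (n : ℕ) : tl n Ez =
    (List.range n).map fun k : ℕ => if k = 0 then (1 : ℤ) else 240 * ∑ d ∈ k.divisors, (d : ℤ) ^ 3 := by
  refine List.map_congr_left fun k _ => ?_
  rw [Ez, eisenstein4, coeff_mk]

theorem tl_Dz (n : ℕ) : tl n Dz = tmul n (tX n) (tpow n (etaLrec n n) 24) := by
  rw [Dz, tl_mul, tl_X, tl_pow, tl_etaProd]

theorem tl_Ez_17 : tl 17 Ez = [1, 240, 2160, 6720, 17520, 30240, 60480, 82560, 140400, 181680,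
    272160, 319680, 490560, 527520, 743040, 846720, 1123440] := by
  rw [tl_Ez]; decide +kernel

theorem tl_Dz_17 : tl 17 Dz = [0, 1, -24, 252, -1472, 4830, -6048, -16744, 84480, -113643,
    -115920, 534612, -370944, -577738, 401856, 1217160, 987136] := by
  rw [tl_Dz]; decide +kernel

end Fermat.Agent.S18.H333

namespace Fermat.Agent.S18.H333

open PowerSeries ModularCurve

/-! ### level 2 -/

/-- `E₄³ Δ Δ₂ - (Δ + 256 Δ₂)³`, `Δ₂ = Δ(q²)` -/
noncomputable def Phi2a : PowerSeries ℤ :=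
  Ez ^ 3 * Dz * Vser 2 Dz - (Dz + (256 : ℤ) • Vser 2 Dz) ^ 3

/-- `E₄(q²)³ Δ Δ₂ - (Δ + 16 Δ₂)³` -/
noncomputable def Phi2b : PowerSeries ℤ :=
  Vser 2 Ez ^ 3 * Dz * Vser 2 Dz - (Dz + (16 : ℤ) • Vser 2 Dz) ^ 3

theorem tl_Ez_10 : tl 10 Ez = [1, 240, 2160, 6720, 17520, 30240, 60480, 82560, 140400, 181680] := by
  rw [tl_Ez]; decide +kernel

theorem tl_Dz_10 : tl 10 Dz = [0, 1, -24, 252, -1472, 4830, -6048, -16744, 84480, -113643] := by
  rw [tl_Dz]; decide +kernel

theorem tl_Phi2a : tl 10 Phi2a = tzero 10 := by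
  rw [Phi2a, tl_sub, tl_mul, tl_mul, tl_pow, tl_pow, tl_add, tl_smul, tl_Vser _ _ (by norm_num),
    tl_Dz_10, tl_Ez_10]
  decide +kernel

theorem tl_Phi2b : tl 10 Phi2b = tzero 10 := by
  rw [Phi2b, tl_sub, tl_mul, tl_mul, tl_pow, tl_pow, tl_add, tl_smul, tl_Vser _ _ (by norm_num),
    tl_Vser _ _ (by norm_num), tl_Dz_10, tl_Ez_10]
  decide +kernel

/-! ### level 3 -/

/-- `Δ² + 196830 Δ Δ₃ + 3^18 Δ₃²` -/
noncomputable def A3a : PowerSeries ℤ :=
  Dz * Dz + (196830 : ℤ) • (Dz * Vser 3 Dz) + (387420489 : ℤ) • (Vser 3 Dz * Vser 3 Dz)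

/-- `756 Δ + 19131876 Δ₃` -/
noncomputable def B3a : PowerSeries ℤ := (756 : ℤ) • Dz + (19131876 : ℤ) • Vser 3 Dz

/-- squared form of `(t₃+27)(t₃+243)³ = j t₃³` -/
noncomputable def Phi3a : PowerSeries ℤ :=
  A3a * A3a - (Dz * Vser 3 Dz) * ((Ez ^ 3 - B3a) * (Ez ^ 3 - B3a))

/-- `Δ² + 270 Δ Δ₃ + 729 Δ₃²` -/
noncomputable def A3b : PowerSeries ℤ :=
  Dz * Dz + (270 : ℤ) • (Dz * Vser 3 Dz) + (729 : ℤ) • (Vser 3 Dz * Vser 3 Dz)

/-- `36 Δ + 756 Δ₃` -/
noncomputable def B3b : PowerSeries ℤ := (36 : ℤ) • Dz + (756 : ℤ) • Vser 3 Dz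

/-- squared form of `(t₃+27)(t₃+3)³ = j(q³) t₃` -/
noncomputable def Phi3b : PowerSeries ℤ :=
  A3b * A3b - (Dz * Vser 3 Dz) * ((Vser 3 Ez ^ 3 - B3b) * (Vser 3 Ez ^ 3 - B3b))

theorem tl_Phi3a : tl 17 Phi3a = tzero 17 := by
  rw [Phi3a, A3a, B3a]
  simp only [tl_sub, tl_mul, tl_pow, tl_add, tl_smul, tl_Vser _ _ (show 0 < 3 by norm_num),
    tl_Dz_17, tl_Ez_17]
  decide +kernel

theorem tl_Phi3b : tl 17 Phi3b = tzero 17 := by
  rw [Phi3b, A3b, B3b]
  simp only [tl_sub, tl_mul, tl_pow, tl_add, tl_smul, tl_Vser _ _ (show 0 < 3 by norm_num),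
    tl_Dz_17, tl_Ez_17]
  decide +kernel

end Fermat.Agent.S18.H333

end
-- ===== PACK-END S18/H333/Series.lean

-- ===== PACK-BEGIN S18/H264/SepModular.lean
section



/-!
# S18 / G-SEP at the modular function field (helper264)

Prelude-level consequences of `SepLaurent.lean`, for a perfect field `k` of characteristic `p`
(no hypothesis on the level `N`, not even `NeZero N`):

* `order_jqModC` : `ord_q (j̄) = -1`;
* `isSeparable_laurent_jqModC` : every `y ∈ k((q))` algebraic over `k(j̄)` is separable over it;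
* `isSeparable_full` : every `y ∈ F_k = modularFunctionFieldFullC k N` algebraic over
  `k(j̄) ⊆ F_k` is separable over `k(j̄)`;
* `algebra_isSeparable_full` : if `F_k` is algebraic (e.g. finite: Sq05 `ModFiniteStatement`)
  over `k(j̄)`, then `F_k / k(j̄)` is separable;
* `exists_bivariate_simple_root_jqModC` : liftable form, `∃ P ∈ k[X][Y]`, `P(j̄, y) = 0`,
  `(∂P/∂Y)(j̄, y) ≠ 0`.
-/

set_option autoImplicit false

noncomputable section

namespace Fermat.Agent.S18.H264

open ModularCurve IntermediateField Polynomial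

section Order

variable (k : Type*) [Field k]

/-- The `q`-order of `j̄ = q⁻¹ + 744 + …` is `-1`. -/
theorem order_jqModC : (jqModC k).order = -1 := by
  have hne : jqModC k ≠ 0 := jqModC_ne_zero_of_nontrivial k
  apply le_antisymm
  · apply HahnSeries.order_le_of_coeff_ne_zero
    rw [coeff_jqModC_neg_one]
    exact one_ne_zero
  · rw [HahnSeries.le_order_iff_forall hne]
    intro j hj
    exact coeff_jqModC_of_lt k hj

end Order

section Sep

variable (k : Type*) [Field k] [PerfectField k] (p : ℕ) [hp : Fact p.Prime] [CharP k p]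

include hp in
/-- Every Laurent series algebraic over `k(j̄)` is separable over `k(j̄)`. -/
theorem isSeparable_laurent_jqModC (y : LaurentSeries k)
    (hy : IsAlgebraic (IntermediateField.adjoin k {jqModC k}) y) :
    IsSeparable (IntermediateField.adjoin k {jqModC k}) y :=
  isSeparable_laurent_of_order_eq_neg_one p (jqModC k) y (order_jqModC k) hy

include hp in
/-- Liftable form: `∃ P ∈ k[X][Y]` with `P(j̄, y) = 0` and `(∂P/∂Y)(j̄, y) ≠ 0`. -/
theorem exists_bivariate_simple_root_jqModC (y : LaurentSeries k)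
    (hy : IsAlgebraic (IntermediateField.adjoin k {jqModC k}) y) :
    ∃ P : Polynomial (Polynomial k),
      P.eval₂ (aeval (jqModC k) : Polynomial k →ₐ[k] LaurentSeries k).toRingHom y = 0 ∧
      (derivative P).eval₂
        (aeval (jqModC k) : Polynomial k →ₐ[k] LaurentSeries k).toRingHom y ≠ 0 :=
  exists_bivariate_simple_root (jqModC k) y (isSeparable_laurent_jqModC k p y hy)

variable (N : ℕ)

include hp in
/-- Inside `F_k = modularFunctionFieldFullC k N`: every element algebraic over `k(j̄)` is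
separable over `k(j̄)`.  (The element `⟨jqModC k, _⟩` is `Sq05.jC k N` unfolded.) -/
theorem isSeparable_full (y : modularFunctionFieldFullC k N)
    (hy : IsAlgebraic
      (IntermediateField.adjoin k
        {(⟨jqModC k, jqModC_mem_full k N⟩ : modularFunctionFieldFullC k N)}) y) :
    IsSeparable
      (IntermediateField.adjoin k
        {(⟨jqModC k, jqModC_mem_full k N⟩ : modularFunctionFieldFullC k N)}) y := by
  refine isSeparable_of_isAlgebraic_of_addVal p
    ((HahnSeries.addVal ℤ k).comap (algebraMap (modularFunctionFieldFullC k N) (LaurentSeries k)))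
    (⟨jqModC k, jqModC_mem_full k N⟩ : modularFunctionFieldFullC k N) (-1) ?_
    (not_prime_dvd_neg_one p hp.out) y hy
  have h : (HahnSeries.addVal ℤ k) (jqModC k) = (((jqModC k).order : ℤ) : WithTop ℤ) :=
    HahnSeries.addVal_apply_of_ne (jqModC_ne_zero_of_nontrivial k)
  rw [order_jqModC] at h
  exact h

include hp in
/-- If `F_k` is algebraic over `k(j̄)` (e.g. finite), then `F_k / k(j̄)` is separable. -/
theorem algebra_isSeparable_full
    [Algebra.IsAlgebraic
      (IntermediateField.adjoin k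
        {(⟨jqModC k, jqModC_mem_full k N⟩ : modularFunctionFieldFullC k N)})
      (modularFunctionFieldFullC k N)] :
    Algebra.IsSeparable
      (IntermediateField.adjoin k
        {(⟨jqModC k, jqModC_mem_full k N⟩ : modularFunctionFieldFullC k N)})
      (modularFunctionFieldFullC k N) :=
  ⟨fun y => isSeparable_full k p N y (Algebra.IsAlgebraic.isAlgebraic y)⟩

end Sep

end Fermat.Agent.S18.H264

end
end
-- ===== PACK-END S18/H264/SepModular.lean

-- ===== PACK-BEGIN S18/H107/IntTools.lean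
section



/-!
# helper107 — S18 / M3-T : integrality toolkit for subrings of a field (Mathlib-only)

All objects are sub-objects of one field `Ω` (as in the frozen interface `Alg/Spec.lean`).

* `intCl107 T`            : the integral closure of the subring `T` in `Ω`, as a subring.
* `isIntegral_iff_exists_poly107` : `IsIntegral T b ↔ ∃ P : Polynomial Ω` monic with coefficients in `T`,
  `P.eval b = 0`.
* `isIntegral_of_coeffs107` : a root of a monic polynomial with coefficients integral over `T` is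
  integral over `T`.
* `exists_pow_mul_isIntegral107` (SCALING): `b` integral over `R'[y]`, `R' ≤ intCl T`,
  `e, y·e ∈ intCl T`  ⟹  `∃ D, b·e^D ∈ intCl T`.
* `mem_of_comaximal107` (GLUING): `z·g₁^k₁, z·g₂^k₂ ∈ B`, `a g₁ + b g₂ = 1` in `B` ⟹ `z ∈ B`.
-/

set_option autoImplicit false

namespace Fermat.Agent.S18.H107

open Polynomial Fermat.Agent.S18.Alg

variable {Ω : Type*} [Field Ω]

/-- The integral closure of a subring `T` of `Ω` in `Ω`, as a subring of `Ω`. -/
def intCl107 (T : Subring Ω) : Subring Ω := (integralClosure T Ω).toSubring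

theorem mem_intCl107 {T : Subring Ω} {b : Ω} : b ∈ intCl107 T ↔ IsIntegral T b := Iff.rfl

theorem le_intCl107 (T : Subring Ω) : T ≤ intCl107 T := fun b hb =>
  mem_intCl107.2 (isIntegral_algebraMap (R := T) (A := Ω) (x := ⟨b, hb⟩))

theorem isIntegral_iff_exists_poly107 (T : Subring Ω) (b : Ω) :
    IsIntegral T b ↔ ∃ P : Polynomial Ω, P.Monic ∧ (∀ i, P.coeff i ∈ T) ∧ P.eval b = 0 := by
  constructor
  · rintro ⟨p, hp, hpb⟩
    refine ⟨p.map (algebraMap T Ω), hp.map _, fun i => ?_, ?_⟩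
    · rw [coeff_map]
      exact (p.coeff i).2
    · rw [eval_map]
      exact hpb
  · rintro ⟨P, hP, hc, hb⟩
    have hl : P ∈ lifts (algebraMap T Ω) := by
      rw [lifts_iff_coeff_lifts]
      intro n
      exact ⟨⟨P.coeff n, hc n⟩, rfl⟩
    obtain ⟨q, hq, -, hqm⟩ := lifts_and_degree_eq_and_monic hl hP
    refine ⟨q, hqm, ?_⟩
    rw [← eval_map, hq]
    exact hb

theorem isIntegral_of_coeffs107 (T : Subring Ω) (P : Polynomial Ω) (hP : P.Monic)
    (hc : ∀ i, P.coeff i ∈ intCl107 T) (b : Ω) (hb : P.eval b = 0) : b ∈ intCl107 T := by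
  have hl : P ∈ lifts (algebraMap (integralClosure T Ω) Ω) := by
    rw [lifts_iff_coeff_lifts]
    intro n
    exact ⟨⟨P.coeff n, hc n⟩, rfl⟩
  obtain ⟨q, hq, -, hqm⟩ := lifts_and_degree_eq_and_monic hl hP
  have hint : IsIntegral (integralClosure T Ω) b := by
    refine ⟨q, hqm, ?_⟩
    rw [← eval_map, hq]
    exact hb
  exact mem_intCl107.2 (isIntegral_trans (R := T) (A := integralClosure T Ω) b hint)

/-- Integral closedness of `intCl107 T` in polynomial form over another subring. -/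
theorem isIntegral_mono107 {T T' : Subring Ω} (h : T ≤ intCl107 T') {b : Ω}
    (hb : IsIntegral T b) : b ∈ intCl107 T' := by
  obtain ⟨P, hP, hc, hPb⟩ := (isIntegral_iff_exists_poly107 T b).1 hb
  exact isIntegral_of_coeffs107 T' P hP (fun i => h (hc i)) b hPb

theorem intCl107_mono {T T' : Subring Ω} (h : T ≤ intCl107 T') : intCl107 T ≤ intCl107 T' :=
  fun _ hb => isIntegral_mono107 h (mem_intCl107.1 hb)

theorem polyRing_le107 {R B : Subring Ω} {x : Ω} (hR : R ≤ B) (hx : x ∈ B) :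
    polyRing R x ≤ B := by
  refine Subring.closure_le.2 ?_
  rintro c (hc | hc)
  · exact hR hc
  · rw [Set.mem_singleton_iff] at hc
    rw [hc]
    exact hx

theorem le_polyRing107 (R : Subring Ω) (x : Ω) : R ≤ polyRing R x := fun _ hc =>
  Subring.subset_closure (Or.inl hc)

theorem self_mem_polyRing107 (R : Subring Ω) (x : Ω) : x ∈ polyRing R x :=
  Subring.subset_closure (Or.inr rfl)

/-- Elements of `R'[y]` become elements of `B` after multiplication by a high power of `e`,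
if `e ∈ B` and `y * e ∈ B`. -/
theorem exists_pow_mul_mem107 {R' B : Subring Ω} {y e : Ω} (hR : R' ≤ B) (he : e ∈ B)
    (hye : y * e ∈ B) {c : Ω} (hc : c ∈ polyRing R' y) :
    ∃ d : ℕ, ∀ d', d ≤ d' → c * e ^ d' ∈ B := by
  induction hc using Subring.closure_induction with
  | mem c hc =>
    rcases hc with hc | hc
    · exact ⟨0, fun d' _ => B.mul_mem (hR hc) (B.pow_mem he d')⟩
    · rw [Set.mem_singleton_iff] at hc
      subst hc
      refine ⟨1, fun d' hd' => ?_⟩
      obtain ⟨k, rfl⟩ := Nat.exists_eq_add_of_le hd'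
      have : c * e ^ (1 + k) = (c * e) * e ^ k := by ring
      rw [this]
      exact B.mul_mem hye (B.pow_mem he k)
  | zero => exact ⟨0, fun d' _ => by rw [zero_mul]; exact B.zero_mem⟩
  | one => exact ⟨0, fun d' _ => by rw [one_mul]; exact B.pow_mem he d'⟩
  | add a b _ _ ha hb =>
    obtain ⟨da, hda⟩ := ha
    obtain ⟨db, hdb⟩ := hb
    refine ⟨max da db, fun d' hd' => ?_⟩
    rw [add_mul]
    exact B.add_mem (hda d' (le_trans (le_max_left _ _) hd')) (hdb d' (le_trans (le_max_right _ _) hd'))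
  | neg a _ ha =>
    obtain ⟨da, hda⟩ := ha
    refine ⟨da, fun d' hd' => ?_⟩
    rw [neg_mul]
    exact B.neg_mem (hda d' hd')
  | mul a b _ _ ha hb =>
    obtain ⟨da, hda⟩ := ha
    obtain ⟨db, hdb⟩ := hb
    refine ⟨da + db, fun d' hd' => ?_⟩
    obtain ⟨k, rfl⟩ := Nat.exists_eq_add_of_le hd'
    have : a * b * e ^ (da + db + k) = (a * e ^ da) * (b * e ^ (db + k)) := by ring
    rw [this]
    exact B.mul_mem (hda da le_rfl) (hdb (db + k) (Nat.le_add_right _ _))

/-- **SCALING LEMMA.**  If `b` is integral over `R'[y]`, `R' ≤ intCl T` and `e`, `y * e` are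
integral over `T`, then `b * e ^ D` is integral over `T` for some `D`. -/
theorem exists_pow_mul_isIntegral107 {R' T : Subring Ω} {y e : Ω} (hR : R' ≤ intCl107 T)
    (he : e ∈ intCl107 T) (hye : y * e ∈ intCl107 T) {b : Ω}
    (hb : IsIntegral (polyRing R' y) b) : ∃ D : ℕ, b * e ^ D ∈ intCl107 T := by
  obtain ⟨P, hP, hc, hPb⟩ := (isIntegral_iff_exists_poly107 _ b).1 hb
  -- a uniform exponent for all coefficients
  have hex : ∀ i, ∃ d : ℕ, ∀ d', d ≤ d' → P.coeff i * e ^ d' ∈ intCl107 T := fun i =>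
    exists_pow_mul_mem107 hR he hye (hc i)
  choose d hd using hex
  obtain ⟨D, hD⟩ : ∃ D : ℕ, ∀ i ∈ Finset.range (P.natDegree + 1), d i ≤ D :=
    ⟨(Finset.range (P.natDegree + 1)).sup d, fun i hi => Finset.le_sup hi⟩
  refine ⟨D, ?_⟩
  refine isIntegral_of_coeffs107 T (scaleRoots P (e ^ D)) ((monic_scaleRoots_iff _).2 hP)
    (fun i => ?_) (b * e ^ D) ?_
  · rw [coeff_scaleRoots]
    rcases lt_trichotomy i P.natDegree with hi | hi | hi
    · rw [← pow_mul]
      refine hd i _ ?_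
      have h1 : d i ≤ D := hD i (Finset.mem_range.2 (by omega))
      have h2 : 1 ≤ P.natDegree - i := by omega
      calc d i ≤ D := h1
        _ = D * 1 := (mul_one D).symm
        _ ≤ D * (P.natDegree - i) := Nat.mul_le_mul_left D h2
    · subst hi
      rw [Nat.sub_self, pow_zero, mul_one]
      have : P.coeff P.natDegree = 1 := hP
      rw [this]
      exact (intCl107 T).one_mem
    · rw [coeff_eq_zero_of_natDegree_lt hi, zero_mul]
      exact (intCl107 T).zero_mem
  · have h := scaleRoots_eval₂_mul (p := P) (RingHom.id Ω) b (e ^ D)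
    rw [eval₂_id, eval₂_id, RingHom.id_apply, hPb, mul_zero] at h
    rw [mul_comm]
    exact h

/-- **GLUING over two comaximal opens.** -/
theorem mem_of_comaximal107 (B : Subring Ω) (z g₁ g₂ a b : Ω) (hg₁ : g₁ ∈ B) (hg₂ : g₂ ∈ B)
    (ha : a ∈ B) (hb : b ∈ B) (hab : a * g₁ + b * g₂ = 1) (k₁ k₂ : ℕ)
    (h₁ : z * g₁ ^ k₁ ∈ B) (h₂ : z * g₂ ^ k₂ ∈ B) : z ∈ B := by
  have hcop : IsCoprime (⟨g₁, hg₁⟩ : B) ⟨g₂, hg₂⟩ :=
    ⟨⟨a, ha⟩, ⟨b, hb⟩, Subtype.ext hab⟩
  obtain ⟨a', b', hab'⟩ := (hcop.pow (m := k₁) (n := k₂))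
  have h := congrArg (Subtype.val) hab'
  simp only [Subring.coe_add, Subring.coe_mul, Subring.coe_pow, Subring.coe_one] at h
  have hz : z = (a' : Ω) * (z * g₁ ^ k₁) + (b' : Ω) * (z * g₂ ^ k₂) := by
    calc z = z * 1 := (mul_one z).symm
      _ = z * ((a' : Ω) * g₁ ^ k₁ + (b' : Ω) * g₂ ^ k₂) := by rw [h]
      _ = _ := by ring
  rw [hz]
  exact B.add_mem (B.mul_mem a'.2 h₁) (B.mul_mem b'.2 h₂)

end Fermat.Agent.S18.H107

end
-- ===== PACK-END S18/H107/IntTools.lean

-- ===== PACK-BEGIN S18/H107/QepTransfer.lean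
section




/-!
# helper107 — S18 / M3-T : transfer of the `q`-expansion principle between coordinates

`Qep107 Fc R V w y` is the field `qep_fin` of the frozen `GoodModel` for the coordinate `y`
(`qep_inf` is `Qep107 Fc R V w y⁻¹`).

`qep_transfer107`: if QEP holds for the charts of `y₁` and `y₂` (application: `j`, `j⁻¹`) and
`Spec R[x]` is covered by two comaximal opens `D(g₁)`, `D(g₂)` on which `x` is "controlled" by
`y₁` resp. `y₂` (`OpenData107`), then QEP holds for the chart of `x`.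
No noetherian / S2 / finiteness hypothesis is used.
-/

set_option autoImplicit false

namespace Fermat.Agent.S18.H107

open Polynomial Fermat.Agent.S18.Alg

variable {Ω : Type*} [Field Ω]

/-- The `q`-expansion principle on the chart of the coordinate `y`
(= `GoodModel.qep_fin` with `x := y`). -/
def Qep107 (Fc : Subfield Ω) (R V : Subring Ω) (w y : Ω) : Prop :=
  ∀ b ∈ chart Fc R y, b * w⁻¹ ∈ V → b * w⁻¹ ∈ chart Fc R y

/-- The open `D(g) ⊆ Spec R[x]` is controlled by the chart of `y`: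
* `e` is a unit-like multiplier: `e ∈ V`, `e` and `x·e` integral over `R[y]`;
* `y ∈ R[x][1/g]` : `y * g ^ k` integral over `R[x]`;
* `e⁻¹ ∈ R[x][1/g]` : `e * f = g ^ k'` with `f` integral over `R[x]`. -/
structure OpenData107 (Fc : Subfield Ω) (R V : Subring Ω) (x y g e : Ω) : Prop where
  g_mem : g ∈ polyRing R x
  e_mem_Fc : e ∈ Fc
  e_mem_V : e ∈ V
  e_int : e ∈ intCl107 (polyRing R y)
  xe_int : x * e ∈ intCl107 (polyRing R y)
  y_loc : ∃ k : ℕ, y * g ^ k ∈ intCl107 (polyRing R x)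
  e_inv : ∃ f ∈ intCl107 (polyRing R x), ∃ k : ℕ, e * f = g ^ k

theorem OpenData107.exists_pow_mul_mem {Fc : Subfield Ω} {R V : Subring Ω} {w x y g e : Ω}
    (o : OpenData107 Fc R V x y g e) (q : Qep107 Fc R V w y) {b : Ω} (hb : b ∈ chart Fc R x)
    (hz : b * w⁻¹ ∈ V) : ∃ K : ℕ, b * w⁻¹ * g ^ K ∈ intCl107 (polyRing R x) := by
  obtain ⟨hbF, hbI⟩ := hb
  -- step 1: `b * e ^ D` is integral over `R[y]`
  obtain ⟨D, hD⟩ := exists_pow_mul_isIntegral107 (R' := R) (T := polyRing R y) (y := x) (e := e)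
    ((le_polyRing107 R y).trans (le_intCl107 _)) o.e_int o.xe_int hbI
  have hchart : b * e ^ D ∈ chart Fc R y := ⟨Fc.mul_mem hbF (Fc.pow_mem o.e_mem_Fc D), hD⟩
  -- step 2/3: QEP for `y`
  have hV : b * e ^ D * w⁻¹ ∈ V := by
    have : b * e ^ D * w⁻¹ = b * w⁻¹ * e ^ D := by ring
    rw [this]
    exact V.mul_mem hz (V.pow_mem o.e_mem_V D)
  have h3 := (q _ hchart hV).2
  -- step 4: back to `R[x]`
  obtain ⟨k, hk⟩ := o.y_loc
  have hgI : g ∈ intCl107 (polyRing R x) := le_intCl107 _ o.g_mem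
  obtain ⟨D', hD'⟩ := exists_pow_mul_isIntegral107 (R' := R) (T := polyRing R x) (y := y)
    (e := g ^ k) ((le_polyRing107 R x).trans (le_intCl107 _)) ((intCl107 _).pow_mem hgI k) hk h3
  -- step 5: remove `e ^ D`
  obtain ⟨f, hf, k', hef⟩ := o.e_inv
  refine ⟨k' * D + k * D', ?_⟩
  have : b * w⁻¹ * g ^ (k' * D + k * D') = (b * e ^ D * w⁻¹ * (g ^ k) ^ D') * f ^ D := by
    rw [pow_add, pow_mul, pow_mul, ← hef]
    ring
  rw [this]
  exact (intCl107 _).mul_mem hD' ((intCl107 _).pow_mem hf D)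

/-- **QEP transfer.** -/
theorem qep_transfer107 {Fc : Subfield Ω} {R V : Subring Ω} {w x y₁ y₂ g₁ g₂ e₁ e₂ a b : Ω}
    (hw : w ∈ Fc) (q₁ : Qep107 Fc R V w y₁) (q₂ : Qep107 Fc R V w y₂)
    (o₁ : OpenData107 Fc R V x y₁ g₁ e₁) (o₂ : OpenData107 Fc R V x y₂ g₂ e₂)
    (ha : a ∈ polyRing R x) (hb : b ∈ polyRing R x) (hab : a * g₁ + b * g₂ = 1) :
    Qep107 Fc R V w x := by
  intro c hc hz
  obtain ⟨K₁, h₁⟩ := o₁.exists_pow_mul_mem q₁ hc hz
  obtain ⟨K₂, h₂⟩ := o₂.exists_pow_mul_mem q₂ hc hz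
  refine ⟨Fc.mul_mem hc.1 (Fc.inv_mem hw), ?_⟩
  exact mem_intCl107.1 (mem_of_comaximal107 (intCl107 (polyRing R x)) (c * w⁻¹) g₁ g₂ a b
    (le_intCl107 _ o₁.g_mem) (le_intCl107 _ o₂.g_mem) (le_intCl107 _ ha) (le_intCl107 _ hb)
    hab K₁ K₂ h₁ h₂)

end Fermat.Agent.S18.H107

end
-- ===== PACK-END S18/H107/QepTransfer.lean

-- ===== PACK-BEGIN S18/H107/PolyInt.lean
section




/-!
# helper107 — S18 / M3-T : explicit monic equations (cubic, quartic) give integrality
-/

set_option autoImplicit false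

namespace Fermat.Agent.S18.H107

open Polynomial Fermat.Agent.S18.Alg

variable {Ω : Type*} [Field Ω]

theorem mem_intCl_of_cubic107 (T : Subring Ω) (b a₂ a₁ a₀ : Ω) (h₂ : a₂ ∈ T) (h₁ : a₁ ∈ T)
    (h₀ : a₀ ∈ T) (h : b ^ 3 + a₂ * b ^ 2 + a₁ * b + a₀ = 0) : b ∈ intCl107 T := by
  rw [mem_intCl107]
  refine ⟨X ^ 3 + (C (⟨a₂, h₂⟩ : T) * X ^ 2 + C (⟨a₁, h₁⟩ : T) * X + C (⟨a₀, h₀⟩ : T)),
    monic_X_pow_add (lt_of_le_of_lt degree_quadratic_le (by norm_num)), ?_⟩
  simp only [eval₂_add, eval₂_mul, eval₂_pow, eval₂_X, eval₂_C]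
  show b ^ 3 + (a₂ * b ^ 2 + a₁ * b + a₀) = 0
  linear_combination h

theorem mem_intCl_of_quartic107 (T : Subring Ω) (b a₃ a₂ a₁ a₀ : Ω) (h₃ : a₃ ∈ T) (h₂ : a₂ ∈ T)
    (h₁ : a₁ ∈ T) (h₀ : a₀ ∈ T) (h : b ^ 4 + a₃ * b ^ 3 + a₂ * b ^ 2 + a₁ * b + a₀ = 0) :
    b ∈ intCl107 T := by
  rw [mem_intCl107]
  refine ⟨X ^ 4 + (C (⟨a₃, h₃⟩ : T) * X ^ 3 + C (⟨a₂, h₂⟩ : T) * X ^ 2 + C (⟨a₁, h₁⟩ : T) * X +
      C (⟨a₀, h₀⟩ : T)),
    monic_X_pow_add (lt_of_le_of_lt degree_cubic_le (by norm_num)), ?_⟩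
  simp only [eval₂_add, eval₂_mul, eval₂_pow, eval₂_X, eval₂_C]
  show b ^ 4 + (a₃ * b ^ 3 + a₂ * b ^ 2 + a₁ * b + a₀) = 0
  linear_combination h

theorem natCast_mem_polyRing107 (R : Subring Ω) (x : Ω) (n : ℕ) : (n : Ω) ∈ polyRing R x :=
  natCast_mem _ n

end Fermat.Agent.S18.H107

end
-- ===== PACK-END S18/H107/PolyInt.lean

-- ===== PACK-BEGIN S18/H203/TorsionFree.lean
section


/-!
# S18 / b1 (helper203): `B / w B` is torsion-free over `S / w S`

`S` an integrally closed domain, `w ∈ S` prime, `F / Frac S` a field extension, `B` the integral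
closure of `S` in `F`.

* `dvd_of_dvd_smul` : `w ∣ t • b` in `B`, `w ∤ t` in `S`  ⟹  `w ∣ b` in `B`.
* `dvd_of_dvd_mul` : the same with `algebraMap S B t * b`.
* `not_dvd_of_not_dvd` : if `w ∤ b` in `B` and `w ∤ t` in `S` then `w ∤ t • b`.
-/

set_option autoImplicit false

namespace Fermat.Agent.S18.H203

section

variable {S B : Type*} [CommRing S] [IsDomain S] [IsIntegrallyClosed S]
  [CommRing B] [Algebra S B]

/-- **b1, regular sequence.** In the integral closure `B` of `S`: if the prime element `w`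
divides `t • b` and `w ∤ t` in `S`, then `w ∣ b` in `B`. -/
theorem dvd_of_dvd_smul (K F : Type*) [Field K] [Algebra S K] [IsFractionRing S K]
    [Field F] [Algebra K F] [Algebra S F] [IsScalarTower S K F]
    [Algebra B F] [IsScalarTower S B F] [IsIntegralClosure B S F]
    {w t : S} (hw : Prime w) (ht : ¬ w ∣ t) {b : B}
    (h : algebraMap S B w ∣ t • b) : algebraMap S B w ∣ b := by
  obtain ⟨y, hy⟩ := h
  have hinjK : Function.Injective (algebraMap S K) := IsFractionRing.injective S K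
  have hw0 : algebraMap S K w ≠ 0 := by
    simpa using (map_ne_zero_iff _ hinjK).mpr hw.ne_zero
  have hwF : algebraMap S F w ≠ 0 := by
    rw [IsScalarTower.algebraMap_apply S K F]
    simpa using (map_ne_zero_iff _ (algebraMap K F).injective).mpr hw0
  set z : F := (algebraMap S F w)⁻¹ * algebraMap B F b with hz
  have h1 : algebraMap S F w * z = algebraMap B F b := by
    rw [hz, mul_inv_cancel_left₀ hwF]
  have h2 : algebraMap S F t * z = algebraMap B F y := by
    have e1 : algebraMap B F (t • b) = algebraMap S F t * algebraMap B F b := by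
      rw [Algebra.smul_def, map_mul, ← IsScalarTower.algebraMap_apply]
    have e2 : algebraMap B F (t • b) = algebraMap S F w * algebraMap B F y := by
      rw [hy, map_mul, ← IsScalarTower.algebraMap_apply]
    rw [hz]
    calc algebraMap S F t * ((algebraMap S F w)⁻¹ * algebraMap B F b)
        = (algebraMap S F w)⁻¹ * (algebraMap S F t * algebraMap B F b) := by ring
      _ = (algebraMap S F w)⁻¹ * (algebraMap S F w * algebraMap B F y) := by rw [← e1, e2]
      _ = algebraMap B F y := inv_mul_cancel_left₀ hwF _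
  have hi1 : IsIntegral S (algebraMap S F w * z) := by
    rw [h1]; exact (IsIntegralClosure.isIntegral S F b).algebraMap
  have hi2 : IsIntegral S (algebraMap S F t * z) := by
    rw [h2]; exact (IsIntegralClosure.isIntegral S F y).algebraMap
  have hzi : IsIntegral S z := isIntegral_of_isIntegral_mul K hw ht hi1 hi2
  obtain ⟨b', hb'⟩ := (IsIntegralClosure.isIntegral_iff (A := B)).mp hzi
  refine ⟨b', ?_⟩
  apply IsIntegralClosure.algebraMap_injective B S F
  rw [map_mul, hb', ← IsScalarTower.algebraMap_apply, h1]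

/-- Multiplicative form of `dvd_of_dvd_smul`. -/
theorem dvd_of_dvd_mul (K F : Type*) [Field K] [Algebra S K] [IsFractionRing S K]
    [Field F] [Algebra K F] [Algebra S F] [IsScalarTower S K F]
    [Algebra B F] [IsScalarTower S B F] [IsIntegralClosure B S F]
    {w t : S} (hw : Prime w) (ht : ¬ w ∣ t) {b : B}
    (h : algebraMap S B w ∣ algebraMap S B t * b) : algebraMap S B w ∣ b := by
  rw [← Algebra.smul_def] at h
  exact dvd_of_dvd_smul K F hw ht h

end

end Fermat.Agent.S18.H203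

end
-- ===== PACK-END S18/H203/TorsionFree.lean

-- ===== PACK-BEGIN S18/H203/QuotFree.lean
section


/-!
# S18 / b1 (helper203): the special fibre `B / w B` is free over `S / w S`

`S` an integrally closed domain, `w ∈ S` prime, `F / Frac S` a field extension, `B` the integral
closure of `S` in `F`.  Put `S̄ := S ⧸ (w)` and `B̄ := B ⧸ (w) B` (Mathlib instance
`Ideal.Quotient.algebraQuotientMapQuotient : Algebra S̄ B̄`).

* `isTorsionFree_quotient` : `B̄` is a torsion-free `S̄`-module.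
* `finite_quotient`        : `B̄` is a finite `S̄`-module if `B` is a finite `S`-module.
* `free_quotient`          : `B̄` is a free `S̄`-module if moreover `S̄` is a PID
  (application: `S = R[x]`, `R` a DVR with uniformiser `w`, `S̄ = κ[x]`).
-/

set_option autoImplicit false

namespace Fermat.Agent.S18.H203

open Ideal

section

variable {S B : Type*} [CommRing S] [IsDomain S] [IsIntegrallyClosed S]
  [CommRing B] [Algebra S B]

omit [IsDomain S] [IsIntegrallyClosed S] in
/-- `(w) B` is the principal ideal generated by the image of `w`. -/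
theorem map_span_singleton_eq (w : S) :
    (Ideal.span {w}).map (algebraMap S B) = Ideal.span {algebraMap S B w} := by
  rw [Ideal.map_span, Set.image_singleton]

omit [IsDomain S] [IsIntegrallyClosed S] in
/-- membership in `(w) B` is divisibility by `w`. -/
theorem mem_map_span_singleton_iff (w : S) (b : B) :
    b ∈ (Ideal.span {w}).map (algebraMap S B) ↔ algebraMap S B w ∣ b := by
  rw [map_span_singleton_eq, Ideal.mem_span_singleton]

/-- **b1, torsion-freeness of the special fibre.** -/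
theorem isTorsionFree_quotient (K F : Type*) [Field K] [Algebra S K] [IsFractionRing S K]
    [Field F] [Algebra K F] [Algebra S F] [IsScalarTower S K F]
    [Algebra B F] [IsScalarTower S B F] [IsIntegralClosure B S F]
    {w : S} (hw : Prime w) :
    Module.IsTorsionFree (S ⧸ Ideal.span {w}) (B ⧸ (Ideal.span {w}).map (algebraMap S B)) := by
  have : (Ideal.span {w}).IsPrime := (Ideal.span_singleton_prime hw.ne_zero).mpr hw
  refine ⟨fun r hr => ?_⟩
  obtain ⟨t, rfl⟩ := Ideal.Quotient.mk_surjective r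
  have ht : ¬ w ∣ t := by
    intro hdvd
    have h0 : (Ideal.Quotient.mk (Ideal.span {w}) t) = 0 := by
      rw [Ideal.Quotient.eq_zero_iff_mem, Ideal.mem_span_singleton]
      exact hdvd
    exact hr.ne_zero h0
  intro x y hxy
  obtain ⟨x, rfl⟩ := Ideal.Quotient.mk_surjective x
  obtain ⟨y, rfl⟩ := Ideal.Quotient.mk_surjective y
  simp only [Ideal.Quotient.mk_smul_mk_quotient_map_quotient] at hxy
  rw [Ideal.Quotient.eq, ← mul_sub, mem_map_span_singleton_iff] at hxy
  rw [Ideal.Quotient.eq, mem_map_span_singleton_iff]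
  exact dvd_of_dvd_mul K F hw ht hxy

omit [IsDomain S] [IsIntegrallyClosed S] in
/-- The special fibre is a finite module. -/
theorem finite_quotient [Module.Finite S B] (I : Ideal S) :
    Module.Finite (S ⧸ I) (B ⧸ I.map (algebraMap S B)) := by
  have : Module.Finite S (B ⧸ I.map (algebraMap S B)) :=
    Module.Finite.of_surjective (Ideal.Quotient.mkₐ S (I.map (algebraMap S B))).toLinearMap
      (Ideal.Quotient.mkₐ_surjective S _)
  exact Module.Finite.of_restrictScalars_finite S (S ⧸ I) (B ⧸ I.map (algebraMap S B))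

/-- **b1, freeness of the special fibre.** -/
theorem free_quotient (K F : Type*) [Field K] [Algebra S K] [IsFractionRing S K]
    [Field F] [Algebra K F] [Algebra S F] [IsScalarTower S K F]
    [Algebra B F] [IsScalarTower S B F] [IsIntegralClosure B S F] [Module.Finite S B]
    {w : S} (hw : Prime w) [IsPrincipalIdealRing (S ⧸ Ideal.span {w})] :
    Module.Free (S ⧸ Ideal.span {w}) (B ⧸ (Ideal.span {w}).map (algebraMap S B)) := by
  have : (Ideal.span {w}).IsPrime := (Ideal.span_singleton_prime hw.ne_zero).mpr hw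
  have := isTorsionFree_quotient (B := B) K F hw
  have := finite_quotient (B := B) (Ideal.span {w})
  exact Module.free_of_finite_type_torsion_free'

end

end Fermat.Agent.S18.H203

end
-- ===== PACK-END S18/H203/QuotFree.lean

-- ===== PACK-BEGIN S37/H278/Normal.lean
section




/-!
# S37 / S18, piece b2-core (helper278): normality criterion via the discriminant

`o` a DVR with uniformizer `t` and fraction field `K`; `C` a finite free `o`-algebra with basis `b`
(rank `n`); `L = K ⊗ C` (any localization of `C` at `o \ {0}`).  Let `J = rad(tC)` (equal to the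
Jacobson radical of `C`).  If `C / J` is generated by `s` elements as an `o`-module (e.g. `C` has
at most `s` maximal ideals, all with residue field `o / t`) and `t ^ (n - s + 1) ∤ disc(b)`, then
`C` is integrally closed in `L`.

No differents, no completions: the trace form kills `J` modulo `t`, and an integral element
`y = z / t ∉ C` produces one more factor `t` in the Gram determinant of an adapted basis.
-/

set_option autoImplicit false
set_option linter.style.haveILetI false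
set_option linter.unusedSectionVars false

namespace Fermat.Agent.S37.H278

open Module Polynomial

section Basics

variable {o : Type*} [CommRing o] [IsDomain o]
  {C : Type*} [CommRing C] [Algebra o C]

/-- divisibility of the discriminant by `r` does not depend on the basis -/
theorem dvd_discr_of_dvd_discr {ι ι' : Type*} [Fintype ι] [Fintype ι'] [DecidableEq ι]
    [DecidableEq ι'] (b : Basis ι o C) (b' : Basis ι' o C) (r : o)
    (h : r ∣ Algebra.discr o b') : r ∣ Algebra.discr o b := by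
  let e : ι' ≃ ι := b'.indexEquiv b
  let b'' : Basis ι o C := b'.reindex e
  have h1 : Algebra.discr o b'' = Algebra.discr o b' := by
    have := Algebra.discr_reindex o b' e
    rwa [← Basis.coe_reindex] at this
  have h2 : Algebra.discr o b'' = (b.toMatrix b'').det ^ 2 * Algebra.discr o b := by
    rw [← Algebra.discr_of_matrix_vecMul, Basis.toMatrix_map_vecMul]
  have h3 : IsUnit (b.toMatrix b'').det := by
    rw [← LinearMap.toMatrix_id_eq_basis_toMatrix b'' b]
    exact LinearEquiv.isUnit_det (LinearEquiv.refl o C) b'' b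
  rw [← h1, h2] at h
  exact ((h3.pow 2).dvd_mul_left).mp h

end Basics

section Main

variable {o : Type*} [CommRing o] [IsDomain o] [IsDiscreteValuationRing o]
  {K : Type*} [Field K] [Algebra o K] [IsFractionRing o K]
  {C : Type*} [CommRing C] [Algebra o C] [Module.Free o C] [Module.Finite o C]
  {L : Type*} [CommRing L] [Algebra K L] [Algebra o L] [Algebra C L]
  [IsScalarTower o K L] [IsScalarTower o C L]
  [IsLocalization (Algebra.algebraMapSubmonoid C (nonZeroDivisors o)) L]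

omit [IsDiscreteValuationRing o] [Module.Finite o C] in
theorem smul_eq_zero_imp {σ : o} (hσ : σ ≠ 0) {c : C} (h : σ • c = 0) : c = 0 := by
  have hreg : IsSMulRegular C σ :=
    Module.IsTorsionFree.isSMulRegular (IsRegular.of_ne_zero hσ)
  exact hreg (by simpa using h)

omit [IsDiscreteValuationRing o] [Module.Finite o C] in
include o in
theorem algebraMap_injective_of_free (L : Type*) [CommRing L] [Algebra o L] [Algebra C L]
    [IsScalarTower o C L]
    [IsLocalization (Algebra.algebraMapSubmonoid C (nonZeroDivisors o)) L] :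
    Function.Injective (algebraMap C L) := by
  apply IsLocalization.injective L (M := Algebra.algebraMapSubmonoid C (nonZeroDivisors o))
  rintro _ ⟨σ, hσ, rfl⟩
  rw [mem_nonZeroDivisors_iff_right]
  intro c hc
  have hσ0 : σ ≠ 0 := nonZeroDivisors.ne_zero hσ
  apply smul_eq_zero_imp hσ0
  rw [Algebra.smul_def, mul_comm]
  exact hc

omit [IsDiscreteValuationRing o] [Module.Free o C] [Module.Finite o C] in
include o in
theorem exists_smul_mem_range (l : L) :
    ∃ σ : o, σ ≠ 0 ∧ σ • l ∈ (algebraMap C L).range := by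
  obtain ⟨⟨c, ⟨_, σ, hσ, rfl⟩⟩, h⟩ :=
    IsLocalization.surj (Algebra.algebraMapSubmonoid C (nonZeroDivisors o)) l
  refine ⟨σ, nonZeroDivisors.ne_zero hσ, c, ?_⟩
  simp only at h
  rw [← h, ← IsScalarTower.algebraMap_apply, Algebra.smul_def, mul_comm]

include K in
/-- Step A: a minimal counterexample. -/
theorem exists_minimal_counterexample {t : o} (ht : Irreducible t) (x : L) (hx : IsIntegral o x)
    (hxC : x ∉ (algebraMap C L).range) :
    ∃ (y : L) (z : C), IsIntegral o y ∧ y ∉ (algebraMap C L).range ∧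
      algebraMap C L z = t • y ∧
      z ∉ (IsLocalRing.maximalIdeal o • ⊤ : Submodule o C) := by
  classical
  -- some power of t moves x into the range
  have hex : ∃ k : ℕ, t ^ k • x ∈ (algebraMap C L).range := by
    obtain ⟨σ, hσ, c, hc⟩ := exists_smul_mem_range (o := o) (C := C) x
    obtain ⟨n, w, hw⟩ := IsDiscreteValuationRing.eq_unit_mul_pow_irreducible hσ ht
    refine ⟨n, (↑w⁻¹ : o) • c, ?_⟩
    rw [Algebra.smul_def, map_mul, hc, ← IsScalarTower.algebraMap_apply, ← Algebra.smul_def,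
      smul_smul, hw]
    congr 1
    rw [← mul_assoc, Units.inv_mul, one_mul]
  let k := Nat.find hex
  have hk : t ^ k • x ∈ (algebraMap C L).range := Nat.find_spec hex
  have hk0 : k ≠ 0 := by
    intro h0
    rw [h0, pow_zero, one_smul] at hk
    exact hxC hk
  obtain ⟨k', hk'⟩ : ∃ k', k = k' + 1 := ⟨k - 1, by omega⟩
  have hmin : t ^ k' • x ∉ (algebraMap C L).range := by
    have : k' < k := by omega
    exact Nat.find_min hex this
  obtain ⟨z, hz⟩ := hk
  refine ⟨t ^ k' • x, z, ?_, hmin, ?_, ?_⟩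
  · rw [Algebra.smul_def]
    exact (isIntegral_algebraMap).mul hx
  · rw [hz, hk', pow_succ, smul_smul, mul_comm]
  · intro hzmem
    rw [ht.maximalIdeal_eq, Submodule.ideal_span_singleton_smul] at hzmem
    obtain ⟨z', -, hz'⟩ := hzmem
    have hz'' : t • z' = z := hz'
    apply hmin
    refine ⟨z', ?_⟩
    have h1 : t • (algebraMap C L z' - t ^ k' • x) = 0 := by
      rw [smul_sub, smul_smul, ← pow_succ', ← hk', ← hz, ← hz'']
      rw [Algebra.smul_def t z', map_mul, ← IsScalarTower.algebraMap_apply, ← Algebra.smul_def,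
        sub_self]
    have := smul_eq_zero_of_fractionRing K ht.ne_zero h1
    exact sub_eq_zero.mp this

omit [IsDiscreteValuationRing o] [Module.Finite o C] in
include o in
/-- Step A': `z = t y` with `y` integral is nilpotent modulo `t`. -/
theorem exists_pow_eq_smul {t : o} {y : L} {z : C} (hy : IsIntegral o y)
    (hz : algebraMap C L z = t • y) : ∃ (d : ℕ) (c : C), z ^ d = t • c := by
  obtain ⟨p, hp, hpy⟩ := hy
  have hq : eval₂ (algebraMap o L) (algebraMap o L t * y) (p.scaleRoots t) = 0 :=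
    scaleRoots_eval₂_eq_zero (algebraMap o L) hpy
  rw [← Algebra.smul_def, ← hz] at hq
  have hq' : algebraMap C L (eval₂ (algebraMap o C) z (p.scaleRoots t)) = 0 := by
    rw [Polynomial.hom_eval₂, ← IsScalarTower.algebraMap_eq]
    exact hq
  have hq0 : eval₂ (algebraMap o C) z (p.scaleRoots t) = 0 :=
    (algebraMap_injective_of_free (o := o) L) (by rw [hq', map_zero])
  have hmonic : (p.scaleRoots t).Monic := (monic_scaleRoots_iff t).mpr hp
  have hsum := hmonic.as_sum
  rw [natDegree_scaleRoots] at hsum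
  rw [hsum, eval₂_add, eval₂_pow, eval₂_X, eval₂_finsetSum] at hq0
  refine ⟨p.natDegree, -∑ i ∈ Finset.range p.natDegree,
    (p.coeff i * t ^ (p.natDegree - i - 1)) • z ^ i, ?_⟩
  rw [eq_neg_of_add_eq_zero_left hq0, smul_neg, Finset.smul_sum]
  congr 1
  refine Finset.sum_congr rfl fun i hi => ?_
  have hi' : i < p.natDegree := Finset.mem_range.mp hi
  have hpow : t ^ (p.natDegree - i) = t * t ^ (p.natDegree - i - 1) := by
    rw [← pow_succ']
    congr 1
    omega
  rw [eval₂_mul, eval₂_C, eval₂_pow, eval₂_X, coeff_scaleRoots, smul_smul, Algebra.smul_def, hpow]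
  congr 2
  ring

omit [IsDiscreteValuationRing o] [Module.Free o C] [Module.Finite o C] in
theorem mem_radical_span_iff {t : o} (c : C) :
    c ∈ (Ideal.span {algebraMap o C t}).radical ↔ ∃ (k : ℕ) (c' : C), c ^ k = t • c' := by
  constructor
  · rintro ⟨k, hk⟩
    obtain ⟨c', hc'⟩ := Ideal.mem_span_singleton'.mp hk
    exact ⟨k, c', by rw [← hc', Algebra.smul_def, mul_comm]⟩
  · rintro ⟨k, c', hk⟩
    refine ⟨k, Ideal.mem_span_singleton'.mpr ⟨c', ?_⟩⟩
    rw [hk, Algebra.smul_def, mul_comm]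

include K in
/-- **Normality criterion (b2-core).**  `o` a DVR with uniformizer `t`, `C` a finite free
`o`-algebra with basis `b`, `L` its localization at `o \ {0}`.  If `C / rad(tC)` is generated by
`s` elements as `o`-module and `t ^ (n - s + 1) ∤ disc(b)` (`n = #ι`), then every element of `L`
integral over `o` lies in (the image of) `C`. -/
theorem mem_range_of_isIntegral {t : o} (ht : Irreducible t)
    {ι : Type*} [Fintype ι] [DecidableEq ι] (b : Basis ι o C)
    (s : ℕ) (u : Fin s → C)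
    (hu : ((Ideal.span {algebraMap o C t}).radical.restrictScalars o) ⊔
        Submodule.span o (Set.range u) = ⊤)
    (hd : ¬ t ^ (Fintype.card ι - s + 1) ∣ Algebra.discr o b)
    (x : L) (hx : IsIntegral o x) : x ∈ (algebraMap C L).range := by
  classical
  by_contra hxC
  obtain ⟨y, z, hy, hyC, hzy, hzt⟩ := exists_minimal_counterexample (K := K) ht x hx hxC
  set J : Ideal C := (Ideal.span {algebraMap o C t}).radical with hJ
  have hzJ : z ∈ J := (mem_radical_span_iff z).mpr (exists_pow_eq_smul hy hzy)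
  obtain ⟨ι', _, _, b', Z, i₀, hi₀Z, hbi₀, hbZ, hcard⟩ :=
    exists_adapted_basis (J.restrictScalars o) z hzJ hzt s u hu
  -- the lattice generated by `C` and `y`
  let G : Set L := Set.range (fun i => algebraMap C L (b' i)) ∪ {y}
  have hGfin : G.Finite := (Set.finite_range _).union (Set.finite_singleton y)
  have hGint : ∀ g ∈ G, IsIntegral o g := by
    rintro g (⟨i, rfl⟩ | rfl)
    · exact (Algebra.IsIntegral.isIntegral (R := o) (b' i)).map (IsScalarTower.toAlgHom o C L)
    · exact hy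
  have hrange : ∀ c : C, algebraMap C L c ∈ Algebra.adjoin o G := by
    intro c
    have hc : c = ∑ i, (b'.repr c i) • b' i := (b'.sum_repr c).symm
    rw [hc, map_sum]
    refine Subalgebra.sum_mem _ fun i _ => ?_
    rw [Algebra.smul_def, map_mul, ← IsScalarTower.algebraMap_apply, ← Algebra.smul_def]
    exact Subalgebra.smul_mem _
      (Algebra.subset_adjoin (Set.mem_union_left _ (Set.mem_range_self i))) _
  have hspan : ∀ l : L, ∃ σ : o, σ ≠ 0 ∧ σ • l ∈ Algebra.adjoin o G := by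
    intro l
    obtain ⟨σ, hσ, c, hc⟩ := exists_smul_mem_range (o := o) (C := C) l
    exact ⟨σ, hσ, hc ▸ hrange c⟩
  have hR : IsLattice (Algebra.adjoin o G) := isLattice_adjoin hGfin hGint hspan
  let φ : C →ₐ[o] Algebra.adjoin o G :=
    (IsScalarTower.toAlgHom o C L).codRestrict (Algebra.adjoin o G) hrange
  let yR : Algebra.adjoin o G :=
    ⟨y, Algebra.subset_adjoin (Set.mem_union_right _ (Set.mem_singleton y))⟩
  have hφ : ∀ c : C, ((φ c : Algebra.adjoin o G) : L) = algebraMap C L c := fun c => rfl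
  have hφz : φ z = t • yR := Subtype.ext (by
    rw [hφ, hzy]; rfl)
  -- compatibility of traces
  have hτ : ∀ c : C, Algebra.trace o C c = Algebra.trace o (Algebra.adjoin o G) (φ c) := by
    intro c
    apply IsFractionRing.injective o K
    rw [← hR.trace_eq (K := K), hφ,
      ← Algebra.trace_localization o (nonZeroDivisors o) (Rₘ := K) (Sₘ := L)]
  have hE1 : ∀ c ∈ J, t ∣ Algebra.trace o C c := fun c hc => by
    obtain ⟨k, c', hk⟩ := (mem_radical_span_iff c).mp hc
    exact dvd_trace_of_pow_mem ht c k ⟨c', hk⟩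
  have hE2 : ∀ c : C, Algebra.trace o C (z * c) =
      t * Algebra.trace o (Algebra.adjoin o G) (yR * φ c) := by
    intro c
    rw [hτ, map_mul, hφz, smul_mul_assoc, map_smul, smul_eq_mul]
  have hE3 : ∀ c ∈ J, t ∣ Algebra.trace o (Algebra.adjoin o G) (yR * φ c) := by
    intro c hc
    obtain ⟨k, c', hk⟩ := (mem_radical_span_iff c).mp hc
    refine hR.dvd_trace (K := K) ht _ k ⟨yR ^ k * φ c', ?_⟩
    rw [mul_pow, ← map_pow, hk, map_smul, mul_smul_comm]
  -- the Gram matrix of the adapted basis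
  have hdet : t ^ (Z.card + 1) ∣ Algebra.discr o b' := by
    rw [Algebra.discr_def]
    refine pow_card_succ_dvd_det t _ Z i₀ ?_ ?_ ?_
    · intro i hi j
      rw [Algebra.traceMatrix_apply, Algebra.traceForm_apply]
      exact hE1 _ (J.mul_mem_right _ (hbZ i hi))
    · intro i hi
      rw [Algebra.traceMatrix_apply, Algebra.traceForm_apply, hbi₀, mul_comm, hE2, pow_two]
      exact mul_dvd_mul_left t (hE3 _ (hbZ i hi))
    · intro j
      rw [Algebra.traceMatrix_apply, Algebra.traceForm_apply, hbi₀, mul_comm, hE2]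
      exact dvd_mul_right t _
  have hcard' : Fintype.card ι = Fintype.card ι' := Fintype.card_congr (b.indexEquiv b')
  have hfin : t ^ (Fintype.card ι - s + 1) ∣ Algebra.discr o b' :=
    (pow_dvd_pow t (by omega)).trans hdet
  exact hd (dvd_discr_of_dvd_discr b b' _ hfin)

include K in
/-- **Normality criterion**, `IsIntegrallyClosedIn` form. -/
theorem isIntegrallyClosedIn_of_discr {t : o} (ht : Irreducible t)
    {ι : Type*} [Fintype ι] [DecidableEq ι] (b : Basis ι o C)
    (s : ℕ) (u : Fin s → C)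
    (hu : ((Ideal.span {algebraMap o C t}).radical.restrictScalars o) ⊔
        Submodule.span o (Set.range u) = ⊤)
    (hd : ¬ t ^ (Fintype.card ι - s + 1) ∣ Algebra.discr o b) :
    IsIntegrallyClosedIn C L := by
  refine ⟨algebraMap_injective_of_free (o := o) L, fun {x} => ⟨fun hx => ?_, ?_⟩⟩
  · have hx' : IsIntegral o x := isIntegral_trans (R := o) (A := C) x hx
    exact mem_range_of_isIntegral (K := K) ht b s u hu hd x hx'
  · rintro ⟨c, rfl⟩
    exact isIntegral_algebraMap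

omit [Module.Free o C] [Module.Finite o C] in
/-- The discriminant is always divisible by `t ^ (n - s)` when `C / rad(tC)` is generated by
`s` elements (no hypothesis on `L`). -/
theorem pow_dvd_discr [Module.Free o C] [Module.Finite o C] {t : o} (ht : Irreducible t)
    {ι : Type*} [Fintype ι] [DecidableEq ι] (b : Basis ι o C)
    (s : ℕ) (u : Fin s → C)
    (hu : ((Ideal.span {algebraMap o C t}).radical.restrictScalars o) ⊔
        Submodule.span o (Set.range u) = ⊤) :
    t ^ (Fintype.card ι - s) ∣ Algebra.discr o b := by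
  classical
  by_cases hn : Fintype.card ι ≤ s
  · rw [Nat.sub_eq_zero_of_le hn, pow_zero]
    exact one_dvd _
  -- `t • b i₁` is a nonzero element of `rad(tC)`, not in `t 𝔪`... we use `z := t`-free variant:
  -- pick an element of the radical outside `𝔪 C`; it exists since `n > s`.
  set J : Ideal C := (Ideal.span {algebraMap o C t}).radical with hJ
  have hex : ∃ z ∈ J, z ∉ (IsLocalRing.maximalIdeal o • ⊤ : Submodule o C) := by
    by_contra hcon
    -- then `C = 𝔪 C + span u`, so `C` is generated by `s` elements (Nakayama), contradiction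
    have hle : (J.restrictScalars o) ≤ (IsLocalRing.maximalIdeal o • ⊤ : Submodule o C) := by
      intro z hz
      by_contra hz'
      exact hcon ⟨z, hz, hz'⟩
    have htop : (⊤ : Submodule o C) ≤
        Submodule.span o (Set.range u) ⊔ (IsLocalRing.maximalIdeal o • ⊤ : Submodule o C) :=
      calc (⊤ : Submodule o C) = J.restrictScalars o ⊔ Submodule.span o (Set.range u) := hu.symm
        _ ≤ (IsLocalRing.maximalIdeal o • ⊤ : Submodule o C) ⊔ Submodule.span o (Set.range u) :=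
            sup_le_sup_right hle _
        _ = _ := sup_comm _ _
    have hjac : IsLocalRing.maximalIdeal o ≤ Ideal.jacobson ⊥ :=
      (IsLocalRing.jacobson_eq_maximalIdeal ⊥ bot_ne_top).ge
    have hspan : (⊤ : Submodule o C) ≤ Submodule.span o (Set.range u) :=
      Submodule.le_of_le_smul_of_le_jacobson_bot (Module.Finite.fg_top) hjac htop
    have hcardle : Fintype.card ι ≤ s := by
      have h1 : Module.finrank o C = Fintype.card ι := Module.finrank_eq_card_basis b
      have h2 := finrank_span_le_card (R := o) (Set.range u)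
      rw [top_le_iff.mp hspan, finrank_top] at h2
      have h4 : (Set.range u).toFinset.card ≤ s := by
        calc (Set.range u).toFinset.card ≤ (Finset.univ : Finset (Fin s)).card := by
              rw [Set.toFinset_range]
              exact Finset.card_image_le
          _ = s := by simp
      omega
    exact hn hcardle
  obtain ⟨z, hzJ, hzt⟩ := hex
  obtain ⟨ι', _, _, b', Z, i₀, hi₀Z, hbi₀, hbZ, hcard⟩ :=
    exists_adapted_basis (J.restrictScalars o) z hzJ hzt s u hu
  have hE1 : ∀ c ∈ J, t ∣ Algebra.trace o C c := fun c hc => by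
    obtain ⟨k, c', hk⟩ := (mem_radical_span_iff c).mp hc
    exact dvd_trace_of_pow_mem ht c k ⟨c', hk⟩
  have hdet : t ^ Z.card ∣ Algebra.discr o b' := by
    rw [Algebra.discr_def]
    refine pow_card_dvd_det t _ Z ?_
    intro i hi j
    rw [Algebra.traceMatrix_apply, Algebra.traceForm_apply]
    exact hE1 _ (J.mul_mem_right _ (hbZ i hi))
  have hcard' : Fintype.card ι = Fintype.card ι' := Fintype.card_congr (b.indexEquiv b')
  have hfin : t ^ (Fintype.card ι - s) ∣ Algebra.discr o b' :=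
    (pow_dvd_pow t (by omega)).trans hdet
  exact dvd_discr_of_dvd_discr b b' _ hfin

end Main

end Fermat.Agent.S37.H278

end
-- ===== PACK-END S37/H278/Normal.lean

-- ===== PACK-BEGIN S18/B12/H278/Transfer.lean
section


/-!
# b2-SF core over a PID (helper278)

`Λ` a PID, `t` a prime element, `C` a finite free commutative `Λ`-algebra with basis `b`,
`f : C →ₐ[Λ] L` an injective map into a commutative `Λ`-algebra without `Λ`-torsion.
If `C / rad(tC)` is spanned by `s` elements over `Λ` and `t ^ (n - s + 1) ∤ disc(b)`, then every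
`x : L` integral over `Λ` with `g₀ • x ∈ C` for some `g₀ ≠ 0` satisfies `g • x ∈ C` for some
`g ∉ (t)`:  **`C` is integrally closed in `L ∩ (C ⊗ Frac Λ)` locally at `t`**.

Proof: localise at `(t)` and apply the DVR criterion `mem_range_of_isIntegral` of
`Fermat/Agent/S37/H278/Normal.lean`.
-/

set_option autoImplicit false
set_option linter.style.haveILetI false
set_option linter.unusedSectionVars false

namespace Fermat.Agent.S18.B12.H278

open Module Polynomial Fermat.Agent.S37.H278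

section Transfer

variable {Λ : Type*} [CommRing Λ] [IsDomain Λ] [IsPrincipalIdealRing Λ]
  {C : Type*} [CommRing C] [Algebra Λ C]
  {L : Type*} [CommRing L] [Algebra Λ L]

/-- Divisibility by powers of `t` can be tested in the localisation at `(t)`. -/
theorem pow_dvd_of_pow_dvd_algebraMap {t : Λ} (ht : Prime t) (P : Ideal Λ) [P.IsPrime]
    (hP : P = Ideal.span {t})
    (o : Type*) [CommRing o] [Algebra Λ o] [IsLocalization.AtPrime o P] (k : ℕ) (d : Λ)
    (h : algebraMap Λ o t ^ k ∣ algebraMap Λ o d) : t ^ k ∣ d := by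
  obtain ⟨e, he⟩ := h
  obtain ⟨⟨a, g⟩, hag⟩ := IsLocalization.surj P.primeCompl e
  simp only at hag
  have hinj : Function.Injective (algebraMap Λ o) :=
    IsLocalization.injective o (Ideal.primeCompl_le_nonZeroDivisors P)
  have h1 : g.1 * d = t ^ k * a := by
    apply hinj
    rw [map_mul, map_mul, map_pow, he, ← hag]
    ring
  have hg : ¬ t ∣ g.1 := by
    intro hdiv
    exact g.2 (hP.ge (Ideal.mem_span_singleton.mpr hdiv))
  exact ht.pow_dvd_of_dvd_mul_left k hg ⟨a, h1⟩

/-- The image of `t` is a uniformiser of the localisation at `(t)`. -/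
theorem irreducible_algebraMap_of_atPrime {t : Λ} (P : Ideal Λ) [P.IsPrime]
    (hP : P = Ideal.span {t})
    (o : Type*) [CommRing o] [IsDomain o] [IsDiscreteValuationRing o] [Algebra Λ o]
    [IsLocalization.AtPrime o P] : Irreducible (algebraMap Λ o t) := by
  rw [IsDiscreteValuationRing.irreducible_iff_uniformizer,
    ← IsLocalization.AtPrime.map_eq_maximalIdeal P o, hP, Ideal.map_span, Set.image_singleton]

/-- Transfer of the spanning hypothesis to the localisation. -/
theorem sup_eq_top_of_atPrime {t : Λ} (P : Ideal Λ) [P.IsPrime]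
    (o : Type*) [CommRing o] [Algebra Λ o] [IsLocalization.AtPrime o P]
    (C' : Type*) [CommRing C'] [Algebra C C'] [Algebra o C'] [Algebra Λ C']
    [IsScalarTower Λ o C'] [IsScalarTower Λ C C']
    [IsLocalization (Algebra.algebraMapSubmonoid C P.primeCompl) C']
    (s : ℕ) (y : Fin s → C)
    (hy : ∀ x : C, ∃ a : Fin s → Λ,
        x - ∑ i, a i • y i ∈ (Ideal.span {algebraMap Λ C t}).radical) :
    ((Ideal.span {algebraMap o C' (algebraMap Λ o t)}).radical.restrictScalars o) ⊔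
        Submodule.span o (Set.range fun i => algebraMap C C' (y i)) = ⊤ := by
  rw [eq_top_iff]
  intro c' _
  obtain ⟨⟨c, m⟩, hcm⟩ := IsLocalization.surj (Algebra.algebraMapSubmonoid C P.primeCompl) c'
  obtain ⟨g, hg, hgm⟩ := m.2
  simp only at hcm
  -- `algebraMap g` is a unit of `o`
  obtain ⟨v, hv⟩ := (IsLocalization.map_units o (⟨g, hg⟩ : P.primeCompl)).exists_right_inv
  simp only at hv
  have hc' : c' = v • algebraMap C C' c := by
    rw [← hcm, ← hgm, ← IsScalarTower.algebraMap_apply, IsScalarTower.algebraMap_apply Λ o C',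
      Algebra.smul_def, mul_comm c', ← mul_assoc, ← map_mul, mul_comm v, hv, map_one, one_mul]
  rw [hc']
  refine Submodule.smul_mem _ _ ?_
  obtain ⟨a, ha⟩ := hy c
  have h1 : algebraMap C C' c =
      algebraMap C C' (c - ∑ i, a i • y i) + ∑ i, algebraMap Λ o (a i) • algebraMap C C' (y i) := by
    rw [map_sub, map_sum]
    have : ∀ i, algebraMap C C' (a i • y i) = algebraMap Λ o (a i) • algebraMap C C' (y i) := by
      intro i
      rw [Algebra.smul_def, map_mul, Algebra.smul_def, ← IsScalarTower.algebraMap_apply,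
        ← IsScalarTower.algebraMap_apply]
    simp only [this]
    ring
  rw [h1]
  refine Submodule.add_mem_sup ?_ ?_
  · show algebraMap C C' (c - ∑ i, a i • y i) ∈
      (Ideal.span {algebraMap o C' (algebraMap Λ o t)}).radical
    have h2 := Ideal.map_radical_le (algebraMap C C') (Ideal.mem_map_of_mem (algebraMap C C') ha)
    rw [Ideal.map_span, Set.image_singleton, ← IsScalarTower.algebraMap_apply,
      IsScalarTower.algebraMap_apply Λ o C'] at h2
    exact h2
  · refine Submodule.sum_mem _ fun i _ => Submodule.smul_mem _ _ (Submodule.subset_span ⟨i, rfl⟩)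

/-- Main transfer theorem, with abstract localisations `o = Λ_(t)`, `C' = C_(t)`,
`L' = C' ⊗ Frac o`. -/
theorem exists_smul_mem_range_aux {t : Λ} (ht : Prime t) (P : Ideal Λ) [P.IsPrime]
    (hP : P = Ideal.span {t})
    (o : Type*) [CommRing o] [IsDomain o] [IsDiscreteValuationRing o] [Algebra Λ o]
    [IsLocalization.AtPrime o P]
    (C' : Type*) [CommRing C'] [Algebra C C'] [Algebra o C'] [Algebra Λ C']
    [IsScalarTower Λ o C'] [IsScalarTower Λ C C']
    [IsLocalization (Algebra.algebraMapSubmonoid C P.primeCompl) C']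
    (L' : Type*) [CommRing L'] [Algebra o L'] [Algebra C' L']
    [IsScalarTower o C' L']
    [IsLocalization (Algebra.algebraMapSubmonoid C' (nonZeroDivisors o)) L']
    (hL : ∀ (g : Λ) (l : L), g ≠ 0 → g • l = 0 → l = 0)
    (f : C →ₐ[Λ] L) (hf : Function.Injective f)
    {ι : Type*} [Fintype ι] [DecidableEq ι] (b : Basis ι Λ C) (s : ℕ) (y : Fin s → C)
    (hy : ∀ x : C, ∃ a : Fin s → Λ,
        x - ∑ i, a i • y i ∈ (Ideal.span {algebraMap Λ C t}).radical)
    (hd : ¬ t ^ (Fintype.card ι - s + 1) ∣ Algebra.discr Λ b)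
    (x : L) (hx : IsIntegral Λ x) (hx0 : ∃ g₀ : Λ, g₀ ≠ 0 ∧ g₀ • x ∈ f.range) :
    ∃ g : Λ, ¬ t ∣ g ∧ g • x ∈ f.range := by
  classical
  -- `L'` is an algebra over `K = Frac o`
  have hunitK : ∀ z : nonZeroDivisors o, IsUnit (algebraMap o L' z) := by
    intro z
    rw [IsScalarTower.algebraMap_apply o C' L']
    exact IsLocalization.map_units L' (⟨algebraMap o C' z, ⟨z, z.2, rfl⟩⟩ :
      Algebra.algebraMapSubmonoid C' (nonZeroDivisors o))
  letI : Algebra (FractionRing o) L' :=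
    (IsLocalization.lift (M := nonZeroDivisors o) (g := algebraMap o L') hunitK).toAlgebra
  haveI : IsScalarTower o (FractionRing o) L' :=
    IsScalarTower.of_algebraMap_eq (fun z => (IsLocalization.lift_eq hunitK z).symm)
  obtain ⟨g₀, hg₀, c₀, hc₀'⟩ := hx0
  have hc₀ : f c₀ = g₀ • x := hc₀'
  obtain ⟨p, hpm, hpx⟩ := hx
  let b' : Basis ι o C' := b.localizationLocalization o P.primeCompl C'
  haveI : Module.Free o C' := Module.Free.of_basis b'
  haveI : Module.Finite o C' := Module.Finite.of_basis b'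
  haveI : Module.Free Λ C := Module.Free.of_basis b
  have ht' : Irreducible (algebraMap Λ o t) := irreducible_algebraMap_of_atPrime P hP o
  have hu' := sup_eq_top_of_atPrime (t := t) P o C' s y hy
  have hd' : ¬ algebraMap Λ o t ^ (Fintype.card ι - s + 1) ∣ Algebra.discr o b' := by
    rw [Algebra.discr_localizationLocalization Λ P.primeCompl C' b]
    exact fun h => hd (pow_dvd_of_pow_dvd_algebraMap ht P hP o _ _ h)
  -- the maps
  have hinjΛo : Function.Injective (algebraMap Λ o) :=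
    IsLocalization.injective o (Ideal.primeCompl_le_nonZeroDivisors P)
  have hinjC : Function.Injective (algebraMap C C') := by
    apply IsLocalization.injective C' (M := Algebra.algebraMapSubmonoid C P.primeCompl)
    rintro _ ⟨g, hg, rfl⟩
    rw [mem_nonZeroDivisors_iff_right]
    intro c hc
    have hg0 : g ≠ 0 := fun h => hg (h ▸ P.zero_mem)
    apply smul_eq_zero_imp hg0
    rw [Algebra.smul_def, mul_comm]
    exact hc
  have hinjC' : Function.Injective (algebraMap C' L') := algebraMap_injective_of_free (o := o) L'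
  let φ : C →+* L' := (algebraMap C' L').comp (algebraMap C C')
  have hφ : Function.Injective φ := hinjC'.comp hinjC
  let ψ : Λ →+* L' := φ.comp (algebraMap Λ C)
  have hψ : ∀ a, ψ a = algebraMap o L' (algebraMap Λ o a) := by
    intro a
    show algebraMap C' L' (algebraMap C C' (algebraMap Λ C a)) = _
    rw [← IsScalarTower.algebraMap_apply Λ C C', IsScalarTower.algebraMap_apply Λ o C',
      ← IsScalarTower.algebraMap_apply o C' L']
  have hunit : IsUnit (ψ g₀) := by
    have hmem : algebraMap o C' (algebraMap Λ o g₀) ∈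
        Algebra.algebraMapSubmonoid C' (nonZeroDivisors o) :=
      ⟨algebraMap Λ o g₀, mem_nonZeroDivisors_of_ne_zero
        (fun h => hg₀ (hinjΛo (by rw [h, map_zero]))), rfl⟩
    have := IsLocalization.map_units L' (⟨_, hmem⟩ :
      Algebra.algebraMapSubmonoid C' (nonZeroDivisors o))
    rw [hψ, IsScalarTower.algebraMap_apply o C' L']
    exact this
  obtain ⟨w, hw⟩ := hunit.exists_left_inv
  -- the element `x' = c₀ / g₀` of `L'`
  set x' : L' := w * φ c₀ with hx'
  have hgx' : ψ g₀ * x' = φ c₀ := by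
    rw [hx', ← mul_assoc, mul_comm (ψ g₀), hw, one_mul]
  -- `c₀` is a root of the scaled polynomial
  have hq : eval₂ (algebraMap Λ C) c₀ (scaleRoots p g₀) = 0 := by
    apply hf
    rw [map_zero]
    have h1 : f (eval₂ (algebraMap Λ C) c₀ (scaleRoots p g₀)) =
        eval₂ (algebraMap Λ L) (f c₀) (scaleRoots p g₀) := by
      rw [← Polynomial.aeval_def, ← Polynomial.aeval_def, Polynomial.aeval_algHom_apply]
    rw [h1, hc₀, Algebra.smul_def, scaleRoots_eval₂_mul, hpx, mul_zero]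
  have hx'int : IsIntegral o x' := by
    refine ⟨p.map (algebraMap Λ o), hpm.map _, ?_⟩
    rw [eval₂_map]
    have h2 : eval₂ ((algebraMap o L').comp (algebraMap Λ o)) x' p = eval₂ ψ x' p := by
      congr 1
      ext a
      exact (hψ a).symm
    rw [h2]
    have h3 : ψ g₀ ^ p.natDegree * eval₂ ψ x' p = 0 := by
      rw [← scaleRoots_eval₂_mul, hgx']
      have : eval₂ ψ (φ c₀) (scaleRoots p g₀) = φ (eval₂ (algebraMap Λ C) c₀ (scaleRoots p g₀)) := by
        rw [Polynomial.hom_eval₂]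
      rw [this, hq, map_zero]
    have hu2 : IsUnit (ψ g₀ ^ p.natDegree) := hunit.pow _
    exact (hu2.mul_right_eq_zero).mp h3
  -- apply the DVR criterion
  obtain ⟨c', hc'⟩ := mem_range_of_isIntegral (K := FractionRing o) ht' b' s
    (fun i => algebraMap C C' (y i)) hu' hd' x' hx'int
  obtain ⟨⟨c, m⟩, hcm⟩ := IsLocalization.surj (Algebra.algebraMapSubmonoid C P.primeCompl) c'
  obtain ⟨g, hg, hgm⟩ := m.2
  simp only at hcm
  refine ⟨g, fun hdiv => hg (hP.ge (Ideal.mem_span_singleton.mpr hdiv)), c, ?_⟩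
  -- `g • c₀ = g₀ • c` in `C`
  have hkey : g • c₀ = g₀ • c := by
    apply hφ
    have e1 : φ (g • c₀) = ψ g * φ c₀ := by
      rw [Algebra.smul_def, map_mul]; rfl
    have e2 : φ (g₀ • c) = ψ g₀ * φ c := by
      rw [Algebra.smul_def, map_mul]; rfl
    have e3 : φ c = x' * ψ g := by
      show algebraMap C' L' (algebraMap C C' c) = _
      rw [← hcm, map_mul, hc', ← hgm]
      rfl
    rw [e1, e2, e3, ← hgx']
    ring
  show f c = g • x
  have hfin : g₀ • (f c - g • x) = 0 := by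
    rw [smul_sub, smul_comm g₀ g x, ← hc₀, ← map_smul, ← map_smul, hkey, sub_self]
  exact sub_eq_zero.mp (hL g₀ _ hg₀ hfin)

/-- **Normality criterion over a PID, local at a prime `t`.**
`C` finite free `Λ`-algebra with basis `b`, `f : C → L` injective, `L` without `Λ`-torsion.  If
`C / rad(tC)` is spanned by `s` elements and `t ^ (n - s + 1) ∤ disc(b)`, then every `x : L`
integral over `Λ` which is a fraction of an element of `C` lies in `C` locally at `t`. -/
theorem exists_smul_mem_range_of_isIntegral {t : Λ} (ht : Prime t)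
    (hL : ∀ (g : Λ) (l : L), g ≠ 0 → g • l = 0 → l = 0)
    (f : C →ₐ[Λ] L) (hf : Function.Injective f)
    {ι : Type*} [Fintype ι] [DecidableEq ι] (b : Basis ι Λ C) (s : ℕ) (y : Fin s → C)
    (hy : ∀ x : C, ∃ a : Fin s → Λ,
        x - ∑ i, a i • y i ∈ (Ideal.span {algebraMap Λ C t}).radical)
    (hd : ¬ t ^ (Fintype.card ι - s + 1) ∣ Algebra.discr Λ b)
    (x : L) (hx : IsIntegral Λ x) (hx0 : ∃ g₀ : Λ, g₀ ≠ 0 ∧ g₀ • x ∈ f.range) :
    ∃ g : Λ, ¬ t ∣ g ∧ g • x ∈ f.range := by
  haveI hP : (Ideal.span {t} : Ideal Λ).IsPrime := (Ideal.span_singleton_prime ht.ne_zero).mpr ht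
  haveI : IsDiscreteValuationRing (Localization.AtPrime (Ideal.span {t} : Ideal Λ)) :=
    IsLocalization.AtPrime.isDiscreteValuationRing_of_dedekind_domain Λ
      (P := Ideal.span {t}) (by
        rw [Ne, Ideal.span_singleton_eq_bot]; exact ht.ne_zero) _
  exact exists_smul_mem_range_aux ht (Ideal.span {t}) rfl
    (Localization.AtPrime (Ideal.span {t} : Ideal Λ))
    (Localization (Algebra.algebraMapSubmonoid C (Ideal.span {t} : Ideal Λ).primeCompl))
    (Localization (Algebra.algebraMapSubmonoid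
      (Localization (Algebra.algebraMapSubmonoid C (Ideal.span {t} : Ideal Λ).primeCompl))
      (nonZeroDivisors (Localization.AtPrime (Ideal.span {t} : Ideal Λ)))))
    hL f hf b s y hy hd x hx hx0

end Transfer

end Fermat.Agent.S18.B12.H278

end
-- ===== PACK-END S18/B12/H278/Transfer.lean

-- ===== PACK-BEGIN S18/H425/Hsep.lean
section




/-!
# S18 / b2.5 HSEP (helper425): the hypothesis `hsep` of `B2RegularStatement` / `B2Statement`
from elementwise separability of the special fibre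

EXACT STATEMENTS (Mathlib-only):

* `hsep_gen` : `Λ` noetherian integrally closed domain, `w ∈ Λ` prime, `B` integrally closed
  domain, finite and torsion-free over `Λ`, `w` prime in `B`, and
  `∀ b : B, ∃ P : Λ[X], w ∣ P(b) ∧ ¬ w ∣ P'(b)`.  Then
  `∃ x : Fin (finrank Λ B) → B, ¬ w ∣ det (intTrace Λ B (x i * x j))`.
* `hsep_poly` : the case `Λ = R[X]`, `w = C w₀`, `R` a DVR — the hypothesis `hsep` of
  `Fermat.Agent.S18.B12.B2RegularStatement` (origin/helper33 Spec3.lean), verbatim.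
-/

set_option autoImplicit false

noncomputable section

namespace Fermat.Agent.S18.H425

open Polynomial IsLocalRing

universe u v

/-- Compatibility of `aeval` with a commutative square of ring homomorphisms. -/
theorem aeval_map_of_comp_eq {Λ B K F : Type*} [CommRing Λ] [CommRing B] [Algebra Λ B]
    [CommRing K] [CommRing F] [Algebra K F] (g : Λ →+* K) (φ : B →+* F)
    (h : (algebraMap K F).comp g = φ.comp (algebraMap Λ B)) (Q : Λ[X]) (c : B) :
    aeval (φ c) (Q.map g) = φ (aeval c Q) := by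
  rw [aeval_def, eval₂_map, h, aeval_def, hom_eval₂]

theorem hsep_gen (Λ : Type u) [CommRing Λ] [IsDomain Λ] [IsIntegrallyClosed Λ]
    [IsNoetherianRing Λ] (w : Λ) (hw : Prime w)
    (B : Type v) [CommRing B] [IsDomain B] [IsIntegrallyClosed B] [Algebra Λ B]
    [Module.Finite Λ B] [Module.IsTorsionFree Λ B]
    (hwB : Prime (algebraMap Λ B w))
    (hel : ∀ b : B, ∃ P : Λ[X], algebraMap Λ B w ∣ aeval b P ∧
          ¬ algebraMap Λ B w ∣ aeval b (derivative P)) :
    ∃ x : Fin (Module.finrank Λ B) → B,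
        ¬ w ∣ (Matrix.of fun i j => Algebra.intTrace Λ B (x i * x j)).det := by
  classical
  -- the prime `𝔭 = (w)` of `Λ` and the prime `P = (w)` of `B`
  let 𝔭 : Ideal Λ := Ideal.span {w}
  have h𝔭 : 𝔭.IsPrime := (Ideal.span_singleton_prime hw.ne_zero).mpr hw
  let P : Ideal B := Ideal.span {algebraMap Λ B w}
  have hP : P.IsPrime := (Ideal.span_singleton_prime hwB.ne_zero).mpr hwB
  have hPover : P.LiesOver 𝔭 := by
    constructor
    ext s
    rw [Ideal.under_def, Ideal.mem_comap, Ideal.mem_span_singleton, Ideal.mem_span_singleton]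
    exact ⟨fun h => map_dvd (algebraMap Λ B) h, fun h => dvd_of_algebraMap_dvd hw.ne_zero h⟩
  have hP𝔭 : 𝔭.map (algebraMap Λ B) = P := by
    rw [Ideal.map_span, Set.image_singleton]
  -- localisations
  let Λₚ := Localization.AtPrime 𝔭
  let Bₚ := Localization (Algebra.algebraMapSubmonoid B 𝔭.primeCompl)
  let _ : Algebra Λₚ Bₚ := localizationAlgebra 𝔭.primeCompl B
  have : IsScalarTower Λ Λₚ Bₚ := IsScalarTower.of_algebraMap_eq'
    (by rw [RingHom.algebraMap_toAlgebra, IsLocalization.map_comp, ← IsScalarTower.algebraMap_eq])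
  have : IsLocalization (Submonoid.map (algebraMap Λ B) (Ideal.primeCompl 𝔭)) Bₚ :=
    inferInstanceAs (IsLocalization (Algebra.algebraMapSubmonoid B 𝔭.primeCompl) Bₚ)
  have e : Algebra.algebraMapSubmonoid B 𝔭.primeCompl ≤ nonZeroDivisors B :=
    Submonoid.map_le_of_le_comap _ <| 𝔭.primeCompl_le_nonZeroDivisors.trans
      (nonZeroDivisors_le_comap_nonZeroDivisors_of_injective _
        (FaithfulSMul.algebraMap_injective _ _))
  have : IsDomain Bₚ := IsLocalization.isDomain_of_le_nonZeroDivisors _ e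
  have hinjB : Function.Injective (algebraMap Λ B) := FaithfulSMul.algebraMap_injective Λ B
  have hinjp : Function.Injective (algebraMap Λₚ Bₚ) :=
    localizationAlgebra_injective (Rₘ := Λₚ) (Sₘ := Bₚ) hinjB
  have : Module.IsTorsionFree Λₚ Bₚ := Module.isTorsionFree_iff_algebraMap_injective.mpr hinjp
  have : Module.Finite Λₚ Bₚ := .of_isLocalization Λ B 𝔭.primeCompl
  have : IsIntegrallyClosed Bₚ := isIntegrallyClosed_of_isLocalization _ _ e
  have : IsNoetherianRing Λₚ := IsLocalization.isNoetherianRing 𝔭.primeCompl Λₚ inferInstance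
  have hmaxeq : maximalIdeal Λₚ = Ideal.span {algebraMap Λ Λₚ w} := by
    rw [← IsLocalization.AtPrime.map_eq_maximalIdeal 𝔭 Λₚ, Ideal.map_span, Set.image_singleton]
  have : IsPrincipalIdealRing Λₚ := by
    refine ((tfae_of_isNoetherianRing_of_isLocalRing_of_isDomain Λₚ).out 4 0).mp ?_
    rw [hmaxeq]
    exact ⟨⟨_, rfl⟩⟩
  have : Module.Free Λₚ Bₚ := Module.free_of_finite_type_torsion_free'
  -- the ideal `𝔪 Bₚ`
  have hmapeq : Ideal.map (algebraMap Λₚ Bₚ) (maximalIdeal Λₚ) = P.map (algebraMap B Bₚ) := by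
    rw [← IsLocalization.AtPrime.map_eq_maximalIdeal 𝔭 Λₚ, Ideal.map_map,
      ← IsScalarTower.algebraMap_eq, IsScalarTower.algebraMap_eq Λ B Bₚ, ← Ideal.map_map, hP𝔭]
  have hprime : (Ideal.map (algebraMap Λₚ Bₚ) (maximalIdeal Λₚ)).IsPrime := by
    rw [hmapeq]
    exact IsLocalization.AtPrime.isPrime_map_of_liesOver B 𝔭 Bₚ P
  -- the residue field `K̄ = Λₚ/𝔪` and the residue algebra `F̄ = Bₚ/𝔪Bₚ`
  let _ : Field (Λₚ ⧸ maximalIdeal Λₚ) := Ideal.Quotient.field _
  have hmax : (Ideal.map (algebraMap Λₚ Bₚ) (maximalIdeal Λₚ)).IsMaximal := by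
    have hdom : IsDomain (Bₚ ⧸ Ideal.map (algebraMap Λₚ Bₚ) (maximalIdeal Λₚ)) :=
      Ideal.Quotient.isDomain _
    have hfin : Module.Finite (Λₚ ⧸ maximalIdeal Λₚ)
        (Bₚ ⧸ Ideal.map (algebraMap Λₚ Bₚ) (maximalIdeal Λₚ)) :=
      Module.Finite.of_restrictScalars_finite Λₚ _ _
    have hint : Algebra.IsIntegral (Λₚ ⧸ maximalIdeal Λₚ)
        (Bₚ ⧸ Ideal.map (algebraMap Λₚ Bₚ) (maximalIdeal Λₚ)) := Algebra.IsIntegral.of_finite _ _
    exact Ideal.Quotient.maximal_of_isField _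
      (isField_of_isIntegral_of_isField' (Field.toIsField (Λₚ ⧸ maximalIdeal Λₚ)))
  let _ : Field (Bₚ ⧸ Ideal.map (algebraMap Λₚ Bₚ) (maximalIdeal Λₚ)) := Ideal.Quotient.field _
  -- the kernel of `B → F̄`
  have hker : ∀ c : B, Ideal.Quotient.mk (Ideal.map (algebraMap Λₚ Bₚ) (maximalIdeal Λₚ))
      (algebraMap B Bₚ c) = 0 ↔ algebraMap Λ B w ∣ c := by
    intro c
    rw [Ideal.Quotient.eq_zero_iff_mem, hmapeq, ← Ideal.mem_comap, ← Ideal.under_def,
      IsLocalization.under_map_of_isPrime_disjoint (Algebra.algebraMapSubmonoid B 𝔭.primeCompl)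
        Bₚ hP (Ideal.disjoint_primeCompl_of_liesOver P 𝔭), Ideal.mem_span_singleton]
  -- the two maps to the residue objects
  let g : Λ →+* (Λₚ ⧸ maximalIdeal Λₚ) :=
    (Ideal.Quotient.mk (maximalIdeal Λₚ)).comp (algebraMap Λ Λₚ)
  let φ : B →+* (Bₚ ⧸ Ideal.map (algebraMap Λₚ Bₚ) (maximalIdeal Λₚ)) :=
    (Ideal.Quotient.mk _).comp (algebraMap B Bₚ)
  have hsq : (algebraMap (Λₚ ⧸ maximalIdeal Λₚ)
      (Bₚ ⧸ Ideal.map (algebraMap Λₚ Bₚ) (maximalIdeal Λₚ))).comp g =
      φ.comp (algebraMap Λ B) := by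
    ext a
    simp only [g, φ, RingHom.comp_apply]
    rw [Ideal.Quotient.algebraMap_quotient_map_quotient, ← IsScalarTower.algebraMap_apply,
      ← IsScalarTower.algebraMap_apply]
  have hg : ∀ s₀ : Λ, s₀ ∈ 𝔭.primeCompl → g s₀ ≠ 0 := by
    intro s₀ hs₀ h0
    simp only [g, RingHom.comp_apply] at h0
    rw [Ideal.Quotient.eq_zero_iff_mem, IsLocalRing.mem_maximalIdeal, mem_nonunits_iff] at h0
    exact h0 ((IsLocalization.AtPrime.isUnit_to_map_iff Λₚ 𝔭 s₀).mpr hs₀)
  -- elementwise separability of `F̄ / K̄`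
  have hsepel : ∀ y : Bₚ ⧸ Ideal.map (algebraMap Λₚ Bₚ) (maximalIdeal Λₚ),
      IsSeparable (Λₚ ⧸ maximalIdeal Λₚ) y := by
    intro y
    obtain ⟨y, rfl⟩ := Ideal.Quotient.mk_surjective y
    obtain ⟨⟨b, s⟩, hbs⟩ := IsLocalization.surj (Algebra.algebraMapSubmonoid B 𝔭.primeCompl) y
    obtain ⟨s₀, hs₀, hs₀'⟩ := s.2
    obtain ⟨Q, hQ0, hQ1⟩ := hel b
    have hb : IsSeparable (Λₚ ⧸ maximalIdeal Λₚ) (φ b) := by
      apply isSeparable_of_aeval_derivative_ne_zero _ (Q.map g)
      · rw [aeval_map_of_comp_eq g φ hsq]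
        exact (hker _).mpr hQ0
      · rw [derivative_map, aeval_map_of_comp_eq g φ hsq]
        exact fun h => hQ1 ((hker _).mp h)
    have hrel : Ideal.Quotient.mk (Ideal.map (algebraMap Λₚ Bₚ) (maximalIdeal Λₚ)) y *
        algebraMap (Λₚ ⧸ maximalIdeal Λₚ) _ (g s₀) = φ b := by
      have h1 : algebraMap (Λₚ ⧸ maximalIdeal Λₚ)
          (Bₚ ⧸ Ideal.map (algebraMap Λₚ Bₚ) (maximalIdeal Λₚ)) (g s₀) =
          φ (algebraMap Λ B s₀) := by
        have := congrArg (fun f => f s₀) hsq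
        simpa using this
      rw [h1, hs₀']
      simp only [φ, RingHom.comp_apply]
      rw [← map_mul, hbs]
    have hy : Ideal.Quotient.mk (Ideal.map (algebraMap Λₚ Bₚ) (maximalIdeal Λₚ)) y =
        φ b * algebraMap (Λₚ ⧸ maximalIdeal Λₚ) _ (g s₀)⁻¹ := by
      rw [← hrel, mul_assoc, ← map_mul, mul_inv_cancel₀ (hg s₀ hs₀), map_one, mul_one]
    rw [hy]
    exact Field.isSeparable_mul hb (isSeparable_algebraMap _)
  -- rank
  have hrank : Module.finrank Λₚ Bₚ = Module.finrank Λ B := by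
    have h1 : Module.finrank Λₚ Bₚ = Module.finrank Λ Bₚ :=
      IsLocalization.finrank_eq Λₚ 𝔭.primeCompl 𝔭.primeCompl_le_nonZeroDivisors
    have h2 : Module.finrank Λ Bₚ = Module.finrank Λ B :=
      IsLocalizedModule.finrank_eq 𝔭.primeCompl (IsScalarTower.toAlgHom Λ B Bₚ).toLinearMap
        𝔭.primeCompl_le_nonZeroDivisors
    rw [h1, h2]
  let bas : Module.Basis (Fin (Module.finrank Λ B)) Λₚ Bₚ := Module.finBasisOfFinrankEq Λₚ Bₚ hrank
  -- clear denominators
  have hex : ∀ i, ∃ (x : B) (s₀ : Λ), s₀ ∈ 𝔭.primeCompl ∧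
      algebraMap Λ Λₚ s₀ • bas i = algebraMap B Bₚ x := by
    intro i
    obtain ⟨⟨b, s⟩, hbs⟩ :=
      IsLocalization.surj (Algebra.algebraMapSubmonoid B 𝔭.primeCompl) (bas i)
    obtain ⟨s₀, hs₀, hs₀'⟩ := s.2
    refine ⟨b, s₀, hs₀, ?_⟩
    rw [Algebra.smul_def, ← IsScalarTower.algebraMap_apply,
      IsScalarTower.algebraMap_apply Λ B Bₚ, hs₀', mul_comm]
    exact hbs
  choose x s₀ hs₀ hx using hex
  have hunit : ∀ i, IsUnit (algebraMap Λ Λₚ (s₀ i)) := fun i =>
    (IsLocalization.AtPrime.isUnit_to_map_iff Λₚ 𝔭 (s₀ i)).mpr (hs₀ i)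
  let bas' : Module.Basis (Fin (Module.finrank Λ B)) Λₚ Bₚ := bas.isUnitSMul hunit
  have hbas' : ∀ i, bas' i = algebraMap B Bₚ (x i) := fun i => by
    rw [Module.Basis.isUnitSMul_apply, hx]
  have hdiscr : IsUnit (Algebra.discr Λₚ bas') :=
    isUnit_discr_of_isSeparable_quotient bas' hmax hsepel
  refine ⟨x, fun hdvd => ?_⟩
  have hmap : algebraMap Λ Λₚ (Matrix.of fun i j => Algebra.intTrace Λ B (x i * x j)).det =
      Algebra.discr Λₚ bas' := by
    rw [Algebra.discr_def, RingHom.map_det]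
    congr 1
    ext i j
    simp only [RingHom.mapMatrix_apply, Matrix.map_apply, Matrix.of_apply,
      Algebra.traceMatrix_apply, Algebra.traceForm_apply, hbas']
    rw [Algebra.intTrace_eq_of_isLocalization Λ B 𝔭.primeCompl (Aₘ := Λₚ) (Bₘ := Bₚ),
      Algebra.intTrace_eq_trace, map_mul]
  rw [← hmap, IsLocalization.AtPrime.isUnit_to_map_iff Λₚ 𝔭] at hdiscr
  exact hdiscr (Ideal.mem_span_singleton.mpr hdvd)

/-- **HSEP**, in the exact shape of the hypothesis `hsep` of
`Fermat.Agent.S18.B12.B2RegularStatement` / `B2Statement` (origin/helper33). -/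
theorem hsep_poly (R : Type u) [CommRing R] [IsDomain R] [IsDiscreteValuationRing R]
    (w : R) (hw : Irreducible w)
    (B : Type v) [CommRing B] [IsDomain B] [IsIntegrallyClosed B] [Algebra R[X] B]
    [Module.Finite R[X] B] [Module.IsTorsionFree R[X] B]
    (hwB : Prime (algebraMap R[X] B (C w)))
    (hel : ∀ b : B, ∃ P : R[X][X], algebraMap R[X] B (C w) ∣ aeval b P ∧
          ¬ algebraMap R[X] B (C w) ∣ aeval b (derivative P)) :
    ∃ x : Fin (Module.finrank R[X] B) → B,
        ¬ C w ∣ (Matrix.of fun i j => Algebra.intTrace R[X] B (x i * x j)).det := by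
  have hwp : Prime (C w : R[X]) :=
    (Polynomial.prime_C_iff).mpr hw.prime
  exact hsep_gen R[X] (C w) hwp B hwB hel

end Fermat.Agent.S18.H425

end
end
-- ===== PACK-END S18/H425/Hsep.lean

-- ===== PACK-BEGIN S18/H394/KummerFinite.lean
section



/-!
# S18, Route K, pieces b3+b4 (helper394): finiteness of the Kummer chart

If `B` is contained in a finitely generated `R[x]`-submodule of `F` and `u` has a denominator in
`B`, then `kummerSub B` is finitely generated over `R[x]` (in the explicit form consumed by the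
two-chart connectedness theorem).
-/

set_option autoImplicit false

namespace Fermat.Agent.S18.H394

open Polynomial

section Finite

variable {R F C : Type*} [CommRing R] [IsNoetherianRing R] [Field F] [Algebra R F]
  [CommRing C] [Algebra F C] [Algebra R C] [IsScalarTower R F C]

omit [IsNoetherianRing R] [Algebra R C] [IsScalarTower R F C] [CommRing C] [Algebra F C] in
theorem pow_mul_mem_of_mem_degSet {m : ℕ} (hm0 : 0 < m) {u : F} (hu : u ≠ 0)
    {B : Subalgebra R F} (hB : RootClosed m B) {d : F} (hdB : d ∈ B) (hdu : d * u⁻¹ ∈ B)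
    {k : ℕ} {f : F} (hf : f ∈ degSet B m u k) : d ^ k * f ∈ B := by
  apply hB
  obtain ⟨m', rfl⟩ : ∃ m', m = m' + 1 := Nat.exists_eq_succ_of_ne_zero hm0.ne'
  have hf' : f ^ (m' + 1) * u ^ k ∈ B := hf
  have key : (d ^ k * f) ^ (m' + 1) = (d * u⁻¹) ^ k * (d ^ k) ^ m' * (f ^ (m' + 1) * u ^ k) := by
    have hu' : (u⁻¹) ^ k * u ^ k = 1 := by rw [← mul_pow, inv_mul_cancel₀ hu, one_pow]
    calc (d ^ k * f) ^ (m' + 1) = d ^ k * (d ^ k) ^ m' * f ^ (m' + 1) * 1 := by ring
      _ = d ^ k * (d ^ k) ^ m' * f ^ (m' + 1) * ((u⁻¹) ^ k * u ^ k) := by rw [hu']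
      _ = (d * u⁻¹) ^ k * (d ^ k) ^ m' * (f ^ (m' + 1) * u ^ k) := by ring
  rw [key]
  exact B.mul_mem (B.mul_mem (B.pow_mem hdu k) (B.pow_mem (B.pow_mem hdB k) m')) hf'

theorem kummerSub_fg (pb : PowerBasis F C) (u : F) (hu : u ≠ 0)
    (hT : pb.gen ^ pb.dim = algebraMap F C u) (hm0 : 0 < pb.dim)
    (B : Subalgebra R F) (hB : RootClosed pb.dim B)
    (x : F) (hx : x ∈ B)
    (hfin : ∃ s : Finset F, ∀ b ∈ B, ∃ P : F → Polynomial R,
      b = ∑ β ∈ s, Polynomial.aeval x (P β) * β)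
    (hden : ∃ d ∈ B, d ≠ 0 ∧ d * u⁻¹ ∈ B) :
    ∃ S : Finset C, (∀ c ∈ S, c ∈ kummerSub pb u hT hm0 B hB) ∧
      ∀ b ∈ kummerSub pb u hT hm0 B hB, ∃ P : C → Polynomial R,
        b = ∑ c ∈ S, Polynomial.aeval (algebraMap F C x) (P c) * c := by
  classical
  letI modF : Module R[X] F := Module.compHom F (aeval x : R[X] →ₐ[R] F).toRingHom
  letI modC : Module R[X] C :=
    Module.compHom C (aeval (algebraMap F C x) : R[X] →ₐ[R] C).toRingHom
  have smulF : ∀ (p : R[X]) (f : F), p • f = aeval x p * f := fun _ _ => rfl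
  have smulC : ∀ (p : R[X]) (c : C), p • c = aeval (algebraMap F C x) p * c := fun _ _ => rfl
  have haevalB : ∀ p : R[X], aeval x p ∈ B := fun p => by
    have : aeval x p ∈ Algebra.adjoin R {x} := Polynomial.aeval_mem_adjoin_singleton R x
    exact (Algebra.adjoin_le (Set.singleton_subset_iff.mpr hx)) this
  set K := kummerSub pb u hT hm0 B hB with hK
  have haevalC : ∀ p : R[X], aeval (algebraMap F C x) p = algebraMap F C (aeval x p) := fun p =>
    Polynomial.aeval_algebraMap_apply C x p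
  obtain ⟨s₀, hs₀⟩ := hfin
  obtain ⟨d, hdB, hd0, hdu⟩ := hden
  -- the ambient finitely generated module
  let N : Submodule R[X] F := Submodule.span R[X] (s₀ : Set F)
  have hNfg : N.FG := Submodule.fg_span (Finset.finite_toSet s₀)
  have hBN : ∀ b ∈ B, b ∈ N := by
    intro b hb
    obtain ⟨P, hP⟩ := hs₀ b hb
    rw [hP]
    refine N.sum_mem fun β hβ => ?_
    rw [← smulF]
    exact N.smul_mem (P β) (Submodule.subset_span hβ)
  -- the graded pieces as `R[X]`-submodules of `F`
  let I : ℕ → Submodule R[X] F := fun k =>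
    { carrier := degSet B pb.dim u k
      add_mem' := fun ha hb => add_mem_degSet hB ha hb
      zero_mem' := zero_mem_degSet hm0 k
      smul_mem' := fun p f hf => by
        show p • f ∈ degSet B pb.dim u k
        rw [smulF]
        exact smul_mem_degSet (haevalB p) hf }
  -- multiplication by a constant as an `R[X]`-linear map
  let mulL : F → (F →ₗ[R[X]] F) := fun a =>
    { toFun := fun f => a * f
      map_add' := fun f g => mul_add a f g
      map_smul' := fun p f => by
        show a * (p • f) = p • (a * f)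
        rw [smulF, smulF]; ring }
  have hIfg : ∀ k, (I k).FG := by
    intro k
    have hJle : (I k).map (mulL (d ^ k)) ≤ N := by
      rintro _ ⟨f, hf, rfl⟩
      exact hBN _ (pow_mul_mem_of_mem_degSet hm0 hu hB hdB hdu hf)
    have hJfg : ((I k).map (mulL (d ^ k))).FG := Submodule.FG.of_le hNfg hJle
    have hI : I k = ((I k).map (mulL (d ^ k))).map (mulL (d ^ k)⁻¹) := by
      rw [← Submodule.map_comp]
      have : (mulL (d ^ k)⁻¹).comp (mulL (d ^ k)) = LinearMap.id := by
        apply LinearMap.ext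
        intro f
        show (d ^ k)⁻¹ * (d ^ k * f) = f
        rw [← mul_assoc, inv_mul_cancel₀ (pow_ne_zero k hd0), one_mul]
      rw [this, Submodule.map_id]
    rw [hI]
    exact hJfg.map _
  -- the Kummer algebra as an `R[X]`-submodule of `C`
  let K' : Submodule R[X] C :=
    { carrier := K
      add_mem' := fun ha hb => K.add_mem ha hb
      zero_mem' := K.zero_mem
      smul_mem' := fun p c hc => by
        show p • c ∈ K
        rw [smulC, haevalC]
        exact K.mul_mem (algebraMap_mem_kummerSub hT hm0 hB (haevalB p)) hc }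
  let φ : ℕ → (F →ₗ[R[X]] C) := fun k =>
    { toFun := fun f => algebraMap F C f * pb.gen ^ k
      map_add' := fun f g => by rw [map_add, add_mul]
      map_smul' := fun p f => by
        show algebraMap F C (p • f) * pb.gen ^ k = p • (algebraMap F C f * pb.gen ^ k)
        rw [smulF, smulC, haevalC, map_mul, mul_assoc] }
  have hK' : K' = ⨆ k : Fin pb.dim, (I (k : ℕ)).map (φ (k : ℕ)) := by
    apply le_antisymm
    · intro c hc
      have hcK : c ∈ K := hc
      rw [← sum_co pb c]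
      refine Submodule.sum_mem _ fun k _ => ?_
      refine (le_iSup (fun k : Fin pb.dim => (I (k : ℕ)).map (φ (k : ℕ))) k) ?_
      exact ⟨co pb k c, hcK k, rfl⟩
    · refine iSup_le fun k => ?_
      rintro _ ⟨f, hf, rfl⟩
      exact monomial_mem_kummerSub hT hm0 hB hf
  have hK'fg : K'.FG := by
    rw [hK']
    exact Submodule.fg_iSup _ fun k => (hIfg k).map _
  obtain ⟨S, hS⟩ := hK'fg
  refine ⟨S, fun c hc => ?_, fun b hb => ?_⟩
  · have : c ∈ K' := hS ▸ Submodule.subset_span hc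
    exact this
  · have hb' : b ∈ Submodule.span R[X] (S : Set C) := by rw [hS]; exact hb
    obtain ⟨f, -, hf⟩ := Submodule.mem_span_finset.mp hb'
    exact ⟨f, hf.symm⟩

end Finite

end Fermat.Agent.S18.H394

end
-- ===== PACK-END S18/H394/KummerFinite.lean

-- ===== PACK-BEGIN S18/H425/GoodModelInv.lean
section


/-!
# S18 / ALG (helper425): `GoodModel` is symmetric under `x ↦ x⁻¹`

* `mem_polyRing_iff` : `c ∈ polyRing R x ↔ ∃ Q : R[X], aeval x Q = c`.
* `goodModel_x_inv_mem_V` : `x⁻¹ ∈ V` (so `x` is a unit of `V`, with the field `x_mem_V`).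
* `not_isIntegral_mul_inv` : `z / w` is not integral over `R[z]` (`z` transcendental, `w` a non-unit).
* `goodModel_inv` : `GoodModel Lc Ec Fc R V w x S →
    GoodModel Lc Ec Fc R V w x⁻¹ (insert 0 ((S.erase 0).image (·⁻¹)))`.
* `goodFamily_inv` : the same for `GoodFamily` (same family `𝓕`).

So the chart at infinity needs no separate treatment: apply any chart theorem to `x⁻¹`.
Imports only the frozen interface `Alg/Spec.lean`.
-/

set_option autoImplicit false

noncomputable section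

namespace Fermat.Agent.S18.H425

open Polynomial Fermat.Agent.S18.Alg

variable {Ω : Type*} [Field Ω]

/-- `R[x]` consists of the values at `x` of the polynomials with coefficients in `R`. -/
theorem mem_polyRing_iff {R : Subring Ω} {x c : Ω} :
    c ∈ polyRing R x ↔ ∃ Q : Polynomial R, aeval x Q = c := by
  have h : polyRing R x = (Algebra.adjoin R {x}).toSubring := by
    rw [Algebra.adjoin_eq_ring_closure]
    unfold polyRing
    congr 1
    have hr : Set.range (algebraMap R Ω) = (R : Set Ω) := by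
      ext y
      constructor
      · rintro ⟨a, rfl⟩
        exact a.2
      · intro hy
        exact ⟨⟨y, hy⟩, rfl⟩
    rw [hr]
  rw [h, Subalgebra.mem_toSubring, Algebra.adjoin_singleton_eq_range_aeval]
  rfl

theorem mem_polyRing_of_mem {R : Subring Ω} (x : Ω) {r : Ω} (hr : r ∈ R) : r ∈ polyRing R x :=
  Subring.subset_closure (Or.inl hr)

theorem self_mem_polyRing (R : Subring Ω) (x : Ω) : x ∈ polyRing R x :=
  Subring.subset_closure (Or.inr rfl)

/-- `x⁻¹ ^ N * Q(x) = (reflect N Q)(x⁻¹)` for `natDegree Q ≤ N`. -/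
theorem aeval_inv_reflect {R : Subring Ω} {x : Ω} (hx : x ≠ 0) (N : ℕ) (Q : Polynomial R)
    (hQ : Q.natDegree ≤ N) : aeval x⁻¹ (reflect N Q) = aeval x Q * (x⁻¹) ^ N := by
  let _ : Invertible x := invertibleOfNonzero hx
  have h := eval₂_reflect_mul_pow (algebraMap R Ω) x N Q hQ
  rw [invOf_eq_inv] at h
  rw [aeval_def, aeval_def, ← h, mul_assoc, ← mul_pow, mul_inv_cancel₀ hx, one_pow, mul_one]

/-- A polynomial relation over a subring `R ≤ Lc` is a polynomial relation over `Lc`. -/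
theorem transcendental_subring {R : Subring Ω} {Lc : Subfield Ω} (hRL : ∀ r ∈ R, r ∈ Lc)
    {z : Ω} (hz : Transcendental Lc z) : Transcendental R z := by
  rw [transcendental_iff]
  intro Q hQ
  let ι : R →+* Lc :=
    { toFun := fun r => ⟨r.1, hRL r.1 r.2⟩
      map_one' := rfl
      map_mul' := fun _ _ => rfl
      map_zero' := rfl
      map_add' := fun _ _ => rfl }
  have hι : Function.Injective ι := fun a b hab =>
    Subtype.ext (congrArg (fun y : Lc => (y : Ω)) hab)
  have hcomp : (algebraMap Lc Ω).comp ι = algebraMap R Ω := rfl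
  have h0 : aeval z (Q.map ι) = 0 := by
    rw [aeval_def, eval₂_map, hcomp, ← aeval_def, hQ]
  have := (transcendental_iff.mp hz) (Q.map ι) h0
  exact (Polynomial.map_eq_zero_iff hι).mp this

/-- If `z` is transcendental over `R` and `w ∈ R` is a nonzero non-unit of `R`, then `z / w` is
not integral over `R[z]`. -/
theorem not_isIntegral_mul_inv {R : Subring Ω} {z w : Ω} (hz : Transcendental R z)
    (hw : w ∈ R) (hw0 : w ≠ 0) (hwinv : w⁻¹ ∉ R) :
    ¬ IsIntegral (polyRing R z) (z * w⁻¹) := by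
  rintro ⟨p, hp, hp0⟩
  set n := p.natDegree with hn
  have hcoeff : ∀ i, ∃ Q : Polynomial R, aeval z Q = ((p.coeff i : polyRing R z) : Ω) :=
    fun i => mem_polyRing_iff.mp (p.coeff i).2
  choose Q hQ using hcoeff
  let ω : R := ⟨w, hw⟩
  let H : Polynomial R := ∑ i ∈ Finset.range n, Q i * C ω ^ (n - 1 - i) * X ^ i
  have hsum : (z * w⁻¹) ^ n +
      ∑ i ∈ Finset.range n, ((p.coeff i : polyRing R z) : Ω) * (z * w⁻¹) ^ i = 0 := by
    rw [eval₂_eq_sum_range, Finset.sum_range_succ, ← hn] at hp0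
    have hlead : p.coeff n = 1 := hp
    rw [hlead, map_one, one_mul, add_comm] at hp0
    exact hp0
  have hG : aeval z (X ^ n + C ω * H) = 0 := by
    have hω : algebraMap R Ω ω = w := rfl
    rw [map_add, map_mul, map_pow, aeval_X, aeval_C, hω, map_sum]
    have : w ^ n * ((z * w⁻¹) ^ n +
        ∑ i ∈ Finset.range n, ((p.coeff i : polyRing R z) : Ω) * (z * w⁻¹) ^ i) = 0 := by
      rw [hsum, mul_zero]
    rw [← this, mul_add, Finset.mul_sum, Finset.mul_sum]
    congr 1
    · rw [mul_pow, mul_comm (z ^ n), ← mul_assoc, ← mul_pow, mul_inv_cancel₀ hw0, one_pow,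
        one_mul]
    · apply Finset.sum_congr rfl
      intro i hi
      have hi' : i < n := Finset.mem_range.mp hi
      rw [map_mul, map_mul, map_pow, map_pow, aeval_X, aeval_C, hω, hQ]
      have hwn : w ^ n = w * w ^ (n - 1 - i) * w ^ i := by
        rw [← pow_succ', ← pow_add]
        congr 1
        omega
      rw [hwn, mul_pow]
      have hwi : w ^ i * (w⁻¹) ^ i = 1 := by
        rw [← mul_pow, mul_inv_cancel₀ hw0, one_pow]
      calc w * (((p.coeff i : polyRing R z) : Ω) * w ^ (n - 1 - i) * z ^ i)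
          = w * w ^ (n - 1 - i) * (((p.coeff i : polyRing R z) : Ω) * z ^ i) * 1 := by ring
        _ = w * w ^ (n - 1 - i) * (((p.coeff i : polyRing R z) : Ω) * z ^ i) *
              (w ^ i * (w⁻¹) ^ i) := by rw [hwi]
        _ = w * w ^ (n - 1 - i) * w ^ i *
              (((p.coeff i : polyRing R z) : Ω) * (z ^ i * w⁻¹ ^ i)) := by ring
  have hG0 := (transcendental_iff.mp hz) _ hG
  have hc := congrArg (fun P => P.coeff n) hG0
  simp only [coeff_add, coeff_X_pow, if_true, coeff_C_mul, coeff_zero] at hc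
  apply hwinv
  have h1 : w * (-(H.coeff n : R) : R) = 1 := by
    have h2 : (1 : R) + ω * H.coeff n = 0 := hc
    have h3 := congrArg (fun r : R => (r : Ω)) h2
    simp only [Subring.coe_add, Subring.coe_one, Subring.coe_mul, Subring.coe_zero] at h3
    have hω : (ω : Ω) = w := rfl
    rw [hω] at h3
    rw [Subring.coe_neg, mul_neg]
    linear_combination -h3
  have h4 : w⁻¹ = ((-(H.coeff n : R) : R) : Ω) := by
    exact inv_eq_of_mul_eq_one_right h1
  rw [h4]
  exact (-(H.coeff n)).2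

/-- `P(x⁻¹) = (reflect N P)(x) * x⁻¹ ^ N` for a polynomial over `Ω`, `natDegree P ≤ N`. -/
theorem eval_inv_eq_reflect {x : Ω} (hx : x ≠ 0) (N : ℕ) (P : Polynomial Ω)
    (hP : P.natDegree ≤ N) : P.eval x⁻¹ = (reflect N P).eval x * (x⁻¹) ^ N := by
  let _ : Invertible x⁻¹ := invertibleOfNonzero (inv_ne_zero hx)
  have h := eval₂_reflect_mul_pow (RingHom.id Ω) x⁻¹ N P hP
  rw [invOf_eq_inv, inv_inv] at h
  rw [eval, eval, h]

/-- For a valuation subring: `a⁻¹ ∉ O` iff `a ≠ 0` and `v a < 1`. -/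
theorem inv_not_mem_iff (O : ValuationSubring Ω) {a : Ω} :
    a⁻¹ ∉ O ↔ a ≠ 0 ∧ O.valuation a < 1 := by
  constructor
  · intro h
    have ha : a ≠ 0 := by
      rintro rfl
      exact h (by simp)
    refine ⟨ha, ?_⟩
    by_contra hlt
    apply h
    rw [← ValuationSubring.valuation_le_one_iff, map_inv₀]
    exact inv_le_one_of_one_le₀ (not_lt.mp hlt)
  · rintro ⟨ha, hlt⟩ hmem
    rw [← ValuationSubring.valuation_le_one_iff, map_inv₀] at hmem
    have hv0 : O.valuation a ≠ 0 := (Valuation.ne_zero_iff _).mpr ha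
    have : 1 ≤ O.valuation a := by
      have := (inv_le_one₀ (zero_lt_iff.mpr hv0)).mp hmem
      exact this
    exact absurd hlt (not_lt.mpr this)

section GoodModel

variable {Lc Ec Fc : Subfield Ω} {R V : Subring Ω} {w x : Ω} {S : Finset Ω}

theorem goodModel_x_ne_zero (h : GoodModel Lc Ec Fc R V w x S) : x ≠ 0 := by
  rintro rfl
  exact h.x_transcendental isAlgebraic_zero

theorem goodModel_R_le_Lc (h : GoodModel Lc Ec Fc R V w x S) : ∀ r ∈ R, r ∈ Lc :=
  fun _ hr => h.E_le_L (h.R_le hr)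

theorem goodModel_transcendental_inv (h : GoodModel Lc Ec Fc R V w x S) :
    Transcendental Lc x⁻¹ := by
  intro hx
  apply h.x_transcendental
  have := hx.inv
  rwa [inv_inv] at this

/-- `x⁻¹ ∈ V`. -/
theorem goodModel_x_inv_mem_V (h : GoodModel Lc Ec Fc R V w x S) : x⁻¹ ∈ V := by
  have := h.gauss X (fun i => by
    rw [coeff_X]
    split_ifs
    · exact R.one_mem
    · exact R.zero_mem) ⟨1, by simp, by simp⟩
  simpa using this

theorem ratField_inv (Ec : Subfield Ω) (x : Ω) : ratField Ec x⁻¹ = ratField Ec x := by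
  unfold ratField
  apply le_antisymm
  · rw [Subfield.closure_le]
    rintro y (hy | hy)
    · exact Subfield.subset_closure (Or.inl hy)
    · rw [Set.mem_singleton_iff] at hy
      rw [hy]
      exact Subfield.inv_mem _ (Subfield.subset_closure (Or.inr rfl))
  · rw [Subfield.closure_le]
    rintro y (hy | hy)
    · exact Subfield.subset_closure (Or.inl hy)
    · rw [Set.mem_singleton_iff] at hy
      rw [hy]
      have : x⁻¹ ∈ Subfield.closure ((Ec : Set Ω) ∪ {x⁻¹}) :=
        Subfield.subset_closure (Or.inr rfl)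
      have := Subfield.inv_mem _ this
      rwa [inv_inv] at this

/-- `gauss` for `x⁻¹`. -/
theorem goodModel_gauss_inv (h : GoodModel Lc Ec Fc R V w x S) (P : Polynomial Ω)
    (hP : ∀ i, P.coeff i ∈ R) (hu : ∃ i, P.coeff i ≠ 0 ∧ (P.coeff i)⁻¹ ∈ R) :
    (P.eval x⁻¹)⁻¹ ∈ V := by
  have hx := goodModel_x_ne_zero h
  rw [eval_inv_eq_reflect hx P.natDegree P le_rfl, mul_inv, ← inv_pow, inv_inv]
  refine V.mul_mem (h.gauss _ (fun i => ?_) ?_) (V.pow_mem h.x_mem_V _)
  · rw [coeff_reflect]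
    exact hP _
  · obtain ⟨i, hi0, hi⟩ := hu
    refine ⟨revAt P.natDegree i, ?_, ?_⟩
    · rw [coeff_reflect, revAt_invol]
      exact hi0
    · rw [coeff_reflect, revAt_invol]
      exact hi

/-- `separable` for `x⁻¹`. -/
theorem goodModel_separable_inv (h : GoodModel Lc Ec Fc R V w x S) (f : Ω) (hf : f ∈ V) :
    ∃ P : Polynomial Ω, (∀ i, P.coeff i ∈ polyRing R x⁻¹) ∧
      P.eval f * w⁻¹ ∈ V ∧ (Polynomial.derivative P).eval f ≠ 0 ∧
      ((Polynomial.derivative P).eval f)⁻¹ ∈ V := by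
  have hx := goodModel_x_ne_zero h
  obtain ⟨P, hPc, hP0, hP1, hP2⟩ := h.separable f hf
  have hex : ∀ i, ∃ Q : Polynomial R, aeval x Q = P.coeff i := fun i => mem_polyRing_iff.mp (hPc i)
  choose Q hQ using hex
  let D : ℕ := P.support.sup fun i => (Q i).natDegree
  refine ⟨C ((x⁻¹) ^ D) * P, fun i => ?_, ?_, ?_, ?_⟩
  · rw [coeff_C_mul]
    by_cases hi : i ∈ P.support
    · have hdeg : (Q i).natDegree ≤ D := Finset.le_sup (f := fun i => (Q i).natDegree) hi
      rw [mem_polyRing_iff]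
      exact ⟨reflect D (Q i), by rw [aeval_inv_reflect hx D (Q i) hdeg, hQ, mul_comm]⟩
    · rw [notMem_support_iff.mp hi, mul_zero]
      exact Subring.zero_mem _
  · rw [eval_mul, eval_C, mul_assoc]
    exact V.mul_mem (V.pow_mem (goodModel_x_inv_mem_V h) _) hP0
  · rw [derivative_C_mul, eval_mul, eval_C]
    exact mul_ne_zero (pow_ne_zero _ (inv_ne_zero hx)) hP1
  · rw [derivative_C_mul, eval_mul, eval_C, mul_inv, ← inv_pow, inv_inv]
    exact V.mul_mem (V.pow_mem h.x_mem_V _) hP2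

/-- `unramified` for `x⁻¹`. -/
theorem goodModel_unramified_inv [DecidableEq Ω] (h : GoodModel Lc Ec Fc R V w x S)
    (O : ValuationSubring Ω) (hL : ∀ a ∈ Lc, a ∈ O) (c : Ω) (hc : c ∈ Lc)
    (hcS : c ∉ insert 0 ((S.erase 0).image (·⁻¹)))
    (h1 : x⁻¹ - c ∈ O) (h2 : (x⁻¹ - c)⁻¹ ∉ O) (t : Ω) (ht : t ∈ O) (ht' : t⁻¹ ∉ O) :
    t * (x⁻¹ - c)⁻¹ ∈ O := by
  have hx := goodModel_x_ne_zero h
  have hc0 : c ≠ 0 := by
    rintro rfl
    exact hcS (Finset.mem_insert_self _ _)
  have hcinvS : c⁻¹ ∉ S := by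
    intro hmem
    apply hcS
    apply Finset.mem_insert_of_mem
    rw [Finset.mem_image]
    exact ⟨c⁻¹, Finset.mem_erase.mpr ⟨inv_ne_zero hc0, hmem⟩, inv_inv c⟩
  have hcO : c ∈ O := hL c hc
  have hcinvO : c⁻¹ ∈ O := hL _ (Lc.inv_mem hc)
  obtain ⟨hne, hlt⟩ := (inv_not_mem_iff O).mp h2
  have hvc : O.valuation c = 1 := by
    apply le_antisymm ((ValuationSubring.valuation_le_one_iff O c).mpr hcO)
    have := (ValuationSubring.valuation_le_one_iff O c⁻¹).mpr hcinvO
    rw [map_inv₀] at this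
    exact (inv_le_one₀ (zero_lt_iff.mpr ((Valuation.ne_zero_iff _).mpr hc0))).mp this
  have hvxinv : O.valuation x⁻¹ = 1 := by
    have : x⁻¹ = (x⁻¹ - c) + c := by ring
    rw [this, Valuation.map_add_eq_of_lt_right _ (by rw [hvc]; exact hlt), hvc]
  have hvx : O.valuation x = 1 := by
    rw [map_inv₀] at hvxinv
    exact inv_eq_one.mp hvxinv
  have hxO : x ∈ O := (ValuationSubring.valuation_le_one_iff O x).mp hvx.le
  have hid : x - c⁻¹ = -(c⁻¹ * x * (x⁻¹ - c)) := by
    field_simp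
    ring
  have h1' : x - c⁻¹ ∈ O := by
    rw [hid]
    exact O.neg_mem _ (O.mul_mem _ _ (O.mul_mem _ _ hcinvO hxO) h1)
  have h2' : (x - c⁻¹)⁻¹ ∉ O := by
    rw [inv_not_mem_iff]
    refine ⟨?_, ?_⟩
    · rw [hid]
      exact neg_ne_zero.mpr (mul_ne_zero (mul_ne_zero (inv_ne_zero hc0) hx) hne)
    · rw [hid, Valuation.map_neg, map_mul, map_mul, map_inv₀, hvc, hvx, inv_one, one_mul, one_mul]
      exact hlt
  have key := h.unramified O hL c⁻¹ (Lc.inv_mem hc) hcinvS h1' h2' t ht ht'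
  have hid2 : t * (x⁻¹ - c)⁻¹ = -(t * (x - c⁻¹)⁻¹ * (c⁻¹ * x)) := by
    have hne' : x - c⁻¹ ≠ 0 := by
      rw [hid]
      exact neg_ne_zero.mpr (mul_ne_zero (mul_ne_zero (inv_ne_zero hc0) hx) hne)
    rw [hid]
    field_simp
  rw [hid2]
  exact O.neg_mem _ (O.mul_mem _ _ key (O.mul_mem _ _ hcinvO hxO))

/-- **`GoodModel` is symmetric under `x ↦ x⁻¹`**, with branch set
`S' = {0} ∪ {s⁻¹ : s ∈ S, s ≠ 0}`. -/
theorem goodModel_inv [DecidableEq Ω] (h : GoodModel Lc Ec Fc R V w x S) :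
    GoodModel Lc Ec Fc R V w x⁻¹ (insert 0 ((S.erase 0).image (·⁻¹))) where
  charZero := h.charZero
  R_le := h.R_le
  R_total := h.R_total
  w_mem := h.w_mem
  w_ne_zero := h.w_ne_zero
  w_inv_not_mem := h.w_inv_not_mem
  w_gen := h.w_gen
  w_discrete := h.w_discrete
  residue_perfect := h.residue_perfect
  E_le_L := h.E_le_L
  E_le_F := h.E_le_F
  L_algebraic := h.L_algebraic
  L_algClosed := h.L_algClosed
  E_closed_in_F := h.E_closed_in_F
  compositum := h.compositum
  x_mem := Fc.inv_mem h.x_mem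
  x_transcendental := goodModel_transcendental_inv h
  finite := by
    rw [ratField_inv]
    exact h.finite
  V_le := h.V_le
  V_total := h.V_total
  R_le_V := h.R_le_V
  w_inv_not_mem_V := h.w_inv_not_mem_V
  V_gen := h.V_gen
  x_mem_V := goodModel_x_inv_mem_V h
  gauss := goodModel_gauss_inv h
  qep_fin := h.qep_inf
  qep_inf := by
    rw [inv_inv]
    exact h.qep_fin
  separable := goodModel_separable_inv h
  S_mem := by
    intro s hs
    rcases Finset.mem_insert.mp hs with rfl | hs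
    · exact R.zero_mem
    · obtain ⟨s', hs', rfl⟩ := Finset.mem_image.mp hs
      obtain ⟨hs0, hsS⟩ := Finset.mem_erase.mp hs'
      exact h.S_unit s' hsS hs0
  S_distinct := by
    intro a ha b hb hab
    rcases Finset.mem_insert.mp ha with rfl | ha
    · rcases Finset.mem_insert.mp hb with rfl | hb
      · exact absurd rfl hab
      · obtain ⟨s', hs', rfl⟩ := Finset.mem_image.mp hb
        obtain ⟨hs0, hsS⟩ := Finset.mem_erase.mp hs'
        have : (0 - s'⁻¹)⁻¹ = -s' := by
          rw [zero_sub, inv_neg, inv_inv]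
        rw [this]
        exact R.neg_mem (h.S_mem s' hsS)
    · obtain ⟨s', hs', rfl⟩ := Finset.mem_image.mp ha
      obtain ⟨hs0, hsS⟩ := Finset.mem_erase.mp hs'
      rcases Finset.mem_insert.mp hb with rfl | hb
      · have : (s'⁻¹ - 0)⁻¹ = s' := by
          rw [sub_zero, inv_inv]
        rw [this]
        exact h.S_mem s' hsS
      · obtain ⟨t', ht', rfl⟩ := Finset.mem_image.mp hb
        obtain ⟨ht0, htS⟩ := Finset.mem_erase.mp ht'
        have hst : s' ≠ t' := by
          rintro rfl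
          exact hab rfl
        have hts : t' - s' ≠ 0 := sub_ne_zero.mpr (Ne.symm hst)
        have : (s'⁻¹ - t'⁻¹)⁻¹ = s' * t' * (t' - s')⁻¹ := by
          field_simp
        rw [this]
        exact R.mul_mem (R.mul_mem (h.S_mem s' hsS) (h.S_mem t' htS))
          (h.S_distinct t' htS s' hsS (Ne.symm hst))
  S_unit := by
    intro s hs hs0
    rcases Finset.mem_insert.mp hs with rfl | hs
    · exact absurd rfl hs0
    · obtain ⟨s', hs', rfl⟩ := Finset.mem_image.mp hs
      obtain ⟨_, hsS⟩ := Finset.mem_erase.mp hs'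
      rw [inv_inv]
      exact h.S_mem s' hsS
  unramified := goodModel_unramified_inv h

/-- A good family for `x` is a good family for `x⁻¹`. -/
theorem goodFamily_inv [DecidableEq Ω] {𝓕 : Set (Model Ω)} (h : GoodFamily Lc x S 𝓕) :
    GoodFamily Lc x⁻¹ (insert 0 ((S.erase 0).image (·⁻¹))) 𝓕 where
  good := fun p hp => goodModel_inv (h.good p hp)
  enlarge := h.enlarge

end GoodModel

end Fermat.Agent.S18.H425

end
end
-- ===== PACK-END S18/H425/GoodModelInv.lean

-- ===== PACK-BEGIN A2/H48/TwoExt.lean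
section


/-!
# A2 / piece QEP2, part 2 (helper48): no third extension

Mathlib-only.  `K` a field with a rank-one valuation ring `O` with uniformiser `ϖ`; `F / K` a finite
extension of degree `n`; `V₁ ≠ V₂` valuation rings of `F` lying over `O`, both with uniformiser
`ϖ` (`e = 1`); families `b` in `V₁`, `c` in `V₂` whose residues are linearly independent over the
residue field of `O`, with `f₁ + f₂ = n` members altogether.  Then

* `TwoExt.exists_basis` : `V₁ ∩ V₂` is a free `O`-module on `n` generators which form a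
  `K`-basis of `F`;
* `TwoExt.exists_monic_of_mem` : every `u ∈ V₁ ∩ V₂` is integral over `O`
  (so `V₁`, `V₂` are the only extensions of `O`: the fundamental inequality is an equality).
-/

set_option autoImplicit false

namespace Fermat.Agent.A2.H48

open Polynomial

section Closed

variable {F : Type*} [Field F]

/-- A valuation ring is integrally closed (elementwise form, for polynomials over the field). -/
theorem mem_of_monic_root (V : ValuationSubring F) {p : F[X]} (hp : p.Monic)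
    (hc : ∀ i, p.coeff i ∈ V) {g : F} (hg : p.eval g = 0) : g ∈ V := by
  by_contra hgV
  have hv : 1 < V.valuation g := by
    rw [← not_le, V.valuation_le_one_iff]; exact hgV
  have hg0 : g ≠ 0 := by rintro rfl; exact hgV (zero_mem _)
  have hvpos : 0 < V.valuation g := lt_trans zero_lt_one hv
  set d := p.natDegree with hd
  have hsum : p.eval g = g ^ d + ∑ i ∈ Finset.range d, p.coeff i * g ^ i := by
    rw [eval_eq_sum_range, Finset.sum_range_succ, ← hd, hp.coeff_natDegree, one_mul, add_comm]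
  rw [hsum] at hg
  have h1 : g ^ d = -∑ i ∈ Finset.range d, p.coeff i * g ^ i := eq_neg_of_add_eq_zero_left hg
  have h2 : V.valuation (∑ i ∈ Finset.range d, p.coeff i * g ^ i) < V.valuation g ^ d := by
    apply Valuation.map_sum_lt
    · exact pow_ne_zero _ hvpos.ne'
    · intro i hi
      rw [Finset.mem_range] at hi
      rw [map_mul, map_pow]
      calc V.valuation (p.coeff i) * V.valuation g ^ i ≤ 1 * V.valuation g ^ i :=
            mul_le_mul_left ((V.valuation_le_one_iff _).2 (hc i)) _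
        _ = V.valuation g ^ i := one_mul _
        _ < V.valuation g ^ d := pow_lt_pow_right₀ hv hi
  have h3 : V.valuation (g ^ d) = V.valuation g ^ d := map_pow _ _ _
  rw [h1, Valuation.map_neg] at h3
  exact absurd h3 h2.ne

end Closed

section Arch

variable {K F : Type*} [Field K] [Field F] [Algebra K F]

/-- A rank-one condition on `O` propagates to every valuation ring of an algebraic extension
which contains `O`. -/
theorem exists_pow_mul_mem {O : ValuationSubring K} {ϖ : K} (hϖ : ϖ ∈ O)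
    (harch : ∀ a : K, ∃ k : ℕ, ϖ ^ k * a ∈ O)
    (V : ValuationSubring F) (hOV : ∀ a ∈ O, algebraMap K F a ∈ V)
    {f : F} (hf : IsIntegral K f) : ∃ k : ℕ, (algebraMap K F ϖ) ^ k * f ∈ V := by
  classical
  set μ := minpoly K f with hμ
  have hmonic : μ.Monic := minpoly.monic hf
  choose kk hkk using fun i : ℕ => harch (μ.coeff i)
  set k := (∑ i ∈ Finset.range (μ.natDegree + 1), kk i) + 1 with hk
  have hk1 : ∀ i ∈ Finset.range (μ.natDegree + 1), ϖ ^ k * μ.coeff i ∈ O := by
    intro i hi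
    have hle : kk i ≤ k := by
      have := Finset.single_le_sum (f := kk) (fun j _ => Nat.zero_le _) hi
      omega
    obtain ⟨r, hr⟩ := Nat.exists_eq_add_of_le hle
    rw [hr, pow_add, mul_comm (ϖ ^ kk i), mul_assoc]
    exact mul_mem (pow_mem hϖ _) (hkk i)
  refine ⟨k, ?_⟩
  set p := μ.scaleRoots (ϖ ^ k) with hp
  have hpm : p.Monic := (monic_scaleRoots_iff _).2 hmonic
  have hroot : aeval (algebraMap K F (ϖ ^ k) * f) p = 0 :=
    scaleRoots_aeval_eq_zero (minpoly.aeval K f)
  have hcoef : ∀ i, p.coeff i ∈ O := by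
    intro i
    rw [hp, coeff_scaleRoots]
    rcases lt_trichotomy i μ.natDegree with h | h | h
    · obtain ⟨r, hr⟩ := Nat.exists_eq_add_of_lt (Nat.sub_pos_of_lt h)
      have h1 : μ.natDegree - i = r + 1 := by omega
      rw [h1, pow_succ, ← mul_assoc]
      have h2 : ϖ ^ k * μ.coeff i ∈ O := hk1 i (Finset.mem_range.2 (by omega))
      have h3 : μ.coeff i * (ϖ ^ k) ^ r * ϖ ^ k = (ϖ ^ k * μ.coeff i) * (ϖ ^ k) ^ r := by ring
      rw [h3]
      exact mul_mem h2 (pow_mem (pow_mem hϖ _) _)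
    · rw [h, hmonic.coeff_natDegree, Nat.sub_self, pow_zero, mul_one]
      exact one_mem _
    · rw [coeff_eq_zero_of_natDegree_lt h, zero_mul]
      exact zero_mem _
  have hq : (p.map (algebraMap K F)).eval (algebraMap K F (ϖ ^ k) * f) = 0 := by
    rw [eval_map, ← aeval_def]; exact hroot
  have := mem_of_monic_root V (hpm.map (algebraMap K F))
    (fun i => by rw [coeff_map]; exact hOV _ (hcoef i)) hq
  rwa [map_pow] at this

end Arch

section Scale

variable {K : Type*} [Field K]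

/-- Scaling a finite family by its entry of largest valuation. -/
theorem exists_scale_family {ι : Type*} [Fintype ι] (O : ValuationSubring K) (g : ι → K)
    (l : ι) :
    ∃ l₀, O.valuation (g l) ≤ O.valuation (g l₀) ∧
      ∀ l', O.valuation (g l') ≤ O.valuation (g l₀) := by
  obtain ⟨l₀, -, h⟩ := Finset.exists_max_image Finset.univ (fun l => O.valuation (g l))
    ⟨l, Finset.mem_univ l⟩
  exact ⟨l₀, h l (Finset.mem_univ l), fun l' => h l' (Finset.mem_univ l')⟩

theorem mul_inv_mem_of_val_le (O : ValuationSubring K) {x y : K} (hy : y ≠ 0)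
    (h : O.valuation x ≤ O.valuation y) : x * y⁻¹ ∈ O := by
  rw [← O.valuation_le_one_iff, map_mul, map_inv₀,
    mul_inv_le_iff₀ (zero_lt_iff.2 ((Valuation.ne_zero_iff _).2 hy)), one_mul]
  exact h

end Scale

section Main

variable {K F : Type*} [Field K] [Field F] [Algebra K F]

/-- The hypotheses of the "no third extension" theorem. -/
structure TwoExt (O : ValuationSubring K) (V₁ V₂ : ValuationSubring F) (ϖ : K)
    {f₁ f₂ : ℕ} (b : Fin f₁ → F) (c : Fin f₂ → F) : Prop where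
  unifO : IsUnif O ϖ
  unif₁ : IsUnif V₁ (algebraMap K F ϖ)
  unif₂ : IsUnif V₂ (algebraMap K F ϖ)
  le₁ : ∀ a ∈ O, algebraMap K F a ∈ V₁
  le₂ : ∀ a ∈ O, algebraMap K F a ∈ V₂
  ne : V₁ ≠ V₂
  arch : ∀ a : K, ∃ k : ℕ, ϖ ^ k * a ∈ O
  b_mem : ∀ i, b i ∈ V₁
  c_mem : ∀ j, c j ∈ V₂
  b_indep : ∀ a : Fin f₁ → K, (∀ i, a i ∈ O) →
    (∑ i, algebraMap K F (a i) * b i) * (algebraMap K F ϖ)⁻¹ ∈ V₁ → ∀ i, a i * ϖ⁻¹ ∈ O
  c_indep : ∀ a : Fin f₂ → K, (∀ j, a j ∈ O) →
    (∑ j, algebraMap K F (a j) * c j) * (algebraMap K F ϖ)⁻¹ ∈ V₂ → ∀ j, a j * ϖ⁻¹ ∈ O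
  card : f₁ + f₂ = Module.finrank K F

namespace TwoExt

variable {O : ValuationSubring K} {V₁ V₂ : ValuationSubring F} {ϖ : K}
  {f₁ f₂ : ℕ} {b : Fin f₁ → F} {c : Fin f₂ → F}

/-- A good generating family: `m` lies in `V₁ ∩ V₂` and a combination with coefficients in `O`
which is divisible by `ϖ` in both `V₁` and `V₂` has all its coefficients divisible by `ϖ`. -/
def IsGood (O : ValuationSubring K) (V₁ V₂ : ValuationSubring F) (ϖ : K)
    {ι : Type*} [Fintype ι] (m : ι → F) : Prop :=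
  (∀ l, m l ∈ V₁) ∧ (∀ l, m l ∈ V₂) ∧
    ∀ a : ι → K, (∀ l, a l ∈ O) →
      (∑ l, algebraMap K F (a l) * m l) * (algebraMap K F ϖ)⁻¹ ∈ V₁ →
      (∑ l, algebraMap K F (a l) * m l) * (algebraMap K F ϖ)⁻¹ ∈ V₂ → ∀ l, a l * ϖ⁻¹ ∈ O

theorem exists_good [FiniteDimensional K F] (h : TwoExt O V₁ V₂ ϖ b c) :
    ∃ m : Fin f₁ ⊕ Fin f₂ → F, IsGood O V₁ V₂ ϖ m := by
  classical
  set π := algebraMap K F ϖ with hπ
  have hπ0 : π ≠ 0 := h.unif₁.ne_zero
  have hA₁ : ∀ i, ∃ g : F, g ∈ V₁ ∧ (g - b i) * π⁻¹ ∈ V₁ ∧ g * π⁻¹ ∈ V₂ := fun i => by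
    obtain ⟨k, hk⟩ := exists_pow_mul_mem h.unifO.mem h.arch V₂ h.le₂
      (Algebra.IsIntegral.isIntegral (R := K) (b i))
    exact exists_approx h.unif₁ h.unif₂ h.ne (h.b_mem i) hk
  have hA₂ : ∀ j, ∃ g : F, g ∈ V₂ ∧ (g - c j) * π⁻¹ ∈ V₂ ∧ g * π⁻¹ ∈ V₁ := fun j => by
    obtain ⟨k, hk⟩ := exists_pow_mul_mem h.unifO.mem h.arch V₁ h.le₁
      (Algebra.IsIntegral.isIntegral (R := K) (c j))
    exact exists_approx h.unif₂ h.unif₁ (Ne.symm h.ne) (h.c_mem j) hk
  choose g hg1 hg2 hg3 using hA₁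
  choose g' hg'1 hg'2 hg'3 using hA₂
  have hgV₂ : ∀ i, g i ∈ V₂ := fun i => by
    have : g i = g i * π⁻¹ * π := by field_simp
    rw [this]; exact mul_mem (hg3 i) h.unif₂.mem
  have hg'V₁ : ∀ j, g' j ∈ V₁ := fun j => by
    have : g' j = g' j * π⁻¹ * π := by field_simp
    rw [this]; exact mul_mem (hg'3 j) h.unif₁.mem
  refine ⟨Sum.elim g g', ?_, ?_, ?_⟩
  · rintro (i | j)
    · exact hg1 i
    · exact hg'V₁ j
  · rintro (i | j)
    · exact hgV₂ i
    · exact hg'1 j
  · intro a ha hS₁ hS₂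
    have hsplit : (∑ l, algebraMap K F (a l) * Sum.elim g g' l) =
        (∑ i, algebraMap K F (a (Sum.inl i)) * g i) +
          ∑ j, algebraMap K F (a (Sum.inr j)) * g' j := by
      rw [Fintype.sum_sum_type]; simp only [Sum.elim_inl, Sum.elim_inr]
    rw [hsplit] at hS₁ hS₂
    rintro (i | j)
    · refine h.b_indep (fun i => a (Sum.inl i)) (fun i => ha _) ?_ i
      have e1 : (∑ i, algebraMap K F (a (Sum.inl i)) * b i) * π⁻¹ =
          ((∑ i, algebraMap K F (a (Sum.inl i)) * g i) +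
            ∑ j, algebraMap K F (a (Sum.inr j)) * g' j) * π⁻¹
          - ∑ i, algebraMap K F (a (Sum.inl i)) * ((g i - b i) * π⁻¹)
          - ∑ j, algebraMap K F (a (Sum.inr j)) * (g' j * π⁻¹) := by
        have hW : ∑ i, algebraMap K F (a (Sum.inl i)) * ((g i - b i) * π⁻¹) =
            (∑ i, algebraMap K F (a (Sum.inl i)) * g i) * π⁻¹ -
              (∑ i, algebraMap K F (a (Sum.inl i)) * b i) * π⁻¹ := by
          rw [Finset.sum_mul, Finset.sum_mul, ← Finset.sum_sub_distrib]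
          exact Finset.sum_congr rfl fun i _ => by ring
        have hZ : ∑ j, algebraMap K F (a (Sum.inr j)) * (g' j * π⁻¹) =
            (∑ j, algebraMap K F (a (Sum.inr j)) * g' j) * π⁻¹ := by
          rw [Finset.sum_mul]
          exact Finset.sum_congr rfl fun j _ => by ring
        rw [hW, hZ]; ring
      rw [e1]
      refine sub_mem (sub_mem hS₁ (sum_mem fun i _ => mul_mem (h.le₁ _ (ha _)) (hg2 i)))
        (sum_mem fun j _ => mul_mem (h.le₁ _ (ha _)) (hg'3 j))
    · refine h.c_indep (fun j => a (Sum.inr j)) (fun j => ha _) ?_ j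
      have e1 : (∑ j, algebraMap K F (a (Sum.inr j)) * c j) * π⁻¹ =
          ((∑ i, algebraMap K F (a (Sum.inl i)) * g i) +
            ∑ j, algebraMap K F (a (Sum.inr j)) * g' j) * π⁻¹
          - ∑ j, algebraMap K F (a (Sum.inr j)) * ((g' j - c j) * π⁻¹)
          - ∑ i, algebraMap K F (a (Sum.inl i)) * (g i * π⁻¹) := by
        have hW : ∑ j, algebraMap K F (a (Sum.inr j)) * ((g' j - c j) * π⁻¹) =
            (∑ j, algebraMap K F (a (Sum.inr j)) * g' j) * π⁻¹ -
              (∑ j, algebraMap K F (a (Sum.inr j)) * c j) * π⁻¹ := by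
          rw [Finset.sum_mul, Finset.sum_mul, ← Finset.sum_sub_distrib]
          exact Finset.sum_congr rfl fun j _ => by ring
        have hZ : ∑ i, algebraMap K F (a (Sum.inl i)) * (g i * π⁻¹) =
            (∑ i, algebraMap K F (a (Sum.inl i)) * g i) * π⁻¹ := by
          rw [Finset.sum_mul]
          exact Finset.sum_congr rfl fun i _ => by ring
        rw [hW, hZ]; ring
      rw [e1]
      refine sub_mem (sub_mem hS₂ (sum_mem fun j _ => mul_mem (h.le₂ _ (ha _)) (hg'2 j)))
        (sum_mem fun i _ => mul_mem (h.le₂ _ (ha _)) (hg3 i))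

namespace IsGood

variable {ι : Type*} [Fintype ι] {m : ι → F}

theorem linearIndependent (hO : IsUnif O ϖ) (hm : IsGood O V₁ V₂ ϖ m) :
    LinearIndependent K m := by
  classical
  rw [Fintype.linearIndependent_iff]
  intro g hg
  by_contra hne
  rw [not_forall] at hne
  obtain ⟨l, hl⟩ := hne
  obtain ⟨l₀, hl₀, hmax⟩ := exists_scale_family O g l
  have hg0 : g l₀ ≠ 0 := by
    intro h0
    rw [h0, map_zero] at hl₀
    exact (Valuation.ne_zero_iff _).2 hl (le_antisymm hl₀ zero_le)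
  have ha : ∀ l', g l' * (g l₀)⁻¹ ∈ O := fun l' => mul_inv_mem_of_val_le O hg0 (hmax l')
  have hsum : ∑ l', algebraMap K F (g l' * (g l₀)⁻¹) * m l' = 0 := by
    have : ∑ l', algebraMap K F (g l' * (g l₀)⁻¹) * m l' =
        algebraMap K F (g l₀)⁻¹ * ∑ l', g l' • m l' := by
      rw [Finset.mul_sum]
      refine Finset.sum_congr rfl fun l' _ => ?_
      rw [map_mul, Algebra.smul_def]; ring
    rw [this, hg, mul_zero]
  have := hm.2.2 _ ha (by rw [hsum, zero_mul]; exact zero_mem _)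
    (by rw [hsum, zero_mul]; exact zero_mem _) l₀
  rw [mul_inv_cancel₀ hg0, one_mul] at this
  exact hO.inv_not_mem this

/-- The coordinates of an element of `V₁ ∩ V₂` in a good basis lie in `O`. -/
theorem repr_mem (hO : IsUnif O ϖ) (le₁ : ∀ a ∈ O, algebraMap K F a ∈ V₁)
    (le₂ : ∀ a ∈ O, algebraMap K F a ∈ V₂) (hm : IsGood O V₁ V₂ ϖ m)
    (B : Module.Basis ι K F) (hB : ∀ l, B l = m l) {z : F} (hz₁ : z ∈ V₁) (hz₂ : z ∈ V₂)
    (l : ι) : B.repr z l ∈ O := by
  classical
  by_contra hl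
  set g : ι → K := fun l => B.repr z l with hg
  obtain ⟨l₀, hl₀, hmax⟩ := exists_scale_family O g l
  have hv : 1 < O.valuation (g l₀) := by
    refine lt_of_lt_of_le ?_ hl₀
    rw [← not_le, O.valuation_le_one_iff]; exact hl
  have hg0 : g l₀ ≠ 0 := by
    intro h0
    rw [h0, map_zero] at hv
    exact absurd hv (not_lt.2 zero_le)
  have ha : ∀ l', g l' * (g l₀)⁻¹ ∈ O := fun l' => mul_inv_mem_of_val_le O hg0 (hmax l')
  have hz : ∑ l', g l' • m l' = z := by
    have := B.sum_repr z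
    simpa only [hB] using this
  have hsum : ∑ l', algebraMap K F (g l' * (g l₀)⁻¹) * m l' = algebraMap K F (g l₀)⁻¹ * z := by
    rw [← hz, Finset.mul_sum]
    refine Finset.sum_congr rfl fun l' _ => ?_
    rw [map_mul, Algebra.smul_def]; ring
  have hinv : (g l₀)⁻¹ * ϖ⁻¹ ∈ O := by
    rw [hO.mul_inv_mem_iff, map_inv₀]
    exact inv_lt_one_of_one_lt₀ hv
  have hkey : (∑ l', algebraMap K F (g l' * (g l₀)⁻¹) * m l') * (algebraMap K F ϖ)⁻¹ =
      algebraMap K F ((g l₀)⁻¹ * ϖ⁻¹) * z := by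
    rw [hsum, map_mul, map_inv₀, map_inv₀]; ring
  have := hm.2.2 _ ha (by rw [hkey]; exact mul_mem (le₁ _ hinv) hz₁)
    (by rw [hkey]; exact mul_mem (le₂ _ hinv) hz₂) l₀
  rw [mul_inv_cancel₀ hg0, one_mul] at this
  exact hO.inv_not_mem this

/-- Every element of `V₁ ∩ V₂` is integral over `O`. -/
theorem exists_monic (hO : IsUnif O ϖ) (le₁ : ∀ a ∈ O, algebraMap K F a ∈ V₁)
    (le₂ : ∀ a ∈ O, algebraMap K F a ∈ V₂) (hm : IsGood O V₁ V₂ ϖ m)
    (hcard : Fintype.card ι = Module.finrank K F) [FiniteDimensional K F]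
    {u : F} (hu₁ : u ∈ V₁) (hu₂ : u ∈ V₂) :
    ∃ p : K[X], p.Monic ∧ (∀ i, p.coeff i ∈ O) ∧ aeval u p = 0 := by
  classical
  have hpos : 0 < Module.finrank K F := Module.finrank_pos
  have : Nonempty ι := by
    rw [← Fintype.card_pos_iff, hcard]; exact hpos
  set B := basisOfLinearIndependentOfCardEqFinrank (hm.linearIndependent hO) hcard with hBdef
  have hB : ∀ l, B l = m l := fun l => by
    rw [hBdef, coe_basisOfLinearIndependentOfCardEqFinrank]
  let _ : Algebra O F := ((algebraMap K F).comp O.subtype).toAlgebra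
  have hsmul : ∀ (r : O) (x : F), r • x = algebraMap K F (r : K) * x := fun r x => rfl
  set N : Submodule O F := Submodule.span O (Set.range m) with hN
  have hmem : ∀ z : F, z ∈ V₁ → z ∈ V₂ → z ∈ N := by
    intro z hz₁ hz₂
    have hz : z = ∑ l, (⟨B.repr z l, repr_mem hO le₁ le₂ hm B hB hz₁ hz₂ l⟩ : O) • m l := by
      conv_lhs => rw [← B.sum_repr z]
      refine Finset.sum_congr rfl fun l _ => ?_
      rw [hsmul, hB, Algebra.smul_def]
    rw [hz]
    exact Submodule.sum_mem _ fun l _ =>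
      Submodule.smul_mem _ _ (Submodule.subset_span (Set.mem_range_self l))
  have hNV : ∀ n ∈ N, n ∈ V₁ ∧ n ∈ V₂ := by
    intro n hn
    induction hn using Submodule.span_induction with
    | mem x hx =>
        obtain ⟨l, rfl⟩ := hx
        exact ⟨hm.1 l, hm.2.1 l⟩
    | zero => exact ⟨zero_mem _, zero_mem _⟩
    | add x y _ _ hx hy => exact ⟨add_mem hx.1 hy.1, add_mem hx.2 hy.2⟩
    | smul r x _ hx =>
        rw [hsmul]
        exact ⟨mul_mem (le₁ _ r.2) hx.1, mul_mem (le₂ _ r.2) hx.2⟩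
  have hstable : ∀ n ∈ N, u • n ∈ N := by
    intro n hn
    obtain ⟨h1, h2⟩ := hNV n hn
    exact hmem _ (mul_mem hu₁ h1) (mul_mem hu₂ h2)
  have hNne : N ≠ ⊥ := by
    obtain ⟨l⟩ := ‹Nonempty ι›
    intro hbot
    have h1 : m l ∈ N := Submodule.subset_span (Set.mem_range_self l)
    rw [hbot, Submodule.mem_bot] at h1
    exact B.ne_zero l (by rw [hB]; exact h1)
  have hFG : N.FG := Submodule.fg_span (Set.finite_range m)
  have hint : IsIntegral O u := isIntegral_of_smul_mem_submodule N hNne hFG u hstable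
  obtain ⟨p, hp, hpu⟩ := hint
  refine ⟨p.map O.subtype, hp.map _, fun i => ?_, ?_⟩
  · rw [coeff_map]; exact (p.coeff i).2
  · rw [aeval_def, eval₂_map]; exact hpu

end IsGood

/-- **No third extension.**  Under `TwoExt`, every element of `V₁ ∩ V₂` is integral over `O`. -/
theorem exists_monic_of_mem [FiniteDimensional K F] (h : TwoExt O V₁ V₂ ϖ b c)
    {u : F} (hu₁ : u ∈ V₁) (hu₂ : u ∈ V₂) :
    ∃ p : K[X], p.Monic ∧ (∀ i, p.coeff i ∈ O) ∧ aeval u p = 0 := by
  obtain ⟨m, hm⟩ := h.exists_good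
  refine hm.exists_monic h.unifO h.le₁ h.le₂ ?_ hu₁ hu₂
  rw [Fintype.card_sum, Fintype.card_fin, Fintype.card_fin, h.card]

end TwoExt

end Main

end Fermat.Agent.A2.H48

end
-- ===== PACK-END A2/H48/TwoExt.lean

-- ===== PACK-BEGIN A2/H48/Qep2.lean
section


/-!
# A2 / piece QEP2, part 3 (helper48): the `q`-expansion principle for a two-component model

Mathlib-only.  `R` a factorial domain with prime element `ϖ` (in the application a discrete
valuation ring `A ∩ E`), `K = Frac R[X]` (`X ↦ j` or `X ↦ 1/j`), `F / K` finite of degree `n`,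
`V₁ ≠ V₂` valuation rings of `F` which both

* contain `R[X]`, have maximal ideal generated by `ϖ`,
* induce the Gauss valuation on `K` (a polynomial not divisible by `ϖ` is a unit),

together with families `b` in `V₁`, `c` in `V₂` with `f₁ + f₂ = n` members whose residues are
linearly independent over `(R/ϖ)[X]` (`GaussPair`).  Then

* `GaussPair.exists_monic_of_mem` : every element of `V₁ ∩ V₂` is integral over the Gauss
  ring `O = V₁ ∩ K` (no third extension of the Gauss valuation to `F`);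
* `GaussPair.qep2` : **if `u` is integral over `R[X]` and `u/ϖ ∈ V₁ ∩ V₂` then `u/ϖ` is integral
  over `R[X]`**, i.e. for the chart `B` = integral closure of `R[X]` in `F`:
  `B ∩ ϖ (V₁ ∩ V₂) = ϖ B`;
* `GaussPair.reduced` : `u` integral over `R[X]`, `u ^ k / ϖ` integral over `R[X]`, `k ≥ 1`
  `⟹ u/ϖ` integral over `R[X]` (the special fibre `B/ϖB` is reduced).
-/

set_option autoImplicit false
set_option linter.unusedSectionVars false

namespace Fermat.Agent.A2.H48

open Polynomial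

variable {R : Type*} [CommRing R] [IsDomain R] [UniqueFactorizationMonoid R]
variable {K F : Type*} [Field K] [Field F] [Algebra R[X] K] [IsFractionRing R[X] K]
  [Algebra K F] [Algebra R[X] F] [IsScalarTower R[X] K F]

/-- The hypotheses of the two-component `q`-expansion principle. -/
structure GaussPair (ϖ : R) (V₁ V₂ : ValuationSubring F)
    {f₁ f₂ : ℕ} (b : Fin f₁ → F) (c : Fin f₂ → F) : Prop where
  prime : Prime ϖ
  unif₁ : IsUnif V₁ (algebraMap R[X] F (C ϖ))
  unif₂ : IsUnif V₂ (algebraMap R[X] F (C ϖ))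
  poly₁ : ∀ P : R[X], algebraMap R[X] F P ∈ V₁
  poly₂ : ∀ P : R[X], algebraMap R[X] F P ∈ V₂
  gauss₁ : ∀ P : R[X], ¬ C ϖ ∣ P → (algebraMap R[X] F P)⁻¹ ∈ V₁
  gauss₂ : ∀ P : R[X], ¬ C ϖ ∣ P → (algebraMap R[X] F P)⁻¹ ∈ V₂
  ne : V₁ ≠ V₂
  b_mem : ∀ i, b i ∈ V₁
  c_mem : ∀ j, c j ∈ V₂
  b_indep : ∀ a : Fin f₁ → R[X],
    (∑ i, algebraMap R[X] F (a i) * b i) * (algebraMap R[X] F (C ϖ))⁻¹ ∈ V₁ → ∀ i, C ϖ ∣ a i
  c_indep : ∀ a : Fin f₂ → R[X],
    (∑ j, algebraMap R[X] F (a j) * c j) * (algebraMap R[X] F (C ϖ))⁻¹ ∈ V₂ → ∀ j, C ϖ ∣ a j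
  card : f₁ + f₂ = Module.finrank K F

section GaussRing

variable (K)

/-- The Gauss ring `V ∩ K`. -/
def gaussRing (V : ValuationSubring F) : ValuationSubring K := V.comap (algebraMap K F)

variable {K}

theorem mem_gaussRing {V : ValuationSubring F} {a : K} :
    a ∈ gaussRing K V ↔ algebraMap K F a ∈ V := ValuationSubring.mem_comap

variable {ϖ : R} {V : ValuationSubring F}

theorem prime_C (hϖ : Prime ϖ) : Prime (C ϖ : R[X]) := prime_C_iff.2 hϖ

theorem algebraMap_C_ne_zero (hϖ : Prime ϖ) : algebraMap R[X] K (C ϖ) ≠ 0 := by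
  intro h
  have := (IsFractionRing.injective R[X] K) (h.trans (map_zero _).symm)
  exact (prime_C hϖ).ne_zero this

theorem map_eq (P : R[X]) : algebraMap K F (algebraMap R[X] K P) = algebraMap R[X] F P :=
  (IsScalarTower.algebraMap_apply R[X] K F P).symm

/-- Elements of the form `P / Q`, `ϖ ∤ Q`, lie in the Gauss ring. -/
theorem div_mem_gaussRing (hpoly : ∀ P : R[X], algebraMap R[X] F P ∈ V)
    (hgauss : ∀ P : R[X], ¬ C ϖ ∣ P → (algebraMap R[X] F P)⁻¹ ∈ V)
    (P : R[X]) {Q : R[X]} (hQ : ¬ C ϖ ∣ Q) :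
    algebraMap R[X] K P / algebraMap R[X] K Q ∈ gaussRing K V := by
  rw [mem_gaussRing, map_div₀, map_eq, map_eq, div_eq_mul_inv]
  exact mul_mem (hpoly P) (hgauss Q hQ)

/-- Every element of the Gauss ring is of the form `P / Q` with `ϖ ∤ Q`. -/
theorem exists_div_of_mem_gaussRing (hϖ : Prime ϖ) (hunif : IsUnif V (algebraMap R[X] F (C ϖ)))
    (hpoly : ∀ P : R[X], algebraMap R[X] F P ∈ V)
    (hgauss : ∀ P : R[X], ¬ C ϖ ∣ P → (algebraMap R[X] F P)⁻¹ ∈ V)
    {a : K} (ha : a ∈ gaussRing K V) :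
    ∃ P Q : R[X], ¬ C ϖ ∣ Q ∧ a = algebraMap R[X] K P / algebraMap R[X] K Q := by
  obtain ⟨P, Q, hQ, rfl⟩ := IsFractionRing.div_surjective R[X] (K := K) a
  have hQ0 : Q ≠ 0 := nonZeroDivisors.ne_zero hQ
  by_cases hP0 : P = 0
  · refine ⟨0, 1, ?_, ?_⟩
    · intro h
      exact (prime_C hϖ).not_isUnit (isUnit_of_dvd_one h)
    · rw [hP0]; simp
  obtain ⟨k, Q', hQ', hQk⟩ := WfDvdMonoid.max_power_factor' hQ0 (prime_C hϖ).not_isUnit
  obtain ⟨j, P', hP', hPj⟩ := WfDvdMonoid.max_power_factor' hP0 (prime_C hϖ).not_isUnit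
  have hϖK : algebraMap R[X] K (C ϖ) ≠ 0 := algebraMap_C_ne_zero hϖ
  have hQ'0 : algebraMap R[X] K Q' ≠ 0 := by
    intro h
    have := (IsFractionRing.injective R[X] K) (h.trans (map_zero _).symm)
    rw [this] at hQ'
    exact hQ' (dvd_zero _)
  rcases le_or_gt k j with hkj | hkj
  · obtain ⟨r, rfl⟩ := Nat.exists_eq_add_of_le hkj
    refine ⟨C ϖ ^ r * P', Q', hQ', ?_⟩
    rw [hPj, hQk, map_mul, map_mul, map_mul, map_pow, map_pow, map_pow, pow_add]
    field_simp
  · exfalso
    obtain ⟨r, hr⟩ := Nat.exists_eq_add_of_lt hkj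
    have hP'0 : algebraMap R[X] F P' ≠ 0 := by
      intro h
      rw [← map_eq (K := K)] at h
      have h1 := (algebraMap K F).injective (h.trans (map_zero _).symm)
      have := (IsFractionRing.injective R[X] K) (h1.trans (map_zero _).symm)
      rw [this] at hP'
      exact hP' (dvd_zero _)
    have hπ0 : algebraMap R[X] F (C ϖ) ≠ 0 := hunif.ne_zero
    rw [mem_gaussRing, map_div₀, map_eq, map_eq] at ha
    apply hunif.inv_not_mem
    have hQ'F : algebraMap R[X] F Q' ≠ 0 := by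
      rw [← map_eq (K := K)]
      exact (_root_.map_ne_zero _).2 hQ'0
    have e : (algebraMap R[X] F (C ϖ))⁻¹ =
        (algebraMap R[X] F P / algebraMap R[X] F Q) *
          (algebraMap R[X] F (C ϖ ^ r * Q') * (algebraMap R[X] F P')⁻¹) := by
      rw [hPj, hQk, hr, map_mul, map_mul, map_mul, map_pow, map_pow, map_pow]
      field_simp
      ring
    rw [e]
    exact mul_mem ha (mul_mem (hpoly _) (hgauss P' hP'))

theorem isUnif_gaussRing (hunif : IsUnif V (algebraMap R[X] F (C ϖ))) :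
    IsUnif (gaussRing K V) (algebraMap R[X] K (C ϖ)) where
  mem := by rw [mem_gaussRing, map_eq]; exact hunif.mem
  inv_not_mem := by rw [mem_gaussRing, map_inv₀, map_eq]; exact hunif.inv_not_mem
  gen := by
    intro a ha hainv
    rw [mem_gaussRing] at ha hainv ⊢
    rw [map_inv₀] at hainv
    rw [map_mul, map_inv₀, map_eq]
    exact hunif.gen _ ha hainv

theorem arch_gaussRing (hϖ : Prime ϖ) (hpoly : ∀ P : R[X], algebraMap R[X] F P ∈ V)
    (hgauss : ∀ P : R[X], ¬ C ϖ ∣ P → (algebraMap R[X] F P)⁻¹ ∈ V) (a : K) :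
    ∃ k : ℕ, algebraMap R[X] K (C ϖ) ^ k * a ∈ gaussRing K V := by
  obtain ⟨P, Q, hQ, rfl⟩ := IsFractionRing.div_surjective R[X] (K := K) a
  have hQ0 : Q ≠ 0 := nonZeroDivisors.ne_zero hQ
  obtain ⟨k, Q', hQ', hQk⟩ := WfDvdMonoid.max_power_factor' hQ0 (prime_C hϖ).not_isUnit
  refine ⟨k, ?_⟩
  have hϖK : algebraMap R[X] K (C ϖ) ≠ 0 := algebraMap_C_ne_zero hϖ
  have hQ'0 : algebraMap R[X] K Q' ≠ 0 := by
    intro h
    have := (IsFractionRing.injective R[X] K) (h.trans (map_zero _).symm)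
    rw [this] at hQ'
    exact hQ' (dvd_zero _)
  have e : algebraMap R[X] K (C ϖ) ^ k * (algebraMap R[X] K P / algebraMap R[X] K Q) =
      algebraMap R[X] K P / algebraMap R[X] K Q' := by
    rw [hQk, map_mul, map_pow]
    field_simp
  rw [e]
  exact div_mem_gaussRing hpoly hgauss P hQ'

/-- **Gauss intersection**: `P / ϖ ^ k` in the Gauss ring forces `ϖ ^ k ∣ P` in `R[X]`. -/
theorem pow_dvd_of_mem_gaussRing (hunif : IsUnif V (algebraMap R[X] F (C ϖ)))
    (hgauss : ∀ P : R[X], ¬ C ϖ ∣ P → (algebraMap R[X] F P)⁻¹ ∈ V) :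
    ∀ (k : ℕ) (P : R[X]),
      algebraMap R[X] K P * ((algebraMap R[X] K (C ϖ))⁻¹) ^ k ∈ gaussRing K V → C ϖ ^ k ∣ P := by
  have hπ0 : algebraMap R[X] F (C ϖ) ≠ 0 := hunif.ne_zero
  have hϖK : algebraMap R[X] K (C ϖ) ≠ 0 := by
    intro h
    apply hπ0
    rw [← map_eq (K := K), h, map_zero]
  intro k
  induction k with
  | zero => intro P _; simp
  | succ k ih =>
      intro P hP
      have h1 : algebraMap R[X] K P * ((algebraMap R[X] K (C ϖ))⁻¹) ^ k ∈ gaussRing K V := by
        have e : algebraMap R[X] K P * ((algebraMap R[X] K (C ϖ))⁻¹) ^ k =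
            algebraMap R[X] K P * ((algebraMap R[X] K (C ϖ))⁻¹) ^ (k + 1) *
              algebraMap R[X] K (C ϖ) := by
          rw [pow_succ]; field_simp
        rw [e]
        exact mul_mem hP (isUnif_gaussRing hunif).mem
      obtain ⟨P₁, rfl⟩ := ih P h1
      by_cases hdvd : C ϖ ∣ P₁
      · obtain ⟨P₂, rfl⟩ := hdvd
        exact ⟨P₂, by rw [pow_succ]; ring⟩
      · exfalso
        apply hunif.inv_not_mem
        have h2 := hgauss P₁ hdvd
        rw [mem_gaussRing] at hP
        have hP₁0 : algebraMap R[X] F P₁ ≠ 0 := by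
          intro h
          rw [h, inv_zero] at h2
          have h3 : P₁ = 0 := by
            rw [← map_eq (K := K)] at h
            have h4 := (algebraMap K F).injective (h.trans (map_zero _).symm)
            exact (IsFractionRing.injective R[X] K) (h4.trans (map_zero _).symm)
          exact hdvd (h3 ▸ dvd_zero _)
        have e : (algebraMap R[X] F (C ϖ))⁻¹ =
            algebraMap K F (algebraMap R[X] K (C ϖ ^ k * P₁) *
              ((algebraMap R[X] K (C ϖ))⁻¹) ^ (k + 1)) * (algebraMap R[X] F P₁)⁻¹ := by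
          rw [map_mul, map_pow, map_inv₀, map_eq, map_eq, map_mul, map_pow, pow_succ, inv_pow]
          field_simp
        rw [e]
        exact mul_mem hP h2

end GaussRing

section Indep

variable {ϖ : R} {V : ValuationSubring F}

/-- Linear independence of residues over `(R/ϖ)[X]` implies linear independence over the residue
field of the Gauss ring. -/
theorem indep_gaussRing (hϖ : Prime ϖ) (hunif : IsUnif V (algebraMap R[X] F (C ϖ)))
    (hpoly : ∀ P : R[X], algebraMap R[X] F P ∈ V)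
    (hgauss : ∀ P : R[X], ¬ C ϖ ∣ P → (algebraMap R[X] F P)⁻¹ ∈ V)
    {f : ℕ} {b : Fin f → F}
    (hind : ∀ a : Fin f → R[X],
      (∑ i, algebraMap R[X] F (a i) * b i) * (algebraMap R[X] F (C ϖ))⁻¹ ∈ V → ∀ i, C ϖ ∣ a i)
    (a : Fin f → K) (ha : ∀ i, a i ∈ gaussRing K V)
    (hsum : (∑ i, algebraMap K F (a i) * b i) * (algebraMap K F (algebraMap R[X] K (C ϖ)))⁻¹ ∈ V)
    (i : Fin f) : a i * (algebraMap R[X] K (C ϖ))⁻¹ ∈ gaussRing K V := by
  classical
  choose P Q hQ hPQ using fun i => exists_div_of_mem_gaussRing hϖ hunif hpoly hgauss (ha i)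
  have hQ0 : ∀ i, algebraMap R[X] K (Q i) ≠ 0 := by
    intro i h
    have := (IsFractionRing.injective R[X] K) (h.trans (map_zero _).symm)
    exact hQ i (this ▸ dvd_zero _)
  set Qtot : R[X] := ∏ i, Q i with hQtot
  set a' : Fin f → R[X] := fun i => P i * ∏ i' ∈ Finset.univ.erase i, Q i' with ha'
  have hmul : ∀ i, algebraMap R[X] K (a' i) = a i * algebraMap R[X] K Qtot := by
    intro i
    have h1 : Q i * ∏ i' ∈ Finset.univ.erase i, Q i' = Qtot :=
      Finset.mul_prod_erase _ _ (Finset.mem_univ i)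
    rw [ha', ← h1, hPQ i, map_mul, map_mul]
    field_simp [hQ0 i]
  have hsum' : (∑ i, algebraMap R[X] F (a' i) * b i) * (algebraMap R[X] F (C ϖ))⁻¹ ∈ V := by
    have e : (∑ i, algebraMap R[X] F (a' i) * b i) * (algebraMap R[X] F (C ϖ))⁻¹ =
        algebraMap R[X] F Qtot *
          ((∑ i, algebraMap K F (a i) * b i) *
            (algebraMap K F (algebraMap R[X] K (C ϖ)))⁻¹) := by
      rw [map_eq, ← mul_assoc, Finset.mul_sum]
      congr 1
      refine Finset.sum_congr rfl fun i _ => ?_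
      rw [← map_eq (K := K) (a' i), hmul, map_mul, map_eq]
      ring
    rw [e]
    exact mul_mem (hpoly _) hsum
  have hdvd := hind a' hsum' i
  have hdvdP : C ϖ ∣ P i := by
    rcases (prime_C hϖ).dvd_or_dvd hdvd with h | h
    · exact h
    · exfalso
      obtain ⟨i', -, hi'⟩ := ((prime_C hϖ).dvd_finsetProd_iff _).1 h
      exact hQ i' hi'
  obtain ⟨P', hP'⟩ := hdvdP
  have hϖK : algebraMap R[X] K (C ϖ) ≠ 0 := algebraMap_C_ne_zero hϖ
  have e : a i * (algebraMap R[X] K (C ϖ))⁻¹ =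
      algebraMap R[X] K P' / algebraMap R[X] K (Q i) := by
    rw [hPQ i, hP', map_mul]
    field_simp [hQ0 i]
  rw [e]
  exact div_mem_gaussRing hpoly hgauss P' (hQ i)

end Indep

namespace GaussPair

variable {ϖ : R} {V₁ V₂ : ValuationSubring F} {f₁ f₂ : ℕ} {b : Fin f₁ → F} {c : Fin f₂ → F}

theorem gaussRing_eq (h : GaussPair (K := K) ϖ V₁ V₂ b c) : gaussRing K V₁ = gaussRing K V₂ := by
  apply le_antisymm
  · intro a ha
    obtain ⟨P, Q, hQ, rfl⟩ := exists_div_of_mem_gaussRing h.prime h.unif₁ h.poly₁ h.gauss₁ ha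
    exact div_mem_gaussRing h.poly₂ h.gauss₂ P hQ
  · intro a ha
    obtain ⟨P, Q, hQ, rfl⟩ := exists_div_of_mem_gaussRing h.prime h.unif₂ h.poly₂ h.gauss₂ ha
    exact div_mem_gaussRing h.poly₁ h.gauss₁ P hQ

/-- A `GaussPair` gives the data of the "no third extension" theorem over the Gauss ring. -/
theorem twoExt (h : GaussPair (K := K) ϖ V₁ V₂ b c) :
    TwoExt (gaussRing K V₁) V₁ V₂ (algebraMap R[X] K (C ϖ)) b c where
  unifO := isUnif_gaussRing h.unif₁
  unif₁ := by rw [map_eq]; exact h.unif₁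
  unif₂ := by rw [map_eq]; exact h.unif₂
  le₁ := fun a ha => mem_gaussRing.1 ha
  le₂ := fun a ha => mem_gaussRing.1 (h.gaussRing_eq ▸ ha)
  ne := h.ne
  arch := arch_gaussRing h.prime h.poly₁ h.gauss₁
  b_mem := h.b_mem
  c_mem := h.c_mem
  b_indep := fun a ha hsum i =>
    indep_gaussRing h.prime h.unif₁ h.poly₁ h.gauss₁ h.b_indep a ha hsum i
  c_indep := fun a ha hsum j => by
    rw [h.gaussRing_eq]
    exact indep_gaussRing h.prime h.unif₂ h.poly₂ h.gauss₂ h.c_indep a
      (fun j => h.gaussRing_eq ▸ ha j) hsum j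
  card := h.card

/-- **No third extension**: every element of `V₁ ∩ V₂` is integral over the Gauss ring. -/
theorem exists_monic_of_mem [FiniteDimensional K F] (h : GaussPair (K := K) ϖ V₁ V₂ b c)
    {u : F} (hu₁ : u ∈ V₁) (hu₂ : u ∈ V₂) :
    ∃ p : K[X], p.Monic ∧ (∀ i, p.coeff i ∈ gaussRing K V₁) ∧ aeval u p = 0 :=
  h.twoExt.exists_monic_of_mem hu₁ hu₂

/-- Elements of `V₁ ∩ V₂` have their minimal polynomial over `K` with coefficients in the Gauss
ring. -/
theorem minpoly_coeff_mem [FiniteDimensional K F] (h : GaussPair (K := K) ϖ V₁ V₂ b c)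
    {z : F} (hz₁ : z ∈ V₁) (hz₂ : z ∈ V₂) (i : ℕ) :
    (minpoly K z).coeff i ∈ gaussRing K V₁ := by
  classical
  obtain ⟨p, hp, hpc, hpz⟩ := h.exists_monic_of_mem hz₁ hz₂
  let _ : Algebra (gaussRing K V₁) F :=
    ((algebraMap K F).comp (gaussRing K V₁).subtype).toAlgebra
  have : IsScalarTower (gaussRing K V₁) K F := IsScalarTower.of_algebraMap_eq (fun x => rfl)
  have hlift : p ∈ lifts (gaussRing K V₁).subtype := by
    rw [lifts_iff_coeff_lifts]
    intro n
    exact ⟨⟨p.coeff n, hpc n⟩, rfl⟩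
  obtain ⟨q, hq, -, hqm⟩ := lifts_and_natDegree_eq_and_monic hlift hp
  have hzO : IsIntegral (gaussRing K V₁) z := by
    refine ⟨q, hqm, ?_⟩
    have : eval₂ (algebraMap (gaussRing K V₁) F) z q =
        eval₂ (algebraMap K F) z (q.map (gaussRing K V₁).subtype) := by
      rw [eval₂_map]; rfl
    rw [this, hq, ← aeval_def]
    exact hpz
  have hμ := minpoly.isIntegrallyClosed_eq_field_fractions' K hzO
  rw [hμ, coeff_map]
  exact ((minpoly (gaussRing K V₁) z).coeff i).2

/-- **`q`-expansion principle for the two-component model.**  If `u` is integral over `R[X]`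
and `u / ϖ` lies in both `V₁` and `V₂`, then `u / ϖ` is integral over `R[X]`. -/
theorem qep2 [FiniteDimensional K F] (h : GaussPair (K := K) ϖ V₁ V₂ b c) {u : F}
    (hu : IsIntegral R[X] u)
    (h₁ : u * (algebraMap R[X] F (C ϖ))⁻¹ ∈ V₁) (h₂ : u * (algebraMap R[X] F (C ϖ))⁻¹ ∈ V₂) :
    IsIntegral R[X] (u * (algebraMap R[X] F (C ϖ))⁻¹) := by
  classical
  set ϖK := algebraMap R[X] K (C ϖ) with hϖKdef
  have hϖK : ϖK ≠ 0 := algebraMap_C_ne_zero h.prime
  set z := u * (algebraMap R[X] F (C ϖ))⁻¹ with hz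
  have hz_eq : z = algebraMap K F ϖK⁻¹ * u := by
    rw [hz, map_inv₀, map_eq, mul_comm]
  have hu_eq : u = algebraMap K F ϖK * z := by
    rw [hz_eq, ← mul_assoc, ← map_mul, mul_inv_cancel₀ hϖK, map_one, one_mul]
  have huK : IsIntegral K u := Algebra.IsIntegral.isIntegral u
  have hzK : IsIntegral K z := Algebra.IsIntegral.isIntegral z
  have hμu := minpoly.isIntegrallyClosed_eq_field_fractions' K hu
  have hscale : (minpoly K u).scaleRoots ϖK⁻¹ = minpoly K z := by
    apply minpoly.unique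
    · exact (monic_scaleRoots_iff _).2 (minpoly.monic huK)
    · rw [hz_eq]; exact scaleRoots_aeval_eq_zero (minpoly.aeval K u)
    · intro r hr hrz
      rw [degree_scaleRoots]
      have h3 : aeval u (r.scaleRoots ϖK) = 0 := by
        rw [hu_eq]; exact scaleRoots_aeval_eq_zero hrz
      calc (minpoly K u).degree ≤ (r.scaleRoots ϖK).degree :=
            minpoly.min K u ((monic_scaleRoots_iff _).2 hr) h3
        _ = r.degree := degree_scaleRoots _
  have hcoef : ∀ i, (minpoly K z).coeff i ∈ Set.range (algebraMap R[X] K) := by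
    intro i
    have h1 : (minpoly K z).coeff i ∈ gaussRing K V₁ := h.minpoly_coeff_mem h₁ h₂ i
    rw [← hscale, coeff_scaleRoots, hμu, coeff_map] at h1 ⊢
    obtain ⟨P', hP'⟩ := pow_dvd_of_mem_gaussRing h.unif₁ h.gauss₁ _ _ h1
    refine ⟨P', ?_⟩
    rw [hP', map_mul, map_pow, inv_pow, ← hϖKdef]
    field_simp
  obtain ⟨q, hq, -, hqm⟩ :=
    lifts_and_natDegree_eq_and_monic ((lifts_iff_coeff_lifts _).2 hcoef) (minpoly.monic hzK)
  refine ⟨q, hqm, ?_⟩
  have e : eval₂ (algebraMap R[X] F) z q = aeval z (q.map (algebraMap R[X] K)) := by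
    rw [aeval_def, eval₂_map, ← IsScalarTower.algebraMap_eq]
  rw [e, hq]
  exact minpoly.aeval K z

/-- **The special fibre is reduced.**  If `u` is integral over `R[X]` and `u ^ k / ϖ` is integral
over `R[X]` for some `k ≥ 1` then `u / ϖ` is integral over `R[X]`. -/
theorem reduced [FiniteDimensional K F] (h : GaussPair (K := K) ϖ V₁ V₂ b c) {u : F}
    (hu : IsIntegral R[X] u) {k : ℕ}
    (h₁ : u ^ k * (algebraMap R[X] F (C ϖ))⁻¹ ∈ V₁)
    (h₂ : u ^ k * (algebraMap R[X] F (C ϖ))⁻¹ ∈ V₂) :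
    IsIntegral R[X] (u * (algebraMap R[X] F (C ϖ))⁻¹) := by
  have key : ∀ (V : ValuationSubring F), IsUnif V (algebraMap R[X] F (C ϖ)) →
      u ^ k * (algebraMap R[X] F (C ϖ))⁻¹ ∈ V → u * (algebraMap R[X] F (C ϖ))⁻¹ ∈ V := by
    intro V hV hk
    rw [hV.mul_inv_mem_iff] at hk ⊢
    by_contra hcon
    have h1 : 1 ≤ V.valuation u := not_lt.1 hcon
    have h2 : 1 ≤ V.valuation (u ^ k) := by
      rw [map_pow]; exact one_le_pow₀ h1
    exact absurd hk (not_lt.2 h2)
  exact h.qep2 hu (key V₁ h.unif₁ h₁) (key V₂ h.unif₂ h₂)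

end GaussPair

end Fermat.Agent.A2.H48

end
-- ===== PACK-END A2/H48/Qep2.lean

-- ===== PACK-BEGIN A2/Mod/H732/SepTwoVal.lean
section



/-!
# A2 / MOD, piece S4 (SepCoord producer), part 2 (helper732): unit discriminant for two
unramified extensions with separable residue fields

Mathlib + `A2/H48` (`TwoVal`, `TwoExt`).  `K` a field with a valuation ring `O` with uniformiser
`ϖ`, `F / K` finite, `V₁ ≠ V₂` valuation rings of `F` over `O`, both with uniformiser `ϖ`,
`m` a *good* family (`H48.TwoExt.IsGood`: an `O`-basis of `V₁ ∩ V₂`) with `[F : K]` members.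
If both residue extensions are separable (liftable elementwise form), then the discriminant of
`m` is a unit of `O`.

* `valIdeal`, `mem_valIdeal`, `valIdeal_isPrime` : the prime `𝒪 ∩ 𝔪_V` of `𝒪 = V₁ ∩ V₂`;
* `discr_unit_of_isGood` : the theorem.
-/

set_option autoImplicit false
set_option linter.style.haveILetI false
set_option linter.unusedSectionVars false

noncomputable section

namespace Fermat.Agent.A2.Mod.H732

open Polynomial Fermat.Agent.A2.H48

section Ring

variable {K F : Type*} [Field K] [Field F] [Algebra K F]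

/-- `𝒪 = V₁ ∩ V₂` as a subring of `F`. -/
def twoRing (V₁ V₂ : ValuationSubring F) : Subring F := V₁.toSubring ⊓ V₂.toSubring

theorem mem_twoRing {V₁ V₂ : ValuationSubring F} {z : F} :
    z ∈ twoRing V₁ V₂ ↔ z ∈ V₁ ∧ z ∈ V₂ := Iff.rfl

/-- The structure map `O → V₁ ∩ V₂`. -/
def twoRingHom {O : ValuationSubring K} {V₁ V₂ : ValuationSubring F}
    (le₁ : ∀ a ∈ O, algebraMap K F a ∈ V₁) (le₂ : ∀ a ∈ O, algebraMap K F a ∈ V₂) :
    O →+* twoRing V₁ V₂ where
  toFun a := ⟨algebraMap K F (a : K), le₁ a a.2, le₂ a a.2⟩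
  map_one' := Subtype.ext (map_one (algebraMap K F))
  map_mul' a b := Subtype.ext (map_mul (algebraMap K F) (a : K) (b : K))
  map_zero' := Subtype.ext (map_zero (algebraMap K F))
  map_add' a b := Subtype.ext (map_add (algebraMap K F) (a : K) (b : K))

/-- The ideal `T ∩ 𝔪_V` of a subring `T ⊆ V`. -/
def valIdeal (T : Subring F) (V : ValuationSubring F) (hTV : ∀ z ∈ T, z ∈ V) : Ideal T where
  carrier := {s | V.valuation (s : F) < 1}
  add_mem' := fun {a b} ha hb => by
    show V.valuation ((a : F) + (b : F)) < 1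
    exact Valuation.map_add_lt _ ha hb
  zero_mem' := by
    show V.valuation ((0 : T) : F) < 1
    rw [ZeroMemClass.coe_zero, map_zero]
    exact zero_lt_one
  smul_mem' := fun c a ha => by
    show V.valuation ((c : F) * (a : F)) < 1
    rw [map_mul]
    calc V.valuation (c : F) * V.valuation (a : F) ≤ 1 * V.valuation (a : F) :=
          mul_le_mul_left ((V.valuation_le_one_iff _).2 (hTV c c.2)) _
      _ < 1 := by rw [one_mul]; exact ha

theorem mem_valIdeal {T : Subring F} {V : ValuationSubring F} {hTV : ∀ z ∈ T, z ∈ V} {s : T} :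
    s ∈ valIdeal T V hTV ↔ V.valuation (s : F) < 1 := Iff.rfl

theorem valIdeal_isPrime (T : Subring F) (V : ValuationSubring F) (hTV : ∀ z ∈ T, z ∈ V) :
    (valIdeal T V hTV).IsPrime := by
  refine ⟨?_, ?_⟩
  · intro h
    have h1 : (1 : T) ∈ valIdeal T V hTV := by rw [h]; trivial
    rw [mem_valIdeal, OneMemClass.coe_one, map_one] at h1
    exact lt_irrefl _ h1
  · intro a b hab
    rw [mem_valIdeal, Subring.coe_mul, map_mul] at hab
    by_contra hcon
    rw [not_or, mem_valIdeal, mem_valIdeal, not_lt, not_lt] at hcon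
    have h1 : (1 : _) ≤ V.valuation (a : F) * V.valuation (b : F) := by
      calc (1 : _) = 1 * 1 := (one_mul 1).symm
        _ ≤ V.valuation (a : F) * V.valuation (b : F) := mul_le_mul' hcon.1 hcon.2
    exact absurd hab (not_lt.2 h1)

end Ring

section Main

variable {K F : Type*} [Field K] [Field F] [Algebra K F]
variable {O : ValuationSubring K} {V₁ V₂ : ValuationSubring F} {ϖ : K}

/-- `V ∩ K = O` on non-units: for `r ∈ O`, `r` is a non-unit of `O` iff it is one of `V`. -/
theorem val_algebraMap_lt_one_iff (hO : IsUnif O ϖ) (hu : IsUnif V₁ (algebraMap K F ϖ))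
    (le₁ : ∀ a ∈ O, algebraMap K F a ∈ V₁) {r : K} (hr : r ∈ O) :
    V₁.valuation (algebraMap K F r) < 1 ↔ O.valuation r < 1 := by
  constructor
  · intro h
    by_contra hcon
    have h1 : O.valuation r = 1 :=
      le_antisymm ((O.valuation_le_one_iff r).2 hr) (not_lt.1 hcon)
    have hr0 : r ≠ 0 := by
      rintro rfl
      rw [map_zero] at h1
      exact zero_ne_one h1
    have h2 : r⁻¹ ∈ O := by
      rw [← O.valuation_le_one_iff, map_inv₀, h1, inv_one]
    have h3 : V₁.valuation (algebraMap K F r⁻¹) ≤ 1 := (V₁.valuation_le_one_iff _).2 (le₁ _ h2)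
    have h4 : V₁.valuation (algebraMap K F r) * V₁.valuation (algebraMap K F r⁻¹) = 1 := by
      rw [← map_mul, ← map_mul, mul_inv_cancel₀ hr0, map_one, map_one]
    have h5 : V₁.valuation (algebraMap K F r) * V₁.valuation (algebraMap K F r⁻¹) < 1 := by
      calc V₁.valuation (algebraMap K F r) * V₁.valuation (algebraMap K F r⁻¹)
          ≤ V₁.valuation (algebraMap K F r) * 1 := mul_le_mul_right h3 _
        _ < 1 := by rw [mul_one]; exact h
    rw [h4] at h5
    exact lt_irrefl _ h5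
  · intro h
    have h1 : r * ϖ⁻¹ ∈ O := hO.mul_inv_mem_iff.2 h
    have h2 : algebraMap K F r = algebraMap K F (r * ϖ⁻¹) * algebraMap K F ϖ := by
      rw [← map_mul, mul_assoc, inv_mul_cancel₀ hO.ne_zero, mul_one]
    rw [h2, map_mul]
    calc V₁.valuation (algebraMap K F (r * ϖ⁻¹)) * V₁.valuation (algebraMap K F ϖ)
        ≤ 1 * V₁.valuation (algebraMap K F ϖ) :=
          mul_le_mul_left ((V₁.valuation_le_one_iff _).2 (le₁ _ h1)) _
      _ < 1 := by rw [one_mul]; exact hu.val_lt_one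

/-- **Unit discriminant.**  In the situation of `H48.TwoExt` (two unramified extensions `V₁ ≠ V₂`
of `O` exhausting the degree), if both residue extensions are separable, then the discriminant
of every good family `m` is a unit of `O`. -/
theorem discr_unit_of_isGood [FiniteDimensional K F]
    {ι : Type*} [Fintype ι] [DecidableEq ι] {m : ι → F}
    (hO : IsUnif O ϖ) (hu₁ : IsUnif V₁ (algebraMap K F ϖ)) (hu₂ : IsUnif V₂ (algebraMap K F ϖ))
    (le₁ : ∀ a ∈ O, algebraMap K F a ∈ V₁) (le₂ : ∀ a ∈ O, algebraMap K F a ∈ V₂)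
    (hne : V₁ ≠ V₂)
    (hm : TwoExt.IsGood O V₁ V₂ ϖ m) (hcard : Fintype.card ι = Module.finrank K F)
    (hs₁ : ∀ f : F, f ∈ V₁ → f ∈ V₂ → ∃ Q : Polynomial O,
        V₁.valuation (Q.eval₂ ((algebraMap K F).comp O.subtype) f) < 1 ∧
        V₁.valuation ((derivative Q).eval₂ ((algebraMap K F).comp O.subtype) f) = 1)
    (hs₂ : ∀ f : F, f ∈ V₁ → f ∈ V₂ → ∃ Q : Polynomial O,
        V₂.valuation (Q.eval₂ ((algebraMap K F).comp O.subtype) f) < 1 ∧
        V₂.valuation ((derivative Q).eval₂ ((algebraMap K F).comp O.subtype) f) = 1) :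
    O.valuation (Algebra.discr K m) = 1 := by
  classical
  set π := algebraMap K F ϖ with hπ
  have hπ0 : π ≠ 0 := hu₁.ne_zero
  -- the basis of `F / K`
  have hpos : 0 < Module.finrank K F := Module.finrank_pos
  haveI : Nonempty ι := by
    rw [← Fintype.card_pos_iff, hcard]; exact hpos
  set B := basisOfLinearIndependentOfCardEqFinrank (hm.linearIndependent hO) hcard with hBdef
  have hB : ∀ l, B l = m l := fun l => by
    rw [hBdef, coe_basisOfLinearIndependentOfCardEqFinrank]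
  -- the ring `S = V₁ ∩ V₂` as an `O`-algebra
  letI algS : Algebra O (twoRing V₁ V₂) := (twoRingHom le₁ le₂).toAlgebra
  have hcoe_alg : ∀ r : O, ((algebraMap O (twoRing V₁ V₂) r : twoRing V₁ V₂) : F) =
      algebraMap K F (r : K) := fun _ => rfl
  have hsmul : ∀ (r : O) (s : twoRing V₁ V₂), ((r • s : twoRing V₁ V₂) : F) =
      (r : K) • (s : F) := by
    intro r s
    rw [Algebra.smul_def, Subring.coe_mul, hcoe_alg, Algebra.smul_def]
  -- the coordinate map
  let φ : twoRing V₁ V₂ →ₗ[O] (ι → O) :=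
    { toFun := fun s l => ⟨B.repr (s : F) l,
        TwoExt.IsGood.repr_mem hO le₁ le₂ hm B hB s.2.1 s.2.2 l⟩
      map_add' := fun s t => by
        funext l
        apply Subtype.ext
        simp only [Subring.coe_add, map_add, Finsupp.coe_add, Pi.add_apply]
        rfl
      map_smul' := fun r s => by
        funext l
        apply Subtype.ext
        simp only [hsmul, map_smul, Finsupp.coe_smul, Pi.smul_apply, RingHom.id_apply]
        rfl }
  have hφ : ∀ (s : twoRing V₁ V₂) (l : ι), ((φ s l : O) : K) = B.repr (s : F) l := fun _ _ => rfl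
  have hφinj : Function.Injective φ := by
    intro s t hst
    apply Subtype.ext
    apply B.repr.injective
    ext l
    rw [← hφ, ← hφ, hst]
  have hmS : ∀ l, m l ∈ twoRing V₁ V₂ := fun l => ⟨hm.1 l, hm.2.1 l⟩
  have hφm : ∀ l, φ ⟨m l, hmS l⟩ = Pi.single l 1 := by
    intro l
    funext l'
    apply Subtype.ext
    rw [hφ]
    show B.repr (m l) l' = (((Pi.single l (1 : O) : ι → O) l' : O) : K)
    rw [← hB, B.repr_self, Finsupp.single_apply, Pi.single_apply]
    by_cases h : l = l'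
    · subst h; simp
    · rw [if_neg h, if_neg (fun h' => h h'.symm)]; rfl
  have hφsurj : Function.Surjective φ := by
    intro f
    refine ⟨∑ l, f l • (⟨m l, hmS l⟩ : twoRing V₁ V₂), ?_⟩
    rw [map_sum]
    simp only [map_smul, hφm]
    funext l'
    rw [Finset.sum_apply]
    simp only [Pi.smul_apply, Pi.single_apply, smul_eq_mul, mul_ite, mul_one, mul_zero]
    rw [Finset.sum_eq_single l']
    · simp
    · intro l _ hl
      rw [if_neg (fun h => hl h.symm)]
    · intro h
      exact absurd (Finset.mem_univ l') h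
  let bS : Module.Basis ι O (twoRing V₁ V₂) :=
    Module.Basis.ofEquivFun (LinearEquiv.ofBijective φ ⟨hφinj, hφsurj⟩)
  have hbS : ∀ l, bS l = ⟨m l, hmS l⟩ := by
    intro l
    show (Module.Basis.ofEquivFun (LinearEquiv.ofBijective φ ⟨hφinj, hφsurj⟩)) l = _
    rw [Module.Basis.coe_ofEquivFun]
    rw [LinearEquiv.symm_apply_eq]
    exact (hφm l).symm
  have hbSrepr : ∀ (s : twoRing V₁ V₂) (l : ι), ((bS.repr s l : O) : K) = B.repr (s : F) l := by
    intro s l
    show (((Module.Basis.ofEquivFun (LinearEquiv.ofBijective φ ⟨hφinj, hφsurj⟩)).repr s l : O)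
      : K) = _
    rw [Module.Basis.ofEquivFun_repr_apply]
    rfl
  haveI : Module.Free O (twoRing V₁ V₂) := Module.Free.of_basis bS
  haveI : Module.Finite O (twoRing V₁ V₂) := Module.Finite.of_basis bS
  haveI : Algebra.IsIntegral O (twoRing V₁ V₂) := Algebra.IsIntegral.of_finite _ _
  -- the two primes
  set P₁ : Ideal (twoRing V₁ V₂) := valIdeal (twoRing V₁ V₂) V₁ (fun z hz => hz.1) with hP₁
  set P₂ : Ideal (twoRing V₁ V₂) := valIdeal (twoRing V₁ V₂) V₂ (fun z hz => hz.2) with hP₂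
  have hP₁prime : P₁.IsPrime := valIdeal_isPrime _ _ _
  have hP₂prime : P₂.IsPrime := valIdeal_isPrime _ _ _
  have hϖmem : (⟨ϖ, hO.mem⟩ : O) ∈ IsLocalRing.maximalIdeal O :=
    (ValuationSubring.valuation_lt_one_iff O _).2 hO.val_lt_one
  have hmap₁ : Ideal.map (algebraMap O (twoRing V₁ V₂)) (IsLocalRing.maximalIdeal O) ≤ P₁ := by
    rw [Ideal.map_le_iff_le_comap]
    intro r hr
    rw [Ideal.mem_comap, hP₁, mem_valIdeal, hcoe_alg]
    exact (val_algebraMap_lt_one_iff hO hu₁ le₁ r.2).2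
      ((ValuationSubring.valuation_lt_one_iff O r).1 hr)
  have hmap₂ : Ideal.map (algebraMap O (twoRing V₁ V₂)) (IsLocalRing.maximalIdeal O) ≤ P₂ := by
    rw [Ideal.map_le_iff_le_comap]
    intro r hr
    rw [Ideal.mem_comap, hP₂, mem_valIdeal, hcoe_alg]
    exact (val_algebraMap_lt_one_iff hO hu₂ le₂ r.2).2
      ((ValuationSubring.valuation_lt_one_iff O r).1 hr)
  have hinf : P₁ ⊓ P₂ = Ideal.map (algebraMap O (twoRing V₁ V₂)) (IsLocalRing.maximalIdeal O) := by
    refine le_antisymm ?_ (le_inf hmap₁ hmap₂)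
    rintro s ⟨hs1, hs2⟩
    have h1 : (s : F) * π⁻¹ ∈ V₁ := hu₁.mul_inv_mem_iff.2 hs1
    have h2 : (s : F) * π⁻¹ ∈ V₂ := hu₂.mul_inv_mem_iff.2 hs2
    have hs : s = algebraMap O (twoRing V₁ V₂) ⟨ϖ, hO.mem⟩ *
        (⟨(s : F) * π⁻¹, h1, h2⟩ : twoRing V₁ V₂) := by
      apply Subtype.ext
      rw [Subring.coe_mul, hcoe_alg]
      show (s : F) = π * ((s : F) * π⁻¹)
      field_simp
    rw [hs]
    exact Ideal.mul_mem_right _ _ (Ideal.mem_map_of_mem _ hϖmem)
  have hcomap : ∀ P : Ideal (twoRing V₁ V₂), P.IsPrime →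
      Ideal.map (algebraMap O (twoRing V₁ V₂)) (IsLocalRing.maximalIdeal O) ≤ P → P.IsMaximal := by
    intro P hP hle
    haveI := hP
    apply Ideal.isMaximal_of_isIntegral_of_isMaximal_comap (R := O) P
    have : Ideal.comap (algebraMap O (twoRing V₁ V₂)) P = IsLocalRing.maximalIdeal O :=
      ((IsLocalRing.maximalIdeal.isMaximal O).eq_of_le (Ideal.comap_ne_top _ hP.ne_top)
        (Ideal.map_le_iff_le_comap.1 hle)).symm
    rw [this]
    exact IsLocalRing.maximalIdeal.isMaximal O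
  have hP₁max : P₁.IsMaximal := hcomap P₁ hP₁prime hmap₁
  have hP₂max : P₂.IsMaximal := hcomap P₂ hP₂prime hmap₂
  have hPne : P₁ ≠ P₂ := by
    obtain ⟨g, hg1, hg2, hg3⟩ := exists_approx hu₁ hu₂ hne (f := 1) (k := 0) (one_mem _)
      (by rw [pow_zero, one_mul]; exact one_mem _)
    have hgV₂ : g ∈ V₂ := by
      have : g = g * π⁻¹ * π := by field_simp
      rw [this]
      exact mul_mem hg3 hu₂.mem
    intro hP
    have hgP₂ : (⟨g, hg1, hgV₂⟩ : twoRing V₁ V₂) ∈ P₂ := by
      rw [hP₂, mem_valIdeal]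
      exact hu₂.mul_inv_mem_iff.1 hg3
    rw [← hP, hP₁, mem_valIdeal] at hgP₂
    have h1 : V₁.valuation (g - 1) < 1 := hu₁.mul_inv_mem_iff.1 hg2
    have h2 : V₁.valuation (1 : F) < 1 := by
      have : (1 : F) = g - (g - 1) := by ring
      rw [this]
      exact Valuation.map_sub_lt _ hgP₂ h1
    rw [map_one] at h2
    exact lt_irrefl _ h2
  -- evaluation of polynomials
  have hev : ∀ (Q : Polynomial O) (s : twoRing V₁ V₂),
      ((aeval s Q : twoRing V₁ V₂) : F) = Q.eval₂ ((algebraMap K F).comp O.subtype) (s : F) := by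
    intro Q s
    have h := Polynomial.hom_eval₂ Q (algebraMap O (twoRing V₁ V₂)) (twoRing V₁ V₂).subtype s
    rw [aeval_def]
    exact h
  have hsepS₁ : ∀ s : twoRing V₁ V₂, ∃ Q : Polynomial O,
      aeval s Q ∈ P₁ ∧ aeval s (derivative Q) ∉ P₁ := by
    intro s
    obtain ⟨Q, hQ1, hQ2⟩ := hs₁ s s.2.1 s.2.2
    refine ⟨Q, ?_, ?_⟩
    · rw [hP₁, mem_valIdeal, hev]; exact hQ1
    · rw [hP₁, mem_valIdeal, hev, hQ2]; exact lt_irrefl _
  have hsepS₂ : ∀ s : twoRing V₁ V₂, ∃ Q : Polynomial O,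
      aeval s Q ∈ P₂ ∧ aeval s (derivative Q) ∉ P₂ := by
    intro s
    obtain ⟨Q, hQ1, hQ2⟩ := hs₂ s s.2.1 s.2.2
    refine ⟨Q, ?_, ?_⟩
    · rw [hP₂, mem_valIdeal, hev]; exact hQ1
    · rw [hP₂, mem_valIdeal, hev, hQ2]; exact lt_irrefl _
  have hunit : IsUnit (Algebra.discr O bS) :=
    isUnit_discr_of_two_maximal bS P₁ P₂ hP₁max hP₂max hPne hinf hsepS₁ hsepS₂
  -- comparison of traces and discriminants
  have htr : ∀ s : twoRing V₁ V₂, ((Algebra.trace O (twoRing V₁ V₂) s : O) : K) =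
      Algebra.trace K F (s : F) := by
    intro s
    rw [Algebra.trace_eq_matrix_trace bS, Algebra.trace_eq_matrix_trace B, Matrix.trace,
      Matrix.trace]
    rw [← ValuationSubring.algebraMap_apply, map_sum]
    refine Finset.sum_congr rfl fun i _ => ?_
    rw [Matrix.diag_apply, Matrix.diag_apply, Algebra.leftMulMatrix_eq_repr_mul,
      Algebra.leftMulMatrix_eq_repr_mul, ValuationSubring.algebraMap_apply, hbSrepr,
      Subring.coe_mul, hbS, hB]
  have hdiscr : ((Algebra.discr O bS : O) : K) = Algebra.discr K m := by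
    rw [Algebra.discr_def, Algebra.discr_def, ← ValuationSubring.algebraMap_apply,
      RingHom.map_det]
    congr 1
    ext i j
    rw [RingHom.mapMatrix_apply, Matrix.map_apply, Algebra.traceMatrix_apply,
      Algebra.traceMatrix_apply, Algebra.traceForm_apply, Algebra.traceForm_apply,
      ValuationSubring.algebraMap_apply, htr, Subring.coe_mul, hbS, hbS]
  obtain ⟨u, hu⟩ := hunit
  rw [← hdiscr, ← hu]
  exact ValuationSubring.valuation_unit O u

end Main

end Fermat.Agent.A2.Mod.H732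

end
end
-- ===== PACK-END A2/Mod/H732/SepTwoVal.lean

-- ===== PACK-BEGIN S28/H208/Twist.lean
section
/-
S28 [L3]: twist automorphism `t ↦ c·t` of Laurent series and its interaction with `qExpand`.
-/



set_option autoImplicit false

noncomputable section

open ModularCurve HahnSeries

namespace Fermat.Agent.S28.H208

variable {k : Type*} [Field k]

/-- Twist `Σ aₙ tⁿ ↦ Σ aₙ cⁿ tⁿ`. -/
def twFun (c : k) (f : LaurentSeries k) : LaurentSeries k where
  coeff n := c ^ n * f.coeff n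
  isPWO_support' := f.isPWO_support.mono fun n hn => by
    simp only [Function.mem_support, ne_eq] at hn ⊢
    intro h
    exact hn (by rw [h, mul_zero])

@[simp] theorem twFun_coeff (c : k) (f : LaurentSeries k) (n : ℤ) :
    (twFun c f).coeff n = c ^ n * f.coeff n := rfl

theorem twFun_support (c : k) (hc : c ≠ 0) (f : LaurentSeries k) :
    (twFun c f).support = f.support := by
  ext n
  simp only [HahnSeries.mem_support, twFun_coeff, ne_eq, mul_eq_zero, not_or]
  constructor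
  · exact fun h => h.2
  · exact fun h => ⟨zpow_ne_zero n hc, h⟩

theorem twFun_mul (c : k) (hc : c ≠ 0) (x y : LaurentSeries k) :
    twFun c (x * y) = twFun c x * twFun c y := by
  ext n
  rw [twFun_coeff, HahnSeries.coeff_mul, HahnSeries.coeff_mul, Finset.mul_sum]
  symm
  refine Finset.sum_congr ?_ fun ij hij => ?_
  · ext ij
    simp only [Finset.mem_antidiagonal, twFun_support c hc]
  · have h : ij.1 + ij.2 = n := (Finset.mem_antidiagonal.mp hij).2.2
    rw [twFun_coeff, twFun_coeff, ← h, zpow_add₀ hc]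
    ring

/-- The twist as a ring homomorphism. -/
def tw (c : k) (hc : c ≠ 0) : LaurentSeries k →+* LaurentSeries k where
  toFun := twFun c
  map_one' := by
    ext n
    rw [twFun_coeff, HahnSeries.coeff_one]
    split_ifs with h
    · subst h; simp
    · simp
  map_mul' := twFun_mul c hc
  map_zero' := by
    ext n
    simp
  map_add' x y := by
    ext n
    simp [mul_add]

@[simp] theorem tw_coeff (c : k) (hc : c ≠ 0) (f : LaurentSeries k) (n : ℤ) :
    (tw c hc f).coeff n = c ^ n * f.coeff n := rfl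

/-- Twisting a series in `t^m` by `c` with `c^m = 1` does nothing. -/
theorem tw_qExpand_of_pow_eq_one (c : k) (hc : c ≠ 0) (m : ℕ) [NeZero m] (hcm : c ^ m = 1)
    (f : LaurentSeries k) : tw c hc (qExpand k m f) = qExpand k m f := by
  ext n
  rw [tw_coeff]
  by_cases hn : (m : ℤ) ∣ n
  · obtain ⟨a, rfl⟩ := hn
    rw [zpow_mul, zpow_natCast, hcm, one_zpow, one_mul]
  · rw [qExpand_coeff_of_not_dvd m f hn, mul_zero]

end Fermat.Agent.S28.H208

end

end
-- ===== PACK-END S28/H208/Twist.lean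

-- ===== PACK-BEGIN S28/H208/RootList.lean
section
/-
S28 [L3]: consequences of `ModPolyData` over arbitrary coefficient rings and the
root list of `Φ_p(X, j(t^p))` over a field containing a primitive `p`-th root of unity.
-/




set_option autoImplicit false

noncomputable section

open ModularCurve Polynomial

namespace Fermat.Agent.S28.H208

section Hom

variable {S S' : Type*} [CommRing S] [CommRing S']

/-- Evaluation `ℤ[Y] → S`, `Y ↦ y` (same as `evalAt`, for an arbitrary target ring). -/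
abbrev evZ (y : S) : Polynomial ℤ →+* S := (Polynomial.aeval (R := ℤ) y).toRingHom

theorem evZ_comp (h : S →+* S') (y : S) : h.comp (evZ y) = evZ (h y) := by
  refine Polynomial.ringHom_ext' (Subsingleton.elim _ _) ?_
  simp [evZ]

theorem evalAt_eq_evZ {A : Type*} [CommRing A] (y : LaurentSeries A) : evalAt y = evZ y := by
  refine Polynomial.ringHom_ext' (Subsingleton.elim _ _) ?_
  simp [evZ, evalAt]

theorem eval₂_evZ_hom (h : S →+* S') (Φ : Polynomial (Polynomial ℤ)) (y x : S)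
    (hx : Φ.eval₂ (evZ y) x = 0) : Φ.eval₂ (evZ (h y)) (h x) = 0 := by
  rw [← evZ_comp, ← Polynomial.hom_eval₂, hx, map_zero]

theorem map_map_evZ (h : S →+* S') (Φ : Polynomial (Polynomial ℤ)) (y : S) :
    (Φ.map (evZ y)).map h = Φ.map (evZ (h y)) := by
  rw [Polynomial.map_map, evZ_comp]

end Hom

section Ring

variable (A : Type*) [CommRing A] {p : ℕ} [NeZero p] (D : ModPolyData p)

theorem coeffMap_int_jd (d : ℕ) [NeZero d] :
    coeffMap (Int.castRingHom A) (qExpand ℤ d (jqModC ℤ)) = qExpand A d (jqModC A) := by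
  rw [coeffMap_qExpand, coeffMap_jqModC]

/-- `Φ_p(j(q^p), j(q)) = 0` over any commutative ring. -/
theorem eval_jp_ring : D.Φ.eval₂ (evZ (jqModC A)) (qExpand A p (jqModC A)) = 0 := by
  have h := eval₂_evZ_hom (coeffMap (Int.castRingHom A)) D.Φ (jqModC ℤ)
    (qExpand ℤ p (jqModC ℤ)) (by rw [← evalAt_eq_evZ]; exact D.eval_jp)
  rwa [coeffMap_int_jd, coeffMap_jqModC] at h

/-- `Φ_p(j(q), j(q^p)) = 0` over any commutative ring. -/
theorem eval_j_ring : D.Φ.eval₂ (evZ (qExpand A p (jqModC A))) (jqModC A) = 0 := by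
  have h := eval₂_evZ_hom (coeffMap (Int.castRingHom A)) D.Φ (qExpand ℤ p (jqModC ℤ))
    (jqModC ℤ) (by rw [← evalAt_eq_evZ]; exact D.eval_j)
  rwa [coeffMap_int_jd, coeffMap_jqModC] at h

/-- `Φ_p(j(q^{mp}), j(q^m)) = 0`. -/
theorem eval_jp_ring_qExpand (m : ℕ) [NeZero m] [NeZero (m * p)] :
    D.Φ.eval₂ (evZ (qExpand A m (jqModC A))) (qExpand A (m * p) (jqModC A)) = 0 := by
  have h := eval₂_evZ_hom (qExpand A m) D.Φ _ _ (eval_jp_ring A D)
  rwa [qExpand_qExpand] at h

/-- `Φ_p(j(q^m), j(q^{mp})) = 0`. -/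
theorem eval_j_ring_qExpand (m : ℕ) [NeZero m] [NeZero (m * p)] :
    D.Φ.eval₂ (evZ (qExpand A (m * p) (jqModC A))) (qExpand A m (jqModC A)) = 0 := by
  have h := eval₂_evZ_hom (qExpand A m) D.Φ _ _ (eval_j_ring A D)
  rwa [qExpand_qExpand] at h

end Ring

section Coeff

variable (A : Type*) [CommRing A]

theorem coeff_jd_neg (d : ℕ) [NeZero d] :
    (qExpand A d (jqModC A)).coeff (-(d : ℤ)) = 1 := by
  have h := qExpand_coeff_mul (R := A) d (jqModC A) (-1)
  rw [coeff_jqModC_neg_one] at h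
  rwa [mul_neg, mul_one] at h

theorem coeff_jd_of_lt (d : ℕ) [NeZero d] {n : ℤ} (hn : n < -(d : ℤ)) :
    (qExpand A d (jqModC A)).coeff n = 0 := by
  by_cases hdn : (d : ℤ) ∣ n
  · obtain ⟨a, rfl⟩ := hdn
    rw [qExpand_coeff_mul]
    have hd : (0 : ℤ) < d := by exact_mod_cast Nat.pos_of_ne_zero (NeZero.ne d)
    have ha : a < -1 := by
      by_contra hcon
      have hcon' : -1 ≤ a := not_lt.mp hcon
      nlinarith
    have := coeff_jqModC_pow_of_lt A (b := 1) (m := a) (by simpa using ha)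
    simpa using this
  · exact qExpand_coeff_of_not_dvd d _ hdn

end Coeff

section Field

variable {K : Type*} [Field K] {p : ℕ} [NeZero p] (D : ModPolyData p)

/-- The `p + 1` roots of `Φ_p(X, j(t^p))` in `K((t))`: `j(t^{p²})` and `j(ζ^b t)`, `b < p`. -/
def rootAt (ζ : K) (hζ : ζ ≠ 0) : Option (Fin p) → LaurentSeries K
  | none => qExpand K (p * p) (jqModC K)
  | some b => tw (ζ ^ (b : ℕ)) (pow_ne_zero _ hζ) (jqModC K)

theorem rootAt_none_coeff_neg_one (hp : 1 < p) (ζ : K) (hζ : ζ ≠ 0) :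
    (rootAt (p := p) ζ hζ none).coeff (-1) = 0 := by
  apply qExpand_coeff_of_not_dvd
  intro h
  have h1 : ((p * p : ℕ) : ℤ) ∣ 1 := by simpa using (dvd_neg.mpr h)
  have h2 : (p * p : ℕ) ∣ 1 := by exact_mod_cast h1
  have h3 := Nat.le_of_dvd one_pos h2
  nlinarith

theorem rootAt_some_coeff_neg_one (ζ : K) (hζ : ζ ≠ 0) (b : Fin p) :
    (rootAt (p := p) ζ hζ (some b)).coeff (-1) = (ζ ^ (b : ℕ))⁻¹ := by
  show (tw _ _ (jqModC K)).coeff (-1) = _
  rw [tw_coeff, coeff_jqModC_neg_one, mul_one, zpow_neg_one]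

theorem rootAt_injective (hp : 1 < p) (ζ : K) (hζ : IsPrimitiveRoot ζ p) :
    Function.Injective (rootAt (p := p) ζ (hζ.ne_zero (NeZero.ne p))) := by
  have hζ0 : ζ ≠ 0 := hζ.ne_zero (NeZero.ne p)
  intro a b hab
  have hc : (rootAt ζ hζ0 a).coeff (-1) = (rootAt ζ hζ0 b).coeff (-1) := by rw [hab]
  rcases a with _ | a <;> rcases b with _ | b
  · rfl
  · rw [rootAt_none_coeff_neg_one hp, rootAt_some_coeff_neg_one] at hc
    exact absurd hc.symm (inv_ne_zero (pow_ne_zero _ hζ0))
  · rw [rootAt_none_coeff_neg_one hp, rootAt_some_coeff_neg_one] at hc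
    exact absurd hc (inv_ne_zero (pow_ne_zero _ hζ0))
  · rw [rootAt_some_coeff_neg_one, rootAt_some_coeff_neg_one] at hc
    have h := hζ.pow_inj a.2 b.2 (inv_injective hc)
    exact congrArg some (Fin.ext h)

theorem rootAt_isRoot (ζ : K) (hζ : IsPrimitiveRoot ζ p) (i : Option (Fin p)) :
    (D.Φ.map (evZ (qExpand K p (jqModC K)))).IsRoot (rootAt ζ (hζ.ne_zero (NeZero.ne p)) i) := by
  have hζ0 : ζ ≠ 0 := hζ.ne_zero (NeZero.ne p)
  rw [Polynomial.IsRoot, Polynomial.eval_map]
  rcases i with _ | b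
  · have h := eval_jp_ring_qExpand K D p
    exact h
  · have h := eval₂_evZ_hom (tw (ζ ^ (b : ℕ)) (pow_ne_zero _ hζ0)) D.Φ _ _ (eval_j_ring K D)
    rwa [tw_qExpand_of_pow_eq_one] at h
    rw [← pow_mul, mul_comm, pow_mul, hζ.pow_eq_one, one_pow]

/-- **Root list** of the modular polynomial at prime level. -/
theorem map_eq_prod_rootAt (hp : 1 < p) (ζ : K) (hζ : IsPrimitiveRoot ζ p) :
    D.Φ.map (evZ (qExpand K p (jqModC K))) =
      ∏ i : Option (Fin p), (X - C (rootAt ζ (hζ.ne_zero (NeZero.ne p)) i)) := by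
  have hmonic : (D.Φ.map (evZ (qExpand K p (jqModC K)))).Monic := D.monic.map _
  have hprod_monic : (∏ i : Option (Fin p),
      (X - C (rootAt ζ (hζ.ne_zero (NeZero.ne p)) i))).Monic :=
    Polynomial.monic_prod_of_monic _ _ fun i _ => Polynomial.monic_X_sub_C _
  have hdvd : (∏ i : Option (Fin p), (X - C (rootAt ζ (hζ.ne_zero (NeZero.ne p)) i))) ∣
      D.Φ.map (evZ (qExpand K p (jqModC K))) := by
    refine Finset.prod_dvd_of_coprime ?_ ?_
    · intro i _ j _ hij
      exact Polynomial.pairwise_coprime_X_sub_C (rootAt_injective hp ζ hζ) hij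
    · intro i _
      exact Polynomial.dvd_iff_isRoot.mpr (rootAt_isRoot D ζ hζ i)
  refine Polynomial.eq_of_monic_of_dvd_of_natDegree_le hprod_monic hmonic hdvd ?_
  rw [D.monic.natDegree_map, D.natDegree_eq, Polynomial.natDegree_prod_of_monic _ _
    fun i _ => Polynomial.monic_X_sub_C _]
  simp

/-- Root list after the substitution `t ↦ t^m`. -/
theorem map_eq_prod_rootAt_qExpand (hp : 1 < p) (ζ : K) (hζ : IsPrimitiveRoot ζ p)
    (m : ℕ) [NeZero m] [NeZero (m * p)] :
    D.Φ.map (evZ (qExpand K (m * p) (jqModC K))) =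
      ∏ i : Option (Fin p),
        (X - C (qExpand K m (rootAt ζ (hζ.ne_zero (NeZero.ne p)) i))) := by
  have h := congrArg (Polynomial.map (qExpand K m)) (map_eq_prod_rootAt D hp ζ hζ)
  rw [map_map_evZ, qExpand_qExpand, Polynomial.map_prod] at h
  rw [h]
  refine Finset.prod_congr rfl fun i _ => ?_
  rw [Polynomial.map_sub, Polynomial.map_X, Polynomial.map_C]

end Field

end Fermat.Agent.S28.H208

end

end
-- ===== PACK-END S28/H208/RootList.lean

-- ===== PACK-BEGIN S18/H602/BaseChange.lean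
section



/-!
# S18, piece d1 (continued): `laurentBaseChange L (modularFunctionFieldFull N)` is
`modularFunctionFieldFullC L N`  (owner helper602)

For every field `L` of characteristic zero, the base change to `L` of the rational function
field `ℚ(j(q^d) : d ∣ N)` is `L(j(q^d) : d ∣ N)`, inside `L((q))`.
-/

set_option autoImplicit false

noncomputable section

namespace Fermat.Agent.S18.H602

open ModularCurve AlgebraicCurve HahnSeries IntermediateField

section BaseChange

variable (L : Type*) [Field L] [Algebra ℚ L] (N : ℕ)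

theorem coeffEmb_qExpand_jq (d : ℕ) [NeZero d] :
    coeffEmb L (qExpand ℚ d jq) = qExpand L d (jqModC L) := by
  have h := coeffMap_jqNModC (algebraMap ℚ L) d
  exact h

theorem coeffEmb_mem_fullC {x : LaurentSeries ℚ} (hx : x ∈ modularFunctionFieldFull N) :
    coeffEmb L x ∈ modularFunctionFieldFullC L N := by
  unfold modularFunctionFieldFull at hx
  induction hx using IntermediateField.adjoin_induction with
  | mem y hy =>
      obtain ⟨d, hd, hdN, rfl⟩ := hy
      rw [coeffEmb_qExpand_jq]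
      exact jqModCd_mem_full L N hdN
  | algebraMap c =>
      have : coeffEmb L (algebraMap ℚ (LaurentSeries ℚ) c) =
          algebraMap L (LaurentSeries L) (algebraMap ℚ L c) := by
        rw [coeffEmb, algebraMap_laurentSeries_eq_single, algebraMap_laurentSeries_eq_single,
          coeffMap_single]
      rw [this]
      exact (modularFunctionFieldFullC L N).algebraMap_mem _
  | add x y _ _ hx hy => simpa using add_mem hx hy
  | inv x _ hx => simpa using inv_mem hx
  | mul x y _ _ hx hy => simpa using mul_mem hx hy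

/-- The base change of `ℚ(j(q^d) : d ∣ N)` to `L` is `L(j(q^d) : d ∣ N)`. -/
theorem laurentBaseChange_full_eq :
    laurentBaseChange L (modularFunctionFieldFull N) = modularFunctionFieldFullC L N := by
  apply le_antisymm
  · rw [laurentBaseChange, IntermediateField.adjoin_le_iff]
    rintro _ ⟨x, hx, rfl⟩
    exact coeffEmb_mem_fullC L N hx
  · rw [modularFunctionFieldFullC, IntermediateField.adjoin_le_iff]
    rintro _ ⟨d, hd, hdN, rfl⟩
    rw [← coeffEmb_qExpand_jq]
    exact coeffEmb_mem_laurentBaseChange L (jqd_mem_full N hdN)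

theorem modularFunctionFieldBar_eq :
    modularFunctionFieldBar N = modularFunctionFieldFullC (AlgebraicClosure ℚ) N :=
  laurentBaseChange_full_eq _ N

end BaseChange

end Fermat.Agent.S18.H602

end
end
-- ===== PACK-END S18/H602/BaseChange.lean

-- ===== PACK-BEGIN A2/H552/Const.lean
section








/-!
# A2 / ALG (c1), part 2 (helper552): no new constants in an unramified extension

`R` a Henselian discrete valuation ring of characteristic zero with algebraically closed residue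
field, uniformiser `w`.

* `exists_algebraMap_eq_of_isAlgebraic` (ring form): `O ⊇ R` a domain whose non-units are exactly
  the multiples of `w` (a local ring with maximal ideal `w O`: "`e = 1`"; no finiteness, no
  noetherianity, no rank assumption).  Then every element of `O` algebraic over `R` lies in `R`.
* `mem_range_of_isAlgebraic_of_valuationSubring` (field form): `E = Frac R`, `L / E` any field
  extension, `V` a valuation subring of `L` containing `R` in which `w` is a non-unit generating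
  the non-units.  Then every element of `L` algebraic over `E` lies in `E`.

Application (A2, route G, step (c1)): `E` is algebraically closed in the Kummer cover `𝔽` of `F`
as soon as ONE of the two Gauss valuations `V₁` of `F` (uniformiser `w`) has an extension to `𝔽`
with `e = 1` (e.g. when `V₁` splits completely).
-/

set_option autoImplicit false

namespace Fermat.Agent.A2.H552

open Polynomial IsLocalRing

section RingForm

variable {R O : Type*} [CommRing R] [IsDomain R] [IsDiscreteValuationRing R]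
  [CommRing O] [IsDomain O] [Algebra R O]

/-- If `w^n` divides `r` in `O`, it does so in `R`. -/
theorem pow_dvd_of_map_pow_dvd {w : R} (hw : Irreducible w)
    (hwO : ¬ IsUnit (algebraMap R O w)) (hinj : Function.Injective (algebraMap R O))
    (n : ℕ) (r : R) (h : algebraMap R O w ^ n ∣ algebraMap R O r) : w ^ n ∣ r := by
  rcases eq_or_ne r 0 with rfl | hr
  · exact dvd_zero _
  obtain ⟨a, u, rfl⟩ := IsDiscreteValuationRing.eq_unit_mul_pow_irreducible hr hw
  rcases le_or_gt n a with hna | hna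
  · exact Dvd.dvd.mul_left (pow_dvd_pow w hna) _
  exfalso
  obtain ⟨k, rfl⟩ : ∃ k, n = a + (k + 1) := ⟨n - a - 1, by omega⟩
  have hw0 : algebraMap R O w ≠ 0 := by
    intro h0
    exact hw.ne_zero (hinj (by rw [h0, map_zero]))
  rw [map_mul, map_pow, pow_add, mul_comm (algebraMap R O (u : R))] at h
  have h' := (mul_dvd_mul_iff_left (pow_ne_zero a hw0)).mp h
  have h'' : algebraMap R O w ∣ algebraMap R O (u : R) :=
    (dvd_pow_self _ (Nat.succ_ne_zero k)).trans h'
  exact hwO (isUnit_of_dvd_unit h'' (u.isUnit.map (algebraMap R O)))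

variable [IsAlgClosed (ResidueField R)]

/-- The residue field of `O` is that of `R`: every element of `O` algebraic over `R` is
congruent modulo `w` to an element of `R`. -/
theorem exists_sub_dvd_of_isAlgebraic {w : R} (hw : Irreducible w)
    (hnu : ∀ b : O, ¬ IsUnit b → algebraMap R O w ∣ b)
    (hwO : ¬ IsUnit (algebraMap R O w)) (hinj : Function.Injective (algebraMap R O))
    (β : O) (hβ : IsAlgebraic R β) : ∃ b : R, algebraMap R O w ∣ β - algebraMap R O b := by
  obtain ⟨p, hp0, hp⟩ := hβ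
  have hmax : maximalIdeal R = Ideal.span {w} := hw.maximalIdeal_eq
  have hw0 : algebraMap R O w ≠ 0 := by
    intro h0
    exact hw.ne_zero (hinj (by rw [h0, map_zero]))
  have hCw : ¬ IsUnit (C w : R[X]) := by
    rw [Polynomial.isUnit_iff]
    rintro ⟨r, hr, hrw⟩
    rw [C_inj] at hrw
    exact hw.not_isUnit (hrw ▸ hr)
  -- make `p` primitive
  obtain ⟨n, p₀, hndvd, rfl⟩ := WfDvdMonoid.max_power_factor' hp0 hCw
  have hp₀ : aeval β p₀ = 0 := by
    rw [map_mul, map_pow, aeval_C] at hp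
    exact (mul_eq_zero.mp hp).resolve_left (pow_ne_zero n hw0)
  have hbar : p₀.map (residue R) ≠ 0 := by
    intro h
    apply hndvd
    rw [C_dvd_iff_dvd_coeff]
    intro i
    have hi : residue R (p₀.coeff i) = 0 := by
      rw [← coeff_map, h, coeff_zero]
    rw [residue_eq_zero_iff, hmax, Ideal.mem_span_singleton] at hi
    exact hi
  -- split the reduction and lift the factorisation
  set pb := p₀.map (residue R) with hpb
  have hsplit : pb = C pb.leadingCoeff * (pb.roots.map fun x => X - C x).prod :=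
    (IsAlgClosed.splits pb).eq_prod_roots
  have hsurj : Function.Surjective (residue R) := Ideal.Quotient.mk_surjective
  let lift : ResidueField R → R := Function.surjInv hsurj
  have hlift : ∀ x, residue R (lift x) = x := Function.surjInv_eq hsurj
  set ℓ := lift pb.leadingCoeff with hℓ
  have hℓu : IsUnit ℓ := by
    rw [← IsLocalRing.notMem_maximalIdeal, ← residue_eq_zero_iff, hℓ, hlift]
    exact leadingCoeff_ne_zero.mpr hbar
  set P : R[X] := C ℓ * (pb.roots.map fun x => X - C (lift x)).prod with hP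
  have hPbar : P.map (residue R) = pb := by
    rw [hP, Polynomial.map_mul, map_C, hℓ, hlift, Polynomial.map_multiset_prod,
      Multiset.map_map]
    conv_rhs => rw [hsplit]
    congr 2
    refine Multiset.map_congr rfl fun x _ => ?_
    simp [hlift]
  have hdiff : C w ∣ p₀ - P := by
    rw [C_dvd_iff_dvd_coeff]
    intro i
    have hi : residue R ((p₀ - P).coeff i) = 0 := by
      rw [← coeff_map, Polynomial.map_sub, hPbar, ← hpb, sub_self, coeff_zero]
    rw [residue_eq_zero_iff, hmax, Ideal.mem_span_singleton] at hi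
    exact hi
  obtain ⟨Q, hQ⟩ := hdiff
  have heval : aeval β P = - (algebraMap R O w * aeval β Q) := by
    have h1 : aeval β p₀ - aeval β P = algebraMap R O w * aeval β Q := by
      rw [← map_sub, hQ, map_mul, aeval_C]
    rw [hp₀, zero_sub] at h1
    rw [← h1, neg_neg]
  have hPeval : aeval β P = algebraMap R O ℓ *
      (pb.roots.map fun x => β - algebraMap R O (lift x)).prod := by
    rw [hP, map_mul, aeval_C, map_multiset_prod, Multiset.map_map]
    congr 2
    refine Multiset.map_congr rfl fun x _ => ?_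
    simp
  by_contra hcon
  have hunits : ∀ x ∈ pb.roots, IsUnit (β - algebraMap R O (lift x)) := by
    intro x _
    by_contra hx
    exact hcon ⟨lift x, hnu _ hx⟩
  have hprod : IsUnit (pb.roots.map fun x => β - algebraMap R O (lift x)).prod := by
    apply Multiset.prod_induction (p := fun y : O => IsUnit y)
    · intro a b ha hb; exact ha.mul hb
    · exact isUnit_one
    · intro y hy
      obtain ⟨x, hx, rfl⟩ := Multiset.mem_map.mp hy
      exact hunits x hx
  have hPu : IsUnit (aeval β P) := by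
    rw [hPeval]
    exact (hℓu.map (algebraMap R O)).mul hprod
  apply hwO
  refine isUnit_of_dvd_unit ?_ hPu
  rw [heval]
  exact (Dvd.intro _ rfl).neg_right ..

/-- Successive approximation: an element of `O` algebraic over `R` is congruent to an element
of `R` modulo every power of `w`. -/
theorem exists_pow_dvd_sub_of_isAlgebraic {w : R} (hw : Irreducible w)
    (hnu : ∀ b : O, ¬ IsUnit b → algebraMap R O w ∣ b)
    (hwO : ¬ IsUnit (algebraMap R O w)) (hinj : Function.Injective (algebraMap R O))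
    (α : O) (hα : IsAlgebraic R α) (j : ℕ) :
    ∃ s : R, algebraMap R O w ^ j ∣ α - algebraMap R O s := by
  have hw0 : algebraMap R O w ≠ 0 := by
    intro h0
    exact hw.ne_zero (hinj (by rw [h0, map_zero]))
  induction j with
  | zero => exact ⟨0, by simp⟩
  | succ j ih =>
    obtain ⟨s, β, hβ⟩ := ih
    have hβalg : IsAlgebraic R β := by
      refine IsAlgebraic.of_mul (y := algebraMap R O w ^ j)
        (mem_nonZeroDivisors_of_ne_zero (pow_ne_zero j hw0)) ?_ ?_
      · rw [← map_pow]; exact isAlgebraic_algebraMap _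
      · rw [← hβ]; exact hα.sub (isAlgebraic_algebraMap s)
    obtain ⟨b, γ, hγ⟩ := exists_sub_dvd_of_isAlgebraic hw hnu hwO hinj β hβalg
    refine ⟨s + w ^ j * b, γ, ?_⟩
    rw [map_add, map_mul, map_pow, pow_succ]
    linear_combination hβ + algebraMap R O w ^ j * hγ

omit [IsAlgClosed (ResidueField R)] in
/-- A nonzero element of `O` algebraic over `R` has finite `w`-adic valuation. -/
theorem exists_eq_pow_mul_unit_of_isAlgebraic {w : R} (hw : Irreducible w)
    (hnu : ∀ b : O, ¬ IsUnit b → algebraMap R O w ∣ b)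
    (hwO : ¬ IsUnit (algebraMap R O w)) (hinj : Function.Injective (algebraMap R O))
    (γ : O) (hγ0 : γ ≠ 0) (hγ : IsAlgebraic R γ) :
    ∃ (c : ℕ) (η : O), IsUnit η ∧ γ = algebraMap R O w ^ c * η := by
  obtain ⟨r, hr0, hr⟩ := hγ.exists_nonzero_dvd (mem_nonZeroDivisors_of_ne_zero hγ0)
  obtain ⟨a, u, rfl⟩ := IsDiscreteValuationRing.eq_unit_mul_pow_irreducible hr0 hw
  by_contra hcon
  have hall : ∀ c, algebraMap R O w ^ c ∣ γ := by
    intro c
    induction c with
    | zero => simp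
    | succ c ih =>
      obtain ⟨η, hη⟩ := ih
      have hηu : ¬ IsUnit η := fun hu => hcon ⟨c, η, hu, hη⟩
      obtain ⟨η', hη'⟩ := hnu η hηu
      exact ⟨η', by rw [hη, hη', pow_succ, mul_assoc]⟩
  have h1 : algebraMap R O w ^ (a + 1) ∣ algebraMap R O (↑u * w ^ a) := (hall (a + 1)).trans hr
  have h2 := pow_dvd_of_map_pow_dvd hw hwO hinj (a + 1) _ h1
  rw [pow_succ, mul_comm (u : R)] at h2
  have h3 := (mul_dvd_mul_iff_left (pow_ne_zero a hw.ne_zero)).mp h2
  exact hw.not_isUnit (isUnit_of_dvd_unit h3 u.isUnit)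

/-- **No new constants (ring form).**  `R` a Henselian discrete valuation ring of characteristic
zero with algebraically closed residue field and uniformiser `w`; `O ⊇ R` a domain whose
non-units are exactly the multiples of `w`.  Then every element of `O` which is algebraic over
`R` lies in `R`. -/
theorem exists_algebraMap_eq_of_isAlgebraic [HenselianLocalRing R] [CharZero R] {w : R}
    (hw : Irreducible w)
    (hnu : ∀ b : O, ¬ IsUnit b → algebraMap R O w ∣ b)
    (hwO : ¬ IsUnit (algebraMap R O w)) (hinj : Function.Injective (algebraMap R O))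
    (α : O) (hα : IsAlgebraic R α) : ∃ r : R, algebraMap R O r = α := by
  classical
  have hw0 : algebraMap R O w ≠ 0 := by
    intro h0
    exact hw.ne_zero (hinj (by rw [h0, map_zero]))
  -- a nonzero polynomial of minimal degree killing `α`
  have hex : ∃ n, ∃ p : R[X], p ≠ 0 ∧ aeval α p = 0 ∧ p.natDegree = n := by
    obtain ⟨p, hp0, hp⟩ := hα
    exact ⟨_, p, hp0, hp, rfl⟩
  obtain ⟨p, hp0, hp, hpn⟩ := Nat.find_spec hex
  have hmin : ∀ q : R[X], q ≠ 0 → aeval α q = 0 → p.natDegree ≤ q.natDegree := by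
    intro q hq0 hq
    rw [hpn]
    exact Nat.find_min' hex ⟨q, hq0, hq, rfl⟩
  have hdeg : p.natDegree ≠ 0 := by
    intro h
    have hpC := eq_C_of_natDegree_eq_zero h
    rw [hpC, aeval_C] at hp
    have h0 : p.coeff 0 = 0 := hinj (hp.trans (map_zero _).symm)
    rw [h0, C_0] at hpC
    exact hp0 hpC
  have hder0 : derivative p ≠ 0 := fun h => hdeg (derivative_eq_zero.mp h)
  have hderα : aeval α (derivative p) ≠ 0 := fun h =>
    absurd (hmin _ hder0 h) (not_le.mpr (natDegree_derivative_lt hdeg))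
  have hγalg : IsAlgebraic R (aeval α (derivative p)) :=
    Algebra.isAlgebraic_adjoin_singleton_iff.mpr hα _ (aeval_mem_adjoin_singleton R α)
  obtain ⟨c, η, hη, hγ⟩ :=
    exists_eq_pow_mul_unit_of_isAlgebraic hw hnu hwO hinj _ hderα hγalg
  obtain ⟨s, δ, hδ⟩ := exists_pow_dvd_sub_of_isAlgebraic hw hnu hwO hinj α hα (2 * c + 1)
  have hsα : algebraMap R O s - α = -(algebraMap R O w ^ (2 * c + 1) * δ) := by
    rw [← hδ]; ring
  have hdvd : ∀ q : R[X], algebraMap R O s - α ∣ algebraMap R O (q.eval s) - aeval α q := by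
    intro q
    have := sub_dvd_eval_sub (algebraMap R O s) α (q.map (algebraMap R O))
    rwa [eval_map, eval_map, eval₂_at_apply, ← aeval_def] at this
  -- `p(s)` is divisible by `w^(2c+1)`
  have e2 : algebraMap R O w ^ (2 * c + 1) ∣ algebraMap R O (p.eval s) := by
    have e1 := hdvd p
    rw [hp, sub_zero] at e1
    refine Dvd.dvd.trans ?_ e1
    exact ⟨-δ, by rw [hsα]; ring⟩
  obtain ⟨u, hu⟩ := pow_dvd_of_map_pow_dvd hw hwO hinj _ _ e2
  -- `p'(s) = w^c * unit`
  obtain ⟨κ, hκ⟩ := hdvd (derivative p)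
  set η' := η - algebraMap R O w ^ (c + 1) * δ * κ with hη'
  have hη'eq : algebraMap R O ((derivative p).eval s) = algebraMap R O w ^ c * η' := by
    have h5 : algebraMap R O ((derivative p).eval s) =
        aeval α (derivative p) + (algebraMap R O s - α) * κ := by
      rw [← hκ]; ring
    rw [h5, hγ, hsα, hη']
    ring
  have hη'u : IsUnit η' := by
    by_contra h
    obtain ⟨t, ht⟩ := hnu _ h
    have hdvdη : algebraMap R O w ∣ η :=
      ⟨t + algebraMap R O w ^ c * δ * κ, by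
        have : η = η' + algebraMap R O w ^ (c + 1) * δ * κ := by rw [hη']; ring
        rw [this, ht]; ring⟩
    exact hwO (isUnit_of_dvd_unit hdvdη hη)
  obtain ⟨ε, hε⟩ := pow_dvd_of_map_pow_dvd hw hwO hinj c _ (Dvd.intro _ hη'eq.symm)
  have hεu : IsUnit ε := by
    have hφε : algebraMap R O ε = η' := by
      have h6 : algebraMap R O w ^ c * algebraMap R O ε = algebraMap R O w ^ c * η' := by
        rw [← hη'eq, hε, map_mul, map_pow]
      exact mul_left_cancel₀ (pow_ne_zero c hw0) h6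
    by_contra h
    have hmem : ε ∈ maximalIdeal R := by rwa [mem_maximalIdeal, mem_nonunits_iff]
    rw [hw.maximalIdeal_eq, Ideal.mem_span_singleton] at hmem
    obtain ⟨t, rfl⟩ := hmem
    apply hwO
    refine isUnit_of_dvd_unit ?_ hη'u
    rw [← hφε, map_mul]
    exact Dvd.intro _ rfl
  have hwm : w ∈ maximalIdeal R := by
    rw [hw.maximalIdeal_eq]
    exact Ideal.mem_span_singleton_self w
  obtain ⟨a, ha, -⟩ := exists_root_of_approx p s w u ε c hwm hεu hu hε
  -- split off the root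
  have hfac : (X - C a) * (p /ₘ (X - C a)) = p := mul_divByMonic_eq_iff_isRoot.mpr ha
  set p₁ := p /ₘ (X - C a) with hp₁
  have hp₁0 : p₁ ≠ 0 := by
    intro h
    rw [h, mul_zero] at hfac
    exact hp0 hfac.symm
  have hdeg1 : p.natDegree = 1 + p₁.natDegree := by
    conv_lhs => rw [← hfac]
    rw [natDegree_mul (X_sub_C_ne_zero a) hp₁0, natDegree_X_sub_C]
  have hp₁α : aeval α p₁ ≠ 0 := fun h => by
    have := hmin p₁ hp₁0 h
    omega
  refine ⟨a, ?_⟩
  have h7 := congrArg (aeval α) hfac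
  rw [map_mul, hp, map_sub, aeval_X, aeval_C] at h7
  have h8 := (mul_eq_zero.mp h7).resolve_right hp₁α
  exact (sub_eq_zero.mp h8).symm

end RingForm

section FieldForm

variable {R E L : Type*} [CommRing R] [IsDomain R] [IsDiscreteValuationRing R]
  [HenselianLocalRing R] [IsAlgClosed (ResidueField R)]
  [Field E] [CharZero E] [Algebra R E] [IsFractionRing R E]
  [Field L] [Algebra E L] [Algebra R L] [IsScalarTower R E L]

/-- **No new constants (field form).**  `R` a Henselian discrete valuation ring with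
algebraically closed residue field, uniformiser `w`, fraction field `E` of characteristic zero;
`L / E` an arbitrary field extension and `V` a valuation subring of `L` containing `R`, in which
`w` is a non-unit and generates the non-units (i.e. `V` is unramified over `R`).  Then `E` is
algebraically closed in `L`. -/
theorem mem_range_of_isAlgebraic_of_valuationSubring (w : R) (hw : Irreducible w)
    (V : ValuationSubring L) (hRV : ∀ r : R, algebraMap R L r ∈ V)
    (hwV : (algebraMap R L w)⁻¹ ∉ V)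
    (hgen : ∀ b ∈ V, b⁻¹ ∉ V → b * (algebraMap R L w)⁻¹ ∈ V)
    (a : L) (ha : IsAlgebraic E a) : a ∈ (algebraMap E L).range := by
  have hinjRE : Function.Injective (algebraMap R E) := IsFractionRing.injective R E
  have hinjRL : Function.Injective (algebraMap R L) := by
    rw [IsScalarTower.algebraMap_eq R E L]
    exact (algebraMap E L).injective.comp hinjRE
  have : CharZero R := ⟨fun m n h => Nat.cast_injective (R := E) (by
    have := congrArg (algebraMap R E) h
    simpa using this)⟩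
  have hwL : algebraMap R L w ≠ 0 := by
    intro h0
    exact hw.ne_zero (hinjRL (by rw [h0, map_zero]))
  let algV : Algebra R V := ((algebraMap R L).codRestrict V.toSubring hRV).toAlgebra
  have hcoe : ∀ r : R, ((algebraMap R V r : V) : L) = algebraMap R L r := fun _ => rfl
  have hinjV : Function.Injective (algebraMap R V) := by
    intro r r' h
    apply hinjRL
    rw [← hcoe, ← hcoe, h]
  have hnu : ∀ b : V, ¬ IsUnit b → algebraMap R V w ∣ b := by
    intro b hb
    rcases eq_or_ne (b : L) 0 with h0 | h0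
    · have : b = 0 := Subtype.ext h0
      rw [this]
      exact dvd_zero _
    have hbinv : (b : L)⁻¹ ∉ V := by
      intro hmem
      apply hb
      refine IsUnit.of_mul_eq_one (⟨(b : L)⁻¹, hmem⟩ : V) (Subtype.ext ?_)
      change (b : L) * (b : L)⁻¹ = 1
      exact mul_inv_cancel₀ h0
    refine ⟨⟨(b : L) * (algebraMap R L w)⁻¹, hgen _ b.2 hbinv⟩, Subtype.ext ?_⟩
    change (b : L) = algebraMap R L w * ((b : L) * (algebraMap R L w)⁻¹)
    field_simp
  have hwO : ¬ IsUnit (algebraMap R V w) := by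
    intro hu
    obtain ⟨c, hc⟩ := hu.exists_right_inv
    have hcL : algebraMap R L w * (c : L) = 1 := by
      have := congrArg (fun x : V => (x : L)) hc
      rw [← hcoe]
      simpa using this
    have : (algebraMap R L w)⁻¹ = (c : L) := by
      rw [inv_eq_iff_eq_inv]
      exact eq_inv_of_mul_eq_one_left hcL
    exact hwV (this ▸ c.2)
  have core : ∀ x ∈ V, IsAlgebraic E x → x ∈ (algebraMap E L).range := by
    intro x hx hxalg
    have hxR : IsAlgebraic R x := (IsFractionRing.isAlgebraic_iff R E L).mpr hxalg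
    obtain ⟨p, hp0, hp⟩ := hxR
    have hx' : IsAlgebraic R (⟨x, hx⟩ : V) := by
      refine ⟨p, hp0, Subtype.ext ?_⟩
      have h1 : V.subtype (aeval (⟨x, hx⟩ : V) p) =
          eval₂ (V.subtype.comp (algebraMap R V)) (V.subtype ⟨x, hx⟩) p := by
        rw [aeval_def, hom_eval₂]
      have h2 : V.subtype.comp (algebraMap R V) = algebraMap R L := RingHom.ext fun _ => rfl
      rw [h2] at h1
      change V.subtype (aeval (⟨x, hx⟩ : V) p) = 0
      rw [h1]
      change eval₂ (algebraMap R L) x p = 0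
      rw [← aeval_def]
      exact hp
    obtain ⟨r, hr⟩ := exists_algebraMap_eq_of_isAlgebraic hw hnu hwO hinjV _ hx'
    refine ⟨algebraMap R E r, ?_⟩
    rw [← IsScalarTower.algebraMap_apply R E L, ← hcoe, hr]
  rcases V.mem_or_inv_mem a with h | h
  · exact core a h ha
  · obtain ⟨e, he⟩ := core a⁻¹ h (IsAlgebraic.inv_iff.mpr ha)
    refine ⟨e⁻¹, ?_⟩
    rw [map_inv₀, he, inv_inv]

end FieldForm

end Fermat.Agent.A2.H552

end
-- ===== PACK-END A2/H552/Const.lean

-- ===== PACK-BEGIN A2/H552/KummerConst.lean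
section





/-!
# A2 / ALG, COVER-CONST (helper552): a Kummer cover `K(u^{1/m})`, `u ≡ 1 mod w`, has no new
constants over a Henselian base

`R` a Henselian discrete valuation ring with algebraically closed residue field, uniformiser `w`,
`E = Frac R` of characteristic zero, `m` invertible in the residue field.

* `exists_isPrimitiveRoot_of_henselian` : `R` contains a primitive `m`-th root of unity.
* `kummer_no_new_constants` : `K ⊇ R` a field with a valuation subring `V ⊇ R` with uniformiser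
  `w` (in the application: the Gauss valuation ring `V∞` of the function field), `Ω = K[z]`,
  `z ^ m = 1 + w t`, `t ∈ V`.  Then `E` is algebraically closed in `Ω`.
* `kummer_isIntegral_mem_range` : hence `R` is integrally closed in `Ω`
  (= hypothesis `hRF` of `A2.H193.kummer_root_mem` / `S18.H138.connected_special_fibre`
  for the cover `Ω`).
-/

set_option autoImplicit false

namespace Fermat.Agent.A2.H552

open Polynomial IsLocalRing

section Roots

variable {R : Type*} [CommRing R] [HenselianLocalRing R] [IsAlgClosed (ResidueField R)]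

/-- A Henselian local ring with algebraically closed residue field contains a primitive `m`-th
root of unity, for `m` invertible in the residue field. -/
theorem exists_isPrimitiveRoot_of_henselian (m : ℕ) (hm : (m : ResidueField R) ≠ 0) :
    ∃ ζ : R, IsPrimitiveRoot ζ m := by
  have hm0 : m ≠ 0 := by
    rintro rfl
    exact hm (by simp)
  have : NeZero (m : ResidueField R) := ⟨hm⟩
  obtain ⟨ζb, hζb⟩ := HasEnoughRootsOfUnity.prim (M := ResidueField R) (n := m)
  have hζb0 : ζb ≠ 0 := hζb.ne_zero hm0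
  obtain ⟨ζ, hζ, hres⟩ := exists_root_of_residue_simple_root (X ^ m - C (1 : R))
    (monic_X_pow_sub_C 1 hm0) ζb
    (by simp [hζb.pow_eq_one])
    (by
      simp only [Polynomial.map_sub, Polynomial.map_pow, map_X, map_C, derivative_sub,
        derivative_X_pow, derivative_C, sub_zero, eval_mul, eval_C, eval_pow, eval_X]
      exact mul_ne_zero hm (pow_ne_zero _ hζb0))
  have hζm : ζ ^ m = 1 := by
    have : (X ^ m - C (1 : R)).eval ζ = 0 := hζ
    simpa [sub_eq_zero] using this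
  refine ⟨ζ, hζm, fun l hl => ?_⟩
  apply hζb.dvd_of_pow_eq_one
  rw [← hres, ← map_pow, hl, map_one]

end Roots

section Cover

variable {R E K Ω : Type*} [CommRing R] [IsDomain R] [IsDiscreteValuationRing R]
  [HenselianLocalRing R] [IsAlgClosed (ResidueField R)]
  [Field E] [CharZero E] [Algebra R E] [IsFractionRing R E]
  [Field K] [Algebra R K] [Field Ω] [Algebra K Ω] [Algebra E Ω] [Algebra R Ω]
  [IsScalarTower R E Ω] [IsScalarTower R K Ω]

/-- **COVER-CONST.**  A Kummer cover `Ω = K[z]`, `z ^ m = 1 + w t`, of a field `K` carrying an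
unramified discrete valuation ring `V ⊇ R` has no new constants: `E = Frac R` is algebraically
closed in `Ω`. -/
theorem kummer_no_new_constants (w : R) (hw : Irreducible w) (V : ValuationSubring K)
    (hRV : ∀ r : R, algebraMap R K r ∈ V)
    (hwV : (algebraMap R K w)⁻¹ ∉ V)
    (hVgen : ∀ a ∈ V, a⁻¹ ∉ V → a * (algebraMap R K w)⁻¹ ∈ V)
    (hdisc : ∀ c : K, ∃ k : ℕ, algebraMap R K w ^ k * c ∈ V)
    (m : ℕ) (hm : (m : ResidueField R) ≠ 0)
    (t : K) (ht : t ∈ V) (z : Ω)
    (hz : z ^ m = algebraMap K Ω (1 + algebraMap R K w * t))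
    (hgen : ∀ b : Ω, b ∈ Algebra.adjoin K ({z} : Set Ω))
    (y : Ω) (hy : IsAlgebraic E y) : y ∈ (algebraMap E Ω).range := by
  have hm0 : m ≠ 0 := by
    rintro rfl
    exact hm (by simp)
  have hinjRE : Function.Injective (algebraMap R E) := IsFractionRing.injective R E
  have hinjRΩ : Function.Injective (algebraMap R Ω) := by
    rw [IsScalarTower.algebraMap_eq R E Ω]
    exact (algebraMap E Ω).injective.comp hinjRE
  have hinjRK : Function.Injective (algebraMap R K) := by
    intro a b h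
    apply hinjRΩ
    rw [IsScalarTower.algebraMap_apply R K Ω, IsScalarTower.algebraMap_apply R K Ω, h]
  have hwK0 : algebraMap R K w ≠ 0 := fun h => hw.ne_zero (hinjRK (by rw [h, map_zero]))
  -- roots of unity and `1/m`
  obtain ⟨ζ, hζ⟩ := exists_isPrimitiveRoot_of_henselian (R := R) m hm
  have hζK : IsPrimitiveRoot (algebraMap R K ζ) m := hζ.map_of_injective hinjRK
  have hmu : IsUnit ((m : ℕ) : R) := by
    rw [← IsLocalRing.notMem_maximalIdeal, ← residue_eq_zero_iff, map_natCast]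
    exact hm
  obtain ⟨mi, hmi⟩ := hmu.exists_right_inv
  have hmK : (m : K) * algebraMap R K mi = 1 := by
    have := congrArg (algebraMap R K) hmi
    simpa using this
  have hmK0 : (m : K) ≠ 0 := left_ne_zero_of_mul_eq_one hmK
  have hmKinv : ((m : K))⁻¹ ∈ V := by
    rw [inv_eq_of_mul_eq_one_right hmK]
    exact hRV mi
  -- a valuation subring of `Ω` dominating `V`
  obtain ⟨W, hle, hloc⟩ := (LocalSubring.range
    ((algebraMap K Ω).comp V.subtype)).exists_le_valuationSubring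
  have hVW : ∀ a ∈ V, algebraMap K Ω a ∈ W := fun a ha =>
    hle ⟨⟨a, ha⟩, rfl⟩
  have hwW : (algebraMap K Ω (algebraMap R K w))⁻¹ ∉ W := by
    intro hmem
    set f := (algebraMap K Ω).comp V.subtype with hf
    have hwr : algebraMap K Ω (algebraMap R K w) ∈ (LocalSubring.range f).toSubring :=
      ⟨⟨algebraMap R K w, hRV w⟩, rfl⟩
    have hu : IsUnit (Subring.inclusion hle ⟨_, hwr⟩) := by
      refine IsUnit.of_mul_eq_one ⟨(algebraMap K Ω (algebraMap R K w))⁻¹, hmem⟩
        (Subtype.ext ?_)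
      change algebraMap K Ω (algebraMap R K w) * (algebraMap K Ω (algebraMap R K w))⁻¹ = 1
      exact mul_inv_cancel₀ (fun h => hwK0 ((algebraMap K Ω).injective (by rw [h, map_zero])))
    have hu' := hloc.map_nonunit _ hu
    obtain ⟨c, hc⟩ := hu'.exists_right_inv
    obtain ⟨⟨b, hb⟩, hbc⟩ := c.2
    have h1 : algebraMap K Ω (algebraMap R K w) * algebraMap K Ω b = 1 := by
      have := congrArg Subtype.val hc
      simp only [Subring.coe_mul, Subring.coe_one] at this
      rw [← this, ← hbc]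
      rfl
    have h2 : algebraMap R K w * b = 1 := by
      apply (algebraMap K Ω).injective
      rw [map_mul, h1, map_one]
    apply hwV
    rw [inv_eq_of_mul_eq_one_right h2]
    exact hb
  have hunr := (kummer_unramified V W hVW (algebraMap R K w) (hRV w) hwK0 hwW hVgen hdisc m
    (Nat.pos_of_ne_zero hm0) hmK0 hmKinv (algebraMap R K ζ) hζK t ht z hz hgen).1
  have hRW : ∀ r : R, algebraMap R Ω r ∈ W := fun r => by
    rw [IsScalarTower.algebraMap_apply R K Ω]
    exact hVW _ (hRV r)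
  rw [← IsScalarTower.algebraMap_apply R K Ω] at hwW hunr
  exact mem_range_of_isAlgebraic_of_valuationSubring w hw W hRW hwW hunr y hy

variable (E) in
include E in
/-- **COVER-CONST, integral form**: `R` is integrally closed in the Kummer cover `Ω`. -/
theorem kummer_isIntegral_mem_range (w : R) (hw : Irreducible w) (V : ValuationSubring K)
    (hRV : ∀ r : R, algebraMap R K r ∈ V)
    (hwV : (algebraMap R K w)⁻¹ ∉ V)
    (hVgen : ∀ a ∈ V, a⁻¹ ∉ V → a * (algebraMap R K w)⁻¹ ∈ V)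
    (hdisc : ∀ c : K, ∃ k : ℕ, algebraMap R K w ^ k * c ∈ V)
    (m : ℕ) (hm : (m : ResidueField R) ≠ 0)
    (t : K) (ht : t ∈ V) (z : Ω)
    (hz : z ^ m = algebraMap K Ω (1 + algebraMap R K w * t))
    (hgen : ∀ b : Ω, b ∈ Algebra.adjoin K ({z} : Set Ω))
    (y : Ω) (hy : IsIntegral R y) : y ∈ Set.range (algebraMap R Ω) := by
  have hyalg : IsAlgebraic E y :=
    (IsFractionRing.isAlgebraic_iff R E Ω).mp hy.isAlgebraic
  obtain ⟨e, rfl⟩ := kummer_no_new_constants (E := E) w hw V hRV hwV hVgen hdisc m hm t ht z hz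
    hgen y hyalg
  have he : IsIntegral R e :=
    (isIntegral_algebraMap_iff (algebraMap E Ω).injective).mp hy
  obtain ⟨r, rfl⟩ := (IsIntegrallyClosed.isIntegral_iff (R := R) (K := E)).mp he
  exact ⟨r, IsScalarTower.algebraMap_apply R E Ω r⟩

end Cover

end Fermat.Agent.A2.H552

end
-- ===== PACK-END A2/H552/KummerConst.lean

-- ===== PACK-BEGIN A2/H609/Multiplicity.lean
section



/-!
# Node purity, part 3: the multiplicity identity

`R` integrally closed noetherian domain, `u π : R`, `u` regular modulo `π`, `ℓ(R/(u,π)) < ∞`.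
If `t ^ m = u * r` with `π ^ k ∈ (u, r)` (i.e. `t` generates the root ideal `I = I_1` at every
"horizontal" prime through `u`), then

  `ℓ(R / ((u) + (π))) = m • ℓ(R / (I + (π)))`.

Mathlib only.
-/

set_option autoImplicit false

namespace Fermat.Agent.A2.H609

open Ideal

variable {R : Type*} [CommRing R]

section Basic

variable [IsDomain R]

/-- `u` regular mod `π` implies `π` regular mod `u` (in a domain). -/
theorem dvd_of_dvd_mul_of_reg {u π : R} (hπ0 : π ≠ 0) (hreg : ∀ x : R, π ∣ u * x → π ∣ x)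
    {z : R} (h : u ∣ π * z) : u ∣ z := by
  obtain ⟨w, hw⟩ := h
  obtain ⟨w', hw'⟩ := hreg w ⟨z, hw.symm⟩
  refine ⟨w', ?_⟩
  have : π * z = π * (u * w') := by rw [hw, hw']; ring
  exact mul_left_cancel₀ hπ0 this

theorem dvd_of_dvd_pow_mul_of_reg {u π : R} (hπ0 : π ≠ 0) (hreg : ∀ x : R, π ∣ u * x → π ∣ x)
    (k : ℕ) {z : R} (h : u ∣ π ^ k * z) : u ∣ z := by
  induction k with
  | zero => simpa using h
  | succ k ih =>
    apply ih
    apply dvd_of_dvd_mul_of_reg hπ0 hreg
    rwa [← mul_assoc, ← pow_succ']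

/-- `r` is regular modulo `u` as soon as `π ^ k ∈ (u, r)`. -/
theorem dvd_of_dvd_mul_of_pow_mem {u π r : R} (hπ0 : π ≠ 0)
    (hreg : ∀ x : R, π ∣ u * x → π ∣ x) {k : ℕ} (hk : π ^ k ∈ Ideal.span {u, r})
    {y : R} (h : u ∣ r * y) : u ∣ y := by
  obtain ⟨a, b, hab⟩ := Ideal.mem_span_pair.mp hk
  apply dvd_of_dvd_pow_mul_of_reg hπ0 hreg k
  rw [← hab, add_mul]
  apply dvd_add
  · exact Dvd.intro_left (a * y) (by ring)
  · have : b * r * y = b * (r * y) := by ring
    rw [this]
    exact Dvd.dvd.mul_left h b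

theorem dvd_of_dvd_pow_mul_of_pow_mem {u π r : R} (hπ0 : π ≠ 0)
    (hreg : ∀ x : R, π ∣ u * x → π ∣ x) {k : ℕ} (hk : π ^ k ∈ Ideal.span {u, r})
    (j : ℕ) {y : R} (h : u ∣ r ^ j * y) : u ∣ y := by
  induction j with
  | zero => simpa using h
  | succ j ih =>
    apply ih
    apply dvd_of_dvd_mul_of_pow_mem hπ0 hreg hk
    rwa [← mul_assoc, ← pow_succ']

omit [IsDomain R] in
/-- `π ^ (k * j) ∈ (u, r ^ j)` if `π ^ k ∈ (u, r)`. -/
theorem pow_mul_mem_span_pair {u π r : R} {k : ℕ} (hk : π ^ k ∈ Ideal.span {u, r}) (j : ℕ) :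
    π ^ (k * j) ∈ Ideal.span {u, r ^ j} := by
  obtain ⟨a, b, hab⟩ := Ideal.mem_span_pair.mp hk
  rw [pow_mul, ← hab]
  -- `(a u + b r)^j - (b r)^j` is divisible by `a u`
  have h1 : (a * u + b * r - b * r) ∣ (a * u + b * r) ^ j - (b * r) ^ j := sub_dvd_pow_sub_pow _ _ j
  rw [add_sub_cancel_right] at h1
  obtain ⟨c, hc⟩ := h1
  have h2 : (a * u + b * r) ^ j = (a * c) * u + b ^ j * r ^ j := by
    have : (a * u + b * r) ^ j = a * u * c + (b * r) ^ j := by rw [← hc]; ring
    rw [this, mul_pow]; ring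
  rw [h2]
  exact Ideal.mem_span_pair.mpr ⟨a * c, b ^ j, rfl⟩

end Basic

section Finiteness

/-- A cyclic module killed by `𝔞` has length at most `ℓ(R/𝔞)`. -/
theorem relLen_span_singleton_le (𝔞 : Ideal R) (x : R) :
    relLen (𝔞 * Ideal.span {x}) (Ideal.span {x}) ≤ relLen 𝔞 (⊤ : Ideal R) := by
  refine relLen_le_of_map (LinearMap.mulRight R x) (N' := 𝔞) (N := ⊤)
    (P' := 𝔞 * Ideal.span {x}) (P := Ideal.span {x}) ?_ ?_ ?_
  · intro y _
    rw [LinearMap.mulRight_apply]
    exact Ideal.mem_span_singleton.mpr (Dvd.intro_left y rfl)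
  · intro y hy
    rw [LinearMap.mulRight_apply]
    exact Ideal.mul_mem_mul hy (Ideal.mem_span_singleton_self x)
  · intro y hy
    obtain ⟨c, rfl⟩ := Ideal.mem_span_singleton'.mp hy
    refine ⟨c, trivial, ?_⟩
    rw [LinearMap.mulRight_apply, sub_self]
    exact Ideal.zero_mem _

/-- For a finitely generated ideal `A` and an ideal `𝔞` with `ℓ(R/𝔞) < ∞`: `ℓ(A/𝔞A) < ∞`. -/
theorem relLen_mul_ne_top (𝔞 : Ideal R) (h𝔞 : relLen 𝔞 (⊤ : Ideal R) ≠ ⊤)
    (A : Ideal R) (hA : A.FG) : relLen (𝔞 * A) A ≠ ⊤ := by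
  refine Submodule.fg_induction
    (motive := fun (A : Submodule R R) _ => relLen (𝔞 * (A : Ideal R)) A ≠ ⊤) ?_ ?_ A hA
  · intro x
    exact ne_top_of_le_ne_top h𝔞 (relLen_span_singleton_le 𝔞 x)
  · intro M₁ M₂ _ _ h₁ h₂
    -- chain `𝔞 M₁ ⊔ 𝔞 M₂ ≤ M₁ ⊔ 𝔞 M₂ ≤ M₁ ⊔ M₂`
    have hmul : 𝔞 * ((M₁ ⊔ M₂ : Submodule R R) : Ideal R) = 𝔞 * (M₁ : Ideal R) ⊔ 𝔞 * (M₂ : Ideal R) :=
      Ideal.mul_sup 𝔞 M₁ M₂
    have hle1 : 𝔞 * (M₁ : Ideal R) ≤ M₁ := Ideal.mul_le_right
    have hle2 : 𝔞 * (M₂ : Ideal R) ≤ M₂ := Ideal.mul_le_right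
    have hAB : (𝔞 * (M₁ : Ideal R) ⊔ 𝔞 * (M₂ : Ideal R) : Ideal R) ≤ M₁ ⊔ 𝔞 * (M₂ : Ideal R) :=
      sup_le_sup_right hle1 _
    have hBC : (M₁ ⊔ 𝔞 * (M₂ : Ideal R) : Ideal R) ≤ M₁ ⊔ M₂ := sup_le_sup_left hle2 _
    show relLen (𝔞 * ((M₁ ⊔ M₂ : Submodule R R) : Ideal R)) (M₁ ⊔ M₂) ≠ ⊤
    rw [hmul, relLen_add hAB hBC]
    have hfirst : relLen (𝔞 * (M₁ : Ideal R) ⊔ 𝔞 * (M₂ : Ideal R) : Ideal R)
        (M₁ ⊔ 𝔞 * (M₂ : Ideal R) : Ideal R) ≤ relLen (𝔞 * (M₁ : Ideal R)) M₁ := by
      refine relLen_le_of_map (LinearMap.id : R →ₗ[R] R) ?_ ?_ ?_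
      · intro x hx
        exact Submodule.mem_sup_left hx
      · intro x hx
        exact Submodule.mem_sup_left hx
      · intro y hy
        obtain ⟨a, ha, b, hb, rfl⟩ := Submodule.mem_sup.mp hy
        refine ⟨a, ha, ?_⟩
        rw [LinearMap.id_apply, add_sub_cancel_left]
        exact Submodule.mem_sup_right hb
    have hsecond : relLen (M₁ ⊔ 𝔞 * (M₂ : Ideal R) : Ideal R) (M₁ ⊔ M₂ : Ideal R) ≤
        relLen (𝔞 * (M₂ : Ideal R)) M₂ := by
      refine relLen_le_of_map (LinearMap.id : R →ₗ[R] R) ?_ ?_ ?_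
      · intro x hx
        exact Submodule.mem_sup_right hx
      · intro x hx
        exact Submodule.mem_sup_right hx
      · intro y hy
        obtain ⟨a, ha, b, hb, rfl⟩ := Submodule.mem_sup.mp hy
        refine ⟨b, hb, ?_⟩
        rw [LinearMap.id_apply, add_sub_cancel_right]
        exact Submodule.mem_sup_left ha
    intro htop
    rcases ENat.add_eq_top.mp htop with h | h
    · exact ne_top_of_le_ne_top h₁ hfirst h
    · exact ne_top_of_le_ne_top h₂ hsecond h

/-- `ℓ(R/(u, π^N)) < ∞` if `ℓ(R/(u, π)) < ∞`. -/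
theorem relLen_span_pair_pow_ne_top (u π : R)
    (hfin : relLen (Ideal.span {u, π}) (⊤ : Ideal R) ≠ ⊤) (N : ℕ) :
    relLen (Ideal.span {u, π ^ N}) (⊤ : Ideal R) ≠ ⊤ := by
  induction N with
  | zero =>
    have : Ideal.span {u, π ^ 0} = (⊤ : Ideal R) := by
      rw [Ideal.eq_top_iff_one, pow_zero]
      exact Ideal.subset_span (by simp)
    rw [this, relLen_self]
    exact ENat.zero_ne_top
  | succ N ih =>
    have hAB : Ideal.span {u, π ^ (N + 1)} ≤ Ideal.span {u, π ^ N} := by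
      rw [Ideal.span_le]
      intro x hx
      rcases hx with rfl | rfl
      · exact Ideal.subset_span (by simp)
      · rw [pow_succ]
        exact Ideal.mul_mem_right _ _ (Ideal.subset_span (by simp))
    rw [relLen_add hAB le_top]
    intro htop
    rcases ENat.add_eq_top.mp htop with h | h
    swap
    · exact ih h
    revert h
    refine ne_top_of_le_ne_top hfin ?_
    refine relLen_le_of_map (LinearMap.mulLeft R (π ^ N)) (N' := Ideal.span {u, π})
      (N := (⊤ : Ideal R)) ?_ ?_ ?_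
    · intro x _
      rw [LinearMap.mulLeft_apply]
      exact Ideal.mul_mem_right _ _ (Ideal.subset_span (by simp))
    · intro x hx
      rw [LinearMap.mulLeft_apply]
      obtain ⟨a, b, rfl⟩ := Ideal.mem_span_pair.mp hx
      refine Ideal.mem_span_pair.mpr ⟨π ^ N * a, b, ?_⟩
      rw [pow_succ]; ring
    · intro y hy
      obtain ⟨a, b, rfl⟩ := Ideal.mem_span_pair.mp hy
      refine ⟨b, trivial, ?_⟩
      rw [LinearMap.mulLeft_apply]
      have : a * u + b * π ^ N - π ^ N * b = a * u := by ring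
      rw [this]
      exact Ideal.mul_mem_left _ _ (Ideal.subset_span (by simp))

end Finiteness

end Fermat.Agent.A2.H609

end
-- ===== PACK-END A2/H609/Multiplicity.lean

-- ===== PACK-BEGIN A2/H609/Chain.lean
section


/-!
# Node purity, part 4: `ℓ(R/((u)+(π))) = m • ℓ(R/(I_1+(π)))`

Mathlib only.  See `Multiplicity.lean` for the setting.
-/

set_option autoImplicit false

namespace Fermat.Agent.A2.H609

open Ideal

variable {R : Type*} [CommRing R] [IsDomain R] [IsIntegrallyClosed R]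

section Generator

variable {u π t r : R} {m : ℕ} {hm : m ≠ 0}

/-- (d) `t ^ j * g ∈ I_{j+1} → g ∈ I_1` when `t ^ m = u * r` and `r` is regular modulo `u`. -/
theorem mem_rootIdeal_one_of_pow_mul_mem (hu0 : u ≠ 0) (hπ0 : π ≠ 0)
    (hreg : ∀ x : R, π ∣ u * x → π ∣ x) (ht : t ^ m = u * r)
    {k : ℕ} (hk : π ^ k ∈ Ideal.span {u, r}) {j : ℕ} {g : R}
    (h : t ^ j * g ∈ rootIdeal u m hm (j + 1)) : g ∈ rootIdeal u m hm 1 := by
  rw [mem_rootIdeal] at h ⊢
  rw [pow_one]
  have h1 : (t ^ j * g) ^ m = u ^ j * (r ^ j * g ^ m) := by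
    rw [mul_pow, ← pow_mul, mul_comm j m, pow_mul, ht, mul_pow]; ring
  rw [h1, pow_succ] at h
  have h2 : u ∣ r ^ j * g ^ m := (mul_dvd_mul_iff_left (pow_ne_zero j hu0)).mp h
  exact dvd_of_dvd_pow_mul_of_pow_mem hπ0 hreg hk j h2

/-- (e') `r ^ j * I_j ⊆ (t ^ j)`. -/
theorem pow_dvd_pow_mul_of_mem_rootIdeal (ht : t ^ m = u * r) {j : ℕ} {g : R}
    (hg : g ∈ rootIdeal u m hm j) : t ^ j ∣ r ^ j * g := by
  rw [mem_rootIdeal] at hg
  obtain ⟨x, hx⟩ := hg
  apply dvd_of_pow_dvd_pow hm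
  have h1 : (t ^ j) ^ m = u ^ j * r ^ j := by
    rw [← pow_mul, mul_comm j m, pow_mul, ht, mul_pow]
  have h2 : (r ^ j * g) ^ m = (u ^ j * r ^ j) * ((r ^ j) ^ (m - 1) * x) := by
    rw [mul_pow, hx]
    have : (r ^ j) ^ m = r ^ j * (r ^ j) ^ (m - 1) := by
      rw [← pow_succ', Nat.sub_add_cancel (Nat.one_le_iff_ne_zero.mpr hm)]
    rw [this]; ring
  rw [h1, h2]
  exact Dvd.intro _ rfl

theorem pow_mem_rootIdeal_of_pow_eq (ht : t ^ m = u * r) (j : ℕ) :
    t ^ j ∈ rootIdeal u m hm j := by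
  apply pow_mem_rootIdeal
  rw [mem_rootIdeal, pow_one, ht]
  exact Dvd.intro _ rfl

end Generator

section Chain

variable [IsNoetherianRing R]
variable {u π t r : R} {m : ℕ} {hm : m ≠ 0}

/-- (e) finiteness of `ℓ(I_j / ((t^j) + I_{j+1}))`. -/
theorem relLen_span_sup_rootIdeal_ne_top
    (ht : t ^ m = u * r) {k : ℕ} (hk : π ^ k ∈ Ideal.span {u, r})
    (hfin : relLen (Ideal.span {u, π}) (⊤ : Ideal R) ≠ ⊤) (j : ℕ) :
    relLen (Ideal.span {t ^ j} ⊔ rootIdeal u m hm (j + 1)) (rootIdeal u m hm j) ≠ ⊤ := by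
  set A := rootIdeal u m hm j with hA
  set A' := Ideal.span {t ^ j} ⊔ rootIdeal u m hm (j + 1) with hA'
  set 𝔞 : Ideal R := Ideal.span {u, r ^ j} with h𝔞
  have hA'A : A' ≤ A := by
    refine sup_le ?_ (rootIdeal_antitone u m hm (Nat.le_succ j))
    rw [Ideal.span_le, Set.singleton_subset_iff]
    exact pow_mem_rootIdeal_of_pow_eq ht j
  have h𝔞A : 𝔞 * A ≤ A' := by
    rw [Ideal.mul_le]
    intro a ha g hg
    obtain ⟨c, d, rfl⟩ := Ideal.mem_span_pair.mp ha
    rw [add_mul]
    refine Ideal.add_mem _ ?_ ?_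
    · refine Submodule.mem_sup_right ?_
      have : c * u * g = c * (u * g) := by ring
      rw [this]
      exact Ideal.mul_mem_left _ _ (self_mul_mem_rootIdeal_succ hg)
    · refine Submodule.mem_sup_left ?_
      have : d * r ^ j * g = d * (r ^ j * g) := by ring
      rw [this]
      exact Ideal.mul_mem_left _ _
        (Ideal.mem_span_singleton.mpr (pow_dvd_pow_mul_of_mem_rootIdeal ht hg))
  have h𝔟 : Ideal.span {u, π ^ (k * j)} ≤ 𝔞 := by
    rw [Ideal.span_le]
    intro x hx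
    rcases hx with rfl | rfl
    · exact Ideal.subset_span (by simp)
    · exact pow_mul_mem_span_pair hk j
  have h𝔞fin : relLen 𝔞 (⊤ : Ideal R) ≠ ⊤ :=
    ne_top_of_le_ne_top (relLen_span_pair_pow_ne_top u π hfin (k * j))
      (relLen_mono_left h𝔟 le_top)
  exact ne_top_of_le_ne_top
    (relLen_mul_ne_top 𝔞 h𝔞fin A (IsNoetherian.noetherian A))
    (relLen_mono_left h𝔞A hA'A)

omit [IsNoetherianRing R] in
/-- Step Z: `ℓ((I_j + (π)) / (I_{j+1} + (π))) = ℓ(I_j / (I_{j+1} + π I_j))`. -/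
theorem relLen_stepZ (hπ0 : π ≠ 0) (hreg : ∀ x : R, π ∣ u * x → π ∣ x) (j : ℕ) :
    relLen (rootIdeal u m hm (j + 1) ⊔ Ideal.span {π} * rootIdeal u m hm j)
        (rootIdeal u m hm j) =
      relLen (rootIdeal u m hm (j + 1) ⊔ Ideal.span {π})
        (rootIdeal u m hm j ⊔ Ideal.span {π}) := by
  refine relLen_eq_of_map (LinearMap.id : R →ₗ[R] R) ?_ ?_ ?_ ?_
  · intro x hx
    exact Submodule.mem_sup_left hx
  · intro x hx
    obtain ⟨a, ha, b, hb, rfl⟩ := Submodule.mem_sup.mp hx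
    refine Ideal.add_mem _ (Submodule.mem_sup_left ha) (Submodule.mem_sup_right ?_)
    exact Ideal.mul_le_left hb
  · intro x hx hx'
    rw [LinearMap.id_apply] at hx'
    obtain ⟨a, ha, b, hb, hab⟩ := Submodule.mem_sup.mp hx'
    obtain ⟨c, rfl⟩ := Ideal.mem_span_singleton'.mp hb
    have hc : c ∈ rootIdeal u m hm j := by
      apply mem_rootIdeal_of_mul_mem hπ0 hreg
      have : π * c = x - a := by rw [← hab]; ring
      rw [this]
      exact Ideal.sub_mem _ hx (rootIdeal_antitone u m hm (Nat.le_succ j) ha)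
    rw [← hab]
    refine Ideal.add_mem _ (Submodule.mem_sup_left ha) (Submodule.mem_sup_right ?_)
    rw [mul_comm c π]
    exact Ideal.mul_mem_mul (Ideal.mem_span_singleton_self π) hc
  · intro y hy
    obtain ⟨a, ha, b, hb, rfl⟩ := Submodule.mem_sup.mp hy
    refine ⟨a, ha, ?_⟩
    rw [LinearMap.id_apply, add_sub_cancel_left]
    exact Submodule.mem_sup_right hb

/-- Step Y: replace `I_j` by its finite-colength submodule `(t^j) + I_{j+1}`. -/
theorem relLen_stepY (hπ0 : π ≠ 0) (hreg : ∀ x : R, π ∣ u * x → π ∣ x)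
    (ht : t ^ m = u * r) {k : ℕ} (hk : π ^ k ∈ Ideal.span {u, r})
    (hfin : relLen (Ideal.span {u, π}) (⊤ : Ideal R) ≠ ⊤) (j : ℕ) :
    relLen (rootIdeal u m hm (j + 1) ⊔ Ideal.span {π} * rootIdeal u m hm j)
        (rootIdeal u m hm j) =
      relLen (rootIdeal u m hm (j + 1) ⊔
          Ideal.span {π} * (Ideal.span {t ^ j} ⊔ rootIdeal u m hm (j + 1)))
        (Ideal.span {t ^ j} ⊔ rootIdeal u m hm (j + 1)) := by
  set A := rootIdeal u m hm j with hA
  set J := rootIdeal u m hm (j + 1) with hJ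
  set A' := Ideal.span {t ^ j} ⊔ J with hA'
  set B := J ⊔ Ideal.span {π} * A with hB
  set B' := J ⊔ Ideal.span {π} * A' with hB'
  have hJA : J ≤ A := rootIdeal_antitone u m hm (Nat.le_succ j)
  have hA'A : A' ≤ A := by
    refine sup_le ?_ hJA
    rw [Ideal.span_le, Set.singleton_subset_iff]
    exact pow_mem_rootIdeal_of_pow_eq ht j
  have hB'A' : B' ≤ A' := sup_le le_sup_right Ideal.mul_le_right
  have hB'B : B' ≤ B := sup_le_sup_left (Ideal.mul_mono_right hA'A) _
  have hBA : B ≤ A := sup_le hJA Ideal.mul_le_right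
  have hfinA : relLen A' A ≠ ⊤ := relLen_span_sup_rootIdeal_ne_top ht hk hfin j
  -- `A / A' ≃ B / B'` via multiplication by `π`
  have hiso : relLen A' A = relLen B' B := by
    refine relLen_eq_of_map (LinearMap.mulLeft R π) ?_ ?_ ?_ ?_
    · intro x hx
      rw [LinearMap.mulLeft_apply]
      exact Submodule.mem_sup_right (Ideal.mul_mem_mul (Ideal.mem_span_singleton_self π) hx)
    · intro x hx
      rw [LinearMap.mulLeft_apply]
      exact Submodule.mem_sup_right (Ideal.mul_mem_mul (Ideal.mem_span_singleton_self π) hx)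
    · intro x hx hx'
      rw [LinearMap.mulLeft_apply] at hx'
      obtain ⟨a, ha, b, hb, hab⟩ := Submodule.mem_sup.mp hx'
      obtain ⟨c, hc, rfl⟩ := Ideal.mem_span_singleton_mul.mp hb
      -- `π * (x - c) = a ∈ J`, so `x - c ∈ J`
      have h1 : x - c ∈ J := by
        apply mem_rootIdeal_of_mul_mem hπ0 hreg
        have : π * (x - c) = a := by rw [mul_sub, ← hab]; ring
        rw [this]
        exact ha
      have : x = (x - c) + c := by ring
      rw [this]
      exact Ideal.add_mem _ (Submodule.mem_sup_right h1) hc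
    · intro y hy
      obtain ⟨a, ha, b, hb, rfl⟩ := Submodule.mem_sup.mp hy
      obtain ⟨c, hc, rfl⟩ := Ideal.mem_span_singleton_mul.mp hb
      refine ⟨c, hc, ?_⟩
      rw [LinearMap.mulLeft_apply, add_sub_cancel_right]
      exact Submodule.mem_sup_left ha
  have e1 : relLen B' A = relLen B' A' + relLen A' A := relLen_add hB'A' hA'A
  have e2 : relLen B' A = relLen B' B + relLen B A := relLen_add hB'B hBA
  rw [e1, ← hiso, add_comm (relLen A' A)] at e2
  exact (ENat.add_left_injective_of_ne_top hfinA e2).symm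

omit [IsNoetherianRing R] in
/-- Step X: `ℓ(((t^j) + I_{j+1}) / (I_{j+1} + π ((t^j) + I_{j+1}))) = ℓ(R / (I_1 + (π)))`. -/
theorem relLen_stepX (hu0 : u ≠ 0) (hπ0 : π ≠ 0) (hreg : ∀ x : R, π ∣ u * x → π ∣ x)
    (ht : t ^ m = u * r) {k : ℕ} (hk : π ^ k ∈ Ideal.span {u, r}) (j : ℕ) :
    relLen (rootIdeal u m hm 1 ⊔ Ideal.span {π}) (⊤ : Ideal R) =
      relLen (rootIdeal u m hm (j + 1) ⊔
          Ideal.span {π} * (Ideal.span {t ^ j} ⊔ rootIdeal u m hm (j + 1)))
        (Ideal.span {t ^ j} ⊔ rootIdeal u m hm (j + 1)) := by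
  set J := rootIdeal u m hm (j + 1) with hJ
  refine relLen_eq_of_map (LinearMap.mulLeft R (t ^ j)) ?_ ?_ ?_ ?_
  · intro x _
    rw [LinearMap.mulLeft_apply]
    exact Submodule.mem_sup_left (Ideal.mul_mem_right _ _ (Ideal.mem_span_singleton_self _))
  · intro x hx
    rw [LinearMap.mulLeft_apply]
    obtain ⟨a, ha, b, hb, rfl⟩ := Submodule.mem_sup.mp hx
    obtain ⟨c, rfl⟩ := Ideal.mem_span_singleton'.mp hb
    rw [mul_add]
    refine Ideal.add_mem _ (Submodule.mem_sup_left ?_) (Submodule.mem_sup_right ?_)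
    · have := mul_mem_rootIdeal (pow_mem_rootIdeal_of_pow_eq (hm := hm) ht j) ha
      exact this
    · have : t ^ j * (c * π) = π * (c * t ^ j) := by ring
      rw [this]
      refine Ideal.mul_mem_mul (Ideal.mem_span_singleton_self π) (Submodule.mem_sup_left ?_)
      exact Ideal.mul_mem_left _ _ (Ideal.mem_span_singleton_self _)
  · intro x _ hx'
    rw [LinearMap.mulLeft_apply] at hx'
    obtain ⟨a, ha, b, hb, hab⟩ := Submodule.mem_sup.mp hx'
    obtain ⟨c, hc, rfl⟩ := Ideal.mem_span_singleton_mul.mp hb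
    obtain ⟨d, hd, e, he, rfl⟩ := Submodule.mem_sup.mp hc
    obtain ⟨y, rfl⟩ := Ideal.mem_span_singleton'.mp hd
    -- `t^j (x - π y) = a + π e ∈ J`
    have h1 : t ^ j * (x - π * y) ∈ J := by
      have : t ^ j * (x - π * y) = a + π * e := by
        have h2 : t ^ j * x = a + π * (y * t ^ j + e) := hab.symm
        rw [mul_sub, h2]; ring
      rw [this]
      exact Ideal.add_mem _ ha (Ideal.mul_mem_left _ _ he)
    have h2 : x - π * y ∈ rootIdeal u m hm 1 :=
      mem_rootIdeal_one_of_pow_mul_mem hu0 hπ0 hreg ht hk h1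
    have : x = (x - π * y) + y * π := by ring
    rw [this]
    exact Ideal.add_mem _ (Submodule.mem_sup_left h2)
      (Submodule.mem_sup_right (Ideal.mul_mem_left _ _ (Ideal.mem_span_singleton_self π)))
  · intro y hy
    obtain ⟨a, ha, b, hb, rfl⟩ := Submodule.mem_sup.mp hy
    obtain ⟨c, rfl⟩ := Ideal.mem_span_singleton'.mp ha
    refine ⟨c, trivial, ?_⟩
    rw [LinearMap.mulLeft_apply]
    have : c * t ^ j + b - t ^ j * c = b := by ring
    rw [this]
    exact Submodule.mem_sup_left hb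

/-- The colength function `c(j) = ℓ(R / (I_j + (π)))` is additive: `c(j+1) = c(j) + c(1)`. -/
theorem relLen_succ (hu0 : u ≠ 0) (hπ0 : π ≠ 0) (hreg : ∀ x : R, π ∣ u * x → π ∣ x)
    (ht : t ^ m = u * r) {k : ℕ} (hk : π ^ k ∈ Ideal.span {u, r})
    (hfin : relLen (Ideal.span {u, π}) (⊤ : Ideal R) ≠ ⊤) (j : ℕ) :
    relLen (rootIdeal u m hm (j + 1) ⊔ Ideal.span {π}) (⊤ : Ideal R) =
      relLen (rootIdeal u m hm j ⊔ Ideal.span {π}) (⊤ : Ideal R) +
        relLen (rootIdeal u m hm 1 ⊔ Ideal.span {π}) (⊤ : Ideal R) := by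
  have hAB : rootIdeal u m hm (j + 1) ⊔ Ideal.span {π} ≤ rootIdeal u m hm j ⊔ Ideal.span {π} :=
    sup_le_sup_right (rootIdeal_antitone u m hm (Nat.le_succ j)) _
  rw [relLen_add hAB le_top, ← relLen_stepZ hπ0 hreg j, relLen_stepY hπ0 hreg ht hk hfin j,
    ← relLen_stepX hu0 hπ0 hreg ht hk j, add_comm]

/-- **Multiplicity identity**: `ℓ(R/((u)+(π))) = m • ℓ(R/(I_1+(π)))`. -/
theorem relLen_span_pair_eq_nsmul (hu0 : u ≠ 0) (hπ0 : π ≠ 0)
    (hreg : ∀ x : R, π ∣ u * x → π ∣ x)
    (ht : t ^ m = u * r) {k : ℕ} (hk : π ^ k ∈ Ideal.span {u, r})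
    (hfin : relLen (Ideal.span {u, π}) (⊤ : Ideal R) ≠ ⊤) :
    relLen (Ideal.span {u, π}) (⊤ : Ideal R) =
      m • relLen (rootIdeal u m hm 1 ⊔ Ideal.span {π}) (⊤ : Ideal R) := by
  have key : ∀ j : ℕ, relLen (rootIdeal u m hm j ⊔ Ideal.span {π}) (⊤ : Ideal R) =
      j • relLen (rootIdeal u m hm 1 ⊔ Ideal.span {π}) (⊤ : Ideal R) := by
    intro j
    induction j with
    | zero =>
      rw [rootIdeal_zero, top_sup_eq, relLen_self, zero_smul]
    | succ j ih =>
      rw [relLen_succ hu0 hπ0 hreg ht hk hfin j, ih, succ_nsmul]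
  have h := key m
  rw [rootIdeal_self] at h
  have hspan : Ideal.span {u} ⊔ Ideal.span {π} = Ideal.span {u, π} := by
    rw [← Ideal.span_union]
    rfl
  rw [hspan] at h
  exact h

end Chain

end Fermat.Agent.A2.H609

end
-- ===== PACK-END A2/H609/Chain.lean

-- ===== PACK-BEGIN A2/H609/Branch.lean
section




/-!
# Node purity, part 6: branches

Elementary facts on a discrete valuation ring `D` with a uniformiser `ϖ`, their translation to
a prime `𝔭` of a local ring `R` with `R ⧸ 𝔭` a discrete valuation ring (a "branch"), and the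
length of the chain `(z ^ n) + 𝔞`.  Mathlib only.
-/

set_option autoImplicit false

namespace Fermat.Agent.A2.H609

open Ideal

section DVRFacts

variable {D : Type*} [CommRing D] [IsDomain D]

/-- `ϖ ^ b ≠ ϖ ^ (b + 1) * g` for an irreducible `ϖ`. -/
theorem pow_ne_pow_succ_mul {ϖ : D} (hϖ : Irreducible ϖ) (b : ℕ) (g : D) :
    ϖ ^ b ≠ ϖ ^ (b + 1) * g := by
  intro h
  have h0 : ϖ ^ b ≠ 0 := pow_ne_zero _ hϖ.ne_zero
  have h1 : ϖ ^ b * 1 = ϖ ^ b * (ϖ * g) := by
    rw [mul_one, ← mul_assoc, ← pow_succ]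
    exact h
  have h2 := mul_left_cancel₀ h0 h1
  exact hϖ.not_isUnit (IsUnit.of_mul_eq_one g h2.symm)

variable [IsDiscreteValuationRing D]

/-- In a discrete valuation ring, a nonzero element associated to an `m`-th power is
`unit * ϖ ^ (m * a)`. -/
theorem exists_eq_unit_mul_pow_mul_of_associated_pow {ϖ : D} (hϖ : Irreducible ϖ) {m : ℕ}
    (hm : m ≠ 0) {v z : D} (hz : z ≠ 0) (h : Associated (v ^ m) z) :
    ∃ (a : ℕ) (ε : Dˣ), z = ε * ϖ ^ (m * a) := by
  have hv : v ≠ 0 := by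
    rintro rfl
    rw [zero_pow hm] at h
    exact hz (by simpa using h.symm.eq_zero_iff.mpr rfl)
  obtain ⟨a, ε₀, hv'⟩ := IsDiscreteValuationRing.eq_unit_mul_pow_irreducible hv hϖ
  obtain ⟨w, hw⟩ := h
  refine ⟨a, ε₀ ^ m * w, ?_⟩
  rw [← hw, hv']
  push_cast
  ring

/-- In a discrete valuation ring, `ϖ ^ (m * a + 1) ∣ z ^ m → ϖ ^ (a + 1) ∣ z`. -/
theorem pow_succ_dvd_of_pow_mul_succ_dvd_pow {ϖ : D} (hϖ : Irreducible ϖ) {m a : ℕ}
    {z : D} (h : ϖ ^ (m * a + 1) ∣ z ^ m) : ϖ ^ (a + 1) ∣ z := by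
  by_cases hz : z = 0
  · rw [hz]
    exact dvd_zero _
  obtain ⟨n, ε, hn⟩ := IsDiscreteValuationRing.eq_unit_mul_pow_irreducible hz hϖ
  have h1 : ϖ ^ (m * a + 1) ∣ ϖ ^ (n * m) := by
    have h2 : z ^ m = (ε ^ m : Dˣ) * ϖ ^ (n * m) := by
      rw [hn]
      push_cast
      ring
    rw [h2] at h
    exact (Units.dvd_mul_left).mp h
  have h3 : m * a + 1 ≤ n * m := (pow_dvd_pow_iff hϖ.ne_zero hϖ.not_isUnit).mp h1
  have h4 : a + 1 ≤ n := by
    rcases Nat.lt_or_ge n (a + 1) with hcon | hcon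
    · have h5 : n ≤ a := Nat.lt_succ_iff.mp hcon
      have h6 : n * m ≤ m * a := by
        rw [mul_comm n m]
        exact Nat.mul_le_mul_left m h5
      omega
    · exact hcon
  rw [hn]
  exact Dvd.dvd.mul_left (pow_dvd_pow ϖ h4) _

end DVRFacts

section Branch

variable {R : Type*} [CommRing R] [IsLocalRing R]
variable (𝔭 : Ideal R) [𝔭.IsPrime] [IsDiscreteValuationRing (R ⧸ 𝔭)]

/-- Non-units of `R` are divisible by a uniformiser modulo `𝔭`. -/
theorem exists_sub_mul_mem_of_mem_maximalIdeal {x : R}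
    (hx : Irreducible (Ideal.Quotient.mk 𝔭 x)) {s : R} (hs : s ∈ IsLocalRing.maximalIdeal R) :
    ∃ g : R, s - x * g ∈ 𝔭 := by
  have hloc : IsLocalHom (Ideal.Quotient.mk 𝔭) :=
    Function.Surjective.isLocalHom _ Ideal.Quotient.mk_surjective
  have h1 : ¬ IsUnit (Ideal.Quotient.mk 𝔭 s) := by
    intro h
    exact hs (IsLocalHom.map_nonunit s h)
  have h2 : Ideal.Quotient.mk 𝔭 s ∈ IsLocalRing.maximalIdeal (R ⧸ 𝔭) := h1
  rw [hx.maximalIdeal_eq, Ideal.mem_span_singleton] at h2
  obtain ⟨c, hc⟩ := h2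
  obtain ⟨g, rfl⟩ := Ideal.Quotient.mk_surjective c
  refine ⟨g, ?_⟩
  rw [← Ideal.Quotient.eq, hc, map_mul]

omit [IsLocalRing R] [IsDiscreteValuationRing (R ⧸ 𝔭)] in
/-- `x ^ b ∉ (x ^ (b + 1)) + 𝔭` for a uniformiser `x` modulo `𝔭`. -/
theorem pow_sub_pow_succ_mul_notMem {x : R}
    (hx : Irreducible (Ideal.Quotient.mk 𝔭 x)) (b : ℕ) (g : R) :
    x ^ b - x ^ (b + 1) * g ∉ 𝔭 := by
  intro h
  rw [← Ideal.Quotient.eq, map_mul, map_pow, map_pow] at h
  exact pow_ne_pow_succ_mul hx b _ h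

omit [IsLocalRing R] in
/-- The data `(a, ε)` with `u ≡ ε x ^ (m a)` modulo `𝔭` extracted from (H2). -/
theorem exists_mk_eq_unit_mul_pow {x : R}
    (hx : Irreducible (Ideal.Quotient.mk 𝔭 x)) {m : ℕ} (hm : m ≠ 0) {u : R} (hu : u ∉ 𝔭)
    (H2 : ∃ v : R ⧸ 𝔭, Associated (v ^ m) (Ideal.Quotient.mk 𝔭 u)) :
    ∃ (a : ℕ) (ε : (R ⧸ 𝔭)ˣ),
      Ideal.Quotient.mk 𝔭 u = ε * (Ideal.Quotient.mk 𝔭 x) ^ (m * a) := by
  obtain ⟨v, hv⟩ := H2
  have hu0 : Ideal.Quotient.mk 𝔭 u ≠ 0 := by
    rwa [Ne, Ideal.Quotient.eq_zero_iff_mem]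
  exact exists_eq_unit_mul_pow_mul_of_associated_pow hx hm hu0 hv

omit [IsLocalRing R] [IsDiscreteValuationRing (R ⧸ 𝔭)] [𝔭.IsPrime] in
/-- `x ^ (m a) ∈ (u) + 𝔭` if `u ≡ ε x ^ (m a)` modulo `𝔭`. -/
theorem exists_pow_sub_mul_mem {x u : R} {n : ℕ} {ε : (R ⧸ 𝔭)ˣ}
    (hu : Ideal.Quotient.mk 𝔭 u = ε * (Ideal.Quotient.mk 𝔭 x) ^ n) :
    ∃ e : R, x ^ n - u * e ∈ 𝔭 := by
  obtain ⟨e, he⟩ := Ideal.Quotient.mk_surjective ((ε⁻¹ : (R ⧸ 𝔭)ˣ) : R ⧸ 𝔭)
  refine ⟨e, ?_⟩
  rw [← Ideal.Quotient.eq, map_mul, map_pow, he, hu]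
  rw [mul_comm, ← mul_assoc, Units.inv_mul, one_mul]

/-- If `u ≡ ε x ^ (m a)` modulo `𝔭`, `f ^ m = u r` and `r` is not a unit, then
`f ∈ (x ^ (a + 1)) + 𝔭`. -/
theorem exists_sub_pow_succ_mul_mem {x : R}
    (hx : Irreducible (Ideal.Quotient.mk 𝔭 x)) {m a : ℕ} {u : R} {ε : (R ⧸ 𝔭)ˣ}
    (hu : Ideal.Quotient.mk 𝔭 u = ε * (Ideal.Quotient.mk 𝔭 x) ^ (m * a))
    {f r : R} (hf : f ^ m = u * r) (hr : r ∈ IsLocalRing.maximalIdeal R) :
    ∃ g : R, f - x ^ (a + 1) * g ∈ 𝔭 := by
  obtain ⟨c, hc⟩ := exists_sub_mul_mem_of_mem_maximalIdeal 𝔭 hx hr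
  rw [← Ideal.Quotient.eq, map_mul] at hc
  have h0 : (Ideal.Quotient.mk 𝔭 f) ^ m =
      Ideal.Quotient.mk 𝔭 u * Ideal.Quotient.mk 𝔭 r := by
    rw [← map_pow, hf, map_mul]
  have h1 : (Ideal.Quotient.mk 𝔭 x) ^ (m * a + 1) ∣ (Ideal.Quotient.mk 𝔭 f) ^ m := by
    rw [h0, hu, hc]
    refine ⟨ε * Ideal.Quotient.mk 𝔭 c, ?_⟩
    ring
  obtain ⟨d, hd⟩ := pow_succ_dvd_of_pow_mul_succ_dvd_pow hx h1
  obtain ⟨g, rfl⟩ := Ideal.Quotient.mk_surjective d
  refine ⟨g, ?_⟩
  rw [← Ideal.Quotient.eq, hd, map_mul, map_pow]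

end Branch

section PowChain

variable {R : Type*} [CommRing R]

/-- A nonzero relative quotient has length at least one. -/
theorem one_le_relLen_of_notMem {A B : Ideal R} {z : R} (hz : z ∈ B) (hzA : z ∉ A) :
    1 ≤ relLen A B := by
  rw [relLen, Order.one_le_iff_ne_zero, Ne, Module.length_eq_zero_iff]
  intro hsub
  apply hzA
  have h := hsub.elim (Submodule.Quotient.mk (⟨z, hz⟩ : B) : ↥B ⧸ A.submoduleOf B) 0
  rw [Submodule.Quotient.mk_eq_zero] at h
  exact h

variable [IsLocalRing R]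

/-- The residue field has length one. -/
theorem relLen_maximalIdeal :
    relLen (IsLocalRing.maximalIdeal R) (⊤ : Ideal R) = 1 := by
  rw [relLen_top, Module.length_eq_one_iff, isSimpleModule_iff_isCoatom]
  exact Ideal.isMaximal_def.mp (IsLocalRing.maximalIdeal.isMaximal R)

/-- A cyclic relative quotient killed by the maximal ideal has length at most one. -/
theorem relLen_le_one_of_kill {A B : Ideal R} {z : R} (hz : z ∈ B)
    (hB : B ≤ Ideal.span {z} ⊔ A)
    (hkill : ∀ s ∈ IsLocalRing.maximalIdeal R, s * z ∈ A) : relLen A B ≤ 1 := by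
  rw [← relLen_maximalIdeal (R := R)]
  refine relLen_le_of_map (LinearMap.mulRight R z) (N' := IsLocalRing.maximalIdeal R)
    (N := ⊤) (P' := A) (P := B) ?_ ?_ ?_
  · intro y _
    rw [LinearMap.mulRight_apply]
    exact B.mul_mem_left y hz
  · intro y hy
    rw [LinearMap.mulRight_apply]
    exact hkill y hy
  · intro b hb
    obtain ⟨c, hc, a, ha, rfl⟩ := Submodule.mem_sup.mp (hB hb)
    obtain ⟨d, rfl⟩ := Ideal.mem_span_singleton'.mp hc
    refine ⟨d, trivial, ?_⟩
    rw [LinearMap.mulRight_apply, add_sub_cancel_left]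
    exact ha

/-- One step of the power chain has length one. -/
theorem relLen_pow_step (𝔭 : Ideal R) [𝔭.IsPrime] {z : R}
    (hz : Irreducible (Ideal.Quotient.mk 𝔭 z)) (𝔞 : Ideal R) (h𝔞 : 𝔞 ≤ 𝔭) (n : ℕ)
    (hkill : ∀ s ∈ IsLocalRing.maximalIdeal R, s * z ^ n ∈ Ideal.span {z ^ (n + 1)} ⊔ 𝔞) :
    relLen (Ideal.span {z ^ (n + 1)} ⊔ 𝔞) (Ideal.span {z ^ n} ⊔ 𝔞) = 1 := by
  have hzB : z ^ n ∈ Ideal.span {z ^ n} ⊔ 𝔞 :=
    Ideal.mem_sup_left (Ideal.mem_span_singleton_self _)
  apply le_antisymm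
  · refine relLen_le_one_of_kill hzB ?_ hkill
    refine sup_le le_sup_left ?_
    exact le_sup_of_le_right le_sup_right
  · refine one_le_relLen_of_notMem hzB ?_
    intro hmem
    obtain ⟨c, hc, a, ha, hca⟩ := Submodule.mem_sup.mp hmem
    obtain ⟨g, rfl⟩ := Ideal.mem_span_singleton'.mp hc
    refine pow_sub_pow_succ_mul_notMem 𝔭 hz n g ?_
    have : z ^ n - z ^ (n + 1) * g = a := by
      rw [← hca]
      ring
    rw [this]
    exact h𝔞 ha

/-- The power chain: `ℓ(((z ^ n₀) + 𝔞) / ((z ^ (n₀ + k)) + 𝔞)) = k`. -/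
theorem relLen_pow_chain (𝔭 : Ideal R) [𝔭.IsPrime] {z : R}
    (hz : Irreducible (Ideal.Quotient.mk 𝔭 z)) (𝔞 : Ideal R) (h𝔞 : 𝔞 ≤ 𝔭) (n₀ : ℕ)
    (hkill : ∀ n, n₀ ≤ n → ∀ s ∈ IsLocalRing.maximalIdeal R,
      s * z ^ n ∈ Ideal.span {z ^ (n + 1)} ⊔ 𝔞) (k : ℕ) :
    relLen (Ideal.span {z ^ (n₀ + k)} ⊔ 𝔞) (Ideal.span {z ^ n₀} ⊔ 𝔞) = k := by
  have hmono : ∀ i j : ℕ, i ≤ j → Ideal.span {z ^ j} ⊔ 𝔞 ≤ Ideal.span {z ^ i} ⊔ 𝔞 := by
    intro i j hij
    refine sup_le_sup_right ?_ _
    rw [Ideal.span_singleton_le_span_singleton]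
    exact pow_dvd_pow z hij
  induction k with
  | zero =>
    rw [add_zero, relLen_self]
    rfl
  | succ k ih =>
    rw [relLen_add (hmono (n₀ + k) (n₀ + (k + 1)) (by omega)) (hmono n₀ (n₀ + k) (by omega)), ih,
      ← add_assoc, relLen_pow_step 𝔭 hz 𝔞 h𝔞 (n₀ + k) (hkill _ (by omega))]
    push_cast
    rw [add_comm]

end PowChain

end Fermat.Agent.A2.H609

end
-- ===== PACK-END A2/H609/Branch.lean

-- ===== PACK-BEGIN S18/H754/IntLoc.lean
section


/-!
# S18 / Route K / étale Kummer cover: the ring `O'` (integral closure of `B_(ϖ)`) elementwise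
-/

set_option autoImplicit false

noncomputable section

namespace Fermat.Agent.S18.H754

section IntLoc

variable {B : Type*} [CommRing B] {F' : Type*} [Field F'] [Algebra B F']

/-- The ring `O'` of elements of `F'` which become integral over `B` after multiplication by
some `s ∈ B ∖ ϖB` (the integral closure of `B_(ϖ)` in `F'`). -/
def Oloc (ϖ : B) (hϖ : Prime ϖ) : Subring F' where
  carrier := {y | ∃ s : B, s ∉ Ideal.span {ϖ} ∧ IsIntegral B (algebraMap B F' s * y)}
  mul_mem' := by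
    rintro x y ⟨s, hs, hx⟩ ⟨s', hs', hy⟩
    refine ⟨s * s', ?_, ?_⟩
    · intro h
      rw [Ideal.mem_span_singleton] at h hs hs'
      rcases hϖ.dvd_or_dvd h with h | h
      · exact hs h
      · exact hs' h
    · have e : algebraMap B F' (s * s') * (x * y) =
          (algebraMap B F' s * x) * (algebraMap B F' s' * y) := by
        rw [map_mul]; ring
      rw [e]
      exact hx.mul hy
  one_mem' := by
    refine ⟨1, ?_, ?_⟩
    · rw [Ideal.mem_span_singleton]
      exact fun h => hϖ.not_unit (isUnit_of_dvd_one h)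
    · rw [map_one, mul_one]
      exact isIntegral_one
  add_mem' := by
    rintro x y ⟨s, hs, hx⟩ ⟨s', hs', hy⟩
    refine ⟨s * s', ?_, ?_⟩
    · intro h
      rw [Ideal.mem_span_singleton] at h hs hs'
      rcases hϖ.dvd_or_dvd h with h | h
      · exact hs h
      · exact hs' h
    · have h1 : IsIntegral B (algebraMap B F' s' * (algebraMap B F' s * x)) :=
        (isIntegral_algebraMap).mul hx
      have h2 : IsIntegral B (algebraMap B F' s * (algebraMap B F' s' * y)) :=
        (isIntegral_algebraMap).mul hy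
      have e : algebraMap B F' (s * s') * (x + y) =
          algebraMap B F' s' * (algebraMap B F' s * x) +
            algebraMap B F' s * (algebraMap B F' s' * y) := by
        rw [map_mul]; ring
      rw [e]
      exact h1.add h2
  zero_mem' := by
    refine ⟨1, ?_, ?_⟩
    · rw [Ideal.mem_span_singleton]
      exact fun h => hϖ.not_unit (isUnit_of_dvd_one h)
    · rw [mul_zero]
      exact isIntegral_zero
  neg_mem' := by
    rintro x ⟨s, hs, hx⟩
    refine ⟨s, hs, ?_⟩
    rw [mul_neg]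
    exact hx.neg

lemma mem_Oloc {ϖ : B} {hϖ : Prime ϖ} {y : F'} :
    y ∈ Oloc (F' := F') ϖ hϖ ↔
      ∃ s : B, s ∉ Ideal.span {ϖ} ∧ IsIntegral B (algebraMap B F' s * y) := Iff.rfl

lemma mem_Oloc_of_isIntegral {ϖ : B} (hϖ : Prime ϖ) {y : F'} (hy : IsIntegral B y) :
    y ∈ Oloc (F' := F') ϖ hϖ := by
  refine ⟨1, ?_, ?_⟩
  · rw [Ideal.mem_span_singleton]
    exact fun h => hϖ.not_unit (isUnit_of_dvd_one h)
  · rw [map_one, one_mul]
    exact hy

lemma algebraMap_mem_Oloc {ϖ : B} (hϖ : Prime ϖ) (b : B) :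
    algebraMap B F' b ∈ Oloc (F' := F') ϖ hϖ :=
  mem_Oloc_of_isIntegral hϖ isIntegral_algebraMap

/-- `ϖ O'` in terms of `O'`. -/
lemma inPiO_iff [FaithfulSMul B F'] {ϖ : B} (hϖ : Prime ϖ) {y : F'} :
    InPiO ϖ y ↔ ∃ y' ∈ Oloc (F' := F') ϖ hϖ, y = algebraMap B F' ϖ * y' := by
  have hinj : Function.Injective (algebraMap B F') := FaithfulSMul.algebraMap_injective B F'
  constructor
  · rintro ⟨s, hs, c, hc, h⟩
    have hs0 : algebraMap B F' s ≠ 0 := by
      intro h0
      apply hs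
      have : s = 0 := hinj (by rw [h0, map_zero])
      rw [this]
      exact Ideal.zero_mem _
    refine ⟨c / algebraMap B F' s, ⟨s, hs, ?_⟩, ?_⟩
    · rw [mul_div_cancel₀ _ hs0]
      exact hc
    · field_simp
      rw [mul_comm]
      exact h
  · rintro ⟨y', ⟨s, hs, hy'⟩, rfl⟩
    exact ⟨s, hs, _, hy', by ring⟩

lemma InPiO.add [FaithfulSMul B F'] {ϖ : B} (hϖ : Prime ϖ) {x y : F'}
    (hx : InPiO ϖ x) (hy : InPiO ϖ y) : InPiO ϖ (x + y) := by
  rw [inPiO_iff hϖ] at hx hy ⊢
  obtain ⟨x', hx', rfl⟩ := hx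
  obtain ⟨y', hy', rfl⟩ := hy
  exact ⟨x' + y', add_mem hx' hy', by ring⟩

lemma InPiO.neg [FaithfulSMul B F'] {ϖ : B} (hϖ : Prime ϖ) {x : F'}
    (hx : InPiO ϖ x) : InPiO ϖ (-x) := by
  rw [inPiO_iff hϖ] at hx ⊢
  obtain ⟨x', hx', rfl⟩ := hx
  exact ⟨-x', neg_mem hx', by ring⟩

lemma InPiO.sub [FaithfulSMul B F'] {ϖ : B} (hϖ : Prime ϖ) {x y : F'}
    (hx : InPiO ϖ x) (hy : InPiO ϖ y) : InPiO ϖ (x - y) := by
  rw [sub_eq_add_neg]
  exact hx.add hϖ (hy.neg hϖ)

lemma InPiO.mul_left [FaithfulSMul B F'] {ϖ : B} (hϖ : Prime ϖ) {x y : F'}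
    (hx : x ∈ Oloc (F' := F') ϖ hϖ) (hy : InPiO ϖ y) : InPiO ϖ (x * y) := by
  rw [inPiO_iff hϖ] at hy ⊢
  obtain ⟨y', hy', rfl⟩ := hy
  exact ⟨x * y', mul_mem hx hy', by ring⟩

lemma InPiO.mul_right [FaithfulSMul B F'] {ϖ : B} (hϖ : Prime ϖ) {x y : F'}
    (hx : InPiO ϖ x) (hy : y ∈ Oloc (F' := F') ϖ hϖ) : InPiO ϖ (x * y) := by
  rw [mul_comm]
  exact hx.mul_left hϖ hy

lemma InPiO.zero [FaithfulSMul B F'] {ϖ : B} (hϖ : Prime ϖ) : InPiO ϖ (0 : F') := by
  rw [inPiO_iff hϖ]
  exact ⟨0, zero_mem _, by ring⟩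

lemma InPiO.sum [FaithfulSMul B F'] {ϖ : B} (hϖ : Prime ϖ) {ι : Type*} (s : Finset ι)
    (f : ι → F') (h : ∀ i ∈ s, InPiO ϖ (f i)) : InPiO ϖ (∑ i ∈ s, f i) := by
  classical
  induction s using Finset.induction_on with
  | empty => simpa using InPiO.zero hϖ
  | insert a s ha ih =>
    rw [Finset.sum_insert ha]
    exact (h a (Finset.mem_insert_self a s)).add hϖ
      (ih fun i hi => h i (Finset.mem_insert_of_mem hi))

/-- `x ≡ y mod ϖ O'` implies `x ^ a ≡ y ^ a`. -/
lemma InPiO.pow_sub_pow [FaithfulSMul B F'] {ϖ : B} (hϖ : Prime ϖ) {x y : F'}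
    (hx : x ∈ Oloc (F' := F') ϖ hϖ) (hy : y ∈ Oloc (F' := F') ϖ hϖ)
    (h : InPiO ϖ (x - y)) (a : ℕ) : InPiO ϖ (x ^ a - y ^ a) := by
  have h1 : x ^ a - y ^ a = (∑ i ∈ Finset.range a, x ^ i * y ^ (a - 1 - i)) * (x - y) :=
    (Commute.all x y).geom_sum₂_mul a |>.symm
  rw [h1]
  refine h.mul_left hϖ ?_
  exact sum_mem fun i _ => mul_mem (pow_mem hx _) (pow_mem hy _)

end IntLoc

end Fermat.Agent.S18.H754

end

end
-- ===== PACK-END S18/H754/IntLoc.lean

-- ===== PACK-BEGIN S18/H754/KummerLocal.lean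
section




/-!
# S18 / Route K / étale Kummer cover: the LOCAL lifting theorem

`R` a Noetherian local domain with `𝔪 = (ϖ, t)`, `ϖ` prime (so `R` is a UFD), `u ∈ Frac R` with
`u ≡ 1 mod ϖ` which is locally a unit times a `p`-th power at every prime element.
Then `u = w (d/c)^p` with `w ∈ Rˣ`, `ϖ ∤ c, d` and `c ≡ σ d mod ϖ` for a unit `σ`, and the Kummer
idempotents lift to elements integral over `R`.
-/

set_option autoImplicit false

noncomputable section

namespace Fermat.Agent.S18.H754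

open Polynomial IsLocalRing

section Local

variable {R : Type*} [CommRing R] [IsDomain R] [IsNoetherianRing R] [IsLocalRing R]
  {F : Type*} [Field F] [Algebra R F] [IsFractionRing R F]

/-- Normal form of a locally-`p`-th-power `u ≡ 1 mod ϖ` over a regular local ring of the shape
`𝔪 = (ϖ, t)`. -/
theorem exists_kummer_normal_form (ϖ t : R) (hϖ : Prime ϖ)
    (hm : maximalIdeal R = Ideal.span {ϖ, t})
    (p : ℕ) (hp : 0 < p) (u : F) (h1 : OneModPi ϖ u)
    (hdiv : ∀ π : R, Prime π → LocallyPow R p u π) :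
    ∃ (c d : R) (w σ : Rˣ), ¬ ϖ ∣ c ∧ ¬ ϖ ∣ d ∧
      u * algebraMap R F c ^ p = algebraMap R F w * algebraMap R F d ^ p ∧
      ϖ ∣ c - σ * d := by
  classical
  haveI : UniqueFactorizationMonoid R := ufd_of_regular_pair ϖ t hϖ hm
  have hinj : Function.Injective (algebraMap R F) := IsFractionRing.injective R F
  obtain ⟨a, s, hs, has, hu⟩ := h1
  rw [Ideal.mem_span_singleton] at hs has
  have ha : ¬ ϖ ∣ a := by
    intro h
    apply hs
    have := dvd_sub h has
    rwa [sub_sub_cancel] at this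
  have ha0 : a ≠ 0 := fun h => ha (h ▸ dvd_zero _)
  have hs0 : s ≠ 0 := fun h => hs (h ▸ dvd_zero _)
  have hsF : algebraMap R F s ≠ 0 := fun h => hs0 (hinj (by rw [h, map_zero]))
  have haF : algebraMap R F a ≠ 0 := fun h => ha0 (hinj (by rw [h, map_zero]))
  have hu0 : u ≠ 0 := by
    rintro rfl
    rw [zero_mul] at hu
    exact haF hu.symm
  obtain ⟨s₀, hs₀, w, hw⟩ := exists_unit_mul_pow (R := R) p hp u hu0 hdiv
  obtain ⟨c, ⟨d, hd⟩, hrel, hcd⟩ := IsFractionRing.exists_reduced_fraction R (K := F) s₀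
  have hd0 : d ≠ 0 := nonZeroDivisors.ne_zero hd
  have hdF : algebraMap R F d ≠ 0 := fun h => hd0 (hinj (by rw [h, map_zero]))
  rw [IsFractionRing.mk'_eq_div] at hcd
  simp only at hcd hrel
  -- the key equation in `R`
  have key : a * c ^ p = w * s * d ^ p := by
    apply hinj
    simp only [map_mul, map_pow]
    rw [← hu, ← hw, ← hcd, div_pow]
    field_simp
  have hc : ¬ ϖ ∣ c := by
    intro h
    have h2 : ϖ ∣ (w : R) * s * d ^ p := by
      rw [← key]
      exact Dvd.dvd.mul_left (dvd_pow h hp.ne') a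
    rcases hϖ.dvd_or_dvd h2 with h3 | h3
    · rcases hϖ.dvd_or_dvd h3 with h4 | h4
      · exact hϖ.not_unit (isUnit_of_dvd_unit h4 w.isUnit)
      · exact hs h4
    · exact hϖ.not_unit (hrel h (hϖ.dvd_of_dvd_pow h3))
  have hd' : ¬ ϖ ∣ d := by
    intro h
    have h2 : ϖ ∣ a * c ^ p := by
      rw [key]
      exact Dvd.dvd.mul_left (dvd_pow h hp.ne') _
    rcases hϖ.dvd_or_dvd h2 with h3 | h3
    · exact ha h3
    · exact hc (hϖ.dvd_of_dvd_pow h3)
  -- pass to the quotient `R/ϖ`, a local principal ideal domain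
  haveI hprime : (Ideal.span {ϖ}).IsPrime := (Ideal.span_singleton_prime hϖ.ne_zero).mpr hϖ
  haveI hpid : IsPrincipalIdealRing (R ⧸ Ideal.span {ϖ}) :=
    isPrincipalIdealRing_quotient_of_regular_pair ϖ t hϖ hm
  haveI : Nontrivial (R ⧸ Ideal.span {ϖ}) := Ideal.Quotient.nontrivial_iff.mpr hprime.ne_top
  haveI : IsLocalRing (R ⧸ Ideal.span {ϖ}) :=
    IsLocalRing.of_surjective' (Ideal.Quotient.mk _) Ideal.Quotient.mk_surjective
  haveI : IsDomain (R ⧸ Ideal.span {ϖ}) := Ideal.Quotient.isDomain _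
  haveI : ValuationRing (R ⧸ Ideal.span {ϖ}) :=
    ValuationRing.iff_local_bezout_domain.mpr ⟨inferInstance, inferInstance⟩
  set mk := Ideal.Quotient.mk (Ideal.span {ϖ}) with hmk
  have hmk0 : ∀ x : R, mk x = 0 ↔ ϖ ∣ x := fun x => by
    rw [hmk, Ideal.Quotient.eq_zero_iff_mem, Ideal.mem_span_singleton]
  have hmc : mk c ≠ 0 := fun h => hc ((hmk0 c).1 h)
  have hmd : mk d ≠ 0 := fun h => hd' ((hmk0 d).1 h)
  have hms : mk s ≠ 0 := fun h => hs ((hmk0 s).1 h)
  have hmas : mk a = mk s := by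
    rw [← sub_eq_zero, ← map_sub]
    exact (hmk0 _).2 has
  have hmw : IsUnit (mk (w : R)) := w.isUnit.map mk
  have key' : mk c ^ p = mk (w : R) * mk d ^ p := by
    have := congrArg mk key
    simp only [map_mul, map_pow] at this
    rw [hmas] at this
    have h3 : mk s * mk c ^ p = mk s * (mk (w : R) * mk d ^ p) := by
      rw [this]; ring
    exact mul_left_cancel₀ hms h3
  have hx : ∃ x : R ⧸ Ideal.span {ϖ}, IsUnit x ∧ mk c = x * mk d := by
    rcases ValuationRing.dvd_total (mk c) (mk d) with ⟨y, hy⟩ | ⟨y, hy⟩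
    · -- `mk d = mk c * y`
      have h4 : mk c ^ p * 1 = mk c ^ p * (mk (w : R) * y ^ p) := by
        rw [mul_one]
        conv_lhs => rw [key', hy, mul_pow]
        ring
      have h5 : 1 = mk (w : R) * y ^ p := mul_left_cancel₀ (pow_ne_zero p hmc) h4
      have h6 : IsUnit (y ^ p) := IsUnit.of_mul_eq_one_right _ h5.symm
      have h7 : IsUnit y := (isUnit_pow_iff hp.ne').1 h6
      obtain ⟨y', rfl⟩ := h7
      refine ⟨((y'⁻¹ : (R ⧸ Ideal.span {ϖ})ˣ) : R ⧸ Ideal.span {ϖ}), Units.isUnit _, ?_⟩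
      rw [hy]
      rw [mul_comm (mk c), ← mul_assoc, Units.inv_mul, one_mul]
    · -- `mk c = mk d * y`
      have h4 : mk d ^ p * y ^ p = mk d ^ p * mk (w : R) := by
        rw [← mul_pow, ← hy, key']
        ring
      have h5 : y ^ p = mk (w : R) := mul_left_cancel₀ (pow_ne_zero p hmd) h4
      have h7 : IsUnit y := (isUnit_pow_iff hp.ne').1 (h5 ▸ hmw)
      exact ⟨y, h7, by rw [hy, mul_comm]⟩
  obtain ⟨x, hxu, hxc⟩ := hx
  obtain ⟨σ', rfl⟩ := Ideal.Quotient.mk_surjective x
  have hσ' : IsUnit σ' := by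
    rw [← IsLocalRing.notMem_maximalIdeal]
    intro hmem
    obtain ⟨y, hy⟩ := hxu.exists_right_inv
    obtain ⟨y', rfl⟩ := Ideal.Quotient.mk_surjective y
    have h8 : ϖ ∣ σ' * y' - 1 := by
      rw [← hmk0, map_sub, map_mul, map_one, sub_eq_zero]
      exact hy
    have h9 : ϖ ∈ maximalIdeal R := by
      rw [hm]
      exact Ideal.subset_span (Set.mem_insert _ _)
    have h10 : σ' * y' - 1 ∈ maximalIdeal R := Ideal.mem_of_dvd _ h8 h9
    have h11 : σ' * y' ∈ maximalIdeal R := Ideal.mul_mem_right _ _ hmem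
    have h12 : (1 : R) ∈ maximalIdeal R := by
      have := Ideal.sub_mem _ h11 h10
      rwa [sub_sub_cancel] at this
    exact (Ideal.ne_top_iff_one _).1 (IsLocalRing.maximalIdeal.isMaximal R).ne_top h12
  obtain ⟨σ, rfl⟩ := hσ'
  refine ⟨c, d, w, σ, hc, hd', ?_, ?_⟩
  · rw [← hw, ← hcd, div_pow]
    field_simp
  · rw [← hmk0, map_sub, map_mul, sub_eq_zero]
    exact hxc

section Lift

variable {F' : Type*} [Field F'] [Algebra F F'] [Algebra R F'] [IsScalarTower R F F']

omit [IsNoetherianRing R] [IsLocalRing R] in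
lemma faithfulSMul_of_tower (R F F' : Type*) [CommRing R] [IsDomain R] [Field F] [Algebra R F]
    [IsFractionRing R F] [Field F'] [Algebra F F'] [Algebra R F'] [IsScalarTower R F F'] :
    FaithfulSMul R F' := by
  rw [faithfulSMul_iff_algebraMap_injective]
  rw [IsScalarTower.algebraMap_eq R F F']
  exact (algebraMap F F').injective.comp (IsFractionRing.injective R F)

/-- **Local lifting theorem** for the Kummer idempotents. -/
theorem kummer_lift_local (ϖ t : R) (hϖ : Prime ϖ)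
    (hm : maximalIdeal R = Ideal.span {ϖ, t})
    (p : ℕ) (hp : 0 < p) (hpu : IsUnit (p : R))
    (u : F) (z : F') (hz : z ^ p = algebraMap F F' u) (h1 : OneModPi ϖ u)
    (hdiv : ∀ π : R, Prime π → LocallyPow R p u π) (η : R) :
    ∃ b : F', IsIntegral R b ∧ InPiO ϖ (b - kummerIdem p η z) := by
  classical
  haveI : FaithfulSMul R F' := faithfulSMul_of_tower R F F'
  have hinj' : Function.Injective (algebraMap R F') := FaithfulSMul.algebraMap_injective R F'
  obtain ⟨c, d, w, σ, hc, hd, hcd, hσ⟩ := exists_kummer_normal_form ϖ t hϖ hm p hp u h1 hdiv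
  have hc0 : c ≠ 0 := fun h => hc (h ▸ dvd_zero _)
  have hd0 : d ≠ 0 := fun h => hd (h ▸ dvd_zero _)
  have hcF : algebraMap R F' c ≠ 0 := fun h => hc0 (hinj' (by rw [h, map_zero]))
  have hdF : algebraMap R F' d ≠ 0 := fun h => hd0 (hinj' (by rw [h, map_zero]))
  have hcd' : algebraMap F F' u * algebraMap R F' c ^ p =
      algebraMap R F' w * algebraMap R F' d ^ p := by
    have := congrArg (algebraMap F F') hcd
    simpa only [map_mul, map_pow, ← IsScalarTower.algebraMap_apply] using this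
  -- `θ = z c / d`, `θ ^ p = w`
  set θ : F' := z * algebraMap R F' c / algebraMap R F' d with hθ
  have hθp : θ ^ p = algebraMap R F' w := by
    rw [hθ, div_pow, mul_pow, hz, hcd']
    field_simp
  have hθi : IsIntegral R θ := by
    refine IsIntegral.of_pow hp ?_
    rw [hθp]
    exact isIntegral_algebraMap
  -- `z c = θ d`
  have hzc : algebraMap R F' c * z = θ * algebraMap R F' d := by
    rw [hθ]
    field_simp
  set τ : R := ((σ⁻¹ : Rˣ) : R) with hτ
  set y : F' := θ * algebraMap R F' τ with hy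
  have hyi : IsIntegral R y := hθi.mul isIntegral_algebraMap
  have hyO : y ∈ Oloc (F' := F') ϖ hϖ := mem_Oloc_of_isIntegral hϖ hyi
  have hcs : c ∉ Ideal.span {ϖ} := by
    rw [Ideal.mem_span_singleton]
    exact hc
  have hzO : z ∈ Oloc (F' := F') ϖ hϖ := by
    refine ⟨c, hcs, ?_⟩
    rw [hzc]
    exact hθi.mul isIntegral_algebraMap
  -- `y ≡ z mod ϖ O'`
  obtain ⟨r, hr⟩ := hσ
  have hr' : τ * c - d = ϖ * (τ * r) := by
    have h2 : τ * (c - σ * d) = τ * c - d := by
      rw [mul_sub, ← mul_assoc, hτ, Units.inv_mul, one_mul]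
    rw [← h2, hr]
    ring
  have hyz : InPiO ϖ (y - z) := by
    refine ⟨c, hcs, θ * algebraMap R F' (τ * r), hθi.mul isIntegral_algebraMap, ?_⟩
    have h3 : algebraMap R F' c * (y - z) = θ * algebraMap R F' (τ * c - d) := by
      rw [mul_sub, hzc, hy, map_sub, map_mul]
      ring
    rw [h3, hr', map_mul]
    ring
  -- the lift
  have hpinv : ((p : F'))⁻¹ = algebraMap R F' ((hpu.unit⁻¹ : Rˣ) : R) := by
    have h4 : algebraMap R F' ((hpu.unit⁻¹ : Rˣ) : R) * (p : F') = 1 := by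
      rw [← map_natCast (algebraMap R F') p, ← map_mul]
      rw [IsUnit.val_inv_mul hpu, map_one]
    exact (eq_inv_of_mul_eq_one_left h4).symm
  refine ⟨(p : F')⁻¹ * ∑ a ∈ Finset.range p, algebraMap R F' (η ^ a) * y ^ a, ?_, ?_⟩
  · rw [hpinv]
    refine isIntegral_algebraMap.mul ?_
    refine IsIntegral.sum _ fun a _ => ?_
    exact isIntegral_algebraMap.mul (hyi.pow a)
  · have h5 : (p : F')⁻¹ * ∑ a ∈ Finset.range p, algebraMap R F' (η ^ a) * y ^ a -
        kummerIdem p η z =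
        (p : F')⁻¹ * ∑ a ∈ Finset.range p, algebraMap R F' (η ^ a) * (y ^ a - z ^ a) := by
      rw [kummerIdem, ← mul_sub, ← Finset.sum_sub_distrib]
      congr 1
      refine Finset.sum_congr rfl fun a _ => ?_
      ring
    rw [h5, hpinv]
    refine InPiO.mul_left hϖ (algebraMap_mem_Oloc hϖ _) ?_
    refine InPiO.sum hϖ _ _ fun a _ => ?_
    refine InPiO.mul_left hϖ (algebraMap_mem_Oloc hϖ _) ?_
    exact InPiO.pow_sub_pow hϖ hyO hzO hyz a

end Lift

end Local

end Fermat.Agent.S18.H754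

end

end
-- ===== PACK-END S18/H754/KummerLocal.lean

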