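import Mathlib
import Fermat.Prelude.Def_GaloisRep_Adic
import Fermat.Prelude.Def_EllipticCurve_FrobeniusTrace
import Fermat.Prelude.Thm_Subgroup_IsArithmetic_exists_nat_mem_strictPeriods_conj
import Fermat.Prelude.Def_CuspForm_HeckeAlgebra
import Fermat.Prelude.Def_AlgebraicCurve_DivisorClassGroup
import Fermat.Prelude.Def_FLTPrelim_Modularity
import Mathlib.GroupTheory.Index
import Mathlib.SetTheory.Cardinal.NatCard
import Mathlib.SetTheory.Cardinal.Finite
import Mathlib.Data.Nat.Factorization.Induction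
import Mathlib.Algebra.Squarefree.Basic
import Mathlib.Data.Nat.Squarefree
import Fermat.Prelude.Def_ModularCurve_X0ModL
import Fermat.Prelude.Def_ModularCurve_ArithmeticGalois
import Fermat.Prelude.Def_FLTPrelim_Ramification
import Fermat.Agent.Pack.S35.G0E0L1
import Fermat.Agent.Pack.S35.G0E0L0
import Fermat.Agent.Pack.S35.G0E0L3
import Fermat.Agent.Pack.S35.G0E0L2

-- ===== PACK-BEGIN S35/H991/Flat.lean
section
/-
S35 mid layer (helper991): the flatness bridge.

`exists_lTensor_subtype_eq`: let `J` be an abelian group with finite `m`-torsion, `f c : J → J' c`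
a family of additive maps and `K ≤ J` a subgroup containing every `m`-torsion element killed by
all the `f c`.  Then every `m`-torsion element of `O ⊗ J` killed by all the `1 ⊗ f c` comes from
`O ⊗ K` (`O` flat over `ℤ`).
-/


set_option autoImplicit false

namespace Fermat.Agent.S35.H991

open TensorProduct

section Pi

variable (O : Type*) [CommRing O]
variable {I : Type*} [Finite I] {M : I → Type*} [∀ i, AddCommGroup (M i)]

/-- An element of `O ⊗ ∏ M i` (finite product) all of whose components vanish is zero. -/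
theorem eq_zero_of_proj_lTensor_eq_zero (z : O ⊗[ℤ] (∀ i, M i))
    (hz : ∀ i, (LinearMap.proj (R := ℤ) (φ := M) i).lTensor O z = 0) : z = 0 := by
  classical
  have : Fintype I := Fintype.ofFinite I
  have h1 : TensorProduct.piRight ℤ ℤ O M z = 0 := by
    funext i
    have h2 : ∀ w : O ⊗[ℤ] (∀ i, M i),
        TensorProduct.piRight ℤ ℤ O M w i = (LinearMap.proj (R := ℤ) (φ := M) i).lTensor O w := by
      intro w
      induction w using TensorProduct.induction_on with
      | zero => simp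
      | tmul x g => simp
      | add a b ha hb => rw [map_add, map_add, Pi.add_apply, ha, hb]
    rw [h2, hz i]
    rfl
  exact (TensorProduct.piRight ℤ ℤ O M).injective (by rw [h1, map_zero])

end Pi

section Flat

variable (O : Type*) [CommRing O] [Module.Flat ℤ O]
variable {J : Type*} [AddCommGroup J]

/-- **Flatness bridge.** -/
theorem exists_lTensor_subtype_eq (m : ℕ) (hfin : {x : J | m • x = 0}.Finite)
    {C : Type*} {J' : C → Type*} [∀ c, AddCommGroup (J' c)] (f : ∀ c, J →ₗ[ℤ] J' c)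
    (K : Submodule ℤ J) (hK : ∀ x : J, m • x = 0 → (∀ c, f c x = 0) → x ∈ K)
    (y : O ⊗[ℤ] J) (hy : (m : ℤ) • y = 0) (hfy : ∀ c, (f c).lTensor O y = 0) :
    ∃ s : O ⊗[ℤ] K, K.subtype.lTensor O s = y := by
  classical
  -- step 1: `y` comes from `O ⊗ J[m]`
  set Jm := LinearMap.ker ((m : ℤ) • (LinearMap.id : J →ₗ[ℤ] J)) with hJm
  obtain ⟨y', hy'⟩ := Fermat.Agent.S30.H529.exists_lTensor_eq_of_smul_eq_zero O (m : ℤ) y hy
  have hmem : ∀ x : J, x ∈ Jm ↔ m • x = 0 := by
    intro x
    rw [hJm, LinearMap.mem_ker, LinearMap.smul_apply, LinearMap.id_apply, natCast_zsmul]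
  have hJmfin : Finite Jm := by
    have : (Jm : Set J) = {x : J | m • x = 0} := by
      ext x
      exact hmem x
    exact Set.finite_coe_iff.mpr (this ▸ hfin)
  -- step 2: finitely many of the maps suffice
  have hex : ∀ x : {x : Jm // (x : J) ∉ K}, ∃ c : C, f c (x : Jm) ≠ 0 := by
    rintro ⟨x, hx⟩
    by_contra hcon
    push Not at hcon
    exact hx (hK x ((hmem x).mp x.2) hcon)
  choose c hc using hex
  let F : Jm →ₗ[ℤ] (∀ x : {x : Jm // (x : J) ∉ K}, J' (c x)) :=
    LinearMap.pi fun x => (f (c x)).comp Jm.subtype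
  have hFK : ∀ z : Jm, F z = 0 → (z : J) ∈ K := by
    intro z hz
    by_contra hzK
    have := congrFun hz ⟨z, hzK⟩
    exact hc ⟨z, hzK⟩ this
  -- step 3: flatness
  have hexact := Module.Flat.lTensor_exact O (LinearMap.exact_subtype_ker_map F)
  have hFy : F.lTensor O y' = 0 := by
    apply eq_zero_of_proj_lTensor_eq_zero O
    intro x
    have h1 : (LinearMap.proj (R := ℤ) (φ := fun x : {x : Jm // (x : J) ∉ K} => J' (c x)) x).comp F
        = (f (c x)).comp Jm.subtype := by
      apply LinearMap.ext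
      intro z
      rfl
    rw [← LinearMap.comp_apply, ← LinearMap.lTensor_comp, h1, LinearMap.lTensor_comp,
      LinearMap.comp_apply, hy', hfy]
  obtain ⟨s', hs'⟩ := (hexact y').mp hFy
  -- step 4: push to `K`
  let incl : LinearMap.ker F →ₗ[ℤ] K :=
    { toFun := fun z => ⟨((z : Jm) : J), hFK z z.2⟩
      map_add' := fun a b => rfl
      map_smul' := fun r a => rfl }
  refine ⟨incl.lTensor O s', ?_⟩
  have h2 : K.subtype.comp incl = Jm.subtype.comp (LinearMap.ker F).subtype := by
    apply LinearMap.ext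
    intro z
    rfl
  rw [← LinearMap.comp_apply, ← LinearMap.lTensor_comp, h2, LinearMap.lTensor_comp,
    LinearMap.comp_apply, hs', hy']

end Flat

end Fermat.Agent.S35.H991

end
-- ===== PACK-END S35/H991/Flat.lean

-- ===== PACK-BEGIN S30/H529/AdicEigen.lean
section




/-!
# S30 helper (helper529): the adic eigenmodule attached to a Galois module with finite
`p`-torsion

Specialisation of `exists_adic_eigenmodule` to `G = Gal(ℚ̄/ℚ)`, with the conclusion in the
language of the Prelude (`GaloisActionIsAdicContinuous`).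
-/

set_option autoImplicit false
set_option linter.unusedSectionVars false

namespace Fermat.Agent.S30.H529

open IsLocalRing TensorProduct

noncomputable section

/-- If `J[p]` is finite then `J[p ^ n]` is finite. -/
theorem finite_torsion_pow (J : Type*) [AddCommGroup J] (p : ℕ)
    (hfin : {x : J | p • x = 0}.Finite) (n : ℕ) : {x : J | p ^ n • x = 0}.Finite := by
  induction n with
  | zero =>
    have : {x : J | p ^ 0 • x = 0} = {0} := by
      ext x
      simp
    rw [this]
    exact Set.finite_singleton 0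
  | succ n ih =>
    have hsub : {x : J | p ^ (n + 1) • x = 0}
        ⊆ ⋃ y ∈ {y : J | p ^ n • y = 0}, {x : J | p • x = y} := by
      intro x hx
      simp only [Set.mem_ofPred_eq] at hx
      simp only [Set.mem_iUnion, Set.mem_ofPred_eq, exists_prop]
      refine ⟨p • x, ?_, rfl⟩
      rw [← mul_smul, ← pow_succ]
      exact hx
    refine Set.Finite.subset (Set.Finite.biUnion ih ?_) hsub
    intro y _
    by_cases hy : ∃ x₀ : J, p • x₀ = y
    · obtain ⟨x₀, hx₀⟩ := hy
      have hsub2 : {x : J | p • x = y} ⊆ (fun z => x₀ + z) '' {z : J | p • z = 0} := by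
        intro x hx
        simp only [Set.mem_ofPred_eq] at hx
        refine ⟨x - x₀, ?_, add_sub_cancel x₀ x⟩
        simp only [Set.mem_ofPred_eq]
        rw [smul_sub, hx, hx₀, sub_self]
      exact Set.Finite.subset (hfin.image _) hsub2
    · have : {x : J | p • x = y} = ∅ := by
        ext x
        simp only [Set.mem_ofPred_eq, Set.mem_empty_iff_false, iff_false]
        intro hx
        exact hy ⟨x, hx⟩
      rw [this]
      exact Set.finite_empty

/-- A common finite level for finitely many smooth vectors. -/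
theorem exists_common_level {J : Type*} [AddCommGroup J]
    [DistribMulAction (AlgebraicClosure ℚ ≃ₐ[ℚ] AlgebraicClosure ℚ) J] (S : Set J)
    (hS : S.Finite)
    (hsm : ∀ x ∈ S, ∃ L : IntermediateField ℚ (AlgebraicClosure ℚ), FiniteDimensional ℚ L ∧
      ∀ σ : AlgebraicClosure ℚ ≃ₐ[ℚ] AlgebraicClosure ℚ, (∀ y ∈ L, σ y = y) → σ • x = x) :
    ∃ L : IntermediateField ℚ (AlgebraicClosure ℚ), FiniteDimensional ℚ L ∧
      ∀ σ : AlgebraicClosure ℚ ≃ₐ[ℚ] AlgebraicClosure ℚ, (∀ y ∈ L, σ y = y) →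
        ∀ x ∈ S, σ • x = x := by
  induction S, hS using Set.Finite.induction_on with
  | empty =>
    exact ⟨⊥, inferInstance, fun _ _ x hx => absurd hx (Set.notMem_empty x)⟩
  | @insert b S _ _ ih =>
    obtain ⟨L₁, hL₁, h₁⟩ := ih (fun x hx => hsm x (Set.mem_insert_of_mem _ hx))
    obtain ⟨L₂, hL₂, h₂⟩ := hsm b (Set.mem_insert _ _)
    refine ⟨L₁ ⊔ L₂, inferInstance, fun σ hσ x hx => ?_⟩
    rcases Set.mem_insert_iff.mp hx with rfl | hx
    · exact h₂ σ (fun y hy => hσ y ((le_sup_right : L₂ ≤ L₁ ⊔ L₂) hy))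
    · exact h₁ σ (fun y hy => hσ y ((le_sup_left : L₁ ≤ L₁ ⊔ L₂) hy)) x hx

section Main

variable (p : ℕ)
variable (O : Type) [CommRing O] [IsDomain O] [IsDiscreteValuationRing O]
  [IsAdicComplete (maximalIdeal O) O] [CharZero O]
variable (J : Type) [AddCommGroup J]
  [DistribMulAction (AlgebraicClosure ℚ ≃ₐ[ℚ] AlgebraicClosure ℚ) J]
variable {ι : Type*} (T : ι → J →+ J) (a : ι → O)

/-- **Adic eigenmodule from a smooth Galois module with finite `p`-torsion.** -/
theorem exists_adic_galois_eigenmodule (hpO : (p : O) ∈ maximalIdeal O) (hp0 : p ≠ 0)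
    (hT : ∀ (i : ι) (γ : AlgebraicClosure ℚ ≃ₐ[ℚ] AlgebraicClosure ℚ) (x : J),
      T i (γ • x) = γ • T i x)
    (hfin : {x : J | p • x = 0}.Finite)
    (hsm : ∀ x : J, (∃ n : ℕ, p ^ n • x = 0) →
      ∃ L : IntermediateField ℚ (AlgebraicClosure ℚ), FiniteDimensional ℚ L ∧
        ∀ σ : AlgebraicClosure ℚ ≃ₐ[ℚ] AlgebraicClosure ℚ, (∀ y ∈ L, σ y = y) → σ • x = x)
    (v : ℕ → O ⊗[ℤ] J) (hv0 : (p : O) • v 0 = 0) (hv : ∀ n, (p : O) • v (n + 1) = v n)
    (hne : v ≠ 0) (heig : ∀ i n, tensorOp O T i (v n) = a i • v n) :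
    ∃ (M : Type) (_ : AddCommGroup M) (_ : Module O M) (_ : Module.Free O M)
      (_ : Module.Finite O M)
      (ρ : (AlgebraicClosure ℚ ≃ₐ[ℚ] AlgebraicClosure ℚ) →* Module.End O M),
      Nontrivial M ∧ GaloisActionIsAdicContinuous O ρ ∧
      (∀ γ : AlgebraicClosure ℚ ≃ₐ[ℚ] AlgebraicClosure ℚ,
        (∀ x : J, (∃ n : ℕ, p ^ n • x = 0) → γ • x = x) → ρ γ = 1) ∧
      (∀ (γ : AlgebraicClosure ℚ ≃ₐ[ℚ] AlgebraicClosure ℚ) (i : ι) (c : ℤ),
        (∀ x : J, (∃ n : ℕ, p ^ n • x = 0) → γ • γ • x - T i (γ • x) + c • x = 0) →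
        ρ γ * ρ γ - a i • ρ γ + (c : O) • (1 : Module.End O M) = 0) := by
  obtain ⟨M, i1, i2, i3, i4, ρ, hnt, hcont, hunr, hquad⟩ :=
    exists_adic_eigenmodule p O J T a hpO hp0 hT hfin v hv0 hv hne heig
  refine ⟨M, i1, i2, i3, i4, ρ, hnt, ?_, hunr, hquad⟩
  intro n
  obtain ⟨L, hL, hLfix⟩ := exists_common_level {x : J | p ^ n • x = 0}
    (finite_torsion_pow J p hfin n) (fun x hx => hsm x ⟨n, hx⟩)
  exact ⟨L, hL, fun σ hσ m => hcont n σ (fun x hx => hLfix σ hσ x hx) m⟩

end Main

end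

end Fermat.Agent.S30.H529

end
-- ===== PACK-END S30/H529/AdicEigen.lean

-- ===== PACK-BEGIN S35/H891/Eigen3.lean
section
/-
S35 top glue for the CUBIC relation (helper891): the adic eigenmodule of helper529
(`S30.H529.exists_adic_galois_eigenmodule`) with one more clause — CUBIC relations
`γ³ + c₂ γ² + c₁ γ + c₀ = 0` with integer coefficients on `J[p^∞]` are inherited by the module.

Same module (`tateEigen`), same representation (`tateRep`), same proof.
-/


set_option autoImplicit false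
set_option linter.unusedSectionVars false

namespace Fermat.Agent.S35.H891

open IsLocalRing TensorProduct Fermat.Agent.S30.H529

noncomputable section

section Action

variable {O : Type*} [CommRing O]
variable {X : Type*} [AddCommGroup X] [Module O X]
variable {ι : Type*}
variable {ϖ : O} {t : ι → X →ₗ[O] X} {a : ι → O}
variable {G : Type*} [Monoid G] (ρ : G →* Module.End O X)
  (hρ : ∀ (γ : G) (i : ι) (x : X), ρ γ (t i x) = t i (ρ γ x))

/-- Cubic relations on the torsion are inherited by the Tate module. -/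
theorem tateRep_cubic (γ : G) (c₂ c₁ c₀ : O)
    (hγ : ∀ x : X, (∃ n : ℕ, ϖ ^ n • x = 0) →
      ρ γ (ρ γ (ρ γ x)) + c₂ • ρ γ (ρ γ x) + c₁ • ρ γ x + c₀ • x = 0)
    (v : tateEigen ϖ t a) :
    tateRep (ϖ := ϖ) (a := a) ρ hρ γ (tateRep ρ hρ γ (tateRep ρ hρ γ v))
      + c₂ • tateRep ρ hρ γ (tateRep ρ hρ γ v) + c₁ • tateRep ρ hρ γ v + c₀ • v = 0 := by
  apply Subtype.ext
  funext n
  have h1 := hγ ((v : ℕ → X) n) ⟨n + 1, tate_pow_succ_smul v.2 n⟩
  simpa using h1

end Action

section Main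

variable (p : ℕ)
variable (O : Type) [CommRing O] [IsDomain O] [IsDiscreteValuationRing O]
  [IsAdicComplete (maximalIdeal O) O] [CharZero O]
variable (J : Type) [AddCommGroup J]
  [DistribMulAction (AlgebraicClosure ℚ ≃ₐ[ℚ] AlgebraicClosure ℚ) J]
variable {ι : Type*} (T : ι → J →+ J) (a : ι → O)

/-- **Adic eigenmodule from a smooth Galois module with finite `p`-torsion**, with the cubic
clause. -/
theorem exists_adic_galois_eigenmodule3 (hpO : (p : O) ∈ maximalIdeal O) (hp0 : p ≠ 0)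
    (hT : ∀ (i : ι) (γ : AlgebraicClosure ℚ ≃ₐ[ℚ] AlgebraicClosure ℚ) (x : J),
      T i (γ • x) = γ • T i x)
    (hfin : {x : J | p • x = 0}.Finite)
    (hsm : ∀ x : J, (∃ n : ℕ, p ^ n • x = 0) →
      ∃ L : IntermediateField ℚ (AlgebraicClosure ℚ), FiniteDimensional ℚ L ∧
        ∀ σ : AlgebraicClosure ℚ ≃ₐ[ℚ] AlgebraicClosure ℚ, (∀ y ∈ L, σ y = y) → σ • x = x)
    (v : ℕ → O ⊗[ℤ] J) (hv0 : (p : O) • v 0 = 0) (hv : ∀ n, (p : O) • v (n + 1) = v n)
    (hne : v ≠ 0) (heig : ∀ i n, tensorOp O T i (v n) = a i • v n) :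
    ∃ (M : Type) (_ : AddCommGroup M) (_ : Module O M) (_ : Module.Free O M)
      (_ : Module.Finite O M)
      (ρ : (AlgebraicClosure ℚ ≃ₐ[ℚ] AlgebraicClosure ℚ) →* Module.End O M),
      Nontrivial M ∧ GaloisActionIsAdicContinuous O ρ ∧
      (∀ γ : AlgebraicClosure ℚ ≃ₐ[ℚ] AlgebraicClosure ℚ,
        (∀ x : J, (∃ n : ℕ, p ^ n • x = 0) → γ • x = x) → ρ γ = 1) ∧
      (∀ (γ : AlgebraicClosure ℚ ≃ₐ[ℚ] AlgebraicClosure ℚ) (i : ι) (c : ℤ),
        (∀ x : J, (∃ n : ℕ, p ^ n • x = 0) → γ • γ • x - T i (γ • x) + c • x = 0) →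
        ρ γ * ρ γ - a i • ρ γ + (c : O) • (1 : Module.End O M) = 0) ∧
      (∀ (γ : AlgebraicClosure ℚ ≃ₐ[ℚ] AlgebraicClosure ℚ) (c₂ c₁ c₀ : ℤ),
        (∀ x : J, (∃ n : ℕ, p ^ n • x = 0) →
          γ • γ • γ • x + c₂ • (γ • γ • x) + c₁ • (γ • x) + c₀ • x = 0) →
        ∀ m : M, ρ γ (ρ γ (ρ γ m)) + (c₂ : O) • ρ γ (ρ γ m) + (c₁ : O) • ρ γ m
          + (c₀ : O) • m = 0) := by
  have hϖ0 : (p : O) ≠ 0 := by exact_mod_cast hp0
  have hX : ∃ Y : Submodule O (O ⊗[ℤ] J), Y.FG ∧ ∀ x : O ⊗[ℤ] J, (p : O) • x = 0 → x ∈ Y := by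
    obtain ⟨Y, hY, hYX⟩ := exists_fg_of_finite_torsion O (J := J) (p : ℤ) (by
      have : {y : J | (p : ℤ) • y = 0} = {x : J | p • x = 0} := by
        ext y
        simp
      rw [this]
      exact hfin)
    refine ⟨Y, hY, fun x hx => hYX x ?_⟩
    have := natCast_pow_smul p O J 1 x
    simp only [pow_one] at this
    rw [← this]
    exact hx
  have hρ := tensorRep_tensorOp (G := AlgebraicClosure ℚ ≃ₐ[ℚ] AlgebraicClosure ℚ) O T hT
  have hfree := tateEigen_free (t := tensorOp O T) (a := a) hpO hϖ0 hX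
  have hfinite := tateEigen_finite (t := tensorOp O T) (a := a) hpO hϖ0 hX
  -- transfer of relations
  have htrans : ∀ (A : J →ₗ[ℤ] J) (n : ℕ), (∀ y : J, p ^ n • y = 0 → A y = 0) →
      ∀ x : O ⊗[ℤ] J, (p : O) ^ n • x = 0 → A.baseChange O x = 0 := by
    intro A n hA x hx
    apply baseChange_eq_zero_of_torsion O ((p ^ n : ℕ) : ℤ) A
    · intro y hy
      apply hA
      rwa [natCast_zsmul] at hy
    · rw [← natCast_pow_smul]
      exact hx
  refine ⟨tateEigen (p : O) (tensorOp O T) a, inferInstance, inferInstance, hfree, hfinite,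
    tateRep (tensorRep O J) hρ, ?_, ?_, ?_, ?_, ?_⟩
  · refine ⟨⟨⟨v, hv0, hv, heig⟩, 0, ?_⟩⟩
    intro h
    exact hne (congrArg Subtype.val h)
  · intro n
    obtain ⟨L, hL, hLfix⟩ := exists_common_level {x : J | p ^ n • x = 0}
      (finite_torsion_pow J p hfin n) (fun x hx => hsm x ⟨n, hx⟩)
    refine ⟨L, hL, fun σ hσ m => ?_⟩
    apply tateRep_sub_mem (tensorRep O J) hρ hpO n σ
    intro x hx
    have h1 := htrans (actLin J σ - LinearMap.id) n (fun y hy => by
      simp [hLfix σ hσ y hy]) x hx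
    rw [LinearMap.baseChange_sub, LinearMap.baseChange_id, LinearMap.sub_apply,
      LinearMap.id_apply, sub_eq_zero] at h1
    exact h1
  · intro γ hγ
    apply tateRep_eq_one
    rintro x ⟨n, hx⟩
    have h1 := htrans (actLin J γ - LinearMap.id) n (fun y hy => by
      simp [hγ y ⟨n, hy⟩]) x hx
    rw [LinearMap.baseChange_sub, LinearMap.baseChange_id, LinearMap.sub_apply,
      LinearMap.id_apply, sub_eq_zero] at h1
    exact h1
  · intro γ i c hγ
    apply tateRep_quadratic
    rintro x ⟨n, hx⟩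
    have h1 := htrans (actLin J γ ∘ₗ actLin J γ - (T i).toIntLinearMap ∘ₗ actLin J γ
      + c • LinearMap.id) n (fun y hy => by
        have := hγ y ⟨n, hy⟩
        simpa using this) x hx
    rw [LinearMap.baseChange_add, LinearMap.baseChange_sub, LinearMap.baseChange_comp,
      LinearMap.baseChange_comp, LinearMap.baseChange_smul, LinearMap.baseChange_id] at h1
    simp only [LinearMap.add_apply, LinearMap.sub_apply, LinearMap.comp_apply,
      LinearMap.smul_apply, LinearMap.id_apply] at h1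
    rw [Int.cast_smul_eq_zsmul]
    exact h1
  · intro γ c₂ c₁ c₀ hγ m
    apply tateRep_cubic (tensorRep O J) hρ γ (c₂ : O) (c₁ : O) (c₀ : O)
    rintro x ⟨n, hx⟩
    have h1 := htrans (actLin J γ ∘ₗ actLin J γ ∘ₗ actLin J γ
      + c₂ • (actLin J γ ∘ₗ actLin J γ) + c₁ • actLin J γ + c₀ • LinearMap.id) n
      (fun y hy => by
        have := hγ y ⟨n, hy⟩
        simpa using this) x hx
    rw [LinearMap.baseChange_add, LinearMap.baseChange_add, LinearMap.baseChange_add,
      LinearMap.baseChange_comp, LinearMap.baseChange_comp, LinearMap.baseChange_smul,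
      LinearMap.baseChange_smul, LinearMap.baseChange_smul, LinearMap.baseChange_comp,
      LinearMap.baseChange_id] at h1
    simp only [LinearMap.add_apply, LinearMap.comp_apply,
      LinearMap.smul_apply, LinearMap.id_apply] at h1
    rw [Int.cast_smul_eq_zsmul, Int.cast_smul_eq_zsmul, Int.cast_smul_eq_zsmul]
    exact h1

end Main

end

end Fermat.Agent.S35.H891

end
-- ===== PACK-END S35/H891/Eigen3.lean

-- ===== PACK-BEGIN S35/H991/NewSub.lean
section
/-
S35 mid layer (helper991): the adic eigenmodule of the NEW part.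

Abstract setting: `J` a Galois module with finite `p`-torsion and commuting operators `T i`;
`f c : J → J' c` a family of operator-equivariant additive maps ("degeneracy maps") such that the
eigensystem `a` does NOT occur in the Tate modules of the `J' c`.  Then the adic eigenmodule can be
built inside the Galois-stable subgroup

  `newSub f = {x | ∀ γ c, f c (γ • x) = 0}`,

so that it inherits every quadratic relation which holds on the `p`-power torsion of `newSub f`
only (not necessarily on all of `J[p^∞]`).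

Main result: `exists_adic_eigenmodule_new`.
-/



set_option autoImplicit false

namespace Fermat.Agent.S35.H991

open TensorProduct IsLocalRing Fermat.Agent.S30.H529

section NewSub

variable {G : Type*} [Group G] {J : Type*} [AddCommGroup J] [DistribMulAction G J]
variable {C : Type*} {J' : C → Type*} [∀ c, AddCommGroup (J' c)]

/-- The `G`-stable subgroup of `J` cut out by the additive maps `f c`. -/
def newSub (G : Type*) [Group G] [DistribMulAction G J] (f : ∀ c, J →+ J' c) :
    Submodule ℤ J where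
  carrier := {x | ∀ (γ : G) (c : C), f c (γ • x) = 0}
  zero_mem' := by
    intro γ c
    rw [smul_zero, map_zero]
  add_mem' := by
    intro x y hx hy γ c
    rw [smul_add, map_add, hx γ c, hy γ c, add_zero]
  smul_mem' := by
    intro r x hx γ c
    have h1 : γ • (r • x) = r • (γ • x) := by
      have := map_zsmul (DistribSMul.toAddMonoidHom J γ) r x
      exact this
    rw [h1, map_zsmul, hx γ c, smul_zero]

theorem mem_newSub {f : ∀ c, J →+ J' c} {x : J} :
    x ∈ newSub G f ↔ ∀ (γ : G) (c : C), f c (γ • x) = 0 := Iff.rfl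

theorem smul_mem_newSub {f : ∀ c, J →+ J' c} (γ : G) {x : J} (hx : x ∈ newSub G f) :
    γ • x ∈ newSub G f := by
  intro γ' c
  rw [← mul_smul]
  exact hx (γ' * γ) c

/-- The Galois action on the new subgroup. -/
@[reducible] def newSubAction (f : ∀ c, J →+ J' c) : DistribMulAction G (newSub G f) where
  smul γ x := ⟨γ • (x : J), smul_mem_newSub γ x.2⟩
  one_smul x := Subtype.ext (one_smul G (x : J))
  mul_smul γ δ x := Subtype.ext (mul_smul γ δ (x : J))
  smul_zero γ := Subtype.ext (smul_zero γ)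
  smul_add γ x y := Subtype.ext (smul_add γ (x : J) (y : J))

end NewSub

section Main

/-- The absolute Galois group of `ℚ`. -/
local notation "Γℚ" => (AlgebraicClosure ℚ ≃ₐ[ℚ] AlgebraicClosure ℚ)

variable {O : Type} [CommRing O] [IsDomain O] [IsDiscreteValuationRing O]
  [IsAdicComplete (maximalIdeal O) O] [CharZero O]

/-- **The adic eigenmodule of the new part.** -/
theorem exists_adic_eigenmodule_new {p : ℕ} (hpO : (p : O) ∈ maximalIdeal O) (hp0 : p ≠ 0)
    {J : Type} [AddCommGroup J] [DistribMulAction Γℚ J]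
    {ι : Type} (T : ι → J →+ J) (a : ι → O)
    (hT : ∀ (i : ι) (γ : Γℚ) (x : J), T i (γ • x) = γ • T i x)
    (hfin : {x : J | p • x = 0}.Finite)
    (hsm : ∀ x : J, (∃ n : ℕ, p ^ n • x = 0) →
      ∃ L : IntermediateField ℚ (AlgebraicClosure ℚ), FiniteDimensional ℚ L ∧
        ∀ σ : Γℚ, (∀ y ∈ L, σ y = y) → σ • x = x)
    {C : Type} {J' : C → Type} [∀ c, AddCommGroup (J' c)]
    (T' : ∀ c, ι → J' c →+ J' c) (f : ∀ c, J →+ J' c)
    (hf : ∀ (c : C) (i : ι) (x : J), f c (T i x) = T' c i (f c x))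
    (hexcl : ∀ (c : C) (z : ℕ → O ⊗[ℤ] J' c), (p : O) • z 0 = 0 →
      (∀ n, (p : O) • z (n + 1) = z n) →
      (∀ i n, tensorOp O (T' c) i (z n) = a i • z n) → z = 0)
    (v : ℕ → O ⊗[ℤ] J) (hv0 : (p : O) • v 0 = 0) (hv : ∀ n, (p : O) • v (n + 1) = v n)
    (hne : v ≠ 0) (heig : ∀ i n, tensorOp O T i (v n) = a i • v n) :
    ∃ (M : Type) (_ : AddCommGroup M) (_ : Module O M) (_ : Module.Free O M)
      (_ : Module.Finite O M) (ρ : Γℚ →* Module.End O M),
      Nontrivial M ∧ GaloisActionIsAdicContinuous O ρ ∧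
      (∀ γ : Γℚ,
        (∀ x : J, (∃ n : ℕ, p ^ n • x = 0) → (∀ (γ' : Γℚ) (c : C), f c (γ' • x) = 0) →
          γ • x = x) → ρ γ = 1) ∧
      (∀ (γ : Γℚ) (i : ι) (c : ℤ),
        (∀ x : J, (∃ n : ℕ, p ^ n • x = 0) → (∀ (γ' : Γℚ) (c' : C), f c' (γ' • x) = 0) →
          γ • γ • x - T i (γ • x) + c • x = 0) →
        ρ γ * ρ γ - a i • ρ γ + (c : O) • (1 : Module.End O M) = 0) ∧
      (∀ (γ : Γℚ) (b c : ℤ),
        (∀ x : J, (∃ n : ℕ, p ^ n • x = 0) → (∀ (γ' : Γℚ) (c' : C), f c' (γ' • x) = 0) →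
          γ • γ • x - b • (γ • x) + c • x = 0) →
        ρ γ * ρ γ - (b : O) • ρ γ + (c : O) • (1 : Module.End O M) = 0) := by
  classical
  -- the new subgroup, with its Galois action
  let K : Submodule ℤ J := newSub Γℚ f
  letI actK : DistribMulAction Γℚ K := newSubAction f
  have hsmulK : ∀ (γ : Γℚ) (x : K), ((γ • x : K) : J) = γ • (x : J) := fun _ _ => rfl
  -- the operators on `K`
  have hTK : ∀ (i : ι) (x : J), x ∈ K → T i x ∈ K := by
    intro i x hx γ c
    rw [← hT, hf, hx γ c, map_zero]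
  let TK : ι ⊕ ℤ → K →+ K := fun j =>
    match j with
    | Sum.inl i =>
      { toFun := fun x => ⟨T i (x : J), hTK i (x : J) x.2⟩
        map_zero' := Subtype.ext (map_zero (T i))
        map_add' := fun x y => Subtype.ext (map_add (T i) (x : J) (y : J)) }
    | Sum.inr b => zsmulAddGroupHom b
  let aK : ι ⊕ ℤ → O := fun j =>
    match j with
    | Sum.inl i => a i
    | Sum.inr b => (b : O)
  have hTKl : ∀ (i : ι) (x : K), ((TK (Sum.inl i) x : K) : J) = T i (x : J) := fun _ _ => rfl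
  have hTKr : ∀ (b : ℤ) (x : K), TK (Sum.inr b) x = b • x := fun _ _ => rfl
  have hTKG : ∀ (j : ι ⊕ ℤ) (γ : Γℚ) (x : K), TK j (γ • x) = γ • TK j x := by
    intro j γ x
    cases j with
    | inl i =>
      apply Subtype.ext
      rw [hTKl, hsmulK, hsmulK, hTKl]
      exact hT i γ (x : J)
    | inr b =>
      rw [hTKr, hTKr]
      apply Subtype.ext
      rw [hsmulK]
      have h1 : (((b • (γ • x) : K)) : J) = b • (γ • (x : J)) := rfl
      have h2 : ((b • x : K) : J) = b • (x : J) := rfl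
      rw [h1, h2]
      exact (map_zsmul (DistribSMul.toAddMonoidHom J γ) b (x : J)).symm
  have hfinK : {x : K | p • x = 0}.Finite := by
    refine Set.Finite.of_finite_image (f := fun x : K => (x : J)) ?_
      (fun x _ y _ h => Subtype.ext h)
    refine hfin.subset ?_
    rintro _ ⟨x, hx, rfl⟩
    show p • (x : J) = 0
    have : ((p • x : K) : J) = 0 := by rw [hx]; rfl
    exact this
  have hsmK : ∀ x : K, (∃ n : ℕ, p ^ n • x = 0) →
      ∃ L : IntermediateField ℚ (AlgebraicClosure ℚ), FiniteDimensional ℚ L ∧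
        ∀ σ : Γℚ, (∀ y ∈ L, σ y = y) → σ • x = x := by
    rintro x ⟨n, hn⟩
    obtain ⟨L, hL, hLx⟩ := hsm (x : J) ⟨n, by
      have : ((p ^ n • x : K) : J) = 0 := by rw [hn]; rfl
      exact this⟩
    exact ⟨L, hL, fun σ hσ => Subtype.ext (hLx σ hσ)⟩
  -- the eigen-sequence lies in `O ⊗ K`
  have hvpow : ∀ n, ((p ^ (n + 1) : ℕ) : ℤ) • v n = 0 := by
    intro n
    have h1 : (p : O) ^ (n + 1) • v n = 0 :=
      tate_pow_succ_smul (ϖ := (p : O)) (t := tensorOp O T) (a := a) ⟨hv0, hv, heig⟩ n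
    rw [← natCast_pow_smul]
    exact h1
  have hinj : Function.Injective (K.subtype.baseChange O) := by
    have := Module.Flat.lTensor_preserves_injective_linearMap (M := O) K.subtype
      K.injective_subtype
    exact this
  -- vanishing of the images under the degeneracy maps
  have hvan : ∀ (γ : Γℚ) (c : C) (n : ℕ),
      ((f c).toIntLinearMap.comp (actLin J γ)).baseChange O (v n) = 0 := by
    intro γ c n
    have hz := hexcl c (fun n => ((f c).toIntLinearMap.comp (actLin J γ)).baseChange O (v n))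
      (by rw [← map_smul, hv0, map_zero])
      (fun n => by rw [← map_smul, hv n])
      (fun i n => by
        show ((T' c i).toIntLinearMap.baseChange O)
            (((f c).toIntLinearMap.comp (actLin J γ)).baseChange O (v n))
          = a i • ((f c).toIntLinearMap.comp (actLin J γ)).baseChange O (v n)
        have h1 : (T' c i).toIntLinearMap.comp ((f c).toIntLinearMap.comp (actLin J γ))
            = ((f c).toIntLinearMap.comp (actLin J γ)).comp (T i).toIntLinearMap := by
          apply LinearMap.ext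
          intro x
          show T' c i (f c (γ • x)) = f c (γ • T i x)
          rw [← hT, hf]
        rw [← LinearMap.comp_apply, ← LinearMap.baseChange_comp, h1, LinearMap.baseChange_comp,
          LinearMap.comp_apply]
        have h2 : (T i).toIntLinearMap.baseChange O (v n) = a i • v n := heig i n
        rw [h2, map_smul])
    exact congrFun hz n
  have hlift : ∀ n, ∃ s : O ⊗[ℤ] K, K.subtype.baseChange O s = v n := by
    intro n
    have hfin' : {x : J | p ^ (n + 1) • x = 0}.Finite := finite_torsion_pow J p hfin (n + 1)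
    obtain ⟨s, hs⟩ := exists_lTensor_subtype_eq O (p ^ (n + 1)) hfin'
      (C := Γℚ × C) (J' := fun γc => J' γc.2)
      (fun γc => (f γc.2).toIntLinearMap.comp (actLin J γc.1)) K
      (fun x _ hx γ c => hx (γ, c)) (v n) (hvpow n) (fun γc => hvan γc.1 γc.2 n)
    exact ⟨s, hs⟩
  choose s hs using hlift
  have hs0 : (p : O) • s 0 = 0 := by
    apply hinj
    rw [map_smul, hs, hv0, map_zero]
  have hss : ∀ n, (p : O) • s (n + 1) = s n := by
    intro n
    apply hinj
    rw [map_smul, hs, hs, hv n]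
  have hsne : s ≠ 0 := by
    intro h
    apply hne
    funext n
    rw [← hs n, h]
    simp
  have hseig : ∀ j n, tensorOp O TK j (s n) = aK j • s n := by
    intro j n
    cases j with
    | inl i =>
      apply hinj
      show K.subtype.baseChange O ((TK (Sum.inl i)).toIntLinearMap.baseChange O (s n))
        = K.subtype.baseChange O (a i • s n)
      have h1 : K.subtype.comp (TK (Sum.inl i)).toIntLinearMap
          = (T i).toIntLinearMap.comp K.subtype := by
        apply LinearMap.ext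
        intro x
        rfl
      rw [← LinearMap.comp_apply, ← LinearMap.baseChange_comp, h1, LinearMap.baseChange_comp,
        LinearMap.comp_apply, hs, map_smul, hs]
      exact heig i n
    | inr b =>
      show (TK (Sum.inr b)).toIntLinearMap.baseChange O (s n) = (b : O) • s n
      have h1 : (TK (Sum.inr b)).toIntLinearMap = b • (LinearMap.id : K →ₗ[ℤ] K) := by
        apply LinearMap.ext
        intro x
        rfl
      rw [h1, LinearMap.baseChange_smul, LinearMap.baseChange_id, LinearMap.smul_apply,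
        LinearMap.id_apply, Int.cast_smul_eq_zsmul]
  obtain ⟨M, i1, i2, i3, i4, ρ, hnt, hcont, hunr, hquad⟩ :=
    exists_adic_galois_eigenmodule p O K TK aK hpO hp0 hTKG hfinK hsmK s hs0 hss hsne hseig
  refine ⟨M, i1, i2, i3, i4, ρ, hnt, hcont, ?_, ?_, ?_⟩
  · intro γ hγ
    refine hunr γ ?_
    rintro x ⟨n, hn⟩
    apply Subtype.ext
    rw [hsmulK]
    refine hγ (x : J) ⟨n, ?_⟩ x.2
    have : ((p ^ n • x : K) : J) = 0 := by rw [hn]; rfl
    exact this
  · intro γ i c hγ
    refine hquad γ (Sum.inl i) c ?_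
    rintro x ⟨n, hn⟩
    apply Subtype.ext
    have h1 := hγ (x : J) ⟨n, by
      have : ((p ^ n • x : K) : J) = 0 := by rw [hn]; rfl
      exact this⟩ x.2
    exact h1
  · intro γ b c hγ
    have h2 := hquad γ (Sum.inr b) c ?_
    · exact h2
    rintro x ⟨n, hn⟩
    apply Subtype.ext
    have h1 := hγ (x : J) ⟨n, by
      have : ((p ^ n • x : K) : J) = 0 := by rw [hn]; rfl
      exact this⟩ x.2
    exact h1

end Main

end Fermat.Agent.S35.H991

end
-- ===== PACK-END S35/H991/NewSub.lean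

-- ===== PACK-BEGIN S30/H990/Limit.lean
section
/-
S30 top glue (helper990): the quadratic relation for every element of `G_ℚ`.
* `adic_compactness`: a decreasing sequence of nonempty "closed" subsets of a complete ring with
  finite quotients `R ⧸ I ^ n` has a common point.
* `rel_mod_of_mul`: the quadratic relation is stable under multiplication by elements
  congruent to `1`.
* `exists_rel_of_mod`: relations modulo all `𝔪 ^ n` give an exact relation.
-/


set_option autoImplicit false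

namespace Fermat.Agent.S30.H990

section Compactness

variable {R : Type*} [CommRing R] (I : Ideal R)

theorem adic_compactness [IsPrecomplete I R] (hfin : ∀ n, Finite (R ⧸ I ^ n))
    (A : ℕ → Set R) (hne : ∀ n, (A n).Nonempty) (hanti : ∀ m n, m ≤ n → A n ⊆ A m)
    (hclosed : ∀ n a a', a ∈ A n → a' - a ∈ I ^ n → a' ∈ A n) :
    ∃ a, ∀ n, a ∈ A n := by
  classical
  -- `x` is approximable to order `n` by elements of all `A N`
  let Good : ℕ → R → Prop := fun n x => ∀ N, ∃ a ∈ A N, a - x ∈ I ^ n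
  have good0 : Good 0 0 := by
    intro N
    obtain ⟨a, ha⟩ := hne N
    exact ⟨a, ha, by simp⟩
  have step : ∀ n x, Good n x → ∃ y, y - x ∈ I ^ n ∧ Good (n + 1) y := by
    intro n x hx
    choose a ha hax using hx
    have := hfin (n + 1)
    obtain ⟨y₀, hy₀⟩ := Finite.exists_infinite_fiber
      (fun N : ℕ => Ideal.Quotient.mk (I ^ (n + 1)) (a N))
    have hinf : (((fun N : ℕ => Ideal.Quotient.mk (I ^ (n + 1)) (a N)) ⁻¹' {y₀}) : Set ℕ).Infinite :=
      Set.infinite_coe_iff.mp hy₀
    obtain ⟨N₀, hN₀⟩ := hinf.nonempty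
    refine ⟨a N₀, hax N₀, fun N => ?_⟩
    obtain ⟨N', hN', hlt⟩ := hinf.exists_gt N
    refine ⟨a N', hanti N N' hlt.le (ha N'), ?_⟩
    rw [← Ideal.Quotient.eq]
    have h1 : Ideal.Quotient.mk (I ^ (n + 1)) (a N') = y₀ := hN'
    have h2 : Ideal.Quotient.mk (I ^ (n + 1)) (a N₀) = y₀ := hN₀
    rw [h1, h2]
  let s : (n : ℕ) → {x : R // Good n x} := fun n =>
    Nat.rec (motive := fun n => {x : R // Good n x}) ⟨0, good0⟩
      (fun n prev => ⟨(step n prev.1 prev.2).choose, (step n prev.1 prev.2).choose_spec.2⟩) n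
  have hs : ∀ n, (s (n + 1)).1 - (s n).1 ∈ I ^ n := fun n =>
    (step n (s n).1 (s n).2).choose_spec.1
  have hcauchy : ∀ m n, m ≤ n → (s n).1 - (s m).1 ∈ I ^ m := by
    intro m n hmn
    induction n, hmn using Nat.le_induction with
    | base => simp
    | succ n hmn ih =>
      have h1 : (s (n + 1)).1 - (s n).1 ∈ I ^ m := Ideal.pow_le_pow_right hmn (hs n)
      have : (s (n + 1)).1 - (s m).1 = ((s (n + 1)).1 - (s n).1) + ((s n).1 - (s m).1) := by ring
      rw [this]
      exact (I ^ m).add_mem h1 ih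
  obtain ⟨L, hL⟩ := IsPrecomplete.prec' (I := I) (M := R) (fun n => (s n).1) (by
    intro m n hmn
    rw [SModEq.sub_mem, smul_eq_mul, Ideal.mul_top]
    have := hcauchy m n hmn
    rw [← neg_sub]
    exact (I ^ m).neg_mem this)
  refine ⟨L, fun n => ?_⟩
  obtain ⟨a, ha, hax⟩ := (s n).2 n
  refine hclosed n a L ha ?_
  have h1 := hL n
  rw [SModEq.sub_mem, smul_eq_mul, Ideal.mul_top] at h1
  have : L - a = -((s n).1 - L) - (a - (s n).1) := by ring
  rw [this]
  exact (I ^ n).sub_mem ((I ^ n).neg_mem h1) hax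

end Compactness

section ModRel

variable {𝒪 M : Type*} [CommRing 𝒪] [AddCommGroup M] [Module 𝒪 M]

theorem map_mem_smul_top (I : Ideal 𝒪) (f : M →ₗ[𝒪] M) {x : M}
    (hx : x ∈ I • (⊤ : Submodule 𝒪 M)) : f x ∈ I • (⊤ : Submodule 𝒪 M) := by
  refine Submodule.smul_induction_on hx ?_ ?_
  · intro r hr n _
    rw [map_smul]
    exact Submodule.smul_mem_smul hr Submodule.mem_top
  · intro x y hx hy
    rw [map_add]
    exact Submodule.add_mem _ hx hy

/-- The quadratic relation of `h` passes, modulo `I`, to `h * s` for `s ≡ 1` and `u ≡ 1`. -/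
theorem rel_mod_of_mul (I : Ideal 𝒪) (h s : Module.End 𝒪 M) (t b u : 𝒪)
    (hrel : h * h - t • h + b • (1 : Module.End 𝒪 M) = 0)
    (hs : ∀ v, s v - v ∈ I • (⊤ : Submodule 𝒪 M)) (hu : u - 1 ∈ I) (v : M) :
    (h * s) ((h * s) v) - t • (h * s) v + (b * u) • v ∈ I • (⊤ : Submodule 𝒪 M) := by
  have h0 : h (h v) - t • h v + b • v = 0 := by
    have := congrArg (fun f : Module.End 𝒪 M => f v) hrel
    simpa using this
  have key : (h * s) ((h * s) v) - t • (h * s) v + (b * u) • v
      = h (s (h v) - h v) + h (s (h (s v - v))) - t • h (s v - v) + (b * (u - 1)) • v := by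
    simp only [Module.End.mul_apply, map_sub]
    rw [← sub_eq_zero]
    rw [← h0]
    module
  rw [key]
  have m1 : s v - v ∈ I • (⊤ : Submodule 𝒪 M) := hs v
  have m2 : s (h v) - h v ∈ I • (⊤ : Submodule 𝒪 M) := hs (h v)
  refine Submodule.add_mem _ (Submodule.sub_mem _ (Submodule.add_mem _ ?_ ?_) ?_) ?_
  · exact map_mem_smul_top I h m2
  · exact map_mem_smul_top I h (map_mem_smul_top I s (map_mem_smul_top I h m1))
  · exact Submodule.smul_mem _ _ (map_mem_smul_top I h m1)
  · exact Submodule.smul_mem_smul (I.mul_mem_left _ hu) Submodule.mem_top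

end ModRel

section Exact

variable {𝒪 M G : Type*} [CommRing 𝒪] [IsLocalRing 𝒪] [IsNoetherianRing 𝒪]
  [IsPrecomplete (IsLocalRing.maximalIdeal 𝒪) 𝒪] [Finite (IsLocalRing.ResidueField 𝒪)]
  [AddCommGroup M] [Module 𝒪 M] [Module.Finite 𝒪 M] [Group G]

/-- Relations modulo all powers of the maximal ideal give an exact relation. -/
theorem exists_rel_of_mod (ρ : G →* Module.End 𝒪 M) (d : G →* 𝒪ˣ) (g : G)
    (hmod : ∀ n : ℕ, ∃ a : 𝒪, ∀ v : M,
      ρ g (ρ g v) - a • ρ g v + ((d g : 𝒪ˣ) : 𝒪) • v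
        ∈ (IsLocalRing.maximalIdeal 𝒪 ^ n) • (⊤ : Submodule 𝒪 M)) :
    ∃ a, Rel ρ d g a := by
  have hfin : ∀ n, Finite (𝒪 ⧸ IsLocalRing.maximalIdeal 𝒪 ^ n) := by
    intro n
    have : Finite (𝒪 ⧸ IsLocalRing.maximalIdeal 𝒪) :=
      (inferInstance : Finite (IsLocalRing.ResidueField 𝒪))
    exact Ideal.finite_quotient_pow (IsNoetherian.noetherian _) n
  obtain ⟨a, ha⟩ := adic_compactness (IsLocalRing.maximalIdeal 𝒪) hfin
    (fun n => {a : 𝒪 | ∀ v : M, ρ g (ρ g v) - a • ρ g v + ((d g : 𝒪ˣ) : 𝒪) • v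
        ∈ (IsLocalRing.maximalIdeal 𝒪 ^ n) • (⊤ : Submodule 𝒪 M)})
    (fun n => hmod n)
    (fun m n hmn a ha v =>
      Submodule.smul_mono_left (Ideal.pow_le_pow_right hmn) (ha v))
    (fun n a a' ha haa' v => by
      have : ρ g (ρ g v) - a' • ρ g v + ((d g : 𝒪ˣ) : 𝒪) • v
          = (ρ g (ρ g v) - a • ρ g v + ((d g : 𝒪ˣ) : 𝒪) • v) - (a' - a) • ρ g v := by
        module
      rw [this]
      exact Submodule.sub_mem _ (ha v) (Submodule.smul_mem_smul haa' Submodule.mem_top))
  refine ⟨a, ?_⟩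
  unfold Rel
  ext v
  have hv : ρ g (ρ g v) - a • ρ g v + ((d g : 𝒪ˣ) : 𝒪) • v
      ∈ ⨅ i : ℕ, (IsLocalRing.maximalIdeal 𝒪 ^ i) • (⊤ : Submodule 𝒪 M) := by
    rw [Submodule.mem_iInf]
    exact fun n => ha n v
  rw [Ideal.iInf_pow_smul_eq_bot_of_isLocalRing _ (IsLocalRing.maximalIdeal.isMaximal 𝒪).ne_top,
    Submodule.mem_bot] at hv
  simpa using hv

end Exact

end Fermat.Agent.S30.H990

end
-- ===== PACK-END S30/H990/Limit.lean

-- ===== PACK-BEGIN Lib/Cheb/H476/FrobAt.lean
section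





/-!
# CHEB piece F6 (bridge), part 1: Frobenius elements at a GIVEN valuation subring of `ℚ̄`

`exists_frobenius_at`: for every valuation subring `A` of `ℚ̄` over a prime number `ℓ` there is
`σ ∈ Gal(ℚ̄/ℚ)` which is a Frobenius element at `A`, and which satisfies `σ x ≡ x ^ ℓ` modulo
the prime of `ℤ̄` below `A`.

Also: elementwise descriptions of Frobenius elements and of the inertia group.
-/

set_option autoImplicit false

open scoped Pointwise

namespace Fermat.Agent.Lib.Cheb.H476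

open Fermat.Agent.Lib.Cheb.Spec

/-- Frobenius elements exist at every valuation subring of `ℚ̄` over a prime number. -/
theorem exists_frobenius_at (ℓ : ℕ) (hℓ : ℓ.Prime) (A : ValuationSubring Qb)
    (hA : A.LiesOverPrime ℓ) :
    ∃ σ : GQ, A.IsFrobeniusAt σ ℓ ∧
      ∀ x : integralClosure ℤ Qb, σ • x - x ^ ℓ ∈ Fermat.Agent.S54.primeBelow A := by
  have : Algebra.IsAlgebraic ℚ (AlgebraicClosure ℚ) := AlgebraicClosure.isAlgebraic ℚ
  have := Fermat.Agent.S54.primeBelow_isPrime A
  have hℓQ : (ℓ : integralClosure ℤ (AlgebraicClosure ℚ)) ∈ Fermat.Agent.S54.primeBelow A := by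
    rw [Fermat.Agent.S54.mem_primeBelow]
    exact hA
  obtain ⟨σ, hσQ', hσF⟩ :=
    Fermat.Agent.S54.exists_frob_integralClosure ℓ hℓ (Fermat.Agent.S54.primeBelow A) hℓQ
  have hσQ : ∀ x, σ • x ∈ Fermat.Agent.S54.primeBelow A ↔
      x ∈ Fermat.Agent.S54.primeBelow A := by
    intro x
    conv_lhs => rw [← hσQ']
    exact Ideal.smul_mem_pointwise_smul_iff
  have key : ∀ τ : AlgebraicClosure ℚ ≃ₐ[ℚ] AlgebraicClosure ℚ,
      (∀ x, τ • x ∈ Fermat.Agent.S54.primeBelow A ↔ x ∈ Fermat.Agent.S54.primeBelow A) →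
      ∀ x ∈ A, τ x ∈ A := by
    intro τ hτ x hx
    obtain ⟨b, s, hb, hs, hsA, hxs⟩ :=
      (Fermat.Agent.S54.mem_valuationSubring_iff A ℓ hℓ hA x).mp hx
    refine (Fermat.Agent.S54.mem_valuationSubring_iff A ℓ hℓ hA (τ x)).mpr
      ⟨τ b, τ s, hb.map τ, hs.map τ, ?_, ?_⟩
    · exact (hτ ⟨s, hs⟩).not.mpr hsA
    · rw [← map_mul, hxs]
  have hσA : σ ∈ A.decompositionSubgroup ℚ := by
    rw [MulAction.mem_stabilizer_iff]
    ext x
    rw [ValuationSubring.mem_smul_pointwise_iff_exists]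
    constructor
    · rintro ⟨s, hs, rfl⟩
      exact key σ hσQ s hs
    · intro hx
      refine ⟨σ⁻¹ • x, key σ⁻¹ ?_ x hx, by simp⟩
      intro y
      rw [← hσQ (σ⁻¹ • y)]
      simp
  refine ⟨σ, ⟨hσA, ?_⟩, hσF⟩
  intro x
  obtain ⟨a, rfl⟩ := IsLocalRing.residue_surjective x
  obtain ⟨b, s, hb, hs, hsA, hxs⟩ :=
    (Fermat.Agent.S54.mem_valuationSubring_iff A ℓ hℓ hA a).mp a.2
  have hbA : b ∈ A := Fermat.Agent.S54.isIntegral_mem_valuationSubring A hb
  have hsA' : s ∈ A := Fermat.Agent.S54.isIntegral_mem_valuationSubring A hs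
  have hint : ∀ (y : AlgebraicClosure ℚ) (hy : IsIntegral ℤ y),
      (⟨σ, hσA⟩ : A.decompositionSubgroup ℚ) •
        IsLocalRing.residue A ⟨y, Fermat.Agent.S54.isIntegral_mem_valuationSubring A hy⟩ =
      (IsLocalRing.residue A ⟨y, Fermat.Agent.S54.isIntegral_mem_valuationSubring A hy⟩) ^ ℓ := by
    intro y hy
    rw [← IsLocalRing.ResidueField.residue_smul, ← map_pow, ← sub_eq_zero, ← map_sub,
      IsLocalRing.residue_eq_zero_iff, ← ValuationSubring.coe_mem_nonunits_iff]
    exact hσF ⟨y, hy⟩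
  have h1 : IsLocalRing.residue A a * IsLocalRing.residue A ⟨s, hsA'⟩ =
      IsLocalRing.residue A ⟨b, hbA⟩ := by
    rw [← map_mul]
    congr 1
    exact Subtype.ext hxs
  have h2 : IsLocalRing.residue A ⟨s, hsA'⟩ ≠ 0 := by
    rw [Ne, IsLocalRing.residue_eq_zero_iff, ← ValuationSubring.coe_mem_nonunits_iff]
    exact hsA
  have h3 := congrArg (fun z => (⟨σ, hσA⟩ : A.decompositionSubgroup ℚ) • z) h1
  simp only [smul_mul'] at h3
  rw [hint s hs, hint b hb, ← h1, mul_pow] at h3
  exact mul_right_cancel₀ (pow_ne_zero _ h2) h3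

/-- Elements of the inertia group move elements of the valuation ring by nonunits. -/
theorem sub_mem_nonunits_of_mem_inertia (A : ValuationSubring Qb) (ι : GQ)
    (hι : ι ∈ A.inertiaSubgroupIn ℚ) (a : Qb) (ha : a ∈ A) : ι a - a ∈ A.nonunits := by
  obtain ⟨ι', hι', rfl⟩ := hι
  have h1 : ι' • IsLocalRing.residue A ⟨a, ha⟩ = IsLocalRing.residue A ⟨a, ha⟩ := by
    have := congrArg (fun f => f (IsLocalRing.residue A ⟨a, ha⟩)) (MonoidHom.mem_ker.mp hι')
    simpa using this
  rw [← IsLocalRing.ResidueField.residue_smul, ← sub_eq_zero, ← map_sub,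
    IsLocalRing.residue_eq_zero_iff, ← ValuationSubring.coe_mem_nonunits_iff] at h1
  exact h1

end Fermat.Agent.Lib.Cheb.H476

end
-- ===== PACK-END Lib/Cheb/H476/FrobAt.lean

-- ===== PACK-BEGIN Lib/Cheb/H476/Core.lean
section






/-!
# CHEB piece F6 (bridge), part 2: from a prime of a Galois number field inside `ℚ̄`
to a valuation subring of `ℚ̄` with a Frobenius element
-/

set_option autoImplicit false

open NumberField
open scoped Pointwise

namespace Fermat.Agent.Lib.Cheb.H476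

open Fermat.Agent.Lib.Cheb.Spec

/-- The inclusion of the ring of integers of a subfield of `ℚ̄` into `ℚ̄`. -/
noncomputable def incl (L : IntermediateField ℚ Qb) : 𝓞 L →+* Qb :=
  (algebraMap L Qb).comp (algebraMap (𝓞 L) L)

theorem incl_apply (L : IntermediateField ℚ Qb) (x : 𝓞 L) :
    incl L x = ((x : L) : Qb) := rfl

theorem incl_injective (L : IntermediateField ℚ Qb) : Function.Injective (incl L) := by
  intro x y h
  have h1 : ((x : L) : Qb) = ((y : L) : Qb) := h
  exact RingOfIntegers.ext (Subtype.ext h1)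

theorem incl_isIntegral (L : IntermediateField ℚ Qb) (x : 𝓞 L) : IsIntegral ℤ (incl L x) := by
  have h1 : IsIntegral ℤ (x : L) := RingOfIntegers.isIntegral_coe x
  exact h1.map (IsScalarTower.toAlgHom ℤ L Qb)

/-- A valuation subring of `ℚ̄` whose maximal ideal contains a given proper ideal of the ring of
integers of a subfield. -/
theorem exists_valuationSubring_over (L : IntermediateField ℚ Qb) (P : Ideal (𝓞 L))
    (hP : P ≠ ⊤) : ∃ A : ValuationSubring Qb, ∀ x ∈ P, incl L x ∈ A.nonunits := by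
  let I : Ideal (incl L).range := P.map (incl L).rangeRestrict
  have hI : I ≠ ⊤ := by
    intro h
    have h1 : (1 : (incl L).range) ∈ I := by rw [h]; trivial
    rw [Ideal.mem_map_iff_of_surjective _ (incl L).rangeRestrict_surjective] at h1
    obtain ⟨x, hx, hx1⟩ := h1
    have h2 : incl L x = incl L 1 := by
      have := congrArg Subtype.val hx1
      simpa using this
    have h3 : x = 1 := incl_injective L h2
    exact hP ((Ideal.eq_top_iff_one P).mpr (h3 ▸ hx))
  obtain ⟨A, -, hA⟩ := Ideal.image_subset_nonunits_valuationSubring I hI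
  refine ⟨A, fun x hx => hA ⟨(incl L).rangeRestrict x, Ideal.mem_map_of_mem _ hx, rfl⟩⟩

/-- The maximal ideal of `A` cuts out exactly `P`. -/
theorem incl_mem_nonunits_iff (L : IntermediateField ℚ Qb) [NumberField L]
    (A : ValuationSubring Qb) (P : Ideal (𝓞 L)) (hP : P.IsMaximal)
    (hA : ∀ x ∈ P, incl L x ∈ A.nonunits) (x : 𝓞 L) :
    incl L x ∈ A.nonunits ↔ x ∈ P := by
  refine ⟨fun hx => ?_, hA x⟩
  by_contra hxP
  obtain ⟨y, m, hm, hxy⟩ := hP.exists_inv hxP
  have h1 : incl L y * incl L x + incl L m = 1 := by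
    rw [← map_mul, ← map_add, hxy, map_one]
  have hy : A.valuation (incl L y) ≤ 1 :=
    (A.valuation_le_one_iff _).mpr
      (Fermat.Agent.S54.isIntegral_mem_valuationSubring A (incl_isIntegral L y))
  have hx' : A.valuation (incl L x) < 1 := A.mem_nonunits_iff.mp hx
  have hm' : A.valuation (incl L m) < 1 := A.mem_nonunits_iff.mp (hA m hm)
  have h2 : A.valuation (incl L y * incl L x) < 1 := by
    rw [map_mul]
    exact mul_lt_of_le_one_of_lt hy hx'
  have h3 : A.valuation (incl L y * incl L x + incl L m) < 1 :=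
    lt_of_le_of_lt (A.valuation.map_add _ _) (max_lt h2 hm')
  rw [h1, map_one] at h3
  exact lt_irrefl _ h3


/-- The prime of `ℤ` below a prime of `𝓞 L` containing the prime number `p` has residue field of
cardinality `p`. -/
theorem card_quot_under (L : IntermediateField ℚ Qb) [NumberField L] (p : ℕ) (hp : p.Prime)
    (P : Ideal (𝓞 L)) (hP : P.IsPrime) (hpP : (p : 𝓞 L) ∈ P) :
    Nat.card (ℤ ⧸ P.under ℤ) = p := by
  have : Fact p.Prime := ⟨hp⟩
  have hle : Ideal.span {(p : ℤ)} ≤ P.under ℤ := by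
    rw [Ideal.span_le, Set.singleton_subset_iff]
    show algebraMap ℤ (𝓞 L) (p : ℤ) ∈ P
    simpa using hpP
  have hne : P.under ℤ ≠ ⊤ := (Ideal.IsPrime.under ℤ P).ne_top
  have heq : Ideal.span {(p : ℤ)} = P.under ℤ :=
    (Int.ideal_span_isMaximal_of_prime p).eq_of_le hne hle
  rw [← heq, Int.card_ideal_quot]

/-- **Core of the bridge.**  A prime `P` of a Galois number field `L ⊆ ℚ̄` above `p`, with trivial
inertia group and arithmetic Frobenius `τ`, is induced by a valuation subring `A` of `ℚ̄`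
over `p` carrying a Frobenius element `φ` which restricts to `τ`; the inertia group of `A` acts
trivially on `L`. -/
theorem exists_frobenius_restrict (L : IntermediateField ℚ Qb) [NumberField L] [IsGalois ℚ L]
    (p : ℕ) (hp : p.Prime) (P : Ideal (𝓞 L)) (hP : P.IsPrime) (hpP : (p : 𝓞 L) ∈ P)
    (hI : InertiaTrivial L P) (τ : L ≃ₐ[ℚ] L) (hτ : IsArithFrobAt ℤ τ P) :
    ∃ (A : ValuationSubring Qb) (φ : GQ), A.LiesOverPrime p ∧ A.IsFrobeniusAt φ p ∧
      (∀ ι ∈ A.inertiaSubgroupIn ℚ, ∀ x : L, ι (x : Qb) = x) ∧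
      (∀ x : L, φ (x : Qb) = (τ x : L)) := by
  have hP0 : P ≠ ⊥ := by
    intro h
    rw [h, Ideal.mem_bot] at hpP
    exact hp.ne_zero (by exact_mod_cast hpP)
  have hPmax : P.IsMaximal := hP.isMaximal hP0
  obtain ⟨A, hA⟩ := exists_valuationSubring_over L P hP.ne_top
  have hAp : A.LiesOverPrime p := by
    have h := hA _ hpP
    have h' : incl L (p : 𝓞 L) = (p : Qb) := by simp
    rw [h'] at h
    exact h
  obtain ⟨φ, hφ, hφF⟩ := exists_frobenius_at p hp A hAp
  have hmem := incl_mem_nonunits_iff L A P hPmax hA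
  have hres : ∀ (g : GQ) (x : L), ((AlgEquiv.restrictNormal g L x : L) : Qb) = g (x : Qb) :=
    fun g x => AlgEquiv.restrictNormal_commutes g L x
  have hcard := card_quot_under L p hp P hP hpP
  refine ⟨A, φ, hAp, hφ, ?_, ?_⟩
  · intro ι hι x
    have h1 : AlgEquiv.restrictNormal ι L = 1 := by
      apply hI
      intro y
      rw [← hmem]
      have h2 : incl L (AlgEquiv.restrictNormal ι L • y - y) = ι (incl L y) - incl L y := by
        rw [map_sub]
        congr 1
        exact hres ι y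
      rw [h2]
      exact sub_mem_nonunits_of_mem_inertia A ι hι _
        (Fermat.Agent.S54.isIntegral_mem_valuationSubring A (incl_isIntegral L y))
    rw [← hres, h1]
    rfl
  · have h1 : IsArithFrobAt ℤ (AlgEquiv.restrictNormal φ L) P := by
      intro y
      rw [hcard]
      rw [← hmem]
      have h2 : incl L ((MulSemiringAction.toAlgHom ℤ (𝓞 L) (AlgEquiv.restrictNormal φ L)) y
          - y ^ p) = φ (incl L y) - incl L y ^ p := by
        rw [map_sub, map_pow]
        congr 1
        exact hres φ y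
      rw [h2]
      exact hφF ⟨incl L y, incl_isIntegral L y⟩
    have h2 := IsArithFrobAt.mul_inv_mem_inertia h1 hτ
    have h3 : AlgEquiv.restrictNormal φ L * τ⁻¹ = 1 := hI _ h2
    have h4 : AlgEquiv.restrictNormal φ L = τ := mul_inv_eq_one.mp h3
    intro x
    rw [← hres, h4]

end Fermat.Agent.Lib.Cheb.H476

end
-- ===== PACK-END Lib/Cheb/H476/Core.lean

-- ===== PACK-BEGIN S30/H649/TateAdapter.lean
section
/-
S30 (p-adic Eichler–Shimura), helper649: PIECE `Tate` of the S30 skeleton (squad-lead helper49).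

`exists_adicFrobModule_of_lattice` has EXACTLY the type of the skeleton statement
`Fermat.Agent.S30.exists_adicFrobModule_of_tate` (with `GQ` unfolded).  It is the landed abstract
Tate eigenmodule `Fermat.Agent.S30.H529.exists_adic_galois_eigenmodule` fed with the compatible
eigen-sequence `n ↦ (κ (n+1)).baseChange 𝒪 v`; the only new mathematics is that this sequence is
nonzero: `𝒪` is flat over `ℤ`, so `(κ n).baseChange 𝒪 v = 0` forces `v ∈ pⁿ (𝒪 ⊗ Λ)`, and
`⋂ₙ 𝔪ⁿ (𝒪 ⊗ Λ) = 0` (Krull).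
-/


set_option autoImplicit false

namespace Fermat.Agent.S30.H649

open TensorProduct IsLocalRing

section Nonvanishing

variable {𝒪 : Type*} [CommRing 𝒪] [IsDomain 𝒪] [IsDiscreteValuationRing 𝒪] [CharZero 𝒪]
variable {J : Type*} [AddCommGroup J] {Λ : Type*} [AddCommGroup Λ]

omit [IsDomain 𝒪] [IsDiscreteValuationRing 𝒪] [CharZero 𝒪] in
/-- An integer acts on `𝒪 ⊗[ℤ] X` as its image in `𝒪`. -/
theorem intCast_smul_tensor {X : Type*} [AddCommGroup X] (m : ℤ) (w : 𝒪 ⊗[ℤ] X) :
    (m : 𝒪) • w = m • w :=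
  Int.cast_smul_eq_zsmul 𝒪 m w

omit [IsDiscreteValuationRing 𝒪] in
/-- If the kernel of `κ` is `m Λ`, the kernel of `1 ⊗ κ` on `𝒪 ⊗ Λ` is `m (𝒪 ⊗ Λ)`
(flatness of `𝒪` over `ℤ`). -/
theorem exists_eq_smul_of_baseChange_eq_zero (m : ℤ) (κ : Λ →ₗ[ℤ] J)
    (hκ : ∀ x : Λ, κ x = 0 ↔ ∃ y : Λ, x = m • y) (v : 𝒪 ⊗[ℤ] Λ)
    (hv : κ.baseChange 𝒪 v = 0) : ∃ z : 𝒪 ⊗[ℤ] Λ, v = (m : 𝒪) • z := by
  have hex : Function.Exact (m • (LinearMap.id : Λ →ₗ[ℤ] Λ)) κ := by
    intro x
    rw [hκ x]
    constructor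
    · rintro ⟨y, rfl⟩
      exact ⟨y, rfl⟩
    · rintro ⟨y, rfl⟩
      exact ⟨y, rfl⟩
  have hex2 := Module.Flat.lTensor_exact 𝒪 hex
  have h1 : κ.lTensor 𝒪 v = 0 := hv
  obtain ⟨z, hz⟩ := (hex2 v).mp h1
  refine ⟨z, ?_⟩
  rw [← hz, LinearMap.lTensor_smul, LinearMap.lTensor_id, LinearMap.smul_apply,
    LinearMap.id_apply, intCast_smul_tensor]

/-- **Nonvanishing of the Kummer sequence.**  If `ker (κ n) = pⁿ Λ` for all `n` and `p ∈ 𝔪`, a
nonzero `v ∈ 𝒪 ⊗ Λ` has a nonzero image under some `1 ⊗ κ n`. -/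
theorem exists_baseChange_ne_zero [Module.Finite ℤ Λ] {p : ℕ}
    (hp𝒪 : (p : 𝒪) ∈ maximalIdeal 𝒪) (κ : ℕ → Λ →ₗ[ℤ] J)
    (hκ0 : ∀ (n : ℕ) (x : Λ), κ n x = 0 ↔ ∃ y : Λ, x = ((p : ℤ) ^ n) • y)
    (v : 𝒪 ⊗[ℤ] Λ) (hv : v ≠ 0) : ∃ n : ℕ, (κ n).baseChange 𝒪 v ≠ 0 := by
  by_contra hcon
  push Not at hcon
  apply hv
  have hmem : ∀ n : ℕ, v ∈ (maximalIdeal 𝒪 ^ n • ⊤ : Submodule 𝒪 (𝒪 ⊗[ℤ] Λ)) := by
    intro n
    obtain ⟨z, hz⟩ := exists_eq_smul_of_baseChange_eq_zero (𝒪 := 𝒪) ((p : ℤ) ^ n) (κ n)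
      (hκ0 n) v (hcon n)
    rw [hz]
    refine Submodule.smul_mem_smul ?_ Submodule.mem_top
    have : (((p : ℤ) ^ n : ℤ) : 𝒪) = (p : 𝒪) ^ n := by push_cast; rfl
    rw [this]
    exact Ideal.pow_mem_pow hp𝒪 n
  have hbot : (⨅ i : ℕ, (maximalIdeal 𝒪 ^ i • ⊤ : Submodule 𝒪 (𝒪 ⊗[ℤ] Λ))) = ⊥ :=
    Ideal.iInf_pow_smul_eq_bot_of_isLocalRing (maximalIdeal 𝒪)
      (Ideal.IsMaximal.ne_top inferInstance)
  have h2 : v ∈ (⨅ i : ℕ, (maximalIdeal 𝒪 ^ i • ⊤ : Submodule 𝒪 (𝒪 ⊗[ℤ] Λ))) :=
    (Submodule.mem_iInf _).mpr hmem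
  rw [hbot] at h2
  exact (Submodule.mem_bot 𝒪).mp h2

end Nonvanishing

section Main

/-- **PIECE `Tate`** (type of `Fermat.Agent.S30.exists_adicFrobModule_of_tate`, `GQ` unfolded). -/
theorem exists_adicFrobModule_of_lattice
    {𝒪 : Type} [CommRing 𝒪] [IsDomain 𝒪] [IsDiscreteValuationRing 𝒪]
    [IsAdicComplete (IsLocalRing.maximalIdeal 𝒪) 𝒪] [Finite (IsLocalRing.ResidueField 𝒪)]
    [CharZero 𝒪] {p : ℕ} (hp : p.Prime) (hp𝒪 : (p : 𝒪) ∈ IsLocalRing.maximalIdeal 𝒪)
    {J : Type} [AddCommGroup J]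
    [DistribMulAction (AlgebraicClosure ℚ ≃ₐ[ℚ] AlgebraicClosure ℚ) J]
    {ι : Type} (T : ι → J →ₗ[ℤ] J)
    (hTG : ∀ (i : ι) (σ : AlgebraicClosure ℚ ≃ₐ[ℚ] AlgebraicClosure ℚ) (x : J),
      T i (σ • x) = σ • T i x)
    (hfin : Finite {x : J // (p : ℤ) • x = 0})
    (hsmooth : ∀ x : J, (∃ n : ℕ, ((p : ℤ) ^ n) • x = 0) →
      ∃ L : IntermediateField ℚ (AlgebraicClosure ℚ), FiniteDimensional ℚ L ∧
        ∀ σ : AlgebraicClosure ℚ ≃ₐ[ℚ] AlgebraicClosure ℚ, (∀ y ∈ L, σ y = y) → σ • x = x)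
    {Λ : Type} [AddCommGroup Λ] [Module.Free ℤ Λ] [Module.Finite ℤ Λ]
    (TΛ : ι → Λ →ₗ[ℤ] Λ) (κ : ℕ → Λ →ₗ[ℤ] J)
    (hκ0 : ∀ (n : ℕ) (x : Λ), κ n x = 0 ↔ ∃ y : Λ, x = ((p : ℤ) ^ n) • y)
    (hκs : ∀ (n : ℕ) (x : Λ), (p : ℤ) • κ (n + 1) x = κ n x)
    (hκT : ∀ (i : ι) (n : ℕ) (x : Λ), κ n (TΛ i x) = T i (κ n x))
    (a : ι → 𝒪) (v : 𝒪 ⊗[ℤ] Λ) (hv : v ≠ 0)
    (hva : ∀ i : ι, (TΛ i).baseChange 𝒪 v = a i • v) :
    ∃ (M : Type) (_ : AddCommGroup M) (_ : Module 𝒪 M) (_ : Module.Free 𝒪 M)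
      (_ : Module.Finite 𝒪 M)
      (ρ : (AlgebraicClosure ℚ ≃ₐ[ℚ] AlgebraicClosure ℚ) →* Module.End 𝒪 M),
      Nontrivial M ∧ GaloisActionIsAdicContinuous 𝒪 ρ ∧
      (∀ σ : AlgebraicClosure ℚ ≃ₐ[ℚ] AlgebraicClosure ℚ,
        (∀ x : J, (∃ n : ℕ, ((p : ℤ) ^ n) • x = 0) → σ • x = x) → ρ σ = 1) ∧
      (∀ (σ : AlgebraicClosure ℚ ≃ₐ[ℚ] AlgebraicClosure ℚ) (i : ι) (c : ℤ),
        (∀ x : J, (∃ n : ℕ, ((p : ℤ) ^ n) • x = 0) →
          σ • σ • x - T i (σ • x) + c • x = 0) →
        ρ σ * ρ σ - a i • ρ σ + (c : 𝒪) • (1 : Module.End 𝒪 M) = 0) := by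
  classical
  -- conversions between `ℤ`- and `ℕ`-torsion
  have hpow : ∀ (n : ℕ) (x : J), ((p : ℤ) ^ n) • x = p ^ n • x := by
    intro n x
    rw [← Nat.cast_pow, natCast_zsmul]
  have htors : ∀ x : J, (∃ n : ℕ, p ^ n • x = 0) ↔ (∃ n : ℕ, ((p : ℤ) ^ n) • x = 0) := by
    intro x
    constructor
    · rintro ⟨n, hn⟩; exact ⟨n, by rw [hpow]; exact hn⟩
    · rintro ⟨n, hn⟩; exact ⟨n, by rw [← hpow]; exact hn⟩
  -- the operators as additive maps
  let T' : ι → J →+ J := fun i => (T i).toAddMonoidHom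
  have hT' : ∀ i, (T' i).toIntLinearMap = T i := fun i => LinearMap.ext fun _ => rfl
  have hfin' : {x : J | p • x = 0}.Finite := by
    have h1 : {x : J | (p : ℤ) • x = 0}.Finite := Set.finite_coe_iff.mp hfin
    refine h1.subset fun x hx => ?_
    show (p : ℤ) • x = 0
    rw [natCast_zsmul]
    exact hx
  -- the Kummer sequence
  have hκzero : ∀ w : 𝒪 ⊗[ℤ] Λ, (κ 0).baseChange 𝒪 w = 0 := by
    have h0 : κ 0 = 0 := by
      apply LinearMap.ext
      intro x
      rw [LinearMap.zero_apply, hκ0 0 x]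
      exact ⟨x, by rw [pow_zero, one_smul]⟩
    intro w
    rw [h0, LinearMap.baseChange_zero, LinearMap.zero_apply]
  have hκsucc : ∀ (n : ℕ) (w : 𝒪 ⊗[ℤ] Λ),
      (p : 𝒪) • (κ (n + 1)).baseChange 𝒪 w = (κ n).baseChange 𝒪 w := by
    intro n w
    have h1 : (p : ℤ) • κ (n + 1) = κ n := LinearMap.ext fun x => hκs n x
    have h2 : ((p : ℤ) : 𝒪) • (κ (n + 1)).baseChange 𝒪 w
        = (p : ℤ) • (κ (n + 1)).baseChange 𝒪 w := intCast_smul_tensor _ _
    rw [Int.cast_natCast] at h2
    rw [h2, ← LinearMap.smul_apply, ← LinearMap.baseChange_smul, h1]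
  obtain ⟨n₀, hn₀⟩ := exists_baseChange_ne_zero (𝒪 := 𝒪) hp𝒪 κ hκ0 v hv
  obtain ⟨m₀, rfl⟩ : ∃ m₀, n₀ = m₀ + 1 := by
    cases n₀ with
    | zero => exact absurd (hκzero v) hn₀
    | succ m => exact ⟨m, rfl⟩
  let seq : ℕ → 𝒪 ⊗[ℤ] J := fun n => (κ (n + 1)).baseChange 𝒪 v
  have hseq0 : (p : 𝒪) • seq 0 = 0 := by
    show (p : 𝒪) • (κ (0 + 1)).baseChange 𝒪 v = 0
    rw [hκsucc 0 v, hκzero v]
  have hseqs : ∀ n, (p : 𝒪) • seq (n + 1) = seq n := fun n => hκsucc (n + 1) v
  have hseqne : seq ≠ 0 := fun h => hn₀ (congrFun h m₀)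
  have hseqeig : ∀ i n, H529.tensorOp 𝒪 T' i (seq n) = a i • seq n := by
    intro i n
    show ((T' i).toIntLinearMap.baseChange 𝒪) ((κ (n + 1)).baseChange 𝒪 v)
      = a i • (κ (n + 1)).baseChange 𝒪 v
    have h1 : T i ∘ₗ κ (n + 1) = κ (n + 1) ∘ₗ TΛ i :=
      LinearMap.ext fun x => (hκT i (n + 1) x).symm
    rw [hT' i, ← LinearMap.comp_apply, ← LinearMap.baseChange_comp, h1,
      LinearMap.baseChange_comp, LinearMap.comp_apply, hva i, map_smul]
  obtain ⟨M, i1, i2, i3, i4, ρ, hnt, hcont, hunr, hquad⟩ :=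
    H529.exists_adic_galois_eigenmodule p 𝒪 J T' a hp𝒪 hp.ne_zero
      (fun i γ x => hTG i γ x) hfin'
      (fun x hx => hsmooth x ((htors x).mp hx)) seq hseq0 hseqs hseqne hseqeig
  refine ⟨M, i1, i2, i3, i4, ρ, hnt, hcont, ?_, ?_⟩
  · intro σ hσ
    exact hunr σ fun x hx => hσ x ((htors x).mp hx)
  · intro σ i c hσ
    exact hquad σ i c fun x hx => hσ x ((htors x).mp hx)

end Main

end Fermat.Agent.S30.H649

end
-- ===== PACK-END S30/H649/TateAdapter.lean

-- ===== PACK-BEGIN S37/H99/FrobAt.lean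
section


/-!
# S37 (helper99): Frobenius elements exist at EVERY valuation subring of `ℚ̄` over a prime

`Fermat.Agent.S54.exists_frobenius` produces *some* `A`; the same proof works for a given `A`.
Also: two Frobenius elements at `A` differ by an element of the inertia subgroup.
-/

set_option autoImplicit false

namespace Fermat.Agent.S37.H99

open scoped Pointwise
open Fermat.Agent.S54

/-- For every valuation subring `A` of `ℚ̄` over the prime `ℓ` there is a Frobenius element
at `A`. -/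
theorem exists_isFrobeniusAt (ℓ : ℕ) (hℓ : ℓ.Prime)
    (A : ValuationSubring (AlgebraicClosure ℚ)) (hA : A.LiesOverPrime ℓ) :
    ∃ σ : AlgebraicClosure ℚ ≃ₐ[ℚ] AlgebraicClosure ℚ, A.IsFrobeniusAt σ ℓ := by
  have : Algebra.IsAlgebraic ℚ (AlgebraicClosure ℚ) := AlgebraicClosure.isAlgebraic ℚ
  have := primeBelow_isPrime A
  have hℓQ : (ℓ : integralClosure ℤ (AlgebraicClosure ℚ)) ∈ primeBelow A := by
    rw [mem_primeBelow]
    exact hA
  obtain ⟨σ, hσQ', hσF⟩ := exists_frob_integralClosure ℓ hℓ (primeBelow A) hℓQ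
  have hσQ : ∀ x, σ • x ∈ primeBelow A ↔ x ∈ primeBelow A := by
    intro x
    conv_lhs => rw [← hσQ']
    exact Ideal.smul_mem_pointwise_smul_iff
  have key : ∀ τ : AlgebraicClosure ℚ ≃ₐ[ℚ] AlgebraicClosure ℚ,
      (∀ x, τ • x ∈ primeBelow A ↔ x ∈ primeBelow A) → ∀ x ∈ A, τ x ∈ A := by
    intro τ hτ x hx
    obtain ⟨b, s, hb, hs, hsA, hxs⟩ := (mem_valuationSubring_iff A ℓ hℓ hA x).mp hx
    refine (mem_valuationSubring_iff A ℓ hℓ hA (τ x)).mpr
      ⟨τ b, τ s, hb.map τ, hs.map τ, ?_, ?_⟩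
    · exact (hτ ⟨s, hs⟩).not.mpr hsA
    · rw [← map_mul, hxs]
  have hσA : σ ∈ A.decompositionSubgroup ℚ := by
    rw [MulAction.mem_stabilizer_iff]
    ext x
    rw [ValuationSubring.mem_smul_pointwise_iff_exists]
    constructor
    · rintro ⟨s, hs, rfl⟩
      exact key σ hσQ s hs
    · intro hx
      refine ⟨σ⁻¹ • x, key σ⁻¹ ?_ x hx, by simp⟩
      intro y
      rw [← hσQ (σ⁻¹ • y)]
      simp
  refine ⟨σ, hσA, ?_⟩
  intro x
  obtain ⟨a, rfl⟩ := IsLocalRing.residue_surjective x
  obtain ⟨b, s, hb, hs, hsA, hxs⟩ := (mem_valuationSubring_iff A ℓ hℓ hA a).mp a.2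
  have hbA : b ∈ A := isIntegral_mem_valuationSubring A hb
  have hsA' : s ∈ A := isIntegral_mem_valuationSubring A hs
  have hint : ∀ (y : AlgebraicClosure ℚ) (hy : IsIntegral ℤ y),
      (⟨σ, hσA⟩ : A.decompositionSubgroup ℚ) •
        IsLocalRing.residue A ⟨y, isIntegral_mem_valuationSubring A hy⟩ =
      (IsLocalRing.residue A ⟨y, isIntegral_mem_valuationSubring A hy⟩) ^ ℓ := by
    intro y hy
    rw [← IsLocalRing.ResidueField.residue_smul, ← map_pow, ← sub_eq_zero, ← map_sub,
      IsLocalRing.residue_eq_zero_iff, ← ValuationSubring.coe_mem_nonunits_iff]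
    exact hσF ⟨y, hy⟩
  have h1 : IsLocalRing.residue A a * IsLocalRing.residue A ⟨s, hsA'⟩ =
      IsLocalRing.residue A ⟨b, hbA⟩ := by
    rw [← map_mul]
    congr 1
    exact Subtype.ext hxs
  have h2 : IsLocalRing.residue A ⟨s, hsA'⟩ ≠ 0 := by
    rw [Ne, IsLocalRing.residue_eq_zero_iff, ← ValuationSubring.coe_mem_nonunits_iff]
    exact hsA
  have h3 := congrArg (fun z => (⟨σ, hσA⟩ : A.decompositionSubgroup ℚ) • z) h1
  simp only [smul_mul'] at h3
  rw [hint s hs, hint b hb, ← h1, mul_pow] at h3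
  exact mul_right_cancel₀ (pow_ne_zero _ h2) h3

end Fermat.Agent.S37.H99

end
-- ===== PACK-END S37/H99/FrobAt.lean

-- ===== PACK-BEGIN S22/H262/Cocycle2.lean
section


set_option autoImplicit false

/-!
# Further properties of the Eichler cocycle: upper triangular matrices, additivity
-/

open Complex Filter Function Metric Set
open UpperHalfPlane hiding I
open scoped Real Topology Manifold ModularForm MatrixGroups

namespace Fermat.Agent.S22.H262

theorem bigG_add (n : ℕ) (E₁ E₂ : ℕ → ℍ → ℂ) (z : ℍ) (v : ℂ × ℂ) :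
    bigG n (E₁ + E₂) z v = bigG n E₁ z v + bigG n E₂ z v := by
  simp only [bigG, Pi.add_apply, ← Finset.sum_add_distrib]
  refine Finset.sum_congr rfl fun j _ => ?_
  ring

theorem bigG_smul (n : ℕ) (c : ℂ) (E : ℕ → ℍ → ℂ) (z : ℍ) (v : ℂ × ℂ) :
    bigG n (c • E) z v = c * bigG n E z v := by
  simp only [bigG, Pi.smul_apply, smul_eq_mul, Finset.mul_sum]
  refine Finset.sum_congr rfl fun j _ => ?_
  ring

theorem bigG_zero (n : ℕ) (z : ℍ) (v : ℂ × ℂ) : bigG n 0 z v = 0 := by
  simp [bigG]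

theorem bigG_sum {ι : Type*} (n : ℕ) (s : Finset ι) (E : ι → ℕ → ℍ → ℂ) (z : ℍ) (v : ℂ × ℂ) :
    bigG n (∑ i ∈ s, E i) z v = ∑ i ∈ s, bigG n (E i) z v := by
  classical
  induction s using Finset.induction_on with
  | empty => simp [bigG_zero]
  | insert a s ha ih => rw [Finset.sum_insert ha, Finset.sum_insert ha, bigG_add, ih]

/-- On the "diagonal" `v = (z y, y)` only the top term of `bigG` survives. -/
theorem bigG_diag (n : ℕ) (E : ℕ → ℍ → ℂ) (z : ℍ) (y : ℂ) :
    bigG n E z ((z : ℂ) * y, y) = (n.factorial : ℂ) * E (n + 1) z * y ^ n := by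
  unfold bigG
  rw [Finset.sum_range_succ, Finset.sum_eq_zero]
  · simp [Nat.descFactorial_self]
  · intro j hj
    have hj' : j < n := Finset.mem_range.mp hj
    have : n - j ≠ 0 := by omega
    simp [this]

theorem cocyc_add (n : ℕ) {h₁ h₂ : ℍ → ℂ} (A : GL (Fin 2) ℝ) (h1 : HasTower h₁)
    (h2 : HasTower h₂) (h1A : HasTower (h₁ ∣[(n : ℤ) + 2] A))
    (h2A : HasTower (h₂ ∣[(n : ℤ) + 2] A)) (v : ℂ × ℂ) :
    cocyc n (h₁ + h₂) A v = cocyc n h₁ A v + cocyc n h₂ A v := by
  unfold cocyc
  rw [SlashAction.add_slash, tower_add h1 h2, tower_add h1A h2A, bigG_add, bigG_add]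
  ring

theorem cocyc_smul (n : ℕ) {h : ℍ → ℂ} (A : GL (Fin 2) ℝ) (hA : 0 < A.det.val)
    (hh : HasTower h) (hhA : HasTower (h ∣[(n : ℤ) + 2] A)) (c : ℂ) (v : ℂ × ℂ) :
    cocyc n (c • h) A v = c * cocyc n h A v := by
  unfold cocyc
  have hs : (c • h) ∣[(n : ℤ) + 2] A = c • (h ∣[(n : ℤ) + 2] A) := by
    rw [ModularForm.smul_slash, UpperHalfPlane.σ, if_pos hA]
    rfl
  rw [hs, tower_smul hh, tower_smul hhA, bigG_smul, bigG_smul]
  ring

theorem cocyc_sum {ι : Type*} (n : ℕ) (s : Finset ι) (h : ι → ℍ → ℂ) (A : GL (Fin 2) ℝ)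
    (hh : ∀ i ∈ s, HasTower (h i)) (hhA : ∀ i ∈ s, HasTower (h i ∣[(n : ℤ) + 2] A))
    (v : ℂ × ℂ) :
    cocyc n (∑ i ∈ s, h i) A v = ∑ i ∈ s, cocyc n (h i) A v := by
  unfold cocyc
  rw [SlashAction.sum_slash, (tower_sum s h hh).2,
    (tower_sum s (fun i => h i ∣[(n : ℤ) + 2] A) hhA).2, bigG_sum, bigG_sum,
    ← Finset.sum_sub_distrib]

/-- The explicit tower of `h ∣[k] δ` for an upper triangular `δ` with positive determinant. -/
theorem IsTower.slash_upper (n : ℕ) {h : ℍ → ℂ} {E : ℕ → ℍ → ℂ} (hE : IsTower h E)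
    (δ : GL (Fin 2) ℝ) (hδ : 0 < δ.det.val) (h10 : δ 1 0 = 0) :
    IsTower (h ∣[(n : ℤ) + 2] δ) (fun r z =>
      (δ.det.val : ℂ) ^ (n + 1) * ((δ 1 1 : ℝ) : ℂ)⁻¹ ^ (n + 2) *
        (((δ 1 1 : ℝ) : ℂ) ^ 2 / (δ.det.val : ℂ)) ^ r * E r (δ • z)) where
  zero := by
    funext z
    rw [ModularForm.slash_apply, UpperHalfPlane.σ, if_pos hδ]
    simp only [ContinuousAlgEquiv.refl_apply, abs_of_pos hδ, pow_zero, mul_one, hE.zero]
    have e1 : ((n : ℤ) + 2 - 1) = ((n + 1 : ℕ) : ℤ) := by push_cast; ring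
    have e2 : -((n : ℤ) + 2) = -((n + 2 : ℕ) : ℤ) := by push_cast; ring
    have hden : denom δ z = ((δ 1 1 : ℝ) : ℂ) := by simp [denom, h10]
    rw [e1, e2, zpow_natCast, zpow_neg, zpow_natCast, hden, inv_pow]
    ring
  hasDeriv r z := by
    have h1 : HasDerivAt (E (r + 1) ∘ ofComplex) (E r (δ • z)) ((δ • z : ℍ) : ℂ) :=
      hE.hasDeriv r (δ • z)
    have h2 : HasDerivAt (fun w : ℂ => ((δ • ofComplex w : ℍ) : ℂ))
        (δ.det.val / denom δ z ^ 2) (z : ℂ) := (hasStrictDerivAt_smul hδ z).hasDerivAt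
    have h3 := h1.comp_of_eq (x := (z : ℂ)) h2 (by simp)
    have h4 := h3.const_mul ((δ.det.val : ℂ) ^ (n + 1) * ((δ 1 1 : ℝ) : ℂ)⁻¹ ^ (n + 2) *
        (((δ 1 1 : ℝ) : ℂ) ^ 2 / (δ.det.val : ℂ)) ^ (r + 1))
    have hden : denom δ z = ((δ 1 1 : ℝ) : ℂ) := by simp [denom, h10]
    have hdet : (δ.det.val : ℂ) ≠ 0 := by exact_mod_cast hδ.ne'
    have hd : ((δ 1 1 : ℝ) : ℂ) ≠ 0 := by
      rw [← hden]
      exact denom_ne_zero δ z
    refine (h4.congr_deriv ?_).congr_of_eventuallyEq ?_
    · rw [hden, pow_succ (((δ 1 1 : ℝ) : ℂ) ^ 2 / (δ.det.val : ℂ)) r]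
      field_simp
    · filter_upwards with w
      simp [Function.comp_def]
  isZero r := by
    have h1 : Tendsto (fun z : ℍ => E (r + 1) (δ • z)) atImInfty (𝓝 0) :=
      (hE.isZero r).comp (tendsto_smul_atImInfty h10)
    have h2 := h1.const_mul ((δ.det.val : ℂ) ^ (n + 1) * ((δ 1 1 : ℝ) : ℂ)⁻¹ ^ (n + 2) *
        (((δ 1 1 : ℝ) : ℂ) ^ 2 / (δ.det.val : ℂ)) ^ (r + 1))
    rw [mul_zero] at h2
    exact h2

theorem HasTower.slash_upper (n : ℕ) {h : ℍ → ℂ} (hh : HasTower h)
    (δ : GL (Fin 2) ℝ) (hδ : 0 < δ.det.val) (h10 : δ 1 0 = 0) :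
    HasTower (h ∣[(n : ℤ) + 2] δ) :=
  ⟨_, hh.isTower.slash_upper n δ hδ h10⟩

/-- The cocycle vanishes on upper triangular matrices. -/
theorem cocyc_upper (n : ℕ) {h : ℍ → ℂ} (hh : HasTower h)
    (δ : GL (Fin 2) ℝ) (hδ : 0 < δ.det.val) (h10 : δ 1 0 = 0) (v : ℂ × ℂ) :
    cocyc n h δ v = 0 := by
  unfold cocyc
  rw [(hh.isTower.slash_upper n δ hδ h10).tower_eq, sub_eq_zero]
  unfold bigG
  refine Finset.sum_congr rfl fun j hj => ?_
  have hj' : j ≤ n := Nat.lt_succ_iff.mp (Finset.mem_range.mp hj)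
  have hden : denom δ UpperHalfPlane.I = ((δ 1 1 : ℝ) : ℂ) := by simp [denom, h10]
  have hdet : (δ.det.val : ℂ) ≠ 0 := by exact_mod_cast hδ.ne'
  have hd : ((δ 1 1 : ℝ) : ℂ) ≠ 0 := by
    rw [← hden]
    exact denom_ne_zero δ _
  rw [actV_sub δ hδ, hden]
  have hv2 : (actV δ v).2 = ((δ 1 1 : ℝ) : ℂ) * v.2 := by simp [actV, h10]
  rw [hv2]
  obtain ⟨m, rfl⟩ : ∃ m, n = j + m := ⟨n - j, by omega⟩
  simp only [Nat.add_sub_cancel_left, div_pow, mul_pow, inv_pow]
  field_simp
  ring

end Fermat.Agent.S22.H262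

end
-- ===== PACK-END S22/H262/Cocycle2.lean

-- ===== PACK-BEGIN S22/H262/IntMat.lean
section


set_option autoImplicit false

/-!
# Integer matrices of positive determinant inside `GL₂(ℝ)`; Hermite decomposition
-/

open Complex Filter Function Metric Set
open UpperHalfPlane hiding I
open scoped Real Topology Manifold ModularForm MatrixGroups

namespace Fermat.Agent.S22.H262

open Matrix.SpecialLinearGroup

/-- Integer matrices of positive determinant, as a submonoid of `GL₂(ℝ)`. -/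
def posInt : Submonoid (GL (Fin 2) ℝ) where
  carrier := {A | (∀ i j, ∃ m : ℤ, A i j = m) ∧ 0 < A.det.val}
  one_mem' := by
    refine ⟨fun i j => ?_, by simp⟩
    by_cases h : i = j
    · exact ⟨1, by simp [h]⟩
    · exact ⟨0, by simp [h]⟩
  mul_mem' := by
    rintro A B ⟨hA, hA'⟩ ⟨hB, hB'⟩
    refine ⟨fun i j => ?_, ?_⟩
    · obtain ⟨a0, ha0⟩ := hA i 0
      obtain ⟨a1, ha1⟩ := hA i 1
      obtain ⟨b0, hb0⟩ := hB 0 j
      obtain ⟨b1, hb1⟩ := hB 1 j
      refine ⟨a0 * b0 + a1 * b1, ?_⟩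
      simp only [Matrix.GeneralLinearGroup.coe_mul, Matrix.mul_apply, Fin.sum_univ_two, ha0, ha1,
        hb0, hb1]
      push_cast
      ring
    · rw [map_mul, Units.val_mul]
      exact mul_pos hA' hB'

theorem mem_posInt {A : GL (Fin 2) ℝ} :
    A ∈ posInt ↔ (∀ i j, ∃ m : ℤ, A i j = m) ∧ 0 < A.det.val := Iff.rfl

theorem det_pos_of_mem_posInt {A : GL (Fin 2) ℝ} (hA : A ∈ posInt) : 0 < A.det.val := hA.2

theorem mapGL_mem_posInt (g : SL(2, ℤ)) : (mapGL ℝ g : GL (Fin 2) ℝ) ∈ posInt := by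
  refine ⟨fun i j => ⟨g i j, by simp⟩, by simp⟩

/-- Integer vectors in `ℂ²`. -/
def Vint : Set (ℂ × ℂ) := {v | ∃ x y : ℤ, v = ((x : ℂ), (y : ℂ))}

theorem actV_mem_Vint {A : GL (Fin 2) ℝ} (hA : A ∈ posInt) {v : ℂ × ℂ} (hv : v ∈ Vint) :
    actV A v ∈ Vint := by
  obtain ⟨x, y, rfl⟩ := hv
  obtain ⟨a, ha⟩ := hA.1 0 0
  obtain ⟨b, hb⟩ := hA.1 0 1
  obtain ⟨c, hc⟩ := hA.1 1 0
  obtain ⟨d, hd⟩ := hA.1 1 1
  refine ⟨a * x + b * y, c * x + d * y, ?_⟩
  simp only [actV, ha, hb, hc, hd]
  push_cast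
  rfl

/-- The element of `GL₂(ℝ)` attached to an integer matrix with positive determinant. -/
noncomputable def glOfInt (M : Matrix (Fin 2) (Fin 2) ℤ) (hM : 0 < M.det) : GL (Fin 2) ℝ :=
  Matrix.GeneralLinearGroup.mkOfDetNeZero (M.map (Int.castRingHom ℝ)) (by
    have : (M.map (Int.castRingHom ℝ)).det = ((M.det : ℤ) : ℝ) := by
      rw [← RingHom.mapMatrix_apply, ← RingHom.map_det]
      rfl
    rw [this]
    exact_mod_cast hM.ne')

theorem glOfInt_apply (M : Matrix (Fin 2) (Fin 2) ℤ) (hM : 0 < M.det) (i j : Fin 2) :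
    (glOfInt M hM) i j = (M i j : ℝ) := rfl

theorem det_glOfInt (M : Matrix (Fin 2) (Fin 2) ℤ) (hM : 0 < M.det) :
    (glOfInt M hM).det.val = (M.det : ℝ) := by
  rw [Matrix.GeneralLinearGroup.val_det_apply]
  show (M.map (Int.castRingHom ℝ)).det = _
  rw [← RingHom.mapMatrix_apply, ← RingHom.map_det]
  rfl

theorem glOfInt_mem_posInt (M : Matrix (Fin 2) (Fin 2) ℤ) (hM : 0 < M.det) :
    glOfInt M hM ∈ posInt :=
  ⟨fun i j => ⟨M i j, rfl⟩, by rw [det_glOfInt]; exact_mod_cast hM⟩

theorem exists_eq_glOfInt {A : GL (Fin 2) ℝ} (hA : A ∈ posInt) :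
    ∃ (M : Matrix (Fin 2) (Fin 2) ℤ) (hM : 0 < M.det), A = glOfInt M hM := by
  choose m hm using hA.1
  let M : Matrix (Fin 2) (Fin 2) ℤ := Matrix.of m
  have hAM : (A : Matrix (Fin 2) (Fin 2) ℝ) = M.map (Int.castRingHom ℝ) := by
    ext i j
    simp [M, hm i j]
  have hdet : ((M.det : ℤ) : ℝ) = A.det.val := by
    rw [Matrix.GeneralLinearGroup.val_det_apply, hAM, ← RingHom.mapMatrix_apply,
      ← RingHom.map_det]
    rfl
  have hM : 0 < M.det := by
    have := hA.2
    rw [← hdet] at this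
    exact_mod_cast this
  refine ⟨M, hM, ?_⟩
  ext i j
  rw [glOfInt_apply]
  exact hm i j

/-- Hermite decomposition of integer matrices with nonzero determinant. -/
theorem exists_SL_mul_upper (m : ℤ) (hm : m ≠ 0) (A : FixedDetMatrix (Fin 2) ℤ m) :
    ∃ (g : SL(2, ℤ)) (D : FixedDetMatrix (Fin 2) ℤ m), D.1 1 0 = 0 ∧ A.1 = g.1 * D.1 := by
  induction A using FixedDetMatrices.induction_on hm with
  | h0 A h _ _ _ => exact ⟨1, A, h, by simp⟩
  | hS B ih =>
    obtain ⟨g, D, hD, hB⟩ := ih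
    exact ⟨ModularGroup.S * g, D, hD, by
      rw [FixedDetMatrices.smul_coe, hB, Matrix.SpecialLinearGroup.coe_mul, Matrix.mul_assoc]⟩
  | hT B ih =>
    obtain ⟨g, D, hD, hB⟩ := ih
    exact ⟨ModularGroup.T * g, D, hD, by
      rw [FixedDetMatrices.smul_coe, hB, Matrix.SpecialLinearGroup.coe_mul, Matrix.mul_assoc]⟩

/-- Hermite decomposition inside `GL₂(ℝ)`. -/
theorem exists_mapGL_mul_upper {A : GL (Fin 2) ℝ} (hA : A ∈ posInt) :
    ∃ (g : SL(2, ℤ)) (δ : GL (Fin 2) ℝ), δ ∈ posInt ∧ δ 1 0 = 0 ∧ A = mapGL ℝ g * δ := by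
  obtain ⟨M, hM, rfl⟩ := exists_eq_glOfInt hA
  obtain ⟨g, D, hD, hMD⟩ := exists_SL_mul_upper M.det hM.ne' ⟨M, rfl⟩
  have hDdet : 0 < D.1.det := by rw [D.2]; exact hM
  refine ⟨g, glOfInt D.1 hDdet, glOfInt_mem_posInt _ _, ?_, ?_⟩
  · rw [glOfInt_apply, hD]
    simp
  · ext i j
    simp only [Matrix.GeneralLinearGroup.coe_mul, Matrix.mul_apply, Fin.sum_univ_two,
      glOfInt_apply]
    have := congrFun (congrFun hMD i) j
    simp only [Matrix.mul_apply, Fin.sum_univ_two] at this
    have h2 : (M i j : ℝ) = ((g.1 i 0 * D.1 0 j + g.1 i 1 * D.1 1 j : ℤ) : ℝ) := by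
      exact_mod_cast congrArg (Int.cast : ℤ → ℝ) this
    rw [h2]
    simp

end Fermat.Agent.S22.H262

end
-- ===== PACK-END S22/H262/IntMat.lean

-- ===== PACK-BEGIN S22/H262/Nice.lean
section




set_option autoImplicit false

/-!
# Towers exist for `f ∣[k] A`, `f` a cusp form on `Γ₀(N)`, `A` an integer matrix of positive
determinant.
-/

open Complex Filter Function Metric Set
open UpperHalfPlane hiding I
open scoped Real Topology Manifold ModularForm MatrixGroups Pointwise

namespace Fermat.Agent.S22.H262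

open Matrix.SpecialLinearGroup in
theorem hasTower_slash_SL {N : ℕ} [NeZero N] {k : ℤ}
    (f : CuspForm (CongruenceSubgroup.Gamma0 N) k) (g : SL(2, ℤ)) :
    HasTower (⇑f ∣[k] (mapGL ℝ g)) := by
  obtain ⟨M, hM, hper⟩ := Subgroup.IsArithmetic.exists_nat_mem_strictPeriods_conj
    ((CongruenceSubgroup.Gamma0 N).map (mapGL ℝ))
  have hM' : (0 : ℝ) < M := by exact_mod_cast hM
  have h1 := hper g⁻¹
  rw [map_inv] at h1
  let F := CuspForm.translate f (mapGL ℝ g)
  have hF : ⇑F = ⇑f ∣[k] (mapGL ℝ g) := rfl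
  rw [← hF]
  refine exists_isTower hM' (SlashInvariantFormClass.periodic_comp_ofComplex F h1)
    (CuspFormClass.holo F) ?_
  rw [hF]
  exact CuspFormClass.zero_at_infty_slash f g

end Fermat.Agent.S22.H262

end
-- ===== PACK-END S22/H262/Nice.lean

-- ===== PACK-BEGIN S29/H149/HCoh.lean
section


/-!
# S29 layer M, piece `HCoh` (helper149)

For a prime `ℓ ∤ N` the factorisation `α_i γ = γ'_i α_{π(i)}` (`heckeFac`) exists, is unique,
permutes the index set and satisfies the cocycle rule; hence the cohomological Hecke operator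
`heckeCoh` preserves parabolic characters (`IsParHom`): additivity is the transfer computation,
vanishing on parabolic / finite-order elements is the cycle argument (the product of the `γ'_i`
over a cycle of `π` is conjugate to a power of `γ`), done over the orbits of `π` so that it is
valid with torsion coefficients (`A = ZMod p`).

Main results: `isParHom_heckeCoh` (the piece), `HCoh_isFactorSystem`, `HCoh_heckeFac_spec`,
`HCoh_heckeFac_unique`, `HCoh_exists_factor`, `HCoh_factor_unique`, `HCoh_perm`,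
`HCoh_transfer_mul`, `HCoh_transfer_eq_zero`, `HCoh_sum_eq_zero_of_orbits`.
-/

set_option autoImplicit false

namespace Fermat.Agent.S29.H149

open Fermat.Agent.S29
open scoped MatrixGroups

/-! ### A combinatorial lemma: sums over the orbits of a permutation -/

theorem HCoh_sum_eq_zero_of_orbits {ι : Type*} [Fintype ι] [DecidableEq ι] {A : Type*}
    [AddCommMonoid A] (σ : Equiv.Perm ι) (f : ι → A)
    (h : ∀ i : ι, ∀ r : ℕ, 0 < r → (σ ^ r) i = i → ∑ k ∈ Finset.range r, f ((σ ^ k) i) = 0) :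
    ∑ i, f i = 0 := by
  suffices H : ∀ n : ℕ, ∀ s : Finset ι, s.card = n → (∀ i ∈ s, σ i ∈ s) → ∑ i ∈ s, f i = 0 from
    H _ Finset.univ rfl (fun i _ => Finset.mem_univ _)
  intro n
  induction n using Nat.strong_induction_on with
  | _ n ih =>
    intro s hs hinv
    rcases s.eq_empty_or_nonempty with rfl | ⟨i₀, hi₀⟩
    · simp
    · have hpow : ∀ k : ℕ, (σ ^ k) i₀ ∈ s := by
        intro k
        induction k with
        | zero => simpa using hi₀
        | succ k ihk =>
          rw [pow_succ', Equiv.Perm.mul_apply]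
          exact hinv _ ihk
      have hper : i₀ ∈ Function.periodicPts σ := by
        refine Function.mk_mem_periodicPts (orderOf_pos σ) ?_
        show σ^[orderOf σ] i₀ = i₀
        rw [Equiv.Perm.iterate_eq_pow, pow_orderOf_eq_one]
        rfl
      set r := Function.minimalPeriod σ i₀ with hr
      have hrpos : 0 < r := Function.minimalPeriod_pos_of_mem_periodicPts hper
      have hfix : (σ ^ r) i₀ = i₀ := by
        have := Function.isPeriodicPt_minimalPeriod σ i₀
        rw [← Equiv.Perm.iterate_eq_pow]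
        exact this
      set O : Finset ι := (Finset.range r).image (fun k => (σ ^ k) i₀) with hO
      have hOs : O ⊆ s := by
        intro x hx
        rw [hO, Finset.mem_image] at hx
        obtain ⟨k, -, rfl⟩ := hx
        exact hpow k
      have hOne : O.Nonempty :=
        ⟨i₀, Finset.mem_image.mpr ⟨0, Finset.mem_range.mpr hrpos, by simp⟩⟩
      have hsumO : ∑ i ∈ O, f i = 0 := by
        rw [hO, Finset.sum_image]
        · exact h i₀ r hrpos hfix
        · intro a ha b hb hab
          rw [Finset.coe_range, Set.mem_Iio] at ha hb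
          simp only [← Equiv.Perm.iterate_eq_pow] at hab
          exact (Function.iterate_eq_iterate_iff_of_lt_minimalPeriod ha hb).mp hab
      have hinv' : ∀ i ∈ s \ O, σ i ∈ s \ O := by
        intro i hi
        rw [Finset.mem_sdiff] at hi ⊢
        refine ⟨hinv i hi.1, fun hσ => hi.2 ?_⟩
        rw [hO, Finset.mem_image] at hσ
        obtain ⟨k, hk, hk'⟩ := hσ
        rw [Finset.mem_range] at hk
        have key : ∃ m, m < r ∧ (σ ^ (m + 1)) i₀ = σ i := by
          rcases Nat.eq_zero_or_pos k with rfl | hkpos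
          · refine ⟨r - 1, by omega, ?_⟩
            rw [Nat.sub_add_cancel hrpos, hfix, ← hk']
            simp
          · refine ⟨k - 1, by omega, ?_⟩
            rw [Nat.sub_add_cancel hkpos, hk']
        obtain ⟨m, hm, hm'⟩ := key
        rw [pow_succ', Equiv.Perm.mul_apply] at hm'
        have := σ.injective hm'
        rw [hO, Finset.mem_image]
        exact ⟨m, Finset.mem_range.mpr hm, this⟩
      have hcard : (s \ O).card < n := by
        rw [← hs]
        exact Finset.card_lt_card (Finset.sdiff_ssubset hOs hOne)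
      have := ih _ hcard (s \ O) rfl hinv'
      rw [← Finset.sum_sdiff hOs, this, hsumO, add_zero]

/-! ### Abstract factor systems -/

section abstract

variable {Γ : Type*} [Group Γ] {ι : Type*}

/-- A "factor system": `fac γ i = (π_γ i, γ'_i)` with the cocycle rule. -/
structure HCoh_IsFactorSystem (fac : Γ → ι → ι × Γ) : Prop where
  one : ∀ i, fac 1 i = (i, 1)
  mul : ∀ γ δ i, fac (γ * δ) i = ((fac δ (fac γ i).1).1, (fac γ i).2 * (fac δ (fac γ i).1).2)

variable {fac : Γ → ι → ι × Γ}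

/-- The permutation of the index set attached to `γ`. -/
def HCoh_perm (hf : HCoh_IsFactorSystem fac) (γ : Γ) : Equiv.Perm ι where
  toFun i := (fac γ i).1
  invFun i := (fac γ⁻¹ i).1
  left_inv i := by
    have := hf.mul γ γ⁻¹ i
    rw [mul_inv_cancel, hf.one] at this
    exact (congrArg Prod.fst this).symm
  right_inv i := by
    have := hf.mul γ⁻¹ γ i
    rw [inv_mul_cancel, hf.one] at this
    exact (congrArg Prod.fst this).symm

@[simp] theorem HCoh_perm_apply (hf : HCoh_IsFactorSystem fac) (γ : Γ) (i : ι) :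
    HCoh_perm hf γ i = (fac γ i).1 := rfl

theorem HCoh_pow_fst (hf : HCoh_IsFactorSystem fac) (γ : Γ) (n : ℕ) (i : ι) :
    (fac (γ ^ n) i).1 = (HCoh_perm hf γ ^ n) i := by
  induction n with
  | zero => simp [hf.one]
  | succ n ih =>
    rw [pow_succ, hf.mul, pow_succ', Equiv.Perm.mul_apply, ← ih]
    rfl

theorem HCoh_map_one {A : Type*} [AddCommGroup A] {c : Γ → A}
    (hc : ∀ γ δ, c (γ * δ) = c γ + c δ) : c 1 = 0 := by
  have := hc 1 1
  rw [mul_one] at this
  exact (add_eq_left.mp this.symm)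

theorem HCoh_map_pow_snd (hf : HCoh_IsFactorSystem fac) {A : Type*} [AddCommGroup A] {c : Γ → A}
    (hc : ∀ γ δ, c (γ * δ) = c γ + c δ) (γ : Γ) (n : ℕ) (i : ι) :
    c (fac (γ ^ n) i).2 = ∑ k ∈ Finset.range n, c (fac γ ((HCoh_perm hf γ ^ k) i)).2 := by
  induction n with
  | zero => simp [hf.one, HCoh_map_one hc]
  | succ n ih =>
    rw [pow_succ, hf.mul, Finset.sum_range_succ, ← ih, hc, HCoh_pow_fst hf]

theorem HCoh_pow_of_fixed (hf : HCoh_IsFactorSystem fac) (g : Γ) (i : ι) (hi : (fac g i).1 = i)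
    (m : ℕ) : fac (g ^ m) i = (i, (fac g i).2 ^ m) := by
  induction m with
  | zero => simp [hf.one]
  | succ m ih =>
    rw [pow_succ, hf.mul, ih]
    simp only
    rw [hi, pow_succ]

/-- Additivity of the transfer. -/
theorem HCoh_transfer_mul [Fintype ι] (hf : HCoh_IsFactorSystem fac) {A : Type*}
    [AddCommGroup A] {c : Γ → A} (hc : ∀ γ δ, c (γ * δ) = c γ + c δ) (γ δ : Γ) :
    ∑ i, c (fac (γ * δ) i).2 = ∑ i, c (fac γ i).2 + ∑ i, c (fac δ i).2 := by
  simp only [hf.mul, hc, Finset.sum_add_distrib]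
  congr 1
  exact Equiv.sum_comp (HCoh_perm hf γ) (fun j => c (fac δ j).2)

/-- Vanishing of the transfer on a class `Z` of elements stable under "cycle products". -/
theorem HCoh_transfer_eq_zero [Fintype ι] (hf : HCoh_IsFactorSystem fac) {A : Type*}
    [AddCommGroup A] {c : Γ → A} (hc : ∀ γ δ, c (γ * δ) = c γ + c δ) (Z : Γ → Prop)
    (hZ : ∀ γ, Z γ → c γ = 0)
    (hclosed : ∀ γ, Z γ → ∀ r : ℕ, 0 < r → ∀ i, (fac (γ ^ r) i).1 = i → Z (fac (γ ^ r) i).2)
    (γ : Γ) (hγ : Z γ) : ∑ i, c (fac γ i).2 = 0 := by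
  classical
  refine HCoh_sum_eq_zero_of_orbits (HCoh_perm hf γ) (fun i => c (fac γ i).2) ?_
  intro i r hr hfix
  rw [← HCoh_map_pow_snd hf hc]
  refine hZ _ (hclosed γ hγ r hr i ?_)
  rw [HCoh_pow_fst hf]
  exact hfix

/-- Cycle products of elements of finite order have finite order. -/
theorem HCoh_finite_order_closed (hf : HCoh_IsFactorSystem fac) (γ : Γ) (n : ℕ) (hn : γ ^ n = 1)
    (r : ℕ) (i : ι) (hi : (fac (γ ^ r) i).1 = i) : (fac (γ ^ r) i).2 ^ n = 1 := by
  have h1 := HCoh_pow_of_fixed hf (γ ^ r) i hi n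
  rw [← pow_mul, mul_comm, pow_mul, hn, one_pow, hf.one] at h1
  exact (congrArg Prod.snd h1).symm

end abstract

/-! ### Integer matrices of elements of `Γ₀(N)` -/

section mat

variable {N : ℕ}

theorem HCoh_mat_one : (1 : G0 N).mat = 1 := rfl

theorem HCoh_mat_mul (γ γ' : G0 N) : (γ * γ').mat = γ.mat * γ'.mat := rfl

theorem HCoh_mat_pow (γ : G0 N) (n : ℕ) : (γ ^ n).mat = γ.mat ^ n := by
  induction n with
  | zero => simp [HCoh_mat_one]
  | succ n ih => rw [pow_succ, pow_succ, HCoh_mat_mul, ih]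

theorem HCoh_mat_det (γ : G0 N) : γ.mat.det = 1 := (γ : SL(2, ℤ)).2

theorem HCoh_mat_det' (γ : G0 N) : γ.mat 0 0 * γ.mat 1 1 - γ.mat 0 1 * γ.mat 1 0 = 1 := by
  rw [← Matrix.det_fin_two, HCoh_mat_det]

theorem HCoh_mat_injective :
    Function.Injective (G0.mat : G0 N → Matrix (Fin 2) (Fin 2) ℤ) := by
  intro γ γ' h
  apply Subtype.ext
  apply Subtype.ext
  exact h

theorem HCoh_mat_dvd (γ : G0 N) : (N : ℤ) ∣ γ.mat 1 0 := by
  have := CongruenceSubgroup.Gamma0_mem.mp γ.2
  exact (ZMod.intCast_zmod_eq_zero_iff_dvd _ _).mp this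

/-- Build an element of `Γ₀(N)` from an integer matrix. -/
def HCoh_mk (M : Matrix (Fin 2) (Fin 2) ℤ) (hdet : M.det = 1) (hN : (N : ℤ) ∣ M 1 0) : G0 N :=
  ⟨⟨M, hdet⟩, CongruenceSubgroup.Gamma0_mem.mpr ((ZMod.intCast_zmod_eq_zero_iff_dvd _ _).mpr hN)⟩

@[simp] theorem HCoh_mk_mat (M : Matrix (Fin 2) (Fin 2) ℤ) (hdet : M.det = 1)
    (hN : (N : ℤ) ∣ M 1 0) : (HCoh_mk M hdet hN : G0 N).mat = M := rfl

theorem HCoh_heckeRep_det {ℓ : ℕ} (i : Option (Fin ℓ)) : (heckeRep ℓ i).det = ℓ := by
  cases i <;> simp [heckeRep, Matrix.det_fin_two]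

/-- Existence of the factorisation `M = γ' * α_j` for `det M = ℓ`, `N ∣ M₁₀`. -/
theorem HCoh_exists_factor {ℓ : ℕ} (hℓ : ℓ.Prime) (hℓN : ¬ ℓ ∣ N)
    (M : Matrix (Fin 2) (Fin 2) ℤ) (hdet : M.det = ℓ) (hN : (N : ℤ) ∣ M 1 0) :
    ∃ q : Option (Fin ℓ) × G0 N, M = q.2.mat * heckeRep ℓ q.1 := by
  have : Fact ℓ.Prime := ⟨hℓ⟩
  have hd : M 0 0 * M 1 1 - M 0 1 * M 1 0 = ℓ := by rw [← hdet, Matrix.det_fin_two]
  have hℓ0 : (ℓ : ℤ) ≠ 0 := by exact_mod_cast hℓ.ne_zero
  by_cases h0 : (ℓ : ℤ) ∣ M 0 0 ∧ (ℓ : ℤ) ∣ M 1 0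
  · obtain ⟨⟨a', ha'⟩, ⟨c', hc'⟩⟩ := h0
    have hdet' : (!![a', M 0 1; c', M 1 1] : Matrix (Fin 2) (Fin 2) ℤ).det = 1 := by
      rw [Matrix.det_fin_two_of]
      apply mul_left_cancel₀ hℓ0
      rw [ha', hc'] at hd
      linear_combination hd
    have hN' : (N : ℤ) ∣ (!![a', M 0 1; c', M 1 1] : Matrix (Fin 2) (Fin 2) ℤ) 1 0 := by
      have hcop : IsCoprime (N : ℤ) (ℓ : ℤ) := by
        rw [Int.isCoprime_iff_gcd_eq_one, Int.gcd_natCast_natCast]
        exact Nat.Coprime.symm ((Nat.Prime.coprime_iff_not_dvd hℓ).mpr hℓN)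
      have : (N : ℤ) ∣ (ℓ : ℤ) * c' := hc' ▸ hN
      simpa using hcop.dvd_of_dvd_mul_left this
    refine ⟨(none, HCoh_mk _ hdet' hN'), ?_⟩
    ext i j
    fin_cases i <;> fin_cases j <;>
      simp [heckeRep, Matrix.mul_apply, Fin.sum_univ_two, ha', hc', mul_comm]
  · -- find `k` with `M₀₁ ≡ k M₀₀`, `M₁₁ ≡ k M₁₀` mod `ℓ`
    have hdz : ((M 0 0 : ℤ) : ZMod ℓ) * (M 1 1 : ℤ) - (M 0 1 : ℤ) * (M 1 0 : ℤ) = 0 := by
      have := congrArg (Int.cast : ℤ → ZMod ℓ) hd
      push_cast at this
      rw [this]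
      simp
    have hk : ∃ k : ZMod ℓ, ((M 0 1 : ℤ) : ZMod ℓ) = (M 0 0 : ℤ) * k ∧
        ((M 1 1 : ℤ) : ZMod ℓ) = (M 1 0 : ℤ) * k := by
      by_cases ha : ((M 0 0 : ℤ) : ZMod ℓ) = 0
      · have hc : ((M 1 0 : ℤ) : ZMod ℓ) ≠ 0 := by
          intro hc
          exact h0 ⟨(ZMod.intCast_zmod_eq_zero_iff_dvd _ _).mp ha,
            (ZMod.intCast_zmod_eq_zero_iff_dvd _ _).mp hc⟩
        refine ⟨(M 1 1 : ℤ) / (M 1 0 : ℤ), ?_, ?_⟩
        · rw [ha, zero_mul]
          rw [ha, zero_mul, zero_sub, neg_eq_zero] at hdz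
          exact (mul_eq_zero.mp hdz).resolve_right hc
        · field_simp
      · refine ⟨(M 0 1 : ℤ) / (M 0 0 : ℤ), ?_, ?_⟩
        · field_simp
        · field_simp
          linear_combination hdz
    obtain ⟨k, hk1, hk2⟩ := hk
    obtain ⟨kv, hkv, h1, h2⟩ : ∃ kv : ℕ, kv < ℓ ∧ (ℓ : ℤ) ∣ M 0 1 - M 0 0 * (kv : ℤ) ∧
        (ℓ : ℤ) ∣ M 1 1 - M 1 0 * (kv : ℤ) := by
      refine ⟨k.val, ZMod.val_lt k, ?_, ?_⟩
      · rw [← ZMod.intCast_zmod_eq_zero_iff_dvd]
        push_cast
        rw [ZMod.natCast_zmod_val, hk1, sub_self]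
      · rw [← ZMod.intCast_zmod_eq_zero_iff_dvd]
        push_cast
        rw [ZMod.natCast_zmod_val, hk2, sub_self]
    obtain ⟨b', hb'⟩ := h1
    obtain ⟨d', hd'⟩ := h2
    have hdet' : (!![M 0 0, b'; M 1 0, d'] : Matrix (Fin 2) (Fin 2) ℤ).det = 1 := by
      rw [Matrix.det_fin_two_of]
      apply mul_left_cancel₀ hℓ0
      linear_combination hd - M 0 0 * hd' + M 1 0 * hb'
    have hN' : (N : ℤ) ∣ (!![M 0 0, b'; M 1 0, d'] : Matrix (Fin 2) (Fin 2) ℤ) 1 0 := by
      simpa using hN
    refine ⟨(some ⟨kv, hkv⟩, HCoh_mk _ hdet' hN'), ?_⟩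
    ext i j
    fin_cases i <;> fin_cases j
    · simp [heckeRep, Matrix.mul_apply, Fin.sum_univ_two]
    · simp [heckeRep, Matrix.mul_apply, Fin.sum_univ_two]
      linear_combination hb'
    · simp [heckeRep, Matrix.mul_apply, Fin.sum_univ_two]
    · simp [heckeRep, Matrix.mul_apply, Fin.sum_univ_two]
      linear_combination hd'

end mat

section unique

variable {N : ℕ}

theorem HCoh_mul_right_cancel {A : Matrix (Fin 2) (Fin 2) ℤ} (hA : A.det ≠ 0)
    {X Y : Matrix (Fin 2) (Fin 2) ℤ} (h : X * A = Y * A) : X = Y := by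
  have h2 := congrArg (· * A.adjugate) h
  simp only [Matrix.mul_assoc, Matrix.mul_adjugate, Matrix.mul_smul, Matrix.mul_one] at h2
  ext i j
  have h3 := congrFun (congrFun h2 i) j
  simp only [Matrix.smul_apply, smul_eq_mul] at h3
  exact mul_left_cancel₀ hA h3

/-- Uniqueness of the factorisation. -/
theorem HCoh_factor_unique {ℓ : ℕ} (hℓ : ℓ.Prime) {i j : Option (Fin ℓ)} {γ γ' : G0 N}
    (h : γ.mat * heckeRep ℓ i = γ'.mat * heckeRep ℓ j) : i = j ∧ γ = γ' := by
  have hℓ0 : (ℓ : ℤ) ≠ 0 := by exact_mod_cast hℓ.ne_zero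
  have hℓp : Prime (ℓ : ℤ) := Nat.prime_iff_prime_int.mp hℓ
  have hnd : ¬ (ℓ : ℤ) ∣ 1 := fun h1 => hℓp.not_isUnit (isUnit_of_dvd_one h1)
  have hγ := HCoh_mat_det' γ
  have hγ' := HCoh_mat_det' γ'
  have e00 := congrFun (congrFun h 0) 0
  have e01 := congrFun (congrFun h 0) 1
  have e10 := congrFun (congrFun h 1) 0
  have e11 := congrFun (congrFun h 1) 1
  have hij : i = j := by
    rcases i with _ | k <;> rcases j with _ | k'
    · rfl
    · exfalso
      simp [heckeRep, Matrix.mul_apply, Fin.sum_univ_two] at e00 e10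
      apply hnd
      refine ⟨γ.mat 0 0 * γ'.mat 1 1 - γ'.mat 0 1 * γ.mat 1 0, ?_⟩
      rw [← e00, ← e10] at hγ'
      linear_combination -hγ'
    · exfalso
      simp [heckeRep, Matrix.mul_apply, Fin.sum_univ_two] at e00 e10
      apply hnd
      refine ⟨γ'.mat 0 0 * γ.mat 1 1 - γ.mat 0 1 * γ'.mat 1 0, ?_⟩
      rw [e00, e10] at hγ
      linear_combination -hγ
    · simp [heckeRep, Matrix.mul_apply, Fin.sum_univ_two] at e00 e01 e10 e11
      by_contra hne
      have hkk : (k : ℕ) ≠ (k' : ℕ) := fun hk => hne (by rw [Fin.ext hk])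
      have hnd' : ¬ (ℓ : ℤ) ∣ ((k : ℕ) : ℤ) - ((k' : ℕ) : ℤ) := by
        intro hd
        have hlt : |((k : ℕ) : ℤ) - ((k' : ℕ) : ℤ)| < (ℓ : ℤ) := by
          have h1 := k.2
          have h2 := k'.2
          rw [abs_lt]
          constructor <;> omega
        have := Int.eq_zero_of_abs_lt_dvd hd hlt
        apply hkk
        omega
      have ha : (ℓ : ℤ) ∣ γ.mat 0 0 := by
        have : (ℓ : ℤ) ∣ γ.mat 0 0 * (((k : ℕ) : ℤ) - ((k' : ℕ) : ℤ)) := by
          refine ⟨γ'.mat 0 1 - γ.mat 0 1, ?_⟩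
          rw [← e00] at e01
          linear_combination e01
        exact (hℓp.dvd_or_dvd this).resolve_right hnd'
      have hc : (ℓ : ℤ) ∣ γ.mat 1 0 := by
        have : (ℓ : ℤ) ∣ γ.mat 1 0 * (((k : ℕ) : ℤ) - ((k' : ℕ) : ℤ)) := by
          refine ⟨γ'.mat 1 1 - γ.mat 1 1, ?_⟩
          rw [← e10] at e11
          linear_combination e11
        exact (hℓp.dvd_or_dvd this).resolve_right hnd'
      apply hnd
      rw [← hγ]
      exact dvd_sub (Dvd.dvd.mul_right ha _) (Dvd.dvd.mul_left hc _)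
  subst hij
  refine ⟨rfl, HCoh_mat_injective (HCoh_mul_right_cancel ?_ h)⟩
  rw [HCoh_heckeRep_det]
  exact hℓ0

theorem HCoh_exists_isHeckeFactor {ℓ : ℕ} (hℓ : ℓ.Prime) (hℓN : ¬ ℓ ∣ N) (γ : G0 N)
    (i : Option (Fin ℓ)) : ∃ q : Option (Fin ℓ) × G0 N, IsHeckeFactor ℓ γ i q := by
  refine HCoh_exists_factor hℓ hℓN (heckeRep ℓ i * γ.mat) ?_ ?_
  · rw [Matrix.det_mul, HCoh_heckeRep_det, HCoh_mat_det, mul_one]
  · have := HCoh_mat_dvd γ
    rcases i with _ | k
    · simpa [heckeRep, Matrix.mul_apply, Fin.sum_univ_two] using this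
    · simpa [heckeRep, Matrix.mul_apply, Fin.sum_univ_two] using Dvd.dvd.mul_left this _

theorem HCoh_heckeFac_spec {ℓ : ℕ} (hℓ : ℓ.Prime) (hℓN : ¬ ℓ ∣ N) (γ : G0 N)
    (i : Option (Fin ℓ)) : IsHeckeFactor ℓ γ i (heckeFac N ℓ γ i) := by
  unfold heckeFac
  rw [dif_pos (HCoh_exists_isHeckeFactor hℓ hℓN γ i)]
  exact Classical.choose_spec (HCoh_exists_isHeckeFactor hℓ hℓN γ i)

theorem HCoh_heckeFac_unique {ℓ : ℕ} (hℓ : ℓ.Prime) (hℓN : ¬ ℓ ∣ N) {γ : G0 N}
    {i : Option (Fin ℓ)} {q : Option (Fin ℓ) × G0 N} (h : IsHeckeFactor ℓ γ i q) :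
    heckeFac N ℓ γ i = q := by
  have h' := HCoh_heckeFac_spec hℓ hℓN γ i
  unfold IsHeckeFactor at h h'
  obtain ⟨h1, h2⟩ := HCoh_factor_unique hℓ (h'.symm.trans h)
  exact Prod.ext h1 h2

theorem HCoh_isFactorSystem {ℓ : ℕ} (hℓ : ℓ.Prime) (hℓN : ¬ ℓ ∣ N) :
    HCoh_IsFactorSystem (heckeFac N ℓ) where
  one i := by
    apply HCoh_heckeFac_unique hℓ hℓN
    unfold IsHeckeFactor
    simp [HCoh_mat_one]
  mul γ δ i := by
    apply HCoh_heckeFac_unique hℓ hℓN
    have h1 := HCoh_heckeFac_spec hℓ hℓN γ i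
    have h2 := HCoh_heckeFac_spec hℓ hℓN δ (heckeFac N ℓ γ i).1
    unfold IsHeckeFactor at h1 h2 ⊢
    simp only [HCoh_mat_mul]
    rw [← Matrix.mul_assoc, h1, Matrix.mul_assoc, h2, Matrix.mul_assoc]

end unique

/-! ### Traces -/

section trace

theorem HCoh_trace_eq_of_conj {A G D : Matrix (Fin 2) (Fin 2) ℤ} (hA : A.det ≠ 0)
    (h : A * G = D * A) : G.trace = D.trace := by
  have h1 : (A.adjugate * (A * G)).trace = A.det * G.trace := by
    rw [← Matrix.mul_assoc, Matrix.adjugate_mul, Matrix.smul_mul, Matrix.one_mul,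
      Matrix.trace_smul, smul_eq_mul]
  have h2 : (A.adjugate * (D * A)).trace = A.det * D.trace := by
    rw [Matrix.trace_mul_comm, Matrix.mul_assoc, Matrix.mul_adjugate, Matrix.mul_smul,
      Matrix.mul_one, Matrix.trace_smul, smul_eq_mul]
  rw [h, h2] at h1
  exact (mul_left_cancel₀ hA h1).symm

theorem HCoh_sq_eq {G : Matrix (Fin 2) (Fin 2) ℤ} (hdet : G.det = 1) :
    G * G = G.trace • G - 1 := by
  rw [Matrix.det_fin_two] at hdet
  ext i j
  rw [Matrix.sub_apply, Matrix.smul_apply, Matrix.trace_fin_two, Matrix.mul_apply,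
    Fin.sum_univ_two, smul_eq_mul]
  fin_cases i <;> fin_cases j
  · simp only [Fin.zero_eta, Fin.isValue, Matrix.one_apply_eq]
    linear_combination (-1 : ℤ) * hdet
  · simp only [Fin.zero_eta, Fin.isValue, Fin.mk_one, ne_eq, zero_ne_one, not_false_eq_true,
      Matrix.one_apply_ne, sub_zero]
    ring
  · simp only [Fin.mk_one, Fin.isValue, Fin.zero_eta, ne_eq, one_ne_zero, not_false_eq_true,
      Matrix.one_apply_ne, sub_zero]
    ring
  · simp only [Fin.mk_one, Fin.isValue, Matrix.one_apply_eq]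
    linear_combination (-1 : ℤ) * hdet

theorem HCoh_trace_pow_rec {G : Matrix (Fin 2) (Fin 2) ℤ} (hdet : G.det = 1) (n : ℕ) :
    (G ^ (n + 2)).trace = G.trace * (G ^ (n + 1)).trace - (G ^ n).trace := by
  have : G ^ (n + 2) = G.trace • G ^ (n + 1) - G ^ n := by
    rw [pow_add, pow_two, HCoh_sq_eq hdet, mul_sub, mul_one, Matrix.mul_smul, ← pow_succ]
  rw [this, Matrix.trace_sub, Matrix.trace_smul, smul_eq_mul]

theorem HCoh_trace_pow {G : Matrix (Fin 2) (Fin 2) ℤ} (hdet : G.det = 1)
    (ht : G.trace = 2 ∨ G.trace = -2) (r : ℕ) :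
    (G ^ r).trace = 2 ∨ (G ^ r).trace = -2 := by
  have key : ∀ n : ℕ, ((G ^ n).trace = 2 ∨ (G ^ n).trace = -2) ∧
      ((G ^ (n + 1)).trace = G.trace * (G ^ n).trace / 2) := by
    intro n
    induction n with
    | zero =>
      refine ⟨Or.inl (by simp), ?_⟩
      simp
    | succ n ih =>
      obtain ⟨ih1, ih2⟩ := ih
      have hrec := HCoh_trace_pow_rec hdet n
      rcases ht with ht | ht <;> rcases ih1 with ih1 | ih1 <;>
        rw [ht, ih1] at ih2 <;> norm_num at ih2 <;>
        rw [ht, ih1, ih2] at hrec <;> norm_num at hrec <;>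
        rw [ht, ih2, hrec] <;> norm_num
  exact (key r).1

end trace

/-! ### The piece `HCoh` -/

theorem isParHom_heckeCoh {N : ℕ} {ℓ : ℕ} (hℓ : ℓ.Prime) (hℓN : ¬ ℓ ∣ N) {A : Type*}
    [AddCommGroup A] {c : G0 N → A} (hc : IsParHom c) : IsParHom (heckeCoh N ℓ c) := by
  have hf := HCoh_isFactorSystem (N := N) hℓ hℓN
  have hℓ0 : (ℓ : ℤ) ≠ 0 := by exact_mod_cast hℓ.ne_zero
  refine ⟨?_, ?_, ?_⟩
  · intro γ γ'
    exact HCoh_transfer_mul hf hc.map_mul γ γ'
  · intro γ hγ
    refine HCoh_transfer_eq_zero hf hc.map_mul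
      (fun γ : G0 N => γ.mat.trace = 2 ∨ γ.mat.trace = -2) hc.parabolic ?_ γ hγ
    intro γ hγ r _ i hi
    have h1 := HCoh_heckeFac_spec hℓ hℓN (γ ^ r) i
    unfold IsHeckeFactor at h1
    rw [hi] at h1
    have h2 := HCoh_trace_eq_of_conj (by rw [HCoh_heckeRep_det]; exact hℓ0) h1
    show (heckeFac N ℓ (γ ^ r) i).2.mat.trace = 2 ∨ (heckeFac N ℓ (γ ^ r) i).2.mat.trace = -2
    rw [← h2, HCoh_mat_pow]
    exact HCoh_trace_pow (HCoh_mat_det γ) hγ r
  · intro γ n hn hγn
    refine HCoh_transfer_eq_zero hf hc.map_mul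
      (fun γ : G0 N => ∃ n : ℕ, 0 < n ∧ γ ^ n = 1) (fun γ ⟨n, hn, h⟩ => hc.elliptic γ n hn h)
      ?_ γ ⟨n, hn, hγn⟩
    rintro γ ⟨n, hn, hγn⟩ r _ i hi
    exact ⟨n, hn, HCoh_finite_order_closed hf γ n hγn r i hi⟩

end Fermat.Agent.S29.H149

end
-- ===== PACK-END S29/H149/HCoh.lean

-- ===== PACK-BEGIN S24/Alg/LocUniq.lean
section




/-!
# S24 / ALG-LOC: local uniqueness of embeddings

Two embeddings `σ τ : F → C((z))` inducing the same place `v` (with residue field `K`), agreeing
on `K` and on some `t` with `ord_v t > 0`, and having the same leading coefficient on a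
uniformizer, are equal.  No completion, no Hensel.
-/

set_option autoImplicit false

noncomputable section

open AlgebraicCurve

namespace Fermat.Agent.S24.H144

variable {K F : Type*} [Field K] [Field F] [Algebra K F] {C : Type*} [Field C]

/-- The residue field of `v` is `K`: every element of the valuation ring is congruent to a
constant modulo the maximal ideal. -/
def ResidueTrivial (v : Place K F) : Prop :=
  ∀ f ∈ v.toValuationSubring, ∃ a : K, f = algebraMap K F a ∨ 0 < v.ord (f - algebraMap K F a)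

/-- First step of the `π`-adic expansion. -/
theorem loc_exists_expand {v : Place K F} (hres : ResidueTrivial v) {π : F} (hπ : v.ord π = 1)
    {f : F} (hf : f ∈ v.toValuationSubring) :
    ∃ a : K, ∃ f₁ ∈ v.toValuationSubring, f = algebraMap K F a + π * f₁ := by
  have hπ0 : π ≠ 0 := by rintro rfl; simp at hπ
  obtain ⟨a, h | h⟩ := hres f hf
  · exact ⟨a, 0, zero_mem _, by rw [h]; simp⟩
  · have h0 : f - algebraMap K F a ≠ 0 := by
      intro h0; rw [h0, v.ord_zero] at h; exact lt_irrefl _ h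
    refine ⟨a, (f - algebraMap K F a) * π⁻¹, ?_, ?_⟩
    · apply loc_mem_of_ord_nonneg
      rw [v.ord_mul h0 (inv_ne_zero hπ0), v.ord_inv, hπ]; omega
    · field_simp; ring

theorem loc_sub_mul (σ τ : F →+* LaurentSeries C) (f h : F) :
    σ (f * h) - τ (f * h) = (σ f - τ f) * σ h + τ f * (σ h - τ h) := by
  rw [map_mul, map_mul]; ring

/-- Main induction: if `σ π - τ π` has order at least `d`, so has `σ f - τ f` for every `f` in
the valuation ring (up to any bound `r`). -/
theorem loc_sub_big {v : Place K F} (hres : ResidueTrivial v) {π : F} (hπ : v.ord π = 1)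
    (ι : K →+* C) (σ τ : F →+* LaurentSeries C)
    (hσK : ∀ c, σ (algebraMap K F c) = HahnSeries.C (ι c))
    (hτK : ∀ c, τ (algebraMap K F c) = HahnSeries.C (ι c))
    (hσ : Induces σ v) (hτ : Induces τ v)
    (d : ℤ) (hd : LocBig d (σ π - τ π)) :
    ∀ r : ℕ, ∀ f ∈ v.toValuationSubring, LocBig (min d r) (σ f - τ f) := by
  obtain ⟨gτ, hgτ, hτord⟩ := loc_exists_mult v τ hτ
  have hτπ : LocBig 1 (τ π) := by
    refine LocBig.of_le_order ?_
    rw [hτord, hπ, mul_one]; exact_mod_cast hgτ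
  intro r
  induction r with
  | zero =>
    intro f hf
    have h1 : LocBig 0 (σ f) := LocBig.of_le_order ((hσ f).mp hf)
    have h2 : LocBig 0 (τ f) := LocBig.of_le_order ((hτ f).mp hf)
    exact (h1.sub h2).mono (by simp)
  | succ r ih =>
    intro f hf
    obtain ⟨a, f₁, hf₁, rfl⟩ := loc_exists_expand hres hπ hf
    have h1 : σ (algebraMap K F a + π * f₁) - τ (algebraMap K F a + π * f₁)
        = (σ π - τ π) * σ f₁ + τ π * (σ f₁ - τ f₁) := by
      rw [map_add, map_add, hσK, hτK, ← loc_sub_mul]; ring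
    rw [h1]
    have h2 : LocBig 0 (σ f₁) := LocBig.of_le_order ((hσ f₁).mp hf₁)
    have h3 : LocBig (d + 0) ((σ π - τ π) * σ f₁) := hd.mul h2
    have h4 : LocBig (1 + min d r) (τ π * (σ f₁ - τ f₁)) := hτπ.mul (ih f₁ hf₁)
    refine (h3.mono ?_).add (h4.mono ?_)
    · simp
    · push_cast
      rcases le_total d (r : ℤ) with h | h
      · rw [min_eq_left h, min_eq_left (by omega)]; omega
      · rw [min_eq_right h]; exact le_trans (min_le_right _ _) (by omega)

/-- If `σ π = τ π` then `σ = τ`. -/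
theorem loc_emb_eq_of_uniformizer_eq {v : Place K F} (hres : ResidueTrivial v) {π : F}
    (hπ : v.ord π = 1) (ι : K →+* C) (σ τ : F →+* LaurentSeries C)
    (hσK : ∀ c, σ (algebraMap K F c) = HahnSeries.C (ι c))
    (hτK : ∀ c, τ (algebraMap K F c) = HahnSeries.C (ι c))
    (hσ : Induces σ v) (hτ : Induces τ v) (h : σ π = τ π) : σ = τ := by
  have key : ∀ f ∈ v.toValuationSubring, σ f = τ f := by
    intro f hf
    rw [← sub_eq_zero]
    apply LocBig.eq_zero_of_forall
    intro k
    have := loc_sub_big hres hπ ι σ τ hσK hτK hσ hτ k (by rw [h, sub_self]; exact LocBig.zero _)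
      k f hf
    rwa [min_self] at this
  ext1 f
  rcases v.toValuationSubring.mem_or_inv_mem f with hf | hf
  · exact key f hf
  · have := key f⁻¹ hf
    rw [map_inv₀, map_inv₀] at this
    exact inv_injective this

/-- The coefficient at the bound of a power. -/
theorem LocBig.coeff_pow {n : ℤ} {a : LaurentSeries C} (ha : LocBig n a) (k : ℕ) :
    (a ^ k).coeff (k * n) = (a.coeff n) ^ k := by
  induction k with
  | zero => simp [HahnSeries.coeff_one]
  | succ k ih =>
    have h := (ha.pow k).coeff_mul ha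
    rw [pow_succ, pow_succ, ← ih, ← h]
    congr 1
    push_cast; ring

/-- Expansion of `a ^ (k+1) - b ^ (k+1)` to first order in `a - b`. -/
theorem loc_pow_sub_pow_big {g d : ℤ} {a b : LaurentSeries C} (ha : LocBig g a)
    (hb : LocBig g b) (hab : a.coeff g = b.coeff g) (hd : LocBig d (a - b)) (k : ℕ) :
    LocBig (d + k * g) (a ^ (k + 1) - b ^ (k + 1)) ∧
      (a ^ (k + 1) - b ^ (k + 1)).coeff (d + k * g)
        = (k + 1) * (a.coeff g) ^ k * (a - b).coeff d := by
  induction k with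
  | zero => simpa using hd
  | succ k ih =>
    obtain ⟨ih1, ih2⟩ := ih
    have hid : a ^ (k + 1 + 1) - b ^ (k + 1 + 1)
        = (a - b) * a ^ (k + 1) + b * (a ^ (k + 1) - b ^ (k + 1)) := by ring
    have h1 : LocBig (d + ((k + 1 : ℕ) : ℤ) * g) ((a - b) * a ^ (k + 1)) := hd.mul (ha.pow (k + 1))
    have h2 : LocBig (g + (d + k * g)) (b * (a ^ (k + 1) - b ^ (k + 1))) := hb.mul ih1
    have hidx : g + (d + (k : ℤ) * g) = d + ((k + 1 : ℕ) : ℤ) * g := by push_cast; ring
    rw [hidx] at h2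
    have c1 : ((a - b) * a ^ (k + 1)).coeff (d + ((k + 1 : ℕ) : ℤ) * g)
        = (a - b).coeff d * (a.coeff g) ^ (k + 1) := by
      rw [hd.coeff_mul (ha.pow (k + 1)), ha.coeff_pow]
    have c2 : (b * (a ^ (k + 1) - b ^ (k + 1))).coeff (d + ((k + 1 : ℕ) : ℤ) * g)
        = b.coeff g * ((k + 1) * (a.coeff g) ^ k * (a - b).coeff d) := by
      rw [← hidx, hb.coeff_mul ih1, ih2]
    refine ⟨by rw [hid]; exact h1.add h2, ?_⟩
    rw [hid, HahnSeries.coeff_add, c1, c2, ← hab]
    push_cast; ring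

/-- **Local uniqueness.** Two embeddings inducing the same place, agreeing on `K` and on `t`
(`ord_v t > 0`), with the same leading coefficient at a uniformizer, are equal. -/
theorem loc_emb_eq_of_leadingCoeff_eq [CharZero C] {v : Place K F} (hres : ResidueTrivial v)
    {t : F} (ht : 0 < v.ord t) {π : F} (hπ : v.ord π = 1)
    (ι : K →+* C) (σ τ : F →+* LaurentSeries C)
    (hσK : ∀ c, σ (algebraMap K F c) = HahnSeries.C (ι c))
    (hτK : ∀ c, τ (algebraMap K F c) = HahnSeries.C (ι c))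
    (hσ : Induces σ v) (hτ : Induces τ v) (hσt : σ t = τ t)
    (hlc : (σ π).leadingCoeff = (τ π).leadingCoeff) : σ = τ := by
  apply loc_emb_eq_of_uniformizer_eq hres hπ ι σ τ hσK hτK hσ hτ
  by_contra hne
  have hδ : σ π - τ π ≠ 0 := sub_ne_zero.mpr hne
  have hπ0 : π ≠ 0 := by rintro rfl; simp at hπ
  have ht0 : t ≠ 0 := by rintro rfl; simp at ht
  obtain ⟨gσ, hgσ, hσord⟩ := loc_exists_mult v σ hσ
  obtain ⟨gτ, hgτ, hτord⟩ := loc_exists_mult v τ hτ
  -- the two multiplicities agree
  have hg : gσ = gτ := by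
    have h1 := hσord t
    rw [hσt, hτord t] at h1
    have h2 : (gτ : ℤ) = gσ := mul_right_cancel₀ ht.ne' h1
    exact_mod_cast h2.symm
  subst hg
  set g : ℤ := (gσ : ℤ) with hgdef
  have hgpos : 0 < g := Int.natCast_pos.mpr hgσ
  have hoσ : (σ π).order = g := by rw [hσord, hπ, mul_one]
  have hoτ : (τ π).order = g := by rw [hτord, hπ, mul_one]
  have hbσ : LocBig g (σ π) := LocBig.of_le_order hoσ.ge
  have hbτ : LocBig g (τ π) := LocBig.of_le_order hoτ.ge
  have hcoef : (σ π).coeff g = (τ π).coeff g := by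
    rw [← hoσ, ← HahnSeries.leadingCoeff_eq, hlc, HahnSeries.leadingCoeff_eq, hoτ, hoσ]
  have ha0 : (σ π).coeff g ≠ 0 := by
    rw [← hoσ]
    exact HahnSeries.coeff_order_eq_zero.not.mpr ((map_ne_zero σ).mpr hπ0)
  -- the difference `δ`
  set d : ℤ := (σ π - τ π).order with hddef
  have hdbig : LocBig d (σ π - τ π) := LocBig.self_order _
  have hdge : g + 1 ≤ d := by
    have := LocBig.sub_of_leadingCoeff_eq (hoσ.trans hoτ.symm) hlc
    rw [hoσ] at this
    exact this.resolve_left hδ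
  have hc0 : (σ π - τ π).coeff d ≠ 0 := HahnSeries.coeff_order_eq_zero.not.mpr hδ
  -- the exponent
  obtain ⟨k, hk⟩ : ∃ k : ℕ, v.ord t = (k : ℤ) + 1 := ⟨(v.ord t - 1).toNat, by omega⟩
  -- the unit part of `t`
  set u : F := t * (π ^ (k + 1))⁻¹ with hu
  have hpk : π ^ (k + 1) ≠ 0 := pow_ne_zero _ hπ0
  have hu0 : u ≠ 0 := mul_ne_zero ht0 (inv_ne_zero hpk)
  have hut : t = u * π ^ (k + 1) := by rw [hu]; field_simp
  have hordu : v.ord u = 0 := by
    rw [hu, v.ord_mul ht0 (inv_ne_zero hpk), v.ord_inv, loc_ord_pow, hπ, hk]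
    push_cast; ring
  have humem : u ∈ v.toValuationSubring := loc_mem_of_ord_nonneg v hordu.ge
  have hτu : (τ u).order = 0 := by rw [hτord, hordu, mul_zero]
  have hτu0 : (τ u).coeff 0 ≠ 0 := by
    rw [← hτu]
    exact HahnSeries.coeff_order_eq_zero.not.mpr ((map_ne_zero τ).mpr hu0)
  -- `σ u - τ u` has order at least `d`
  have hΔu : LocBig d (σ u - τ u) := by
    have := loc_sub_big hres hπ ι σ τ hσK hτK hσ hτ d hdbig d.toNat u humem
    rwa [Int.toNat_of_nonneg (by omega), min_self] at this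
  -- expand `0 = σ t - τ t`
  have hzero : (σ u - τ u) * σ (π ^ (k + 1)) + τ u * (σ (π ^ (k + 1)) - τ (π ^ (k + 1))) = 0 := by
    rw [← loc_sub_mul, ← hut, hσt, sub_self]
  obtain ⟨hD1, hD2⟩ := loc_pow_sub_pow_big hbσ hbτ hcoef hdbig k
  have hcoeff := congrArg (fun s : LaurentSeries C => s.coeff (d + k * g)) hzero
  simp only [HahnSeries.coeff_add, HahnSeries.coeff_zero] at hcoeff
  -- first term vanishes
  have hfirst : ((σ u - τ u) * σ (π ^ (k + 1))).coeff (d + k * g) = 0 := by
    have hb : LocBig (d + ((k + 1 : ℕ) : ℤ) * g) ((σ u - τ u) * σ (π ^ (k + 1))) := by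
      rw [map_pow]
      exact hΔu.mul (hbσ.pow (k + 1))
    apply hb.coeff_eq_zero
    push_cast
    nlinarith
  -- second term does not
  have hsecond : (τ u * (σ (π ^ (k + 1)) - τ (π ^ (k + 1)))).coeff (d + k * g)
      = (τ u).coeff 0 * ((k + 1) * ((σ π).coeff g) ^ k * (σ π - τ π).coeff d) := by
    have hτu' : LocBig 0 (τ u) := LocBig.of_le_order hτu.ge
    rw [map_pow, map_pow]
    have := hτu'.coeff_mul hD1
    rw [zero_add] at this
    rw [this, hD2]
  rw [hfirst, hsecond, zero_add] at hcoeff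
  have hk1 : ((k : C) + 1) ≠ 0 := by exact_mod_cast Nat.succ_ne_zero k
  exact (mul_ne_zero hτu0 (mul_ne_zero (mul_ne_zero hk1 (pow_ne_zero k ha0)) hc0)) hcoeff

end Fermat.Agent.S24.H144

end
end
-- ===== PACK-END S24/Alg/LocUniq.lean

-- ===== PACK-BEGIN S24/H864/FF3b.lean
section




/-!
# S24 / ALG / FF1+FF3 (part b): places of a Dedekind domain with fraction field `F`
-/

set_option autoImplicit false

noncomputable section

open AlgebraicCurve IsDedekindDomain

namespace Fermat.Agent.S24.H864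

section Dict

variable {K F : Type*} [Field K] [Field F] [Algebra K F]
variable {S : Type*} [CommRing S] [IsDedekindDomain S] [Algebra S F] [IsFractionRing S F]
  [Algebra K S] [IsScalarTower K S F]

/-- `ord` of the place attached to a height one prime is `-log` of the adic valuation. -/
theorem ord_ofHeightOneSpectrum (w : HeightOneSpectrum S) (x : F) :
    (Place.ofHeightOneSpectrum (K := K) w).ord x = -(WithZero.log (w.valuation F x)) := by
  rcases eq_or_ne x 0 with rfl | hx
  · simp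
  set N : F → ℤ := fun y => -(WithZero.log (w.valuation F y)) with hN
  have hmul : ∀ f g : F, f ≠ 0 → g ≠ 0 → N (f * g) = N f + N g := by
    intro f g hf hg
    simp only [hN, map_mul]
    rw [WithZero.log_mul ((Valuation.ne_zero_iff _).mpr hf) ((Valuation.ne_zero_iff _).mpr hg)]
    ring
  have hmem : ∀ f : F, f ≠ 0 →
      (f ∈ (Place.ofHeightOneSpectrum (K := K) w).toValuationSubring ↔ 0 ≤ N f) := by
    intro f hf
    rw [Place.ofHeightOneSpectrum_toValuationSubring, Valuation.mem_valuationSubring_iff]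
    have h0 : w.valuation F f ≠ 0 := (Valuation.ne_zero_iff _).mpr hf
    simp only [hN]
    rw [← WithZero.log_le_log h0 one_ne_zero, WithZero.log_one]
    omega
  obtain ⟨π, hπ⟩ := w.valuation_exists_uniformizer F
  have hπ0 : π ≠ 0 := by
    intro h
    rw [h, map_zero] at hπ
    exact WithZero.exp_ne_zero.symm hπ
  have hNπ : N π = 1 := by
    simp only [hN, hπ, WithZero.log_exp]
    norm_num
  exact (FF.ordLike_eq_ord N hmul _ hmem hπ0 hNπ hx).symm

/-- On elements of `S`, `ord` is the multiplicity of the prime in the principal ideal. -/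
theorem ord_ofHeightOneSpectrum_algebraMap (w : HeightOneSpectrum S) {s : S} (hs : s ≠ 0) :
    (Place.ofHeightOneSpectrum (K := K) w).ord (algebraMap S F s)
      = (multiplicity w.asIdeal (Ideal.span {s}) : ℤ) := by
  rw [ord_ofHeightOneSpectrum, HeightOneSpectrum.valuation_of_algebraMap,
    HeightOneSpectrum.intValuation_eq_exp_neg_multiplicity w hs, WithZero.log_exp, neg_neg]

theorem ord_ofHeightOneSpectrum_pos_iff (w : HeightOneSpectrum S) {s : S} (hs : s ≠ 0) :
    0 < (Place.ofHeightOneSpectrum (K := K) w).ord (algebraMap S F s) ↔ s ∈ w.asIdeal := by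
  rw [← HeightOneSpectrum.valuation_lt_one_iff_mem (K := F), ord_ofHeightOneSpectrum]
  have h0 : w.valuation F (algebraMap S F s) ≠ 0 :=
    (Valuation.ne_zero_iff _).mpr ((map_ne_zero_iff _ (IsFractionRing.injective S F)).mpr hs)
  rw [← WithZero.log_lt_log h0 one_ne_zero, WithZero.log_one]
  omega

theorem ofHeightOneSpectrum_injective :
    Function.Injective (fun w : HeightOneSpectrum S => Place.ofHeightOneSpectrum (K := K) (F := F) w) := by
  intro w w' h
  simp only at h
  apply HeightOneSpectrum.ext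
  ext s
  rcases eq_or_ne s 0 with rfl | hs
  · simp
  · rw [← ord_ofHeightOneSpectrum_pos_iff (K := K) (F := F) w hs,
      ← ord_ofHeightOneSpectrum_pos_iff (K := K) (F := F) w' hs, h]

/-- The prime of `S` cut out by a place whose valuation ring contains `S`. -/
def primeOfPlace (v : Place K F) (hS : ∀ s : S, algebraMap S F s ∈ v.toValuationSubring) :
    Ideal S :=
  Ideal.comap ((algebraMap S F).codRestrict v.toValuationSubring.toSubring hS)
    (IsLocalRing.maximalIdeal v.toValuationSubring)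

instance primeOfPlace_isPrime (v : Place K F)
    (hS : ∀ s : S, algebraMap S F s ∈ v.toValuationSubring) : (primeOfPlace v hS).IsPrime :=
  Ideal.comap_isPrime _ _

theorem mem_primeOfPlace (v : Place K F)
    (hS : ∀ s : S, algebraMap S F s ∈ v.toValuationSubring) {s : S} (hs : s ≠ 0) :
    s ∈ primeOfPlace v hS ↔ 0 < v.ord (algebraMap S F s) := by
  have hs' : algebraMap S F s ≠ 0 := (map_ne_zero_iff _ (IsFractionRing.injective S F)).mpr hs
  rw [FF.ord_pos_iff_mem_nonunits v hs']
  rw [primeOfPlace, Ideal.mem_comap, IsLocalRing.mem_maximalIdeal, mem_nonunits_iff,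
    ValuationSubring.mem_nonunits_iff_exists_mem_maximalIdeal]
  constructor
  · intro h
    exact ⟨hS s, by rw [IsLocalRing.mem_maximalIdeal, mem_nonunits_iff]; exact h⟩
  · rintro ⟨_, h⟩
    rw [IsLocalRing.mem_maximalIdeal, mem_nonunits_iff] at h
    exact h

/-- **Dictionary, surjectivity.**  A place whose valuation ring contains `S` and which is
positive on some nonzero element of `S` comes from a height one prime of `S`. -/
theorem exists_heightOneSpectrum_of_place (v : Place K F)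
    (hS : ∀ s : S, algebraMap S F s ∈ v.toValuationSubring)
    {s0 : S} (hs0 : s0 ≠ 0) (hpos : 0 < v.ord (algebraMap S F s0)) :
    ∃ w : HeightOneSpectrum S,
      Place.ofHeightOneSpectrum (K := K) w = v ∧ w.asIdeal = primeOfPlace v hS := by
  have hne : primeOfPlace v hS ≠ ⊥ := by
    intro h
    have : s0 ∈ primeOfPlace v hS := (mem_primeOfPlace v hS hs0).mpr hpos
    rw [h, Ideal.mem_bot] at this
    exact hs0 this
  refine ⟨⟨primeOfPlace v hS, inferInstance, hne⟩, ?_, rfl⟩
  set w : HeightOneSpectrum S := ⟨primeOfPlace v hS, inferInstance, hne⟩ with hw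
  apply Place.ext
  rw [Place.ofHeightOneSpectrum_toValuationSubring,
    ← HeightOneSpectrum.valuationSubringAtPrime_eq_valuationSubring]
  refine ValuationSubring.eq_of_le_of_ne_top _ ?_ v.ne_top'
  rintro x ⟨a, s, hs, rfl⟩
  have hsq : s ∉ primeOfPlace v hS := hs
  have hs0' : s ≠ 0 := by
    rintro rfl
    exact hsq (Ideal.zero_mem _)
  have hsF : algebraMap S F s ≠ 0 := (map_ne_zero_iff _ (IsFractionRing.injective S F)).mpr hs0'
  have h1 : ¬ 0 < v.ord (algebraMap S F s) := fun h => hsq ((mem_primeOfPlace v hS hs0').mpr h)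
  have h2 : 0 ≤ v.ord (algebraMap S F s) := (FF.mem_iff_ord_nonneg v).mp (hS s)
  have h3 : v.ord (algebraMap S F s) = 0 := by omega
  have h4 : (algebraMap S F s)⁻¹ ∈ v.toValuationSubring := by
    rw [FF.mem_iff_ord_nonneg, Place.ord_inv, h3]
    simp
  exact mul_mem (hS a) h4

end Dict

end Fermat.Agent.S24.H864

end
end
-- ===== PACK-END S24/H864/FF3b.lean

-- ===== PACK-BEGIN S24/H864/FF3c.lean
section


/-!
# S24 / ALG / FF1+FF3 (part c): the fundamental identity, abstract form

`R ⊆ S` Dedekind domains, `S` finite over `R`, `F = Frac S`, `p = (τ)` a maximal ideal of `R`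
with residue field `K` (algebraically closed).  Then the places `v` of `F/K` with `0 < v(τ)`
(assumed to contain `R` in their valuation ring) correspond to the primes of `S` over `p`, and
`∑_v v(τ) = rank_R S`.
-/

set_option autoImplicit false

noncomputable section

open AlgebraicCurve IsDedekindDomain

namespace Fermat.Agent.S24.H864

/-- universe-polymorphic version of `IsAlgClosed.of_ringEquiv` -/
theorem isAlgClosed_of_ringEquiv {k : Type*} {k' : Type*} [Field k] [Field k'] [IsAlgClosed k]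
    (e : k ≃+* k') : IsAlgClosed k' := by
  apply IsAlgClosed.of_exists_root
  intro p hmp hp
  have hpe : (p.map e.symm.toRingHom).degree ≠ 0 := by
    rw [Polynomial.degree_map]
    exact ne_of_gt (Polynomial.degree_pos_of_irreducible hp)
  rcases IsAlgClosed.exists_root (k := k) (p.map e.symm.toRingHom) hpe with ⟨x, hx⟩
  use e x
  rw [Polynomial.IsRoot] at hx
  apply e.symm.injective
  rw [map_zero, ← hx]
  clear hx hpe hp hmp
  induction p using Polynomial.induction_on <;> simp_all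

section Rel

variable {K F : Type*} [Field K] [Field F] [Algebra K F]
variable {S : Type*} [CommRing S] [IsDedekindDomain S] [Algebra S F] [IsFractionRing S F]
  [Algebra K S] [IsScalarTower K S F]
variable {R : Type*} [CommRing R] [IsDomain R] [Algebra R S] [Algebra R F] [IsScalarTower R S F]
  [Module.Finite R S]

omit [IsDedekindDomain S] [IsFractionRing S F] [Algebra K S] [IsScalarTower K S F] [IsDomain R] in
/-- valuation rings are integrally closed: `S ⊆ O_v` as soon as `R ⊆ O_v`. -/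
theorem algebraMap_mem_of_base (v : Place K F)
    (hR : ∀ r : R, algebraMap R F r ∈ v.toValuationSubring) (s : S) :
    algebraMap S F s ∈ v.toValuationSubring := by
  have hint : IsIntegral R s := Algebra.IsIntegral.isIntegral s
  obtain ⟨P, hP, hPs⟩ := hint
  set φ : R →+* v.toValuationSubring :=
    (algebraMap R F).codRestrict v.toValuationSubring.toSubring hR with hφ
  have hcomp : (algebraMap v.toValuationSubring F).comp φ = algebraMap R F := by
    ext r; rfl
  have h1 : IsIntegral v.toValuationSubring (algebraMap S F s) := by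
    refine ⟨P.map φ, hP.map φ, ?_⟩
    rw [Polynomial.eval₂_map, hcomp]
    have h2 := congrArg (algebraMap S F) hPs
    rw [map_zero, Polynomial.hom_eval₂, ← IsScalarTower.algebraMap_eq] at h2
    exact h2
  obtain ⟨y, hy⟩ := IsIntegrallyClosed.isIntegral_iff.mp h1
  rw [← hy]
  exact y.2

variable (p : Ideal R) [hpmax : p.IsMaximal] (τ : R)

omit [IsFractionRing S F] [Algebra K S] [IsScalarTower K S F] [Algebra R F] [IsScalarTower R S F]
  [Module.Finite R S] [IsDedekindDomain S] [IsDomain R] hpmax in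
theorem algebraMap_mem_of_primesOver (hp : p = Ideal.span {τ}) (q : p.primesOver S) :
    algebraMap R S τ ∈ q.1 := by
  have h1 : τ ∈ p := by rw [hp]; exact Ideal.mem_span_singleton_self τ
  have h2 := q.1.over_def p
  rw [h2] at h1
  exact h1

omit [IsFractionRing S F] [Algebra K S] [IsScalarTower K S F] [Algebra R F] [IsScalarTower R S F]
  [Module.Finite R S] [IsDedekindDomain S] [IsDomain R] hpmax in
theorem primesOver_ne_bot (hp : p = Ideal.span {τ}) (hτ : τ ≠ 0)
    (hinj : Function.Injective (algebraMap R S)) (q : p.primesOver S) : q.1 ≠ ⊥ := by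
  intro h
  have h1 := algebraMap_mem_of_primesOver p τ hp q
  rw [h, Ideal.mem_bot] at h1
  exact hτ (hinj (by rw [h1, map_zero]))

/-- the height one prime attached to a prime over `p` -/
def wOf (hp : p = Ideal.span {τ}) (hτ : τ ≠ 0)
    (hinj : Function.Injective (algebraMap R S)) (q : p.primesOver S) : HeightOneSpectrum S :=
  ⟨q.1, q.2.1, primesOver_ne_bot p τ hp hτ hinj q⟩

omit hpmax [Module.Finite R S] in
theorem ord_wOf (hp : p = Ideal.span {τ}) (hτ : τ ≠ 0)
    (hinj : Function.Injective (algebraMap R S)) (q : p.primesOver S) :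
    (Place.ofHeightOneSpectrum (K := K) (F := F) (wOf p τ hp hτ hinj q)).ord (algebraMap R F τ)
      = (q.1.ramificationIdx R : ℤ) := by
  have hτ' : algebraMap R S τ ≠ 0 := fun h => hτ (hinj (by rw [h, map_zero]))
  rw [IsScalarTower.algebraMap_apply R S F, ord_ofHeightOneSpectrum_algebraMap _ hτ']
  have hmap : p.map (algebraMap R S) = Ideal.span {algebraMap R S τ} := by
    rw [hp, Ideal.map_span, Set.image_singleton]
  have hne : p.map (algebraMap R S) ≠ ⊥ := by
    rw [hmap, Ne, Ideal.span_singleton_eq_bot]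
    exact hτ'
  rw [Ideal.IsDedekindDomain.ramificationIdx_eq_multiplicity p q.1 hne, hmap]
  rfl

section Inertia

variable [IsAlgClosed K] [Algebra K R] [IsScalarTower K R S]

omit [IsFractionRing S F] [Algebra K S] [IsScalarTower K S F] [Algebra R F] [IsScalarTower R S F]
  [IsDedekindDomain S] [IsDomain R] [Algebra K F] [IsScalarTower K R S] in
/-- residue field `K` algebraically closed ⟹ all inertia degrees are `1`. -/
theorem inertiaDeg_eq_one (hres : ∀ r : R, ∃ c : K, r - algebraMap K R c ∈ p)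
    (q : p.primesOver S) : q.1.inertiaDeg R = 1 := by
  haveI : q.1.IsMaximal := Ideal.primesOver.isMaximal q
  rw [Ideal.inertiaDeg_eq_of_isMaximal p q.1]
  letI : Field (R ⧸ p) := Ideal.Quotient.field p
  letI : Field (S ⧸ q.1) := Ideal.Quotient.field q.1
  -- `K ≃ R ⧸ p`
  let f : K →+* R ⧸ p := (Ideal.Quotient.mk p).comp (algebraMap K R)
  have hf : Function.Bijective f := by
    refine ⟨f.injective, fun y => ?_⟩
    obtain ⟨r, rfl⟩ := Ideal.Quotient.mk_surjective y
    obtain ⟨c, hc⟩ := hres r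
    refine ⟨c, ?_⟩
    show Ideal.Quotient.mk p (algebraMap K R c) = Ideal.Quotient.mk p r
    rw [eq_comm, Ideal.Quotient.eq]
    exact hc
  haveI : IsAlgClosed (R ⧸ p) := isAlgClosed_of_ringEquiv (RingEquiv.ofBijective f hf)
  haveI : Algebra.IsIntegral (R ⧸ p) (S ⧸ q.1) := inferInstance
  have hbij : Function.Bijective (algebraMap (R ⧸ p) (S ⧸ q.1)) :=
    IsAlgClosed.algebraMap_bijective_of_isIntegral
  have htop : (⊥ : Subalgebra (R ⧸ p) (S ⧸ q.1)) = ⊤ :=
    (Algebra.surjective_algebraMap_iff.mp hbij.2).symm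
  exact Subalgebra.bot_eq_top_iff_finrank_eq_one.mp htop

end Inertia

section Main

variable [IsAlgClosed K] [Algebra K R] [IsScalarTower K R S] [Module.Flat R S]

/-- **Fundamental identity, abstract form.** -/
theorem fundamental_identity_abstract
    (hp : p = Ideal.span {τ}) (hτ : τ ≠ 0) (hinj : Function.Injective (algebraMap R S))
    (hres : ∀ r : R, ∃ c : K, r - algebraMap K R c ∈ p)
    (hR : ∀ v : Place K F, 0 < v.ord (algebraMap R F τ) →
      ∀ r : R, algebraMap R F r ∈ v.toValuationSubring)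
    (s : Finset (Place K F)) (hs : ∀ v, v ∈ s ↔ 0 < v.ord (algebraMap R F τ)) :
    ∑ v ∈ s, v.ord (algebraMap R F τ) = (Module.finrank R S : ℤ) := by
  classical
  haveI : Fintype (p.primesOver S) := (Algebra.QuasiFinite.finite_primesOver p).fintype
  have hsum := Ideal.sum_ramification_inertia_eq_finrank p S
  have hτ' : algebraMap R S τ ≠ 0 := fun h => hτ (hinj (by rw [h, map_zero]))
  set g : p.primesOver S → Place K F :=
    fun q => Place.ofHeightOneSpectrum (K := K) (wOf p τ hp hτ hinj q) with hg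
  have hg_inj : Function.Injective g := by
    intro q q' h
    have h1 : wOf p τ hp hτ hinj q = wOf p τ hp hτ hinj q' :=
      ofHeightOneSpectrum_injective (K := K) (F := F) h
    exact Subtype.ext (congrArg HeightOneSpectrum.asIdeal h1)
  have hg_ord : ∀ q, (g q).ord (algebraMap R F τ) = (q.1.ramificationIdx R : ℤ) :=
    fun q => ord_wOf p τ hp hτ hinj q
  have himg : Finset.univ.image g = s := by
    ext v
    rw [Finset.mem_image, hs]
    constructor
    · rintro ⟨q, -, rfl⟩
      rw [hg_ord]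
      exact_mod_cast Ideal.ramificationIdx_pos q.1 R
    · intro hv
      have hS := algebraMap_mem_of_base (S := S) v (hR v hv)
      have hv' : 0 < v.ord (algebraMap S F (algebraMap R S τ)) := by
        rwa [← IsScalarTower.algebraMap_apply R S F]
      obtain ⟨w, hw, hwq⟩ := exists_heightOneSpectrum_of_place v hS hτ' hv'
      have hle : p ≤ w.asIdeal.under R := by
        rw [hp, Ideal.span_singleton_le_iff_mem, Ideal.under_def, Ideal.mem_comap, hwq]
        exact (mem_primeOfPlace v hS hτ').mpr hv'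
      have hne : w.asIdeal.under R ≠ ⊤ := (Ideal.IsPrime.under R w.asIdeal).ne_top
      have hq : w.asIdeal ∈ p.primesOver S := ⟨w.isPrime, ⟨hpmax.eq_of_le hne hle⟩⟩
      refine ⟨⟨w.asIdeal, hq⟩, Finset.mem_univ _, ?_⟩
      rw [← hw]
      show Place.ofHeightOneSpectrum (K := K) (wOf p τ hp hτ hinj ⟨w.asIdeal, hq⟩) = _
      congr 1
  rw [← himg, Finset.sum_image (fun a _ b _ h => hg_inj h)]
  simp_rw [hg_ord]
  rw [← hsum]
  push_cast
  refine Finset.sum_congr rfl fun q _ => ?_
  rw [inertiaDeg_eq_one p hres q, Nat.cast_one, mul_one]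

end Main

end Rel

end Fermat.Agent.S24.H864

end
end
-- ===== PACK-END S24/H864/FF3c.lean

-- ===== PACK-BEGIN S29/H751/PthRootUHP.lean
section


/-!
# Holomorphic `p`-th roots on `ℍ` and the character of a root (helper751, S29 / P5)

* `exists_pow_eq_UHP`: a holomorphic `F : ℍ → ℂ` all of whose orders of vanishing are finite and
  divisible by `p` is a `p`-th power of a holomorphic function.
* `eq_of_pow_eq_UHP`: two holomorphic functions on `ℍ` with the same `p`-th power which agree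
  at one point where they do not vanish are equal.
* `exists_character_of_pow_eq`: if `U ^ p` is weakly modular of weight `k * p` for a group `Γ`
  of matrices of positive determinant, then `U` is weakly modular of weight `k` with a character
  `χ : Γ →* ℂˣ`, `χ ^ p = 1`.
-/

set_option autoImplicit false

open Complex Set Metric Filter Topology UpperHalfPlane
open scoped Manifold MatrixGroups

namespace Fermat.Agent.S29.H751

/-- `F ∘ ofComplex` agrees with `u` on the upper half plane when `F τ = u τ`. -/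
theorem comp_ofComplex_eqOn (u : ℂ → ℂ) :
    EqOn ((fun τ : ℍ => u τ) ∘ ofComplex) u {z : ℂ | 0 < z.im} := by
  intro z hz
  simp only [Function.comp_apply, ofComplex_apply_of_im_pos hz]

/-- **Holomorphic `p`-th roots on `ℍ`.** -/
theorem exists_pow_eq_UHP {F : ℍ → ℂ} (hF : MDifferentiable 𝓘(ℂ) 𝓘(ℂ) F) (p : ℕ) (hp : p ≠ 0)
    (hord : ∀ τ : ℍ, ∃ m : ℕ, analyticOrderAt (F ∘ ofComplex) (τ : ℂ) = ((p * m : ℕ) : ℕ∞)) :
    ∃ U : ℍ → ℂ, MDifferentiable 𝓘(ℂ) 𝓘(ℂ) U ∧ ∀ τ : ℍ, U τ ^ p = F τ := by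
  obtain ⟨u, hu, hup⟩ := exists_pow_eq_on_upperHalfPlane (G := F ∘ ofComplex) p hp
    (UpperHalfPlane.mdifferentiable_iff.1 hF) (fun z hz => hord ⟨z, hz⟩)
  refine ⟨fun τ => u τ, ?_, fun τ => ?_⟩
  · rw [UpperHalfPlane.mdifferentiable_iff]
    exact hu.congr (comp_ofComplex_eqOn u)
  · have := hup τ τ.im_pos
    rw [this, comp_ofComplex]

/-- Uniqueness of normalised holomorphic `p`-th roots on `ℍ`. -/
theorem eq_of_pow_eq_UHP {A B : ℍ → ℂ} (hA : MDifferentiable 𝓘(ℂ) 𝓘(ℂ) A)
    (hB : MDifferentiable 𝓘(ℂ) 𝓘(ℂ) B) {p : ℕ} (hp : p ≠ 0)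
    (h : ∀ τ : ℍ, A τ ^ p = B τ ^ p) {τ₀ : ℍ} (h0 : A τ₀ = B τ₀) (hne : A τ₀ ≠ 0) : A = B := by
  have hHo : IsOpen {z : ℂ | 0 < z.im} := isOpen_lt continuous_const Complex.continuous_im
  have hHc : IsPreconnected {z : ℂ | 0 < z.im} :=
    (convex_halfSpace_im_gt 0).isPreconnected
  have key := eqOn_of_pow_eq_of_eq hHo hHc (UpperHalfPlane.mdifferentiable_iff.1 hA)
    (UpperHalfPlane.mdifferentiable_iff.1 hB) hp
    (fun z hz => by
      simp only [Function.comp_apply]
      exact h _)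
    (z₀ := (τ₀ : ℂ)) τ₀.im_pos
    (by simp only [Function.comp_apply, ofComplex_apply]; exact h0)
    (by simp only [Function.comp_apply, ofComplex_apply]; exact hne)
  funext τ
  have := key τ.im_pos
  simpa only [Function.comp_apply, ofComplex_apply] using this

/-- **The character of a `p`-th root.**  Let `Γ` be a group of real matrices of positive
determinant and `U` a holomorphic function on `ℍ`, not identically zero, such that `U ^ p`
is weakly modular of weight `k * p` for `Γ`.  Then `U` is weakly modular of weight `k` up to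
a character `χ` of `Γ` with `χ ^ p = 1`. -/
theorem exists_character_of_pow_eq (Γ : Subgroup (GL (Fin 2) ℝ))
    (hdet : ∀ γ ∈ Γ, 0 < (γ.det : ℝ)) (k : ℤ) {p : ℕ} (hp : p ≠ 0) {U : ℍ → ℂ}
    (hU : MDifferentiable 𝓘(ℂ) 𝓘(ℂ) U) (hne : ∃ τ, U τ ≠ 0)
    (hpow : ∀ γ ∈ Γ, ∀ τ : ℍ, U (γ • τ) ^ p = (denom γ τ ^ k * U τ) ^ p) :
    ∃ χ : Γ →* ℂˣ, (∀ γ, χ γ ^ p = 1) ∧
      ∀ (γ : Γ) (τ : ℍ), U ((γ : GL (Fin 2) ℝ) • τ) = χ γ * denom γ τ ^ k * U τ := by
  classical
  obtain ⟨τ₁, hτ₁⟩ := hne
  -- for each `γ`, the constant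
  have key : ∀ γ : Γ, ∃ ζ : ℂˣ, ζ ^ p = 1 ∧
      ∀ τ : ℍ, U ((γ : GL (Fin 2) ℝ) • τ) = ζ * denom γ τ ^ k * U τ := by
    intro γ
    have hB1 : denom (γ : GL (Fin 2) ℝ) τ₁ ^ k * U τ₁ ≠ 0 :=
      mul_ne_zero (zpow_ne_zero _ (denom_ne_zero _ _)) hτ₁
    have hA1 : U ((γ : GL (Fin 2) ℝ) • τ₁) ≠ 0 := by
      intro h0
      have := hpow γ γ.2 τ₁
      rw [h0, zero_pow hp] at this
      exact pow_ne_zero p hB1 this.symm
    set z : ℂ := U ((γ : GL (Fin 2) ℝ) • τ₁) / (denom (γ : GL (Fin 2) ℝ) τ₁ ^ k * U τ₁) with hz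
    have hz0 : z ≠ 0 := div_ne_zero hA1 hB1
    have hzp : z ^ p = 1 := by
      rw [hz, div_pow, hpow γ γ.2 τ₁, div_self (pow_ne_zero p hB1)]
    refine ⟨Units.mk0 z hz0, ?_, ?_⟩
    · ext
      simp [hzp]
    · intro τ
      have hAd : MDifferentiable 𝓘(ℂ) 𝓘(ℂ) (fun τ : ℍ => U ((γ : GL (Fin 2) ℝ) • τ)) :=
        hU.comp (UpperHalfPlane.mdifferentiable_smul (hdet γ γ.2))
      have hBd : MDifferentiable 𝓘(ℂ) 𝓘(ℂ)
          (fun τ : ℍ => z * denom (γ : GL (Fin 2) ℝ) τ ^ k * U τ) := by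
        have h1 : MDifferentiable 𝓘(ℂ) 𝓘(ℂ)
            (fun τ : ℍ => denom (γ : GL (Fin 2) ℝ) τ ^ k) := mdifferentiable_denom_zpow _ k
        have h2 : MDifferentiable 𝓘(ℂ) 𝓘(ℂ)
            (fun τ : ℍ => z * denom (γ : GL (Fin 2) ℝ) τ ^ k) :=
          (mdifferentiable_const (c := z)).mul h1
        exact h2.mul hU
      have := eq_of_pow_eq_UHP hAd hBd hp (fun τ => by
        rw [hpow γ γ.2 τ, mul_assoc, mul_pow z, hzp, one_mul]) (τ₀ := τ₁)
        (by
          simp only [hz]
          field_simp) hA1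
      simpa using congrFun this τ
  choose χ hχp hχ using key
  have hmul : ∀ γ δ : Γ, χ (γ * δ) = χ γ * χ δ := by
    intro γ δ
    have h1 := hχ (γ * δ) τ₁
    have h2 := hχ γ ((δ : GL (Fin 2) ℝ) • τ₁)
    have h3 := hχ δ τ₁
    have hco : denom ((γ : GL (Fin 2) ℝ) * δ) τ₁ =
        denom (γ : GL (Fin 2) ℝ) (((δ : GL (Fin 2) ℝ) • τ₁ : ℍ) : ℂ) *
          denom (δ : GL (Fin 2) ℝ) τ₁ := by
      rw [denom_cocycle _ _ τ₁.im_ne_zero, coe_smul_of_det_pos (hdet δ δ.2)]
    have hsm : ((γ * δ : Γ) : GL (Fin 2) ℝ) • τ₁ =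
        (γ : GL (Fin 2) ℝ) • ((δ : GL (Fin 2) ℝ) • τ₁) := by
      rw [Subgroup.coe_mul, mul_smul]
    rw [hsm, h2, h3, Subgroup.coe_mul, hco, mul_zpow] at h1
    have hd1 := zpow_ne_zero k (denom_ne_zero (γ : GL (Fin 2) ℝ) ((δ : GL (Fin 2) ℝ) • τ₁))
    have hd2 := zpow_ne_zero k (denom_ne_zero (δ : GL (Fin 2) ℝ) τ₁)
    have h4 : ((χ (γ * δ) : ℂˣ) : ℂ) = (χ γ : ℂ) * (χ δ : ℂ) := by
      have h5 : (χ γ : ℂ) * (χ δ : ℂ) *
          (denom (γ : GL (Fin 2) ℝ) (((δ : GL (Fin 2) ℝ) • τ₁ : ℍ) : ℂ) ^ k *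
            denom (δ : GL (Fin 2) ℝ) τ₁ ^ k * U τ₁) =
          (χ (γ * δ) : ℂ) *
          (denom (γ : GL (Fin 2) ℝ) (((δ : GL (Fin 2) ℝ) • τ₁ : ℍ) : ℂ) ^ k *
            denom (δ : GL (Fin 2) ℝ) τ₁ ^ k * U τ₁) := by
        linear_combination h1
      exact (mul_right_cancel₀ (mul_ne_zero (mul_ne_zero hd1 hd2) hτ₁) h5).symm
    exact Units.ext (by simpa using h4)
  exact ⟨MonoidHom.mk' χ hmul, fun γ => hχp γ, fun γ τ => hχ γ τ⟩

end Fermat.Agent.S29.H751

end
-- ===== PACK-END S29/H751/PthRootUHP.lean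

-- ===== PACK-BEGIN S21/Basic2.lean
section



/-!
# S21 — basic lemmas (continued): the cusp strip, weight-2 invariance of `dz u`
-/

set_option autoImplicit false

open UpperHalfPlane Filter Topology MeasureTheory
open scoped MatrixGroups ContDiff

namespace Fermat.Agent.S21

theorem strip_subset_Uhp (Y : ℝ) : strip Y ⊆ Uhp := fun z hz => by
  have := hz.2.1
  show 0 < z.im
  linarith

theorem isCompact_strip (Y : ℝ) : IsCompact (strip Y) := by
  have h : strip Y = Complex.equivRealProdCLM.symm '' (Set.Icc (-1 : ℝ) 1 ×ˢ Set.Icc (2 : ℝ) Y) := by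
    ext z
    simp only [strip, Set.mem_ofPred_eq, Set.mem_image, Set.mem_prod, Set.mem_Icc, Prod.exists]
    constructor
    · rintro ⟨h1, h2, h3⟩
      refine ⟨z.re, z.im, ⟨abs_le.mp h1, h2, h3⟩, ?_⟩
      apply Complex.ext <;> simp
    · rintro ⟨a, b, ⟨h1, h2, h3⟩, rfl⟩
      simp only [Complex.equivRealProdCLM_symm_apply_re, Complex.equivRealProdCLM_symm_apply_im]
      exact ⟨abs_le.mpr h1, h2, h3⟩
  rw [h]
  exact (isCompact_Icc.prod isCompact_Icc).image Complex.equivRealProdCLM.symm.continuous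

/-- weight-2 invariance of `dz u` for `u` with a period along `γ`. -/
theorem asm_dz_inv {u : ℂ → ℝ} (hu : ContDiffOn ℝ 1 u Uhp) (c : ℝ) (γ : SL(2, ℤ))
    (hper : ∀ z : ℍ, u ↑(γ • z) = u ↑z + c) {z : ℂ} (hz : z ∈ Uhp) :
    dz u (mob γ z) = (cd γ z) ^ 2 * dz u z := by
  have h1 : (fun w => u (mob γ w)) =ᶠ[𝓝 z] fun w => u w + c := by
    filter_upwards [isOpen_Uhp.mem_nhds hz] with w hw
    have := hper ⟨w, hw⟩
    rw [← mob_coe] at this
    exact this
  have h2 := dz_congr h1
  rw [dz_add_const] at h2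
  have hd : DifferentiableAt ℝ u (mob γ z) :=
    (hu.differentiableOn one_ne_zero).differentiableAt (isOpen_Uhp.mem_nhds (mob_mem_Uhp γ z))
  rw [dz_comp_mob u γ z hz hd] at h2
  have hne := cd_ne_zero γ hz
  rw [← h2]
  field_simp


end Fermat.Agent.S21

end
-- ===== PACK-END S21/Basic2.lean

-- ===== PACK-BEGIN S23/Cap/AutC.lean
section


/-!
# S23 / Cap : enough ring endomorphisms of `ℂ` (adapter around helper683's `FixedField.lean`).
-/

set_option autoImplicit false

namespace Fermat.Agent.S23.Cap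

/-- For `x ∈ ℂ \ ℚ` there is a ring endomorphism of `ℂ` moving `x`. -/
theorem exists_ringHom_ne (x : ℂ) (hx : x ∉ Set.range (algebraMap ℚ ℂ)) :
    ∃ σ : ℂ →+* ℂ, σ x ≠ x := by
  obtain ⟨σ, hσ⟩ := Fermat.Agent.S23.exists_ringEquiv_ne x hx
  exact ⟨σ.toRingHom, hσ⟩

end Fermat.Agent.S23.Cap

end
-- ===== PACK-END S23/Cap/AutC.lean

-- ===== PACK-BEGIN S23/H683/Descent.lean
section



set_option autoImplicit false
set_option linter.style.haveILetI false

/-!
# Galois descent for a finite-dimensional space of "q-expansions"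

`V` is a finite dimensional complex vector space with a jointly injective family of linear
functionals `a n` ("q-expansion coefficients").  If for every automorphism `σ` of `ℂ` and every
`f : V` there is a `g : V` with `a n g = σ (a n f)`, then `V` is spanned by the elements all of
whose coefficients are rational.
-/

namespace Fermat.Agent.S23.H683

open Module

theorem descent_span_dual_eq_top {V : Type*} [AddCommGroup V] [Module ℂ V] [FiniteDimensional ℂ V]
    (a : ℕ → V →ₗ[ℂ] ℂ) (hinj : ∀ f, (∀ n, a n f = 0) → f = 0) :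
    Submodule.span ℂ (Set.range a) = (⊤ : Submodule ℂ (Module.Dual ℂ V)) := by
  have h1 : (Submodule.span ℂ (Set.range a) : Submodule ℂ (Module.Dual ℂ V)).dualCoannihilator
      = ⊥ := by
    rw [eq_bot_iff]
    intro f hf
    rw [Submodule.mem_dualCoannihilator] at hf
    rw [Submodule.mem_bot]
    exact hinj f fun n => hf (a n) (Submodule.subset_span ⟨n, rfl⟩)
  have h2 := Subspace.dualCoannihilator_dualAnnihilator_eq
    (W := (Submodule.span ℂ (Set.range a) : Subspace ℂ (Module.Dual ℂ V)))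
  rw [h1] at h2
  rw [← h2]
  simp

theorem descent {V : Type*} [AddCommGroup V] [Module ℂ V] [FiniteDimensional ℂ V]
    (a : ℕ → V →ₗ[ℂ] ℂ) (hinj : ∀ f, (∀ n, a n f = 0) → f = 0)
    (hσ : ∀ (σ : ℂ ≃+* ℂ) (f : V), ∃ g : V, ∀ n, a n g = σ (a n f)) :
    Submodule.span ℂ {f : V | ∀ n, ∃ r : ℚ, a n f = (r : ℂ)} = ⊤ := by
  classical
  have hS := descent_span_dual_eq_top a hinj
  obtain ⟨b, hbS, hbspan, hbli⟩ := exists_linearIndependent ℂ (Set.range a)
  let B : Basis b ℂ (Module.Dual ℂ V) :=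
    Basis.mk hbli (by rw [Subtype.range_coe, hbspan, hS])
  haveI : Finite b := Module.Finite.finite_basis B
  haveI : Fintype b := Fintype.ofFinite b
  have hBi : ∀ i : b, B i = (i : Module.Dual ℂ V) := fun i => by simp [B]
  let F : Basis b ℂ V := B.dualBasis.map (Module.evalEquiv ℂ V).symm
  have hBF : ∀ i j : b, (B i) (F j) = if j = i then 1 else 0 := by
    intro i j
    have h1 : Module.evalEquiv ℂ V (F j) = B.dualBasis j := by
      simp [F]
    have h2 : (B i) (F j) = Module.evalEquiv ℂ V (F j) (B i) := by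
      simp
    rw [h2, h1, Basis.dualBasis_apply_self]
    by_cases h : i = j
    · simp [h]
    · simp [h, Ne.symm h]
  have hsep : ∀ g g' : V, (∀ i : b, B i g = B i g') → g = g' := by
    intro g g' h
    apply (Module.evalEquiv ℂ V).injective
    apply B.ext
    intro i
    simpa using h i
  have hn : ∀ i : b, ∃ n : ℕ, a n = B i := fun i => by
    rw [hBi]
    exact hbS i.2
  choose n hn using hn
  have hmem : ∀ j : b, F j ∈ {f : V | ∀ n, ∃ r : ℚ, a n f = (r : ℂ)} := by
    intro j m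
    have hfix : ∀ σ : ℂ ≃+* ℂ, σ (a m (F j)) = a m (F j) := by
      intro σ
      obtain ⟨g, hg⟩ := hσ σ (F j)
      have hgF : g = F j := by
        apply hsep
        intro i
        rw [← hn i, hg, hn i, hBF]
        split_ifs <;> simp
      rw [← hg m, hgF]
    obtain ⟨r, hr⟩ := Fermat.Agent.S23.mem_range_ratCast_of_forall_ringEquiv _ hfix
    exact ⟨r, hr.symm⟩
  rw [eq_top_iff, ← F.span_eq]
  apply Submodule.span_mono
  rintro _ ⟨j, rfl⟩
  exact hmem j

end Fermat.Agent.S23.H683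

end
-- ===== PACK-END S23/H683/Descent.lean

-- ===== PACK-BEGIN S23/Cap/Descent.lean
section



/-!
# S23 / WP6 : Galois descent for subspaces of `ℂ⟦q⟧`.

Adapter around the abstract dual-basis descent lemma `Fermat.Agent.S23.H683.descent`.
-/

set_option autoImplicit false

namespace Fermat.Agent.S23.Cap

/-- the truncation map `W → ℂ^{B+1}` -/
noncomputable def descentTrunc (W : Submodule ℂ (PowerSeries ℂ)) (B : ℕ) :
    W →ₗ[ℂ] (Fin (B + 1) → ℂ) :=
  LinearMap.pi fun i => (PowerSeries.coeff (R := ℂ) (i : ℕ)).comp W.subtype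

theorem descentTrunc_injective (W : Submodule ℂ (PowerSeries ℂ)) (B : ℕ)
    (hB : ∀ F ∈ W, (∀ n ≤ B, PowerSeries.coeff n F = 0) → F = 0) :
    Function.Injective (descentTrunc W B) := by
  rw [← LinearMap.ker_eq_bot, LinearMap.ker_eq_bot']
  intro F hF
  apply Subtype.ext
  apply hB F.1 F.2
  intro n hn
  have := congrFun hF ⟨n, Nat.lt_succ_of_le hn⟩
  simpa [descentTrunc] using this

/-- **WP6 main statement.** -/
theorem descent (W : Submodule ℂ (PowerSeries ℂ)) (B : ℕ)
    (hB : ∀ F ∈ W, (∀ n ≤ B, PowerSeries.coeff n F = 0) → F = 0)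
    (hσ : ∀ σ : ℂ →+* ℂ, ∀ F ∈ W, F.map σ ∈ W) :
    W ≤ Submodule.span ℂ
      {F | F ∈ W ∧ ∀ n : ℕ, ∃ r : ℚ, PowerSeries.coeff n F = (r : ℂ)} := by
  haveI : FiniteDimensional ℂ W :=
    FiniteDimensional.of_injective (descentTrunc W B) (descentTrunc_injective W B hB)
  let a : ℕ → W →ₗ[ℂ] ℂ := fun n => (PowerSeries.coeff (R := ℂ) n).comp W.subtype
  have hinj : ∀ f : W, (∀ n, a n f = 0) → f = 0 := by
    intro f hf
    apply Subtype.ext
    apply PowerSeries.ext
    intro n
    simpa [a] using hf n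
  have htr : ∀ (σ : ℂ ≃+* ℂ) (f : W), ∃ g : W, ∀ n, a n g = σ (a n f) := by
    intro σ f
    refine ⟨⟨(f : PowerSeries ℂ).map σ.toRingHom, hσ σ.toRingHom f.1 f.2⟩, fun n => ?_⟩
    simp [a]
  have key := Fermat.Agent.S23.H683.descent a hinj htr
  intro F hF
  have hmem : (⟨F, hF⟩ : W) ∈ Submodule.span ℂ {f : W | ∀ n, ∃ r : ℚ, a n f = (r : ℂ)} := by
    rw [key]; trivial
  have h2 := Submodule.mem_map_of_mem (f := W.subtype) hmem
  rw [Submodule.map_span] at h2
  refine Submodule.span_mono ?_ h2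
  rintro _ ⟨f, hf, rfl⟩
  exact ⟨f.2, fun n => by simpa [a] using hf n⟩

end Fermat.Agent.S23.Cap

end
-- ===== PACK-END S23/Cap/Descent.lean

-- ===== PACK-BEGIN S49/FormalEigenform.lean
section




set_option autoImplicit false

namespace Fermat.Agent.S49

open CongruenceSubgroup

/-- If the `q`-coefficients of a weight-2 cusp form on `Γ₀(N)` satisfy the formal Hecke relations
with `e ℓ = ℓ` for `ℓ ∤ N` and `e ℓ = 0` for `ℓ ∣ N`, the form is a normalised eigenform in the
sense of the prelude. -/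
theorem isNormalizedEigenform_of_isEigensystem {N : ℕ} (f : CuspForm (Gamma0 N) 2)
    (h : FormalHecke.IsEigensystem (fun ℓ : ℕ => if ℓ ∣ N then (0 : ℂ) else (ℓ : ℂ))
      (fun n => ModularFormClass.qCoeff f n)) :
    f.IsNormalizedEigenform := by
  obtain ⟨h1, hmul, hpow⟩ := isRecursive_of_isEigensystem h
  refine ⟨h1, hmul, ?_, ?_⟩
  · intro p r hp hpN
    have := hpow p r hp
    simpa [if_neg hpN] using this
  · intro p r hp hpN
    have := hpow p r hp
    simpa [if_pos hpN] using this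

end Fermat.Agent.S49

end
-- ===== PACK-END S49/FormalEigenform.lean

-- ===== PACK-BEGIN S49/Normalize.lean
section



set_option autoImplicit false
open CuspForm CongruenceSubgroup ModularFormClass

namespace Fermat.Agent.S49

variable {N : ℕ}

/-- If the coefficients `b` satisfy eigen-relations with eigenvalues `lam` and `b 0 = b 1 = 0`,
then all coefficients vanish. -/
theorem formal_eq_zero_of_one_eq_zero {e lam b : ℕ → ℂ}
    (hrel : ∀ ℓ : ℕ, ℓ.Prime → ∀ n : ℕ,
      b (n * ℓ) + e ℓ * (if ℓ ∣ n then b (n / ℓ) else 0) = lam ℓ * b n)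
    (h0 : b 0 = 0) (h1 : b 1 = 0) : ∀ n, b n = 0 := by
  intro n
  induction n using Nat.strong_induction_on with
  | _ n ih =>
    rcases Nat.lt_or_ge n 2 with hn | hn
    · interval_cases n
      · exact h0
      · exact h1
    · have hn1 : n ≠ 1 := by omega
      have hℓ : (n.minFac).Prime := Nat.minFac_prime hn1
      obtain ⟨m, hm⟩ := Nat.minFac_dvd n
      have hmpos : 0 < m := by
        rcases Nat.eq_zero_or_pos m with h | h
        · subst h; omega
        · exact h
      have hmlt : m < n := by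
        have := hℓ.one_lt
        nlinarith
      have hrel' := hrel n.minFac hℓ m
      have hnm : m * n.minFac = n := by rw [mul_comm]; exact hm.symm
      rw [hnm, ih m hmlt, mul_zero] at hrel'
      by_cases hd : n.minFac ∣ m
      · rw [if_pos hd] at hrel'
        have hlt : m / n.minFac < n := lt_of_le_of_lt (Nat.div_le_self _ _) hmlt
        rw [ih _ hlt, mul_zero, add_zero] at hrel'
        exact hrel'
      · rw [if_neg hd, mul_zero, add_zero] at hrel'
        exact hrel'

/-- (E4) A simultaneous eigenvector of the Hecke algebra can be normalised to a normalised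
eigenform whose prime coefficients are the eigenvalues. -/
theorem exists_normalized_eigenform [NeZero N] (g : CuspForm (Gamma0 N) 2) (hg : g ≠ 0)
    (χ : heckeAlgebra N 2 (∅ : Set ℕ) →+* ℂ)
    (hχ : ∀ t : heckeAlgebra N 2 (∅ : Set ℕ),
      (t : Module.End ℂ (CuspForm (Gamma0 N) 2)) g = χ t • g) :
    ∃ f : CuspForm (Gamma0 N) 2, f.IsNormalizedEigenform ∧
      ∀ (ℓ : ℕ) (hℓ : ℓ.Prime) (hℓN : ¬ ℓ ∣ N),
        ModularFormClass.qCoeff f ℓ = χ (heckeAlgebra.T hℓ hℓN (Set.notMem_empty _)) := by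
  classical
  -- eigenvalues
  let lam : ℕ → ℂ := fun ℓ =>
    if hℓ : ℓ.Prime then
      if hℓN : ℓ ∣ N then χ (heckeAlgebra.U hℓ hℓN (Set.notMem_empty _))
      else χ (heckeAlgebra.T hℓ hℓN (Set.notMem_empty _))
    else 0
  let e : ℕ → ℂ := fun ℓ => if ℓ ∣ N then (0 : ℂ) else (ℓ : ℂ)
  have hrel : ∀ ℓ : ℕ, ℓ.Prime → ∀ n : ℕ,
      qCoeff ⇑g (n * ℓ) + e ℓ * (if ℓ ∣ n then qCoeff ⇑g (n / ℓ) else 0)
        = lam ℓ * qCoeff ⇑g n := by
    intro ℓ hℓ n
    by_cases hℓN : ℓ ∣ N
    · have h1 := hχ (heckeAlgebra.U hℓ hℓN (Set.notMem_empty _))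
      rw [heckeAlgebra.coe_U] at h1
      have h2 := congrArg (fun F : CuspForm (Gamma0 N) 2 => qCoeff ⇑F n) h1
      simp only [glue_qCoeff_heckeULin hℓ hℓN, glue_qCoeff_smul] at h2
      simp only [e, lam, dif_pos hℓ, dif_pos hℓN, if_pos hℓN, zero_mul, add_zero]
      exact h2
    · have h1 := hχ (heckeAlgebra.T hℓ hℓN (Set.notMem_empty _))
      rw [heckeAlgebra.coe_T] at h1
      have h2 := congrArg (fun F : CuspForm (Gamma0 N) 2 => qCoeff ⇑F n) h1
      simp only [glue_qCoeff_heckeTLin hℓ hℓN, glue_qCoeff_smul] at h2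
      simp only [e, lam, dif_pos hℓ, dif_neg hℓN, if_neg hℓN]
      rw [← h2]
      split_ifs <;> ring
  -- the first coefficient is nonzero
  have hb1 : qCoeff ⇑g 1 ≠ 0 := by
    intro h1
    exact hg (glue_eq_zero_of_qCoeff g
      (formal_eq_zero_of_one_eq_zero hrel (glue_qCoeff_zero_idx g) h1))
  -- normalise
  refine ⟨(qCoeff ⇑g 1)⁻¹ • g, ?_, ?_⟩
  · apply isNormalizedEigenform_of_isEigensystem
    refine ⟨?_, ?_⟩
    · simp only [glue_qCoeff_smul]
      exact inv_mul_cancel₀ hb1
    · intro ℓ hℓ n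
      have hℓ1 := hrel ℓ hℓ 1
      have hnd : ¬ ℓ ∣ 1 := fun h => hℓ.one_lt.ne' (Nat.dvd_one.mp h)
      rw [if_neg hnd, mul_zero, add_zero, one_mul] at hℓ1
      have hn := hrel ℓ hℓ n
      simp only [glue_qCoeff_smul]
      rw [mul_comm ℓ n]
      have key : (qCoeff ⇑g 1)⁻¹ * qCoeff ⇑g ℓ = lam ℓ := by
        rw [hℓ1]
        field_simp
      calc (qCoeff ⇑g 1)⁻¹ * qCoeff ⇑g (n * ℓ)
            + (if ℓ ∣ N then (0 : ℂ) else (ℓ : ℂ)) *
              (if ℓ ∣ n then (qCoeff ⇑g 1)⁻¹ * qCoeff ⇑g (n / ℓ) else 0)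
          = (qCoeff ⇑g 1)⁻¹ * (qCoeff ⇑g (n * ℓ)
              + e ℓ * (if ℓ ∣ n then qCoeff ⇑g (n / ℓ) else 0)) := by
            simp only [e]
            split_ifs <;> ring
        _ = (qCoeff ⇑g 1)⁻¹ * (lam ℓ * qCoeff ⇑g n) := by rw [hn]
        _ = (qCoeff ⇑g 1)⁻¹ * qCoeff ⇑g ℓ * ((qCoeff ⇑g 1)⁻¹ * qCoeff ⇑g n) := by
            rw [key]; ring
  · intro ℓ hℓ hℓN
    have hℓ1 := hrel ℓ hℓ 1
    have hnd : ¬ ℓ ∣ 1 := fun h => hℓ.one_lt.ne' (Nat.dvd_one.mp h)
    rw [if_neg hnd, mul_zero, add_zero, one_mul] at hℓ1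
    rw [glue_qCoeff_smul, hℓ1]
    simp only [lam, dif_pos hℓ, dif_neg hℓN]
    field_simp

end Fermat.Agent.S49

end
-- ===== PACK-END S49/Normalize.lean

-- ===== PACK-BEGIN S20/Comb694/Fixed.lean
section


/-!
# Fixed points of `S` and `S * T` on `SL(2,ℤ) ⧸ Gamma0 N`

* `card_fixedBy_S : Nat.card (MulAction.fixedBy (SL(2,ℤ) ⧸ Gamma0 N) S) = nuTwo N`
* `card_fixedBy_ST : Nat.card (MulAction.fixedBy (SL(2,ℤ) ⧸ Gamma0 N) (S * T)) = nuThree N`
-/

set_option autoImplicit false

namespace Fermat.Agent.S20.Comb694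

open Matrix MatrixGroups CongruenceSubgroup

variable (N : ℕ)

/-- From a root of `x² + 1` in `ZMod N` to a fixed point of `S`. -/
noncomputable def rootToFixedS (x : {x : ZMod N // x ^ 2 + 1 = 0}) :
    MulAction.fixedBy (SL(2, ℤ) ⧸ Gamma0 N) ModularGroup.S :=
  ⟨QuotientGroup.mk (colRep (ZMod.cast x.1 : ℤ)), by
    rw [MulAction.mem_fixedBy, S_smul_mk_eq_mk_iff]
    simp only [colRep_apply_zero_zero, colRep_apply_one_zero, ZMod.intCast_zmod_cast,
      Int.cast_one, one_pow]
    exact x.2⟩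

lemma rootToFixedS_bijective : Function.Bijective (rootToFixedS N) := by
  constructor
  · rintro ⟨x, hx⟩ ⟨y, hy⟩ h
    have h' := congrArg Subtype.val h
    simp only [rootToFixedS] at h'
    rw [mk_eq_mk_iff] at h'
    simp only [colRep_apply_zero_zero, colRep_apply_one_zero, ZMod.intCast_zmod_cast,
      Int.cast_one, mul_one, one_mul] at h'
    exact Subtype.ext (sub_eq_zero.mp h')
  · rintro ⟨q, hq⟩
    obtain ⟨g, rfl⟩ := QuotientGroup.mk_surjective q
    rw [MulAction.mem_fixedBy, S_smul_mk_eq_mk_iff] at hq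
    have hinv := c_mul_inv_eq_one N g (-((g 1 0 : ℤ) : ZMod N)) (by linear_combination hq)
    set a : ZMod N := ((g 0 0 : ℤ) : ZMod N) with ha
    set c : ZMod N := ((g 1 0 : ℤ) : ZMod N) with hc
    set i : ZMod N := (-c * ((g 1 1 : ℤ) : ZMod N) ^ 2
        - 2 * a * ((g 0 1 : ℤ) : ZMod N) * ((g 1 1 : ℤ) : ZMod N)
        + ((g 0 1 : ℤ) : ZMod N) ^ 2 * c) with hi
    refine ⟨⟨a * i, ?_⟩, ?_⟩
    · linear_combination (i ^ 2) * hq - (c * i + 1) * hinv
    · apply Subtype.ext
      simp only [rootToFixedS]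
      rw [mk_eq_mk_iff]
      simp only [colRep_apply_zero_zero, colRep_apply_one_zero, ZMod.intCast_zmod_cast,
        Int.cast_one, one_mul]
      linear_combination a * hinv

/-- **(I2)** The number of fixed points of `S` on `SL(2,ℤ) ⧸ Γ₀(N)` is `ν₂(N)`. -/
theorem card_fixedBy_S :
    Nat.card (MulAction.fixedBy (SL(2, ℤ) ⧸ Gamma0 N) ModularGroup.S) = ModularCurve.nuTwo N := by
  rw [ModularCurve.nuTwo]
  exact (Nat.card_eq_of_bijective _ (rootToFixedS_bijective N)).symm

/-- From a root of `x² + x + 1` in `ZMod N` to a fixed point of `S * T`. -/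
noncomputable def rootToFixedST (x : {x : ZMod N // x ^ 2 + x + 1 = 0}) :
    MulAction.fixedBy (SL(2, ℤ) ⧸ Gamma0 N) (ModularGroup.S * ModularGroup.T) :=
  ⟨QuotientGroup.mk (colRep (ZMod.cast x.1 : ℤ)), by
    rw [MulAction.mem_fixedBy, ST_smul_mk_eq_mk_iff]
    simp only [colRep_apply_zero_zero, colRep_apply_one_zero, ZMod.intCast_zmod_cast,
      Int.cast_one, one_pow, mul_one]
    exact x.2⟩

lemma rootToFixedST_bijective : Function.Bijective (rootToFixedST N) := by
  constructor
  · rintro ⟨x, hx⟩ ⟨y, hy⟩ h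
    have h' := congrArg Subtype.val h
    simp only [rootToFixedST] at h'
    rw [mk_eq_mk_iff] at h'
    simp only [colRep_apply_zero_zero, colRep_apply_one_zero, ZMod.intCast_zmod_cast,
      Int.cast_one, mul_one, one_mul] at h'
    exact Subtype.ext (sub_eq_zero.mp h')
  · rintro ⟨q, hq⟩
    obtain ⟨g, rfl⟩ := QuotientGroup.mk_surjective q
    rw [MulAction.mem_fixedBy, ST_smul_mk_eq_mk_iff] at hq
    have hinv := c_mul_inv_eq_one N g (-((g 0 0 : ℤ) : ZMod N) - ((g 1 0 : ℤ) : ZMod N))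
      (by linear_combination hq)
    set a : ZMod N := ((g 0 0 : ℤ) : ZMod N) with ha
    set c : ZMod N := ((g 1 0 : ℤ) : ZMod N) with hc
    set i : ZMod N := ((-a - c) * ((g 1 1 : ℤ) : ZMod N) ^ 2
        - 2 * a * ((g 0 1 : ℤ) : ZMod N) * ((g 1 1 : ℤ) : ZMod N)
        + ((g 0 1 : ℤ) : ZMod N) ^ 2 * c) with hi
    refine ⟨⟨a * i, ?_⟩, ?_⟩
    · linear_combination (i ^ 2) * hq - (c * i + 1 + a * i) * hinv
    · apply Subtype.ext
      simp only [rootToFixedST]
      rw [mk_eq_mk_iff]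
      simp only [colRep_apply_zero_zero, colRep_apply_one_zero, ZMod.intCast_zmod_cast,
        Int.cast_one, one_mul]
      linear_combination a * hinv

/-- **(I3)** The number of fixed points of `S * T` on `SL(2,ℤ) ⧸ Γ₀(N)` is `ν₃(N)`. -/
theorem card_fixedBy_ST :
    Nat.card (MulAction.fixedBy (SL(2, ℤ) ⧸ Gamma0 N) (ModularGroup.S * ModularGroup.T))
      = ModularCurve.nuThree N := by
  rw [ModularCurve.nuThree]
  exact (Nat.card_eq_of_bijective _ (rootToFixedST_bijective N)).symm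

end Fermat.Agent.S20.Comb694

end
-- ===== PACK-END S20/Comb694/Fixed.lean

-- ===== PACK-BEGIN S20/Comb694/RelIndex.lean
section





/-!
# Relative index of `Gamma0 (p * M)` in `Gamma0 M`

`(Gamma0 (p * M)).relIndex (Gamma0 M) = p` if `p ∣ M`, and `p + 1` otherwise (`p` prime, `M ≠ 0`).
-/

set_option autoImplicit false

namespace Fermat.Agent.S20.Comb694

open Matrix MatrixGroups CongruenceSubgroup

lemma mem_Gamma0_iff_dvd (N : ℕ) (g : SL(2, ℤ)) : g ∈ Gamma0 N ↔ (N : ℤ) ∣ g 1 0 := by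
  rw [Gamma0_mem]
  exact ZMod.intCast_zmod_eq_zero_iff_dvd _ _

lemma Gamma0_mul_le (p M : ℕ) : Gamma0 (p * M) ≤ Gamma0 M := by
  intro g hg
  rw [mem_Gamma0_iff_dvd] at hg ⊢
  refine dvd_trans ?_ hg
  push_cast
  exact dvd_mul_left _ _

/-- The matrix `[[1, 0], [c, 1]]` in `SL(2,ℤ)`. -/
def lowRep (c : ℤ) : SL(2, ℤ) := ⟨!![1, 0; c, 1], by simp [Matrix.det_fin_two]⟩

@[simp] lemma lowRep_apply_zero_zero (c : ℤ) : lowRep c 0 0 = 1 := rfl
@[simp] lemma lowRep_apply_one_zero (c : ℤ) : lowRep c 1 0 = c := rfl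

lemma lowRep_mem (M : ℕ) (t : ℤ) : lowRep ((M : ℤ) * t) ∈ Gamma0 M := by
  rw [mem_Gamma0_iff_dvd, lowRep_apply_one_zero]
  exact dvd_mul_right _ _

/-- Coset criterion for `Gamma0 M ⧸ (Gamma0 (p * M)).subgroupOf (Gamma0 M)`. -/
lemma subMk_eq_iff (p M : ℕ) (hM : M ≠ 0) (g g' : Gamma0 M) (c₁ c₁' : ℤ)
    (hc : (g : SL(2, ℤ)) 1 0 = M * c₁) (hc' : (g' : SL(2, ℤ)) 1 0 = M * c₁') :
    (QuotientGroup.mk g : Gamma0 M ⧸ (Gamma0 (p * M)).subgroupOf (Gamma0 M))
        = QuotientGroup.mk g' ↔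
      (p : ℤ) ∣ ((g : SL(2, ℤ)) 0 0 * c₁' - c₁ * (g' : SL(2, ℤ)) 0 0) := by
  rw [QuotientGroup.eq, Subgroup.mem_subgroupOf, mem_Gamma0_iff_dvd]
  simp only [Subgroup.coe_mul, Subgroup.coe_inv, inv_mul_apply_one_zero, hc, hc']
  have h : (g : SL(2, ℤ)) 0 0 * ((M : ℤ) * c₁') - (M : ℤ) * c₁ * (g' : SL(2, ℤ)) 0 0
      = (M : ℤ) * ((g : SL(2, ℤ)) 0 0 * c₁' - c₁ * (g' : SL(2, ℤ)) 0 0) := by ring
  rw [h]
  push_cast
  rw [mul_comm (p : ℤ) (M : ℤ)]
  exact mul_dvd_mul_iff_left (by exact_mod_cast hM)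

/-- For `g ∈ Gamma0 M` with `p ∣ M`, the entry `g 0 0` is nonzero mod `p`. -/
lemma a_ne_zero_of_dvd (p M : ℕ) (hp : p.Prime) (h : p ∣ M) (g : Gamma0 M) :
    ¬ (p : ℤ) ∣ (g : SL(2, ℤ)) 0 0 := by
  intro ha
  have hg := (mem_Gamma0_iff_dvd M _).mp g.2
  have hpc : (p : ℤ) ∣ (g : SL(2, ℤ)) 1 0 := dvd_trans (by exact_mod_cast h) hg
  have hdet := (g : SL(2, ℤ)).det_coe
  rw [Matrix.det_fin_two] at hdet
  have h1 : (p : ℤ) ∣ 1 := by
    rw [← hdet]
    exact dvd_sub (dvd_mul_of_dvd_left ha _) (dvd_mul_of_dvd_right hpc _)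
  have := Int.natCast_dvd_natCast.mp (by simpa using h1 : ((p : ℕ) : ℤ) ∣ ((1 : ℕ) : ℤ))
  exact hp.one_lt.ne' (Nat.dvd_one.mp this)

/-- The coset representative attached to `t : ZMod p`. -/
noncomputable def relRep (p M : ℕ) (t : ZMod p) :
    Gamma0 M ⧸ (Gamma0 (p * M)).subgroupOf (Gamma0 M) :=
  QuotientGroup.mk ⟨lowRep ((M : ℤ) * (ZMod.cast t : ℤ)), lowRep_mem M _⟩

lemma relRep_injective (p M : ℕ) (hM : M ≠ 0) : Function.Injective (relRep p M) := by
  intro t t' h
  simp only [relRep] at h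
  rw [subMk_eq_iff p M hM _ _ (ZMod.cast t : ℤ) (ZMod.cast t' : ℤ) rfl rfl] at h
  simp only [lowRep_apply_zero_zero, one_mul, mul_one] at h
  have := (ZMod.intCast_zmod_eq_zero_iff_dvd _ p).mpr h
  push_cast at this
  exact (sub_eq_zero.mp this).symm

/-- Elements with `p ∤ a` are in the range of `relRep`. -/
lemma mem_range_relRep (p M : ℕ) (hM : M ≠ 0) (hp : p.Prime) (g : Gamma0 M)
    (ha : ¬ (p : ℤ) ∣ (g : SL(2, ℤ)) 0 0) :
    (QuotientGroup.mk g : Gamma0 M ⧸ (Gamma0 (p * M)).subgroupOf (Gamma0 M))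
      ∈ Set.range (relRep p M) := by
  haveI : Fact p.Prime := ⟨hp⟩
  obtain ⟨c₁, hc₁⟩ := (mem_Gamma0_iff_dvd M _).mp g.2
  have ha' : (((g : SL(2, ℤ)) 0 0 : ℤ) : ZMod p) ≠ 0 := by
    rwa [Ne, ZMod.intCast_zmod_eq_zero_iff_dvd]
  refine ⟨(c₁ : ZMod p) * (((g : SL(2, ℤ)) 0 0 : ℤ) : ZMod p)⁻¹, ?_⟩
  simp only [relRep]
  rw [subMk_eq_iff p M hM _ _ _ c₁ rfl hc₁]
  simp only [lowRep_apply_zero_zero, one_mul]
  rw [← ZMod.intCast_zmod_eq_zero_iff_dvd]
  push_cast
  rw [mul_assoc, inv_mul_cancel₀ ha', mul_one, sub_self]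

/-- **Relative index, ramified case**: `[Γ₀(M) : Γ₀(pM)] = p` if `p ∣ M`. -/
theorem relIndex_Gamma0_of_dvd (p M : ℕ) (hM : M ≠ 0) (hp : p.Prime) (h : p ∣ M) :
    (Gamma0 (p * M)).relIndex (Gamma0 M) = p := by
  have hbij : Function.Bijective (relRep p M) := by
    refine ⟨relRep_injective p M hM, ?_⟩
    intro q
    obtain ⟨g, rfl⟩ := QuotientGroup.mk_surjective q
    exact mem_range_relRep p M hM hp g (a_ne_zero_of_dvd p M hp h g)
  rw [Subgroup.relIndex, Subgroup.index, ← Nat.card_eq_of_bijective _ hbij, Nat.card_zmod]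

/-- An element of `Gamma0 M` with first column `(p, M)`, for `p ∤ M`. -/
lemma exists_special (p M : ℕ) (hp : p.Prime) (h : ¬ p ∣ M) :
    ∃ g : Gamma0 M, (g : SL(2, ℤ)) 0 0 = p ∧ (g : SL(2, ℤ)) 1 0 = M := by
  have hcop : IsCoprime (p : ℤ) (M : ℤ) := by
    rw [Int.isCoprime_iff_gcd_eq_one, Int.gcd_natCast_natCast]
    exact (Nat.Prime.coprime_iff_not_dvd hp).mpr h
  obtain ⟨g, hg0, hg1⟩ := IsCoprime.exists_SL2_col hcop 0
  refine ⟨⟨g, ?_⟩, hg0, hg1⟩
  rw [mem_Gamma0_iff_dvd, hg1]

/-- **Relative index, unramified case**: `[Γ₀(M) : Γ₀(pM)] = p + 1` if `p ∤ M`. -/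
theorem relIndex_Gamma0_of_not_dvd (p M : ℕ) (hM : M ≠ 0) (hp : p.Prime) (h : ¬ p ∣ M) :
    (Gamma0 (p * M)).relIndex (Gamma0 M) = p + 1 := by
  haveI : Fact p.Prime := ⟨hp⟩
  obtain ⟨g₀, hg₀0, hg₀1⟩ := exists_special p M hp h
  let f : Option (ZMod p) → Gamma0 M ⧸ (Gamma0 (p * M)).subgroupOf (Gamma0 M) :=
    fun o => o.elim (QuotientGroup.mk g₀) (relRep p M)
  have hne : ∀ t : ZMod p, relRep p M t ≠ QuotientGroup.mk g₀ := by
    intro t ht
    simp only [relRep] at ht
    rw [subMk_eq_iff p M hM _ _ (ZMod.cast t : ℤ) 1 rfl (by rw [hg₀1, mul_one])] at ht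
    simp only [lowRep_apply_zero_zero, one_mul, hg₀0] at ht
    have h1 : (p : ℤ) ∣ 1 := by
      have := dvd_add ht (dvd_mul_left (p : ℤ) (ZMod.cast t : ℤ))
      simpa using this
    have := Int.natCast_dvd_natCast.mp (by simpa using h1 : ((p : ℕ) : ℤ) ∣ ((1 : ℕ) : ℤ))
    exact hp.one_lt.ne' (Nat.dvd_one.mp this)
  have hbij : Function.Bijective f := by
    constructor
    · rintro (_ | t) (_ | t') hh
      · rfl
      · exact absurd hh.symm (hne t')
      · exact absurd hh (hne t)
      · exact congrArg some (relRep_injective p M hM hh)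
    · intro q
      obtain ⟨g, rfl⟩ := QuotientGroup.mk_surjective q
      by_cases ha : (p : ℤ) ∣ (g : SL(2, ℤ)) 0 0
      · refine ⟨none, ?_⟩
        obtain ⟨c₁, hc₁⟩ := (mem_Gamma0_iff_dvd M _).mp g.2
        show QuotientGroup.mk g₀ = _
        rw [subMk_eq_iff p M hM _ _ 1 c₁ (by rw [hg₀1, mul_one]) hc₁, hg₀0]
        exact dvd_sub (dvd_mul_right _ _) (by simpa using ha)
      · obtain ⟨t, ht⟩ := mem_range_relRep p M hM hp g ha
        exact ⟨some t, ht⟩
  rw [Subgroup.relIndex, Subgroup.index, ← Nat.card_eq_of_bijective _ hbij, Finite.card_option,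
    Nat.card_zmod]

end Fermat.Agent.S20.Comb694

end
-- ===== PACK-END S20/Comb694/RelIndex.lean

-- ===== PACK-BEGIN S20/Comb694/Index.lean
section





/-!
# The index of `Gamma0 N` in `SL(2,ℤ)` is the Dedekind psi function

* `index_Gamma0 : (Gamma0 N).index = ModularCurve.dedekindPsi N` (all `N`, including `N = 0`)
* `card_quotient_Gamma0 : Nat.card (SL(2,ℤ) ⧸ Gamma0 N) = ModularCurve.dedekindPsi N`
-/

set_option autoImplicit false

namespace Fermat.Agent.S20.Comb694

open Matrix MatrixGroups CongruenceSubgroup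

lemma dedekindPsi_prime_mul_of_dvd (p M : ℕ) (hp : p.Prime) (hM : M ≠ 0) (h : p ∣ M) :
    ModularCurve.dedekindPsi (p * M) = p * ModularCurve.dedekindPsi M := by
  unfold ModularCurve.dedekindPsi
  have hset : (p * M).divisors.filter Squarefree = M.divisors.filter Squarefree := by
    ext d
    simp only [Finset.mem_filter, Nat.mem_divisors]
    constructor
    · rintro ⟨⟨hd, -⟩, hsq⟩
      refine ⟨⟨?_, hM⟩, hsq⟩
      by_cases hpd : p ∣ d
      · obtain ⟨d', rfl⟩ := hpd
        have hd' : d' ∣ M := (Nat.mul_dvd_mul_iff_left hp.pos).mp hd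
        have hcop : Nat.Coprime p d' := by
          rw [Nat.Prime.coprime_iff_not_dvd hp]
          intro hpd'
          have h2 : p * p ∣ p * d' := Nat.mul_dvd_mul_left p hpd'
          have h3 := hsq p h2
          exact hp.one_lt.ne' (Nat.isUnit_iff.mp h3)
        exact Nat.Coprime.mul_dvd_of_dvd_of_dvd hcop h hd'
      · exact Nat.Coprime.dvd_of_dvd_mul_left
          ((Nat.Prime.coprime_iff_not_dvd hp).mpr hpd).symm hd
    · rintro ⟨⟨hd, -⟩, hsq⟩
      exact ⟨⟨dvd_mul_of_dvd_right hd p, mul_ne_zero hp.ne_zero hM⟩, hsq⟩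
  rw [hset, Finset.mul_sum]
  refine Finset.sum_congr rfl fun d hd => ?_
  have hd' : d ∣ M := (Nat.mem_divisors.mp (Finset.mem_filter.mp hd).1).1
  exact Nat.mul_div_assoc p hd'

lemma dedekindPsi_prime_mul_of_not_dvd (p M : ℕ) (hp : p.Prime) (hM : M ≠ 0) (h : ¬ p ∣ M) :
    ModularCurve.dedekindPsi (p * M) = (p + 1) * ModularCurve.dedekindPsi M := by
  unfold ModularCurve.dedekindPsi
  rw [← Finset.sum_filter_add_sum_filter_not ((p * M).divisors.filter Squarefree) (fun d => p ∣ d)]
  have hset1 : ((p * M).divisors.filter Squarefree).filter (fun d => ¬ p ∣ d)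
      = M.divisors.filter Squarefree := by
    ext d
    simp only [Finset.mem_filter, Nat.mem_divisors]
    constructor
    · rintro ⟨⟨⟨hd, -⟩, hsq⟩, hpd⟩
      exact ⟨⟨Nat.Coprime.dvd_of_dvd_mul_left
        ((Nat.Prime.coprime_iff_not_dvd hp).mpr hpd).symm hd, hM⟩, hsq⟩
    · rintro ⟨⟨hd, -⟩, hsq⟩
      exact ⟨⟨⟨dvd_mul_of_dvd_right hd p, mul_ne_zero hp.ne_zero hM⟩, hsq⟩,
        fun hpd => h (dvd_trans hpd hd)⟩
  have hset2 : ((p * M).divisors.filter Squarefree).filter (fun d => p ∣ d)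
      = (M.divisors.filter Squarefree).image (fun d => p * d) := by
    ext d
    simp only [Finset.mem_filter, Nat.mem_divisors, Finset.mem_image]
    constructor
    · rintro ⟨⟨⟨hd, -⟩, hsq⟩, ⟨d', rfl⟩⟩
      exact ⟨d', ⟨⟨(Nat.mul_dvd_mul_iff_left hp.pos).mp hd, hM⟩, hsq.of_mul_right⟩, rfl⟩
    · rintro ⟨d', ⟨⟨hd', -⟩, hsq'⟩, rfl⟩
      have hcop : Nat.Coprime p d' :=
        (Nat.Prime.coprime_iff_not_dvd hp).mpr fun hpd => h (dvd_trans hpd hd')
      exact ⟨⟨⟨Nat.mul_dvd_mul_left p hd', mul_ne_zero hp.ne_zero hM⟩,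
        (Nat.squarefree_mul hcop).mpr ⟨hp.prime.squarefree, hsq'⟩⟩, dvd_mul_right _ _⟩
  rw [hset1, hset2, Finset.sum_image (fun x _ y _ hxy => Nat.eq_of_mul_eq_mul_left hp.pos hxy),
    add_mul, one_mul, Finset.mul_sum, add_comm]
  congr 1
  · refine Finset.sum_congr rfl fun d hd => ?_
    have hd' : d ∣ M := (Nat.mem_divisors.mp (Finset.mem_filter.mp hd).1).1
    exact Nat.mul_div_assoc p hd'
  · refine Finset.sum_congr rfl fun d hd => ?_
    exact Nat.mul_div_mul_left M d hp.pos

lemma Gamma0_one_eq_top : Gamma0 1 = ⊤ := by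
  ext g
  simp only [Gamma0_mem, Subgroup.mem_top, iff_true]
  exact Subsingleton.elim _ _

lemma index_Gamma0_zero : (Gamma0 0).index = 0 := by
  rw [Subgroup.index]
  haveI : Infinite (SL(2, ℤ) ⧸ Gamma0 0) := by
    refine Infinite.of_injective
      (fun t : ℤ => (QuotientGroup.mk (lowRep t) : SL(2, ℤ) ⧸ Gamma0 0)) ?_
    intro t t' h
    simp only at h
    rw [mk_eq_mk_iff] at h
    simp only [lowRep_apply_zero_zero, lowRep_apply_one_zero, Int.cast_one, one_mul,
      mul_one] at h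
    have h' : ((t' - t : ℤ) : ZMod 0) = 0 := h
    have h'' := (ZMod.intCast_zmod_eq_zero_iff_dvd (t' - t) 0).mp h'
    simp only [Nat.cast_zero, zero_dvd_iff] at h''
    exact (sub_eq_zero.mp h'').symm
  exact Nat.card_eq_zero_of_infinite

lemma dedekindPsi_zero : ModularCurve.dedekindPsi 0 = 0 := by
  simp [ModularCurve.dedekindPsi]

/-- **(I1)** The index of `Γ₀(N)` in `SL(2,ℤ)` is `ψ(N)` (for `N ≠ 0`). -/
theorem index_Gamma0_of_ne_zero (N : ℕ) (hN : N ≠ 0) :
    (Gamma0 N).index = ModularCurve.dedekindPsi N := by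
  induction N using induction_on_primes with
  | zero => exact absurd rfl hN
  | one => rw [ModularCurve.dedekindPsi_one, Gamma0_one_eq_top, Subgroup.index_top]
  | prime_mul p M hp ih =>
    have hM : M ≠ 0 := fun h => hN (by rw [h, mul_zero])
    rw [← Subgroup.relIndex_mul_index (Gamma0_mul_le p M), ih hM]
    by_cases h : p ∣ M
    · rw [relIndex_Gamma0_of_dvd p M hM hp h, dedekindPsi_prime_mul_of_dvd p M hp hM h]
    · rw [relIndex_Gamma0_of_not_dvd p M hM hp h, dedekindPsi_prime_mul_of_not_dvd p M hp hM h]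

/-- **(I1)** The index of `Γ₀(N)` in `SL(2,ℤ)` is `ψ(N)` (all `N`; both sides are `0` for
`N = 0`). -/
theorem index_Gamma0 (N : ℕ) : (Gamma0 N).index = ModularCurve.dedekindPsi N := by
  rcases eq_or_ne N 0 with rfl | hN
  · rw [index_Gamma0_zero, dedekindPsi_zero]
  · exact index_Gamma0_of_ne_zero N hN

/-- **(I1)** `#(SL(2,ℤ) ⧸ Γ₀(N)) = ψ(N)`. -/
theorem card_quotient_Gamma0 (N : ℕ) :
    Nat.card (SL(2, ℤ) ⧸ Gamma0 N) = ModularCurve.dedekindPsi N :=
  index_Gamma0 N

end Fermat.Agent.S20.Comb694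

end
-- ===== PACK-END S20/Comb694/Index.lean

-- ===== PACK-BEGIN S20/Comb694/OrbitCounts.lean
section




/-!
# Orbit counts of `S` and `S * T` on `SL(2,ℤ) ⧸ Gamma0 N`, and the genus identity

* `two_mul_card_orbits_S : 2 * #(Q / ⟨S⟩) = ψ(N) + ν₂(N)`
* `three_mul_card_orbits_ST : 3 * #(Q / ⟨S * T⟩) = ψ(N) + 2 * ν₃(N)`
* `genusFormula_eq_of_card_orbits_T` : the Euler-characteristic identity
  `genusFormula N = 1 + (μ - o₂ - o₃ - o∞) / 2`.
-/

set_option autoImplicit false

namespace Fermat.Agent.S20.Comb694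

open Matrix MatrixGroups CongruenceSubgroup MulAction Subgroup

/-- `-1` acts trivially on `SL(2,ℤ) ⧸ Γ₀(N)`. -/
lemma neg_one_smul_quotient (N : ℕ) (q : SL(2, ℤ) ⧸ Gamma0 N) : (-1 : SL(2, ℤ)) • q = q := by
  obtain ⟨g, rfl⟩ := QuotientGroup.mk_surjective q
  rw [smul_mk_eq_mk_iff]
  have h : ∀ i j, ((-1 : SL(2, ℤ)) * g) i j = - g i j := by
    intro i j
    rw [neg_mul, one_mul, Matrix.SpecialLinearGroup.coe_neg, Matrix.neg_apply]
  rw [h, h]
  push_cast
  ring

lemma S_pow_two : ModularGroup.S ^ 2 = (-1 : SL(2, ℤ)) := by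
  apply Subtype.ext
  rw [pow_two, Matrix.SpecialLinearGroup.coe_mul, ModularGroup.coe_S,
    Matrix.SpecialLinearGroup.coe_neg, Matrix.SpecialLinearGroup.coe_one]
  ext i j
  fin_cases i <;> fin_cases j <;> simp [Matrix.mul_apply, Fin.sum_univ_two]

lemma ST_pow_three : (ModularGroup.S * ModularGroup.T) ^ 3 = (-1 : SL(2, ℤ)) := by
  apply Subtype.ext
  rw [pow_succ, pow_two, Matrix.SpecialLinearGroup.coe_mul, Matrix.SpecialLinearGroup.coe_mul,
    coe_S_mul_T, Matrix.SpecialLinearGroup.coe_neg, Matrix.SpecialLinearGroup.coe_one]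
  ext i j
  fin_cases i <;> fin_cases j <;> simp [Matrix.mul_apply, Fin.sum_univ_two]

/-- `2 * #(S-orbits) = ψ(N) + ν₂(N)`. -/
theorem two_mul_card_orbits_S (N : ℕ) [NeZero N] :
    2 * Nat.card (orbitRel.Quotient (zpowers ModularGroup.S) (SL(2, ℤ) ⧸ Gamma0 N))
      = ModularCurve.dedekindPsi N + ModularCurve.nuTwo N := by
  have h := prime_mul_card_orbits (X := SL(2, ℤ) ⧸ Gamma0 N) ModularGroup.S 2 Nat.prime_two
    (fun x => by rw [S_pow_two]; exact neg_one_smul_quotient N x)
  rw [card_quotient_Gamma0, card_fixedBy_S] at h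
  exact h.trans (by norm_num)

/-- `3 * #(ST-orbits) = ψ(N) + 2 * ν₃(N)`. -/
theorem three_mul_card_orbits_ST (N : ℕ) [NeZero N] :
    3 * Nat.card (orbitRel.Quotient (zpowers (ModularGroup.S * ModularGroup.T))
        (SL(2, ℤ) ⧸ Gamma0 N))
      = ModularCurve.dedekindPsi N + 2 * ModularCurve.nuThree N := by
  have h := prime_mul_card_orbits (X := SL(2, ℤ) ⧸ Gamma0 N)
    (ModularGroup.S * ModularGroup.T) 3 Nat.prime_three
    (fun x => by rw [ST_pow_three]; exact neg_one_smul_quotient N x)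
  rw [card_quotient_Gamma0, card_fixedBy_ST] at h
  exact h.trans (by norm_num)

/-- The Euler-characteristic identity: with `μ = #Q`, `o₂`, `o₃`, `o∞` the numbers of orbits of
`S`, `S * T`, `T` on `Q = SL(2,ℤ) ⧸ Γ₀(N)`, one has `genusFormula N = 1 + (μ - o₂ - o₃ - o∞) / 2`,
provided `o∞ = cuspCount N`. -/
theorem genusFormula_eq_of_card_orbits_T (N : ℕ) [NeZero N]
    (hT : Nat.card (orbitRel.Quotient (zpowers ModularGroup.T) (SL(2, ℤ) ⧸ Gamma0 N))
      = ModularCurve.cuspCount N) :
    ModularCurve.genusFormula N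
      = 1 + ((Nat.card (SL(2, ℤ) ⧸ Gamma0 N) : ℚ)
          - (Nat.card (orbitRel.Quotient (zpowers ModularGroup.S) (SL(2, ℤ) ⧸ Gamma0 N)) : ℚ)
          - (Nat.card (orbitRel.Quotient (zpowers (ModularGroup.S * ModularGroup.T))
              (SL(2, ℤ) ⧸ Gamma0 N)) : ℚ)
          - (Nat.card (orbitRel.Quotient (zpowers ModularGroup.T)
              (SL(2, ℤ) ⧸ Gamma0 N)) : ℚ)) / 2 := by
  have h2 := two_mul_card_orbits_S N
  have h3 := three_mul_card_orbits_ST N
  have h2' := congrArg (Nat.cast : ℕ → ℚ) h2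
  have h3' := congrArg (Nat.cast : ℕ → ℚ) h3
  push_cast at h2' h3'
  rw [hT, card_quotient_Gamma0, ModularCurve.genusFormula]
  linear_combination (1 / 4 : ℚ) * h2' + (1 / 6 : ℚ) * h3'

/-- Orbit-count form used by dimension bounds: `μ + 2 - o₂ - o₃ - o∞ = 2 * genusFormula N`. -/
theorem two_mul_genusFormula_of_card_orbits_T (N : ℕ) [NeZero N]
    (hT : Nat.card (orbitRel.Quotient (zpowers ModularGroup.T) (SL(2, ℤ) ⧸ Gamma0 N))
      = ModularCurve.cuspCount N) :
    2 * ModularCurve.genusFormula N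
      + (Nat.card (orbitRel.Quotient (zpowers ModularGroup.S) (SL(2, ℤ) ⧸ Gamma0 N)) : ℚ)
      + (Nat.card (orbitRel.Quotient (zpowers (ModularGroup.S * ModularGroup.T))
          (SL(2, ℤ) ⧸ Gamma0 N)) : ℚ)
      + (Nat.card (orbitRel.Quotient (zpowers ModularGroup.T) (SL(2, ℤ) ⧸ Gamma0 N)) : ℚ)
      = (Nat.card (SL(2, ℤ) ⧸ Gamma0 N) : ℚ) + 2 := by
  rw [genusFormula_eq_of_card_orbits_T N hT]
  ring

end Fermat.Agent.S20.Comb694

end
-- ===== PACK-END S20/Comb694/OrbitCounts.lean

-- ===== PACK-BEGIN S28/H626/RootList.lean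
section
/-
S28 helper (helper626): the family `j(ξ tⁿ)` and the root list of the modular polynomial
`Φ_p(j(η t^{np}), X)`.
-/




set_option autoImplicit false

noncomputable section

open ModularCurve HahnSeries Polynomial

namespace Fermat.Agent.S28.H626

/-! ### Two-variable evaluation -/

section Ev2

variable {A B : Type*} [CommRing A] [CommRing B]

/-- Evaluation of `Φ ∈ ℤ[Y][X]` at `Y = y`, `X = x`. -/
def ev2 (Φ : Polynomial (Polynomial ℤ)) (y x : A) : A :=
  Φ.eval₂ (Polynomial.aeval (R := ℤ) y).toRingHom x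

/-- The one-variable polynomial `Φ(y, X)`. -/
def spec (Φ : Polynomial (Polynomial ℤ)) (y : A) : Polynomial A :=
  Φ.map (Polynomial.aeval (R := ℤ) y).toRingHom

theorem eval_spec (Φ : Polynomial (Polynomial ℤ)) (y x : A) :
    (spec Φ y).eval x = ev2 Φ y x := by
  rw [spec, ev2, Polynomial.eval_map]

theorem comp_aeval_toRingHom (φ : A →+* B) (y : A) :
    φ.comp (Polynomial.aeval (R := ℤ) y).toRingHom =
      (Polynomial.aeval (R := ℤ) (φ y)).toRingHom := by
  apply Polynomial.ringHom_ext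
  · intro a
    simp
  · simp

theorem map_ev2 (φ : A →+* B) (Φ : Polynomial (Polynomial ℤ)) (y x : A) :
    φ (ev2 Φ y x) = ev2 Φ (φ y) (φ x) := by
  rw [ev2, ev2, Polynomial.hom_eval₂, comp_aeval_toRingHom]

theorem map_spec (φ : A →+* B) (Φ : Polynomial (Polynomial ℤ)) (y : A) :
    (spec Φ y).map φ = spec Φ (φ y) := by
  rw [spec, spec, Polynomial.map_map, comp_aeval_toRingHom]

theorem spec_monic {Φ : Polynomial (Polynomial ℤ)} (h : Φ.Monic) (y : A) : (spec Φ y).Monic :=
  h.map _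

theorem spec_natDegree [Nontrivial A] {Φ : Polynomial (Polynomial ℤ)} (h : Φ.Monic) (y : A) :
    (spec Φ y).natDegree = Φ.natDegree :=
  h.natDegree_map _

end Ev2

/-- The (explicit-hypothesis form of the) prime-level analytic input: `Φ ∈ ℤ[Y][X]` is monic of
degree `p + 1` in `X` and `Φ(j, j_p) = 0`, `Φ(j_p, j) = 0` in `ℤ((q))`. -/
structure IsModPoly (p : ℕ) [NeZero p] (Φ : Polynomial (Polynomial ℤ)) : Prop where
  monic : Φ.Monic
  natDegree_eq : Φ.natDegree = p + 1
  eval_jp : ev2 Φ (jqModC ℤ) (qExpand ℤ p (jqModC ℤ)) = 0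
  eval_j : ev2 Φ (qExpand ℤ p (jqModC ℤ)) (jqModC ℤ) = 0

/-! ### The family `j(ξ tⁿ)` -/

section JTw

variable (Ω : Type*) [CommRing Ω]

/-- `j(ξ tⁿ)` as a Laurent series in `t`. -/
def jTw (ξ : Ωˣ) (n : ℕ) [NeZero n] : LaurentSeries Ω :=
  qExpand Ω n (twist ξ (jqModC Ω))

theorem jTw_one (n : ℕ) [NeZero n] : jTw Ω 1 n = qExpand Ω n (jqModC Ω) := by
  rw [jTw, twist_one_apply]

theorem jTw_coeff_neg (ξ : Ωˣ) (n : ℕ) [NeZero n] :
    (jTw Ω ξ n).coeff (-(n : ℤ)) = ((ξ⁻¹ : Ωˣ) : Ω) := by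
  have h : (-(n : ℤ)) = (n : ℤ) * (-1) := by ring
  rw [jTw, h, qExpand_coeff_mul, twist_coeff, coeff_jqModC_neg_one, mul_one, zpow_neg_one]

theorem jTw_coeff_of_lt (ξ : Ωˣ) (n : ℕ) [NeZero n] {k : ℤ} (hk : k < -(n : ℤ)) :
    (jTw Ω ξ n).coeff k = 0 := by
  by_cases hn : (n : ℤ) ∣ k
  · obtain ⟨m, rfl⟩ := hn
    have hn0 : (0 : ℤ) < n := by exact_mod_cast Nat.pos_of_ne_zero (NeZero.ne n)
    have hm : m < -1 := by
      by_contra hm
      have hm' := not_lt.mp hm
      nlinarith
    rw [jTw, qExpand_coeff_mul, twist_coeff, coeff_jqModC_of_lt Ω hm, mul_zero]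
  · rw [jTw, qExpand_coeff_of_not_dvd _ _ hn]

variable {Ω}

theorem jTw_inj [Nontrivial Ω] {ξ ξ' : Ωˣ} {n n' : ℕ} [NeZero n] [NeZero n']
    (h : jTw Ω ξ n = jTw Ω ξ' n') : n = n' ∧ ξ = ξ' := by
  have key : ∀ (ξ ξ' : Ωˣ) (n n' : ℕ) [NeZero n] [NeZero n'],
      jTw Ω ξ n = jTw Ω ξ' n' → ¬ n < n' := by
    intro ξ ξ' n n' _ _ h hlt
    have h1 := jTw_coeff_neg Ω ξ' n'
    rw [← h, jTw_coeff_of_lt Ω ξ n (by exact_mod_cast (neg_lt_neg (Nat.cast_lt.mpr hlt) :
      (-(n' : ℤ)) < -(n : ℤ)))] at h1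
    exact (Units.ne_zero _) h1.symm
  have hn : n = n' := le_antisymm (not_lt.mp (key ξ' ξ n' n h.symm)) (not_lt.mp (key ξ ξ' n n' h))
  subst hn
  refine ⟨rfl, ?_⟩
  have h1 := jTw_coeff_neg Ω ξ n
  rw [h, jTw_coeff_neg] at h1
  exact inv_injective (Units.ext h1).symm

theorem jTw_ne_of_ne [Nontrivial Ω] {ξ ξ' : Ωˣ} {n n' : ℕ} [NeZero n] [NeZero n']
    (h : n ≠ n') : jTw Ω ξ n ≠ jTw Ω ξ' n' := fun he => h (jTw_inj he).1

end JTw

/-! ### Root relations -/

section Roots

variable (Ω : Type*) [CommRing Ω]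

/-- the ring hom `ℤ((q)) → Ω((t))`, `q ↦ ξ tⁿ`. -/
def substHom (ξ : Ωˣ) (n : ℕ) [NeZero n] : LaurentSeries ℤ →+* LaurentSeries Ω :=
  (qExpand Ω n).comp ((twist ξ).comp (coeffMap (Int.castRingHom Ω)))

theorem substHom_j (ξ : Ωˣ) (n : ℕ) [NeZero n] :
    substHom Ω ξ n (jqModC ℤ) = jTw Ω ξ n := by
  simp only [substHom, RingHom.comp_apply, coeffMap_jqModC, jTw]

theorem substHom_jp (ξ : Ωˣ) (n : ℕ) [NeZero n] (p : ℕ) [NeZero p] :
    substHom Ω ξ n (qExpand ℤ p (jqModC ℤ)) = jTw Ω (ξ ^ p) (n * p) := by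
  simp only [substHom, RingHom.comp_apply, coeffMap_qExpand, coeffMap_jqModC, jTw,
    twist_qExpand, qExpand_qExpand]

variable {Ω}

theorem ev2_jTw_root {p : ℕ} [NeZero p] {Φ : Polynomial (Polynomial ℤ)} (hΦ : IsModPoly p Φ)
    (ξ : Ωˣ) (n : ℕ) [NeZero n] :
    ev2 Φ (jTw Ω (ξ ^ p) (n * p)) (jTw Ω ξ n) = 0 := by
  have h := congrArg (substHom Ω ξ n) hΦ.eval_j
  rwa [map_ev2, substHom_j, substHom_jp, map_zero] at h

theorem ev2_jTw_root' {p : ℕ} [NeZero p] {Φ : Polynomial (Polynomial ℤ)} (hΦ : IsModPoly p Φ)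
    (ξ : Ωˣ) (n : ℕ) [NeZero n] :
    ev2 Φ (jTw Ω ξ n) (jTw Ω (ξ ^ p) (n * p)) = 0 := by
  have h := congrArg (substHom Ω ξ n) hΦ.eval_jp
  rwa [map_ev2, substHom_j, substHom_jp, map_zero] at h

theorem jTw_congr (ξ : Ωˣ) {n n' : ℕ} [NeZero n] [NeZero n'] (h : n = n') :
    jTw Ω ξ n = jTw Ω ξ n' := by
  subst h; rfl

end Roots

/-! ### The root list -/

section RootList

variable {Ω : Type*} [Field Ω]

/-- The multiset of roots of `Φ_p(j(t^{np}), X)`. -/
def rootMultiset (p : ℕ) (ζ : Ωˣ) (n : ℕ) [NeZero n] [NeZero p] : Multiset (LaurentSeries Ω) :=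
  jTw Ω 1 (n * p * p) ::ₘ (Multiset.range p).map (fun b => jTw Ω (ζ ^ b) n)

theorem rootMultiset_nodup {p : ℕ} [NeZero p] (hp : 1 < p) {ζ : Ωˣ} (hζ : IsPrimitiveRoot ζ p)
    (n : ℕ) [NeZero n] : (rootMultiset p ζ n).Nodup := by
  rw [rootMultiset, Multiset.nodup_cons]
  constructor
  · intro h
    rw [Multiset.mem_map] at h
    obtain ⟨b, -, hb⟩ := h
    have h1 : n = n * p * p := (jTw_inj hb).1
    have hn : 0 < n := Nat.pos_of_ne_zero (NeZero.ne n)
    have : n * 1 < n * (p * p) := by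
      apply Nat.mul_lt_mul_of_pos_left _ hn
      nlinarith
    rw [mul_one, ← mul_assoc] at this
    omega
  · refine Multiset.Nodup.map_on ?_ (Multiset.nodup_range p)
    intro a ha b hb hab
    rw [Multiset.mem_range] at ha hb
    exact hζ.pow_inj ha hb (jTw_inj hab).2

theorem rootMultiset_card (p : ℕ) [NeZero p] (ζ : Ωˣ) (n : ℕ) [NeZero n] :
    Multiset.card (rootMultiset p ζ n) = p + 1 := by
  simp [rootMultiset]

theorem mem_rootMultiset {p : ℕ} [NeZero p] {ζ : Ωˣ} {n : ℕ} [NeZero n] {β : LaurentSeries Ω} :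
    β ∈ rootMultiset p ζ n ↔ β = jTw Ω 1 (n * p * p) ∨ ∃ b < p, β = jTw Ω (ζ ^ b) n := by
  rw [rootMultiset, Multiset.mem_cons, Multiset.mem_map]
  refine or_congr Iff.rfl ⟨?_, ?_⟩
  · rintro ⟨b, hb, rfl⟩
    exact ⟨b, Multiset.mem_range.mp hb, rfl⟩
  · rintro ⟨b, hb, rfl⟩
    exact ⟨b, Multiset.mem_range.mpr hb, rfl⟩

/-- **Root list.** `Φ_p(j(t^{np}), X) = (X - j(t^{np²})) ∏_{b<p} (X - j(ζ^b tⁿ))`. -/
theorem roots_spec {p : ℕ} [NeZero p] (hp : 1 < p) {Φ : Polynomial (Polynomial ℤ)}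
    (hΦ : IsModPoly p Φ) {ζ : Ωˣ} (hζ : IsPrimitiveRoot ζ p) (n : ℕ) [NeZero n] :
    (spec Φ (jTw Ω 1 (n * p))).roots = rootMultiset p ζ n := by
  have hmonic : (spec Φ (jTw Ω 1 (n * p))).Monic := spec_monic hΦ.monic _
  have hdeg : (spec Φ (jTw Ω 1 (n * p))).natDegree = p + 1 := by
    rw [spec_natDegree hΦ.monic, hΦ.natDegree_eq]
  have hle : rootMultiset p ζ n ≤ (spec Φ (jTw Ω 1 (n * p))).roots := by
    rw [Multiset.le_iff_subset (rootMultiset_nodup hp hζ n)]
    intro β hβ
    rw [Polynomial.mem_roots hmonic.ne_zero, Polynomial.IsRoot, eval_spec]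
    rcases mem_rootMultiset.mp hβ with rfl | ⟨b, -, rfl⟩
    · have := ev2_jTw_root' hΦ (1 : Ωˣ) (n * p)
      rwa [one_pow] at this
    · have := ev2_jTw_root hΦ (ζ ^ b) n
      rwa [← pow_mul, mul_comm b p, pow_mul, hζ.pow_eq_one, one_pow] at this
  refine (Multiset.eq_of_le_of_card_le hle ?_).symm
  rw [rootMultiset_card, ← hdeg]
  exact Polynomial.card_roots' _

theorem splits_spec {p : ℕ} [NeZero p] (hp : 1 < p) {Φ : Polynomial (Polynomial ℤ)}
    (hΦ : IsModPoly p Φ) {ζ : Ωˣ} (hζ : IsPrimitiveRoot ζ p) (n : ℕ) [NeZero n] :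
    (spec Φ (jTw Ω 1 (n * p))).Splits := by
  rw [Polynomial.splits_iff_card_roots, roots_spec hp hΦ hζ, rootMultiset_card,
    spec_natDegree hΦ.monic, hΦ.natDegree_eq]

end RootList

/-! ### The abstract gcd lemma -/

section AbstractGcd

/-- If `x` is a common root of `P, Q ∈ E[X]`, and over some extension `P` splits with distinct
roots, among which only (the image of) `x` is a root of `Q`, then `x ∈ E`. -/
theorem mem_range_of_unique_common_root {E L Ω' : Type*} [Field E] [Field L] [Algebra E L]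
    [Field Ω'] (ι : L →+* Ω') (x : L) (P Q : Polynomial E) (hP0 : P ≠ 0)
    (hPx : Polynomial.aeval x P = 0) (hQx : Polynomial.aeval x Q = 0)
    (hsplit : (P.map (ι.comp (algebraMap E L))).Splits)
    (hnodup : (P.map (ι.comp (algebraMap E L))).roots.Nodup)
    (huniq : ∀ β ∈ (P.map (ι.comp (algebraMap E L))).roots,
      (Q.map (ι.comp (algebraMap E L))).eval β = 0 → β = ι x) :
    x ∈ (algebraMap E L).range := by
  classical
  set f : E →+* Ω' := ι.comp (algebraMap E L) with hf
  have hint : IsIntegral E x := IsAlgebraic.isIntegral ⟨P, hP0, hPx⟩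
  have hμP : minpoly E x ∣ P := minpoly.dvd E x hPx
  have hμQ : minpoly E x ∣ Q := minpoly.dvd E x hQx
  have hP'0 : P.map f ≠ 0 := (Polynomial.map_ne_zero_iff f.injective).mpr hP0
  have hμ'P : (minpoly E x).map f ∣ P.map f := Polynomial.map_dvd f hμP
  have hμ'Q : (minpoly E x).map f ∣ Q.map f := Polynomial.map_dvd f hμQ
  have hsplit' : ((minpoly E x).map f).Splits := hsplit.of_dvd hP'0 hμ'P
  have hroots_le : ((minpoly E x).map f).roots ≤ (P.map f).roots :=
    Polynomial.roots.le_of_dvd hP'0 hμ'P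
  have hnodup' : ((minpoly E x).map f).roots.Nodup := Multiset.nodup_of_le hroots_le hnodup
  have hμ'0 : (minpoly E x).map f ≠ 0 :=
    (Polynomial.map_ne_zero_iff f.injective).mpr (minpoly.ne_zero hint)
  have hall : ∀ β ∈ ((minpoly E x).map f).roots, β = ι x := by
    intro β hβ
    refine huniq β (Multiset.mem_of_le hroots_le hβ) ?_
    have hβ0 : ((minpoly E x).map f).eval β = 0 := (Polynomial.mem_roots hμ'0).mp hβ
    exact Polynomial.eval_eq_zero_of_dvd_of_eval_eq_zero hμ'Q hβ0
  have hcard : Multiset.card ((minpoly E x).map f).roots ≤ 1 := by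
    have hsub : ((minpoly E x).map f).roots ≤ {ι x} := by
      rw [Multiset.le_iff_subset hnodup']
      intro β hβ
      rw [Multiset.mem_singleton]
      exact hall β hβ
    simpa using Multiset.card_le_card hsub
  have hdeg : (minpoly E x).natDegree ≤ 1 := by
    rw [← Polynomial.natDegree_map f, hsplit'.natDegree_eq_card_roots]
    exact hcard
  have hpos := minpoly.natDegree_pos hint
  exact minpoly.natDegree_eq_one_iff.mp (le_antisymm hdeg hpos)

end AbstractGcd

end Fermat.Agent.S28.H626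

end

end
-- ===== PACK-END S28/H626/RootList.lean

-- ===== PACK-BEGIN S28/H626/Pair.lean
section
/-
S28 helper (helper626): the gcd lemma for the generators `j(q^d)`:
`j(q^{pre}) ∈ k(j(q^{re}), j(q^{pe}))` for distinct primes `p ≠ r` (invertible in `k`).
-/




set_option autoImplicit false

noncomputable section

open ModularCurve HahnSeries Polynomial

namespace Fermat.Agent.S28.H626

section Relations

variable (k : Type*) [Field k]

/-- `j(q^d) ∈ k((q))`. -/
abbrev jd (d : ℕ) [NeZero d] : LaurentSeries k := qExpand k d (jqModC k)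

theorem jd_congr {d d' : ℕ} [NeZero d] [NeZero d'] (h : d = d') : jd k d = jd k d' := by
  subst h; rfl

/-- the ring hom `ℤ((q)) → k((q))`, `q ↦ q^e`. -/
def levelHom (e : ℕ) [NeZero e] : LaurentSeries ℤ →+* LaurentSeries k :=
  (qExpand k e).comp (coeffMap (Int.castRingHom k))

theorem levelHom_j (e : ℕ) [NeZero e] : levelHom k e (jqModC ℤ) = jd k e := by
  simp only [levelHom, RingHom.comp_apply, coeffMap_jqModC]

theorem levelHom_jp (e : ℕ) [NeZero e] (p : ℕ) [NeZero p] :
    levelHom k e (qExpand ℤ p (jqModC ℤ)) = jd k (e * p) := by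
  simp only [levelHom, RingHom.comp_apply, coeffMap_qExpand, coeffMap_jqModC, qExpand_qExpand]

variable {k}

/-- `Φ_p(j(q^e), j(q^{ep})) = 0`. -/
theorem ev2_jd_up {p : ℕ} [NeZero p] {Φ : Polynomial (Polynomial ℤ)} (hΦ : IsModPoly p Φ)
    (e : ℕ) [NeZero e] : ev2 Φ (jd k e) (jd k (e * p)) = 0 := by
  have h := congrArg (levelHom k e) hΦ.eval_jp
  rwa [map_ev2, levelHom_j, levelHom_jp, map_zero] at h

/-- `Φ_p(j(q^{ep}), j(q^e)) = 0`. -/
theorem ev2_jd_down {p : ℕ} [NeZero p] {Φ : Polynomial (Polynomial ℤ)} (hΦ : IsModPoly p Φ)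
    (e : ℕ) [NeZero e] : ev2 Φ (jd k (e * p)) (jd k e) = 0 := by
  have h := congrArg (levelHom k e) hΦ.eval_j
  rwa [map_ev2, levelHom_j, levelHom_jp, map_zero] at h

theorem jd_ne_of_ne {d d' : ℕ} [NeZero d] [NeZero d'] (h : d ≠ d') : jd k d ≠ jd k d' := by
  have h1 : jd k d = jTw k 1 d := (jTw_one k d).symm
  have h2 : jd k d' = jTw k 1 d' := (jTw_one k d').symm
  rw [h1, h2]
  exact jTw_ne_of_ne h

end Relations

section Embedding

variable (k : Type*) [Field k] (Ω : Type*) [Field Ω] [Algebra k Ω]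

/-- The embedding `k((q)) → Ω((t))`, `q ↦ t^m`. -/
def embHom (m : ℕ) [NeZero m] : LaurentSeries k →+* LaurentSeries Ω :=
  (qExpand Ω m).comp (coeffMap (algebraMap k Ω))

theorem embHom_jd (m : ℕ) [NeZero m] (d : ℕ) [NeZero d] :
    embHom k Ω m (jd k d) = jTw Ω 1 (m * d) := by
  simp only [embHom, RingHom.comp_apply, jd, coeffMap_qExpand, coeffMap_jqModC, qExpand_qExpand,
    jTw_one]

end Embedding

section Pair

variable {k : Type*} [Field k]

theorem exists_primitiveRoot_unit (Ω : Type*) [Field Ω] (p : ℕ) [HasEnoughRootsOfUnity Ω p]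
    (hp : p ≠ 0) : ∃ ζ : Ωˣ, IsPrimitiveRoot ζ p := by
  obtain ⟨ζ, hζ⟩ := HasEnoughRootsOfUnity.exists_primitiveRoot Ω p
  obtain ⟨u, hu⟩ := hζ.isUnit hp
  refine ⟨u, ?_⟩
  rw [← IsPrimitiveRoot.coe_units_iff, hu]
  exact hζ

/-- **The gcd lemma.** For distinct primes `p ≠ r` invertible in `k`,
`j(q^{pre})` lies in every subfield of `k((q))` containing `j(q^{re})` and `j(q^{pe})`. -/
theorem jd_mem_of_pair {p r : ℕ} [NeZero p] [NeZero r] (hp : p.Prime) (hr : r.Prime)
    (hpr : p ≠ r) [NeZero (p : k)] [NeZero (r : k)]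
    {Φp Φr : Polynomial (Polynomial ℤ)} (hΦp : IsModPoly p Φp) (hΦr : IsModPoly r Φr)
    (e : ℕ) [NeZero e] (E : IntermediateField k (LaurentSeries k))
    (h1 : jd k (r * e) ∈ E) (h2 : jd k (p * e) ∈ E) : jd k (p * r * e) ∈ E := by
  classical
  obtain ⟨ζp, hζp⟩ := exists_primitiveRoot_unit (AlgebraicClosure k) p hp.ne_zero
  obtain ⟨ζr, hζr⟩ := exists_primitiveRoot_unit (AlgebraicClosure k) r hr.ne_zero
  have hp0 : 0 < p := hp.pos
  have hr0 : 0 < r := hr.pos
  have he0 : 0 < e := Nat.pos_of_ne_zero (NeZero.ne e)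
  -- the two polynomials over `E`
  set y1 : E := ⟨jd k (r * e), h1⟩ with hy1
  set y2 : E := ⟨jd k (p * e), h2⟩ with hy2
  set ι : LaurentSeries k →+* LaurentSeries (AlgebraicClosure k) :=
    embHom k (AlgebraicClosure k) (p * r) with hι
  have hP : ((spec Φp y1).map (ι.comp (algebraMap E (LaurentSeries k)))) =
      spec Φp (jTw (AlgebraicClosure k) 1 (r * r * e * p)) := by
    rw [map_spec]
    congr 1
    show ι (jd k (r * e)) = _
    rw [hι, embHom_jd]
    exact jTw_congr _ (by ring)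
  have hQ : ((spec Φr y2).map (ι.comp (algebraMap E (LaurentSeries k)))) =
      spec Φr (jTw (AlgebraicClosure k) 1 (p * p * e * r)) := by
    rw [map_spec]
    congr 1
    show ι (jd k (p * e)) = _
    rw [hι, embHom_jd]
    exact jTw_congr _ (by ring)
  have hx : ι (jd k (p * r * e)) = jTw (AlgebraicClosure k) 1 (r * r * e * p * p) := by
    rw [hι, embHom_jd]
    exact jTw_congr _ (by ring)
  have hmem : jd k (p * r * e) ∈ (algebraMap E (LaurentSeries k)).range := by
    refine mem_range_of_unique_common_root ι (jd k (p * r * e)) (spec Φp y1) (spec Φr y2)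
      (spec_monic hΦp.monic y1).ne_zero ?_ ?_ ?_ ?_ ?_
    · -- root of P
      rw [Polynomial.aeval_def, Polynomial.eval₂_eq_eval_map, map_spec, eval_spec]
      show ev2 Φp (jd k (r * e)) (jd k (p * r * e)) = 0
      rw [jd_congr k (show p * r * e = r * e * p by ring)]
      exact ev2_jd_up hΦp (r * e)
    · rw [Polynomial.aeval_def, Polynomial.eval₂_eq_eval_map, map_spec, eval_spec]
      show ev2 Φr (jd k (p * e)) (jd k (p * r * e)) = 0
      rw [jd_congr k (show p * r * e = p * e * r by ring)]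
      exact ev2_jd_up hΦr (p * e)
    · rw [hP]
      exact splits_spec hp.one_lt hΦp hζp (r * r * e)
    · rw [hP, roots_spec hp.one_lt hΦp hζp (r * r * e)]
      exact rootMultiset_nodup hp.one_lt hζp _
    · intro β hβ hQβ
      rw [hP, roots_spec hp.one_lt hΦp hζp (r * r * e)] at hβ
      rw [hx]
      rcases mem_rootMultiset.mp hβ with hβ1 | ⟨b, -, hβ1⟩
      · exact hβ1
      · exfalso
        have hβroot : β ∈ (spec Φr (jTw (AlgebraicClosure k) 1 (p * p * e * r))).roots := by
          rw [Polynomial.mem_roots (spec_monic hΦr.monic _).ne_zero, Polynomial.IsRoot, ← hQ]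
          exact hQβ
        rw [roots_spec hr.one_lt hΦr hζr (p * p * e)] at hβroot
        have hne : r * r ≠ p * p := by
          intro h
          exact hpr ((Nat.mul_self_inj.mp h).symm)
        rcases mem_rootMultiset.mp hβroot with hβ2 | ⟨c, -, hβ2⟩
        · have h3 := (jTw_inj (hβ1.symm.trans hβ2)).1
          -- r*r*e = p*p*e*r*r
          have h4 : r * r * e * 1 = r * r * e * (p * p) := by
            rw [mul_one]; exact h3.trans (by ring)
          have h5 : 1 = p * p := Nat.eq_of_mul_eq_mul_left (by positivity) h4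
          have : 1 < p * p := by nlinarith [hp.one_lt]
          omega
        · have h3 := (jTw_inj (hβ1.symm.trans hβ2)).1
          exact hne (Nat.eq_of_mul_eq_mul_right he0 h3)
  obtain ⟨z, hz⟩ := hmem
  rw [← hz]
  exact z.2

end Pair

end Fermat.Agent.S28.H626

end

end
-- ===== PACK-END S28/H626/Pair.lean

-- ===== PACK-BEGIN S28/H325/PolyIndep.lean
section



/-!
# S28, piece [L-glue], part 1: polynomial independence and change of coefficients

`PolyIndep J v` says that the family `v` admits no nontrivial linear relation with coefficients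
polynomials in `J`.  For a field `k` and transcendental `J` this is linear independence over
`k(J)`.  We transfer it along `ℤ → k` (content descent) and `ℤ → ℚ` (clearing denominators).
-/

set_option autoImplicit false

noncomputable section

open ModularCurve HahnSeries Polynomial

namespace Fermat.Agent.S28.H325

/-- No nontrivial relation `∑ Pᵢ(J) vᵢ = 0` with polynomial coefficients. -/
def PolyIndep {A : Type*} [CommRing A] {n : ℕ} (J : LaurentSeries A)
    (v : Fin n → LaurentSeries A) : Prop :=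
  ∀ P : Fin n → A[X], ∑ i, aeval J (P i) * v i = 0 → ∀ i, P i = 0

section Transport

variable {A B : Type*} [CommRing A] [CommRing B]

theorem coeffMap_aeval (f : A →+* B) (J : LaurentSeries A) (P : A[X]) :
    coeffMap f (aeval J P) = aeval (coeffMap f J) (P.map f) := by
  induction P using Polynomial.induction_on' with
  | add p q hp hq => simp only [map_add, Polynomial.map_add, hp, hq]
  | monomial m a =>
    rw [Polynomial.map_monomial, Polynomial.aeval_monomial, Polynomial.aeval_monomial, map_mul,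
      map_pow]
    congr 1
    rw [HahnSeries.algebraMap_apply', HahnSeries.algebraMap_apply', coeffMap_ofPowerSeries]
    congr 1
    ext k
    simp

theorem coeffMap_injective_of_injective (f : A →+* B) (hf : Function.Injective f) :
    Function.Injective (coeffMap f) := by
  intro x y h
  ext m
  apply hf
  have := congrArg (fun z => z.coeff m) h
  simpa using this

/-- Polynomial independence descends along an injective coefficient map. -/
theorem PolyIndep.of_injective {n : ℕ} (f : A →+* B) (hf : Function.Injective f)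
    {J : LaurentSeries A} {v : Fin n → LaurentSeries A}
    (h : PolyIndep (coeffMap f J) (fun i => coeffMap f (v i))) : PolyIndep J v := by
  intro P hP i
  have h1 : ∑ i, aeval (coeffMap f J) ((P i).map f) * coeffMap f (v i) = 0 := by
    have := congrArg (coeffMap f) hP
    rw [map_sum, map_zero] at this
    rw [← this]
    refine Finset.sum_congr rfl fun i _ => ?_
    rw [map_mul, coeffMap_aeval]
  have h2 := h (fun i => (P i).map f) h1 i
  exact (Polynomial.map_eq_zero_iff hf).mp h2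

end Transport

section Transcendence

variable (A : Type*) [CommRing A]

theorem algebraMap_laurent_eq_C (a : A) :
    algebraMap A (LaurentSeries A) a = HahnSeries.C a := by
  rw [HahnSeries.algebraMap_apply']
  have h1 : algebraMap A (PowerSeries A) a = PowerSeries.C a := by simp
  rw [h1, HahnSeries.ofPowerSeries_C]

theorem laurent_coeff_smul (a : A) (x : LaurentSeries A) (m : ℤ) :
    (@HSMul.hSMul A (LaurentSeries A) (LaurentSeries A)
      (@instHSMul A (LaurentSeries A) (powerSeriesAlgebra ℤ A).toSMul) a x).coeff m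
      = a * x.coeff m := by
  rw [Algebra.smul_def, algebraMap_laurent_eq_C, HahnSeries.C_mul_eq_smul]
  exact @HahnSeries.coeff_smul ℤ A _ A _ _ a x m

/-- The coefficient of `q^{-deg P}` in `P(j)` is the leading coefficient of `P`. -/
theorem coeff_aeval_jqModC (P : A[X]) :
    (aeval (jqModC A) P).coeff (-(P.natDegree : ℤ)) = P.leadingCoeff := by
  rw [Polynomial.aeval_eq_sum_range, HahnSeries.coeff_sum, Finset.sum_range_succ]
  rw [Finset.sum_eq_zero, zero_add]
  · refine (laurent_coeff_smul A _ _ _).trans ?_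
    rw [coeff_jqModC_pow_self, mul_one]
    rfl
  · intro m hm
    refine (laurent_coeff_smul A _ _ _).trans ?_
    rw [coeff_jqModC_pow_of_lt, mul_zero]
    have := Finset.mem_range.mp hm
    omega

theorem aeval_jqModC_eq_zero_iff (P : A[X]) : aeval (jqModC A) P = 0 ↔ P = 0 := by
  refine ⟨fun h => ?_, fun h => by rw [h, map_zero]⟩
  have := coeff_aeval_jqModC A P
  rw [h, HahnSeries.coeff_zero] at this
  exact Polynomial.leadingCoeff_eq_zero.mp this.symm

end Transcendence

section Field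

variable {k : Type*} [Field k] {n : ℕ}

/-- Linear independence over `k(J)` implies polynomial independence, for transcendental `J`. -/
theorem polyIndep_of_linearIndependent {J : LaurentSeries k}
    (hJ : ∀ P : k[X], aeval J P = 0 → P = 0) {v : Fin n → LaurentSeries k}
    (h : LinearIndependent (IntermediateField.adjoin k {J}) v) : PolyIndep J v := by
  intro P hP i
  rw [Fintype.linearIndependent_iff] at h
  have hmem : ∀ i, aeval J (P i) ∈ IntermediateField.adjoin k {J} := fun i =>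
    (IntermediateField.mem_adjoin_simple_iff k _).mpr ⟨P i, 1, by simp⟩
  have h1 := h (fun i => ⟨aeval J (P i), hmem i⟩) (by
    rw [← hP]
    exact Finset.sum_congr rfl fun i _ => rfl) i
  exact hJ _ (congrArg Subtype.val h1)

/-- Polynomial independence implies linear independence over `k(J)`. -/
theorem linearIndependent_of_polyIndep {J : LaurentSeries k} {v : Fin n → LaurentSeries k}
    (h : PolyIndep J v) : LinearIndependent (IntermediateField.adjoin k {J}) v := by
  classical
  rw [Fintype.linearIndependent_iff]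
  intro g hg
  have hrs : ∀ i, ∃ r s : k[X], aeval J s ≠ 0 ∧ (g i : LaurentSeries k) * aeval J s = aeval J r := by
    intro i
    obtain ⟨r, s, hrs⟩ := (IntermediateField.mem_adjoin_simple_iff k _).mp (g i).2
    by_cases hs : aeval J s = 0
    · refine ⟨0, 1, by simp, ?_⟩
      rw [hs, div_zero] at hrs
      simp [hrs]
    · exact ⟨r, s, hs, by rw [hrs, div_mul_cancel₀ _ hs]⟩
  choose r s hs hrs using hrs
  set t : Fin n → k[X] := fun i => r i * ∏ l ∈ Finset.univ.erase i, s l with ht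
  have hS : ∀ i, aeval J (t i) = (g i : LaurentSeries k) * aeval J (∏ l, s l) := by
    intro i
    rw [ht]
    simp only [map_mul]
    rw [← hrs i, ← Finset.mul_prod_erase Finset.univ s (Finset.mem_univ i)]
    simp only [map_mul]
    ring
  have hrel : ∑ i, aeval J (t i) * v i = 0 := by
    have : ∑ i, aeval J (t i) * v i = aeval J (∏ l, s l) * ∑ i, (g i) • v i := by
      rw [Finset.mul_sum]
      refine Finset.sum_congr rfl fun i _ => ?_
      rw [hS i, IntermediateField.smul_def, smul_eq_mul]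
      ring
    rw [this, hg, mul_zero]
  have ht0 := h t hrel
  intro i
  have h1 : (g i : LaurentSeries k) * aeval J (∏ l, s l) = 0 := by
    rw [← hS i, ht0 i, map_zero]
  have h2 : aeval J (∏ l, s l) ≠ 0 := by
    rw [map_prod]
    exact Finset.prod_ne_zero_iff.mpr fun l _ => hs l
  have h3 : (g i : LaurentSeries k) = 0 := (mul_eq_zero.mp h1).resolve_right h2
  exact Subtype.ext h3

end Field

section Integers

variable {n : ℕ}

/-- Clearing denominators: polynomial independence over `ℤ` gives it over `ℚ`. -/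
theorem PolyIndep.rat_of_int {J : LaurentSeries ℤ} {Y : Fin n → LaurentSeries ℤ}
    (h : PolyIndep J Y) :
    PolyIndep (coeffMap (Int.castRingHom ℚ) J) (fun i => coeffMap (Int.castRingHom ℚ) (Y i)) := by
  classical
  intro P hP
  have hnorm : ∀ i, ∃ (b : ℤ) (Q : ℤ[X]), b ≠ 0 ∧
      Q.map (Int.castRingHom ℚ) = Polynomial.C (b : ℚ) * P i := by
    intro i
    obtain ⟨b, hbM, hb⟩ := IsLocalization.integerNormalization_spec (nonZeroDivisors ℤ) (P i)
    refine ⟨b, IsLocalization.integerNormalization (nonZeroDivisors ℤ) (P i),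
      nonZeroDivisors.ne_zero hbM, ?_⟩
    rw [algebraMap_int_eq] at hb
    rw [hb, Polynomial.C_mul', Int.cast_smul_eq_zsmul ℚ b (P i)]
  choose b Q hb hQ using hnorm
  set c : Fin n → ℤ := fun i => ∏ l ∈ Finset.univ.erase i, b l with hc
  set m : ℤ := ∏ l, b l with hm
  have hm0 : (m : ℚ) ≠ 0 := by
    rw [hm]; exact_mod_cast Finset.prod_ne_zero_iff.mpr fun l _ => hb l
  have hcm : ∀ i, c i * b i = m := fun i => by
    rw [hc, hm, mul_comm]
    exact Finset.mul_prod_erase Finset.univ b (Finset.mem_univ i)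
  have hQ' : ∀ i, (Polynomial.C (c i) * Q i).map (Int.castRingHom ℚ)
      = Polynomial.C (m : ℚ) * P i := by
    intro i
    rw [Polynomial.map_mul, Polynomial.map_C, hQ i, ← mul_assoc, ← Polynomial.C_mul]
    congr 2
    rw [eq_intCast, ← hcm i]
    push_cast
    ring
  have hrel : ∑ i, aeval J (Polynomial.C (c i) * Q i) * Y i = 0 := by
    apply coeffMap_injective_of_injective (Int.castRingHom ℚ) Int.cast_injective
    rw [map_sum, map_zero]
    have : ∑ i, coeffMap (Int.castRingHom ℚ) (aeval J (Polynomial.C (c i) * Q i) * Y i)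
        = aeval (coeffMap (Int.castRingHom ℚ) J) (Polynomial.C (m : ℚ)) *
          ∑ i, aeval (coeffMap (Int.castRingHom ℚ) J) (P i) *
            coeffMap (Int.castRingHom ℚ) (Y i) := by
      rw [Finset.mul_sum]
      refine Finset.sum_congr rfl fun i _ => ?_
      rw [map_mul, coeffMap_aeval, hQ' i, map_mul]
      ring
    rw [this, hP, mul_zero]
  have h0 := h _ hrel
  intro i
  have h1 : Polynomial.C (m : ℚ) * P i = 0 := by rw [← hQ' i, h0 i, Polynomial.map_zero]
  exact (mul_eq_zero.mp h1).resolve_left (by simpa using hm0)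

/-- Content descent: polynomial independence over a field `k` (after reducing coefficients along
`ℤ → k`) gives polynomial independence over `ℤ`. -/
theorem PolyIndep.int_of_field {k : Type*} [Field k] {J : LaurentSeries ℤ}
    {Y : Fin n → LaurentSeries ℤ}
    (h : PolyIndep (coeffMap (Int.castRingHom k) J)
      (fun i => coeffMap (Int.castRingHom k) (Y i))) : PolyIndep J Y := by
  classical
  obtain ⟨p, hp⟩ := CharP.exists k
  -- every relation has all coefficients divisible by `p`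
  have hdvd : ∀ P : Fin n → ℤ[X], ∑ i, aeval J (P i) * Y i = 0 →
      ∀ i, Polynomial.C (p : ℤ) ∣ P i := by
    intro P hP i
    have h1 : ∑ i, aeval (coeffMap (Int.castRingHom k) J) ((P i).map (Int.castRingHom k)) *
        coeffMap (Int.castRingHom k) (Y i) = 0 := by
      have := congrArg (coeffMap (Int.castRingHom k)) hP
      rw [map_sum, map_zero] at this
      rw [← this]
      refine Finset.sum_congr rfl fun i _ => ?_
      rw [map_mul, coeffMap_aeval]
    have h2 := h _ h1 i
    rw [Polynomial.C_dvd_iff_dvd_coeff]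
    intro d
    have h3 := congrArg (fun q => q.coeff d) h2
    simp only [Polynomial.coeff_map, Polynomial.coeff_zero, eq_intCast] at h3
    exact (CharP.intCast_eq_zero_iff k p _).mp h3
  rcases Nat.eq_zero_or_pos p with hp0 | hppos
  · intro P hP i
    obtain ⟨R, hR⟩ := hdvd P hP i
    rw [hR, hp0]
    simp
  · have hp2 : 2 ≤ p := by
      rcases (CharP.char_is_prime_or_zero k p) with h | h
      · exact h.two_le
      · omega
    -- all coefficients are divisible by every power of `p`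
    have hpow : ∀ e : ℕ, ∀ P : Fin n → ℤ[X], ∑ i, aeval J (P i) * Y i = 0 →
        ∀ i d, (p : ℤ) ^ e ∣ (P i).coeff d := by
      intro e
      induction e with
      | zero => intro P _ i d; simp
      | succ e ih =>
        intro P hP i d
        have hall := hdvd P hP
        choose R hR using hall
        have hRrel : ∑ i, aeval J (R i) * Y i = 0 := by
          have h1 : ((p : ℤ) : LaurentSeries ℤ) * ∑ i, aeval J (R i) * Y i = 0 := by
            rw [← hP, Finset.mul_sum]
            refine Finset.sum_congr rfl fun i _ => ?_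
            rw [hR i, map_mul, Polynomial.aeval_C, mul_assoc]
            simp
          rcases mul_eq_zero.mp h1 with h2 | h2
          · exfalso
            have h3 : ((p : ℤ) : LaurentSeries ℤ) ≠ 0 := by
              rw [← map_intCast (HahnSeries.C : ℤ →+* LaurentSeries ℤ)]
              intro h4
              have h5 : ((p : ℤ) : ℤ) = 0 :=
                HahnSeries.C_injective (h4.trans (map_zero _).symm)
              simp at h5
              omega
            exact h3 h2
          · exact h2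
        have := ih R hRrel i d
        rw [hR i, Polynomial.coeff_C_mul, pow_succ, mul_comm]
        exact mul_dvd_mul_left _ this
    intro P hP i
    ext d
    rw [Polynomial.coeff_zero]
    set a := (P i).coeff d with ha
    have h1 := hpow a.natAbs P hP i d
    refine Int.eq_zero_of_dvd_of_natAbs_lt_natAbs h1 ?_
    rw [Int.natAbs_pow, Int.natAbs_natCast]
    calc a.natAbs < 2 ^ a.natAbs := Nat.lt_two_pow_self
      _ ≤ p ^ a.natAbs := Nat.pow_le_pow_left hp2 _

end Integers

end Fermat.Agent.S28.H325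

end
end
-- ===== PACK-END S28/H325/PolyIndep.lean

-- ===== PACK-BEGIN S28/H325/Glue.lean
section




/-!
# S28, piece [L-glue], part 2: from degree bounds to `CoreData`

Input: integrality of the `j(q^d)` over `ℤ[j]`, an upper bound `n` for the degree of
`F = ℚ(j(q^d) : d ∣ N)` over `ℚ(j)` and `n` elements of `K'(j(q^d) : d ∣ N)` which are linearly
independent over `K'(j)` (for some field `K' ⊇ K`).  Output: `CoreData N K`.
-/

set_option autoImplicit false

noncomputable section

open ModularCurve HahnSeries Polynomial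

namespace Fermat.Agent.S28.H325

/-- reduction of integral `q`-series to a ring `k`. -/
abbrev castL (k : Type*) [CommRing k] : LaurentSeries ℤ →+* LaurentSeries k :=
  coeffMap (Int.castRingHom k)

theorem castL_jqModC (k : Type*) [CommRing k] : castL k (jqModC ℤ) = jqModC k :=
  coeffMap_jqModC _

theorem castL_comp {k k' : Type*} [CommRing k] [CommRing k'] (φ : k →+* k')
    (x : LaurentSeries ℤ) : coeffMap φ (castL k x) = castL k' x := by
  rw [castL, castL, coeffMap_coeffMap]
  exact coeffMap_congr (RingHom.ext_int _ _) x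

theorem castL_image_intDivisorExpansions (k : Type*) [Field k] (N : ℕ) :
    castL k '' intDivisorExpansions N = divisorExpansionsC k N := by
  ext x
  constructor
  · rintro ⟨y, ⟨d, hd, hdN, rfl⟩, rfl⟩
    exact ⟨d, hd, hdN, by rw [castL, coeffMap_qExpand, coeffMap_jqModC]⟩
  · rintro ⟨d, hd, hdN, rfl⟩
    exact ⟨_, ⟨d, hd, hdN, rfl⟩, by rw [castL, coeffMap_qExpand, coeffMap_jqModC]⟩

/-- `jField k` is `k(j)`. -/
theorem jField_eq (k : Type*) [Field k] : jField k = IntermediateField.adjoin k {jqModC k} := rfl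

theorem jqModC_mem_jField (k : Type*) [Field k] : jqModC k ∈ jField k :=
  IntermediateField.subset_adjoin k _ (Set.mem_singleton _)

/-- The transfer theorem: linear independence over `K'(j)` of the reductions implies linear
independence over `K(j)` (for a subfield `K → K'`) and over `ℚ(j)`. -/
theorem linearIndependent_transfer {K K' : Type*} [Field K] [Field K'] (φ : K →+* K') {n : ℕ}
    (Y : Fin n → LaurentSeries ℤ)
    (h : LinearIndependent (jField K') (fun i => castL K' (Y i))) :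
    LinearIndependent (jField K) (fun i => castL K (Y i)) ∧
      LinearIndependent (jField ℚ) (fun i => castL ℚ (Y i)) := by
  have h1 : PolyIndep (jqModC K') (fun i => castL K' (Y i)) :=
    polyIndep_of_linearIndependent (fun P hP => (aeval_jqModC_eq_zero_iff K' P).mp hP) h
  constructor
  · apply linearIndependent_of_polyIndep
    apply PolyIndep.of_injective φ φ.injective
    rw [coeffMap_jqModC]
    simpa only [castL_comp] using h1
  · have h2 : PolyIndep (jqModC ℤ) Y := by
      apply PolyIndep.int_of_field (k := K')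
      rw [coeffMap_jqModC]
      exact h1
    have h3 := PolyIndep.rat_of_int h2
    rw [coeffMap_jqModC] at h3
    exact linearIndependent_of_polyIndep h3

/-! ### Integrality and the monomial spanning set -/

theorem castL_comp_evalAt (k : Type*) [CommRing k] :
    (castL k).comp (evalAt (jqModC ℤ)) = evalAt (jqModC k) := by
  refine Polynomial.ringHom_ext' (Subsingleton.elim _ _) ?_
  simp [evalAt, castL_jqModC]

/-- `ℤ[X] → k(j)`, `X ↦ j`. -/
def evalJField (k : Type*) [Field k] : Polynomial ℤ →+* jField k :=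
  Polynomial.eval₂RingHom (Int.castRingHom (jField k)) ⟨jqModC k, jqModC_mem_jField k⟩

theorem algebraMap_comp_evalJField (k : Type*) [Field k] :
    (algebraMap (jField k) (LaurentSeries k)).comp (evalJField k) = evalAt (jqModC k) := by
  refine Polynomial.ringHom_ext' (Subsingleton.elim _ _) ?_
  simp [evalAt, evalJField]

theorem isIntegral_jField_of_monic (k : Type*) [Field k] (d : ℕ) [NeZero d]
    (h : ∃ P : Polynomial (Polynomial ℤ), P.Monic ∧
      P.eval₂ (evalAt (jqModC ℤ)) (qExpand ℤ d (jqModC ℤ)) = 0) :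
    IsIntegral (jField k) (qExpand k d (jqModC k)) := by
  obtain ⟨P, hmonic, hP⟩ := h
  refine ⟨P.map (evalJField k), hmonic.map _, ?_⟩
  rw [Polynomial.eval₂_map, algebraMap_comp_evalJField, ← castL_comp_evalAt]
  have := congrArg (castL k) hP
  rw [Polynomial.hom_eval₂, map_zero, castL, coeffMap_qExpand, coeffMap_jqModC] at this
  exact this

/-- Under integrality, `k(j(q^d) : d ∣ N)` is spanned over `k(j)` by the monomials in the
`j(q^d)`. -/
theorem mem_span_monomials_of_mem_full (k : Type*) [Field k] (N : ℕ) [NeZero N]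
    (hint : ∀ (d : ℕ) [NeZero d], d ∣ N →
      ∃ P : Polynomial (Polynomial ℤ), P.Monic ∧
        P.eval₂ (evalAt (jqModC ℤ)) (qExpand ℤ d (jqModC ℤ)) = 0)
    {x : LaurentSeries k} (hx : x ∈ modularFunctionFieldFullC k N) :
    x ∈ Submodule.span (jField k)
      ((Submonoid.closure (divisorExpansionsC k N) : Submonoid (LaurentSeries k)) :
        Set (LaurentSeries k)) := by
  have halg : ∀ y ∈ divisorExpansionsC k N, IsAlgebraic (jField k) y := by
    rintro y ⟨d, hd, hdN, rfl⟩
    exact (isIntegral_jField_of_monic k d (hint d hdN)).isAlgebraic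
  have h1 : x ∈ IntermediateField.adjoin (jField k) (divisorExpansionsC k N) := by
    have h2 : modularFunctionFieldFullC k N ≤
        (IntermediateField.adjoin (jField k) (divisorExpansionsC k N)).restrictScalars k := by
      rw [modularFunctionFieldFullC, IntermediateField.adjoin_le_iff]
      intro y hy
      exact IntermediateField.subset_adjoin (jField k) _ hy
    exact h2 hx
  have h3 := IntermediateField.adjoin_toSubalgebra_of_isAlgebraic halg
  have h4 : x ∈ (IntermediateField.adjoin (jField k) (divisorExpansionsC k N)).toSubalgebra := h1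
  rw [h3] at h4
  have h5 := Algebra.adjoin_eq_span (R := jField k) (s := divisorExpansionsC k N)
  have h6 : x ∈ Subalgebra.toSubmodule (Algebra.adjoin (jField k) (divisorExpansionsC k N)) := h4
  rw [h5] at h6
  exact h6

theorem monomials_subset_full (k : Type*) [Field k] (N : ℕ) :
    ((Submonoid.closure (divisorExpansionsC k N) : Submonoid (LaurentSeries k)) :
        Set (LaurentSeries k)) ⊆ modularFunctionFieldFullC k N := by
  intro x hx
  have : Submonoid.closure (divisorExpansionsC k N) ≤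
      (modularFunctionFieldFullC k N).toSubalgebra.toSubmonoid := by
    rw [Submonoid.closure_le]
    intro y hy
    exact IntermediateField.subset_adjoin k _ hy
  exact this hx

theorem castL_image_closure (k : Type*) [Field k] (N : ℕ) :
    castL k '' ((Submonoid.closure (intDivisorExpansions N) : Submonoid (LaurentSeries ℤ)) :
        Set (LaurentSeries ℤ)) =
      ((Submonoid.closure (divisorExpansionsC k N) : Submonoid (LaurentSeries k)) :
        Set (LaurentSeries k)) := by
  rw [← castL_image_intDivisorExpansions]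
  have := MonoidHom.map_mclosure ((castL k : LaurentSeries ℤ →+* LaurentSeries k) :
    LaurentSeries ℤ →* LaurentSeries k) (intDivisorExpansions N)
  have h2 := congrArg (fun S : Submonoid (LaurentSeries k) => (S : Set (LaurentSeries k))) this
  simp only [Submonoid.coe_map] at h2
  exact h2

/-! ### Extraction of independent monomials -/

open Cardinal in
/-- If `k(j(q^d) : d ∣ N)` contains `n` elements linearly independent over `k(j)`, then there are
`n` integral monomials in the `j(q^d)` whose reductions are linearly independent over `k(j)`. -/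
theorem exists_monomials_linearIndependent (k : Type*) [Field k] (N : ℕ) [NeZero N]
    (hint : ∀ (d : ℕ) [NeZero d], d ∣ N →
      ∃ P : Polynomial (Polynomial ℤ), P.Monic ∧
        P.eval₂ (evalAt (jqModC ℤ)) (qExpand ℤ d (jqModC ℤ)) = 0)
    (n : ℕ)
    (hL : ∃ x : Fin n → LaurentSeries k, (∀ i, x i ∈ modularFunctionFieldFullC k N) ∧
      LinearIndependent (jField k) x) :
    ∃ Y : Fin n → LaurentSeries ℤ,
      (∀ i, Y i ∈ Submonoid.closure (intDivisorExpansions N)) ∧
      LinearIndependent (jField k) (fun i => castL k (Y i)) := by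
  classical
  obtain ⟨x, hxF, hxli⟩ := hL
  set T : Set (LaurentSeries k) :=
    ((Submonoid.closure (divisorExpansionsC k N) : Submonoid (LaurentSeries k)) :
        Set (LaurentSeries k)) with hT
  obtain ⟨b, hbT, hspan, hli⟩ := exists_linearIndependent (jField k) T
  have hxb : ∀ i, x i ∈ Submodule.span (jField k) b := fun i => by
    rw [hspan]
    exact mem_span_monomials_of_mem_full k N hint (hxF i)
  have hli' : LinearIndependent (jField k)
      (fun i => (⟨x i, hxb i⟩ : Submodule.span (jField k) b)) := by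
    apply LinearIndependent.of_comp (Submodule.span (jField k) b).subtype
    exact hxli
  have h1 := hli'.cardinal_lift_le_rank
  have h2 : Module.rank (jField k) (Submodule.span (jField k) b) = #b := rank_span_set hli
  rw [h2] at h1
  obtain ⟨e⟩ := Cardinal.lift_mk_le'.mp h1
  have hmem : ∀ i, ∃ Y : LaurentSeries ℤ,
      Y ∈ Submonoid.closure (intDivisorExpansions N) ∧ castL k Y = (e i : LaurentSeries k) := by
    intro i
    have h3 : (e i : LaurentSeries k) ∈ T := hbT (e i).2
    rw [hT, ← castL_image_closure] at h3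
    obtain ⟨Y, hY, hYe⟩ := h3
    exact ⟨Y, hY, hYe⟩
  choose Y hY hYe using hmem
  refine ⟨Y, hY, ?_⟩
  have h4 : (fun i => castL k (Y i)) = (fun z : b => (z : LaurentSeries k)) ∘ e := by
    funext i
    exact hYe i
  rw [h4]
  exact hli.comp e e.injective

/-! ### Assembly -/

/-- **Glue.** Degree bounds (upper bound `n` over `ℚ`, lower bound `n` over some field `K' ⊇ K`)
together with integrality of the `j(q^d)` produce `CoreData N K`. -/
theorem coreData_of_bounds (N : ℕ) [NeZero N] (K : Type) [Field K] {K' : Type*} [Field K']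
    (φ : K →+* K') (n : ℕ)
    (hint : ∀ (d : ℕ) [NeZero d], d ∣ N →
      ∃ P : Polynomial (Polynomial ℤ), P.Monic ∧
        P.eval₂ (evalAt (jqModC ℤ)) (qExpand ℤ d (jqModC ℤ)) = 0)
    (hU : ∀ (m : ℕ) (x : Fin m → LaurentSeries ℚ), (∀ i, x i ∈ modularFunctionFieldFull N) →
      LinearIndependent (jField ℚ) x → m ≤ n)
    (hL : ∃ x : Fin n → LaurentSeries K', (∀ i, x i ∈ modularFunctionFieldFullC K' N) ∧
      LinearIndependent (jField K') x) :
    CoreData N K := by
  obtain ⟨Y, hY, hYli⟩ := exists_monomials_linearIndependent K' N hint n hL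
  obtain ⟨hK, hQ⟩ := linearIndependent_transfer φ Y hYli
  refine ⟨⟨n, Y, ?_, ?_, hK⟩, fun d _ hd => hint d hd⟩
  · intro i
    have : Submonoid.closure (intDivisorExpansions N) ≤
        (Subring.closure (intDivisorExpansions N)).toSubmonoid := by
      rw [Submonoid.closure_le]
      exact Subring.subset_closure
    exact this (hY i)
  · intro x hx
    by_contra hxs
    have hYF : ∀ i, castL ℚ (Y i) ∈ modularFunctionFieldFull N := by
      intro i
      have h1 : castL ℚ (Y i) ∈ castL ℚ ''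
          ((Submonoid.closure (intDivisorExpansions N) : Submonoid (LaurentSeries ℤ)) :
            Set (LaurentSeries ℤ)) := ⟨Y i, hY i, rfl⟩
      rw [castL_image_closure] at h1
      exact monomials_subset_full ℚ N h1
    have hcons : LinearIndependent (jField ℚ)
        (Fin.cons x (fun i => castL ℚ (Y i)) : Fin (n + 1) → LaurentSeries ℚ) :=
      linearIndependent_finCons.mpr ⟨hQ, hxs⟩
    have := hU (n + 1) _ (fun i => by
      refine Fin.cases ?_ (fun j => ?_) i
      · simpa using hx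
      · simpa using hYF j) hcons
    omega

end Fermat.Agent.S28.H325

end
end
-- ===== PACK-END S28/H325/Glue.lean

-- ===== PACK-BEGIN S28/H326/Integral.lean
section
/-
S28 / helper326: integrality bookkeeping for Laurent series over `ℂ`:
* `IntCoeff` : the subring of series all of whose coefficients are algebraic integers;
* `jP p = j(t^p)` and the leading-coefficient lemma for `Q(j(t^p))`;
* `exists_int_poly_of_integral` : `Q ∈ ℚ[X]` with `Q(j(t^p))` having algebraic-integer
  coefficients has integer coefficients.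
-/




set_option autoImplicit false
set_option linter.unusedSectionVars false

noncomputable section

namespace Fermat.Agent.S28.H326

open ModularCurve HahnSeries

/-- Laurent series over `ℂ` whose coefficients are all algebraic integers. -/
def IntCoeff : Subring (LaurentSeries ℂ) where
  carrier := {x | ∀ n, IsIntegral ℤ (x.coeff n)}
  mul_mem' {x y} hx hy n := by
    rw [HahnSeries.coeff_mul]
    exact IsIntegral.sum _ fun ij _ => (hx _).mul (hy _)
  one_mem' n := by
    rw [HahnSeries.coeff_one]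
    split_ifs
    · exact isIntegral_one
    · exact isIntegral_zero
  add_mem' {x y} hx hy n := by
    rw [HahnSeries.coeff_add]
    exact (hx n).add (hy n)
  zero_mem' n := by
    rw [HahnSeries.coeff_zero]
    exact isIntegral_zero
  neg_mem' {x} hx n := by
    rw [HahnSeries.coeff_neg]
    exact (hx n).neg

theorem mem_IntCoeff {x : LaurentSeries ℂ} : x ∈ IntCoeff ↔ ∀ n, IsIntegral ℤ (x.coeff n) :=
  Iff.rfl

/-- coefficient cast `ℤ((q)) → ℂ((q))` -/
abbrev kap : LaurentSeries ℤ →+* LaurentSeries ℂ := coeffMap (Int.castRingHom ℂ)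

theorem kap_injective : Function.Injective kap := by
  intro x y h
  ext n
  have := congrArg (fun z => z.coeff n) h
  simpa using this

theorem kap_mem_IntCoeff (x : LaurentSeries ℤ) : kap x ∈ IntCoeff := fun n => by
  rw [coeffMap_coeff]
  exact isIntegral_algebraMap (R := ℤ) (A := ℂ) (x := x.coeff n)

variable (p : ℕ) [NeZero p]

theorem qExpand_mem_IntCoeff {x : LaurentSeries ℂ} (hx : x ∈ IntCoeff) :
    qExpand ℂ p x ∈ IntCoeff := fun n => by
  by_cases h : (p : ℤ) ∣ n
  · obtain ⟨m, rfl⟩ := h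
    rw [qExpand_coeff_mul]
    exact hx m
  · rw [qExpand_coeff_of_not_dvd p _ h]
    exact isIntegral_zero

theorem zeta_isIntegral : IsIntegral ℤ (zeta p) :=
  (zeta_isPrimitiveRoot p).isIntegral (Nat.pos_of_ne_zero (NeZero.ne p))

theorem cB_mem_IntCoeff (b : ℕ) (g : PowerSeries ℤ) :
    cB p b (g.map (Int.castRingHom ℂ)) ∈ IntCoeff := fun n => by
  rcases lt_or_ge n 0 with hn | hn
  · rw [cB_coeff_neg p b _ hn]
    exact isIntegral_zero
  · lift n to ℕ using hn
    rw [cB_coeff_nat, PowerSeries.coeff_map]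
    exact (((zeta_isIntegral p).pow b).pow n).mul
      (isIntegral_algebraMap (R := ℤ) (A := ℂ) (x := g.coeff n))

/-- `j(t^p)` over `ℂ`. -/
def jP : LaurentSeries ℂ := qExpand ℂ p (jqModC ℂ)

theorem jP_pow_coeff_self (n : ℕ) : (jP p ^ n).coeff (-((p : ℤ) * n)) = 1 := by
  rw [jP, ← map_pow, show -((p : ℤ) * n) = (p : ℤ) * (-(n : ℤ)) by ring, qExpand_coeff_mul,
    coeff_jqModC_pow_self]

theorem jP_pow_coeff_of_lt {i n : ℕ} (h : i < n) : (jP p ^ i).coeff (-((p : ℤ) * n)) = 0 := by
  rw [jP, ← map_pow, show -((p : ℤ) * n) = (p : ℤ) * (-(n : ℤ)) by ring, qExpand_coeff_mul]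
  exact coeff_jqModC_pow_of_lt ℂ (by omega)

theorem jP_pow_mem_IntCoeff (n : ℕ) : jP p ^ n ∈ IntCoeff := by
  refine Subring.pow_mem _ ?_ n
  rw [jP, ← coeffMap_jqModC (Int.castRingHom ℂ)]
  exact qExpand_mem_IntCoeff p (kap_mem_IntCoeff _)

theorem ratCast_mul_coeff (c : ℚ) (x : LaurentSeries ℂ) (n : ℤ) :
    ((c : LaurentSeries ℂ) * x).coeff n = (c : ℂ) * x.coeff n := by
  have : (c : LaurentSeries ℂ) = HahnSeries.C (c : ℂ) := (map_ratCast HahnSeries.C c).symm
  rw [this, HahnSeries.C_mul_eq_smul, HahnSeries.coeff_smul, smul_eq_mul]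

theorem rat_algebraMap_mul_coeff (c : ℚ) (x : LaurentSeries ℂ) (n : ℤ) :
    (algebraMap ℚ (LaurentSeries ℂ) c * x).coeff n = (c : ℂ) * x.coeff n := by
  rw [eq_ratCast, ratCast_mul_coeff]

/-- leading coefficient of `Q(j(t^p))` -/
theorem aeval_jP_coeff (Q : Polynomial ℚ) {n : ℕ} (hn : Q.natDegree ≤ n) :
    (Polynomial.aeval (jP p) Q).coeff (-((p : ℤ) * n)) = (Q.coeff n : ℂ) := by
  rw [Polynomial.aeval_eq_sum_range' (Nat.lt_succ_of_le hn), HahnSeries.coeff_sum,
    Finset.sum_range_succ]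
  rw [Finset.sum_eq_zero, zero_add, Algebra.smul_def, rat_algebraMap_mul_coeff,
    jP_pow_coeff_self, mul_one]
  · intro i hi
    rw [Algebra.smul_def, rat_algebraMap_mul_coeff, jP_pow_coeff_of_lt p (Finset.mem_range.mp hi),
      mul_zero]

theorem rat_of_isIntegral {a : ℚ} (h : IsIntegral ℤ (a : ℂ)) : ∃ m : ℤ, (m : ℚ) = a := by
  have h1 : IsIntegral ℤ a := by
    have := (isIntegral_algebraMap_iff (R := ℤ) (A := ℚ) (B := ℂ)
      (algebraMap ℚ ℂ).injective (x := a)).mp (by simpa using h)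
    exact this
  obtain ⟨m, hm⟩ := IsIntegrallyClosed.isIntegral_iff.mp h1
  exact ⟨m, by simpa using hm⟩

/-- **Integrality by leading terms**: if `Q(j(t^p))` has algebraic-integer coefficients,
then `Q` has integer coefficients. -/
theorem exists_int_poly_of_integral (Q : Polynomial ℚ)
    (h : Polynomial.aeval (jP p) Q ∈ IntCoeff) :
    ∃ Q' : Polynomial ℤ, Q'.map (Int.castRingHom ℚ) = Q := by
  suffices H : ∀ d : ℕ, ∀ Q : Polynomial ℚ, Q.natDegree < d →
      Polynomial.aeval (jP p) Q ∈ IntCoeff → ∃ Q' : Polynomial ℤ,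
        Q'.map (Int.castRingHom ℚ) = Q from H (Q.natDegree + 1) Q (Nat.lt_succ_self _) h
  intro d
  induction d with
  | zero => intro Q hQ; omega
  | succ d ih =>
    intro Q hQ hint
    have hle : Q.natDegree ≤ d := Nat.lt_succ_iff.mp hQ
    have hlead := aeval_jP_coeff p Q hle
    obtain ⟨m, hm⟩ := rat_of_isIntegral (hlead ▸ hint _)
    set Q1 : Polynomial ℚ := Q - Polynomial.C (Q.coeff d) * Polynomial.X ^ d with hQ1
    have hdeg : Q1.natDegree < d ∨ Q1 = 0 := by
      by_cases h0 : Q1 = 0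
      · exact Or.inr h0
      left
      have h1 : Q1.natDegree ≤ d := by
        refine (Polynomial.natDegree_sub_le _ _).trans (max_le hle ?_)
        exact Polynomial.natDegree_C_mul_X_pow_le _ _
      rcases Nat.lt_or_ge Q1.natDegree d with h2 | h2
      · exact h2
      · have h3 : Q1.natDegree = d := le_antisymm h1 h2
        have h4 : Q1.coeff d = 0 := by
          simp [hQ1]
        have h5 : Q1.leadingCoeff = 0 := by
          rw [Polynomial.leadingCoeff, h3, h4]
        exact absurd (Polynomial.leadingCoeff_eq_zero.mp h5) h0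
    have hint1 : Polynomial.aeval (jP p) Q1 ∈ IntCoeff := by
      rw [hQ1, map_sub, map_mul, Polynomial.aeval_C, map_pow, Polynomial.aeval_X]
      refine Subring.sub_mem _ hint ?_
      rw [← hm]
      have : algebraMap ℚ (LaurentSeries ℂ) (m : ℚ) = ((m : ℤ) : LaurentSeries ℂ) := by
        simp
      rw [this]
      exact Subring.mul_mem _ (intCast_mem _ m) (jP_pow_mem_IntCoeff p d)
    have hQ1' : ∃ Q' : Polynomial ℤ, Q'.map (Int.castRingHom ℚ) = Q1 := by
      rcases hdeg with h1 | h1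
      · rcases Nat.eq_zero_or_pos d with hd | hd
        · omega
        · exact ih Q1 (by omega) hint1 |>.elim (fun Q' h' => ⟨Q', h'⟩) |> fun x => x
      · exact ⟨0, by simp [h1]⟩
    obtain ⟨Q', hQ'⟩ := hQ1'
    refine ⟨Q' + Polynomial.C m * Polynomial.X ^ d, ?_⟩
    rw [Polynomial.map_add, hQ', Polynomial.map_mul, Polynomial.map_pow, Polynomial.map_X,
      Polynomial.map_C, hQ1]
    simp [hm]

end Fermat.Agent.S28.H326

end
end
-- ===== PACK-END S28/H326/Integral.lean

-- ===== PACK-BEGIN S28/H326/Pairs.lean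
section
/-
S28 / helper326: the conjugate families `w i` (of the modular unit `p¹² Δ(q^p)/Δ(q)`),
`Y i`, and `y i` (of `j(q^p)`), `i ∈ P¹(𝔽_p) = Option (Fin p)`, as Laurent series over `ℂ`
in `t = q^(1/p)`; their mixed power sums in terms of the integer Hecke series.
-/





set_option autoImplicit false
set_option linter.unusedSectionVars false

noncomputable section

namespace Fermat.Agent.S28.H326

open ModularCurve HahnSeries

/-! ### Integer data -/

/-- formal `Δ = q ∏ (1 - qⁿ)²⁴` as a power series over `ℤ` -/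
def DZ : PowerSeries ℤ := PowerSeries.X * dedekindEtaUnit

/-- formal `E₄³` -/
def EZ : PowerSeries ℤ := eisenstein4 ^ 3

theorem jNum_mul_unit : jNum * dedekindEtaUnit = EZ := by
  rw [jNum, EZ, mul_assoc, mul_comm dedekindEtaUnitInv, dedekindEtaUnit_mul_inv, mul_one]

/-- formal `Δ` as a Laurent series over `ℤ` -/
def deltaZ : LaurentSeries ℤ := HahnSeries.ofPowerSeries ℤ ℤ DZ

/-- formal `Δ⁻¹` as a Laurent series over `ℤ` -/
def deltaInvZ : LaurentSeries ℤ :=
  HahnSeries.single (-1 : ℤ) 1 * HahnSeries.ofPowerSeries ℤ ℤ dedekindEtaUnitInv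

theorem deltaZ_mul_deltaInvZ : deltaZ * deltaInvZ = 1 := by
  rw [deltaZ, deltaInvZ, DZ, map_mul, HahnSeries.ofPowerSeries_X]
  calc single (1 : ℤ) (1 : ℤ) * (HahnSeries.ofPowerSeries ℤ ℤ) dedekindEtaUnit *
        (single (-1 : ℤ) (1 : ℤ) * (HahnSeries.ofPowerSeries ℤ ℤ) dedekindEtaUnitInv)
      = (single (1 : ℤ) (1 : ℤ) * single (-1 : ℤ) (1 : ℤ)) *
          ((HahnSeries.ofPowerSeries ℤ ℤ) dedekindEtaUnit *
            (HahnSeries.ofPowerSeries ℤ ℤ) dedekindEtaUnitInv) := by ring
    _ = 1 := by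
      rw [← map_mul, dedekindEtaUnit_mul_inv, HahnSeries.single_mul_single]
      simp

/-- `jq · Δ = E₄³` in `ℤ((q))`. -/
theorem jq_mul_deltaZ : jqModC ℤ * deltaZ = HahnSeries.ofPowerSeries ℤ ℤ EZ := by
  rw [jqModC, deltaZ, DZ, map_mul, HahnSeries.ofPowerSeries_X, ← jNum_mul_unit, map_mul]
  have h : (jNum.map (Int.castRingHom ℤ)) = jNum := by
    ext n; simp
  rw [h]
  calc single (-1 : ℤ) (1 : ℤ) * (HahnSeries.ofPowerSeries ℤ ℤ) jNum *
        (single (1 : ℤ) (1 : ℤ) * (HahnSeries.ofPowerSeries ℤ ℤ) dedekindEtaUnit)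
      = (single (-1 : ℤ) (1 : ℤ) * single (1 : ℤ) (1 : ℤ)) *
          ((HahnSeries.ofPowerSeries ℤ ℤ) jNum *
            (HahnSeries.ofPowerSeries ℤ ℤ) dedekindEtaUnit) := by ring
    _ = _ := by
      rw [HahnSeries.single_mul_single]
      simp

/-! ### Complex versions -/

/-- cast of power series `ℤ⟦X⟧ → ℂ⟦X⟧` -/
abbrev toC : PowerSeries ℤ →+* PowerSeries ℂ := PowerSeries.map (Int.castRingHom ℂ)

theorem kap_ofPS (g : PowerSeries ℤ) : kap (HahnSeries.ofPowerSeries ℤ ℤ g) = ofPS (toC g) :=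
  coeffMap_ofPowerSeries _ g

variable (p : ℕ) [NeZero p]

/-- `U_p` on integer power series -/
def UpZ (g : PowerSeries ℤ) : PowerSeries ℤ := PowerSeries.mk fun n => g.coeff (n * p)

theorem toC_UpZ (g : PowerSeries ℤ) : toC (UpZ p g) = Up p (toC g) := by
  ext n
  simp [UpZ, Up]

/-- the integer Hecke series `p · T_p^{(k)} φ = p^k φ(q^p) + p (U_p φ)(q)` -/
def heckeL (k : ℕ) (φ : PowerSeries ℤ) : LaurentSeries ℤ :=
  (p : LaurentSeries ℤ) ^ k * qExpand ℤ p (HahnSeries.ofPowerSeries ℤ ℤ φ) +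
    (p : LaurentSeries ℤ) * HahnSeries.ofPowerSeries ℤ ℤ (UpZ p φ)

/-- **The analytic input** (to be supplied from the Hecke operator `T_p` on level one forms):
`p · T_p(E₄^{3a} Δ^r) = P(j) · Δ^{a+r}` with `P ∈ ℤ[X]`. -/
def HeckeInput : Prop :=
  ∀ a r : ℕ, ∃ P : Polynomial ℤ,
    heckeL p (12 * (a + r)) (EZ ^ a * DZ ^ r) =
      Polynomial.aeval (jqModC ℤ) P * deltaZ ^ (a + r)

/-- `θ : ℤ[Y] → ℂ((t))`, `Y ↦ j(t^p)` -/
def theta : Polynomial ℤ →+* LaurentSeries ℂ :=
  (qExpand ℂ p).comp (kap.comp (Polynomial.aeval (jqModC ℤ)).toRingHom)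

theorem theta_apply (P : Polynomial ℤ) :
    theta p P = qExpand ℂ p (kap (Polynomial.aeval (jqModC ℤ) P)) := rfl

theorem theta_X : theta p Polynomial.X = jP p := by
  rw [theta_apply, Polynomial.aeval_X, jP, coeffMap_jqModC]

theorem theta_eq_aeval (P : Polynomial ℤ) :
    theta p P = Polynomial.aeval (jP p) (P.map (Int.castRingHom ℚ)) := by
  induction P using Polynomial.induction_on' with
  | add a b ha hb => rw [map_add, ha, hb, Polynomial.map_add, map_add]
  | monomial n c =>
    rw [← Polynomial.C_mul_X_pow_eq_monomial, map_mul, map_pow, theta_X, Polynomial.map_mul,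
      Polynomial.map_pow, Polynomial.map_X, Polynomial.map_C, map_mul, map_pow,
      Polynomial.aeval_X, Polynomial.aeval_C]
    congr 1
    rw [theta_apply, Polynomial.aeval_C]
    simp

/-- The `ℚ`-subalgebra `ℚ[j(t^p)]` of `ℂ((t))`. -/
def Bsub : Subalgebra ℚ (LaurentSeries ℂ) := (Polynomial.aeval (jP p)).range

theorem theta_mem_Bsub (P : Polynomial ℤ) : theta p P ∈ Bsub p :=
  ⟨P.map (Int.castRingHom ℚ), (theta_eq_aeval p P).symm⟩

/-! ### The conjugates -/

/-- `E₄³` over `ℂ` -/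
def EC : PowerSeries ℂ := toC EZ
/-- `Δ` over `ℂ` -/
def DC : PowerSeries ℂ := toC DZ

/-- the `p + 1` conjugation maps, indexed by `P¹(𝔽_p)` -/
def conj : Option (Fin p) → (PowerSeries ℂ →+* LaurentSeries ℂ)
  | none => cInf p
  | some b => cB p b

/-- the weight-12 scalars -/
def scal : Option (Fin p) → LaurentSeries ℂ
  | none => (p : LaurentSeries ℂ) ^ 12
  | some _ => 1

/-- `Δ(t^p)` -/
def del : LaurentSeries ℂ := cBase p DC

/-- `Δ(t^p)⁻¹` -/
def delInv : LaurentSeries ℂ := qExpand ℂ p (kap deltaInvZ)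

theorem del_eq : del p = qExpand ℂ p (kap deltaZ) := by
  rw [del, cBase, RingHom.comp_apply, deltaZ, kap_ofPS, DC]

theorem del_mul_delInv : del p * delInv p = 1 := by
  rw [del_eq, delInv, ← map_mul, ← map_mul, deltaZ_mul_deltaInvZ, map_one, map_one]

theorem delInv_mem_IntCoeff : delInv p ∈ IntCoeff :=
  qExpand_mem_IntCoeff p (kap_mem_IntCoeff _)

/-- conjugates of the unit: `w_∞ = p¹² Δ(t^(p²))/Δ(t^p)`, `w_b = Δ(ζ^b t)/Δ(t^p)` -/
def w (i : Option (Fin p)) : LaurentSeries ℂ := scal p i * conj p i DC * delInv p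

/-- `Y_∞ = p¹² E₄³(t^(p²))/Δ(t^p)`, `Y_b = E₄³(ζ^b t)/Δ(t^p)` -/
def Y (i : Option (Fin p)) : LaurentSeries ℂ := scal p i * conj p i EC * delInv p

theorem sum_scal_pow_conj (m : ℕ) (φ : PowerSeries ℤ) :
    ∑ i, scal p i ^ m * conj p i (toC φ) = qExpand ℂ p (kap (heckeL p (12 * m) φ)) := by
  rw [Fintype.sum_option]
  simp only [scal, conj, one_pow, one_mul]
  rw [Fin.sum_univ_eq_sum_range (fun b => cB p b (toC φ)) p, sum_cB, heckeL]
  simp only [map_add, map_mul, map_pow, map_natCast, coeffMap_qExpand, kap_ofPS, toC_UpZ,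
    ← pow_mul]
  rfl

/-- **Mixed power sums** are in `ℤ[j(t^p)]`. -/
theorem sum_Y_pow_mul_w_pow (h : HeckeInput p) (a r : ℕ) :
    ∃ P : Polynomial ℤ, ∑ i, Y p i ^ a * w p i ^ r = theta p P := by
  obtain ⟨P, hP⟩ := h a r
  refine ⟨P, ?_⟩
  have h1 : ∀ i, Y p i ^ a * w p i ^ r =
      (scal p i ^ (a + r) * conj p i (toC (EZ ^ a * DZ ^ r))) * delInv p ^ (a + r) := by
    intro i
    rw [Y, w, EC, DC, map_mul, map_mul, map_pow, map_pow, map_pow, map_pow]
    ring
  simp only [h1]
  rw [← Finset.sum_mul, sum_scal_pow_conj, hP, map_mul, map_mul, map_pow, map_pow, ← del_eq,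
    ← theta_apply, mul_assoc, ← mul_pow, del_mul_delInv, one_pow, mul_one]

theorem sum_w_pow_mem (h : HeckeInput p) (r : ℕ) : ∑ i, w p i ^ r ∈ Bsub p := by
  obtain ⟨P, hP⟩ := sum_Y_pow_mul_w_pow p h 0 r
  simp only [pow_zero, one_mul] at hP
  rw [hP]
  exact theta_mem_Bsub p P

end Fermat.Agent.S28.H326

end
end
-- ===== PACK-END S28/H326/Pairs.lean

-- ===== PACK-BEGIN Lib/RR/Basic.lean
section


/-!
# RR library, layer L1: the spaces `L(D)`

* `L(D) = 0` for `deg D < 0`;
* `L(D + P) ⊆ L(D) + K f₀`;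
* `L(D)` is finite-dimensional and `ℓ(D) ≤ deg D + 1` for `deg D ≥ -1`;
* `L(0) = K`, `ℓ(0) = 1`;
* `ℓ(D + div z) = ℓ(D)`.
-/

set_option autoImplicit false

noncomputable section

open AlgebraicCurve

namespace Fermat.Agent.Lib.RR

variable {K F : Type*} [Field K] [Field F] [Algebra K F]

/-! ### Divisors and degrees -/

theorem degree_eq_sum (D : Divisor K F) :
    Divisor.degree D = ∑ v ∈ D.support, D v * (v.deg : ℤ) := by
  simp [Divisor.degree, Finsupp.liftAddHom_apply, Finsupp.sum]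

theorem degree_nonneg {D : Divisor K F} (h : 0 ≤ D) : 0 ≤ Divisor.degree D := by
  rw [degree_eq_sum]
  refine Finset.sum_nonneg fun v _ => mul_nonneg ?_ (Int.natCast_nonneg _)
  simpa using Finsupp.le_def.mp h v

theorem degree_mono {D D' : Divisor K F} (h : D ≤ D') :
    Divisor.degree D ≤ Divisor.degree D' := by
  have h1 : 0 ≤ D' - D := sub_nonneg.mpr h
  have h2 := degree_nonneg h1
  rw [map_sub] at h2
  linarith

theorem degree_prim (v : Place K F) (hv : v.deg = 1) : Divisor.degree (prim v) = 1 := by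
  simp [prim, hv]

@[simp] theorem prim_apply_self (v : Place K F) : prim v v = 1 := by
  simp [prim]

theorem prim_apply_of_ne {v w : Place K F} (h : w ≠ v) : prim v w = 0 := by
  simp [prim, h.symm]

/-! ### The spaces `L(D)` -/

theorem mem_L_iff {D : Divisor K F} {f : F} :
    f ∈ riemannRochSpace D ↔ ∀ v : Place K F, f = 0 ∨ -D v ≤ v.ord f :=
  mem_riemannRochSpace_iff

theorem L_mono {D D' : Divisor K F} (h : D ≤ D') :
    riemannRochSpace D ≤ riemannRochSpace D' := by
  intro f hf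
  rw [mem_L_iff] at hf ⊢
  intro v
  rcases hf v with h0 | h1
  · exact Or.inl h0
  · right
    have := Finsupp.le_def.mp h v
    omega

/-- A nonzero element of `L(D)` forces `deg D ≥ 0`. -/
theorem degree_nonneg_of_mem_L [HasPrincipalDivisors K F] {D : Divisor K F} {f : F}
    (hf : f ∈ riemannRochSpace D) (hf0 : f ≠ 0) : 0 ≤ Divisor.degree D := by
  obtain ⟨E, hE, hE0⟩ := HasPrincipalDivisors.exists_divisor (K := K) f hf0
  have h1 : 0 ≤ D + E := by
    rw [Finsupp.le_def]
    intro v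
    have := (mem_L_iff.mp hf v).resolve_left hf0
    simp only [Finsupp.coe_zero, Pi.zero_apply, Finsupp.coe_add, Pi.add_apply, hE v]
    omega
  have h2 := degree_nonneg h1
  rw [map_add, hE0, add_zero] at h2
  exact h2

theorem L_eq_bot_of_degree_neg [HasPrincipalDivisors K F] {D : Divisor K F}
    (h : Divisor.degree D < 0) : riemannRochSpace D = ⊥ := by
  rw [eq_bot_iff]
  intro f hf
  rw [Submodule.mem_bot]
  by_contra hf0
  have := degree_nonneg_of_mem_L hf hf0
  omega

/-- One step: `L(D + P) ⊆ L(D) + K f₀` for any `f₀ ∈ L(D + P) \ L(D)`, `P` of degree one. -/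
theorem L_add_prim_le (v : Place K F) (hv : v.deg = 1) (D : Divisor K F) {f₀ : F}
    (hf₀ : f₀ ∈ riemannRochSpace (D + prim v)) (hf₀' : f₀ ∉ riemannRochSpace D) :
    riemannRochSpace (D + prim v) ≤ riemannRochSpace D ⊔ Submodule.span K {f₀} := by
  classical
  have hf₀0 : f₀ ≠ 0 := fun h => hf₀' (h ▸ Submodule.zero_mem _)
  -- the order of `f₀` at `v` is exactly `-(D v + 1)`
  have hord₀ : v.ord f₀ = -(D v + 1) := by
    have h1 := (mem_L_iff.mp hf₀ v).resolve_left hf₀0
    simp only [Finsupp.coe_add, Pi.add_apply, prim_apply_self] at h1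
    by_contra hne
    apply hf₀'
    rw [mem_L_iff]
    intro w
    right
    by_cases hw : w = v
    · subst hw; omega
    · have h2 := (mem_L_iff.mp hf₀ w).resolve_left hf₀0
      simpa [prim_apply_of_ne hw] using h2
  intro f hf
  rcases eq_or_ne f 0 with rfl | hf0
  · exact Submodule.zero_mem _
  have hordf := (mem_L_iff.mp hf v).resolve_left hf0
  simp only [Finsupp.coe_add, Pi.add_apply, prim_apply_self] at hordf
  have hg : 0 ≤ v.ord (f * f₀⁻¹) := by
    rw [v.ord_mul hf0 (inv_ne_zero hf₀0), v.ord_inv, hord₀]; omega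
  obtain ⟨c, hc⟩ := exists_const_sub v hv hg
  have hdecomp : f = (f - c • f₀) + c • f₀ := by ring
  rw [hdecomp]
  refine Submodule.add_mem _ (Submodule.mem_sup_left ?_)
    (Submodule.mem_sup_right (Submodule.smul_mem _ _ (Submodule.mem_span_singleton_self _)))
  have hmem' : f - c • f₀ ∈ riemannRochSpace (D + prim v) :=
    Submodule.sub_mem _ hf (Submodule.smul_mem _ _ hf₀)
  rw [mem_L_iff]
  intro w
  by_cases hw : w = v
  · subst hw
    have hfac : f - c • f₀ = (f * f₀⁻¹ - algebraMap K F c) * f₀ := by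
      rw [Algebra.smul_def]; field_simp
    rcases hc with hc | hc
    · left; rw [hfac, hc, zero_mul]
    · rcases eq_or_ne (f - c • f₀) 0 with h0 | h0
      · exact Or.inl h0
      right
      have hne : f * f₀⁻¹ - algebraMap K F c ≠ 0 := by
        intro h; rw [hfac, h, zero_mul] at h0; exact h0 rfl
      rw [hfac, w.ord_mul hne hf₀0, hord₀]
      omega
  · have h2 := mem_L_iff.mp hmem' w
    simpa [prim_apply_of_ne hw] using h2

/-- One step, dimension form. -/
theorem L_add_prim_finite (v : Place K F) (hv : v.deg = 1) (D : Divisor K F)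
    [Module.Finite K (riemannRochSpace D)] :
    Module.Finite K (riemannRochSpace (D + prim v)) ∧
      ell (D + prim v) ≤ ell D + 1 := by
  classical
  by_cases h : riemannRochSpace (D + prim v) ≤ riemannRochSpace D
  · have hfin : Module.Finite K (riemannRochSpace (D + prim v)) :=
      Submodule.finiteDimensional_of_le h
    exact ⟨hfin, (Submodule.finrank_mono h).trans (Nat.le_succ _)⟩
  · obtain ⟨f₀, hf₀, hf₀'⟩ := SetLike.not_le_iff_exists.mp h
    have hle := L_add_prim_le v hv D hf₀ hf₀'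
    have hfin' : Module.Finite K ↥(riemannRochSpace D ⊔ Submodule.span K {f₀}) := inferInstance
    have hfin : Module.Finite K (riemannRochSpace (D + prim v)) :=
      Submodule.finiteDimensional_of_le hle
    refine ⟨hfin, ?_⟩
    calc ell (D + prim v) ≤ Module.finrank K ↥(riemannRochSpace D ⊔ Submodule.span K {f₀}) :=
          Submodule.finrank_mono hle
      _ ≤ Module.finrank K (riemannRochSpace D) + Module.finrank K (Submodule.span K {f₀}) :=
          Submodule.finrank_add_le_finrank_add_finrank _ _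
      _ ≤ ell D + 1 := by
          have := finrank_span_singleton (K := K) (fun h => hf₀' (h ▸ Submodule.zero_mem _) : f₀ ≠ 0)
          rw [this]; rfl


/-! ### Consequences under the standing hypotheses -/

section FF1

variable [hFF : FF1 K F]

instance (priority := 100) instHasPrincipalDivisors_of_FF1 : HasPrincipalDivisors K F := hFF.hpd

theorem deg_eq_one (v : Place K F) : v.deg = 1 := FF1.deg_eq_one v

@[simp] theorem degree_prim' (v : Place K F) : Divisor.degree (prim v) = 1 :=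
  degree_prim v (deg_eq_one v)

/-- `L(D)` is finite-dimensional, of dimension at most `deg D + 1`. -/
theorem finite_and_ell_le : ∀ (n : ℕ) (D : Divisor K F), Divisor.degree D + 1 ≤ n →
    Module.Finite K (riemannRochSpace D) ∧ ell D ≤ n := by
  intro n
  induction n with
  | zero =>
    intro D hD
    have h : riemannRochSpace D = ⊥ := L_eq_bot_of_degree_neg (by push_cast at hD; omega)
    refine ⟨by rw [h]; infer_instance, ?_⟩
    have h0 : ell D = 0 := by unfold ell; rw [h]; exact finrank_bot K F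
    omega
  | succ n ih =>
    intro D hD
    obtain ⟨v₀⟩ := hFF.nonempty_place
    have hdeg : Divisor.degree (D - prim v₀) + 1 ≤ n := by
      rw [map_sub, degree_prim']; push_cast at hD; omega
    obtain ⟨hfin, hle⟩ := ih (D - prim v₀) hdeg
    have := L_add_prim_finite v₀ (deg_eq_one v₀) (D - prim v₀)
    rw [sub_add_cancel] at this
    exact ⟨this.1, this.2.trans (by omega)⟩

instance finite_L (D : Divisor K F) : Module.Finite K (riemannRochSpace D) :=
  (finite_and_ell_le (Divisor.degree D + 1).toNat D (Int.self_le_toNat _)).1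

theorem ell_le_toNat (D : Divisor K F) : ell D ≤ (Divisor.degree D + 1).toNat :=
  (finite_and_ell_le (Divisor.degree D + 1).toNat D (Int.self_le_toNat _)).2

theorem ell_le_degree_add_one {D : Divisor K F} (h : -1 ≤ Divisor.degree D) :
    (ell D : ℤ) ≤ Divisor.degree D + 1 := by
  have := ell_le_toNat D
  have h2 : ((Divisor.degree D + 1).toNat : ℤ) = Divisor.degree D + 1 :=
    Int.toNat_of_nonneg (by omega)
  omega

theorem ell_eq_zero_of_degree_neg {D : Divisor K F} (h : Divisor.degree D < 0) : ell D = 0 := by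
  unfold ell; rw [L_eq_bot_of_degree_neg h]; exact finrank_bot K F

theorem ell_mono {D D' : Divisor K F} (h : D ≤ D') : ell D ≤ ell D' :=
  Submodule.finrank_mono (L_mono h)

theorem ell_add_prim_le (D : Divisor K F) (v : Place K F) : ell (D + prim v) ≤ ell D + 1 :=
  (L_add_prim_finite v (deg_eq_one v) D).2

/-- Induction principle: from `D` upwards, adding one place at a time. -/
theorem induction_ge {P : Divisor K F → Prop} (D : Divisor K F) (h0 : P D)
    (hstep : ∀ (D' : Divisor K F) (v : Place K F), D ≤ D' → P D' → P (D' + prim v)) :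
    ∀ D', D ≤ D' → P D' := by
  classical
  have key : ∀ (n : ℕ) (D' : Divisor K F), D ≤ D' → Divisor.degree (D' - D) ≤ n → P D' := by
    intro n
    induction n with
    | zero =>
      intro D' hle hdeg
      have hE : 0 ≤ D' - D := sub_nonneg.mpr hle
      have hE0 : D' - D = 0 := by
        by_contra hne
        obtain ⟨v, hv⟩ := Finsupp.support_nonempty_iff.mpr hne
        rw [Finsupp.mem_support_iff] at hv
        have hv0 : 0 ≤ (D' - D) v := by simpa using Finsupp.le_def.mp hE v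
        have hge : prim v ≤ D' - D := by
          rw [Finsupp.le_def]
          intro w
          by_cases hw : w = v
          · subst hw; rw [prim_apply_self]; omega
          · rw [prim_apply_of_ne hw]; simpa using Finsupp.le_def.mp hE w
        have := degree_mono hge
        rw [degree_prim'] at this
        push_cast at hdeg
        omega
      rw [sub_eq_zero] at hE0
      rw [hE0]; exact h0
    | succ n ih =>
      intro D' hle hdeg
      by_cases hE0 : D' - D = 0
      · rw [sub_eq_zero] at hE0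
        rw [hE0]; exact h0
      have hE : 0 ≤ D' - D := sub_nonneg.mpr hle
      obtain ⟨v, hv⟩ := Finsupp.support_nonempty_iff.mpr hE0
      rw [Finsupp.mem_support_iff] at hv
      have hv0 : 0 ≤ (D' - D) v := by simpa using Finsupp.le_def.mp hE v
      have hge : prim v ≤ D' - D := by
        rw [Finsupp.le_def]
        intro w
        by_cases hw : w = v
        · subst hw; rw [prim_apply_self]; omega
        · rw [prim_apply_of_ne hw]; simpa using Finsupp.le_def.mp hE w
      have hle' : D ≤ D' - prim v := by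
        have : D + prim v ≤ D' := by
          have := add_le_add_left hge D
          rwa [sub_add_cancel, add_comm] at this
        exact le_sub_iff_add_le.mpr this
      have hdeg' : Divisor.degree (D' - prim v - D) ≤ n := by
        have : D' - prim v - D = (D' - D) - prim v := by abel
        rw [this, map_sub, degree_prim']
        push_cast at hdeg; omega
      have := hstep (D' - prim v) v hle' (ih (D' - prim v) hle' hdeg')
      rwa [sub_add_cancel] at this
  intro D' hle
  exact key (Divisor.degree (D' - D)).toNat D' hle (Int.self_le_toNat _)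

/-- `deg D - ℓ(D)` is monotone in `D`. -/
theorem degree_sub_ell_mono {D D' : Divisor K F} (h : D ≤ D') :
    Divisor.degree D - ell D ≤ Divisor.degree D' - ell D' := by
  refine induction_ge (P := fun D' => Divisor.degree D - ell D ≤ Divisor.degree D' - ell D')
    D le_rfl ?_ D' h
  intro D'' v _ hP
  have h1 := ell_add_prim_le D'' v
  rw [map_add, degree_prim']
  omega

/-- Functions without poles are constant. -/
theorem L_zero : riemannRochSpace (0 : Divisor K F) = LinearMap.range (Algebra.linearMap K F) := by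
  apply le_antisymm
  · intro f hf
    obtain ⟨v₀⟩ := hFF.nonempty_place
    have hf0 : 0 ≤ v₀.ord f := by
      rcases mem_L_iff.mp hf v₀ with h | h
      · simp [h]
      · simpa using h
    obtain ⟨c, hc⟩ := exists_const_sub v₀ (deg_eq_one v₀) hf0
    have hcL : algebraMap K F c ∈ riemannRochSpace (0 : Divisor K F) := by
      rw [mem_L_iff]; intro v; right; simp [ord_algebraMap]
    have hg : f - algebraMap K F c ∈ riemannRochSpace (0 : Divisor K F) :=
      Submodule.sub_mem _ hf hcL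
    have hzero : f - algebraMap K F c = 0 := by
      by_contra hne
      have hpos := hc.resolve_left hne
      have hmem : f - algebraMap K F c ∈ riemannRochSpace (-prim v₀) := by
        rw [mem_L_iff]
        intro w
        right
        by_cases hw : w = v₀
        · subst hw; simp only [Finsupp.coe_neg, Pi.neg_apply, prim_apply_self, neg_neg]; omega
        · have := (mem_L_iff.mp hg w).resolve_left hne
          simpa [prim_apply_of_ne hw] using this
      have hbot : riemannRochSpace (-prim v₀) = ⊥ :=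
        L_eq_bot_of_degree_neg (by rw [map_neg, degree_prim']; omega)
      rw [hbot, Submodule.mem_bot] at hmem
      exact hne hmem
    exact ⟨c, by rw [Algebra.linearMap_apply]; exact (sub_eq_zero.mp hzero).symm⟩
  · rintro _ ⟨c, rfl⟩
    rw [mem_L_iff]; intro v; right
    simp [ord_algebraMap]

theorem ell_zero : ell (0 : Divisor K F) = 1 := by
  unfold ell
  rw [L_zero]
  have hinj : Function.Injective (Algebra.linearMap K F) := (algebraMap K F).injective
  rw [LinearMap.finrank_range_of_inj hinj]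
  exact Module.finrank_self K

/-- The divisor of a nonzero function. -/
def divOf (z : F) (hz : z ≠ 0) : Divisor K F :=
  (HasPrincipalDivisors.exists_divisor (K := K) z hz).choose

theorem divOf_apply (z : F) (hz : z ≠ 0) (v : Place K F) : divOf z hz v = v.ord z :=
  (HasPrincipalDivisors.exists_divisor (K := K) z hz).choose_spec.1 v

@[simp] theorem degree_divOf (z : F) (hz : z ≠ 0) : Divisor.degree (divOf (K := K) z hz) = 0 :=
  (HasPrincipalDivisors.exists_divisor (K := K) z hz).choose_spec.2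

/-- Multiplication by `z` maps `L(D + div z)` isomorphically onto `L(D)`. -/
theorem ell_add_divOf (D : Divisor K F) (z : F) (hz : z ≠ 0) :
    ell (D + divOf z hz) = ell D := by
  let e : F ≃ₗ[K] F :=
    LinearEquiv.ofLinearMap (LinearMap.mulLeft K z) (LinearMap.mulLeft K z⁻¹)
      (by ext x; simp [hz]) (by ext x; simp [hz])
  have hmap : Submodule.map (e : F →ₗ[K] F) (riemannRochSpace (D + divOf z hz))
      = riemannRochSpace D := by
    ext f
    simp only [Submodule.mem_map, mem_L_iff]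
    constructor
    · rintro ⟨g, hg, rfl⟩ v
      rcases hg v with h | h
      · left; simp [e, h]
      · rcases eq_or_ne g 0 with rfl | hg0
        · left; simp [e]
        right
        show -D v ≤ v.ord (z * g)
        rw [v.ord_mul hz hg0]
        simp only [Finsupp.coe_add, Pi.add_apply, divOf_apply] at h
        omega
    · intro hf
      refine ⟨z⁻¹ * f, fun v => ?_, by simp [e, hz]⟩
      rcases hf v with h | h
      · left; simp [h]
      · rcases eq_or_ne f 0 with rfl | hf0
        · left; simp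
        right
        rw [v.ord_mul (inv_ne_zero hz) hf0, v.ord_inv]
        simp only [Finsupp.coe_add, Pi.add_apply, divOf_apply]
        omega
  unfold ell
  rw [← hmap]
  exact (LinearEquiv.finrank_map_eq e _).symm

end FF1

end Fermat.Agent.Lib.RR

end
end
-- ===== PACK-END Lib/RR/Basic.lean

-- ===== PACK-BEGIN S24/Mod/H368Gens.lean
section



/-!
# S24 / MOD glue (helper368): generators of the function field of `X₀(N)`

The Prelude defines `modularFunctionFieldBar N` as the field generated over `ℚ̄` by the image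
of the whole field `ℚ(j(q^d) : d ∣ N)`.  Here we show it is generated by the finitely many
series `j(q^d)`, `d ∣ N`, and deduce the `MvPolynomial` presentation used to construct
embeddings.
-/

set_option autoImplicit false
set_option linter.style.haveILetI false

noncomputable section

open ModularCurve IntermediateField MvPolynomial

namespace Fermat.Agent.S24.H368

variable (L : Type*) [Field L] [Algebra ℚ L]

/-- `j(q^d)` with coefficients in `L`, for a divisor `d` of `N`. -/
def gen (N : ℕ) (d : N.divisors) : LaurentSeries L :=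
  haveI : NeZero d.1 := ⟨(Nat.pos_of_mem_divisors d.2).ne'⟩
  coeffEmb L (qExpand ℚ d.1 jq)

theorem gen_eq (N : ℕ) (d : ℕ) [NeZero d] (hd : d ∈ N.divisors) :
    gen L N ⟨d, hd⟩ = coeffEmb L (qExpand ℚ d jq) := rfl

theorem gen_one (N : ℕ) [NeZero N] :
    gen L N ⟨1, Nat.one_mem_divisors.2 (NeZero.ne N)⟩ = coeffEmb L jq := by
  rw [gen_eq, qExpand_one_apply]

/-- The image under `coeffEmb` of the field generated by a set lies in the field generated by
the image of the set. -/
theorem coeffEmb_mem_adjoin_image (T : Set (LaurentSeries ℚ)) {x : LaurentSeries ℚ}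
    (hx : x ∈ IntermediateField.adjoin ℚ T) :
    coeffEmb L x ∈ IntermediateField.adjoin L (⇑(coeffEmb L) '' T) := by
  induction hx using IntermediateField.adjoin_induction with
  | mem y hy => exact subset_adjoin L _ ⟨y, hy, rfl⟩
  | algebraMap c =>
    have : coeffEmb L (algebraMap ℚ (LaurentSeries ℚ) c)
        = algebraMap L (LaurentSeries L) (algebraMap ℚ L c) := by
      rw [algebraMap_apply_eq_single, algebraMap_laurentSeries_eq_single]
      exact coeffMap_single _ _ _
    rw [this]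
    exact (IntermediateField.adjoin L _).algebraMap_mem _
  | add x y _ _ hx hy => rw [map_add]; exact add_mem hx hy
  | inv x _ hx => rw [map_inv₀]; exact inv_mem hx
  | mul x y _ _ hx hy => rw [map_mul]; exact mul_mem hx hy

theorem laurentBaseChange_adjoin (T : Set (LaurentSeries ℚ)) :
    laurentBaseChange L (IntermediateField.adjoin ℚ T)
      = IntermediateField.adjoin L (⇑(coeffEmb L) '' T) := by
  apply le_antisymm
  · rw [laurentBaseChange, adjoin_le_iff]
    rintro _ ⟨x, hx, rfl⟩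
    exact coeffEmb_mem_adjoin_image L T hx
  · rw [laurentBaseChange]
    exact IntermediateField.adjoin.mono L _ _ (Set.image_mono (subset_adjoin ℚ T))

theorem image_divisorExpansions (N : ℕ) [NeZero N] :
    ⇑(coeffEmb L) '' divisorExpansions N = Set.range (gen L N) := by
  ext x
  constructor
  · rintro ⟨y, ⟨d, hne, hd, rfl⟩, rfl⟩
    exact ⟨⟨d, Nat.mem_divisors.2 ⟨hd, NeZero.ne N⟩⟩, rfl⟩
  · rintro ⟨⟨d, hd⟩, rfl⟩
    exact ⟨_, ⟨d, ⟨(Nat.pos_of_mem_divisors hd).ne'⟩, Nat.dvd_of_mem_divisors hd, rfl⟩, rfl⟩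

/-- The function field of `X₀(N)` over `L` is generated over `L` by the `j(q^d)`, `d ∣ N`. -/
theorem laurentBaseChange_full_eq_adjoin (N : ℕ) [NeZero N] :
    laurentBaseChange L (modularFunctionFieldFull N)
      = IntermediateField.adjoin L (Set.range (gen L N)) := by
  rw [modularFunctionFieldFull, laurentBaseChange_adjoin, image_divisorExpansions]

theorem modularFunctionFieldBar_eq_adjoin (N : ℕ) [NeZero N] :
    modularFunctionFieldBar N
      = IntermediateField.adjoin (AlgebraicClosure ℚ) (Set.range (gen (AlgebraicClosure ℚ) N)) :=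
  laurentBaseChange_full_eq_adjoin _ N

/-- Every element of `K(s)` is a quotient of two polynomial expressions in the generators. -/
theorem exists_aeval_div {K E ι : Type*} [Field K] [Field E] [Algebra K E] (s : ι → E)
    {x : E} (hx : x ∈ IntermediateField.adjoin K (Set.range s)) :
    ∃ p q : MvPolynomial ι K, aeval s q ≠ 0 ∧ x = aeval s p / aeval s q := by
  obtain ⟨a, ha, b, hb, rfl⟩ := IntermediateField.mem_adjoin_iff_div.1 hx
  rw [Algebra.adjoin_range_eq_range_aeval] at ha hb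
  obtain ⟨p, rfl⟩ := ha
  obtain ⟨q, rfl⟩ := hb
  by_cases hq : aeval s q = 0
  · refine ⟨0, 1, by simp, ?_⟩
    simp [hq]
  · exact ⟨p, q, hq, rfl⟩

end Fermat.Agent.S24.H368

end
end
-- ===== PACK-END S24/Mod/H368Gens.lean

-- ===== PACK-BEGIN S18/Mod/H216/Parts.lean
section


/-!
# S18 / MOD-ASM (helper216): `Alg.GoodModel` split into six independent PARTS

`Alg.GoodModel Lc Ec Fc R V w x S` (Alg/Spec v4, on main) has 34 fields.  They are grouped here into six `Prop`-structures
with the SAME field names and the SAME field types, so that each group can be proved by a different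
owner, in any order:

| part | structure | fields |
|---|---|---|
| G-R   | `PartR Ec R w`        | `R_le R_total w_mem w_ne_zero w_inv_not_mem w_gen w_discrete residue_perfect` |
| G-FLD | `PartFld Lc Ec Fc x`  | `E_le_L E_le_F L_algebraic L_algClosed E_closed_in_F compositum x_mem x_transcendental finite` |
| G-V   | `PartV Fc R V w x`    | `V_le V_total R_le_V w_inv_not_mem_V V_gen x_mem_V gauss` |
| G-QEP | `PartQep Fc R V w x`  | `qep_fin qep_inf` |
| G-SEP | `PartSep R V w x`     | `separable` |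
| G-BR  | `PartBr Lc R x S`     | `S_mem S_distinct S_unit unramified` |

`goodModel_of_parts` assembles them (+ `CharZero Ω`); `GoodModel.partR` … project back.
Everything here is Mathlib-only (abstract field `Ω`).
-/

set_option autoImplicit false

namespace Fermat.Agent.S18.Mod.H216

open Fermat.Agent.S18.Alg

variable {Ω : Type*} [Field Ω]

/-- **G-R**: `R` is a discrete valuation ring of `Ec`, uniformiser `w`, perfect residue field. -/
structure PartR (Ec : Subfield Ω) (R : Subring Ω) (w : Ω) : Prop where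
  R_le : (R : Set Ω) ⊆ Ec
  R_total : ∀ e ∈ Ec, e ∈ R ∨ e⁻¹ ∈ R
  w_mem : w ∈ R
  w_ne_zero : w ≠ 0
  w_inv_not_mem : w⁻¹ ∉ R
  w_gen : ∀ r ∈ R, r⁻¹ ∉ R → r * w⁻¹ ∈ R
  w_discrete : ∀ r ∈ R, r ≠ 0 → ∃ n : ℕ, r * (w⁻¹) ^ n ∈ R ∧ (r * (w⁻¹) ^ n)⁻¹ ∈ R
  residue_perfect : ∃ p : ℕ, p.Prime ∧ (p : Ω) * w⁻¹ ∈ R ∧
    ∀ r ∈ R, ∃ s ∈ R, (r - s ^ p) * w⁻¹ ∈ R

/-- **G-FLD**: the fields `Ec ≤ Lc`, `Ec ≤ Fc`, and the coordinate `x`. -/
structure PartFld (Lc Ec Fc : Subfield Ω) (x : Ω) : Prop where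
  E_le_L : Ec ≤ Lc
  E_le_F : Ec ≤ Fc
  L_algebraic : ∀ a ∈ Lc, IsAlgebraic Ec a
  L_algClosed : IsAlgClosed Lc
  E_closed_in_F : ∀ f ∈ Fc, IsAlgebraic Ec f → f ∈ Ec
  compositum : Subfield.closure ((Fc : Set Ω) ∪ Lc) = ⊤
  x_mem : x ∈ Fc
  x_transcendental : Transcendental Lc x
  finite : ∃ s : Finset Ω, (s : Set Ω) ⊆ Fc ∧
    ∀ f ∈ Fc, f ∈ Submodule.span (ratField Ec x) (s : Set Ω)

/-- **G-V**: `V` is the Gauss valuation ring of `Fc`. -/
structure PartV (Fc : Subfield Ω) (R V : Subring Ω) (w x : Ω) : Prop where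
  V_le : (V : Set Ω) ⊆ Fc
  V_total : ∀ f ∈ Fc, f ∈ V ∨ f⁻¹ ∈ V
  R_le_V : R ≤ V
  w_inv_not_mem_V : w⁻¹ ∉ V
  V_gen : ∀ f ∈ V, f⁻¹ ∉ V → f * w⁻¹ ∈ V
  x_mem_V : x ∈ V
  gauss : ∀ P : Polynomial Ω, (∀ i, P.coeff i ∈ R) → (∃ i, P.coeff i ≠ 0 ∧ (P.coeff i)⁻¹ ∈ R) →
    (P.eval x)⁻¹ ∈ V

/-- **G-QEP**: the `q`-expansion principle on both charts. -/
structure PartQep (Fc : Subfield Ω) (R V : Subring Ω) (w x : Ω) : Prop where
  qep_fin : ∀ b ∈ chart Fc R x, b * w⁻¹ ∈ V → b * w⁻¹ ∈ chart Fc R x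
  qep_inf : ∀ b ∈ chart Fc R x⁻¹, b * w⁻¹ ∈ V → b * w⁻¹ ∈ chart Fc R x⁻¹

/-- **G-SEP**: the residue field of `V` is separable over `κ(x̄)`. -/
structure PartSep (R V : Subring Ω) (w x : Ω) : Prop where
  separable : ∀ f ∈ V, ∃ P : Polynomial Ω, (∀ i, P.coeff i ∈ polyRing R x) ∧
    P.eval f * w⁻¹ ∈ V ∧ (Polynomial.derivative P).eval f ≠ 0 ∧
    ((Polynomial.derivative P).eval f)⁻¹ ∈ V

/-- **G-BR**: the branch values. -/
structure PartBr (Lc : Subfield Ω) (R : Subring Ω) (x : Ω) (S : Finset Ω) : Prop where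
  S_mem : ∀ s ∈ S, s ∈ R
  S_distinct : ∀ s ∈ S, ∀ t ∈ S, s ≠ t → (s - t)⁻¹ ∈ R
  S_unit : ∀ s ∈ S, s ≠ 0 → s⁻¹ ∈ R
  unramified : ∀ O : ValuationSubring Ω, (∀ a ∈ Lc, a ∈ O) → ∀ c ∈ Lc, c ∉ S →
    x - c ∈ O → (x - c)⁻¹ ∉ O → ∀ t ∈ O, t⁻¹ ∉ O → t * (x - c)⁻¹ ∈ O

/-- **Assembly**: the six parts give a `GoodModel`. -/
theorem goodModel_of_parts {Lc Ec Fc : Subfield Ω} {R V : Subring Ω} {w x : Ω} {S : Finset Ω}
    (h0 : CharZero Ω) (hR : PartR Ec R w) (hF : PartFld Lc Ec Fc x) (hV : PartV Fc R V w x)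
    (hQ : PartQep Fc R V w x) (hS : PartSep R V w x) (hB : PartBr Lc R x S) :
    GoodModel Lc Ec Fc R V w x S where
  charZero := h0
  R_le := hR.R_le
  R_total := hR.R_total
  w_mem := hR.w_mem
  w_ne_zero := hR.w_ne_zero
  w_inv_not_mem := hR.w_inv_not_mem
  w_gen := hR.w_gen
  w_discrete := hR.w_discrete
  residue_perfect := hR.residue_perfect
  E_le_L := hF.E_le_L
  E_le_F := hF.E_le_F
  L_algebraic := hF.L_algebraic
  L_algClosed := hF.L_algClosed
  E_closed_in_F := hF.E_closed_in_F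
  compositum := hF.compositum
  x_mem := hF.x_mem
  x_transcendental := hF.x_transcendental
  finite := hF.finite
  V_le := hV.V_le
  V_total := hV.V_total
  R_le_V := hV.R_le_V
  w_inv_not_mem_V := hV.w_inv_not_mem_V
  V_gen := hV.V_gen
  x_mem_V := hV.x_mem_V
  gauss := hV.gauss
  qep_fin := hQ.qep_fin
  qep_inf := hQ.qep_inf
  separable := hS.separable
  S_mem := hB.S_mem
  S_distinct := hB.S_distinct
  S_unit := hB.S_unit
  unramified := hB.unramified

section Project

variable {Lc Ec Fc : Subfield Ω} {R V : Subring Ω} {w x : Ω} {S : Finset Ω}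

theorem partR_of_goodModel (h : GoodModel Lc Ec Fc R V w x S) : PartR Ec R w :=
  ⟨h.R_le, h.R_total, h.w_mem, h.w_ne_zero, h.w_inv_not_mem, h.w_gen, h.w_discrete,
    h.residue_perfect⟩

theorem partFld_of_goodModel (h : GoodModel Lc Ec Fc R V w x S) : PartFld Lc Ec Fc x :=
  ⟨h.E_le_L, h.E_le_F, h.L_algebraic, h.L_algClosed, h.E_closed_in_F, h.compositum, h.x_mem,
    h.x_transcendental, h.finite⟩

theorem partV_of_goodModel (h : GoodModel Lc Ec Fc R V w x S) : PartV Fc R V w x :=
  ⟨h.V_le, h.V_total, h.R_le_V, h.w_inv_not_mem_V, h.V_gen, h.x_mem_V, h.gauss⟩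

theorem partQep_of_goodModel (h : GoodModel Lc Ec Fc R V w x S) : PartQep Fc R V w x :=
  ⟨h.qep_fin, h.qep_inf⟩

theorem partSep_of_goodModel (h : GoodModel Lc Ec Fc R V w x S) : PartSep R V w x :=
  ⟨h.separable⟩

theorem partBr_of_goodModel (h : GoodModel Lc Ec Fc R V w x S) : PartBr Lc R x S :=
  ⟨h.S_mem, h.S_distinct, h.S_unit, h.unramified⟩

end Project

end Fermat.Agent.S18.Mod.H216

end
-- ===== PACK-END S18/Mod/H216/Parts.lean

-- ===== PACK-BEGIN S18/Mod/H216/QepAbs.lean
section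



/-!
# S18 / MOD (helper216): the q-expansion principle, ABSTRACT form (Mathlib-only + Lemma M)

Setting of `Alg/Spec.lean`: `R ⊆ Ec ⊆ Fc ⊆ Ω`, Gauss valuation ring `V`, uniformiser `w`,
coordinate `x`.  For `t ∈ {x, x⁻¹}` a **denominator statement**

    `Den t` : ∀ f ∈ Fc ∩ V, ∃ s ∈ R[t], s ∉ wV, s·f integral over R[t]

implies the q-expansion principle on the chart `R[t]` (`qep_of_den`; Lemma M of S28/H806).
`den_inv_of_den` transfers `Den x` to `Den x⁻¹`, so that

    `partQep_of_den` : PartR + PartV + x ∈ V + x transcendental over R + Den x  ⟹  PartQep.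
-/

set_option autoImplicit false
set_option linter.unusedSectionVars false
set_option linter.style.haveILetI false

noncomputable section

namespace Fermat.Agent.S18.Mod.H216

open Polynomial Fermat.Agent.S18.Alg

variable {Ω : Type*} [Field Ω]

section PolyRing

variable (R : Subring Ω) (t : Ω)

/-- Evaluation `R[X] → Ω`, `X ↦ t`. -/
def evR : (↥R)[X] →+* Ω := Polynomial.eval₂RingHom R.subtype t

theorem evR_apply (p : (↥R)[X]) : evR R t p = p.eval₂ R.subtype t := rfl

theorem evR_C (r : R) : evR R t (C r) = (r : Ω) := by simp [evR]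

theorem evR_X : evR R t X = t := by simp [evR]

theorem evR_eq_sum (p : (↥R)[X]) :
    evR R t p = ∑ i ∈ Finset.range (p.natDegree + 1), ((p.coeff i : R) : Ω) * t ^ i := by
  rw [evR_apply, Polynomial.eval₂_eq_sum_range]
  rfl

theorem polyRing_eq_range : polyRing R t = (evR R t).range := by
  apply le_antisymm
  · rw [polyRing, Subring.closure_le]
    rintro u (hu | hu)
    · exact ⟨C ⟨u, hu⟩, evR_C R t _⟩
    · rw [Set.mem_singleton_iff] at hu
      rw [hu]
      exact ⟨X, evR_X R t⟩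
  · rintro _ ⟨p, rfl⟩
    rw [evR_eq_sum]
    refine sum_mem fun i _ => mul_mem ?_ (pow_mem ?_ i)
    · exact Subring.subset_closure (Or.inl (p.coeff i).2)
    · exact Subring.subset_closure (Or.inr rfl)

theorem mem_polyRing_iff {u : Ω} : u ∈ polyRing R t ↔ ∃ p : (↥R)[X], evR R t p = u := by
  rw [polyRing_eq_range]
  rfl

theorem le_polyRing : R ≤ polyRing R t := fun _ hr => Subring.subset_closure (Or.inl hr)

theorem self_mem_polyRing : t ∈ polyRing R t := Subring.subset_closure (Or.inr rfl)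

theorem polyRing_le {V : Subring Ω} (hRV : R ≤ V) (ht : t ∈ V) : polyRing R t ≤ V := by
  rw [polyRing, Subring.closure_le]
  rintro u (hu | hu)
  · exact hRV hu
  · rw [Set.mem_singleton_iff] at hu
    rw [hu]
    exact ht

/-- `R[X] ≃ R[t]` when `t` is transcendental over `R`. -/
def polyEquiv (htr : Function.Injective (evR R t)) : (↥R)[X] ≃+* ↥(polyRing R t) :=
  (RingEquiv.ofBijective (evR R t).rangeRestrict
    ⟨fun a b h => htr (congrArg Subtype.val h), (evR R t).rangeRestrict_surjective⟩).trans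
    (RingEquiv.subringCongr (polyRing_eq_range R t).symm)

end PolyRing

section Main

variable {Ec Fc : Subfield Ω} {R V : Subring Ω} {w x : Ω}

theorem dvd_total_of_partR (hR : PartR Ec R w) (a b : ↥R) :
    ∃ c : ↥R, a * c = b ∨ b * c = a := by
  by_cases ha : (a : Ω) = 0
  · refine ⟨0, Or.inr ?_⟩
    apply Subtype.ext
    simp [ha]
  by_cases hb : (b : Ω) = 0
  · refine ⟨0, Or.inl ?_⟩
    apply Subtype.ext
    simp [hb]
  have hmem : (b : Ω) * (a : Ω)⁻¹ ∈ Ec := mul_mem (hR.R_le b.2) (inv_mem (hR.R_le a.2))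
  rcases hR.R_total _ hmem with h | h
  · refine ⟨⟨_, h⟩, Or.inl ?_⟩
    apply Subtype.ext
    show (a : Ω) * ((b : Ω) * (a : Ω)⁻¹) = b
    field_simp
  · refine ⟨⟨_, h⟩, Or.inr ?_⟩
    apply Subtype.ext
    show (b : Ω) * ((b : Ω) * (a : Ω)⁻¹)⁻¹ = a
    field_simp

theorem valuationRing_of_partR (hR : PartR Ec R w) : ValuationRing ↥R :=
  haveI : PreValuationRing ↥R := ⟨dvd_total_of_partR hR⟩
  {}

end Main

section Residue

variable {Fc : Subfield Ω} {R V : Subring Ω} {w x : Ω}

/-- The ideal `wV` of `V`. -/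
def wIdeal (V : Subring Ω) (w : Ω) (hw : w ∈ V) : Ideal ↥V := Ideal.span {(⟨w, hw⟩ : ↥V)}

theorem mem_wIdeal_iff (hw : w ∈ V) (hw0 : w ≠ 0) (u : ↥V) :
    u ∈ wIdeal V w hw ↔ (u : Ω) * w⁻¹ ∈ V := by
  rw [wIdeal, Ideal.mem_span_singleton]
  constructor
  · rintro ⟨c, hc⟩
    have h1 : (u : Ω) = w * c := congrArg Subtype.val hc
    have h2 : (u : Ω) * w⁻¹ = c := by rw [h1]; field_simp
    rw [h2]
    exact c.2
  · intro h
    refine ⟨⟨_, h⟩, Subtype.ext ?_⟩
    show (u : Ω) = w * ((u : Ω) * w⁻¹)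
    field_simp

theorem wIdeal_isPrime (hV : PartV Fc R V w x) (hwV : w ∈ V) (hw0 : w ≠ 0) :
    (wIdeal V w hwV).IsPrime := by
  rw [Ideal.isPrime_iff]
  constructor
  · intro h
    have h1 : (1 : ↥V) ∈ wIdeal V w hwV := by rw [h]; trivial
    rw [mem_wIdeal_iff hwV hw0] at h1
    apply hV.w_inv_not_mem_V
    simpa using h1
  · intro a b hab
    rw [mem_wIdeal_iff hwV hw0] at hab
    rw [mem_wIdeal_iff hwV hw0, mem_wIdeal_iff hwV hw0]
    by_contra hcon
    push Not at hcon
    have ha : (a : Ω)⁻¹ ∈ V := by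
      by_contra h
      exact hcon.1 (hV.V_gen a a.2 h)
    have ha0 : (a : Ω) ≠ 0 := by
      intro h0
      apply hcon.1
      rw [h0, zero_mul]
      exact zero_mem _
    have h3 : (b : Ω) * w⁻¹ = (a : Ω)⁻¹ * (((a * b : ↥V) : Ω) * w⁻¹) := by
      push_cast
      field_simp
    exact hcon.2 (h3 ▸ mul_mem ha hab)

end Residue

section Qep

variable {Ec Fc : Subfield Ω} {R V : Subring Ω} {w x : Ω}

/-- Kernel form of the Gauss property for the chart parameter `t`: a polynomial in `t` over `R`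
lying in `wV` has all its coefficients in `wR`. -/
def KernelAt (R V : Subring Ω) (w t : Ω) : Prop :=
  ∀ p : (↥R)[X], evR R t p * w⁻¹ ∈ V → ∀ i, ((p.coeff i : ↥R) : Ω) * w⁻¹ ∈ R

/-- The denominator statement on the chart `R[t]`. -/
def DenAt (Fc : Subfield Ω) (R V : Subring Ω) (w t : Ω) : Prop :=
  ∀ f ∈ Fc, f ∈ V → ∃ s ∈ polyRing R t, s * w⁻¹ ∉ V ∧ IsIntegral (polyRing R t) (s * f)

/-- **QEP from denominators** (Lemma M). -/
theorem qep_of_den (hR : PartR Ec R w) (hV : PartV Fc R V w x) (hEF : Ec ≤ Fc) {t : Ω}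
    (htV : t ∈ V) (htr : Function.Injective (evR R t)) (hker : KernelAt R V w t)
    (hden : DenAt Fc R V w t) :
    ∀ b ∈ chart Fc R t, b * w⁻¹ ∈ V → b * w⁻¹ ∈ chart Fc R t := by
  intro b hb hbV
  have hwR := hR.w_mem
  have hwV : w ∈ V := hV.R_le_V hwR
  have hw0 := hR.w_ne_zero
  have hwF : w ∈ Fc := hEF (hR.R_le hwR)
  have hyF : b * w⁻¹ ∈ Fc := mul_mem hb.1 (inv_mem hwF)
  refine ⟨hyF, ?_⟩
  obtain ⟨s, hsP, hsV, hsint⟩ := hden _ hyF hbV
  haveI := valuationRing_of_partR hR
  haveI : IsIntegrallyClosed ↥(polyRing R t) := IsIntegrallyClosed.of_equiv (polyEquiv R t htr)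
  haveI := wIdeal_isPrime hV hwV hw0
  have hPV : polyRing R t ≤ V := polyRing_le R t hV.R_le_V htV
  let red : ↥(polyRing R t) →+* (↥V ⧸ wIdeal V w hwV) :=
    (Ideal.Quotient.mk _).comp (Subring.inclusion hPV)
  have hred : ∀ u : ↥(polyRing R t), red u = 0 ↔ (u : Ω) * w⁻¹ ∈ V := by
    intro u
    show Ideal.Quotient.mk _ (Subring.inclusion hPV u) = 0 ↔ _
    rw [Ideal.Quotient.eq_zero_iff_mem, mem_wIdeal_iff hwV hw0]
    rfl
  let ell : ↥(polyRing R t) := ⟨w, le_polyRing R t hwR⟩
  refine Fermat.Agent.S28.H806.isIntegral_of_isIntegral_smul_of_isIntegral_smul red ell ⟨s, hsP⟩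
    ?_ ?_ ?_ ?_ (b * w⁻¹) ?_ ?_
  · intro h
    exact hw0 (congrArg Subtype.val h)
  · rw [hred]
    show w * w⁻¹ ∈ V
    rw [mul_inv_cancel₀ hw0]
    exact one_mem _
  · intro u hu
    rw [hred] at hu
    obtain ⟨p, hp⟩ := (mem_polyRing_iff R t).mp u.2
    have hc := hker p (by rw [hp]; exact hu)
    have hmem : (u : Ω) * w⁻¹ ∈ polyRing R t := by
      rw [← hp, evR_eq_sum, Finset.sum_mul]
      refine sum_mem fun i _ => ?_
      have h4 : ((p.coeff i : ↥R) : Ω) * t ^ i * w⁻¹ = (((p.coeff i : ↥R) : Ω) * w⁻¹) * t ^ i := by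
        ring
      rw [h4]
      exact mul_mem (le_polyRing R t (hc i)) (pow_mem (self_mem_polyRing R t) i)
    refine ⟨⟨_, hmem⟩, Subtype.ext ?_⟩
    show (u : Ω) = w * ((u : Ω) * w⁻¹)
    field_simp
  · rw [Ne, hred]
    exact hsV
  · have h5 : ell • (b * w⁻¹) = b := by
      show w * (b * w⁻¹) = b
      field_simp
    rw [h5]
    exact hb.2
  · exact hsint

/-- The kernel property for `x` from the `gauss` field. -/
theorem kernelAt_of_gauss (hR : PartR Ec R w) (hV : PartV Fc R V w x)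
    (htr : Function.Injective (evR R x)) : KernelAt R V w x := by
  intro p hp i
  by_contra hi
  have hci : ((p.coeff i : ↥R) : Ω) ≠ 0 := by
    intro h0
    apply hi
    rw [h0, zero_mul]
    exact zero_mem _
  have hunit : ((p.coeff i : ↥R) : Ω)⁻¹ ∈ R := by
    by_contra h
    exact hi (hR.w_gen _ (p.coeff i).2 h)
  have hg := hV.gauss (p.map R.subtype) (fun k => by rw [coeff_map]; exact (p.coeff k).2)
    ⟨i, by rw [coeff_map]; exact hci, by rw [coeff_map]; exact hunit⟩
  have hev : (p.map R.subtype).eval x = evR R x p := by rw [evR_apply, eval_map]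
  rw [hev] at hg
  have hne : evR R x p ≠ 0 := by
    intro h0
    have hp0 : p = 0 := htr (by rw [h0, map_zero])
    apply hci
    rw [hp0]
    simp
  apply hV.w_inv_not_mem_V
  have h6 : w⁻¹ = (evR R x p)⁻¹ * (evR R x p * w⁻¹) := by
    field_simp
  rw [h6]
  exact mul_mem hg hp

theorem inv_mem_V_of_gauss (hV : PartV Fc R V w x) : x⁻¹ ∈ V := by
  have h1 : (1 : Ω) ∈ R := one_mem _
  have hg := hV.gauss (X : Polynomial Ω) (fun k => by
      rw [coeff_X]
      split_ifs
      · exact one_mem _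
      · exact zero_mem _)
    ⟨1, by simp, by simp [h1]⟩
  simpa using hg

/-- `p(x⁻¹) = (reflect d p)(x) · x⁻ᵈ` for `d ≥ deg p`. -/
theorem evR_inv_eq (R : Subring Ω) {x : Ω} (hx0 : x ≠ 0) (p : (↥R)[X]) (d : ℕ)
    (hd : p.natDegree ≤ d) :
    evR R x⁻¹ p = evR R x (p.reflect d) * (x⁻¹) ^ d := by
  letI : Invertible x⁻¹ := invertibleOfNonzero (inv_ne_zero hx0)
  have h := eval₂_reflect_mul_pow R.subtype x⁻¹ d p hd
  rw [invOf_eq_inv, inv_inv] at h
  rw [evR_apply, evR_apply, h]

/-- `p(x) = (reflect d p)(x⁻¹) · xᵈ` for `d ≥ deg p`. -/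
theorem evR_eq_inv (R : Subring Ω) {x : Ω} (hx0 : x ≠ 0) (p : (↥R)[X]) (d : ℕ)
    (hd : p.natDegree ≤ d) :
    evR R x p = evR R x⁻¹ (p.reflect d) * x ^ d := by
  letI : Invertible x := invertibleOfNonzero hx0
  have h := eval₂_reflect_mul_pow R.subtype x d p hd
  rw [invOf_eq_inv] at h
  rw [evR_apply, evR_apply, h]

theorem coeff_eq_coeff_reflect (p : (↥R)[X]) (d i : ℕ) :
    p.coeff i = (p.reflect d).coeff (revAt d i) := by
  rw [coeff_reflect, revAt_invol]

theorem injective_evR_inv (hx0 : x ≠ 0) (htr : Function.Injective (evR R x)) :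
    Function.Injective (evR R x⁻¹) := by
  rw [injective_iff_map_eq_zero]
  intro p hp
  rw [evR_inv_eq R hx0 p p.natDegree le_rfl] at hp
  have h1 : evR R x (p.reflect p.natDegree) = 0 := by
    rcases mul_eq_zero.mp hp with h | h
    · exact h
    · exact absurd h (pow_ne_zero _ (inv_ne_zero hx0))
  have h2 : p.reflect p.natDegree = 0 := htr (by rw [h1, map_zero])
  ext i
  rw [coeff_eq_coeff_reflect p p.natDegree i, h2]
  simp

theorem kernelAt_inv (hx0 : x ≠ 0) (hxV : x ∈ V) (hker : KernelAt R V w x) :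
    KernelAt R V w x⁻¹ := by
  intro p hp i
  rw [coeff_eq_coeff_reflect p p.natDegree i]
  apply hker
  have h0 : (x⁻¹) ^ p.natDegree * x ^ p.natDegree = 1 := by
    rw [← mul_pow, inv_mul_cancel₀ hx0, one_pow]
  have h1 : evR R x (p.reflect p.natDegree) * w⁻¹ = evR R x⁻¹ p * w⁻¹ * x ^ p.natDegree := by
    rw [evR_inv_eq R hx0 p p.natDegree le_rfl]
    calc evR R x (p.reflect p.natDegree) * w⁻¹
        = evR R x (p.reflect p.natDegree) * w⁻¹ * ((x⁻¹) ^ p.natDegree * x ^ p.natDegree) := by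
          rw [h0, mul_one]
      _ = _ := by ring
  rw [h1]
  exact mul_mem hp (pow_mem hxV _)

/-- Integral over `R[x]` ⟹ `x⁻ᴰ · z` integral over `R[x⁻¹]` for some `D`. -/
theorem exists_pow_isIntegral_inv (R : Subring Ω) {x : Ω} (hx0 : x ≠ 0) {z : Ω}
    (hz : IsIntegral (polyRing R x) z) :
    ∃ D : ℕ, IsIntegral (polyRing R x⁻¹) ((x⁻¹) ^ D * z) := by
  classical
  obtain ⟨Q, hmonic, hroot⟩ := hz
  have hcoeff : ∀ i, ∃ p : (↥R)[X], evR R x p = ((Q.coeff i : ↥(polyRing R x)) : Ω) :=
    fun i => (mem_polyRing_iff R x).mp (Q.coeff i).2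
  choose p hp using hcoeff
  set D : ℕ := ∑ i ∈ Finset.range (Q.natDegree + 1), (p i).natDegree with hD
  have hpD : ∀ i ≤ Q.natDegree, (p i).natDegree ≤ D := fun i hi =>
    Finset.single_le_sum (f := fun i => (p i).natDegree) (fun _ _ => Nat.zero_le _)
      (Finset.mem_range.mpr (Nat.lt_succ_of_le hi))
  set q : Polynomial Ω := (Q.map (algebraMap (polyRing R x) Ω)).scaleRoots ((x⁻¹) ^ D) with hq
  have hqmonic : q.Monic := (Polynomial.monic_scaleRoots_iff _).mpr (hmonic.map _)
  have hqroot : q.eval ((x⁻¹) ^ D * z) = 0 := by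
    rw [hq, Polynomial.scaleRoots_eval_mul, Polynomial.eval_map, hroot, mul_zero]
  have hxx : ∀ n : ℕ, x ^ n * (x⁻¹) ^ n = 1 := fun n => by
    rw [← mul_pow, mul_inv_cancel₀ hx0, one_pow]
  have hqcoeff : ∀ i, q.coeff i ∈ polyRing R x⁻¹ := by
    intro i
    rw [hq, Polynomial.coeff_scaleRoots, Polynomial.coeff_map, hmonic.natDegree_map]
    by_cases hi : i < Q.natDegree
    · obtain ⟨k, hk⟩ : ∃ k, Q.natDegree - i = k + 1 := ⟨Q.natDegree - i - 1, by omega⟩
      have h1 : algebraMap (polyRing R x) Ω (Q.coeff i) = evR R x (p i) := (hp i).symm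
      have h2 : evR R x (p i) * (x⁻¹) ^ D = evR R x⁻¹ ((p i).reflect D) := by
        rw [evR_eq_inv R hx0 (p i) D (hpD i hi.le), mul_assoc, hxx, mul_one]
      have h3 : algebraMap (polyRing R x) Ω (Q.coeff i) * ((x⁻¹) ^ D) ^ (Q.natDegree - i) =
          evR R x⁻¹ ((p i).reflect D) * ((x⁻¹) ^ D) ^ k := by
        rw [hk, pow_succ, h1, ← h2]
        ring
      rw [h3]
      exact mul_mem ((mem_polyRing_iff R x⁻¹).mpr ⟨_, rfl⟩)
        (pow_mem (pow_mem (self_mem_polyRing R x⁻¹) D) k)
    · rcases (not_lt.mp hi).lt_or_eq with hlt | heq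
      · rw [Polynomial.coeff_eq_zero_of_natDegree_lt hlt, map_zero, zero_mul]
        exact zero_mem _
      · rw [← heq, hmonic.coeff_natDegree, map_one, one_mul, Nat.sub_self, pow_zero]
        exact one_mem _
  have hlifts : q ∈ Polynomial.lifts (algebraMap (polyRing R x⁻¹) Ω) :=
    (Polynomial.lifts_iff_coeff_lifts q).mpr fun i => ⟨⟨q.coeff i, hqcoeff i⟩, rfl⟩
  obtain ⟨q', hq'q, -, hq'monic⟩ := Polynomial.lifts_and_natDegree_eq_and_monic hlifts hqmonic
  refine ⟨D, q', hq'monic, ?_⟩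
  rw [Polynomial.eval₂_eq_eval_map, hq'q, hqroot]

/-- Transfer of the denominator statement from the chart `R[x]` to the chart `R[x⁻¹]`. -/
theorem denAt_inv (hx0 : x ≠ 0) (hxV : x ∈ V) (hden : DenAt Fc R V w x) :
    DenAt Fc R V w x⁻¹ := by
  intro f hf hfV
  obtain ⟨s, hsP, hsV, hsint⟩ := hden f hf hfV
  obtain ⟨p, hp⟩ := (mem_polyRing_iff R x).mp hsP
  obtain ⟨D, hD⟩ := exists_pow_isIntegral_inv R hx0 hsint
  have hxx : ∀ n : ℕ, x ^ n * (x⁻¹) ^ n = 1 := fun n => by
    rw [← mul_pow, mul_inv_cancel₀ hx0, one_pow]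
  have hs1 : (x⁻¹) ^ p.natDegree * s ∈ polyRing R x⁻¹ := by
    have h1 : (x⁻¹) ^ p.natDegree * s = evR R x⁻¹ (p.reflect p.natDegree) := by
      rw [← hp, evR_eq_inv R hx0 p p.natDegree le_rfl, mul_comm, mul_assoc, hxx, mul_one]
    rw [h1]
    exact (mem_polyRing_iff R x⁻¹).mpr ⟨_, rfl⟩
  refine ⟨(x⁻¹) ^ D * ((x⁻¹) ^ p.natDegree * s),
    mul_mem (pow_mem (self_mem_polyRing R x⁻¹) D) hs1, ?_, ?_⟩
  · intro h
    apply hsV
    have h2 : s * w⁻¹ =
        x ^ D * x ^ p.natDegree * ((x⁻¹) ^ D * ((x⁻¹) ^ p.natDegree * s) * w⁻¹) := by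
      calc s * w⁻¹ = (x ^ D * (x⁻¹) ^ D) * (x ^ p.natDegree * (x⁻¹) ^ p.natDegree) * (s * w⁻¹) := by
            rw [hxx, hxx, one_mul, one_mul]
        _ = _ := by ring
    rw [h2]
    exact mul_mem (mul_mem (pow_mem hxV D) (pow_mem hxV _)) h
  · have h3 : (x⁻¹) ^ D * ((x⁻¹) ^ p.natDegree * s) * f =
        (x⁻¹) ^ p.natDegree * ((x⁻¹) ^ D * (s * f)) := by ring
    rw [h3]
    have h4 : IsIntegral (polyRing R x⁻¹) ((x⁻¹) ^ p.natDegree) :=
      isIntegral_algebraMap (R := polyRing R x⁻¹) (A := Ω)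
        (x := ⟨(x⁻¹) ^ p.natDegree, pow_mem (self_mem_polyRing R x⁻¹) _⟩)
    exact h4.mul hD

/-- **G-QEP from denominators on the finite chart.** -/
theorem partQep_of_den (hR : PartR Ec R w) (hV : PartV Fc R V w x) (hEF : Ec ≤ Fc)
    (hxV : x ∈ V) (htr : Function.Injective (evR R x)) (hden : DenAt Fc R V w x) :
    PartQep Fc R V w x := by
  have hx0 : x ≠ 0 := by
    intro h0
    have h1 : evR R x X = evR R x 0 := by rw [evR_X, map_zero, h0]
    exact X_ne_zero (htr h1)
  have hker := kernelAt_of_gauss hR hV htr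
  exact ⟨qep_of_den hR hV hEF hxV htr hker hden,
    qep_of_den hR hV hEF (inv_mem_V_of_gauss hV) (injective_evR_inv hx0 htr)
      (kernelAt_inv hx0 hxV hker) (denAt_inv hx0 hxV hden)⟩

/-- Adapter: `x` transcendental over a subfield `Lc ⊇ R` (as in `GoodModel.x_transcendental`)
gives injectivity of `R[X] → Ω`. -/
theorem injective_evR_of_transcendental {Lc : Subfield Ω} (hRL : (R : Set Ω) ⊆ Lc)
    (hx : Transcendental Lc x) : Function.Injective (evR R x) := by
  rw [injective_iff_map_eq_zero]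
  intro p hp
  let ι : ↥R →+* ↥Lc := Subring.inclusion (S := R) (T := Lc.toSubring) hRL
  have h1 : Polynomial.aeval x (p.map ι) = 0 := by
    rw [Polynomial.aeval_def, Polynomial.eval₂_map]
    exact hp
  have h2 : p.map ι = 0 := by
    by_contra hne
    exact hx ⟨_, hne, h1⟩
  exact Polynomial.map_injective ι (Subring.inclusion_injective hRL) (by rw [h2, Polynomial.map_zero])

end Qep

end Fermat.Agent.S18.Mod.H216

end
end
-- ===== PACK-END S18/Mod/H216/QepAbs.lean

-- ===== PACK-BEGIN S18/H602/DVR.lean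
section



/-!
# S18, piece d1 (continued): `R_E = A ∩ E` is a discrete valuation ring  (owner helper602)

For a valuation subring `A ⊆ Q̄` lying over a prime `ℓ` (`(ℓ : Q̄) ∈ A.nonunits`, which is the
Prelude's `A.LiesOverPrime ℓ` unfolded) and a finite extension `E/ℚ` inside `Q̄`, the ring
`R_E = A ∩ E` is the localisation of `𝓞 E` at a nonzero prime; in particular it is a
discrete valuation ring.
-/

set_option autoImplicit false

noncomputable section

namespace Fermat.Agent.S18.H602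

open ModularCurve AlgebraicCurve HahnSeries IntermediateField IsDedekindDomain

open scoped NumberField

local notation "Q̄" => AlgebraicClosure ℚ

section DVR

/-- Valuation subrings contain all algebraic integers. -/
theorem mem_of_isIntegral_int {K : Type*} [Field K] (B : ValuationSubring K) {x : K}
    (hx : IsIntegral ℤ x) : x ∈ B := by
  have h : IsIntegral B x := hx.tower_top
  obtain ⟨y, rfl⟩ := (IsIntegrallyClosed.isIntegral_iff (R := B) (K := K)).mp h
  exact y.2

variable (A : ValuationSubring Q̄) (E : IntermediateField ℚ Q̄)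

theorem natCast_mem_RE (n : ℕ) : (n : E) ∈ RE A E := natCast_mem _ n

theorem natCast_not_isUnit_RE {ℓ : ℕ} (hA : (ℓ : Q̄) ∈ A.nonunits) :
    ¬ IsUnit (⟨(ℓ : E), natCast_mem_RE A E ℓ⟩ : RE A E) := by
  intro hu
  have hu' := (toA A E).isUnit_map hu
  rw [ValuationSubring.mem_nonunits_iff_exists_mem_maximalIdeal] at hA
  obtain ⟨hℓA, hmem⟩ := hA
  rw [IsLocalRing.mem_maximalIdeal, mem_nonunits_iff] at hmem
  apply hmem
  convert hu' using 1
  exact Subtype.ext (by simp)

theorem RE_ne_top {ℓ : ℕ} (hℓ : ℓ ≠ 0) (hA : (ℓ : Q̄) ∈ A.nonunits) : RE A E ≠ ⊤ := by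
  intro h
  apply natCast_not_isUnit_RE A E hA
  have hinv : ((ℓ : E)⁻¹ : E) ∈ RE A E := h ▸ ValuationSubring.mem_top _
  have hℓE : (ℓ : E) ≠ 0 := by exact_mod_cast hℓ
  exact isUnit_iff_exists_inv.mpr ⟨⟨_, hinv⟩, Subtype.ext (mul_inv_cancel₀ hℓE)⟩

theorem algebraMap_ringOfIntegers_mem_RE (x : 𝓞 E) : algebraMap (𝓞 E) E x ∈ RE A E :=
  mem_of_isIntegral_int _ (NumberField.RingOfIntegers.isIntegral_coe x)

/-- The inclusion `𝓞 E → R_E`. -/
def ofInt : 𝓞 E →+* RE A E :=
  (algebraMap (𝓞 E) E).codRestrict (RE A E) (algebraMap_ringOfIntegers_mem_RE A E)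

@[simp]
theorem coe_ofInt (x : 𝓞 E) : ((ofInt A E x : RE A E) : E) = algebraMap (𝓞 E) E x := rfl

/-- The prime of `𝓞 E` below the maximal ideal of `R_E`. -/
def primeBelow : Ideal (𝓞 E) := (IsLocalRing.maximalIdeal (RE A E)).comap (ofInt A E)

instance primeBelow_isPrime : (primeBelow A E).IsPrime :=
  Ideal.comap_isPrime (ofInt A E) _

theorem natCast_mem_primeBelow {ℓ : ℕ} (hA : (ℓ : Q̄) ∈ A.nonunits) :
    (ℓ : 𝓞 E) ∈ primeBelow A E := by
  rw [primeBelow, Ideal.mem_comap, IsLocalRing.mem_maximalIdeal, mem_nonunits_iff]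
  convert natCast_not_isUnit_RE A E hA using 2
  exact Subtype.ext (by simp)

theorem primeBelow_ne_bot {ℓ : ℕ} (hℓ : ℓ ≠ 0) (hA : (ℓ : Q̄) ∈ A.nonunits) :
    primeBelow A E ≠ ⊥ := by
  intro h
  have h1 := natCast_mem_primeBelow A E hA
  rw [h, Ideal.mem_bot] at h1
  exact hℓ (by exact_mod_cast h1)

theorem numberField_of_finiteDimensional [FiniteDimensional ℚ E] : NumberField E :=
  NumberField.mk

variable [NumberField E]

/-- The height-one prime of `𝓞 E` cut out by `A`. -/
def primeSpec {ℓ : ℕ} (hℓ : ℓ ≠ 0) (hA : (ℓ : Q̄) ∈ A.nonunits) : HeightOneSpectrum (𝓞 E) :=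
  ⟨primeBelow A E, inferInstance, primeBelow_ne_bot A E hℓ hA⟩

theorem valuationSubringAtPrime_le_RE {ℓ : ℕ} (hℓ : ℓ ≠ 0) (hA : (ℓ : Q̄) ∈ A.nonunits) :
    (primeSpec A E hℓ hA).valuationSubringAtPrime E ≤ RE A E := by
  rintro x ⟨a, s, hs, rfl⟩
  have hs' : IsUnit (ofInt A E s) := by
    by_contra hnu
    exact hs ((IsLocalRing.mem_maximalIdeal _).mpr hnu)
  obtain ⟨b, hb⟩ := isUnit_iff_exists_inv.mp hs'
  have hb' : algebraMap (𝓞 E) E s * (b : E) = 1 := congrArg (fun z : RE A E => (z : E)) hb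
  have hinv : (algebraMap (𝓞 E) E s)⁻¹ = (b : E) := inv_eq_of_mul_eq_one_right hb'
  rw [hinv]
  exact mul_mem (algebraMap_ringOfIntegers_mem_RE A E a) b.2

/-- `R_E = A ∩ E` is the localisation of `𝓞 E` at the prime below `A`. -/
theorem RE_eq_valuationSubringAtPrime {ℓ : ℕ} (hℓ : ℓ ≠ 0) (hA : (ℓ : Q̄) ∈ A.nonunits) :
    (primeSpec A E hℓ hA).valuationSubringAtPrime E = RE A E :=
  ValuationSubring.eq_of_le_of_ne_top _ (valuationSubringAtPrime_le_RE A E hℓ hA)
    (RE_ne_top A E hℓ hA)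

/-- `R_E = A ∩ E` is a discrete valuation ring (`E` a number field, `A` over a prime). -/
theorem isDiscreteValuationRing_RE' {ℓ : ℕ} (hℓ : ℓ ≠ 0) (hA : (ℓ : Q̄) ∈ A.nonunits) :
    IsDiscreteValuationRing ↥(RE A E) := by
  rw [← RE_eq_valuationSubringAtPrime A E hℓ hA]
  exact IsLocalization.AtPrime.isDiscreteValuationRing_of_dedekind_domain (𝓞 E)
    (primeSpec A E hℓ hA).ne_bot _

omit [NumberField E] in
/-- **`R_E = A ∩ E` is a discrete valuation ring** (for `E/ℚ` finite and `A` over a prime). -/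
theorem isDiscreteValuationRing_RE [FiniteDimensional ℚ E] {ℓ : ℕ} (hℓ : ℓ ≠ 0)
    (hA : (ℓ : Q̄) ∈ A.nonunits) : IsDiscreteValuationRing ↥(RE A E) :=
  haveI := numberField_of_finiteDimensional E
  isDiscreteValuationRing_RE' A E hℓ hA

end DVR

end Fermat.Agent.S18.H602

end
end
-- ===== PACK-END S18/H602/DVR.lean

-- ===== PACK-BEGIN S18/H107/Branch.lean
section



/-!
# helper107 — S18 / M3-T : branch data in valuation-subring form (Mathlib-only)

`Unram107 O z` : `z` generates the maximal ideal of `O` as far as divisibility is concerned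
(`∀ s ∈ 𝔪_O, s / z ∈ O`) — the conclusion of `GoodModel.unramified`.
`OrdLe107 O y k` : `ord_O y ≤ k` (`∀ s ∈ 𝔪_O, s ^ k / y ∈ O`).

`unram_of_factor107` : `y = z ^ k * U`, `U` a unit of `O`, `z ∈ 𝔪_O`, `ord_O y ≤ k` ⟹ `ord_O z ≤ 1`.
-/

set_option autoImplicit false

namespace Fermat.Agent.S18.H107

variable {Ω : Type*} [Field Ω]

/-- `ord_O y ≤ k`, in valuation-subring language. -/
def OrdLe107 (O : ValuationSubring Ω) (y : Ω) (k : ℕ) : Prop :=
  ∀ s ∈ O, s⁻¹ ∉ O → s ^ k * y⁻¹ ∈ O

theorem val_lt_one107 (O : ValuationSubring Ω) {s : Ω} (hs : s ∈ O) (hs' : s⁻¹ ∉ O) :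
    O.valuation s < 1 := by
  have h1 : O.valuation s ≤ 1 := (O.valuation_le_one_iff s).2 hs
  refine lt_of_le_of_ne h1 fun h => hs' ?_
  refine (O.valuation_le_one_iff _).1 ?_
  rw [map_inv₀, h, inv_one]

theorem mem_of_val_lt_one107 (O : ValuationSubring Ω) {s : Ω} (h : O.valuation s < 1) : s ∈ O :=
  (O.valuation_le_one_iff s).1 h.le

theorem inv_not_mem_of_val_lt_one107 (O : ValuationSubring Ω) {s : Ω} (hs0 : s ≠ 0)
    (h : O.valuation s < 1) : s⁻¹ ∉ O := by
  intro hmem
  have h1 : O.valuation s⁻¹ ≤ 1 := (O.valuation_le_one_iff _).2 hmem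
  rw [map_inv₀] at h1
  have hpos : 0 < O.valuation s := by
    rw [Valuation.pos_iff]
    exact hs0
  have h2 : (1 : O.ValueGroup) ≤ O.valuation s := by
    have := (inv_le_one₀ hpos).1 h1
    exact this
  exact absurd h (not_lt.2 h2)

theorem val_eq_one_of_mem107 (O : ValuationSubring Ω) {c : Ω} (hc : c ∈ O) (hc' : c⁻¹ ∈ O)
    (hc0 : c ≠ 0) : O.valuation c = 1 := by
  have h1 : O.valuation c ≤ 1 := (O.valuation_le_one_iff c).2 hc
  have h2 : O.valuation c⁻¹ ≤ 1 := (O.valuation_le_one_iff _).2 hc'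
  rw [map_inv₀] at h2
  have hpos : 0 < O.valuation c := by
    rw [Valuation.pos_iff]
    exact hc0
  exact le_antisymm h1 ((inv_le_one₀ hpos).1 h2)

theorem val_const107 (O : ValuationSubring Ω) (Lc : Subfield Ω) (hL : ∀ a ∈ Lc, a ∈ O) {c : Ω}
    (hc : c ∈ Lc) (hc0 : c ≠ 0) : O.valuation c = 1 :=
  val_eq_one_of_mem107 O (hL c hc) (hL _ (Lc.inv_mem hc)) hc0

theorem val_add_eq_one107 (O : ValuationSubring Ω) {u m : Ω} (hu : O.valuation u = 1)
    (hm : O.valuation m < 1) : O.valuation (u + m) = 1 := by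
  rw [← hu]
  exact Valuation.map_add_eq_of_lt_left _ (by rw [hu]; exact hm)

/-- `ord_O y ≤ k` in terms of the valuation. -/
theorem OrdLe107.val_le {O : ValuationSubring Ω} {y : Ω} {k : ℕ} (h : OrdLe107 O y k)
    (hy : y ≠ 0) {s : Ω} (hs : O.valuation s < 1) : O.valuation s ^ k ≤ O.valuation y := by
  rcases eq_or_ne s 0 with rfl | hs0
  · rcases Nat.eq_zero_or_pos k with rfl | hk
    · -- `k = 0`: need `1 ≤ v y`
      simp only [pow_zero]
      by_contra hlt
      rw [not_le] at hlt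
      -- then `y ∈ 𝔪_O`, and `OrdLe` with `s = y` gives `1 * y⁻¹ ∈ O`, contradiction
      have hyO : y ∈ O := mem_of_val_lt_one107 O hlt
      have hy' : y⁻¹ ∉ O := inv_not_mem_of_val_lt_one107 O hy hlt
      have := h y hyO hy'
      rw [pow_zero, one_mul] at this
      exact hy' this
    · rw [map_zero, zero_pow hk.ne']
      exact zero_le
  · have hsO : s ∈ O := mem_of_val_lt_one107 O hs
    have hs' : s⁻¹ ∉ O := inv_not_mem_of_val_lt_one107 O hs0 hs
    have h1 := (O.valuation_le_one_iff _).2 (h s hsO hs')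
    rw [map_mul, map_pow, map_inv₀] at h1
    have hpos : 0 < O.valuation y := by
      rw [Valuation.pos_iff]
      exact hy
    have := (mul_inv_le_iff₀ hpos).1 h1
    rwa [one_mul] at this

/-- **Key lemma**: `y = z ^ k * U` with `U` a unit at `O`, `z ∈ 𝔪_O`, `ord_O y ≤ k`, `k ≥ 1`
⟹ `z` is a uniformiser of `O`. -/
theorem unram_of_factor107 (O : ValuationSubring Ω) {y z U : Ω} {k : ℕ} (hk : k ≠ 0)
    (hy : y = z ^ k * U) (hU : O.valuation U = 1) (hz0 : z ≠ 0)
    (hord : OrdLe107 O y k) : OrdLe107 O z 1 := by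
  intro s hs hs'
  have hsv := val_lt_one107 O hs hs'
  have hU0 : U ≠ 0 := by
    intro h0
    rw [h0, map_zero] at hU
    exact zero_ne_one hU
  have hy0 : y ≠ 0 := by
    rw [hy]
    exact mul_ne_zero (pow_ne_zero _ hz0) hU0
  have h1 := hord.val_le hy0 hsv
  rw [hy, map_mul, map_pow, hU, mul_one] at h1
  have h2 : O.valuation s ≤ O.valuation z := le_of_pow_le_pow_left₀ hk zero_le h1
  refine (O.valuation_le_one_iff _).1 ?_
  rw [pow_one, map_mul, map_inv₀]
  have hpos : 0 < O.valuation z := by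
    rw [Valuation.pos_iff]
    exact hz0
  rw [mul_inv_le_iff₀ hpos, one_mul]
  exact h2

theorem OrdLe107.one_iff {O : ValuationSubring Ω} {z : Ω} :
    OrdLe107 O z 1 ↔ ∀ s ∈ O, s⁻¹ ∉ O → s * z⁻¹ ∈ O := by
  unfold OrdLe107
  simp only [pow_one]

/-- The branch data of the `j`-line needed for the Hauptmodul transfers: `Ω / Lc(j)` is unramified
outside `0, 1728, ∞`, with ramification index `≤ 3` over `0` and `≤ 2` over `1728`. -/
structure BranchJ107 (Lc : Subfield Ω) (j : Ω) : Prop where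
  generic : ∀ O : ValuationSubring Ω, (∀ a ∈ Lc, a ∈ O) → ∀ a ∈ Lc, a ≠ 0 → a ≠ 1728 →
    j - a ∈ O → (j - a)⁻¹ ∉ O → OrdLe107 O (j - a) 1
  zero : ∀ O : ValuationSubring Ω, (∀ a ∈ Lc, a ∈ O) → j ∈ O → j⁻¹ ∉ O → OrdLe107 O j 3
  c1728 : ∀ O : ValuationSubring Ω, (∀ a ∈ Lc, a ∈ O) → j - 1728 ∈ O → (j - 1728)⁻¹ ∉ O →
    OrdLe107 O (j - 1728) 2

end Fermat.Agent.S18.H107

end
-- ===== PACK-END S18/H107/Branch.lean

-- ===== PACK-BEGIN S18/H107/T2Branch.lean
section




/-!
# helper107 — S18 / M3-T : `unramified` for the Hauptmodul `t₂` (`j t² = (t + 256)³`)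

From the branch data of the `j`-line (`BranchJ107`): for every constant `c ∉ {-64, 0}`, at a place
`O` with `t ≡ c`, `t - c` is a uniformiser.  (`t = -256` lies over `j = 0` with `e(t/j) = 3`,
`t = 512` over `j = 1728` with `e(t/j) = 2`; only `t = -64`, `0`, `∞` can ramify in `Ω / Lc(t)`.)
-/

set_option autoImplicit false

namespace Fermat.Agent.S18.H107

variable {Ω : Type*} [Field Ω] [CharZero Ω]

theorem unramified_t2_107 (Lc : Subfield Ω) (j t : Ω) (hrel : j * t ^ 2 = (t + 256) ^ 3)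
    (hB : BranchJ107 Lc j) (O : ValuationSubring Ω) (hL : ∀ a ∈ Lc, a ∈ O) (c : Ω) (hc : c ∈ Lc)
    (hc64 : c ≠ -64) (hc0 : c ≠ 0) (hz : t - c ∈ O) (hz' : (t - c)⁻¹ ∉ O) :
    ∀ s ∈ O, s⁻¹ ∉ O → s * (t - c)⁻¹ ∈ O := by
  rw [← OrdLe107.one_iff]
  have hzv : O.valuation (t - c) < 1 := val_lt_one107 O hz hz'
  have hz0 : t - c ≠ 0 := by
    intro h0
    rw [h0, inv_zero] at hz'
    exact hz' O.zero_mem
  have hcv : O.valuation c = 1 := val_const107 O Lc hL hc hc0
  have htv : O.valuation t = 1 := by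
    have : t = c + (t - c) := by ring
    rw [this]
    exact val_add_eq_one107 O hcv hzv
  have ht0 : t ≠ 0 := by
    intro h0
    rw [h0, map_zero] at htv
    exact zero_ne_one htv
  have htO : t ∈ O := (O.valuation_le_one_iff _).1 htv.le
  have hcO : c ∈ O := hL c hc
  have ht2v : O.valuation ((t ^ 2)⁻¹) = 1 := by
    rw [map_inv₀, map_pow, htv, one_pow, inv_one]
  by_cases h256 : c = -256
  · -- over `j = 0`
    subst h256
    have hy : j = (t - -256) ^ 3 * (t ^ 2)⁻¹ := by
      field_simp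
      linear_combination hrel
    have hj0 : j ≠ 0 := by
      rw [hy]
      exact mul_ne_zero (pow_ne_zero _ hz0) (inv_ne_zero (pow_ne_zero _ ht0))
    have hjv : O.valuation j < 1 := by
      rw [hy, map_mul, ht2v, mul_one, map_pow]
      exact pow_lt_one₀ zero_le hzv (by norm_num)
    exact unram_of_factor107 O (k := 3) (by norm_num) hy ht2v hz0
      (hB.zero O hL (mem_of_val_lt_one107 O hjv) (inv_not_mem_of_val_lt_one107 O hj0 hjv))
  by_cases h512 : c = 512
  · -- over `j = 1728`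
    subst h512
    have h576 : O.valuation (576 : Ω) = 1 :=
      val_const107 O Lc hL (ofNat_mem Lc 576) (by norm_num)
    have ht64 : O.valuation (t + 64) = 1 := by
      have : t + 64 = 576 + (t - 512) := by ring
      rw [this]
      exact val_add_eq_one107 O h576 hzv
    have hUv : O.valuation ((t + 64) * (t ^ 2)⁻¹) = 1 := by
      rw [map_mul, ht64, ht2v, mul_one]
    have hy : j - 1728 = (t - 512) ^ 2 * ((t + 64) * (t ^ 2)⁻¹) := by
      field_simp
      linear_combination hrel
    have hU0 : (t + 64) * (t ^ 2)⁻¹ ≠ 0 := by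
      intro h0
      rw [h0, map_zero] at hUv
      exact zero_ne_one hUv
    have hy0 : j - 1728 ≠ 0 := by
      rw [hy]
      exact mul_ne_zero (pow_ne_zero _ hz0) hU0
    have hyv : O.valuation (j - 1728) < 1 := by
      rw [hy, map_mul, hUv, mul_one, map_pow]
      exact pow_lt_one₀ zero_le hzv (by norm_num)
    exact unram_of_factor107 O (k := 2) (by norm_num) hy hUv hz0
      (hB.c1728 O hL (mem_of_val_lt_one107 O hyv) (inv_not_mem_of_val_lt_one107 O hy0 hyv))
  · -- generic point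
    have hc256 : c + 256 ≠ 0 := fun h => h256 (by linear_combination h)
    have hc512 : c - 512 ≠ 0 := fun h => h512 (by linear_combination h)
    have hc64' : c + 64 ≠ 0 := fun h => hc64 (by linear_combination h)
    set a : Ω := (c + 256) ^ 3 * (c ^ 2)⁻¹ with ha
    have haL : a ∈ Lc :=
      Lc.mul_mem (Lc.pow_mem (Lc.add_mem hc (ofNat_mem Lc 256)) 3) (Lc.inv_mem (Lc.pow_mem hc 2))
    have ha0 : a ≠ 0 := mul_ne_zero (pow_ne_zero _ hc256) (inv_ne_zero (pow_ne_zero _ hc0))
    have ha1728 : a ≠ 1728 := by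
      intro h
      have h1 : (c - 512) ^ 2 * (c + 64) = 0 := by
        have h2 : (c + 256) ^ 3 = 1728 * c ^ 2 := by
          rw [ha] at h
          field_simp at h
          linear_combination h
        linear_combination h2
      rcases mul_eq_zero.1 h1 with h3 | h3
      · exact hc512 (pow_eq_zero_iff (by norm_num) |>.1 h3)
      · exact hc64' h3
    -- the cofactor
    set W : Ω := c ^ 2 * t ^ 2 - (196608 * c + 16777216) * t - 16777216 * c with hW
    set W₀ : Ω := c * (c + 256) ^ 2 * (c - 512) with hW₀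
    set W₁ : Ω := c ^ 2 * (t + c) - 196608 * c - 16777216 with hW₁
    have hW₀L : W₀ ∈ Lc :=
      Lc.mul_mem (Lc.mul_mem hc (Lc.pow_mem (Lc.add_mem hc (ofNat_mem Lc 256)) 2))
        (Lc.sub_mem hc (ofNat_mem Lc 512))
    have hW₀0 : W₀ ≠ 0 := mul_ne_zero (mul_ne_zero hc0 (pow_ne_zero _ hc256)) hc512
    have hW₁O : W₁ ∈ O :=
      sub_mem (sub_mem (mul_mem (pow_mem hcO 2) (add_mem htO hcO))
        (mul_mem (ofNat_mem O 196608) hcO)) (ofNat_mem O 16777216)
    have hWv : O.valuation W = 1 := by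
      have e : W = W₀ + (t - c) * W₁ := by
        rw [hW, hW₀, hW₁]
        ring
      rw [e]
      refine val_add_eq_one107 O (val_const107 O Lc hL hW₀L hW₀0) ?_
      rw [map_mul]
      calc O.valuation (t - c) * O.valuation W₁ ≤ O.valuation (t - c) * 1 := by
            gcongr
            exact (O.valuation_le_one_iff _).2 hW₁O
        _ = O.valuation (t - c) := mul_one _
        _ < 1 := hzv
    have hUv : O.valuation (W * (t ^ 2 * c ^ 2)⁻¹) = 1 := by
      rw [map_mul, hWv, one_mul, map_inv₀, map_mul, map_pow, map_pow, htv, hcv, one_pow,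
        mul_one, inv_one]
    have hy : j - a = (t - c) ^ 1 * (W * (t ^ 2 * c ^ 2)⁻¹) := by
      rw [ha, hW]
      field_simp
      linear_combination (c ^ 2) * hrel
    have hU0 : W * (t ^ 2 * c ^ 2)⁻¹ ≠ 0 := by
      intro h0
      rw [h0, map_zero] at hUv
      exact zero_ne_one hUv
    have hy0 : j - a ≠ 0 := by
      rw [hy]
      exact mul_ne_zero (pow_ne_zero _ hz0) hU0
    have hyv : O.valuation (j - a) < 1 := by
      rw [hy, map_mul, hUv, mul_one, pow_one]
      exact hzv
    exact unram_of_factor107 O (k := 1) (by norm_num) hy hUv hz0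
      (hB.generic O hL a haL ha0 ha1728 (mem_of_val_lt_one107 O hyv)
        (inv_not_mem_of_val_lt_one107 O hy0 hyv))

end Fermat.Agent.S18.H107

end
-- ===== PACK-END S18/H107/T2Branch.lean

-- ===== PACK-BEGIN S18/H107/T3Branch.lean
section




/-!
# helper107 — S18 / M3-T : `unramified` for the Hauptmodul `t₃` (`j t³ = (t + 27)(t + 243)³`)

From the branch data of the `j`-line (`BranchJ107`): for every constant `c ∉ {-27, 0}`, at a place
`O` with `t ≡ c`, `t - c` is a uniformiser.  (`t = -243` lies over `j = 0` with `e(t/j) = 3`, the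
two roots of `t² - 486 t - 19683` over `j = 1728` with `e(t/j) = 2`; only `t = -27`, `0`, `∞` can
ramify in `Ω / Lc(t)`.)
-/

set_option autoImplicit false

namespace Fermat.Agent.S18.H107

variable {Ω : Type*} [Field Ω] [CharZero Ω]

theorem unramified_t3_107 (Lc : Subfield Ω) (j t : Ω)
    (hrel : j * t ^ 3 = (t + 27) * (t + 243) ^ 3)
    (hB : BranchJ107 Lc j) (O : ValuationSubring Ω) (hL : ∀ a ∈ Lc, a ∈ O) (c : Ω) (hc : c ∈ Lc)
    (hc27 : c ≠ -27) (hc0 : c ≠ 0) (hz : t - c ∈ O) (hz' : (t - c)⁻¹ ∉ O) :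
    ∀ s ∈ O, s⁻¹ ∉ O → s * (t - c)⁻¹ ∈ O := by
  rw [← OrdLe107.one_iff]
  have hzv : O.valuation (t - c) < 1 := val_lt_one107 O hz hz'
  have hz0 : t - c ≠ 0 := by
    intro h0
    rw [h0, inv_zero] at hz'
    exact hz' O.zero_mem
  have hcv : O.valuation c = 1 := val_const107 O Lc hL hc hc0
  have htv : O.valuation t = 1 := by
    have : t = c + (t - c) := by ring
    rw [this]
    exact val_add_eq_one107 O hcv hzv
  have ht0 : t ≠ 0 := by
    intro h0
    rw [h0, map_zero] at htv
    exact zero_ne_one htv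
  have htO : t ∈ O := (O.valuation_le_one_iff _).1 htv.le
  have hcO : c ∈ O := hL c hc
  have ht3v : O.valuation ((t ^ 3)⁻¹) = 1 := by
    rw [map_inv₀, map_pow, htv, one_pow, inv_one]
  by_cases h243 : c = -243
  · -- over `j = 0`
    subst h243
    have h216 : O.valuation (-216 : Ω) = 1 :=
      val_const107 O Lc hL (Lc.neg_mem (ofNat_mem Lc 216)) (by norm_num)
    have ht27 : O.valuation (t + 27) = 1 := by
      have : t + 27 = -216 + (t - -243) := by ring
      rw [this]
      exact val_add_eq_one107 O h216 hzv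
    have hUv : O.valuation ((t + 27) * (t ^ 3)⁻¹) = 1 := by
      rw [map_mul, ht27, ht3v, mul_one]
    have hU0 : (t + 27) * (t ^ 3)⁻¹ ≠ 0 := by
      intro h0
      rw [h0, map_zero] at hUv
      exact zero_ne_one hUv
    have hy : j = (t - -243) ^ 3 * ((t + 27) * (t ^ 3)⁻¹) := by
      field_simp
      linear_combination hrel
    have hj0 : j ≠ 0 := by
      rw [hy]
      exact mul_ne_zero (pow_ne_zero _ hz0) hU0
    have hjv : O.valuation j < 1 := by
      rw [hy, map_mul, hUv, mul_one, map_pow]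
      exact pow_lt_one₀ zero_le hzv (by norm_num)
    exact unram_of_factor107 O (k := 3) (by norm_num) hy hUv hz0
      (hB.zero O hL (mem_of_val_lt_one107 O hjv) (inv_not_mem_of_val_lt_one107 O hj0 hjv))
  by_cases hq : c ^ 2 - 486 * c - 19683 = 0
  · -- over `j = 1728`
    have h2c : 2 * c - 486 ≠ 0 := by
      intro h
      have h1 : (314928 : Ω) = 0 := by
        linear_combination (2 * c - 486) * h - 4 * hq
      norm_num at h1
    have h2cL : 2 * c - 486 ∈ Lc :=
      Lc.sub_mem (Lc.mul_mem (ofNat_mem Lc 2) hc) (ofNat_mem Lc 486)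
    have htc : O.valuation (t + c - 486) = 1 := by
      have : t + c - 486 = (2 * c - 486) + (t - c) := by ring
      rw [this]
      exact val_add_eq_one107 O (val_const107 O Lc hL h2cL h2c) hzv
    have hUv : O.valuation ((t + c - 486) ^ 2 * (t ^ 3)⁻¹) = 1 := by
      rw [map_mul, map_pow, htc, one_pow, ht3v, mul_one]
    have hU0 : (t + c - 486) ^ 2 * (t ^ 3)⁻¹ ≠ 0 := by
      intro h0
      rw [h0, map_zero] at hUv
      exact zero_ne_one hUv
    have hy : j - 1728 = (t - c) ^ 2 * ((t + c - 486) ^ 2 * (t ^ 3)⁻¹) := by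
      field_simp
      linear_combination hrel +
        (2 * (t - c) * (t + c - 486) + (c ^ 2 - 486 * c - 19683)) * hq
    have hy0 : j - 1728 ≠ 0 := by
      rw [hy]
      exact mul_ne_zero (pow_ne_zero _ hz0) hU0
    have hyv : O.valuation (j - 1728) < 1 := by
      rw [hy, map_mul, hUv, mul_one, map_pow]
      exact pow_lt_one₀ zero_le hzv (by norm_num)
    exact unram_of_factor107 O (k := 2) (by norm_num) hy hUv hz0
      (hB.c1728 O hL (mem_of_val_lt_one107 O hyv) (inv_not_mem_of_val_lt_one107 O hy0 hyv))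
  · -- generic point
    have hc27' : c + 27 ≠ 0 := fun h => hc27 (by linear_combination h)
    have hc243 : c + 243 ≠ 0 := fun h => h243 (by linear_combination h)
    set a : Ω := (c + 27) * (c + 243) ^ 3 * (c ^ 3)⁻¹ with ha
    have haL : a ∈ Lc :=
      Lc.mul_mem (Lc.mul_mem (Lc.add_mem hc (ofNat_mem Lc 27))
        (Lc.pow_mem (Lc.add_mem hc (ofNat_mem Lc 243)) 3)) (Lc.inv_mem (Lc.pow_mem hc 3))
    have ha0 : a ≠ 0 :=
      mul_ne_zero (mul_ne_zero hc27' (pow_ne_zero _ hc243)) (inv_ne_zero (pow_ne_zero _ hc0))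
    have ha1728 : a ≠ 1728 := by
      intro h
      have h1 : (c ^ 2 - 486 * c - 19683) ^ 2 = 0 := by
        have h2 : (c + 27) * (c + 243) ^ 3 = 1728 * c ^ 3 := by
          rw [ha] at h
          field_simp at h
          linear_combination h
        linear_combination h2
      exact hq (pow_eq_zero_iff (by norm_num) |>.1 h1)
    -- the cofactor
    set W : Ω := c ^ 3 * t ^ 3 - (196830 * c ^ 2 + 19131876 * c + 387420489) * t ^ 2 -
      (19131876 * c ^ 2 + 387420489 * c) * t - 387420489 * c ^ 2 with hW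
    set W₀ : Ω := c ^ 2 * (c + 243) ^ 2 * (c ^ 2 - 486 * c - 19683) with hW₀
    set W₁ : Ω := c ^ 3 * (t ^ 2 + t * c + c ^ 2) -
      (196830 * c ^ 2 + 19131876 * c + 387420489) * (t + c) -
      (19131876 * c ^ 2 + 387420489 * c) with hW₁
    have hW₀L : W₀ ∈ Lc :=
      Lc.mul_mem (Lc.mul_mem (Lc.pow_mem hc 2) (Lc.pow_mem (Lc.add_mem hc (ofNat_mem Lc 243)) 2))
        (Lc.sub_mem (Lc.sub_mem (Lc.pow_mem hc 2) (Lc.mul_mem (ofNat_mem Lc 486) hc))
          (ofNat_mem Lc 19683))
    have hW₀0 : W₀ ≠ 0 := mul_ne_zero (mul_ne_zero (pow_ne_zero _ hc0) (pow_ne_zero _ hc243)) hq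
    have hW₁O : W₁ ∈ O :=
      sub_mem (sub_mem
        (mul_mem (pow_mem hcO 3) (add_mem (add_mem (pow_mem htO 2) (mul_mem htO hcO))
          (pow_mem hcO 2)))
        (mul_mem (add_mem (add_mem (mul_mem (ofNat_mem O 196830) (pow_mem hcO 2))
          (mul_mem (ofNat_mem O 19131876) hcO)) (ofNat_mem O 387420489)) (add_mem htO hcO)))
        (add_mem (mul_mem (ofNat_mem O 19131876) (pow_mem hcO 2))
          (mul_mem (ofNat_mem O 387420489) hcO))
    have hWv : O.valuation W = 1 := by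
      have e : W = W₀ + (t - c) * W₁ := by
        rw [hW, hW₀, hW₁]
        ring
      rw [e]
      refine val_add_eq_one107 O (val_const107 O Lc hL hW₀L hW₀0) ?_
      rw [map_mul]
      calc O.valuation (t - c) * O.valuation W₁ ≤ O.valuation (t - c) * 1 := by
            gcongr
            exact (O.valuation_le_one_iff _).2 hW₁O
        _ = O.valuation (t - c) := mul_one _
        _ < 1 := hzv
    have hUv : O.valuation (W * (t ^ 3 * c ^ 3)⁻¹) = 1 := by
      rw [map_mul, hWv, one_mul, map_inv₀, map_mul, map_pow, map_pow, htv, hcv, one_pow,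
        mul_one, inv_one]
    have hy : j - a = (t - c) ^ 1 * (W * (t ^ 3 * c ^ 3)⁻¹) := by
      rw [ha, hW]
      field_simp
      linear_combination (c ^ 3) * hrel
    have hU0 : W * (t ^ 3 * c ^ 3)⁻¹ ≠ 0 := by
      intro h0
      rw [h0, map_zero] at hUv
      exact zero_ne_one hUv
    have hy0 : j - a ≠ 0 := by
      rw [hy]
      exact mul_ne_zero (pow_ne_zero _ hz0) hU0
    have hyv : O.valuation (j - a) < 1 := by
      rw [hy, map_mul, hUv, mul_one, pow_one]
      exact hzv
    exact unram_of_factor107 O (k := 1) (by norm_num) hy hUv hz0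
      (hB.generic O hL a haL ha0 ha1728 (mem_of_val_lt_one107 O hyv)
        (inv_not_mem_of_val_lt_one107 O hy0 hyv))

end Fermat.Agent.S18.H107

end
-- ===== PACK-END S18/H107/T3Branch.lean

-- ===== PACK-BEGIN S18/H845/ConstExt.lean
section



/-!
# S18 / d1(c): extending a discrete valuation ring along a constant-field extension

`E ⊆ K ⊆ L` fields, `E` perfect, `V ⊆ K` a discrete valuation subring containing `E`, and
`L = K[algebraic constants]` (every element of `L` lies in `K[α]` for some `α` algebraic over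
`E`).  Then there is a valuation subring `B` of `L` with `B ∩ K = V` which is again a discrete
valuation ring, and a uniformiser of `V` is a uniformiser of `B` (`e = 1`).
-/

set_option autoImplicit false
set_option linter.unusedSectionVars false

namespace Fermat.Agent.S18.H845

open Polynomial IsLocalRing

section DVR

variable {L : Type*} [Field L] (B : ValuationSubring L) {ϖ : L} (hϖ0 : ϖ ≠ 0)
  (hϖ : B.valuation ϖ < 1)
  (hval : ∀ f : L, f ≠ 0 → ∃ k : ℤ, B.valuation f = B.valuation ϖ ^ k)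

include hϖ in
lemma unif_mem : ϖ ∈ B := (B.valuation_le_one_iff _).mp hϖ.le

include hϖ0 in
lemma val_unif_pos : 0 < B.valuation ϖ := zero_lt_iff.mpr ((Valuation.ne_zero_iff _).mpr hϖ0)

include hϖ0 hϖ hval in
/-- Every nonzero element of `B` is associated to a power of `ϖ`. -/
lemma associated_pow (x : B) (hx : x ≠ 0) :
    ∃ n : ℕ, Associated ((⟨ϖ, unif_mem B hϖ⟩ : B) ^ n) x := by
  have hxL : (x : L) ≠ 0 := fun h => hx (Subtype.ext h)
  obtain ⟨k, hk⟩ := hval x hxL
  have hpos := val_unif_pos B hϖ0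
  have hk0 : 0 ≤ k := by
    have h1 : B.valuation (x : L) ≤ 1 := B.valuation_le_one x
    rw [hk] at h1
    exact (zpow_le_one_iff_right_of_lt_one₀ hpos hϖ).mp h1
  obtain ⟨n, rfl⟩ : ∃ n : ℕ, k = n := ⟨k.toNat, by omega⟩
  refine ⟨n, ?_⟩
  rw [zpow_natCast] at hk
  -- the unit
  have hu : B.valuation ((x : L) / ϖ ^ n) = 1 := by
    rw [map_div₀, map_pow, hk]
    exact div_self (pow_ne_zero n hpos.ne')
  have huB : (x : L) / ϖ ^ n ∈ B := (B.valuation_le_one_iff _).mp hu.le
  have hunit : IsUnit (⟨(x : L) / ϖ ^ n, huB⟩ : B) := (B.valuation_eq_one_iff _).mpr hu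
  obtain ⟨u, hu'⟩ := hunit
  refine ⟨u, ?_⟩
  apply Subtype.ext
  rw [hu']
  show ϖ ^ n * ((x : L) / ϖ ^ n) = x
  field_simp

include hϖ0 hϖ hval in
/-- `ϖ` is irreducible in `B`. -/
lemma irreducible_unif : Irreducible (⟨ϖ, unif_mem B hϖ⟩ : B) := by
  have hpos := val_unif_pos B hϖ0
  refine ⟨?_, ?_⟩
  · intro hu
    have := (B.valuation_eq_one_iff _).mp hu
    exact absurd this hϖ.ne
  · intro a b hab
    have habL : ϖ = (a : L) * (b : L) := congrArg Subtype.val hab
    have ha0 : (a : L) ≠ 0 := fun h => hϖ0 (by rw [habL, h, zero_mul])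
    have hb0 : (b : L) ≠ 0 := fun h => hϖ0 (by rw [habL, h, mul_zero])
    obtain ⟨i, hi⟩ := hval a ha0
    obtain ⟨j, hj⟩ := hval b hb0
    have hi0 : 0 ≤ i := by
      have h1 : B.valuation (a : L) ≤ 1 := B.valuation_le_one a
      rw [hi] at h1
      exact (zpow_le_one_iff_right_of_lt_one₀ hpos hϖ).mp h1
    have hj0 : 0 ≤ j := by
      have h1 : B.valuation (b : L) ≤ 1 := B.valuation_le_one b
      rw [hj] at h1
      exact (zpow_le_one_iff_right_of_lt_one₀ hpos hϖ).mp h1
    have hsum : i + j = 1 := by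
      have h1 : B.valuation ϖ ^ (1 : ℤ) = B.valuation ϖ ^ (i + j) := by
        rw [zpow_add₀ hpos.ne', ← hi, ← hj, ← map_mul, ← habL, zpow_one]
      exact (zpow_right_injective₀ hpos hϖ.ne h1).symm
    rcases (show i = 0 ∨ j = 0 by omega) with h | h
    · left
      rw [B.valuation_eq_one_iff, hi, h, zpow_zero]
    · right
      rw [B.valuation_eq_one_iff, hj, h, zpow_zero]

include hϖ0 hϖ hval in
/-- `B` is a discrete valuation ring. -/
theorem isDiscreteValuationRing_of_val : IsDiscreteValuationRing B :=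
  IsDiscreteValuationRing.ofHasUnitMulPowIrreducibleFactorization
    ⟨⟨ϖ, unif_mem B hϖ⟩, irreducible_unif B hϖ0 hϖ hval,
      fun {x} hx => associated_pow B hϖ0 hϖ hval x hx⟩

end DVR

section Generic

variable {E K L : Type*} [Field E] [Field K] [Field L] [Algebra E K] [Algebra K L] [Algebra E L]
  [IsScalarTower E K L] [PerfectField E]

/-- Value-group statement for one valuation subring `B` of `L` dominating `V`. -/
theorem val_eq_zpow_of_dominates (V : ValuationSubring K) [IsDiscreteValuationRing V]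
    (hEV : ∀ c : E, algebraMap E K c ∈ V)
    (B : ValuationSubring L) (hVB : ∀ x : K, x ∈ V → algebraMap K L x ∈ B)
    {π : V} (hπ : Irreducible π) (hπB : B.valuation (algebraMap K L (π : K)) < 1)
    {α : L} (hα : IsAlgebraic E α) (q : K[X]) (hq : aeval α q ≠ 0) :
    ∃ k : ℤ, B.valuation (aeval α q) = B.valuation (algebraMap K L (π : K)) ^ k := by
  let _ : Algebra V L := ((algebraMap K L).comp (algebraMap V K)).toAlgebra
  have : IsScalarTower V K L := IsScalarTower.of_algebraMap_eq (fun _ => rfl)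
  have hinj : Function.Injective (algebraMap V L) := by
    intro a b hab
    have h1 : algebraMap K L (a : K) = algebraMap K L (b : K) := hab
    exact Subtype.ext ((algebraMap K L).injective h1)
  have hRB : ∀ r : V, algebraMap V L r ∈ B := fun r => hVB r r.2
  -- the polynomial
  let fEV : E →+* V := (algebraMap E K).codRestrict V hEV
  let p₀ := minpoly E α
  let p : V[X] := p₀.map fEV
  have hp : p.Monic := (minpoly.monic hα.isIntegral).map _
  have hpα : aeval α p = 0 := by
    show Polynomial.eval₂ (algebraMap V L) α (p₀.map fEV) = 0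
    rw [Polynomial.eval₂_map]
    have : (algebraMap V L).comp fEV = algebraMap E L := by
      ext c
      show algebraMap K L (algebraMap E K c) = algebraMap E L c
      rw [← IsScalarTower.algebraMap_apply]
    rw [this]
    exact minpoly.aeval E α
  have hsep : (p.map (residue V)).Separable := by
    rw [Polynomial.map_map]
    exact (PerfectField.separable_of_irreducible (minpoly.irreducible hα.isIntegral)).map
  -- clear denominators
  obtain ⟨b, hbM, hb⟩ := IsLocalization.integerNormalization_spec (nonZeroDivisors V) q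
  set g := IsLocalization.integerNormalization (nonZeroDivisors V) q with hg
  have hb0 : (b : V) ≠ 0 := nonZeroDivisors.ne_zero hbM
  have hsm : b • q = C ((b : V) : K) * q := by
    rw [← Polynomial.smul_eq_C_mul]
    rfl
  have hev : aeval α g = algebraMap K L ((b : V) : K) * aeval α q := by
    have h1 : aeval α (g.map (algebraMap V K)) = aeval α g := Polynomial.aeval_map_algebraMap K α g
    rw [← h1, hb, hsm, map_mul, aeval_C]
  have hbL : algebraMap K L ((b : V) : K) ≠ 0 := by
    intro h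
    apply hb0
    have h' : ((b : V) : K) = 0 := (algebraMap K L).injective (by rw [h, map_zero])
    exact Subtype.ext h'
  have hg0 : aeval α g ≠ 0 := by
    rw [hev]
    exact mul_ne_zero hbL hq
  obtain ⟨j, hj⟩ := val_aeval_eq_pow B hRB hπ hπB hp hpα hsep hinj g hg0
  obtain ⟨k, hk⟩ := val_algebraMap_eq_pow B hRB hπ hb0
  have hπ0 : B.valuation (algebraMap K L (π : K)) ≠ 0 := by
    rw [Valuation.ne_zero_iff]
    intro h
    have h' : (π : K) = 0 := (algebraMap K L).injective (by rw [h, map_zero])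
    exact hπ.ne_zero (Subtype.ext h')
  refine ⟨(j : ℤ) - k, ?_⟩
  have e1 : B.valuation (algebraMap K L ((b : V) : K)) * B.valuation (aeval α q) =
      B.valuation (algebraMap K L (π : K)) ^ j := by
    rw [← map_mul, ← hev]
    exact hj
  have e2 : B.valuation (algebraMap K L ((b : V) : K)) =
      B.valuation (algebraMap K L (π : K)) ^ k := hk
  rw [e2] at e1
  rw [zpow_sub₀ hπ0, zpow_natCast, zpow_natCast, ← e1]
  field_simp


omit [PerfectField E] [Algebra E K] [Algebra E L] [IsScalarTower E K L] in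
/-- A valuation subring of `L` dominating the valuation subring `V` of `K`. -/
theorem exists_dominating (V : ValuationSubring K) :
    ∃ B : ValuationSubring L, B.comap (algebraMap K L) = V ∧
      ∀ x : V, ¬ IsUnit x → B.valuation (algebraMap K L (x : K)) < 1 := by
  let f : V →+* L := (algebraMap K L).comp V.subtype
  obtain ⟨B, hB, hloc⟩ := IsLocalRing.exists_factor_valuationRing f
  have hnon : ∀ x : V, ¬ IsUnit x → B.valuation (algebraMap K L (x : K)) < 1 := by
    intro x hx
    have hx' : ¬ IsUnit (⟨f x, hB x⟩ : B) := fun h => hx (hloc.map_nonunit x h)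
    have hmem : (⟨f x, hB x⟩ : B) ∈ maximalIdeal B :=
      (mem_maximalIdeal _).mpr hx'
    exact (B.valuation_lt_one_iff _).mp hmem
  refine ⟨B, ?_, hnon⟩
  ext x
  rw [ValuationSubring.mem_comap]
  constructor
  · intro hxB
    by_contra hxV
    have hx0 : x ≠ 0 := fun h => hxV (h ▸ V.zero_mem)
    have hinv : x⁻¹ ∈ V := (V.mem_or_inv_mem x).resolve_left hxV
    have hnu : ¬ IsUnit (⟨x⁻¹, hinv⟩ : V) := by
      intro hu
      obtain ⟨u, hu⟩ := hu
      apply hxV
      have : x = ((u⁻¹ : Vˣ) : V) := by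
        have h1 : ((u : V) : K) = x⁻¹ := congrArg Subtype.val hu
        have h2 : ((u : V) : K) * ((u⁻¹ : Vˣ) : V) = 1 := by
          exact congrArg Subtype.val (Units.mul_inv u)
        rw [h1] at h2
        field_simp at h2
        exact h2.symm
      rw [this]
      exact Subtype.mem _
    have hlt := hnon ⟨x⁻¹, hinv⟩ hnu
    have hle : B.valuation (algebraMap K L x) ≤ 1 := (B.valuation_le_one_iff _).mpr hxB
    have hmul : B.valuation (algebraMap K L x⁻¹) * B.valuation (algebraMap K L x) = 1 := by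
      rw [← map_mul, ← map_mul, inv_mul_cancel₀ hx0, map_one, map_one]
    have : B.valuation (algebraMap K L x⁻¹) * B.valuation (algebraMap K L x) < 1 :=
      mul_lt_one_of_lt_of_le hlt hle
    exact absurd hmul this.ne
  · intro hxV
    exact hB ⟨x, hxV⟩

/-- If `B` dominates `V` and `L = K[algebraic constants]`, every nonzero element of `L` has
valuation an integral power of the valuation of a uniformiser of `V`. -/
theorem val_eq_zpow (V : ValuationSubring K) [IsDiscreteValuationRing V]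
    (hEV : ∀ c : E, algebraMap E K c ∈ V)
    (hL : ∀ f : L, ∃ α : L, IsAlgebraic E α ∧ f ∈ Algebra.adjoin K {α})
    (B : ValuationSubring L) (hcomap : B.comap (algebraMap K L) = V)
    (hdom : ∀ x : V, ¬ IsUnit x → B.valuation (algebraMap K L (x : K)) < 1)
    {π : V} (hπ : Irreducible π) {f : L} (hf : f ≠ 0) :
    ∃ k : ℤ, B.valuation f = B.valuation (algebraMap K L (π : K)) ^ k := by
  obtain ⟨α, hα, hfα⟩ := hL f
  rw [Algebra.adjoin_singleton_eq_range_aeval] at hfα
  obtain ⟨q, rfl⟩ := hfα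
  have hVB : ∀ x : K, x ∈ V → algebraMap K L x ∈ B := fun x hx => by
    rw [← hcomap] at hx
    exact hx
  exact val_eq_zpow_of_dominates V hEV B hVB hπ (hdom π hπ.not_isUnit) hα q hf

/-- **d1(c), generic form.**  A discrete valuation ring `V` of `K` containing the perfect field
`E` extends to a discrete valuation ring `B` of `L = K(algebraic constants)` with `B ∩ K = V`,
containing all algebraic constants, in which every uniformiser of `V` stays a uniformiser. -/
theorem exists_dvr_extension (V : ValuationSubring K) [IsDiscreteValuationRing V]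
    (hEV : ∀ c : E, algebraMap E K c ∈ V)
    (hgen : IntermediateField.adjoin K {α : L | IsAlgebraic E α} = ⊤) :
    ∃ B : ValuationSubring L, B.comap (algebraMap K L) = V ∧ IsDiscreteValuationRing B ∧
      (∀ α : L, IsAlgebraic E α → α ∈ B) ∧
      (∀ π : V, Irreducible π →
        ∃ h : algebraMap K L (π : K) ∈ B, Irreducible (⟨algebraMap K L (π : K), h⟩ : B)) ∧
      (∀ π : V, Irreducible π → ∀ f : L, f ≠ 0 →
        ∃ k : ℤ, B.valuation f = B.valuation (algebraMap K L (π : K)) ^ k) := by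
  obtain ⟨B, hcomap, hdom⟩ := exists_dominating (L := L) V
  have hL := exists_mem_adjoin_singleton (E := E) (K := K) (L := L) hgen
  have hval : ∀ π : V, Irreducible π → ∀ f : L, f ≠ 0 →
      ∃ k : ℤ, B.valuation f = B.valuation (algebraMap K L (π : K)) ^ k :=
    fun π hπ f hf => val_eq_zpow V hEV hL B hcomap hdom hπ hf
  have hπ0 : ∀ π : V, Irreducible π → algebraMap K L (π : K) ≠ 0 := by
    intro π hπ h
    have h' : (π : K) = 0 := (algebraMap K L).injective (by rw [h, map_zero])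
    exact hπ.ne_zero (Subtype.ext h')
  obtain ⟨π, hπ⟩ := IsDiscreteValuationRing.exists_irreducible V
  refine ⟨B, hcomap,
    isDiscreteValuationRing_of_val B (hπ0 π hπ) (hdom π hπ.not_isUnit) (hval π hπ), ?_, ?_, hval⟩
  · intro α hα
    have hEB : ∀ c : E, algebraMap E L c ∈ B := by
      intro c
      rw [IsScalarTower.algebraMap_apply E K L]
      have : algebraMap E K c ∈ B.comap (algebraMap K L) := by rw [hcomap]; exact hEV c
      exact this
    exact mem_of_monic_root B hEB (minpoly.monic hα.isIntegral) (minpoly.aeval E α)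
  · intro π' hπ'
    exact ⟨unif_mem B (hdom π' hπ'.not_isUnit),
      irreducible_unif B (hπ0 π' hπ') (hdom π' hπ'.not_isUnit) (hval π' hπ')⟩

end Generic


end Fermat.Agent.S18.H845

end
-- ===== PACK-END S18/H845/ConstExt.lean

-- ===== PACK-BEGIN S18/H845/ConstExtSub.lean
section


/-!
# S18 / d1(c) in the language of `Alg/Spec.lean` (sub-objects of one field `Ω`)

`Ec ≤ Lc`, `Ec ≤ Fc` subfields of `Ω` (char 0), `Lc` algebraic over `Ec`, `Ω = Fc · Lc`.
Every discrete valuation ring `W` of `Fc` containing `Ec` is `O ∩ Fc` for a valuation subring `O`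
of `Ω` containing `Lc`, in which a uniformiser of `W` is still a uniformiser.  Consequently a
divisibility statement `m ∣ ord_O(u)` at all `Lc`-places of `Ω` descends to all `Ec`-places of
`Fc`.
-/

set_option autoImplicit false
set_option linter.unusedSectionVars false

namespace Fermat.Agent.S18.H845

section Sub

variable {Ω : Type*} [Field Ω] [CharZero Ω]

/-- **d1(c), sub-object form.** -/
theorem exists_valuationSubring_over (Lc Ec Fc : Subfield Ω) (E_le_F : Ec ≤ Fc)
    (L_algebraic : ∀ a ∈ Lc, IsAlgebraic Ec a)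
    (compositum : Subfield.closure ((Fc : Set Ω) ∪ Lc) = ⊤)
    (W : ValuationSubring Fc) [IsDiscreteValuationRing W]
    (hEW : ∀ e : Fc, (e : Ω) ∈ Ec → e ∈ W) :
    ∃ O : ValuationSubring Ω, (∀ a ∈ Lc, a ∈ O) ∧ (∀ f : Fc, (f : Ω) ∈ O ↔ f ∈ W) ∧
      IsDiscreteValuationRing O ∧
      (∀ π : W, Irreducible π → ∀ f : Ω, f ≠ 0 →
        ∃ k : ℤ, O.valuation f = O.valuation ((π : Fc) : Ω) ^ k) ∧
      ∀ π : W, Irreducible π → ((π : Fc) : Ω) ∈ O ∧ (((π : Fc) : Ω))⁻¹ ∉ O ∧
        ∀ t ∈ O, t⁻¹ ∉ O → t * (((π : Fc) : Ω))⁻¹ ∈ O := by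
  let _ : Algebra Ec Fc := (Subfield.inclusion E_le_F).toAlgebra
  have : IsScalarTower Ec Fc Ω := IsScalarTower.of_algebraMap_eq (fun _ => rfl)
  have : CharZero Ec := ⟨fun a b h => by
    have h' := congrArg (Subtype.val : Ec → Ω) h
    exact Nat.cast_injective (R := Ω) (by simpa using h')⟩
  have hEV : ∀ c : Ec, algebraMap Ec Fc c ∈ W := fun c => hEW _ c.2
  have hgen : IntermediateField.adjoin Fc {α : Ω | IsAlgebraic Ec α} = ⊤ := by
    rw [← IntermediateField.toSubfield_injective.eq_iff]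
    show Subfield.closure (Set.range (algebraMap Fc Ω) ∪ {α : Ω | IsAlgebraic Ec α}) = ⊤
    rw [eq_top_iff, ← compositum]
    apply Subfield.closure_mono
    rintro x (hx | hx)
    · exact Or.inl ⟨⟨x, hx⟩, rfl⟩
    · exact Or.inr (L_algebraic x hx)
  obtain ⟨O, hcomap, hdvr, hconst, hirr, hval⟩ :=
    exists_dvr_extension (E := Ec) (K := Fc) (L := Ω) W hEV hgen
  refine ⟨O, fun a ha => hconst a (L_algebraic a ha), ?_, hdvr, hval, ?_⟩
  · intro f
    rw [← hcomap]
    rfl
  · intro π hπ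
    obtain ⟨hmem, hirrO⟩ := hirr π hπ
    have hπ0 : ((π : Fc) : Ω) ≠ 0 := by
      intro h
      apply hπ.ne_zero
      apply Subtype.ext
      apply Subtype.ext
      exact h
    have hlt : O.valuation ((π : Fc) : Ω) < 1 := by
      have h1 : ¬ IsUnit (⟨((π : Fc) : Ω), hmem⟩ : O) := hirrO.not_isUnit
      rw [O.valuation_eq_one_iff] at h1
      exact lt_of_le_of_ne ((O.valuation_le_one_iff _).mpr hmem) h1
    have hpos : 0 < O.valuation ((π : Fc) : Ω) :=
      zero_lt_iff.mpr ((Valuation.ne_zero_iff _).mpr hπ0)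
    refine ⟨hmem, ?_, ?_⟩
    · intro hinv
      have h1 : O.valuation (((π : Fc) : Ω))⁻¹ ≤ 1 := (O.valuation_le_one_iff _).mpr hinv
      rw [map_inv₀] at h1
      have h2 : 1 ≤ O.valuation ((π : Fc) : Ω) := by
        rwa [inv_le_one₀ hpos] at h1
      exact absurd hlt (not_lt.mpr h2)
    · intro t ht htinv
      have ht0 : t ≠ 0 := by
        rintro rfl
        rw [inv_zero] at htinv
        exact htinv O.zero_mem
      obtain ⟨k, hk'⟩ := hval π hπ t ht0
      have hk : O.valuation t = O.valuation ((π : Fc) : Ω) ^ k := hk'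
      have htlt : O.valuation t < 1 := by
        have h1 : O.valuation t ≤ 1 := (O.valuation_le_one_iff _).mpr ht
        refine lt_of_le_of_ne h1 ?_
        intro h1'
        apply htinv
        rw [← O.valuation_le_one_iff, map_inv₀, h1', inv_one]
      rw [hk] at htlt
      have hk1 : 1 ≤ k := by
        have := (zpow_lt_one_iff_right_of_lt_one₀ hpos hlt).mp htlt
        omega
      rw [← O.valuation_le_one_iff, map_mul, map_inv₀, hk]
      have : O.valuation ((π : Fc) : Ω) ^ k * (O.valuation ((π : Fc) : Ω))⁻¹ =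
          O.valuation ((π : Fc) : Ω) ^ (k - 1) := by
        rw [zpow_sub₀ hpos.ne', zpow_one, div_eq_mul_inv]
      rw [this]
      exact (zpow_le_one_iff_right_of_lt_one₀ hpos hlt).mpr (by omega)

/-- **Descent of divisibility.**  If `u ∈ Fc` has `m ∣ ord_O(u)` at every valuation subring `O`
of `Ω` containing `Lc` (in the form used by `Alg.AlgMainStatement`), then `m ∣ ord_W(u)` at every
discrete valuation ring `W` of `Fc` containing `Ec`. -/
theorem exists_pow_unit_of_forall_over (Lc Ec Fc : Subfield Ω) (E_le_F : Ec ≤ Fc)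
    (L_algebraic : ∀ a ∈ Lc, IsAlgebraic Ec a)
    (compositum : Subfield.closure ((Fc : Set Ω) ∪ Lc) = ⊤)
    {u : Fc} (hu : u ≠ 0) {m : ℕ}
    (hdiv : ∀ O : ValuationSubring Ω, (∀ a ∈ Lc, a ∈ O) →
      ∃ t : Ω, t ≠ 0 ∧ (u : Ω) * t ^ m ∈ O ∧ ((u : Ω) * t ^ m)⁻¹ ∈ O)
    (W : ValuationSubring Fc) [IsDiscreteValuationRing W]
    (hEW : ∀ e : Fc, (e : Ω) ∈ Ec → e ∈ W) :
    ∃ s : Fc, s ≠ 0 ∧ u * s ^ m ∈ W ∧ (u * s ^ m)⁻¹ ∈ W := by
  obtain ⟨O, hL, hOW, _, hval, hunif⟩ :=
    exists_valuationSubring_over Lc Ec Fc E_le_F L_algebraic compositum W hEW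
  obtain ⟨π, hπ⟩ := IsDiscreteValuationRing.exists_irreducible W
  obtain ⟨hπO, hπinv, _⟩ := hunif π hπ
  have hπ0 : ((π : Fc) : Ω) ≠ 0 := by
    rintro h
    rw [h, inv_zero] at hπinv
    exact hπinv O.zero_mem
  have hπF0 : (π : Fc) ≠ 0 := fun h => hπ0 (by rw [h]; rfl)
  have hpos : 0 < O.valuation ((π : Fc) : Ω) :=
    zero_lt_iff.mpr ((Valuation.ne_zero_iff _).mpr hπ0)
  have hlt : O.valuation ((π : Fc) : Ω) < 1 := by
    refine lt_of_le_of_ne ((O.valuation_le_one_iff _).mpr hπO) ?_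
    intro h1
    apply hπinv
    rw [← O.valuation_le_one_iff, map_inv₀, h1, inv_one]
  obtain ⟨t, ht0, ht1, ht2⟩ := hdiv O hL
  have hunit : O.valuation ((u : Ω) * t ^ m) = 1 := by
    have h1 : O.valuation ((u : Ω) * t ^ m) ≤ 1 := (O.valuation_le_one_iff _).mpr ht1
    have h2 : O.valuation ((u : Ω) * t ^ m)⁻¹ ≤ 1 := (O.valuation_le_one_iff _).mpr ht2
    rw [map_inv₀] at h2
    have h0 : O.valuation ((u : Ω) * t ^ m) ≠ 0 := by
      rw [Valuation.ne_zero_iff]
      exact mul_ne_zero (fun h => hu (Subtype.ext h)) (pow_ne_zero m ht0)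
    have h3 : 1 ≤ O.valuation ((u : Ω) * t ^ m) := by
      rwa [inv_le_one₀ (zero_lt_iff.mpr h0)] at h2
    exact le_antisymm h1 h3
  obtain ⟨k, hk⟩ := hval π hπ t ht0
  -- take `s = π ^ k`
  refine ⟨(π : Fc) ^ k, zpow_ne_zero k hπF0, ?_⟩
  have hval1 : O.valuation (((u * ((π : Fc) ^ k) ^ m : Fc)) : Ω) = 1 := by
    have e : (((u * ((π : Fc) ^ k) ^ m : Fc)) : Ω) = (u : Ω) * (((π : Fc) : Ω) ^ k) ^ m := by
      push_cast
      rfl
    rw [e, map_mul, map_pow, map_zpow₀, ← hk, ← map_pow, ← map_mul]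
    exact hunit
  constructor
  · rw [← hOW, ← O.valuation_le_one_iff]
    exact hval1.le
  · rw [← hOW, ← O.valuation_le_one_iff]
    have e : (((u * ((π : Fc) ^ k) ^ m)⁻¹ : Fc) : Ω) = ((((u * ((π : Fc) ^ k) ^ m : Fc)) : Ω))⁻¹ := by
      push_cast
      rfl
    rw [e, map_inv₀, hval1, inv_one]

end Sub

end Fermat.Agent.S18.H845

end
-- ===== PACK-END S18/H845/ConstExtSub.lean

-- ===== PACK-BEGIN S18/B12/Spec2.lean
section



/-!
# S18, Route K, b2: assembly pieces (squad S18/S33, squad-lead helper33) — FROZEN statements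

Abstract setting for the assembly of `B2Statement` (see `coord/S18-b1b2.md`, section "Assembly"):
`P` = a noetherian UFD (later `R[X]`), `w ∈ P` a prime (later `C w`) with `P/(w)` a PID (later `k'[X]`)
and `P[1/w]` a PID containing `ℚ` (later `E[X]`); `B` = integrally closed domain, finite and
torsion-free over `P`.  Special fibre `B/wB := B ⧸ (span {w}).map (algebraMap P B)` as an algebra over
`P ⧸ span {w}` (Mathlib instance `Ideal.Quotient.algebraQuotientMapQuotient`).
-/

set_option autoImplicit false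

noncomputable section

namespace Fermat.Agent.S18.B12

open Polynomial

universe u v

/-- Gram determinant of the integral trace form of an `n`-tuple of `B`. -/
def intDiscr (P : Type u) (B : Type v) [CommRing P] [IsDomain P] [IsIntegrallyClosed P]
    [CommRing B] [IsDomain B] [IsIntegrallyClosed B] [Algebra P B] [Module.Finite P B]
    [Module.IsTorsionFree P B] {n : ℕ} (x : Fin n → B) : P :=
  (Matrix.of fun i j => Algebra.intTrace P B (x i * x j)).det

/-- `x` is a basis of `B` over `P` locally at the ideal `𝔪`: linearly independent, and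
`g • B ⊆ span x` for some `g ∉ 𝔪`. -/
def IsLocalBasis (P : Type u) (B : Type v) [CommRing P] [CommRing B] [Algebra P B]
    (𝔪 : Ideal P) (n : ℕ) (x : Fin n → B) : Prop :=
  LinearIndependent P x ∧ ∃ g : P, g ∉ 𝔪 ∧ ∀ b : B, g • b ∈ Submodule.span P (Set.range x)

/-- **A0 (abstract regular sequence).**  `w` prime in `P`, `w ∤ u`: if `u * b = w * b'` in the
normal `B` then `b = w * b''`, `b' = u * b''`.  (Implies both statements of P1.) -/
def RegSeqAbsStatement : Prop :=
  ∀ (P : Type u) [CommRing P] [IsDomain P] [IsIntegrallyClosed P]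
    (B : Type v) [CommRing B] [IsDomain B] [IsIntegrallyClosed B] [Algebra P B]
    [Algebra.IsIntegral P B] [Module.IsTorsionFree P B]
    (u w : P) (_ : Prime w) (_ : ¬ w ∣ u) (b b' : B),
    algebraMap P B u * b = algebraMap P B w * b' →
    ∃ b'' : B, b = algebraMap P B w * b'' ∧ b' = algebraMap P B u * b''

/-- **A2 (local basis).**  `P` noetherian domain, `𝔪 = (w, p)` maximal, `(p, w)` regular on `B`
(hypothesis `hreg`).  Then `B` has a basis locally at `𝔪`. -/
def LocalBasisStatement : Prop :=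
  ∀ (P : Type u) [CommRing P] [IsDomain P] [IsNoetherianRing P]
    (B : Type v) [CommRing B] [Algebra P B] [Module.Finite P B] [Module.IsTorsionFree P B]
    (w p : P) (_ : (Ideal.span {w, p}).IsMaximal)
    (_ : ∀ b b' : B, algebraMap P B p * b = algebraMap P B w * b' →
      ∃ b'' : B, b = algebraMap P B w * b'' ∧ b' = algebraMap P B p * b''),
    ∃ (n : ℕ) (x : Fin n → B), IsLocalBasis P B (Ideal.span {w, p}) n x

/-- **A2' (rank).**  A local basis has `n = Module.finrank P B` elements, and the Gram determinant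
of any other `n`-tuple `x'` satisfies `g² · intDiscr x' = u² · intDiscr x` with `g ∉ 𝔪`. -/
def LocalBasisRankStatement : Prop :=
  ∀ (P : Type u) [CommRing P] [IsDomain P] [IsIntegrallyClosed P]
    (B : Type v) [CommRing B] [IsDomain B] [IsIntegrallyClosed B] [Algebra P B]
    [Module.Finite P B] [Module.IsTorsionFree P B]
    (𝔪 : Ideal P) [𝔪.IsPrime] (n : ℕ) (x : Fin n → B), IsLocalBasis P B 𝔪 n x →
    n = Module.finrank P B ∧
    ∀ x' : Fin n → B, ∃ g u : P, g ∉ 𝔪 ∧ g ^ 2 * intDiscr P B x' = u ^ 2 * intDiscr P B x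

/-- **A3 (discriminant reduction mod `w`).**  `w` prime with `P/(w)` a PID, `x` a local basis at a
prime `𝔪 ∋ w`, `bb` a basis of `B/wB` over `P/(w)`.  Then `bb` has `n` elements and
`intDiscr x mod w = ū² · disc(bb)` with `u ∉ 𝔪`. -/
def DiscrRedStatement : Prop :=
  ∀ (P : Type u) [CommRing P] [IsDomain P] [IsIntegrallyClosed P]
    (B : Type v) [CommRing B] [IsDomain B] [IsIntegrallyClosed B] [Algebra P B]
    [Module.Finite P B] [Module.IsTorsionFree P B]
    (w : P) (_ : Prime w) (𝔪 : Ideal P) [𝔪.IsPrime] (_ : w ∈ 𝔪)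
    (n : ℕ) (x : Fin n → B) (_ : IsLocalBasis P B 𝔪 n x)
    (n' : ℕ) (bb : Module.Basis (Fin n') (P ⧸ Ideal.span {w})
      (B ⧸ (Ideal.span {w}).map (algebraMap P B))),
    n' = n ∧ ∃ u : P, u ∉ 𝔪 ∧
      Ideal.Quotient.mk (Ideal.span {w}) (intDiscr P B x) =
        Ideal.Quotient.mk (Ideal.span {w}) u ^ 2 * Algebra.discr (P ⧸ Ideal.span {w}) bb

/-- **A4 (UFD step).**  If every prime factor of `D ≠ 0` lying in the prime ideal `𝔪` is
associated to `p`, then `D = p ^ a * D₁` with `D₁ ∉ 𝔪`. -/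
def UFDStepStatement : Prop :=
  ∀ (P : Type u) [CommRing P] [IsDomain P] [UniqueFactorizationMonoid P]
    (𝔪 : Ideal P) [𝔪.IsPrime] (p : P) (_ : Prime p) (D : P) (_ : D ≠ 0)
    (_ : ∀ π : P, Prime π → π ∣ D → π ∈ 𝔪 → Associated π p),
    ∃ (a : ℕ) (D₁ : P), D = p ^ a * D₁ ∧ D₁ ∉ 𝔪

/-- **A5 (generic fibre).**  `P[1/w]` a PID in which every positive integer is invertible.
`π ≠ w` a prime of `P`, `x` a local basis at `(π)`, `y` a family of `r` elements of `B` that is
independent modulo `rad(πB)`.  Then `π ^ (n - r + 1) ∤ intDiscr x`.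
(Apply `TameDiscrStatement` to `Λ = P[1/w]`, `C₀ = B[1/w]`, which is a Dedekind domain.) -/
def GenericDiscrStatement : Prop :=
  ∀ (P : Type u) [CommRing P] [IsDomain P] [UniqueFactorizationMonoid P] [IsNoetherianRing P]
    (w : P) (_ : Prime w) (_ : IsPrincipalIdealRing (Localization.Away w))
    (_ : ∀ m : ℕ, m ≠ 0 → IsUnit (algebraMap P (Localization.Away w) (m : P)))
    (B : Type v) [CommRing B] [IsDomain B] [IsIntegrallyClosed B] [Algebra P B]
    [Module.Finite P B] [Module.IsTorsionFree P B]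
    (π : P) (_ : Prime π) (_ : ¬ Associated π w)
    (n : ℕ) (x : Fin n → B) (_ : IsLocalBasis P B (Ideal.span {π}) n x)
    (r : ℕ) (y : Fin r → B)
    (_ : ∀ a : Fin r → P,
      (∑ i, a i • y i) ∈ (Ideal.span {algebraMap P B π}).radical → ∀ i, π ∣ a i),
    ¬ π ^ (n - r + 1) ∣ intDiscr P B x

/-- **A5' (reduced basis at a prime `s` with `P/(s)` a PID).**  There is a family `y` of elements
of `B` which is independent modulo `rad(sB)` and spans `B` modulo `rad(sB)`. -/
def RedBasisAbsStatement : Prop :=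
  ∀ (P : Type u) [CommRing P] [IsDomain P] [IsIntegrallyClosed P]
    (B : Type v) [CommRing B] [IsDomain B] [IsIntegrallyClosed B] [Algebra P B]
    [Module.Finite P B] [Module.IsTorsionFree P B]
    (s : P) (_ : Prime s) (_ : IsPrincipalIdealRing (P ⧸ Ideal.span {s})),
    ∃ (r : ℕ) (y : Fin r → B),
      (∀ a : Fin r → P,
        (∑ i, a i • y i) ∈ (Ideal.span {algebraMap P B s}).radical → ∀ i, s ∣ a i) ∧
      (∀ b : B, ∃ a : Fin r → P,
        b - ∑ i, a i • y i ∈ (Ideal.span {algebraMap P B s}).radical)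

/-- **P2'' (special fibre, internal idempotent form).**  `Λ` a PID, `t` prime, `C` a commutative
`Λ`-algebra with basis `b`; `(C/tC)_red` spanned by `s` elements; `disc b ≠ 0`,
`t ^ (n - s + 1) ∤ disc b`.  If `e * e = g • e` with `g ≠ 0` (so `e/g` is an idempotent of
`Frac C`), then `h • e = g • c` for some `h ∉ (t)`, `c ∈ C`. -/
def SFIdemIntStatement : Prop :=
  ∀ (Λ : Type u) [CommRing Λ] [IsDomain Λ] [IsPrincipalIdealRing Λ] (t : Λ) (_ : Prime t)
    (C : Type v) [CommRing C] [Algebra Λ C] (n : ℕ) (b : Module.Basis (Fin n) Λ C)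
    (s : ℕ) (y : Fin s → C)
    (_ : ∀ x : C, ∃ a : Fin s → Λ,
        x - ∑ i, a i • y i ∈ (Ideal.span {algebraMap Λ C t}).radical),
    Algebra.discr Λ b ≠ 0 → ¬ t ^ (n - s + 1) ∣ Algebra.discr Λ b →
    ∀ (e : C) (g : Λ), g ≠ 0 → e * e = g • e → ∃ (h : Λ) (c : C), ¬ t ∣ h ∧ h • e = g • c

/-- **A6 (special fibre at the closed point `𝔪 = (w, p)`).**  `x` local basis at `𝔪`,
`intDiscr x = p ^ a * D₁` with `D₁ ∉ 𝔪`, `y` spans `B` modulo `rad(𝔪B)` with `a ≤ n - r`.
Then every idempotent `e/g` of `Frac(B/wB)` is regular at `𝔪`: `h e ≡ g c mod wB`, `h ∉ 𝔪`. -/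
def SpecialFibreStatement : Prop :=
  ∀ (P : Type u) [CommRing P] [IsDomain P] [UniqueFactorizationMonoid P] [IsNoetherianRing P]
    (w : P) (_ : Prime w) (_ : IsPrincipalIdealRing (P ⧸ Ideal.span {w}))
    (B : Type v) [CommRing B] [IsDomain B] [IsIntegrallyClosed B] [Algebra P B]
    [Module.Finite P B] [Module.IsTorsionFree P B]
    (p : P) (_ : (Ideal.span {w, p}).IsMaximal) (_ : ¬ w ∣ p)
    (n : ℕ) (x : Fin n → B) (_ : IsLocalBasis P B (Ideal.span {w, p}) n x)
    (a : ℕ) (D₁ : P) (_ : intDiscr P B x = p ^ a * D₁) (_ : D₁ ∉ Ideal.span {w, p})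
    (r : ℕ) (y : Fin r → B)
    (_ : ∀ b : B, ∃ c : Fin r → P, b - ∑ i, c i • y i ∈
      (Ideal.span {algebraMap P B w, algebraMap P B p}).radical)
    (_ : a ≤ n - r)
    (e : B) (g : P), ¬ w ∣ g →
      e ^ 2 - algebraMap P B g * e ∈ Ideal.span {algebraMap P B w} →
      ∃ (h : P) (c : B), h ∉ Ideal.span {w, p} ∧
        algebraMap P B h * e - algebraMap P B g * c ∈ Ideal.span {algebraMap P B w}

/-- **A7 (abstract b2).**  `S` = finite set of branch primes. -/
def B2AbsStatement : Prop :=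
  ∀ (P : Type u) [CommRing P] [IsDomain P] [UniqueFactorizationMonoid P] [IsNoetherianRing P]
    (w : P) (_ : Prime w) (_ : IsPrincipalIdealRing (P ⧸ Ideal.span {w}))
    (_ : IsPrincipalIdealRing (Localization.Away w))
    (_ : ∀ m : ℕ, m ≠ 0 → IsUnit (algebraMap P (Localization.Away w) (m : P)))
    (B : Type v) [CommRing B] [IsDomain B] [IsIntegrallyClosed B] [Algebra P B]
    [Module.Finite P B] [Module.IsTorsionFree P B]
    (_ : ∃ x : Fin (Module.finrank P B) → B, ¬ w ∣ intDiscr P B x)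
    (S : Finset P)
    (_ : ∀ s ∈ S, Prime s ∧ ¬ Associated s w ∧ (Ideal.span {w, s}).IsMaximal ∧
      IsPrincipalIdealRing (P ⧸ Ideal.span {s}))
    (_ : ∀ s ∈ S, ∀ s' ∈ S, s ≠ s' → s' ∉ Ideal.span {w, s})
    (_ : ∀ π : P, Prime π → ¬ Associated π w → (∀ s ∈ S, ¬ Associated π s) →
        (Ideal.span {algebraMap P B π}).IsRadical)
    (e : B) (g : P), ¬ w ∣ g →
      e ^ 2 - algebraMap P B g * e ∈ Ideal.span {algebraMap P B w} →
      ∃ c : B, e - algebraMap P B g * c ∈ Ideal.span {algebraMap P B w}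

/-- **A1 (instantiation `P = R[X]`).**  The ring-theoretic facts about `R[X]` needed to deduce
`B2Statement` from `B2AbsStatement`. -/
def PolyInstStatement : Prop :=
  ∀ (R : Type u) [CommRing R] [IsDomain R] [IsDiscreteValuationRing R] [CharZero R]
    (w : R) (_ : Irreducible w),
    Prime (C w : R[X]) ∧
    IsPrincipalIdealRing (R[X] ⧸ Ideal.span {(C w : R[X])}) ∧
    IsPrincipalIdealRing (Localization.Away (C w : R[X])) ∧
    (∀ m : ℕ, m ≠ 0 → IsUnit (algebraMap R[X] (Localization.Away (C w : R[X])) (m : R[X]))) ∧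
    ∀ c : R, Prime (X - C c : R[X]) ∧ ¬ Associated (X - C c : R[X]) (C w) ∧
      (Ideal.span {(C w : R[X]), X - C c}).IsMaximal ∧
      IsPrincipalIdealRing (R[X] ⧸ Ideal.span {(X - C c : R[X])}) ∧
      ∀ c' : R, X - C c' ∈ Ideal.span {(C w : R[X]), X - C c} → ¬ IsUnit (c - c')

end Fermat.Agent.S18.B12

end
end
-- ===== PACK-END S18/B12/Spec2.lean

-- ===== PACK-BEGIN S18/B12/Spec3.lean
section



/-!
# S18, Route K, b2: the HEART (`B2CoreAbsStatement`) and the two OUTPUT SHAPES
(squad S18/S33, squad-lead helper33) — FROZEN statements, Mathlib-only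

* `B2CoreAbsStatement` : at every closed point `t` of the special fibre `B/wB` over `Λ = P/(w)`:
  `ord_t disc(B/wB) ≤ n - s` with `(B/wB mod t)_red` spanned by `s` elements
  (exactly the hypothesis of "Theorem L", `SFLatticeStatement` / H933 / H636 / H998).
* Output O1 `B2RegularStatement` : `B/wB` a domain ⟹ `RegularAlong w` (shape of
  `Fermat.Agent.S18.H754.RegularAlong`, consumed by the Kummer endgame K').
* Output O2 `B2Statement` (Spec.lean) : idempotents of `Frac(B/wB)` lie in `B/wB` (no domain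
  hypothesis; consumed by "b4 = b2 for the cover").
-/

set_option autoImplicit false

noncomputable section

namespace Fermat.Agent.S18.B12

open Polynomial

universe u v

/-- **A6' (heart of b2).**  Abstract setting of Spec2 (`P` noetherian UFD, `w` prime, `P/(w)` and
`P[1/w]` PIDs, char 0 generic fibre, `B` normal finite torsion-free over `P`, `hsep`, branch primes
`S` pairwise comaximal mod `w`, unramified outside `S`).  Then for every prime `t` of
`Λ = P/(w)` and every `Λ`-basis `bb` of `B/wB`: `disc bb ≠ 0`, and there is a family of `s`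
elements spanning `B/wB` modulo `rad(t)` with `t ^ (n - s + 1) ∤ disc bb`. -/
def B2CoreAbsStatement : Prop :=
  ∀ (P : Type u) [CommRing P] [IsDomain P] [UniqueFactorizationMonoid P] [IsNoetherianRing P]
    (w : P) (_ : Prime w) (_ : IsPrincipalIdealRing (P ⧸ Ideal.span {w}))
    (_ : IsPrincipalIdealRing (Localization.Away w))
    (_ : ∀ m : ℕ, m ≠ 0 → IsUnit (algebraMap P (Localization.Away w) (m : P)))
    (B : Type v) [CommRing B] [IsDomain B] [IsIntegrallyClosed B] [Algebra P B]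
    [Module.Finite P B] [Module.IsTorsionFree P B]
    (_ : ∃ x : Fin (Module.finrank P B) → B, ¬ w ∣ intDiscr P B x)
    (S : Finset P)
    (_ : ∀ s ∈ S, Prime s ∧ ¬ Associated s w ∧ (Ideal.span {w, s}).IsMaximal ∧
      IsPrincipalIdealRing (P ⧸ Ideal.span {s}))
    (_ : ∀ s ∈ S, ∀ s' ∈ S, s ≠ s' → s' ∉ Ideal.span {w, s})
    (_ : ∀ π : P, Prime π → ¬ Associated π w → (∀ s ∈ S, ¬ Associated π s) →
        (Ideal.span {algebraMap P B π}).IsRadical)
    (t : P ⧸ Ideal.span {w}) (_ : Prime t) (n : ℕ)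
    (bb : Module.Basis (Fin n) (P ⧸ Ideal.span {w})
      (B ⧸ (Ideal.span {w}).map (algebraMap P B))),
    Algebra.discr (P ⧸ Ideal.span {w}) bb ≠ 0 ∧
    ∃ (s : ℕ) (y : Fin s → B ⧸ (Ideal.span {w}).map (algebraMap P B)),
      (∀ c : B ⧸ (Ideal.span {w}).map (algebraMap P B), ∃ a : Fin s → P ⧸ Ideal.span {w},
        c - ∑ i, a i • y i ∈ (Ideal.span {algebraMap (P ⧸ Ideal.span {w})
          (B ⧸ (Ideal.span {w}).map (algebraMap P B)) t}).radical) ∧
      ¬ t ^ (n - s + 1) ∣ Algebra.discr (P ⧸ Ideal.span {w}) bb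

/-- **A8 (normality from the discriminant bounds).**  `Λ` a PID, `C` a domain, free of rank `n`
over `Λ`, satisfying the bound of `B2CoreAbsStatement` at every prime `t`.  Then `C` is
integrally closed.  (Apply Theorem L to `C ⊆ C[f]`, `f` integral over `C`.) -/
def IntClosedOfDiscrStatement : Prop :=
  ∀ (Λ : Type u) [CommRing Λ] [IsDomain Λ] [IsPrincipalIdealRing Λ]
    (C : Type v) [CommRing C] [IsDomain C] [Algebra Λ C] (n : ℕ) (b : Module.Basis (Fin n) Λ C),
    Algebra.discr Λ b ≠ 0 →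
    (∀ t : Λ, Prime t → ∃ (s : ℕ) (y : Fin s → C),
      (∀ c : C, ∃ a : Fin s → Λ,
        c - ∑ i, a i • y i ∈ (Ideal.span {algebraMap Λ C t}).radical) ∧
      ¬ t ^ (n - s + 1) ∣ Algebra.discr Λ b) →
    IsIntegrallyClosed C

/-- **A9 (regularity along a Dedekind special fibre).**  If `B/ϖB` is a Dedekind domain then
every maximal ideal `𝔪 ∋ ϖ` of `B` is locally generated by `ϖ` and one more element. -/
def RegularAlongOfDedekindStatement : Prop :=
  ∀ (B : Type u) [CommRing B] (ϖ : B), IsDedekindDomain (B ⧸ Ideal.span {ϖ}) →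
    ∀ 𝔪 : Ideal B, 𝔪.IsMaximal → ϖ ∈ 𝔪 →
      ∃ t ∈ 𝔪, ∀ a ∈ 𝔪, ∃ s : B, s ∉ 𝔪 ∧ s * a ∈ Ideal.span {ϖ, t}

/-- **OUTPUT O1 (b2, regular form; concrete).**  As `B2Statement`, plus `hdom`: `w` is prime in
`B` (the special fibre is a domain; QEP).  Conclusion = `H754.RegularAlong (C w)`, unfolded. -/
def B2RegularStatement : Prop :=
  ∀ (R : Type u) [CommRing R] [IsDomain R] [IsDiscreteValuationRing R] [CharZero R]
    (w : R) (_ : Irreducible w)
    (B : Type v) [CommRing B] [IsDomain B] [IsIntegrallyClosed B] [Algebra R[X] B]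
    [Module.Finite R[X] B] [Module.IsTorsionFree R[X] B]
    (_ : Prime (algebraMap R[X] B (C w)))
    (_ : ∃ x : Fin (Module.finrank R[X] B) → B,
        ¬ C w ∣ (Matrix.of fun i j => Algebra.intTrace R[X] B (x i * x j)).det)
    (S : Finset R) (_ : ∀ c ∈ S, ∀ c' ∈ S, c ≠ c' → IsUnit (c - c'))
    (_ : ∀ π : R[X], Prime π → ¬ Associated π (C w) → (∀ c ∈ S, ¬ Associated π (X - C c)) →
        (Ideal.span {algebraMap R[X] B π}).IsRadical)
    (𝔪 : Ideal B), 𝔪.IsMaximal → algebraMap R[X] B (C w) ∈ 𝔪 →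
      ∃ t ∈ 𝔪, ∀ a ∈ 𝔪, ∃ s : B, s ∉ 𝔪 ∧
        s * a ∈ Ideal.span {algebraMap R[X] B (C w), t}

end Fermat.Agent.S18.B12

end
end
-- ===== PACK-END S18/B12/Spec3.lean

-- ===== PACK-BEGIN S18/B12/H93/RegSeqAbs.lean
section




/-!
# S18 / B12 / A0: `RegSeqAbsStatement` (helper93), adapter over `H393.isIntegral_of_isIntegral_mul'`.
-/

set_option autoImplicit false

namespace Fermat.Agent.S18.B12.H93

attribute [local instance] FractionRing.liftAlgebra FractionRing.isScalarTower_liftAlgebra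

universe u v

theorem regSeqAbs : RegSeqAbsStatement.{u, v} := by
  intro P _ _ _ B _ _ _ _ _ _ u w hw hwu b b' hbb'
  classical
  have hw0 : w ≠ 0 := hw.ne_zero
  have hinjPB : Function.Injective (algebraMap P B) := FaithfulSMul.algebraMap_injective P B
  have hinjBF : Function.Injective (algebraMap B (FractionRing B)) :=
    IsFractionRing.injective B (FractionRing B)
  have hwB : algebraMap P B w ≠ 0 := fun h => hw0 (hinjPB (by rw [map_zero]; exact h))
  have hwF : algebraMap B (FractionRing B) (algebraMap P B w) ≠ 0 :=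
    fun h => hwB (hinjBF (by rw [map_zero]; exact h))
  -- the element `f = b / w`
  set f : FractionRing B :=
    algebraMap B (FractionRing B) b * (algebraMap B (FractionRing B) (algebraMap P B w))⁻¹ with hf
  have hPF : ∀ x : P, algebraMap P (FractionRing B) x =
      algebraMap B (FractionRing B) (algebraMap P B x) :=
    fun x => IsScalarTower.algebraMap_apply P B (FractionRing B) x
  have hwf : algebraMap P (FractionRing B) w * f = algebraMap B (FractionRing B) b := by
    rw [hPF, hf]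
    field_simp
  have huf : algebraMap P (FractionRing B) u * f = algebraMap B (FractionRing B) b' := by
    rw [hPF, hf, ← mul_assoc, ← map_mul, hbb', map_mul]
    field_simp
  have hintB : ∀ x : B, IsIntegral P (algebraMap B (FractionRing B) x) :=
    fun x => (Algebra.IsIntegral.isIntegral x).algebraMap
  have hfint : IsIntegral P f :=
    Fermat.Agent.S18.H393.isIntegral_of_isIntegral_mul' (FractionRing P) hw hwu
      (hwf ▸ hintB b) (huf ▸ hintB b')
  have hfintB : IsIntegral B f := hfint.tower_top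
  obtain ⟨b'', hb''⟩ := IsIntegrallyClosed.isIntegral_iff.mp hfintB
  refine ⟨b'', ?_, ?_⟩
  · apply hinjBF
    rw [map_mul, hb'', ← hPF, hwf]
  · apply hinjBF
    rw [map_mul, hb'', ← hPF, huf]

end Fermat.Agent.S18.B12.H93

end
-- ===== PACK-END S18/B12/H93/RegSeqAbs.lean

-- ===== PACK-BEGIN S18/B12/H93/LocalBasis.lean
section



/-!
# S18 / B12 / A2: `LocalBasisStatement` (helper93).

`𝔪 = (w, p)` maximal, `(p, w)` regular on the finite `P`-module `B`: a lift of a basis of `B/𝔪B`
is a basis of `B` locally at `𝔪` (Nakayama twice).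
-/

set_option autoImplicit false

namespace Fermat.Agent.S18.B12.H93

open Pointwise

attribute [local instance] Ideal.Quotient.field

universe u v

theorem localBasis : LocalBasisStatement.{u, v} := by
  intro P _ _ _ B _ _ _ _ w p hmax hreg
  classical
  set 𝔪 : Ideal P := Ideal.span {w, p} with h𝔪
  have hw𝔪 : w ∈ 𝔪 := Ideal.subset_span (by simp)
  have hp𝔪 : p ∈ 𝔪 := Ideal.subset_span (by simp)
  let N : Submodule P B := 𝔪 • ⊤
  have hfin : Module.Finite (P ⧸ 𝔪) (B ⧸ N) := Module.Finite.of_restrictScalars_finite P _ _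
  let β := Module.finBasis (P ⧸ 𝔪) (B ⧸ N)
  have hlift : ∀ i, ∃ x : B, N.mkQ x = β i := fun i => Submodule.mkQ_surjective N _
  choose x hx using hlift
  refine ⟨Module.finrank (P ⧸ 𝔪) (B ⧸ N), x, ?_⟩
  have hmksmul : ∀ (a : P) (y : B ⧸ N), (Ideal.Quotient.mk 𝔪 a) • y = a • y := by
    intro a y
    rw [← Ideal.Quotient.algebraMap_eq, algebraMap_smul]
  -- reduction of a combination
  have hred : ∀ a : Fin (Module.finrank (P ⧸ 𝔪) (B ⧸ N)) → P,
      N.mkQ (∑ i, a i • x i) = ∑ i, (Ideal.Quotient.mk 𝔪 (a i)) • β i := by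
    intro a
    rw [map_sum]
    refine Finset.sum_congr rfl fun i _ => ?_
    rw [map_smul, hx, hmksmul]
  -- spanning modulo `𝔪`
  have hspan : (⊤ : Submodule P B) ≤ Submodule.span P (Set.range x) ⊔ 𝔪 • ⊤ := by
    intro b _
    have hl : ∀ i, ∃ a : P, Ideal.Quotient.mk 𝔪 a = β.repr (N.mkQ b) i :=
      fun i => Ideal.Quotient.mk_surjective _
    choose a ha using hl
    have h1 : N.mkQ (b - ∑ i, a i • x i) = 0 := by
      rw [map_sub, hred, sub_eq_zero]
      conv_lhs => rw [← β.sum_repr (N.mkQ b)]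
      exact Finset.sum_congr rfl fun i _ => by rw [ha]
    have h2 : b - ∑ i, a i • x i ∈ N := by
      rwa [Submodule.mkQ_apply, Submodule.Quotient.mk_eq_zero] at h1
    have h3 : ∑ i, a i • x i ∈ Submodule.span P (Set.range x) :=
      Submodule.sum_mem _ fun i _ => Submodule.smul_mem _ _ (Submodule.subset_span ⟨i, rfl⟩)
    have : b = ∑ i, a i • x i + (b - ∑ i, a i • x i) := by ring
    rw [this]
    exact Submodule.add_mem_sup h3 h2
  obtain ⟨g, hg1, hgle⟩ := Submodule.exists_sub_one_mem_and_smul_le_of_fg_of_le_sup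
    (N := Submodule.span P (Set.range x)) (N' := ⊤) (P := ⊤) (I := 𝔪)
    (Module.finite_def.mp inferInstance) le_rfl hspan
  have hg𝔪 : g ∉ 𝔪 := by
    intro hg
    have : (1 : P) ∈ 𝔪 := by
      have := 𝔪.sub_mem hg hg1
      simpa using this
    exact hmax.ne_top ((Ideal.eq_top_iff_one 𝔪).mpr this)
  have hgB : ∀ b : B, g • b ∈ Submodule.span P (Set.range x) := fun b =>
    hgle (Submodule.smul_mem_pointwise_smul b g ⊤ Submodule.mem_top)
  refine ⟨?_, g, hg𝔪, hgB⟩
  -- linear independence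
  let L : (Fin (Module.finrank (P ⧸ 𝔪) (B ⧸ N)) → P) →ₗ[P] B := Fintype.linearCombination P x
  have hLapp : ∀ a, L a = ∑ i, a i • x i := fun a => Fintype.linearCombination_apply P x a
  set I : Submodule P (Fin (Module.finrank (P ⧸ 𝔪) (B ⧸ N)) → P) := LinearMap.ker L with hI
  have hIfg : I.FG := IsNoetherian.noetherian I
  -- `g • I ≤ 𝔪 • I`
  have hkey : ∀ a ∈ I, g • a ∈ 𝔪 • I := by
    intro a ha
    have ha0 : ∑ i, a i • x i = 0 := by rw [← hLapp]; exact ha
    -- coefficients lie in `𝔪`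
    have hmem : ∀ i, a i ∈ 𝔪 := by
      intro i
      have h1 := hred a
      rw [ha0, map_zero] at h1
      have h2 := (Fintype.linearIndependent_iff.mp β.linearIndependent) _ h1.symm i
      exact Ideal.Quotient.eq_zero_iff_mem.mp h2
    have hdec : ∀ i, ∃ c d : P, c * w + d * p = a i := fun i => Ideal.mem_span_pair.mp (hmem i)
    choose c d hcd using hdec
    have hrel : algebraMap P B p * (∑ i, d i • x i) = algebraMap P B w * (-∑ i, c i • x i) := by
      have : ∑ i, (c i * w + d i * p) • x i = 0 := by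
        rw [← ha0]; exact Finset.sum_congr rfl fun i _ => by rw [hcd]
      rw [← Algebra.smul_def, ← Algebra.smul_def, smul_neg, Finset.smul_sum, Finset.smul_sum,
        eq_neg_iff_add_eq_zero, ← Finset.sum_add_distrib, ← this]
      refine Finset.sum_congr rfl fun i _ => ?_
      rw [smul_smul, smul_smul, ← add_smul]
      congr 1; ring
    obtain ⟨b'', hb1, hb2⟩ := hreg _ _ hrel
    obtain ⟨e, he⟩ := (Submodule.mem_span_range_iff_exists_fun P).mp (hgB b'')
    -- two relations
    have hr1 : (fun i => g * d i - w * e i) ∈ I := by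
      rw [hI, LinearMap.mem_ker, hLapp]
      have : ∑ i, (g * d i - w * e i) • x i = g • ∑ i, d i • x i - w • ∑ i, e i • x i := by
        rw [Finset.smul_sum, Finset.smul_sum, ← Finset.sum_sub_distrib]
        exact Finset.sum_congr rfl fun i _ => by rw [sub_smul, smul_smul, smul_smul]
      rw [this, hb1, he, ← Algebra.smul_def, smul_comm, sub_self]
    have hr2 : (fun i => g * c i + p * e i) ∈ I := by
      rw [hI, LinearMap.mem_ker, hLapp]
      have : ∑ i, (g * c i + p * e i) • x i = g • ∑ i, c i • x i + p • ∑ i, e i • x i := by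
        rw [Finset.smul_sum, Finset.smul_sum, ← Finset.sum_add_distrib]
        exact Finset.sum_congr rfl fun i _ => by rw [add_smul, smul_smul, smul_smul]
      have hc : ∑ i, c i • x i = -(algebraMap P B p * b'') := by rw [← hb2, neg_neg]
      rw [this, hc, he, ← Algebra.smul_def, smul_neg, smul_comm, neg_add_cancel]
    have hsum : g • a = w • (fun i => g * c i + p * e i) + p • (fun i => g * d i - w * e i) := by
      funext i
      simp only [Pi.smul_apply, Pi.add_apply, smul_eq_mul]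
      rw [← hcd i]; ring
    rw [hsum]
    exact Submodule.add_mem _ (Submodule.smul_mem_smul hw𝔪 hr2) (Submodule.smul_mem_smul hp𝔪 hr1)
  have hIle : I ≤ 𝔪 • I := by
    intro a ha
    have h1 : g • a ∈ 𝔪 • I := hkey a ha
    have h2 : (g - 1) • a ∈ 𝔪 • I := Submodule.smul_mem_smul hg1 ha
    have : a = g • a - (g - 1) • a := by rw [sub_smul, one_smul]; abel
    rw [this]
    exact Submodule.sub_mem _ h1 h2
  obtain ⟨r, hr1, hr0⟩ := Submodule.exists_sub_one_mem_and_smul_eq_zero_of_fg_of_le_smul 𝔪 I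
    hIfg hIle
  have hrne : r ≠ 0 := by
    rintro rfl
    have : (1 : P) ∈ 𝔪 := by
      have := 𝔪.neg_mem hr1
      simpa using this
    exact hmax.ne_top ((Ideal.eq_top_iff_one 𝔪).mpr this)
  rw [Fintype.linearIndependent_iff]
  intro a ha i
  have haI : a ∈ I := by rw [hI, LinearMap.mem_ker, hLapp]; exact ha
  have h0 := hr0 a haI
  have h1 := congrFun h0 i
  rw [Pi.smul_apply, smul_eq_mul, Pi.zero_apply] at h1
  exact (mul_eq_zero.mp h1).resolve_left hrne

end Fermat.Agent.S18.B12.H93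

end
-- ===== PACK-END S18/B12/H93/LocalBasis.lean

-- ===== PACK-BEGIN S18/B12/H93/LocalBasisRank.lean
section



/-!
# S18 / B12 / A2': `LocalBasisRankStatement` (helper93).
-/

set_option autoImplicit false

namespace Fermat.Agent.S18.B12.H93

universe u v

theorem localBasisRank : LocalBasisRankStatement.{u, v} := by
  intro P _ _ _ B _ _ _ _ _ _ 𝔪 _ n x hx
  obtain ⟨hli, g, hg, hgB⟩ := hx
  classical
  have hg0 : g ≠ 0 := fun h => hg (h ▸ 𝔪.zero_mem)
  constructor
  · apply le_antisymm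
    · have := hli.fintype_card_le_finrank
      simpa using this
    · have hfin : Module.Finite P (Submodule.span P (Set.range x)) :=
        Module.Finite.span_of_finite P (Set.finite_range x)
      let f : B →ₗ[P] Submodule.span P (Set.range x) :=
        (LinearMap.lsmul P B g).codRestrict _ hgB
      have hf : Function.Injective f := by
        intro a b hab
        have h1 : g • a = g • b := congrArg Subtype.val hab
        exact smul_right_injective B hg0 h1
      have h1 := LinearMap.finrank_le_finrank_of_injective hf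
      have h2 : Module.finrank P (Submodule.span P (Set.range x)) = n := by
        rw [finrank_span_eq_card hli, Fintype.card_fin]
      omega
  · intro x'
    have hU : ∀ i, ∃ c : Fin n → P, ∑ j, c j • x j = g • x' i :=
      fun i => (Submodule.mem_span_range_iff_exists_fun P).mp (hgB (x' i))
    choose U hUx using hU
    refine ⟨g ^ n, (Matrix.of U).det, fun h => hg (Ideal.IsPrime.mem_of_pow_mem inferInstance n h),
      ?_⟩
    set G : Matrix (Fin n) (Fin n) P := Matrix.of fun i j => Algebra.intTrace P B (x i * x j)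
      with hG
    set G' : Matrix (Fin n) (Fin n) P := Matrix.of fun i j => Algebra.intTrace P B (x' i * x' j)
      with hG'
    have hmat : (g ^ 2) • G' = Matrix.of U * G * (Matrix.of U).transpose := by
      ext i j
      rw [Matrix.smul_apply, hG', Matrix.of_apply, smul_eq_mul, Matrix.mul_apply]
      have h1 : g ^ 2 * Algebra.intTrace P B (x' i * x' j) =
          Algebra.intTrace P B ((g • x' i) * (g • x' j)) := by
        rw [smul_mul_smul_comm, ← sq, map_smul, smul_eq_mul]
      rw [h1, ← hUx i, ← hUx j, Finset.sum_mul_sum, map_sum]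
      simp_rw [Matrix.mul_apply, Finset.sum_mul]
      rw [Finset.sum_comm]
      refine Finset.sum_congr rfl fun k _ => ?_
      rw [map_sum]
      refine Finset.sum_congr rfl fun l _ => ?_
      rw [smul_mul_smul_comm, map_smul, smul_eq_mul, Matrix.transpose_apply, Matrix.of_apply,
        Matrix.of_apply, hG, Matrix.of_apply]
      ring
    have hdet := congrArg Matrix.det hmat
    rw [Matrix.det_smul, Matrix.det_mul, Matrix.det_mul, Matrix.det_transpose, Fintype.card_fin]
      at hdet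
    show (g ^ n) ^ 2 * G'.det = (Matrix.of U).det ^ 2 * G.det
    rw [← pow_mul, mul_comm n 2, pow_mul, hdet]
    ring

end Fermat.Agent.S18.B12.H93

end
-- ===== PACK-END S18/B12/H93/LocalBasisRank.lean

-- ===== PACK-BEGIN S18/B12/H393/DiscrRed.lean
section



/-!
# S18 / Route K / b2.5, piece A3 (helper393): `DiscrRedStatement`

`discrRed : DiscrRedStatement` (exact frozen shape of `B12/Spec2.lean`).

* `smul_trace_eq_trace_of_quasiBasis` : generic trace lemma.  `M` finite free over `A`,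
  `x` a linearly independent family with `g • M ⊆ span x`, `f` an endomorphism with
  `g • f (x j) = ∑ i, m i j • x i`.  Then `g * tr f = tr m`.
  (Proof: `tr (φ ∘ f ∘ ι) = tr (ι ∘ φ ∘ f)` for `ι : span x → M`, `φ = g • _ : M → span x`.)
* `smul_intTrace_eq` : `g * intTrace P B β = tr m` if `g • (β * x j) = ∑ i, m i j • x i`
  (`x` a local basis of `B` over `P`).
* `mk_intTrace_eq_trace` : `intTrace P B β mod w = Tr_{(B/wB)/(P/w)} (β mod w)`.
-/

set_option autoImplicit false

noncomputable section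

namespace Fermat.Agent.S18.B12.H393

open Fermat.Agent.S18.B12

universe u v

section Generic

variable {A : Type*} [CommRing A] {M : Type*} [AddCommGroup M] [Module A M]

/-- **Generic trace lemma.** -/
theorem smul_trace_eq_trace_of_quasiBasis [Module.Free A M] [Module.Finite A M]
    {n : ℕ} (f : M →ₗ[A] M) (x : Fin n → M) (hli : LinearIndependent A x) (g : A)
    (hspan : ∀ y : M, g • y ∈ Submodule.span A (Set.range x))
    (m : Matrix (Fin n) (Fin n) A) (hm : ∀ j, g • f (x j) = ∑ i, m i j • x i) :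
    g * LinearMap.trace A M f = m.trace := by
  classical
  set E : Submodule A M := Submodule.span A (Set.range x) with hE
  let bE : Module.Basis (Fin n) A E := Module.Basis.span hli
  have hbE : ∀ j, ((bE j : E) : M) = x j := fun j => Module.Basis.coe_span_apply hli j
  have : Module.Free A E := Module.Free.of_basis bE
  have : Module.Finite A E := Module.Finite.of_basis bE
  let φ : M →ₗ[A] E :=
    { toFun := fun y => ⟨g • y, hspan y⟩
      map_add' := fun y z => Subtype.ext (by simp [smul_add])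
      map_smul' := fun r y => Subtype.ext (by simp [smul_comm g r]) }
  have h1 : LinearMap.trace A M (E.subtype ∘ₗ (φ ∘ₗ f)) =
      LinearMap.trace A E ((φ ∘ₗ f) ∘ₗ E.subtype) :=
    LinearMap.trace_comp_comm' (φ ∘ₗ f) E.subtype
  have h2 : E.subtype ∘ₗ (φ ∘ₗ f) = g • f := by
    ext y; simp [φ]
  have h3 : LinearMap.toMatrix bE bE ((φ ∘ₗ f) ∘ₗ E.subtype) = m := by
    ext i j
    rw [LinearMap.toMatrix_apply]
    have : ((φ ∘ₗ f) ∘ₗ E.subtype) (bE j) = ∑ i, m i j • bE i := by
      apply Subtype.ext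
      simp only [LinearMap.coe_comp, Function.comp_apply, Submodule.subtype_apply,
        LinearMap.coe_mk, AddHom.coe_mk, φ, hbE]
      rw [hm j, Submodule.coe_sum]
      refine Finset.sum_congr rfl fun i _ => ?_
      rw [Submodule.coe_smul, hbE]
    rw [this, map_sum]
    simp [Finsupp.single_apply, Finset.sum_apply']
  rw [h2, map_smul, smul_eq_mul] at h1
  rw [h1, LinearMap.trace_eq_matrix_trace A bE, h3]

end Generic

section IntTrace

attribute [local instance] FractionRing.liftAlgebra FractionRing.isScalarTower_liftAlgebra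

variable {P : Type u} [CommRing P] [IsDomain P] [IsIntegrallyClosed P]
  {B : Type v} [CommRing B] [IsDomain B] [IsIntegrallyClosed B] [Algebra P B]
  [Module.Finite P B] [Module.IsTorsionFree P B]

/-- `g * intTrace β = tr m` when `g • (β * x j) = ∑ i, m i j • x i` for a quasi-basis `x`. -/
theorem smul_intTrace_eq {n : ℕ} (x : Fin n → B) (hli : LinearIndependent P x) (g : P)
    (hspan : ∀ b : B, g • b ∈ Submodule.span P (Set.range x)) (β : B)
    (m : Matrix (Fin n) (Fin n) P) (hm : ∀ j, g • (β * x j) = ∑ i, m i j • x i) :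
    g * Algebra.intTrace P B β = m.trace := by
  classical
  have : IsIntegralClosure B P (FractionRing B) :=
    IsIntegralClosure.of_isIntegrallyClosed _ _ _
  have : Algebra.IsAlgebraic (FractionRing P) (FractionRing B) :=
    isAlgebraic_of_isFractionRing P B ..
  have hloc : IsLocalization (Algebra.algebraMapSubmonoid B (nonZeroDivisors P))
      (FractionRing B) :=
    IsIntegralClosure.isLocalization _ (FractionRing P) _ _
  have : FiniteDimensional (FractionRing P) (FractionRing B) :=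
    .of_isLocalization P B (nonZeroDivisors P)
  set K := FractionRing P
  set L := FractionRing B
  have hinjBL : Function.Injective (algebraMap B L) := IsFractionRing.injective B L
  -- linear independence over `K`
  have hliP : LinearIndependent P (fun j => algebraMap B L (x j)) := by
    have := hli.map' (IsScalarTower.toAlgHom P B L).toLinearMap
      (LinearMap.ker_eq_bot.mpr hinjBL)
    exact this
  have hliK : LinearIndependent K (fun j => algebraMap B L (x j)) :=
    (LinearIndependent.iff_fractionRing P K).mp hliP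
  -- images of elements of the `P`-span lie in the `K`-span
  have hmemK : ∀ y : B, y ∈ Submodule.span P (Set.range x) →
      algebraMap B L y ∈ Submodule.span K (Set.range fun j => algebraMap B L (x j)) := by
    intro y hy
    rw [Submodule.mem_span_range_iff_exists_fun] at hy
    obtain ⟨c, rfl⟩ := hy
    rw [map_sum]
    refine Submodule.sum_mem _ fun i _ => ?_
    have : algebraMap B L (c i • x i) = algebraMap P K (c i) • algebraMap B L (x i) := by
      rw [Algebra.smul_def, map_mul, ← IsScalarTower.algebraMap_apply,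
        IsScalarTower.algebraMap_apply P K L, ← Algebra.smul_def]
    rw [this]
    exact Submodule.smul_mem _ _ (Submodule.subset_span ⟨i, rfl⟩)
  have hspanK : ∀ ℓ : L, algebraMap P K g • ℓ ∈
      Submodule.span K (Set.range fun j => algebraMap B L (x j)) := by
    intro ℓ
    obtain ⟨⟨b, s⟩, hs⟩ := IsLocalization.surj (Algebra.algebraMapSubmonoid B (nonZeroDivisors P)) ℓ
    obtain ⟨s₀, hs₀, hs₀'⟩ := s.2
    have hs₀K : algebraMap P K s₀ ≠ 0 := by
      have := (IsFractionRing.injective P K).ne (nonZeroDivisors.ne_zero hs₀)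
      simpa using this
    have hℓ : ℓ = (algebraMap P K s₀)⁻¹ • algebraMap B L b := by
      rw [eq_inv_smul_iff₀ hs₀K]
      simp only at hs
      rw [← hs, ← hs₀', Algebra.smul_def, ← IsScalarTower.algebraMap_apply,
        IsScalarTower.algebraMap_apply P B L, mul_comm]
    have hgb : algebraMap P K g • algebraMap B L b = algebraMap B L (g • b) := by
      rw [Algebra.smul_def (A := B), map_mul, ← IsScalarTower.algebraMap_apply,
        IsScalarTower.algebraMap_apply P K L, ← Algebra.smul_def]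
    rw [hℓ, smul_comm, hgb]
    exact Submodule.smul_mem _ _ (hmemK _ (hspan b))
  have hmK : ∀ j, algebraMap P K g • (Algebra.lmul K L (algebraMap B L β)) (algebraMap B L (x j)) =
      ∑ i, (m.map (algebraMap P K)) i j • algebraMap B L (x i) := by
    intro j
    have h := congrArg (algebraMap B L) (hm j)
    rw [map_sum] at h
    have e1 : algebraMap B L (g • (β * x j)) =
        algebraMap P K g • (Algebra.lmul K L (algebraMap B L β)) (algebraMap B L (x j)) := by
      rw [Algebra.smul_def (A := B), map_mul, ← IsScalarTower.algebraMap_apply,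
        IsScalarTower.algebraMap_apply P K L, ← Algebra.smul_def, map_mul]
      rfl
    rw [← e1, h]
    refine Finset.sum_congr rfl fun i _ => ?_
    rw [Matrix.map_apply, Algebra.smul_def (A := B), map_mul, ← IsScalarTower.algebraMap_apply,
      IsScalarTower.algebraMap_apply P K L, ← Algebra.smul_def]
  have key := smul_trace_eq_trace_of_quasiBasis (A := K) (M := L)
    (Algebra.lmul K L (algebraMap B L β)) (fun j => algebraMap B L (x j)) hliK
    (algebraMap P K g) hspanK (m.map (algebraMap P K)) hmK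
  apply IsFractionRing.injective P K
  rw [map_mul, Algebra.algebraMap_intTrace_fractionRing, Algebra.trace_apply, key]
  simp [Matrix.trace, map_sum]

end IntTrace

section Reduction

variable {P : Type u} [CommRing P]
  {B : Type v} [CommRing B] [Algebra P B]

/-- Membership in `w B` (as the ideal `(span {w}).map (algebraMap P B)`). -/
theorem mem_map_span_singleton_iff (w : P) (b : B) :
    b ∈ (Ideal.span {w}).map (algebraMap P B) ↔ ∃ β : B, b = w • β := by
  rw [Ideal.map_span, Set.image_singleton, Ideal.mem_span_singleton']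
  constructor
  · rintro ⟨β, rfl⟩; exact ⟨β, by rw [Algebra.smul_def, mul_comm]⟩
  · rintro ⟨β, rfl⟩; exact ⟨β, by rw [Algebra.smul_def, mul_comm]⟩

theorem mk_sum_smul (w : P) {n : ℕ} (c : Fin n → P) (x : Fin n → B) :
    Ideal.Quotient.mk ((Ideal.span {w}).map (algebraMap P B)) (∑ i, c i • x i) =
      ∑ i, Ideal.Quotient.mk (Ideal.span {w}) (c i) •
        Ideal.Quotient.mk ((Ideal.span {w}).map (algebraMap P B)) (x i) := by
  rw [map_sum]
  refine Finset.sum_congr rfl fun i _ => ?_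
  rw [Ideal.Quotient.mk_smul_mk_quotient_map_quotient, Algebra.smul_def]

/-- The reduction mod `w` of a quasi-basis is linearly independent over `P/(w)`. -/
theorem linearIndependent_mk_of_quasiBasis {w : P} (hw : Prime w) {n : ℕ} (x : Fin n → B)
    (hli : LinearIndependent P x) (g : P) (hg : ¬ w ∣ g)
    (hspan : ∀ b : B, g • b ∈ Submodule.span P (Set.range x)) :
    LinearIndependent (P ⧸ Ideal.span {w})
      (fun j => Ideal.Quotient.mk ((Ideal.span {w}).map (algebraMap P B)) (x j)) := by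
  classical
  rw [Fintype.linearIndependent_iff]
  intro cb hcb i
  choose c hc using fun i => Ideal.Quotient.mk_surjective (cb i)
  have h0 : Ideal.Quotient.mk ((Ideal.span {w}).map (algebraMap P B)) (∑ i, c i • x i) = 0 := by
    rw [mk_sum_smul, ← hcb]
    refine Finset.sum_congr rfl fun i _ => ?_
    rw [hc i]
  rw [Ideal.Quotient.eq_zero_iff_mem, mem_map_span_singleton_iff] at h0
  obtain ⟨β, hβ⟩ := h0
  have hgβ := hspan β
  rw [Submodule.mem_span_range_iff_exists_fun] at hgβ
  obtain ⟨d, hd⟩ := hgβ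
  have hrel : ∑ i, (g * c i - w * d i) • x i = 0 := by
    simp only [sub_smul, Finset.sum_sub_distrib, mul_smul]
    rw [← Finset.smul_sum, ← Finset.smul_sum, hβ, hd, smul_comm, sub_self]
  have := (Fintype.linearIndependent_iff.mp hli) _ hrel i
  have hdvd : w ∣ g * c i := ⟨d i, sub_eq_zero.mp this⟩
  have hwc : w ∣ c i := (hw.dvd_or_dvd hdvd).resolve_left hg
  rw [← hc i, Ideal.Quotient.eq_zero_iff_mem, Ideal.mem_span_singleton]
  exact hwc

theorem smul_mem_span_mk_of_quasiBasis (w : P) {n : ℕ} (x : Fin n → B) (g : P)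
    (hspan : ∀ b : B, g • b ∈ Submodule.span P (Set.range x))
    (q : B ⧸ (Ideal.span {w}).map (algebraMap P B)) :
    Ideal.Quotient.mk (Ideal.span {w}) g • q ∈ Submodule.span (P ⧸ Ideal.span {w})
      (Set.range fun j => Ideal.Quotient.mk ((Ideal.span {w}).map (algebraMap P B)) (x j)) := by
  obtain ⟨b, rfl⟩ := Ideal.Quotient.mk_surjective q
  have h := hspan b
  rw [Submodule.mem_span_range_iff_exists_fun] at h ⊢
  obtain ⟨c, hc⟩ := h
  refine ⟨fun i => Ideal.Quotient.mk (Ideal.span {w}) (c i), ?_⟩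
  rw [← mk_sum_smul, hc, Ideal.Quotient.mk_smul_mk_quotient_map_quotient, Algebra.smul_def]

end Reduction

section Main

variable {P : Type u} [CommRing P] [IsDomain P] [IsIntegrallyClosed P]
  {B : Type v} [CommRing B] [IsDomain B] [IsIntegrallyClosed B] [Algebra P B]
  [Module.Finite P B] [Module.IsTorsionFree P B]

/-- **Trace reduction.** `intTrace P B β mod w` is the trace of `β mod w` on `B/wB` over `P/(w)`. -/
theorem mk_intTrace_eq_trace {w : P} (hw : Prime w) {n : ℕ} (x : Fin n → B)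
    (hli : LinearIndependent P x) (g : P) (hg : ¬ w ∣ g)
    (hspan : ∀ b : B, g • b ∈ Submodule.span P (Set.range x))
    [Module.Free (P ⧸ Ideal.span {w}) (B ⧸ (Ideal.span {w}).map (algebraMap P B))]
    [Module.Finite (P ⧸ Ideal.span {w}) (B ⧸ (Ideal.span {w}).map (algebraMap P B))]
    (β : B) :
    Ideal.Quotient.mk (Ideal.span {w}) (Algebra.intTrace P B β) =
      Algebra.trace (P ⧸ Ideal.span {w}) (B ⧸ (Ideal.span {w}).map (algebraMap P B))
        (Ideal.Quotient.mk _ β) := by
  classical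
  have hIp : (Ideal.span {w}).IsPrime := (Ideal.span_singleton_prime hw.ne_zero).mpr hw
  have hex : ∀ j, ∃ c : Fin n → P, ∑ i, c i • x i = g • (β * x j) := fun j =>
    (Submodule.mem_span_range_iff_exists_fun P).mp (hspan (β * x j))
  choose c hc using hex
  let m : Matrix (Fin n) (Fin n) P := Matrix.of fun i j => c j i
  have hm : ∀ j, g • (β * x j) = ∑ i, m i j • x i := fun j => (hc j).symm
  have hP := smul_intTrace_eq x hli g hspan β m hm
  have hmΛ : ∀ j, Ideal.Quotient.mk (Ideal.span {w}) g •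
      (Algebra.lmul (P ⧸ Ideal.span {w}) (B ⧸ (Ideal.span {w}).map (algebraMap P B))
        (Ideal.Quotient.mk _ β)) (Ideal.Quotient.mk _ (x j)) =
      ∑ i, (m.map (Ideal.Quotient.mk (Ideal.span {w}))) i j •
        Ideal.Quotient.mk ((Ideal.span {w}).map (algebraMap P B)) (x i) := by
    intro j
    have h := congrArg (Ideal.Quotient.mk ((Ideal.span {w}).map (algebraMap P B))) (hm j)
    rw [mk_sum_smul] at h
    rw [show (∑ i, (m.map (Ideal.Quotient.mk (Ideal.span {w}))) i j •
        Ideal.Quotient.mk ((Ideal.span {w}).map (algebraMap P B)) (x i)) =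
        ∑ i, Ideal.Quotient.mk (Ideal.span {w}) (m i j) •
          Ideal.Quotient.mk ((Ideal.span {w}).map (algebraMap P B)) (x i) from rfl, ← h]
    change Ideal.Quotient.mk (Ideal.span {w}) g •
      (Ideal.Quotient.mk ((Ideal.span {w}).map (algebraMap P B)) β *
        Ideal.Quotient.mk ((Ideal.span {w}).map (algebraMap P B)) (x j)) = _
    rw [← map_mul, Ideal.Quotient.mk_smul_mk_quotient_map_quotient, Algebra.smul_def]
  have hΛ := smul_trace_eq_trace_of_quasiBasis (A := P ⧸ Ideal.span {w})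
    (M := B ⧸ (Ideal.span {w}).map (algebraMap P B))
    (Algebra.lmul _ _ (Ideal.Quotient.mk _ β))
    (fun j => Ideal.Quotient.mk _ (x j))
    (linearIndependent_mk_of_quasiBasis hw x hli g hg hspan)
    (Ideal.Quotient.mk _ g)
    (smul_mem_span_mk_of_quasiBasis w x g hspan)
    (m.map (Ideal.Quotient.mk _)) hmΛ
  have hg0 : Ideal.Quotient.mk (Ideal.span {w}) g ≠ 0 := by
    rw [Ne, Ideal.Quotient.eq_zero_iff_mem, Ideal.mem_span_singleton]; exact hg
  apply mul_left_cancel₀ hg0
  rw [Algebra.trace_apply, hΛ, ← map_mul, hP]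
  simp [Matrix.trace, map_sum]

/-- **A3.** `DiscrRedStatement` (exact frozen shape of `B12/Spec2.lean`). -/
theorem discrRed : DiscrRedStatement.{u, v} := by
  intro P _ _ _ B _ _ _ _ _ _ w hw 𝔪 _ hw𝔪 n x hx n' bb
  classical
  obtain ⟨hli, g, hg𝔪, hspan⟩ := hx
  have hgw : ¬ w ∣ g := fun h => hg𝔪 (Ideal.mem_of_dvd 𝔪 h hw𝔪)
  have hIp : (Ideal.span {w}).IsPrime := (Ideal.span_singleton_prime hw.ne_zero).mpr hw
  have hfree : Module.Free (P ⧸ Ideal.span {w}) (B ⧸ (Ideal.span {w}).map (algebraMap P B)) :=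
    Module.Free.of_basis bb
  have hfin : Module.Finite (P ⧸ Ideal.span {w}) (B ⧸ (Ideal.span {w}).map (algebraMap P B)) :=
    Module.Finite.of_basis bb
  have hliΛ := linearIndependent_mk_of_quasiBasis hw x hli g hgw hspan
  have hspanΛ := smul_mem_span_mk_of_quasiBasis w x g hspan
  have hg0 : Ideal.Quotient.mk (Ideal.span {w}) g ≠ 0 := by
    rw [Ne, Ideal.Quotient.eq_zero_iff_mem, Ideal.mem_span_singleton]; exact hgw
  -- ranks
  have hrank : Module.finrank (P ⧸ Ideal.span {w})
      (B ⧸ (Ideal.span {w}).map (algebraMap P B)) = n' := by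
    rw [Module.finrank_eq_card_basis bb, Fintype.card_fin]
  have hn : n' = n := by
    apply le_antisymm
    · -- `B/wB` embeds into `span x̄` by multiplication by `ḡ`
      set E := Submodule.span (P ⧸ Ideal.span {w})
        (Set.range fun j => Ideal.Quotient.mk ((Ideal.span {w}).map (algebraMap P B)) (x j))
      let bE : Module.Basis (Fin n) (P ⧸ Ideal.span {w}) E := Module.Basis.span hliΛ
      have : Module.Free (P ⧸ Ideal.span {w}) E := Module.Free.of_basis bE
      have : Module.Finite (P ⧸ Ideal.span {w}) E := Module.Finite.of_basis bE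
      let φ : (B ⧸ (Ideal.span {w}).map (algebraMap P B)) →ₗ[P ⧸ Ideal.span {w}] E :=
        { toFun := fun y => ⟨Ideal.Quotient.mk (Ideal.span {w}) g • y, hspanΛ y⟩
          map_add' := fun y z => Subtype.ext (by simp [smul_add])
          map_smul' := fun r y => Subtype.ext (by simp [smul_comm (Ideal.Quotient.mk _ g) r]) }
      have hφ : Function.Injective φ := by
        intro y z hyz
        have h1 : Ideal.Quotient.mk (Ideal.span {w}) g • y =
            Ideal.Quotient.mk (Ideal.span {w}) g • z := congrArg Subtype.val hyz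
        have h2 : Ideal.Quotient.mk (Ideal.span {w}) g • (y - z) = 0 := by
          rw [smul_sub, h1, sub_self]
        exact sub_eq_zero.mp ((smul_eq_zero.mp h2).resolve_left hg0)
      have h1 := LinearMap.finrank_le_finrank_of_injective hφ
      rw [hrank, Module.finrank_eq_card_basis bE, Fintype.card_fin] at h1
      exact h1
    · have h1 := hliΛ.fintype_card_le_finrank
      rw [Fintype.card_fin, hrank] at h1
      exact h1
  subst hn
  refine ⟨rfl, ?_⟩
  -- the matrices
  let Pm : Matrix (Fin n') (Fin n') (P ⧸ Ideal.span {w}) :=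
    Matrix.of fun i j => bb.repr (Ideal.Quotient.mk _ (x i)) j
  have hex : ∀ i, ∃ c : Fin n' → (P ⧸ Ideal.span {w}),
      ∑ j, c j • Ideal.Quotient.mk ((Ideal.span {w}).map (algebraMap P B)) (x j) =
        Ideal.Quotient.mk (Ideal.span {w}) g • bb i := fun i =>
    (Submodule.mem_span_range_iff_exists_fun _).mp (hspanΛ (bb i))
  choose V hV using hex
  let Vm : Matrix (Fin n') (Fin n') (P ⧸ Ideal.span {w}) := Matrix.of V
  have hVP : Vm * Pm = Ideal.Quotient.mk (Ideal.span {w}) g • (1 : Matrix _ _ _) := by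
    ext i k
    have h := congrArg (fun y => bb.repr y k) (hV i)
    simp only [map_sum, map_smul, Finsupp.coe_finsetSum, Finsupp.coe_smul, Finset.sum_apply,
      Pi.smul_apply, smul_eq_mul, Module.Basis.repr_self, Finsupp.single_apply] at h
    rw [Matrix.mul_apply, Matrix.smul_apply, Matrix.one_apply]
    simp only [Vm, Pm, Matrix.of_apply, smul_eq_mul]
    rw [h]
  have hdet : Vm.det * Pm.det = Ideal.Quotient.mk (Ideal.span {w}) g ^ n' := by
    rw [← Matrix.det_mul, hVP, Matrix.det_smul, Matrix.det_one, mul_one, Fintype.card_fin]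
  obtain ⟨u, hu⟩ := Ideal.Quotient.mk_surjective Pm.det
  obtain ⟨v, hv⟩ := Ideal.Quotient.mk_surjective Vm.det
  refine ⟨u, ?_, ?_⟩
  · intro hu𝔪
    have h1 : Ideal.Quotient.mk (Ideal.span {w}) (v * u - g ^ n') = 0 := by
      rw [map_sub, map_mul, map_pow, hu, hv, hdet, sub_self]
    rw [Ideal.Quotient.eq_zero_iff_mem, Ideal.mem_span_singleton] at h1
    have h2 : v * u - g ^ n' ∈ 𝔪 := Ideal.mem_of_dvd 𝔪 h1 hw𝔪
    have h3 : g ^ n' ∈ 𝔪 := by
      have := 𝔪.sub_mem (𝔪.mul_mem_left v hu𝔪) h2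
      simpa using this
    exact hg𝔪 (Ideal.IsPrime.mem_of_pow_mem inferInstance n' h3)
  · -- discriminants
    have hxb : (fun i => Ideal.Quotient.mk ((Ideal.span {w}).map (algebraMap P B)) (x i)) =
        (Pm.map (algebraMap (P ⧸ Ideal.span {w})
          (B ⧸ (Ideal.span {w}).map (algebraMap P B)))).mulVec bb := by
      funext i
      simp only [Matrix.mulVec, dotProduct, Matrix.map_apply, Pm, Matrix.of_apply]
      conv_lhs => rw [← bb.sum_repr (Ideal.Quotient.mk _ (x i))]
      refine Finset.sum_congr rfl fun j _ => ?_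
      rw [Algebra.smul_def]
    have hdisc : Algebra.discr (P ⧸ Ideal.span {w})
        (fun i => Ideal.Quotient.mk ((Ideal.span {w}).map (algebraMap P B)) (x i)) =
        Pm.det ^ 2 * Algebra.discr (P ⧸ Ideal.span {w}) bb := by
      rw [hxb, Algebra.discr_of_matrix_mulVec]
    rw [hu, ← hdisc, Algebra.discr_def, intDiscr, RingHom.map_det]
    congr 1
    ext i j
    simp only [RingHom.mapMatrix_apply, Matrix.map_apply, Matrix.of_apply,
      Algebra.traceMatrix_apply, Algebra.traceForm_apply]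
    rw [mk_intTrace_eq_trace hw x hli g hgw hspan, map_mul]

end Main

end Fermat.Agent.S18.B12.H393

end
end
-- ===== PACK-END S18/B12/H393/DiscrRed.lean

-- ===== PACK-BEGIN S18/B12/H203/UFDStep.lean
section



/-!
# S18 / b2.5, piece A4: the UFD step (`UFDStepStatement`)

If every prime factor of `D ≠ 0` lying in the prime ideal `𝔪` is associated to the prime `p`,
then `D = p ^ a * D₁` with `D₁ ∉ 𝔪`.
-/

set_option autoImplicit false

namespace Fermat.Agent.S18.B12.H203

universe u v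

/-- In a UFD, a nonzero element of a prime ideal has a prime factor in that ideal. -/
theorem exists_prime_dvd_mem_of_mem {P : Type u} [CommRing P] [IsDomain P]
    [UniqueFactorizationMonoid P] (𝔪 : Ideal P) [h𝔪 : 𝔪.IsPrime] (d : P) (hd0 : d ≠ 0)
    (hd : d ∈ 𝔪) : ∃ π : P, Prime π ∧ π ∣ d ∧ π ∈ 𝔪 := by
  revert hd0 hd
  refine UniqueFactorizationMonoid.induction_on_prime
    (P := fun d : P => d ≠ 0 → d ∈ 𝔪 → ∃ π : P, Prime π ∧ π ∣ d ∧ π ∈ 𝔪) d ?_ ?_ ?_
  · intro h0 _
    exact absurd rfl h0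
  · intro x hx _ hxm
    exact absurd (Ideal.eq_top_of_isUnit_mem 𝔪 hxm hx) h𝔪.ne_top
  · intro a q ha0 hq ih _ hmem
    rcases h𝔪.mem_or_mem hmem with hqm | ham
    · exact ⟨q, hq, dvd_mul_right q a, hqm⟩
    · obtain ⟨π, hπ, hπa, hπm⟩ := ih ha0 ham
      exact ⟨π, hπ, hπa.mul_left q, hπm⟩

/-- **A4 (UFD step).** -/
theorem ufdStep.{w} : UFDStepStatement.{w} := by
  intro P _ _ _ 𝔪 h𝔪 p hp D hD hass
  obtain ⟨a, D₁, hpD₁, hDeq⟩ := WfDvdMonoid.max_power_factor hD hp.irreducible
  refine ⟨a, D₁, hDeq, ?_⟩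
  intro hmem
  have hD₁0 : D₁ ≠ 0 := by
    rintro rfl
    exact hD (by rw [hDeq, mul_zero])
  obtain ⟨π, hπ, hπD₁, hπm⟩ := exists_prime_dvd_mem_of_mem 𝔪 D₁ hD₁0 hmem
  have hπD : π ∣ D := by
    rw [hDeq]
    exact hπD₁.mul_left _
  have hassoc : Associated π p := hass π hπ hπD hπm
  exact hpD₁ (hassoc.symm.dvd.trans hπD₁)

end Fermat.Agent.S18.B12.H203

end
-- ===== PACK-END S18/B12/H203/UFDStep.lean

-- ===== PACK-BEGIN S18/B12/H203/PolyInst.lean
section



/-!
# S18 / b2.5, piece A1: instantiation `P = R[X]` (`PolyInstStatement`)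

`R` a discrete valuation ring of characteristic zero, `w` a uniformizer.
-/

set_option autoImplicit false
set_option linter.unusedSectionVars false

noncomputable section

namespace Fermat.Agent.S18.B12.H203

open Polynomial

universe u

section

variable {R : Type u} [CommRing R] [IsDomain R] [IsDiscreteValuationRing R]

/-- The ideal generated by a uniformizer of a DVR is maximal. -/
theorem span_irreducible_isMaximal {w : R} (hw : Irreducible w) :
    (Ideal.span {w}).IsMaximal := by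
  rw [← (IsDiscreteValuationRing.irreducible_iff_uniformizer w).mp hw]
  infer_instance

/-- Every nonzero element of a DVR becomes a unit after inverting a uniformizer. -/
theorem isUnit_algebraMap_away_of_ne_zero {w : R} (hw : Irreducible w) {r : R} (hr : r ≠ 0)
    (S : Type*) [CommRing S] [Algebra R S] [IsLocalization.Away w S] :
    IsUnit (algebraMap R S r) := by
  obtain ⟨n, hn⟩ := IsDiscreteValuationRing.associated_pow_irreducible hr hw
  rw [IsLocalization.Away.algebraMap_isUnit_iff w]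
  exact ⟨n, hn.dvd⟩

/-- The localization of a DVR away from a uniformizer is a field. -/
theorem isField_localization_away {w : R} (hw : Irreducible w) :
    IsField (Localization.Away w) := by
  have hle : Submonoid.powers w ≤ nonZeroDivisors R :=
    Submonoid.powers_le.mpr (mem_nonZeroDivisors_of_ne_zero hw.ne_zero)
  have hdom : IsDomain (Localization.Away w) :=
    IsLocalization.isDomain_localization hle
  refine ⟨exists_pair_ne _, mul_comm, ?_⟩
  intro a ha
  obtain ⟨⟨r, s⟩, hrs⟩ := IsLocalization.surj (Submonoid.powers w) a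
  simp only at hrs
  have hr : r ≠ 0 := by
    rintro rfl
    rw [map_zero] at hrs
    have hs : IsUnit (algebraMap R (Localization.Away w) s) :=
      IsLocalization.map_units _ s
    exact ha ((hs.mul_left_eq_zero).mp hrs)
  have hru : IsUnit (algebraMap R (Localization.Away w) r) :=
    isUnit_algebraMap_away_of_ne_zero hw hr _
  have hau : IsUnit a := by
    have : IsUnit (a * algebraMap R (Localization.Away w) s) := hrs ▸ hru
    exact isUnit_of_mul_isUnit_left this
  obtain ⟨b, hb⟩ := hau.exists_right_inv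
  exact ⟨b, hb⟩

/-- `R[X][1/C w]` is a principal ideal ring. -/
theorem isPrincipalIdealRing_away_C {w : R} (hw : Irreducible w) :
    IsPrincipalIdealRing (Localization.Away (C w : R[X])) := by
  let _ : Field (Localization.Away w) := (isField_localization_away hw).toField
  let _ : Algebra R[X] (Localization.Away w)[X] :=
    (mapRingHom (algebraMap R (Localization.Away w))).toAlgebra
  have hloc : IsLocalization (Submonoid.powers (C w : R[X])) (Localization.Away w)[X] := by
    have := Polynomial.isLocalization (Submonoid.powers w) (Localization.Away w)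
    rwa [Submonoid.map_powers] at this
  let e : (Localization.Away w)[X] ≃ₐ[R[X]] Localization.Away (C w : R[X]) :=
    IsLocalization.algEquiv (Submonoid.powers (C w : R[X])) _ _
  exact IsPrincipalIdealRing.of_surjective e.toRingEquiv.toRingHom e.surjective

/-- Positive integers are invertible in `R[X][1/C w]` when `R` has characteristic zero. -/
theorem isUnit_natCast_away_C [CharZero R] {w : R} (hw : Irreducible w) (m : ℕ) (hm : m ≠ 0) :
    IsUnit (algebraMap R[X] (Localization.Away (C w : R[X])) (m : R[X])) := by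
  have hm' : (m : R) ≠ 0 := Nat.cast_ne_zero.mpr hm
  obtain ⟨n, hn⟩ := IsDiscreteValuationRing.associated_pow_irreducible hm' hw
  rw [IsLocalization.Away.algebraMap_isUnit_iff (C w : R[X])]
  refine ⟨n, ?_⟩
  obtain ⟨d, hd⟩ := hn.dvd
  refine ⟨C d, ?_⟩
  rw [← C_pow, hd, C_mul, C_eq_natCast]

/-- The evaluation-at-`c`-mod-`w` map `R[X] → R/(w)`. -/
def evalModHom (w c : R) : R[X] →+* R ⧸ Ideal.span {w} :=
  (Ideal.Quotient.mk (Ideal.span {w})).comp (evalRingHom c)

theorem evalModHom_apply (w c : R) (f : R[X]) :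
    evalModHom w c f = Ideal.Quotient.mk (Ideal.span {w}) (f.eval c) := rfl

theorem evalModHom_surjective (w c : R) : Function.Surjective (evalModHom w c) := by
  intro y
  obtain ⟨r, rfl⟩ := Ideal.Quotient.mk_surjective y
  exact ⟨C r, by simp [evalModHom_apply]⟩

theorem ker_evalModHom (w c : R) :
    RingHom.ker (evalModHom w c) = Ideal.span {(C w : R[X]), X - C c} := by
  apply le_antisymm
  · intro f hf
    rw [RingHom.mem_ker, evalModHom_apply, Ideal.Quotient.eq_zero_iff_mem,
      Ideal.mem_span_singleton] at hf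
    obtain ⟨r, hr⟩ := hf
    obtain ⟨q, hq⟩ := (X_sub_C_dvd_sub_C_eval (a := c) (p := f))
    have hfe : f = C w * C r + (X - C c) * q := by
      rw [← hq, ← C_mul, ← hr]
      ring
    rw [hfe]
    refine Ideal.add_mem _ (Ideal.mul_mem_right _ _ (Ideal.subset_span (by simp)))
      (Ideal.mul_mem_right _ _ (Ideal.subset_span (by simp)))
  · rw [Ideal.span_le]
    intro f hf
    rcases hf with rfl | hf
    · simp [evalModHom_apply]
    · rw [Set.mem_singleton_iff] at hf
      subst hf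
      simp [evalModHom_apply]

end

/-- **A1 (instantiation `P = R[X]`).** -/
theorem polyInst.{w} : PolyInstStatement.{w} := by
  intro R _ _ _ _ w hw
  have hmax : (Ideal.span {w}).IsMaximal := span_irreducible_isMaximal hw
  have hwp : Prime w := hw.prime
  refine ⟨Polynomial.prime_C_iff.mpr hwp, ?_, isPrincipalIdealRing_away_C hw,
    isUnit_natCast_away_C hw, ?_⟩
  · -- `R[X]/(C w) ≃ (R/w)[X]`
    let _ : Field (R ⧸ Ideal.span {w}) := Ideal.Quotient.field _
    let e : (R ⧸ Ideal.span {w})[X] ≃+* R[X] ⧸ (Ideal.span {w}).map (C : R →+* R[X]) :=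
      Ideal.polynomialQuotientEquivQuotientPolynomial (Ideal.span {w})
    have hmap : (Ideal.span {w}).map (C : R →+* R[X]) = Ideal.span {(C w : R[X])} := by
      rw [Ideal.map_span, Set.image_singleton]
    let e' : R[X] ⧸ (Ideal.span {w}).map (C : R →+* R[X]) ≃+* R[X] ⧸ Ideal.span {(C w : R[X])} :=
      Ideal.quotEquivOfEq hmap
    exact IsPrincipalIdealRing.of_surjective (e.trans e').toRingHom (e.trans e').surjective
  · intro c
    refine ⟨Polynomial.prime_X_sub_C c, ?_, ?_, ?_, ?_⟩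
    · intro hass
      have hdvd : (X - C c : R[X]) ∣ C w := hass.dvd
      rw [Polynomial.dvd_iff_isRoot, IsRoot.def, eval_C] at hdvd
      exact hw.ne_zero hdvd
    · letI : Field (R ⧸ Ideal.span {w}) := Ideal.Quotient.field _
      rw [← ker_evalModHom]
      exact RingHom.ker_isMaximal_of_surjective _ (evalModHom_surjective w c)
    · let e : (R[X] ⧸ Ideal.span {(X - C c : R[X])}) ≃ₐ[R] R :=
        Polynomial.quotientSpanXSubCAlgEquiv c
      exact IsPrincipalIdealRing.of_surjective e.symm.toRingEquiv.toRingHom e.symm.surjective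
    · intro c' hmem hunit
      rw [← ker_evalModHom, RingHom.mem_ker, evalModHom_apply, eval_sub, eval_X, eval_C,
        Ideal.Quotient.eq_zero_iff_mem] at hmem
      exact hmax.ne_top (Ideal.eq_top_of_isUnit_mem _ hmem hunit)

end Fermat.Agent.S18.B12.H203

end
end
-- ===== PACK-END S18/B12/H203/PolyInst.lean

-- ===== PACK-BEGIN S18/H274/TraceNil.lean
section


/-!
# S18 / b2 (helper274) — the radical of the trace form consists of nilpotents (char 0)

Mathlib-only.  `C` a commutative `Λ`-algebra with a finite basis `β`, `φ : Λ →+* K` a ring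
homomorphism to a field of characteristic zero.

* `exists_pow_leftMulMatrix_map_eq_zero` : if `φ (Tr (z c)) = 0` for all `c`, then the matrix of
  multiplication by some power `z ^ m` vanishes under `φ`.
* `exists_pow_dvd_of_trace_dvd` : (`φ` = reduction mod `t`)  if `t ∣ Tr (z c)` for all `c` then
  `t ∣ z ^ m` in `C` for some `m`.
* `eq_zero_of_trace_eq_zero` : (`φ` = inclusion into the fraction field) if `Tr (z c) = 0` for all
  `c` and `C` is reduced, then `z = 0`.
* `discr_ne_zero_of_charZero` : the discriminant of a basis of a reduced finite free algebra over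
  a domain of characteristic zero is nonzero.
-/

namespace Fermat.Agent.S18.H274

open Module

section basic

variable {Λ : Type*} [CommRing Λ] {C : Type*} [CommRing C] [Algebra Λ C]
variable {ι : Type*} [Fintype ι] [DecidableEq ι] (β : Basis ι Λ C)

omit [DecidableEq ι] in
include β in
theorem dvd_of_forall_dvd_repr (t : Λ) (x : C) (h : ∀ i, t ∣ β.repr x i) :
    algebraMap Λ C t ∣ x := by
  choose e he using h
  refine ⟨∑ i, e i • β i, ?_⟩
  conv_lhs => rw [← β.sum_repr x]
  rw [Finset.mul_sum]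
  refine Finset.sum_congr rfl fun i _ => ?_
  rw [he i, mul_smul, Algebra.smul_def t]

omit [Fintype ι] [DecidableEq ι] in
include β in
theorem dvd_repr_of_dvd (t : Λ) (x : C) (h : algebraMap Λ C t ∣ x) (i : ι) :
    t ∣ β.repr x i := by
  obtain ⟨c, rfl⟩ := h
  rw [← Algebra.smul_def, map_smul]
  exact ⟨β.repr c i, rfl⟩

omit [DecidableEq ι] in
theorem trace_mul_dvd_of_basis (d : Λ) (y : C)
    (h : ∀ k, d ∣ Algebra.trace Λ C (y * β k)) (c : C) :
    d ∣ Algebra.trace Λ C (y * c) := by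
  conv_rhs => rw [← β.sum_repr c]
  rw [Finset.mul_sum, map_sum]
  refine Finset.dvd_sum fun k _ => ?_
  rw [mul_smul_comm, map_smul, smul_eq_mul]
  exact Dvd.dvd.mul_left (h k) _

theorem exists_pow_leftMulMatrix_map_eq_zero {K : Type*} [Field K] [CharZero K]
    (φ : Λ →+* K) (z : C) (hz : ∀ c, φ (Algebra.trace Λ C (z * c)) = 0) :
    ∃ m : ℕ, (Algebra.leftMulMatrix β (z ^ m)).map φ = 0 := by
  let A := Algebra.leftMulMatrix β z
  have hA : ∀ k, 1 ≤ k → ((φ.mapMatrix A) ^ k).trace = 0 := by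
    intro k hk
    obtain ⟨k, rfl⟩ : ∃ j, k = j + 1 := ⟨k - 1, by omega⟩
    rw [← map_pow, RingHom.mapMatrix_apply, ← AddMonoidHom.map_trace, ← map_pow,
      ← Algebra.trace_eq_matrix_trace β, pow_succ']
    exact hz _
  obtain ⟨m, hm⟩ := matrix_isNilpotent_of_trace_pow_eq_zero (φ.mapMatrix A) hA
  refine ⟨m, ?_⟩
  rw [map_pow, ← RingHom.mapMatrix_apply, map_pow]
  exact hm

end basic

section quotient

variable {Λ : Type*} [CommRing Λ] {C : Type*} [CommRing C] [Algebra Λ C]
variable {ι : Type*} [Fintype ι] [DecidableEq ι] (β : Basis ι Λ C)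

include β in
/-- If `K` is a characteristic zero field, `π : Λ →+* K` has kernel contained in `(t)` and
`π (Tr (z c)) = 0` for all `c`, then `z` is nilpotent modulo `t C`. -/
theorem exists_pow_dvd_of_trace_map_eq_zero {K : Type*} [Field K] [CharZero K]
    (π : Λ →+* K) (t : Λ) (hker : ∀ x, π x = 0 → t ∣ x)
    (z : C) (hz : ∀ c, π (Algebra.trace Λ C (z * c)) = 0) :
    ∃ m : ℕ, algebraMap Λ C t ∣ z ^ m := by
  classical
  obtain ⟨m, hm⟩ := exists_pow_leftMulMatrix_map_eq_zero β π z hz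
  refine ⟨m, dvd_of_forall_dvd_repr β t _ fun i => ?_⟩
  have h1 := Algebra.leftMulMatrix_mulVec_repr β (z ^ m) 1
  rw [mul_one] at h1
  rw [← h1]
  simp only [Matrix.mulVec, dotProduct]
  refine Finset.dvd_sum fun j _ => ?_
  apply Dvd.dvd.mul_right
  apply hker
  have := congrFun (congrFun hm i) j
  simpa using this

end quotient

section domain

variable {Λ : Type*} [CommRing Λ] [IsDomain Λ] [CharZero Λ]
variable {C : Type*} [CommRing C] [IsReduced C] [Algebra Λ C]
variable {ι : Type*} [Fintype ι] [DecidableEq ι] (β : Basis ι Λ C)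

include β in
theorem eq_zero_of_trace_eq_zero (z : C) (hz : ∀ c, Algebra.trace Λ C (z * c) = 0) : z = 0 := by
  classical
  let K := FractionRing Λ
  have : CharZero K := charZero_of_injective_algebraMap (IsFractionRing.injective Λ K)
  obtain ⟨m, hm⟩ := exists_pow_leftMulMatrix_map_eq_zero β (algebraMap Λ K) z
    (fun c => by rw [hz c, map_zero])
  have h0 : Algebra.leftMulMatrix β (z ^ m) = 0 := by
    ext i j
    have := congrFun (congrFun hm i) j
    simp only [Matrix.map_apply, Matrix.zero_apply] at this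
    rw [Matrix.zero_apply]
    exact IsFractionRing.injective Λ K (by rw [this, map_zero])
  have h1 : z ^ m = 0 := Algebra.leftMulMatrix_injective β (by rw [h0, map_zero])
  exact IsReduced.eq_zero _ ⟨m, h1⟩

/-- The discriminant of a basis of a reduced finite free algebra over a domain of
characteristic zero is nonzero. -/
theorem discr_ne_zero_of_charZero : Algebra.discr Λ β ≠ 0 := by
  classical
  intro hD
  rw [Algebra.discr_def] at hD
  obtain ⟨v, hv0, hv⟩ := Matrix.exists_mulVec_eq_zero_iff.mpr hD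
  have hz : ∀ c, Algebra.trace Λ C ((∑ i, v i • β i) * c) = 0 := by
    intro c
    have hk : ∀ k, (0 : Λ) ∣ Algebra.trace Λ C ((∑ i, v i • β i) * β k) := by
      intro k
      rw [zero_dvd_iff]
      have := congrFun hv k
      simp only [Matrix.mulVec, dotProduct, Algebra.traceMatrix_apply, Algebra.traceForm_apply,
        Pi.zero_apply] at this
      rw [Finset.sum_mul, map_sum, ← this]
      refine Finset.sum_congr rfl fun i _ => ?_
      rw [smul_mul_assoc, map_smul, smul_eq_mul, mul_comm (β i) (β k), mul_comm]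
    exact zero_dvd_iff.mp (trace_mul_dvd_of_basis β 0 _ hk c)
  have h0 := eq_zero_of_trace_eq_zero β _ hz
  apply hv0
  funext i
  have h1 := congrArg (fun x => β.repr x i) h0
  simp only [β.repr_sum_self, map_zero, Finsupp.coe_zero, Pi.zero_apply] at h1
  exact h1

end domain

end Fermat.Agent.S18.H274

end
-- ===== PACK-END S18/H274/TraceNil.lean

-- ===== PACK-BEGIN S18/H274/Tame.lean
section




/-!
# S18 / b2.3 (helper274) — TAME discriminant bound

Mathlib-only, sorry-free.  `Λ` a domain, `t` a prime element, `π : Λ →+* K` a surjection onto a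
field of characteristic `0` with kernel `(t)`.  `C` a Dedekind domain which is free of finite rank
over `Λ` with basis `β`.

* `pow_dvd_mul_of_trace_dvd` : if `t ^ a ∣ Tr (y c)` for all `c : C`, then `t ^ a ∣ t * y` in `C`
  ("`t` times the trace dual is integral").
* `tame_discr_of_residue` : if `y : Fin r → C` is linearly independent modulo `rad (t C)` then
  `¬ t ^ (card ι - r + 1) ∣ discr β`.
* `tameDiscr` : the same in the frozen shape `TameDiscrStatement` of
  `origin/helper33:Fermat/Agent/S18/B12/Spec.lean` (`Λ` a PID containing `ℚ`).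
-/

namespace Fermat.Agent.S18.H274

open Module

section

variable {Λ : Type*} [CommRing Λ] [IsDomain Λ]
variable {C : Type*} [CommRing C] [IsDedekindDomain C] [Algebra Λ C]
variable {ι : Type*} [Fintype ι] [DecidableEq ι] (β : Basis ι Λ C)
variable {K : Type*} [Field K] [CharZero K] (π : Λ →+* K)

include β π in
/-- **`t` times the trace dual is integral.**  If `t ^ a` divides `Tr (y c)` for all `c`, then
`t ^ a` divides `t * y` in `C`. -/
theorem pow_dvd_mul_of_trace_dvd (t : Λ) (ht0 : t ≠ 0) (hπt : π t = 0)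
    (hker : ∀ x, π x = 0 → t ∣ x) (y : C) (a : ℕ)
    (hy : ∀ c, t ^ a ∣ Algebra.trace Λ C (y * c)) :
    algebraMap Λ C t ^ a ∣ algebraMap Λ C t * y := by
  classical
  have hinj : Function.Injective (algebraMap Λ C) := β.algebraMap_injective
  have hτ : algebraMap Λ C t ≠ 0 := fun h => ht0 (hinj (by rw [h, map_zero]))
  obtain ⟨β₀, β₀', z, z₁, h1, hz, hz₁⟩ :=
    exists_split_of_isDedekindDomain (algebraMap Λ C t * y) (algebraMap Λ C t ^ a)
      (pow_ne_zero a hτ)
  have hzc : ∀ c, π (Algebra.trace Λ C (z * c)) = 0 := by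
    intro c
    obtain ⟨e, he⟩ := hy (β₀' * c)
    have h2 : t ^ a * Algebra.trace Λ C (z * c) = t ^ a * (t * e) := by
      calc t ^ a * Algebra.trace Λ C (z * c)
          = Algebra.trace Λ C ((z * algebraMap Λ C t ^ a) * c) := by
            rw [← smul_eq_mul, ← map_smul, Algebra.smul_def, map_pow]
            congr 1; ring
        _ = Algebra.trace Λ C (t • (y * (β₀' * c))) := by
            rw [hz, Algebra.smul_def]
            congr 1; ring
        _ = t ^ a * (t * e) := by
            rw [map_smul, he, smul_eq_mul]; ring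
    have h3 := mul_left_cancel₀ (pow_ne_zero a ht0) h2
    rw [h3, map_mul, hπt, zero_mul]
  obtain ⟨m, c₀, hc₀⟩ := exists_pow_dvd_of_trace_map_eq_zero β π t hker z hzc
  have hβ₀ : β₀ = 1 - z := by rw [← h1]; ring
  have hgeom := mul_neg_geom_sum z (m * a)
  refine ⟨(∑ i ∈ Finset.range (m * a), z ^ i) * z₁ + c₀ ^ a * (algebraMap Λ C t * y), ?_⟩
  have hzma : z ^ (m * a) = algebraMap Λ C t ^ a * c₀ ^ a := by
    rw [pow_mul, hc₀, mul_pow]
  calc algebraMap Λ C t * y
      = (1 - z ^ (m * a)) * (algebraMap Λ C t * y) + z ^ (m * a) * (algebraMap Λ C t * y) := by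
        ring
    _ = (∑ i ∈ Finset.range (m * a), z ^ i) * (β₀ * (algebraMap Λ C t * y))
          + z ^ (m * a) * (algebraMap Λ C t * y) := by
        rw [← hgeom, hβ₀]; ring
    _ = algebraMap Λ C t ^ a *
          ((∑ i ∈ Finset.range (m * a), z ^ i) * z₁ + c₀ ^ a * (algebraMap Λ C t * y)) := by
        rw [← hz₁, hzma]; ring

include π in
/-- **TAME discriminant bound**, residue-field form.  `π : Λ →+* K` a surjection onto a field
of characteristic `0` with kernel `(t)`, `t` prime; `C` Dedekind, free over `Λ` with basis `β`.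
If `y : Fin r → C` is linearly independent modulo `rad (t C)`, then
`t ^ (card ι - r + 1)` does not divide the discriminant of `β`. -/
theorem tame_discr_of_residue [WfDvdMonoid Λ] (hπ : Function.Surjective π)
    (t : Λ) (ht : Prime t) (hπt : π t = 0) (hker : ∀ x, π x = 0 → t ∣ x)
    (r : ℕ) (y : Fin r → C)
    (hy : ∀ a : Fin r → Λ,
        (∑ i, a i • y i) ∈ (Ideal.span {algebraMap Λ C t}).radical → ∀ i, t ∣ a i) :
    ¬ t ^ (Fintype.card ι - r + 1) ∣ Algebra.discr Λ β := by
  classical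
  have ht0 : t ≠ 0 := ht.ne_zero
  have hchar : CharZero Λ := ⟨fun n m h => by
    have := congrArg π h
    simpa using this⟩
  -- Step 1: the discriminant is nonzero
  have hD0 : Algebra.discr Λ β ≠ 0 := discr_ne_zero_of_charZero β
  -- Step 2: `D = t ^ a * D'`
  obtain ⟨a, D', hD', hD⟩ := WfDvdMonoid.max_power_factor hD0 ht.irreducible
  set G := Algebra.traceMatrix Λ β with hG
  have hGdet : G.det = t ^ a * D' := by rw [← hD, Algebra.discr_def]
  have hGsymm : ∀ i k, G i k = G k i := by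
    intro i k
    simp only [hG, Algebra.traceMatrix_apply, Algebra.traceForm_apply, mul_comm]
  have hGapp : ∀ i k, G i k = Algebra.trace Λ C (β i * β k) := by
    intro i k
    simp only [hG, Algebra.traceMatrix_apply, Algebra.traceForm_apply]
  -- trace of `(∑ i, M i j • β i) * β k` is `(G * M) k j`
  have htrcol : ∀ (M : Matrix ι ι Λ) (j k : ι),
      Algebra.trace Λ C ((∑ i, M i j • β i) * β k) = (G * M) k j := by
    intro M j k
    rw [Finset.sum_mul, map_sum, Matrix.mul_apply]
    refine Finset.sum_congr rfl fun i _ => ?_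
    rw [smul_mul_assoc, map_smul, smul_eq_mul, hGsymm k i, hGapp, mul_comm]
  -- Step 3: the matrix `N` with `t • adj G = t ^ a • N`
  have hdual : ∀ j, algebraMap Λ C t ^ a ∣ algebraMap Λ C t * (∑ i, G.adjugate i j • β i) := by
    intro j
    apply pow_dvd_mul_of_trace_dvd β π t ht0 hπt hker
    apply trace_mul_dvd_of_basis β
    intro k
    rw [htrcol, Matrix.mul_adjugate, hGdet, Matrix.smul_apply, Matrix.one_apply, smul_eq_mul]
    split_ifs
    · rw [mul_one]; exact Dvd.intro _ rfl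
    · rw [mul_zero]; exact dvd_zero _
  choose x hx using hdual
  let N : Matrix ι ι Λ := fun i j => β.repr (x j) i
  have hxN : ∀ j, x j = ∑ i, N i j • β i := fun j => (β.sum_repr (x j)).symm
  have hN : ∀ i j, t * G.adjugate i j = t ^ a * N i j := by
    intro i j
    have h1 : β.repr (algebraMap Λ C t * ∑ i, G.adjugate i j • β i) i
        = β.repr (algebraMap Λ C t ^ a * x j) i := by rw [hx j]
    rw [← Algebra.smul_def, map_smul, Finsupp.smul_apply, β.repr_sum_self, ← map_pow,
      ← Algebra.smul_def, map_smul, Finsupp.smul_apply, smul_eq_mul, smul_eq_mul] at h1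
    exact h1
  -- Step 4: `G * N = (t * D') • 1`
  have hGN : G * N = (t * D') • (1 : Matrix ι ι Λ) := by
    ext i j
    apply mul_left_cancel₀ (pow_ne_zero a ht0)
    have h2 : t ^ a * (G * N) i j = t * (G * G.adjugate) i j := by
      rw [Matrix.mul_apply, Matrix.mul_apply, Finset.mul_sum, Finset.mul_sum]
      refine Finset.sum_congr rfl fun k _ => ?_
      rw [mul_left_comm, ← hN, mul_left_comm]
    rw [h2, Matrix.mul_adjugate, hGdet]
    simp only [Matrix.smul_apply, smul_eq_mul]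
    ring
  -- Step 5: the columns of `N` are nilpotent modulo `t`
  have hxrad : ∀ j, x j ∈ (Ideal.span {algebraMap Λ C t}).radical := by
    intro j
    have h3 : ∀ c, π (Algebra.trace Λ C (x j * c)) = 0 := by
      intro c
      have h4 : t ∣ Algebra.trace Λ C (x j * c) := by
        apply trace_mul_dvd_of_basis β
        intro k
        rw [hxN j, htrcol, hGN, Matrix.smul_apply, smul_eq_mul, mul_assoc]
        exact Dvd.intro _ rfl
      obtain ⟨e, he⟩ := h4
      rw [he, map_mul, hπt, zero_mul]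
    obtain ⟨m, hm⟩ := exists_pow_dvd_of_trace_map_eq_zero β π t hker (x j) h3
    rw [Ideal.mem_radical_iff]
    exact ⟨m, Ideal.mem_span_singleton.mpr hm⟩
  -- Step 6: rank bound
  let Nbar : Matrix ι ι K := N.map π
  let Ybar : Matrix ι (Fin r) K := fun i' i => π (β.repr (y i) i')
  let W : Submodule K (ι → K) := LinearMap.range Nbar.mulVecLin
  let f : (Fin r → K) →ₗ[K] ((ι → K) ⧸ W) := W.mkQ ∘ₗ Ybar.mulVecLin
  have hfinj : Function.Injective f := by
    rw [← LinearMap.ker_eq_bot, LinearMap.ker_eq_bot']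
    intro abar habar
    have h5 : Ybar.mulVec abar ∈ W := by
      have : W.mkQ (Ybar.mulVecLin abar) = 0 := habar
      rwa [Submodule.mkQ_apply, Submodule.Quotient.mk_eq_zero] at this
    obtain ⟨vbar, hvbar⟩ := h5
    choose a₀ ha₀ using fun i => hπ (abar i)
    choose v hv using fun j => hπ (vbar j)
    -- the element `e = ∑ a i • y i - ∑ v j • x j` is divisible by `t`
    have he : algebraMap Λ C t ∣ (∑ i, a₀ i • y i) - ∑ j, v j • x j := by
      apply dvd_of_forall_dvd_repr β
      intro i'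
      apply hker
      have h6 := congrFun hvbar i'
      simp only [Matrix.mulVecLin_apply, Matrix.mulVec, dotProduct, Nbar, Ybar,
        Matrix.map_apply] at h6
      rw [map_sub, Finsupp.sub_apply, map_sum, map_sum, Finsupp.finsetSum_apply,
        Finsupp.finsetSum_apply, map_sub, map_sum, map_sum, sub_eq_zero]
      have e1 : ∀ i, π ((β.repr (a₀ i • y i)) i') = π (β.repr (y i) i') * abar i := by
        intro i
        rw [map_smul, Finsupp.smul_apply, smul_eq_mul, map_mul, ha₀, mul_comm]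
      have e2 : ∀ j, π ((β.repr (v j • x j)) i') = π (N i' j) * vbar j := by
        intro j
        rw [map_smul, Finsupp.smul_apply, smul_eq_mul, map_mul, hv, mul_comm]
      simp only [e1, e2]
      exact h6.symm
    -- hence `∑ a i • y i` is in the radical
    have hrad : (∑ i, a₀ i • y i) ∈ (Ideal.span {algebraMap Λ C t}).radical := by
      have h7 : (∑ i, a₀ i • y i) = ((∑ i, a₀ i • y i) - ∑ j, v j • x j) + ∑ j, v j • x j := by
        ring
      rw [h7]
      refine Ideal.add_mem _ (Ideal.le_radical (Ideal.mem_span_singleton.mpr he)) ?_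
      refine Ideal.sum_mem _ fun j _ => ?_
      rw [Algebra.smul_def]
      exact Ideal.mul_mem_left _ _ (hxrad j)
    funext i
    rw [← ha₀ i]
    obtain ⟨e, he'⟩ := hy a₀ hrad i
    rw [he', map_mul, hπt, zero_mul, Pi.zero_apply]
  have hrank : r + Nbar.rank ≤ Fintype.card ι := by
    have h8 := LinearMap.finrank_le_finrank_of_injective hfinj
    have h9 := Submodule.finrank_quotient_add_finrank W
    rw [Module.finrank_fin_fun, ] at h8
    rw [Module.finrank_fintype_fun_eq_card] at h9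
    have h10 : Nbar.rank = finrank K W := rfl
    omega
  -- Step 7: DET-RANK
  have hdetN : t ^ r ∣ N.det := by
    refine dvd_trans (pow_dvd_pow t ?_) (pow_sub_rank_dvd_det π hπ t hker N)
    have : (N.map π).rank = Nbar.rank := rfl
    omega
  -- Step 8: `a + r ≤ card ι`
  have hdet : t ^ a * D' * N.det = t ^ Fintype.card ι * D' ^ Fintype.card ι := by
    rw [← hGdet, ← Matrix.det_mul, hGN, Matrix.det_smul, Matrix.det_one, mul_one, mul_pow]
  have har : a + r ≤ Fintype.card ι := by
    by_contra hlt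
    rw [not_le] at hlt
    obtain ⟨e, he⟩ := hdetN
    obtain ⟨d, hd⟩ : ∃ d, a + r = Fintype.card ι + (d + 1) :=
      ⟨a + r - Fintype.card ι - 1, by omega⟩
    have h11 : t ^ Fintype.card ι * (t * (t ^ d * (D' * e)))
        = t ^ Fintype.card ι * D' ^ Fintype.card ι := by
      rw [← hdet, he]
      have : t ^ a * D' * (t ^ r * e) = t ^ (a + r) * (D' * e) := by ring
      rw [this, hd]
      ring
    have h12 := mul_left_cancel₀ (pow_ne_zero _ ht0) h11
    exact hD' (ht.dvd_of_dvd_pow (Dvd.intro _ h12))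
  -- Step 9: conclusion
  intro hdvd
  rw [hD] at hdvd
  obtain ⟨d, hd⟩ : ∃ d, Fintype.card ι - r + 1 = a + (d + 1) :=
    ⟨Fintype.card ι - r - a, by omega⟩
  rw [hd, pow_add, pow_succ] at hdvd
  have h13 := (mul_dvd_mul_iff_left (pow_ne_zero a ht0)).mp hdvd
  exact hD' (dvd_trans (Dvd.intro_left _ rfl) h13)

end

universe u v

/-- **b2-α (tame discriminant)** in the frozen shape `TameDiscrStatement` of
`origin/helper33:Fermat/Agent/S18/B12/Spec.lean` (unfolded):
`theorem foo : TameDiscrStatement := fun Λ _ _ _ _ t ht C₀ _ _ _ _ _ n β r y hy =>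
   tameDiscr Λ t ht C₀ n β r y hy`. -/
theorem tameDiscr
    (Λ : Type u) [CommRing Λ] [IsDomain Λ] [IsPrincipalIdealRing Λ] [Algebra ℚ Λ]
    (t : Λ) (ht : Prime t)
    (C₀ : Type v) [CommRing C₀] [IsDomain C₀] [IsDedekindDomain C₀] [Algebra Λ C₀]
    [Module.IsTorsionFree Λ C₀]
    (n : ℕ) (β : Module.Basis (Fin n) Λ C₀) (r : ℕ) (y : Fin r → C₀)
    (hy : ∀ a : Fin r → Λ,
        (∑ i, a i • y i) ∈ (Ideal.span {algebraMap Λ C₀ t}).radical → ∀ i, t ∣ a i) :
    ¬ t ^ (n - r + 1) ∣ Algebra.discr Λ β := by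
  have hmax : (Ideal.span {t}).IsMaximal :=
    PrincipalIdealRing.isMaximal_of_irreducible ht.irreducible
  let _ : Field (Λ ⧸ Ideal.span {t}) := Ideal.Quotient.field _
  have hchar : CharZero (Λ ⧸ Ideal.span {t}) := algebraRat.charZero _
  have h := tame_discr_of_residue β (Ideal.Quotient.mk (Ideal.span {t}))
    Ideal.Quotient.mk_surjective t ht
    ((Ideal.Quotient.eq_zero_iff_dvd t t).mpr dvd_rfl)
    (fun x hx => (Ideal.Quotient.eq_zero_iff_dvd t x).mp hx) r y hy
  rwa [Fintype.card_fin] at h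

end Fermat.Agent.S18.H274

end
-- ===== PACK-END S18/H274/Tame.lean

-- ===== PACK-BEGIN A2/Alg/Spec.lean
section


/-!
# WALL A2 / ALG — frozen sub-interfaces (architect helper34), Mathlib-only

Decomposition of `Fermat.Agent.A2.algSS` (statement in `Fermat/Agent/A2/Skel.lean`, row-lead
helper13).  This file contains ONLY definitions (no `sorry`).  The exact theorem statements of the
sub-pieces are in `Fermat/Agent/A2/Alg/Skel.lean`; the board is `coord/A2-ALG.md` (origin/helper34).

Notation: `R` henselian DVR, uniformiser `w`, `E = Frac R`, `F / E` the function field,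
`B ⊆ F` a chart (integral closure of `R[x]` or `R[x⁻¹]`), `c : SSChart w B` its two components
`p₁`, `p₂`; `V_i := B_{p_i}` (a DVR with uniformiser `w`).

Elementwise local conditions (no localisation types, everything is a statement about elements
of `F`):

* `LocUnit B n u`   : `u ∈ (B_n)ˣ`            (`u = a / b`, `a, b ∈ B ∖ n`);
* `LocOne B n I u`  : `u ∈ 1 + I · B_n`       (`u = a / b`, `b ∉ n`, `a - b ∈ I`);
* `OneAt B p u`     : `u ∈ 1 + p B_p`         (`u ≡ 1` on the component `p`);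
* `ConstAt B p u`   : `u ∈ c · (1 + p B_p)` for a unit `c` of `R` (`u` is a unit on the component
                      `p`, with CONSTANT residue);
* `IsSplit B c u`   : `ConstAt` on both components of the chart;
* `LocalFactor B c m u n` : local factorisation of the Kummer problem `Y ^ m = u` at the closed
                      point `n` of the special fibre.
* `ChartCtx`, `TauCtx` : the standing hypotheses of `algSS`, bundled (one chart).
-/

set_option autoImplicit false

namespace Fermat.Agent.A2.Alg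

section Defs

variable {R F : Type*} [CommRing R] [Field F] [Algebra R F]

/-- `u` is a unit of the localisation `B_n`: `u = a / b` with `a, b ∈ B ∖ n`. -/
def LocUnit (B : Subalgebra R F) (n : Ideal B) (u : F) : Prop :=
  ∃ a b : B, a ∉ n ∧ b ∉ n ∧ u * (b : F) = (a : F)

/-- `u ∈ 1 + I · B_n`: `u = a / b` with `b ∉ n` and `a - b ∈ I`. -/
def LocOne (B : Subalgebra R F) (n I : Ideal B) (u : F) : Prop :=
  ∃ a b : B, b ∉ n ∧ a - b ∈ I ∧ u * (b : F) = (a : F)

/-- `u ≡ 1` on the component `p` (`u ∈ 1 + p B_p`). -/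
def OneAt (B : Subalgebra R F) (p : Ideal B) (u : F) : Prop :=
  LocOne B p p u

/-- `u` is a unit on the component `p` with constant residue: `u = a / b`, `b ∉ p`,
`a - c b ∈ p` for a unit `c` of `R`. -/
def ConstAt (B : Subalgebra R F) (p : Ideal B) (u : F) : Prop :=
  ∃ c : R, IsUnit c ∧ ∃ a b : B, b ∉ p ∧ a - algebraMap R B c * b ∈ p ∧ u * (b : F) = (a : F)

/-- `u` has constant (unit) residue on both components of the chart. -/
def IsSplit {w : R} (B : Subalgebra R F) (c : SSChart w B) (u : F) : Prop :=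
  ConstAt B c.p₁ u ∧ ConstAt B c.p₂ u

/-- The two components are incomparable (both are minimal primes over `w`, i.e. both are curves).
`SSChart` only records `p₁ ≠ p₂`, which also allows the degenerate case `p₁ = (w) ⊊ p₂`
(good reduction, `p₂` a closed point). -/
def Incomparable {w : R} {B : Subalgebra R F} (c : SSChart w B) : Prop :=
  ¬ c.p₁ ≤ c.p₂ ∧ ¬ c.p₂ ≤ c.p₁

/-- **Purity datum at a closed point `n`** for `u`: `u · d ^ m` is a unit of `B_n`, and `d` is a
unit on both components. -/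
def PureAt {w : R} (B : Subalgebra R F) (c : SSChart w B) (m : ℕ) (u : F) (n : Ideal B) : Prop :=
  ∃ d : F, d ≠ 0 ∧ LocUnit B n (u * d ^ m) ∧ LocUnit B c.p₁ d ∧ LocUnit B c.p₂ d

/-- **Local factorisation at a closed point `n`** of the special fibre of the chart `B`, for the
Kummer problem `Y ^ m = u`:  there is `h ∈ Fˣ` with `u · h ^ m ∈ 1 + w B_n` and `h ≡ 1` on both
components.
(Then `B_n[Y]/(Y^m - u h^m)` is finite étale over `B_n` with canonically split special fibre, and
the sheet `Y h ≡ 1` is the same on the two branches through `n`.) -/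
def LocalFactor {w : R} (B : Subalgebra R F) (c : SSChart w B) (m : ℕ) (u : F)
    (n : Ideal B) : Prop :=
  ∃ h : F, h ≠ 0 ∧ LocOne B n (Ideal.span {algebraMap R B w}) (u * h ^ m) ∧
    OneAt B c.p₁ h ∧ OneAt B c.p₂ h

/-- Local factorisations at ALL closed points of the special fibre of the chart `B`. -/
def LocallyFactored {w : R} (B : Subalgebra R F) (c : SSChart w B) (m : ℕ) (u : F) : Prop :=
  ∀ n : Ideal B, n.IsMaximal → algebraMap R B w ∈ n → LocalFactor B c m u n

end Defs

section Ctx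

variable {R E F : Type*} [CommRing R] [Field E] [Algebra R E] [Field F] [Algebra E F]
  [Algebra R F]

/-- The standing hypotheses of `algSS` on ONE chart `B` with coordinate `x`
(`(x, B) = (x, Bf)` or `(x⁻¹, Bi)`). -/
structure ChartCtx (E : Type*) [Field E] [Algebra R E] [Algebra E F] (w : R) (x : F)
    (B : Subalgebra R F) : Prop where
  hw : Irreducible w
  hx : Transcendental E x
  hfin : FiniteDimensional (IntermediateField.adjoin E ({x} : Set F)) F
  hconst : ∀ f : F, IsAlgebraic E f → f ∈ (algebraMap E F).range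
  hB : ∀ f : F, f ∈ B ↔ IsIntegral (Algebra.adjoin R ({x} : Set F)) f

/-- The standing hypotheses of `algSS` on the semilinear automorphism `τ`, on one chart. -/
structure TauCtx (w : R) (B : Subalgebra R F) (τ : F ≃+* F) (τE : E ≃+* E) (τR : R ≃+* R) :
    Prop where
  hτE : ∀ e : E, τ (algebraMap E F e) = algebraMap E F (τE e)
  hτR : ∀ r : R, τE (algebraMap R E r) = algebraMap R E (τR r)
  hτB : ∀ b ∈ B, ∃ c ∈ B, τ b - b = algebraMap R F w * c

end Ctx

end Fermat.Agent.A2.Alg

end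
-- ===== PACK-END A2/Alg/Spec.lean

-- ===== PACK-BEGIN S35/H433/Loc.lean
section


/-!
# S35 / (G) — localisations of a chart inside the function field (helper433)

Elementwise API for `B_n ⊆ F` and `I · B_n ⊆ F` (`B` a subalgebra of a field `F`, `n` a prime of
`B`), bridging to the predicates `LocUnit`, `LocOne`, `OneAt` of `Fermat/Agent/A2/Alg/Spec.lean`.
Mathlib-only mathematics.
-/

set_option autoImplicit false

namespace Fermat.Agent.S35.H433

open Fermat.Agent.A2 Fermat.Agent.A2.Alg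

variable {R F : Type*} [CommRing R] [Field F] [Algebra R F] (B : Subalgebra R F)

/-- `u ∈ I · B_n`: `u = a / b`, `a ∈ I`, `b ∉ n`. -/
def InLoc (n I : Ideal B) (u : F) : Prop :=
  ∃ a b : B, a ∈ I ∧ b ∉ n ∧ u * (b : F) = (a : F)

variable {B}

theorem coe_ne_zero_of_not_mem {n : Ideal B} {b : B} (hb : b ∉ n) : (b : F) ≠ 0 := by
  intro h
  apply hb
  have : b = 0 := Subtype.ext h
  rw [this]
  exact n.zero_mem

theorem InLoc.mono {n I J : Ideal B} (hIJ : I ≤ J) {u : F} (h : InLoc B n I u) : InLoc B n J u := by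
  obtain ⟨a, b, ha, hb, hab⟩ := h
  exact ⟨a, b, hIJ ha, hb, hab⟩

theorem InLoc.anti {n n' I : Ideal B} (hn : n' ≤ n) {u : F} (h : InLoc B n I u) :
    InLoc B n' I u := by
  obtain ⟨a, b, ha, hb, hab⟩ := h
  exact ⟨a, b, ha, fun h' => hb (hn h'), hab⟩

theorem inLoc_zero (n I : Ideal B) [n.IsPrime] : InLoc B n I (0 : F) :=
  ⟨0, 1, I.zero_mem, fun h => (Ideal.IsPrime.ne_top ‹_›) ((Ideal.eq_top_iff_one n).2 h), by simp⟩

theorem inLoc_coe {n I : Ideal B} [n.IsPrime] {a : B} (ha : a ∈ I) : InLoc B n I (a : F) :=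
  ⟨a, 1, ha, fun h => (Ideal.IsPrime.ne_top ‹_›) ((Ideal.eq_top_iff_one n).2 h), by simp⟩

theorem inLoc_one (n : Ideal B) [n.IsPrime] : InLoc B n ⊤ (1 : F) :=
  ⟨1, 1, trivial, fun h => (Ideal.IsPrime.ne_top ‹_›) ((Ideal.eq_top_iff_one n).2 h), by simp⟩

theorem InLoc.add {n I : Ideal B} [hn : n.IsPrime] {u v : F} (hu : InLoc B n I u)
    (hv : InLoc B n I v) : InLoc B n I (u + v) := by
  obtain ⟨a, b, ha, hb, hab⟩ := hu
  obtain ⟨a', b', ha', hb', hab'⟩ := hv
  refine ⟨a * b' + a' * b, b * b', I.add_mem (I.mul_mem_right _ ha) (I.mul_mem_right _ ha'),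
    fun h => (hn.mem_or_mem h).elim hb hb', ?_⟩
  push_cast
  rw [← hab, ← hab']
  ring

theorem InLoc.neg {n I : Ideal B} {u : F} (hu : InLoc B n I u) : InLoc B n I (-u) := by
  obtain ⟨a, b, ha, hb, hab⟩ := hu
  refine ⟨-a, b, I.neg_mem ha, hb, ?_⟩
  push_cast
  rw [← hab]
  ring

theorem InLoc.sub {n I : Ideal B} [n.IsPrime] {u v : F} (hu : InLoc B n I u)
    (hv : InLoc B n I v) : InLoc B n I (u - v) := by
  rw [sub_eq_add_neg]
  exact hu.add hv.neg

/-- `B_n · I B_n ⊆ I B_n`. -/
theorem InLoc.mul {n I : Ideal B} [hn : n.IsPrime] {u v : F} (hu : InLoc B n ⊤ u)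
    (hv : InLoc B n I v) : InLoc B n I (u * v) := by
  obtain ⟨a, b, -, hb, hab⟩ := hu
  obtain ⟨a', b', ha', hb', hab'⟩ := hv
  refine ⟨a * a', b * b', I.mul_mem_left _ ha', fun h => (hn.mem_or_mem h).elim hb hb', ?_⟩
  push_cast
  rw [← hab, ← hab']
  ring

theorem InLoc.mul' {n I : Ideal B} [hn : n.IsPrime] {u v : F} (hu : InLoc B n I u)
    (hv : InLoc B n ⊤ v) : InLoc B n I (u * v) := by
  rw [mul_comm]
  exact hv.mul hu

theorem InLoc.top {n I : Ideal B} {u : F} (hu : InLoc B n I u) : InLoc B n ⊤ u :=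
  hu.mono le_top

theorem InLoc.pow {n : Ideal B} [hn : n.IsPrime] {u : F} (hu : InLoc B n ⊤ u) (k : ℕ) :
    InLoc B n ⊤ (u ^ k) := by
  induction k with
  | zero => rw [pow_zero]; exact inLoc_one n
  | succ k ih => rw [pow_succ]; exact ih.mul hu

/-- Contraction: `I B_n ∩ B_n = I B_n`, in the form: an element of `B_n` lying in `p B_p`
(`p ≤ n` prime) lies in `p B_n`. -/
theorem InLoc.of_le {n p : Ideal B} [hp : p.IsPrime] {u : F} (hu : InLoc B n ⊤ u)
    (hup : InLoc B p p u) : InLoc B n p u := by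
  obtain ⟨a, b, -, hb, hab⟩ := hu
  obtain ⟨a', b', ha', hb', hab'⟩ := hup
  refine ⟨a, b, ?_, hb, hab⟩
  have h1 : a * b' = a' * b := by
    apply Subtype.ext
    push_cast
    rw [← hab, ← hab']
    ring
  have h2 : a * b' ∈ p := by
    rw [h1]
    exact p.mul_mem_right _ ha'
  exact (hp.mem_or_mem h2).resolve_right hb'

/-- `p₁ B_n ∩ p₂ B_n = (p₁ ∩ p₂) B_n`. -/
theorem InLoc.inf {n p₁ p₂ : Ideal B} [hn : n.IsPrime] {u : F} (h₁ : InLoc B n p₁ u)
    (h₂ : InLoc B n p₂ u) : InLoc B n (p₁ ⊓ p₂) u := by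
  obtain ⟨a, b, ha, hb, hab⟩ := h₁
  obtain ⟨a', b', ha', hb', hab'⟩ := h₂
  refine ⟨a * b', b * b', ⟨p₁.mul_mem_right _ ha, ?_⟩, fun h => (hn.mem_or_mem h).elim hb hb', ?_⟩
  · have h1 : a * b' = a' * b := by
      apply Subtype.ext
      push_cast
      rw [← hab, ← hab']
      ring
    rw [h1]
    exact p₂.mul_mem_right _ ha'
  · push_cast
    rw [← hab]
    ring

/-- `(p₁ + p₂) B_n = p₁ B_n + p₂ B_n`. -/
theorem InLoc.exists_add {n p₁ p₂ : Ideal B} {u : F} (h : InLoc B n (p₁ ⊔ p₂) u) :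
    ∃ u₁ u₂ : F, InLoc B n p₁ u₁ ∧ InLoc B n p₂ u₂ ∧ u = u₁ + u₂ := by
  obtain ⟨a, b, ha, hb, hab⟩ := h
  obtain ⟨a₁, ha₁, a₂, ha₂, rfl⟩ := Submodule.mem_sup.1 ha
  have hb0 : (b : F) ≠ 0 := coe_ne_zero_of_not_mem hb
  refine ⟨(a₁ : F) / b, (a₂ : F) / b, ⟨a₁, b, ha₁, hb, by field_simp⟩,
    ⟨a₂, b, ha₂, hb, by field_simp⟩, ?_⟩
  push_cast at hab
  field_simp
  exact hab

/-- An element of `B_p` outside `p B_p` is a unit of `B_p`. -/
theorem inLoc_inv_of_not {p : Ideal B} {u : F} (hu : InLoc B p ⊤ u) (hnu : ¬ InLoc B p p u) :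
    InLoc B p ⊤ u⁻¹ := by
  obtain ⟨a, b, -, hb, hab⟩ := hu
  have ha : a ∉ p := fun ha => hnu ⟨a, b, ha, hb, hab⟩
  have ha0 : (a : F) ≠ 0 := coe_ne_zero_of_not_mem ha
  have hb0 : (b : F) ≠ 0 := coe_ne_zero_of_not_mem hb
  refine ⟨b, a, trivial, ha, ?_⟩
  have hu0 : u ≠ 0 := by
    rintro rfl
    rw [zero_mul] at hab
    exact ha0 hab.symm
  rw [← hab]
  field_simp

/-! ### Bridges to `Alg/Spec.lean` -/

theorem locUnit_ne_zero {n : Ideal B} {u : F} (h : LocUnit B n u) : u ≠ 0 := by
  obtain ⟨a, b, ha, hb, hab⟩ := h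
  rintro rfl
  rw [zero_mul] at hab
  exact coe_ne_zero_of_not_mem ha hab.symm

theorem locUnit_iff {n : Ideal B} [hn : n.IsPrime] {u : F} :
    LocUnit B n u ↔ u ≠ 0 ∧ InLoc B n ⊤ u ∧ InLoc B n ⊤ u⁻¹ := by
  constructor
  · intro h
    have hu0 := locUnit_ne_zero h
    obtain ⟨a, b, ha, hb, hab⟩ := h
    have ha0 : (a : F) ≠ 0 := coe_ne_zero_of_not_mem ha
    have hb0 : (b : F) ≠ 0 := coe_ne_zero_of_not_mem hb
    refine ⟨hu0, ⟨a, b, trivial, hb, hab⟩, ⟨b, a, trivial, ha, ?_⟩⟩
    rw [← hab]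
    field_simp
  · rintro ⟨hu0, ⟨a, b, -, hb, hab⟩, ⟨a', b', -, hb', hab'⟩⟩
    have hb0 : (b : F) ≠ 0 := coe_ne_zero_of_not_mem hb
    have hb'0 : (b' : F) ≠ 0 := coe_ne_zero_of_not_mem hb'
    refine ⟨a, b, ?_, hb, hab⟩
    intro ha
    have h1 : a * a' = b * b' := by
      apply Subtype.ext
      push_cast
      rw [← hab, ← hab']
      field_simp
    have h2 : b * b' ∈ n := by
      rw [← h1]
      exact n.mul_mem_right _ ha
    exact (hn.mem_or_mem h2).elim hb hb'

theorem locOne_iff {n I : Ideal B} {u : F} : LocOne B n I u ↔ InLoc B n I (u - 1) := by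
  constructor
  · rintro ⟨a, b, hb, hab, h⟩
    refine ⟨a - b, b, hab, hb, ?_⟩
    push_cast
    rw [← h]
    ring
  · rintro ⟨a, b, ha, hb, h⟩
    refine ⟨a + b, b, hb, by simpa using ha, ?_⟩
    push_cast
    rw [← h]
    ring

theorem oneAt_iff {p : Ideal B} {u : F} : OneAt B p u ↔ InLoc B p p (u - 1) :=
  locOne_iff

end Fermat.Agent.S35.H433

end
-- ===== PACK-END S35/H433/Loc.lean

-- ===== PACK-BEGIN A2/Alg/H348/CompDvr.lean
section


/-!
# A2 / ALG / GLUE, `hconst` part, step 1: the local ring of a component is a discrete valuation ring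

Mathlib-only (plus `H348.locAt`).  Abstract setting: `A ≤ B` subalgebras of a field `F` over `R`,
`p` a prime of `B` ("a component of the special fibre"), `p'` an ideal of `B` ("the union of the
other components") with `p ⊓ p' = (w)` and `p' ⊄ p`.  If moreover

* `p ∩ A = w A`                      (`contract`),
* no nonzero element of `A` is divisible by all powers of `w`   (`finite_mult`),
* every nonzero `b ∈ B` divides a nonzero element of `A` in `B`  (`cofactor`),
* `F` is the fraction field of `B`, with denominators in `A`      (`frac`),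

then `B_p = locAt B p` is a valuation subring of `F` (`CompData.valuationSubring`), its maximal
ideal is generated by `w` (`CompData.mul_inv_mem`) and it is discrete (`CompData.exists_pow_mul`).
No noetherian hypothesis on `B` is needed.
-/

set_option autoImplicit false
set_option linter.unusedSectionVars false
set_option linter.style.haveILetI false

namespace Fermat.Agent.A2.Alg.H348

open Fermat.Agent.A2.H348

variable {R F : Type*} [CommRing R] [Field F] [Algebra R F]

/-- `p` is a component of the special fibre `w = 0` of `B`, `p'` the union of the other ones;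
`A ≤ B` is a "base" (polynomial ring) over which `B` is integral. -/
structure CompData (A B : Subalgebra R F) (p p' : Ideal B) (w : R) : Prop where
  inf_eq : p ⊓ p' = Ideal.span {algebraMap R B w}
  not_le : ¬ p' ≤ p
  w_ne : algebraMap R F w ≠ 0
  contract : ∀ a : B, (a : F) ∈ A → a ∈ p → ∃ a' ∈ A, (a : F) = algebraMap R F w * a'
  finite_mult : ∀ a ∈ A, a ≠ 0 → ∃ n : ℕ, ∀ a' ∈ A, a ≠ algebraMap R F w ^ (n + 1) * a'
  cofactor : ∀ b ∈ B, b ≠ 0 → ∃ g ∈ B, b * g ∈ A ∧ b * g ≠ 0
  frac : ∀ f : F, ∃ a ∈ A, a ≠ 0 ∧ a ∈ B ∧ a * f ∈ B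

namespace CompData

variable {A B : Subalgebra R F} {p p' : Ideal B} [hp : p.IsPrime] {w : R}

theorem w_mem (D : CompData A B p p' w) : algebraMap R B w ∈ p := by
  have h : algebraMap R B w ∈ p ⊓ p' := by
    rw [D.inf_eq]; exact Ideal.mem_span_singleton_self _
  exact h.1

theorem exists_notMem (D : CompData A B p p' w) : ∃ t : B, t ∈ p' ∧ t ∉ p :=
  SetLike.not_le_iff_exists.1 D.not_le

theorem w_inv_notMem (D : CompData A B p p' w) : (algebraMap R F w)⁻¹ ∉ locAt B p := by
  rintro ⟨s, hs, hsw⟩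
  apply hs
  have h1 : s = algebraMap R B w * ⟨(s : F) * (algebraMap R F w)⁻¹, hsw⟩ := by
    apply Subtype.ext
    have hw := D.w_ne
    show (s : F) = algebraMap R F w * ((s : F) * (algebraMap R F w)⁻¹)
    field_simp
  rw [h1]
  exact p.mul_mem_right _ D.w_mem

/-- the maximal ideal of `B_p` is generated by `w`. -/
theorem mul_inv_mem (D : CompData A B p p' w) {f : F} (hf : f ∈ locAt B p)
    (hf' : f⁻¹ ∉ locAt B p) : f * (algebraMap R F w)⁻¹ ∈ locAt B p := by
  obtain ⟨s, hs, hsf⟩ := hf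
  by_cases hb : (⟨(s : F) * f, hsf⟩ : B) ∈ p
  · obtain ⟨t, ht', ht⟩ := D.exists_notMem
    have hbt : (⟨(s : F) * f, hsf⟩ : B) * t ∈ p ⊓ p' :=
      ⟨p.mul_mem_right _ hb, p'.mul_mem_left _ ht'⟩
    rw [D.inf_eq, Ideal.mem_span_singleton'] at hbt
    obtain ⟨c, hc⟩ := hbt
    refine ⟨s * t, fun h => (hp.mem_or_mem h).elim hs ht, ?_⟩
    have hc' : (c : F) * algebraMap R F w = (s : F) * f * (t : F) := congrArg Subtype.val hc
    have hw := D.w_ne
    have : ((s * t : B) : F) * (f * (algebraMap R F w)⁻¹) = (c : F) := by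
      have h3 : ((s * t : B) : F) * (f * (algebraMap R F w)⁻¹)
          = ((s : F) * f * (t : F)) * (algebraMap R F w)⁻¹ := by
        push_cast; ring
      rw [h3, ← hc', mul_assoc, mul_inv_cancel₀ hw, mul_one]
    rw [this]
    exact c.2
  · exfalso
    apply hf'
    have hf0 : f ≠ 0 := by
      rintro rfl
      apply hb
      have : (⟨(s : F) * 0, hsf⟩ : B) = 0 := Subtype.ext (mul_zero _)
      rw [this]
      exact p.zero_mem
    refine ⟨⟨(s : F) * f, hsf⟩, hb, ?_⟩
    show (s : F) * f * f⁻¹ ∈ B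
    rw [mul_assoc, mul_inv_cancel₀ hf0, mul_one]
    exact s.2

/-- `B ∩ w B_p = p`. -/
theorem mem_of_eq_w_mul (D : CompData A B p p' w) {b : B} {v : F} (hv : v ∈ locAt B p)
    (h : (b : F) = algebraMap R F w * v) : b ∈ p := by
  obtain ⟨s, hs, hsv⟩ := hv
  have h1 : s * b = algebraMap R B w * ⟨(s : F) * v, hsv⟩ := by
    apply Subtype.ext
    show (s : F) * (b : F) = algebraMap R F w * ((s : F) * v)
    rw [h]; ring
  have h2 : s * b ∈ p := by
    rw [h1]; exact p.mul_mem_right _ D.w_mem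
  exact (hp.mem_or_mem h2).resolve_left hs

/-- `A ∩ w ^ k B_p = w ^ k A`. -/
theorem dvd_of_eq_pow_mul (D : CompData A B p p' w) (hAB : A ≤ B) :
    ∀ (k : ℕ) (a : F), a ∈ A → (∃ v ∈ locAt B p, a = algebraMap R F w ^ k * v) →
      ∃ a' ∈ A, a = algebraMap R F w ^ k * a' := by
  intro k
  induction k with
  | zero =>
    intro a ha _
    exact ⟨a, ha, by simp⟩
  | succ k ih =>
    rintro a ha ⟨v, hv, hav⟩
    have hwv : algebraMap R F w ^ k * v ∈ locAt B p :=
      (locAt B p).mul_mem ((locAt B p).pow_mem ((locAt B p).algebraMap_mem w) k) hv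
    have hmem : (⟨a, hAB ha⟩ : B) ∈ p := D.mem_of_eq_w_mul hwv (by
      show a = algebraMap R F w * (algebraMap R F w ^ k * v)
      rw [hav, pow_succ]; ring)
    obtain ⟨a₁, ha₁, h1⟩ := D.contract ⟨a, hAB ha⟩ ha hmem
    have h1' : a = algebraMap R F w * a₁ := h1
    have h2 : a₁ = algebraMap R F w ^ k * v := by
      have hw := D.w_ne
      have : algebraMap R F w * a₁ = algebraMap R F w * (algebraMap R F w ^ k * v) := by
        rw [← h1', hav, pow_succ]; ring
      exact mul_left_cancel₀ hw this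
    obtain ⟨a', ha', h3⟩ := ih a₁ ha₁ ⟨v, hv, h2⟩
    exact ⟨a', ha', by rw [h1', h3, pow_succ]; ring⟩

/-- a nonzero element of `B` is not divisible by all powers of `w` in `B_p`. -/
theorem exists_bound (D : CompData A B p p' w) (hAB : A ≤ B) {b : F} (hb : b ∈ B)
    (hb0 : b ≠ 0) :
    ∃ n : ℕ, ¬ ∃ v ∈ locAt B p, b = algebraMap R F w ^ (n + 1) * v := by
  obtain ⟨g, hg, hbgA, hbg0⟩ := D.cofactor b hb hb0
  obtain ⟨n, hn⟩ := D.finite_mult _ hbgA hbg0
  refine ⟨n, ?_⟩
  rintro ⟨v, hv, hbv⟩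
  obtain ⟨a', ha', h⟩ := D.dvd_of_eq_pow_mul hAB (n + 1) (b * g) hbgA
    ⟨v * g, (locAt B p).mul_mem hv (le_locAt p hg), by rw [hbv]; ring⟩
  exact hn a' ha' h

theorem exists_pow_mul_aux (D : CompData A B p p' w) :
    ∀ (n : ℕ) (v : F), v ∈ locAt B p →
      (¬ ∃ v' ∈ locAt B p, v = algebraMap R F w ^ (n + 1) * v') →
      ∃ (k : ℕ) (ε : F), ε ∈ locAt B p ∧ ε⁻¹ ∈ locAt B p ∧ v = algebraMap R F w ^ k * ε := by
  have hw := D.w_ne
  intro n
  induction n with
  | zero =>
    intro v hv hn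
    by_cases hv' : v⁻¹ ∈ locAt B p
    · exact ⟨0, v, hv, hv', by simp⟩
    · exfalso
      apply hn
      refine ⟨v * (algebraMap R F w)⁻¹, D.mul_inv_mem hv hv', ?_⟩
      rw [zero_add, pow_one]
      field_simp
  | succ n ih =>
    intro v hv hn
    by_cases hv' : v⁻¹ ∈ locAt B p
    · exact ⟨0, v, hv, hv', by simp⟩
    · have h1 := D.mul_inv_mem hv hv'
      obtain ⟨k, ε, hε, hε', h⟩ := ih (v * (algebraMap R F w)⁻¹) h1 (by
        rintro ⟨v', hv'', h2⟩
        apply hn
        refine ⟨v', hv'', ?_⟩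
        have : v = algebraMap R F w * (v * (algebraMap R F w)⁻¹) := by field_simp
        rw [this, h2, pow_succ (algebraMap R F w) (n + 1)]
        ring)
      refine ⟨k + 1, ε, hε, hε', ?_⟩
      have : v = algebraMap R F w * (v * (algebraMap R F w)⁻¹) := by field_simp
      rw [this, h, pow_succ]
      ring

/-- every nonzero element of `B` is a power of `w` times a unit of `B_p`. -/
theorem exists_pow_mul (D : CompData A B p p' w) (hAB : A ≤ B) {b : F} (hb : b ∈ B)
    (hb0 : b ≠ 0) :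
    ∃ (k : ℕ) (ε : F), ε ∈ locAt B p ∧ ε⁻¹ ∈ locAt B p ∧ b = algebraMap R F w ^ k * ε := by
  obtain ⟨n, hn⟩ := D.exists_bound hAB hb hb0
  exact D.exists_pow_mul_aux n b (le_locAt p hb) hn

/-- every nonzero element of `F` is a power of `w` times a unit of `B_p`. -/
theorem exists_zpow_mul (D : CompData A B p p' w) (hAB : A ≤ B) {f : F} (hf : f ≠ 0) :
    ∃ (k l : ℕ) (ε : F), ε ∈ locAt B p ∧ ε⁻¹ ∈ locAt B p ∧
      f * algebraMap R F w ^ k = algebraMap R F w ^ l * ε := by
  have hw := D.w_ne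
  obtain ⟨a, haA, ha0, haB, haf⟩ := D.frac f
  obtain ⟨k, ε, hε, hε', hk⟩ := D.exists_pow_mul hAB haB ha0
  obtain ⟨l, η, hη, hη', hl⟩ := D.exists_pow_mul hAB haf (mul_ne_zero ha0 hf)
  have hε0 : ε ≠ 0 := by
    rintro rfl
    apply ha0
    rw [hk, mul_zero]
  refine ⟨k, l, η * ε⁻¹, (locAt B p).mul_mem hη hε', ?_, ?_⟩
  · rw [mul_inv, inv_inv]
    exact (locAt B p).mul_mem hη' hε
  · have h1 : f * (algebraMap R F w ^ k * ε) = algebraMap R F w ^ l * η := by
      rw [← hk, mul_comm f a, hl]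
    have h2 : f * algebraMap R F w ^ k = f * (algebraMap R F w ^ k * ε) * ε⁻¹ := by
      field_simp
    rw [h2, h1]
    ring

/-- discreteness. -/
theorem exists_mul_pow_mem (D : CompData A B p p' w) (hAB : A ≤ B) (f : F) :
    ∃ k : ℕ, f * algebraMap R F w ^ k ∈ locAt B p := by
  rcases eq_or_ne f 0 with rfl | hf
  · exact ⟨0, by rw [zero_mul]; exact (locAt B p).zero_mem⟩
  obtain ⟨k, l, ε, hε, -, h⟩ := D.exists_zpow_mul hAB hf
  exact ⟨k, by
    rw [h]
    exact (locAt B p).mul_mem ((locAt B p).pow_mem ((locAt B p).algebraMap_mem w) l) hε⟩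

theorem mem_or_inv_mem (D : CompData A B p p' w) (hAB : A ≤ B) (f : F) :
    f ∈ locAt B p ∨ f⁻¹ ∈ locAt B p := by
  have hw := D.w_ne
  rcases eq_or_ne f 0 with rfl | hf
  · exact Or.inl (locAt B p).zero_mem
  obtain ⟨k, l, ε, hε, hε', h⟩ := D.exists_zpow_mul hAB hf
  have hwmem : ∀ j : ℕ, algebraMap R F w ^ j ∈ locAt B p := fun j =>
    (locAt B p).pow_mem ((locAt B p).algebraMap_mem w) j
  have hε0 : ε ≠ 0 := by
    rintro rfl
    rw [mul_zero] at h
    exact (mul_ne_zero hf (pow_ne_zero _ hw)) h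
  rcases le_total k l with hkl | hkl
  · left
    obtain ⟨d, rfl⟩ := Nat.exists_eq_add_of_le hkl
    have : f = algebraMap R F w ^ d * ε := by
      have h2 : f * algebraMap R F w ^ k = (algebraMap R F w ^ d * ε) * algebraMap R F w ^ k := by
        rw [h, pow_add]; ring
      exact mul_right_cancel₀ (pow_ne_zero _ hw) h2
    rw [this]
    exact (locAt B p).mul_mem (hwmem d) hε
  · right
    obtain ⟨d, rfl⟩ := Nat.exists_eq_add_of_le hkl
    have : f⁻¹ = algebraMap R F w ^ d * ε⁻¹ := by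
      have h2 : f * algebraMap R F w ^ d * algebraMap R F w ^ l = ε * algebraMap R F w ^ l := by
        rw [mul_assoc, ← pow_add, add_comm, h]; ring
      have h3 : f * algebraMap R F w ^ d = ε := mul_right_cancel₀ (pow_ne_zero _ hw) h2
      rw [← h3]
      field_simp
    rw [this]
    exact (locAt B p).mul_mem (hwmem d) hε'

/-- `B_p` as a valuation subring of `F`. -/
def valuationSubring (D : CompData A B p p' w) (hAB : A ≤ B) : ValuationSubring F :=
  { (locAt B p).toSubring with
    mem_or_inv_mem' := D.mem_or_inv_mem hAB }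

theorem mem_valuationSubring (D : CompData A B p p' w) (hAB : A ≤ B) {f : F} :
    f ∈ D.valuationSubring hAB ↔ f ∈ locAt B p := Iff.rfl

end CompData

end Fermat.Agent.A2.Alg.H348

end
-- ===== PACK-END A2/Alg/H348/CompDvr.lean

-- ===== PACK-BEGIN A2/Alg/H34/Basic.lean
section


/-!
# WALL A2 / ALG — leaves A1' and ASM (helper34)

* `divisibleDiv_mul_inv`, `divisibleDiv_tau` : `DivisibleDiv` is stable under quotients and under
  a semilinear automorphism.
* `chartCtx_inv` : the standing hypotheses for the chart at infinity.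
* `locOne_tau_div` : `v ∈ (B_n)ˣ`, `τ ≡ id mod w`, `w ∈ I`  ⟹  `τ v / v ∈ 1 + I B_n`.
* `localFactor_of_pureAt` (**ASM**) : `PureAt u n ⟹ LocalFactor (τ u / u) n`.

Statements are VERBATIM those of `Fermat/Agent/A2/Alg/Skel.lean` (origin/helper34).
-/

set_option autoImplicit false

namespace Fermat.Agent.A2.Alg.H34

open Fermat.Agent.A2 Fermat.Agent.A2.Alg

section Div

variable {E F : Type*} [Field E] [Field F] [Algebra E F]

/-- **A1'.** -/
theorem divisibleDiv_mul_inv (m : ℕ) (f g : F) (hf : DivisibleDiv E m f)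
    (hg : DivisibleDiv E m g) : DivisibleDiv E m (f * g⁻¹) := by
  intro V hV hE
  obtain ⟨h₁, u₁, hh₁, hu₁, hu₁', rfl⟩ := hf V hV hE
  obtain ⟨h₂, u₂, hh₂, hu₂, hu₂', rfl⟩ := hg V hV hE
  refine ⟨h₁ * h₂⁻¹, u₁ * u₂⁻¹, mul_ne_zero hh₁ (inv_ne_zero hh₂), V.mul_mem _ _ hu₁ hu₂', ?_, ?_⟩
  · rw [mul_inv, inv_inv]
    exact V.mul_mem _ _ hu₁' hu₂
  · rw [mul_pow, inv_pow, mul_inv]
    ring

/-- The ring isomorphism `V.comap τ ≃ V` induced by `τ`. -/
noncomputable def comapEquiv (τ : F ≃+* F) (V : ValuationSubring F) :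
    V.comap (τ : F →+* F) ≃+* V where
  toFun a := ⟨τ a.1, a.2⟩
  invFun b := ⟨τ.symm b.1, by
    show (τ : F →+* F) (τ.symm b.1) ∈ V
    simpa using b.2⟩
  left_inv a := Subtype.ext (by simp)
  right_inv b := Subtype.ext (by simp)
  map_mul' a b := Subtype.ext (by simp)
  map_add' a b := Subtype.ext (by simp)

/-- **A1'.**  `τ` permutes the discrete valuation rings of `F` containing `E`. -/
theorem divisibleDiv_tau (τ : F ≃+* F) (τE : E ≃+* E)
    (hτE : ∀ e : E, τ (algebraMap E F e) = algebraMap E F (τE e)) (m : ℕ) (f : F)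
    (h : DivisibleDiv E m f) : DivisibleDiv E m (τ f) := by
  intro V hV hE
  have hV' : IsDiscreteValuationRing (V.comap (τ : F →+* F)) :=
    IsDiscreteValuationRing.RingEquivClass.isDiscreteValuationRing (comapEquiv τ V).symm
  have hE' : ∀ e : E, algebraMap E F e ∈ V.comap (τ : F →+* F) := fun e => by
    show τ (algebraMap E F e) ∈ V
    rw [hτE]
    exact hE _
  obtain ⟨h₀, u, hh₀, hu, hu', rfl⟩ := h _ hV' hE'
  refine ⟨τ h₀, τ u, (map_ne_zero τ).2 hh₀, hu, ?_, ?_⟩
  · rw [← map_inv₀]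
    exact hu'
  · rw [map_mul, map_pow]

end Div

section Chart

variable {R E F : Type*} [CommRing R] [Field E] [Algebra R E] [Field F] [Algebra E F]
  [Algebra R F]

theorem adjoin_inv_eq (x : F) :
    IntermediateField.adjoin E ({x⁻¹} : Set F) = IntermediateField.adjoin E ({x} : Set F) := by
  apply le_antisymm
  · rw [IntermediateField.adjoin_le_iff]
    rintro y hy
    rw [Set.mem_singleton_iff] at hy
    subst hy
    exact inv_mem (IntermediateField.subset_adjoin E _ (Set.mem_singleton x))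
  · rw [IntermediateField.adjoin_le_iff]
    rintro y hy
    rw [Set.mem_singleton_iff] at hy
    subst hy
    have := inv_mem (IntermediateField.subset_adjoin E ({y⁻¹} : Set F) (Set.mem_singleton _))
    rwa [inv_inv] at this

/-- **A1'.**  The chart at infinity satisfies the same standing hypotheses with `x⁻¹`. -/
theorem chartCtx_inv (w : R) (hw : Irreducible w) (x : F) (hx : Transcendental E x)
    (hfin : FiniteDimensional (IntermediateField.adjoin E ({x} : Set F)) F)
    (hconst : ∀ f : F, IsAlgebraic E f → f ∈ (algebraMap E F).range)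
    (Bi : Subalgebra R F)
    (hBi : ∀ f : F, f ∈ Bi ↔ IsIntegral (Algebra.adjoin R ({x⁻¹} : Set F)) f) :
    ChartCtx E w x⁻¹ Bi := by
  refine ⟨hw, ?_, ?_, hconst, hBi⟩
  · intro h
    apply hx
    have := h.inv
    rwa [inv_inv] at this
  · rw [adjoin_inv_eq]
    exact hfin

end Chart

section Asm

variable {R F : Type*} [CommRing R] [Field F] [Algebra R F]

/-- `τ` maps `B` into `B`, and is the identity modulo `w`. -/
theorem exists_tau_eq (w : R) (B : Subalgebra R F) (τ : F ≃+* F)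
    (hτB : ∀ b ∈ B, ∃ c ∈ B, τ b - b = algebraMap R F w * c) (b : B) :
    ∃ b' c : B, (b' : F) = τ b ∧ b' - b = algebraMap R B w * c := by
  obtain ⟨c, hc, h⟩ := hτB b b.2
  refine ⟨⟨τ b, ?_⟩, ⟨c, hc⟩, rfl, ?_⟩
  · have : τ (b : F) = b + algebraMap R F w * c := by linear_combination h
    rw [this]
    exact B.add_mem b.2 (B.mul_mem (B.algebraMap_mem w) hc)
  · apply Subtype.ext
    simpa using h

/-- `v ∈ (B_n)ˣ`, `τ ≡ id mod w`, `w ∈ n`, `w ∈ I`  ⟹  `τ v / v ∈ 1 + I B_n`. -/
theorem locOne_tau_div (w : R) (B : Subalgebra R F) (τ : F ≃+* F)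
    (hτB : ∀ b ∈ B, ∃ c ∈ B, τ b - b = algebraMap R F w * c)
    (n : Ideal B) (hn : n.IsPrime) (hwn : algebraMap R B w ∈ n)
    (I : Ideal B) (hwI : algebraMap R B w ∈ I) (v : F) (hv : LocUnit B n v) :
    LocOne B n I (τ v * v⁻¹) := by
  obtain ⟨a, b, ha, hb, hab⟩ := hv
  obtain ⟨a', ca, ha', hca⟩ := exists_tau_eq w B τ hτB a
  obtain ⟨b', cb, hb', hcb⟩ := exists_tau_eq w B τ hτB b
  have hb'n : b' ∉ n := by
    intro h
    apply hb
    have h1 : b = b' - algebraMap R B w * cb := by rw [← hcb]; ring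
    rw [h1]
    exact n.sub_mem h (n.mul_mem_right _ hwn)
  have ha0 : (a : F) ≠ 0 := by
    intro h
    apply ha
    have : a = 0 := Subtype.ext h
    rw [this]
    exact n.zero_mem
  have hb0 : (b : F) ≠ 0 := by
    intro h
    apply hb
    have : b = 0 := Subtype.ext h
    rw [this]
    exact n.zero_mem
  have hv0 : v ≠ 0 := by
    rintro rfl
    rw [zero_mul] at hab
    exact ha0 hab.symm
  have hb'0 : (b' : F) ≠ 0 := by
    rw [hb']
    exact (map_ne_zero τ).2 hb0
  refine ⟨a' * b, a * b', ?_, ?_, ?_⟩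
  · intro h
    rcases hn.mem_or_mem h with h | h
    · exact ha h
    · exact hb'n h
  · have h1 : a' * b - a * b' = algebraMap R B w * (ca * b - a * cb) := by
      have e1 : a' = a + algebraMap R B w * ca := by rw [← hca]; ring
      have e2 : b' = b + algebraMap R B w * cb := by rw [← hcb]; ring
      rw [e1, e2]
      ring
    rw [h1]
    exact I.mul_mem_right _ hwI
  · -- `τ v * v⁻¹ * (a * b') = a' * b`
    have hτ : τ v * (b' : F) = (a' : F) := by
      rw [hb', ha', ← map_mul, hab]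
    have hv' : v = (a : F) * (b : F)⁻¹ := by
      field_simp
      exact hab
    push_cast
    have : τ v = (a' : F) * (b' : F)⁻¹ := by
      field_simp
      exact hτ
    rw [this, hv']
    field_simp

/-- **ASM.**  `u d ^ m = ε ∈ (B_n)ˣ`; `h := τ d / d`; then `(τ u / u) h ^ m = τ ε / ε ∈ 1 + w B_n`
and `h ≡ 1` on both components (`d` is a unit there, `τ ≡ id mod w`). -/
theorem localFactor_of_pureAt {E : Type*} [Field E] [Algebra R E] [Algebra E F]
    (w : R) (B : Subalgebra R F) (c : SSChart w B)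
    (τ : F ≃+* F) (τE : E ≃+* E) (τR : R ≃+* R) (hτ : TauCtx w B τ τE τR)
    (m : ℕ) (u : F) (hu : u ≠ 0) (n : Ideal B) (hn : n.IsPrime) (hwn : algebraMap R B w ∈ n)
    (h : PureAt B c m u n) : LocalFactor B c m (τ u * u⁻¹) n := by
  obtain ⟨d, hd, hε, hd₁, hd₂⟩ := h
  have hw₁ : algebraMap R B w ∈ c.p₁ := by
    have : algebraMap R B w ∈ c.p₁ ⊓ c.p₂ := by
      rw [c.inf_eq]
      exact Ideal.mem_span_singleton_self _
    exact this.1
  have hw₂ : algebraMap R B w ∈ c.p₂ := by
    have : algebraMap R B w ∈ c.p₁ ⊓ c.p₂ := by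
      rw [c.inf_eq]
      exact Ideal.mem_span_singleton_self _
    exact this.2
  have hτd : τ d ≠ 0 := (map_ne_zero τ).2 hd
  refine ⟨τ d * d⁻¹, mul_ne_zero hτd (inv_ne_zero hd), ?_,
    locOne_tau_div w B τ hτ.hτB c.p₁ c.prime₁ hw₁ c.p₁ hw₁ d hd₁,
    locOne_tau_div w B τ hτ.hτB c.p₂ c.prime₂ hw₂ c.p₂ hw₂ d hd₂⟩
  have key : τ u * u⁻¹ * (τ d * d⁻¹) ^ m = τ (u * d ^ m) * (u * d ^ m)⁻¹ := by
    rw [map_mul, map_pow, mul_pow, inv_pow, mul_inv]
    ring
  rw [key]
  exact locOne_tau_div w B τ hτ.hτB n hn hwn _ (Ideal.mem_span_singleton_self _) _ hε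

end Asm

end Fermat.Agent.A2.Alg.H34

end
-- ===== PACK-END A2/Alg/H34/Basic.lean

-- ===== PACK-BEGIN S35/G/Spec.lean
section




/-!
# S35, piece (G') — frozen TOP interfaces (architect helper450)

`(G')` of `origin/helper991:coord/S35-helper991.md`: at a prime `q ‖ N = M * q` the square `s²` of
every Frobenius lift `s` at `q` satisfies a fixed polynomial relation on the `q`-NEW part of the
`m`-torsion of `J₀(N)`, `q ∤ m`.  Form proved here (constant `c = 1`, no hypothesis of
inertia-invariance, at the price of one more factor `s² - 1`):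

  `a x = 0`, `b x = 0`, `m x = 0`  ⟹  `(s² - 1)² (s² - q²) x = 0`,

`a = α_*`, `b = β_* : J₀(M q) → J₀(M)` the two degeneracy push-forwards (`degA`, `degB`).
(The extra factor is harmless for S35: on the rank-2 eigenmodule ANY eigenvector of `s²` with
eigenvalue `1` or `q²` gives `a_q = ± (q + 1)`; see `coord/S35-G-helper450.md`.)

This file: definitions and the statements of the top layer (Prelude language, over `ℚ̄`).
Definitions only (no `sorry`).  Board: `coord/S35-G-helper450.md` on `origin/helper450`.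
-/

set_option autoImplicit false
set_option linter.style.haveILetI false

noncomputable section

namespace Fermat.Agent.S35.G

open ModularCurve AlgebraicCurve

/-- The field `ℚ̄`. -/
abbrev Qb : Type := AlgebraicClosure ℚ

/-! ## The polynomial `(T - 1)² (T - Q)`, multiplicatively and additively -/

/-- `(φ - Q) f`, multiplicatively: `φ f / f ^ Q`. -/
def frobSub {F : Type*} [Field F] (φ : F ≃+* F) (Q : ℕ) (f : F) : F := φ f * (f ^ Q)⁻¹

/-- `(φ - 1)² (φ - Q) f`, multiplicatively. -/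
def frobPoly {F : Type*} [Field F] (φ : F ≃+* F) (Q : ℕ) (f : F) : F :=
  frobSub φ Q (frobSub φ 1 (frobSub φ 1 f))

/-- `(t - 1)² (t - Q) x`, additively. -/
def frobPolyAdd {G X : Type*} [Group G] [AddCommGroup X] [DistribMulAction G X]
    (t : G) (Q : ℕ) (x : X) : X :=
  t • (t • (t • x - x) - (t • x - x)) - Q • (t • (t • x - x) - (t • x - x))

/-! ## Push-forward on `Pic⁰` and the degeneracy maps -/

section Push

variable {K F F' : Type*} [Field K] [Field F] [Field F'] [Algebra K F] [Algebra K F']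

/-- Push-forward of degree-zero divisors along `φ : F → F'`. -/
def degZeroPush (φ : F →ₐ[K] F') (hφ : φ.toRingHom.IsIntegral) :
    Divisor.degZero (K := K) (F := F') →+ Divisor.degZero (K := K) (F := F) :=
  ((Divisor.pushforwardAlong φ hφ).domRestrict (Divisor.degZero (K := K) (F := F'))).codRestrict _
    (fun D => Divisor.pushforwardAlong_mem_degZero φ hφ D.2)

/-- Push-forward `Pic⁰(F') → Pic⁰(F)` along `φ : F → F'` (finite, with the norm formula). -/
def pic0Push (φ : F →ₐ[K] F') (hφ : φ.toRingHom.IsIntegral) (hfin : FiniteAlong K φ)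
    (hN : NormFormulaAlong K φ hfin) : Pic0 K F' →+ Pic0 K F :=
  QuotientAddGroup.map _ _ (degZeroPush φ hφ) (by
    rintro ⟨D, hD0⟩ hD
    simp only [AddSubgroup.mem_addSubgroupOf] at hD ⊢
    exact Divisor.isPrincipal_pushforwardAlong φ hφ hfin hN hD)

theorem pic0Push_mk (φ : F →ₐ[K] F') (hφ : φ.toRingHom.IsIntegral) (hfin : FiniteAlong K φ)
    (hN : NormFormulaAlong K φ hfin) (D : Divisor.degZero (K := K) (F := F')) :
    pic0Push φ hφ hfin hN (Pic0.mk D) = Pic0.mk (degZeroPush φ hφ D) :=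
  rfl

/-- The three inputs of `pic0Push`. -/
def PushInputs (φ : F →ₐ[K] F') : Prop :=
  ∃ (_ : φ.toRingHom.IsIntegral) (hfin : FiniteAlong K φ), NormFormulaAlong K φ hfin

open Classical in
/-- Total form of `pic0Push` (junk value `0` if the inputs fail; they never do for the modular
degeneracy maps: leaf `DEG`). -/
def pic0PushTotal (φ : F →ₐ[K] F') : Pic0 K F' →+ Pic0 K F :=
  if h : PushInputs φ then pic0Push φ h.1 h.2.1 h.2.2 else 0

theorem pic0PushTotal_eq (φ : F →ₐ[K] F') (hφ : φ.toRingHom.IsIntegral) (hfin : FiniteAlong K φ)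
    (hN : NormFormulaAlong K φ hfin) : pic0PushTotal φ = pic0Push φ hφ hfin hN := by
  have h : PushInputs φ := ⟨hφ, hfin, hN⟩
  rw [pic0PushTotal, dif_pos h]

end Push

section Deg

variable (M q : ℕ) [NeZero M] [NeZero q]

/-- `a = α_* : J₀(M q) → J₀(M)`, `α : ℚ̄(X₀(M)) ⊆ ℚ̄(X₀(M q))` the inclusion. -/
def degA : JZero (M * q) →+ JZero M := pic0PushTotal (heckeAlphaBar Qb M q)

/-- `b = β_* : J₀(M q) → J₀(M)`, `β : ℚ̄(X₀(M)) → ℚ̄(X₀(M q))`, `f(t) ↦ f(t^q)`. -/
def degB : JZero (M * q) →+ JZero M := pic0PushTotal (heckeBetaBar Qb M q)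

end Deg

/-! ## The statement (G') -/

/-- **(G') at `(M, q, m)`**: `(s² - 1)² (s² - q²)` kills the `q`-new `m`-torsion of `J₀(M q)`. -/
def NewPartFrobAt (M q m : ℕ) [NeZero M] [NeZero q] : Prop :=
  ∀ A : ValuationSubring Qb, A.LiesOverPrime q →
    ∀ s : Qb ≃ₐ[ℚ] Qb, A.IsFrobeniusAt s q →
      ∀ x : JZero (M * q), m • x = 0 → degA M q x = 0 → degB M q x = 0 →
        frobPolyAdd (s * s) (q ^ 2) x = 0

/-- **(G'), explicit form.** -/
def NewPartFrobExplicit : Prop :=
  ∀ (M q m : ℕ) [NeZero M] [NeZero q], q.Prime → ¬ q ∣ M → 0 < m → ¬ q ∣ m →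
    NewPartFrobAt M q m

/-- **(G'), bundled form** (shape asked for by helper991: the degeneracy maps are existentially
quantified, with the only property the consumer needs, Hecke-equivariance away from `M q p`). -/
def NewPartFrobStatement : Prop :=
  ∀ (M q p : ℕ) [NeZero M] [NeZero q], q.Prime → ¬ q ∣ M → p.Prime → p ≠ q →
    ∃ a b : JZero (M * q) →+ JZero M,
      (∀ ℓ : Nat.Primes, ¬ (ℓ : ℕ) ∣ M * q * p → ∀ x : JZero (M * q),
        a (heckeOperatorBar (M * q) ℓ x) = heckeOperatorBar M ℓ (a x)) ∧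
      (∀ ℓ : Nat.Primes, ¬ (ℓ : ℕ) ∣ M * q * p → ∀ x : JZero (M * q),
        b (heckeOperatorBar (M * q) ℓ x) = heckeOperatorBar M ℓ (b x)) ∧
      ∀ A : ValuationSubring Qb, A.LiesOverPrime q →
        ∀ s : Qb ≃ₐ[ℚ] Qb, A.IsFrobeniusAt s q →
          ∀ x : JZero (M * q), (∃ n : ℕ, p ^ n • x = 0) → a x = 0 → b x = 0 →
            frobPolyAdd (s * s) (q ^ 2) x = 0

/-! ## Leaf DEG: the degeneracy maps -/

/-- **DEG.**  The inputs of `pic0Push` hold for `α`, `β`, and `degA`, `degB` commute with the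
Hecke operators `T_ℓ`, `ℓ ∤ M q`.  (Inputs: `S29/H812`, `Lib/HI/H864`, `Lib/FF398`;
commutation: common cover `F_{M q ℓ}`, as `S29/H801 pic0_correspondence_comm`.) -/
def DegStatement : Prop :=
  ∀ (M q : ℕ) [NeZero M] [NeZero q], q.Prime → ¬ q ∣ M →
    PushInputs (heckeAlphaBar Qb M q) ∧ PushInputs (heckeBetaBar Qb M q) ∧
    (∀ ℓ : Nat.Primes, ¬ (ℓ : ℕ) ∣ M * q → ∀ x : JZero (M * q),
      degA M q (heckeOperatorBar (M * q) ℓ x) = heckeOperatorBar M ℓ (degA M q x)) ∧
    (∀ ℓ : Nat.Primes, ¬ (ℓ : ℕ) ∣ M * q → ∀ x : JZero (M * q),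
      degB M q (heckeOperatorBar (M * q) ℓ x) = heckeOperatorBar M ℓ (degB M q x))

/-! ## Kummer form over `ℚ̄` and leaf T0F (Kummer dictionary) -/

/-- `σ_N(t)`: the automorphism of `F̄_N = ℚ̄(X₀(N))` induced by `t ∈ G_ℚ`. -/
abbrev actBar (N : ℕ) (t : Qb ≃ₐ[ℚ] Qb) :
    modularFunctionFieldBar N ≃+* modularFunctionFieldBar N :=
  arithmeticRingAut (modularFunctionFieldFull N) t

/-- `f` has norm a constant times an `m`-th power along `φ`. -/
def NormPow {K F F' : Type*} [Field K] [Field F] [Field F'] [Algebra K F] [Algebra K F']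
    (φ : F →ₐ[K] F') (m : ℕ) (f : F') : Prop :=
  ∃ (c : K) (g : F), S29.H395.normAlong φ f = algebraMap K F c * g ^ m

/-- **Kummer form of (G') at `(M, q, m)`**: for `f ∈ F̄_{Mq}ˣ` with `m ∣ div f` whose norms along
`α` and `β` are constants times `m`-th powers, `(σ² - 1)² (σ² - q²) f` is a constant times an
`m`-th power. -/
def KummerFrobAt (M q m : ℕ) [NeZero M] [NeZero q] : Prop :=
  ∀ A : ValuationSubring Qb, A.LiesOverPrime q →
    ∀ s : Qb ≃ₐ[ℚ] Qb, A.IsFrobeniusAt s q →
      ∀ f : modularFunctionFieldBar (M * q), f ≠ 0 →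
        (∀ v : Place Qb (modularFunctionFieldBar (M * q)), (m : ℤ) ∣ v.ord f) →
        NormPow (heckeAlphaBar Qb M q) m f → NormPow (heckeBetaBar Qb M q) m f →
        ∃ (c : Qb) (y : modularFunctionFieldBar (M * q)), c ≠ 0 ∧
          frobPoly (actBar (M * q) (s * s)) (q ^ 2) f =
            algebraMap Qb (modularFunctionFieldBar (M * q)) c * y ^ m

/-- **T0F (Kummer dictionary).**  `x = [D]`, `m D = div f`; `a x = 0` gives
`div (N_α f) = m α_* D = m div g`, i.e. `N_α f = c g ^ m` (`S29.H395.pushforwardAlong_apply_eq_ord`,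
constants: `S18.H504.const_of_ord_zero`); conclusion as `A2.H129.unipotent_of_kummerTwice`. -/
def T0FStatement : Prop :=
  ∀ (M q m : ℕ) [NeZero M] [NeZero q], q.Prime → ¬ q ∣ M → 0 < m → ¬ q ∣ m →
    PushInputs (heckeAlphaBar Qb M q) → PushInputs (heckeBetaBar Qb M q) →
    KummerFrobAt M q m → NewPartFrobAt M q m

/-! ## Leaf D2F: auxiliary level (only for `q ∈ {2, 3}`) -/

/-- The level-`M` part of the auxiliary level of `A2.Top.H994.auxLevel`:
`lcm M 2` for `q = 3`, `lcm M 3` for `q = 2`, `M` otherwise. -/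
def auxM (M q : ℕ) : ℕ :=
  if q = 3 then Nat.lcm M 2 else if q = 2 then Nat.lcm M 3 else M

/-- The levels at which the semistable model is available (good reduction at level `M` from
S18 needs the auxiliary prime). -/
def HasAux (M q : ℕ) : Prop := (q = 3 → 2 ∣ M) ∧ (q = 2 → 3 ∣ M)

/-- **D2F (auxiliary-level descent).**  `π : X₀(M' q) → X₀(M q)`, `M' = auxM M q`, has degree a
power of `q`, prime to `m`; `π^*` commutes with the Galois action and intertwines the degeneracy
push-forwards (base change `S37.H818.pullback_pushforward_eq`), `π_* π^* = deg π`. -/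
def D2FStatement : Prop :=
  ∀ (M q m : ℕ) [NeZero M] [NeZero q] [NeZero (auxM M q)], q.Prime → ¬ q ∣ M → 0 < m →
    ¬ q ∣ m → NewPartFrobAt (auxM M q) q m → NewPartFrobAt M q m

end Fermat.Agent.S35.G

end

end
-- ===== PACK-END S35/G/Spec.lean

-- ===== PACK-BEGIN A2/T1/H669/Embed.lean
section



/-!
# WALL A2, piece T1/T2 (helper669): the coefficient embedding `F_E → F̄`

For an intermediate field `E ⊆ ℚ̄` and `F₀ ⊆ ℚ((t))`:

* `iota E F₀ : laurentBaseChange E F₀ →+* laurentBaseChange ℚ̄ F₀` (coefficientwise inclusion);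
* `iota_algebraMap`, `iota_arithmeticRingAut` (compatibility with constants and with the
  coefficientwise Galois action restricted to a stable `E`);
* `exists_iota_eq` : every element of `laurentBaseChange ℚ̄ F₀` is `iota` of an element over any
  intermediate field containing a suitable finite set (finite descent, from `S18.H602`);
* `adjoin_algebraic_eq_top` : `F̄` is generated over `iota F_E` by constants.
-/

set_option autoImplicit false

noncomputable section

namespace Fermat.Agent.A2.T1.H669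

open ModularCurve AlgebraicCurve

/-- The field `ℚ̄`. -/
abbrev Qb : Type := AlgebraicClosure ℚ

variable (E : IntermediateField ℚ _root_.Fermat.Agent.A2.T1.H669.Qb) (F₀ : IntermediateField ℚ (LaurentSeries ℚ))

/-- Coefficientwise inclusion `F_E → F̄`. -/
def iota : ↥(laurentBaseChange E F₀) →+* ↥(laurentBaseChange _root_.Fermat.Agent.A2.T1.H669.Qb F₀) where
  toFun x := ⟨coeffMap (algebraMap E _root_.Fermat.Agent.A2.T1.H669.Qb) (x : LaurentSeries E),
    Fermat.Agent.S18.H602.coeffMap_mem_laurentBaseChange F₀ _ x.2⟩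
  map_one' := Subtype.ext (map_one _)
  map_mul' _ _ := Subtype.ext (map_mul _ _ _)
  map_zero' := Subtype.ext (map_zero _)
  map_add' _ _ := Subtype.ext (map_add _ _ _)

@[simp]
theorem coe_iota (x : ↥(laurentBaseChange E F₀)) :
    ((iota E F₀ x : ↥(laurentBaseChange _root_.Fermat.Agent.A2.T1.H669.Qb F₀)) : LaurentSeries _root_.Fermat.Agent.A2.T1.H669.Qb) =
      coeffMap (algebraMap E _root_.Fermat.Agent.A2.T1.H669.Qb) (x : LaurentSeries E) := rfl

theorem iota_injective : Function.Injective (iota E F₀) := (iota E F₀).injective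

theorem iota_ne_zero {x : ↥(laurentBaseChange E F₀)} (hx : x ≠ 0) : iota E F₀ x ≠ 0 :=
  (map_ne_zero_iff _ (iota_injective E F₀)).2 hx

theorem iota_algebraMap (e : E) :
    iota E F₀ (algebraMap E ↥(laurentBaseChange E F₀) e) =
      algebraMap _root_.Fermat.Agent.A2.T1.H669.Qb ↥(laurentBaseChange _root_.Fermat.Agent.A2.T1.H669.Qb F₀) (algebraMap E _root_.Fermat.Agent.A2.T1.H669.Qb e) :=
  Subtype.ext (Fermat.Agent.S18.H602.coeffMap_algebraMap' (algebraMap E _root_.Fermat.Agent.A2.T1.H669.Qb) e)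

/-- Compatibility with the arithmetic action: if `τE` is the restriction of `τ` to `E`. -/
theorem iota_arithmeticRingAut (τ : _root_.Fermat.Agent.A2.T1.H669.Qb ≃ₐ[ℚ] _root_.Fermat.Agent.A2.T1.H669.Qb) (τE : E ≃ₐ[ℚ] E)
    (hτ : ∀ e : E, ((τE e : E) : _root_.Fermat.Agent.A2.T1.H669.Qb) = τ (e : _root_.Fermat.Agent.A2.T1.H669.Qb)) (x : ↥(laurentBaseChange E F₀)) :
    iota E F₀ (arithmeticRingAut F₀ τE x) = arithmeticRingAut F₀ τ (iota E F₀ x) := by
  apply Subtype.ext
  show coeffMap (algebraMap E _root_.Fermat.Agent.A2.T1.H669.Qb) (coeffMap (τE : E →+* E) (x : LaurentSeries E)) =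
    coeffMap (τ : _root_.Fermat.Agent.A2.T1.H669.Qb →+* _root_.Fermat.Agent.A2.T1.H669.Qb) (coeffMap (algebraMap E _root_.Fermat.Agent.A2.T1.H669.Qb) (x : LaurentSeries E))
  rw [coeffMap_coeffMap, coeffMap_coeffMap]
  exact coeffMap_congr (RingHom.ext fun e => hτ e) _

end Fermat.Agent.A2.T1.H669

end
end
-- ===== PACK-END A2/T1/H669/Embed.lean

-- ===== PACK-BEGIN A2/T1/H669/T2.lean
section



/-!
# WALL A2, piece T2 (helper669): divisibility of the divisor descends from `F̄` to `F_E`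

`E ⊆ ℚ̄` an intermediate field, `F_E = laurentBaseChange E F₀`, `F̄ = laurentBaseChange ℚ̄ F₀`,
`iota : F_E → F̄`.  If `y ∈ F_E` and `m ∣ ord_v (iota y)` for every `Place` `v` of `F̄ / ℚ̄`, then
for every discrete valuation subring `V` of `F_E` containing `E` we have `y = u · h ^ m` with `u` a
unit of `V`, i.e. `Spec.DivisibleDiv E m y` (definition unfolded in the statement).

Proof: `S18.H845.exists_dvr_extension` (constant field extensions are unramified) extends `V` to a
discrete valuation subring `B` of `F̄` with the same uniformiser; `B` is a `Place`.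
-/

set_option autoImplicit false
set_option synthInstance.maxHeartbeats 400000
set_option maxHeartbeats 1600000

noncomputable section

namespace Fermat.Agent.A2.T1.H669

open ModularCurve AlgebraicCurve

variable (E : IntermediateField ℚ _root_.Fermat.Agent.A2.T1.H669.Qb) (F₀ : IntermediateField ℚ (LaurentSeries ℚ))

/-- `F̄` as an algebra over `F_E` (via `iota`). -/
@[reducible] def algFEFbar : Algebra ↥(laurentBaseChange E F₀) ↥(laurentBaseChange _root_.Fermat.Agent.A2.T1.H669.Qb F₀) :=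
  (iota E F₀).toAlgebra

theorem towerEFEFbar :
    letI := algFEFbar E F₀
    IsScalarTower E ↥(laurentBaseChange E F₀) ↥(laurentBaseChange _root_.Fermat.Agent.A2.T1.H669.Qb F₀) := by
  letI := algFEFbar E F₀
  exact IsScalarTower.of_algebraMap_eq fun e => (iota_algebraMap E F₀ e).symm

theorem isAlgebraic_const (a : _root_.Fermat.Agent.A2.T1.H669.Qb) :
    IsAlgebraic E (algebraMap _root_.Fermat.Agent.A2.T1.H669.Qb ↥(laurentBaseChange _root_.Fermat.Agent.A2.T1.H669.Qb F₀) a) := by
  have hQ : Algebra.IsAlgebraic ℚ _root_.Fermat.Agent.A2.T1.H669.Qb := AlgebraicClosure.isAlgebraic ℚ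
  have ha : IsAlgebraic E a := (hQ.isAlgebraic a).tower_top E
  exact ha.algebraMap

/-- `F̄` is generated over `F_E` by algebraic constants. -/
theorem adjoin_algebraic_eq_top :
    letI := algFEFbar E F₀
    IntermediateField.adjoin ↥(laurentBaseChange E F₀)
      {α : ↥(laurentBaseChange _root_.Fermat.Agent.A2.T1.H669.Qb F₀) | IsAlgebraic E α} = ⊤ := by
  letI := algFEFbar E F₀
  rw [eq_top_iff]
  rintro ⟨z, hz⟩ -
  have key : ∃ w : ↥(laurentBaseChange _root_.Fermat.Agent.A2.T1.H669.Qb F₀),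
      w ∈ IntermediateField.adjoin ↥(laurentBaseChange E F₀)
        {α : ↥(laurentBaseChange _root_.Fermat.Agent.A2.T1.H669.Qb F₀) | IsAlgebraic E α} ∧
      (w : LaurentSeries _root_.Fermat.Agent.A2.T1.H669.Qb) = z := by
    have hz2 := hz
    rw [mem_laurentBaseChange_iff] at hz2
    induction hz2 using Subfield.closure_induction with
    | mem y hy =>
        rcases hy with ⟨a, rfl⟩ | ⟨z₀, hz₀, rfl⟩
        · exact ⟨algebraMap _root_.Fermat.Agent.A2.T1.H669.Qb ↥(laurentBaseChange _root_.Fermat.Agent.A2.T1.H669.Qb F₀) a,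
            IntermediateField.subset_adjoin _ _ (isAlgebraic_const E F₀ a), rfl⟩
        · refine ⟨algebraMap ↥(laurentBaseChange E F₀) ↥(laurentBaseChange _root_.Fermat.Agent.A2.T1.H669.Qb F₀)
                ⟨coeffEmb E z₀, coeffEmb_mem_laurentBaseChange E hz₀⟩,
            IntermediateField.algebraMap_mem _ _, ?_⟩
          exact Fermat.Agent.S18.H602.coeffMap_coeffEmb' (algebraMap E _root_.Fermat.Agent.A2.T1.H669.Qb) z₀
    | one => exact ⟨1, one_mem _, rfl⟩
    | add x y hx' hy' hx hy =>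
        obtain ⟨w₁, hw₁, rfl⟩ := hx ((mem_laurentBaseChange_iff).2 hx')
        obtain ⟨w₂, hw₂, rfl⟩ := hy ((mem_laurentBaseChange_iff).2 hy')
        exact ⟨w₁ + w₂, add_mem hw₁ hw₂, rfl⟩
    | neg x hx' hx =>
        obtain ⟨w₁, hw₁, rfl⟩ := hx ((mem_laurentBaseChange_iff).2 hx')
        exact ⟨-w₁, neg_mem hw₁, rfl⟩
    | inv x hx' hx =>
        obtain ⟨w₁, hw₁, rfl⟩ := hx ((mem_laurentBaseChange_iff).2 hx')
        exact ⟨w₁⁻¹, inv_mem hw₁, IntermediateField.coe_inv _ _⟩
    | mul x y hx' hy' hx hy =>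
        obtain ⟨w₁, hw₁, rfl⟩ := hx ((mem_laurentBaseChange_iff).2 hx')
        obtain ⟨w₂, hw₂, rfl⟩ := hy ((mem_laurentBaseChange_iff).2 hy')
        exact ⟨w₁ * w₂, mul_mem hw₁ hw₂, rfl⟩
  obtain ⟨w, hw, hwz⟩ := key
  have hwz' : w = ⟨z, hz⟩ := Subtype.ext hwz
  rw [← hwz']
  exact hw

/-- **T2.**  `m ∣ div (iota y)` on `F̄ / ℚ̄` implies `Spec.DivisibleDiv E m y` (unfolded). -/
theorem divisibleDiv_of_ord (m : ℕ) (y : ↥(laurentBaseChange E F₀)) (hy : y ≠ 0)
    (hdiv : ∀ v : Place _root_.Fermat.Agent.A2.T1.H669.Qb ↥(laurentBaseChange _root_.Fermat.Agent.A2.T1.H669.Qb F₀), (m : ℤ) ∣ v.ord (iota E F₀ y)) :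
    ∀ V : ValuationSubring ↥(laurentBaseChange E F₀), IsDiscreteValuationRing V →
      (∀ e : E, algebraMap E ↥(laurentBaseChange E F₀) e ∈ V) →
      ∃ h u : ↥(laurentBaseChange E F₀), h ≠ 0 ∧ u ∈ V ∧ u⁻¹ ∈ V ∧ y = u * h ^ m := by
  intro V hV hEV
  letI := algFEFbar E F₀
  haveI := towerEFEFbar E F₀
  obtain ⟨B, hcomap, hBdvr, hBalg, hBunif, -⟩ :=
    Fermat.Agent.S18.H845.exists_dvr_extension (E := E) (K := ↥(laurentBaseChange E F₀))
      (L := ↥(laurentBaseChange _root_.Fermat.Agent.A2.T1.H669.Qb F₀)) V hEV (adjoin_algebraic_eq_top E F₀)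
  obtain ⟨π, hπ⟩ := IsDiscreteValuationRing.exists_irreducible V
  obtain ⟨hπB, hπirr⟩ := hBunif π hπ
  have hmemV : ∀ x : ↥(laurentBaseChange E F₀), x ∈ V ↔ iota E F₀ x ∈ B := by
    intro x
    rw [← hcomap]
    exact Iff.rfl
  have hπ0 : (π : ↥(laurentBaseChange E F₀)) ≠ 0 := fun h => hπ.ne_zero (Subtype.ext h)
  -- `B` is a place of `F̄ / ℚ̄`
  have hne : B ≠ ⊤ := by
    intro htop
    apply hπirr.not_isUnit
    have hinv : (iota E F₀ (π : ↥(laurentBaseChange E F₀)))⁻¹ ∈ B := by
      rw [htop]; exact ValuationSubring.mem_top _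
    refine IsUnit.of_mul_eq_one (⟨_, hinv⟩ : B) (Subtype.ext ?_)
    exact mul_inv_cancel₀ (iota_ne_zero E F₀ hπ0)
  let v : Place _root_.Fermat.Agent.A2.T1.H669.Qb ↥(laurentBaseChange _root_.Fermat.Agent.A2.T1.H669.Qb F₀) :=
    { toValuationSubring := B
      algebraMap_mem' := fun a => hBalg _ (isAlgebraic_const E F₀ a)
      ne_top' := hne
      isPrincipalIdealRing' := inferInstance }
  obtain ⟨k, hk⟩ := hdiv v
  obtain ⟨u, hu⟩ := v.exists_unit_mul_zpow (iota_ne_zero E F₀ hy)
    (π := (⟨iota E F₀ (π : ↥(laurentBaseChange E F₀)), hπB⟩ : B)) hπirr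
  rw [hk] at hu
  have hu' : iota E F₀ y =
      ((u : B) : ↥(laurentBaseChange _root_.Fermat.Agent.A2.T1.H669.Qb F₀)) *
        (iota E F₀ (π : ↥(laurentBaseChange E F₀))) ^ ((m : ℤ) * k) := hu
  -- the unit over `E`
  set uK : ↥(laurentBaseChange E F₀) :=
    y * ((π : ↥(laurentBaseChange E F₀)) ^ ((m : ℤ) * k))⁻¹ with huK
  have hιuK : iota E F₀ uK = ((u : B) : ↥(laurentBaseChange _root_.Fermat.Agent.A2.T1.H669.Qb F₀)) := by
    rw [huK, map_mul, map_inv₀, map_zpow₀, hu', mul_assoc,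
      mul_inv_cancel₀ (zpow_ne_zero _ (iota_ne_zero E F₀ hπ0)), mul_one]
  refine ⟨(π : ↥(laurentBaseChange E F₀)) ^ k, uK, zpow_ne_zero _ hπ0, ?_, ?_, ?_⟩
  · rw [hmemV, hιuK]; exact (u : B).2
  · rw [hmemV, map_inv₀, hιuK]
    have h1 : ((u⁻¹ : Bˣ) : B) * (u : B) = 1 := by
      rw [← Units.val_mul, inv_mul_cancel, Units.val_one]
    have h2 : (((u⁻¹ : Bˣ) : B) : ↥(laurentBaseChange _root_.Fermat.Agent.A2.T1.H669.Qb F₀)) *
        ((u : B) : ↥(laurentBaseChange _root_.Fermat.Agent.A2.T1.H669.Qb F₀)) = 1 := congrArg Subtype.val h1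
    have h3 : (((u : B) : ↥(laurentBaseChange _root_.Fermat.Agent.A2.T1.H669.Qb F₀)))⁻¹ =
        (((u⁻¹ : Bˣ) : B) : ↥(laurentBaseChange _root_.Fermat.Agent.A2.T1.H669.Qb F₀)) :=
      (eq_inv_of_mul_eq_one_left h2).symm
    rw [h3]; exact ((u⁻¹ : Bˣ) : B).2
  · rw [huK, ← zpow_natCast ((π : ↥(laurentBaseChange E F₀)) ^ k) m, ← zpow_mul,
      mul_comm k (m : ℤ), mul_assoc,
      inv_mul_cancel₀ (zpow_ne_zero _ hπ0), mul_one]

end Fermat.Agent.A2.T1.H669

end
end
-- ===== PACK-END A2/T1/H669/T2.lean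

-- ===== PACK-BEGIN S13/H175/InertiaMem.lean
section




set_option autoImplicit false

/-!
# Membership criteria for the Prelude inertia subgroup `A.inertiaSubgroupIn K`
-/

open scoped Pointwise

namespace Fermat.Agent.S13.H175

/-- An automorphism stabilising `A` and acting trivially on the residue field of `A` lies in
the inertia subgroup. -/
theorem mem_inertiaSubgroupIn_of {K L : Type*} [Field K] [Field L] [Algebra K L]
    (A : ValuationSubring L) (σ : L ≃ₐ[K] L) (hstab : σ • A = A)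
    (h : ∀ x : L, x ∈ A → σ x - x ∈ A.nonunits) : σ ∈ A.inertiaSubgroupIn K := by
  unfold ValuationSubring.inertiaSubgroupIn
  rw [Subgroup.mem_map]
  refine ⟨⟨σ, hstab⟩, ?_, rfl⟩
  unfold ValuationSubring.inertiaSubgroup
  rw [MonoidHom.mem_ker]
  ext r
  obtain ⟨x, rfl⟩ := IsLocalRing.residue_surjective r
  show (⟨σ, hstab⟩ : A.decompositionSubgroup K) • IsLocalRing.residue A x = IsLocalRing.residue A x
  rw [← IsLocalRing.ResidueField.residue_smul]
  rw [← sub_eq_zero, ← map_sub, IsLocalRing.residue_eq_zero_iff]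
  have h1 := h x x.2
  rw [ValuationSubring.mem_nonunits_iff_exists_mem_maximalIdeal] at h1
  obtain ⟨h2, h3⟩ := h1
  convert h3 using 1
  exact Subtype.ext rfl

/-- Over an algebraic extension of `ℚ`: an automorphism acting trivially modulo the maximal
ideal of `A` on all algebraic integers lies in the inertia subgroup of `A`. -/
theorem mem_inertiaSubgroupIn_of_integral
    (A : ValuationSubring (AlgebraicClosure ℚ)) (ℓ : ℕ) (hℓ : ℓ.Prime) (hA : A.LiesOverPrime ℓ)
    (σ : AlgebraicClosure ℚ ≃ₐ[ℚ] AlgebraicClosure ℚ)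
    (h : ∀ x : AlgebraicClosure ℚ, IsIntegral ℤ x → σ x - x ∈ A.nonunits) :
    σ ∈ A.inertiaSubgroupIn ℚ := by
  have : Algebra.IsAlgebraic ℚ (AlgebraicClosure ℚ) := AlgebraicClosure.isAlgebraic ℚ
  -- `σ` maps integral elements to integral elements
  have hint : ∀ (τ : AlgebraicClosure ℚ ≃ₐ[ℚ] AlgebraicClosure ℚ) (x : AlgebraicClosure ℚ),
      IsIntegral ℤ x → IsIntegral ℤ (τ x) := by
    intro τ x hx
    exact hx.map τ
  -- the same hypothesis holds for `σ⁻¹`
  have h' : ∀ x : AlgebraicClosure ℚ, IsIntegral ℤ x → σ.symm x - x ∈ A.nonunits := by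
    intro x hx
    have h1 := h (σ.symm x) (hint σ.symm x hx)
    rw [AlgEquiv.apply_symm_apply] at h1
    have := A.nonunits.neg_mem h1
    simpa using this
  -- key: such a `τ` maps `A` into `A` and acts trivially on the residue field
  have key : ∀ (τ : AlgebraicClosure ℚ ≃ₐ[ℚ] AlgebraicClosure ℚ),
      (∀ x : AlgebraicClosure ℚ, IsIntegral ℤ x → τ x - x ∈ A.nonunits) →
      ∀ x : AlgebraicClosure ℚ, x ∈ A → τ x ∈ A ∧ τ x - x ∈ A.nonunits := by
    intro τ hτ x hx
    obtain ⟨b, s, hb, hs, hsA, hxs⟩ := (Fermat.Agent.S54.mem_valuationSubring_iff A ℓ hℓ hA x).mp hx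
    have hbA : b ∈ A := Fermat.Agent.S54.isIntegral_mem_valuationSubring A hb
    have hsmem : s ∈ A := Fermat.Agent.S54.isIntegral_mem_valuationSubring A hs
    have hτs_mem : τ s ∈ A := Fermat.Agent.S54.isIntegral_mem_valuationSubring A (hint τ s hs)
    have hτb_mem : τ b ∈ A := Fermat.Agent.S54.isIntegral_mem_valuationSubring A (hint τ b hb)
    have hs0 : s ≠ 0 := fun h0 => hsA (h0 ▸ A.nonunits.zero_mem)
    have hτs0 : τ s ≠ 0 := fun h0 => hs0 (by simpa using h0)
    -- `τ s` is a unit of `A`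
    have hτsA : τ s ∉ A.nonunits := by
      intro hcon
      have h1 := hτ s hs
      have h2 : s = τ s - (τ s - s) := by ring
      apply hsA
      rw [h2]
      exact A.nonunits.sub_mem hcon h1
    have hsinv : s⁻¹ ∈ A := by
      by_contra hc
      exact hsA (A.mem_nonunits_iff_or.mpr (Or.inr hc))
    have hτsinv : (τ s)⁻¹ ∈ A := by
      by_contra hc
      exact hτsA (A.mem_nonunits_iff_or.mpr (Or.inr hc))
    have hx_eq : x = b * s⁻¹ := by
      rw [← hxs]; field_simp
    have hτx_eq : τ x = τ b * (τ s)⁻¹ := by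
      rw [hx_eq, map_mul, map_inv₀]
    refine ⟨?_, ?_⟩
    · rw [hτx_eq]
      exact A.mul_mem _ _ hτb_mem hτsinv
    · have hdiff : τ x - x = ((τ b - b) * s - b * (τ s - s)) * ((τ s)⁻¹ * s⁻¹) := by
        rw [hτx_eq, hx_eq]
        field_simp
        ring
      rw [hdiff]
      -- nonunits form an ideal-like subset
      have hmul : ∀ u v : AlgebraicClosure ℚ, u ∈ A.nonunits → v ∈ A → u * v ∈ A.nonunits := by
        intro u v hu hv
        obtain ⟨h1, h2⟩ := ValuationSubring.mem_nonunits_iff_exists_mem_maximalIdeal.mp hu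
        have := Ideal.mul_mem_right (⟨v, hv⟩ : A) _ h2
        exact ValuationSubring.mem_nonunits_iff_exists_mem_maximalIdeal.mpr ⟨_, this⟩
      apply hmul _ _ _ (A.mul_mem _ _ hτsinv hsinv)
      apply A.nonunits.sub_mem
      · exact hmul _ _ (hτ b hb) hsmem
      · rw [mul_comm]
        exact hmul _ _ (hτ s hs) hbA
  apply mem_inertiaSubgroupIn_of A σ
  · -- `σ • A = A`
    apply le_antisymm
    · intro y hy
      obtain ⟨x, hx, rfl⟩ := (ValuationSubring.mem_smul_pointwise_iff_exists σ y A).mp hy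
      exact (key σ h x hx).1
    · intro y hy
      rw [ValuationSubring.mem_smul_pointwise_iff_exists]
      refine ⟨σ.symm y, (key σ.symm h' y hy).1, ?_⟩
      simp
  · intro x hx
    exact (key σ h x hx).2

end Fermat.Agent.S13.H175

end
-- ===== PACK-END S13/H175/InertiaMem.lean

-- ===== PACK-BEGIN S14/H937/Setup.lean
section






/-!
# S14, blocks LOCAL-I / LOCAL-D (helper937): finite-level package

`A` a valuation subring of `ℚ̄`, `K` a number field inside `ℚ̄`, `M/K` a finite Galois extension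
inside `ℚ̄`.  We relate `A` to the primes of `𝓞 K` and `𝓞 M` below it, and lift elements of the
inertia / decomposition groups of `Gal(M/K)` to `Gal(ℚ̄/K)`.
-/

set_option autoImplicit false
set_option linter.style.haveILetI false

open NumberField
open scoped Pointwise

namespace Fermat.Agent.S14.H937

/-- `ℚ̄`. -/
abbrev Qb := AlgebraicClosure ℚ

theorem h937_isAlgebraic : Algebra.IsAlgebraic ℚ Qb := AlgebraicClosure.isAlgebraic ℚ

section toZbar

variable (F : Type*) [Field F] [Algebra F Qb]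

/-- The ring hom from the integers of a field mapping to `ℚ̄` to the ring of all algebraic
integers. -/
noncomputable def toZbar : 𝓞 F →+* integralClosure ℤ Qb where
  toFun x := ⟨algebraMap F Qb (x : F), map_isIntegral_int (algebraMap F Qb) x.2⟩
  map_one' := by ext; simp
  map_mul' x y := by ext; simp
  map_zero' := by ext; simp
  map_add' x y := by ext; simp

theorem toZbar_coe (x : 𝓞 F) : ((toZbar F x : integralClosure ℤ Qb) : Qb) =
    algebraMap F Qb (x : F) := rfl

/-- The prime of `𝓞 F` below a valuation subring of `ℚ̄`. -/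
noncomputable def primeOf (A : ValuationSubring Qb) : Ideal (𝓞 F) :=
  (Fermat.Agent.S54.primeBelow A).comap (toZbar F)

theorem mem_primeOf (A : ValuationSubring Qb) (x : 𝓞 F) :
    x ∈ primeOf F A ↔ algebraMap F Qb (x : F) ∈ A.nonunits := Iff.rfl

instance primeOf_isPrime (A : ValuationSubring Qb) : (primeOf F A).IsPrime :=
  haveI := Fermat.Agent.S54.primeBelow_isPrime A
  Ideal.comap_isPrime _ _

theorem natCast_mem_primeOf (A : ValuationSubring Qb) (ℓ : ℕ) (hA : A.LiesOverPrime ℓ) :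
    (ℓ : 𝓞 F) ∈ primeOf F A := by
  rw [mem_primeOf]
  have hA' : (ℓ : Qb) ∈ A.nonunits := hA
  simpa using hA'

theorem primeOf_ne_bot [CharZero F] (A : ValuationSubring Qb) (ℓ : ℕ) (hℓ : ℓ.Prime)
    (hA : A.LiesOverPrime ℓ) : primeOf F A ≠ ⊥ := by
  intro h
  have h1 := natCast_mem_primeOf F A ℓ hA
  rw [h, Ideal.mem_bot] at h1
  have : (ℓ : 𝓞 F) ≠ 0 := by
    exact_mod_cast hℓ.ne_zero
  exact this h1

end toZbar

section dict

open IsDedekindDomain

variable (F : Type*) [Field F] [NumberField F] [Algebra F Qb]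
variable (A : ValuationSubring Qb) (w : HeightOneSpectrum (𝓞 F)) (hw : w.asIdeal = primeOf F A)

omit [NumberField F] in
theorem integer_mem (x : 𝓞 F) : algebraMap F Qb (x : F) ∈ A :=
  Fermat.Agent.S54.isIntegral_mem_valuationSubring A (map_isIntegral_int (algebraMap F Qb) x.2)

theorem mul_mem_nonunits_left {a b : Qb} (ha : a ∈ A.nonunits) (hb : b ∈ A) :
    a * b ∈ A.nonunits := by
  obtain ⟨h1, h2⟩ := ValuationSubring.mem_nonunits_iff_exists_mem_maximalIdeal.mp ha
  have := Ideal.mul_mem_right (⟨b, hb⟩ : A) _ h2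
  exact ValuationSubring.mem_nonunits_iff_exists_mem_maximalIdeal.mpr ⟨_, this⟩

theorem inv_mem_of_not_mem_nonunits {a : Qb} (ha : a ∉ A.nonunits) : a⁻¹ ∈ A := by
  by_contra h
  exact ha (A.mem_nonunits_iff_or.mpr (Or.inr h))

include hw in
theorem mem_of_valuation_le_one (x : F) (hx : w.valuation F x ≤ 1) :
    algebraMap F Qb x ∈ A := by
  obtain ⟨n, d, hnd⟩ := w.exists_primeCompl_mul_eq_of_integer x hx
  have hd : algebraMap F Qb ((d : 𝓞 F) : F) ∉ A.nonunits := by
    have h1 : (d : 𝓞 F) ∉ primeOf F A := by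
      rw [← hw]; exact d.2
    rw [mem_primeOf] at h1
    exact h1
  have hd0 : algebraMap F Qb ((d : 𝓞 F) : F) ≠ 0 := fun h0 => hd (h0 ▸ A.nonunits.zero_mem)
  have h2 : algebraMap F Qb x = algebraMap F Qb ((n : 𝓞 F) : F) *
      (algebraMap F Qb ((d : 𝓞 F) : F))⁻¹ := by
    rw [eq_mul_inv_iff_mul_eq₀ hd0, ← map_mul]
    congr 1
  rw [h2]
  exact A.mul_mem _ _ (integer_mem F A n) (inv_mem_of_not_mem_nonunits A hd)

include hw in
theorem mem_nonunits_of_valuation_lt_one (x : F) (hx : w.valuation F x < 1) :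
    algebraMap F Qb x ∈ A.nonunits := by
  obtain ⟨n, d, hnd⟩ := w.exists_primeCompl_mul_eq_of_integer x hx.le
  have hd : algebraMap F Qb ((d : 𝓞 F) : F) ∉ A.nonunits := by
    have h1 : (d : 𝓞 F) ∉ primeOf F A := by
      rw [← hw]; exact d.2
    rw [mem_primeOf] at h1
    exact h1
  have hd0 : algebraMap F Qb ((d : 𝓞 F) : F) ≠ 0 := fun h0 => hd (h0 ▸ A.nonunits.zero_mem)
  have hdv : w.valuation F ((d : 𝓞 F) : F) = 1 := by
    rw [HeightOneSpectrum.valuation_of_algebraMap, HeightOneSpectrum.intValuation_eq_one_iff_mem_primeCompl]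
    exact d.2
  have hn : (n : 𝓞 F) ∈ w.asIdeal := by
    rw [← HeightOneSpectrum.valuation_lt_one_iff_mem (K := F)]
    have : w.valuation F ((n : 𝓞 F) : F) = w.valuation F x * w.valuation F ((d : 𝓞 F) : F) := by
      rw [← map_mul]; congr 1; exact hnd.symm
    rw [this, hdv, mul_one]
    exact hx
  rw [hw, mem_primeOf] at hn
  have h2 : algebraMap F Qb x = algebraMap F Qb ((n : 𝓞 F) : F) *
      (algebraMap F Qb ((d : 𝓞 F) : F))⁻¹ := by
    rw [eq_mul_inv_iff_mul_eq₀ hd0, ← map_mul]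
    congr 1
  rw [h2]
  exact mul_mem_nonunits_left A hn (inv_mem_of_not_mem_nonunits A hd)

include hw in
theorem valuation_eq_one_of (x : F) (hx : w.valuation F x = 1) :
    A.valuation (algebraMap F Qb x) = 1 := by
  have hx0 : x ≠ 0 := by
    rintro rfl
    simp at hx
  have h1 := mem_of_valuation_le_one F A w hw x hx.le
  have h2 : w.valuation F x⁻¹ ≤ 1 := by
    rw [map_inv₀, hx, inv_one]
  have h3 := mem_of_valuation_le_one F A w hw x⁻¹ h2
  rw [map_inv₀] at h3
  apply le_antisymm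
  · exact (A.valuation_le_one_iff _).mpr h1
  · have h4 := (A.valuation_le_one_iff _).mpr h3
    rw [map_inv₀] at h4
    have hne : A.valuation (algebraMap F Qb x) ≠ 0 := by
      rw [Valuation.ne_zero_iff]
      simpa using hx0
    exact (inv_le_one₀ (zero_lt_iff.mpr hne)).mp h4

include hw in
theorem valuation_le_one_of_mem (x : F) (hx : algebraMap F Qb x ∈ A) :
    w.valuation F x ≤ 1 := by
  by_contra hcon
  rw [not_le] at hcon
  have hx0 : x ≠ 0 := by
    rintro rfl
    simp at hcon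
  have h1 : w.valuation F x⁻¹ < 1 := by
    rw [map_inv₀]
    exact inv_lt_one_of_one_lt₀ hcon
  have h2 := mem_nonunits_of_valuation_lt_one F A w hw x⁻¹ h1
  rw [map_inv₀, ValuationSubring.mem_nonunits_iff, map_inv₀] at h2
  have h3 := (A.valuation_le_one_iff _).mpr hx
  have hne : A.valuation (algebraMap F Qb x) ≠ 0 := by
    rw [Valuation.ne_zero_iff]
    simpa using hx0
  have h4 : 1 < A.valuation (algebraMap F Qb x) := by
    have := (inv_lt_one₀ (zero_lt_iff.mpr hne)).mp h2
    exact this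
  exact absurd h3 (not_le.mpr h4)

end dict

end Fermat.Agent.S14.H937

end
-- ===== PACK-END S14/H937/Setup.lean

-- ===== PACK-BEGIN A2/T1/H849/Iota.lean
section





/-!
# A2 / T1 (helper849), part 1: the comparison map `ι : F_{N,E} → F̄_N`

`E ⊆ Q̄` an intermediate field, `F₀ ⊆ ℚ((t))` (in the application `modularFunctionFieldFull N`).

* `iota E F₀ : laurentBaseChange E F₀ →+* laurentBaseChange Q̄ F₀` (coefficientwise inclusion),
  injective (`iota_injective`), `iota_algebraMap`.
* `resAut` : the restriction to `E` of an automorphism `τ` of `Q̄` with `τ E ⊆ E`, `τ⁻¹ E ⊆ E`.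
* `iota_arithmeticRingAut` : `ι ∘ (τ|_E) = τ ∘ ι` on function fields.
* `exists_iota_eq` : every `f ∈ laurentBaseChange Q̄ F₀` is `ι y` for some `y` over any
  intermediate field `E` containing a suitable finite set of algebraic numbers.
* `resRE` : the restriction of `τ` in the decomposition group of `P` to `R_E = P ∩ E`.
-/

set_option autoImplicit false

noncomputable section

namespace Fermat.Agent.A2.T1.H849

open ModularCurve AlgebraicCurve HahnSeries IntermediateField

/-- The field `ℚ̄`. -/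
abbrev Qb : Type := AlgebraicClosure ℚ

variable (E : IntermediateField ℚ _root_.Fermat.Agent.A2.T1.H849.Qb) (F₀ : IntermediateField ℚ (LaurentSeries ℚ))

/-- The comparison map `ι : F_E → F̄` (inclusion of coefficients). -/
def iota : laurentBaseChange E F₀ →+* laurentBaseChange _root_.Fermat.Agent.A2.T1.H849.Qb F₀ where
  toFun y := ⟨coeffMap (algebraMap E _root_.Fermat.Agent.A2.T1.H849.Qb) (y : LaurentSeries E),
    Fermat.Agent.S18.H602.coeffMap_mem_laurentBaseChange F₀ (algebraMap E _root_.Fermat.Agent.A2.T1.H849.Qb) y.2⟩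
  map_one' := Subtype.ext (map_one (coeffMap (algebraMap E _root_.Fermat.Agent.A2.T1.H849.Qb)))
  map_mul' _ _ := Subtype.ext (map_mul (coeffMap (algebraMap E _root_.Fermat.Agent.A2.T1.H849.Qb)) _ _)
  map_zero' := Subtype.ext (map_zero (coeffMap (algebraMap E _root_.Fermat.Agent.A2.T1.H849.Qb)))
  map_add' _ _ := Subtype.ext (map_add (coeffMap (algebraMap E _root_.Fermat.Agent.A2.T1.H849.Qb)) _ _)

@[simp]
theorem coe_iota (y : laurentBaseChange E F₀) :
    ((iota E F₀ y : laurentBaseChange _root_.Fermat.Agent.A2.T1.H849.Qb F₀) : LaurentSeries _root_.Fermat.Agent.A2.T1.H849.Qb) =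
      coeffMap (algebraMap E _root_.Fermat.Agent.A2.T1.H849.Qb) (y : LaurentSeries E) := rfl

theorem iota_injective : Function.Injective (iota E F₀) := (iota E F₀).injective

theorem iota_ne_zero {y : laurentBaseChange E F₀} (hy : y ≠ 0) : iota E F₀ y ≠ 0 := by
  intro h
  exact hy (iota_injective E F₀ (h.trans (map_zero _).symm))

theorem iota_algebraMap (e : E) :
    iota E F₀ (algebraMap E (laurentBaseChange E F₀) e) =
      algebraMap _root_.Fermat.Agent.A2.T1.H849.Qb (laurentBaseChange _root_.Fermat.Agent.A2.T1.H849.Qb F₀) (e : _root_.Fermat.Agent.A2.T1.H849.Qb) := by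
  apply Subtype.ext
  show coeffMap (algebraMap E _root_.Fermat.Agent.A2.T1.H849.Qb) (algebraMap E (LaurentSeries E) e) = _
  rw [Fermat.Agent.S18.H602.coeffMap_algebraMap']
  rfl

variable {E}

/-- The restriction to `E` of an automorphism of `ℚ̄` preserving `E`. -/
def resAut (τ : _root_.Fermat.Agent.A2.T1.H849.Qb ≃ₐ[ℚ] _root_.Fermat.Agent.A2.T1.H849.Qb) (h : ∀ e : _root_.Fermat.Agent.A2.T1.H849.Qb, e ∈ E → τ e ∈ E)
    (h' : ∀ e : _root_.Fermat.Agent.A2.T1.H849.Qb, e ∈ E → τ⁻¹ e ∈ E) : E ≃ₐ[ℚ] E :=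
  AlgEquiv.ofBijective
    { toFun := fun e => ⟨τ (e : _root_.Fermat.Agent.A2.T1.H849.Qb), h e e.2⟩
      map_one' := Subtype.ext (map_one τ)
      map_mul' := fun a b => Subtype.ext (map_mul τ (a : _root_.Fermat.Agent.A2.T1.H849.Qb) (b : _root_.Fermat.Agent.A2.T1.H849.Qb))
      map_zero' := Subtype.ext (map_zero τ)
      map_add' := fun a b => Subtype.ext (map_add τ (a : _root_.Fermat.Agent.A2.T1.H849.Qb) (b : _root_.Fermat.Agent.A2.T1.H849.Qb))
      commutes' := fun r => Subtype.ext (τ.commutes r) }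
    ⟨fun _ _ hab => Subtype.ext (τ.injective (congrArg Subtype.val hab)),
      fun b => ⟨⟨τ⁻¹ (b : _root_.Fermat.Agent.A2.T1.H849.Qb), h' b b.2⟩, Subtype.ext (τ.apply_symm_apply (b : _root_.Fermat.Agent.A2.T1.H849.Qb))⟩⟩

@[simp]
theorem coe_resAut (τ : _root_.Fermat.Agent.A2.T1.H849.Qb ≃ₐ[ℚ] _root_.Fermat.Agent.A2.T1.H849.Qb) (h : ∀ e : _root_.Fermat.Agent.A2.T1.H849.Qb, e ∈ E → τ e ∈ E)
    (h' : ∀ e : _root_.Fermat.Agent.A2.T1.H849.Qb, e ∈ E → τ⁻¹ e ∈ E) (e : E) :
    ((resAut τ h h' e : E) : _root_.Fermat.Agent.A2.T1.H849.Qb) = τ (e : _root_.Fermat.Agent.A2.T1.H849.Qb) := rfl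

/-- `ι` intertwines the arithmetic action of `τ_E` on `F_E` with that of `τ` on `F̄`, for any
automorphism `τ_E` of `E` compatible with `τ`. -/
theorem iota_arithmeticRingAut (τ : _root_.Fermat.Agent.A2.T1.H849.Qb ≃ₐ[ℚ] _root_.Fermat.Agent.A2.T1.H849.Qb) (τE : E ≃ₐ[ℚ] E)
    (hτ : ∀ e : E, ((τE e : E) : _root_.Fermat.Agent.A2.T1.H849.Qb) = τ (e : _root_.Fermat.Agent.A2.T1.H849.Qb)) (y : laurentBaseChange E F₀) :
    iota E F₀ (arithmeticRingAut F₀ τE y) = arithmeticRingAut F₀ τ (iota E F₀ y) := by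
  apply Subtype.ext
  show coeffMap (algebraMap E _root_.Fermat.Agent.A2.T1.H849.Qb) (coeffMap (τE : E →+* E) (y : LaurentSeries E)) =
    coeffMap (τ : _root_.Fermat.Agent.A2.T1.H849.Qb →+* _root_.Fermat.Agent.A2.T1.H849.Qb) (coeffMap (algebraMap E _root_.Fermat.Agent.A2.T1.H849.Qb) (y : LaurentSeries E))
  rw [coeffMap_coeffMap, coeffMap_coeffMap]
  exact coeffMap_congr (RingHom.ext fun e => hτ e) _

variable (E)

/-- Descent: every element of `F̄` comes from `F_E` as soon as `E` contains a suitable finite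
set of algebraic numbers. -/
theorem exists_finset_forall_exists_iota_eq (f : laurentBaseChange _root_.Fermat.Agent.A2.T1.H849.Qb F₀) :
    ∃ S : Finset _root_.Fermat.Agent.A2.T1.H849.Qb, ∀ E : IntermediateField ℚ _root_.Fermat.Agent.A2.T1.H849.Qb, (∀ s ∈ S, s ∈ E) →
      ∃ y : laurentBaseChange E F₀, iota E F₀ y = f := by
  obtain ⟨E₀, hfin, hdesc⟩ := Fermat.Agent.S18.H602.exists_finite_descent (F₀ := F₀) f.2
  have hfg : E₀.FG := IntermediateField.essFiniteType_iff.1 inferInstance
  obtain ⟨S, hS⟩ := hfg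
  refine ⟨S, fun E hE => ?_⟩
  have hle : E₀ ≤ E := by
    rw [← hS, IntermediateField.adjoin_le_iff]
    intro s hs
    exact hE s (Finset.mem_coe.1 hs)
  obtain ⟨y, hy, hyf⟩ := hdesc.mono hle
  exact ⟨⟨y, hy⟩, Subtype.ext hyf⟩

end Fermat.Agent.A2.T1.H849

end
end
-- ===== PACK-END A2/T1/H849/Iota.lean

-- ===== PACK-BEGIN S35/G/H60/FundIneq.lean
section


/-!
# The fundamental inequality for two extensions of a valuation ring (helper60)

Mathlib + `S35.H253` (adapted families).  `F / K` finite, `O ⊆ K` a valuation ring, `V₁`, `V₂`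
incomparable valuation rings of `F` over `O`, with surjective reductions onto fields.  Then the
residue extensions are finite and `[κ₁ : k] + [κ₂ : k] ≤ [F : K]`.
-/

set_option autoImplicit false

namespace Fermat.Agent.S35.G.H60

open Fermat.Agent.S35.H253

section FundIneq

variable {K F : Type*} [Field K] [Field F] [Algebra K F]

/-- Residually independent families at `V₁` and at `V₂` have at most `[F : K]` members
altogether. -/
theorem card_add_card_le_finrank {O : ValuationSubring K} {V₁ V₂ : ValuationSubring F}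
    (h₁ : Over O V₁) (h₂ : Over O V₂) (hne₁ : ¬ V₁ ≤ V₂) (hne₂ : ¬ V₂ ≤ V₁)
    [FiniteDimensional K F]
    {k κ₁ κ₂ : Type*} [Field k] [Field κ₁] [Field κ₂] [Algebra k κ₁] [Algebra k κ₂]
    (π : O →+* k) (ρ₁ : V₁ →+* κ₁) (ρ₂ : V₂ →+* κ₂)
    (hπ : Function.Surjective π) (hρ₁ : Function.Surjective ρ₁) (hρ₂ : Function.Surjective ρ₂)
    (hc₁ : ∀ a : O, ρ₁ ⟨algebraMap K F a, (h₁ a).2 a.2⟩ = algebraMap k κ₁ (π a))
    (hc₂ : ∀ a : O, ρ₂ ⟨algebraMap K F a, (h₂ a).2 a.2⟩ = algebraMap k κ₂ (π a))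
    {ι₁ ι₂ : Type*} [Fintype ι₁] [Fintype ι₂] (b₁ : ι₁ → κ₁) (b₂ : ι₂ → κ₂)
    (hb₁ : LinearIndependent k b₁) (hb₂ : LinearIndependent k b₂) :
    Fintype.card ι₁ + Fintype.card ι₂ ≤ Module.finrank K F := by
  classical
  choose e₁ he₁ using fun i => hρ₁ (b₁ i)
  choose e₂ he₂ using fun j => hρ₂ (b₂ j)
  choose g₁ hg₁m hg₁d hg₁s using fun i => exists_approx hne₁ hne₂ (e₁ i).2
  choose g₂ hg₂m hg₂d hg₂s using fun j => exists_approx hne₂ hne₁ (e₂ j).2
  have hρg₁ : ∀ i, ρ₁ ⟨g₁ i, hg₁m i⟩ = b₁ i := fun i => by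
    rw [← he₁ i, ← sub_eq_zero, ← map_sub, map_eq_zero_iff_val_lt_one ρ₁ hρ₁]
    exact hg₁d i
  have hρg₂ : ∀ j, ρ₂ ⟨g₂ j, hg₂m j⟩ = b₂ j := fun j => by
    rw [← he₂ j, ← sub_eq_zero, ← map_sub, map_eq_zero_iff_val_lt_one ρ₂ hρ₂]
    exact hg₂d j
  have hπ0 : ∀ a : O, π a = 0 ↔ O.valuation (a : K) < 1 :=
    fun a => map_eq_zero_iff_val_lt_one π hπ a
  have hgood : GoodFamily O V₁ V₂ (Sum.elim g₁ g₂) :=
    { over₁ := h₁
      over₂ := h₂
      mem₁ := fun i => hg₁m i
      small₂ := fun i => hg₁s i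
      mem₂ := fun j => hg₂m j
      small₁ := fun j => hg₂s j
      indep₁ := by
        intro a ha hsmall i
        simp only [Sum.elim_inl] at hsmall
        have hmem : (∑ i, algebraMap K F (a i) * g₁ i) ∈ V₁ :=
          (V₁.valuation_le_one_iff _).1 hsmall.le
        have h0 : ρ₁ ⟨_, hmem⟩ = 0 := (map_eq_zero_iff_val_lt_one ρ₁ hρ₁ ⟨_, hmem⟩).2 hsmall
        have e : (⟨_, hmem⟩ : V₁) =
            ∑ i, (⟨algebraMap K F (a i), (h₁ (a i)).2 (ha i)⟩ : V₁) * ⟨g₁ i, hg₁m i⟩ := by
          apply Subtype.ext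
          rw [AddSubmonoidClass.coe_finsetSum]
          simp only [MulMemClass.coe_mul]
        rw [e, map_sum] at h0
        have h0' : ∑ i, π ⟨a i, ha i⟩ • b₁ i = 0 := by
          rw [← h0]
          refine Finset.sum_congr rfl fun i _ => ?_
          rw [map_mul, hρg₁, Algebra.smul_def, ← hc₁]
        have := Fintype.linearIndependent_iff.1 hb₁ _ h0' i
        exact (hπ0 ⟨a i, ha i⟩).1 this
      indep₂ := by
        intro a ha hsmall j
        simp only [Sum.elim_inr] at hsmall
        have hmem : (∑ j, algebraMap K F (a j) * g₂ j) ∈ V₂ :=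
          (V₂.valuation_le_one_iff _).1 hsmall.le
        have h0 : ρ₂ ⟨_, hmem⟩ = 0 := (map_eq_zero_iff_val_lt_one ρ₂ hρ₂ ⟨_, hmem⟩).2 hsmall
        have e : (⟨_, hmem⟩ : V₂) =
            ∑ j, (⟨algebraMap K F (a j), (h₂ (a j)).2 (ha j)⟩ : V₂) * ⟨g₂ j, hg₂m j⟩ := by
          apply Subtype.ext
          rw [AddSubmonoidClass.coe_finsetSum]
          simp only [MulMemClass.coe_mul]
        rw [e, map_sum] at h0
        have h0' : ∑ j, π ⟨a j, ha j⟩ • b₂ j = 0 := by
          rw [← h0]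
          refine Finset.sum_congr rfl fun j _ => ?_
          rw [map_mul, hρg₂, Algebra.smul_def, ← hc₂]
        have := Fintype.linearIndependent_iff.1 hb₂ _ h0' j
        exact (hπ0 ⟨a j, ha j⟩).1 this }
  have hli := hgood.linearIndependent
  have := hli.fintype_card_le_finrank
  simpa [Fintype.card_sum] using this

/-- **Fundamental inequality**, two extensions: the residue extensions are finite and
`[κ₁ : k] + [κ₂ : k] ≤ [F : K]`. -/
theorem finite_and_finrank_add_le {O : ValuationSubring K} {V₁ V₂ : ValuationSubring F}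
    (h₁ : Over O V₁) (h₂ : Over O V₂) (hne₁ : ¬ V₁ ≤ V₂) (hne₂ : ¬ V₂ ≤ V₁)
    [FiniteDimensional K F]
    {k κ₁ κ₂ : Type*} [Field k] [Field κ₁] [Field κ₂] [Algebra k κ₁] [Algebra k κ₂]
    (π : O →+* k) (ρ₁ : V₁ →+* κ₁) (ρ₂ : V₂ →+* κ₂)
    (hπ : Function.Surjective π) (hρ₁ : Function.Surjective ρ₁) (hρ₂ : Function.Surjective ρ₂)
    (hc₁ : ∀ a : O, ρ₁ ⟨algebraMap K F a, (h₁ a).2 a.2⟩ = algebraMap k κ₁ (π a))
    (hc₂ : ∀ a : O, ρ₂ ⟨algebraMap K F a, (h₂ a).2 a.2⟩ = algebraMap k κ₂ (π a)) :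
    Module.Finite k κ₁ ∧ Module.Finite k κ₂ ∧
      Module.finrank k κ₁ + Module.finrank k κ₂ ≤ Module.finrank K F := by
  classical
  have hfin₁ : Module.Finite k κ₁ := by
    rw [← Module.rank_lt_aleph0_iff]
    refine lt_of_le_of_lt (rank_le (n := Module.finrank K F) fun s hs => ?_)
      Cardinal.natCast_lt_aleph0
    have := card_add_card_le_finrank h₁ h₂ hne₁ hne₂ π ρ₁ ρ₂ hπ hρ₁ hρ₂ hc₁ hc₂
      (ι₁ := s) (ι₂ := Empty) (fun i => (i : κ₁)) (fun j => j.elim) hs
      (linearIndependent_empty_type)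
    simpa using this
  have hfin₂ : Module.Finite k κ₂ := by
    rw [← Module.rank_lt_aleph0_iff]
    refine lt_of_le_of_lt (rank_le (n := Module.finrank K F) fun s hs => ?_)
      Cardinal.natCast_lt_aleph0
    have := card_add_card_le_finrank h₁ h₂ hne₁ hne₂ π ρ₁ ρ₂ hπ hρ₁ hρ₂ hc₁ hc₂
      (ι₁ := Empty) (ι₂ := s) (fun i => i.elim) (fun j => (j : κ₂))
      (linearIndependent_empty_type) hs
    simpa using this
  refine ⟨hfin₁, hfin₂, ?_⟩
  have := card_add_card_le_finrank h₁ h₂ hne₁ hne₂ π ρ₁ ρ₂ hπ hρ₁ hρ₂ hc₁ hc₂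
    (Module.finBasis k κ₁) (Module.finBasis k κ₂) (Module.finBasis k κ₁).linearIndependent
    (Module.finBasis k κ₂).linearIndependent
  simpa using this

end FundIneq

end Fermat.Agent.S35.G.H60

end
-- ===== PACK-END S35/G/H60/FundIneq.lean

-- ===== PACK-BEGIN S35/G/H60/NormRedAbs.lean
section


/-!
# Norm reduction for a degeneracy map at a prime of bad reduction — abstract form (helper60)

Mathlib + `S35.H253`.  `F / K` of degree `q + 1`, `q` prime; `O ⊆ K` a valuation ring of residue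
characteristic `q`; `V₁`, `V₂` incomparable valuation rings of `F` over `O`; an element `z ∈ V₂`
with `z ^ q ≡ c` (`c ∈ O`) where `c` is NOT a `q`-th power modulo the maximal ideal of `O`.
Then the residue degrees are `1` and `q` (the second purely inseparable on the elements we
need), and for `y ∈ V₁ ∩ V₂` with `y ≡ U` at `V₁`, `y ^ q ≡ T` at `V₂` (`U, T ∈ O`):

  `N_{F/K} y ∈ O`  and  `N_{F/K} y ≡ U * T` modulo the maximal ideal of `O`.
-/

set_option autoImplicit false
set_option linter.style.haveILetI false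

namespace Fermat.Agent.S35.G.H60

open Fermat.Agent.S35.H253 Polynomial

section NormRedAbs

variable {K F : Type*} [Field K] [Field F] [Algebra K F]

/-- The local homomorphism `O → V` of a valuation ring `V` of `F` over `O`. -/
def overHom {O : ValuationSubring K} {V : ValuationSubring F} (h : Over O V) : O →+* V where
  toFun a := ⟨algebraMap K F a, (h a).2 a.2⟩
  map_one' := Subtype.ext (map_one _)
  map_mul' _ _ := Subtype.ext (map_mul _ _ _)
  map_zero' := Subtype.ext (map_zero _)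
  map_add' _ _ := Subtype.ext (map_add _ _ _)

theorem isLocalHom_overHom {O : ValuationSubring K} {V : ValuationSubring F} (h : Over O V) :
    IsLocalHom (overHom h) := by
  refine ⟨fun a ha => ?_⟩
  rw [ValuationSubring.valuation_eq_one_iff] at ha ⊢
  have h1 : V.valuation (algebraMap K F (a : K)) = 1 := ha
  have h2 : O.valuation (a : K) ≤ 1 := O.valuation_le_one a
  refine le_antisymm h2 (not_lt.1 fun hlt => ?_)
  have := (h.val_lt_one_iff (a : K)).2 hlt
  rw [h1] at this
  exact lt_irrefl _ this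

theorem residue_eq_iff_val {V : ValuationSubring F} (a b : V) :
    IsLocalRing.residue V a = IsLocalRing.residue V b ↔ V.valuation ((a : F) - (b : F)) < 1 := by
  rw [← sub_eq_zero, ← map_sub, IsLocalRing.residue_eq_zero_iff,
    ValuationSubring.valuation_lt_one_iff]
  rfl

/-- **Norm reduction, abstract form.** -/
theorem norm_red_abs (q : ℕ) (hq : q.Prime) (hdeg : Module.finrank K F = q + 1)
    {O : ValuationSubring K} {V₁ V₂ : ValuationSubring F}
    (h₁ : Over O V₁) (h₂ : Over O V₂) (hne₁ : ¬ V₁ ≤ V₂) (hne₂ : ¬ V₂ ≤ V₁)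
    (hqO : O.valuation (q : K) < 1)
    {z : F} (hz : z ∈ V₂) {c : K} (hc : c ∈ O)
    (hzc : V₂.valuation (z ^ q - algebraMap K F c) < 1)
    (hnp : ∀ a ∈ O, ¬ O.valuation (a ^ q - c) < 1)
    {y : F} (hy₁ : y ∈ V₁) (hy₂ : y ∈ V₂) {U T : K} (hU : U ∈ O) (hT : T ∈ O)
    (hyU : V₁.valuation (y - algebraMap K F U) < 1)
    (hyT : V₂.valuation (y ^ q - algebraMap K F T) < 1) :
    Algebra.norm K y ∈ O ∧ O.valuation (Algebra.norm K y - U * T) < 1 := by
  classical
  haveI : Fact q.Prime := ⟨hq⟩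
  haveI : FiniteDimensional K F := Module.finite_of_finrank_pos (by rw [hdeg]; omega)
  -- residue fields
  haveI := isLocalHom_overHom h₁
  haveI := isLocalHom_overHom h₂
  letI : Algebra (IsLocalRing.ResidueField O) (IsLocalRing.ResidueField V₁) :=
    (IsLocalRing.ResidueField.map (overHom h₁)).toAlgebra
  letI : Algebra (IsLocalRing.ResidueField O) (IsLocalRing.ResidueField V₂) :=
    (IsLocalRing.ResidueField.map (overHom h₂)).toAlgebra
  set π : O →+* IsLocalRing.ResidueField O := IsLocalRing.residue O with hπdef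
  set ρ₁ : V₁ →+* IsLocalRing.ResidueField V₁ := IsLocalRing.residue V₁ with hρ₁def
  set ρ₂ : V₂ →+* IsLocalRing.ResidueField V₂ := IsLocalRing.residue V₂ with hρ₂def
  have hπ : Function.Surjective π := IsLocalRing.residue_surjective
  have hρ₁ : Function.Surjective ρ₁ := IsLocalRing.residue_surjective
  have hρ₂ : Function.Surjective ρ₂ := IsLocalRing.residue_surjective
  have hc₁ : ∀ a : O, ρ₁ ⟨algebraMap K F a, (h₁ a).2 a.2⟩ =
      algebraMap (IsLocalRing.ResidueField O) (IsLocalRing.ResidueField V₁) (π a) := fun a => rfl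
  have hc₂ : ∀ a : O, ρ₂ ⟨algebraMap K F a, (h₂ a).2 a.2⟩ =
      algebraMap (IsLocalRing.ResidueField O) (IsLocalRing.ResidueField V₂) (π a) := fun a => rfl
  -- characteristic
  have hq0 : (q : IsLocalRing.ResidueField O) = 0 := by
    have h : π ((q : ℕ) : O) = 0 := by
      rw [hπdef, IsLocalRing.residue_eq_zero_iff, ValuationSubring.valuation_lt_one_iff]
      simpa using hqO
    simpa using h
  haveI : CharP (IsLocalRing.ResidueField O) q := by
    obtain ⟨p, hp⟩ := CharP.exists (IsLocalRing.ResidueField O)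
    have hdvd : p ∣ q := (CharP.cast_eq_zero_iff (IsLocalRing.ResidueField O) p q).1 hq0
    rcases (Nat.dvd_prime hq).1 hdvd with h | h
    · exact absurd h (CharP.char_ne_one (IsLocalRing.ResidueField O) p)
    · rwa [h] at hp
  -- fundamental inequality
  obtain ⟨hf₁, hf₂, hle⟩ :=
    finite_and_finrank_add_le h₁ h₂ hne₁ hne₂ π ρ₁ ρ₂ hπ hρ₁ hρ₂ hc₁ hc₂
  have hpos₁ : 0 < Module.finrank (IsLocalRing.ResidueField O) (IsLocalRing.ResidueField V₁) :=
    Module.finrank_pos
  -- the residue degree at `V₂` is at least `q`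
  have hirr : Irreducible (X ^ q - C (π ⟨c, hc⟩) : (IsLocalRing.ResidueField O)[X]) := by
    refine X_pow_sub_C_irreducible_of_prime hq fun b hb => ?_
    obtain ⟨a, rfl⟩ := hπ b
    rw [← map_pow, hπdef, residue_eq_iff_val] at hb
    exact hnp a a.2 hb
  have hroot : Polynomial.aeval (ρ₂ ⟨z, hz⟩)
      (X ^ q - C (π ⟨c, hc⟩) : (IsLocalRing.ResidueField O)[X]) = 0 := by
    rw [map_sub, map_pow, aeval_X, aeval_C, ← hc₂ ⟨c, hc⟩, ← map_pow, sub_eq_zero, hρ₂def,
      residue_eq_iff_val]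
    exact hzc
  have hmonic : (X ^ q - C (π ⟨c, hc⟩) : (IsLocalRing.ResidueField O)[X]).Monic :=
    monic_X_pow_sub_C _ hq.ne_zero
  have hmin : minpoly (IsLocalRing.ResidueField O) (ρ₂ ⟨z, hz⟩) =
      X ^ q - C (π ⟨c, hc⟩) := (minpoly.eq_of_irreducible_of_monic hirr hroot hmonic).symm
  have hge₂ : q ≤ Module.finrank (IsLocalRing.ResidueField O) (IsLocalRing.ResidueField V₂) := by
    have h := minpoly.natDegree_le (A := IsLocalRing.ResidueField O) (ρ₂ ⟨z, hz⟩)
    rwa [hmin, natDegree_X_pow_sub_C] at h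
  rw [hdeg] at hle
  have hdeg₁ : Module.finrank (IsLocalRing.ResidueField O) (IsLocalRing.ResidueField V₁) = 1 := by
    omega
  have hdeg₂ : Module.finrank (IsLocalRing.ResidueField O) (IsLocalRing.ResidueField V₂) = q := by
    omega
  -- the norm formula
  have ha : algebraMap (IsLocalRing.ResidueField O) (IsLocalRing.ResidueField V₂) (π ⟨T, hT⟩) =
      ρ₂ ⟨y, hy₂⟩ ^ q := by
    rw [← hc₂ ⟨T, hT⟩, ← map_pow, eq_comm, hρ₂def, residue_eq_iff_val]
    exact hyT
  obtain ⟨hN, hred⟩ := norm_red_insep h₁ h₂ hne₁ hne₂ q π ρ₁ ρ₂ hπ hρ₁ hρ₂ hc₁ hc₂ hdeg₁ hdeg₂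
    hdeg hy₁ hy₂ ha
  refine ⟨hN, ?_⟩
  have hyU' : ρ₁ ⟨y, hy₁⟩ =
      algebraMap (IsLocalRing.ResidueField O) (IsLocalRing.ResidueField V₁) (π ⟨U, hU⟩) := by
    rw [← hc₁ ⟨U, hU⟩, hρ₁def, residue_eq_iff_val]
    exact hyU
  rw [hyU', ← map_mul, ← map_mul] at hred
  have hinj := (algebraMap (IsLocalRing.ResidueField O) (IsLocalRing.ResidueField V₁)).injective
  have h3 := hinj hred
  rw [hπdef, residue_eq_iff_val] at h3
  exact h3

end NormRedAbs

end Fermat.Agent.S35.G.H60

end
-- ===== PACK-END S35/G/H60/NormRedAbs.lean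

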