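import Mathlib
import Fermat.Prelude.Def_AlgebraicCurve_DivisorClassGroup
import Fermat.Prelude.Def_ModularCurve_LaurentCoeff
import Fermat.Prelude.Def_AlgebraicCurve_DivisorPushPull
import Fermat.Prelude.Thm_CongruenceSubgroup_one_mem_strictPeriods_Gamma0
import Fermat.Prelude.Thm_ModularForm_sturm_bound_Gamma0
import Fermat.Prelude.Def_AlgebraicCurve_Correspondence
import Fermat.Prelude.Def_AlgebraicCurve_Repartitions
import Fermat.Prelude.Def_CuspForm_HeckeGaloisRepDatum
import Fermat.Prelude.Def_ModularCurve_ReductionModL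
import Fermat.Prelude.Def_ModularForm_HeckeOperator
import Fermat.Prelude.Def_AlgebraicCurve_BaseChangeGalois
import Fermat.Prelude.Def_ModularCurve_ArithmeticGalois
import Fermat.Agent.Pack.S35.G0E0L0
import Fermat.Agent.Pack.S35.G0E0L3
import Fermat.Agent.Pack.S35.G0E0L2
import Fermat.Agent.Pack.S35.G0E0L1

-- ===== PACK-BEGIN S30/H990/Lattice.lean
section
/-
S30 top glue (helper990): pure algebra, part 4.
Restriction of a representation to a stable saturated lattice; congruences pass to saturated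
lattices; rank one lattices give characters.
-/


set_option autoImplicit false

namespace Fermat.Agent.S30.H990

open Module Polynomial

section Restrict

variable {𝒪 M G : Type*} [CommRing 𝒪] [AddCommGroup M] [Module 𝒪 M] [Group G]

/-- Restriction of a representation to a stable submodule. -/
def restrictRep (ρ : G →* Module.End 𝒪 M) (Λ : Submodule 𝒪 M)
    (h : ∀ g, ∀ x ∈ Λ, ρ g x ∈ Λ) : G →* Module.End 𝒪 Λ where
  toFun g := (ρ g).restrict (h g)
  map_one' := by
    ext x
    simp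
  map_mul' g g' := by
    ext x
    simp

@[simp] theorem restrictRep_apply (ρ : G →* Module.End 𝒪 M) (Λ : Submodule 𝒪 M)
    (h : ∀ g, ∀ x ∈ Λ, ρ g x ∈ Λ) (g : G) (x : Λ) :
    ((restrictRep ρ Λ h g x : Λ) : M) = ρ g (x : M) := rfl

theorem rel_restrictRep (ρ : G →* Module.End 𝒪 M) (d : G →* 𝒪ˣ) (Λ : Submodule 𝒪 M)
    (h : ∀ g, ∀ x ∈ Λ, ρ g x ∈ Λ) {g : G} {a : 𝒪} (hr : Rel ρ d g a) :
    Rel (restrictRep ρ Λ h) d g a := by
  unfold Rel
  ext x
  have := rel_apply ρ d hr (x : M)
  simpa using this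

end Restrict

section SatCong

variable {𝒪 M : Type*} [CommRing 𝒪] [IsDomain 𝒪] [IsPrincipalIdealRing 𝒪]
  [AddCommGroup M] [Module 𝒪 M]

/-- Congruences modulo an ideal pass to saturated submodules. -/
theorem mem_smul_top_sat (N : Submodule 𝒪 M) (I : Ideal 𝒪) (x : sat N)
    (hx : (x : M) ∈ I • (⊤ : Submodule 𝒪 M)) :
    x ∈ I • (⊤ : Submodule 𝒪 (sat N)) := by
  obtain ⟨ϖ, hϖ⟩ := IsPrincipalIdealRing.principal I
  have hI : I = Ideal.span {ϖ} := hϖ
  rw [hI, Submodule.ideal_span_singleton_smul, Submodule.mem_smul_pointwise_iff_exists] at hx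
  obtain ⟨m, -, hm⟩ := hx
  by_cases h0 : ϖ = 0
  · have : x = 0 := by
      apply Subtype.ext
      rw [← hm, h0, zero_smul]; rfl
    rw [this]; exact Submodule.zero_mem _
  · have hmem : m ∈ sat N := by
      apply mem_sat_of_smul_mem h0
      rw [hm]; exact x.2
    have : x = ϖ • (⟨m, hmem⟩ : sat N) := Subtype.ext hm.symm
    rw [this]
    exact Submodule.smul_mem_smul (hI ▸ Ideal.subset_span (Set.mem_singleton ϖ))
      Submodule.mem_top

end SatCong

section RankOne

variable {𝒪 V : Type*} [CommRing 𝒪] [IsDomain 𝒪] [AddCommGroup V] [Module 𝒪 V]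
  [Module.Free 𝒪 V] [Module.Finite 𝒪 V]

/-- On a free module of rank one every endomorphism is multiplication by its determinant. -/
theorem apply_eq_det_smul (h1 : Module.finrank 𝒪 V = 1) (f : Module.End 𝒪 V) (x : V) :
    f x = LinearMap.det f • x := by
  classical
  let b : Basis (Fin 1) 𝒪 V := Module.finBasisOfFinrankEq 𝒪 V h1
  have hdet : LinearMap.det f = b.repr (f (b 0)) 0 := by
    rw [← LinearMap.det_toMatrix b f, Matrix.det_fin_one, LinearMap.toMatrix_apply]
  have hb : f (b 0) = LinearMap.det f • b 0 := by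
    conv_lhs => rw [← b.sum_repr (f (b 0))]
    rw [Fin.sum_univ_one, hdet]
  have hx : x = b.repr x 0 • b 0 := by
    conv_lhs => rw [← b.sum_repr x]
    rw [Fin.sum_univ_one]
  rw [hx, map_smul, hb, smul_comm]

/-- In a free module of rank one, `r • e ∈ I • ⊤` for a basis vector `e` forces `r ∈ I`. -/
theorem mem_of_smul_basis_mem (h1 : Module.finrank 𝒪 V = 1) (I : Ideal 𝒪) (r : 𝒪)
    (h : ∀ x : V, r • x ∈ I • (⊤ : Submodule 𝒪 V)) : r ∈ I := by
  classical
  let b : Basis (Fin 1) 𝒪 V := Module.finBasisOfFinrankEq 𝒪 V h1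
  have key : ∀ y ∈ I • (⊤ : Submodule 𝒪 V), b.repr y 0 ∈ I := by
    intro y hy
    refine Submodule.smul_induction_on hy ?_ ?_
    · intro i hi n _
      rw [map_smul, Finsupp.smul_apply, smul_eq_mul]
      exact I.mul_mem_right _ hi
    · intro y z hy hz
      rw [map_add, Finsupp.add_apply]
      exact I.add_mem hy hz
  have := key _ (h (b 0))
  rwa [map_smul, Finsupp.smul_apply, Basis.repr_self, Finsupp.single_eq_same, smul_eq_mul,
    mul_one] at this

end RankOne

end Fermat.Agent.S30.H990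

end
-- ===== PACK-END S30/H990/Lattice.lean

-- ===== PACK-BEGIN S30/H990/TwoDim.lean
section
/-
S30 top glue (helper990): pure algebra, part 5: the two-dimensional representation.
-/


set_option autoImplicit false

namespace Fermat.Agent.S30.H990

open Module Polynomial

/-- Output of the extraction: a rank two representation with prescribed characteristic
polynomials, as congruent to `1` as the input data. -/
structure TwoDimOut {𝒪 M G : Type} [CommRing 𝒪] [AddCommGroup M] [Module 𝒪 M] [Group G]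
    (ρ : G →* Module.End 𝒪 M) (d : G →* 𝒪ˣ) : Type 1 where
  V : Type
  [instAddCommGroup : AddCommGroup V]
  [instModule : Module 𝒪 V]
  [instFree : Module.Free 𝒪 V]
  [instFinite : Module.Finite 𝒪 V]
  finrank_eq : Module.finrank 𝒪 V = 2
  ρ₂ : G →* Module.End 𝒪 V
  charpoly_eq : ∀ (g : G) (a : 𝒪), Rel ρ d g a →
    LinearMap.charpoly (ρ₂ g) = X ^ 2 - C a * X + C ((d g : 𝒪ˣ) : 𝒪)
  cong : ∀ (I : Ideal 𝒪) (g : G), (∀ v : M, ρ g v - v ∈ I • (⊤ : Submodule 𝒪 M)) →
    ((d g : 𝒪ˣ) : 𝒪) - 1 ∈ I → ∀ v : V, ρ₂ g v - v ∈ I • (⊤ : Submodule 𝒪 V)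

attribute [instance] TwoDimOut.instAddCommGroup TwoDimOut.instModule TwoDimOut.instFree
  TwoDimOut.instFinite

section Constructions

variable {𝒪 M G : Type} [CommRing 𝒪] [IsDomain 𝒪] [IsPrincipalIdealRing 𝒪]
  [AddCommGroup M] [Module 𝒪 M] [Module.Free 𝒪 M] [Module.Finite 𝒪 M] [Group G]
  (ρ : G →* Module.End 𝒪 M) (d : G →* 𝒪ˣ)

/-- Stability of the saturation of a span, checked on generators. -/
theorem sat_span_stable (s : Set M)
    (h : ∀ g, ∀ x ∈ s, ∃ r : 𝒪, r ≠ 0 ∧ r • ρ g x ∈ Submodule.span 𝒪 s) :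
    ∀ g, ∀ x ∈ sat (Submodule.span 𝒪 s), ρ g x ∈ sat (Submodule.span 𝒪 s) := by
  intro g x hx
  refine map_mem_sat (ρ g) (fun y hy => ?_) hx
  refine map_span_le_sat (ρ g) (fun z hz => ?_) hy
  obtain ⟨r, hr, hrz⟩ := h g z hz
  exact ⟨r, hr, hrz⟩

/-- The rank two case. -/
theorem twoDim_of_rank_two (hrel : ∀ g, ∃ a, Rel ρ d g a) (h2 : (2 : 𝒪) ≠ 0)
    (c : G) (hdc : d c = -1)
    (u w : M) (ε : 𝒪) (hε : ε * ε = 1) (hu0 : u ≠ 0) (hw0 : w ≠ 0)
    (hu : ρ c u = ε • u) (hw : ρ c w = -ε • w)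
    (hsu : ∀ g, ∃ r : 𝒪, r ≠ 0 ∧ r • ρ g u ∈ Submodule.span 𝒪 {u, w})
    (hsw : ∀ g, ∃ r : 𝒪, r ≠ 0 ∧ r • ρ g w ∈ Submodule.span 𝒪 {u, w}) :
    Nonempty (TwoDimOut ρ d) := by
  classical
  have hε0 : ε ≠ 0 := by rintro rfl; simp at hε
  -- linear independence
  have hli : LinearIndependent 𝒪 ![u, w] := by
    rw [LinearIndependent.pair_iff]
    intro s t hst
    have h1 := congrArg (ρ c) hst
    rw [map_add, map_smul, map_smul, hu, hw, map_zero] at h1
    have h3 : (2 * ε * s) • u = 0 := by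
      have : (2 * ε * s) • u = ε • (s • u + t • w) + (s • ε • u + t • (-ε • w)) := by
        module
      rw [this, hst, h1, smul_zero, add_zero]
    have hs : s = 0 := by
      rcases smul_eq_zero.mp h3 with h | h
      · rcases mul_eq_zero.mp h with h | h
        · exact absurd h (mul_ne_zero h2 hε0)
        · exact h
      · exact absurd h hu0
    refine ⟨hs, ?_⟩
    rw [hs, zero_smul, zero_add] at hst
    exact (smul_eq_zero.mp hst).resolve_right hw0
  have hrange : Set.range ![u, w] = ({u, w} : Set M) := by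
    ext x
    simp only [Set.mem_range, Set.mem_insert_iff, Set.mem_singleton_iff]
    constructor
    · rintro ⟨i, rfl⟩
      fin_cases i <;> simp
    · rintro (rfl | rfl)
      · exact ⟨0, rfl⟩
      · exact ⟨1, rfl⟩
  set Λ : Submodule 𝒪 M := sat (Submodule.span 𝒪 ({u, w} : Set M)) with hΛ
  have hfr : Module.finrank 𝒪 Λ = 2 := by
    have := finrank_sat_span ![u, w] hli
    rwa [hrange] at this
  have hstab : ∀ g, ∀ x ∈ Λ, ρ g x ∈ Λ := by
    apply sat_span_stable
    intro g x hx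
    rcases hx with rfl | hx
    · exact hsu g
    · rw [Set.mem_singleton_iff] at hx
      subst hx
      exact hsw g
  have huΛ : u ∈ Λ := le_sat _ (Submodule.subset_span (by simp))
  have hwΛ : w ∈ Λ := le_sat _ (Submodule.subset_span (by simp))
  set ρΛ := restrictRep ρ Λ hstab with hρΛ
  let b : Basis (Fin 2) 𝒪 Λ := Module.finBasisOfFinrankEq 𝒪 Λ hfr
  let A : G →* Matrix (Fin 2) (Fin 2) 𝒪 :=
    ((LinearMap.toMatrixAlgEquiv b : Module.End 𝒪 Λ ≃ₐ[𝒪] Matrix (Fin 2) (Fin 2) 𝒪) :
      Module.End 𝒪 Λ →* Matrix (Fin 2) (Fin 2) 𝒪).comp ρΛ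
  have hA : ∀ g, A g = LinearMap.toMatrixAlgEquiv b (ρΛ g) := fun g => rfl
  have hArel : ∀ g a, Rel ρ d g a →
      A g * A g - a • A g + ((d g : 𝒪ˣ) : 𝒪) • (1 : Matrix (Fin 2) (Fin 2) 𝒪) = 0 := by
    intro g a hr
    have := rel_restrictRep ρ d Λ hstab hr
    unfold Rel at this
    have h' := congrArg (LinearMap.toMatrixAlgEquiv b) this
    simpa only [map_add, map_sub, map_mul, map_smul, map_one, map_zero, hA] using h'
  have hcns : ¬ ∃ l : 𝒪, A c = l • (1 : Matrix (Fin 2) (Fin 2) 𝒪) := by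
    rintro ⟨l, hl⟩
    have h1 : ρΛ c = l • (1 : Module.End 𝒪 Λ) := by
      apply (LinearMap.toMatrixAlgEquiv b).injective
      rw [← hA, hl, map_smul, map_one]
    have e1 : ρ c u = l • u := by
      have := congrArg (fun f : Module.End 𝒪 Λ => ((f ⟨u, huΛ⟩ : Λ) : M)) h1
      exact this
    have e2 : ρ c w = l • w := by
      have := congrArg (fun f : Module.End 𝒪 Λ => ((f ⟨w, hwΛ⟩ : Λ) : M)) h1
      exact this
    have f1 : l = ε := by
      have : (l - ε) • u = 0 := by rw [sub_smul, ← e1, ← hu, sub_self]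
      exact sub_eq_zero.mp ((smul_eq_zero.mp this).resolve_right hu0)
    have f2 : l = -ε := by
      have : (l - -ε) • w = 0 := by rw [sub_smul, ← e2, ← hw, sub_self]
      exact sub_eq_zero.mp ((smul_eq_zero.mp this).resolve_right hw0)
    have : 2 * ε = 0 := by
      have := f1.symm.trans f2
      linear_combination this
    exact mul_ne_zero h2 hε0 this
  refine ⟨{ V := Λ
            finrank_eq := hfr
            ρ₂ := ρΛ
            charpoly_eq := ?_
            cong := ?_ }⟩
  · intro g a hr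
    obtain ⟨ht, hd⟩ := mat2_trace_det_of_rel A d (fun g => by
      obtain ⟨a, ha⟩ := hrel g
      exact ⟨a, hArel g a ha⟩) c hdc hcns g a (hArel g a hr)
    rw [← LinearMap.charpoly_toMatrix (ρΛ g) b]
    have : LinearMap.toMatrix b b (ρΛ g) = A g := rfl
    rw [this, Matrix.charpoly_fin_two, ht, hd]
  · intro I g hg _ v
    have hmem : ((ρΛ g v - v : Λ) : M) ∈ I • (⊤ : Submodule 𝒪 M) := hg (v : M)
    exact mem_smul_top_sat _ I _ hmem

end Constructions

end Fermat.Agent.S30.H990

end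
-- ===== PACK-END S30/H990/TwoDim.lean

-- ===== PACK-BEGIN Lib/Cheb/H993/Glue.lean
section



/-!
# Piece `M` of CHEB: the finite-level Frobenius density theorem from `Z`, `B0`, `A`, `D`

`frobFinite : PrimeSumStatement → PrimeCountBoundStatement → CountStatement → FrobStatement →
  FrobFiniteStatement`.
-/

set_option autoImplicit false

namespace Fermat.Agent.Lib.Cheb.H993

open NumberField
open scoped Pointwise Classical
open Fermat.Agent.Lib.Cheb

noncomputable section

variable (L : Type) [Field L] [NumberField L]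

/-- The primes of `𝓞 L` above `p` whose decomposition group is exactly `X`. -/
def primesEq (X : Subgroup (L ≃ₐ[ℚ] L)) (p : ℕ) : Set (Ideal (𝓞 L)) :=
  {P | P.IsPrime ∧ (p : 𝓞 L) ∈ P ∧ Spec.decomp L P = X}

/-- `|D_P|`. -/
def dcard (P : Ideal (𝓞 L)) : ℕ := Nat.card (Spec.decomp L P)

theorem finite_above {p : ℕ} (hp : p ≠ 0) : {P : Ideal (𝓞 L) | (p : 𝓞 L) ∈ P}.Finite := by
  refine (Ideal.finite_setOfPred_absNorm_le (S := 𝓞 L) (p ^ Module.finrank ℤ (𝓞 L))).subset ?_
  intro P hP
  have hle : Ideal.span {(p : 𝓞 L)} ≤ P := (Ideal.span_singleton_le_iff_mem P).mpr hP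
  have hdvd := Ideal.absNorm_dvd_absNorm_of_le hle
  rw [Ideal.absNorm_span_natCast] at hdvd
  exact Nat.le_of_dvd (pow_pos (Nat.pos_of_ne_zero hp) _) hdvd

theorem finite_primesEq (X : Subgroup (L ≃ₐ[ℚ] L)) {p : ℕ} (hp : p ≠ 0) :
    (primesEq L X p).Finite :=
  (finite_above L hp).subset fun _ h => h.2.1

theorem finite_primesLe (H : Subgroup (L ≃ₐ[ℚ] L)) {p : ℕ} (hp : p ≠ 0) :
    (Spec.primesLe L H p).Finite :=
  (finite_above L hp).subset fun _ h => h.2.1

/-- The weight of the subgroup `X` at `p`. -/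
def wt (X : Subgroup (L ≃ₐ[ℚ] L)) (p : ℕ) : ℕ := ∑ᶠ P ∈ primesEq L X p, dcard L P

theorem decompWeight_eq (H : Subgroup (L ≃ₐ[ℚ] L)) (p : ℕ) :
    Spec.decompWeight L H p = ∑ᶠ P ∈ Spec.primesLe L H p, dcard L P := by
  unfold Spec.decompWeight dcard
  exact finsum_set_coe_eq_finsum_mem (s := Spec.primesLe L H p)
    (f := fun P => Nat.card (Spec.decomp L P))

variable [IsGalois ℚ L]

theorem primesLe_eq_iUnion (H : Subgroup (L ≃ₐ[ℚ] L)) (p : ℕ) :
    Spec.primesLe L H p = ⋃ X ∈ (below H : Set (Subgroup (L ≃ₐ[ℚ] L))), primesEq L X p := by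
  ext P
  simp only [Spec.primesLe, primesEq, Set.mem_iUnion, Finset.mem_coe, mem_below,
    Set.mem_ofPred_eq, exists_prop]
  constructor
  · rintro ⟨h1, h2, h3⟩
    exact ⟨_, h3, h1, h2, rfl⟩
  · rintro ⟨X, hX, h1, h2, h3⟩
    exact ⟨h1, h2, h3 ▸ hX⟩

theorem decompWeight_eq_sum (H : Subgroup (L ≃ₐ[ℚ] L)) {p : ℕ} (hp : p ≠ 0) :
    Spec.decompWeight L H p = ∑ X ∈ below H, wt L X p := by
  rw [decompWeight_eq, primesLe_eq_iUnion, finsum_mem_biUnion]
  · exact finsum_mem_coe_finset (fun X => ∑ᶠ P ∈ primesEq L X p, dcard L P) (below H)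
  · intro X _ Y _ hXY
    rw [Function.onFun, Set.disjoint_left]
    intro P hPX hPY
    exact hXY (hPX.2.2.symm.trans hPY.2.2)
  · exact (below H).finite_toSet
  · intro X _
    exact finite_primesEq L X hp

theorem exists_of_wt_pos {X : Subgroup (L ≃ₐ[ℚ] L)} {p : ℕ} (h : 0 < wt L X p) :
    ∃ P : Ideal (𝓞 L), P.IsPrime ∧ (p : 𝓞 L) ∈ P ∧ Spec.decomp L P = X := by
  by_contra hcon
  have hempty : primesEq L X p = ∅ := by
    ext P
    simp only [primesEq, Set.mem_ofPred_eq, Set.mem_empty_iff_false, iff_false]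
    exact fun hP => hcon ⟨P, hP⟩
  unfold wt at h
  rw [hempty] at h
  simp at h

theorem wt_le_decompWeight_top (X : Subgroup (L ≃ₐ[ℚ] L)) {p : ℕ} (hp : p ≠ 0) :
    wt L X p ≤ Spec.decompWeight L ⊤ p := by
  rw [decompWeight_eq_sum L ⊤ hp]
  exact Finset.single_le_sum (f := fun X => wt L X p) (fun _ _ => Nat.zero_le _)
    (mem_below.mpr le_top)

/-- **Piece M.** -/
theorem frobFinite (hZ : Spec.PrimeSumStatement) (hB0 : Spec.PrimeCountBoundStatement)
    (hA : Spec.CountStatement) (hD : Spec.FrobStatement) : Spec.FrobFiniteStatement := by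
  intro L _ _ _ σ S
  haveI : Fintype (Subgroup (L ≃ₐ[ℚ] L)) := Fintype.ofFinite _
  -- bad primes
  choose BA hBA using fun H : Subgroup (L ≃ₐ[ℚ] L) => hA L H
  obtain ⟨BD, hBD⟩ := hD L
  let Bad : Finset ℕ := Finset.univ.biUnion BA
  have hBad : ∀ (H : Subgroup (L ≃ₐ[ℚ] L)) (p : ℕ), p ∉ Bad → p ∉ BA H := by
    intro H p hp hpH
    exact hp (Finset.mem_biUnion.mpr ⟨H, Finset.mem_univ _, hpH⟩)
  -- weights
  let v : Subgroup (L ≃ₐ[ℚ] L) → ℕ → ℝ := fun X p =>
    if p.Prime ∧ p ∉ Bad then (wt L X p : ℝ) else 0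
  let K : ℝ := (Module.finrank ℚ (IntermediateField.fixedField (⊤ : Subgroup (L ≃ₐ[ℚ] L))) : ℝ) *
    (Nat.card (⊤ : Subgroup (L ≃ₐ[ℚ] L)) : ℝ)
  have hv0 : ∀ X p, 0 ≤ v X p := by
    intro X p
    simp only [v]
    split_ifs
    · exact Nat.cast_nonneg _
    · exact le_rfl
  have hK0 : 0 ≤ K := by positivity
  have hvK : ∀ X p, v X p ≤ K := by
    intro X p
    simp only [v]
    split_ifs with h
    · have h1 := wt_le_decompWeight_top L X h.1.ne_zero
      have h2 := hBA ⊤ p h.1 (hBad ⊤ p h.2)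
      have h3 := hB0 (IntermediateField.fixedField (⊤ : Subgroup (L ≃ₐ[ℚ] L))) p
      have h4 : wt L X p ≤ Module.finrank ℚ (IntermediateField.fixedField
          (⊤ : Subgroup (L ≃ₐ[ℚ] L))) * Nat.card (⊤ : Subgroup (L ≃ₐ[ℚ] L)) := by
        rw [← h2] at h1
        exact h1.trans (Nat.mul_le_mul_right _ h3)
      simp only [K]
      exact_mod_cast h4
    · exact hK0
  -- the hypothesis of the induction
  have hW : ∀ H : Subgroup (L ≃ₐ[ℚ] L),
      LogAsymp (pSum (fun p => ∑ X ∈ below H, v X p)) (Nat.card H) := by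
    intro H
    set F := IntermediateField.fixedField H with hF
    obtain ⟨C, hC⟩ := hZ F
    -- full prime sum of `primeCount F`
    have h1 : LogAsymp (pSum (fun p => (Spec.primeCount F p : ℝ))) 1 := by
      refine ⟨C, fun s hs1 hs2 => ?_⟩
      rw [one_mul]
      exact hC s hs1 hs2
    -- the part supported on the bad primes
    let b : ℕ → ℝ := fun p => if p ∈ Bad then (Spec.primeCount F p : ℝ) else 0
    have hb0 : ∀ p, 0 ≤ b p := fun p => by
      simp only [b]; split_ifs
      · exact Nat.cast_nonneg _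
      · exact le_rfl
    have hbK : ∀ p, b p ≤ (Module.finrank ℚ F : ℝ) := fun p => by
      simp only [b]; split_ifs
      · exact_mod_cast hB0 F p
      · exact Nat.cast_nonneg _
    have h2 : LogAsymp (pSum b) 0 :=
      LogAsymp.zero_of_bounded (K := (Module.finrank ℚ F : ℝ) * Bad.card) fun s hs1 _ =>
        abs_pSum_le_of_support Bad hb0 hbK (fun p hp => by simp [b, hp]) hs1
    have h3 := (h1.sub h2).const_mul (Nat.card H : ℝ)
    rw [sub_zero, mul_one] at h3
    refine h3.congr fun s hs1 _ => ?_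
    -- pointwise identity of the coefficients at primes
    have hc0 : ∀ p, 0 ≤ (Spec.primeCount F p : ℝ) := fun p => Nat.cast_nonneg _
    have hcK : ∀ p, (Spec.primeCount F p : ℝ) ≤ (Module.finrank ℚ F : ℝ) := fun p => by
      exact_mod_cast hB0 F p
    have hs1' := summable_pSum hc0 hcK hs1
    have hs2' := summable_pSum hb0 hbK hs1
    unfold pSum
    rw [← Summable.tsum_sub hs1' hs2', ← tsum_mul_left]
    congr 1
    funext p
    by_cases hp : (p : ℕ) ∈ Bad
    · have hv : ∀ X, v X p = 0 := fun X => by simp [v, hp]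
      simp [hv, b, hp]
    · have hv : ∀ X, v X p = (wt L X p : ℝ) := fun X => by simp [v, hp, p.2]
      have h5 := decompWeight_eq_sum L H p.2.ne_zero
      have h6 := hBA H p p.2 (hBad H p hp)
      simp only [hv, b, hp, if_false, sub_zero]
      rw [← Nat.cast_sum, ← h5, ← h6]
      push_cast
      ring
  -- apply the induction to `X = zpowers σ`
  have hgens : 0 < gens (Subgroup.zpowers σ) := by
    unfold gens
    haveI : Nonempty {x : L ≃ₐ[ℚ] L // Subgroup.zpowers x = Subgroup.zpowers σ} := ⟨⟨σ, rfl⟩⟩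
    exact Nat.card_pos
  obtain ⟨p, hp, hpS, hpos⟩ :=
    exists_pos_of_gens_pos v K hv0 hvK hW (Subgroup.zpowers σ) hgens (S ∪ Bad ∪ BD)
  have hpS' : p ∉ S := fun h => hpS (Finset.mem_union_left _ (Finset.mem_union_left _ h))
  have hpBad : p ∉ Bad := fun h => hpS (Finset.mem_union_left _ (Finset.mem_union_right _ h))
  have hpBD : p ∉ BD := fun h => hpS (Finset.mem_union_right _ h)
  have hwt : 0 < wt L (Subgroup.zpowers σ) p := by
    have : v (Subgroup.zpowers σ) p = (wt L (Subgroup.zpowers σ) p : ℝ) := by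
      simp [v, hp, hpBad]
    rw [this] at hpos
    exact_mod_cast hpos
  obtain ⟨P, hP, hpP, hdec⟩ := exists_of_wt_pos L hwt
  obtain ⟨hin, τ, hτ, hτd⟩ := hBD p hp hpBD P hP hpP
  exact ⟨p, P, τ, hp, hpS', hP, hpP, hin, hτ, hτd.symm.trans hdec⟩

end

end Fermat.Agent.Lib.Cheb.H993

end
-- ===== PACK-END Lib/Cheb/H993/Glue.lean

-- ===== PACK-BEGIN S24/FFFinite.lean
section




/-!
# S24 / FF layer: change of coordinate, residue degree one

Embedding-free algebraic core (helper804).
-/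

set_option autoImplicit false

namespace Fermat.Agent.S24.FF

open AlgebraicCurve Polynomial IntermediateField

variable {K F : Type*} [Field K] [Field F] [Algebra K F]

/-- Exchange: if `F` is finite over `K(x)` and `y` is transcendental, then `F` is finite over
`K(y)`.  (Intrinsic version of Mathlib's `finiteDimensional_of_adjoin_transcendental`.) -/
theorem finiteDimensional_adjoin_of_transcendental {x y : F} (hx : Transcendental K x)
    (hy : Transcendental K y) [hfin : FiniteDimensional K⟮x⟯ F] : FiniteDimensional K⟮y⟯ F := by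
  have halg : Algebra.IsAlgebraic K⟮x⟯ F := Algebra.IsAlgebraic.of_finite _ _
  have hxy : IsAlgebraic K⟮y⟯ x :=
    isAlgebraic_adjoin_iff.mpr
      (IsAlgebraic.adjoin_singleton hx hy (isAlgebraic_adjoin_iff.mp (halg.isAlgebraic y)))
  let Fyx := restrictScalars K K⟮y⟯⟮x⟯
  let Fxy := restrictScalars K K⟮x⟯⟮y⟯
  let : Algebra K⟮y⟯ Fyx := K⟮y⟯⟮x⟯.algebra
  let : Module K⟮y⟯ Fyx := Algebra.toModule
  let : SMul K⟮y⟯ Fyx := Algebra.toSMul
  let : Algebra K⟮x⟯ Fxy := K⟮x⟯⟮y⟯.algebra
  let : Module K⟮x⟯ Fxy := Algebra.toModule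
  let : SMul K⟮x⟯ Fxy := Algebra.toSMul
  have : FiniteDimensional K⟮y⟯ Fyx :=
    adjoin.finiteDimensional (isAlgebraic_iff_isIntegral.mp hxy)
  have : FiniteDimensional Fyx F := by
    unfold Fyx
    rw [adjoin_simple_comm]
    have : IsScalarTower K⟮x⟯ Fxy F := isScalarTower_mid' K⟮x⟯⟮y⟯
    exact .right K⟮x⟯ Fxy F
  have : IsScalarTower K⟮y⟯ Fyx F := isScalarTower_mid' K⟮y⟯⟮x⟯
  exact .trans K⟮y⟯ Fyx F

/-- In an algebraically closed field `K ⊆ F`, an element of `F` algebraic over `K` is a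
constant. -/
theorem mem_range_of_isAlgebraic [IsAlgClosed K] {f : F} (hf : IsAlgebraic K f) :
    f ∈ (algebraMap K F).range := by
  have hint : IsIntegral K f := hf.isIntegral
  exact minpoly.mem_range_of_degree_eq_one K f
    (IsAlgClosed.degree_eq_one_of_irreducible K (minpoly.irreducible hint))

/-- Non-constants are transcendental (for `K` algebraically closed). -/
theorem transcendental_of_not_mem_range [IsAlgClosed K] {f : F}
    (hf : f ∉ (algebraMap K F).range) : Transcendental K f :=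
  fun h => hf (mem_range_of_isAlgebraic h)

/-- Every element integral at `v` is congruent to a constant modulo the maximal ideal. -/
theorem exists_const_sub_mem_nonunits [IsAlgClosed K] (v : Place K F) {x : F}
    (hx : Transcendental K x) [FiniteDimensional K⟮x⟯ F] {f : F}
    (hf : f ∈ v.toValuationSubring) :
    ∃ a : K, f - algebraMap K F a ∈ v.toValuationSubring.nonunits := by
  by_cases hfK : f ∈ (algebraMap K F).range
  · obtain ⟨a, rfl⟩ := hfK
    refine ⟨a, ?_⟩
    rw [sub_self]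
    exact (ValuationSubring.mem_nonunits_iff _).mpr (by simp)
  · have hft := transcendental_of_not_mem_range hfK
    have : FiniteDimensional K⟮f⟯ F := finiteDimensional_adjoin_of_transcendental hx hft
    have halg : Algebra.IsAlgebraic K⟮f⟯ F := Algebra.IsAlgebraic.of_finite _ _
    obtain ⟨a, ha⟩ := exists_ord_sub_pos v f (ord_nonneg_of_mem v hf)
    refine ⟨a, (ord_pos_iff_mem_nonunits v ?_).mp ha⟩
    intro h0
    rw [h0, v.ord_zero] at ha
    exact lt_irrefl _ ha

end Fermat.Agent.S24.FF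

namespace Fermat.Agent.S24.FF

open AlgebraicCurve Polynomial IntermediateField

variable {K F : Type*} [Field K] [Field F] [Algebra K F]

/-- **FF2.** Over an algebraically closed constant field every place of a function field of
one variable has degree one. -/
theorem deg_eq_one [IsAlgClosed K] (v : Place K F) {x : F}
    (hx : Transcendental K x) [FiniteDimensional K⟮x⟯ F] : v.deg = 1 := by
  have hsurj : Function.Surjective (algebraMap K v.ResidueField) := by
    intro c
    obtain ⟨f, rfl⟩ := IsLocalRing.residue_surjective c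
    obtain ⟨a, ha⟩ := exists_const_sub_mem_nonunits v hx f.2
    refine ⟨a, ?_⟩
    have hmem : f - algebraMap K v.toValuationSubring a ∈
        IsLocalRing.maximalIdeal v.toValuationSubring := by
      rw [← ValuationSubring.coe_mem_nonunits_iff]
      exact ha
    have h0 := (IsLocalRing.residue_eq_zero_iff _).mpr hmem
    rw [map_sub, sub_eq_zero] at h0
    rw [h0]
    rfl
  have hbij : Function.Bijective (algebraMap K v.ResidueField) :=
    ⟨(algebraMap K v.ResidueField).injective, hsurj⟩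
  show Module.finrank K v.ResidueField = 1
  rw [← Module.finrank_self K]
  exact ((AlgEquiv.ofBijective (Algebra.ofId K v.ResidueField) hbij).toLinearEquiv.finrank_eq).symm

end Fermat.Agent.S24.FF

end
-- ===== PACK-END S24/FFFinite.lean

-- ===== PACK-BEGIN S24/FFSum.lean
section





/-!
# S24 / FF layer: zeros of a coordinate function, `∑ ord_v(t) = [F : K(t)]`

Bridge between the Prelude's `Place K F` and the primes of the integral closure of `K[t]`
in `F`, and the fundamental identity.  (helper804)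
-/

set_option autoImplicit false

namespace Fermat.Agent.S24.FF

open AlgebraicCurve Polynomial IntermediateField IsDedekindDomain

open scoped IntermediateField.algebraAdjoinAdjoin

variable {K F : Type*} [Field K] [Field F] [Algebra K F]

variable (K) in
/-- `K[t] ⊆ F`. -/
abbrev coordRing (t : F) : Subalgebra K F := Algebra.adjoin K {t}

variable (K) in
/-- The integral closure of `K[t]` in `F`. -/
abbrev intRing (t : F) : Subalgebra (coordRing K t) F := integralClosure (coordRing K t) F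

variable (K) in
/-- `t` is a coordinate function on the curve with function field `F`: transcendental over `K`
with `F` finite over `K(t)`. -/
class IsCoord (t : F) : Prop where
  transcendental : Transcendental K t
  finite : FiniteDimensional K⟮t⟯ F

variable {t : F}

instance instFiniteOfIsCoord [h : IsCoord K t] : FiniteDimensional K⟮t⟯ F := h.finite

instance instPIDCoordRing [h : IsCoord K t] : IsPrincipalIdealRing (coordRing K t) :=
  IsPrincipalIdealRing.of_surjective
    (algEquivOfTranscendental K t h.transcendental : K[X] →+* coordRing K t)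
    (algEquivOfTranscendental K t h.transcendental).surjective

instance instDedekindIntRing [CharZero K] [IsCoord K t] : IsDedekindDomain (intRing K t) :=
  integralClosure.isDedekindDomain (coordRing K t) K⟮t⟯ F

instance instFractionIntRing [IsCoord K t] : IsFractionRing (intRing K t) F :=
  integralClosure.isFractionRing_of_finite_extension K⟮t⟯ F

instance instFiniteIntRing [CharZero K] [IsCoord K t] :
    Module.Finite (coordRing K t) (intRing K t) :=
  IsIntegralClosure.finite (coordRing K t) K⟮t⟯ F (intRing K t)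

/-- Any transcendental element is a coordinate as soon as one coordinate exists. -/
theorem IsCoord.of_transcendental {x : F} [hx : IsCoord K x] {y : F} (hy : Transcendental K y) :
    IsCoord K y :=
  ⟨hy, finiteDimensional_adjoin_of_transcendental hx.transcendental hy⟩

section placeOfPrime

variable [CharZero K] [IsCoord K t]

variable (K t) in
/-- The place attached to a nonzero prime of the integral closure of `K[t]`. -/
noncomputable def placeOfPrime (q : HeightOneSpectrum (intRing K t)) : Place K F :=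
  Place.ofHeightOneSpectrum (K := K) q

theorem placeOfPrime_toValuationSubring (q : HeightOneSpectrum (intRing K t)) :
    (placeOfPrime K t q).toValuationSubring = (q.valuation F).valuationSubring := rfl

theorem ord_placeOfPrime (q : HeightOneSpectrum (intRing K t)) (f : F) :
    (placeOfPrime K t q).ord f = -WithZero.log (q.valuation F f) := by
  rcases eq_or_ne f 0 with rfl | hf
  · simp
  obtain ⟨π, hπ⟩ := q.valuation_exists_uniformizer F
  have hπ0 : π ≠ 0 := by
    rintro rfl
    rw [map_zero] at hπ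
    exact WithZero.exp_ne_zero hπ.symm
  symm
  refine ordLike_eq_ord (fun f => -WithZero.log (q.valuation F f)) ?_ (placeOfPrime K t q) ?_
    hπ0 ?_ hf
  · intro f g hf hg
    simp only [map_mul]
    rw [WithZero.log_mul ((Valuation.ne_zero_iff _).mpr hf) ((Valuation.ne_zero_iff _).mpr hg)]
    ring
  · intro f hf
    rw [placeOfPrime_toValuationSubring, Valuation.mem_valuationSubring_iff,
      neg_nonneg, WithZero.log_le_iff_le_exp ((Valuation.ne_zero_iff _).mpr hf)]
    simp
  · simp [hπ]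

end placeOfPrime

end Fermat.Agent.S24.FF

end
-- ===== PACK-END S24/FFSum.lean

-- ===== PACK-BEGIN S24/H624/Moebius.lean
section


/-!
# Order of vanishing under Möbius transformations; the rotation lemma
-/

set_option autoImplicit false

namespace Fermat.Agent.S24.H624

open UpperHalfPlane Complex
open scoped Manifold Topology MatrixGroups

/-- The Möbius map of `g` on `ℂ` (junk where the denominator vanishes). -/
noncomputable def moeb (g : GL (Fin 2) ℝ) (z : ℂ) : ℂ := num g z / denom g z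

theorem moeb_coe {g : GL (Fin 2) ℝ} (hg : 0 < g.det.val) (τ : ℍ) :
    moeb g (τ : ℂ) = ((g • τ : ℍ) : ℂ) :=
  (coe_smul_of_det_pos hg τ).symm

theorem hasDerivAt_num (g : GL (Fin 2) ℝ) (z : ℂ) :
    HasDerivAt (num g) ((g 0 0 : ℝ) : ℂ) z := by
  have h : HasDerivAt (fun w : ℂ => ((g 0 0 : ℝ) : ℂ) * w + ((g 0 1 : ℝ) : ℂ))
      (((g 0 0 : ℝ) : ℂ) * 1) z :=
    ((hasDerivAt_id z).const_mul _).add_const _
  rw [mul_one] at h
  exact h

theorem hasDerivAt_denom (g : GL (Fin 2) ℝ) (z : ℂ) :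
    HasDerivAt (denom g) ((g 1 0 : ℝ) : ℂ) z := by
  have h : HasDerivAt (fun w : ℂ => ((g 1 0 : ℝ) : ℂ) * w + ((g 1 1 : ℝ) : ℂ))
      (((g 1 0 : ℝ) : ℂ) * 1) z :=
    ((hasDerivAt_id z).const_mul _).add_const _
  rw [mul_one] at h
  exact h

theorem det_eq (g : GL (Fin 2) ℝ) :
    ((g.det.val : ℝ) : ℂ) = (g 0 0 : ℂ) * (g 1 1 : ℂ) - (g 0 1 : ℂ) * (g 1 0 : ℂ) := by
  rw [Matrix.GeneralLinearGroup.val_det_apply, Matrix.det_fin_two]
  push_cast
  rfl

theorem hasDerivAt_moeb (g : GL (Fin 2) ℝ) {z : ℂ} (hz : denom g z ≠ 0) :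
    HasDerivAt (moeb g) (((g.det.val : ℝ) : ℂ) / denom g z ^ 2) z := by
  have h := (hasDerivAt_num g z).div (hasDerivAt_denom g z) hz
  have e : (((g 0 0 : ℝ) : ℂ) * denom g z - num g z * ((g 1 0 : ℝ) : ℂ)) / denom g z ^ 2
      = ((g.det.val : ℝ) : ℂ) / denom g z ^ 2 := by
    rw [det_eq]
    congr 1
    simp only [num, denom]
    ring
  rw [e] at h
  exact h

theorem analyticAt_moeb (g : GL (Fin 2) ℝ) {z : ℂ} (hz : denom g z ≠ 0) :
    AnalyticAt ℂ (moeb g) z := by
  have hn : AnalyticAt ℂ (num g) z := by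
    have : num g = fun w : ℂ => ((g 0 0 : ℝ) : ℂ) * w + ((g 0 1 : ℝ) : ℂ) := by
      funext w; simp [num]
    rw [this]
    fun_prop
  have hd : AnalyticAt ℂ (denom g) z := by
    have : denom g = fun w : ℂ => ((g 1 0 : ℝ) : ℂ) * w + ((g 1 1 : ℝ) : ℂ) := by
      funext w; simp [denom]
    rw [this]
    fun_prop
  exact hn.div hd hz

theorem deriv_moeb_ne_zero {g : GL (Fin 2) ℝ} (hg : 0 < g.det.val) {z : ℂ}
    (hz : denom g z ≠ 0) : deriv (moeb g) z ≠ 0 := by
  rw [(hasDerivAt_moeb g hz).deriv]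
  refine div_ne_zero ?_ (pow_ne_zero _ hz)
  exact_mod_cast hg.ne'

theorem eventuallyEq_comp_smul {g : GL (Fin 2) ℝ} (hg : 0 < g.det.val) (f : ℍ → ℂ) (τ : ℍ) :
    ((fun z : ℍ => f (g • z)) ∘ ofComplex) =ᶠ[𝓝 (τ : ℂ)] ((f ∘ ofComplex) ∘ moeb g) := by
  filter_upwards [isOpen_upperHalfPlaneSet.mem_nhds τ.im_pos] with z hz
  have hz' : 0 < z.im := hz
  simp only [Function.comp_apply]
  rw [ofComplex_apply_of_im_pos hz']
  have : moeb g z = ((g • (⟨z, hz'⟩ : ℍ) : ℍ) : ℂ) := moeb_coe hg ⟨z, hz'⟩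
  rw [this, ofComplex_apply]

/-- Order of vanishing is invariant under Möbius transformations. -/
theorem ordAt_comp_smul {g : GL (Fin 2) ℝ} (hg : 0 < g.det.val) (f : ℍ → ℂ) (τ : ℍ) :
    ordAt τ (fun z : ℍ => f (g • z)) = ordAt (g • τ) f := by
  have hd : denom g (τ : ℂ) ≠ 0 := denom_ne_zero g τ
  rw [ordAt_def, analyticOrderAt_congr (eventuallyEq_comp_smul hg f τ),
    analyticOrderAt_comp_of_deriv_ne_zero (analyticAt_moeb g hd) (deriv_moeb_ne_zero hg hd),
    moeb_coe hg, ordAt_def]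

theorem mdiff_comp_smul {g : GL (Fin 2) ℝ} (hg : 0 < g.det.val) {f : ℍ → ℂ} (hf : MDiff f) :
    MDiff (fun z : ℍ => f (g • z)) :=
  hf.comp (mdifferentiable_smul hg)

/-- Key algebraic identity: `g z - g w = det g * (z - w) / (denom z * denom w)`. -/
theorem moeb_sub_moeb (g : GL (Fin 2) ℝ) {z w : ℂ} (hz : denom g z ≠ 0) (hw : denom g w ≠ 0) :
    moeb g z - moeb g w = ((g.det.val : ℝ) : ℂ) * (z - w) / (denom g z * denom g w) := by
  rw [det_eq]
  unfold moeb
  rw [div_sub_div _ _ hz hw]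
  congr 1
  simp only [num, denom]
  ring

/-- **Rotation lemma.** If `g` fixes `τ`, and the nonzero holomorphic function `f` is invariant
under `g`, then `(deriv of g at τ) ^ ord_τ f = 1`, i.e. `(det g / denom g τ ^ 2) ^ n = 1`. -/
theorem rotation_lemma {g : GL (Fin 2) ℝ} (hg : 0 < g.det.val) {f : ℍ → ℂ} (hf : MDiff f)
    (hf0 : f ≠ 0) {τ : ℍ} (hτ : g • τ = τ) (hinv : ∀ z : ℍ, f (g • z) = f z) :
    (((g.det.val : ℝ) : ℂ) / denom g (τ : ℂ) ^ 2) ^ (ordAt τ f).toNat = 1 := by
  set n := (ordAt τ f).toNat with hn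
  have hne := ordAt_ne_top hf hf0 τ
  have hord : analyticOrderAt (f ∘ ofComplex) (τ : ℂ) = (n : ℕ∞) := by
    rw [← ordAt_def, hn, ENat.natCast_toNat hne]
  obtain ⟨u, hu, hu0, hfu⟩ :=
    ((analyticAt_of_mdiff hf τ).analyticOrderAt_eq_natCast).mp hord
  have hd : denom g (τ : ℂ) ≠ 0 := denom_ne_zero g τ
  have hmτ : moeb g (τ : ℂ) = (τ : ℂ) := by rw [moeb_coe hg, hτ]
  have hmcont : ContinuousAt (moeb g) (τ : ℂ) := (analyticAt_moeb g hd).continuousAt
  -- near τ: f ∘ ofComplex ∘ moeb = f ∘ ofComplex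
  have h1 : ∀ᶠ z in 𝓝 (τ : ℂ), (f ∘ ofComplex) (moeb g z) = (f ∘ ofComplex) z := by
    filter_upwards [eventuallyEq_comp_smul hg f τ] with z hz
    have := hz
    simp only [Function.comp_apply] at this ⊢
    rw [← this, hinv]
  -- near τ: moeb z is near τ so factorization applies at moeb z
  have h2 : ∀ᶠ z in 𝓝 (τ : ℂ), (f ∘ ofComplex) (moeb g z)
      = (moeb g z - (τ : ℂ)) ^ n • u (moeb g z) := by
    have : Filter.Tendsto (moeb g) (𝓝 (τ : ℂ)) (𝓝 (τ : ℂ)) := by
      have := hmcont.tendsto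
      rwa [hmτ] at this
    exact this.eventually hfu
  have h3 : ∀ᶠ z in 𝓝 (τ : ℂ), denom g z ≠ 0 :=
    (hasDerivAt_denom g _).continuousAt.eventually_ne hd
  set c : ℂ := ((g.det.val : ℝ) : ℂ) with hc
  -- on a punctured neighbourhood: (c / (denom z * denom τ))^n * u (moeb z) = u z
  have h4 : ∀ᶠ z in 𝓝[≠] (τ : ℂ),
      (c / (denom g z * denom g (τ : ℂ))) ^ n * u (moeb g z) = u z := by
    have hall := (h1.and (h2.and (h3.and hfu)))
    filter_upwards [hall.filter_mono nhdsWithin_le_nhds, self_mem_nhdsWithin] with z hz hzne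
    obtain ⟨e1, e2, e3, e4⟩ := hz
    have hzne' : z - (τ : ℂ) ≠ 0 := sub_ne_zero.mpr hzne
    have e5 : moeb g z - (τ : ℂ) = c * (z - (τ : ℂ)) / (denom g z * denom g (τ : ℂ)) := by
      have := moeb_sub_moeb g e3 hd
      rwa [hmτ] at this
    rw [e2, e4, e5] at e1
    simp only [smul_eq_mul] at e1
    have e6 : c * (z - (τ : ℂ)) / (denom g z * denom g (τ : ℂ))
        = (z - (τ : ℂ)) * (c / (denom g z * denom g (τ : ℂ))) := by ring
    rw [e6, mul_pow, mul_assoc] at e1
    exact mul_left_cancel₀ (pow_ne_zero n hzne') e1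
  -- pass to the limit
  have hL : Filter.Tendsto (fun z => (c / (denom g z * denom g (τ : ℂ))) ^ n * u (moeb g z))
      (𝓝[≠] (τ : ℂ)) (𝓝 ((c / (denom g (τ : ℂ) * denom g (τ : ℂ))) ^ n * u (τ : ℂ))) := by
    have hcd : ContinuousAt (fun z => (c / (denom g z * denom g (τ : ℂ))) ^ n) (τ : ℂ) := by
      have hden : ContinuousAt (fun z => denom g z * denom g (τ : ℂ)) (τ : ℂ) :=
        ((hasDerivAt_denom g _).continuousAt).mul continuousAt_const
      exact ((continuousAt_const.div hden (mul_ne_zero hd hd))).pow n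
    have hu' : ContinuousAt (fun z => u (moeb g z)) (τ : ℂ) := by
      have : ContinuousAt u (moeb g (τ : ℂ)) := by rw [hmτ]; exact hu.continuousAt
      exact ContinuousAt.comp (f := moeb g) (g := u) this hmcont
    have hmul : ContinuousAt
        (fun z => (c / (denom g z * denom g (τ : ℂ))) ^ n * u (moeb g z)) (τ : ℂ) := hcd.mul hu'
    have := hmul.tendsto
    simp only [hmτ] at this
    exact this.mono_left nhdsWithin_le_nhds
  have hR : Filter.Tendsto u (𝓝[≠] (τ : ℂ)) (𝓝 (u (τ : ℂ))) :=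
    hu.continuousAt.tendsto.mono_left nhdsWithin_le_nhds
  have hlim := tendsto_nhds_unique (hL.congr' h4) hR
  have hfin : (c / (denom g (τ : ℂ) * denom g (τ : ℂ))) ^ n = 1 := by
    have := mul_right_cancel₀ hu0 (hlim.trans (one_mul _).symm)
    exact this
  rw [← hfin, sq]

end Fermat.Agent.S24.H624

end
-- ===== PACK-END S24/H624/Moebius.lean

-- ===== PACK-BEGIN S24/H624/SL2Z.lean
section


/-!
# `SL(2, ℤ)` acting on holomorphic functions; divisibility of orders at elliptic points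
-/

set_option autoImplicit false

namespace Fermat.Agent.S24.H624

open UpperHalfPlane Complex
open scoped Manifold Topology MatrixGroups

theorem det_coe_SL_pos (γ : SL(2, ℤ)) : 0 < ((γ : GL (Fin 2) ℝ).det.val : ℝ) := by
  simp

theorem det_coe_SL (γ : SL(2, ℤ)) : ((γ : GL (Fin 2) ℝ).det.val : ℝ) = 1 := by
  simp

/-- Precomposition with `γ ∈ SL(2, ℤ)` as an algebra endomorphism of `holoRing`. -/
noncomputable def precompSL (γ : SL(2, ℤ)) : holoRing →ₐ[ℂ] holoRing where
  toFun f := ⟨fun τ => (f : ℍ → ℂ) (γ • τ), mdiff_comp_smul (det_coe_SL_pos γ) f.2⟩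
  map_one' := rfl
  map_mul' _ _ := rfl
  map_zero' := rfl
  map_add' _ _ := rfl
  commutes' _ := rfl

@[simp]
theorem precompSL_apply (γ : SL(2, ℤ)) (f : holoRing) (τ : ℍ) :
    (precompSL γ f : ℍ → ℂ) τ = (f : ℍ → ℂ) (γ • τ) := rfl

theorem precompSL_one (f : holoRing) : precompSL 1 f = f := by
  ext τ
  simp

theorem precompSL_mul (γ δ : SL(2, ℤ)) (f : holoRing) :
    precompSL (γ * δ) f = precompSL δ (precompSL γ f) := by
  ext τ
  simp [mul_smul]

/-- Left action of `SL(2, ℤ)` on holomorphic functions: `(γ • f) τ = f (γ⁻¹ • τ)`. -/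
noncomputable instance instMulSemiringActionHoloRing : MulSemiringAction SL(2, ℤ) holoRing where
  smul γ f := precompSL γ⁻¹ f
  one_smul f := by
    show precompSL (1 : SL(2, ℤ))⁻¹ f = f
    rw [inv_one, precompSL_one]
  mul_smul γ δ f := by
    show precompSL (γ * δ)⁻¹ f = precompSL γ⁻¹ (precompSL δ⁻¹ f)
    rw [mul_inv_rev, precompSL_mul]
  smul_zero γ := map_zero _
  smul_add γ f g := map_add _ f g
  smul_one γ := map_one _
  smul_mul γ f g := map_mul _ f g

theorem smul_holoRing_apply (γ : SL(2, ℤ)) (f : holoRing) (τ : ℍ) :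
    ((γ • f : holoRing) : ℍ → ℂ) τ = (f : ℍ → ℂ) (γ⁻¹ • τ) := rfl

theorem smul_holoRing_def (γ : SL(2, ℤ)) (f : holoRing) : γ • f = precompSL γ⁻¹ f := rfl

instance instSMulCommClassHoloRing : SMulCommClass SL(2, ℤ) ℂ holoRing where
  smul_comm γ c f := by
    ext τ
    rfl

theorem ordAt_precompSL (γ : SL(2, ℤ)) (f : holoRing) (τ : ℍ) :
    ordAt τ (precompSL γ f : ℍ → ℂ) = ordAt (γ • τ) (f : ℍ → ℂ) :=
  ordAt_comp_smul (det_coe_SL_pos γ) (f : ℍ → ℂ) τ

theorem ordAt_smul_holoRing (γ : SL(2, ℤ)) (f : holoRing) (τ : ℍ) :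
    ordAt (γ • τ) ((γ • f : holoRing) : ℍ → ℂ) = ordAt τ (f : ℍ → ℂ) := by
  rw [smul_holoRing_def, ordAt_precompSL, inv_smul_smul]

/-- Rotation lemma for `SL(2, ℤ)`: if `γ` fixes `τ` and `f ≠ 0` is `γ`-invariant of order `n`
at `τ`, then `(c τ + d) ^ (2 n) = 1`. -/
theorem denom_pow_eq_one {γ : SL(2, ℤ)} {f : ℍ → ℂ} (hf : MDiff f) (hf0 : f ≠ 0) {τ : ℍ}
    (hτ : γ • τ = τ) (hinv : ∀ z : ℍ, f (γ • z) = f z) :
    denom (γ : GL (Fin 2) ℝ) (τ : ℂ) ^ (2 * (ordAt τ f).toNat) = 1 := by
  have h := rotation_lemma (g := (γ : GL (Fin 2) ℝ)) (det_coe_SL_pos γ) hf hf0 hτ hinv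
  rw [det_coe_SL γ] at h
  have hd : denom (γ : GL (Fin 2) ℝ) (τ : ℂ) ≠ 0 := denom_ne_zero _ τ
  rw [Complex.ofReal_one, div_pow, one_pow, ← pow_mul] at h
  have h2 := (div_eq_one_iff_eq (pow_ne_zero _ hd)).mp h
  exact h2.symm

/-- The quadratic relation satisfied by `λ = c τ + d` at a fixed point:
`λ ^ 2 - (a + d) λ + 1 = 0`. -/
theorem denom_sq_eq_of_fixed {γ : SL(2, ℤ)} {τ : ℍ} (hτ : γ • τ = τ) :
    denom (γ : GL (Fin 2) ℝ) (τ : ℂ) ^ 2
      = (((γ 0 0 + γ 1 1 : ℤ) : ℂ)) * denom (γ : GL (Fin 2) ℝ) (τ : ℂ) - 1 := by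
  have hd : denom (γ : GL (Fin 2) ℝ) (τ : ℂ) ≠ 0 := denom_ne_zero _ τ
  have h1 : ((γ • τ : ℍ) : ℂ) = num (γ : GL (Fin 2) ℝ) τ / denom (γ : GL (Fin 2) ℝ) τ :=
    coe_smul_of_det_pos (det_coe_SL_pos γ) τ
  rw [hτ] at h1
  have h2 : (τ : ℂ) * denom (γ : GL (Fin 2) ℝ) τ = num (γ : GL (Fin 2) ℝ) τ :=
    (eq_div_iff hd).mp h1
  have hdet : ((γ 0 0 : ℤ) : ℂ) * ((γ 1 1 : ℤ) : ℂ) - ((γ 0 1 : ℤ) : ℂ) * ((γ 1 0 : ℤ) : ℂ) = 1 := by
    have := γ.det_coe
    rw [Matrix.det_fin_two] at this
    exact_mod_cast this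
  have hnum : num (γ : GL (Fin 2) ℝ) (τ : ℂ) = ((γ 0 0 : ℤ) : ℂ) * τ + ((γ 0 1 : ℤ) : ℂ) := by
    simp [num]
  have hden : denom (γ : GL (Fin 2) ℝ) (τ : ℂ) = ((γ 1 0 : ℤ) : ℂ) * τ + ((γ 1 1 : ℤ) : ℂ) := by
    simp [denom]
  rw [hnum, hden] at h2
  rw [hden]
  push_cast
  linear_combination (((γ 1 0 : ℤ) : ℂ)) * h2 - hdet

/-- At a fixed point of an element of trace `0`, invariant functions vanish to even order. -/
theorem even_ordAt_of_trace_zero {γ : SL(2, ℤ)} {f : ℍ → ℂ} (hf : MDiff f) (hf0 : f ≠ 0)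
    {τ : ℍ} (hτ : γ • τ = τ) (htr : γ 0 0 + γ 1 1 = 0) (hinv : ∀ z : ℍ, f (γ • z) = f z) :
    Even (ordAt τ f).toNat := by
  have h1 := denom_pow_eq_one hf hf0 hτ hinv
  have h2 := denom_sq_eq_of_fixed hτ
  rw [htr] at h2
  simp only [Int.cast_zero, zero_mul, zero_sub] at h2
  rw [pow_mul, h2] at h1
  by_contra hodd
  rw [Nat.not_even_iff_odd] at hodd
  rw [hodd.neg_one_pow] at h1
  norm_num at h1

theorem three_dvd_of_root {μ : ℂ} (hμ : μ ^ 2 + μ + 1 = 0) {n : ℕ} (hn : μ ^ n = 1) : 3 ∣ n := by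
  have h3 : μ ^ 3 = 1 := by linear_combination (μ - 1) * hμ
  have hμ1 : μ ≠ 1 := by
    rintro rfl
    norm_num at hμ
  have hμ2 : μ ^ 2 ≠ 1 := by
    intro h
    have : μ = -2 := by linear_combination hμ - h
    rw [this] at h
    norm_num at h
  have hdiv : μ ^ n = μ ^ (n % 3) := by
    conv_lhs => rw [← Nat.div_add_mod n 3, pow_add, pow_mul, h3, one_pow, one_mul]
  rw [hdiv] at hn
  have hlt : n % 3 < 3 := Nat.mod_lt _ (by norm_num)
  interval_cases h : n % 3
  · exact Nat.dvd_of_mod_eq_zero h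
  · rw [pow_one] at hn; exact absurd hn hμ1
  · exact absurd hn hμ2

/-- At a fixed point of an element of trace `±1`, invariant functions vanish to order divisible
by `3`. -/
theorem three_dvd_ordAt_of_trace {γ : SL(2, ℤ)} {f : ℍ → ℂ} (hf : MDiff f) (hf0 : f ≠ 0)
    {τ : ℍ} (hτ : γ • τ = τ) (htr : γ 0 0 + γ 1 1 = 1 ∨ γ 0 0 + γ 1 1 = -1)
    (hinv : ∀ z : ℍ, f (γ • z) = f z) :
    3 ∣ (ordAt τ f).toNat := by
  have h1 := denom_pow_eq_one hf hf0 hτ hinv
  have h2 := denom_sq_eq_of_fixed hτ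
  rw [pow_mul] at h1
  set lam := denom (γ : GL (Fin 2) ℝ) (τ : ℂ) with hlam
  refine three_dvd_of_root (μ := lam ^ 2) ?_ h1
  rcases htr with htr | htr
  · rw [htr] at h2
    simp only [Int.cast_one, one_mul] at h2
    linear_combination (lam ^ 2 + lam + 1) * h2
  · rw [htr] at h2
    simp only [Int.cast_neg, Int.cast_one, neg_mul, one_mul] at h2
    linear_combination (lam ^ 2 - lam + 1) * h2

end Fermat.Agent.S24.H624

end
-- ===== PACK-END S24/H624/SL2Z.lean

-- ===== PACK-BEGIN S24/H117/EmbPlace.lean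
section


/-!
# S24 / H117 — the place induced by an embedding into Laurent series (LT1)

For a ring homomorphism `σ : F →+* LaurentSeries C` which is "constant on `K`" and nontrivial
(some element has nonzero order), `{f | 0 ≤ (σ f).order}` is a discrete valuation ring of `F`
containing `K`, i.e. a `Place K F`, and `(σ f).order = k * v.ord f` for a fixed `k > 0`.
-/

set_option autoImplicit false

noncomputable section

open AlgebraicCurve

namespace Fermat.Agent.S24.H117

variable {K F : Type*} [Field K] [Field F] [Algebra K F]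
variable {C : Type*} [Field C]

section Laurent

theorem order_inv' (g : LaurentSeries C) : (g⁻¹).order = -g.order := by
  rcases eq_or_ne g 0 with rfl | hg
  · simp
  have h := HahnSeries.order_mul hg (inv_ne_zero hg)
  rw [mul_inv_cancel₀ hg, HahnSeries.order_one] at h
  omega

theorem order_add_ge' {g h : LaurentSeries C} (hg : 0 ≤ g.order) (hh : 0 ≤ h.order) :
    0 ≤ (g + h).order := by
  rcases eq_or_ne (g + h) 0 with h0 | h0
  · rw [h0, HahnSeries.order_zero]
  · exact le_trans (le_min hg hh) (HahnSeries.min_order_le_order_add h0)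

/-- The valuation subring of `C((z))` of series of non-negative order. -/
def OL (C : Type*) [Field C] : ValuationSubring (LaurentSeries C) where
  carrier := {g | 0 ≤ g.order}
  mul_mem' := by
    intro a b ha hb
    simp only [Set.mem_ofPred_eq] at ha hb ⊢
    rcases eq_or_ne a 0 with rfl | ha0
    · simp
    rcases eq_or_ne b 0 with rfl | hb0
    · simp
    rw [HahnSeries.order_mul ha0 hb0]
    omega
  one_mem' := by simp
  add_mem' := by
    intro a b ha hb
    exact order_add_ge' ha hb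
  zero_mem' := by simp
  neg_mem' := by
    intro a ha
    simp only [Set.mem_ofPred_eq] at ha ⊢
    rwa [HahnSeries.order_neg]
  mem_or_inv_mem' := by
    intro a
    simp only [Set.mem_ofPred_eq]
    rw [order_inv']
    omega

@[simp]
theorem mem_OL {g : LaurentSeries C} : g ∈ OL C ↔ 0 ≤ g.order := Iff.rfl

end Laurent

section Emb

variable (σ : F →+* LaurentSeries C)

/-- The order function of an embedding. -/
def eord (f : F) : ℤ := (σ f).order

@[simp] theorem eord_zero : eord σ 0 = 0 := by simp [eord]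

@[simp] theorem eord_one : eord σ 1 = 0 := by simp [eord]

theorem eord_mul {f g : F} (hf : f ≠ 0) (hg : g ≠ 0) :
    eord σ (f * g) = eord σ f + eord σ g := by
  simp only [eord, map_mul]
  exact HahnSeries.order_mul ((map_ne_zero σ).mpr hf) ((map_ne_zero σ).mpr hg)

theorem eord_inv (f : F) : eord σ f⁻¹ = -eord σ f := by
  simp only [eord, map_inv₀]
  exact order_inv' _

theorem eord_pow (f : F) (n : ℕ) : eord σ (f ^ n) = n * eord σ f := by
  simp only [eord, map_pow, HahnSeries.order_pow, nsmul_eq_mul]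

theorem eord_zpow (f : F) (n : ℤ) : eord σ (f ^ n) = n * eord σ f := by
  cases n with
  | ofNat n => simpa using eord_pow σ f n
  | negSucc n =>
    rw [zpow_negSucc, eord_inv, eord_pow]
    simp only [Int.negSucc_eq]
    push_cast
    ring

theorem eord_neg (f : F) : eord σ (-f) = eord σ f := by
  simp only [eord, map_neg, HahnSeries.order_neg]

theorem eord_add_ge {f g : F} (hfg : f + g ≠ 0) :
    min (eord σ f) (eord σ g) ≤ eord σ (f + g) := by
  simp only [eord, map_add]
  apply HahnSeries.min_order_le_order_add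
  rw [← map_add]
  exact (map_ne_zero σ).mpr hfg

/-- The valuation subring of `F` induced by `σ`. -/
def embRing : ValuationSubring F := (OL C).comap σ

@[simp]
theorem mem_embRing {f : F} : f ∈ embRing σ ↔ 0 ≤ eord σ f := Iff.rfl

theorem coe_ne_zero_embRing {a : embRing σ} (ha : a ≠ 0) : (a : F) ≠ 0 :=
  fun h => ha (Subtype.ext h)

theorem isUnit_embRing_iff {a : embRing σ} (ha : a ≠ 0) : IsUnit a ↔ eord σ (a : F) = 0 := by
  have ha0 : (a : F) ≠ 0 := coe_ne_zero_embRing σ ha
  constructor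
  · intro h
    obtain ⟨b, hb⟩ := isUnit_iff_exists_inv.mp h
    have hb' : (a : F) * (b : F) = 1 := congrArg Subtype.val hb
    have hbne : (b : F) ≠ 0 := by
      intro h0
      rw [h0, mul_zero] at hb'
      exact zero_ne_one hb'
    have hsum := eord_mul σ ha0 hbne
    rw [hb', eord_one] at hsum
    have h1 : 0 ≤ eord σ (a : F) := a.2
    have h2 : 0 ≤ eord σ (b : F) := b.2
    omega
  · intro h0
    have hinv : (a : F)⁻¹ ∈ embRing σ := by
      rw [mem_embRing, eord_inv]; omega
    exact ⟨⟨a, ⟨(a : F)⁻¹, hinv⟩, Subtype.ext (mul_inv_cancel₀ ha0),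
      Subtype.ext (inv_mul_cancel₀ ha0)⟩, rfl⟩

/-- If some element has nonzero order, then `embRing σ` is a discrete valuation ring: there is
an element `π` of minimal positive order `k`, and every order is a multiple of `k`. -/
theorem exists_min_pos (hnt : ∃ t : F, eord σ t ≠ 0) :
    ∃ (k : ℕ) (π : F), 0 < k ∧ π ≠ 0 ∧ eord σ π = k ∧ ∀ f : F, (k : ℤ) ∣ eord σ f := by
  classical
  obtain ⟨t, ht⟩ := hnt
  have hex : ∃ n : ℕ, 0 < n ∧ ∃ f : F, eord σ f = n := by
    rcases lt_or_gt_of_ne ht with h | h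
    · refine ⟨(eord σ t⁻¹).toNat, ?_, t⁻¹, ?_⟩
      · rw [eord_inv]; omega
      · rw [eord_inv]; omega
    · exact ⟨(eord σ t).toNat, by omega, t, by omega⟩
  let k := Nat.find hex
  obtain ⟨hk0, π, hπ⟩ := Nat.find_spec hex
  have hmin : ∀ n : ℕ, 0 < n → (∃ f : F, eord σ f = n) → k ≤ n := fun n hn hf =>
    Nat.find_min' hex ⟨hn, hf⟩
  have hπ0 : π ≠ 0 := by
    rintro rfl
    rw [eord_zero] at hπ
    have : (k : ℤ) = 0 := hπ.symm
    have hk0' : 0 < k := hk0
    omega
  refine ⟨k, π, hk0, hπ0, hπ, fun f => ?_⟩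
  rcases eq_or_ne f 0 with rfl | hf
  · simp
  -- division with remainder
  set q := eord σ f / (k : ℤ) with hq
  set r := eord σ f % (k : ℤ) with hr
  have hk0' : (0 : ℤ) < k := by exact_mod_cast hk0
  have hr0 : 0 ≤ r := Int.emod_nonneg _ hk0'.ne'
  have hrk : r < k := Int.emod_lt_of_pos _ hk0'
  have hdecomp : eord σ f = k * q + r := (Int.mul_ediv_add_emod _ _).symm
  have hg : eord σ (f * π ^ (-q)) = r := by
    rw [eord_mul σ hf (zpow_ne_zero _ hπ0), eord_zpow, hπ, hdecomp]
    ring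
  by_cases hr' : r = 0
  · exact Int.dvd_of_emod_eq_zero hr'
  · exfalso
    have := hmin r.toNat (by omega) ⟨_, by rw [hg]; omega⟩
    have hk0'' : 0 < k := hk0
    omega

theorem isDiscreteValuationRing_embRing (hnt : ∃ t : F, eord σ t ≠ 0) :
    IsDiscreteValuationRing (embRing σ) := by
  obtain ⟨k, π, hk0, hπ0, hπ, hdvd⟩ := exists_min_pos σ hnt
  have hπmem : π ∈ embRing σ := by rw [mem_embRing, hπ]; positivity
  have hk0' : (0 : ℤ) < k := by exact_mod_cast hk0
  apply IsDiscreteValuationRing.ofHasUnitMulPowIrreducibleFactorization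
  refine ⟨⟨π, hπmem⟩, ?_, ?_⟩
  · -- irreducible
    have hπne : (⟨π, hπmem⟩ : embRing σ) ≠ 0 := fun h => hπ0 (congrArg Subtype.val h)
    refine ⟨fun hu => ?_, fun a b hab => ?_⟩
    · have := (isUnit_embRing_iff σ hπne).mp hu
      simp only at this
      omega
    · have hab' : π = (a : F) * (b : F) := congrArg Subtype.val hab
      have ha0 : a ≠ 0 := by
        rintro rfl
        apply hπ0
        simpa using hab'
      have hb0 : b ≠ 0 := by
        rintro rfl
        apply hπ0
        simpa using hab'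
      have ha0' : (a : F) ≠ 0 := coe_ne_zero_embRing σ ha0
      have hb0' : (b : F) ≠ 0 := coe_ne_zero_embRing σ hb0
      have hsum := eord_mul σ ha0' hb0'
      rw [← hab', hπ] at hsum
      obtain ⟨ca, hca⟩ := hdvd (a : F)
      obtain ⟨cb, hcb⟩ := hdvd (b : F)
      have h1 : 0 ≤ eord σ (a : F) := a.2
      have h2 : 0 ≤ eord σ (b : F) := b.2
      rw [isUnit_embRing_iff σ ha0, isUnit_embRing_iff σ hb0]
      have hca0 : 0 ≤ ca := by
        by_contra hneg
        push Not at hneg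
        rw [hca] at h1
        nlinarith
      have hcb0 : 0 ≤ cb := by
        by_contra hneg
        push Not at hneg
        rw [hcb] at h2
        nlinarith
      have hsum' : (k : ℤ) * (ca + cb) = k * 1 := by rw [hca, hcb] at hsum; linarith
      have h3 : ca + cb = 1 := mul_left_cancel₀ hk0'.ne' hsum'
      rcases (show ca = 0 ∨ cb = 0 by omega) with h | h
      · left; rw [hca, h, mul_zero]
      · right; rw [hcb, h, mul_zero]
  · intro x hx
    have hx0 : (x : F) ≠ 0 := coe_ne_zero_embRing σ hx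
    obtain ⟨c, hc⟩ := hdvd (x : F)
    have hxnn : 0 ≤ eord σ (x : F) := x.2
    have hc0 : 0 ≤ c := by
      by_contra hneg
      push Not at hneg
      rw [hc] at hxnn
      nlinarith
    refine ⟨c.toNat, ?_⟩
    have hu : eord σ ((x : F) * (π ^ c.toNat)⁻¹) = 0 := by
      rw [eord_mul σ hx0 (inv_ne_zero (pow_ne_zero _ hπ0)), eord_inv, eord_pow, hπ, hc]
      have : ((c.toNat : ℕ) : ℤ) = c := Int.toNat_of_nonneg hc0
      rw [this]; ring
    have hmem : (x : F) * (π ^ c.toNat)⁻¹ ∈ embRing σ := by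
      rw [mem_embRing, hu]
    have hne : (⟨_, hmem⟩ : embRing σ) ≠ 0 := fun h =>
      (mul_ne_zero hx0 (inv_ne_zero (pow_ne_zero _ hπ0))) (congrArg Subtype.val h)
    have hunit : IsUnit (⟨_, hmem⟩ : embRing σ) := (isUnit_embRing_iff σ hne).mpr hu
    refine ⟨hunit.unit, ?_⟩
    apply Subtype.ext
    have hπpow : π ^ c.toNat ≠ 0 := pow_ne_zero _ hπ0
    show π ^ c.toNat * ((x : F) * (π ^ c.toNat)⁻¹) = (x : F)
    field_simp

/-- The place of `F/K` induced by an embedding `σ : F → C((z))` which has non-negative order on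
the constants and is nontrivial. -/
def placeOfEmb (hK : ∀ c : K, 0 ≤ eord σ (algebraMap K F c)) (hnt : ∃ t : F, eord σ t ≠ 0) :
    Place K F where
  toValuationSubring := embRing σ
  algebraMap_mem' := hK
  ne_top' := by
    obtain ⟨t, ht⟩ := hnt
    intro htop
    have h1 : t ∈ embRing σ := htop ▸ ValuationSubring.mem_top t
    have h2 : t⁻¹ ∈ embRing σ := htop ▸ ValuationSubring.mem_top t⁻¹
    rw [mem_embRing] at h1 h2
    rw [eord_inv] at h2
    omega
  isPrincipalIdealRing' :=
    haveI := isDiscreteValuationRing_embRing σ hnt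
    inferInstance

@[simp]
theorem placeOfEmb_toValuationSubring (hK : ∀ c : K, 0 ≤ eord σ (algebraMap K F c))
    (hnt : ∃ t : F, eord σ t ≠ 0) :
    (placeOfEmb σ hK hnt).toValuationSubring = embRing σ := rfl

/-- If the valuation ring of a place `v` is `{f | 0 ≤ ord (σ f)}`, then `ord ∘ σ = k * v.ord`
for some `k > 0`. -/
theorem exists_mult_of_eq (v : Place K F) (hv : v.toValuationSubring = embRing σ) :
    ∃ k : ℕ, 0 < k ∧ ∀ f : F, eord σ f = k * v.ord f := by
  have hmem : ∀ f : F, f ∈ v.toValuationSubring ↔ 0 ≤ eord σ f := fun f => by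
    rw [hv]; rfl
  obtain ⟨π, hπ⟩ := IsDiscreteValuationRing.exists_irreducible v.toValuationSubring
  have hπ0 : (π : F) ≠ 0 := fun h => hπ.ne_zero (Subtype.ext h)
  have hπnn : 0 ≤ eord σ (π : F) := (hmem _).mp π.2
  have hπpos : 0 < eord σ (π : F) := by
    rcases hπnn.lt_or_eq with h | h
    · exact h
    · exfalso
      have hinv : (π : F)⁻¹ ∈ v.toValuationSubring := by
        rw [hmem, eord_inv]; omega
      apply hπ.not_isUnit
      exact ⟨⟨π, ⟨(π : F)⁻¹, hinv⟩, Subtype.ext (mul_inv_cancel₀ hπ0),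
        Subtype.ext (inv_mul_cancel₀ hπ0)⟩, rfl⟩
  refine ⟨(eord σ (π : F)).toNat, by omega, fun f => ?_⟩
  rcases eq_or_ne f 0 with rfl | hf
  · simp
  obtain ⟨u, hu⟩ := v.exists_unit_mul_zpow hf hπ
  have hu0 : ((u : v.toValuationSubring) : F) ≠ 0 := by
    intro h
    exact u.ne_zero (Subtype.ext h)
  have hu1 : 0 ≤ eord σ ((u : v.toValuationSubring) : F) := (hmem _).mp (u : v.toValuationSubring).2
  have hu2 : 0 ≤ eord σ (((u⁻¹ : v.toValuationSubringˣ) : v.toValuationSubring) : F) :=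
    (hmem _).mp ((u⁻¹ : v.toValuationSubringˣ) : v.toValuationSubring).2
  have hmul : ((u : v.toValuationSubring) : F)
      * (((u⁻¹ : v.toValuationSubringˣ) : v.toValuationSubring) : F) = 1 := by
    exact congrArg Subtype.val (Units.mul_inv u)
  have hu2' : eord σ (((u⁻¹ : v.toValuationSubringˣ) : v.toValuationSubring) : F)
      = - eord σ ((u : v.toValuationSubring) : F) := by
    rw [← eord_inv]
    congr 1
    exact eq_inv_of_mul_eq_one_right hmul
  have hu3 : eord σ ((u : v.toValuationSubring) : F) = 0 := by omega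
  conv_lhs => rw [hu]
  rw [eord_mul σ hu0 (zpow_ne_zero _ hπ0), eord_zpow, hu3, zero_add,
    Int.toNat_of_nonneg hπnn]
  ring

theorem exists_mult (hK : ∀ c : K, 0 ≤ eord σ (algebraMap K F c))
    (hnt : ∃ t : F, eord σ t ≠ 0) :
    ∃ k : ℕ, 0 < k ∧ ∀ f : F, eord σ f = k * (placeOfEmb σ hK hnt).ord f :=
  exists_mult_of_eq σ _ rfl

end Emb

section LocalDataPlaces

variable {X : Type*} {t : F} (L : LocalData K F C X t)

theorem eord_const (x : X) (c : K) : eord (L.σ x) (algebraMap K F c) = 0 := by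
  simp only [eord, L.σ_const, HahnSeries.order_C]

theorem eord_t (x : X) : eord (L.σ x) t = L.m := L.σ_t_order x

theorem nontrivial_σ (x : X) : ∃ s : F, eord (L.σ x) s ≠ 0 :=
  ⟨t, by rw [eord_t]; exact_mod_cast L.m_pos.ne'⟩

/-- **LT1.** The place of `F/K` induced by the embedding `L.σ x`. -/
def placeOf (x : X) : Place K F :=
  placeOfEmb (L.σ x) (fun c => (eord_const L x c).ge) (nontrivial_σ L x)

theorem exists_mult_placeOf (x : X) :
    ∃ k : ℕ, 0 < k ∧ ∀ f : F, ((L.σ x) f).order = k * (placeOf L x).ord f :=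
  exists_mult (L.σ x) _ _

/-- The multiplicity `k_x` with `ord_z ∘ σ_x = k_x * ord_{v_x}`. -/
def mult (x : X) : ℕ := (exists_mult_placeOf L x).choose

theorem mult_pos (x : X) : 0 < mult L x := (exists_mult_placeOf L x).choose_spec.1

theorem order_eq (x : X) (f : F) :
    ((L.σ x) f).order = mult L x * (placeOf L x).ord f :=
  (exists_mult_placeOf L x).choose_spec.2 f

theorem mem_placeOf_iff (x : X) (f : F) :
    f ∈ (placeOf L x).toValuationSubring ↔ 0 ≤ ((L.σ x) f).order := Iff.rfl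

theorem ord_placeOf_nonneg_iff (x : X) (f : F) :
    0 ≤ (placeOf L x).ord f ↔ 0 ≤ ((L.σ x) f).order := by
  rw [← mem_iff_ord_nonneg]; rfl

theorem mult_mul_ord_t (x : X) : (mult L x : ℤ) * (placeOf L x).ord t = L.m := by
  rw [← order_eq, L.σ_t_order]

theorem ord_t_pos (x : X) : 0 < (placeOf L x).ord t := by
  have h := mult_mul_ord_t L x
  have hk : (0 : ℤ) < mult L x := by exact_mod_cast mult_pos L x
  have hm : (0 : ℤ) < L.m := by exact_mod_cast L.m_pos
  by_contra hcon
  push Not at hcon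
  nlinarith

theorem placeOf_perm (x : X) : placeOf L (L.perm x) = placeOf L x := by
  apply Place.ext
  ext f
  show 0 ≤ ((L.σ (L.perm x)) f).order ↔ 0 ≤ ((L.σ x) f).order
  rw [L.σ_perm_order]

theorem mult_perm (x : X) : mult L (L.perm x) = mult L x := by
  obtain ⟨π, hπ0, hπ⟩ := exists_ord_eq_one (placeOf L x)
  have h1 := order_eq L x π
  have h2 := order_eq L (L.perm x) π
  rw [L.σ_perm_order, placeOf_perm, h1, hπ] at h2
  have : (mult L x : ℤ) = mult L (L.perm x) := by linarith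
  exact_mod_cast this.symm

end LocalDataPlaces

end Fermat.Agent.S24.H117

end
end
-- ===== PACK-END S24/H117/EmbPlace.lean

-- ===== PACK-BEGIN S24/H117/RatFun.lean
section


/-!
# S24 / H117 — orders of rational functions of `t` at places over `t = 0`

If `0 < v.ord t` then for every `e ∈ K⟮t⟯` the order `v.ord e` is `n * v.ord t` for an integer
`n` depending only on `e` (the `t`-adic order of `e`).
-/

set_option autoImplicit false

noncomputable section

open AlgebraicCurve Polynomial IntermediateField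

namespace Fermat.Agent.S24.H117

variable {K F : Type*} [Field K] [Field F] [Algebra K F]

theorem aeval_mem_place (v : Place K F) {t : F} (hv : 0 ≤ v.ord t) (p : K[X]) :
    aeval t p ∈ v.toValuationSubring := by
  rw [aeval_eq_sum_range]
  refine Subring.sum_mem v.toValuationSubring.toSubring (fun i _ => ?_)
  rw [Algebra.smul_def]
  exact mul_mem (v.algebraMap_mem' _) (pow_mem (mem_of_ord_nonneg v hv) _)

theorem ord_aeval_of_coeff_zero_ne (v : Place K F) {t : F} (hv : 0 < v.ord t) (q : K[X])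
    (hq : q.coeff 0 ≠ 0) : v.ord (aeval t q) = 0 := by
  have hdecomp : aeval t q = algebraMap K F (q.coeff 0) + aeval t q.divX * t := by
    conv_lhs => rw [← divX_mul_X_add q]
    simp only [map_add, map_mul, aeval_X, aeval_C]
    ring
  have hc : v.ord (algebraMap K F (q.coeff 0)) = 0 := _root_.Fermat.Agent.S24.H117.ord_algebraMap v _
  have hc0 : algebraMap K F (q.coeff 0) ≠ 0 := by simpa using hq
  rw [hdecomp]
  rcases eq_or_ne (aeval t q.divX * t) 0 with h0 | h0
  · rw [h0, add_zero, hc]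
  · have ht0 : t ≠ 0 := right_ne_zero_of_mul h0
    have hd0 : aeval t q.divX ≠ 0 := left_ne_zero_of_mul h0
    have h1 : 0 ≤ v.ord (aeval t q.divX) :=
      ord_nonneg_of_mem v (aeval_mem_place v hv.le _)
    have h2 : 0 < v.ord (aeval t q.divX * t) := by
      rw [v.ord_mul hd0 ht0]; omega
    rw [ord_add_eq_of_lt v (by rw [hc]; exact h2) hc0, hc]

theorem ord_aeval_eq (v : Place K F) {t : F} (hv : 0 < v.ord t) (p : K[X]) (hp : p ≠ 0) :
    aeval t p ≠ 0 ∧ v.ord (aeval t p) = (p.rootMultiplicity 0 : ℤ) * v.ord t := by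
  obtain ⟨q, hpq, hq⟩ := exists_eq_pow_rootMultiplicity_mul_and_not_dvd p hp 0
  have hq0 : q.coeff 0 ≠ 0 := by
    intro h
    apply hq
    rw [C_0, sub_zero]
    exact X_dvd_iff.mpr h
  have ht0 : t ≠ 0 := ne_zero_of_ord_ne_zero v hv.ne'
  have hqu := ord_aeval_of_coeff_zero_ne v hv q hq0
  have hqne : aeval t q ≠ 0 := by
    intro h
    have hdecomp : aeval t q = algebraMap K F (q.coeff 0) + aeval t q.divX * t := by
      conv_lhs => rw [← divX_mul_X_add q]
      simp only [map_add, map_mul, aeval_X, aeval_C]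
      ring
    -- if `aeval t q = 0` then the constant term has positive order
    have hc0 : algebraMap K F (q.coeff 0) ≠ 0 := by simpa using hq0
    have hc : v.ord (algebraMap K F (q.coeff 0)) = 0 := _root_.Fermat.Agent.S24.H117.ord_algebraMap v _
    have heq : algebraMap K F (q.coeff 0) = -(aeval t q.divX * t) := by
      rw [h] at hdecomp
      exact eq_neg_of_add_eq_zero_left hdecomp.symm
    have hne : aeval t q.divX * t ≠ 0 := by
      intro h0
      rw [h0, neg_zero] at heq
      exact hc0 heq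
    have hd0 : aeval t q.divX ≠ 0 := left_ne_zero_of_mul hne
    have h1 : 0 ≤ v.ord (aeval t q.divX) :=
      ord_nonneg_of_mem v (aeval_mem_place v hv.le _)
    rw [heq, _root_.Fermat.Agent.S24.H117.ord_neg, v.ord_mul hd0 ht0] at hc
    omega
  have hval : aeval t p = t ^ p.rootMultiplicity 0 * aeval t q := by
    conv_lhs => rw [hpq]
    simp only [C_0, sub_zero, map_mul, map_pow, aeval_X]
  refine ⟨?_, ?_⟩
  · rw [hval]
    exact mul_ne_zero (pow_ne_zero _ ht0) hqne
  · rw [hval, v.ord_mul (pow_ne_zero _ ht0) hqne, ord_pow, hqu, add_zero]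

/-- The order at a place over `t = 0` of an element of `K(t)` is a fixed multiple of `ord t`. -/
theorem exists_ord_eq_mul_of_mem_adjoin {t e : F} (he : e ∈ K⟮t⟯) :
    ∃ n : ℤ, ∀ v : Place K F, 0 < v.ord t → v.ord e = n * v.ord t := by
  obtain ⟨r, s, rfl⟩ := (mem_adjoin_simple_iff K e).mp he
  by_cases hr : r = 0
  · exact ⟨0, fun v _ => by simp [hr]⟩
  by_cases hs : s = 0
  · exact ⟨0, fun v _ => by simp [hs]⟩
  refine ⟨(r.rootMultiplicity 0 : ℤ) - s.rootMultiplicity 0, fun v hv => ?_⟩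
  obtain ⟨hr1, hr2⟩ := ord_aeval_eq v hv r hr
  obtain ⟨hs1, hs2⟩ := ord_aeval_eq v hv s hs
  rw [ord_div v hr1 hs1, hr2, hs2]
  ring

/-- Transfer of integrality on `K(t)` between two places over `t = 0`. -/
theorem ord_nonneg_of_mem_adjoin {t e : F} (he : e ∈ K⟮t⟯) {v w : Place K F}
    (hv : 0 < v.ord t) (hw : 0 < w.ord t) (h : 0 ≤ w.ord e) : 0 ≤ v.ord e := by
  obtain ⟨n, hn⟩ := exists_ord_eq_mul_of_mem_adjoin (K := K) he
  rw [hn w hw] at h
  rw [hn v hv]
  have hn0 : 0 ≤ n := by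
    by_contra hneg
    push Not at hneg
    nlinarith
  positivity

end Fermat.Agent.S24.H117

end
end
-- ===== PACK-END S24/H117/RatFun.lean

-- ===== PACK-BEGIN S24/H117/Integral.lean
section




/-!
# S24 / H117 — integrality at all places over `t = 0` from the embeddings

Key lemma for LT2: if `F / E` (`E ⊆ K(t)`) has degree `#X` and `L : LocalData K F C X t`, then an
element `f : F` whose images under all the embeddings `L.σ x` have non-negative order has
non-negative order at **every** place `v` of `F` with `0 < v.ord t`.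
-/

set_option autoImplicit false
set_option linter.style.haveILetI false

noncomputable section

open AlgebraicCurve Polynomial IntermediateField

namespace Fermat.Agent.S24.H117

variable {K F : Type*} [Field K] [Field F] [Algebra K F]
variable {C : Type*} [Field C] {X : Type*}
variable {t : F} (L : LocalData K F C X t)

theorem σ_aeval_eq (x y : X) (p : K[X]) : L.σ x (aeval t p) = L.σ y (aeval t p) := by
  rw [aeval_eq_sum_range]
  simp only [map_sum, Algebra.smul_def, map_mul, map_pow, L.σ_const, L.σ_t_eq x y]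

/-- All the embeddings of a `LocalData` agree on `K(t)`. -/
theorem σ_eq_of_mem_adjoin (x y : X) {e : F} (he : e ∈ K⟮t⟯) : L.σ x e = L.σ y e := by
  obtain ⟨r, s, rfl⟩ := (mem_adjoin_simple_iff K e).mp he
  rw [map_div₀, map_div₀, σ_aeval_eq L x y r, σ_aeval_eq L x y s]

variable [CharZero K]

/-- **Integrality lemma.** -/
theorem ord_nonneg_of_forall_order_nonneg
    (E : IntermediateField K F) (hE : E ≤ K⟮t⟯) [FiniteDimensional E F]
    (hrank : Module.finrank E F = Nat.card X)
    (f : F) (hf : ∀ x, 0 ≤ ((L.σ x) f).order)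
    (v : Place K F) (hv : 0 < v.ord t) : 0 ≤ v.ord f := by
  classical
  have hXne : Nonempty X := by
    have h0 : 0 < Nat.card X := hrank ▸ Module.finrank_pos
    exact (Nat.card_pos_iff.mp h0).1
  obtain ⟨x₀⟩ := hXne
  have : CharZero E := charZero_of_injective_algebraMap (algebraMap K E).injective
  let σ₀ : E →+* LaurentSeries C := (L.σ x₀).comp (algebraMap E F)
  letI algELS : Algebra E (LaurentSeries C) := σ₀.toAlgebra
  -- the embeddings as `E`-algebra homomorphisms into the algebraic closure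
  let τ : X → (F →ₐ[E] AlgebraicClosure (LaurentSeries C)) := fun x =>
    { toRingHom := (algebraMap (LaurentSeries C) (AlgebraicClosure (LaurentSeries C))).comp (L.σ x)
      commutes' := fun e => by
        show algebraMap (LaurentSeries C) (AlgebraicClosure (LaurentSeries C)) (L.σ x (e : F))
          = algebraMap (LaurentSeries C) (AlgebraicClosure (LaurentSeries C)) (L.σ x₀ (e : F))
        rw [σ_eq_of_mem_adjoin L x x₀ (hE e.2)] }
  have hτapply : ∀ x g, τ x g
      = algebraMap (LaurentSeries C) (AlgebraicClosure (LaurentSeries C)) (L.σ x g) :=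
    fun _ _ => rfl
  have hτinj : Function.Injective τ := by
    intro x y hxy
    apply L.σ_inj
    ext g : 1
    have := DFunLike.congr_fun hxy g
    rw [hτapply, hτapply] at this
    exact (algebraMap (LaurentSeries C) (AlgebraicClosure (LaurentSeries C))).injective this
  have hcard : Nat.card (F →ₐ[E] AlgebraicClosure (LaurentSeries C)) = Nat.card X := by
    rw [← hrank, ← Fintype.card_eq_nat_card]
    exact AlgHom.card E F (AlgebraicClosure (LaurentSeries C))
  have hτsurj : Function.Surjective τ :=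
    ((Nat.bijective_iff_injective_and_card τ).mpr ⟨hτinj, hcard.symm⟩).2
  -- the minimal polynomial of `f`
  have hfint : IsIntegral E f := Algebra.IsIntegral.isIntegral f
  have hPmonic : (minpoly E f).Monic := minpoly.monic hfint
  -- coefficients of the minimal polynomial are integral at `x₀`
  have hcoeff : ∀ i, 0 ≤ ((L.σ x₀) (((minpoly E f).coeff i : E) : F)).order := by
    intro i
    have hint : IsIntegral (OL C)
        (((minpoly E f).map (algebraMap E (AlgebraicClosure (LaurentSeries C)))).coeff i) := by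
      refine Polynomial.isIntegral_coeff_of_factors _ ?_ (IsAlgClosed.splits _) ?_ i
      · rw [(hPmonic.map _).leadingCoeff]
        exact isIntegral_one
      · intro r hr
        have hr' : r ∈ (minpoly E f).rootSet (AlgebraicClosure (LaurentSeries C)) := by
          rw [mem_rootSet']
          refine ⟨(hPmonic.map _).ne_zero, ?_⟩
          rw [IsRoot, eval_map_algebraMap] at hr
          exact hr
        rw [← Algebra.IsAlgebraic.range_eval_eq_rootSet_minpoly] at hr'
        obtain ⟨ψ, rfl⟩ := hr'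
        obtain ⟨x, rfl⟩ := hτsurj ψ
        show IsIntegral (OL C) (τ x f)
        rw [hτapply]
        have : algebraMap (LaurentSeries C) (AlgebraicClosure (LaurentSeries C)) (L.σ x f)
            = algebraMap (OL C) (AlgebraicClosure (LaurentSeries C)) ⟨L.σ x f, hf x⟩ := rfl
        rw [this]
        exact isIntegral_algebraMap
    rw [coeff_map] at hint
    have h2 : IsIntegral (OL C) (σ₀ ((minpoly E f).coeff i)) := by
      have : algebraMap E (AlgebraicClosure (LaurentSeries C)) ((minpoly E f).coeff i)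
          = algebraMap (LaurentSeries C) (AlgebraicClosure (LaurentSeries C))
            (σ₀ ((minpoly E f).coeff i)) := rfl
      rw [this] at hint
      exact (isIntegral_algebraMap_iff
        (algebraMap (LaurentSeries C) (AlgebraicClosure (LaurentSeries C))).injective).mp hint
    obtain ⟨y, hy⟩ := IsIntegrallyClosed.isIntegral_iff.mp h2
    have : σ₀ ((minpoly E f).coeff i) ∈ OL C := hy ▸ y.2
    exact this
  -- transfer to `v`
  have hcoeffv : ∀ i, (((minpoly E f).coeff i : E) : F) ∈ v.toValuationSubring := fun i =>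
    mem_of_ord_nonneg v (ord_nonneg_of_mem_adjoin (hE ((minpoly E f).coeff i).2) hv
      (ord_t_pos L x₀) ((ord_placeOf_nonneg_iff L x₀ _).mpr (hcoeff i)))
  -- `f` is integral over `O_v`
  have hint : IsIntegral v.toValuationSubring f := by
    have hlifts : (minpoly E f).map (algebraMap E F)
        ∈ Polynomial.lifts (algebraMap v.toValuationSubring F) := by
      rw [lifts_iff_coeff_lifts]
      intro n
      rw [coeff_map]
      exact ⟨⟨_, hcoeffv n⟩, rfl⟩
    obtain ⟨q, hq, -, hqm⟩ := lifts_and_natDegree_eq_and_monic hlifts (hPmonic.map _)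
    refine ⟨q, hqm, ?_⟩
    rw [← eval_map, hq, eval_map_algebraMap]
    exact minpoly.aeval E f
  obtain ⟨y, hy⟩ := IsIntegrallyClosed.isIntegral_iff.mp hint
  exact ord_nonneg_of_mem v (hy ▸ y.2)

end Fermat.Agent.S24.H117

end
end
-- ===== PACK-END S24/H117/Integral.lean

-- ===== PACK-BEGIN S24/H117/Approx.lean
section


/-!
# S24 / H117 — a weak approximation lemma for places

For a place `v` and a finite set `s` of places not containing `v`, there is `f : F` with
`v.ord f < 0` and `0 < w.ord f` for all `w ∈ s`.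
-/

set_option autoImplicit false

noncomputable section

open AlgebraicCurve

namespace Fermat.Agent.S24.H117

variable {K F : Type*} [Field K] [Field F] [Algebra K F]

/-- Two distinct places are separated by a function. -/
theorem exists_ord_pos_neg {v w : Place K F} (h : v ≠ w) :
    ∃ y : F, 0 < v.ord y ∧ w.ord y < 0 := by
  have h1 : ∃ a : F, 0 ≤ v.ord a ∧ w.ord a < 0 := by
    by_contra hcon
    push Not at hcon
    exact h (place_ext_of_le hcon)
  have h2 : ∃ b : F, 0 ≤ w.ord b ∧ v.ord b < 0 := by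
    by_contra hcon
    push Not at hcon
    exact h (place_ext_of_le hcon).symm
  obtain ⟨a, ha1, ha2⟩ := h1
  obtain ⟨b, hb1, hb2⟩ := h2
  have ha0 : a ≠ 0 := ne_zero_of_ord_ne_zero w ha2.ne
  have hb0 : b ≠ 0 := ne_zero_of_ord_ne_zero v hb2.ne
  refine ⟨a / b, ?_, ?_⟩
  · rw [ord_div v ha0 hb0]; omega
  · rw [ord_div w ha0 hb0]; omega

/-- There is a function with a zero at `v` and poles at all places of `s`. -/
theorem exists_ord_pos_forall_neg (v : Place K F) (s : Finset (Place K F)) (hv : v ∉ s) :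
    ∃ u : F, 0 < v.ord u ∧ ∀ w ∈ s, w.ord u < 0 := by
  classical
  induction s using Finset.induction_on with
  | empty =>
    obtain ⟨π, -, hπ⟩ := exists_ord_eq_one v
    exact ⟨π, by omega, by simp⟩
  | insert w s hw ih =>
    have hvs : v ∉ s := fun h => hv (Finset.mem_insert_of_mem h)
    have hvw : v ≠ w := fun h => hv (h ▸ Finset.mem_insert_self _ _)
    obtain ⟨u, hu1, hu2⟩ := ih hvs
    by_cases hwu : w.ord u < 0
    · refine ⟨u, hu1, fun w' hw' => ?_⟩
      rcases Finset.mem_insert.mp hw' with rfl | h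
      · exact hwu
      · exact hu2 w' h
    · push Not at hwu
      obtain ⟨y, hy1, hy2⟩ := exists_ord_pos_neg hvw
      have hu0 : u ≠ 0 := ne_zero_of_ord_ne_zero v hu1.ne'
      have hy0 : y ≠ 0 := ne_zero_of_ord_ne_zero v hy1.ne'
      -- choose a large exponent
      obtain ⟨N, hN1, hNbig⟩ : ∃ N : ℕ, 1 ≤ N ∧ ∀ w' ∈ s, (w'.ord u).natAbs < N := by
        refine ⟨1 + ∑ w' ∈ s, (w'.ord u).natAbs, by omega, fun w' hw' => ?_⟩
        have := Finset.single_le_sum (f := fun w' : Place K F => (w'.ord u).natAbs)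
          (fun _ _ => Nat.zero_le _) hw'
        have h2 : (w'.ord u).natAbs ≤ ∑ w' ∈ s, (w'.ord u).natAbs := this
        omega
      have hyN0 : y ^ N ≠ 0 := pow_ne_zero _ hy0
      have hwlt : w.ord (y ^ N) < w.ord u := by
        rw [ord_pow]
        have : (N : ℤ) * w.ord y < 0 := by
          have : (1 : ℤ) ≤ N := by exact_mod_cast hN1
          nlinarith
        omega
      have hsum_w : w.ord (u + y ^ N) = w.ord (y ^ N) := by
        rw [add_comm]
        exact ord_add_eq_of_lt w hwlt hyN0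
      have hne : u + y ^ N ≠ 0 := by
        apply ne_zero_of_ord_ne_zero w
        rw [hsum_w, ord_pow]
        have : (1 : ℤ) ≤ N := by exact_mod_cast hN1
        nlinarith
      refine ⟨u + y ^ N, ?_, fun w' hw' => ?_⟩
      · have := ord_add_ge v hne
        have h2 : 0 < v.ord (y ^ N) := by
          rw [ord_pow]
          have : (1 : ℤ) ≤ N := by exact_mod_cast hN1
          nlinarith
        have : 0 < min (v.ord u) (v.ord (y ^ N)) := lt_min hu1 h2
        omega
      · rcases Finset.mem_insert.mp hw' with rfl | h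
        · rw [hsum_w, ord_pow]
          have : (1 : ℤ) ≤ N := by exact_mod_cast hN1
          nlinarith
        · have hu' := hu2 w' h
          have hbig := hNbig w' h
          have hneq : w'.ord (y ^ N) ≠ w'.ord u := by
            rw [ord_pow]
            intro heq
            rcases eq_or_ne (w'.ord y) 0 with h0 | h0
            · rw [h0, mul_zero] at heq
              omega
            · have h1 : (w'.ord u).natAbs = N * (w'.ord y).natAbs := by
                rw [← heq, Int.natAbs_mul, Int.natAbs_natCast]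
              have h2 : 1 ≤ (w'.ord y).natAbs := Int.natAbs_pos.mpr h0
              have h3 : N ≤ N * (w'.ord y).natAbs := Nat.le_mul_of_pos_right N h2
              omega
          rcases lt_or_gt_of_ne hneq with hlt | hgt
          · rw [add_comm, ord_add_eq_of_lt w' hlt hyN0]
            omega
          · rw [ord_add_eq_of_lt w' hgt hu0]
            exact hu'

/-- **Weak approximation (the form we need).** -/
theorem exists_ord_neg_forall_pos (v : Place K F) (s : Finset (Place K F)) (hv : v ∉ s) :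
    ∃ f : F, v.ord f < 0 ∧ ∀ w ∈ s, 0 < w.ord f := by
  obtain ⟨u, hu1, hu2⟩ := exists_ord_pos_forall_neg v s hv
  refine ⟨u⁻¹, ?_, fun w hw => ?_⟩
  · rw [v.ord_inv]; omega
  · rw [w.ord_inv]
    have := hu2 w hw
    omega

end Fermat.Agent.S24.H117

end
end
-- ===== PACK-END S24/H117/Approx.lean

-- ===== PACK-BEGIN S29/H152/DescMain.lean
section
/-
S29 / DESC (helper152) — DESCENT `Ω → K` of Kummer classes (piece K3 of the S29 row plan).

Main result `desc_main`: let `K ⊆ Ω` be algebraically closed fields of characteristic `0`,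
`F₀ ⊆ ℚ((q))` a field containing a series `j₀` of order `-1` such that `Ω·F₀` has bounded degree
over `Ω(j₀)`.  If `f ∈ Ω·F₀` has a `p`-th root in `Ω((q))` and the `Aut(Ω/K)`-orbit of the class of
`f` modulo `p`-th powers of `Ω·F₀` is finite, then `f · g ^ p` has coefficients in `K` and lies in
`K·F₀` for some nonzero `g ∈ Ω·F₀`.

No places, no Riemann–Roch, no analysis: the space `W = h·(Ω·F₀) ∩ {integral over Ω[j], pole order
≤ m at the cusps}` is nonzero, stable under the finite-index stabiliser `H` of the class, and the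
orders of its nonzero elements are bounded (`descBound_order_le`); its element of maximal order
with leading coefficient `1` is fixed by `H`, so its coefficients lie in `Ω^H = K`.
-/









set_option autoImplicit false

namespace Fermat.Agent.S29.H152

open ModularCurve Polynomial

variable {K Ω : Type*} [Field K] [Field Ω] [Algebra K Ω]

theorem descMain_smul_eq (c : Ω) (v : LaurentSeries Ω) :
    c • v = algebraMap Ω (LaurentSeries Ω) c * v := by
  rw [algebraMap_laurentSeries_eq_single, HahnSeries.single_zero_mul_eq_smul]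

theorem descMain_order_coeffMap {R S : Type*} [CommRing R] [CommRing S] (φ : R →+* S)
    (hφ : Function.Injective φ) (x : LaurentSeries R) : (coeffMap φ x).order = x.order := by
  by_cases hx : x = 0
  · rw [hx, map_zero, HahnSeries.order_zero, HahnSeries.order_zero]
  have hx' : coeffMap φ x ≠ 0 := by
    intro h
    apply hx
    ext k
    have := congrArg (fun y => HahnSeries.coeff y k) h
    simp only [coeffMap_coeff, HahnSeries.coeff_zero] at this
    rw [HahnSeries.coeff_zero]
    exact hφ (by rw [this, map_zero])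
  apply le_antisymm
  · apply HahnSeries.order_le_of_coeff_ne_zero
    rw [coeffMap_coeff]
    intro h
    exact hx (HahnSeries.coeff_order_eq_zero.mp (hφ (by rw [h, map_zero])))
  · apply HahnSeries.order_le_of_coeff_ne_zero
    intro h
    apply hx'
    apply HahnSeries.coeff_order_eq_zero.mp
    rw [coeffMap_coeff, h, map_zero]

/-! ### The space `W` -/

section W

variable (F : IntermediateField Ω (LaurentSeries Ω)) (j h : LaurentSeries Ω) (m : ℕ)

/-- `W = {v ∈ h·F : v integral over Ω[j], v·j⁻ᵐ integral over Ω[j⁻¹]}`. -/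
def descW : Submodule Ω (LaurentSeries Ω) where
  carrier := {v | (∃ g ∈ F, v = h * g) ∧ IsIntegral (Algebra.adjoin Ω {j}) v ∧
      IsIntegral (Algebra.adjoin Ω {j⁻¹}) (v * j⁻¹ ^ m)}
  zero_mem' := ⟨⟨0, zero_mem _, (mul_zero h).symm⟩, isIntegral_zero, by
    rw [zero_mul]; exact isIntegral_zero⟩
  add_mem' := by
    rintro v w ⟨⟨g, hg, rfl⟩, hv1, hv2⟩ ⟨⟨g', hg', rfl⟩, hw1, hw2⟩
    refine ⟨⟨g + g', add_mem hg hg', (mul_add _ _ _).symm⟩, hv1.add hw1, ?_⟩
    rw [add_mul]
    exact hv2.add hw2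
  smul_mem' := by
    rintro c v ⟨⟨g, hg, rfl⟩, hv1, hv2⟩
    show c • (h * g) ∈ _
    rw [descMain_smul_eq]
    refine ⟨⟨algebraMap Ω _ c * g, mul_mem (F.algebraMap_mem c) hg, by ring⟩, ?_, ?_⟩
    · exact (isIntegral_algebraMap
        (x := (⟨_, Subalgebra.algebraMap_mem _ c⟩ : Algebra.adjoin Ω {j}))).mul hv1
    · rw [mul_assoc]
      exact (isIntegral_algebraMap
        (x := (⟨_, Subalgebra.algebraMap_mem _ c⟩ : Algebra.adjoin Ω {j⁻¹}))).mul hv2

variable {F j h m}

theorem mem_descW {v : LaurentSeries Ω} :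
    v ∈ descW F j h m ↔ (∃ g ∈ F, v = h * g) ∧ IsIntegral (Algebra.adjoin Ω {j}) v ∧
      IsIntegral (Algebra.adjoin Ω {j⁻¹}) (v * j⁻¹ ^ m) := Iff.rfl

end W

/-! ### The main theorem -/

section Main

variable [IsAlgClosed K] [IsAlgClosed Ω] [CharZero Ω] [Algebra ℚ K] [Algebra ℚ Ω]

open scoped IntermediateField.algebraAdjoinAdjoin in
/-- **DESCENT of Kummer classes** from `Ω` to `K`. -/
theorem desc_main (F₀ : IntermediateField ℚ (LaurentSeries ℚ))
    (j₀ : LaurentSeries ℚ) (hj₀ : j₀ ∈ F₀) (hj₀ord : j₀.order = -1) (n : ℕ)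
    (hdeg : ∀ u ∈ laurentBaseChange Ω F₀,
      IsIntegral (IntermediateField.adjoin Ω {coeffEmb Ω j₀}) u ∧
        (minpoly (IntermediateField.adjoin Ω {coeffEmb Ω j₀}) u).natDegree ≤ n)
    (p : ℕ) (hp : 0 < p) (f h : LaurentSeries Ω) (hf : f ∈ laurentBaseChange Ω F₀)
    (hf0 : f ≠ 0) (hh : h ^ p = f) (T : Set (LaurentSeries Ω)) (hT : T.Finite)
    (horb : ∀ σ : Ω ≃ₐ[K] Ω, ∃ t ∈ T, ∃ u ∈ laurentBaseChange Ω F₀, u ≠ 0 ∧
      coeffMap (σ : Ω →+* Ω) f = t * u ^ p) :
    ∃ g ∈ laurentBaseChange Ω F₀, g ≠ 0 ∧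
      IsIntegral (Algebra.adjoin Ω {coeffEmb Ω j₀}) (h * g) ∧
      (∃ m : ℕ, IsIntegral (Algebra.adjoin Ω {(coeffEmb Ω j₀)⁻¹}) (h * g * (coeffEmb Ω j₀)⁻¹ ^ m)) ∧
      (∃ v' : LaurentSeries K, h * g = coeffMap (algebraMap K Ω) v') ∧
      ∃ f' ∈ laurentBaseChange K F₀, f * g ^ p = coeffMap (algebraMap K Ω) f' := by
  classical
  set F := laurentBaseChange Ω F₀ with hFdef
  set j := coeffEmb Ω j₀ with hjdef
  have hjF : j ∈ F := coeffEmb_mem_laurentBaseChange Ω hj₀
  have hj : j.order = -1 := by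
    rw [hjdef, coeffEmb, descMain_order_coeffMap _ (algebraMap ℚ Ω).injective, hj₀ord]
  have hj0 : j ≠ 0 := descBound_j_ne_zero hj
  have hh0 : h ≠ 0 := by
    rintro rfl
    rw [zero_pow hp.ne'] at hh
    exact hf0 hh.symm
  have hFstab : ∀ (σ : Ω ≃ₐ[K] Ω) (x : LaurentSeries Ω), x ∈ F → descSig σ x ∈ F :=
    fun σ x hx => descSig_mem_laurentBaseChange F₀ σ hx
  have hσj : ∀ σ : Ω ≃ₐ[K] Ω, descSig σ j = j := fun σ => descSig_coeffEmb σ j₀
  have hσjinv : ∀ σ : Ω ≃ₐ[K] Ω, descSig σ j⁻¹ = j⁻¹ := fun σ => by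
    rw [map_inv₀, hσj]
  have hadjF : ∀ x ∈ Algebra.adjoin Ω {j}, x ∈ F := by
    intro x hx
    have hle : Algebra.adjoin Ω {j} ≤ F.toSubalgebra :=
      Algebra.adjoin_le (Set.singleton_subset_iff.mpr hjF)
    exact hle hx
  -- the stabiliser
  set H := descStab F hFstab f p with hH
  have hidx : H.index ≠ 0 := descStab_index_ne_zero F hFstab f p T hT horb
  -- a nonzero element of `W`
  obtain ⟨b, hbR, hb0, hbf⟩ : ∃ b ∈ Algebra.adjoin Ω {j}, b ≠ 0 ∧
      IsIntegral (Algebra.adjoin Ω {j}) (b * f) := by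
    have halg : IsAlgebraic (Algebra.adjoin Ω {j}) f :=
      (IsFractionRing.isAlgebraic_iff (Algebra.adjoin Ω {j})
        (IntermediateField.adjoin Ω {j}) (LaurentSeries Ω)).mpr (hdeg f hf).1.isAlgebraic
    obtain ⟨y, hy0, hy⟩ := halg.exists_integral_multiple
    refine ⟨y, y.2, fun h0 => hy0 (Subtype.ext h0), ?_⟩
    rwa [Algebra.smul_def] at hy
  have hbint : IsIntegral (Algebra.adjoin Ω {j}) b :=
    isIntegral_algebraMap (x := (⟨b, hbR⟩ : Algebra.adjoin Ω {j}))
  have hv₀int : IsIntegral (Algebra.adjoin Ω {j}) (h * b) := by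
    refine IsIntegral.of_pow hp ?_
    have : (h * b) ^ p = (b * f) * b ^ (p - 1) := by
      rw [mul_pow, hh, mul_comm f, mul_assoc, mul_comm f, ← mul_assoc, ← pow_succ',
        Nat.sub_add_cancel hp, mul_comm]
    rw [this]
    exact hbf.mul (hbint.pow _)
  obtain ⟨m, hm⟩ := descInt_exists_pow hj hv₀int
  have hv₀W : h * b ∈ descW F j h m := ⟨⟨b, hadjF b hbR, rfl⟩, hv₀int, hm⟩
  have hv₀0 : h * b ≠ 0 := mul_ne_zero hh0 hb0
  -- bounded orders
  have hbound : ∀ v ∈ descW F j h m, v ≠ 0 → v.order ≤ (m : ℤ) * ((n * p : ℕ) : ℤ) := by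
    rintro v ⟨⟨g, hg, rfl⟩, hv1, hv2⟩ hv0
    refine descBound_order_le hj m (n * p) hv0 hv1 hv2 ?_
    have hvp : (h * g) ^ p ∈ F := by
      rw [mul_pow, hh]
      exact mul_mem hf (pow_mem hg p)
    obtain ⟨hint, hdegp⟩ := hdeg _ hvp
    set E := IntermediateField.adjoin Ω {j} with hE
    have hQ0 : minpoly E ((h * g) ^ p) ≠ 0 := minpoly.ne_zero hint
    have hexp0 : Polynomial.expand E p (minpoly E ((h * g) ^ p)) ≠ 0 := by
      rwa [Ne, Polynomial.expand_eq_zero hp]
    have hroot : aeval (h * g) (Polynomial.expand E p (minpoly E ((h * g) ^ p))) = 0 := by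
      rw [Polynomial.expand_aeval, minpoly.aeval]
    have h1 := minpoly.degree_le_of_ne_zero E (h * g) hexp0 hroot
    have h2 := Polynomial.natDegree_le_natDegree h1
    rw [Polynomial.natDegree_expand] at h2
    exact h2.trans (Nat.mul_le_mul_right p hdegp)
  -- stability under `H`
  have hstab : ∀ φ ∈ {φ : Ω →+* Ω | ∃ σ ∈ H, φ = (σ : Ω →+* Ω)}, ∀ v ∈ descW F j h m,
      coeffMap φ v ∈ descW F j h m := by
    rintro φ ⟨σ, ⟨u, hu, hu0, hσ⟩, rfl⟩ v ⟨⟨g, hg, rfl⟩, hv1, hv2⟩
    show descSig σ (h * g) ∈ _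
    -- `σ h = h * (ζ u)` with `ζ` a constant
    have hhu0 : h * u ≠ 0 := mul_ne_zero hh0 hu0
    have hζ : (descSig σ h / (h * u)) ^ p = 1 := by
      rw [div_pow, ← map_pow, hh, hσ, mul_pow, hh]
      exact div_self (mul_ne_zero hf0 (pow_ne_zero _ hu0))
    obtain ⟨c, hc⟩ := descInt_mem_range_of_pow_eq_one (Ω := Ω) hp hζ
    have hσh : descSig σ h = h * (algebraMap Ω _ c * u) := by
      rw [hc, mul_comm (descSig σ h / (h * u)), ← mul_assoc, mul_div_assoc', mul_comm (h * u),
        mul_div_assoc, div_self hhu0, mul_one]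
    refine ⟨⟨algebraMap Ω _ c * u * descSig σ g,
      mul_mem (mul_mem (F.algebraMap_mem c) hu) (hFstab σ g hg), ?_⟩, ?_, ?_⟩
    · rw [map_mul, hσh]
      ring
    · exact descInt_isIntegral_map _ (descSig σ)
        (fun x hx => descInt_map_mem_adjoin (descSig σ) j (hσj σ)
          (fun c => ⟨σ c, descSig_algebraMap σ c⟩) hx) hv1
    · have h3 : descSig σ (h * g) * j⁻¹ ^ m = descSig σ (h * g * j⁻¹ ^ m) := by
        rw [map_mul (descSig σ) (h * g), map_pow, hσjinv]
      rw [h3]
      exact descInt_isIntegral_map _ (descSig σ)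
        (fun x hx => descInt_map_mem_adjoin (descSig σ) j⁻¹ (hσjinv σ)
          (fun c => ⟨σ c, descSig_algebraMap σ c⟩) hx) hv2
  -- the fixed vector
  obtain ⟨v, hvW, hv0, hvfix⟩ :=
    descEchelon_exists_fixed (descW F j h m) ⟨h * b, hv₀W, hv₀0⟩ _ hbound _ hstab
  have hcoeff : ∀ k, v.coeff k ∈ Set.range (algebraMap K Ω) := by
    intro k
    refine descAut_mem_range_of_fixed H hidx (v.coeff k) fun σ hσ => ?_
    have := congrArg (fun y => HahnSeries.coeff y k) (hvfix _ ⟨σ, hσ, rfl⟩)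
    simpa using this
  obtain ⟨v', hv'⟩ := descLin_exists_preimage v hcoeff
  obtain ⟨⟨g, hg, hvg⟩, hv1, hv2⟩ := hvW
  have hg0 : g ≠ 0 := by
    rintro rfl
    rw [mul_zero] at hvg
    exact hv0 hvg
  have hfg : f * g ^ p = coeffMap (algebraMap K Ω) (v' ^ p) := by
    rw [map_pow, hv', hvg, mul_pow, hh]
  refine ⟨g, hg, hg0, hvg ▸ hv1, ⟨m, hvg ▸ hv2⟩, ⟨v', by rw [hv', hvg]⟩, v' ^ p, ?_, hfg⟩
  apply descLin_mem_of_coeffMap_mem (Ω := Ω) F₀
  rw [← hfg]
  exact mul_mem hf (pow_mem hg p)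

end Main

end Fermat.Agent.S29.H152

end
-- ===== PACK-END S29/H152/DescMain.lean

-- ===== PACK-BEGIN S24/H504/Fibre.lean
section




/-!
# Embeddings inducing the same place: rigidity

Two embeddings `σ, τ : F → C((z))` over `K(t)` inducing the same place `v` over `t = 0` and
having the same leading coefficient on a uniformizer are equal.  Hence at most `e = v(t)`
embeddings induce `v`.
-/

set_option autoImplicit false

namespace Fermat.Agent.S24.H504

open AlgebraicCurve

variable {K F : Type*} [Field K] [Field F] [Algebra K F]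
variable {C : Type*} [Field C]

theorem le_ot_add {A B : LaurentSeries C} {k : ℤ} (hA : (k : WithTop ℤ) ≤ A.orderTop)
    (hB : (k : WithTop ℤ) ≤ B.orderTop) : (k : WithTop ℤ) ≤ (A + B).orderTop :=
  le_trans (le_min hA hB) HahnSeries.min_orderTop_le_orderTop_add

theorem le_ot_mul {A B : LaurentSeries C} {k l : ℤ} (hA : (k : WithTop ℤ) ≤ A.orderTop)
    (hB : (l : WithTop ℤ) ≤ B.orderTop) : ((k + l : ℤ) : WithTop ℤ) ≤ (A * B).orderTop := by
  rw [HahnSeries.orderTop_mul]
  push_cast
  exact add_le_add hA hB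

theorem le_ot_of_order {A : LaurentSeries C} {k : ℤ} (h : k ≤ A.order) :
    (k : WithTop ℤ) ≤ A.orderTop := by
  rcases eq_or_ne A 0 with rfl | hA
  · simp
  · rw [ls_orderTop_eq_order hA]
    exact_mod_cast h

theorem ot_le_of_forall {d e : WithTop ℤ} (h : ∀ k : ℤ, (k : WithTop ℤ) ≤ d → (k : WithTop ℤ) ≤ e) :
    d ≤ e := by
  induction d using WithTop.recTopCoe with
  | top =>
    induction e using WithTop.recTopCoe with
    | top => exact le_rfl
    | coe e =>
      have := h (e + 1) le_top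
      have h2 : e + 1 ≤ e := by exact_mod_cast this
      omega
  | coe d => exact h d le_rfl

section delta

variable {v : Place K F} {ι : K →+* C} {σ τ : F →+* LaurentSeries C}

/-- Key estimate: the difference `σ - τ` is as small on the whole valuation ring as on a
uniformizer. -/
theorem orderTop_sub_uniformizer_le [IsAlgClosed K] {t : F} (ht : 0 < v.ord t)
    [Algebra.IsAlgebraic (IntermediateField.adjoin K {t}) F]
    (hσK : ∀ c, σ (algebraMap K F c) = HahnSeries.C (ι c))
    (hτK : ∀ c, τ (algebraMap K F c) = HahnSeries.C (ι c))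
    (hσ : Induces σ v) (hτ : Induces τ v)
    {ϖ : F} (hϖ : v.ord ϖ = 1) {f : F} (hf : 0 ≤ v.ord f) :
    (σ ϖ - τ ϖ).orderTop ≤ (σ f - τ f).orderTop := by
  have hσϖ : 0 < (σ ϖ).order := by
    have h1 := (hσ.order_nonneg_iff ϖ).mpr (by omega)
    have h2 := (hσ.order_eq_zero_iff ϖ).not.mpr (by omega)
    omega
  set μ := (σ ϖ).order with hμ
  -- the inductive statement
  have key : ∀ (N : ℕ) (f : F), 0 ≤ v.ord f → ∀ k : ℤ, k ≤ N * μ →
      (k : WithTop ℤ) ≤ (σ ϖ - τ ϖ).orderTop → (k : WithTop ℤ) ≤ (σ f - τ f).orderTop := by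
    intro N
    induction N with
    | zero =>
      intro f hf k hk _
      have h1 : (0 : WithTop ℤ) ≤ (σ f).orderTop :=
        (ls_orderTop_nonneg_iff _).mpr ((hσ.order_nonneg_iff f).mpr hf)
      have h2 : (0 : WithTop ℤ) ≤ (τ f).orderTop :=
        (ls_orderTop_nonneg_iff _).mpr ((hτ.order_nonneg_iff f).mpr hf)
      have h3 : (0 : WithTop ℤ) ≤ (σ f - τ f).orderTop :=
        le_trans (le_min h1 h2) HahnSeries.min_orderTop_le_orderTop_sub
      have hk0 : k ≤ 0 := by simpa using hk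
      exact le_trans (by exact_mod_cast hk0) h3
    | succ N ih =>
      intro f hf k hk hkd
      obtain ⟨c, f₁, hf₁, rfl⟩ := exists_eq_const_add_mul ht hϖ hf
      have hdecomp : σ (algebraMap K F c + ϖ * f₁) - τ (algebraMap K F c + ϖ * f₁)
          = σ ϖ * (σ f₁ - τ f₁) + (σ ϖ - τ ϖ) * τ f₁ := by
        simp only [map_add, map_mul, hσK, hτK]
        ring
      rw [hdecomp]
      have hτf₁ : ((0 : ℤ) : WithTop ℤ) ≤ (τ f₁).orderTop := by
        have := (ls_orderTop_nonneg_iff _).mpr ((hτ.order_nonneg_iff f₁).mpr hf₁)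
        exact_mod_cast this
      have hk1 : ((k - μ : ℤ) : WithTop ℤ) ≤ (σ f₁ - τ f₁).orderTop := by
        apply ih f₁ hf₁ (k - μ)
        · push_cast at hk
          linarith
        · refine le_trans ?_ hkd
          exact_mod_cast (by omega : k - μ ≤ k)
      have hμ' : ((μ : ℤ) : WithTop ℤ) ≤ (σ ϖ).orderTop := le_ot_of_order le_rfl
      have h1 := le_ot_mul hμ' hk1
      have h2 := le_ot_mul hkd hτf₁
      rw [show μ + (k - μ) = k by ring] at h1
      rw [add_zero] at h2
      exact le_ot_add h1 h2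
  apply ot_le_of_forall
  intro k hk
  refine key k.toNat f hf k ?_ hk
  have : k ≤ (k.toNat : ℤ) := Int.self_le_toNat k
  have h0 : (0 : ℤ) ≤ (k.toNat : ℤ) := Nat.cast_nonneg _
  nlinarith [hσϖ]

end delta

/-! ### The geometric-sum factor -/

theorem ls_leadingCoeff_pow (A : LaurentSeries C) (n : ℕ) :
    (A ^ n).leadingCoeff = A.leadingCoeff ^ n := by
  induction n with
  | zero => simp
  | succ n ih => rw [pow_succ, HahnSeries.leadingCoeff_mul, ih, pow_succ]

theorem ls_ne_zero_of_order_ne_zero {A : LaurentSeries C} (h : A.order ≠ 0) : A ≠ 0 := by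
  rintro rfl
  simp at h

theorem ls_coeff_eq_zero_of_lt {A : LaurentSeries C} {k g : ℤ} (hg : g ≤ A.order) (hk : k < g) :
    A.coeff k = 0 :=
  HahnSeries.coeff_eq_zero_of_lt_order (lt_of_lt_of_le hk hg)

/-- A series whose coefficients vanish below `g` and whose `g`-th coefficient is nonzero has
order `g`. -/
theorem ls_order_eq_of_coeff {A : LaurentSeries C} {g : ℤ} (h0 : ∀ k < g, A.coeff k = 0)
    (hg : A.coeff g ≠ 0) : A ≠ 0 ∧ A.order = g := by
  have hA : A ≠ 0 := by
    rintro rfl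
    simp at hg
  refine ⟨hA, le_antisymm (HahnSeries.order_le_of_coeff_ne_zero hg) ?_⟩
  by_contra hlt
  push Not at hlt
  exact (HahnSeries.coeff_order_eq_zero.not.mpr hA) (h0 _ hlt)

theorem order_geom_sum₂ [CharZero C] {A B : LaurentSeries C} (hA : A ≠ 0) (hB : B ≠ 0)
    (hord : A.order = B.order) (hlc : A.leadingCoeff = B.leadingCoeff) {e : ℕ} (he : 0 < e) :
    (∑ i ∈ Finset.range e, A ^ i * B ^ (e - 1 - i)) ≠ 0 ∧
      (∑ i ∈ Finset.range e, A ^ i * B ^ (e - 1 - i)).order = ((e : ℤ) - 1) * A.order := by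
  have hterm : ∀ i ∈ Finset.range e, (A ^ i * B ^ (e - 1 - i)) ≠ 0 ∧
      (A ^ i * B ^ (e - 1 - i)).order = ((e : ℤ) - 1) * A.order ∧
      (A ^ i * B ^ (e - 1 - i)).leadingCoeff = A.leadingCoeff ^ (e - 1) := by
    intro i hi
    have hi' : i < e := Finset.mem_range.mp hi
    refine ⟨mul_ne_zero (pow_ne_zero _ hA) (pow_ne_zero _ hB), ?_, ?_⟩
    · rw [HahnSeries.order_mul (pow_ne_zero _ hA) (pow_ne_zero _ hB), HahnSeries.order_pow,
        HahnSeries.order_pow, ← hord]
      simp only [nsmul_eq_mul]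
      have : ((e - 1 - i : ℕ) : ℤ) = (e : ℤ) - 1 - i := by omega
      rw [this]
      ring
    · rw [HahnSeries.leadingCoeff_mul, ls_leadingCoeff_pow, ls_leadingCoeff_pow, ← hlc,
        ← pow_add]
      congr 1
      omega
  apply ls_order_eq_of_coeff
  · intro k hk
    rw [HahnSeries.coeff_sum]
    apply Finset.sum_eq_zero
    intro i hi
    exact ls_coeff_eq_zero_of_lt (hterm i hi).2.1.ge hk
  · rw [HahnSeries.coeff_sum]
    have : ∀ i ∈ Finset.range e, (A ^ i * B ^ (e - 1 - i)).coeff (((e : ℤ) - 1) * A.order)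
        = A.leadingCoeff ^ (e - 1) := by
      intro i hi
      rw [← (hterm i hi).2.1, ← HahnSeries.leadingCoeff_eq, (hterm i hi).2.2]
    rw [Finset.sum_congr rfl this, Finset.sum_const, Finset.card_range, nsmul_eq_mul]
    refine mul_ne_zero ?_ (pow_ne_zero _ (HahnSeries.leadingCoeff_ne_zero.mpr hA))
    exact_mod_cast he.ne'

section rigidity

variable {v : Place K F} {ι : K →+* C} {σ τ : F →+* LaurentSeries C}

theorem Induces.order_pos_of_ord_pos (hσ : Induces σ v) {f : F} (hf : 0 < v.ord f) :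
    0 < (σ f).order := by
  have h1 := (hσ.order_nonneg_iff f).mpr hf.le
  have h2 := (hσ.order_eq_zero_iff f).not.mpr hf.ne'
  omega

/-- Two embeddings inducing the same place and agreeing at `t` have the same multiplicity. -/
theorem Induces.order_eq_of_eq_at {t : F} (ht : 0 < v.ord t) (hσ : Induces σ v)
    (hτ : Induces τ v) (hst : σ t = τ t) (f : F) : (σ f).order = (τ f).order := by
  obtain ⟨μσ, _, hμσ⟩ := hσ.exists_mult
  obtain ⟨μτ, _, hμτ⟩ := hτ.exists_mult
  have h1 := hμσ t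
  have h2 := hμτ t
  rw [hst, h2] at h1
  have h3 : (μσ : ℤ) = μτ := by
    have := mul_right_cancel₀ ht.ne' h1
    exact this.symm
  rw [hμσ f, hμτ f, h3]

/-- **Rigidity.** Two embeddings over `K(t)` inducing the same place over `t = 0`, with the same
leading coefficient on a uniformizer, are equal. -/
theorem emb_eq_of_leadingCoeff_eq [IsAlgClosed K] [CharZero C] {t : F} (ht : 0 < v.ord t)
    [Algebra.IsAlgebraic (IntermediateField.adjoin K {t}) F]
    (hσK : ∀ c, σ (algebraMap K F c) = HahnSeries.C (ι c))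
    (hτK : ∀ c, τ (algebraMap K F c) = HahnSeries.C (ι c))
    (hσ : Induces σ v) (hτ : Induces τ v) (hst : σ t = τ t)
    {ϖ : F} (hϖ : v.ord ϖ = 1)
    (hlc : (σ ϖ).leadingCoeff = (τ ϖ).leadingCoeff) : σ = τ := by
  have hϖ0 : ϖ ≠ 0 := ne_zero_of_ord_ne_zero v (by omega)
  have ht0 : t ≠ 0 := ne_zero_of_ord_ne_zero v ht.ne'
  have hσϖ0 : σ ϖ ≠ 0 := (map_ne_zero σ).mpr hϖ0
  have hτϖ0 : τ ϖ ≠ 0 := (map_ne_zero τ).mpr hϖ0
  have hμ : 0 < (σ ϖ).order := hσ.order_pos_of_ord_pos (by omega)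
  have hord : (σ ϖ).order = (τ ϖ).order := Induces.order_eq_of_eq_at ht hσ hτ hst ϖ
  -- first show σ ϖ = τ ϖ
  have hD : σ ϖ - τ ϖ = 0 := by
    by_contra hD
    obtain ⟨e, he⟩ : ∃ e : ℕ, v.ord t = e := ⟨(v.ord t).toNat, (Int.toNat_of_nonneg ht.le).symm⟩
    have he0 : 0 < e := by omega
    set u := t / ϖ ^ e with hu
    have hu_ord : v.ord u = 0 := by
      rw [hu, ord_div v ht0 (pow_ne_zero _ hϖ0), ord_pow, hϖ, he]
      ring
    have hu0 : u ≠ 0 := div_ne_zero ht0 (pow_ne_zero _ hϖ0)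
    have htu : t = u * ϖ ^ e := by
      rw [hu]; field_simp
    have hσu : (σ u).order = 0 := (hσ.order_eq_zero_iff u).mpr hu_ord
    obtain ⟨hS0, hSord⟩ := order_geom_sum₂ hσϖ0 hτϖ0 hord hlc he0
    set S := ∑ i ∈ Finset.range e, σ ϖ ^ i * τ ϖ ^ (e - 1 - i) with hS
    have hgeom : S * (σ ϖ - τ ϖ) = σ ϖ ^ e - τ ϖ ^ e := geom_sum₂_mul _ _ _
    have hzero : σ u * S * (σ ϖ - τ ϖ) + (σ u - τ u) * τ ϖ ^ e = 0 := by
      have h1 : σ t - τ t = 0 := by rw [hst, sub_self]
      rw [htu, map_mul, map_mul, map_pow, map_pow] at h1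
      rw [mul_assoc, hgeom]
      linear_combination h1
    have hσu0 : σ u ≠ 0 := (map_ne_zero σ).mpr hu0
    have hX1 : σ u * S * (σ ϖ - τ ϖ) ≠ 0 := mul_ne_zero (mul_ne_zero hσu0 hS0) hD
    have hX1ord : (σ u * S * (σ ϖ - τ ϖ)).orderTop
        = (((e : ℤ) - 1) * (σ ϖ).order + (σ ϖ - τ ϖ).order : ℤ) := by
      rw [ls_orderTop_eq_order hX1, HahnSeries.order_mul (mul_ne_zero hσu0 hS0) hD,
        HahnSeries.order_mul hσu0 hS0, hσu, hSord, zero_add]
    have hX2 : (((σ ϖ - τ ϖ).order + e * (σ ϖ).order : ℤ) : WithTop ℤ)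
        ≤ ((σ u - τ u) * τ ϖ ^ e).orderTop := by
      apply le_ot_mul
      · rw [← ls_orderTop_eq_order hD]
        exact orderTop_sub_uniformizer_le ht hσK hτK hσ hτ hϖ hu_ord.ge
      · apply le_ot_of_order
        rw [HahnSeries.order_pow, ← hord]
        simp
    have hlt : (σ u * S * (σ ϖ - τ ϖ)).orderTop < ((σ u - τ u) * τ ϖ ^ e).orderTop := by
      refine lt_of_lt_of_le ?_ hX2
      rw [hX1ord]
      have : ((e : ℤ) - 1) * (σ ϖ).order + (σ ϖ - τ ϖ).order
          < (σ ϖ - τ ϖ).order + e * (σ ϖ).order := by linarith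
      exact_mod_cast this
    have h3 := HahnSeries.orderTop_add_eq_left hlt
    rw [hzero, HahnSeries.orderTop_zero] at h3
    exact hX1 (HahnSeries.orderTop_eq_top.mp h3.symm)
  -- now σ = τ on the valuation ring, hence everywhere
  have hint : ∀ f : F, 0 ≤ v.ord f → σ f = τ f := by
    intro f hf
    have := orderTop_sub_uniformizer_le ht hσK hτK hσ hτ hϖ hf
    rw [hD, HahnSeries.orderTop_zero, top_le_iff, HahnSeries.orderTop_eq_top, sub_eq_zero] at this
    exact this
  ext1 f
  rcases le_total 0 (v.ord f) with h | h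
  · exact hint f h
  · have h' : 0 ≤ v.ord f⁻¹ := by rw [Place.ord_inv]; omega
    have := hint f⁻¹ h'
    rw [map_inv₀, map_inv₀] at this
    exact inv_injective this

theorem ls_leadingCoeff_C (r : C) : (HahnSeries.C r : LaurentSeries C).leadingCoeff = r := by
  rw [HahnSeries.C_apply, HahnSeries.leadingCoeff_of_single]

theorem ls_orderTop_C {r : C} (hr : r ≠ 0) : (HahnSeries.C r : LaurentSeries C).orderTop = 0 := by
  rw [HahnSeries.C_apply, HahnSeries.orderTop_single hr]
  rfl

/-- The leading coefficient of `σ t` is a fixed constant times the `e`-th power of the leading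
coefficient of `σ ϖ`. -/
theorem exists_const_leadingCoeff [IsAlgClosed K] {t : F} (ht : 0 < v.ord t)
    [Algebra.IsAlgebraic (IntermediateField.adjoin K {t}) F] {ϖ : F} (hϖ : v.ord ϖ = 1)
    (ι : K →+* C) :
    ∃ c : K, c ≠ 0 ∧ ∀ σ : F →+* LaurentSeries C,
      (∀ c, σ (algebraMap K F c) = HahnSeries.C (ι c)) → Induces σ v →
      (σ t).leadingCoeff = ι c * (σ ϖ).leadingCoeff ^ (v.ord t).toNat := by
  have hϖ0 : ϖ ≠ 0 := ne_zero_of_ord_ne_zero v (by omega)
  have ht0 : t ≠ 0 := ne_zero_of_ord_ne_zero v ht.ne'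
  set e := (v.ord t).toNat with he
  have he' : v.ord t = e := (Int.toNat_of_nonneg ht.le).symm
  set u := t / ϖ ^ e with hu
  have hu_ord : v.ord u = 0 := by
    rw [hu, ord_div v ht0 (pow_ne_zero _ hϖ0), ord_pow, hϖ, he']
    ring
  have hu0 : u ≠ 0 := div_ne_zero ht0 (pow_ne_zero _ hϖ0)
  have htu : t = u * ϖ ^ e := by
    rw [hu]; field_simp
  obtain ⟨c, g, hg, hcg⟩ := exists_eq_const_add ht hu_ord.ge
  have hc : c ≠ 0 := by
    rintro rfl
    rw [map_zero, zero_add] at hcg
    rw [← hcg] at hg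
    rcases hg with h | h
    · exact hu0 h
    · omega
  refine ⟨c, hc, fun σ hσK hσ => ?_⟩
  have hιc : ι c ≠ 0 := (map_ne_zero ι).mpr hc
  have hlcu : (σ u).leadingCoeff = ι c := by
    rw [hcg, map_add, hσK]
    rcases hg with rfl | hg
    · rw [map_zero, add_zero, ls_leadingCoeff_C]
    · have hgo : 0 < (σ g).order := hσ.order_pos_of_ord_pos hg
      have hσg0 : σ g ≠ 0 := ls_ne_zero_of_order_ne_zero hgo.ne'
      have hlt : (HahnSeries.C (ι c) : LaurentSeries C).orderTop < (σ g).orderTop := by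
        rw [ls_orderTop_C hιc, ls_orderTop_eq_order hσg0]
        exact_mod_cast hgo
      rw [HahnSeries.leadingCoeff_add_eq_left hlt, ls_leadingCoeff_C]
  conv_lhs => rw [htu]
  rw [map_mul, map_pow, HahnSeries.leadingCoeff_mul, ls_leadingCoeff_pow, hlcu]

/-- **Fibre bound.** At most `e = v(t)` embeddings (over `K(t)`) induce the place `v`. -/
theorem card_induces_le [IsAlgClosed K] [CharZero C] {X : Type*} [Finite X] {t : F}
    (ht : 0 < v.ord t) [Algebra.IsAlgebraic (IntermediateField.adjoin K {t}) F]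
    (ι : K →+* C) (σ : X → (F →+* LaurentSeries C)) (hinj : Function.Injective σ)
    (hK : ∀ x c, σ x (algebraMap K F c) = HahnSeries.C (ι c))
    (hteq : ∀ x y, σ x t = σ y t) :
    Nat.card {x : X // Induces (σ x) v} ≤ (v.ord t).toNat := by
  classical
  obtain ⟨ϖ, hϖ⟩ := exists_ord_eq_one v
  obtain ⟨c, hc, hcσ⟩ := exists_const_leadingCoeff ht hϖ ι
  have hιc : ι c ≠ 0 := (map_ne_zero ι).mpr hc
  have he0 : 0 < (v.ord t).toNat := by omega
  rcases isEmpty_or_nonempty {x : X // Induces (σ x) v} with hemp | ⟨⟨x₀, hx₀⟩⟩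
  · simp
  set a : C := (σ x₀ t).leadingCoeff / ι c with ha
  have hmem : ∀ x : {x : X // Induces (σ x) v},
      (σ x.1 ϖ).leadingCoeff ∈ Polynomial.nthRootsFinset (v.ord t).toNat a := by
    intro x
    rw [Polynomial.mem_nthRootsFinset he0, ha, hteq x₀ x.1, hcσ (σ x.1) (hK x.1) x.2]
    field_simp
  let φ : {x : X // Induces (σ x) v} → Polynomial.nthRootsFinset (v.ord t).toNat a :=
    fun x => ⟨_, hmem x⟩
  have hφ : Function.Injective φ := by
    intro x y hxy
    have hlc : (σ x.1 ϖ).leadingCoeff = (σ y.1 ϖ).leadingCoeff := congrArg Subtype.val hxy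
    have := emb_eq_of_leadingCoeff_eq ht (hK x.1) (hK y.1) x.2 y.2 (hteq x.1 y.1) hϖ hlc
    exact Subtype.ext (hinj this)
  calc Nat.card {x : X // Induces (σ x) v}
      ≤ Nat.card (Polynomial.nthRootsFinset (v.ord t).toNat a) :=
        Nat.card_le_card_of_injective φ hφ
    _ = (Polynomial.nthRootsFinset (v.ord t).toNat a).card := Nat.card_eq_finsetCard _
    _ ≤ Multiset.card (Polynomial.nthRoots (v.ord t).toNat a) := by
        rw [Polynomial.nthRootsFinset_def]
        exact Multiset.toFinset_card_le _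
    _ ≤ (v.ord t).toNat := Polynomial.card_nthRoots _ _

end rigidity

end Fermat.Agent.S24.H504

end
-- ===== PACK-END S24/H504/Fibre.lean

-- ===== PACK-BEGIN S24/H504/FF1.lean
section



/-!
# The fundamental inequality `n ≤ ∑_{v | t} e_v` from local embedding data

Dedekind-free: every embedding `σ x` induces a place over `t = 0`, and at most `e_v = v(t)`
embeddings induce a given place `v` (rigidity, `card_induces_le`).
-/

set_option autoImplicit false

namespace Fermat.Agent.S24.H504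

open AlgebraicCurve

variable {K F : Type*} [Field K] [Field F] [Algebra K F]
variable {C : Type*} [Field C] {X : Type*} {t : F}

theorem LocalData.order_const_nonneg (L : LocalData K F C X t) (x : X) (c : K) :
    0 ≤ (L.σ x (algebraMap K F c)).order := by
  rw [L.σ_const, HahnSeries.order_C]

theorem LocalData.exists_order_ne_zero (L : LocalData K F C X t) (x : X) :
    ∃ f : F, (L.σ x f).order ≠ 0 :=
  ⟨t, by rw [L.σ_t_order]; exact_mod_cast L.m_pos.ne'⟩

/-- The place of `F/K` induced by the embedding `σ x`. -/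
noncomputable def LocalData.placeAt (L : LocalData K F C X t) (x : X) : Place K F :=
  placeOfEmb (L.σ x) (LocalData.order_const_nonneg L x) (LocalData.exists_order_ne_zero L x)

theorem LocalData.induces_placeAt (L : LocalData K F C X t) (x : X) :
    Induces (L.σ x) (LocalData.placeAt L x) :=
  induces_placeOfEmb _ _ _

theorem LocalData.ord_t_pos_of_induces (L : LocalData K F C X t) {x : X} {v : Place K F}
    (h : Induces (L.σ x) v) : 0 < v.ord t := by
  have hm : 0 < (L.σ x t).order := by rw [L.σ_t_order]; exact_mod_cast L.m_pos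
  have h1 := (h.order_nonneg_iff t).mp hm.le
  have h2 := (h.order_eq_zero_iff t).not.mp hm.ne'
  omega

theorem LocalData.placeAt_ord_t_pos (L : LocalData K F C X t) (x : X) :
    0 < (LocalData.placeAt L x).ord t :=
  LocalData.ord_t_pos_of_induces L (LocalData.induces_placeAt L x)

theorem LocalData.placeAt_eq_iff (L : LocalData K F C X t) (x : X) (v : Place K F) :
    LocalData.placeAt L x = v ↔ Induces (L.σ x) v :=
  ⟨fun h => h ▸ LocalData.induces_placeAt L x,
    fun h => (LocalData.induces_placeAt L x).unique h⟩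

/-- **Fibre bound** in `LocalData` language: at most `v(t)` of the embeddings induce `v`. -/
theorem LocalData.card_fibre_le [IsAlgClosed K] [CharZero C] [Finite X]
    [Algebra.IsAlgebraic (IntermediateField.adjoin K {t}) F]
    (L : LocalData K F C X t) (v : Place K F) (hv : 0 < v.ord t) :
    (Nat.card {x : X // Induces (L.σ x) v} : ℤ) ≤ v.ord t := by
  have := card_induces_le hv L.ι L.σ L.σ_inj L.σ_const L.σ_t_eq
  have h2 : ((v.ord t).toNat : ℤ) = v.ord t := Int.toNat_of_nonneg hv.le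
  rw [← h2]
  exact_mod_cast this

/-- **Fundamental inequality (FF1).** `n = #X ≤ ∑_{v over t = 0} v(t)`. -/
theorem LocalData.card_le_sum_ord [IsAlgClosed K] [CharZero C] [Finite X]
    [Algebra.IsAlgebraic (IntermediateField.adjoin K {t}) F]
    (L : LocalData K F C X t) (s : Finset (Place K F)) (hs : ∀ v, v ∈ s ↔ 0 < v.ord t) :
    (Nat.card X : ℤ) ≤ ∑ v ∈ s, v.ord t := by
  classical
  have := Fintype.ofFinite X
  have hmaps : ∀ x ∈ (Finset.univ : Finset X), LocalData.placeAt L x ∈ s :=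
    fun x _ => (hs _).mpr (LocalData.placeAt_ord_t_pos L x)
  have hcard := Finset.card_eq_sum_card_fiberwise hmaps
  rw [Nat.card_eq_fintype_card, ← Finset.card_univ, hcard]
  push_cast
  apply Finset.sum_le_sum
  intro v hv
  have hfib := LocalData.card_fibre_le L v ((hs v).mp hv)
  refine le_trans (le_of_eq ?_) hfib
  congr 1
  rw [Nat.card_eq_fintype_card, Fintype.card_subtype]
  congr 1
  ext x
  simp only [Finset.mem_filter, Finset.mem_univ, true_and]
  exact LocalData.placeAt_eq_iff L x v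

end Fermat.Agent.S24.H504

end
-- ===== PACK-END S24/H504/FF1.lean

-- ===== PACK-BEGIN S29/H942/MeroRootUnique.lean
section


/-!
# Uniqueness of meromorphic `p`-th roots up to a root of unity
-/

set_option autoImplicit false

noncomputable section

open Filter Topology Set Complex MeromorphicOn Function

namespace Fermat.Agent.S29.H942

/-- `h` is a `p`-th root of `f` on `V`, in normal form: `h` is meromorphic in normal form on `V`
and `h ^ p = f` on a punctured neighbourhood of every point of `V`. -/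
def IsNFRootOn (h f : ℂ → ℂ) (V : Set ℂ) (p : ℕ) : Prop :=
  MeromorphicNFOn h V ∧ ∀ x ∈ V, (h ^ p) =ᶠ[𝓝[≠] x] f

lemma IsNFRootOn.mono {h f : ℂ → ℂ} {V W : Set ℂ} {p : ℕ} (hh : IsNFRootOn h f V p)
    (hWV : W ⊆ V) : IsNFRootOn h f W p :=
  ⟨fun _ hz => hh.1 (hWV hz), fun x hx => hh.2 x (hWV hx)⟩

/-- Equality on a codiscrete subset of an open set gives equality on punctured neighbourhoods. -/
lemma eventuallyEq_nhdsNE_of_codiscreteWithin {f g : ℂ → ℂ} {V : Set ℂ} (hV : IsOpen V)
    (h : f =ᶠ[codiscreteWithin V] g) {x : ℂ} (hx : x ∈ V) : f =ᶠ[𝓝[≠] x] g := by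
  have h1 := (mem_codiscreteWithin_iff_forall_mem_nhdsNE.1 h) x hx
  have h2 : V ∈ 𝓝[≠] x := mem_nhdsWithin_of_mem_nhds (hV.mem_nhds hx)
  filter_upwards [h1, h2] with y hy hyV
  rcases hy with hy | hy
  · exact hy
  · exact absurd hyV hy

/-- From a meromorphic root to a root in normal form. -/
lemma isNFRootOn_toMeromorphicNFOn {h f : ℂ → ℂ} {V : Set ℂ} (hV : IsOpen V) {p : ℕ}
    (hh : MeromorphicOn h V) (hpow : (h ^ p) =ᶠ[codiscreteWithin V] f) :
    IsNFRootOn (toMeromorphicNFOn h V) f V p := by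
  refine ⟨meromorphicNFOn_toMeromorphicNFOn h V, fun x hx => ?_⟩
  have h1 := hh.toMeromorphicNFOn_eq_self_on_nhdsNE hx
  have h2 := eventuallyEq_nhdsNE_of_codiscreteWithin hV hpow hx
  filter_upwards [h1, h2] with y hy1 hy2
  simp only [Pi.pow_apply] at hy2 ⊢
  rw [hy1, hy2]

/-- The order of a root is finite if the order of the function is finite. -/
lemma IsNFRootOn.order_ne_top {h f : ℂ → ℂ} {V : Set ℂ} {p : ℕ} (hp : p ≠ 0)
    (hh : IsNFRootOn h f V p) {x : ℂ} (hx : x ∈ V) (hf : meromorphicOrderAt f x ≠ ⊤) :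
    meromorphicOrderAt h x ≠ ⊤ := by
  intro htop
  apply hf
  rw [← meromorphicOrderAt_congr (hh.2 x hx), meromorphicOrderAt_pow (hh.1 hx).meromorphicAt,
    htop]
  exact WithTop.mul_top (by exact_mod_cast hp)

/-- A root of a function of finite order does not vanish on a punctured neighbourhood. -/
lemma IsNFRootOn.eventually_ne_zero {h f : ℂ → ℂ} {V : Set ℂ} {p : ℕ} (hp : p ≠ 0)
    (hh : IsNFRootOn h f V p) {x : ℂ} (hx : x ∈ V) (hf : meromorphicOrderAt f x ≠ ⊤) :
    ∀ᶠ y in 𝓝[≠] x, h y ≠ 0 :=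
  (meromorphicOrderAt_ne_top_iff_eventually_ne_zero (hh.1 hx).meromorphicAt).1
    (hh.order_ne_top hp hx hf)

/-- A function in normal form whose `p`-th power is `1` on a punctured neighbourhood of `x` is
analytic at `x` and its `p`-th power is `1` at `x`. -/
lemma analyticAt_of_nf_pow_eq_one {q : ℂ → ℂ} {x : ℂ} {p : ℕ} (hp : p ≠ 0)
    (hq : MeromorphicNFAt q x) (hpow : (q ^ p) =ᶠ[𝓝[≠] x] (fun _ => (1 : ℂ))) :
    AnalyticAt ℂ q x ∧ q x ^ p = 1 := by
  have h1 : meromorphicOrderAt (q ^ p) x = 0 := by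
    rw [meromorphicOrderAt_congr hpow]
    have : AnalyticAt ℂ (fun _ : ℂ => (1 : ℂ)) x := analyticAt_const
    rw [this.meromorphicOrderAt_eq]
    simp [analyticOrderAt_eq_zero]
  rw [meromorphicOrderAt_pow hq.meromorphicAt] at h1
  have h2 : meromorphicOrderAt q x = 0 := by
    have hne : meromorphicOrderAt q x ≠ ⊤ := by
      intro h3
      rw [h3, WithTop.mul_top (by exact_mod_cast hp)] at h1
      exact absurd h1 (by simp)
    obtain ⟨n, hn⟩ := WithTop.ne_top_iff_exists.1 hne
    rw [← hn] at h1 ⊢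
    have h4 : (((p : ℤ) * n : ℤ) : WithTop ℤ) = 0 := by
      rw [← h1]
      push_cast
      rfl
    have h5 : (p : ℤ) * n = 0 := by exact_mod_cast h4
    have h6 : n = 0 := by
      rcases mul_eq_zero.1 h5 with h | h
      · exact absurd (by exact_mod_cast h) hp
      · exact h
    rw [h6]
    rfl
  have hA : AnalyticAt ℂ q x := hq.meromorphicOrderAt_nonneg_iff_analyticAt.1 (le_of_eq h2.symm)
  refine ⟨hA, ?_⟩
  have hc : ContinuousAt (q ^ p) x := (hA.pow p).continuousAt
  have hc1 : ContinuousAt (fun _ : ℂ => (1 : ℂ)) x := continuousAt_const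
  have := (hc.eventuallyEq_nhds_iff_eventuallyEq_nhdsNE hc1).1 hpow
  exact this.self_of_nhds

/-- **Uniqueness.** Two roots in normal form of the same function (of finite order everywhere)
on a preconnected open set differ by a `p`-th root of unity. -/
theorem IsNFRootOn.exists_eq_mul {h₁ h₂ f : ℂ → ℂ} {V : Set ℂ} {p : ℕ} (hp : p ≠ 0)
    (hV : IsOpen V) (hVc : IsPreconnected V) (hf : ∀ x ∈ V, meromorphicOrderAt f x ≠ ⊤)
    (hh₁ : IsNFRootOn h₁ f V p) (hh₂ : IsNFRootOn h₂ f V p) :
    ∃ ζ : ℂ, ζ ^ p = 1 ∧ ∀ x ∈ V, h₂ x = ζ * h₁ x := by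
  have hm₁ : MeromorphicOn h₁ V := hh₁.1.meromorphicOn
  have hm₂ : MeromorphicOn h₂ V := hh₂.1.meromorphicOn
  have hmq : MeromorphicOn (h₂ / h₁) V := hm₂.div hm₁
  set q := toMeromorphicNFOn (h₂ / h₁) V with hq
  have hqNF : MeromorphicNFOn q V := meromorphicNFOn_toMeromorphicNFOn _ _
  -- `q = h₂ / h₁` on punctured neighbourhoods
  have hq1 : ∀ x ∈ V, q =ᶠ[𝓝[≠] x] (h₂ / h₁) := fun x hx =>
    hmq.toMeromorphicNFOn_eq_self_on_nhdsNE hx
  -- `q ^ p = 1` on punctured neighbourhoods
  have hq2 : ∀ x ∈ V, (q ^ p) =ᶠ[𝓝[≠] x] (fun _ => (1 : ℂ)) := by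
    intro x hx
    filter_upwards [hq1 x hx, hh₁.2 x hx, hh₂.2 x hx, hh₁.eventually_ne_zero hp hx (hf x hx)]
      with y hy1 hy2 hy3 hy4
    simp only [Pi.pow_apply, Pi.div_apply] at hy1 hy2 hy3 ⊢
    rw [hy1, div_pow, hy2, hy3, div_self]
    rw [← hy2]
    exact pow_ne_zero p hy4
  have hq3 : ∀ x ∈ V, AnalyticAt ℂ q x ∧ q x ^ p = 1 := fun x hx =>
    analyticAt_of_nf_pow_eq_one hp (hqNF hx) (hq2 x hx)
  -- `q` is constant
  have hqc : ContinuousOn q V := fun x hx => (hq3 x hx).1.continuousAt.continuousWithinAt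
  have hT : IsDiscrete {t : ℂ | t ^ p = 1} := by
    have hfin : {t : ℂ | t ^ p = 1}.Finite := by
      refine Set.Finite.subset (Polynomial.nthRootsFinset p (1 : ℂ)).finite_toSet ?_
      intro t ht
      simp only [Finset.mem_coe]
      exact (Polynomial.mem_nthRootsFinset (Nat.pos_of_ne_zero hp) _).2 ht
    exact hfin.isDiscrete
  obtain ⟨ζ, hζ, hqζ⟩ := hVc.eqOn_const_of_mapsTo hT hqc (fun x hx => (hq3 x hx).2)
    ⟨1, by simp⟩
  have hζ0 : ζ ≠ 0 := by
    intro h0
    have hζ' : ζ ^ p = 1 := hζ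
    rw [h0, zero_pow hp] at hζ'
    exact zero_ne_one hζ'
  refine ⟨ζ, hζ, fun x hx => ?_⟩
  -- both sides are in normal form at `x` and agree on a punctured neighbourhood
  have hNF2 : MeromorphicNFAt h₂ x := hh₂.1 hx
  have hNF1 : MeromorphicNFAt ((fun _ : ℂ => ζ) • h₁) x :=
    (hh₁.1 hx).smul_analytic analyticAt_const hζ0
  have hVn : V ∈ 𝓝[≠] x := mem_nhdsWithin_of_mem_nhds (hV.mem_nhds hx)
  have heq : h₂ =ᶠ[𝓝[≠] x] ((fun _ : ℂ => ζ) • h₁) := by
    filter_upwards [hq1 x hx, hh₁.eventually_ne_zero hp hx (hf x hx), hVn] with y hy1 hy2 hyV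
    have h3 : q y = ζ := hqζ hyV
    simp only [Pi.div_apply] at hy1
    simp only [Pi.smul_apply', smul_eq_mul]
    rw [← h3, hy1, div_mul_cancel₀ _ hy2]
  have := (hNF2.eventuallyEq_nhdsNE_iff_eventuallyEq_nhds hNF1).1 heq
  simpa using this.self_of_nhds

end Fermat.Agent.S29.H942

end
end
-- ===== PACK-END S29/H942/MeroRootUnique.lean

-- ===== PACK-BEGIN S29/H942/MeroRootGlue.lean
section


/-!
# Gluing meromorphic `p`-th roots along an exhaustion by simply connected open sets
-/

set_option autoImplicit false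

noncomputable section

open Filter Topology Set Complex MeromorphicOn Function

namespace Fermat.Agent.S29.H942

/-- Existence of a root in normal form on a simply connected open set on which `f` has finitely
many zeros and poles. -/
theorem exists_isNFRootOn_of_finite {f : ℂ → ℂ} {U : Set ℂ}
    (hUc : IsSimplyConnected U) (hU : IsOpen U) (hf : MeromorphicOn f U)
    (h₂f : ∀ x ∈ U, meromorphicOrderAt f x ≠ ⊤) (h₃f : (divisor f U).support.Finite)
    {p : ℕ} (hp : p ≠ 0) (hdiv : ∀ x ∈ U, (p : ℤ) ∣ (meromorphicOrderAt f x).untop₀) :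
    ∃ h : ℂ → ℂ, IsNFRootOn h f U p := by
  have hdiv' : ∀ z, (p : ℤ) ∣ divisor f U z := by
    intro z
    by_cases hz : z ∈ U
    · rw [divisor_apply hf hz]
      exact hdiv z hz
    · have : divisor f U z = 0 := by
        rw [divisor_def]
        simp [hz]
      rw [this]
      exact dvd_zero _
  obtain ⟨h, hh, hpow⟩ := exists_meromorphicOn_pow_eq_of_finite hUc hU hf
    (fun u => h₂f u u.2) h₃f hp hdiv'
  exact ⟨_, isNFRootOn_toMeromorphicNFOn hU hh hpow⟩

/-- Multiplying a root by a root of unity gives a root. -/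
lemma IsNFRootOn.const_mul {h f : ℂ → ℂ} {V : Set ℂ} {p : ℕ} (hh : IsNFRootOn h f V p)
    {ζ : ℂ} (hζ : ζ ^ p = 1) (hζ0 : ζ ≠ 0) : IsNFRootOn (fun z => ζ * h z) f V p := by
  refine ⟨fun x hx => ?_, fun x hx => ?_⟩
  · have := (hh.1 hx).smul_analytic (g := fun _ : ℂ => ζ) analyticAt_const hζ0
    exact this
  · filter_upwards [hh.2 x hx] with y hy
    simp only [Pi.pow_apply] at hy ⊢
    rw [mul_pow, hζ, one_mul, hy]

/-- A root (of a function of finite order) on a nonempty open set is non-zero somewhere. -/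
lemma IsNFRootOn.exists_ne_zero {h f : ℂ → ℂ} {V : Set ℂ} {p : ℕ} (hp : p ≠ 0)
    (hh : IsNFRootOn h f V p) (hV : IsOpen V) (hne : V.Nonempty)
    (hf : ∀ x ∈ V, meromorphicOrderAt f x ≠ ⊤) : ∃ y ∈ V, h y ≠ 0 := by
  obtain ⟨x, hx⟩ := hne
  have h1 := hh.eventually_ne_zero hp hx (hf x hx)
  have h2 : V ∈ 𝓝[≠] x := mem_nhdsWithin_of_mem_nhds (hV.mem_nhds hx)
  obtain ⟨y, hy1, hy2⟩ := (h1.and h2).exists
  exact ⟨y, hy2, hy1⟩

/-- **Gluing.** -/
theorem exists_isNFRootOn_iUnion {f : ℂ → ℂ} {p : ℕ} (hp : p ≠ 0) (V : ℕ → Set ℂ)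
    (hVo : ∀ n, IsOpen (V n)) (hVsc : ∀ n, IsSimplyConnected (V n)) (hmono : Monotone V)
    (hf : ∀ n, MeromorphicOn f (V n)) (hford : ∀ n, ∀ x ∈ V n, meromorphicOrderAt f x ≠ ⊤)
    (hfin : ∀ n, (divisor f (V n)).support.Finite)
    (hdiv : ∀ n, ∀ x ∈ V n, (p : ℤ) ∣ (meromorphicOrderAt f x).untop₀) :
    ∃ h : ℂ → ℂ, IsNFRootOn h f (⋃ n, V n) p := by
  classical
  -- roots on each `V n`
  have h1 : ∀ n, ∃ h : ℂ → ℂ, IsNFRootOn h f (V n) p := fun n =>
    exists_isNFRootOn_of_finite (hVsc n) (hVo n) (hf n) (hford n) (hfin n) hp (hdiv n)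
  choose H hH using h1
  have hpc : ∀ n, IsPreconnected (V n) := fun n =>
    (hVsc n).isPathConnected.isConnected.isPreconnected
  have hV0 : ∀ n, V 0 ⊆ V n := fun n => hmono (Nat.zero_le n)
  -- normalisation against `H 0` on `V 0`
  have h2 : ∀ n, ∃ ζ : ℂ, ζ ^ p = 1 ∧ ∀ x ∈ V 0, H n x = ζ * H 0 x := fun n =>
    IsNFRootOn.exists_eq_mul hp (hVo 0) (hpc 0) (hford 0) (hH 0) ((hH n).mono (hV0 n))
  choose ζ hζ hζH using h2
  have hζ0 : ∀ n, ζ n ≠ 0 := by
    intro n h0
    have := hζ n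
    rw [h0, zero_pow hp] at this
    exact zero_ne_one this
  set H' : ℕ → ℂ → ℂ := fun n z => (ζ n)⁻¹ * H n z with hH'def
  have hH' : ∀ n, IsNFRootOn (H' n) f (V n) p := fun n =>
    (hH n).const_mul (by rw [inv_pow, hζ n, inv_one]) (inv_ne_zero (hζ0 n))
  have hH'0 : ∀ n, ∀ x ∈ V 0, H' n x = H 0 x := by
    intro n x hx
    simp only [hH'def]
    rw [hζH n x hx, ← mul_assoc, inv_mul_cancel₀ (hζ0 n), one_mul]
  obtain ⟨y₀, hy₀V, hy₀⟩ := (hH 0).exists_ne_zero hp (hVo 0) (hVsc 0).nonempty (hford 0)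
  -- compatibility
  have h3 : ∀ n m, n ≤ m → ∀ x ∈ V n, H' m x = H' n x := by
    intro n m hnm x hx
    obtain ⟨ξ, -, hξH⟩ := IsNFRootOn.exists_eq_mul hp (hVo n) (hpc n) (hford n) (hH' n)
      ((hH' m).mono (hmono hnm))
    have h4 := hξH y₀ (hV0 n hy₀V)
    rw [hH'0 m y₀ hy₀V, hH'0 n y₀ hy₀V] at h4
    have h5 : ξ = 1 := by
      have : (ξ - 1) * H 0 y₀ = 0 := by rw [sub_mul, one_mul, ← h4, sub_self]
      rcases mul_eq_zero.1 this with h | h
      · exact sub_eq_zero.1 h
      · exact absurd h hy₀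
    rw [hξH x hx, h5, one_mul]
  -- the glued function
  set idx : ℂ → ℕ := fun z => if hz : ∃ n, z ∈ V n then Nat.find hz else 0 with hidx
  set h : ℂ → ℂ := fun z => H' (idx z) z with hh
  have h6 : ∀ m, ∀ x ∈ V m, h x = H' m x := by
    intro m x hx
    have hex : ∃ n, x ∈ V n := ⟨m, hx⟩
    have hi : idx x = Nat.find hex := by simp only [hidx, dif_pos hex]
    have hle : idx x ≤ m := by rw [hi]; exact Nat.find_min' hex hx
    have hmem : x ∈ V (idx x) := by rw [hi]; exact Nat.find_spec hex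
    exact (h3 (idx x) m hle x hmem).symm
  refine ⟨h, fun x hx => ?_, fun x hx => ?_⟩
  · obtain ⟨m, hm⟩ := mem_iUnion.1 hx
    have heq : h =ᶠ[𝓝 x] H' m := by
      filter_upwards [(hVo m).mem_nhds hm] with y hy using h6 m y hy
    exact (meromorphicNFAt_congr heq).2 ((hH' m).1 hm)
  · obtain ⟨m, hm⟩ := mem_iUnion.1 hx
    have hVn : V m ∈ 𝓝[≠] x := mem_nhdsWithin_of_mem_nhds ((hVo m).mem_nhds hm)
    filter_upwards [(hH' m).2 x hm, hVn] with y hy hyV
    simp only [Pi.pow_apply] at hy ⊢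
    rw [h6 m y hyV, hy]

end Fermat.Agent.S29.H942

end
end
-- ===== PACK-END S29/H942/MeroRootGlue.lean

-- ===== PACK-BEGIN S29/H812/OrdSum.lean
section





/-!
# S29 / H812 — order of a finite sum with a unique strictly minimal term, and local
"indicator" functions at the places of a finite set (from weak approximation).
-/

set_option autoImplicit false

noncomputable section

open AlgebraicCurve WithZero

namespace Fermat.Agent.S29.H812

open Fermat.Agent.S24

variable {K F : Type*} [Field K] [Field F] [Algebra K F] (v : Place K F)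

/-- If one term of a finite sum has strictly smaller order than all other nonzero terms, then the
sum is nonzero and has the order of that term. -/
theorem ord_sum_eq_of_lt {ι : Type*} (s : Finset ι) (f : ι → F) (j : ι) (hj : j ∈ s)
    (hfj : f j ≠ 0) (h : ∀ i ∈ s, i ≠ j → f i = 0 ∨ v.ord (f j) < v.ord (f i)) :
    (∑ i ∈ s, f i) ≠ 0 ∧ v.ord (∑ i ∈ s, f i) = v.ord (f j) := by
  classical
  have key : v.adicValuation (∑ i ∈ s, f i) = v.adicValuation (f j) := by
    apply Valuation.map_sum_eq_of_lt _ hj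
    intro i hi
    rw [Finset.mem_sdiff, Finset.mem_singleton] at hi
    by_cases hi0 : f i = 0
    · rw [hi0, map_zero]
      exact zero_lt_iff.mpr (v.adicValuation_ne_zero hfj)
    · rcases h i hi.1 hi.2 with h0 | hlt
      · exact absurd h0 hi0
      · rw [H504.adicValuation_eq_exp_neg_ord v hi0, H504.adicValuation_eq_exp_neg_ord v hfj,
          exp_lt_exp]
        omega
  have hne : (∑ i ∈ s, f i) ≠ 0 := by
    intro h0
    rw [h0, map_zero] at key
    exact v.adicValuation_ne_zero hfj key.symm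
  refine ⟨hne, ?_⟩
  rw [H504.adicValuation_eq_exp_neg_ord v hne, H504.adicValuation_eq_exp_neg_ord v hfj] at key
  have := WithZero.exp_injective key
  omega

/-- `ord` of a finite sum is at least a common lower bound of the orders of the nonzero terms,
provided the sum is nonzero. -/
theorem le_ord_sum {ι : Type*} (s : Finset ι) (f : ι → F) (m : ℤ)
    (h : ∀ i ∈ s, f i = 0 ∨ m ≤ v.ord (f i)) (hne : (∑ i ∈ s, f i) ≠ 0) :
    m ≤ v.ord (∑ i ∈ s, f i) := by
  classical
  have key : v.adicValuation (∑ i ∈ s, f i) ≤ exp (-m) := by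
    apply Valuation.map_sum_le
    intro i hi
    by_cases hi0 : f i = 0
    · rw [hi0, map_zero]; exact zero_le
    · rcases h i hi with h0 | hle
      · exact absurd h0 hi0
      · rw [H504.adicValuation_eq_exp_neg_ord v hi0, exp_le_exp]
        omega
  rw [H504.adicValuation_eq_exp_neg_ord v hne, exp_le_exp] at key
  omega

/-- Membership version: a finite sum of elements of the valuation ring is in the valuation
ring. -/
theorem ord_one_add_of_neg {f : F} (hf : v.ord f < 0) :
    1 + f ≠ 0 ∧ v.ord (1 + f) = v.ord f := by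
  have hf0 : f ≠ 0 := H117.ne_zero_of_ord_ne_zero v hf.ne
  have h := H117.ord_add_eq_of_lt v (f := f) (g := 1) (by rw [v.ord_one]; exact hf) hf0
  rw [add_comm] at h
  refine ⟨?_, h⟩
  intro h0
  rw [h0, v.ord_zero] at h
  omega

theorem ord_one_add_of_pos {f : F} (hf : 0 < v.ord f) :
    1 + f ≠ 0 ∧ v.ord (1 + f) = 0 := by
  have h := H117.ord_add_eq_of_lt v (f := 1) (g := f) (by rw [v.ord_one]; exact hf) one_ne_zero
  rw [v.ord_one] at h
  refine ⟨?_, h⟩
  intro h0
  have hf1 : f = -1 := by linear_combination h0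
  rw [hf1, H117.ord_neg, v.ord_one] at hf
  exact lt_irrefl _ hf

/-- **Indicator functions.**  For a place `w` and a finite set `s` of other places there is
`ε` with `ε ≡ 1` at `w` (i.e. `ord_w (1 - ε) > 0`, `ord_w ε = 0`) and `ord_{w'} ε > 0`,
`ord_{w'} (1 - ε) = 0` for `w' ∈ s`. -/
theorem exists_indicator (w : Place K F) (s : Finset (Place K F)) (hw : w ∉ s) :
    ∃ ε : F, ε ≠ 0 ∧ 1 - ε ≠ 0 ∧ w.ord ε = 0 ∧ 0 < w.ord (1 - ε) ∧
      ∀ w' ∈ s, 0 < w'.ord ε ∧ w'.ord (1 - ε) = 0 := by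
  obtain ⟨f, hf1, hf2⟩ := H117.exists_ord_neg_forall_pos w s hw
  have hf0 : f ≠ 0 := H117.ne_zero_of_ord_ne_zero w hf1.ne
  obtain ⟨h1, h2⟩ := ord_one_add_of_neg w hf1
  have hinv : (1 + f)⁻¹ ≠ 0 := inv_ne_zero h1
  have hε : 1 - f / (1 + f) = (1 + f)⁻¹ := by field_simp; ring
  refine ⟨f / (1 + f), div_ne_zero hf0 h1, by rw [hε]; exact hinv, ?_, ?_, ?_⟩
  · rw [H117.ord_div w hf0 h1, h2]; ring
  · rw [hε, w.ord_inv, h2]; omega
  · intro w' hw'
    obtain ⟨h3, h4⟩ := ord_one_add_of_pos w' (hf2 w' hw')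
    constructor
    · rw [H117.ord_div w' hf0 h3, h4]; have := hf2 w' hw'; omega
    · rw [hε, w'.ord_inv, h4]; rfl

end Fermat.Agent.S29.H812

end
end
-- ===== PACK-END S29/H812/OrdSum.lean

-- ===== PACK-BEGIN S21/H561/WeylL2.lean
section


/-!
# Weyl's lemma, `L²_loc`-limit form (helper561)

A sequence of continuous functions on an open set `U ⊆ ℂ` which is Cauchy in `L²` on every compact
subset of `U` and asymptotically weakly holomorphic converges in `L²_loc` to a holomorphic function.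
-/

open MeasureTheory Complex Metric Set Filter Topology
open scoped ContDiff Real ENNReal

namespace Fermat.Agent.S21.H561

noncomputable section

lemma l2_memLp_of_continuousOn {F : ℂ → ℂ} {K : Set ℂ} (hK : IsCompact K)
    (hF : ContinuousOn F K) : MemLp F 2 (volume.restrict K) := by
  have : IsFiniteMeasure (volume.restrict K) := isFiniteMeasure_restrict.2 hK.measure_lt_top.ne
  obtain ⟨C, hC⟩ := hK.exists_bound_of_continuousOn hF
  exact MemLp.of_bound (hF.aestronglyMeasurable hK.measurableSet) C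
    ((ae_restrict_iff' hK.measurableSet).2 (ae_of_all _ hC))

lemma l2_integral_eq {F : ℂ → ℂ} {K : Set ℂ} (hK : IsCompact K) (hF : ContinuousOn F K) :
    ∫ z in K, ‖F z‖ ^ 2 = (eLpNorm F 2 (volume.restrict K)).toReal ^ 2 := by
  have hmem := l2_memLp_of_continuousOn hK hF
  rw [hmem.eLpNorm_eq_integral_rpow_norm two_ne_zero ENNReal.ofNat_ne_top]
  have h0 : 0 ≤ ∫ z in K, ‖F z‖ ^ 2 := integral_nonneg fun z => by positivity
  simp only [ENNReal.toReal_ofNat, Real.rpow_two]
  rw [ENNReal.toReal_ofReal (by positivity), ← Real.rpow_natCast, ← Real.rpow_mul h0]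
  norm_num

/-- `L²` completeness on a compact set, for continuous functions. -/
lemma l2_exists_limit {K : Set ℂ} (hK : IsCompact K) (g : ℕ → ℂ → ℂ)
    (hg : ∀ n, ContinuousOn (g n) K)
    (hcauchy : ∀ ε > 0, ∃ M, ∀ m ≥ M, ∀ n ≥ M, ∫ z in K, ‖g n z - g m z‖ ^ 2 < ε) :
    ∃ h : ℂ → ℂ, MemLp h 2 (volume.restrict K) ∧
      Tendsto (fun n => eLpNorm (g n - h) 2 (volume.restrict K)) atTop (𝓝 0) := by
  have hmem : ∀ n, MemLp (g n) 2 (volume.restrict K) :=
    fun n => l2_memLp_of_continuousOn hK (hg n)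
  set x : ℕ → Lp ℂ 2 (volume.restrict K) := fun n => (hmem n).toLp (g n) with hx
  have hcs : CauchySeq x := by
    rw [Metric.cauchySeq_iff]
    intro ε hε
    obtain ⟨M, hM⟩ := hcauchy (ε ^ 2) (by positivity)
    refine ⟨M, fun m hm n hn => ?_⟩
    have h1 := hM n hn m hm
    have h2 : dist (x m) (x n) = (eLpNorm (g m - g n) 2 (volume.restrict K)).toReal := by
      rw [dist_edist, Lp.edist_toLp_toLp]
    rw [h2]
    have h3 := l2_integral_eq hK ((hg m).sub (hg n))
    have h4 : (eLpNorm (g m - g n) 2 (volume.restrict K)).toReal ^ 2 < ε ^ 2 := by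
      rw [← h3]; exact h1
    exact lt_of_pow_lt_pow_left₀ 2 hε.le h4
  obtain ⟨y, hy⟩ := cauchySeq_tendsto_of_complete hcs
  refine ⟨y, Lp.memLp y, ?_⟩
  refine (Lp.tendsto_Lp_iff_tendsto_eLpNorm'' g hmem y (Lp.memLp y)).1 ?_
  rw [Lp.toLp_coeFn]
  exact hy

/-- `L²` convergence on a compact set implies convergence of integrals against a continuous
function vanishing outside the compact set. -/
lemma l2_tendsto_integral_mul {K : Set ℂ} (hK : IsCompact K) (g : ℕ → ℂ → ℂ)
    (hg : ∀ n, ContinuousOn (g n) K) {h : ℂ → ℂ} (hh : MemLp h 2 (volume.restrict K))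
    (hlim : Tendsto (fun n => eLpNorm (g n - h) 2 (volume.restrict K)) atTop (𝓝 0))
    (D : ℂ → ℂ) (hD : Continuous D) (hDK : ∀ z, z ∉ K → D z = 0) :
    Tendsto (fun n => ∫ z, g n z * D z) atTop (𝓝 (∫ z, h z * D z)) := by
  have : IsFiniteMeasure (volume.restrict K) := isFiniteMeasure_restrict.2 hK.measure_lt_top.ne
  have hres : ∀ F : ℂ → ℂ, ∫ z, F z * D z = ∫ z in K, F z * D z := fun F =>
    (setIntegral_eq_integral_of_forall_compl_eq_zero fun z hz => by rw [hDK z hz, mul_zero]).symm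
  simp_rw [hres]
  obtain ⟨C, hC⟩ := hK.exists_bound_of_continuousOn hD.continuousOn
  refine tendsto_integral_of_L1' (μ := volume.restrict K) (fun z => h z * D z)
    (hh.1.mul hD.aestronglyMeasurable)
    (Eventually.of_forall fun n => ((hg n).mul hD.continuousOn).integrableOn_compact hK) ?_
  have hbound : ∀ n, eLpNorm ((fun z => g n z * D z) - fun z => h z * D z) 1 (volume.restrict K)
      ≤ ENNReal.ofReal C * (eLpNorm (g n - h) 2 (volume.restrict K)
          * (volume.restrict K) Set.univ ^ (1 / (1 : ℝ≥0∞).toReal - 1 / (2 : ℝ≥0∞).toReal)) := by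
    intro n
    have hae : AEStronglyMeasurable (g n - h) (volume.restrict K) :=
      ((hg n).aestronglyMeasurable hK.measurableSet).sub hh.1
    calc eLpNorm ((fun z => g n z * D z) - fun z => h z * D z) 1 (volume.restrict K)
        ≤ ENNReal.ofReal C * eLpNorm (g n - h) 1 (volume.restrict K) := by
          refine eLpNorm_le_mul_eLpNorm_of_ae_le_mul ?_ 1
          rw [ae_restrict_iff' hK.measurableSet]
          refine ae_of_all _ fun z hz => ?_
          simp only [Pi.sub_apply]
          rw [← sub_mul, norm_mul, mul_comm]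
          exact mul_le_mul_of_nonneg_right (hC z hz) (norm_nonneg _)
      _ ≤ _ := by
          gcongr
          exact eLpNorm_le_eLpNorm_mul_rpow_measure_univ (by norm_num) hae
  have hlim2 : Tendsto (fun n => ENNReal.ofReal C * (eLpNorm (g n - h) 2 (volume.restrict K)
          * (volume.restrict K) Set.univ ^ (1 / (1 : ℝ≥0∞).toReal - 1 / (2 : ℝ≥0∞).toReal)))
      atTop (𝓝 0) := by
    have hfin : (volume.restrict K) Set.univ ^ (1 / (1 : ℝ≥0∞).toReal - 1 / (2 : ℝ≥0∞).toReal)
        ≠ (⊤ : ℝ≥0∞) := by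
      refine ENNReal.rpow_ne_top_of_nonneg ?_ (measure_ne_top _ _)
      simp only [ENNReal.toReal_one, ENNReal.toReal_ofNat]
      norm_num
    have h1 := ENNReal.Tendsto.mul_const hlim (Or.inr hfin)
    have h2 := ENNReal.Tendsto.const_mul h1 (Or.inr (ENNReal.ofReal_ne_top (r := C)))
    simpa using h2
  exact tendsto_of_tendsto_of_tendsto_of_le_of_le tendsto_const_nhds hlim2
    (fun n => bot_le) hbound

lemma continuous_dbarR {η : ℂ → ℝ} (hη : ContDiff ℝ ∞ η) : Continuous (dbarR η) := by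
  have h1 : Continuous (fderiv ℝ η) := hη.continuous_fderiv (by norm_num)
  have h2 : ∀ v : ℂ, Continuous fun z => ((fderiv ℝ η z v : ℝ) : ℂ) := fun v =>
    continuous_ofReal.comp ((ContinuousLinearMap.apply ℝ ℝ v).continuous.comp h1)
  unfold dbarR
  exact continuous_const.mul ((h2 1).add (continuous_const.mul (h2 I)))

lemma dbarR_eq_zero_of_notMem {η : ℂ → ℝ} {z : ℂ} (hz : z ∉ tsupport η) : dbarR η z = 0 := by
  unfold dbarR
  rw [fderiv_of_notMem_tsupport ℝ hz]
  simp

/-- The local form: on a ball whose closure lies in `U`, the `L²` limit is holomorphic. -/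
lemma weyl_l2_local {U : Set ℂ} (g : ℕ → ℂ → ℂ) (hg : ∀ n, ContinuousOn (g n) U)
    (hcauchy : ∀ K : Set ℂ, IsCompact K → K ⊆ U → ∀ ε > 0, ∃ M, ∀ m ≥ M, ∀ n ≥ M,
        ∫ z in K, ‖g n z - g m z‖ ^ 2 < ε)
    (hweak : ∀ η : ℂ → ℝ, ContDiff ℝ ∞ η → HasCompactSupport η → tsupport η ⊆ U →
        Tendsto (fun n => ∫ z, g n z *
          (((fderiv ℝ η z 1 : ℝ) : ℂ) + Complex.I * ((fderiv ℝ η z Complex.I : ℝ) : ℂ)))
          atTop (𝓝 0))
    {z₀ : ℂ} {r : ℝ} (hsub : closedBall z₀ r ⊆ U) :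
    ∃ f : ℂ → ℂ, DifferentiableOn ℂ f (ball z₀ r) ∧
      Tendsto (fun n => eLpNorm (g n - f) 2 (volume.restrict (ball z₀ r))) atTop (𝓝 0) := by
  have hK : IsCompact (closedBall z₀ r) := isCompact_closedBall z₀ r
  have hgK : ∀ n, ContinuousOn (g n) (closedBall z₀ r) := fun n => (hg n).mono hsub
  obtain ⟨h, hh, hlim⟩ := l2_exists_limit hK g hgK (hcauchy _ hK hsub)
  have : IsFiniteMeasure (volume.restrict (closedBall z₀ r)) :=
    isFiniteMeasure_restrict.2 hK.measure_lt_top.ne
  have hint : IntegrableOn h (closedBall z₀ r) volume := hh.integrable (by norm_num)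
  have hloc : LocallyIntegrableOn h (ball z₀ r) volume :=
    (hint.mono_set ball_subset_closedBall).locallyIntegrableOn
  have hwk : WeakHolo (ball z₀ r) h := by
    intro η hη hc hs
    have hDK : ∀ z, z ∉ closedBall z₀ r → dbarR η z = 0 := fun z hz =>
      dbarR_eq_zero_of_notMem fun hz' => hz (ball_subset_closedBall (hs hz'))
    have h1 := l2_tendsto_integral_mul hK g hgK hh hlim (dbarR η) (continuous_dbarR hη) hDK
    have h2 := hweak η hη hc (hs.trans (ball_subset_closedBall.trans hsub))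
    have h3 : ∀ n, ∫ z, g n z * dbarR η z = (1 / 2 : ℂ) * ∫ z, g n z *
          (((fderiv ℝ η z 1 : ℝ) : ℂ) + Complex.I * ((fderiv ℝ η z Complex.I : ℝ) : ℂ)) := by
      intro n
      rw [← integral_const_mul]
      refine integral_congr_ae (ae_of_all _ fun z => ?_)
      simp only [dbarR]
      ring
    simp_rw [h3] at h1
    have h4 := h2.const_mul (1 / 2 : ℂ)
    rw [mul_zero] at h4
    exact tendsto_nhds_unique h1 h4
  obtain ⟨f, hf, hfe⟩ := weyl_dbar isOpen_ball h hloc hwk
  refine ⟨f, hf, ?_⟩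
  have hle : ∀ n, eLpNorm (g n - f) 2 (volume.restrict (ball z₀ r))
      ≤ eLpNorm (g n - h) 2 (volume.restrict (closedBall z₀ r)) := by
    intro n
    have e1 : eLpNorm (g n - f) 2 (volume.restrict (ball z₀ r))
        = eLpNorm (g n - h) 2 (volume.restrict (ball z₀ r)) := by
      refine eLpNorm_congr_ae ?_
      filter_upwards [hfe] with z hz
      simp only [Pi.sub_apply, hz]
    rw [e1]
    exact eLpNorm_mono_measure _ (Measure.restrict_mono ball_subset_closedBall le_rfl)
  exact tendsto_of_tendsto_of_tendsto_of_le_of_le tendsto_const_nhds hlim (fun n => bot_le) hle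

/-- Uniqueness of continuous `L²_loc` limits on overlaps. -/
lemma l2_limit_unique {g : ℕ → ℂ → ℂ} {V₁ V₂ : Set ℂ} (hV₁ : IsOpen V₁) (hV₂ : IsOpen V₂)
    (hg₁ : ∀ n, ContinuousOn (g n) V₁)
    {f₁ f₂ : ℂ → ℂ} (hf₁ : ContinuousOn f₁ V₁) (hf₂ : ContinuousOn f₂ V₂)
    (h₁ : Tendsto (fun n => eLpNorm (g n - f₁) 2 (volume.restrict V₁)) atTop (𝓝 0))
    (h₂ : Tendsto (fun n => eLpNorm (g n - f₂) 2 (volume.restrict V₂)) atTop (𝓝 0)) :
    EqOn f₁ f₂ (V₁ ∩ V₂) := by
  have hW : IsOpen (V₁ ∩ V₂) := hV₁.inter hV₂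
  have hm1 : ∀ n, AEStronglyMeasurable (g n - f₁) (volume.restrict (V₁ ∩ V₂)) := fun n =>
    (((hg₁ n).sub hf₁).mono inter_subset_left).aestronglyMeasurable hW.measurableSet
  have hm2 : ∀ n, AEStronglyMeasurable (g n - f₂) (volume.restrict (V₁ ∩ V₂)) := fun n =>
    ((((hg₁ n).mono inter_subset_left).sub (hf₂.mono inter_subset_right))).aestronglyMeasurable
      hW.measurableSet
  have hle : ∀ n, eLpNorm (f₁ - f₂) 2 (volume.restrict (V₁ ∩ V₂))
      ≤ eLpNorm (g n - f₂) 2 (volume.restrict V₂) + eLpNorm (g n - f₁) 2 (volume.restrict V₁) := by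
    intro n
    have e : f₁ - f₂ = (g n - f₂) - (g n - f₁) := by
      ext z; simp
    rw [e]
    refine (eLpNorm_sub_le (hm2 n) (hm1 n) (by norm_num)).trans ?_
    exact add_le_add
      (eLpNorm_mono_measure _ (Measure.restrict_mono inter_subset_right le_rfl))
      (eLpNorm_mono_measure _ (Measure.restrict_mono inter_subset_left le_rfl))
  have hlim : Tendsto (fun n => eLpNorm (g n - f₂) 2 (volume.restrict V₂)
      + eLpNorm (g n - f₁) 2 (volume.restrict V₁)) atTop (𝓝 (0 + 0)) := h₂.add h₁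
  rw [add_zero] at hlim
  have hz : eLpNorm (f₁ - f₂) 2 (volume.restrict (V₁ ∩ V₂)) = 0 :=
    le_antisymm (ge_of_tendsto' hlim hle) bot_le
  have hmf : AEStronglyMeasurable (f₁ - f₂) (volume.restrict (V₁ ∩ V₂)) :=
    ((hf₁.mono inter_subset_left).sub (hf₂.mono inter_subset_right)).aestronglyMeasurable
      hW.measurableSet
  rw [eLpNorm_eq_zero_iff hmf two_ne_zero] at hz
  refine Measure.eqOn_open_of_ae_eq (μ := (volume : Measure ℂ)) ?_ hW
    (hf₁.mono inter_subset_left) (hf₂.mono inter_subset_right)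
  filter_upwards [hz] with z hz
  simpa [sub_eq_zero] using hz

lemma l2_eLpNorm_union_le (F : ℂ → ℂ) (S T : Set ℂ) :
    eLpNorm F 2 (volume.restrict (S ∪ T))
      ≤ eLpNorm F 2 (volume.restrict S) + eLpNorm F 2 (volume.restrict T) := by
  simp only [eLpNorm_eq_lintegral_rpow_enorm_toReal (two_ne_zero) (ENNReal.ofNat_ne_top)]
  refine le_trans (ENNReal.rpow_le_rpow (lintegral_union_le _ S T) (by positivity)) ?_
  refine ENNReal.rpow_add_le_add_rpow _ _ (by positivity) ?_
  simp only [ENNReal.toReal_ofNat]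
  norm_num

lemma l2_tendsto_biUnion (F : ℕ → ℂ → ℂ) (S : ℂ → Set ℂ) (t : Finset ℂ)
    (h : ∀ i ∈ t, Tendsto (fun n => eLpNorm (F n) 2 (volume.restrict (S i))) atTop (𝓝 0)) :
    Tendsto (fun n => eLpNorm (F n) 2 (volume.restrict (⋃ i ∈ t, S i))) atTop (𝓝 0) := by
  classical
  induction t using Finset.induction_on with
  | empty => simp
  | insert a t ha ih =>
    have h1 := h a (Finset.mem_insert_self a t)
    have h2 := ih fun i hi => h i (Finset.mem_insert_of_mem hi)
    have h3 : Tendsto (fun n => eLpNorm (F n) 2 (volume.restrict (S a))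
        + eLpNorm (F n) 2 (volume.restrict (⋃ i ∈ t, S i))) atTop (𝓝 (0 + 0)) := h1.add h2
    rw [add_zero] at h3
    refine tendsto_of_tendsto_of_tendsto_of_le_of_le tendsto_const_nhds h3 (fun n => bot_le)
      fun n => ?_
    rw [Finset.set_biUnion_insert]
    exact l2_eLpNorm_union_le _ _ _

/-- **Weyl's lemma, `L²_loc`-limit form**, on an arbitrary open subset of `ℂ`. -/
theorem weyl_lemma_open {U : Set ℂ} (hU : IsOpen U) (g : ℕ → ℂ → ℂ)
    (hg : ∀ n, ContinuousOn (g n) U)
    (hcauchy : ∀ K : Set ℂ, IsCompact K → K ⊆ U → ∀ ε > 0, ∃ M, ∀ m ≥ M, ∀ n ≥ M,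
        ∫ z in K, ‖g n z - g m z‖ ^ 2 < ε)
    (hweak : ∀ η : ℂ → ℝ, ContDiff ℝ ∞ η → HasCompactSupport η → tsupport η ⊆ U →
        Tendsto (fun n => ∫ z, g n z *
          (((fderiv ℝ η z 1 : ℝ) : ℂ) + Complex.I * ((fderiv ℝ η z Complex.I : ℝ) : ℂ)))
          atTop (𝓝 0)) :
    ∃ f : ℂ → ℂ, DifferentiableOn ℂ f U ∧
      ∀ K : Set ℂ, IsCompact K → K ⊆ U →
        Tendsto (fun n => ∫ z in K, ‖g n z - f z‖ ^ 2) atTop (𝓝 0) := by
  -- local data
  have hloc : ∀ z ∈ U, ∃ r : ℝ, 0 < r ∧ closedBall z r ⊆ U ∧ ∃ f : ℂ → ℂ,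
      DifferentiableOn ℂ f (ball z r) ∧
      Tendsto (fun n => eLpNorm (g n - f) 2 (volume.restrict (ball z r))) atTop (𝓝 0) := by
    intro z hz
    obtain ⟨r, hr, hrU⟩ := Metric.nhds_basis_closedBall.mem_iff.mp (hU.mem_nhds hz)
    exact ⟨r, hr, hrU, weyl_l2_local g hg hcauchy hweak hrU⟩
  choose! r hr hrU F hF hFlim using hloc
  have hballU : ∀ z ∈ U, ball z (r z) ⊆ U := fun z hz =>
    ball_subset_closedBall.trans (hrU z hz)
  -- compatibility on overlaps
  have hcompat : ∀ z ∈ U, ∀ w ∈ U, EqOn (F z) (F w) (ball z (r z) ∩ ball w (r w)) :=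
    fun z hz w hw => l2_limit_unique isOpen_ball isOpen_ball
      (fun n => (hg n).mono (hballU z hz)) (hF z hz).continuousOn (hF w hw).continuousOn
      (hFlim z hz) (hFlim w hw)
  have hglue : ∀ z ∈ U, EqOn (fun w => F w w) (F z) (ball z (r z)) := by
    intro z hz w hw
    have hwU : w ∈ U := hballU z hz hw
    exact hcompat w hwU z hz ⟨mem_ball_self (hr w hwU), hw⟩
  refine ⟨fun w => F w w, ?_, ?_⟩
  · intro z hz
    have h1 : DifferentiableAt ℂ (F z) z :=
      (hF z hz).differentiableAt (isOpen_ball.mem_nhds (mem_ball_self (hr z hz)))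
    have h2 : (fun w => F w w) =ᶠ[𝓝 z] F z := by
      filter_upwards [isOpen_ball.mem_nhds (mem_ball_self (hr z hz))] with w hw
      exact hglue z hz hw
    exact (h2.differentiableAt_iff.2 h1).differentiableWithinAt
  · intro K hK hKU
    set f : ℂ → ℂ := fun w => F w w with hf
    have hfcont : ContinuousOn f U := by
      intro z hz
      have h1 : ContinuousAt (F z) z :=
        (hF z hz).continuousOn.continuousAt (isOpen_ball.mem_nhds (mem_ball_self (hr z hz)))
      have h2 : f =ᶠ[𝓝 z] F z := by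
        filter_upwards [isOpen_ball.mem_nhds (mem_ball_self (hr z hz))] with w hw
        exact hglue z hz hw
      exact (h1.congr h2.symm).continuousWithinAt
    obtain ⟨t, htK, hcov⟩ := hK.elim_nhds_subcover (fun z => ball z (r z))
      (fun z hz => isOpen_ball.mem_nhds (mem_ball_self (hr z (hKU hz))))
    have hlimU := l2_tendsto_biUnion (fun n => g n - f) (fun z => ball z (r z)) t (by
      intro z hz
      have hzU : z ∈ U := hKU (htK z hz)
      have e : ∀ n, eLpNorm (g n - f) 2 (volume.restrict (ball z (r z)))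
          = eLpNorm (g n - F z) 2 (volume.restrict (ball z (r z))) := by
        intro n
        refine eLpNorm_congr_ae ?_
        rw [Filter.EventuallyEq, ae_restrict_iff' measurableSet_ball]
        refine ae_of_all _ fun w hw => ?_
        simp only [Pi.sub_apply]
        rw [hglue z hzU hw]
      simp_rw [e]
      exact hFlim z hzU)
    have hlimK : Tendsto (fun n => eLpNorm (g n - f) 2 (volume.restrict K)) atTop (𝓝 0) :=
      tendsto_of_tendsto_of_tendsto_of_le_of_le tendsto_const_nhds hlimU (fun n => bot_le)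
        fun n => eLpNorm_mono_measure _ (Measure.restrict_mono hcov le_rfl)
    have hconv : ∀ n, ∫ z in K, ‖g n z - f z‖ ^ 2
        = (eLpNorm (g n - f) 2 (volume.restrict K)).toReal ^ 2 := fun n =>
      l2_integral_eq hK (((hg n).sub hfcont).mono hKU)
    simp_rw [hconv]
    have h1 := (ENNReal.tendsto_toReal ENNReal.zero_ne_top).comp hlimK
    have h2 := h1.pow 2
    simpa using h2

end

end Fermat.Agent.S21.H561

end
-- ===== PACK-END S21/H561/WeylL2.lean

-- ===== PACK-BEGIN S21/HodgeInterface.lean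
section






/-!
# S21 — interface statements for the Hodge part D'

`W` Weyl lemma (helper561, `H561/WeylL2.lean`), `Cusp` packaging (helper825, `Cusp.lean`:
`exists_cuspForm_of_energy`), `Per` periods (helper972, `Per.lean`:
`period_eq_zero_of_tendsto`).
-/

set_option autoImplicit false

open ModularCurve ModularCurve.Period UpperHalfPlane CongruenceSubgroup Filter Topology
open MeasureTheory
open scoped MatrixGroups ComplexConjugate ContDiff

namespace Fermat.Agent.S21

/-- **W** (Weyl lemma for `∂̄`). -/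
theorem weyl_lemma (g : ℕ → ℂ → ℂ) (hg : ∀ n, ContinuousOn (g n) Uhp)
    (hcauchy : ∀ K : Set ℂ, IsCompact K → K ⊆ Uhp → ∀ ε > 0, ∃ M, ∀ m ≥ M, ∀ n ≥ M,
        ∫ z in K, ‖g n z - g m z‖ ^ 2 < ε)
    (hweak : ∀ η : ℂ → ℝ, ContDiff ℝ ∞ η → HasCompactSupport η → tsupport η ⊆ Uhp →
        Tendsto (fun n => ∫ z, g n z *
          (((fderiv ℝ η z 1 : ℝ) : ℂ) + Complex.I * ((fderiv ℝ η z Complex.I : ℝ) : ℂ)))
          atTop (𝓝 0)) :
    ∃ f : ℂ → ℂ, DifferentiableOn ℂ f Uhp ∧
      ∀ K : Set ℂ, IsCompact K → K ⊆ Uhp →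
        Tendsto (fun n => ∫ z in K, ‖g n z - f z‖ ^ 2) atTop (𝓝 0) :=
  H561.weyl_lemma_open isOpen_Uhp g hg hcauchy hweak

end Fermat.Agent.S21

end
-- ===== PACK-END S21/HodgeInterface.lean

-- ===== PACK-BEGIN S23/Cap/TForm.lean
section



/-!
# S23 / WP2 : the auxiliary form `t(τ) = N³ E₄(Nτ) = E₄ ∣[4] diag(N,1)` on `Γ₀(N)`.

`t` is a modular form of weight 4 on `Γ₀(N)`, has integral q-expansion, and
`t ∣[4] γ ≠ t` for every `γ ∈ SL₂(ℤ) \ Γ₀(N)`.  (Adapter around `H143/PrimElt.lean`.)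
-/

set_option autoImplicit false

namespace Fermat.Agent.S23.Cap

open UpperHalfPlane ModularForm ModularFormClass MatrixGroups CongruenceSubgroup

/-- **WP2 main statement.** -/
theorem exists_tForm (N : ℕ) [NeZero N] :
    ∃ (w : ℤ) (t : ℍ → ℂ), IsMF (G0 N) w t ∧ IsIntSeries (qx t) ∧
      ∀ γ : GL (Fin 2) ℝ, γ ∈ SLZ → γ ∉ G0 N → t ∣[w] γ ≠ t := by
  refine ⟨4, ⇑(H143.primElt N), ⟨H143.primElt N, rfl⟩, H143.primElt_qExpansion_coeff_int N, ?_⟩
  intro γ hγ hγ'
  obtain ⟨g, rfl⟩ := MonoidHom.mem_range.mp hγ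
  exact H143.primElt_slash_ne N g (fun hg ↦ hγ' ⟨g, hg, rfl⟩)

end Fermat.Agent.S23.Cap

end
-- ===== PACK-END S23/Cap/TForm.lean

-- ===== PACK-BEGIN S23/Cap/Basic.lean
section




/-!
# S23 / WP0 : closure properties of `IsMF`, `IsCF` and of the q-expansion map `qx`.
-/

set_option autoImplicit false
set_option linter.unusedSectionVars false

namespace Fermat.Agent.S23.Cap

open UpperHalfPlane ModularForm ModularFormClass MatrixGroups CongruenceSubgroup

variable {Γ : Subgroup (GL (Fin 2) ℝ)} {k k₁ k₂ : ℤ} {f g : ℍ → ℂ}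

/-! ### closure properties -/

theorem IsMF.congr_weight (h : k₁ = k₂) (hf : IsMF Γ k₁ f) : IsMF Γ k₂ f := h ▸ hf

theorem IsCF.congr_weight (h : k₁ = k₂) (hf : IsCF Γ k₁ f) : IsCF Γ k₂ f := h ▸ hf

theorem IsCF.isMF (hf : IsCF Γ k f) : IsMF Γ k f := by
  obtain ⟨F, rfl⟩ := hf
  exact ⟨ModularFormClass.modularForm F, rfl⟩

theorem IsMF.zero : IsMF Γ k (0 : ℍ → ℂ) := ⟨0, rfl⟩

theorem IsCF.zero : IsCF Γ k (0 : ℍ → ℂ) := ⟨0, rfl⟩

theorem IsMF.add (hf : IsMF Γ k f) (hg : IsMF Γ k g) : IsMF Γ k (f + g) := by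
  obtain ⟨F, rfl⟩ := hf
  obtain ⟨G, rfl⟩ := hg
  exact ⟨F + G, rfl⟩

theorem IsMF.neg (hf : IsMF Γ k f) : IsMF Γ k (-f) := by
  obtain ⟨F, rfl⟩ := hf
  exact ⟨-F, rfl⟩

theorem IsMF.sub (hf : IsMF Γ k f) (hg : IsMF Γ k g) : IsMF Γ k (f - g) := by
  obtain ⟨F, rfl⟩ := hf
  obtain ⟨G, rfl⟩ := hg
  exact ⟨F - G, rfl⟩

theorem IsMF.smul [Γ.HasDetOne] (c : ℂ) (hf : IsMF Γ k f) : IsMF Γ k (c • f) := by
  obtain ⟨F, rfl⟩ := hf
  exact ⟨c • F, rfl⟩

theorem IsMF.sum {ι : Type*} (s : Finset ι) (F : ι → ℍ → ℂ)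
    (hF : ∀ i ∈ s, IsMF Γ k (F i)) : IsMF Γ k (∑ i ∈ s, F i) := by
  classical
  induction s using Finset.induction_on with
  | empty => simpa using (IsMF.zero : IsMF Γ k 0)
  | insert a s ha ih =>
    rw [Finset.sum_insert ha]
    exact (hF a (Finset.mem_insert_self a s)).add
      (ih fun i hi => hF i (Finset.mem_insert_of_mem hi))

theorem IsMF.const [Γ.HasDetOne] (c : ℂ) : IsMF Γ 0 (fun _ => c) :=
  ⟨ModularForm.const c, rfl⟩

theorem IsMF.one [Γ.HasDetOne] : IsMF Γ 0 (1 : ℍ → ℂ) :=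
  ⟨ModularForm.const 1, rfl⟩

theorem IsMF.mul [Γ.HasDetPlusMinusOne] (hf : IsMF Γ k₁ f) (hg : IsMF Γ k₂ g) :
    IsMF Γ (k₁ + k₂) (f * g) := by
  obtain ⟨F, rfl⟩ := hf
  obtain ⟨G, rfl⟩ := hg
  exact ⟨F.mul G, rfl⟩

theorem IsMF.pow [Γ.HasDetPlusMinusOne] (hf : IsMF Γ k f) (n : ℕ) :
    IsMF Γ (k * n) (f ^ n) := by
  obtain ⟨F, rfl⟩ := hf
  exact ⟨ModularForm.mcast (by ring) (F.pow n), by
    ext z
    simp [ModularForm.coe_pow]⟩

theorem IsCF.add (hf : IsCF Γ k f) (hg : IsCF Γ k g) : IsCF Γ k (f + g) := by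
  obtain ⟨F, rfl⟩ := hf
  obtain ⟨G, rfl⟩ := hg
  exact ⟨F + G, rfl⟩

theorem IsCF.neg (hf : IsCF Γ k f) : IsCF Γ k (-f) := by
  obtain ⟨F, rfl⟩ := hf
  exact ⟨-F, rfl⟩

theorem IsCF.smul [Γ.HasDetOne] (c : ℂ) (hf : IsCF Γ k f) : IsCF Γ k (c • f) := by
  obtain ⟨F, rfl⟩ := hf
  exact ⟨c • F, rfl⟩

theorem IsCF.sum {ι : Type*} (s : Finset ι) (F : ι → ℍ → ℂ)
    (hF : ∀ i ∈ s, IsCF Γ k (F i)) : IsCF Γ k (∑ i ∈ s, F i) := by
  classical
  induction s using Finset.induction_on with
  | empty => simpa using (IsCF.zero : IsCF Γ k 0)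
  | insert a s ha ih =>
    rw [Finset.sum_insert ha]
    exact (hF a (Finset.mem_insert_self a s)).add
      (ih fun i hi => hF i (Finset.mem_insert_of_mem hi))

theorem IsCF.mul_isMF [Γ.HasDetPlusMinusOne] (hf : IsCF Γ k₁ f) (hg : IsMF Γ k₂ g) :
    IsCF Γ (k₁ + k₂) (f * g) := by
  obtain ⟨F, rfl⟩ := hf
  obtain ⟨G, rfl⟩ := hg
  exact ⟨F.mulModularForm G, rfl⟩

theorem G0_le_SLZ (N : ℕ) : G0 N ≤ SLZ := by
  rintro _ ⟨γ, -, rfl⟩
  exact ⟨γ, rfl⟩

/-- restriction of the level: a level one form is a form of level `Γ₀(N)`. -/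
theorem IsMF.of_levelOne (N : ℕ) (hf : IsMF SLZ k f) : IsMF (G0 N) k f := by
  obtain ⟨F, rfl⟩ := hf
  exact ⟨{ toFun := F
           slash_action_eq' := fun γ hγ => F.slash_action_eq' γ (G0_le_SLZ N hγ)
           holo' := F.holo'
           bdd_at_cusps' := fun hc => F.bdd_at_cusps' (hc.mono (G0_le_SLZ N)) }, rfl⟩

theorem IsCF.of_levelOne (N : ℕ) (hf : IsCF SLZ k f) : IsCF (G0 N) k f := by
  obtain ⟨F, rfl⟩ := hf
  exact ⟨{ toFun := F
           slash_action_eq' := fun γ hγ => F.slash_action_eq' γ (G0_le_SLZ N hγ)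
           holo' := F.holo'
           zero_at_cusps' := fun hc => F.zero_at_cusps' (hc.mono (G0_le_SLZ N)) }, rfl⟩

/-- A level one modular form whose constant coefficient vanishes is a cusp form. -/
theorem IsMF.isCF_levelOne_of_coeff_zero (hf : IsMF SLZ k f)
    (h0 : PowerSeries.coeff 0 (qx f) = 0) : IsCF SLZ k f := by
  obtain ⟨F, rfl⟩ := hf
  exact ⟨toCuspForm F h0, rfl⟩

/-- The constant coefficient of a cusp form (level `Γ₀(N)`) vanishes. -/
theorem IsCF.coeff_zero (N : ℕ) [NeZero N] (hf : IsCF (G0 N) k f) :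
    PowerSeries.coeff 0 (qx f) = 0 := by
  obtain ⟨F, rfl⟩ := hf
  exact CuspFormClass.qExpansion_coeff_zero F one_pos (one_mem_strictPeriods_Gamma0 N)

theorem IsCF.coeff_zero_levelOne (hf : IsCF SLZ k f) :
    PowerSeries.coeff 0 (qx f) = 0 := by
  obtain ⟨F, rfl⟩ := hf
  exact CuspFormClass.qExpansion_coeff_zero F one_pos one_mem_strictPeriods_SL

/-! ### the q-expansion map on forms of level `Γ₀(N)` (period `1`) -/

section qx

variable (N : ℕ) [NeZero N]

theorem qx_zero : qx (0 : ℍ → ℂ) = 0 := qExpansion_zero 1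

theorem qx_one : qx (1 : ℍ → ℂ) = 1 := qExpansion_one 1

theorem qx_add (hf : IsMF (G0 N) k₁ f) (hg : IsMF (G0 N) k₂ g) :
    qx (f + g) = qx f + qx g := by
  obtain ⟨F, rfl⟩ := hf
  obtain ⟨G, rfl⟩ := hg
  exact ModularForm.qExpansion_add one_pos (one_mem_strictPeriods_Gamma0 N) F G

theorem qx_neg (hf : IsMF (G0 N) k f) : qx (-f) = - qx f := by
  obtain ⟨F, rfl⟩ := hf
  exact ModularForm.qExpansion_neg one_pos (one_mem_strictPeriods_Gamma0 N) F

theorem qx_sub (hf : IsMF (G0 N) k₁ f) (hg : IsMF (G0 N) k₂ g) :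
    qx (f - g) = qx f - qx g := by
  obtain ⟨F, rfl⟩ := hf
  obtain ⟨G, rfl⟩ := hg
  exact ModularForm.qExpansion_sub one_pos (one_mem_strictPeriods_Gamma0 N) F G

theorem qx_smul (c : ℂ) (hf : IsMF (G0 N) k f) : qx (c • f) = c • qx f := by
  obtain ⟨F, rfl⟩ := hf
  exact ModularForm.qExpansion_smul one_pos (one_mem_strictPeriods_Gamma0 N) c F

theorem qx_mul (hf : IsMF (G0 N) k₁ f) (hg : IsMF (G0 N) k₂ g) :
    qx (f * g) = qx f * qx g := by
  obtain ⟨F, rfl⟩ := hf
  obtain ⟨G, rfl⟩ := hg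
  exact ModularForm.qExpansion_mul_coe one_pos (one_mem_strictPeriods_Gamma0 N) F G

theorem qx_pow (hf : IsMF (G0 N) k f) (n : ℕ) : qx (f ^ n) = qx f ^ n := by
  induction n with
  | zero => simpa using qx_one
  | succ n ih =>
    rw [pow_succ, pow_succ, qx_mul N (hf.pow n) hf, ih]

theorem qx_sum {ι : Type*} (s : Finset ι) (F : ι → ℍ → ℂ) (w : ι → ℤ)
    (hF : ∀ i ∈ s, IsMF (G0 N) (w i) (F i)) :
    qx (∑ i ∈ s, F i) = ∑ i ∈ s, qx (F i) := by
  classical
  -- work at the level of cusp functions, which avoids any weight bookkeeping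
  have han : ∀ i ∈ s, AnalyticAt ℂ (cuspFunction 1 (F i)) 0 := by
    intro i hi
    obtain ⟨G, hG⟩ := hF i hi
    rw [← hG]
    exact ModularFormClass.analyticAt_cuspFunction_zero G one_pos
      (one_mem_strictPeriods_Gamma0 N)
  have key : ∀ s : Finset ι, (∀ i ∈ s, AnalyticAt ℂ (cuspFunction 1 (F i)) 0) →
      AnalyticAt ℂ (cuspFunction 1 (∑ i ∈ s, F i)) 0 ∧
        qExpansion 1 (∑ i ∈ s, F i) = ∑ i ∈ s, qExpansion 1 (F i) := by
    intro s
    induction s using Finset.induction_on with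
    | empty =>
      intro _
      refine ⟨?_, by simpa using qExpansion_zero 1⟩
      simp only [Finset.sum_empty]
      exact ModularFormClass.analyticAt_cuspFunction_zero (0 : ModularForm (G0 N) 0)
        one_pos (one_mem_strictPeriods_Gamma0 N)
    | insert a s ha ih =>
      intro h
      have ha' := h a (Finset.mem_insert_self a s)
      obtain ⟨hs1, hs2⟩ := ih fun i hi => h i (Finset.mem_insert_of_mem hi)
      rw [Finset.sum_insert ha, Finset.sum_insert ha]
      refine ⟨?_, ?_⟩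
      · rw [UpperHalfPlane.cuspFunction_add ha'.continuousAt hs1.continuousAt]
        exact ha'.add hs1
      · rw [UpperHalfPlane.qExpansion_add ha' hs1, hs2]
  exact (key s han).2

/-- injectivity of the q-expansion. -/
theorem eq_zero_of_qx_eq_zero (hf : IsMF (G0 N) k f) (h : qx f = 0) : f = 0 := by
  obtain ⟨F, rfl⟩ := hf
  have := (ModularForm.qExpansion_eq_zero_iff one_pos (one_mem_strictPeriods_Gamma0 N) F).mp h
  rw [this]
  rfl

theorem eq_of_qx_eq (hf : IsMF (G0 N) k f) (hg : IsMF (G0 N) k g) (h : qx f = qx g) :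
    f = g := by
  have h1 : qx (f - g) = 0 := by rw [qx_sub N hf hg, h, sub_self]
  have := eq_zero_of_qx_eq_zero N (hf.sub hg) h1
  exact sub_eq_zero.mp this

/-- Sturm bound (from the Prelude), in the `IsMF` language. -/
theorem sturm (hf : IsMF (G0 N) k f)
    (h : ∀ n : ℕ, n ≤ (k * (Gamma0 N).index).toNat / 12 → PowerSeries.coeff n (qx f) = 0) :
    f = 0 := by
  obtain ⟨F, rfl⟩ := hf
  have := ModularForm.sturm_bound_Gamma0 N F h
  rw [this]
  rfl

end qx

/-! ### integrality bookkeeping -/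

theorem IsIntSeries.isRatSeries {F : PowerSeries ℂ} (hF : IsIntSeries F) : IsRatSeries F :=
  fun n => by obtain ⟨m, hm⟩ := hF n; exact ⟨m, by simp [hm]⟩

/-- A series is integral iff it is the image of an integral power series. -/
theorem isIntSeries_iff {F : PowerSeries ℂ} :
    IsIntSeries F ↔ ∃ P : PowerSeries ℤ, P.map (Int.castRingHom ℂ) = F := by
  constructor
  · intro h
    choose m hm using h
    refine ⟨PowerSeries.mk m, ?_⟩
    ext n
    simp [hm n]
  · rintro ⟨P, rfl⟩ n
    exact ⟨PowerSeries.coeff n P, by simp⟩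

theorem isRatSeries_iff {F : PowerSeries ℂ} :
    IsRatSeries F ↔ ∃ P : PowerSeries ℚ, P.map (algebraMap ℚ ℂ) = F := by
  constructor
  · intro h
    choose m hm using h
    refine ⟨PowerSeries.mk m, ?_⟩
    ext n
    simp [hm n]
  · rintro ⟨P, rfl⟩ n
    exact ⟨PowerSeries.coeff n P, by simp⟩

theorem IsIntSeries.mul {F G : PowerSeries ℂ} (hF : IsIntSeries F) (hG : IsIntSeries G) :
    IsIntSeries (F * G) := by
  rw [isIntSeries_iff] at hF hG ⊢
  obtain ⟨P, rfl⟩ := hF
  obtain ⟨Q, rfl⟩ := hG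
  exact ⟨P * Q, map_mul _ _ _⟩

theorem IsIntSeries.pow {F : PowerSeries ℂ} (hF : IsIntSeries F) (n : ℕ) :
    IsIntSeries (F ^ n) := by
  rw [isIntSeries_iff] at hF ⊢
  obtain ⟨P, rfl⟩ := hF
  exact ⟨P ^ n, map_pow _ _ _⟩

theorem IsIntSeries.add {F G : PowerSeries ℂ} (hF : IsIntSeries F) (hG : IsIntSeries G) :
    IsIntSeries (F + G) := by
  rw [isIntSeries_iff] at hF hG ⊢
  obtain ⟨P, rfl⟩ := hF
  obtain ⟨Q, rfl⟩ := hG
  exact ⟨P + Q, map_add _ _ _⟩

/-- Integral (even rational) series are fixed by every ring endomorphism of `ℂ`. -/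
theorem IsRatSeries.map_eq {F : PowerSeries ℂ} (hF : IsRatSeries F) (σ : ℂ →+* ℂ) :
    F.map σ = F := by
  ext n
  obtain ⟨r, hr⟩ := hF n
  simp [hr]

end Fermat.Agent.S23.Cap

end
-- ===== PACK-END S23/Cap/Basic.lean

-- ===== PACK-BEGIN S23/Cap/Symm.lean
section



/-!
# S23 / WP3 : symmetric functions of the conjugates `f ∣ γ`, `γ ∈ Γ₀(N) \ SL₂(ℤ)`.

Adapters (captain's interface) around `Fermat.Agent.S23.H503` (`H503/Lagrange.lean`).
With `𝒬 = SL₂(ℤ) ⧸ Γ₀(N)`, `f_q = quotientFunc f q`, `μ = card 𝒬`: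

* (A1) `∏_q (X - f_q) = X^μ + Σ_{i<μ} c_i X^{μ-1-i}`, `c_i = (-1)^{i+1} e_{i+1}(f_q)` is a level one
  cusp form of weight `k (i+1)`, and `f = f_1` is a root.
* (A2) Lagrange interpolation: `Σ_q f_q ∏_{q' ≠ q} (X - t_{q'}) = Σ_j a_j X^j` has level one
  coefficients `a_j` of weight `k + w (μ-1-j)`; at `X = t = t_1` it equals
  `f ∏_{q' ≠ 1} (t - t_{q'})`.  The same with `f = 1` gives `b_j`.
  `∏_{q' ≠ 1}(t - t_{q'}) ≠ 0` because every factor is a nonzero holomorphic function on `ℍ`.
-/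

set_option autoImplicit false

namespace Fermat.Agent.S23.Cap

open UpperHalfPlane ModularForm ModularFormClass MatrixGroups CongruenceSubgroup

/-- **WP3 (A1).** A cusp form on `Γ₀(N)` is a root of a monic polynomial whose coefficients are
level one cusp forms. -/
theorem exists_monic_relation (N : ℕ) [NeZero N] (k : ℤ) (f : ℍ → ℂ) (hf : IsCF (G0 N) k f) :
    ∃ (μ : ℕ) (c : ℕ → ℍ → ℂ), 0 < μ ∧ (∀ i < μ, IsCF SLZ (k * (i + 1)) (c i)) ∧
      f ^ μ + ∑ i ∈ Finset.range μ, c i * f ^ (μ - 1 - i) = 0 := by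
  obtain ⟨F, rfl⟩ := hf
  obtain ⟨n, b, hn, h⟩ := H503.exists_monic_cusp (𝒢 := G0 N) F
  refine ⟨n, fun i ↦ b (i + 1), hn,
    fun i _ ↦ ⟨CuspForm.mcast (by push_cast; ring) (b (i + 1)), rfl⟩, ?_⟩
  ext τ
  have h1 := h τ
  rw [← Finset.Ico_add_one_right_eq_Icc, Finset.sum_Ico_eq_sum_range, Nat.add_sub_cancel] at h1
  simp only [Pi.add_apply, Pi.pow_apply, Finset.sum_apply, Pi.mul_apply, Pi.zero_apply]
  rw [← h1]
  congr 1
  refine Finset.sum_congr rfl fun i _ ↦ ?_
  rw [show 1 + i = i + 1 from add_comm _ _, show n - (i + 1) = n - 1 - i by omega]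

/-- **WP3 (A2).** Lagrange interpolation. -/
theorem exists_lagrange (N : ℕ) [NeZero N] (k w : ℤ) (f t : ℍ → ℂ)
    (hf : IsMF (G0 N) k f) (ht : IsMF (G0 N) w t)
    (hdist : ∀ γ : GL (Fin 2) ℝ, γ ∈ SLZ → γ ∉ G0 N → t ∣[w] γ ≠ t) :
    ∃ (μ : ℕ) (a b : ℕ → ℍ → ℂ), 0 < μ ∧
      (∀ j < μ, IsMF SLZ (k + w * ((μ : ℤ) - 1 - j)) (a j)) ∧
      (∀ j < μ, IsMF SLZ (w * ((μ : ℤ) - 1 - j)) (b j)) ∧
      (∑ j ∈ Finset.range μ, b j * t ^ j) ≠ 0 ∧
      (∑ j ∈ Finset.range μ, b j * t ^ j) * f = ∑ j ∈ Finset.range μ, a j * t ^ j := by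
  obtain ⟨F, rfl⟩ := hf
  obtain ⟨T, rfl⟩ := ht
  have hdist' : ∀ q : SLZ ⧸ (G0 N).subgroupOf SLZ, q ≠ ((1 : SLZ) : SLZ ⧸ (G0 N).subgroupOf SLZ) →
      SlashInvariantForm.quotientFunc T q ≠ (T : ℍ → ℂ) := by
    intro q hq
    induction q using Quotient.inductionOn with
    | h r =>
      rw [SlashInvariantForm.quotientFunc_mk]
      refine hdist _ (inv_mem r.2) fun hmem ↦ hq ?_
      have h1 : r ∈ (G0 N).subgroupOf SLZ := by
        rw [Subgroup.mem_subgroupOf]
        simpa using inv_mem hmem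
      exact QuotientGroup.eq.mpr (by simpa using inv_mem h1)
  obtain ⟨n, a, c, hn, ⟨τ₀, hτ₀⟩, h⟩ := H503.exists_lagrange (𝒢 := G0 N) F T hdist'
  have hcast : ∀ j < n, (((n - 1 - j : ℕ) : ℤ)) = (n : ℤ) - 1 - j := by
    intro j hj
    omega
  have hsum : ∀ (g : ℕ → ℍ → ℂ) (τ : ℍ),
      ∑ j ∈ Finset.range n, g (n - 1 - j) τ * (T : ℍ → ℂ) τ ^ j =
        ∑ m ∈ Finset.range n, g m τ * (T : ℍ → ℂ) τ ^ (n - 1 - m) := by
    intro g τ
    rw [← Finset.sum_range_reflect]
    refine Finset.sum_congr rfl fun j hj ↦ ?_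
    have hj' := Finset.mem_range.mp hj
    congr 2
    omega
  refine ⟨n, fun j ↦ a (n - 1 - j), fun j ↦ c (n - 1 - j), hn, ?_, ?_, ?_, ?_⟩
  · intro j hj
    exact ⟨ModularForm.mcast (by rw [hcast j hj]) (a (n - 1 - j)), rfl⟩
  · intro j hj
    exact ⟨ModularForm.mcast (by rw [hcast j hj]) (c (n - 1 - j)), rfl⟩
  · intro h0
    apply hτ₀
    have := congrFun h0 τ₀
    simp only [Finset.sum_apply, Pi.mul_apply, Pi.pow_apply, Pi.zero_apply] at this
    rw [← this]
    exact (hsum (fun m ↦ (c m : ℍ → ℂ)) τ₀).symm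
  · ext τ
    simp only [Finset.sum_apply, Pi.mul_apply, Pi.pow_apply]
    rw [hsum (fun m ↦ (c m : ℍ → ℂ)) τ, hsum (fun m ↦ (a m : ℍ → ℂ)) τ, mul_comm]
    exact h τ

end Fermat.Agent.S23.Cap

end
-- ===== PACK-END S23/Cap/Symm.lean

-- ===== PACK-BEGIN S23/ConversePkg.lean
section



/-!
# S23, converse step (packaging as a cusp form)
-/

set_option autoImplicit false

namespace Fermat.Agent.S23.Conv

open Complex Filter Topology UpperHalfPlane ModularForm
open scoped MatrixGroups ModularForm Manifold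

/-- The ring of holomorphic functions on `ℍ` has no zero divisors (pointwise form). -/
theorem eq_zero_of_mul_eq_zero_of_mdiff {D h : ℍ → ℂ} (hD : MDiff D) (hh : MDiff h)
    (hne : ∃ τ, h τ ≠ 0) (hmul : ∀ τ, D τ * h τ = 0) : ∀ τ, D τ = 0 := by
  obtain ⟨τ₀, hτ₀⟩ := hne
  have hDo := UpperHalfPlane.mdifferentiable_iff.mp hD
  have hho := UpperHalfPlane.mdifferentiable_iff.mp hh
  have hU : IsOpen {z : ℂ | 0 < z.im} := isOpen_upperHalfPlaneSet
  have hUc : IsPreconnected {z : ℂ | 0 < z.im} := (convex_halfSpace_im_gt 0).isPreconnected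
  have hDan : AnalyticOnNhd ℂ (D ∘ ofComplex) {z : ℂ | 0 < z.im} :=
    fun z hz ↦ hDo.analyticAt (hU.mem_nhds hz)
  have hz₀ : (τ₀ : ℂ) ∈ {z : ℂ | 0 < z.im} := τ₀.im_pos
  have hcont : ContinuousAt (h ∘ ofComplex) (τ₀ : ℂ) :=
    (hho.continuousOn).continuousAt (hU.mem_nhds hz₀)
  have hne' : (h ∘ ofComplex) (τ₀ : ℂ) ≠ 0 := by simpa using hτ₀
  have hev : ∀ᶠ z in 𝓝 (τ₀ : ℂ), (h ∘ ofComplex) z ≠ 0 := hcont.eventually_ne hne'
  have hev0 : (D ∘ ofComplex) =ᶠ[𝓝 (τ₀ : ℂ)] 0 := by
    filter_upwards [hev] with z hz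
    have := hmul (ofComplex z)
    exact (mul_eq_zero.mp this).resolve_right hz
  have := hDan.eqOn_zero_of_preconnected_of_eventuallyEq_zero hUc hz₀ hev0
  intro τ
  have h1 := this τ.im_pos
  simpa using h1


/-- Function-level converse on `ℍ`. -/
theorem exists_mdiff_quotient {g h : ℍ → ℂ} (hg : MDiff g) (hh : MDiff h) (hne : ∃ τ, h τ ≠ 0)
    {n : ℕ} (hn : 0 < n) (b : ℕ → ℍ → ℂ) (hb : ∀ i < n, Continuous (b i))
    (heq : ∀ τ, g τ ^ n + ∑ i ∈ Finset.range n, b i τ * g τ ^ i * h τ ^ (n - i) = 0) :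
    ∃ F : ℍ → ℂ, MDiff F ∧ (∀ τ, F τ * h τ = g τ) ∧
      ∀ τ, F τ ^ n + ∑ i ∈ Finset.range n, b i τ * F τ ^ i = 0 := by
  have hU : IsOpen {z : ℂ | 0 < z.im} := isOpen_upperHalfPlaneSet
  have hUc : IsPreconnected {z : ℂ | 0 < z.im} := (convex_halfSpace_im_gt 0).isPreconnected
  obtain ⟨τ₀, hτ₀⟩ := hne
  have hb' : ∀ i < n, ContinuousOn ((b i) ∘ ofComplex) {z : ℂ | 0 < z.im} := by
    intro i hi
    refine (hb i hi).comp_continuousOn ?_
    intro z hz
    exact (mdifferentiableAt_ofComplex hz).continuousAt.continuousWithinAt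
  obtain ⟨F₀, hF₀d, hF₀h, hF₀eq⟩ := exists_holo_quotient hU hUc
    (UpperHalfPlane.mdifferentiable_iff.mp hg) (UpperHalfPlane.mdifferentiable_iff.mp hh) hn
    (fun i ↦ (b i) ∘ ofComplex) hb' ⟨(τ₀ : ℂ), τ₀.im_pos, by simpa using hτ₀⟩
    (fun z _ ↦ by simpa using heq (ofComplex z))
  refine ⟨fun τ ↦ F₀ τ, ?_, ?_, ?_⟩
  · rw [UpperHalfPlane.mdifferentiable_iff]
    refine hF₀d.congr fun z hz ↦ ?_
    simp [Function.comp, ofComplex_apply_of_im_pos hz]
  · intro τ
    simpa using hF₀h τ τ.im_pos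
  · intro τ
    simpa using hF₀eq τ τ.im_pos


/-- If `x` satisfies pointwise a monic equation whose coefficients tend to `0`, then `x` tends
to `0`. -/
theorem tendsto_zero_of_monic {α : Type*} {l : Filter α} {n : ℕ} (hn : 0 < n)
    (c : ℕ → α → ℂ) (x : α → ℂ) (hc : ∀ i < n, Tendsto (c i) l (𝓝 0))
    (hx : ∀ a, x a ^ n + ∑ i ∈ Finset.range n, c i a * x a ^ i = 0) :
    Tendsto x l (𝓝 0) := by
  -- the bound `M a = 1 + ∑ ‖c i a‖`
  set M : α → ℝ := fun a ↦ 1 + ∑ i ∈ Finset.range n, ‖c i a‖ with hM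
  have hxM : ∀ a, ‖x a‖ ≤ M a := fun a ↦ norm_le_of_monic_root (fun i ↦ c i a) (x a) (hx a)
  have hcn : ∀ i ∈ Finset.range n, Tendsto (fun a ↦ ‖c i a‖) l (𝓝 0) := fun i hi ↦ by
    simpa using (hc i (Finset.mem_range.mp hi)).norm
  have hMt : Tendsto M l (𝓝 1) := by
    have : Tendsto (fun a ↦ ∑ i ∈ Finset.range n, ‖c i a‖) l (𝓝 (∑ i ∈ Finset.range n, (0 : ℝ))) :=
      tendsto_finsetSum _ hcn
    simpa [hM] using this.const_add 1
  set R : α → ℝ := fun a ↦ ∑ i ∈ Finset.range n, ‖c i a‖ * M a ^ i with hR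
  have hRt : Tendsto R l (𝓝 0) := by
    have : Tendsto R l (𝓝 (∑ i ∈ Finset.range n, (0 : ℝ) * 1 ^ i)) :=
      tendsto_finsetSum _ fun i hi ↦ (hcn i hi).mul (hMt.pow i)
    simpa using this
  have hxR : ∀ a, ‖x a‖ ^ n ≤ R a := by
    intro a
    have hpow : x a ^ n = -∑ i ∈ Finset.range n, c i a * x a ^ i :=
      eq_neg_of_add_eq_zero_left (hx a)
    calc ‖x a‖ ^ n = ‖x a ^ n‖ := (norm_pow _ _).symm
      _ = ‖∑ i ∈ Finset.range n, c i a * x a ^ i‖ := by rw [hpow, norm_neg]
      _ ≤ ∑ i ∈ Finset.range n, ‖c i a * x a ^ i‖ := norm_sum_le _ _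
      _ ≤ ∑ i ∈ Finset.range n, ‖c i a‖ * M a ^ i := by
          refine Finset.sum_le_sum fun i _ ↦ ?_
          rw [norm_mul, norm_pow]
          exact mul_le_mul_of_nonneg_left (pow_le_pow_left₀ (norm_nonneg _) (hxM a) i)
            (norm_nonneg _)
  have h1 : Tendsto (fun a ↦ ‖x a‖ ^ n) l (𝓝 0) :=
    squeeze_zero (fun a ↦ by positivity) hxR hRt
  have hn' : (n : ℝ)⁻¹ ≠ 0 := by positivity
  have h2 : Tendsto (fun a ↦ (‖x a‖ ^ n) ^ ((n : ℝ)⁻¹)) l (𝓝 ((0 : ℝ) ^ ((n : ℝ)⁻¹))) :=
    h1.rpow_const (Or.inr (by positivity))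
  rw [Real.zero_rpow hn'] at h2
  have h3 : (fun a ↦ (‖x a‖ ^ n) ^ ((n : ℝ)⁻¹)) = fun a ↦ ‖x a‖ := by
    funext a
    exact Real.pow_rpow_inv_natCast (norm_nonneg _) hn.ne'
  rw [h3] at h2
  exact tendsto_zero_iff_norm_tendsto_zero.mpr h2

/-- Slash invariance of a holomorphic quotient. -/
theorem slash_eq_of_mul_eq {F g h : ℍ → ℂ} {k w m : ℤ} (hm : m = w + k) (γ : SL(2, ℤ))
    (hF : MDiff F) (hh : MDiff h) (hne : ∃ τ, h τ ≠ 0)
    (hFh : ∀ τ, F τ * h τ = g τ) (hgγ : g ∣[m] γ = g) (hhγ : h ∣[w] γ = h) :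
    F ∣[k] γ = F := by
  subst hm
  have hFh' : F * h = g := funext hFh
  have hD : MDiff (F ∣[k] γ - F) := (hF.slash k (γ : GL (Fin 2) ℝ)).sub hF
  have hmul : ∀ τ, (F ∣[k] γ - F) τ * h τ = 0 := by
    intro τ
    have h1 : (F * h) ∣[k + w] γ = F ∣[k] γ * h ∣[w] γ := mul_slash_SL2 k w γ F h
    rw [hFh', hhγ, add_comm k w, hgγ] at h1
    have h2 := congrFun h1 τ
    simp only [Pi.mul_apply, Pi.sub_apply] at h2 ⊢
    rw [sub_mul, ← h2, hFh τ, sub_self]
  have := eq_zero_of_mul_eq_zero_of_mdiff hD hh hne hmul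
  funext τ
  have h3 := this τ
  simp only [Pi.sub_apply] at h3
  exact sub_eq_zero.mp h3


/-- The monic equation is preserved by the slash action of `SL(2, ℤ)` when the coefficients are
level-one forms of the right weights. -/
theorem monic_eq_slash {F : ℍ → ℂ} {k : ℤ} {n : ℕ} (b : ℕ → ℍ → ℂ) (γ : SL(2, ℤ))
    (hbγ : ∀ i < n, ∀ τ : ℍ, b i (γ • τ) = (denom γ τ ^ k) ^ (n - i) * b i τ)
    (hFeq : ∀ τ, F τ ^ n + ∑ i ∈ Finset.range n, b i τ * F τ ^ i = 0) (τ : ℍ) :
    (F ∣[k] γ) τ ^ n + ∑ i ∈ Finset.range n, b i τ * (F ∣[k] γ) τ ^ i = 0 := by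
  rw [SL_slash_apply]
  set d : ℂ := denom γ τ with hd
  have hd0 : d ≠ 0 := denom_ne_zero γ τ
  set u : ℂ := d ^ k with hu
  have hu0 : u ≠ 0 := zpow_ne_zero k hd0
  have he : d ^ (-k) = u⁻¹ := by rw [hu, zpow_neg]
  rw [he]
  set X : ℂ := F (γ • τ) with hX
  have key : (X * u⁻¹) ^ n + ∑ i ∈ Finset.range n, b i τ * (X * u⁻¹) ^ i =
      (u⁻¹) ^ n * (X ^ n + ∑ i ∈ Finset.range n, b i (γ • τ) * X ^ i) := by
    rw [mul_add, Finset.mul_sum, mul_pow]
    congr 1
    · ring
    · refine Finset.sum_congr rfl fun i hi ↦ ?_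
      have hi' : i < n := Finset.mem_range.mp hi
      rw [hbγ i hi' τ, mul_pow]
      have : (u⁻¹) ^ n = (u⁻¹) ^ (n - i) * (u⁻¹) ^ i := by
        rw [← pow_add]; congr 1; omega
      rw [this]
      have h2 : (u⁻¹) ^ (n - i) * u ^ (n - i) = 1 := by
        rw [← mul_pow, inv_mul_cancel₀ hu0, one_pow]
      calc b i τ * (X ^ i * u⁻¹ ^ i)
          = ((u⁻¹) ^ (n - i) * u ^ (n - i)) * (b i τ * (X ^ i * u⁻¹ ^ i)) := by rw [h2, one_mul]
        _ = u⁻¹ ^ (n - i) * u⁻¹ ^ i * (u ^ (n - i) * b i τ * X ^ i) := by ring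
  rw [key, hFeq (γ • τ), mul_zero]

/-- **Converse step, function-level hypotheses.** `g, h : ℍ → ℂ` holomorphic, slash-invariant
under `Γ` (finite index in `SL(2, ℤ)`) of weights `w + k` and `w`, `h ≢ 0`, and `g / h` satisfies
a monic equation whose coefficients are level-one cusp forms (`b i` of weight `k * (n - i)`).
Then `g / h` is a cusp form of weight `k` and level `Γ`. (No boundedness of `g, h` at the cusps
is needed.) -/
theorem exists_cuspForm_of_monic_eq_fun {Γ : Subgroup SL(2, ℤ)} [Γ.FiniteIndex]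
    {k w m : ℤ} (hm : m = w + k) (g h : ℍ → ℂ) (hgd : MDiff g) (hhd : MDiff h)
    (hgΓ : ∀ γ ∈ Γ, g ∣[m] γ = g) (hhΓ : ∀ γ ∈ Γ, h ∣[w] γ = h) (hne : ∃ τ, h τ ≠ 0)
    {n : ℕ} (hn : 0 < n) (b : ℕ → ℍ → ℂ)
    (hb : ∀ i < n, ∃ (wi : ℤ) (B : CuspForm 𝒮ℒ wi), wi = k * ((n : ℤ) - i) ∧ ⇑B = b i)
    (heq : ∀ τ, g τ ^ n + ∑ i ∈ Finset.range n, b i τ * g τ ^ i * h τ ^ (n - i) = 0) :
    ∃ F : CuspForm Γ k, ∀ τ, F τ * h τ = g τ := by
  have hbc : ∀ i < n, Continuous (b i) := by
    intro i hi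
    obtain ⟨wi, B, -, hB⟩ := hb i hi
    rw [← hB]
    exact (CuspFormClass.holo B).continuous
  obtain ⟨F, hFd, hFh, hFeq⟩ := exists_mdiff_quotient hgd hhd hne hn b hbc heq
  -- transformation behaviour of the coefficients
  have hbγ : ∀ γ : SL(2, ℤ), ∀ i < n, ∀ τ : ℍ,
      b i (γ • τ) = (denom γ τ ^ k) ^ (n - i) * b i τ := by
    intro γ i hi τ
    obtain ⟨wi, B, hwi, hB⟩ := hb i hi
    have hmem : (Matrix.SpecialLinearGroup.mapGL ℝ γ) ∈ 𝒮ℒ := ⟨γ, rfl⟩
    have h1 := SlashInvariantForm.slash_action_eqn'' B hmem τ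
    rw [← hB]
    have h2 : (denom γ τ ^ k) ^ (n - i) = denom (Matrix.SpecialLinearGroup.mapGL ℝ γ) τ ^ wi := by
      rw [hwi, zpow_mul, ← zpow_natCast]
      congr 1
      have : i ≤ n := hi.le
      push_cast [Nat.cast_sub this]
      ring
    rw [h2]
    exact h1
  have hbz : ∀ i < n, IsZeroAtImInfty (b i) := by
    intro i hi
    obtain ⟨wi, B, -, hB⟩ := hb i hi
    rw [← hB]
    exact CuspFormClass.zero_at_infty B
  refine ⟨{ toFun := F
            slash_action_eq' := ?_
            holo' := hFd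
            zero_at_cusps' := ?_ }, hFh⟩
  · rintro γ ⟨γ', hγ', rfl⟩
    exact slash_eq_of_mul_eq hm γ' hFd hhd hne hFh (hgΓ γ' hγ') (hhΓ γ' hγ')
  · intro c hc
    rw [Subgroup.IsArithmetic.isCusp_iff_isCusp_SL2Z] at hc
    rw [OnePoint.isZeroAt_iff_forall_SL2Z hc]
    intro γ _
    exact tendsto_zero_of_monic hn b (F ∣[k] γ) hbz
      (fun τ ↦ monic_eq_slash b γ (hbγ γ) hFeq τ)

/-- **Converse step.** If `g, h` are modular forms of level `Γ` (finite index in `SL(2, ℤ)`) of
weights `w + k` and `w`, `h ≠ 0`, and `g / h` satisfies a monic equation whose coefficients are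
level-one cusp forms (`b i` of weight `k * (n - i)`), then `g / h` is a cusp form of weight `k`
and level `Γ`. -/
theorem exists_cuspForm_of_monic_eq {Γ : Subgroup SL(2, ℤ)} [Γ.FiniteIndex]
    {k w m : ℤ} (hm : m = w + k) (g : ModularForm Γ m) (h : ModularForm Γ w) (hh : h ≠ 0)
    {n : ℕ} (hn : 0 < n) (b : ℕ → ℍ → ℂ)
    (hb : ∀ i < n, ∃ (wi : ℤ) (B : CuspForm 𝒮ℒ wi), wi = k * ((n : ℤ) - i) ∧ ⇑B = b i)
    (heq : ∀ τ, g τ ^ n + ∑ i ∈ Finset.range n, b i τ * g τ ^ i * h τ ^ (n - i) = 0) :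
    ∃ F : CuspForm Γ k, ∀ τ, F τ * h τ = g τ := by
  have hne : ∃ τ, h τ ≠ 0 := by
    by_contra hcon
    push Not at hcon
    exact hh (ModularForm.ext hcon)
  refine exists_cuspForm_of_monic_eq_fun hm g h (ModularFormClass.holo g) (ModularFormClass.holo h)
    (fun γ hγ ↦ ?_) (fun γ hγ ↦ ?_) hne hn b hb heq
  · exact SlashInvariantForm.slash_action_eqn g _ ⟨γ, hγ, rfl⟩
  · exact SlashInvariantForm.slash_action_eqn h _ ⟨γ, hγ, rfl⟩

end Fermat.Agent.S23.Conv

end
-- ===== PACK-END S23/ConversePkg.lean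

-- ===== PACK-BEGIN S23/ConverseQ.lean
section



/-!
# S23, converse step: `q`-expansion form

A small API for "nice" functions on `ℍ` (holomorphic, `1`-periodic, bounded at `i∞`), on which
`qExpansion 1` is an injective ring homomorphism, and the `q`-expansion form of the converse step.
-/

set_option autoImplicit false

namespace Fermat.Agent.S23.Conv

open Complex Filter Topology UpperHalfPlane ModularForm Function
open scoped MatrixGroups ModularForm Manifold

/-- Holomorphic, `1`-periodic and bounded at `i∞`. -/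
def IsNice (f : ℍ → ℂ) : Prop :=
  MDiff f ∧ Periodic (f ∘ ofComplex) 1 ∧ IsBoundedAtImInfty f

namespace IsNice

variable {f g : ℍ → ℂ}

theorem analyticAt (hf : IsNice f) : AnalyticAt ℂ (cuspFunction 1 f) 0 :=
  analyticAt_cuspFunction_zero one_pos hf.2.1 hf.1 hf.2.2

theorem one : IsNice (1 : ℍ → ℂ) := by
  refine ⟨mdifferentiable_const, fun z ↦ rfl, ?_⟩
  exact Filter.const_boundedAtFilter _ (1 : ℂ)

theorem mul (hf : IsNice f) (hg : IsNice g) : IsNice (f * g) := by
  refine ⟨hf.1.mul hg.1, fun z ↦ ?_, hf.2.2.mul hg.2.2⟩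
  have h1 := hf.2.1 z
  have h2 := hg.2.1 z
  simp only [Function.comp_apply, Pi.mul_apply] at h1 h2 ⊢
  rw [h1, h2]

theorem add (hf : IsNice f) (hg : IsNice g) : IsNice (f + g) := by
  refine ⟨hf.1.add hg.1, fun z ↦ ?_, hf.2.2.add hg.2.2⟩
  have h1 := hf.2.1 z
  have h2 := hg.2.1 z
  simp only [Function.comp_apply, Pi.add_apply] at h1 h2 ⊢
  rw [h1, h2]

theorem pow (hf : IsNice f) (n : ℕ) : IsNice (f ^ n) := by
  induction n with
  | zero => simpa using one
  | succ n ih => rw [pow_succ]; exact ih.mul hf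

theorem sum {ι : Type*} (s : Finset ι) {F : ι → ℍ → ℂ} (hF : ∀ i ∈ s, IsNice (F i)) :
    IsNice (∑ i ∈ s, F i) := by
  classical
  induction s using Finset.induction_on with
  | empty =>
    simp only [Finset.sum_empty]
    refine ⟨mdifferentiable_const, fun z ↦ rfl, ?_⟩
    exact Filter.const_boundedAtFilter _ (0 : ℂ)
  | insert a s ha ih =>
    rw [Finset.sum_insert ha]
    exact (hF a (Finset.mem_insert_self a s)).add
      (ih fun i hi ↦ hF i (Finset.mem_insert_of_mem hi))

theorem qExpansion_mul (hf : IsNice f) (hg : IsNice g) :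
    qExpansion 1 (f * g) = qExpansion 1 f * qExpansion 1 g :=
  UpperHalfPlane.qExpansion_mul hf.analyticAt hg.analyticAt

theorem qExpansion_add (hf : IsNice f) (hg : IsNice g) :
    qExpansion 1 (f + g) = qExpansion 1 f + qExpansion 1 g :=
  UpperHalfPlane.qExpansion_add hf.analyticAt hg.analyticAt

theorem qExpansion_pow (hf : IsNice f) (n : ℕ) :
    qExpansion 1 (f ^ n) = qExpansion 1 f ^ n := by
  induction n with
  | zero => simpa using UpperHalfPlane.qExpansion_one 1
  | succ n ih => rw [pow_succ, pow_succ, qExpansion_mul (hf.pow n) hf, ih]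

theorem qExpansion_sum {ι : Type*} (s : Finset ι) {F : ι → ℍ → ℂ} (hF : ∀ i ∈ s, IsNice (F i)) :
    qExpansion 1 (∑ i ∈ s, F i) = ∑ i ∈ s, qExpansion 1 (F i) := by
  classical
  induction s using Finset.induction_on with
  | empty => simpa using UpperHalfPlane.qExpansion_zero 1
  | insert a s ha ih =>
    rw [Finset.sum_insert ha, Finset.sum_insert ha,
      qExpansion_add (hF a (Finset.mem_insert_self a s))
        (sum s fun i hi ↦ hF i (Finset.mem_insert_of_mem hi)),
      ih fun i hi ↦ hF i (Finset.mem_insert_of_mem hi)]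

theorem qExpansion_eq_zero_iff (hf : IsNice f) : qExpansion 1 f = 0 ↔ f = 0 :=
  UpperHalfPlane.qExpansion_eq_zero_iff one_pos hf.2.1 hf.1 hf.2.2

end IsNice

/-- Modular forms (for a group having `1` as a strict period) are nice. -/
theorem isNice_of_modularFormClass {F : Type*} [FunLike F ℍ ℂ] {Γ : Subgroup (GL (Fin 2) ℝ)}
    {k : ℤ} [ModularFormClass F Γ k] (hΓ : (1 : ℝ) ∈ Γ.strictPeriods) (f : F) :
    IsNice (f : ℍ → ℂ) := by
  have : Fact (IsCusp OnePoint.infty Γ) := ⟨Γ.isCusp_of_mem_strictPeriods one_pos hΓ⟩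
  exact ⟨ModularFormClass.holo f, SlashInvariantFormClass.periodic_comp_ofComplex f hΓ,
    ModularFormClass.bdd_at_infty f⟩


/-- **Converse step, `q`-expansion form, function-level hypotheses.** -/
theorem exists_cuspForm_qExpansion_eq_fun {Γ : Subgroup SL(2, ℤ)} [Γ.FiniteIndex]
    (hΓ : (1 : ℝ) ∈ (Γ : Subgroup (GL (Fin 2) ℝ)).strictPeriods)
    {k w m : ℤ} (hm : m = w + k) (g h : ℍ → ℂ) (hgN : IsNice g) (hhN : IsNice h)
    (hgΓ : ∀ γ ∈ Γ, g ∣[m] γ = g) (hhΓ : ∀ γ ∈ Γ, h ∣[w] γ = h)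
    (hH : qExpansion 1 h ≠ 0)
    {n : ℕ} (hn : 0 < n) (b : ℕ → ℍ → ℂ)
    (hb : ∀ i < n, ∃ (wi : ℤ) (B : CuspForm 𝒮ℒ wi), wi = k * ((n : ℤ) - i) ∧ ⇑B = b i)
    (x : PowerSeries ℂ) (hx : x * qExpansion 1 h = qExpansion 1 g)
    (hmonic : x ^ n + ∑ i ∈ Finset.range n, qExpansion 1 (b i) * x ^ i = 0) :
    ∃ F : CuspForm Γ k, qExpansion 1 F = x := by
  have hbN : ∀ i ∈ Finset.range n, IsNice (b i) := by
    intro i hi
    obtain ⟨wi, B, -, hB⟩ := hb i (Finset.mem_range.mp hi)
    rw [← hB]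
    exact isNice_of_modularFormClass _root_.one_mem_strictPeriods_SL B
  have hne : ∃ τ, h τ ≠ 0 := by
    by_contra hcon
    push Not at hcon
    exact hH (hhN.qExpansion_eq_zero_iff.mpr (funext hcon))
  -- the function `Φ = g ^ n + ∑ b_i g ^ i h ^ (n - i)`
  set Φ : ℍ → ℂ := g ^ n + ∑ i ∈ Finset.range n, b i * g ^ i * h ^ (n - i) with hΦ
  have hterm : ∀ i ∈ Finset.range n, IsNice (b i * g ^ i * h ^ (n - i)) :=
    fun i hi ↦ ((hbN i hi).mul (hgN.pow i)).mul (hhN.pow (n - i))
  have hΦN : IsNice Φ := (hgN.pow n).add (IsNice.sum _ hterm)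
  have hΦq : qExpansion 1 Φ = 0 := by
    rw [hΦ, IsNice.qExpansion_add (hgN.pow n) (IsNice.sum _ hterm), hgN.qExpansion_pow,
      IsNice.qExpansion_sum _ hterm]
    have : ∀ i ∈ Finset.range n, qExpansion 1 (b i * g ^ i * h ^ (n - i)) =
        qExpansion 1 h ^ n * (qExpansion 1 (b i) * x ^ i) := by
      intro i hi
      rw [IsNice.qExpansion_mul ((hbN i hi).mul (hgN.pow i)) (hhN.pow (n - i)),
        IsNice.qExpansion_mul (hbN i hi) (hgN.pow i), hgN.qExpansion_pow, hhN.qExpansion_pow,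
        ← hx]
      have hi' : i ≤ n := (Finset.mem_range.mp hi).le
      have : qExpansion 1 h ^ n = qExpansion 1 h ^ i * qExpansion 1 h ^ (n - i) := by
        rw [← pow_add]; congr 1; omega
      rw [this]
      ring
    rw [Finset.sum_congr rfl this, ← Finset.mul_sum, ← hx, mul_pow]
    have : x ^ n * qExpansion 1 h ^ n + qExpansion 1 h ^ n *
        ∑ i ∈ Finset.range n, qExpansion 1 (b i) * x ^ i =
        qExpansion 1 h ^ n * (x ^ n + ∑ i ∈ Finset.range n, qExpansion 1 (b i) * x ^ i) := by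
      ring
    rw [this, hmonic, mul_zero]
  have hΦ0 : Φ = 0 := hΦN.qExpansion_eq_zero_iff.mp hΦq
  have heq : ∀ τ, g τ ^ n + ∑ i ∈ Finset.range n, b i τ * g τ ^ i * h τ ^ (n - i) = 0 := by
    intro τ
    have := congrFun hΦ0 τ
    simpa [hΦ] using this
  obtain ⟨F, hF⟩ := exists_cuspForm_of_monic_eq_fun hm g h hgN.1 hhN.1 hgΓ hhΓ hne hn b hb heq
  refine ⟨F, ?_⟩
  have hFN : IsNice (F : ℍ → ℂ) := isNice_of_modularFormClass hΓ F
  have hFh : (F : ℍ → ℂ) * h = g := funext hF
  have h1 : qExpansion 1 F * qExpansion 1 h = x * qExpansion 1 h := by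
    rw [← IsNice.qExpansion_mul hFN hhN, hFh, hx]
  exact mul_right_cancel₀ hH h1

/-- **Converse step, `q`-expansion form.** Let `g, h` be modular forms of level `Γ` and weights
`w + k`, `w` with `h ≠ 0`, and let `x` be a formal power series with `x * qExp h = qExp g`
satisfying a monic equation `x ^ n + ∑_{i < n} qExp (b i) * x ^ i = 0` whose coefficients are
`q`-expansions of level-one cusp forms `b i` of weight `k * (n - i)`. Then `x` is the
`q`-expansion of a cusp form of weight `k` and level `Γ`. -/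
theorem exists_cuspForm_qExpansion_eq {Γ : Subgroup SL(2, ℤ)} [Γ.FiniteIndex]
    (hΓ : (1 : ℝ) ∈ (Γ : Subgroup (GL (Fin 2) ℝ)).strictPeriods)
    {k w m : ℤ} (hm : m = w + k) (g : ModularForm Γ m) (h : ModularForm Γ w) (hh : h ≠ 0)
    {n : ℕ} (hn : 0 < n) (b : ℕ → ℍ → ℂ)
    (hb : ∀ i < n, ∃ (wi : ℤ) (B : CuspForm 𝒮ℒ wi), wi = k * ((n : ℤ) - i) ∧ ⇑B = b i)
    (x : PowerSeries ℂ) (hx : x * qExpansion 1 h = qExpansion 1 g)
    (hmonic : x ^ n + ∑ i ∈ Finset.range n, qExpansion 1 (b i) * x ^ i = 0) :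
    ∃ F : CuspForm Γ k, qExpansion 1 F = x := by
  have hgN : IsNice (g : ℍ → ℂ) := isNice_of_modularFormClass hΓ g
  have hhN : IsNice (h : ℍ → ℂ) := isNice_of_modularFormClass hΓ h
  have hH : qExpansion 1 h ≠ 0 := by
    rw [Ne, hhN.qExpansion_eq_zero_iff]
    intro h0
    exact hh (DFunLike.coe_injective (by rw [h0]; rfl))
  refine exists_cuspForm_qExpansion_eq_fun hΓ hm g h hgN hhN (fun γ hγ ↦ ?_) (fun γ hγ ↦ ?_) hH hn
    b hb x hx hmonic
  · exact SlashInvariantForm.slash_action_eqn g _ ⟨γ, hγ, rfl⟩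
  · exact SlashInvariantForm.slash_action_eqn h _ ⟨γ, hγ, rfl⟩

theorem one_mem_strictPeriods_Gamma0' (N : ℕ) :
    (1 : ℝ) ∈ ((CongruenceSubgroup.Gamma0 N : Subgroup SL(2, ℤ)) :
      Subgroup (GL (Fin 2) ℝ)).strictPeriods := by
  simp

/-- The converse step for `Γ₀(N)`, `q`-expansion form, any weight `k`. -/
theorem exists_cuspForm_Gamma0_qExpansion_eq (N : ℕ) [NeZero N]
    {k w m : ℤ} (hm : m = w + k) (g : ModularForm (CongruenceSubgroup.Gamma0 N) m)
    (h : ModularForm (CongruenceSubgroup.Gamma0 N) w) (hh : h ≠ 0)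
    {n : ℕ} (hn : 0 < n) (b : ℕ → ℍ → ℂ)
    (hb : ∀ i < n, ∃ (wi : ℤ) (B : CuspForm 𝒮ℒ wi), wi = k * ((n : ℤ) - i) ∧ ⇑B = b i)
    (x : PowerSeries ℂ) (hx : x * qExpansion 1 h = qExpansion 1 g)
    (hmonic : x ^ n + ∑ i ∈ Finset.range n, qExpansion 1 (b i) * x ^ i = 0) :
    ∃ F : CuspForm (CongruenceSubgroup.Gamma0 N) k, qExpansion 1 F = x :=
  exists_cuspForm_qExpansion_eq (one_mem_strictPeriods_Gamma0' N) hm g h hh hn b hb x hx hmonic

end Fermat.Agent.S23.Conv

end
-- ===== PACK-END S23/ConverseQ.lean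

-- ===== PACK-BEGIN S23/Cap/Converse.lean
section



/-!
# S23 / Cap : from formal relations back to a cusp form
(adapter around helper803's `Converse.lean`, `ConversePkg.lean`, `ConverseQ.lean`).
-/

set_option autoImplicit false

namespace Fermat.Agent.S23.Cap

open UpperHalfPlane ModularForm ModularFormClass MatrixGroups CongruenceSubgroup
open scoped Manifold

/-- **WP4 main statement.** -/
theorem exists_cuspForm_of_relations (N : ℕ) [NeZero N] (k w' : ℤ) (U V : ℍ → ℂ)
    (hU : IsMF (G0 N) w' U) (hV : IsMF (G0 N) (w' + k) V) (hU0 : U ≠ 0)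
    (μ : ℕ) (hμ : 0 < μ) (c : ℕ → ℍ → ℂ) (hc : ∀ i < μ, IsCF SLZ (k * (i + 1)) (c i))
    (G : PowerSeries ℂ) (h1 : qx U * G = qx V)
    (h2 : G ^ μ + ∑ i ∈ Finset.range μ, qx (c i) * G ^ (μ - 1 - i) = 0) :
    ∃ g : ℍ → ℂ, IsCF (G0 N) k g ∧ qx g = G := by
  obtain ⟨Uf, rfl⟩ := hU
  obtain ⟨Vf, rfl⟩ := hV
  have hUf : Uf ≠ 0 := fun h => hU0 (by rw [h]; rfl)
  have hb : ∀ i < μ, ∃ (wi : ℤ) (B : CuspForm 𝒮ℒ wi), wi = k * ((μ : ℤ) - i) ∧
      ⇑B = c (μ - 1 - i) := by
    intro i hi
    obtain ⟨B, hB⟩ := hc (μ - 1 - i) (by omega)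
    refine ⟨_, B, ?_, hB⟩
    have : ((μ - 1 - i : ℕ) : ℤ) = (μ : ℤ) - 1 - i := by omega
    rw [this]; ring
  have hmonic : G ^ μ + ∑ i ∈ Finset.range μ, qExpansion 1 (c (μ - 1 - i)) * G ^ i = 0 := by
    rw [← h2]
    congr 1
    rw [← Finset.sum_range_reflect]
    refine Finset.sum_congr rfl fun i hi => ?_
    have : i < μ := Finset.mem_range.mp hi
    have h' : μ - 1 - (μ - 1 - i) = i := by omega
    rw [h']
  obtain ⟨F, hF⟩ := Fermat.Agent.S23.Conv.exists_cuspForm_Gamma0_qExpansion_eq N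
    (k := k) (w := w') (m := w' + k) rfl Vf Uf hUf hμ (fun i => c (μ - 1 - i)) hb G
    (by rw [mul_comm]; exact h1) hmonic
  exact ⟨F, ⟨F, rfl⟩, hF⟩

end Fermat.Agent.S23.Cap

end
-- ===== PACK-END S23/Cap/Converse.lean

-- ===== PACK-BEGIN S23/Cap/BddDenom.lean
section





/-!
# S23 / WP9 : a cusp form on `Γ₀(N)` with rational q-expansion has bounded denominators.

Math: take the relations (A1), (A2) of WP3 for `f`; all level one forms and `t` have q-expansions
in `IntSpan` (the `ℂ`-span of integral power series, by the landed `LevelOne` leaf); apply the pure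
power-series theorem `Fermat.Agent.S23.BddDenom.bdd` (ρ-trick + normality of `ℤ⟦q⟧`).
(helper263, T8.)
-/

set_option autoImplicit false

namespace Fermat.Agent.S23.Cap

open UpperHalfPlane ModularForm ModularFormClass MatrixGroups CongruenceSubgroup

/-- The q-expansion of a level one modular form lies in the `ℂ`-span of integral series. -/
theorem qx_mem_IntSpan_of_levelOne {k : ℤ} {g : ℍ → ℂ} (hg : IsMF SLZ k g) :
    qx g ∈ BddDenom.IntSpan := by
  obtain ⟨G, rfl⟩ := hg
  have h := LevelOne.levelOne_qExpansion_mem_span k G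
  have hsub : Submodule.span ℂ (LevelOne.monoSet k) ≤
      Subalgebra.toSubmodule BddDenom.IntSpan := by
    rw [Submodule.span_le]
    rintro P ⟨a, b, -, rfl⟩
    exact BddDenom.iZC_mem_IntSpan _
  exact hsub h

theorem qx_mem_IntSpan_of_isIntSeries {F : PowerSeries ℂ} (hF : IsIntSeries F) :
    F ∈ BddDenom.IntSpan :=
  BddDenom.mem_IntSpan_of_int_coeff hF

/-- **WP9 main statement.** -/
theorem bounded_denominators (N : ℕ) [NeZero N] (k : ℤ) (f : ℍ → ℂ) (hf : IsCF (G0 N) k f)
    (hrat : IsRatSeries (qx f)) :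
    ∃ D : ℕ, D ≠ 0 ∧ IsIntSeries (qx ((D : ℂ) • f)) := by
  have hfM : IsMF (G0 N) k f := hf.isMF
  obtain ⟨μ, c, hμ, hc, hrel⟩ := exists_monic_relation N k f hf
  obtain ⟨w, t, ht, htint, hdist⟩ := exists_tForm N
  obtain ⟨ν, a, b, hν, ha, hb, hne, hlag⟩ := exists_lagrange N k w f t hfM ht hdist
  have htI : qx t ∈ BddDenom.IntSpan := qx_mem_IntSpan_of_isIntSeries htint
  -- weights of the terms
  have hcM : ∀ i < μ, IsMF (G0 N) (k * (i + 1)) (c i) := fun i hi =>
    (IsCF.of_levelOne N (hc i hi)).isMF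
  have hterm : ∀ i ∈ Finset.range μ, IsMF (G0 N) (k * μ) (c i * f ^ (μ - 1 - i)) := by
    intro i hi
    have hi' : i < μ := Finset.mem_range.mp hi
    refine IsMF.congr_weight ?_ ((hcM i hi').mul (hfM.pow (μ - 1 - i)))
    have : ((μ - 1 - i : ℕ) : ℤ) = (μ : ℤ) - 1 - i := by omega
    rw [this]
    ring
  -- the monic equation on q-expansions
  have h1 : qx f ^ μ + ∑ i ∈ Finset.range μ, qx (c i) * qx f ^ (μ - 1 - i) = 0 := by
    have h := congrArg qx hrel
    rw [qx_zero, qx_add N (hfM.pow μ) (IsMF.sum _ _ hterm), qx_pow N hfM,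
      qx_sum N _ _ (fun _ => k * μ) hterm] at h
    rw [← h]
    congr 1
    refine Finset.sum_congr rfl fun i hi => ?_
    have hi' : i < μ := Finset.mem_range.mp hi
    rw [qx_mul N (hcM i hi') (hfM.pow _), qx_pow N hfM]
  have h1' : qx f ^ μ + ∑ m ∈ Finset.range μ, qx (c (μ - 1 - m)) * qx f ^ m = 0 := by
    rw [← h1]
    congr 1
    rw [← Finset.sum_range_reflect]
    refine Finset.sum_congr rfl fun m hm => ?_
    have hm' : m < μ := Finset.mem_range.mp hm
    have : μ - 1 - (μ - 1 - m) = m := by omega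
    rw [this]
  -- the fraction relation on q-expansions
  have hbM : ∀ j < ν, IsMF (G0 N) (w * ((ν : ℤ) - 1 - j)) (b j) := fun j hj =>
    IsMF.of_levelOne N (hb j hj)
  have haM : ∀ j < ν, IsMF (G0 N) (k + w * ((ν : ℤ) - 1 - j)) (a j) := fun j hj =>
    IsMF.of_levelOne N (ha j hj)
  have hbt : ∀ j ∈ Finset.range ν, IsMF (G0 N) (w * ((ν : ℤ) - 1)) (b j * t ^ j) := by
    intro j hj
    have hj' : j < ν := Finset.mem_range.mp hj
    refine IsMF.congr_weight ?_ ((hbM j hj').mul (ht.pow j))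
    ring
  have hat : ∀ j ∈ Finset.range ν, IsMF (G0 N) (k + w * ((ν : ℤ) - 1)) (a j * t ^ j) := by
    intro j hj
    have hj' : j < ν := Finset.mem_range.mp hj
    refine IsMF.congr_weight ?_ ((haM j hj').mul (ht.pow j))
    ring
  have hDM : IsMF (G0 N) (w * ((ν : ℤ) - 1)) (∑ j ∈ Finset.range ν, b j * t ^ j) :=
    IsMF.sum _ _ hbt
  have hqD : qx (∑ j ∈ Finset.range ν, b j * t ^ j) =
      ∑ j ∈ Finset.range ν, qx (b j) * qx t ^ j := by
    rw [qx_sum N _ _ (fun _ => w * ((ν : ℤ) - 1)) hbt]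
    refine Finset.sum_congr rfl fun j hj => ?_
    have hj' : j < ν := Finset.mem_range.mp hj
    rw [qx_mul N (hbM j hj') (ht.pow j), qx_pow N ht]
  have hqF : qx (∑ j ∈ Finset.range ν, a j * t ^ j) =
      ∑ j ∈ Finset.range ν, qx (a j) * qx t ^ j := by
    rw [qx_sum N _ _ (fun _ => k + w * ((ν : ℤ) - 1)) hat]
    refine Finset.sum_congr rfl fun j hj => ?_
    have hj' : j < ν := Finset.mem_range.mp hj
    rw [qx_mul N (haM j hj') (ht.pow j), qx_pow N ht]
  have hD0 : (∑ j ∈ Finset.range ν, qx (b j) * qx t ^ j) ≠ 0 := by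
    rw [← hqD]
    intro h
    exact hne (eq_zero_of_qx_eq_zero N hDM h)
  have hDF : (∑ j ∈ Finset.range ν, qx (b j) * qx t ^ j) * qx f =
      ∑ j ∈ Finset.range ν, qx (a j) * qx t ^ j := by
    rw [← hqD, ← hqF, ← hlag, qx_mul N hDM hfM]
  have hDI : (∑ j ∈ Finset.range ν, qx (b j) * qx t ^ j) ∈ BddDenom.IntSpan :=
    Subalgebra.sum_mem _ fun j hj =>
      Subalgebra.mul_mem _ (qx_mem_IntSpan_of_levelOne (hb j (Finset.mem_range.mp hj)))
        (Subalgebra.pow_mem _ htI j)
  have hFI : (∑ j ∈ Finset.range ν, qx (a j) * qx t ^ j) ∈ BddDenom.IntSpan :=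
    Subalgebra.sum_mem _ fun j hj =>
      Subalgebra.mul_mem _ (qx_mem_IntSpan_of_levelOne (ha j (Finset.mem_range.mp hj)))
        (Subalgebra.pow_mem _ htI j)
  obtain ⟨c₀, hc₀, hint⟩ := BddDenom.bdd (qx f) hrat μ (fun m => qx (c (μ - 1 - m)))
    (fun m hm => qx_mem_IntSpan_of_levelOne (hc (μ - 1 - m) (by omega)).isMF) h1'
    _ _ hDI hFI hD0 hDF
  refine ⟨c₀, hc₀.ne', fun n => ?_⟩
  obtain ⟨m, hm⟩ := hint n
  refine ⟨m, ?_⟩
  rw [qx_smul N _ hfM, PowerSeries.coeff_smul, smul_eq_mul]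
  exact hm

end Fermat.Agent.S23.Cap

end
-- ===== PACK-END S23/Cap/BddDenom.lean

-- ===== PACK-BEGIN S37/H818/BaseChange.lean
section
/-
S37 / LEVEL TRANSFER (helper818), part 2: the base-change identity
  `i^* ∘ a_* = a'_* ∘ i₁^*`  on divisors, for a commutative square of function fields

      F  --a-->  F₁
      |i         |i₁
      v          v
      G  --a'->  G₁

under (1) the norm formulas for `a` and `a'`, (2) norm compatibility
`N_{G₁/G}(i₁ f) = i (N_{F₁/F} f)` (true when `G₁ = G ⊗_F F₁`), and (3) local generators in `F₁`.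
-/




set_option autoImplicit false
set_option linter.style.haveILetI false

noncomputable section

namespace Fermat.Agent.S37.H818

open AlgebraicCurve

variable {K F F₁ G G₁ : Type*} [Field K] [Field F] [Field F₁] [Field G] [Field G₁]
  [Algebra K F] [Algebra K F₁] [Algebra K G] [Algebra K G₁]

/-- Norm compatibility for the square: `N_{G₁/G}(i₁ f) = i (N_{F₁/F} f)`. -/
def NormCompat (a : F →ₐ[K] F₁) (i : F →ₐ[K] G) (a' : G →ₐ[K] G₁) (i₁ : F₁ →ₐ[K] G₁) : Prop :=
  ∀ f : F₁, (letI := algebraAlong a'; Algebra.norm G (i₁ f)) =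
    i (letI := algebraAlong a; Algebra.norm F f)

/-- Local generators: every place `w` of `F₁` has a function with nonzero order at `w` and
order zero at all other places in the same fibre of `a`. -/
def HasLocalGenerators (a : F →ₐ[K] F₁) (ha : a.toRingHom.IsIntegral) : Prop :=
  ∀ w : Place K F₁, ∃ f : F₁, f ≠ 0 ∧ w.ord f ≠ 0 ∧
    ∀ w' : Place K F₁, w' ≠ w → w'.restrictAlong a ha = w.restrictAlong a ha → w'.ord f = 0

section

variable (a : F →ₐ[K] F₁) (i : F →ₐ[K] G) (a' : G →ₐ[K] G₁) (i₁ : F₁ →ₐ[K] G₁)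
  (ha : a.toRingHom.IsIntegral) (hi : i.toRingHom.IsIntegral)
  (ha' : a'.toRingHom.IsIntegral) (hi₁ : i₁.toRingHom.IsIntegral)
  (hsq : i₁.comp a = a'.comp i)

include hsq in
/-- The two ways of restricting a place of `G₁` to `F` agree. -/
theorem restrict_square (W : Place K G₁) :
    (W.restrictAlong a' ha').restrictAlong i hi = (W.restrictAlong i₁ hi₁).restrictAlong a ha := by
  have h1 : (i₁.comp a).toRingHom.IsIntegral := RingHom.IsIntegral.trans _ _ ha hi₁
  have h2 : (a'.comp i).toRingHom.IsIntegral := RingHom.IsIntegral.trans _ _ hi ha'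
  rw [← restrictAlong_comp i a' hi ha' h2 W, ← restrictAlong_comp a i₁ ha hi₁ h1 W]
  exact (Place.restrictAlong_congr hsq h1 h2 W).symm

variable [HasPrincipalDivisors K G] [HasPrincipalDivisors K G₁]

/-- The defect of the base-change identity. -/
def bcDefect : Divisor K F₁ →+ Divisor K G :=
  (Divisor.pullbackAlong i hi).comp (Divisor.pushforwardAlong a ha) -
    (Divisor.pushforwardAlong a' ha').comp (Divisor.pullbackAlong i₁ hi₁)

theorem bcDefect_apply (D : Divisor K F₁) :
    bcDefect a i a' i₁ ha hi ha' hi₁ D =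
      Divisor.pullbackAlong i hi (Divisor.pushforwardAlong a ha D) -
        Divisor.pushforwardAlong a' ha' (Divisor.pullbackAlong i₁ hi₁ D) := rfl

include hsq in
/-- Locality: the defect of a place `w` is supported over the place `w|_F`. -/
theorem bcDefect_single_apply_of_ne (w : Place K F₁) (n : ℤ) (u : Place K G)
    (hu : u.restrictAlong i hi ≠ w.restrictAlong a ha) :
    bcDefect a i a' i₁ ha hi ha' hi₁ (Finsupp.single w n) u = 0 := by
  classical
  rw [bcDefect_apply, Finsupp.sub_apply]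
  have h1 : Divisor.pullbackAlong i hi (Divisor.pushforwardAlong a ha (Finsupp.single w n)) u
      = 0 := by
    rw [Divisor.pushforwardAlong_single, Divisor.pullbackAlong_apply,
      Finsupp.single_eq_of_ne hu, mul_zero]
  have h2 : Divisor.pushforwardAlong a' ha'
      (Divisor.pullbackAlong i₁ hi₁ (Finsupp.single w n)) u = 0 := by
    rw [Divisor.pullbackAlong_single, map_sum, Finset.sum_apply']
    refine Finset.sum_eq_zero fun W hW => ?_
    rw [Divisor.pushforwardAlong_single]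
    refine Finsupp.single_eq_of_ne ?_
    intro hWu
    apply hu
    rw [hWu, restrict_square a i a' i₁ ha hi ha' hi₁ hsq W, Place.mem_fiberAlong.mp hW]
  rw [h1, h2, sub_zero]

/-- The defect vanishes on principal divisors, by the norm formulas and norm compatibility. -/
theorem bcDefect_principal
    (hfin : FiniteAlong K a) (hN : NormFormulaAlong K a hfin)
    (hfin' : FiniteAlong K a') (hN' : NormFormulaAlong K a' hfin')
    (hnorm : NormCompat a i a' i₁)
    {f : F₁} (hf : f ≠ 0) {D : Divisor K F₁} (hD : ∀ w, D w = w.ord f) :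
    bcDefect a i a' i₁ ha hi ha' hi₁ D = 0 := by
  rw [bcDefect_apply, sub_eq_zero]
  ext u
  -- left side
  have hL : Divisor.pullbackAlong i hi (Divisor.pushforwardAlong a ha D) u =
      u.ord (i (letI := algebraAlong a; Algebra.norm F f)) := by
    letI := algebraAlong a
    haveI := isScalarTower_along a
    haveI := isIntegral_along a ha
    haveI : Module.Finite F F₁ := hfin
    have hE : ∀ v : Place K F, Divisor.pushforward F D v = v.ord (Algebra.norm F f) :=
      fun v => hN f hf D hD v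
    have : Divisor.pushforwardAlong a ha D = Divisor.pushforward F D := rfl
    rw [this]
    letI := algebraAlong i
    haveI := isScalarTower_along i
    haveI := isIntegral_along i hi
    exact Divisor.pullback_apply_eq_ord (F' := G) hE u
  -- right side
  have hR : Divisor.pushforwardAlong a' ha' (Divisor.pullbackAlong i₁ hi₁ D) u =
      u.ord (letI := algebraAlong a'; Algebra.norm G (i₁ f)) := by
    have hD' : ∀ W : Place K G₁, Divisor.pullbackAlong i₁ hi₁ D W = W.ord (i₁ f) := by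
      intro W
      letI := algebraAlong i₁
      haveI := isScalarTower_along i₁
      haveI := isIntegral_along i₁ hi₁
      exact Divisor.pullback_apply_eq_ord (F' := G₁) hD W
    letI := algebraAlong a'
    haveI := isScalarTower_along a'
    haveI := isIntegral_along a' ha'
    haveI : Module.Finite G G₁ := hfin'
    have hf' : i₁ f ≠ 0 := by simpa using hf
    exact hN' (i₁ f) hf' _ hD' u
  rw [hL, hR, hnorm f]

variable [HasPrincipalDivisors K F₁]

include hsq in
/-- **Base change identity** `i^* a_* = a'_* i₁^*` on divisors. -/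
theorem pullback_pushforward_eq
    (hfin : FiniteAlong K a) (hN : NormFormulaAlong K a hfin)
    (hfin' : FiniteAlong K a') (hN' : NormFormulaAlong K a' hfin')
    (hnorm : NormCompat a i a' i₁) (hLG : HasLocalGenerators a ha) (D : Divisor K F₁) :
    Divisor.pullbackAlong i hi (Divisor.pushforwardAlong a ha D) =
      Divisor.pushforwardAlong a' ha' (Divisor.pullbackAlong i₁ hi₁ D) := by
  classical
  rw [← sub_eq_zero, ← bcDefect_apply]
  set δ := bcDefect a i a' i₁ ha hi ha' hi₁ with hδ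
  -- it suffices to treat single places
  suffices h : ∀ w : Place K F₁, δ (Finsupp.single w 1) = 0 by
    induction D using Finsupp.induction with
    | zero => simp
    | single_add w n D _ _ ih =>
      rw [map_add, ih, add_zero]
      have : Finsupp.single w n = n • Finsupp.single w (1 : ℤ) := by
        rw [Finsupp.smul_single, smul_eq_mul, mul_one]
      rw [this, map_zsmul, h w, smul_zero]
  intro w₀
  ext u
  rw [Finsupp.zero_apply]
  by_cases hu : u.restrictAlong i hi = w₀.restrictAlong a ha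
  swap
  · exact bcDefect_single_apply_of_ne a i a' i₁ ha hi ha' hi₁ hsq w₀ 1 u hu
  obtain ⟨f, hf0, hfw, hfo⟩ := hLG w₀
  obtain ⟨D, hD, -⟩ := HasPrincipalDivisors.exists_divisor (K := K) f hf0
  have h0 : δ D = 0 := bcDefect_principal a i a' i₁ ha hi ha' hi₁ hfin hN hfin' hN' hnorm hf0 hD
  -- decompose D
  have hsum : δ D u = ∑ w ∈ D.support, δ (Finsupp.single w (D w)) u := by
    conv_lhs => rw [← Finsupp.sum_single D]
    rw [Finsupp.sum, map_sum, Finset.sum_apply']
  have hw₀ : w₀ ∈ D.support := by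
    rw [Finsupp.mem_support_iff, hD]
    exact hfw
  rw [Finset.sum_eq_single_of_mem w₀ hw₀] at hsum
  · rw [h0, Finsupp.zero_apply] at hsum
    have : Finsupp.single w₀ (D w₀) = (D w₀) • Finsupp.single w₀ (1 : ℤ) := by
      rw [Finsupp.smul_single, smul_eq_mul, mul_one]
    rw [this, map_zsmul, Finsupp.smul_apply, smul_eq_mul] at hsum
    have hne : D w₀ ≠ 0 := by rw [hD]; exact hfw
    rcases mul_eq_zero.mp hsum.symm with h | h
    · exact absurd h hne
    · exact h
  · intro w _ hw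
    by_cases hwv : w.restrictAlong a ha = w₀.restrictAlong a ha
    · have : D w = 0 := by rw [hD]; exact hfo w hw hwv
      rw [this, Finsupp.single_zero, map_zero, Finsupp.zero_apply]
    · exact bcDefect_single_apply_of_ne a i a' i₁ ha hi ha' hi₁ hsq w (D w) u
        (fun h => hwv (h.symm.trans hu))

end

end Fermat.Agent.S37.H818

end

end
-- ===== PACK-END S37/H818/BaseChange.lean

-- ===== PACK-BEGIN S37/H818/HeckeComm.lean
section
/-
S37 / LEVEL TRANSFER (helper818), part 3: a correspondence `a_* b^*` commutes with pullback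
along a degeneracy map `i`, at the level of divisors and of `Pic0`.

      F  ==a,b==>  F₁
      |i           |i₁
      v            v
      G  ==a',b'=> G₁          i₁ ∘ a = a' ∘ i,   i₁ ∘ b = b' ∘ i.
-/




set_option autoImplicit false
set_option linter.style.haveILetI false

noncomputable section

namespace Fermat.Agent.S37.H818

open AlgebraicCurve

variable {K F F₁ G G₁ : Type*} [Field K] [Field F] [Field F₁] [Field G] [Field G₁]
  [Algebra K F] [Algebra K F₁] [Algebra K G] [Algebra K G₁]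

theorem pullbackAlong_congr [HasPrincipalDivisors K G] {φ φ' : F →ₐ[K] G} (h : φ = φ')
    (hφ : φ.toRingHom.IsIntegral) (hφ' : φ'.toRingHom.IsIntegral) (D : Divisor K F) :
    Divisor.pullbackAlong φ hφ D = Divisor.pullbackAlong φ' hφ' D := by
  subst h
  rfl

section

variable (a b : F →ₐ[K] F₁) (i : F →ₐ[K] G) (a' b' : G →ₐ[K] G₁) (i₁ : F₁ →ₐ[K] G₁)
  (ha : a.toRingHom.IsIntegral) (hb : b.toRingHom.IsIntegral) (hi : i.toRingHom.IsIntegral)
  (ha' : a'.toRingHom.IsIntegral) (hb' : b'.toRingHom.IsIntegral)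
  (hi₁ : i₁.toRingHom.IsIntegral)
  (hsqa : i₁.comp a = a'.comp i) (hsqb : i₁.comp b = b'.comp i)

variable [HasPrincipalDivisors K G] [HasPrincipalDivisors K G₁] [HasPrincipalDivisors K F₁]

include hsqa hsqb hi₁ in
/-- **Hecke/degeneracy commutation on divisors**:
`i^* (a_* b^* D) = a'_* b'^* (i^* D)`. -/
theorem pullbackAlong_correspondence
    (hfin : FiniteAlong K a) (hN : NormFormulaAlong K a hfin)
    (hfin' : FiniteAlong K a') (hN' : NormFormulaAlong K a' hfin')
    (hnorm : NormCompat a i a' i₁) (hLG : HasLocalGenerators a ha) (D : Divisor K F) :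
    Divisor.pullbackAlong i hi (Divisor.correspondence b a hb ha D) =
      Divisor.correspondence b' a' hb' ha' (Divisor.pullbackAlong i hi D) := by
  have h1 : (i₁.comp b).toRingHom.IsIntegral := RingHom.IsIntegral.trans _ _ hb hi₁
  have h2 : (b'.comp i).toRingHom.IsIntegral := RingHom.IsIntegral.trans _ _ hi hb'
  rw [Divisor.correspondence_apply, Divisor.correspondence_apply,
    pullback_pushforward_eq a i a' i₁ ha hi ha' hi₁ hsqa hfin hN hfin' hN' hnorm hLG,
    ← pullbackAlong_comp b i₁ hb hi₁ h1, ← pullbackAlong_comp i b' hi hb' h2,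
    pullbackAlong_congr hsqb h1 h2]

end

/-! ### Pullback on `Pic0` along a homomorphism -/

section PullbackHom

variable [HasPrincipalDivisors K G] (i : F →ₐ[K] G) (hi : i.toRingHom.IsIntegral)
  (hFI : FundamentalIdentityAlong K i hi)

/-- Pullback of degree-zero divisors along `i`. -/
def pullbackDegZeroAlong :
    Divisor.degZero (K := K) (F := F) →+ Divisor.degZero (K := K) (F := G) :=
  ((Divisor.pullbackAlong i hi).domRestrict (Divisor.degZero (K := K) (F := F))).codRestrict _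
    fun D => Divisor.pullbackAlong_mem_degZero i hi hFI D.2

@[simp]
theorem coe_pullbackDegZeroAlong (D : Divisor.degZero (K := K) (F := F)) :
    (pullbackDegZeroAlong i hi hFI D : Divisor K G) =
      Divisor.pullbackAlong i hi (D : Divisor K F) := rfl

/-- Pullback on `Pic0` along `i` (the map `π^*` of the level transfer). -/
def pullbackPic0Along : Pic0 K F →+ Pic0 K G :=
  QuotientAddGroup.map _ _ (pullbackDegZeroAlong i hi hFI) (by
    rintro ⟨D, hD0⟩ hD
    simp only [AddSubgroup.mem_addSubgroupOf] at hD ⊢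
    exact Divisor.isPrincipal_pullbackAlong i hi hD)

theorem pullbackPic0Along_mk (D : Divisor.degZero (K := K) (F := F)) :
    pullbackPic0Along i hi hFI (Pic0.mk D) = Pic0.mk (pullbackDegZeroAlong i hi hFI D) := rfl

end PullbackHom

section Pic0Comm

variable (a b : F →ₐ[K] F₁) (i : F →ₐ[K] G) (a' b' : G →ₐ[K] G₁) (i₁ : F₁ →ₐ[K] G₁)
  (ha : a.toRingHom.IsIntegral) (hb : b.toRingHom.IsIntegral) (hi : i.toRingHom.IsIntegral)
  (ha' : a'.toRingHom.IsIntegral) (hb' : b'.toRingHom.IsIntegral)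
  (hi₁ : i₁.toRingHom.IsIntegral)
  (hsqa : i₁.comp a = a'.comp i) (hsqb : i₁.comp b = b'.comp i)

variable [HasPrincipalDivisors K G] [HasPrincipalDivisors K G₁] [HasPrincipalDivisors K F₁]

include hsqa hsqb hi₁ in
/-- **Hecke/degeneracy commutation on `Pic0`**: `π^* ∘ T = T' ∘ π^*`, where
`T = a_* b^*` on `Pic0 F`, `T' = a'_* b'^*` on `Pic0 G` and `π^* = i^*`. -/
theorem pullbackPic0Along_correspondence
    (hFIb : FundamentalIdentityAlong K b hb)
    (hfin : FiniteAlong K a) (hN : NormFormulaAlong K a hfin)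
    (hFIb' : FundamentalIdentityAlong K b' hb')
    (hfin' : FiniteAlong K a') (hN' : NormFormulaAlong K a' hfin')
    (hFIi : FundamentalIdentityAlong K i hi)
    (hnorm : NormCompat a i a' i₁) (hLG : HasLocalGenerators a ha) (x : Pic0 K F) :
    pullbackPic0Along i hi hFIi (Pic0.correspondence b a hb ha hFIb hfin hN x) =
      Pic0.correspondence b' a' hb' ha' hFIb' hfin' hN' (pullbackPic0Along i hi hFIi x) := by
  obtain ⟨D, rfl⟩ := Pic0.mk_surjective x
  rw [Pic0.correspondence_mk, pullbackPic0Along_mk, pullbackPic0Along_mk,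
    Pic0.correspondence_mk]
  congr 1
  apply Subtype.ext
  simp only [coe_pullbackDegZeroAlong, Pic0.coe_degZeroCorrespondence]
  exact pullbackAlong_correspondence a b i a' b' i₁ ha hb hi ha' hb' hi₁ hsqa hsqb
    hfin hN hfin' hN' hnorm hLG D

end Pic0Comm

end Fermat.Agent.S37.H818

end

end
-- ===== PACK-END S37/H818/HeckeComm.lean

-- ===== PACK-BEGIN S29/H801/M1Push.lean
section
/-
S29 / M1 (helper801), part 1: functoriality of the Prelude's `inertiaDegAlong` and
`pushforwardAlong` under composition of field embeddings.  Mathlib + Prelude + helper818's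
`S37/H818/PullFunct` only.
-/




set_option autoImplicit false
set_option linter.style.haveILetI false

noncomputable section

namespace Fermat.Agent.S29.H801

open AlgebraicCurve Fermat.Agent.S37.H818

variable {K F G G₁ : Type*} [Field K] [Field F] [Field G] [Field G₁]
  [Algebra K F] [Algebra K G] [Algebra K G₁]

section Tower

variable [Algebra F G] [Algebra G G₁] [Algebra F G₁] [IsScalarTower F G G₁]
  [IsScalarTower K F G] [IsScalarTower K G G₁] [IsScalarTower K F G₁]
  [Algebra.IsIntegral F G] [Algebra.IsIntegral G G₁] [Algebra.IsIntegral F G₁]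

theorem restrict_restrict (W : Place K G₁) : (W.restrict G).restrict F = W.restrict F := by
  apply Place.ext
  ext x
  simp only [Place.restrict_toValuationSubring, ValuationSubring.mem_comap]
  rw [IsScalarTower.algebraMap_apply F G G₁]

/-- Inertia degrees are multiplicative in towers (instance version). -/
theorem inertiaDeg_tower (W : Place K G₁) :
    W.inertiaDeg F = (W.restrict G).inertiaDeg F * W.inertiaDeg G := by
  set w := W.restrict G with hw
  have hv : w.restrict F = W.restrict F := restrict_restrict W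
  -- the composite of the residue maps
  let ι : (w.restrict F).ResidueField →+* W.ResidueField :=
    (Place.restrictResidueMap G W).comp (Place.restrictResidueMap F w)
  letI alg : Algebra (w.restrict F).ResidueField W.ResidueField := ι.toAlgebra
  haveI : IsScalarTower (w.restrict F).ResidueField w.ResidueField W.ResidueField :=
    IsScalarTower.of_algebraMap_eq fun _ => rfl
  have h1 : Module.finrank (w.restrict F).ResidueField w.ResidueField *
      Module.finrank w.ResidueField W.ResidueField =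
      Module.finrank (w.restrict F).ResidueField W.ResidueField :=
    Module.finrank_mul_finrank _ _ _
  have h2 : Module.finrank (w.restrict F).ResidueField W.ResidueField = W.inertiaDeg F := by
    unfold Place.inertiaDeg
    -- transport along `hv`
    have key : ∀ (v' : Place K F) (hv' : v' = W.restrict F)
        (j : v'.ResidueField →+* W.ResidueField),
        (∀ (a : v'.toValuationSubring) (ha : algebraMap F G₁ (a : F) ∈ W.toValuationSubring),
          j (IsLocalRing.residue _ a) =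
            IsLocalRing.residue _ (⟨algebraMap F G₁ (a : F), ha⟩ : W.toValuationSubring)) →
        @Module.finrank v'.ResidueField W.ResidueField _ _ j.toAlgebra.toModule =
          Module.finrank (W.restrict F).ResidueField W.ResidueField := by
      intro v' hv' j hj
      subst hv'
      have : j = Place.restrictResidueMap F W := by
        apply Ideal.Quotient.ringHom_ext
        ext a
        exact (hj a (ValuationSubring.mem_comap.mp a.2)).trans
          (Place.restrictResidueMap_residue W a).symm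
      subst this
      rfl
    refine key (w.restrict F) hv ι ?_
    intro a ha
    show (Place.restrictResidueMap G W) ((Place.restrictResidueMap F w)
      (IsLocalRing.residue _ a)) = _
    rw [Place.restrictResidueMap_residue, Place.restrictResidueMap_residue]
    refine congrArg _ (Subtype.ext ?_)
    show algebraMap G G₁ (algebraMap F G (a : F)) = algebraMap F G₁ (a : F)
    rw [← IsScalarTower.algebraMap_apply]
  rw [← h2, ← h1]
  rfl

end Tower

/-- Inertia degrees are multiplicative in towers (`Along` version). -/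
theorem inertiaDegAlong_comp (φ : F →ₐ[K] G) (ψ : G →ₐ[K] G₁)
    (hφ : φ.toRingHom.IsIntegral) (hψ : ψ.toRingHom.IsIntegral)
    (hψφ : (ψ.comp φ).toRingHom.IsIntegral) (W : Place K G₁) :
    W.inertiaDegAlong (ψ.comp φ) hψφ =
      (W.restrictAlong ψ hψ).inertiaDegAlong φ hφ * W.inertiaDegAlong ψ hψ := by
  letI := algebraAlong φ
  letI := algebraAlong ψ
  letI := algebraAlong (ψ.comp φ)
  haveI := isScalarTower_along φ
  haveI := isScalarTower_along ψ
  haveI := isScalarTower_along (ψ.comp φ)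
  haveI := isIntegral_along φ hφ
  haveI := isIntegral_along ψ hψ
  haveI := isIntegral_along (ψ.comp φ) hψφ
  haveI : IsScalarTower F G G₁ := IsScalarTower.of_algebraMap_eq fun _ => rfl
  exact inertiaDeg_tower (F := F) (G := G) W

/-- Pushforward of divisors is functorial. -/
theorem pushforwardAlong_comp (φ : F →ₐ[K] G) (ψ : G →ₐ[K] G₁)
    (hφ : φ.toRingHom.IsIntegral) (hψ : ψ.toRingHom.IsIntegral)
    (hψφ : (ψ.comp φ).toRingHom.IsIntegral) (D : Divisor K G₁) :
    Divisor.pushforwardAlong (ψ.comp φ) hψφ D =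
      Divisor.pushforwardAlong φ hφ (Divisor.pushforwardAlong ψ hψ D) := by
  induction D using Finsupp.induction with
  | zero => simp
  | single_add W n D _ _ ih =>
    rw [map_add, map_add, map_add, ih]
    congr 1
    rw [Divisor.pushforwardAlong_single, Divisor.pushforwardAlong_single,
      Divisor.pushforwardAlong_single, restrictAlong_comp φ ψ hφ hψ hψφ W,
      inertiaDegAlong_comp φ ψ hφ hψ hψφ W]
    congr 1
    push_cast
    ring

end Fermat.Agent.S29.H801

end

end
-- ===== PACK-END S29/H801/M1Push.lean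

-- ===== PACK-BEGIN S29/H801/M1Abstract.lean
section
/-
S29 / M1 (helper801), part 2: two correspondences `T₁ = a₁_* b₁^*`, `T₂ = a₂_* b₂^*` on a function
field `F` commute, on divisors and on `Pic0`, as soon as there is a common cover `F₁₂`

            a₁,b₁                 A₂,B₂
      F  =========>  F₁      F₁ =========> F₁₂
            a₂,b₂                 A₁,B₁
      F  =========>  F₂      F₂ =========> F₁₂

with `A₂ ∘ a₁ = A₁ ∘ a₂`, `B₂ ∘ b₁ = B₁ ∘ b₂`, `B₁ ∘ a₂ = A₂ ∘ b₁`, `B₂ ∘ a₁ = A₁ ∘ b₂`, and the two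
mixed squares satisfy base change (helper818's `pullback_pushforward_eq`).
Then `T₁ T₂ = (A₂ a₁)_* (B₁ b₂)^* = (A₁ a₂)_* (B₂ b₁)^* = T₂ T₁`.
-/





set_option autoImplicit false
set_option linter.style.haveILetI false

noncomputable section

namespace Fermat.Agent.S29.H801

open AlgebraicCurve Fermat.Agent.S37.H818

variable {K F F₁ F₂ F₁₂ : Type*} [Field K] [Field F] [Field F₁] [Field F₂] [Field F₁₂]
  [Algebra K F] [Algebra K F₁] [Algebra K F₂] [Algebra K F₁₂]

theorem pushforwardAlong_congr {G G' : Type*} [Field G] [Field G'] [Algebra K G] [Algebra K G']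
    {φ φ' : G →ₐ[K] G'} (h : φ = φ')
    (hφ : φ.toRingHom.IsIntegral) (hφ' : φ'.toRingHom.IsIntegral) (D : Divisor K G') :
    Divisor.pushforwardAlong φ hφ D = Divisor.pushforwardAlong φ' hφ' D := by
  subst h
  rfl

section

variable (a₁ b₁ : F →ₐ[K] F₁) (a₂ b₂ : F →ₐ[K] F₂)
  (A₂ B₂ : F₁ →ₐ[K] F₁₂) (A₁ B₁ : F₂ →ₐ[K] F₁₂)
  (ha₁ : a₁.toRingHom.IsIntegral) (hb₁ : b₁.toRingHom.IsIntegral)
  (ha₂ : a₂.toRingHom.IsIntegral) (hb₂ : b₂.toRingHom.IsIntegral)
  (hA₂ : A₂.toRingHom.IsIntegral) (hB₂ : B₂.toRingHom.IsIntegral)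
  (hA₁ : A₁.toRingHom.IsIntegral) (hB₁ : B₁.toRingHom.IsIntegral)
  (hAA : A₂.comp a₁ = A₁.comp a₂) (hBB : B₂.comp b₁ = B₁.comp b₂)
  (hsq₁ : B₁.comp a₂ = A₂.comp b₁) (hsq₂ : B₂.comp a₁ = A₁.comp b₂)

variable [HasPrincipalDivisors K F₁] [HasPrincipalDivisors K F₂] [HasPrincipalDivisors K F₁₂]

include hsq₁ hB₁ hA₂ in
/-- `T₁ T₂ = (A₂ a₁)_* (B₁ b₂)^*`. -/
theorem correspondence_correspondence_eq
    (hfin₂ : FiniteAlong K a₂) (hN₂ : NormFormulaAlong K a₂ hfin₂)
    (hfinA₂ : FiniteAlong K A₂) (hNA₂ : NormFormulaAlong K A₂ hfinA₂)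
    (hnorm₁ : NormCompat a₂ b₁ A₂ B₁) (hLG₂ : HasLocalGenerators a₂ ha₂)
    (hAa : (A₂.comp a₁).toRingHom.IsIntegral) (hBb : (B₁.comp b₂).toRingHom.IsIntegral)
    (D : Divisor K F) :
    Divisor.correspondence b₁ a₁ hb₁ ha₁ (Divisor.correspondence b₂ a₂ hb₂ ha₂ D) =
      Divisor.pushforwardAlong (A₂.comp a₁) hAa (Divisor.pullbackAlong (B₁.comp b₂) hBb D) := by
  rw [Divisor.correspondence_apply, Divisor.correspondence_apply,
    pullback_pushforward_eq a₂ b₁ A₂ B₁ ha₂ hb₁ hA₂ hB₁ hsq₁ hfin₂ hN₂ hfinA₂ hNA₂ hnorm₁ hLG₂,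
    ← pushforwardAlong_comp a₁ A₂ ha₁ hA₂ hAa, ← pullbackAlong_comp b₂ B₁ hb₂ hB₁ hBb]

include hAA hBB hsq₁ hsq₂ hA₁ hA₂ hB₁ hB₂ in
/-- **Commutation of two correspondences on divisors.** -/
theorem correspondence_comm
    (hfin₁ : FiniteAlong K a₁) (hN₁ : NormFormulaAlong K a₁ hfin₁)
    (hfin₂ : FiniteAlong K a₂) (hN₂ : NormFormulaAlong K a₂ hfin₂)
    (hfinA₁ : FiniteAlong K A₁) (hNA₁ : NormFormulaAlong K A₁ hfinA₁)
    (hfinA₂ : FiniteAlong K A₂) (hNA₂ : NormFormulaAlong K A₂ hfinA₂)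
    (hnorm₁ : NormCompat a₂ b₁ A₂ B₁) (hnorm₂ : NormCompat a₁ b₂ A₁ B₂)
    (hLG₁ : HasLocalGenerators a₁ ha₁) (hLG₂ : HasLocalGenerators a₂ ha₂)
    (D : Divisor K F) :
    Divisor.correspondence b₁ a₁ hb₁ ha₁ (Divisor.correspondence b₂ a₂ hb₂ ha₂ D) =
      Divisor.correspondence b₂ a₂ hb₂ ha₂ (Divisor.correspondence b₁ a₁ hb₁ ha₁ D) := by
  have hAa : (A₂.comp a₁).toRingHom.IsIntegral := RingHom.IsIntegral.trans _ _ ha₁ hA₂
  have hAa' : (A₁.comp a₂).toRingHom.IsIntegral := RingHom.IsIntegral.trans _ _ ha₂ hA₁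
  have hBb : (B₁.comp b₂).toRingHom.IsIntegral := RingHom.IsIntegral.trans _ _ hb₂ hB₁
  have hBb' : (B₂.comp b₁).toRingHom.IsIntegral := RingHom.IsIntegral.trans _ _ hb₁ hB₂
  rw [correspondence_correspondence_eq a₁ b₁ a₂ b₂ A₂ B₁ ha₁ hb₁ ha₂ hb₂ hA₂ hB₁ hsq₁
      hfin₂ hN₂ hfinA₂ hNA₂ hnorm₁ hLG₂ hAa hBb D,
    correspondence_correspondence_eq a₂ b₂ a₁ b₁ A₁ B₂ ha₂ hb₂ ha₁ hb₁ hA₁ hB₂ hsq₂
      hfin₁ hN₁ hfinA₁ hNA₁ hnorm₂ hLG₁ hAa' hBb' D,
    pushforwardAlong_congr hAA hAa hAa', pullbackAlong_congr hBB.symm hBb hBb']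

include hAA hBB hsq₁ hsq₂ hA₁ hA₂ hB₁ hB₂ in
/-- **Commutation of two correspondences on `Pic0`.** -/
theorem pic0_correspondence_comm
    (hFI₁ : FundamentalIdentityAlong K b₁ hb₁) (hFI₂ : FundamentalIdentityAlong K b₂ hb₂)
    (hfin₁ : FiniteAlong K a₁) (hN₁ : NormFormulaAlong K a₁ hfin₁)
    (hfin₂ : FiniteAlong K a₂) (hN₂ : NormFormulaAlong K a₂ hfin₂)
    (hfinA₁ : FiniteAlong K A₁) (hNA₁ : NormFormulaAlong K A₁ hfinA₁)
    (hfinA₂ : FiniteAlong K A₂) (hNA₂ : NormFormulaAlong K A₂ hfinA₂)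
    (hnorm₁ : NormCompat a₂ b₁ A₂ B₁) (hnorm₂ : NormCompat a₁ b₂ A₁ B₂)
    (hLG₁ : HasLocalGenerators a₁ ha₁) (hLG₂ : HasLocalGenerators a₂ ha₂)
    (x : Pic0 K F) :
    Pic0.correspondence b₁ a₁ hb₁ ha₁ hFI₁ hfin₁ hN₁
        (Pic0.correspondence b₂ a₂ hb₂ ha₂ hFI₂ hfin₂ hN₂ x) =
      Pic0.correspondence b₂ a₂ hb₂ ha₂ hFI₂ hfin₂ hN₂
        (Pic0.correspondence b₁ a₁ hb₁ ha₁ hFI₁ hfin₁ hN₁ x) := by
  obtain ⟨D, rfl⟩ := Pic0.mk_surjective x
  rw [Pic0.correspondence_mk, Pic0.correspondence_mk, Pic0.correspondence_mk,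
    Pic0.correspondence_mk]
  congr 1
  apply Subtype.ext
  simp only [Pic0.coe_degZeroCorrespondence]
  exact correspondence_comm a₁ b₁ a₂ b₂ A₂ B₂ A₁ B₁ ha₁ hb₁ ha₂ hb₂ hA₂ hB₂ hA₁ hB₁ hAA hBB
    hsq₁ hsq₂ hfin₁ hN₁ hfin₂ hN₂ hfinA₁ hNA₁ hfinA₂ hNA₂ hnorm₁ hnorm₂ hLG₁ hLG₂ D

end

end Fermat.Agent.S29.H801

end

end
-- ===== PACK-END S29/H801/M1Abstract.lean

-- ===== PACK-BEGIN S29/H801/M1Norm.lean
section
/-
S29 / M1 (helper801), part 4: norm compatibility of a commutative square of field extensions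

      F  --a-->  F₁
      |i         |i₁
      v          v
      G  --a'->  G₁

from "linear disjointness": `i₁` maps `F`-linearly independent families of `F₁` to `G`-linearly
independent families of `G₁`, and `[G₁ : G] ≤ [F₁ : F]`.  (Generic; Mathlib + Prelude + H818.)
-/




set_option autoImplicit false
set_option linter.style.haveILetI false

noncomputable section

namespace Fermat.Agent.S29.H801

open AlgebraicCurve Fermat.Agent.S37.H818

section Abstract

variable {F F₁ G G₁ : Type*} [Field F] [Field F₁] [Field G] [Field G₁]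
  [Algebra F F₁] [Algebra G G₁]

/-- Norms commute with a map of extensions which sends a basis to a basis. -/
theorem norm_map_of_basis (i : F →+* G) (i₁ : F₁ →+* G₁)
    (hsq : ∀ x : F, i₁ (algebraMap F F₁ x) = algebraMap G G₁ (i x))
    {ι : Type*} [Fintype ι] [DecidableEq ι] (b : Module.Basis ι F F₁) (b' : Module.Basis ι G G₁)
    (hb : ∀ k, b' k = i₁ (b k)) (f : F₁) :
    Algebra.norm G (i₁ f) = i (Algebra.norm F f) := by
  rw [Algebra.norm_eq_matrix_det b', Algebra.norm_eq_matrix_det b, RingHom.map_det]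
  congr 1
  ext j k
  rw [RingHom.mapMatrix_apply, Matrix.map_apply, Algebra.leftMulMatrix_eq_repr_mul,
    Algebra.leftMulMatrix_eq_repr_mul]
  have h1 : f * b k = ∑ m, (b.repr (f * b k) m) • b m := (b.sum_repr (f * b k)).symm
  have h2 : i₁ f * b' k = ∑ m, (i (b.repr (f * b k) m)) • b' m := by
    rw [hb k, ← map_mul, h1, map_sum]
    refine Finset.sum_congr rfl fun m _ => ?_
    rw [Algebra.smul_def, map_mul, hsq, hb m, Algebra.smul_def]
    congr 2
    rw [← h1]
  rw [h2, map_sum]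
  simp only [map_smul, Module.Basis.repr_self, Finsupp.coe_finsetSum, Finsupp.coe_smul,
    Finset.sum_apply, Pi.smul_apply, Finsupp.single_apply, smul_eq_mul, mul_ite, mul_one,
    mul_zero, Finset.sum_ite_eq', Finset.mem_univ, if_true]

/-- Norm compatibility from preservation of linear independence and a rank bound. -/
theorem norm_map_of_linearIndependent [Module.Finite F F₁] [Module.Finite G G₁]
    (i : F →+* G) (i₁ : F₁ →+* G₁)
    (hsq : ∀ x : F, i₁ (algebraMap F F₁ x) = algebraMap G G₁ (i x))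
    (hrk : Module.finrank G G₁ ≤ Module.finrank F F₁)
    (hLD : ∀ (n : ℕ) (b : Fin n → F₁), LinearIndependent F b → LinearIndependent G (i₁ ∘ b))
    (f : F₁) :
    Algebra.norm G (i₁ f) = i (Algebra.norm F f) := by
  classical
  set n := Module.finrank F F₁ with hn
  let b : Module.Basis (Fin n) F F₁ := Module.finBasis F F₁
  have hli : LinearIndependent G (i₁ ∘ b) := hLD n b b.linearIndependent
  have hcard : Fintype.card (Fin n) = Module.finrank G G₁ := by
    have h1 := hli.fintype_card_le_finrank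
    rw [Fintype.card_fin] at h1 ⊢
    omega
  haveI : Nonempty (Fin n) := ⟨⟨0, by rw [hn]; exact Module.finrank_pos⟩⟩
  let b' : Module.Basis (Fin n) G G₁ := basisOfLinearIndependentOfCardEqFinrank hli hcard
  have hb : ∀ k, b' k = i₁ (b k) := fun k => by
    simp only [b', coe_basisOfLinearIndependentOfCardEqFinrank, Function.comp_apply]
  exact norm_map_of_basis i i₁ hsq b b' hb f

/-- Norm compatibility from a rank bound and generation: the image of `i₁` spans `G₁` over `G`
and `[F₁ : F] ≤ [G₁ : G]`. -/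
theorem norm_map_of_span [Module.Finite F F₁] [Module.Finite G G₁]
    (i : F →+* G) (i₁ : F₁ →+* G₁)
    (hsq : ∀ x : F, i₁ (algebraMap F F₁ x) = algebraMap G G₁ (i x))
    (hrk : Module.finrank F F₁ ≤ Module.finrank G G₁)
    (hspan : Submodule.span G (Set.range i₁) = ⊤) (f : F₁) :
    Algebra.norm G (i₁ f) = i (Algebra.norm F f) := by
  classical
  set n := Module.finrank F F₁ with hn
  let b : Module.Basis (Fin n) F F₁ := Module.finBasis F F₁
  have hsp : ⊤ ≤ Submodule.span G (Set.range (i₁ ∘ b)) := by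
    rw [← hspan, Submodule.span_le]
    rintro _ ⟨x, rfl⟩
    have hx : x = ∑ k, b.repr x k • b k := (b.sum_repr x).symm
    rw [hx, map_sum]
    refine Submodule.sum_mem _ fun k _ => ?_
    rw [Algebra.smul_def, map_mul, hsq, ← Algebra.smul_def]
    exact Submodule.smul_mem _ _ (Submodule.subset_span ⟨k, rfl⟩)
  have hcard : Fintype.card (Fin n) = Module.finrank G G₁ := by
    have h1 : Module.finrank G G₁ ≤ Fintype.card (Fin n) := by
      have h2 := finrank_range_le_card (R := G) (i₁ ∘ b)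
      have h3 : Submodule.span G (Set.range (i₁ ∘ b)) = ⊤ := top_le_iff.mp hsp
      rw [Set.finrank, h3, finrank_top] at h2
      exact h2
    rw [Fintype.card_fin] at h1 ⊢
    omega
  let b' : Module.Basis (Fin n) G G₁ := basisOfTopLeSpanOfCardEqFinrank (i₁ ∘ b) hsp hcard
  have hb : ∀ k, b' k = i₁ (b k) := fun k => by
    simp only [b', coe_basisOfTopLeSpanOfCardEqFinrank, Function.comp_apply]
  exact norm_map_of_basis i i₁ hsq b b' hb f

end Abstract

section Along

variable {K F F₁ G G₁ : Type*} [Field K] [Field F] [Field F₁] [Field G] [Field G₁]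
  [Algebra K F] [Algebra K F₁] [Algebra K G] [Algebra K G₁]

/-- **`NormCompat` from linear disjointness.** -/
theorem normCompat_of_linearIndependent
    (a : F →ₐ[K] F₁) (i : F →ₐ[K] G) (a' : G →ₐ[K] G₁) (i₁ : F₁ →ₐ[K] G₁)
    (hsq : i₁.comp a = a'.comp i)
    (hfin : FiniteAlong K a) (hfin' : FiniteAlong K a')
    (hrk : finrankAlong K a' ≤ finrankAlong K a)
    (hLD : letI := algebraAlong a; letI := algebraAlong a';
      ∀ (n : ℕ) (b : Fin n → F₁), LinearIndependent F b → LinearIndependent G (i₁ ∘ b)) :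
    NormCompat a i a' i₁ := by
  intro f
  letI := algebraAlong a
  letI := algebraAlong a'
  haveI : Module.Finite F F₁ := hfin
  haveI : Module.Finite G G₁ := hfin'
  exact norm_map_of_linearIndependent (i : F →+* G) (i₁ : F₁ →+* G₁)
    (fun x => by
      show i₁ (a x) = a' (i x)
      exact AlgHom.congr_fun hsq x)
    hrk hLD f

/-- **`NormCompat` from generation and a rank bound.** -/
theorem normCompat_of_span
    (a : F →ₐ[K] F₁) (i : F →ₐ[K] G) (a' : G →ₐ[K] G₁) (i₁ : F₁ →ₐ[K] G₁)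
    (hsq : i₁.comp a = a'.comp i)
    (hfin : FiniteAlong K a) (hfin' : FiniteAlong K a')
    (hrk : finrankAlong K a ≤ finrankAlong K a')
    (hspan : letI := algebraAlong a';
      Submodule.span G (Set.range i₁) = ⊤) :
    NormCompat a i a' i₁ := by
  intro f
  letI := algebraAlong a
  letI := algebraAlong a'
  haveI : Module.Finite F F₁ := hfin
  haveI : Module.Finite G G₁ := hfin'
  exact norm_map_of_span (i : F →+* G) (i₁ : F₁ →+* G₁)
    (fun x => by
      show i₁ (a x) = a' (i x)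
      exact AlgHom.congr_fun hsq x)
    hrk hspan f

end Along

section Sup

variable {K E : Type*} [Field K] [Field E] [Algebra K E]

/-- If `B` is algebraic over `A`, the compositum `A ⊔ B` is the `A`-span of `B`. -/
theorem mem_span_of_mem_sup (A B : IntermediateField K E)
    (halg : ∀ x ∈ B, IsAlgebraic A x) {t : E} (ht : t ∈ A ⊔ B) :
    t ∈ Submodule.span A (B : Set E) := by
  have h1 : (IntermediateField.adjoin A (B : Set E)).restrictScalars K = A ⊔ B := by
    rw [IntermediateField.restrictScalars_adjoin_eq_sup, IntermediateField.adjoin_self]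
  have h2 : t ∈ IntermediateField.adjoin A (B : Set E) := by
    have h : t ∈ (IntermediateField.adjoin A (B : Set E)).restrictScalars K := by
      rw [h1]; exact ht
    exact h
  have h3 := IntermediateField.adjoin_toSubalgebra_of_isAlgebraic halg
  have h4 : t ∈ Algebra.adjoin A (B : Set E) := by
    rw [← h3]; exact h2
  have h5 : t ∈ Subalgebra.toSubmodule (Algebra.adjoin A (B : Set E)) := h4
  rw [Algebra.adjoin_eq_span] at h5
  have h6 : ((Submonoid.closure (B : Set E) : Submonoid E) : Set E) = (B : Set E) := by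
    have := Submonoid.closure_eq B.toSubalgebra.toSubmonoid
    exact congrArg (fun S : Submonoid E => (S : Set E)) this
  rwa [h6] at h5

end Sup

end Fermat.Agent.S29.H801

end

end
-- ===== PACK-END S29/H801/M1Norm.lean

-- ===== PACK-BEGIN Lib/RR/H623/WeakApprox.lean
section




/-!
# Shared library RR (helper623): the weak approximation theorem for places

Prelude language (`AlgebraicCurve.Place`).  For finitely many places `v ∈ s`, targets `x v : F`
and orders `r v : ℤ` there is `z : F` with `ord_v (z - x v) = r v` for all `v ∈ s`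
(Stichtenoth, Thm. 1.3.1).  No hypothesis on `K`, `F`.

* `Big v r f` : `f = 0 ∨ r ≤ ord_v f` with its calculus
* `exists_near_one`, `exists_approx`, `weak_approximation`, `weak_approximation_ge`
-/

set_option autoImplicit false

noncomputable section

namespace Fermat.Agent.Lib.RR.H623

open AlgebraicCurve Fermat.Agent.S24.H117

variable {K F : Type*} [Field K] [Field F] [Algebra K F]

/-- `f = 0` or `r ≤ ord_v f`. -/
def Big (v : Place K F) (r : ℤ) (f : F) : Prop := f = 0 ∨ r ≤ v.ord f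

namespace Big

variable {v : Place K F} {r s : ℤ} {f g : F}

theorem zero (v : Place K F) (r : ℤ) : Big v r (0 : F) := Or.inl rfl

theorem of_le (hf : r ≤ v.ord f) : Big v r f := Or.inr hf

theorem le_ord (h : Big v r f) (hf : f ≠ 0) : r ≤ v.ord f := h.resolve_left hf

theorem mono (h : Big v r f) (hsr : s ≤ r) : Big v s f := by
  rcases h with h | h
  · exact Or.inl h
  · exact Or.inr (hsr.trans h)

theorem neg (h : Big v r f) : Big v r (-f) := by
  rcases h with h | h
  · exact Or.inl (by rw [h, neg_zero])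
  · exact Or.inr (by rwa [_root_.Fermat.Agent.S24.H117.ord_neg])

theorem add (hf : Big v r f) (hg : Big v r g) : Big v r (f + g) := by
  rcases eq_or_ne (f + g) 0 with h0 | h0
  · exact Or.inl h0
  rcases hf with rfl | hf
  · rwa [zero_add]
  rcases hg with rfl | hg
  · rw [add_zero]; exact Or.inr hf
  exact Or.inr ((le_min hf hg).trans (ord_add_ge v h0))

theorem sub (hf : Big v r f) (hg : Big v r g) : Big v r (f - g) := by
  rw [sub_eq_add_neg]; exact hf.add hg.neg

theorem mul (hf : Big v r f) (hg : Big v s g) : Big v (r + s) (f * g) := by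
  rcases hf with rfl | hf
  · exact Or.inl (zero_mul _)
  rcases hg with rfl | hg
  · exact Or.inl (mul_zero _)
  rcases eq_or_ne f 0 with rfl | hf0
  · exact Or.inl (zero_mul _)
  rcases eq_or_ne g 0 with rfl | hg0
  · exact Or.inl (mul_zero _)
  refine Or.inr ?_
  rw [v.ord_mul hf0 hg0]
  omega

theorem sum {ι : Type*} (t : Finset ι) (φ : ι → F) (h : ∀ i ∈ t, Big v r (φ i)) :
    Big v r (∑ i ∈ t, φ i) := by
  classical
  induction t using Finset.induction_on with
  | empty => simp [zero]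
  | insert a t ha ih =>
    rw [Finset.sum_insert ha]
    exact (h a (Finset.mem_insert_self _ _)).add
      (ih fun i hi => h i (Finset.mem_insert_of_mem hi))

theorem self (v : Place K F) (f : F) : Big v (v.ord f) f := Or.inr le_rfl

end Big

theorem big_iff_adicValuation_le {v : Place K F} {r : ℤ} {f : F} :
    Big v r f ↔ v.adicValuation f ≤ WithZero.exp (-r) := by
  rw [Place.adicValuation_le_exp_iff, neg_neg]
  rfl

/-- **Step 2**: an element close to `1` at `v` and close to `0` at the places of `s`. -/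
theorem exists_near_one (v : Place K F) (s : Finset (Place K F)) (hv : v ∉ s) (r : ℤ) :
    ∃ w : F, Big v r (w - 1) ∧ ∀ w' ∈ s, Big w' r w := by
  obtain ⟨u, hu1, hu2⟩ := exists_ord_pos_forall_neg v s hv
  obtain ⟨n, hn1, hnr⟩ : ∃ n : ℕ, 1 ≤ n ∧ r ≤ (n : ℤ) :=
    ⟨r.toNat + 1, by omega, by have := Int.self_le_toNat r; push_cast; omega⟩
  have hn1' : (1 : ℤ) ≤ n := by exact_mod_cast hn1
  have hu0 : u ≠ 0 := _root_.Fermat.Agent.S24.H117.ne_zero_of_ord_ne_zero v hu1.ne'
  set t : F := u ^ n with ht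
  have ht0 : t ≠ 0 := pow_ne_zero _ hu0
  have hvt : (n : ℤ) ≤ v.ord t := by
    rw [ht, _root_.Fermat.Agent.S24.H117.ord_pow]
    nlinarith
  have h1t : v.ord (1 + t) = 0 := by
    have := _root_.Fermat.Agent.S24.H117.ord_add_eq_of_lt v (f := (1 : F)) (g := t) (by rw [v.ord_one]; omega) one_ne_zero
    rw [this, v.ord_one]
  have hne : (1 : F) + t ≠ 0 := by
    intro h0
    have ht1 : t = -1 := eq_neg_of_add_eq_zero_right h0
    have : v.ord t = 0 := by rw [ht1, _root_.Fermat.Agent.S24.H117.ord_neg, v.ord_one]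
    omega
  refine ⟨(1 + t)⁻¹, ?_, ?_⟩
  · have hw : (1 + t)⁻¹ - 1 = -(t / (1 + t)) := by
      field_simp
      ring
    rw [hw]
    apply Big.neg
    apply Big.of_le
    rw [ord_div v ht0 hne, h1t]
    omega
  · intro w' hw'
    have hw't : w'.ord t ≤ -(n : ℤ) := by
      rw [ht, _root_.Fermat.Agent.S24.H117.ord_pow]
      have := hu2 w' hw'
      nlinarith
    have h1 : w'.ord (t + 1) = w'.ord t :=
      _root_.Fermat.Agent.S24.H117.ord_add_eq_of_lt w' (by rw [w'.ord_one]; omega) ht0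
    apply Big.of_le
    rw [w'.ord_inv, add_comm, h1]
    omega

/-- **Step 3**: simultaneous approximation of arbitrary targets to arbitrary precision. -/
theorem exists_approx (s : Finset (Place K F)) (y : Place K F → F) (r : ℤ) :
    ∃ z : F, ∀ v ∈ s, Big v r (z - y v) := by
  classical
  -- a uniform lower bound for the orders of the targets
  set M : ℤ := ∑ v ∈ s, ∑ v' ∈ s, |v.ord (y v')| with hM
  have hMbound : ∀ v ∈ s, ∀ v' ∈ s, Big v (-M) (y v') := by
    intro v hv v' hv'
    apply Big.of_le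
    have h1 : |v.ord (y v')| ≤ ∑ v'' ∈ s, |v.ord (y v'')| :=
      Finset.single_le_sum (f := fun v'' => |v.ord (y v'')|) (fun _ _ => abs_nonneg _) hv'
    have h2 : ∑ v'' ∈ s, |v.ord (y v'')| ≤ M :=
      Finset.single_le_sum (f := fun v₀ : Place K F => ∑ v'' ∈ s, |v₀.ord (y v'')|)
        (fun _ _ => Finset.sum_nonneg fun _ _ => abs_nonneg _) hv
    have h3 := neg_abs_le (v.ord (y v'))
    omega
  have hex : ∀ v : Place K F, ∃ w : F, Big v (r + M) (w - 1) ∧
      ∀ w' ∈ s.erase v, Big w' (r + M) w :=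
    fun v => exists_near_one v (s.erase v) (Finset.notMem_erase v s) (r + M)
  choose w hw1 hw2 using hex
  refine ⟨∑ v' ∈ s, y v' * w v', fun v hv => ?_⟩
  have hsplit : ∑ v' ∈ s, y v' * w v' - y v =
      y v * (w v - 1) + ∑ v' ∈ s.erase v, y v' * w v' := by
    rw [← Finset.add_sum_erase s _ hv]
    ring
  rw [hsplit]
  refine Big.add ?_ (Big.sum _ _ fun v' hv' => ?_)
  · have := (hMbound v hv v hv).mul (hw1 v)
    exact this.mono (by omega)
  · have hv's : v' ∈ s := Finset.mem_of_mem_erase hv'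
    have hvv' : v ∈ s.erase v' :=
      Finset.mem_erase.mpr ⟨(Finset.ne_of_mem_erase hv').symm, hv⟩
    have := (hMbound v hv v' hv's).mul (hw2 v' v hvv')
    exact this.mono (by omega)

theorem exists_ord_eq' (v : Place K F) (n : ℤ) : ∃ c : F, c ≠ 0 ∧ v.ord c = n := by
  obtain ⟨π, hπ0, hπ1⟩ := _root_.Fermat.Agent.S24.H117.exists_ord_eq_one v
  refine ⟨π ^ n, zpow_ne_zero _ hπ0, ?_⟩
  rw [v.ord_zpow, hπ1, mul_one]

/-- **Weak approximation theorem**, exact orders. -/
theorem weak_approximation (s : Finset (Place K F)) (x : Place K F → F) (r : Place K F → ℤ) :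
    ∃ z : F, ∀ v ∈ s, z - x v ≠ 0 ∧ v.ord (z - x v) = r v := by
  classical
  choose c hc0 hc using fun v : Place K F => exists_ord_eq' v (r v)
  set R : ℤ := ∑ v ∈ s, |r v| + 1 with hR
  have hRbound : ∀ v ∈ s, r v < R := by
    intro v hv
    have h1 : |r v| ≤ ∑ v' ∈ s, |r v'| :=
      Finset.single_le_sum (f := fun v' => |r v'|) (fun _ _ => abs_nonneg _) hv
    have h2 := le_abs_self (r v)
    omega
  obtain ⟨z, hz⟩ := exists_approx s (fun v => x v + c v) R
  refine ⟨z, fun v hv => ?_⟩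
  have hdecomp : z - x v = c v + (z - (x v + c v)) := by ring
  have hlt : ∀ e : F, Big v R e → v.ord (c v + e) = v.ord (c v) := by
    intro e he
    rcases eq_or_ne e 0 with rfl | he0
    · rw [add_zero]
    · exact _root_.Fermat.Agent.S24.H117.ord_add_eq_of_lt v (by have := he.le_ord he0; have := hRbound v hv; rw [hc v]; omega)
        (hc0 v)
  have hord : v.ord (z - x v) = r v := by
    rw [hdecomp, hlt _ (hz v hv), hc v]
  refine ⟨?_, hord⟩
  intro h0
  rcases hz v hv with h | h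
  · have : z - x v = c v := by rw [hdecomp, h, add_zero]
    exact hc0 v (this ▸ h0)
  · have h1 : z - (x v + c v) = -(c v) := by
      have : z - (x v + c v) = (z - x v) - c v := by ring
      rw [this, h0, zero_sub]
    rw [h1, _root_.Fermat.Agent.S24.H117.ord_neg, hc v] at h
    have := hRbound v hv
    omega

/-- **Weak approximation theorem**, `≥` form. -/
theorem weak_approximation_ge (s : Finset (Place K F)) (x : Place K F → F)
    (r : Place K F → ℤ) : ∃ z : F, ∀ v ∈ s, Big v (r v) (z - x v) := by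
  obtain ⟨z, hz⟩ := weak_approximation s x r
  exact ⟨z, fun v hv => Big.of_le (hz v hv).2.ge⟩

end Fermat.Agent.Lib.RR.H623

end
end
-- ===== PACK-END Lib/RR/H623/WeakApprox.lean

-- ===== PACK-BEGIN S35/H252/FieldAut.lean
section
/-
S35, piece (X-forms) (helper252): commutative algebra.

* `ker_le_of_isIntegral` : two characters `χ ψ : A → ℂ` with `ker χ ≤ ker ψ`, `χ` having integral
  values (in the strong form: every `s` is killed modulo `ker χ` by a monic integral polynomial),
  have the same kernel;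
* `exists_ringEquiv_of_ker_eq` : two characters `χ ψ : A → ℂ` with the same kernel and algebraic
  values differ by a ring automorphism of `ℂ`.
-/


set_option autoImplicit false
set_option linter.style.haveILetI false

namespace Fermat.Agent.S35.H252

open Polynomial

/-- If `ker χ ≤ ker ψ` and every element of `A` is integral over `ℤ` modulo `ker χ`, then
`ker ψ ≤ ker χ`. -/
theorem ker_le_of_isIntegral {A : Type*} [CommRing A] (χ ψ : A →+* ℂ)
    (hker : RingHom.ker χ ≤ RingHom.ker ψ)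
    (hint : ∀ s : A, ∃ P : ℤ[X], P.Monic ∧ eval₂ (algebraMap ℤ A) s P ∈ RingHom.ker χ) :
    RingHom.ker ψ ≤ RingHom.ker χ := by
  intro s hs
  rw [RingHom.mem_ker] at hs ⊢
  by_contra hx
  obtain ⟨P, hPmonic, hP⟩ := hint s
  have hP0 : P ≠ 0 := hPmonic.ne_zero
  obtain ⟨Q, hPQ, hQ⟩ := Polynomial.exists_eq_pow_rootMultiplicity_mul_and_not_dvd P hP0 0
  rw [map_zero, sub_zero] at hPQ hQ
  have hQ0 : Q.eval 0 ≠ 0 := by
    intro h0
    apply hQ
    have : (X - C (0 : ℤ)) ∣ Q := Polynomial.dvd_iff_isRoot.mpr h0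
    simpa using this
  have e1 : ∀ R : ℤ[X], χ (eval₂ (algebraMap ℤ A) s R) = eval₂ (Int.castRingHom ℂ) (χ s) R := by
    intro R
    rw [Polynomial.hom_eval₂]
    congr 1
    exact RingHom.ext_int _ _
  have e2 : ∀ R : ℤ[X], ψ (eval₂ (algebraMap ℤ A) s R) = eval₂ (Int.castRingHom ℂ) (ψ s) R := by
    intro R
    rw [Polynomial.hom_eval₂]
    congr 1
    exact RingHom.ext_int _ _
  have h1 := e1 P
  rw [RingHom.mem_ker.mp hP, hPQ, eval₂_mul, eval₂_pow, eval₂_X] at h1
  have h2 : eval₂ (Int.castRingHom ℂ) (χ s) Q = 0 := by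
    rcases mul_eq_zero.mp h1.symm with h | h
    · exact absurd h (pow_ne_zero _ hx)
    · exact h
  have h3 : eval₂ (algebraMap ℤ A) s Q ∈ RingHom.ker ψ := by
    apply hker
    rw [RingHom.mem_ker, e1 Q, h2]
  rw [RingHom.mem_ker, e2 Q, hs] at h3
  have h4 : ((Q.eval 0 : ℤ) : ℂ) = 0 := by
    rw [← h3, Polynomial.eval₂_at_zero, Polynomial.coeff_zero_eq_eval_zero]
    rfl
  exact hQ0 (by exact_mod_cast h4)

/-- Two characters with values in `ℂ`, with the same kernel and with algebraic values, differ by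
a ring automorphism of `ℂ`. -/
theorem exists_ringEquiv_of_ker_eq {A : Type*} [CommRing A] (χ ψ : A →+* ℂ)
    (hker : RingHom.ker χ = RingHom.ker ψ) (halg : ∀ s : A, IsAlgebraic ℚ (χ s)) :
    ∃ σ : ℂ ≃+* ℂ, ∀ s : A, σ (χ s) = ψ s := by
  classical
  -- `ψ` factors through the range of `χ`
  have hf : Function.Surjective χ.rangeRestrict := χ.rangeRestrict_surjective
  have hfker : RingHom.ker χ.rangeRestrict = RingHom.ker χ := RingHom.ker_rangeRestrict χ
  let ψ' : χ.range →+* ℂ :=
    RingHom.liftOfSurjective χ.rangeRestrict hf ⟨ψ, by rw [hfker, hker]⟩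
  have hψ' : ∀ s : A, ψ' (χ.rangeRestrict s) = ψ s := fun s =>
    RingHom.liftOfSurjective_comp_apply χ.rangeRestrict hf ⟨ψ, by rw [hfker, hker]⟩ s
  have hψ'inj : Function.Injective ψ' := by
    rw [injective_iff_map_eq_zero]
    intro y hy
    obtain ⟨s, rfl⟩ := hf y
    rw [hψ' s] at hy
    have hs : s ∈ RingHom.ker χ := by rw [hker]; exact hy
    exact Subtype.ext hs
  -- the fraction field of the range
  let F := FractionRing χ.range
  let ιF : F →+* ℂ := IsFractionRing.lift (A := χ.range) (K := F) (g := χ.range.subtype)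
    Subtype.val_injective
  let ψF : F →+* ℂ := IsFractionRing.lift (A := χ.range) (K := F) (g := ψ') hψ'inj
  have hιF : ∀ y : χ.range, ιF (algebraMap χ.range F y) = (y : ℂ) := fun y =>
    IsFractionRing.lift_algebraMap _ y
  have hψF : ∀ y : χ.range, ψF (algebraMap χ.range F y) = ψ' y := fun y =>
    IsFractionRing.lift_algebraMap _ y
  haveI : CharZero F := ⟨fun a b hab => Nat.cast_injective (R := ℂ) (by
    have h := congrArg ιF hab
    rwa [map_natCast, map_natCast] at h)⟩
  let ιA : F →ₐ[ℚ] ℂ := ιF.toRatAlgHom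
  let ψA : F →ₐ[ℚ] ℂ := ψF.toRatAlgHom
  -- the image field is algebraic over `ℚ`
  have hmem : ∀ z : F, ιF z ∈ algebraicClosure ℚ ℂ := by
    intro z
    obtain ⟨x, y, -, rfl⟩ := IsFractionRing.div_surjective (A := χ.range) z
    rw [map_div₀, hιF, hιF]
    obtain ⟨s, hs⟩ := hf x
    obtain ⟨s', hs'⟩ := hf y
    refine div_mem ?_ ?_
    · rw [mem_algebraicClosure_iff, ← hs]
      exact halg s
    · rw [mem_algebraicClosure_iff, ← hs']
      exact halg s'
  let e : F ≃ₐ[ℚ] ιA.fieldRange := AlgEquiv.ofInjectiveField ιA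
  have he : ∀ z : F, ((e z : ιA.fieldRange) : ℂ) = ιF z := fun z => rfl
  haveI : Algebra.IsAlgebraic ℚ F :=
    ⟨fun z => (isAlgebraic_algHom_iff ιA ιA.injective).mp (mem_algebraicClosure_iff.mp (hmem z))⟩
  haveI : Algebra.IsAlgebraic ℚ ιA.fieldRange := e.isAlgebraic
  let τ : ιA.fieldRange →ₐ[ℚ] ℂ := ψA.comp e.symm.toAlgHom
  obtain ⟨σ, hσ⟩ := Fermat.Agent.S48.H308.exists_ringEquiv_extending ιA.fieldRange τ
  refine ⟨σ, fun s => ?_⟩
  have h1 := hσ (e (algebraMap χ.range F (χ.rangeRestrict s)))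
  rw [he, hιF] at h1
  have h2 : τ (e (algebraMap χ.range F (χ.rangeRestrict s)))
      = ψF (algebraMap χ.range F (χ.rangeRestrict s)) := by
    show ψA (e.symm (e (algebraMap χ.range F (χ.rangeRestrict s)))) = _
    rw [AlgEquiv.symm_apply_apply]
    rfl
  rw [h2, hψF, hψ'] at h1
  exact h1

end Fermat.Agent.S35.H252

end
-- ===== PACK-END S35/H252/FieldAut.lean

-- ===== PACK-BEGIN Lib/Newform/H923/AL.lean
section


/-!
# Atkin–Lehner matrices for `Γ₀(q M)` and commutation with the Hecke operators `T_ℓ`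

`IsAL q M A` says that `A = [[q a, b], [q M c, q d]]` with integers `a b c d` and
`q a d - M b c = 1` (so `det A = q`).  For a function `f` invariant under `Γ₀(q M)`:

* `slash_AL_eq` : `f ∣[k] A` does not depend on the choice of `A`;
* `slash_AL_invariant` : `f ∣[k] A` is again invariant under `Γ₀(q M)`;
* `slash_AL_slash_AL` : in weight `2`, `(f ∣[2] A) ∣[2] A = f`;
* `heckeT_slash_AL` : `T_ℓ (f ∣[k] A) = (T_ℓ f) ∣[k] A` for primes `ℓ ∤ q M`;
* `exists_isAL` : such matrices exist when `q` and `M` are coprime.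
-/

set_option autoImplicit false

noncomputable section

namespace Fermat.Agent.Lib.Newform.H923

open Matrix UpperHalfPlane ModularForm
open scoped MatrixGroups ModularForm OnePoint

/-- Invariance of a function on the upper half plane under `Γ₀(N)` in weight `k`
(the shape of hypothesis used by the Prelude). -/
def InvUnder (N : ℕ) (k : ℤ) (f : ℍ → ℂ) : Prop :=
  ∀ γ ∈ (CongruenceSubgroup.Gamma0 N : Subgroup (GL (Fin 2) ℝ)), f ∣[k] γ = f

theorem InvUnder.slash_mapGL {N : ℕ} {k : ℤ} {f : ℍ → ℂ} (hf : InvUnder N k f)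
    {g : SL(2, ℤ)} (hg : g ∈ CongruenceSubgroup.Gamma0 N) :
    f ∣[k] (Matrix.SpecialLinearGroup.mapGL ℝ g) = f :=
  hf _ (Subgroup.mem_map_of_mem _ hg)

theorem invUnder_of_slashInvariantFormClass {N : ℕ} {k : ℤ} {F : Type*} [FunLike F ℍ ℂ]
    [SlashInvariantFormClass F (CongruenceSubgroup.Gamma0 N : Subgroup (GL (Fin 2) ℝ)) k]
    (f : F) : InvUnder N k (f : ℍ → ℂ) :=
  fun γ hγ => SlashInvariantFormClass.slash_action_eq f γ hγ

/-- `IsAL q M A`: `A` is an Atkin–Lehner matrix at `q` for the level `q * M`. -/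
def IsAL (q M : ℕ) (A : GL (Fin 2) ℝ) : Prop :=
  ∃ a b c d : ℤ, IsInt A (q * a) b (q * M * c) (q * d) ∧ q * a * d - M * b * c = 1

/-- An integral matrix of determinant `q` whose entries satisfy the Atkin–Lehner divisibilities
is an Atkin–Lehner matrix. -/
theorem isAL_of_dvd {q M : ℕ} (hq : q ≠ 0) {A : GL (Fin 2) ℝ} {a b c d : ℤ}
    (hA : IsInt A a b c d) (hdet : a * d - b * c = q) (ha : (q : ℤ) ∣ a)
    (hc : ((q * M : ℕ) : ℤ) ∣ c) (hd : (q : ℤ) ∣ d) : IsAL q M A := by
  obtain ⟨a', rfl⟩ := ha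
  obtain ⟨c', rfl⟩ := hc
  obtain ⟨d', rfl⟩ := hd
  refine ⟨a', b, c', d', ?_, ?_⟩
  · simpa [IsInt] using hA
  · have hq' : (q : ℤ) ≠ 0 := by exact_mod_cast hq
    apply mul_left_cancel₀ hq'
    push_cast at hdet
    linear_combination hdet

/-- Two Atkin–Lehner matrices differ by an element of `Γ₀(q M)` on the left. -/
theorem IsAL.exists_eq_mul {q M : ℕ} {A A' : GL (Fin 2) ℝ} (hA : IsAL q M A)
    (hA' : IsAL q M A') :
    ∃ g ∈ CongruenceSubgroup.Gamma0 (q * M), A' = Matrix.SpecialLinearGroup.mapGL ℝ g * A := by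
  obtain ⟨a, b, c, d, hInt, h⟩ := hA
  obtain ⟨a', b', c', d', hInt', h'⟩ := hA'
  let g : SL(2, ℤ) := ⟨!![q * a' * d - M * b' * c, a * b' - a' * b;
      q * M * (c' * d - c * d'), q * a * d' - M * b * c'], by
    rw [Matrix.det_fin_two_of]
    linear_combination (q * a * d - M * b * c) * h' + h⟩
  have hg00 : g 0 0 = q * a' * d - M * b' * c := rfl
  have hg01 : g 0 1 = a * b' - a' * b := rfl
  have hg10 : g 1 0 = q * M * (c' * d - c * d') := rfl
  have hg11 : g 1 1 = q * a * d' - M * b * c' := rfl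
  refine ⟨g, ?_, ?_⟩
  · rw [CongruenceSubgroup.Gamma0_mem, hg10]
    push_cast
    have : ((q : ZMod (q * M)) * (M : ZMod (q * M))) = 0 := by
      rw [← Nat.cast_mul]
      exact ZMod.natCast_self _
    rw [this, zero_mul]
  · refine hInt'.ext ((isInt_mapGL g).mul hInt) ?_ ?_ ?_ ?_
    · rw [hg00, hg01]
      linear_combination (-(q * a' : ℤ)) * h
    · rw [hg00, hg01]
      linear_combination (-(b' : ℤ)) * h
    · rw [hg10, hg11]
      linear_combination (-(q * M * c' : ℤ)) * h
    · rw [hg10, hg11]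
      linear_combination (-(q * d' : ℤ)) * h

/-- The slash by an Atkin–Lehner matrix does not depend on the matrix. -/
theorem slash_AL_eq {q M : ℕ} {k : ℤ} {f : ℍ → ℂ} (hf : InvUnder (q * M) k f)
    {A A' : GL (Fin 2) ℝ} (hA : IsAL q M A) (hA' : IsAL q M A') :
    f ∣[k] A' = f ∣[k] A := by
  obtain ⟨g, hg, rfl⟩ := hA.exists_eq_mul hA'
  rw [SlashAction.slash_mul, hf.slash_mapGL hg]

/-- An Atkin–Lehner matrix times an element of `Γ₀(q M)` is an Atkin–Lehner matrix. -/
theorem IsAL.mul_mapGL {q M : ℕ} {A : GL (Fin 2) ℝ} (hA : IsAL q M A) {g : SL(2, ℤ)}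
    (hg : g ∈ CongruenceSubgroup.Gamma0 (q * M)) :
    IsAL q M (A * Matrix.SpecialLinearGroup.mapGL ℝ g) := by
  obtain ⟨a, b, c, d, hInt, h⟩ := hA
  obtain ⟨t, ht⟩ : ((q * M : ℕ) : ℤ) ∣ g 1 0 :=
    (ZMod.intCast_zmod_eq_zero_iff_dvd _ _).mp (CongruenceSubgroup.Gamma0_mem.mp hg)
  push_cast at ht
  have hdet : g 0 0 * g 1 1 - g 0 1 * g 1 0 = 1 := by
    have := g.det_coe
    rwa [Matrix.det_fin_two] at this
  refine ⟨a * g 0 0 + b * M * t, q * a * g 0 1 + b * g 1 1, c * g 0 0 + q * d * t,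
    M * c * g 0 1 + d * g 1 1, ?_, ?_⟩
  · have := hInt.mul (isInt_mapGL g)
    rw [ht] at this
    unfold IsInt at this ⊢
    rw [this]
    ext i j
    fin_cases i <;> fin_cases j <;> simp <;> ring
  · rw [ht] at hdet
    linear_combination (g 0 0 * g 1 1 - g 0 1 * (q * M * t)) * h + hdet

/-- The slash by an Atkin–Lehner matrix preserves `Γ₀(q M)`-invariance. -/
theorem slash_AL_invariant {q M : ℕ} {k : ℤ} {f : ℍ → ℂ} (hf : InvUnder (q * M) k f)
    {A : GL (Fin 2) ℝ} (hA : IsAL q M A) : InvUnder (q * M) k (f ∣[k] A) := by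
  rintro _ ⟨g, hg, rfl⟩
  rw [← SlashAction.slash_mul]
  exact slash_AL_eq hf hA (hA.mul_mapGL hg)

/-- Existence of Atkin–Lehner matrices. -/
theorem exists_isAL {q M : ℕ} (hq : q ≠ 0) (hqM : Nat.Coprime q M) : ∃ A, IsAL q M A := by
  have hcop : IsCoprime (q : ℤ) (M : ℤ) := Nat.isCoprime_iff_coprime.mpr hqM
  obtain ⟨u, v, huv⟩ := hcop
  have hq' : (q : ℤ) ≠ 0 := by exact_mod_cast hq
  have hdet : (q * u : ℤ) * (q * 1) - 1 * (q * M * (-v)) ≠ 0 := by
    have : (q * u : ℤ) * (q * 1) - 1 * (q * M * (-v)) = q := by linear_combination (q : ℤ) * huv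
    rw [this]
    exact hq'
  exact ⟨intGL (q * u) 1 (q * M * (-v)) (q * 1) hdet, u, 1, -v, 1, isInt_intGL _ _ _ _ _,
    by linear_combination huv⟩

/-- Scalar matrices act trivially in weight `2`. -/
theorem slash_two_scalar (u : ℝˣ) (f : ℍ → ℂ) :
    f ∣[(2 : ℤ)] (Matrix.GeneralLinearGroup.scalar (Fin 2) u) = f := by
  have hu : (u : ℝ) ≠ 0 := u.ne_zero
  have hdet : ((Matrix.GeneralLinearGroup.scalar (Fin 2) u).det : ℝ) = (u : ℝ) * u := by
    rw [Matrix.GeneralLinearGroup.val_det_apply, Matrix.GeneralLinearGroup.coe_scalar,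
      Matrix.det_fin_two]
    simp
  have hdetpos : 0 < ((Matrix.GeneralLinearGroup.scalar (Fin 2) u).det : ℝ) := by
    rw [hdet]
    exact mul_self_pos.mpr hu
  ext τ
  rw [ModularForm.slash_apply, UpperHalfPlane.σ, if_pos hdetpos, hdet]
  simp only [ContinuousAlgEquiv.refl_apply]
  have h1 : Matrix.GeneralLinearGroup.scalar (Fin 2) u • τ = τ := by
    simp
  rw [h1, UpperHalfPlane.denom_scalar]
  have hu' : ((u : ℝ) : ℂ) ≠ 0 := by exact_mod_cast hu
  rw [abs_mul_self]
  push_cast
  norm_num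
  field_simp

/-- The square of an Atkin–Lehner matrix is `q` times an element of `Γ₀(q M)`. -/
theorem IsAL.exists_sq {q M : ℕ} (hq : q ≠ 0) {A : GL (Fin 2) ℝ} (hA : IsAL q M A) :
    ∃ g ∈ CongruenceSubgroup.Gamma0 (q * M),
      A * A = Matrix.SpecialLinearGroup.mapGL ℝ g *
        Matrix.GeneralLinearGroup.scalar (Fin 2) (Units.mk0 (q : ℝ) (by exact_mod_cast hq)) := by
  obtain ⟨a, b, c, d, hInt, h⟩ := hA
  let g : SL(2, ℤ) := ⟨!![q * a * a + b * M * c, b * (a + d);
      q * M * (c * (a + d)), M * b * c + q * d * d], by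
    rw [Matrix.det_fin_two_of]
    linear_combination (q * a * d - M * b * c + 1) * h⟩
  have hg00 : g 0 0 = q * a * a + b * M * c := rfl
  have hg01 : g 0 1 = b * (a + d) := rfl
  have hg10 : g 1 0 = q * M * (c * (a + d)) := rfl
  have hg11 : g 1 1 = M * b * c + q * d * d := rfl
  have hs : IsInt (Matrix.GeneralLinearGroup.scalar (Fin 2)
      (Units.mk0 (q : ℝ) (by exact_mod_cast hq))) q 0 0 q := by
    unfold IsInt
    rw [Matrix.GeneralLinearGroup.coe_scalar]
    ext i j
    fin_cases i <;> fin_cases j <;> simp [Matrix.natCast_apply]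
  refine ⟨g, ?_, ?_⟩
  · rw [CongruenceSubgroup.Gamma0_mem, hg10]
    push_cast
    have : ((q : ZMod (q * M)) * (M : ZMod (q * M))) = 0 := by
      rw [← Nat.cast_mul]
      exact ZMod.natCast_self _
    rw [this, zero_mul]
  · refine (hInt.mul hInt).ext ((isInt_mapGL g).mul hs) ?_ ?_ ?_ ?_
    · rw [hg00, hg01]; ring
    · rw [hg00, hg01]; ring
    · rw [hg10, hg11]; ring
    · rw [hg10, hg11]; ring

/-- In weight `2`, the Atkin–Lehner operator is an involution. -/
theorem slash_AL_slash_AL {q M : ℕ} (hq : q ≠ 0) {f : ℍ → ℂ} (hf : InvUnder (q * M) 2 f)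
    {A : GL (Fin 2) ℝ} (hA : IsAL q M A) : (f ∣[(2 : ℤ)] A) ∣[(2 : ℤ)] A = f := by
  obtain ⟨g, hg, hgA⟩ := hA.exists_sq hq
  rw [← SlashAction.slash_mul, hgA, SlashAction.slash_mul, hf.slash_mapGL hg, slash_two_scalar]

/-- The Hecke operator `T_ℓ`, `ℓ ∤ q M`, commutes with the Atkin–Lehner operator at `q`. -/
theorem heckeT_slash_AL (k : ℤ) {q M ℓ : ℕ} (hq : q ≠ 0) (hℓ : ℓ.Prime) (hℓN : ¬ ℓ ∣ q * M)
    {f : ℍ → ℂ} (hf : InvUnder (q * M) k f) {A : GL (Fin 2) ℝ} (hA : IsAL q M A) :
    heckeT k ℓ f ∣[k] A = heckeT k ℓ (f ∣[k] A) := by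
  have : Fact ℓ.Prime := ⟨hℓ⟩
  have : NeZero ℓ := ⟨hℓ.ne_zero⟩
  obtain ⟨a, b, c, d, hInt, h⟩ := id hA
  have hdetA : (q * a : ℤ) * (q * d) - b * (q * M * c) = q := by linear_combination (q : ℤ) * h
  have hℓq : ¬ ℓ ∣ q := fun hd => hℓN (Dvd.dvd.mul_right hd M)
  have hdet : ¬ (ℓ : ℤ) ∣ (q * a : ℤ) * (q * d) - b * (q * M * c) := by
    rw [hdetA]
    exact fun hd => hℓq (Int.natCast_dvd_natCast.mp hd)
  have hcopq : IsCoprime (q : ℤ) (ℓ : ℤ) :=
    Nat.isCoprime_iff_coprime.mpr ((Nat.Prime.coprime_iff_not_dvd hℓ).mpr hℓq).symm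
  have hcopN : IsCoprime ((q * M : ℕ) : ℤ) (ℓ : ℤ) :=
    Nat.isCoprime_iff_coprime.mpr ((Nat.Prime.coprime_iff_not_dvd hℓ).mpr hℓN).symm
  rw [heckeT_eq_sum_hRep, heckeT_eq_sum_hRep, SlashAction.sum_slash]
  calc ∑ x : OnePoint (ZMod ℓ), (f ∣[k] hRep ℓ x) ∣[k] A
      = ∑ x : OnePoint (ZMod ℓ),
          (f ∣[k] A) ∣[k] hRep ℓ (redGL ℓ (q * a) b (q * M * c) (q * d) hdet • x) := by
        refine Finset.sum_congr rfl fun x _ ↦ ?_
        obtain ⟨A', a', b', c', d', hA', hdet', h1, h2, h3, hmul⟩ := exists_hRep_mul hInt hdet x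
        have hAL' : IsAL q M A' := by
          refine isAL_of_dvd hq hA' (hdet'.trans hdetA) ?_ ?_ ?_
          · exact h2 q hcopq (Dvd.intro _ rfl) (by rw [mul_assoc]; exact Dvd.intro _ rfl)
          · exact h1 _ hcopN (by push_cast; exact Dvd.intro _ rfl)
          · exact h3 q hcopq (Dvd.intro _ rfl) (by rw [mul_assoc]; exact Dvd.intro _ rfl)
        rw [← SlashAction.slash_mul, hmul, SlashAction.slash_mul, slash_AL_eq hf hA hAL']
    _ = ∑ x : OnePoint (ZMod ℓ), (f ∣[k] A) ∣[k] hRep ℓ x :=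
        Equiv.sum_comp (MulAction.toPerm (redGL ℓ (q * a) b (q * M * c) (q * d) hdet))
          (fun x ↦ (f ∣[k] A) ∣[k] hRep ℓ x)

end Fermat.Agent.Lib.Newform.H923

end
end
-- ===== PACK-END Lib/Newform/H923/AL.lean

-- ===== PACK-BEGIN Lib/Newform/H16/XFricke.lean
section



/-!
# NEWFORM block X (helper16): the Fricke leaves `X1`, `X1b`, `X1c`

The Fricke matrix `W_N = [[0, -1], [N, 0]]` is the Atkin–Lehner matrix at `q = N` for the level
`N * 1`, so all three leaves follow from the Atkin–Lehner calculus of `H923/AL.lean`: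

* `frickeOp     : H958.X.FrickeOp`     (`f ∣[2] W_N` is a cusp form on `Γ₀(N)`),
* `frickeInvol  : H958.X.FrickeInvol`  (`W_N² = -N`, scalars act trivially in weight `2`),
* `frickeHecke  : H958.X.FrickeHecke`  (`T_ℓ` commutes with `W_N`, `ℓ ∤ N`).
-/

set_option autoImplicit false

noncomputable section

namespace Fermat.Agent.Lib.Newform.H16

open Matrix UpperHalfPlane ModularForm CongruenceSubgroup ConjAct
open scoped MatrixGroups ModularForm Pointwise
open Fermat.Agent.Lib.Newform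

theorem isInt_frickeMatrix (N : ℕ) [NeZero N] :
    H923.IsInt (H958.X.frickeMatrix N) 0 (-1) N 0 := by
  unfold H923.IsInt H958.X.frickeMatrix
  simp

/-- The Fricke matrix is the Atkin–Lehner matrix at `q = N` for the level `N * 1`. -/
theorem isAL_frickeMatrix (N : ℕ) [NeZero N] : H923.IsAL N 1 (H958.X.frickeMatrix N) := by
  refine ⟨0, -1, 1, 0, ?_, by norm_num⟩
  have h := isInt_frickeMatrix N
  unfold H923.IsInt at h ⊢
  rw [h]
  simp

theorem invUnder_mul_one {N : ℕ} {k : ℤ} {f : ℍ → ℂ} (hf : H923.InvUnder N k f) :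
    H923.InvUnder (N * 1) k f := by
  rwa [Nat.mul_one]

theorem invUnder_of_mul_one {N : ℕ} {k : ℤ} {f : ℍ → ℂ} (hf : H923.InvUnder (N * 1) k f) :
    H923.InvUnder N k f := by
  rwa [Nat.mul_one] at hf

/-- `Γ₀(N) ≤ W⁻¹ Γ₀(N) W`. -/
theorem Gamma0_le_conj_frickeMatrix (N : ℕ) [NeZero N] :
    (Gamma0 N : Subgroup (GL (Fin 2) ℝ)) ≤
      toConjAct (H958.X.frickeMatrix N)⁻¹ • (Gamma0 N : Subgroup (GL (Fin 2) ℝ)) := by
  rintro _ ⟨g, hg, rfl⟩
  have hg' : g ∈ Gamma0 (N * 1) := by rwa [Nat.mul_one]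
  obtain ⟨g', hg'mem, hmul⟩ :=
    (isAL_frickeMatrix N).exists_eq_mul ((isAL_frickeMatrix N).mul_mapGL hg')
  rw [Subgroup.mem_pointwise_smul_iff_inv_smul_mem, ← toConjAct_inv, inv_inv, toConjAct_smul,
    hmul, mul_inv_cancel_right]
  refine Subgroup.mem_map_of_mem _ ?_
  rwa [Nat.mul_one] at hg'mem

/-- The Fricke operator on cusp forms of weight `2` and level `Γ₀(N)`. -/
def frickeCusp {N : ℕ} [NeZero N] (f : CuspForm (Gamma0 N) 2) : CuspForm (Gamma0 N) 2 where
  toFun := (⇑f : ℍ → ℂ) ∣[(2 : ℤ)] H958.X.frickeMatrix N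
  slash_action_eq' γ hγ :=
    (CuspForm.translate f (H958.X.frickeMatrix N)).slash_action_eq' γ
      (Gamma0_le_conj_frickeMatrix N hγ)
  holo' := (CuspForm.translate f (H958.X.frickeMatrix N)).holo'
  zero_at_cusps' hc :=
    (CuspForm.translate f (H958.X.frickeMatrix N)).zero_at_cusps'
      (hc.mono (Gamma0_le_conj_frickeMatrix N))

@[simp] theorem coe_frickeCusp {N : ℕ} [NeZero N] (f : CuspForm (Gamma0 N) 2) :
    (⇑(frickeCusp f) : ℍ → ℂ) = (⇑f : ℍ → ℂ) ∣[(2 : ℤ)] H958.X.frickeMatrix N := rfl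

/-- **X1**: the Fricke involution preserves `S₂(Γ₀(N))`. -/
theorem frickeOp : H958.X.FrickeOp := fun _ _ f => ⟨frickeCusp f, rfl⟩

/-- `W_N * W_N` is the scalar matrix `-N`. -/
theorem frickeMatrix_mul_self (N : ℕ) [NeZero N] :
    H958.X.frickeMatrix N * H958.X.frickeMatrix N =
      Matrix.GeneralLinearGroup.scalar (Fin 2)
        (Units.mk0 (-(N : ℝ)) (neg_ne_zero.mpr (Nat.cast_ne_zero.mpr (NeZero.ne N)))) := by
  apply Units.ext
  rw [Units.val_mul, Matrix.GeneralLinearGroup.coe_scalar, isInt_frickeMatrix N]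
  ext i j
  fin_cases i <;> fin_cases j <;> simp [Matrix.mul_apply, Fin.sum_univ_two]

/-- **X1b**: the Fricke operator is an involution in weight `2` (on all functions). -/
theorem frickeInvol : H958.X.FrickeInvol := by
  intro N _ f
  rw [← SlashAction.slash_mul, frickeMatrix_mul_self, H923.slash_two_scalar]

/-- **X1c**: the Fricke operator commutes with `T_ℓ`, `ℓ ∤ N`. -/
theorem frickeHecke : H958.X.FrickeHecke := by
  intro N _ ℓ hℓ hℓN f
  have hf : H923.InvUnder (N * 1) 2 (⇑f : ℍ → ℂ) :=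
    invUnder_mul_one (H923.invUnder_of_slashInvariantFormClass f)
  exact (H923.heckeT_slash_AL 2 (NeZero.ne N) hℓ (by rwa [Nat.mul_one]) hf
    (isAL_frickeMatrix N)).symm

end Fermat.Agent.Lib.Newform.H16

end
end
-- ===== PACK-END Lib/Newform/H16/XFricke.lean

-- ===== PACK-BEGIN Lib/Newform/H923/ALTrace.lean
section


/-!
# The trace from `Γ₀(q M)` to `Γ₀(M)` of an Atkin–Lehner translate

For `f` invariant under `Γ₀(q M)` (`q` prime, `q ∤ M`) and an Atkin–Lehner matrix `A` at `q`,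
the function `f ∣[k] A + heckeU k q f` is invariant under `Γ₀(M)`
(it is the trace of `f ∣[k] A`, up to normalisation).
-/

set_option autoImplicit false

noncomputable section

namespace Fermat.Agent.Lib.Newform.H923

open Matrix UpperHalfPlane ModularForm
open scoped MatrixGroups ModularForm OnePoint

theorem IsInt.unique {A : GL (Fin 2) ℝ} {a b c d a' b' c' d' : ℤ} (hA : IsInt A a b c d)
    (hA' : IsInt A a' b' c' d') : a = a' ∧ b = b' ∧ c = c' ∧ d = d' := by
  have h : !![(a : ℝ), (b : ℝ); (c : ℝ), (d : ℝ)] = !![(a' : ℝ), (b' : ℝ); (c' : ℝ), (d' : ℝ)] :=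
    hA.symm.trans hA'
  have h00 := congrFun (congrFun h 0) 0
  have h01 := congrFun (congrFun h 0) 1
  have h10 := congrFun (congrFun h 1) 0
  have h11 := congrFun (congrFun h 1) 1
  simp at h00 h01 h10 h11
  exact ⟨h00, h01, h10, h11⟩

/-- An integral matrix of determinant one with lower left entry divisible by `N` comes from
`Γ₀(N)`. -/
theorem IsInt.exists_mapGL {A : GL (Fin 2) ℝ} {a b c d : ℤ} (hA : IsInt A a b c d)
    (hdet : a * d - b * c = 1) {N : ℕ} (hc : (N : ℤ) ∣ c) :
    ∃ g ∈ CongruenceSubgroup.Gamma0 N, A = Matrix.SpecialLinearGroup.mapGL ℝ g := by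
  let g : SL(2, ℤ) := ⟨!![a, b; c, d], by rw [Matrix.det_fin_two_of]; exact hdet⟩
  refine ⟨g, ?_, hA.ext (isInt_mapGL g) rfl rfl rfl rfl⟩
  rw [CongruenceSubgroup.Gamma0_mem]
  exact (ZMod.intCast_zmod_eq_zero_iff_dvd _ _).mpr hc

theorem InvUnder.slash_isInt {N : ℕ} {k : ℤ} {f : ℍ → ℂ} (hf : InvUnder N k f)
    {A : GL (Fin 2) ℝ} {a b c d : ℤ} (hA : IsInt A a b c d)
    (hdet : a * d - b * c = 1) (hc : (N : ℤ) ∣ c) : f ∣[k] A = f := by
  obtain ⟨g, hg, rfl⟩ := hA.exists_mapGL hdet hc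
  exact hf.slash_mapGL hg

/-- The representatives of `Γ₀(q M) \ Γ₀(M)` twisted by the Atkin–Lehner matrix `A`. -/
def alRep (q : ℕ) (A : GL (Fin 2) ℝ) (x : OnePoint (ZMod q)) : GL (Fin 2) ℝ :=
  x.elim A (fun j ↦ heckeMatrix q j.val)

@[simp] theorem alRep_infty (q : ℕ) (A : GL (Fin 2) ℝ) : alRep q A ∞ = A := rfl

@[simp] theorem alRep_coe (q : ℕ) (A : GL (Fin 2) ℝ) (j : ZMod q) :
    alRep q A j = heckeMatrix q j.val := rfl

theorem slash_add_heckeU_eq_sum {q : ℕ} [NeZero q] (k : ℤ) (A : GL (Fin 2) ℝ) (f : ℍ → ℂ) :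
    f ∣[k] A + heckeU k q f = ∑ x : OnePoint (ZMod q), f ∣[k] alRep q A x := by
  rw [heckeU_eq_sum_zmod']
  exact (Fintype.sum_option (fun x : OnePoint (ZMod q) ↦ f ∣[k] alRep q A x)).symm

/-- Key step: for `g ∈ Γ₀(M)`, right multiplication by `g` permutes the classes of the
representatives `alRep q A x` modulo `Γ₀(q M)`. -/
theorem slash_alRep_mapGL (k : ℤ) {q M : ℕ} (hq : q.Prime) {f : ℍ → ℂ}
    (hf : InvUnder (q * M) k f) {A : GL (Fin 2) ℝ} (hA : IsAL q M A)
    {g : SL(2, ℤ)} (hg : g ∈ CongruenceSubgroup.Gamma0 M)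
    (hdet : ¬ ((q : ℕ) : ℤ) ∣ g 0 0 * g 1 1 - g 0 1 * g 1 0) (x : OnePoint (ZMod q)) :
    haveI : Fact q.Prime := ⟨hq⟩
    (f ∣[k] alRep q A x) ∣[k] (Matrix.SpecialLinearGroup.mapGL ℝ g) =
      f ∣[k] alRep q A (redGL q (g 0 0) (g 0 1) (g 1 0) (g 1 1) hdet • x) := by
  haveI : Fact q.Prime := ⟨hq⟩
  have hq0 : q ≠ 0 := hq.ne_zero
  have hq0' : (q : ℤ) ≠ 0 := by exact_mod_cast hq0
  obtain ⟨a, b, c, d, hInt, h⟩ := id hA
  have hqM : Nat.Coprime q M := by
    have : IsCoprime (q : ℤ) (M : ℤ) := ⟨a * d, -(b * c), by linear_combination h⟩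
    exact Nat.isCoprime_iff_coprime.mp this
  have hcopM : IsCoprime (M : ℤ) (q : ℤ) := (Nat.isCoprime_iff_coprime.mpr hqM).symm
  have hgM : (M : ℤ) ∣ g 1 0 :=
    (ZMod.intCast_zmod_eq_zero_iff_dvd _ _).mp (CongruenceSubgroup.Gamma0_mem.mp hg)
  have hdetg : g 0 0 * g 1 1 - g 0 1 * g 1 0 = 1 := by
    have := g.det_coe
    rwa [Matrix.det_fin_two] at this
  -- the `SL₂(ℤ)`-part of `A`
  have hγ₁det : a * (q * d) - b * (M * c) ≠ 0 := by
    have : a * (q * d) - b * (M * c) = 1 := by linear_combination h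
    rw [this]; exact one_ne_zero
  set γ₁ : GL (Fin 2) ℝ := intGL a b (M * c) (q * d) hγ₁det with hγ₁
  have hγ₁Int : IsInt γ₁ a b (M * c) (q * d) := isInt_intGL _ _ _ _ _
  have hAγ₁ : A = γ₁ * heckeDiagMatrix q := by
    refine hInt.ext (hγ₁Int.mul (isInt_heckeDiagMatrix hq0)) ?_ ?_ ?_ ?_ <;> ring
  obtain ⟨A', a', b', c', d', hA', hdet', h1, -, -, hmul⟩ :=
    exists_hRep_mul (isInt_mapGL g) hdet x
  rw [hdetg] at hdet'
  have hMc' : (M : ℤ) ∣ c' := h1 M hcopM hgM
  obtain ⟨t, ht⟩ := hMc'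
  rw [← SlashAction.slash_mul]
  induction x using OnePoint.rec with
  | infty =>
    rw [alRep_infty]
    rw [hRep_infty] at hmul
    rcases hσ : (redGL q (g 0 0) (g 0 1) (g 1 0) (g 1 1) hdet • (∞ : OnePoint (ZMod q))) with _ | j'
    · -- `∞ ↦ ∞`
      rw [hσ] at hmul
      change heckeDiagMatrix q * _ = A' * heckeDiagMatrix q at hmul
      change f ∣[k] (A * _) = f ∣[k] A
      obtain ⟨-, h01, -, -⟩ := (((isInt_heckeDiagMatrix hq0).mul (isInt_mapGL g)).unique
        (hmul ▸ hA'.mul (isInt_heckeDiagMatrix hq0)))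
      have hb' : b' = q * g 0 1 := by linear_combination -h01
      rw [hAγ₁, mul_assoc, hmul, ← mul_assoc]
      have hInt2 := (hγ₁Int.mul hA').mul (isInt_heckeDiagMatrix hq0)
      refine slash_AL_eq hf (hAγ₁ ▸ hA) (isAL_of_dvd hq0 hInt2 ?_ ?_ ?_ ?_)
      · linear_combination (q : ℤ) * (a' * d' - b' * c') * h + (q : ℤ) * hdet'
      · exact ⟨a * a' + b * c', by ring⟩
      · refine ⟨c * a' + q * d * t, ?_⟩
        rw [ht]; push_cast; ring
      · refine ⟨M * c * g 0 1 + d * d', ?_⟩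
        rw [hb']; ring
    · -- `∞ ↦ j'`
      rw [hσ] at hmul
      change heckeDiagMatrix q * _ = A' * heckeMatrix q j'.val at hmul
      change f ∣[k] (A * _) = f ∣[k] heckeMatrix q j'.val
      obtain ⟨h00, -, -, -⟩ := (((isInt_heckeDiagMatrix hq0).mul (isInt_mapGL g)).unique
        (hmul ▸ hA'.mul (isInt_heckeMatrix hq0 j'.val)))
      have ha' : a' = q * g 0 0 := by linear_combination -h00
      rw [hAγ₁, mul_assoc, hmul, ← mul_assoc, SlashAction.slash_mul]
      congr 1
      refine hf.slash_isInt (hγ₁Int.mul hA') ?_ ?_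
      · linear_combination (a' * d' - b' * c') * h + hdet'
      · refine ⟨c * g 0 0 + d * t, ?_⟩
        rw [ha', ht]; push_cast; ring
  | coe j =>
    rw [alRep_coe]
    rw [hRep_coe] at hmul
    rcases hσ : (redGL q (g 0 0) (g 0 1) (g 1 0) (g 1 1) hdet • (j : OnePoint (ZMod q)))
      with _ | j'
    · -- `j ↦ ∞`
      rw [hσ] at hmul
      change heckeMatrix q j.val * _ = A' * heckeDiagMatrix q at hmul
      change f ∣[k] (heckeMatrix q j.val * _) = f ∣[k] A
      obtain ⟨-, -, -, h11⟩ := (((isInt_heckeMatrix hq0 j.val).mul (isInt_mapGL g)).unique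
        (hmul ▸ hA'.mul (isInt_heckeDiagMatrix hq0)))
      have hd' : d' = q * g 1 1 := by linear_combination -h11
      rw [hmul]
      have hInt2 := hA'.mul (isInt_heckeDiagMatrix hq0)
      refine slash_AL_eq hf hA (isAL_of_dvd hq0 hInt2 ?_ ?_ ?_ ?_)
      · linear_combination (q : ℤ) * hdet'
      · exact ⟨a', by ring⟩
      · refine ⟨t, ?_⟩
        rw [ht]; push_cast; ring
      · refine ⟨g 1 1, ?_⟩
        rw [hd']; ring
    · -- `j ↦ j'`
      rw [hσ] at hmul
      change heckeMatrix q j.val * _ = A' * heckeMatrix q j'.val at hmul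
      change f ∣[k] (heckeMatrix q j.val * _) = f ∣[k] heckeMatrix q j'.val
      obtain ⟨-, -, h10, -⟩ := (((isInt_heckeMatrix hq0 j.val).mul (isInt_mapGL g)).unique
        (hmul ▸ hA'.mul (isInt_heckeMatrix hq0 j'.val)))
      have hc' : c' = q * g 1 0 := by linear_combination -h10
      rw [hmul, SlashAction.slash_mul]
      congr 1
      refine hf.slash_isInt hA' hdet' ?_
      obtain ⟨s, hs⟩ := hgM
      refine ⟨s, ?_⟩
      rw [hc', hs]; push_cast; ring

/-- **Trace formula, invariance part.** For `f` invariant under `Γ₀(q M)` and an Atkin–Lehner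
matrix `A` at the prime `q`, the function `f ∣[k] A + U_q f` is invariant under `Γ₀(M)`. -/
theorem invUnder_slash_AL_add_heckeU (k : ℤ) {q M : ℕ} (hq : q.Prime) {f : ℍ → ℂ}
    (hf : InvUnder (q * M) k f) {A : GL (Fin 2) ℝ} (hA : IsAL q M A) :
    InvUnder M k (f ∣[k] A + heckeU k q f) := by
  haveI : Fact q.Prime := ⟨hq⟩
  haveI : NeZero q := ⟨hq.ne_zero⟩
  rintro _ ⟨g, hg, rfl⟩
  have hdetg : g 0 0 * g 1 1 - g 0 1 * g 1 0 = 1 := by
    have := g.det_coe
    rwa [Matrix.det_fin_two] at this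
  have hdet : ¬ ((q : ℕ) : ℤ) ∣ g 0 0 * g 1 1 - g 0 1 * g 1 0 := by
    rw [hdetg]
    intro hd
    have := Int.eq_one_of_dvd_one (by positivity) hd
    exact hq.one_lt.ne' (by exact_mod_cast this)
  rw [slash_add_heckeU_eq_sum, SlashAction.sum_slash]
  calc ∑ x : OnePoint (ZMod q), (f ∣[k] alRep q A x) ∣[k] (Matrix.SpecialLinearGroup.mapGL ℝ g)
      = ∑ x : OnePoint (ZMod q),
          f ∣[k] alRep q A (redGL q (g 0 0) (g 0 1) (g 1 0) (g 1 1) hdet • x) :=
        Finset.sum_congr rfl fun x _ ↦ slash_alRep_mapGL k hq hf hA hg hdet x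
    _ = ∑ x : OnePoint (ZMod q), f ∣[k] alRep q A x :=
        Equiv.sum_comp (MulAction.toPerm (redGL q (g 0 0) (g 0 1) (g 1 0) (g 1 1) hdet))
          (fun x ↦ f ∣[k] alRep q A x)

end Fermat.Agent.Lib.Newform.H923

end
end
-- ===== PACK-END Lib/Newform/H923/ALTrace.lean

-- ===== PACK-BEGIN S30/H330/AdicDefs.lean
section
/-
S30 (p-adic Galois representation attached to a Hecke eigensystem) -- ADIC MODULE LAYER.
Interface definitions (sorry-free).  helper330.  Namespace `Fermat.Agent.S30.H330`.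

The layer turns
  * the frozen statement S37 (through "torsion relations" on `J₀(N)(ℚ̄)[p^∞]`),
  * a Kummer map on `ℚ/ℤ`-valued parabolic characters (p-adic form of S29 piece M4b),
  * an eigen parabolic character with values in `𝒪'` (characteristic-0 form of S29 piece M4a)
into a nonzero finite free `𝒪'`-module with adically continuous `G_ℚ`-action, unramified outside
`N p`, on which every Frobenius at `ℓ ∉ S` satisfies `σ² - χ(T_ℓ) σ + ℓ = 0` (`HasAdicFrobModule`).
The top glue of S30 (helper990) consumes `HasAdicFrobModule`.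
-/



set_option autoImplicit false

noncomputable section

namespace Fermat.Agent.S30.H330

open Fermat.Agent.S29 ModularCurve

/-- `ℚ/ℤ`, the value group of finite-order characters. -/
abbrev QZ : Type := AddCircle (1 : ℚ)

/-- OUTPUT of the adic module layer: a nonzero finite free `O`-module with an adically continuous
action of `G_ℚ`, unramified at all primes `ℓ ∤ S`, on which all Frobenii at the primes `ℓ` with
`good ℓ` satisfy `σ² - a ℓ • σ + ℓ = 0`. -/
def HasAdicFrobModule (O : Type) [CommRing O] [IsLocalRing O] (S : ℕ) (good : ℕ → Prop)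
    (a : ℕ → O) : Prop :=
  ∃ (M : Type) (_ : AddCommGroup M) (_ : Module O M) (_ : Module.Free O M) (_ : Module.Finite O M)
    (ρ : GQ →* Module.End O M),
    Nontrivial M ∧ GaloisActionIsAdicContinuous O ρ ∧
    (∀ ℓ : ℕ, ℓ.Prime → ¬ ℓ ∣ S → ∀ A : VQ, A.LiesOverPrime ℓ →
      ∀ σ ∈ A.inertiaSubgroupIn ℚ, ρ σ = 1) ∧
    (∀ ℓ : ℕ, ℓ.Prime → good ℓ → ∀ A : VQ, A.LiesOverPrime ℓ →
      ∀ σ : GQ, A.IsFrobeniusAt σ ℓ →
        ρ σ * ρ σ - a ℓ • ρ σ + (ℓ : O) • (1 : Module.End O M) = 0)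

/-- INPUT (K): the Kummer map on `ℚ/ℤ`-valued parabolic characters of `Γ₀(N)`:
additive, injective, onto the torsion of `J₀(N)(ℚ̄)`, Hecke-equivariant.
(`κ c = ` class of `div(h)`, `h` any nonzero meromorphic function on `ℍ ∪ cusps` with
`h(γ z) = exp(2πi c(γ)) h(z)`; S29 piece M4b is the restriction to `(1/p)ℤ/ℤ`.) -/
def KummerStatement (N : ℕ) [NeZero N] (p : ℕ) : Prop :=
  ∃ κ : (G0 N → QZ) → JZero N,
    (∀ c c', IsParHom c → IsParHom c' → κ (c + c') = κ c + κ c') ∧
    (∀ c, IsParHom c → κ c = 0 → c = 0) ∧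
    (∀ x : JZero N, (∃ n : ℕ, (p ^ n) • x = 0) → ∃ c, IsParHom c ∧ κ c = x) ∧
    (∀ ℓ : Nat.Primes, ¬ (ℓ : ℕ) ∣ N * p → ∀ c, IsParHom c →
      κ (heckeCoh N ℓ c) = heckeOperatorBar N ℓ (κ c))

/-- INPUT (P): the eigensystem `χ` occurs in the parabolic cohomology with coefficients in `O`. -/
def ParEigenStatement (N : ℕ) [NeZero N] (S : Finset ℕ) (O : Type) [CommRing O]
    (χ : CuspForm.heckeAlgebra N 2 (↑S : Set ℕ) →+* O) : Prop :=
  ∃ c : G0 N → O, IsParHom c ∧ c ≠ 0 ∧
    ∀ (ℓ : ℕ) (hℓ : ℓ.Prime) (hℓN : ¬ ℓ ∣ N) (hℓS : ℓ ∉ (↑S : Set ℕ)) (γ : G0 N),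
      heckeCoh N ℓ c γ = χ (CuspForm.heckeAlgebra.T hℓ hℓN hℓS) * c γ

/-- INPUT (T): the consequences of S37 on the `p`-power torsion of `J₀(N)(ℚ̄)`
(inertia acts trivially, Eichler–Shimura relation), for all primes `ℓ ∤ N p`. -/
def TorsionRelations (N : ℕ) [NeZero N] (p : ℕ) : Prop :=
  ∀ (ℓ : ℕ) (hℓ : ℓ.Prime), ¬ ℓ ∣ N * p → ∀ A : VQ, A.LiesOverPrime ℓ →
    (∀ σ ∈ A.inertiaSubgroupIn ℚ, ∀ x : JZero N, (∃ n : ℕ, (p ^ n) • x = 0) → σ • x = x) ∧
    (∀ σ : GQ, A.IsFrobeniusAt σ ℓ → ∀ x : JZero N, (∃ n : ℕ, (p ^ n) • x = 0) →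
      σ • σ • x - heckeOperatorBar N ⟨ℓ, hℓ⟩ (σ • x) + ℓ • x = 0)

/-- INPUT (Sm) = S29 piece M3. -/
def SmoothStatement (N : ℕ) [NeZero N] : Prop :=
  ∀ x : JZero N, ∃ L : IntermediateField ℚ (AlgebraicClosure ℚ), FiniteDimensional ℚ L ∧
    ∀ σ : GQ, (∀ y ∈ L, σ y = y) → σ • x = x

/-- INPUT (GH) = S29 piece M2. -/
def GaloisHeckeStatement (N : ℕ) [NeZero N] : Prop :=
  ∀ (σ : GQ) (ℓ : Nat.Primes) (x : JZero N),
    σ • heckeOperatorBar N ℓ x = heckeOperatorBar N ℓ (σ • x)

/-- The eigenvalue function attached to `χ`. -/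
def eigenvalue {N : ℕ} [NeZero N] {S : Finset ℕ} {O : Type} [CommRing O]
    (χ : CuspForm.heckeAlgebra N 2 (↑S : Set ℕ) →+* O) (ℓ : ℕ) : O :=
  open Classical in
  if h : ℓ.Prime ∧ ¬ ℓ ∣ N ∧ ℓ ∉ (↑S : Set ℕ) then χ (CuspForm.heckeAlgebra.T h.1 h.2.1 h.2.2) else 0

end Fermat.Agent.S30.H330

end
end
-- ===== PACK-END S30/H330/AdicDefs.lean

-- ===== PACK-BEGIN S24/D5/H108Growth.lean
section


/-!
# D5: growth adapters and uniqueness for the polynomial principle

Mathlib-only (plus `H108Poly`).  Namespace `Fermat.Agent.S24.H108`.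
-/

noncomputable section

open UpperHalfPlane ModularForm SlashInvariantForm SlashInvariantFormClass ModularFormClass
  CuspFormClass MatrixGroups OnePoint Filter EisensteinSeries Asymptotics

open scoped Topology Manifold Real

namespace Fermat.Agent.S24.H108

local notation "Δ" => ModularForm.discriminant

/-! ### Growth of `Δ` at `i∞` -/

lemma discriminant_isBigO_exp :
    (Δ : ℍ → ℂ) =O[atImInfty] fun τ : ℍ => Real.exp (-(2 * π * τ.im)) := by
  have h := CuspFormClass.exp_decay_atImInfty (h := 1) CuspForm.discriminant one_pos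
    one_mem_strictPeriods_SL
  refine h.congr_right fun τ => ?_
  congr 1
  ring

lemma discriminant_pow_isBigO_exp (m : ℕ) :
    (fun τ : ℍ => Δ τ ^ m) =O[atImInfty] fun τ : ℍ => Real.exp (-(2 * π * m * τ.im)) := by
  have h := discriminant_isBigO_exp.pow m
  refine h.congr_right fun τ => ?_
  rw [← Real.exp_nat_mul]
  congr 1
  ring

lemma norm_qParam_one (τ : ℍ) :
    ‖Complex.exp (2 * π * Complex.I * τ)‖ = Real.exp (-(2 * π * τ.im)) := by
  rw [Complex.norm_exp]
  congr 1
  simp [Complex.mul_re, Complex.mul_im]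

lemma discriminant_isBigO_qParam :
    (Δ : ℍ → ℂ) =O[atImInfty] fun τ : ℍ => Complex.exp (2 * π * Complex.I * τ) := by
  refine discriminant_isBigO_exp.trans (IsBigO.of_bound 1 (Eventually.of_forall fun τ => ?_))
  rw [norm_qParam_one, Real.norm_eq_abs, abs_of_pos (Real.exp_pos _), one_mul]

/-! ### Adapters -/

/-- Exponential growth of order `m` implies `f * Δ ^ m` bounded at `i∞`. -/
lemma isBoundedAtImInfty_mul_discriminant_pow_of_exp_growth {f : ℍ → ℂ} {m : ℕ}
    (hgr : ∃ C A : ℝ, ∀ τ : ℍ, A ≤ τ.im → ‖f τ‖ ≤ C * Real.exp (2 * π * m * τ.im)) :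
    IsBoundedAtImInfty (fun τ => f τ * Δ τ ^ m) := by
  obtain ⟨C, A, h⟩ := hgr
  have hf : f =O[atImInfty] fun τ : ℍ => Real.exp (2 * π * m * τ.im) := by
    refine IsBigO.of_bound C ?_
    have hA : ∀ᶠ τ : ℍ in atImInfty, A ≤ τ.im :=
      (Filter.eventually_ge_atTop A).comap UpperHalfPlane.im
    filter_upwards [hA] with τ hτ
    rw [Real.norm_eq_abs, abs_of_pos (Real.exp_pos _)]
    exact h τ hτ
  have hprod := hf.mul (discriminant_pow_isBigO_exp m)
  rw [IsBoundedAtImInfty, BoundedAtFilter]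
  refine hprod.congr_right fun τ => ?_
  rw [← Real.exp_add]
  simp

/-- `f * q ^ m` bounded at `i∞` implies `f * Δ ^ m` bounded at `i∞`. -/
lemma isBoundedAtImInfty_mul_discriminant_pow_of_qParam {f : ℍ → ℂ} {m : ℕ}
    (hbd : IsBoundedAtImInfty (fun τ : ℍ => f τ * Complex.exp (2 * π * Complex.I * τ) ^ m)) :
    IsBoundedAtImInfty (fun τ => f τ * Δ τ ^ m) := by
  rw [IsBoundedAtImInfty, BoundedAtFilter] at hbd ⊢
  exact ((isBigO_refl f atImInfty).mul (discriminant_isBigO_qParam.pow m)).trans hbd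

/-- **D5b.** An `SL(2,ℤ)`-invariant holomorphic function `f : ℍ → ℂ` with
`‖f τ‖ ≤ C * exp (2π m Im τ)` for `Im τ ≥ A` is a polynomial of degree `≤ m` in
`J = E₄³ / Δ`. -/
theorem exists_polynomial_of_invariant_of_exp_growth (f : ℍ → ℂ) (hf : MDiff f)
    (hinv : ∀ (γ : SL(2, ℤ)) (τ : ℍ), f (γ • τ) = f τ) (m : ℕ)
    (hgr : ∃ C A : ℝ, ∀ τ : ℍ, A ≤ τ.im → ‖f τ‖ ≤ C * Real.exp (2 * π * m * τ.im)) :
    ∃ P : Polynomial ℂ, P.natDegree ≤ m ∧ ∀ τ : ℍ, f τ = P.eval (E₄ τ ^ 3 / Δ τ) :=
  exists_polynomial_of_invariant f hf hinv m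
    (isBoundedAtImInfty_mul_discriminant_pow_of_exp_growth hgr)

/-- **D5b'.** Same with the hypothesis `f * q ^ m` bounded at `i∞`, `q = exp (2πiτ)`. -/
theorem exists_polynomial_of_invariant_of_qParam (f : ℍ → ℂ) (hf : MDiff f)
    (hinv : ∀ (γ : SL(2, ℤ)) (τ : ℍ), f (γ • τ) = f τ) (m : ℕ)
    (hbd : IsBoundedAtImInfty (fun τ : ℍ => f τ * Complex.exp (2 * π * Complex.I * τ) ^ m)) :
    ∃ P : Polynomial ℂ, P.natDegree ≤ m ∧ ∀ τ : ℍ, f τ = P.eval (E₄ τ ^ 3 / Δ τ) :=
  exists_polynomial_of_invariant f hf hinv m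
    (isBoundedAtImInfty_mul_discriminant_pow_of_qParam hbd)

end Fermat.Agent.S24.H108

end
end
-- ===== PACK-END S24/D5/H108Growth.lean

-- ===== PACK-BEGIN S37/H700/GaussBasic.lean
section




/-!
# S37 / piece GAUSS (helper700): basic lemmas

Elementary facts about `coeffMap`, polynomials in `j` and normalisation of finitely many
elements of the fraction field of a valuation ring.
-/

set_option autoImplicit false

noncomputable section

namespace Fermat.Agent.S37.H700

open ModularCurve HahnSeries Polynomial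

section CoeffMap

variable {R S : Type*} [CommRing R] [CommRing S]

theorem coeffMap_injective {f : R →+* S} (hf : Function.Injective f) :
    Function.Injective (coeffMap f) := by
  intro x y h
  ext n
  apply hf
  have := congrArg (fun z => HahnSeries.coeff z n) h
  simpa using this

theorem coeffMap_C (f : R →+* S) (r : R) :
    coeffMap f (HahnSeries.C r : LaurentSeries R) = HahnSeries.C (f r) := by
  show coeffMap f (HahnSeries.single 0 r) = HahnSeries.single 0 (f r)
  exact coeffMap_single f 0 r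

/-- Evaluation of a polynomial at the `q`-expansion of `j`, with explicit constant map. -/
def evalJ (R : Type*) [CommRing R] (P : R[X]) : LaurentSeries R :=
  P.eval₂ (HahnSeries.C : R →+* LaurentSeries R) (jqModC R)

theorem coeffMap_evalJ (f : R →+* S) (P : R[X]) :
    coeffMap f (evalJ R P) = evalJ S (P.map f) := by
  unfold evalJ
  rw [Polynomial.hom_eval₂, Polynomial.eval₂_map, coeffMap_jqModC]
  congr 1
  ext r : 1
  exact coeffMap_C f r

theorem evalJ_add (P Q : R[X]) : evalJ R (P + Q) = evalJ R P + evalJ R Q :=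
  Polynomial.eval₂_add _ _

theorem evalJ_mul (P Q : R[X]) : evalJ R (P * Q) = evalJ R P * evalJ R Q :=
  Polynomial.eval₂_mul _ _

theorem evalJ_zero : evalJ R (0 : R[X]) = 0 := Polynomial.eval₂_zero _ _

theorem evalJ_one : evalJ R (1 : R[X]) = 1 := Polynomial.eval₂_one _ _

end CoeffMap

section Field

variable (K : Type*) [Field K]

theorem evalJ_eq_aeval (P : K[X]) : evalJ K P = Polynomial.aeval (jqModC K) P := by
  unfold evalJ
  rw [Polynomial.aeval_def]
  congr 1
  ext c : 1
  rw [algebraMap_laurentSeries_eq_single]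
  rfl

/-- The coefficient of `q^{-deg P}` in `P(j)` is the leading coefficient of `P`. -/
theorem coeff_evalJ_natDegree (P : K[X]) :
    (evalJ K P).coeff (-(P.natDegree : ℤ)) = P.leadingCoeff := by
  unfold evalJ
  rw [Polynomial.eval₂_eq_sum_range, HahnSeries.coeff_sum,
    Finset.sum_eq_single_of_mem P.natDegree (Finset.self_mem_range_succ _)]
  · show (HahnSeries.single 0 (P.coeff P.natDegree) * jqModC K ^ P.natDegree).coeff _ = _
    rw [HahnSeries.coeff_single_zero_mul, coeff_jqModC_pow_self, mul_one]; rfl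
  · intro i hi hne
    have hlt : i < P.natDegree :=
      lt_of_le_of_ne (Nat.lt_succ_iff.mp (Finset.mem_range.mp hi)) hne
    show (HahnSeries.single 0 (P.coeff i) * jqModC K ^ i).coeff _ = _
    rw [HahnSeries.coeff_single_zero_mul, coeff_jqModC_pow_of_lt K (by omega), mul_zero]

theorem evalJ_eq_zero_iff {P : K[X]} : evalJ K P = 0 ↔ P = 0 := by
  constructor
  · intro hP
    have h := coeff_evalJ_natDegree K P
    rw [hP, HahnSeries.coeff_zero] at h
    exact Polynomial.leadingCoeff_eq_zero.mp h.symm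
  · rintro rfl
    exact evalJ_zero

theorem jqModC_mem_jField : jqModC K ∈ Fermat.Agent.S28.jField K :=
  IntermediateField.subset_adjoin K _ (Set.mem_singleton _)

theorem evalJ_mem_jField (P : K[X]) : evalJ K P ∈ Fermat.Agent.S28.jField K := by
  rw [evalJ_eq_aeval]
  exact Polynomial.aeval_mem_adjoin_singleton K (jqModC K) |> fun h =>
    (IntermediateField.algebra_adjoin_le_adjoin K _) h

/-- Every element of `K(j)` is a quotient of polynomials in `j` with nonzero denominator. -/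
theorem exists_evalJ_of_mem_jField {c : LaurentSeries K} (hc : c ∈ Fermat.Agent.S28.jField K) :
    ∃ r s : K[X], s ≠ 0 ∧ c * evalJ K s = evalJ K r := by
  obtain ⟨r, s, hrs⟩ := (IntermediateField.mem_adjoin_simple_iff K c).mp hc
  by_cases hs : s = 0
  · refine ⟨0, 1, one_ne_zero, ?_⟩
    rw [hrs, hs, map_zero, div_zero, zero_mul, evalJ_zero]
  · refine ⟨r, s, hs, ?_⟩
    have hs' : Polynomial.aeval (jqModC K) s ≠ 0 := by
      rw [← evalJ_eq_aeval]
      exact fun h => hs ((evalJ_eq_zero_iff K).mp h)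
    rw [hrs, evalJ_eq_aeval, evalJ_eq_aeval, div_mul_cancel₀ _ hs']

end Field

end Fermat.Agent.S37.H700

end
end
-- ===== PACK-END S37/H700/GaussBasic.lean

-- ===== PACK-BEGIN S37/H700/GaussSpan.lean
section


/-!
# S37 / piece GAUSS (helper700): the integral monomials span `F̄_N` over `L(j)`
-/

set_option autoImplicit false

noncomputable section

namespace Fermat.Agent.S37.H700

open ModularCurve HahnSeries Polynomial
open Fermat.Agent.S28 (jField intDivisorExpansions)

section IntSeries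

variable (K : Type*) [Field K]

/-- Reduction/base change of an element of `ℤ[j(q^d) : d ∣ N]` lies in `K(j(q^d) : d ∣ N)`. -/
theorem coeffMap_intCast_mem_fullC (N : ℕ) {y : LaurentSeries ℤ}
    (hy : y ∈ Subring.closure (intDivisorExpansions N)) :
    coeffMap (Int.castRingHom K) y ∈ modularFunctionFieldFullC K N := by
  induction hy using Subring.closure_induction with
  | mem x hx =>
    obtain ⟨d, hd, hdN, rfl⟩ := hx
    rw [coeffMap_qExpand, coeffMap_jqModC]
    exact jqModCd_mem_full K N hdN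
  | zero => simp
  | one => simp
  | add x y _ _ hx hy => rw [map_add]; exact add_mem hx hy
  | neg x _ hx => rw [map_neg]; exact neg_mem hx
  | mul x y _ _ hx hy => rw [map_mul]; exact mul_mem hx hy

theorem smul_jField_def (c : jField K) (x : LaurentSeries K) :
    c • x = (c : LaurentSeries K) * x := rfl

end IntSeries

section Span

variable (L : Type*) [Field L] [Algebra ℚ L]

theorem coeffEmb_evalJ (P : ℚ[X]) :
    coeffEmb L (evalJ ℚ P) = evalJ L (P.map (algebraMap ℚ L)) :=
  coeffMap_evalJ _ P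

theorem coeffEmb_intCast (y : LaurentSeries ℤ) :
    coeffEmb L (coeffMap (Int.castRingHom ℚ) y) = coeffMap (Int.castRingHom L) y := by
  rw [coeffEmb, coeffMap_coeffMap]
  exact coeffMap_congr (RingHom.ext_int _ _) y

/-- `coeffEmb` maps `ℚ(j)` into `L(j)`. -/
theorem coeffEmb_mem_jField {c : LaurentSeries ℚ} (hc : c ∈ jField ℚ) :
    coeffEmb L c ∈ jField L := by
  obtain ⟨r, s, hs, hrs⟩ := exists_evalJ_of_mem_jField ℚ hc
  have h := congrArg (coeffEmb L) hrs
  rw [map_mul, coeffEmb_evalJ, coeffEmb_evalJ] at h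
  have hs' : evalJ L (s.map (algebraMap ℚ L)) ≠ 0 := by
    rw [Ne, evalJ_eq_zero_iff]
    exact (Polynomial.map_ne_zero_iff (algebraMap ℚ L).injective).mpr hs
  have : coeffEmb L c = evalJ L (r.map (algebraMap ℚ L)) * (evalJ L (s.map (algebraMap ℚ L)))⁻¹ := by
    rw [← h, mul_assoc, mul_inv_cancel₀ hs', mul_one]
  rw [this]
  exact mul_mem (evalJ_mem_jField L _) (inv_mem (evalJ_mem_jField L _))

variable {n : ℕ} (y : Fin n → LaurentSeries ℤ)

/-- The `L(j)`-span of the base-changed monomials. -/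
def spanL : Submodule (jField L) (LaurentSeries L) :=
  Submodule.span (jField L) (Set.range fun i => coeffMap (Int.castRingHom L) (y i))

theorem coeffEmb_mem_spanL {x : LaurentSeries ℚ}
    (hx : x ∈ Submodule.span (jField ℚ)
      (Set.range fun i => coeffMap (Int.castRingHom ℚ) (y i))) :
    coeffEmb L x ∈ spanL L y := by
  induction hx using Submodule.span_induction with
  | mem x hx =>
    obtain ⟨i, rfl⟩ := hx
    rw [coeffEmb_intCast]
    exact Submodule.subset_span ⟨i, rfl⟩
  | zero => rw [map_zero]; exact zero_mem _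
  | add x y _ _ hx hy => rw [map_add]; exact add_mem hx hy
  | smul c x _ hx =>
    rw [smul_jField_def, map_mul]
    exact (spanL L y).smul_mem ⟨coeffEmb L c, coeffEmb_mem_jField L c.2⟩ hx

variable (N : ℕ)
variable (hy_mem : ∀ i, y i ∈ Subring.closure (intDivisorExpansions N))
variable (hy_span : ∀ x ∈ modularFunctionFieldFull N,
      x ∈ Submodule.span (jField ℚ)
        (Set.range fun i => coeffMap (Int.castRingHom ℚ) (y i)))

include hy_span in
theorem coeffEmb_mem_spanL_of_mem {x : LaurentSeries ℚ} (hx : x ∈ modularFunctionFieldFull N) :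
    coeffEmb L x ∈ spanL L y :=
  coeffEmb_mem_spanL L y (hy_span x hx)

include hy_span in
theorem one_mem_spanL : (1 : LaurentSeries L) ∈ spanL L y := by
  have := coeffEmb_mem_spanL_of_mem L y N hy_span (one_mem (modularFunctionFieldFull N))
  rwa [map_one] at this

include hy_mem hy_span in
theorem gen_mul_gen_mem_spanL (i j : Fin n) :
    coeffMap (Int.castRingHom L) (y i) * coeffMap (Int.castRingHom L) (y j) ∈ spanL L y := by
  rw [← coeffEmb_intCast L (y i), ← coeffEmb_intCast L (y j), ← map_mul]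
  refine coeffEmb_mem_spanL_of_mem L y N hy_span (mul_mem ?_ ?_)
  · rw [← modularFunctionFieldFullC_rat]; exact coeffMap_intCast_mem_fullC ℚ N (hy_mem i)
  · rw [← modularFunctionFieldFullC_rat]; exact coeffMap_intCast_mem_fullC ℚ N (hy_mem j)

include hy_mem hy_span in
theorem mul_mem_spanL {a b : LaurentSeries L} (ha : a ∈ spanL L y) (hb : b ∈ spanL L y) :
    a * b ∈ spanL L y := by
  induction ha using Submodule.span_induction with
  | mem a ha =>
    obtain ⟨i, rfl⟩ := ha
    induction hb using Submodule.span_induction with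
    | mem b hb =>
      obtain ⟨j, rfl⟩ := hb
      exact gen_mul_gen_mem_spanL L y N hy_mem hy_span i j
    | zero => rw [mul_zero]; exact zero_mem _
    | add x z _ _ hx hz => rw [mul_add]; exact add_mem hx hz
    | smul c x _ hx =>
      rw [smul_jField_def, mul_left_comm]
      exact (spanL L y).smul_mem c hx
  | zero => rw [zero_mul]; exact zero_mem _
  | add x z _ _ hx hz => rw [add_mul]; exact add_mem hx hz
  | smul c x _ hx =>
    rw [smul_jField_def, mul_assoc]
    exact (spanL L y).smul_mem c hx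

/-- The span as a subalgebra over `L(j)`. -/
def spanAlg : Subalgebra (jField L) (LaurentSeries L) :=
  (spanL L y).toSubalgebra (one_mem_spanL L y N hy_span)
    (fun _ _ ha hb => mul_mem_spanL L y N hy_mem hy_span ha hb)

include hy_mem hy_span in
theorem inv_mem_spanL {a : LaurentSeries L} (ha : a ∈ spanL L y) : a⁻¹ ∈ spanL L y := by
  have hfg : (spanAlg L y N hy_mem hy_span).toSubmodule.FG := by
    show (spanL L y).FG
    exact Submodule.fg_span (Set.finite_range _)
  have hint : IsIntegral (jField L) a :=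
    IsIntegral.of_mem_of_fg (spanAlg L y N hy_mem hy_span) hfg a ha
  exact (spanAlg L y N hy_mem hy_span).inv_mem_of_algebraic
    (x := ⟨a, ha⟩) hint.isAlgebraic

include hy_mem hy_span in
/-- **Spanning over `L`**: every element of `F̄_N = L·F_N` is an `L(j)`-combination of the
integral monomials. -/
theorem mem_spanL_of_mem_baseChange {x : LaurentSeries L}
    (hx : x ∈ laurentBaseChange L (modularFunctionFieldFull N)) : x ∈ spanL L y := by
  rw [mem_laurentBaseChange_iff] at hx
  induction hx using Subfield.closure_induction with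
  | mem x hx =>
    rcases hx with ⟨a, rfl⟩ | ⟨z, hz, rfl⟩
    · have h1 := one_mem_spanL L y N hy_span
      have := (spanL L y).smul_mem
        (⟨algebraMap L (LaurentSeries L) a, (jField L).algebraMap_mem a⟩ : jField L) h1
      rwa [smul_jField_def, mul_one] at this
    · exact coeffEmb_mem_spanL_of_mem L y N hy_span hz
  | one => exact one_mem_spanL L y N hy_span
  | add x z _ _ hx hz => exact add_mem hx hz
  | neg x _ hx => exact neg_mem hx
  | inv x _ hx => exact inv_mem_spanL L y N hy_mem hy_span hx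
  | mul x z _ _ hx hz => exact mul_mem_spanL L y N hy_mem hy_span hx hz

end Span

end Fermat.Agent.S37.H700

end
end
-- ===== PACK-END S37/H700/GaussSpan.lean

-- ===== PACK-BEGIN S28/H867/Leaves.lean
section
/-
S28 [L] (helper867): leaf interface for the degree bookkeeping behind `coreData`.
Only definitions and `Prop`-valued leaf statements live here (no proofs needed).
-/



set_option autoImplicit false

noncomputable section

open ModularCurve HahnSeries IntermediateField

namespace Fermat.Agent.S28.H867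

variable (k : Type*) [Field k]

/-- `j(q^p)` as a Laurent series over `k`. -/
abbrev jp (p : ℕ) [NeZero p] : LaurentSeries k := qExpand k p (jqModC k)

/-- `k(j(q^p)) ⊂ k((q))`. -/
def jpField (p : ℕ) [NeZero p] : IntermediateField k (LaurentSeries k) :=
  IntermediateField.adjoin k {jp k p}

/-- `E_M = k(j(q^d) : d ∣ M)`. -/
abbrev EF (M : ℕ) : IntermediateField k (LaurentSeries k) := modularFunctionFieldFullC k M

/-- `[E_M : k(j)]` (zero if infinite). -/
def degE (M : ℕ) : ℕ := (jField k).relfinrank (EF k M)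

/-- The expected degree `ψ(N) = ∏_{p ∣ N} (p + 1) p^{v_p(N) - 1}`. -/
def gFun (N : ℕ) : ℕ := ∏ p ∈ N.primeFactors, (p + 1) * p ^ (N.factorization p - 1)

/-- Leaf [L.I]: `1, j, …, j^{p-1}` are linearly independent over every subfield of
`k((q^p)) = range V_p`. True for every field `k` and every `p ≥ 1`. -/
def LeafI (p : ℕ) [NeZero p] : Prop :=
  ∀ B : IntermediateField k (LaurentSeries k),
    B ≤ (qExpandAlgHomC k p).fieldRange →
    LinearIndependent B (fun i : Fin p => (jqModC k) ^ (i : ℕ))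

/-- Leaf [L.B1]: `j(q^p) ∉ k(j)`. True when `p` is prime and `(p : k) ≠ 0`. -/
def LeafB1 (p : ℕ) [NeZero p] : Prop := jp k p ∉ jField k

/-- Leaf [L.UP]: upper bound in characteristic zero. -/
def LeafUP (N : ℕ) : Prop := ∀ M : ℕ, M ∣ N → degE ℚ M ≤ gFun M

/-- Prime-level degrees: `[k(j, j_p) : k(j)] = p + 1 = [k(j, j_p) : k(j_p)]`. -/
structure PrimeLevel (p : ℕ) [NeZero p] : Prop where
  deg_j : (jField k).relfinrank (jField k ⊔ jpField k p) = p + 1
  deg_jp : (jpField k p).relfinrank (jField k ⊔ jpField k p) = p + 1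

end Fermat.Agent.S28.H867

end

end
-- ===== PACK-END S28/H867/Leaves.lean

-- ===== PACK-BEGIN S28/H867/Degree.lean
section



set_option autoImplicit false
noncomputable section
open ModularCurve HahnSeries IntermediateField

namespace Fermat.Agent.S28.H867

section Generic

variable {k Ω : Type*} [Field k] [Field Ω] [Algebra k Ω]

/-- `[A(S) : A]` as a `relfinrank`. -/
theorem relfinrank_sup_adjoin (A : IntermediateField k Ω) (S : Set Ω) :
    A.relfinrank (A ⊔ adjoin k S) = Module.finrank A (adjoin A S) := by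
  have h : A ≤ A ⊔ adjoin k S := le_sup_left
  rw [relfinrank_eq_finrank_of_le h]
  have : extendScalars h = adjoin A S := by
    apply IntermediateField.restrictScalars_injective k
    rw [extendScalars_restrictScalars, restrictScalars_adjoin_eq_sup]
  rw [this]

theorem relfinrank_sup_adjoin_simple (A : IntermediateField k Ω) {x : Ω} (hx : IsIntegral A x) :
    A.relfinrank (A ⊔ adjoin k {x}) = (minpoly A x).natDegree := by
  rw [relfinrank_sup_adjoin, adjoin.finrank hx]

theorem relfinrank_sup_adjoin_ne_zero (A : IntermediateField k Ω) {S : Set Ω} (hS : S.Finite)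
    (hint : ∀ x ∈ S, IsIntegral A x) : A.relfinrank (A ⊔ adjoin k S) ≠ 0 := by
  rw [relfinrank_sup_adjoin]
  have : Finite S := hS
  have := finiteDimensional_adjoin (K := A) hint
  exact Module.finrank_pos.ne'

theorem relfinrank_ne_zero_of_le {A B C : IntermediateField k Ω} (hAB : A ≤ B) (hBC : B ≤ C)
    (h : A.relfinrank C ≠ 0) : A.relfinrank B ≠ 0 ∧ B.relfinrank C ≠ 0 := by
  rw [← relfinrank_mul_relfinrank hAB hBC] at h
  exact ⟨left_ne_zero_of_mul h, right_ne_zero_of_mul h⟩

/-- A linearly independent family of size `n` inside `C` bounds `[C : B]` from below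
(when finite). -/
theorem le_relfinrank_of_linearIndependent {B C : IntermediateField k Ω} (hBC : B ≤ C)
    (hfin : B.relfinrank C ≠ 0) {n : ℕ} (v : Fin n → Ω) (hv : ∀ i, v i ∈ C)
    (hli : LinearIndependent B v) : n ≤ B.relfinrank C := by
  rw [relfinrank_eq_finrank_of_le hBC] at hfin ⊢
  have hfd : FiniteDimensional B (extendScalars hBC) :=
    Module.finite_of_finrank_pos (Nat.pos_of_ne_zero hfin)
  let v' : Fin n → extendScalars hBC := fun i => ⟨v i, hv i⟩
  have hli' : LinearIndependent B v' := by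
    apply LinearIndependent.of_comp (extendScalars hBC).val.toLinearMap
    exact hli
  simpa using hli'.fintype_card_le_finrank

end Generic

section Basic

variable (k : Type*) [Field k]

theorem jField_le_EF (M : ℕ) : jField k ≤ EF k M := by
  rw [jField, adjoin_simple_le_iff]
  exact jqModC_mem_full k M

theorem jpField_eq_map (p : ℕ) [NeZero p] :
    jpField k p = (jField k).map (qExpandAlgHomC k p) := by
  rw [jpField, jField, adjoin_map, Set.image_singleton]
  rfl

theorem EF_le_EF_mul (M p : ℕ) [NeZero M] [NeZero p] : EF k M ≤ EF k (M * p) :=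
  haveI : NeZero (M * p) := ⟨Nat.mul_ne_zero (NeZero.ne M) (NeZero.ne p)⟩
  full_degeneracyC_le k (Dvd.intro _ rfl)

theorem map_EF_le (M p : ℕ) [NeZero p] :
    (EF k M).map (qExpandAlgHomC k p) ≤ EF k (M * p) :=
  full_degeneracyC_map_le k M p

/-- Step (b): `[E_{Mp} : k(j)] ≥ p · [E_M : k(j)]`. -/
theorem degE_mul_ge (M p : ℕ) [NeZero p] (hP : PrimeLevel k p) (hI : LeafI k p)
    (hfin : degE k (M * p) ≠ 0) : p * degE k M ≤ degE k (M * p) := by
  set V := qExpandAlgHomC k p with hV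
  set A₀ := jField k with hA₀
  set A := jpField k p with hA
  set B := (EF k M).map V with hB
  set C := B ⊔ A₀ with hC
  set E' := EF k (M * p) with hE'
  set P := A₀ ⊔ A with hPdef
  have hAB : A ≤ B := by
    rw [hA, jpField_eq_map, hB]
    exact IntermediateField.map_mono _ (jField_le_EF k M)
  have hBE : B ≤ E' := map_EF_le k M p
  have hA₀E : A₀ ≤ E' := jField_le_EF k (M * p)
  have hCE : C ≤ E' := sup_le hBE hA₀E
  have hBC : B ≤ C := le_sup_left
  have hPC : P ≤ C := sup_le le_sup_right (hAB.trans hBC)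
  have hPE : P ≤ E' := hPC.trans hCE
  have hA₀P : A₀ ≤ P := le_sup_left
  have hAP : A ≤ P := le_sup_right
  -- D_{Mp} = [E' : A]
  have h1 : A₀.relfinrank E' = A.relfinrank E' := by
    rw [← relfinrank_mul_relfinrank hA₀P hPE, ← relfinrank_mul_relfinrank hAP hPE,
      hP.deg_j, hP.deg_jp]
  have h2 : A.relfinrank E' = A.relfinrank B * (B.relfinrank C * C.relfinrank E') := by
    rw [relfinrank_mul_relfinrank hBC hCE, relfinrank_mul_relfinrank hAB hBE]
  have h3 : A.relfinrank B = degE k M := by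
    rw [hA, jpField_eq_map, hB, relfinrank_map_map]
    rfl
  have hfin' : A.relfinrank E' ≠ 0 := by rw [← h1]; exact hfin
  have hBCfin : B.relfinrank C ≠ 0 := by
    rw [h2] at hfin'
    exact left_ne_zero_of_mul (right_ne_zero_of_mul hfin')
  have hCEfin : C.relfinrank E' ≠ 0 := by
    rw [h2] at hfin'
    exact right_ne_zero_of_mul (right_ne_zero_of_mul hfin')
  have h4 : p ≤ B.relfinrank C := by
    refine le_relfinrank_of_linearIndependent hBC hBCfin _ ?_ (hI B ?_)
    · intro i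
      refine pow_mem ?_ _
      exact (le_sup_right : A₀ ≤ C) (mem_adjoin_simple_self k _)
    · rw [hB]
      intro x hx
      obtain ⟨y, -, rfl⟩ := hx
      exact ⟨y, rfl⟩
  show p * degE k M ≤ A₀.relfinrank E'
  rw [h1, h2, h3]
  calc p * degE k M = degE k M * (p * 1) := by ring
    _ ≤ degE k M * (B.relfinrank C * C.relfinrank E') := by
        apply Nat.mul_le_mul_left
        exact Nat.mul_le_mul h4 (Nat.one_le_iff_ne_zero.mpr hCEfin)

end Basic

end Fermat.Agent.S28.H867

end
end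
-- ===== PACK-END S28/H867/Degree.lean

-- ===== PACK-BEGIN S28/H867/GFun.lean
section



set_option autoImplicit false
noncomputable section

namespace Fermat.Agent.S28.H867

section GFun

theorem gFun_one : gFun 1 = 1 := by
  simp [gFun]

theorem gFun_pos (N : ℕ) : 0 < gFun N := by
  unfold gFun
  apply Finset.prod_pos
  intro p hp
  have hp' := Nat.prime_of_mem_primeFactors hp
  exact Nat.mul_pos (Nat.succ_pos _) (pow_pos hp'.pos _)

theorem gFun_mul_of_dvd {M p : ℕ} (hM : M ≠ 0) (hp : p.Prime) (hpM : p ∣ M) :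
    gFun (M * p) = p * gFun M := by
  unfold gFun
  have hpf : (M * p).primeFactors = M.primeFactors := by
    rw [Nat.primeFactors_mul hM hp.ne_zero, hp.primeFactors, Finset.union_eq_left,
      Finset.singleton_subset_iff]
    exact Nat.mem_primeFactors.mpr ⟨hp, hpM, hM⟩
  have hpmem : p ∈ M.primeFactors := Nat.mem_primeFactors.mpr ⟨hp, hpM, hM⟩
  rw [hpf, ← Finset.mul_prod_erase _ _ hpmem, ← Finset.mul_prod_erase _ _ hpmem]
  have hv : 1 ≤ M.factorization p := (hp.dvd_iff_one_le_factorization hM).mp hpM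
  have h1 : (M * p).factorization p = M.factorization p + 1 := by
    rw [Nat.factorization_mul hM hp.ne_zero]
    simp [hp.factorization]
  have h2 : ∀ q ∈ M.primeFactors.erase p, (M * p).factorization q = M.factorization q := by
    intro q hq
    rw [Nat.factorization_mul hM hp.ne_zero]
    have hqp : q ≠ p := Finset.ne_of_mem_erase hq
    simp [hp.factorization, Finsupp.single_apply, hqp.symm]
  rw [Finset.prod_congr rfl fun q hq => by rw [h2 q hq], h1]
  have h3 : M.factorization p + 1 - 1 = (M.factorization p - 1) + 1 := by omega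
  rw [h3, pow_succ]
  ring

theorem gFun_mul_of_not_dvd {M p : ℕ} (hM : M ≠ 0) (hp : p.Prime) (hpM : ¬ p ∣ M) :
    gFun (M * p) = (p + 1) * gFun M := by
  unfold gFun
  have hpnmem : p ∉ M.primeFactors := fun h => hpM (Nat.dvd_of_mem_primeFactors h)
  have hpf : (M * p).primeFactors = insert p M.primeFactors := by
    rw [Nat.primeFactors_mul hM hp.ne_zero, hp.primeFactors, Finset.union_comm]
    rfl
  rw [hpf, Finset.prod_insert hpnmem]
  have h1 : (M * p).factorization p = 1 := by
    rw [Nat.factorization_mul hM hp.ne_zero]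
    simp [hp.factorization, Nat.factorization_eq_zero_of_not_dvd hpM]
  have h2 : ∀ q ∈ M.primeFactors, (M * p).factorization q = M.factorization q := by
    intro q hq
    rw [Nat.factorization_mul hM hp.ne_zero]
    have hqp : q ≠ p := fun h => hpnmem (h ▸ hq)
    simp [hp.factorization, Finsupp.single_apply, hqp.symm]
  rw [Finset.prod_congr rfl fun q hq => by rw [h2 q hq], h1]
  simp

theorem gFun_prime {p : ℕ} (hp : p.Prime) : gFun p = p + 1 := by
  have := gFun_mul_of_not_dvd (M := 1) one_ne_zero hp (by simpa using hp.one_lt.ne')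
  rwa [one_mul, gFun_one, mul_one] at this

end GFun

end Fermat.Agent.S28.H867

end
end
-- ===== PACK-END S28/H867/GFun.lean

-- ===== PACK-BEGIN S28/H88/Theta.lean
section
/-
S28 (Igusa) -- helper88: the derivation `θ = q d/dq` on formal Laurent series
(toolkit for the prime-level step [L2]: `j(q^p) ∉ k(j)`).
-/


set_option autoImplicit false

noncomputable section

open ModularCurve HahnSeries

namespace Fermat.Agent.S28

section ThetaBasic

variable {R : Type*} [CommRing R]

theorem h88_thetaL_add (f g : LaurentSeries R) :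
    thetaL R (f + g) = thetaL R f + thetaL R g := by
  ext n; simp [mul_add]

theorem h88_thetaL_zero : thetaL R (0 : LaurentSeries R) = 0 := by
  ext n; simp

theorem h88_thetaL_neg (f : LaurentSeries R) : thetaL R (-f) = - thetaL R f := by
  ext n; simp

theorem h88_thetaL_sub (f g : LaurentSeries R) :
    thetaL R (f - g) = thetaL R f - thetaL R g := by
  ext n; simp [mul_sub]

theorem h88_thetaL_support_subset (f : LaurentSeries R) :
    (thetaL R f).support ⊆ f.support := by
  intro n hn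
  simp only [HahnSeries.mem_support, thetaL_coeff, ne_eq] at hn ⊢
  intro h; exact hn (by rw [h, mul_zero])

/-- Leibniz rule. -/
theorem h88_thetaL_mul (f g : LaurentSeries R) :
    thetaL R (f * g) = thetaL R f * g + f * thetaL R g := by
  ext n
  rw [HahnSeries.coeff_add, thetaL_coeff, HahnSeries.coeff_mul,
    HahnSeries.coeff_mul_left' f.isPWO_support (h88_thetaL_support_subset f),
    HahnSeries.coeff_mul_right' g.isPWO_support (h88_thetaL_support_subset g),
    Finset.mul_sum, ← Finset.sum_add_distrib]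
  refine Finset.sum_congr rfl fun ij hij => ?_
  rw [Finset.mem_antidiagonal] at hij
  obtain ⟨-, -, h⟩ := hij
  simp only [thetaL_coeff]
  rw [← h]; push_cast; ring

theorem h88_thetaL_single_zero (c : R) : thetaL R (HahnSeries.single (0 : ℤ) c) = 0 := by
  ext n
  rw [thetaL_coeff, HahnSeries.coeff_zero]
  rcases eq_or_ne n 0 with rfl | hn
  · simp
  · rw [HahnSeries.coeff_single_of_ne hn, mul_zero]

theorem h88_thetaL_C (c : R) : thetaL R (HahnSeries.C c : LaurentSeries R) = 0 :=
  h88_thetaL_single_zero c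

theorem h88_thetaL_one : thetaL R (1 : LaurentSeries R) = 0 :=
  h88_thetaL_single_zero 1

theorem h88_thetaL_pow (f : LaurentSeries R) (n : ℕ) :
    thetaL R (f ^ (n + 1)) = ((n + 1 : ℕ) : LaurentSeries R) * f ^ n * thetaL R f := by
  induction n with
  | zero => simp
  | succ n ih =>
    rw [pow_succ, h88_thetaL_mul, ih]
    push_cast
    ring

/-- `θ` commutes with `q ↦ q^p` up to the factor `p`. -/
theorem h88_thetaL_qExpand (p : ℕ) [NeZero p] (f : LaurentSeries R) :
    thetaL R (qExpand R p f) = (p : LaurentSeries R) * qExpand R p (thetaL R f) := by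
  rw [← nsmul_eq_mul]
  ext n
  rw [thetaL_coeff, HahnSeries.coeff_smul]
  by_cases hn : (p : ℤ) ∣ n
  · obtain ⟨m, rfl⟩ := hn
    rw [qExpand_coeff_mul, qExpand_coeff_mul, thetaL_coeff, nsmul_eq_mul]
    push_cast; ring
  · rw [qExpand_coeff_of_not_dvd p _ hn, qExpand_coeff_of_not_dvd p _ hn, mul_zero, smul_zero]

end ThetaBasic

section CoeffMapCompat

variable {R S : Type*} [CommRing R] [CommRing S]

theorem h88_coeffMap_thetaL (f : R →+* S) (x : LaurentSeries R) :
    coeffMap f (thetaL R x) = thetaL S (coeffMap f x) := by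
  ext n
  simp [coeffMap_coeff]

theorem h88_map_map_intCast (f : R →+* S) (P : PowerSeries ℤ) :
    (P.map (Int.castRingHom R)).map f = P.map (Int.castRingHom S) := by
  rw [← RingHom.comp_apply (PowerSeries.map f) (PowerSeries.map (Int.castRingHom R)),
    ← PowerSeries.map_comp, RingHom.ext_int (f.comp (Int.castRingHom R)) (Int.castRingHom S)]

theorem h88_coeffMap_deltaL (f : R →+* S) : coeffMap f (deltaL R) = deltaL S := by
  rw [deltaL, map_mul, coeffMap_single, map_one, coeffMap_ofPowerSeries, h88_map_map_intCast]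
  rfl

theorem h88_coeffMap_deltaInvL (f : R →+* S) : coeffMap f (deltaInvL R) = deltaInvL S := by
  rw [deltaInvL, map_mul, coeffMap_single, map_one, coeffMap_ofPowerSeries, h88_map_map_intCast]
  rfl

theorem h88_coeffMap_unitL (f : R →+* S) (p : ℕ) [NeZero p] :
    coeffMap f (unitL R p) = unitL S p := by
  rw [unitL, map_mul, coeffMap_qExpand, h88_coeffMap_deltaL, h88_coeffMap_deltaInvL]
  rfl

variable (R) in
theorem h88_deltaL_mul_deltaInvL : deltaL R * deltaInvL R = 1 := by
  rw [deltaL, deltaInvL, mul_mul_mul_comm, HahnSeries.single_mul_single, ← map_mul,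
    ← map_mul, dedekindEtaUnit_mul_inv]
  simp

end CoeffMapCompat

end Fermat.Agent.S28

end

end
-- ===== PACK-END S28/H88/Theta.lean

-- ===== PACK-BEGIN S28/H88/PrimeLevel.lean
section
/-
S28 (Igusa) -- helper88: prime-level step [L2]: `j(q^p) ∉ k(j)` for `(p : k) ≠ 0`.
Inputs (explicit hypotheses): the unit polynomial `UnitPolyData p` and the θ-identity
`(θ j)^6 = Δ j^4 (j - 1728)^3` over `ℤ`.
-/


set_option autoImplicit false

noncomputable section

open ModularCurve HahnSeries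

namespace Fermat.Agent.S28

section KeyOrder

variable (k : Type*) [Field k]

/-- The coefficient of `q^{-deg P}` in `P(j)` is the leading coefficient of `P`. -/
theorem h88_coeff_aeval_jqModC (P : Polynomial k) :
    (Polynomial.aeval (jqModC k) P).coeff (-(P.natDegree : ℤ)) = P.leadingCoeff := by
  rw [Polynomial.aeval_eq_sum_range, HahnSeries.coeff_sum,
    Finset.sum_eq_single_of_mem P.natDegree (Finset.self_mem_range_succ _)]
  · rw [Algebra.smul_def, algebraMap_laurentSeries_eq_single, HahnSeries.coeff_single_zero_mul,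
      coeff_jqModC_pow_self, mul_one]; rfl
  · intro i hi hne
    have hlt : i < P.natDegree :=
      lt_of_le_of_ne (Nat.lt_succ_iff.mp (Finset.mem_range.mp hi)) hne
    rw [Algebra.smul_def, algebraMap_laurentSeries_eq_single, HahnSeries.coeff_single_zero_mul,
      coeff_jqModC_pow_of_lt k (by omega), mul_zero]

theorem h88_aeval_jqModC_injective :
    Function.Injective (Polynomial.aeval (jqModC k) : Polynomial k →ₐ[k] LaurentSeries k) := by
  rw [injective_iff_map_eq_zero]
  intro P hP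
  have h := h88_coeff_aeval_jqModC k P
  rw [hP, HahnSeries.coeff_zero] at h
  exact Polynomial.leadingCoeff_eq_zero.mp h.symm

theorem h88_order_aeval_jqModC_le {P : Polynomial k} (hP : P ≠ 0) :
    (Polynomial.aeval (jqModC k) P).order ≤ 0 := by
  have h : (Polynomial.aeval (jqModC k) P).coeff (-(P.natDegree : ℤ)) ≠ 0 := by
    rw [h88_coeff_aeval_jqModC]
    exact Polynomial.leadingCoeff_ne_zero.mpr hP
  have := HahnSeries.order_le_of_coeff_ne_zero h
  omega

theorem h88_jqModC_mem_jField : jqModC k ∈ jField k :=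
  IntermediateField.subset_adjoin k _ (Set.mem_singleton _)

/-- Chain rule: `θ` maps `k(j)` into `k(j) · θ j`. -/
theorem h88_chain_rule {x : LaurentSeries k} (hx : x ∈ jField k) :
    ∃ c ∈ jField k, thetaL k x = c * thetaL k (jqModC k) := by
  unfold jField at hx
  induction hx using IntermediateField.adjoin_induction with
  | mem x hx =>
    rw [Set.mem_singleton_iff] at hx; subst hx
    exact ⟨1, one_mem _, (one_mul _).symm⟩
  | algebraMap c =>
    refine ⟨0, zero_mem _, ?_⟩
    rw [zero_mul, algebraMap_laurentSeries_eq_single]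
    exact h88_thetaL_single_zero c
  | add x y hx hy ihx ihy =>
    obtain ⟨a, ha, hxa⟩ := ihx
    obtain ⟨b, hb, hyb⟩ := ihy
    exact ⟨a + b, add_mem ha hb, by rw [h88_thetaL_add, hxa, hyb, add_mul]⟩
  | inv x hx ih =>
    obtain ⟨a, ha, hxa⟩ := ih
    refine ⟨-a * x⁻¹ * x⁻¹, mul_mem (mul_mem (neg_mem ha) (inv_mem hx)) (inv_mem hx), ?_⟩
    by_cases hx0 : x = 0
    · subst hx0; simp [h88_thetaL_zero]
    · have h1 : thetaL k (x * x⁻¹) = 0 := by
        rw [mul_inv_cancel₀ hx0]; exact h88_thetaL_one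
      rw [h88_thetaL_mul, hxa] at h1
      have h2 : x * thetaL k x⁻¹ = -(a * thetaL k (jqModC k) * x⁻¹) :=
        eq_neg_of_add_eq_zero_right h1
      have h3 : thetaL k x⁻¹ = x⁻¹ * (x * thetaL k x⁻¹) := by
        rw [← mul_assoc, inv_mul_cancel₀ hx0, one_mul]
      rw [h3, h2]; ring
  | mul x y hx hy ihx ihy =>
    obtain ⟨a, ha, hxa⟩ := ihx
    obtain ⟨b, hb, hyb⟩ := ihy
    exact ⟨a * y + x * b, add_mem (mul_mem ha hy) (mul_mem hx hb), by
      rw [h88_thetaL_mul, hxa, hyb]; ring⟩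

end KeyOrder

section DeltaCoeff

variable (R : Type*) [CommRing R]

theorem h88_deltaL_coeff_of_le {m : ℤ} (hm : m ≤ 0) : (deltaL R).coeff m = 0 := by
  rw [deltaL, HahnSeries.coeff_single_mul, ofPowerSeries_coeff_of_neg _ (by omega), mul_zero]

theorem h88_deltaL_coeff_one : (deltaL R).coeff 1 = 1 := by
  rw [deltaL, HahnSeries.coeff_single_mul, sub_self, one_mul]
  have h := HahnSeries.ofPowerSeries_apply_coeff (Γ := ℤ)
    (dedekindEtaUnit.map (Int.castRingHom R)) 0
  rw [Nat.cast_zero] at h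
  rw [h, PowerSeries.coeff_map, PowerSeries.coeff_zero_eq_constantCoeff,
    constantCoeff_dedekindEtaUnit]
  simp

theorem h88_qExpand_deltaL_coeff_of_lt (p : ℕ) [NeZero p] {n : ℤ} (hn : n < p) :
    (qExpand R p (deltaL R)).coeff n = 0 := by
  by_cases hdvd : (p : ℤ) ∣ n
  · obtain ⟨m, rfl⟩ := hdvd
    rw [qExpand_coeff_mul]
    apply h88_deltaL_coeff_of_le
    by_contra hm
    rw [not_le] at hm
    have hp : (0 : ℤ) < p := by exact_mod_cast Nat.pos_of_ne_zero (NeZero.ne p)
    nlinarith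
  · exact qExpand_coeff_of_not_dvd p _ hdvd

end DeltaCoeff

section Transport

variable (k : Type*) [Field k]

theorem h88_coeffMap_comp_evalAt :
    (coeffMap (Int.castRingHom k)).comp (evalAt (jqModC ℤ)) = evalAt (jqModC k) := by
  apply Polynomial.ringHom_ext
  · intro a
    simp [evalAt]
  · simp [evalAt, coeffMap_jqModC]

/-- The θ-identity over `k`, transported from `ℤ`. -/
theorem h88_theta_identity_field
    (hθ : (thetaL ℤ (jqModC ℤ)) ^ 6 = deltaL ℤ * (jqModC ℤ) ^ 4 * (jqModC ℤ - 1728) ^ 3) :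
    (thetaL k (jqModC k)) ^ 6 = deltaL k * (jqModC k) ^ 4 * (jqModC k - 1728) ^ 3 := by
  have h := congrArg (coeffMap (Int.castRingHom k)) hθ
  simpa only [map_pow, map_mul, map_sub, h88_coeffMap_thetaL, coeffMap_jqModC,
    h88_coeffMap_deltaL, map_ofNat] using h

/-- The unit polynomial relation over `k`, transported from `ℤ`. -/
theorem h88_unitPoly_field (p : ℕ) [NeZero p] (W : UnitPolyData p) :
    W.W.eval₂ (evalAt (jqModC k)) ((p : LaurentSeries k) ^ 12 * unitL k p) = 0 := by
  have h := congrArg (coeffMap (Int.castRingHom k)) W.eval_unit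
  rw [Polynomial.hom_eval₂, map_zero, map_mul, map_pow, map_natCast, h88_coeffMap_unitL,
    h88_coeffMap_comp_evalAt] at h
  exact h

end Transport

section RatFuncEmbedding

variable (k : Type*) [Field k]

/-- The embedding `k(X) → k((q))`, `X ↦ j`. -/
def h88_iota : RatFunc k →ₐ[k] LaurentSeries k :=
  RatFunc.liftAlgHom (Polynomial.aeval (jqModC k))
    (nonZeroDivisors_le_comap_nonZeroDivisors_of_injective _ (h88_aeval_jqModC_injective k))

theorem h88_iota_injective : Function.Injective (h88_iota k) :=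
  RatFunc.liftAlgHom_injective _ (h88_aeval_jqModC_injective k)

theorem h88_iota_algebraMap (P : Polynomial k) :
    h88_iota k (algebraMap (Polynomial k) (RatFunc k) P) = Polynomial.aeval (jqModC k) P := by
  have h := RatFunc.liftAlgHom_apply_div (Polynomial.aeval (jqModC k))
    (nonZeroDivisors_le_comap_nonZeroDivisors_of_injective _ (h88_aeval_jqModC_injective k)) P 1
  simpa [h88_iota] using h

theorem h88_jField_le_range : jField k ≤ (h88_iota k).fieldRange := by
  unfold jField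
  rw [IntermediateField.adjoin_le_iff]
  intro x hx
  rw [Set.mem_singleton_iff] at hx
  subst hx
  exact ⟨algebraMap (Polynomial k) (RatFunc k) Polynomial.X,
    (h88_iota_algebraMap k Polynomial.X).trans (Polynomial.aeval_X _)⟩

/-- An element of `k(j)` which is a root of a monic polynomial with coefficients in the
image of `ℤ[j]` is a polynomial in `j`. -/
theorem h88_exists_poly_of_integral {w : LaurentSeries k} (hw : w ∈ jField k)
    (W : Polynomial (Polynomial ℤ)) (hW : W.Monic)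
    (hroot : W.eval₂ (evalAt (jqModC k)) w = 0) :
    ∃ P : Polynomial k, w = Polynomial.aeval (jqModC k) P := by
  obtain ⟨r, hr⟩ := h88_jField_le_range k hw
  let ψ : Polynomial ℤ →+* Polynomial k := Polynomial.mapRingHom (Int.castRingHom k)
  have hcomp : ((h88_iota k).toRingHom.comp (algebraMap (Polynomial k) (RatFunc k))).comp ψ
      = evalAt (jqModC k) := by
    apply Polynomial.ringHom_ext
    · intro a
      simp [ψ, evalAt]
    · show h88_iota k (algebraMap (Polynomial k) (RatFunc k)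
          (Polynomial.map (Int.castRingHom k) Polynomial.X))
        = Polynomial.aeval (jqModC k) Polynomial.X
      rw [Polynomial.map_X, h88_iota_algebraMap, Polynomial.aeval_X]
      exact (Polynomial.aeval_X (R := ℤ) (jqModC k)).symm
  have hint : IsIntegral (Polynomial k) r := by
    refine ⟨W.map ψ, hW.map ψ, ?_⟩
    apply h88_iota_injective k
    rw [map_zero, Polynomial.eval₂_map]
    have h2 := Polynomial.hom_eval₂ W ((algebraMap (Polynomial k) (RatFunc k)).comp ψ)
      (h88_iota k).toRingHom r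
    rw [← RingHom.comp_assoc, hcomp, hr, hroot] at h2
    exact h2
  obtain ⟨P, hP⟩ := IsIntegrallyClosed.isIntegral_iff.mp hint
  refine ⟨P, ?_⟩
  rw [← h88_iota_algebraMap, hP]
  exact hr.symm

end RatFuncEmbedding

section Main

variable (k : Type*) [Field k]

theorem h88_natCast_mem_jField (n : ℕ) : (n : LaurentSeries k) ∈ jField k :=
  natCast_mem _ n

theorem h88_natCast_ne_zero {p : ℕ} (hpk : (p : k) ≠ 0) : (p : LaurentSeries k) ≠ 0 := by
  have h : (p : LaurentSeries k) = algebraMap k (LaurentSeries k) (p : k) :=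
    (map_natCast _ p).symm
  rw [h]
  exact (map_ne_zero (algebraMap k (LaurentSeries k))).mpr hpk

theorem h88_deltaL_ne_zero : deltaL k ≠ 0 := by
  intro h
  have := h88_deltaL_coeff_one k
  rw [h, HahnSeries.coeff_zero] at this
  exact zero_ne_one this

theorem h88_qExpand_jqModC_coeff (p : ℕ) [NeZero p] :
    (qExpand k p (jqModC k)).coeff (-(p : ℤ)) = 1 := by
  have h := qExpand_coeff_mul (R := k) p (jqModC k) (-1)
  rw [coeff_jqModC_neg_one] at h
  rw [← h]
  congr 1
  ring

/-- **[L2]** For `(p : k) ≠ 0`, `p > 1`: `j(q^p) ∉ k(j)`. -/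
theorem h88_jp_not_mem_jField (p : ℕ) [NeZero p] (hpk : (p : k) ≠ 0) (hp1 : 1 < p)
    (W : UnitPolyData p)
    (hθ : (thetaL ℤ (jqModC ℤ)) ^ 6 = deltaL ℤ * (jqModC ℤ) ^ 4 * (jqModC ℤ - 1728) ^ 3) :
    qExpand k p (jqModC k) ∉ jField k := by
  intro hmem
  have hθk := h88_theta_identity_field k hθ
  have hjmem := h88_jqModC_mem_jField k
  have hp0 : (p : LaurentSeries k) ≠ 0 := h88_natCast_ne_zero k hpk
  have hpmem : (p : LaurentSeries k) ∈ jField k := h88_natCast_mem_jField k p
  have h1728 : (1728 : LaurentSeries k) ∈ jField k := by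
    have := h88_natCast_mem_jField k 1728
    rwa [Nat.cast_ofNat] at this
  have hd := h88_deltaL_mul_deltaInvL k
  obtain ⟨c, hc, hcj⟩ := h88_chain_rule k hmem
  have h1 : thetaL k (qExpand k p (jqModC k))
      = (p : LaurentSeries k) * qExpand k p (thetaL k (jqModC k)) :=
    h88_thetaL_qExpand p (jqModC k)
  have hVθ : (qExpand k p (thetaL k (jqModC k))) ^ 6
      = qExpand k p (deltaL k) * (qExpand k p (jqModC k)) ^ 4
        * (qExpand k p (jqModC k) - 1728) ^ 3 := by
    have h := congrArg (qExpand k p) hθk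
    simpa only [map_pow, map_mul, map_sub, map_ofNat] using h
  have h2 : (p : LaurentSeries k) ^ 6 * (qExpand k p (deltaL k) * (qExpand k p (jqModC k)) ^ 4
        * (qExpand k p (jqModC k) - 1728) ^ 3)
      = c ^ 6 * (deltaL k * (jqModC k) ^ 4 * (jqModC k - 1728) ^ 3) := by
    rw [← hVθ, ← hθk, ← mul_pow, ← mul_pow, ← h1, hcj]
  have h3 : (p : LaurentSeries k) ^ 6 * unitL k p * ((qExpand k p (jqModC k)) ^ 4
        * (qExpand k p (jqModC k) - 1728) ^ 3)
      = c ^ 6 * ((jqModC k) ^ 4 * (jqModC k - 1728) ^ 3) := by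
    have h : (p : LaurentSeries k) ^ 6 * (qExpand k p (deltaL k) * (qExpand k p (jqModC k)) ^ 4
              * (qExpand k p (jqModC k) - 1728) ^ 3) * deltaInvL k
        = c ^ 6 * (deltaL k * (jqModC k) ^ 4 * (jqModC k - 1728) ^ 3) * deltaInvL k := by
      rw [h2]
    unfold unitL
    calc _ = (p : LaurentSeries k) ^ 6 * (qExpand k p (deltaL k) * (qExpand k p (jqModC k)) ^ 4
              * (qExpand k p (jqModC k) - 1728) ^ 3) * deltaInvL k := by ring
      _ = c ^ 6 * (deltaL k * (jqModC k) ^ 4 * (jqModC k - 1728) ^ 3) * deltaInvL k := h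
      _ = c ^ 6 * ((jqModC k) ^ 4 * (jqModC k - 1728) ^ 3) * (deltaL k * deltaInvL k) := by ring
      _ = _ := by rw [hd, mul_one]
  have hp_neg : (-(p : ℤ)) ≠ 0 := by
    have : (0 : ℤ) < p := by exact_mod_cast Nat.pos_of_ne_zero (NeZero.ne p)
    omega
  have hVj : qExpand k p (jqModC k) ≠ 0 := by
    intro h
    have := h88_qExpand_jqModC_coeff k p
    rw [h, HahnSeries.coeff_zero] at this
    exact zero_ne_one this
  have hVj' : qExpand k p (jqModC k) - 1728 ≠ 0 := by
    intro h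
    have h4 := h88_qExpand_jqModC_coeff k p
    have h5 : qExpand k p (jqModC k) = ((1728 : ℕ) : LaurentSeries k) := by
      rw [Nat.cast_ofNat]; exact sub_eq_zero.mp h
    have h6 : ((1728 : ℕ) : LaurentSeries k) = HahnSeries.single 0 ((1728 : ℕ) : k) := by
      rw [← algebraMap_laurentSeries_eq_single, map_natCast]
    rw [h5, h6, HahnSeries.coeff_single_of_ne hp_neg] at h4
    exact zero_ne_one h4
  have hden : (p : LaurentSeries k) ^ 6 * ((qExpand k p (jqModC k)) ^ 4
        * (qExpand k p (jqModC k) - 1728) ^ 3) ≠ 0 :=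
    mul_ne_zero (pow_ne_zero _ hp0) (mul_ne_zero (pow_ne_zero _ hVj) (pow_ne_zero _ hVj'))
  have hu : unitL k p ∈ jField k := by
    have h : unitL k p = c ^ 6 * ((jqModC k) ^ 4 * (jqModC k - 1728) ^ 3)
        * ((p : LaurentSeries k) ^ 6 * ((qExpand k p (jqModC k)) ^ 4
          * (qExpand k p (jqModC k) - 1728) ^ 3))⁻¹ := by
      rw [eq_mul_inv_iff_mul_eq₀ hden, ← h3]; ring
    rw [h]
    exact mul_mem (mul_mem (pow_mem hc 6)
      (mul_mem (pow_mem hjmem 4) (pow_mem (sub_mem hjmem h1728) 3)))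
      (inv_mem (mul_mem (pow_mem hpmem 6)
        (mul_mem (pow_mem hmem 4) (pow_mem (sub_mem hmem h1728) 3))))
  have hw : (p : LaurentSeries k) ^ 12 * unitL k p ∈ jField k :=
    mul_mem (pow_mem hpmem 12) hu
  obtain ⟨P, hP⟩ := h88_exists_poly_of_integral k hw W.W W.monic (h88_unitPoly_field k p W)
  -- order contradiction
  have hwΔ : Polynomial.aeval (jqModC k) P * deltaL k
      = (p : LaurentSeries k) ^ 12 * qExpand k p (deltaL k) := by
    rw [← hP]
    unfold unitL
    calc _ = (p : LaurentSeries k) ^ 12 * qExpand k p (deltaL k) * (deltaL k * deltaInvL k) := by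
          ring
      _ = _ := by rw [hd, mul_one]
  have hVΔ : qExpand k p (deltaL k) ≠ 0 := fun h =>
    h88_deltaL_ne_zero k (qExpand_injective p (by rw [h, map_zero]))
  have hrhs : (p : LaurentSeries k) ^ 12 * qExpand k p (deltaL k) ≠ 0 :=
    mul_ne_zero (pow_ne_zero _ hp0) hVΔ
  have hP0 : P ≠ 0 := by
    intro h
    rw [h, map_zero, zero_mul] at hwΔ
    exact hrhs hwΔ.symm
  have hPj : Polynomial.aeval (jqModC k) P ≠ 0 := fun h =>
    hP0 (h88_aeval_jqModC_injective k (by rw [h, map_zero]))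
  have hord : (Polynomial.aeval (jqModC k) P * deltaL k).order ≤ 1 := by
    rw [HahnSeries.order_mul hPj (h88_deltaL_ne_zero k)]
    have ha := h88_order_aeval_jqModC_le k hP0
    have hb : (deltaL k).order ≤ 1 := HahnSeries.order_le_of_coeff_ne_zero (by
      rw [h88_deltaL_coeff_one]; exact one_ne_zero)
    omega
  have hne : (Polynomial.aeval (jqModC k) P * deltaL k).coeff
      (Polynomial.aeval (jqModC k) P * deltaL k).order ≠ 0 := by
    rw [Ne, HahnSeries.coeff_order_eq_zero]
    exact mul_ne_zero hPj (h88_deltaL_ne_zero k)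
  have hlt : (Polynomial.aeval (jqModC k) P * deltaL k).order < (p : ℤ) := by
    have : (1 : ℤ) < p := by exact_mod_cast hp1
    omega
  have hzero : ∀ n : ℤ, n < p →
      ((p : LaurentSeries k) ^ 12 * qExpand k p (deltaL k)).coeff n = 0 := by
    intro n hn
    rw [← Nat.cast_pow, ← nsmul_eq_mul, HahnSeries.coeff_smul,
      h88_qExpand_deltaL_coeff_of_lt k p hn, smul_zero]
  rw [hwΔ] at hne hlt
  exact hne (hzero _ hlt)

end Main

end Fermat.Agent.S28

end

end
-- ===== PACK-END S28/H88/PrimeLevel.lean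

-- ===== PACK-BEGIN S18/H333/Forms.lean
section




/-!
# S18 / c3 (helper333): level-one forms on `Γ₀(p)` — restriction and `V_p`

* `restr p H` : a level-one modular form `H` viewed on `Γ₀(p)`;
* `raise p H` : `τ ↦ H (p τ)` as a modular form on `Γ₀(p)`;
* `qExpansion_raise` : the `q`-expansion of `raise p H` is `Vser p (qExpansion H)`.
-/

set_option autoImplicit false
set_option linter.unusedSectionVars false

noncomputable section

namespace Fermat.Agent.S18.H333

open UpperHalfPlane ModularForm CongruenceSubgroup MatrixGroups Matrix.SpecialLinearGroup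

variable (p : ℕ) [NeZero p]

theorem det_eq_one' (g : SL(2, ℤ)) : g 0 0 * g 1 1 - g 0 1 * g 1 0 = 1 := by
  have h := g.det_coe
  rwa [Matrix.det_fin_two] at h

theorem diag_mul_mapGL (g : SL(2, ℤ)) (e : ℤ) (he : g 1 0 = p * e) :
    ∃ g' : SL(2, ℤ), heckeDiagMatrix p * mapGL ℝ g = mapGL ℝ g' * heckeDiagMatrix p := by
  have hp := NeZero.ne p
  have hdet := det_eq_one' g
  obtain ⟨g', hg'⟩ : ∃ g' : SL(2, ℤ),
      (g' : Matrix (Fin 2) (Fin 2) ℤ) = !![g 0 0, p * g 0 1; e, g 1 1] := by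
    refine ⟨⟨!![g 0 0, p * g 0 1; e, g 1 1], ?_⟩, rfl⟩
    rw [Matrix.det_fin_two_of]
    linear_combination hdet + (g 0 1) * he
  refine ⟨g', ?_⟩
  apply Units.ext
  rw [Units.val_mul, Units.val_mul, val_heckeDiagMatrix hp, mapGL_coe_matrix, mapGL_coe_matrix]
  have he' : ((g 1 0 : ℤ) : ℝ) = p * e := by exact_mod_cast he
  ext i j
  fin_cases i <;> fin_cases j <;>
    simp [Matrix.mul_apply, Fin.sum_univ_two, he', hg'] <;> ring

open ConjAct Pointwise in
theorem Gamma0_le_conj_diag :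
    (Gamma0 p : Subgroup (GL (Fin 2) ℝ)) ≤
      toConjAct (heckeDiagMatrix p)⁻¹ • (𝒮ℒ : Subgroup (GL (Fin 2) ℝ)) := by
  rintro _ ⟨g, hg, rfl⟩
  obtain ⟨e, he⟩ : (p : ℤ) ∣ g 1 0 := by
    have hg' : g ∈ Gamma0 p := hg
    rwa [CongruenceSubgroup.Gamma0_mem, ZMod.intCast_zmod_eq_zero_iff_dvd] at hg'
  obtain ⟨g', hg'⟩ := diag_mul_mapGL p g e he
  rw [Subgroup.mem_pointwise_smul_iff_inv_smul_mem, ← toConjAct_inv, inv_inv, toConjAct_smul, hg',
    mul_inv_cancel_right]
  exact ⟨g', rfl⟩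

omit [NeZero p] in
theorem Gamma0_le_top : (Gamma0 p : Subgroup (GL (Fin 2) ℝ)) ≤ (𝒮ℒ : Subgroup (GL (Fin 2) ℝ)) := by
  rintro _ ⟨g, -, rfl⟩
  exact ⟨g, rfl⟩

/-- `H ∣[k] diag(p,1)`, i.e. `τ ↦ p^(k-1) H(p τ)`, as a modular form on `Γ₀(p)`. -/
def raise0 {k : ℤ} (H : ModularForm 𝒮ℒ k) : ModularForm (Gamma0 p) k where
  toFun := (⇑H : ℍ → ℂ) ∣[k] heckeDiagMatrix p
  slash_action_eq' γ hγ :=
    (ModularForm.translate H (heckeDiagMatrix p)).slash_action_eq' γ
      (Gamma0_le_conj_diag p hγ)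
  holo' := (ModularForm.translate H (heckeDiagMatrix p)).holo'
  bdd_at_cusps' hc :=
    (ModularForm.translate H (heckeDiagMatrix p)).bdd_at_cusps'
      (hc.mono (Gamma0_le_conj_diag p))

/-- a level-one form viewed on `Γ₀(p)` -/
def restr {k : ℤ} (H : ModularForm 𝒮ℒ k) : ModularForm (Gamma0 p) k where
  toFun := (⇑H : ℍ → ℂ)
  slash_action_eq' γ hγ := H.slash_action_eq' γ (Gamma0_le_top p hγ)
  holo' := H.holo'
  bdd_at_cusps' hc := H.bdd_at_cusps' (hc.mono (Gamma0_le_top p))

@[simp] theorem coe_restr {k : ℤ} (H : ModularForm 𝒮ℒ k) : (⇑(restr p H) : ℍ → ℂ) = ⇑H := rfl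

/-- `τ ↦ H(p τ)` as a modular form on `Γ₀(p)`. -/
def raise {k : ℤ} (H : ModularForm 𝒮ℒ k) : ModularForm (Gamma0 p) k :=
  ((p : ℂ) ^ (1 - k)) • raise0 p H

theorem raise_apply {k : ℤ} (H : ModularForm 𝒮ℒ k) (τ : ℍ) :
    raise p H τ = H (heckeDiagMatrix p • τ) := by
  have hp' : (p : ℂ) ≠ 0 := by exact_mod_cast NeZero.ne p
  show ((p : ℂ) ^ (1 - k)) • ((⇑H : ℍ → ℂ) ∣[k] heckeDiagMatrix p) τ = _
  rw [slash_heckeDiagMatrix_apply k (NeZero.ne p), smul_eq_mul, ← mul_assoc, ← zpow_add₀ hp']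
  simp

theorem one_mem_strictPeriods_Gamma0 :
    (1 : ℝ) ∈ (Gamma0 p : Subgroup (GL (Fin 2) ℝ)).strictPeriods := by
  simp [CongruenceSubgroup.strictPeriods_Gamma0]

theorem one_mem_strictPeriods_top :
    (1 : ℝ) ∈ (𝒮ℒ : Subgroup (GL (Fin 2) ℝ)).strictPeriods := by
  simp

theorem qParam_diag (τ : ℍ) :
    Function.Periodic.qParam 1 ((heckeDiagMatrix p • τ : ℍ) : ℂ) =
      Function.Periodic.qParam 1 (τ : ℂ) ^ p := by
  rw [coe_heckeDiagMatrix_smul (NeZero.ne p), Function.Periodic.qParam,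
    Function.Periodic.qParam, ← Complex.exp_nat_mul]
  congr 1
  push_cast
  ring

theorem qExpansion_raise {k : ℤ} (H : ModularForm 𝒮ℒ k) :
    qExpansion 1 (raise p H) = Vser p (qExpansion 1 H) := by
  ext n
  symm
  refine ModularFormClass.qExpansion_coeff_unique (h := 1)
    (c := fun n => PowerSeries.coeff n (Vser p (qExpansion 1 H))) one_pos
    (one_mem_strictPeriods_Gamma0 p) (f := raise p H) (fun τ => ?_) n
  rw [raise_apply]
  have h1 := ModularForm.hasSum_qExpansion (f := H) one_pos one_mem_strictPeriods_top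
    (heckeDiagMatrix p • τ)
  rw [qParam_diag] at h1
  have hinj : Function.Injective (fun m : ℕ => p * m) :=
    fun a b hab => Nat.eq_of_mul_eq_mul_left (Nat.pos_of_ne_zero (NeZero.ne p)) hab
  refine (hinj.hasSum_iff ?_).mp ?_
  · intro n hn
    have : ¬ p ∣ n := fun ⟨m, hm⟩ => hn ⟨m, hm.symm⟩
    simp [this]
  · convert h1 using 2 with m
    simp only [Function.comp_apply, coeff_Vser, dvd_mul_right, if_true,
      Nat.mul_div_cancel_left m (Nat.pos_of_ne_zero (NeZero.ne p)), smul_eq_mul, pow_mul]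

end Fermat.Agent.S18.H333

end
end
-- ===== PACK-END S18/H333/Forms.lean

-- ===== PACK-BEGIN S18/Mod/Defs.lean
section



/-!
# S18 / MOD — frozen CONCRETE objects at level `M` (row-lead helper18)

For a valuation subring `A` of `Q̄` and an intermediate field `E` of `Q̄/ℚ` (a number field in the
application) we define the sub-objects of `Ω := F_M = modularFunctionFieldBar M` that instantiate
`Alg.GoodModel`:

* `Lc M`       constants `Q̄`
* `Ec M E`     constants in `E`
* `Rc M A E`   constants in `A ∩ E`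
* `Fc M E`     `E(j_d : d ∣ M)`
* `Vc M A E`   Gauss valuation ring: quotients `U₁/U₂` of series `U_i ∈ (A ∩ E)((q))` lying in `Fc`,
               with `U₂ ≢ 0` mod the maximal ideal of `A`.

MOD deliverable: `GoodModelStatement` below.  GLUE deliverable: `GlueStatement` below (needed for
PRIME `m` only, see `Integ/Skeleton.lean`).

v4 = FINAL (landed on main): unchanged from v3 except that `Alg.GoodModel` has the new field
`x_mem_V` and `Alg.AlgMainStatement` is for prime `m`.
-/

set_option autoImplicit false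

noncomputable section

namespace Fermat.Agent.S18.Mod

open ModularCurve AlgebraicCurve HahnSeries

/-- `Ω = F_M`, the function field of `X₀(M)` over `Q̄`, as a type. -/
abbrev Om (M : ℕ) : Type := ↥(modularFunctionFieldBar M)

/-- The constants `Q̄ ⊆ Ω`. -/
def Lc (M : ℕ) : Subfield (Om M) := (algebraMap Qb (Om M)).fieldRange

/-- The constants from `E`. -/
def Ec (M : ℕ) (E : IntermediateField ℚ Qb) : Subfield (Om M) :=
  E.toSubfield.map (algebraMap Qb (Om M))

/-- The constants from `A ∩ E`. -/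
def Rc (M : ℕ) (A : ValuationSubring Qb) (E : IntermediateField ℚ Qb) : Subring (Om M) :=
  (A.toSubring ⊓ E.toSubfield.toSubring).map (algebraMap Qb (Om M))

/-- The generator `j(q^d)` of `Ω`. -/
def jd (M : ℕ) (d : ℕ) [NeZero d] (hd : d ∣ M) : Om M :=
  ⟨coeffEmb Qb (qExpand ℚ d jq), coeffEmb_mem_laurentBaseChange Qb (jqd_mem_full M hd)⟩

/-- `j ∈ Ω`. -/
def jOm (M : ℕ) : Om M := jd M 1 (one_dvd M)

/-- The set of generators `j(q^d)`, `d ∣ M`. -/
def gens (M : ℕ) : Set (Om M) := {y | ∃ (d : ℕ) (_ : NeZero d) (hd : d ∣ M), y = jd M d hd}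

/-- `Fc = E(j_d : d ∣ M)`. -/
def Fc (M : ℕ) (E : IntermediateField ℚ Qb) : Subfield (Om M) :=
  Subfield.closure ((Ec M E : Set (Om M)) ∪ gens M)

/-- A series over `A` is `E`-rational, lies in `Fc`, (and is automatically `A`-integral). -/
def IsIntE (M : ℕ) (A : ValuationSubring Qb) (E : IntermediateField ℚ Qb)
    (U : LaurentSeries A) : Prop :=
  (∀ n : ℤ, ((U.coeff n : A) : Qb) ∈ E) ∧
    ∃ f ∈ Fc M E, (f : LaurentSeries Qb) = coeffMap A.subtype U

/-- The Gauss valuation ring of `Fc`, as a set; it is a subring (part of the MOD deliverable). -/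
def VcSet (M : ℕ) (A : ValuationSubring Qb) (E : IntermediateField ℚ Qb) : Set (Om M) :=
  {f | f ∈ Fc M E ∧ ∃ U₁ U₂ : LaurentSeries A, IsIntE M A E U₁ ∧ IsIntE M A E U₂ ∧
    coeffMap (IsLocalRing.residue A) U₂ ≠ 0 ∧
    (f : LaurentSeries Qb) * coeffMap A.subtype U₂ = coeffMap A.subtype U₁}

/-- `x` is an admissible coordinate with finite branch set `S` for the residue characteristic `ℓ`:
`ℓ ≥ 5`: `x = j`, `S = {0, 1728}`;
`ℓ = 3`: `2 ∣ M`, `j x² = (x+256)³`, `S = {0, -64}`;
`ℓ = 2`: `3 ∣ M`, `j x³ = (x+27)(x+243)³`, `S = {0, -27}`;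
in the last two cases `x` is the image of an integral series `q⁻¹ + …` lying in `ℚ(j_d : d ∣ M)`. -/
def IsCoordinate (M ℓ : ℕ) (x : Om M) (S : Finset (Om M)) : Prop :=
  (5 ≤ ℓ ∧ x = jOm M ∧ ∀ s, s ∈ S ↔ s = 0 ∨ s = 1728) ∨
  ((ℓ = 3 ∧ jOm M * x ^ 2 = (x + 256) ^ 3 ∧ ∀ s, s ∈ S ↔ s = 0 ∨ s = -64) ∨
    (ℓ = 2 ∧ jOm M * x ^ 3 = (x + 27) * (x + 243) ^ 3 ∧ ∀ s, s ∈ S ↔ s = 0 ∨ s = -27)) ∧
   ∃ X : LaurentSeries ℤ, X.coeff (-1) = 1 ∧ (∀ k : ℤ, k < -1 → X.coeff k = 0) ∧
     (x : LaurentSeries Qb) = coeffMap (Int.castRingHom Qb) X ∧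
     coeffMap (Int.castRingHom ℚ) X ∈ modularFunctionFieldFull M

/-- The family of all concrete models: one for each intermediate field `E` of `Q̄/ℚ` that is
finite over `ℚ`, with `V` the subring with underlying set `VcSet M A E` and `w` any element. -/
def family (M : ℕ) (A : ValuationSubring Qb) : Set (Alg.Model (Om M)) :=
  {p | ∃ E : IntermediateField ℚ Qb, FiniteDimensional ℚ E ∧ p.1 = Ec M E ∧ p.2.1 = Fc M E ∧
    p.2.2.1 = Rc M A E ∧ (p.2.2.2.1 : Set (Om M)) = VcSet M A E}

/-- **MOD deliverable** (v3).  For every admissible coordinate `x` there is a directed family `𝓕`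
of good models, consisting of concrete models, and containing a model over a number field
`E ∋ T` for every finite set `T` of elements of `Q̄`. -/
def GoodModelStatement (M ℓ : ℕ) (A : ValuationSubring Qb) : Prop :=
  ∀ (x : Om M) (S : Finset (Om M)), IsCoordinate M ℓ x S →
    ∃ 𝓕 : Set (Alg.Model (Om M)), 𝓕 ⊆ family M A ∧ Alg.GoodFamily (Lc M) x S 𝓕 ∧
      ∀ T : Finset Qb, ∃ (E : IntermediateField ℚ Qb) (V : Subring (Om M)) (w : Om M),
        FiniteDimensional ℚ E ∧ (∀ a ∈ T, a ∈ E) ∧ (V : Set (Om M)) = VcSet M A E ∧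
        ((Ec M E, Fc M E, Rc M A E, V, w) : Alg.Model (Om M)) ∈ 𝓕

/-- **Existence of coordinates** (c3): for `ℓ ∤ M`, with `2 ∣ M` if `ℓ = 3` and `3 ∣ M` if `ℓ = 2`. -/
def CoordinateStatement (M ℓ : ℕ) : Prop :=
  ∃ (x : Om M) (S : Finset (Om M)), IsCoordinate M ℓ x S

/-- **ALG deliverable**, instantiated: `Alg.AlgMainStatement` for all arguments over `Ω = Om M`. -/
def AlgStatement (M : ℕ) : Prop :=
  ∀ (Lc : Subfield (Om M)) (x : Om M) (S : Finset (Om M)) (𝓕 : Set (Alg.Model (Om M))),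
    Alg.AlgMainStatement Lc x S 𝓕

/-- **GLUE deliverable** (d1): the hub statement at level `M` from MOD and ALG. -/
def GlueStatement (M ℓ : ℕ) (A : ValuationSubring Qb) (m : ℕ) : Prop :=
  CoordinateStatement M ℓ → GoodModelStatement M ℓ A → AlgStatement M → CoreStatement M A m

end Fermat.Agent.S18.Mod

end
end
-- ===== PACK-END S18/Mod/Defs.lean

-- ===== PACK-BEGIN S18/Mod/H216/Vc.lean
section


/-!
# S18 / MOD-ASM (helper216): the Gauss valuation ring `Vc M A E` as a `Subring`

`Mod.VcSet M A E` (frozen in `Mod/Defs.lean`) is only a set.  Here: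

* `intE M A E : Subring (LaurentSeries A)` — the series satisfying `IsIntE M A E`;
* `Vc M A E : Subring (Om M)` with `(Vc M A E : Set (Om M)) = VcSet M A E` (`coe_Vc`);
* `mem_Vc_iff`, `mem_Vc_of_isIntE`.
-/

set_option autoImplicit false

noncomputable section

namespace Fermat.Agent.S18.Mod.H216

open ModularCurve AlgebraicCurve HahnSeries Fermat.Agent.S18 Fermat.Agent.S18.Mod

variable (M : ℕ) (A : ValuationSubring Qb) (E : IntermediateField ℚ Qb)

/-- The coercion `Ω = F_M → Q̄((q))` as a ring homomorphism. -/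
def omVal : Om M →+* LaurentSeries Qb := (modularFunctionFieldBar M).val.toRingHom

@[simp] theorem omVal_apply (f : Om M) : omVal M f = (f : LaurentSeries Qb) := rfl

theorem omVal_injective : Function.Injective (omVal M) := Subtype.val_injective

/-- Series over `Q̄` all of whose coefficients lie in `E`. -/
def coeffsIn : Subring (LaurentSeries Qb) where
  carrier := {U | ∀ n : ℤ, U.coeff n ∈ E}
  zero_mem' := fun n => by simp
  one_mem' := fun n => by
    rw [HahnSeries.coeff_one]
    split_ifs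
    · exact one_mem _
    · exact zero_mem _
  add_mem' := fun {a b} ha hb n => by
    rw [HahnSeries.coeff_add]
    exact add_mem (ha n) (hb n)
  neg_mem' := fun {a} ha n => by
    rw [HahnSeries.coeff_neg]
    exact neg_mem (ha n)
  mul_mem' := fun {a b} ha hb n => by
    rw [HahnSeries.coeff_mul]
    exact sum_mem fun ij _ => mul_mem (ha _) (hb _)

theorem mem_coeffsIn {U : LaurentSeries Qb} : U ∈ coeffsIn E ↔ ∀ n : ℤ, U.coeff n ∈ E := Iff.rfl

/-- The subring of `A((q))` cut out by `IsIntE`. -/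
def intE : Subring (LaurentSeries A) :=
  (coeffsIn E).comap (coeffMap A.subtype) ⊓
    ((Fc M E).toSubring.map (omVal M)).comap (coeffMap A.subtype)

theorem mem_intE {U : LaurentSeries A} : U ∈ intE M A E ↔ IsIntE M A E U := by
  constructor
  · rintro ⟨h1, f, hf, hfU⟩
    exact ⟨fun n => h1 n, f, hf, hfU⟩
  · rintro ⟨h1, f, hf, hfU⟩
    exact ⟨fun n => h1 n, f, hf, hfU⟩

theorem red_mul_ne_zero {U V : LaurentSeries A}
    (hU : coeffMap (IsLocalRing.residue A) U ≠ 0) (hV : coeffMap (IsLocalRing.residue A) V ≠ 0) :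
    coeffMap (IsLocalRing.residue A) (U * V) ≠ 0 := by
  rw [map_mul]
  exact mul_ne_zero hU hV

theorem red_one_ne_zero : coeffMap (IsLocalRing.residue A) (1 : LaurentSeries A) ≠ 0 := by
  rw [map_one]
  exact one_ne_zero

/-- The Gauss valuation ring of `Fc M E`, as a subring of `Ω`. -/
def Vc : Subring (Om M) where
  carrier := VcSet M A E
  zero_mem' := by
    refine ⟨zero_mem _, 0, 1, (mem_intE M A E).mp (zero_mem _), (mem_intE M A E).mp (one_mem _),
      red_one_ne_zero A, ?_⟩
    simp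
  one_mem' := by
    refine ⟨one_mem _, 1, 1, (mem_intE M A E).mp (one_mem _), (mem_intE M A E).mp (one_mem _),
      red_one_ne_zero A, ?_⟩
    simp
  add_mem' := by
    rintro f g ⟨hf, U₁, U₂, h₁, h₂, hne, heq⟩ ⟨hg, W₁, W₂, k₁, k₂, kne, keq⟩
    rw [← mem_intE] at h₁ h₂ k₁ k₂
    refine ⟨add_mem hf hg, U₁ * W₂ + W₁ * U₂, U₂ * W₂,
      (mem_intE M A E).mp (add_mem (mul_mem h₁ k₂) (mul_mem k₁ h₂)),
      (mem_intE M A E).mp (mul_mem h₂ k₂), red_mul_ne_zero A hne kne, ?_⟩
    push_cast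
    rw [map_add, map_mul, map_mul, map_mul, ← heq, ← keq]
    ring
  neg_mem' := by
    rintro f ⟨hf, U₁, U₂, h₁, h₂, hne, heq⟩
    rw [← mem_intE] at h₁ h₂
    refine ⟨neg_mem hf, -U₁, U₂, (mem_intE M A E).mp (neg_mem h₁), (mem_intE M A E).mp h₂,
      hne, ?_⟩
    push_cast
    rw [map_neg, ← heq]
    ring
  mul_mem' := by
    rintro f g ⟨hf, U₁, U₂, h₁, h₂, hne, heq⟩ ⟨hg, W₁, W₂, k₁, k₂, kne, keq⟩
    rw [← mem_intE] at h₁ h₂ k₁ k₂
    refine ⟨mul_mem hf hg, U₁ * W₁, U₂ * W₂, (mem_intE M A E).mp (mul_mem h₁ k₁),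
      (mem_intE M A E).mp (mul_mem h₂ k₂), red_mul_ne_zero A hne kne, ?_⟩
    push_cast
    rw [map_mul, map_mul, ← heq, ← keq]
    ring

@[simp] theorem coe_Vc : (Vc M A E : Set (Om M)) = VcSet M A E := rfl

theorem mem_Vc_iff {f : Om M} : f ∈ Vc M A E ↔ f ∈ VcSet M A E := Iff.rfl

theorem Vc_le_Fc : (Vc M A E : Set (Om M)) ⊆ Fc M E := fun _ hf => hf.1

/-- An `E`-rational integral series lying in `Fc` gives an element of `Vc`. -/
theorem mem_Vc_of_isIntE {f : Om M} {U : LaurentSeries A} (hU : IsIntE M A E U)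
    (hfU : (f : LaurentSeries Qb) = coeffMap A.subtype U) : f ∈ Vc M A E := by
  obtain ⟨h1, g, hg, hgU⟩ := hU
  have hfg : f = g := Subtype.ext (hfU.trans hgU.symm)
  refine ⟨hfg ▸ hg, U, 1, ⟨h1, g, hg, hgU⟩, (mem_intE M A E).mp (one_mem _), red_one_ne_zero A, ?_⟩
  rw [map_one, mul_one, hfU]

end Fermat.Agent.S18.Mod.H216

end
end
-- ===== PACK-END S18/Mod/H216/Vc.lean

-- ===== PACK-BEGIN S18/Mod/H216/Family.lean
section


/-!
# S18 / MOD-ASM (helper216): `GoodModelStatement` from `GoodAt`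

`GoodAt M A x S` : for EVERY number field `E ⊆ Q̄` the concrete objects
`(Ec M E, Fc M E, Rc M A E, V, w)` (with `V` the subring whose carrier is `VcSet M A E` and `w` some
uniformiser) form an `Alg.GoodModel`.

`goodModelStatement_of_goodAt` : the frozen MOD deliverable `Mod.GoodModelStatement M ℓ A`
(node_mod of `Integ/Skeleton.lean`) follows from `GoodAt` for every admissible coordinate.
The family is `{ all concrete good models }`; directedness is monotonicity in `E`.
-/

set_option autoImplicit false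
set_option linter.style.haveILetI false

noncomputable section

namespace Fermat.Agent.S18.Mod.H216

open ModularCurve AlgebraicCurve HahnSeries Fermat.Agent.S18 Fermat.Agent.S18.Mod

/-- The per-number-field MOD deliverable. -/
def GoodAt (M : ℕ) (A : ValuationSubring Qb) (x : Om M) (S : Finset (Om M)) : Prop :=
  ∀ E : IntermediateField ℚ Qb, FiniteDimensional ℚ E →
    ∃ (V : Subring (Om M)) (w : Om M), (V : Set (Om M)) = VcSet M A E ∧
      Alg.GoodModel (Lc M) (Ec M E) (Fc M E) (Rc M A E) V w x S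

section Mono

variable (M : ℕ) (A : ValuationSubring Qb) {E E' : IntermediateField ℚ Qb}

theorem Ec_mono (h : E ≤ E') : Ec M E ≤ Ec M E' := by
  rintro _ ⟨a, ha, rfl⟩
  exact ⟨a, h ha, rfl⟩

theorem Fc_mono (h : E ≤ E') : Fc M E ≤ Fc M E' :=
  Subfield.closure_mono (Set.union_subset_union_left _ (Ec_mono M h))

theorem Rc_mono (h : E ≤ E') : Rc M A E ≤ Rc M A E' := by
  rintro _ ⟨a, ha, rfl⟩
  exact ⟨a, ⟨ha.1, h ha.2⟩, rfl⟩

theorem IsIntE_mono (h : E ≤ E') {U : LaurentSeries A} (hU : IsIntE M A E U) :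
    IsIntE M A E' U := by
  obtain ⟨h1, f, hf, hfU⟩ := hU
  exact ⟨fun n => h (h1 n), f, Fc_mono M h hf, hfU⟩

theorem VcSet_mono (h : E ≤ E') : VcSet M A E ⊆ VcSet M A E' := by
  rintro f ⟨hf, U₁, U₂, h₁, h₂, hne, heq⟩
  exact ⟨Fc_mono M h hf, U₁, U₂, IsIntE_mono M A h h₁, IsIntE_mono M A h h₂, hne, heq⟩

end Mono

/-- Every finite set of elements of `Q̄` lies in a number field containing a given one. -/
theorem exists_finite_ge (E : IntermediateField ℚ Qb) (hE : FiniteDimensional ℚ E)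
    (T : Set Qb) (hT : T.Finite) :
    ∃ E' : IntermediateField ℚ Qb, FiniteDimensional ℚ E' ∧ E ≤ E' ∧ ∀ a ∈ T, a ∈ E' := by
  haveI := hE
  haveI : Finite T := hT
  haveI : Algebra.IsAlgebraic ℚ Qb := AlgebraicClosure.isAlgebraic ℚ
  haveI : FiniteDimensional ℚ (IntermediateField.adjoin ℚ T) :=
    IntermediateField.finiteDimensional_adjoin
      (fun x _ => (Algebra.IsAlgebraic.isAlgebraic (R := ℚ) x).isIntegral)
  refine ⟨E ⊔ IntermediateField.adjoin ℚ T, inferInstance, le_sup_left, fun a ha => ?_⟩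
  exact (le_sup_right : IntermediateField.adjoin ℚ T ≤ E ⊔ IntermediateField.adjoin ℚ T)
    (IntermediateField.subset_adjoin ℚ T ha)

/-- **MOD assembly, top step**: the frozen `GoodModelStatement` from `GoodAt`. -/
theorem goodModelStatement_of_goodAt (M ℓ : ℕ) (A : ValuationSubring Qb)
    (h : ∀ (x : Om M) (S : Finset (Om M)), IsCoordinate M ℓ x S → GoodAt M A x S) :
    GoodModelStatement M ℓ A := by
  intro x S hxS
  have hg := h x S hxS
  refine ⟨{p | ∃ E : IntermediateField ℚ Qb, FiniteDimensional ℚ E ∧ p.1 = Ec M E ∧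
      p.2.1 = Fc M E ∧ p.2.2.1 = Rc M A E ∧ (p.2.2.2.1 : Set (Om M)) = VcSet M A E ∧
      Alg.GoodModel (Lc M) p.1 p.2.1 p.2.2.1 p.2.2.2.1 p.2.2.2.2 x S}, ?_, ⟨?_, ?_⟩, ?_⟩
  · rintro p ⟨E, hE, h1, h2, h3, h4, -⟩
    exact ⟨E, hE, h1, h2, h3, h4⟩
  · rintro p ⟨E, hE, h1, h2, h3, h4, h5⟩
    exact h5
  · rintro p ⟨E, hE, h1, h2, h3, h4, h5⟩ T hT
    have hfin : {b : Qb | algebraMap Qb (Om M) b ∈ T}.Finite :=
      T.finite_toSet.preimage (Set.injOn_of_injective (algebraMap Qb (Om M)).injective)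
    obtain ⟨E', hE', hle, hT'⟩ := exists_finite_ge E hE _ hfin
    obtain ⟨V', w', hV', hgood'⟩ := hg E' hE'
    refine ⟨(Ec M E', Fc M E', Rc M A E', V', w'), ⟨E', hE', rfl, rfl, rfl, hV', hgood'⟩,
      ⟨?_, ?_, ?_, ?_⟩, ?_⟩
    · rw [h1]; exact Ec_mono M hle
    · rw [h2]; exact Fc_mono M hle
    · rw [h3]; exact Rc_mono M A hle
    · intro f hf
      have hf' : f ∈ (p.2.2.2.1 : Set (Om M)) := hf
      rw [h4] at hf'
      have := VcSet_mono M A hle hf'
      rw [← hV'] at this
      exact this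
    · intro a ha
      obtain ⟨b, rfl⟩ := hT a ha
      exact ⟨b, hT' b ha, rfl⟩
  · intro T
    obtain ⟨E', hE', -, hT'⟩ := exists_finite_ge ⊥ inferInstance (T : Set Qb) T.finite_toSet
    obtain ⟨V', w', hV', hgood'⟩ := hg E' hE'
    exact ⟨E', V', w', hE', fun a ha => hT' a ha, hV', ⟨E', hE', rfl, rfl, rfl, hV', hgood'⟩⟩

end Fermat.Agent.S18.Mod.H216

end
end
-- ===== PACK-END S18/Mod/H216/Family.lean

-- ===== PACK-BEGIN S18/H456/ModBasic.lean
section


/-!
# S18 / MOD assembly (helper456, backup MOD-ASM): basic facts on the concrete objects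

Membership lemmas for `Lc`, `Ec`, `Rc`, `Fc` and the "easy" fields of `Alg.GoodModel`
(`charZero`, `R_le`, `R_total`, `E_le_L`, `E_le_F`, `L_algebraic`, `L_algClosed`, `compositum`).
-/

set_option autoImplicit false

noncomputable section

namespace Fermat.Agent.S18.H456

open ModularCurve AlgebraicCurve HahnSeries Fermat.Agent.S18 Fermat.Agent.S18.Mod

variable (M : ℕ) (A : ValuationSubring Qb) (E : IntermediateField ℚ Qb)

/-- The constant `c ∈ Q̄` as an element of `Ω`. -/
abbrev cst (c : Qb) : Om M := algebraMap Qb (Om M) c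

theorem cst_injective : Function.Injective (cst M) := (algebraMap Qb (Om M)).injective

theorem mem_Lc_iff {f : Om M} : f ∈ Lc M ↔ ∃ c : Qb, cst M c = f := Iff.rfl

theorem cst_mem_Lc (c : Qb) : cst M c ∈ Lc M := ⟨c, rfl⟩

theorem mem_Ec_iff {f : Om M} : f ∈ Ec M E ↔ ∃ c ∈ E, cst M c = f := by
  unfold Ec
  rw [Subfield.mem_map]
  rfl

theorem cst_mem_Ec {c : Qb} (hc : c ∈ E) : cst M c ∈ Ec M E := (mem_Ec_iff M E).2 ⟨c, hc, rfl⟩

theorem cst_mem_Ec_iff {c : Qb} : cst M c ∈ Ec M E ↔ c ∈ E := by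
  refine ⟨fun h => ?_, cst_mem_Ec M E⟩
  obtain ⟨c', hc', h⟩ := (mem_Ec_iff M E).1 h
  rwa [← cst_injective M h]

theorem mem_Rc_iff {f : Om M} : f ∈ Rc M A E ↔ ∃ c, c ∈ A ∧ c ∈ E ∧ cst M c = f := by
  unfold Rc
  rw [Subring.mem_map]
  constructor
  · rintro ⟨c, hc, rfl⟩
    exact ⟨c, hc.1, hc.2, rfl⟩
  · rintro ⟨c, hA, hE, rfl⟩
    exact ⟨c, ⟨hA, hE⟩, rfl⟩

theorem cst_mem_Rc {c : Qb} (hA : c ∈ A) (hE : c ∈ E) : cst M c ∈ Rc M A E :=
  (mem_Rc_iff M A E).2 ⟨c, hA, hE, rfl⟩

theorem cst_mem_Rc_iff {c : Qb} : cst M c ∈ Rc M A E ↔ c ∈ A ∧ c ∈ E := by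
  refine ⟨fun h => ?_, fun h => cst_mem_Rc M A E h.1 h.2⟩
  obtain ⟨c', hA, hE, h⟩ := (mem_Rc_iff M A E).1 h
  rw [← cst_injective M h]
  exact ⟨hA, hE⟩

/-! ### The easy fields -/

theorem field_charZero : CharZero (Om M) :=
  charZero_of_injective_algebraMap (algebraMap Qb (Om M)).injective

theorem field_R_le : (Rc M A E : Set (Om M)) ⊆ Ec M E := by
  intro f hf
  obtain ⟨c, -, hE, rfl⟩ := (mem_Rc_iff M A E).1 hf
  exact cst_mem_Ec M E hE

theorem field_R_total : ∀ e ∈ Ec M E, e ∈ Rc M A E ∨ e⁻¹ ∈ Rc M A E := by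
  intro e he
  obtain ⟨c, hE, rfl⟩ := (mem_Ec_iff M E).1 he
  rcases A.mem_or_inv_mem c with h | h
  · exact Or.inl (cst_mem_Rc M A E h hE)
  · right
    rw [← map_inv₀]
    exact cst_mem_Rc M A E h (inv_mem hE)

theorem field_E_le_L : Ec M E ≤ Lc M := by
  intro f hf
  obtain ⟨c, -, rfl⟩ := (mem_Ec_iff M E).1 hf
  exact cst_mem_Lc M c

theorem field_E_le_F : Ec M E ≤ Fc M E := by
  intro f hf
  exact Subfield.subset_closure (Or.inl hf)

theorem field_L_algebraic : ∀ a ∈ Lc M, IsAlgebraic (Ec M E) a := by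
  intro a ha
  obtain ⟨c, rfl⟩ := (mem_Lc_iff M).1 ha
  have hc : IsAlgebraic ℚ c := (AlgebraicClosure.isAlgebraic ℚ).isAlgebraic c
  obtain ⟨p, hp0, hp⟩ := hc
  -- the ring hom ℚ → Ec
  let φ : ℚ →+* Ec M E := algebraMap ℚ (Ec M E)
  refine ⟨p.map φ, (Polynomial.map_ne_zero_iff φ.injective).2 hp0, ?_⟩
  rw [Polynomial.aeval_def, Polynomial.eval₂_map]
  have hcomp : (algebraMap (Ec M E) (Om M)).comp φ = (algebraMap Qb (Om M)).comp (algebraMap ℚ Qb) :=
    RingHom.ext_rat _ _
  rw [hcomp, ← Polynomial.hom_eval₂]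
  rw [Polynomial.aeval_def] at hp
  rw [hp, map_zero]

theorem field_L_algClosed : IsAlgClosed (Lc M) := by
  let e : Qb ≃+* Lc M := RingEquiv.ofBijective (algebraMap Qb (Om M)).rangeRestrictField
    ⟨(algebraMap Qb (Om M)).rangeRestrictField.injective, fun ⟨y, c, hc⟩ => ⟨c, Subtype.ext hc⟩⟩
  exact IsAlgClosed.of_ringEquiv Qb (Lc M) e

end Fermat.Agent.S18.H456

end
end
-- ===== PACK-END S18/H456/ModBasic.lean

-- ===== PACK-BEGIN S20/Comb/Fixed.lean
section


/-!
# Fixed points of `S` and `S * T` on `SL(2,ℤ) ⧸ Gamma0 N`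

* `card_fixedBy_S : Nat.card (MulAction.fixedBy (SL(2,ℤ) ⧸ Gamma0 N) S) = nuTwo N`
* `card_fixedBy_ST : Nat.card (MulAction.fixedBy (SL(2,ℤ) ⧸ Gamma0 N) (S * T)) = nuThree N`
-/

set_option autoImplicit false

namespace Fermat.Agent.S20.Comb

open Matrix MatrixGroups CongruenceSubgroup

variable (N : ℕ)

/-- From a root of `x² + 1` in `ZMod N` to a fixed point of `S`. -/
noncomputable def rootToFixedS (x : {x : ZMod N // x ^ 2 + 1 = 0}) :
    MulAction.fixedBy (SL(2, ℤ) ⧸ Gamma0 N) ModularGroup.S :=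
  ⟨QuotientGroup.mk (colRep (ZMod.cast x.1 : ℤ)), by
    rw [MulAction.mem_fixedBy, S_smul_mk_eq_mk_iff]
    simp only [colRep_apply_zero_zero, colRep_apply_one_zero, ZMod.intCast_zmod_cast,
      Int.cast_one, one_pow]
    exact x.2⟩

lemma rootToFixedS_bijective : Function.Bijective (rootToFixedS N) := by
  constructor
  · rintro ⟨x, hx⟩ ⟨y, hy⟩ h
    have h' := congrArg Subtype.val h
    simp only [rootToFixedS] at h'
    rw [mk_eq_mk_iff] at h'
    simp only [colRep_apply_zero_zero, colRep_apply_one_zero, ZMod.intCast_zmod_cast,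
      Int.cast_one, mul_one, one_mul] at h'
    exact Subtype.ext (sub_eq_zero.mp h')
  · rintro ⟨q, hq⟩
    obtain ⟨g, rfl⟩ := QuotientGroup.mk_surjective q
    rw [MulAction.mem_fixedBy, S_smul_mk_eq_mk_iff] at hq
    have hinv := c_mul_inv_eq_one N g (-((g 1 0 : ℤ) : ZMod N)) (by linear_combination hq)
    set a : ZMod N := ((g 0 0 : ℤ) : ZMod N) with ha
    set c : ZMod N := ((g 1 0 : ℤ) : ZMod N) with hc
    set i : ZMod N := (-c * ((g 1 1 : ℤ) : ZMod N) ^ 2
        - 2 * a * ((g 0 1 : ℤ) : ZMod N) * ((g 1 1 : ℤ) : ZMod N)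
        + ((g 0 1 : ℤ) : ZMod N) ^ 2 * c) with hi
    refine ⟨⟨a * i, ?_⟩, ?_⟩
    · linear_combination (i ^ 2) * hq - (c * i + 1) * hinv
    · apply Subtype.ext
      simp only [rootToFixedS]
      rw [mk_eq_mk_iff]
      simp only [colRep_apply_zero_zero, colRep_apply_one_zero, ZMod.intCast_zmod_cast,
        Int.cast_one, one_mul]
      linear_combination a * hinv

/-- **(I2)** The number of fixed points of `S` on `SL(2,ℤ) ⧸ Γ₀(N)` is `ν₂(N)`. -/
theorem card_fixedBy_S :
    Nat.card (MulAction.fixedBy (SL(2, ℤ) ⧸ Gamma0 N) ModularGroup.S) = ModularCurve.nuTwo N := by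
  rw [ModularCurve.nuTwo]
  exact (Nat.card_eq_of_bijective _ (rootToFixedS_bijective N)).symm

/-- From a root of `x² + x + 1` in `ZMod N` to a fixed point of `S * T`. -/
noncomputable def rootToFixedST (x : {x : ZMod N // x ^ 2 + x + 1 = 0}) :
    MulAction.fixedBy (SL(2, ℤ) ⧸ Gamma0 N) (ModularGroup.S * ModularGroup.T) :=
  ⟨QuotientGroup.mk (colRep (ZMod.cast x.1 : ℤ)), by
    rw [MulAction.mem_fixedBy, ST_smul_mk_eq_mk_iff]
    simp only [colRep_apply_zero_zero, colRep_apply_one_zero, ZMod.intCast_zmod_cast,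
      Int.cast_one, one_pow, mul_one]
    exact x.2⟩

lemma rootToFixedST_bijective : Function.Bijective (rootToFixedST N) := by
  constructor
  · rintro ⟨x, hx⟩ ⟨y, hy⟩ h
    have h' := congrArg Subtype.val h
    simp only [rootToFixedST] at h'
    rw [mk_eq_mk_iff] at h'
    simp only [colRep_apply_zero_zero, colRep_apply_one_zero, ZMod.intCast_zmod_cast,
      Int.cast_one, mul_one, one_mul] at h'
    exact Subtype.ext (sub_eq_zero.mp h')
  · rintro ⟨q, hq⟩
    obtain ⟨g, rfl⟩ := QuotientGroup.mk_surjective q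
    rw [MulAction.mem_fixedBy, ST_smul_mk_eq_mk_iff] at hq
    have hinv := c_mul_inv_eq_one N g (-((g 0 0 : ℤ) : ZMod N) - ((g 1 0 : ℤ) : ZMod N))
      (by linear_combination hq)
    set a : ZMod N := ((g 0 0 : ℤ) : ZMod N) with ha
    set c : ZMod N := ((g 1 0 : ℤ) : ZMod N) with hc
    set i : ZMod N := ((-a - c) * ((g 1 1 : ℤ) : ZMod N) ^ 2
        - 2 * a * ((g 0 1 : ℤ) : ZMod N) * ((g 1 1 : ℤ) : ZMod N)
        + ((g 0 1 : ℤ) : ZMod N) ^ 2 * c) with hi
    refine ⟨⟨a * i, ?_⟩, ?_⟩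
    · linear_combination (i ^ 2) * hq - (c * i + 1 + a * i) * hinv
    · apply Subtype.ext
      simp only [rootToFixedST]
      rw [mk_eq_mk_iff]
      simp only [colRep_apply_zero_zero, colRep_apply_one_zero, ZMod.intCast_zmod_cast,
        Int.cast_one, one_mul]
      linear_combination a * hinv

/-- **(I3)** The number of fixed points of `S * T` on `SL(2,ℤ) ⧸ Γ₀(N)` is `ν₃(N)`. -/
theorem card_fixedBy_ST :
    Nat.card (MulAction.fixedBy (SL(2, ℤ) ⧸ Gamma0 N) (ModularGroup.S * ModularGroup.T))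
      = ModularCurve.nuThree N := by
  rw [ModularCurve.nuThree]
  exact (Nat.card_eq_of_bijective _ (rootToFixedST_bijective N)).symm

end Fermat.Agent.S20.Comb

end
-- ===== PACK-END S20/Comb/Fixed.lean

-- ===== PACK-BEGIN S18/H438/Front/Gauss.lean
section



/-!
# S18 / ALG-FRONT (helper438), part 2: the chart and the Gauss valuation ring

Setting: `F` a field, `R : Subring F`, `z : F`, `B := chartRing R z` (integral closure of `R[z]`),
`V : ValuationSubring F` ("Gauss valuation ring") and `w ∈ R` with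

* `hRV : ∀ r ∈ R, r ∈ V`, `hzV : z ∈ V`,
* `hwV : w⁻¹ ∉ V`, `hVgen : ∀ f ∈ V, f⁻¹ ∉ V → f * w⁻¹ ∈ V`   (`𝔪_V = w V`),
* `qep : ∀ b ∈ B, b * w⁻¹ ∈ V → b * w⁻¹ ∈ B`                  (`q`-expansion principle).

Results:

* `chartRing_le_valuationSubring` : `B ⊆ V`;
* `prime_chartUnif`               : `ϖ := w` is a prime element of `B`;
* `exists_fraction_of_mem_valuationSubring` : `V = B_(ϖ)`: every `v ∈ V` is `b / t`, `t ∉ ϖ B`;
* `oneModPi_of_sub_one_mem`       : `(u - 1) / w ∈ V` ⟹ `H754.OneModPi ϖ u`.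
-/

set_option autoImplicit false
set_option linter.style.haveILetI false
set_option linter.unusedSectionVars false

noncomputable section

namespace Fermat.Agent.S18.H438

open Polynomial

variable {F : Type*} [Field F] (R : Subring F) (z : F) (V : ValuationSubring F)

/-- `R[z] ⊆ V` as soon as `R ⊆ V` and `z ∈ V`. -/
theorem baseRing_le_valuationSubring (hRV : ∀ r ∈ R, r ∈ V) (hzV : z ∈ V) {f : F}
    (hf : f ∈ baseRing R z) : f ∈ V := by
  obtain ⟨P, rfl⟩ := exists_aeval_eq_of_mem_baseRing R z hf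
  rw [Polynomial.aeval_eq_sum_range]
  refine V.toSubring.sum_mem fun i _ => ?_
  rw [Algebra.smul_def]
  exact mul_mem (hRV _ (P.coeff i).2) (pow_mem hzV i)

/-- An element integral over a subring contained in `V` lies in `V`. -/
theorem mem_valuationSubring_of_isIntegral {A : Type*} [CommRing A] [Algebra A F]
    (hA : ∀ a : A, algebraMap A F a ∈ V) {f : F} (hf : IsIntegral A f) : f ∈ V := by
  -- transport integrality to `V`
  let i : A →+* V := (algebraMap A F).codRestrict V.toSubring hA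
  have hi : (algebraMap V F).comp i = algebraMap A F := by
    ext a; rfl
  have hint : IsIntegral V f := by
    obtain ⟨p, hp, hpf⟩ := hf
    refine ⟨p.map i, hp.map i, ?_⟩
    rw [Polynomial.eval₂_map, hi]
    exact hpf
  obtain ⟨y, hy⟩ := (IsIntegrallyClosed.isIntegral_iff (R := V) (K := F)).1 hint
  rw [← hy]
  exact y.2

/-- The chart is contained in the Gauss valuation ring. -/
theorem chartRing_le_valuationSubring (hRV : ∀ r ∈ R, r ∈ V) (hzV : z ∈ V) {f : F}
    (hf : f ∈ chartRing R z) : f ∈ V :=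
  mem_valuationSubring_of_isIntegral V
    (fun a => baseRing_le_valuationSubring R z V hRV hzV a.2) hf

variable {R z V}

/-- the uniformiser as an element of the chart -/
def chartUnif {w : F} (hwR : w ∈ R) : chartRing R z :=
  algebraMap (baseRing R z) (chartRing R z) ⟨w, coe_mem_baseRing R z ⟨w, hwR⟩⟩

@[simp] theorem coe_chartUnif {w : F} (hwR : w ∈ R) :
    ((chartUnif (z := z) hwR : chartRing R z) : F) = w := rfl

theorem algebraMap_chartUnif {w : F} (hwR : w ∈ R) :
    algebraMap (chartRing R z) F (chartUnif (z := z) hwR) = w := rfl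

/-- divisibility by `ϖ` in the chart, elementwise -/
theorem chartUnif_dvd_iff {w : F} (hwR : w ∈ R) (hw0 : w ≠ 0) (b : chartRing R z) :
    chartUnif (z := z) hwR ∣ b ↔ (b : F) * w⁻¹ ∈ chartRing R z := by
  constructor
  · rintro ⟨c, rfl⟩
    have : ((chartUnif (z := z) hwR * c : chartRing R z) : F) * w⁻¹ = (c : F) := by
      rw [MulMemClass.coe_mul, coe_chartUnif]
      field_simp
    rw [this]
    exact c.2
  · intro h
    refine ⟨⟨(b : F) * w⁻¹, h⟩, Subtype.ext ?_⟩
    rw [MulMemClass.coe_mul, coe_chartUnif]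
    field_simp

section Prime

variable {w : F} (hwR : w ∈ R) (hw0 : w ≠ 0) (hRV : ∀ r ∈ R, r ∈ V) (hzV : z ∈ V)
  (hwV : w⁻¹ ∉ V) (hVgen : ∀ f ∈ V, f⁻¹ ∉ V → f * w⁻¹ ∈ V)
  (qep : ∀ b ∈ chartRing R z, b * w⁻¹ ∈ V → b * w⁻¹ ∈ chartRing R z)

include hw0 hRV hzV hwV hVgen qep

/-- In `V`, an element which is not a unit is divisible by `w`; in particular for `a b ∈ V` with
`a * b ∈ w V` one of them is in `w V`. -/
theorem mem_smul_of_mul_mem {a b : F} (ha : a ∈ V) (hb : b ∈ V) (hab : a * b * w⁻¹ ∈ V) :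
    a * w⁻¹ ∈ V ∨ b * w⁻¹ ∈ V := by
  by_cases ha0 : a = 0
  · left; rw [ha0, zero_mul]; exact V.zero_mem
  by_cases hb0 : b = 0
  · right; rw [hb0, zero_mul]; exact V.zero_mem
  by_cases hau : a⁻¹ ∈ V
  · -- `a` is a unit of `V`
    right
    have : b * w⁻¹ = a⁻¹ * (a * b * w⁻¹) := by field_simp
    rw [this]
    exact mul_mem hau hab
  · left
    exact hVgen a ha hau

/-- **`ϖ` is a prime element of the chart.** -/
theorem prime_chartUnif : Prime (chartUnif (z := z) hwR) := by
  refine ⟨?_, ?_, ?_⟩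
  · intro h
    exact hw0 (congrArg Subtype.val h)
  · rintro ⟨⟨u, v, huv, hvu⟩, hu⟩
    have hv : (v : F) = w⁻¹ := by
      have h1 : (u : F) * (v : F) = 1 := congrArg Subtype.val huv
      have h2 : (u : F) = w := by
        have h3 : u = chartUnif (z := z) hwR := hu
        rw [h3]; rfl
      rw [h2] at h1
      exact eq_inv_of_mul_eq_one_right h1
    exact hwV (hv ▸ chartRing_le_valuationSubring R z V hRV hzV v.2)
  · intro a b hab
    rw [chartUnif_dvd_iff hwR hw0] at hab
    have haV := chartRing_le_valuationSubring R z V hRV hzV a.2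
    have hbV := chartRing_le_valuationSubring R z V hRV hzV b.2
    have habV : (a : F) * (b : F) * w⁻¹ ∈ V := by
      have := chartRing_le_valuationSubring R z V hRV hzV hab
      simpa using this
    rcases mem_smul_of_mul_mem hw0 hRV hzV hwV hVgen qep haV hbV habV with h | h
    · left
      rw [chartUnif_dvd_iff hwR hw0]
      exact qep _ a.2 h
    · right
      rw [chartUnif_dvd_iff hwR hw0]
      exact qep _ b.2 h

end Prime

section Fraction

variable {w : F} (hwR : w ∈ R) (hw0 : w ≠ 0) (hRV : ∀ r ∈ R, r ∈ V) (hzV : z ∈ V)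
  (hwV : w⁻¹ ∉ V) (hVgen : ∀ f ∈ V, f⁻¹ ∉ V → f * w⁻¹ ∈ V)
  (qep : ∀ b ∈ chartRing R z, b * w⁻¹ ∈ V → b * w⁻¹ ∈ chartRing R z)
  [IsFractionRing (chartRing R z) F] [IsNoetherianRing (chartRing R z)]

include hw0 hRV hzV hwV hVgen qep

/-- **`V = B_(ϖ)`.**  Every element of the Gauss valuation ring is a fraction `b / t` of elements
of the chart with `ϖ ∤ t`. -/
theorem exists_fraction_of_mem_valuationSubring {v : F} (hv : v ∈ V) :
    ∃ b t : chartRing R z, ¬ chartUnif (z := z) hwR ∣ t ∧ v * (t : F) = (b : F) := by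
  have hprime := prime_chartUnif hwR hw0 hRV hzV hwV hVgen qep
  obtain ⟨b₀, t₀, ht₀, hbt⟩ := IsFractionRing.div_surjective (A := chartRing R z) v
  have ht₀0 : t₀ ≠ 0 := nonZeroDivisors.ne_zero ht₀
  obtain ⟨n, t, hnt, rfl⟩ := WfDvdMonoid.max_power_factor ht₀0 hprime.irreducible
  -- `v * (ϖ ^ n * t) = b₀`
  have hv0 : v * ((chartUnif (z := z) hwR ^ n * t : chartRing R z) : F) = (b₀ : F) := by
    have hne : algebraMap (chartRing R z) F (chartUnif (z := z) hwR ^ n * t) ≠ 0 := by
      intro h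
      exact ht₀0 ((FaithfulSMul.algebraMap_injective (chartRing R z) F) (by rw [h, map_zero]))
    rw [← hbt]
    exact div_mul_cancel₀ _ hne
  -- strip the powers of `ϖ`
  have key : ∀ (n : ℕ) (b : chartRing R z),
      v * ((chartUnif (z := z) hwR ^ n * t : chartRing R z) : F) = (b : F) →
      ∃ b' : chartRing R z, v * (t : F) = (b' : F) := by
    intro n
    induction n with
    | zero => intro b hb; exact ⟨b, by simpa using hb⟩
    | succ n ih =>
      intro b hb
      -- `b / w = v * ϖ ^ n * t ∈ V`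
      have hbw : (b : F) * w⁻¹ = v * ((chartUnif (z := z) hwR ^ n * t : chartRing R z) : F) := by
        rw [← hb]
        simp only [MulMemClass.coe_mul, SubmonoidClass.coe_pow, coe_chartUnif, pow_succ]
        field_simp
      have hmemV : (b : F) * w⁻¹ ∈ V := by
        rw [hbw]
        exact mul_mem hv (chartRing_le_valuationSubring R z V hRV hzV (Subtype.mem _))
      have hmemB := qep _ b.2 hmemV
      exact ih ⟨(b : F) * w⁻¹, hmemB⟩ hbw.symm
  obtain ⟨b', hb'⟩ := key n b₀ hv0
  exact ⟨b', t, hnt, hb'⟩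

/-- **`OneModPi`**: if `(u - 1) / w ∈ V` then `u = a / s` with `a ≡ s mod ϖ`, `ϖ ∤ s`
(the hypothesis shape of the Kummer pieces `H754`). -/
theorem oneModPi_of_sub_one_mem {u : F} (hu : (u - 1) * w⁻¹ ∈ V) :
    H754.OneModPi (chartUnif (z := z) hwR) u := by
  obtain ⟨b, t, ht, hbt⟩ :=
    exists_fraction_of_mem_valuationSubring hwR hw0 hRV hzV hwV hVgen qep hu
  refine ⟨t + chartUnif (z := z) hwR * b, t, ?_, ?_, ?_⟩
  · rw [Ideal.mem_span_singleton]; exact ht
  · rw [Ideal.mem_span_singleton]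
    exact ⟨b, by ring⟩
  · show u * (t : F) = ((t + chartUnif (z := z) hwR * b : chartRing R z) : F)
    simp only [AddMemClass.coe_add, MulMemClass.coe_mul, coe_chartUnif, ← hbt]
    field_simp
    ring

end Fraction

end Fermat.Agent.S18.H438

end
end
-- ===== PACK-END S18/H438/Front/Gauss.lean

-- ===== PACK-BEGIN S18/H438/Front/Transport.lean
section




/-!
# S18 / ALG-FRONT (helper438), part 4: from `Alg.GoodModel` (sub-objects of `Ω`) to the field `Fc`

For `G : Alg.GoodModel Lc Ec Fc R V w x S` we define, inside the field `↥Fc`: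

* `Rf Fc R : Subring Fc`             (the DVR `R`),
* `Vf G : ValuationSubring Fc`       (the Gauss valuation ring),
* `xf G, wf G : Fc`                  (coordinate, uniformiser),

and prove the hypotheses of `Front/Chart.lean` and `Front/Gauss.lean` for both charts
(`z = xf G` and `z = (xf G)⁻¹`).
-/

set_option autoImplicit false
set_option linter.style.haveILetI false
set_option linter.unusedSectionVars false

noncomputable section

namespace Fermat.Agent.S18.H438

open Alg Polynomial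

variable {Ω : Type*} [Field Ω] {Lc Ec Fc : Subfield Ω} {R V : Subring Ω} {w x : Ω}
  {S : Finset Ω}

/-- `R` as a subring of the field `Fc`. -/
def Rf (Fc : Subfield Ω) (R : Subring Ω) : Subring Fc := R.comap Fc.subtype

theorem mem_Rf {f : Fc} : f ∈ Rf Fc R ↔ (f : Ω) ∈ R := Iff.rfl

namespace GoodModelFront

variable (G : GoodModel Lc Ec Fc R V w x S)

include G in
theorem R_le_Fc {r : Ω} (hr : r ∈ R) : r ∈ Fc := G.E_le_F (G.R_le hr)

include G in
theorem w_mem_Fc : w ∈ Fc := R_le_Fc G G.w_mem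

/-- the coordinate as an element of `Fc` -/
def xf : Fc := ⟨x, G.x_mem⟩

/-- the uniformiser as an element of `Fc` -/
def wf : Fc := ⟨w, w_mem_Fc G⟩

@[simp] theorem coe_xf : ((xf G : Fc) : Ω) = x := rfl
@[simp] theorem coe_wf : ((wf G : Fc) : Ω) = w := rfl

/-- the Gauss valuation ring as a valuation subring of `Fc` -/
def Vf : ValuationSubring Fc :=
  { V.comap Fc.subtype with
    mem_or_inv_mem' := fun f => by
      rcases G.V_total f f.2 with h | h
      · exact Or.inl h
      · exact Or.inr h }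

theorem mem_Vf {f : Fc} : f ∈ Vf G ↔ (f : Ω) ∈ V := Iff.rfl

include G

theorem wf_mem_Rf : wf G ∈ Rf Fc R := G.w_mem

theorem wf_ne_zero : wf G ≠ 0 := fun h => G.w_ne_zero (congrArg Subtype.val h)

theorem wf_inv_not_mem_Rf : (wf G)⁻¹ ∉ Rf Fc R := fun h => G.w_inv_not_mem h

theorem wf_inv_not_mem_Vf : (wf G)⁻¹ ∉ Vf G := fun h => G.w_inv_not_mem_V h

theorem Rf_le_Vf : ∀ r ∈ Rf Fc R, r ∈ Vf G := fun _ hr => G.R_le_V hr

theorem Vf_gen : ∀ f ∈ Vf G, f⁻¹ ∉ Vf G → f * (wf G)⁻¹ ∈ Vf G :=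
  fun f hf hinv => G.V_gen f hf hinv

theorem Rf_disc : ∀ r ∈ Rf Fc R, r ≠ 0 →
    ∃ n : ℕ, r * ((wf G)⁻¹) ^ n ∈ Rf Fc R ∧ (r * ((wf G)⁻¹) ^ n)⁻¹ ∈ Rf Fc R := by
  intro r hr hr0
  have hr0' : (r : Ω) ≠ 0 := fun h => hr0 (Subtype.ext h)
  obtain ⟨n, h1, h2⟩ := G.w_discrete r hr hr0'
  exact ⟨n, h1, h2⟩

/-- **`R` is a discrete valuation ring.** -/
theorem isDiscreteValuationRing_Rf : IsDiscreteValuationRing (Rf Fc R) :=
  isDiscreteValuationRing_of_disc (Rf Fc R) (wf_mem_Rf G) (wf_ne_zero G)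
    (wf_inv_not_mem_Rf G) (Rf_disc G)

theorem irreducible_wf : Irreducible (⟨wf G, wf_mem_Rf G⟩ : Rf Fc R) :=
  irreducible_unif_of_disc (Rf Fc R) (wf_mem_Rf G) (wf_ne_zero G)
    (wf_inv_not_mem_Rf G) (Rf_disc G)

theorem charZero_Fc : CharZero Fc :=
  haveI := G.charZero
  RingHom.charZero Fc.subtype

/-- `x ∈ V` (field `x_mem_V` of the v4 interface). -/
theorem xf_mem_Vf : xf G ∈ Vf G := G.x_mem_V

/-- `x⁻¹ ∈ V` (Gauss). -/
theorem xf_inv_mem_Vf : (xf G)⁻¹ ∈ Vf G := by
  have h := G.gauss (Polynomial.X : Polynomial Ω)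
    (fun i => by
      rw [Polynomial.coeff_X]
      split_ifs
      · exact R.one_mem
      · exact R.zero_mem)
    ⟨1, by simp, by simp [R.one_mem]⟩
  rw [Polynomial.eval_X] at h
  exact h

end GoodModelFront

end Fermat.Agent.S18.H438

end
end
-- ===== PACK-END S18/H438/Front/Transport.lean

-- ===== PACK-BEGIN S18/H754/HncUnram.lean
section


/-!
# S18 / ALG-FRONT / hNC adapter: `(π)` is radical in the chart `B` when the generic fibre is
unramified over the zeros of `π`

* `isDiscreteValuationRing_atPrime_of_height_one`, `exists_dvd_or_dvd_of_height_one` (N3):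
  `B_𝔓` is a valuation ring for a height-one prime `𝔓` of a Noetherian normal domain.
* `exists_valuationSubring_dominating` (N4): a valuation subring of `Ω ⊇ B` dominating `B_𝔓`.
* `isRadical_span_of_unramified` (N5, main): see the statement.
-/

set_option autoImplicit false

noncomputable section

namespace Fermat.Agent.S18.H754

open IsLocalRing

section HeightOne

variable {B : Type*} [CommRing B] [IsDomain B] [IsNoetherianRing B] [IsIntegrallyClosed B]

/-- Localisation at a height-one prime of a Noetherian normal domain is a DVR. -/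
theorem isDiscreteValuationRing_atPrime_of_height_one (𝔭 : Ideal B) [h𝔭 : 𝔭.IsPrime]
    (h : 𝔭.height = 1) : IsDiscreteValuationRing (Localization.AtPrime 𝔭) := by
  set A := Localization.AtPrime 𝔭 with hA
  haveI : IsNoetherianRing A := IsLocalization.isNoetherianRing 𝔭.primeCompl A inferInstance
  haveI : IsIntegrallyClosed A :=
    isIntegrallyClosed_of_isLocalization A 𝔭.primeCompl 𝔭.primeCompl_le_nonZeroDivisors
  have h𝔭bot : 𝔭 ≠ ⊥ := Ideal.ne_bot_of_height_eq_one h
  have hmax : maximalIdeal A = 𝔭.map (algebraMap B A) :=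
    (IsLocalization.AtPrime.map_eq_maximalIdeal 𝔭 A).symm
  have hinj : Function.Injective (algebraMap B A) :=
    IsLocalization.injective A 𝔭.primeCompl_le_nonZeroDivisors
  have hnf : ¬ IsField A := by
    rw [isField_iff_maximalIdeal_eq]
    intro hbot
    obtain ⟨x, hx, hx0⟩ := Submodule.exists_mem_ne_zero_of_ne_bot h𝔭bot
    have hxmem : algebraMap B A x ∈ maximalIdeal A := by
      rw [hmax]; exact Ideal.mem_map_of_mem _ hx
    rw [hbot, Ideal.mem_bot] at hxmem
    exact hx0 (hinj (by rw [hxmem, map_zero]))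
  have huniq : ∀ P : Ideal A, P ≠ ⊥ → P.IsPrime → P = maximalIdeal A := by
    intro P hP hPprime
    have hP' : (P.comap (algebraMap B A)).IsPrime := Ideal.comap_isPrime _ _
    have hmapcomap : (P.comap (algebraMap B A)).map (algebraMap B A) = P :=
      IsLocalization.map_comap 𝔭.primeCompl A P
    have hle : P.comap (algebraMap B A) ≤ 𝔭 := by
      have hdisj : Disjoint (𝔭.primeCompl : Set B) (P.comap (algebraMap B A) : Set B) :=
        ((IsLocalization.isPrime_iff_isPrime_disjoint 𝔭.primeCompl A P).1 hPprime).2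
      intro x hx
      by_contra hx𝔭
      exact Set.disjoint_left.1 hdisj hx𝔭 hx
    have hne : P.comap (algebraMap B A) ≠ ⊥ := by
      intro h0
      apply hP
      rw [← hmapcomap, h0, Ideal.map_bot]
    have h1 : 𝔭.height ≤ (P.comap (algebraMap B A)).height := by
      rw [h]
      rw [Order.one_le_iff_pos, pos_iff_ne_zero]
      intro h0
      rw [Ideal.height_eq_zero_iff, IsDomain.minimalPrimes_eq_singleton_bot,
        Set.mem_singleton_iff] at h0
      exact hne h0
    have hfin : (P.comap (algebraMap B A)).FiniteHeight := by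
      refine ⟨Or.inr ?_⟩
      intro htop
      have h2 := Ideal.height_mono hle
      rw [htop, h, top_le_iff] at h2
      exact ENat.one_ne_top h2
    have heq : P.comap (algebraMap B A) = 𝔭 := by
      by_contra hne'
      have hlt : P.comap (algebraMap B A) < 𝔭 := lt_of_le_of_ne hle hne'
      have h3 := Ideal.height_strict_mono_of_isPrime hlt
      exact absurd (lt_of_lt_of_le h3 h1) (lt_irrefl _)
    calc P = (P.comap (algebraMap B A)).map (algebraMap B A) := hmapcomap.symm
      _ = 𝔭.map (algebraMap B A) := by rw [heq]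
      _ = maximalIdeal A := hmax.symm
  have htfae := (IsDiscreteValuationRing.TFAE A hnf).out 0 3
  rw [htfae]
  refine ⟨inferInstance, maximalIdeal A, ⟨?_, inferInstance⟩, ?_⟩
  · exact isField_iff_maximalIdeal_eq.not.1 hnf
  · rintro P ⟨hP, hPprime⟩
    exact huniq P hP hPprime

/-- `B_𝔓` is a valuation ring (elementwise). -/
theorem exists_dvd_or_dvd_of_height_one (𝔭 : Ideal B) [h𝔭 : 𝔭.IsPrime] (h : 𝔭.height = 1)
    (a c : B) : ∃ s : B, s ∉ 𝔭 ∧ (c ∣ s * a ∨ a ∣ s * c) := by
  haveI := isDiscreteValuationRing_atPrime_of_height_one 𝔭 h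
  haveI : ValuationRing (Localization.AtPrime 𝔭) :=
    ValuationRing.iff_local_bezout_domain.mpr ⟨inferInstance, inferInstance⟩
  have hinj : Function.Injective (algebraMap B (Localization.AtPrime 𝔭)) :=
    IsLocalization.injective _ 𝔭.primeCompl_le_nonZeroDivisors
  have key : ∀ a c : B, algebraMap B (Localization.AtPrime 𝔭) a ∣
      algebraMap B (Localization.AtPrime 𝔭) c → ∃ s : B, s ∉ 𝔭 ∧ a ∣ s * c := by
    intro a c ⟨r, hr⟩
    obtain ⟨r₁, ⟨s₁, hs₁⟩, rfl⟩ := IsLocalization.exists_mk'_eq 𝔭.primeCompl r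
    refine ⟨s₁, hs₁, r₁, ?_⟩
    apply hinj
    have h1 : IsLocalization.mk' (Localization.AtPrime 𝔭) r₁ ⟨s₁, hs₁⟩ *
        algebraMap B (Localization.AtPrime 𝔭) s₁ = algebraMap B (Localization.AtPrime 𝔭) r₁ :=
      IsLocalization.mk'_spec _ r₁ ⟨s₁, hs₁⟩
    rw [map_mul, map_mul, hr, ← h1]
    ring
  rcases ValuationRing.dvd_total (algebraMap B (Localization.AtPrime 𝔭) a)
      (algebraMap B (Localization.AtPrime 𝔭) c) with h1 | h1
  · obtain ⟨s, hs, hd⟩ := key a c h1
    exact ⟨s, hs, Or.inr hd⟩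
  · obtain ⟨s, hs, hd⟩ := key c a h1
    exact ⟨s, hs, Or.inl hd⟩

end HeightOne

section Dominate

variable {B : Type*} [CommRing B] [IsDomain B]
  {Ω : Type*} [Field Ω] [Algebra B Ω] [FaithfulSMul B Ω]

/-- A valuation subring of `Ω ⊇ B` dominating `B_𝔓`. -/
theorem exists_valuationSubring_dominating (𝔭 : Ideal B) [h𝔭 : 𝔭.IsPrime] :
    ∃ O : ValuationSubring Ω, (∀ b : B, algebraMap B Ω b ∈ O) ∧
      (∀ b : B, b ∉ 𝔭 → (algebraMap B Ω b)⁻¹ ∈ O) ∧
      (∀ b : B, b ∈ 𝔭 → b ≠ 0 → (algebraMap B Ω b)⁻¹ ∉ O) := by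
  classical
  have hinj : Function.Injective (algebraMap B Ω) := FaithfulSMul.algebraMap_injective B Ω
  have hunit : ∀ y : 𝔭.primeCompl, IsUnit (algebraMap B Ω y) := by
    intro y
    rw [isUnit_iff_ne_zero]
    intro h0
    have : (y : B) = 0 := hinj (by rw [h0, map_zero])
    exact y.2 (this ▸ 𝔭.zero_mem)
  let f : Localization.AtPrime 𝔭 →+* Ω := IsLocalization.lift hunit
  have hf : ∀ b : B, f (algebraMap B (Localization.AtPrime 𝔭) b) = algebraMap B Ω b :=
    fun b => IsLocalization.lift_eq hunit b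
  have hfinj : Function.Injective f := by
    rw [IsLocalization.lift_injective_iff]
    intro a b
    rw [(IsLocalization.injective (Localization.AtPrime 𝔭)
      𝔭.primeCompl_le_nonZeroDivisors).eq_iff, hinj.eq_iff]
  let A : LocalSubring Ω := LocalSubring.range f
  obtain ⟨O, hO⟩ := A.exists_le_valuationSubring
  obtain ⟨hle, hloc⟩ := hO
  have hAmem : ∀ r : Localization.AtPrime 𝔭, f r ∈ A.toSubring := fun r => ⟨r, rfl⟩
  have hOmem : ∀ r : Localization.AtPrime 𝔭, f r ∈ O := fun r => hle (hAmem r)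
  refine ⟨O, fun b => ?_, fun b hb => ?_, fun b hb hb0 hinv => ?_⟩
  · rw [← hf b]
    exact hOmem _
  · have h1 : f (IsLocalization.mk' (Localization.AtPrime 𝔭) 1 (⟨b, hb⟩ : 𝔭.primeCompl)) =
        (algebraMap B Ω b)⁻¹ := by
      have hb0 : algebraMap B Ω b ≠ 0 := (hunit ⟨b, hb⟩).ne_zero
      rw [IsLocalization.lift_mk'_spec, map_one]
      exact (mul_inv_cancel₀ hb0).symm
    rw [← h1]
    exact hOmem _
  · -- `algebraMap b` would be a unit of `O`, hence of `A`, hence of `B_𝔓`
    have hb' : algebraMap B Ω b ≠ 0 := fun h0 => hb0 (hinj (by rw [h0, map_zero]))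
    let xA : A.toSubring := ⟨algebraMap B Ω b, by rw [← hf b]; exact hAmem _⟩
    have hu : IsUnit (Subring.inclusion hle xA) := by
      rw [isUnit_iff_exists_inv]
      refine ⟨⟨(algebraMap B Ω b)⁻¹, hinv⟩, ?_⟩
      apply Subtype.ext
      change algebraMap B Ω b * (algebraMap B Ω b)⁻¹ = 1
      exact mul_inv_cancel₀ hb'
    have hu' : IsUnit xA := hloc.map_nonunit xA hu
    obtain ⟨⟨y, r, hr⟩, hy⟩ := isUnit_iff_exists_inv.1 hu'
    have h2 : algebraMap B Ω b * f r = 1 := by
      have := congrArg Subtype.val hy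
      simpa [xA, ← hr] using this
    have h3 : f (algebraMap B (Localization.AtPrime 𝔭) b * r) = f 1 := by
      rw [map_mul, hf, h2, map_one]
    have h4 : algebraMap B (Localization.AtPrime 𝔭) b * r = 1 := hfinj h3
    have h5 : IsUnit (algebraMap B (Localization.AtPrime 𝔭) b) :=
      IsUnit.of_mul_eq_one _ h4
    have h6 := (IsLocalization.AtPrime.isUnit_to_map_iff (Localization.AtPrime 𝔭) 𝔭 b).1 h5
    exact h6 hb

end Dominate

end Fermat.Agent.S18.H754

end

end
-- ===== PACK-END S18/H754/HncUnram.lean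

-- ===== PACK-BEGIN S18/H754/HncMain.lean
section


/-!
# S18 / ALG-FRONT / hNC adapter, main theorem

`B` Noetherian normal domain inside a field `Ω`, `Lc ≤ Ω` a subfield of constants,
`π = lc * ∏_{c ∈ roots} (x - c)` in `Ω` with pairwise distinct `c ∈ Lc ∖ S`, `lc ∈ Lc ∖ {0}`.
Hypotheses:
* `hw`/`hLc`  : some `w ∈ B` lies in no height-one prime containing `π`, and every constant
  becomes integral over `B` after multiplication by a power of `w` (so `Lc ⊆ O` for every
  valuation ring `O` of `Ω` dominating `B_𝔓`);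
* `hunr`     : the `unramified` field of `Alg.GoodModel`, verbatim.
Conclusion: `(π)` is a radical ideal of `B`  (= hypothesis `hNC` of `B12.B2RegularStatement`).
-/

set_option autoImplicit false

noncomputable section

namespace Fermat.Agent.S18.H754

section Main

variable {B : Type*} [CommRing B] [IsDomain B] [IsNoetherianRing B] [IsIntegrallyClosed B]
  {Ω : Type*} [Field Ω] [Algebra B Ω] [FaithfulSMul B Ω]

omit [IsDomain B] [IsNoetherianRing B] [IsIntegrallyClosed B] [FaithfulSMul B Ω] in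
/-- elements integral over `B` lie in every valuation subring containing `B`. -/
theorem mem_valuationSubring_of_isIntegral (O : ValuationSubring Ω)
    (hB : ∀ b : B, algebraMap B Ω b ∈ O) {a : Ω} (ha : IsIntegral B a) : a ∈ O := by
  obtain ⟨P, hP, hPa⟩ := ha
  let g : B →+* O := (algebraMap B Ω).codRestrict O.toSubring hB
  have hint : IsIntegral O a := by
    refine ⟨P.map g, hP.map g, ?_⟩
    rw [Polynomial.eval₂_map]
    exact hPa
  obtain ⟨y, hy⟩ := IsIntegrallyClosed.isIntegral_iff.1 hint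
  rw [← hy]
  exact y.2

/-- **hNC adapter** (abstract form). -/
theorem isRadical_span_of_unramified (Lc : Subfield Ω) (π : B) (hπ : π ≠ 0)
    (w : B) (hw : ∀ 𝔓 : Ideal B, 𝔓.IsPrime → 𝔓.height = 1 → π ∈ 𝔓 → w ∉ 𝔓)
    (hLc : ∀ a ∈ Lc, ∃ n : ℕ, IsIntegral B (algebraMap B Ω w ^ n * a))
    (x : Ω) (S : Finset Ω) (roots : Finset Ω) (hroots : ∀ c ∈ roots, c ∈ Lc ∧ c ∉ S)
    (lc : Ω) (hlc : lc ∈ Lc) (hlc0 : lc ≠ 0)
    (hfac : algebraMap B Ω π = lc * ∏ c ∈ roots, (x - c))
    (hunr : ∀ O : ValuationSubring Ω, (∀ a ∈ Lc, a ∈ O) → ∀ c ∈ Lc, c ∉ S →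
        x - c ∈ O → (x - c)⁻¹ ∉ O → ∀ t ∈ O, t⁻¹ ∉ O → t * (x - c)⁻¹ ∈ O) :
    (Ideal.span {π}).IsRadical := by
  classical
  have hinj : Function.Injective (algebraMap B Ω) := FaithfulSMul.algebraMap_injective B Ω
  refine isRadical_span_singleton_of_local_gen π hπ ?_
  intro 𝔓 h𝔓 hht hπ𝔓 b hb𝔓
  haveI := h𝔓
  by_cases hb0 : b = 0
  · refine ⟨1, ?_, ?_⟩
    · exact fun h1 => h𝔓.ne_top ((Ideal.eq_top_iff_one _).2 h1)
    · rw [hb0, mul_zero]; exact dvd_zero _
  obtain ⟨O, hBO, hunitO, hnonunitO⟩ := exists_valuationSubring_dominating (Ω := Ω) 𝔓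
  set v := O.valuation with hv
  have hvle : ∀ y : Ω, v y ≤ 1 ↔ y ∈ O := fun y => O.valuation_le_one_iff y
  -- valuations of elements of `B`
  have hvB : ∀ b : B, v (algebraMap B Ω b) ≤ 1 := fun b => (hvle _).2 (hBO b)
  have hvunit : ∀ b : B, b ∉ 𝔓 → v (algebraMap B Ω b) = 1 := by
    intro b hb
    have hb0 : algebraMap B Ω b ≠ 0 := by
      intro h0
      have : b = 0 := hinj (by rw [h0, map_zero])
      exact hb (this ▸ 𝔓.zero_mem)
    have h1 := (hvle _).2 (hunitO b hb)
    rw [map_inv₀] at h1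
    have h2 := hvB b
    have hne : v (algebraMap B Ω b) ≠ 0 := (Valuation.ne_zero_iff v).2 hb0
    have h3 : 1 ≤ v (algebraMap B Ω b) := by
      rwa [inv_le_one₀ (zero_lt_iff.2 hne)] at h1
    exact le_antisymm h2 h3
  have hvlt : ∀ b : B, b ∈ 𝔓 → v (algebraMap B Ω b) < 1 := by
    intro b hb
    by_cases hb0 : b = 0
    · rw [hb0, map_zero, map_zero]; exact zero_lt_one
    have hb0' : algebraMap B Ω b ≠ 0 := fun h0 => hb0 (hinj (by rw [h0, map_zero]))
    have h1 := hnonunitO b hb hb0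
    rw [← hvle, map_inv₀, not_le] at h1
    have hne : v (algebraMap B Ω b) ≠ 0 := (Valuation.ne_zero_iff v).2 hb0'
    exact (one_lt_inv₀ (zero_lt_iff.2 hne)).1 h1
  -- constants lie in `O`
  have hLcO : ∀ a ∈ Lc, a ∈ O := by
    intro a ha
    obtain ⟨n, hn⟩ := hLc a ha
    have h1 : algebraMap B Ω w ^ n * a ∈ O := mem_valuationSubring_of_isIntegral O hBO hn
    have hw𝔓 := hw 𝔓 h𝔓 hht hπ𝔓
    have h2 : v (algebraMap B Ω w ^ n * a) ≤ 1 := (hvle _).2 h1
    rw [map_mul, map_pow, hvunit w hw𝔓, one_pow, one_mul] at h2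
    exact (hvle _).1 h2
  have hvLc : ∀ a ∈ Lc, a ≠ 0 → v a = 1 := by
    intro a ha ha0
    have h1 : v a ≤ 1 := (hvle _).2 (hLcO a ha)
    have h2 : v a⁻¹ ≤ 1 := (hvle _).2 (hLcO _ (Lc.inv_mem ha))
    rw [map_inv₀] at h2
    have hne : v a ≠ 0 := (Valuation.ne_zero_iff v).2 ha0
    have h3 : 1 ≤ v a := by rwa [inv_le_one₀ (zero_lt_iff.2 hne)] at h2
    exact le_antisymm h1 h3
  -- the valuation of `π`
  have hπ0 : algebraMap B Ω π ≠ 0 := fun h0 => hπ (hinj (by rw [h0, map_zero]))
  have hvπ : v (algebraMap B Ω π) < 1 := hvlt π hπ𝔓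
  have hprod : v (algebraMap B Ω π) = ∏ c ∈ roots, v (x - c) := by
    rw [hfac, map_mul, hvLc lc hlc hlc0, one_mul, map_prod]
  have hfactor0 : ∀ c ∈ roots, x - c ≠ 0 := by
    intro c hc h0
    apply hπ0
    rw [hfac, Finset.prod_eq_zero hc h0, mul_zero]
  -- `x ∈ O`
  have hxO : v x ≤ 1 := by
    by_contra hx
    rw [not_le] at hx
    have h1 : ∀ c ∈ roots, 1 ≤ v (x - c) := by
      intro c hc
      have hcv : v c ≤ 1 := (hvle _).2 (hLcO c (hroots c hc).1)
      have : v (x - c) = v x := Valuation.map_sub_eq_of_lt_left v (lt_of_le_of_lt hcv hx)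
      rw [this]
      exact hx.le
    have h2 : 1 ≤ ∏ c ∈ roots, v (x - c) := Finset.one_le_prod' h1
    rw [← hprod] at h2
    exact absurd hvπ (not_lt.2 h2)
  have hfle : ∀ c ∈ roots, v (x - c) ≤ 1 := by
    intro c hc
    have hcv : v c ≤ 1 := (hvle _).2 (hLcO c (hroots c hc).1)
    exact (Valuation.map_sub v x c).trans (max_le hxO hcv)
  -- some factor is a non-unit
  have hex : ∃ c₀ ∈ roots, v (x - c₀) < 1 := by
    by_contra hcon
    have h1 : ∀ c ∈ roots, v (x - c) = 1 := by
      intro c hc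
      by_contra hne
      exact hcon ⟨c, hc, lt_of_le_of_ne (hfle c hc) hne⟩
    rw [hprod, Finset.prod_eq_one h1] at hvπ
    exact lt_irrefl _ hvπ
  obtain ⟨c₀, hc₀, hvc₀⟩ := hex
  have hother : ∀ c ∈ roots.erase c₀, v (x - c) = 1 := by
    intro c hc
    rw [Finset.mem_erase] at hc
    have h1 : x - c = (x - c₀) + (c₀ - c) := by ring
    have h2 : v (c₀ - c) = 1 :=
      hvLc _ (Lc.sub_mem (hroots c₀ hc₀).1 (hroots c hc.2).1) (sub_ne_zero.2 (Ne.symm hc.1))
    rw [h1, Valuation.map_add_eq_of_lt_right v (by rw [h2]; exact hvc₀), h2]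
  have hvπ' : v (algebraMap B Ω π) = v (x - c₀) := by
    rw [hprod, ← Finset.mul_prod_erase roots _ hc₀, Finset.prod_eq_one hother, mul_one]
  -- apply `unramified`
  have hkey : ∀ t : Ω, t ≠ 0 → v t < 1 → v t ≤ v (algebraMap B Ω π) := by
    intro t ht0 hvt
    have hc₀0 := hfactor0 c₀ hc₀
    have hne : v (x - c₀) ≠ 0 := (Valuation.ne_zero_iff v).2 hc₀0
    have hnet : v t ≠ 0 := (Valuation.ne_zero_iff v).2 ht0
    have h1 : (x - c₀)⁻¹ ∉ O := by
      rw [← hvle, map_inv₀, not_le]
      exact (one_lt_inv₀ (zero_lt_iff.2 hne)).2 hvc₀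
    have h2 : t⁻¹ ∉ O := by
      rw [← hvle, map_inv₀, not_le]
      exact (one_lt_inv₀ (zero_lt_iff.2 hnet)).2 hvt
    have h3 := hunr O hLcO c₀ (hroots c₀ hc₀).1 (hroots c₀ hc₀).2
      ((hvle _).1 hvc₀.le) h1 t ((hvle _).1 hvt.le) h2
    rw [← hvle, map_mul, map_inv₀] at h3
    rw [hvπ']
    rwa [← div_eq_mul_inv, div_le_one₀ (zero_lt_iff.2 hne)] at h3
  -- `B_𝔓` is a valuation ring
  have hb0' : algebraMap B Ω b ≠ 0 := fun h0 => hb0 (hinj (by rw [h0, map_zero]))
  obtain ⟨s, hs, hd | hd⟩ := exists_dvd_or_dvd_of_height_one 𝔓 hht b π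
  · exact ⟨s, hs, hd⟩
  · obtain ⟨d, hd⟩ := hd
    -- `s π = b d`, so `v d = v π / v b ≥ 1`, so `d ∉ 𝔓`
    have h1 : v (algebraMap B Ω π) = v (algebraMap B Ω b) * v (algebraMap B Ω d) := by
      have := congrArg (fun y => v (algebraMap B Ω y)) hd
      simp only [map_mul] at this
      rwa [hvunit s hs, one_mul] at this
    have h2 := hkey _ hb0' (hvlt b hb𝔓)
    have hd𝔓 : d ∉ 𝔓 := by
      intro hd𝔓
      have h3 := hvlt d hd𝔓
      have hnb : v (algebraMap B Ω b) ≠ 0 := (Valuation.ne_zero_iff v).2 hb0'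
      have h4 : v (algebraMap B Ω b) * v (algebraMap B Ω d) < v (algebraMap B Ω b) * 1 :=
        mul_lt_mul_of_pos_left h3 (zero_lt_iff.2 hnb)
      rw [mul_one, ← h1] at h4
      exact absurd h2 (not_le.2 h4)
    refine ⟨d, hd𝔓, s, ?_⟩
    rw [mul_comm d b, ← hd, mul_comm]

end Main

end Fermat.Agent.S18.H754

end

end
-- ===== PACK-END S18/H754/HncMain.lean

-- ===== PACK-BEGIN S55/Bridge/InertiaConj.lean
section


/-!
# S55 bridge: inertia groups of valuation subrings of `ℚ̄` — membership criterion, conjugation,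
and normal (Galois) levels unramified outside `S`.
-/

set_option autoImplicit false

namespace Fermat.Agent.S55.Bridge

open IntermediateField
open scoped Pointwise

attribute [local instance] isAlgebraic_Qbar isGalois_Qbar

section inertia

variable (A : ValuationSubring (AlgebraicClosure ℚ))

/-- Membership in the decomposition group, elementwise. -/
theorem mem_decompositionSubgroup_iff (σ : AlgebraicClosure ℚ ≃ₐ[ℚ] AlgebraicClosure ℚ) :
    σ ∈ A.decompositionSubgroup ℚ ↔ ∀ x, σ x ∈ A ↔ x ∈ A := by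
  rw [MulAction.mem_stabilizer_iff]
  constructor
  · intro h x
    have hinv : σ⁻¹ • A = A := by
      conv_lhs => rw [← h]
      rw [inv_smul_smul]
    have h1 := ValuationSubring.mem_pointwise_smul_iff_inv_smul_mem (S := A)
      (g := σ⁻¹) (x := x)
    rw [hinv, inv_inv] at h1
    rw [h1]
    rfl
  · intro h
    apply SetLike.ext
    intro x
    rw [ValuationSubring.mem_pointwise_smul_iff_inv_smul_mem]
    have h2 := h (σ⁻¹ • x)
    rw [AlgEquiv.smul_def] at h2 ⊢
    rw [← h2]
    have : σ (σ⁻¹ x) = x := by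
      show (σ * σ⁻¹) x = x
      rw [mul_inv_cancel]
      rfl
    rw [this]

/-- Membership in the inertia group, elementwise. -/
theorem mem_inertiaSubgroupIn_iff (σ : AlgebraicClosure ℚ ≃ₐ[ℚ] AlgebraicClosure ℚ) :
    σ ∈ A.inertiaSubgroupIn ℚ ↔
      σ ∈ A.decompositionSubgroup ℚ ∧ ∀ z ∈ A, σ z - z ∈ A.nonunits := by
  constructor
  · intro hσ
    have hD : σ ∈ A.decompositionSubgroup ℚ := by
      obtain ⟨g, -, rfl⟩ := hσ
      exact g.2
    refine ⟨hD, fun z hz => ?_⟩
    rw [ValuationSubring.mem_nonunits_iff]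
    exact inertia_val_sub_lt_one A hσ z ((A.valuation_le_one_iff z).2 hz)
  · rintro ⟨hD, h⟩
    refine ⟨⟨σ, hD⟩, ?_, rfl⟩
    show (⟨σ, hD⟩ : A.decompositionSubgroup ℚ) ∈ MonoidHom.ker
      (MulSemiringAction.toRingAut (A.decompositionSubgroup ℚ) (IsLocalRing.ResidueField A))
    rw [MonoidHom.mem_ker]
    apply RingEquiv.ext
    intro y
    obtain ⟨x, rfl⟩ := IsLocalRing.residue_surjective y
    show (⟨σ, hD⟩ : A.decompositionSubgroup ℚ) • (IsLocalRing.residue A x)
      = IsLocalRing.residue A x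
    rw [← IsLocalRing.ResidueField.residue_smul]
    rw [← sub_eq_zero, ← map_sub, IsLocalRing.residue_eq_zero_iff]
    have h3 := h x.1 x.2
    rw [ValuationSubring.mem_nonunits_iff] at h3
    rw [ValuationSubring.valuation_lt_one_iff]
    exact h3

theorem mem_smul_valuationSubring_iff (b : AlgebraicClosure ℚ ≃ₐ[ℚ] AlgebraicClosure ℚ)
    (x : AlgebraicClosure ℚ) : x ∈ b • A ↔ b⁻¹ x ∈ A := by
  rw [ValuationSubring.mem_pointwise_smul_iff_inv_smul_mem]
  rfl

theorem mem_nonunits_iff_inv_not_mem (x : AlgebraicClosure ℚ) :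
    x ∈ A.nonunits ↔ x = 0 ∨ x⁻¹ ∉ A := by
  rw [ValuationSubring.mem_nonunits_iff]
  rcases eq_or_ne x 0 with rfl | hx
  · simp
  · simp only [hx, false_or]
    rw [← A.valuation_le_one_iff, map_inv₀, not_le]
    have hpos : 0 < A.valuation x := by
      rw [zero_lt_iff]
      exact (A.valuation.ne_zero_iff).2 hx
    rw [one_lt_inv₀ hpos]

theorem mem_nonunits_smul_iff (b : AlgebraicClosure ℚ ≃ₐ[ℚ] AlgebraicClosure ℚ)
    (x : AlgebraicClosure ℚ) : x ∈ (b • A).nonunits ↔ b⁻¹ x ∈ A.nonunits := by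
  rw [mem_nonunits_iff_inv_not_mem, mem_nonunits_iff_inv_not_mem, mem_smul_valuationSubring_iff,
    map_inv₀]
  have : b⁻¹ x = 0 ↔ x = 0 := by
    rw [map_eq_zero_iff _ (b⁻¹).injective]
  rw [this]

theorem liesOverPrime_smul (b : AlgebraicClosure ℚ ≃ₐ[ℚ] AlgebraicClosure ℚ) (q : ℕ)
    (hA : A.LiesOverPrime q) : (b • A).LiesOverPrime q := by
  show (q : AlgebraicClosure ℚ) ∈ (b • A).nonunits
  rw [mem_nonunits_smul_iff, map_natCast]
  exact hA

theorem apply_inv_conj (b σ : AlgebraicClosure ℚ ≃ₐ[ℚ] AlgebraicClosure ℚ)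
    (x : AlgebraicClosure ℚ) : b⁻¹ ((b * σ * b⁻¹) x) = σ (b⁻¹ x) := by
  show (b⁻¹ * (b * σ * b⁻¹)) x = (σ * b⁻¹) x
  congr 1
  group

/-- Conjugation carries the inertia group of `A` to that of `b • A`. -/
theorem conj_mem_inertiaSubgroupIn (b σ : AlgebraicClosure ℚ ≃ₐ[ℚ] AlgebraicClosure ℚ)
    (hσ : σ ∈ A.inertiaSubgroupIn ℚ) : b * σ * b⁻¹ ∈ (b • A).inertiaSubgroupIn ℚ := by
  rw [mem_inertiaSubgroupIn_iff] at hσ ⊢
  obtain ⟨hD, hI⟩ := hσ
  rw [mem_decompositionSubgroup_iff] at hD
  refine ⟨?_, ?_⟩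
  · rw [mem_decompositionSubgroup_iff]
    intro x
    rw [mem_smul_valuationSubring_iff, mem_smul_valuationSubring_iff, apply_inv_conj, hD]
  · intro z hz
    rw [mem_smul_valuationSubring_iff] at hz
    rw [mem_nonunits_smul_iff, map_sub, apply_inv_conj]
    exact hI _ hz

end inertia

section Levels

variable (S : Finset Nat.Primes)

/-- Every finite extension unramified outside `S` is contained in a finite GALOIS extension
unramified outside `S`. -/
theorem exists_galois_level_ge (F : IntermediateField ℚ (AlgebraicClosure ℚ))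
    (hF : F.IsUnramifiedOutside S) :
    ∃ L : IntermediateField ℚ (AlgebraicClosure ℚ),
      L.IsUnramifiedOutside S ∧ IsGalois ℚ L ∧ F ≤ L := by
  haveI := hF.1
  haveI : (F.fixingSubgroup.normalCore).Normal := Subgroup.normalCore_normal _
  -- the normal closure is a finite Galois extension containing `F`
  have hfinN : FiniteDimensional ℚ (IntermediateField.normalClosure ℚ F (AlgebraicClosure ℚ)) :=
    normalClosure.is_finiteDimensional ℚ F (AlgebraicClosure ℚ)
  have hgalN : IsGalois ℚ (IntermediateField.normalClosure ℚ F (AlgebraicClosure ℚ)) :=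
    IsGalois.normalClosure ℚ F (AlgebraicClosure ℚ)
  have hnormal : (IntermediateField.normalClosure ℚ F
      (AlgebraicClosure ℚ)).fixingSubgroup.Normal :=
    (InfiniteGalois.normal_iff_isGalois _).2 hgalN
  have hle : (IntermediateField.normalClosure ℚ F (AlgebraicClosure ℚ)).fixingSubgroup
      ≤ F.fixingSubgroup.normalCore := by
    rw [Subgroup.normal_le_normalCore]
    exact IntermediateField.fixingSubgroup_antitone (IntermediateField.le_normalClosure F)
  obtain ⟨L, hL, hgal, hfix, -⟩ := exists_galois_level_of_subgroup S F.fixingSubgroup.normalCore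
    (IntermediateField.normalClosure ℚ F (AlgebraicClosure ℚ)) hfinN hle
    (by
      intro q hq A hA σ hσ
      rw [Subgroup.normalCore]
      intro b
      have h1 := conj_mem_inertiaSubgroupIn A b σ hσ
      exact hF.2 q hq (b • A) (liesOverPrime_smul A b q hA) h1)
  refine ⟨L, hL, hgal, ?_⟩
  have h2 : L.fixingSubgroup ≤ F.fixingSubgroup := by
    rw [hfix]
    exact Subgroup.normalCore_le _
  rw [← InfiniteGalois.fixedField_fixingSubgroup F, ← InfiniteGalois.fixedField_fixingSubgroup L]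
  exact IntermediateField.fixedField_antitone h2

end Levels

end Fermat.Agent.S55.Bridge

end
-- ===== PACK-END S55/Bridge/InertiaConj.lean

-- ===== PACK-BEGIN A2/Mod/H372/Side.lean
section




/-!
# A2 / MODASM S3, generic part (helper372): one side of the Kronecker correspondence

Mathlib + `H48.IsUnif` only.  `V₁ ⊆ F₁`, `V₂ ⊆ F₂` valuation subrings with uniformisers
`ϖ₁`, `ϖ₂`; `φ : F₁ →+* F₂` maps `V₁` into `V₂`, `ϖ₁` to `ϖ₂` and reflects integrality
(`φ x ∈ V₂ → x ∈ V₁`); `A ⊆ V₁` a subring which is "normal modulo `ϖ₁`" in the elementwise form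
of `Mod.GoodRedAt.normal`; the residue characteristic of `V₂` is `q`.  (`SideData`.)

* `SideData.cong` : if `ψ : F₁ →+* F₂` satisfies the semilinear Kronecker congruence
  `ψ a ≡ (φ a') ^ q mod ϖ₂ V₂` on `V₁` (leaf L12) and `A` is integral over `R[y]` with
  `ψ = φ` on `R` and `ψ y ≡ (φ y) ^ q`, then the congruence is solvable inside `A`;
* `SideData.surj` : if `V₂ = φ(V₁) + ϖ₂ V₂` (leaf L11), then every element `b` integral over
  `R[y₂]`, `y₂ ≡ φ a`, is congruent to `φ a`, `a ∈ A`, modulo `ϖ₂ V₂`.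
-/

set_option autoImplicit false
set_option linter.style.haveILetI false

noncomputable section

namespace Fermat.Agent.A2.Mod.H372

open Polynomial

/-! ## Valuation subrings with a uniformiser (elementwise) -/

section Unif

variable {F : Type*} [Field F] {V : ValuationSubring F} {ϖ : F}

theorem mem_of_mul_inv_mem (hu : H48.IsUnif V ϖ) {x : F} (hx : x * ϖ⁻¹ ∈ V) : x ∈ V := by
  have : x = x * ϖ⁻¹ * ϖ := by
    rw [mul_assoc, inv_mul_cancel₀ hu.ne_zero, mul_one]
  rw [this]
  exact V.mul_mem _ _ hx hu.mem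

/-- `x ∈ ϖ V` iff the residue class of `x` vanishes. -/
theorem residue_eq_zero_iff (hu : H48.IsUnif V ϖ) (x : V) :
    IsLocalRing.residue V x = 0 ↔ (x : F) * ϖ⁻¹ ∈ V := by
  rw [IsLocalRing.residue_eq_zero_iff, IsLocalRing.mem_maximalIdeal, mem_nonunits_iff]
  constructor
  · intro hx
    rcases eq_or_ne (x : F) 0 with h0 | h0
    · rw [h0, zero_mul]; exact V.zero_mem
    · refine hu.gen _ x.2 (fun hinv => hx ?_)
      exact isUnit_iff_exists_inv.mpr ⟨⟨_, hinv⟩, Subtype.ext (mul_inv_cancel₀ h0)⟩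
  · intro hx hunit
    obtain ⟨y, hy⟩ := isUnit_iff_exists_inv.mp hunit
    have hy' : (x : F) * (y : F) = 1 := congrArg Subtype.val hy
    apply hu.inv_not_mem
    have : ϖ⁻¹ = (x : F) * ϖ⁻¹ * y := by
      rw [mul_right_comm, hy', one_mul]
    rw [this]
    exact V.mul_mem _ _ hx y.2

theorem residue_eq_iff (hu : H48.IsUnif V ϖ) (x y : V) :
    IsLocalRing.residue V x = IsLocalRing.residue V y ↔ ((x : F) - y) * ϖ⁻¹ ∈ V := by
  rw [← sub_eq_zero, ← map_sub, residue_eq_zero_iff hu]
  rfl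

end Unif

/-! ## One side -/

section Side

variable {F₁ F₂ : Type*} [Field F₁] [Field F₂]

/-- The residue of a ring homomorphism mapping `V₁` into `V₂`. -/
def resHom (V₁ : ValuationSubring F₁) (V₂ : ValuationSubring F₂) (φ : F₁ →+* F₂)
    (hφ : ∀ x ∈ V₁, φ x ∈ V₂) : V₁ →+* IsLocalRing.ResidueField V₂ :=
  (IsLocalRing.residue V₂).comp ((φ.comp V₁.subtype).codRestrict V₂ (fun x => hφ x x.2))

theorem resHom_apply (V₁ : ValuationSubring F₁) (V₂ : ValuationSubring F₂) (φ : F₁ →+* F₂)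
    (hφ : ∀ x ∈ V₁, φ x ∈ V₂) (x : V₁) :
    resHom V₁ V₂ φ hφ x = IsLocalRing.residue V₂ ⟨φ x, hφ x x.2⟩ := rfl

/-- The hypotheses on one side of the correspondence. -/
structure SideData (V₁ : ValuationSubring F₁) (V₂ : ValuationSubring F₂) (ϖ₁ : F₁) (ϖ₂ : F₂)
    (φ : F₁ →+* F₂) (q : ℕ) (A : Subring F₁) : Prop where
  unif₁ : H48.IsUnif V₁ ϖ₁
  unif₂ : H48.IsUnif V₂ ϖ₂
  map_mem : ∀ x ∈ V₁, φ x ∈ V₂
  map_unif : φ ϖ₁ = ϖ₂
  refl : ∀ x, φ x ∈ V₂ → x ∈ V₁
  prime : q.Prime
  q_mem : (q : F₂) * ϖ₂⁻¹ ∈ V₂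
  le : ∀ a ∈ A, a ∈ V₁
  normal : ∀ f ∈ V₁, (∃ (n : ℕ) (c : Fin n → F₁), (∀ i, c i ∈ A) ∧
      (f ^ n + ∑ i : Fin n, c i * f ^ (i : ℕ)) * ϖ₁⁻¹ ∈ V₁) → ∃ b ∈ A, (f - b) * ϖ₁⁻¹ ∈ V₁

namespace SideData

variable {V₁ : ValuationSubring F₁} {V₂ : ValuationSubring F₂} {ϖ₁ : F₁} {ϖ₂ : F₂}
  {φ : F₁ →+* F₂} {q : ℕ} {A : Subring F₁}

/-- The inclusion `A → V₁`. -/
def incl (h : SideData V₁ V₂ ϖ₁ ϖ₂ φ q A) : A →+* V₁ :=
  (A.subtype).codRestrict V₁ (fun a => h.le a a.2)

theorem coe_incl (h : SideData V₁ V₂ ϖ₁ ϖ₂ φ q A) (a : A) : ((h.incl a : V₁) : F₁) = a := rfl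

/-- The reduction of `φ`. -/
def red (h : SideData V₁ V₂ ϖ₁ ϖ₂ φ q A) : V₁ →+* IsLocalRing.ResidueField V₂ :=
  resHom V₁ V₂ φ h.map_mem

theorem red_eq_zero_iff (h : SideData V₁ V₂ ϖ₁ ϖ₂ φ q A) (x : V₁) :
    h.red x = 0 ↔ (x : F₁) * ϖ₁⁻¹ ∈ V₁ := by
  rw [red, resHom_apply, residue_eq_zero_iff h.unif₂]
  have e : φ ((x : F₁) * ϖ₁⁻¹) = φ x * ϖ₂⁻¹ := by rw [map_mul, map_inv₀, h.map_unif]
  constructor
  · intro hx
    exact h.refl _ (by rw [e]; exact hx)
  · intro hx
    have := h.map_mem _ hx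
    rwa [e] at this

theorem red_eq_iff (h : SideData V₁ V₂ ϖ₁ ϖ₂ φ q A) (x y : V₁) :
    h.red x = h.red y ↔ ((x : F₁) - y) * ϖ₁⁻¹ ∈ V₁ := by
  rw [← sub_eq_zero, ← map_sub, h.red_eq_zero_iff]
  rfl

theorem charP (h : SideData V₁ V₂ ϖ₁ ϖ₂ φ q A) : CharP (IsLocalRing.ResidueField V₂) q := by
  rw [CharP.charP_iff_prime_eq_zero h.prime]
  have h1 : ((q : ℕ) : IsLocalRing.ResidueField V₂) = IsLocalRing.residue V₂ ((q : ℕ) : V₂) :=
    (map_natCast (IsLocalRing.residue V₂) q).symm
  rw [h1, residue_eq_zero_iff h.unif₂]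
  exact h.q_mem

/-- `GoodRedAt.normal` in residue form. -/
theorem normal_red (h : SideData V₁ V₂ ϖ₁ ϖ₂ φ q A) (s : V₁)
    (hs : (h.red.comp h.incl).IsIntegralElem (h.red s)) : ∃ a : A, h.red s = h.red (h.incl a) := by
  obtain ⟨p, hp, hps⟩ := hs
  have h0 : h.red (p.eval₂ h.incl s) = 0 := by
    rw [Polynomial.hom_eval₂]
    exact hps
  rw [h.red_eq_zero_iff] at h0
  -- the explicit monic relation
  have hsum : ((p.eval₂ h.incl s : V₁) : F₁) =
      (s : F₁) ^ p.natDegree + ∑ i : Fin p.natDegree, ((p.coeff i : A) : F₁) * (s : F₁) ^ (i : ℕ) := by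
    have h1 : ((p.eval₂ h.incl s : V₁) : F₁) = p.eval₂ (A.subtype) (s : F₁) := by
      have := Polynomial.hom_eval₂ p h.incl V₁.subtype s
      exact this
    rw [h1]
    conv_lhs => rw [hp.as_sum]
    rw [Polynomial.eval₂_add, Polynomial.eval₂_pow, Polynomial.eval₂_X, Polynomial.eval₂_finsetSum,
      Finset.sum_range]
    congr 1
    refine Finset.sum_congr rfl (fun i _ => ?_)
    rw [Polynomial.eval₂_mul, Polynomial.eval₂_C, Polynomial.eval₂_pow, Polynomial.eval₂_X]
    rfl
  rw [hsum] at h0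
  obtain ⟨b, hb, hsb⟩ := h.normal s s.2 ⟨p.natDegree, fun i => ((p.coeff i : A) : F₁),
    fun i => (p.coeff i).2, h0⟩
  refine ⟨⟨b, hb⟩, ?_⟩
  rw [h.red_eq_iff]
  exact hsb

/-- **Kronecker congruence inside the chart.** -/
theorem cong (h : SideData V₁ V₂ ϖ₁ ϖ₂ φ q A) (ψ : F₁ →+* F₂) (hψ : ∀ x ∈ V₁, ψ x ∈ V₂)
    (hK : ∀ a ∈ V₁, ∃ a' ∈ V₁, (ψ a - (φ a') ^ q) * ϖ₂⁻¹ ∈ V₂)
    {R : Type*} [CommRing R] (c : R →+* F₁) (y : F₁)
    (hA : ∀ a ∈ A, (Polynomial.eval₂RingHom c y).IsIntegralElem a)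
    (hcA : ∀ r, c r ∈ A) (hyA : y ∈ A)
    (hc : ∀ r, ψ (c r) = φ (c r)) (hy : (ψ y - (φ y) ^ q) * ϖ₂⁻¹ ∈ V₂) :
    ∀ a ∈ A, ∃ a' ∈ A, (ψ a - (φ a') ^ q) * ϖ₂⁻¹ ∈ V₂ := by
  haveI : Fact q.Prime := ⟨h.prime⟩
  haveI := h.charP
  haveI : ExpChar (IsLocalRing.ResidueField V₂) q := ExpChar.prime h.prime
  set g : V₁ →+* IsLocalRing.ResidueField V₂ := resHom V₁ V₂ ψ hψ with hg
  set cA : R →+* A := c.codRestrict A hcA with hcA'
  set yA : A := ⟨y, hyA⟩ with hyA'
  have hcomp : (A.subtype).comp (Polynomial.eval₂RingHom cA yA) = Polynomial.eval₂RingHom c y := by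
    apply Polynomial.ringHom_ext
    · intro r
      simp [cA]
    · simp [yA]
  have key : ∀ x y' : V₁, g x = (h.red y') ^ q ↔ (ψ x - (φ y') ^ q) * ϖ₂⁻¹ ∈ V₂ := by
    intro x y'
    rw [hg, red, resHom_apply, resHom_apply, ← map_pow, residue_eq_iff h.unif₂]
    rfl
  have main := exists_eq_pow_of_normal q h.red g h.incl h.normal_red
    (fun s => by
      obtain ⟨a', ha', haa'⟩ := hK s s.2
      exact ⟨⟨a', ha'⟩, (key s ⟨a', ha'⟩).mpr haa'⟩)
    cA yA
    (fun a => by
      obtain ⟨p, hp, hpa⟩ := hA a a.2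
      refine ⟨p, hp, Subtype.ext ?_⟩
      have := Polynomial.hom_eval₂ p (Polynomial.eval₂RingHom cA yA) A.subtype a
      rw [hcomp] at this
      rw [ZeroMemClass.coe_zero, ← hpa]
      exact this)
    (fun r => by
      rw [hg, red, resHom_apply, resHom_apply]
      congr 1
      exact Subtype.ext (hc r))
    ((key _ _).mpr hy)
  intro a ha
  obtain ⟨a', ha'⟩ := main ⟨a, ha⟩
  exact ⟨a', a'.2, (key _ _).mp ha'⟩

/-- **Residue degree one on the chart.** -/
theorem surj (h : SideData V₁ V₂ ϖ₁ ϖ₂ φ q A)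
    (hres : ∀ b ∈ V₂, ∃ s ∈ V₁, (b - φ s) * ϖ₂⁻¹ ∈ V₂)
    {R : Type*} [CommRing R] (c : R →+* F₂) (y : F₂)
    (hcV : ∀ r, c r ∈ V₂) (hyV : y ∈ V₂)
    (hc : ∀ r, ∃ a ∈ A, (c r - φ a) * ϖ₂⁻¹ ∈ V₂) (hy : ∃ a ∈ A, (y - φ a) * ϖ₂⁻¹ ∈ V₂) :
    ∀ b : F₂, (Polynomial.eval₂RingHom c y).IsIntegralElem b →
      b ∈ V₂ ∧ ∃ a ∈ A, (b - φ a) * ϖ₂⁻¹ ∈ V₂ := by
  set cV : R →+* V₂ := c.codRestrict V₂ hcV with hcV'
  set yV : V₂ := ⟨y, hyV⟩ with hyV'
  have hcomp : (V₂.subtype).comp (Polynomial.eval₂RingHom cV yV) = Polynomial.eval₂RingHom c y := by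
    apply Polynomial.ringHom_ext
    · intro r
      simp [cV]
    · simp [yV]
  -- the integral closure of `R[y]` in `V₂`
  have hmemV : ∀ b : F₂, (Polynomial.eval₂RingHom c y).IsIntegralElem b → b ∈ V₂ := by
    intro b hb
    have hint : IsIntegral V₂ b := by
      obtain ⟨p, hp, hpb⟩ := hb
      refine ⟨p.map (Polynomial.eval₂RingHom cV yV), hp.map _, ?_⟩
      rw [Polynomial.eval₂_map]
      have : (algebraMap V₂ F₂).comp (Polynomial.eval₂RingHom cV yV) =
          Polynomial.eval₂RingHom c y := hcomp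
      rw [this]
      exact hpb
    obtain ⟨v, hv⟩ := (IsIntegrallyClosed.isIntegral_iff (R := V₂) (K := F₂)).mp hint
    rw [← hv]
    exact v.2
  have key : ∀ (x : V₂) (a : V₁), IsLocalRing.residue V₂ x = h.red a ↔
      ((x : F₂) - φ a) * ϖ₂⁻¹ ∈ V₂ := by
    intro x a
    rw [red, resHom_apply, residue_eq_iff h.unif₂]
  have main := exists_eq_of_normal h.red h.incl h.normal_red (IsLocalRing.residue V₂)
    (fun b => by
      obtain ⟨s, hs, hbs⟩ := hres b b.2
      exact ⟨⟨s, hs⟩, (key b ⟨s, hs⟩).mpr hbs⟩)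
    cV yV
    (fun r => by
      obtain ⟨a, ha, hra⟩ := hc r
      exact ⟨⟨a, ha⟩, (key (cV r) (h.incl ⟨a, ha⟩)).mpr hra⟩)
    (by
      obtain ⟨a, ha, hya⟩ := hy
      exact ⟨⟨a, ha⟩, (key yV (h.incl ⟨a, ha⟩)).mpr hya⟩)
  intro b hb
  have hbV := hmemV b hb
  refine ⟨hbV, ?_⟩
  have hb' : (Polynomial.eval₂RingHom cV yV).IsIntegralElem (⟨b, hbV⟩ : V₂) := by
    obtain ⟨p, hp, hpb⟩ := hb
    refine ⟨p, hp, Subtype.ext ?_⟩
    have := Polynomial.hom_eval₂ p (Polynomial.eval₂RingHom cV yV) V₂.subtype ⟨b, hbV⟩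
    rw [hcomp] at this
    rw [ZeroMemClass.coe_zero, ← hpb]
    exact this
  obtain ⟨a, ha⟩ := main ⟨b, hbV⟩ hb'
  exact ⟨a, a.2, (key ⟨b, hbV⟩ (h.incl a)).mp ha⟩

end SideData

end Side

end Fermat.Agent.A2.Mod.H372

end
end
-- ===== PACK-END A2/Mod/H372/Side.lean

-- ===== PACK-BEGIN A2/H489/TwoExtB.lean
section


/-!
# A2 / M1-abs, part B (helper489): valuation subrings over a DVR and the integral closure
-/

set_option autoImplicit false

namespace Fermat.Agent.A2.H489

open IsDedekindDomain IsLocalRing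

section Over

variable {A L : Type*} [CommRing A] [IsLocalRing A] [Field L] [Algebra A L]

/-- `V` lies over the local ring `A`: it contains `A` and the maximal ideal of `A` consists of
nonunits of `V`. -/
structure IsOver (A : Type*) {L : Type*} [CommRing A] [IsLocalRing A] [Field L] [Algebra A L]
    (V : ValuationSubring L) : Prop where
  mem : ∀ a : A, algebraMap A L a ∈ V
  nonunit : ∀ a ∈ maximalIdeal A, algebraMap A L a ∈ V.nonunits

variable {V : ValuationSubring L}

theorem IsOver.integral_mem (hV : IsOver A V) {x : L} (hx : IsIntegral A x) : x ∈ V := by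
  let _ : Algebra A V := (toValSub V hV.mem).toAlgebra
  have : IsScalarTower A V L := IsScalarTower.of_algebraMap_eq (fun _ => rfl)
  have h : IsIntegral V x := hx.tower_top
  obtain ⟨y, hy⟩ := (IsIntegrallyClosed.isIntegral_iff (R := V) (K := L)).mp h
  rw [← hy]
  exact y.2

theorem IsOver.mem_integralClosure (hV : IsOver A V) (s : integralClosure A L) :
    algebraMap (integralClosure A L) L s ∈ V :=
  hV.integral_mem s.2

theorem IsOver.not_mem_nonunits_of_isUnit (hV : IsOver A V) {a : A} (ha : IsUnit a) :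
    algebraMap A L a ∉ V.nonunits := by
  obtain ⟨u, rfl⟩ := ha
  intro h
  rw [ValuationSubring.mem_nonunits_iff] at h
  have h1 : V.valuation (algebraMap A L (↑u⁻¹ : A)) ≤ 1 :=
    (ValuationSubring.valuation_le_one_iff V _).mpr (hV.mem _)
  have h2 : V.valuation (algebraMap A L (u : A)) * V.valuation (algebraMap A L (↑u⁻¹ : A)) = 1 := by
    rw [← map_mul, ← map_mul, Units.mul_inv, map_one, map_one]
  have h3 : V.valuation (algebraMap A L (u : A)) * V.valuation (algebraMap A L (↑u⁻¹ : A)) < 1 :=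
    mul_lt_one_of_lt_of_le h h1
  exact absurd h2 (ne_of_lt h3)

theorem IsOver.mem_nonunits_iff (hV : IsOver A V) (a : A) :
    algebraMap A L a ∈ V.nonunits ↔ a ∈ maximalIdeal A := by
  constructor
  · intro h
    by_contra hna
    rw [IsLocalRing.mem_maximalIdeal, _root_.mem_nonunits_iff, not_not] at hna
    exact hV.not_mem_nonunits_of_isUnit hna h
  · exact hV.nonunit a

theorem IsOver.center_liesOver (hV : IsOver A V) :
    (center V hV.mem_integralClosure).LiesOver (maximalIdeal A) := by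
  constructor
  ext a
  rw [Ideal.under, Ideal.mem_comap, mem_center_iff, ← IsScalarTower.algebraMap_apply,
    hV.mem_nonunits_iff]

theorem IsOver.ne_top_of_nonunit (hV : IsOver A V) {w : A} (hw : w ∈ maximalIdeal A)
    (hw0 : algebraMap A L w ≠ 0) : V ≠ ⊤ := by
  intro h
  have h1 := hV.nonunit w hw
  rw [ValuationSubring.mem_nonunits_iff_or] at h1
  rcases h1 with h1 | h1
  · exact hw0 h1
  · apply h1
    rw [h]
    exact ValuationSubring.mem_top _

end Over

section Main

variable {A K L : Type*} [CommRing A] [IsDomain A] [IsDiscreteValuationRing A]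
  [Field K] [Algebra A K] [IsFractionRing A K]
  [Field L] [Algebra K L] [Algebra A L] [IsScalarTower A K L]

omit [IsDiscreteValuationRing A] in
theorem algebraMap_injective_AL (A K L : Type*) [CommRing A] [IsDomain A]
    [Field K] [Algebra A K] [IsFractionRing A K]
    [Field L] [Algebra K L] [Algebra A L] [IsScalarTower A K L] :
    Function.Injective (algebraMap A L) := by
  rw [IsScalarTower.algebraMap_eq A K L]
  exact (algebraMap K L).injective.comp (IsFractionRing.injective A K)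

theorem IsOver.ne_top (K : Type*) {A L : Type*} [CommRing A] [IsDomain A]
    [IsDiscreteValuationRing A] [Field K] [Algebra A K] [IsFractionRing A K]
    [Field L] [Algebra K L] [Algebra A L] [IsScalarTower A K L]
    {V : ValuationSubring L} (hV : IsOver A V) : V ≠ ⊤ := by
  obtain ⟨w, hw⟩ := IsDiscreteValuationRing.exists_irreducible A
  refine hV.ne_top_of_nonunit (w := w) ?_ ?_
  · rw [IsLocalRing.mem_maximalIdeal, _root_.mem_nonunits_iff]
    exact hw.not_isUnit
  · intro h0
    apply hw.ne_zero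
    apply algebraMap_injective_AL A K L
    rw [h0, map_zero]

end Main

end Fermat.Agent.A2.H489

end
-- ===== PACK-END A2/H489/TwoExtB.lean

-- ===== PACK-BEGIN A2/H489/TwoExtC.lean
section


/-!
# A2 / M1-abs, part C (helper489): residues and the counting argument
-/

set_option autoImplicit false

namespace Fermat.Agent.A2.H489

open IsDedekindDomain IsLocalRing

section Residue

variable (K : Type*) {A L : Type*} [CommRing A] [IsDomain A] [IsDiscreteValuationRing A]
  [Field K] [Algebra A K] [IsFractionRing A K]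
  [Field L] [Algebra K L] [Algebra A L] [IsScalarTower A K L]
  [FiniteDimensional K L] [Algebra.IsSeparable K L]

theorem mul_mem_nonunits {V : ValuationSubring L} {x y : L} (hx : x ∈ V) (hy : y ∈ V.nonunits) :
    x * y ∈ V.nonunits := by
  rw [ValuationSubring.mem_nonunits_iff] at hy ⊢
  rw [map_mul]
  exact Right.mul_lt_one_of_le_of_lt ((ValuationSubring.valuation_le_one_iff V x).mpr hx) hy

include K in
/-- every element of `V` is congruent modulo the maximal ideal to an element of the integral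
closure of `A`. -/
theorem IsOver.exists_sub_mem_nonunits {V : ValuationSubring L} (hV : IsOver A V)
    {x : L} (hx : x ∈ V) :
    ∃ s : integralClosure A L, x - algebraMap (integralClosure A L) L s ∈ V.nonunits := by
  have : IsDedekindDomain (integralClosure A L) := integralClosure.isDedekindDomain A K L
  have : IsFractionRing (integralClosure A L) L :=
    integralClosure.isFractionRing_of_finite_extension K L
  have hne : V ≠ ⊤ := hV.ne_top K
  set v := centerSpec V hV.mem_integralClosure hne with hvdef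
  have hVv : V = (v.valuation L).valuationSubring :=
    eq_valuationSubring_centerSpec V hV.mem_integralClosure hne
  have hx' : v.valuation L x ≤ 1 := by
    rw [hVv] at hx
    exact hx
  obtain ⟨n, d, hnd⟩ := v.exists_primeCompl_mul_eq_of_integer x hx'
  have hd : (d : integralClosure A L) ∉ v.asIdeal := d.2
  obtain ⟨d', i, hi, hdi⟩ := v.isMaximal.exists_inv hd
  refine ⟨n * d', ?_⟩
  have hi' : algebraMap (integralClosure A L) L i ∈ V.nonunits :=
    (mem_center_iff V hV.mem_integralClosure i).mp hi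
  have key : x - algebraMap (integralClosure A L) L (n * d')
      = x * algebraMap (integralClosure A L) L i := by
    have h1 : algebraMap (integralClosure A L) L (d' * (d : integralClosure A L) + i) = 1 := by
      rw [hdi, map_one]
    rw [map_add, map_mul] at h1
    rw [map_mul]
    linear_combination (algebraMap (integralClosure A L) L d') * hnd - x * h1
  rw [key]
  exact mul_mem_nonunits hx hi'

/-- Lifts `s i` of elements `u i ∈ V` with independent residues have independent residues in the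
quotient of the integral closure by the centre. -/
theorem IsOver.linearIndependent_mk {V : ValuationSubring L} (hV : IsOver A V)
    [hlo : (center V hV.mem_integralClosure).LiesOver (maximalIdeal A)] {f : ℕ}
    (u : Fin f → L) (s : Fin f → integralClosure A L)
    (hs : ∀ i, u i - algebraMap (integralClosure A L) L (s i) ∈ V.nonunits)
    (hind : ∀ a : Fin f → A, (∑ i, algebraMap A L (a i) * u i) ∈ V.nonunits →
      ∀ i, a i ∈ maximalIdeal A) :
    LinearIndependent (A ⧸ maximalIdeal A)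
      (fun i => Ideal.Quotient.mk (center V hV.mem_integralClosure) (s i)) := by
  rw [Fintype.linearIndependent_iff]
  intro c hc i
  choose a ha using fun i => Ideal.Quotient.mk_surjective (c i)
  have h1 : ∀ i, c i • Ideal.Quotient.mk (center V hV.mem_integralClosure) (s i)
      = Ideal.Quotient.mk (center V hV.mem_integralClosure)
          (algebraMap A (integralClosure A L) (a i) * s i) := by
    intro i
    rw [Algebra.smul_def, ← ha i, Ideal.Quotient.algebraMap_mk_of_liesOver, map_mul]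
  simp only [h1] at hc
  rw [← map_sum, Ideal.Quotient.eq_zero_iff_mem, mem_center_iff] at hc
  have h2 : (∑ i, algebraMap A L (a i) * u i)
      = algebraMap (integralClosure A L) L
          (∑ i, algebraMap A (integralClosure A L) (a i) * s i)
        + ∑ i, algebraMap A L (a i) * (u i - algebraMap (integralClosure A L) L (s i)) := by
    rw [map_sum, ← Finset.sum_add_distrib]
    refine Finset.sum_congr rfl fun i _ => ?_
    rw [map_mul, ← IsScalarTower.algebraMap_apply]
    ring
  have h3 : (∑ i, algebraMap A L (a i) * u i) ∈ V.nonunits := by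
    rw [h2]
    refine add_mem hc (sum_mem fun i _ => ?_)
    exact mul_mem_nonunits (hV.mem _) (hs i)
  have h4 := hind a h3 i
  rw [← ha i]
  exact Ideal.Quotient.eq_zero_iff_mem.mpr h4

include K in
/-- A family of `f` elements of `V` whose residues are independent over the residue field of
`A` bounds the inertia degree of the centre from below. -/
theorem IsOver.le_inertiaDeg {V : ValuationSubring L} (hV : IsOver A V) {f : ℕ}
    (u : Fin f → L) (hu : ∀ i, u i ∈ V)
    (hind : ∀ a : Fin f → A, (∑ i, algebraMap A L (a i) * u i) ∈ V.nonunits →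
      ∀ i, a i ∈ maximalIdeal A) :
    f ≤ Ideal.inertiaDeg' (maximalIdeal A) (center V hV.mem_integralClosure) := by
  have hlo := hV.center_liesOver
  have hfin : Module.Finite A (integralClosure A L) := IsIntegralClosure.finite A K L _
  rw [Ideal.inertiaDeg'_algebraMap]
  choose s hs using fun i => hV.exists_sub_mem_nonunits K (hu i)
  have hli := hV.linearIndependent_mk u s hs hind
  have h5 := hli.fintype_card_le_finrank
  simpa using h5

end Residue

section Count

variable (K : Type*) {A L : Type*} [CommRing A] [IsDomain A] [IsDiscreteValuationRing A]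
  [Field K] [Algebra A K] [IsFractionRing A K]
  [Field L] [Algebra K L] [Algebra A L] [IsScalarTower A K L]
  [FiniteDimensional K L] [Algebra.IsSeparable K L]

include K in
/-- **Counting core.**  Two distinct valuation subrings over `A` whose inertia degrees add up to
at least `[L : K]` are the only ones, are unramified, and the bounds are equalities. -/
theorem twoExt_core {V₁ V₂ : ValuationSubring L} (h₁ : IsOver A V₁) (h₂ : IsOver A V₂)
    (hne : V₁ ≠ V₂) {f₁ f₂ : ℕ} (hf : Module.finrank K L ≤ f₁ + f₂)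
    (hf₁ : f₁ ≤ Ideal.inertiaDeg' (maximalIdeal A) (center V₁ h₁.mem_integralClosure))
    (hf₂ : f₂ ≤ Ideal.inertiaDeg' (maximalIdeal A) (center V₂ h₂.mem_integralClosure)) :
    (∀ P : Ideal (integralClosure A L), P.IsPrime → P.LiesOver (maximalIdeal A) →
        P = center V₁ h₁.mem_integralClosure ∨ P = center V₂ h₂.mem_integralClosure) ∧
      Ideal.ramificationIdx' (maximalIdeal A) (center V₁ h₁.mem_integralClosure) = 1 ∧
      Ideal.ramificationIdx' (maximalIdeal A) (center V₂ h₂.mem_integralClosure) = 1 ∧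
      Ideal.inertiaDeg' (maximalIdeal A) (center V₁ h₁.mem_integralClosure) = f₁ ∧
      Ideal.inertiaDeg' (maximalIdeal A) (center V₂ h₂.mem_integralClosure) = f₂ := by
  have hD : IsDedekindDomain (integralClosure A L) := integralClosure.isDedekindDomain A K L
  have hFr : IsFractionRing (integralClosure A L) L :=
    integralClosure.isFractionRing_of_finite_extension K L
  have hfin : Module.Finite A (integralClosure A L) := IsIntegralClosure.finite A K L _
  have hTF : Module.IsTorsionFree A (integralClosure A L) := by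
    rw [Module.isTorsionFree_iff_algebraMap_injective]
    intro a b hab
    apply algebraMap_injective_AL A K L
    have := congrArg (algebraMap (integralClosure A L) L) hab
    rwa [← IsScalarTower.algebraMap_apply, ← IsScalarTower.algebraMap_apply] at this
  have hlo₁ := h₁.center_liesOver
  have hlo₂ := h₂.center_liesOver
  have hp0 : maximalIdeal A ≠ ⊥ := IsDiscreteValuationRing.not_a_field A
  set P₁ := center V₁ h₁.mem_integralClosure with hP₁
  set P₂ := center V₂ h₂.mem_integralClosure with hP₂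
  have hP₁₂ : P₁ ≠ P₂ := fun h =>
    hne (eq_of_center_eq V₁ V₂ h₁.mem_integralClosure h₂.mem_integralClosure
      (h₁.ne_top K) (h₂.ne_top K) h)
  have hmem₁ : P₁ ∈ IsDedekindDomain.primesOverFinset (maximalIdeal A) (integralClosure A L) :=
    (IsDedekindDomain.mem_primesOverFinset_iff hp0 _).mpr ⟨inferInstance, hlo₁⟩
  have hmem₂ : P₂ ∈ IsDedekindDomain.primesOverFinset (maximalIdeal A) (integralClosure A L) :=
    (IsDedekindDomain.mem_primesOverFinset_iff hp0 _).mpr ⟨inferInstance, hlo₂⟩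
  have hsum := by
    set_option linter.deprecated false in
    exact Ideal.sum_ramification_inertia (integralClosure A L) K L hp0
  have hpos : ∀ P ∈ IsDedekindDomain.primesOverFinset (maximalIdeal A) (integralClosure A L),
      1 ≤ Ideal.ramificationIdx' (maximalIdeal A) P ∧
      1 ≤ Ideal.inertiaDeg' (maximalIdeal A) P := by
    intro P hP
    obtain ⟨hPp, hPl⟩ := (IsDedekindDomain.mem_primesOverFinset_iff hp0 _).mp hP
    exact ⟨Nat.one_le_iff_ne_zero.mpr
        (Ideal.IsDedekindDomain.ramificationIdx'_ne_zero_of_liesOver P hp0),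
      Nat.one_le_iff_ne_zero.mpr (Ideal.inertiaDeg'_ne_zero (maximalIdeal A) P)⟩
  rw [← Finset.add_sum_erase _ _ hmem₁] at hsum
  have hmem₂' : P₂ ∈ (IsDedekindDomain.primesOverFinset (maximalIdeal A) (integralClosure A L)).erase P₁ :=
    Finset.mem_erase.mpr ⟨hP₁₂.symm, hmem₂⟩
  rw [← Finset.add_sum_erase _ _ hmem₂'] at hsum
  set T := ((IsDedekindDomain.primesOverFinset (maximalIdeal A) (integralClosure A L)).erase P₁).erase P₂ with hT
  have hrest : T.card ≤ ∑ P ∈ T, Ideal.ramificationIdx' (maximalIdeal A) P *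
      Ideal.inertiaDeg' (maximalIdeal A) P := by
    rw [Finset.card_eq_sum_ones]
    refine Finset.sum_le_sum fun P hP => ?_
    have hP' : P ∈ IsDedekindDomain.primesOverFinset (maximalIdeal A) (integralClosure A L) :=
      Finset.mem_of_mem_erase (Finset.mem_of_mem_erase hP)
    exact Right.one_le_mul (hpos P hP').1 (hpos P hP').2
  obtain ⟨he₁, hi₁⟩ := hpos P₁ hmem₁
  obtain ⟨he₂, hi₂⟩ := hpos P₂ hmem₂
  have hm₁ : Ideal.inertiaDeg' (maximalIdeal A) P₁ ≤
      Ideal.ramificationIdx' (maximalIdeal A) P₁ * Ideal.inertiaDeg' (maximalIdeal A) P₁ :=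
    Nat.le_mul_of_pos_left _ he₁
  have hm₂ : Ideal.inertiaDeg' (maximalIdeal A) P₂ ≤
      Ideal.ramificationIdx' (maximalIdeal A) P₂ * Ideal.inertiaDeg' (maximalIdeal A) P₂ :=
    Nat.le_mul_of_pos_left _ he₂
  have hT0 : T.card = 0 := by omega
  have hi₁' : Ideal.inertiaDeg' (maximalIdeal A) P₁ = f₁ := by omega
  have hi₂' : Ideal.inertiaDeg' (maximalIdeal A) P₂ = f₂ := by omega
  have hem₁ : Ideal.ramificationIdx' (maximalIdeal A) P₁ *
      Ideal.inertiaDeg' (maximalIdeal A) P₁ = Ideal.inertiaDeg' (maximalIdeal A) P₁ := by omega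
  have hem₂ : Ideal.ramificationIdx' (maximalIdeal A) P₂ *
      Ideal.inertiaDeg' (maximalIdeal A) P₂ = Ideal.inertiaDeg' (maximalIdeal A) P₂ := by omega
  refine ⟨?_, ?_, ?_, hi₁', hi₂'⟩
  · intro P hPp hPl
    have hP : P ∈ IsDedekindDomain.primesOverFinset (maximalIdeal A) (integralClosure A L) :=
      (IsDedekindDomain.mem_primesOverFinset_iff hp0 _).mpr ⟨hPp, hPl⟩
    by_contra hcon
    rw [not_or] at hcon
    have : P ∈ T := Finset.mem_erase.mpr ⟨hcon.2, Finset.mem_erase.mpr ⟨hcon.1, hP⟩⟩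
    rw [Finset.card_eq_zero] at hT0
    rw [hT0] at this
    exact absurd this (Finset.notMem_empty _)
  · exact Nat.eq_of_mul_eq_mul_right (by omega : 0 < Ideal.inertiaDeg' (maximalIdeal A) P₁)
      (by rw [hem₁, one_mul])
  · exact Nat.eq_of_mul_eq_mul_right (by omega : 0 < Ideal.inertiaDeg' (maximalIdeal A) P₂)
      (by rw [hem₂, one_mul])

end Count

end Fermat.Agent.A2.H489

end
-- ===== PACK-END A2/H489/TwoExtC.lean

-- ===== PACK-BEGIN S18/H576/Skel.lean
section


/-!
# S18 / MOD-ASM (helper576): `node_mod` from field lemmas about the concrete objects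

Skeleton: each `field_*` lemma below is one field (or group of fields) of
`Alg.GoodModel (Lc M) (Ec M E) (Fc M E) (Rc M A E) V w x S` for the concrete objects of
`Mod/Defs.lean`.  `goodModelStatement_of_fields` assembles them into `Mod.GoodModelStatement`.
-/

set_option autoImplicit false

noncomputable section

namespace Fermat.Agent.S18.H576

open ModularCurve AlgebraicCurve HahnSeries Fermat.Agent.S18 Fermat.Agent.S18.Mod

/-- The part of `GoodModel` that does not mention `V`, `w`, `x`, `S`. -/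
structure FieldFacts (M : ℕ) (A : ValuationSubring Qb) (E : IntermediateField ℚ Qb) : Prop where
  R_le : (Rc M A E : Set (Om M)) ⊆ Ec M E
  R_total : ∀ e ∈ Ec M E, e ∈ Rc M A E ∨ e⁻¹ ∈ Rc M A E
  E_le_L : Ec M E ≤ Lc M
  E_le_F : Ec M E ≤ Fc M E
  L_algebraic : ∀ a ∈ Lc M, IsAlgebraic (Ec M E) a
  L_algClosed : IsAlgClosed (Lc M)
  E_closed_in_F : ∀ f ∈ Fc M E, IsAlgebraic (Ec M E) f → f ∈ Ec M E
  compositum : Subfield.closure ((Fc M E : Set (Om M)) ∪ Lc M) = ⊤

/-- The uniformiser facts. -/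
structure UnifFacts (M : ℕ) (A : ValuationSubring Qb) (E : IntermediateField ℚ Qb)
    (w : Om M) : Prop where
  w_mem : w ∈ Rc M A E
  w_ne_zero : w ≠ 0
  w_inv_not_mem : w⁻¹ ∉ Rc M A E
  w_gen : ∀ r ∈ Rc M A E, r⁻¹ ∉ Rc M A E → r * w⁻¹ ∈ Rc M A E
  w_discrete : ∀ r ∈ Rc M A E, r ≠ 0 →
    ∃ n : ℕ, r * (w⁻¹) ^ n ∈ Rc M A E ∧ (r * (w⁻¹) ^ n)⁻¹ ∈ Rc M A E
  residue_perfect : ∃ p : ℕ, p.Prime ∧ (p : Om M) * w⁻¹ ∈ Rc M A E ∧
    ∀ r ∈ Rc M A E, ∃ s ∈ Rc M A E, (r - s ^ p) * w⁻¹ ∈ Rc M A E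

/-- The coordinate facts. -/
structure CoordFacts (M : ℕ) (E : IntermediateField ℚ Qb) (x : Om M) : Prop where
  x_mem : x ∈ Fc M E
  x_transcendental : Transcendental (Lc M) x
  finite : ∃ s : Finset (Om M), (s : Set (Om M)) ⊆ Fc M E ∧
    ∀ f ∈ Fc M E, f ∈ Submodule.span (Alg.ratField (Ec M E) x) (s : Set (Om M))

/-- The Gauss valuation ring facts. -/
structure ValFacts (M : ℕ) (A : ValuationSubring Qb) (E : IntermediateField ℚ Qb)
    (V : Subring (Om M)) (w x : Om M) : Prop where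
  V_le : (V : Set (Om M)) ⊆ Fc M E
  x_mem_V : x ∈ V
  V_total : ∀ f ∈ Fc M E, f ∈ V ∨ f⁻¹ ∈ V
  R_le_V : Rc M A E ≤ V
  w_inv_not_mem_V : w⁻¹ ∉ V
  V_gen : ∀ f ∈ V, f⁻¹ ∉ V → f * w⁻¹ ∈ V
  gauss : ∀ P : Polynomial (Om M), (∀ i, P.coeff i ∈ Rc M A E) →
    (∃ i, P.coeff i ≠ 0 ∧ (P.coeff i)⁻¹ ∈ Rc M A E) → (P.eval x)⁻¹ ∈ V
  separable : ∀ f ∈ V, ∃ P : Polynomial (Om M),
    (∀ i, P.coeff i ∈ Alg.polyRing (Rc M A E) x) ∧
    P.eval f * w⁻¹ ∈ V ∧ (Polynomial.derivative P).eval f ≠ 0 ∧
    ((Polynomial.derivative P).eval f)⁻¹ ∈ V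

/-- The `q`-expansion principle on both charts. -/
structure QepFacts (M : ℕ) (A : ValuationSubring Qb) (E : IntermediateField ℚ Qb)
    (V : Subring (Om M)) (w x : Om M) : Prop where
  qep_fin : ∀ b ∈ Alg.chart (Fc M E) (Rc M A E) x, b * w⁻¹ ∈ V →
    b * w⁻¹ ∈ Alg.chart (Fc M E) (Rc M A E) x
  qep_inf : ∀ b ∈ Alg.chart (Fc M E) (Rc M A E) x⁻¹, b * w⁻¹ ∈ V →
    b * w⁻¹ ∈ Alg.chart (Fc M E) (Rc M A E) x⁻¹

/-- The branch facts. -/
structure BranchFacts (M : ℕ) (A : ValuationSubring Qb) (E : IntermediateField ℚ Qb)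
    (x : Om M) (S : Finset (Om M)) : Prop where
  S_mem : ∀ s ∈ S, s ∈ Rc M A E
  S_distinct : ∀ s ∈ S, ∀ t ∈ S, s ≠ t → (s - t)⁻¹ ∈ Rc M A E
  S_unit : ∀ s ∈ S, s ≠ 0 → s⁻¹ ∈ Rc M A E
  unramified : ∀ O : ValuationSubring (Om M), (∀ a ∈ Lc M, a ∈ O) → ∀ c ∈ Lc M, c ∉ S →
    x - c ∈ O → (x - c)⁻¹ ∉ O → ∀ t ∈ O, t⁻¹ ∉ O → t * (x - c)⁻¹ ∈ O

/-- Assembly of one `GoodModel` from the six groups of facts. -/
theorem goodModel_of_facts {M : ℕ} {A : ValuationSubring Qb} {E : IntermediateField ℚ Qb}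
    {V : Subring (Om M)} {w x : Om M} {S : Finset (Om M)}
    (hcz : CharZero (Om M))
    (hF : FieldFacts M A E) (hU : UnifFacts M A E w) (hC : CoordFacts M E x)
    (hV : ValFacts M A E V w x) (hQ : QepFacts M A E V w x) (hB : BranchFacts M A E x S) :
    Alg.GoodModel (Lc M) (Ec M E) (Fc M E) (Rc M A E) V w x S where
  charZero := hcz
  R_le := hF.R_le
  R_total := hF.R_total
  w_mem := hU.w_mem
  w_ne_zero := hU.w_ne_zero
  w_inv_not_mem := hU.w_inv_not_mem
  w_gen := hU.w_gen
  w_discrete := hU.w_discrete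
  residue_perfect := hU.residue_perfect
  E_le_L := hF.E_le_L
  E_le_F := hF.E_le_F
  L_algebraic := hF.L_algebraic
  L_algClosed := hF.L_algClosed
  E_closed_in_F := hF.E_closed_in_F
  compositum := hF.compositum
  x_mem := hC.x_mem
  x_transcendental := hC.x_transcendental
  finite := hC.finite
  V_le := hV.V_le
  x_mem_V := hV.x_mem_V
  V_total := hV.V_total
  R_le_V := hV.R_le_V
  w_inv_not_mem_V := hV.w_inv_not_mem_V
  V_gen := hV.V_gen
  gauss := hV.gauss
  qep_fin := hQ.qep_fin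
  qep_inf := hQ.qep_inf
  separable := hV.separable
  S_mem := hB.S_mem
  S_distinct := hB.S_distinct
  S_unit := hB.S_unit
  unramified := hB.unramified

end Fermat.Agent.S18.H576

end
end
-- ===== PACK-END S18/H576/Skel.lean

-- ===== PACK-BEGIN S18/H438/Front/PolyAlg.lean
section


/-!
# S18 / ALG-FRONT (helper438), part 7: the chart as an `R[X]`-algebra

`B = chartRing R z` (integral closure of `R[z]` in `F`) is an `R[X]`-algebra via `X ↦ z`:

* `chartPolyHom R z : R[X] →+* chartRing R z`, `chartPolyAlgebra R z` (a `def`, use with `letI`);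
* `chartPolyHom_C_eq_chartUnif` : `C w ↦ ϖ`;
* `chartPolyHom_injective`, `chartPoly_finite`, `chartPoly_isTorsionFree`
  (the instance hypotheses of `B12.B2RegularStatement` and of `H425.hsep_poly`).
-/

set_option autoImplicit false
set_option linter.style.haveILetI false
set_option linter.unusedSectionVars false

noncomputable section

namespace Fermat.Agent.S18.H438

open Polynomial

variable {F : Type*} [Field F] (R : Subring F) (z : F)

/-- `R[X] → R[z]`, `X ↦ z`. -/
def basePolyHom : R[X] →+* baseRing R z :=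
  (Polynomial.aeval (⟨z, self_mem_baseRing R z⟩ : baseRing R z)).toRingHom

theorem coe_basePolyHom (P : R[X]) :
    ((basePolyHom R z P : baseRing R z) : F) = Polynomial.aeval z P := by
  have : ((basePolyHom R z P : baseRing R z) : F) =
      (baseRing R z).val (Polynomial.aeval (⟨z, self_mem_baseRing R z⟩ : baseRing R z) P) := rfl
  rw [this, ← Polynomial.aeval_algHom_apply]
  rfl

theorem basePolyHom_surjective : Function.Surjective (basePolyHom R z) := by
  rintro ⟨a, ha⟩
  obtain ⟨P, hP⟩ := exists_aeval_eq_of_mem_baseRing R z ha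
  exact ⟨P, Subtype.ext (by rw [coe_basePolyHom, hP])⟩

/-- `R[X] → B`, `X ↦ z`. -/
def chartPolyHom : R[X] →+* chartRing R z :=
  (algebraMap (baseRing R z) (chartRing R z)).comp (basePolyHom R z)

theorem coe_chartPolyHom (P : R[X]) :
    ((chartPolyHom R z P : chartRing R z) : F) = Polynomial.aeval z P :=
  coe_basePolyHom R z P

theorem chartPolyHom_C_eq_chartUnif {w : F} (hwR : w ∈ R) :
    chartPolyHom R z (C (⟨w, hwR⟩ : R)) = chartUnif (z := z) hwR := by
  apply Subtype.ext
  rw [coe_chartPolyHom, Polynomial.aeval_C]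
  rfl

theorem chartPolyHom_injective (hz : Transcendental R z) :
    Function.Injective (chartPolyHom R z) := by
  intro P Q hPQ
  have h := congrArg (fun b : chartRing R z => (b : F)) hPQ
  simp only [coe_chartPolyHom] at h
  exact (transcendental_iff_injective.1 hz) h

/-- The `R[X]`-algebra structure on the chart (`X ↦ z`). -/
@[reducible] def chartPolyAlgebra : Algebra R[X] (chartRing R z) := (chartPolyHom R z).toAlgebra

theorem chartPoly_isTorsionFree (hz : Transcendental R z) :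
    letI := chartPolyAlgebra R z
    Module.IsTorsionFree R[X] (chartRing R z) := by
  letI := chartPolyAlgebra R z
  refine Module.IsTorsionFree.of_smul_eq_zero (R := R[X]) (M := chartRing R z) fun r m h => ?_
  rw [Algebra.smul_def] at h
  rcases mul_eq_zero.1 h with h | h
  · left
    exact chartPolyHom_injective R z hz (by rw [map_zero]; exact h)
  · exact Or.inr h

section Instances

attribute [local instance] FractionRing.liftAlgebra

variable [CharZero F] [hfin : FiniteDimensional (FractionRing (baseRing R z)) F]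
  [IsDiscreteValuationRing R]

theorem chartPoly_finite (hz : Transcendental R z) :
    letI := chartPolyAlgebra R z
    Module.Finite R[X] (chartRing R z) := by
  letI a1 : Algebra R[X] (baseRing R z) := (basePolyHom R z).toAlgebra
  letI := chartPolyAlgebra R z
  haveI : IsScalarTower R[X] (baseRing R z) (chartRing R z) :=
    IsScalarTower.of_algebraMap_eq (fun _ => rfl)
  haveI : Module.Finite R[X] (baseRing R z) :=
    Module.Finite.of_surjective (Algebra.linearMap R[X] (baseRing R z))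
      (basePolyHom_surjective R z)
  haveI := chartRing_finite R z hz
  exact Module.Finite.trans (baseRing R z) (chartRing R z)

end Instances

end Fermat.Agent.S18.H438

end
end
-- ===== PACK-END S18/H438/Front/PolyAlg.lean

-- ===== PACK-BEGIN A2/H129/Kummer.lean
section



/-!
# A2 / K1: the Kummer dictionary (Prelude language, any `K`, `F`)

`x ∈ Pic0 K F` with `m • x = 0`, `x = [D]`, `m D = div f`.  For a semilinear automorphism `g`:
`(g - 1)² x = 0` as soon as `(g - 1)² f = c · y ^ m` for a constant `c` and a function `y`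
(multiplicative notation `tauSubOne`).

* `KummerTwice g m` : the Kummer-side statement (what K2 + K3 have to prove).
* `unipotent_of_kummerTwice` : `KummerTwice g m → ∀ x, m • x = 0 → g • (g • x - x) = g • x - x`.
-/

set_option autoImplicit false

namespace Fermat.Agent.A2.H129

open AlgebraicCurve

variable {K F : Type*} [Field K] [Field F] [Algebra K F]

/-- **Kummer-side statement.** For every `f ≠ 0` whose divisor is divisible by `m`, the function
`(g - 1)² f = g(g f / f) / (g f / f)` is a constant times an `m`-th power. -/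
def KummerTwice (g : SemilinearAut K F) (m : ℕ) : Prop :=
  ∀ f : F, f ≠ 0 → (∀ v : Place K F, (m : ℤ) ∣ v.ord f) →
    ∃ y : F, ∃ c : K, c ≠ 0 ∧
      tauSubOne (SemilinearAut.toRingAut g) (tauSubOne (SemilinearAut.toRingAut g) f)
        = algebraMap K F c * y ^ m

theorem ord_algebraMap_eq_zero (v : Place K F) (c : K) : v.ord (algebraMap K F c) = 0 := by
  rcases eq_or_ne c 0 with rfl | hc
  · simp
  have h1 : algebraMap K F c ∈ v.toValuationSubring := v.algebraMap_mem' c
  have h2 : algebraMap K F c⁻¹ ∈ v.toValuationSubring := v.algebraMap_mem' c⁻¹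
  have hu : IsUnit (⟨algebraMap K F c, h1⟩ : v.toValuationSubring) := by
    refine IsUnit.of_mul_eq_one (⟨algebraMap K F c⁻¹, h2⟩ : v.toValuationSubring) ?_
    ext
    show algebraMap K F c * algebraMap K F c⁻¹ = 1
    rw [← map_mul, mul_inv_cancel₀ hc, map_one]
  exact v.ord_coe_unit hu.unit

theorem ord_smul_eq (g : SemilinearAut K F) (w : Place K F) (f : F) :
    w.ord (SemilinearAut.toRingAut g f) = (g⁻¹ • w).ord f := by
  have h := SemilinearAut.ord_smul g (g⁻¹ • w) f
  rw [smul_inv_smul] at h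
  exact h

theorem ord_div (v : Place K F) {f h : F} (hf : f ≠ 0) (hh : h ≠ 0) :
    v.ord (f * h⁻¹) = v.ord f - v.ord h := by
  rw [v.ord_mul hf (inv_ne_zero hh), v.ord_inv, sub_eq_add_neg]

theorem ord_pow (v : Place K F) (y : F) (m : ℕ) : v.ord (y ^ m) = m * v.ord y := by
  have := v.ord_zpow y (m : ℤ)
  simpa using this

/-- **K1.**  The Kummer-side statement implies `(g - 1)² = 0` on the `m`-torsion of `Pic0`. -/
theorem unipotent_of_kummerTwice (g : SemilinearAut K F) (m : ℕ) (hm : m ≠ 0)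
    (H : KummerTwice g m) (x : Pic0 K F) (hx : m • x = 0) :
    g • (g • x - x) = g • x - x := by
  obtain ⟨D, rfl⟩ := Pic0.mk_surjective x
  -- the Kummer generator
  have hprin : ((m • D : Divisor.degZero (K := K) (F := F)) : Divisor K F) ∈
      Divisor.principal (K := K) (F := F) := by
    have h0 : Pic0.mk (m • D) = 0 := hx
    have := (QuotientAddGroup.eq_zero_iff (m • D)).1 h0
    simpa [AddSubgroup.mem_addSubgroupOf] using this
  obtain ⟨f, hf, hfD⟩ := hprin
  have hfD' : ∀ v : Place K F, v.ord f = (m : ℤ) * (D : Divisor K F) v := by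
    intro v
    rw [← hfD v]
    simp [Finsupp.smul_apply]
  obtain ⟨y, c, hc, hyc⟩ := H f hf (fun v => ⟨_, hfD' v⟩)
  set τ := SemilinearAut.toRingAut g with hτ
  have hτf : τ f ≠ 0 := by simpa using hf
  have h1 : tauSubOne τ f ≠ 0 := tauSubOne_ne_zero τ hf
  have h2 : tauSubOne τ (tauSubOne τ f) ≠ 0 := tauSubOne_ne_zero τ h1
  have hy : y ≠ 0 := by
    rintro rfl
    rw [zero_pow hm, mul_zero] at hyc
    exact h2 hyc
  have hcF : algebraMap K F c ≠ 0 := by simpa using hc
  -- the divisor `E = (g-1)² D`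
  set E : Divisor.degZero (K := K) (F := F) :=
    SemilinearAut.degZeroSMulHom g (SemilinearAut.degZeroSMulHom g D - D)
      - (SemilinearAut.degZeroSMulHom g D - D) with hE
  have hgoal : g • (g • Pic0.mk D - Pic0.mk D) - (g • Pic0.mk D - Pic0.mk D) = Pic0.mk E := by
    rw [SemilinearAut.pic0_smul_mk]
    rfl
  rw [← sub_eq_zero, hgoal]
  refine (QuotientAddGroup.eq_zero_iff E).2 ?_
  rw [AddSubgroup.mem_addSubgroupOf]
  refine ⟨y, hy, fun w => ?_⟩
  -- compare `m * E w` and `m * ord_w y`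
  have hEw : (E : Divisor K F) w =
      (D : Divisor K F) (g⁻¹ • (g⁻¹ • w)) - (D : Divisor K F) (g⁻¹ • w)
        - ((D : Divisor K F) (g⁻¹ • w) - (D : Divisor K F) w) := by
    simp only [hE, AddSubgroupClass.coe_sub, SemilinearAut.coe_degZeroSMulHom, smul_sub,
      Finsupp.sub_apply, SemilinearAut.divisor_smul_apply]
  have e1 : ∀ (h : F), h ≠ 0 → ∀ v : Place K F,
      v.ord (tauSubOne τ h) = (g⁻¹ • v).ord h - v.ord h := by
    intro h hh v
    have hτh : τ h ≠ 0 := by simpa using hh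
    show v.ord (τ h * h⁻¹) = _
    rw [ord_div v hτh hh, hτ, ord_smul_eq]
  have hord : w.ord (tauSubOne τ (tauSubOne τ f)) =
      (g⁻¹ • (g⁻¹ • w)).ord f - (g⁻¹ • w).ord f - ((g⁻¹ • w).ord f - w.ord f) := by
    rw [e1 _ h1 w, e1 f hf (g⁻¹ • w), e1 f hf w]
  have hord2 : w.ord (tauSubOne τ (tauSubOne τ f)) = (m : ℤ) * w.ord y := by
    rw [hyc, w.ord_mul hcF (pow_ne_zero m hy), ord_algebraMap_eq_zero, zero_add, ord_pow]
  have hmE : (m : ℤ) * (E : Divisor K F) w = (m : ℤ) * w.ord y := by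
    rw [← hord2, hord, hEw, hfD', hfD', hfD']
    ring
  have hm' : (m : ℤ) ≠ 0 := by exact_mod_cast hm
  exact mul_left_cancel₀ hm' hmE

end Fermat.Agent.A2.H129

end
-- ===== PACK-END A2/H129/Kummer.lean

-- ===== PACK-BEGIN A2/H129/KummerJZero.lean
section



/-!
# A2 / K1 for `JZero N`: the wall A2 from its Kummer form

`A2Kummer N m σ` is the Kummer-side statement for the arithmetic Galois action of `σ` on
`Q̄(X₀(N)) ⊂ Q̄((q))`; `unipotent_JZero_of_kummer` turns it into `(σ - 1)² = 0` on `J₀(N)[m]`.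
-/

set_option autoImplicit false

namespace Fermat.Agent.A2.H129

open AlgebraicCurve ModularCurve

/-- The Kummer form of wall A2 for one `σ`: for every `f ∈ Q̄(X₀(N))^×` whose divisor is divisible
by `m`, `(σ-1)² f` is a constant times an `m`-th power. -/
def A2Kummer (N m : ℕ) (σ : AlgebraicClosure ℚ ≃ₐ[ℚ] AlgebraicClosure ℚ) : Prop :=
  KummerTwice (K := AlgebraicClosure ℚ) (F := modularFunctionFieldBar N)
    (arithmeticGalois (modularFunctionFieldFull N) σ) m

theorem unipotent_JZero_of_kummer (N m : ℕ) (hm : m ≠ 0)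
    (σ : AlgebraicClosure ℚ ≃ₐ[ℚ] AlgebraicClosure ℚ) (H : A2Kummer N m σ)
    (x : JZero N) (hx : m • x = 0) :
    σ • (σ • x - x) = σ • x - x := by
  have h := unipotent_of_kummerTwice
    (arithmeticGalois (modularFunctionFieldFull N) σ) m hm H x hx
  exact h

end Fermat.Agent.A2.H129

end
-- ===== PACK-END A2/H129/KummerJZero.lean

-- ===== PACK-BEGIN S37/H818/NormCompat.lean
section
/-
S37 / LEVEL TRANSFER (helper818), part 5: norm compatibility for a square

      F  --a-->  F₁
      |i         |i₁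
      v          v
      G  --a'->  G₁

with `[F₁ : F] = [G₁ : G]` and `G₁ = G · i₁(F₁)`:  `N_{G₁/G}(i₁ f) = i (N_{F₁/F} f)`.
-/




set_option autoImplicit false
set_option linter.style.haveILetI false

noncomputable section

namespace Fermat.Agent.S37.H818

open AlgebraicCurve

section Abstract

variable {F F₁ G G₁ : Type*} [Field F] [Field F₁] [Field G] [Field G₁]
  [Algebra F F₁] [Algebra G G₁] (i : F →+* G) (i₁ : F₁ →+* G₁)
  (hsq : ∀ x : F, i₁ (algebraMap F F₁ x) = algebraMap G G₁ (i x))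

include hsq in
theorem map_smul_square (c : F) (x : F₁) : i₁ (c • x) = i c • i₁ x := by
  rw [Algebra.smul_def, Algebra.smul_def, map_mul, hsq]

include hsq in
/-- The image of a basis spans a subspace closed under multiplication containing `i₁(F₁)`. -/
theorem span_image_basis_eq_top {n : ℕ} (e : Module.Basis (Fin n) F F₁)
    (hgen : Algebra.adjoin G (Set.range i₁) = ⊤) :
    Submodule.span G (Set.range fun j => i₁ (e j)) = ⊤ := by
  set S : Submodule G G₁ := Submodule.span G (Set.range fun j => i₁ (e j)) with hS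
  have hgenS : ∀ f : F₁, i₁ f ∈ S := by
    intro f
    have hf : f = ∑ j, e.repr f j • e j := (e.sum_repr f).symm
    rw [hf, map_sum]
    refine Submodule.sum_mem _ fun j _ => ?_
    rw [map_smul_square i i₁ hsq]
    exact Submodule.smul_mem _ _ (Submodule.subset_span ⟨j, rfl⟩)
  have hmul : ∀ x ∈ S, ∀ y ∈ S, x * y ∈ S := by
    intro x hx y hy
    induction hx using Submodule.span_induction with
    | mem x hx =>
      obtain ⟨j, rfl⟩ := hx
      induction hy using Submodule.span_induction with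
      | mem y hy =>
        obtain ⟨k, rfl⟩ := hy
        simp only
        rw [← map_mul]
        exact hgenS _
      | zero => rw [mul_zero]; exact S.zero_mem
      | add y z _ _ hy hz => rw [mul_add]; exact S.add_mem hy hz
      | smul c y _ hy => rw [mul_smul_comm]; exact S.smul_mem c hy
    | zero => rw [zero_mul]; exact S.zero_mem
    | add x z _ _ hx hz => rw [add_mul]; exact S.add_mem hx hz
    | smul c x _ hx => rw [smul_mul_assoc]; exact S.smul_mem c hx
  rw [eq_top_iff]
  intro x _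
  have hx : x ∈ Algebra.adjoin G (Set.range i₁) := by rw [hgen]; exact Algebra.mem_top
  induction hx using Algebra.adjoin_induction with
  | mem y hy =>
    obtain ⟨f, rfl⟩ := hy
    exact hgenS f
  | algebraMap g =>
    have h1 : (1 : G₁) ∈ S := by
      have := hgenS 1
      rwa [map_one] at this
    have : algebraMap G G₁ g = g • (1 : G₁) := by rw [Algebra.smul_def, mul_one]
    rw [this]
    exact S.smul_mem g h1
  | add y z _ _ hy hz => exact S.add_mem (hy trivial) (hz trivial)
  | mul y z _ _ hy hz => exact hmul _ (hy trivial) _ (hz trivial)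

include hsq in
/-- Norm compatibility, abstract form. -/
theorem norm_square [Module.Finite F F₁] [Module.Finite G G₁]
    (hdeg : Module.finrank G G₁ = Module.finrank F F₁)
    (hgen : Algebra.adjoin G (Set.range i₁) = ⊤) (f : F₁) :
    Algebra.norm G (i₁ f) = i (Algebra.norm F f) := by
  classical
  set n := Module.finrank F F₁ with hn
  let e : Module.Basis (Fin n) F F₁ := Module.finBasis F F₁
  have hspan := span_image_basis_eq_top i i₁ hsq e hgen
  have hcard : Fintype.card (Fin n) = Module.finrank G G₁ := by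
    rw [Fintype.card_fin, hdeg]
  let e' : Module.Basis (Fin n) G G₁ :=
    basisOfTopLeSpanOfCardEqFinrank (fun j => i₁ (e j)) hspan.ge hcard
  have he' : ∀ j, e' j = i₁ (e j) := fun j => by
    simp [e', coe_basisOfTopLeSpanOfCardEqFinrank]
  rw [Algebra.norm_eq_matrix_det e' (i₁ f), Algebra.norm_eq_matrix_det e f, RingHom.map_det]
  congr 1
  ext k j
  rw [RingHom.mapMatrix_apply, Matrix.map_apply, Algebra.leftMulMatrix_eq_repr_mul,
    Algebra.leftMulMatrix_eq_repr_mul, he']
  have hprod : i₁ f * i₁ (e j) = ∑ k, i (e.repr (f * e j) k) • e' k := by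
    rw [← map_mul]
    conv_lhs => rw [← e.sum_repr (f * e j)]
    rw [map_sum]
    refine Finset.sum_congr rfl fun k _ => ?_
    rw [map_smul_square i i₁ hsq, he']
  rw [hprod, e'.repr_sum_self]

end Abstract

section Along

variable {K F F₁ G G₁ : Type*} [Field K] [Field F] [Field F₁] [Field G] [Field G₁]
  [Algebra K F] [Algebra K F₁] [Algebra K G] [Algebra K G₁]

/-- `NormCompat` from equality of degrees and generation `G₁ = a'(G)[i₁(F₁)]`. -/
theorem normCompat_of_finrank_eq (a : F →ₐ[K] F₁) (i : F →ₐ[K] G) (a' : G →ₐ[K] G₁)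
    (i₁ : F₁ →ₐ[K] G₁) (hsq : i₁.comp a = a'.comp i)
    (hfin : FiniteAlong K a) (hfin' : FiniteAlong K a')
    (hdeg : finrankAlong K a' = finrankAlong K a)
    (hgen : (letI := algebraAlong a'; Algebra.adjoin G (Set.range i₁)) = ⊤) :
    NormCompat a i a' i₁ := by
  intro f
  letI := algebraAlong a
  letI := algebraAlong a'
  haveI : Module.Finite F F₁ := hfin
  haveI : Module.Finite G G₁ := hfin'
  refine norm_square (i : F →+* G) (i₁ : F₁ →+* G₁) (fun x => ?_) hdeg ?_ f
  · exact congrArg (fun φ : F →ₐ[K] G₁ => φ x) hsq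
  · exact hgen

end Along

end Fermat.Agent.S37.H818

end

end
-- ===== PACK-END S37/H818/NormCompat.lean

-- ===== PACK-BEGIN S28/H86/GaussGen.lean
section




/-!
# The Gauss valuation ring of `O((t))` for a general coefficient DVR `O ⊆ E`

`E` a field, `O : Subring E`, `res : O →+* k` onto-ish a field `k` with kernel `(π)`, such that
every nonzero element of `O` is `π ^ n * y` with `res y ≠ 0` (`UnifData`).

* `inclL O : LaurentSeries O →+* LaurentSeries E`, `redL res : LaurentSeries O →+* LaurentSeries k`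
* `gaussRing O res : Subring (LaurentSeries E)` = localisation of `O((t))` at `(π)`
* `gaussRed : gaussRing O res →+* LaurentSeries k`, kernel `= π · gaussRing`
* `gaussFrac O : Subfield (LaurentSeries E)`, the valuation-ring dichotomy, integral closedness.
-/

set_option autoImplicit false
set_option linter.unusedSectionVars false

noncomputable section

namespace Fermat.Agent.S28.H86

open ModularCurve

/-- Uniformiser data: `ker res = (π)`, `π ≠ 0`, every nonzero element is `π ^ n * (unit mod π)`. -/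
structure UnifData {E : Type*} [Field E] (O : Subring E) {k : Type*} [Field k]
    (res : O →+* k) (π : O) : Prop where
  ker : ∀ x : O, res x = 0 ↔ ∃ y : O, x = π * y
  ne_zero : π ≠ 0
  prim : ∀ x : O, x ≠ 0 → ∃ (n : ℕ) (y : O), x = π ^ n * y ∧ res y ≠ 0

section Basic

variable {E : Type*} [Field E] (O : Subring E) {k : Type*} [Field k] (res : O →+* k) {π : O}

/-- The inclusion `O((t)) → E((t))`. -/
def inclL : LaurentSeries O →+* LaurentSeries E := coeffMap O.subtype

@[simp] theorem inclL_coeff (a : LaurentSeries O) (n : ℤ) :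
    (inclL O a).coeff n = (a.coeff n : E) := rfl

theorem inclL_injective : Function.Injective (inclL O) := by
  intro a b h
  ext n
  have := congrArg (fun x => x.coeff n) h
  simpa using this

theorem inclL_ne_zero {a : LaurentSeries O} (ha : a ≠ 0) : inclL O a ≠ 0 :=
  fun h => ha (inclL_injective O (h.trans (map_zero _).symm))

variable {O} in
/-- Coefficientwise reduction `O((t)) → k((t))`. -/
def redL : LaurentSeries O →+* LaurentSeries k := coeffMap res

@[simp] theorem redL_coeff (a : LaurentSeries O) (n : ℤ) :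
    (redL res a).coeff n = res (a.coeff n) := rfl

variable {O res}

theorem res_pi (h : UnifData O res π) : res π = 0 := (h.ker π).mpr ⟨1, (mul_one π).symm⟩

theorem coe_pi_ne_zero (h : UnifData O res π) : (π : E) ≠ 0 :=
  fun h0 => h.ne_zero (Subtype.ext h0)

/-- Division by `π` on `O` (junk value `0` on non-multiples). -/
def divPi (π : O) : ZeroHom O O where
  toFun x := by
    classical
    exact if h : π ≠ 0 ∧ ∃ y : O, x = π * y then h.2.choose else 0
  map_zero' := by
    classical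
    by_cases h : π ≠ 0 ∧ ∃ y : O, (0 : O) = π * y
    · simp only [dif_pos h]
      have := h.2.choose_spec
      rcases mul_eq_zero.mp this.symm with h' | h'
      · exact absurd h' h.1
      · exact h'
    · simp only [dif_neg h]

theorem pi_mul_divPi (h : UnifData O res π) {x : O} (hx : res x = 0) : π * divPi π x = x := by
  classical
  have h1 : π ≠ 0 ∧ ∃ y : O, x = π * y := ⟨h.ne_zero, (h.ker x).mp hx⟩
  show π * (if h : π ≠ 0 ∧ ∃ y : O, x = π * y then h.2.choose else 0) = x
  rw [dif_pos h1]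
  exact h1.2.choose_spec.symm

theorem redL_eq_zero_iff (h : UnifData O res π) (a : LaurentSeries O) :
    redL res a = 0 ↔ ∃ a' : LaurentSeries O, a = HahnSeries.C π * a' := by
  constructor
  · intro h0
    refine ⟨a.map (divPi π), ?_⟩
    ext n
    rw [HahnSeries.C_mul_eq_smul, HahnSeries.coeff_smul, HahnSeries.map_coeff, smul_eq_mul,
      pi_mul_divPi h]
    have := congrArg (fun x => x.coeff n) h0
    simpa using this
  · rintro ⟨a', rfl⟩
    ext n
    rw [HahnSeries.C_mul_eq_smul, redL_coeff, HahnSeries.coeff_smul, smul_eq_mul, map_mul,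
      res_pi h, zero_mul, HahnSeries.coeff_zero]

theorem redL_C_pi (h : UnifData O res π) : redL res (HahnSeries.C π) = 0 :=
  (redL_eq_zero_iff h _).mpr ⟨1, by rw [mul_one]⟩

variable (O) in
/-- The uniformiser as a constant Laurent series over `E`. -/
def piL (π : O) : LaurentSeries E := HahnSeries.C (π : E)

theorem inclL_C (c : O) : inclL O (HahnSeries.C c) = HahnSeries.C (c : E) := by
  ext n
  by_cases hn : n = 0
  · subst hn; simp [HahnSeries.C_apply]
  · simp [HahnSeries.C_apply, HahnSeries.coeff_single_of_ne hn]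

theorem inclL_C_pi : inclL O (HahnSeries.C π) = piL O π := inclL_C π

theorem piL_ne_zero (h : UnifData O res π) : piL O π ≠ 0 := by
  intro h0
  exact coe_pi_ne_zero h (HahnSeries.C_injective (by rw [← piL, h0, map_zero]))

theorem redL_cross {a b c d : LaurentSeries O}
    (h : inclL O a * inclL O d = inclL O c * inclL O b) :
    redL res a * redL res d = redL res c * redL res b := by
  rw [← map_mul, ← map_mul] at h
  rw [← map_mul, ← map_mul, inclL_injective O h]

end Basic

section Ring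

variable {E : Type*} [Field E] (O : Subring E) {k : Type*} [Field k] (res : O →+* k) {π : O}

/-! ### The Gauss valuation ring -/

/-- The Gauss valuation ring: the localisation of `O((t))` at the prime `(π)`, realised inside
`E((t))`. -/
def gaussRing : Subring (LaurentSeries E) where
  carrier := {x | ∃ a b : LaurentSeries O, redL res b ≠ 0 ∧ x * inclL O b = inclL O a}
  mul_mem' := by
    rintro x y ⟨a, b, hb, hab⟩ ⟨c, d, hd, hcd⟩
    refine ⟨a * c, b * d, ?_, ?_⟩
    · rw [map_mul]; exact mul_ne_zero hb hd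
    · rw [map_mul, map_mul, ← hab, ← hcd]; ring
  one_mem' := ⟨1, 1, by simp, by simp⟩
  add_mem' := by
    rintro x y ⟨a, b, hb, hab⟩ ⟨c, d, hd, hcd⟩
    refine ⟨a * d + c * b, b * d, ?_, ?_⟩
    · rw [map_mul]; exact mul_ne_zero hb hd
    · rw [map_add, map_mul, map_mul, map_mul, ← hab, ← hcd]; ring
  zero_mem' := ⟨0, 1, by simp, by simp⟩
  neg_mem' := by
    rintro x ⟨a, b, hb, hab⟩
    exact ⟨-a, b, hb, by rw [map_neg, ← hab]; ring⟩

variable {O res}

theorem mem_gaussRing_iff {x : LaurentSeries E} :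
    x ∈ gaussRing O res ↔ ∃ a b : LaurentSeries O,
      redL res b ≠ 0 ∧ x * inclL O b = inclL O a := Iff.rfl

variable (res) in
theorem inclL_mem_gaussRing (a : LaurentSeries O) : inclL O a ∈ gaussRing O res :=
  ⟨a, 1, by simp, by simp⟩

/-- A chosen numerator. -/
def gaussNum (x : gaussRing O res) : LaurentSeries O := x.2.choose

/-- A chosen denominator. -/
def gaussDen (x : gaussRing O res) : LaurentSeries O := x.2.choose_spec.choose

theorem redL_gaussDen_ne_zero (x : gaussRing O res) : redL res (gaussDen x) ≠ 0 :=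
  x.2.choose_spec.choose_spec.1

theorem gauss_spec (x : gaussRing O res) :
    (x : LaurentSeries E) * inclL O (gaussDen x) = inclL O (gaussNum x) :=
  x.2.choose_spec.choose_spec.2

/-- The reduction map on the Gauss ring, as a function. -/
def gaussRedFun (x : gaussRing O res) : LaurentSeries k :=
  redL res (gaussNum x) / redL res (gaussDen x)

theorem gaussRedFun_eq (x : gaussRing O res) (a b : LaurentSeries O)
    (hb : redL res b ≠ 0) (h : (x : LaurentSeries E) * inclL O b = inclL O a) :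
    gaussRedFun x = redL res a / redL res b := by
  rw [gaussRedFun, div_eq_div_iff (redL_gaussDen_ne_zero x) hb]
  apply redL_cross
  rw [← gauss_spec, ← h]; ring

variable (O res) in
/-- The reduction map `V → k((t))`. -/
def gaussRed : gaussRing O res →+* LaurentSeries k where
  toFun := gaussRedFun
  map_one' := by
    rw [gaussRedFun_eq 1 1 1 (by simp) (by simp)]
    simp
  map_mul' x y := by
    rw [gaussRedFun_eq (x * y) (gaussNum x * gaussNum y) (gaussDen x * gaussDen y)
      (by rw [map_mul]; exact mul_ne_zero (redL_gaussDen_ne_zero x) (redL_gaussDen_ne_zero y))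
      (by rw [map_mul, map_mul, ← gauss_spec, ← gauss_spec, Subring.coe_mul]; ring)]
    rw [map_mul, map_mul, gaussRedFun, gaussRedFun, div_mul_div_comm]
  map_zero' := by
    rw [gaussRedFun_eq 0 0 1 (by simp) (by simp)]
    simp
  map_add' x y := by
    rw [gaussRedFun_eq (x + y) (gaussNum x * gaussDen y + gaussNum y * gaussDen x)
      (gaussDen x * gaussDen y)
      (by rw [map_mul]; exact mul_ne_zero (redL_gaussDen_ne_zero x) (redL_gaussDen_ne_zero y))
      (by rw [map_add, map_mul, map_mul, map_mul, ← gauss_spec, ← gauss_spec,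
            Subring.coe_add]; ring)]
    rw [map_add, map_mul, map_mul, map_mul, gaussRedFun, gaussRedFun,
      div_add_div _ _ (redL_gaussDen_ne_zero x) (redL_gaussDen_ne_zero y)]
    ring

theorem gaussRed_eq (x : gaussRing O res) (a b : LaurentSeries O)
    (hb : redL res b ≠ 0) (h : (x : LaurentSeries E) * inclL O b = inclL O a) :
    gaussRed O res x = redL res a / redL res b := gaussRedFun_eq x a b hb h

theorem gaussRed_inclL (a : LaurentSeries O) :
    gaussRed O res ⟨inclL O a, inclL_mem_gaussRing res a⟩ = redL res a := by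
  rw [gaussRed_eq _ a 1 (by simp) (by simp)]
  simp

theorem piL_mem_gaussRing : piL O π ∈ gaussRing O res := by
  rw [← inclL_C_pi]; exact inclL_mem_gaussRing res _

theorem gaussRed_piL (h : UnifData O res π) :
    gaussRed O res ⟨piL O π, piL_mem_gaussRing⟩ = 0 := by
  have : (⟨piL O π, piL_mem_gaussRing⟩ : gaussRing O res) =
      ⟨inclL O (HahnSeries.C π), inclL_mem_gaussRing res _⟩ := Subtype.ext inclL_C_pi.symm
  rw [this, gaussRed_inclL, redL_C_pi h]

/-- The kernel of the reduction is generated by `π`. -/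
theorem gaussRed_eq_zero_iff (h : UnifData O res π) (x : gaussRing O res) :
    gaussRed O res x = 0 ↔ ∃ y : gaussRing O res, (x : LaurentSeries E) = piL O π * y := by
  constructor
  · intro h0
    have h1 : redL res (gaussNum x) = 0 := by
      have h2 : redL res (gaussNum x) / redL res (gaussDen x) = 0 := h0
      rcases div_eq_zero_iff.mp h2 with h3 | h3
      · exact h3
      · exact absurd h3 (redL_gaussDen_ne_zero x)
    obtain ⟨a', ha'⟩ := (redL_eq_zero_iff h _).mp h1
    have hspec := gauss_spec x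
    rw [ha', map_mul, inclL_C_pi] at hspec
    have hne := piL_ne_zero h
    have hy : (x : LaurentSeries E) * (piL O π)⁻¹ ∈ gaussRing O res := by
      refine ⟨a', gaussDen x, redL_gaussDen_ne_zero x, ?_⟩
      calc (x : LaurentSeries E) * (piL O π)⁻¹ * inclL O (gaussDen x)
          = ((x : LaurentSeries E) * inclL O (gaussDen x)) * (piL O π)⁻¹ := by ring
        _ = inclL O a' := by rw [hspec]; field_simp
    refine ⟨⟨_, hy⟩, ?_⟩
    show (x : LaurentSeries E) = piL O π * ((x : LaurentSeries E) * (piL O π)⁻¹)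
    field_simp
  · rintro ⟨y, hy⟩
    have : x = ⟨piL O π, piL_mem_gaussRing⟩ * y := Subtype.ext hy
    rw [this, map_mul, gaussRed_piL h, zero_mul]

/-! ### Primitive parts -/

theorem exists_primitive_aux (h : UnifData O res π) (m : ℕ) :
    ∀ (b : LaurentSeries O) (n0 : ℤ) (y : O), b.coeff n0 = π ^ m * y → res y ≠ 0 →
      ∃ (i : ℕ) (b' : LaurentSeries O), b = HahnSeries.C π ^ i * b' ∧ redL res b' ≠ 0 := by
  induction m with
  | zero =>
    intro b n0 y hy hres
    refine ⟨0, b, by simp, ?_⟩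
    intro h0
    have := congrArg (fun x => x.coeff n0) h0
    simp only [redL_coeff, HahnSeries.coeff_zero] at this
    rw [hy, pow_zero, one_mul] at this
    exact hres this
  | succ m ih =>
    intro b n0 y hy hres
    by_cases hb : redL res b = 0
    · obtain ⟨b1, rfl⟩ := (redL_eq_zero_iff h b).mp hb
      rw [HahnSeries.C_mul_eq_smul, HahnSeries.coeff_smul, smul_eq_mul, pow_succ', mul_assoc] at hy
      have h1 : b1.coeff n0 = π ^ m * y := mul_left_cancel₀ h.ne_zero hy
      obtain ⟨i, b', hb', hred⟩ := ih b1 n0 y h1 hres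
      refine ⟨i + 1, b', ?_, hred⟩
      rw [hb', pow_succ']
      ring
    · exact ⟨0, b, by simp, hb⟩

theorem exists_primitive (h : UnifData O res π) (b : LaurentSeries O) (hb : b ≠ 0) :
    ∃ (i : ℕ) (b' : LaurentSeries O), b = HahnSeries.C π ^ i * b' ∧ redL res b' ≠ 0 := by
  obtain ⟨n0, hn0⟩ : ∃ n0, b.coeff n0 ≠ 0 := by
    by_contra h0
    exact hb (HahnSeries.ext (funext fun n => not_not.mp (not_exists.mp h0 n)))
  obtain ⟨m, y, hy, hres⟩ := h.prim _ hn0
  exact exists_primitive_aux h m b n0 y hy hres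

/-! ### The fraction field of `O((t))` inside `E((t))` -/

variable (O) in
/-- The fraction field of `O((t))`, realised inside `E((t))`. -/
def gaussFrac : Subfield (LaurentSeries E) where
  carrier := {x | ∃ a b : LaurentSeries O, b ≠ 0 ∧ x * inclL O b = inclL O a}
  mul_mem' := by
    rintro x y ⟨a, b, hb, hab⟩ ⟨c, d, hd, hcd⟩
    refine ⟨a * c, b * d, mul_ne_zero hb hd, ?_⟩
    rw [map_mul, map_mul, ← hab, ← hcd]; ring
  one_mem' := ⟨1, 1, one_ne_zero, by simp⟩
  add_mem' := by
    rintro x y ⟨a, b, hb, hab⟩ ⟨c, d, hd, hcd⟩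
    refine ⟨a * d + c * b, b * d, mul_ne_zero hb hd, ?_⟩
    rw [map_add, map_mul, map_mul, map_mul, ← hab, ← hcd]; ring
  zero_mem' := ⟨0, 1, one_ne_zero, by simp⟩
  neg_mem' := by
    rintro x ⟨a, b, hb, hab⟩
    exact ⟨-a, b, hb, by rw [map_neg, ← hab]; ring⟩
  inv_mem' := by
    rintro x ⟨a, b, hb, hab⟩
    by_cases hx : x = 0
    · subst hx
      exact ⟨0, 1, one_ne_zero, by simp⟩
    · have hb' : inclL O b ≠ 0 := inclL_ne_zero O hb
      have ha : a ≠ 0 := by
        rintro rfl
        rw [map_zero] at hab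
        rcases mul_eq_zero.mp hab with h | h
        · exact hx h
        · exact hb' h
      refine ⟨b, a, ha, ?_⟩
      rw [← hab, ← mul_assoc, inv_mul_cancel₀ hx, one_mul]

theorem mem_gaussFrac_iff {x : LaurentSeries E} :
    x ∈ gaussFrac O ↔ ∃ a b : LaurentSeries O, b ≠ 0 ∧ x * inclL O b = inclL O a := Iff.rfl

theorem inclL_mem_gaussFrac (a : LaurentSeries O) : inclL O a ∈ gaussFrac O :=
  ⟨a, 1, one_ne_zero, by simp⟩

theorem gaussRing_le_gaussFrac {x : LaurentSeries E} (hx : x ∈ gaussRing O res) :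
    x ∈ gaussFrac O := by
  obtain ⟨a, b, hb, hab⟩ := hx
  exact ⟨a, b, fun h => hb (by rw [h, map_zero]), hab⟩

/-- The valuation-ring dichotomy: an element of the fraction field lies in the Gauss ring, or
it is the inverse of an element of the Gauss ring with vanishing reduction. -/
theorem mem_gaussRing_or_inv (h : UnifData O res π) {x : LaurentSeries E}
    (hx : x ∈ gaussFrac O) :
    x ∈ gaussRing O res ∨
      ∃ y : gaussRing O res, gaussRed O res y = 0 ∧ x * (y : LaurentSeries E) = 1 := by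
  obtain ⟨a, b, hb, hab⟩ := hx
  by_cases ha : a = 0
  · left
    subst ha
    rw [map_zero] at hab
    have hb' : inclL O b ≠ 0 := inclL_ne_zero O hb
    rcases mul_eq_zero.mp hab with h | h
    · rw [h]; exact zero_mem _
    · exact absurd h hb'
  obtain ⟨i, a', rfl, ha'⟩ := exists_primitive h a ha
  obtain ⟨j, b', rfl, hb'⟩ := exists_primitive h b hb
  have hπ := piL_ne_zero h
  have ha'0 : inclL O a' ≠ 0 := by
    intro h0
    apply ha'
    rw [inclL_injective O (h0.trans (map_zero _).symm), map_zero]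
  have hb'0 : inclL O b' ≠ 0 := by
    intro h0
    apply hb'
    rw [inclL_injective O (h0.trans (map_zero _).symm), map_zero]
  rw [map_mul, map_mul, map_pow, map_pow, inclL_C_pi] at hab
  rcases le_or_gt j i with hji | hji
  · left
    refine ⟨HahnSeries.C π ^ (i - j) * a', b', hb', ?_⟩
    rw [map_mul, map_pow, inclL_C_pi]
    have hpow : piL O π ^ i = piL O π ^ j * piL O π ^ (i - j) := by
      rw [← pow_add]; congr 1; omega
    rw [hpow] at hab
    have hk : piL O π ^ j ≠ 0 := pow_ne_zero _ hπ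
    apply mul_left_cancel₀ hk
    linear_combination hab
  · right
    have hy : piL O π ^ (j - i) * inclL O b' * (inclL O a')⁻¹ ∈ gaussRing O res := by
      refine ⟨HahnSeries.C π ^ (j - i) * b', a', ha', ?_⟩
      rw [map_mul, map_pow, inclL_C_pi]
      field_simp
    refine ⟨⟨_, hy⟩, ?_, ?_⟩
    · rw [gaussRed_eq _ (HahnSeries.C π ^ (j - i) * b') a' ha'
        (by rw [map_mul, map_pow, inclL_C_pi]; field_simp)]
      rw [map_mul, map_pow, redL_C_pi h, zero_pow (by omega), zero_mul, zero_div]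
    · show x * (piL O π ^ (j - i) * inclL O b' * (inclL O a')⁻¹) = 1
      have hpow : piL O π ^ j = piL O π ^ i * piL O π ^ (j - i) := by
        rw [← pow_add]; congr 1; omega
      rw [hpow] at hab
      have hi : piL O π ^ i ≠ 0 := pow_ne_zero _ hπ
      have h2 : x * (piL O π ^ (j - i) * inclL O b') = inclL O a' := by
        apply mul_left_cancel₀ hi
        linear_combination hab
      rw [← mul_assoc, ← mul_assoc, mul_assoc x, h2, mul_inv_cancel₀ ha'0]

/-- Elements with nonzero reduction are units of the Gauss ring. -/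
theorem inv_mem_gaussRing_of_gaussRed_ne_zero (x : gaussRing O res)
    (hx : gaussRed O res x ≠ 0) : (x : LaurentSeries E)⁻¹ ∈ gaussRing O res := by
  have hnum : redL res (gaussNum x) ≠ 0 := by
    intro h0
    apply hx
    show redL res (gaussNum x) / redL res (gaussDen x) = 0
    rw [h0, zero_div]
  have hden : inclL O (gaussDen x) ≠ 0 := by
    intro h0
    apply redL_gaussDen_ne_zero x
    rw [inclL_injective O (h0.trans (map_zero _).symm), map_zero]
  have hnum' : inclL O (gaussNum x) ≠ 0 := by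
    intro h0
    apply hnum
    rw [inclL_injective O (h0.trans (map_zero _).symm), map_zero]
  have hx0 : (x : LaurentSeries E) ≠ 0 := by
    intro h0
    have := gauss_spec x
    rw [h0, zero_mul] at this
    exact hnum' this.symm
  refine ⟨gaussDen x, gaussNum x, hnum, ?_⟩
  rw [← gauss_spec x, ← mul_assoc, inv_mul_cancel₀ hx0, one_mul]

/-- `π · V` is a prime ideal of `V` (product form). -/
theorem mem_pi_mul_of_mul_mem (h : UnifData O res π) {x y : LaurentSeries E}
    (hx : x ∈ gaussRing O res) (hy : y ∈ gaussRing O res)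
    (hxy : ∃ w ∈ gaussRing O res, x * y = piL O π * w) :
    (∃ w ∈ gaussRing O res, x = piL O π * w) ∨ (∃ w ∈ gaussRing O res, y = piL O π * w) := by
  obtain ⟨w, hw, hxyw⟩ := hxy
  have h0 : gaussRed O res (⟨x, hx⟩ * ⟨y, hy⟩) = 0 :=
    (gaussRed_eq_zero_iff h _).mpr ⟨⟨w, hw⟩, hxyw⟩
  rw [map_mul] at h0
  rcases mul_eq_zero.mp h0 with h1 | h1
  · left
    obtain ⟨w', hw'⟩ := (gaussRed_eq_zero_iff h _).mp h1
    exact ⟨w', w'.2, hw'⟩
  · right
    obtain ⟨w', hw'⟩ := (gaussRed_eq_zero_iff h _).mp h1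
    exact ⟨w', w'.2, hw'⟩

theorem one_notMem_pi_mul (h : UnifData O res π) :
    ¬ ∃ w ∈ gaussRing O res, (1 : LaurentSeries E) = piL O π * w := by
  rintro ⟨w, hw, h1⟩
  have h0 : gaussRed O res (1 : gaussRing O res) = 0 :=
    (gaussRed_eq_zero_iff h _).mpr ⟨⟨w, hw⟩, h1⟩
  rw [map_one] at h0
  exact one_ne_zero h0

/-- The Gauss ring is integrally closed in the fraction field `gaussFrac`. -/
theorem mem_gaussRing_of_isIntegral (h : UnifData O res π) {x : LaurentSeries E}
    (hxF : x ∈ gaussFrac O) (hx : IsIntegral (gaussRing O res) x) : x ∈ gaussRing O res := by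
  rcases mem_gaussRing_or_inv h hxF with h1 | ⟨y, hy0, hxy⟩
  · exact h1
  exfalso
  have hx0 : x ≠ 0 := by
    rintro rfl
    simp at hxy
  have hyx : (y : LaurentSeries E) = x⁻¹ := by
    apply mul_left_cancel₀ hx0
    rw [hxy, mul_inv_cancel₀ hx0]
  obtain ⟨p, hmonic, hroot⟩ := hx
  let _ : Invertible x := invertibleOfNonzero hx0
  have h1 := Polynomial.eval₂_reverse_mul_pow (algebraMap (gaussRing O res) (LaurentSeries E)) x p
  rw [hroot] at h1
  have h2 : Polynomial.eval₂ (algebraMap (gaussRing O res) (LaurentSeries E)) (⅟x)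
      p.reverse = 0 := by
    rcases mul_eq_zero.mp h1 with h | h
    · exact h
    · exact absurd h (pow_ne_zero _ hx0)
  have h3 : (⅟x : LaurentSeries E) = algebraMap (gaussRing O res) (LaurentSeries E) y := by
    rw [invOf_eq_inv, ← hyx]; rfl
  rw [h3, Polynomial.eval₂_at_apply] at h2
  have h4 : Polynomial.eval y p.reverse = 0 := by
    have hinj : Function.Injective (algebraMap (gaussRing O res) (LaurentSeries E)) :=
      Subtype.val_injective
    exact hinj (by rw [h2, map_zero])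
  have h5 := congrArg (gaussRed O res) h4
  rw [map_zero, ← Polynomial.eval₂_id, Polynomial.hom_eval₂, hy0, Polynomial.eval₂_at_zero,
    RingHom.comp_apply, RingHom.id_apply, Polynomial.coeff_zero_reverse, hmonic.leadingCoeff,
    map_one] at h5
  exact one_ne_zero h5

/-- Integral closedness, for integrality over any ring mapping into the Gauss ring. -/
theorem mem_gaussRing_of_isIntegral' (h : UnifData O res π) {A : Type*} [CommRing A]
    [Algebra A (LaurentSeries E)]
    (hA : ∀ a : A, algebraMap A (LaurentSeries E) a ∈ gaussRing O res)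
    {x : LaurentSeries E} (hxF : x ∈ gaussFrac O) (hx : IsIntegral A x) :
    x ∈ gaussRing O res := by
  apply mem_gaussRing_of_isIntegral h hxF
  let f : A →+* gaussRing O res :=
    (algebraMap A (LaurentSeries E)).codRestrict (gaussRing O res) hA
  exact hx.map_of_comp_eq f (RingHom.id (LaurentSeries E)) (by ext; rfl)

/-! ### Transport along coefficientwise-compatible ring homomorphisms -/

/-- A ring endomorphism `f` of `E((t))` which restricts to `fO` on `O((t))`, where `fO`
preserves nonvanishing of the reduction, preserves the Gauss ring. -/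
theorem map_mem_gaussRing (f : LaurentSeries E →+* LaurentSeries E)
    (fO : LaurentSeries O → LaurentSeries O)
    (hf : ∀ a, f (inclL O a) = inclL O (fO a))
    (hred : ∀ b, redL res b ≠ 0 → redL res (fO b) ≠ 0)
    {x : LaurentSeries E} (hx : x ∈ gaussRing O res) : f x ∈ gaussRing O res := by
  obtain ⟨a, b, hb, hab⟩ := hx
  refine ⟨fO a, fO b, hred b hb, ?_⟩
  rw [← hf, ← hf, ← map_mul, hab]

/-- Same for the fraction field. -/
theorem map_mem_gaussFrac (f : LaurentSeries E →+* LaurentSeries E)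
    (fO : LaurentSeries O → LaurentSeries O)
    (hf : ∀ a, f (inclL O a) = inclL O (fO a))
    {x : LaurentSeries E} (hx : x ∈ gaussFrac O) : f x ∈ gaussFrac O := by
  obtain ⟨a, b, hb, hab⟩ := hx
  have hfb : fO b ≠ 0 := by
    intro h0
    have h1 : f (inclL O b) = 0 := by rw [hf, h0, map_zero]
    exact inclL_ne_zero O hb ((map_eq_zero f).mp h1)
  refine ⟨fO a, fO b, hfb, ?_⟩
  rw [← hf, ← hf, ← map_mul, hab]

/-! ### Twists `t ↦ c t` by units of `O` -/

/-- Coefficientwise twist on `O((t))`: `a_n ↦ c ^ n * a_n` for a unit `c` of `O`. -/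
def twistO (c : Oˣ) (a : LaurentSeries O) : LaurentSeries O where
  coeff n := ((c ^ n : Oˣ) : O) * a.coeff n
  isPWO_support' := a.isPWO_support.mono (by
    intro n hn
    simp only [Function.mem_support, ne_eq] at hn
    simp only [HahnSeries.mem_support, ne_eq]
    intro h0
    exact hn (by rw [h0, mul_zero]))

@[simp] theorem twistO_coeff (c : Oˣ) (a : LaurentSeries O) (n : ℤ) :
    (twistO c a).coeff n = ((c ^ n : Oˣ) : O) * a.coeff n := rfl

theorem redL_twistO_ne_zero (c : Oˣ) {b : LaurentSeries O} (hb : redL res b ≠ 0) :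
    redL res (twistO c b) ≠ 0 := by
  intro h0
  apply hb
  ext n
  have h1 := congrArg (fun x => x.coeff n) h0
  simp only [redL_coeff, twistO_coeff, map_mul, HahnSeries.coeff_zero] at h1 ⊢
  have hu : IsUnit (res ((c ^ n : Oˣ) : O)) := (Units.isUnit _).map res
  exact (hu.mul_right_eq_zero).mp h1

/-- Any ring endomorphism of `E((t))` acting on coefficients by `φ_n ↦ c ^ n φ_n`, for a unit `c`
of `O`, preserves the Gauss ring. -/
theorem twist_mem_gaussRing (c : Oˣ) (f : LaurentSeries E →+* LaurentSeries E)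
    (hf : ∀ (φ : LaurentSeries E) (n : ℤ), (f φ).coeff n = (((c ^ n : Oˣ) : O) : E) * φ.coeff n)
    {x : LaurentSeries E} (hx : x ∈ gaussRing O res) : f x ∈ gaussRing O res := by
  refine map_mem_gaussRing f (twistO c) ?_ (fun b hb => redL_twistO_ne_zero c hb) hx
  intro a
  ext n
  rw [hf]
  simp

theorem twist_mem_gaussFrac (c : Oˣ) (f : LaurentSeries E →+* LaurentSeries E)
    (hf : ∀ (φ : LaurentSeries E) (n : ℤ), (f φ).coeff n = (((c ^ n : Oˣ) : O) : E) * φ.coeff n)
    {x : LaurentSeries E} (hx : x ∈ gaussFrac O) : f x ∈ gaussFrac O := by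
  refine map_mem_gaussFrac f (twistO c) ?_ hx
  intro a
  ext n
  rw [hf]
  simp

/-! ### The Gauss property for polynomials in a series with a pole -/

/-- Evaluation of a polynomial with `O`-coefficients at a Laurent series over `O`. -/
def evO (J : LaurentSeries O) : Polynomial O →+* LaurentSeries O :=
  Polynomial.eval₂RingHom (HahnSeries.C : O →+* LaurentSeries O) J

theorem evO_apply (J : LaurentSeries O) (P : Polynomial O) :
    evO J P = P.eval₂ (HahnSeries.C : O →+* LaurentSeries O) J := rfl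

theorem redL_C (c : O) : redL res (HahnSeries.C c) = HahnSeries.C (res c) := by
  ext n
  by_cases hn : n = 0
  · subst hn; simp [HahnSeries.C_apply]
  · simp [HahnSeries.C_apply, HahnSeries.coeff_single_of_ne hn]

theorem redL_evO (J : LaurentSeries O) (P : Polynomial O) :
    redL res (evO J P) = Polynomial.aeval (redL res J) (P.map res) := by
  rw [evO_apply, Polynomial.hom_eval₂, Polynomial.aeval_def, Polynomial.eval₂_map]
  congr 1
  ext c : 1
  rw [RingHom.comp_apply, RingHom.comp_apply, redL_C, algebraMap_laurentSeries_eq_single]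
  rfl

/-- **Gauss property.** If the reduction of `J` has nonzero order, a polynomial in `J` with
`O`-coefficients whose reduction vanishes is divisible by `π` as a polynomial. -/
theorem exists_eq_C_mul_of_redL_evO_eq_zero (h : UnifData O res π) (J : LaurentSeries O)
    (hJ0 : redL res J ≠ 0) (hJo : (redL res J).order ≠ 0) (P : Polynomial O)
    (hP : redL res (evO J P) = 0) : ∃ P' : Polynomial O, P = Polynomial.C π * P' := by
  rw [redL_evO] at hP
  have h0 : P.map res = 0 := by
    by_contra hne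
    exact aeval_ne_zero_of_order_ne_zero hJ0 hJo hne hP
  have hmem : P ∈ Ideal.map (Polynomial.C : O →+* Polynomial O) (Ideal.span {π}) := by
    rw [Ideal.mem_map_C_iff]
    intro n
    have hn : res (P.coeff n) = 0 := by
      have := congrArg (fun Q => Q.coeff n) h0
      simpa using this
    obtain ⟨y, hy⟩ := (h.ker _).mp hn
    exact Ideal.mem_span_singleton'.mpr ⟨y, by rw [hy, mul_comm]⟩
  rw [Ideal.map_span, Set.image_singleton, Ideal.mem_span_singleton'] at hmem
  obtain ⟨P', hP'⟩ := hmem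
  exact ⟨P', by rw [← hP', mul_comm]⟩

/-- **Gauss property**, in the form used by the abstract core: if `π · w = P(J)` with `w` in
the Gauss ring, then `w = P'(J)` for some polynomial `P'` over `O`. -/
theorem exists_evO_eq_of_pi_mul_eq (h : UnifData O res π) (J : LaurentSeries O)
    (hJ0 : redL res J ≠ 0) (hJo : (redL res J).order ≠ 0) (P : Polynomial O)
    {w : LaurentSeries E} (hw : w ∈ gaussRing O res)
    (heq : piL O π * w = inclL O (evO J P)) : ∃ P' : Polynomial O, w = inclL O (evO J P') := by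
  have hred : redL res (evO J P) = 0 := by
    rw [← gaussRed_inclL (res := res)]
    exact (gaussRed_eq_zero_iff h _).mpr ⟨⟨w, hw⟩, heq.symm⟩
  obtain ⟨P', rfl⟩ := exists_eq_C_mul_of_redL_evO_eq_zero h J hJ0 hJo P hred
  refine ⟨P', ?_⟩
  apply mul_left_cancel₀ (piL_ne_zero h)
  rw [heq, map_mul, map_mul, ← inclL_C_pi]
  congr 2
  rw [evO_apply, Polynomial.eval₂_C]

end Ring

section Transport

variable {E₁ : Type*} [Field E₁] {O₁ : Subring E₁} {k₁ : Type*} [Field k₁] {res₁ : O₁ →+* k₁}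
  {E₂ : Type*} [Field E₂] {O₂ : Subring E₂} {k₂ : Type*} [Field k₂] {res₂ : O₂ →+* k₂}

/-- Transport between two Gauss rings along a ring homomorphism `F : E₁((t)) → E₂((t))` which
restricts to `FO : O₁((t)) → O₂((t))` preserving nonvanishing of the reduction. -/
theorem map_mem_gaussRing₂ (F : LaurentSeries E₁ →+* LaurentSeries E₂)
    (FO : LaurentSeries O₁ → LaurentSeries O₂)
    (hF : ∀ a, F (inclL O₁ a) = inclL O₂ (FO a))
    (hred : ∀ b, redL res₁ b ≠ 0 → redL res₂ (FO b) ≠ 0)
    {x : LaurentSeries E₁} (hx : x ∈ gaussRing O₁ res₁) : F x ∈ gaussRing O₂ res₂ := by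
  obtain ⟨a, b, hb, hab⟩ := hx
  refine ⟨FO a, FO b, hred b hb, ?_⟩
  rw [← hF, ← hF, ← map_mul, hab]

/-- Transport of the fraction fields. -/
theorem map_mem_gaussFrac₂ (F : LaurentSeries E₁ →+* LaurentSeries E₂)
    (FO : LaurentSeries O₁ → LaurentSeries O₂)
    (hF : ∀ a, F (inclL O₁ a) = inclL O₂ (FO a))
    {x : LaurentSeries E₁} (hx : x ∈ gaussFrac O₁) : F x ∈ gaussFrac O₂ := by
  obtain ⟨a, b, hb, hab⟩ := hx
  have hfb : FO b ≠ 0 := by
    intro h0
    have h1 : F (inclL O₁ b) = 0 := by rw [hF, h0, map_zero]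
    exact inclL_ne_zero O₁ hb ((map_eq_zero F).mp h1)
  refine ⟨FO a, FO b, hfb, ?_⟩
  rw [← hF, ← hF, ← map_mul, hab]

/-- Compatibility of the reductions under transport. -/
theorem gaussRed_map₂ (F : LaurentSeries E₁ →+* LaurentSeries E₂)
    (FO : LaurentSeries O₁ → LaurentSeries O₂) (Fk : LaurentSeries k₁ →+* LaurentSeries k₂)
    (hF : ∀ a, F (inclL O₁ a) = inclL O₂ (FO a))
    (hk : ∀ a, redL res₂ (FO a) = Fk (redL res₁ a))
    (x : gaussRing O₁ res₁) (hFx : F x ∈ gaussRing O₂ res₂) :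
    gaussRed O₂ res₂ ⟨F x, hFx⟩ = Fk (gaussRed O₁ res₁ x) := by
  have hb : redL res₂ (FO (gaussDen x)) ≠ 0 := by
    rw [hk]
    exact (map_ne_zero Fk).mpr (redL_gaussDen_ne_zero x)
  rw [gaussRed_eq ⟨F x, hFx⟩ (FO (gaussNum x)) (FO (gaussDen x)) hb
    (by rw [← hF, ← hF, ← map_mul, gauss_spec]), hk, hk]
  show _ = Fk (redL res₁ (gaussNum x) / redL res₁ (gaussDen x))
  rw [map_div₀]

end Transport

end Fermat.Agent.S28.H86

end
end
-- ===== PACK-END S28/H86/GaussGen.lean

-- ===== PACK-BEGIN S28/Basis.lean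
section
/-
S28: the interface `BasisData` between the CORE (any route) and the valuation layer [V]
(helper28).  It is K-free and does not ask the basis elements to lie in `F`.

`BasisData N ℓ` : there are `n` integral q-series `y i ∈ ℤ((q))` which
  (B1) are integral over `ℤ_(ℓ)[j]`,
  (B2) span (a space containing) `F = modularFunctionFieldFull N` over `ℚ(j)`
       -- polynomial form, denominators cleared,
  (B3) have reductions mod `ℓ` independent over `𝔽_ℓ[j̄]` -- polynomial form.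
Route (a) (prime level + tower, `CoreData`) produces it with monomials in the `j(q^d)`;
route (d) (single modular unit `u`, irreducibility criterion) with `y i = u ^ i`.
-/



set_option autoImplicit false
open ModularCurve
noncomputable section

namespace Fermat.Agent.S28

/-- The CORE output consumed by the valuation layer [V]. -/
structure BasisData (N : ℕ) [NeZero N] (ℓ : ℕ) [Fact ℓ.Prime] : Prop where
  exists_basis : ∃ (n : ℕ) (y : Fin n → LaurentSeries ℤ),
    -- (B1) each `y i` is a root of a polynomial in `X` over `ℤ[j]` whose leading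
    -- coefficient is a constant `c` prime to `ℓ`
    (∀ i, ∃ (c : ℕ) (P : Polynomial (Polynomial ℤ)), ¬ ℓ ∣ c ∧
        P.leadingCoeff = Polynomial.C (c : ℤ) ∧
        P.eval₂ (evalAt (jqModC ℤ)) (y i) = 0) ∧
    -- (B2) span over `ℚ(j)`, denominators cleared
    (∀ x ∈ modularFunctionFieldFull N, ∃ (g : Polynomial ℤ) (f : Fin n → Polynomial ℤ),
        g ≠ 0 ∧ evalAt (jqModC ℚ) g * x =
          ∑ i, evalAt (jqModC ℚ) (f i) * coeffMap (Int.castRingHom ℚ) (y i)) ∧
    -- (B3) independence mod `ℓ` over `𝔽_ℓ[j̄]`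
    (∀ f : Fin n → Polynomial (ZMod ℓ),
        ∑ i, Polynomial.aeval (jqModC (ZMod ℓ)) (f i) *
          coeffMap (Int.castRingHom (ZMod ℓ)) (y i) = 0 → ∀ i, f i = 0)

end Fermat.Agent.S28

end
end
-- ===== PACK-END S28/Basis.lean

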