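import Fermat.Statements.S23
import Fermat.Prelude.Def_CuspForm_Newforms
import Fermat.Prelude.Thm_CuspForm_intLattice_fg
import Mathlib
import Fermat.Prelude.Def_ModularForm_HeckeOperatorForms
import Fermat.Prelude.Thm_ModularFormClass_qCoeff_heckeT
import Fermat.Prelude.Def_ModularCurve_HeckeOperator
import Fermat.Prelude.Def_FLTPrelim_Ramification
import Fermat.Prelude.Def_ModularCurve_X0ModL
import Fermat.Prelude.Thm_ModularCurve_coeffMap_qExpand
import Fermat.Prelude.Def_GroupCohomology_ContinuousUnramified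
import Fermat.Prelude.Def_ModularCurve_ArithmeticGalois
import Fermat.Prelude.Def_AlgebraicCurve_Correspondence
import Fermat.Prelude.Def_ModularCurve_HeckeModule
import Mathlib.RingTheory.AdjoinRoot
import Fermat.Agent.Pack.S35.G0E1L0
import Fermat.Agent.Pack.S35.G0E1L1
import Fermat.Agent.Pack.S35.G0E0L1
import Fermat.Agent.Pack.S35.G0E1L3
import Fermat.Agent.Pack.S35.G0E1L2
import Fermat.Agent.Pack.S35.G0E0L3
import Fermat.Agent.Pack.S35.G0E0L0
import Fermat.Agent.Pack.S35.G0E0L2

-- ===== PACK-BEGIN S29/H201/PeTensor.lean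
section



/-!
# S29 layer M, piece E2 (helper201): `F ⊗ peHoms` versus `F`-valued homomorphisms

* `evalT γ : F ⊗[ZMod p] peHoms N p →ₗ[F] F` — evaluation at `γ`;
* `eq_zero_of_evalT_eq_zero` — an element of `F ⊗ peHoms` is determined by its evaluations;
* `exists_tensor_of_hom` — every `F`-valued "pe" homomorphism comes from `F ⊗ peHoms`.
-/

set_option autoImplicit false

open CongruenceSubgroup Matrix.SpecialLinearGroup ModularCurve ModularCurve.Period
open scoped MatrixGroups TensorProduct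
open Fermat.Agent.S29.M (peHoms)

namespace Fermat.Agent.S29.H201

variable {N : ℕ} {p : ℕ} {F : Type} [Field F] [Algebra (ZMod p) F]

/-- "pe": vanishing on parabolic elements (`tr² = 4`) and on elements of finite order. -/
def IsPe {A : Type*} [AddCommGroup A] (χ : Additive (Gamma0 N) →+ A) : Prop :=
  (∀ γ : Gamma0 N,
      ((γ : SL(2, ℤ)) : Matrix (Fin 2) (Fin 2) ℤ).trace ^ 2 = 4 → χ (Additive.ofMul γ) = 0) ∧
    (∀ γ : Gamma0 N, IsOfFinOrder γ → χ (Additive.ofMul γ) = 0)

theorem isPe_of_mem_peHoms (χ : peHoms N p) : IsPe (χ : Additive (Gamma0 N) →+ ZMod p) := χ.2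

/-- evaluation at `γ`, as a `ZMod p`-linear map `peHoms → F`. -/
noncomputable def evalPe (N p : ℕ) (F : Type) [Field F] [Algebra (ZMod p) F] (γ : Gamma0 N) :
    peHoms N p →ₗ[ZMod p] F where
  toFun χ := algebraMap (ZMod p) F ((χ : Additive (Gamma0 N) →+ ZMod p) (Additive.ofMul γ))
  map_add' χ χ' := by
    show algebraMap (ZMod p) F (_ + _) = _
    rw [map_add]
  map_smul' c χ := by
    show algebraMap (ZMod p) F (c • _) = _
    rw [smul_eq_mul, map_mul, Algebra.smul_def]
    rfl

/-- evaluation at `γ` on `F ⊗ peHoms`. -/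
noncomputable def evalT (N p : ℕ) (F : Type) [Field F] [Algebra (ZMod p) F] (γ : Gamma0 N) :
    F ⊗[ZMod p] (peHoms N p) →ₗ[F] F :=
  LinearMap.liftBaseChange F (evalPe N p F γ)

theorem evalT_tmul (γ : Gamma0 N) (f : F) (χ : peHoms N p) :
    evalT N p F γ (f ⊗ₜ χ)
      = f * algebraMap (ZMod p) F ((χ : Additive (Gamma0 N) →+ ZMod p) (Additive.ofMul γ)) := by
  rw [evalT, LinearMap.liftBaseChange_tmul, smul_eq_mul]
  rfl

/-- An element of `F ⊗ peHoms` is determined by its evaluations. -/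
theorem eq_zero_of_evalT_eq_zero [Fact p.Prime] (c : F ⊗[ZMod p] (peHoms N p))
    (h : ∀ γ : Gamma0 N, evalT N p F γ c = 0) : c = 0 := by
  classical
  set ℬ := Module.Free.chooseBasis (ZMod p) F with hℬ
  obtain ⟨w, rfl⟩ := TensorProduct.eq_repr_basis_left ℬ c
  have hw : ∀ i ∈ w.support, w i = 0 := by
    intro i hi
    apply Subtype.ext
    refine AddMonoidHom.ext fun γ => ?_
    obtain ⟨γ, rfl⟩ : ∃ γ' : Gamma0 N, Additive.ofMul γ' = γ := ⟨Additive.toMul γ, rfl⟩
    have h1 := h γ
    rw [Finsupp.sum, map_sum] at h1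
    have h2 : ∑ j ∈ w.support,
        ((w j : Additive (Gamma0 N) →+ ZMod p) (Additive.ofMul γ)) • ℬ j = 0 := by
      rw [← h1]
      refine Finset.sum_congr rfl fun j _ => ?_
      rw [evalT_tmul, Algebra.smul_def, mul_comm]
    have h3 := linearIndependent_iff'.mp ℬ.linearIndependent w.support
      (fun j => (w j : Additive (Gamma0 N) →+ ZMod p) (Additive.ofMul γ)) h2 i hi
    exact h3
  rw [Finsupp.sum]
  refine Finset.sum_eq_zero fun i hi => ?_
  rw [hw i hi, TensorProduct.tmul_zero]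

/-- Every `F`-valued "pe" homomorphism of the finitely generated group `Γ₀(N)` comes from
`F ⊗ peHoms`. -/
theorem exists_tensor_of_hom [Fact p.Prime] [NeZero N] (χ : Additive (Gamma0 N) →+ F)
    (hχ : IsPe χ) :
    ∃ c : F ⊗[ZMod p] (peHoms N p),
      ∀ γ : Gamma0 N, evalT N p F γ c = χ (Additive.ofMul γ) := by
  classical
  obtain ⟨S, hS⟩ := (fg_Gamma0 (N := N)).out
  set E : Submodule (ZMod p) F := Submodule.span (ZMod p) (χ '' (S : Set (Additive (Gamma0 N))))
    with hE
  have hfg : E.FG := Submodule.fg_span ((Finset.finite_toSet S).image χ)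
  haveI : Module.Finite (ZMod p) E := Module.Finite.iff_fg.mpr hfg
  have hmem : ∀ γ : Additive (Gamma0 N), χ γ ∈ E := by
    intro γ
    have hγ : γ ∈ AddSubgroup.closure (S : Set (Additive (Gamma0 N))) := by
      rw [hS]; trivial
    induction hγ using AddSubgroup.closure_induction with
    | mem x hx => exact Submodule.subset_span ⟨x, hx, rfl⟩
    | zero => rw [map_zero]; exact E.zero_mem
    | add x y _ _ hx hy => rw [map_add]; exact E.add_mem hx hy
    | neg x _ hx => rw [map_neg]; exact E.neg_mem hx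
  let χE : Additive (Gamma0 N) →+ E := χ.codRestrict E hmem
  set b := Module.finBasis (ZMod p) E with hb
  let coord : Fin (Module.finrank (ZMod p) E) → (Additive (Gamma0 N) →+ ZMod p) := fun i =>
    (((Finsupp.lapply i : (Fin (Module.finrank (ZMod p) E) →₀ ZMod p) →ₗ[ZMod p] ZMod p).comp
      b.repr.toLinearMap).toAddMonoidHom).comp χE
  have hcoord : ∀ i γ, coord i γ = b.repr (χE γ) i := fun i γ => rfl
  have hzero : ∀ γ : Additive (Gamma0 N), χ γ = 0 → ∀ i, coord i γ = 0 := by
    intro γ h0 i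
    have h1 : χE γ = 0 := Subtype.ext h0
    rw [hcoord, h1, map_zero]
    rfl
  have hpe : ∀ i, coord i ∈ peHoms N p := fun i =>
    ⟨fun γ hγ => hzero _ (hχ.1 γ hγ) i, fun γ hγ => hzero _ (hχ.2 γ hγ) i⟩
  refine ⟨∑ i, ((b i : E) : F) ⊗ₜ[ZMod p] (⟨coord i, hpe i⟩ : peHoms N p), fun γ => ?_⟩
  rw [map_sum]
  have h1 : ∀ i, evalT N p F γ (((b i : E) : F) ⊗ₜ[ZMod p] (⟨coord i, hpe i⟩ : peHoms N p))
      = (((b.repr (χE (Additive.ofMul γ)) i) • b i : E) : F) := by
    intro i
    rw [evalT_tmul, Submodule.coe_smul, Algebra.smul_def, mul_comm]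
    rfl
  rw [Finset.sum_congr rfl fun i _ => h1 i, ← Submodule.coe_sum, b.sum_repr]
  rfl

end Fermat.Agent.S29.H201

end
-- ===== PACK-END S29/H201/PeTensor.lean

-- ===== PACK-BEGIN S29/H201/PeCycle.lean
section


/-!
# S29 layer M, piece E2 (helper201): `heckeHom` preserves "pe" homomorphisms (cycle argument)
-/

set_option autoImplicit false
set_option linter.style.haveILetI false

open CongruenceSubgroup Matrix.SpecialLinearGroup ModularCurve ModularCurve.Period
open MulAction Function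
open scoped MatrixGroups
open P2MW.S_ModularForm_heckeT_slash_eq_self_of_mem_Gamma0.ModularForm.HeckeSlashInvariance

namespace Fermat.Agent.S29.H201

/-- Orbit decomposition of a sum: if the sum of `f` over every cycle of `σ` vanishes, then the
total sum of `f` vanishes. -/
theorem sum_eq_zero_of_cycle_sums {X : Type*} [Fintype X] {A : Type*} [AddCommGroup A]
    (σ : Equiv.Perm X) (f : X → A)
    (h : ∀ x, ∑ k ∈ Finset.range (minimalPeriod σ x), f ((σ ^ k) x) = 0) :
    ∑ x, f x = 0 := by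
  classical
  let G := Subgroup.zpowers σ
  letI : Fintype (orbitRel.Quotient G X) := Fintype.ofFinite _
  letI : ∀ ω : orbitRel.Quotient G X, Fintype (orbit G ω.out) := fun ω => Fintype.ofFinite _
  rw [← Equiv.sum_comp (selfEquivSigmaOrbits G X).symm f, Fintype.sum_sigma]
  refine Finset.sum_eq_zero fun ω _ => ?_
  set b : X := ω.out with hb
  have hper : minimalPeriod (σ • ·) b = minimalPeriod σ b := rfl
  haveI : NeZero (minimalPeriod (σ • ·) b) := MulAction.minimalPeriod_pos σ b
  have key : ∑ y : orbit G b, f (y : X)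
      = ∑ k : ZMod (minimalPeriod (σ • ·) b), f ((σ ^ k.val) b) := by
    refine Fintype.sum_equiv (orbitZPowersEquiv σ b) _ _ fun y => ?_
    obtain ⟨k, rfl⟩ := (orbitZPowersEquiv σ b).symm.surjective y
    rw [Equiv.apply_symm_apply, orbitZPowersEquiv_symm_apply]
    congr 1
    show ((⟨σ, Subgroup.mem_zpowers σ⟩ : Subgroup.zpowers σ) ^ (ZMod.cast k : ℤ)) • b = _
    rw [← ZMod.natCast_val, zpow_natCast]
    rfl
  have h2 : (∑ y : orbit G ω.out, f ((selfEquivSigmaOrbits G X).symm ⟨ω, y⟩))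
      = ∑ y : orbit G b, f (y : X) := by
    refine Finset.sum_congr rfl fun y _ => ?_
    rfl
  rw [h2, key, ← sum_range_eq_sum_zmod (fun k => f ((σ ^ k) b)), hper]
  exact h b

variable {N : ℕ} {ℓ : ℕ} [Fact ℓ.Prime]

theorem permOf_mul (γ γ' : Gamma0 N) :
    (permOf (γ * γ') : Equiv.Perm (OnePoint (ZMod ℓ))) = permOf γ' * permOf γ := by
  ext x
  rw [Equiv.Perm.mul_apply, permOf_apply, permOf_apply, permOf_apply, Subgroup.coe_mul,
    redMatrix_mul, mul_smul]

theorem permOf_one : (permOf (1 : Gamma0 N) : Equiv.Perm (OnePoint (ZMod ℓ))) = 1 := by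
  ext x
  rw [permOf_apply, Subgroup.coe_one, redMatrix_one, one_smul]
  rfl

theorem permOf_pow (γ : Gamma0 N) (n : ℕ) :
    (permOf (γ ^ n) : Equiv.Perm (OnePoint (ZMod ℓ))) = permOf γ ^ n := by
  induction n with
  | zero => rw [pow_zero, pow_zero, permOf_one]
  | succ n ih => rw [pow_succ, permOf_mul, ih, pow_succ']

theorem trf_pow_succ (hℓN : ¬ ℓ ∣ N) (γ : Gamma0 N) (n : ℕ) (x : OnePoint (ZMod ℓ)) :
    trf hℓN (γ ^ (n + 1)) x = trf hℓN (γ ^ n) x * trf hℓN γ ((permOf γ ^ n) x) := by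
  rw [pow_succ, trf_mul, ← permOf_apply, permOf_pow]

/-- the cocycle sum along a `σ`-orbit segment -/
theorem sum_range_trf (hℓN : ¬ ℓ ∣ N) {A : Type*} [AddCommGroup A]
    (χ : Additive (Gamma0 N) →+ A) (γ : Gamma0 N) (x : OnePoint (ZMod ℓ)) (n : ℕ) :
    ∑ k ∈ Finset.range n, χ (Additive.ofMul (trf hℓN γ ((permOf γ ^ k) x)))
      = χ (Additive.ofMul (trf hℓN (γ ^ n) x)) := by
  induction n with
  | zero => simp [trf_one]
  | succ n ih =>
    rw [Finset.sum_range_succ, ih, trf_pow_succ, ofMul_mul, map_add]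

/-- if `x` is fixed by `γ`, then `trf γ x` is conjugate to `γ` in `GL₂(ℝ)` -/
theorem trf_fixed_spec (hℓN : ¬ ℓ ∣ N) (γ : Gamma0 N) (x : OnePoint (ZMod ℓ))
    (hx : permOf γ x = x) :
    _root_.P2MW.S_ModularForm_heckeT_slash_eq_self_of_mem_Gamma0.ModularForm.HeckeSlashInvariance.heckeRep ℓ x * mapGL ℝ (γ : SL(2, ℤ))
      = mapGL ℝ ((trf hℓN γ x : Gamma0 N) : SL(2, ℤ)) * _root_.P2MW.S_ModularForm_heckeT_slash_eq_self_of_mem_Gamma0.ModularForm.HeckeSlashInvariance.heckeRep ℓ x := by
  have h := trf_spec hℓN γ x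
  rw [← permOf_apply, hx] at h
  exact h

theorem trf_fixed_pow (hℓN : ¬ ℓ ∣ N) (γ : Gamma0 N) (x : OnePoint (ZMod ℓ))
    (hx : permOf γ x = x) (n : ℕ) : trf hℓN (γ ^ n) x = trf hℓN γ x ^ n := by
  induction n with
  | zero => rw [pow_zero, pow_zero, trf_one]
  | succ n ih =>
    rw [trf_pow_succ, ih, pow_succ]
    congr 2
    have : ∀ k : ℕ, (permOf γ ^ k) x = x := by
      intro k
      induction k with
      | zero => rfl
      | succ k ihk => rw [pow_succ, Equiv.Perm.mul_apply, hx, ihk]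
    exact this n

theorem trace_trf_fixed (hℓN : ¬ ℓ ∣ N) (γ : Gamma0 N) (x : OnePoint (ZMod ℓ))
    (hx : permOf γ x = x) :
    (((trf hℓN γ x : Gamma0 N) : SL(2, ℤ)) : Matrix (Fin 2) (Fin 2) ℤ).trace
      = ((γ : SL(2, ℤ)) : Matrix (Fin 2) (Fin 2) ℤ).trace := by
  have h := trf_fixed_spec hℓN γ x hx
  have h1 : mapGL ℝ ((trf hℓN γ x : Gamma0 N) : SL(2, ℤ))
      = _root_.P2MW.S_ModularForm_heckeT_slash_eq_self_of_mem_Gamma0.ModularForm.HeckeSlashInvariance.heckeRep ℓ x * mapGL ℝ (γ : SL(2, ℤ)) * (_root_.P2MW.S_ModularForm_heckeT_slash_eq_self_of_mem_Gamma0.ModularForm.HeckeSlashInvariance.heckeRep ℓ x)⁻¹ := by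
    rw [h, mul_inv_cancel_right]
  have h2 : ((mapGL ℝ ((trf hℓN γ x : Gamma0 N) : SL(2, ℤ)) : GL (Fin 2) ℝ) :
        Matrix (Fin 2) (Fin 2) ℝ).trace
      = ((mapGL ℝ (γ : SL(2, ℤ)) : GL (Fin 2) ℝ) : Matrix (Fin 2) (Fin 2) ℝ).trace := by
    rw [h1, Matrix.GeneralLinearGroup.coe_mul, Matrix.trace_mul_comm,
      ← Matrix.GeneralLinearGroup.coe_mul, inv_mul_cancel_left]
  have h3 : ∀ g : SL(2, ℤ), ((mapGL ℝ g : GL (Fin 2) ℝ) : Matrix (Fin 2) (Fin 2) ℝ).trace
      = (((g : Matrix (Fin 2) (Fin 2) ℤ).trace : ℤ) : ℝ) := by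
    intro g
    simp [Matrix.trace_fin_two]
  rw [h3, h3] at h2
  exact_mod_cast h2

/-- Cayley–Hamilton in `SL(2, ℤ)`: the trace recurrence. -/
theorem trace_pow_add_two (g : SL(2, ℤ)) (n : ℕ) :
    ((g ^ (n + 2) : SL(2, ℤ)) : Matrix (Fin 2) (Fin 2) ℤ).trace
      = (g : Matrix (Fin 2) (Fin 2) ℤ).trace * ((g ^ (n + 1) : SL(2, ℤ)) : Matrix (Fin 2) (Fin 2) ℤ).trace
        - ((g ^ n : SL(2, ℤ)) : Matrix (Fin 2) (Fin 2) ℤ).trace := by
  have hdet : (g : Matrix (Fin 2) (Fin 2) ℤ) 0 0 * (g : Matrix (Fin 2) (Fin 2) ℤ) 1 1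
      - (g : Matrix (Fin 2) (Fin 2) ℤ) 0 1 * (g : Matrix (Fin 2) (Fin 2) ℤ) 1 0 = 1 := by
    have := g.det_coe
    rwa [Matrix.det_fin_two] at this
  have h1 : ((g ^ (n + 1) : SL(2, ℤ)) : Matrix (Fin 2) (Fin 2) ℤ)
      = ((g ^ n : SL(2, ℤ)) : Matrix (Fin 2) (Fin 2) ℤ) * (g : Matrix (Fin 2) (Fin 2) ℤ) := by
    rw [pow_succ, Matrix.SpecialLinearGroup.coe_mul]
  have h2 : ((g ^ (n + 2) : SL(2, ℤ)) : Matrix (Fin 2) (Fin 2) ℤ)
      = ((g ^ n : SL(2, ℤ)) : Matrix (Fin 2) (Fin 2) ℤ) * (g : Matrix (Fin 2) (Fin 2) ℤ)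
        * (g : Matrix (Fin 2) (Fin 2) ℤ) := by
    rw [pow_succ, Matrix.SpecialLinearGroup.coe_mul, h1]
  rw [h2, h1]
  generalize ((g ^ n : SL(2, ℤ)) : Matrix (Fin 2) (Fin 2) ℤ) = P
  simp only [Matrix.trace_fin_two, Matrix.mul_apply, Fin.sum_univ_two]
  linear_combination (-(P 0 0) - P 1 1) * hdet

theorem trace_pow_sq_eq_four (g : SL(2, ℤ))
    (hg : (g : Matrix (Fin 2) (Fin 2) ℤ).trace ^ 2 = 4) (n : ℕ) :
    ((g ^ n : SL(2, ℤ)) : Matrix (Fin 2) (Fin 2) ℤ).trace ^ 2 = 4 := by
  set t := (g : Matrix (Fin 2) (Fin 2) ℤ).trace with ht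
  have key : ∀ n : ℕ, ((g ^ n : SL(2, ℤ)) : Matrix (Fin 2) (Fin 2) ℤ).trace ^ 2 = 4 ∧
      ((g ^ (n + 1) : SL(2, ℤ)) : Matrix (Fin 2) (Fin 2) ℤ).trace
        * 2 = t * ((g ^ n : SL(2, ℤ)) : Matrix (Fin 2) (Fin 2) ℤ).trace := by
    intro n
    induction n with
    | zero =>
      refine ⟨by simp [Matrix.trace_fin_two], ?_⟩
      simp [Matrix.trace_fin_two, ht]
    | succ n ih =>
      obtain ⟨h1, h2⟩ := ih
      have h3 := trace_pow_add_two g n
      set s0 := ((g ^ n : SL(2, ℤ)) : Matrix (Fin 2) (Fin 2) ℤ).trace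
      set s1 := ((g ^ (n + 1) : SL(2, ℤ)) : Matrix (Fin 2) (Fin 2) ℤ).trace
      set s2 := ((g ^ (n + 2) : SL(2, ℤ)) : Matrix (Fin 2) (Fin 2) ℤ).trace
      have h4 : (s1 * 2) ^ 2 = (t * s0) ^ 2 := by rw [h2]
      have h5 : s1 ^ 2 = 4 := by nlinarith [h4, h1, hg]
      refine ⟨h5, ?_⟩
      show s2 * 2 = t * s1
      rw [h3]
      have h6 : t * (s1 * 2) = t * (t * s0) := by rw [h2]
      nlinarith [h6, hg, h1, h5]
  exact (key n).1

/-- (A) cycle argument: `heckeHom` preserves "pe". -/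
theorem heckeHom_mem_pe (hℓN : ¬ ℓ ∣ N) {A : Type*} [AddCommGroup A]
    {χ : Additive (Gamma0 N) →+ A} (hχ : IsPe χ) : IsPe (heckeHom ℓ hℓN A χ) := by
  have main : ∀ γ : Gamma0 N,
      (∀ (n : ℕ) (x : OnePoint (ZMod ℓ)), permOf (γ ^ n) x = x →
        χ (Additive.ofMul (trf hℓN (γ ^ n) x)) = 0) →
      heckeHom ℓ hℓN A χ (Additive.ofMul γ) = 0 := by
    intro γ hγ
    rw [heckeHom_apply]
    refine sum_eq_zero_of_cycle_sums (permOf γ) _ fun x => ?_
    rw [sum_range_trf hℓN χ γ x]
    apply hγ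
    rw [permOf_pow, ← Equiv.Perm.iterate_eq_pow]
    exact Function.iterate_minimalPeriod
  refine ⟨fun γ hγ => main γ fun n x hx => ?_, fun γ hγ => main γ fun n x hx => ?_⟩
  · apply hχ.1
    rw [trace_trf_fixed hℓN (γ ^ n) x hx, Subgroup.coe_pow]
    exact trace_pow_sq_eq_four _ hγ n
  · apply hχ.2
    have h1 : IsOfFinOrder (γ ^ n) := hγ.pow
    obtain ⟨k, hk, hγk⟩ := h1.exists_pow_eq_one
    rw [isOfFinOrder_iff_pow_eq_one]
    refine ⟨k, hk, ?_⟩
    rw [← trf_fixed_pow hℓN (γ ^ n) x hx k, hγk, trf_one]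

end Fermat.Agent.S29.H201

end
-- ===== PACK-END S29/H201/PeCycle.lean

-- ===== PACK-BEGIN S23/Cap/Galois.lean
section





/-!
# S23 / WP8 : the q-expansions of `S_k(Γ₀(N))` are stable under ring endomorphisms of `ℂ`.
-/

set_option autoImplicit false

namespace Fermat.Agent.S23.Cap

open UpperHalfPlane ModularForm ModularFormClass MatrixGroups CongruenceSubgroup

/-- `σ`-conjugate of a level one modular form. -/
theorem levelOne_conj (σ : ℂ →+* ℂ) (k : ℤ) (f : ℍ → ℂ) (hf : IsMF SLZ k f) :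
    ∃ f' : ℍ → ℂ, IsMF SLZ k f' ∧ qx f' = (qx f).map σ := by
  obtain ⟨F, rfl⟩ := hf
  obtain ⟨g, hg⟩ := Fermat.Agent.S23.LevelOne.levelOne_transport_ringHom σ k F
  exact ⟨g, ⟨g, rfl⟩, hg⟩

/-- `σ`-conjugate of a level one cusp form. -/
theorem levelOne_conj_cusp (σ : ℂ →+* ℂ) (k : ℤ) (f : ℍ → ℂ) (hf : IsCF SLZ k f) :
    ∃ f' : ℍ → ℂ, IsCF SLZ k f' ∧ qx f' = (qx f).map σ := by
  obtain ⟨F, rfl⟩ := hf
  obtain ⟨g, hg⟩ := Fermat.Agent.S23.LevelOne.levelOne_transport_cusp_ringHom σ k F
  exact ⟨g, ⟨g, rfl⟩, hg⟩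

/-- q-expansion of `Σ_j b_j t^j` for level one `b_j` and a level `Γ₀(N)` form `t`. -/
theorem qx_sum_mul_pow (N : ℕ) [NeZero N] (w : ℤ) (t : ℍ → ℂ) (ht : IsMF (G0 N) w t)
    (ν : ℕ) (b : ℕ → ℍ → ℂ) (wt : ℕ → ℤ) (hb : ∀ j < ν, IsMF SLZ (wt j) (b j)) :
    qx (∑ j ∈ Finset.range ν, b j * t ^ j) = ∑ j ∈ Finset.range ν, qx (b j) * qx t ^ j := by
  rw [qx_sum N (Finset.range ν) (fun j => b j * t ^ j) (fun j => wt j + w * j)
    (fun j hj => ((hb j (Finset.mem_range.mp hj)).of_levelOne N).mul (ht.pow j))]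
  refine Finset.sum_congr rfl fun j hj => ?_
  rw [qx_mul N ((hb j (Finset.mem_range.mp hj)).of_levelOne N) (ht.pow j), qx_pow N ht]

/-- **WP8 main statement.** -/
theorem galois_stable (N : ℕ) [NeZero N] (k : ℤ) (σ : ℂ →+* ℂ) (f : ℍ → ℂ)
    (hf : IsCF (G0 N) k f) :
    ∃ g : ℍ → ℂ, IsCF (G0 N) k g ∧ qx g = (qx f).map σ := by
  obtain ⟨w, t, ht, htint, hdist⟩ := exists_tForm N
  obtain ⟨μ, c, hμ, hc, hrel⟩ := exists_monic_relation N k f hf
  obtain ⟨ν, a, b, hν, ha, hb, hU0, hUV⟩ := exists_lagrange N k w f t hf.isMF ht hdist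
  have hfM : IsMF (G0 N) k f := hf.isMF
  -- the `σ`-conjugates of the level one coefficients
  choose! c' hc' hc'q using fun i (hi : i < μ) => levelOne_conj_cusp σ _ (c i) (hc i hi)
  choose! a' ha' ha'q using fun j (hj : j < ν) => levelOne_conj σ _ (a j) (ha j hj)
  choose! b' hb' hb'q using fun j (hj : j < ν) => levelOne_conj σ _ (b j) (hb j hj)
  have htσ : (qx t).map σ = qx t := htint.isRatSeries.map_eq σ
  -- the conjugate numerator and denominator
  have hU : IsMF (G0 N) (w * ((ν : ℤ) - 1)) (∑ j ∈ Finset.range ν, b' j * t ^ j) :=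
    IsMF.sum _ _ fun j hj =>
      (((hb' j (Finset.mem_range.mp hj)).of_levelOne N).mul (ht.pow j)).congr_weight (by ring)
  have hV : IsMF (G0 N) (w * ((ν : ℤ) - 1) + k) (∑ j ∈ Finset.range ν, a' j * t ^ j) :=
    IsMF.sum _ _ fun j hj =>
      (((ha' j (Finset.mem_range.mp hj)).of_levelOne N).mul (ht.pow j)).congr_weight (by ring)
  have hU₀ : IsMF (G0 N) (w * ((ν : ℤ) - 1)) (∑ j ∈ Finset.range ν, b j * t ^ j) :=
    IsMF.sum _ _ fun j hj =>
      (((hb j (Finset.mem_range.mp hj)).of_levelOne N).mul (ht.pow j)).congr_weight (by ring)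
  have hqU : qx (∑ j ∈ Finset.range ν, b' j * t ^ j)
      = (qx (∑ j ∈ Finset.range ν, b j * t ^ j)).map σ := by
    rw [qx_sum_mul_pow N w t ht ν b' _ hb', qx_sum_mul_pow N w t ht ν b _ hb, map_sum]
    refine Finset.sum_congr rfl fun j hj => ?_
    rw [map_mul, map_pow, htσ, hb'q j (Finset.mem_range.mp hj)]
  have hqV : qx (∑ j ∈ Finset.range ν, a' j * t ^ j)
      = (qx (∑ j ∈ Finset.range ν, a j * t ^ j)).map σ := by
    rw [qx_sum_mul_pow N w t ht ν a' _ ha', qx_sum_mul_pow N w t ht ν a _ ha, map_sum]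
    refine Finset.sum_congr rfl fun j hj => ?_
    rw [map_mul, map_pow, htσ, ha'q j (Finset.mem_range.mp hj)]
  have hσinj : Function.Injective (PowerSeries.map σ) := by
    intro P Q h
    ext n
    have := congrArg (PowerSeries.coeff n) h
    simpa using σ.injective this
  have hU0' : (∑ j ∈ Finset.range ν, b' j * t ^ j) ≠ 0 := by
    intro h
    rw [h, qx_zero] at hqU
    have h0 : qx (∑ j ∈ Finset.range ν, b j * t ^ j) = 0 :=
      hσinj (by rw [← hqU, map_zero])
    exact hU0 (eq_zero_of_qx_eq_zero N hU₀ h0)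
  have h1 : qx (∑ j ∈ Finset.range ν, b' j * t ^ j) * (qx f).map σ
      = qx (∑ j ∈ Finset.range ν, a' j * t ^ j) := by
    rw [hqU, hqV, ← map_mul, ← qx_mul N hU₀ hfM, hUV]
  have h2 : ((qx f).map σ) ^ μ
      + ∑ i ∈ Finset.range μ, qx (c' i) * ((qx f).map σ) ^ (μ - 1 - i) = 0 := by
    have h := congrArg qx hrel
    have hterm : ∀ i ∈ Finset.range μ,
        IsMF (G0 N) (k * (i + 1) + k * ((μ - 1 - i : ℕ) : ℤ)) (c i * f ^ (μ - 1 - i)) :=
      fun i hi => (((hc i (Finset.mem_range.mp hi)).isMF).of_levelOne N).mul (hfM.pow _)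
    rw [qx_zero, qx_add N (hfM.pow μ) (IsMF.sum (k := k * μ) _ _ fun i hi =>
        (hterm i hi).congr_weight (by
          have : i < μ := Finset.mem_range.mp hi
          push_cast [Nat.sub_sub, Nat.cast_sub (show 1 + i ≤ μ by omega)]
          ring)),
      qx_pow N hfM, qx_sum N _ _ _ hterm] at h
    have h' := congrArg (PowerSeries.map σ) h
    rw [map_zero, map_add, map_pow, map_sum] at h'
    rw [← h']
    congr 1
    refine Finset.sum_congr rfl fun i hi => ?_
    rw [qx_mul N (((hc i (Finset.mem_range.mp hi)).isMF).of_levelOne N) (hfM.pow _),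
      qx_pow N hfM, map_mul, map_pow, hc'q i (Finset.mem_range.mp hi)]
  exact exists_cuspForm_of_relations N k _ _ _ hU hV hU0' μ hμ c' hc' _ h1 h2

end Fermat.Agent.S23.Cap

end
-- ===== PACK-END S23/Cap/Galois.lean

-- ===== PACK-BEGIN S23/Cap/Main.lean
section




/-!
# S23 : assembly.
-/

set_option autoImplicit false

namespace Fermat.Agent.S23.Cap

open UpperHalfPlane ModularForm ModularFormClass MatrixGroups CongruenceSubgroup

/-- The q-expansion as a `ℂ`-linear map on cusp forms. -/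
noncomputable def qxLin (N : ℕ) [NeZero N] (k : ℤ) :
    CuspForm (Gamma0 N) k →ₗ[ℂ] PowerSeries ℂ where
  toFun f := qx f
  map_add' f g := by
    have hf : IsMF (G0 N) k f := IsCF.isMF ⟨f, rfl⟩
    have hg : IsMF (G0 N) k g := IsCF.isMF ⟨g, rfl⟩
    simpa using qx_add N hf hg
  map_smul' c f := by
    have hf : IsMF (G0 N) k f := IsCF.isMF ⟨f, rfl⟩
    simpa using qx_smul N c hf

theorem qxLin_injective (N : ℕ) [NeZero N] (k : ℤ) : Function.Injective (qxLin N k) := by
  intro f g h
  have hf : IsMF (G0 N) k f := IsCF.isMF ⟨f, rfl⟩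
  have hg : IsMF (G0 N) k g := IsCF.isMF ⟨g, rfl⟩
  exact DFunLike.coe_injective (eq_of_qx_eq N hf hg h)

theorem hasIntegralStructure (N : ℕ) [NeZero N] (k : ℤ) : CuspForm.HasIntegralStructure N k := by
  unfold CuspForm.HasIntegralStructure
  rw [eq_top_iff]
  set T : Submodule ℂ (CuspForm (Gamma0 N) k) :=
    Submodule.span ℂ ((CuspForm.intLattice N k : Submodule ℤ (CuspForm (Gamma0 N) k)) :
      Set (CuspForm (Gamma0 N) k)) with hT
  have key : Submodule.map (qxLin N k) ⊤ ≤ Submodule.map (qxLin N k) T := by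
    refine (descent (Submodule.map (qxLin N k) ⊤) ((k * (Gamma0 N).index).toNat / 12)
      ?_ ?_).trans ?_
    · rintro F ⟨f, -, rfl⟩ h
      have hf : IsMF (G0 N) k f := IsCF.isMF ⟨f, rfl⟩
      have : (f : ℍ → ℂ) = 0 := sturm N hf h
      have hf0 : f = 0 := DFunLike.coe_injective this
      simp [hf0]
    · rintro σ F ⟨f, -, rfl⟩
      obtain ⟨g, ⟨g', rfl⟩, hg⟩ := galois_stable N k σ f ⟨f, rfl⟩
      exact ⟨g', trivial, hg⟩
    · rw [Submodule.span_le]
      rintro F ⟨⟨f, -, rfl⟩, hrat⟩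
      obtain ⟨D, hD, hint⟩ := bounded_denominators N k f ⟨f, rfl⟩ hrat
      have hD' : (D : ℂ) ≠ 0 := by exact_mod_cast hD
      have hmem : (D : ℂ) • f ∈ T := by
        apply Submodule.subset_span
        apply Submodule.subset_span
        intro n
        obtain ⟨m, hm⟩ := hint n
        exact ⟨m, by simpa [ModularFormClass.qCoeff, qx] using hm⟩
      refine ⟨f, ?_, rfl⟩
      have : f = (D : ℂ)⁻¹ • ((D : ℂ) • f) := by
        rw [smul_smul, inv_mul_cancel₀ hD', one_smul]
      rw [this]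
      exact T.smul_mem _ hmem
  intro f _
  obtain ⟨g, hg, hgf⟩ := key ⟨f, trivial, rfl⟩
  rwa [← qxLin_injective N k hgf]

end Fermat.Agent.S23.Cap

end
-- ===== PACK-END S23/Cap/Main.lean

-- ===== PACK-BEGIN S23.lean
section



set_option autoImplicit false
open CuspForm

namespace Fermat.Agent.S23

theorem result (N : ℕ) [NeZero N] : CuspForm.HasIntegralStructure N 2 :=
  Fermat.Agent.S23.Cap.hasIntegralStructure N 2

end Fermat.Agent.S23

end
-- ===== PACK-END S23.lean

-- ===== PACK-BEGIN Lib/Newform/H863/GoodEigen.lean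
section






/-!
# NEWFORM library, piece E (helper863)

* `finiteDimensional_cuspForm` : `S₂(Γ₀(N))` is finite dimensional (from landed S23).
* `exists_normalizedEigenform_of_eigenvector` : a nonzero common eigenvector of the Hecke
  operators `T_ℓ`, `ℓ ∤ M`, `ℓ ∉ S` at level `M` gives a normalised eigenform of level `M`
  (in the sense of the prelude: eigen for ALL `T_ℓ`, `U_q`) with `a_ℓ = lam ℓ` for those `ℓ`.
* `goodEigensystemOccursAt_of_eigenvector` : the form needed for `IsNewform` arguments.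
-/

set_option autoImplicit false
open CuspForm CongruenceSubgroup ModularFormClass

namespace Fermat.Agent.Lib.Newform.H863

theorem finiteDimensional_cuspForm (N : ℕ) [NeZero N] :
    FiniteDimensional ℂ (CuspForm (Gamma0 N) 2) := by
  obtain ⟨S, hS⟩ := CuspForm.intLattice_fg N 2
  have hint : CuspForm.HasIntegralStructure N 2 := Fermat.Agent.S23.result N
  unfold CuspForm.HasIntegralStructure at hint
  refine ⟨⟨S, top_le_iff.mp ?_⟩⟩
  rw [← hint]
  apply Submodule.span_le.mpr
  intro f hf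
  have hf' : f ∈ Submodule.span ℤ (S : Set (CuspForm (Gamma0 N) 2)) := hS ▸ hf
  exact Submodule.span_le_restrictScalars ℤ ℂ _ hf'

/-- The common eigenspace of the good Hecke operators. -/
def goodEigenspace (M : ℕ) [NeZero M] (S : Set ℕ) (lam : ℕ → ℂ) :
    Submodule ℂ (CuspForm (Gamma0 M) 2) where
  carrier := {h | ∀ (ℓ : ℕ) (hℓ : ℓ.Prime) (hℓM : ¬ ℓ ∣ M), ℓ ∉ S →
    CuspForm.heckeTLin 2 hℓ hℓM h = lam ℓ • h}
  add_mem' := by
    intro a b ha hb ℓ hℓ hℓM hS
    rw [map_add, ha ℓ hℓ hℓM hS, hb ℓ hℓ hℓM hS, smul_add]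
  zero_mem' := by
    intro ℓ hℓ hℓM hS
    simp
  smul_mem' := by
    intro c a ha ℓ hℓ hℓM hS
    rw [map_smul, ha ℓ hℓ hℓM hS, smul_comm]

theorem mem_goodEigenspace {M : ℕ} [NeZero M] {S : Set ℕ} {lam : ℕ → ℂ}
    {h : CuspForm (Gamma0 M) 2} :
    h ∈ goodEigenspace M S lam ↔ ∀ (ℓ : ℕ) (hℓ : ℓ.Prime) (hℓM : ¬ ℓ ∣ M), ℓ ∉ S →
      CuspForm.heckeTLin 2 hℓ hℓM h = lam ℓ • h := Iff.rfl

/-- Every element of the full Hecke algebra preserves the good eigenspace. -/
theorem heckeAlgebra_mapsTo_goodEigenspace {M : ℕ} [NeZero M] (S : Set ℕ) (lam : ℕ → ℂ)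
    (t : heckeAlgebra M 2 (∅ : Set ℕ)) (w : CuspForm (Gamma0 M) 2)
    (hw : w ∈ goodEigenspace M S lam) :
    (t : Module.End ℂ (CuspForm (Gamma0 M) 2)) w ∈ goodEigenspace M S lam := by
  intro ℓ hℓ hℓM hS
  have hcomm : (heckeAlgebra.T hℓ hℓM (Set.notMem_empty _) : heckeAlgebra M 2 (∅ : Set ℕ)) * t
      = t * heckeAlgebra.T hℓ hℓM (Set.notMem_empty _) := mul_comm _ _
  have h1 := congrArg (fun x : heckeAlgebra M 2 (∅ : Set ℕ) =>
    (x : Module.End ℂ (CuspForm (Gamma0 M) 2)) w) hcomm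
  simp only [MulMemClass.coe_mul, heckeAlgebra.coe_T, Module.End.mul_apply] at h1
  rw [h1, hw ℓ hℓ hℓM hS, map_smul]

/-- The action of the full Hecke algebra on the good eigenspace. -/
noncomputable def heckeOnGood (M : ℕ) [NeZero M] (S : Set ℕ) (lam : ℕ → ℂ) :
    heckeAlgebra M 2 (∅ : Set ℕ) →+* Module.End ℂ (goodEigenspace M S lam) where
  toFun t := (t : Module.End ℂ (CuspForm (Gamma0 M) 2)).restrict
    (fun w hw => heckeAlgebra_mapsTo_goodEigenspace S lam t w hw)
  map_one' := by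
    ext w
    simp
  map_mul' a b := by
    ext w
    simp [Module.End.mul_apply]
  map_zero' := by
    ext w
    simp
  map_add' a b := by
    ext w
    simp

theorem heckeOnGood_apply_coe {M : ℕ} [NeZero M] (S : Set ℕ) (lam : ℕ → ℂ)
    (t : heckeAlgebra M 2 (∅ : Set ℕ)) (w : goodEigenspace M S lam) :
    ((heckeOnGood M S lam t w : goodEigenspace M S lam) : CuspForm (Gamma0 M) 2)
      = (t : Module.End ℂ (CuspForm (Gamma0 M) 2)) (w : CuspForm (Gamma0 M) 2) := rfl

/-- **E-lemma.** A nonzero common eigenvector of the good Hecke operators at level `M`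
yields a normalised eigenform of level `M` with the prescribed good eigenvalues. -/
theorem exists_normalizedEigenform_of_eigenvector {M : ℕ} [NeZero M] (S : Set ℕ) (lam : ℕ → ℂ)
    (h : CuspForm (Gamma0 M) 2) (hh : h ≠ 0)
    (heig : ∀ (ℓ : ℕ) (hℓ : ℓ.Prime) (hℓM : ¬ ℓ ∣ M), ℓ ∉ S →
      CuspForm.heckeTLin 2 hℓ hℓM h = lam ℓ • h) :
    ∃ g : CuspForm (Gamma0 M) 2, g.IsNormalizedEigenform ∧
      ∀ ℓ : ℕ, ℓ.Prime → ¬ ℓ ∣ M → ℓ ∉ S → qCoeff g ℓ = lam ℓ := by
  classical
  have := finiteDimensional_cuspForm M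
  set W := goodEigenspace M S lam with hW
  have hhW : h ∈ W := heig
  have : Nontrivial W := ⟨⟨⟨h, hhW⟩, 0, fun h0 => hh (congrArg Subtype.val h0)⟩⟩
  set ρ := heckeOnGood M S lam with hρ
  -- a maximal ideal containing the kernel
  have hker : RingHom.ker ρ ≠ ⊤ := by
    intro htop
    have h1 : (1 : heckeAlgebra M 2 (∅ : Set ℕ)) ∈ RingHom.ker ρ := htop ▸ Submodule.mem_top
    rw [RingHom.mem_ker, map_one] at h1
    have h2 := congrArg (fun e : Module.End ℂ W => e ⟨h, hhW⟩) h1
    simp only [Module.End.one_apply, LinearMap.zero_apply] at h2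
    exact hh (congrArg Subtype.val h2)
  obtain ⟨𝔫, h𝔫max, h𝔫le⟩ := Ideal.exists_le_maximal _ hker
  have : 𝔫.IsPrime := h𝔫max.isPrime
  obtain ⟨g, χ, hg0, hgχ, -⟩ := Fermat.Agent.S49.exists_eigenvector_ker_le' ρ 𝔫 h𝔫le
  have hg0' : (g : CuspForm (Gamma0 M) 2) ≠ 0 := fun h0 => hg0 (Subtype.ext h0)
  have hgχ' : ∀ t : heckeAlgebra M 2 (∅ : Set ℕ),
      (t : Module.End ℂ (CuspForm (Gamma0 M) 2)) (g : CuspForm (Gamma0 M) 2)
        = χ t • (g : CuspForm (Gamma0 M) 2) := by
    intro t
    have := congrArg Subtype.val (hgχ t)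
    simpa [hρ, heckeOnGood_apply_coe] using this
  obtain ⟨f, hf, hfχ⟩ := Fermat.Agent.S49.exists_normalized_eigenform
    (g : CuspForm (Gamma0 M) 2) hg0' χ hgχ'
  refine ⟨f, hf, fun ℓ hℓ hℓM hℓS => ?_⟩
  rw [hfχ ℓ hℓ hℓM]
  have h1 := hgχ' (heckeAlgebra.T hℓ hℓM (Set.notMem_empty _))
  rw [heckeAlgebra.coe_T, g.2 ℓ hℓ hℓM hℓS] at h1
  have h2 : (lam ℓ - χ (heckeAlgebra.T hℓ hℓM (Set.notMem_empty _))) •
      (g : CuspForm (Gamma0 M) 2) = 0 := by
    rw [sub_smul, h1, sub_self]
  rcases smul_eq_zero.mp h2 with h3 | h3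
  · exact (sub_eq_zero.mp h3).symm
  · exact absurd h3 hg0'

/-- **E-lemma, newform shape.** If the good eigensystem of `f` (level `N`) is realised by a
nonzero common eigenvector at level `M ∣ N`, then it occurs at `M` in the sense of the prelude. -/
theorem goodEigensystemOccursAt_of_eigenvector {N M : ℕ} [NeZero M] (hMN : M ∣ N)
    (f : CuspForm (Gamma0 N) 2) (h : CuspForm (Gamma0 M) 2) (hh : h ≠ 0)
    (heig : ∀ (ℓ : ℕ) (hℓ : ℓ.Prime) (hℓN : ¬ ℓ ∣ N),
      CuspForm.heckeTLin 2 hℓ (fun hd => hℓN (hd.trans hMN)) h = qCoeff f ℓ • h) :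
    CuspForm.GoodEigensystemOccursAt f M := by
  obtain ⟨g, hg, hgl⟩ := exists_normalizedEigenform_of_eigenvector
    (S := {ℓ | ℓ ∣ N}) (fun ℓ => qCoeff f ℓ) h hh
    (fun ℓ hℓ hℓM hℓS => heig ℓ hℓ hℓS)
  exact ⟨g, hg, fun ℓ hℓ hℓN => hgl ℓ hℓ (fun hd => hℓN (hd.trans hMN)) hℓN⟩

end Fermat.Agent.Lib.Newform.H863

end
-- ===== PACK-END Lib/Newform/H863/GoodEigen.lean

-- ===== PACK-BEGIN S24/Count/H324Interface.lean
section




/-!
# S24 — COUNT interface, exact frozen shapes (helper324)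

The four COUNT interface theorems of `Fermat/Agent/S24/Count.lean` (skeleton of helper984),
proved in the exact shapes `numOrbits (permOf N g)`, assembled from

* `Fermat.Agent.S20.Comb694` (helper694): index of `Γ₀(N)`, fixed points and orbit counts of
  `S` and `S * T`;
* `Fermat.Agent.S20.CuspCount360` (helper360): orbits of `T`.

The only new ingredient is the bridge between orbits of the cyclic group generated by the
permutation `MulAction.toPerm g` and orbits of the cyclic group generated by `g`.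
-/

set_option autoImplicit false

noncomputable section

open ModularCurve MulAction Subgroup
open scoped MatrixGroups

namespace Fermat.Agent.S24.H324

section Bridge

variable {G X : Type*} [Group G] [MulAction G X]

/-- The orbit relation of `⟨toPerm g⟩ ≤ Perm X` is the orbit relation of `⟨g⟩ ≤ G`. -/
theorem orbitRel_zpowers_toPerm (g : G) :
    orbitRel (zpowers (MulAction.toPerm g : Equiv.Perm X)) X = orbitRel (zpowers g) X := by
  ext x y
  simp only [orbitRel_apply]
  constructor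
  · rintro ⟨⟨π, hπ⟩, rfl⟩
    obtain ⟨k, rfl⟩ := Subgroup.mem_zpowers_iff.mp hπ
    refine ⟨⟨g ^ k, zpow_mem_zpowers g k⟩, ?_⟩
    have h : (MulAction.toPerm g : Equiv.Perm X) ^ k = MulAction.toPerm (g ^ k) :=
      (map_zpow (MulAction.toPermHom G X) g k).symm
    change g ^ k • y = ((MulAction.toPerm g : Equiv.Perm X) ^ k) y
    rw [h]
    rfl
  · rintro ⟨⟨h, hh⟩, rfl⟩
    obtain ⟨k, rfl⟩ := Subgroup.mem_zpowers_iff.mp hh
    refine ⟨⟨(MulAction.toPerm g : Equiv.Perm X) ^ k, zpow_mem_zpowers _ k⟩, ?_⟩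
    have h : (MulAction.toPerm g : Equiv.Perm X) ^ k = MulAction.toPerm (g ^ k) :=
      (map_zpow (MulAction.toPermHom G X) g k).symm
    change ((MulAction.toPerm g : Equiv.Perm X) ^ k) y = g ^ k • y
    rw [h]
    rfl

/-- `numOrbits (toPerm g)` is the number of orbits of the cyclic group generated by `g`. -/
theorem numOrbits_toPerm (g : G) :
    numOrbits (MulAction.toPerm g : Equiv.Perm X)
      = Nat.card (orbitRel.Quotient (zpowers g) X) := by
  unfold numOrbits
  refine Nat.card_congr (Quotient.congr (Equiv.refl X) ?_)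
  intro x y
  have h := orbitRel_zpowers_toPerm (X := X) g
  exact iff_of_eq (congrArg (fun s : Setoid X => s x y) h)

/-- `numOrbits` only depends on the cyclic group generated by the permutation. -/
theorem numOrbits_congr_zpowers {π π' : Equiv.Perm X} (h : zpowers π = zpowers π') :
    numOrbits π = numOrbits π' := by
  unfold numOrbits
  rw [h]

/-- A permutation and its inverse have the same number of orbits. -/
theorem numOrbits_inv (π : Equiv.Perm X) : numOrbits π⁻¹ = numOrbits π :=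
  numOrbits_congr_zpowers zpowers_inv

/-- `g⁻¹` and `g` have the same number of orbits. -/
theorem numOrbits_toPerm_inv (g : G) :
    numOrbits (MulAction.toPerm g⁻¹ : Equiv.Perm X)
      = numOrbits (MulAction.toPerm g : Equiv.Perm X) := by
  have h : (MulAction.toPerm g⁻¹ : Equiv.Perm X) = (MulAction.toPerm g : Equiv.Perm X)⁻¹ :=
    map_inv (MulAction.toPermHom G X) g
  rw [h, numOrbits_inv]

/-- Conjugate elements have the same number of orbits. -/
theorem numOrbits_toPerm_conj (g h : G) :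
    numOrbits (MulAction.toPerm (h * g * h⁻¹) : Equiv.Perm X)
      = numOrbits (MulAction.toPerm g : Equiv.Perm X) := by
  rw [numOrbits_toPerm, numOrbits_toPerm]
  refine Nat.card_congr (Quotient.congr (MulAction.toPerm h⁻¹) ?_)
  intro x y
  change x ∈ MulAction.orbit (zpowers (h * g * h⁻¹)) y ↔
    (h⁻¹ • x) ∈ MulAction.orbit (zpowers g) (h⁻¹ • y)
  constructor
  · rintro ⟨⟨u, hu⟩, rfl⟩
    obtain ⟨k, rfl⟩ := Subgroup.mem_zpowers_iff.mp hu
    refine ⟨⟨g ^ k, zpow_mem_zpowers g k⟩, ?_⟩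
    change g ^ k • h⁻¹ • y = h⁻¹ • ((h * g * h⁻¹) ^ k • y)
    have : (h * g * h⁻¹) ^ k = h * g ^ k * h⁻¹ := by
      rw [← conj_zpow]
    rw [this, smul_smul, smul_smul]
    congr 1
    group
  · rintro ⟨⟨u, hu⟩, hxy⟩
    obtain ⟨k, rfl⟩ := Subgroup.mem_zpowers_iff.mp hu
    refine ⟨⟨(h * g * h⁻¹) ^ k, zpow_mem_zpowers _ k⟩, ?_⟩
    change (h * g * h⁻¹) ^ k • y = x
    have hxy' : g ^ k • h⁻¹ • y = h⁻¹ • x := hxy
    have : (h * g * h⁻¹) ^ k = h * g ^ k * h⁻¹ := by
      rw [← conj_zpow]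
    rw [this, mul_smul, mul_smul, hxy', smul_inv_smul]

end Bridge

variable (N : ℕ)

theorem numOrbits_permOf (g : SL(2, ℤ)) :
    numOrbits (permOf N g)
      = Nat.card (orbitRel.Quotient (zpowers g) (SL(2, ℤ) ⧸ CongruenceSubgroup.Gamma0 N)) :=
  numOrbits_toPerm g

theorem card_XX : Nat.card (XX N) = dedekindPsi N :=
  Fermat.Agent.S20.Comb694.card_quotient_Gamma0 N

theorem numOrbits_permOf_inv (g : SL(2, ℤ)) :
    numOrbits (permOf N g⁻¹) = numOrbits (permOf N g) :=
  numOrbits_toPerm_inv g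

theorem numOrbits_permOf_conj (g h : SL(2, ℤ)) :
    numOrbits (permOf N (h * g * h⁻¹)) = numOrbits (permOf N g) :=
  numOrbits_toPerm_conj g h

variable [NeZero N]

theorem two_mul_numOrbits_S :
    2 * numOrbits (permOf N ModularGroup.S) = dedekindPsi N + nuTwo N := by
  rw [numOrbits_permOf]
  exact Fermat.Agent.S20.Comb694.two_mul_card_orbits_S N

theorem three_mul_numOrbits_ST :
    3 * numOrbits (permOf N (ModularGroup.S * ModularGroup.T))
      = dedekindPsi N + 2 * nuThree N := by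
  rw [numOrbits_permOf]
  exact Fermat.Agent.S20.Comb694.three_mul_card_orbits_ST N

theorem numOrbits_T : numOrbits (permOf N ModularGroup.T) = cuspCount N := by
  rw [numOrbits_permOf]
  exact Fermat.Agent.S20.CuspCount360.card_orbits_T N

end Fermat.Agent.S24.H324

end
end
-- ===== PACK-END S24/Count/H324Interface.lean

-- ===== PACK-BEGIN S24/Count.lean
section



/-!
# S24 — counting on `SL₂(ℤ)/Γ₀(N) ≅ ℙ¹(ℤ/N)`

INTERFACE FILE (statements frozen by helper984 @4630f4b), proofs filled in by helper324 from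
`Fermat.Agent.S24.H324` (which assembles helper694's `S20.Comb` and helper360's `CuspCount360`).
-/

set_option autoImplicit false

noncomputable section

open ModularCurve
open scoped MatrixGroups

namespace Fermat.Agent.S24

variable (N : ℕ) [NeZero N]

theorem card_XX : Nat.card (XX N) = dedekindPsi N :=
  H324.card_XX N

theorem two_mul_numOrbits_S :
    2 * numOrbits (permOf N ModularGroup.S) = dedekindPsi N + nuTwo N :=
  H324.two_mul_numOrbits_S N

theorem three_mul_numOrbits_ST :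
    3 * numOrbits (permOf N (ModularGroup.S * ModularGroup.T))
      = dedekindPsi N + 2 * nuThree N :=
  H324.three_mul_numOrbits_ST N

theorem numOrbits_T : numOrbits (permOf N ModularGroup.T) = cuspCount N :=
  H324.numOrbits_T N

end Fermat.Agent.S24

end
end
-- ===== PACK-END S24/Count.lean

-- ===== PACK-BEGIN Lib/Newform/H263/XStrict.lean
section
/-
NEWFORM library (helper263) — block X leaf **STRICT**: the strict trivial bound in the exact shape
of the frozen interface `Fermat.Agent.Lib.Newform.H958.X.StrictBound`.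
-/



set_option autoImplicit false

namespace Fermat.Agent.Lib.Newform.H263

/-- **STRICT** (block X): `a_ℓ(g)² ≠ (ℓ + 1)²` for a normalized eigenform `g` of level `N` and a
prime `ℓ ∤ N`. -/
theorem strictBound : H958.X.StrictBound :=
  fun _N _ _g hg _ℓ hℓ hℓN ↦ qCoeff_sq_ne hg hℓ hℓN

end Fermat.Agent.Lib.Newform.H263

end
-- ===== PACK-END Lib/Newform/H263/XStrict.lean

-- ===== PACK-BEGIN S28/H326/Polys.lean
section
/-
S28 / helper326: from the Hecke input to the polynomials
`W = ∏ (X - w i)` and `Φ = ∏ (X - y i)` with coefficients in `ℤ[j(t^p)]`.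
-/




set_option autoImplicit false
set_option linter.unusedSectionVars false

noncomputable section

namespace Fermat.Agent.S28.H326

open ModularCurve HahnSeries

/-! ### Series without negative part -/

/-- Laurent series over `ℂ` without terms of negative degree. -/
def NonNeg : Subring (LaurentSeries ℂ) where
  carrier := {x | ∀ n : ℤ, n < 0 → x.coeff n = 0}
  mul_mem' {x y} hx hy n hn := by
    rw [HahnSeries.coeff_mul]
    refine Finset.sum_eq_zero fun ij hij => ?_
    rw [Finset.mem_antidiagonal] at hij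
    rcases lt_or_ge ij.1 0 with h1 | h1
    · rw [hx _ h1, zero_mul]
    · have h2 : ij.2 < 0 := by
        have := hij.2.2
        omega
      rw [hy _ h2, mul_zero]
  one_mem' n hn := by
    rw [HahnSeries.coeff_one, if_neg hn.ne]
  add_mem' {x y} hx hy n hn := by
    rw [HahnSeries.coeff_add, hx n hn, hy n hn, add_zero]
  zero_mem' n _ := HahnSeries.coeff_zero
  neg_mem' {x} hx n hn := by
    rw [HahnSeries.coeff_neg, hx n hn, neg_zero]

theorem C_mem_NonNeg (c : ℂ) : HahnSeries.C c ∈ NonNeg := fun n hn => by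
  show (HahnSeries.single 0 c).coeff n = 0
  exact HahnSeries.coeff_single_of_ne hn.ne

variable (p : ℕ) [NeZero p]

theorem qExpand_mem_NonNeg {x : LaurentSeries ℂ} (hx : x ∈ NonNeg) :
    qExpand ℂ p x ∈ NonNeg := fun n hn => by
  by_cases h : (p : ℤ) ∣ n
  · obtain ⟨m, rfl⟩ := h
    rw [qExpand_coeff_mul]
    refine hx m ?_
    have hp : (0 : ℤ) < p := by exact_mod_cast Nat.pos_of_ne_zero (NeZero.ne p)
    by_contra hm
    rw [not_lt] at hm
    have := mul_nonneg hp.le hm
    omega
  · exact qExpand_coeff_of_not_dvd p _ h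

theorem ofPS_mem_NonNeg (g : PowerSeries ℂ) : ofPS g ∈ NonNeg := fun _ hn => ofPS_coeff_neg g hn

theorem conj_mem_NonNeg (i : Option (Fin p)) (g : PowerSeries ℂ) : conj p i g ∈ NonNeg := by
  cases i with
  | none => exact qExpand_mem_NonNeg p (qExpand_mem_NonNeg p (ofPS_mem_NonNeg g))
  | some b => exact ofPS_mem_NonNeg _

theorem cBase_mem_NonNeg (g : PowerSeries ℂ) : cBase p g ∈ NonNeg :=
  qExpand_mem_NonNeg p (ofPS_mem_NonNeg g)

/-- An element of `ℚ[j(t^p)]` without negative part is a constant. -/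
theorem exists_const_of_mem_Bsub_of_mem_NonNeg {x : LaurentSeries ℂ} (hB : x ∈ Bsub p)
    (hN : x ∈ NonNeg) : ∃ c : ℚ, x = algebraMap ℚ (LaurentSeries ℂ) c := by
  obtain ⟨Q, rfl⟩ := hB
  rcases Nat.eq_zero_or_pos Q.natDegree with h0 | hpos
  · refine ⟨Q.coeff 0, ?_⟩
    rw [Polynomial.eq_C_of_natDegree_eq_zero h0]
    simp
  · exfalso
    have h1 := aeval_jP_coeff p Q le_rfl
    have hneg : -((p : ℤ) * (Q.natDegree : ℤ)) < 0 := by
      have hp : (0 : ℤ) < p := by exact_mod_cast Nat.pos_of_ne_zero (NeZero.ne p)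
      have hd : (0 : ℤ) < Q.natDegree := by exact_mod_cast hpos
      have := mul_pos hp hd
      omega
    have h2 : (Polynomial.aeval (jP p) Q).coeff (-((p : ℤ) * (Q.natDegree : ℤ))) = 0 :=
      hN _ hneg
    rw [h1] at h2
    have h3 : Q.coeff Q.natDegree = 0 := by exact_mod_cast h2
    have h4 : Q = 0 := Polynomial.leadingCoeff_eq_zero.mp h3
    rw [h4] at hpos
    simp at hpos

/-! ### The unit part of the `w i` -/

/-- the unit `∏ (1 - qⁿ)²⁴` over `ℂ` -/
def UC : PowerSeries ℂ := toC dedekindEtaUnit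
/-- its inverse -/
def UinvC : PowerSeries ℂ := toC dedekindEtaUnitInv

theorem DC_eq : DC = PowerSeries.X * UC := by
  rw [DC, DZ, map_mul, PowerSeries.map_X, UC]

theorem UC_mul_UinvC : UC * UinvC = 1 := by
  rw [UC, UinvC, ← map_mul, dedekindEtaUnit_mul_inv, map_one]

theorem delInv_eq : delInv p = HahnSeries.single (-(p : ℤ)) 1 * cBase p UinvC := by
  rw [delInv, deltaInvZ, map_mul, map_mul, coeffMap_single, qExpand_single, kap_ofPS, cBase,
    RingHom.comp_apply, UinvC, map_one, mul_neg, mul_one]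

/-- exponent of the monomial part of `w i` -/
def wExp : Option (Fin p) → ℤ
  | none => (p : ℤ) * p - p
  | some _ => 1 - p

/-- leading constant of `conj i X` -/
def wConst : Option (Fin p) → ℂ
  | none => 1
  | some b => zeta p ^ (b : ℕ)

/-- degree of `conj i X` -/
def xExp : Option (Fin p) → ℤ
  | none => (p : ℤ) * p
  | some _ => 1

theorem conj_X (i : Option (Fin p)) :
    conj p i PowerSeries.X = HahnSeries.C (wConst p i) * HahnSeries.single (xExp p i) 1 := by
  cases i with
  | none =>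
    simp only [conj, cInf, cBase, RingHom.comp_apply, wConst, xExp, map_one, one_mul]
    rw [HahnSeries.ofPowerSeries_X, qExpand_single, qExpand_single, mul_one]
  | some b =>
    simp only [conj, cB, RingHom.comp_apply, wConst, xExp]
    rw [PowerSeries.rescale_X, map_mul, HahnSeries.ofPowerSeries_C, HahnSeries.ofPowerSeries_X]

theorem wExp_eq (i : Option (Fin p)) : wExp p i = xExp p i - p := by
  cases i <;> simp [wExp, xExp]

/-- the power series part of `w i` -/
def wUnit (i : Option (Fin p)) : LaurentSeries ℂ :=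
  scal p i * HahnSeries.C (wConst p i) * conj p i UC * cBase p UinvC

theorem w_eq (i : Option (Fin p)) : w p i = HahnSeries.single (wExp p i) 1 * wUnit p i := by
  have h : HahnSeries.single (wExp p i) (1 : ℂ) =
      HahnSeries.single (xExp p i) 1 * HahnSeries.single (-(p : ℤ)) 1 := by
    rw [HahnSeries.single_mul_single, wExp_eq, mul_one, sub_eq_add_neg]
  rw [w, wUnit, DC_eq, map_mul, conj_X, delInv_eq, h]
  ring

theorem scal_mem_NonNeg (i : Option (Fin p)) : scal p i ∈ NonNeg := by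
  cases i with
  | none => exact Subring.pow_mem _ (natCast_mem _ p) 12
  | some b => exact Subring.one_mem _

theorem wUnit_mem_NonNeg (i : Option (Fin p)) : wUnit p i ∈ NonNeg :=
  Subring.mul_mem _ (Subring.mul_mem _ (Subring.mul_mem _ (scal_mem_NonNeg p i)
    (C_mem_NonNeg _)) (conj_mem_NonNeg p i UC)) (cBase_mem_NonNeg p UinvC)

theorem prod_single {ι : Type*} (s : Finset ι) (e : ι → ℤ) :
    ∏ i ∈ s, HahnSeries.single (e i) (1 : ℂ) = HahnSeries.single (∑ i ∈ s, e i) 1 := by
  classical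
  induction s using Finset.induction_on with
  | empty => simp
  | insert a s ha ih =>
    rw [Finset.prod_insert ha, Finset.sum_insert ha, ih, HahnSeries.single_mul_single, mul_one]

theorem sum_wExp : ∑ i, wExp p i = 0 := by
  rw [Fintype.sum_option]
  simp only [wExp, Finset.sum_const, Finset.card_univ, Fintype.card_fin, nsmul_eq_mul]
  ring

theorem prod_w_mem_NonNeg : ∏ i, w p i ∈ NonNeg := by
  simp only [w_eq]
  rw [Finset.prod_mul_distrib, prod_single, sum_wExp]
  have : HahnSeries.single (0 : ℤ) (1 : ℂ) = 1 := rfl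
  rw [this, one_mul]
  exact Subring.prod_mem _ fun i _ => wUnit_mem_NonNeg p i

/-! ### Nonvanishing -/

theorem toC_injective : Function.Injective toC := by
  intro x y h
  ext n
  have := congrArg (fun z => PowerSeries.coeff n z) h
  simpa using this

theorem conj_injective (i : Option (Fin p)) : Function.Injective (conj p i) := by
  cases i with
  | none =>
    exact (qExpand_injective p).comp ((qExpand_injective p).comp
      HahnSeries.ofPowerSeries_injective)
  | some b =>
    exact HahnSeries.ofPowerSeries_injective.comp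
      (PowerSeries.rescale_injective (pow_ne_zero _ (zeta_ne_zero p)))

theorem DZ_ne_zero : DZ ≠ 0 := by
  intro h
  have h1 : DZ.coeff 1 = 1 := by
    rw [DZ, show (1 : ℕ) = 0 + 1 from rfl, PowerSeries.coeff_succ_X_mul,
      PowerSeries.coeff_zero_eq_constantCoeff, constantCoeff_dedekindEtaUnit]
  rw [h] at h1
  simp at h1

theorem DC_ne_zero : DC ≠ 0 := fun h => DZ_ne_zero (toC_injective (by rw [← DC, h, map_zero]))

theorem delInv_ne_zero : delInv p ≠ 0 := fun h => by
  have := del_mul_delInv p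
  rw [h, mul_zero] at this
  exact zero_ne_one this

theorem scal_ne_zero (i : Option (Fin p)) : scal p i ≠ 0 := by
  cases i with
  | none =>
    refine pow_ne_zero _ fun h => ?_
    have h1 := natCast_mul_coeff p 1 0
    rw [mul_one, h, HahnSeries.coeff_zero, HahnSeries.coeff_one, if_pos rfl, mul_one] at h1
    exact NeZero.ne p (by exact_mod_cast h1.symm)
  | some b => exact one_ne_zero

theorem w_ne_zero (i : Option (Fin p)) : w p i ≠ 0 := by
  rw [w]
  refine mul_ne_zero (mul_ne_zero (scal_ne_zero p i) ?_) (delInv_ne_zero p)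
  rw [Ne, map_eq_zero_iff _ (conj_injective p i)]
  exact DC_ne_zero

/-! ### The polynomial `W` -/

/-- `W = ∏ (X - w i)` over `ℂ((t))` -/
def WPoly : Polynomial (LaurentSeries ℂ) := ∏ i, (Polynomial.X - Polynomial.C (w p i))

theorem WPoly_monic : (WPoly p).Monic :=
  Polynomial.monic_prod_of_monic _ _ fun _ _ => Polynomial.monic_X_sub_C _

theorem WPoly_natDegree : (WPoly p).natDegree = p + 1 := by
  rw [WPoly, Polynomial.natDegree_prod_of_monic _ _ fun i _ => Polynomial.monic_X_sub_C _]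
  simp

theorem WPoly_coeff_mem (h : HeckeInput p) (n : ℕ) : (WPoly p).coeff n ∈ Bsub p :=
  prod_X_sub_C_mem_of_psum_mem (Bsub p) (w p) (fun m _ => sum_w_pow_mem p h m) n

theorem WPoly_eval (i : Option (Fin p)) : (WPoly p).eval (w p i) = 0 := by
  rw [WPoly, Polynomial.eval_prod]
  exact Finset.prod_eq_zero (Finset.mem_univ i) (by simp)

theorem WPoly_coeff_zero : (WPoly p).coeff 0 = ∏ i, (-(w p i)) := by
  rw [Polynomial.coeff_zero_eq_eval_zero, WPoly, Polynomial.eval_prod]
  simp

theorem exists_WPoly_coeff_zero (h : HeckeInput p) :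
    ∃ c : ℚ, c ≠ 0 ∧ (WPoly p).coeff 0 = algebraMap ℚ (LaurentSeries ℂ) c := by
  have hN : (WPoly p).coeff 0 ∈ NonNeg := by
    rw [WPoly_coeff_zero]
    have : ∏ i, (-(w p i)) = (∏ _i : Option (Fin p), (-1 : LaurentSeries ℂ)) * ∏ i, w p i := by
      rw [← Finset.prod_mul_distrib]
      refine Finset.prod_congr rfl fun i _ => ?_
      ring
    rw [this]
    exact Subring.mul_mem _ (Subring.prod_mem _ fun _ _ => Subring.neg_mem _ (Subring.one_mem _))
      (prod_w_mem_NonNeg p)
  obtain ⟨c, hc⟩ := exists_const_of_mem_Bsub_of_mem_NonNeg p (WPoly_coeff_mem p h 0) hN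
  refine ⟨c, ?_, hc⟩
  rintro rfl
  rw [map_zero, WPoly_coeff_zero] at hc
  rw [Finset.prod_eq_zero_iff] at hc
  obtain ⟨i, -, hi⟩ := hc
  exact w_ne_zero p i (neg_eq_zero.mp hi)

end Fermat.Agent.S28.H326

end
end
-- ===== PACK-END S28/H326/Polys.lean

-- ===== PACK-BEGIN S28/H326/Conj.lean
section
/-
S28 / helper326: the conjugates `y i` of `j(t^(p²))`; power sums; lifting to `ℤ[Y][X]`.
-/



set_option autoImplicit false
set_option linter.unusedSectionVars false

noncomputable section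

namespace Fermat.Agent.S28.H326

open ModularCurve HahnSeries

variable (p : ℕ) [NeZero p]

/-! ### The conjugates of `j` -/

/-- `j(t^(p²))` and `j(ζ^b t)` -/
def y : Option (Fin p) → LaurentSeries ℂ
  | none => qExpand ℂ p (jP p)
  | some b => HahnSeries.C ((zeta p ^ (b : ℕ))⁻¹) * HahnSeries.single (-1 : ℤ) 1 *
      cB p b (toC jNum)

theorem jC_mul_ofPS_DC : jqModC ℂ * ofPS DC = ofPS EC := by
  have := congrArg kap jq_mul_deltaZ
  rwa [map_mul, coeffMap_jqModC, deltaZ, kap_ofPS, kap_ofPS] at this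

theorem y_mul_conj (i : Option (Fin p)) : y p i * conj p i DC = conj p i EC := by
  cases i with
  | none =>
    simp only [y, conj, cInf, cBase, RingHom.comp_apply, jP]
    rw [← map_mul, ← map_mul, jC_mul_ofPS_DC]
  | some b =>
    simp only [y, conj]
    have hE : EC = toC jNum * UC := by
      rw [EC, UC, ← map_mul, jNum_mul_unit]
    rw [DC_eq, hE, map_mul, map_mul]
    have hX : cB p b PowerSeries.X =
        HahnSeries.C (zeta p ^ (b : ℕ)) * HahnSeries.single (1 : ℤ) 1 := by
      rw [cB, RingHom.comp_apply, PowerSeries.rescale_X, map_mul, HahnSeries.ofPowerSeries_C,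
        HahnSeries.ofPowerSeries_X]
    rw [hX]
    have h1 : HahnSeries.C ((zeta p ^ (b : ℕ))⁻¹) * HahnSeries.C (zeta p ^ (b : ℕ)) =
        (1 : LaurentSeries ℂ) := by
      rw [← map_mul, inv_mul_cancel₀ (pow_ne_zero _ (zeta_ne_zero p)), map_one]
    have h2 : HahnSeries.single (-1 : ℤ) (1 : ℂ) * HahnSeries.single (1 : ℤ) 1 = 1 := by
      rw [HahnSeries.single_mul_single]
      simp
    calc HahnSeries.C ((zeta p ^ (b : ℕ))⁻¹) * HahnSeries.single (-1 : ℤ) 1 *
          cB p b (toC jNum) * (HahnSeries.C (zeta p ^ (b : ℕ)) * HahnSeries.single (1 : ℤ) 1 *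
            cB p b UC)
        = (HahnSeries.C ((zeta p ^ (b : ℕ))⁻¹) * HahnSeries.C (zeta p ^ (b : ℕ))) *
            (HahnSeries.single (-1 : ℤ) (1 : ℂ) * HahnSeries.single (1 : ℤ) 1) *
            (cB p b (toC jNum) * cB p b UC) := by ring
      _ = _ := by rw [h1, h2, one_mul, one_mul]

theorem y_mul_w (i : Option (Fin p)) : y p i * w p i = Y p i := by
  rw [w, Y, ← y_mul_conj p i]
  ring

/-! ### Power sums of the `y i` -/

/-- polynomials over `ℂ((t))` with coefficients in `ℚ[j(t^p)]` -/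
abbrev BPoly : Subsemiring (Polynomial (LaurentSeries ℂ)) :=
  Polynomial.lifts ((Bsub p).val : (Bsub p) →+* LaurentSeries ℂ)

theorem mem_BPoly_iff (F : Polynomial (LaurentSeries ℂ)) :
    F ∈ BPoly p ↔ ∀ n, F.coeff n ∈ Bsub p := by
  rw [Polynomial.lifts_iff_coeff_lifts]
  constructor
  · intro h n
    obtain ⟨x, hx⟩ := h n
    rw [← hx]
    exact x.2
  · intro h n
    exact ⟨⟨F.coeff n, h n⟩, rfl⟩

theorem sum_Y_pow_mul_eval_mem (h : HeckeInput p) (a : ℕ) {F : Polynomial (LaurentSeries ℂ)}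
    (hF : F ∈ BPoly p) : ∑ i, Y p i ^ a * F.eval (w p i) ∈ Bsub p := by
  have h1 : ∀ i, Y p i ^ a * F.eval (w p i) =
      ∑ r ∈ Finset.range (F.natDegree + 1), F.coeff r * (Y p i ^ a * w p i ^ r) := by
    intro i
    rw [Polynomial.eval_eq_sum_range, Finset.mul_sum]
    exact Finset.sum_congr rfl fun r _ => by ring
  simp only [h1]
  rw [Finset.sum_comm]
  refine Subalgebra.sum_mem _ fun r _ => ?_
  rw [← Finset.mul_sum]
  obtain ⟨P, hP⟩ := sum_Y_pow_mul_w_pow p h a r
  rw [hP]
  exact Subalgebra.mul_mem _ ((mem_BPoly_iff p F).mp hF r) (theta_mem_Bsub p P)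

/-- the polynomial `G` with `w i * G(w i) = 1` -/
theorem exists_inv_poly (h : HeckeInput p) :
    ∃ G : Polynomial (LaurentSeries ℂ), G ∈ BPoly p ∧ ∀ i, w p i * G.eval (w p i) = 1 := by
  obtain ⟨c, hc0, hc⟩ := exists_WPoly_coeff_zero p h
  refine ⟨Polynomial.C (algebraMap ℚ (LaurentSeries ℂ) (-c⁻¹)) * (WPoly p).divX, ?_, ?_⟩
  · rw [mem_BPoly_iff]
    intro n
    rw [Polynomial.coeff_C_mul, Polynomial.coeff_divX]
    exact Subalgebra.mul_mem _ (Subalgebra.algebraMap_mem _ _) (WPoly_coeff_mem p h _)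
  · intro i
    have h1 := WPoly_eval p i
    rw [← Polynomial.divX_mul_X_add (WPoly p), Polynomial.eval_add, Polynomial.eval_mul,
      Polynomial.eval_X, Polynomial.eval_C, hc] at h1
    rw [Polynomial.eval_mul, Polynomial.eval_C]
    have h2 : (WPoly p).divX.eval (w p i) * w p i = -algebraMap ℚ (LaurentSeries ℂ) c :=
      eq_neg_of_add_eq_zero_left h1
    calc w p i * (algebraMap ℚ (LaurentSeries ℂ) (-c⁻¹) * (WPoly p).divX.eval (w p i))
        = algebraMap ℚ (LaurentSeries ℂ) (-c⁻¹) * ((WPoly p).divX.eval (w p i) * w p i) := by ring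
      _ = algebraMap ℚ (LaurentSeries ℂ) (-c⁻¹) * (-algebraMap ℚ (LaurentSeries ℂ) c) := by rw [h2]
      _ = algebraMap ℚ (LaurentSeries ℂ) (-c⁻¹ * -c) := by
        rw [map_mul, map_neg (algebraMap ℚ (LaurentSeries ℂ)) c]
      _ = 1 := by
        rw [neg_mul_neg, inv_mul_cancel₀ hc0, map_one]

theorem sum_y_pow_mem (h : HeckeInput p) (m : ℕ) : ∑ i, y p i ^ m ∈ Bsub p := by
  obtain ⟨G, hG, hGw⟩ := exists_inv_poly p h
  have h1 : ∀ i, y p i ^ m = Y p i ^ m * (G ^ m).eval (w p i) := by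
    intro i
    rw [Polynomial.eval_pow, ← mul_pow, ← y_mul_w, mul_assoc, hGw, mul_one]
  simp only [h1]
  exact sum_Y_pow_mul_eval_mem p h m (Subsemiring.pow_mem _ hG m)

/-! ### The polynomial `Φ` -/

/-- `Φ = ∏ (X - y i)` over `ℂ((t))` -/
def PhiPoly : Polynomial (LaurentSeries ℂ) := ∏ i, (Polynomial.X - Polynomial.C (y p i))

theorem PhiPoly_monic : (PhiPoly p).Monic :=
  Polynomial.monic_prod_of_monic _ _ fun _ _ => Polynomial.monic_X_sub_C _

theorem PhiPoly_natDegree : (PhiPoly p).natDegree = p + 1 := by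
  rw [PhiPoly, Polynomial.natDegree_prod_of_monic _ _ fun i _ => Polynomial.monic_X_sub_C _]
  simp

theorem PhiPoly_coeff_mem (h : HeckeInput p) (n : ℕ) : (PhiPoly p).coeff n ∈ Bsub p :=
  prod_X_sub_C_mem_of_psum_mem (Bsub p) (y p) (fun m _ => sum_y_pow_mem p h m) n

theorem PhiPoly_eval (i : Option (Fin p)) : (PhiPoly p).eval (y p i) = 0 := by
  rw [PhiPoly, Polynomial.eval_prod]
  exact Finset.prod_eq_zero (Finset.mem_univ i) (by simp)

/-! ### Integrality -/

theorem prod_X_sub_C_coeff_mem_subring (S : Subring (LaurentSeries ℂ)) {ι : Type*} [Fintype ι]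
    (z : ι → LaurentSeries ℂ) (hz : ∀ i, z i ∈ S) (n : ℕ) :
    (∏ i, (Polynomial.X - Polynomial.C (z i))).coeff n ∈ S := by
  have : (∏ i, (Polynomial.X - Polynomial.C (z i))) =
      (∏ i, (Polynomial.X - Polynomial.C (⟨z i, hz i⟩ : S))).map S.subtype := by
    rw [Polynomial.map_prod]
    refine Finset.prod_congr rfl fun i _ => ?_
    simp
  rw [this, Polynomial.coeff_map]
  exact Subtype.property _

theorem C_mem_IntCoeff {c : ℂ} (hc : IsIntegral ℤ c) : HahnSeries.C c ∈ IntCoeff := fun n => by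
  show IsIntegral ℤ ((HahnSeries.single 0 c).coeff n)
  rcases eq_or_ne n 0 with rfl | hn
  · rw [HahnSeries.coeff_single_same]; exact hc
  · rw [HahnSeries.coeff_single_of_ne hn]; exact isIntegral_zero

theorem single_one_mem_IntCoeff (e : ℤ) : HahnSeries.single e (1 : ℂ) ∈ IntCoeff := fun n => by
  rcases eq_or_ne n e with rfl | hn
  · rw [HahnSeries.coeff_single_same]; exact isIntegral_one
  · rw [HahnSeries.coeff_single_of_ne hn]; exact isIntegral_zero

theorem conj_mem_IntCoeff (i : Option (Fin p)) (g : PowerSeries ℤ) :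
    conj p i (toC g) ∈ IntCoeff := by
  cases i with
  | none =>
    simp only [conj, cInf, cBase, RingHom.comp_apply]
    rw [← kap_ofPS]
    exact qExpand_mem_IntCoeff p (qExpand_mem_IntCoeff p (kap_mem_IntCoeff _))
  | some b => exact cB_mem_IntCoeff p b g

theorem scal_mem_IntCoeff (i : Option (Fin p)) : scal p i ∈ IntCoeff := by
  cases i with
  | none => exact Subring.pow_mem _ (natCast_mem _ p) 12
  | some b => exact Subring.one_mem _

theorem w_mem_IntCoeff (i : Option (Fin p)) : w p i ∈ IntCoeff :=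
  Subring.mul_mem _ (Subring.mul_mem _ (scal_mem_IntCoeff p i) (conj_mem_IntCoeff p i DZ))
    (delInv_mem_IntCoeff p)

theorem zeta_pow_inv_isIntegral (b : ℕ) : IsIntegral ℤ ((zeta p ^ b)⁻¹) := by
  have h0 : zeta p ^ (p - 1) * zeta p = 1 := by
    rw [← pow_succ, Nat.sub_add_cancel (Nat.pos_of_ne_zero (NeZero.ne p)), zeta_pow_self]
  have h : (zeta p ^ b)⁻¹ = (zeta p ^ (p - 1)) ^ b := by
    rw [← inv_pow]
    congr 1
    exact (eq_inv_of_mul_eq_one_left h0).symm
  rw [h]
  exact ((zeta_isIntegral p).pow _).pow _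

theorem y_mem_IntCoeff (i : Option (Fin p)) : y p i ∈ IntCoeff := by
  cases i with
  | none =>
    simp only [y]
    have := jP_pow_mem_IntCoeff p 1
    rw [pow_one] at this
    exact qExpand_mem_IntCoeff p this
  | some b =>
    simp only [y]
    exact Subring.mul_mem _ (Subring.mul_mem _ (C_mem_IntCoeff (zeta_pow_inv_isIntegral p b))
      (single_one_mem_IntCoeff _)) (cB_mem_IntCoeff p b jNum)

/-! ### Lifting to `ℤ[Y][X]` -/

theorem exists_lift (F : Polynomial (LaurentSeries ℂ)) (hmonic : F.Monic)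
    (hB : ∀ n, F.coeff n ∈ Bsub p) (hI : ∀ n, F.coeff n ∈ IntCoeff) :
    ∃ Φ : Polynomial (Polynomial ℤ), Φ.Monic ∧ Φ.natDegree = F.natDegree ∧
      Φ.map (theta p) = F := by
  have hl : F ∈ Polynomial.lifts (theta p) := by
    rw [Polynomial.lifts_iff_coeff_lifts]
    intro n
    obtain ⟨Q, hQ⟩ := hB n
    have hQ' : Polynomial.aeval (jP p) Q = F.coeff n := hQ
    obtain ⟨Q', hQ''⟩ := exists_int_poly_of_integral p Q (hQ' ▸ hI n)
    exact ⟨Q', by rw [theta_eq_aeval, hQ'', hQ']⟩
  obtain ⟨Φ, h1, h2, h3⟩ := Polynomial.lifts_and_natDegree_eq_and_monic hl hmonic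
  exact ⟨Φ, h3, h2, h1⟩

/-- **The unit polynomial over `ℤ[j]`**. -/
theorem exists_W (h : HeckeInput p) :
    ∃ W : Polynomial (Polynomial ℤ), W.Monic ∧ W.natDegree = p + 1 ∧
      W.map (theta p) = WPoly p := by
  obtain ⟨W, h1, h2, h3⟩ := exists_lift p (WPoly p) (WPoly_monic p) (WPoly_coeff_mem p h)
    (fun n => prod_X_sub_C_coeff_mem_subring IntCoeff _ (w_mem_IntCoeff p) n)
  exact ⟨W, h1, h2.trans (WPoly_natDegree p), h3⟩

/-- **The modular polynomial over `ℤ[j]`**. -/
theorem exists_Phi (h : HeckeInput p) :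
    ∃ Φ : Polynomial (Polynomial ℤ), Φ.Monic ∧ Φ.natDegree = p + 1 ∧
      Φ.map (theta p) = PhiPoly p := by
  obtain ⟨Φ, h1, h2, h3⟩ := exists_lift p (PhiPoly p) (PhiPoly_monic p) (PhiPoly_coeff_mem p h)
    (fun n => prod_X_sub_C_coeff_mem_subring IntCoeff _ (y_mem_IntCoeff p) n)
  exact ⟨Φ, h1, h2.trans (PhiPoly_natDegree p), h3⟩

end Fermat.Agent.S28.H326

end
end
-- ===== PACK-END S28/H326/Conj.lean

-- ===== PACK-BEGIN S28/H326/Hecke.lean
section
/-
S28 / helper326: the analytic input `HeckeInput p` from the Prelude Hecke operator `T_p`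
on level-one modular forms and the level-one structure theorem (helper505).
-/






set_option autoImplicit false
set_option linter.unusedSectionVars false

noncomputable section

namespace Fermat.Agent.S28.H326

open ModularCurve HahnSeries UpperHalfPlane ModularForm MatrixGroups

/-! ### `T_p` on level one forms -/

theorem gamma0_one_coe :
    ((CongruenceSubgroup.Gamma0 1 : Subgroup SL(2, ℤ)) : Subgroup (GL (Fin 2) ℝ)) = 𝒮ℒ := by
  have h : CongruenceSubgroup.Gamma0 1 = ⊤ := by
    ext g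
    simp [CongruenceSubgroup.Gamma0_mem, Subsingleton.elim (_ : ZMod 1) 0]
  rw [h, MonoidHom.range_eq_map]

/-- `T_p f` as a level one modular form. -/
def heckeForm (k : ℤ) {p : ℕ} (hp : p.Prime) (f : ModularForm 𝒮ℒ k) : ModularForm 𝒮ℒ k where
  toFun := ModularForm.heckeT k p ⇑f
  slash_action_eq' := fun γ hγ =>
    ModularForm.heckeT_slash_eq_self_of_mem_Gamma0 (N := 1) k hp
      (by rw [Nat.dvd_one]; exact hp.one_lt.ne')
      (fun γ' hγ' => SlashInvariantFormClass.slash_action_eq f γ' (gamma0_one_coe ▸ hγ'))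
      γ (gamma0_one_coe.symm ▸ hγ)
  holo' := ModularForm.mdifferentiable_heckeT (ModularFormClass.holo f) k p
  bdd_at_cusps' := fun hc => ModularFormClass.isBoundedAt_heckeT f p hc

theorem coe_heckeForm (k : ℤ) {p : ℕ} (hp : p.Prime) (f : ModularForm 𝒮ℒ k) :
    ⇑(heckeForm k hp f) = ModularForm.heckeT k p ⇑f := rfl

theorem qExpansion_heckeForm_coeff (k : ℤ) {p : ℕ} (hp : p.Prime) (f : ModularForm 𝒮ℒ k)
    (n : ℕ) :
    (qExpansion 1 (heckeForm k hp f)).coeff n =
      (qExpansion 1 f).coeff (n * p) +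
        if p ∣ n then (p : ℂ) ^ (k - 1) * (qExpansion 1 f).coeff (n / p) else 0 := by
  have := ModularFormClass.qCoeff_heckeT f one_mem_strictPeriods_SL hp.ne_zero n
  simpa [ModularFormClass.qCoeff, coe_heckeForm, ModularForm.coeffHeckeT] using this

/-! ### The forms `E₄^{3a} Δ^r` -/

/-- `Δ` as a modular form -/
def deltaForm : ModularForm 𝒮ℒ 12 := CuspForm.toModularFormₗ CuspForm.discriminant

theorem qExpansion_deltaForm : qExpansion 1 deltaForm = H505.deltaC :=
  H505.qExpansion_discriminant_eq_deltaC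

/-- `E₄^{3a} Δ^r` -/
def monoE4Delta (a r : ℕ) (k : ℤ) (hk : ((3 * a : ℕ) : ℤ) * 4 + ((r : ℕ) : ℤ) * 12 = k) :
    ModularForm 𝒮ℒ k :=
  ModularForm.mcast hk ((E₄.pow (3 * a)).mul (deltaForm.pow r))

theorem toC_EZ : toC EZ = H505.e4C ^ 3 := by
  rw [EZ, map_pow, H505.e4C]

theorem toC_DZ : toC DZ = H505.deltaC := by
  rw [DZ, map_mul, PowerSeries.map_X, H505.deltaC, dedekindEtaUnit, map_pow]

theorem qExpansion_monoE4Delta (a r : ℕ) (k : ℤ)
    (hk : ((3 * a : ℕ) : ℤ) * 4 + ((r : ℕ) : ℤ) * 12 = k) :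
    qExpansion 1 (monoE4Delta a r k hk) = toC (EZ ^ a * DZ ^ r) := by
  rw [monoE4Delta, ModularForm.qExpansion_mcast,
    ModularForm.qExpansion_mul one_pos one_mem_strictPeriods_SL,
    ModularForm.qExpansion_pow one_pos one_mem_strictPeriods_SL,
    ModularForm.qExpansion_pow one_pos one_mem_strictPeriods_SL,
    H505.qExpansion_E₄_eq_e4C, qExpansion_deltaForm, map_mul, map_pow, map_pow, toC_EZ, toC_DZ,
    ← pow_mul]

/-! ### Integrality by leading terms, over `ℂ` -/

theorem C_mul_coeff (c : ℂ) (x : LaurentSeries ℂ) (n : ℤ) :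
    (HahnSeries.C c * x).coeff n = c * x.coeff n := by
  rw [HahnSeries.C_mul_eq_smul, HahnSeries.coeff_smul, smul_eq_mul]

theorem aeval_jC_coeff (Q : Polynomial ℂ) {n : ℕ} (hn : Q.natDegree ≤ n) :
    (Polynomial.aeval (jqModC ℂ) Q).coeff (-(n : ℤ)) = Q.coeff n := by
  rw [H505.aeval_laurent_eq_eval₂, Polynomial.eval₂_eq_sum_range' _ (Nat.lt_succ_of_le hn),
    HahnSeries.coeff_sum, Finset.sum_range_succ]
  rw [Finset.sum_eq_zero, zero_add, C_mul_coeff, coeff_jqModC_pow_self, mul_one]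
  intro i hi
  rw [C_mul_coeff, coeff_jqModC_pow_of_lt ℂ (by have := Finset.mem_range.mp hi; omega),
    mul_zero]

theorem exists_int_poly_of_kap (Q : Polynomial ℂ) (x : LaurentSeries ℤ)
    (h : Polynomial.aeval (jqModC ℂ) Q = kap x) :
    ∃ Q' : Polynomial ℤ, Polynomial.aeval (jqModC ℤ) Q' = x := by
  suffices H : ∀ d : ℕ, ∀ (Q : Polynomial ℂ) (x : LaurentSeries ℤ), Q.natDegree < d →
      Polynomial.aeval (jqModC ℂ) Q = kap x →
        ∃ Q' : Polynomial ℤ, Polynomial.aeval (jqModC ℤ) Q' = x from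
    H (Q.natDegree + 1) Q x (Nat.lt_succ_self _) h
  intro d
  induction d with
  | zero => intro Q x hQ; omega
  | succ d ih =>
    intro Q x hQ hx
    have hle : Q.natDegree ≤ d := Nat.lt_succ_iff.mp hQ
    have hlead := aeval_jC_coeff Q hle
    rw [hx, coeffMap_coeff] at hlead
    set m : ℤ := x.coeff (-(d : ℤ)) with hm
    set Q1 : Polynomial ℂ := Q - Polynomial.C (Q.coeff d) * Polynomial.X ^ d with hQ1
    have hx1 : Polynomial.aeval (jqModC ℂ) Q1 = kap (x - (m : LaurentSeries ℤ) * jqModC ℤ ^ d) := by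
      rw [hQ1, map_sub, map_mul, Polynomial.aeval_C, map_pow, Polynomial.aeval_X, hx, map_sub,
        map_mul, map_pow, coeffMap_jqModC, ← hlead]
      congr 2
      rw [H505.algebraMap_laurent_eq_C, map_intCast]
      simp
    by_cases h0 : Q1 = 0
    · refine ⟨Polynomial.C m * Polynomial.X ^ d, ?_⟩
      rw [h0, map_zero] at hx1
      have h1 : x - (m : LaurentSeries ℤ) * jqModC ℤ ^ d = 0 :=
        kap_injective (by rw [← hx1, map_zero])
      rw [map_mul, Polynomial.aeval_C, map_pow, Polynomial.aeval_X]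
      rw [sub_eq_zero] at h1
      rw [h1]
      simp
    · have hdeg : Q1.natDegree < d := by
        have h1 : Q1.natDegree ≤ d := by
          refine (Polynomial.natDegree_sub_le _ _).trans (max_le hle ?_)
          exact Polynomial.natDegree_C_mul_X_pow_le _ _
        rcases Nat.lt_or_ge Q1.natDegree d with h2 | h2
        · exact h2
        · have h3 : Q1.natDegree = d := le_antisymm h1 h2
          have h4 : Q1.coeff d = 0 := by simp [hQ1]
          have h5 : Q1.leadingCoeff = 0 := by rw [Polynomial.leadingCoeff, h3, h4]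
          exact absurd (Polynomial.leadingCoeff_eq_zero.mp h5) h0
      obtain ⟨Q', hQ'⟩ := ih Q1 _ hdeg hx1
      refine ⟨Q' + Polynomial.C m * Polynomial.X ^ d, ?_⟩
      rw [map_add, hQ', map_mul, Polynomial.aeval_C, map_pow, Polynomial.aeval_X]
      simp

/-! ### The Hecke input -/

theorem kap_heckeL_eq_gen (p : ℕ) [NeZero p] (hp : p.Prime) (φ : PowerSeries ℤ) (k' : ℕ) (k : ℤ)
    (hk' : k = (k' : ℤ)) (F : ModularForm 𝒮ℒ k) (hF : qExpansion 1 F = toC φ) :
    kap (heckeL p k' φ) =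
      (p : LaurentSeries ℂ) * ofPS (qExpansion 1 (heckeForm k hp F)) := by
  have hp0 : (p : ℂ) ≠ 0 := Nat.cast_ne_zero.mpr hp.ne_zero
  ext n
  rw [heckeL]
  simp only [map_add, map_mul, map_pow, map_natCast, coeffMap_qExpand, kap_ofPS, toC_UpZ]
  rw [HahnSeries.coeff_add, ← Nat.cast_pow, natCast_mul_coeff, natCast_mul_coeff,
    natCast_mul_coeff]
  rcases lt_or_ge n 0 with hn | hn
  · rw [ofPS_coeff_neg _ hn, ofPS_coeff_neg _ hn, mul_zero, add_zero]
    have := cBase_coeff_neg p (toC φ) hn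
    rw [cBase, RingHom.comp_apply] at this
    rw [this, mul_zero]
  · lift n to ℕ using hn
    rw [ofPS_coeff_nat, ofPS_coeff_nat, qExpansion_heckeForm_coeff, hF, coeff_Up]
    by_cases hdvd : p ∣ n
    · obtain ⟨m, rfl⟩ := hdvd
      rw [if_pos (dvd_mul_right p m)]
      have h1 : ((p * m : ℕ) : ℤ) = (p : ℤ) * m := by push_cast; ring
      rw [h1, qExpand_coeff_mul, ofPS_coeff_nat, Nat.mul_div_cancel_left m hp.pos]
      have h2 : (p : ℂ) * (p : ℂ) ^ (k - 1) = ((p ^ k' : ℕ) : ℂ) := by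
        rw [hk', ← zpow_one_add₀ hp0]
        push_cast
        rw [show (1 : ℤ) + ((k' : ℤ) - 1) = (k' : ℤ) by ring, zpow_natCast]
      rw [mul_add, ← mul_assoc, h2]
      ring
    · rw [if_neg hdvd, add_zero]
      have h1 : ¬ (p : ℤ) ∣ (n : ℤ) := by exact_mod_cast hdvd
      rw [qExpand_coeff_of_not_dvd p _ h1, mul_zero, zero_add]

theorem kap_heckeL_eq (p : ℕ) [NeZero p] (hp : p.Prime) (a r : ℕ) (k : ℤ)
    (hk : ((3 * a : ℕ) : ℤ) * 4 + ((r : ℕ) : ℤ) * 12 = k) :
    kap (heckeL p (12 * (a + r)) (EZ ^ a * DZ ^ r)) =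
      (p : LaurentSeries ℂ) *
        ofPS (qExpansion 1 (heckeForm k hp (monoE4Delta a r k hk))) :=
  kap_heckeL_eq_gen p hp _ _ k (by rw [← hk]; push_cast; ring) _ (qExpansion_monoE4Delta a r k hk)

/-- **The Hecke input holds.** -/
theorem heckeInput (p : ℕ) [NeZero p] (hp : p.Prime) : HeckeInput p := by
  intro a r
  have hk : ((3 * a : ℕ) : ℤ) * 4 + ((r : ℕ) : ℤ) * 12 = (12 * ((a + r : ℕ) : ℤ)) := by
    push_cast; ring
  obtain ⟨P, -, -, hP⟩ := H505.levelOne_structure (a + r) _ rfl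
    (heckeForm _ hp (monoE4Delta a r _ hk))
  have h1 := kap_heckeL_eq p hp a r _ hk
  rw [hP] at h1
  have hD : HahnSeries.ofPowerSeries ℤ ℂ H505.deltaC = kap deltaZ := by
    rw [deltaZ, kap_ofPS, toC_DZ]
  have h2 : Polynomial.aeval (jqModC ℂ) (Polynomial.C (p : ℂ) * P) =
      kap (heckeL p (12 * (a + r)) (EZ ^ a * DZ ^ r) * deltaInvZ ^ (a + r)) := by
    have h3 : kap deltaZ * kap deltaInvZ = 1 := by
      rw [← map_mul, deltaZ_mul_deltaInvZ, map_one]
    have h4 : (p : LaurentSeries ℂ) = HahnSeries.C (p : ℂ) := by simp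
    have h5 : kap (heckeL p (12 * (a + r)) (EZ ^ a * DZ ^ r) * deltaInvZ ^ (a + r)) =
        kap (heckeL p (12 * (a + r)) (EZ ^ a * DZ ^ r)) * kap deltaInvZ ^ (a + r) := by
      rw [map_mul, map_pow]
    have h6 : Polynomial.aeval (jqModC ℂ) (Polynomial.C (p : ℂ) * P) =
        HahnSeries.C (p : ℂ) * Polynomial.aeval (jqModC ℂ) P := by
      rw [map_mul, Polynomial.aeval_C, H505.algebraMap_laurent_eq_C]
    rw [h5, h6, h1, hD, h4]
    calc HahnSeries.C (p : ℂ) * Polynomial.aeval (jqModC ℂ) P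
        = HahnSeries.C (p : ℂ) * Polynomial.aeval (jqModC ℂ) P *
            (kap deltaZ * kap deltaInvZ) ^ (a + r) := by rw [h3, one_pow, mul_one]
      _ = _ := by rw [mul_pow]; ring
  obtain ⟨Q', hQ'⟩ := exists_int_poly_of_kap _ _ h2
  refine ⟨Q', ?_⟩
  rw [hQ', mul_assoc, ← mul_pow, mul_comm deltaInvZ, deltaZ_mul_deltaInvZ, one_pow, mul_one]

end Fermat.Agent.S28.H326

end
end
-- ===== PACK-END S28/H326/Hecke.lean

-- ===== PACK-BEGIN S28/H326/Final.lean
section
/-
S28 / helper326: the prime-level analytic stubs of the captain skeleton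
(`ModPolyData p`, `UnitPolyData p` of `Fermat.Agent.S28.Defs`).
-/





set_option autoImplicit false
set_option linter.unusedSectionVars false

noncomputable section

namespace Fermat.Agent.S28.H326

open ModularCurve HahnSeries

variable (p : ℕ) [NeZero p]

/-- the base embedding `ℤ((q)) → ℂ((t))`, `q ↦ t^p` -/
def iotaP : LaurentSeries ℤ →+* LaurentSeries ℂ := (qExpand ℂ p).comp kap

theorem iotaP_injective : Function.Injective (iotaP p) :=
  (qExpand_injective p).comp kap_injective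

theorem theta_eq_comp :
    theta p = (iotaP p).comp (Polynomial.aeval (jqModC ℤ)).toRingHom := rfl

theorem theta_eq_comp' :
    theta p = kap.comp (Polynomial.aeval (qExpand ℤ p (jqModC ℤ))).toRingHom := by
  refine Polynomial.ringHom_ext (fun a => ?_) ?_
  · simp
  · rw [theta_X]
    simp only [RingHom.comp_apply, AlgHom.toRingHom_eq_coe, RingHom.coe_coe, Polynomial.aeval_X]
    rw [coeffMap_qExpand, coeffMap_jqModC, jP]

theorem iotaP_qExpand_jq : iotaP p (qExpand ℤ p (jqModC ℤ)) = y p none := by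
  rw [iotaP, RingHom.comp_apply, coeffMap_qExpand, coeffMap_jqModC]
  rfl

theorem kap_jq : kap (jqModC ℤ) = y p (some ⟨0, Nat.pos_of_ne_zero (NeZero.ne p)⟩) := by
  rw [coeffMap_jqModC]
  simp only [y, pow_zero, inv_one, map_one, one_mul, cB_zero]
  rfl

theorem deltaL_eq : deltaL ℤ = deltaZ := by
  rw [deltaL, deltaZ, DZ, map_mul, HahnSeries.ofPowerSeries_X]
  congr 2

theorem deltaInvL_eq : deltaInvL ℤ = deltaInvZ := by
  rw [deltaInvL, deltaInvZ]
  congr 2

theorem iotaP_unit :
    iotaP p ((p : LaurentSeries ℤ) ^ 12 * unitL ℤ p) = w p none := by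
  rw [unitL, deltaL_eq, deltaInvL_eq, w, scal, conj, cInf, cBase, delInv, iotaP]
  simp only [RingHom.comp_apply, map_mul, map_pow, map_natCast, coeffMap_qExpand]
  rw [deltaZ, kap_ofPS, DC]
  ring

/-- **[A-Φ]** existence of the modular polynomial of prime level `p`. -/
theorem nonempty_modPolyData (hp : p.Prime) : Nonempty (ModPolyData p) := by
  obtain ⟨Φ, hmonic, hdeg, hmap⟩ := exists_Phi p (heckeInput p hp)
  refine ⟨⟨Φ, hmonic, hdeg, ?_, ?_⟩⟩
  · apply iotaP_injective p
    rw [map_zero, Polynomial.hom_eval₂, ← theta_eq_comp, ← Polynomial.eval_map, hmap,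
      iotaP_qExpand_jq]
    exact PhiPoly_eval p none
  · apply kap_injective
    rw [map_zero, Polynomial.hom_eval₂, ← theta_eq_comp', ← Polynomial.eval_map, hmap, kap_jq p]
    exact PhiPoly_eval p _

/-- **[A-W]** `p¹² Δ(q^p)/Δ(q)` is integral over `ℤ[j]`. -/
theorem nonempty_unitPolyData (hp : p.Prime) : Nonempty (UnitPolyData p) := by
  obtain ⟨W, hmonic, -, hmap⟩ := exists_W p (heckeInput p hp)
  refine ⟨⟨W, hmonic, ?_⟩⟩
  apply iotaP_injective p
  rw [map_zero, Polynomial.hom_eval₂, ← theta_eq_comp, ← Polynomial.eval_map, hmap, iotaP_unit]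
  exact WPoly_eval p none

end Fermat.Agent.S28.H326

end
end
-- ===== PACK-END S28/H326/Final.lean

-- ===== PACK-BEGIN S18/B12/H278/SF.lean
section


/-!
# b2-SF and b2-SF' (helper278): proofs of the frozen statements `SFIdemStatement` and
`SFLatticeStatement` of `Fermat/Agent/S18/B12/Spec.lean`.

Both are instances of `exists_smul_mem_range_of_isIntegral` (`Transfer.lean`), which is the
localisation at `(t)` of the DVR normality criterion `mem_range_of_isIntegral`
(`Fermat/Agent/S37/H278/Normal.lean`).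
-/

set_option autoImplicit false
set_option linter.style.haveILetI false
set_option linter.unusedSectionVars false

namespace Fermat.Agent.S18.B12.H278

open Module Polynomial Fermat.Agent.S37.H278

universe u v

/-- An idempotent is integral. -/
theorem isIntegral_of_mul_self_eq {Λ : Type*} [CommRing Λ] [Nontrivial Λ] {L : Type*} [CommRing L] [Algebra Λ L]
    {ε : L} (hε : ε * ε = ε) : IsIntegral Λ ε := by
  refine ⟨X ^ 2 - X, ?_, ?_⟩
  · apply monic_X_pow_sub
    rw [degree_X]
    norm_num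
  · simp [pow_two, hε]

/-- **b2-SF'** (= frozen statement `SFIdemStatement` of `B12/Spec.lean`, unfolded). -/
theorem sfIdem :
  ∀ (Λ : Type u) [CommRing Λ] [IsDomain Λ] [IsPrincipalIdealRing Λ] (t : Λ) (_ : Prime t)
    (L : Type v) [CommRing L] [Algebra Λ L] [Module.IsTorsionFree Λ L] (C : Subalgebra Λ L)
    (n : ℕ) (b : Module.Basis (Fin n) Λ C)
    (s : ℕ) (y : Fin s → C)
    (_ : ∀ x : C, ∃ a : Fin s → Λ,
        x - ∑ i, a i • y i ∈ (Ideal.span {algebraMap Λ C t}).radical),
    Algebra.discr Λ b ≠ 0 → ¬ t ^ (n - s + 1) ∣ Algebra.discr Λ b →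
    ∀ ε : L, ε * ε = ε → (∃ g₀ : Λ, g₀ ≠ 0 ∧ g₀ • ε ∈ C) → ∃ g : Λ, ¬ t ∣ g ∧ g • ε ∈ C := by
  intro Λ _ _ _ t ht L _ _ _ C n b s y hy _ hd ε hε hε0
  have hL : ∀ (g : Λ) (l : L), g ≠ 0 → g • l = 0 → l = 0 := by
    intro g l hg h
    have hreg : IsSMulRegular L g := Module.IsTorsionFree.isSMulRegular (IsRegular.of_ne_zero hg)
    exact hreg (by simpa using h)
  have hx0 : ∃ g₀ : Λ, g₀ ≠ 0 ∧ g₀ • ε ∈ (C.val : C →ₐ[Λ] L).range := by
    obtain ⟨g₀, h0, h1⟩ := hε0
    exact ⟨g₀, h0, ⟨⟨_, h1⟩, rfl⟩⟩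
  obtain ⟨g, hg, c, hc⟩ := exists_smul_mem_range_of_isIntegral ht hL C.val
    Subtype.val_injective b s y hy (by simpa using hd) ε (isIntegral_of_mul_self_eq hε) hx0
  refine ⟨g, hg, ?_⟩
  have hc' : (c : L) = g • ε := hc
  rw [← hc']
  exact c.2

/-- An injective linear map between free modules of the same finite rank over a domain has
torsion cokernel: `d • N ⊆ range f` for some `d ≠ 0` (`d` = determinant). -/
theorem exists_smul_mem_range_of_injective {Λ : Type*} [CommRing Λ] [IsDomain Λ]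
    {M N : Type*} [AddCommGroup M] [AddCommGroup N] [Module Λ M] [Module Λ N]
    {ι : Type*} [Fintype ι] [DecidableEq ι] (b : Basis ι Λ M) (bt : Basis ι Λ N)
    (f : M →ₗ[Λ] N) (hf : Function.Injective f) :
    ∃ d : Λ, d ≠ 0 ∧ ∀ z : N, d • z ∈ LinearMap.range f := by
  classical
  set A := LinearMap.toMatrix b bt f with hA
  have hdet : A.det ≠ 0 := by
    intro h0
    obtain ⟨v, hv, hAv⟩ := Matrix.exists_mulVec_eq_zero_iff.mpr h0
    have h1 : f (b.equivFun.symm v) = 0 := by
      apply bt.equivFun.injective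
      rw [map_zero]
      have := LinearMap.toMatrix_mulVec_repr b bt f (b.equivFun.symm v)
      rw [← hA] at this
      have hv' : ⇑(b.repr (b.equivFun.symm v)) = v := by
        rw [← Basis.equivFun_apply, LinearEquiv.apply_symm_apply]
      rw [hv', hAv] at this
      funext i
      have := congrFun this i
      simpa using this.symm
    have h2 : b.equivFun.symm v = 0 := hf (by rw [h1, map_zero])
    apply hv
    have := congrArg b.equivFun h2
    rw [LinearEquiv.apply_symm_apply, map_zero] at this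
    exact this
  refine ⟨A.det, hdet, fun z => ⟨Matrix.toLin bt b A.adjugate z, ?_⟩⟩
  have h3 : f ∘ₗ Matrix.toLin bt b A.adjugate = A.det • LinearMap.id := by
    conv_lhs => rw [← Matrix.toLin_toMatrix b bt f, ← hA]
    rw [← Matrix.toLin_mul, Matrix.mul_adjugate, map_smul, Matrix.toLin_one]
  have := LinearMap.congr_fun h3 z
  simpa using this

/-- **b2-SF** (= frozen statement `SFLatticeStatement` of `B12/Spec.lean`, unfolded). -/
theorem sfLattice :
  ∀ (Λ : Type u) [CommRing Λ] [IsDomain Λ] [IsPrincipalIdealRing Λ] (t : Λ) (_ : Prime t)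
    (L : Type v) [CommRing L] [Algebra Λ L] (C Ct : Subalgebra Λ L) (_ : C ≤ Ct)
    (n : ℕ) (b : Module.Basis (Fin n) Λ C) (_ : Module.Basis (Fin n) Λ Ct)
    (s : ℕ) (y : Fin s → C)
    (_ : ∀ x : C, ∃ a : Fin s → Λ,
        x - ∑ i, a i • y i ∈ (Ideal.span {algebraMap Λ C t}).radical),
    Algebra.discr Λ b ≠ 0 → ¬ t ^ (n - s + 1) ∣ Algebra.discr Λ b →
    ∀ x ∈ Ct, ∃ g : Λ, ¬ t ∣ g ∧ g • x ∈ C := by
  intro Λ _ _ _ t ht L _ _ C Ct hle n b bt s y hy _ hd x hx
  haveI : Module.Free Λ Ct := Module.Free.of_basis bt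
  have hL : ∀ (g : Λ) (l : Ct), g ≠ 0 → g • l = 0 → l = 0 := by
    intro g l hg h
    exact smul_eq_zero_imp hg h
  have hf : Function.Injective (Subalgebra.inclusion hle) := Subalgebra.inclusion_injective hle
  haveI : Module.Finite Λ Ct := Module.Finite.of_basis bt
  have hxint : IsIntegral Λ (⟨x, hx⟩ : Ct) := Algebra.IsIntegral.isIntegral _
  obtain ⟨d, hd0, hdr⟩ := exists_smul_mem_range_of_injective b bt
    (Subalgebra.inclusion hle).toLinearMap hf
  have hx0 : ∃ g₀ : Λ, g₀ ≠ 0 ∧ g₀ • (⟨x, hx⟩ : Ct) ∈ (Subalgebra.inclusion hle).range := by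
    obtain ⟨c, hc⟩ := hdr ⟨x, hx⟩
    exact ⟨d, hd0, c, hc⟩
  obtain ⟨g, hg, c, hc⟩ := exists_smul_mem_range_of_isIntegral ht hL (Subalgebra.inclusion hle)
    hf b s y hy (by simpa using hd) ⟨x, hx⟩ hxint hx0
  refine ⟨g, hg, ?_⟩
  have hc' : ((Subalgebra.inclusion hle c : Ct) : L) = g • x := congrArg Subtype.val hc
  rw [← hc']
  exact c.2

end Fermat.Agent.S18.B12.H278

end
-- ===== PACK-END S18/B12/H278/SF.lean

-- ===== PACK-BEGIN S18/B12/H84/Stmt.lean
section





/-!
# S18 / b2.5 / A8 + A9 (helper84): the `Spec3`-typed statements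

* `a9 : RegularAlongOfDedekindStatement`
* `a8_of_sfLattice : SFLatticeStatement → IntClosedOfDiscrStatement`
* `a8 : IntClosedOfDiscrStatement` (unconditional, with Theorem L = `H278.sfLattice` on main)
-/

set_option autoImplicit false

namespace Fermat.Agent.S18.B12.H84

universe u v

/-- **A9**, exact frozen shape. -/
theorem a9 : B12.RegularAlongOfDedekindStatement.{u} :=
  fun B _ ϖ hD 𝔪 h𝔪 hϖ => regularAlongOfDedekind B ϖ hD 𝔪 h𝔪 hϖ

/-- **A8** from Theorem L, exact frozen shapes. -/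
theorem a8_of_sfLattice (hSF : B12.SFLatticeStatement.{u, v}) :
    B12.IntClosedOfDiscrStatement.{u, v} :=
  fun Λ _ _ _ C _ _ _ n b hdisc hbound =>
    intClosedOfDiscr_of_sfLattice hSF Λ C n b hdisc hbound

/-- **A8**, exact frozen shape, unconditional (Theorem L from `H278.sfLattice`). -/
theorem a8 : B12.IntClosedOfDiscrStatement.{u, v} :=
  a8_of_sfLattice H278.sfLattice.{u, v}

end Fermat.Agent.S18.B12.H84

end
-- ===== PACK-END S18/B12/H84/Stmt.lean

-- ===== PACK-BEGIN A2/Mod/Spec.lean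
section






/-!
# WALL A2 / MOD — frozen CONCRETE leaves (architect: deputy helper994)

Level `N = M * q`, `q` prime, `q ∤ M`.  `P` a valuation subring of `Q̄` over `q`, `E ⊆ Q̄` an
intermediate field such that `R = R_E = P ∩ E` is a discrete valuation ring with uniformiser `w`
(number field, or a finite extension of the inertia field).  `k = R / w` (automatically perfect).

* `F_N = FE E N = E(j_d : d ∣ N) ⊆ E((t))`, `j_d = j(t^d)`;
* `α = heckeAlphaBar E M q : F_M → F_N` (inclusion), `β = heckeBetaBar E M q` (`t ↦ t^q`, `j_d ↦ j_{dq}`);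
* `V∞` = Gauss valuation ring of the `t`-expansion (`H708.gaussInf`, here via the predicate `IsVinf`);
* `W` = Fricke involution of `F_N` over `E` (`j_d ↦ j_{N/d}`), `V₀ := V∞.comap W`;
* **coordinate `x := j · j_q`** (NOT `j`, NOT `j + j_q`):  `j, j_q` are integral over `ℤ[x]` and
  `1/j, 1/j_q` are integral over `ℤ[1/x]` (leaf `ChartCompat`), hence BOTH `α` and `β` map the
  level-`M` charts for the coordinate `j` (finite chart AND chart at infinity) into the level-`N`
  charts for the coordinate `x`; `x̄ = j̄^(q+1)` on `C∞`, `x̄ = j̄_q^(q+1)` on `C₀`: separable (tame)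
  on both components;  `[F_N : E(x)] = 2 ψ(N) = 2 (q+1) ψ(M)`, residue degrees `ψ(N)` and `ψ(N)`.

Every `def …Statement : Prop` below is ONE leaf: prove `theorem foo : FooStatement` in
`Fermat/Agent/A2/Mod/H<seat>/*.lean` (namespace `Fermat.Agent.A2.Mod.H<seat>`), importing this file.
The abstract pieces on main (H48 QEP2, H492 M4, H372 T-ALG, H168/H132 nodes, H296/H373/H969 normal)
turn the leaves + `GoodRedAt` (level `M`, = output of S18 b2) into helper13's `SSChart`s (MODASM).
-/

set_option autoImplicit false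
set_option synthInstance.maxHeartbeats 400000
set_option maxHeartbeats 1600000

noncomputable section

namespace Fermat.Agent.A2.Mod

open ModularCurve HahnSeries Polynomial

/-- The field `ℚ̄`. -/
abbrev Qb : Type := AlgebraicClosure ℚ

/-! ## Objects -/

section Defs

variable (P : ValuationSubring _root_.Fermat.Agent.A2.Mod.Qb) (E : IntermediateField ℚ _root_.Fermat.Agent.A2.Mod.Qb) (N : ℕ)

/-- `R_E = P ∩ E`. -/
abbrev RE : ValuationSubring E := P.comap (algebraMap E _root_.Fermat.Agent.A2.Mod.Qb)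

/-- `F_{N,E} = E(j(t^d) : d ∣ N) ⊆ E((t))`. -/
abbrev FE : IntermediateField E (LaurentSeries E) :=
  laurentBaseChange E (modularFunctionFieldFull N)

/-- The constant `r ∈ R_E` as an element of `F_{N,E}`. -/
def cE (r : _root_.Fermat.Agent.A2.Mod.RE P E) : _root_.Fermat.Agent.A2.Mod.FE E N := algebraMap E (_root_.Fermat.Agent.A2.Mod.FE E N) (r : E)

/-- The generator `j_d = j(t^d)` of `F_{N,E}`, `d ∣ N`. -/
def jE (d : ℕ) [NeZero d] (hd : d ∣ N) : _root_.Fermat.Agent.A2.Mod.FE E N :=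
  ⟨coeffEmb E (qExpand ℚ d jq), coeffEmb_mem_laurentBaseChange E (jqd_mem_full N hd)⟩

/-- Evaluation of a polynomial over `R_E` at an element of `F_{N,E}`. -/
def ev (x : _root_.Fermat.Agent.A2.Mod.FE E N) (a : Polynomial (_root_.Fermat.Agent.A2.Mod.RE P E)) : _root_.Fermat.Agent.A2.Mod.FE E N :=
  a.eval₂ ((algebraMap E (_root_.Fermat.Agent.A2.Mod.FE E N)).comp (_root_.Fermat.Agent.A2.Mod.RE P E).subtype) x

/-- `V` is the Gauss valuation ring `V∞` of `F_{N,E}` with respect to `R_E`
(`= H708.gaussInf (RE P E) (modularFunctionFieldFull N) _ _`). -/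
def IsVinf (V : ValuationSubring (_root_.Fermat.Agent.A2.Mod.FE E N)) : Prop :=
  ∀ f : _root_.Fermat.Agent.A2.Mod.FE E N, f ∈ V ↔
    H708.IsGaussInt (_root_.Fermat.Agent.A2.Mod.RE P E) (modularFunctionFieldFull N) (f : LaurentSeries E)

/-- `W` is the Fricke involution of `F_{N,E}` over `E`: `j_d ↦ j_{N/d}`. -/
def IsFricke (W : _root_.Fermat.Agent.A2.Mod.FE E N ≃ₐ[E] _root_.Fermat.Agent.A2.Mod.FE E N) : Prop :=
  (∀ (d d' : ℕ) [NeZero d] [NeZero d'] (hd : d ∣ N) (hd' : d' ∣ N), d * d' = N →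
    W (jE E N d hd) = jE E N d' hd') ∧ ∀ f, W (W f) = f

/-- `f ∈ w · V`. -/
def InW (V : ValuationSubring (_root_.Fermat.Agent.A2.Mod.FE E N)) (w : _root_.Fermat.Agent.A2.Mod.RE P E) (f : _root_.Fermat.Agent.A2.Mod.FE E N) : Prop :=
  f * (cE P E N w)⁻¹ ∈ V

/-- Residues of the family `b` are linearly independent over `k[x̄]`, in the elementwise form used
by `H48.GaussPair`: `∑ aᵢ(x) bᵢ ∈ w V ⟹ w ∣ aᵢ` for all `i`. -/
def IndepMod (V : ValuationSubring (_root_.Fermat.Agent.A2.Mod.FE E N)) (w : _root_.Fermat.Agent.A2.Mod.RE P E) (x : _root_.Fermat.Agent.A2.Mod.FE E N) {n : ℕ}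
    (b : Fin n → _root_.Fermat.Agent.A2.Mod.FE E N) : Prop :=
  ∀ a : Fin n → Polynomial (_root_.Fermat.Agent.A2.Mod.RE P E),
    InW P E N V w (∑ i, ev P E N x (a i) * b i) → ∀ i, Polynomial.C w ∣ a i

/-- The chart: elements of `F_{N,E}` integral over `R_E[x]` (as a set; `R_E[x]` = image of `ev`). -/
def chart (x : _root_.Fermat.Agent.A2.Mod.FE E N) : Set (_root_.Fermat.Agent.A2.Mod.FE E N) :=
  {f | ∃ p : Polynomial (Polynomial (_root_.Fermat.Agent.A2.Mod.RE P E)), p.Monic ∧
    p.eval₂ (Polynomial.eval₂RingHom ((algebraMap E (_root_.Fermat.Agent.A2.Mod.FE E N)).comp (_root_.Fermat.Agent.A2.Mod.RE P E).subtype) x) f = 0}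

end Defs

/-! ## Standing hypotheses of all leaves -/

/-- The standing hypotheses: `q` prime, `q ∤ M`, `P` over `q`, `R_E` a DVR with uniformiser `w`. -/
structure Setting (P : ValuationSubring _root_.Fermat.Agent.A2.Mod.Qb) (E : IntermediateField ℚ _root_.Fermat.Agent.A2.Mod.Qb) (M q : ℕ)
    (w : _root_.Fermat.Agent.A2.Mod.RE P E) : Prop where
  q_prime : q.Prime
  q_not_dvd : ¬ q ∣ M
  M_ne_zero : M ≠ 0
  lies_over : P.LiesOverPrime q
  dvr : IsDiscreteValuationRing (_root_.Fermat.Agent.A2.Mod.RE P E)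
  unif : Irreducible w

section Leaves

variable (P : ValuationSubring _root_.Fermat.Agent.A2.Mod.Qb) (E : IntermediateField ℚ _root_.Fermat.Agent.A2.Mod.Qb) (M q : ℕ) [NeZero M] [NeZero q]
  (w : _root_.Fermat.Agent.A2.Mod.RE P E)

/-- The coordinate `x = j · j_q` of level `M * q`. -/
def xE : _root_.Fermat.Agent.A2.Mod.FE E (M * q) :=
  jE E (M * q) 1 (one_dvd _) * jE E (M * q) q (dvd_mul_left q M)

/-- `α : F_M → F_{Mq}`, the inclusion. -/
abbrev αE : _root_.Fermat.Agent.A2.Mod.FE E M →ₐ[E] _root_.Fermat.Agent.A2.Mod.FE E (M * q) := heckeAlphaBar E M q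

/-- `β : F_M → F_{Mq}`, `t ↦ t^q`. -/
abbrev βE : _root_.Fermat.Agent.A2.Mod.FE E M →ₐ[E] _root_.Fermat.Agent.A2.Mod.FE E (M * q) := heckeBetaBar E M q

/-! ### L1  VINF: the Gauss valuation exists at every level (owner: helper708 / helper553) -/

/-- **L1.** The Gauss valuation ring exists (any level `N`):
`H708.gaussInf` + `H708.IntGen (modularFunctionFieldFull N)` + `attainsMax_of_isNoetherianRing`. -/
def VinfExistsStatement : Prop :=
  ∀ N : ℕ, N ≠ 0 → IsDiscreteValuationRing (_root_.Fermat.Agent.A2.Mod.RE P E) →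
    ∃ V : ValuationSubring (_root_.Fermat.Agent.A2.Mod.FE E N), IsVinf P E N V

/-- **L2.** `w` is a uniformiser of `V∞`, `V∞ ∩ E = R_E`, and the generators `j_d` are units. -/
def VinfBasicStatement : Prop :=
  ∀ N : ℕ, N ≠ 0 → IsDiscreteValuationRing (_root_.Fermat.Agent.A2.Mod.RE P E) → Irreducible w →
    ∀ V : ValuationSubring (_root_.Fermat.Agent.A2.Mod.FE E N), IsVinf P E N V →
      H48.IsUnif V (cE P E N w) ∧
      (∀ e : E, algebraMap E (_root_.Fermat.Agent.A2.Mod.FE E N) e ∈ V ↔ e ∈ _root_.Fermat.Agent.A2.Mod.RE P E) ∧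
      ∀ (d : ℕ) [NeZero d] (hd : d ∣ N), jE E N d hd ∈ V ∧ (jE E N d hd)⁻¹ ∈ V

/-- **L3.** Gauss property for every "polar" element: if `u ∈ F_N` is the image of an `R`-integral
series `t^{-a}(c + …)`, `a > 0`, `c` a unit of `R`, then every `p ∈ R[X]` not divisible by `w`
gives a unit `p(u)` of `V∞`.  (Applied to `u = x`, `W x`, and with `V∞ ∋ u⁻¹`.) -/
def VinfGaussStatement : Prop :=
  ∀ N : ℕ, N ≠ 0 → IsDiscreteValuationRing (_root_.Fermat.Agent.A2.Mod.RE P E) → Irreducible w →
    ∀ V : ValuationSubring (_root_.Fermat.Agent.A2.Mod.FE E N), IsVinf P E N V →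
    ∀ (u : _root_.Fermat.Agent.A2.Mod.FE E N) (U : LaurentSeries (_root_.Fermat.Agent.A2.Mod.RE P E)) (a : ℕ), 0 < a →
      (u : LaurentSeries E) = H708.incl (_root_.Fermat.Agent.A2.Mod.RE P E) U →
      (∀ n : ℤ, n < -(a : ℤ) → U.coeff n = 0) → IsUnit (U.coeff (-(a : ℤ))) →
      ∀ p : Polynomial (_root_.Fermat.Agent.A2.Mod.RE P E), ¬ Polynomial.C w ∣ p →
        ev P E N u p ∈ V ∧ (ev P E N u p)⁻¹ ∈ V

/-! ### L4  W: the Fricke involution at level `E` (from H528 `wF`, `wF_rat` over `Q̄`) -/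

/-- **L4.** The Fricke involution exists over `E` (restrict `H528.wF` to `E(j_d : d ∣ N)`). -/
def FrickeExistsStatement : Prop :=
  ∀ N : ℕ, N ≠ 0 → ∃ W : _root_.Fermat.Agent.A2.Mod.FE E N ≃ₐ[E] _root_.Fermat.Agent.A2.Mod.FE E N, IsFricke E N W

/-- **L5.** Compatibility of Fricke involutions of levels `M` and `Mq` with `α`, `β`:
`W_N ∘ α = β ∘ W_M` and `W_N ∘ β = α ∘ W_M`. -/
def FrickeCompatStatement : Prop :=
  ∀ (WM : _root_.Fermat.Agent.A2.Mod.FE E M ≃ₐ[E] _root_.Fermat.Agent.A2.Mod.FE E M) (WN : _root_.Fermat.Agent.A2.Mod.FE E (M * q) ≃ₐ[E] _root_.Fermat.Agent.A2.Mod.FE E (M * q)),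
    IsFricke E M WM → IsFricke E (M * q) WN →
    ∀ f : _root_.Fermat.Agent.A2.Mod.FE E M, WN (αE E M q f) = βE E M q (WM f) ∧ WN (βE E M q f) = αE E M q (WM f)

/-- **L6.** `V₀ := V∞ ∘ W ≠ V∞` at level `Mq` (level-`E` form of `H528.comapW_ne`). -/
def VzeroNeStatement : Prop :=
  Setting P E M q w →
    ∀ (V : ValuationSubring (_root_.Fermat.Agent.A2.Mod.FE E (M * q))) (W : _root_.Fermat.Agent.A2.Mod.FE E (M * q) ≃ₐ[E] _root_.Fermat.Agent.A2.Mod.FE E (M * q)),
      IsVinf P E (M * q) V → IsFricke E (M * q) W →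
      V.comap (W : _root_.Fermat.Agent.A2.Mod.FE E (M * q) →+* _root_.Fermat.Agent.A2.Mod.FE E (M * q)) ≠ V

/-- **L7.** At level `M` (good reduction) the Fricke involution preserves `V∞`
(uniqueness of the extension of the Gauss valuation of `E(j)`: residue degree `ψ(M)` = degree). -/
def FrickeStableStatement : Prop :=
  Setting P E M q w →
    ∀ (V : ValuationSubring (_root_.Fermat.Agent.A2.Mod.FE E M)) (W : _root_.Fermat.Agent.A2.Mod.FE E M ≃ₐ[E] _root_.Fermat.Agent.A2.Mod.FE E M),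
      IsVinf P E M V → IsFricke E M W → ∀ f ∈ V, W f ∈ V

/-! ### L8–L10  degrees and residue independence (from `S28.CoreData M k`, on main) -/

/-- **L8.** `[F_{Mq} : E(x)] = 2 (q+1) ψ(M)`, `x` transcendental over `E`,
and `E` is algebraically closed in `F_{Mq}`. -/
def DegStatement : Prop :=
  q.Prime → ¬ q ∣ M →
    Transcendental E (xE E M q) ∧
    Module.finrank (IntermediateField.adjoin E ({xE E M q} : Set (_root_.Fermat.Agent.A2.Mod.FE E (M * q))))
      (_root_.Fermat.Agent.A2.Mod.FE E (M * q)) = 2 * ((q + 1) * dedekindPsi M) ∧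
    ∀ f : _root_.Fermat.Agent.A2.Mod.FE E (M * q), IsAlgebraic E f → f ∈ (algebraMap E (_root_.Fermat.Agent.A2.Mod.FE E (M * q))).range

/-- **L9.** Residue independence on `C∞`: there are `(q+1) ψ(M)` elements of `α(V∞_M)·j^a`
(`bᵢ = α(yᵢ) j^a`, `yᵢ` the `ψ(M)` monomials of `S28.CoreData M k`, `0 ≤ a ≤ q`) in `V∞`
whose residues are independent over `k[x̄]`, `x̄ = j̄^(q+1)`. -/
def IndInfStatement : Prop :=
  Setting P E M q w →
    ∀ V : ValuationSubring (_root_.Fermat.Agent.A2.Mod.FE E (M * q)), IsVinf P E (M * q) V →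
      ∃ b : Fin ((q + 1) * dedekindPsi M) → _root_.Fermat.Agent.A2.Mod.FE E (M * q),
        (∀ i, b i ∈ V) ∧ IndepMod P E (M * q) V w (xE E M q) b

/-- **L10.** Residue independence on `C₀`: the same for `V₀ = V∞ ∘ W`
(`cᵢ = β(yᵢ') j_q^a`; apply `W` and use L7 at level `M`). -/
def IndZeroStatement : Prop :=
  Setting P E M q w →
    ∀ (V : ValuationSubring (_root_.Fermat.Agent.A2.Mod.FE E (M * q))) (W : _root_.Fermat.Agent.A2.Mod.FE E (M * q) ≃ₐ[E] _root_.Fermat.Agent.A2.Mod.FE E (M * q)),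
      IsVinf P E (M * q) V → IsFricke E (M * q) W →
      ∃ c : Fin ((q + 1) * dedekindPsi M) → _root_.Fermat.Agent.A2.Mod.FE E (M * q),
        (∀ i, W (c i) ∈ V) ∧
        IndepMod P E (M * q) (V.comap (W : _root_.Fermat.Agent.A2.Mod.FE E (M * q) →+* _root_.Fermat.Agent.A2.Mod.FE E (M * q))) w (xE E M q) c

/-! ### L11–L12  residue fields and Kronecker (semilinear form, `k` perfect) -/

/-- **L11.** Residue degree one over level `M` on `C∞`: every element of `V∞` (level `Mq`) is
congruent modulo `w V∞` to `α g`, `g ∈ V∞_M`. -/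
def ResInfStatement : Prop :=
  Setting P E M q w →
    ∀ (VM : ValuationSubring (_root_.Fermat.Agent.A2.Mod.FE E M)) (V : ValuationSubring (_root_.Fermat.Agent.A2.Mod.FE E (M * q))),
      IsVinf P E M VM → IsVinf P E (M * q) V →
      ∀ f ∈ V, ∃ g ∈ VM, InW P E (M * q) V w (f - αE E M q g)

/-- **L12.** Kronecker congruence, semilinear form: for `a ∈ V∞_M` there is `a' ∈ V∞_M`
(`ā' = ā` with coefficients twisted by the inverse Frobenius of `k`) with
`β a ≡ (α a')^q mod w V∞`.  (On `C₀` the swapped congruence follows from L5 and L7.) -/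
def KronStatement : Prop :=
  Setting P E M q w →
    ∀ (VM : ValuationSubring (_root_.Fermat.Agent.A2.Mod.FE E M)) (V : ValuationSubring (_root_.Fermat.Agent.A2.Mod.FE E (M * q))),
      IsVinf P E M VM → IsVinf P E (M * q) V →
      ∀ a ∈ VM, ∃ a' ∈ VM, InW P E (M * q) V w (βE E M q a - (αE E M q a') ^ q)

/-! ### L13  chart compatibility (from `S28.ModPolyData q`, on main) -/

/-- **L13.** `j, j_q` are integral over `ℤ[x]` and `1/j, 1/j_q` are integral over `ℤ[1/x]`,
`x = j j_q` (monicity of `Φ_q` in each variable suffices). -/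
def ChartCompatStatement : Prop :=
  q.Prime →
    (jE E (M * q) 1 (one_dvd _) ∈ chart P E (M * q) (xE E M q)) ∧
    (jE E (M * q) q (dvd_mul_left q M) ∈ chart P E (M * q) (xE E M q)) ∧
    ((jE E (M * q) 1 (one_dvd _))⁻¹ ∈ chart P E (M * q) (xE E M q)⁻¹) ∧
    ((jE E (M * q) q (dvd_mul_left q M))⁻¹ ∈ chart P E (M * q) (xE E M q)⁻¹)

/-! ### L14  inertia acts trivially on both residue fields -/

/-- The restriction to `E` of an automorphism of `Q̄` stabilising `E`. -/
def resE (τ : _root_.Fermat.Agent.A2.Mod.Qb ≃ₐ[ℚ] _root_.Fermat.Agent.A2.Mod.Qb) (hτ : ∀ e : _root_.Fermat.Agent.A2.Mod.Qb, e ∈ E → τ e ∈ E ∧ τ.symm e ∈ E) : E ≃ₐ[ℚ] E :=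
  AlgEquiv.ofBijective
    { toFun := fun e => ⟨τ (e : _root_.Fermat.Agent.A2.Mod.Qb), (hτ e e.2).1⟩
      map_one' := Subtype.ext (map_one τ)
      map_mul' := fun a b => Subtype.ext (map_mul τ (a : _root_.Fermat.Agent.A2.Mod.Qb) (b : _root_.Fermat.Agent.A2.Mod.Qb))
      map_zero' := Subtype.ext (map_zero τ)
      map_add' := fun a b => Subtype.ext (map_add τ (a : _root_.Fermat.Agent.A2.Mod.Qb) (b : _root_.Fermat.Agent.A2.Mod.Qb))
      commutes' := fun r => Subtype.ext (τ.commutes r) }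
    ⟨fun a b hab => Subtype.ext (τ.injective (congrArg Subtype.val hab)),
      fun b => ⟨⟨τ.symm (b : _root_.Fermat.Agent.A2.Mod.Qb), (hτ b b.2).2⟩, Subtype.ext (τ.apply_symm_apply (b : _root_.Fermat.Agent.A2.Mod.Qb))⟩⟩

/-- **L14.** For `τ` in the inertia group of `P` stabilising `E`: `τ` stabilises `V∞` and `V₀`,
acts trivially on both residue fields, and commutes with `W`. -/
def InertiaStatement : Prop :=
  ∀ N : ℕ, N ≠ 0 → IsDiscreteValuationRing (_root_.Fermat.Agent.A2.Mod.RE P E) → Irreducible w →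
    ∀ (V : ValuationSubring (_root_.Fermat.Agent.A2.Mod.FE E N)) (W : _root_.Fermat.Agent.A2.Mod.FE E N ≃ₐ[E] _root_.Fermat.Agent.A2.Mod.FE E N),
      IsVinf P E N V → IsFricke E N W →
      ∀ (τ : _root_.Fermat.Agent.A2.Mod.Qb ≃ₐ[ℚ] _root_.Fermat.Agent.A2.Mod.Qb) (hτ : ∀ e : _root_.Fermat.Agent.A2.Mod.Qb, e ∈ E → τ e ∈ E ∧ τ.symm e ∈ E),
        τ ∈ P.inertiaSubgroupIn ℚ →
        (∀ f : _root_.Fermat.Agent.A2.Mod.FE E N, arithmeticRingAut (modularFunctionFieldFull N) (resE E τ hτ) (W f) =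
          W (arithmeticRingAut (modularFunctionFieldFull N) (resE E τ hτ) f)) ∧
        ∀ f ∈ V, InW P E N V w
          (arithmeticRingAut (modularFunctionFieldFull N) (resE E τ hτ) f - f)

/-! ### HYPOTHESIS at level `M` (output of S18 b2 — NOT a leaf of MOD) -/

/-- **Good reduction at level `M`** in the chart of the coordinate `y` (`y = j` and `y = j⁻¹`),
elementwise: (qep) `B_M ∩ w V∞ = w B_M`; (normal) the image of `B_M` in the residue field of `V∞`
is integrally closed in it, i.e. `B_M / w B_M` is a normal domain with fraction field `κ(V∞)`. -/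
structure GoodRedAt (VM : ValuationSubring (_root_.Fermat.Agent.A2.Mod.FE E M)) (y : _root_.Fermat.Agent.A2.Mod.FE E M) : Prop where
  qep : ∀ b ∈ chart P E M y, InW P E M VM w b → b * (cE P E M w)⁻¹ ∈ chart P E M y
  normal : ∀ f ∈ VM,
    (∃ (n : ℕ) (c : Fin n → _root_.Fermat.Agent.A2.Mod.FE E M), (∀ i, c i ∈ chart P E M y) ∧
      InW P E M VM w (f ^ n + ∑ i : Fin n, c i * f ^ (i : ℕ))) →
    ∃ b ∈ chart P E M y, InW P E M VM w (f - b)

end Leaves

end Fermat.Agent.A2.Mod

end

end
-- ===== PACK-END A2/Mod/Spec.lean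

-- ===== PACK-BEGIN A2/Mod/Asm.lean
section



/-!
# WALL A2 / MODASM — sub-assemblies and the top assembly (row-lead helper13)

`Fermat/Agent/A2/Mod/Spec.lean` (deputy helper994) freezes the concrete leaves L1–L14 and the
level-`M` hypothesis `GoodRedAt`.  This file freezes the five SUB-ASSEMBLIES which turn the leaves
into the fields of `ModSSData` (`ModDefs.lean`), and proves the top assembly
`modSSData_of_parts` (sorry-free).

Objects (level `N = M * q`, coordinate `x = j · j_q`):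

* `chartAlg P E N y` : the chart of the coordinate `y` as a subalgebra
  (`Bf = chartAlg x`, `Bi = chartAlg x⁻¹`);
* `IsCut P E N w V B p` : `p = B ∩ w V` (the component of the special fibre of `B` cut out by
  the valuation ring `V`).

Sub-assemblies (each ONE `Prop`; prove `theorem foo : FooStatement P E M q w` in
`Fermat/Agent/A2/Mod/H<seat>/*.lean`):

* `S1Statement` (two components): for `y ∈ {x, x⁻¹}` there are primes `p∞ = B ∩ w V∞`,
  `p₀ = B ∩ w V₀`, incomparable, with `p∞ ⊓ p₀ = (w)`.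
  [H48 `GaussPair.qep2` from L2, L3, L6, L8, L9, L10; incomparability from `H48.exists_approx`.]
* `S2Statement` (components normal): `B ⧸ p∞`, `B ⧸ p₀` are integrally closed.
  [M4: L11, L13, `GoodRedAt`; `B = α(B_M) + p∞`, `B = β(B_M) + p₀` (L5, L7 for the second).
  NOTE: at infinity `B` is integral over `α(B_M)` only MODULO `p∞` (`1/j_q ≡ (1/j)^q`).]
* `S3Statement` (ordinary double points): `(p∞ ⊔ p₀).IsRadical`.
  [H372 `KronCong.sup_isRadical_of_isDedekindDomain` from L12 (+ L5, L7), S2.]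
* `S4Statement` (`SepCoord`, ROUTE G ONLY).
* `StauStatement` (inertia): `τ x = x`, `τ b - b ∈ w B` on both charts.  [L14 + S1.]
-/

set_option autoImplicit false
set_option linter.unusedSectionVars false
set_option synthInstance.maxHeartbeats 400000
set_option maxHeartbeats 1600000

noncomputable section

namespace Fermat.Agent.A2.Mod

open ModularCurve HahnSeries Polynomial

section Objects

variable (P : ValuationSubring _root_.Fermat.Agent.A2.Mod.Qb) (E : IntermediateField ℚ _root_.Fermat.Agent.A2.Mod.Qb) (N : ℕ)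

/-- The chart of the coordinate `y` as a subalgebra of `F_{N,E}`: the integral closure of
`R_E[y]`. -/
def chartAlg (y : _root_.Fermat.Agent.A2.Mod.FE E N) : Subalgebra (_root_.Fermat.Agent.A2.Mod.RE P E) (_root_.Fermat.Agent.A2.Mod.FE E N) :=
  (integralClosure (Algebra.adjoin (_root_.Fermat.Agent.A2.Mod.RE P E) ({y} : Set (_root_.Fermat.Agent.A2.Mod.FE E N))) (_root_.Fermat.Agent.A2.Mod.FE E N)).restrictScalars
    (_root_.Fermat.Agent.A2.Mod.RE P E)

theorem mem_chartAlg {y f : _root_.Fermat.Agent.A2.Mod.FE E N} :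
    f ∈ chartAlg P E N y ↔ IsIntegral (Algebra.adjoin (_root_.Fermat.Agent.A2.Mod.RE P E) ({y} : Set (_root_.Fermat.Agent.A2.Mod.FE E N))) f :=
  Iff.rfl

/-- `p = B ∩ w V`. -/
def IsCut (w : _root_.Fermat.Agent.A2.Mod.RE P E) (V : ValuationSubring (_root_.Fermat.Agent.A2.Mod.FE E N)) (B : Subalgebra (_root_.Fermat.Agent.A2.Mod.RE P E) (_root_.Fermat.Agent.A2.Mod.FE E N))
    (p : Ideal B) : Prop :=
  ∀ b : B, b ∈ p ↔ InW P E N V w (b : _root_.Fermat.Agent.A2.Mod.FE E N)

end Objects

section SubAssemblies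

variable (P : ValuationSubring _root_.Fermat.Agent.A2.Mod.Qb) (E : IntermediateField ℚ _root_.Fermat.Agent.A2.Mod.Qb) (M q : ℕ) [NeZero M] [NeZero q]
  (w : _root_.Fermat.Agent.A2.Mod.RE P E)

/-- `y` is one of the two coordinates `x`, `x⁻¹` of level `M * q`. -/
def IsCoord (y : _root_.Fermat.Agent.A2.Mod.FE E (M * q)) : Prop := y = xE E M q ∨ y = (xE E M q)⁻¹

/-- The level-`M` coordinate attached to a level-`Mq` coordinate: `j` for `x`, `j⁻¹` for `x⁻¹`. -/
def IsCoordPair (yM : _root_.Fermat.Agent.A2.Mod.FE E M) (y : _root_.Fermat.Agent.A2.Mod.FE E (M * q)) : Prop :=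
  (yM = jE E M 1 (one_dvd _) ∧ y = xE E M q) ∨
    (yM = (jE E M 1 (one_dvd _))⁻¹ ∧ y = (xE E M q)⁻¹)

/-- **S1 (two components).** -/
def S1Statement : Prop :=
  Setting P E M q w →
    ∀ (V : ValuationSubring (_root_.Fermat.Agent.A2.Mod.FE E (M * q))) (W : _root_.Fermat.Agent.A2.Mod.FE E (M * q) ≃ₐ[E] _root_.Fermat.Agent.A2.Mod.FE E (M * q)),
      IsVinf P E (M * q) V → IsFricke E (M * q) W →
      ∀ y : _root_.Fermat.Agent.A2.Mod.FE E (M * q), IsCoord E M q y →
        ∃ p₁ p₂ : Ideal (chartAlg P E (M * q) y),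
          IsCut P E (M * q) w V (chartAlg P E (M * q) y) p₁ ∧
          IsCut P E (M * q) w (V.comap (W : _root_.Fermat.Agent.A2.Mod.FE E (M * q) →+* _root_.Fermat.Agent.A2.Mod.FE E (M * q)))
            (chartAlg P E (M * q) y) p₂ ∧
          p₁.IsPrime ∧ p₂.IsPrime ∧ ¬ p₁ ≤ p₂ ∧ ¬ p₂ ≤ p₁ ∧
          p₁ ⊓ p₂ = Ideal.span {algebraMap (_root_.Fermat.Agent.A2.Mod.RE P E) (chartAlg P E (M * q) y) w}

/-- **S2 (components normal)**, given good reduction at level `M` in the corresponding chart. -/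
def S2Statement : Prop :=
  Setting P E M q w →
    ∀ (VM : ValuationSubring (_root_.Fermat.Agent.A2.Mod.FE E M)) (V : ValuationSubring (_root_.Fermat.Agent.A2.Mod.FE E (M * q)))
      (W : _root_.Fermat.Agent.A2.Mod.FE E (M * q) ≃ₐ[E] _root_.Fermat.Agent.A2.Mod.FE E (M * q)),
      IsVinf P E M VM → IsVinf P E (M * q) V → IsFricke E (M * q) W →
      ∀ (yM : _root_.Fermat.Agent.A2.Mod.FE E M) (y : _root_.Fermat.Agent.A2.Mod.FE E (M * q)), IsCoordPair E M q yM y →
        GoodRedAt P E M w VM yM →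
        ∀ p₁ p₂ : Ideal (chartAlg P E (M * q) y),
          IsCut P E (M * q) w V (chartAlg P E (M * q) y) p₁ →
          IsCut P E (M * q) w (V.comap (W : _root_.Fermat.Agent.A2.Mod.FE E (M * q) →+* _root_.Fermat.Agent.A2.Mod.FE E (M * q)))
            (chartAlg P E (M * q) y) p₂ →
          IsIntegrallyClosed (chartAlg P E (M * q) y ⧸ p₁) ∧
          IsIntegrallyClosed (chartAlg P E (M * q) y ⧸ p₂)

/-- **S3 (ordinary double points)**, given good reduction at level `M`. -/
def S3Statement : Prop :=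
  Setting P E M q w →
    ∀ (VM : ValuationSubring (_root_.Fermat.Agent.A2.Mod.FE E M)) (V : ValuationSubring (_root_.Fermat.Agent.A2.Mod.FE E (M * q)))
      (W : _root_.Fermat.Agent.A2.Mod.FE E (M * q) ≃ₐ[E] _root_.Fermat.Agent.A2.Mod.FE E (M * q)),
      IsVinf P E M VM → IsVinf P E (M * q) V → IsFricke E (M * q) W →
      ∀ (yM : _root_.Fermat.Agent.A2.Mod.FE E M) (y : _root_.Fermat.Agent.A2.Mod.FE E (M * q)), IsCoordPair E M q yM y →
        GoodRedAt P E M w VM yM →
        ∀ p₁ p₂ : Ideal (chartAlg P E (M * q) y),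
          IsCut P E (M * q) w V (chartAlg P E (M * q) y) p₁ →
          IsCut P E (M * q) w (V.comap (W : _root_.Fermat.Agent.A2.Mod.FE E (M * q) →+* _root_.Fermat.Agent.A2.Mod.FE E (M * q)))
            (chartAlg P E (M * q) y) p₂ →
          (p₁ ⊔ p₂).IsRadical

/-- **S4 (separating coordinate; route G only).** -/
def S4Statement : Prop :=
  Setting P E M q w →
    ∀ (VM : ValuationSubring (_root_.Fermat.Agent.A2.Mod.FE E M)), IsVinf P E M VM →
      GoodRedAt P E M w VM (jE E M 1 (one_dvd _)) →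
      GoodRedAt P E M w VM (jE E M 1 (one_dvd _))⁻¹ →
      SepCoord (_root_.Fermat.Agent.A2.Mod.RE P E) E (xE E M q) (chartAlg P E (M * q) (xE E M q)) ∧
        SepCoord (_root_.Fermat.Agent.A2.Mod.RE P E) E (xE E M q)⁻¹ (chartAlg P E (M * q) (xE E M q)⁻¹)

/-- **Sτ (inertia acts trivially on the special fibre of both charts).** -/
def StauStatement : Prop :=
  Setting P E M q w →
    ∀ (τ : _root_.Fermat.Agent.A2.Mod.Qb ≃ₐ[ℚ] _root_.Fermat.Agent.A2.Mod.Qb) (τE : E ≃ₐ[ℚ] E), τ ∈ P.inertiaSubgroupIn ℚ →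
      (∀ e : E, ((τE e : E) : _root_.Fermat.Agent.A2.Mod.Qb) = τ (e : _root_.Fermat.Agent.A2.Mod.Qb)) →
      arithmeticRingAut (modularFunctionFieldFull (M * q)) τE (xE E M q) = xE E M q ∧
      ∀ y : _root_.Fermat.Agent.A2.Mod.FE E (M * q), IsCoord E M q y → ∀ b ∈ chartAlg P E (M * q) y,
        ∃ c ∈ chartAlg P E (M * q) y,
          arithmeticRingAut (modularFunctionFieldFull (M * q)) τE b - b =
            algebraMap (_root_.Fermat.Agent.A2.Mod.RE P E) (_root_.Fermat.Agent.A2.Mod.FE E (M * q)) w * c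

end SubAssemblies

section Top

variable (P : ValuationSubring _root_.Fermat.Agent.A2.Mod.Qb) (E : IntermediateField ℚ _root_.Fermat.Agent.A2.Mod.Qb) (M q : ℕ) [NeZero M] [NeZero q]

/-- The level-`M` hypothesis of MODASM (output of S18 b2): good reduction at level `M` in the
two charts of the coordinate `j`. -/
def GoodRedHyp : Prop :=
  ∀ (w : _root_.Fermat.Agent.A2.Mod.RE P E) (VM : ValuationSubring (_root_.Fermat.Agent.A2.Mod.FE E M)), Irreducible w → IsVinf P E M VM →
    GoodRedAt P E M w VM (jE E M 1 (one_dvd _)) ∧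
      GoodRedAt P E M w VM (jE E M 1 (one_dvd _))⁻¹

/-- The semistable chart `SSChart w (chartAlg y)` from S1, S2, S3. -/
theorem nonempty_ssChart (w : _root_.Fermat.Agent.A2.Mod.RE P E) (hS : Setting P E M q w)
    (hS1 : S1Statement P E M q w) (hS2 : S2Statement P E M q w) (hS3 : S3Statement P E M q w)
    (VM : ValuationSubring (_root_.Fermat.Agent.A2.Mod.FE E M)) (V : ValuationSubring (_root_.Fermat.Agent.A2.Mod.FE E (M * q)))
    (W : _root_.Fermat.Agent.A2.Mod.FE E (M * q) ≃ₐ[E] _root_.Fermat.Agent.A2.Mod.FE E (M * q))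
    (hVM : IsVinf P E M VM) (hV : IsVinf P E (M * q) V) (hW : IsFricke E (M * q) W)
    (yM : _root_.Fermat.Agent.A2.Mod.FE E M) (y : _root_.Fermat.Agent.A2.Mod.FE E (M * q)) (hy : IsCoordPair E M q yM y)
    (hgood : GoodRedAt P E M w VM yM) :
    Nonempty (SSChart w (chartAlg P E (M * q) y)) := by
  have hy' : IsCoord E M q y := by
    rcases hy with ⟨-, h⟩ | ⟨-, h⟩
    · exact Or.inl h
    · exact Or.inr h
  obtain ⟨p₁, p₂, hc₁, hc₂, hp₁, hp₂, h₁₂, h₂₁, hinf⟩ := hS1 hS V W hV hW y hy'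
  obtain ⟨hn₁, hn₂⟩ := hS2 hS VM V W hVM hV hW yM y hy hgood p₁ p₂ hc₁ hc₂
  have hrad := hS3 hS VM V W hVM hV hW yM y hy hgood p₁ p₂ hc₁ hc₂
  exact ⟨{ p₁ := p₁
           p₂ := p₂
           prime₁ := hp₁
           prime₂ := hp₂
           ne := fun h => h₁₂ (h ▸ le_refl p₁)
           not_le₁₂ := h₁₂
           not_le₂₁ := h₂₁
           inf_eq := hinf
           normal₁ := hn₁
           normal₂ := hn₂
           transversal := hrad }⟩

theorem dedekindPsi_pos_of_ne_zero (n : ℕ) (hn : n ≠ 0) : 0 < dedekindPsi n := by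
  unfold dedekindPsi
  have h1 : (1 : ℕ) ∈ n.divisors.filter (fun d => Squarefree d) := by
    simp [hn]
  calc 0 < n / 1 := by simpa using Nat.pos_of_ne_zero hn
    _ ≤ _ := Finset.single_le_sum (f := fun d => n / d) (fun _ _ => Nat.zero_le _) h1

/-- **MODASM, top assembly** (level `M * q`): the leaves L1, L4, L8, the sub-assemblies S1–S4,
Sτ and the level-`M` hypothesis `GoodRedHyp` give the semistable model `ModSSData`. -/
theorem modSSData_of_parts (hq : q.Prime) (hqM : ¬ q ∣ M) (hP : P.LiesOverPrime q)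
    (hdvr : IsDiscreteValuationRing (_root_.Fermat.Agent.A2.Mod.RE P E))
    (hVM : ∃ VM : ValuationSubring (_root_.Fermat.Agent.A2.Mod.FE E M), IsVinf P E M VM)
    (hV : ∃ V : ValuationSubring (_root_.Fermat.Agent.A2.Mod.FE E (M * q)), IsVinf P E (M * q) V)
    (hW : ∃ W : _root_.Fermat.Agent.A2.Mod.FE E (M * q) ≃ₐ[E] _root_.Fermat.Agent.A2.Mod.FE E (M * q), IsFricke E (M * q) W)
    (hDeg : DegStatement E M q)
    (hS1 : ∀ w, S1Statement P E M q w) (hS2 : ∀ w, S2Statement P E M q w)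
    (hS3 : ∀ w, S3Statement P E M q w) (hS4 : ∀ w, S4Statement P E M q w)
    (hSτ : ∀ w, StauStatement P E M q w)
    (hgood : GoodRedHyp P E M) :
    Nonempty (ModSSData P E (M * q)) := by
  obtain ⟨VM, hVM⟩ := hVM
  obtain ⟨V, hV⟩ := hV
  obtain ⟨W, hW⟩ := hW
  obtain ⟨hx, hfr, hconst⟩ := hDeg hq hqM
  have hS : ∀ w : _root_.Fermat.Agent.A2.Mod.RE P E, Irreducible w → Setting P E M q w := fun w hw =>
    { q_prime := hq
      q_not_dvd := hqM
      M_ne_zero := NeZero.ne M
      lies_over := hP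
      dvr := hdvr
      unif := hw }
  obtain ⟨w₀, hw₀⟩ := IsDiscreteValuationRing.exists_irreducible (_root_.Fermat.Agent.A2.Mod.RE P E)
  have hpos : 0 < Module.finrank (IntermediateField.adjoin E ({xE E M q} : Set (_root_.Fermat.Agent.A2.Mod.FE E (M * q))))
      (_root_.Fermat.Agent.A2.Mod.FE E (M * q)) := by
    rw [hfr]
    have h1 := dedekindPsi_pos_of_ne_zero M (NeZero.ne M)
    positivity
  have hfin : FiniteDimensional (IntermediateField.adjoin E ({xE E M q} : Set (_root_.Fermat.Agent.A2.Mod.FE E (M * q))))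
      (_root_.Fermat.Agent.A2.Mod.FE E (M * q)) := Module.finite_of_finrank_pos hpos
  have hg₀ := hgood w₀ VM hw₀ hVM
  have hsep := hS4 w₀ (hS w₀ hw₀) VM hVM hg₀.1 hg₀.2
  exact ⟨{ x := xE E M q
           hx := hx
           hfin := hfin
           hconst := hconst
           Bf := chartAlg P E (M * q) (xE E M q)
           Bi := chartAlg P E (M * q) (xE E M q)⁻¹
           hBf := fun _ => Iff.rfl
           hBi := fun _ => Iff.rfl
           cf := fun w hw => nonempty_ssChart P E M q w (hS w hw) (hS1 w) (hS2 w) (hS3 w)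
             VM V W hVM hV hW _ _ (Or.inl ⟨rfl, rfl⟩) (hgood w VM hw hVM).1
           ci := fun w hw => nonempty_ssChart P E M q w (hS w hw) (hS1 w) (hS2 w) (hS3 w)
             VM V W hVM hV hW _ _ (Or.inr ⟨rfl, rfl⟩) (hgood w VM hw hVM).2
           sf := hsep.1
           si := hsep.2
           hτx := fun hE τ hτ => ((hSτ w₀) (hS w₀ hw₀) τ (hE.res τ hτ) hτ (fun _ => rfl)).1
           hτf := fun hE τ hτ w hw b hb =>
             ((hSτ w) (hS w hw) τ (hE.res τ hτ) hτ (fun _ => rfl)).2 _ (Or.inl rfl) b hb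
           hτi := fun hE τ hτ w hw b hb =>
             ((hSτ w) (hS w hw) τ (hE.res τ hτ) hτ (fun _ => rfl)).2 _ (Or.inr rfl) b hb }⟩

/-- **MODASM, top assembly without `SepCoord`** (route S; shape of the hypothesis `hMOD` of
`T1.H849.kummerTarget_of_parts_of` with `SS := SSChart`, `Sep := True`). -/
theorem exists_model_of_parts (hq : q.Prime) (hqM : ¬ q ∣ M) (hP : P.LiesOverPrime q)
    (hdvr : IsDiscreteValuationRing (_root_.Fermat.Agent.A2.Mod.RE P E))
    (hVM : ∃ VM : ValuationSubring (_root_.Fermat.Agent.A2.Mod.FE E M), IsVinf P E M VM)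
    (hV : ∃ V : ValuationSubring (_root_.Fermat.Agent.A2.Mod.FE E (M * q)), IsVinf P E (M * q) V)
    (hW : ∃ W : _root_.Fermat.Agent.A2.Mod.FE E (M * q) ≃ₐ[E] _root_.Fermat.Agent.A2.Mod.FE E (M * q), IsFricke E (M * q) W)
    (hDeg : DegStatement E M q)
    (hS1 : ∀ w, S1Statement P E M q w) (hS2 : ∀ w, S2Statement P E M q w)
    (hS3 : ∀ w, S3Statement P E M q w) (hSτ : ∀ w, StauStatement P E M q w)
    (hgood : GoodRedHyp P E M) :
    ∃ (x : _root_.Fermat.Agent.A2.Mod.FE E (M * q)) (Bf Bi : Subalgebra (_root_.Fermat.Agent.A2.Mod.RE P E) (_root_.Fermat.Agent.A2.Mod.FE E (M * q))),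
      Transcendental E x ∧
      FiniteDimensional (IntermediateField.adjoin E ({x} : Set (_root_.Fermat.Agent.A2.Mod.FE E (M * q)))) (_root_.Fermat.Agent.A2.Mod.FE E (M * q)) ∧
      (∀ f : _root_.Fermat.Agent.A2.Mod.FE E (M * q), IsAlgebraic E f → f ∈ (algebraMap E (_root_.Fermat.Agent.A2.Mod.FE E (M * q))).range) ∧
      (∀ f : _root_.Fermat.Agent.A2.Mod.FE E (M * q), f ∈ Bf ↔
        IsIntegral (Algebra.adjoin (_root_.Fermat.Agent.A2.Mod.RE P E) ({x} : Set (_root_.Fermat.Agent.A2.Mod.FE E (M * q)))) f) ∧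
      (∀ f : _root_.Fermat.Agent.A2.Mod.FE E (M * q), f ∈ Bi ↔
        IsIntegral (Algebra.adjoin (_root_.Fermat.Agent.A2.Mod.RE P E) ({x⁻¹} : Set (_root_.Fermat.Agent.A2.Mod.FE E (M * q)))) f) ∧
      (∀ w : _root_.Fermat.Agent.A2.Mod.RE P E, Irreducible w → Nonempty (SSChart w Bf)) ∧
      (∀ w : _root_.Fermat.Agent.A2.Mod.RE P E, Irreducible w → Nonempty (SSChart w Bi)) ∧
      (∀ τ ∈ P.inertiaSubgroupIn ℚ, ∀ τE : E ≃ₐ[ℚ] E,
        (∀ e : E, ((τE e : E) : _root_.Fermat.Agent.A2.Mod.Qb) = τ (e : _root_.Fermat.Agent.A2.Mod.Qb)) →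
        arithmeticRingAut (modularFunctionFieldFull (M * q)) τE x = x) ∧
      (∀ τ ∈ P.inertiaSubgroupIn ℚ, ∀ τE : E ≃ₐ[ℚ] E,
        (∀ e : E, ((τE e : E) : _root_.Fermat.Agent.A2.Mod.Qb) = τ (e : _root_.Fermat.Agent.A2.Mod.Qb)) →
        ∀ w : _root_.Fermat.Agent.A2.Mod.RE P E, Irreducible w → ∀ b ∈ Bf, ∃ c ∈ Bf,
          arithmeticRingAut (modularFunctionFieldFull (M * q)) τE b - b =
            algebraMap (_root_.Fermat.Agent.A2.Mod.RE P E) (_root_.Fermat.Agent.A2.Mod.FE E (M * q)) w * c) ∧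
      (∀ τ ∈ P.inertiaSubgroupIn ℚ, ∀ τE : E ≃ₐ[ℚ] E,
        (∀ e : E, ((τE e : E) : _root_.Fermat.Agent.A2.Mod.Qb) = τ (e : _root_.Fermat.Agent.A2.Mod.Qb)) →
        ∀ w : _root_.Fermat.Agent.A2.Mod.RE P E, Irreducible w → ∀ b ∈ Bi, ∃ c ∈ Bi,
          arithmeticRingAut (modularFunctionFieldFull (M * q)) τE b - b =
            algebraMap (_root_.Fermat.Agent.A2.Mod.RE P E) (_root_.Fermat.Agent.A2.Mod.FE E (M * q)) w * c) := by
  obtain ⟨VM, hVM⟩ := hVM
  obtain ⟨V, hV⟩ := hV
  obtain ⟨W, hW⟩ := hW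
  obtain ⟨hx, hfr, hconst⟩ := hDeg hq hqM
  have hS : ∀ w : _root_.Fermat.Agent.A2.Mod.RE P E, Irreducible w → Setting P E M q w := fun w hw =>
    { q_prime := hq
      q_not_dvd := hqM
      M_ne_zero := NeZero.ne M
      lies_over := hP
      dvr := hdvr
      unif := hw }
  obtain ⟨w₀, hw₀⟩ := IsDiscreteValuationRing.exists_irreducible (_root_.Fermat.Agent.A2.Mod.RE P E)
  have hpos : 0 < Module.finrank (IntermediateField.adjoin E ({xE E M q} : Set (_root_.Fermat.Agent.A2.Mod.FE E (M * q))))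
      (_root_.Fermat.Agent.A2.Mod.FE E (M * q)) := by
    rw [hfr]
    have h1 := dedekindPsi_pos_of_ne_zero M (NeZero.ne M)
    positivity
  have hfin : FiniteDimensional (IntermediateField.adjoin E ({xE E M q} : Set (_root_.Fermat.Agent.A2.Mod.FE E (M * q))))
      (_root_.Fermat.Agent.A2.Mod.FE E (M * q)) := Module.finite_of_finrank_pos hpos
  refine ⟨xE E M q, chartAlg P E (M * q) (xE E M q), chartAlg P E (M * q) (xE E M q)⁻¹,
    hx, hfin, hconst, fun _ => Iff.rfl, fun _ => Iff.rfl, ?_, ?_, ?_, ?_, ?_⟩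
  · exact fun w hw => nonempty_ssChart P E M q w (hS w hw) (hS1 w) (hS2 w) (hS3 w)
      VM V W hVM hV hW _ _ (Or.inl ⟨rfl, rfl⟩) (hgood w VM hw hVM).1
  · exact fun w hw => nonempty_ssChart P E M q w (hS w hw) (hS1 w) (hS2 w) (hS3 w)
      VM V W hVM hV hW _ _ (Or.inr ⟨rfl, rfl⟩) (hgood w VM hw hVM).2
  · exact fun τ hτ τE hτE => ((hSτ w₀) (hS w₀ hw₀) τ τE hτ hτE).1
  · exact fun τ hτ τE hτE w hw b hb =>
      ((hSτ w) (hS w hw) τ τE hτ hτE).2 _ (Or.inl rfl) b hb
  · exact fun τ hτ τE hτE w hw b hb =>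
      ((hSτ w) (hS w hw) τ τE hτ hτE).2 _ (Or.inr rfl) b hb

end Top

end Fermat.Agent.A2.Mod

end
end
-- ===== PACK-END A2/Mod/Asm.lean

-- ===== PACK-BEGIN S35/G/SpecLevel.lean
section




/-!
# S35, piece (G') — frozen LEVEL interfaces (architect helper450)

Finite levels `E ⊆ ℚ̄` (good for the place `A | q` in the sense of `A2.GoodField`, and stable under
the Frobenius lift `s`), `R = R_E = A ∩ E`, `w` a uniformiser, `F = F_E(M q) = A2.Mod.FE E (M * q)`,
`ψ = σ²`, `σ` = action of `s` on the coefficients.  Language of `A2/Spec`, `A2/Alg/Spec`,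
`A2/Mod/{Spec,Asm}` (all on main).

* `IFsStatement`    : `s`-stable good levels containing a given finite set.
* `LevelFrobAt`     : the Kummer form of (G') at a level `E`;  `T1FStatement` : descent `ℚ̄ → E`.
* `AlgFrobStatement`: ABSTRACT Frobenius-twisted gluing (Mathlib + `A2.SSChart` only):
                      `h` toric (`≡ m`-th powers on both components), `m ∣ div h`
                      ⟹ `ψ h / h ^ Q` is an `m`-th power.  (`Q = 1`, `ψ = τ ∈ I` is Step II of the
                      wall A2.)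
* `StableStatement`, `NodeRatStatement`, `ToricStatement`, `ModelStatement` : the modular inputs.

Definitions only (no `sorry`).  Board: `coord/S35-G-helper450.md` on `origin/helper450`.
-/

set_option autoImplicit false
set_option linter.style.haveILetI false
set_option linter.unusedSectionVars false
set_option synthInstance.maxHeartbeats 400000
set_option maxHeartbeats 1600000

noncomputable section

namespace Fermat.Agent.S35.G

open ModularCurve AlgebraicCurve

/-! ## Abstract part (Mathlib + `A2.SSChart`) -/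

section Abstract

variable {R F : Type*} [CommRing R] [Field F] [Algebra R F]

/-- `u ≡ g ^ m mod w V` for a unit `g` of `V`: the residue of `u` at `V` is an `m`-th power. -/
def PowV (w : R) (V : ValuationSubring F) (m : ℕ) (u : F) : Prop :=
  ∃ g : F, g ∈ V ∧ g⁻¹ ∈ V ∧ (u - g ^ m) * (algebraMap R F w)⁻¹ ∈ V

/-- The two components of the chart `B` are cut out by the valuation rings `V₁`, `V₂`:
`B ⊆ V_i`, `p_i = B ∩ w V_i`. -/
structure CutBy (w : R) (B : Subalgebra R F) (c : A2.SSChart w B)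
    (V₁ V₂ : ValuationSubring F) : Prop where
  le₁ : ∀ b ∈ B, b ∈ V₁
  le₂ : ∀ b ∈ B, b ∈ V₂
  cut₁ : ∀ b : B, b ∈ c.p₁ ↔ (b : F) * (algebraMap R F w)⁻¹ ∈ V₁
  cut₂ : ∀ b : B, b ∈ c.p₂ ↔ (b : F) * (algebraMap R F w)⁻¹ ∈ V₂

/-- `ψ` maps every crossing point of the two components of the chart `B` into itself. -/
def NodeStable {w : R} (B : Subalgebra R F) (c : A2.SSChart w B) (ψ : F ≃+* F) : Prop :=
  ∀ n : Ideal B, n.IsMaximal → c.p₁ ≤ n → c.p₂ ≤ n →
    ∀ b : B, b ∈ n → ∀ b' : B, (b' : F) = ψ (b : F) → b' ∈ n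

/-- **ALG-FROB (interface statement).**  Setting of `A2.AlgSSStatement` (henselian DVR `R` with
algebraically closed residue field of characteristic `q`, two semistable charts), the components
cut out by two valuation rings `V₁`, `V₂` of `F`; `ψ` a semilinear automorphism fixing the
coordinate, inducing `r ↦ r ^ Q` on the residue field of `R`, preserving `V₁`, `V₂` and every
crossing point.  Then for every `h` with `m ∣ div h` whose residues at `V₁` and `V₂` are `m`-th
powers, `ψ h / h ^ Q` is an `m`-th power. -/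
def AlgFrobStatement : Prop :=
  ∀ {R E F : Type} [CommRing R] [IsDomain R] [IsDiscreteValuationRing R] [HenselianLocalRing R]
    [IsAlgClosed (IsLocalRing.ResidueField R)]
    [Field E] [CharZero E] [Algebra R E] [IsFractionRing R E]
    [Field F] [Algebra E F] [Algebra R F] [IsScalarTower R E F]
    (w : R) (_ : Irreducible w) (q m Q : ℕ) (_ : q.Prime)
    (_ : (q : R) ∈ IsLocalRing.maximalIdeal R) (_ : 0 < m) (_ : ¬ q ∣ m)
    (x : F) (_ : Transcendental E x)
    (_ : FiniteDimensional (IntermediateField.adjoin E ({x} : Set F)) F)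
    (_ : ∀ f : F, IsAlgebraic E f → f ∈ (algebraMap E F).range)
    (Bf Bi : Subalgebra R F)
    (_ : ∀ f : F, f ∈ Bf ↔ IsIntegral (Algebra.adjoin R ({x} : Set F)) f)
    (_ : ∀ f : F, f ∈ Bi ↔ IsIntegral (Algebra.adjoin R ({x⁻¹} : Set F)) f)
    (cf : A2.SSChart w Bf) (ci : A2.SSChart w Bi)
    (_ : A2.SepCoord R E x Bf) (_ : A2.SepCoord R E x⁻¹ Bi)
    (V₁ V₂ : ValuationSubring F) (_ : CutBy w Bf cf V₁ V₂) (_ : CutBy w Bi ci V₁ V₂)
    (ψ : F ≃+* F) (ψE : E ≃+* E) (ψR : R ≃+* R)
    (_ : ∀ e : E, ψ (algebraMap E F e) = algebraMap E F (ψE e))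
    (_ : ∀ r : R, ψE (algebraMap R E r) = algebraMap R E (ψR r))
    (_ : ψ x = x)
    (_ : ∀ r : R, ψR r - r ^ Q ∈ IsLocalRing.maximalIdeal R)
    (_ : ∀ f ∈ V₁, ψ f ∈ V₁) (_ : ∀ f ∈ V₂, ψ f ∈ V₂)
    (_ : NodeStable Bf cf ψ) (_ : NodeStable Bi ci ψ),
    ∀ h : F, h ≠ 0 → A2.DivisibleDiv E m h → PowV w V₁ m h → PowV w V₂ m h →
      ∃ y : F, y ≠ 0 ∧ ψ h = y ^ m * h ^ Q

end Abstract

/-! ## Levels -/

/-- `E` is stable under `s` and `s⁻¹`. -/
abbrev StableUnder (E : IntermediateField ℚ Qb) (s : Qb ≃ₐ[ℚ] Qb) : Prop :=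
  ∀ e : Qb, e ∈ E → s e ∈ E ∧ s.symm e ∈ E

/-- **IFs (interface statement).**  Every finite set of algebraic numbers lies in a good level
for `A` which is stable under a given element `s` of the decomposition group of `A`
(`E` = compositum of the inertia field `ℚ̄^{I_A}` and a finite NORMAL extension of `ℚ`; the
inertia group is normal in the decomposition group). -/
def IFsStatement : Prop :=
  ∀ (q : ℕ) (_ : q.Prime) (A : ValuationSubring Qb) (_ : A.LiesOverPrime q)
    (s : Qb ≃ₐ[ℚ] Qb) (_ : s ∈ A.decompositionSubgroup ℚ) (S : Finset Qb),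
    ∃ E : IntermediateField ℚ Qb, (∀ x ∈ S, x ∈ E) ∧ A2.GoodField A E ∧ StableUnder E s

section Level

variable (A : ValuationSubring Qb) (E : IntermediateField ℚ Qb) (M q m : ℕ) [NeZero M] [NeZero q]

/-- `σ_E(t)`: the automorphism of `F_E(N)` induced by an automorphism `t` of `E`. -/
abbrev actE (N : ℕ) (t : E ≃ₐ[ℚ] E) : A2.Mod.FE E N ≃+* A2.Mod.FE E N :=
  arithmeticRingAut (modularFunctionFieldFull N) t

/-- `ψ = σ_E(s)²` at level `N`. -/
abbrev psiE (N : ℕ) (s : Qb ≃ₐ[ℚ] Qb) (hs : StableUnder E s) : A2.Mod.FE E N ≃+* A2.Mod.FE E N :=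
  actE E N (A2.Mod.resE E s hs * A2.Mod.resE E s hs)

/-- **Kummer form of (G') at the level `E`.** -/
def LevelFrobAt : Prop :=
  A.LiesOverPrime q → A2.GoodField A E →
    ∀ (s : Qb ≃ₐ[ℚ] Qb) (hs : StableUnder E s), A.IsFrobeniusAt s q →
      ∀ y : A2.Mod.FE E (M * q), y ≠ 0 → A2.DivisibleDiv E m y →
        NormPow (A2.Mod.αE E M q) m y → NormPow (A2.Mod.βE E M q) m y →
        ∃ h : A2.Mod.FE E (M * q), h ≠ 0 ∧
          frobPoly (psiE E (M * q) s hs) (q ^ 2) y = h ^ m

end Level

/-- **T1F (descent to a level).**  `f`, and `c`, `g` with `N_α f = c g ^ m`, `N_β f = c' g' ^ m`,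
are defined over every level containing a finite set `S` (`A2.T1.H669.exists_finset_descent`);
norms commute with the base change `E → ℚ̄` (`S37.H818.normCompat_of_finrank_eq`,
`S37.H157.finrank_algIncl`); `m ∣ div` descends (`A2.T1.H669.divisibleDiv_of_ord`). -/
def T1FStatement : Prop :=
  ∀ (M q m : ℕ) [NeZero M] [NeZero q], q.Prime → ¬ q ∣ M → 0 < m → ¬ q ∣ m →
    IFsStatement →
    (∀ (A : ValuationSubring Qb) (E : IntermediateField ℚ Qb), LevelFrobAt A E M q m) →
    KummerFrobAt M q m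

/-! ## The modular inputs (level `M * q`, objects of `A2/Mod/Spec.lean`) -/

section Modular

variable (A : ValuationSubring Qb) (E : IntermediateField ℚ Qb) (M q m : ℕ) [NeZero M] [NeZero q]
  (w : A2.Mod.RE A E)

/-- **STABLE.**  An element `s` of the decomposition group of `A` stabilising `E` preserves the
Gauss valuation ring `V∞` (any level `N`) and commutes with the Fricke involution; hence it also
preserves `V₀ = V∞ ∘ W`.  (As `A2.Mod.InertiaStatement` = L14, `A2/Mod/H549/L14.lean`: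
`isGaussInt_coeffMap`, `fricke_comm`.) -/
def StableStatement : Prop :=
  ∀ N : ℕ, N ≠ 0 → IsDiscreteValuationRing (A2.Mod.RE A E) →
    ∀ (V : ValuationSubring (A2.Mod.FE E N)) (W : A2.Mod.FE E N ≃ₐ[E] A2.Mod.FE E N),
      A2.Mod.IsVinf A E N V → A2.Mod.IsFricke E N W →
      ∀ (s : Qb ≃ₐ[ℚ] Qb) (hs : StableUnder E s), s ∈ A.decompositionSubgroup ℚ →
        (∀ f : A2.Mod.FE E N, actE E N (A2.Mod.resE E s hs) (W f) =
          W (actE E N (A2.Mod.resE E s hs) f)) ∧
        ∀ f ∈ V, actE E N (A2.Mod.resE E s hs) f ∈ V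

/-- **NODE-RAT.**  The crossing points of the two components are fixed by `ψ = σ²`
(the supersingular points are `𝔽_{q²}`-rational).  Proof: on `C∞` Kronecker gives
`β (σ a) ≡ (α a) ^ q`, on `C₀` (Fricke) `α (σ a) ≡ (β a) ^ q`; at a crossing point `n`,
`α (σ² a) ≡ (α a) ^ (q²) mod n` for `a ∈ B_M`; `B = α (B_M) + p∞` (S2-type surjectivity,
`A2.H612.exists_sub_mem_of_residue_degree_one`), and `B / n = k`. -/
def NodeRatStatement : Prop :=
  A2.Mod.Setting A E M q w → A2.GoodField A E →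
    ∀ (VM : ValuationSubring (A2.Mod.FE E M)) (V : ValuationSubring (A2.Mod.FE E (M * q)))
      (W : A2.Mod.FE E (M * q) ≃ₐ[E] A2.Mod.FE E (M * q)),
      A2.Mod.IsVinf A E M VM → A2.Mod.IsVinf A E (M * q) V → A2.Mod.IsFricke E (M * q) W →
      ∀ (yM : A2.Mod.FE E M) (y : A2.Mod.FE E (M * q)), A2.Mod.IsCoordPair E M q yM y →
        A2.Mod.GoodRedAt A E M w VM yM →
        ∀ c : A2.SSChart w (A2.Mod.chartAlg A E (M * q) y),
          A2.Mod.IsCut A E (M * q) w V (A2.Mod.chartAlg A E (M * q) y) c.p₁ →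
          A2.Mod.IsCut A E (M * q) w
            (V.comap (W : A2.Mod.FE E (M * q) →+* A2.Mod.FE E (M * q)))
            (A2.Mod.chartAlg A E (M * q) y) c.p₂ →
          ∀ (s : Qb ≃ₐ[ℚ] Qb) (hs : StableUnder E s), A.IsFrobeniusAt s q →
            NodeStable (A2.Mod.chartAlg A E (M * q) y) c (psiE E (M * q) s hs)

/-- **TORIC.**  If the norms of `f` along `α` and `β` are constants times `m`-th powers, then the
residues of `(ψ - 1)² f` at `V∞` and at `V₀` are `m`-th powers.
Proof (`u := ψ f / f`, a unit of `V∞` and `V₀` by STABLE): `u ≡ α U` at `V∞`, `u ≡ β U'` at `V₀`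
(L11 + Fricke L5, L7); norm reduction for the two extensions `V∞`, `V₀` of `V∞_M` along `α`
(`e = 1`, `f = 1, q`, the second purely inseparable: `A2.H48.Qep2`, leaf NORMRED2) and Kronecker
`β (σ a) ≡ (α a) ^ q` give `N_α u ≡ U · σ U'`, `N_β u ≡ σ U · U'` modulo `w`; hence
`σ² U / U` and `σ² U' / U'` are `m`-th powers modulo `w` (the residue field of `R_E` is
algebraically closed), and `ψ u / u ≡ α (σ² U / U)` at `V∞`, `≡ β (σ² U' / U')` at `V₀`. -/
def ToricStatement : Prop :=
  A2.Mod.Setting A E M q w → A2.GoodField A E → 0 < m → ¬ q ∣ m →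
    ∀ (V : ValuationSubring (A2.Mod.FE E (M * q)))
      (W : A2.Mod.FE E (M * q) ≃ₐ[E] A2.Mod.FE E (M * q)),
      A2.Mod.IsVinf A E (M * q) V → A2.Mod.IsFricke E (M * q) W →
      ∀ (s : Qb ≃ₐ[ℚ] Qb) (hs : StableUnder E s), A.IsFrobeniusAt s q →
        ∀ f : A2.Mod.FE E (M * q), f ≠ 0 →
          NormPow (A2.Mod.αE E M q) m f → NormPow (A2.Mod.βE E M q) m f →
          PowV w V m (frobSub (psiE E (M * q) s hs) 1 (frobSub (psiE E (M * q) s hs) 1 f)) ∧
          PowV w (V.comap (W : A2.Mod.FE E (M * q) →+* A2.Mod.FE E (M * q))) m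
            (frobSub (psiE E (M * q) s hs) 1 (frobSub (psiE E (M * q) s hs) 1 f))

/-- **MODEL.**  The semistable two-chart model of `A2.ModSSData` at the level `E`, with its two
components cut out by `V∞` and `V₀` (this is what `A2.Mod.modSSData_of_parts` constructs from
S1–S4, L1, L2, L4, L8 and good reduction at level `M`; the latter needs the auxiliary prime;
`B ⊆ V∞, V₀` because `x = j j_q` is a unit of both, L2 + L4). -/
def ModelStatement : Prop :=
  A2.Mod.Setting A E M q w → A2.GoodField A E → HasAux M q →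
    ∃ (V : ValuationSubring (A2.Mod.FE E (M * q)))
      (W : A2.Mod.FE E (M * q) ≃ₐ[E] A2.Mod.FE E (M * q))
      (VM : ValuationSubring (A2.Mod.FE E M)),
      A2.Mod.IsVinf A E (M * q) V ∧ A2.Mod.IsFricke E (M * q) W ∧ A2.Mod.IsVinf A E M VM ∧
      A2.Mod.GoodRedAt A E M w VM (A2.Mod.jE E M 1 (one_dvd _)) ∧
      A2.Mod.GoodRedAt A E M w VM (A2.Mod.jE E M 1 (one_dvd _))⁻¹ ∧
      A2.Mod.DegStatement E M q ∧
      A2.SepCoord (A2.Mod.RE A E) E (A2.Mod.xE E M q)
        (A2.Mod.chartAlg A E (M * q) (A2.Mod.xE E M q)) ∧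
      A2.SepCoord (A2.Mod.RE A E) E (A2.Mod.xE E M q)⁻¹
        (A2.Mod.chartAlg A E (M * q) (A2.Mod.xE E M q)⁻¹) ∧
      ∃ (cf : A2.SSChart w (A2.Mod.chartAlg A E (M * q) (A2.Mod.xE E M q)))
        (ci : A2.SSChart w (A2.Mod.chartAlg A E (M * q) (A2.Mod.xE E M q)⁻¹)),
        CutBy w (A2.Mod.chartAlg A E (M * q) (A2.Mod.xE E M q)) cf V
          (V.comap (W : A2.Mod.FE E (M * q) →+* A2.Mod.FE E (M * q))) ∧
        CutBy w (A2.Mod.chartAlg A E (M * q) (A2.Mod.xE E M q)⁻¹) ci V
          (V.comap (W : A2.Mod.FE E (M * q) →+* A2.Mod.FE E (M * q)))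

/-- **FROB-RES.**  A Frobenius lift `s` at `A` stabilising `E` induces on `R_E = A ∩ E` an
automorphism which is `r ↦ r ^ q` modulo the maximal ideal
(`A2.H612.valuation_frob_sub_pow_lt_one`); stated for `s²`. -/
def FrobResStatement : Prop :=
  A.LiesOverPrime q → q.Prime →
    ∀ (s : Qb ≃ₐ[ℚ] Qb) (hs : StableUnder E s), A.IsFrobeniusAt s q →
      ∃ ψR : A2.Mod.RE A E ≃+* A2.Mod.RE A E,
        (∀ r : A2.Mod.RE A E,
          (A2.Mod.resE E s hs * A2.Mod.resE E s hs) (r : E) = ((ψR r : A2.Mod.RE A E) : E)) ∧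
        ∀ r : A2.Mod.RE A E, ψR r - r ^ (q ^ 2) ∈ IsLocalRing.maximalIdeal (A2.Mod.RE A E)

/-- **KRON-FROB.**  Kronecker congruence with the explicit Frobenius twist: for `a ∈ V∞_M`,
`β (σ a) ≡ (α a) ^ q mod w V∞` (on `t`-expansions: `∑ s(aₙ) t^{qn} ≡ (∑ aₙ tⁿ)^q`).
(`A2.Mod.KronStatement` = L12 only asserts the existence of the twisted element;
`A2/H612/Kron.lean` has the computation over `ℚ̄`.)  Used by NODE-RAT and TORIC. -/
def KronFrobStatement : Prop :=
  A2.Mod.Setting A E M q w →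
    ∀ (VM : ValuationSubring (A2.Mod.FE E M)) (V : ValuationSubring (A2.Mod.FE E (M * q))),
      A2.Mod.IsVinf A E M VM → A2.Mod.IsVinf A E (M * q) V →
      ∀ (s : Qb ≃ₐ[ℚ] Qb) (hs : StableUnder E s), A.IsFrobeniusAt s q →
        ∀ a ∈ VM, A2.Mod.InW A E (M * q) V w
          (A2.Mod.βE E M q (actE E M (A2.Mod.resE E s hs) a) - (A2.Mod.αE E M q a) ^ q)

/-- **COORD.**  The coordinate `x = j · j_q` has rational coefficients: it is fixed by the action
of every automorphism of `E` on the coefficients. -/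
def CoordStatement : Prop :=
  ∀ t : E ≃ₐ[ℚ] E, actE E (M * q) t (A2.Mod.xE E M q) = A2.Mod.xE E M q

end Modular

end Fermat.Agent.S35.G

end

end
-- ===== PACK-END S35/G/SpecLevel.lean

-- ===== PACK-BEGIN A2/T1/H669/T1Core.lean
section


/-!
# WALL A2, piece T1, core (helper669): from finite levels to `F̄`

`kummerTarget_of_levels` : the Kummer form of the wall (`Spec.KummerTarget`, unfolded) follows from
the corresponding statement at ONE suitable level `E ⊆ ℚ̄` for each finite set of constants: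

  for every finite `S ⊆ ℚ̄` there are an intermediate field `E ⊇ S`, an automorphism `τE` of `E`
  which is the restriction of `τ`, such that for every `y ∈ F_E^×` with `DivisibleDiv E m y`
  (unfolded: `y = u · h^m` at every discrete valuation subring of `F_E` containing `E`) the
  element `(τE - 1)² y` is an `m`-th power in `F_E`.

This file imports only files which are on main (Prelude, `S18.H602`, `S18.H845`); the
instantiation from ALG / MOD / IF of `origin/helper13:Fermat/Agent/A2/Skel.lean` is `T1.lean`.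
-/

set_option autoImplicit false
set_option synthInstance.maxHeartbeats 400000
set_option maxHeartbeats 1600000

noncomputable section

namespace Fermat.Agent.A2.T1.H669

open ModularCurve AlgebraicCurve

/-- A finite-dimensional intermediate field is contained in every intermediate field containing
a suitable finite set. -/
theorem exists_finset_le (E₀ : IntermediateField ℚ _root_.Fermat.Agent.A2.T1.H669.Qb) [FiniteDimensional ℚ E₀] :
    ∃ S : Finset _root_.Fermat.Agent.A2.T1.H669.Qb, ∀ E : IntermediateField ℚ _root_.Fermat.Agent.A2.T1.H669.Qb, (∀ s ∈ S, s ∈ E) → E₀ ≤ E := by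
  classical
  let b := Module.finBasis ℚ E₀
  refine ⟨Finset.univ.image fun i => ((b i : E₀) : _root_.Fermat.Agent.A2.T1.H669.Qb), fun E hE x hx => ?_⟩
  have hx' : (⟨x, hx⟩ : E₀) = ∑ i, (b.repr ⟨x, hx⟩ i) • b i := (b.sum_repr ⟨x, hx⟩).symm
  have hcoe : x = ((∑ i, (b.repr ⟨x, hx⟩ i) • b i : E₀) : _root_.Fermat.Agent.A2.T1.H669.Qb) :=
    congrArg (fun z : E₀ => (z : _root_.Fermat.Agent.A2.T1.H669.Qb)) hx'
  rw [hcoe, IntermediateField.coe_sum]
  refine sum_mem fun i _ => ?_
  have hi : ((b i : E₀) : _root_.Fermat.Agent.A2.T1.H669.Qb) ∈ E := hE _ (Finset.mem_image.2 ⟨i, Finset.mem_univ i, rfl⟩)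
  rw [IntermediateField.coe_smul, Algebra.smul_def]
  exact mul_mem (E.algebraMap_mem _) hi

/-- Every element of `F̄` comes from `F_E` for every intermediate field `E` containing a suitable
finite set of constants. -/
theorem exists_finset_descent (F₀ : IntermediateField ℚ (LaurentSeries ℚ))
    (f : ↥(laurentBaseChange _root_.Fermat.Agent.A2.T1.H669.Qb F₀)) :
    ∃ S : Finset _root_.Fermat.Agent.A2.T1.H669.Qb, ∀ E : IntermediateField ℚ _root_.Fermat.Agent.A2.T1.H669.Qb, (∀ s ∈ S, s ∈ E) →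
      ∃ y : ↥(laurentBaseChange E F₀), iota E F₀ y = f := by
  obtain ⟨E₀, hE₀fin, y₀, hy₀mem, hy₀⟩ :=
    Fermat.Agent.S18.H602.exists_finite_descent (F₀ := F₀) f.2
  haveI := hE₀fin
  obtain ⟨S, hS⟩ := exists_finset_le E₀
  refine ⟨S, fun E hSE => ?_⟩
  obtain ⟨y₁, hy₁mem, hy₁⟩ :=
    Fermat.Agent.S18.H602.DescendsTo.mono (hS E hSE)
      (⟨y₀, hy₀mem, hy₀⟩ : Fermat.Agent.S18.H602.DescendsTo F₀ E₀ (f : LaurentSeries _root_.Fermat.Agent.A2.T1.H669.Qb))
  exact ⟨⟨y₁, hy₁mem⟩, Subtype.ext hy₁⟩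

/-- **T1, core.**  One `τ`: the Kummer statement on `F̄` from the Kummer statement at suitable
finite levels. -/
theorem kummer_of_levels (F₀ : IntermediateField ℚ (LaurentSeries ℚ)) (m : ℕ)
    (τ : _root_.Fermat.Agent.A2.T1.H669.Qb ≃ₐ[ℚ] _root_.Fermat.Agent.A2.T1.H669.Qb)
    (hlevel : ∀ S : Finset _root_.Fermat.Agent.A2.T1.H669.Qb, ∃ E : IntermediateField ℚ _root_.Fermat.Agent.A2.T1.H669.Qb, (∀ s ∈ S, s ∈ E) ∧
      ∃ τE : E ≃ₐ[ℚ] E, (∀ e : E, ((τE e : E) : _root_.Fermat.Agent.A2.T1.H669.Qb) = τ (e : _root_.Fermat.Agent.A2.T1.H669.Qb)) ∧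
        ∀ y : ↥(laurentBaseChange E F₀), y ≠ 0 →
          (∀ V : ValuationSubring ↥(laurentBaseChange E F₀), IsDiscreteValuationRing V →
            (∀ e : E, algebraMap E ↥(laurentBaseChange E F₀) e ∈ V) →
            ∃ h u : ↥(laurentBaseChange E F₀), h ≠ 0 ∧ u ∈ V ∧ u⁻¹ ∈ V ∧ y = u * h ^ m) →
          ∃ h : ↥(laurentBaseChange E F₀), h ≠ 0 ∧
            arithmeticRingAut F₀ τE (arithmeticRingAut F₀ τE y) * y =
              h ^ m * (arithmeticRingAut F₀ τE y) ^ 2)
    (f : ↥(laurentBaseChange _root_.Fermat.Agent.A2.T1.H669.Qb F₀)) (hf : f ≠ 0)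
    (hdiv : ∀ v : Place _root_.Fermat.Agent.A2.T1.H669.Qb ↥(laurentBaseChange _root_.Fermat.Agent.A2.T1.H669.Qb F₀), (m : ℤ) ∣ v.ord f) :
    ∃ h : ↥(laurentBaseChange _root_.Fermat.Agent.A2.T1.H669.Qb F₀), h ≠ 0 ∧
      arithmeticRingAut F₀ τ (arithmeticRingAut F₀ τ f) * f =
        h ^ m * (arithmeticRingAut F₀ τ f) ^ 2 := by
  obtain ⟨S, hS⟩ := exists_finset_descent F₀ f
  obtain ⟨E, hSE, τE, hτE, hE⟩ := hlevel S
  obtain ⟨y, hιy⟩ := hS E hSE
  have hy0 : y ≠ 0 := by
    rintro h0
    apply hf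
    rw [← hιy, h0, map_zero]
  obtain ⟨h, hh0, hh⟩ := hE y hy0
    (divisibleDiv_of_ord E F₀ m y hy0 (fun v => by rw [hιy]; exact hdiv v))
  refine ⟨iota E F₀ h, iota_ne_zero E _ hh0, ?_⟩
  have := congrArg (iota E F₀) hh
  rw [map_mul, map_mul, map_pow, map_pow,
    iota_arithmeticRingAut E F₀ τ τE hτE,
    iota_arithmeticRingAut E F₀ τ τE hτE, hιy] at this
  exact this

end Fermat.Agent.A2.T1.H669

end
end
-- ===== PACK-END A2/T1/H669/T1Core.lean

-- ===== PACK-BEGIN A2/T1/H669/T1.lean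
section





/-!
# WALL A2, piece T1 (helper669): assembly `ALG + MOD + IF ⇒ KummerTarget`

`t1 : T1Statement` (interface v2 of `Fermat/Agent/A2/{Spec,ModDefs}.lean`, helper13):
`AlgSSStatement → IFStatement → ModSSStatement → KummerTarget N q m`.

Proof: descend `f` to a finite level `E₀` (`S18.H602.exists_finite_descent`), enlarge to a good
level `E` (IF), translate `m ∣ div f` on `F̄` into `DivisibleDiv E m y` (T2), apply ALG to the
semistable model (MOD) with `τ := arithmeticRingAut (res τ)`, push the result to `F̄` by `iota`.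
-/

set_option autoImplicit false
set_option synthInstance.maxHeartbeats 400000
set_option maxHeartbeats 1600000

noncomputable section

namespace Fermat.Agent.A2.T1.H669

open ModularCurve AlgebraicCurve Fermat.Agent.A2

/-- The restriction of an element of the decomposition group to `R_E`. -/
def resR {P : ValuationSubring _root_.Fermat.Agent.A2.T1.H669.Qb} {E : IntermediateField ℚ _root_.Fermat.Agent.A2.T1.H669.Qb} (hE : GoodField P E)
    (τ : _root_.Fermat.Agent.A2.T1.H669.Qb ≃ₐ[ℚ] _root_.Fermat.Agent.A2.T1.H669.Qb) (hτ : τ ∈ P.inertiaSubgroupIn ℚ) : ↥(RE P E) ≃+* ↥(RE P E) where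
  toFun r := ⟨hE.res τ hτ (r : E), by
    have hd := Fermat.Agent.A2.H708.mem_decomposition_of_mem_inertiaIn P hτ
    show ((hE.res τ hτ (r : E) : E) : _root_.Fermat.Agent.A2.T1.H669.Qb) ∈ P
    exact Fermat.Agent.A2.H708.apply_mem_of_mem_decomposition P hd r.2⟩
  invFun r := ⟨(hE.res τ hτ).symm (r : E), by
    have hd := Fermat.Agent.A2.H708.mem_decomposition_of_mem_inertiaIn P hτ
    show (((hE.res τ hτ).symm (r : E) : E) : _root_.Fermat.Agent.A2.T1.H669.Qb) ∈ P
    have h1 : τ (((hE.res τ hτ).symm (r : E) : E) : _root_.Fermat.Agent.A2.T1.H669.Qb) = ((r : E) : _root_.Fermat.Agent.A2.T1.H669.Qb) := by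
      have := (hE.res τ hτ).apply_symm_apply (r : E)
      exact congrArg (fun z : E => (z : _root_.Fermat.Agent.A2.T1.H669.Qb)) this
    refine Fermat.Agent.A2.H708.mem_of_apply_mem_of_mem_decomposition P hd ?_
    rw [h1]; exact r.2⟩
  left_inv r := Subtype.ext ((hE.res τ hτ).symm_apply_apply (r : E))
  right_inv r := Subtype.ext ((hE.res τ hτ).apply_symm_apply (r : E))
  map_mul' a b := Subtype.ext (map_mul (hE.res τ hτ) (a : E) (b : E))
  map_add' a b := Subtype.ext (map_add (hE.res τ hτ) (a : E) (b : E))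

theorem natCast_mem_maximalIdeal_RE {P : ValuationSubring _root_.Fermat.Agent.A2.T1.H669.Qb} (E : IntermediateField ℚ _root_.Fermat.Agent.A2.T1.H669.Qb)
    {q : ℕ} (hP : P.LiesOverPrime q) :
    ((q : ℕ) : ↥(RE P E)) ∈ IsLocalRing.maximalIdeal ↥(RE P E) := by
  rw [IsLocalRing.mem_maximalIdeal, mem_nonunits_iff]
  intro hu
  obtain ⟨u, hu⟩ := hu
  have h1 : ((q : ℕ) : ↥(RE P E)) * ((u⁻¹ : (↥(RE P E))ˣ) : ↥(RE P E)) = 1 := by
    rw [← hu]; exact u.mul_inv
  have h2 : ((q : ℕ) : _root_.Fermat.Agent.A2.T1.H669.Qb) * (((((u⁻¹ : (↥(RE P E))ˣ) : ↥(RE P E)) : E) : _root_.Fermat.Agent.A2.T1.H669.Qb)) = 1 := by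
    have := congrArg (fun z : ↥(RE P E) => (((z : E)) : _root_.Fermat.Agent.A2.T1.H669.Qb)) h1
    simpa using this
  have hmem : (((((u⁻¹ : (↥(RE P E))ˣ) : ↥(RE P E)) : E) : _root_.Fermat.Agent.A2.T1.H669.Qb)) ∈ P :=
    ((u⁻¹ : (↥(RE P E))ˣ) : ↥(RE P E)).2
  have hq0 : ((q : ℕ) : _root_.Fermat.Agent.A2.T1.H669.Qb) ≠ 0 := left_ne_zero_of_mul_eq_one h2
  have hval : P.valuation ((q : ℕ) : _root_.Fermat.Agent.A2.T1.H669.Qb) < 1 :=
    (ValuationSubring.mem_nonunits_iff P).1 hP
  have hval2 : P.valuation (((((u⁻¹ : (↥(RE P E))ˣ) : ↥(RE P E)) : E) : _root_.Fermat.Agent.A2.T1.H669.Qb)) ≤ 1 :=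
    (ValuationSubring.valuation_le_one_iff P _).2 hmem
  have : P.valuation (1 : _root_.Fermat.Agent.A2.T1.H669.Qb) < 1 := by
    rw [← h2, map_mul]
    calc P.valuation ((q : ℕ) : _root_.Fermat.Agent.A2.T1.H669.Qb) * P.valuation _
        ≤ P.valuation ((q : ℕ) : _root_.Fermat.Agent.A2.T1.H669.Qb) * 1 := by gcongr
      _ < 1 := by rwa [mul_one]
  rw [map_one] at this
  exact lt_irrefl _ this

/-- Iterates of the restriction of `τ` to a stable level. -/
theorem coe_res_iterate {P : ValuationSubring _root_.Fermat.Agent.A2.T1.H669.Qb} {E : IntermediateField ℚ _root_.Fermat.Agent.A2.T1.H669.Qb}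
    (hE : GoodField P E) (τ : _root_.Fermat.Agent.A2.T1.H669.Qb ≃ₐ[ℚ] _root_.Fermat.Agent.A2.T1.H669.Qb) (hτ : τ ∈ P.inertiaSubgroupIn ℚ) (k : ℕ) (e : E) :
    (((⇑(hE.res τ hτ))^[k] e : E) : _root_.Fermat.Agent.A2.T1.H669.Qb) = (⇑τ)^[k] (e : _root_.Fermat.Agent.A2.T1.H669.Qb) := by
  induction k with
  | zero => rfl
  | succ k ih =>
      rw [Function.iterate_succ_apply', Function.iterate_succ_apply', ← ih]
      rfl

/-- Coefficients of the iterates of the arithmetic action. -/
theorem coeff_arithmeticRingAut_iterate (F₀ : IntermediateField ℚ (LaurentSeries ℚ))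
    {E : IntermediateField ℚ _root_.Fermat.Agent.A2.T1.H669.Qb} (σ : E ≃ₐ[ℚ] E) (k : ℕ) (f : ↥(laurentBaseChange E F₀))
    (n : ℤ) :
    (((⇑(arithmeticRingAut F₀ σ))^[k] f : ↥(laurentBaseChange E F₀)) :
        LaurentSeries E).coeff n = (⇑σ)^[k] ((f : LaurentSeries E).coeff n) := by
  induction k with
  | zero => rfl
  | succ k ih =>
      rw [Function.iterate_succ_apply', Function.iterate_succ_apply', ← ih]
      rfl

/-- The arithmetic action of an inertia element on a good level has finite order. -/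
theorem finite_order_arithmeticRingAut (F₀ : IntermediateField ℚ (LaurentSeries ℚ))
    {P : ValuationSubring _root_.Fermat.Agent.A2.T1.H669.Qb} {E : IntermediateField ℚ _root_.Fermat.Agent.A2.T1.H669.Qb}
    (hE : GoodField P E) (τ : _root_.Fermat.Agent.A2.T1.H669.Qb ≃ₐ[ℚ] _root_.Fermat.Agent.A2.T1.H669.Qb) (hτ : τ ∈ P.inertiaSubgroupIn ℚ) :
    ∃ r : ℕ, 0 < r ∧ ∀ f : ↥(laurentBaseChange E F₀),
      (⇑(arithmeticRingAut F₀ (hE.res τ hτ)))^[r] f = f := by
  obtain ⟨r, hr0, hr⟩ := hE.finite_order τ hτ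
  refine ⟨r, hr0, fun f => Subtype.ext (HahnSeries.ext (funext fun n => ?_))⟩
  rw [coeff_arithmeticRingAut_iterate]
  apply Subtype.ext
  rw [coe_res_iterate]
  exact hr _ (SetLike.coe_mem _)

/-- **T1** (interface v2): `ALG + IF + MOD ⟹ KummerTarget`. -/
theorem t1 : T1Statement := by
  intro hALG hIF hMOD N q m hq hqN hq2 hN hm hqm P hP τ hτ f hf hdiv
  refine kummer_of_levels (modularFunctionFieldFull N) m τ (fun S => ?_) f hf hdiv
  -- a good level containing `S`
  obtain ⟨E, hSE, hE⟩ := hIF q hq P hP S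
  refine ⟨E, hSE, hE.res τ hτ, fun e => rfl, fun y hy0 hdd => ?_⟩
  -- the model
  obtain ⟨D⟩ := hMOD P E N q hq hqN hq2 hN hP hE
  haveI : IsDiscreteValuationRing ↥(RE P E) := hE.dvr
  haveI : HenselianLocalRing ↥(RE P E) := hE.henselian
  haveI : IsAlgClosed (IsLocalRing.ResidueField ↥(RE P E)) := hE.algClosed
  obtain ⟨w, hw⟩ := IsDiscreteValuationRing.exists_irreducible ↥(RE P E)
  obtain ⟨cf⟩ := D.cf w hw
  obtain ⟨ci⟩ := D.ci w hw
  -- ALG
  have hconcl : AlgSSConclusion E m
      (arithmeticRingAut (modularFunctionFieldFull N) (hE.res τ hτ)) :=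
    hALG (R := ↥(RE P E)) (E := E) (F := ↥(FE E N)) w hw q m hq
      (natCast_mem_maximalIdeal_RE E hP) hm hqm D.x D.hx D.hfin D.hconst D.Bf D.Bi D.hBf D.hBi
      cf ci D.sf D.si
      (arithmeticRingAut (modularFunctionFieldFull N) (hE.res τ hτ))
      (hE.res τ hτ).toRingEquiv (resR hE τ hτ)
      (fun e => arithmeticRingAut_algebraMap (modularFunctionFieldFull N) (hE.res τ hτ) e)
      (fun r => rfl)
      (D.hτx hE τ hτ)
      (finite_order_arithmeticRingAut (modularFunctionFieldFull N) hE τ hτ)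
      (D.hτf hE τ hτ w hw) (D.hτi hE τ hτ w hw)
  exact hconcl y hy0 hdd

end Fermat.Agent.A2.T1.H669

end
end
-- ===== PACK-END A2/T1/H669/T1.lean

-- ===== PACK-BEGIN S35/G/Top.lean
section




/-!
# S35, piece (G') — the assembly (architect helper450), sorry-free

* `levelFrob_of_parts` : `ALG-FROB + MODEL + STABLE + NODE-RAT + TORIC + FROB-RES + COORD`
                          `⟹ LevelFrobAt A E M q m` (levels with the auxiliary prime).
* `newPartFrobExplicit_of_parts`, `newPartFrobStatement_of_parts` : the leaves `DEG`, `T0F`,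
  `T1F`, `D2F`, `IFs` and the level statement give (G').
-/

set_option autoImplicit false
set_option linter.style.haveILetI false
set_option linter.unusedSectionVars false
set_option synthInstance.maxHeartbeats 400000
set_option maxHeartbeats 1600000

noncomputable section

namespace Fermat.Agent.S35.G

open ModularCurve AlgebraicCurve

/-! ## Small lemmas -/

theorem actE_mul_apply (E : IntermediateField ℚ Qb) (N : ℕ) (t₁ t₂ : E ≃ₐ[ℚ] E)
    (f : A2.Mod.FE E N) : actE E N (t₁ * t₂) f = actE E N t₁ (actE E N t₂ f) := by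
  have h := congrArg SemilinearAut.toRingAut
    (map_mul (arithmeticGalois (L := E) (modularFunctionFieldFull N)) t₁ t₂)
  exact congrArg (fun φ : RingAut (A2.Mod.FE E N) => φ f) h

theorem frobSub_ne_zero {F : Type*} [Field F] (φ : F ≃+* F) (Q : ℕ) {f : F} (hf : f ≠ 0) :
    frobSub φ Q f ≠ 0 :=
  mul_ne_zero ((map_ne_zero φ).2 hf) (inv_ne_zero (pow_ne_zero Q hf))

theorem divisibleDiv_frobSub_one {E F : Type*} [Field E] [Field F] [Algebra E F]
    (φ : F ≃+* F) (φE : E ≃+* E)
    (hφE : ∀ e : E, φ (algebraMap E F e) = algebraMap E F (φE e)) (m : ℕ) (f : F)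
    (h : A2.DivisibleDiv E m f) : A2.DivisibleDiv E m (frobSub φ 1 f) := by
  unfold frobSub
  rw [pow_one]
  exact A2.Alg.H34.divisibleDiv_mul_inv m _ _ (A2.Alg.H34.divisibleDiv_tau φ φE hφE m f h) h

theorem auxM_ne_zero {M : ℕ} (q : ℕ) (hM : M ≠ 0) : auxM M q ≠ 0 := by
  unfold auxM
  split_ifs
  · exact Nat.lcm_ne_zero hM (by norm_num)
  · exact Nat.lcm_ne_zero hM (by norm_num)
  · exact hM

theorem not_dvd_lcm_prime {M q a : ℕ} (hq : q.Prime) (ha : a.Prime) (hqa : q ≠ a)
    (hqM : ¬ q ∣ M) : ¬ q ∣ Nat.lcm M a := by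
  intro h
  have h1 : q ∣ M * a := h.trans (Nat.lcm_dvd_mul M a)
  rcases (Nat.Prime.dvd_mul hq).1 h1 with h2 | h2
  · exact hqM h2
  · exact hqa ((Nat.prime_dvd_prime_iff_eq hq ha).1 h2)

theorem not_dvd_auxM {M q : ℕ} (hq : q.Prime) (hqM : ¬ q ∣ M) : ¬ q ∣ auxM M q := by
  unfold auxM
  split_ifs with h3 h2
  · exact not_dvd_lcm_prime hq Nat.prime_two (by omega) hqM
  · exact not_dvd_lcm_prime hq Nat.prime_three (by omega) hqM
  · exact hqM

theorem hasAux_auxM (M q : ℕ) : HasAux (auxM M q) q := by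
  refine ⟨fun h => ?_, fun h => ?_⟩
  · unfold auxM
    rw [if_pos h]
    exact Nat.dvd_lcm_right M 2
  · unfold auxM
    rw [if_neg (by omega), if_pos h]
    exact Nat.dvd_lcm_right M 3

/-! ## The level statement from ALG-FROB and the modular inputs -/

theorem levelFrob_of_parts (A : ValuationSubring Qb) (E : IntermediateField ℚ Qb)
    (M q m : ℕ) [NeZero M] [NeZero q]
    (hq : q.Prime) (hqM : ¬ q ∣ M) (haux : HasAux M q) (hm : 0 < m) (hqm : ¬ q ∣ m)
    (hALG : AlgFrobStatement)
    (hMODEL : ∀ w, ModelStatement A E M q w)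
    (hSTAB : StableStatement A E)
    (hNODE : ∀ w, NodeRatStatement A E M q w)
    (hTORIC : ∀ w, ToricStatement A E M q m w)
    (hRES : FrobResStatement A E q)
    (hCOORD : CoordStatement E M q) :
    LevelFrobAt A E M q m := by
  intro hA hE s hs hsF y hy hdiv hNα hNβ
  haveI : IsDiscreteValuationRing ↥(A2.Mod.RE A E) := hE.dvr
  haveI : HenselianLocalRing ↥(A2.Mod.RE A E) := hE.henselian
  haveI : IsAlgClosed (IsLocalRing.ResidueField ↥(A2.Mod.RE A E)) := hE.algClosed
  obtain ⟨w, hw⟩ := IsDiscreteValuationRing.exists_irreducible ↥(A2.Mod.RE A E)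
  have hS : A2.Mod.Setting A E M q w :=
    { q_prime := hq
      q_not_dvd := hqM
      M_ne_zero := NeZero.ne M
      lies_over := hA
      dvr := hE.dvr
      unif := hw }
  obtain ⟨V, W, VM, hV, hW, hVM, hg1, hg2, hDeg, sf, si, cf, ci, hcf, hci⟩ :=
    hMODEL w hS hE haux
  obtain ⟨hx, hfr, hconst⟩ := hDeg hq hqM
  have hpos : 0 < Module.finrank
      (IntermediateField.adjoin E ({A2.Mod.xE E M q} : Set (A2.Mod.FE E (M * q))))
      (A2.Mod.FE E (M * q)) := by
    rw [hfr]
    have h1 := A2.Mod.dedekindPsi_pos_of_ne_zero M (NeZero.ne M)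
    positivity
  have hfin : FiniteDimensional
      (IntermediateField.adjoin E ({A2.Mod.xE E M q} : Set (A2.Mod.FE E (M * q))))
      (A2.Mod.FE E (M * q)) := Module.finite_of_finrank_pos hpos
  obtain ⟨ψR, hψR, hQ⟩ := hRES hA hq s hs hsF
  have hsD : s ∈ A.decompositionSubgroup ℚ := hsF.mem_decompositionSubgroup
  have hN0 : M * q ≠ 0 := Nat.mul_ne_zero (NeZero.ne M) (NeZero.ne q)
  obtain ⟨hcomm, hσV⟩ := hSTAB (M * q) hN0 hE.dvr V W hV hW s hs hsD
  -- `ψ = σ ∘ σ`
  have hψσ : ∀ f : A2.Mod.FE E (M * q), psiE E (M * q) s hs f =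
      actE E (M * q) (A2.Mod.resE E s hs) (actE E (M * q) (A2.Mod.resE E s hs) f) :=
    fun f => actE_mul_apply E (M * q) _ _ f
  have hψV : ∀ f ∈ V, psiE E (M * q) s hs f ∈ V := fun f hf => by
    rw [hψσ]
    exact hσV _ (hσV _ hf)
  have hψV₀ : ∀ f ∈ V.comap (W : A2.Mod.FE E (M * q) →+* A2.Mod.FE E (M * q)),
      psiE E (M * q) s hs f ∈ V.comap (W : A2.Mod.FE E (M * q) →+* A2.Mod.FE E (M * q)) :=
    fun f hf => by
      show W (psiE E (M * q) s hs f) ∈ V
      rw [hψσ, ← hcomm, ← hcomm]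
      exact hσV _ (hσV _ hf)
  -- semilinearity
  have hψE : ∀ e : E, psiE E (M * q) s hs (algebraMap E (A2.Mod.FE E (M * q)) e) =
      algebraMap E (A2.Mod.FE E (M * q))
        ((A2.Mod.resE E s hs * A2.Mod.resE E s hs).toRingEquiv e) :=
    fun e => arithmeticRingAut_algebraMap (modularFunctionFieldFull (M * q)) _ e
  have hψRE : ∀ r : ↥(A2.Mod.RE A E),
      (A2.Mod.resE E s hs * A2.Mod.resE E s hs).toRingEquiv (algebraMap ↥(A2.Mod.RE A E) E r) =
        algebraMap ↥(A2.Mod.RE A E) E (ψR r) := fun r => hψR r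
  -- the function `(ψ - 1)² y`
  set h₁ := frobSub (psiE E (M * q) s hs) 1 y with hh₁
  set h₂ := frobSub (psiE E (M * q) s hs) 1 h₁ with hh₂
  have hh₁0 : h₁ ≠ 0 := frobSub_ne_zero _ 1 hy
  have hh₂0 : h₂ ≠ 0 := frobSub_ne_zero _ 1 hh₁0
  have hd₁ : A2.DivisibleDiv E m h₁ := divisibleDiv_frobSub_one _ _ hψE m y hdiv
  have hd₂ : A2.DivisibleDiv E m h₂ := divisibleDiv_frobSub_one _ _ hψE m h₁ hd₁
  obtain ⟨ht₁, ht₂⟩ := hTORIC w hS hE hm hqm V W hV hW s hs hsF y hy hNα hNβ
  have hnf := hNODE w hS hE VM V W hVM hV hW _ _ (Or.inl ⟨rfl, rfl⟩) hg1 cf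
    hcf.cut₁ hcf.cut₂ s hs hsF
  have hni := hNODE w hS hE VM V W hVM hV hW _ _ (Or.inr ⟨rfl, rfl⟩) hg2 ci
    hci.cut₁ hci.cut₂ s hs hsF
  obtain ⟨z, hz, hzz⟩ := hALG (R := ↥(A2.Mod.RE A E)) (E := E) (F := ↥(A2.Mod.FE E (M * q)))
    w hw q m (q ^ 2) hq (A2.T1.H669.natCast_mem_maximalIdeal_RE E hA) hm hqm
    (A2.Mod.xE E M q) hx hfin hconst
    (A2.Mod.chartAlg A E (M * q) (A2.Mod.xE E M q))
    (A2.Mod.chartAlg A E (M * q) (A2.Mod.xE E M q)⁻¹)
    (fun _ => Iff.rfl) (fun _ => Iff.rfl) cf ci sf si V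
    (V.comap (W : A2.Mod.FE E (M * q) →+* A2.Mod.FE E (M * q))) hcf hci
    (psiE E (M * q) s hs) (A2.Mod.resE E s hs * A2.Mod.resE E s hs).toRingEquiv ψR
    hψE hψRE (hCOORD _) hQ hψV hψV₀ hnf hni h₂ hh₂0 hd₂ ht₁ ht₂
  refine ⟨z, hz, ?_⟩
  show frobSub (psiE E (M * q) s hs) (q ^ 2) h₂ = z ^ m
  unfold frobSub
  rw [hzz, mul_assoc, mul_inv_cancel₀ (pow_ne_zero _ hh₂0), mul_one]

/-! ## The top assembly -/

/-- **(G'), explicit form, from the leaves.** -/
theorem newPartFrobExplicit_of_parts (hDEG : DegStatement) (hT0 : T0FStatement)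
    (hT1 : T1FStatement) (hD2 : D2FStatement) (hIF : IFsStatement)
    (hLEV : ∀ (M q m : ℕ) [NeZero M] [NeZero q], q.Prime → ¬ q ∣ M → HasAux M q → 0 < m →
      ¬ q ∣ m → ∀ (A : ValuationSubring Qb) (E : IntermediateField ℚ Qb),
        LevelFrobAt A E M q m) :
    NewPartFrobExplicit := by
  intro M q m _ _ hq hqM hm hqm
  haveI : NeZero (auxM M q) := ⟨auxM_ne_zero q (NeZero.ne M)⟩
  have hqM' : ¬ q ∣ auxM M q := not_dvd_auxM hq hqM
  apply hD2 M q m hq hqM hm hqm
  obtain ⟨hα, hβ, -, -⟩ := hDEG (auxM M q) q hq hqM'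
  apply hT0 (auxM M q) q m hq hqM' hm hqm hα hβ
  apply hT1 (auxM M q) q m hq hqM' hm hqm hIF
  intro A E
  exact hLEV (auxM M q) q m hq hqM' (hasAux_auxM M q) hm hqm A E

/-- **(G'), bundled form, from the leaves.** -/
theorem newPartFrobStatement_of_explicit (hDEG : DegStatement) (h : NewPartFrobExplicit) :
    NewPartFrobStatement := by
  intro M q p _ _ hq hqM hp hpq
  obtain ⟨-, -, hA, hB⟩ := hDEG M q hq hqM
  refine ⟨degA M q, degB M q, ?_, ?_, ?_⟩
  · intro ℓ hℓ x
    exact hA ℓ (fun hd => hℓ (Dvd.dvd.mul_right hd p)) x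
  · intro ℓ hℓ x
    exact hB ℓ (fun hd => hℓ (Dvd.dvd.mul_right hd p)) x
  · intro A hA' s hs x hx ha hb
    obtain ⟨n, hn⟩ := hx
    have hqm : ¬ q ∣ p ^ n := fun hd =>
      hpq ((Nat.prime_dvd_prime_iff_eq hq hp).1 (hq.dvd_of_dvd_pow hd)).symm
    exact h M q (p ^ n) hq hqM (pow_pos hp.pos n) hqm A hA' s hs x hn ha hb

end Fermat.Agent.S35.G

end

end
-- ===== PACK-END S35/G/Top.lean

-- ===== PACK-BEGIN S28/H988/Tower.lean
section
/-
S28 / [L.UP] upper bound, helper988.
The tower step over ANY field `k`:  `E_{Mp} = E_M(j(q^{p^{a+1}}))` and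
`[E_{Mp} : E_M] ≤ p + 1` (`p ∤ M`), `≤ p` (`p ∣ M`), where `E_N = k(j(q^d) : d ∣ N)`.
Input: the modular relations `PhiRel k r (Φ r)` for the primes `r ∣ M p`.
-/




set_option autoImplicit false

noncomputable section

open Polynomial ModularCurve

namespace Fermat.Agent.S28.H988

variable (k : Type*) [Field k]

/-! ### The fields `E_N` -/

theorem jd_mem_full {N d : ℕ} (hN : N ≠ 0) (hd : d ∣ N) :
    jd k d ∈ modularFunctionFieldFullC k N := by
  have hd0 : d ≠ 0 := fun h => hN (by rw [h] at hd; exact Nat.eq_zero_of_zero_dvd hd)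
  have : NeZero d := ⟨hd0⟩
  rw [jd_eq k d]
  exact jqModCd_mem_full k N hd

theorem full_le_iff {N : ℕ} (hN : N ≠ 0) (F : IntermediateField k (LaurentSeries k)) :
    modularFunctionFieldFullC k N ≤ F ↔ ∀ d, d ∣ N → jd k d ∈ F := by
  constructor
  · intro h d hd
    exact h (jd_mem_full k hN hd)
  · intro h
    rw [modularFunctionFieldFullC, IntermediateField.adjoin_le_iff]
    rintro x ⟨d, hne, hdvd, rfl⟩
    have := h d hdvd
    rwa [jd_eq k d] at this

theorem full_mono {M N : ℕ} (hN : N ≠ 0) (h : M ∣ N) :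
    modularFunctionFieldFullC k M ≤ modularFunctionFieldFullC k N := by
  have hM : M ≠ 0 := fun h0 => hN (by rw [h0] at h; exact Nat.eq_zero_of_zero_dvd h)
  rw [full_le_iff k hM]
  intro d hd
  exact jd_mem_full k hN (hd.trans h)

/-! ### Generation -/

variable {k}

/-- **Generation.** If `F ⊇ E_M` contains `j(q^{p^b})` for all `p^b ∣ M p`, then `F ⊇ E_{Mp}`. -/
theorem jd_mem_of_dvd_mul (Φ : ℕ → Polynomial (Polynomial ℤ)) {M p : ℕ} (hM : M ≠ 0)
    (hp : p.Prime) (hΦ : ∀ r, r.Prime → r ∣ M * p → PhiRel k r (Φ r))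
    (F : IntermediateField k (LaurentSeries k)) (hF : ∀ d, d ∣ M → jd k d ∈ F)
    (hpow : ∀ b, p ^ b ∣ M * p → jd k (p ^ b) ∈ F) :
    ∀ d, d ∣ M * p → jd k d ∈ F := by
  intro d
  induction d using Nat.strong_induction_on with
  | _ d ih =>
    intro hd
    have hMp : M * p ≠ 0 := Nat.mul_ne_zero hM hp.ne_zero
    have hd0 : d ≠ 0 := fun h => hMp (by rw [h] at hd; exact Nat.eq_zero_of_zero_dvd hd)
    by_cases hdM : d ∣ M
    · exact hF d hdM
    have hpd : p ∣ d := by
      by_contra hnp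
      have hcop : Nat.Coprime d p := (Nat.Coprime.symm ((Nat.Prime.coprime_iff_not_dvd hp).mpr hnp))
      exact hdM (hcop.dvd_of_dvd_mul_right hd)
    by_cases hex : ∃ r, r.Prime ∧ r ∣ d ∧ r ≠ p
    · obtain ⟨r, hr, hrd, hrp⟩ := hex
      have hcop : Nat.Coprime p r := (Nat.coprime_primes hp hr).mpr (Ne.symm hrp)
      have hprd : p * r ∣ d := hcop.mul_dvd_of_dvd_of_dvd hpd hrd
      obtain ⟨e, he⟩ := hprd
      have hde : d = e * p * r := by rw [he]; ring
      have he0 : e ≠ 0 := by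
        rintro rfl
        apply hd0
        rw [hde]; simp
      have h1 : jd k (e * r) ∈ F := by
        apply hF
        have : e * r * p ∣ M * p := by
          rw [show e * r * p = d by rw [hde]; ring]; exact hd
        exact (Nat.mul_dvd_mul_iff_right hp.pos).mp this
      have h2 : jd k (e * p) ∈ F := by
        apply ih (e * p)
        · rw [hde]
          have : 1 < r := hr.one_lt
          have hpos : 0 < e * p := Nat.pos_of_ne_zero (Nat.mul_ne_zero he0 hp.ne_zero)
          nlinarith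
        · exact (Dvd.intro r hde.symm).trans hd
      rw [hde]
      exact jd_mem_of_mem (hΦ p hp (Dvd.intro_left M rfl)) (hΦ r hr (hrd.trans hd))
        hp.one_lt hr.one_lt (Ne.symm hrp) he0 F h1 h2
    · push Not at hex
      have hdpow : d = p ^ d.primeFactorsList.length :=
        Nat.eq_prime_pow_of_unique_prime_dvd hd0 (fun {r} hr hrd => hex r hr hrd)
      rw [hdpow]
      apply hpow
      rw [← hdpow]
      exact hd

/-! ### The top generator and its polynomial -/

/-- The exponent of the top `p`-power: `p ^ (topExp M p) ∣ M * p` exactly. -/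
def topExp (M p : ℕ) : ℕ := M.factorization p + 1

theorem pow_dvd_mul_iff {M p : ℕ} (hM : M ≠ 0) (hp : p.Prime) (b : ℕ) :
    p ^ b ∣ M * p ↔ b ≤ topExp M p := by
  have hMp : M * p ≠ 0 := Nat.mul_ne_zero hM hp.ne_zero
  rw [hp.pow_dvd_iff_le_factorization hMp, Nat.factorization_mul hM hp.ne_zero]
  simp only [Finsupp.coe_add, Pi.add_apply, hp.factorization_self, topExp]

theorem pow_dvd_iff' {M p : ℕ} (hM : M ≠ 0) (hp : p.Prime) (b : ℕ) :
    p ^ b ∣ M ↔ b + 1 ≤ topExp M p := by
  rw [hp.pow_dvd_iff_le_factorization hM, topExp]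
  omega

variable (k) in
/-- The top generator `j(q^{p^{a+1}})`, `a = v_p(M)`. -/
def topGen (M p : ℕ) : LaurentSeries k := jd k (p ^ topExp M p)

theorem topGen_mem {M p : ℕ} (hM : M ≠ 0) (hp : p.Prime) :
    topGen k M p ∈ modularFunctionFieldFullC k (M * p) :=
  jd_mem_full k (Nat.mul_ne_zero hM hp.ne_zero) ((pow_dvd_mul_iff hM hp _).mpr le_rfl)

/-- **Generation, packaged**: `E_{Mp} = E_M(topGen)`. -/
theorem full_mul_eq (Φ : ℕ → Polynomial (Polynomial ℤ)) {M p : ℕ} (hM : M ≠ 0)
    (hp : p.Prime) (hΦ : ∀ r, r.Prime → r ∣ M * p → PhiRel k r (Φ r)) :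
    modularFunctionFieldFullC k (M * p) =
      (IntermediateField.adjoin (modularFunctionFieldFullC k M) {topGen k M p}).restrictScalars k := by
  have hMp : M * p ≠ 0 := Nat.mul_ne_zero hM hp.ne_zero
  set L' := IntermediateField.adjoin (modularFunctionFieldFullC k M) {topGen k M p} with hL'
  have hsub : ∀ x ∈ modularFunctionFieldFullC k M, x ∈ L'.restrictScalars k := by
    intro x hx
    rw [IntermediateField.mem_restrictScalars]
    exact L'.algebraMap_mem ⟨x, hx⟩
  have htop : topGen k M p ∈ L'.restrictScalars k := by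
    rw [IntermediateField.mem_restrictScalars]
    exact IntermediateField.mem_adjoin_simple_self _ _
  apply le_antisymm
  · rw [full_le_iff k hMp]
    refine jd_mem_of_dvd_mul Φ hM hp hΦ _ (fun d hd => hsub _ (jd_mem_full k hM hd)) ?_
    intro b hb
    rw [pow_dvd_mul_iff hM hp] at hb
    rcases Nat.lt_or_ge b (topExp M p) with hlt | hge
    · exact hsub _ (jd_mem_full k hM ((pow_dvd_iff' hM hp b).mpr hlt))
    · have : b = topExp M p := le_antisymm hb hge
      rw [this]
      exact htop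
  · intro x hx
    rw [IntermediateField.mem_restrictScalars] at hx
    have hle : L' ≤ IntermediateField.extendScalars
        (full_mono k hMp (Dvd.intro p rfl) :
          modularFunctionFieldFullC k M ≤ modularFunctionFieldFullC k (M * p)) := by
      rw [hL', IntermediateField.adjoin_le_iff]
      rintro y hy
      rw [Set.mem_singleton_iff] at hy
      rw [hy]
      exact (IntermediateField.mem_extendScalars _).mpr (topGen_mem hM hp)
    exact (IntermediateField.mem_extendScalars _).mp (hle hx)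

/-! ### The degree of the top generator -/

/-- `topGen` is a root of a monic polynomial over `E_M` of degree `p + 1`, and of degree `p`
if `p ∣ M`. -/
theorem exists_monic_root_topGen (Φ : Polynomial (Polynomial ℤ)) {M p : ℕ} (hM : M ≠ 0)
    (hp : p.Prime) (hΦ : PhiRel k p Φ) :
    ∃ Q : Polynomial (modularFunctionFieldFullC k M), Q.Monic ∧
      Q.natDegree = (if p ∣ M then p else p + 1) ∧ aeval (topGen k M p) Q = 0 := by
  set E := modularFunctionFieldFullC k M with hE
  have hp0 : p ≠ 0 := hp.ne_zero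
  by_cases hpM : p ∣ M
  · rw [if_pos hpM]
    -- `a ≥ 1`
    obtain ⟨a, ha⟩ : ∃ a, topExp M p = a + 2 := by
      have h1 : 1 + 1 ≤ topExp M p := (pow_dvd_iff' hM hp 1).mp (by rwa [pow_one])
      exact ⟨topExp M p - 2, by omega⟩
    have hmemy : jd k (p ^ (a + 1)) ∈ E :=
      jd_mem_full k hM ((pow_dvd_iff' hM hp (a + 1)).mpr (by omega))
    have hmemc : jd k (p ^ a) ∈ E :=
      jd_mem_full k hM ((pow_dvd_iff' hM hp a).mpr (by omega))
    set y : E := ⟨jd k (p ^ (a + 1)), hmemy⟩ with hy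
    set c : E := ⟨jd k (p ^ a), hmemc⟩ with hc
    set A : Polynomial E := PhiAt Φ y with hA
    have hAmap : A.map (algebraMap E (LaurentSeries k)) = PhiAt Φ (jd k (p ^ (a + 1))) := by
      rw [hA, PhiAt_map]; rfl
    have hpa0 : p ^ a ≠ 0 := pow_ne_zero _ hp0
    have hpa1 : p ^ (a + 1) ≠ 0 := pow_ne_zero _ hp0
    have hrootc : A.IsRoot c := by
      have h1 : (A.map (algebraMap E (LaurentSeries k))).IsRoot
          (algebraMap E (LaurentSeries k) c) := by
        rw [hAmap]
        have := hΦ.root2 hp0 hpa0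
        rwa [← pow_succ] at this
      exact IsRoot.of_map h1 (algebraMap E (LaurentSeries k)).injective
    have hAeq : (X - C c) * (A /ₘ (X - C c)) = A := mul_divByMonic_eq_iff_isRoot.mpr hrootc
    have hAmonic : A.Monic := PhiAt_monic hΦ.monic _
    have hAdeg : A.natDegree = p + 1 := by rw [hA, PhiAt_natDegree hΦ.monic, hΦ.natDegree_eq]
    refine ⟨A /ₘ (X - C c), ?_, ?_, ?_⟩
    · have hd : (X - C c : Polynomial E).degree ≤ A.degree := by
        rw [degree_X_sub_C, degree_eq_natDegree hAmonic.ne_zero, hAdeg]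
        exact_mod_cast Nat.le_add_left 1 p
      rw [Monic, leadingCoeff_divByMonic_of_monic (monic_X_sub_C _) hd]
      exact hAmonic
    · rw [natDegree_divByMonic _ (monic_X_sub_C _), natDegree_X_sub_C, hAdeg]
      rfl
    · have hrootA : aeval (topGen k M p) A = 0 := by
        rw [aeval_def, eval₂_eq_eval_map, hAmap]
        have := hΦ.root1 hp0 hpa1
        rw [← pow_succ] at this
        unfold topGen
        rw [ha]
        exact this
      rw [← hAeq, map_mul, map_sub, aeval_X, aeval_C] at hrootA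
      rcases mul_eq_zero.mp hrootA with h | h
      · exfalso
        have h' : topGen k M p = jd k (p ^ a) := sub_eq_zero.mp h
        unfold topGen at h'
        rw [ha] at h'
        refine jd_ne k (pow_ne_zero _ hp0) hpa0 ?_ h'
        intro hcon
        have := Nat.pow_right_injective hp.two_le hcon
        omega
      · exact h
  · rw [if_neg hpM]
    have htop : topExp M p = 1 := by
      unfold topExp
      rw [Nat.factorization_eq_zero_of_not_dvd hpM]
    have hmemy : jd k 1 ∈ E := jd_mem_full k hM (one_dvd M)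
    set y : E := ⟨jd k 1, hmemy⟩ with hy
    set A : Polynomial E := PhiAt Φ y with hA
    have hAmap : A.map (algebraMap E (LaurentSeries k)) = PhiAt Φ (jd k 1) := by
      rw [hA, PhiAt_map]; rfl
    refine ⟨A, PhiAt_monic hΦ.monic _, ?_, ?_⟩
    · rw [hA, PhiAt_natDegree hΦ.monic, hΦ.natDegree_eq]
    · rw [aeval_def, eval₂_eq_eval_map, hAmap]
      have := hΦ.root1 hp0 one_ne_zero
      rw [one_mul] at this
      unfold topGen
      rw [htop, pow_one]
      exact this

/-- **Tower step.** `0 < [E_{Mp} : E_M] ≤ p + 1`, and `≤ p` if `p ∣ M`. -/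
theorem relfinrank_step (Φ : ℕ → Polynomial (Polynomial ℤ)) {M p : ℕ} (hM : M ≠ 0)
    (hp : p.Prime) (hΦ : ∀ r, r.Prime → r ∣ M * p → PhiRel k r (Φ r)) :
    0 < IntermediateField.relfinrank (modularFunctionFieldFullC k M)
        (modularFunctionFieldFullC k (M * p)) ∧
    IntermediateField.relfinrank (modularFunctionFieldFullC k M)
        (modularFunctionFieldFullC k (M * p)) ≤ (if p ∣ M then p else p + 1) := by
  have hMp : M * p ≠ 0 := Nat.mul_ne_zero hM hp.ne_zero
  have hle : modularFunctionFieldFullC k M ≤ modularFunctionFieldFullC k (M * p) :=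
    full_mono k hMp (Dvd.intro p rfl)
  obtain ⟨Q, hQm, hQd, hQr⟩ :=
    exists_monic_root_topGen (Φ p) hM hp (hΦ p hp (Dvd.intro_left M rfl))
  have hint : IsIntegral (modularFunctionFieldFullC k M) (topGen k M p) := ⟨Q, hQm, by
    rwa [← aeval_def]⟩
  have heq : IntermediateField.extendScalars hle =
      IntermediateField.adjoin (modularFunctionFieldFullC k M) {topGen k M p} := by
    ext x
    rw [IntermediateField.mem_extendScalars, full_mul_eq Φ hM hp hΦ,
      IntermediateField.mem_restrictScalars]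
  rw [IntermediateField.relfinrank_eq_finrank_of_le hle, heq,
    IntermediateField.adjoin.finrank hint]
  refine ⟨minpoly.natDegree_pos hint, ?_⟩
  rw [← hQd]
  exact natDegree_le_of_dvd (minpoly.dvd _ _ hQr) hQm.ne_zero

end Fermat.Agent.S28.H988

end

end
-- ===== PACK-END S28/H988/Tower.lean

-- ===== PACK-BEGIN S28/H988/Upper.lean
section
/-
S28 / [L.UP] upper bound, helper988.
`[E_N : k(j)] ≤ ψ(N)` over ANY field `k`, from the modular relations at the primes dividing `N`;
adapter from the captain's `ModPolyData`.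
-/






set_option autoImplicit false

noncomputable section

open Polynomial ModularCurve

namespace Fermat.Agent.S28.H988

variable (k : Type*) [Field k]

/-- Adapter: the captain's `ModPolyData p` gives the relations over every field. -/
theorem phiRel_of_modPolyData (p : ℕ) [NeZero p] (D : Fermat.Agent.S28.ModPolyData p) :
    PhiRel k p D.Φ := by
  set c : LaurentSeries ℤ →+* LaurentSeries k := coeffMap (Int.castRingHom k) with hc
  have hcj : c (jqModC ℤ) = jqModC k := coeffMap_jqModC _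
  have hcjp : c (qExpand ℤ p (jqModC ℤ)) = jd k p := by
    rw [hc, coeffMap_qExpand, coeffMap_jqModC, jd_eq]
  have hcomp : ∀ y : LaurentSeries ℤ,
      c.comp (Fermat.Agent.S28.evalAt y) = eval₂RingHom (Int.castRingHom (LaurentSeries k)) (c y) := by
    intro y
    apply Polynomial.ringHom_ext
    · intro a
      simp [Fermat.Agent.S28.evalAt]
    · simp [Fermat.Agent.S28.evalAt]
  refine ⟨D.monic, D.natDegree_eq, ?_, ?_⟩
  · have := congrArg c D.eval_jp
    rw [map_zero, Polynomial.hom_eval₂, hcomp, hcj, hcjp, eval₂_eq_eval_map] at this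
    exact this
  · have := congrArg c D.eval_j
    rw [map_zero, Polynomial.hom_eval₂, hcomp, hcj, hcjp, eval₂_eq_eval_map] at this
    exact this

theorem full_one : modularFunctionFieldFullC k 1 = IntermediateField.adjoin k {jqModC k} := by
  apply le_antisymm
  · rw [full_le_iff k one_ne_zero]
    intro d hd
    rw [Nat.dvd_one.mp hd, jd_one]
    exact IntermediateField.mem_adjoin_simple_self k _
  · rw [IntermediateField.adjoin_le_iff]
    rintro x hx
    rw [Set.mem_singleton_iff] at hx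
    rw [hx]
    exact jqModC_mem_full k 1

variable {k}

/-- **Upper bound.** `0 < [E_N : E_1] ≤ ψ(N)`. -/
theorem relfinrank_full_le (Φ : ℕ → Polynomial (Polynomial ℤ)) (N : ℕ) (hN : N ≠ 0)
    (hΦ : ∀ r, r.Prime → r ∣ N → PhiRel k r (Φ r)) :
    0 < IntermediateField.relfinrank (modularFunctionFieldFullC k 1)
        (modularFunctionFieldFullC k N) ∧
    IntermediateField.relfinrank (modularFunctionFieldFullC k 1)
        (modularFunctionFieldFullC k N) ≤ dedekindPsi N := by
  induction N using induction_on_primes with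
  | zero => exact absurd rfl hN
  | one =>
    rw [IntermediateField.relfinrank_self, dedekindPsi_one]
    exact ⟨Nat.one_pos, le_rfl⟩
  | prime_mul p M hp ih =>
    have hM : M ≠ 0 := by rintro rfl; simp at hN
    rw [mul_comm p M] at hΦ ⊢
    have ih' := ih hM (fun r hr hrM => hΦ r hr (hrM.trans (Dvd.intro p rfl)))
    have hstep := relfinrank_step Φ hM hp hΦ
    have hMp : M * p ≠ 0 := Nat.mul_ne_zero hM hp.ne_zero
    have h1 : modularFunctionFieldFullC k 1 ≤ modularFunctionFieldFullC k M :=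
      full_mono k hM (one_dvd M)
    have h2 : modularFunctionFieldFullC k M ≤ modularFunctionFieldFullC k (M * p) :=
      full_mono k hMp (Dvd.intro p rfl)
    rw [← IntermediateField.relfinrank_mul_relfinrank h1 h2]
    refine ⟨Nat.mul_pos ih'.1 hstep.1, ?_⟩
    by_cases hpM : p ∣ M
    · rw [if_pos hpM] at hstep
      rw [Fermat.Agent.S20.H872.dedekindPsi_mul_prime_of_dvd hM hp hpM, mul_comm]
      exact Nat.mul_le_mul hstep.2 ih'.2
    · rw [if_neg hpM] at hstep
      rw [Fermat.Agent.S20.H872.dedekindPsi_mul_prime_of_not_dvd hM hp hpM, mul_comm]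
      exact Nat.mul_le_mul hstep.2 ih'.2

/-- **Upper bound**, existential form of the hypothesis. -/
theorem relfinrank_full_le' (N : ℕ) (hN : N ≠ 0)
    (hΦ : ∀ r : ℕ, r.Prime → r ∣ N → ∃ Φ : Polynomial (Polynomial ℤ), PhiRel k r Φ) :
    0 < IntermediateField.relfinrank (modularFunctionFieldFullC k 1)
        (modularFunctionFieldFullC k N) ∧
    IntermediateField.relfinrank (modularFunctionFieldFullC k 1)
        (modularFunctionFieldFullC k N) ≤ dedekindPsi N := by
  classical
  set Φ : ℕ → Polynomial (Polynomial ℤ) := fun r =>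
    if h : r.Prime ∧ r ∣ N then (hΦ r h.1 h.2).choose else 0 with hΦdef
  refine relfinrank_full_le Φ N hN ?_
  intro r hr hrN
  have hΦr : Φ r = (hΦ r hr hrN).choose := by
    rw [hΦdef]
    simp only
    rw [dif_pos ⟨hr, hrN⟩]
  rw [hΦr]
  exact (hΦ r hr hrN).choose_spec

/-- **Upper bound from the captain's interface**, over any field `k`:
`0 < [k(j(q^d) : d ∣ N) : k(j)] ≤ ψ(N)`. -/
theorem relfinrank_jField_full_le (N : ℕ) (hN : N ≠ 0)
    (hΦ : ∀ (r : ℕ) (hr : r.Prime), r ∣ N →
      Nonempty (@Fermat.Agent.S28.ModPolyData r ⟨hr.ne_zero⟩)) :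
    0 < IntermediateField.relfinrank (Fermat.Agent.S28.jField k)
        (modularFunctionFieldFullC k N) ∧
    IntermediateField.relfinrank (Fermat.Agent.S28.jField k)
        (modularFunctionFieldFullC k N) ≤ dedekindPsi N := by
  have hj : Fermat.Agent.S28.jField k = modularFunctionFieldFullC k 1 := (full_one k).symm
  rw [hj]
  refine relfinrank_full_le' N hN ?_
  intro r hr hrN
  have : NeZero r := ⟨hr.ne_zero⟩
  obtain ⟨D⟩ := hΦ r hr hrN
  exact ⟨D.Φ, phiRel_of_modPolyData k r D⟩

/-- The same over `ℚ`, for the Prelude's `modularFunctionFieldFull`. -/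
theorem relfinrank_jField_modularFunctionFieldFull_le (N : ℕ) (hN : N ≠ 0)
    (hΦ : ∀ (r : ℕ) (hr : r.Prime), r ∣ N →
      Nonempty (@Fermat.Agent.S28.ModPolyData r ⟨hr.ne_zero⟩)) :
    0 < IntermediateField.relfinrank (Fermat.Agent.S28.jField ℚ) (modularFunctionFieldFull N) ∧
    IntermediateField.relfinrank (Fermat.Agent.S28.jField ℚ) (modularFunctionFieldFull N)
      ≤ dedekindPsi N :=
  relfinrank_jField_full_le (k := ℚ) N hN hΦ

end Fermat.Agent.S28.H988

end

end
-- ===== PACK-END S28/H988/Upper.lean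

-- ===== PACK-BEGIN S35/H858/NormBC.lean
section





/-!
# S35, cell FROB, leaf QNF (helper858) — norms commute with the constant field extension `E ⊆ ℚ̄`

`E ⊆ ℚ̄` an intermediate field, `F₀ ⊆ ℚ((t))`, `F_E = laurentBaseChange E F₀`,
`F̄ = laurentBaseChange ℚ̄ F₀`, `iota : F_E → F̄` (helper669).

* `constFamily E F₀`          : the constants `ε_j`, `ε` an `E`-basis of `ℚ̄`, as elements of `F̄`;
* `linearIndependent_const`   : they are linearly independent over `F_E` (coefficientwise);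
* `span_const_eq_top`         : they span `F̄` over `F_E` (`F̄ = F_E[ℚ̄]`, as `ℚ̄ / E` is algebraic);
* `constBasis E F₀`           : the resulting `F_E`-basis of `F̄`;
* `iota_normAlong`            : for compatible `ψ : F_{0,E} → F_{1,E}`, `ψ' : F̄_0 → F̄_1` with
  `ψ'` finite: `iota (N_ψ y) = N_ψ' (iota y)`;
* `finiteAlong_of_bar`        : `ψ'` finite ⟹ `ψ` finite;
* `iota_normAlong_alpha`, `iota_normAlong_beta` : the modular instances
  (`heckeAlphaBar`, `heckeBetaBar`).
-/

set_option autoImplicit false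
set_option linter.style.haveILetI false
set_option synthInstance.maxHeartbeats 400000
set_option maxHeartbeats 1600000

noncomputable section

namespace Fermat.Agent.S35.H858

open ModularCurve AlgebraicCurve Module Fermat.Agent.A2.T1.H669

variable (E : IntermediateField ℚ Qb) (F₀ : IntermediateField ℚ (LaurentSeries ℚ))

/-- The index set of a basis of `ℚ̄` over `E`. -/
abbrev JE : Type := Basis.ofVectorSpaceIndex E Qb

/-- A basis of `ℚ̄` over `E`. -/
def epsE : Basis (JE E) E Qb := Basis.ofVectorSpace E Qb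

/-- The constants `ε_j` as elements of `F̄`. -/
def constFamily (j : JE E) : ↥(laurentBaseChange Qb F₀) :=
  algebraMap Qb ↥(laurentBaseChange Qb F₀) (epsE E j)

theorem coeff_smul_const (g : ↥(laurentBaseChange E F₀)) (e : Qb) (n : ℤ) :
    ((iota E F₀ g * algebraMap Qb ↥(laurentBaseChange Qb F₀) e :
        ↥(laurentBaseChange Qb F₀)) : LaurentSeries Qb).coeff n =
      ((g : LaurentSeries E).coeff n) • e := by
  have h1 : ((iota E F₀ g * algebraMap Qb ↥(laurentBaseChange Qb F₀) e :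
        ↥(laurentBaseChange Qb F₀)) : LaurentSeries Qb) =
      coeffMap (algebraMap E Qb) (g : LaurentSeries E) * HahnSeries.single 0 e := by
    rw [← algebraMap_laurentSeries_eq_single]
    rfl
  rw [h1, HahnSeries.coeff_mul_single_zero, coeffMap_coeff, Algebra.smul_def]

/-- The constants `ε_j` are linearly independent over `F_E`. -/
theorem linearIndependent_const :
    letI := algFEFbar E F₀
    LinearIndependent ↥(laurentBaseChange E F₀) (constFamily E F₀) := by
  letI := algFEFbar E F₀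
  rw [linearIndependent_iff']
  intro s g hg i hi
  apply Subtype.ext
  apply HahnSeries.ext
  funext n
  have h1 : ∑ j ∈ s, ((g j : LaurentSeries E).coeff n) • (epsE E j) = 0 := by
    let φ : ↥(laurentBaseChange Qb F₀) →+ Qb :=
      (HahnSeries.coeff.addMonoidHom n).comp
        ((laurentBaseChange Qb F₀).val : ↥(laurentBaseChange Qb F₀) →+ LaurentSeries Qb)
    have h2 : φ (∑ j ∈ s, g j • constFamily E F₀ j) = 0 := by
      rw [hg, map_zero]
    rw [map_sum] at h2
    rw [← h2]
    refine Finset.sum_congr rfl fun j _ => ?_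
    rw [← coeff_smul_const E F₀ (g j) (epsE E j) n]
    rfl
  exact linearIndependent_iff'.mp (epsE E).linearIndependent s
    (fun j => (g j : LaurentSeries E).coeff n) h1 i hi

/-- `F̄` is generated over `F_E` by the constants. -/
theorem adjoin_const_eq_top :
    letI := algFEFbar E F₀
    IntermediateField.adjoin ↥(laurentBaseChange E F₀)
      (Set.range (algebraMap Qb ↥(laurentBaseChange Qb F₀))) = ⊤ := by
  letI := algFEFbar E F₀
  rw [eq_top_iff]
  rintro ⟨z, hz⟩ -
  have key : ∃ w : ↥(laurentBaseChange Qb F₀),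
      w ∈ IntermediateField.adjoin ↥(laurentBaseChange E F₀)
        (Set.range (algebraMap Qb ↥(laurentBaseChange Qb F₀))) ∧
      (w : LaurentSeries Qb) = z := by
    have hz2 := hz
    rw [mem_laurentBaseChange_iff] at hz2
    induction hz2 using Subfield.closure_induction with
    | mem y hy =>
        rcases hy with ⟨a, rfl⟩ | ⟨z₀, hz₀, rfl⟩
        · exact ⟨algebraMap Qb ↥(laurentBaseChange Qb F₀) a,
            IntermediateField.subset_adjoin _ _ ⟨a, rfl⟩, rfl⟩
        · refine ⟨algebraMap ↥(laurentBaseChange E F₀) ↥(laurentBaseChange Qb F₀)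
                ⟨coeffEmb E z₀, coeffEmb_mem_laurentBaseChange E hz₀⟩,
            IntermediateField.algebraMap_mem _ _, ?_⟩
          exact Fermat.Agent.S18.H602.coeffMap_coeffEmb' (algebraMap E Qb) z₀
    | one => exact ⟨1, one_mem _, rfl⟩
    | add x y hx' hy' hx hy =>
        obtain ⟨w₁, hw₁, rfl⟩ := hx ((mem_laurentBaseChange_iff).2 hx')
        obtain ⟨w₂, hw₂, rfl⟩ := hy ((mem_laurentBaseChange_iff).2 hy')
        exact ⟨w₁ + w₂, add_mem hw₁ hw₂, rfl⟩
    | neg x hx' hx =>
        obtain ⟨w₁, hw₁, rfl⟩ := hx ((mem_laurentBaseChange_iff).2 hx')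
        exact ⟨-w₁, neg_mem hw₁, rfl⟩
    | inv x hx' hx =>
        obtain ⟨w₁, hw₁, rfl⟩ := hx ((mem_laurentBaseChange_iff).2 hx')
        exact ⟨w₁⁻¹, inv_mem hw₁, IntermediateField.coe_inv _ _⟩
    | mul x y hx' hy' hx hy =>
        obtain ⟨w₁, hw₁, rfl⟩ := hx ((mem_laurentBaseChange_iff).2 hx')
        obtain ⟨w₂, hw₂, rfl⟩ := hy ((mem_laurentBaseChange_iff).2 hy')
        exact ⟨w₁ * w₂, mul_mem hw₁ hw₂, rfl⟩
  obtain ⟨w, hw, hwz⟩ := key
  have hwz' : w = ⟨z, hz⟩ := Subtype.ext hwz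
  rw [← hwz']
  exact hw

/-- Every constant is an `F_E`-combination of the `ε_j`. -/
theorem const_mem_span (e : Qb) :
    letI := algFEFbar E F₀
    algebraMap Qb ↥(laurentBaseChange Qb F₀) e ∈
      Submodule.span ↥(laurentBaseChange E F₀) (Set.range (constFamily E F₀)) := by
  letI := algFEFbar E F₀
  have h1 : e = ∑ j ∈ ((epsE E).repr e).support, ((epsE E).repr e j) • epsE E j := by
    conv_lhs => rw [← (epsE E).linearCombination_repr e]
    rw [Finsupp.linearCombination_apply, Finsupp.sum]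
  rw [h1, map_sum]
  refine Submodule.sum_mem _ fun j _ => ?_
  have h2 : algebraMap Qb ↥(laurentBaseChange Qb F₀) (((epsE E).repr e j) • epsE E j) =
      (algebraMap E ↥(laurentBaseChange E F₀) ((epsE E).repr e j)) • constFamily E F₀ j := by
    rw [Algebra.smul_def, Algebra.smul_def, map_mul]
    congr 1
    exact (iota_algebraMap E F₀ _).symm
  rw [h2]
  exact Submodule.smul_mem _ _ (Submodule.subset_span ⟨j, rfl⟩)

/-- The constants `ε_j` span `F̄` over `F_E`. -/
theorem span_const_eq_top :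
    letI := algFEFbar E F₀
    Submodule.span ↥(laurentBaseChange E F₀) (Set.range (constFamily E F₀)) = ⊤ := by
  letI := algFEFbar E F₀
  haveI := towerEFEFbar E F₀
  have halg : ∀ x ∈ Set.range (algebraMap Qb ↥(laurentBaseChange Qb F₀)),
      IsAlgebraic ↥(laurentBaseChange E F₀) x := by
    rintro _ ⟨a, rfl⟩
    exact (isAlgebraic_const E F₀ a).tower_top ↥(laurentBaseChange E F₀)
  have h1 := IntermediateField.adjoin_toSubalgebra_of_isAlgebraic halg
  rw [adjoin_const_eq_top E F₀] at h1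
  have h2 := Algebra.adjoin_eq_span (R := ↥(laurentBaseChange E F₀))
    (s := Set.range (algebraMap Qb ↥(laurentBaseChange Qb F₀)))
  rw [← h1] at h2
  have h3 : (Submonoid.closure (Set.range (algebraMap Qb ↥(laurentBaseChange Qb F₀))) :
      Set ↥(laurentBaseChange Qb F₀)) = Set.range (algebraMap Qb ↥(laurentBaseChange Qb F₀)) := by
    have : Set.range (algebraMap Qb ↥(laurentBaseChange Qb F₀)) =
        ((MonoidHom.mrange ((algebraMap Qb ↥(laurentBaseChange Qb F₀) : Qb →+* _) :
          Qb →* ↥(laurentBaseChange Qb F₀)) : Submonoid _) : Set _) := by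
      ext x; simp
    rw [this, Submonoid.closure_eq]
  rw [h3] at h2
  rw [eq_top_iff]
  have h4 : Submodule.span ↥(laurentBaseChange E F₀)
      (Set.range (algebraMap Qb ↥(laurentBaseChange Qb F₀))) ≤
      Submodule.span ↥(laurentBaseChange E F₀) (Set.range (constFamily E F₀)) := by
    rw [Submodule.span_le]
    rintro _ ⟨e, rfl⟩
    exact const_mem_span E F₀ e
  refine le_trans ?_ h4
  rw [← h2]
  intro z _
  exact @Algebra.mem_top ↥(laurentBaseChange E F₀) ↥(laurentBaseChange Qb F₀) _ _ _ z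

/-- The `F_E`-basis `ε_j` of `F̄`. -/
def constBasis :
    letI := algFEFbar E F₀
    Basis (JE E) ↥(laurentBaseChange E F₀) ↥(laurentBaseChange Qb F₀) :=
  letI := algFEFbar E F₀
  Basis.mk (linearIndependent_const E F₀) (span_const_eq_top E F₀).ge

theorem constBasis_apply (j : JE E) :
    letI := algFEFbar E F₀
    constBasis E F₀ j = algebraMap Qb ↥(laurentBaseChange Qb F₀) (epsE E j) := by
  letI := algFEFbar E F₀
  exact Basis.mk_apply (linearIndependent_const E F₀) (span_const_eq_top E F₀).ge j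

/-! ## Norms -/

section Norm

variable (F₁ : IntermediateField ℚ (LaurentSeries ℚ))
variable (ψ : ↥(laurentBaseChange E F₀) →ₐ[E] ↥(laurentBaseChange E F₁))
  (ψ' : ↥(laurentBaseChange Qb F₀) →ₐ[Qb] ↥(laurentBaseChange Qb F₁))

/-- If `ψ'` (over `ℚ̄`) is finite, so is `ψ` (over `E`). -/
theorem finiteAlong_of_bar (hc : ∀ a, iota E F₁ (ψ a) = ψ' (iota E F₀ a))
    (hfin : FiniteAlong Qb ψ') : FiniteAlong E ψ := by
  letI a1 : Algebra ↥(laurentBaseChange E F₀) ↥(laurentBaseChange E F₁) := algebraAlong ψ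
  letI a2 : Algebra ↥(laurentBaseChange E F₀) ↥(laurentBaseChange Qb F₀) := algFEFbar E F₀
  letI a3 : Algebra ↥(laurentBaseChange Qb F₀) ↥(laurentBaseChange Qb F₁) := algebraAlong ψ'
  letI a4 : Algebra ↥(laurentBaseChange E F₁) ↥(laurentBaseChange Qb F₁) := algFEFbar E F₁
  letI a5 : Algebra ↥(laurentBaseChange E F₀) ↥(laurentBaseChange Qb F₁) :=
    ((iota E F₁).comp ψ.toRingHom).toAlgebra
  haveI t1 : IsScalarTower ↥(laurentBaseChange E F₀) ↥(laurentBaseChange E F₁)
      ↥(laurentBaseChange Qb F₁) := IsScalarTower.of_algebraMap_eq fun a => rfl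
  haveI t2 : IsScalarTower ↥(laurentBaseChange E F₀) ↥(laurentBaseChange Qb F₀)
      ↥(laurentBaseChange Qb F₁) := IsScalarTower.of_algebraMap_eq fun a => hc a
  haveI : Module.Finite ↥(laurentBaseChange Qb F₀) ↥(laurentBaseChange Qb F₁) := hfin
  have hε : ∀ j, constBasis E F₁ j =
      algebraMap ↥(laurentBaseChange Qb F₀) ↥(laurentBaseChange Qb F₁) (constBasis E F₀ j) := by
    intro j
    rw [constBasis_apply, constBasis_apply]
    exact (ψ'.commutes _).symm
  exact finite_of_common_basis (constBasis E F₀) (constBasis E F₁) hε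

/-- **Norms commute with the constant field extension.** -/
theorem iota_normAlong (hc : ∀ a, iota E F₁ (ψ a) = ψ' (iota E F₀ a))
    (hfin : FiniteAlong Qb ψ') (y : ↥(laurentBaseChange E F₁)) :
    iota E F₀ (Fermat.Agent.S29.H395.normAlong ψ y) =
      Fermat.Agent.S29.H395.normAlong ψ' (iota E F₁ y) := by
  letI a1 : Algebra ↥(laurentBaseChange E F₀) ↥(laurentBaseChange E F₁) := algebraAlong ψ
  letI a2 : Algebra ↥(laurentBaseChange E F₀) ↥(laurentBaseChange Qb F₀) := algFEFbar E F₀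
  letI a3 : Algebra ↥(laurentBaseChange Qb F₀) ↥(laurentBaseChange Qb F₁) := algebraAlong ψ'
  letI a4 : Algebra ↥(laurentBaseChange E F₁) ↥(laurentBaseChange Qb F₁) := algFEFbar E F₁
  letI a5 : Algebra ↥(laurentBaseChange E F₀) ↥(laurentBaseChange Qb F₁) :=
    ((iota E F₁).comp ψ.toRingHom).toAlgebra
  haveI t1 : IsScalarTower ↥(laurentBaseChange E F₀) ↥(laurentBaseChange E F₁)
      ↥(laurentBaseChange Qb F₁) := IsScalarTower.of_algebraMap_eq fun a => rfl
  haveI t2 : IsScalarTower ↥(laurentBaseChange E F₀) ↥(laurentBaseChange Qb F₀)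
      ↥(laurentBaseChange Qb F₁) := IsScalarTower.of_algebraMap_eq fun a => hc a
  haveI : Module.Finite ↥(laurentBaseChange Qb F₀) ↥(laurentBaseChange Qb F₁) := hfin
  have hε : ∀ j, constBasis E F₁ j =
      algebraMap ↥(laurentBaseChange Qb F₀) ↥(laurentBaseChange Qb F₁) (constBasis E F₀ j) := by
    intro j
    rw [constBasis_apply, constBasis_apply]
    exact (ψ'.commutes _).symm
  haveI : Module.Finite ↥(laurentBaseChange E F₀) ↥(laurentBaseChange E F₁) :=
    finite_of_common_basis (constBasis E F₀) (constBasis E F₁) hε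
  exact norm_algebraMap_of_common_basis (constBasis E F₀) (constBasis E F₁) hε y

end Norm

/-! ## The modular instances -/

section Modular

variable (M q : ℕ) [NeZero M] [NeZero q]

theorem iota_heckeAlphaBar (a : ↥(laurentBaseChange E (modularFunctionFieldFull M))) :
    iota E (modularFunctionFieldFull (M * q)) (heckeAlphaBar E M q a) =
      heckeAlphaBar Qb M q (iota E (modularFunctionFieldFull M) a) :=
  Subtype.ext (by rw [coe_iota, coe_heckeAlphaBar, coe_heckeAlphaBar, coe_iota])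

theorem iota_heckeBetaBar (a : ↥(laurentBaseChange E (modularFunctionFieldFull M))) :
    iota E (modularFunctionFieldFull (M * q)) (heckeBetaBar E M q a) =
      heckeBetaBar Qb M q (iota E (modularFunctionFieldFull M) a) :=
  Subtype.ext (by
    rw [coe_iota, coe_heckeBetaBar, coe_heckeBetaBar, coe_iota, coeffMap_qExpand])

/-- The norm along `α` commutes with `E ⊆ ℚ̄`. -/
theorem iota_normAlong_alpha (hfin : FiniteAlong Qb (heckeAlphaBar Qb M q))
    (y : ↥(laurentBaseChange E (modularFunctionFieldFull (M * q)))) :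
    iota E (modularFunctionFieldFull M)
        (Fermat.Agent.S29.H395.normAlong (heckeAlphaBar E M q) y) =
      Fermat.Agent.S29.H395.normAlong (heckeAlphaBar Qb M q)
        (iota E (modularFunctionFieldFull (M * q)) y) :=
  iota_normAlong E _ _ _ _ (iota_heckeAlphaBar E M q) hfin y

/-- The norm along `β` commutes with `E ⊆ ℚ̄`. -/
theorem iota_normAlong_beta (hfin : FiniteAlong Qb (heckeBetaBar Qb M q))
    (y : ↥(laurentBaseChange E (modularFunctionFieldFull (M * q)))) :
    iota E (modularFunctionFieldFull M)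
        (Fermat.Agent.S29.H395.normAlong (heckeBetaBar E M q) y) =
      Fermat.Agent.S29.H395.normAlong (heckeBetaBar Qb M q)
        (iota E (modularFunctionFieldFull (M * q)) y) :=
  iota_normAlong E _ _ _ _ (iota_heckeBetaBar E M q) hfin y

end Modular

end Fermat.Agent.S35.H858

end
end
-- ===== PACK-END S35/H858/NormBC.lean

-- ===== PACK-BEGIN S55/Bridge/H594/PrimeBelow.lean
section



/-!
# S55 bridge (helper594): valuation subrings of `ℚ̄` versus primes of `ℤ̄`

For a valuation subring `A` of `ℚ̄` lying over a prime number `q`, the decomposition group of `A`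
is the stabiliser of the prime `primeBelow A` of the ring `ℤ̄` of all algebraic integers, and the
inertia group of `A` is the inertia group of `primeBelow A`.
-/

set_option autoImplicit false

namespace Fermat.Agent.S55.Bridge.H594

open Fermat.Agent.S54 Fermat.Agent.S55.Bridge
open scoped Pointwise

attribute [local instance] isAlgebraic_Qbar isGalois_Qbar

section basic

variable (A : ValuationSubring (AlgebraicClosure ℚ))

/-- Algebraic integers lie in every valuation subring. -/
theorem coe_mem (b : integralClosure ℤ (AlgebraicClosure ℚ)) : (b : AlgebraicClosure ℚ) ∈ A :=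
  isIntegral_mem_valuationSubring A b.2

theorem coe_smul (σ : AlgebraicClosure ℚ ≃ₐ[ℚ] AlgebraicClosure ℚ)
    (b : integralClosure ℤ (AlgebraicClosure ℚ)) :
    ((σ • b : integralClosure ℤ (AlgebraicClosure ℚ)) : AlgebraicClosure ℚ) = σ b := rfl

/-- `σ` stabilises `primeBelow A` iff it preserves membership. -/
theorem smul_primeBelow_eq_iff (σ : AlgebraicClosure ℚ ≃ₐ[ℚ] AlgebraicClosure ℚ) :
    σ • primeBelow A = primeBelow A ↔
      ∀ b : integralClosure ℤ (AlgebraicClosure ℚ), σ • b ∈ primeBelow A ↔ b ∈ primeBelow A := by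
  constructor
  · intro h b
    conv_lhs => rw [← h]
    exact Ideal.smul_mem_pointwise_smul_iff
  · intro h
    ext b
    rw [Ideal.mem_pointwise_smul_iff_inv_smul_mem]
    rw [← h (σ⁻¹ • b), smul_inv_smul]

/-- If `σ` preserves the prime below `A`, it maps `A` into `A`. -/
theorem map_mem_of_smul_primeBelow {q : ℕ} (hq : q.Prime) (hA : A.LiesOverPrime q)
    (τ : AlgebraicClosure ℚ ≃ₐ[ℚ] AlgebraicClosure ℚ)
    (hτ : ∀ b : integralClosure ℤ (AlgebraicClosure ℚ), τ • b ∈ primeBelow A ↔ b ∈ primeBelow A)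
    (x : AlgebraicClosure ℚ) (hx : x ∈ A) : τ x ∈ A := by
  obtain ⟨b, s, hb, hs, hsA, hxs⟩ := (mem_valuationSubring_iff A q hq hA x).mp hx
  refine (mem_valuationSubring_iff A q hq hA (τ x)).mpr
    ⟨τ b, τ s, hb.map τ, hs.map τ, ?_, ?_⟩
  · exact (hτ ⟨s, hs⟩).not.mpr hsA
  · rw [← map_mul, hxs]

/-- The decomposition group of `A` is the stabiliser of the prime of `ℤ̄` below `A`. -/
theorem mem_decompositionSubgroup_iff_smul_primeBelow {q : ℕ} (hq : q.Prime)
    (hA : A.LiesOverPrime q) (σ : AlgebraicClosure ℚ ≃ₐ[ℚ] AlgebraicClosure ℚ) :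
    σ ∈ A.decompositionSubgroup ℚ ↔ σ • primeBelow A = primeBelow A := by
  rw [smul_primeBelow_eq_iff]
  constructor
  · intro hσ b
    have h1 := (mem_decompositionSubgroup_iff A σ).mp hσ
    rw [mem_primeBelow, mem_primeBelow, coe_smul, ValuationSubring.mem_nonunits_iff_or,
      ValuationSubring.mem_nonunits_iff_or, ← map_inv₀, h1, map_eq_zero_iff σ σ.injective]
  · intro hσ
    rw [mem_decompositionSubgroup_iff]
    intro x
    constructor
    · intro hx
      have h2 : ∀ b : integralClosure ℤ (AlgebraicClosure ℚ),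
          σ⁻¹ • b ∈ primeBelow A ↔ b ∈ primeBelow A := by
        intro b
        rw [← hσ (σ⁻¹ • b), smul_inv_smul]
      have := map_mem_of_smul_primeBelow A hq hA σ⁻¹ h2 (σ x) hx
      simpa using this
    · exact map_mem_of_smul_primeBelow A hq hA σ hσ x

/-- An integral element outside the prime below `A` has valuation `1`. -/
theorem valuation_eq_one_of_not_mem_nonunits {s : AlgebraicClosure ℚ} (hs : IsIntegral ℤ s)
    (hsA : s ∉ A.nonunits) : A.valuation s = 1 := by
  have h1 : A.valuation s ≤ 1 :=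
    (A.valuation_le_one_iff _).mpr (isIntegral_mem_valuationSubring A hs)
  rw [ValuationSubring.mem_nonunits_iff, not_lt] at hsA
  exact le_antisymm h1 hsA

/-- The inertia group of `A` is the inertia group of the prime of `ℤ̄` below `A`. -/
theorem mem_inertiaSubgroupIn_iff_primeBelow {q : ℕ} (hq : q.Prime)
    (hA : A.LiesOverPrime q) (σ : AlgebraicClosure ℚ ≃ₐ[ℚ] AlgebraicClosure ℚ) :
    σ ∈ A.inertiaSubgroupIn ℚ ↔
      ∀ b : integralClosure ℤ (AlgebraicClosure ℚ), σ • b - b ∈ primeBelow A := by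
  constructor
  · intro hσ b
    exact ((mem_inertiaSubgroupIn_iff A σ).mp hσ).2 b (coe_mem A b)
  · intro hσ
    have hstab : ∀ b : integralClosure ℤ (AlgebraicClosure ℚ),
        σ • b ∈ primeBelow A ↔ b ∈ primeBelow A := by
      intro b
      constructor
      · intro h
        have := (primeBelow A).sub_mem h (hσ b)
        simpa using this
      · intro h
        have := (primeBelow A).add_mem (hσ b) h
        simpa using this
    have hD : σ ∈ A.decompositionSubgroup ℚ :=
      (mem_decompositionSubgroup_iff_smul_primeBelow A hq hA σ).mpr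
        ((smul_primeBelow_eq_iff A σ).mpr hstab)
    rw [mem_inertiaSubgroupIn_iff]
    refine ⟨hD, fun z hz => ?_⟩
    obtain ⟨b, s, hb, hs, hsA, hzs⟩ := (mem_valuationSubring_iff A q hq hA z).mp hz
    have hs0 : s ≠ 0 := fun h => hsA (h ▸ A.nonunits.zero_mem)
    have hσs0 : σ s ≠ 0 := (map_ne_zero_iff σ σ.injective).mpr hs0
    have hσsA : σ s ∉ A.nonunits := (hstab ⟨s, hs⟩).not.mpr hsA
    have hvs : A.valuation s = 1 := valuation_eq_one_of_not_mem_nonunits A hs hsA
    have hvσs : A.valuation (σ s) = 1 :=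
      valuation_eq_one_of_not_mem_nonunits A (hs.map σ) hσsA
    have hz' : z = b / s := by rw [← hzs]; field_simp
    have hnum : (σ b - b) * s - b * (σ s - s) ∈ A.nonunits := by
      rw [ValuationSubring.mem_nonunits_iff]
      have h1 : A.valuation ((σ b - b) * s) < 1 := by
        rw [map_mul, hvs, mul_one]
        exact (ValuationSubring.mem_nonunits_iff A).mp (hσ ⟨b, hb⟩)
      have h2 : A.valuation (b * (σ s - s)) < 1 := by
        rw [map_mul]
        have hb1 : A.valuation b ≤ 1 :=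
          (A.valuation_le_one_iff _).mpr (isIntegral_mem_valuationSubring A hb)
        have hs1 : A.valuation (σ s - s) < 1 :=
          (ValuationSubring.mem_nonunits_iff A).mp (hσ ⟨s, hs⟩)
        exact mul_lt_one_of_nonneg_of_lt_one_right hb1 zero_le hs1
      exact lt_of_le_of_lt (Valuation.map_sub _ _ _) (max_lt h1 h2)
    have hval : σ z - z = ((σ b - b) * s - b * (σ s - s)) / (s * σ s) := by
      rw [hz', map_div₀]
      field_simp
      ring
    rw [hval, ValuationSubring.mem_nonunits_iff, map_div₀, map_mul, hvs, hvσs, mul_one,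
      div_one]
    exact (ValuationSubring.mem_nonunits_iff A).mp hnum

end basic

end Fermat.Agent.S55.Bridge.H594

end
-- ===== PACK-END S55/Bridge/H594/PrimeBelow.lean

-- ===== PACK-BEGIN S55/Bridge/H594/Lift.lean
section



/-!
# S55 bridge (helper594), piece B14: lifting decomposition and inertia elements

`F ⊂ ℚ̄` a normal intermediate field, `A` a valuation subring of `ℚ̄` over a prime number `q`.

* `exists_decomposition_lift`: every `τ ∈ Gal(F/ℚ)` stabilising the prime of `𝓞_F` below `A`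
  is the restriction of an element of the decomposition group of `A`;
* `exists_inertia_lift`: every `τ ∈ Gal(F/ℚ)` acting trivially on `𝓞_F` modulo the prime below
  `A` is the restriction of an element of the inertia group of `A`.
-/

set_option autoImplicit false
set_option linter.style.haveILetI false

namespace Fermat.Agent.S55.Bridge.H594

open Fermat.Agent.S54 Fermat.Agent.S55.Bridge
open scoped Pointwise

attribute [local instance] isAlgebraic_Qbar isGalois_Qbar

section lift

variable (F : IntermediateField ℚ (AlgebraicClosure ℚ))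

/-- An algebraic integer fixed by `Gal(ℚ̄/F)` lies in `F`. -/
theorem coe_mem_of_forall_fixingSubgroup_smul_eq
    (b : integralClosure ℤ (AlgebraicClosure ℚ))
    (hb : ∀ h : F.fixingSubgroup, h • b = b) : (b : AlgebraicClosure ℚ) ∈ F := by
  have h1 : (b : AlgebraicClosure ℚ) ∈ IntermediateField.fixedField F.fixingSubgroup := by
    intro h
    exact congrArg Subtype.val (hb h)
  rwa [InfiniteGalois.fixedField_fixingSubgroup] at h1

variable [Normal ℚ F]

theorem restrictNormalHom_apply (σ : AlgebraicClosure ℚ ≃ₐ[ℚ] AlgebraicClosure ℚ) (x : F) :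
    ((AlgEquiv.restrictNormalHom F σ x : F) : AlgebraicClosure ℚ) = σ (x : AlgebraicClosure ℚ) :=
  AlgEquiv.restrictNormal_commutes σ F x

theorem restrictNormalHom_eq_one_of_mem_fixingSubgroup
    (h : AlgebraicClosure ℚ ≃ₐ[ℚ] AlgebraicClosure ℚ) (hh : h ∈ F.fixingSubgroup) :
    AlgEquiv.restrictNormalHom F h = 1 := by
  apply AlgEquiv.ext
  intro x
  apply Subtype.ext
  rw [restrictNormalHom_apply]
  exact (IntermediateField.mem_fixingSubgroup_iff F h).mp hh x x.2

variable (A : ValuationSubring (AlgebraicClosure ℚ))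

/-- **B14, decomposition part.**  If `τ ∈ Gal(F/ℚ)` preserves the non-units of `A` among the
integers of `F`, then `τ` lifts to the decomposition group of `A`. -/
theorem exists_decomposition_lift {q : ℕ} (hq : q.Prime) (hA : A.LiesOverPrime q)
    (τ : F ≃ₐ[ℚ] F)
    (hτ : ∀ x : F, IsIntegral ℤ x →
      (((τ x : F) : AlgebraicClosure ℚ) ∈ A.nonunits ↔ (x : AlgebraicClosure ℚ) ∈ A.nonunits)) :
    ∃ σ ∈ A.decompositionSubgroup ℚ, AlgEquiv.restrictNormalHom F σ = τ := by
  letI : TopologicalSpace (integralClosure ℤ (AlgebraicClosure ℚ)) := ⊥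
  haveI : DiscreteTopology (integralClosure ℤ (AlgebraicClosure ℚ)) := ⟨rfl⟩
  haveI := continuousSMul_integralClosure
  haveI := primeBelow_isPrime A
  obtain ⟨τ₀, hτ₀⟩ := AlgEquiv.restrictNormalHom_surjective (F := ℚ) (K₁ := F)
    (AlgebraicClosure ℚ) τ
  haveI : (τ₀ • primeBelow A).IsPrime := by
    rw [Ideal.pointwise_smul_eq_comap]
    exact Ideal.comap_isPrime _ _
  have hPQ : ∀ b : integralClosure ℤ (AlgebraicClosure ℚ),
      (∀ h : F.fixingSubgroup, h • b = b) → (b ∈ primeBelow A ↔ b ∈ τ₀ • primeBelow A) := by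
    intro b hb
    have hbF : (b : AlgebraicClosure ℚ) ∈ F := coe_mem_of_forall_fixingSubgroup_smul_eq F b hb
    rw [Ideal.mem_pointwise_smul_iff_inv_smul_mem, mem_primeBelow, mem_primeBelow, coe_smul]
    -- `x = τ⁻¹ b`
    have hx : IsIntegral ℤ (τ⁻¹ ⟨(b : AlgebraicClosure ℚ), hbF⟩ : F) := by
      have hbint : IsIntegral ℤ (⟨(b : AlgebraicClosure ℚ), hbF⟩ : F) := by
        have := b.2
        exact (isIntegral_algebraMap_iff
          (FaithfulSMul.algebraMap_injective F (AlgebraicClosure ℚ))).mp this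
      exact hbint.map (τ⁻¹ : F ≃ₐ[ℚ] F)
    have h1 := hτ _ hx
    have h2 : τ (τ⁻¹ ⟨(b : AlgebraicClosure ℚ), hbF⟩ : F) = ⟨(b : AlgebraicClosure ℚ), hbF⟩ := by
      show (τ * τ⁻¹) _ = _
      rw [mul_inv_cancel]; rfl
    rw [h2] at h1
    have h3 : ((τ⁻¹ ⟨(b : AlgebraicClosure ℚ), hbF⟩ : F) : AlgebraicClosure ℚ) =
        τ₀⁻¹ (b : AlgebraicClosure ℚ) := by
      rw [← hτ₀, ← map_inv, restrictNormalHom_apply]
    rw [h3] at h1
    exact h1
  obtain ⟨h, hh⟩ := exists_smul_eq_of_forall_fixed_mem_iff (B := integralClosure ℤ (AlgebraicClosure ℚ))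
    F.fixingSubgroup (InfiniteGalois.fixingSubgroup_isClosed F) (τ₀ • primeBelow A)
    (primeBelow A) (fun b hb => (hPQ b hb).symm)
  refine ⟨(h : AlgebraicClosure ℚ ≃ₐ[ℚ] AlgebraicClosure ℚ) * τ₀, ?_, ?_⟩
  · rw [mem_decompositionSubgroup_iff_smul_primeBelow A hq hA, mul_smul, ← hh]
  · rw [map_mul, restrictNormalHom_eq_one_of_mem_fixingSubgroup F h h.2, one_mul, hτ₀]

/-- **B14, inertia part.**  If `τ ∈ Gal(F/ℚ)` acts trivially modulo the non-units of `A` on the
integers of `F`, then `τ` lifts to the inertia group of `A`. -/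
theorem exists_inertia_lift {q : ℕ} (hq : q.Prime) (hA : A.LiesOverPrime q)
    (τ : F ≃ₐ[ℚ] F)
    (hτ : ∀ x : F, IsIntegral ℤ x →
      ((τ x : F) : AlgebraicClosure ℚ) - (x : AlgebraicClosure ℚ) ∈ A.nonunits) :
    ∃ σ ∈ A.inertiaSubgroupIn ℚ, AlgEquiv.restrictNormalHom F σ = τ := by
  letI : TopologicalSpace (integralClosure ℤ (AlgebraicClosure ℚ)) := ⊥
  haveI : DiscreteTopology (integralClosure ℤ (AlgebraicClosure ℚ)) := ⟨rfl⟩
  haveI := continuousSMul_integralClosure
  haveI := primeBelow_isPrime A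
  have hτ' : ∀ x : F, IsIntegral ℤ x →
      (((τ x : F) : AlgebraicClosure ℚ) ∈ A.nonunits ↔
        (x : AlgebraicClosure ℚ) ∈ A.nonunits) := by
    intro x hx
    constructor
    · intro h
      have := A.nonunits.sub_mem h (hτ x hx)
      simpa using this
    · intro h
      have := A.nonunits.add_mem (hτ x hx) h
      simpa using this
  obtain ⟨σ₁, hσ₁D, hσ₁⟩ := exists_decomposition_lift F A hq hA τ hτ'
  have hσ₁P : σ₁ • primeBelow A = primeBelow A :=
    (mem_decompositionSubgroup_iff_smul_primeBelow A hq hA σ₁).mp hσ₁D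
  have hfix : ∀ b : integralClosure ℤ (AlgebraicClosure ℚ),
      (∀ h : F.fixingSubgroup, h • b = b) → σ₁ • b - b ∈ primeBelow A := by
    intro b hb
    have hbF : (b : AlgebraicClosure ℚ) ∈ F := coe_mem_of_forall_fixingSubgroup_smul_eq F b hb
    have hbint : IsIntegral ℤ (⟨(b : AlgebraicClosure ℚ), hbF⟩ : F) :=
      (isIntegral_algebraMap_iff
        (FaithfulSMul.algebraMap_injective F (AlgebraicClosure ℚ))).mp b.2
    have h1 := hτ _ hbint
    rw [← hσ₁, restrictNormalHom_apply] at h1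
    exact h1
  obtain ⟨h, hhP, hh⟩ := exists_stabilizer_congr_of_forall_fixed
    (B := integralClosure ℤ (AlgebraicClosure ℚ)) F.fixingSubgroup
    (InfiniteGalois.fixingSubgroup_isClosed F) (primeBelow A) σ₁ hσ₁P hfix
  have hhP' : ∀ b : integralClosure ℤ (AlgebraicClosure ℚ),
      b ∈ primeBelow A → (h : AlgebraicClosure ℚ ≃ₐ[ℚ] AlgebraicClosure ℚ)⁻¹ • b ∈ primeBelow A := by
    intro b hb
    have := (smul_primeBelow_eq_iff A _).mp hhP
      ((h : AlgebraicClosure ℚ ≃ₐ[ℚ] AlgebraicClosure ℚ)⁻¹ • b)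
    rw [smul_inv_smul] at this
    exact this.mp hb
  refine ⟨(h : AlgebraicClosure ℚ ≃ₐ[ℚ] AlgebraicClosure ℚ)⁻¹ * σ₁, ?_, ?_⟩
  · rw [mem_inertiaSubgroupIn_iff_primeBelow A hq hA]
    intro b
    have h1 : σ₁ • b - (h : AlgebraicClosure ℚ ≃ₐ[ℚ] AlgebraicClosure ℚ) • b ∈ primeBelow A := by
      have := (primeBelow A).neg_mem (hh b)
      simpa using this
    have h2 := hhP' _ h1
    rw [smul_sub, inv_smul_smul] at h2
    rw [mul_smul]
    exact h2
  · rw [map_mul, map_inv, restrictNormalHom_eq_one_of_mem_fixingSubgroup F h h.2, inv_one,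
      one_mul, hσ₁]

end lift

end Fermat.Agent.S55.Bridge.H594

end
-- ===== PACK-END S55/Bridge/H594/Lift.lean

-- ===== PACK-BEGIN S55/Bridge/H594/Unram.lean
section



/-!
# S55 bridge (helper594), piece B10: Prelude "unramified" versus classical "unramified"

`F ⊂ ℚ̄` a finite Galois extension of `ℚ`, `q` a prime number.  The Prelude condition

  `∀ A : ValuationSubring ℚ̄, A.LiesOverPrime q → A.inertiaSubgroupIn ℚ ≤ F.fixingSubgroup`

is equivalent to: all inertia groups in `Gal(F/ℚ)` of primes of `𝓞 F` containing `q` are trivial,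
and to: the ramification index of `q` in `𝓞 F` is `1`.
-/

set_option autoImplicit false
set_option linter.style.haveILetI false
set_option linter.unusedSectionVars false

namespace Fermat.Agent.S55.Bridge.H594

open Fermat.Agent.S54 Fermat.Agent.S55.Bridge NumberField
open scoped Pointwise

attribute [local instance] isAlgebraic_Qbar isGalois_Qbar

section unram

variable (F : IntermediateField ℚ (AlgebraicClosure ℚ)) [FiniteDimensional ℚ F]

/-- A finite intermediate field of `ℚ̄/ℚ` is a number field. -/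
theorem numberField_of_finite : NumberField F :=
  { to_charZero := inferInstance, to_finiteDimensional := inferInstance }

attribute [local instance] numberField_of_finite

variable (A : ValuationSubring (AlgebraicClosure ℚ))

theorem algebraMap_ringOfIntegers_mem (x : 𝓞 F) :
    algebraMap (𝓞 F) (AlgebraicClosure ℚ) x ∈ A := by
  apply isIntegral_mem_valuationSubring A
  exact (RingOfIntegers.isIntegral x).map
    (IsScalarTower.toAlgHom ℤ (𝓞 F) (AlgebraicClosure ℚ))

/-- The prime of `𝓞 F` below the valuation subring `A` of `ℚ̄`. -/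
def primeBelowF : Ideal (𝓞 F) where
  carrier := {x | algebraMap (𝓞 F) (AlgebraicClosure ℚ) x ∈ A.nonunits}
  add_mem' := fun {a b} ha hb => by
    simp only [Set.mem_ofPred_eq, map_add] at ha hb ⊢
    exact A.nonunits.add_mem ha hb
  zero_mem' := by
    simp only [Set.mem_ofPred_eq, map_zero]
    exact A.nonunits.zero_mem
  smul_mem' := fun c b hb => by
    simp only [Set.mem_ofPred_eq, smul_eq_mul, map_mul] at hb ⊢
    rw [ValuationSubring.mem_nonunits_iff] at hb ⊢
    rw [map_mul]
    have hc : A.valuation (algebraMap (𝓞 F) (AlgebraicClosure ℚ) c) ≤ 1 :=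
      (A.valuation_le_one_iff _).mpr (algebraMap_ringOfIntegers_mem F A c)
    exact mul_lt_one_of_nonneg_of_lt_one_right hc zero_le hb

theorem mem_primeBelowF (x : 𝓞 F) :
    x ∈ primeBelowF F A ↔ algebraMap (𝓞 F) (AlgebraicClosure ℚ) x ∈ A.nonunits := Iff.rfl

theorem primeBelowF_isPrime : (primeBelowF F A).IsPrime := by
  constructor
  · intro h
    have : (1 : 𝓞 F) ∈ primeBelowF F A := by rw [h]; trivial
    rw [mem_primeBelowF, ValuationSubring.mem_nonunits_iff, map_one, map_one] at this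
    exact lt_irrefl _ this
  · intro a b hab
    rw [mem_primeBelowF, ValuationSubring.mem_nonunits_iff] at hab ⊢
    rw [mem_primeBelowF, ValuationSubring.mem_nonunits_iff]
    have ha : A.valuation (algebraMap (𝓞 F) (AlgebraicClosure ℚ) a) ≤ 1 :=
      (A.valuation_le_one_iff _).mpr (algebraMap_ringOfIntegers_mem F A a)
    have hb : A.valuation (algebraMap (𝓞 F) (AlgebraicClosure ℚ) b) ≤ 1 :=
      (A.valuation_le_one_iff _).mpr (algebraMap_ringOfIntegers_mem F A b)
    by_contra hcon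
    rw [not_or, not_lt, not_lt] at hcon
    have ha1 := le_antisymm ha hcon.1
    have hb1 := le_antisymm hb hcon.2
    rw [map_mul, map_mul, ha1, hb1, mul_one] at hab
    exact lt_irrefl _ hab

theorem natCast_mem_primeBelowF {q : ℕ} (hA : A.LiesOverPrime q) :
    (q : 𝓞 F) ∈ primeBelowF F A := by
  rw [mem_primeBelowF, map_natCast]
  exact hA

variable [IsGalois ℚ F]

theorem algebraMap_smul_ringOfIntegers (τ : F ≃ₐ[ℚ] F) (x : 𝓞 F) :
    algebraMap (𝓞 F) (AlgebraicClosure ℚ) (τ • x) =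
      ((τ (algebraMap (𝓞 F) F x) : F) : AlgebraicClosure ℚ) := rfl

theorem algebraMap_restrict_smul (σ : AlgebraicClosure ℚ ≃ₐ[ℚ] AlgebraicClosure ℚ) (x : 𝓞 F) :
    algebraMap (𝓞 F) (AlgebraicClosure ℚ) (AlgEquiv.restrictNormalHom F σ • x) =
      σ (algebraMap (𝓞 F) (AlgebraicClosure ℚ) x) := by
  rw [algebraMap_smul_ringOfIntegers, restrictNormalHom_apply]
  rfl

/-- The restriction to `F` of an element of the inertia group of `A` lies in the inertia group
of the prime of `𝓞 F` below `A`. -/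
theorem restrict_mem_inertia_primeBelowF (σ : AlgebraicClosure ℚ ≃ₐ[ℚ] AlgebraicClosure ℚ)
    (hσ : σ ∈ A.inertiaSubgroupIn ℚ) :
    AlgEquiv.restrictNormalHom F σ ∈ (primeBelowF F A).inertia (F ≃ₐ[ℚ] F) := by
  intro x
  show _ - x ∈ primeBelowF F A
  rw [mem_primeBelowF, map_sub, algebraMap_restrict_smul]
  exact ((mem_inertiaSubgroupIn_iff A σ).mp hσ).2 _ (algebraMap_ringOfIntegers_mem F A x)

/-- **B14 (inertia), ideal form**: the image in `Gal(F/ℚ)` of the inertia group of `A` is the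
inertia group of the prime of `𝓞 F` below `A`. -/
theorem map_inertiaSubgroupIn_eq {q : ℕ} (hq : q.Prime) (hA : A.LiesOverPrime q) :
    (A.inertiaSubgroupIn ℚ).map (AlgEquiv.restrictNormalHom F) =
      (primeBelowF F A).inertia (F ≃ₐ[ℚ] F) := by
  apply le_antisymm
  · rintro _ ⟨σ, hσ, rfl⟩
    exact restrict_mem_inertia_primeBelowF F A σ hσ
  · intro τ hτ
    obtain ⟨σ, hσ, hστ⟩ := exists_inertia_lift F A hq hA τ (fun x hx => by
      obtain ⟨y, rfl⟩ : ∃ y : 𝓞 F, algebraMap (𝓞 F) F y = x := ⟨⟨x, hx⟩, rfl⟩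
      have h2 : τ • y - y ∈ primeBelowF F A := hτ y
      rw [mem_primeBelowF, map_sub, algebraMap_smul_ringOfIntegers] at h2
      exact h2)
    exact ⟨σ, hσ, hστ⟩

/-- **B10.**  The Prelude unramifiedness condition at `q` for the finite Galois field `F` is
equivalent to the triviality of all inertia groups in `Gal(F/ℚ)` of primes of `𝓞 F` over `q`. -/
theorem inertia_le_fixingSubgroup_iff_inertia_eq_bot {q : ℕ} (hq : q.Prime) :
    (∀ A : ValuationSubring (AlgebraicClosure ℚ), A.LiesOverPrime q →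
        A.inertiaSubgroupIn ℚ ≤ F.fixingSubgroup) ↔
      ∀ P : Ideal (𝓞 F), P.IsPrime → (q : 𝓞 F) ∈ P → P.inertia (F ≃ₐ[ℚ] F) = ⊥ := by
  constructor
  · intro h P hP hqP
    rw [eq_bot_iff]
    intro τ hτ
    -- a valuation subring of `ℚ̄` above `P`
    let A₀ : Subring (AlgebraicClosure ℚ) := (algebraMap (𝓞 F) (AlgebraicClosure ℚ)).range
    let g : 𝓞 F →+* A₀ := (algebraMap (𝓞 F) (AlgebraicClosure ℚ)).rangeRestrict
    have hginj : Function.Injective g := by
      intro x y hxy
      have h1 : algebraMap (𝓞 F) (AlgebraicClosure ℚ) x =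
          algebraMap (𝓞 F) (AlgebraicClosure ℚ) y :=
        congrArg (fun z : A₀ => (z : AlgebraicClosure ℚ)) hxy
      exact FaithfulSMul.algebraMap_injective (𝓞 F) (AlgebraicClosure ℚ) h1
    have hgsurj : Function.Surjective g :=
      (algebraMap (𝓞 F) (AlgebraicClosure ℚ)).rangeRestrict_surjective
    have hI : P.map g ≠ ⊤ := by
      intro htop
      have h1 : (P.map g).comap g = P := Ideal.comap_map_of_bijective g ⟨hginj, hgsurj⟩
      rw [htop, Ideal.comap_top] at h1
      exact hP.ne_top h1.symm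
    obtain ⟨A, -, hA⟩ := Ideal.image_subset_nonunits_valuationSubring _ hI
    have hPA : ∀ x ∈ P, algebraMap (𝓞 F) (AlgebraicClosure ℚ) x ∈ A.nonunits := by
      intro x hx
      exact hA ⟨g x, Ideal.mem_map_of_mem g hx, rfl⟩
    have hAq : A.LiesOverPrime q := by
      have := hPA _ hqP
      rwa [map_natCast] at this
    obtain ⟨σ, hσ, hστ⟩ := exists_inertia_lift F A hq hAq τ (fun x hx => by
      obtain ⟨y, rfl⟩ : ∃ y : 𝓞 F, algebraMap (𝓞 F) F y = x := ⟨⟨x, hx⟩, rfl⟩
      have h2 := hPA _ (hτ y)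
      rw [map_sub, algebraMap_smul_ringOfIntegers] at h2
      exact h2)
    have h3 := h A hAq hσ
    rw [← hστ, Subgroup.mem_bot]
    exact restrictNormalHom_eq_one_of_mem_fixingSubgroup F σ h3
  · intro h A hA σ hσ
    haveI := primeBelowF_isPrime F A
    have h1 := restrict_mem_inertia_primeBelowF F A σ hσ
    rw [h (primeBelowF F A) inferInstance (natCast_mem_primeBelowF F A hA), Subgroup.mem_bot] at h1
    rw [IntermediateField.mem_fixingSubgroup_iff]
    intro x hx
    have h2 := restrictNormalHom_apply F σ ⟨x, hx⟩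
    rw [h1] at h2
    exact h2.symm

/-- A prime of `𝓞 F` containing the prime number `q` lies over `(q) ⊂ ℤ`. -/
theorem liesOver_span_of_natCast_mem {q : ℕ} (hq : q.Prime) (P : Ideal (𝓞 F)) [P.IsPrime]
    (hqP : (q : 𝓞 F) ∈ P) : P.LiesOver (Ideal.span {(q : ℤ)}) := by
  haveI hmax : (Ideal.span {(q : ℤ)}).IsMaximal :=
    PrincipalIdealRing.isMaximal_of_irreducible (Nat.prime_iff_prime_int.mp hq).irreducible
  refine ⟨?_⟩
  have hle : Ideal.span {(q : ℤ)} ≤ P.under ℤ := by
    rw [Ideal.span_le, Set.singleton_subset_iff]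
    show algebraMap ℤ (𝓞 F) (q : ℤ) ∈ P
    simpa using hqP
  exact hmax.eq_of_le (Ideal.IsPrime.under ℤ P).ne_top hle

/-- **B10, ramification index form.**  The Prelude unramifiedness condition at `q` for the
finite Galois field `F` holds iff `q` has ramification index `1` in `𝓞 F`. -/
theorem inertia_le_fixingSubgroup_iff_ramificationIdxIn {q : ℕ} (hq : q.Prime) :
    (∀ A : ValuationSubring (AlgebraicClosure ℚ), A.LiesOverPrime q →
        A.inertiaSubgroupIn ℚ ≤ F.fixingSubgroup) ↔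
      (Ideal.span {(q : ℤ)}).ramificationIdxIn (𝓞 F) = 1 := by
  haveI hgal : IsGaloisGroup (F ≃ₐ[ℚ] F) ℤ (𝓞 F) :=
    IsGaloisGroup.of_isFractionRing (F ≃ₐ[ℚ] F) ℤ (𝓞 F) ℚ F
  haveI hmax : (Ideal.span {(q : ℤ)}).IsMaximal :=
    PrincipalIdealRing.isMaximal_of_irreducible (Nat.prime_iff_prime_int.mp hq).irreducible
  haveI hprime : (Ideal.span {(q : ℤ)}).IsPrime := hmax.isPrime
  rw [inertia_le_fixingSubgroup_iff_inertia_eq_bot F hq]
  constructor
  · intro h
    obtain ⟨A, hA⟩ := exists_valuationSubring_liesOver q hq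
    haveI := primeBelowF_isPrime F A
    haveI := liesOver_span_of_natCast_mem F hq (primeBelowF F A) (natCast_mem_primeBelowF F A hA)
    rw [← Ideal.card_inertia_eq_ramificationIdxIn (G := F ≃ₐ[ℚ] F) (Ideal.span {(q : ℤ)})
      (primeBelowF F A), h _ inferInstance (natCast_mem_primeBelowF F A hA)]
    exact Subgroup.card_bot
  · intro h P hP hqP
    haveI := hP
    haveI := liesOver_span_of_natCast_mem F hq P hqP
    have h1 := Ideal.card_inertia_eq_ramificationIdxIn (G := F ≃ₐ[ℚ] F) (Ideal.span {(q : ℤ)}) P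
    rw [h] at h1
    exact (Subgroup.card_eq_one).mp h1

/-- **B10 for levels.**  A finite Galois `F` is unramified outside `S` in the Prelude sense iff
every prime number outside `S` has ramification index `1` in `𝓞 F`. -/
theorem isUnramifiedOutside_iff_ramificationIdxIn (S : Finset Nat.Primes) :
    F.IsUnramifiedOutside S ↔
      ∀ q : Nat.Primes, q ∉ S → (Ideal.span {((q : ℕ) : ℤ)}).ramificationIdxIn (𝓞 F) = 1 := by
  constructor
  · intro h q hqS
    exact (inertia_le_fixingSubgroup_iff_ramificationIdxIn F q.2).mp (h.2 q hqS)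
  · intro h
    exact ⟨inferInstance, fun q hqS =>
      (inertia_le_fixingSubgroup_iff_ramificationIdxIn F q.2).mpr (h q hqS)⟩

/-- **B10 for levels, inertia form.** -/
theorem isUnramifiedOutside_iff_inertia_eq_bot (S : Finset Nat.Primes) :
    F.IsUnramifiedOutside S ↔
      ∀ q : Nat.Primes, q ∉ S → ∀ P : Ideal (𝓞 F), P.IsPrime → ((q : ℕ) : 𝓞 F) ∈ P →
        P.inertia (F ≃ₐ[ℚ] F) = ⊥ := by
  constructor
  · intro h q hqS
    exact (inertia_le_fixingSubgroup_iff_inertia_eq_bot F q.2).mp (h.2 q hqS)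
  · intro h
    exact ⟨inferInstance, fun q hqS =>
      (inertia_le_fixingSubgroup_iff_inertia_eq_bot F q.2).mpr (h q hqS)⟩

end unram

end Fermat.Agent.S55.Bridge.H594

end
-- ===== PACK-END S55/Bridge/H594/Unram.lean

-- ===== PACK-BEGIN S55/Bridge/H594/Comap.lean
section


/-!
# S55 bridge (helper594), piece B14 in `ValuationSubring.comap` form

For a finite (or just normal) intermediate field `F` of `ℚ̄/ℚ` and a valuation subring `A` of `ℚ̄`
over a prime number `q`, with `A ∩ F := A.comap (algebraMap F ℚ̄)`: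

* `map_decompositionSubgroup_eq_comap`: the image of `D_A` in `Gal(F/ℚ)` is `D_{A ∩ F}`;
* `map_inertiaSubgroupIn_eq_comap`: the image of `I_A` in `Gal(F/ℚ)` is `I_{A ∩ F}`.

The first part of the file gives elementwise membership criteria for the decomposition and
inertia groups of a valuation subring of an arbitrary field extension.
-/

set_option autoImplicit false
set_option linter.style.haveILetI false
set_option linter.unusedSectionVars false

namespace Fermat.Agent.S55.Bridge.H594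

open Fermat.Agent.S54 Fermat.Agent.S55.Bridge
open scoped Pointwise

section general

variable {K L : Type*} [Field K] [Field L] [Algebra K L] (A : ValuationSubring L)

/-- Membership in the decomposition group, elementwise (general fields). -/
theorem mem_decompositionSubgroup_iff_forall (σ : L ≃ₐ[K] L) :
    σ ∈ A.decompositionSubgroup K ↔ ∀ x, σ x ∈ A ↔ x ∈ A := by
  rw [MulAction.mem_stabilizer_iff]
  constructor
  · intro h x
    have hinv : σ⁻¹ • A = A := by
      conv_lhs => rw [← h]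
      rw [inv_smul_smul]
    have h1 := ValuationSubring.mem_pointwise_smul_iff_inv_smul_mem (S := A)
      (g := σ⁻¹) (x := x)
    rw [hinv, inv_inv] at h1
    rw [h1]
    rfl
  · intro h
    apply SetLike.ext
    intro x
    rw [ValuationSubring.mem_pointwise_smul_iff_inv_smul_mem]
    have h2 := h (σ⁻¹ • x)
    rw [AlgEquiv.smul_def] at h2 ⊢
    rw [← h2]
    have : σ (σ⁻¹ x) = x := by
      show (σ * σ⁻¹) x = x
      rw [mul_inv_cancel]
      rfl
    rw [this]

/-- Membership in the inertia group, elementwise (general fields). -/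
theorem mem_inertiaSubgroupIn_iff_forall (σ : L ≃ₐ[K] L) :
    σ ∈ A.inertiaSubgroupIn K ↔
      σ ∈ A.decompositionSubgroup K ∧ ∀ z ∈ A, σ z - z ∈ A.nonunits := by
  constructor
  · rintro ⟨g, hg, rfl⟩
    refine ⟨g.2, fun z hzA => ?_⟩
    have h1 : MulSemiringAction.toRingAut (A.decompositionSubgroup K)
        (IsLocalRing.ResidueField A) g = 1 := hg
    have h2 : g • (IsLocalRing.residue A ⟨z, hzA⟩) = IsLocalRing.residue A ⟨z, hzA⟩ := by
      have := congrArg (fun f => f (IsLocalRing.residue A ⟨z, hzA⟩)) h1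
      simpa using this
    rw [← IsLocalRing.ResidueField.residue_smul] at h2
    have h3 : (g • (⟨z, hzA⟩ : A)) - ⟨z, hzA⟩ ∈ IsLocalRing.maximalIdeal A := by
      rw [← Ideal.Quotient.eq]
      exact h2
    rw [ValuationSubring.valuation_lt_one_iff] at h3
    rw [ValuationSubring.mem_nonunits_iff]
    exact h3
  · rintro ⟨hD, h⟩
    refine ⟨⟨σ, hD⟩, ?_, rfl⟩
    show (⟨σ, hD⟩ : A.decompositionSubgroup K) ∈ MonoidHom.ker
      (MulSemiringAction.toRingAut (A.decompositionSubgroup K) (IsLocalRing.ResidueField A))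
    rw [MonoidHom.mem_ker]
    apply RingEquiv.ext
    intro y
    obtain ⟨x, rfl⟩ := IsLocalRing.residue_surjective y
    show (⟨σ, hD⟩ : A.decompositionSubgroup K) • (IsLocalRing.residue A x)
      = IsLocalRing.residue A x
    rw [← IsLocalRing.ResidueField.residue_smul]
    rw [← sub_eq_zero, ← map_sub, IsLocalRing.residue_eq_zero_iff]
    have h3 := h x.1 x.2
    rw [ValuationSubring.mem_nonunits_iff] at h3
    rw [ValuationSubring.valuation_lt_one_iff]
    exact h3

/-- Non-units of a `comap`. -/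
theorem mem_nonunits_comap_iff {M : Type*} [Field M] (f : M →+* L) (x : M) :
    x ∈ (A.comap f).nonunits ↔ f x ∈ A.nonunits := by
  rw [ValuationSubring.mem_nonunits_iff_or, ValuationSubring.mem_nonunits_iff_or,
    ValuationSubring.mem_comap, map_inv₀, map_eq_zero_iff f f.injective]

end general

section comap

attribute [local instance] isAlgebraic_Qbar isGalois_Qbar

variable (F : IntermediateField ℚ (AlgebraicClosure ℚ)) [Normal ℚ F]
variable (A : ValuationSubring (AlgebraicClosure ℚ))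

/-- **B14 (decomposition groups).** -/
theorem map_decompositionSubgroup_eq_comap {q : ℕ} (hq : q.Prime) (hA : A.LiesOverPrime q) :
    (A.decompositionSubgroup ℚ).map (AlgEquiv.restrictNormalHom F) =
      (A.comap (algebraMap F (AlgebraicClosure ℚ))).decompositionSubgroup ℚ := by
  apply le_antisymm
  · rintro _ ⟨σ, hσ, rfl⟩
    rw [mem_decompositionSubgroup_iff_forall]
    intro x
    rw [ValuationSubring.mem_comap, ValuationSubring.mem_comap]
    have := (mem_decompositionSubgroup_iff_forall A σ).mp hσ (x : AlgebraicClosure ℚ)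
    have h2 : algebraMap F (AlgebraicClosure ℚ) (AlgEquiv.restrictNormalHom F σ x) =
        σ (x : AlgebraicClosure ℚ) := restrictNormalHom_apply F σ x
    rw [h2]
    exact this
  · intro τ hτ
    have hτ' := (mem_decompositionSubgroup_iff_forall _ τ).mp hτ
    obtain ⟨σ, hσ, hστ⟩ := exists_decomposition_lift F A hq hA τ (fun x _ => by
      have h1 := mem_nonunits_comap_iff A (algebraMap F (AlgebraicClosure ℚ)) (τ x)
      have h2 := mem_nonunits_comap_iff A (algebraMap F (AlgebraicClosure ℚ)) x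
      rw [show ((τ x : F) : AlgebraicClosure ℚ) = algebraMap F (AlgebraicClosure ℚ) (τ x) from rfl,
        show ((x : F) : AlgebraicClosure ℚ) = algebraMap F (AlgebraicClosure ℚ) x from rfl,
        ← h1, ← h2, ValuationSubring.mem_nonunits_iff_or, ValuationSubring.mem_nonunits_iff_or,
        ← map_inv₀, hτ', map_eq_zero_iff τ τ.injective])
    exact ⟨σ, hσ, hστ⟩

/-- **B14 (inertia groups).** -/
theorem map_inertiaSubgroupIn_eq_comap {q : ℕ} (hq : q.Prime) (hA : A.LiesOverPrime q) :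
    (A.inertiaSubgroupIn ℚ).map (AlgEquiv.restrictNormalHom F) =
      (A.comap (algebraMap F (AlgebraicClosure ℚ))).inertiaSubgroupIn ℚ := by
  apply le_antisymm
  · rintro _ ⟨σ, hσ, rfl⟩
    obtain ⟨hD, hI⟩ := (mem_inertiaSubgroupIn_iff_forall A σ).mp hσ
    rw [mem_inertiaSubgroupIn_iff_forall]
    refine ⟨?_, fun z hz => ?_⟩
    · rw [← map_decompositionSubgroup_eq_comap F A hq hA]
      exact ⟨σ, hD, rfl⟩
    · rw [mem_nonunits_comap_iff, map_sub]
      rw [ValuationSubring.mem_comap] at hz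
      have := hI _ hz
      rw [show algebraMap F (AlgebraicClosure ℚ) (AlgEquiv.restrictNormalHom F σ z) =
        σ (algebraMap F (AlgebraicClosure ℚ) z) from restrictNormalHom_apply F σ z]
      exact this
  · intro τ hτ
    obtain ⟨-, hI⟩ := (mem_inertiaSubgroupIn_iff_forall _ τ).mp hτ
    obtain ⟨σ, hσ, hστ⟩ := exists_inertia_lift F A hq hA τ (fun x hx => by
      have hxA : x ∈ A.comap (algebraMap F (AlgebraicClosure ℚ)) := by
        rw [ValuationSubring.mem_comap]
        exact isIntegral_mem_valuationSubring A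
          (hx.map (IsScalarTower.toAlgHom ℤ F (AlgebraicClosure ℚ)))
      have h1 := hI x hxA
      rw [mem_nonunits_comap_iff, map_sub] at h1
      exact h1)
    exact ⟨σ, hσ, hστ⟩

end comap

end Fermat.Agent.S55.Bridge.H594

end
-- ===== PACK-END S55/Bridge/H594/Comap.lean

-- ===== PACK-BEGIN A2/Mod/H553/Vinf.lean
section



/-!
# A2 / MOD leaves L1 `VinfExists`, L2 `VinfBasic` (helper553)

Level `E` Gauss valuation `V∞` of `F_{N,E} = E(j_d : d ∣ N)` over `R_E = P ∩ E` (a DVR):

* `VinfE P E N` : the valuation subring (`= H708.gaussInf`), `isVinf_VinfE`, `IsVinf.eq`;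
* `mem_of_int`, `inv_mem_of_int` : functions with integral `t`-expansion lie in `V∞`; if a
  coefficient is `±1` they are units of `V∞`;
* `vinfExists : VinfExistsStatement P E`  (L1);
* `vinfBasic : VinfBasicStatement P E w`  (L2).
-/

set_option autoImplicit false
set_option synthInstance.maxHeartbeats 400000
set_option maxHeartbeats 1600000
set_option linter.unusedSectionVars false
set_option linter.style.haveILetI false

noncomputable section

namespace Fermat.Agent.A2.Mod.H553

open ModularCurve HahnSeries Polynomial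
open Fermat.Agent.A2 Fermat.Agent.A2.Mod

variable (P : ValuationSubring _root_.Fermat.Agent.A2.Mod.Qb) (E : IntermediateField ℚ _root_.Fermat.Agent.A2.Mod.Qb)

/-- the Gauss valuation ring at `∞` of `F_{N,E}` -/
def VinfE (N : ℕ) [IsNoetherianRing ↥(_root_.Fermat.Agent.A2.Mod.RE P E)] : ValuationSubring ↥(_root_.Fermat.Agent.A2.Mod.FE E N) :=
  H708.gaussInf (_root_.Fermat.Agent.A2.Mod.RE P E) (modularFunctionFieldFull N) (H708.intGen_full N)
    (H708.attainsMax_of_isNoetherianRing (_root_.Fermat.Agent.A2.Mod.RE P E) (modularFunctionFieldFull N))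

theorem isVinf_VinfE (N : ℕ) [IsNoetherianRing ↥(_root_.Fermat.Agent.A2.Mod.RE P E)] : IsVinf P E N (VinfE P E N) :=
  fun _ => Iff.rfl

variable {P E}

theorem eq_VinfE_of_isVinf {N : ℕ} [IsNoetherianRing ↥(_root_.Fermat.Agent.A2.Mod.RE P E)] {V : ValuationSubring ↥(_root_.Fermat.Agent.A2.Mod.FE E N)}
    (hV : IsVinf P E N V) : V = VinfE P E N := by
  ext f
  rw [hV f]
  exact ((isVinf_VinfE P E N) f).symm

/-- integral series, in `E((t))` -/
theorem coeffEmb_castQ (g : LaurentSeries ℤ) :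
    coeffEmb (↥E) (H708.castQ g) = H708.incl (_root_.Fermat.Agent.A2.Mod.RE P E) (H708.castA (_root_.Fermat.Agent.A2.Mod.RE P E) g) :=
  (H708.incl_castA (_root_.Fermat.Agent.A2.Mod.RE P E) g).symm

/-- functions with integral `t`-expansion lie in `V∞` -/
theorem mem_of_int {N : ℕ} {V : ValuationSubring ↥(_root_.Fermat.Agent.A2.Mod.FE E N)} (hV : IsVinf P E N V)
    {f : ↥(_root_.Fermat.Agent.A2.Mod.FE E N)} {g : LaurentSeries ℤ}
    (hfg : (f : LaurentSeries ↥E) = coeffEmb (↥E) (H708.castQ g)) : f ∈ V := by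
  rw [hV f, hfg, coeffEmb_castQ (P := P)]
  exact H708.IsGaussInt.of_incl _

theorem red_castA_ne_zero {g : LaurentSeries ℤ} {k : ℤ}
    (hk : g.coeff k = 1 ∨ g.coeff k = -1) :
    H708.red (_root_.Fermat.Agent.A2.Mod.RE P E) (H708.castA (_root_.Fermat.Agent.A2.Mod.RE P E) g) ≠ 0 := by
  rw [H708.red_ne_zero_iff]
  refine ⟨k, ?_⟩
  have h1 : (((H708.castA (_root_.Fermat.Agent.A2.Mod.RE P E) g).coeff k : ↥(_root_.Fermat.Agent.A2.Mod.RE P E)) : ↥E) = ((g.coeff k : ℤ) : ↥E) := by
    show ((((g.coeff k : ℤ) : ↥(_root_.Fermat.Agent.A2.Mod.RE P E))) : ↥E) = _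
    simp
  rw [h1]
  rcases hk with hk | hk
  · rw [hk]; simp
  · rw [hk]; simp

/-- functions with integral `t`-expansion having a coefficient `±1` are units of `V∞` -/
theorem inv_mem_of_int {N : ℕ} {V : ValuationSubring ↥(_root_.Fermat.Agent.A2.Mod.FE E N)} (hV : IsVinf P E N V)
    {f : ↥(_root_.Fermat.Agent.A2.Mod.FE E N)} {g : LaurentSeries ℤ} {k : ℤ}
    (hfg : (f : LaurentSeries ↥E) = coeffEmb (↥E) (H708.castQ g))
    (hk : g.coeff k = 1 ∨ g.coeff k = -1) : f⁻¹ ∈ V := by
  rw [hV f⁻¹]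
  have hf : (f : LaurentSeries ↥E) = H708.incl (_root_.Fermat.Agent.A2.Mod.RE P E) (H708.castA (_root_.Fermat.Agent.A2.Mod.RE P E) g) := by
    rw [hfg, coeffEmb_castQ (P := P)]
  have hred := red_castA_ne_zero (P := P) (E := E) hk
  have hne : H708.incl (_root_.Fermat.Agent.A2.Mod.RE P E) (H708.castA (_root_.Fermat.Agent.A2.Mod.RE P E) g) ≠ 0 :=
    H708.incl_ne_zero _ (H708.ne_zero_of_red_ne_zero _ hred)
  refine ⟨1, H708.castA (_root_.Fermat.Agent.A2.Mod.RE P E) g, hred, ?_, ?_⟩
  · rw [← hf]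
    exact f.2
  · rw [IntermediateField.coe_inv, hf, inv_mul_cancel₀ hne, map_one]

/-- the generators `j_d` as integral series -/
theorem coe_jE (N d : ℕ) [NeZero d] (hd : d ∣ N) :
    ((jE E N d hd : ↥(_root_.Fermat.Agent.A2.Mod.FE E N)) : LaurentSeries ↥E) = coeffEmb (↥E) (H708.castQ (H708.jInt d)) := by
  rw [H708.castQ_jInt]
  rfl

theorem coeff_jInt_top (d : ℕ) [NeZero d] : (H708.jInt d).coeff (-(d : ℤ)) = 1 := by
  have h := coeff_jqModC_pow_self ℤ 1
  rw [H708.jInt, jqNModC,
    show (-(d : ℤ)) = (d : ℤ) * (-((1 : ℕ) : ℤ)) by push_cast; ring, qExpand_coeff_mul]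
  simpa using h

variable (P E)

/-- **L1.** -/
theorem vinfExists : VinfExistsStatement P E := by
  intro N _ hdvr
  haveI := hdvr
  exact ⟨VinfE P E N, isVinf_VinfE P E N⟩

/-- `V∞ ∩ E = R_E`. -/
theorem algebraMap_mem_iff {N : ℕ} [IsNoetherianRing ↥(_root_.Fermat.Agent.A2.Mod.RE P E)] {V : ValuationSubring ↥(_root_.Fermat.Agent.A2.Mod.FE E N)}
    (hV : IsVinf P E N V) (e : ↥E) : algebraMap ↥E ↥(_root_.Fermat.Agent.A2.Mod.FE E N) e ∈ V ↔ e ∈ _root_.Fermat.Agent.A2.Mod.RE P E := by
  rw [eq_VinfE_of_isVinf hV]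
  exact H708.algebraMap_mem_gaussInf_iff _ _ e

/-- every nonzero function is a constant times a unit of `V∞` -/
theorem exists_const_mul_unit {N : ℕ} [IsNoetherianRing ↥(_root_.Fermat.Agent.A2.Mod.RE P E)]
    {V : ValuationSubring ↥(_root_.Fermat.Agent.A2.Mod.FE E N)} (hV : IsVinf P E N V) {f : ↥(_root_.Fermat.Agent.A2.Mod.FE E N)} (hf : f ≠ 0) :
    ∃ c : ↥E, c ≠ 0 ∧ V.valuation (f * (algebraMap ↥E ↥(_root_.Fermat.Agent.A2.Mod.FE E N) c)⁻¹) = 1 := by
  rw [eq_VinfE_of_isVinf hV]
  exact H708.exists_const_mul_unit _ _ hf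

/-- **L2.** -/
theorem vinfBasic (w : _root_.Fermat.Agent.A2.Mod.RE P E) : VinfBasicStatement P E w := by
  intro N _ hdvr hw V hV
  haveI := hdvr
  have hw0 : (w : ↥E) ≠ 0 := by
    intro h0
    exact hw.ne_zero (Subtype.ext h0)
  have hwinv : ((w : ↥E))⁻¹ ∉ _root_.Fermat.Agent.A2.Mod.RE P E := by
    intro hmem
    apply hw.not_isUnit
    refine isUnit_iff_exists_inv.mpr ⟨⟨_, hmem⟩, Subtype.ext ?_⟩
    show (w : ↥E) * ((w : ↥E))⁻¹ = 1
    exact mul_inv_cancel₀ hw0
  refine ⟨⟨?_, ?_, ?_⟩, fun e => algebraMap_mem_iff P E hV e, ?_⟩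
  · exact (algebraMap_mem_iff P E hV _).mpr w.2
  · intro hmem
    have h1 : (cE P E N w)⁻¹ = algebraMap ↥E ↥(_root_.Fermat.Agent.A2.Mod.FE E N) ((w : ↥E))⁻¹ := (map_inv₀ _ _).symm
    rw [h1] at hmem
    exact hwinv ((algebraMap_mem_iff P E hV _).mp hmem)
  · intro f hfV hfinv
    rcases eq_or_ne f 0 with rfl | hf0
    · rw [zero_mul]; exact V.zero_mem
    obtain ⟨c, hc0, hu⟩ := exists_const_mul_unit P E hV hf0
    obtain ⟨u, hu_def⟩ : ∃ u : ↥(_root_.Fermat.Agent.A2.Mod.FE E N), u = f * (algebraMap ↥E ↥(_root_.Fermat.Agent.A2.Mod.FE E N) c)⁻¹ := ⟨_, rfl⟩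
    rw [← hu_def] at hu
    have hcF : algebraMap ↥E ↥(_root_.Fermat.Agent.A2.Mod.FE E N) c ≠ 0 :=
      (map_ne_zero_iff _ (algebraMap ↥E ↥(_root_.Fermat.Agent.A2.Mod.FE E N)).injective).mpr hc0
    have hu0 : u ≠ 0 := by
      rw [hu_def]
      exact mul_ne_zero hf0 (inv_ne_zero hcF)
    have huV : u ∈ V := (V.valuation_le_one_iff _).mp hu.le
    have huinvV : u⁻¹ ∈ V := by
      rw [← V.valuation_le_one_iff, map_inv₀, hu, inv_one]
    have hfu : f = u * algebraMap ↥E ↥(_root_.Fermat.Agent.A2.Mod.FE E N) c := by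
      rw [hu_def, mul_assoc, inv_mul_cancel₀ hcF, mul_one]
    -- `c ∈ R`
    have hcV : algebraMap ↥E ↥(_root_.Fermat.Agent.A2.Mod.FE E N) c ∈ V := by
      have : algebraMap ↥E ↥(_root_.Fermat.Agent.A2.Mod.FE E N) c = u⁻¹ * f := by
        rw [hfu, ← mul_assoc, inv_mul_cancel₀ hu0, one_mul]
      rw [this]
      exact V.mul_mem _ _ huinvV hfV
    have hcR : c ∈ _root_.Fermat.Agent.A2.Mod.RE P E := (algebraMap_mem_iff P E hV c).mp hcV
    -- `c` is not a unit of `R`
    have hcnu : ¬ IsUnit (⟨c, hcR⟩ : ↥(_root_.Fermat.Agent.A2.Mod.RE P E)) := by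
      intro hunit
      obtain ⟨d, hd⟩ := isUnit_iff_exists_inv.mp hunit
      have hd' : c * (d : ↥E) = 1 := congrArg Subtype.val hd
      have hdinv : c⁻¹ = (d : ↥E) := by
        rw [inv_eq_iff_eq_inv]
        exact eq_inv_of_mul_eq_one_left hd'
      apply hfinv
      have : f⁻¹ = u⁻¹ * algebraMap ↥E ↥(_root_.Fermat.Agent.A2.Mod.FE E N) (d : ↥E) := by
        rw [hfu, mul_inv, ← hdinv, map_inv₀]
      rw [this]
      exact V.mul_mem _ _ huinvV ((algebraMap_mem_iff P E hV _).mpr d.2)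
    have hcm : (⟨c, hcR⟩ : ↥(_root_.Fermat.Agent.A2.Mod.RE P E)) ∈ IsLocalRing.maximalIdeal ↥(_root_.Fermat.Agent.A2.Mod.RE P E) :=
      (IsLocalRing.mem_maximalIdeal _).mpr hcnu
    rw [hw.maximalIdeal_eq, Ideal.mem_span_singleton'] at hcm
    obtain ⟨r, hr⟩ := hcm
    have hr' : (r : ↥E) * (w : ↥E) = c := congrArg Subtype.val hr
    have hcwF : cE P E N w ≠ 0 :=
      (map_ne_zero_iff _ (algebraMap ↥E ↥(_root_.Fermat.Agent.A2.Mod.FE E N)).injective).mpr hw0
    have hcr : algebraMap ↥E ↥(_root_.Fermat.Agent.A2.Mod.FE E N) c = algebraMap ↥E ↥(_root_.Fermat.Agent.A2.Mod.FE E N) (r : ↥E) * cE P E N w := by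
      rw [← hr', map_mul]
      rfl
    have : f * (cE P E N w)⁻¹ = u * algebraMap ↥E ↥(_root_.Fermat.Agent.A2.Mod.FE E N) (r : ↥E) := by
      rw [hfu, hcr, mul_assoc, mul_assoc, mul_inv_cancel₀ hcwF, mul_one]
    rw [this]
    exact V.mul_mem _ _ huV ((algebraMap_mem_iff P E hV _).mpr r.2)
  · intro d _ hd
    exact ⟨mem_of_int hV (coe_jE N d hd),
      inv_mem_of_int hV (coe_jE N d hd) (Or.inl (coeff_jInt_top d))⟩

end Fermat.Agent.A2.Mod.H553

end
end
-- ===== PACK-END A2/Mod/H553/Vinf.lean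

-- ===== PACK-BEGIN A2/Mod/H142/S2Frob.lean
section




/-!
# A2 / MODASM S2 — concrete basics (helper142)

* `inW_iff` : `InW V w f ↔ v(f) < 1` for a uniformiser `w`;
* `inW_mul`, `inW_add`, ... : ideal properties of `w V`;
* `frobCong` : `j_{dq} ≡ j_d ^ q  mod w V∞` (integer series, `q ∈ w R`);
* `frobCong_inv` : `j_{dq}⁻¹ ≡ (j_d⁻¹) ^ q  mod w V∞`.
-/

set_option autoImplicit false
set_option synthInstance.maxHeartbeats 400000
set_option maxHeartbeats 1600000
set_option linter.unusedSectionVars false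
set_option linter.style.haveILetI false

noncomputable section

namespace Fermat.Agent.A2.Mod.H142

open ModularCurve HahnSeries Polynomial

variable (P : ValuationSubring _root_.Fermat.Agent.A2.Mod.Qb) (E : IntermediateField ℚ _root_.Fermat.Agent.A2.Mod.Qb)

section Basic

variable {P E} {N : ℕ} {V : ValuationSubring (_root_.Fermat.Agent.A2.Mod.FE E N)} {w : _root_.Fermat.Agent.A2.Mod.RE P E}

theorem inW_iff (hU : H48.IsUnif V (cE P E N w)) (f : _root_.Fermat.Agent.A2.Mod.FE E N) :
    InW P E N V w f ↔ V.valuation f < 1 :=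
  hU.mul_inv_mem_iff

theorem inW_mul_right {f : _root_.Fermat.Agent.A2.Mod.FE E N} (hf : InW P E N V w f) {g : _root_.Fermat.Agent.A2.Mod.FE E N} (hg : g ∈ V) :
    InW P E N V w (f * g) := by
  unfold InW at hf ⊢
  have : f * g * (cE P E N w)⁻¹ = f * (cE P E N w)⁻¹ * g := by ring
  rw [this]
  exact V.mul_mem _ _ hf hg

theorem inW_neg {f : _root_.Fermat.Agent.A2.Mod.FE E N} (hf : InW P E N V w f) : InW P E N V w (-f) := by
  unfold InW at hf ⊢
  rw [neg_mul]
  exact V.neg_mem _ hf

theorem inW_add {f g : _root_.Fermat.Agent.A2.Mod.FE E N} (hf : InW P E N V w f) (hg : InW P E N V w g) :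
    InW P E N V w (f + g) := by
  unfold InW at hf hg ⊢
  rw [add_mul]
  exact V.add_mem _ _ hf hg

theorem inW_sub {f g : _root_.Fermat.Agent.A2.Mod.FE E N} (hf : InW P E N V w f) (hg : InW P E N V w g) :
    InW P E N V w (f - g) := by
  unfold InW at hf hg ⊢
  rw [sub_mul]
  exact sub_mem hf hg

end Basic

section Frob

variable {P E}

/-- `q = r * w` in `R_E` when `P` lies over `q` and `w` is a uniformiser. -/
theorem exists_mul_eq_natCast {w : _root_.Fermat.Agent.A2.Mod.RE P E} {q : ℕ} (hdvr : IsDiscreteValuationRing (_root_.Fermat.Agent.A2.Mod.RE P E))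
    (hw : Irreducible w) (hP : P.LiesOverPrime q) : ∃ r : _root_.Fermat.Agent.A2.Mod.RE P E, r * w = (q : _root_.Fermat.Agent.A2.Mod.RE P E) := by
  haveI := hdvr
  have hmem : ((q : ℕ) : _root_.Fermat.Agent.A2.Mod.RE P E) ∈ IsLocalRing.maximalIdeal (_root_.Fermat.Agent.A2.Mod.RE P E) := by
    rw [IsLocalRing.mem_maximalIdeal, mem_nonunits_iff]
    intro hu
    obtain ⟨u, hu'⟩ := hu
    have h1 : (((u : _root_.Fermat.Agent.A2.Mod.RE P E) : E) : _root_.Fermat.Agent.A2.Mod.Qb) = (q : _root_.Fermat.Agent.A2.Mod.Qb) := by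
      rw [hu']
      push_cast
      rfl
    have h3 : ((((u⁻¹ : (_root_.Fermat.Agent.A2.Mod.RE P E)ˣ) : _root_.Fermat.Agent.A2.Mod.RE P E) : E) : _root_.Fermat.Agent.A2.Mod.Qb) ∈ P := ((u⁻¹ : (_root_.Fermat.Agent.A2.Mod.RE P E)ˣ) : _root_.Fermat.Agent.A2.Mod.RE P E).2
    have h4 : ((((u⁻¹ : (_root_.Fermat.Agent.A2.Mod.RE P E)ˣ) : _root_.Fermat.Agent.A2.Mod.RE P E) : E) : _root_.Fermat.Agent.A2.Mod.Qb) * (q : _root_.Fermat.Agent.A2.Mod.Qb) = 1 := by
      rw [← h1]
      have h5 : ((u⁻¹ : (_root_.Fermat.Agent.A2.Mod.RE P E)ˣ) : _root_.Fermat.Agent.A2.Mod.RE P E) * (u : _root_.Fermat.Agent.A2.Mod.RE P E) = 1 := Units.inv_mul u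
      calc ((((u⁻¹ : (_root_.Fermat.Agent.A2.Mod.RE P E)ˣ) : _root_.Fermat.Agent.A2.Mod.RE P E) : E) : _root_.Fermat.Agent.A2.Mod.Qb) * (((u : _root_.Fermat.Agent.A2.Mod.RE P E) : E) : _root_.Fermat.Agent.A2.Mod.Qb)
          = (((((u⁻¹ : (_root_.Fermat.Agent.A2.Mod.RE P E)ˣ) : _root_.Fermat.Agent.A2.Mod.RE P E) * (u : _root_.Fermat.Agent.A2.Mod.RE P E) : _root_.Fermat.Agent.A2.Mod.RE P E) : E) : _root_.Fermat.Agent.A2.Mod.Qb) := rfl
        _ = 1 := by rw [h5]; rfl
    have hq' : (q : _root_.Fermat.Agent.A2.Mod.Qb) ∈ P.nonunits := hP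
    rw [ValuationSubring.mem_nonunits_iff_exists_mem_maximalIdeal] at hq'
    obtain ⟨hqP, hqm⟩ := hq'
    rw [IsLocalRing.mem_maximalIdeal, mem_nonunits_iff] at hqm
    apply hqm
    refine IsUnit.of_mul_eq_one ⟨_, h3⟩ ?_
    exact Subtype.ext (by rw [mul_comm]; exact h4)
  rw [hw.maximalIdeal_eq, Ideal.mem_span_singleton'] at hmem
  exact hmem

/-- An element of `F_N` whose expansion is `q` times an integer series lies in `w V∞`. -/
theorem inW_of_coe_eq {w : _root_.Fermat.Agent.A2.Mod.RE P E} {q : ℕ} (hq0 : q ≠ 0)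
    (hdvr : IsDiscreteValuationRing (_root_.Fermat.Agent.A2.Mod.RE P E))
    (hw : Irreducible w) (hP : P.LiesOverPrime q) {N : ℕ} (hN : N ≠ 0)
    {V : ValuationSubring (_root_.Fermat.Agent.A2.Mod.FE E N)} (hV : IsVinf P E N V) (D : _root_.Fermat.Agent.A2.Mod.FE E N) (g : LaurentSeries ℤ)
    (hD : (D : LaurentSeries E) = coeffEmb E (H708.castQ (HahnSeries.C (q : ℤ) * g))) :
    InW P E N V w D := by
  haveI := hdvr
  obtain ⟨r, hr⟩ := exists_mul_eq_natCast hdvr hw hP
  have hL2 := H553.vinfBasic P E w N hN hdvr hw V hV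
  have hw0 : (w : E) ≠ 0 := fun h0 => hw.ne_zero (Subtype.ext h0)
  have hcw : cE P E N w ≠ 0 := (map_ne_zero_iff _ (algebraMap E (_root_.Fermat.Agent.A2.Mod.FE E N)).injective).mpr hw0
  have hqE : ((q : ℕ) : E) ≠ 0 := Nat.cast_ne_zero.mpr hq0
  have hqF : ((q : ℕ) : _root_.Fermat.Agent.A2.Mod.FE E N) ≠ 0 := Nat.cast_ne_zero.mpr hq0
  -- `G := D / q` has integral expansion `g`
  obtain ⟨G, hG⟩ : ∃ G : _root_.Fermat.Agent.A2.Mod.FE E N, G = D * ((q : ℕ) : _root_.Fermat.Agent.A2.Mod.FE E N)⁻¹ := ⟨_, rfl⟩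
  have hqL : ((q : ℕ) : LaurentSeries E) ≠ 0 := by
    rw [← map_natCast (algebraMap E (LaurentSeries E))]
    exact (_root_.map_ne_zero _).mpr hqE
  have hCq : coeffEmb E (H708.castQ (HahnSeries.C (q : ℤ))) = ((q : ℕ) : LaurentSeries E) := by
    have h1 : (HahnSeries.C (q : ℤ) : LaurentSeries ℤ) = ((q : ℕ) : LaurentSeries ℤ) := by
      rw [← map_natCast (HahnSeries.C : ℤ →+* LaurentSeries ℤ)]
    rw [h1, map_natCast, map_natCast]
  have hGc : (G : LaurentSeries E) = coeffEmb E (H708.castQ g) := by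
    have h1 : (G : LaurentSeries E) = (D : LaurentSeries E) * ((q : ℕ) : LaurentSeries E)⁻¹ := by
      rw [hG]
      push_cast
      rfl
    rw [h1, hD, map_mul, map_mul, hCq, mul_comm (((q : ℕ) : LaurentSeries E)), mul_assoc,
      mul_inv_cancel₀ hqL, mul_one]
  have hGV : G ∈ V := H553.mem_of_int hV hGc
  have hrV : algebraMap E (_root_.Fermat.Agent.A2.Mod.FE E N) (r : E) ∈ V := (hL2.2.1 _).mpr r.2
  have hqr : ((q : ℕ) : _root_.Fermat.Agent.A2.Mod.FE E N) = algebraMap E (_root_.Fermat.Agent.A2.Mod.FE E N) (r : E) * cE P E N w := by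
    have h1 : ((r * w : _root_.Fermat.Agent.A2.Mod.RE P E) : E) = ((q : ℕ) : E) := by
      rw [hr]
      rfl
    have h2 : ((r * w : _root_.Fermat.Agent.A2.Mod.RE P E) : E) = (r : E) * (w : E) := rfl
    rw [h2] at h1
    unfold cE
    rw [← map_mul, h1, map_natCast]
  have hDG : D = G * ((q : ℕ) : _root_.Fermat.Agent.A2.Mod.FE E N) := by
    rw [hG, mul_assoc, inv_mul_cancel₀ hqF, mul_one]
  unfold InW
  have : D * (cE P E N w)⁻¹ = G * algebraMap E (_root_.Fermat.Agent.A2.Mod.FE E N) (r : E) := by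
    rw [hDG, hqr, mul_assoc, mul_assoc, mul_inv_cancel₀ hcw, mul_one]
  rw [this]
  exact V.mul_mem _ _ hGV hrV

/-- **Frobenius congruence** at level `E`: `j_{dq} ≡ j_d ^ q mod w V∞`. -/
theorem frobCong {w : _root_.Fermat.Agent.A2.Mod.RE P E} {q : ℕ} (hq : q.Prime)
    (hdvr : IsDiscreteValuationRing (_root_.Fermat.Agent.A2.Mod.RE P E))
    (hw : Irreducible w) (hP : P.LiesOverPrime q) {N : ℕ} (hN : N ≠ 0)
    {V : ValuationSubring (_root_.Fermat.Agent.A2.Mod.FE E N)} (hV : IsVinf P E N V)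
    (d : ℕ) [NeZero d] [NeZero (d * q)] (hd : d ∣ N) (hdq : d * q ∣ N) :
    InW P E N V w (jE E N (d * q) hdq - jE E N d hd ^ q) := by
  haveI : Fact q.Prime := ⟨hq⟩
  haveI : NeZero q := ⟨hq.ne_zero⟩
  obtain ⟨g, hg⟩ := H528.exists_frobCong q (H708.jInt d)
  refine inW_of_coe_eq hq.ne_zero hdvr hw hP hN hV _ g ?_
  rw [← hg]
  have h1 : qExpand ℤ q (H708.jInt d) = H708.jInt (d * q) := by
    rw [H708.jInt, H708.jInt, jqNModC, jqNModC, qExpand_qExpand]
    exact qExpand_congr (mul_comm q d) _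
  rw [h1, map_sub, map_sub, map_pow, map_pow]
  show ((jE E N (d * q) hdq : _root_.Fermat.Agent.A2.Mod.FE E N) : LaurentSeries E)
    - ((jE E N d hd : _root_.Fermat.Agent.A2.Mod.FE E N) : LaurentSeries E) ^ q = _
  rw [H553.coe_jE, H553.coe_jE]

end Frob

end Fermat.Agent.A2.Mod.H142

end
end
-- ===== PACK-END A2/Mod/H142/S2Frob.lean

-- ===== PACK-BEGIN A2/Mod/H142/S2Side.lean
section



/-!
# A2 / MODASM S2 — one component (helper142)

`normal_side` : for a valuation subring `V'` of `F_{Mq}` (`V∞` or `V₀`) with uniformiser `w` and a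
degeneracy map `γ : F_M → F_{Mq}` (`α` or `β`) such that

* `γ V∞_M ⊆ V'`, residue degree one (`V' = γ V∞_M + w V'`),
* `y ≡ γ (y_M ^ (q+1)) mod w V'`, `γ y_M ∈ chartAlg y`,
* good reduction at level `M` in the chart of `y_M`,

the component `chartAlg y ⧸ (chartAlg y ∩ w V')` is integrally closed.
-/

set_option autoImplicit false
set_option synthInstance.maxHeartbeats 400000
set_option maxHeartbeats 1600000
set_option linter.unusedSectionVars false
set_option linter.style.haveILetI false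

noncomputable section

namespace Fermat.Agent.A2.Mod.H142

open ModularCurve HahnSeries Polynomial

variable (P : ValuationSubring _root_.Fermat.Agent.A2.Mod.Qb) (E : IntermediateField ℚ _root_.Fermat.Agent.A2.Mod.Qb)

section Chart

variable (N : ℕ)

/-- `chart` (Spec) and `chartAlg` (Asm) have the same elements. -/
theorem mem_chart_iff (y f : _root_.Fermat.Agent.A2.Mod.FE E N) : f ∈ chart P E N y ↔ f ∈ chartAlg P E N y :=
  (isIntegral_adjoin_iff (R := _root_.Fermat.Agent.A2.Mod.RE P E) y f).symm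

theorem self_mem_chartAlg (y : _root_.Fermat.Agent.A2.Mod.FE E N) : y ∈ chartAlg P E N y := by
  rw [mem_chartAlg]
  have h : y = algebraMap (Algebra.adjoin (_root_.Fermat.Agent.A2.Mod.RE P E) ({y} : Set (_root_.Fermat.Agent.A2.Mod.FE E N))) (_root_.Fermat.Agent.A2.Mod.FE E N)
      ⟨y, Algebra.subset_adjoin (Set.mem_singleton y)⟩ := rfl
  rw [h]
  exact isIntegral_algebraMap

end Chart

variable (M q : ℕ) [NeZero M] [NeZero q] (w : _root_.Fermat.Agent.A2.Mod.RE P E)

/-- **One component is normal.** -/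
theorem normal_side (hS : Setting P E M q w)
    (VM : ValuationSubring (_root_.Fermat.Agent.A2.Mod.FE E M)) (hVM : IsVinf P E M VM)
    (V' : ValuationSubring (_root_.Fermat.Agent.A2.Mod.FE E (M * q))) (hU' : H48.IsUnif V' (cE P E (M * q) w))
    (hRV' : ∀ r : _root_.Fermat.Agent.A2.Mod.RE P E, algebraMap (_root_.Fermat.Agent.A2.Mod.RE P E) (_root_.Fermat.Agent.A2.Mod.FE E (M * q)) r ∈ V')
    (γ : _root_.Fermat.Agent.A2.Mod.FE E M →ₐ[E] _root_.Fermat.Agent.A2.Mod.FE E (M * q))
    (hγV : ∀ g ∈ VM, γ g ∈ V')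
    (hres : ∀ f ∈ V', ∃ g ∈ VM, InW P E (M * q) V' w (f - γ g))
    (yM : _root_.Fermat.Agent.A2.Mod.FE E M) (y : _root_.Fermat.Agent.A2.Mod.FE E (M * q))
    (hyM : yM ∈ VM) (hy : y ∈ V')
    (hcong : InW P E (M * q) V' w (y - γ (yM ^ (q + 1))))
    (hγy : γ yM ∈ chartAlg P E (M * q) y)
    (hgood : GoodRedAt P E M w VM yM)
    (p : Ideal (chartAlg P E (M * q) y))
    (hp : IsCut P E (M * q) w V' (chartAlg P E (M * q) y) p) :
    IsIntegrallyClosed (chartAlg P E (M * q) y ⧸ p) := by
  have hdvr := hS.dvr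
  have hL2M := H553.vinfBasic P E w M hS.M_ne_zero hdvr hS.unif VM hVM
  have hUM : H48.IsUnif VM (cE P E M w) := hL2M.1
  have hRVM : ∀ r : _root_.Fermat.Agent.A2.Mod.RE P E, algebraMap (_root_.Fermat.Agent.A2.Mod.RE P E) (_root_.Fermat.Agent.A2.Mod.FE E M) r ∈ VM := fun r =>
    (hL2M.2.1 (r : E)).mpr r.2
  have hγR : ∀ r : _root_.Fermat.Agent.A2.Mod.RE P E, (γ : _root_.Fermat.Agent.A2.Mod.FE E M →+* _root_.Fermat.Agent.A2.Mod.FE E (M * q)) (algebraMap (_root_.Fermat.Agent.A2.Mod.RE P E) (_root_.Fermat.Agent.A2.Mod.FE E M) r) =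
      algebraMap (_root_.Fermat.Agent.A2.Mod.RE P E) (_root_.Fermat.Agent.A2.Mod.FE E (M * q)) r := fun r => γ.commutes (r : E)
  have hγc : γ (cE P E M w) = cE P E (M * q) w := γ.commutes (w : E)
  -- the charts lie in the valuation rings
  have hB₀ : ∀ b ∈ chartAlg P E M yM, b ∈ VM := fun b hb =>
    mem_valuationSubring_of_isIntegral_adjoin VM hRVM hyM ((mem_chartAlg P E M).1 hb)
  have hB : ∀ b ∈ chartAlg P E (M * q) y, b ∈ V' := fun b hb =>
    mem_valuationSubring_of_isIntegral_adjoin V' hRV' hy ((mem_chartAlg P E (M * q)).1 hb)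
  have hγB : ∀ b ∈ chartAlg P E M yM, (γ : _root_.Fermat.Agent.A2.Mod.FE E M →+* _root_.Fermat.Agent.A2.Mod.FE E (M * q)) b ∈ chartAlg P E (M * q) y :=
    fun b hb => (mem_chartAlg P E (M * q)).2
      (isIntegral_adjoin_map (γ : _root_.Fermat.Agent.A2.Mod.FE E M →+* _root_.Fermat.Agent.A2.Mod.FE E (M * q)) hγR
        ((mem_chartAlg P E (M * q)).1 hγy) ((mem_chartAlg P E M).1 hb))
  have hγp : ∀ g : _root_.Fermat.Agent.A2.Mod.FE E M, VM.valuation g < 1 →
      V'.valuation ((γ : _root_.Fermat.Agent.A2.Mod.FE E M →+* _root_.Fermat.Agent.A2.Mod.FE E (M * q)) g) < 1 := by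
    intro g hg
    rw [← inW_iff hUM] at hg
    rw [← inW_iff hU']
    unfold InW at hg ⊢
    have h1 := hγV _ hg
    rw [map_mul, map_inv₀, hγc] at h1
    exact h1
  have hres' : ∀ f ∈ V', ∃ g ∈ VM,
      V'.valuation (f - (γ : _root_.Fermat.Agent.A2.Mod.FE E M →+* _root_.Fermat.Agent.A2.Mod.FE E (M * q)) g) < 1 := by
    intro f hf
    obtain ⟨g, hg, hfg⟩ := hres f hf
    exact ⟨g, hg, (inW_iff hU' _).1 hfg⟩
  have hnorm₀ : NormalIn VM ((chartAlg P E M yM : Subalgebra (_root_.Fermat.Agent.A2.Mod.RE P E) (_root_.Fermat.Agent.A2.Mod.FE E M)) : Set (_root_.Fermat.Agent.A2.Mod.FE E M)) := by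
    intro f hf ⟨n, c, hc, hrel⟩
    obtain ⟨b, hb, hfb⟩ := hgood.normal f hf
      ⟨n, c, fun i => (mem_chart_iff P E M yM (c i)).2 (hc i), (inW_iff hUM _).2 hrel⟩
    exact ⟨b, (mem_chart_iff P E M yM b).1 hb, (inW_iff hUM _).1 hfb⟩
  have hint := isIntegralElem_of_coord (γ : _root_.Fermat.Agent.A2.Mod.FE E M →+* _root_.Fermat.Agent.A2.Mod.FE E (M * q)) hγR V'
    (chartAlg P E M yM) (chartAlg P E (M * q) y) hB hγB y (self_mem_chartAlg P E (M * q) y)
    (yM ^ (q + 1)) (pow_mem (self_mem_chartAlg P E M yM) _) ((inW_iff hU' _).1 hcong)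
    (fun b hb => (mem_chartAlg P E (M * q)).1 hb)
  have hnorm : NormalIn V'
      ((chartAlg P E (M * q) y : Subalgebra (_root_.Fermat.Agent.A2.Mod.RE P E) (_root_.Fermat.Agent.A2.Mod.FE E (M * q))) : Set (_root_.Fermat.Agent.A2.Mod.FE E (M * q))) :=
    normalIn_transfer (γ : _root_.Fermat.Agent.A2.Mod.FE E M →+* _root_.Fermat.Agent.A2.Mod.FE E (M * q)) VM V' hγV hγp
      (chartAlg P E M yM) (chartAlg P E (M * q) y) hB₀ hB hγB hres' hint hnorm₀
  exact isIntegrallyClosed_quotient_of_normal V' (chartAlg P E (M * q) y) hB p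
    (fun b => (hp b).trans (inW_iff hU' _)) hnorm

end Fermat.Agent.A2.Mod.H142

end
end
-- ===== PACK-END A2/Mod/H142/S2Side.lean

-- ===== PACK-BEGIN S28/H88/Degree.lean
section
/-
S28 (Igusa) -- helper88: [L.I] `1, j, …, j^{p-1}` are independent over `k((q^p))`, and
[L.B2] the degree of `j(q^p)` over `k(j)` is `p + 1`.
-/


set_option autoImplicit false

noncomputable section

open ModularCurve HahnSeries

namespace Fermat.Agent.S28

section Independence

variable (k : Type*) [Field k]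

theorem h88_order_qExpand (p : ℕ) [NeZero p] {x : LaurentSeries k} (hx : x ≠ 0) :
    (qExpand k p x).order = (p : ℤ) * x.order := by
  have hVx : qExpand k p x ≠ 0 := fun h => hx (qExpand_injective p (by rw [h, map_zero]))
  apply le_antisymm
  · apply HahnSeries.order_le_of_coeff_ne_zero
    rw [qExpand_coeff_mul]
    exact HahnSeries.coeff_order_eq_zero.not.mpr hx
  · have h := HahnSeries.coeff_order_eq_zero.not.mpr hVx
    by_cases hdvd : (p : ℤ) ∣ (qExpand k p x).order
    · obtain ⟨m, hm⟩ := hdvd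
      have h' : (qExpand k p x).coeff ((p : ℤ) * m) ≠ 0 := by rw [← hm]; exact h
      rw [qExpand_coeff_mul] at h'
      have h2 := HahnSeries.order_le_of_coeff_ne_zero h'
      rw [hm]
      exact mul_le_mul_of_nonneg_left h2 (by positivity)
    · exact absurd (qExpand_coeff_of_not_dvd p x hdvd) h

theorem h88_order_jqModC : (jqModC k).order = -1 := by
  have hne : jqModC k ≠ 0 := jqModC_ne_zero_of_nontrivial k
  apply le_antisymm
  · exact HahnSeries.order_le_of_coeff_ne_zero (by rw [coeff_jqModC_neg_one]; exact one_ne_zero)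
  · by_contra h
    rw [not_le] at h
    have h0 := coeff_jqModC_of_lt k (by omega : (jqModC k).order < -1)
    exact (HahnSeries.coeff_order_eq_zero.not.mpr hne) h0

/-- **[L.I]**, elementary form: `1, j, …, j^{p-1}` are linearly independent over the
image of `q ↦ q^p`. -/
theorem h88_linIndep_core (p : ℕ) [NeZero p] (c : ℕ → LaurentSeries k)
    (h : ∑ i ∈ Finset.range p, qExpand k p (c i) * (jqModC k) ^ i = 0) :
    ∀ i ∈ Finset.range p, c i = 0 := by
  classical
  by_contra hcon
  rw [not_forall] at hcon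
  obtain ⟨i₁, hcon⟩ := hcon
  rw [Classical.not_imp] at hcon
  obtain ⟨hi₁, hci₁⟩ := hcon
  have hj0 : jqModC k ≠ 0 := jqModC_ne_zero_of_nontrivial k
  have hS : ((Finset.range p).filter (fun i => c i ≠ 0)).Nonempty :=
    ⟨i₁, Finset.mem_filter.mpr ⟨hi₁, hci₁⟩⟩
  obtain ⟨i₀, hi₀S, hmin⟩ := Finset.exists_min_image _
    (fun i => (qExpand k p (c i) * (jqModC k) ^ i).order) hS
  have hi₀ := Finset.mem_filter.mp hi₀S
  have hV : ∀ i, c i ≠ 0 → qExpand k p (c i) ≠ 0 := fun i hci h0 =>
    hci (qExpand_injective p (by rw [h0, map_zero]))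
  have hord : ∀ i, c i ≠ 0 →
      (qExpand k p (c i) * (jqModC k) ^ i).order = (p : ℤ) * (c i).order - i := by
    intro i hci
    rw [HahnSeries.order_mul (hV i hci) (pow_ne_zero _ hj0), HahnSeries.order_pow,
      h88_order_qExpand k p hci, h88_order_jqModC]
    simp
    ring
  have hne : ∀ i, c i ≠ 0 → qExpand k p (c i) * (jqModC k) ^ i ≠ 0 := fun i hci =>
    mul_ne_zero (hV i hci) (pow_ne_zero _ hj0)
  have hcoeff : (∑ i ∈ Finset.range p, qExpand k p (c i) * (jqModC k) ^ i).coeff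
      (qExpand k p (c i₀) * (jqModC k) ^ i₀).order = 0 := by
    rw [h, HahnSeries.coeff_zero]
  rw [HahnSeries.coeff_sum, Finset.sum_eq_single_of_mem i₀ hi₀.1] at hcoeff
  · exact (HahnSeries.coeff_order_eq_zero.not.mpr (hne i₀ hi₀.2)) hcoeff
  · intro i hi hii₀
    by_cases hci : c i = 0
    · rw [hci, map_zero, zero_mul, HahnSeries.coeff_zero]
    · apply HahnSeries.coeff_eq_zero_of_lt_order
      have h1 := hmin i (Finset.mem_filter.mpr ⟨hi, hci⟩)
      rw [hord i hci, hord i₀ hi₀.2] at h1 ⊢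
      rcases lt_or_eq_of_le h1 with h2 | h2
      · exact h2
      · exfalso
        have hip := Finset.mem_range.mp hi
        have hi₀p := Finset.mem_range.mp hi₀.1
        have hdvd : (p : ℤ) ∣ (i₀ : ℤ) - i := ⟨(c i₀).order - (c i).order, by linarith⟩
        have h0 := Int.eq_zero_of_abs_lt_dvd hdvd (by rw [abs_lt]; constructor <;> omega)
        omega

/-- **[L.I]**, polynomial form: no nonzero polynomial of degree `< p` over `k((q^p))`
vanishes at `j`. -/
theorem h88_aeval_ne_zero_of_natDegree_lt (p : ℕ) [NeZero p]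
    (Q : Polynomial (qExpandAlgHomC k p).fieldRange) (hQ : Q ≠ 0) (hdeg : Q.natDegree < p) :
    Polynomial.aeval (jqModC k) Q ≠ 0 := by
  intro h
  rw [Polynomial.aeval_eq_sum_range' hdeg] at h
  have hc : ∀ i, ∃ y, qExpand k p y = (Q.coeff i : LaurentSeries k) := fun i =>
    AlgHom.mem_fieldRange.mp (Q.coeff i).2
  choose c hc using hc
  have h' : ∑ i ∈ Finset.range p, qExpand k p (c i) * (jqModC k) ^ i = 0 := by
    rw [← h]
    refine Finset.sum_congr rfl fun i _ => ?_
    rw [hc, Algebra.smul_def]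
    rfl
  have h0 := h88_linIndep_core k p c h'
  apply hQ
  refine Polynomial.ext fun i => ?_
  by_cases hi : i < p
  · have h1 : (Q.coeff i : LaurentSeries k) = 0 := by
      rw [← hc, h0 i (Finset.mem_range.mpr hi), map_zero]
    rw [Polynomial.coeff_zero]
    exact ZeroMemClass.coe_eq_zero.mp h1
  · rw [Polynomial.coeff_eq_zero_of_natDegree_lt (by omega), Polynomial.coeff_zero]

/-- **[L.I]**, `LinearIndependent` form. -/
theorem h88_linearIndependent_pow (p : ℕ) [NeZero p] :
    LinearIndependent (qExpandAlgHomC k p).fieldRange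
      (fun i : Fin p => (jqModC k) ^ (i : ℕ)) := by
  rw [Fintype.linearIndependent_iff]
  intro g hg i
  have hc : ∀ i : Fin p, ∃ y, qExpand k p y = (g i : LaurentSeries k) := fun i =>
    AlgHom.mem_fieldRange.mp (g i).2
  choose c hc using hc
  have h' : ∑ n ∈ Finset.range p,
      qExpand k p (if h : n < p then c ⟨n, h⟩ else 0) * (jqModC k) ^ n = 0 := by
    rw [Finset.sum_range, ← hg]
    refine Finset.sum_congr rfl fun i _ => ?_
    rw [dif_pos i.2, Fin.eta, hc, Algebra.smul_def]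
    rfl
  have h0 := h88_linIndep_core k p _ h' i (Finset.mem_range.mpr i.2)
  rw [dif_pos i.2, Fin.eta] at h0
  have h1 : (g i : LaurentSeries k) = 0 := by rw [← hc, h0, map_zero]
  exact ZeroMemClass.coe_eq_zero.mp h1

end Independence

section Degree

variable (k : Type*) [Field k] (p : ℕ) [NeZero p]

theorem h88_comp_evalAt {A A' : Type*} [CommRing A] [CommRing A']
    (g : LaurentSeries A →+* LaurentSeries A') (y : LaurentSeries A) :
    g.comp (evalAt y) = evalAt (g y) := by
  apply Polynomial.ringHom_ext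
  · intro a
    simp [evalAt]
  · simp [evalAt]

/-- `Φ(j_p, j) = 0` over `k`. -/
theorem h88_modPoly_eval_jp (Φ : ModPolyData p) :
    Φ.Φ.eval₂ (evalAt (jqModC k)) (qExpand k p (jqModC k)) = 0 := by
  have h := congrArg (coeffMap (Int.castRingHom k)) Φ.eval_jp
  rw [Polynomial.hom_eval₂, map_zero, h88_comp_evalAt, coeffMap_qExpand, coeffMap_jqModC] at h
  exact h

/-- `Φ(j, j_p) = 0` over `k`. -/
theorem h88_modPoly_eval_j (Φ : ModPolyData p) :
    Φ.Φ.eval₂ (evalAt (qExpand k p (jqModC k))) (jqModC k) = 0 := by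
  have h := congrArg (coeffMap (Int.castRingHom k)) Φ.eval_j
  rw [Polynomial.hom_eval₂, map_zero, h88_comp_evalAt, coeffMap_qExpand, coeffMap_jqModC] at h
  exact h

/-- `Φ(j_{p²}, j_p) = 0` over `k`. -/
theorem h88_modPoly_eval_jpp (Φ : ModPolyData p) :
    Φ.Φ.eval₂ (evalAt (qExpand k p (jqModC k)))
      (qExpand k p (qExpand k p (jqModC k))) = 0 := by
  have h := congrArg (qExpand k p) (h88_modPoly_eval_jp k p Φ)
  rw [Polynomial.hom_eval₂, map_zero, h88_comp_evalAt] at h
  exact h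

/-- Specialisation `ℤ[Y] → E`, `Y ↦ y`, for an intermediate field `E ∋ y`. -/
def h88_evalSub (E : IntermediateField k (LaurentSeries k)) {y : LaurentSeries k}
    (hy : y ∈ E) : Polynomial ℤ →+* E :=
  (Polynomial.aeval (R := ℤ) (⟨y, hy⟩ : E)).toRingHom

theorem h88_algebraMap_comp_evalSub (E : IntermediateField k (LaurentSeries k))
    {y : LaurentSeries k} (hy : y ∈ E) :
    (algebraMap E (LaurentSeries k)).comp (h88_evalSub k E hy) = evalAt y := by
  apply Polynomial.ringHom_ext
  · intro a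
    simp [evalAt, h88_evalSub]
  · simp [evalAt, h88_evalSub]

theorem h88_aeval_map_evalSub (E : IntermediateField k (LaurentSeries k))
    {y : LaurentSeries k} (hy : y ∈ E) (Φ : Polynomial (Polynomial ℤ))
    (x : LaurentSeries k) :
    Polynomial.aeval x (Φ.map (h88_evalSub k E hy)) = Φ.eval₂ (evalAt y) x := by
  rw [Polynomial.aeval_def, Polynomial.eval₂_map, h88_algebraMap_comp_evalSub]

theorem h88_jp_mem_map :
    qExpand k p (jqModC k) ∈ (jField k).map (qExpandAlgHomC k p) :=
  (IntermediateField.mem_map (jField k)).mpr ⟨jqModC k, h88_jqModC_mem_jField k, rfl⟩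

theorem h88_map_le_fieldRange :
    (jField k).map (qExpandAlgHomC k p) ≤ (qExpandAlgHomC k p).fieldRange := by
  intro x hx
  obtain ⟨y, -, hy⟩ := (IntermediateField.mem_map (jField k)).mp hx
  exact AlgHom.mem_fieldRange.mpr ⟨y, hy⟩

theorem h88_jqModC_ne_qExpand (hp1 : 1 < p) (y : LaurentSeries k) :
    jqModC k ≠ qExpand k p y := by
  intro h
  have h1 := coeff_jqModC_neg_one k
  rw [h, qExpand_coeff_of_not_dvd p y] at h1
  · exact zero_ne_one h1
  · intro hdvd
    have h2 : (p : ℤ) ∣ 1 := (dvd_neg).mp hdvd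
    have h3 := Int.le_of_dvd (by norm_num) h2
    have h4 : (1 : ℤ) < p := by exact_mod_cast hp1
    omega

/-- The modular polynomial specialised at `Y = j_p`, over `K₁ = k(j_p) = V_p(k(j))`. -/
def h88_Phi1 (Φ : ModPolyData p) :
    Polynomial ((jField k).map (qExpandAlgHomC k p)) :=
  Φ.Φ.map (h88_evalSub k _ (h88_jp_mem_map k p))

/-- The modular polynomial specialised at `Y = j`, over `k(j)`. -/
def h88_Phi0 (Φ : ModPolyData p) : Polynomial (jField k) :=
  Φ.Φ.map (h88_evalSub k _ (h88_jqModC_mem_jField k))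

theorem h88_Phi1_monic (Φ : ModPolyData p) : (h88_Phi1 k p Φ).Monic := Φ.monic.map _

theorem h88_Phi0_monic (Φ : ModPolyData p) : (h88_Phi0 k p Φ).Monic := Φ.monic.map _

theorem h88_Phi1_natDegree (Φ : ModPolyData p) : (h88_Phi1 k p Φ).natDegree = p + 1 := by
  rw [h88_Phi1, Φ.monic.natDegree_map, Φ.natDegree_eq]

theorem h88_Phi0_natDegree (Φ : ModPolyData p) : (h88_Phi0 k p Φ).natDegree = p + 1 := by
  rw [h88_Phi0, Φ.monic.natDegree_map, Φ.natDegree_eq]

theorem h88_Phi1_aeval_j (Φ : ModPolyData p) :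
    Polynomial.aeval (jqModC k) (h88_Phi1 k p Φ) = 0 := by
  rw [h88_Phi1, h88_aeval_map_evalSub]
  exact h88_modPoly_eval_j k p Φ

theorem h88_Phi1_aeval_jpp (Φ : ModPolyData p) :
    Polynomial.aeval (qExpand k p (qExpand k p (jqModC k))) (h88_Phi1 k p Φ) = 0 := by
  rw [h88_Phi1, h88_aeval_map_evalSub]
  exact h88_modPoly_eval_jpp k p Φ

theorem h88_Phi0_aeval_jp (Φ : ModPolyData p) :
    Polynomial.aeval (qExpand k p (jqModC k)) (h88_Phi0 k p Φ) = 0 := by
  rw [h88_Phi0, h88_aeval_map_evalSub]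
  exact h88_modPoly_eval_jp k p Φ

theorem h88_isIntegral_j_K1 (Φ : ModPolyData p) :
    IsIntegral ((jField k).map (qExpandAlgHomC k p)) (jqModC k) :=
  ⟨h88_Phi1 k p Φ, h88_Phi1_monic k p Φ, h88_Phi1_aeval_j k p Φ⟩

theorem h88_isIntegral_jp (Φ : ModPolyData p) :
    IsIntegral (jField k) (qExpand k p (jqModC k)) :=
  ⟨h88_Phi0 k p Φ, h88_Phi0_monic k p Φ, h88_Phi0_aeval_jp k p Φ⟩

/-- Key step: a polynomial over `K₁ ⊆ k((q^p))` vanishing at `j` is zero or has degree `≥ p`. -/
theorem h88_le_natDegree_of_aeval_j_eq_zero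
    (Q : Polynomial ((jField k).map (qExpandAlgHomC k p))) (hQ : Q ≠ 0)
    (h : Polynomial.aeval (jqModC k) Q = 0) : p ≤ Q.natDegree := by
  by_contra hlt
  rw [not_le] at hlt
  let incl : ((jField k).map (qExpandAlgHomC k p)) →+* (qExpandAlgHomC k p).fieldRange :=
    (IntermediateField.inclusion (h88_map_le_fieldRange k p)).toRingHom
  have hinj : Function.Injective incl :=
    (IntermediateField.inclusion (h88_map_le_fieldRange k p)).toRingHom.injective
  have h1 : Q.map incl ≠ 0 := (Polynomial.map_ne_zero_iff hinj).mpr hQ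
  have h2 : (Q.map incl).natDegree < p := by
    rw [Polynomial.natDegree_map_eq_of_injective hinj]; exact hlt
  apply h88_aeval_ne_zero_of_natDegree_lt k p (Q.map incl) h1 h2
  rw [Polynomial.aeval_def, Polynomial.eval₂_map]
  exact h

/-- **[L.B2], first half**: the minimal polynomial of `j` over `K₁ = k(j_p)` is `Φ_p(X, j_p)`,
of degree `p + 1`. -/
theorem h88_minpoly_j_eq_Phi1 (hpk : (p : k) ≠ 0) (hp1 : 1 < p) (Φ : ModPolyData p)
    (W : UnitPolyData p)
    (hθ : (thetaL ℤ (jqModC ℤ)) ^ 6 = deltaL ℤ * (jqModC ℤ) ^ 4 * (jqModC ℤ - 1728) ^ 3) :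
    minpoly ((jField k).map (qExpandAlgHomC k p)) (jqModC k) = h88_Phi1 k p Φ := by
  have hint := h88_isIntegral_j_K1 k p Φ
  have hm_monic := minpoly.monic hint
  have hm_dvd : minpoly ((jField k).map (qExpandAlgHomC k p)) (jqModC k) ∣ h88_Phi1 k p Φ :=
    minpoly.dvd _ _ (h88_Phi1_aeval_j k p Φ)
  have hm_ge := h88_le_natDegree_of_aeval_j_eq_zero k p _ hm_monic.ne_zero (minpoly.aeval _ _)
  have hm_le : (minpoly ((jField k).map (qExpandAlgHomC k p)) (jqModC k)).natDegree ≤ p + 1 := by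
    rw [← h88_Phi1_natDegree k p Φ]
    exact Polynomial.natDegree_le_of_dvd hm_dvd (h88_Phi1_monic k p Φ).ne_zero
  have hm_eq : (minpoly ((jField k).map (qExpandAlgHomC k p)) (jqModC k)).natDegree = p + 1 := by
    by_contra hne
    have hmp : (minpoly ((jField k).map (qExpandAlgHomC k p)) (jqModC k)).natDegree = p := by
      omega
    obtain ⟨R, hR⟩ := hm_dvd
    have hRmonic : R.Monic := hm_monic.of_mul_monic_left (hR ▸ h88_Phi1_monic k p Φ)
    have hRdeg : R.natDegree = 1 := by
      have h := congrArg Polynomial.natDegree hR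
      rw [hm_monic.natDegree_mul hRmonic, h88_Phi1_natDegree, hmp] at h
      omega
    have hR' : R = Polynomial.X + Polynomial.C (R.coeff 0) := hRmonic.eq_X_add_C hRdeg
    have h1 : Polynomial.aeval (qExpand k p (qExpand k p (jqModC k)))
          (minpoly ((jField k).map (qExpandAlgHomC k p)) (jqModC k))
        * Polynomial.aeval (qExpand k p (qExpand k p (jqModC k))) R = 0 := by
      rw [← map_mul, ← hR]
      exact h88_Phi1_aeval_jpp k p Φ
    rcases mul_eq_zero.mp h1 with h2 | h2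
    · -- `m` has the root `j_{p²} ∈ k((q^p))`: split off a linear factor over `k((q^p))`
      let incl : ((jField k).map (qExpandAlgHomC k p)) →+* (qExpandAlgHomC k p).fieldRange :=
        (IntermediateField.inclusion (h88_map_le_fieldRange k p)).toRingHom
      have hinj : Function.Injective incl :=
        (IntermediateField.inclusion (h88_map_le_fieldRange k p)).toRingHom.injective
      let b₂ : (qExpandAlgHomC k p).fieldRange :=
        ⟨qExpand k p (qExpand k p (jqModC k)),
          AlgHom.mem_fieldRange.mpr ⟨qExpand k p (jqModC k), rfl⟩⟩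
      have hroot : ((minpoly ((jField k).map (qExpandAlgHomC k p)) (jqModC k)).map incl).IsRoot
          b₂ := by
        rw [Polynomial.IsRoot.def]
        apply (algebraMap (qExpandAlgHomC k p).fieldRange (LaurentSeries k)).injective
        rw [map_zero, Polynomial.eval_map, Polynomial.hom_eval₂]
        exact h2
      obtain ⟨M', hM'⟩ := Polynomial.dvd_iff_isRoot.mpr hroot
      have hmapne : (minpoly ((jField k).map (qExpandAlgHomC k p)) (jqModC k)).map incl ≠ 0 :=
        (Polynomial.map_ne_zero_iff hinj).mpr hm_monic.ne_zero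
      have hM'ne : M' ≠ 0 := by
        intro h0
        rw [h0, mul_zero] at hM'
        exact hmapne hM'
      have hM'deg : M'.natDegree < p := by
        have h := congrArg Polynomial.natDegree hM'
        rw [Polynomial.natDegree_map_eq_of_injective hinj, hmp,
          Polynomial.natDegree_mul (Polynomial.X_sub_C_ne_zero b₂) hM'ne,
          Polynomial.natDegree_X_sub_C] at h
        omega
      apply h88_aeval_ne_zero_of_natDegree_lt k p M' hM'ne hM'deg
      have h3 : Polynomial.aeval (jqModC k)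
          ((minpoly ((jField k).map (qExpandAlgHomC k p)) (jqModC k)).map incl) = 0 := by
        rw [Polynomial.aeval_def, Polynomial.eval₂_map]
        exact minpoly.aeval _ _
      rw [hM', map_mul, map_sub, Polynomial.aeval_X, Polynomial.aeval_C] at h3
      rcases mul_eq_zero.mp h3 with h4 | h4
      · exact absurd (sub_eq_zero.mp h4) (h88_jqModC_ne_qExpand k p hp1 _)
      · exact h4
    · -- `j_{p²} ∈ K₁ = V_p(k(j))`, hence `j_p ∈ k(j)`
      rw [hR', map_add, Polynomial.aeval_X, Polynomial.aeval_C] at h2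
      have h3 : qExpand k p (qExpand k p (jqModC k))
          ∈ (jField k).map (qExpandAlgHomC k p) := by
        have h4 : qExpand k p (qExpand k p (jqModC k))
            = -(algebraMap ((jField k).map (qExpandAlgHomC k p)) (LaurentSeries k)
                (R.coeff 0)) := eq_neg_of_add_eq_zero_left h2
        rw [h4]
        exact neg_mem (R.coeff 0).2
      obtain ⟨r, hr, hVr⟩ := (IntermediateField.mem_map (jField k)).mp h3
      have hr' : r = qExpand k p (jqModC k) := qExpand_injective p hVr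
      exact h88_jp_not_mem_jField k p hpk hp1 W hθ (hr' ▸ hr)
  exact (Polynomial.eq_of_monic_of_dvd_of_natDegree_le hm_monic (h88_Phi1_monic k p Φ) hm_dvd
    (by rw [h88_Phi1_natDegree, hm_eq])).symm

theorem h88_irreducible_Phi1 (hpk : (p : k) ≠ 0) (hp1 : 1 < p) (Φ : ModPolyData p)
    (W : UnitPolyData p)
    (hθ : (thetaL ℤ (jqModC ℤ)) ^ 6 = deltaL ℤ * (jqModC ℤ) ^ 4 * (jqModC ℤ - 1728) ^ 3) :
    Irreducible (h88_Phi1 k p Φ) := by
  rw [← h88_minpoly_j_eq_Phi1 k p hpk hp1 Φ W hθ]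
  exact minpoly.irreducible (h88_isIntegral_j_K1 k p Φ)

theorem h88_natDegree_minpoly_j (hpk : (p : k) ≠ 0) (hp1 : 1 < p) (Φ : ModPolyData p)
    (W : UnitPolyData p)
    (hθ : (thetaL ℤ (jqModC ℤ)) ^ 6 = deltaL ℤ * (jqModC ℤ) ^ 4 * (jqModC ℤ - 1728) ^ 3) :
    (minpoly ((jField k).map (qExpandAlgHomC k p)) (jqModC k)).natDegree = p + 1 := by
  rw [h88_minpoly_j_eq_Phi1 k p hpk hp1 Φ W hθ, h88_Phi1_natDegree]

/-- **[L.B2]**: the minimal polynomial of `j(q^p)` over `k(j)` has degree `p + 1`. -/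
theorem h88_natDegree_minpoly_jp (hpk : (p : k) ≠ 0) (hp1 : 1 < p) (Φ : ModPolyData p)
    (W : UnitPolyData p)
    (hθ : (thetaL ℤ (jqModC ℤ)) ^ 6 = deltaL ℤ * (jqModC ℤ) ^ 4 * (jqModC ℤ - 1728) ^ 3) :
    (minpoly (jField k) (qExpand k p (jqModC k))).natDegree = p + 1 := by
  have hint := h88_isIntegral_jp k p Φ
  have hm_monic := minpoly.monic hint
  apply le_antisymm
  · rw [← h88_Phi0_natDegree k p Φ]
    exact Polynomial.natDegree_le_of_dvd (minpoly.dvd _ _ (h88_Phi0_aeval_jp k p Φ))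
      (h88_Phi0_monic k p Φ).ne_zero
  · -- transport the minimal polynomial through `V_p`
    let e : (jField k) →+* ((jField k).map (qExpandAlgHomC k p)) :=
      ((jField k).equivMap (qExpandAlgHomC k p)).toAlgHom.toRingHom
    have hcomp : (algebraMap ((jField k).map (qExpandAlgHomC k p)) (LaurentSeries k)).comp e
        = (qExpand k p).comp (algebraMap (jField k) (LaurentSeries k)) := by
      ext x
      rfl
    have hQ : Polynomial.aeval (qExpand k p (qExpand k p (jqModC k)))
        ((minpoly (jField k) (qExpand k p (jqModC k))).map e) = 0 := by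
      rw [Polynomial.aeval_def, Polynomial.eval₂_map, hcomp, ← Polynomial.hom_eval₂,
        ← Polynomial.aeval_def, minpoly.aeval, map_zero]
    have hirr := h88_irreducible_Phi1 k p hpk hp1 Φ W hθ
    have hmin := minpoly.eq_of_irreducible_of_monic hirr (h88_Phi1_aeval_jpp k p Φ)
      (h88_Phi1_monic k p Φ)
    have hdvd := minpoly.dvd _ _ hQ
    rw [← hmin] at hdvd
    have h1 := Polynomial.natDegree_le_of_dvd hdvd ((hm_monic.map e).ne_zero)
    rw [h88_Phi1_natDegree, hm_monic.natDegree_map] at h1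
    exact h1

end Degree

end Fermat.Agent.S28

end

end
-- ===== PACK-END S28/H88/Degree.lean

-- ===== PACK-BEGIN S28/H88/Kronecker.lean
section
/-
S28-derived shared brick -- helper88: Frobenius on Laurent series in characteristic `p`
(`f ^ p = V_p (f^{(p)})`) and the Kronecker congruence for the modular polynomial:
`Φ_p(X, Y) ≡ (X^p - Y)(X - Y^p) mod p`, derived formally from `ModPolyData p`.
-/


set_option autoImplicit false

noncomputable section

open ModularCurve HahnSeries

namespace Fermat.Agent.S28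

section Frobenius

variable (k : Type*) [Field k] (p : ℕ) [hp : Fact p.Prime] [CharP k p] [NeZero p]

omit hp [NeZero p] in
theorem h88_charP_laurent : CharP (LaurentSeries k) p :=
  charP_of_injective_ringHom (f := (HahnSeries.C : k →+* LaurentSeries k))
    HahnSeries.C_injective p

omit hp [CharP k p] in
/-- If all coefficients of `x` below `N` vanish, all coefficients of `x ^ p` below `p * N`
vanish. -/
theorem h88_coeff_pow_eq_zero {x : LaurentSeries k} {N : ℤ} (hx : ∀ i < N, x.coeff i = 0)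
    {n : ℤ} (hn : n < (p : ℤ) * N) : (x ^ p).coeff n = 0 := by
  by_cases hx0 : x = 0
  · rw [hx0, zero_pow (NeZero.ne p), HahnSeries.coeff_zero]
  · apply HahnSeries.coeff_eq_zero_of_lt_order
    rw [HahnSeries.order_pow, nsmul_eq_mul]
    have h1 : N ≤ x.order := by
      by_contra hlt
      rw [not_le] at hlt
      exact (HahnSeries.coeff_order_eq_zero.not.mpr hx0) (hx _ hlt)
    have hp0 : (0 : ℤ) ≤ (p : ℤ) := by positivity
    have h2 : (p : ℤ) * N ≤ (p : ℤ) * x.order := mul_le_mul_of_nonneg_left h1 hp0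
    exact lt_of_lt_of_le hn h2

/-- **Frobenius on Laurent series** in characteristic `p`: `f ^ p = V_p (f^{(p)})`, where
`f^{(p)}` raises every coefficient to the `p`-th power. -/
theorem h88_pow_char_eq_qExpand (f : LaurentSeries k) :
    f ^ p = qExpand k p (coeffMap (frobenius k p) f) := by
  have : CharP (LaurentSeries k) p := h88_charP_laurent k p
  have hp1 : (1 : ℤ) ≤ p := by exact_mod_cast Nat.pos_of_ne_zero (NeZero.ne p)
  ext n
  -- cut `f` at `N`
  obtain ⟨N, hN⟩ : ∃ N : ℤ, n < (p : ℤ) * N := by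
    refine ⟨|n| + 1, ?_⟩
    have h1 : n ≤ |n| := le_abs_self n
    have h2 : (0 : ℤ) ≤ |n| := abs_nonneg n
    nlinarith
  set A : LaurentSeries k :=
    ∑ i ∈ Finset.Ico f.order N, HahnSeries.single i (f.coeff i) with hA
  have hAcoeff : ∀ i, A.coeff i = if i ∈ Finset.Ico f.order N then f.coeff i else 0 := by
    intro i
    rw [hA, HahnSeries.coeff_sum]
    by_cases hi : i ∈ Finset.Ico f.order N
    · rw [if_pos hi, Finset.sum_eq_single_of_mem i hi, HahnSeries.coeff_single_same]
      intro i' _ hne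
      exact HahnSeries.coeff_single_of_ne (Ne.symm hne)
    · rw [if_neg hi]
      apply Finset.sum_eq_zero
      intro i' hi'
      apply HahnSeries.coeff_single_of_ne
      rintro rfl
      exact hi hi'
  have hB : ∀ i < N, (f - A).coeff i = 0 := by
    intro i hi
    rw [HahnSeries.coeff_sub, hAcoeff]
    by_cases hio : f.order ≤ i
    · rw [if_pos (Finset.mem_Ico.mpr ⟨hio, hi⟩), sub_self]
    · rw [if_neg (fun h => hio (Finset.mem_Ico.mp h).1), sub_zero]
      exact HahnSeries.coeff_eq_zero_of_lt_order (not_le.mp hio)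
  have hsplit : f ^ p = A ^ p + (f - A) ^ p := by
    rw [← add_pow_char, add_sub_cancel]
  have hApow : A ^ p = ∑ i ∈ Finset.Ico f.order N,
      HahnSeries.single ((p : ℤ) * i) (f.coeff i ^ p) := by
    rw [hA, sum_pow_char]
    refine Finset.sum_congr rfl fun i _ => ?_
    rw [HahnSeries.single_pow, nsmul_eq_mul]
  rw [hsplit, HahnSeries.coeff_add, h88_coeff_pow_eq_zero k p hB hN, add_zero, hApow,
    HahnSeries.coeff_sum]
  by_cases hdvd : (p : ℤ) ∣ n
  · obtain ⟨i₀, rfl⟩ := hdvd
    rw [qExpand_coeff_mul, coeffMap_coeff, frobenius_def]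
    have hi₀N : i₀ < N := by
      by_contra hge
      rw [not_lt] at hge
      have : (p : ℤ) * N ≤ (p : ℤ) * i₀ := mul_le_mul_of_nonneg_left hge (by positivity)
      omega
    have hpne : (p : ℤ) ≠ 0 := by exact_mod_cast NeZero.ne p
    by_cases hio : f.order ≤ i₀
    · rw [Finset.sum_eq_single_of_mem i₀ (Finset.mem_Ico.mpr ⟨hio, hi₀N⟩),
        HahnSeries.coeff_single_same]
      intro i' _ hne
      apply HahnSeries.coeff_single_of_ne
      intro h
      exact hne (mul_left_cancel₀ hpne h).symm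
    · rw [HahnSeries.coeff_eq_zero_of_lt_order (not_le.mp hio), zero_pow (NeZero.ne p)]
      apply Finset.sum_eq_zero
      intro i' hi'
      apply HahnSeries.coeff_single_of_ne
      intro h
      have h1 : i₀ = i' := mul_left_cancel₀ hpne h
      exact hio (h1 ▸ (Finset.mem_Ico.mp hi').1)
  · rw [qExpand_coeff_of_not_dvd p _ hdvd]
    apply Finset.sum_eq_zero
    intro i' _
    apply HahnSeries.coeff_single_of_ne
    rintro rfl
    exact hdvd ⟨i', rfl⟩

end Frobenius

section FrobeniusZMod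

variable (p : ℕ) [hp : Fact p.Prime] [NeZero p]

/-- Over `𝔽_p`: `V_p f = f ^ p`. -/
theorem h88_qExpand_zmod (f : LaurentSeries (ZMod p)) :
    qExpand (ZMod p) p f = f ^ p := by
  rw [h88_pow_char_eq_qExpand (ZMod p) p f]
  congr 1
  ext n
  rw [coeffMap_coeff, frobenius_def, ZMod.pow_card]

end FrobeniusZMod

section Kronecker

open Polynomial

variable (p : ℕ) [hp : Fact p.Prime] [NeZero p]

/-- The modular polynomial reduced mod `p`, in `𝔽_p[Y][X]`. -/
def h88_PhiBar (Φ : ModPolyData p) : Polynomial (Polynomial (ZMod p)) :=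
  Φ.Φ.map (Polynomial.mapRingHom (Int.castRingHom (ZMod p)))

theorem h88_PhiBar_monic (Φ : ModPolyData p) : (h88_PhiBar p Φ).Monic := Φ.monic.map _

theorem h88_PhiBar_natDegree (Φ : ModPolyData p) : (h88_PhiBar p Φ).natDegree = p + 1 := by
  rw [h88_PhiBar, Φ.monic.natDegree_map, Φ.natDegree_eq]

theorem h88_aeval_comp_mapRingHom (k : Type*) [Field k] (y : LaurentSeries k) :
    ((Polynomial.aeval (R := k) y).toRingHom).comp
        (Polynomial.mapRingHom (Int.castRingHom k)) = evalAt y := by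
  apply Polynomial.ringHom_ext
  · intro a
    simp [evalAt]
  · simp [evalAt]

/-- `Ψ(j^p, j) = 0` where `Ψ = Φ mod p`. -/
theorem h88_PhiBar_eval_jp (Φ : ModPolyData p) :
    (h88_PhiBar p Φ).eval₂ (Polynomial.aeval (R := ZMod p) (jqModC (ZMod p))).toRingHom
      ((jqModC (ZMod p)) ^ p) = 0 := by
  rw [h88_PhiBar, Polynomial.eval₂_map, h88_aeval_comp_mapRingHom, ← h88_qExpand_zmod]
  exact h88_modPoly_eval_jp (ZMod p) p Φ

/-- `Ψ(j, j^p) = 0` where `Ψ = Φ mod p`. -/
theorem h88_PhiBar_eval_j (Φ : ModPolyData p) :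
    (h88_PhiBar p Φ).eval₂ (Polynomial.aeval (R := ZMod p) ((jqModC (ZMod p)) ^ p)).toRingHom
      (jqModC (ZMod p)) = 0 := by
  rw [h88_PhiBar, Polynomial.eval₂_map, h88_aeval_comp_mapRingHom, ← h88_qExpand_zmod]
  exact h88_modPoly_eval_j (ZMod p) p Φ

/-- `Ψ(Y^p, Y) = 0` as a polynomial identity. -/
theorem h88_PhiBar_eval_X_pow (Φ : ModPolyData p) :
    (h88_PhiBar p Φ).eval ((Polynomial.X : Polynomial (ZMod p)) ^ p) = 0 := by
  apply h88_aeval_jqModC_injective (ZMod p)
  rw [map_zero]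
  have h := Polynomial.hom_eval₂ (h88_PhiBar p Φ) (RingHom.id (Polynomial (ZMod p)))
    (Polynomial.aeval (R := ZMod p) (jqModC (ZMod p))).toRingHom
    ((Polynomial.X : Polynomial (ZMod p)) ^ p)
  rw [Polynomial.eval₂_id, RingHom.comp_id] at h
  have h2 : (Polynomial.aeval (R := ZMod p) (jqModC (ZMod p))).toRingHom
      ((Polynomial.X : Polynomial (ZMod p)) ^ p) = (jqModC (ZMod p)) ^ p := by
    simp
  rw [h2, h88_PhiBar_eval_jp] at h
  exact h

theorem h88_aeval_pow_eq_qExpand (c : Polynomial (ZMod p)) :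
    Polynomial.aeval ((jqModC (ZMod p)) ^ p) c
      = qExpand (ZMod p) p (Polynomial.aeval (jqModC (ZMod p)) c) := by
  rw [← h88_qExpand_zmod]
  exact Polynomial.aeval_algHom_apply (qExpandAlgHomC (ZMod p) p) (jqModC (ZMod p)) c

/-- A polynomial `R ∈ 𝔽_p[Y][X]` of `X`-degree `< p` with `R(j, j^p) = 0` vanishes. -/
theorem h88_eq_zero_of_eval_j_pow (R : Polynomial (Polynomial (ZMod p)))
    (hdeg : R.natDegree < p)
    (h : R.eval₂ (Polynomial.aeval (R := ZMod p) ((jqModC (ZMod p)) ^ p)).toRingHom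
      (jqModC (ZMod p)) = 0) : R = 0 := by
  rw [Polynomial.eval₂_eq_sum_range' _ hdeg] at h
  have h' : ∑ i ∈ Finset.range p,
      qExpand (ZMod p) p (Polynomial.aeval (jqModC (ZMod p)) (R.coeff i))
        * (jqModC (ZMod p)) ^ i = 0 := by
    rw [← h]
    refine Finset.sum_congr rfl fun i _ => ?_
    rw [← h88_aeval_pow_eq_qExpand]
    rfl
  have h0 := h88_linIndep_core (ZMod p) p
    (fun i => Polynomial.aeval (jqModC (ZMod p)) (R.coeff i)) h'
  refine Polynomial.ext fun i => ?_
  rw [Polynomial.coeff_zero]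
  by_cases hi : i < p
  · apply h88_aeval_jqModC_injective (ZMod p)
    rw [map_zero]
    exact h0 i (Finset.mem_range.mpr hi)
  · exact Polynomial.coeff_eq_zero_of_natDegree_lt (by omega)

/-- **Kronecker congruence**: `Φ_p(X, Y) ≡ (X^p - Y)(X - Y^p) mod p`. -/
theorem h88_kronecker (Φ : ModPolyData p) :
    h88_PhiBar p Φ =
      ((Polynomial.X : Polynomial (Polynomial (ZMod p))) ^ p
          - Polynomial.C (Polynomial.X : Polynomial (ZMod p)))
        * (Polynomial.X - Polynomial.C ((Polynomial.X : Polynomial (ZMod p)) ^ p)) := by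
  have hp0 : p ≠ 0 := NeZero.ne p
  have hp2 : 2 ≤ p := hp.out.two_le
  obtain ⟨D, hD⟩ : ∃ D : Polynomial (Polynomial (ZMod p)),
      D = (Polynomial.X : Polynomial (Polynomial (ZMod p))) ^ p
        - Polynomial.C (Polynomial.X : Polynomial (ZMod p)) := ⟨_, rfl⟩
  rw [← hD]
  have hDmonic : D.Monic := by rw [hD]; exact Polynomial.monic_X_pow_sub_C _ hp0
  have hDdeg : D.natDegree = p := by rw [hD]; exact Polynomial.natDegree_X_pow_sub_C
  have hD1 : D ≠ 1 := by
    intro h1
    have := congrArg Polynomial.natDegree h1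
    rw [hDdeg, Polynomial.natDegree_one] at this
    exact hp0 this
  have hdiv := Polynomial.modByMonic_add_div (h88_PhiBar p Φ) D
  -- the remainder vanishes
  have hRdeg : (h88_PhiBar p Φ %ₘ D).natDegree < p := by
    have := Polynomial.natDegree_modByMonic_lt (h88_PhiBar p Φ) hDmonic hD1
    rwa [hDdeg] at this
  have hevD : D.eval₂ (Polynomial.aeval (R := ZMod p) ((jqModC (ZMod p)) ^ p)).toRingHom
      (jqModC (ZMod p)) = 0 := by
    rw [hD, Polynomial.eval₂_sub, Polynomial.eval₂_pow, Polynomial.eval₂_X, Polynomial.eval₂_C]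
    simp
  have hevR : (h88_PhiBar p Φ %ₘ D).eval₂
      (Polynomial.aeval (R := ZMod p) ((jqModC (ZMod p)) ^ p)).toRingHom
      (jqModC (ZMod p)) = 0 := by
    have h := h88_PhiBar_eval_j p Φ
    rw [← hdiv, Polynomial.eval₂_add, Polynomial.eval₂_mul, hevD, zero_mul, add_zero] at h
    exact h
  have hR0 : h88_PhiBar p Φ %ₘ D = 0 := h88_eq_zero_of_eval_j_pow p _ hRdeg hevR
  rw [hR0, zero_add] at hdiv
  -- the quotient is monic of degree one
  have hmon : (D * (h88_PhiBar p Φ /ₘ D)).Monic := by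
    rw [hdiv]; exact h88_PhiBar_monic p Φ
  have hQmonic : (h88_PhiBar p Φ /ₘ D).Monic := hDmonic.of_mul_monic_left hmon
  have hQdeg : (h88_PhiBar p Φ /ₘ D).natDegree = 1 := by
    have h := congrArg Polynomial.natDegree hdiv
    rw [hDmonic.natDegree_mul hQmonic, hDdeg, h88_PhiBar_natDegree] at h
    omega
  have hQ := hQmonic.eq_X_add_C hQdeg
  -- evaluate at `X = Y ^ p`
  have hev := h88_PhiBar_eval_X_pow p Φ
  have hDev : D.eval ((Polynomial.X : Polynomial (ZMod p)) ^ p)
      = ((Polynomial.X : Polynomial (ZMod p)) ^ p) ^ p - Polynomial.X := by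
    rw [hD, Polynomial.eval_sub, Polynomial.eval_pow, Polynomial.eval_X, Polynomial.eval_C]
  have hQev : (h88_PhiBar p Φ /ₘ D).eval ((Polynomial.X : Polynomial (ZMod p)) ^ p)
      = (Polynomial.X : Polynomial (ZMod p)) ^ p + (h88_PhiBar p Φ /ₘ D).coeff 0 := by
    conv_lhs => rw [hQ, Polynomial.eval_add, Polynomial.eval_X, Polynomial.eval_C]
  rw [← hdiv, Polynomial.eval_mul, hDev, hQev] at hev
  have hne : ((Polynomial.X : Polynomial (ZMod p)) ^ p) ^ p - Polynomial.X ≠ 0 := by
    intro h0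
    have h1 := congrArg (fun q => Polynomial.coeff q 1) h0
    simp only [Polynomial.coeff_sub, Polynomial.coeff_X_one, Polynomial.coeff_zero] at h1
    rw [← pow_mul, Polynomial.coeff_X_pow, if_neg (by nlinarith), zero_sub] at h1
    exact one_ne_zero (neg_eq_zero.mp h1)
  have hc : (h88_PhiBar p Φ /ₘ D).coeff 0 = -((Polynomial.X : Polynomial (ZMod p)) ^ p) := by
    rcases mul_eq_zero.mp hev with h | h
    · exact absurd h hne
    · exact eq_neg_of_add_eq_zero_right h
  rw [← hdiv]
  conv_lhs => rw [hQ, hc, Polynomial.C_neg, ← sub_eq_add_neg]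

/-- Kronecker congruence over any commutative ring `k` of characteristic `p`. -/
theorem h88_kronecker_charP (k : Type*) [CommRing k] [CharP k p] (Φ : ModPolyData p) :
    Φ.Φ.map (Polynomial.mapRingHom (Int.castRingHom k)) =
      ((Polynomial.X : Polynomial (Polynomial k)) ^ p
          - Polynomial.C (Polynomial.X : Polynomial k))
        * (Polynomial.X - Polynomial.C ((Polynomial.X : Polynomial k) ^ p)) := by
  have h := congrArg (Polynomial.map (Polynomial.mapRingHom (ZMod.castHom (dvd_refl p) k)))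
    (h88_kronecker p Φ)
  rw [h88_PhiBar, Polynomial.map_map] at h
  have hcomp : (Polynomial.mapRingHom (ZMod.castHom (dvd_refl p) k)).comp
      (Polynomial.mapRingHom (Int.castRingHom (ZMod p)))
      = Polynomial.mapRingHom (Int.castRingHom k) := by
    apply Polynomial.ringHom_ext
    · intro a
      simp
    · simp
  rw [hcomp] at h
  rw [h]
  simp

/-- Kronecker congruence over `ℤ`: `Φ_p = (X^p - Y)(X - Y^p) + p · Θ`. -/
theorem h88_kronecker_int (Φ : ModPolyData p) :
    ∃ Θ : Polynomial (Polynomial ℤ), Φ.Φ =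
      ((Polynomial.X : Polynomial (Polynomial ℤ)) ^ p
          - Polynomial.C (Polynomial.X : Polynomial ℤ))
        * (Polynomial.X - Polynomial.C ((Polynomial.X : Polynomial ℤ) ^ p))
        + Polynomial.C (Polynomial.C (p : ℤ)) * Θ := by
  set G : Polynomial (Polynomial ℤ) := Φ.Φ -
      ((Polynomial.X : Polynomial (Polynomial ℤ)) ^ p
          - Polynomial.C (Polynomial.X : Polynomial ℤ))
        * (Polynomial.X - Polynomial.C ((Polynomial.X : Polynomial ℤ) ^ p)) with hG
  have hG0 : G.map (Polynomial.mapRingHom (Int.castRingHom (ZMod p))) = 0 := by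
    rw [hG, Polynomial.map_sub]
    have h := h88_kronecker p Φ
    rw [h88_PhiBar] at h
    rw [h]
    simp
  have hdvd : ∀ i j, (p : ℤ) ∣ (G.coeff i).coeff j := by
    intro i j
    have h1 := congrArg (fun q => (Polynomial.coeff q i).coeff j) hG0
    simp only [Polynomial.coeff_map, Polynomial.coe_mapRingHom, Polynomial.coeff_zero] at h1
    exact (ZMod.intCast_zmod_eq_zero_iff_dvd _ p).mp h1
  have hdvd2 : Polynomial.C (Polynomial.C (p : ℤ)) ∣ G := by
    rw [Polynomial.C_dvd_iff_dvd_coeff]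
    intro i
    rw [Polynomial.C_dvd_iff_dvd_coeff]
    intro j
    exact hdvd i j
  obtain ⟨Θ, hΘ⟩ := hdvd2
  exact ⟨Θ, by rw [← hΘ, hG]; ring⟩

end Kronecker

end Fermat.Agent.S28

end

end
-- ===== PACK-END S28/H88/Kronecker.lean

-- ===== PACK-BEGIN A2/Mod/H378/L11.lean
section






/-!
# A2 / MOD leaf L11 `ResInf` (helper378)

`theorem resInf : ResInfStatement P E M q w` : residue degree one over level `M` on `C∞`.

Route (independent of the other leaves): `F_{Mq} = F_M(j_{dq} : d ∣ M)`; by the Kronecker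
congruence `Φ_q(X, Y) = (X^q - Y)(X - Y^q) + q Θ` (`S28.h88_kronecker_int`, with `Φ_q` from
`S28.H326.nonempty_modPolyData`) the generators satisfy
`(j_{dq}^q - j_d) (j_{dq} - j_d^q) = - q Θ(j_{dq}, j_d)` with `j_{dq}^q - j_d` a unit of `V∞`
(its expansion starts with `t^{-d q²}`).  The abstract lemma `ResOneData.exists_congr`
(`L11Abstract.lean`) then gives `V∞_{Mq} = α(V∞_M) + w V∞_{Mq}`.
-/

set_option autoImplicit false
set_option linter.unusedSectionVars false
set_option linter.style.haveILetI false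
set_option synthInstance.maxHeartbeats 400000
set_option maxHeartbeats 1600000

noncomputable section

namespace Fermat.Agent.A2.Mod.H378

open ModularCurve HahnSeries Fermat.Agent.A2.H708 Fermat.Agent.S28

/-! ## Generic facts on Gauss-integral elements -/

section Generic

variable {L : Type*} [Field L] [Algebra ℚ L] (A : ValuationSubring L)
variable {F₀ F₁ : IntermediateField ℚ (LaurentSeries ℚ)}

theorem isGaussInt_mono (hle : laurentBaseChange L F₀ ≤ laurentBaseChange L F₁)
    {f : LaurentSeries L} (hf : IsGaussInt A F₀ f) : IsGaussInt A F₁ f := by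
  obtain ⟨U₁, U₂, h0, hm, he⟩ := hf
  exact ⟨U₁, U₂, h0, hle hm, he⟩

theorem isGaussInt_descend (hgen : IntGen F₀) (hmax : AttainsMax A F₀)
    (hle : laurentBaseChange L F₀ ≤ laurentBaseChange L F₁)
    {f : LaurentSeries L} (hfF : f ∈ laurentBaseChange L F₀) (hf : IsGaussInt A F₁ f) :
    IsGaussInt A F₀ f := by
  by_cases hf0 : f = 0
  · rw [hf0]; exact IsGaussInt.zero
  obtain ⟨c, U₁, U₂, hc, h₁, h₂, hm₁, hm₂, he⟩ := exists_normal_form hgen hmax hfF hf0
  have hcA : c ∈ A := (isGaussInt_iff_of_normal_form h₁ h₂ (hle hm₂) he).mp hf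
  exact (isGaussInt_iff_of_normal_form h₁ h₂ hm₂ he).mpr hcA

theorem isGaussInt_cst_iff (F₀ : IntermediateField ℚ (LaurentSeries ℚ)) (c : L) :
    IsGaussInt A F₀ (cst c) ↔ c ∈ A := by
  have he : cst c * incl A 1 = cst c * incl A 1 := rfl
  exact isGaussInt_iff_of_normal_form (by rw [map_one]; exact one_ne_zero)
    (by rw [map_one]; exact one_ne_zero) (by rw [map_one]; exact one_mem _) he

/-- the inverse of a primitive integral series of `F` is Gauss-integral. -/
theorem isGaussInt_inv_of_prim {U : LaurentSeries A} (hU : red A U ≠ 0)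
    (hm : incl A U ∈ laurentBaseChange L F₀) : IsGaussInt A F₀ (incl A U)⁻¹ := by
  refine ⟨1, U, hU, hm, ?_⟩
  rw [map_one, inv_mul_cancel₀ (incl_ne_zero A (ne_zero_of_red_ne_zero A hU))]

/-- discreteness: a nonzero Gauss-integral element is `w ^ n` times a Gauss unit. -/
theorem exists_pow_mul_unit [IsDiscreteValuationRing A] {w : A} (hw : Irreducible w)
    (hgen : IntGen F₀) (hmax : AttainsMax A F₀) {f : LaurentSeries L}
    (hfF : f ∈ laurentBaseChange L F₀) (hf0 : f ≠ 0) (hf : IsGaussInt A F₀ f) :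
    ∃ n : ℕ, IsGaussInt A F₀ (f * (cst (w : L) ^ n)⁻¹) ∧
      IsGaussInt A F₀ (f * (cst (w : L) ^ n)⁻¹)⁻¹ := by
  obtain ⟨c, U₁, U₂, hc, h₁, h₂, hm₁, hm₂, he⟩ := exists_normal_form hgen hmax hfF hf0
  have hcA : c ∈ A := (isGaussInt_iff_of_normal_form h₁ h₂ hm₂ he).mp hf
  have hc' : (⟨c, hcA⟩ : A) ≠ 0 := fun h => hc (congrArg Subtype.val h)
  obtain ⟨n, u, hu⟩ := IsDiscreteValuationRing.eq_unit_mul_pow_irreducible hc' hw
  have hcu : c = ((u : A) : L) * (w : L) ^ n := by
    have h1 := congrArg Subtype.val hu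
    simpa using h1
  have hw0 : (w : L) ≠ 0 := fun h => hw.ne_zero (Subtype.ext h)
  have hwn : cst (w : L) ^ n ≠ 0 := pow_ne_zero _ (cst_ne_zero hw0)
  have hu0 : ((u : A) : L) ≠ 0 := fun h => u.ne_zero (Subtype.ext h)
  have he' : (f * (cst (w : L) ^ n)⁻¹) * incl A U₂ = cst ((u : A) : L) * incl A U₁ := by
    have hpow : cst ((w : L) ^ n) = cst (w : L) ^ n := map_pow _ _ _
    rw [mul_right_comm, he, hcu, cst_mul, hpow]
    field_simp
  have hf0' : f * (cst (w : L) ^ n)⁻¹ ≠ 0 := mul_ne_zero hf0 (inv_ne_zero hwn)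
  refine ⟨n, (isGaussInt_iff_of_normal_form h₁ h₂ hm₂ he').mpr (u : A).2, ?_⟩
  have he'' := normal_form_inv (A := A) hf0' hu0 he'
  refine (isGaussInt_iff_of_normal_form h₂ h₁ hm₁ he'').mpr ?_
  have h2 : ((u : A) : L)⁻¹ = (((u⁻¹ : Aˣ) : A) : L) := by
    apply inv_eq_of_mul_eq_one_right
    have h3 := congrArg A.subtype u.mul_inv
    rw [map_mul, map_one] at h3
    exact h3
  rw [h2]
  exact ((u⁻¹ : Aˣ) : A).2

end Generic

/-! ## Series facts -/

section Series

variable (E : IntermediateField ℚ _root_.Fermat.Agent.A2.Mod.Qb)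

/-- `j(t^d)` as a series over `E`. -/
def jser (d : ℕ) [NeZero d] : LaurentSeries E := qExpand E d (jqModC E)

theorem jser_eq_coeffEmb (d : ℕ) [NeZero d] : jser E d = coeffEmb E (qExpand ℚ d jq) := by
  rw [jser, coeffEmb, ← jqModC_rat, coeffMap_qExpand, coeffMap_jqModC]

theorem jser_eq_incl (A : ValuationSubring E) (d : ℕ) [NeZero d] :
    jser E d = incl A (castA A (jInt d)) := by
  rw [incl_castA, castQ_jInt, jser_eq_coeffEmb]

theorem jser_mem (N d : ℕ) [NeZero d] (hd : d ∣ N) : jser E d ∈ _root_.Fermat.Agent.A2.Mod.FE E N := by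
  rw [jser_eq_coeffEmb]
  exact coeffEmb_mem_laurentBaseChange E (jqd_mem_full N hd)

theorem FE_le (M q : ℕ) [NeZero M] [NeZero q] : _root_.Fermat.Agent.A2.Mod.FE E M ≤ _root_.Fermat.Agent.A2.Mod.FE E (M * q) := by
  intro x hx
  have h := (heckeAlphaBar E M q ⟨x, hx⟩).2
  rw [coe_heckeAlphaBar] at h
  exact h

/-- the transfer `ℤ((t)) → E((t))`, `t ↦ t^d`. -/
def rho (d : ℕ) [NeZero d] : LaurentSeries ℤ →+* LaurentSeries E :=
  (qExpand E d).comp (coeffMap (Int.castRingHom E))

theorem rho_j (d : ℕ) [NeZero d] : rho E d (jqModC ℤ) = jser E d := by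
  rw [rho, RingHom.comp_apply, coeffMap_jqModC, jser]

theorem rho_jq (d q : ℕ) [NeZero d] [NeZero q] :
    rho E d (qExpand ℤ q (jqModC ℤ)) = jser E (d * q) := by
  rw [rho, RingHom.comp_apply, coeffMap_qExpand, coeffMap_jqModC, qExpand_qExpand, jser]

theorem rho_comp_evalAt (d : ℕ) [NeZero d] (y : LaurentSeries ℤ) :
    (rho E d).comp (evalAt y) = evalAt (rho E d y) := by
  apply Polynomial.ringHom_ext
  · intro a
    simp [evalAt]
  · simp [evalAt]

/-- **Kronecker relation** for `j_{dq}`, `j_d`. -/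
theorem kron_series (q : ℕ) [NeZero q] (hq : q.Prime) (d : ℕ) [NeZero d] :
    ∃ Θ : Polynomial (Polynomial ℤ),
      (jser E (d * q) ^ q - jser E d) * (jser E (d * q) - jser E d ^ q)
        + (q : LaurentSeries E) * Θ.eval₂ (evalAt (jser E d)) (jser E (d * q)) = 0 := by
  have hfact : Fact q.Prime := ⟨hq⟩
  obtain ⟨D⟩ := Fermat.Agent.S28.H326.nonempty_modPolyData q hq
  obtain ⟨Θ, hΘ⟩ := h88_kronecker_int q D
  refine ⟨Θ, ?_⟩
  have h0 := D.eval_jp
  rw [hΘ] at h0
  have h1 := congrArg (rho E d) h0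
  rw [map_zero, Polynomial.hom_eval₂, rho_comp_evalAt, rho_j, rho_jq] at h1
  have e1 : evalAt (jser E d) (Polynomial.X) = jser E d := by simp [evalAt]
  have e2 : evalAt (jser E d) (Polynomial.X ^ q) = jser E d ^ q := by simp [evalAt]
  have e3 : evalAt (jser E d) (Polynomial.C (q : ℤ)) = (q : LaurentSeries E) := by
    simp [evalAt]
  rw [Polynomial.eval₂_add, Polynomial.eval₂_mul, Polynomial.eval₂_sub, Polynomial.eval₂_sub,
    Polynomial.eval₂_pow, Polynomial.eval₂_X, Polynomial.eval₂_C, Polynomial.eval₂_C,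
    Polynomial.eval₂_mul, Polynomial.eval₂_C, e1, e2, e3] at h1
  exact h1

/-- the leading coefficient of `j_{dq}^q - j_d`. -/
theorem coeff_sInt (q : ℕ) [NeZero q] (hq : 2 ≤ q) (d : ℕ) [NeZero d] :
    (jInt (d * q) ^ q - jInt d).coeff (-((d * q * q : ℕ) : ℤ)) = 1 := by
  rw [HahnSeries.coeff_sub, jInt, jInt, jqNModC, jqNModC, ← map_pow]
  have h1 : (-((d * q * q : ℕ) : ℤ)) = ((d * q : ℕ) : ℤ) * (-(q : ℤ)) := by
    push_cast
    ring
  have h2 : (-((d * q * q : ℕ) : ℤ)) = ((d : ℕ) : ℤ) * (-((q * q : ℕ) : ℤ)) := by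
    push_cast
    ring
  have h3 : (qExpand ℤ (d * q) (jqModC ℤ ^ q)).coeff (-((d * q * q : ℕ) : ℤ)) = 1 := by
    rw [h1, qExpand_coeff_mul, coeff_jqModC_pow_self]
  have h4 : (qExpand ℤ d (jqModC ℤ)).coeff (-((d * q * q : ℕ) : ℤ)) = 0 := by
    rw [h2, qExpand_coeff_mul]
    apply coeff_jqModC_of_lt
    have : (4 : ℤ) ≤ ((q * q : ℕ) : ℤ) := by
      have : 4 ≤ q * q := by nlinarith
      exact_mod_cast this
    omega
  rw [h3, h4, sub_zero]

/-- `j_{dq}^q - j_d` is a primitive integral series. -/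
theorem red_sInt_ne_zero (A : ValuationSubring E) (q : ℕ) [NeZero q] (hq : 2 ≤ q) (d : ℕ)
    [NeZero d] : red A (castA A (jInt (d * q) ^ q - jInt d)) ≠ 0 := by
  intro h
  have h1 := congrArg (fun z => z.coeff (-((d * q * q : ℕ) : ℤ))) h
  simp only [coeffMap_coeff, HahnSeries.coeff_zero] at h1
  rw [coeff_sInt q hq d] at h1
  simp at h1

theorem incl_sInt (A : ValuationSubring E) (q d : ℕ) [NeZero q] [NeZero d] :
    incl A (castA A (jInt (d * q) ^ q - jInt d)) = jser E (d * q) ^ q - jser E d := by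
  rw [map_sub, map_sub, map_pow, map_pow, ← jser_eq_incl, ← jser_eq_incl]

end Series

/-! ## The concrete data -/

section Concrete

variable {P : ValuationSubring _root_.Fermat.Agent.A2.Mod.Qb} {E : IntermediateField ℚ _root_.Fermat.Agent.A2.Mod.Qb} {M q : ℕ} [NeZero M] [NeZero q]
  {w : _root_.Fermat.Agent.A2.Mod.RE P E}

/-- the new generators `j_{dq}`, `d ∣ M`, of `F_{Mq}` over `F_M`. -/
def Xset (E : IntermediateField ℚ _root_.Fermat.Agent.A2.Mod.Qb) (M q : ℕ) [NeZero q] : Set (_root_.Fermat.Agent.A2.Mod.FE E (M * q)) :=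
  {x | ∃ (d : ℕ) (_ : NeZero d), d ∣ M ∧ (x : LaurentSeries E) = jser E (d * q)}

/-- `α(V∞_M)` as a subring of `F_{Mq}`. -/
def Oring (E : IntermediateField ℚ _root_.Fermat.Agent.A2.Mod.Qb) (M q : ℕ) [NeZero M] [NeZero q]
    (VM : ValuationSubring (_root_.Fermat.Agent.A2.Mod.FE E M)) : Subring (_root_.Fermat.Agent.A2.Mod.FE E (M * q)) :=
  VM.toSubring.map (αE E M q : _root_.Fermat.Agent.A2.Mod.FE E M →+* _root_.Fermat.Agent.A2.Mod.FE E (M * q))

theorem mem_Oring {VM : ValuationSubring (_root_.Fermat.Agent.A2.Mod.FE E M)} {x : _root_.Fermat.Agent.A2.Mod.FE E (M * q)} :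
    x ∈ Oring E M q VM ↔ ∃ g ∈ VM, αE E M q g = x := by
  rw [Oring, Subring.mem_map]
  rfl

theorem attains (hS : Setting P E M q w) (N : ℕ) :
    AttainsMax (_root_.Fermat.Agent.A2.Mod.RE P E) (modularFunctionFieldFull N) := by
  haveI := hS.dvr
  exact attainsMax_of_isNoetherianRing _ _

theorem alpha_mem_iff (hS : Setting P E M q w) {VM : ValuationSubring (_root_.Fermat.Agent.A2.Mod.FE E M)}
    {V : ValuationSubring (_root_.Fermat.Agent.A2.Mod.FE E (M * q))} (hVM : IsVinf P E M VM) (hV : IsVinf P E (M * q) V)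
    (g : _root_.Fermat.Agent.A2.Mod.FE E M) : αE E M q g ∈ V ↔ g ∈ VM := by
  rw [hV (αE E M q g), hVM g, coe_heckeAlphaBar]
  constructor
  · exact isGaussInt_descend (_root_.Fermat.Agent.A2.Mod.RE P E) (intGen_full M) (attains hS M) (FE_le E M q) g.2
  · exact isGaussInt_mono (_root_.Fermat.Agent.A2.Mod.RE P E) (FE_le E M q)

theorem cE_mem {N : ℕ} {V : ValuationSubring (_root_.Fermat.Agent.A2.Mod.FE E N)} (hV : IsVinf P E N V) (r : _root_.Fermat.Agent.A2.Mod.RE P E) :
    cE P E N r ∈ V := by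
  rw [hV]
  exact (isGaussInt_cst_iff (_root_.Fermat.Agent.A2.Mod.RE P E) _ (r : E)).mpr r.2

theorem alpha_cE (r : _root_.Fermat.Agent.A2.Mod.RE P E) : αE E M q (cE P E M r) = cE P E (M * q) r :=
  (αE E M q).commutes (r : E)

theorem w_ne_zero (hS : Setting P E M q w) : (w : E) ≠ 0 :=
  fun h => hS.unif.ne_zero (Subtype.ext h)

theorem cE_ne_zero (hS : Setting P E M q w) (N : ℕ) : cE P E N w ≠ 0 := by
  intro h
  exact w_ne_zero hS ((map_eq_zero (algebraMap E (_root_.Fermat.Agent.A2.Mod.FE E N))).mp h)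

theorem w_inv_not_mem (hS : Setting P E M q w) : (w : E)⁻¹ ∉ _root_.Fermat.Agent.A2.Mod.RE P E := by
  intro h
  apply hS.unif.not_isUnit
  refine ⟨⟨w, ⟨(w : E)⁻¹, h⟩, ?_, ?_⟩, rfl⟩
  · exact Subtype.ext (mul_inv_cancel₀ (w_ne_zero hS))
  · exact Subtype.ext (inv_mul_cancel₀ (w_ne_zero hS))

/-- `q ∈ w R`. -/
theorem exists_q_eq (hS : Setting P E M q w) : ∃ c : _root_.Fermat.Agent.A2.Mod.RE P E, ((q : ℕ) : E) = (w : E) * (c : E) := by
  haveI := hS.dvr
  have hq := hS.lies_over
  have hqv : P.valuation ((q : ℕ) : _root_.Fermat.Agent.A2.Mod.Qb) < 1 := (ValuationSubring.mem_nonunits_iff P).mp hq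
  have hqP : algebraMap E _root_.Fermat.Agent.A2.Mod.Qb ((q : ℕ) : E) ∈ P := by
    rw [map_natCast, ← ValuationSubring.valuation_le_one_iff]
    exact hqv.le
  set qA : _root_.Fermat.Agent.A2.Mod.RE P E := ⟨((q : ℕ) : E), hqP⟩ with hqA
  have hnu : ¬ IsUnit qA := by
    rintro ⟨u, hu⟩
    have h1 : qA * ((u⁻¹ : (_root_.Fermat.Agent.A2.Mod.RE P E)ˣ) : _root_.Fermat.Agent.A2.Mod.RE P E) = 1 := by
      rw [← hu]
      exact u.mul_inv
    have h2 : ((q : ℕ) : _root_.Fermat.Agent.A2.Mod.Qb) * algebraMap E _root_.Fermat.Agent.A2.Mod.Qb (((u⁻¹ : (_root_.Fermat.Agent.A2.Mod.RE P E)ˣ) : _root_.Fermat.Agent.A2.Mod.RE P E) : E) = 1 := by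
      have h3 := congrArg (fun z : _root_.Fermat.Agent.A2.Mod.RE P E => algebraMap E _root_.Fermat.Agent.A2.Mod.Qb (z : E)) h1
      simpa [hqA] using h3
    have h4 : P.valuation (algebraMap E _root_.Fermat.Agent.A2.Mod.Qb (((u⁻¹ : (_root_.Fermat.Agent.A2.Mod.RE P E)ˣ) : _root_.Fermat.Agent.A2.Mod.RE P E) : E)) ≤ 1 :=
      (ValuationSubring.valuation_le_one_iff _ _).mpr ((u⁻¹ : (_root_.Fermat.Agent.A2.Mod.RE P E)ˣ) : _root_.Fermat.Agent.A2.Mod.RE P E).2
    have h5 := congrArg P.valuation h2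
    rw [map_mul, map_one] at h5
    have h6 : P.valuation ((q : ℕ) : _root_.Fermat.Agent.A2.Mod.Qb) *
        P.valuation (algebraMap E _root_.Fermat.Agent.A2.Mod.Qb (((u⁻¹ : (_root_.Fermat.Agent.A2.Mod.RE P E)ˣ) : _root_.Fermat.Agent.A2.Mod.RE P E) : E)) < 1 := by
      calc _ ≤ P.valuation ((q : ℕ) : _root_.Fermat.Agent.A2.Mod.Qb) * 1 := by gcongr
        _ = P.valuation ((q : ℕ) : _root_.Fermat.Agent.A2.Mod.Qb) := mul_one _
        _ < 1 := hqv
    exact (ne_of_lt h6) h5
  have hmem : qA ∈ IsLocalRing.maximalIdeal (_root_.Fermat.Agent.A2.Mod.RE P E) := (IsLocalRing.mem_maximalIdeal _).mpr hnu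
  rw [hS.unif.maximalIdeal_eq, Ideal.mem_span_singleton] at hmem
  obtain ⟨c, hc⟩ := hmem
  refine ⟨c, ?_⟩
  have := congrArg Subtype.val hc
  simpa [hqA] using this

theorem eval₂_mem_subring {R S : Type*} [CommRing R] [CommRing S] (f : R →+* S) (x : S)
    (T : Subring S) (hf : ∀ r, f r ∈ T) (hx : x ∈ T) (p : Polynomial R) : p.eval₂ f x ∈ T := by
  rw [Polynomial.eval₂_eq_sum, Polynomial.sum]
  exact Subring.sum_mem _ fun i _ => T.mul_mem (hf _) (T.pow_mem hx i)

theorem jser_mem_V {N : ℕ} {V : ValuationSubring (_root_.Fermat.Agent.A2.Mod.FE E N)} (hV : IsVinf P E N V)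
    {x : _root_.Fermat.Agent.A2.Mod.FE E N} {d : ℕ} [NeZero d] (hx : (x : LaurentSeries E) = jser E d) : x ∈ V := by
  rw [hV, hx, jser_eq_incl E (_root_.Fermat.Agent.A2.Mod.RE P E) d]
  exact IsGaussInt.of_incl _

/-- the subtype ring homomorphism `F_N → E((t))`. -/
def valHom (E : IntermediateField ℚ _root_.Fermat.Agent.A2.Mod.Qb) (N : ℕ) : _root_.Fermat.Agent.A2.Mod.FE E N →+* LaurentSeries E :=
  ((_root_.Fermat.Agent.A2.Mod.FE E N).val : _root_.Fermat.Agent.A2.Mod.FE E N →+* LaurentSeries E)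

theorem valHom_apply (N : ℕ) (x : _root_.Fermat.Agent.A2.Mod.FE E N) : valHom E N x = (x : LaurentSeries E) := rfl

theorem valHom_comp_aeval (N : ℕ) (y : _root_.Fermat.Agent.A2.Mod.FE E N) :
    (valHom E N).comp (Polynomial.aeval (R := ℤ) y).toRingHom = evalAt (y : LaurentSeries E) := by
  apply Polynomial.ringHom_ext
  · intro a
    simp [evalAt, valHom]
  · simp [evalAt, valHom]

/-- **The Kronecker relation** for the generators `j_{dq}`. -/
theorem kron_X (hS : Setting P E M q w) {VM : ValuationSubring (_root_.Fermat.Agent.A2.Mod.FE E M)}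
    {V : ValuationSubring (_root_.Fermat.Agent.A2.Mod.FE E (M * q))} (hVM : IsVinf P E M VM) (hV : IsVinf P E (M * q) V)
    {x : _root_.Fermat.Agent.A2.Mod.FE E (M * q)} (hx : x ∈ Xset E M q) :
    ∃ a ∈ Oring E M q VM,
      ∃ s ∈ Subring.closure ((Oring E M q VM : Set (_root_.Fermat.Agent.A2.Mod.FE E (M * q))) ∪ Xset E M q),
        s ≠ 0 ∧ s⁻¹ ∈ V.toSubring ∧
        ∃ c ∈ Subring.closure ((Oring E M q VM : Set (_root_.Fermat.Agent.A2.Mod.FE E (M * q))) ∪ Xset E M q),
          s * (x - a) = cE P E (M * q) w * c := by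
  obtain ⟨d, hd, hdM, hxd⟩ := hx
  haveI := hd
  set B := Subring.closure ((Oring E M q VM : Set (_root_.Fermat.Agent.A2.Mod.FE E (M * q))) ∪ Xset E M q) with hB
  set y0 : _root_.Fermat.Agent.A2.Mod.FE E M := ⟨jser E d, jser_mem E M d hdM⟩ with hy0
  have hy0V : y0 ∈ VM := jser_mem_V hVM (d := d) rfl
  set y : _root_.Fermat.Agent.A2.Mod.FE E (M * q) := αE E M q y0 with hy
  have hyc : (y : LaurentSeries E) = jser E d := coe_heckeAlphaBar M q y0
  have hyO : y ∈ Oring E M q VM := mem_Oring.mpr ⟨y0, hy0V, rfl⟩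
  have hxB : x ∈ B := Subring.subset_closure (Or.inr ⟨d, hd, hdM, hxd⟩)
  have hyB : y ∈ B := Subring.subset_closure (Or.inl hyO)
  obtain ⟨Θ, hΘ⟩ := kron_series E q hS.q_prime d
  obtain ⟨c0, hc0⟩ := exists_q_eq hS
  set θ : _root_.Fermat.Agent.A2.Mod.FE E (M * q) := Θ.eval₂ ((Polynomial.aeval (R := ℤ) y).toRingHom) x with hθ
  have hθB : θ ∈ B := by
    refine eval₂_mem_subring _ x B (fun r => ?_) hxB Θ
    show Polynomial.aeval y r ∈ B
    rw [Polynomial.aeval_def]
    refine eval₂_mem_subring _ y B (fun n => ?_) hyB r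
    rw [eq_intCast]
    exact intCast_mem B n
  have hθc : (θ : LaurentSeries E) = Θ.eval₂ (evalAt (jser E d)) (jser E (d * q)) := by
    rw [← valHom_apply, hθ, Polynomial.hom_eval₂, valHom_comp_aeval, valHom_apply, hxd, hyc]
  -- the unit `s`
  have hsc : ((x ^ q - y : _root_.Fermat.Agent.A2.Mod.FE E (M * q)) : LaurentSeries E)
      = incl (_root_.Fermat.Agent.A2.Mod.RE P E) (castA (_root_.Fermat.Agent.A2.Mod.RE P E) (jInt (d * q) ^ q - jInt d)) := by
    rw [incl_sInt, ← valHom_apply, map_sub, map_pow, valHom_apply, valHom_apply, hxd, hyc]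
  have hred := red_sInt_ne_zero E (_root_.Fermat.Agent.A2.Mod.RE P E) q hS.q_prime.two_le d
  have hs0 : x ^ q - y ≠ 0 := by
    intro h
    have h1 : ((x ^ q - y : _root_.Fermat.Agent.A2.Mod.FE E (M * q)) : LaurentSeries E) = 0 := by
      rw [h]
      rfl
    rw [hsc] at h1
    exact incl_ne_zero _ (ne_zero_of_red_ne_zero _ hred) h1
  have hsi : (x ^ q - y)⁻¹ ∈ V := by
    rw [hV, IntermediateField.coe_inv, hsc]
    refine isGaussInt_inv_of_prim _ hred ?_
    rw [← hsc]
    exact (x ^ q - y).2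
  have hc0O : cE P E (M * q) c0 ∈ Oring E M q VM :=
    mem_Oring.mpr ⟨cE P E M c0, cE_mem hVM c0, alpha_cE c0⟩
  refine ⟨y ^ q, (Oring E M q VM).pow_mem hyO q, x ^ q - y,
    B.sub_mem (B.pow_mem hxB q) hyB, hs0, hsi, -(cE P E (M * q) c0 * θ),
    B.neg_mem (B.mul_mem (Subring.subset_closure (Or.inl hc0O)) hθB), ?_⟩
  apply Subtype.ext
  have hqc : ((q : ℕ) : LaurentSeries E) = cst ((w : E)) * cst (c0 : E) := by
    rw [← cst_mul, ← hc0]
    exact (map_natCast (algebraMap E (LaurentSeries E)) q).symm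
  have hL : (((x ^ q - y) * (x - y ^ q) : _root_.Fermat.Agent.A2.Mod.FE E (M * q)) : LaurentSeries E)
      = (jser E (d * q) ^ q - jser E d) * (jser E (d * q) - jser E d ^ q) := by
    rw [← valHom_apply, map_mul, map_sub, map_sub, map_pow, map_pow, valHom_apply, valHom_apply,
      hxd, hyc]
  have hR : ((cE P E (M * q) w * -(cE P E (M * q) c0 * θ) : _root_.Fermat.Agent.A2.Mod.FE E (M * q)) : LaurentSeries E)
      = cst (w : E) * -(cst (c0 : E) * Θ.eval₂ (evalAt (jser E d)) (jser E (d * q))) := by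
    rw [← valHom_apply, map_mul, map_neg, map_mul, valHom_apply _ θ, hθc]
    rfl
  rw [hL, hR]
  rw [hqc] at hΘ
  linear_combination hΘ

/-- divisors of `M q`: either `d ∣ M` or `d = d' q` with `d' ∣ M`. -/
theorem dvd_cases {M q d : ℕ} (hq : q.Prime) (hd : d ∣ M * q) :
    d ∣ M ∨ ∃ d', d' ∣ M ∧ d = d' * q := by
  by_cases hqd : q ∣ d
  · right
    obtain ⟨d', rfl⟩ := hqd
    refine ⟨d', ?_, mul_comm _ _⟩
    rw [mul_comm q d'] at hd
    exact (Nat.mul_dvd_mul_iff_right hq.pos).mp hd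
  · left
    have hcop : Nat.Coprime d q := ((Nat.Prime.coprime_iff_not_dvd hq).mpr hqd).symm
    exact hcop.dvd_of_dvd_mul_right hd

/-- `F_{Mq}` is generated as a field by `α(V∞_M)` and the `j_{dq}`. -/
theorem gen_X (hS : Setting P E M q w) {VM : ValuationSubring (_root_.Fermat.Agent.A2.Mod.FE E M)}
    (hVM : IsVinf P E M VM) (f : _root_.Fermat.Agent.A2.Mod.FE E (M * q)) :
    f ∈ Subfield.closure ((Oring E M q VM : Set (_root_.Fermat.Agent.A2.Mod.FE E (M * q))) ∪ Xset E M q) := by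
  set G := Subfield.closure ((Oring E M q VM : Set (_root_.Fermat.Agent.A2.Mod.FE E (M * q))) ∪ Xset E M q) with hG
  set Gs : Subfield (LaurentSeries E) := G.map (valHom E (M * q)) with hGsdef
  have hGs : ∀ x : _root_.Fermat.Agent.A2.Mod.FE E (M * q), (x : LaurentSeries E) ∈ Gs → x ∈ G := by
    intro x hx
    obtain ⟨y, hy, hyx⟩ := Subfield.mem_map.mp hx
    have h1 : y = x := Subtype.ext hyx
    rw [← h1]
    exact hy
  have hGs' : ∀ x : _root_.Fermat.Agent.A2.Mod.FE E (M * q), x ∈ G → (x : LaurentSeries E) ∈ Gs :=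
    fun x hx => Subfield.mem_map.mpr ⟨x, hx, rfl⟩
  -- constants
  have hconstA : ∀ r : _root_.Fermat.Agent.A2.Mod.RE P E, cE P E (M * q) r ∈ G := fun r =>
    Subfield.subset_closure (Or.inl (mem_Oring.mpr ⟨cE P E M r, cE_mem hVM r, alpha_cE r⟩))
  have hconst : ∀ e : E, algebraMap E (LaurentSeries E) e ∈ Gs := by
    intro e
    refine hGs' (algebraMap E (_root_.Fermat.Agent.A2.Mod.FE E (M * q)) e) ?_
    rcases (_root_.Fermat.Agent.A2.Mod.RE P E).mem_or_inv_mem e with h | h
    · exact hconstA ⟨e, h⟩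
    · have h1 : algebraMap E (_root_.Fermat.Agent.A2.Mod.FE E (M * q)) e = (cE P E (M * q) ⟨e⁻¹, h⟩)⁻¹ := by
        rw [cE, ← map_inv₀, inv_inv]
      rw [h1]
      exact G.inv_mem (hconstA _)
  -- generators
  have hj : ∀ (d : ℕ) [NeZero d], d ∣ M * q → jser E d ∈ Gs := by
    intro d hd hdN
    rcases dvd_cases hS.q_prime hdN with hdM | ⟨d', hd'M, hdd'⟩
    · have h1 : αE E M q ⟨jser E d, jser_mem E M d hdM⟩ ∈ G :=
        Subfield.subset_closure (Or.inl (mem_Oring.mpr
          ⟨⟨jser E d, jser_mem E M d hdM⟩, jser_mem_V hVM (d := d) rfl, rfl⟩))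
      exact hGs' _ h1
    · subst hdd'
      haveI : NeZero d' := ⟨fun h => by
        rw [h, zero_mul] at hd
        exact hd.out rfl⟩
      have h1 : (⟨jser E (d' * q), jser_mem E (M * q) (d' * q) hdN⟩ : _root_.Fermat.Agent.A2.Mod.FE E (M * q)) ∈ G :=
        Subfield.subset_closure (Or.inr ⟨d', inferInstance, hd'M, rfl⟩)
      exact hGs' _ h1
  apply hGs
  have hf := mem_laurentBaseChange_iff.mp f.2
  refine Subfield.closure_le.mpr ?_ hf
  rintro z (⟨e, rfl⟩ | ⟨z0, hz0, rfl⟩)
  · exact hconst e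
  · have hz0' : z0 ∈ IntermediateField.adjoin ℚ (divisorExpansions (M * q)) := hz0
    induction hz0' using IntermediateField.adjoin_induction with
    | mem y hy =>
      obtain ⟨d, hd, hdN, rfl⟩ := hy
      haveI := hd
      show coeffEmb E (qExpand ℚ d jq) ∈ Gs
      rw [← jser_eq_coeffEmb]
      exact hj d hdN
    | algebraMap c =>
      have h1 : coeffEmb E (algebraMap ℚ (LaurentSeries ℚ) c)
          = algebraMap E (LaurentSeries E) (algebraMap ℚ E c) := by
        rw [coeffEmb, algebraMap_laurentSeries_eq_single, algebraMap_laurentSeries_eq_single,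
          coeffMap_single]
      show coeffEmb E (algebraMap ℚ (LaurentSeries ℚ) c) ∈ Gs
      rw [h1]
      exact hconst _
    | add x y hx hy ihx ihy =>
      show coeffEmb E (x + y) ∈ Gs
      rw [map_add]
      exact Gs.add_mem (ihx hx) (ihy hy)
    | inv x hx ihx =>
      show coeffEmb E x⁻¹ ∈ Gs
      rw [map_inv₀]
      exact Gs.inv_mem (ihx hx)
    | mul x y hx hy ihx ihy =>
      show coeffEmb E (x * y) ∈ Gs
      rw [map_mul]
      exact Gs.mul_mem (ihx hx) (ihy hy)

/-- discreteness of `V∞`. -/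
theorem disc_V (hS : Setting P E M q w) (N : ℕ) {V : ValuationSubring (_root_.Fermat.Agent.A2.Mod.FE E N)}
    (hV : IsVinf P E N V) {x : _root_.Fermat.Agent.A2.Mod.FE E N} (hx : x ∈ V) (hx0 : x ≠ 0) :
    ∃ (n : ℕ) (u : _root_.Fermat.Agent.A2.Mod.FE E N), u ∈ V ∧ u⁻¹ ∈ V ∧ x = cE P E N w ^ n * u := by
  haveI := hS.dvr
  have hx0' : (x : LaurentSeries E) ≠ 0 := fun h => hx0 (Subtype.ext h)
  obtain ⟨n, h1, h2⟩ := exists_pow_mul_unit (_root_.Fermat.Agent.A2.Mod.RE P E) hS.unif (intGen_full N) (attains hS N)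
    x.2 hx0' ((hV x).mp hx)
  have hcw := cE_ne_zero hS N
  have hu : ((x * (cE P E N w ^ n)⁻¹ : _root_.Fermat.Agent.A2.Mod.FE E N) : LaurentSeries E)
      = (x : LaurentSeries E) * (cst ((w : _root_.Fermat.Agent.A2.Mod.RE P E) : E) ^ n)⁻¹ := by
    rw [← valHom_apply, map_mul, map_inv₀, map_pow]
    rfl
  refine ⟨n, x * (cE P E N w ^ n)⁻¹, ?_, ?_, ?_⟩
  · rw [hV, hu]
    exact h1
  · rw [hV, ← valHom_apply, map_inv₀, valHom_apply, hu]
    exact h2
  · field_simp

/-- **The data of the abstract lemma.** -/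
theorem resOneData (hS : Setting P E M q w) {VM : ValuationSubring (_root_.Fermat.Agent.A2.Mod.FE E M)}
    {V : ValuationSubring (_root_.Fermat.Agent.A2.Mod.FE E (M * q))} (hVM : IsVinf P E M VM) (hV : IsVinf P E (M * q) V) :
    ResOneData V.toSubring (Oring E M q VM) (cE P E (M * q) w) (Xset E M q) where
  O_le := by
    intro x hx
    obtain ⟨g, hg, rfl⟩ := mem_Oring.mp hx
    exact (alpha_mem_iff hS hVM hV g).mpr hg
  w_mem := mem_Oring.mpr ⟨cE P E M w, cE_mem hVM w, alpha_cE w⟩
  w_ne := cE_ne_zero hS _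
  w_nonunit := by
    intro h
    have h1 : (cE P E (M * q) w)⁻¹ ∈ V := h
    rw [hV, ← valHom_apply, map_inv₀] at h1
    have h2 : valHom E (M * q) (cE P E (M * q) w) = cst ((w : _root_.Fermat.Agent.A2.Mod.RE P E) : E) := rfl
    have h3 : (cst ((w : _root_.Fermat.Agent.A2.Mod.RE P E) : E))⁻¹ = cst ((w : E)⁻¹) := (map_inv₀ _ _).symm
    rw [h2, h3, isGaussInt_cst_iff] at h1
    exact w_inv_not_mem hS h1
  O_div := by
    intro x hx hxw
    obtain ⟨g, hg, rfl⟩ := mem_Oring.mp hx
    have h1 : αE E M q g * (cE P E (M * q) w)⁻¹ = αE E M q (g * (cE P E M w)⁻¹) := by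
      rw [map_mul, map_inv₀, alpha_cE]
    rw [h1] at hxw ⊢
    exact mem_Oring.mpr ⟨_, (alpha_mem_iff hS hVM hV _).mp hxw, rfl⟩
  O_inv := by
    intro x hx hxi
    obtain ⟨g, hg, rfl⟩ := mem_Oring.mp hx
    have h1 : (αE E M q g)⁻¹ = αE E M q g⁻¹ := (map_inv₀ _ _).symm
    rw [h1] at hxi ⊢
    exact mem_Oring.mpr ⟨_, (alpha_mem_iff hS hVM hV _).mp hxi, rfl⟩
  X_le := by
    rintro x ⟨d, hd, hdM, hxd⟩
    haveI := hd
    exact jser_mem_V hV hxd
  disc := fun x hx hx0 => disc_V hS (M * q) hV hx hx0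
  kron := fun x hx => kron_X hS hVM hV hx
  gen := gen_X hS hVM

/-- **Leaf L11 (`ResInf`)**: residue degree one over level `M` on `C∞`. -/
theorem resInf (P : ValuationSubring _root_.Fermat.Agent.A2.Mod.Qb) (E : IntermediateField ℚ _root_.Fermat.Agent.A2.Mod.Qb) (M q : ℕ) [NeZero M]
    [NeZero q] (w : _root_.Fermat.Agent.A2.Mod.RE P E) : ResInfStatement P E M q w := by
  intro hS VM V hVM hV f hf
  obtain ⟨g', hg', hcong⟩ := (resOneData hS hVM hV).exists_congr hf
  obtain ⟨g, hg, rfl⟩ := mem_Oring.mp hg'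
  exact ⟨g, hg, hcong⟩

end Concrete

end Fermat.Agent.A2.Mod.H378

end
end
-- ===== PACK-END A2/Mod/H378/L11.lean

-- ===== PACK-BEGIN A2/Mod/H900/L7Core.lean
section



/-!
# A2 / MOD leaf L7 (helper900): Fricke stability of the Gauss valuation, core

`L ⊇ ℚ` a field, `A` a valuation subring of `L`, `k` its residue field, `N` a level with
`S28.CoreData N k` (true when `char k ∤ N`), `F = laurentBaseChange L (F_N)`.

* `exists_decomp` : every `f ≠ 0` of `F` satisfies
  `f · G(j) = c · ∑ᵢ Hᵢ(j) yᵢ` with `G, Hᵢ ∈ A[X]` having a coefficient `1`, `c ∈ Lˣ`,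
  `yᵢ ∈ ℤ[j_d : d ∣ N]` the S28 monomials (refined form of `S18.H516.exists_gauss_decomp`);
* `isGaussInt_iff_of_decomp` : `f` is Gauss-integral iff `c ∈ A`.
-/

set_option autoImplicit false
set_option linter.unusedSectionVars false
set_option synthInstance.maxHeartbeats 400000
set_option maxHeartbeats 1600000

noncomputable section

namespace Fermat.Agent.A2.Mod.H900

open ModularCurve HahnSeries Polynomial IntermediateField Fermat.Agent.S28

section Generic

variable {L : Type} [Field L] [Algebra ℚ L] (A : ValuationSubring L)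
variable (N : ℕ) [NeZero N]

/-- the residue map of `A`. -/
abbrev resA : A →+* IsLocalRing.ResidueField A := IsLocalRing.residue A

/-- integer series in `L((t))`. -/
abbrev castL (L : Type) [Field L] : LaurentSeries ℤ →+* LaurentSeries L :=
  coeffMap (Int.castRingHom L)

/-- **Refined Gauss decomposition** along the S28 basis. -/
theorem exists_decomp (core : CoreData N (IsLocalRing.ResidueField A)) {f : LaurentSeries L}
    (hf : f ∈ laurentBaseChange L (modularFunctionFieldFull N)) (hf0 : f ≠ 0) :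
    ∃ (n : ℕ) (y : Fin n → LaurentSeries ℤ) (c : L) (G : A[X]) (H : Fin n → A[X]),
      (∀ i, y i ∈ Subring.closure (intDivisorExpansions N)) ∧
      LinearIndependent (jField (IsLocalRing.ResidueField A))
        (fun i => coeffMap (Int.castRingHom (IsLocalRing.ResidueField A)) (y i)) ∧
      c ≠ 0 ∧ (∃ m, G.coeff m = 1) ∧ (∃ i m, (H i).coeff m = 1) ∧
      f * S18.H516.evJ (G.map A.subtype) =
        HahnSeries.C c * ∑ i, S18.H516.evJ ((H i).map A.subtype) * castL L (y i) := by
  classical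
  obtain ⟨n, y, hy, hspan, hli⟩ := core.exists_basis
  have hS : S18.H516.SpansQ N y := ⟨hy, hspan⟩
  have hfs := (S18.H516.mem_baseChange_iff_mem_spanL L hS).mp hf
  obtain ⟨G, H, hG, hGH⟩ := S18.H516.exists_cleared L _ hfs
  have hGne : S18.H516.evJ G ≠ 0 := fun h => hG ((S18.H516.evJ_eq_zero_iff L).mp h)
  have hH : ∃ i, H i ≠ 0 := by
    by_contra hcon
    push Not at hcon
    have : S18.H516.evJ G * f = 0 := by
      rw [hGH]
      exact Finset.sum_eq_zero fun i _ => by rw [hcon i, S18.H516.evJ_zero, zero_mul]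
    rcases mul_eq_zero.mp this with h | h
    · exact hGne h
    · exact hf0 h
  obtain ⟨g0, G', hg0, hG', i1, m1, hG1⟩ :=
    S18.H516.exists_scale A (fun _ : Fin 1 => G) ⟨0, hG⟩
  obtain rfl : i1 = 0 := Subsingleton.elim _ _
  obtain ⟨h0, H', hh0, hH', i0, m0, hH1⟩ := S18.H516.exists_scale A H hH
  refine ⟨n, y, h0 * g0⁻¹, G' 0, H', hy, hli, mul_ne_zero hh0 (inv_ne_zero hg0), ⟨m1, hG1⟩,
    ⟨i0, m0, hH1⟩, ?_⟩
  have h1 : ∀ i, S18.H516.evJ ((H' i).map A.subtype) = HahnSeries.C h0⁻¹ * S18.H516.evJ (H i) := by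
    intro i
    rw [hH' i, S18.H516.evJ_mul, S18.H516.evJ_C]
  have h2 : S18.H516.evJ ((G' 0).map A.subtype) = HahnSeries.C g0⁻¹ * S18.H516.evJ G := by
    rw [hG' 0, S18.H516.evJ_mul, S18.H516.evJ_C]
  have h3 : ∑ i, S18.H516.evJ ((H' i).map A.subtype) * castL L (y i) =
      HahnSeries.C h0⁻¹ * (S18.H516.evJ G * f) := by
    rw [hGH, Finset.mul_sum]
    refine Finset.sum_congr rfl fun i _ => ?_
    rw [h1 i]
    ring
  rw [h2, h3, map_mul]
  have hC : HahnSeries.C (Γ := ℤ) h0 * HahnSeries.C h0⁻¹ = 1 := by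
    rw [← map_mul, mul_inv_cancel₀ hh0, map_one]
  calc f * (HahnSeries.C g0⁻¹ * S18.H516.evJ G)
      = (HahnSeries.C (Γ := ℤ) h0 * HahnSeries.C h0⁻¹) *
          (HahnSeries.C g0⁻¹ * (S18.H516.evJ G * f)) := by
        rw [hC]; ring
    _ = HahnSeries.C h0 * HahnSeries.C g0⁻¹ *
          (HahnSeries.C h0⁻¹ * (S18.H516.evJ G * f)) := by ring

/-- In a refined decomposition, `f` is Gauss-integral iff the constant is integral. -/
theorem isGaussInt_iff_of_decomp {n : ℕ} {y : Fin n → LaurentSeries ℤ} {c : L} {G : A[X]}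
    {H : Fin n → A[X]} {f : LaurentSeries L}
    (hli : LinearIndependent (jField (IsLocalRing.ResidueField A))
      (fun i => coeffMap (Int.castRingHom (IsLocalRing.ResidueField A)) (y i)))
    (hG : ∃ m, G.coeff m = 1) (hH : ∃ i m, (H i).coeff m = 1)
    (he : f * S18.H516.evJ (G.map A.subtype) =
      HahnSeries.C c * ∑ i, S18.H516.evJ ((H i).map A.subtype) * castL L (y i)) :
    H708.IsGaussInt A (modularFunctionFieldFull N) f ↔ c ∈ A := by
  classical
  set U₂ : LaurentSeries A := S18.H516.evJ G with hU₂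
  set U₁ : LaurentSeries A := ∑ i, S18.H516.evJ (H i) * H708.castA A (y i) with hU₁
  have hU₂L : H708.incl A U₂ = S18.H516.evJ (G.map A.subtype) := by
    rw [hU₂, H708.incl, S18.H516.coeffMap_evJ]
  have hU₁L : H708.incl A U₁ = ∑ i, S18.H516.evJ ((H i).map A.subtype) * castL L (y i) := by
    rw [hU₁, map_sum]
    refine Finset.sum_congr rfl fun i _ => ?_
    rw [map_mul, H708.incl, S18.H516.coeffMap_evJ, H708.castA, coeffMap_coeffMap,
      show (A.subtype.comp (Int.castRingHom A)) = Int.castRingHom L from RingHom.ext_int _ _]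
  have hU₂k : H708.red A U₂ = S18.H516.evJ (G.map (IsLocalRing.residue A)) := by
    rw [hU₂, H708.red, S18.H516.coeffMap_evJ]
  have hU₁k : H708.red A U₁ = ∑ i, S18.H516.evJ ((H i).map (IsLocalRing.residue A)) *
      coeffMap (Int.castRingHom (IsLocalRing.ResidueField A)) (y i) := by
    rw [hU₁, map_sum]
    refine Finset.sum_congr rfl fun i _ => ?_
    rw [map_mul, H708.red, S18.H516.coeffMap_evJ, H708.castA, coeffMap_coeffMap,
      show ((IsLocalRing.residue A).comp (Int.castRingHom A)) =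
        Int.castRingHom (IsLocalRing.ResidueField A) from RingHom.ext_int _ _]
  have h₂ : H708.red A U₂ ≠ 0 := by
    rw [hU₂k]
    intro h1
    obtain ⟨m1, hG1⟩ := hG
    have h2 := (S18.H516.evJ_eq_zero_iff _).mp h1
    have h3 := congrArg (fun P : (IsLocalRing.ResidueField A)[X] => P.coeff m1) h2
    simp only [Polynomial.coeff_map, Polynomial.coeff_zero, hG1, map_one] at h3
    exact one_ne_zero h3
  have h₁ : H708.red A U₁ ≠ 0 := by
    rw [hU₁k]
    intro h0'
    obtain ⟨i0, m0, hH1⟩ := hH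
    have hli' := Fintype.linearIndependent_iff.mp hli
      (fun i => (⟨S18.H516.evJ ((H i).map (IsLocalRing.residue A)),
        S18.H516.evJ_mem_jField _ _⟩ : jField (IsLocalRing.ResidueField A))) h0' i0
    have h1 : S18.H516.evJ ((H i0).map (IsLocalRing.residue A)) = 0 :=
      congrArg Subtype.val hli'
    have h2 := (S18.H516.evJ_eq_zero_iff _).mp h1
    have h3 := congrArg (fun P : (IsLocalRing.ResidueField A)[X] => P.coeff m0) h2
    simp only [Polynomial.coeff_map, Polynomial.coeff_zero, hH1, map_one] at h3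
    exact one_ne_zero h3
  have hm₂ : H708.incl A U₂ ∈ laurentBaseChange L (modularFunctionFieldFull N) := by
    rw [hU₂L]
    exact S18.H516.jField_le_baseChange L (S18.H516.evJ_mem_jField L _)
  have he' : f * H708.incl A U₂ = H708.cst c * H708.incl A U₁ := by
    rw [hU₂L, hU₁L, he, H708.cst, algebraMap_laurentSeries_eq_single, HahnSeries.C_apply]
  exact H708.isGaussInt_iff_of_normal_form h₁ h₂ hm₂ he'

end Generic

section Fricke

variable {L : Type} [Field L] [Algebra ℚ L] (A : ValuationSubring L)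
variable (N : ℕ) [NeZero N]

/-- `F_{N,L}`. -/
abbrev FL (L : Type) [Field L] [Algebra ℚ L] (N : ℕ) : IntermediateField L (LaurentSeries L) :=
  laurentBaseChange L (modularFunctionFieldFull N)

/-- the generator `j_d` of `F_{N,L}`. -/
def jL (L : Type) [Field L] [Algebra ℚ L] (N : ℕ) (d : ℕ) [NeZero d] (hd : d ∣ N) : FL L N :=
  ⟨coeffEmb L (qExpand ℚ d jq), coeffEmb_mem_laurentBaseChange L (jqd_mem_full N hd)⟩

theorem coe_jL (d : ℕ) [NeZero d] (hd : d ∣ N) :
    ((jL L N d hd : FL L N) : LaurentSeries L) = qExpand L d (jqModC L) := by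
  show coeffEmb L (qExpand ℚ d jq) = _
  rw [coeffEmb, coeffMap_qExpand, ← jqModC_rat, coeffMap_jqModC]

theorem castL_gen (d : ℕ) [NeZero d] :
    castL L (qExpand ℤ d (jqModC ℤ)) = qExpand L d (jqModC L) := by
  rw [castL, coeffMap_qExpand, coeffMap_jqModC]

/-- `W` is a Fricke involution on generators. -/
def FrickeOnGens (W : FL L N ≃ₐ[L] FL L N) : Prop :=
  ∀ (d d' : ℕ) [NeZero d] [NeZero d'] (hd : d ∣ N) (hd' : d' ∣ N), d * d' = N →
    W (jL L N d hd) = jL L N d' hd'

variable {N}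

/-- the S28 monomials and their Fricke images are integer series. -/
theorem exists_int_of_closure {W : FL L N ≃ₐ[L] FL L N} (hW : FrickeOnGens N W)
    {y : LaurentSeries ℤ} (hy : y ∈ Subring.closure (intDivisorExpansions N)) :
    ∃ (g : FL L N) (y' : LaurentSeries ℤ), (g : LaurentSeries L) = castL L y ∧
      ((W g : FL L N) : LaurentSeries L) = castL L y' := by
  induction hy using Subring.closure_induction with
  | mem x hx =>
    obtain ⟨d, hd, hdN, rfl⟩ := hx
    have hN : N ≠ 0 := NeZero.ne N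
    have hd0 : N / d ≠ 0 := by
      intro h
      rcases (Nat.div_eq_zero_iff).mp h with h1 | h1
      · exact (NeZero.ne d) h1
      · exact absurd (Nat.le_of_dvd (Nat.pos_of_ne_zero hN) hdN) (not_le.mpr h1)
    have : NeZero (N / d) := ⟨hd0⟩
    refine ⟨jL L N d hdN, qExpand ℤ (N / d) (jqModC ℤ), ?_, ?_⟩
    · rw [coe_jL, castL_gen]
    · rw [hW d (N / d) hdN (Nat.div_dvd_of_dvd hdN) (Nat.mul_div_cancel' hdN), coe_jL, castL_gen]
  | zero => exact ⟨0, 0, by simp, by simp⟩
  | one => exact ⟨1, 1, by simp, by simp⟩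
  | add x y _ _ hx hy =>
    obtain ⟨g, y', h1, h2⟩ := hx
    obtain ⟨g', y'', h1', h2'⟩ := hy
    exact ⟨g + g', y' + y'', by rw [IntermediateField.coe_add, h1, h1', map_add],
      by rw [map_add, IntermediateField.coe_add, h2, h2', map_add]⟩
  | neg x _ hx =>
    obtain ⟨g, y', h1, h2⟩ := hx
    exact ⟨-g, -y', by rw [IntermediateField.coe_neg, h1, map_neg],
      by rw [map_neg, IntermediateField.coe_neg, h2, map_neg]⟩
  | mul x y _ _ hx hy =>
    obtain ⟨g, y', h1, h2⟩ := hx
    obtain ⟨g', y'', h1', h2'⟩ := hy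
    exact ⟨g * g', y' * y'', by rw [IntermediateField.coe_mul, h1, h1', map_mul],
      by rw [map_mul, IntermediateField.coe_mul, h2, h2', map_mul]⟩

/-- evaluation of a polynomial at `j = j_1` inside `F_{N,L}`: its series is `evJ`. -/
theorem coe_aeval_jL (Q : L[X]) :
    ((aeval (jL L N 1 (one_dvd N)) Q : FL L N) : LaurentSeries L) = S18.H516.evJ Q := by
  have h := Polynomial.aeval_algHom_apply (FL L N).val (jL L N 1 (one_dvd N)) Q
  have h1 : (FL L N).val (jL L N 1 (one_dvd N)) = jqModC L := by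
    show ((jL L N 1 (one_dvd N) : FL L N) : LaurentSeries L) = _
    rw [coe_jL, qExpand_one_apply]
  rw [h1] at h
  show (FL L N).val (aeval (jL L N 1 (one_dvd N)) Q) = _
  rw [← h, S18.H516.aeval_eq_evJ]

/-- evaluation of a polynomial at `j_N` inside `F_{N,L}`: its series is `qExpand N ∘ evJ`. -/
theorem coe_aeval_jL_top (Q : L[X]) :
    ((aeval (jL L N N dvd_rfl) Q : FL L N) : LaurentSeries L) =
      qExpand L N (S18.H516.evJ Q) := by
  have h := Polynomial.aeval_algHom_apply (FL L N).val (jL L N N dvd_rfl) Q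
  have h1 : (FL L N).val (jL L N N dvd_rfl) = qExpandAlgHomC L N (jqModC L) := by
    show ((jL L N N dvd_rfl : FL L N) : LaurentSeries L) = _
    rw [coe_jL, qExpandAlgHomC_apply]
  rw [h1, Polynomial.aeval_algHom_apply] at h
  show (FL L N).val (aeval (jL L N N dvd_rfl) Q) = _
  rw [← h, qExpandAlgHomC_apply, S18.H516.aeval_eq_evJ]

/-- **L7, core form.**  If `W` is an `L`-automorphism of `F_{N,L}` with `W j_d = j_{N/d}` and
`S28.CoreData N k` holds for the residue field `k` of `A`, then `W` preserves Gauss-integrality. -/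
theorem frickeStable_core (core : CoreData N (IsLocalRing.ResidueField A))
    {W : FL L N ≃ₐ[L] FL L N} (hW : FrickeOnGens N W) (f : FL L N)
    (hf : H708.IsGaussInt A (modularFunctionFieldFull N) (f : LaurentSeries L)) :
    H708.IsGaussInt A (modularFunctionFieldFull N) ((W f : FL L N) : LaurentSeries L) := by
  classical
  by_cases hf0 : f = 0
  · rw [hf0, map_zero]
    exact H708.IsGaussInt.zero
  have hf0' : (f : LaurentSeries L) ≠ 0 := fun h => hf0 (Subtype.ext h)
  obtain ⟨n, y, c, G, H, hy, hli, hc, hG, hH, he⟩ := exists_decomp A N core f.2 hf0'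
  have hcA : c ∈ A := (isGaussInt_iff_of_decomp A N hli hG hH he).mp hf
  -- the monomials inside `F`
  have hY : ∀ i, ∃ (g : FL L N) (y' : LaurentSeries ℤ), (g : LaurentSeries L) = castL L (y i) ∧
      ((W g : FL L N) : LaurentSeries L) = castL L y' := fun i => exists_int_of_closure hW (hy i)
  choose Y y' hY1 hY2 using hY
  -- the equation inside `F`
  have heF : f * aeval (jL L N 1 (one_dvd N)) (G.map A.subtype) =
      algebraMap L (FL L N) c *
        ∑ i, aeval (jL L N 1 (one_dvd N)) ((H i).map A.subtype) * Y i := by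
    apply Subtype.ext
    rw [IntermediateField.coe_mul, IntermediateField.coe_mul, coe_aeval_jL, he,
      IntermediateField.coe_sum]
    congr 1
    · show HahnSeries.C c = algebraMap L (LaurentSeries L) c
      rw [algebraMap_laurentSeries_eq_single, HahnSeries.C_apply]
    · refine Finset.sum_congr rfl fun i _ => ?_
      rw [IntermediateField.coe_mul, coe_aeval_jL, hY1 i]
  have hWj : W (jL L N 1 (one_dvd N)) = jL L N N dvd_rfl :=
    hW 1 N (one_dvd N) dvd_rfl (one_mul N)
  have hWaeval : ∀ Q : L[X], W (aeval (jL L N 1 (one_dvd N)) Q) = aeval (jL L N N dvd_rfl) Q := by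
    intro Q
    have := Polynomial.aeval_algHom_apply (W : FL L N →ₐ[L] FL L N) (jL L N 1 (one_dvd N)) Q
    rw [AlgEquiv.coe_toAlgHom, hWj] at this
    exact this.symm
  have heW := congrArg W heF
  rw [map_mul, map_mul, AlgEquiv.commutes, map_sum, hWaeval] at heW
  have heW' : ((W f : FL L N) : LaurentSeries L) *
      qExpand L N (S18.H516.evJ (G.map A.subtype)) =
      HahnSeries.C c * ∑ i, qExpand L N (S18.H516.evJ ((H i).map A.subtype)) * castL L (y' i) := by
    have h := congrArg (fun z : FL L N => (z : LaurentSeries L)) heW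
    simp only [IntermediateField.coe_mul, IntermediateField.coe_sum] at h
    rw [coe_aeval_jL_top] at h
    rw [h]
    congr 1
    · show algebraMap L (LaurentSeries L) c = HahnSeries.C c
      rw [algebraMap_laurentSeries_eq_single, HahnSeries.C_apply]
    · refine Finset.sum_congr rfl fun i _ => ?_
      rw [map_mul, hWaeval, IntermediateField.coe_mul, coe_aeval_jL_top, hY2 i]
  -- the integral model of `W f`
  set U₂ : LaurentSeries A := qExpand A N (S18.H516.evJ G) with hU₂
  set U₁ : LaurentSeries A := H708.cstA A ⟨c, hcA⟩ *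
    ∑ i, qExpand A N (S18.H516.evJ (H i)) * H708.castA A (y' i) with hU₁
  have hU₂L : H708.incl A U₂ = qExpand L N (S18.H516.evJ (G.map A.subtype)) := by
    rw [hU₂, H708.incl, coeffMap_qExpand, S18.H516.coeffMap_evJ]
  have hU₁L : H708.incl A U₁ =
      HahnSeries.C c * ∑ i, qExpand L N (S18.H516.evJ ((H i).map A.subtype)) * castL L (y' i) := by
    rw [hU₁, map_mul, H708.incl_cstA, H708.cst, algebraMap_laurentSeries_eq_single,
      HahnSeries.C_apply, map_sum]
    congr 1
    refine Finset.sum_congr rfl fun i _ => ?_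
    rw [map_mul, H708.incl, coeffMap_qExpand, S18.H516.coeffMap_evJ, H708.castA,
      coeffMap_coeffMap,
      show (A.subtype.comp (Int.castRingHom A)) = Int.castRingHom L from RingHom.ext_int _ _]
  refine ⟨U₁, U₂, ?_, ?_, ?_⟩
  · rw [hU₂, H708.red, coeffMap_qExpand, S18.H516.coeffMap_evJ]
    intro h1
    have h1' : S18.H516.evJ (G.map (IsLocalRing.residue A)) = 0 :=
      qExpand_injective N (by rw [h1, map_zero])
    obtain ⟨m1, hG1⟩ := hG
    have h2 := (S18.H516.evJ_eq_zero_iff _).mp h1'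
    have h3 := congrArg (fun P : (IsLocalRing.ResidueField A)[X] => P.coeff m1) h2
    simp only [Polynomial.coeff_map, Polynomial.coeff_zero, hG1, map_one] at h3
    exact one_ne_zero h3
  · rw [hU₂L, ← coe_aeval_jL_top]
    exact (aeval (jL L N N dvd_rfl) (G.map A.subtype) : FL L N).2
  · rw [hU₂L, hU₁L, heW']

end Fricke

end Fermat.Agent.A2.Mod.H900

end
end
-- ===== PACK-END A2/Mod/H900/L7Core.lean

-- ===== PACK-BEGIN A2/Mod/H549/L14.lean
section



/-!
# A2 / MOD, leaf L14 (Inertia) (helper549)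

`inertia : Mod.InertiaStatement P E w` (statement of `Fermat/Agent/A2/Mod/Spec.lean`, verbatim).

Generic part (any field `L ⊇ ℚ`, any valuation subring `A` of `L`, any `F₀ ⊆ ℚ((t))`):

* `isGaussInt_coeffMap` : `σ f` is Gauss-integral (`H708.IsGaussInt`) if `f` is and `σ A ⊆ A`.
* `isGaussInt_sub_div` : if moreover `σ a - a ∈ 𝔪_A` for all `a ∈ A` and `w` generates `𝔪_A`,
  then `(σ f - f) / w` is Gauss-integral.

Modular part:

* `fricke_comm` : a ring endomorphism `W` of `L(j_d : d ∣ N)` which is the identity on `L` and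
  maps every `j_d` to a `σ`-fixed element commutes with the coefficientwise action of `σ`.

Instantiation at `L = E ⊆ ℚ̄`, `A = P ∩ E`:

* `inertia_core` : leaf L14 with the definitions of `Spec.lean` unfolded (`τE` any restriction of
  `τ` to `E`);
* `inertia` : leaf L14.
-/

set_option autoImplicit false

noncomputable section

namespace Fermat.Agent.A2.Mod.H549

open ModularCurve HahnSeries Fermat.Agent.A2

/-! ## Generic part -/

section generic

variable {L : Type*} [Field L] [Algebra ℚ L] (A : ValuationSubring L)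
  (F₀ : IntermediateField ℚ (LaurentSeries ℚ))

/-- the restriction of `σ` to `A` -/
def resA (σ : L ≃ₐ[ℚ] L) (hσA : ∀ a ∈ A, σ a ∈ A) : A →+* A where
  toFun x := ⟨σ x, hσA x x.2⟩
  map_one' := Subtype.ext (map_one σ)
  map_mul' x y := Subtype.ext (map_mul σ (x : L) (y : L))
  map_zero' := Subtype.ext (map_zero σ)
  map_add' x y := Subtype.ext (map_add σ (x : L) (y : L))

variable {A}

theorem incl_coeffMap_resA (σ : L ≃ₐ[ℚ] L) (hσA : ∀ a ∈ A, σ a ∈ A) (U : LaurentSeries A) :
    H708.incl A (coeffMap (resA A σ hσA) U) = coeffMap (σ : L →+* L) (H708.incl A U) := by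
  rw [H708.incl, coeffMap_coeffMap, coeffMap_coeffMap]
  exact coeffMap_congr (RingHom.ext fun _ => rfl) U

theorem residue_resA (σ : L ≃ₐ[ℚ] L) (hσA : ∀ a ∈ A, σ a ∈ A)
    (hσI : ∀ a ∈ A, σ a - a ∈ A.nonunits) (x : A) :
    IsLocalRing.residue A (resA A σ hσA x) = IsLocalRing.residue A x := by
  rw [← sub_eq_zero, ← map_sub, IsLocalRing.residue_eq_zero_iff,
    ← ValuationSubring.coe_mem_nonunits_iff]
  exact hσI x x.2

theorem red_coeffMap_resA (σ : L ≃ₐ[ℚ] L) (hσA : ∀ a ∈ A, σ a ∈ A)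
    (hσI : ∀ a ∈ A, σ a - a ∈ A.nonunits) (U : LaurentSeries A) :
    H708.red A (coeffMap (resA A σ hσA) U) = H708.red A U := by
  ext n
  simp only [coeffMap_coeff]
  exact residue_resA σ hσA hσI _

theorem red_coeffMap_resA_ne_zero (σ : L ≃ₐ[ℚ] L) (hσA : ∀ a ∈ A, σ a ∈ A)
    {U : LaurentSeries A} (hU : H708.red A U ≠ 0) :
    H708.red A (coeffMap (resA A σ hσA) U) ≠ 0 := by
  obtain ⟨n, hn⟩ := (H708.red_ne_zero_iff A U).mp hU
  refine (H708.red_ne_zero_iff A _).mpr ⟨n, ?_⟩
  have hunit : IsUnit (U.coeff n) := (ValuationSubring.valuation_eq_one_iff A _).mpr hn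
  have h2 : IsUnit (resA A σ hσA (U.coeff n)) := hunit.map (resA A σ hσA)
  rw [coeffMap_coeff]
  exact (ValuationSubring.valuation_eq_one_iff A _).mp h2

omit [Algebra ℚ L] in
/-- dividing an integral series with coefficients in `w A` by `w`. -/
theorem exists_cstA_mul_eq (w : A) (hw0 : w ≠ 0) (U : LaurentSeries A)
    (h : ∀ n, w ∣ U.coeff n) : ∃ U' : LaurentSeries A, H708.cstA A w * U' = U := by
  choose d hd using h
  have hsupp : Function.support d ⊆ U.support := by
    intro n hn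
    rw [Function.mem_support] at hn
    rw [HahnSeries.mem_support, hd n]
    exact mul_ne_zero hw0 hn
  refine ⟨⟨d, U.isPWO_support.mono hsupp⟩, ?_⟩
  apply HahnSeries.ext
  funext n
  rw [H708.cstA, HahnSeries.coeff_single_zero_mul]
  exact (hd n).symm

/-- `σ f` is Gauss-integral if `f` is (`σ` in the decomposition group). -/
theorem isGaussInt_coeffMap (σ : L ≃ₐ[ℚ] L) (hσA : ∀ a ∈ A, σ a ∈ A)
    {f : LaurentSeries L} (hf : H708.IsGaussInt A F₀ f) :
    H708.IsGaussInt A F₀ (coeffMap (σ : L →+* L) f) := by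
  obtain ⟨U₁, U₂, hred, hmem, heq⟩ := hf
  refine ⟨coeffMap (resA A σ hσA) U₁, coeffMap (resA A σ hσA) U₂,
    red_coeffMap_resA_ne_zero σ hσA hred, ?_, ?_⟩
  · rw [incl_coeffMap_resA]
    exact coeffMap_mem_laurentBaseChange σ hmem
  · rw [incl_coeffMap_resA, incl_coeffMap_resA, ← map_mul, heq]

/-- **Inertia acts trivially modulo `w`** on the Gauss-integral elements: `(σ f - f) / w` is
Gauss-integral. -/
theorem isGaussInt_sub_div (σ : L ≃ₐ[ℚ] L) (hσA : ∀ a ∈ A, σ a ∈ A)
    (hσI : ∀ a ∈ A, σ a - a ∈ A.nonunits) (w : A) (hw0 : w ≠ 0)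
    (hw : ∀ a : A, (a : L) ∈ A.nonunits → w ∣ a)
    {f : LaurentSeries L} (hf : H708.IsGaussInt A F₀ f) :
    H708.IsGaussInt A F₀ ((coeffMap (σ : L →+* L) f - f) * (H708.cst (w : L))⁻¹) := by
  obtain ⟨U₁, U₂, hred, hmem, heq⟩ := hf
  have e1 : coeffMap (σ : L →+* L) f * H708.incl A (coeffMap (resA A σ hσA) U₂)
      = H708.incl A (coeffMap (resA A σ hσA) U₁) := by
    rw [incl_coeffMap_resA, incl_coeffMap_resA, ← map_mul, heq]
  have hred3 : H708.red A (coeffMap (resA A σ hσA) U₁ * U₂ - U₁ * coeffMap (resA A σ hσA) U₂)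
      = 0 := by
    rw [map_sub, map_mul, map_mul, red_coeffMap_resA σ hσA hσI, red_coeffMap_resA σ hσA hσI,
      sub_self]
  have hdiv : ∀ n, w ∣
      (coeffMap (resA A σ hσA) U₁ * U₂ - U₁ * coeffMap (resA A σ hσA) U₂).coeff n := by
    intro n
    refine hw _ ?_
    rw [ValuationSubring.mem_nonunits_iff]
    exact (H708.red_eq_zero_iff A _).mp hred3 n
  obtain ⟨U₃, hU₃⟩ := exists_cstA_mul_eq w hw0 _ hdiv
  have hwL : (w : L) ≠ 0 := fun h => hw0 (Subtype.ext h)
  have hcst : H708.cst (w : L) ≠ 0 := H708.cst_ne_zero hwL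
  refine ⟨U₃, U₂ * coeffMap (resA A σ hσA) U₂, ?_, ?_, ?_⟩
  · rw [map_mul]
    exact mul_ne_zero hred (red_coeffMap_resA_ne_zero σ hσA hred)
  · rw [map_mul, incl_coeffMap_resA]
    exact mul_mem hmem (coeffMap_mem_laurentBaseChange σ hmem)
  · have key : H708.cst (w : L) * H708.incl A U₃
        = (coeffMap (σ : L →+* L) f - f) * H708.incl A (U₂ * coeffMap (resA A σ hσA) U₂) := by
      rw [← H708.incl_cstA, ← map_mul, hU₃, map_sub, map_mul, map_mul, map_mul, ← e1, ← heq]
      ring
    rw [mul_right_comm, ← key, mul_comm (H708.cst (w : L)), mul_assoc,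
      mul_inv_cancel₀ hcst, mul_one]

end generic

/-! ## The Fricke involution commutes with the Galois action -/

section fricke

variable {L : Type*} [Field L] [Algebra ℚ L] (N : ℕ)

/-- the generator `j_d` of `L(j_d : d ∣ N)` -/
def jL (L : Type*) [Field L] [Algebra ℚ L] (N : ℕ) (d : ℕ) [NeZero d] (hd : d ∣ N) :
    ↥(laurentBaseChange L (modularFunctionFieldFull N)) :=
  ⟨coeffEmb L (qExpand ℚ d jq), coeffEmb_mem_laurentBaseChange L (jqd_mem_full N hd)⟩

/-- the coefficientwise action as a ring homomorphism -/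
abbrev galHom (σ : L ≃ₐ[ℚ] L) : ↥(laurentBaseChange L (modularFunctionFieldFull N)) →+*
    ↥(laurentBaseChange L (modularFunctionFieldFull N)) :=
  ((arithmeticRingAut (modularFunctionFieldFull N) σ : _ ≃+* _) : _ →+* _)

/-- the subfield of `σ`-fixed elements -/
def fixSub (σ : L ≃ₐ[ℚ] L) : Subfield ↥(laurentBaseChange L (modularFunctionFieldFull N)) :=
  RingHom.eqLocusField (galHom N σ) (RingHom.id _)

theorem mem_fixSub {σ : L ≃ₐ[ℚ] L} {g : ↥(laurentBaseChange L (modularFunctionFieldFull N))} :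
    g ∈ fixSub N σ ↔ arithmeticRingAut (modularFunctionFieldFull N) σ g = g := Iff.rfl

theorem algebraMap_rat_mem_fixSub (σ : L ≃ₐ[ℚ] L) (c : ℚ) :
    algebraMap L ↥(laurentBaseChange L (modularFunctionFieldFull N)) (algebraMap ℚ L c)
      ∈ fixSub N σ := by
  rw [mem_fixSub, arithmeticRingAut_algebraMap, AlgEquiv.commutes]

/-- If `W` maps every generator `j_d` to a `σ`-fixed element, it maps every rational function
to a `σ`-fixed element. -/
theorem fricke_rat_fixed
    (W : ↥(laurentBaseChange L (modularFunctionFieldFull N)) →+*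
      ↥(laurentBaseChange L (modularFunctionFieldFull N)))
    (hWc : ∀ c : L, W (algebraMap L _ c) = algebraMap L _ c)
    (σ : L ≃ₐ[ℚ] L)
    (hW : ∀ (d : ℕ) [NeZero d] (hd : d ∣ N), W (jL L N d hd) ∈ fixSub N σ)
    {z : LaurentSeries ℚ} (hz : z ∈ modularFunctionFieldFull N)
    (g : ↥(laurentBaseChange L (modularFunctionFieldFull N)))
    (hg : (g : LaurentSeries L) = coeffEmb L z) : W g ∈ fixSub N σ := by
  -- the subfield of `ℚ((t))` of all `z` such that `W (coeffEmb z)` is fixed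
  let K' : Subfield (LaurentSeries ℚ) :=
    (((fixSub N σ).comap W).map
      (algebraMap ↥(laurentBaseChange L (modularFunctionFieldFull N)) (LaurentSeries L))).comap
        (coeffEmb L : LaurentSeries ℚ →+* LaurentSeries L)
  have h1 : Set.range (algebraMap ℚ (LaurentSeries ℚ)) ⊆ (K' : Set (LaurentSeries ℚ)) := by
    rintro _ ⟨c, rfl⟩
    refine ⟨algebraMap L ↥(laurentBaseChange L (modularFunctionFieldFull N))
      (algebraMap ℚ L c), ?_, ?_⟩
    · show W _ ∈ fixSub N σ
      rw [hWc]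
      exact algebraMap_rat_mem_fixSub N σ c
    · exact (Fermat.Agent.S18.H602.coeffMap_algebraMap' (algebraMap ℚ L) c).symm
  have h2 : divisorExpansions N ⊆ (K' : Set (LaurentSeries ℚ)) := by
    rintro _ ⟨d, hne, hd, rfl⟩
    haveI := hne
    exact ⟨jL L N d hd, hW d hd, rfl⟩
  have hle : (modularFunctionFieldFull N).toSubfield ≤ K' :=
    IntermediateField.adjoin_le_subfield ℚ _ h1 h2
  obtain ⟨g', hg', hgg'⟩ := hle hz
  have : g' = g := Subtype.ext (hgg'.trans hg.symm)
  rw [← this]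
  exact hg'

/-- **`τ W = W τ`.**  A ring endomorphism `W` of `L(j_d : d ∣ N)` which is the identity on `L` and
maps every generator `j_d` to a `σ`-fixed element commutes with the coefficientwise action of
`σ`. -/
theorem fricke_comm
    (W : ↥(laurentBaseChange L (modularFunctionFieldFull N)) →+*
      ↥(laurentBaseChange L (modularFunctionFieldFull N)))
    (hWc : ∀ c : L, W (algebraMap L _ c) = algebraMap L _ c)
    (σ : L ≃ₐ[ℚ] L)
    (hW : ∀ (d : ℕ) [NeZero d] (hd : d ∣ N), W (jL L N d hd) ∈ fixSub N σ)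
    (f : ↥(laurentBaseChange L (modularFunctionFieldFull N))) :
    arithmeticRingAut (modularFunctionFieldFull N) σ (W f)
      = W (arithmeticRingAut (modularFunctionFieldFull N) σ f) := by
  let S : Subfield ↥(laurentBaseChange L (modularFunctionFieldFull N)) :=
    RingHom.eqLocusField ((galHom N σ).comp W) (W.comp (galHom N σ))
  let K : Subfield (LaurentSeries L) :=
    S.map (algebraMap ↥(laurentBaseChange L (modularFunctionFieldFull N)) (LaurentSeries L))
  have h1 : Set.range (algebraMap L (LaurentSeries L)) ⊆ (K : Set (LaurentSeries L)) := by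
    rintro _ ⟨c, rfl⟩
    refine ⟨algebraMap L ↥(laurentBaseChange L (modularFunctionFieldFull N)) c, ?_, rfl⟩
    show arithmeticRingAut (modularFunctionFieldFull N) σ (W (algebraMap L _ c))
      = W (arithmeticRingAut (modularFunctionFieldFull N) σ (algebraMap L _ c))
    rw [hWc, arithmeticRingAut_algebraMap, hWc]
  have h2 : (⇑(coeffEmb L) '' ((modularFunctionFieldFull N : IntermediateField ℚ
      (LaurentSeries ℚ)) : Set (LaurentSeries ℚ))) ⊆ (K : Set (LaurentSeries L)) := by
    rintro _ ⟨z, hz, rfl⟩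
    refine ⟨⟨coeffEmb L z, coeffEmb_mem_laurentBaseChange L hz⟩, ?_, rfl⟩
    show arithmeticRingAut (modularFunctionFieldFull N) σ (W _)
      = W (arithmeticRingAut (modularFunctionFieldFull N) σ _)
    have e1 := fricke_rat_fixed N W hWc σ hW hz
      ⟨coeffEmb L z, coeffEmb_mem_laurentBaseChange L hz⟩ rfl
    rw [mem_fixSub] at e1
    have e2 : arithmeticRingAut (modularFunctionFieldFull N) σ
        ⟨coeffEmb L z, coeffEmb_mem_laurentBaseChange L hz⟩
        = ⟨coeffEmb L z, coeffEmb_mem_laurentBaseChange L hz⟩ :=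
      Subtype.ext (coeffMap_coeffEmb σ z)
    rw [e1, e2]
  have hle : (laurentBaseChange L (modularFunctionFieldFull N)).toSubfield ≤ K :=
    IntermediateField.adjoin_le_subfield L _ h1 h2
  obtain ⟨g, hg, hgf⟩ := hle f.2
  have : g = f := Subtype.ext hgf
  rw [← this]
  exact hg

end fricke

/-! ## Instantiation at `L = E ⊆ ℚ̄`, `A = P ∩ E` -/

section inst

/-- nonunits of a comap -/
theorem mem_nonunits_comap {K L : Type*} [Field K] [Field L] (A : ValuationSubring L)
    (φ : K →+* L) (x : K) : x ∈ (A.comap φ).nonunits ↔ φ x ∈ A.nonunits := by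
  rw [ValuationSubring.mem_nonunits_iff_or, ValuationSubring.mem_nonunits_iff_or,
    ValuationSubring.mem_comap, map_inv₀, map_eq_zero]

variable (P : ValuationSubring (AlgebraicClosure ℚ))
  (E : IntermediateField ℚ (AlgebraicClosure ℚ))

/-- **Leaf L14 (Inertia)**, with the definitions of `A2/Mod/Spec.lean` unfolded.
`τ` in the inertia group of `P`, `τE` its restriction to `E`, `R = P ∩ E` a DVR with uniformiser
`w`, `V` the Gauss valuation ring of `F_{N,E}`, `W` the Fricke involution: then `τ W = W τ` and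
`(τ f - f) / w ∈ V` for all `f ∈ V`. -/
theorem inertia_core (w : ↥(P.comap (algebraMap ↥E (AlgebraicClosure ℚ)))) (N : ℕ) (hN : N ≠ 0)
    (_hdvr : IsDiscreteValuationRing ↥(P.comap (algebraMap ↥E (AlgebraicClosure ℚ))))
    (hw : Irreducible w)
    (V : ValuationSubring ↥(laurentBaseChange ↥E (modularFunctionFieldFull N)))
    (W : ↥(laurentBaseChange ↥E (modularFunctionFieldFull N)) ≃ₐ[↥E]
      ↥(laurentBaseChange ↥E (modularFunctionFieldFull N)))
    (hV : ∀ f : ↥(laurentBaseChange ↥E (modularFunctionFieldFull N)), f ∈ V ↔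
      H708.IsGaussInt (P.comap (algebraMap ↥E (AlgebraicClosure ℚ)))
        (modularFunctionFieldFull N) (f : LaurentSeries ↥E))
    (hW : ∀ (d d' : ℕ) [NeZero d] [NeZero d'] (hd : d ∣ N) (hd' : d' ∣ N), d * d' = N →
      W (jL ↥E N d hd) = jL ↥E N d' hd')
    (τ : AlgebraicClosure ℚ ≃ₐ[ℚ] AlgebraicClosure ℚ) (τE : ↥E ≃ₐ[ℚ] ↥E)
    (hτE : ∀ e : ↥E, ((τE e : ↥E) : AlgebraicClosure ℚ) = τ (e : AlgebraicClosure ℚ))
    (hτ : τ ∈ P.inertiaSubgroupIn ℚ) :
    (∀ f : ↥(laurentBaseChange ↥E (modularFunctionFieldFull N)),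
      arithmeticRingAut (modularFunctionFieldFull N) τE (W f) =
        W (arithmeticRingAut (modularFunctionFieldFull N) τE f)) ∧
    ∀ f ∈ V, (arithmeticRingAut (modularFunctionFieldFull N) τE f - f) *
      (algebraMap ↥E ↥(laurentBaseChange ↥E (modularFunctionFieldFull N)) (w : ↥E))⁻¹ ∈ V := by
  constructor
  · -- `τ W = W τ`
    refine fricke_comm N (W : _ →+* _) (fun c => W.commutes c) τE ?_
    intro d hne hd
    obtain ⟨d', hd'⟩ := hd
    have hd'0 : d' ≠ 0 := by
      rintro rfl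
      exact hN (by rw [hd', mul_zero])
    haveI : NeZero d' := ⟨hd'0⟩
    have hdN : d ∣ N := ⟨d', hd'⟩
    have hd'N : d' ∣ N := ⟨d, by rw [hd', mul_comm]⟩
    show W (jL ↥E N d hdN) ∈ fixSub N τE
    rw [hW d d' hdN hd'N hd'.symm, mem_fixSub]
    exact Subtype.ext (coeffMap_coeffEmb τE _)
  · -- `τ ≡ id` modulo `w V`
    intro f hf
    have hτD := H708.mem_decomposition_of_mem_inertiaIn P hτ
    have hσA : ∀ a ∈ P.comap (algebraMap ↥E (AlgebraicClosure ℚ)), τE a ∈
        P.comap (algebraMap ↥E (AlgebraicClosure ℚ)) := by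
      intro a ha
      rw [ValuationSubring.mem_comap] at ha ⊢
      have e : algebraMap ↥E (AlgebraicClosure ℚ) (τE a)
          = τ (algebraMap ↥E (AlgebraicClosure ℚ) a) := hτE a
      rw [e]
      exact H708.apply_mem_of_mem_decomposition P hτD ha
    have hσI : ∀ a ∈ P.comap (algebraMap ↥E (AlgebraicClosure ℚ)), τE a - a ∈
        (P.comap (algebraMap ↥E (AlgebraicClosure ℚ))).nonunits := by
      intro a ha
      rw [ValuationSubring.mem_comap] at ha
      rw [mem_nonunits_comap, map_sub]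
      have e : algebraMap ↥E (AlgebraicClosure ℚ) (τE a)
          = τ (algebraMap ↥E (AlgebraicClosure ℚ) a) := hτE a
      rw [e]
      exact H708.sub_mem_nonunits_of_mem_inertiaIn P hτ ha
    have hw0 : w ≠ 0 := hw.ne_zero
    have hwgen : ∀ a : ↥(P.comap (algebraMap ↥E (AlgebraicClosure ℚ))),
        (a : ↥E) ∈ (P.comap (algebraMap ↥E (AlgebraicClosure ℚ))).nonunits → w ∣ a := by
      intro a ha
      rw [ValuationSubring.coe_mem_nonunits_iff, hw.maximalIdeal_eq,
        Ideal.mem_span_singleton] at ha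
      exact ha
    have key := isGaussInt_sub_div (F₀ := modularFunctionFieldFull N) τE hσA hσI w hw0 hwgen
      ((hV f).mp hf)
    exact (hV _).mpr key

end inst

/-- **Leaf L14** (`Mod.InertiaStatement`, verbatim). -/
theorem inertia (P : ValuationSubring Mod.Qb) (E : IntermediateField ℚ Mod.Qb)
    (w : Mod.RE P E) : Mod.InertiaStatement P E w := by
  intro N hN hdvr hw V W hV hW τ hτ hτI
  exact inertia_core P E w N hN hdvr hw V W hV hW.1 τ (Mod.resE E τ hτ) (fun _ => rfl) hτI

end Fermat.Agent.A2.Mod.H549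

end
end
-- ===== PACK-END A2/Mod/H549/L14.lean

-- ===== PACK-BEGIN S35/G/H516/KronFrob.lean
section






/-!
# S35 (G'), leaf KRON-FROB (helper516)

* `kronFrob A E M q w : G.KronFrobStatement A E M q w` (`Fermat/Agent/S35/G/SpecLevel.lean`,
  verbatim): for a Frobenius lift `s` at `A` stabilising `E` and `a ∈ V∞_M`,
  `β (σ a) ≡ (α a) ^ q mod w V∞`.

Generic part (any field `L ⊇ ℚ`, valuation subring `A` with residue characteristic `q`,
`σ` with `σ A ⊆ A` and `σ a ≡ a ^ q mod 𝔪_A`):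

* `pow_eq_qExpand_frob` : in characteristic `q`, `y ^ q = (Frob y)(t ^ q)`;
* `red_qExpand_coeffMap` : `red ((σ U)(t ^ q)) = (red U) ^ q` for integral series `U`;
* `isGaussInt_kron` : `((σ f)(t ^ q) - f ^ q) / w` is Gauss-integral (at the higher level) if `f`
  is Gauss-integral;
* `sub_pow_mem_nonunits_of_isFrobeniusAt` : `s z - z ^ q ∈ 𝔪_A` for `z ∈ A`.
-/

set_option autoImplicit false
set_option linter.unusedSectionVars false
set_option synthInstance.maxHeartbeats 400000
set_option maxHeartbeats 1600000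

noncomputable section

namespace Fermat.Agent.S35.G.H516

open ModularCurve HahnSeries Fermat.Agent.A2

/-! ## Frobenius on Laurent series in characteristic `q` -/

/-- In characteristic `q`: `(∑ cₙ tⁿ) ^ q = ∑ cₙ ^ q t ^ (q n)`. -/
theorem pow_eq_qExpand_frob {k : Type*} [Field k] (q : ℕ) [hq : Fact q.Prime] [CharP k q]
    [NeZero q] (y : LaurentSeries k) :
    y ^ q = qExpand k q (coeffMap (frobenius k q) y) := by
  have hps : ∀ u : PowerSeries k, u ^ q = (u.map (frobenius k q)).expand q hq.out.ne_zero := by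
    intro u
    have h := MvPowerSeries.map_frobenius_expand (σ := Unit) (R := k) q hq.out.ne_zero (f := u)
    rw [← h]
    exact PowerSeries.map_expand q hq.out.ne_zero (frobenius k q) u
  conv_lhs => rw [← LaurentSeries.single_order_mul_powerSeriesPart y]
  conv_rhs => rw [← LaurentSeries.single_order_mul_powerSeriesPart y]
  rw [mul_pow, map_mul (coeffMap (frobenius k q)), map_mul (qExpand k q), coeffMap_single,
    RingHom.map_one, qExpand_single, HahnSeries.single_pow, one_pow, coeffMap_ofPowerSeries,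
    Fermat.Agent.A2.H528.qExpand_ofPowerSeries, ← map_pow, hps, nsmul_eq_mul]

/-! ## Generic part -/

section generic

variable {L : Type*} [Field L] [Algebra ℚ L] {A : ValuationSubring L}
  (q : ℕ) [Fact q.Prime] [NeZero q]

/-- `red ((ρ U)(t ^ q)) = (red U) ^ q` if `ρ` induces the `q`-Frobenius on the residue field. -/
theorem red_qExpand_coeffMap [CharP (IsLocalRing.ResidueField A) q] (ρ : A →+* A)
    (hρ : ∀ a : A, IsLocalRing.residue A (ρ a) = (IsLocalRing.residue A a) ^ q)
    (U : LaurentSeries A) :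
    H708.red A (qExpand A q (coeffMap ρ U)) = (H708.red A U) ^ q := by
  rw [pow_eq_qExpand_frob q, H708.red, coeffMap_qExpand]
  congr 1
  ext n
  rw [coeffMap_coeff, coeffMap_coeff, coeffMap_coeff, coeffMap_coeff, hρ, frobenius_def]

theorem incl_qExpand_coeffMap (σ : L ≃ₐ[ℚ] L) (hσA : ∀ a ∈ A, σ a ∈ A) (U : LaurentSeries A) :
    H708.incl A (qExpand A q (coeffMap (Mod.H549.resA A σ hσA) U)) =
      qExpand L q (coeffMap (σ : L →+* L) (H708.incl A U)) := by
  rw [H708.incl, coeffMap_qExpand]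
  exact congrArg (qExpand L q) (Mod.H549.incl_coeffMap_resA σ hσA U)

/-- **Kronecker congruence with explicit Frobenius twist, series form.** -/
theorem isGaussInt_kron [CharP (IsLocalRing.ResidueField A) q]
    (F₀ F₁ : IntermediateField ℚ (LaurentSeries ℚ))
    (σ : L ≃ₐ[ℚ] L) (hσA : ∀ a ∈ A, σ a ∈ A)
    (hfrob : ∀ a ∈ A, σ a - a ^ q ∈ A.nonunits)
    (hα : ∀ x ∈ laurentBaseChange L F₀, x ∈ laurentBaseChange L F₁)
    (hβ : ∀ x ∈ laurentBaseChange L F₀, qExpand L q x ∈ laurentBaseChange L F₁)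
    (w : A) (hw0 : w ≠ 0) (hw : ∀ a : A, (a : L) ∈ A.nonunits → w ∣ a)
    {f : LaurentSeries L} (hf : H708.IsGaussInt A F₀ f) :
    H708.IsGaussInt A F₁
      ((qExpand L q (coeffMap (σ : L →+* L) f) - f ^ q) * (H708.cst (w : L))⁻¹) := by
  obtain ⟨U₁, U₂, hred, hmem, heq⟩ := hf
  have hρ : ∀ a : A, IsLocalRing.residue A (Mod.H549.resA A σ hσA a) =
      (IsLocalRing.residue A a) ^ q := by
    intro a
    rw [← map_pow, ← sub_eq_zero, ← map_sub, IsLocalRing.residue_eq_zero_iff,
      ← ValuationSubring.coe_mem_nonunits_iff]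
    exact hfrob a a.2
  set V₁ : LaurentSeries A := qExpand A q (coeffMap (Mod.H549.resA A σ hσA) U₁) with hV₁
  set V₂ : LaurentSeries A := qExpand A q (coeffMap (Mod.H549.resA A σ hσA) U₂) with hV₂
  have e1 : qExpand L q (coeffMap (σ : L →+* L) f) * H708.incl A V₂ = H708.incl A V₁ := by
    rw [hV₁, hV₂, incl_qExpand_coeffMap, incl_qExpand_coeffMap, ← map_mul, ← map_mul, heq]
  have e2 : f ^ q * H708.incl A (U₂ ^ q) = H708.incl A (U₁ ^ q) := by
    rw [map_pow, map_pow, ← mul_pow, heq]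
  have hredV₂ : H708.red A V₂ = (H708.red A U₂) ^ q := red_qExpand_coeffMap q _ hρ U₂
  have hredV₁ : H708.red A V₁ = (H708.red A U₁) ^ q := red_qExpand_coeffMap q _ hρ U₁
  have hred0 : H708.red A (V₁ * U₂ ^ q - U₁ ^ q * V₂) = 0 := by
    rw [map_sub, map_mul, map_mul, map_pow, map_pow, hredV₁, hredV₂, sub_self]
  have hdiv : ∀ n, w ∣ (V₁ * U₂ ^ q - U₁ ^ q * V₂).coeff n := by
    intro n
    refine hw _ ?_
    rw [ValuationSubring.mem_nonunits_iff]
    exact (H708.red_eq_zero_iff A _).mp hred0 n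
  obtain ⟨U₃, hU₃⟩ := Mod.H549.exists_cstA_mul_eq w hw0 _ hdiv
  have hwL : (w : L) ≠ 0 := fun h => hw0 (Subtype.ext h)
  have hcst : H708.cst (w : L) ≠ 0 := H708.cst_ne_zero hwL
  refine ⟨U₃, V₂ * U₂ ^ q, ?_, ?_, ?_⟩
  · rw [map_mul, map_pow, hredV₂]
    exact mul_ne_zero (pow_ne_zero _ hred) (pow_ne_zero _ hred)
  · rw [map_mul, map_pow]
    refine mul_mem ?_ (hα _ (pow_mem hmem q))
    rw [hV₂, incl_qExpand_coeffMap]
    exact hβ _ (coeffMap_mem_laurentBaseChange σ hmem)
  · have key : H708.cst (w : L) * H708.incl A U₃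
        = (qExpand L q (coeffMap (σ : L →+* L) f) - f ^ q) * H708.incl A (V₂ * U₂ ^ q) := by
      rw [← H708.incl_cstA, ← map_mul, hU₃, map_sub, map_mul, map_mul, map_mul, ← e1, ← e2]
      ring
    rw [mul_right_comm, ← key, mul_comm (H708.cst (w : L)), mul_assoc,
      mul_inv_cancel₀ hcst, mul_one]

end generic

/-! ## Frobenius elements -/

/-- A Frobenius element at `A` is congruent to the `q`-th power map on `A`. -/
theorem sub_pow_mem_nonunits_of_isFrobeniusAt {K L : Type*} [Field K] [Field L] [Algebra K L]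
    (A : ValuationSubring L) {q : ℕ} {φ : L ≃ₐ[K] L} (hφ : A.IsFrobeniusAt φ q) {z : L}
    (hz : z ∈ A) : φ z - z ^ q ∈ A.nonunits := by
  obtain ⟨hσD, hF⟩ := hφ
  have h2 := hF (IsLocalRing.residue A ⟨z, hz⟩)
  rw [← IsLocalRing.ResidueField.residue_smul, ← map_pow] at h2
  have h3 : ((⟨φ, hσD⟩ : A.decompositionSubgroup K) • (⟨z, hz⟩ : A)) - (⟨z, hz⟩ : A) ^ q
      ∈ IsLocalRing.maximalIdeal A := by
    rw [← Ideal.Quotient.eq]
    exact h2
  rw [ValuationSubring.valuation_lt_one_iff] at h3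
  exact A.mem_nonunits_iff.mpr h3

section inst

variable (A : ValuationSubring _root_.Fermat.Agent.S35.G.Qb) (E : IntermediateField ℚ _root_.Fermat.Agent.S35.G.Qb)

/-- The restriction to `E` of an element of the decomposition group of `A` maps `R_E = A ∩ E`
into itself. -/
theorem resE_mem_RE (s : _root_.Fermat.Agent.S35.G.Qb ≃ₐ[ℚ] _root_.Fermat.Agent.S35.G.Qb) (hs : StableUnder E s)
    (hsD : s ∈ A.decompositionSubgroup ℚ) :
    ∀ a ∈ Mod.RE A E, (Mod.resE E s hs) a ∈ Mod.RE A E := by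
  intro a ha
  rw [ValuationSubring.mem_comap] at ha ⊢
  have e : algebraMap ↥E _root_.Fermat.Agent.S35.G.Qb (Mod.resE E s hs a) = s (algebraMap ↥E _root_.Fermat.Agent.S35.G.Qb a) := rfl
  rw [e]
  exact H708.apply_mem_of_mem_decomposition A hsD ha

theorem natCast_mem_nonunits_RE {q : ℕ} (hA : A.LiesOverPrime q) :
    (q : E) ∈ (Mod.RE A E).nonunits := by
  rw [Mod.H549.mem_nonunits_comap, map_natCast]
  exact hA

theorem charP_residueField_RE {q : ℕ} (hq : q.Prime) (hA : A.LiesOverPrime q) :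
    CharP (IsLocalRing.ResidueField (Mod.RE A E)) q := by
  rw [CharP.charP_iff_prime_eq_zero hq]
  have h1 : IsLocalRing.residue (Mod.RE A E) ((q : ℕ) : Mod.RE A E) = 0 := by
    rw [IsLocalRing.residue_eq_zero_iff, ← ValuationSubring.coe_mem_nonunits_iff]
    have : (((q : ℕ) : Mod.RE A E) : E) = (q : E) := by simp
    rw [this]
    exact natCast_mem_nonunits_RE A E hA
  rw [map_natCast] at h1
  exact h1

/-- The restriction to `E` of a Frobenius lift at `A` is congruent to the `q`-th power map on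
`R_E`. -/
theorem resE_sub_pow_mem_nonunits {q : ℕ} (s : _root_.Fermat.Agent.S35.G.Qb ≃ₐ[ℚ] _root_.Fermat.Agent.S35.G.Qb) (hs : StableUnder E s)
    (hF : A.IsFrobeniusAt s q) :
    ∀ a ∈ Mod.RE A E, (Mod.resE E s hs) a - a ^ q ∈ (Mod.RE A E).nonunits := by
  intro a ha
  rw [ValuationSubring.mem_comap] at ha
  rw [Mod.H549.mem_nonunits_comap, map_sub, map_pow]
  have e : algebraMap ↥E _root_.Fermat.Agent.S35.G.Qb (Mod.resE E s hs a) = s (algebraMap ↥E _root_.Fermat.Agent.S35.G.Qb a) := rfl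
  rw [e]
  exact sub_pow_mem_nonunits_of_isFrobeniusAt A hF ha

theorem dvd_of_mem_nonunits_RE (w : Mod.RE A E) (hdvr : IsDiscreteValuationRing (Mod.RE A E))
    (hw : Irreducible w) :
    ∀ a : Mod.RE A E, (a : E) ∈ (Mod.RE A E).nonunits → w ∣ a := by
  intro a ha
  rw [ValuationSubring.coe_mem_nonunits_iff, hw.maximalIdeal_eq, Ideal.mem_span_singleton] at ha
  exact ha

end inst

/-- **Leaf KRON-FROB** (`G.KronFrobStatement`, verbatim). -/
theorem kronFrob (A : ValuationSubring _root_.Fermat.Agent.S35.G.Qb) (E : IntermediateField ℚ _root_.Fermat.Agent.S35.G.Qb) (M q : ℕ) [NeZero M]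
    [NeZero q] (w : Mod.RE A E) : KronFrobStatement A E M q w := by
  intro hS VM V hVM hV s hs hF a ha
  have hq := hS.q_prime
  have : Fact q.Prime := ⟨hq⟩
  have := charP_residueField_RE A E hq hS.lies_over
  have hsD := hF.mem_decompositionSubgroup
  have key := isGaussInt_kron (A := Mod.RE A E) q (modularFunctionFieldFull M)
    (modularFunctionFieldFull (M * q)) (Mod.resE E s hs) (resE_mem_RE A E s hs hsD)
    (resE_sub_pow_mem_nonunits A E s hs hF)
    (fun x hx => by
      have := (Mod.αE E M q ⟨x, hx⟩).2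
      rwa [coe_heckeAlphaBar] at this)
    (fun x hx => by
      have := (Mod.βE E M q ⟨x, hx⟩).2
      rwa [coe_heckeBetaBar] at this)
    w hS.unif.ne_zero (dvd_of_mem_nonunits_RE A E w hS.dvr hS.unif) ((hVM a).mp ha)
  have hcoe : (((Mod.βE E M q (actE E M (Mod.resE E s hs) a) - (Mod.αE E M q a) ^ q) *
      (Mod.cE A E (M * q) w)⁻¹ : Mod.FE E (M * q)) : LaurentSeries E) =
      (qExpand E q (coeffMap ((Mod.resE E s hs : E ≃ₐ[ℚ] E) : E →+* E) (a : LaurentSeries E)) -
        (a : LaurentSeries E) ^ q) * (H708.cst ((w : E)))⁻¹ := by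
    rw [IntermediateField.coe_mul, IntermediateField.coe_inv, AddSubgroupClass.coe_sub,
      IntermediateField.coe_pow, coe_heckeBetaBar, coe_heckeAlphaBar,
      coe_arithmeticRingAut_apply]
    rfl
  rw [Mod.InW, hV, hcoe]
  exact key

end Fermat.Agent.S35.G.H516

end

end
-- ===== PACK-END S35/G/H516/KronFrob.lean

-- ===== PACK-BEGIN S35/G/H126/Stable.lean
section



/-!
# S35, piece (G') — leaves STABLE, COORD, FROB-RES (helper126)

Statements of `Fermat/Agent/S35/G/SpecLevel.lean`, verbatim: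

* `stable   : StableStatement A E`      — an element of the decomposition group of `A` stabilising
  `E` commutes with the Fricke involution and preserves the Gauss valuation ring `V∞`
  (`A2.Mod.H549.fricke_comm`, `A2.Mod.H549.isGaussInt_coeffMap`);
* `coord    : CoordStatement E M q`     — `x = j · j_q` is fixed by the action on the coefficients;
* `frobRes  : FrobResStatement A E q`   — `s²` induces on `R_E = A ∩ E` an automorphism which is
  `r ↦ r ^ (q ^ 2)` modulo the maximal ideal.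
-/

set_option autoImplicit false
set_option linter.unusedSectionVars false
set_option synthInstance.maxHeartbeats 400000
set_option maxHeartbeats 1600000

noncomputable section

namespace Fermat.Agent.S35.G.H126

open ModularCurve HahnSeries Fermat.Agent.A2

/-! ## STABLE -/

/-- The restriction `resE` is the restriction. -/
theorem coe_resE (E : IntermediateField ℚ A2.Mod.Qb) (s : A2.Mod.Qb ≃ₐ[ℚ] A2.Mod.Qb)
    (hs : StableUnder E s) (e : E) :
    ((A2.Mod.resE E s hs e : E) : A2.Mod.Qb) = s (e : A2.Mod.Qb) := rfl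

/-- An element of the decomposition group stabilising `E` preserves `R_E = A ∩ E`. -/
theorem resE_mem_RE (A : ValuationSubring A2.Mod.Qb) (E : IntermediateField ℚ A2.Mod.Qb)
    (s : A2.Mod.Qb ≃ₐ[ℚ] A2.Mod.Qb) (hs : StableUnder E s)
    (hsD : s ∈ A.decompositionSubgroup ℚ) (a : E) (ha : a ∈ A2.Mod.RE A E) :
    A2.Mod.resE E s hs a ∈ A2.Mod.RE A E := by
  rw [ValuationSubring.mem_comap] at ha ⊢
  exact H708.apply_mem_of_mem_decomposition A hsD ha

/-- ... and reflects it. -/
theorem mem_RE_of_resE_mem (A : ValuationSubring A2.Mod.Qb) (E : IntermediateField ℚ A2.Mod.Qb)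
    (s : A2.Mod.Qb ≃ₐ[ℚ] A2.Mod.Qb) (hs : StableUnder E s)
    (hsD : s ∈ A.decompositionSubgroup ℚ) (a : E) (ha : A2.Mod.resE E s hs a ∈ A2.Mod.RE A E) :
    a ∈ A2.Mod.RE A E := by
  rw [ValuationSubring.mem_comap] at ha ⊢
  exact H708.mem_of_apply_mem_of_mem_decomposition A hsD ha

/-- **STABLE.** -/
theorem stable (A : ValuationSubring A2.Mod.Qb) (E : IntermediateField ℚ A2.Mod.Qb) :
    StableStatement A E := by
  intro N hN _hdvr V W hV hW s hs hsD
  constructor
  · -- `σ W = W σ`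
    refine A2.Mod.H549.fricke_comm N (W : _ →+* _) (fun c => W.commutes c)
      (A2.Mod.resE E s hs) ?_
    intro d hne hd
    obtain ⟨d', hd'⟩ := hd
    have hd'0 : d' ≠ 0 := by
      rintro rfl
      exact hN (by rw [hd', mul_zero])
    have : NeZero d' := ⟨hd'0⟩
    have hdN : d ∣ N := ⟨d', hd'⟩
    have hd'N : d' ∣ N := ⟨d, by rw [hd', mul_comm]⟩
    show W (A2.Mod.jE E N d hdN) ∈ A2.Mod.H549.fixSub N (A2.Mod.resE E s hs)
    rw [hW.1 d d' hdN hd'N hd'.symm, A2.Mod.H549.mem_fixSub]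
    exact Subtype.ext (coeffMap_coeffEmb (A2.Mod.resE E s hs) _)
  · -- `σ V∞ ⊆ V∞`
    intro f hf
    exact (hV _).mpr
      (A2.Mod.H549.isGaussInt_coeffMap (F₀ := modularFunctionFieldFull N) (A2.Mod.resE E s hs)
        (resE_mem_RE A E s hs hsD) ((hV f).mp hf))

/-! ## COORD -/

/-- the generators `j_d` are fixed by the action on the coefficients -/
theorem actE_jE (E : IntermediateField ℚ A2.Mod.Qb) (N : ℕ) (t : E ≃ₐ[ℚ] E) (d : ℕ) [NeZero d]
    (hd : d ∣ N) : actE E N t (A2.Mod.jE E N d hd) = A2.Mod.jE E N d hd :=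
  Subtype.ext (coeffMap_coeffEmb t _)

/-- **COORD.** -/
theorem coord (E : IntermediateField ℚ A2.Mod.Qb) (M q : ℕ) [NeZero M] [NeZero q] :
    CoordStatement E M q := by
  intro t
  rw [A2.Mod.xE, map_mul, actE_jE, actE_jE]

/-! ## FROB-RES -/

/-- A Frobenius element is the `q`-th power map on the residue field (elementwise form). -/
theorem frob_sub_pow_mem_nonunits (A : ValuationSubring A2.Mod.Qb) {q : ℕ}
    {s : A2.Mod.Qb ≃ₐ[ℚ] A2.Mod.Qb} (hF : A.IsFrobeniusAt s q) {z : A2.Mod.Qb} (hz : z ∈ A) :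
    s z - z ^ q ∈ A.nonunits := by
  obtain ⟨hσD, hF⟩ := hF
  have h2 := hF (IsLocalRing.residue A ⟨z, hz⟩)
  rw [← IsLocalRing.ResidueField.residue_smul, ← map_pow] at h2
  have h3 : ((⟨s, hσD⟩ : A.decompositionSubgroup ℚ) • (⟨z, hz⟩ : A)) - (⟨z, hz⟩ : A) ^ q
      ∈ IsLocalRing.maximalIdeal A := by
    rw [← Ideal.Quotient.eq]
    exact h2
  rw [← ValuationSubring.coe_mem_nonunits_iff] at h3
  exact h3

/-- `s² z ≡ z ^ (q²)`. -/
theorem frob_sq_sub_pow_mem_nonunits (A : ValuationSubring A2.Mod.Qb) {q : ℕ}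
    {s : A2.Mod.Qb ≃ₐ[ℚ] A2.Mod.Qb} (hF : A.IsFrobeniusAt s q) {z : A2.Mod.Qb} (hz : z ∈ A) :
    s (s z) - z ^ (q ^ 2) ∈ A.nonunits := by
  have hsz : s z ∈ A := H708.apply_mem_of_mem_decomposition A hF.mem_decompositionSubgroup hz
  have h1 := frob_sub_pow_mem_nonunits A hF hsz
  have h2 := frob_sub_pow_mem_nonunits A hF hz
  -- work in `A`
  have e1 : (⟨s (s z), H708.apply_mem_of_mem_decomposition A hF.mem_decompositionSubgroup hsz⟩ : A)
      - (⟨s z, hsz⟩ : A) ^ q ∈ IsLocalRing.maximalIdeal A := by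
    rw [← ValuationSubring.coe_mem_nonunits_iff]
    exact h1
  have e2 : (⟨s z, hsz⟩ : A) - (⟨z, hz⟩ : A) ^ q ∈ IsLocalRing.maximalIdeal A := by
    rw [← ValuationSubring.coe_mem_nonunits_iff]
    exact h2
  have e3 : (⟨s z, hsz⟩ : A) ^ q - ((⟨z, hz⟩ : A) ^ q) ^ q ∈ IsLocalRing.maximalIdeal A :=
    Ideal.mem_of_dvd _ (sub_dvd_pow_sub_pow _ _ q) e2
  have e4 := add_mem e1 e3
  rw [sub_add_sub_cancel, ← pow_mul, ← sq, ← ValuationSubring.coe_mem_nonunits_iff] at e4
  exact e4

/-- **FROB-RES.** -/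
theorem frobRes (A : ValuationSubring A2.Mod.Qb) (E : IntermediateField ℚ A2.Mod.Qb) (q : ℕ)
    [NeZero q] : FrobResStatement A E q := by
  intro _hA _hq s hs hF
  have hsD : s ∈ A.decompositionSubgroup ℚ := hF.mem_decompositionSubgroup
  -- the ring homomorphism induced by `s²` on `R_E`
  let φ : A2.Mod.RE A E →+* A2.Mod.RE A E :=
    { toFun := fun r => ⟨(A2.Mod.resE E s hs * A2.Mod.resE E s hs) (r : E),
        resE_mem_RE A E s hs hsD _ (resE_mem_RE A E s hs hsD _ r.2)⟩
      map_one' := Subtype.ext (map_one _)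
      map_mul' := fun a b => Subtype.ext (map_mul _ (a : E) (b : E))
      map_zero' := Subtype.ext (map_zero _)
      map_add' := fun a b => Subtype.ext (map_add _ (a : E) (b : E)) }
  have hφ : Function.Bijective φ := by
    constructor
    · intro a b hab
      have h := congrArg Subtype.val hab
      exact Subtype.ext ((A2.Mod.resE E s hs * A2.Mod.resE E s hs).injective h)
    · intro b
      obtain ⟨a, ha⟩ := (A2.Mod.resE E s hs * A2.Mod.resE E s hs).surjective (b : E)
      have ha' : A2.Mod.resE E s hs (A2.Mod.resE E s hs a) = (b : E) := ha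
      have hmem : a ∈ A2.Mod.RE A E := by
        apply mem_RE_of_resE_mem A E s hs hsD
        apply mem_RE_of_resE_mem A E s hs hsD
        rw [ha']
        exact b.2
      exact ⟨⟨a, hmem⟩, Subtype.ext ha⟩
  refine ⟨RingEquiv.ofBijective φ hφ, fun r => rfl, fun r => ?_⟩
  rw [← ValuationSubring.coe_mem_nonunits_iff, A2.Mod.H549.mem_nonunits_comap]
  have hr : ((r : E) : A2.Mod.Qb) ∈ A := r.2
  have key := frob_sq_sub_pow_mem_nonunits A hF hr
  exact key

end Fermat.Agent.S35.G.H126

end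

end
-- ===== PACK-END S35/G/H126/Stable.lean

-- ===== PACK-BEGIN A2/Mod/H816/L3.lean
section



/-!
# A2 / MOD leaf L3 (helper816): `vinfGauss : VinfGaussStatement P E w`

If `u ∈ F_N` is the image of an `R`-integral series `U = t^{-a}(c + …)`, `a > 0`, `c ∈ Rˣ`, then
for every `p ∈ R[X]` not divisible by the uniformiser `w`, `p(u)` is a unit of the Gauss
valuation ring `V∞`.

Proof: `p(u)` is the image of the integral series `Q = p(U)`; its reduction is `p̄(Ū) ≠ 0`
(`L3Poly.eval₂_C_ne_zero_of_polar`), so `Q` is primitive, and `p(u) = Q / 1`, `p(u)⁻¹ = 1 / Q`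
are Gauss-integral.
-/

set_option autoImplicit false
set_option synthInstance.maxHeartbeats 400000
set_option maxHeartbeats 1600000

noncomputable section

namespace Fermat.Agent.A2.Mod.H816

open ModularCurve HahnSeries Polynomial Fermat.Agent.A2 Fermat.Agent.A2.Mod

variable (P : ValuationSubring _root_.Fermat.Agent.A2.Mod.Qb) (E : IntermediateField ℚ _root_.Fermat.Agent.A2.Mod.Qb)

/-- `coeffMap` commutes with constants. -/
theorem coeffMap_comp_C {R S : Type*} [CommRing R] [CommRing S] (f : R →+* S) :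
    (coeffMap f).comp (HahnSeries.C : R →+* LaurentSeries R) =
      (HahnSeries.C : S →+* LaurentSeries S).comp f := by
  ext r : 1
  show coeffMap f (HahnSeries.single 0 r) = HahnSeries.single 0 (f r)
  exact coeffMap_single f 0 r

/-- The integral series `p(U)`. -/
def polyAt (p : Polynomial (_root_.Fermat.Agent.A2.Mod.RE P E)) (U : LaurentSeries (_root_.Fermat.Agent.A2.Mod.RE P E)) : LaurentSeries (_root_.Fermat.Agent.A2.Mod.RE P E) :=
  p.eval₂ (HahnSeries.C : _root_.Fermat.Agent.A2.Mod.RE P E →+* LaurentSeries (_root_.Fermat.Agent.A2.Mod.RE P E)) U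

theorem incl_polyAt (N : ℕ) (p : Polynomial (_root_.Fermat.Agent.A2.Mod.RE P E)) (U : LaurentSeries (_root_.Fermat.Agent.A2.Mod.RE P E))
    (u : _root_.Fermat.Agent.A2.Mod.FE E N) (hu : (u : LaurentSeries E) = H708.incl (_root_.Fermat.Agent.A2.Mod.RE P E) U) :
    ((ev P E N u p : _root_.Fermat.Agent.A2.Mod.FE E N) : LaurentSeries E) = H708.incl (_root_.Fermat.Agent.A2.Mod.RE P E) (polyAt P E p U) := by
  unfold ev polyAt
  have h1 : ((p.eval₂ ((algebraMap E (_root_.Fermat.Agent.A2.Mod.FE E N)).comp (_root_.Fermat.Agent.A2.Mod.RE P E).subtype) u : _root_.Fermat.Agent.A2.Mod.FE E N) :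
      LaurentSeries E) =
      p.eval₂ (((_root_.Fermat.Agent.A2.Mod.FE E N).val : _root_.Fermat.Agent.A2.Mod.FE E N →+* LaurentSeries E).comp
        ((algebraMap E (_root_.Fermat.Agent.A2.Mod.FE E N)).comp (_root_.Fermat.Agent.A2.Mod.RE P E).subtype)) (u : LaurentSeries E) :=
    Polynomial.hom_eval₂ p _ ((_root_.Fermat.Agent.A2.Mod.FE E N).val : _root_.Fermat.Agent.A2.Mod.FE E N →+* LaurentSeries E) u
  rw [h1, hu]
  rw [H708.incl, Polynomial.hom_eval₂, coeffMap_comp_C]
  congr 1
  ext r : 1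
  show ((algebraMap E (_root_.Fermat.Agent.A2.Mod.FE E N) (r : E) : _root_.Fermat.Agent.A2.Mod.FE E N) : LaurentSeries E) =
    HahnSeries.C ((r : E))
  rw [IntermediateField.coe_algebraMap_apply, algebraMap_laurentSeries_eq_single]
  rfl

theorem red_polyAt (p : Polynomial (_root_.Fermat.Agent.A2.Mod.RE P E)) (U : LaurentSeries (_root_.Fermat.Agent.A2.Mod.RE P E)) :
    H708.red (_root_.Fermat.Agent.A2.Mod.RE P E) (polyAt P E p U) =
      (p.map (IsLocalRing.residue (_root_.Fermat.Agent.A2.Mod.RE P E))).eval₂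
        (HahnSeries.C : IsLocalRing.ResidueField (_root_.Fermat.Agent.A2.Mod.RE P E) →+*
          LaurentSeries (IsLocalRing.ResidueField (_root_.Fermat.Agent.A2.Mod.RE P E))) (H708.red (_root_.Fermat.Agent.A2.Mod.RE P E) U) := by
  unfold polyAt
  rw [H708.red, Polynomial.hom_eval₂, coeffMap_comp_C, Polynomial.eval₂_map]

/-- The reduction of `p` is nonzero if `w ∤ p`. -/
theorem map_residue_ne_zero [IsDiscreteValuationRing (_root_.Fermat.Agent.A2.Mod.RE P E)] {w : _root_.Fermat.Agent.A2.Mod.RE P E} (hw : Irreducible w)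
    {p : Polynomial (_root_.Fermat.Agent.A2.Mod.RE P E)} (hp : ¬ Polynomial.C w ∣ p) :
    p.map (IsLocalRing.residue (_root_.Fermat.Agent.A2.Mod.RE P E)) ≠ 0 := by
  intro h
  apply hp
  rw [Polynomial.C_dvd_iff_dvd_coeff]
  intro i
  have h1 : (p.map (IsLocalRing.residue (_root_.Fermat.Agent.A2.Mod.RE P E))).coeff i = 0 := by rw [h]; simp
  rw [Polynomial.coeff_map, IsLocalRing.residue_eq_zero_iff] at h1
  rw [(IsDiscreteValuationRing.irreducible_iff_uniformizer w).mp hw,
    Ideal.mem_span_singleton] at h1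
  exact h1

/-- **L3.** -/
theorem vinfGauss (w : _root_.Fermat.Agent.A2.Mod.RE P E) : VinfGaussStatement P E w := by
  intro N _hN hdvr hw V hV u U a ha hu h0 hc p hp
  have := hdvr
  set Q := polyAt P E p U with hQ
  have hincl := incl_polyAt P E N p U u hu
  -- `Q` is primitive
  have hred : H708.red (_root_.Fermat.Agent.A2.Mod.RE P E) Q ≠ 0 := by
    rw [hQ, red_polyAt]
    refine eval₂_C_ne_zero_of_polar (a := -(a : ℤ)) (by omega) ?_ ?_
      (map_residue_ne_zero P E hw hp)
    · intro n hn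
      show (IsLocalRing.residue (_root_.Fermat.Agent.A2.Mod.RE P E)) (U.coeff n) = 0
      rw [h0 n hn, map_zero]
    · show (IsLocalRing.residue (_root_.Fermat.Agent.A2.Mod.RE P E)) (U.coeff (-(a : ℤ))) ≠ 0
      rw [Ne, IsLocalRing.residue_eq_zero_iff]
      exact fun hmem => (IsLocalRing.mem_maximalIdeal _).mp hmem hc
  have hQ0 : Q ≠ 0 := H708.ne_zero_of_red_ne_zero _ hred
  have hne : ((ev P E N u p : _root_.Fermat.Agent.A2.Mod.FE E N) : LaurentSeries E) ≠ 0 := by
    rw [hincl]; exact H708.incl_ne_zero _ hQ0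
  have hmemF : H708.incl (_root_.Fermat.Agent.A2.Mod.RE P E) Q ∈ laurentBaseChange E (modularFunctionFieldFull N) := by
    rw [← hincl]; exact (ev P E N u p).2
  constructor
  · rw [hV, hincl]
    exact H708.IsGaussInt.of_incl Q
  · rw [hV]
    refine ⟨1, Q, hred, hmemF, ?_⟩
    have hcoe : (((ev P E N u p)⁻¹ : _root_.Fermat.Agent.A2.Mod.FE E N) : LaurentSeries E) =
        ((ev P E N u p : _root_.Fermat.Agent.A2.Mod.FE E N) : LaurentSeries E)⁻¹ := rfl
    rw [hcoe, ← hincl, map_one]
    exact inv_mul_cancel₀ hne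

end Fermat.Agent.A2.Mod.H816

end

end
-- ===== PACK-END A2/Mod/H816/L3.lean

-- ===== PACK-BEGIN A2/H489/TwoExtD.lean
section


/-!
# A2 / M1-abs, part D (helper489): the theorem `TwoExt`

`A` a discrete valuation ring with fraction field `K`, `L/K` finite separable,
`V₁ ≠ V₂` valuation subrings of `L` over `A`, with families `u₁ : Fin f₁ → V₁`,
`u₂ : Fin f₂ → V₂` whose residues are linearly independent over the residue field of `A`, and
`[L : K] ≤ f₁ + f₂`.  Then

* `twoExt_only`        : `V₁`, `V₂` are the only valuation subrings of `L` over `A`;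
* `twoExt_uniformizer` : a uniformiser of `A` is a uniformiser of `V₁` and `V₂` (`e = 1`);
* `twoExt_integral`    : `x` is integral over `A` iff `x ∈ V₁ ∩ V₂`;
* `twoExt_span`        : the residues of `u₁` (`u₂`) span the residue field of `V₁` (`V₂`).
-/

set_option autoImplicit false

namespace Fermat.Agent.A2.H489

open IsDedekindDomain IsLocalRing WithZero

section Val

variable {S F : Type*} [CommRing S] [IsDedekindDomain S] [Field F] [Algebra S F]
  [IsFractionRing S F]

theorem valuation_eq_exp_neg_one (v : HeightOneSpectrum S) {w : S} (hw : w ∈ v.asIdeal)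
    (hw2 : w ∉ v.asIdeal ^ 2) : v.valuation F (algebraMap S F w) = exp (-1 : ℤ) := by
  have hw0 : w ≠ 0 := by
    rintro rfl
    exact hw2 (Ideal.zero_mem _)
  rw [HeightOneSpectrum.valuation_of_algebraMap]
  have h1 : v.intValuation w < 1 := (v.intValuation_lt_one_iff_mem w).mpr hw
  have h2 : ¬ v.intValuation w ≤ exp (-((2 : ℕ) : ℤ)) := fun h =>
    hw2 ((v.intValuation_le_pow_iff_mem w 2).mp h)
  rw [v.intValuation_if_neg hw0] at h1 h2 ⊢
  rw [← exp_zero, exp_lt_exp] at h1
  rw [exp_le_exp] at h2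
  congr 1
  push_cast at h2
  omega

theorem mul_inv_mem_of_lt_one (v : HeightOneSpectrum S) {w : S} (hw : w ∈ v.asIdeal)
    (hw2 : w ∉ v.asIdeal ^ 2) {x : F} (hx : v.valuation F x < 1) :
    v.valuation F (x * (algebraMap S F w)⁻¹) ≤ 1 := by
  have hv := valuation_eq_exp_neg_one (F := F) v hw hw2
  rw [map_mul, map_inv₀, hv]
  have h1 : x = 0 ∨ x ≠ 0 := eq_or_ne x 0
  rcases h1 with rfl | hx0
  · simp
  have hne : v.valuation F x ≠ 0 := (Valuation.ne_zero_iff _).mpr hx0
  have h3 : v.valuation F x ≤ exp (-1 : ℤ) := by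
    rw [← lt_mul_exp_iff_le (by simp)]
    rw [← exp_add]
    simpa using hx
  calc v.valuation F x * (exp (-1 : ℤ))⁻¹ ≤ exp (-1 : ℤ) * (exp (-1 : ℤ))⁻¹ :=
        mul_le_mul_left h3 _
    _ = 1 := mul_inv_cancel₀ (by simp)

theorem mem_nonunits_valuationSubring_iff (v : HeightOneSpectrum S) (x : F) :
    x ∈ (v.valuation F).valuationSubring.nonunits ↔ v.valuation F x < 1 := by
  rw [ValuationSubring.mem_nonunits_iff_or]
  rcases eq_or_ne x 0 with rfl | hx
  · simp
  · have hne : v.valuation F x ≠ 0 := (Valuation.ne_zero_iff _).mpr hx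
    rw [Valuation.mem_valuationSubring_iff, map_inv₀, not_le]
    constructor
    · rintro (h | h)
      · exact absurd h hx
      · exact (one_lt_inv₀ (zero_lt_iff.mpr hne)).mp h
    · intro h
      exact Or.inr ((one_lt_inv₀ (zero_lt_iff.mpr hne)).mpr h)

end Val

section Main

variable (K : Type*) {A L : Type*} [CommRing A] [IsDomain A] [IsDiscreteValuationRing A]
  [Field K] [Algebra A K] [IsFractionRing A K]
  [Field L] [Algebra K L] [Algebra A L] [IsScalarTower A K L]
  [FiniteDimensional K L] [Algebra.IsSeparable K L]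

/-- Hypotheses of `TwoExt`. -/
structure TwoExtHyp (K A : Type*) {L : Type*} [CommRing A] [IsDomain A]
    [IsDiscreteValuationRing A] [Field K] [Algebra A K]
    [Field L] [Algebra K L] [Algebra A L]
    (V₁ V₂ : ValuationSubring L) {f₁ f₂ : ℕ} (u₁ : Fin f₁ → L) (u₂ : Fin f₂ → L) : Prop where
  over₁ : IsOver A V₁
  over₂ : IsOver A V₂
  ne : V₁ ≠ V₂
  deg : Module.finrank K L ≤ f₁ + f₂
  mem₁ : ∀ i, u₁ i ∈ V₁
  mem₂ : ∀ i, u₂ i ∈ V₂
  indep₁ : ∀ a : Fin f₁ → A, (∑ i, algebraMap A L (a i) * u₁ i) ∈ V₁.nonunits →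
    ∀ i, a i ∈ maximalIdeal A
  indep₂ : ∀ a : Fin f₂ → A, (∑ i, algebraMap A L (a i) * u₂ i) ∈ V₂.nonunits →
    ∀ i, a i ∈ maximalIdeal A

variable {K} {V₁ V₂ : ValuationSubring L} {f₁ f₂ : ℕ} {u₁ : Fin f₁ → L} {u₂ : Fin f₂ → L}

omit [IsFractionRing A K] [IsScalarTower A K L] [FiniteDimensional K L]
  [Algebra.IsSeparable K L] in
theorem TwoExtHyp.symm (h : TwoExtHyp K A V₁ V₂ u₁ u₂) : TwoExtHyp K A V₂ V₁ u₂ u₁ where
  over₁ := h.over₂
  over₂ := h.over₁
  ne := h.ne.symm
  deg := by have := h.deg; omega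
  mem₁ := h.mem₂
  mem₂ := h.mem₁
  indep₁ := h.indep₂
  indep₂ := h.indep₁

theorem TwoExtHyp.core (h : TwoExtHyp K A V₁ V₂ u₁ u₂) :
    (∀ P : Ideal (integralClosure A L), P.IsPrime → P.LiesOver (maximalIdeal A) →
        P = center V₁ h.over₁.mem_integralClosure ∨
        P = center V₂ h.over₂.mem_integralClosure) ∧
      Ideal.ramificationIdx' (maximalIdeal A) (center V₁ h.over₁.mem_integralClosure) = 1 ∧
      Ideal.ramificationIdx' (maximalIdeal A) (center V₂ h.over₂.mem_integralClosure) = 1 ∧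
      Ideal.inertiaDeg' (maximalIdeal A) (center V₁ h.over₁.mem_integralClosure) = f₁ ∧
      Ideal.inertiaDeg' (maximalIdeal A) (center V₂ h.over₂.mem_integralClosure) = f₂ :=
  twoExt_core K h.over₁ h.over₂ h.ne h.deg
    (h.over₁.le_inertiaDeg K u₁ h.mem₁ h.indep₁) (h.over₂.le_inertiaDeg K u₂ h.mem₂ h.indep₂)

/-- **TwoExt (1)**: `V₁` and `V₂` are the only valuation subrings of `L` over `A`. -/
theorem TwoExtHyp.only (h : TwoExtHyp K A V₁ V₂ u₁ u₂) {V : ValuationSubring L}
    (hV : IsOver A V) : V = V₁ ∨ V = V₂ := by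
  have hD : IsDedekindDomain (integralClosure A L) := integralClosure.isDedekindDomain A K L
  have hFr : IsFractionRing (integralClosure A L) L :=
    integralClosure.isFractionRing_of_finite_extension K L
  rcases h.core.1 (center V hV.mem_integralClosure) inferInstance hV.center_liesOver with h1 | h1
  · exact Or.inl (eq_of_center_eq V V₁ hV.mem_integralClosure h.over₁.mem_integralClosure
      (hV.ne_top K) (h.over₁.ne_top K) h1)
  · exact Or.inr (eq_of_center_eq V V₂ hV.mem_integralClosure h.over₂.mem_integralClosure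
      (hV.ne_top K) (h.over₂.ne_top K) h1)

include K in
/-- `e = 1` in valuation form. -/
theorem IsOver.mul_inv_mem_of_ramificationIdx_eq_one {V : ValuationSubring L} (hV : IsOver A V)
    (he : Ideal.ramificationIdx' (maximalIdeal A) (center V hV.mem_integralClosure) = 1)
    {w : A} (hw : Irreducible w) {x : L} (hx : x ∈ V.nonunits) :
    x * (algebraMap A L w)⁻¹ ∈ V := by
  have hD : IsDedekindDomain (integralClosure A L) := integralClosure.isDedekindDomain A K L
  have hFr : IsFractionRing (integralClosure A L) L :=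
    integralClosure.isFractionRing_of_finite_extension K L
  have hne : V ≠ ⊤ := hV.ne_top K
  set v := centerSpec V hV.mem_integralClosure hne with hvdef
  have hVv : V = (v.valuation L).valuationSubring :=
    eq_valuationSubring_centerSpec V hV.mem_integralClosure hne
  have hwmax : w ∈ maximalIdeal A := by
    rw [IsLocalRing.mem_maximalIdeal, _root_.mem_nonunits_iff]
    exact hw.not_isUnit
  have hw1 : algebraMap A (integralClosure A L) w ∈ v.asIdeal := by
    show algebraMap A (integralClosure A L) w ∈ center V hV.mem_integralClosure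
    rw [mem_center_iff, ← IsScalarTower.algebraMap_apply]
    exact hV.nonunit w hwmax
  have hmap : Ideal.map (algebraMap A (integralClosure A L)) (maximalIdeal A)
      = Ideal.span {algebraMap A (integralClosure A L) w} := by
    rw [hw.maximalIdeal_eq, Ideal.map_span, Set.image_singleton]
  have hle : Ideal.map (algebraMap A (integralClosure A L)) (maximalIdeal A)
      ≤ center V hV.mem_integralClosure := by
    rw [hmap, Ideal.span_singleton_le_iff_mem]
    exact hw1
  have hw2 : algebraMap A (integralClosure A L) w ∉ v.asIdeal ^ 2 := by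
    intro hmem
    have h2 : Ideal.map (algebraMap A (integralClosure A L)) (maximalIdeal A)
        ≤ center V hV.mem_integralClosure ^ 2 := by
      rw [hmap, Ideal.span_singleton_le_iff_mem]
      exact hmem
    exact ((Ideal.ramificationIdx'_ne_one_iff hle).mpr h2) he
  have hx' : v.valuation L x < 1 := by
    rw [← mem_nonunits_valuationSubring_iff, ← hVv]
    exact hx
  have key := mul_inv_mem_of_lt_one (F := L) v hw1 hw2 hx'
  rw [← IsScalarTower.algebraMap_apply] at key
  rw [hVv]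
  exact key

/-- **TwoExt (2)**: a uniformiser of `A` is a uniformiser of `V₁`. -/
theorem TwoExtHyp.uniformizer₁ (h : TwoExtHyp K A V₁ V₂ u₁ u₂) {w : A} (hw : Irreducible w)
    {x : L} (hx : x ∈ V₁.nonunits) : x * (algebraMap A L w)⁻¹ ∈ V₁ :=
  h.over₁.mul_inv_mem_of_ramificationIdx_eq_one (K := K) h.core.2.1 hw hx

/-- **TwoExt (2')**: a uniformiser of `A` is a uniformiser of `V₂`. -/
theorem TwoExtHyp.uniformizer₂ (h : TwoExtHyp K A V₁ V₂ u₁ u₂) {w : A} (hw : Irreducible w)
    {x : L} (hx : x ∈ V₂.nonunits) : x * (algebraMap A L w)⁻¹ ∈ V₂ :=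
  h.over₂.mul_inv_mem_of_ramificationIdx_eq_one (K := K) h.core.2.2.1 hw hx

/-- **TwoExt (3)**: the integral closure of `A` in `L` is `V₁ ∩ V₂`. -/
theorem TwoExtHyp.isIntegral_iff (h : TwoExtHyp K A V₁ V₂ u₁ u₂) (x : L) :
    IsIntegral A x ↔ x ∈ V₁ ∧ x ∈ V₂ := by
  constructor
  · intro hx
    exact ⟨h.over₁.integral_mem hx, h.over₂.integral_mem hx⟩
  · rintro ⟨hx₁, hx₂⟩
    have hD : IsDedekindDomain (integralClosure A L) := integralClosure.isDedekindDomain A K L
    have hFr : IsFractionRing (integralClosure A L) L :=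
      integralClosure.isFractionRing_of_finite_extension K L
    have hint : Algebra.IsIntegral A (integralClosure A L) :=
      IsIntegralClosure.isIntegral_algebra A L
    have key : ∀ v : HeightOneSpectrum (integralClosure A L), v.valuation L x ≤ 1 := by
      intro v
      have hmax : (v.asIdeal.comap (algebraMap A (integralClosure A L))).IsMaximal :=
        Ideal.isMaximal_comap_of_isIntegral_of_isMaximal v.asIdeal
      have hlo : v.asIdeal.LiesOver (maximalIdeal A) :=
        ⟨(IsLocalRing.eq_maximalIdeal hmax).symm⟩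
      rcases h.core.1 v.asIdeal v.isPrime hlo with h1 | h1
      · have := eq_valuationSubring_of_center V₁ h.over₁.mem_integralClosure
          (h.over₁.ne_top K) v h1
        rw [this] at hx₁
        exact hx₁
      · have := eq_valuationSubring_of_center V₂ h.over₂.mem_integralClosure
          (h.over₂.ne_top K) v h1
        rw [this] at hx₂
        exact hx₂
    obtain ⟨c, hc⟩ := HeightOneSpectrum.mem_integers_of_valuation_le_one L x key
    rw [← hc]
    exact c.2

include K in
/-- spanning of the residue field by an independent family of the right size -/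
theorem IsOver.exists_sub_sum_mem_nonunits {V : ValuationSubring L} (hV : IsOver A V) {f : ℕ}
    (hf : Ideal.inertiaDeg' (maximalIdeal A) (center V hV.mem_integralClosure) = f)
    (u : Fin f → L) (hu : ∀ i, u i ∈ V)
    (hind : ∀ a : Fin f → A, (∑ i, algebraMap A L (a i) * u i) ∈ V.nonunits →
      ∀ i, a i ∈ maximalIdeal A) {x : L} (hx : x ∈ V) :
    ∃ a : Fin f → A, x - ∑ i, algebraMap A L (a i) * u i ∈ V.nonunits := by
  have hlo := hV.center_liesOver
  have hfin : Module.Finite A (integralClosure A L) := IsIntegralClosure.finite A K L _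
  rw [Ideal.inertiaDeg'_algebraMap] at hf
  choose s hs using fun i => hV.exists_sub_mem_nonunits K (hu i)
  have hli := hV.linearIndependent_mk u s hs hind
  have hcard : Fintype.card (Fin f)
      = Module.finrank (A ⧸ maximalIdeal A)
          (integralClosure A L ⧸ center V hV.mem_integralClosure) := by
    rw [hf, Fintype.card_fin]
  let _ : Field (A ⧸ maximalIdeal A) := Ideal.Quotient.field (maximalIdeal A)
  have hspan := LinearIndependent.span_eq_top_of_card_eq_finrank' (K := A ⧸ maximalIdeal A)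
    hli hcard
  obtain ⟨t, ht⟩ := hV.exists_sub_mem_nonunits K hx
  have hmem : Ideal.Quotient.mk (center V hV.mem_integralClosure) t ∈
      Submodule.span (A ⧸ maximalIdeal A)
        (Set.range fun i => Ideal.Quotient.mk (center V hV.mem_integralClosure) (s i)) := by
    rw [hspan]
    exact Submodule.mem_top
  rw [Submodule.mem_span_range_iff_exists_fun] at hmem
  obtain ⟨c, hc⟩ := hmem
  choose a ha using fun i => Ideal.Quotient.mk_surjective (c i)
  refine ⟨a, ?_⟩
  have h1 : ∀ i, c i • Ideal.Quotient.mk (center V hV.mem_integralClosure) (s i)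
      = Ideal.Quotient.mk (center V hV.mem_integralClosure)
          (algebraMap A (integralClosure A L) (a i) * s i) := by
    intro i
    rw [Algebra.smul_def, ← ha i, Ideal.Quotient.algebraMap_mk_of_liesOver, map_mul]
  simp only [h1] at hc
  rw [← map_sum, Ideal.Quotient.eq, mem_center_iff] at hc
  have h2 : x - ∑ i, algebraMap A L (a i) * u i
      = (x - algebraMap (integralClosure A L) L t)
        - algebraMap (integralClosure A L) L
            (∑ i, algebraMap A (integralClosure A L) (a i) * s i - t)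
        - ∑ i, algebraMap A L (a i) * (u i - algebraMap (integralClosure A L) L (s i)) := by
    rw [map_sub, map_sum]
    have h3 : ∀ i, algebraMap (integralClosure A L) L
        (algebraMap A (integralClosure A L) (a i) * s i)
        = algebraMap A L (a i) * algebraMap (integralClosure A L) L (s i) := by
      intro i
      rw [map_mul, ← IsScalarTower.algebraMap_apply]
    simp only [h3, mul_sub, Finset.sum_sub_distrib]
    ring
  rw [h2]
  refine sub_mem (sub_mem ht hc) (sum_mem fun i _ => ?_)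
  exact mul_mem_nonunits (hV.mem _) (hs i)

/-- **TwoExt (4)**: the residues of `u₁` span the residue field of `V₁`. -/
theorem TwoExtHyp.span₁ (h : TwoExtHyp K A V₁ V₂ u₁ u₂) {x : L} (hx : x ∈ V₁) :
    ∃ a : Fin f₁ → A, x - ∑ i, algebraMap A L (a i) * u₁ i ∈ V₁.nonunits :=
  h.over₁.exists_sub_sum_mem_nonunits (K := K) h.core.2.2.2.1 u₁ h.mem₁ h.indep₁ hx

/-- **TwoExt (4')**: the residues of `u₂` span the residue field of `V₂`. -/
theorem TwoExtHyp.span₂ (h : TwoExtHyp K A V₁ V₂ u₁ u₂) {x : L} (hx : x ∈ V₂) :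
    ∃ a : Fin f₂ → A, x - ∑ i, algebraMap A L (a i) * u₂ i ∈ V₂.nonunits :=
  h.over₂.exists_sub_sum_mem_nonunits (K := K) h.core.2.2.2.2 u₂ h.mem₂ h.indep₂ hx

end Main

end Fermat.Agent.A2.H489

end
-- ===== PACK-END A2/H489/TwoExtD.lean

-- ===== PACK-BEGIN A2/H489/GaussFrameA.lean
section


/-!
# A2 / M1mod-FRAME part A (helper489): Gauss normal form over a discrete valuation ring

`R` a discrete valuation ring, `E = Frac R`, `L ⊇ E` a field, `x ∈ L`.

* `exists_eq_pow_mul_prim` : a nonzero `p ∈ R[X]` is `w ^ n` times a primitive polynomial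
  (primitive := nonzero modulo the maximal ideal);
* `exists_normal_form_adjoin` : every element `a ∈ E(x)` satisfies
  `a · Q(x) = c · P(x)` with `c ∈ E` and `P, Q ∈ R[X]` primitive;
* `IsGaussOver R V x` : the valuation subring `V` of `L` contains `R`, `x`, its maximal ideal
  contains `𝔪_R`, and `P(x)` is a unit of `V` for every primitive `P ∈ R[X]`
  (i.e. `V` induces the Gauss valuation on `E(x)`);
* `IsGaussOver.mem_iff`, `IsGaussOver.mem_nonunits_iff` : `V ∩ E(x)` and `𝔪_V ∩ E(x)` in terms of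
  normal forms (independent of `V`).
-/

set_option autoImplicit false

namespace Fermat.Agent.A2.H489

open IsLocalRing Polynomial IntermediateField

section Prim

variable {R : Type*} [CommRing R] [IsDomain R] [IsDiscreteValuationRing R]

omit [IsDomain R] [IsDiscreteValuationRing R] in
/-- primitive polynomials over a local ring: nonzero modulo the maximal ideal -/
theorem map_residue_eq_zero_iff [IsLocalRing R] (P : R[X]) :
    P.map (residue R) = 0 ↔ ∀ i, P.coeff i ∈ maximalIdeal R := by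
  constructor
  · intro h i
    have := congrArg (fun p => p.coeff i) h
    simp only [coeff_map, coeff_zero] at this
    exact (residue_eq_zero_iff _).mp this
  · intro h
    ext i
    simp only [coeff_map, coeff_zero]
    exact (residue_eq_zero_iff _).mpr (h i)

theorem exists_eq_C_mul_of_map_residue_eq_zero {w : R} (hw : Irreducible w) {P : R[X]}
    (h : P.map (residue R) = 0) : ∃ P' : R[X], P = C w * P' := by
  have h1 : C w ∣ P := by
    rw [C_dvd_iff_dvd_coeff]
    intro i
    have := (map_residue_eq_zero_iff P).mp h i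
    rw [hw.maximalIdeal_eq, Ideal.mem_span_singleton] at this
    exact this
  exact h1

/-- A nonzero polynomial over a DVR is a power of the uniformiser times a primitive polynomial. -/
theorem exists_eq_pow_mul_prim {w : R} (hw : Irreducible w) {p : R[X]} (hp : p ≠ 0) :
    ∃ (n : ℕ) (P : R[X]), p = C (w ^ n) * P ∧ P.map (residue R) ≠ 0 := by
  classical
  let _ : StrongNormalizationMonoid R := UniqueFactorizationMonoid.strongNormalizationMonoid
  let _ : NormalizedGCDMonoid R := UniqueFactorizationMonoid.toNormalizedGCDMonoid R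
  have hc : p.content ≠ 0 := fun h => hp (content_eq_zero_iff.mp h)
  obtain ⟨n, hn⟩ := IsDiscreteValuationRing.associated_pow_irreducible hc hw
  obtain ⟨u, hu⟩ := hn.symm
  -- `w ^ n * u = content`
  refine ⟨n, C (u : R) * p.primPart, ?_, ?_⟩
  · conv_lhs => rw [p.eq_C_content_mul_primPart]
    rw [← mul_assoc, ← C_mul, hu]
  · intro h
    rw [Polynomial.map_mul, map_C] at h
    have hu' : (C (residue R (u : R)) : (ResidueField R)[X]) ≠ 0 := by
      rw [Ne, C_eq_zero, residue_eq_zero_iff]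
      intro hmem
      exact (IsLocalRing.mem_maximalIdeal _).mp hmem u.isUnit
    rcases mul_eq_zero.mp h with h1 | h1
    · exact hu' h1
    · obtain ⟨P', hP'⟩ := exists_eq_C_mul_of_map_residue_eq_zero hw h1
      have hprim := p.isPrimitive_primPart
      have := hprim w ⟨P', hP'⟩
      exact hw.not_isUnit this

end Prim

section NormalForm

variable {R E L : Type*} [CommRing R] [IsDomain R] [IsDiscreteValuationRing R]
  [Field E] [Algebra R E] [IsFractionRing R E]
  [Field L] [Algebra E L] [Algebra R L] [IsScalarTower R E L]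

omit [IsDiscreteValuationRing R] in
/-- clearing denominators -/
theorem exists_aeval_eq_of_polynomial (x : L) {p : E[X]} (hp : p ≠ 0) :
    ∃ (d : R) (P : R[X]), d ≠ 0 ∧ P ≠ 0 ∧ algebraMap R L d * aeval x p = aeval x P := by
  obtain ⟨b, hbM, hb⟩ := IsLocalization.integerNormalization_spec (nonZeroDivisors R) p
  refine ⟨b, IsLocalization.integerNormalization (nonZeroDivisors R) p,
    nonZeroDivisors.ne_zero hbM, ?_, ?_⟩
  · rw [Ne, IsFractionRing.integerNormalization_eq_zero_iff]
    exact hp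
  · have h1 := congrArg (aeval x) hb
    rw [aeval_map_algebraMap] at h1
    rw [h1, ← Algebra.smul_def]
    have h2 : (b • p : E[X]) = C (algebraMap R E b) * p := by
      rw [Algebra.smul_def]
      rfl
    rw [h2, map_mul, aeval_C, ← IsScalarTower.algebraMap_apply R E L, Algebra.smul_def]

omit [IsDiscreteValuationRing R] in
theorem algebraMap_RL_ne_zero (E : Type*) {R L : Type*} [CommRing R] [IsDomain R]
    [Field E] [Algebra R E] [IsFractionRing R E]
    [Field L] [Algebra E L] [Algebra R L] [IsScalarTower R E L]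
    {d : R} (hd : d ≠ 0) : algebraMap R L d ≠ 0 := by
  rw [IsScalarTower.algebraMap_apply R E L]
  intro h
  have h1 : algebraMap R E d = 0 := (algebraMap E L).injective (by rw [h, map_zero])
  exact hd ((IsFractionRing.injective R E) (by rw [h1, map_zero]))

/-- **Gauss normal form** in `E(x)`: `a · Q(x) = c · P(x)` with `P`, `Q` primitive. -/
theorem exists_normal_form_adjoin {w : R} (hw : Irreducible w) (x : L) {a : L}
    (ha : a ∈ E⟮x⟯) (ha0 : a ≠ 0) :
    ∃ (c : E) (P Q : R[X]), c ≠ 0 ∧ P.map (residue R) ≠ 0 ∧ Q.map (residue R) ≠ 0 ∧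
      a * aeval x Q = algebraMap E L c * aeval x P := by
  obtain ⟨r, s, hrs⟩ := (mem_adjoin_simple_iff E a).mp ha
  have hs0 : aeval x s ≠ 0 := by
    intro h
    rw [h, div_zero] at hrs
    exact ha0 hrs
  have hr0 : aeval x r ≠ 0 := by
    intro h
    rw [h, zero_div] at hrs
    exact ha0 hrs
  have hs : s ≠ 0 := by
    rintro rfl
    exact hs0 (map_zero _)
  have hr : r ≠ 0 := by
    rintro rfl
    exact hr0 (map_zero _)
  obtain ⟨dr, R', hdr, hR', eR⟩ := exists_aeval_eq_of_polynomial (R := R) x hr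
  obtain ⟨ds, S', hds, hS', eS⟩ := exists_aeval_eq_of_polynomial (R := R) x hs
  obtain ⟨n, R₀, hR₀, hR₀p⟩ := exists_eq_pow_mul_prim hw hR'
  obtain ⟨m, S₀, hS₀, hS₀p⟩ := exists_eq_pow_mul_prim hw hS'
  have hw0 : algebraMap R L w ≠ 0 := algebraMap_RL_ne_zero E hw.ne_zero
  have hwE : algebraMap R E w ≠ 0 := fun h =>
    hw.ne_zero ((IsFractionRing.injective R E) (by rw [h, map_zero]))
  have hdrE : algebraMap R E dr ≠ 0 := fun h =>
    hdr ((IsFractionRing.injective R E) (by rw [h, map_zero]))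
  have hdsE : algebraMap R E ds ≠ 0 := fun h =>
    hds ((IsFractionRing.injective R E) (by rw [h, map_zero]))
  refine ⟨algebraMap R E ds * algebraMap R E w ^ n / (algebraMap R E dr * algebraMap R E w ^ m),
    R₀, S₀, ?_, hR₀p, hS₀p, ?_⟩
  · exact div_ne_zero (mul_ne_zero hdsE (pow_ne_zero _ hwE))
      (mul_ne_zero hdrE (pow_ne_zero _ hwE))
  · rw [hR₀, map_mul, aeval_C, map_pow] at eR
    rw [hS₀, map_mul, aeval_C, map_pow] at eS
    have hdrL : algebraMap R L dr ≠ 0 := algebraMap_RL_ne_zero E hdr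
    have hdsL : algebraMap R L ds ≠ 0 := algebraMap_RL_ne_zero E hds
    have e1 : a * aeval x s = aeval x r := by
      rw [hrs, div_mul_cancel₀ _ hs0]
    rw [map_div₀, map_mul, map_mul, map_pow, map_pow, ← IsScalarTower.algebraMap_apply R E L,
      ← IsScalarTower.algebraMap_apply R E L, ← IsScalarTower.algebraMap_apply R E L]
    rw [div_mul_eq_mul_div, eq_div_iff (mul_ne_zero hdrL (pow_ne_zero _ hw0))]
    have e2 : algebraMap R L dr * (algebraMap R L w ^ m * aeval x S₀) * a
        = algebraMap R L dr * (algebraMap R L ds * aeval x r) := by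
      rw [← eS, ← e1]; ring
    calc a * aeval x S₀ * (algebraMap R L dr * algebraMap R L w ^ m)
        = algebraMap R L dr * (algebraMap R L w ^ m * aeval x S₀) * a := by ring
      _ = algebraMap R L dr * (algebraMap R L ds * aeval x r) := e2
      _ = algebraMap R L ds * (algebraMap R L dr * aeval x r) := by ring
      _ = algebraMap R L ds * (algebraMap R L w ^ n * aeval x R₀) := by rw [eR]
      _ = algebraMap R L ds * algebraMap R L w ^ n * aeval x R₀ := by ring

end NormalForm

section Gauss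

/-- `V` induces the Gauss valuation on `E(x)` (with respect to the local ring `R`): it lies over
`R`, contains `x`, and `P(x)` is a unit of `V` for every primitive polynomial `P ∈ R[X]`. -/
structure IsGaussOver (R : Type*) {L : Type*} [CommRing R] [IsLocalRing R] [Field L]
    [Algebra R L] (V : ValuationSubring L) (x : L) : Prop where
  isOver : IsOver R V
  mem : x ∈ V
  prim : ∀ P : R[X], aeval x P ∈ V.nonunits → P.map (residue R) = 0

variable {R E L : Type*} [CommRing R] [IsDomain R] [IsDiscreteValuationRing R]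
  [Field E] [Algebra R E] [IsFractionRing R E]
  [Field L] [Algebra E L] [Algebra R L] [IsScalarTower R E L]
  {V : ValuationSubring L} {x : L}

omit [IsDomain R] [IsDiscreteValuationRing R] in
theorem IsOver.aeval_mem [IsLocalRing R] (h : IsOver R V) (hx : x ∈ V) (P : R[X]) :
    aeval x P ∈ V := by
  rw [aeval_def, eval₂_eq_sum, Polynomial.sum]
  exact sum_mem fun i _ => mul_mem (h.mem _) (pow_mem hx _)

omit [IsDomain R] [IsDiscreteValuationRing R] in
theorem IsGaussOver.aeval_mem [IsLocalRing R] (h : IsGaussOver R V x) (P : R[X]) :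
    aeval x P ∈ V :=
  h.isOver.aeval_mem h.mem P

omit [IsDomain R] [IsDiscreteValuationRing R] in
theorem IsGaussOver.inv_aeval_mem [IsLocalRing R] (h : IsGaussOver R V x) {P : R[X]}
    (hP : P.map (residue R) ≠ 0) : (aeval x P)⁻¹ ∈ V := by
  have h1 := h.aeval_mem P
  have h2 : aeval x P ∉ V.nonunits := fun hn => hP (h.prim P hn)
  rw [ValuationSubring.mem_nonunits_iff, not_lt] at h2
  rw [← ValuationSubring.valuation_le_one_iff, map_inv₀]
  have h3 := (ValuationSubring.valuation_le_one_iff V _).mpr h1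
  have h4 : V.valuation (aeval x P) = 1 := le_antisymm h3 h2
  rw [h4, inv_one]

omit [IsDomain R] [IsDiscreteValuationRing R] in
theorem IsGaussOver.aeval_ne_zero [IsLocalRing R] (h : IsGaussOver R V x) {P : R[X]}
    (hP : P.map (residue R) ≠ 0) : aeval x P ≠ 0 := by
  intro h0
  apply hP
  apply h.prim
  rw [h0, ValuationSubring.mem_nonunits_iff, map_zero]
  exact zero_lt_one

omit [IsDomain R] [IsDiscreteValuationRing R] in
theorem IsGaussOver.aeval_mem_nonunits [IsLocalRing R] (h : IsGaussOver R V x) {P : R[X]}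
    (hP : P.map (residue R) = 0) : aeval x P ∈ V.nonunits := by
  rw [aeval_def, eval₂_eq_sum, Polynomial.sum, ValuationSubring.mem_nonunits_iff]
  refine Valuation.map_sum_lt _ one_ne_zero fun i _ => ?_
  rw [← ValuationSubring.mem_nonunits_iff, mul_comm]
  exact mul_mem_nonunits (pow_mem h.mem _)
    (h.isOver.nonunit _ ((map_residue_eq_zero_iff P).mp hP i))

/-- `V ∩ E = R`. -/
theorem IsOver.const_mem_iff (hV : IsOver R V) (c : E) :
    algebraMap E L c ∈ V ↔ ∃ r : R, algebraMap R E r = c := by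
  constructor
  · intro hc
    rcases ValuationRing.isInteger_or_isInteger R c with ⟨r, hr⟩ | ⟨r, hr⟩
    · exact ⟨r, hr⟩
    · by_cases hc0 : c = 0
      · exact ⟨0, by rw [map_zero, hc0]⟩
      by_cases hu : IsUnit r
      · obtain ⟨u, rfl⟩ := hu
        refine ⟨(↑u⁻¹ : R), ?_⟩
        have h1 : algebraMap R E (↑u⁻¹ : R) * algebraMap R E (u : R) = 1 := by
          rw [← map_mul, Units.inv_mul, map_one]
        have hr' : algebraMap R E (u : R) = c⁻¹ := hr
        rw [hr'] at h1
        field_simp at h1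
        exact h1
      · exfalso
        have hm : r ∈ maximalIdeal R := (IsLocalRing.mem_maximalIdeal r).mpr hu
        have h1 := hV.nonunit r hm
        have hr' : algebraMap R E r = c⁻¹ := hr
        rw [IsScalarTower.algebraMap_apply R E L, hr', map_inv₀] at h1
        have h2 := mul_mem_nonunits hc h1
        have hc0' : algebraMap E L c ≠ 0 := by
          rw [Ne, map_eq_zero]
          exact hc0
        rw [mul_inv_cancel₀ hc0', ValuationSubring.mem_nonunits_iff, map_one] at h2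
        exact lt_irrefl _ h2
  · rintro ⟨r, rfl⟩
    rw [← IsScalarTower.algebraMap_apply]
    exact hV.mem r

/-- `𝔪_V ∩ E = 𝔪_R`. -/
theorem IsOver.const_mem_nonunits_iff (hV : IsOver R V) (c : E) :
    algebraMap E L c ∈ V.nonunits ↔ ∃ r ∈ maximalIdeal R, algebraMap R E r = c := by
  constructor
  · intro hc
    obtain ⟨r, rfl⟩ := (hV.const_mem_iff c).mp (ValuationSubring.nonunits_subset hc)
    rw [← IsScalarTower.algebraMap_apply] at hc
    exact ⟨r, (hV.mem_nonunits_iff r).mp hc, rfl⟩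
  · rintro ⟨r, hr, rfl⟩
    rw [← IsScalarTower.algebraMap_apply]
    exact hV.nonunit r hr

/-- `V ∩ E(x)` in terms of Gauss normal forms. -/
theorem IsGaussOver.mem_iff (h : IsGaussOver R V x) {a : L} (ha : a ∈ E⟮x⟯) :
    a ∈ V ↔ ∃ P Q : R[X], Q.map (residue R) ≠ 0 ∧ a * aeval x Q = aeval x P := by
  constructor
  · intro haV
    by_cases ha0 : a = 0
    · exact ⟨0, 1, by rw [Polynomial.map_one]; exact one_ne_zero, by rw [ha0, zero_mul, map_zero]⟩
    obtain ⟨w, hw⟩ := IsDiscreteValuationRing.exists_irreducible R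
    obtain ⟨c, P, Q, -, hP, hQ, e⟩ := exists_normal_form_adjoin (E := E) hw x ha ha0
    have hc : algebraMap E L c ∈ V := by
      have h1 : algebraMap E L c = a * aeval x Q * (aeval x P)⁻¹ := by
        rw [e, mul_assoc, mul_inv_cancel₀ (h.aeval_ne_zero hP), mul_one]
      rw [h1]
      exact mul_mem (mul_mem haV (h.aeval_mem Q)) (h.inv_aeval_mem hP)
    obtain ⟨r, rfl⟩ := (h.isOver.const_mem_iff c).mp hc
    refine ⟨C r * P, Q, hQ, ?_⟩
    rw [e, map_mul, aeval_C, ← IsScalarTower.algebraMap_apply]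
  · rintro ⟨P, Q, hQ, e⟩
    have h1 : a = aeval x P * (aeval x Q)⁻¹ := by
      rw [← e, mul_assoc, mul_inv_cancel₀ (h.aeval_ne_zero hQ), mul_one]
    rw [h1]
    exact mul_mem (h.aeval_mem P) (h.inv_aeval_mem hQ)

/-- `𝔪_V ∩ E(x)` in terms of Gauss normal forms. -/
theorem IsGaussOver.mem_nonunits_iff (h : IsGaussOver R V x) {a : L} (ha : a ∈ E⟮x⟯) :
    a ∈ V.nonunits ↔ ∃ P Q : R[X], Q.map (residue R) ≠ 0 ∧ P.map (residue R) = 0 ∧
      a * aeval x Q = aeval x P := by
  constructor
  · intro haV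
    by_cases ha0 : a = 0
    · exact ⟨0, 1, by rw [Polynomial.map_one]; exact one_ne_zero, Polynomial.map_zero _,
        by rw [ha0, zero_mul, map_zero]⟩
    obtain ⟨w, hw⟩ := IsDiscreteValuationRing.exists_irreducible R
    obtain ⟨c, P, Q, -, hP, hQ, e⟩ := exists_normal_form_adjoin (E := E) hw x ha ha0
    have hc : algebraMap E L c ∈ V.nonunits := by
      have h1 : algebraMap E L c = aeval x Q * (aeval x P)⁻¹ * a := by
        rw [mul_comm _ a, ← mul_assoc, e, mul_assoc, mul_inv_cancel₀ (h.aeval_ne_zero hP),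
          mul_one]
      rw [h1]
      exact mul_mem_nonunits (mul_mem (h.aeval_mem Q) (h.inv_aeval_mem hP)) haV
    obtain ⟨r, hr, rfl⟩ := (h.isOver.const_mem_nonunits_iff c).mp hc
    refine ⟨C r * P, Q, hQ, ?_, ?_⟩
    · rw [Polynomial.map_mul, map_C, (residue_eq_zero_iff r).mpr hr, C_0, zero_mul]
    · rw [e, map_mul, aeval_C, ← IsScalarTower.algebraMap_apply]
  · rintro ⟨P, Q, hQ, hP, e⟩
    have h1 : a = (aeval x Q)⁻¹ * aeval x P := by
      rw [← e, mul_comm a, ← mul_assoc, inv_mul_cancel₀ (h.aeval_ne_zero hQ), one_mul]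
    rw [h1]
    exact mul_mem_nonunits (h.inv_aeval_mem hQ) (h.aeval_mem_nonunits hP)

/-- Two valuation subrings inducing the Gauss valuation agree on `E(x)`. -/
theorem IsGaussOver.mem_iff_mem {V' : ValuationSubring L} (h : IsGaussOver R V x)
    (h' : IsGaussOver R V' x) {a : L} (ha : a ∈ E⟮x⟯) : a ∈ V ↔ a ∈ V' := by
  rw [h.mem_iff (E := E) ha, h'.mem_iff (E := E) ha]

theorem IsGaussOver.mem_nonunits_iff_mem {V' : ValuationSubring L} (h : IsGaussOver R V x)
    (h' : IsGaussOver R V' x) {a : L} (ha : a ∈ E⟮x⟯) : a ∈ V.nonunits ↔ a ∈ V'.nonunits := by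
  rw [h.mem_nonunits_iff (E := E) ha, h'.mem_nonunits_iff (E := E) ha]

end Gauss

end Fermat.Agent.A2.H489

end
-- ===== PACK-END A2/H489/GaussFrameA.lean

-- ===== PACK-BEGIN A2/H489/GaussFrameB.lean
section


/-!
# A2 / M1mod-FRAME part B (helper489): the Gauss ring of `E(x)` and `TwoExtHyp`

`R` a discrete valuation ring, `E = Frac R`, `L ⊇ E` a field, `x ∈ L`, `V` a valuation subring of
`L` inducing the Gauss valuation on `E(x)` (`IsGaussOver R V x`).

* `gaussRing E V x = V ∩ E(x)` as a valuation subring of `E(x)`;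
* `IsGaussOver.isDiscreteValuationRing` : it is a discrete valuation ring (uniformiser = that of
  `R`);
* `PolyIndepMod R V x u` : the family `u` is independent over `R[x]` modulo `𝔪_V`
  (`∑ Pᵢ(x) uᵢ ∈ 𝔪_V ⟹ Pᵢ ∈ 𝔪_R[X]`);
* `twoExtHyp_of_gauss` : two distinct valuation subrings `V₁, V₂` inducing the Gauss valuation,
  with `PolyIndepMod` families of sizes `f₁, f₂`, `[L : E(x)] ≤ f₁ + f₂`, satisfy
  `TwoExtHyp E(x) (gaussRing E V₁ x) V₁ V₂ u₁ u₂`.
-/

set_option autoImplicit false

namespace Fermat.Agent.A2.H489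

open IsLocalRing Polynomial IntermediateField

section Frame

variable {R E L : Type*} [CommRing R] [IsDomain R] [IsDiscreteValuationRing R]
  [Field E] [Algebra R E] [IsFractionRing R E]
  [Field L] [Algebra E L] [Algebra R L] [IsScalarTower R E L]

/-- The Gauss ring `V ∩ E(x)` as a valuation subring of `E(x)`. -/
def gaussRing (E : Type*) {L : Type*} [Field E] [Field L] [Algebra E L]
    (V : ValuationSubring L) (x : L) : ValuationSubring E⟮x⟯ :=
  V.comap (algebraMap E⟮x⟯ L)

omit [IsDomain R] [IsDiscreteValuationRing R] [Algebra R E] [IsFractionRing R E] [Algebra R L]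
  [IsScalarTower R E L] [CommRing R] in
theorem mem_gaussRing {V : ValuationSubring L} {x : L} (a : E⟮x⟯) :
    a ∈ gaussRing E V x ↔ (a : L) ∈ V := Iff.rfl

omit [IsDomain R] [IsDiscreteValuationRing R] [Algebra R E] [IsFractionRing R E] [Algebra R L]
  [IsScalarTower R E L] [CommRing R] in
theorem mem_nonunits_gaussRing {V : ValuationSubring L} {x : L} (a : E⟮x⟯) :
    a ∈ (gaussRing E V x).nonunits ↔ (a : L) ∈ V.nonunits := by
  rw [ValuationSubring.mem_nonunits_iff_or, ValuationSubring.mem_nonunits_iff_or, mem_gaussRing]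
  simp

omit [IsDomain R] [IsDiscreteValuationRing R] [Algebra R E] [IsFractionRing R E] [Algebra R L]
  [IsScalarTower R E L] [CommRing R] in
theorem mem_maximalIdeal_gaussRing {V : ValuationSubring L} {x : L} (a : gaussRing E V x) :
    a ∈ maximalIdeal (gaussRing E V x) ↔ ((a : E⟮x⟯) : L) ∈ V.nonunits := by
  rw [← ValuationSubring.coe_mem_nonunits_iff, mem_nonunits_gaussRing]

variable {V : ValuationSubring L} {x : L}

/-- every nonzero element of `V ∩ E(x)` is a power of the uniformiser times a unit -/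
theorem IsGaussOver.exists_pow_mul_unit (h : IsGaussOver R V x) {w : R} (hw : Irreducible w)
    {a : L} (ha : a ∈ E⟮x⟯) (ha0 : a ≠ 0) (haV : a ∈ V) :
    ∃ (n : ℕ) (u : L), u ∈ E⟮x⟯ ∧ u ∈ V ∧ u⁻¹ ∈ V ∧ a = algebraMap R L w ^ n * u := by
  obtain ⟨c, P, Q, hc0, hP, hQ, e⟩ := exists_normal_form_adjoin (E := E) hw x ha ha0
  have hc : algebraMap E L c ∈ V := by
    have h1 : algebraMap E L c = a * aeval x Q * (aeval x P)⁻¹ := by
      rw [e, mul_assoc, mul_inv_cancel₀ (h.aeval_ne_zero hP), mul_one]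
    rw [h1]
    exact mul_mem (mul_mem haV (h.aeval_mem Q)) (h.inv_aeval_mem hP)
  obtain ⟨r, rfl⟩ := (h.isOver.const_mem_iff c).mp hc
  have hr0 : r ≠ 0 := by
    rintro rfl
    exact hc0 (map_zero _)
  obtain ⟨n, hn⟩ := IsDiscreteValuationRing.associated_pow_irreducible hr0 hw
  obtain ⟨t, ht⟩ := hn.symm
  -- `w ^ n * t = r`
  have hw0 : algebraMap R L w ≠ 0 := algebraMap_RL_ne_zero E hw.ne_zero
  have hwK : algebraMap R L w ∈ E⟮x⟯ := by
    rw [IsScalarTower.algebraMap_apply R E L]
    exact IntermediateField.algebraMap_mem _ _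
  refine ⟨n, algebraMap R L (t : R) * aeval x P * (aeval x Q)⁻¹, ?_, ?_, ?_, ?_⟩
  · have h1 : algebraMap R L (t : R) * aeval x P * (aeval x Q)⁻¹
        = a * (algebraMap R L w ^ n)⁻¹ := by
      have h2 : a = algebraMap R L r * aeval x P * (aeval x Q)⁻¹ := by
        rw [IsScalarTower.algebraMap_apply R E L, ← e, mul_assoc,
          mul_inv_cancel₀ (h.aeval_ne_zero hQ), mul_one]
      rw [h2, ← ht, map_mul, map_pow]
      field_simp
    rw [h1]
    exact mul_mem ha (inv_mem (pow_mem hwK n))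
  · exact mul_mem (mul_mem (h.isOver.mem _) (h.aeval_mem P)) (h.inv_aeval_mem hQ)
  · have h1 : (algebraMap R L (t : R) * aeval x P * (aeval x Q)⁻¹)⁻¹
        = algebraMap R L ((t⁻¹ : Rˣ) : R) * aeval x Q * (aeval x P)⁻¹ := by
      have h3 : algebraMap R L (t : R) * algebraMap R L ((t⁻¹ : Rˣ) : R) = 1 := by
        rw [← map_mul, Units.mul_inv, map_one]
      have h5 := h.aeval_ne_zero hP
      have h6 := h.aeval_ne_zero hQ
      apply inv_eq_of_mul_eq_one_right
      calc algebraMap R L (t : R) * aeval x P * (aeval x Q)⁻¹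
            * (algebraMap R L ((t⁻¹ : Rˣ) : R) * aeval x Q * (aeval x P)⁻¹)
          = (algebraMap R L (t : R) * algebraMap R L ((t⁻¹ : Rˣ) : R))
            * (aeval x P * (aeval x P)⁻¹) * ((aeval x Q)⁻¹ * aeval x Q) := by ring
        _ = 1 := by rw [h3, mul_inv_cancel₀ h5, inv_mul_cancel₀ h6, one_mul, one_mul]
    rw [h1]
    exact mul_mem (mul_mem (h.isOver.mem _) (h.aeval_mem Q)) (h.inv_aeval_mem hP)
  · rw [← mul_assoc, ← mul_assoc, ← map_pow, ← map_mul, ht, IsScalarTower.algebraMap_apply R E L,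
      ← e, mul_assoc, mul_inv_cancel₀ (h.aeval_ne_zero hQ), mul_one]

/-- a nonunit of `V ∩ E(x)` is divisible by the uniformiser of `R` in `V ∩ E(x)` -/
theorem IsGaussOver.exists_mul_of_mem_nonunits (h : IsGaussOver R V x) {w : R}
    (hw : Irreducible w) {a : L} (ha : a ∈ E⟮x⟯) (haV : a ∈ V.nonunits) :
    ∃ a' : L, a' ∈ E⟮x⟯ ∧ a' ∈ V ∧ a = algebraMap R L w * a' := by
  obtain ⟨P, Q, hQ, hP, e⟩ := (h.mem_nonunits_iff (E := E) ha).mp haV
  obtain ⟨P', rfl⟩ := exists_eq_C_mul_of_map_residue_eq_zero hw hP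
  have hw0 : algebraMap R L w ≠ 0 := algebraMap_RL_ne_zero E hw.ne_zero
  have hwK : algebraMap R L w ∈ E⟮x⟯ := by
    rw [IsScalarTower.algebraMap_apply R E L]
    exact IntermediateField.algebraMap_mem _ _
  have h1 : a = algebraMap R L w * (aeval x P' * (aeval x Q)⁻¹) := by
    rw [← mul_assoc, ← aeval_C (A := L) x w, ← map_mul, ← e, mul_assoc,
      mul_inv_cancel₀ (h.aeval_ne_zero hQ), mul_one]
  refine ⟨aeval x P' * (aeval x Q)⁻¹, ?_, mul_mem (h.aeval_mem P') (h.inv_aeval_mem hQ), h1⟩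
  have h2 : aeval x P' * (aeval x Q)⁻¹ = (algebraMap R L w)⁻¹ * a := by
    rw [h1, ← mul_assoc, inv_mul_cancel₀ hw0, one_mul]
  rw [h2]
  exact mul_mem (inv_mem hwK) ha

/-- The Gauss ring `V ∩ E(x)` is a discrete valuation ring. -/
theorem IsGaussOver.isDiscreteValuationRing (h : IsGaussOver R V x) :
    IsDiscreteValuationRing (gaussRing E V x) := by
  obtain ⟨w, hw⟩ := IsDiscreteValuationRing.exists_irreducible R
  have hw0 : algebraMap R L w ≠ 0 := algebraMap_RL_ne_zero E hw.ne_zero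
  have hwK : algebraMap R L w ∈ E⟮x⟯ := by
    rw [IsScalarTower.algebraMap_apply R E L]
    exact IntermediateField.algebraMap_mem _ _
  have hwmax : w ∈ maximalIdeal R := by
    rw [IsLocalRing.mem_maximalIdeal, _root_.mem_nonunits_iff]
    exact hw.not_isUnit
  let p : gaussRing E V x := ⟨⟨algebraMap R L w, hwK⟩, h.isOver.mem w⟩
  have hp0 : p ≠ 0 := by
    intro h0
    apply hw0
    have := congrArg (fun z : gaussRing E V x => ((z : E⟮x⟯) : L)) h0
    exact this
  have hpmax : p ∈ maximalIdeal (gaussRing E V x) := by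
    rw [mem_maximalIdeal_gaussRing]
    exact h.isOver.nonunit w hwmax
  have hdiv : ∀ a ∈ maximalIdeal (gaussRing E V x), ∃ a' : gaussRing E V x, a = p * a' := by
    intro a ha
    rw [mem_maximalIdeal_gaussRing] at ha
    obtain ⟨a', ha'K, ha'V, e⟩ := h.exists_mul_of_mem_nonunits (E := E) hw (a : E⟮x⟯).2 ha
    exact ⟨⟨⟨a', ha'K⟩, ha'V⟩, Subtype.ext (Subtype.ext e)⟩
  apply IsDiscreteValuationRing.ofHasUnitMulPowIrreducibleFactorization
  refine ⟨p, ?_, ?_⟩
  · rw [irreducible_iff]
    refine ⟨fun hu => (IsLocalRing.mem_maximalIdeal p).mp hpmax hu, ?_⟩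
    intro a b hab
    by_contra hcon
    push Not at hcon
    obtain ⟨hna, hnb⟩ := hcon
    obtain ⟨a', ha'⟩ := hdiv a ((IsLocalRing.mem_maximalIdeal a).mpr hna)
    rw [ha', mul_assoc] at hab
    have h1 : a' * b = 1 := by
      have h2 : p * 1 = p * (a' * b) := by rw [mul_one]; exact hab
      exact (mul_left_cancel₀ hp0 h2).symm
    exact hnb (IsUnit.of_mul_eq_one a' (by rw [mul_comm]; exact h1))
  · intro a ha0
    have ha0' : ((a : E⟮x⟯) : L) ≠ 0 := by
      intro h0
      apply ha0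
      exact Subtype.ext (Subtype.ext h0)
    obtain ⟨n, u, huK, huV, huV', e⟩ :=
      h.exists_pow_mul_unit (E := E) hw (a : E⟮x⟯).2 ha0' a.2
    have hu0 : u ≠ 0 := by
      rintro rfl
      rw [mul_zero] at e
      exact ha0' e
    let U : (gaussRing E V x)ˣ :=
      ⟨⟨⟨u, huK⟩, huV⟩, ⟨⟨u⁻¹, inv_mem huK⟩, huV'⟩,
        Subtype.ext (Subtype.ext (mul_inv_cancel₀ hu0)),
        Subtype.ext (Subtype.ext (inv_mul_cancel₀ hu0))⟩
    refine ⟨n, U, ?_⟩
    apply Subtype.ext
    apply Subtype.ext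
    exact e.symm

end Frame

section Indep

/-- The family `u` is independent over `R[x]` modulo the maximal ideal of `V`:
`∑ Pᵢ(x) uᵢ ∈ 𝔪_V ⟹ Pᵢ ∈ 𝔪_R[X]` for all `i`. -/
def PolyIndepMod (R : Type*) {L : Type*} [CommRing R] [IsLocalRing R] [Field L] [Algebra R L]
    (V : ValuationSubring L) (x : L) {f : ℕ} (u : Fin f → L) : Prop :=
  ∀ P : Fin f → R[X], (∑ i, aeval x (P i) * u i) ∈ V.nonunits →
    ∀ i, (P i).map (residue R) = 0

variable {R E L : Type*} [CommRing R] [IsDomain R] [IsDiscreteValuationRing R]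
  [Field E] [Algebra R E] [IsFractionRing R E]
  [Field L] [Algebra E L] [Algebra R L] [IsScalarTower R E L]
  {V : ValuationSubring L} {x : L} {f : ℕ} {u : Fin f → L}

omit [IsDomain R] [IsDiscreteValuationRing R] in
/-- a nonempty `PolyIndepMod` family of elements of `V` forces the Gauss valuation on `E(x)` -/
theorem IsGaussOver.of_polyIndepMod [IsLocalRing R] (hV : IsOver R V) (hx : x ∈ V) (hf : 0 < f)
    (hu : ∀ i, u i ∈ V) (hI : PolyIndepMod R V x u) : IsGaussOver R V x where
  isOver := hV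
  mem := hx
  prim := by
    intro P hP
    classical
    have key := hI (fun i => if i = ⟨0, hf⟩ then P else 0) ?_ ⟨0, hf⟩
    · simpa using key
    · rw [Finset.sum_eq_single (⟨0, hf⟩ : Fin f)]
      · rw [if_pos rfl, mul_comm]
        exact mul_mem_nonunits (hu _) hP
      · intro i _ hi
        rw [if_neg hi, map_zero, zero_mul]
      · intro h0
        exact absurd (Finset.mem_univ _) h0

/-- `PolyIndepMod` implies independence over the Gauss ring `V ∩ E(x)` modulo `𝔪_V`. -/
theorem IsGaussOver.indep_of_polyIndepMod (h : IsGaussOver R V x) (hI : PolyIndepMod R V x u)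
    (a : Fin f → L) (haK : ∀ i, a i ∈ E⟮x⟯) (haV : ∀ i, a i ∈ V)
    (hsum : (∑ i, a i * u i) ∈ V.nonunits) : ∀ i, a i ∈ V.nonunits := by
  classical
  have hex : ∀ i, ∃ P Q : R[X], Q.map (residue R) ≠ 0 ∧ a i * aeval x Q = aeval x P :=
    fun i => (h.mem_iff (E := E) (haK i)).mp (haV i)
  choose P Q hQ e using hex
  -- multiply by the common denominator
  have hD : (∏ l, aeval x (Q l)) ∈ V := prod_mem fun l _ => h.aeval_mem (Q l)
  have h1 : (∏ l, aeval x (Q l)) * ∑ i, a i * u i
      = ∑ i, aeval x (P i * ∏ l ∈ Finset.univ.erase i, Q l) * u i := by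
    rw [Finset.mul_sum]
    refine Finset.sum_congr rfl fun i _ => ?_
    rw [← Finset.mul_prod_erase Finset.univ (fun l => aeval x (Q l)) (Finset.mem_univ i),
      map_mul, map_prod, ← e i]
    ring
  have h2 := hI (fun i => P i * ∏ l ∈ Finset.univ.erase i, Q l)
    (by rw [← h1]; exact mul_mem_nonunits hD hsum)
  intro i
  have h3 := h2 i
  rw [Polynomial.map_mul, Polynomial.map_prod] at h3
  have h4 : (∏ l ∈ Finset.univ.erase i, (Q l).map (residue R)) ≠ 0 :=
    Finset.prod_ne_zero_iff.mpr fun l _ => hQ l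
  have h5 : (P i).map (residue R) = 0 := (mul_eq_zero.mp h3).resolve_right h4
  exact (h.mem_nonunits_iff (E := E) (haK i)).mpr ⟨P i, Q i, hQ i, h5, e i⟩

/-- **FRAME.** Two distinct valuation subrings of `L` inducing the Gauss valuation on `E(x)`,
with `R[x]`-independent families modulo the maximal ideals of total size `≥ [L : E(x)]`,
satisfy the hypotheses `TwoExtHyp` over the Gauss ring of `E(x)`. -/
theorem twoExtHyp_of_gauss {V₁ V₂ : ValuationSubring L}
    (h₁ : IsGaussOver R V₁ x) (h₂ : IsGaussOver R V₂ x) (hne : V₁ ≠ V₂)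
    {f₁ f₂ : ℕ} {u₁ : Fin f₁ → L} {u₂ : Fin f₂ → L}
    (hu₁ : ∀ i, u₁ i ∈ V₁) (hu₂ : ∀ i, u₂ i ∈ V₂)
    (hI₁ : PolyIndepMod R V₁ x u₁) (hI₂ : PolyIndepMod R V₂ x u₂)
    (hdeg : Module.finrank E⟮x⟯ L ≤ f₁ + f₂)
    [IsDiscreteValuationRing (gaussRing E V₁ x)] :
    TwoExtHyp E⟮x⟯ (gaussRing E V₁ x) V₁ V₂ u₁ u₂ where
  over₁ :=
    { mem := fun a => a.2
      nonunit := fun a ha => (mem_maximalIdeal_gaussRing a).mp ha }
  over₂ :=
    { mem := fun a => (h₁.mem_iff_mem (E := E) h₂ (a : E⟮x⟯).2).mp a.2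
      nonunit := fun a ha =>
        (h₁.mem_nonunits_iff_mem (E := E) h₂ (a : E⟮x⟯).2).mp
          ((mem_maximalIdeal_gaussRing a).mp ha) }
  ne := hne
  deg := hdeg
  mem₁ := hu₁
  mem₂ := hu₂
  indep₁ := by
    intro a hsum i
    rw [mem_maximalIdeal_gaussRing]
    exact h₁.indep_of_polyIndepMod (E := E) hI₁ (fun i => ((a i : E⟮x⟯) : L))
      (fun i => (a i : E⟮x⟯).2) (fun i => (a i).2) hsum i
  indep₂ := by
    intro a hsum i
    rw [mem_maximalIdeal_gaussRing]
    refine (h₁.mem_nonunits_iff_mem (E := E) h₂ (a i : E⟮x⟯).2).mpr ?_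
    exact h₂.indep_of_polyIndepMod (E := E) hI₂ (fun i => ((a i : E⟮x⟯) : L))
      (fun i => (a i : E⟮x⟯).2)
      (fun i => (h₁.mem_iff_mem (E := E) h₂ (a i : E⟮x⟯).2).mp (a i).2) hsum i

end Indep

end Fermat.Agent.A2.H489

end
-- ===== PACK-END A2/H489/GaussFrameB.lean

-- ===== PACK-BEGIN A2/Mod/H13/Frame.lean
section





/-!
# WALL A2 / MODASM, S1 part 1 (helper13): from the leaves to helper489's FRAME

Level `N = M * q`, coordinate `x = j · j_q`, `V = V∞` (`IsVinf`), `V₀ = V.comap W` (`IsFricke`).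
From the leaves L2 (`H553.vinfBasic`, main), L3 (`H816.vinfGauss`, main), L6, L8, L9, L10
(hypotheses) we produce the hypotheses of `H489.twoExtHyp_of_gauss`:

* `isOver_of_isVinf`, `isOver_comap`        : `V`, `V₀` lie over `R_E`;
* `isGaussOver_of_polar`                    : `IsGaussOver R V u` for every polar `u ∈ F_N`;
* `isGaussOver_xE`, `isGaussOver_comap_xE`  : the Gauss property of `V`, `V₀` for `x`;
* `polyIndepMod_of_indepMod`                : `Mod.IndepMod ⟹ H489.PolyIndepMod`;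
* `twoExtHyp_of_leaves`                     : `H489.TwoExtHyp E(x) (V ∩ E(x)) V V₀ b c`.
-/

set_option autoImplicit false
set_option linter.unusedSectionVars false
set_option linter.style.haveILetI false
set_option synthInstance.maxHeartbeats 400000
set_option maxHeartbeats 1600000

noncomputable section

namespace Fermat.Agent.A2.Mod.H13

open ModularCurve HahnSeries Polynomial IntermediateField
open Fermat.Agent.A2 Fermat.Agent.A2.Mod

variable (P : ValuationSubring _root_.Fermat.Agent.A2.Mod.Qb) (E : IntermediateField ℚ _root_.Fermat.Agent.A2.Mod.Qb)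

/-! ### Integer series with a pole of exact order -/

/-- An integer Laurent series is *polar of order `a`*: lowest term `t^(-a)` with coefficient `1`. -/
def IsPolarInt (g : LaurentSeries ℤ) (a : ℕ) : Prop :=
  (∀ n : ℤ, n < -(a : ℤ) → g.coeff n = 0) ∧ g.coeff (-(a : ℤ)) = 1

theorem IsPolarInt.order {g : LaurentSeries ℤ} {a : ℕ} (h : IsPolarInt g a) :
    g.order = -(a : ℤ) := by
  have h1 : g.coeff (-(a : ℤ)) ≠ 0 := by rw [h.2]; exact one_ne_zero
  have hg : g ≠ 0 := by
    rintro rfl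
    exact h1 (by simp)
  apply le_antisymm
  · exact order_le_of_coeff_ne_zero h1
  · by_contra hlt
    exact (HahnSeries.coeff_order_eq_zero.not.mpr hg) (h.1 _ (not_le.mp hlt))

theorem IsPolarInt.mul {g g' : LaurentSeries ℤ} {a a' : ℕ} (h : IsPolarInt g a)
    (h' : IsPolarInt g' a') : IsPolarInt (g * g') (a + a') := by
  have hg : g ≠ 0 := by
    rintro rfl
    have := h.2
    simp at this
  have hg' : g' ≠ 0 := by
    rintro rfl
    have := h'.2
    simp at this
  have hord : (g * g').order = -((a + a' : ℕ) : ℤ) := by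
    rw [HahnSeries.order_mul hg hg', h.order, h'.order]
    push_cast
    ring
  refine ⟨fun n hn => ?_, ?_⟩
  · apply HahnSeries.coeff_eq_zero_of_lt_order
    rw [hord]
    exact hn
  · have key := HahnSeries.coeff_mul_order_add_order g g'
    rw [HahnSeries.leadingCoeff_eq, HahnSeries.leadingCoeff_eq, h.order, h'.order, h.2, h'.2,
      mul_one] at key
    rw [← key]
    congr 1
    push_cast
    ring

theorem isPolarInt_jInt (d : ℕ) [NeZero d] : IsPolarInt (H708.jInt d) d := by
  refine ⟨fun n hn => ?_, H553.coeff_jInt_top d⟩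
  rw [H708.jInt, jqNModC]
  by_cases hdn : (d : ℤ) ∣ n
  · obtain ⟨k, rfl⟩ := hdn
    rw [qExpand_coeff_mul]
    apply coeff_jqModC_of_lt
    have hd : (0 : ℤ) < d := by exact_mod_cast Nat.pos_of_ne_zero (NeZero.ne d)
    by_contra hk
    have hk' : -1 ≤ k := not_lt.mp hk
    have : -(d : ℤ) ≤ (d : ℤ) * k := by nlinarith
    omega
  · exact qExpand_coeff_of_not_dvd d _ hdn

/-! ### `V∞` and `V₀` lie over `R_E` -/

section Over

variable {P E} {N : ℕ} [IsDiscreteValuationRing (_root_.Fermat.Agent.A2.Mod.RE P E)]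

theorem algebraMap_RE_eq (r : _root_.Fermat.Agent.A2.Mod.RE P E) :
    algebraMap (_root_.Fermat.Agent.A2.Mod.RE P E) (_root_.Fermat.Agent.A2.Mod.FE E N) r = algebraMap E (_root_.Fermat.Agent.A2.Mod.FE E N) (r : E) := rfl

theorem isOver_of_isVinf {V : ValuationSubring (_root_.Fermat.Agent.A2.Mod.FE E N)} (hV : IsVinf P E N V) :
    H489.IsOver (_root_.Fermat.Agent.A2.Mod.RE P E) V where
  mem := fun r => (H553.algebraMap_mem_iff P E hV (r : E)).mpr r.2
  nonunit := fun r hr => by
    rw [ValuationSubring.mem_nonunits_iff_or]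
    by_cases h0 : r = 0
    · left
      rw [h0, map_zero]
    · right
      intro hmem
      have hr0 : (r : E) ≠ 0 := fun h => h0 (Subtype.ext h)
      have e : (algebraMap (_root_.Fermat.Agent.A2.Mod.RE P E) (_root_.Fermat.Agent.A2.Mod.FE E N) r)⁻¹ = algebraMap E (_root_.Fermat.Agent.A2.Mod.FE E N) ((r : E)⁻¹) := by
        rw [algebraMap_RE_eq, map_inv₀]
      rw [e, H553.algebraMap_mem_iff P E hV] at hmem
      have hu : IsUnit r :=
        isUnit_iff_exists_inv.mpr ⟨⟨_, hmem⟩, Subtype.ext (mul_inv_cancel₀ hr0)⟩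
      exact (IsLocalRing.mem_maximalIdeal r).mp hr hu

/-- Nonunits of the pull-back of a valuation ring along an automorphism. -/
theorem mem_nonunits_comap {F : Type*} [Field F] (V : ValuationSubring F) (W : F →+* F) (f : F) :
    f ∈ (V.comap W).nonunits ↔ W f ∈ V.nonunits := by
  rw [ValuationSubring.mem_nonunits_iff_or, ValuationSubring.mem_nonunits_iff_or,
    ValuationSubring.mem_comap]
  constructor
  · rintro (h | h)
    · left
      rw [h, map_zero]
    · right
      intro h'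
      apply h
      show W f⁻¹ ∈ V
      rw [map_inv₀]
      exact h'
  · rintro (h | h)
    · left
      exact (map_eq_zero W).mp h
    · right
      intro h'
      apply h
      have h'' : W f⁻¹ ∈ V := h'
      rwa [map_inv₀] at h''

theorem isOver_comap {V : ValuationSubring (_root_.Fermat.Agent.A2.Mod.FE E N)} (hV : IsVinf P E N V)
    (W : _root_.Fermat.Agent.A2.Mod.FE E N ≃ₐ[E] _root_.Fermat.Agent.A2.Mod.FE E N) :
    H489.IsOver (_root_.Fermat.Agent.A2.Mod.RE P E) (V.comap (W : _root_.Fermat.Agent.A2.Mod.FE E N →+* _root_.Fermat.Agent.A2.Mod.FE E N)) where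
  mem := fun r => by
    rw [ValuationSubring.mem_comap]
    show W (algebraMap (_root_.Fermat.Agent.A2.Mod.RE P E) (_root_.Fermat.Agent.A2.Mod.FE E N) r) ∈ V
    rw [algebraMap_RE_eq, W.commutes]
    exact (isOver_of_isVinf hV).mem r
  nonunit := fun r hr => by
    rw [mem_nonunits_comap]
    show W (algebraMap (_root_.Fermat.Agent.A2.Mod.RE P E) (_root_.Fermat.Agent.A2.Mod.FE E N) r) ∈ V.nonunits
    rw [algebraMap_RE_eq, W.commutes]
    exact (isOver_of_isVinf hV).nonunit r hr

end Over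

/-! ### The Gauss property for polar elements -/

section Gauss

variable {P E} {N : ℕ} [IsDiscreteValuationRing (_root_.Fermat.Agent.A2.Mod.RE P E)]

variable (E N) in
/-- `u ∈ F_N` is *polar of order `a`*: its `t`-expansion is an integer series with lowest term
`t^(-a)`. -/
def IsPolar (u : _root_.Fermat.Agent.A2.Mod.FE E N) (a : ℕ) : Prop :=
  ∃ g : LaurentSeries ℤ, IsPolarInt g a ∧ (u : LaurentSeries E) = coeffEmb E (H708.castQ g)

theorem IsPolar.mul {u u' : _root_.Fermat.Agent.A2.Mod.FE E N} {a a' : ℕ} (h : IsPolar E N u a) (h' : IsPolar E N u' a') :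
    IsPolar E N (u * u') (a + a') := by
  obtain ⟨g, hg, e⟩ := h
  obtain ⟨g', hg', e'⟩ := h'
  refine ⟨g * g', hg.mul hg', ?_⟩
  rw [map_mul, map_mul, ← e, ← e']
  rfl

theorem isPolar_jE (d : ℕ) [NeZero d] (hd : d ∣ N) : IsPolar E N (jE E N d hd) d :=
  ⟨H708.jInt d, isPolarInt_jInt d, H553.coe_jE N d hd⟩

theorem ev_eq_aeval (u : _root_.Fermat.Agent.A2.Mod.FE E N) (p : Polynomial (_root_.Fermat.Agent.A2.Mod.RE P E)) : ev P E N u p = aeval u p := rfl

theorem not_C_dvd_of_map_ne_zero {w : _root_.Fermat.Agent.A2.Mod.RE P E} (hw : Irreducible w) {p : Polynomial (_root_.Fermat.Agent.A2.Mod.RE P E)}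
    (hp : p.map (IsLocalRing.residue (_root_.Fermat.Agent.A2.Mod.RE P E)) ≠ 0) : ¬ Polynomial.C w ∣ p := by
  rintro ⟨Q, rfl⟩
  apply hp
  rw [Polynomial.map_mul, Polynomial.map_C]
  have : IsLocalRing.residue (_root_.Fermat.Agent.A2.Mod.RE P E) w = 0 := by
    rw [IsLocalRing.residue_eq_zero_iff]
    exact (IsLocalRing.mem_maximalIdeal w).mpr hw.not_isUnit
  rw [this, map_zero, zero_mul]

/-- **Gauss property** of `V∞` for a polar element. -/
theorem isGaussOver_of_polar {V : ValuationSubring (_root_.Fermat.Agent.A2.Mod.FE E N)} (hV : IsVinf P E N V)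
    {w : _root_.Fermat.Agent.A2.Mod.RE P E} (hw : Irreducible w) (hN : N ≠ 0) {u : _root_.Fermat.Agent.A2.Mod.FE E N} {a : ℕ} (ha : 0 < a)
    (hu : IsPolar E N u a) (htr : Transcendental (_root_.Fermat.Agent.A2.Mod.RE P E) u) :
    H489.IsGaussOver (_root_.Fermat.Agent.A2.Mod.RE P E) V u where
  isOver := isOver_of_isVinf hV
  mem := by
    obtain ⟨g, -, e⟩ := hu
    exact H553.mem_of_int hV e
  prim := by
    intro p hp
    by_contra hne
    obtain ⟨g, hg, e⟩ := hu
    have hp0 : p ≠ 0 := by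
      rintro rfl
      exact hne (Polynomial.map_zero _)
    have h3 := H816.vinfGauss P E w N hN inferInstance hw V hV u (H708.castA (_root_.Fermat.Agent.A2.Mod.RE P E) g) a ha
      (by rw [e]; exact H553.coeffEmb_castQ (P := P) g)
      (fun n hn => by
        show ((g.coeff n : ℤ) : _root_.Fermat.Agent.A2.Mod.RE P E) = 0
        rw [hg.1 n hn, Int.cast_zero])
      (by
        have : (H708.castA (_root_.Fermat.Agent.A2.Mod.RE P E) g).coeff (-(a : ℤ)) = 1 := by
          show ((g.coeff (-(a : ℤ)) : ℤ) : _root_.Fermat.Agent.A2.Mod.RE P E) = 1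
          rw [hg.2, Int.cast_one]
        rw [this]
        exact isUnit_one)
      p (not_C_dvd_of_map_ne_zero hw hne)
    rw [ev_eq_aeval] at h3
    rcases (ValuationSubring.mem_nonunits_iff_or V).mp hp with h0 | h0
    · exact htr ⟨p, hp0, h0⟩
    · exact h0 h3.2

/-- transport of the Gauss property along an `E`-automorphism. -/
theorem isGaussOver_comap {V : ValuationSubring (_root_.Fermat.Agent.A2.Mod.FE E N)} (hV : IsVinf P E N V)
    (W : _root_.Fermat.Agent.A2.Mod.FE E N ≃ₐ[E] _root_.Fermat.Agent.A2.Mod.FE E N) {u : _root_.Fermat.Agent.A2.Mod.FE E N} (h : H489.IsGaussOver (_root_.Fermat.Agent.A2.Mod.RE P E) V (W u)) :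
    H489.IsGaussOver (_root_.Fermat.Agent.A2.Mod.RE P E) (V.comap (W : _root_.Fermat.Agent.A2.Mod.FE E N →+* _root_.Fermat.Agent.A2.Mod.FE E N)) u where
  isOver := isOver_comap hV W
  mem := h.mem
  prim := by
    intro p hp
    apply h.prim p
    rw [mem_nonunits_comap] at hp
    have e : W (aeval u p) = aeval (W u) p := by
      have := Polynomial.aeval_algHom_apply (W.toAlgHom.restrictScalars (_root_.Fermat.Agent.A2.Mod.RE P E)) u p
      exact this.symm
    rw [← e]
    exact hp

theorem transcendental_RE {u : _root_.Fermat.Agent.A2.Mod.FE E N} (h : Transcendental E u) : Transcendental (_root_.Fermat.Agent.A2.Mod.RE P E) u :=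
  h.restrictScalars (fun a b hab => Subtype.ext hab)

theorem transcendental_algEquiv (W : _root_.Fermat.Agent.A2.Mod.FE E N ≃ₐ[E] _root_.Fermat.Agent.A2.Mod.FE E N) {u : _root_.Fermat.Agent.A2.Mod.FE E N}
    (h : Transcendental E u) : Transcendental E (W u) := by
  rintro ⟨p, hp0, hp⟩
  apply h
  refine ⟨p, hp0, ?_⟩
  have e := Polynomial.aeval_algHom_apply W.toAlgHom u p
  have e' : W (aeval u p) = 0 := by
    rw [← hp]
    exact e.symm
  exact (map_eq_zero_iff W W.injective).mp e'

end Gauss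

/-! ### The coordinate `x = j · j_q` -/

section Coordinate

variable {P E} (M q : ℕ) [NeZero M] [NeZero q] [IsDiscreteValuationRing (_root_.Fermat.Agent.A2.Mod.RE P E)]

theorem isPolar_xE : IsPolar E (M * q) (xE E M q) (1 + q) :=
  (isPolar_jE 1 (one_dvd _)).mul (isPolar_jE q (dvd_mul_left q M))

theorem isPolar_fricke_xE {W : _root_.Fermat.Agent.A2.Mod.FE E (M * q) ≃ₐ[E] _root_.Fermat.Agent.A2.Mod.FE E (M * q)} (hW : IsFricke E (M * q) W) :
    IsPolar E (M * q) (W (xE E M q)) (M * q + M) := by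
  have h1 : W (jE E (M * q) 1 (one_dvd _)) = jE E (M * q) (M * q) (dvd_refl _) :=
    hW.1 1 (M * q) (one_dvd _) (dvd_refl _) (one_mul _)
  have h2 : W (jE E (M * q) q (dvd_mul_left q M)) = jE E (M * q) M (dvd_mul_right M q) :=
    hW.1 q M (dvd_mul_left q M) (dvd_mul_right M q) (mul_comm q M)
  rw [xE, map_mul, h1, h2]
  exact (isPolar_jE (M * q) (dvd_refl _)).mul (isPolar_jE M (dvd_mul_right M q))

variable {M q}

/-- `V∞` induces the Gauss valuation on `E(x)`. -/
theorem isGaussOver_xE {w : _root_.Fermat.Agent.A2.Mod.RE P E} (hw : Irreducible w)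
    {V : ValuationSubring (_root_.Fermat.Agent.A2.Mod.FE E (M * q))} (hV : IsVinf P E (M * q) V)
    (htr : Transcendental E (xE E M q)) :
    H489.IsGaussOver (_root_.Fermat.Agent.A2.Mod.RE P E) V (xE E M q) :=
  isGaussOver_of_polar hV hw (NeZero.ne _) (by omega) (isPolar_xE M q) (transcendental_RE htr)

/-- `V₀ = V∞ ∘ W` induces the Gauss valuation on `E(x)`. -/
theorem isGaussOver_comap_xE {w : _root_.Fermat.Agent.A2.Mod.RE P E} (hw : Irreducible w)
    {V : ValuationSubring (_root_.Fermat.Agent.A2.Mod.FE E (M * q))} (hV : IsVinf P E (M * q) V)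
    {W : _root_.Fermat.Agent.A2.Mod.FE E (M * q) ≃ₐ[E] _root_.Fermat.Agent.A2.Mod.FE E (M * q)} (hW : IsFricke E (M * q) W)
    (htr : Transcendental E (xE E M q)) :
    H489.IsGaussOver (_root_.Fermat.Agent.A2.Mod.RE P E) (V.comap (W : _root_.Fermat.Agent.A2.Mod.FE E (M * q) →+* _root_.Fermat.Agent.A2.Mod.FE E (M * q))) (xE E M q) :=
  isGaussOver_comap hV W
    (isGaussOver_of_polar hV hw (NeZero.ne _)
      (Nat.add_pos_right _ (Nat.pos_of_ne_zero (NeZero.ne M)))
      (isPolar_fricke_xE M q hW) (transcendental_RE (transcendental_algEquiv W htr)))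

end Coordinate

/-! ### Independence and the final frame -/

section Indep

variable {P E} {N : ℕ} [IsDiscreteValuationRing (_root_.Fermat.Agent.A2.Mod.RE P E)]

theorem inW_iff_mem_nonunits {V : ValuationSubring (_root_.Fermat.Agent.A2.Mod.FE E N)} {w : _root_.Fermat.Agent.A2.Mod.RE P E}
    (hu : H48.IsUnif V (cE P E N w)) (f : _root_.Fermat.Agent.A2.Mod.FE E N) : InW P E N V w f ↔ f ∈ V.nonunits := by
  rw [InW, hu.mul_inv_mem_iff, ValuationSubring.mem_nonunits_iff]

theorem isUnif_comap {V : ValuationSubring (_root_.Fermat.Agent.A2.Mod.FE E N)} {w : _root_.Fermat.Agent.A2.Mod.RE P E}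
    (hu : H48.IsUnif V (cE P E N w)) (W : _root_.Fermat.Agent.A2.Mod.FE E N ≃ₐ[E] _root_.Fermat.Agent.A2.Mod.FE E N) :
    H48.IsUnif (V.comap (W : _root_.Fermat.Agent.A2.Mod.FE E N →+* _root_.Fermat.Agent.A2.Mod.FE E N)) (cE P E N w) := by
  have hW : W (cE P E N w) = cE P E N w := W.commutes _
  have hWi : W (cE P E N w)⁻¹ = (cE P E N w)⁻¹ := by rw [map_inv₀, hW]
  refine ⟨?_, ?_, ?_⟩
  · show W (cE P E N w) ∈ V
    rw [hW]
    exact hu.mem
  · intro h
    have h' : W (cE P E N w)⁻¹ ∈ V := h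
    rw [hWi] at h'
    exact hu.inv_not_mem h'
  · intro f hf hfi
    show W (f * (cE P E N w)⁻¹) ∈ V
    rw [map_mul, hWi]
    refine hu.gen (W f) hf ?_
    intro h
    apply hfi
    show W f⁻¹ ∈ V
    rw [map_inv₀]
    exact h

theorem polyIndepMod_of_indepMod {V : ValuationSubring (_root_.Fermat.Agent.A2.Mod.FE E N)} {w : _root_.Fermat.Agent.A2.Mod.RE P E}
    (hw : Irreducible w) (hu : H48.IsUnif V (cE P E N w)) {x : _root_.Fermat.Agent.A2.Mod.FE E N} {n : ℕ}
    {b : Fin n → _root_.Fermat.Agent.A2.Mod.FE E N} (h : IndepMod P E N V w x b) :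
    H489.PolyIndepMod (_root_.Fermat.Agent.A2.Mod.RE P E) V x b := by
  intro a ha i
  have h1 := h a ((inW_iff_mem_nonunits hu _).mpr ha) i
  by_contra hne
  exact not_C_dvd_of_map_ne_zero hw hne h1

end Indep

section Final

variable {P E} {M q : ℕ} [NeZero M] [NeZero q] {w : _root_.Fermat.Agent.A2.Mod.RE P E}

/-- **The frame for `X₀(Mq)`**: from the leaves L2, L3 (main) and L6, L8, L9, L10 (hypotheses),
the two valuation rings `V∞`, `V₀ = V∞ ∘ W` satisfy `H489.TwoExtHyp` over the Gauss ring of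
`E(x)`, `x = j · j_q`. -/
theorem twoExtHyp_of_leaves (hS : Setting P E M q w)
    (V : ValuationSubring (_root_.Fermat.Agent.A2.Mod.FE E (M * q))) (W : _root_.Fermat.Agent.A2.Mod.FE E (M * q) ≃ₐ[E] _root_.Fermat.Agent.A2.Mod.FE E (M * q))
    (hV : IsVinf P E (M * q) V) (hW : IsFricke E (M * q) W)
    (hL6 : VzeroNeStatement P E M q w) (hL8 : DegStatement E M q)
    (hL9 : IndInfStatement P E M q w) (hL10 : IndZeroStatement P E M q w) :
    haveI := hS.dvr
    ∃ (b c : Fin ((q + 1) * dedekindPsi M) → _root_.Fermat.Agent.A2.Mod.FE E (M * q))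
      (_ : IsDiscreteValuationRing (H489.gaussRing E V (xE E M q))),
      H489.TwoExtHyp (IntermediateField.adjoin E ({xE E M q} : Set (_root_.Fermat.Agent.A2.Mod.FE E (M * q))))
        (H489.gaussRing E V (xE E M q)) V
        (V.comap (W : _root_.Fermat.Agent.A2.Mod.FE E (M * q) →+* _root_.Fermat.Agent.A2.Mod.FE E (M * q))) b c := by
  haveI := hS.dvr
  obtain ⟨htr, hfr, -⟩ := hL8 hS.q_prime hS.q_not_dvd
  obtain ⟨b, hb, hbI⟩ := hL9 hS V hV
  obtain ⟨c, hc, hcI⟩ := hL10 hS V W hV hW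
  have hu : H48.IsUnif V (cE P E (M * q) w) :=
    (H553.vinfBasic P E w (M * q) (NeZero.ne _) hS.dvr hS.unif V hV).1
  have hG₁ := isGaussOver_xE hS.unif hV htr
  have hG₂ := isGaussOver_comap_xE hS.unif hV hW htr
  have hdvr : IsDiscreteValuationRing (H489.gaussRing E V (xE E M q)) :=
    hG₁.isDiscreteValuationRing
  refine ⟨b, c, hdvr, ?_⟩
  exact H489.twoExtHyp_of_gauss hG₁ hG₂ (fun h => hL6 hS V W hV hW h.symm) hb hc
    (polyIndepMod_of_indepMod hS.unif hu hbI)
    (polyIndepMod_of_indepMod hS.unif (isUnif_comap hu W) hcI)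
    (by rw [hfr, two_mul])

end Final


end Fermat.Agent.A2.Mod.H13

end
end
-- ===== PACK-END A2/Mod/H13/Frame.lean

-- ===== PACK-BEGIN A2/H48/Qep2Le.lean
section


/-!
# A2 / piece QEP2, part 4 (helper48): the degree hypothesis as an inequality

In `TwoExt` / `GaussPair` the hypothesis `card : f₁ + f₂ = [F : K]` can be weakened to
`[F : K] ≤ f₁ + f₂` (the other inequality is automatic: the lifts of the two families are
linearly independent).  This is the form in which the modular side supplies it (upper bound for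
the degree of the function field in characteristic `0`, lower bounds for the residue degrees in
characteristic `q`).

* `TwoExtLe`, `TwoExtLe.card`, `TwoExtLe.twoExt`;
* `GaussPairLe`, `GaussPairLe.gaussPair`, hence `GaussPairLe.qep2`, `GaussPairLe.reduced`,
  `GaussPairLe.exists_monic_of_mem`.
-/

set_option autoImplicit false
set_option linter.unusedSectionVars false

namespace Fermat.Agent.A2.H48

open Polynomial

section Main

variable {K F : Type*} [Field K] [Field F] [Algebra K F]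

/-- `TwoExt` with the degree hypothesis weakened to an inequality. -/
structure TwoExtLe (O : ValuationSubring K) (V₁ V₂ : ValuationSubring F) (ϖ : K)
    {f₁ f₂ : ℕ} (b : Fin f₁ → F) (c : Fin f₂ → F) : Prop where
  unifO : IsUnif O ϖ
  unif₁ : IsUnif V₁ (algebraMap K F ϖ)
  unif₂ : IsUnif V₂ (algebraMap K F ϖ)
  le₁ : ∀ a ∈ O, algebraMap K F a ∈ V₁
  le₂ : ∀ a ∈ O, algebraMap K F a ∈ V₂
  ne : V₁ ≠ V₂
  arch : ∀ a : K, ∃ k : ℕ, ϖ ^ k * a ∈ O
  b_mem : ∀ i, b i ∈ V₁
  c_mem : ∀ j, c j ∈ V₂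
  b_indep : ∀ a : Fin f₁ → K, (∀ i, a i ∈ O) →
    (∑ i, algebraMap K F (a i) * b i) * (algebraMap K F ϖ)⁻¹ ∈ V₁ → ∀ i, a i * ϖ⁻¹ ∈ O
  c_indep : ∀ a : Fin f₂ → K, (∀ j, a j ∈ O) →
    (∑ j, algebraMap K F (a j) * c j) * (algebraMap K F ϖ)⁻¹ ∈ V₂ → ∀ j, a j * ϖ⁻¹ ∈ O
  le : Module.finrank K F ≤ f₁ + f₂

namespace TwoExtLe

variable {O : ValuationSubring K} {V₁ V₂ : ValuationSubring F} {ϖ : K}
  {f₁ f₂ : ℕ} {b : Fin f₁ → F} {c : Fin f₂ → F}

theorem exists_good [FiniteDimensional K F] (h : TwoExtLe O V₁ V₂ ϖ b c) :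
    ∃ m : Fin f₁ ⊕ Fin f₂ → F, TwoExt.IsGood O V₁ V₂ ϖ m := by
  classical
  set π := algebraMap K F ϖ with hπ
  have hπ0 : π ≠ 0 := h.unif₁.ne_zero
  have hA₁ : ∀ i, ∃ g : F, g ∈ V₁ ∧ (g - b i) * π⁻¹ ∈ V₁ ∧ g * π⁻¹ ∈ V₂ := fun i => by
    obtain ⟨k, hk⟩ := exists_pow_mul_mem h.unifO.mem h.arch V₂ h.le₂
      (Algebra.IsIntegral.isIntegral (R := K) (b i))
    exact exists_approx h.unif₁ h.unif₂ h.ne (h.b_mem i) hk
  have hA₂ : ∀ j, ∃ g : F, g ∈ V₂ ∧ (g - c j) * π⁻¹ ∈ V₂ ∧ g * π⁻¹ ∈ V₁ := fun j => by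
    obtain ⟨k, hk⟩ := exists_pow_mul_mem h.unifO.mem h.arch V₁ h.le₁
      (Algebra.IsIntegral.isIntegral (R := K) (c j))
    exact exists_approx h.unif₂ h.unif₁ (Ne.symm h.ne) (h.c_mem j) hk
  choose g hg1 hg2 hg3 using hA₁
  choose g' hg'1 hg'2 hg'3 using hA₂
  have hgV₂ : ∀ i, g i ∈ V₂ := fun i => by
    have : g i = g i * π⁻¹ * π := by field_simp
    rw [this]; exact mul_mem (hg3 i) h.unif₂.mem
  have hg'V₁ : ∀ j, g' j ∈ V₁ := fun j => by
    have : g' j = g' j * π⁻¹ * π := by field_simp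
    rw [this]; exact mul_mem (hg'3 j) h.unif₁.mem
  refine ⟨Sum.elim g g', ?_, ?_, ?_⟩
  · rintro (i | j)
    · exact hg1 i
    · exact hg'V₁ j
  · rintro (i | j)
    · exact hgV₂ i
    · exact hg'1 j
  · intro a ha hS₁ hS₂
    have hsplit : (∑ l, algebraMap K F (a l) * Sum.elim g g' l) =
        (∑ i, algebraMap K F (a (Sum.inl i)) * g i) +
          ∑ j, algebraMap K F (a (Sum.inr j)) * g' j := by
      rw [Fintype.sum_sum_type]; simp only [Sum.elim_inl, Sum.elim_inr]
    rw [hsplit] at hS₁ hS₂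
    rintro (i | j)
    · refine h.b_indep (fun i => a (Sum.inl i)) (fun i => ha _) ?_ i
      have e1 : (∑ i, algebraMap K F (a (Sum.inl i)) * b i) * π⁻¹ =
          ((∑ i, algebraMap K F (a (Sum.inl i)) * g i) +
            ∑ j, algebraMap K F (a (Sum.inr j)) * g' j) * π⁻¹
          - ∑ i, algebraMap K F (a (Sum.inl i)) * ((g i - b i) * π⁻¹)
          - ∑ j, algebraMap K F (a (Sum.inr j)) * (g' j * π⁻¹) := by
        have hW : ∑ i, algebraMap K F (a (Sum.inl i)) * ((g i - b i) * π⁻¹) =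
            (∑ i, algebraMap K F (a (Sum.inl i)) * g i) * π⁻¹ -
              (∑ i, algebraMap K F (a (Sum.inl i)) * b i) * π⁻¹ := by
          rw [Finset.sum_mul, Finset.sum_mul, ← Finset.sum_sub_distrib]
          exact Finset.sum_congr rfl fun i _ => by ring
        have hZ : ∑ j, algebraMap K F (a (Sum.inr j)) * (g' j * π⁻¹) =
            (∑ j, algebraMap K F (a (Sum.inr j)) * g' j) * π⁻¹ := by
          rw [Finset.sum_mul]
          exact Finset.sum_congr rfl fun j _ => by ring
        rw [hW, hZ]; ring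
      rw [e1]
      refine sub_mem (sub_mem hS₁ (sum_mem fun i _ => mul_mem (h.le₁ _ (ha _)) (hg2 i)))
        (sum_mem fun j _ => mul_mem (h.le₁ _ (ha _)) (hg'3 j))
    · refine h.c_indep (fun j => a (Sum.inr j)) (fun j => ha _) ?_ j
      have e1 : (∑ j, algebraMap K F (a (Sum.inr j)) * c j) * π⁻¹ =
          ((∑ i, algebraMap K F (a (Sum.inl i)) * g i) +
            ∑ j, algebraMap K F (a (Sum.inr j)) * g' j) * π⁻¹
          - ∑ j, algebraMap K F (a (Sum.inr j)) * ((g' j - c j) * π⁻¹)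
          - ∑ i, algebraMap K F (a (Sum.inl i)) * (g i * π⁻¹) := by
        have hW : ∑ j, algebraMap K F (a (Sum.inr j)) * ((g' j - c j) * π⁻¹) =
            (∑ j, algebraMap K F (a (Sum.inr j)) * g' j) * π⁻¹ -
              (∑ j, algebraMap K F (a (Sum.inr j)) * c j) * π⁻¹ := by
          rw [Finset.sum_mul, Finset.sum_mul, ← Finset.sum_sub_distrib]
          exact Finset.sum_congr rfl fun j _ => by ring
        have hZ : ∑ i, algebraMap K F (a (Sum.inl i)) * (g i * π⁻¹) =
            (∑ i, algebraMap K F (a (Sum.inl i)) * g i) * π⁻¹ := by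
          rw [Finset.sum_mul]
          exact Finset.sum_congr rfl fun i _ => by ring
        rw [hW, hZ]; ring
      rw [e1]
      refine sub_mem (sub_mem hS₂ (sum_mem fun j _ => mul_mem (h.le₂ _ (ha _)) (hg'2 j)))
        (sum_mem fun i _ => mul_mem (h.le₂ _ (ha _)) (hg3 i))

/-- The fundamental inequality is an equality. -/
theorem card [FiniteDimensional K F] (h : TwoExtLe O V₁ V₂ ϖ b c) :
    f₁ + f₂ = Module.finrank K F := by
  obtain ⟨m, hm⟩ := h.exists_good
  have hli := TwoExt.IsGood.linearIndependent h.unifO hm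
  have h1 := hli.fintype_card_le_finrank
  rw [Fintype.card_sum, Fintype.card_fin, Fintype.card_fin] at h1
  exact le_antisymm h1 h.le

theorem twoExt [FiniteDimensional K F] (h : TwoExtLe O V₁ V₂ ϖ b c) :
    TwoExt O V₁ V₂ ϖ b c where
  unifO := h.unifO
  unif₁ := h.unif₁
  unif₂ := h.unif₂
  le₁ := h.le₁
  le₂ := h.le₂
  ne := h.ne
  arch := h.arch
  b_mem := h.b_mem
  c_mem := h.c_mem
  b_indep := h.b_indep
  c_indep := h.c_indep
  card := h.card

end TwoExtLe

end Main

section Gauss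

variable {R : Type*} [CommRing R] [IsDomain R] [UniqueFactorizationMonoid R]
variable {K F : Type*} [Field K] [Field F] [Algebra R[X] K] [IsFractionRing R[X] K]
  [Algebra K F] [Algebra R[X] F] [IsScalarTower R[X] K F]

/-- `GaussPair` with the degree hypothesis weakened to an inequality. -/
structure GaussPairLe (ϖ : R) (V₁ V₂ : ValuationSubring F)
    {f₁ f₂ : ℕ} (b : Fin f₁ → F) (c : Fin f₂ → F) : Prop where
  prime : Prime ϖ
  unif₁ : IsUnif V₁ (algebraMap R[X] F (C ϖ))
  unif₂ : IsUnif V₂ (algebraMap R[X] F (C ϖ))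
  poly₁ : ∀ P : R[X], algebraMap R[X] F P ∈ V₁
  poly₂ : ∀ P : R[X], algebraMap R[X] F P ∈ V₂
  gauss₁ : ∀ P : R[X], ¬ C ϖ ∣ P → (algebraMap R[X] F P)⁻¹ ∈ V₁
  gauss₂ : ∀ P : R[X], ¬ C ϖ ∣ P → (algebraMap R[X] F P)⁻¹ ∈ V₂
  ne : V₁ ≠ V₂
  b_mem : ∀ i, b i ∈ V₁
  c_mem : ∀ j, c j ∈ V₂
  b_indep : ∀ a : Fin f₁ → R[X],
    (∑ i, algebraMap R[X] F (a i) * b i) * (algebraMap R[X] F (C ϖ))⁻¹ ∈ V₁ → ∀ i, C ϖ ∣ a i
  c_indep : ∀ a : Fin f₂ → R[X],
    (∑ j, algebraMap R[X] F (a j) * c j) * (algebraMap R[X] F (C ϖ))⁻¹ ∈ V₂ → ∀ j, C ϖ ∣ a j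
  le : Module.finrank K F ≤ f₁ + f₂

namespace GaussPairLe

variable {ϖ : R} {V₁ V₂ : ValuationSubring F} {f₁ f₂ : ℕ} {b : Fin f₁ → F} {c : Fin f₂ → F}

theorem gaussRing_eq (h : GaussPairLe (K := K) ϖ V₁ V₂ b c) :
    gaussRing K V₁ = gaussRing K V₂ := by
  apply le_antisymm
  · intro a ha
    obtain ⟨P, Q, hQ, rfl⟩ := exists_div_of_mem_gaussRing h.prime h.unif₁ h.poly₁ h.gauss₁ ha
    exact div_mem_gaussRing h.poly₂ h.gauss₂ P hQ
  · intro a ha
    obtain ⟨P, Q, hQ, rfl⟩ := exists_div_of_mem_gaussRing h.prime h.unif₂ h.poly₂ h.gauss₂ ha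
    exact div_mem_gaussRing h.poly₁ h.gauss₁ P hQ

theorem twoExtLe (h : GaussPairLe (K := K) ϖ V₁ V₂ b c) :
    TwoExtLe (gaussRing K V₁) V₁ V₂ (algebraMap R[X] K (C ϖ)) b c where
  unifO := isUnif_gaussRing h.unif₁
  unif₁ := by rw [map_eq]; exact h.unif₁
  unif₂ := by rw [map_eq]; exact h.unif₂
  le₁ := fun a ha => mem_gaussRing.1 ha
  le₂ := fun a ha => mem_gaussRing.1 (h.gaussRing_eq ▸ ha)
  ne := h.ne
  arch := arch_gaussRing h.prime h.poly₁ h.gauss₁
  b_mem := h.b_mem
  c_mem := h.c_mem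
  b_indep := fun a ha hsum i =>
    indep_gaussRing h.prime h.unif₁ h.poly₁ h.gauss₁ h.b_indep a ha hsum i
  c_indep := fun a ha hsum j => by
    rw [h.gaussRing_eq]
    exact indep_gaussRing h.prime h.unif₂ h.poly₂ h.gauss₂ h.c_indep a
      (fun j => h.gaussRing_eq ▸ ha j) hsum j
  le := h.le

/-- The fundamental inequality is an equality: `[F : K] = f₁ + f₂`. -/
theorem card [FiniteDimensional K F] (h : GaussPairLe (K := K) ϖ V₁ V₂ b c) :
    f₁ + f₂ = Module.finrank K F := h.twoExtLe.card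

theorem gaussPair [FiniteDimensional K F] (h : GaussPairLe (K := K) ϖ V₁ V₂ b c) :
    GaussPair (K := K) ϖ V₁ V₂ b c where
  prime := h.prime
  unif₁ := h.unif₁
  unif₂ := h.unif₂
  poly₁ := h.poly₁
  poly₂ := h.poly₂
  gauss₁ := h.gauss₁
  gauss₂ := h.gauss₂
  ne := h.ne
  b_mem := h.b_mem
  c_mem := h.c_mem
  b_indep := h.b_indep
  c_indep := h.c_indep
  card := h.card

/-- **`q`-expansion principle for the two-component model** (inequality form). -/
theorem qep2 [FiniteDimensional K F] (h : GaussPairLe (K := K) ϖ V₁ V₂ b c) {u : F}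
    (hu : IsIntegral R[X] u)
    (h₁ : u * (algebraMap R[X] F (C ϖ))⁻¹ ∈ V₁) (h₂ : u * (algebraMap R[X] F (C ϖ))⁻¹ ∈ V₂) :
    IsIntegral R[X] (u * (algebraMap R[X] F (C ϖ))⁻¹) :=
  h.gaussPair.qep2 hu h₁ h₂

/-- The special fibre is reduced (inequality form). -/
theorem reduced [FiniteDimensional K F] (h : GaussPairLe (K := K) ϖ V₁ V₂ b c) {u : F}
    (hu : IsIntegral R[X] u) {k : ℕ}
    (h₁ : u ^ k * (algebraMap R[X] F (C ϖ))⁻¹ ∈ V₁)
    (h₂ : u ^ k * (algebraMap R[X] F (C ϖ))⁻¹ ∈ V₂) :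
    IsIntegral R[X] (u * (algebraMap R[X] F (C ϖ))⁻¹) :=
  h.gaussPair.reduced hu h₁ h₂

/-- No third extension (inequality form). -/
theorem exists_monic_of_mem [FiniteDimensional K F] (h : GaussPairLe (K := K) ϖ V₁ V₂ b c)
    {u : F} (hu₁ : u ∈ V₁) (hu₂ : u ∈ V₂) :
    ∃ p : K[X], p.Monic ∧ (∀ i, p.coeff i ∈ gaussRing K V₁) ∧ aeval u p = 0 :=
  h.gaussPair.exists_monic_of_mem hu₁ hu₂

end GaussPairLe

end Gauss

end Fermat.Agent.A2.H48

end
-- ===== PACK-END A2/H48/Qep2Le.lean

-- ===== PACK-BEGIN A2/H489/ChartA.lean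
section


/-!
# A2 / MODASM step S1-abs (helper489): the two components of a chart

Setting of `H48.GaussPairLe` (helper48): `R` a factorial domain (application: the discrete
valuation ring `P ∩ E`), `ϖ ∈ R` prime, `K = Frac R[X]`, `F / K` finite, `V₁ ≠ V₂` valuation
subrings of `F` inducing the Gauss valuation on `K`, with residue-independent families of total
size `≥ [F : K]`.  In addition `F` is an `R`-algebra compatibly with `R → R[X] → F`, and
`x := algebraMap R[X] F X` is the coordinate.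

For the chart `B` = integral closure of `R[x]` in `F` (any `Subalgebra R F` with
`f ∈ B ↔ IsIntegral (Algebra.adjoin R {x}) f`):

* `isIntegral_adjoin_iff` : integrality over `Algebra.adjoin R {x}` = integrality over `R[X]`;
* `compIdeal B V hBV` : the ideal `B ∩ 𝔪_V` (`mem_compIdeal`), prime (`compIdeal_isPrime`);
* `GaussPairLe.exists_mem_not_mem` : some element of the chart lies in `𝔪_{V₁}` and is a unit of
  `V₂`;
* `GaussPairLe.compIdeal_inf` : `(B ∩ 𝔪_{V₁}) ⊓ (B ∩ 𝔪_{V₂}) = ϖ B`  (`SSChart.inf_eq`);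
* `GaussPairLe.exists_components` : the fields `p₁ p₂ prime₁ prime₂ ne not_le₁₂ not_le₂₁ inf_eq`
  of `Fermat.Agent.A2.SSChart` (Spec v2), with `p_i` characterised by `b ∈ p_i ↔ b ∈ 𝔪_{V_i}`.
-/

set_option autoImplicit false
set_option linter.style.haveILetI false
set_option linter.unusedSectionVars false

namespace Fermat.Agent.A2.H489

open Polynomial
open Fermat.Agent.A2.H48

section Integral

variable {R F : Type*} [CommRing R] [Field F] [Algebra R[X] F] [Algebra R F]
  [IsScalarTower R R[X] F]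

/-- `R[X] → F` is evaluation at the coordinate `x = algebraMap R[X] F X`. -/
theorem aeval_coord_eq_algebraMap (P : R[X]) :
    aeval (algebraMap R[X] F X) P = algebraMap R[X] F P := by
  have h : (aeval (algebraMap R[X] F X) : R[X] →ₐ[R] F) = IsScalarTower.toAlgHom R R[X] F := by
    apply Polynomial.algHom_ext
    simp
  exact DFunLike.congr_fun h P

/-- the constants: `algebraMap R F r = algebraMap R[X] F (C r)` -/
theorem algebraMap_const_eq (r : R) : algebraMap R F r = algebraMap R[X] F (C r) := by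
  rw [IsScalarTower.algebraMap_apply R R[X] F]
  rfl

/-- Integrality over the subalgebra `R[x] ⊆ F` is integrality over the polynomial ring. -/
theorem isIntegral_adjoin_iff (f : F) :
    IsIntegral (Algebra.adjoin R ({algebraMap R[X] F X} : Set F)) f ↔ IsIntegral R[X] f := by
  have hmem : ∀ P : R[X], algebraMap R[X] F P ∈
      Algebra.adjoin R ({algebraMap R[X] F X} : Set F) := by
    intro P
    have h1 := Polynomial.aeval_mem_adjoin_singleton (p := P) R (algebraMap R[X] F X)
    rwa [aeval_coord_eq_algebraMap] at h1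
  let φ : R[X] →+* Algebra.adjoin R ({algebraMap R[X] F X} : Set F) :=
    (algebraMap R[X] F).codRestrict _ hmem
  have hsurj : Function.Surjective φ := by
    rintro ⟨y, hy⟩
    rw [Algebra.adjoin_singleton_eq_range_aeval] at hy
    obtain ⟨P, hP⟩ := hy
    refine ⟨P, Subtype.ext ?_⟩
    show algebraMap R[X] F P = y
    rw [← hP]
    exact (aeval_coord_eq_algebraMap P).symm
  letI : Algebra R[X] (Algebra.adjoin R ({algebraMap R[X] F X} : Set F)) := φ.toAlgebra
  haveI : IsScalarTower R[X] (Algebra.adjoin R ({algebraMap R[X] F X} : Set F)) F :=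
    IsScalarTower.of_algebraMap_eq (fun _ => rfl)
  constructor
  · intro hf
    haveI : Algebra.IsIntegral R[X] (Algebra.adjoin R ({algebraMap R[X] F X} : Set F)) :=
      ⟨fun y => RingHom.isIntegral_of_surjective φ hsurj y⟩
    exact isIntegral_trans f hf
  · exact fun hf => hf.tower_top

end Integral

section Comp

variable {R F : Type*} [CommRing R] [Field F] [Algebra R F]

theorem nonunits_add_mem {V : ValuationSubring F} {a b : F} (ha : a ∈ V.nonunits)
    (hb : b ∈ V.nonunits) : a + b ∈ V.nonunits := by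
  rw [ValuationSubring.mem_nonunits_iff] at ha hb ⊢
  exact lt_of_le_of_lt (Valuation.map_add _ _ _) (max_lt ha hb)

theorem mem_mul_nonunits {V : ValuationSubring F} {a b : F} (ha : a ∈ V)
    (hb : b ∈ V.nonunits) : a * b ∈ V.nonunits := by
  rw [ValuationSubring.mem_nonunits_iff] at hb ⊢
  rw [map_mul]
  exact Right.mul_lt_one_of_le_of_lt ((ValuationSubring.valuation_le_one_iff V a).mpr ha) hb

/-- The component `B ∩ 𝔪_V` of the chart `B ⊆ V`. -/
def compIdeal (B : Subalgebra R F) (V : ValuationSubring F) (hBV : ∀ b : B, (b : F) ∈ V) :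
    Ideal B where
  carrier := {b | (b : F) ∈ V.nonunits}
  add_mem' := fun {a b} ha hb => by
    show ((a + b : B) : F) ∈ V.nonunits
    rw [Subalgebra.coe_add]
    exact nonunits_add_mem ha hb
  zero_mem' := by
    show ((0 : B) : F) ∈ V.nonunits
    rw [Subalgebra.coe_zero, ValuationSubring.mem_nonunits_iff, map_zero]
    exact zero_lt_one
  smul_mem' := fun c b hb => by
    show ((c • b : B) : F) ∈ V.nonunits
    rw [smul_eq_mul, Subalgebra.coe_mul]
    exact mem_mul_nonunits (hBV c) hb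

theorem mem_compIdeal {B : Subalgebra R F} {V : ValuationSubring F}
    {hBV : ∀ b : B, (b : F) ∈ V} {b : B} :
    b ∈ compIdeal B V hBV ↔ (b : F) ∈ V.nonunits := Iff.rfl

theorem compIdeal_isPrime (B : Subalgebra R F) (V : ValuationSubring F)
    (hBV : ∀ b : B, (b : F) ∈ V) : (compIdeal B V hBV).IsPrime := by
  rw [Ideal.isPrime_iff]
  constructor
  · intro h
    have h1 : (1 : B) ∈ compIdeal B V hBV := by rw [h]; exact Submodule.mem_top
    rw [mem_compIdeal, Subalgebra.coe_one, ValuationSubring.mem_nonunits_iff, map_one] at h1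
    exact lt_irrefl _ h1
  · intro a b hab
    rw [mem_compIdeal, Subalgebra.coe_mul, ValuationSubring.mem_nonunits_iff, map_mul] at hab
    rw [mem_compIdeal, mem_compIdeal, ValuationSubring.mem_nonunits_iff,
      ValuationSubring.mem_nonunits_iff]
    by_contra hcon
    push Not at hcon
    obtain ⟨h1, h2⟩ := hcon
    have ha := (ValuationSubring.valuation_le_one_iff V _).mpr (hBV a)
    have hb := (ValuationSubring.valuation_le_one_iff V _).mpr (hBV b)
    rw [le_antisymm ha h1, le_antisymm hb h2, one_mul] at hab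
    exact lt_irrefl _ hab

end Comp

section Main

variable {R : Type*} [CommRing R] [IsDomain R] [UniqueFactorizationMonoid R]
variable {K F : Type*} [Field K] [Field F] [Algebra R[X] K] [IsFractionRing R[X] K]
  [Algebra K F] [Algebra R[X] F] [IsScalarTower R[X] K F]
variable {ϖ : R} {V₁ V₂ : ValuationSubring F} {f₁ f₂ : ℕ} {b : Fin f₁ → F} {c : Fin f₂ → F}

theorem gaussPairLe_symm (h : GaussPairLe (K := K) ϖ V₁ V₂ b c) :
    GaussPairLe (K := K) ϖ V₂ V₁ c b where
  prime := h.prime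
  unif₁ := h.unif₂
  unif₂ := h.unif₁
  poly₁ := h.poly₂
  poly₂ := h.poly₁
  gauss₁ := h.gauss₂
  gauss₂ := h.gauss₁
  ne := h.ne.symm
  b_mem := h.c_mem
  c_mem := h.b_mem
  b_indep := h.c_indep
  c_indep := h.b_indep
  le := by have := h.le; omega

/-- the chart lies in `V₁` -/
theorem gaussPairLe_mem_of_isIntegral (h : GaussPairLe (K := K) ϖ V₁ V₂ b c) {f : F}
    (hf : IsIntegral R[X] f) : f ∈ V₁ := by
  obtain ⟨p, hp, hpf⟩ := hf
  refine mem_of_monic_root V₁ (p := p.map (algebraMap R[X] F)) (hp.map _)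
    (fun i => by rw [coeff_map]; exact h.poly₁ _) ?_
  rw [eval_map]
  exact hpf

/-- a polynomial prime to `ϖ` is a unit of `V₁` -/
theorem gaussPairLe_valuation_eq_one (h : GaussPairLe (K := K) ϖ V₁ V₂ b c) {T : R[X]}
    (hT : ¬ C ϖ ∣ T) : V₁.valuation (algebraMap R[X] F T) = 1 := by
  have h1 := (ValuationSubring.valuation_le_one_iff V₁ _).mpr (h.poly₁ T)
  have h2 := (ValuationSubring.valuation_le_one_iff V₁ _).mpr (h.gauss₁ T hT)
  rw [map_inv₀] at h2
  have hT0 : algebraMap R[X] F T ≠ 0 := by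
    intro h0
    have hinj : Function.Injective (algebraMap R[X] F) := by
      rw [IsScalarTower.algebraMap_eq R[X] K F]
      exact (algebraMap K F).injective.comp (IsFractionRing.injective R[X] K)
    have hT' : T = 0 := hinj (by rw [h0, map_zero])
    apply hT
    rw [hT']
    exact dvd_zero _
  have hv0 : V₁.valuation (algebraMap R[X] F T) ≠ 0 := (Valuation.ne_zero_iff _).mpr hT0
  exact le_antisymm h1 ((inv_le_one₀ (zero_lt_iff.mpr hv0)).mp h2)

/-- **clearing denominators**: an element of `V₁ ∩ V₂` becomes integral over `R[X]` after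
multiplication by a polynomial prime to `ϖ`. -/
theorem gaussPairLe_exists_scale [FiniteDimensional K F]
    (h : GaussPairLe (K := K) ϖ V₁ V₂ b c) {u : F} (hu₁ : u ∈ V₁) (hu₂ : u ∈ V₂) :
    ∃ T : R[X], ¬ C ϖ ∣ T ∧ IsIntegral R[X] (algebraMap R[X] F T * u) := by
  classical
  obtain ⟨p, hp, hpc, hpu⟩ := h.exists_monic_of_mem hu₁ hu₂
  have hex : ∀ i, ∃ P Q : R[X], ¬ C ϖ ∣ Q ∧
      p.coeff i = algebraMap R[X] K P / algebraMap R[X] K Q :=
    fun i => exists_div_of_mem_gaussRing h.prime h.unif₁ h.poly₁ h.gauss₁ (hpc i)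
  choose P Q hQ hPQ using hex
  set n := p.natDegree with hn
  set T : R[X] := ∏ i ∈ Finset.range n, Q i with hTdef
  have hT : ¬ C ϖ ∣ T := by
    intro hdvd
    obtain ⟨i, -, hi⟩ := (Prime.dvd_finsetProd_iff (prime_C h.prime) _).mp hdvd
    exact hQ i hi
  refine ⟨T, hT, ?_⟩
  set tK := algebraMap R[X] K T with htK
  have hroot : aeval (algebraMap K F tK * u) (p.scaleRoots tK) = 0 :=
    scaleRoots_aeval_eq_zero hpu
  have hmonic : (p.scaleRoots tK).Monic := (monic_scaleRoots_iff _).mpr hp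
  have hcoef : ∀ i, (p.scaleRoots tK).coeff i ∈ Set.range (algebraMap R[X] K) := by
    intro i
    rw [coeff_scaleRoots, ← hn]
    rcases lt_trichotomy i n with hi | hi | hi
    · have hQi0 : algebraMap R[X] K (Q i) ≠ 0 := by
        intro h0
        have : Q i = 0 := (IsFractionRing.injective R[X] K) (by rw [h0, map_zero])
        apply hQ i
        rw [this]
        exact dvd_zero _
      refine ⟨P i * (∏ j ∈ (Finset.range n).erase i, Q j) * T ^ (n - i - 1), ?_⟩
      have hTe : T = Q i * ∏ j ∈ (Finset.range n).erase i, Q j :=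
        (Finset.mul_prod_erase _ _ (Finset.mem_range.mpr hi)).symm
      have hpow : n - i = (n - i - 1) + 1 := by omega
      rw [hPQ i]
      conv_rhs => rw [hpow, pow_succ]
      have htK' : tK = algebraMap R[X] K (Q i) *
          algebraMap R[X] K (∏ j ∈ (Finset.range n).erase i, Q j) := by
        rw [htK, ← map_mul, ← hTe]
      rw [map_mul, map_mul, map_pow, ← htK]
      conv_rhs => rw [mul_comm (tK ^ (n - i - 1)) tK, ← mul_assoc]
      congr 1
      rw [htK']
      field_simp
    · subst hi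
      rw [hn, hp.coeff_natDegree, Nat.sub_self, pow_zero, mul_one]
      exact ⟨1, map_one _⟩
    · rw [coeff_eq_zero_of_natDegree_lt (by rw [← hn]; exact hi), zero_mul]
      exact ⟨0, map_zero _⟩
  obtain ⟨q, hq, -, hqm⟩ :=
    lifts_and_natDegree_eq_and_monic ((lifts_iff_coeff_lifts _).2 hcoef) hmonic
  refine ⟨q, hqm, ?_⟩
  have e : eval₂ (algebraMap R[X] F) (algebraMap R[X] F T * u) q =
      aeval (algebraMap R[X] F T * u) (q.map (algebraMap R[X] K)) := by
    rw [aeval_def, eval₂_map, ← IsScalarTower.algebraMap_eq]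
  rw [e, hq, ← map_eq (K := K)]
  exact hroot

/-- some element of the chart lies in `𝔪_{V₁}` and is a unit of `V₂` -/
theorem gaussPairLe_exists_mem_not_mem [FiniteDimensional K F]
    (h : GaussPairLe (K := K) ϖ V₁ V₂ b c) :
    ∃ g : F, IsIntegral R[X] g ∧ g ∈ V₁.nonunits ∧ g ∉ V₂.nonunits := by
  obtain ⟨c₀, hc0, hc1, hc2⟩ := exists_separating h.unif₁ h.unif₂ h.ne
  have hu1 : V₁.valuation (1 + c₀) = 1 := Valuation.map_one_add_of_lt _ hc1
  have h1c : 1 + c₀ ≠ 0 := by
    intro h0
    rw [h0, map_zero] at hu1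
    exact zero_ne_one hu1
  have hv1 : V₁.valuation (c₀ * (1 + c₀)⁻¹) < 1 := by
    rw [map_mul, map_inv₀, hu1, inv_one, mul_one]
    exact hc1
  have hu_eq : c₀ * (1 + c₀)⁻¹ = (1 + c₀⁻¹)⁻¹ := by
    have h2 : 1 + c₀⁻¹ = (1 + c₀) * c₀⁻¹ := by
      rw [add_mul, one_mul, mul_inv_cancel₀ hc0, add_comm]
    rw [h2, mul_inv, inv_inv, mul_comm]
  have hv2' : V₂.valuation (1 + c₀⁻¹) = 1 := Valuation.map_one_add_of_lt _ hc2
  have hv2 : V₂.valuation (c₀ * (1 + c₀)⁻¹) = 1 := by
    rw [hu_eq, map_inv₀, hv2', inv_one]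
  have hu₁ : c₀ * (1 + c₀)⁻¹ ∈ V₁ := (ValuationSubring.valuation_le_one_iff V₁ _).mp hv1.le
  have hu₂ : c₀ * (1 + c₀)⁻¹ ∈ V₂ := (ValuationSubring.valuation_le_one_iff V₂ _).mp hv2.le
  obtain ⟨T, hT, hint⟩ := gaussPairLe_exists_scale h hu₁ hu₂
  refine ⟨algebraMap R[X] F T * (c₀ * (1 + c₀)⁻¹), hint, ?_, ?_⟩
  · exact mem_mul_nonunits (h.poly₁ T) ((ValuationSubring.mem_nonunits_iff V₁).mpr hv1)
  · intro hmem
    rw [ValuationSubring.mem_nonunits_iff, map_mul, hv2, mul_one,
      gaussPairLe_valuation_eq_one (gaussPairLe_symm h) hT] at hmem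
    exact lt_irrefl _ hmem

variable [Algebra R F] [IsScalarTower R R[X] F]

/-- **`SSChart.inf_eq`**: `(B ∩ 𝔪_{V₁}) ⊓ (B ∩ 𝔪_{V₂}) = ϖ B`. -/
theorem gaussPairLe_compIdeal_inf [FiniteDimensional K F]
    (h : GaussPairLe (K := K) ϖ V₁ V₂ b c) (B : Subalgebra R F)
    (hB : ∀ f : F, f ∈ B ↔ IsIntegral R[X] f)
    (hBV₁ : ∀ b : B, (b : F) ∈ V₁) (hBV₂ : ∀ b : B, (b : F) ∈ V₂) :
    compIdeal B V₁ hBV₁ ⊓ compIdeal B V₂ hBV₂ = Ideal.span {algebraMap R B ϖ} := by
  have hϖF : ((algebraMap R B ϖ : B) : F) = algebraMap R[X] F (C ϖ) :=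
    algebraMap_const_eq ϖ
  have hϖ0 : algebraMap R[X] F (C ϖ) ≠ 0 := h.unif₁.ne_zero
  apply le_antisymm
  · intro y hy
    obtain ⟨hy₁, hy₂⟩ := hy
    rw [SetLike.mem_coe, mem_compIdeal, ValuationSubring.mem_nonunits_iff,
      ← h.unif₁.mul_inv_mem_iff] at hy₁
    rw [SetLike.mem_coe, mem_compIdeal, ValuationSubring.mem_nonunits_iff,
      ← h.unif₂.mul_inv_mem_iff] at hy₂
    have hint := h.qep2 ((hB _).mp y.2) hy₁ hy₂
    rw [Ideal.mem_span_singleton']
    refine ⟨⟨_, (hB _).mpr hint⟩, Subtype.ext ?_⟩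
    rw [Subalgebra.coe_mul, hϖF]
    show (y : F) * (algebraMap R[X] F (C ϖ))⁻¹ * algebraMap R[X] F (C ϖ) = y
    rw [mul_assoc, inv_mul_cancel₀ hϖ0, mul_one]
  · rw [Ideal.span_le, Set.singleton_subset_iff]
    constructor
    · rw [SetLike.mem_coe, mem_compIdeal, hϖF, ValuationSubring.mem_nonunits_iff]
      exact h.unif₁.val_lt_one
    · rw [SetLike.mem_coe, mem_compIdeal, hϖF, ValuationSubring.mem_nonunits_iff]
      exact h.unif₂.val_lt_one

/-- **MODASM S1-abs.**  The fields `p₁ p₂ prime₁ prime₂ ne not_le₁₂ not_le₂₁ inf_eq` of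
`SSChart ϖ B` for the chart `B` = integral closure of `R[x]`, `x = algebraMap R[X] F X`, with the
components characterised by the two valuations. -/
theorem gaussPairLe_exists_components [FiniteDimensional K F]
    (h : GaussPairLe (K := K) ϖ V₁ V₂ b c) (B : Subalgebra R F)
    (hB : ∀ f : F, f ∈ B ↔
      IsIntegral (Algebra.adjoin R ({algebraMap R[X] F X} : Set F)) f) :
    ∃ p₁ p₂ : Ideal B,
      (∀ y : B, y ∈ p₁ ↔ (y : F) ∈ V₁.nonunits) ∧ (∀ y : B, y ∈ p₂ ↔ (y : F) ∈ V₂.nonunits) ∧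
      p₁.IsPrime ∧ p₂.IsPrime ∧ p₁ ≠ p₂ ∧ ¬ p₁ ≤ p₂ ∧ ¬ p₂ ≤ p₁ ∧
      p₁ ⊓ p₂ = Ideal.span {algebraMap R B ϖ} := by
  have hB' : ∀ f : F, f ∈ B ↔ IsIntegral R[X] f := fun f =>
    (hB f).trans (isIntegral_adjoin_iff f)
  have hBV₁ : ∀ y : B, (y : F) ∈ V₁ := fun y =>
    gaussPairLe_mem_of_isIntegral h ((hB' _).mp y.2)
  have hBV₂ : ∀ y : B, (y : F) ∈ V₂ := fun y =>
    gaussPairLe_mem_of_isIntegral (gaussPairLe_symm h) ((hB' _).mp y.2)
  have h12 : ¬ compIdeal B V₁ hBV₁ ≤ compIdeal B V₂ hBV₂ := by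
    intro hle
    obtain ⟨g, hg, hg₁, hg₂⟩ := gaussPairLe_exists_mem_not_mem h
    exact hg₂ (hle (show (⟨g, (hB' g).mpr hg⟩ : B) ∈ compIdeal B V₁ hBV₁ from hg₁))
  have h21 : ¬ compIdeal B V₂ hBV₂ ≤ compIdeal B V₁ hBV₁ := by
    intro hle
    obtain ⟨g, hg, hg₁, hg₂⟩ := gaussPairLe_exists_mem_not_mem (gaussPairLe_symm h)
    exact hg₂ (hle (show (⟨g, (hB' g).mpr hg⟩ : B) ∈ compIdeal B V₂ hBV₂ from hg₁))
  refine ⟨compIdeal B V₁ hBV₁, compIdeal B V₂ hBV₂, fun _ => Iff.rfl, fun _ => Iff.rfl,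
    compIdeal_isPrime B V₁ hBV₁, compIdeal_isPrime B V₂ hBV₂, ?_, h12, h21,
    gaussPairLe_compIdeal_inf h B hB' hBV₁ hBV₂⟩
  intro heq
  exact h12 (le_of_eq heq)

end Main

end Fermat.Agent.A2.H489

end
-- ===== PACK-END A2/H489/ChartA.lean

-- ===== PACK-BEGIN A2/H489/ChartB.lean
section



/-!
# A2 / MODASM step S1 (helper489): the two components of a chart, from an explicit coordinate

`R` a discrete valuation ring with uniformiser `w`, `E = Frac R`, `F ⊇ E` a field, `y ∈ F` a
coordinate, `V₁ ≠ V₂` valuation subrings of `F` inducing the Gauss valuation on `E(y)`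
(`IsGaussOver`), both with uniformiser `w`, with `R[y]`-independent families modulo the maximal
ideals (`PolyIndepMod`) of total size `≥ [F : E(y)]`.

* `gaussPairLe_of_frame` : the hypotheses `H48.GaussPairLe` for the `R[X]`-algebra structure
  `X ↦ y` (all instances are constructed here);
* `frame_exists_components` : for the chart `B` = integral closure of `R[y]`
  (`f ∈ B ↔ IsIntegral (Algebra.adjoin R {y}) f`) there are prime ideals `p₁ p₂` of `B` with
  `b ∈ p_i ↔ b ∈ 𝔪_{V_i}`, incomparable, and `p₁ ⊓ p₂ = w B`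
  (= the fields `p₁ … inf_eq` of `Fermat.Agent.A2.SSChart`).
-/

set_option autoImplicit false
set_option linter.style.haveILetI false
set_option linter.unusedSectionVars false

namespace Fermat.Agent.A2.H489

open IsLocalRing Polynomial IntermediateField

section Inj

variable {R F : Type*} [CommRing R] [IsDomain R] [IsDiscreteValuationRing R]
  [Field F] [Algebra R F]

/-- the coordinate of a Gauss valuation is transcendental over `R` -/
theorem IsGaussOver.aeval_injective (E : Type*) [Field E] [Algebra R E] [IsFractionRing R E]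
    [Algebra E F] [IsScalarTower R E F] {V : ValuationSubring F} {y : F}
    (h : IsGaussOver R V y) :
    Function.Injective (aeval y : R[X] → F) := by
  rw [injective_iff_map_eq_zero]
  intro P hP
  by_contra hP0
  obtain ⟨w, hw⟩ := IsDiscreteValuationRing.exists_irreducible R
  obtain ⟨n, P₀, rfl, hP₀⟩ := exists_eq_pow_mul_prim hw hP0
  rw [map_mul, aeval_C] at hP
  rcases mul_eq_zero.mp hP with h1 | h1
  · exact algebraMap_RL_ne_zero E (pow_ne_zero n hw.ne_zero) h1
  · exact h.aeval_ne_zero hP₀ h1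

end Inj

section FrameChart

variable {R E F : Type*} [CommRing R] [IsDomain R] [IsDiscreteValuationRing R]
  [Field E] [Algebra R E] [IsFractionRing R E]
  [Field F] [Algebra E F] [Algebra R F] [IsScalarTower R E F]

/-- divisibility by the uniformiser = vanishing modulo the maximal ideal -/
theorem C_dvd_iff_map_residue_eq_zero {w : R} (hw : Irreducible w) (P : R[X]) :
    C w ∣ P ↔ P.map (residue R) = 0 := by
  constructor
  · rintro ⟨P', rfl⟩
    have hwm : residue R w = 0 := by
      rw [residue_eq_zero_iff, IsLocalRing.mem_maximalIdeal, _root_.mem_nonunits_iff]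
      exact hw.not_isUnit
    rw [Polynomial.map_mul, map_C, hwm, C_0, zero_mul]
  · intro h
    obtain ⟨P', hP'⟩ := exists_eq_C_mul_of_map_residue_eq_zero hw h
    exact ⟨P', hP'⟩

variable {V : ValuationSubring F} {y : F}

/-- every element of `E(y)` is a quotient of polynomials over `R` -/
theorem exists_div_aeval_of_mem_adjoin {a : F} (ha : a ∈ E⟮y⟯) :
    ∃ P Q : R[X], a = aeval y P / aeval y Q := by
  obtain ⟨r, s, hrs⟩ := (mem_adjoin_simple_iff E a).mp ha
  by_cases hr : r = 0
  · refine ⟨0, 1, ?_⟩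
    rw [hrs, hr, map_zero, zero_div, map_zero, zero_div]
  by_cases hs : s = 0
  · refine ⟨0, 1, ?_⟩
    rw [hrs, hs, map_zero, div_zero, map_zero, zero_div]
  obtain ⟨dr, R', hdr, -, eR⟩ := exists_aeval_eq_of_polynomial (R := R) y hr
  obtain ⟨ds, S', hds, -, eS⟩ := exists_aeval_eq_of_polynomial (R := R) y hs
  have hdrL : algebraMap R F dr ≠ 0 := algebraMap_RL_ne_zero E hdr
  have hdsL : algebraMap R F ds ≠ 0 := algebraMap_RL_ne_zero E hds
  refine ⟨C ds * R', C dr * S', ?_⟩
  rw [map_mul, map_mul, aeval_C, aeval_C, ← eR, ← eS, hrs]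
  by_cases hs0 : aeval y s = 0
  · rw [hs0, div_zero, mul_zero, mul_zero, div_zero]
  · field_simp

/-- **MODASM S1, explicit coordinate.**  The two components of the chart `B` = integral closure
of `R[y]`: primes `p₁ = B ∩ 𝔪_{V₁}`, `p₂ = B ∩ 𝔪_{V₂}`, incomparable, `p₁ ⊓ p₂ = w B`. -/
theorem frame_exists_components {w : R} (hw : Irreducible w) {V₁ V₂ : ValuationSubring F}
    (h₁ : IsGaussOver R V₁ y) (h₂ : IsGaussOver R V₂ y)
    (hu₁ : H48.IsUnif V₁ (algebraMap R F w)) (hu₂ : H48.IsUnif V₂ (algebraMap R F w))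
    (hne : V₁ ≠ V₂) {f₁ f₂ : ℕ} {u₁ : Fin f₁ → F} {u₂ : Fin f₂ → F}
    (hm₁ : ∀ i, u₁ i ∈ V₁) (hm₂ : ∀ i, u₂ i ∈ V₂)
    (hI₁ : PolyIndepMod R V₁ y u₁) (hI₂ : PolyIndepMod R V₂ y u₂)
    [FiniteDimensional E⟮y⟯ F] (hdeg : Module.finrank E⟮y⟯ F ≤ f₁ + f₂)
    (B : Subalgebra R F)
    (hB : ∀ f : F, f ∈ B ↔ IsIntegral (Algebra.adjoin R ({y} : Set F)) f) :
    ∃ p₁ p₂ : Ideal B,
      (∀ b : B, b ∈ p₁ ↔ (b : F) ∈ V₁.nonunits) ∧ (∀ b : B, b ∈ p₂ ↔ (b : F) ∈ V₂.nonunits) ∧
      p₁.IsPrime ∧ p₂.IsPrime ∧ p₁ ≠ p₂ ∧ ¬ p₁ ≤ p₂ ∧ ¬ p₂ ≤ p₁ ∧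
      p₁ ⊓ p₂ = Ideal.span {algebraMap R B w} := by
  classical
  -- the `R[X]`-algebra structures `X ↦ y`
  letI algF : Algebra R[X] F := (aeval y : R[X] →ₐ[R] F).toRingHom.toAlgebra
  have hF : ∀ P : R[X], algebraMap R[X] F P = aeval y P := fun _ => rfl
  let yK : E⟮y⟯ := ⟨y, mem_adjoin_simple_self E y⟩
  letI algK : Algebra R[X] E⟮y⟯ := (aeval yK : R[X] →ₐ[R] E⟮y⟯).toRingHom.toAlgebra
  have hK : ∀ P : R[X], algebraMap R[X] E⟮y⟯ P = aeval yK P := fun _ => rfl
  haveI towerK : IsScalarTower R E⟮y⟯ F := IsScalarTower.of_algebraMap_eq (fun _ => rfl)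
  have hKF : ∀ P : R[X], ((aeval yK P : E⟮y⟯) : F) = aeval y P := by
    intro P
    have := Polynomial.aeval_algHom_apply (IsScalarTower.toAlgHom R E⟮y⟯ F) yK P
    exact this.symm
  haveI tower : IsScalarTower R[X] E⟮y⟯ F :=
    IsScalarTower.of_algebraMap_eq (fun P => (hKF P).symm)
  haveI towerR : IsScalarTower R R[X] F :=
    IsScalarTower.of_algebraMap_eq (fun r => (aeval_C y r).symm)
  have hinjF : Function.Injective (aeval y : R[X] → F) := h₁.aeval_injective E
  have hinjK : Function.Injective (algebraMap R[X] E⟮y⟯) := by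
    intro P Q hPQ
    apply hinjF
    rw [← hKF, ← hKF, ← hK, ← hK, hPQ]
  haveI : FaithfulSMul R[X] E⟮y⟯ := (faithfulSMul_iff_algebraMap_injective _ _).mpr hinjK
  haveI frac : IsFractionRing R[X] E⟮y⟯ := by
    apply IsFractionRing.of_field
    intro z
    obtain ⟨P, Q, hPQ⟩ := exists_div_aeval_of_mem_adjoin (R := R) (E := E) z.2
    refine ⟨P, Q, Subtype.ext ?_⟩
    rw [hPQ]
    show aeval y P / aeval y Q = ((aeval yK P / aeval yK Q : E⟮y⟯) : F)
    rw [IntermediateField.coe_div, hKF, hKF]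
  have hCw : algebraMap R[X] F (C w) = algebraMap R F w := aeval_C y w
  have hprim : ∀ P : R[X], ¬ C w ∣ P → P.map (residue R) ≠ 0 := fun P hP h0 =>
    hP ((C_dvd_iff_map_residue_eq_zero hw P).mpr h0)
  have hG : H48.GaussPairLe (K := E⟮y⟯) w V₁ V₂ u₁ u₂ :=
    { prime := hw.prime
      unif₁ := by rw [hCw]; exact hu₁
      unif₂ := by rw [hCw]; exact hu₂
      poly₁ := fun P => h₁.aeval_mem P
      poly₂ := fun P => h₂.aeval_mem P
      gauss₁ := fun P hP => h₁.inv_aeval_mem (hprim P hP)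
      gauss₂ := fun P hP => h₂.inv_aeval_mem (hprim P hP)
      ne := hne
      b_mem := hm₁
      c_mem := hm₂
      b_indep := by
        intro a ha i
        rw [hCw, hu₁.mul_inv_mem_iff, ← ValuationSubring.mem_nonunits_iff] at ha
        exact (C_dvd_iff_map_residue_eq_zero hw (a i)).mpr (hI₁ a ha i)
      c_indep := by
        intro a ha i
        rw [hCw, hu₂.mul_inv_mem_iff, ← ValuationSubring.mem_nonunits_iff] at ha
        exact (C_dvd_iff_map_residue_eq_zero hw (a i)).mpr (hI₂ a ha i)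
      le := hdeg }
  have hX : algebraMap R[X] F X = y := aeval_X y
  have hB' : ∀ f : F, f ∈ B ↔
      IsIntegral (Algebra.adjoin R ({algebraMap R[X] F X} : Set F)) f := by
    rw [hX]
    exact hB
  exact gaussPairLe_exists_components hG B hB'

end FrameChart

/-! ## The chart at infinity: the coordinate `y⁻¹` -/

section Inv

variable {R E F : Type*} [CommRing R] [IsDomain R] [IsDiscreteValuationRing R]
  [Field E] [Algebra R E] [IsFractionRing R E]
  [Field F] [Algebra E F] [Algebra R F] [IsScalarTower R E F]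
  {V : ValuationSubring F} {y : F}

omit [IsDomain R] [IsDiscreteValuationRing R] in
theorem aeval_inv_mul_pow (hy : y ≠ 0) (N : ℕ) (P : R[X]) (hP : P.natDegree ≤ N) :
    aeval y⁻¹ P * y ^ N = aeval y (reflect N P) := by
  have hy' : y⁻¹ ≠ 0 := inv_ne_zero hy
  letI : Invertible (y⁻¹) := invertibleOfNonzero hy'
  have h := eval₂_reflect_mul_pow (algebraMap R F) (y⁻¹) N P hP
  rw [invOf_eq_inv, inv_inv] at h
  rw [aeval_def, aeval_def, ← h, mul_assoc, ← mul_pow, inv_mul_cancel₀ hy, one_pow, mul_one]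

omit [IsDomain R] [IsDiscreteValuationRing R] in
theorem map_residue_reflect_eq_zero [IsLocalRing R] {N : ℕ} {P : R[X]}
    (h : (reflect N P).map (residue R) = 0) : P.map (residue R) = 0 := by
  rw [map_residue_eq_zero_iff] at h ⊢
  intro i
  have := h (revAt N i)
  rwa [coeff_reflect, revAt_invol] at this

omit [IsDomain R] [IsDiscreteValuationRing R] in
/-- the coordinate of a Gauss valuation is a unit -/
theorem IsGaussOver.inv_mem [IsLocalRing R] (h : IsGaussOver R V y) :
    y⁻¹ ∈ V := by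
  have h1 := h.inv_aeval_mem (P := X) (by
    rw [Polynomial.map_X]
    exact X_ne_zero)
  rwa [aeval_X] at h1

omit [IsDomain R] [IsDiscreteValuationRing R] in
theorem IsGaussOver.ne_zero [IsLocalRing R] (h : IsGaussOver R V y) :
    y ≠ 0 := by
  have h1 := h.aeval_ne_zero (P := X) (by
    rw [Polynomial.map_X]
    exact X_ne_zero)
  rwa [aeval_X] at h1

omit [IsDomain R] [IsDiscreteValuationRing R] in
/-- The Gauss valuation of `E(y)` is the Gauss valuation of `E(y⁻¹)`. -/
theorem IsGaussOver.inv [IsLocalRing R] (h : IsGaussOver R V y) :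
    IsGaussOver R V y⁻¹ where
  isOver := h.isOver
  mem := h.inv_mem
  prim := by
    intro P hP
    apply map_residue_reflect_eq_zero (N := P.natDegree)
    apply h.prim
    rw [← aeval_inv_mul_pow h.ne_zero P.natDegree P le_rfl, mul_comm]
    exact mem_mul_nonunits (pow_mem h.mem _) hP

omit [IsDomain R] [IsDiscreteValuationRing R] in
theorem PolyIndepMod.inv [IsLocalRing R] (h : IsGaussOver R V y) {f : ℕ}
    {u : Fin f → F} (hI : PolyIndepMod R V y u) : PolyIndepMod R V y⁻¹ u := by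
  intro P hP i
  set D := Finset.univ.sup (fun i => (P i).natDegree) with hD
  have hdeg : ∀ i, (P i).natDegree ≤ D := fun i =>
    Finset.le_sup (f := fun i => (P i).natDegree) (Finset.mem_univ i)
  apply map_residue_reflect_eq_zero (N := D)
  refine hI (fun i => reflect D (P i)) ?_ i
  have h1 : ∑ i, aeval y (reflect D (P i)) * u i = y ^ D * ∑ i, aeval y⁻¹ (P i) * u i := by
    rw [Finset.mul_sum]
    refine Finset.sum_congr rfl fun i _ => ?_
    rw [← aeval_inv_mul_pow h.ne_zero D (P i) (hdeg i)]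
    ring
  rw [h1]
  exact mem_mul_nonunits (pow_mem h.mem _) hP

omit [IsDomain R] [IsDiscreteValuationRing R] [Algebra R E] [IsFractionRing R E] [Algebra R F]
  [IsScalarTower R E F] [CommRing R] in
theorem adjoin_inv_eq (E : Type*) [Field E] [Algebra E F] (y : F) : E⟮y⁻¹⟯ = E⟮y⟯ := by
  apply le_antisymm
  · rw [adjoin_simple_le_iff]
    exact inv_mem (mem_adjoin_simple_self E y)
  · rw [adjoin_simple_le_iff]
    have := inv_mem (mem_adjoin_simple_self E y⁻¹)
    rwa [inv_inv] at this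

/-- **MODASM S1, chart at infinity.**  Same hypotheses on the coordinate `y`; the chart is the
integral closure of `R[y⁻¹]`. -/
theorem frame_exists_components_inv {w : R} (hw : Irreducible w) {V₁ V₂ : ValuationSubring F}
    (h₁ : IsGaussOver R V₁ y) (h₂ : IsGaussOver R V₂ y)
    (hu₁ : H48.IsUnif V₁ (algebraMap R F w)) (hu₂ : H48.IsUnif V₂ (algebraMap R F w))
    (hne : V₁ ≠ V₂) {f₁ f₂ : ℕ} {u₁ : Fin f₁ → F} {u₂ : Fin f₂ → F}
    (hm₁ : ∀ i, u₁ i ∈ V₁) (hm₂ : ∀ i, u₂ i ∈ V₂)
    (hI₁ : PolyIndepMod R V₁ y u₁) (hI₂ : PolyIndepMod R V₂ y u₂)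
    [hfin : FiniteDimensional E⟮y⟯ F] (hdeg : Module.finrank E⟮y⟯ F ≤ f₁ + f₂)
    (B : Subalgebra R F)
    (hB : ∀ f : F, f ∈ B ↔ IsIntegral (Algebra.adjoin R ({y⁻¹} : Set F)) f) :
    ∃ p₁ p₂ : Ideal B,
      (∀ b : B, b ∈ p₁ ↔ (b : F) ∈ V₁.nonunits) ∧ (∀ b : B, b ∈ p₂ ↔ (b : F) ∈ V₂.nonunits) ∧
      p₁.IsPrime ∧ p₂.IsPrime ∧ p₁ ≠ p₂ ∧ ¬ p₁ ≤ p₂ ∧ ¬ p₂ ≤ p₁ ∧
      p₁ ⊓ p₂ = Ideal.span {algebraMap R B w} := by
  have hE : E⟮y⁻¹⟯ = E⟮y⟯ := adjoin_inv_eq E y
  have key : ∀ (K : IntermediateField E F), K = E⟮y⟯ →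
      FiniteDimensional K F ∧ Module.finrank K F ≤ f₁ + f₂ := by
    rintro K rfl
    exact ⟨hfin, hdeg⟩
  obtain ⟨hfin', hdeg'⟩ := key _ hE
  exact frame_exists_components (E := E) hw h₁.inv h₂.inv hu₁ hu₂ hne hm₁ hm₂
    (hI₁.inv h₁) (hI₂.inv h₂) hdeg' B hB

end Inv

end Fermat.Agent.A2.H489

end
-- ===== PACK-END A2/H489/ChartB.lean

-- ===== PACK-BEGIN A2/Mod/H96/L12Lift.lean
section



/-!
# A2 / MOD leaf L12 (helper96), part 1: two closure lemmas on `F_k = k(j(t^d) : d ∣ N)`

`A` a valuation subring of a field `L ⊇ ℚ`, `κ` its residue field.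

* `exists_lift_of_mem_fullC` : every element of `F_κ ⊆ κ((t))` is a quotient `Ū₁ / Ū₂` of
  reductions of `A`-integral series lying in `F_L = L(j(t^d) : d ∣ N)`, `Ū₂ ≠ 0`
  (the residue map of the Gauss valuation ring is onto `F_κ`);
* `exists_frob_root_of_mem_fullC` : if `k` has characteristic `q` and surjective Frobenius, then
  every `r ∈ F_k` has a "Frobenius twist" `r' ∈ F_k` with `r' ^ q = r(t^q)`.
-/

set_option autoImplicit false
set_option linter.unusedSectionVars false
set_option linter.style.haveILetI false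

noncomputable section

namespace Fermat.Agent.A2.Mod.H96

open ModularCurve HahnSeries

section Lift

variable {L : Type*} [Field L] [Algebra ℚ L] (A : ValuationSubring L)
variable (N : ℕ) [NeZero N]

theorem incl_castA_jqNModC_mem (d : ℕ) [NeZero d] (hd : d ∣ N) :
    H708.incl A (coeffMap (Int.castRingHom A) (jqNModC ℤ d)) ∈
      laurentBaseChange L (modularFunctionFieldFull N) := by
  rw [H708.incl_castA]
  have h1 : H708.castQ (jqNModC ℤ d) = qExpand ℚ d jq := by
    show coeffMap (Int.castRingHom ℚ) (jqNModC ℤ d) = _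
    rw [coeffMap_jqNModC]
    rfl
  rw [h1]
  exact coeffEmb_mem_laurentBaseChange L (jqd_mem_full N hd)

theorem red_castA_jqNModC (d : ℕ) [NeZero d] :
    H708.red A (coeffMap (Int.castRingHom A) (jqNModC ℤ d)) =
      qExpand (IsLocalRing.ResidueField A) d (jqModC (IsLocalRing.ResidueField A)) := by
  show coeffMap (IsLocalRing.residue A) (coeffMap (Int.castRingHom A) (jqNModC ℤ d)) = _
  rw [coeffMap_coeffMap, coeffMap_jqNModC]
  rfl

/-- **Lifting.** Every element of `F_κ` is a quotient of reductions of integral series of `F_L`. -/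
theorem exists_lift_of_mem_fullC {r : LaurentSeries (IsLocalRing.ResidueField A)}
    (hr : r ∈ modularFunctionFieldFullC (IsLocalRing.ResidueField A) N) :
    ∃ U₁ U₂ : LaurentSeries A,
      H708.incl A U₁ ∈ laurentBaseChange L (modularFunctionFieldFull N) ∧
      H708.incl A U₂ ∈ laurentBaseChange L (modularFunctionFieldFull N) ∧
      H708.red A U₂ ≠ 0 ∧ H708.red A U₁ = r * H708.red A U₂ := by
  unfold modularFunctionFieldFullC at hr
  induction hr using IntermediateField.adjoin_induction with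
  | mem x hx =>
    obtain ⟨d, hd, hdN, rfl⟩ := hx
    refine ⟨coeffMap (Int.castRingHom A) (jqNModC ℤ d), 1, incl_castA_jqNModC_mem A N d hdN, ?_,
      ?_, ?_⟩
    · rw [map_one]; exact one_mem _
    · rw [map_one]; exact one_ne_zero
    · rw [map_one, mul_one, red_castA_jqNModC]
  | algebraMap c =>
    obtain ⟨a, rfl⟩ := IsLocalRing.residue_surjective c
    refine ⟨H708.cstA A a, 1, ?_, ?_, ?_, ?_⟩
    · rw [H708.incl_cstA]
      exact (laurentBaseChange L (modularFunctionFieldFull N)).algebraMap_mem _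
    · rw [map_one]; exact one_mem _
    · rw [map_one]; exact one_ne_zero
    · rw [map_one, mul_one, H708.red_cstA, algebraMap_laurentSeries_eq_single]
  | add x y hx hy ihx ihy =>
    obtain ⟨U₁, U₂, h1, h2, h0, he⟩ := ihx
    obtain ⟨W₁, W₂, g1, g2, g0, ge⟩ := ihy
    refine ⟨U₁ * W₂ + W₁ * U₂, U₂ * W₂, ?_, ?_, ?_, ?_⟩
    · rw [map_add, map_mul, map_mul]
      exact add_mem (mul_mem h1 g2) (mul_mem g1 h2)
    · rw [map_mul]; exact mul_mem h2 g2
    · rw [map_mul]; exact mul_ne_zero h0 g0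
    · rw [map_add, map_mul, map_mul, map_mul, he, ge]
      ring
  | inv x hx ihx =>
    obtain ⟨U₁, U₂, h1, h2, h0, he⟩ := ihx
    by_cases hx0 : x = 0
    · refine ⟨0, 1, ?_, ?_, ?_, ?_⟩
      · rw [map_zero]; exact zero_mem _
      · rw [map_one]; exact one_mem _
      · rw [map_one]; exact one_ne_zero
      · rw [hx0, inv_zero, zero_mul, map_zero]
    · refine ⟨U₂, U₁, h2, h1, ?_, ?_⟩
      · rw [he]; exact mul_ne_zero hx0 h0
      · rw [he, ← mul_assoc, inv_mul_cancel₀ hx0, one_mul]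
  | mul x y hx hy ihx ihy =>
    obtain ⟨U₁, U₂, h1, h2, h0, he⟩ := ihx
    obtain ⟨W₁, W₂, g1, g2, g0, ge⟩ := ihy
    refine ⟨U₁ * W₁, U₂ * W₂, ?_, ?_, ?_, ?_⟩
    · rw [map_mul]; exact mul_mem h1 g1
    · rw [map_mul]; exact mul_mem h2 g2
    · rw [map_mul]; exact mul_ne_zero h0 g0
    · rw [map_mul, map_mul, he, ge]
      ring

end Lift

section Frob

variable (k : Type*) [Field k] (q : ℕ) [NeZero q] (N : ℕ) [NeZero N]

/-- `j(t^d)^q = j(t^{dq})` in characteristic `q` (integer coefficients). -/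
theorem jqd_pow_char (hq : q.Prime) [CharP k q] (d : ℕ) [NeZero d] :
    (qExpand k d (jqModC k)) ^ q = qExpand k q (qExpand k d (jqModC k)) := by
  haveI : Fact q.Prime := ⟨hq⟩
  obtain ⟨g, hg⟩ := H528.exists_frobCong q (jqNModC ℤ d)
  have h := congrArg (coeffMap (Int.castRingHom k)) hg
  rw [map_sub, map_mul, map_pow, coeffMap_qExpand, coeffMap_jqNModC] at h
  have hC : coeffMap (Int.castRingHom k) (HahnSeries.C ((q : ℕ) : ℤ)) = 0 := by
    have h1 : (HahnSeries.C ((q : ℕ) : ℤ) : LaurentSeries ℤ) = HahnSeries.single 0 ((q : ℕ) : ℤ) :=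
      rfl
    rw [h1, coeffMap_single]
    have h2 : (Int.castRingHom k) ((q : ℕ) : ℤ) = 0 := by
      rw [eq_intCast, Int.cast_natCast]
      exact CharP.cast_eq_zero k q
    rw [h2, HahnSeries.single_eq_zero]
  rw [hC, zero_mul, sub_eq_zero] at h
  exact h.symm

/-- **Frobenius twist on `F_k`.** -/
theorem exists_frob_root_of_mem_fullC (hq : q.Prime) [CharP k q]
    (hperf : ∀ c : k, ∃ c' : k, c' ^ q = c) {r : LaurentSeries k}
    (hr : r ∈ modularFunctionFieldFullC k N) :
    ∃ r' ∈ modularFunctionFieldFullC k N, r' ^ q = qExpand k q r := by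
  haveI : Fact q.Prime := ⟨hq⟩
  haveI : CharP (LaurentSeries k) q :=
    charP_of_injective_algebraMap (algebraMap k (LaurentSeries k)).injective q
  have key : ∀ x ∈ IntermediateField.adjoin k (divisorExpansionsC k N),
      ∃ r' ∈ modularFunctionFieldFullC k N, r' ^ q = qExpand k q x := by
    intro x hx
    induction hx using IntermediateField.adjoin_induction with
    | mem x hx =>
      obtain ⟨d, hd, hdN, rfl⟩ := hx
      exact ⟨_, jqModCd_mem_full k N hdN, jqd_pow_char k q hq d⟩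
    | algebraMap c =>
      obtain ⟨c', rfl⟩ := hperf c
      refine ⟨algebraMap k (LaurentSeries k) c',
        (modularFunctionFieldFullC k N).algebraMap_mem _, ?_⟩
      rw [← map_pow, algebraMap_laurentSeries_eq_single, qExpand_single, mul_zero]
    | add x y hx hy ihx ihy =>
      obtain ⟨x', hx', hxe⟩ := ihx
      obtain ⟨y', hy', hye⟩ := ihy
      refine ⟨x' + y', add_mem hx' hy', ?_⟩
      rw [add_pow_char, hxe, hye, map_add]
    | inv x hx ihx =>
      obtain ⟨x', hx', hxe⟩ := ihx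
      refine ⟨x'⁻¹, inv_mem hx', ?_⟩
      rw [inv_pow, hxe, map_inv₀]
    | mul x y hx hy ihx ihy =>
      obtain ⟨x', hx', hxe⟩ := ihx
      obtain ⟨y', hy', hye⟩ := ihy
      refine ⟨x' * y', mul_mem hx' hy', ?_⟩
      rw [mul_pow, hxe, hye, map_mul]
  exact key r hr

end Frob

end Fermat.Agent.A2.Mod.H96

end
end
-- ===== PACK-END A2/Mod/H96/L12Lift.lean

-- ===== PACK-BEGIN A2/Mod/H708/Vinf.lean
section



/-!
# A2 / MOD leaves L1 `VinfExists` and L2 `VinfBasic` (helper708)

Exact shapes of `Fermat/Agent/A2/Mod/Spec.lean` (architect helper994):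

* `vinfE P E N : ValuationSubring (FE E N)` — the Gauss valuation ring at `∞` over `R_E = P ∩ E`
  (`= H708.gaussInf`), for `R_E` noetherian;
* `isVinf_vinfE`, `eq_vinfE_of_isVinf` (the predicate `IsVinf` determines `V`);
* `vinfExists : VinfExistsStatement P E`                                              (L1);
* `vinfBasic : VinfBasicStatement P E w`                                              (L2);
* reusable: `mem_of_isVinf_of_incl`, `inv_mem_of_isVinf_of_incl` (functions with an `R_E`-integral,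
  resp. primitive `R_E`-integral, expansion are integral, resp. units),
  `algebraMap_mem_iff_of_isVinf`, `exists_const_mul_unit_of_isVinf`, `red_castA_jInt_ne_zero`.
-/

set_option autoImplicit false
set_option synthInstance.maxHeartbeats 400000
set_option maxHeartbeats 1600000

noncomputable section

namespace Fermat.Agent.A2.Mod.H708

open ModularCurve HahnSeries Polynomial
open Fermat.Agent.A2

variable (P : ValuationSubring _root_.Fermat.Agent.A2.Mod.Qb) (E : IntermediateField ℚ _root_.Fermat.Agent.A2.Mod.Qb)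

/-- The Gauss valuation ring at `∞` of `F_{N,E}` over `R_E` (`R_E` noetherian, e.g. a DVR). -/
def vinfE (N : ℕ) [IsNoetherianRing (_root_.Fermat.Agent.A2.Mod.RE P E)] : ValuationSubring (_root_.Fermat.Agent.A2.Mod.FE E N) :=
  H708.gaussInf (_root_.Fermat.Agent.A2.Mod.RE P E) (modularFunctionFieldFull N) (H708.intGen_full N)
    (H708.attainsMax_of_isNoetherianRing (_root_.Fermat.Agent.A2.Mod.RE P E) (modularFunctionFieldFull N))

theorem isVinf_vinfE (N : ℕ) [IsNoetherianRing (_root_.Fermat.Agent.A2.Mod.RE P E)] : IsVinf P E N (vinfE P E N) :=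
  fun _ => Iff.rfl

variable {P E}

/-- `IsVinf` determines the valuation ring. -/
theorem eq_vinfE_of_isVinf {N : ℕ} [IsNoetherianRing (_root_.Fermat.Agent.A2.Mod.RE P E)] {V : ValuationSubring (_root_.Fermat.Agent.A2.Mod.FE E N)}
    (hV : IsVinf P E N V) : V = vinfE P E N := by
  ext f
  rw [hV f]
  exact Iff.rfl

/-- functions with an `R_E`-integral expansion lie in `V∞`. -/
theorem mem_of_isVinf_of_incl {N : ℕ} {V : ValuationSubring (_root_.Fermat.Agent.A2.Mod.FE E N)} (hV : IsVinf P E N V)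
    {f : _root_.Fermat.Agent.A2.Mod.FE E N} (U : LaurentSeries (_root_.Fermat.Agent.A2.Mod.RE P E))
    (h : (f : LaurentSeries E) = H708.incl (_root_.Fermat.Agent.A2.Mod.RE P E) U) : f ∈ V := by
  rw [hV f, h]
  exact H708.IsGaussInt.of_incl U

/-- functions with a primitive `R_E`-integral expansion are units of `V∞`. -/
theorem inv_mem_of_isVinf_of_incl {N : ℕ} {V : ValuationSubring (_root_.Fermat.Agent.A2.Mod.FE E N)} (hV : IsVinf P E N V)
    {f : _root_.Fermat.Agent.A2.Mod.FE E N} (U : LaurentSeries (_root_.Fermat.Agent.A2.Mod.RE P E))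
    (h : (f : LaurentSeries E) = H708.incl (_root_.Fermat.Agent.A2.Mod.RE P E) U) (hU : H708.red (_root_.Fermat.Agent.A2.Mod.RE P E) U ≠ 0) :
    f⁻¹ ∈ V := by
  rw [hV f⁻¹]
  have hf0 : (f : LaurentSeries E) ≠ 0 := by
    rw [h]
    exact H708.incl_ne_zero (_root_.Fermat.Agent.A2.Mod.RE P E) (H708.ne_zero_of_red_ne_zero (_root_.Fermat.Agent.A2.Mod.RE P E) hU)
  refine ⟨1, U, hU, h ▸ f.2, ?_⟩
  rw [IntermediateField.coe_inv, ← h, inv_mul_cancel₀ hf0, map_one]

/-- `V∞ ∩ E = R_E`. -/
theorem algebraMap_mem_iff_of_isVinf {N : ℕ} [IsNoetherianRing (_root_.Fermat.Agent.A2.Mod.RE P E)]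
    {V : ValuationSubring (_root_.Fermat.Agent.A2.Mod.FE E N)} (hV : IsVinf P E N V) (e : E) :
    algebraMap E (_root_.Fermat.Agent.A2.Mod.FE E N) e ∈ V ↔ e ∈ _root_.Fermat.Agent.A2.Mod.RE P E := by
  rw [eq_vinfE_of_isVinf hV]
  exact H708.algebraMap_mem_gaussInf_iff _ _ e

/-- value group of `V∞` = value group of `R_E`. -/
theorem exists_const_mul_unit_of_isVinf {N : ℕ} [IsNoetherianRing (_root_.Fermat.Agent.A2.Mod.RE P E)]
    {V : ValuationSubring (_root_.Fermat.Agent.A2.Mod.FE E N)} (hV : IsVinf P E N V) {f : _root_.Fermat.Agent.A2.Mod.FE E N} (hf : f ≠ 0) :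
    ∃ c : E, c ≠ 0 ∧ V.valuation (f * (algebraMap E (_root_.Fermat.Agent.A2.Mod.FE E N) c)⁻¹) = 1 := by
  rw [eq_vinfE_of_isVinf hV]
  exact H708.exists_const_mul_unit _ _ hf

/-- the reduction of `j(t^d)` is nonzero. -/
theorem red_castA_jInt_ne_zero (d : ℕ) [NeZero d] :
    H708.red (_root_.Fermat.Agent.A2.Mod.RE P E) (H708.castA (_root_.Fermat.Agent.A2.Mod.RE P E) (H708.jInt d)) ≠ 0 := by
  have h1 : H708.red (_root_.Fermat.Agent.A2.Mod.RE P E) (H708.castA (_root_.Fermat.Agent.A2.Mod.RE P E) (H708.jInt d))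
      = jqNModC (IsLocalRing.ResidueField (_root_.Fermat.Agent.A2.Mod.RE P E)) d := by
    show coeffMap _ (coeffMap _ (jqNModC ℤ d)) = _
    rw [coeffMap_jqNModC, coeffMap_jqNModC]
  rw [h1]
  intro h0
  have h2 : (jqNModC (IsLocalRing.ResidueField (_root_.Fermat.Agent.A2.Mod.RE P E)) d).coeff ((d : ℤ) * (-1)) = 1 := by
    rw [jqNModC, qExpand_coeff_mul, coeff_jqModC_neg_one]
  rw [h0] at h2
  simp at h2

/-- `j_d` has the `R_E`-integral expansion `j(t^d) ∈ ℤ((t))`. -/
theorem coe_jE_eq (N d : ℕ) [NeZero d] (hd : d ∣ N) :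
    ((jE E N d hd : _root_.Fermat.Agent.A2.Mod.FE E N) : LaurentSeries E)
      = H708.incl (_root_.Fermat.Agent.A2.Mod.RE P E) (H708.castA (_root_.Fermat.Agent.A2.Mod.RE P E) (H708.jInt d)) := by
  rw [H708.incl_castA, H708.castQ_jInt]
  rfl

section L1

variable (P E)

/-- **L1** (`VinfExistsStatement`): the Gauss valuation ring exists at every level. -/
theorem vinfExists : VinfExistsStatement P E := by
  intro N _ hdvr
  have := hdvr
  exact ⟨vinfE P E N, isVinf_vinfE P E N⟩

end L1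

section L2

variable (P E) (w : _root_.Fermat.Agent.A2.Mod.RE P E)

/-- **L2** (`VinfBasicStatement`): `w` is a uniformiser of `V∞`, `V∞ ∩ E = R_E`, and the
generators `j_d` are units of `V∞`. -/
theorem vinfBasic : VinfBasicStatement P E w := by
  intro N _ hdvr hw V hV
  have := hdvr
  have hw0 : (w : E) ≠ 0 := fun h => hw.ne_zero (Subtype.ext h)
  refine ⟨⟨?_, ?_, ?_⟩, fun e => algebraMap_mem_iff_of_isVinf hV e, ?_⟩
  · -- `w ∈ V`
    exact (algebraMap_mem_iff_of_isVinf hV (w : E)).mpr w.2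
  · -- `w⁻¹ ∉ V`
    intro h
    have h1 : (cE P E N w)⁻¹ = algebraMap E (_root_.Fermat.Agent.A2.Mod.FE E N) ((w : E)⁻¹) := by
      rw [cE, map_inv₀]
    rw [h1] at h
    have h2 : (w : E)⁻¹ ∈ _root_.Fermat.Agent.A2.Mod.RE P E := (algebraMap_mem_iff_of_isVinf hV _).mp h
    refine hw.not_isUnit (IsUnit.of_mul_eq_one (⟨(w : E)⁻¹, h2⟩ : _root_.Fermat.Agent.A2.Mod.RE P E) ?_)
    exact Subtype.ext (mul_inv_cancel₀ hw0)
  · -- every non-unit is divisible by `w`
    intro f hf hfinv
    have hf0 : f ≠ 0 := by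
      rintro rfl
      exact hfinv (by rw [inv_zero]; exact V.zero_mem)
    obtain ⟨c, hc, hu⟩ := exists_const_mul_unit_of_isVinf hV hf0
    have hcF : algebraMap E (_root_.Fermat.Agent.A2.Mod.FE E N) c ≠ 0 := by
      rw [Ne, map_eq_zero]
      exact hc
    -- `v(f) = v(c)`
    have hvf : V.valuation f = V.valuation (algebraMap E (_root_.Fermat.Agent.A2.Mod.FE E N) c) := by
      rw [map_mul, map_inv₀] at hu
      have hv0 : V.valuation (algebraMap E (_root_.Fermat.Agent.A2.Mod.FE E N) c) ≠ 0 :=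
        (Valuation.ne_zero_iff _).mpr hcF
      calc V.valuation f
          = V.valuation f * (V.valuation (algebraMap E (_root_.Fermat.Agent.A2.Mod.FE E N) c))⁻¹ *
              V.valuation (algebraMap E (_root_.Fermat.Agent.A2.Mod.FE E N) c) := by
            rw [mul_assoc, inv_mul_cancel₀ hv0, mul_one]
        _ = V.valuation (algebraMap E (_root_.Fermat.Agent.A2.Mod.FE E N) c) := by rw [hu, one_mul]
    have hcV : algebraMap E (_root_.Fermat.Agent.A2.Mod.FE E N) c ∈ V := by
      rw [← ValuationSubring.valuation_le_one_iff, ← hvf, ValuationSubring.valuation_le_one_iff]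
      exact hf
    have hcinvV : (algebraMap E (_root_.Fermat.Agent.A2.Mod.FE E N) c)⁻¹ ∉ V := by
      rw [← ValuationSubring.valuation_le_one_iff, map_inv₀, ← hvf, ← map_inv₀,
        ValuationSubring.valuation_le_one_iff]
      exact hfinv
    have hcR : c ∈ _root_.Fermat.Agent.A2.Mod.RE P E := (algebraMap_mem_iff_of_isVinf hV c).mp hcV
    have hcinvR : c⁻¹ ∉ _root_.Fermat.Agent.A2.Mod.RE P E := by
      intro h
      exact hcinvV (by rw [← map_inv₀]; exact (algebraMap_mem_iff_of_isVinf hV _).mpr h)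
    -- `c` is a non-unit of `R_E`, hence divisible by `w`
    have hnu : ¬ IsUnit (⟨c, hcR⟩ : _root_.Fermat.Agent.A2.Mod.RE P E) := by
      intro hunit
      obtain ⟨d, hd⟩ := hunit.exists_right_inv
      apply hcinvR
      have h3 : c * (d : E) = 1 := congrArg Subtype.val hd
      have h4 : c⁻¹ = (d : E) := inv_eq_of_mul_eq_one_right h3
      rw [h4]
      exact d.2
    have hmem : (⟨c, hcR⟩ : _root_.Fermat.Agent.A2.Mod.RE P E) ∈ IsLocalRing.maximalIdeal (_root_.Fermat.Agent.A2.Mod.RE P E) :=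
      (IsLocalRing.mem_maximalIdeal _).mpr hnu
    rw [(IsDiscreteValuationRing.irreducible_iff_uniformizer w).mp hw,
      Ideal.mem_span_singleton] at hmem
    obtain ⟨d, hd⟩ := hmem
    have hcd : c = (w : E) * (d : E) := congrArg Subtype.val hd
    have hdV : algebraMap E (_root_.Fermat.Agent.A2.Mod.FE E N) (d : E) ∈ V := (algebraMap_mem_iff_of_isVinf hV _).mpr d.2
    have hunitV : f * (algebraMap E (_root_.Fermat.Agent.A2.Mod.FE E N) c)⁻¹ ∈ V := by
      rw [← ValuationSubring.valuation_le_one_iff, hu]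
    have hkey : f * (cE P E N w)⁻¹
        = f * (algebraMap E (_root_.Fermat.Agent.A2.Mod.FE E N) c)⁻¹ * algebraMap E (_root_.Fermat.Agent.A2.Mod.FE E N) (d : E) := by
      have hwF : cE P E N w ≠ 0 := by
        rw [cE, Ne, map_eq_zero]
        exact hw0
      have hcF' : algebraMap E (_root_.Fermat.Agent.A2.Mod.FE E N) c = cE P E N w * algebraMap E (_root_.Fermat.Agent.A2.Mod.FE E N) (d : E) := by
        rw [cE, ← map_mul, hcd]
      have hdF : algebraMap E (_root_.Fermat.Agent.A2.Mod.FE E N) (d : E) ≠ 0 := by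
        intro h0
        rw [h0, mul_zero] at hcF'
        exact hcF hcF'
      rw [hcF']
      field_simp
    rw [hkey]
    exact V.mul_mem _ _ hunitV hdV
  · -- the `j_d` are units
    intro d _ hd
    exact ⟨mem_of_isVinf_of_incl hV _ (coe_jE_eq N d hd),
      inv_mem_of_isVinf_of_incl hV _ (coe_jE_eq N d hd) (red_castA_jInt_ne_zero d)⟩

end L2

end Fermat.Agent.A2.Mod.H708

end
end
-- ===== PACK-END A2/Mod/H708/Vinf.lean

-- ===== PACK-BEGIN A2/T0/H669/T0.lean
section




/-!
# WALL A2, piece T0 (helper669): Kummer form of the wall ⇒ the wall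

Interface of `origin/helper13:Fermat/Agent/A2/{Spec,Skel}.lean` (`target_of_kummerTarget`), stated
here with the two definitions `KummerTarget`, `Target` of `Spec.lean` UNFOLDED (so that this file
only imports files which are on main).  `Spec.act N τ` is by definition
`arithmeticRingAut (modularFunctionFieldFull N) τ`.

* `a2Kummer_of_kummer`          : one `τ`; pointwise Kummer statement ⇒ `H129.A2Kummer N m τ`
                                  (the hypothesis consumed by `H909` / TRANSFER).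
* `unipotent_of_kummer`         : one `τ`; pointwise Kummer statement ⇒ `τ•τ•x + x = 2•τ•x`.
* `target_of_kummerTarget`      : `KummerTarget N q m → Target N q m` (both unfolded), VERBATIM the
                                  statement T0 of `Skel.lean` after `unfold KummerTarget Target act`.
* `a2Kummer_of_kummerTarget`    : `KummerTarget N q m → ∀ P | q, ∀ τ ∈ I_P, H129.A2Kummer N m τ`.
-/

set_option autoImplicit false

noncomputable section

namespace Fermat.Agent.A2.T0.H669

open ModularCurve AlgebraicCurve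

/-- The pointwise Kummer statement for one `τ` (body of `Spec.KummerTarget`). -/
def KummerAt (N m : ℕ) (τ : AlgebraicClosure ℚ ≃ₐ[ℚ] AlgebraicClosure ℚ) : Prop :=
  ∀ f : modularFunctionFieldBar N, f ≠ 0 →
    (∀ v : Place (AlgebraicClosure ℚ) (modularFunctionFieldBar N), (m : ℤ) ∣ v.ord f) →
    ∃ h : modularFunctionFieldBar N, h ≠ 0 ∧
      arithmeticRingAut (modularFunctionFieldFull N) τ
          (arithmeticRingAut (modularFunctionFieldFull N) τ f) * f =
        h ^ m * (arithmeticRingAut (modularFunctionFieldFull N) τ f) ^ 2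

/-- `(τ-1)² f = τ²f · f / (τ f)²` in the notation of `H129`. -/
theorem tauSubOne_tauSubOne_eq {F : Type*} [Field F] (τ : F ≃+* F) {f : F} (hf : f ≠ 0) :
    H129.tauSubOne τ (H129.tauSubOne τ f) = τ (τ f) * f * ((τ f) ^ 2)⁻¹ := by
  have hτf : τ f ≠ 0 := (map_ne_zero_iff τ τ.injective).2 hf
  unfold H129.tauSubOne
  rw [map_mul, map_inv₀, mul_inv, inv_inv]
  field_simp

/-- One `τ`: the pointwise Kummer statement gives `H129.A2Kummer`. -/
theorem a2Kummer_of_kummer (N m : ℕ) (τ : AlgebraicClosure ℚ ≃ₐ[ℚ] AlgebraicClosure ℚ)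
    (h : KummerAt N m τ) : H129.A2Kummer N m τ := by
  intro f hf hdiv
  obtain ⟨y, _, hy⟩ := h f hf hdiv
  refine ⟨y, 1, one_ne_zero, ?_⟩
  rw [toRingAut_arithmeticGalois, tauSubOne_tauSubOne_eq _ hf, hy, map_one, one_mul]
  have hτf : arithmeticRingAut (modularFunctionFieldFull N) τ f ≠ 0 :=
    (map_ne_zero_iff _ (arithmeticRingAut (modularFunctionFieldFull N) τ).injective).2 hf
  field_simp

/-- One `τ`: the pointwise Kummer statement gives `(τ - 1)² = 0` on `J₀(N)[m]`. -/
theorem unipotent_of_kummer (N m : ℕ) (hm : 0 < m)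
    (τ : AlgebraicClosure ℚ ≃ₐ[ℚ] AlgebraicClosure ℚ) (h : KummerAt N m τ)
    (x : JZero N) (hx : m • x = 0) :
    τ • (τ • x) + x = 2 • (τ • x) := by
  have h1 := H129.unipotent_JZero_of_kummer N m hm.ne' τ (a2Kummer_of_kummer N m τ h) x hx
  rw [smul_sub] at h1
  rw [two_nsmul]
  have h2 : τ • (τ • x) = τ • x - x + τ • x := by
    rw [← h1]; abel
  rw [h2]; abel

/-- **T0** (`target_of_kummerTarget` of `Skel.lean`, definitions unfolded). -/
theorem target_of_kummerTarget (N q m : ℕ) (hm : 0 < m)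
    (h : ∀ P : ValuationSubring (AlgebraicClosure ℚ), P.LiesOverPrime q →
      ∀ τ ∈ P.inertiaSubgroupIn ℚ, ∀ f : modularFunctionFieldBar N, f ≠ 0 →
        (∀ v : Place (AlgebraicClosure ℚ) (modularFunctionFieldBar N), (m : ℤ) ∣ v.ord f) →
        ∃ h : modularFunctionFieldBar N, h ≠ 0 ∧
          arithmeticRingAut (modularFunctionFieldFull N) τ
              (arithmeticRingAut (modularFunctionFieldFull N) τ f) * f =
            h ^ m * (arithmeticRingAut (modularFunctionFieldFull N) τ f) ^ 2) :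
    ∀ P : ValuationSubring (AlgebraicClosure ℚ), P.LiesOverPrime q →
      ∀ τ ∈ P.inertiaSubgroupIn ℚ, ∀ x : JZero N, m • x = 0 →
        τ • (τ • x) + x = 2 • (τ • x) :=
  fun P hP τ hτ x hx => unipotent_of_kummer N m hm τ (h P hP τ hτ) x hx

/-- **T0'** : the form consumed by `H909` (TRANSFER): `H129.A2Kummer` for every inertia
element at `q`. -/
theorem a2Kummer_of_kummerTarget (N q m : ℕ)
    (h : ∀ P : ValuationSubring (AlgebraicClosure ℚ), P.LiesOverPrime q →
      ∀ τ ∈ P.inertiaSubgroupIn ℚ, ∀ f : modularFunctionFieldBar N, f ≠ 0 →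
        (∀ v : Place (AlgebraicClosure ℚ) (modularFunctionFieldBar N), (m : ℤ) ∣ v.ord f) →
        ∃ h : modularFunctionFieldBar N, h ≠ 0 ∧
          arithmeticRingAut (modularFunctionFieldFull N) τ
              (arithmeticRingAut (modularFunctionFieldFull N) τ f) * f =
            h ^ m * (arithmeticRingAut (modularFunctionFieldFull N) τ f) ^ 2) :
    ∀ P : ValuationSubring (AlgebraicClosure ℚ), P.LiesOverPrime q →
      ∀ τ ∈ P.inertiaSubgroupIn ℚ, H129.A2Kummer N m τ :=
  fun P hP τ hτ => a2Kummer_of_kummer N m τ (h P hP τ hτ)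

end Fermat.Agent.A2.T0.H669

end
end
-- ===== PACK-END A2/T0/H669/T0.lean

-- ===== PACK-BEGIN A2/Top/H994/Wall.lean
section



/-!
# WALL A2 — final assembly for ALL `q` (deputy helper994)

The MOD block can produce the semistable model `ModSSData P E N` only at levels `N` where the
good-reduction input at level `M = N / q` is available from S18: for `q = 3` this needs `2 ∣ N`,
for `q = 2` it needs `3 ∣ N` (Hauptmodul charts).  This file closes the wall for every level:

* `t1_perN`            : `T1` for ONE level `N` (same proof as `T1.H669.t1`, which uses MOD only at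
                         the level `N`);
* `ModSSGoodStatement` : `ModSSStatement` restricted to levels with the auxiliary prime;
* `D2Statement`        : descent of `KummerTarget` from the auxiliary level to `N` (norm trick,
                         degree `3` resp. `4`, prime to `m`; owners helper876 / helper133);
* `wall`               : `AlgSS → IF → ModSSGood → D2 → Target N q m` for all `q ‖ N`, `q ∤ m`.
-/

set_option autoImplicit false
set_option synthInstance.maxHeartbeats 400000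
set_option maxHeartbeats 1600000

noncomputable section

namespace Fermat.Agent.A2.Top.H994

open ModularCurve AlgebraicCurve Fermat.Agent.A2 Fermat.Agent.A2.T1.H669

/-- **T1 for one level.**  `ALG + IF + (MOD at the level N) ⟹ KummerTarget N q m`. -/
theorem t1_perN (hALG : AlgSSStatement) (hIF : IFStatement) (N q m : ℕ) (hq : q.Prime)
    (hm : 0 < m) (hqm : ¬ q ∣ m)
    (hMOD : ∀ (P : ValuationSubring _root_.Fermat.Agent.A2.Qb) (E : IntermediateField ℚ _root_.Fermat.Agent.A2.Qb),
      P.LiesOverPrime q → GoodField P E → Nonempty (ModSSData P E N)) :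
    KummerTarget N q m := by
  intro P hP τ hτ f hf hdiv
  refine kummer_of_levels (modularFunctionFieldFull N) m τ (fun S => ?_) f hf hdiv
  obtain ⟨E, hSE, hE⟩ := hIF q hq P hP S
  refine ⟨E, hSE, hE.res τ hτ, fun e => rfl, fun y hy0 hdd => ?_⟩
  obtain ⟨D⟩ := hMOD P E hP hE
  haveI : IsDiscreteValuationRing ↥(RE P E) := hE.dvr
  haveI : HenselianLocalRing ↥(RE P E) := hE.henselian
  haveI : IsAlgClosed (IsLocalRing.ResidueField ↥(RE P E)) := hE.algClosed
  obtain ⟨w, hw⟩ := IsDiscreteValuationRing.exists_irreducible ↥(RE P E)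
  obtain ⟨cf⟩ := D.cf w hw
  obtain ⟨ci⟩ := D.ci w hw
  have hconcl : AlgSSConclusion E m
      (arithmeticRingAut (modularFunctionFieldFull N) (hE.res τ hτ)) :=
    hALG (R := ↥(RE P E)) (E := E) (F := ↥(FE E N)) w hw q m hq
      (natCast_mem_maximalIdeal_RE E hP) hm hqm D.x D.hx D.hfin D.hconst D.Bf D.Bi D.hBf D.hBi
      cf ci D.sf D.si
      (arithmeticRingAut (modularFunctionFieldFull N) (hE.res τ hτ))
      (hE.res τ hτ).toRingEquiv (resR hE τ hτ)
      (fun e => arithmeticRingAut_algebraMap (modularFunctionFieldFull N) (hE.res τ hτ) e)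
      (fun r => rfl)
      (D.hτx hE τ hτ)
      (finite_order_arithmeticRingAut (modularFunctionFieldFull N) hE τ hτ)
      (D.hτf hE τ hτ w hw) (D.hτi hE τ hτ w hw)
  exact hconcl y hy0 hdd

/-- The auxiliary level: `lcm N 2` for `q = 3`, `lcm N 3` for `q = 2`, `N` otherwise. -/
def auxLevel (N q : ℕ) : ℕ :=
  if q = 3 then Nat.lcm N 2 else if q = 2 then Nat.lcm N 3 else N

/-- **MOD, producible form**: the semistable model at the levels `N` with `q ‖ N` which contain
the auxiliary prime (`2 ∣ N` if `q = 3`, `3 ∣ N` if `q = 2`). -/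
def ModSSGoodStatement : Prop :=
  ∀ (P : ValuationSubring _root_.Fermat.Agent.A2.Qb) (E : IntermediateField ℚ _root_.Fermat.Agent.A2.Qb) (N q : ℕ),
    q.Prime → q ∣ N → ¬ q ^ 2 ∣ N → N ≠ 0 → (q = 3 → 2 ∣ N) → (q = 2 → 3 ∣ N) →
    P.LiesOverPrime q → GoodField P E → Nonempty (ModSSData P E N)

/-- **D2, auxiliary-level descent** (norm trick; `[F_{aux} : F_N] ∈ {1, 3, 4}` is prime to `m`). -/
def D2Statement : Prop :=
  ∀ (N q m : ℕ), q.Prime → q ∣ N → ¬ q ^ 2 ∣ N → N ≠ 0 → 0 < m → ¬ q ∣ m →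
    KummerTarget (auxLevel N q) q m → KummerTarget N q m

theorem auxLevel_ne_zero {N : ℕ} (q : ℕ) (hN : N ≠ 0) : auxLevel N q ≠ 0 := by
  unfold auxLevel
  split_ifs
  · exact Nat.lcm_ne_zero hN (by norm_num)
  · exact Nat.lcm_ne_zero hN (by norm_num)
  · exact hN

theorem dvd_auxLevel (N q : ℕ) : N ∣ auxLevel N q := by
  unfold auxLevel
  split_ifs
  · exact Nat.dvd_lcm_left N 2
  · exact Nat.dvd_lcm_left N 3
  · exact dvd_rfl

theorem not_sq_dvd_lcm {N q a : ℕ} (hq : q.Prime) (ha : a.Prime) (hqa : q ≠ a)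
    (hq2 : ¬ q ^ 2 ∣ N) : ¬ q ^ 2 ∣ Nat.lcm N a := by
  intro h
  have hdvd : Nat.lcm N a ∣ N * a := Nat.lcm_dvd_mul N a
  have h1 : q ^ 2 ∣ N * a := h.trans hdvd
  have hcop : Nat.Coprime (q ^ 2) a := by
    apply Nat.Coprime.pow_left
    exact (Nat.coprime_primes hq ha).2 hqa
  exact hq2 (hcop.dvd_of_dvd_mul_right h1)

theorem not_sq_dvd_auxLevel {N q : ℕ} (hq : q.Prime) (hq2 : ¬ q ^ 2 ∣ N) :
    ¬ q ^ 2 ∣ auxLevel N q := by
  unfold auxLevel
  split_ifs with h3 h2
  · exact not_sq_dvd_lcm hq Nat.prime_two (by omega) hq2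
  · exact not_sq_dvd_lcm hq Nat.prime_three (by omega) hq2
  · exact hq2

theorem aux_two_dvd {N q : ℕ} (h : q = 3) : 2 ∣ auxLevel N q := by
  unfold auxLevel
  rw [if_pos h]
  exact Nat.dvd_lcm_right N 2

theorem aux_three_dvd {N q : ℕ} (h : q = 2) : 3 ∣ auxLevel N q := by
  unfold auxLevel
  rw [if_neg (by omega), if_pos h]
  exact Nat.dvd_lcm_right N 3

/-- **The Kummer form of the wall, all `q`.** -/
theorem kummerTarget_all (hALG : AlgSSStatement) (hIF : IFStatement)
    (hMOD : ModSSGoodStatement) (hD2 : D2Statement)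
    (N q m : ℕ) (hq : q.Prime) (hqN : q ∣ N) (hq2 : ¬ q ^ 2 ∣ N) (hN : N ≠ 0) (hm : 0 < m)
    (hqm : ¬ q ∣ m) : KummerTarget N q m := by
  apply hD2 N q m hq hqN hq2 hN hm hqm
  apply t1_perN hALG hIF (auxLevel N q) q m hq hm hqm
  intro P E hP hE
  exact hMOD P E (auxLevel N q) q hq (hqN.trans (dvd_auxLevel N q))
    (not_sq_dvd_auxLevel hq hq2) (auxLevel_ne_zero q hN) aux_two_dvd aux_three_dvd hP hE

/-- **The wall A2, all `q`**: unipotent inertia on `J₀(N)[m]` at every `q ‖ N`, `q ∤ m`. -/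
theorem wall (hALG : AlgSSStatement) (hIF : IFStatement)
    (hMOD : ModSSGoodStatement) (hD2 : D2Statement)
    (N q m : ℕ) (hq : q.Prime) (hqN : q ∣ N) (hq2 : ¬ q ^ 2 ∣ N) (hN : N ≠ 0) (hm : 0 < m)
    (hqm : ¬ q ∣ m) : Target N q m :=
  Fermat.Agent.A2.T0.H669.target_of_kummerTarget N q m hm
    (kummerTarget_all hALG hIF hMOD hD2 N q m hq hqN hq2 hN hm hqm)

end Fermat.Agent.A2.Top.H994

end

end
-- ===== PACK-END A2/Top/H994/Wall.lean

-- ===== PACK-BEGIN A2/Mod/H732/SepGauss.lean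
section



/-!
# A2 / MOD, piece S4 (SepCoord producer), part 3 (helper732): integral basis with discriminant
prime to `ϖ`, in the `H48.GaussPair` framework

`R` factorial with prime `ϖ`, `R[X]` integrally closed, `K = Frac R[X]`, `F / K` finite,
`GaussPair ϖ V₁ V₂ b c` (two extensions of the Gauss valuation, `e = 1`, residue degrees
`f₁ + f₂ = [F : K]`) with separable residue extensions (liftable elementwise form over `R[X]`).
Then there are `[F : K]` elements of `F`, integral over `R[X]`, `K`-linearly independent, whose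
discriminant is `d(X)` with `d ∈ R[X]` not divisible by `ϖ`.

* `GaussPair.exists_mul_isIntegral` : elements of `V₁ ∩ V₂` are integral over `R[X]` up to a
  denominator prime to `ϖ`;
* `GaussPair.exists_integral_basis_discr` : the theorem.
-/

set_option autoImplicit false
set_option linter.style.haveILetI false
set_option linter.unusedSectionVars false

noncomputable section

namespace Fermat.Agent.A2.Mod.H732

open Polynomial Fermat.Agent.A2.H48

variable {R : Type*} [CommRing R] [IsDomain R] [UniqueFactorizationMonoid R]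
variable {K F : Type*} [Field K] [Field F] [Algebra R[X] K] [IsFractionRing R[X] K]
  [Algebra K F] [Algebra R[X] F] [IsScalarTower R[X] K F]
variable {ϖ : R} {V₁ V₂ : ValuationSubring F} {f₁ f₂ : ℕ} {b : Fin f₁ → F} {c : Fin f₂ → F}

/-- Elements of `V₁ ∩ V₂` are integral over `R[X]` up to a denominator prime to `ϖ`. -/
theorem exists_mul_isIntegral [FiniteDimensional K F] (h : GaussPair (K := K) ϖ V₁ V₂ b c)
    {z : F} (hz₁ : z ∈ V₁) (hz₂ : z ∈ V₂) :
    ∃ g : R[X], ¬ C ϖ ∣ g ∧ IsIntegral R[X] (algebraMap R[X] F g * z) := by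
  classical
  obtain ⟨p, hp, hpc, hpz⟩ := h.exists_monic_of_mem hz₁ hz₂
  have hex : ∀ i : ℕ, ∃ P Q : R[X], ¬ C ϖ ∣ Q ∧
      p.coeff i = algebraMap R[X] K P / algebraMap R[X] K Q := fun i =>
    exists_div_of_mem_gaussRing h.prime h.unif₁ h.poly₁ h.gauss₁ (hpc i)
  choose P Q hQ hPQ using hex
  have hQ0 : ∀ i, algebraMap R[X] K (Q i) ≠ 0 := by
    intro i h0
    have := (IsFractionRing.injective R[X] K) (h0.trans (map_zero _).symm)
    exact hQ i (this ▸ dvd_zero _)
  set g : R[X] := ∏ i ∈ Finset.range p.natDegree, Q i with hg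
  have hgϖ : ¬ C ϖ ∣ g := by
    rw [hg, (prime_C h.prime).dvd_finsetProd_iff]
    rintro ⟨i, -, hi⟩
    exact hQ i hi
  have hgcoef : ∀ i ∈ Finset.range p.natDegree,
      p.coeff i * algebraMap R[X] K g ∈ Set.range (algebraMap R[X] K) := by
    intro i hi
    refine ⟨P i * ∏ j ∈ (Finset.range p.natDegree).erase i, Q j, ?_⟩
    rw [hg, ← Finset.mul_prod_erase _ _ hi, map_mul, map_mul, hPQ i]
    field_simp [hQ0 i]
  refine ⟨g, hgϖ, ?_⟩
  set q := p.scaleRoots (algebraMap R[X] K g) with hq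
  have hqm : q.Monic := (monic_scaleRoots_iff _).2 hp
  have hqlift : q ∈ lifts (algebraMap R[X] K) := by
    rw [lifts_iff_coeff_lifts]
    intro i
    rw [hq, coeff_scaleRoots]
    rcases lt_trichotomy i p.natDegree with hi | hi | hi
    · obtain ⟨r, hr⟩ : ∃ r, p.natDegree - i = r + 1 := ⟨p.natDegree - i - 1, by omega⟩
      obtain ⟨a, ha⟩ := hgcoef i (Finset.mem_range.2 hi)
      refine ⟨a * g ^ r, ?_⟩
      rw [map_mul, map_pow, ha, hr, pow_succ]
      ring
    · refine ⟨1, ?_⟩
      rw [hi, hp.coeff_natDegree, Nat.sub_self, pow_zero, mul_one, map_one]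
    · refine ⟨0, ?_⟩
      rw [coeff_eq_zero_of_natDegree_lt hi, zero_mul, map_zero]
  obtain ⟨q', hq', -, hq'm⟩ := lifts_and_natDegree_eq_and_monic hqlift hqm
  refine ⟨q', hq'm, ?_⟩
  have e : eval₂ (algebraMap R[X] F) (algebraMap R[X] F g * z) q' =
      aeval (algebraMap K F (algebraMap R[X] K g) * z) (q'.map (algebraMap R[X] K)) := by
    rw [aeval_def, eval₂_map, ← IsScalarTower.algebraMap_eq, map_eq]
  rw [e, hq', hq]
  exact scaleRoots_aeval_eq_zero hpz

/-- **Integral basis with discriminant prime to `ϖ`.** -/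
theorem exists_integral_basis_discr [FiniteDimensional K F] [IsIntegrallyClosed R[X]]
    (h : GaussPair (K := K) ϖ V₁ V₂ b c)
    (hs₁ : ∀ f : F, f ∈ V₁ → f ∈ V₂ → ∃ Q : R[X][X],
        V₁.valuation (Q.eval₂ (algebraMap R[X] F) f) < 1 ∧
        V₁.valuation ((derivative Q).eval₂ (algebraMap R[X] F) f) = 1)
    (hs₂ : ∀ f : F, f ∈ V₁ → f ∈ V₂ → ∃ Q : R[X][X],
        V₂.valuation (Q.eval₂ (algebraMap R[X] F) f) < 1 ∧
        V₂.valuation ((derivative Q).eval₂ (algebraMap R[X] F) f) = 1) :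
    ∃ y : Fin (f₁ + f₂) → F, (∀ i, IsIntegral R[X] (y i)) ∧ LinearIndependent K y ∧
      ∃ d : R[X], ¬ C ϖ ∣ d ∧ algebraMap R[X] K d = Algebra.discr K y := by
  classical
  have T := h.twoExt
  set O := gaussRing K V₁ with hOdef
  set ϖK := algebraMap R[X] K (C ϖ) with hϖK
  obtain ⟨m, hm⟩ := T.exists_good
  have hcard : Fintype.card (Fin f₁ ⊕ Fin f₂) = Module.finrank K F := by
    rw [Fintype.card_sum, Fintype.card_fin, Fintype.card_fin, h.card]
  haveI : Nonempty (Fin f₁ ⊕ Fin f₂) := by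
    rw [← Fintype.card_pos_iff, hcard]; exact Module.finrank_pos
  -- polynomials over `R[X]` as polynomials over the Gauss ring
  let ψ : R[X] →+* O :=
    { toFun := fun P => ⟨algebraMap R[X] K P, by
        rw [hOdef, mem_gaussRing, map_eq]; exact h.poly₁ P⟩
      map_one' := Subtype.ext (map_one _)
      map_mul' := fun P Q => Subtype.ext (map_mul _ P Q)
      map_zero' := Subtype.ext (map_zero _)
      map_add' := fun P Q => Subtype.ext (map_add _ P Q) }
  have hψ : ((algebraMap K F).comp O.subtype).comp ψ = algebraMap R[X] F := by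
    ext P
    · show algebraMap K F (algebraMap R[X] K (C P)) = algebraMap R[X] F (C P)
      exact map_eq (C P)
    · show algebraMap K F (algebraMap R[X] K X) = algebraMap R[X] F X
      exact map_eq X
  have hconv : ∀ (Q : R[X][X]) (f : F),
      (Q.map ψ).eval₂ ((algebraMap K F).comp O.subtype) f = Q.eval₂ (algebraMap R[X] F) f := by
    intro Q f
    rw [eval₂_map, hψ]
  have hs₁' : ∀ f : F, f ∈ V₁ → f ∈ V₂ → ∃ Q : Polynomial O,
      V₁.valuation (Q.eval₂ ((algebraMap K F).comp O.subtype) f) < 1 ∧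
      V₁.valuation ((derivative Q).eval₂ ((algebraMap K F).comp O.subtype) f) = 1 := by
    intro f hf1 hf2
    obtain ⟨Q, hQ1, hQ2⟩ := hs₁ f hf1 hf2
    refine ⟨Q.map ψ, ?_, ?_⟩
    · rw [hconv]; exact hQ1
    · rw [derivative_map, hconv]; exact hQ2
  have hs₂' : ∀ f : F, f ∈ V₁ → f ∈ V₂ → ∃ Q : Polynomial O,
      V₂.valuation (Q.eval₂ ((algebraMap K F).comp O.subtype) f) < 1 ∧
      V₂.valuation ((derivative Q).eval₂ ((algebraMap K F).comp O.subtype) f) = 1 := by
    intro f hf1 hf2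
    obtain ⟨Q, hQ1, hQ2⟩ := hs₂ f hf1 hf2
    refine ⟨Q.map ψ, ?_, ?_⟩
    · rw [hconv]; exact hQ1
    · rw [derivative_map, hconv]; exact hQ2
  have hdm : O.valuation (Algebra.discr K m) = 1 :=
    discr_unit_of_isGood T.unifO T.unif₁ T.unif₂ T.le₁ T.le₂ T.ne hm hcard hs₁' hs₂'
  -- clearing denominators
  have hex : ∀ l, ∃ g : R[X], ¬ C ϖ ∣ g ∧ IsIntegral R[X] (algebraMap R[X] F g * m l) :=
    fun l => exists_mul_isIntegral h (hm.1 l) (hm.2.1 l)
  choose g hgϖ hgint using hex
  set G : R[X] := ∏ l, g l with hG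
  have hGϖ : ¬ C ϖ ∣ G := by
    rw [hG, (prime_C h.prime).dvd_finsetProd_iff]
    rintro ⟨l, -, hl⟩
    exact hgϖ l hl
  set GK : K := algebraMap R[X] K G with hGK
  have hGK0 : GK ≠ 0 := by
    intro h0
    have := (IsFractionRing.injective R[X] K) (h0.trans (map_zero _).symm)
    exact hGϖ (this ▸ dvd_zero _)
  set y₀ : Fin f₁ ⊕ Fin f₂ → F := fun l => algebraMap R[X] F G * m l with hy₀
  have hy₀int : ∀ l, IsIntegral R[X] (y₀ l) := by
    intro l
    have e : y₀ l = algebraMap R[X] F (∏ l' ∈ Finset.univ.erase l, g l') *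
        (algebraMap R[X] F (g l) * m l) := by
      rw [hy₀, hG, ← Finset.mul_prod_erase _ _ (Finset.mem_univ l), map_mul]
      ring
    rw [e]
    exact isIntegral_algebraMap.mul (hgint l)
  have hy₀smul : ∀ l, y₀ l = GK • m l := by
    intro l
    rw [hy₀, Algebra.smul_def, hGK, map_eq]
  -- the discriminant of `y₀`
  have hdy₀ : Algebra.discr K y₀ = (GK ^ 2) ^ (f₁ + f₂) * Algebra.discr K m := by
    have hmat : Algebra.traceMatrix K y₀ = GK ^ 2 • Algebra.traceMatrix K m := by
      ext i j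
      rw [Matrix.smul_apply, Algebra.traceMatrix_apply, Algebra.traceMatrix_apply,
        Algebra.traceForm_apply, Algebra.traceForm_apply, hy₀smul, hy₀smul, smul_mul_smul_comm,
        map_smul, pow_two]
    rw [Algebra.discr_def, Algebra.discr_def, hmat, Matrix.det_smul, Fintype.card_sum,
      Fintype.card_fin, Fintype.card_fin]
  have hGKinv : O.valuation GK = 1 := by
    have h1 : GK ∈ O := by rw [hOdef, mem_gaussRing, hGK, map_eq]; exact h.poly₁ G
    have h2 : GK⁻¹ ∈ O := by
      rw [hOdef, mem_gaussRing, map_inv₀, hGK, map_eq]; exact h.gauss₁ G hGϖ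
    have h3 : O.valuation GK ≤ 1 := (O.valuation_le_one_iff _).2 h1
    have h4 : O.valuation GK⁻¹ ≤ 1 := (O.valuation_le_one_iff _).2 h2
    rw [map_inv₀] at h4
    have h5 : O.valuation GK ≠ 0 := (Valuation.ne_zero_iff _).2 hGK0
    have h6 : 1 ≤ O.valuation GK := (inv_le_one₀ (zero_lt_iff.2 h5)).1 h4
    exact le_antisymm h3 h6
  have hvy₀ : O.valuation (Algebra.discr K y₀) = 1 := by
    rw [hdy₀, map_mul, map_pow, map_pow, hGKinv, hdm, one_pow, one_pow, one_mul]
  have hli₀ : LinearIndependent K y₀ := by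
    by_contra hcon
    rw [Algebra.discr_zero_of_not_linearIndependent K hcon, map_zero] at hvy₀
    exact zero_ne_one hvy₀
  -- reindexing
  let B₀ : Module.Basis (Fin f₁ ⊕ Fin f₂) K F :=
    basisOfLinearIndependentOfCardEqFinrank hli₀ hcard
  have hB₀ : ⇑B₀ = y₀ := coe_basisOfLinearIndependentOfCardEqFinrank hli₀ hcard
  refine ⟨y₀ ∘ finSumFinEquiv.symm, fun i => hy₀int _, ?_, ?_⟩
  · exact hli₀.comp _ finSumFinEquiv.symm.injective
  · have hre : Algebra.discr K (y₀ ∘ finSumFinEquiv.symm) = Algebra.discr K y₀ := by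
      have := Algebra.discr_reindex K B₀ finSumFinEquiv
      rwa [hB₀] at this
    obtain ⟨d, hd⟩ := (IsIntegrallyClosed.isIntegral_iff (R := R[X]) (K := K)).1
      (Algebra.discr_isIntegral K hy₀int)
    refine ⟨d, ?_, ?_⟩
    · rintro ⟨d', rfl⟩
      rw [map_mul] at hd
      have h1 : O.valuation (algebraMap R[X] K (C ϖ) * algebraMap R[X] K d') = 1 := by
        rw [hd]; exact hvy₀
      rw [map_mul] at h1
      have h2 : O.valuation (algebraMap R[X] K (C ϖ)) < 1 := T.unifO.val_lt_one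
      have h3 : O.valuation (algebraMap R[X] K d') ≤ 1 := by
        rw [O.valuation_le_one_iff, hOdef, mem_gaussRing, map_eq]
        exact h.poly₁ d'
      have h4 : O.valuation (algebraMap R[X] K (C ϖ)) * O.valuation (algebraMap R[X] K d') < 1 := by
        calc O.valuation (algebraMap R[X] K (C ϖ)) * O.valuation (algebraMap R[X] K d')
            ≤ O.valuation (algebraMap R[X] K (C ϖ)) * 1 := mul_le_mul_right h3 _
          _ < 1 := by rw [mul_one]; exact h2
      rw [h1] at h4
      exact lt_irrefl _ h4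
    · rw [hd, hre]

end Fermat.Agent.A2.Mod.H732

end
end
-- ===== PACK-END A2/Mod/H732/SepGauss.lean

-- ===== PACK-BEGIN A2/Mod/H732/SepCoord.lean
section




/-!
# A2 / MOD, piece S4 (SepCoord producer), part 4 (helper732): `Spec.SepCoord` VERBATIM

Context of `AlgSSStatement` (`R` a DVR with uniformiser `w`, `E = Frac R`, `F / E(x)` finite,
`x` transcendental, `B` = integral closure of `R[x]` in `F`).  Hypotheses = the elementwise
`H48.GaussPairLe` data for the coordinate `x` (two valuation rings `V₁ ≠ V₂` of `F` with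
uniformiser `w`, containing `R[x]`, Gauss property, residue-independent families `b`, `c` with
`[F : E(x)] ≤ f₁ + f₂`) + separability of both residue extensions (liftable elementwise form).
Conclusion: `SepCoord R E x B`.

* `polyToAdjoin`, `isFractionRing_adjoin` : `E(x) = IntermediateField.adjoin E {x}` is the
  fraction field of `R[X]` (`X ↦ x`);
* `sepCoord_of_gauss` : the theorem.
-/

set_option autoImplicit false
set_option linter.style.haveILetI false
set_option linter.unusedSectionVars false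

noncomputable section

namespace Fermat.Agent.A2.Mod.H732

open Polynomial Fermat.Agent.A2.H48

section Frac

variable {R E F : Type*} [CommRing R] [IsDomain R]
  [Field E] [Algebra R E] [IsFractionRing R E]
  [Field F] [Algebra E F] [Algebra R F] [IsScalarTower R E F]

theorem aeval_mem_adjoin_simple (x : F) (P : R[X]) :
    aeval x P ∈ IntermediateField.adjoin E ({x} : Set F) := by
  have h1 : aeval x P = aeval x (P.map (algebraMap R E)) := (aeval_map_algebraMap E x P).symm
  rw [h1, IntermediateField.mem_adjoin_simple_iff]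
  exact ⟨P.map (algebraMap R E), 1, by simp⟩

/-- `R[X] → E(x)`, `X ↦ x`. -/
def polyToAdjoin (x : F) : R[X] →+* IntermediateField.adjoin E ({x} : Set F) where
  toFun P := ⟨aeval x P, aeval_mem_adjoin_simple x P⟩
  map_one' := Subtype.ext (map_one _)
  map_mul' P Q := Subtype.ext (map_mul _ P Q)
  map_zero' := Subtype.ext (map_zero _)
  map_add' P Q := Subtype.ext (map_add _ P Q)

theorem coe_polyToAdjoin (x : F) (P : R[X]) :
    ((polyToAdjoin (E := E) x P : IntermediateField.adjoin E ({x} : Set F)) : F) = aeval x P :=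
  rfl

theorem transcendental_of_tower {x : F} (hx : Transcendental E x) : Transcendental R x := by
  intro halg
  obtain ⟨P, hP0, hP⟩ := halg
  apply hx
  refine ⟨P.map (algebraMap R E), ?_, ?_⟩
  · rwa [Ne, Polynomial.map_eq_zero_iff (IsFractionRing.injective R E)]
  · rw [aeval_map_algebraMap]; exact hP

theorem polyToAdjoin_injective {x : F} (hx : Transcendental E x) :
    Function.Injective (polyToAdjoin (R := R) (E := E) x) := by
  rw [injective_iff_map_eq_zero]
  intro P hP
  have h : aeval x P = 0 := congrArg Subtype.val hP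
  exact transcendental_iff.1 (transcendental_of_tower hx) P h

/-- `E(x)` is the fraction field of `R[X]`. -/
theorem isFractionRing_adjoin {x : F} (hx : Transcendental E x) :
    letI : Algebra R[X] (IntermediateField.adjoin E ({x} : Set F)) :=
      (polyToAdjoin (E := E) x).toAlgebra
    IsFractionRing R[X] (IntermediateField.adjoin E ({x} : Set F)) := by
  letI : Algebra R[X] (IntermediateField.adjoin E ({x} : Set F)) :=
    (polyToAdjoin (E := E) x).toAlgebra
  haveI : FaithfulSMul R[X] (IntermediateField.adjoin E ({x} : Set F)) :=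
    (faithfulSMul_iff_algebraMap_injective _ _).2 (polyToAdjoin_injective hx)
  apply IsFractionRing.of_field
  intro z
  obtain ⟨r, s, hz⟩ := (IntermediateField.mem_adjoin_simple_iff E (z : F)).1 z.2
  obtain ⟨br, hbrM, hbr⟩ := IsLocalization.integerNormalization_spec (nonZeroDivisors R) r
  obtain ⟨bs, hbsM, hbs⟩ := IsLocalization.integerNormalization_spec (nonZeroDivisors R) s
  set r' := IsLocalization.integerNormalization (nonZeroDivisors R) r with hr'
  set s' := IsLocalization.integerNormalization (nonZeroDivisors R) s with hs'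
  have hb0 : ∀ b ∈ nonZeroDivisors R, algebraMap R F b ≠ 0 := by
    intro b hb
    rw [IsScalarTower.algebraMap_apply R E F]
    exact (_root_.map_ne_zero _).2
      ((map_ne_zero_iff _ (IsFractionRing.injective R E)).2 (nonZeroDivisors.ne_zero hb))
  have hbr0 := hb0 br hbrM
  have hbs0 := hb0 bs hbsM
  have hsm : ∀ (b : R) (t : E[X]), aeval x (b • t) = algebraMap R F b * aeval x t := by
    intro b t
    have e1 : b • t = C (algebraMap R E b) * t := by
      rw [← smul_eq_C_mul, algebraMap_smul]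
    rw [e1, map_mul, aeval_C, ← IsScalarTower.algebraMap_apply]
  have hr1 : aeval x r' = algebraMap R F br * aeval x r := by
    rw [← aeval_map_algebraMap E x r', hbr, hsm]
  have hs1 : aeval x s' = algebraMap R F bs * aeval x s := by
    rw [← aeval_map_algebraMap E x s', hbs, hsm]
  refine ⟨C bs * r', C br * s', Subtype.ext ?_⟩
  show (z : F) = _
  rw [IntermediateField.coe_div]
  show (z : F) = aeval x (C bs * r') / aeval x (C br * s')
  rw [map_mul, map_mul, aeval_C, aeval_C, hr1, hs1, hz]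
  by_cases hs0 : aeval x s = 0
  · rw [hs0]; simp
  · field_simp

end Frac

section Main

variable {R E F : Type*} [CommRing R] [IsDomain R] [IsDiscreteValuationRing R]
  [Field E] [Algebra R E] [IsFractionRing R E]
  [Field F] [Algebra E F] [Algebra R F] [IsScalarTower R E F]

/-- `C w ∣ d` iff `d` vanishes modulo the maximal ideal. -/
theorem C_dvd_of_map_residue_eq_zero {w : R} (hw : Irreducible w) {d : R[X]}
    (hd : d.map (IsLocalRing.residue R) = 0) : C w ∣ d := by
  rw [Polynomial.C_dvd_iff_dvd_coeff]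
  intro i
  have h1 : IsLocalRing.residue R (d.coeff i) = 0 := by
    have := congrArg (fun q => q.coeff i) hd
    simpa using this
  have h2 : d.coeff i ∈ IsLocalRing.maximalIdeal R := (IsLocalRing.residue_eq_zero_iff _).1 h1
  rw [hw.maximalIdeal_eq, Ideal.mem_span_singleton] at h2
  exact h2

/-- **`SepCoord` from the two Gauss valuations with separable residue fields.** -/
theorem sepCoord_of_gauss
    (w : R) (hw : Irreducible w) (x : F) (hx : Transcendental E x)
    (hfin : FiniteDimensional (IntermediateField.adjoin E ({x} : Set F)) F)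
    (B : Subalgebra R F)
    (hB : ∀ f : F, IsIntegral (Algebra.adjoin R ({x} : Set F)) f → f ∈ B)
    (V₁ V₂ : ValuationSubring F) (hne : V₁ ≠ V₂)
    (hu₁ : IsUnif V₁ (algebraMap R F w)) (hu₂ : IsUnif V₂ (algebraMap R F w))
    (hp₁ : ∀ P : R[X], aeval x P ∈ V₁) (hp₂ : ∀ P : R[X], aeval x P ∈ V₂)
    (hg₁ : ∀ P : R[X], ¬ C w ∣ P → (aeval x P)⁻¹ ∈ V₁)
    (hg₂ : ∀ P : R[X], ¬ C w ∣ P → (aeval x P)⁻¹ ∈ V₂)
    {f₁ f₂ : ℕ} (b : Fin f₁ → F) (c : Fin f₂ → F)
    (hb : ∀ i, b i ∈ V₁) (hc : ∀ j, c j ∈ V₂)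
    (hbi : ∀ a : Fin f₁ → R[X],
      (∑ i, aeval x (a i) * b i) * (algebraMap R F w)⁻¹ ∈ V₁ → ∀ i, C w ∣ a i)
    (hci : ∀ a : Fin f₂ → R[X],
      (∑ j, aeval x (a j) * c j) * (algebraMap R F w)⁻¹ ∈ V₂ → ∀ j, C w ∣ a j)
    (hdeg : Module.finrank (IntermediateField.adjoin E ({x} : Set F)) F ≤ f₁ + f₂)
    (hs₁ : ∀ f : F, f ∈ V₁ → f ∈ V₂ → ∃ Q : R[X][X],
        V₁.valuation (Q.eval₂ ((aeval x : R[X] →ₐ[R] F) : R[X] →+* F) f) < 1 ∧
        V₁.valuation ((derivative Q).eval₂ ((aeval x : R[X] →ₐ[R] F) : R[X] →+* F) f) = 1)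
    (hs₂ : ∀ f : F, f ∈ V₁ → f ∈ V₂ → ∃ Q : R[X][X],
        V₂.valuation (Q.eval₂ ((aeval x : R[X] →ₐ[R] F) : R[X] →+* F) f) < 1 ∧
        V₂.valuation ((derivative Q).eval₂ ((aeval x : R[X] →ₐ[R] F) : R[X] →+* F) f) = 1) :
    SepCoord R E x B := by
  classical
  letI algF : Algebra R[X] F := ((aeval x : R[X] →ₐ[R] F) : R[X] →+* F).toAlgebra
  letI algK : Algebra R[X] (IntermediateField.adjoin E ({x} : Set F)) :=
    (polyToAdjoin (E := E) x).toAlgebra
  haveI : IsScalarTower R[X] (IntermediateField.adjoin E ({x} : Set F)) F :=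
    IsScalarTower.of_algebraMap_eq (fun P => rfl)
  haveI : IsFractionRing R[X] (IntermediateField.adjoin E ({x} : Set F)) :=
    isFractionRing_adjoin hx
  haveI := hfin
  have hmap : ∀ P : R[X], algebraMap R[X] F P = aeval x P := fun P => rfl
  have hC : algebraMap R[X] F (C w) = algebraMap R F w := by rw [hmap, aeval_C]
  have G : GaussPairLe (K := IntermediateField.adjoin E ({x} : Set F)) w V₁ V₂ b c :=
    { prime := hw.prime
      unif₁ := by rw [hC]; exact hu₁
      unif₂ := by rw [hC]; exact hu₂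
      poly₁ := hp₁
      poly₂ := hp₂
      gauss₁ := hg₁
      gauss₂ := hg₂
      ne := hne
      b_mem := hb
      c_mem := hc
      b_indep := fun a ha => hbi a (by rw [← hC]; exact ha)
      c_indep := fun a ha => hci a (by rw [← hC]; exact ha)
      le := hdeg }
  obtain ⟨y, hyint, hyli, d, hd, hdd⟩ := exists_integral_basis_discr G.gaussPair hs₁ hs₂
  refine ⟨f₁ + f₂, y, fun i => hB _ ?_, hyli, G.card, d, fun h0 => hd ?_, ?_⟩
  · obtain ⟨q, hqm, hq⟩ := hyint i
    let θ : R[X] →+* Algebra.adjoin R ({x} : Set F) :=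
      { toFun := fun P => ⟨aeval x P, aeval_mem_adjoin_singleton R x⟩
        map_one' := Subtype.ext (map_one _)
        map_mul' := fun P Q => Subtype.ext (map_mul _ P Q)
        map_zero' := Subtype.ext (map_zero _)
        map_add' := fun P Q => Subtype.ext (map_add _ P Q) }
    refine ⟨q.map θ, hqm.map θ, ?_⟩
    rw [eval₂_map]
    exact hq
  · exact C_dvd_of_map_residue_eq_zero hw h0
  · rw [← hdd]
    rfl

end Main

end Fermat.Agent.A2.Mod.H732

end
end
-- ===== PACK-END A2/Mod/H732/SepCoord.lean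

-- ===== PACK-BEGIN A2/Mod/H732/SepRed.lean
section



/-!
# WALL A2 / MODASM S4 (helper732), part 5: elementwise separability from a reduction relation

Abstract.  `R` a discrete valuation ring with uniformiser `w` and perfect residue field `k`,
`F` a field over `R`, `V` a valuation subring of `F`, and `T ≤ F × k((t))` a subring
("`(g, ḡ) ∈ T` iff `ḡ` is a reduction of `g`"; no well-definedness is needed) such that
`(r, r̄) ∈ T` for `r ∈ R`, `(g, 0) ∈ T ⟹ v(g) < 1`, `(g, b) ∈ T, b ≠ 0 ⟹ v(g) = 1`.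

* `eval₂_mem_graph`, `graph_eval` : polynomial expressions respect the relation;
* `exists_primitive_annihilator` : every `f` algebraic over `E(x)` is a root of some
  `P ∈ R[X][Y]` with nonzero reduction;
* `exists_sep_poly_of_graph` : if `(x, x̄), (f, f̄) ∈ T`, `dx̄/dt ≠ 0` and `f` is a root of a
  primitive `P ∈ R[X][Y]`, then there is `Q ∈ R[X][Y]` with `v(Q(x, f)) < 1` and
  `v(Q_Y(x, f)) = 1` (the hypotheses `hs₁`, `hs₂` of `sepCoord_of_gauss`).
-/

set_option autoImplicit false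
set_option linter.unusedSectionVars false
set_option linter.style.haveILetI false
set_option synthInstance.maxHeartbeats 400000
set_option maxHeartbeats 1600000

noncomputable section

namespace Fermat.Agent.A2.Mod.H732

open Polynomial IsLocalRing

section Graph

variable {A B C : Type*} [CommRing A] [CommRing B] [CommRing C]

/-- polynomial expressions respect a relation which is a subring -/
theorem eval₂_mem_graph (T : Subring (B × C)) (φ : A →+* B) (ψ : A →+* C)
    (h : ∀ a, (φ a, ψ a) ∈ T) {y : B} {z : C} (hyz : (y, z) ∈ T) (Q : A[X]) :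
    (Q.eval₂ φ y, Q.eval₂ ψ z) ∈ T := by
  have key : Q.eval₂ (φ.prod ψ) (y, z) = (Q.eval₂ φ y, Q.eval₂ ψ z) := by
    refine Prod.ext ?_ ?_
    · have h1 := Polynomial.hom_eval₂ Q (φ.prod ψ) (RingHom.fst B C) (y, z)
      rw [RingHom.fst_comp_prod] at h1
      exact h1
    · have h1 := Polynomial.hom_eval₂ Q (φ.prod ψ) (RingHom.snd B C) (y, z)
      rw [RingHom.snd_comp_prod] at h1
      exact h1
  rw [← key, eval₂_eq_sum_range]
  exact sum_mem fun i _ => mul_mem (h _) (pow_mem hyz i)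

end Graph

section Sep

variable {R F : Type*} [CommRing R] [IsLocalRing R] [Field F] [Algebra R F]

/-- constants: `R → k((t))` -/
def cres (R : Type*) [CommRing R] [IsLocalRing R] : R →+* LaurentSeries (ResidueField R) :=
  (algebraMap (ResidueField R) (LaurentSeries (ResidueField R))).comp (residue R)

theorem cres_apply (r : R) :
    cres R r = algebraMap (ResidueField R) (LaurentSeries (ResidueField R)) (residue R r) := rfl

/-- bivariate polynomial expressions over `R` respect the relation -/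
theorem graph_eval (T : Subring (F × LaurentSeries (ResidueField R)))
    (hR : ∀ r : R, (algebraMap R F r, cres R r) ∈ T)
    {x : F} {xb : LaurentSeries (ResidueField R)} (hx : (x, xb) ∈ T)
    {f : F} {fb : LaurentSeries (ResidueField R)} (hf : (f, fb) ∈ T) (Q : R[X][X]) :
    (Q.eval₂ ((aeval x : R[X] →ₐ[R] F) : R[X] →+* F) f,
      (Q.map (mapRingHom (residue R))).eval₂
        ((aeval xb : (ResidueField R)[X] →ₐ[ResidueField R] LaurentSeries (ResidueField R)) :
          (ResidueField R)[X] →+* LaurentSeries (ResidueField R)) fb) ∈ T := by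
  have hcomp : ((aeval xb :
      (ResidueField R)[X] →ₐ[ResidueField R] LaurentSeries (ResidueField R)) :
        (ResidueField R)[X] →+* LaurentSeries (ResidueField R)).comp (mapRingHom (residue R))
      = eval₂RingHom (cres R) xb := by
    refine Polynomial.ringHom_ext (fun r => ?_) ?_
    · simp [cres]
    · simp
  rw [eval₂_map, hcomp]
  refine eval₂_mem_graph T _ _ (fun a => ?_) hf Q
  exact eval₂_mem_graph T (algebraMap R F) (cres R) hR hx a

/-- **Elementwise separability from a reduction relation.** -/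
theorem exists_sep_poly_of_graph [PerfectField (ResidueField R)] (V : ValuationSubring F)
    (T : Subring (F × LaurentSeries (ResidueField R)))
    (hR : ∀ r : R, (algebraMap R F r, cres R r) ∈ T)
    (hker : ∀ g : F, (g, (0 : LaurentSeries (ResidueField R))) ∈ T → V.valuation g < 1)
    (hunit : ∀ (g : F) (b : LaurentSeries (ResidueField R)), (g, b) ∈ T → b ≠ 0 →
      V.valuation g = 1)
    {x : F} {xb : LaurentSeries (ResidueField R)} (hx : (x, xb) ∈ T)
    (hdx : Fermat.Agent.S18.H602.dq xb ≠ 0)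
    {f : F} {fb : LaurentSeries (ResidueField R)} (hf : (f, fb) ∈ T)
    (P : R[X][X]) (hP : P.map (mapRingHom (residue R)) ≠ 0)
    (hPf : P.eval₂ ((aeval x : R[X] →ₐ[R] F) : R[X] →+* F) f = 0) :
    ∃ Q : R[X][X],
      V.valuation (Q.eval₂ ((aeval x : R[X] →ₐ[R] F) : R[X] →+* F) f) < 1 ∧
      V.valuation ((derivative Q).eval₂ ((aeval x : R[X] →ₐ[R] F) : R[X] →+* F) f) = 1 := by
  classical
  -- the reduction of `P` kills `f̄`
  have h0 : (P.map (mapRingHom (residue R))).eval₂
      ((aeval xb : (ResidueField R)[X] →ₐ[ResidueField R] LaurentSeries (ResidueField R)) :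
        (ResidueField R)[X] →+* LaurentSeries (ResidueField R)) fb = 0 := by
    by_contra hne
    have h1 := graph_eval T hR hx hf P
    rw [hPf] at h1
    have h2 := hunit _ _ h1 hne
    rw [map_zero] at h2
    exact zero_ne_one h2
  -- `x̄` is transcendental, hence `f̄` is algebraic over `k(x̄)`
  have htr : Transcendental (ResidueField R) xb :=
    Fermat.Agent.S18.H602.laurent_transcendental xb hdx
  have halg : IsAlgebraic (IntermediateField.adjoin (ResidueField R) ({xb} : Set _)) fb := by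
    set ι : (ResidueField R)[X] →+* IntermediateField.adjoin (ResidueField R)
        ({xb} : Set (LaurentSeries (ResidueField R))) :=
      (aeval (R := ResidueField R)
        (IntermediateField.AdjoinSimple.gen (ResidueField R) xb)).toRingHom with hι
    have hinj : Function.Injective ι := by
      have h1 : Transcendental (ResidueField R)
          (IntermediateField.AdjoinSimple.gen (ResidueField R) xb) := by
        intro h
        apply htr
        have := h.algebraMap (A := LaurentSeries (ResidueField R))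
        simpa using this
      exact transcendental_iff_injective.mp h1
    refine ⟨(P.map (mapRingHom (residue R))).map ι, ?_, ?_⟩
    · rw [Ne, Polynomial.map_eq_zero_iff hinj]
      exact hP
    · have hc : (algebraMap (IntermediateField.adjoin (ResidueField R)
          ({xb} : Set (LaurentSeries (ResidueField R)))) (LaurentSeries (ResidueField R))).comp ι
          = ((aeval xb : (ResidueField R)[X] →ₐ[ResidueField R]
              LaurentSeries (ResidueField R)) :
            (ResidueField R)[X] →+* LaurentSeries (ResidueField R)) := by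
        refine Polynomial.ringHom_ext (fun r => ?_) ?_
        · simp [hι]
        · simp [hι]
      rw [aeval_def, eval₂_map, hc]
      exact h0
  obtain ⟨Pb, hb0, hb1⟩ := Fermat.Agent.S18.H602.laurent_exists_sep_poly xb hdx fb halg
  obtain ⟨Q, hQ⟩ := Polynomial.map_surjective (mapRingHom (residue R))
    (Polynomial.map_surjective (residue R) residue_surjective) Pb
  refine ⟨Q, hker _ ?_, hunit _ _ (graph_eval T hR hx hf (derivative Q)) ?_⟩
  · have h1 := graph_eval T hR hx hf Q
    rw [hQ] at h1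
    have h2 : eval₂ ((aeval xb : (ResidueField R)[X] →ₐ[ResidueField R]
        LaurentSeries (ResidueField R)) :
          (ResidueField R)[X] →+* LaurentSeries (ResidueField R)) fb Pb = 0 := hb0
    rw [h2] at h1
    exact h1
  · rw [← derivative_map, hQ]
    exact hb1

end Sep

section Annihilator

variable {R E F : Type*} [CommRing R] [IsDomain R] [IsDiscreteValuationRing R]
  [Field E] [Algebra R E] [IsFractionRing R E]
  [Field F] [Algebra E F] [Algebra R F] [IsScalarTower R E F]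

/-- every element algebraic over `E(x)` is a root of a bivariate polynomial over `R` with
nonzero reduction -/
theorem exists_primitive_annihilator {w : R} (hw : Irreducible w) {x : F}
    (hx : Transcendental E x) {f : F}
    (hf : IsAlgebraic (IntermediateField.adjoin E ({x} : Set F)) f) :
    ∃ P : R[X][X], P.map (mapRingHom (residue R)) ≠ 0 ∧
      P.eval₂ ((aeval x : R[X] →ₐ[R] F) : R[X] →+* F) f = 0 := by
  classical
  letI algF : Algebra R[X] F := ((aeval x : R[X] →ₐ[R] F) : R[X] →+* F).toAlgebra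
  letI algK : Algebra R[X] (IntermediateField.adjoin E ({x} : Set F)) :=
    (polyToAdjoin (E := E) x).toAlgebra
  haveI : IsScalarTower R[X] (IntermediateField.adjoin E ({x} : Set F)) F :=
    IsScalarTower.of_algebraMap_eq (fun P => rfl)
  haveI : IsFractionRing R[X] (IntermediateField.adjoin E ({x} : Set F)) :=
    isFractionRing_adjoin hx
  have hf' : IsAlgebraic R[X] f :=
    (IsFractionRing.isAlgebraic_iff R[X] (IntermediateField.adjoin E ({x} : Set F)) F).mpr hf
  obtain ⟨P, hP0, hP⟩ := hf'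
  have hirr : Irreducible (C (C w) : R[X][X]) :=
    (prime_C_iff.mpr (prime_C_iff.mpr hw.prime)).irreducible
  obtain ⟨n, P₀, hnd, hP₀⟩ := WfDvdMonoid.max_power_factor hP0 hirr
  have hwF : algebraMap R[X] F (C w) ≠ 0 := by
    show aeval x (C w) ≠ 0
    rw [aeval_C, IsScalarTower.algebraMap_apply R E F]
    intro h
    have h1 := (map_eq_zero (algebraMap E F)).mp h
    exact hw.ne_zero ((map_eq_zero_iff _ (IsFractionRing.injective R E)).mp h1)
  refine ⟨P₀, ?_, ?_⟩
  · intro h0
    apply hnd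
    rw [Polynomial.C_dvd_iff_dvd_coeff]
    intro i
    apply C_dvd_of_map_residue_eq_zero hw
    have := congrArg (fun q => q.coeff i) h0
    simpa using this
  · have h1 : aeval f P = (algebraMap R[X] F (C w)) ^ n * aeval f P₀ := by
      rw [hP₀, map_mul, map_pow, aeval_C]
    rw [hP] at h1
    rcases mul_eq_zero.mp h1.symm with h | h
    · exact absurd h (pow_ne_zero n hwF)
    · exact h

end Annihilator

end Fermat.Agent.A2.Mod.H732

end
end
-- ===== PACK-END A2/Mod/H732/SepRed.lean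

-- ===== PACK-BEGIN S35/G/H60/ToricSpec.lean
section


/-!
# S35, piece (G'), leaf TORIC — frozen SUB-LEAVES (sub-architect helper60)

`ToricStatement A E M q m w` (`S35/G/SpecLevel.lean`) is proved in `H60/Toric.lean` from

* the sibling leaves `StableStatement`, `KronFrobStatement` (as hypotheses),
* the landed A2/MOD leaves L1, L2, L4, L5, L6, L7, L11,
* `NormRedStatement` : **norm reduction along `α`**: for `y ∈ V∞ ∩ V₀` with
  `y ≡ α U mod w V∞` and `y ^ q ≡ α T mod w V₀` (`U, T ∈ V∞_M`):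
  `N_α y ≡ U * T mod w V∞_M`.
  (`[F_{Mq} : α F_M] = q + 1`, `V∞`, `V₀` are the two extensions of `V∞_M`, with residue degrees
  `1` and `q`, the second purely inseparable; abstract theorem: `S35.H253.norm_red_insep`.)

`NormRedStatement` itself is proved in `H60/NormRed.lean` from

* `NotPowStatement` : `j` is not a `q`-th power modulo `w` at level `M`
  (`t`-expansions: the reduction of `j` has a nonzero coefficient at `t⁻¹`, a `q`-th power in
  `k((t))` lies in `k((t^q))`),
* the fundamental inequality `f₁ + f₂ ≤ [F : K]` (`H60/FundIneq.lean`, from `S35.H253`),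
* `S37.H818.finrankAlong_heckeAlphaBar` (`[F_{Mq} : α F_M] = q + 1`).

Definitions only (no `sorry`).
-/

set_option autoImplicit false
set_option linter.style.haveILetI false
set_option linter.unusedSectionVars false
set_option synthInstance.maxHeartbeats 400000
set_option maxHeartbeats 1600000

noncomputable section

namespace Fermat.Agent.S35.G.H60

open ModularCurve AlgebraicCurve

variable (A : ValuationSubring Qb) (E : IntermediateField ℚ Qb) (M q : ℕ) [NeZero M] [NeZero q]
  (w : A2.Mod.RE A E)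

/-- **NORM-RED (norm reduction along `α`).**  For `y ∈ V∞ ∩ V₀` (level `M q`) and `U, T ∈ V∞_M`
with `y ≡ α U mod w V∞` and `y ^ q ≡ α T mod w V₀`:  `N_α y ≡ U * T mod w V∞_M`. -/
def NormRedStatement : Prop :=
  A2.Mod.Setting A E M q w →
    ∀ (VM : ValuationSubring (A2.Mod.FE E M)) (V : ValuationSubring (A2.Mod.FE E (M * q)))
      (W : A2.Mod.FE E (M * q) ≃ₐ[E] A2.Mod.FE E (M * q)),
      A2.Mod.IsVinf A E M VM → A2.Mod.IsVinf A E (M * q) V → A2.Mod.IsFricke E (M * q) W →
      ∀ y : A2.Mod.FE E (M * q), y ∈ V → W y ∈ V →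
        ∀ U ∈ VM, ∀ T ∈ VM,
          A2.Mod.InW A E (M * q) V w (y - A2.Mod.αE E M q U) →
          A2.Mod.InW A E (M * q)
            (V.comap (W : A2.Mod.FE E (M * q) →+* A2.Mod.FE E (M * q))) w
            (y ^ q - A2.Mod.αE E M q T) →
          A2.Mod.InW A E M VM w (S29.H395.normAlong (A2.Mod.αE E M q) y - U * T)

/-- **NOT-POW.**  At level `M` (prime to `q`), `j` is not a `q`-th power modulo `w`:
there is no `a ∈ V∞_M` with `a ^ q ≡ j mod w V∞_M`.
(Reduce the `t`-expansions modulo `w`: `red (j) = t⁻¹ + ⋯`, while a `q`-th power in `k((t))`,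
`char k = q`, has no term of exponent prime to `q`: `S37.H400.laurent_pow_char`.) -/
def NotPowStatement : Prop :=
  A2.Mod.Setting A E M q w →
    ∀ VM : ValuationSubring (A2.Mod.FE E M), A2.Mod.IsVinf A E M VM →
      ∀ a ∈ VM, ¬ A2.Mod.InW A E M VM w (a ^ q - A2.Mod.jE E M 1 (one_dvd _))

/-- **GLUE.**  TORIC from NORM-RED and the sibling leaves STABLE, KRON-FROB (the A2/MOD leaves
L1, L2, L4, L5, L7, L11 are on main).  Proof sketch: `coord/S35-TORIC-helper60.md`. -/
def GlueStatement (m : ℕ) : Prop :=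
  NormRedStatement A E M q w → StableStatement A E → KronFrobStatement A E M q w →
    ToricStatement A E M q m w

/-- **NORM-RED assembly.**  NORM-RED from NOT-POW (plus landed degree theory and the abstract
norm reduction `S35.H253.norm_red_insep`). -/
def NormRedAsmStatement : Prop :=
  NotPowStatement A E M q w → NormRedStatement A E M q w

end Fermat.Agent.S35.G.H60

end

end
-- ===== PACK-END S35/G/H60/ToricSpec.lean

-- ===== PACK-BEGIN S37/H818/LocalGen.lean
section
/-
S37 / LEVEL TRANSFER (helper818), part 4: local generators exist (weak approximation), so the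
hypothesis `HasLocalGenerators` of `BaseChange.lean` is automatic.
-/





set_option autoImplicit false
set_option linter.style.haveILetI false

noncomputable section

namespace Fermat.Agent.S37.H818

open AlgebraicCurve

variable {K F F₁ : Type*} [Field K] [Field F] [Field F₁] [Algebra K F] [Algebra K F₁]

/-- Local generators always exist, by weak approximation on the (finite) fibre. -/
theorem hasLocalGenerators [HasPrincipalDivisors K F₁] (a : F →ₐ[K] F₁)
    (ha : a.toRingHom.IsIntegral) : HasLocalGenerators a ha := by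
  classical
  intro w
  set S : Finset (Place K F₁) := Place.fiberAlong a ha (w.restrictAlong a ha) with hS
  have hwS : w ∈ S := Place.mem_fiberAlong.mpr rfl
  obtain ⟨z, hz⟩ := Fermat.Agent.Lib.RR.H623.weak_approximation S (fun _ => (0 : F₁))
    (fun v => if v = w then 1 else 0)
  have hzw := hz w hwS
  simp only [sub_zero, if_true] at hzw
  refine ⟨z, hzw.1, by rw [hzw.2]; exact one_ne_zero, fun w' hw' hfib => ?_⟩
  have hw'S : w' ∈ S := Place.mem_fiberAlong.mpr hfib
  have := (hz w' hw'S).2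
  simpa [sub_zero, if_neg hw'] using this

end Fermat.Agent.S37.H818

end

end
-- ===== PACK-END S37/H818/LocalGen.lean

-- ===== PACK-BEGIN S37/H818/PushPull.lean
section
/-
S37 / LEVEL TRANSFER (helper818), part 6: `i_* i^* = [G : F]` on divisors, from the norm formula
alone; consequences: `SumRamificationInertia`, `FundamentalIdentityAlong`, and
`π^* x = 0 → [G:F] • x = 0` on `Pic0`.
-/




set_option autoImplicit false
set_option linter.style.haveILetI false

noncomputable section

namespace Fermat.Agent.S37.H818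

open AlgebraicCurve

variable {K F G : Type*} [Field K] [Field F] [Field G] [Algebra K F] [Algebra K G]

section

variable (i : F →ₐ[K] G) (hi : i.toRingHom.IsIntegral)
variable [HasPrincipalDivisors K G]

/-- The defect of `i_* i^* = d`. -/
def ppDefect : Divisor K F →+ Divisor K F :=
  (Divisor.pushforwardAlong i hi).comp (Divisor.pullbackAlong i hi) -
    (finrankAlong K i : ℤ) • AddMonoidHom.id (Divisor K F)

theorem ppDefect_apply (D : Divisor K F) :
    ppDefect i hi D =
      Divisor.pushforwardAlong i hi (Divisor.pullbackAlong i hi D) - (finrankAlong K i : ℤ) • D :=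
  rfl

theorem ppDefect_single_apply_of_ne (v : Place K F) (n : ℤ) (u : Place K F) (hu : u ≠ v) :
    ppDefect i hi (Finsupp.single v n) u = 0 := by
  classical
  rw [ppDefect_apply, Finsupp.sub_apply, Finsupp.smul_apply, Finsupp.single_eq_of_ne hu,
    smul_zero, sub_zero, Divisor.pullbackAlong_single, map_sum, Finset.sum_apply']
  refine Finset.sum_eq_zero fun W hW => ?_
  rw [Divisor.pushforwardAlong_single]
  refine Finsupp.single_eq_of_ne ?_
  rw [Place.mem_fiberAlong.mp hW]
  exact hu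

theorem ppDefect_principal (hfin : FiniteAlong K i) (hN : NormFormulaAlong K i hfin)
    {f : F} (hf : f ≠ 0) {D : Divisor K F} (hD : ∀ v, D v = v.ord f) :
    ppDefect i hi D = 0 := by
  rw [ppDefect_apply, sub_eq_zero]
  ext u
  have hD' : ∀ W : Place K G, Divisor.pullbackAlong i hi D W = W.ord (i f) := by
    intro W
    letI := algebraAlong i
    haveI := isScalarTower_along i
    haveI := isIntegral_along i hi
    exact Divisor.pullback_apply_eq_ord (F' := G) hD W
  have h1 : Divisor.pushforwardAlong i hi (Divisor.pullbackAlong i hi D) u =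
      u.ord (f ^ finrankAlong K i) := by
    letI := algebraAlong i
    haveI := isScalarTower_along i
    haveI := isIntegral_along i hi
    haveI : Module.Finite F G := hfin
    have hf' : i f ≠ 0 := by simpa using hf
    have := hN (i f) hf' _ hD' u
    rw [show Divisor.pushforwardAlong i hi (Divisor.pullbackAlong i hi D) =
      Divisor.pushforward F (Divisor.pullbackAlong i hi D) from rfl, this]
    have hnorm : Algebra.norm F (i f) = f ^ Module.finrank F G :=
      Algebra.norm_algebraMap (S := G) f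
    rw [hnorm]
    rfl
  rw [h1, Finsupp.smul_apply, hD, smul_eq_mul]
  have := u.ord_zpow f (finrankAlong K i : ℤ)
  rwa [zpow_natCast] at this

variable [HasPrincipalDivisors K F]

/-- `i_* i^* = [G : F]` on divisors. -/
theorem pushforward_pullback_eq (hfin : FiniteAlong K i) (hN : NormFormulaAlong K i hfin)
    (D : Divisor K F) :
    Divisor.pushforwardAlong i hi (Divisor.pullbackAlong i hi D) = (finrankAlong K i : ℤ) • D := by
  classical
  rw [← sub_eq_zero, ← ppDefect_apply]
  set δ := ppDefect i hi with hδ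
  suffices h : ∀ w : Place K F, δ (Finsupp.single w 1) = 0 by
    induction D using Finsupp.induction with
    | zero => simp
    | single_add w n D _ _ ih =>
      rw [map_add, ih, add_zero]
      have : Finsupp.single w n = n • Finsupp.single w (1 : ℤ) := by
        rw [Finsupp.smul_single, smul_eq_mul, mul_one]
      rw [this, map_zsmul, h w, smul_zero]
  intro w₀
  ext u
  rw [Finsupp.zero_apply]
  by_cases hu : u = w₀
  swap
  · exact ppDefect_single_apply_of_ne i hi w₀ 1 u hu
  subst hu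
  obtain ⟨f, hf0, hfu⟩ := exists_ord_eq_one u
  obtain ⟨D, hD, -⟩ := HasPrincipalDivisors.exists_divisor (K := K) f hf0
  have h0 : δ D = 0 := ppDefect_principal i hi hfin hN hf0 hD
  have hsum : δ D u = ∑ w ∈ D.support, δ (Finsupp.single w (D w)) u := by
    conv_lhs => rw [← Finsupp.sum_single D]
    rw [Finsupp.sum, map_sum, Finset.sum_apply']
  have hu₀ : u ∈ D.support := by
    rw [Finsupp.mem_support_iff, hD, hfu]
    exact one_ne_zero
  rw [Finset.sum_eq_single_of_mem u hu₀ (fun w _ hw =>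
    ppDefect_single_apply_of_ne i hi w (D w) u (Ne.symm hw)), h0, Finsupp.zero_apply, hD,
    hfu] at hsum
  exact hsum.symm

/-- The fundamental identity `∑ e f = n` follows from the norm formula. -/
theorem fundamentalIdentityAlong_of_normFormula (hfin : FiniteAlong K i)
    (hN : NormFormulaAlong K i hfin) : FundamentalIdentityAlong K i hi := by
  classical
  letI := algebraAlong i
  haveI := isScalarTower_along i
  haveI := isIntegral_along i hi
  refine ⟨fun v => ?_⟩
  have h := congrArg Divisor.degree (pushforward_pullback_eq i hi hfin hN (Finsupp.single v 1))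
  rw [Divisor.degree_pushforwardAlong, map_zsmul, Divisor.degree_single, one_mul,
    show Divisor.pullbackAlong i hi (Finsupp.single v 1) =
      Divisor.pullback G (Finsupp.single v 1) from rfl,
    Divisor.pullback_single, map_sum] at h
  simp only [Divisor.degree_single, one_mul, smul_eq_mul] at h
  rw [h]
  rfl

/-- `π^* x = 0` implies `[G : F] • x = 0`. -/
theorem nsmul_eq_zero_of_pullbackPic0Along_eq_zero (hfin : FiniteAlong K i)
    (hN : NormFormulaAlong K i hfin) (hFI : FundamentalIdentityAlong K i hi)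
    (x : Pic0 K F) (hx : pullbackPic0Along i hi hFI x = 0) :
    (finrankAlong K i) • x = 0 := by
  obtain ⟨D, rfl⟩ := Pic0.mk_surjective x
  rw [pullbackPic0Along_mk] at hx
  have hprin : Divisor.IsPrincipal (Divisor.pullbackAlong i hi (D : Divisor K F)) := by
    have := (QuotientAddGroup.eq_zero_iff _).mp hx
    rw [AddSubgroup.mem_addSubgroupOf] at this
    exact this
  have hpush := Divisor.isPrincipal_pushforwardAlong i hi hfin hN hprin
  rw [pushforward_pullback_eq i hi hfin hN] at hpush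
  have : (finrankAlong K i) • (Pic0.mk D) = Pic0.mk ((finrankAlong K i) • D) := rfl
  rw [this]
  refine (QuotientAddGroup.eq_zero_iff _).mpr ?_
  rw [AddSubgroup.mem_addSubgroupOf]
  have hcoe : (((finrankAlong K i) • D : Divisor.degZero (K := K) (F := F)) : Divisor K F) =
      (finrankAlong K i : ℤ) • (D : Divisor K F) := by
    rw [AddSubgroupClass.coe_nsmul, natCast_zsmul]
  rw [hcoe]
  exact hpush

end

end Fermat.Agent.S37.H818

end

end
-- ===== PACK-END S37/H818/PushPull.lean

-- ===== PACK-BEGIN S37/H818/GaloisEquiv.lean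
section
/-
S37 / LEVEL TRANSFER (helper818), part 7: pullback of divisors / `Pic0` classes along `i`
commutes with intertwined semilinear automorphisms (Galois equivariance of `π^*`).
-/




set_option autoImplicit false
set_option linter.style.haveILetI false

noncomputable section

namespace Fermat.Agent.S37.H818

open AlgebraicCurve
open scoped Pointwise

variable {K F G : Type*} [Field K] [Field F] [Field G] [Algebra K F] [Algebra K G]

section

variable (i : F →ₐ[K] G) (hi : i.toRingHom.IsIntegral)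
  {g : SemilinearAut K F} {g' : SemilinearAut K G}
  (h : SemilinearAut.IntertwinesAlong (i : F →+* G) g g')

theorem mem_restrictAlong_iff (W : Place K G) (x : F) :
    x ∈ (W.restrictAlong i hi).toValuationSubring ↔ i x ∈ W.toValuationSubring := Iff.rfl

include h in
theorem restrictAlong_smul (W : Place K G) :
    (g' • W).restrictAlong i hi = g • (W.restrictAlong i hi) := by
  apply Place.ext
  ext x
  rw [mem_restrictAlong_iff, SemilinearAut.smul_toValuationSubring,
    SemilinearAut.smul_toValuationSubring,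
    ValuationSubring.mem_pointwise_smul_iff_inv_smul_mem,
    ValuationSubring.mem_pointwise_smul_iff_inv_smul_mem, mem_restrictAlong_iff]
  have := h.inv x
  simp only [RingHom.coe_coe] at this
  rw [this]

include h hi in
theorem ramificationIndexAlong_smul (W : Place K G) :
    Place.ramificationIndexAlong i (g' • W) = Place.ramificationIndexAlong i W := by
  obtain ⟨f, -, hf⟩ := exists_ord_eq_one (W.restrictAlong i hi)
  have h1 := Place.ord_restrictAlong i hi W f
  rw [hf, mul_one] at h1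
  have h2 := Place.ord_restrictAlong i hi (g' • W) (g • f)
  rw [restrictAlong_smul i hi h W, SemilinearAut.ord_smul, hf, mul_one] at h2
  have h3 : i (g • f) = g' • (i f) := by
    have := h f
    simp only [RingHom.coe_coe] at this
    exact this.symm
  rw [h3, SemilinearAut.ord_smul, h1] at h2
  exact_mod_cast h2.symm

variable [HasPrincipalDivisors K G]

include h in
/-- Pullback of divisors is equivariant. -/
theorem pullbackAlong_smul (D : Divisor K F) :
    Divisor.pullbackAlong i hi (g • D) = g' • Divisor.pullbackAlong i hi D := by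
  ext W
  rw [Divisor.pullbackAlong_apply, SemilinearAut.divisor_smul_apply,
    SemilinearAut.divisor_smul_apply, Divisor.pullbackAlong_apply,
    restrictAlong_smul i hi h.inv W, ramificationIndexAlong_smul i hi h.inv W]

include h in
/-- `π^*` is equivariant on `Pic0`. -/
theorem pullbackPic0Along_smul (hFI : FundamentalIdentityAlong K i hi) (x : Pic0 K F) :
    pullbackPic0Along i hi hFI (g • x) = g' • pullbackPic0Along i hi hFI x := by
  obtain ⟨D, rfl⟩ := Pic0.mk_surjective x
  rw [SemilinearAut.pic0_smul_mk, pullbackPic0Along_mk, pullbackPic0Along_mk,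
    SemilinearAut.pic0_smul_mk]
  congr 1
  apply Subtype.ext
  simp only [coe_pullbackDegZeroAlong, SemilinearAut.coe_degZeroSMulHom]
  exact pullbackAlong_smul i hi h D

end

end Fermat.Agent.S37.H818

end

end
-- ===== PACK-END S37/H818/GaloisEquiv.lean

-- ===== PACK-BEGIN S37/H818/Modular.lean
section
/-
S37 / LEVEL TRANSFER (helper818), part 8: instantiation at the modular function fields.

Levels `N`, `M = N * k`, Hecke prime `ℓ`.  `π^* : Pic0(F_N) → Pic0(F_{N k})` is the pullback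
along the Prelude's `heckeAlphaBar L N k` (inclusion of function fields).
-/








set_option autoImplicit false
set_option linter.style.haveILetI false

noncomputable section

namespace Fermat.Agent.S37.H818

open AlgebraicCurve ModularCurve IntermediateField

variable (L : Type*) [Field L] [Algebra ℚ L]

/-- Monotonicity of `laurentBaseChange` (the Prelude's version is private). -/
theorem laurentBaseChange_mono {F₀ F₁ : IntermediateField ℚ (LaurentSeries ℚ)}
    (h : F₀ ≤ F₁) : laurentBaseChange L F₀ ≤ laurentBaseChange L F₁ := by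
  rw [laurentBaseChange, IntermediateField.adjoin_le_iff]
  rintro _ ⟨y, hy, rfl⟩
  exact coeffEmb_mem_laurentBaseChange L (h hy)

/-- The function field of level `N` over `L`. -/
abbrev FB (N : ℕ) : IntermediateField L (LaurentSeries L) :=
  laurentBaseChange L (modularFunctionFieldFull N)

/-- Inclusion of function fields for `N ∣ M`. -/
def degenIncl {N M : ℕ} [NeZero N] [NeZero M] (h : N ∣ M) : FB L N →ₐ[L] FB L M :=
  IntermediateField.inclusion (laurentBaseChange_mono L (full_degeneracy_le h))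

@[simp]
theorem coe_degenIncl {N M : ℕ} [NeZero N] [NeZero M] (h : N ∣ M) (x : FB L N) :
    (degenIncl L h x : LaurentSeries L) = (x : LaurentSeries L) :=
  IntermediateField.coe_inclusion _ x

variable (N k ℓ : ℕ) [NeZero N] [NeZero k] [NeZero ℓ]

omit [NeZero N] [NeZero k] [NeZero ℓ] in
theorem dvd_aux : N * ℓ ∣ N * k * ℓ := ⟨k, by ring⟩

/-- The degeneracy map at level `N ℓ`:  `F_{Nℓ} ⊂ F_{(N k) ℓ}`. -/
def degenTop : FB L (N * ℓ) →ₐ[L] FB L (N * k * ℓ) := degenIncl L (dvd_aux N k ℓ)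

theorem square_alpha :
    (degenTop L N k ℓ).comp (heckeAlphaBar L N ℓ) =
      (heckeAlphaBar L (N * k) ℓ).comp (heckeAlphaBar L N k) := by
  refine AlgHom.ext fun x => Subtype.ext ?_
  rw [AlgHom.comp_apply, AlgHom.comp_apply, degenTop, coe_degenIncl, coe_heckeAlphaBar,
    coe_heckeAlphaBar, coe_heckeAlphaBar]

theorem square_beta :
    (degenTop L N k ℓ).comp (heckeBetaBar L N ℓ) =
      (heckeBetaBar L (N * k) ℓ).comp (heckeAlphaBar L N k) := by
  refine AlgHom.ext fun x => Subtype.ext ?_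
  rw [AlgHom.comp_apply, AlgHom.comp_apply, degenTop, coe_degenIncl, coe_heckeBetaBar,
    coe_heckeBetaBar, coe_heckeAlphaBar]

variable {L N k ℓ}

/-- **`π^* ∘ T_ℓ^{(N)} = T_ℓ^{(N k)} ∘ π^*`** for the Prelude's Hecke operators, given the Hecke
inputs at both levels and norm compatibility of the `α`-square. -/
theorem pullback_heckeOperatorAlong
    (hN : HeckeInputsAlong L N ℓ) (hM : HeckeInputsAlong L (N * k) ℓ)
    [HasPrincipalDivisors L (FB L (N * k))]
    (hi : (heckeAlphaBar L N k).toRingHom.IsIntegral)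
    (hFIi : FundamentalIdentityAlong L (heckeAlphaBar L N k) hi)
    (hi₁ : (degenTop L N k ℓ).toRingHom.IsIntegral)
    (hnorm : NormCompat (heckeAlphaBar L N ℓ) (heckeAlphaBar L N k)
      (heckeAlphaBar L (N * k) ℓ) (degenTop L N k ℓ))
    (x : Pic0 L (FB L N)) :
    pullbackPic0Along (heckeAlphaBar L N k) hi hFIi (heckeOperatorAlong L N ℓ x) =
      heckeOperatorAlong L (N * k) ℓ (pullbackPic0Along (heckeAlphaBar L N k) hi hFIi x) := by
  obtain ⟨hα, hβ, hP, hfin, hFI, hNF⟩ := hN
  obtain ⟨hα', hβ', hP', hfin', hFI', hNF'⟩ := hM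
  haveI := hP
  haveI := hP'
  rw [heckeOperatorAlong_eq hα hβ hFI hfin hNF, heckeOperatorAlong_eq hα' hβ' hFI' hfin' hNF']
  exact pullbackPic0Along_correspondence (heckeAlphaBar L N ℓ) (heckeBetaBar L N ℓ)
    (heckeAlphaBar L N k) (heckeAlphaBar L (N * k) ℓ) (heckeBetaBar L (N * k) ℓ)
    (degenTop L N k ℓ) hα hβ hi hα' hβ' hi₁ (square_alpha L N k ℓ) (square_beta L N k ℓ)
    hFI hfin hNF hFI' hfin' hNF' hFIi hnorm (hasLocalGenerators _ hα) x

/-- The arithmetic Galois actions at levels `N` and `M` are intertwined by the inclusion. -/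
theorem intertwines_degenIncl {N M : ℕ} [NeZero N] [NeZero M] (h : N ∣ M) (σ : L ≃ₐ[ℚ] L) :
    SemilinearAut.IntertwinesAlong (degenIncl L h : FB L N →+* FB L M)
      (arithmeticGalois (modularFunctionFieldFull N) σ)
      (arithmeticGalois (modularFunctionFieldFull M) σ) := by
  intro x
  apply Subtype.ext
  rw [RingHom.coe_coe, coe_arithmeticGalois_smul, coe_degenIncl, coe_degenIncl,
    coe_arithmeticGalois_smul]

theorem intertwines_heckeAlphaBar (σ : L ≃ₐ[ℚ] L) :
    SemilinearAut.IntertwinesAlong (heckeAlphaBar L N k : FB L N →+* FB L (N * k))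
      (arithmeticGalois (modularFunctionFieldFull N) σ)
      (arithmeticGalois (modularFunctionFieldFull (N * k)) σ) := by
  intro x
  apply Subtype.ext
  rw [RingHom.coe_coe, coe_arithmeticGalois_smul, coe_heckeAlphaBar, coe_heckeAlphaBar,
    coe_arithmeticGalois_smul]

/-- `π^*` is Galois equivariant. -/
theorem pullbackPic0Along_galois [HasPrincipalDivisors L (FB L (N * k))]
    (hi : (heckeAlphaBar L N k).toRingHom.IsIntegral)
    (hFIi : FundamentalIdentityAlong L (heckeAlphaBar L N k) hi)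
    (σ : L ≃ₐ[ℚ] L) (x : Pic0 L (FB L N)) :
    pullbackPic0Along (heckeAlphaBar L N k) hi hFIi (σ • x) =
      σ • pullbackPic0Along (heckeAlphaBar L N k) hi hFIi x :=
  pullbackPic0Along_smul (heckeAlphaBar L N k) hi (intertwines_heckeAlphaBar σ) hFIi x

end Fermat.Agent.S37.H818

end

end
-- ===== PACK-END S37/H818/Modular.lean

-- ===== PACK-BEGIN S28/H508/CoreToBasis.lean
section
/-
S28 (Igusa) -- helper508: adapter `CoreData N (ZMod ℓ) → BasisData N ℓ`
(captain interfaces `Fermat/Agent/S28/Defs.lean`, `Fermat/Agent/S28/Basis.lean`).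
-/



set_option autoImplicit false

noncomputable section

open ModularCurve HahnSeries Polynomial

namespace Fermat.Agent.S28.H508

/-- Elements of `ℤ[j(q^d) : d ∣ N]` are integral over `ℤ[j]` as soon as the generators are. -/
theorem isIntegralElem_of_mem_closure (N : ℕ)
    (hint : ∀ (d : ℕ) [NeZero d], d ∣ N →
      ∃ P : Polynomial (Polynomial ℤ), P.Monic ∧
        P.eval₂ (evalAt (jqModC ℤ)) (qExpand ℤ d (jqModC ℤ)) = 0)
    {y : LaurentSeries ℤ} (hy : y ∈ Subring.closure (intDivisorExpansions N)) :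
    (evalAt (jqModC ℤ)).IsIntegralElem y := by
  induction hy using Subring.closure_induction with
  | mem x hx =>
    obtain ⟨d, hd, hdN, rfl⟩ := hx
    exact hint d hdN
  | zero => exact (evalAt (jqModC ℤ)).isIntegralElem_zero
  | one => exact (evalAt (jqModC ℤ)).isIntegralElem_one
  | add x y _ _ hx hy => exact RingHom.IsIntegralElem.add _ hx hy
  | neg x _ hx => exact RingHom.IsIntegralElem.neg _ hx
  | mul x y _ _ hx hy => exact RingHom.IsIntegralElem.mul _ hx hy

theorem evalAt_C (a : ℤ) : evalAt (jqModC ℚ) (C a) = (a : LaurentSeries ℚ) := by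
  simp [evalAt]

/-- Every element of `ℚ(j)` is a quotient of two integer polynomials in `j`. -/
theorem exists_int_fraction {c : LaurentSeries ℚ} (hc : c ∈ jField ℚ) :
    ∃ f g : Polynomial ℤ, evalAt (jqModC ℚ) g ≠ 0 ∧
      evalAt (jqModC ℚ) g * c = evalAt (jqModC ℚ) f := by
  unfold jField at hc
  induction hc using IntermediateField.adjoin_induction with
  | mem x hx =>
    rw [Set.mem_singleton_iff] at hx
    subst hx
    refine ⟨X, 1, ?_, ?_⟩
    · rw [map_one]; exact one_ne_zero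
    · rw [map_one, one_mul]
      simp [evalAt]
  | algebraMap r =>
    refine ⟨C r.num, C (r.den : ℤ), ?_, ?_⟩
    · rw [evalAt_C, Int.cast_natCast, ← map_natCast (HahnSeries.C (Γ := ℤ) (R := ℚ))]
      exact (map_ne_zero_iff _ HahnSeries.C_injective).mpr (by exact_mod_cast r.den_ne_zero)
    · rw [evalAt_C, evalAt_C]
      have h : ((r.den : ℚ)) * r = (r.num : ℚ) := by
        rw [mul_comm]; exact Rat.mul_den_eq_num r
      have h2 := congrArg (algebraMap ℚ (LaurentSeries ℚ)) h
      rw [map_mul, map_natCast, map_intCast] at h2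
      exact_mod_cast h2
  | add x y _ _ hx hy =>
    obtain ⟨f₁, g₁, hg₁, h₁⟩ := hx
    obtain ⟨f₂, g₂, hg₂, h₂⟩ := hy
    refine ⟨f₁ * g₂ + f₂ * g₁, g₁ * g₂, ?_, ?_⟩
    · rw [map_mul]; exact mul_ne_zero hg₁ hg₂
    · rw [map_mul, map_add, map_mul, map_mul, ← h₁, ← h₂]; ring
  | inv x _ hx =>
    obtain ⟨f, g, hg, h⟩ := hx
    by_cases hf : evalAt (jqModC ℚ) f = 0
    · have hx0 : x = 0 := by
        rw [hf] at h
        exact (mul_eq_zero.mp h).resolve_left hg
      refine ⟨0, 1, ?_, ?_⟩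
      · rw [map_one]; exact one_ne_zero
      · rw [hx0, inv_zero, mul_zero, map_zero]
    · refine ⟨g, f, hf, ?_⟩
      have hx0 : x ≠ 0 := by
        rintro rfl
        rw [mul_zero] at h
        exact hf h.symm
      rw [← h]
      field_simp
  | mul x y _ _ hx hy =>
    obtain ⟨f₁, g₁, hg₁, h₁⟩ := hx
    obtain ⟨f₂, g₂, hg₂, h₂⟩ := hy
    refine ⟨f₁ * f₂, g₁ * g₂, ?_, ?_⟩
    · rw [map_mul]; exact mul_ne_zero hg₁ hg₂
    · rw [map_mul, map_mul, ← h₁, ← h₂]; ring

/-- Clearing denominators in a `ℚ(j)`-linear combination. -/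
theorem exists_cleared_of_mem_span {n : ℕ} (v : Fin n → LaurentSeries ℚ) {x : LaurentSeries ℚ}
    (hx : x ∈ Submodule.span (jField ℚ) (Set.range v)) :
    ∃ (g : Polynomial ℤ) (f : Fin n → Polynomial ℤ), g ≠ 0 ∧
      evalAt (jqModC ℚ) g * x = ∑ i, evalAt (jqModC ℚ) (f i) * v i := by
  obtain ⟨c, rfl⟩ := (Submodule.mem_span_range_iff_exists_fun (jField ℚ)).mp hx
  have hc : ∀ i, ∃ f g : Polynomial ℤ, evalAt (jqModC ℚ) g ≠ 0 ∧
      evalAt (jqModC ℚ) g * (c i : LaurentSeries ℚ) = evalAt (jqModC ℚ) f :=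
    fun i => exists_int_fraction (c i).2
  choose f g hg hfg using hc
  refine ⟨∏ i, g i, fun i => f i * ∏ k ∈ Finset.univ.erase i, g k, ?_, ?_⟩
  · intro h0
    have : evalAt (jqModC ℚ) (∏ i, g i) = 0 := by rw [h0, map_zero]
    rw [map_prod] at this
    obtain ⟨i, -, hi⟩ := Finset.prod_eq_zero_iff.mp this
    exact hg i hi
  · rw [Finset.mul_sum]
    refine Finset.sum_congr rfl fun i _ => ?_
    rw [← Finset.mul_prod_erase Finset.univ g (Finset.mem_univ i), map_mul, map_mul,
      IntermediateField.smul_def, smul_eq_mul, ← hfg i]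
    ring

/-- The adapter: the field-theoretic core output `CoreData` (over `𝔽_ℓ`) gives the K-free
interface `BasisData` consumed by the valuation layer. -/
theorem basisData_of_coreData (N : ℕ) [NeZero N] (ℓ : ℕ) [Fact ℓ.Prime]
    (h : CoreData N (ZMod ℓ)) : BasisData N ℓ := by
  obtain ⟨n, y, hy, hspan, hind⟩ := h.exists_basis
  refine ⟨n, y, ?_, ?_, ?_⟩
  · intro i
    obtain ⟨P, hP, hPy⟩ := isIntegralElem_of_mem_closure N h.integral (hy i)
    refine ⟨1, P, ?_, ?_, hPy⟩
    · exact (Nat.Prime.one_lt (Fact.out : ℓ.Prime)).ne' ∘ Nat.dvd_one.mp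
    · rw [hP.leadingCoeff]; simp
  · intro x hx
    exact exists_cleared_of_mem_span _ (hspan x hx)
  · intro f hf
    have hmem : ∀ i, Polynomial.aeval (jqModC (ZMod ℓ)) (f i) ∈ jField (ZMod ℓ) := fun i =>
      IntermediateField.algebra_adjoin_le_adjoin _ _ (Polynomial.aeval_mem_adjoin_singleton _ _)
    have h0 := Fintype.linearIndependent_iff.mp hind
      (fun i => ⟨Polynomial.aeval (jqModC (ZMod ℓ)) (f i), hmem i⟩) (by
        simpa [IntermediateField.smul_def] using hf)
    intro i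
    have hi := congrArg Subtype.val (h0 i)
    simp only [ZeroMemClass.coe_zero] at hi
    exact h88_aeval_jqModC_injective (ZMod ℓ) (by rw [hi, map_zero])

end Fermat.Agent.S28.H508

end
end
-- ===== PACK-END S28/H508/CoreToBasis.lean

-- ===== PACK-BEGIN A2/H552/HConst.lean
section



/-!
# A2 / ALG, route S: the hypothesis `hconst` of `A2.H348.exists_pow_eq_of_local_factorisation`
over a Henselian base (helper552)

`R` a Henselian discrete valuation ring with algebraically closed residue field, uniformiser `w`,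
`E = Frac R` of characteristic zero, `m` invertible in the residue field; `F ⊇ R` a field with a
valuation subring `V ⊇ R` with uniformiser `w` and `F = V[1/w]` (the Gauss valuation ring `V∞`),
`u = 1 + w t` with `t ∈ V`.

`hconst_of_henselian` : constants do not grow in the residue fields of the Kummer algebra
`F[X]/(X ^ m - u)` — VERBATIM the hypothesis `hconst` of
`Fermat.Agent.A2.H348.exists_pow_eq_of_local_factorisation`.
-/

set_option autoImplicit false

namespace Fermat.Agent.A2.H552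

open Polynomial IsLocalRing

section HConst

variable {R E F : Type*} [CommRing R] [IsDomain R] [IsDiscreteValuationRing R]
  [HenselianLocalRing R] [IsAlgClosed (ResidueField R)]
  [Field E] [CharZero E] [Algebra R E] [IsFractionRing R E]
  [Field F] [Algebra R F] [Algebra E F] [IsScalarTower R E F]

variable (E) in
include E in
/-- **`hconst` over a Henselian base.** -/
theorem hconst_of_henselian (w : R) (hw : Irreducible w) (V : ValuationSubring F)
    (hRV : ∀ r : R, algebraMap R F r ∈ V)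
    (hwV : (algebraMap R F w)⁻¹ ∉ V)
    (hVgen : ∀ a ∈ V, a⁻¹ ∉ V → a * (algebraMap R F w)⁻¹ ∈ V)
    (hdisc : ∀ c : F, ∃ k : ℕ, algebraMap R F w ^ k * c ∈ V)
    (m : ℕ) (hm : (m : ResidueField R) ≠ 0)
    (t : F) (ht : t ∈ V) (u : F) (hu : u = 1 + algebraMap R F w * t) :
    ∀ 𝔫 : Ideal (AdjoinRoot (X ^ m - C u)), 𝔫.IsMaximal →
      ∀ y : AdjoinRoot (X ^ m - C u) ⧸ 𝔫, IsIntegral R y →
        y ∈ Set.range (algebraMap R (AdjoinRoot (X ^ m - C u) ⧸ 𝔫)) := by
  intro 𝔫 h𝔫 y hy
  let _ : Field (AdjoinRoot (X ^ m - C u) ⧸ 𝔫) := Ideal.Quotient.field 𝔫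
  have : IsScalarTower R E (AdjoinRoot (X ^ m - C u) ⧸ 𝔫) :=
    IsScalarTower.of_algebraMap_eq fun r => by
      change Ideal.Quotient.mk 𝔫 (AdjoinRoot.of _ (algebraMap R F r)) =
        Ideal.Quotient.mk 𝔫 (AdjoinRoot.of _ (algebraMap E F (algebraMap R E r)))
      rw [← IsScalarTower.algebraMap_apply R E F]
  have : IsScalarTower R F (AdjoinRoot (X ^ m - C u) ⧸ 𝔫) :=
    IsScalarTower.of_algebraMap_eq fun r => rfl
  set z : AdjoinRoot (X ^ m - C u) ⧸ 𝔫 := Ideal.Quotient.mk 𝔫 (AdjoinRoot.root _) with hzdef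
  have hz : z ^ m = algebraMap F (AdjoinRoot (X ^ m - C u) ⧸ 𝔫) (1 + algebraMap R F w * t) := by
    rw [← hu]
    have h := AdjoinRoot.eval₂_root (X ^ m - C u : F[X])
    rw [eval₂_sub, eval₂_pow, eval₂_X, eval₂_C, sub_eq_zero] at h
    rw [hzdef, ← map_pow, h]
    rfl
  have hgen : ∀ b : AdjoinRoot (X ^ m - C u) ⧸ 𝔫,
      b ∈ Algebra.adjoin F ({z} : Set (AdjoinRoot (X ^ m - C u) ⧸ 𝔫)) := by
    intro b
    obtain ⟨a, rfl⟩ := Ideal.Quotient.mk_surjective b
    have ha : a ∈ Algebra.adjoin F ({AdjoinRoot.root (X ^ m - C u)} : Set (AdjoinRoot _)) := by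
      rw [AdjoinRoot.adjoinRoot_eq_top]
      exact Algebra.mem_top
    have := Algebra.adjoin_image F (Ideal.Quotient.mkₐ F 𝔫)
      ({AdjoinRoot.root (X ^ m - C u)} : Set (AdjoinRoot _))
    rw [Set.image_singleton] at this
    rw [hzdef]
    change Ideal.Quotient.mkₐ F 𝔫 a ∈ Algebra.adjoin F {Ideal.Quotient.mkₐ F 𝔫 (AdjoinRoot.root _)}
    rw [this]
    exact ⟨a, ha, rfl⟩
  exact kummer_isIntegral_mem_range E w hw V hRV hwV hVgen hdisc m hm t ht z hz hgen y hy

end HConst

end Fermat.Agent.A2.H552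

end
-- ===== PACK-END A2/H552/HConst.lean

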