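import Fermat.Statements.S22
import Mathlib.Analysis.Complex.UpperHalfPlane.Manifold
import Mathlib.Geometry.Manifold.Notation
import Mathlib.Geometry.Manifold.MFDeriv.SpecificFunctions
import Mathlib.NumberTheory.ModularForms.Basic
import Mathlib
import Fermat.Prelude.Def_ModularCurve_HeckeModule
import Fermat.Prelude.Def_CuspForm_HeckeAlgebra
import Fermat.Prelude.Def_ModularCurve_X0ModL
import Fermat.Prelude.Def_ModularCurve_JqCoeff
import Fermat.Prelude.Def_FLTPrelim_Ramification
import Fermat.Agent.Pack.S35.G0E1L1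
import Fermat.Agent.Pack.S35.G0E0L2
import Fermat.Agent.Pack.S35.G0E1L0
import Fermat.Agent.Pack.S35.G0E1L2
import Fermat.Agent.Pack.S35.G0E0L1
import Fermat.Agent.Pack.S35.G0E0L3
import Fermat.Agent.Pack.S35.G0E0L0
import Fermat.Agent.Pack.S35.G0E1L3

-- ===== PACK-BEGIN S24/Deg/H457_Bridge.lean
section





/-!
# S24 / DEG (helper457), bridge: the formal interface hypothesis `Hyp ℂ N n` from function level

Inputs: helper648 (conjugate product, `exists_charPoly_eval_eq_zero`), helper708 (`HasQExp`),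
helper264 (`hasSum_jFun`).  Remaining explicit hypotheses: the polynomiality principle `D5` for
`jFun` and the growth bound of `jFun` on the fundamental domain.
-/

set_option autoImplicit false

noncomputable section

open UpperHalfPlane ModularGroup CongruenceSubgroup Polynomial ModularCurve
open scoped MatrixGroups Manifold Modular Real

namespace Fermat.Agent.S24.Deg457

open Fermat.Agent.S24.H648 Fermat.Agent.S24.H708 Fermat.Agent.S24.JFun

/-- `τ ↦ d τ` on the upper half plane -/
def scaleH (d : ℕ) [NeZero d] (τ : ℍ) : ℍ :=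
  UpperHalfPlane.mk ((d : ℂ) * τ) (by
    have hd : (0 : ℝ) < d := by exact_mod_cast Nat.pos_of_ne_zero (NeZero.ne d)
    have : ((d : ℂ) * (τ : ℂ)).im = d * τ.im := by simp
    rw [this]
    exact mul_pos hd τ.im_pos)

theorem coe_scaleH (d : ℕ) [NeZero d] (τ : ℍ) : ((scaleH d τ : ℍ) : ℂ) = (d : ℂ) * τ := rfl

theorem coeff_JK_complex (n : ℤ) : (jqModC ℂ).coeff n = algebraMap ℚ ℂ (jq.coeff n) := by
  rw [← JK_eq, JK, coeffEmb_coeff]

/-- the `q`-expansion of `τ ↦ j(dτ)` is `j(q^d)`. -/
theorem hasQExp_jFun_scale (d : ℕ) [NeZero d] :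
    HasQExp 1 (fun τ => _root_.Fermat.Agent.S24.JFun.jFun (scaleH d τ)) (coeffEmb ℂ (qExpand ℚ d jq)) := by
  have hd : 0 < d := Nat.pos_of_ne_zero (NeZero.ne d)
  refine HasQExp.of_hasSum
    (mdifferentiable_J_scale jFun_mdifferentiable d hd (scaleH d) (coe_scaleH d)) ?_
  intro τ
  have h := hasSum_jFun (scaleH d τ)
  have hinj : Function.Injective (fun n : ℤ => (d : ℤ) * n) := by
    intro a b hab
    have hd' : (d : ℤ) ≠ 0 := by exact_mod_cast hd.ne'
    exact mul_left_cancel₀ hd' hab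
  have hsupp : ∀ m : ℤ, m ∉ Set.range (fun n : ℤ => (d : ℤ) * n) →
      (coeffEmb ℂ (qExpand ℚ d jq)).coeff m * qh 1 τ ^ m = 0 := by
    intro m hm
    have hndvd : ¬ (d : ℤ) ∣ m := by
      rintro ⟨k, rfl⟩
      exact hm ⟨k, rfl⟩
    rw [coeffEmb_coeff, qExpand_coeff_of_not_dvd d jq hndvd, map_zero, zero_mul]
  rw [← hinj.hasSum_iff hsupp]
  have hq : Function.Periodic.qParam 1 ((scaleH d τ : ℍ) : ℂ) = qh 1 τ ^ d := by
    rw [qh_apply, coe_scaleH]
    simp only [Function.Periodic.qParam, Nat.cast_one, Complex.ofReal_one, div_one]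
    rw [← Complex.exp_nat_mul]
    congr 1
    ring
  have hfun : ((fun m : ℤ => (coeffEmb ℂ (qExpand ℚ d jq)).coeff m * qh 1 τ ^ m) ∘
      fun n : ℤ => (d : ℤ) * n)
      = fun n : ℤ => (jqModC ℂ).coeff n *
          Function.Periodic.qParam 1 ((scaleH d τ : ℍ) : ℂ) ^ n := by
    funext n
    simp only [Function.comp_apply]
    rw [coeffEmb_coeff, qExpand_coeff_mul, coeff_JK_complex, hq, ← zpow_natCast, ← zpow_mul]
  rw [hfun]
  exact h

variable (N : ℕ) [NeZero N]

/-- every element of `A_ℂ` is the `q`-expansion of a good function. -/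
theorem exists_goodRing_hasQExp
    (hJfd : ∃ C : ℝ, ∀ τ : ℍ, τ ∈ 𝒟 → ‖_root_.Fermat.Agent.S24.JFun.jFun τ‖ ≤ C * Real.exp (2 * π * τ.im))
    {b : LaurentSeries ℂ} (hb : b ∈ AK ℂ N) :
    ∃ f : ℍ → ℂ, f ∈ goodRing N ∧ HasQExp 1 f b := by
  unfold AK at hb
  induction hb using Algebra.adjoin_induction with
  | mem x hx =>
    obtain ⟨y, ⟨d, hd, hdN, rfl⟩, rfl⟩ := hx
    haveI := hd
    refine ⟨fun τ => _root_.Fermat.Agent.S24.JFun.jFun (scaleH d τ), ?_, hasQExp_jFun_scale d⟩
    exact J_scale_mem_goodRing N jFun_mdifferentiable _root_.Fermat.Agent.S24.JFun.jFun_smul hJfd d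
      (Nat.pos_of_ne_zero (NeZero.ne d)) hdN (scaleH d) (coe_scaleH d)
  | algebraMap c =>
    refine ⟨fun _ => c, (goodRing N).algebraMap_mem c, ?_⟩
    have : algebraMap ℂ (LaurentSeries ℂ) c = HahnSeries.C c := by
      rw [algebraMap_laurentSeries_eq_single]; rfl
    rw [this]
    exact HasQExp.const 1 c
  | add x y _ _ hx hy =>
    obtain ⟨f, hf, hfx⟩ := hx
    obtain ⟨g, hg, hgy⟩ := hy
    exact ⟨f + g, (goodRing N).add_mem hf hg, hfx.add hgy⟩
  | mul x y _ _ hx hy =>
    obtain ⟨f, hf, hfx⟩ := hx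
    obtain ⟨g, hg, hgy⟩ := hy
    exact ⟨f * g, (goodRing N).mul_mem hf hg, hfx.mul hgy⟩

theorem hasQExp_jFun : HasQExp 1 _root_.Fermat.Agent.S24.JFun.jFun (JK ℂ) := by
  have h := hasQExp_jFun_scale 1
  rw [qExpand_one_apply] at h
  have hfun : (fun τ => _root_.Fermat.Agent.S24.JFun.jFun (scaleH 1 τ)) = _root_.Fermat.Agent.S24.JFun.jFun := by
    funext τ
    congr 1
    apply UpperHalfPlane.ext
    rw [coe_scaleH]
    simp
  rw [hfun] at h
  exact h

/-- transfer of univariate polynomial expressions in `j` -/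
theorem hasQExp_aeval (p : ℂ[X]) :
    HasQExp 1 (fun τ => p.eval (_root_.Fermat.Agent.S24.JFun.jFun τ)) (aeval (JK ℂ) p) := by
  induction p using Polynomial.induction_on' with
  | add p q hp hq =>
    have := hp.add hq
    rw [map_add]
    convert this using 1
    funext τ
    simp
  | monomial n c =>
    have h1 := (HasQExp.const 1 c).mul (hasQExp_jFun.pow n)
    rw [aeval_monomial]
    have : algebraMap ℂ (LaurentSeries ℂ) c = HahnSeries.C c := by
      rw [algebraMap_laurentSeries_eq_single]; rfl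
    rw [this]
    convert h1 using 1
    funext τ
    simp

/-- transfer of bivariate polynomial expressions -/
theorem hasQExp_eval₂ (P : ℂ[X][X]) {f : ℍ → ℂ} {b : LaurentSeries ℂ} (hf : HasQExp 1 f b) :
    HasQExp 1 (fun τ => (P.map (Polynomial.evalRingHom (_root_.Fermat.Agent.S24.JFun.jFun τ))).eval (f τ))
      (P.eval₂ (evJ (JK ℂ)) b) := by
  induction P using Polynomial.induction_on' with
  | add p q hp hq =>
    have := hp.add hq
    rw [eval₂_add]
    convert this using 1
    funext τ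
    simp
  | monomial n p =>
    have h1 := (hasQExp_aeval p).mul (hf.pow n)
    rw [eval₂_monomial, evJ_apply]
    convert h1 using 1
    funext τ
    simp

/-- **The interface hypothesis over `ℂ`**, from D5 and the growth bound of `j`. -/
theorem hyp_complex
    (hD5 : ∀ F : ℍ → ℂ, MDifferentiable 𝓘(ℂ) 𝓘(ℂ) F →
      (∀ (γ : SL(2, ℤ)) (τ : ℍ), F (γ • τ) = F τ) → ExpGrowth F →
      ∃ p : ℂ[X], ∀ τ, F τ = p.eval (_root_.Fermat.Agent.S24.JFun.jFun τ))
    (hJfd : ∃ C : ℝ, ∀ τ : ℍ, τ ∈ 𝒟 → ‖_root_.Fermat.Agent.S24.JFun.jFun τ‖ ≤ C * Real.exp (2 * π * τ.im)) :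
    Hyp ℂ N (Nat.card (XX N)) := by
  intro b hb
  obtain ⟨f, hf, hfb⟩ := exists_goodRing_hasQExp N hJfd hb
  haveI : Finite (SL(2, ℤ) ⧸ Gamma0 N) := inferInstanceAs (Finite (XX N))
  letI : Fintype (SL(2, ℤ) ⧸ Gamma0 N) := Fintype.ofFinite _
  obtain ⟨P, hPm, hPn, hP⟩ := exists_charPoly_eval_eq_zero (N := N) _root_.Fermat.Agent.S24.JFun.jFun hD5 hf
  refine ⟨P, hPm, ?_, ?_⟩
  · rw [hPn, Nat.card_eq_fintype_card]
  · have h1 := hasQExp_eval₂ P hfb
    rw [h1.eq_zero_iff]
    funext τ
    exact hP τ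

end Fermat.Agent.S24.Deg457

end
end
-- ===== PACK-END S24/Deg/H457_Bridge.lean

-- ===== PACK-BEGIN S24/Deg/H457_Degree.lean
section



/-!
# S24 / DEG (helper457): the degree fields of `ModularPackage`, unconditionally

`degree_fields N : FiniteDimensional ℚ̄(j) (FF N) ∧ finrank ℚ̄(j) (FF N) ≤ |SL₂(ℤ)/Γ₀(N)|`.

Chain: helper648 (conjugate product + D5 + growth of `j`, function level)
→ `hyp_complex` (formal relations over `ℂ`, via helper708 `HasQExp` and helper264 `hasSum_jFun`)
→ `finiteDimensional_and_finrank_le` (descent `ℂ → ℚ̄` + primitive element).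
-/

set_option autoImplicit false

noncomputable section

open UpperHalfPlane ModularGroup CongruenceSubgroup Polynomial ModularCurve
open scoped MatrixGroups Manifold Modular Real

namespace Fermat.Agent.S24.Deg457

theorem jFun_eq_H648 : Fermat.Agent.S24.JFun.jFun = Fermat.Agent.S24.H648.jFun := rfl

/-- the interface hypothesis over `ℂ`, unconditionally -/
theorem hyp_complex_card (N : ℕ) [NeZero N] : Hyp ℂ N (Nat.card (XX N)) := by
  refine hyp_complex N ?_ ?_
  · rw [jFun_eq_H648]
    exact Fermat.Agent.S24.H648.exists_polynomial_of_expGrowth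
  · rw [jFun_eq_H648]
    exact Fermat.Agent.S24.H648.jFun_bound_fd

/-- **The degree fields of helper984's `ModularPackage N`** (upper bound half). -/
theorem degree_fields (N : ℕ) [NeZero N] :
    FiniteDimensional ↥(IntermediateField.adjoin Kbar {jF N}) (FF N) ∧
      Module.finrank ↥(IntermediateField.adjoin Kbar {jF N}) (FF N) ≤ Nat.card (XX N) :=
  finiteDimensional_and_finrank_le N _ (hyp_complex_card N)

end Fermat.Agent.S24.Deg457

end
end
-- ===== PACK-END S24/Deg/H457_Degree.lean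

-- ===== PACK-BEGIN S22/H262/Lattice.lean
section



set_option autoImplicit false

/-!
# The period lattice: functionals, Hecke stability
-/

open Complex Filter Function Metric Set
open UpperHalfPlane hiding I
open scoped Real Topology Manifold ModularForm MatrixGroups

namespace Fermat.Agent.S22.H262

open Matrix.SpecialLinearGroup CuspForm

variable {N : ℕ} [NeZero N] {n : ℕ}

theorem hasTower_slash_posInt (f : CuspForm (CongruenceSubgroup.Gamma0 N) ((n : ℤ) + 2))
    {A : GL (Fin 2) ℝ} (hA : A ∈ posInt) : HasTower (⇑f ∣[(n : ℤ) + 2] A) := by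
  obtain ⟨g, δ, hδ, h10, rfl⟩ := exists_mapGL_mul_upper hA
  rw [SlashAction.slash_mul]
  exact (hasTower_slash_SL f g).slash_upper n δ hδ.2 h10

theorem hasTower_cuspForm (f : CuspForm (CongruenceSubgroup.Gamma0 N) ((n : ℤ) + 2)) :
    HasTower (⇑f) := by
  have := hasTower_slash_posInt f (one_mem posInt)
  rwa [SlashAction.slash_one] at this

theorem hasTower_slash_slash (f : CuspForm (CongruenceSubgroup.Gamma0 N) ((n : ℤ) + 2))
    {A B : GL (Fin 2) ℝ} (hA : A ∈ posInt) (hB : B ∈ posInt) :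
    HasTower ((⇑f ∣[(n : ℤ) + 2] A) ∣[(n : ℤ) + 2] B) := by
  rw [← SlashAction.slash_mul]
  exact hasTower_slash_posInt f (mul_mem hA hB)

theorem smul_slash_pos (k : ℤ) {A : GL (Fin 2) ℝ} (hA : 0 < A.det.val) (c : ℂ) (h : ℍ → ℂ) :
    (c • h) ∣[k] A = c • (h ∣[k] A) := by
  rw [ModularForm.smul_slash, UpperHalfPlane.σ, if_pos hA]
  rfl

/-- The functional `f ↦ c_{f|B}(A)(v)`. -/
noncomputable def lamG (N : ℕ) [NeZero N] (n : ℕ) (B A : posInt) (v : ℂ × ℂ) :
    Module.Dual ℂ (CuspForm (CongruenceSubgroup.Gamma0 N) ((n : ℤ) + 2)) where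
  toFun f := cocyc n (⇑f ∣[(n : ℤ) + 2] (B : GL (Fin 2) ℝ)) A v
  map_add' f g := by
    rw [FunLike.coe_add, SlashAction.add_slash]
    exact cocyc_add n _ (hasTower_slash_posInt f B.2) (hasTower_slash_posInt g B.2)
      (hasTower_slash_slash f B.2 A.2) (hasTower_slash_slash g B.2 A.2) v
  map_smul' c f := by
    rw [FunLike.coe_smul, smul_slash_pos _ B.2.2, RingHom.id_apply, smul_eq_mul]
    exact cocyc_smul n _ A.2.2 (hasTower_slash_posInt f B.2) (hasTower_slash_slash f B.2 A.2) c v

theorem lamG_apply (B A : posInt) (v : ℂ × ℂ)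
    (f : CuspForm (CongruenceSubgroup.Gamma0 N) ((n : ℤ) + 2)) :
    lamG N n B A v f = cocyc n (⇑f ∣[(n : ℤ) + 2] (B : GL (Fin 2) ℝ)) A v := rfl

/-- The functional `f ↦ c_f(A)(v)`. -/
noncomputable def lam (N : ℕ) [NeZero N] (n : ℕ) (A : posInt) (v : ℂ × ℂ) :
    Module.Dual ℂ (CuspForm (CongruenceSubgroup.Gamma0 N) ((n : ℤ) + 2)) :=
  lamG N n 1 A v

theorem lam_apply (A : posInt) (v : ℂ × ℂ)
    (f : CuspForm (CongruenceSubgroup.Gamma0 N) ((n : ℤ) + 2)) :
    lam N n A v f = cocyc n (⇑f) A v := by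
  rw [lam, lamG_apply]
  simp

/-- The period lattice. -/
noncomputable def periodLattice (N : ℕ) [NeZero N] (n : ℕ) :
    Submodule ℤ (Module.Dual ℂ (CuspForm (CongruenceSubgroup.Gamma0 N) ((n : ℤ) + 2))) :=
  Submodule.span ℤ {l | ∃ (A : posInt) (v : ℂ × ℂ), v ∈ Vint ∧ l = lam N n A v}

theorem lam_mem_periodLattice (A : posInt) {v : ℂ × ℂ} (hv : v ∈ Vint) :
    lam N n A v ∈ periodLattice N n :=
  Submodule.subset_span ⟨A, v, hv, rfl⟩

/-- Key identity: `c_{f|δ}(A) = c_f(δ A)` for upper triangular `δ`. -/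
theorem cocyc_slash_upper (f : CuspForm (CongruenceSubgroup.Gamma0 N) ((n : ℤ) + 2))
    {δ A : GL (Fin 2) ℝ} (hδ : δ ∈ posInt) (h10 : δ 1 0 = 0) (hA : A ∈ posInt) (v : ℂ × ℂ) :
    cocyc n (⇑f ∣[(n : ℤ) + 2] δ) A v = cocyc n (⇑f) (δ * A) v := by
  rw [cocyc_mul n δ A hδ.2 hA.2 (hasTower_cuspForm f) (hasTower_slash_posInt f hδ)
    (hasTower_slash_posInt f (mul_mem hδ hA)), cocyc_upper n (hasTower_cuspForm f) δ hδ.2 h10,
    zero_add]

theorem heckeMatrix_mem_posInt {p : ℕ} (hp : p ≠ 0) (j : ℕ) :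
    ModularForm.heckeMatrix p j ∈ posInt := by
  refine ⟨fun i k => ?_, ModularForm.det_heckeMatrix_pos p j⟩
  have h := ModularForm.val_heckeMatrix hp j
  fin_cases i <;> fin_cases k
  · exact ⟨1, by simp [h]⟩
  · exact ⟨j, by simp [h]⟩
  · exact ⟨0, by simp [h]⟩
  · exact ⟨p, by simp [h]⟩

theorem heckeDiagMatrix_mem_posInt {p : ℕ} (hp : p ≠ 0) :
    ModularForm.heckeDiagMatrix p ∈ posInt := by
  refine ⟨fun i k => ?_, ModularForm.det_heckeDiagMatrix_pos p⟩
  have h := ModularForm.val_heckeDiagMatrix hp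
  fin_cases i <;> fin_cases k
  · exact ⟨p, by simp [h]⟩
  · exact ⟨0, by simp [h]⟩
  · exact ⟨0, by simp [h]⟩
  · exact ⟨1, by simp [h]⟩

theorem heckeMatrix_one_zero {p : ℕ} (hp : p ≠ 0) (j : ℕ) :
    (ModularForm.heckeMatrix p j) 1 0 = 0 := by
  simp [ModularForm.val_heckeMatrix hp j]

theorem heckeDiagMatrix_one_zero {p : ℕ} (hp : p ≠ 0) :
    (ModularForm.heckeDiagMatrix p) 1 0 = 0 := by
  simp [ModularForm.val_heckeDiagMatrix hp]

theorem cocyc_heckeU (f : CuspForm (CongruenceSubgroup.Gamma0 N) ((n : ℤ) + 2))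
    {p : ℕ} (hp : p ≠ 0) (A : posInt) (v : ℂ × ℂ) :
    cocyc n (ModularForm.heckeU ((n : ℤ) + 2) p ⇑f) A v =
      ∑ j ∈ Finset.range p,
        lam N n (⟨ModularForm.heckeMatrix p j, heckeMatrix_mem_posInt hp j⟩ * A) v f := by
  rw [ModularForm.heckeU_def, cocyc_sum n _ _ _
    (fun j _ => hasTower_slash_posInt f (heckeMatrix_mem_posInt hp j))
    (fun j _ => hasTower_slash_slash f (heckeMatrix_mem_posInt hp j) A.2)]
  refine Finset.sum_congr rfl fun j _ => ?_
  rw [lam_apply, cocyc_slash_upper f (heckeMatrix_mem_posInt hp j) (heckeMatrix_one_zero hp j)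
    A.2]
  rfl

theorem cocyc_heckeT (f : CuspForm (CongruenceSubgroup.Gamma0 N) ((n : ℤ) + 2))
    {p : ℕ} (hp : p ≠ 0) (A : posInt) (v : ℂ × ℂ) :
    cocyc n (ModularForm.heckeT ((n : ℤ) + 2) p ⇑f) A v =
      (∑ j ∈ Finset.range p,
        lam N n (⟨ModularForm.heckeMatrix p j, heckeMatrix_mem_posInt hp j⟩ * A) v f) +
      lam N n (⟨ModularForm.heckeDiagMatrix p, heckeDiagMatrix_mem_posInt hp⟩ * A) v f := by
  have hU : HasTower (ModularForm.heckeU ((n : ℤ) + 2) p ⇑f) := by
    rw [ModularForm.heckeU_def]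
    exact (tower_sum _ _
      (fun j _ => hasTower_slash_posInt f (heckeMatrix_mem_posInt hp j))).1
  have hUA : HasTower (ModularForm.heckeU ((n : ℤ) + 2) p ⇑f ∣[(n : ℤ) + 2]
      (A : GL (Fin 2) ℝ)) := by
    rw [ModularForm.heckeU_def, SlashAction.sum_slash]
    exact (tower_sum _ _
      (fun j _ => hasTower_slash_slash f (heckeMatrix_mem_posInt hp j) A.2)).1
  rw [ModularForm.heckeT_eq_heckeU_add, cocyc_add n _ hU
    (hasTower_slash_posInt f (heckeDiagMatrix_mem_posInt hp)) hUA
    (hasTower_slash_slash f (heckeDiagMatrix_mem_posInt hp) A.2), cocyc_heckeU f hp,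
    lam_apply, cocyc_slash_upper f (heckeDiagMatrix_mem_posInt hp)
      (heckeDiagMatrix_one_zero hp) A.2]
  rfl

/-- The period lattice is stable under the Hecke generators. -/
theorem periodLattice_stable (S : Set ℕ) (T : Module.End ℂ
    (CuspForm (CongruenceSubgroup.Gamma0 N) ((n : ℤ) + 2)))
    (hT : T ∈ heckeGenerators N ((n : ℤ) + 2) S) (l : Module.Dual ℂ
    (CuspForm (CongruenceSubgroup.Gamma0 N) ((n : ℤ) + 2))) (hl : l ∈ periodLattice N n) :
    l ∘ₗ T ∈ periodLattice N n := by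
  induction hl using Submodule.span_induction with
  | zero => rw [LinearMap.zero_comp]; exact Submodule.zero_mem _
  | add x y _ _ hx hy => rw [LinearMap.add_comp]; exact Submodule.add_mem _ hx hy
  | smul a x _ hx =>
    have : (a • x) ∘ₗ T = a • (x ∘ₗ T) := by
      ext f
      simp
    rw [this]
    exact Submodule.smul_mem _ a hx
  | mem x hx =>
    obtain ⟨A, v, hv, rfl⟩ := hx
    rcases hT with ⟨ℓ, hℓ, hℓN, -, rfl⟩ | ⟨q, hqN, hq, -, rfl⟩
    · have hℓ0 : ℓ ≠ 0 := hℓ.ne_zero
      have : lam N n A v ∘ₗ heckeTLin ((n : ℤ) + 2) hℓ hℓN =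
          (∑ j ∈ Finset.range ℓ,
            lam N n (⟨ModularForm.heckeMatrix ℓ j, heckeMatrix_mem_posInt hℓ0 j⟩ * A) v) +
          lam N n (⟨ModularForm.heckeDiagMatrix ℓ, heckeDiagMatrix_mem_posInt hℓ0⟩ * A) v := by
        ext f
        rw [LinearMap.comp_apply, lam_apply, CuspForm.coe_heckeTLin_apply, cocyc_heckeT f hℓ0]
        simp
      rw [this]
      exact Submodule.add_mem _ (Submodule.sum_mem _ fun j _ => lam_mem_periodLattice _ hv)
        (lam_mem_periodLattice _ hv)
    · have hq0 : q ≠ 0 := hq.ne_zero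
      have : lam N n A v ∘ₗ heckeULin ((n : ℤ) + 2) hqN =
          (∑ j ∈ Finset.range q,
            lam N n (⟨ModularForm.heckeMatrix q j, heckeMatrix_mem_posInt hq0 j⟩ * A) v) := by
        ext f
        rw [LinearMap.comp_apply, lam_apply, CuspForm.coe_heckeULin_apply, cocyc_heckeU f hq0]
        simp
      rw [this]
      exact Submodule.sum_mem _ fun j _ => lam_mem_periodLattice _ hv

end Fermat.Agent.S22.H262

end
-- ===== PACK-END S22/H262/Lattice.lean

-- ===== PACK-BEGIN S22/H262/FG.lean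
section


set_option autoImplicit false

/-!
# The period lattice is finitely generated
-/

open Complex Filter Function Metric Set
open UpperHalfPlane hiding I
open scoped Real Topology Manifold ModularForm MatrixGroups

namespace Fermat.Agent.S22.H262

open Matrix.SpecialLinearGroup CuspForm

variable {N : ℕ} [NeZero N] {n : ℕ}

/-- An element of `SL₂(ℤ)` as an element of the submonoid `posInt`. -/
noncomputable def sl (g : SL(2, ℤ)) : posInt := ⟨mapGL ℝ g, mapGL_mem_posInt g⟩

@[simp] theorem coe_sl (g : SL(2, ℤ)) : ((sl g : posInt) : GL (Fin 2) ℝ) = mapGL ℝ g := rfl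

theorem sl_mul (g h : SL(2, ℤ)) : sl (g * h) = sl g * sl h :=
  Subtype.ext (by simp)

theorem sl_one : sl 1 = 1 := Subtype.ext (by simp)

/-- The functional `f ↦ (tower (f|B) r)(i)`. -/
noncomputable def mu (N : ℕ) [NeZero N] (n : ℕ) (B : posInt) (r : ℕ) :
    Module.Dual ℂ (CuspForm (CongruenceSubgroup.Gamma0 N) ((n : ℤ) + 2)) where
  toFun f := tower (⇑f ∣[(n : ℤ) + 2] (B : GL (Fin 2) ℝ)) r UpperHalfPlane.I
  map_add' f g := by
    rw [FunLike.coe_add, SlashAction.add_slash,
      tower_add (hasTower_slash_posInt f B.2) (hasTower_slash_posInt g B.2)]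
    rfl
  map_smul' c f := by
    rw [FunLike.coe_smul, smul_slash_pos _ B.2.2, tower_smul (hasTower_slash_posInt f B.2)]
    rfl

theorem mu_apply (B : posInt) (r : ℕ)
    (f : CuspForm (CongruenceSubgroup.Gamma0 N) ((n : ℤ) + 2)) :
    mu N n B r f = tower (⇑f ∣[(n : ℤ) + 2] (B : GL (Fin 2) ℝ)) r UpperHalfPlane.I := rfl

theorem mu_sl_mul_of_mem {γ : SL(2, ℤ)} (hγ : γ ∈ CongruenceSubgroup.Gamma0 N) (g : SL(2, ℤ))
    (r : ℕ) : mu N n (sl (γ * g)) r = mu N n (sl g) r := by
  ext f
  rw [mu_apply, mu_apply, coe_sl, coe_sl, map_mul, SlashAction.slash_mul]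
  have h2 : ⇑f ∣[(n : ℤ) + 2] (mapGL ℝ γ) = ⇑f :=
    SlashInvariantFormClass.slash_action_eq f _ ⟨γ, hγ, rfl⟩
  rw [h2]

theorem finite_range_mu (r : ℕ) :
    (Set.range fun g : SL(2, ℤ) => mu N n (sl g) r).Finite := by
  let Ψ : SL(2, ℤ) ⧸ CongruenceSubgroup.Gamma0 N →
      Module.Dual ℂ (CuspForm (CongruenceSubgroup.Gamma0 N) ((n : ℤ) + 2)) :=
    fun q => Quotient.liftOn' q (fun g => mu N n (sl g⁻¹) r) (by
      intro a b hab
      rw [QuotientGroup.leftRel_apply] at hab
      have : a⁻¹ = (a⁻¹ * b) * b⁻¹ := by group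
      show mu N n (sl a⁻¹) r = mu N n (sl b⁻¹) r
      rw [this, mu_sl_mul_of_mem hab])
  refine (Set.finite_range Ψ).subset ?_
  rintro _ ⟨g, rfl⟩
  refine ⟨QuotientGroup.mk g⁻¹, ?_⟩
  show mu N n (sl g⁻¹⁻¹) r = _
  rw [inv_inv]

/-- The finite generating set of the container lattice. -/
def muSet (N : ℕ) [NeZero N] (n : ℕ) :
    Set (Module.Dual ℂ (CuspForm (CongruenceSubgroup.Gamma0 N) ((n : ℤ) + 2))) :=
  ⋃ r ∈ Finset.range (n + 2),
    ((Set.range fun g : SL(2, ℤ) => mu N n (sl g) r) ∪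
      (fun l => Complex.I • l) '' (Set.range fun g : SL(2, ℤ) => mu N n (sl g) r))

theorem muSet_finite : (muSet N n).Finite := by
  unfold muSet
  refine Set.Finite.biUnion (Finset.finite_toSet _) fun r _ => ?_
  exact (finite_range_mu r).union ((finite_range_mu r).image _)

/-- The container lattice. -/
noncomputable def container (N : ℕ) [NeZero N] (n : ℕ) :
    Submodule ℤ (Module.Dual ℂ (CuspForm (CongruenceSubgroup.Gamma0 N) ((n : ℤ) + 2))) :=
  Submodule.span ℤ (muSet N n)

theorem container_fg : (container N n).FG := Submodule.fg_span muSet_finite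

theorem mu_mem_container (g : SL(2, ℤ)) {r : ℕ} (hr : r < n + 2) :
    mu N n (sl g) r ∈ container N n := by
  apply Submodule.subset_span
  simp only [muSet, Set.mem_iUnion]
  exact ⟨r, Finset.mem_range.mpr hr, Or.inl ⟨g, rfl⟩⟩

theorem I_smul_mu_mem_container (g : SL(2, ℤ)) {r : ℕ} (hr : r < n + 2) :
    Complex.I • mu N n (sl g) r ∈ container N n := by
  apply Submodule.subset_span
  simp only [muSet, Set.mem_iUnion]
  exact ⟨r, Finset.mem_range.mpr hr, Or.inr ⟨_, ⟨g, rfl⟩, rfl⟩⟩

/-- Gaussian integers inside `ℂ`. -/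
def IsGauss (z : ℂ) : Prop := ∃ a b : ℤ, z = a + b * Complex.I

theorem IsGauss.mul {z w : ℂ} (hz : IsGauss z) (hw : IsGauss w) : IsGauss (z * w) := by
  obtain ⟨a, b, rfl⟩ := hz
  obtain ⟨c, d, rfl⟩ := hw
  refine ⟨a * c - b * d, a * d + b * c, ?_⟩
  push_cast
  linear_combination (b : ℂ) * d * Complex.I_sq

theorem isGauss_one : IsGauss 1 := ⟨1, 0, by simp⟩

theorem IsGauss.pow {z : ℂ} (hz : IsGauss z) (m : ℕ) : IsGauss (z ^ m) := by
  induction m with
  | zero => simpa using isGauss_one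
  | succ m ih => rw [pow_succ]; exact ih.mul hz

theorem isGauss_int (x : ℤ) : IsGauss x := ⟨x, 0, by simp⟩

theorem isGauss_nat (x : ℕ) : IsGauss x := ⟨x, 0, by simp⟩

theorem isGauss_sub_I_mul (x y : ℤ) : IsGauss ((x : ℂ) - Complex.I * y) :=
  ⟨x, -y, by push_cast; ring⟩

/-- `bigG n E i v` for an integer vector `v` is a Gaussian-integer combination of the tower
values at `i`, with coefficients independent of the tower. -/
theorem bigG_I_eq (n : ℕ) {v : ℂ × ℂ} (hv : v ∈ Vint) :
    ∃ a b : ℕ → ℤ, ∀ E : ℕ → ℍ → ℂ, bigG n E UpperHalfPlane.I v =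
      ∑ j ∈ Finset.range (n + 1), ((a j : ℂ) * E (j + 1) UpperHalfPlane.I +
        (b j : ℂ) * (Complex.I * E (j + 1) UpperHalfPlane.I)) := by
  obtain ⟨x, y, rfl⟩ := hv
  have key : ∀ j : ℕ, IsGauss ((n.descFactorial j : ℂ) *
      (((x : ℂ) - Complex.I * y) ^ (n - j) * (y : ℂ) ^ j)) := fun j =>
    (isGauss_nat _).mul (((isGauss_sub_I_mul x y).pow _).mul ((isGauss_int y).pow _))
  choose a b hab using key
  refine ⟨a, b, fun E => ?_⟩
  unfold bigG
  refine Finset.sum_congr rfl fun j _ => ?_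
  have := hab j
  simp only [UpperHalfPlane.coe_I] at *
  linear_combination E (j + 1) UpperHalfPlane.I * this

/-- The functional `f ↦ bigG n (tower (f|g)) i v` lies in the container lattice. -/
theorem exists_mem_container_bigG (g : SL(2, ℤ)) {v : ℂ × ℂ} (hv : v ∈ Vint) :
    ∃ l ∈ container N n, ∀ f : CuspForm (CongruenceSubgroup.Gamma0 N) ((n : ℤ) + 2),
      l f = bigG n (tower (⇑f ∣[(n : ℤ) + 2] (mapGL ℝ g))) UpperHalfPlane.I v := by
  obtain ⟨a, b, hab⟩ := bigG_I_eq n hv
  refine ⟨∑ j ∈ Finset.range (n + 1),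
    (a j • mu N n (sl g) (j + 1) + b j • (Complex.I • mu N n (sl g) (j + 1))), ?_, fun f => ?_⟩
  · refine Submodule.sum_mem _ fun j hj => ?_
    have hj' : j + 1 < n + 2 := by
      have := Finset.mem_range.mp hj
      omega
    exact Submodule.add_mem _ (Submodule.smul_mem _ _ (mu_mem_container g hj'))
      (Submodule.smul_mem _ _ (I_smul_mu_mem_container g hj'))
  · rw [hab]
    simp only [LinearMap.sum_apply, LinearMap.add_apply, LinearMap.smul_apply, mu_apply, coe_sl,
      smul_eq_mul, zsmul_eq_mul]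

theorem mapGL_apply_entry (g : SL(2, ℤ)) (i j : Fin 2) :
    (mapGL ℝ g : GL (Fin 2) ℝ) i j = ((g.1 i j : ℤ) : ℝ) := by
  simp

theorem mapGL_S_smul_I : (mapGL ℝ ModularGroup.S : GL (Fin 2) ℝ) • UpperHalfPlane.I =
    UpperHalfPlane.I := by
  apply UpperHalfPlane.ext
  rw [coe_smul_of_det_pos (mapGL_mem_posInt _).2]
  have h00 : (mapGL ℝ ModularGroup.S : GL (Fin 2) ℝ) 0 0 = 0 := by
    rw [mapGL_apply_entry, ModularGroup.coe_S]; simp
  have h01 : (mapGL ℝ ModularGroup.S : GL (Fin 2) ℝ) 0 1 = -1 := by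
    rw [mapGL_apply_entry, ModularGroup.coe_S]; simp
  have h10 : (mapGL ℝ ModularGroup.S : GL (Fin 2) ℝ) 1 0 = 1 := by
    rw [mapGL_apply_entry, ModularGroup.coe_S]; simp
  have h11 : (mapGL ℝ ModularGroup.S : GL (Fin 2) ℝ) 1 1 = 0 := by
    rw [mapGL_apply_entry, ModularGroup.coe_S]; simp
  simp only [num, denom, h00, h01, h10, h11, UpperHalfPlane.coe_I]
  push_cast
  rw [zero_mul, zero_add, one_mul, add_zero, neg_div, one_div, Complex.inv_I, neg_neg]

theorem mapGL_T_one_zero : (mapGL ℝ ModularGroup.T : GL (Fin 2) ℝ) 1 0 = 0 := by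
  rw [mapGL_apply_entry, ModularGroup.coe_T]; simp

/-- Slashing by a product in `SL₂(ℤ)`. -/
theorem slash_sl_mul (h : ℍ → ℂ) (k : ℤ) (x y : SL(2, ℤ)) :
    h ∣[k] (mapGL ℝ (x * y) : GL (Fin 2) ℝ) =
      (h ∣[k] (mapGL ℝ x : GL (Fin 2) ℝ)) ∣[k] (mapGL ℝ y : GL (Fin 2) ℝ) := by
  rw [map_mul, SlashAction.slash_mul]

theorem lamG_sl_mem_container (g : SL(2, ℤ)) :
    ∀ (g₀ : SL(2, ℤ)) (w : ℂ × ℂ), w ∈ Vint → lamG N n (sl g₀) (sl g) w ∈ container N n := by
  have hg : g ∈ Subgroup.closure ({ModularGroup.S, ModularGroup.T} : Set SL(2, ℤ)) := by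
    rw [SpecialLinearGroup.SL2Z_generators]
    exact Subgroup.mem_top g
  induction hg using Subgroup.closure_induction with
  | mem x hx =>
    intro g₀ w hw
    rcases hx with rfl | rfl
    · -- `S`
      obtain ⟨l₁, hl₁, h₁⟩ := exists_mem_container_bigG (N := N) (n := n) g₀
        (actV_mem_Vint (mapGL_mem_posInt ModularGroup.S) hw)
      obtain ⟨l₂, hl₂, h₂⟩ := exists_mem_container_bigG (N := N) (n := n)
        (g₀ * ModularGroup.S) hw
      have : lamG N n (sl g₀) (sl ModularGroup.S) w = l₁ - l₂ := by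
        ext f
        rw [lamG_apply, LinearMap.sub_apply, h₁, h₂, cocyc, coe_sl, coe_sl, mapGL_S_smul_I,
          slash_sl_mul]
      rw [this]
      exact Submodule.sub_mem _ hl₁ hl₂
    · -- `T`
      have : lamG N n (sl g₀) (sl ModularGroup.T) w = 0 := by
        ext f
        rw [lamG_apply, LinearMap.zero_apply]
        exact cocyc_upper n (hasTower_slash_posInt f (sl g₀).2) _
          (mapGL_mem_posInt ModularGroup.T).2 mapGL_T_one_zero w
      rw [this]
      exact Submodule.zero_mem _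
  | one =>
    intro g₀ w _
    have : lamG N n (sl g₀) (sl 1) w = 0 := by
      ext f
      rw [lamG_apply, LinearMap.zero_apply]
      exact cocyc_upper n (hasTower_slash_posInt f (sl g₀).2) _
        (mapGL_mem_posInt 1).2 (by simp) w
    rw [this]
    exact Submodule.zero_mem _
  | mul x y _ _ hx hy =>
    intro g₀ w hw
    have : lamG N n (sl g₀) (sl (x * y)) w =
        lamG N n (sl g₀) (sl x) (actV (mapGL ℝ y) w) + lamG N n (sl (g₀ * x)) (sl y) w := by
      ext f
      rw [LinearMap.add_apply, lamG_apply, lamG_apply, lamG_apply, coe_sl, coe_sl, coe_sl,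
        coe_sl, coe_sl, map_mul, cocyc_mul n _ _ (mapGL_mem_posInt x).2 (mapGL_mem_posInt y).2
          (hasTower_slash_posInt f (mapGL_mem_posInt g₀))
          (hasTower_slash_slash f (mapGL_mem_posInt g₀) (mapGL_mem_posInt x))
          (hasTower_slash_slash f (mapGL_mem_posInt g₀)
            (mul_mem (mapGL_mem_posInt x) (mapGL_mem_posInt y))),
        map_mul, SlashAction.slash_mul]
    rw [this]
    exact Submodule.add_mem _ (hx g₀ _ (actV_mem_Vint (mapGL_mem_posInt y) hw))
      (hy (g₀ * x) w hw)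
  | inv x _ hx =>
    intro g₀ w hw
    have : lamG N n (sl g₀) (sl x⁻¹) w =
        - lamG N n (sl (g₀ * x⁻¹)) (sl x) (actV (mapGL ℝ x⁻¹) w) := by
      ext f
      rw [LinearMap.neg_apply, lamG_apply, lamG_apply, coe_sl, coe_sl, coe_sl, coe_sl]
      have hmul := cocyc_mul n (h := ⇑f ∣[(n : ℤ) + 2] (mapGL ℝ (g₀ * x⁻¹) : GL (Fin 2) ℝ))
        (mapGL ℝ x) (mapGL ℝ x⁻¹) (mapGL_mem_posInt x).2 (mapGL_mem_posInt x⁻¹).2
        (hasTower_slash_posInt f (mapGL_mem_posInt _))
        (hasTower_slash_slash f (mapGL_mem_posInt _) (mapGL_mem_posInt x))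
        (hasTower_slash_slash f (mapGL_mem_posInt _)
            (mul_mem (mapGL_mem_posInt x) (mapGL_mem_posInt x⁻¹))) w
      have h1 : (mapGL ℝ x : GL (Fin 2) ℝ) * mapGL ℝ x⁻¹ = 1 := by
        rw [← map_mul, mul_inv_cancel, map_one]
      have h2 : (⇑f ∣[(n : ℤ) + 2] (mapGL ℝ (g₀ * x⁻¹) : GL (Fin 2) ℝ)) ∣[(n : ℤ) + 2]
          (mapGL ℝ x : GL (Fin 2) ℝ) = ⇑f ∣[(n : ℤ) + 2] (mapGL ℝ g₀ : GL (Fin 2) ℝ) := by
        rw [← slash_sl_mul, inv_mul_cancel_right]
      rw [h1, h2, cocyc_upper n (hasTower_slash_posInt f (mapGL_mem_posInt _)) 1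
        (by simp) (by simp)] at hmul
      linear_combination -hmul
    rw [this]
    exact Submodule.neg_mem _ (hx (g₀ * x⁻¹) _ (actV_mem_Vint (mapGL_mem_posInt x⁻¹) hw))

theorem lam_mem_container (A : posInt) {v : ℂ × ℂ} (hv : v ∈ Vint) :
    lam N n A v ∈ container N n := by
  obtain ⟨g, δ, hδ, h10, hA⟩ := exists_mapGL_mul_upper A.2
  have : lam N n A v = lamG N n (sl 1) (sl g) (actV δ v) := by
    ext f
    rw [lam_apply, lamG_apply, coe_sl, coe_sl, map_one, SlashAction.slash_one, hA,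
      cocyc_mul n _ _ (mapGL_mem_posInt g).2 hδ.2 (hasTower_cuspForm f)
        (hasTower_slash_posInt f (mapGL_mem_posInt g))
        (hasTower_slash_posInt f (mul_mem (mapGL_mem_posInt g) hδ)),
      cocyc_upper n (hasTower_slash_posInt f (mapGL_mem_posInt g)) δ hδ.2 h10, add_zero]
  rw [this]
  exact lamG_sl_mem_container g 1 _ (actV_mem_Vint hδ hv)

theorem periodLattice_le_container : periodLattice N n ≤ container N n := by
  apply Submodule.span_le.mpr
  rintro _ ⟨A, v, hv, rfl⟩
  exact lam_mem_container A hv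

/-- The period lattice is finitely generated. -/
theorem periodLattice_fg : (periodLattice N n).FG := by
  have : IsNoetherian ℤ (container N n) := isNoetherian_of_fg_of_noetherian _ container_fg
  exact Submodule.FG.of_le_of_isNoetherian periodLattice_le_container

end Fermat.Agent.S22.H262

end
-- ===== PACK-END S22/H262/FG.lean

-- ===== PACK-BEGIN S22/H262/Sep.lean
section



set_option autoImplicit false

/-!
# The period lattice separates points
-/

open Complex Filter Function Metric Set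
open UpperHalfPlane hiding I
open scoped Real Topology Manifold ModularForm MatrixGroups

namespace Fermat.Agent.S22.H262

open Matrix.SpecialLinearGroup CuspForm

variable {N : ℕ} [NeZero N] {n : ℕ}

/-- `x ↦ bigG n E w (a x + b, c x + d)` is a polynomial function. -/
theorem bigG_polynomial (n : ℕ) (E : ℕ → ℍ → ℂ) (w : ℍ) (a b c d : ℂ) :
    ∃ P : Polynomial ℂ, ∀ x : ℂ, P.eval x = bigG n E w (a * x + b, c * x + d) := by
  refine ⟨∑ j ∈ Finset.range (n + 1), Polynomial.C ((n.descFactorial j : ℂ) * E (j + 1) w) *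
    (Polynomial.C a * Polynomial.X + Polynomial.C b -
      Polynomial.C (w : ℂ) * (Polynomial.C c * Polynomial.X + Polynomial.C d)) ^ (n - j) *
    (Polynomial.C c * Polynomial.X + Polynomial.C d) ^ j, fun x => ?_⟩
  simp [bigG, Polynomial.eval_finset_sum]

theorem infinite_int_cast_complex : Set.Infinite (Set.range (fun x : ℤ => (x : ℂ))) :=
  Set.infinite_range_of_injective Int.cast_injective

/-- If the tower at level `r + 1` vanishes then so does the level `r`. -/
theorem IsTower.eq_zero_of_succ {h : ℍ → ℂ} {E : ℕ → ℍ → ℂ} (hE : IsTower h E) (r : ℕ)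
    (h0 : E (r + 1) = 0) : E r = 0 := by
  funext z
  have h1 := hE.hasDeriv r z
  rw [h0] at h1
  have h2 : HasDerivAt ((0 : ℍ → ℂ) ∘ ofComplex) 0 (z : ℂ) := by
    have : ((0 : ℍ → ℂ) ∘ ofComplex) = fun _ => (0 : ℂ) := rfl
    rw [this]
    exact hasDerivAt_const _ _
  exact h1.unique h2

theorem IsTower.eq_zero_of_top {h : ℍ → ℂ} {E : ℕ → ℍ → ℂ} (hE : IsTower h E) (r : ℕ)
    (h0 : E r = 0) : h = 0 := by
  induction r with
  | zero => rw [← hE.zero, h0]
  | succ r ih => exact ih (hE.eq_zero_of_succ r h0)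

/-- If the cocycle of `f` at `g ∈ SL₂(ℤ)` vanishes on integer vectors then the top of the tower
transforms like a form of weight `-n`. -/
theorem tower_top_slash (f : CuspForm (CongruenceSubgroup.Gamma0 N) ((n : ℤ) + 2))
    (g : SL(2, ℤ))
    (h : ∀ v ∈ Vint, cocyc n (⇑f) (mapGL ℝ g) v = 0) :
    (tower (⇑f) (n + 1)) ∣[-(n : ℤ)] g = tower (⇑f ∣[(n : ℤ) + 2] (mapGL ℝ g)) (n + 1) := by
  funext z
  have hg : (mapGL ℝ g : GL (Fin 2) ℝ) ∈ posInt := mapGL_mem_posInt g
  have hT := hasTower_cuspForm f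
  have hTg := hasTower_slash_posInt f hg
  -- the polynomial identity
  obtain ⟨P₁, hP₁⟩ := bigG_polynomial n (tower (⇑f)) ((mapGL ℝ g : GL (Fin 2) ℝ) • z)
    (((mapGL ℝ g : GL (Fin 2) ℝ) 0 0 : ℝ) : ℂ) (((mapGL ℝ g : GL (Fin 2) ℝ) 0 1 : ℝ) : ℂ)
    (((mapGL ℝ g : GL (Fin 2) ℝ) 1 0 : ℝ) : ℂ) (((mapGL ℝ g : GL (Fin 2) ℝ) 1 1 : ℝ) : ℂ)
  obtain ⟨P₂, hP₂⟩ := bigG_polynomial n (tower (⇑f ∣[(n : ℤ) + 2] (mapGL ℝ g))) z 1 0 0 1
  have hroot : ∀ x : ℤ, (P₁ - P₂).IsRoot (x : ℂ) := by
    intro x
    have hv : (((x : ℂ), (1 : ℂ)) : ℂ × ℂ) ∈ Vint := ⟨x, 1, by simp⟩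
    have h1 := h _ hv
    rw [cocyc_eq n _ hg.2 hT hTg _ z] at h1
    rw [Polynomial.IsRoot, Polynomial.eval_sub, hP₁, hP₂]
    simpa [actV] using h1
  have hzero : P₁ - P₂ = 0 := by
    apply Polynomial.eq_zero_of_infinite_isRoot
    refine infinite_int_cast_complex.mono ?_
    rintro _ ⟨x, rfl⟩
    exact hroot x
  have hz : P₁.eval (z : ℂ) = P₂.eval (z : ℂ) := by
    have := congrArg (Polynomial.eval (z : ℂ)) hzero
    simpa [sub_eq_zero] using this
  rw [hP₁, hP₂] at hz
  -- evaluate both sides on the diagonal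
  have hnum : (((mapGL ℝ g : GL (Fin 2) ℝ) 0 0 : ℝ) : ℂ) * (z : ℂ) +
      (((mapGL ℝ g : GL (Fin 2) ℝ) 0 1 : ℝ) : ℂ) =
      (((mapGL ℝ g : GL (Fin 2) ℝ) • z : ℍ) : ℂ) * denom (mapGL ℝ g : GL (Fin 2) ℝ) z := by
    rw [coe_smul_of_det_pos hg.2, div_mul_cancel₀ _ (denom_ne_zero _ z)]
    rfl
  have hden : (((mapGL ℝ g : GL (Fin 2) ℝ) 1 0 : ℝ) : ℂ) * (z : ℂ) +
      (((mapGL ℝ g : GL (Fin 2) ℝ) 1 1 : ℝ) : ℂ) = denom (mapGL ℝ g : GL (Fin 2) ℝ) z := rfl
  rw [hnum, hden, bigG_diag] at hz
  have h2 : ((1 : ℂ) * (z : ℂ) + 0, (0 : ℂ) * (z : ℂ) + 1) = ((z : ℂ) * 1, (1 : ℂ)) := by simp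
  rw [h2, bigG_diag] at hz
  have hfact : (n.factorial : ℂ) ≠ 0 := by exact_mod_cast n.factorial_ne_zero
  rw [ModularForm.SL_slash_apply]
  have hz' : tower (⇑f) (n + 1) ((mapGL ℝ g : GL (Fin 2) ℝ) • z) *
      denom (mapGL ℝ g : GL (Fin 2) ℝ) z ^ n =
      tower (⇑f ∣[(n : ℤ) + 2] (mapGL ℝ g)) (n + 1) z := by
    apply mul_left_cancel₀ hfact
    rw [← mul_assoc, hz]
    simp
  rw [neg_neg, zpow_natCast]
  exact hz'

/-- The period lattice separates points. -/
theorem periodLattice_separating (f : CuspForm (CongruenceSubgroup.Gamma0 N) ((n : ℤ) + 2))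
    (h : ∀ l ∈ periodLattice N n, l f = 0) : f = 0 := by
  have hc : ∀ (g : SL(2, ℤ)), ∀ v ∈ Vint, cocyc n (⇑f) (mapGL ℝ g) v = 0 := by
    intro g v hv
    have := h _ (lam_mem_periodLattice ⟨mapGL ℝ g, mapGL_mem_posInt g⟩ hv)
    rwa [lam_apply] at this
  have hT := hasTower_cuspForm f
  have hF : tower (⇑f) (n + 1) = 0 := by
    apply eq_zero_of_weight_nonpos N (k := -(n : ℤ)) (by omega)
    · exact hT.isTower.mdiff n
    · rintro γ ⟨g, hg, rfl⟩
      have h1 := tower_top_slash f g (hc g)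
      have h2 : ⇑f ∣[(n : ℤ) + 2] (mapGL ℝ g) = ⇑f :=
        SlashInvariantFormClass.slash_action_eq f _ ⟨g, hg, rfl⟩
      rw [h2] at h1
      exact h1
    · intro g
      rw [tower_top_slash f g (hc g)]
      exact (hasTower_slash_posInt f (mapGL_mem_posInt g)).isTower.isZero n
  have : (⇑f : ℍ → ℂ) = 0 := hT.isTower.eq_zero_of_top (n + 1) hF
  exact DFunLike.coe_injective this

end Fermat.Agent.S22.H262

end
-- ===== PACK-END S22/H262/Sep.lean

-- ===== PACK-BEGIN S22.lean
section
-- Template for statement S22 (row 21; see the milestone table for weights).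
-- The statement below is byte-identical to the frozen
-- statement CuspForm.FermatFrozen.S22 (Fermat/Statements/S22.lean; the theorem CuspForm.moduleFinite_heckeAlgebra);
-- the grader kernel-checks Fermat.Agent.S22.result against that frozen type.






set_option autoImplicit false
open CuspForm

namespace Fermat.Agent.S22

theorem result (N : ℕ) [NeZero N] (k : ℤ) (S : Set ℕ) :
    Module.Finite ℤ (CuspForm.heckeAlgebra N k S) := by
  by_cases hk : k ≤ 1
  · exact H262.moduleFinite_heckeAlgebra_of_subsingleton (H262.cuspForm_eq_zero_of_le_one hk)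
  · obtain ⟨n, rfl⟩ : ∃ n : ℕ, k = (n : ℤ) + 2 := ⟨(k - 2).toNat, by omega⟩
    exact H262.moduleFinite_heckeAlgebra_of_lattice (H262.periodLattice N n)
      H262.periodLattice_fg (H262.periodLattice_stable S) H262.periodLattice_separating

end Fermat.Agent.S22

end
-- ===== PACK-END S22.lean

-- ===== PACK-BEGIN S29/H882/GoodQ.lean
section


/-!
# S29 / MERO (helper882), part 1: `q`-expansions of good functions

`goodQ N` is the `ℂ`-subalgebra of `ℂ((q))` of `q`-expansions of the functions in the landed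
`S24.H648.goodRing N` (holomorphic, `Γ₀(N)`-invariant, all `SL₂(ℤ)`-translates of at most
exponential growth at `i∞`).  Every element of `goodQ N` is a root of a monic polynomial of degree
`[SL₂(ℤ) : Γ₀(N)]` over `ℂ[j]`.
-/

set_option autoImplicit false

noncomputable section

open UpperHalfPlane ModularGroup CongruenceSubgroup Polynomial ModularCurve
open scoped MatrixGroups Manifold Modular Real

namespace Fermat.Agent.S29.H882

open Fermat.Agent.S24 Fermat.Agent.S24.H648 Fermat.Agent.S24.H708 Fermat.Agent.S24.Deg457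

variable (N : ℕ)

theorem T_mem_Gamma0 : ModularGroup.T ∈ Gamma0 N := by
  rw [Gamma0_mem]
  simp [ModularGroup.T]

variable {N}

/-- A `Γ₀(N)`-invariant function is `1`-periodic. -/
theorem periodic_of_invariant {f : ℍ → ℂ} (hf : ∀ γ ∈ Gamma0 N, ∀ τ : ℍ, f (γ • τ) = f τ) :
    Function.Periodic (f ∘ ofComplex) (1 : ℝ) := by
  intro w
  by_cases hw : 0 < Complex.im w
  · have hw' : 0 < Complex.im (w + ((1 : ℝ) : ℂ)) := by simpa using hw
    simp only [Function.comp_apply, ofComplex_apply_of_im_pos hw', ofComplex_apply_of_im_pos hw]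
    have h := hf _ (T_mem_Gamma0 N) ⟨w, hw⟩
    rw [← h]
    congr 1
    apply UpperHalfPlane.ext
    rw [UpperHalfPlane.modular_T_smul, UpperHalfPlane.coe_vadd]
    simp [add_comm]
  · have hw0 : Complex.im w ≤ 0 := not_lt.mp hw
    have hw' : Complex.im (w + ((1 : ℝ) : ℂ)) ≤ 0 := by simpa using hw0
    simp only [Function.comp_apply]
    rw [ofComplex_apply_of_im_nonpos hw', ofComplex_apply_of_im_nonpos hw0]

/-- Exponential growth gives a pole of finite order at `i∞`. -/
theorem isBounded_mul_qh_pow_of_expGrowth {f : ℍ → ℂ} (hf : ExpGrowth f) :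
    ∃ M : ℕ, IsBoundedAtImInfty (f * qh 1 ^ M) := by
  obtain ⟨C, m, h⟩ := hf
  refine ⟨m, ?_⟩
  rw [UpperHalfPlane.isBoundedAtImInfty_iff]
  refine ⟨C, 1, fun τ hτ => ?_⟩
  have h1 := h τ hτ
  have hq : ‖qh 1 τ‖ = Real.exp (-2 * π * τ.im) := by
    rw [qh_apply, Function.Periodic.norm_qParam]
    simp
  rw [Pi.mul_apply, Pi.pow_apply, norm_mul, norm_pow, hq, ← Real.exp_nat_mul]
  calc ‖f τ‖ * Real.exp (m * (-2 * π * τ.im))
      ≤ C * Real.exp (2 * π * m * τ.im) * Real.exp (m * (-2 * π * τ.im)) :=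
        mul_le_mul_of_nonneg_right h1 (Real.exp_pos _).le
    _ = C := by
        rw [mul_assoc, ← Real.exp_add]
        have : 2 * π * m * τ.im + m * (-2 * π * τ.im) = 0 := by ring
        rw [this, Real.exp_zero, mul_one]

theorem isMerInf_of_mem_goodRing {f : ℍ → ℂ} (hf : f ∈ goodRing N) : IsMerInf 1 f := by
  obtain ⟨h1, h2, h3⟩ := hf
  refine ⟨h1, ?_, ?_⟩
  · have := periodic_of_invariant h2
    simpa using this
  · have h := h3 1
    simp only [one_smul] at h
    exact isBounded_mul_qh_pow_of_expGrowth h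

theorem hasQExp_of_mem_goodRing {f : ℍ → ℂ} (hf : f ∈ goodRing N) :
    HasQExp 1 f (qexpFun 1 f) :=
  HasQExp.of_isMerInf (isMerInf_of_mem_goodRing hf)

variable (N)

/-- The algebra of `q`-expansions of good functions of level `N`. -/
def goodQ : Subalgebra ℂ (LaurentSeries ℂ) where
  carrier := {b | ∃ f ∈ goodRing N, HasQExp 1 f b}
  mul_mem' := by
    rintro a b ⟨f, hf, hfa⟩ ⟨g, hg, hgb⟩
    exact ⟨f * g, (goodRing N).mul_mem hf hg, hfa.mul hgb⟩
  add_mem' := by
    rintro a b ⟨f, hf, hfa⟩ ⟨g, hg, hgb⟩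
    exact ⟨f + g, (goodRing N).add_mem hf hg, hfa.add hgb⟩
  algebraMap_mem' := fun c => by
    refine ⟨fun _ => c, (goodRing N).algebraMap_mem c, ?_⟩
    have : algebraMap ℂ (LaurentSeries ℂ) c = HahnSeries.C c := by
      rw [algebraMap_laurentSeries_eq_single]; rfl
    rw [this]
    exact HasQExp.const 1 c

variable {N}

theorem mem_goodQ {b : LaurentSeries ℂ} :
    b ∈ goodQ N ↔ ∃ f ∈ goodRing N, HasQExp 1 f b := Iff.rfl

theorem qexpFun_mem_goodQ {f : ℍ → ℂ} (hf : f ∈ goodRing N) : qexpFun 1 f ∈ goodQ N :=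
  ⟨f, hf, hasQExp_of_mem_goodRing hf⟩

variable (N) in
theorem AK_le_goodQ [NeZero N] : AK ℂ N ≤ goodQ N := by
  intro b hb
  have hJ : ∃ C : ℝ, ∀ τ : ℍ, τ ∈ 𝒟 → ‖JFun.jFun τ‖ ≤ C * Real.exp (2 * π * τ.im) := by
    rw [jFun_eq_H648]
    exact Fermat.Agent.S24.H648.jFun_bound_fd
  exact exists_goodRing_hasQExp N hJ hb

variable (N) in
theorem JK_mem_goodQ [NeZero N] : JK ℂ ∈ goodQ N := AK_le_goodQ N (JK_mem_AK ℂ N)

/-- Every `q`-expansion of a good function is a root of a monic polynomial of degree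
`[SL₂(ℤ) : Γ₀(N)]` over `ℂ[j]`. -/
theorem exists_monic_of_mem_goodQ [NeZero N] {b : LaurentSeries ℂ} (hb : b ∈ goodQ N) :
    ∃ P : ℂ[X][X], P.Monic ∧ P.natDegree = Nat.card (XX N) ∧
      P.eval₂ (evJ (JK ℂ)) b = 0 := by
  obtain ⟨f, hf, hfb⟩ := hb
  haveI : Finite (SL(2, ℤ) ⧸ Gamma0 N) := inferInstanceAs (Finite (XX N))
  letI : Fintype (SL(2, ℤ) ⧸ Gamma0 N) := Fintype.ofFinite _
  obtain ⟨P, hPm, hPn, hP⟩ := exists_charPoly_jFun_eval_eq_zero (N := N) hf
  refine ⟨P, hPm, ?_, ?_⟩
  · rw [hPn, Nat.card_eq_fintype_card]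
  · have h1 := hasQExp_eval₂ P hfb
    rw [h1.eq_zero_iff]
    funext τ
    exact hP τ

theorem algDeg_of_mem_goodQ [NeZero N] {b : LaurentSeries ℂ} (hb : b ∈ goodQ N) :
    AlgDeg ℂ (Nat.card (XX N)) b := by
  obtain ⟨P, hPm, hPn, hP⟩ := exists_monic_of_mem_goodQ hb
  exact ⟨P, hPm.ne_zero, hPn.le, hP⟩

end Fermat.Agent.S29.H882

end
end
-- ===== PACK-END S29/H882/GoodQ.lean

-- ===== PACK-BEGIN S29/H882/FieldDeg.lean
section


/-!
# S29 / MERO (helper882), part 2: generic algebra

* `exists_relation_of_coeffMap_ne_zero`: descent of a NONZERO bivariate relation along a coefficient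
  embedding (generalises the monic case of the landed `S24.Deg457`).
* `exists_clear_denominators`: a polynomial over `K(j)` becomes, after multiplication by a nonzero
  element of `K[j]`, the image of a bivariate polynomial.
* `algDeg_of_mem_adjoin`: if every element of a subalgebra `B ∋ j` of `K((q))` is algebraic of
  degree `≤ n` over `K[j]`, so is every element of the field generated by `B`.
-/

set_option autoImplicit false

noncomputable section

open Polynomial ModularCurve IntermediateField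

namespace Fermat.Agent.S29.H882

open Fermat.Agent.S24 Fermat.Agent.S24.Deg457

section Descent

variable {K L : Type*} [Field K] [Field L]

/-- **Descent** of a nonzero relation of degree `≤ n` over `L[ι J]` for `ι a` to a nonzero relation
of degree `≤ n` over `K[J]` for `a`. -/
theorem exists_relation_of_coeffMap_ne_zero (ι : K →+* L) (J a : LaurentSeries K) (n : ℕ)
    (P : L[X][X]) (hP : P ≠ 0) (hn : P.natDegree ≤ n)
    (h0 : P.eval₂ (evJ (coeffMap ι J)) (coeffMap ι a) = 0) :
    ∃ Q : K[X][X], Q ≠ 0 ∧ Q.natDegree ≤ n ∧ Q.eval₂ (evJ J) a = 0 := by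
  classical
  set D : ℕ := P.support.sup fun k => (P.coeff k).natDegree with hD
  have hDle : ∀ k, (P.coeff k).natDegree ≤ D := by
    intro k
    by_cases hk : k ∈ P.support
    · exact Finset.le_sup (f := fun k => (P.coeff k).natDegree) hk
    · rw [notMem_support_iff.mp hk]; simp
  let v : Fin (D + 1) × Fin (n + 1) → LaurentSeries K := fun p => J ^ (p.1 : ℕ) * a ^ (p.2 : ℕ)
  have hnot : ¬ LinearIndependent K v := by
    intro hv
    have hw := linearIndependent_coeffMap ι v hv
    rw [Fintype.linearIndependent_iff] at hw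
    -- a nonzero coefficient of `P`
    have hlc : P.coeff P.natDegree ≠ 0 := by
      rw [coeff_natDegree]; exact leadingCoeff_ne_zero.mpr hP
    have hlc2 : (P.coeff P.natDegree).coeff (P.coeff P.natDegree).natDegree ≠ 0 := by
      rw [coeff_natDegree]; exact leadingCoeff_ne_zero.mpr hlc
    have key := hw (fun p => (P.coeff p.2).coeff p.1) ?_
      (⟨(P.coeff P.natDegree).natDegree, Nat.lt_succ_of_le (hDle _)⟩,
        ⟨P.natDegree, Nat.lt_succ_of_le hn⟩)
    · exact hlc2 key
    · rw [Fintype.sum_prod_type_right]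
      rw [eval₂_eq_sum_range' _ (n := n + 1) (Nat.lt_succ_of_le hn)] at h0
      rw [← h0, Finset.sum_range]
      refine Finset.sum_congr rfl fun k _ => ?_
      rw [evJ_apply, aeval_eq_sum_range' (n := D + 1) (Nat.lt_succ_of_le (hDle _)),
        Finset.sum_range, Finset.sum_mul]
      refine Finset.sum_congr rfl fun i _ => ?_
      simp only [v, map_mul, map_pow]
      rw [hsmul_eq_algebraMap_mul, Algebra.smul_def, mul_assoc]
  rw [Fintype.not_linearIndependent_iff] at hnot
  obtain ⟨g, hg, p, hp⟩ := hnot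
  refine ⟨tablePoly g, ?_, tablePoly_natDegree_le g, ?_⟩
  · intro h
    apply hp
    rw [← tablePoly_coeff_coeff g p.1 p.2, h]
    simp
  · rw [tablePoly_eval₂]
    exact hg

end Descent

section Clear

variable {K M : Type*} [Field K] [Field M] [Algebra K M]

/-- Clearing denominators of a polynomial over `K(j)`. -/
theorem exists_clear_denominators (j : M) (p : Polynomial (IntermediateField.adjoin K {j})) :
    ∃ (t : K[X]) (Q : K[X][X]), aeval (AdjoinSimple.gen K j) t ≠ 0 ∧
      Q.map ((aeval (AdjoinSimple.gen K j) : K[X] →ₐ[K] K⟮j⟯).toRingHom)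
        = C (aeval (AdjoinSimple.gen K j) t) * p := by
  set φ : K[X] →+* K⟮j⟯ := (aeval (AdjoinSimple.gen K j) : K[X] →ₐ[K] K⟮j⟯).toRingHom with hφ
  have hφa : ∀ t : K[X], φ t = aeval (AdjoinSimple.gen K j) t := fun _ => rfl
  induction p using Polynomial.induction_on' with
  | add p q hp hq =>
    obtain ⟨t₁, Q₁, h1, h1'⟩ := hp
    obtain ⟨t₂, Q₂, h2, h2'⟩ := hq
    refine ⟨t₁ * t₂, C t₂ * Q₁ + C t₁ * Q₂, ?_, ?_⟩
    · rw [map_mul]; exact mul_ne_zero h1 h2
    · rw [Polynomial.map_add, Polynomial.map_mul, Polynomial.map_mul, Polynomial.map_C,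
        Polynomial.map_C, h1', h2', hφa, hφa, map_mul, C_mul]
      ring
  | monomial k c =>
    obtain ⟨r, s, hrs⟩ := (IntermediateField.mem_adjoin_simple_iff K (c : M)).mp c.2
    by_cases hs : aeval (AdjoinSimple.gen K j) s = 0
    · -- then `c = 0`
      have hs' : aeval j s = 0 := by
        have := congrArg (algebraMap K⟮j⟯ M) hs
        rwa [← aeval_algebraMap_apply, AdjoinSimple.algebraMap_gen, map_zero] at this
      have hc : c = 0 := by
        apply Subtype.ext
        rw [hrs, hs', div_zero]; rfl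
      refine ⟨1, 0, ?_, ?_⟩
      · rw [map_one]; exact one_ne_zero
      · rw [hc]; simp
    · refine ⟨s, monomial k r, hs, ?_⟩
      rw [Polynomial.map_monomial, C_mul_monomial]
      congr 1
      rw [hφa]
      apply Subtype.ext
      have h1 : ((aeval (AdjoinSimple.gen K j) r : K⟮j⟯) : M) = aeval j r := by
        have := (aeval_algebraMap_apply M (AdjoinSimple.gen K j) r).symm
        rwa [AdjoinSimple.algebraMap_gen] at this
      have h2 : ((aeval (AdjoinSimple.gen K j) s : K⟮j⟯) : M) = aeval j s := by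
        have := (aeval_algebraMap_apply M (AdjoinSimple.gen K j) s).symm
        rwa [AdjoinSimple.algebraMap_gen] at this
      have hs' : aeval j s ≠ 0 := by
        intro h
        apply hs
        apply Subtype.ext
        rw [h2, h]; rfl
      rw [h1]
      show aeval j r = ((aeval (AdjoinSimple.gen K j) s : K⟮j⟯) : M) * (c : M)
      rw [h2, hrs]
      field_simp

end Clear

section Alg

variable {K : Type*} [Field K] [Algebra ℚ K]

theorem aeval_JK_mem (B : Subalgebra K (LaurentSeries K)) (hJ : JK K ∈ B) (t : K[X]) :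
    aeval (JK K) t ∈ B := by
  rw [aeval_def, eval₂_eq_sum_range]
  refine Subalgebra.sum_mem _ fun i _ => ?_
  exact Subalgebra.mul_mem _ (Subalgebra.algebraMap_mem _ _) (Subalgebra.pow_mem _ hJ _)

theorem eval₂_mem_subalgebra (B : Subalgebra K (LaurentSeries K)) (hJ : JK K ∈ B)
    (Q : K[X][X]) {s : LaurentSeries K} (hs : s ∈ B) :
    Q.eval₂ (evJ (JK K)) s ∈ B := by
  rw [eval₂_eq_sum_range]
  refine Subalgebra.sum_mem _ fun i _ => ?_
  exact Subalgebra.mul_mem _ (aeval_JK_mem B hJ _) (Subalgebra.pow_mem _ hs _)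

/-- a nonzero algebraic element of `B` has an "inverse up to a polynomial in `j`" in `B`. -/
theorem exists_mul_eq_aeval_subalgebra (B : Subalgebra K (LaurentSeries K)) (hJ : JK K ∈ B)
    {n : ℕ} {s : LaurentSeries K} (hs : s ∈ B) (hs0 : s ≠ 0)
    (ha : AlgDeg K n s) : ∃ g ∈ B, ∃ t : K[X], t ≠ 0 ∧ s * g = aeval (JK K) t := by
  obtain ⟨Q, hQ0, -, hQ⟩ := ha
  have key : ∀ m : ℕ, ∀ Q : K[X][X], Q.natDegree ≤ m → Q ≠ 0 → Q.eval₂ (evJ (JK K)) s = 0 →
      ∃ Q₁ : K[X][X], Q₁.coeff 0 ≠ 0 ∧ Q₁.eval₂ (evJ (JK K)) s = 0 := by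
    intro m
    induction m with
    | zero =>
      intro Q hdeg hQ0 hQ
      refine ⟨Q, ?_, hQ⟩
      intro h0
      apply hQ0
      rw [eq_C_of_natDegree_le_zero hdeg, h0, map_zero]
    | succ m ih =>
      intro Q hdeg hQ0 hQ
      by_cases h0 : Q.coeff 0 = 0
      · have hdiv : Q = divX Q * X := by
          conv_lhs => rw [← divX_mul_X_add Q, h0, map_zero, add_zero]
        have hd0 : divX Q ≠ 0 := by
          intro h; apply hQ0; rw [hdiv, h, zero_mul]
        have hev : (divX Q).eval₂ (evJ (JK K)) s = 0 := by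
          rw [hdiv, eval₂_mul, eval₂_X] at hQ
          rcases mul_eq_zero.mp hQ with h | h
          · exact h
          · exact absurd h hs0
        refine ih (divX Q) ?_ hd0 hev
        rw [natDegree_divX_eq_natDegree_tsub_one]
        omega
      · exact ⟨Q, h0, hQ⟩
  obtain ⟨Q₁, h0, hQ₁⟩ := key Q.natDegree Q le_rfl hQ0 hQ
  refine ⟨-(divX Q₁).eval₂ (evJ (JK K)) s, Subalgebra.neg_mem _ (eval₂_mem_subalgebra B hJ _ hs),
    Q₁.coeff 0, h0, ?_⟩
  have hsplit : Q₁.eval₂ (evJ (JK K)) s
      = (divX Q₁).eval₂ (evJ (JK K)) s * s + aeval (JK K) (Q₁.coeff 0) := by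
    conv_lhs => rw [← divX_mul_X_add Q₁]
    rw [eval₂_add, eval₂_mul, eval₂_X, eval₂_C, evJ_apply]
  rw [hQ₁] at hsplit
  linear_combination hsplit

/-- If every element of the subalgebra `B ∋ j` is algebraic of degree `≤ n` over `K[j]`, so is
every element of the field generated by `B`. -/
theorem algDeg_of_mem_adjoin (B : Subalgebra K (LaurentSeries K)) (hJ : JK K ∈ B) {n : ℕ}
    (hB : ∀ b ∈ B, AlgDeg K n b) {x : LaurentSeries K}
    (hx : x ∈ IntermediateField.adjoin K (B : Set (LaurentSeries K))) : AlgDeg K n x := by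
  rw [IntermediateField.mem_adjoin_iff_div] at hx
  obtain ⟨r, hr, s, hs, rfl⟩ := hx
  rw [Algebra.adjoin_eq] at hr hs
  by_cases hs0 : s = 0
  · subst hs0
    rw [div_zero]
    exact hB 0 (Subalgebra.zero_mem _)
  · obtain ⟨g, hg, t, ht, hst⟩ := exists_mul_eq_aeval_subalgebra B hJ hs hs0 (hB s hs)
    refine AlgDeg.of_mul_eq (a := r * g) ht ?_ (hB _ (Subalgebra.mul_mem _ hr hg))
    rw [← hst]
    field_simp

end Alg

end Fermat.Agent.S29.H882

end
end
-- ===== PACK-END S29/H882/FieldDeg.lean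

-- ===== PACK-BEGIN S24/H117/LocalThm.lean
section




/-!
# S24 / H117 — the local theorem (LT2, LT3)

For `L : LocalData K F C X t` with `[F : E] = #X` (`E ⊆ K(t)`):

* `exists_placeOf_eq` (LT2): every place `v` of `F/K` with `0 < v.ord t` is induced by one of
  the embeddings `L.σ x`;
* `localThm` (LT3): if moreover `#X ≤ ∑_{v | t} v.ord t`, then the places over `t = 0`
  correspond bijectively to the cycles of `L.perm`, and `v.ord t` is the length of the cycle.
-/

set_option autoImplicit false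
set_option linter.style.haveILetI false

noncomputable section

open AlgebraicCurve IntermediateField

namespace Fermat.Agent.S24.H117

variable {K F : Type*} [Field K] [Field F] [Algebra K F] [CharZero K]
variable {C : Type*} [Field C] {X : Type*} [Finite X]
variable {t : F} (L : LocalData K F C X t)

omit [CharZero K] [Finite X] in
theorem order_leadingCoeff_iterate (x : X) (f : F) (i : ℕ) :
    (L.σ ((L.perm ^ i) x) f).order = (L.σ x f).order ∧
      (L.σ ((L.perm ^ i) x) f).leadingCoeff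
        = (L.ζ ^ (L.σ x f).order) ^ i * (L.σ x f).leadingCoeff := by
  induction i with
  | zero => simp
  | succ n ih =>
    rw [pow_succ', Equiv.Perm.mul_apply]
    refine ⟨by rw [L.σ_perm_order, ih.1], ?_⟩
    rw [L.σ_perm_leadingCoeff, ih.1, ih.2, pow_succ]
    ring

omit [CharZero K] [Finite X] in
/-- The ramification index `e = ord_v t` divides every period of `x` under `perm`. -/
theorem ord_t_dvd_of_pow_apply_eq (x : X) (i : ℕ) (hi : (L.perm ^ i) x = x) :
    (placeOf L x).ord t ∣ (i : ℤ) := by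
  obtain ⟨π, hπ0, hπ⟩ := exists_ord_eq_one (placeOf L x)
  have hord : (L.σ x π).order = mult L x := by rw [order_eq, hπ, mul_one]
  have hlc : (L.σ x π).leadingCoeff ≠ 0 :=
    HahnSeries.leadingCoeff_ne_zero.mpr ((map_ne_zero (L.σ x)).mpr hπ0)
  have h := (order_leadingCoeff_iterate L x π i).2
  rw [hi, hord, zpow_natCast] at h
  have h1 : (L.ζ ^ mult L x) ^ i = 1 := by
    have : (L.ζ ^ mult L x) ^ i * (L.σ x π).leadingCoeff = 1 * (L.σ x π).leadingCoeff := by
      rw [one_mul]; exact h.symm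
    exact mul_right_cancel₀ hlc this
  rw [← pow_mul] at h1
  have h2 : L.m ∣ mult L x * i := (L.hζ.pow_eq_one_iff_dvd _).mp h1
  have h3 : ((mult L x : ℤ) * (placeOf L x).ord t) ∣ (mult L x : ℤ) * i := by
    rw [mult_mul_ord_t]
    exact_mod_cast h2
  have hk : (mult L x : ℤ) ≠ 0 := by exact_mod_cast (mult_pos L x).ne'
  exact (mul_dvd_mul_iff_left hk).mp h3

variable (E : IntermediateField K F) (hE : E ≤ K⟮t⟯) [FiniteDimensional E F]
  (hrank : Module.finrank E F = Nat.card X)

include hE hrank in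
/-- **LT2.** Every place over `t = 0` is induced by one of the embeddings. -/
theorem exists_placeOf_eq (v : Place K F) (hv : 0 < v.ord t) : ∃ x, placeOf L x = v := by
  classical
  by_contra hcon
  push Not at hcon
  haveI : Fintype X := Fintype.ofFinite X
  have hvs : v ∉ Finset.univ.image (placeOf L) := by
    intro h
    obtain ⟨x, -, hx⟩ := Finset.mem_image.mp h
    exact hcon x hx
  obtain ⟨f, hf1, hf2⟩ := exists_ord_neg_forall_pos v _ hvs
  have hf3 : ∀ x, 0 ≤ ((L.σ x) f).order := fun x =>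
    (ord_placeOf_nonneg_iff L x f).mp
      (hf2 _ (Finset.mem_image_of_mem _ (Finset.mem_univ x))).le
  have := ord_nonneg_of_forall_order_nonneg L E hE hrank f hf3 v hv
  omega

include hE hrank in
theorem mem_image_placeOf_iff [Fintype X] [DecidableEq (Place K F)] (v : Place K F) :
    v ∈ Finset.univ.image (placeOf L) ↔ 0 < v.ord t := by
  constructor
  · intro h
    obtain ⟨x, -, rfl⟩ := Finset.mem_image.mp h
    exact ord_t_pos L x
  · intro h
    obtain ⟨x, rfl⟩ := exists_placeOf_eq L E hE hrank v h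
    exact Finset.mem_image_of_mem _ (Finset.mem_univ x)

include L hE hrank in
/-- The set of places over `t = 0` is finite. -/
theorem finite_places_over : {v : Place K F | 0 < v.ord t}.Finite := by
  classical
  haveI : Fintype X := Fintype.ofFinite X
  refine (Finset.univ.image (placeOf L)).finite_toSet.subset ?_
  intro v hv
  exact (mem_image_placeOf_iff L E hE hrank v).mpr hv

include hE hrank in
/-- **LT3 (local theorem).**  Assume the fundamental inequality `#X ≤ ∑_{v | t} ord_v t`.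
Then the places over `t = 0` are in bijection with the cycles of `perm`, the ramification index
of the place induced by `x` is the length of the cycle through `x`, and
`∑_{v | t} ord_v t = #X`. -/
theorem localThm (s : Finset (Place K F)) (hs : ∀ v, v ∈ s ↔ 0 < v.ord t)
    (hsum : (Nat.card X : ℤ) ≤ ∑ v ∈ s, v.ord t) :
    s.card = numOrbits L.perm ∧
      (∀ x, (Nat.card (MulAction.orbit (Subgroup.zpowers L.perm) x) : ℤ) = (placeOf L x).ord t) ∧
      (∑ v ∈ s, v.ord t = Nat.card X) := by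
  classical
  haveI : Fintype X := Fintype.ofFinite X
  have hs' : s = Finset.univ.image (placeOf L) := by
    ext v
    rw [hs, mem_image_placeOf_iff L E hE hrank]
  subst hs'
  have hcast : ∀ v ∈ Finset.univ.image (placeOf L), (((v.ord t).toNat : ℕ) : ℤ) = v.ord t := by
    intro v hv
    exact Int.toNat_of_nonneg ((hs v).mp hv).le
  have hsumNat : Fintype.card X ≤ ∑ v ∈ Finset.univ.image (placeOf L), (v.ord t).toNat := by
    have : (Nat.card X : ℤ) ≤ ((∑ v ∈ Finset.univ.image (placeOf L), (v.ord t).toNat : ℕ) : ℤ) := by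
      rw [Nat.cast_sum, Finset.sum_congr rfl hcast]
      exact hsum
    rw [Nat.card_eq_fintype_card] at this
    exact_mod_cast this
  obtain ⟨h1, h2, h3⟩ := orbit_count_squeeze L.perm (placeOf L) (fun v => (v.ord t).toNat)
    (placeOf_perm L)
    (fun x i hi => by
      have := ord_t_dvd_of_pow_apply_eq L x i hi
      have hpos := ord_t_pos L x
      exact Int.natCast_dvd_natCast.mp (by rwa [Int.toNat_of_nonneg hpos.le]))
    hsumNat
  refine ⟨by rw [numOrbits, h1], fun x => ?_, ?_⟩
  · rw [h2 x]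
    exact Int.toNat_of_nonneg (ord_t_pos L x).le
  · have : ((∑ v ∈ Finset.univ.image (placeOf L), (v.ord t).toNat : ℕ) : ℤ) = Fintype.card X := by
      exact_mod_cast h3
    rw [Nat.cast_sum, Finset.sum_congr rfl hcast] at this
    rw [this, Nat.card_eq_fintype_card]

end Fermat.Agent.S24.H117

end
end
-- ===== PACK-END S24/H117/LocalThm.lean

-- ===== PACK-BEGIN S24/H504/FF3Local.lean
section



/-!
# Local norm formula: `∑_x ord_z (σ_x f) = m · ∑_{v | t} ord_v f`
-/

set_option autoImplicit false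
set_option linter.style.haveILetI false
set_option linter.unusedSectionVars false

namespace Fermat.Agent.S24.H504

open AlgebraicCurve IntermediateField

variable {K F : Type*} [Field K] [Field F] [Algebra K F]
variable {C : Type*} [Field C] {X : Type*} {t : F}

/-- `F` is algebraic over `K(t)` as soon as it is finite over a subfield of `K(t)`. -/
theorem isAlgebraic_adjoin_of_le (E : IntermediateField K F) (hE : E ≤ K⟮t⟯)
    [FiniteDimensional E F] : Algebra.IsAlgebraic K⟮t⟯ F := by
  letI : Algebra E K⟮t⟯ := (IntermediateField.inclusion hE).toRingHom.toAlgebra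
  haveI : IsScalarTower E K⟮t⟯ F := IsScalarTower.of_algebraMap_eq (fun x => rfl)
  exact Algebra.IsAlgebraic.tower_top (K := E) K⟮t⟯

theorem induces_placeOf (L : LocalData K F C X t) (x : X) :
    Induces (L.σ x) (H117.placeOf L x) :=
  fun f => H117.mem_placeOf_iff L x f

theorem placeOf_eq_iff_induces (L : LocalData K F C X t) (x : X) (v : Place K F) :
    H117.placeOf L x = v ↔ Induces (L.σ x) v :=
  ⟨fun h => h ▸ induces_placeOf L x, fun h => (induces_placeOf L x).unique h⟩

section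

variable [IsAlgClosed K] [CharZero K] [CharZero C] [Finite X]
variable (L : LocalData K F C X t)
variable (E : IntermediateField K F) (hE : E ≤ K⟮t⟯) [FiniteDimensional E F]
  (hrank : Module.finrank E F = Nat.card X)

include L hE hrank in
/-- **FF1 (equality).** `∑_{v | t} v(t) = #X = [F : E]`. -/
theorem sum_ord_eq_card (s : Finset (Place K F)) (hs : ∀ v, v ∈ s ↔ 0 < v.ord t) :
    ∑ v ∈ s, v.ord t = Nat.card X := by
  haveI := isAlgebraic_adjoin_of_le (t := t) E hE
  exact (H117.localThm L E hE hrank s hs (LocalData.card_le_sum_ord L s hs)).2.2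

include hE hrank in
theorem card_places_eq_numOrbits (s : Finset (Place K F)) (hs : ∀ v, v ∈ s ↔ 0 < v.ord t) :
    s.card = numOrbits L.perm := by
  haveI := isAlgebraic_adjoin_of_le (t := t) E hE
  exact (H117.localThm L E hE hrank s hs (LocalData.card_le_sum_ord L s hs)).1

omit [IsAlgClosed K] [CharZero K] [CharZero C] in
theorem sum_card_fibre [Fintype X] [DecidableEq (Place K F)] (s : Finset (Place K F))
    (hs : ∀ v, v ∈ s ↔ 0 < v.ord t) :
    ∑ v ∈ s, (Finset.univ.filter (fun x => H117.placeOf L x = v)).card = Fintype.card X := by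
  have hmaps : ∀ x ∈ (Finset.univ : Finset X), H117.placeOf L x ∈ s :=
    fun x _ => (hs _).mpr (H117.ord_t_pos L x)
  rw [← Finset.card_univ, Finset.card_eq_sum_card_fiberwise hmaps]

include hE hrank in
/-- Exactly `v(t)` embeddings induce a place `v` over `t = 0`. -/
theorem card_fibre_eq [Fintype X] [DecidableEq (Place K F)] (v : Place K F)
    (hv : 0 < v.ord t) :
    ((Finset.univ.filter (fun x => H117.placeOf L x = v)).card : ℤ) = v.ord t := by
  haveI := isAlgebraic_adjoin_of_le (t := t) E hE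
  have hfin : {v : Place K F | 0 < v.ord t}.Finite := H117.finite_places_over L E hE hrank
  set s := hfin.toFinset with hsdef
  have hs : ∀ v, v ∈ s ↔ 0 < v.ord t := fun v => by simp [hsdef]
  have hle : ∀ w ∈ s, ((Finset.univ.filter (fun x => H117.placeOf L x = w)).card : ℤ)
      ≤ w.ord t := by
    intro w hw
    have := LocalData.card_fibre_le L w ((hs w).mp hw)
    have hc : Nat.card {x : X // Induces (L.σ x) w}
        = (Finset.univ.filter (fun x => H117.placeOf L x = w)).card := by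
      haveI : Fintype {x : X // Induces (L.σ x) w} := Fintype.ofFinite _
      rw [Nat.card_eq_fintype_card]
      exact Fintype.card_of_subtype _ (fun x => by
        simp only [Finset.mem_filter, Finset.mem_univ, true_and]
        exact placeOf_eq_iff_induces L x w)
    rw [← hc]
    exact this
  have h1 := sum_ord_eq_card L E hE hrank s hs
  have h2 := sum_card_fibre L s hs
  have h3 : ∑ w ∈ s, (w.ord t
      - ((Finset.univ.filter (fun x => H117.placeOf L x = w)).card : ℤ)) = 0 := by
    rw [Finset.sum_sub_distrib, h1, ← Nat.cast_sum, h2, Nat.card_eq_fintype_card]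
    ring
  have h4 := (Finset.sum_eq_zero_iff_of_nonneg (fun w hw => sub_nonneg.mpr (hle w hw))).mp h3
    v ((hs v).mpr hv)
  linarith

include hE hrank in
/-- **Local norm formula.** -/
theorem sum_order_eq [Fintype X] (s : Finset (Place K F))
    (hs : ∀ v, v ∈ s ↔ 0 < v.ord t) (f : F) :
    ∑ x, (L.σ x f).order = L.m * ∑ v ∈ s, v.ord f := by
  classical
  have hmaps : ∀ x ∈ (Finset.univ : Finset X), H117.placeOf L x ∈ s :=
    fun x _ => (hs _).mpr (H117.ord_t_pos L x)
  rw [← Finset.sum_fiberwise_of_maps_to hmaps, Finset.mul_sum]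
  apply Finset.sum_congr rfl
  intro v hv
  have hv' : 0 < v.ord t := (hs v).mp hv
  have hcard := card_fibre_eq L E hE hrank v hv'
  have hterm : ∀ x ∈ Finset.univ.filter (fun x => H117.placeOf L x = v),
      v.ord t * (L.σ x f).order = L.m * v.ord f := by
    intro x hx
    have hx' : H117.placeOf L x = v := (Finset.mem_filter.mp hx).2
    have h1 := H117.order_eq L x f
    have h2 := H117.mult_mul_ord_t L x
    rw [hx'] at h1 h2
    rw [h1, ← h2]
    ring
  have hsum : v.ord t * ∑ x ∈ Finset.univ.filter (fun x => H117.placeOf L x = v),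
      (L.σ x f).order = v.ord t * (L.m * v.ord f) := by
    rw [Finset.mul_sum, Finset.sum_congr rfl hterm, Finset.sum_const, nsmul_eq_mul, hcard]
  exact mul_left_cancel₀ hv'.ne' hsum

end

end Fermat.Agent.S24.H504

end
-- ===== PACK-END S24/H504/FF3Local.lean

-- ===== PACK-BEGIN S29/H942/MeroRoot.lean
section


/-!
# `p`-th roots of meromorphic functions on the upper half plane

Main result: `exists_meromorphic_root_upperHalfPlane`. If `f` is meromorphic on the upper half
plane `{z | 0 < z.im}`, nowhere locally zero, and all its orders are divisible by `p ≠ 0`, then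
there is a function `h`, meromorphic (in normal form) on the upper half plane, with `h ^ p = f`
away from a discrete set.  The root is unique up to a `p`-th root of unity
(`IsNFRootOn.exists_eq_mul`).
-/

set_option autoImplicit false

noncomputable section

open Filter Topology Set Complex MeromorphicOn Function Metric

namespace Fermat.Agent.S29.H942

/-- The upper half plane as a subset of `ℂ`. -/
def uhpSet : Set ℂ := {z : ℂ | 0 < z.im}

lemma mem_uhpSet {z : ℂ} : z ∈ uhpSet ↔ 0 < z.im := Iff.rfl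

lemma isOpen_uhpSet : IsOpen uhpSet := isOpen_lt continuous_const Complex.continuous_im

/-- The centres of the exhausting balls. -/
def exhCenter (n : ℕ) : ℂ := ((n : ℝ) + 1 : ℝ) * I

/-- The radii of the exhausting balls. -/
def exhRadius (n : ℕ) : ℝ := (n : ℝ) + 1 - 1 / ((n : ℝ) + 2)

lemma exhRadius_pos (n : ℕ) : 0 < exhRadius n := by
  unfold exhRadius
  have h1 : (0 : ℝ) ≤ n := Nat.cast_nonneg n
  have h2 : 1 / ((n : ℝ) + 2) < 1 := by
    rw [div_lt_one (by linarith)]
    linarith
  linarith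

lemma exhRadius_lt (n : ℕ) : exhRadius n < (n : ℝ) + 1 := by
  unfold exhRadius
  have h1 : (0 : ℝ) ≤ n := Nat.cast_nonneg n
  have h2 : 0 < 1 / ((n : ℝ) + 2) := by positivity
  linarith

lemma exhCenter_im (n : ℕ) : (exhCenter n).im = (n : ℝ) + 1 := by
  simp [exhCenter]

lemma exhCenter_re (n : ℕ) : (exhCenter n).re = 0 := by
  simp [exhCenter]

lemma closedBall_exh_subset (n : ℕ) : closedBall (exhCenter n) (exhRadius n) ⊆ uhpSet := by
  intro z hz
  rw [mem_closedBall, dist_eq_norm] at hz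
  have h1 : |(z - exhCenter n).im| ≤ ‖z - exhCenter n‖ := Complex.abs_im_le_norm _
  have h2 : (z - exhCenter n).im = z.im - ((n : ℝ) + 1) := by
    rw [Complex.sub_im, exhCenter_im]
  have h3 := (abs_le.1 (h1.trans hz)).1
  rw [h2] at h3
  have h4 := exhRadius_lt n
  rw [mem_uhpSet]
  linarith

lemma ball_exh_subset (n : ℕ) : ball (exhCenter n) (exhRadius n) ⊆ uhpSet :=
  ball_subset_closedBall.trans (closedBall_exh_subset n)

lemma ball_exh_mono : Monotone fun n => ball (exhCenter n) (exhRadius n) := by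
  refine monotone_nat_of_le_succ fun n => ?_
  apply ball_subset_ball'
  have hd : dist (exhCenter n) (exhCenter (n + 1)) = 1 := by
    rw [dist_eq_norm]
    have : exhCenter n - exhCenter (n + 1) = -I := by
      simp only [exhCenter]
      push_cast
      ring
    rw [this, norm_neg, Complex.norm_I]
  rw [hd]
  unfold exhRadius
  have h1 : (0 : ℝ) ≤ n := Nat.cast_nonneg n
  have h2 : 1 / (((n + 1 : ℕ) : ℝ) + 2) ≤ 1 / ((n : ℝ) + 2) := by
    apply one_div_le_one_div_of_le (by linarith)
    push_cast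
    linarith
  push_cast at h2 ⊢
  linarith

lemma iUnion_ball_exh : (⋃ n, ball (exhCenter n) (exhRadius n)) = uhpSet := by
  apply Subset.antisymm
  · exact iUnion_subset fun n => ball_exh_subset n
  · intro z hz
    rw [mem_uhpSet] at hz
    obtain ⟨n, hn⟩ := exists_nat_gt ((z.re ^ 2 + z.im ^ 2 + 2) / (2 * z.im))
    refine mem_iUnion.2 ⟨n, ?_⟩
    rw [mem_ball, dist_eq_norm]
    have hR : (0 : ℝ) < (n : ℝ) + 1 := by positivity
    have hr := exhRadius_pos n
    have hlt : (z.re ^ 2 + z.im ^ 2 + 2) < 2 * z.im * ((n : ℝ) + 1) := by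
      have := (div_lt_iff₀ (by linarith : (0 : ℝ) < 2 * z.im)).1 hn
      nlinarith
    have hsq : ‖z - exhCenter n‖ ^ 2 < exhRadius n ^ 2 := by
      have h1 : ‖z - exhCenter n‖ ^ 2 = z.re ^ 2 + (z.im - ((n : ℝ) + 1)) ^ 2 := by
        rw [Complex.sq_norm, Complex.normSq_apply, Complex.sub_re, Complex.sub_im,
          exhCenter_re, exhCenter_im]
        ring
      rw [h1]
      have h2 : exhRadius n ^ 2 ≥ ((n : ℝ) + 1) ^ 2 - 2 := by
        unfold exhRadius
        have h0 : (0 : ℝ) ≤ n := Nat.cast_nonneg n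
        have h3 : 0 < 1 / ((n : ℝ) + 2) := by positivity
        have h4 : ((n : ℝ) + 1) * (1 / ((n : ℝ) + 2)) ≤ 1 := by
          rw [mul_one_div, div_le_one (by linarith)]
          linarith
        nlinarith [sq_nonneg (1 / ((n : ℝ) + 2))]
      nlinarith
    exact lt_of_pow_lt_pow_left₀ 2 hr.le hsq

/-- **Meromorphic `p`-th roots on the upper half plane** (normal form version). -/
theorem exists_isNFRootOn_upperHalfPlane {f : ℂ → ℂ} (hf : MeromorphicOn f uhpSet)
    (hford : ∀ z ∈ uhpSet, meromorphicOrderAt f z ≠ ⊤) {p : ℕ} (hp : p ≠ 0)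
    (hdiv : ∀ z ∈ uhpSet, (p : ℤ) ∣ (meromorphicOrderAt f z).untop₀) :
    ∃ h : ℂ → ℂ, IsNFRootOn h f uhpSet p := by
  have := exists_isNFRootOn_iUnion (f := f) hp (fun n => ball (exhCenter n) (exhRadius n))
    (fun n => isOpen_ball)
    (fun n => isSimplyConnected_of_convex (convex_ball _ _)
      ⟨exhCenter n, mem_ball_self (exhRadius_pos n)⟩)
    ball_exh_mono
    (fun n => hf.mono_set (ball_exh_subset n))
    (fun n x hx => hford x (ball_exh_subset n hx))
    (fun n => divisor_support_finite_of_subset (hf.mono_set (closedBall_exh_subset n))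
      (isCompact_closedBall _ _) ball_subset_closedBall)
    (fun n x hx => hdiv x (ball_exh_subset n hx))
  rwa [iUnion_ball_exh] at this

/-- Roots in normal form are roots modulo equality on codiscrete sets. -/
lemma IsNFRootOn.eventuallyEq_codiscreteWithin {h f : ℂ → ℂ} {V : Set ℂ} {p : ℕ}
    (hh : IsNFRootOn h f V p) : (h ^ p) =ᶠ[codiscreteWithin V] f := by
  rw [EventuallyEq, eventually_iff, mem_codiscreteWithin_iff_forall_mem_nhdsNE]
  intro x hx
  filter_upwards [hh.2 x hx] with y hy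
  exact Or.inl hy

/-- **Meromorphic `p`-th roots on the upper half plane.** -/
theorem exists_meromorphic_root_upperHalfPlane {f : ℂ → ℂ}
    (hf : MeromorphicOn f {z : ℂ | 0 < z.im})
    (hford : ∀ z : ℂ, 0 < z.im → meromorphicOrderAt f z ≠ ⊤) {p : ℕ} (hp : p ≠ 0)
    (hdiv : ∀ z : ℂ, 0 < z.im → (p : ℤ) ∣ (meromorphicOrderAt f z).untop₀) :
    ∃ h : ℂ → ℂ, MeromorphicNFOn h {z : ℂ | 0 < z.im} ∧
      (∀ z : ℂ, 0 < z.im → (h ^ p) =ᶠ[𝓝[≠] z] f) ∧
      (h ^ p) =ᶠ[codiscreteWithin {z : ℂ | 0 < z.im}] f := by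
  obtain ⟨h, hh⟩ := exists_isNFRootOn_upperHalfPlane (f := f) hf hford hp hdiv
  exact ⟨h, hh.1, hh.2, hh.eventuallyEq_codiscreteWithin⟩

/-- **Uniqueness of meromorphic `p`-th roots on the upper half plane** up to a root of unity. -/
theorem meromorphic_root_upperHalfPlane_unique {f h₁ h₂ : ℂ → ℂ}
    (hford : ∀ z : ℂ, 0 < z.im → meromorphicOrderAt f z ≠ ⊤) {p : ℕ} (hp : p ≠ 0)
    (h₁NF : MeromorphicNFOn h₁ {z : ℂ | 0 < z.im})
    (h₁pow : ∀ z : ℂ, 0 < z.im → (h₁ ^ p) =ᶠ[𝓝[≠] z] f)
    (h₂NF : MeromorphicNFOn h₂ {z : ℂ | 0 < z.im})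
    (h₂pow : ∀ z : ℂ, 0 < z.im → (h₂ ^ p) =ᶠ[𝓝[≠] z] f) :
    ∃ ζ : ℂ, ζ ^ p = 1 ∧ ∀ z : ℂ, 0 < z.im → h₂ z = ζ * h₁ z := by
  have hconv : Convex ℝ uhpSet := by
    have : uhpSet = Complex.im ⁻¹' (Ioi 0) := rfl
    rw [this]
    exact (convex_Ioi (0 : ℝ)).is_linear_preimage Complex.imLm.isLinear
  exact IsNFRootOn.exists_eq_mul hp isOpen_uhpSet hconv.isPreconnected hford
    ⟨h₁NF, h₁pow⟩ ⟨h₂NF, h₂pow⟩

end Fermat.Agent.S29.H942

end
end
-- ===== PACK-END S29/H942/MeroRoot.lean

-- ===== PACK-BEGIN S29/H942/HoloRoot.lean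
section





/-!
# Holomorphic `p`-th roots on the upper half plane

If `g : ℍ → ℂ` is holomorphic, not identically zero, and all its orders of vanishing are divisible
by `p`, then `g = c ^ p` for a holomorphic `c : ℍ → ℂ`.
-/

set_option autoImplicit false

noncomputable section

open Filter Topology Set Complex MeromorphicOn Function UpperHalfPlane
open scoped Manifold

namespace Fermat.Agent.S29.H942

/-- A root in normal form of an analytic function is analytic. -/
lemma IsNFRootOn.analyticAt {h f : ℂ → ℂ} {V : Set ℂ} {p : ℕ} (hp : p ≠ 0)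
    (hh : IsNFRootOn h f V p) {x : ℂ} (hx : x ∈ V) (hf : AnalyticAt ℂ f x) :
    AnalyticAt ℂ h x := by
  rw [← (hh.1 hx).meromorphicOrderAt_nonneg_iff_analyticAt]
  have h1 : meromorphicOrderAt (h ^ p) x = meromorphicOrderAt f x :=
    meromorphicOrderAt_congr (hh.2 x hx)
  rw [meromorphicOrderAt_pow (hh.1 hx).meromorphicAt] at h1
  have h2 : 0 ≤ meromorphicOrderAt f x := hf.meromorphicOrderAt_nonneg
  rw [← h1] at h2
  by_cases htop : meromorphicOrderAt h x = ⊤
  · rw [htop]
    exact le_top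
  · obtain ⟨n, hn⟩ := WithTop.ne_top_iff_exists.1 htop
    rw [← hn] at h2 ⊢
    have h4 : ((p : ℕ) : WithTop ℤ) * ((n : ℤ) : WithTop ℤ) = (((p : ℤ) * n : ℤ) : WithTop ℤ) := by
      push_cast
      rfl
    rw [h4] at h2
    have h5 : (0 : ℤ) ≤ (p : ℤ) * n := by exact_mod_cast h2
    have hp' : (0 : ℤ) < p := by exact_mod_cast Nat.pos_of_ne_zero hp
    have h6 : (0 : ℤ) ≤ n := by
      by_contra hneg
      rw [not_le] at hneg
      nlinarith
    exact_mod_cast h6

/-- A root in normal form of an analytic function is a root everywhere. -/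
lemma IsNFRootOn.pow_eq {h f : ℂ → ℂ} {V : Set ℂ} {p : ℕ} (hp : p ≠ 0)
    (hh : IsNFRootOn h f V p) {x : ℂ} (hx : x ∈ V) (hf : AnalyticAt ℂ f x) :
    h x ^ p = f x := by
  have hA := hh.analyticAt hp hx hf
  have hc : ContinuousAt (h ^ p) x := (hA.pow p).continuousAt
  have := (hc.eventuallyEq_nhds_iff_eventuallyEq_nhdsNE hf.continuousAt).1 (hh.2 x hx)
  exact this.self_of_nhds

/-- **Holomorphic `p`-th roots on the upper half plane.** -/
theorem exists_holomorphic_root {g : ℍ → ℂ} (hg : MDiff g) {p : ℕ} (hp : p ≠ 0)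
    (hdiv : ∀ τ : ℍ, ∃ k : ℕ, analyticOrderAt (g ∘ ofComplex) (τ : ℂ) = ((p * k : ℕ) : ℕ∞)) :
    ∃ c : ℍ → ℂ, MDiff c ∧ c ^ p = g := by
  set f : ℂ → ℂ := g ∘ ofComplex with hf
  have hAn : AnalyticOnNhd ℂ f uhpSet :=
    (UpperHalfPlane.mdifferentiable_iff.mp hg).analyticOnNhd isOpen_upperHalfPlaneSet
  have hord : ∀ z ∈ uhpSet, ∃ k : ℕ, meromorphicOrderAt f z = ((p * k : ℕ) : ℤ) := by
    intro z hz
    obtain ⟨k, hk⟩ := hdiv ⟨z, hz⟩
    refine ⟨k, ?_⟩
    rw [(hAn z hz).meromorphicOrderAt_eq]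
    have : analyticOrderAt f z = ((p * k : ℕ) : ℕ∞) := hk
    rw [this]
    rfl
  obtain ⟨h, hh⟩ := exists_isNFRootOn_upperHalfPlane (f := f) hAn.meromorphicOn
    (fun z hz => by
      obtain ⟨k, hk⟩ := hord z hz
      rw [hk]
      exact WithTop.coe_ne_top)
    hp
    (fun z hz => by
      obtain ⟨k, hk⟩ := hord z hz
      rw [hk]
      simp only [WithTop.untop₀_coe]
      exact ⟨k, by push_cast; ring⟩)
  have hhA : AnalyticOnNhd ℂ h uhpSet := fun z hz => hh.analyticAt hp hz (hAn z hz)
  have hhp : ∀ z ∈ uhpSet, h z ^ p = f z := fun z hz => hh.pow_eq hp hz (hAn z hz)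
  refine ⟨fun τ => h (τ : ℂ), ?_, ?_⟩
  · rw [UpperHalfPlane.mdifferentiable_iff]
    refine hhA.differentiableOn.congr fun z hz => ?_
    simp only [Function.comp_apply]
    rw [ofComplex_apply_of_im_pos hz]
  · funext τ
    have := hhp (τ : ℂ) τ.im_pos
    simp only [Pi.pow_apply]
    rw [this, hf, Function.comp_apply, ofComplex_apply]

/-- Uniqueness of holomorphic `p`-th roots up to roots of unity. -/
theorem holomorphic_root_unique {c₁ c₂ : ℍ → ℂ} (h₁ : MDiff c₁) (h₂ : MDiff c₂)
    (h₁0 : c₁ ≠ 0) {p : ℕ} (hp : p ≠ 0) (hpow : c₁ ^ p = c₂ ^ p) :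
    ∃ ζ : ℂ, ζ ^ p = 1 ∧ c₂ = fun τ => ζ * c₁ τ := by
  set f : ℂ → ℂ := (c₁ ^ p) ∘ ofComplex with hf
  have hA₁ : AnalyticOnNhd ℂ (c₁ ∘ ofComplex) uhpSet :=
    (UpperHalfPlane.mdifferentiable_iff.mp h₁).analyticOnNhd isOpen_upperHalfPlaneSet
  have hA₂ : AnalyticOnNhd ℂ (c₂ ∘ ofComplex) uhpSet :=
    (UpperHalfPlane.mdifferentiable_iff.mp h₂).analyticOnNhd isOpen_upperHalfPlaneSet
  have hAf : AnalyticOnNhd ℂ f uhpSet :=
    (UpperHalfPlane.mdifferentiable_iff.mp (MDifferentiable.pow h₁ p)).analyticOnNhd isOpen_upperHalfPlaneSet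
  have hR₁ : IsNFRootOn (c₁ ∘ ofComplex) f uhpSet p :=
    ⟨hA₁.meromorphicNFOn, fun x _ => Eventually.of_forall fun y => rfl⟩
  have hR₂ : IsNFRootOn (c₂ ∘ ofComplex) f uhpSet p :=
    ⟨hA₂.meromorphicNFOn, fun x _ => Eventually.of_forall fun y => by
      simp only [hf, hpow, Pi.pow_apply, Function.comp_apply]⟩
  have hford : ∀ x ∈ uhpSet, meromorphicOrderAt f x ≠ ⊤ := by
    intro x hx htop
    rw [(hAf x hx).meromorphicOrderAt_eq] at htop
    have h3 : analyticOrderAt f x = ⊤ := by
      by_contra hne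
      obtain ⟨n, hn⟩ := ENat.ne_top_iff_exists.1 hne
      rw [← hn] at htop
      exact absurd htop (by simp)
    have h5 : ∀ᶠ z in 𝓝 x, f z = 0 := analyticOrderAt_eq_top.mp h3
    have hpre : IsPreconnected uhpSet := by
      have hconv : Convex ℝ uhpSet := by
        have : uhpSet = Complex.im ⁻¹' (Ioi 0) := rfl
        rw [this]
        exact (convex_Ioi (0 : ℝ)).is_linear_preimage Complex.imLm.isLinear
      exact hconv.isPreconnected
    have h6 := hAf.eqOn_zero_of_preconnected_of_eventuallyEq_zero hpre hx h5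
    apply h₁0
    funext τ
    have h7 := h6 τ.im_pos
    simp only [hf, Function.comp_apply, ofComplex_apply, Pi.pow_apply, Pi.zero_apply] at h7 ⊢
    exact pow_eq_zero_iff hp |>.mp h7
  have hconv : Convex ℝ uhpSet := by
    have : uhpSet = Complex.im ⁻¹' (Ioi 0) := rfl
    rw [this]
    exact (convex_Ioi (0 : ℝ)).is_linear_preimage Complex.imLm.isLinear
  obtain ⟨ζ, hζ, hζe⟩ := IsNFRootOn.exists_eq_mul hp isOpen_uhpSet hconv.isPreconnected hford
    hR₁ hR₂
  refine ⟨ζ, hζ, ?_⟩
  funext τ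
  have := hζe (τ : ℂ) τ.im_pos
  simpa [Function.comp_apply, ofComplex_apply] using this

end Fermat.Agent.S29.H942

end
end
-- ===== PACK-END S29/H942/HoloRoot.lean

-- ===== PACK-BEGIN S29/H942/KummerChar.lean
section



/-!
# The Kummer character of a holomorphic function with invariant `p`-th power

If `c : ℍ → ℂ` is holomorphic, `c ≠ 0`, and `c ^ p` is invariant under a subgroup
`Γ ≤ SL(2,ℤ)`, then `c (γ z) = κ γ * c z` for a unique character `κ : Γ →* ℂˣ` with `κ ^ p = 1`.
-/

set_option autoImplicit false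

noncomputable section

open Filter Topology Set Complex Function UpperHalfPlane ModularForm
open scoped Manifold MatrixGroups

namespace Fermat.Agent.S29.H942

lemma mdiff_comp_smul {c : ℍ → ℂ} (hc : MDiff c) (γ : SL(2, ℤ)) :
    MDiff (fun z : ℍ => c (γ • z)) := by
  have h := MDifferentiable.slash hc 0 (γ : GL (Fin 2) ℝ)
  have h2 : (c ∣[(0 : ℤ)] (γ : GL (Fin 2) ℝ)) = fun z : ℍ => c (γ • z) := by
    funext z
    rw [← SL_slash, SL_slash_apply]
    simp
  rwa [h2] at h

lemma exists_ne_zero_of_ne_zero {c : ℍ → ℂ} (hc0 : c ≠ 0) : ∃ z : ℍ, c z ≠ 0 := by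
  by_contra h
  simp only [not_exists, not_not] at h
  exact hc0 (funext h)

/-- **Kummer character.** -/
theorem exists_kummerChar (Γ : Subgroup SL(2, ℤ)) {c : ℍ → ℂ} (hc : MDiff c) (hc0 : c ≠ 0)
    {p : ℕ} (hp : p ≠ 0)
    (hinv : ∀ γ ∈ Γ, ∀ z : ℍ, c (γ • z) ^ p = c z ^ p) :
    ∃ κ : Γ →* ℂˣ, (∀ γ, κ γ ^ p = 1) ∧
      ∀ (γ : Γ) (z : ℍ), c ((γ : SL(2, ℤ)) • z) = ((κ γ : ℂˣ) : ℂ) * c z := by
  obtain ⟨z₀, hz₀⟩ := exists_ne_zero_of_ne_zero hc0
  have h1 : ∀ γ : Γ, ∃ ζ : ℂ, ζ ^ p = 1 ∧
      (fun z : ℍ => c ((γ : SL(2, ℤ)) • z)) = fun z => ζ * c z := by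
    intro γ
    refine holomorphic_root_unique hc (mdiff_comp_smul hc γ) hc0 hp ?_
    funext z
    simp only [Pi.pow_apply]
    exact (hinv γ γ.2 z).symm
  choose ζ hζ hζc using h1
  have hζ0 : ∀ γ, ζ γ ≠ 0 := by
    intro γ h0
    have := hζ γ
    rw [h0, zero_pow hp] at this
    exact zero_ne_one this
  have hζapp : ∀ (γ : Γ) (z : ℍ), c ((γ : SL(2, ℤ)) • z) = ζ γ * c z := fun γ z =>
    congrFun (hζc γ) z
  have hone : ζ 1 = 1 := by
    have := hζapp 1 z₀
    simp only [Subgroup.coe_one, one_smul] at this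
    have h2 : (ζ 1 - 1) * c z₀ = 0 := by rw [sub_mul, one_mul, ← this, sub_self]
    rcases mul_eq_zero.1 h2 with h | h
    · exact sub_eq_zero.1 h
    · exact absurd h hz₀
  have hmul : ∀ γ δ : Γ, ζ (γ * δ) = ζ γ * ζ δ := by
    intro γ δ
    have h2 := hζapp (γ * δ) z₀
    rw [Subgroup.coe_mul, mul_smul, hζapp γ, hζapp δ] at h2
    have h3 : (ζ (γ * δ) - ζ γ * ζ δ) * c z₀ = 0 := by
      rw [sub_mul, ← h2]
      ring
    rcases mul_eq_zero.1 h3 with h | h
    · exact sub_eq_zero.1 h
    · exact absurd h hz₀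
  refine ⟨{ toFun := fun γ => Units.mk0 (ζ γ) (hζ0 γ)
            map_one' := by
              apply Units.ext
              simpa using hone
            map_mul' := fun γ δ => by
              apply Units.ext
              simpa using hmul γ δ }, fun γ => ?_, fun γ z => ?_⟩
  · apply Units.ext
    simpa using hζ γ
  · simpa using hζapp γ z

end Fermat.Agent.S29.H942

end
end
-- ===== PACK-END S29/H942/KummerChar.lean

-- ===== PACK-BEGIN S29/H882/Inter.lean
section


/-!
# S29 / MERO (helper882), part (C): `F_L ∩ K((q)) = F_K`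

For a field embedding `ι : K → L` and `F₀ ≤ ℚ((q))`: a Laurent series `y` over `K` whose base change
`coeffMap ι y` lies in `laurentBaseChange L F₀` already lies in `laurentBaseChange K F₀`.
-/

set_option autoImplicit false

noncomputable section

open Polynomial ModularCurve IntermediateField

namespace Fermat.Agent.S29.H882

open Fermat.Agent.S24 Fermat.Agent.S24.Deg457

section Span

variable (L : Type*) [Field L] [Algebra ℚ L] (F₀ : IntermediateField ℚ (LaurentSeries ℚ))

/-- `coeffEmb` as a `ℚ`-linear map (for the `ℚ`-structure on `L((q))` induced by `L`). -/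
theorem coeffEmb_smul_rat (c : ℚ) (u : LaurentSeries ℚ) :
    coeffEmb L (c • u) = (algebraMap ℚ L c) • coeffEmb L u := by
  ext k
  simp only [coeffEmb_coeff, HahnSeries.coeff_smul, smul_eq_mul, map_mul]

/-- The `L`-span of the image of `F₀`. -/
def spanImage : Submodule L (LaurentSeries L) :=
  Submodule.span L (⇑(coeffEmb L) '' (F₀ : Set (LaurentSeries ℚ)))

variable {L F₀}

theorem coeffEmb_mem_spanImage {u : LaurentSeries ℚ} (hu : u ∈ F₀) :
    coeffEmb L u ∈ spanImage L F₀ :=
  Submodule.subset_span ⟨u, hu, rfl⟩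

theorem spanImage_le : (spanImage L F₀ : Set (LaurentSeries L)) ⊆ laurentBaseChange L F₀ := by
  intro x hx
  refine Submodule.span_induction (p := fun x _ => x ∈ laurentBaseChange L F₀) ?_ ?_ ?_ ?_ hx
  · rintro _ ⟨u, hu, rfl⟩
    exact coeffEmb_mem_laurentBaseChange L hu
  · exact zero_mem _
  · intro a b _ _ ha hb
    exact add_mem ha hb
  · intro c a _ ha
    rw [hsmul_eq_algebraMap_mul]
    exact mul_mem ((laurentBaseChange L F₀).algebraMap_mem c) ha

theorem mul_mem_spanImage {a b : LaurentSeries L} (ha : a ∈ spanImage L F₀)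
    (hb : b ∈ spanImage L F₀) : a * b ∈ spanImage L F₀ := by
  refine Submodule.span_induction (p := fun a _ => a * b ∈ spanImage L F₀) ?_ ?_ ?_ ?_ ha
  · rintro _ ⟨u, hu, rfl⟩
    refine Submodule.span_induction (p := fun b _ => coeffEmb L u * b ∈ spanImage L F₀)
      ?_ ?_ ?_ ?_ hb
    · rintro _ ⟨v, hv, rfl⟩
      rw [← map_mul]
      exact coeffEmb_mem_spanImage (mul_mem hu hv)
    · rw [mul_zero]; exact zero_mem _
    · intro x y _ _ hx hy
      rw [mul_add]; exact add_mem hx hy
    · intro c x _ hx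
      have : coeffEmb L u * c • x = c • (coeffEmb L u * x) := by
        rw [hsmul_eq_algebraMap_mul, hsmul_eq_algebraMap_mul]; ring
      rw [this]; exact Submodule.smul_mem _ c hx
  · rw [zero_mul]; exact zero_mem _
  · intro x y _ _ hx hy
    rw [add_mul]; exact add_mem hx hy
  · intro c x _ hx
    have : c • x * b = c • (x * b) := by
      rw [hsmul_eq_algebraMap_mul, hsmul_eq_algebraMap_mul]; ring
    rw [this]; exact Submodule.smul_mem _ c hx

theorem one_mem_spanImage : (1 : LaurentSeries L) ∈ spanImage L F₀ := by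
  have := coeffEmb_mem_spanImage (L := L) (F₀ := F₀) (one_mem F₀)
  rwa [map_one] at this

theorem algebraMap_mem_spanImage (c : L) :
    algebraMap L (LaurentSeries L) c ∈ spanImage L F₀ := by
  have h : algebraMap L (LaurentSeries L) c = c • (1 : LaurentSeries L) := by
    rw [hsmul_eq_algebraMap_mul, mul_one]
  rw [h]
  exact Submodule.smul_mem _ c one_mem_spanImage

variable (L F₀) in
/-- The span as a subalgebra. -/
def spanAlg : Subalgebra L (LaurentSeries L) where
  carrier := spanImage L F₀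
  mul_mem' := mul_mem_spanImage
  add_mem' := fun ha hb => add_mem ha hb
  algebraMap_mem' := algebraMap_mem_spanImage

/-- Every element of the function field is a quotient of two elements of the span. -/
theorem exists_div_of_mem_laurentBaseChange {x : LaurentSeries L}
    (hx : x ∈ laurentBaseChange L F₀) :
    ∃ r ∈ spanImage L F₀, ∃ s ∈ spanImage L F₀, x = r / s := by
  rw [laurentBaseChange, IntermediateField.mem_adjoin_iff_div] at hx
  obtain ⟨r, hr, s, hs, rfl⟩ := hx
  have hle : Algebra.adjoin L (⇑(coeffEmb L) '' (F₀ : Set (LaurentSeries ℚ))) ≤ spanAlg L F₀ :=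
    Algebra.adjoin_le (fun x hx => Submodule.subset_span hx)
  exact ⟨r, hle hr, s, hle hs, rfl⟩

end Span

section Main

variable {K L : Type*} [Field K] [Algebra ℚ K] [Field L] [Algebra ℚ L]

/-- A finite `ℚ`-independent family in `F₀` whose image spans two given elements of the span. -/
theorem exists_indep_family (F₀ : IntermediateField ℚ (LaurentSeries ℚ))
    {r s : LaurentSeries L} (hr : r ∈ spanImage L F₀) (hs : s ∈ spanImage L F₀) :
    ∃ (m : ℕ) (e : Fin m → LaurentSeries ℚ), (∀ i, e i ∈ F₀) ∧ LinearIndependent ℚ e ∧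
      ∃ a b : Fin m → L, r = ∑ i, a i • coeffEmb L (e i) ∧ s = ∑ i, b i • coeffEmb L (e i) := by
  classical
  -- finite supports
  obtain ⟨lr, hlr, rfl⟩ := (Finsupp.mem_span_image_iff_linearCombination L).mp hr
  obtain ⟨ls, hls, rfl⟩ := (Finsupp.mem_span_image_iff_linearCombination L).mp hs
  set S : Finset (LaurentSeries ℚ) := lr.support ∪ ls.support with hS
  have hSF : ∀ u ∈ S, u ∈ F₀ := by
    intro u hu
    rcases Finset.mem_union.mp hu with h | h
    · exact hlr h
    · exact hls h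
  obtain ⟨B, hBt, hspan, hind⟩ := exists_linearIndependent ℚ (S : Set (LaurentSeries ℚ))
  have hBfin : B.Finite := (Finset.finite_toSet S).subset hBt
  haveI : Fintype B := hBfin.fintype
  -- the image of every element of `S` lies in the `L`-span of the image of `B`
  let EL : LaurentSeries ℚ →ₗ[ℚ] LaurentSeries L :=
    { toFun := coeffEmb L
      map_add' := map_add _
      map_smul' := fun c u => by
        rw [coeffEmb_smul_rat, RingHom.id_apply, algebraMap_smul] }
  have hmem : ∀ u ∈ S, coeffEmb L u ∈ Submodule.span L (Set.range fun e : B => coeffEmb L (e : _)) := by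
    intro u hu
    have h1 : u ∈ Submodule.span ℚ B := by
      rw [hspan]; exact Submodule.subset_span hu
    have h2 := Submodule.apply_mem_span_image_of_mem_span EL h1
    have h3 : Submodule.span ℚ (EL '' B) ≤
        (Submodule.span L (EL '' B)).restrictScalars ℚ := Submodule.span_le_restrictScalars ℚ L _
    have h4 := h3 h2
    have h5 : (EL '' B) = Set.range fun e : B => coeffEmb L (e : _) := by
      ext x
      constructor
      · rintro ⟨u, hu, rfl⟩; exact ⟨⟨u, hu⟩, rfl⟩
      · rintro ⟨⟨u, hu⟩, rfl⟩; exact ⟨u, hu, rfl⟩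
    rw [h5] at h4
    exact h4
  have hlin : ∀ l : LaurentSeries ℚ →₀ L, (l.support ⊆ S) →
      Finsupp.linearCombination L (⇑(coeffEmb L)) l ∈
        Submodule.span L (Set.range fun e : B => coeffEmb L (e : _)) := by
    intro l hl
    rw [Finsupp.linearCombination_apply, Finsupp.sum]
    refine Submodule.sum_mem _ fun u hu => ?_
    exact Submodule.smul_mem _ _ (hmem u (hl hu))
  have hr' := hlin lr Finset.subset_union_left
  have hs' := hlin ls Finset.subset_union_right
  rw [Submodule.mem_span_range_iff_exists_fun] at hr' hs'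
  obtain ⟨a, ha⟩ := hr'
  obtain ⟨b, hb⟩ := hs'
  -- reindex by `Fin m`
  let eq := Fintype.equivFin B
  refine ⟨Fintype.card B, fun i => ((eq.symm i : B) : LaurentSeries ℚ), ?_, ?_,
    fun i => a (eq.symm i), fun i => b (eq.symm i), ?_, ?_⟩
  · intro i
    exact hSF _ (hBt (eq.symm i).2)
  · exact hind.comp _ eq.symm.injective
  · rw [← ha]
    exact (Equiv.sum_comp eq.symm (fun e : B => a e • coeffEmb L (e : LaurentSeries ℚ))).symm
  · rw [← hb]
    exact (Equiv.sum_comp eq.symm (fun e : B => b e • coeffEmb L (e : LaurentSeries ℚ))).symm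

/-- **(C)** `F_L ∩ K((q)) = F_K`. -/
theorem mem_laurentBaseChange_of_coeffMap_mem (ι : K →+* L)
    (F₀ : IntermediateField ℚ (LaurentSeries ℚ)) {y : LaurentSeries K}
    (hy : coeffMap ι y ∈ laurentBaseChange L F₀) : y ∈ laurentBaseChange K F₀ := by
  classical
  obtain ⟨r, hr, s, hs, hrs⟩ := exists_div_of_mem_laurentBaseChange hy
  by_cases hs0 : s = 0
  · -- then `coeffMap ι y = 0`, so `y = 0`
    rw [hs0, div_zero] at hrs
    have : y = 0 := by
      ext k
      have := congrArg (fun z : LaurentSeries L => z.coeff k) hrs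
      simp only [coeffMap_coeff, HahnSeries.coeff_zero] at this
      simpa using this
    rw [this]; exact zero_mem _
  obtain ⟨m, e, heF, hind, a, b, hra, hsb⟩ := exists_indep_family F₀ hr hs
  have hxs : coeffMap ι y * s = r := by
    rw [hrs]; field_simp
  -- the family over `K`
  let w : Fin m ⊕ Fin m → LaurentSeries K :=
    Sum.elim (fun i => y * coeffEmb K (e i)) (fun i => coeffEmb K (e i))
  have hindK : LinearIndependent K (fun i => coeffEmb K (e i)) := by
    have := linearIndependent_coeffMap (algebraMap ℚ K) e hind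
    exact this
  have hnot : ¬ LinearIndependent K w := by
    intro hw
    have hL := linearIndependent_coeffMap ι w hw
    rw [Fintype.linearIndependent_iff] at hL
    have key := hL (Sum.elim b (fun i => -a i)) ?_
    · apply hs0
      rw [hsb]
      refine Finset.sum_eq_zero fun i _ => ?_
      have := key (Sum.inl i)
      simp only [Sum.elim_inl] at this
      rw [this, zero_smul]
    · rw [Fintype.sum_sum_type]
      simp only [Sum.elim_inl, Sum.elim_inr, w, map_mul, coeffMap_coeffEmb']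
      have h1 : ∑ i, b i • (coeffMap ι y * coeffEmb L (e i)) = coeffMap ι y * s := by
        rw [hsb, Finset.mul_sum]
        refine Finset.sum_congr rfl fun i _ => ?_
        rw [hsmul_eq_algebraMap_mul, hsmul_eq_algebraMap_mul]; ring
      have h2 : ∑ i, (-a i) • coeffEmb L (e i) = -r := by
        rw [hra, ← Finset.sum_neg_distrib]
        refine Finset.sum_congr rfl fun i _ => ?_
        rw [neg_smul]
      rw [h1, h2, hxs, add_neg_cancel]
  rw [Fintype.not_linearIndependent_iff] at hnot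
  obtain ⟨g, hg, i₀, hi₀⟩ := hnot
  rw [Fintype.sum_sum_type] at hg
  simp only [Sum.elim_inl, Sum.elim_inr, w] at hg
  set s' : LaurentSeries K := ∑ i, g (Sum.inl i) • coeffEmb K (e i) with hs'
  set r' : LaurentSeries K := -∑ i, g (Sum.inr i) • coeffEmb K (e i) with hr'
  have hys : y * s' = r' := by
    have h1 : ∑ i, g (Sum.inl i) • (y * coeffEmb K (e i)) = y * s' := by
      rw [hs', Finset.mul_sum]
      refine Finset.sum_congr rfl fun i _ => ?_
      rw [hsmul_eq_algebraMap_mul, hsmul_eq_algebraMap_mul]; ring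
    rw [h1] at hg
    rw [hr']
    exact eq_neg_of_add_eq_zero_left hg
  have hs'mem : s' ∈ laurentBaseChange K F₀ := by
    refine sum_mem fun i _ => ?_
    rw [hsmul_eq_algebraMap_mul]
    exact mul_mem ((laurentBaseChange K F₀).algebraMap_mem _)
      (coeffEmb_mem_laurentBaseChange K (heF i))
  have hr'mem : r' ∈ laurentBaseChange K F₀ := by
    refine neg_mem (sum_mem fun i _ => ?_)
    rw [hsmul_eq_algebraMap_mul]
    exact mul_mem ((laurentBaseChange K F₀).algebraMap_mem _)
      (coeffEmb_mem_laurentBaseChange K (heF i))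
  have hs'0 : s' ≠ 0 := by
    intro h0
    rw [Fintype.linearIndependent_iff] at hindK
    have hb0 : ∀ i, g (Sum.inl i) = 0 := hindK _ h0
    have hr0 : r' = 0 := by rw [← hys, h0, mul_zero]
    have ha0 : ∀ i, g (Sum.inr i) = 0 := hindK _ (neg_eq_zero.mp hr0)
    rcases i₀ with i | i
    · exact hi₀ (hb0 i)
    · exact hi₀ (ha0 i)
  have : y = r' / s' := by
    rw [← hys]; field_simp
  rw [this]
  exact div_mem hr'mem hs'mem

end Main

end Fermat.Agent.S29.H882

end
end
-- ===== PACK-END S29/H882/Inter.lean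

-- ===== PACK-BEGIN Lib/HFree/H412/Lift.lean
section


/-!
# Lifting parabolic characters modulo `m` to `ℤ`

`Γ ≤ SL(2,ℤ)` of finite index with `-1 ∈ Γ`.  Every additive character `c : Γ → ℤ/m` which kills
the elements of finite order and the elements of trace `2` is the reduction modulo `m` of an
additive character `c' : Γ → ℤ` killing all elements of trace `±2`.

Equivalently: `H = Γ^ab / ⟨parabolic, elliptic⟩` (`= H₁` of the compactified modular curve) is
torsion-free.
-/

set_option autoImplicit false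

open scoped MatrixGroups
open ModularGroup

namespace Fermat.Agent.Lib.HFree.H412

open Fermat.Agent.S20.H270 (Umat IsCocycle exists_cocycle S_sq_eq_neg_one Umat_cube_eq_neg_one
  T_eq_S_inv_mul_Umat rho_S_S rho_U_U_U exists_conj_T_zpow_of_trace_sq)

variable {Γ : Subgroup SL(2, ℤ)}

theorem S_pow_four : (S : SL(2, ℤ)) ^ 4 = 1 := by decide

theorem Umat_pow_six : Umat ^ 6 = 1 := by decide

section Closed

variable {A : Type*} [AddCommGroup A]

theorem shap_pow_fixed_of_finOrder {c : Γ → A}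
    (hfin : ∀ (γ : Γ) (n : ℕ), 0 < n → γ ^ n = 1 → c γ = 0) (g : SL(2, ℤ)) (N : ℕ) (hN : 0 < N)
    (hg : g ^ N = 1) (y : SL(2, ℤ) ⧸ Γ) (j : ℕ) (hj : (g ^ j)⁻¹ • y = y) :
    shap c (g ^ j) y = 0 := by
  rw [shap_apply]
  refine hfin _ N hN (Subtype.ext ?_)
  show (tw (g ^ j) y) ^ N = 1
  rw [tw_of_fixed hj]
  have h1 : ((Quotient.out y)⁻¹ * g ^ j * Quotient.out y) ^ N =
      (Quotient.out y)⁻¹ * (g ^ j) ^ N * Quotient.out y := by
    have := conj_pow (a := (Quotient.out y)⁻¹) (b := g ^ j) (i := N)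
    rwa [inv_inv] at this
  rw [h1, ← pow_mul, mul_comm j N, pow_mul, hg, one_pow, mul_one, inv_mul_cancel]

theorem trace_conj_T_pow (δ : SL(2, ℤ)) (j : ℕ) :
    ((δ⁻¹ * T ^ j * δ : SL(2, ℤ)) : Matrix (Fin 2) (Fin 2) ℤ).trace = 2 := by
  have h1 : ((δ⁻¹ * T ^ j * δ : SL(2, ℤ)) : Matrix (Fin 2) (Fin 2) ℤ).trace =
      ((δ * (δ⁻¹ * T ^ j) : SL(2, ℤ)) : Matrix (Fin 2) (Fin 2) ℤ).trace := by
    rw [Matrix.SpecialLinearGroup.coe_mul, Matrix.SpecialLinearGroup.coe_mul (δ)
      (δ⁻¹ * T ^ j), Matrix.trace_mul_comm]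
  rw [h1, mul_inv_cancel_left, ← zpow_natCast, coe_T_zpow, Matrix.trace_fin_two]
  simp

theorem shap_T_pow_fixed {c : Γ → A}
    (hpar : ∀ γ : Γ, ((γ : SL(2, ℤ)) : Matrix (Fin 2) (Fin 2) ℤ).trace = 2 → c γ = 0)
    (y : SL(2, ℤ) ⧸ Γ) (j : ℕ) (hj : ((T : SL(2, ℤ)) ^ j)⁻¹ • y = y) :
    shap c ((T : SL(2, ℤ)) ^ j) y = 0 := by
  rw [shap_apply]
  refine hpar _ ?_
  show ((tw (T ^ j) y : SL(2, ℤ)) : Matrix (Fin 2) (Fin 2) ℤ).trace = 2
  rw [tw_of_fixed hj]
  exact trace_conj_T_pow _ j

end Closed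

section Red

variable (m : ℕ)

/-- Reduction modulo `m` of integer valued functions. -/
def red {X : Type*} (n : X → ℤ) : X → ZMod m := fun x => ((n x : ℤ) : ZMod m)

theorem red_apply {X : Type*} (n : X → ℤ) (x : X) : red m n x = ((n x : ℤ) : ZMod m) := rfl

theorem red_permRep {G X : Type*} [Group G] [MulAction G X] (g : G) (n : X → ℤ) :
    red m (permRep ℤ g n) = permRep (ZMod m) g (red m n) := rfl

theorem red_add {X : Type*} (n n' : X → ℤ) : red m (n + n') = red m n + red m n' := by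
  funext x
  simp [red_apply]

theorem red_sub {X : Type*} (n n' : X → ℤ) : red m (n - n') = red m n - red m n' := by
  funext x
  simp [red_apply]

/-- A lift of a `ZMod m`-valued function. -/
def liftFun [NeZero m] {X : Type*} (f : X → ZMod m) : X → ℤ := fun x => ((f x).val : ℤ)

theorem red_liftFun [NeZero m] {X : Type*} (f : X → ZMod m) : red m (liftFun m f) = f := by
  funext x
  simp [red_apply, liftFun]

theorem isCocycle_red {z : SL(2, ℤ) → ((SL(2, ℤ) ⧸ Γ) → ℤ)} (hz : IsCocycle (permRep ℤ) z) :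
    IsCocycle (permRep (ZMod m)) (fun g => red m (z g)) := by
  intro g h
  show red m (z (g * h)) = red m (z g) + permRep (ZMod m) g (red m (z h))
  rw [hz g h, red_add, red_permRep]

end Red

theorem isCocycle_sub {A : Type*} [AddCommGroup A] {z z' : SL(2, ℤ) → ((SL(2, ℤ) ⧸ Γ) → A)}
    (hz : IsCocycle (permRep A) z) (hz' : IsCocycle (permRep A) z') :
    IsCocycle (permRep A) (fun g => z g - z' g) := by
  intro g h
  show z (g * h) - z' (g * h) = z g - z' g + permRep A g (z h - z' h)
  rw [hz g h, hz' g h, map_sub]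
  abel

/-- Two cocycles agreeing at `S` and `U = S T` are equal. -/
theorem cocycle_ext {A : Type*} [AddCommGroup A] {z z' : SL(2, ℤ) → ((SL(2, ℤ) ⧸ Γ) → A)}
    (hz : IsCocycle (permRep A) z) (hz' : IsCocycle (permRep A) z')
    (hS : z S = z' S) (hU : z Umat = z' Umat) (g : SL(2, ℤ)) : z g = z' g := by
  have := (isCocycle_sub hz hz').eq_zero_of_S_U (sub_eq_zero.mpr hS) (sub_eq_zero.mpr hU) g
  exact sub_eq_zero.mp this

theorem coboundary_S_add {A : Type*} [AddCommGroup A] (hneg : (-1 : SL(2, ℤ)) ∈ Γ)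
    (n : (SL(2, ℤ) ⧸ Γ) → A) :
    (permRep A (S : SL(2, ℤ)) n - n) + permRep A (S : SL(2, ℤ)) (permRep A (S : SL(2, ℤ)) n - n)
      = 0 := by
  rw [map_sub, rho_S_S _ (permRep_neg_one A hneg)]
  abel

theorem coboundary_U_add {A : Type*} [AddCommGroup A] (hneg : (-1 : SL(2, ℤ)) ∈ Γ)
    (n : (SL(2, ℤ) ⧸ Γ) → A) :
    (permRep A Umat n - n) + permRep A Umat (permRep A Umat n - n)
      + permRep A Umat (permRep A Umat (permRep A Umat n - n)) = 0 := by
  simp only [map_sub]
  rw [rho_U_U_U _ (permRep_neg_one A hneg)]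
  abel

theorem sum_coboundary {A : Type*} [AddCommGroup A] [Fintype (SL(2, ℤ) ⧸ Γ)] (g : SL(2, ℤ))
    (n : (SL(2, ℤ) ⧸ Γ) → A) : ∑ x, (permRep A g n - n) x = 0 := by
  simp only [Pi.sub_apply, Finset.sum_sub_distrib]
  rw [sum_permRep, sub_self]

/-- The compatibility defect of a triple of potentials. -/
def defect {A : Type*} [AddCommGroup A] (n₁ n₂ n₃ : (SL(2, ℤ) ⧸ Γ) → A) : (SL(2, ℤ) ⧸ Γ) → A :=
  permRep A (S⁻¹ : SL(2, ℤ)) ((permRep A Umat n₂ - n₂) - (permRep A (S : SL(2, ℤ)) n₁ - n₁))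
    - (permRep A (T : SL(2, ℤ)) n₃ - n₃)

theorem defect_apply {A : Type*} [AddCommGroup A] (n₁ n₂ n₃ : (SL(2, ℤ) ⧸ Γ) → A)
    (x : SL(2, ℤ) ⧸ Γ) :
    defect n₁ n₂ n₃ x = (n₂ ((T⁻¹ : SL(2, ℤ)) • x) - n₂ ((S : SL(2, ℤ)) • x)
      - (n₁ x - n₁ ((S : SL(2, ℤ)) • x))) - (n₃ ((T⁻¹ : SL(2, ℤ)) • x) - n₃ x) := by
  have hUS : (Umat⁻¹ : SL(2, ℤ)) • ((S : SL(2, ℤ)) • x) = (T⁻¹ : SL(2, ℤ)) • x := by
    rw [← mul_smul]
    congr 1
    rw [T_eq_S_inv_mul_Umat]
    group
  have hSS : (S⁻¹ : SL(2, ℤ)) • ((S : SL(2, ℤ)) • x) = x := inv_smul_smul _ _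
  simp only [defect, Pi.sub_apply, permRep_apply, inv_inv, hUS, hSS]

theorem red_defect (m : ℕ) (n₁ n₂ n₃ : (SL(2, ℤ) ⧸ Γ) → ℤ) :
    red m (defect n₁ n₂ n₃) = defect (red m n₁) (red m n₂) (red m n₃) := by
  funext x
  rw [red_apply, defect_apply, defect_apply]
  simp [red_apply]

theorem sum_defect {A : Type*} [AddCommGroup A] [Fintype (SL(2, ℤ) ⧸ Γ)]
    (n₁ n₂ n₃ : (SL(2, ℤ) ⧸ Γ) → A) : ∑ x, defect n₁ n₂ n₃ x = 0 := by
  have h1 : ∑ x, defect n₁ n₂ n₃ x =
      ∑ x, permRep A (S⁻¹ : SL(2, ℤ))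
        ((permRep A Umat n₂ - n₂) - (permRep A (S : SL(2, ℤ)) n₁ - n₁)) x
        - ∑ x, (permRep A (T : SL(2, ℤ)) n₃ - n₃) x := by
    rw [← Finset.sum_sub_distrib]
    rfl
  rw [h1, sum_coboundary, sub_zero, sum_permRep]
  have h2 : ∑ x, ((permRep A Umat n₂ - n₂) - (permRep A (S : SL(2, ℤ)) n₁ - n₁)) x =
      ∑ x, (permRep A Umat n₂ - n₂) x - ∑ x, (permRep A (S : SL(2, ℤ)) n₁ - n₁) x := by
    rw [← Finset.sum_sub_distrib]
    rfl
  rw [h2, sum_coboundary, sum_coboundary, sub_zero]

/-- Potentials modulo `m` with vanishing defect lift to integral potentials with vanishing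
defect. -/
theorem exists_lift_potentials [Γ.FiniteIndex] (m : ℕ) [NeZero m]
    (m₁ m₂ m₃ : (SL(2, ℤ) ⧸ Γ) → ZMod m) (h : defect m₁ m₂ m₃ = 0) :
    ∃ n₁ n₂ n₃ : (SL(2, ℤ) ⧸ Γ) → ℤ, red m n₁ = m₁ ∧ red m n₂ = m₂ ∧ red m n₃ = m₃ ∧
      defect n₁ n₂ n₃ = 0 := by
  classical
  have : Finite (SL(2, ℤ) ⧸ Γ) := Subgroup.finite_quotient_of_finiteIndex
  letI : Fintype (SL(2, ℤ) ⧸ Γ) := Fintype.ofFinite _
  have hm0 : (m : ℤ) ≠ 0 := by exact_mod_cast NeZero.ne m
  have hdred : red m (defect (liftFun m m₁) (liftFun m m₂) (liftFun m m₃)) = 0 := by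
    rw [red_defect, red_liftFun, red_liftFun, red_liftFun, h]
  have hddvd : ∀ x, ∃ e : ℤ, defect (liftFun m m₁) (liftFun m m₂) (liftFun m m₃) x = m * e := by
    intro x
    have h1 : ((defect (liftFun m m₁) (liftFun m m₂) (liftFun m m₃) x : ℤ) : ZMod m) = 0 :=
      congrFun hdred x
    exact (ZMod.intCast_zmod_eq_zero_iff_dvd _ m).mp h1
  choose e he using hddvd
  have hesum : ∑ x, e x = 0 := by
    have h1 : (m : ℤ) * ∑ x, e x = 0 := by
      rw [Finset.mul_sum, ← sum_defect (liftFun m m₁) (liftFun m m₂) (liftFun m m₃)]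
      exact Finset.sum_congr rfl fun x _ => (he x).symm
    exact (mul_eq_zero.mp h1).resolve_left hm0
  obtain ⟨n'', k'', hek⟩ := mem_augGen.mp (mem_augGen_of_sum_eq_zero e hesum)
  refine ⟨fun x => liftFun m m₁ x - m * n'' x, liftFun m m₂, fun x => liftFun m m₃ x + m * k'' x,
    ?_, red_liftFun m m₂, ?_, ?_⟩
  · funext x
    have : red m (liftFun m m₁) x = m₁ x := congrFun (red_liftFun m m₁) x
    simp only [red_apply] at this
    simp [red_apply, this]
  · funext x
    have : red m (liftFun m m₃) x = m₃ x := congrFun (red_liftFun m m₃) x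
    simp only [red_apply] at this
    simp [red_apply, this]
  · funext x
    have hdx := he x
    have hex := congrFun hek x
    rw [defect_apply] at hdx
    rw [defect_apply]
    simp only [Pi.sub_apply, Pi.add_apply, permRep_apply, inv_inv, Pi.zero_apply] at hex ⊢
    rw [hex] at hdx
    linear_combination hdx

/-- **Main lifting theorem**, abstract form. -/
theorem exists_lift_addChar [Γ.FiniteIndex] (hneg : (-1 : SL(2, ℤ)) ∈ Γ) (m : ℕ) [NeZero m]
    (c : Γ → ZMod m) (hc : IsAddChar c)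
    (hfin : ∀ (γ : Γ) (n : ℕ), 0 < n → γ ^ n = 1 → c γ = 0)
    (hpar : ∀ γ : Γ, ((γ : SL(2, ℤ)) : Matrix (Fin 2) (Fin 2) ℤ).trace = 2 → c γ = 0) :
    ∃ c' : Γ → ℤ, IsAddChar c' ∧
      (∀ γ : Γ, ((γ : SL(2, ℤ)) : Matrix (Fin 2) (Fin 2) ℤ).trace = 2 ∨
        ((γ : SL(2, ℤ)) : Matrix (Fin 2) (Fin 2) ℤ).trace = -2 → c' γ = 0) ∧
      ∀ γ : Γ, ((c' γ : ℤ) : ZMod m) = c γ := by
  classical
  have : Finite (SL(2, ℤ) ⧸ Γ) := Subgroup.finite_quotient_of_finiteIndex
  -- the Shapiro cocycle
  have hz : IsCocycle (permRep (ZMod m)) (shap c) := isCocycle_shap hc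
  -- it is a coboundary on `S`, `U`, `T`
  obtain ⟨m₁, hm₁⟩ := exists_eq_coboundary_at hz S
    (fun y j hj => shap_pow_fixed_of_finOrder hfin S 4 (by norm_num) S_pow_four y j hj)
  obtain ⟨m₂, hm₂⟩ := exists_eq_coboundary_at hz Umat
    (fun y j hj => shap_pow_fixed_of_finOrder hfin Umat 6 (by norm_num) Umat_pow_six y j hj)
  obtain ⟨m₃, hm₃⟩ := exists_eq_coboundary_at hz T (fun y j hj => shap_T_pow_fixed hpar y j hj)
  have hdef : defect m₁ m₂ m₃ = 0 := by
    unfold defect
    rw [← hm₁, ← hm₂, ← hm₃, hz.map_T]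
    exact sub_self _
  obtain ⟨n₁, n₂, n₃, hred₁, hred₂, -, hdefZ⟩ := exists_lift_potentials m m₁ m₂ m₃ hdef
  have hnegZ := permRep_neg_one (Γ := Γ) ℤ hneg
  obtain ⟨z', hz', hz'S, hz'U⟩ := exists_cocycle (permRep ℤ) hnegZ
    (permRep ℤ (S : SL(2, ℤ)) n₁ - n₁) (permRep ℤ Umat n₂ - n₂)
    (coboundary_S_add hneg n₁) (coboundary_U_add hneg n₂)
  -- value at `T`
  have hz'T : z' T = permRep ℤ (T : SL(2, ℤ)) n₃ - n₃ := by
    rw [hz'.map_T, hz'S, hz'U]
    exact sub_eq_zero.mp hdefZ
  -- the lifted character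
  refine ⟨resChar z', isAddChar_resChar hz', ?_, ?_⟩
  · -- parabolic
    have hchar := isAddChar_resChar hz'
    have hkey : ∀ (g : SL(2, ℤ)) (k : ℤ) (hmem : g * T ^ k * g⁻¹ ∈ Γ),
        z' (g * T ^ k * g⁻¹) (bpt Γ) = 0 := by
      intro g k hmem
      rw [cocycle_conj_bpt hz' g (T ^ k) hmem, cocycle_zpow_of_coboundary hz' T n₃ hz'T k,
        Pi.sub_apply, permRep_apply, sub_eq_zero]
      congr 1
      have h1 : (g * T ^ k * g⁻¹)⁻¹ • bpt Γ = bpt Γ := inv_smul_bpt_of_mem hmem
      calc ((T : SL(2, ℤ)) ^ k)⁻¹ • g⁻¹ • bpt Γ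
          = g⁻¹ • ((g * T ^ k * g⁻¹)⁻¹ • bpt Γ) := by
            rw [← mul_smul, ← mul_smul]
            congr 1
            group
        _ = g⁻¹ • bpt Γ := by rw [h1]
    have hnegone : resChar z' ⟨-1, hneg⟩ = 0 := by
      have h1 : (⟨-1, hneg⟩ : Γ) * ⟨-1, hneg⟩ = 1 := by
        apply Subtype.ext
        show (-1 : SL(2, ℤ)) * -1 = 1
        simp
      have h2 := hchar ⟨-1, hneg⟩ ⟨-1, hneg⟩
      rw [h1, hchar.map_one] at h2
      omega
    intro γ hγ
    have htr : ((γ : SL(2, ℤ)) : Matrix (Fin 2) (Fin 2) ℤ).trace ^ 2 = 4 := by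
      rcases hγ with h | h <;> rw [h] <;> norm_num
    obtain ⟨g, k, hk | hk⟩ := exists_conj_T_zpow_of_trace_sq (γ : SL(2, ℤ)) htr
    · have hmem : g * T ^ k * g⁻¹ ∈ Γ := hk ▸ γ.2
      show z' (γ : SL(2, ℤ)) (bpt Γ) = 0
      rw [hk]
      exact hkey g k hmem
    · have hmem : g * T ^ k * g⁻¹ ∈ Γ := by
        have h1 : g * T ^ k * g⁻¹ = -1 * (γ : SL(2, ℤ)) := by
          rw [hk]
          simp
        rw [h1]
        exact Γ.mul_mem hneg γ.2
      have h2 : γ = ⟨-1, hneg⟩ * ⟨g * T ^ k * g⁻¹, hmem⟩ := by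
        apply Subtype.ext
        show (γ : SL(2, ℤ)) = -1 * (g * T ^ k * g⁻¹)
        rw [hk]
        simp
      rw [h2, hchar, hnegone, zero_add]
      exact hkey g k hmem
  · -- reduction
    intro γ
    have hzr := isCocycle_red m hz'
    have h1 : (fun g => red m (z' g)) (γ : SL(2, ℤ)) = shap c (γ : SL(2, ℤ)) := by
      refine cocycle_ext hzr hz ?_ ?_ _
      · show red m (z' S) = shap c S
        rw [hz'S, red_sub, red_permRep, hred₁, hm₁]
      · show red m (z' Umat) = shap c Umat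
        rw [hz'U, red_sub, red_permRep, hred₂, hm₂]
    have h2 := congrFun h1 (bpt Γ)
    rw [shap_bpt hc] at h2
    exact h2

end Fermat.Agent.Lib.HFree.H412

end
-- ===== PACK-END Lib/HFree/H412/Lift.lean

-- ===== PACK-BEGIN Lib/HFree/H412/Main.lean
section



/-!
# HFree: parabolic characters of `Γ₀(N)` modulo `m` lift to `ℤ`

In the language of `Fermat.Agent.S29.DefsM` (`G0 N`, `IsParHom`):

* `exists_lift_isParHom` : every parabolic character `c : Γ₀(N) → ℤ/m` is the reduction of a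
  parabolic character `c' : Γ₀(N) → ℤ`.
* `exists_eq_nsmul_of_red_eq_zero` : a parabolic `ℤ`-valued character which vanishes modulo `m` is
  `m` times a parabolic character.

Together: `Hom_par(Γ₀(N), ℤ/m) = Hom_par(Γ₀(N), ℤ) ⊗ ℤ/m`, i.e. `H₁(X₀(N), ℤ)` is torsion-free.
Consequences (with the Kummer dictionary `J₀(N)[m] ≅ Hom_par(Γ₀(N), ℤ/m)` of rows S29/S30):
`J₀(N)[m] ≅ (ℤ/m)^{2g}`, `J₀(N)[p^∞]` is divisible, and every Hecke eigensystem occurring in
`J₀(N)[p]` lifts to characteristic `0` (Deligne–Serre).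
-/

set_option autoImplicit false

open scoped MatrixGroups
open ModularGroup

namespace Fermat.Agent.Lib.HFree.H412

open Fermat.Agent.S29 (G0 IsParHom)

theorem neg_one_mem_Gamma0_HFree (N : ℕ) : (-1 : SL(2, ℤ)) ∈ CongruenceSubgroup.Gamma0 N := by
  rw [CongruenceSubgroup.Gamma0_mem]
  simp

/-- `ℤ`-valued additive characters kill elements of finite order. -/
theorem eq_zero_of_pow_eq_one {G : Type*} [Group G] {c : G → ℤ}
    (hc : ∀ γ γ' : G, c (γ * γ') = c γ + c γ') (γ : G) (n : ℕ) (hn : 0 < n) (hγ : γ ^ n = 1) :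
    c γ = 0 := by
  have h1 : c 1 = 0 := by
    have h := hc 1 1
    rw [mul_one] at h
    omega
  have hpow : ∀ k : ℕ, c (γ ^ k) = k * c γ := by
    intro k
    induction k with
    | zero => simp [h1]
    | succ k ih =>
      rw [pow_succ, hc, ih]
      push_cast
      ring
  have h2 := hpow n
  rw [hγ, h1] at h2
  have hn' : (n : ℤ) ≠ 0 := by exact_mod_cast hn.ne'
  exact (mul_eq_zero.mp h2.symm).resolve_left hn'

/-- **HFree.** Every parabolic character of `Γ₀(N)` modulo `m` lifts to a parabolic character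
with values in `ℤ`. -/
theorem exists_lift_isParHom (N : ℕ) [NeZero N] (m : ℕ) [NeZero m] (c : G0 N → ZMod m)
    (hc : IsParHom c) :
    ∃ c' : G0 N → ℤ, IsParHom c' ∧ ∀ γ : G0 N, ((c' γ : ℤ) : ZMod m) = c γ := by
  obtain ⟨c', hc', hpar, hred⟩ := exists_lift_addChar (Γ := CongruenceSubgroup.Gamma0 N)
    (neg_one_mem_Gamma0_HFree N) m c hc.map_mul hc.elliptic
    (fun γ hγ => hc.parabolic γ (Or.inl hγ))
  exact ⟨c', ⟨hc', hpar, fun γ n hn hγ => eq_zero_of_pow_eq_one hc' γ n hn hγ⟩, hred⟩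

/-- A parabolic `ℤ`-valued character which vanishes modulo `m` is `m` times a parabolic
character. -/
theorem exists_eq_nsmul_of_red_eq_zero (N : ℕ) (m : ℕ) [NeZero m] (c : G0 N → ℤ)
    (hc : IsParHom c) (h0 : ∀ γ : G0 N, ((c γ : ℤ) : ZMod m) = 0) :
    ∃ c' : G0 N → ℤ, IsParHom c' ∧ ∀ γ : G0 N, c γ = m * c' γ := by
  have hm0 : (m : ℤ) ≠ 0 := by exact_mod_cast NeZero.ne m
  have hdvd : ∀ γ : G0 N, ∃ e : ℤ, c γ = m * e := fun γ =>
    (ZMod.intCast_zmod_eq_zero_iff_dvd (c γ) m).mp (h0 γ)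
  choose c' hc' using hdvd
  refine ⟨c', ⟨fun γ γ' => ?_, fun γ hγ => ?_, fun γ n hn hγ => ?_⟩, hc'⟩
  · apply mul_left_cancel₀ hm0
    rw [mul_add, ← hc', ← hc', ← hc', hc.map_mul]
  · apply mul_left_cancel₀ hm0
    rw [← hc', mul_zero, hc.parabolic γ hγ]
  · apply mul_left_cancel₀ hm0
    rw [← hc', mul_zero, hc.elliptic γ n hn hγ]

/-- The reduction modulo `m` of a parabolic character is parabolic. -/
theorem isParHom_red (N : ℕ) (m : ℕ) (c : G0 N → ℤ) (hc : IsParHom c) :
    IsParHom (fun γ => ((c γ : ℤ) : ZMod m)) :=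
  ⟨fun γ γ' => by rw [hc.map_mul]; push_cast; rfl,
   fun γ hγ => by rw [hc.parabolic γ hγ]; simp,
   fun γ n hn hγ => by rw [hc.elliptic γ n hn hγ]; simp⟩

end Fermat.Agent.Lib.HFree.H412

end
-- ===== PACK-END Lib/HFree/H412/Main.lean

-- ===== PACK-BEGIN S29/H801/M1Modular.lean
section
/-
S29 / M1 (helper801), part 3: the Prelude Hecke operators `heckeOperatorAlong L N ℓ` commute
(`HeckeOperatorsCommuteBar N` for `L = ℚ̄`), from

* `hi`  : the Prelude's `HeckeInputsAlong` at all levels (piece HI),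
* `lg`  : local generators along the degeneracy maps `α` (weak approximation),
* `nc`  : norm compatibility of the mixed squares (`F_{Nℓℓ'} = F_{Nℓ} ⊗_{F_N} F_{Nℓ'}`).

No places ↔ points dictionary is used.
-/




set_option autoImplicit false
set_option linter.style.haveILetI false

noncomputable section

namespace Fermat.Agent.S29.H801

open AlgebraicCurve ModularCurve Fermat.Agent.S37.H818

variable (L : Type*) [Field L] [Algebra ℚ L]

/-- The function field of level `N` over `L` (as a type). -/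
abbrev FB (N : ℕ) [NeZero N] : Type _ := ↥(laurentBaseChange L (modularFunctionFieldFull N))

section Retarget

variable (M ℓ M' : ℕ) [NeZero M] [NeZero ℓ] [NeZero M']

/-- `heckeAlphaBar L M ℓ` with codomain level renamed along `M * ℓ = M'`. -/
def alphaTo (h : M * ℓ = M') : _root_.Fermat.Agent.S29.H801.FB L M →ₐ[L] _root_.Fermat.Agent.S29.H801.FB L M' := by
  subst h
  exact heckeAlphaBar L M ℓ

/-- `heckeBetaBar L M ℓ` with codomain level renamed along `M * ℓ = M'`. -/
def betaTo (h : M * ℓ = M') : _root_.Fermat.Agent.S29.H801.FB L M →ₐ[L] _root_.Fermat.Agent.S29.H801.FB L M' := by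
  subst h
  exact heckeBetaBar L M ℓ

variable {M ℓ M'}

@[simp] theorem coe_alphaTo (h : M * ℓ = M') (x : _root_.Fermat.Agent.S29.H801.FB L M) :
    ((alphaTo L M ℓ M' h x : _root_.Fermat.Agent.S29.H801.FB L M') : LaurentSeries L) = (x : LaurentSeries L) := by
  subst h
  exact coe_heckeAlphaBar M ℓ x

@[simp] theorem coe_betaTo (h : M * ℓ = M') (x : _root_.Fermat.Agent.S29.H801.FB L M) :
    ((betaTo L M ℓ M' h x : _root_.Fermat.Agent.S29.H801.FB L M') : LaurentSeries L) = qExpand L ℓ (x : LaurentSeries L) := by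
  subst h
  exact coe_heckeBetaBar M ℓ x

theorem alphaTo_rfl : alphaTo L M ℓ (M * ℓ) rfl = heckeAlphaBar L M ℓ := rfl

theorem betaTo_rfl : betaTo L M ℓ (M * ℓ) rfl = heckeBetaBar L M ℓ := rfl

theorem alphaTo_integral (h : M * ℓ = M') (hα : HeckeAlphaBarIntegral L M ℓ) :
    (alphaTo L M ℓ M' h).toRingHom.IsIntegral := by
  subst h
  exact hα

theorem betaTo_integral (h : M * ℓ = M') (hβ : HeckeBetaBarIntegral L M ℓ) :
    (betaTo L M ℓ M' h).toRingHom.IsIntegral := by
  subst h
  exact hβ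

theorem alphaTo_finite (h : M * ℓ = M') (hfin : FiniteAlong L (heckeAlphaBar L M ℓ)) :
    FiniteAlong L (alphaTo L M ℓ M' h) := by
  subst h
  exact hfin

theorem alphaTo_normFormula (h : M * ℓ = M') (hfin : FiniteAlong L (heckeAlphaBar L M ℓ))
    (hN : NormFormulaAlong L (heckeAlphaBar L M ℓ) hfin) :
    NormFormulaAlong L (alphaTo L M ℓ M' h) (alphaTo_finite L h hfin) := by
  subst h
  exact hN

theorem hasPrincipalDivisors_of_eq (h : M * ℓ = M')
    (hP : HasPrincipalDivisors L (_root_.Fermat.Agent.S29.H801.FB L (M * ℓ))) : HasPrincipalDivisors L (_root_.Fermat.Agent.S29.H801.FB L M') := by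
  subst h
  exact hP

end Retarget

/-- The inputs of the commutation theorem. -/
structure M1Inputs : Prop where
  /-- piece `HI` at all levels -/
  hi : ∀ (M ℓ : ℕ) [NeZero M] [NeZero ℓ], ℓ.Prime → HeckeInputsAlong L M ℓ
  /-- local generators along `α` -/
  lg : ∀ (M ℓ : ℕ) [NeZero M] [NeZero ℓ], ℓ.Prime → ∀ hα : HeckeAlphaBarIntegral L M ℓ,
    HasLocalGenerators (heckeAlphaBar L M ℓ) hα
  /-- norm compatibility of the mixed square
  `F_N --α_{ℓ'}--> F_{Nℓ'}`, `F_N --β_ℓ--> F_{Nℓ}`, `F_{Nℓ} --α_{ℓ'}--> F_{Nℓℓ'}`,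
  `F_{Nℓ'} --β_ℓ--> F_{Nℓℓ'}`. -/
  nc : ∀ (N ℓ ℓ' : ℕ) [NeZero N] [NeZero ℓ] [NeZero ℓ'], ℓ.Prime → ℓ'.Prime → ℓ ≠ ℓ' →
    NormCompat (heckeAlphaBar L N ℓ') (heckeBetaBar L N ℓ) (heckeAlphaBar L (N * ℓ) ℓ')
      (betaTo L (N * ℓ') ℓ (N * ℓ * ℓ') (Nat.mul_right_comm N ℓ' ℓ))

variable {L}

theorem M1Inputs.nc' (H : M1Inputs L) (N ℓ ℓ' M' : ℕ) [NeZero N] [NeZero ℓ] [NeZero ℓ']
    [NeZero M'] (hℓ : ℓ.Prime) (hℓ' : ℓ'.Prime) (hne : ℓ ≠ ℓ')
    (h₁ : N * ℓ * ℓ' = M') (h₂ : N * ℓ' * ℓ = M') :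
    NormCompat (heckeAlphaBar L N ℓ') (heckeBetaBar L N ℓ) (alphaTo L (N * ℓ) ℓ' M' h₁)
      (betaTo L (N * ℓ') ℓ M' h₂) := by
  subst h₁
  exact H.nc N ℓ ℓ' hℓ hℓ' hne

section Relations

variable (N ℓ ℓ' : ℕ) [NeZero N] [NeZero ℓ] [NeZero ℓ']

theorem rel_AA :
    (heckeAlphaBar L (N * ℓ) ℓ').comp (heckeAlphaBar L N ℓ) =
      (alphaTo L (N * ℓ') ℓ (N * ℓ * ℓ') (Nat.mul_right_comm N ℓ' ℓ)).comp
        (heckeAlphaBar L N ℓ') := by
  refine AlgHom.ext fun x => Subtype.ext ?_
  simp only [AlgHom.comp_apply, coe_heckeAlphaBar, coe_alphaTo]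

theorem rel_BB :
    (heckeBetaBar L (N * ℓ) ℓ').comp (heckeBetaBar L N ℓ) =
      (betaTo L (N * ℓ') ℓ (N * ℓ * ℓ') (Nat.mul_right_comm N ℓ' ℓ)).comp
        (heckeBetaBar L N ℓ') := by
  refine AlgHom.ext fun x => Subtype.ext ?_
  simp only [AlgHom.comp_apply, coe_heckeBetaBar, coe_betaTo]
  rw [qExpand_qExpand, qExpand_qExpand]
  exact qExpand_congr (mul_comm ℓ' ℓ) _

theorem rel_sq₁ :
    (betaTo L (N * ℓ') ℓ (N * ℓ * ℓ') (Nat.mul_right_comm N ℓ' ℓ)).comp (heckeAlphaBar L N ℓ') =
      (heckeAlphaBar L (N * ℓ) ℓ').comp (heckeBetaBar L N ℓ) := by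
  refine AlgHom.ext fun x => Subtype.ext ?_
  simp only [AlgHom.comp_apply, coe_heckeAlphaBar, coe_heckeBetaBar, coe_betaTo]

theorem rel_sq₂ :
    (heckeBetaBar L (N * ℓ) ℓ').comp (heckeAlphaBar L N ℓ) =
      (alphaTo L (N * ℓ') ℓ (N * ℓ * ℓ') (Nat.mul_right_comm N ℓ' ℓ)).comp
        (heckeBetaBar L N ℓ') := by
  refine AlgHom.ext fun x => Subtype.ext ?_
  simp only [AlgHom.comp_apply, coe_heckeAlphaBar, coe_heckeBetaBar, coe_alphaTo]

end Relations

/-- **Commutation of the Prelude Hecke operators** `heckeOperatorAlong L N ℓ` for two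
distinct primes. -/
theorem heckeOperatorAlong_comm_of_ne (H : M1Inputs L) (N ℓ ℓ' : ℕ) [NeZero N] [NeZero ℓ]
    [NeZero ℓ'] (hℓ : ℓ.Prime) (hℓ' : ℓ'.Prime) (hne : ℓ ≠ ℓ')
    (x : Pic0 L (laurentBaseChange L (modularFunctionFieldFull N))) :
    heckeOperatorAlong L N ℓ (heckeOperatorAlong L N ℓ' x) =
      heckeOperatorAlong L N ℓ' (heckeOperatorAlong L N ℓ x) := by
  obtain ⟨hα₁, hβ₁, hP₁, hfin₁, hFI₁, hN₁⟩ := H.hi N ℓ hℓ
  obtain ⟨hα₂, hβ₂, hP₂, hfin₂, hFI₂, hN₂⟩ := H.hi N ℓ' hℓ'
  obtain ⟨hαA₂, hβB₂, hP₁₂, hfinA₂, hFIB₂, hNA₂⟩ := H.hi (N * ℓ) ℓ' hℓ'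
  obtain ⟨hαA₁, hβB₁, hP₂₁, hfinA₁, hFIB₁, hNA₁⟩ := H.hi (N * ℓ') ℓ hℓ
  rw [heckeOperatorAlong_eq hα₁ hβ₁ hFI₁ hfin₁ hN₁, heckeOperatorAlong_eq hα₂ hβ₂ hFI₂ hfin₂ hN₂]
  have hc : N * ℓ' * ℓ = N * ℓ * ℓ' := Nat.mul_right_comm N ℓ' ℓ
  exact pic0_correspondence_comm
    (heckeAlphaBar L N ℓ) (heckeBetaBar L N ℓ) (heckeAlphaBar L N ℓ') (heckeBetaBar L N ℓ')
    (heckeAlphaBar L (N * ℓ) ℓ') (heckeBetaBar L (N * ℓ) ℓ')
    (alphaTo L (N * ℓ') ℓ (N * ℓ * ℓ') hc) (betaTo L (N * ℓ') ℓ (N * ℓ * ℓ') hc)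
    hα₁ hβ₁ hα₂ hβ₂ hαA₂ hβB₂ (alphaTo_integral L hc hαA₁) (betaTo_integral L hc hβB₁)
    (rel_AA N ℓ ℓ') (rel_BB N ℓ ℓ') (rel_sq₁ N ℓ ℓ') (rel_sq₂ N ℓ ℓ')
    hFI₁ hFI₂ hfin₁ hN₁ hfin₂ hN₂
    (alphaTo_finite L hc hfinA₁) (alphaTo_normFormula L hc hfinA₁ hNA₁) hfinA₂ hNA₂
    (H.nc N ℓ ℓ' hℓ hℓ' hne)
    (H.nc' N ℓ' ℓ (N * ℓ * ℓ') hℓ' hℓ hne.symm hc rfl)
    (H.lg N ℓ hℓ hα₁) (H.lg N ℓ' hℓ' hα₂) x

/-- **Piece M1**: `HeckeOperatorsCommuteBar N` from the inputs over `ℚ̄`. -/
theorem heckeOperatorsCommuteBar_of_inputs (H : M1Inputs (AlgebraicClosure ℚ)) (N : ℕ)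
    [NeZero N] : HeckeOperatorsCommuteBar N := by
  intro ℓ ℓ'
  by_cases hne : (ℓ : ℕ) = ℓ'
  · have : ℓ = ℓ' := Subtype.ext hne
    subst this
    rfl
  · haveI : NeZero (ℓ : ℕ) := ⟨ℓ.2.ne_zero⟩
    haveI : NeZero (ℓ' : ℕ) := ⟨ℓ'.2.ne_zero⟩
    ext x
    simp only [Module.End.mul_apply, heckeOperatorBar_apply]
    exact heckeOperatorAlong_comm_of_ne H N ℓ ℓ' ℓ.2 ℓ'.2 hne x

end Fermat.Agent.S29.H801

end

end
-- ===== PACK-END S29/H801/M1Modular.lean

-- ===== PACK-BEGIN S29/M4a/Top.lean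
section
/-
S29 / M4a-TOP (helper391) — `exists_eigen_parHom` (interface `M4a` of `SkeletonM.lean`, exact
statement) from the output of helper201's E2 layer (`H201.exists_eigen_parabolicHom`, plus the
torsion clause which is needed for `p = 2, 3`).

* `M4aTop_E2Output`            : the E2 output as a `Prop`.
* `M4aTop_exists_eigen_parHom` : `M4aTop_E2Output → ` conclusion of `exists_eigen_parHom`.
-/


set_option autoImplicit false

noncomputable section

namespace Fermat.Agent.S29

open CongruenceSubgroup Matrix.SpecialLinearGroup ModularCurve.Period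
open scoped MatrixGroups

/-- Output of the E2 layer in helper201's shape (`H201.exists_eigen_parabolicHom`), together with
the torsion clause: a nonzero parabolic character `χ : Γ₀(N) → F`, trivial on elements of finite
order, with `T_ℓ χ = ψ(a_ℓ) χ` for every prime `ℓ ∤ N`. -/
def M4aTop_E2Output (N : ℕ) (g : CuspForm (Gamma0 N) 2) (F : Type) [Field F]
    (ψ : integralClosure ℤ ℂ →+* F) : Prop :=
  ∃ χ : Additive (Gamma0 N) →+ F, χ ≠ 0 ∧ IsParabolicHom (Gamma0 N) χ ∧
    (∀ (γ : Gamma0 N) (n : ℕ), 0 < n → γ ^ n = 1 → χ (Additive.ofMul γ) = 0) ∧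
    ∀ (ℓ : ℕ) [Fact ℓ.Prime] (hℓN : ¬ ℓ ∣ N),
      ∃ a : integralClosure ℤ ℂ, (a : ℂ) = ModularFormClass.qCoeff g ℓ ∧
        H201.heckeHom ℓ hℓN F χ = (AddMonoidHom.mulLeft (ψ a)).comp χ

theorem M4aTop_fg_SL2Z : Group.FG SL(2, ℤ) :=
  Group.fg_iff.mpr ⟨{ModularGroup.S, ModularGroup.T}, SpecialLinearGroup.SL2Z_generators,
    Set.toFinite _⟩

theorem M4aTop_fg_Gamma0 (N : ℕ) [NeZero N] : Group.FG (Gamma0 N) := by
  have := M4aTop_fg_SL2Z
  infer_instance

/-- The values of an additive character of a finitely generated group lie in the span of the values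
on a finite generating set. -/
theorem M4aTop_mem_span {G : Type*} [Group G] {R M : Type*} [Ring R] [AddCommGroup M]
    [Module R M] (χ : Additive G →+ M) (S : Set G) (hS : Subgroup.closure S = ⊤) (γ : G) :
    χ (Additive.ofMul γ) ∈ Submodule.span R ((fun x : G => χ (Additive.ofMul x)) '' S) := by
  have hγ : γ ∈ Subgroup.closure S := hS ▸ Subgroup.mem_top γ
  induction hγ using Subgroup.closure_induction with
  | mem x hx => exact Submodule.subset_span ⟨x, hx, rfl⟩
  | one => rw [ofMul_one, map_zero]; exact Submodule.zero_mem _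
  | mul x y _ _ hx hy => rw [ofMul_mul, map_add]; exact Submodule.add_mem _ hx hy
  | inv x _ hx => rw [ofMul_inv, map_neg]; exact Submodule.neg_mem _ hx

/-- **M4a-TOP.**  The conclusion of `exists_eigen_parHom` (`SkeletonM.lean`) from the output of the
E2 layer. -/
theorem M4aTop_exists_eigen_parHom (N : ℕ) [NeZero N]
    {g : CuspForm (CongruenceSubgroup.Gamma0 N) 2} {p : ℕ} [Fact p.Prime] {F : Type} [Field F]
    [Algebra (ZMod p) F]
    (ψ : integralClosure ℤ ℂ →+* F) (a : ℕ → integralClosure ℤ ℂ)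
    (ha : ∀ ℓ : ℕ, ℓ.Prime → ¬ ℓ ∣ N →
      ((a ℓ : integralClosure ℤ ℂ) : ℂ) = ModularFormClass.qCoeff g ℓ)
    (hE2 : M4aTop_E2Output N g F ψ) :
    ∃ (n : ℕ) (w : Fin n → F) (c : Fin n → G0 N → ZMod p),
      LinearIndependent (ZMod p) w ∧ (∀ j, IsParHom (c j)) ∧ (∃ j, c j ≠ 0) ∧
      ∀ ℓ : ℕ, ℓ.Prime → ¬ ℓ ∣ N * p → ∀ γ : G0 N,
        ∑ j, w j * algebraMap (ZMod p) F (heckeCoh N ℓ (c j) γ)
          = ψ (a ℓ) * ∑ j, w j * algebraMap (ZMod p) F (c j γ) := by
  obtain ⟨χ, hχ0, hpar, htor, hecke⟩ := hE2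
  -- a finite generating set
  obtain ⟨S, hS, hSfin⟩ := Group.fg_iff.mp (M4aTop_fg_Gamma0 N)
  set W : Submodule (ZMod p) F :=
    Submodule.span (ZMod p) ((fun x : Gamma0 N => χ (Additive.ofMul x)) '' S) with hW
  have hmem : ∀ γ : Gamma0 N, χ (Additive.ofMul γ) ∈ W := fun γ => M4aTop_mem_span χ S hS γ
  have : Module.Finite (ZMod p) W := Module.Finite.span_of_finite (ZMod p) (hSfin.image _)
  let b := Module.finBasis (ZMod p) W
  -- the coordinates
  let X : G0 N → W := fun γ => ⟨χ (Additive.ofMul γ), hmem γ⟩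
  have hXmul : ∀ γ γ' : G0 N, X (γ * γ') = X γ + X γ' := fun γ γ' =>
    Subtype.ext (by simp only [X, ofMul_mul, map_add, Submodule.coe_add])
  have hX0 : ∀ γ : G0 N, χ (Additive.ofMul γ) = 0 → X γ = 0 := fun γ h => Subtype.ext h
  have hsum : ∀ γ : G0 N, χ (Additive.ofMul γ)
      = ∑ j, (b j : F) * algebraMap (ZMod p) F (b.repr (X γ) j) := by
    intro γ
    have h1 := congrArg (fun x : W => (x : F)) (b.sum_repr (X γ))
    simp only [Submodule.coe_sum, Submodule.coe_smul] at h1
    rw [show χ (Additive.ofMul γ) = ((X γ : W) : F) from rfl, ← h1]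
    refine Finset.sum_congr rfl fun j _ => ?_
    rw [Algebra.smul_def, mul_comm]
  refine ⟨Module.finrank (ZMod p) W, fun j => (b j : F), fun j γ => b.repr (X γ) j, ?_, ?_, ?_, ?_⟩
  · exact b.linearIndependent.map' W.subtype (Submodule.ker_subtype W)
  · intro j
    refine ⟨fun γ γ' => ?_, fun γ hγ => ?_, fun γ n hn hγ => ?_⟩
    · show b.repr (X (γ * γ')) j = b.repr (X γ) j + b.repr (X γ') j
      rw [hXmul, map_add, Finsupp.add_apply]
    · show b.repr (X γ) j = 0
      have h4 : (((γ : Gamma0 N) : SL(2, ℤ)) : Matrix (Fin 2) (Fin 2) ℤ).trace ^ 2 = 4 := by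
        have h5 : G0.mat γ = (((γ : Gamma0 N) : SL(2, ℤ)) : Matrix (Fin 2) (Fin 2) ℤ) := rfl
        rw [h5] at hγ
        rcases hγ with h | h <;> rw [h] <;> norm_num
      rw [hX0 γ (hpar γ h4), map_zero, Finsupp.zero_apply]
    · show b.repr (X γ) j = 0
      rw [hX0 γ (htor γ n hn hγ), map_zero, Finsupp.zero_apply]
  · by_contra hcon
    rw [not_exists] at hcon
    replace hcon : ∀ j, (fun γ : G0 N => b.repr (X γ) j) = 0 := fun j => not_not.mp (hcon j)
    apply hχ0
    ext γ
    have hz : X (Additive.toMul γ) = 0 := by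
      apply b.repr.injective
      ext j
      rw [map_zero, Finsupp.zero_apply]
      exact congrFun (hcon j) (Additive.toMul γ)
    show χ (Additive.ofMul (Additive.toMul γ)) = 0
    exact congrArg (fun x : W => (x : F)) hz
  · intro ℓ hℓ hℓNp γ
    have : Fact ℓ.Prime := ⟨hℓ⟩
    have hℓN : ¬ ℓ ∣ N := fun h => hℓNp (Dvd.dvd.mul_right h p)
    obtain ⟨a', ha', hT⟩ := hecke ℓ hℓN
    have haa : a' = a ℓ := Subtype.ext (by rw [ha', ha ℓ hℓ hℓN])
    subst haa
    have hTγ : ∑ x : OnePoint (ZMod ℓ), χ (Additive.ofMul (H201.trf hℓN γ x))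
        = ψ (a ℓ) * χ (Additive.ofMul γ) := DFunLike.congr_fun hT (Additive.ofMul γ)
    rw [← hsum γ, ← hTγ]
    -- expand the Hecke operator on coordinates
    have hco : ∀ j, heckeCoh N ℓ (fun γ => b.repr (X γ) j) γ
        = ∑ x : OnePoint (ZMod ℓ), b.repr (X (H201.trf hℓN γ x)) j := fun j =>
      M4aTop_heckeCoh_eq_sum_trf hℓN _ γ
    simp only [hco, map_sum, Finset.mul_sum]
    rw [Finset.sum_comm]
    refine Finset.sum_congr rfl fun x _ => ?_
    exact (hsum (H201.trf hℓN γ x)).symm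

end Fermat.Agent.S29

end
end
-- ===== PACK-END S29/M4a/Top.lean

-- ===== PACK-BEGIN S30/H829/OccAdic.lean
section
/-
S30 / p-adic layer (helper829) — piece OCC-adic: the eigensystem of ANY ring homomorphism
`χ : 𝕋 = heckeAlgebra N 2 S → O` (`O` any domain, e.g. a `p`-adic DVR or a field of any
characteristic) occurs in the parabolic homomorphisms `Hom_par(Γ₀(N), O)`.

Transfer-independent core: the eigen-property is stated through the period map, so that the
Hecke-equivariance of the period map (S29 piece E2a) turns it into `heckeHom ℓ φ = χ(T_ℓ) • φ`.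
-/





set_option autoImplicit false

open CongruenceSubgroup ModularCurve ModularCurve.Period
open scoped MatrixGroups

namespace Fermat.Agent.S30.H829

/-- `SL(2, ℤ)` is finitely generated (by `S` and `T`). -/
instance instGroupFGSL2Z : Group.FG SL(2, ℤ) :=
  Group.fg_iff.mpr ⟨{ModularGroup.S, ModularGroup.T}, SpecialLinearGroup.SL2Z_generators,
    Set.toFinite _⟩

/-- `Γ₀(N)` is finitely generated (Schreier). -/
theorem group_fg_Gamma0 (N : ℕ) [NeZero N] : Group.FG (Gamma0 N) := inferInstance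

/-- The period map is injective. -/
theorem periodMap_injective (N : ℕ) [NeZero N] :
    Function.Injective (Fermat.Agent.S21.H381.periodMapLin N) := by
  rw [injective_iff_map_eq_zero]
  intro f hf
  obtain ⟨F, hF⟩ := Fermat.Agent.S21.H381.exists_hasEquivariantPrimitive f
  refine Fermat.Agent.S21.H81.eq_zero_of_re_period_eq_zero N f hF fun γ => ?_
  have h1 := Fermat.Agent.S21.H381.periodMap_apply hF γ UpperHalfPlane.I
  have h2 : periodMap N f (Additive.ofMul γ) = 0 := by
    have := DFunLike.congr_fun hf (Additive.ofMul γ)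
    simpa using this
  rw [← h1, h2]
  rfl

/-- The tautological action of the Hecke algebra on cusp forms. -/
@[reducible] noncomputable def heckeAlgebraModule (N : ℕ) [NeZero N] (S : Set ℕ) :
    Module (CuspForm.heckeAlgebra N 2 S) (CuspForm (Gamma0 N) 2) :=
  Module.compHom (CuspForm (Gamma0 N) 2) (CuspForm.heckeAlgebra N 2 S).val.toRingHom

theorem heckeAlgebraModule_smul (N : ℕ) [NeZero N] (S : Set ℕ)
    (t : CuspForm.heckeAlgebra N 2 S) (f : CuspForm (Gamma0 N) 2) :
    (letI := heckeAlgebraModule N S; t • f) = t.1 f := rfl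

/-- **OCC-adic, core form.**  For every ring homomorphism `χ` from the Hecke algebra to a domain
`O` there is a nonzero parabolic homomorphism `φ : Γ₀(N) → O` such that for every Hecke operator
`t` and all `b, b'` with `periodMap f b' = periodMap (t f) b` for all cusp forms `f`,
`φ b' = χ t * φ b`. -/
theorem exists_eigen_parabolicHom_core (N : ℕ) [NeZero N] (S : Set ℕ)
    {O : Type*} [CommRing O] [IsDomain O] (χ : CuspForm.heckeAlgebra N 2 S →+* O) :
    ∃ φ : Additive (Gamma0 N) →+ O, φ ≠ 0 ∧ IsParabolicHom (Gamma0 N) φ ∧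
      ∀ (t : CuspForm.heckeAlgebra N 2 S) (b b' : Additive (Gamma0 N)),
        (∀ f : CuspForm (Gamma0 N) 2, periodMap N f b' = periodMap N (t.1 f) b) →
          φ b' = χ t * φ b := by
  letI := heckeAlgebraModule N S
  haveI : Group.FG (Gamma0 N) := group_fg_Gamma0 N
  have hfaith : ∀ t : CuspForm.heckeAlgebra N 2 S,
      (∀ f : CuspForm (Gamma0 N) 2, t • f = 0) → t = 0 := by
    intro t ht
    apply Subtype.ext
    apply LinearMap.ext
    intro f
    exact ht f
  obtain ⟨φ, hφ0, hφe, hφv⟩ := exists_eigen_hom (𝕋 := CuspForm.heckeAlgebra N 2 S)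
    (S := CuspForm (Gamma0 N) 2) (K := ℂ) (Γ := Additive (Gamma0 N)) hfaith
    (Fermat.Agent.S21.H381.periodMapLin N).toAddMonoidHom
    (periodMap_injective N) χ
  refine ⟨φ, hφ0, ?_, ?_⟩
  · intro γ hγ
    apply hφv
    intro f
    exact (mem_parabolicHoms_iff.mp (Fermat.Agent.S21.H381.periodMap_mem_parabolicHoms f)) γ hγ
  · intro t b b' h
    exact hφe t b b' h

end Fermat.Agent.S30.H829

end
-- ===== PACK-END S30/H829/OccAdic.lean

-- ===== PACK-BEGIN S30/H829/OccAdicHecke.lean
section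
/-
S30 / p-adic layer (helper829) — piece OCC-adic, final form (`heckeHom` of S29/H201):
for EVERY ring homomorphism `χ : heckeAlgebra N 2 S → O` into a domain `O` (any characteristic:
`p`-adic DVRs, number rings, finite fields, ...) there is a nonzero parabolic homomorphism
`φ : Γ₀(N) → O` with `T_ℓ φ = χ(T_ℓ) • φ` for all primes `ℓ ∤ N`, `ℓ ∉ S`.
-/



set_option autoImplicit false

open CongruenceSubgroup ModularCurve ModularCurve.Period
open scoped MatrixGroups

namespace Fermat.Agent.S30.H829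

open Fermat.Agent.S29.H201

/-- The (ordered) sum in `Additive Γ₀(N)` of the transfer elements of `γ`. -/
noncomputable def trfSum {N : ℕ} (ℓ : ℕ) [Fact ℓ.Prime] (hℓN : ¬ ℓ ∣ N) (γ : Gamma0 N) :
    Additive (Gamma0 N) :=
  ((Finset.univ : Finset (OnePoint (ZMod ℓ))).toList.map
    (fun x => Additive.ofMul (trf hℓN γ x))).sum

theorem map_trfSum {N : ℕ} (ℓ : ℕ) [Fact ℓ.Prime] (hℓN : ¬ ℓ ∣ N) {A : Type*} [AddCommGroup A]
    (ψ : Additive (Gamma0 N) →+ A) (γ : Gamma0 N) :
    ψ (trfSum ℓ hℓN γ) = heckeHom ℓ hℓN A ψ (Additive.ofMul γ) := by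
  rw [heckeHom_apply, trfSum, map_list_sum, List.map_map]
  exact Finset.sum_map_toList (Finset.univ : Finset (OnePoint (ZMod ℓ)))
    (fun x => ψ (Additive.ofMul (trf hℓN γ x)))

/-- **OCC-adic.**  Every ring homomorphism from the Hecke algebra to a domain occurs as a
Hecke eigensystem in `Hom_par(Γ₀(N), O)`. -/
theorem exists_eigen_parabolicHom_adic (N : ℕ) [NeZero N] (S : Set ℕ)
    {O : Type*} [CommRing O] [IsDomain O] (χ : CuspForm.heckeAlgebra N 2 S →+* O) :
    ∃ φ : Additive (Gamma0 N) →+ O, φ ≠ 0 ∧ IsParabolicHom (Gamma0 N) φ ∧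
      ∀ (ℓ : ℕ) [Fact ℓ.Prime] (hℓ : ℓ.Prime) (hℓN : ¬ ℓ ∣ N) (hℓS : ℓ ∉ S),
        heckeHom ℓ hℓN O φ
          = (AddMonoidHom.mulLeft (χ (CuspForm.heckeAlgebra.T hℓ hℓN hℓS))).comp φ := by
  obtain ⟨φ, hφ0, hφpar, hφ⟩ := exists_eigen_parabolicHom_core N S χ
  refine ⟨φ, hφ0, hφpar, ?_⟩
  intro ℓ _ hℓ hℓN hℓS
  ext γ
  have h := hφ (CuspForm.heckeAlgebra.T hℓ hℓN hℓS) γ (trfSum ℓ hℓN (Additive.toMul γ)) (by
    intro f
    rw [map_trfSum, CuspForm.heckeAlgebra.coe_T, periodMap_heckeTLin hℓ hℓN f]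
    rfl)
  rw [map_trfSum] at h
  exact h

end Fermat.Agent.S30.H829

end
-- ===== PACK-END S30/H829/OccAdicHecke.lean

-- ===== PACK-BEGIN S30/H169/OccCoord.lean
section
/-
S30 row -- PIECE `OccCoord` (helper169): `exists_eigen_parLattice_coord`, with EXACTLY the type of
`exists_eigen_parLattice_coord` in `origin/helper49:Fermat/Agent/S30/SkeletonLat.lean`.

Every character `χ` of the Hecke algebra with values in a characteristic-zero domain `R` occurs
in `Hom_par(Γ₀(N), ℤ) ⊗ R`, in coordinates.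

Proof: adapter.  `H829.exists_eigen_parabolicHom_adic` (on main) gives a nonzero parabolic
eigen-homomorphism `φ : Γ₀(N) → R`; its image spans a finitely generated torsion-free, hence free,
`ℤ`-submodule `W ⊆ R`; `c j` are the coordinates of `φ` in a `ℤ`-basis `b j` of `W`, `w j := b j`.
The Hecke operator `heckeCoh` of `S29.DefsM` is the transfer sum of `H201`
(`S29.M4aTop_heckeCoh_eq_sum_trf`, on main).
-/





set_option autoImplicit false

noncomputable section

namespace Fermat.Agent.S30.H169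

open Fermat.Agent.S29 (G0 IsParHom heckeCoh)
open CongruenceSubgroup ModularCurve ModularCurve.Period
open scoped MatrixGroups

/-- PIECE `OccCoord` of the S30 lattice layer. -/
theorem exists_eigen_parLattice_coord (N : ℕ) [NeZero N] (S : Set ℕ) (R : Type) [CommRing R]
    [IsDomain R] [CharZero R] (χ : CuspForm.heckeAlgebra N 2 S →+* R) :
    ∃ (n : ℕ) (w : Fin n → R) (c : Fin n → G0 N → ℤ),
      (∀ j, IsParHom (c j)) ∧ (∃ γ : G0 N, ∑ j, w j * ((c j γ : ℤ) : R) ≠ 0) ∧
      ∀ (ℓ : ℕ) (hℓ : ℓ.Prime) (hℓN : ¬ ℓ ∣ N) (hℓS : ℓ ∉ S) (γ : G0 N),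
        ∑ j, w j * ((heckeCoh N ℓ (c j) γ : ℤ) : R)
          = χ (CuspForm.heckeAlgebra.T hℓ hℓN hℓS) * ∑ j, w j * ((c j γ : ℤ) : R) := by
  classical
  obtain ⟨φ, hφ0, hpar, hecke⟩ := Fermat.Agent.S30.H829.exists_eigen_parabolicHom_adic N S χ
  -- a finite generating set
  obtain ⟨S₀, hS₀, hS₀fin⟩ := Group.fg_iff.mp (Fermat.Agent.S29.M4aTop_fg_Gamma0 N)
  set W : Submodule ℤ R :=
    Submodule.span ℤ ((fun x : Gamma0 N => φ (Additive.ofMul x)) '' S₀) with hW
  have hmem : ∀ γ : Gamma0 N, φ (Additive.ofMul γ) ∈ W :=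
    fun γ => Fermat.Agent.S29.M4aTop_mem_span φ S₀ hS₀ γ
  have : Module.Finite ℤ W := Module.Finite.span_of_finite ℤ (hS₀fin.image _)
  have : Module.Free ℤ W := Module.free_of_finite_type_torsion_free'
  let b := Module.finBasis ℤ W
  -- the coordinates
  let X : G0 N → W := fun γ => ⟨φ (Additive.ofMul γ), hmem γ⟩
  have hXmul : ∀ γ γ' : G0 N, X (γ * γ') = X γ + X γ' := fun γ γ' =>
    Subtype.ext (by simp only [X, ofMul_mul, map_add, Submodule.coe_add])
  have hX0 : ∀ γ : G0 N, φ (Additive.ofMul γ) = 0 → X γ = 0 := fun γ h => Subtype.ext h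
  have hsum : ∀ γ : G0 N, φ (Additive.ofMul γ)
      = ∑ j, (b j : R) * ((b.repr (X γ) j : ℤ) : R) := by
    intro γ
    have h1 := congrArg (fun x : W => (x : R)) (b.sum_repr (X γ))
    simp only [Submodule.coe_sum, Submodule.coe_smul] at h1
    rw [show φ (Additive.ofMul γ) = ((X γ : W) : R) from rfl, ← h1]
    refine Finset.sum_congr rfl fun j _ => ?_
    rw [zsmul_eq_mul, mul_comm]
  refine ⟨Module.finrank ℤ W, fun j => (b j : R), fun j γ => b.repr (X γ) j, ?_, ?_, ?_⟩
  · intro j
    refine ⟨fun γ γ' => ?_, fun γ hγ => ?_, fun γ n hn hγ => ?_⟩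
    · show b.repr (X (γ * γ')) j = b.repr (X γ) j + b.repr (X γ') j
      rw [hXmul, map_add, Finsupp.add_apply]
    · show b.repr (X γ) j = 0
      have h4 : (((γ : Gamma0 N) : SL(2, ℤ)) : Matrix (Fin 2) (Fin 2) ℤ).trace ^ 2 = 4 := by
        have h5 : Fermat.Agent.S29.G0.mat γ
            = (((γ : Gamma0 N) : SL(2, ℤ)) : Matrix (Fin 2) (Fin 2) ℤ) := rfl
        rw [h5] at hγ
        rcases hγ with h | h <;> rw [h] <;> norm_num
      rw [hX0 γ (hpar γ h4), map_zero, Finsupp.zero_apply]
    · show b.repr (X γ) j = 0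
      have h6 : (n : ℤ) • φ (Additive.ofMul γ) = 0 := by
        rw [natCast_zsmul, ← map_nsmul, ← ofMul_pow, hγ, ofMul_one, map_zero]
      have h7 : φ (Additive.ofMul γ) = 0 := by
        rw [zsmul_eq_mul] at h6
        rcases mul_eq_zero.mp h6 with h | h
        · exact absurd (by exact_mod_cast h) hn.ne'
        · exact h
      rw [hX0 γ h7, map_zero, Finsupp.zero_apply]
  · by_contra hcon
    rw [not_exists] at hcon
    apply hφ0
    ext γ
    have h8 := hsum (Additive.toMul γ)
    have h9 := not_not.mp (hcon (Additive.toMul γ))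
    show φ (Additive.ofMul (Additive.toMul γ)) = 0
    rw [h8]
    exact h9
  · intro ℓ hℓ hℓN hℓS γ
    have : Fact ℓ.Prime := ⟨hℓ⟩
    have hk := hecke ℓ hℓ hℓN hℓS
    have h10 : ∀ j, ((heckeCoh N ℓ (fun γ => b.repr (X γ) j) γ : ℤ) : R)
        = ∑ x : OnePoint (ZMod ℓ),
            ((b.repr (X (Fermat.Agent.S29.H201.trf hℓN γ x)) j : ℤ) : R) := by
      intro j
      rw [Fermat.Agent.S29.M4aTop_heckeCoh_eq_sum_trf hℓN]
      push_cast
      rfl
    calc ∑ j, (b j : R) * ((heckeCoh N ℓ (fun γ => b.repr (X γ) j) γ : ℤ) : R)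
        = ∑ j, ∑ x : OnePoint (ZMod ℓ),
            (b j : R) * ((b.repr (X (Fermat.Agent.S29.H201.trf hℓN γ x)) j : ℤ) : R) := by
          refine Finset.sum_congr rfl fun j _ => ?_
          rw [h10 j, Finset.mul_sum]
      _ = ∑ x : OnePoint (ZMod ℓ), φ (Additive.ofMul (Fermat.Agent.S29.H201.trf hℓN γ x)) := by
          rw [Finset.sum_comm]
          refine Finset.sum_congr rfl fun x _ => ?_
          rw [hsum]
      _ = Fermat.Agent.S29.H201.heckeHom ℓ hℓN R φ (Additive.ofMul γ) := by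
          rw [Fermat.Agent.S29.H201.heckeHom_apply]
      _ = χ (CuspForm.heckeAlgebra.T hℓ hℓN hℓS) * φ (Additive.ofMul γ) := by
          rw [hk]
          rfl
      _ = χ (CuspForm.heckeAlgebra.T hℓ hℓN hℓS)
            * ∑ j, (b j : R) * ((b.repr (X γ) j : ℤ) : R) := by
          rw [hsum]

end Fermat.Agent.S30.H169

end

end
-- ===== PACK-END S30/H169/OccCoord.lean

-- ===== PACK-BEGIN S29/HCoh.lean
section



/-!
# S29 layer M, piece `HCoh` (wrapper with the exact skeleton statement; proof in `H149/HCoh.lean`)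
-/

set_option autoImplicit false

noncomputable section

namespace Fermat.Agent.S29

open ModularCurve AlgebraicCurve Polynomial
open scoped TensorProduct

section

variable (N : ℕ) [NeZero N]

/-- PIECE `HCoh` (pure group theory): for a prime `ℓ ∤ N` the factorisation `heckeFac` exists, is
unique, permutes the index set, and `heckeCoh` preserves parabolic characters. -/
theorem isParHom_heckeCoh {ℓ : ℕ} (hℓ : ℓ.Prime) (hℓN : ¬ ℓ ∣ N) {A : Type*} [AddCommGroup A]
    {c : G0 N → A} (hc : IsParHom c) : IsParHom (heckeCoh N ℓ c) :=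
  H149.isParHom_heckeCoh hℓ hℓN hc

end

end Fermat.Agent.S29

end
end
-- ===== PACK-END S29/HCoh.lean

-- ===== PACK-BEGIN S30/H330/AdicAssembly.lean
section
/-
S30 -- ADIC MODULE LAYER, pieces 2-4 (helper330): eigenvector, finiteness of `J[p]`, assembly.
`hasAdicFrobModule_of_inputs` : (K) + (P) + (T) + (Sm) + (GH)  ⟹  `HasAdicFrobModule`.
-/



set_option autoImplicit false

noncomputable section

namespace Fermat.Agent.S30.H330

open Fermat.Agent.S29 ModularCurve
open scoped MatrixGroups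

/-! ### Generalities on parabolic characters -/

section ParHom

variable {N : ℕ}

theorem isParHom_zero {A : Type*} [AddCommGroup A] : IsParHom (0 : G0 N → A) :=
  ⟨fun _ _ => by simp, fun _ _ => rfl, fun _ _ _ _ => rfl⟩

theorem isParHom_add {A : Type*} [AddCommGroup A] {c c' : G0 N → A} (hc : IsParHom c)
    (hc' : IsParHom c') : IsParHom (c + c') :=
  ⟨fun γ γ' => by simp only [Pi.add_apply, hc.map_mul, hc'.map_mul]; abel,
    fun γ h => by simp only [Pi.add_apply, hc.parabolic γ h, hc'.parabolic γ h, add_zero],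
    fun γ n hn h => by
      simp only [Pi.add_apply, hc.elliptic γ n hn h, hc'.elliptic γ n hn h, add_zero]⟩

theorem isParHom_nsmul {A : Type*} [AddCommGroup A] {c : G0 N → A} (hc : IsParHom c) (n : ℕ) :
    IsParHom (n • c) := by
  induction n with
  | zero => rw [zero_nsmul]; exact isParHom_zero
  | succ n ih => rw [succ_nsmul]; exact isParHom_add ih hc

/-- Push-forward of a parabolic character along an additive map. -/
theorem isParHom_comp {A B : Type*} [AddCommGroup A] [AddCommGroup B] {c : G0 N → A}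
    (hc : IsParHom c) (φ : A →+ B) : IsParHom (fun γ => φ (c γ)) :=
  ⟨fun γ γ' => by simp only [hc.map_mul, map_add],
    fun γ h => by simp only [hc.parabolic γ h, map_zero],
    fun γ n hn h => by simp only [hc.elliptic γ n hn h, map_zero]⟩

theorem isParHom_map_one {A : Type*} [AddCommGroup A] {c : G0 N → A} (hc : IsParHom c) :
    c 1 = 0 := by
  have := hc.map_mul 1 1
  rw [mul_one] at this
  exact left_eq_add.mp this

theorem heckeCoh_comp {A B : Type*} [AddCommGroup A] [AddCommGroup B] (ℓ : ℕ) (c : G0 N → A)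
    (φ : A →+ B) : heckeCoh N ℓ (fun γ => φ (c γ)) = fun γ => φ (heckeCoh N ℓ c γ) := by
  funext γ
  simp only [heckeCoh, map_sum]

end ParHom

/-! ### Consequences of the Kummer statement -/

section Kummer

variable {N : ℕ}

theorem kummer_zero {κ : (G0 N → QZ) → JZero N}
    (hadd : ∀ c c', IsParHom c → IsParHom c' → κ (c + c') = κ c + κ c') : κ 0 = 0 := by
  have := hadd 0 0 isParHom_zero isParHom_zero
  rw [add_zero] at this
  exact left_eq_add.mp this

theorem kummer_nsmul {κ : (G0 N → QZ) → JZero N}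
    (hadd : ∀ c c', IsParHom c → IsParHom c' → κ (c + c') = κ c + κ c') {c : G0 N → QZ}
    (hc : IsParHom c) (n : ℕ) : κ (n • c) = n • κ c := by
  induction n with
  | zero => rw [zero_nsmul, zero_nsmul]; exact kummer_zero hadd
  | succ n ih => rw [succ_nsmul, succ_nsmul, hadd _ _ (isParHom_nsmul hc n) hc, ih]

end Kummer

/-! ### Piece 3: finiteness of the `p`-torsion -/

section Fin

variable {N : ℕ} [NeZero N]

theorem fg_SL2Z : Group.FG SL(2, ℤ) := by
  rw [Group.fg_iff]
  exact ⟨{ModularGroup.S, ModularGroup.T}, SpecialLinearGroup.SL2Z_generators,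
    Set.toFinite _⟩

theorem fg_G0 : Group.FG (G0 N) := by
  have := fg_SL2Z
  exact Subgroup.fg_of_index_ne_zero (CongruenceSubgroup.Gamma0 N)

/-- The `p`-torsion of `ℚ/ℤ` is finite. -/
theorem finite_QZ_torsion {p : ℕ} (hp : p.Prime) : {y : QZ | p • y = 0}.Finite := by
  have h1 := AddCircle.finite_setOfPred_addOrderOf_eq (1 : ℚ) (n := 1) one_pos
  have hp' := AddCircle.finite_setOfPred_addOrderOf_eq (1 : ℚ) (n := p) hp.pos
  refine (h1.union hp').subset ?_
  intro y hy
  have hdvd : addOrderOf y ∣ p := addOrderOf_dvd_of_nsmul_eq_zero hy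
  rcases (Nat.dvd_prime hp).mp hdvd with h | h
  · exact Or.inl h
  · exact Or.inr h

/-- A parabolic character as a monoid homomorphism. -/
def parHomToMonoidHom {c : G0 N → QZ} (hc : IsParHom c) : G0 N →* Multiplicative QZ where
  toFun γ := Multiplicative.ofAdd (c γ)
  map_one' := by rw [isParHom_map_one hc]; rfl
  map_mul' γ γ' := by rw [hc.map_mul]; rfl

omit [NeZero N] in
theorem parHom_ext {S₀ : Set (G0 N)} (hS₀ : Subgroup.closure S₀ = ⊤) {c c' : G0 N → QZ}
    (hc : IsParHom c) (hc' : IsParHom c') (h : ∀ s ∈ S₀, c s = c' s) : c = c' := by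
  have heq : parHomToMonoidHom hc = parHomToMonoidHom hc' := by
    refine MonoidHom.eq_of_eqOn_dense hS₀ ?_
    intro s hs
    show Multiplicative.ofAdd (c s) = Multiplicative.ofAdd (c' s)
    rw [h s hs]
  funext γ
  have := congrArg (fun φ : G0 N →* Multiplicative QZ => Multiplicative.toAdd (φ γ)) heq
  exact this

/-- The set of parabolic characters of exponent `p` is finite. -/
theorem finite_parHom_torsion {p : ℕ} (hp : p.Prime) :
    {c : G0 N → QZ | IsParHom c ∧ p • c = 0}.Finite := by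
  classical
  obtain ⟨S₀, hS₀, hS₀fin⟩ := Group.fg_iff.mp (fg_G0 (N := N))
  have : Finite S₀ := hS₀fin.to_subtype
  let f : (G0 N → QZ) → (S₀ → QZ) := fun c s => c s
  refine Set.Finite.of_finite_image (f := f) ?_ ?_
  · refine (Set.Finite.pi (t := fun _ : S₀ => {y : QZ | p • y = 0})
      (fun _ => finite_QZ_torsion hp)).subset ?_
    rintro _ ⟨c, ⟨-, hc⟩, rfl⟩
    intro s _
    show p • c s = 0
    have := congrFun hc s
    simpa using this
  · rintro c ⟨hc, -⟩ c' ⟨hc', -⟩ h
    refine parHom_ext hS₀ hc hc' fun s hs => ?_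
    exact congrFun h ⟨s, hs⟩

/-- PIECE 3: finiteness of the `p`-torsion of `J₀(N)(ℚ̄)`. -/
theorem finite_torsion {p : ℕ} [Fact p.Prime] (hK : KummerStatement N p) :
    {x : JZero N | p • x = 0}.Finite := by
  obtain ⟨κ, hadd, hinj, hsurj, -⟩ := hK
  refine ((finite_parHom_torsion (N := N) (Fact.out : p.Prime)).image κ).subset ?_
  intro x hx
  obtain ⟨c, hc, rfl⟩ := hsurj x ⟨1, by simpa using hx⟩
  refine ⟨c, ⟨hc, ?_⟩, rfl⟩
  apply hinj _ (isParHom_nsmul hc p)
  rw [kummer_nsmul hadd hc]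
  exact hx

end Fin

/-! ### Piece 2: the eigenvector -/

section Eigen

/-- A nonzero additive character `ϑ : L → ℚ/ℤ` killing `O`, with `ϑ(1/ϖ) ≠ 0`. -/
theorem exists_character {O : Type} [CommRing O] [IsDomain O] {ϖ : O} (hϖ : Irreducible ϖ) :
    ∃ ϑ : FractionRing O →+ QZ, (∀ r : O, ϑ (algebraMap O (FractionRing O) r) = 0) ∧
      ϑ ((algebraMap O (FractionRing O) ϖ)⁻¹) ≠ 0 := by
  let Osub : AddSubgroup (FractionRing O) := (algebraMap O (FractionRing O)).toAddMonoidHom.range
  have hne : (QuotientAddGroup.mk ((algebraMap O (FractionRing O) ϖ)⁻¹) : FractionRing O ⧸ Osub)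
      ≠ 0 := by
    intro h
    rw [QuotientAddGroup.eq_zero_iff] at h
    obtain ⟨r, hr⟩ := h
    have hϖ0 : algebraMap O (FractionRing O) ϖ ≠ 0 := algebraMap_irreducible_ne_zero hϖ
    have h1 : algebraMap O (FractionRing O) (r * ϖ) = algebraMap O (FractionRing O) 1 := by
      rw [map_mul, map_one]
      have : algebraMap O (FractionRing O) r = (algebraMap O (FractionRing O) ϖ)⁻¹ := hr
      rw [this, inv_mul_cancel₀ hϖ0]
    have h2 : r * ϖ = 1 := IsFractionRing.injective O (FractionRing O) h1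
    exact hϖ.not_isUnit (IsUnit.of_mul_eq_one r (by rw [mul_comm]; exact h2))
  obtain ⟨ϑ₀, hϑ₀⟩ := CharacterModule.exists_character_apply_ne_zero_of_ne_zero hne
  refine ⟨(show (FractionRing O ⧸ Osub) →+ QZ from ϑ₀).comp (QuotientAddGroup.mk' Osub),
    fun r => ?_, hϑ₀⟩
  show ϑ₀ (QuotientAddGroup.mk (algebraMap O (FractionRing O) r)) = 0
  have : (QuotientAddGroup.mk (algebraMap O (FractionRing O) r) : FractionRing O ⧸ Osub) = 0 := by
    rw [QuotientAddGroup.eq_zero_iff]
    exact ⟨r, rfl⟩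
  rw [this, map_zero]

theorem eigenvalue_eq {N : ℕ} [NeZero N] {S : Finset ℕ} {O : Type} [CommRing O]
    (χ : CuspForm.heckeAlgebra N 2 (↑S : Set ℕ) →+* O) {ℓ : ℕ} (hℓ : ℓ.Prime) (hℓN : ¬ ℓ ∣ N)
    (hℓS : ℓ ∉ (↑S : Set ℕ)) : eigenvalue χ ℓ = χ (CuspForm.heckeAlgebra.T hℓ hℓN hℓS) := by
  unfold eigenvalue
  rw [dif_pos ⟨hℓ, hℓN, hℓS⟩]

/-- PIECE 2: the eigenvector `f(x) = κ(γ ↦ ϑ(c(γ) x))`. -/
theorem exists_eigenHom {p : ℕ} [Fact p.Prime] {N : ℕ} [NeZero N] {S : Finset ℕ}
    (hpS : p ∈ S) (hNS : ∀ q : ℕ, q.Prime → q ∣ N → q ∈ S)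
    {O : Type} [CommRing O] [IsDomain O] [IsDiscreteValuationRing O]
    (χ : CuspForm.heckeAlgebra N 2 (↑S : Set ℕ) →+* O)
    (hK : KummerStatement N p) (hP : ParEigenStatement N S O χ) :
    ∃ f : FractionRing O →+ JZero N,
      (∀ r : O, f (algebraMap O (FractionRing O) r) = 0) ∧ f ≠ 0 ∧
      ∀ (ℓ : Nat.Primes), (ℓ : ℕ) ∉ S → ∀ x,
        heckeOperatorBar N ℓ (f x) =
          f (algebraMap O (FractionRing O) (eigenvalue χ ℓ) * x) := by
  classical
  obtain ⟨κ, hadd, hinj, -, hhecke⟩ := hK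
  obtain ⟨c, hc, hc0, hceig⟩ := hP
  obtain ⟨ϖ, hϖ⟩ := IsDiscreteValuationRing.exists_irreducible O
  obtain ⟨ϑ, hϑ0, hϑ1⟩ := exists_character hϖ
  -- the additive map `r ↦ ϑ (r x)`
  let φ : FractionRing O → (O →+ QZ) := fun x =>
    ϑ.comp ((AddMonoidHom.mulRight x).comp (algebraMap O (FractionRing O)).toAddMonoidHom)
  have hφ : ∀ x r, φ x r = ϑ (algebraMap O (FractionRing O) r * x) := fun x r => rfl
  let cx : FractionRing O → (G0 N → QZ) := fun x γ => φ x (c γ)
  have hcx : ∀ x, IsParHom (cx x) := fun x => isParHom_comp hc (φ x)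
  have hcx_add : ∀ x y, cx (x + y) = cx x + cx y := by
    intro x y
    funext γ
    show φ (x + y) (c γ) = φ x (c γ) + φ y (c γ)
    rw [hφ, hφ, hφ, mul_add, map_add]
  let f : FractionRing O →+ JZero N := AddMonoidHom.mk' (fun x => κ (cx x)) (fun x y => by
    show κ (cx (x + y)) = κ (cx x) + κ (cx y)
    rw [hcx_add, hadd _ _ (hcx x) (hcx y)])
  have hf : ∀ x, f x = κ (cx x) := fun x => rfl
  refine ⟨f, fun r => ?_, ?_, fun ℓ hℓS x => ?_⟩
  · rw [hf]
    have : cx (algebraMap O (FractionRing O) r) = 0 := by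
      funext γ
      show φ _ (c γ) = 0
      rw [hφ, ← map_mul]
      exact hϑ0 _
    rw [this]
    exact kummer_zero hadd
  · intro hf0
    obtain ⟨γ₀, hγ₀⟩ : ∃ γ₀, c γ₀ ≠ 0 := by
      by_contra h
      push Not at h
      exact hc0 (funext h)
    have hcγ : algebraMap O (FractionRing O) (c γ₀) ≠ 0 := by
      simpa using hγ₀
    set x₀ : FractionRing O :=
      (algebraMap O (FractionRing O) (c γ₀))⁻¹ * (algebraMap O (FractionRing O) ϖ)⁻¹ with hx₀
    have h1 : κ (cx x₀) = 0 := by
      rw [← hf, hf0]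
      rfl
    have h2 := hinj _ (hcx x₀) h1
    have h3 : cx x₀ γ₀ = 0 := by rw [h2]; rfl
    apply hϑ1
    have h4 : cx x₀ γ₀ = ϑ ((algebraMap O (FractionRing O) ϖ)⁻¹) := by
      show φ x₀ (c γ₀) = _
      rw [hφ, hx₀, mul_inv_cancel_left₀ hcγ]
    rw [← h4, h3]
  · have hℓ : (ℓ : ℕ).Prime := ℓ.2
    have hℓN : ¬ (ℓ : ℕ) ∣ N := fun h => hℓS (hNS _ hℓ h)
    have hℓS' : (ℓ : ℕ) ∉ (↑S : Set ℕ) := by simpa using hℓS
    have hℓNp : ¬ (ℓ : ℕ) ∣ N * p := by
      intro h
      rcases (Nat.Prime.dvd_mul hℓ).mp h with h | h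
      · exact hℓN h
      · have : (ℓ : ℕ) = p := (Nat.prime_dvd_prime_iff_eq hℓ (Fact.out : p.Prime)).mp h
        exact hℓS (this ▸ hpS)
    rw [hf, hf, ← hhecke ℓ hℓNp _ (hcx x)]
    congr 1
    rw [show cx x = fun γ => φ x (c γ) from rfl, heckeCoh_comp]
    funext γ
    show φ x (heckeCoh N ℓ c γ) = φ _ (c γ)
    rw [hφ, hφ, hceig ℓ hℓ hℓN hℓS' γ, eigenvalue_eq χ hℓ hℓN hℓS']
    congr 1
    rw [map_mul (algebraMap O (FractionRing O))]
    ring

end Eigen

/-! ### Piece 4: assembly -/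

/-- ASSEMBLY of the adic module layer: (K) + (P) + (T) + (Sm) + (GH) ⟹ `HasAdicFrobModule`. -/
theorem hasAdicFrobModule_of_inputs {p : ℕ} [Fact p.Prime] {N : ℕ} [NeZero N] {S : Finset ℕ}
    (hpS : p ∈ S) (hNS : ∀ q : ℕ, q.Prime → q ∣ N → q ∈ S)
    {O : Type} [CommRing O] [IsDomain O] [IsDiscreteValuationRing O]
    [IsAdicComplete (IsLocalRing.maximalIdeal O) O] [Finite (IsLocalRing.ResidueField O)]
    [CharZero O] (hpO : (p : O) ∈ IsLocalRing.maximalIdeal O)
    (χ : CuspForm.heckeAlgebra N 2 (↑S : Set ℕ) →+* O)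
    (hK : KummerStatement N p) (hP : ParEigenStatement N S O χ) (hT : TorsionRelations N p)
    (hSm : SmoothStatement N) (hGH : GaloisHeckeStatement N) :
    HasAdicFrobModule O (N * p) (fun ℓ => ℓ ∉ S) (eigenvalue χ) := by
  classical
  obtain ⟨f, hf0, hf, hfe⟩ := exists_eigenHom hpS hNS χ hK hP
  have hfin := finite_torsion hK
  -- index set of Hecke operators
  let t : {ℓ : Nat.Primes // (ℓ : ℕ) ∉ S} → JZero N →+ JZero N := fun i =>
    (heckeOperatorBar N i.1).toAddMonoidHom
  let a : {ℓ : Nat.Primes // (ℓ : ℕ) ∉ S} → O := fun i => eigenvalue χ (i.1 : ℕ)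
  have ht : ∀ i (σ : GQ) (x : JZero N), σ • t i x = t i (σ • x) := fun i σ x => hGH σ i.1 x
  obtain ⟨M, i1, i2, i3, i4, ρ, hnt, hcont, hunr, hquad⟩ :=
    adicModule_of_torsion (J := JZero N) (Fact.out : p.Prime) hpO (fun x => hSm x) hfin t ht a f
      hf0 hf (fun i x => hfe i.1 i.2 x)
  refine ⟨M, i1, i2, i3, i4, ρ, hnt, hcont, ?_, ?_⟩
  · intro ℓ hℓ hℓNp A hA σ hσ
    exact hunr σ fun x hx => (hT ℓ hℓ hℓNp A hA).1 σ hσ x hx
  · intro ℓ hℓ hℓS A hA σ hσ
    have hℓN : ¬ ℓ ∣ N := fun h => hℓS (hNS _ hℓ h)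
    have hℓNp : ¬ ℓ ∣ N * p := by
      intro h
      rcases (Nat.Prime.dvd_mul hℓ).mp h with h | h
      · exact hℓN h
      · have : ℓ = p := (Nat.prime_dvd_prime_iff_eq hℓ (Fact.out : p.Prime)).mp h
        exact hℓS (this ▸ hpS)
    exact hquad ⟨⟨ℓ, hℓ⟩, hℓS⟩ ℓ σ fun x hx => (hT ℓ hℓ hℓNp A hA).2 σ hσ x hx

end Fermat.Agent.S30.H330

end
end
-- ===== PACK-END S30/H330/AdicAssembly.lean

-- ===== PACK-BEGIN S28/H867/Transfer.lean
section



set_option autoImplicit false
noncomputable section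
open ModularCurve HahnSeries IntermediateField Polynomial

namespace Fermat.Agent.S28.H867

section Transfer

variable (k : Type*) [Field k]

/-- `coeffMap` commutes with `evalAt`. -/
theorem coeffMap_comp_evalAt (y : LaurentSeries ℤ) :
    (coeffMap (Int.castRingHom k)).comp (evalAt y) = evalAt (coeffMap (Int.castRingHom k) y) := by
  apply Polynomial.ringHom_ext
  · intro a
    simp [evalAt]
  · simp [evalAt]

/-- `qExpand` commutes with `evalAt`. -/
theorem qExpand_comp_evalAt (p : ℕ) [NeZero p] (y : LaurentSeries k) :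
    (qExpand k p).comp (evalAt y) = evalAt (qExpand k p y) := by
  apply Polynomial.ringHom_ext
  · intro a
    simp [evalAt]
  · simp [evalAt]

variable {k} in
theorem eval₂_evalAt_transfer (Φ : Polynomial (Polynomial ℤ)) (y x : LaurentSeries ℤ)
    (h : Φ.eval₂ (evalAt y) x = 0) :
    Φ.eval₂ (evalAt (coeffMap (Int.castRingHom k) y)) (coeffMap (Int.castRingHom k) x) = 0 := by
  rw [← coeffMap_comp_evalAt, ← Polynomial.hom_eval₂, h, map_zero]

variable {k} in
theorem eval₂_evalAt_qExpand (p : ℕ) [NeZero p] (Φ : Polynomial (Polynomial ℤ))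
    (y x : LaurentSeries k) (h : Φ.eval₂ (evalAt y) x = 0) :
    Φ.eval₂ (evalAt (qExpand k p y)) (qExpand k p x) = 0 := by
  rw [← qExpand_comp_evalAt, ← Polynomial.hom_eval₂, h, map_zero]

theorem coeffMap_jp (p : ℕ) [NeZero p] :
    coeffMap (Int.castRingHom k) (qExpand ℤ p (jqModC ℤ)) = jp k p := by
  rw [coeffMap_qExpand, coeffMap_jqModC]

/-- `Φ_p(j_p, j) = 0` over `k`. -/
theorem modPoly_eval_jp_field {p : ℕ} [NeZero p] (D : ModPolyData p) :
    D.Φ.eval₂ (evalAt (jqModC k)) (jp k p) = 0 := by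
  have := eval₂_evalAt_transfer (k := k) D.Φ _ _ D.eval_jp
  rwa [coeffMap_jp, coeffMap_jqModC] at this

/-- `Φ_p(j, j_p) = 0` over `k`. -/
theorem modPoly_eval_j_field {p : ℕ} [NeZero p] (D : ModPolyData p) :
    D.Φ.eval₂ (evalAt (jp k p)) (jqModC k) = 0 := by
  have := eval₂_evalAt_transfer (k := k) D.Φ _ _ D.eval_j
  rwa [coeffMap_jp, coeffMap_jqModC] at this

end Transfer

section PolyOver

variable {k : Type*} [Field k]

/-- The polynomial `Φ(X, y)` with coefficients in a subfield `A ∋ y`. -/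
def polyOver (A : IntermediateField k (LaurentSeries k)) (y : A) (Φ : Polynomial (Polynomial ℤ)) :
    Polynomial A :=
  Φ.map (Polynomial.aeval (R := ℤ) y).toRingHom

theorem polyOver_monic (A : IntermediateField k (LaurentSeries k)) (y : A)
    {Φ : Polynomial (Polynomial ℤ)} (h : Φ.Monic) : (polyOver A y Φ).Monic :=
  h.map _

theorem polyOver_natDegree (A : IntermediateField k (LaurentSeries k)) (y : A)
    {Φ : Polynomial (Polynomial ℤ)} (h : Φ.Monic) : (polyOver A y Φ).natDegree = Φ.natDegree :=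
  h.natDegree_map _

theorem aeval_polyOver (A : IntermediateField k (LaurentSeries k)) (y : A)
    (Φ : Polynomial (Polynomial ℤ)) (x : LaurentSeries k) :
    Polynomial.aeval x (polyOver A y Φ) = Φ.eval₂ (evalAt (y : LaurentSeries k)) x := by
  rw [polyOver, Polynomial.aeval_def, Polynomial.eval₂_map]
  congr 1
  apply Polynomial.ringHom_ext
  · intro a
    simp [evalAt]
  · simp [evalAt]

end PolyOver

end Fermat.Agent.S28.H867

end
end
-- ===== PACK-END S28/H867/Transfer.lean

-- ===== PACK-BEGIN S28/H867/Prime.lean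
section



set_option autoImplicit false
noncomputable section
open ModularCurve HahnSeries IntermediateField Polynomial

namespace Fermat.Agent.S28.H867

section Prime

variable (k : Type*) [Field k]

theorem jq_mem_jField : jqModC k ∈ jField k := mem_adjoin_simple_self k _

theorem jp_mem_jpField (p : ℕ) [NeZero p] : jp k p ∈ jpField k p := mem_adjoin_simple_self k _

theorem jpField_le_fieldRange (p : ℕ) [NeZero p] :
    jpField k p ≤ (qExpandAlgHomC k p).fieldRange := by
  rw [jpField, adjoin_simple_le_iff]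
  exact ⟨jqModC k, rfl⟩

theorem qExpand_injective' (p : ℕ) [NeZero p] : Function.Injective (qExpand k p) :=
  (qExpand k p).injective

/-- natDegree of the minimal polynomial of `j` over a subfield of `range V_p` is `≥ p`. -/
theorem le_natDegree_minpoly {p : ℕ} [NeZero p] (hI : LeafI k p)
    (B : IntermediateField k (LaurentSeries k)) (hB : B ≤ (qExpandAlgHomC k p).fieldRange)
    (hint : IsIntegral B (jqModC k)) : p ≤ (minpoly B (jqModC k)).natDegree := by
  rw [← relfinrank_sup_adjoin_simple B hint]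
  refine le_relfinrank_of_linearIndependent le_sup_left ?_ _ ?_ (hI B hB)
  · rw [relfinrank_sup_adjoin_simple B hint]
    exact (minpoly.natDegree_pos hint).ne'
  · intro i
    exact pow_mem ((le_sup_right : adjoin k {jqModC k} ≤ _) (mem_adjoin_simple_self k _)) _

theorem primeLevel_of_leaves {p : ℕ} [NeZero p] (hp : p.Prime) (D : ModPolyData p)
    (hI : LeafI k p) (hB1 : LeafB1 k p) : PrimeLevel k p := by
  set j := jqModC k with hj
  set A := jpField k p with hA
  set R := (qExpandAlgHomC k p).fieldRange with hR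
  have hAR : A ≤ R := jpField_le_fieldRange k p
  let y : A := ⟨jp k p, jp_mem_jpField k p⟩
  set ΦA := polyOver A y D.Φ with hΦA
  have hΦmonic : ΦA.Monic := polyOver_monic A y D.monic
  have hΦdeg : ΦA.natDegree = p + 1 := by
    rw [hΦA, polyOver_natDegree A y D.monic, D.natDegree_eq]
  have hΦj : Polynomial.aeval j ΦA = 0 := by
    rw [hΦA, aeval_polyOver]; exact modPoly_eval_j_field k D
  have hΦjpp : Polynomial.aeval (qExpand k p (jp k p)) ΦA = 0 := by
    rw [hΦA, aeval_polyOver]
    exact eval₂_evalAt_qExpand p D.Φ _ _ (modPoly_eval_jp_field k D)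
  have hint : IsIntegral A j := ⟨ΦA, hΦmonic, by rwa [Polynomial.aeval_def] at hΦj⟩
  set m := minpoly A j with hm
  have hmdvd : m ∣ ΦA := minpoly.dvd A j hΦj
  have hmmonic : m.Monic := minpoly.monic hint
  have hmle : m.natDegree ≤ p + 1 := by
    rw [← hΦdeg]
    exact Polynomial.natDegree_le_of_dvd hmdvd hΦmonic.ne_zero
  have hmge : p ≤ m.natDegree := le_natDegree_minpoly k hI A hAR hint
  -- the key step: the degree is not `p`
  have hmne : m.natDegree ≠ p := by
    intro hmp
    obtain ⟨c, hc⟩ := hmdvd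
    have hcmonic : c.Monic := hmmonic.of_mul_monic_left (hc ▸ hΦmonic)
    have hcdeg : c.natDegree = 1 := by
      have := congrArg Polynomial.natDegree hc
      rw [hmmonic.natDegree_mul hcmonic, hΦdeg, hmp] at this
      omega
    have hroot : Polynomial.aeval (qExpand k p (jp k p)) m *
        Polynomial.aeval (qExpand k p (jp k p)) c = 0 := by
      rw [← map_mul, ← hc, hΦjpp]
    rcases mul_eq_zero.mp hroot with h0 | h0
    · -- `j_{p²}` is a root of `m`, but `m` is irreducible of degree `p ≥ 2` over `R`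
      set incl : A →+* R := (IntermediateField.inclusion hAR).toRingHom with hincl
      have hcomp : (algebraMap R (LaurentSeries k)).comp incl = algebraMap A (LaurentSeries k) :=
        rfl
      set m' := m.map incl with hm'
      have hm'monic : m'.Monic := hmmonic.map _
      have hm'deg : m'.natDegree = p := by rw [hm', hmmonic.natDegree_map, hmp]
      have hm'eval : ∀ x : LaurentSeries k, Polynomial.aeval x m' = Polynomial.aeval x m := by
        intro x
        rw [hm', Polynomial.aeval_def, Polynomial.eval₂_map, hcomp, ← Polynomial.aeval_def]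
      have hintR : IsIntegral R j := by
        refine ⟨m', hm'monic, ?_⟩
        rw [← Polynomial.aeval_def, hm'eval]
        exact minpoly.aeval A j
      have hdvd : minpoly R j ∣ m' := minpoly.dvd R j (by rw [hm'eval]; exact minpoly.aeval A j)
      have hge : p ≤ (minpoly R j).natDegree := le_natDegree_minpoly k hI R le_rfl hintR
      have heq : m' = minpoly R j :=
        Polynomial.eq_of_monic_of_dvd_of_natDegree_le (minpoly.monic hintR) hm'monic hdvd
          (by rw [hm'deg]; exact hge)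
      have hirr : Irreducible m' := heq ▸ minpoly.irreducible hintR
      let r : R := ⟨qExpand k p (jp k p), ⟨jp k p, rfl⟩⟩
      have hr : m'.IsRoot r := by
        have h1 : Polynomial.aeval (algebraMap R (LaurentSeries k) r) m' = 0 := by
          rw [hm'eval]; exact h0
        rw [Polynomial.aeval_algebraMap_apply] at h1
        have h3 : Polynomial.aeval r m' = 0 :=
          (algebraMap R (LaurentSeries k)).injective (by rw [h1, map_zero])
        simpa [Polynomial.IsRoot] using h3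
      have hdeg1 := Polynomial.degree_eq_one_of_irreducible_of_root hirr hr
      have : m'.natDegree = 1 := Polynomial.natDegree_eq_of_degree_eq_some hdeg1
      have h2 := hp.two_le
      omega
    · -- `j_{p²} ∈ A`, hence `j_p ∈ k(j)`
      have hc' : c = Polynomial.X + Polynomial.C (c.coeff 0) :=
        hcmonic.eq_X_add_C hcdeg
      rw [hc'] at h0
      simp only [map_add, Polynomial.aeval_X, Polynomial.aeval_C] at h0
      have hmem : qExpand k p (jp k p) ∈ A := by
        have : qExpand k p (jp k p) = -(algebraMap A (LaurentSeries k) (c.coeff 0)) :=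
          eq_neg_of_add_eq_zero_left h0
        rw [this]
        exact neg_mem (c.coeff 0).2
      rw [hA, jpField_eq_map] at hmem
      obtain ⟨x, hx, hxe⟩ := hmem
      have : x = jp k p := qExpand_injective' k p hxe
      exact hB1 (this ▸ hx)
  have hmdeg : m.natDegree = p + 1 := by omega
  have hmΦ : ΦA = m :=
    Polynomial.eq_of_monic_of_dvd_of_natDegree_le hmmonic hΦmonic hmdvd (by rw [hΦdeg, hmdeg])
  have hdeg_jp : A.relfinrank (jField k ⊔ A) = p + 1 := by
    rw [sup_comm, jField, relfinrank_sup_adjoin_simple A hint, ← hm, hmdeg]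
  refine ⟨?_, hdeg_jp⟩
  -- transport along `V_p`
  set x := qExpand k p (jp k p) with hx
  have hintx : IsIntegral A x := ⟨ΦA, hΦmonic, by rwa [Polynomial.aeval_def] at hΦjpp⟩
  have hirr : Irreducible ΦA := hmΦ ▸ minpoly.irreducible hint
  have hminx : ΦA = minpoly A x := minpoly.eq_of_irreducible_of_monic hirr hΦjpp hΦmonic
  have h1 : A.relfinrank (A ⊔ adjoin k {x}) = p + 1 := by
    rw [relfinrank_sup_adjoin_simple A hintx, ← hminx, hΦdeg]
  have h2 : A ⊔ adjoin k {x} = (jField k ⊔ jpField k p).map (qExpandAlgHomC k p) := by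
    rw [IntermediateField.map_sup, ← jpField_eq_map, jpField, adjoin_map, Set.image_singleton]
    rfl
  rw [h2, hA, jpField_eq_map, relfinrank_map_map] at h1
  rw [jpField_eq_map]
  exact h1

end Prime

end Fermat.Agent.S28.H867

end
end
-- ===== PACK-END S28/H867/Prime.lean

-- ===== PACK-BEGIN S28/H867/Integral.lean
section



set_option autoImplicit false
noncomputable section
open ModularCurve HahnSeries IntermediateField Polynomial

namespace Fermat.Agent.S28.H867

section Integral

variable (k : Type*) [Field k]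

/-- `j(q^d)` for `d ≠ 0`, with junk value at `0` (total function in `d`). -/
def jd (d : ℕ) : LaurentSeries k :=
  if h : d = 0 then 0 else @qExpand k _ d ⟨h⟩ (jqModC k)

theorem jd_eq (d : ℕ) [hd : NeZero d] : jd k d = qExpand k d (jqModC k) := by
  rw [jd, dif_neg hd.out]

theorem jd_one : jd k 1 = jqModC k := by
  rw [jd_eq, qExpand_one_apply]

theorem qExpand_jd (a b : ℕ) [NeZero a] [NeZero b] : qExpand k a (jd k b) = jd k (a * b) := by
  rw [jd_eq, jd_eq, qExpand_qExpand]

/-- If `x` and `V_a j` are integral over `k(j)`, so is `V_a x`. -/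
theorem isIntegral_qExpand (a : ℕ) [NeZero a] {x : LaurentSeries k}
    (hx : IsIntegral (jField k) x) (ha : IsIntegral (jField k) (jd k a)) :
    IsIntegral (jField k) (qExpand k a x) := by
  set 𝔸 := algebraicClosure (jField k) (LaurentSeries k) with h𝔸
  have hmem : ∀ z ∈ jField k, qExpand k a z ∈ 𝔸.restrictScalars k := by
    have hle : (jField k).map (qExpandAlgHomC k a) ≤ 𝔸.restrictScalars k := by
      have h0 : (jField k).map (qExpandAlgHomC k a) = adjoin k {qExpand k a (jqModC k)} := by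
        rw [← jpField_eq_map]; rfl
      rw [h0, adjoin_simple_le_iff]
      show qExpand k a (jqModC k) ∈ 𝔸
      rw [h𝔸, mem_algebraicClosure_iff']
      rwa [jd_eq] at ha
    intro z hz
    exact hle ⟨z, hz, rfl⟩
  let φ : jField k →+* 𝔸 :=
    { toFun := fun z => ⟨qExpand k a z, hmem z z.2⟩
      map_one' := by ext; simp
      map_mul' := fun x y => by ext; simp
      map_zero' := by ext; simp
      map_add' := fun x y => by ext; simp }
  have h1 : IsIntegral 𝔸 (qExpand k a x) :=
    hx.map_of_comp_eq φ (qExpand k a) (by ext z; rfl)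
  have : Algebra.IsIntegral (jField k) 𝔸 :=
    (algebraicClosure.isAlgebraic (jField k) (LaurentSeries k)).isIntegral
  exact isIntegral_trans (R := jField k) (A := 𝔸) _ h1

theorem isIntegral_jd_prime {p : ℕ} [NeZero p] (D : ModPolyData p) :
    IsIntegral (jField k) (jd k p) := by
  let y : jField k := ⟨jqModC k, jq_mem_jField k⟩
  refine ⟨polyOver (jField k) y D.Φ, polyOver_monic _ y D.monic, ?_⟩
  rw [← Polynomial.aeval_def, aeval_polyOver, jd_eq]
  exact modPoly_eval_jp_field k D

theorem isIntegral_jd (d : ℕ) (hd : d ≠ 0)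
    (hΦ : ∀ p : ℕ, p.Prime → p ∣ d → ∀ [NeZero p], Nonempty (ModPolyData p)) :
    IsIntegral (jField k) (jd k d) := by
  induction d using Nat.recOnMul with
  | zero => exact absurd rfl hd
  | one =>
    rw [jd_one]
    exact isIntegral_algebraMap (x := (⟨jqModC k, jq_mem_jField k⟩ : jField k))
  | prime p hp =>
    have : NeZero p := ⟨hp.ne_zero⟩
    obtain ⟨D⟩ := hΦ p hp dvd_rfl
    exact isIntegral_jd_prime k D
  | mul a b iha ihb =>
    have ha0 : a ≠ 0 := fun h => hd (by rw [h, zero_mul])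
    have hb0 : b ≠ 0 := fun h => hd (by rw [h, mul_zero])
    have : NeZero a := ⟨ha0⟩
    have : NeZero b := ⟨hb0⟩
    rw [← qExpand_jd]
    exact isIntegral_qExpand k a
      (ihb hb0 fun p hp hpb => hΦ p hp (hpb.mul_left a))
      (iha ha0 fun p hp hpa => hΦ p hp (hpa.mul_right b))

theorem divisorExpansionsC_eq_image (M : ℕ) (hM : M ≠ 0) :
    divisorExpansionsC k M = (fun d => jd k d) '' (M.divisors : Set ℕ) := by
  ext x
  constructor
  · rintro ⟨d, hd, hdM, rfl⟩
    exact ⟨d, by simpa using ⟨hdM, hM⟩, jd_eq k d⟩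
  · rintro ⟨d, hd, rfl⟩
    have hd' : d ∣ M := Nat.dvd_of_mem_divisors hd
    have hd0 : d ≠ 0 := fun h => hM (by rw [h] at hd'; exact Nat.eq_zero_of_zero_dvd hd')
    have : NeZero d := ⟨hd0⟩
    exact ⟨d, ⟨hd0⟩, hd', jd_eq k d⟩

theorem degE_ne_zero (M : ℕ) (hM : M ≠ 0)
    (hΦ : ∀ p : ℕ, p.Prime → p ∣ M → ∀ [NeZero p], Nonempty (ModPolyData p)) :
    degE k M ≠ 0 := by
  have h1 : EF k M = jField k ⊔ adjoin k (divisorExpansionsC k M) :=
    (sup_eq_right.mpr (jField_le_EF k M)).symm
  rw [degE, h1]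
  refine relfinrank_sup_adjoin_ne_zero _ ?_ ?_
  · rw [divisorExpansionsC_eq_image k M hM]
    exact (Finset.finite_toSet _).image _
  · rw [divisorExpansionsC_eq_image k M hM]
    rintro x ⟨d, hd, rfl⟩
    have hd' : d ∣ M := Nat.dvd_of_mem_divisors hd
    have hd0 : d ≠ 0 := fun h => hM (by rw [h] at hd'; exact Nat.eq_zero_of_zero_dvd hd')
    exact isIntegral_jd k d hd0 fun p hp hpd => hΦ p hp (hpd.trans hd')

end Integral

end Fermat.Agent.S28.H867

end
end
-- ===== PACK-END S28/H867/Integral.lean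

-- ===== PACK-BEGIN S28/H867/Lower.lean
section




set_option autoImplicit false
noncomputable section
open ModularCurve HahnSeries IntermediateField Polynomial

namespace Fermat.Agent.S28.H867

section Lower

variable (k : Type*) [Field k]

/-- Everything the lower-bound induction needs at level `N`. -/
structure Good (N : ℕ) : Prop where
  ne_zero : N ≠ 0
  modPoly : ∀ p : ℕ, p.Prime → p ∣ N → ∀ [NeZero p], Nonempty (ModPolyData p)
  prime : ∀ p : ℕ, p.Prime → p ∣ N → ∀ [NeZero p], PrimeLevel k p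
  indep : ∀ p : ℕ, p.Prime → p ∣ N → ∀ [NeZero p], LeafI k p
  upper : ∀ M : ℕ, M ∣ N → degE k M ≤ gFun M

variable {k}

theorem Good.of_dvd {N M : ℕ} (h : Good k N) (hMN : M ∣ N) : Good k M where
  ne_zero := fun h0 => h.ne_zero (by rw [h0] at hMN; exact Nat.eq_zero_of_zero_dvd hMN)
  modPoly := fun p hp hpM => h.modPoly p hp (hpM.trans hMN)
  prime := fun p hp hpM => h.prime p hp (hpM.trans hMN)
  indep := fun p hp hpM => h.indep p hp (hpM.trans hMN)
  upper := fun M' hM' => h.upper M' (hM'.trans hMN)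

theorem Good.degE_ne_zero {N : ℕ} (h : Good k N) : degE k N ≠ 0 :=
  H867.degE_ne_zero k N h.ne_zero h.modPoly

variable (k) in
theorem degE_one : degE k 1 = 1 := by
  rw [degE, relfinrank_eq_one_iff]
  show adjoin k (divisorExpansionsC k 1) ≤ jField k
  rw [adjoin_le_iff]
  rintro x ⟨d, hd, hd1, rfl⟩
  have : d = 1 := Nat.dvd_one.mp hd1
  subst this
  rw [qExpand_one_apply]
  exact jq_mem_jField k

variable (k) in
theorem EF_prime_eq (p : ℕ) [NeZero p] (hp : p.Prime) : EF k p = jField k ⊔ jpField k p := by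
  apply le_antisymm
  · show adjoin k (divisorExpansionsC k p) ≤ _
    rw [adjoin_le_iff]
    rintro x ⟨d, hd, hdp, rfl⟩
    rcases (Nat.dvd_prime hp).mp hdp with h1 | h1
    · subst h1
      rw [qExpand_one_apply]
      exact (le_sup_left : jField k ≤ _) (jq_mem_jField k)
    · subst h1
      exact (le_sup_right : jpField k d ≤ _) (jp_mem_jpField k d)
  · refine sup_le (jField_le_EF k p) ?_
    rw [jpField, adjoin_simple_le_iff]
    exact jqModCd_mem_full k p dvd_rfl

theorem Good.degE_prime {p : ℕ} (hp : p.Prime) (h : Good k p) : degE k p = p + 1 := by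
  have : NeZero p := ⟨hp.ne_zero⟩
  rw [degE, EF_prime_eq k p hp]
  exact (h.prime p hp dvd_rfl).deg_j

/-- the (b)-step in `Good` form -/
theorem Good.mul_le {N p : ℕ} (h : Good k N) (hp : p.Prime) (hpN : p ∣ N) :
    p * degE k (N / p) ≤ degE k N := by
  have : NeZero p := ⟨hp.ne_zero⟩
  have hN : N / p * p = N := Nat.div_mul_cancel hpN
  have := degE_mul_ge k (N / p) p (h.prime p hp hpN) (h.indep p hp hpN)
    (by rw [hN]; exact h.degE_ne_zero)
  rwa [hN] at this

theorem Good.tower {N M : ℕ} (h : Good k N) (hMN : M ∣ N) :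
    degE k M * (EF k M).relfinrank (EF k N) = degE k N := by
  have : NeZero N := ⟨h.ne_zero⟩
  have : NeZero M := ⟨(h.of_dvd hMN).ne_zero⟩
  exact relfinrank_mul_relfinrank (jField_le_EF k M) (full_degeneracyC_le k hMN)

/-- For a prime `p ∣ N` with `p ∤ N / p`: if `[E_{N/p} : k(j)] = g(N/p)`, then `[E_N : k(j)]`
is `p · g(N/p)` or `(p+1) · g(N/p) = g(N)`. -/
theorem Good.dichotomy {N p : ℕ} (h : Good k N) (hp : p.Prime) (hpN : p ∣ N)
    (hpM : ¬ p ∣ N / p) (hM : degE k (N / p) = gFun (N / p)) :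
    degE k N = gFun N ∨ degE k N * (p + 1) = p * gFun N := by
  have hN : N / p * p = N := Nat.div_mul_cancel hpN
  have hM0 : N / p ≠ 0 := fun h0 => h.ne_zero (by rw [← hN, h0, zero_mul])
  have hg : gFun N = (p + 1) * gFun (N / p) := by
    conv_lhs => rw [← hN]
    exact gFun_mul_of_not_dvd hM0 hp hpM
  have htower := h.tower (Nat.div_dvd_of_dvd hpN)
  set a := (EF k (N / p)).relfinrank (EF k N) with ha
  have hup := h.upper N dvd_rfl
  have hlow := h.mul_le hp hpN
  rw [hM] at htower hlow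
  have hgpos := gFun_pos (N / p)
  rw [← htower] at hup hlow ⊢
  rw [hg] at hup ⊢
  have ha1 : p ≤ a := by
    rw [mul_comm] at hlow
    exact Nat.le_of_mul_le_mul_left hlow hgpos
  have ha2 : a ≤ p + 1 := by
    rw [mul_comm (p + 1)] at hup
    exact Nat.le_of_mul_le_mul_left hup hgpos
  rcases Nat.lt_or_ge a (p + 1) with h1 | h1
  · right
    have : a = p := by omega
    rw [this]; ring
  · left
    have : a = p + 1 := by omega
    rw [this]; ring

theorem Good.le_degE : ∀ {N : ℕ}, Good k N → gFun N ≤ degE k N := by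
  intro N
  induction N using Nat.strong_induction_on with
  | _ N ih =>
    intro h
    rcases Nat.lt_or_ge 1 N with hN1 | hN1
    swap
    · have : N = 1 := by have := h.ne_zero; omega
      subst this
      rw [gFun_one, degE_one]
    -- `N > 1`
    by_cases hsq : ∃ r : ℕ, r.Prime ∧ r ∣ N ∧ r ∣ N / r
    · obtain ⟨r, hr, hrN, hrM⟩ := hsq
      have hN : N / r * r = N := Nat.div_mul_cancel hrN
      have hM0 : N / r ≠ 0 := fun h0 => h.ne_zero (by rw [← hN, h0, zero_mul])
      have hlt : N / r < N := Nat.div_lt_self (by omega) hr.one_lt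
      have ihM := ih (N / r) hlt (h.of_dvd (Nat.div_dvd_of_dvd hrN))
      calc gFun N = gFun (N / r * r) := by rw [hN]
        _ = r * gFun (N / r) := gFun_mul_of_dvd hM0 hr hrM
        _ ≤ r * degE k (N / r) := Nat.mul_le_mul_left _ ihM
        _ ≤ degE k N := h.mul_le hr hrN
    · simp only [not_exists, not_and] at hsq
      -- first prime
      set p := N.minFac with hp
      have hpp : p.Prime := Nat.minFac_prime (by omega)
      have hpN : p ∣ N := Nat.minFac_dvd N
      have hN : N / p * p = N := Nat.div_mul_cancel hpN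
      rcases Nat.lt_or_ge 1 (N / p) with hM1 | hM1
      swap
      · -- `N = p` is prime
        have hM0 : N / p ≠ 0 := fun h0 => h.ne_zero (by rw [← hN, h0, zero_mul])
        have : N / p = 1 := Nat.le_antisymm hM1 (Nat.one_le_iff_ne_zero.mpr hM0)
        have hNp : N = p := by rw [← hN, this, one_mul]
        have h' : Good k p := hNp ▸ h
        rw [hNp, gFun_prime hpp, h'.degE_prime hpp]
      -- second prime
      set r := (N / p).minFac with hr
      have hrp : r.Prime := Nat.minFac_prime (by omega)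
      have hrM : r ∣ N / p := Nat.minFac_dvd _
      have hrN : r ∣ N := hrM.trans (Nat.div_dvd_of_dvd hpN)
      have hpM : ¬ p ∣ N / p := hsq p hpp hpN
      have hrM' : ¬ r ∣ N / r := hsq r hrp hrN
      have hne : r ≠ p := fun he => hpM (he ▸ hrM)
      have hltp : N / p < N := Nat.div_lt_self (by omega) hpp.one_lt
      have hltr : N / r < N := Nat.div_lt_self (by omega) hrp.one_lt
      have hMp : degE k (N / p) = gFun (N / p) :=
        le_antisymm (h.upper _ (Nat.div_dvd_of_dvd hpN))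
          (ih _ hltp (h.of_dvd (Nat.div_dvd_of_dvd hpN)))
      have hMr : degE k (N / r) = gFun (N / r) :=
        le_antisymm (h.upper _ (Nat.div_dvd_of_dvd hrN))
          (ih _ hltr (h.of_dvd (Nat.div_dvd_of_dvd hrN)))
      rcases h.dichotomy hpp hpN hpM hMp with h1 | h1
      · exact h1.ge
      rcases h.dichotomy hrp hrN hrM' hMr with h2 | h2
      · exact h2.ge
      exfalso
      have hD : degE k N ≠ 0 := h.degE_ne_zero
      have hD' : 0 < degE k N := Nat.pos_of_ne_zero hD
      have key : degE k N * ((p + 1) * r) = degE k N * ((r + 1) * p) := by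
        calc degE k N * ((p + 1) * r) = (degE k N * (p + 1)) * r := by ring
          _ = p * gFun N * r := by rw [h1]
          _ = (r * gFun N) * p := by ring
          _ = (degE k N * (r + 1)) * p := by rw [h2]
          _ = degE k N * ((r + 1) * p) := by ring
      have := Nat.eq_of_mul_eq_mul_left hD' key
      apply hne
      nlinarith

theorem Good.degE_eq {N : ℕ} (h : Good k N) : degE k N = gFun N :=
  le_antisymm (h.upper N dvd_rfl) h.le_degE

end Lower

end Fermat.Agent.S28.H867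

end
end
-- ===== PACK-END S28/H867/Lower.lean

-- ===== PACK-BEGIN S28/H626/Tower.lean
section
/-
S28 helper (helper626): generation of `k(j(q^d) : d ∣ Mp)` over `k(j(q^d) : d ∣ M)` by a single
element, and the degree bounds `≤ p + 1` (`p ∤ M`), `≤ p` (`p ∣ M`).
-/




set_option autoImplicit false

noncomputable section

open ModularCurve HahnSeries Polynomial IntermediateField

namespace Fermat.Agent.S28.H626

section Hyp

variable (k : Type*) [Field k]

/-- Hypothesis package for level `N`: every prime `p ∣ N` is invertible in `k` and has a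
modular polynomial. -/
def HasModPolys (N : ℕ) : Prop :=
  ∀ p (hp : p.Prime), p ∣ N →
    (p : k) ≠ 0 ∧ ∃ Φ : Polynomial (Polynomial ℤ), @IsModPoly p ⟨hp.ne_zero⟩ Φ

variable {k}

theorem HasModPolys.mono {N M : ℕ} (H : HasModPolys k N) (h : M ∣ N) : HasModPolys k M :=
  fun p hp hpM => H p hp (hpM.trans h)

end Hyp

section Generation

variable {k : Type*} [Field k]

/-- **Generation.** If an intermediate field `E` contains `j(q^d)` for all `d ∣ M` and
`j(q^{p^{b+1}})` for the exact power `p^b ∥ M`, then it contains `j(q^d)` for all `d ∣ M p`. -/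
theorem jd_mem_of_gen {M p : ℕ} (hp : p.Prime) (H : HasModPolys k (M * p))
    (E : IntermediateField k (LaurentSeries k))
    (h1 : ∀ (d : ℕ) [NeZero d], d ∣ M → jd k d ∈ E)
    (h2 : ∀ (b : ℕ) [NeZero (p ^ (b + 1))], p ^ b ∣ M → ¬ p ^ (b + 1) ∣ M →
      jd k (p ^ (b + 1)) ∈ E) :
    ∀ (d : ℕ) [NeZero d], d ∣ M * p → jd k d ∈ E := by
  intro d
  induction d using Nat.strong_induction_on with
  | _ d ih =>
    intro inst hd
    by_cases hdM : d ∣ M
    · exact h1 d hdM
    have hpd : p ∣ d := by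
      by_contra hpd
      have hcop : Nat.Coprime d p := ((Nat.Prime.coprime_iff_not_dvd hp).2 hpd).symm
      exact hdM (hcop.dvd_of_dvd_mul_right hd)
    obtain ⟨g, rfl⟩ := hpd
    have hg0 : g ≠ 0 := by
      rintro rfl
      exact (NeZero.ne (p * 0)) (mul_zero p)
    have hgM : g ∣ M := by
      rw [mul_comm M p] at hd
      exact Nat.dvd_of_mul_dvd_mul_left hp.pos hd
    have : NeZero p := ⟨hp.ne_zero⟩
    by_cases hg : ∃ r, r.Prime ∧ r ∣ g ∧ r ≠ p
    · obtain ⟨r, hr, ⟨e, rfl⟩, hrp⟩ := hg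
      have he0 : e ≠ 0 := by
        rintro rfl
        exact hg0 (mul_zero r)
      have : NeZero r := ⟨hr.ne_zero⟩
      have : NeZero e := ⟨he0⟩
      have hrM : r ∣ M * p := (Dvd.intro e rfl : r ∣ r * e).trans (hgM.trans (Dvd.intro p rfl))
      obtain ⟨hpk, Φp, hΦp⟩ := H p hp (Dvd.intro_left M rfl)
      obtain ⟨hrk, Φr, hΦr⟩ := H r hr hrM
      have : NeZero (p : k) := ⟨hpk⟩
      have : NeZero (r : k) := ⟨hrk⟩
      have m1 : jd k (r * e) ∈ E := h1 (r * e) hgM
      have m2 : jd k (p * e) ∈ E := by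
        refine ih (p * e) ?_ ?_
        · have : e < r * e := by
            have := hr.one_lt
            have he : 0 < e := Nat.pos_of_ne_zero he0
            nlinarith
          exact Nat.mul_lt_mul_of_pos_left this hp.pos
        · refine Dvd.dvd.trans ?_ hd
          exact mul_dvd_mul_left p (Dvd.intro_left r rfl)
      have := jd_mem_of_pair hp hr hrp.symm hΦp hΦr e E m1 m2
      rwa [jd_congr k (show p * r * e = p * (r * e) by ring)] at this
    · have hg' : ∀ {r : ℕ}, r.Prime → r ∣ g → r = p := by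
        intro r hr hrg
        by_contra hne
        exact hg ⟨r, hr, hrg, hne⟩
      have hgp := Nat.eq_prime_pow_of_unique_prime_dvd hg0 hg'
      set b := g.primeFactorsList.length with hb
      have hd' : p * g = p ^ (b + 1) := by rw [pow_succ, mul_comm, ← hgp]
      have : NeZero (p ^ (b + 1)) := ⟨pow_ne_zero _ hp.ne_zero⟩
      rw [jd_congr k hd']
      refine h2 b ?_ ?_
      · rw [← hgp]; exact hgM
      · rw [← hd']; exact hdM

end Generation

/-! ### Degree of a simple extension, in `relrank` form -/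

section Degree

variable {K L : Type*} [Field K] [Field L] [Algebra K L]

/-- If `A ≤ B ≤ A(x)`, `x ∈ B` and `x` is a root of a monic `P ∈ A[X]`, then `[B : A] ≤ deg P`. -/
theorem relrank_le_natDegree (A B : IntermediateField K L) (hAB : A ≤ B)
    (x : L) (P : Polynomial A) (hP : P.Monic) (hx : Polynomial.aeval x P = 0)
    (hB : B ≤ (IntermediateField.adjoin A {x}).restrictScalars K) (hxB : x ∈ B) :
    IntermediateField.relrank A B ≤ (P.natDegree : Cardinal) := by
  have hint : IsIntegral A x := ⟨P, hP, hx⟩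
  have hBeq : B = (IntermediateField.adjoin A {x}).restrictScalars K := by
    refine le_antisymm hB ?_
    rw [IntermediateField.restrictScalars_adjoin_eq_sup]
    refine sup_le hAB ?_
    rw [IntermediateField.adjoin_le_iff]
    intro y hy
    rw [Set.mem_singleton_iff] at hy
    rw [hy]
    exact hxB
  rw [IntermediateField.relrank_eq_rank_of_le hAB]
  have hext : IntermediateField.extendScalars hAB = IntermediateField.adjoin A {x} := by
    ext y
    rw [IntermediateField.mem_extendScalars, hBeq]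
    rfl
  rw [hext]
  have := IntermediateField.adjoin.finiteDimensional hint
  rw [← Module.finrank_eq_rank, IntermediateField.adjoin.finrank hint, Nat.cast_le]
  exact Polynomial.natDegree_le_natDegree (minpoly.degree_le_of_ne_zero A x hP.ne_zero hx)

end Degree

/-! ### The tower steps -/

section Steps

variable {k : Type*} [Field k]

theorem jd_mem_full (N : ℕ) [NeZero N] (d : ℕ) [NeZero d] (hd : d ∣ N) :
    jd k d ∈ modularFunctionFieldFullC k N :=
  jqModCd_mem_full k N hd

theorem full_le_of_forall_mem (N : ℕ) [NeZero N] (E : IntermediateField k (LaurentSeries k))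
    (h : ∀ (d : ℕ) [NeZero d], d ∣ N → jd k d ∈ E) : modularFunctionFieldFullC k N ≤ E := by
  rw [modularFunctionFieldFullC, IntermediateField.adjoin_le_iff]
  rintro x ⟨d, hne, hdvd, rfl⟩
  exact h d hdvd

theorem jd_one : jd k 1 = jqModC k := qExpand_one_apply _

/-- uniqueness of the exact exponent -/
theorem exact_pow_unique {p M a b : ℕ} (ha : p ^ a ∣ M) (ha' : ¬ p ^ (a + 1) ∣ M)
    (hb : p ^ b ∣ M) (hb' : ¬ p ^ (b + 1) ∣ M) : b = a := by
  rcases lt_trichotomy b a with h | h | h
  · exact absurd ((pow_dvd_pow p (Nat.succ_le_of_lt h)).trans ha) hb'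
  · exact h
  · exact absurd ((pow_dvd_pow p (Nat.succ_le_of_lt h)).trans hb) ha'

/-- **Generation, packaged.** `k(j_d : d ∣ Mp) ≤ k(j_d : d ∣ M)(j_{p^{a+1}})` for `p^a ∥ M`. -/
theorem full_mul_le_adjoin {M p a : ℕ} [NeZero M] [NeZero (M * p)] [NeZero (p ^ (a + 1))]
    (hp : p.Prime) (H : HasModPolys k (M * p))
    (ha : p ^ a ∣ M) (ha' : ¬ p ^ (a + 1) ∣ M) :
    modularFunctionFieldFullC k (M * p) ≤
      (IntermediateField.adjoin (modularFunctionFieldFullC k M)
        {jd k (p ^ (a + 1))}).restrictScalars k := by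
  refine full_le_of_forall_mem (M * p) _ ?_
  refine jd_mem_of_gen hp H _ ?_ ?_
  · intro d _ hd
    rw [IntermediateField.mem_restrictScalars]
    exact IntermediateField.algebraMap_mem _ (⟨jd k d, jd_mem_full M d hd⟩ :
      modularFunctionFieldFullC k M)
  · intro b _ hb hb'
    have hba : b = a := exact_pow_unique ha ha' hb hb'
    subst hba
    rw [IntermediateField.mem_restrictScalars]
    exact IntermediateField.subset_adjoin _ _ (Set.mem_singleton _)

/-- **Step, `p ∤ M`**: `[k(j_d : d ∣ Mp) : k(j_d : d ∣ M)] ≤ p + 1`. -/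
theorem relrank_full_step_of_not_dvd {M p : ℕ} [NeZero M] [NeZero (M * p)]
    (hp : p.Prime) (H : HasModPolys k (M * p)) (hpM : ¬ p ∣ M) :
    IntermediateField.relrank (modularFunctionFieldFullC k M)
      (modularFunctionFieldFullC k (M * p)) ≤ ((p + 1 : ℕ) : Cardinal) := by
  have instp : NeZero p := ⟨hp.ne_zero⟩
  have instp1 : NeZero (p ^ (0 + 1)) := ⟨pow_ne_zero _ hp.ne_zero⟩
  obtain ⟨-, Φ, hΦ⟩ := H p hp (Dvd.intro_left M rfl)
  have hAB : modularFunctionFieldFullC k M ≤ modularFunctionFieldFullC k (M * p) :=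
    full_degeneracyC_le k (Dvd.intro p rfl)
  have hj : jqModC k ∈ modularFunctionFieldFullC k M := jqModC_mem_full k M
  have hx : jd k (p ^ (0 + 1)) = jd k p := jd_congr k (by simp)
  have key := relrank_le_natDegree (modularFunctionFieldFullC k M)
    (modularFunctionFieldFullC k (M * p)) hAB (jd k (p ^ (0 + 1)))
    (spec Φ (⟨jqModC k, hj⟩ : modularFunctionFieldFullC k M)) (spec_monic hΦ.monic _) ?_
    (full_mul_le_adjoin hp H (by simp) (by simpa using hpM)) ?_
  · rwa [spec_natDegree hΦ.monic, hΦ.natDegree_eq] at key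
  · rw [Polynomial.aeval_def, Polynomial.eval₂_eq_eval_map, map_spec, eval_spec, hx]
    show ev2 Φ (jqModC k) (jd k p) = 0
    have := ev2_jd_up (k := k) hΦ 1
    rwa [jd_one, jd_congr k (one_mul p)] at this
  · rw [hx]
    exact jd_mem_full (M * p) p (Dvd.intro_left M rfl)

/-- **Step, `p ∣ M`**: `[k(j_d : d ∣ Mp) : k(j_d : d ∣ M)] ≤ p`. -/
theorem relrank_full_step_of_dvd {M p : ℕ} [NeZero M] [NeZero (M * p)]
    (hp : p.Prime) (H : HasModPolys k (M * p)) (hpM : p ∣ M) :
    IntermediateField.relrank (modularFunctionFieldFullC k M)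
      (modularFunctionFieldFullC k (M * p)) ≤ ((p : ℕ) : Cardinal) := by
  classical
  have instp : NeZero p := ⟨hp.ne_zero⟩
  obtain ⟨-, Φ, hΦ⟩ := H p hp (Dvd.intro_left M rfl)
  -- the exact exponent
  obtain ⟨a, M', hM', hMeq⟩ := Nat.exists_eq_pow_mul_and_not_dvd (NeZero.ne M) p hp.ne_one
  have ha : p ^ a ∣ M := ⟨M', hMeq⟩
  have ha' : ¬ p ^ (a + 1) ∣ M := by
    rintro ⟨c, hc⟩
    apply hM'
    have h3 : p ^ a * M' = p ^ a * (p * c) := by rw [← hMeq, hc, pow_succ]; ring
    exact ⟨c, Nat.eq_of_mul_eq_mul_left (pow_pos hp.pos a) h3⟩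
  have ha1 : a ≠ 0 := by
    rintro rfl
    apply hM'
    rw [pow_zero, one_mul] at hMeq
    rwa [← hMeq]
  obtain ⟨a', rfl⟩ := Nat.exists_eq_succ_of_ne_zero ha1
  have inst1 : NeZero (p ^ (a' + 1 + 1)) := ⟨pow_ne_zero _ hp.ne_zero⟩
  have inst2 : NeZero (p ^ (a' + 1)) := ⟨pow_ne_zero _ hp.ne_zero⟩
  have inst3 : NeZero (p ^ a') := ⟨pow_ne_zero _ hp.ne_zero⟩
  have hAB : modularFunctionFieldFullC k M ≤ modularFunctionFieldFullC k (M * p) :=
    full_degeneracyC_le k (Dvd.intro p rfl)
  have hy : jd k (p ^ (a' + 1)) ∈ modularFunctionFieldFullC k M := jd_mem_full M _ ha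
  have hz : jd k (p ^ a') ∈ modularFunctionFieldFullC k M :=
    jd_mem_full M _ ((pow_dvd_pow p (Nat.le_succ a')).trans ha)
  set y' : modularFunctionFieldFullC k M := ⟨jd k (p ^ (a' + 1)), hy⟩ with hy'
  set z' : modularFunctionFieldFullC k M := ⟨jd k (p ^ a'), hz⟩ with hz'
  set x : LaurentSeries k := jd k (p ^ (a' + 1 + 1)) with hxdef
  -- `z'` is a root of `P₀ = Φ(y', X)`
  have hroot : (spec Φ y').IsRoot z' := by
    rw [Polynomial.IsRoot, eval_spec]
    apply (algebraMap (modularFunctionFieldFullC k M) (LaurentSeries k)).injective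
    rw [map_ev2, map_zero]
    show ev2 Φ (jd k (p ^ (a' + 1))) (jd k (p ^ a')) = 0
    have := ev2_jd_down (k := k) hΦ (p ^ a')
    rwa [jd_congr k (show p ^ a' * p = p ^ (a' + 1) from (pow_succ p a').symm)] at this
  have hfac : (Polynomial.X - Polynomial.C z') * (spec Φ y' /ₘ (Polynomial.X - Polynomial.C z')) = spec Φ y' :=
    Polynomial.mul_divByMonic_eq_iff_isRoot.mpr hroot
  have hmonic0 : (spec Φ y').Monic := spec_monic hΦ.monic _
  have hmonic : (spec Φ y' /ₘ (Polynomial.X - Polynomial.C z')).Monic := by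
    refine Polynomial.Monic.of_mul_monic_left (Polynomial.monic_X_sub_C z') ?_
    rw [hfac]
    exact hmonic0
  have hdeg : (spec Φ y' /ₘ (Polynomial.X - Polynomial.C z')).natDegree = p := by
    rw [Polynomial.natDegree_divByMonic _ (Polynomial.monic_X_sub_C z'),
      spec_natDegree hΦ.monic, hΦ.natDegree_eq, Polynomial.natDegree_X_sub_C]
    rfl
  have hx0 : Polynomial.aeval x (spec Φ y') = 0 := by
    rw [Polynomial.aeval_def, Polynomial.eval₂_eq_eval_map, map_spec, eval_spec]
    show ev2 Φ (jd k (p ^ (a' + 1))) (jd k (p ^ (a' + 1 + 1))) = 0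
    have := ev2_jd_up (k := k) hΦ (p ^ (a' + 1))
    rwa [jd_congr k (show p ^ (a' + 1) * p = p ^ (a' + 1 + 1) from (pow_succ p (a' + 1)).symm)]
      at this
  have hxz : x - jd k (p ^ a') ≠ 0 := by
    rw [sub_ne_zero]
    refine jd_ne_of_ne ?_
    intro h
    have := Nat.pow_right_injective hp.two_le h
    omega
  have hx1 : Polynomial.aeval x (spec Φ y' /ₘ (Polynomial.X - Polynomial.C z')) = 0 := by
    have h := hx0
    rw [← hfac, map_mul, map_sub, Polynomial.aeval_X, Polynomial.aeval_C] at h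
    rcases mul_eq_zero.mp h with h | h
    · exact absurd h hxz
    · exact h
  have key := relrank_le_natDegree (modularFunctionFieldFullC k M)
    (modularFunctionFieldFullC k (M * p)) hAB x
    (spec Φ y' /ₘ (Polynomial.X - Polynomial.C z')) hmonic hx1
    (full_mul_le_adjoin hp H ha ha') ?_
  · rwa [hdeg] at key
  · refine jd_mem_full (M * p) _ ?_
    rw [pow_succ]
    exact mul_dvd_mul_right ha p

end Steps

end Fermat.Agent.S28.H626

end

end
-- ===== PACK-END S28/H626/Tower.lean

-- ===== PACK-BEGIN S28/H626/Upper.lean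
section
/-
S28 helper (helper626): the upper bound `[k(j(q^d) : d ∣ N) : k(j)] ≤ ψ(N)` for every field `k`
in which `N` is invertible, from the prime-level modular polynomials; and its
linear-independence / spanning forms.
-/




set_option autoImplicit false

noncomputable section

open ModularCurve HahnSeries Polynomial IntermediateField

namespace Fermat.Agent.S28.H626

/-! ### Arithmetic of `dedekindPsi` -/

section Psi

theorem psi_mul_prime_of_dvd {N p : ℕ} (hN : N ≠ 0) (hp : p.Prime) (hpN : p ∣ N) :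
    dedekindPsi (N * p) = p * dedekindPsi N := by
  unfold dedekindPsi
  have hset : (N * p).divisors.filter Squarefree = N.divisors.filter Squarefree := by
    ext d
    simp only [Finset.mem_filter, Nat.mem_divisors]
    constructor
    · rintro ⟨⟨hd, _⟩, hsq⟩
      refine ⟨⟨?_, hN⟩, hsq⟩
      have h2 : d ∣ N ^ 2 := by
        rw [pow_two]
        exact hd.trans (mul_dvd_mul_left N hpN)
      exact (hsq.dvd_pow_iff_dvd two_ne_zero).1 h2
    · rintro ⟨⟨hd, _⟩, hsq⟩
      exact ⟨⟨hd.mul_right p, mul_ne_zero hN hp.ne_zero⟩, hsq⟩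
  rw [hset, Finset.mul_sum]
  refine Finset.sum_congr rfl fun d hd => ?_
  have hdN : d ∣ N := (Nat.mem_divisors.1 (Finset.mem_filter.1 hd).1).1
  obtain ⟨e, rfl⟩ := hdN
  have hd0 : 0 < d := Nat.pos_of_ne_zero (by rintro rfl; simp at hN)
  rw [mul_assoc, Nat.mul_div_cancel_left _ hd0, Nat.mul_div_cancel_left _ hd0, mul_comm]

theorem psi_mul_prime_of_not_dvd {N p : ℕ} (hN : N ≠ 0) (hp : p.Prime) (hpN : ¬ p ∣ N) :
    dedekindPsi (N * p) = (p + 1) * dedekindPsi N := by
  unfold dedekindPsi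
  have hcop : ∀ d, d ∣ N → Nat.Coprime d p := fun d hd =>
    (Nat.Coprime.symm ((Nat.Prime.coprime_iff_not_dvd hp).2 fun h => hpN (h.trans hd)))
  have hset : (N * p).divisors.filter Squarefree
      = (N.divisors.filter Squarefree) ∪ (N.divisors.filter Squarefree).image (· * p) := by
    ext d
    simp only [Finset.mem_filter, Nat.mem_divisors, Finset.mem_union, Finset.mem_image]
    constructor
    · rintro ⟨⟨hd, _⟩, hsq⟩
      by_cases hpd : p ∣ d
      · right
        obtain ⟨e, rfl⟩ := hpd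
        refine ⟨e, ⟨⟨?_, hN⟩, hsq.squarefree_of_dvd (Dvd.intro_left p rfl)⟩, mul_comm e p⟩
        rw [mul_comm p e] at hd
        exact Nat.dvd_of_mul_dvd_mul_right hp.pos hd
      · left
        refine ⟨⟨?_, hN⟩, hsq⟩
        have : Nat.Coprime d p := (Nat.Coprime.symm ((Nat.Prime.coprime_iff_not_dvd hp).2 hpd))
        exact this.dvd_of_dvd_mul_right hd
    · rintro (⟨⟨hd, _⟩, hsq⟩ | ⟨e, ⟨⟨he, _⟩, hsq⟩, rfl⟩)
      · exact ⟨⟨hd.mul_right p, mul_ne_zero hN hp.ne_zero⟩, hsq⟩
      · refine ⟨⟨mul_dvd_mul_right he p, mul_ne_zero hN hp.ne_zero⟩, ?_⟩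
        exact (Nat.squarefree_mul (hcop e he)).2 ⟨hsq, hp.squarefree⟩
  have hdisj : Disjoint (N.divisors.filter Squarefree)
      ((N.divisors.filter Squarefree).image (· * p)) := by
    rw [Finset.disjoint_left]
    intro d hd hd'
    simp only [Finset.mem_filter, Nat.mem_divisors, Finset.mem_image] at hd hd'
    obtain ⟨e, _, rfl⟩ := hd'
    exact hpN ((Dvd.intro_left e rfl).trans hd.1.1)
  rw [hset, Finset.sum_union hdisj, Finset.sum_image, add_mul, one_mul, Finset.mul_sum]
  · congr 1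
    · refine Finset.sum_congr rfl fun d hd => ?_
      have hdN : d ∣ N := (Nat.mem_divisors.1 (Finset.mem_filter.1 hd).1).1
      obtain ⟨e, rfl⟩ := hdN
      have hd0 : 0 < d := Nat.pos_of_ne_zero (by rintro rfl; simp at hN)
      rw [mul_assoc, Nat.mul_div_cancel_left _ hd0, Nat.mul_div_cancel_left _ hd0, mul_comm]
    · refine Finset.sum_congr rfl fun d hd => ?_
      exact Nat.mul_div_mul_right N d hp.pos
  · intro a _ b _ hab
    exact Nat.eq_of_mul_eq_mul_right hp.pos hab

end Psi

/-! ### The upper bound -/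

section Upper

variable {k : Type*} [Field k]

theorem full_one_eq : modularFunctionFieldFullC k 1 = IntermediateField.adjoin k {jqModC k} := by
  apply le_antisymm
  · refine full_le_of_forall_mem 1 _ ?_
    intro d _ hd
    have hd1 : d = 1 := Nat.dvd_one.mp hd
    rw [jd_congr k hd1, jd_one]
    exact IntermediateField.subset_adjoin _ _ (Set.mem_singleton _)
  · rw [IntermediateField.adjoin_le_iff]
    intro y hy
    rw [Set.mem_singleton_iff] at hy
    rw [hy]
    exact jqModC_mem_full k 1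

/-- **Upper bound**, `relrank` form (a `Cardinal` inequality, so it includes finiteness). -/
theorem relrank_full_le (N : ℕ) [NeZero N] (H : HasModPolys k N) :
    IntermediateField.relrank (modularFunctionFieldFullC k 1) (modularFunctionFieldFullC k N) ≤
      ((dedekindPsi N : ℕ) : Cardinal) := by
  revert H
  have main : ∀ n : ℕ, ∀ (N : ℕ) [NeZero N], N = n → HasModPolys k N →
      IntermediateField.relrank (modularFunctionFieldFullC k 1) (modularFunctionFieldFullC k N) ≤
        ((dedekindPsi N : ℕ) : Cardinal) := by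
    intro n
    induction n using Nat.strong_induction_on with
    | _ n ih =>
      intro N instN hNn H
      by_cases hN1 : N = 1
      · subst hN1
        rw [IntermediateField.relrank_self, dedekindPsi_one, Nat.cast_one]
      obtain ⟨p, hp, hpN⟩ := Nat.exists_prime_and_dvd hN1
      obtain ⟨M, hM⟩ := hpN
      have hNM : N = M * p := by rw [hM, mul_comm]
      subst hNM
      have hM0 : M ≠ 0 := by
        rintro rfl
        exact (NeZero.ne (0 * p)) (zero_mul p)
      have instM : NeZero M := ⟨hM0⟩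
      have hlt : M < n := by
        rw [← hNn]
        have := hp.one_lt
        have hMpos : 0 < M := Nat.pos_of_ne_zero hM0
        nlinarith
      have IH := ih M hlt M rfl (H.mono (Dvd.intro p rfl))
      have h1 : modularFunctionFieldFullC k 1 ≤ modularFunctionFieldFullC k M :=
        full_degeneracyC_le k (one_dvd M)
      have h2 : modularFunctionFieldFullC k M ≤ modularFunctionFieldFullC k (M * p) :=
        full_degeneracyC_le k (Dvd.intro p rfl)
      rw [← IntermediateField.relrank_mul_relrank h1 h2]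
      by_cases hpM : p ∣ M
      · rw [psi_mul_prime_of_dvd hM0 hp hpM, mul_comm p, Nat.cast_mul]
        exact mul_le_mul' IH (relrank_full_step_of_dvd hp H hpM)
      · rw [psi_mul_prime_of_not_dvd hM0 hp hpM, mul_comm (p + 1), Nat.cast_mul]
        exact mul_le_mul' IH (relrank_full_step_of_not_dvd hp H hpM)
  exact main N N rfl

/-- `k(j) ≤ k(j(q^d) : d ∣ N)`. -/
theorem adjoin_j_le_full (N : ℕ) [NeZero N] :
    IntermediateField.adjoin k {jqModC k} ≤ modularFunctionFieldFullC k N := by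
  rw [IntermediateField.adjoin_le_iff]
  intro y hy
  rw [Set.mem_singleton_iff] at hy
  rw [hy]
  exact jqModC_mem_full k N

/-- **Upper bound** over `k(j) = IntermediateField.adjoin k {j}`. -/
theorem relrank_adjoin_j_full_le (N : ℕ) [NeZero N] (H : HasModPolys k N) :
    IntermediateField.relrank (IntermediateField.adjoin k {jqModC k})
      (modularFunctionFieldFullC k N) ≤ ((dedekindPsi N : ℕ) : Cardinal) := by
  rw [← full_one_eq]
  exact relrank_full_le N H

/-- The function field as a finite-dimensional `k(j)`-vector space: rank bound. -/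
theorem rank_extendScalars_le (N : ℕ) [NeZero N] (H : HasModPolys k N) :
    Module.rank (IntermediateField.adjoin k {jqModC k})
      (IntermediateField.extendScalars (adjoin_j_le_full (k := k) N)) ≤
        ((dedekindPsi N : ℕ) : Cardinal) := by
  rw [← IntermediateField.relrank_eq_rank_of_le]
  exact relrank_adjoin_j_full_le N H

theorem finiteDimensional_extendScalars (N : ℕ) [NeZero N] (H : HasModPolys k N) :
    FiniteDimensional (IntermediateField.adjoin k {jqModC k})
      (IntermediateField.extendScalars (adjoin_j_le_full (k := k) N)) := by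
  rw [FiniteDimensional, ← Module.rank_lt_aleph0_iff]
  exact lt_of_le_of_lt (rank_extendScalars_le N H) (Cardinal.nat_lt_aleph0 _)

theorem finrank_extendScalars_le (N : ℕ) [NeZero N] (H : HasModPolys k N) :
    Module.finrank (IntermediateField.adjoin k {jqModC k})
      (IntermediateField.extendScalars (adjoin_j_le_full (k := k) N)) ≤ dedekindPsi N := by
  have := finiteDimensional_extendScalars N H
  have h := rank_extendScalars_le N H
  rw [← Module.finrank_eq_rank, Nat.cast_le] at h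
  exact h

/-- **Upper bound, linear-independence form.** A family of elements of `k(j(q^d) : d ∣ N)` which
is linearly independent over `k(j)` has at most `ψ(N)` members. -/
theorem card_le_of_linearIndependent (N : ℕ) [NeZero N] (H : HasModPolys k N)
    {ι : Type*} [Fintype ι] (v : ι → LaurentSeries k)
    (hv : ∀ i, v i ∈ modularFunctionFieldFullC k N)
    (hli : LinearIndependent (IntermediateField.adjoin k {jqModC k}) v) :
    Fintype.card ι ≤ dedekindPsi N := by
  have := finiteDimensional_extendScalars N H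
  set B := IntermediateField.extendScalars (adjoin_j_le_full (k := k) N) with hB
  let w : ι → B := fun i => ⟨v i, hv i⟩
  have hw : LinearIndependent (IntermediateField.adjoin k {jqModC k}) w := by
    refine LinearIndependent.of_comp (B.val.toLinearMap) ?_
    exact hli
  exact (hw.fintype_card_le_finrank).trans (finrank_extendScalars_le N H)

/-- **Upper bound, spanning form.** A family of at least `ψ(N)` elements of
`k(j(q^d) : d ∣ N)` which is linearly independent over `k(j)` spans `k(j(q^d) : d ∣ N)`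
over `k(j)`. -/
theorem mem_span_of_linearIndependent (N : ℕ) [NeZero N] (H : HasModPolys k N)
    {ι : Type*} [Fintype ι] (v : ι → LaurentSeries k)
    (hv : ∀ i, v i ∈ modularFunctionFieldFullC k N)
    (hli : LinearIndependent (IntermediateField.adjoin k {jqModC k}) v)
    (hcard : dedekindPsi N ≤ Fintype.card ι)
    {x : LaurentSeries k} (hx : x ∈ modularFunctionFieldFullC k N) :
    x ∈ Submodule.span (IntermediateField.adjoin k {jqModC k}) (Set.range v) := by
  classical
  have := finiteDimensional_extendScalars N H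
  set B := IntermediateField.extendScalars (adjoin_j_le_full (k := k) N) with hB
  let w : ι → B := fun i => ⟨v i, hv i⟩
  have hw : LinearIndependent (IntermediateField.adjoin k {jqModC k}) w := by
    refine LinearIndependent.of_comp (B.val.toLinearMap) ?_
    exact hli
  have hcard' : Fintype.card ι = Module.finrank (IntermediateField.adjoin k {jqModC k}) B :=
    le_antisymm hw.fintype_card_le_finrank ((finrank_extendScalars_le N H).trans hcard)
  have htop : Submodule.span (IntermediateField.adjoin k {jqModC k}) (Set.range w) = ⊤ :=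
    hw.span_eq_top_of_card_eq_finrank' hcard'
  have hxB : (⟨x, hx⟩ : B) ∈ Submodule.span (IntermediateField.adjoin k {jqModC k})
      (Set.range w) := by
    rw [htop]; exact Submodule.mem_top
  have := Submodule.apply_mem_span_image_of_mem_span (B.val.toLinearMap) hxB
  have himg : (B.val.toLinearMap) '' (Set.range w) = Set.range v := by
    ext y
    constructor
    · rintro ⟨_, ⟨i, rfl⟩, rfl⟩
      exact ⟨i, rfl⟩
    · rintro ⟨i, rfl⟩
      exact ⟨w i, ⟨i, rfl⟩, rfl⟩
  rw [himg] at this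
  exact this

end Upper

end Fermat.Agent.S28.H626

end

end
-- ===== PACK-END S28/H626/Upper.lean

-- ===== PACK-BEGIN S28/H867/Core.lean
section








set_option autoImplicit false
noncomputable section
open ModularCurve HahnSeries IntermediateField Polynomial

namespace Fermat.Agent.S28.H867

section Psi

theorem gFun_eq_dedekindPsi : ∀ {N : ℕ}, N ≠ 0 → gFun N = dedekindPsi N := by
  intro N
  induction N using Nat.strong_induction_on with
  | _ N ih =>
    intro hN
    rcases Nat.lt_or_ge 1 N with hN1 | hN1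
    swap
    · have : N = 1 := by omega
      subst this
      rw [gFun_one, dedekindPsi_one]
    have hpp : N.minFac.Prime := Nat.minFac_prime (by omega)
    have hpN : N.minFac ∣ N := Nat.minFac_dvd N
    have hNe : N / N.minFac * N.minFac = N := Nat.div_mul_cancel hpN
    have hM0 : N / N.minFac ≠ 0 := fun h0 => hN (by rw [← hNe, h0, zero_mul])
    have hlt : N / N.minFac < N := Nat.div_lt_self (by omega) hpp.one_lt
    have ihM := ih _ hlt hM0
    by_cases hd : N.minFac ∣ N / N.minFac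
    · calc gFun N = gFun (N / N.minFac * N.minFac) := by rw [hNe]
        _ = N.minFac * gFun (N / N.minFac) := gFun_mul_of_dvd hM0 hpp hd
        _ = N.minFac * dedekindPsi (N / N.minFac) := by rw [ihM]
        _ = dedekindPsi (N / N.minFac * N.minFac) := (H626.psi_mul_prime_of_dvd hM0 hpp hd).symm
        _ = dedekindPsi N := by rw [hNe]
    · calc gFun N = gFun (N / N.minFac * N.minFac) := by rw [hNe]
        _ = (N.minFac + 1) * gFun (N / N.minFac) := gFun_mul_of_not_dvd hM0 hpp hd
        _ = (N.minFac + 1) * dedekindPsi (N / N.minFac) := by rw [ihM]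
        _ = dedekindPsi (N / N.minFac * N.minFac) :=
            (H626.psi_mul_prime_of_not_dvd hM0 hpp hd).symm
        _ = dedekindPsi N := by rw [hNe]

end Psi

section Adapters

variable (k : Type*) [Field k]

/-- Leaf [L.I] from helper145's `eq_zero_of_sum_qExpand_mul_pow_eq_zero`. -/
theorem leafI (p : ℕ) [NeZero p] : LeafI k p := by
  intro B hB
  rw [Fintype.linearIndependent_iff]
  intro g hg i
  have hc : ∀ i, ∃ c : LaurentSeries k, qExpand k p c = (g i : LaurentSeries k) := by
    intro i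
    obtain ⟨c, hc⟩ := hB (g i).2
    exact ⟨c, hc⟩
  choose c hc using hc
  have h : ∑ i : Fin p, qExpand k p (c i) * (jqModC k) ^ (i : ℕ) = 0 := by
    rw [← hg]
    refine Finset.sum_congr rfl fun i _ => ?_
    rw [hc i]
    rfl
  have := H145.eq_zero_of_sum_qExpand_mul_pow_eq_zero p (jqModC k) (H145.jqModC_ne_zero' k)
    (H145.isCoprime_order_jqModC k p) c h i
  apply Subtype.ext
  rw [← hc i, this, map_zero]
  rfl

/-- Leaf [L.B1] from helper88's `h88_jp_not_mem_jField`. -/
theorem leafB1 (p : ℕ) [NeZero p] (hp : p.Prime) (hpk : (p : k) ≠ 0) (W : UnitPolyData p)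
    (hθ : (thetaL ℤ (jqModC ℤ)) ^ 6 = deltaL ℤ * (jqModC ℤ) ^ 4 * (jqModC ℤ - 1728) ^ 3) :
    LeafB1 k p :=
  h88_jp_not_mem_jField k p hpk hp.one_lt W hθ

/-- `ModPolyData` in helper626's hypothesis form. -/
theorem isModPoly_of_modPolyData {p : ℕ} [NeZero p] (D : ModPolyData p) :
    H626.IsModPoly p D.Φ := by
  have hev : ∀ y x : LaurentSeries ℤ, H626.ev2 D.Φ y x = D.Φ.eval₂ (evalAt y) x := by
    intro y x
    unfold H626.ev2
    congr 1
    apply Polynomial.ringHom_ext
    · intro a; simp [evalAt]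
    · simp [evalAt]
  refine ⟨D.monic, D.natDegree_eq, ?_, ?_⟩
  · rw [hev]; exact D.eval_jp
  · rw [hev]; exact D.eval_j

end Adapters

end Fermat.Agent.S28.H867

namespace Fermat.Agent.S28.H867

section Assembly

variable (k : Type*) [Field k]

theorem hasModPolys (N : ℕ)
    (hΦ : ∀ p : ℕ, p.Prime → p ∣ N → ∀ [NeZero p], Nonempty (ModPolyData p))
    (hchar : ∀ p : ℕ, p.Prime → p ∣ N → (p : k) ≠ 0) : H626.HasModPolys k N := by
  intro p hp hpN
  have : NeZero p := ⟨hp.ne_zero⟩
  obtain ⟨D⟩ := hΦ p hp hpN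
  exact ⟨hchar p hp hpN, D.Φ, isModPoly_of_modPolyData D⟩

/-- The upper bound in `relfinrank` form. -/
theorem degE_le_gFun (M : ℕ) (hM : M ≠ 0) (H : H626.HasModPolys k M) : degE k M ≤ gFun M := by
  have : NeZero M := ⟨hM⟩
  rw [gFun_eq_dedekindPsi hM, degE, relfinrank_eq_finrank_of_le (jField_le_EF k M)]
  exact H626.finrank_extendScalars_le M H

theorem good_of_inputs (N : ℕ) (hN : N ≠ 0)
    (hΦ : ∀ p : ℕ, p.Prime → p ∣ N → ∀ [NeZero p], Nonempty (ModPolyData p))
    (hW : ∀ p : ℕ, p.Prime → p ∣ N → ∀ [NeZero p], Nonempty (UnitPolyData p))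
    (hθ : (thetaL ℤ (jqModC ℤ)) ^ 6 = deltaL ℤ * (jqModC ℤ) ^ 4 * (jqModC ℤ - 1728) ^ 3)
    (hchar : ∀ p : ℕ, p.Prime → p ∣ N → (p : k) ≠ 0) : Good k N where
  ne_zero := hN
  modPoly := hΦ
  prime := by
    intro p hp hpN _
    obtain ⟨D⟩ := hΦ p hp hpN
    obtain ⟨W⟩ := hW p hp hpN
    exact primeLevel_of_leaves k hp D (leafI k p) (leafB1 k p hp (hchar p hp hpN) W hθ)
  indep := fun p _ _ _ => leafI k p
  upper := by
    intro M hMN
    have hM : M ≠ 0 := fun h0 => hN (by rw [h0] at hMN; exact Nat.eq_zero_of_zero_dvd hMN)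
    exact degE_le_gFun k M hM ((hasModPolys k N hΦ hchar).mono hMN)

variable {k} in
/-- Extraction of `ψ(N)` independent elements. -/
theorem Good.exists_linearIndependent {N : ℕ} (h : Good k N) :
    ∃ x : Fin (dedekindPsi N) → LaurentSeries k,
      (∀ i, x i ∈ modularFunctionFieldFullC k N) ∧ LinearIndependent (jField k) x := by
  have hdeg : degE k N = dedekindPsi N := by rw [h.degE_eq, gFun_eq_dedekindPsi h.ne_zero]
  have hle := jField_le_EF k N
  rw [degE, relfinrank_eq_finrank_of_le hle] at hdeg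
  obtain ⟨x, hx⟩ : ∃ x : Fin (dedekindPsi N) → extendScalars hle,
      LinearIndependent (jField k) x :=
    exists_linearIndependent_of_le_finrank hdeg.ge
  refine ⟨fun i => (x i : LaurentSeries k), fun i => (x i).2, ?_⟩
  have := hx.map' (extendScalars hle).val.toLinearMap
    (LinearMap.ker_eq_bot.mpr (extendScalars hle).val.injective)
  exact this

end Assembly

section Final

/-- **[L]** `CoreData` from the three analytic inputs. -/
theorem coreData_of_inputs (N : ℕ) [NeZero N] (ℓ : ℕ) [Fact ℓ.Prime] (hℓN : ¬ ℓ ∣ N)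
    (K : Type) [Field K] [CharP K ℓ]
    (hΦ : ∀ p : ℕ, p.Prime → p ∣ N → ∀ [NeZero p], Nonempty (ModPolyData p))
    (hW : ∀ p : ℕ, p.Prime → p ∣ N → ∀ [NeZero p], Nonempty (UnitPolyData p))
    (hθ : (thetaL ℤ (jqModC ℤ)) ^ 6 = deltaL ℤ * (jqModC ℤ) ^ 4 * (jqModC ℤ - 1728) ^ 3) :
    CoreData N K := by
  have hN : N ≠ 0 := NeZero.ne N
  have hcharK : ∀ p : ℕ, p.Prime → p ∣ N → (p : K) ≠ 0 := by
    intro p hp hpN h0
    have hdvd : ℓ ∣ p := (CharP.cast_eq_zero_iff K ℓ p).mp h0
    have hℓ : ℓ.Prime := Fact.out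
    have : ℓ = p := (Nat.prime_dvd_prime_iff_eq hℓ hp).mp hdvd
    exact hℓN (this ▸ hpN)
  have hcharQ : ∀ p : ℕ, p.Prime → p ∣ N → (p : ℚ) ≠ 0 := by
    intro p hp _
    exact_mod_cast hp.ne_zero
  have hgood : Good K N := good_of_inputs K N hN hΦ hW hθ hcharK
  refine H325.coreData_of_bounds N K (RingHom.id K) (dedekindPsi N)
    (coreData_integral N hΦ) ?_ hgood.exists_linearIndependent
  intro m x hx hli
  have := H626.card_le_of_linearIndependent (k := ℚ) N (hasModPolys ℚ N hΦ hcharQ) x hx hli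
  simpa using this

end Final

end Fermat.Agent.S28.H867

end
end
-- ===== PACK-END S28/H867/Core.lean

-- ===== PACK-BEGIN S28/H25/ThetaLaurent.lean
section




/-!
# The `θ`-identity for `j` in `ℤ((q))` (helper25, S28 piece [A-θ])

`(θ j)⁶ = Δ · j⁴ · (j - 1728)³` for `j = jqModC ℤ`, `Δ = q ∏ (1 - qⁿ)²⁴`, `θ = q d/dq`,
under the bridge hypothesis `DeltaBridge`.
-/

set_option autoImplicit false

open ModularCurve HahnSeries

noncomputable section

namespace Fermat.Agent.S28.H25

/-- `θ = q d/dq` on Laurent series: multiplies the coefficient of `qⁿ` by `n`.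
(Same definition as `thetaL` in helper28's skeleton.) -/
def thetaLaurent (R : Type*) [CommRing R] (f : LaurentSeries R) : LaurentSeries R where
  coeff n := (n : R) * f.coeff n
  isPWO_support' := f.isPWO_support.mono fun n hn => by
    simp only [Function.mem_support, ne_eq] at hn ⊢
    intro h
    exact hn (by rw [h, mul_zero])

@[simp] theorem thetaLaurent_coeff (R : Type*) [CommRing R] (f : LaurentSeries R) (n : ℤ) :
    (thetaLaurent R f).coeff n = (n : R) * f.coeff n := rfl

theorem thetaLaurent_single_neg_one_mul {R : Type*} [CommRing R] (u : PowerSeries R) :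
    thetaLaurent R (single (-1 : ℤ) 1 * ofPowerSeries ℤ R u) =
      single (-1 : ℤ) 1 * ofPowerSeries ℤ R (thetaP u - u) := by
  ext n
  rw [thetaLaurent_coeff, coeff_single_mul, coeff_single_mul, one_mul, one_mul, sub_neg_eq_add]
  rcases le_or_gt 0 (n + 1) with hn | hn
  · obtain ⟨m, hm⟩ := Int.eq_ofNat_of_zero_le hn
    rw [hm, ofPowerSeries_apply_coeff, ofPowerSeries_apply_coeff, map_sub, coeff_thetaP]
    have hn' : (n : R) = (m : R) - 1 := by
      have : n = (m : ℤ) - 1 := by omega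
      rw [this]
      push_cast
      ring
    rw [hn']
    ring
  · rw [ofPowerSeries_coeff_of_neg _ hn, ofPowerSeries_coeff_of_neg _ hn, mul_zero]

theorem jNum_map_int : jNum.map (Int.castRingHom ℤ) = jNum := by
  ext n
  simp

theorem jqModC_int_eq : jqModC ℤ = single (-1 : ℤ) 1 * ofPowerSeries ℤ ℤ jNum := by
  rw [jqModC, jNum_map_int]

/-- The formal discriminant `Δ = q ∏ (1 - qⁿ)²⁴` in `ℤ((q))`. -/
def deltaLaurentInt : LaurentSeries ℤ :=
  single (1 : ℤ) 1 * ofPowerSeries ℤ ℤ dedekindEtaUnit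

/-- **θ-identity**: `(θ j)⁶ = Δ · j⁴ · (j - 1728)³` in `ℤ((q))`. -/
theorem theta_identity_laurent (hΔ : DeltaBridge) :
    (thetaLaurent ℤ (jqModC ℤ)) ^ 6 =
      deltaLaurentInt * (jqModC ℤ) ^ 4 * (jqModC ℤ - 1728) ^ 3 := by
  have hP := theta_identity_powerSeries hΔ
  have hst : (single (-1 : ℤ) (1 : ℤ) : LaurentSeries ℤ) * single (1 : ℤ) (1 : ℤ) = 1 := by
    rw [single_mul_single]
    simp
  have hj' : jqModC ℤ - 1728 =
      single (-1 : ℤ) 1 * ofPowerSeries ℤ ℤ (jNum - 1728 * PowerSeries.X) := by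
    rw [jqModC_int_eq, map_sub, map_mul, ofPowerSeries_X, map_ofNat (ofPowerSeries ℤ ℤ) 1728]
    linear_combination (1728 : LaurentSeries ℤ) * hst
  have hP' : (ofPowerSeries ℤ ℤ (thetaP jNum - jNum)) ^ 6 =
      ofPowerSeries ℤ ℤ dedekindEtaUnit * (ofPowerSeries ℤ ℤ jNum) ^ 4 *
        (ofPowerSeries ℤ ℤ (jNum - 1728 * PowerSeries.X)) ^ 3 := by
    rw [← map_pow, hP]
    simp only [map_mul, map_pow]
  rw [hj', jqModC_int_eq, thetaLaurent_single_neg_one_mul, deltaLaurentInt]
  linear_combination (single (-1 : ℤ) (1 : ℤ) : LaurentSeries ℤ) ^ 6 * hP' -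
    (single (-1 : ℤ) (1 : ℤ) : LaurentSeries ℤ) ^ 6 * ofPowerSeries ℤ ℤ dedekindEtaUnit *
      (ofPowerSeries ℤ ℤ jNum) ^ 4 * (ofPowerSeries ℤ ℤ (jNum - 1728 * PowerSeries.X)) ^ 3 * hst

end Fermat.Agent.S28.H25

end
end
-- ===== PACK-END S28/H25/ThetaLaurent.lean

-- ===== PACK-BEGIN S28/H25/Theta.lean
section





/-!
# [A-θ] The `θ`-identity `(θ j)⁶ = Δ · j⁴ · (j - 1728)³` in `ℤ((q))` (helper25)

Unconditional, in the exact shape of the captain skeleton
(`Fermat.Agent.S28.thetaL`, `Fermat.Agent.S28.deltaL`, Prelude `jqModC`).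
-/

set_option autoImplicit false

open UpperHalfPlane hiding I
open ModularCurve HahnSeries

noncomputable section

namespace Fermat.Agent.S28.H25

/-- Bridge B2: `qExpansion 1 Δ = q ∏ (1 - qⁿ)²⁴` (from helper685's eta bridge). -/
theorem deltaBridge : DeltaBridge := by
  have h1 : Fermat.Agent.S28.H685.HasQExp 1 (fun τ => ModularForm.discriminant τ)
      (PowerSeries.X * Fermat.Agent.S28.H685.dedekindEtaUnitC) :=
    (Fermat.Agent.S28.H685.HasQExp.X.mul
      Fermat.Agent.S28.H685.hasQExp_dedekindEtaUnitC).congr_fun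
      (fun τ => (Fermat.Agent.S28.H685.discriminant_eq_etaC τ).symm)
  have h2 : Fermat.Agent.S28.H685.HasQExp 1 (fun τ => ModularForm.discriminant τ)
      (qExpansion 1 ModularForm.discriminant) := by
    intro τ
    exact ModularForm.hasSum_qExpansion (discForm) one_pos
      one_mem_strictPeriods_SL τ
  exact h2.unique one_pos h1

theorem thetaL_eq_thetaLaurent (R : Type*) [CommRing R] (f : LaurentSeries R) :
    Fermat.Agent.S28.thetaL R f = thetaLaurent R f := rfl

theorem deltaL_int_eq : Fermat.Agent.S28.deltaL ℤ = deltaLaurentInt := by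
  have h : dedekindEtaUnit.map (Int.castRingHom ℤ) = dedekindEtaUnit := by
    ext n
    simp
  rw [Fermat.Agent.S28.deltaL, deltaLaurentInt, h]

/-- **[A-θ]** `(θ j)⁶ = Δ · j⁴ · (j - 1728)³` in `ℤ((q))`. -/
theorem theta_identity :
    (Fermat.Agent.S28.thetaL ℤ (jqModC ℤ)) ^ 6 =
      Fermat.Agent.S28.deltaL ℤ * (jqModC ℤ) ^ 4 * (jqModC ℤ - 1728) ^ 3 := by
  rw [thetaL_eq_thetaLaurent, deltaL_int_eq]
  exact theta_identity_laurent deltaBridge

end Fermat.Agent.S28.H25

end
end
-- ===== PACK-END S28/H25/Theta.lean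

-- ===== PACK-BEGIN S18/Mod/H216/Asm.lean
section




/-!
# S18 / MOD-ASM (helper216): node_mod from the six PARTS at the concrete objects

Targets for the MOD owners (exact statements; `E` ranges over ALL number fields `E ⊆ Q̄`):

| part | statement to prove | content |
|---|---|---|
| G-R   | `PartRStatement M A`         | `A ∩ E` is a DVR of `E`, finite residue field (needs `A.LiesOverPrime ℓ`) |
| G-FLD | `PartFldStatement M x`       | constants, `x` transcendental, `[Fc : Ec(x)] < ∞` |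
| G-V   | `PartVStatement M A x`       | `Vc M A E` is the Gauss valuation ring (needs S28 `CoreData`, i.e. `ℓ ∤ M`) |
| G-QEP | `PartQepStatement M A x`     | q-expansion principle on the charts `R[x]`, `R[x⁻¹]` |
| G-SEP | `PartSepStatement M A x`     | separability of the residue field of `Vc` over `κ(x̄)` |
| G-BR  | `PartBrStatement M A x S`    | branch values |

`goodAt_of_parts` : the six statements give `GoodAt M A x S`.
`goodModelStatement_of_parts` : the frozen node `Mod.GoodModelStatement M ℓ A` from the six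
statements for `x = j` (`ℓ ≥ 5`) and `GoodAt` for the Hauptmodul coordinates (`ℓ = 2, 3`; M3-T).
-/

set_option autoImplicit false

noncomputable section

namespace Fermat.Agent.S18.Mod.H216

open ModularCurve AlgebraicCurve HahnSeries Fermat.Agent.S18 Fermat.Agent.S18.Mod
open Fermat.Agent.S18.Alg

/-- **G-R** at the concrete objects. -/
def PartRStatement (M : ℕ) (A : ValuationSubring Qb) : Prop :=
  ∀ E : IntermediateField ℚ Qb, FiniteDimensional ℚ E →
    ∃ w : Om M, PartR (Ec M E) (Rc M A E) w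

/-- **G-FLD** at the concrete objects. -/
def PartFldStatement (M : ℕ) (x : Om M) : Prop :=
  ∀ E : IntermediateField ℚ Qb, FiniteDimensional ℚ E →
    PartFld (Lc M) (Ec M E) (Fc M E) x

/-- **G-V** at the concrete objects, for every uniformiser `w`. -/
def PartVStatement (M : ℕ) (A : ValuationSubring Qb) (x : Om M) : Prop :=
  ∀ E : IntermediateField ℚ Qb, FiniteDimensional ℚ E →
    ∀ w : Om M, PartR (Ec M E) (Rc M A E) w →
      PartV (Fc M E) (Rc M A E) (Vc M A E) w x

/-- **G-QEP** at the concrete objects, for every uniformiser `w`. -/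
def PartQepStatement (M : ℕ) (A : ValuationSubring Qb) (x : Om M) : Prop :=
  ∀ E : IntermediateField ℚ Qb, FiniteDimensional ℚ E →
    ∀ w : Om M, PartR (Ec M E) (Rc M A E) w →
      PartQep (Fc M E) (Rc M A E) (Vc M A E) w x

/-- **G-SEP** at the concrete objects, for every uniformiser `w`. -/
def PartSepStatement (M : ℕ) (A : ValuationSubring Qb) (x : Om M) : Prop :=
  ∀ E : IntermediateField ℚ Qb, FiniteDimensional ℚ E →
    ∀ w : Om M, PartR (Ec M E) (Rc M A E) w →
      PartSep (Rc M A E) (Vc M A E) w x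

/-- **G-BR** at the concrete objects. -/
def PartBrStatement (M : ℕ) (A : ValuationSubring Qb) (x : Om M) (S : Finset (Om M)) : Prop :=
  ∀ E : IntermediateField ℚ Qb, FiniteDimensional ℚ E →
    PartBr (Lc M) (Rc M A E) x S

theorem charZero_Om (M : ℕ) : CharZero (Om M) :=
  charZero_of_injective_algebraMap (algebraMap Qb (Om M)).injective

/-- The six parts give `GoodAt`. -/
theorem goodAt_of_parts {M : ℕ} {A : ValuationSubring Qb} {x : Om M} {S : Finset (Om M)}
    (hR : PartRStatement M A) (hF : PartFldStatement M x) (hV : PartVStatement M A x)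
    (hQ : PartQepStatement M A x) (hS : PartSepStatement M A x)
    (hB : PartBrStatement M A x S) : GoodAt M A x S := by
  intro E hE
  obtain ⟨w, hw⟩ := hR E hE
  exact ⟨Vc M A E, w, coe_Vc M A E,
    goodModel_of_parts (charZero_Om M) hw (hF E hE) (hV E hE w hw) (hQ E hE w hw)
      (hS E hE w hw) (hB E hE)⟩

/-- **MOD assembly**: the frozen node `Mod.GoodModelStatement M ℓ A` from the parts for the
coordinate `j` (used when `ℓ ≥ 5`) and `GoodAt` for the Hauptmodul coordinates (`ℓ = 2, 3`). -/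
theorem goodModelStatement_of_parts (M ℓ : ℕ) (A : ValuationSubring Qb)
    (hR : 5 ≤ ℓ → PartRStatement M A)
    (hF : 5 ≤ ℓ → PartFldStatement M (jOm M))
    (hV : 5 ≤ ℓ → PartVStatement M A (jOm M))
    (hQ : 5 ≤ ℓ → PartQepStatement M A (jOm M))
    (hS : 5 ≤ ℓ → PartSepStatement M A (jOm M))
    (hB : 5 ≤ ℓ → ∀ S : Finset (Om M), (∀ s, s ∈ S ↔ s = 0 ∨ s = 1728) →
      PartBrStatement M A (jOm M) S)
    (ht : ¬ 5 ≤ ℓ → ∀ (x : Om M) (S : Finset (Om M)), IsCoordinate M ℓ x S → GoodAt M A x S) :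
    GoodModelStatement M ℓ A := by
  refine goodModelStatement_of_goodAt M ℓ A fun x S hxS => ?_
  by_cases h5 : 5 ≤ ℓ
  · rcases hxS with ⟨-, rfl, hS'⟩ | ⟨h | h, -⟩
    · exact goodAt_of_parts (hR h5) (hF h5) (hV h5) (hQ h5) (hS h5) (hB h5 S hS')
    · omega
    · omega
  · exact ht h5 x S hxS

end Fermat.Agent.S18.Mod.H216

end
end
-- ===== PACK-END S18/Mod/H216/Asm.lean

-- ===== PACK-BEGIN S18/H107/Base.lean
section






/-!
# helper107 — S18 / M3-T : `BaseModel107` = `GoodModel` without the branch-set fields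

`BaseModel107 Lc Ec Fc R V w x` consists of all fields of the frozen `Alg.GoodModel` (v4) except
`S_mem`, `S_distinct`, `S_unit`, `unramified`.  For `x = j` it holds for every `ℓ ∤ M`
(including `ℓ = 2, 3`, where `GoodModel … j {0, 1728}` is FALSE because `0 ≡ 1728`).

Generic transfer lemmas `j ↦ t` for the easy fields: `transcendental`, `finite`, `separable`,
`t ∈ V` (integral closedness of `V` in `Fc`).
-/

set_option autoImplicit false

namespace Fermat.Agent.S18.H107

open Polynomial Fermat.Agent.S18.Alg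

variable {Ω : Type*} [Field Ω]

/-- All fields of `Alg.GoodModel` that do not mention the branch set `S`. -/
structure BaseModel107 (Lc Ec Fc : Subfield Ω) (R V : Subring Ω) (w x : Ω) : Prop where
  charZero : CharZero Ω
  R_le : (R : Set Ω) ⊆ Ec
  R_total : ∀ e ∈ Ec, e ∈ R ∨ e⁻¹ ∈ R
  w_mem : w ∈ R
  w_ne_zero : w ≠ 0
  w_inv_not_mem : w⁻¹ ∉ R
  w_gen : ∀ r ∈ R, r⁻¹ ∉ R → r * w⁻¹ ∈ R
  w_discrete : ∀ r ∈ R, r ≠ 0 → ∃ n : ℕ, r * (w⁻¹) ^ n ∈ R ∧ (r * (w⁻¹) ^ n)⁻¹ ∈ R
  residue_perfect : ∃ p : ℕ, p.Prime ∧ (p : Ω) * w⁻¹ ∈ R ∧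
    ∀ r ∈ R, ∃ s ∈ R, (r - s ^ p) * w⁻¹ ∈ R
  E_le_L : Ec ≤ Lc
  E_le_F : Ec ≤ Fc
  L_algebraic : ∀ a ∈ Lc, IsAlgebraic Ec a
  L_algClosed : IsAlgClosed Lc
  E_closed_in_F : ∀ f ∈ Fc, IsAlgebraic Ec f → f ∈ Ec
  compositum : Subfield.closure ((Fc : Set Ω) ∪ Lc) = ⊤
  x_mem : x ∈ Fc
  x_transcendental : Transcendental Lc x
  finite : ∃ s : Finset Ω, (s : Set Ω) ⊆ Fc ∧
    ∀ f ∈ Fc, f ∈ Submodule.span (ratField Ec x) (s : Set Ω)
  V_le : (V : Set Ω) ⊆ Fc
  V_total : ∀ f ∈ Fc, f ∈ V ∨ f⁻¹ ∈ V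
  R_le_V : R ≤ V
  w_inv_not_mem_V : w⁻¹ ∉ V
  V_gen : ∀ f ∈ V, f⁻¹ ∉ V → f * w⁻¹ ∈ V
  x_mem_V : x ∈ V
  gauss : ∀ P : Polynomial Ω, (∀ i, P.coeff i ∈ R) → (∃ i, P.coeff i ≠ 0 ∧ (P.coeff i)⁻¹ ∈ R) →
    (P.eval x)⁻¹ ∈ V
  qep_fin : ∀ b ∈ chart Fc R x, b * w⁻¹ ∈ V → b * w⁻¹ ∈ chart Fc R x
  qep_inf : ∀ b ∈ chart Fc R x⁻¹, b * w⁻¹ ∈ V → b * w⁻¹ ∈ chart Fc R x⁻¹
  separable : ∀ f ∈ V, ∃ P : Polynomial Ω, (∀ i, P.coeff i ∈ polyRing R x) ∧
    P.eval f * w⁻¹ ∈ V ∧ (Polynomial.derivative P).eval f ≠ 0 ∧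
    ((Polynomial.derivative P).eval f)⁻¹ ∈ V

theorem baseModel_of_goodModel107 {Lc Ec Fc : Subfield Ω} {R V : Subring Ω} {w x : Ω}
    {S : Finset Ω} (h : GoodModel Lc Ec Fc R V w x S) : BaseModel107 Lc Ec Fc R V w x where
  charZero := h.charZero
  R_le := h.R_le
  R_total := h.R_total
  w_mem := h.w_mem
  w_ne_zero := h.w_ne_zero
  w_inv_not_mem := h.w_inv_not_mem
  w_gen := h.w_gen
  w_discrete := h.w_discrete
  residue_perfect := h.residue_perfect
  E_le_L := h.E_le_L
  E_le_F := h.E_le_F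
  L_algebraic := h.L_algebraic
  L_algClosed := h.L_algClosed
  E_closed_in_F := h.E_closed_in_F
  compositum := h.compositum
  x_mem := h.x_mem
  x_transcendental := h.x_transcendental
  finite := h.finite
  V_le := h.V_le
  V_total := h.V_total
  R_le_V := h.R_le_V
  w_inv_not_mem_V := h.w_inv_not_mem_V
  V_gen := h.V_gen
  x_mem_V := h.x_mem_V
  gauss := h.gauss
  qep_fin := h.qep_fin
  qep_inf := h.qep_inf
  separable := h.separable

theorem BaseModel107.toGoodModel {Lc Ec Fc : Subfield Ω} {R V : Subring Ω} {w x : Ω}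
    (h : BaseModel107 Lc Ec Fc R V w x) (S : Finset Ω) (S_mem : ∀ s ∈ S, s ∈ R)
    (S_distinct : ∀ s ∈ S, ∀ t ∈ S, s ≠ t → (s - t)⁻¹ ∈ R)
    (S_unit : ∀ s ∈ S, s ≠ 0 → s⁻¹ ∈ R)
    (unramified : ∀ O : ValuationSubring Ω, (∀ a ∈ Lc, a ∈ O) → ∀ c ∈ Lc, c ∉ S →
      x - c ∈ O → (x - c)⁻¹ ∉ O → ∀ t ∈ O, t⁻¹ ∉ O → t * (x - c)⁻¹ ∈ O) :
    GoodModel Lc Ec Fc R V w x S where
  charZero := h.charZero
  R_le := h.R_le
  R_total := h.R_total
  w_mem := h.w_mem
  w_ne_zero := h.w_ne_zero
  w_inv_not_mem := h.w_inv_not_mem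
  w_gen := h.w_gen
  w_discrete := h.w_discrete
  residue_perfect := h.residue_perfect
  E_le_L := h.E_le_L
  E_le_F := h.E_le_F
  L_algebraic := h.L_algebraic
  L_algClosed := h.L_algClosed
  E_closed_in_F := h.E_closed_in_F
  compositum := h.compositum
  x_mem := h.x_mem
  x_transcendental := h.x_transcendental
  finite := h.finite
  V_le := h.V_le
  V_total := h.V_total
  R_le_V := h.R_le_V
  w_inv_not_mem_V := h.w_inv_not_mem_V
  V_gen := h.V_gen
  x_mem_V := h.x_mem_V
  gauss := h.gauss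
  qep_fin := h.qep_fin
  qep_inf := h.qep_inf
  separable := h.separable
  S_mem := S_mem
  S_distinct := S_distinct
  S_unit := S_unit
  unramified := unramified

/-- A subring `V` that is "total at `b`" contains `b` as soon as `b` is integral over a subring
of `V` (valuation rings are integrally closed). -/
theorem mem_of_isIntegral_of_total107 (V T : Subring Ω) (hT : T ≤ V) {b : Ω}
    (hb : b ∈ V ∨ b⁻¹ ∈ V) (hint : IsIntegral T b) : b ∈ V := by
  rcases hb with h | h
  · exact h
  obtain ⟨P, hP, hc, hPb⟩ := (isIntegral_iff_exists_poly107 T b).1 hint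
  rcases eq_or_ne b 0 with rfl | hb0
  · exact V.zero_mem
  have hn : P.natDegree ≠ 0 := by
    intro h0
    have h1 : P = 1 := by
      have := Polynomial.eq_C_of_natDegree_eq_zero h0
      rw [this, ← h0]
      have hl : P.coeff P.natDegree = 1 := hP
      rw [hl, map_one]
    rw [h1, eval_one] at hPb
    exact one_ne_zero hPb
  obtain ⟨n, hn'⟩ := Nat.exists_eq_succ_of_ne_zero hn
  rw [eval_eq_sum_range, hn', Finset.sum_range_succ] at hPb
  have hlead : P.coeff (n + 1) = 1 := by
    have : P.coeff P.natDegree = 1 := hP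
    rwa [hn'] at this
  rw [hlead, one_mul] at hPb
  -- `b = - ∑ i < n+1, a_i * (b⁻¹) ^ (n - i)`
  have key : b = -∑ i ∈ Finset.range (n + 1), P.coeff i * (b⁻¹) ^ (n - i) := by
    have h1 : b ^ (n + 1) = -∑ i ∈ Finset.range (n + 1), P.coeff i * b ^ i := by
      linear_combination hPb
    calc b = b ^ (n + 1) * (b⁻¹) ^ n := by
          rw [pow_succ, inv_pow]
          field_simp
      _ = (-∑ i ∈ Finset.range (n + 1), P.coeff i * b ^ i) * (b⁻¹) ^ n := by rw [h1]
      _ = -∑ i ∈ Finset.range (n + 1), P.coeff i * (b⁻¹) ^ (n - i) := by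
          rw [neg_mul, Finset.sum_mul]
          congr 1
          refine Finset.sum_congr rfl fun i hi => ?_
          have hi' : i ≤ n := Nat.lt_succ_iff.1 (Finset.mem_range.1 hi)
          have e : (b⁻¹) ^ n = (b⁻¹) ^ i * (b⁻¹) ^ (n - i) := by
            rw [← pow_add, Nat.add_sub_cancel' hi']
          rw [e, mul_assoc, ← mul_assoc (b ^ i), inv_pow b i,
            mul_inv_cancel₀ (pow_ne_zero _ hb0), one_mul]
  rw [key]
  refine V.neg_mem (V.sum_mem fun i _ => V.mul_mem (hT (hc i)) (V.pow_mem h _))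

theorem ratField_le107 {Ec : Subfield Ω} {x y : Ω} (h : x ∈ ratField Ec y) :
    ratField Ec x ≤ ratField Ec y := by
  refine Subfield.closure_le.2 ?_
  rintro c (hc | hc)
  · exact Subfield.subset_closure (Or.inl hc)
  · rw [Set.mem_singleton_iff] at hc
    rw [hc]
    exact h

theorem self_mem_ratField107 (Ec : Subfield Ω) (x : Ω) : x ∈ ratField Ec x :=
  Subfield.subset_closure (Or.inr rfl)

theorem natCast_mem_ratField107 (Ec : Subfield Ω) (x : Ω) (n : ℕ) [n.AtLeastTwo] :
    (OfNat.ofNat n : Ω) ∈ ratField Ec x := ofNat_mem _ n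

/-- Spans over a bigger subfield are bigger. -/
theorem span_mono_subfield107 {K₁ K₂ : Subfield Ω} (h : K₁ ≤ K₂) (s : Set Ω) {f : Ω}
    (hf : f ∈ Submodule.span K₁ s) : f ∈ Submodule.span K₂ s := by
  induction hf using Submodule.span_induction with
  | mem x hx => exact Submodule.subset_span hx
  | zero => exact Submodule.zero_mem _
  | add x y _ _ hx hy => exact Submodule.add_mem _ hx hy
  | smul a x _ hx =>
    have : a • x = (⟨(a : Ω), h a.2⟩ : K₂) • x := rfl
    rw [this]
    exact Submodule.smul_mem _ _ hx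

theorem finite_transfer107 {Ec Fc : Subfield Ω} {j t : Ω} (hj : j ∈ ratField Ec t)
    (h : ∃ s : Finset Ω, (s : Set Ω) ⊆ Fc ∧
      ∀ f ∈ Fc, f ∈ Submodule.span (ratField Ec j) (s : Set Ω)) :
    ∃ s : Finset Ω, (s : Set Ω) ⊆ Fc ∧
      ∀ f ∈ Fc, f ∈ Submodule.span (ratField Ec t) (s : Set Ω) := by
  obtain ⟨s, hs, hspan⟩ := h
  exact ⟨s, hs, fun f hf => span_mono_subfield107 (ratField_le107 hj) _ (hspan f hf)⟩

/-- `separable` passes from `j` to `t` when `j * e ∈ R[t]` for some `e ∈ R[t]` that is a unit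
of `V`. -/
theorem separable_transfer107 {R V : Subring Ω} {w j t e : Ω} (he : e ∈ polyRing R t)
    (hje : j * e ∈ polyRing R t) (heV : e ∈ V) (heV' : e⁻¹ ∈ V) (he0 : e ≠ 0)
    (h : ∀ f ∈ V, ∃ P : Polynomial Ω, (∀ i, P.coeff i ∈ polyRing R j) ∧
      P.eval f * w⁻¹ ∈ V ∧ (Polynomial.derivative P).eval f ≠ 0 ∧
      ((Polynomial.derivative P).eval f)⁻¹ ∈ V) :
    ∀ f ∈ V, ∃ P : Polynomial Ω, (∀ i, P.coeff i ∈ polyRing R t) ∧
      P.eval f * w⁻¹ ∈ V ∧ (Polynomial.derivative P).eval f ≠ 0 ∧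
      ((Polynomial.derivative P).eval f)⁻¹ ∈ V := by
  intro f hf
  obtain ⟨P, hc, hPf, hd0, hdV⟩ := h f hf
  have hex : ∀ i, ∃ d : ℕ, ∀ d', d ≤ d' → P.coeff i * e ^ d' ∈ polyRing R t := fun i =>
    exists_pow_mul_mem107 (le_polyRing107 R t) he hje (hc i)
  choose d hd using hex
  set D := (Finset.range (P.natDegree + 1)).sup d with hD
  have hDi : ∀ i, P.coeff i * e ^ D ∈ polyRing R t := by
    intro i
    by_cases hi : i ∈ Finset.range (P.natDegree + 1)
    · exact hd i D (Finset.le_sup hi)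
    · rw [Finset.mem_range, not_lt] at hi
      rw [coeff_eq_zero_of_natDegree_lt (by omega), zero_mul]
      exact Subring.zero_mem _
  refine ⟨C (e ^ D) * P, fun i => ?_, ?_, ?_, ?_⟩
  · rw [coeff_C_mul, mul_comm]
    exact hDi i
  · rw [eval_mul, eval_C, mul_assoc]
    exact V.mul_mem (V.pow_mem heV D) hPf
  · rw [derivative_C_mul, eval_mul, eval_C]
    exact mul_ne_zero (pow_ne_zero _ he0) hd0
  · rw [derivative_C_mul, eval_mul, eval_C, mul_inv, ← inv_pow]
    exact V.mul_mem (V.pow_mem heV' D) hdV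

end Fermat.Agent.S18.H107

end
-- ===== PACK-END S18/H107/Base.lean

-- ===== PACK-BEGIN S18/H107/T2Qep.lean
section






/-!
# helper107 — S18 / M3-T : QEP for the Hauptmodul `t = t₂` of `X₀(2)` (case `ℓ = 3`)

Input: the relation `j * t ^ 2 = (t + 256) ^ 3`, `2⁻¹ ∈ R`, QEP for the charts of `j` and `j⁻¹`.
Output: QEP for the charts of `t` and `t⁻¹` (`qep_t2_fin107`, `qep_t2_inf107`).
-/

set_option autoImplicit false

namespace Fermat.Agent.S18.H107

open Polynomial Fermat.Agent.S18.Alg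

variable {Ω : Type*} [Field Ω]

/-- The Hauptmodul relation for `X₀(2)` together with the needed side conditions. -/
structure HauptT2107 (Fc : Subfield Ω) (R V : Subring Ω) (j t : Ω) : Prop where
  rel : j * t ^ 2 = (t + 256) ^ 3
  two_inv : (2 : Ω)⁻¹ ∈ R
  two_ne : (2 : Ω) ≠ 0
  j_ne : j ≠ 0
  t_mem_Fc : t ∈ Fc
  t_mem_V : t ∈ V
  t256_inv_mem_V : (t + 256)⁻¹ ∈ V

namespace HauptT2107

variable {Fc : Subfield Ω} {R V : Subring Ω} {j t : Ω}

theorem c256_ne (h : HauptT2107 Fc R V j t) : (256 : Ω) ≠ 0 := by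
  have : (256 : Ω) = 2 ^ 8 := by norm_num
  rw [this]
  exact pow_ne_zero _ h.two_ne

theorem inv256_mem (h : HauptT2107 Fc R V j t) : (256 : Ω)⁻¹ ∈ R := by
  have := R.pow_mem h.two_inv 8
  have e : ((2 : Ω)⁻¹) ^ 8 = (256 : Ω)⁻¹ := by norm_num
  rwa [e] at this

theorem t_ne (h : HauptT2107 Fc R V j t) : t ≠ 0 := by
  intro ht
  have := h.rel
  rw [ht] at this
  have h256 := h.c256_ne
  have h3 : (256 : Ω) ^ 3 = 0 := by
    have e : ((0 : Ω) + 256) ^ 3 = 256 ^ 3 := by ring
    rw [← e, ← this]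
    ring
  exact h256 (pow_eq_zero_iff (by norm_num) |>.1 h3)

theorem t256_ne (h : HauptT2107 Fc R V j t) : t + 256 ≠ 0 := by
  intro ht
  have := h.rel
  rw [ht] at this
  have h0 : j * t ^ 2 = 0 := by rw [this]; ring
  rcases mul_eq_zero.1 h0 with hj | ht0
  · exact h.j_ne hj
  · exact h.t_ne (pow_eq_zero_iff (by norm_num) |>.1 ht0)

/-- `t` is integral over `R[j]`. -/
theorem t_int (h : HauptT2107 Fc R V j t) : t ∈ intCl107 (polyRing R j) := by
  refine mem_intCl_of_cubic107 _ t (768 - j) 196608 16777216 ?_ (ofNat_mem _ _) (ofNat_mem _ _) ?_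
  · exact Subring.sub_mem _ (ofNat_mem _ _) (self_mem_polyRing107 R j)
  · linear_combination -h.rel

/-- `h = t / (t + 256)` is integral over `R[j⁻¹]`. -/
theorem h_int (h : HauptT2107 Fc R V j t) : t * (t + 256)⁻¹ ∈ intCl107 (polyRing R j⁻¹) := by
  refine mem_intCl_of_cubic107 _ _ (-1) 0 (256 * j⁻¹) ?_ (Subring.zero_mem _) ?_ ?_
  · exact Subring.neg_mem _ (Subring.one_mem _)
  · exact Subring.mul_mem _ (ofNat_mem _ _) (self_mem_polyRing107 R j⁻¹)
  · have hj := h.j_ne
    have ht := h.t256_ne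
    field_simp
    linear_combination (-256 : Ω) * h.rel

/-- `t⁻¹` is integral over `R[j]` (uses `2⁻¹ ∈ R`). -/
theorem tinv_int (h : HauptT2107 Fc R V j t) : t⁻¹ ∈ intCl107 (polyRing R j) := by
  have h256 := h.inv256_mem
  have hR := le_polyRing107 R j
  refine mem_intCl_of_cubic107 _ _ (3 * (256 : Ω)⁻¹) ((768 - j) * ((256 : Ω)⁻¹) ^ 3)
    (((256 : Ω)⁻¹) ^ 3) ?_ ?_ ?_ ?_
  · exact Subring.mul_mem _ (ofNat_mem _ _) (hR h256)
  · exact Subring.mul_mem _ (Subring.sub_mem _ (ofNat_mem _ _) (self_mem_polyRing107 R j))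
      (Subring.pow_mem _ (hR h256) 3)
  · exact Subring.pow_mem _ (hR h256) 3
  · have ht := h.t_ne
    have hc := h.c256_ne
    field_simp
    linear_combination -h.rel

theorem open1_fin (h : HauptT2107 Fc R V j t) : OpenData107 Fc R V t j t 1 where
  g_mem := self_mem_polyRing107 R t
  e_mem_Fc := Fc.one_mem
  e_mem_V := V.one_mem
  e_int := Subring.one_mem _
  xe_int := by rw [mul_one]; exact h.t_int
  y_loc := ⟨2, by
    rw [h.rel]
    exact le_intCl107 _ (Subring.pow_mem _
      (Subring.add_mem _ (self_mem_polyRing107 R t) (ofNat_mem _ _)) 3)⟩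
  e_inv := ⟨1, Subring.one_mem _, 0, by simp⟩

theorem open2_fin (h : HauptT2107 Fc R V j t) :
    OpenData107 Fc R V t j⁻¹ (t + 256) (256 * (t + 256)⁻¹) where
  g_mem := Subring.add_mem _ (self_mem_polyRing107 R t) (ofNat_mem _ _)
  e_mem_Fc := Fc.mul_mem (ofNat_mem _ _)
    (Fc.inv_mem (Fc.add_mem h.t_mem_Fc (ofNat_mem _ _)))
  e_mem_V := V.mul_mem (ofNat_mem _ _) h.t256_inv_mem_V
  e_int := by
    have e : 256 * (t + 256)⁻¹ = 1 - t * (t + 256)⁻¹ := by
      have ht := h.t256_ne
      field_simp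
      ring
    rw [e]
    exact Subring.sub_mem _ (Subring.one_mem _) h.h_int
  xe_int := by
    have e : t * (256 * (t + 256)⁻¹) = 256 * (t * (t + 256)⁻¹) := by ring
    rw [e]
    exact Subring.mul_mem _ (ofNat_mem _ _) h.h_int
  y_loc := ⟨3, by
    have e : j⁻¹ * (t + 256) ^ 3 = t ^ 2 := by
      have hj := h.j_ne
      field_simp
      linear_combination -h.rel
    rw [e]
    exact le_intCl107 _ (Subring.pow_mem _ (self_mem_polyRing107 R t) 2)⟩
  e_inv := ⟨(t + 256) * (256 : Ω)⁻¹,
    le_intCl107 _ (Subring.mul_mem _ (Subring.add_mem _ (self_mem_polyRing107 R t) (ofNat_mem _ _))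
      (le_polyRing107 R t h.inv256_mem)), 0, by
    have ht := h.t256_ne
    have hc := h.c256_ne
    field_simp⟩

theorem open1_inf (h : HauptT2107 Fc R V j t) : OpenData107 Fc R V t⁻¹ j t⁻¹ 1 where
  g_mem := self_mem_polyRing107 R t⁻¹
  e_mem_Fc := Fc.one_mem
  e_mem_V := V.one_mem
  e_int := Subring.one_mem _
  xe_int := by rw [mul_one]; exact h.tinv_int
  y_loc := ⟨1, by
    have e : j * t⁻¹ ^ 1 = (1 + 256 * t⁻¹) ^ 3 := by
      have ht := h.t_ne
      field_simp
      linear_combination h.rel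
    rw [e]
    exact le_intCl107 _ (Subring.pow_mem _ (Subring.add_mem _ (Subring.one_mem _)
      (Subring.mul_mem _ (ofNat_mem _ _) (self_mem_polyRing107 R t⁻¹))) 3)⟩
  e_inv := ⟨1, Subring.one_mem _, 0, by simp⟩

theorem open2_inf (h : HauptT2107 Fc R V j t) :
    OpenData107 Fc R V t⁻¹ j⁻¹ (1 + 256 * t⁻¹) (t * (t + 256)⁻¹) where
  g_mem := Subring.add_mem _ (Subring.one_mem _)
    (Subring.mul_mem _ (ofNat_mem _ _) (self_mem_polyRing107 R t⁻¹))
  e_mem_Fc := Fc.mul_mem h.t_mem_Fc (Fc.inv_mem (Fc.add_mem h.t_mem_Fc (ofNat_mem _ _)))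
  e_mem_V := V.mul_mem h.t_mem_V h.t256_inv_mem_V
  e_int := h.h_int
  xe_int := by
    have e : t⁻¹ * (t * (t + 256)⁻¹) = (1 - t * (t + 256)⁻¹) * (256 : Ω)⁻¹ := by
      have ht := h.t_ne
      have ht' := h.t256_ne
      have hc := h.c256_ne
      field_simp
      ring
    rw [e]
    exact Subring.mul_mem _ (Subring.sub_mem _ (Subring.one_mem _) h.h_int)
      (le_intCl107 _ (le_polyRing107 R j⁻¹ h.inv256_mem))
  y_loc := ⟨3, by
    have e : j⁻¹ * (1 + 256 * t⁻¹) ^ 3 = t⁻¹ := by
      have hj := h.j_ne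
      have ht := h.t_ne
      field_simp
      linear_combination -h.rel
    rw [e]
    exact le_intCl107 _ (self_mem_polyRing107 R t⁻¹)⟩
  e_inv := ⟨1 + 256 * t⁻¹, le_intCl107 _ (Subring.add_mem _ (Subring.one_mem _)
      (Subring.mul_mem _ (ofNat_mem _ _) (self_mem_polyRing107 R t⁻¹))), 0, by
    have ht := h.t_ne
    have ht' := h.t256_ne
    field_simp⟩

/-- **QEP for the chart of `t₂`.** -/
theorem qep_fin (h : HauptT2107 Fc R V j t) {w : Ω} (hw : w ∈ Fc)
    (q₁ : Qep107 Fc R V w j) (q₂ : Qep107 Fc R V w j⁻¹) : Qep107 Fc R V w t := by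
  refine qep_transfer107 (a := -(256 : Ω)⁻¹) (b := (256 : Ω)⁻¹) hw q₁ q₂ h.open1_fin h.open2_fin
    (Subring.neg_mem _ (le_polyRing107 R t h.inv256_mem)) (le_polyRing107 R t h.inv256_mem) ?_
  have hc := h.c256_ne
  field_simp
  ring

/-- **QEP for the chart of `t₂⁻¹`.** -/
theorem qep_inf (h : HauptT2107 Fc R V j t) {w : Ω} (hw : w ∈ Fc)
    (q₁ : Qep107 Fc R V w j) (q₂ : Qep107 Fc R V w j⁻¹) : Qep107 Fc R V w t⁻¹ := by
  refine qep_transfer107 (a := -256) (b := 1) hw q₁ q₂ h.open1_inf h.open2_inf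
    (Subring.neg_mem _ (ofNat_mem _ _)) (Subring.one_mem _) ?_
  ring

end HauptT2107

end Fermat.Agent.S18.H107

end
-- ===== PACK-END S18/H107/T2Qep.lean

-- ===== PACK-BEGIN S18/H107/T2Model.lean
section






/-!
# helper107 — S18 / M3-T : the good model for the coordinate `t₂` (case `ℓ = 3`)

`goodModel_t2_107` : from the `j`-model WITHOUT branch-set fields (`BaseModel107 … j`, true for
every `ℓ ∤ M`), the branch data of the `j`-line in characteristic `0` (`BranchJ107`), the identity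
`j t² = (t + 256)³`, `2⁻¹ ∈ R`, `t ∈ Fc ∩ V` and the Gauss property of `t`, we get the frozen
`Alg.GoodModel Lc Ec Fc R V w t S` with `S = {0, -64}`.
-/

set_option autoImplicit false

namespace Fermat.Agent.S18.H107

open Polynomial Fermat.Agent.S18.Alg

variable {Ω : Type*} [Field Ω]

theorem ne_zero_of_transcendental107 {Lc : Subfield Ω} {j : Ω} (h : Transcendental Lc j) :
    j ≠ 0 := by
  rintro rfl
  exact h isAlgebraic_zero

/-- `gauss` applied to `X + C a`. -/
theorem gauss_X_add_C107 {R V : Subring Ω} {t : Ω}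
    (hgauss : ∀ P : Polynomial Ω, (∀ i, P.coeff i ∈ R) →
      (∃ i, P.coeff i ≠ 0 ∧ (P.coeff i)⁻¹ ∈ R) → (P.eval t)⁻¹ ∈ V)
    {a : Ω} (ha : a ∈ R) : (t + a)⁻¹ ∈ V := by
  have := hgauss (X + C a) (fun i => ?_) ⟨1, ?_, ?_⟩
  · simpa using this
  · rw [coeff_add, coeff_X, coeff_C]
    split_ifs
    · exact R.add_mem R.one_mem ha
    · exact R.add_mem R.one_mem R.zero_mem
    · exact R.add_mem R.zero_mem ha
    · exact R.add_mem R.zero_mem R.zero_mem
  · simp [coeff_X]
  · simp [coeff_X, R.one_mem]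

theorem gauss_X107 {R V : Subring Ω} {t : Ω}
    (hgauss : ∀ P : Polynomial Ω, (∀ i, P.coeff i ∈ R) →
      (∃ i, P.coeff i ≠ 0 ∧ (P.coeff i)⁻¹ ∈ R) → (P.eval t)⁻¹ ∈ V) : t⁻¹ ∈ V := by
  have := gauss_X_add_C107 hgauss R.zero_mem
  rwa [add_zero] at this

theorem goodModel_t2_107 {Lc Ec Fc : Subfield Ω} {R V : Subring Ω} {w j t : Ω} {S : Finset Ω}
    (hb : BaseModel107 Lc Ec Fc R V w j) (hB : BranchJ107 Lc j)
    (hrel : j * t ^ 2 = (t + 256) ^ 3) (htF : t ∈ Fc) (htV : t ∈ V) (h2 : (2 : Ω)⁻¹ ∈ R)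
    (hgauss : ∀ P : Polynomial Ω, (∀ i, P.coeff i ∈ R) →
      (∃ i, P.coeff i ≠ 0 ∧ (P.coeff i)⁻¹ ∈ R) → (P.eval t)⁻¹ ∈ V)
    (hS : ∀ s, s ∈ S ↔ s = 0 ∨ s = -64) :
    GoodModel Lc Ec Fc R V w t S := by
  have := hb.charZero
  have hj0 : j ≠ 0 := ne_zero_of_transcendental107 hb.x_transcendental
  have hH : HauptT2107 Fc R V j t :=
    { rel := hrel
      two_inv := h2
      two_ne := two_ne_zero
      j_ne := hj0
      t_mem_Fc := htF
      t_mem_V := htV
      t256_inv_mem_V := gauss_X_add_C107 hgauss (ofNat_mem R 256) }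
  have ht0 : t ≠ 0 := hH.t_ne
  have hwF : w ∈ Fc := hb.E_le_F (hb.R_le hb.w_mem)
  have htinvV : t⁻¹ ∈ V := gauss_X107 hgauss
  have h64 : (64 : Ω)⁻¹ ∈ R := by
    have := R.pow_mem h2 6
    have e : ((2 : Ω)⁻¹) ^ 6 = (64 : Ω)⁻¹ := by norm_num
    rwa [e] at this
  -- `j ∈ Ec(t)`
  have hjrat : j ∈ ratField Ec t := by
    have e : j = (t + 256) ^ 3 * (t ^ 2)⁻¹ := by
      field_simp
      linear_combination hrel
    rw [e]
    have ht := self_mem_ratField107 Ec t
    exact mul_mem (pow_mem (add_mem ht (ofNat_mem _ 256)) 3) (inv_mem (pow_mem ht 2))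
  -- transcendence of `t`
  have htr : Transcendental Lc t := by
    intro halg
    apply hb.x_transcendental
    have e : j = (t + 256) ^ 3 * (t ^ 2)⁻¹ := by
      field_simp
      linear_combination hrel
    rw [e]
    have h256 : IsAlgebraic Lc (256 : Ω) := by
      have : (256 : Ω) = algebraMap Lc Ω (256 : Lc) := by
        rw [map_ofNat]
      rw [this]
      exact isAlgebraic_algebraMap _
    exact ((halg.add h256).pow 3).mul (halg.pow 2).inv
  refine (show BaseModel107 Lc Ec Fc R V w t from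
    { charZero := hb.charZero
      R_le := hb.R_le
      R_total := hb.R_total
      w_mem := hb.w_mem
      w_ne_zero := hb.w_ne_zero
      w_inv_not_mem := hb.w_inv_not_mem
      w_gen := hb.w_gen
      w_discrete := hb.w_discrete
      residue_perfect := hb.residue_perfect
      E_le_L := hb.E_le_L
      E_le_F := hb.E_le_F
      L_algebraic := hb.L_algebraic
      L_algClosed := hb.L_algClosed
      E_closed_in_F := hb.E_closed_in_F
      compositum := hb.compositum
      x_mem := htF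
      x_transcendental := htr
      finite := finite_transfer107 hjrat hb.finite
      V_le := hb.V_le
      V_total := hb.V_total
      R_le_V := hb.R_le_V
      w_inv_not_mem_V := hb.w_inv_not_mem_V
      V_gen := hb.V_gen
      x_mem_V := htV
      gauss := hgauss
      qep_fin := hH.qep_fin hwF hb.qep_fin hb.qep_inf
      qep_inf := hH.qep_inf hwF hb.qep_fin hb.qep_inf
      separable := separable_transfer107 (e := t ^ 2)
        (Subring.pow_mem _ (self_mem_polyRing107 R t) 2)
        (by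
          rw [hrel]
          exact Subring.pow_mem _
            (Subring.add_mem _ (self_mem_polyRing107 R t) (ofNat_mem _ 256)) 3)
        (V.pow_mem htV 2) (by rw [← inv_pow]; exact V.pow_mem htinvV 2) (pow_ne_zero _ ht0)
        hb.separable }).toGoodModel S ?_ ?_ ?_ ?_
  · intro s hs
    rcases (hS s).1 hs with rfl | rfl
    · exact R.zero_mem
    · exact R.neg_mem (ofNat_mem R 64)
  · intro s hs s' hs' hne
    rcases (hS s).1 hs with rfl | rfl <;> rcases (hS s').1 hs' with rfl | rfl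
    · exact absurd rfl hne
    · have e : ((0 : Ω) - -64)⁻¹ = (64 : Ω)⁻¹ := by norm_num
      rw [e]
      exact h64
    · have e : ((-64 : Ω) - 0)⁻¹ = -(64 : Ω)⁻¹ := by
        rw [sub_zero, inv_neg]
      rw [e]
      exact R.neg_mem h64
    · exact absurd rfl hne
  · intro s hs hs0
    rcases (hS s).1 hs with rfl | rfl
    · exact absurd rfl hs0
    · rw [inv_neg]
      exact R.neg_mem h64
  · intro O hL c hc hcS hz hz'
    have hc0 : c ≠ 0 := fun h => hcS ((hS c).2 (Or.inl h))
    have hc64 : c ≠ -64 := fun h => hcS ((hS c).2 (Or.inr h))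
    exact unramified_t2_107 Lc j t hrel hB O hL c hc hc64 hc0 hz hz'

end Fermat.Agent.S18.H107

end
-- ===== PACK-END S18/H107/T2Model.lean

-- ===== PACK-BEGIN S18/H107/T3Qep.lean
section






/-!
# helper107 — S18 / M3-T : QEP for the Hauptmodul `t = t₃` of `X₀(3)` (case `ℓ = 2`)

Input: the relation `j * t ^ 3 = (t + 27) * (t + 243) ^ 3`, `3⁻¹ ∈ R`, QEP for the charts of `j`
and `j⁻¹`.  Output: QEP for the charts of `t` and `t⁻¹`.
-/

set_option autoImplicit false

namespace Fermat.Agent.S18.H107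

open Polynomial Fermat.Agent.S18.Alg

variable {Ω : Type*} [Field Ω]

/-- The Hauptmodul relation for `X₀(3)` together with the needed side conditions. -/
structure HauptT3107 (Fc : Subfield Ω) (R V : Subring Ω) (j t : Ω) : Prop where
  rel : j * t ^ 3 = (t + 27) * (t + 243) ^ 3
  three_inv : (3 : Ω)⁻¹ ∈ R
  three_ne : (3 : Ω) ≠ 0
  j_ne : j ≠ 0
  t_mem_Fc : t ∈ Fc
  t_mem_V : t ∈ V
  t27_inv_mem_V : (t + 27)⁻¹ ∈ V

namespace HauptT3107

variable {Fc : Subfield Ω} {R V : Subring Ω} {j t : Ω}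

theorem c27_ne (h : HauptT3107 Fc R V j t) : (27 : Ω) ≠ 0 := by
  have : (27 : Ω) = 3 ^ 3 := by norm_num
  rw [this]
  exact pow_ne_zero _ h.three_ne

theorem c243_ne (h : HauptT3107 Fc R V j t) : (243 : Ω) ≠ 0 := by
  have : (243 : Ω) = 3 ^ 5 := by norm_num
  rw [this]
  exact pow_ne_zero _ h.three_ne

theorem c6561_ne (h : HauptT3107 Fc R V j t) : (6561 : Ω) ≠ 0 := by
  have : (6561 : Ω) = 3 ^ 8 := by norm_num
  rw [this]
  exact pow_ne_zero _ h.three_ne

theorem cBig_ne (h : HauptT3107 Fc R V j t) : (387420489 : Ω) ≠ 0 := by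
  have : (387420489 : Ω) = 3 ^ 18 := by norm_num
  rw [this]
  exact pow_ne_zero _ h.three_ne

theorem inv27_mem (h : HauptT3107 Fc R V j t) : (27 : Ω)⁻¹ ∈ R := by
  have := R.pow_mem h.three_inv 3
  have e : ((3 : Ω)⁻¹) ^ 3 = (27 : Ω)⁻¹ := by norm_num
  rwa [e] at this

theorem inv6561_mem (h : HauptT3107 Fc R V j t) : (6561 : Ω)⁻¹ ∈ R := by
  have := R.pow_mem h.three_inv 8
  have e : ((3 : Ω)⁻¹) ^ 8 = (6561 : Ω)⁻¹ := by norm_num
  rwa [e] at this

theorem invBig_mem (h : HauptT3107 Fc R V j t) : (387420489 : Ω)⁻¹ ∈ R := by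
  have := R.pow_mem h.three_inv 18
  have e : ((3 : Ω)⁻¹) ^ 18 = (387420489 : Ω)⁻¹ := by norm_num
  rwa [e] at this

theorem t_ne (h : HauptT3107 Fc R V j t) : t ≠ 0 := by
  intro ht
  have := h.rel
  rw [ht] at this
  have h0 : (27 : Ω) * 243 ^ 3 = 0 := by
    have e : ((0 : Ω) + 27) * (0 + 243) ^ 3 = 27 * 243 ^ 3 := by ring
    rw [← e, ← this]
    ring
  rcases mul_eq_zero.1 h0 with h1 | h1
  · exact h.c27_ne h1
  · exact h.c243_ne (pow_eq_zero_iff (by norm_num) |>.1 h1)

theorem t27_ne (h : HauptT3107 Fc R V j t) : t + 27 ≠ 0 := by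
  intro ht
  have := h.rel
  rw [ht] at this
  have h0 : j * t ^ 3 = 0 := by rw [this]; ring
  rcases mul_eq_zero.1 h0 with hj | ht0
  · exact h.j_ne hj
  · exact h.t_ne (pow_eq_zero_iff (by norm_num) |>.1 ht0)

theorem t243_ne (h : HauptT3107 Fc R V j t) : t + 243 ≠ 0 := by
  intro ht
  have := h.rel
  rw [ht] at this
  have h0 : j * t ^ 3 = 0 := by rw [this]; ring
  rcases mul_eq_zero.1 h0 with hj | ht0
  · exact h.j_ne hj
  · exact h.t_ne (pow_eq_zero_iff (by norm_num) |>.1 ht0)

/-- `t` is integral over `R[j]`. -/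
theorem t_int (h : HauptT3107 Fc R V j t) : t ∈ intCl107 (polyRing R j) := by
  refine mem_intCl_of_quartic107 _ t (756 - j) 196830 19131876 387420489 ?_ (ofNat_mem _ _)
    (ofNat_mem _ _) (ofNat_mem _ _) ?_
  · exact Subring.sub_mem _ (ofNat_mem _ _) (self_mem_polyRing107 R j)
  · linear_combination -h.rel

/-- `h₁ = t / (t + 27)` is integral over `R[j⁻¹]`. -/
theorem h_int (h : HauptT3107 Fc R V j t) : t * (t + 27)⁻¹ ∈ intCl107 (polyRing R j⁻¹) := by
  have hj' := self_mem_polyRing107 R j⁻¹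
  refine mem_intCl_of_quartic107 _ _ (-1 - 13824 * j⁻¹) (46656 * j⁻¹) (-(52488 * j⁻¹))
    (19683 * j⁻¹) ?_ ?_ ?_ ?_ ?_
  · exact Subring.sub_mem _ (Subring.neg_mem _ (Subring.one_mem _))
      (Subring.mul_mem _ (ofNat_mem _ _) hj')
  · exact Subring.mul_mem _ (ofNat_mem _ _) hj'
  · exact Subring.neg_mem _ (Subring.mul_mem _ (ofNat_mem _ _) hj')
  · exact Subring.mul_mem _ (ofNat_mem _ _) hj'
  · have hj := h.j_ne
    have ht := h.t27_ne
    field_simp
    linear_combination (-27 : Ω) * h.rel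

/-- `t⁻¹` is integral over `R[j]` (uses `3⁻¹ ∈ R`). -/
theorem tinv_int (h : HauptT3107 Fc R V j t) : t⁻¹ ∈ intCl107 (polyRing R j) := by
  have hB := le_polyRing107 R j h.invBig_mem
  refine mem_intCl_of_quartic107 _ _ (19131876 * (387420489 : Ω)⁻¹) (196830 * (387420489 : Ω)⁻¹)
    ((756 - j) * (387420489 : Ω)⁻¹) ((387420489 : Ω)⁻¹) ?_ ?_ ?_ hB ?_
  · exact Subring.mul_mem _ (ofNat_mem _ _) hB
  · exact Subring.mul_mem _ (ofNat_mem _ _) hB
  · exact Subring.mul_mem _ (Subring.sub_mem _ (ofNat_mem _ _) (self_mem_polyRing107 R j)) hB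
  · have ht := h.t_ne
    have hc := h.cBig_ne
    field_simp
    linear_combination -h.rel

theorem open1_fin (h : HauptT3107 Fc R V j t) : OpenData107 Fc R V t j t 1 where
  g_mem := self_mem_polyRing107 R t
  e_mem_Fc := Fc.one_mem
  e_mem_V := V.one_mem
  e_int := Subring.one_mem _
  xe_int := by rw [mul_one]; exact h.t_int
  y_loc := ⟨3, by
    rw [h.rel]
    have ht := self_mem_polyRing107 R t
    exact le_intCl107 _ (Subring.mul_mem _ (Subring.add_mem _ ht (ofNat_mem _ _))
      (Subring.pow_mem _ (Subring.add_mem _ ht (ofNat_mem _ _)) 3))⟩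
  e_inv := ⟨1, Subring.one_mem _, 0, by simp⟩

theorem open2_fin (h : HauptT3107 Fc R V j t) :
    OpenData107 Fc R V t j⁻¹ ((t + 27) * (t + 243)) (27 * (t + 27)⁻¹) where
  g_mem := by
    have ht := self_mem_polyRing107 R t
    exact Subring.mul_mem _ (Subring.add_mem _ ht (ofNat_mem _ _))
      (Subring.add_mem _ ht (ofNat_mem _ _))
  e_mem_Fc := Fc.mul_mem (ofNat_mem _ _)
    (Fc.inv_mem (Fc.add_mem h.t_mem_Fc (ofNat_mem _ _)))
  e_mem_V := V.mul_mem (ofNat_mem _ _) h.t27_inv_mem_V
  e_int := by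
    have e : 27 * (t + 27)⁻¹ = 1 - t * (t + 27)⁻¹ := by
      have ht := h.t27_ne
      field_simp
      ring
    rw [e]
    exact Subring.sub_mem _ (Subring.one_mem _) h.h_int
  xe_int := by
    have e : t * (27 * (t + 27)⁻¹) = 27 * (t * (t + 27)⁻¹) := by ring
    rw [e]
    exact Subring.mul_mem _ (ofNat_mem _ _) h.h_int
  y_loc := ⟨3, by
    have e : j⁻¹ * ((t + 27) * (t + 243)) ^ 3 = t ^ 3 * (t + 27) ^ 2 := by
      have hj := h.j_ne
      field_simp
      linear_combination (-(t + 27) ^ 2) * h.rel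
    rw [e]
    have ht := self_mem_polyRing107 R t
    exact le_intCl107 _ (Subring.mul_mem _ (Subring.pow_mem _ ht 3)
      (Subring.pow_mem _ (Subring.add_mem _ ht (ofNat_mem _ _)) 2))⟩
  e_inv := ⟨(t + 27) * (27 : Ω)⁻¹,
    le_intCl107 _ (Subring.mul_mem _ (Subring.add_mem _ (self_mem_polyRing107 R t) (ofNat_mem _ _))
      (le_polyRing107 R t h.inv27_mem)), 0, by
    have ht := h.t27_ne
    have hc := h.c27_ne
    field_simp⟩

theorem open1_inf (h : HauptT3107 Fc R V j t) : OpenData107 Fc R V t⁻¹ j t⁻¹ 1 where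
  g_mem := self_mem_polyRing107 R t⁻¹
  e_mem_Fc := Fc.one_mem
  e_mem_V := V.one_mem
  e_int := Subring.one_mem _
  xe_int := by rw [mul_one]; exact h.tinv_int
  y_loc := ⟨1, by
    have e : j * t⁻¹ ^ 1 = (1 + 27 * t⁻¹) * (1 + 243 * t⁻¹) ^ 3 := by
      have ht := h.t_ne
      field_simp
      linear_combination h.rel
    rw [e]
    have hs := self_mem_polyRing107 R t⁻¹
    exact le_intCl107 _ (Subring.mul_mem _
      (Subring.add_mem _ (Subring.one_mem _) (Subring.mul_mem _ (ofNat_mem _ _) hs))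
      (Subring.pow_mem _ (Subring.add_mem _ (Subring.one_mem _)
        (Subring.mul_mem _ (ofNat_mem _ _) hs)) 3))⟩
  e_inv := ⟨1, Subring.one_mem _, 0, by simp⟩

theorem open2_inf (h : HauptT3107 Fc R V j t) :
    OpenData107 Fc R V t⁻¹ j⁻¹ ((1 + 27 * t⁻¹) * (1 + 243 * t⁻¹)) (t * (t + 27)⁻¹) where
  g_mem := by
    have hs := self_mem_polyRing107 R t⁻¹
    exact Subring.mul_mem _
      (Subring.add_mem _ (Subring.one_mem _) (Subring.mul_mem _ (ofNat_mem _ _) hs))
      (Subring.add_mem _ (Subring.one_mem _) (Subring.mul_mem _ (ofNat_mem _ _) hs))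
  e_mem_Fc := Fc.mul_mem h.t_mem_Fc (Fc.inv_mem (Fc.add_mem h.t_mem_Fc (ofNat_mem _ _)))
  e_mem_V := V.mul_mem h.t_mem_V h.t27_inv_mem_V
  e_int := h.h_int
  xe_int := by
    have e : t⁻¹ * (t * (t + 27)⁻¹) = (1 - t * (t + 27)⁻¹) * (27 : Ω)⁻¹ := by
      have ht := h.t_ne
      have ht' := h.t27_ne
      have hc := h.c27_ne
      field_simp
      ring
    rw [e]
    exact Subring.mul_mem _ (Subring.sub_mem _ (Subring.one_mem _) h.h_int)
      (le_intCl107 _ (le_polyRing107 R j⁻¹ h.inv27_mem))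
  y_loc := ⟨3, by
    have e : j⁻¹ * ((1 + 27 * t⁻¹) * (1 + 243 * t⁻¹)) ^ 3 = t⁻¹ * (1 + 27 * t⁻¹) ^ 2 := by
      have hj := h.j_ne
      have ht := h.t_ne
      field_simp
      linear_combination (-(t + 27) ^ 2) * h.rel
    rw [e]
    have hs := self_mem_polyRing107 R t⁻¹
    exact le_intCl107 _ (Subring.mul_mem _ hs (Subring.pow_mem _
      (Subring.add_mem _ (Subring.one_mem _) (Subring.mul_mem _ (ofNat_mem _ _) hs)) 2))⟩
  e_inv := ⟨1 + 27 * t⁻¹, le_intCl107 _ (Subring.add_mem _ (Subring.one_mem _)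
      (Subring.mul_mem _ (ofNat_mem _ _) (self_mem_polyRing107 R t⁻¹))), 0, by
    have ht := h.t_ne
    have ht' := h.t27_ne
    field_simp⟩

/-- **QEP for the chart of `t₃`.** -/
theorem qep_fin (h : HauptT3107 Fc R V j t) {w : Ω} (hw : w ∈ Fc)
    (q₁ : Qep107 Fc R V w j) (q₂ : Qep107 Fc R V w j⁻¹) : Qep107 Fc R V w t := by
  have h6 := le_polyRing107 R t h.inv6561_mem
  refine qep_transfer107 (a := -((t + 270) * (6561 : Ω)⁻¹)) (b := (6561 : Ω)⁻¹) hw q₁ q₂
    h.open1_fin h.open2_fin
    (Subring.neg_mem _ (Subring.mul_mem _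
      (Subring.add_mem _ (self_mem_polyRing107 R t) (ofNat_mem _ _)) h6)) h6 ?_
  have hc := h.c6561_ne
  field_simp
  ring

/-- **QEP for the chart of `t₃⁻¹`.** -/
theorem qep_inf (h : HauptT3107 Fc R V j t) {w : Ω} (hw : w ∈ Fc)
    (q₁ : Qep107 Fc R V w j) (q₂ : Qep107 Fc R V w j⁻¹) : Qep107 Fc R V w t⁻¹ := by
  refine qep_transfer107 (a := -(270 + 6561 * t⁻¹)) (b := 1) hw q₁ q₂ h.open1_inf h.open2_inf
    (Subring.neg_mem _ (Subring.add_mem _ (ofNat_mem _ _)
      (Subring.mul_mem _ (ofNat_mem _ _) (self_mem_polyRing107 R t⁻¹)))) (Subring.one_mem _) ?_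
  ring

end HauptT3107

end Fermat.Agent.S18.H107

end
-- ===== PACK-END S18/H107/T3Qep.lean

-- ===== PACK-BEGIN S18/H107/T3Model.lean
section







/-!
# helper107 — S18 / M3-T : the good model for the coordinate `t₃` (case `ℓ = 2`)

`goodModel_t3_107` : from the `j`-model WITHOUT branch-set fields (`BaseModel107 … j`, true for
every `ℓ ∤ M`), the branch data of the `j`-line in characteristic `0` (`BranchJ107`), the identity
`j t³ = (t + 27)(t + 243)³`, `3⁻¹ ∈ R`, `t ∈ Fc ∩ V` and the Gauss property of `t`, we get the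
frozen `Alg.GoodModel Lc Ec Fc R V w t S` with `S = {0, -27}`.
-/

set_option autoImplicit false

namespace Fermat.Agent.S18.H107

open Polynomial Fermat.Agent.S18.Alg

variable {Ω : Type*} [Field Ω]

theorem goodModel_t3_107 {Lc Ec Fc : Subfield Ω} {R V : Subring Ω} {w j t : Ω} {S : Finset Ω}
    (hb : BaseModel107 Lc Ec Fc R V w j) (hB : BranchJ107 Lc j)
    (hrel : j * t ^ 3 = (t + 27) * (t + 243) ^ 3) (htF : t ∈ Fc) (htV : t ∈ V)
    (h3 : (3 : Ω)⁻¹ ∈ R)
    (hgauss : ∀ P : Polynomial Ω, (∀ i, P.coeff i ∈ R) →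
      (∃ i, P.coeff i ≠ 0 ∧ (P.coeff i)⁻¹ ∈ R) → (P.eval t)⁻¹ ∈ V)
    (hS : ∀ s, s ∈ S ↔ s = 0 ∨ s = -27) :
    GoodModel Lc Ec Fc R V w t S := by
  have := hb.charZero
  have hj0 : j ≠ 0 := ne_zero_of_transcendental107 hb.x_transcendental
  have hH : HauptT3107 Fc R V j t :=
    { rel := hrel
      three_inv := h3
      three_ne := three_ne_zero
      j_ne := hj0
      t_mem_Fc := htF
      t_mem_V := htV
      t27_inv_mem_V := gauss_X_add_C107 hgauss (ofNat_mem R 27) }
  have ht0 : t ≠ 0 := hH.t_ne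
  have hwF : w ∈ Fc := hb.E_le_F (hb.R_le hb.w_mem)
  have htinvV : t⁻¹ ∈ V := gauss_X107 hgauss
  have h64 : (27 : Ω)⁻¹ ∈ R := hH.inv27_mem
  -- `j ∈ Ec(t)`
  have hjrat : j ∈ ratField Ec t := by
    have e : j = (t + 27) * (t + 243) ^ 3 * (t ^ 3)⁻¹ := by
      field_simp
      linear_combination hrel
    rw [e]
    have ht := self_mem_ratField107 Ec t
    exact mul_mem (mul_mem (add_mem ht (ofNat_mem _ 27)) (pow_mem (add_mem ht (ofNat_mem _ 243)) 3))
      (inv_mem (pow_mem ht 3))
  -- transcendence of `t`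
  have htr : Transcendental Lc t := by
    intro halg
    apply hb.x_transcendental
    have e : j = (t + 27) * (t + 243) ^ 3 * (t ^ 3)⁻¹ := by
      field_simp
      linear_combination hrel
    rw [e]
    have h27 : IsAlgebraic Lc (27 : Ω) := by
      have : (27 : Ω) = algebraMap Lc Ω (27 : Lc) := by
        rw [map_ofNat]
      rw [this]
      exact isAlgebraic_algebraMap _
    have h243 : IsAlgebraic Lc (243 : Ω) := by
      have : (243 : Ω) = algebraMap Lc Ω (243 : Lc) := by
        rw [map_ofNat]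
      rw [this]
      exact isAlgebraic_algebraMap _
    exact ((halg.add h27).mul ((halg.add h243).pow 3)).mul (halg.pow 3).inv
  refine (show BaseModel107 Lc Ec Fc R V w t from
    { charZero := hb.charZero
      R_le := hb.R_le
      R_total := hb.R_total
      w_mem := hb.w_mem
      w_ne_zero := hb.w_ne_zero
      w_inv_not_mem := hb.w_inv_not_mem
      w_gen := hb.w_gen
      w_discrete := hb.w_discrete
      residue_perfect := hb.residue_perfect
      E_le_L := hb.E_le_L
      E_le_F := hb.E_le_F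
      L_algebraic := hb.L_algebraic
      L_algClosed := hb.L_algClosed
      E_closed_in_F := hb.E_closed_in_F
      compositum := hb.compositum
      x_mem := htF
      x_transcendental := htr
      finite := finite_transfer107 hjrat hb.finite
      V_le := hb.V_le
      V_total := hb.V_total
      R_le_V := hb.R_le_V
      w_inv_not_mem_V := hb.w_inv_not_mem_V
      V_gen := hb.V_gen
      x_mem_V := htV
      gauss := hgauss
      qep_fin := hH.qep_fin hwF hb.qep_fin hb.qep_inf
      qep_inf := hH.qep_inf hwF hb.qep_fin hb.qep_inf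
      separable := separable_transfer107 (e := t ^ 3)
        (Subring.pow_mem _ (self_mem_polyRing107 R t) 3)
        (by
          rw [hrel]
          exact Subring.mul_mem _ (Subring.add_mem _ (self_mem_polyRing107 R t) (ofNat_mem _ 27))
            (Subring.pow_mem _
              (Subring.add_mem _ (self_mem_polyRing107 R t) (ofNat_mem _ 243)) 3))
        (V.pow_mem htV 3) (by rw [← inv_pow]; exact V.pow_mem htinvV 3) (pow_ne_zero _ ht0)
        hb.separable }).toGoodModel S ?_ ?_ ?_ ?_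
  · intro s hs
    rcases (hS s).1 hs with rfl | rfl
    · exact R.zero_mem
    · exact R.neg_mem (ofNat_mem R 27)
  · intro s hs s' hs' hne
    rcases (hS s).1 hs with rfl | rfl <;> rcases (hS s').1 hs' with rfl | rfl
    · exact absurd rfl hne
    · have e : ((0 : Ω) - -27)⁻¹ = (27 : Ω)⁻¹ := by norm_num
      rw [e]
      exact h64
    · have e : ((-27 : Ω) - 0)⁻¹ = -(27 : Ω)⁻¹ := by
        rw [sub_zero, inv_neg]
      rw [e]
      exact R.neg_mem h64
    · exact absurd rfl hne
  · intro s hs hs0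
    rcases (hS s).1 hs with rfl | rfl
    · exact absurd rfl hs0
    · rw [inv_neg]
      exact R.neg_mem h64
  · intro O hL c hc hcS hz hz'
    have hc0 : c ≠ 0 := fun h => hcS ((hS c).2 (Or.inl h))
    have hc64 : c ≠ -27 := fun h => hcS ((hS c).2 (Or.inr h))
    exact unramified_t3_107 Lc j t hrel hB O hL c hc hc64 hc0 hz hz'

end Fermat.Agent.S18.H107

end
-- ===== PACK-END S18/H107/T3Model.lean

-- ===== PACK-BEGIN S18/H438/Front/Transport2.lean
section


/-!
# S18 / ALG-FRONT (helper438), part 5: transport of charts and of the `q`-expansion principle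

* `mem_baseRing_iff`  : `a ∈ R[z] ⊆ Fc`  ↔  `(a : Ω) ∈ Alg.polyRing R z`;
* `mem_chartRing_iff` : `b ∈ chartRing (Rf Fc R) z`  ↔  `(b : Ω) ∈ Alg.chart Fc R z`;
* `transcendental_xf`, `transcendental_xf_inv`;
* `qep_fin`, `qep_inf` in the form used by `Front/Gauss.lean`.
-/

set_option autoImplicit false
set_option linter.style.haveILetI false
set_option linter.unusedSectionVars false

noncomputable section

namespace Fermat.Agent.S18.H438

open Alg Polynomial

variable {Ω : Type*} [Field Ω] {Lc Ec Fc : Subfield Ω} {R V : Subring Ω} {w x : Ω}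
  {S : Finset Ω}

section Generic

variable (Fc R) (z : Fc)

/-- `R[z] ⊆ Fc` maps into `polyRing R z ⊆ Ω`. -/
theorem coe_mem_polyRing_of_mem_baseRing {a : Fc} (ha : a ∈ baseRing (Rf Fc R) z) :
    (a : Ω) ∈ polyRing R (z : Ω) := by
  unfold baseRing at ha
  induction ha using Algebra.adjoin_induction with
  | mem y hy =>
    rw [Set.mem_singleton_iff] at hy
    subst hy
    exact Subring.subset_closure (Or.inr rfl)
  | algebraMap r => exact Subring.subset_closure (Or.inl r.2)
  | add y y' _ _ hy hy' => exact (polyRing R (z : Ω)).add_mem hy hy'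
  | mul y y' _ _ hy hy' => exact (polyRing R (z : Ω)).mul_mem hy hy'

/-- `polyRing R z ⊆ Ω` comes from `R[z] ⊆ Fc`, provided `R ⊆ Fc`. -/
theorem exists_mem_baseRing_of_mem_polyRing (hR : ∀ r ∈ R, r ∈ Fc) {c : Ω}
    (hc : c ∈ polyRing R (z : Ω)) : ∃ a ∈ baseRing (Rf Fc R) z, (a : Ω) = c := by
  have hle : polyRing R (z : Ω) ≤ (baseRing (Rf Fc R) z).toSubring.map Fc.subtype := by
    unfold polyRing
    rw [Subring.closure_le]
    rintro y (hy | hy)
    · refine ⟨⟨y, hR y hy⟩, ?_, rfl⟩
      exact (baseRing (Rf Fc R) z).algebraMap_mem (⟨⟨y, hR y hy⟩, hy⟩ : Rf Fc R)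
    · rw [Set.mem_singleton_iff] at hy
      subst hy
      exact ⟨z, self_mem_baseRing (Rf Fc R) z, rfl⟩
  obtain ⟨a, ha, rfl⟩ := hle hc
  exact ⟨a, ha, rfl⟩

theorem mem_baseRing_iff (hR : ∀ r ∈ R, r ∈ Fc) {a : Fc} :
    a ∈ baseRing (Rf Fc R) z ↔ (a : Ω) ∈ polyRing R (z : Ω) := by
  refine ⟨coe_mem_polyRing_of_mem_baseRing Fc R z, fun h => ?_⟩
  obtain ⟨a', ha', h'⟩ := exists_mem_baseRing_of_mem_polyRing Fc R z hR h
  rwa [← Subtype.ext h']

/-- the comparison map `R[z] → polyRing R z` -/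
def baseToPoly : baseRing (Rf Fc R) z →+* polyRing R (z : Ω) :=
  (Fc.subtype.comp (baseRing (Rf Fc R) z).toSubring.subtype).codRestrict (polyRing R (z : Ω))
    (fun a => coe_mem_polyRing_of_mem_baseRing Fc R z a.2)

theorem coe_baseToPoly (a : baseRing (Rf Fc R) z) :
    ((baseToPoly Fc R z a : polyRing R (z : Ω)) : Ω) = ((a : Fc) : Ω) := rfl

theorem algebraMap_comp_baseToPoly :
    (algebraMap (polyRing R (z : Ω)) Ω).comp (baseToPoly Fc R z) =
      Fc.subtype.comp (algebraMap (baseRing (Rf Fc R) z) Fc) := rfl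

theorem baseToPoly_surjective (hR : ∀ r ∈ R, r ∈ Fc) :
    Function.Surjective (baseToPoly Fc R z) := by
  rintro ⟨c, hc⟩
  obtain ⟨a, ha, h⟩ := exists_mem_baseRing_of_mem_polyRing Fc R z hR hc
  exact ⟨⟨a, ha⟩, Subtype.ext h⟩

/-- integrality over `R[z]` (inside `Fc`) is integrality over `polyRing R z` (inside `Ω`) -/
theorem isIntegral_baseRing_iff (hR : ∀ r ∈ R, r ∈ Fc) {b : Fc} :
    IsIntegral (baseRing (Rf Fc R) z) b ↔ IsIntegral (polyRing R (z : Ω)) (b : Ω) := by
  constructor
  · intro h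
    exact IsIntegral.map_of_comp_eq (baseToPoly Fc R z) Fc.subtype
      (algebraMap_comp_baseToPoly Fc R z) h
  · rintro ⟨q, hq, hqb⟩
    -- lift the monic polynomial along the surjection
    obtain ⟨p, hpq, hpdeg, hpmonic⟩ :=
      Polynomial.lifts_and_degree_eq_and_monic
        ((Polynomial.mem_lifts q).2 (by
          have hsurj := Polynomial.map_surjective (baseToPoly Fc R z)
            (baseToPoly_surjective Fc R z hR)
          exact hsurj q)) hq
    refine ⟨p, hpmonic, ?_⟩
    have h1 : Fc.subtype (Polynomial.eval₂ (algebraMap (baseRing (Rf Fc R) z) Fc) b p) = 0 := by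
      rw [Polynomial.hom_eval₂, ← algebraMap_comp_baseToPoly, ← Polynomial.eval₂_map, hpq]
      exact hqb
    exact Fc.subtype_injective (by rw [h1, map_zero])

theorem mem_chartRing_iff (hR : ∀ r ∈ R, r ∈ Fc) {b : Fc} :
    b ∈ chartRing (Rf Fc R) z ↔ (b : Ω) ∈ chart Fc R (z : Ω) := by
  show IsIntegral (baseRing (Rf Fc R) z) b ↔ _
  rw [isIntegral_baseRing_iff Fc R z hR]
  exact ⟨fun h => ⟨b.2, h⟩, fun h => h.2⟩

end Generic

namespace GoodModelFront

variable (G : GoodModel Lc Ec Fc R V w x S)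

include G

/-- `x` is transcendental over `R`. -/
theorem transcendental_xf : Transcendental (Rf Fc R) (xf G) := by
  rintro ⟨p, hp0, hp⟩
  let i : Rf Fc R →+* Lc :=
    (Fc.subtype.comp (Rf Fc R).subtype).codRestrict Lc.toSubring
      (fun r => G.E_le_L (G.R_le r.2))
  have hi : Function.Injective i := by
    intro a b hab
    apply Subtype.ext
    apply Subtype.ext
    exact congrArg (fun t : Lc => (t : Ω)) hab
  have hcomp : (algebraMap Lc Ω).comp i = Fc.subtype.comp (algebraMap (Rf Fc R) Fc) := rfl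
  apply G.x_transcendental
  refine ⟨p.map i, (Polynomial.map_ne_zero_iff hi).2 hp0, ?_⟩
  rw [Polynomial.aeval_def, Polynomial.eval₂_map, hcomp]
  have h1 := Polynomial.hom_eval₂ p (algebraMap (Rf Fc R) Fc) Fc.subtype (xf G)
  rw [Polynomial.aeval_def] at hp
  rw [hp, map_zero] at h1
  exact h1.symm

theorem transcendental_xf_inv : Transcendental (Rf Fc R) (xf G)⁻¹ :=
  fun h => transcendental_xf G (IsAlgebraic.inv_iff.1 h)

/-- `qep` on the finite chart, in `Fc`. -/
theorem qep_fin' : ∀ b ∈ chartRing (Rf Fc R) (xf G), b * (wf G)⁻¹ ∈ Vf G →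
    b * (wf G)⁻¹ ∈ chartRing (Rf Fc R) (xf G) := by
  intro b hb hbV
  rw [mem_chartRing_iff Fc R _ (fun r hr => R_le_Fc G hr)] at hb ⊢
  exact G.qep_fin _ hb hbV

/-- `qep` on the chart at infinity, in `Fc`. -/
theorem qep_inf' : ∀ b ∈ chartRing (Rf Fc R) (xf G)⁻¹, b * (wf G)⁻¹ ∈ Vf G →
    b * (wf G)⁻¹ ∈ chartRing (Rf Fc R) (xf G)⁻¹ := by
  intro b hb hbV
  rw [mem_chartRing_iff Fc R _ (fun r hr => R_le_Fc G hr)] at hb ⊢
  exact G.qep_inf _ hb hbV

end GoodModelFront

end Fermat.Agent.S18.H438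

end
end
-- ===== PACK-END S18/H438/Front/Transport2.lean

-- ===== PACK-BEGIN S18/H438/Front/Finite.lean
section



/-!
# S18 / ALG-FRONT (helper438), part 6: finiteness and constants

For `G : Alg.GoodModel Lc Ec Fc R V w x S`, inside the field `Fc`:

* `GoodModelFront.isIntegral_Rf_mem_range` : `R` is integrally closed in `Fc`
  (hypothesis `hRF` of `H138.connected_special_fibre`);
* `GoodModelFront.finiteDimensional_baseField` : `Fc` is finite over `H138.baseField R x`;
* `GoodModelFront.finiteDimensional_fractionRing` / `_inv` : `Fc` is finite over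
  `FractionRing (baseRing R z)` for `z = x`, `z = x⁻¹` (hypothesis of `Front/Chart.lean`).
-/

set_option autoImplicit false
set_option linter.style.haveILetI false
set_option linter.unusedSectionVars false

noncomputable section

namespace Fermat.Agent.S18.H438

open Alg Polynomial

/-- Finite-dimensionality from a span statement inside an ambient field. -/
theorem finiteDimensional_of_span_subfield {K F Ω : Type*} [Field K] [Field F] [Field Ω]
    [Algebra K F] (ι : F →+* Ω) (E' : Subfield Ω)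
    (hE' : ∀ c ∈ E', ∃ k : K, ι (algebraMap K F k) = c)
    (s : Finset Ω) (hs : ∀ a ∈ s, ∃ f : F, ι f = a)
    (hspan : ∀ f : F, ι f ∈ Submodule.span E' (s : Set Ω)) :
    FiniteDimensional K F := by
  classical
  choose! g hg using hs
  refine (Module.finite_def (R := K) (M := F)).2 ⟨s.image g, ?_⟩
  rw [eq_top_iff]
  rintro f -
  obtain ⟨c, -, hc⟩ := Submodule.mem_span_finset.1 (hspan f)
  have hk : ∀ a : Ω, ∃ k : K, ι (algebraMap K F k) = (c a : Ω) := fun a => hE' _ (c a).2
  choose k hk using hk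
  have hf : f = ∑ a ∈ s, k a • g a := by
    apply ι.injective
    rw [← hc, map_sum]
    refine Finset.sum_congr rfl fun a ha => ?_
    have h1 : ι (k a • g a) = (c a : Ω) * a := by
      rw [Algebra.smul_def, map_mul, hk, hg a ha]
    rw [h1]
    rfl
  rw [hf]
  refine Submodule.sum_mem _ fun a ha => Submodule.smul_mem _ _ (Submodule.subset_span ?_)
  exact Finset.mem_coe.2 (Finset.mem_image_of_mem g ha)

variable {Ω : Type*} [Field Ω] {Lc Ec Fc : Subfield Ω} {R V : Subring Ω} {w x : Ω}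
  {S : Finset Ω}

namespace GoodModelFront

variable (G : GoodModel Lc Ec Fc R V w x S)

include G

/-- a subfield of `Ω` containing `R` and `x` contains `Ec(x)` -/
theorem ratField_le_of_mem (T : Subfield Ω) (hR : ∀ r ∈ R, r ∈ T) (hx : x ∈ T) :
    ratField Ec x ≤ T := by
  unfold ratField
  rw [Subfield.closure_le]
  rintro e (he | he)
  · rcases G.R_total e he with h | h
    · exact hR _ h
    · have := T.inv_mem (hR _ h)
      rwa [inv_inv] at this
  · rw [Set.mem_singleton_iff] at he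
    rw [he]
    exact hx

/-- **`Fc` is finite over any field `K → Fc` whose image contains `R` and `x`.** -/
theorem finiteDimensional_of_mem {K : Type*} [Field K] [Algebra K Fc]
    (hR : ∀ r : Rf Fc R, ∃ k : K, algebraMap K Fc k = (r : Fc))
    (hx : ∃ k : K, algebraMap K Fc k = xf G) : FiniteDimensional K Fc := by
  obtain ⟨s, hs, hspan⟩ := G.finite
  refine finiteDimensional_of_span_subfield Fc.subtype (ratField Ec x) ?_ s
    (fun a ha => ⟨⟨a, hs ha⟩, rfl⟩) (fun f => hspan f f.2)
  have hle : ratField Ec x ≤ ((algebraMap K Fc).fieldRange).map Fc.subtype := by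
    refine ratField_le_of_mem G _ (fun r hr => ?_) ?_
    · obtain ⟨k, hk⟩ := hR ⟨⟨r, R_le_Fc G hr⟩, hr⟩
      exact ⟨algebraMap K Fc k, ⟨k, rfl⟩, by rw [hk]; rfl⟩
    · obtain ⟨k, hk⟩ := hx
      exact ⟨algebraMap K Fc k, ⟨k, rfl⟩, by rw [hk]; rfl⟩
  intro c hc
  obtain ⟨f, ⟨k, rfl⟩, hf⟩ := hle hc
  exact ⟨k, hf⟩

/-- `Fc` is finite over `H138.baseField R x`. -/
theorem finiteDimensional_baseField :
    FiniteDimensional (H138.baseField (Rf Fc R) (xf G)) Fc :=
  finiteDimensional_of_mem G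
    (fun r => ⟨⟨(r : Fc), Subfield.subset_closure (Or.inl ⟨r, rfl⟩)⟩, rfl⟩)
    ⟨⟨xf G, Subfield.subset_closure (Or.inr rfl)⟩, rfl⟩

/-- `Fc` is finite over `H138.baseField R x⁻¹`. -/
theorem finiteDimensional_baseField_inv :
    FiniteDimensional (H138.baseField (Rf Fc R) (xf G)⁻¹) Fc := by
  rw [H138.baseField_inv]
  exact finiteDimensional_baseField G

section Frac

attribute [local instance] FractionRing.liftAlgebra

/-- `Fc` is finite over `Frac (R[x])`. -/
theorem finiteDimensional_fractionRing :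
    FiniteDimensional (FractionRing (baseRing (Rf Fc R) (xf G))) Fc :=
  finiteDimensional_of_mem G
    (fun r => ⟨algebraMap (baseRing (Rf Fc R) (xf G)) _
        (algebraMap (Rf Fc R) (baseRing (Rf Fc R) (xf G)) r), by
      rw [← IsScalarTower.algebraMap_apply]; rfl⟩)
    ⟨algebraMap (baseRing (Rf Fc R) (xf G)) _ ⟨xf G, self_mem_baseRing _ _⟩, by
      rw [← IsScalarTower.algebraMap_apply]; rfl⟩

/-- `Fc` is finite over `Frac (R[x⁻¹])`. -/
theorem finiteDimensional_fractionRing_inv :
    FiniteDimensional (FractionRing (baseRing (Rf Fc R) (xf G)⁻¹)) Fc :=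
  finiteDimensional_of_mem G
    (fun r => ⟨algebraMap (baseRing (Rf Fc R) (xf G)⁻¹) _
        (algebraMap (Rf Fc R) (baseRing (Rf Fc R) (xf G)⁻¹) r), by
      rw [← IsScalarTower.algebraMap_apply]; rfl⟩)
    ⟨(algebraMap (baseRing (Rf Fc R) (xf G)⁻¹) _ ⟨(xf G)⁻¹, self_mem_baseRing _ _⟩)⁻¹, by
      rw [map_inv₀, ← IsScalarTower.algebraMap_apply]
      show ((xf G)⁻¹)⁻¹ = xf G
      rw [inv_inv]⟩

end Frac

/-- the valuation ring `R` of the field `Ec` -/
def Re : ValuationSubring Ec :=
  { R.comap Ec.subtype with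
    mem_or_inv_mem' := fun e => by
      rcases G.R_total e e.2 with h | h
      · exact Or.inl h
      · exact Or.inr h }

theorem mem_Re {e : Ec} : e ∈ Re G ↔ (e : Ω) ∈ R := Iff.rfl

/-- **`R` is integrally closed in `Fc`.** -/
theorem isIntegral_Rf_mem_range (y : Fc) (hy : IsIntegral (Rf Fc R) y) :
    y ∈ Set.range (algebraMap (Rf Fc R) Fc) := by
  obtain ⟨p, hpm, hp⟩ := hy
  -- `y` is algebraic over `Ec`, hence lies in `Ec`
  let φ : Rf Fc R →+* Ec :=
    (Fc.subtype.comp (Rf Fc R).subtype).codRestrict Ec.toSubring (fun r => G.R_le r.2)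
  have hcomp : (algebraMap Ec Ω).comp φ = Fc.subtype.comp (algebraMap (Rf Fc R) Fc) := rfl
  have hφ : Function.Injective φ := by
    intro a b hab
    apply Subtype.ext
    apply Subtype.ext
    exact congrArg (fun t : Ec => (t : Ω)) hab
  have hyΩ : Polynomial.eval₂ ((algebraMap Ec Ω).comp φ) (y : Ω) p = 0 := by
    rw [hcomp]
    have h1 := Polynomial.hom_eval₂ p (algebraMap (Rf Fc R) Fc) Fc.subtype y
    rw [hp, map_zero] at h1
    exact h1.symm
  have halg : IsAlgebraic Ec (y : Ω) := by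
    refine ⟨p.map φ, (Polynomial.map_ne_zero_iff hφ).2 hpm.ne_zero, ?_⟩
    rw [Polynomial.aeval_def, Polynomial.eval₂_map]
    exact hyΩ
  have hyE : (y : Ω) ∈ Ec := G.E_closed_in_F y y.2 halg
  -- integrality over the valuation ring `Re`
  letI : Algebra (Rf Fc R) Ec := φ.toAlgebra
  have hint : IsIntegral (Rf Fc R) (⟨(y : Ω), hyE⟩ : Ec) := by
    refine ⟨p, hpm, ?_⟩
    apply Ec.subtype_injective
    rw [Polynomial.hom_eval₂, map_zero]
    exact hyΩ
  have hmem : (⟨(y : Ω), hyE⟩ : Ec) ∈ Re G :=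
    mem_valuationSubring_of_isIntegral (Re G) (fun a => a.2) hint
  exact ⟨⟨y, hmem⟩, rfl⟩

end GoodModelFront

end Fermat.Agent.S18.H438

end
end
-- ===== PACK-END S18/H438/Front/Finite.lean

-- ===== PACK-BEGIN S18/H438/Front/Divisor.lean
section





/-!
# S18 / ALG-FRONT (helper438), part 8: `H754.DivisibleDivisor` for a chart

* `divisibleDivisor_of_places` (generic, Mathlib + `H754/KummerSpec`): `B` a Noetherian
  integrally closed domain with fraction field `F`, `ϖ ∈ B` prime, `u ≡ 1 mod ϖ`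
  (`H754.OneModPi ϖ u`), and at every discrete valuation subring `W ⊇ B[1/ϖ]` of `F` the element
  `u` is a unit times an `m`-th power.  Then `H754.DivisibleDivisor B m u`.
* `GoodModelFront.exists_pow_unit_of_dvr` : the place hypothesis from the divisor hypothesis of
  `Alg.AlgMainStatement` (over valuation subrings of `Ω` containing `Lc`), via
  `H845.exists_pow_unit_of_forall_over`.
* `GoodModelFront.divisibleDivisor` : `H754.DivisibleDivisor B m u` for ANY realisation `B` of a
  chart of a good model (`B ⊇ R`, `ϖ ↦ w`).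
-/

set_option autoImplicit false
set_option linter.style.haveILetI false
set_option linter.unusedSectionVars false

noncomputable section

namespace Fermat.Agent.S18.H438

/-- **`DivisibleDivisor` from the places over `B[1/ϖ]`.** -/
theorem divisibleDivisor_of_places {B : Type*} [CommRing B] [IsDomain B] [IsNoetherianRing B]
    [IsIntegrallyClosed B] {F : Type*} [Field F] [Algebra B F] [IsFractionRing B F]
    (ϖ : B) (hϖ : Prime ϖ) (u : F) (hu1 : H754.OneModPi ϖ u) (m : ℕ)
    (hplace : ∀ W : ValuationSubring F, IsDiscreteValuationRing W →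
      (∀ b : B, algebraMap B F b ∈ W) → (algebraMap B F ϖ)⁻¹ ∈ W →
      ∃ s : F, s ≠ 0 ∧ u * s ^ m ∈ W ∧ (u * s ^ m)⁻¹ ∈ W) :
    H754.DivisibleDivisor B m u := by
  have hinj : Function.Injective (algebraMap B F) := IsFractionRing.injective B F
  obtain ⟨a₀, s₀, hs₀, has₀, hu₀⟩ := hu1
  have ha₀ : a₀ ∉ Ideal.span {ϖ} := by
    intro ha
    apply hs₀
    have := Ideal.sub_mem _ ha has₀
    simpa using this
  have hu0 : u ≠ 0 := by
    rintro rfl
    rw [zero_mul] at hu₀
    have : a₀ = 0 := hinj (by rw [← hu₀, map_zero])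
    exact ha₀ (this ▸ Ideal.zero_mem _)
  intro 𝔭 h𝔭 hht
  haveI := h𝔭
  by_cases hϖ𝔭 : ϖ ∈ 𝔭
  · -- `𝔭 = (ϖ)`
    have hP : (Ideal.span {ϖ} : Ideal B).IsPrime :=
      (Ideal.span_singleton_prime hϖ.ne_zero).2 hϖ
    have hle : Ideal.span {ϖ} ≤ 𝔭 := (Ideal.span_singleton_le_iff_mem _).2 hϖ𝔭
    have hne : (Ideal.span {ϖ} : Ideal B) ≠ ⊥ := by
      rw [Ne, Ideal.span_singleton_eq_bot]; exact hϖ.ne_zero
    have h1 : 𝔭.height ≤ (Ideal.span {ϖ} : Ideal B).height := by
      rw [hht, Order.one_le_iff_pos, pos_iff_ne_zero, Ne, Ideal.height_eq_zero_iff_eq_bot]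
      exact hne
    have heq : Ideal.span {ϖ} = 𝔭 := Ideal.eq_of_le_of_height_le (h := hle) (h_height := h1)
    refine ⟨1, a₀, s₀, ?_, ?_, ?_⟩
    · rw [← heq]; exact ha₀
    · rw [← heq]; exact hs₀
    · rw [one_pow, mul_one]; exact hu₀
  · -- a horizontal prime: `B_𝔭` is a DVR containing `B[1/ϖ]`
    obtain ⟨W, hW, hmem⟩ := exists_dvr_of_height_one (F := F) 𝔭 hht
    have h1𝔭 : (1 : B) ∉ 𝔭 := fun h => h𝔭.ne_top ((Ideal.eq_top_iff_one _).2 h)
    have hBW : ∀ b : B, algebraMap B F b ∈ W := fun b =>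
      (hmem _).2 ⟨b, 1, h1𝔭, by rw [map_one, mul_one]⟩
    have hϖ0 : algebraMap B F ϖ ≠ 0 := fun h => hϖ.ne_zero (hinj (by rw [h, map_zero]))
    have hϖW : (algebraMap B F ϖ)⁻¹ ∈ W :=
      (hmem _).2 ⟨1, ϖ, hϖ𝔭, by rw [inv_mul_cancel₀ hϖ0, map_one]⟩
    obtain ⟨t, ht0, h1, h2⟩ := hplace W hW hBW hϖW
    obtain ⟨a, s, hs, has⟩ := (hmem _).1 h1
    obtain ⟨a', s', hs', has'⟩ := (hmem _).1 h2
    refine ⟨t, a, s, ?_, hs, has⟩
    intro ha
    have hut : u * t ^ m ≠ 0 := mul_ne_zero hu0 (pow_ne_zero _ ht0)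
    have h3 : algebraMap B F (a * a') = algebraMap B F (s * s') := by
      rw [map_mul, map_mul, ← has, ← has']
      field_simp
    have h4 : a * a' = s * s' := hinj h3
    have h5 : s * s' ∈ 𝔭 := h4 ▸ 𝔭.mul_mem_right _ ha
    rcases h𝔭.mem_or_mem h5 with h | h
    · exact hs h
    · exact hs' h

open Alg

variable {Ω : Type*} [Field Ω] {Lc Ec Fc : Subfield Ω} {R V : Subring Ω} {w x : Ω}
  {S : Finset Ω}

namespace GoodModelFront

variable (G : GoodModel Lc Ec Fc R V w x S)

include G

/-- A valuation subring of `Fc` containing `R` and `w⁻¹` contains `Ec`. -/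
theorem ec_mem_of_inv_mem (W : ValuationSubring Fc) (hRW : ∀ r ∈ Rf Fc R, r ∈ W)
    (hwW : (wf G)⁻¹ ∈ W) : ∀ e : Fc, (e : Ω) ∈ Ec → e ∈ W := by
  intro e he
  rcases G.R_total e he with h1 | h1
  · exact hRW e h1
  · by_cases he0 : e = 0
    · rw [he0]; exact W.zero_mem
    have he0' : (e : Ω) ≠ 0 := fun h => he0 (Subtype.ext h)
    obtain ⟨n, -, hn⟩ := G.w_discrete (e : Ω)⁻¹ h1 (inv_ne_zero he0')
    have hmem : (e⁻¹ * (wf G)⁻¹ ^ n)⁻¹ ∈ W := hRW _ hn
    have hw0 : wf G ≠ 0 := wf_ne_zero G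
    have : e = (e⁻¹ * (wf G)⁻¹ ^ n)⁻¹ * (wf G)⁻¹ ^ n := by
      field_simp
    rw [this]
    exact mul_mem hmem (pow_mem hwW n)

/-- **The place hypothesis** of `divisibleDivisor_of_places` from the divisor hypothesis of
`Alg.AlgMainStatement`. -/
theorem exists_pow_unit_of_dvr {u : Fc} (hu : u ≠ 0) {m : ℕ}
    (hdiv : ∀ O : ValuationSubring Ω, (∀ a ∈ Lc, a ∈ O) →
      ∃ t : Ω, t ≠ 0 ∧ (u : Ω) * t ^ m ∈ O ∧ ((u : Ω) * t ^ m)⁻¹ ∈ O)
    (W : ValuationSubring Fc) (hW : IsDiscreteValuationRing W)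
    (hRW : ∀ r ∈ Rf Fc R, r ∈ W) (hwW : (wf G)⁻¹ ∈ W) :
    ∃ s : Fc, s ≠ 0 ∧ u * s ^ m ∈ W ∧ (u * s ^ m)⁻¹ ∈ W := by
  haveI := G.charZero
  exact H845.exists_pow_unit_of_forall_over Lc Ec Fc G.E_le_F G.L_algebraic G.compositum hu hdiv W
    (ec_mem_of_inv_mem G W hRW hwW)

/-- **`DivisibleDivisor` for any realisation `B` of a chart of a good model.** -/
theorem divisibleDivisor {B : Type*} [CommRing B] [IsDomain B] [IsNoetherianRing B]
    [IsIntegrallyClosed B] [Algebra B Fc] [IsFractionRing B Fc]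
    (hRB : ∀ r ∈ Rf Fc R, ∃ b : B, algebraMap B Fc b = r)
    (ϖ : B) (hϖ : Prime ϖ) (hϖw : algebraMap B Fc ϖ = wf G)
    {u : Fc} (hu1 : H754.OneModPi ϖ u) {m : ℕ}
    (hdiv : ∀ O : ValuationSubring Ω, (∀ a ∈ Lc, a ∈ O) →
      ∃ t : Ω, t ≠ 0 ∧ (u : Ω) * t ^ m ∈ O ∧ ((u : Ω) * t ^ m)⁻¹ ∈ O) :
    H754.DivisibleDivisor B m u := by
  have hinj : Function.Injective (algebraMap B Fc) := IsFractionRing.injective B Fc
  have hu0 : u ≠ 0 := by
    obtain ⟨a₀, s₀, hs₀, has₀, hu₀⟩ := hu1
    rintro rfl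
    rw [zero_mul] at hu₀
    have : a₀ = 0 := hinj (by rw [← hu₀, map_zero])
    apply hs₀
    have := Ideal.sub_mem _ (this ▸ Ideal.zero_mem (Ideal.span {ϖ}) : a₀ ∈ Ideal.span {ϖ}) has₀
    simpa using this
  refine divisibleDivisor_of_places ϖ hϖ u hu1 m fun W hW hBW hϖW => ?_
  refine exists_pow_unit_of_dvr G hu0 hdiv W hW (fun r hr => ?_) (by rwa [hϖw] at hϖW)
  obtain ⟨b, hb⟩ := hRB r hr
  rw [← hb]
  exact hBW b

end GoodModelFront

end Fermat.Agent.S18.H438

end
end
-- ===== PACK-END S18/H438/Front/Divisor.lean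

-- ===== PACK-BEGIN S18/H394/ChartInst.lean
section



/-!
# S18, Route K (helper394): instances for the charts `H138.chart R {x}`

For `R` noetherian with `R[X]` integrally closed, `F` of characteristic `0`, `x ∈ F` transcendental
over `R` and `F` finite over `baseField R x`: the chart `B = chart R {x}` (integral closure of
`R[x]` in `F`), as a type, is a noetherian integrally closed domain with fraction field `F`.
-/

set_option autoImplicit false
set_option linter.style.haveILetI false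

namespace Fermat.Agent.S18.H394

open Polynomial
open Fermat.Agent.S18.H138 (chart baseField)

section ChartInst

variable {R : Type*} [CommRing R] {F : Type*} [Field F] [Algebra R F]
variable [IsNoetherianRing R] [IsIntegrallyClosed R[X]] [CharZero F]

theorem chart_instances {x : F} (hx : Transcendental R x)
    [FiniteDimensional (baseField R x) F] :
    IsNoetherianRing (chart R ({x} : Set F)) ∧ IsIntegrallyClosed (chart R ({x} : Set F)) ∧
      IsFractionRing (chart R ({x} : Set F)) F := by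
  classical
  set A : Subalgebra R F := Algebra.adjoin R ({x} : Set F) with hA
  set K : Subfield F := baseField R x with hK
  haveI := H138.isIntegrallyClosed_adjoin_singleton (R := R) hx
  haveI := H138.isNoetherianRing_adjoin_singleton (R := R) hx
  let φ : A →+* K :=
    { toFun := fun a => ⟨a, H138.adjoin_le_baseField x a.2⟩
      map_one' := rfl
      map_mul' := fun _ _ => rfl
      map_zero' := rfl
      map_add' := fun _ _ => rfl }
  letI : Algebra A K := φ.toAlgebra
  haveI : IsScalarTower A K F := IsScalarTower.of_algebraMap_eq (fun _ => rfl)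
  have hinj : Function.Injective (algebraMap A K) := by
    intro a b hab
    have : (a : F) = b := congrArg (fun t : K => (t : F)) hab
    exact Subtype.ext this
  haveI : FaithfulSMul A K := (faithfulSMul_iff_algebraMap_injective A K).2 hinj
  haveI : IsFractionRing A K := by
    refine IsFractionRing.of_field A K (fun z => ?_)
    obtain ⟨a, ha, b, hb, h⟩ := H138.exists_div_of_mem_baseField (R := R) x z.2
    exact ⟨⟨a, ha⟩, ⟨b, hb⟩, Subtype.ext h⟩
  haveI : CharZero K := (algebraMap K F).charZero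
  have h1 : IsNoetherianRing (integralClosure A F) := integralClosure.isNoetherianRing (K := K) F
  have h2 : IsIntegrallyClosed (integralClosure A F) :=
    integralClosure.isIntegrallyClosedOfFiniteExtension K
  have h3 : IsFractionRing (integralClosure A F) F :=
    integralClosure.isFractionRing_of_finite_extension K F
  exact ⟨h1, h2, h3⟩

end ChartInst

end Fermat.Agent.S18.H394

end
-- ===== PACK-END S18/H394/ChartInst.lean

-- ===== PACK-BEGIN S18/H438/Front/H138Charts.lean
section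




/-!
# S18 / ALG-FRONT (helper438), part 9: the hypotheses of `H394.kummer_charts_of_regular`
on the chart `H138.chart R {x}` of a good model

For `G : Alg.GoodModel Lc Ec Fc R V w x S`, with `R' := Rf Fc R` (a type), `x' := xf G : Fc`,
`w' := wR G : R'` and `B := H138.chart R' {x'}`:

* `GoodModelFront.prime_chart`            : `Prime (algebraMap R' B w')`;
* `GoodModelFront.oneModPi_chart`         : `(u - 1) / w ∈ V` ⟹ `H754.OneModPi (algebraMap R' B w') u`;
* `GoodModelFront.divisibleDivisor_chart` : `H754.DivisibleDivisor B m u` from the divisor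
  hypothesis of `Alg.AlgMainStatement`.

The chart at infinity is obtained by applying these to `H425.goodModel_inv G`.
-/

set_option autoImplicit false
set_option linter.style.haveILetI false
set_option linter.unusedSectionVars false

noncomputable section

namespace Fermat.Agent.S18.H438

open Alg Polynomial

section Equiv

variable {F : Type*} [Field F] (R : Subring F) (z : F)

/-- The identity `chartRing R z ≃ H138.chart R {z}`. -/
def chartEquiv138 : chartRing R z ≃+* H138.chart R ({z} : Set F) where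
  toFun c := ⟨c.1, c.2⟩
  invFun c := ⟨c.1, c.2⟩
  left_inv _ := rfl
  right_inv _ := rfl
  map_mul' _ _ := rfl
  map_add' _ _ := rfl

theorem chartEquiv138_chartUnif {w : F} (hwR : w ∈ R) :
    chartEquiv138 R z (chartUnif (z := z) hwR) =
      algebraMap R (H138.chart R ({z} : Set F)) ⟨w, hwR⟩ := rfl

theorem prime_chart138 {w : F} (hwR : w ∈ R) (h : Prime (chartUnif (z := z) hwR)) :
    Prime (algebraMap R (H138.chart R ({z} : Set F)) ⟨w, hwR⟩) := by
  rw [← chartEquiv138_chartUnif]
  exact (MulEquiv.prime_iff (chartEquiv138 R z).toMulEquiv).2 h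

theorem oneModPi_chart138 {w : F} (hwR : w ∈ R) {u : F}
    (h : H754.OneModPi (chartUnif (z := z) hwR) u) :
    H754.OneModPi (algebraMap R (H138.chart R ({z} : Set F)) ⟨w, hwR⟩) u := by
  obtain ⟨a, s, hs, has, hu⟩ := h
  refine ⟨chartEquiv138 R z a, chartEquiv138 R z s, ?_, ?_, hu⟩
  · rw [Ideal.mem_span_singleton] at hs ⊢
    rw [← chartEquiv138_chartUnif]
    intro h
    exact hs ((map_dvd_iff (chartEquiv138 R z)).1 h)
  · rw [Ideal.mem_span_singleton] at has ⊢
    rw [← chartEquiv138_chartUnif, ← map_sub]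
    exact (map_dvd_iff (chartEquiv138 R z)).2 has

end Equiv

variable {Ω : Type*} [Field Ω] {Lc Ec Fc : Subfield Ω} {R V : Subring Ω} {w x : Ω}
  {S : Finset Ω}

namespace GoodModelFront

variable (G : GoodModel Lc Ec Fc R V w x S)

/-- the uniformiser as an element of the ring `R` -/
def wR : Rf Fc R := ⟨wf G, wf_mem_Rf G⟩

@[simp] theorem coe_wR : ((wR G : Rf Fc R) : Fc) = wf G := rfl

section

attribute [local instance] FractionRing.liftAlgebra

include G in
/-- instances on `chartRing R x` -/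
theorem chartRing_instances :
    IsFractionRing (chartRing (Rf Fc R) (xf G)) Fc ∧
      IsNoetherianRing (chartRing (Rf Fc R) (xf G)) := by
  haveI := charZero_Fc G
  haveI := isDiscreteValuationRing_Rf G
  haveI := finiteDimensional_fractionRing G
  exact ⟨chartRing_isFractionRing _ _, chartRing_isNoetherianRing _ _ (transcendental_xf G)⟩

end

/-- **`w` is prime in the chart.** -/
theorem prime_chart :
    Prime (algebraMap (Rf Fc R) (H138.chart (Rf Fc R) ({xf G} : Set Fc)) (wR G)) :=
  prime_chart138 (Rf Fc R) (xf G) (wf_mem_Rf G)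
    (prime_chartUnif (V := Vf G) (wf_mem_Rf G) (wf_ne_zero G) (Rf_le_Vf G) (xf_mem_Vf G)
      (wf_inv_not_mem_Vf G) (Vf_gen G) (qep_fin' G))

/-- **`u ≡ 1 mod w` on the chart.** -/
theorem oneModPi_chart {u : Fc} (hu : ((u : Ω) - 1) * w⁻¹ ∈ V) :
    H754.OneModPi (algebraMap (Rf Fc R) (H138.chart (Rf Fc R) ({xf G} : Set Fc)) (wR G)) u := by
  obtain ⟨i1, i2⟩ := chartRing_instances G
  refine oneModPi_chart138 (Rf Fc R) (xf G) (wf_mem_Rf G)
    (oneModPi_of_sub_one_mem (V := Vf G) (wf_mem_Rf G) (wf_ne_zero G) (Rf_le_Vf G) (xf_mem_Vf G)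
      (wf_inv_not_mem_Vf G) (Vf_gen G) (qep_fin' G) ?_)
  exact hu

include G in
/-- instances on `H138.chart R {x}` -/
theorem chart_instances138 :
    IsNoetherianRing (H138.chart (Rf Fc R) ({xf G} : Set Fc)) ∧
      IsIntegrallyClosed (H138.chart (Rf Fc R) ({xf G} : Set Fc)) ∧
      IsFractionRing (H138.chart (Rf Fc R) ({xf G} : Set Fc)) Fc := by
  haveI := charZero_Fc G
  haveI := isDiscreteValuationRing_Rf G
  haveI := finiteDimensional_baseField G
  exact H394.chart_instances (transcendental_xf G)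

/-- **`m ∣ div u` on the chart**, from the divisor hypothesis of `Alg.AlgMainStatement`. -/
theorem divisibleDivisor_chart {u : Fc} (hu : ((u : Ω) - 1) * w⁻¹ ∈ V) {m : ℕ}
    (hdiv : ∀ O : ValuationSubring Ω, (∀ a ∈ Lc, a ∈ O) →
      ∃ t : Ω, t ≠ 0 ∧ (u : Ω) * t ^ m ∈ O ∧ ((u : Ω) * t ^ m)⁻¹ ∈ O) :
    H754.DivisibleDivisor (H138.chart (Rf Fc R) ({xf G} : Set Fc)) m u := by
  obtain ⟨i1, i2, i3⟩ := chart_instances138 G
  exact divisibleDivisor G
    (fun r hr => ⟨algebraMap (Rf Fc R) (H138.chart (Rf Fc R) ({xf G} : Set Fc)) ⟨r, hr⟩, rfl⟩)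
    _ (prime_chart G) rfl (oneModPi_chart G hu) hdiv

end GoodModelFront

end Fermat.Agent.S18.H438

end
end
-- ===== PACK-END S18/H438/Front/H138Charts.lean

-- ===== PACK-BEGIN S18/H203/LiftBasis.lean
section


/-!
# S18 / b1 (helper203): lifting a basis of the special fibre — local freeness along `w = 0`

`S` a Noetherian integrally closed domain, `w ∈ S` prime, `S̄ = S ⧸ (w)`, `B` the integral
closure of `S` in a finite extension `F` of `K = Frac S`, finite over `S`, `B̄ = B ⧸ (w) B`.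
Let `b : ι → B` be a finite family whose reduction is an `S̄`-basis of `B̄`.  Then

* `exists_smul_mem_span` : there is `r ∈ S`, `r ≡ 1 mod w`, with `r • B ⊆ span_S b`
  (Nakayama), i.e. `b` generates `B` over the localisation `S[1/r]`;
* `linearIndependent_lift` : `b` is linearly independent over `S`;
* `basisOfLift` : the image of `b` in `F` is a `K`-basis of `F`; in particular
  `card ι = [F : K]` (`card_eq_finrank`).

So `B` is free with basis `b` over the semi-local ring `(1 + w S)⁻¹ S`, in particular over the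
local rings of `S` at all primes containing `w`: "B is locally free of rank `[F : K]` along the
special fibre".
-/

set_option autoImplicit false

namespace Fermat.Agent.S18.H203

open Ideal

section

variable {S B : Type*} [CommRing S] [CommRing B] [Algebra S B]

/-- The reduction map `B → B ⧸ (w) B`. -/
abbrev redB (w : S) : B →+* B ⧸ (Ideal.span {w}).map (algebraMap S B) :=
  Ideal.Quotient.mk _

/-- The reduction map `S → S ⧸ (w)`. -/
abbrev redS (w : S) : S →+* S ⧸ Ideal.span {w} :=
  Ideal.Quotient.mk _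

theorem redB_smul (w : S) (s : S) (β : B) :
    redB w (s • β) = redS w s • redB (S := S) w β := by
  rw [Ideal.Quotient.mk_smul_mk_quotient_map_quotient, Algebra.smul_def]

theorem redB_eq_zero_iff (w : S) (β : B) :
    redB (S := S) w β = 0 ↔ algebraMap S B w ∣ β := by
  rw [Ideal.Quotient.eq_zero_iff_mem, mem_map_span_singleton_iff]

theorem redS_eq_zero_iff (w : S) (s : S) : redS w s = 0 ↔ w ∣ s := by
  rw [Ideal.Quotient.eq_zero_iff_mem, Ideal.mem_span_singleton]

variable {ι : Type*} [Fintype ι]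

/-- Every element of `B` is congruent mod `w` to an `S`-combination of the lifts. -/
theorem exists_sum_add_mul (w : S) (b : ι → B)
    (hspan : Submodule.span (S ⧸ Ideal.span {w}) (Set.range fun i => redB (S := S) w (b i)) = ⊤)
    (β : B) : ∃ (c : ι → S) (β' : B), β = ∑ i, c i • b i + algebraMap S B w * β' := by
  have hβ : redB (S := S) w β ∈
      Submodule.span (S ⧸ Ideal.span {w}) (Set.range fun i => redB (S := S) w (b i)) := by
    rw [hspan]; exact Submodule.mem_top
  obtain ⟨cb, hcb⟩ := (Submodule.mem_span_range_iff_exists_fun _).mp hβ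
  choose c hc using fun i => Ideal.Quotient.mk_surjective (cb i)
  have h1 : redB (S := S) w (β - ∑ i, c i • b i) = 0 := by
    rw [map_sub, map_sum, ← hcb, sub_eq_zero]
    refine Finset.sum_congr rfl fun i _ => ?_
    rw [redB_smul, hc i]
  rw [redB_eq_zero_iff] at h1
  obtain ⟨β', hβ'⟩ := h1
  exact ⟨c, β', by rw [← hβ']; ring⟩

/-- **Nakayama**: a single `r ≡ 1 mod w` with `r • B ⊆ span_S b`. -/
theorem exists_smul_mem_span [Module.Finite S B] (w : S) (b : ι → B)
    (hspan : Submodule.span (S ⧸ Ideal.span {w}) (Set.range fun i => redB (S := S) w (b i)) = ⊤) :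
    ∃ r : S, r - 1 ∈ Ideal.span {w} ∧
      ∀ β : B, r • β ∈ Submodule.span S (Set.range b) := by
  set N : Submodule S B := Submodule.span S (Set.range b) with hN
  have hfg : (⊤ : Submodule S (B ⧸ N)).FG := Module.finite_def.mp inferInstance
  have hle : (⊤ : Submodule S (B ⧸ N)) ≤ Ideal.span {w} • ⊤ := by
    intro x _
    obtain ⟨β, rfl⟩ := N.mkQ_surjective x
    obtain ⟨c, β', hβ⟩ := exists_sum_add_mul w b hspan β
    have h1 : N.mkQ β = w • N.mkQ β' := by
      rw [hβ, map_add, ← map_smul, Algebra.smul_def]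
      have h2 : N.mkQ (∑ i, c i • b i) = 0 := by
        rw [Submodule.mkQ_apply, Submodule.Quotient.mk_eq_zero]
        exact Submodule.sum_mem _ fun i _ =>
          Submodule.smul_mem _ _ (Submodule.subset_span ⟨i, rfl⟩)
      rw [h2, zero_add]
    rw [h1]
    exact Submodule.smul_mem_smul (Ideal.mem_span_singleton_self w) Submodule.mem_top
  obtain ⟨r, hr1, hr⟩ :=
    Submodule.exists_sub_one_mem_and_smul_eq_zero_of_fg_of_le_smul (Ideal.span {w}) ⊤ hfg hle
  refine ⟨r, hr1, fun β => ?_⟩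
  have h3 := hr (N.mkQ β) Submodule.mem_top
  rw [← map_smul, Submodule.mkQ_apply, Submodule.Quotient.mk_eq_zero] at h3
  exact h3

end

section Indep

variable {S B : Type*} [CommRing S] [IsDomain S] [IsNoetherianRing S]
  [CommRing B] [Algebra S B] [Module.IsTorsionFree S B]
  {ι : Type*} [Fintype ι]

/-- In a Noetherian domain, an element divisible by all powers of a prime element is zero. -/
theorem eq_zero_of_forall_pow_dvd {w : S} (hw : Prime w) {a : S} (h : ∀ k : ℕ, w ^ k ∣ a) :
    a = 0 := by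
  by_contra ha
  have hfin : FiniteMultiplicity w a := FiniteMultiplicity.of_not_isUnit hw.not_isUnit ha
  obtain ⟨n, hn⟩ := hfin
  exact hn (h (n + 1))

/-- **Linear independence of the lifts.** -/
theorem linearIndependent_lift {w : S} (hw : Prime w) (b : ι → B)
    (hli : LinearIndependent (S ⧸ Ideal.span {w}) fun i => redB (S := S) w (b i)) :
    LinearIndependent S b := by
  rw [Fintype.linearIndependent_iff]
  intro a ha
  -- all coefficients are divisible by all powers of `w`
  have key : ∀ k : ℕ, ∀ a : ι → S, ∑ i, a i • b i = 0 → ∀ i, w ^ k ∣ a i := by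
    intro k
    induction k with
    | zero => intro a _ i; simp
    | succ k ih =>
      intro a ha i
      have h1 := ih a ha
      choose a' ha' using h1
      have h2 : ∑ i, a' i • b i = 0 := by
        have h3 : w ^ k • ∑ i, a' i • b i = 0 := by
          rw [Finset.smul_sum, ← ha]
          refine Finset.sum_congr rfl fun i _ => ?_
          rw [smul_smul, ← ha' i]
        exact (smul_eq_zero_iff_right (pow_ne_zero k hw.ne_zero)).mp h3
      have h4 : ∑ i, redS w (a' i) • redB (S := S) w (b i) = 0 := by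
        have := congrArg (redB (S := S) w) h2
        rw [map_sum, map_zero] at this
        rw [← this]
        refine Finset.sum_congr rfl fun i _ => ?_
        rw [redB_smul]
      have h5 := Fintype.linearIndependent_iff.mp hli _ h4 i
      rw [redS_eq_zero_iff] at h5
      obtain ⟨c, hc⟩ := h5
      exact ⟨c, by rw [ha' i, hc, pow_succ]; ring⟩
  intro i
  exact eq_zero_of_forall_pow_dvd hw fun k => key k a ha i

end Indep

end Fermat.Agent.S18.H203

end
-- ===== PACK-END S18/H203/LiftBasis.lean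

-- ===== PACK-BEGIN S18/B12/H203/RedBasisAbs.lean
section






/-!
# S18 / b2.5, piece A5': reduced basis at a prime `s` with `P/(s)` a PID (`RedBasisAbsStatement`)

Adapter: `H693.exists_redBasis` applied to `B/sB` over `P/(s)`, which is finite and torsion-free
(`H203.isTorsionFree_quotient`, `H203.finite_quotient`).
-/

set_option autoImplicit false

noncomputable section

namespace Fermat.Agent.S18.B12.H203

open Fermat.Agent.S18.H203

universe u v

/-- Nilpotency in `B/sB` is membership in `rad (sB)`. -/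
theorem isNilpotent_redB_iff {P : Type*} {B : Type*} [CommRing P] [CommRing B] [Algebra P B]
    (s : P) (b : B) :
    IsNilpotent (redB (S := P) s b) ↔ b ∈ (Ideal.span {algebraMap P B s}).radical := by
  rw [← map_span_singleton_eq]
  constructor
  · rintro ⟨k, hk⟩
    rw [← map_pow, Ideal.Quotient.eq_zero_iff_mem] at hk
    exact ⟨k, hk⟩
  · rintro ⟨k, hk⟩
    refine ⟨k, ?_⟩
    rw [← map_pow, Ideal.Quotient.eq_zero_iff_mem]
    exact hk

/-- **A5' (reduced basis at a prime `s` with `P/(s)` a PID).** -/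
theorem redBasisAbs.{u₁, v₁} : RedBasisAbsStatement.{u₁, v₁} := by
  intro P _ _ _ B _ _ _ _ _ _ s hs hpid
  let _ : Algebra (FractionRing P) (FractionRing B) := FractionRing.liftAlgebra P _
  have : IsScalarTower P (FractionRing P) (FractionRing B) :=
    FractionRing.isScalarTower_liftAlgebra P (FractionRing B)
  have : IsIntegralClosure B P (FractionRing B) :=
    IsIntegralClosure.of_isIntegrallyClosed _ _ _
  have hprime : (Ideal.span {s}).IsPrime := (Ideal.span_singleton_prime hs.ne_zero).mpr hs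
  have hdom : IsDomain (P ⧸ Ideal.span {s}) := Ideal.Quotient.isDomain _
  have htf : Module.IsTorsionFree (P ⧸ Ideal.span {s})
      (B ⧸ (Ideal.span {s}).map (algebraMap P B)) :=
    isTorsionFree_quotient (B := B) (FractionRing P) (FractionRing B) hs
  have hfin : Module.Finite (P ⧸ Ideal.span {s})
      (B ⧸ (Ideal.span {s}).map (algebraMap P B)) := finite_quotient (B := B) (Ideal.span {s})
  obtain ⟨r, yb, h1, h2⟩ := Fermat.Agent.S18.B12.H693.exists_redBasis (P ⧸ Ideal.span {s})
    (B ⧸ (Ideal.span {s}).map (algebraMap P B))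
  choose y hy using fun i => Ideal.Quotient.mk_surjective (yb i)
  have hsum : ∀ a : Fin r → P,
      redB (S := P) s (∑ i, a i • y i) = ∑ i, redS s (a i) • yb i := by
    intro a
    rw [map_sum]
    refine Finset.sum_congr rfl fun i _ => ?_
    rw [redB_smul, ← hy i]
  refine ⟨r, y, ?_, ?_⟩
  · intro a ha i
    have h3 : IsNilpotent (∑ i, redS s (a i) • yb i) := by
      rw [← hsum]
      exact (isNilpotent_redB_iff s _).mpr ha
    have h4 := congrFun (h1 _ h3) i
    exact (redS_eq_zero_iff s (a i)).mp h4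
  · intro b
    obtain ⟨ab, hab⟩ := h2 (redB (S := P) s b)
    choose a ha using fun i => Ideal.Quotient.mk_surjective (ab i)
    refine ⟨a, ?_⟩
    rw [← isNilpotent_redB_iff, map_sub, hsum]
    have : (fun i => redS s (a i)) = ab := funext ha
    simp only [this] at *
    have hfun : (∑ i, redS s (a i) • yb i) = ∑ i, ab i • yb i :=
      Finset.sum_congr rfl fun i _ => by rw [← ha i]
    rw [hfun]
    exact hab

end Fermat.Agent.S18.B12.H203

end
end
-- ===== PACK-END S18/B12/H203/RedBasisAbs.lean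

-- ===== PACK-BEGIN S18/H394/KummerMain.lean
section




/-!
# S18, Route K, pieces b3+b4 (helper394): the Kummer endgame, user-facing form

`kummer_endgame`: two charts `B₀ ∋ x`, `B₁ ∋ x⁻¹` of a "curve over `R`" inside a field `F`
(`M = B₀[1/x] = B₁[x]`, `B₀ ∩ B₁ = R`, `B₀` finite over `R[x]`, all three `m`-root closed), `m`
invertible in `R`, `m ≥ 2`.  Then there is NO `u ∈ Fˣ` such that
* `u` has exact order `m` modulo constants and `m`-th powers (`hord`), and
* `u` is "congruent to an `m`-th power modulo `w`" on both charts, compatibly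
  (`σ₀ ^ m * u ≡ 1 mod w B₀`, `σ₁ ^ m * u ≡ 1 mod w B₁`, `σ₀ ≡ σ₁ mod w`, in the graded sense),
where `w ∈ R` is not a unit of `B₀`.

No Kummer field, no integral closure, no discriminant: the proof applies the two-chart
connectedness theorem (b5) to the graded algebra `⨁ᵢ {f | f ^ m * u ^ i ∈ B} Tⁱ ⊆ F[T]/(T^m - u)`.
-/

set_option autoImplicit false

namespace Fermat.Agent.S18.H394

open Polynomial

variable {R F : Type*} [CommRing R] [IsLocalRing R] [IsNoetherianRing R] [Field F] [Algebra R F]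

/-- **Kummer endgame** (pieces b3+b4+b5 of Route K in one statement). -/
theorem kummer_endgame
    (m : ℕ) (hm : 2 ≤ m) (ν : R) (hν : ν * (m : R) = 1)
    (w : R) (u : F) (hu : u ≠ 0)
    (B₀ B₁ M : Subalgebra R F)
    (hrc0 : RootClosed m B₀) (hrc1 : RootClosed m B₁) (hrcM : RootClosed m M)
    (x : F) (hx0 : x ≠ 0) (hx : x ∈ B₀) (hx' : x⁻¹ ∈ B₁)
    (h0M : B₀ ≤ M) (h1M : B₁ ≤ M)
    (hloc0 : ∀ y ∈ M, ∃ n : ℕ, x ^ n * y ∈ B₀)
    (hloc1 : ∀ y ∈ M, ∃ n : ℕ, x⁻¹ ^ n * y ∈ B₁)
    (hint : ∀ y : F, y ∈ B₀ → y ∈ B₁ → ∃ r : R, algebraMap R F r = y)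
    (hfin : ∃ s : Finset F, ∀ b ∈ B₀, ∃ P : F → Polynomial R,
      b = ∑ β ∈ s, Polynomial.aeval x (P β) * β)
    (hden : ∃ d ∈ B₀, d ≠ 0 ∧ d * u⁻¹ ∈ B₀)
    (hw1 : ∀ b ∈ B₀, algebraMap R F w * b ≠ 1)
    (hord : ∀ i : ℕ, 0 < i → i < m → ∀ f : F, f ≠ 0 → ∀ r : R,
        f ^ m * u ^ i ≠ algebraMap R F r)
    (σ₀ σ₁ : F)
    (h₀ : ∃ b ∈ B₀, σ₀ ^ m * u - 1 = algebraMap R F w * b)
    (h₁ : ∃ b ∈ B₁, σ₁ ^ m * u - 1 = algebraMap R F w * b)
    (h₀₁ : ∃ γ : F, σ₀ - σ₁ = algebraMap R F w * γ ∧ γ ^ m * u ∈ M) : False := by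
  classical
  have hm0 : m ≠ 0 := by omega
  have hp : (X ^ m - C u : F[X]).Monic := monic_X_pow_sub_C u hm0
  set pb := AdjoinRoot.powerBasis' hp with hpb
  have hdim : pb.dim = m := by
    rw [hpb, AdjoinRoot.powerBasis'_dim]
    exact natDegree_X_pow_sub_C
  have hT : pb.gen ^ pb.dim = algebraMap F (AdjoinRoot (X ^ m - C u : F[X])) u := by
    rw [hdim, hpb, AdjoinRoot.powerBasis'_gen]
    have := AdjoinRoot.eval₂_root (X ^ m - C u : F[X])
    simp only [eval₂_sub, eval₂_pow, eval₂_X, eval₂_C] at this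
    rw [sub_eq_zero] at this
    rw [this]
    rfl
  have hd0 : 0 < pb.dim := by omega
  have hd1 : 1 < pb.dim := by omega
  have hrc0' : RootClosed pb.dim B₀ := by rw [hdim]; exact hrc0
  have hrc1' : RootClosed pb.dim B₁ := by rw [hdim]; exact hrc1
  have hrcM' : RootClosed pb.dim M := by rw [hdim]; exact hrcM
  obtain ⟨S, hS, hgen⟩ := kummerSub_fg pb u hu hT hd0 B₀ hrc0' x hx hfin hden
  refine kummer_endgame_aux pb u hT hd0 hd1 ν (by rw [hdim]; exact hν) w B₀ B₁ M hrc0' hrc1' hrcM'
    x hx0 hx hx' h0M h1M hloc0 hloc1 hint (↥S) (fun c => (c : AdjoinRoot (X ^ m - C u : F[X])))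
    (fun c => hS c c.2) ?_ hw1 (by rw [hdim]; exact hord) σ₀ σ₁ (by rw [hdim]; exact h₀)
    (by rw [hdim]; exact h₁) (by rw [hdim]; exact h₀₁)
  intro b hb
  obtain ⟨P, hP⟩ := hgen b hb
  refine ⟨fun c => P c, ?_⟩
  rw [finsum_eq_sum_of_fintype, hP]
  exact (Finset.sum_coe_sort S (fun c => Polynomial.aeval (algebraMap F _ x) (P c) * c)).symm

end Fermat.Agent.S18.H394

end
-- ===== PACK-END S18/H394/KummerMain.lean

-- ===== PACK-BEGIN S18/H394/KummerCharts.lean
section






/-!
# S18, Route K (helper394): the Kummer endgame on the charts of the `x`-line model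

Typed core of `node_alg`.  Setting (as in `H138/Connected.lean`): `R` a noetherian local domain
with `R[X]` integrally closed (e.g. a DVR), `F` a field of characteristic `0` containing `R`,
`x ∈ F` transcendental over `R`, `F` finite over `baseField R x`, `R` integrally closed in `F`;
charts `B₀ = chart R {x}`, `B₁ = chart R {x⁻¹}`, `M = chart R {x, x⁻¹}` (integral closures of
`R[x]`, `R[x⁻¹]`, `R[x, x⁻¹]` in `F`), `w ∈ R` a non-unit, `m` invertible in `R`.

* `kummer_charts`: the hypotheses `hrc`, `hloc`, `hint`, `hfin`, `hden`, `hw1` of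
  `H394.kummer_endgame` are discharged for the charts; conclusion: `u` does NOT have exact order
  `m` modulo `Frac(R)ˣ (Fˣ)^m`.
* `kummer_charts_prime`: for `m` prime, `u = r ^ a * y ^ m` with `r ∈ R`, `a ∈ ℤ`, `y ∈ F`.
* `kummer_charts_of_regular`: the same from the chartwise hypotheses
  `Prime w`, `H754.RegularAlong w` (b2), `H754.OneModPi w u`, `H754.DivisibleDivisor B m u`
  (via `H214.local_existence`; the saturation hypothesis `hsat` is proved here).
-/

set_option autoImplicit false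
set_option linter.style.haveILetI false

namespace Fermat.Agent.S18.H394

open Polynomial
open Fermat.Agent.S18.H138 (chart baseField)

section Basic

variable {R : Type*} [CommRing R] {F : Type*} [Field F] [Algebra R F]

theorem rootClosed_chart (S : Set F) {m : ℕ} (hm : 0 < m) : RootClosed m (chart R S) := by
  intro f hf
  rw [H138.mem_chart] at hf ⊢
  exact IsIntegral.of_pow hm hf

theorem chart_inv_pair (x : F) :
    chart R ({x⁻¹, x⁻¹⁻¹} : Set F) = chart R ({x, x⁻¹} : Set F) := by
  rw [inv_inv, Set.pair_comm]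

theorem subalgebra_dvd_iff (B : Subalgebra R F) (w : R) (s : B) :
    algebraMap R B w ∣ s ↔ ∃ c ∈ B, (s : F) = algebraMap R F w * c := by
  constructor
  · rintro ⟨c, hc⟩
    exact ⟨c, c.2, by rw [hc]; rfl⟩
  · rintro ⟨c, hc, h⟩
    exact ⟨⟨c, hc⟩, Subtype.ext h⟩

/-- Elementary unmixedness inside the fraction field. -/
theorem mem_of_mul_mem_of_prime (B : Subalgebra R F) (w : R)
    (hw : Prime (algebraMap R B w)) (s : B) (hs : ¬ algebraMap R B w ∣ s) (g : F)
    (h1 : algebraMap R F w * g ∈ B) (h2 : (s : F) * g ∈ B) : g ∈ B := by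
  have hw0 : algebraMap R F w ≠ 0 := by
    intro h
    apply hw.ne_zero
    exact Subtype.ext h
  have hdvd : algebraMap R B w ∣ s * ⟨_, h1⟩ := by
    refine ⟨⟨_, h2⟩, Subtype.ext ?_⟩
    change (s : F) * (algebraMap R F w * g) = algebraMap R F w * ((s : F) * g)
    ring
  rcases hw.dvd_or_dvd hdvd with h | h
  · exact absurd h hs
  · obtain ⟨c, hc, h3⟩ := (subalgebra_dvd_iff B w _).mp h
    have : g = c := mul_left_cancel₀ hw0 h3
    rw [this]; exact hc

end Basic

section Charts

variable {R : Type*} [CommRing R] {F : Type*} [Field F] [Algebra R F]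
variable [IsNoetherianRing R] [IsIntegrallyClosed R[X]] [CharZero F]

/-- Finite generation of the chart in the form used by `kummer_endgame`. -/
theorem exists_finset_gens {x : F} (hx : Transcendental R x)
    [FiniteDimensional (baseField R x) F] :
    ∃ s : Finset F, ∀ b ∈ chart R ({x} : Set F), ∃ P : F → R[X],
      b = ∑ β ∈ s, aeval x (P β) * β := by
  classical
  obtain ⟨n, bs, -, hgen⟩ := H138.exists_finite_gens (R := R) hx
  refine ⟨Finset.univ.image bs, fun b hb => ?_⟩
  have key : ∀ z ∈ Submodule.span R {z : F | ∃ (j : ℕ) (i : Fin n), z = x ^ j * bs i},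
      ∃ P : F → R[X], z = ∑ β ∈ Finset.univ.image bs, aeval x (P β) * β := by
    intro z hz
    induction hz using Submodule.span_induction with
    | mem z hz =>
      obtain ⟨j, i, rfl⟩ := hz
      refine ⟨fun β => if β = bs i then X ^ j else 0, ?_⟩
      rw [Finset.sum_eq_single (bs i)]
      · simp
      · intro β _ hβ
        simp [hβ]
      · intro h
        exact absurd (Finset.mem_image_of_mem bs (Finset.mem_univ i)) h
    | zero => exact ⟨fun _ => 0, by simp⟩
    | add y z _ _ hy hz =>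
      obtain ⟨P, hP⟩ := hy
      obtain ⟨Q, hQ⟩ := hz
      refine ⟨fun β => P β + Q β, ?_⟩
      rw [hP, hQ, ← Finset.sum_add_distrib]
      refine Finset.sum_congr rfl fun β _ => ?_
      rw [map_add, add_mul]
    | smul r z _ hz =>
      obtain ⟨P, hP⟩ := hz
      refine ⟨fun β => C r * P β, ?_⟩
      rw [hP, Finset.smul_sum]
      refine Finset.sum_congr rfl fun β _ => ?_
      rw [map_mul, aeval_C, Algebra.smul_def, mul_assoc]
  exact key b (hgen b hb)

/-- Every element of `F` has a denominator in the chart. -/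
theorem exists_den {x : F} (hx : Transcendental R x) [FiniteDimensional (baseField R x) F]
    (z : F) : ∃ d ∈ chart R ({x} : Set F), d ≠ 0 ∧ d * z ∈ chart R ({x} : Set F) := by
  obtain ⟨-, -, hfr⟩ := chart_instances (R := R) hx
  obtain ⟨a, b, hb, hab⟩ := IsFractionRing.div_surjective (A := chart R ({x} : Set F)) z
  have hb0 : (b : F) ≠ 0 := by
    intro h
    exact nonZeroDivisors.ne_zero hb (Subtype.ext h)
  refine ⟨b, b.2, hb0, ?_⟩
  have : (b : F) * z = a := by
    rw [← hab]
    change (b : F) * ((a : F) / (b : F)) = a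
    field_simp
  rw [this]
  exact a.2

/-- `C w ∣ Q` if `Q(x) ∈ w B₀`. -/
theorem dvd_coeff_of_aeval_eq_mul {x : F} (hx : Transcendental R x)
    (hinjR : Function.Injective (algebraMap R F)) (w : R) (hw0 : w ≠ 0) (Q : R[X]) {t : F}
    (ht : t ∈ chart R ({x} : Set F)) (h : aeval x Q = algebraMap R F w * t) (n : ℕ) :
    w ∣ Q.coeff n := by
  have hwF : algebraMap R F w ≠ 0 := fun h0 => hw0 (hinjR (by rw [h0, map_zero]))
  haveI := H138.isIntegrallyClosed_adjoin_singleton (R := R) hx
  have htK : t ∈ baseField R x := by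
    have : t = aeval x Q / algebraMap R F w := by
      rw [h, mul_div_cancel_left₀ _ hwF]
    rw [this]
    refine (baseField R x).div_mem (H138.adjoin_le_baseField x ?_)
      (Subfield.subset_closure (Or.inl ⟨w, rfl⟩))
    exact H138.mem_adjoin_singleton_iff.2 ⟨Q, rfl⟩
  have htA : t ∈ Algebra.adjoin R ({x} : Set F) :=
    H138.mem_of_isIntegral_of_mem _ (baseField R x) (fun a ha => H138.adjoin_le_baseField x ha)
      (fun z hz => H138.exists_div_of_mem_baseField x hz) htK ht
  obtain ⟨P, rfl⟩ := H138.mem_adjoin_singleton_iff.1 htA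
  have h3 : aeval x (Q - C w * P) = 0 := by
    rw [map_sub, map_mul, aeval_C, h, sub_self]
  have h4 := (transcendental_iff.1 hx) _ h3
  have h5 : Q = C w * P := sub_eq_zero.1 h4
  refine ⟨P.coeff n, ?_⟩
  rw [h5, coeff_C_mul]

variable [IsLocalRing R]

/-- **The Kummer endgame on the charts.** -/
theorem kummer_charts
    (hinjR : Function.Injective (algebraMap R F))
    (hRF : ∀ y : F, IsIntegral R y → y ∈ Set.range (algebraMap R F))
    {x : F} (hx : Transcendental R x) [FiniteDimensional (baseField R x) F]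
    (w : R) (hw : ¬ IsUnit w)
    (m : ℕ) (hm : 2 ≤ m) (ν : R) (hν : ν * (m : R) = 1)
    (u : F) (hu : u ≠ 0) (σ₀ σ₁ : F)
    (h₀ : ∃ b ∈ chart R ({x} : Set F), σ₀ ^ m * u - 1 = algebraMap R F w * b)
    (h₁ : ∃ b ∈ chart R ({x⁻¹} : Set F), σ₁ ^ m * u - 1 = algebraMap R F w * b)
    (h₀₁ : ∃ γ : F, σ₀ - σ₁ = algebraMap R F w * γ ∧ γ ^ m * u ∈ chart R ({x, x⁻¹} : Set F)) :
    ∃ i : ℕ, 0 < i ∧ i < m ∧ ∃ f : F, f ≠ 0 ∧ ∃ r : R, f ^ m * u ^ i = algebraMap R F r := by
  by_contra hcon
  push Not at hcon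
  have hx0 : x ≠ 0 := H138.ne_zero_of_transcendental hx
  have hm0 : 0 < m := by omega
  refine kummer_endgame m hm ν hν w u hu (chart R ({x} : Set F)) (chart R ({x⁻¹} : Set F))
    (chart R ({x, x⁻¹} : Set F)) (rootClosed_chart _ hm0) (rootClosed_chart _ hm0)
    (rootClosed_chart _ hm0) x hx0 (H138.mem_chart_of_mem rfl) (H138.mem_chart_of_mem rfl)
    (H138.chart_mono (by simp)) (H138.chart_mono (by simp)) ?_ ?_ ?_ (exists_finset_gens hx) ?_ ?_
    (fun i hi him f hf r => hcon i hi him f hf r) σ₀ σ₁ h₀ h₁ h₀₁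
  · intro y hy
    exact H138.exists_pow_mul_mem_chart hx0 hy
  · intro y hy
    refine H138.exists_pow_mul_mem_chart (inv_ne_zero hx0) ?_
    rw [chart_inv_pair]
    exact hy
  · intro y hy0 hy1
    obtain ⟨r, hr⟩ := hRF y (H138.isIntegral_of_mem_chart_inter hx hy0 hy1)
    exact ⟨r, hr⟩
  · obtain ⟨d, hd, hd0, hdu⟩ := exists_den (R := R) hx u⁻¹
    exact ⟨d, hd, hd0, hdu⟩
  · intro b hb h
    apply hw
    have := H138.dvd_of_algebraMap_eq_mul hinjR hx w 1 hb (by rw [map_one, h])
    exact isUnit_of_dvd_one this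

/-- For prime `m`: `u` is a constant times an `m`-th power. -/
theorem kummer_charts_prime
    (hinjR : Function.Injective (algebraMap R F))
    (hRF : ∀ y : F, IsIntegral R y → y ∈ Set.range (algebraMap R F))
    {x : F} (hx : Transcendental R x) [FiniteDimensional (baseField R x) F]
    (w : R) (hw : ¬ IsUnit w)
    (m : ℕ) (hm : m.Prime) (ν : R) (hν : ν * (m : R) = 1)
    (u : F) (hu : u ≠ 0) (σ₀ σ₁ : F)
    (h₀ : ∃ b ∈ chart R ({x} : Set F), σ₀ ^ m * u - 1 = algebraMap R F w * b)
    (h₁ : ∃ b ∈ chart R ({x⁻¹} : Set F), σ₁ ^ m * u - 1 = algebraMap R F w * b)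
    (h₀₁ : ∃ γ : F, σ₀ - σ₁ = algebraMap R F w * γ ∧ γ ^ m * u ∈ chart R ({x, x⁻¹} : Set F)) :
    ∃ (r : R) (a : ℤ) (y : F), r ≠ 0 ∧ u = algebraMap R F r ^ a * y ^ m := by
  obtain ⟨i, hi0, him, f, hf, r, hr⟩ :=
    kummer_charts hinjR hRF hx w hw m hm.two_le ν hν u hu σ₀ σ₁ h₀ h₁ h₀₁
  have hr0 : r ≠ 0 := by
    rintro rfl
    rw [map_zero] at hr
    exact mul_ne_zero (pow_ne_zero m hf) (pow_ne_zero i hu) hr
  have hrF : algebraMap R F r ≠ 0 := fun h => hr0 (hinjR (by rw [h, map_zero]))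
  have hcop : Nat.Coprime i m :=
    ((Nat.Prime.coprime_iff_not_dvd hm).mpr (Nat.not_dvd_of_pos_of_lt hi0 him)).symm
  -- Bezout
  have hbez : (i : ℤ) * Nat.gcdA i m + (m : ℤ) * Nat.gcdB i m = 1 := by
    have := Nat.gcd_eq_gcd_ab i m
    rw [hcop.gcd_eq_one] at this
    exact_mod_cast this.symm
  set a : ℤ := Nat.gcdA i m with ha
  set b : ℤ := Nat.gcdB i m with hb
  refine ⟨r, a, f⁻¹ ^ a * u ^ b, hr0, ?_⟩
  have e1 : (f ^ m * u ^ i) ^ a = f ^ ((m : ℤ) * a) * u ^ ((i : ℤ) * a) := by
    rw [mul_zpow, ← zpow_natCast f m, ← zpow_natCast u i, ← zpow_mul, ← zpow_mul]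
  have e2 : (f⁻¹ ^ a * u ^ b) ^ m = f ^ (-((m : ℤ) * a)) * u ^ ((m : ℤ) * b) := by
    rw [mul_pow, ← zpow_natCast (f⁻¹ ^ a) m, ← zpow_natCast (u ^ b) m, ← zpow_mul, ← zpow_mul,
      inv_zpow', mul_comm a (m : ℤ), mul_comm b (m : ℤ)]
  rw [← hr, e1, e2]
  have e3 : f ^ ((m : ℤ) * a) * u ^ ((i : ℤ) * a) * (f ^ (-((m : ℤ) * a)) * u ^ ((m : ℤ) * b))
      = (f ^ ((m : ℤ) * a) * f ^ (-((m : ℤ) * a))) * (u ^ ((i : ℤ) * a) * u ^ ((m : ℤ) * b)) := by
    ring
  rw [e3, ← zpow_add₀ hf, ← zpow_add₀ hu, add_neg_cancel, zpow_zero, one_mul, hbez, zpow_one]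

end Charts

end Fermat.Agent.S18.H394

end
-- ===== PACK-END S18/H394/KummerCharts.lean

-- ===== PACK-BEGIN S18/H394/KummerRegular.lean
section




/-!
# S18, Route K (helper394): typed core of `node_alg` (prime `m`)

Setting of `H394/KummerCharts.lean` (= `H138/Connected.lean`): `R` noetherian local with `R[X]`
integrally closed, `F ⊇ R` a field of characteristic `0`, `x` transcendental, `F` finite over
`baseField R x`, `R` integrally closed in `F`; charts `B₀ = chart R {x}`, `B₁ = chart R {x⁻¹}`.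

**Theorem `kummer_charts_of_regular`.**  Let `m` be a prime invertible in `R`, `w ∈ R`, `u ∈ Fˣ`.
Assume on each chart `B ∈ {B₀, B₁}`:
* `w` is prime in `B`                      (q-expansion principle),
* `H754.RegularAlong w`                    (b2: the special fibre is regular = `B12.H33.b2Regular`),
* `H754.OneModPi w u`                      (`u ≡ 1 mod w`),
* `H754.DivisibleDivisor B m u`            (`m ∣ div u`).
Then `u = r ^ a * y ^ m` with `r ∈ R ∖ {0}`, `a ∈ ℤ`, `y ∈ F`.

Proof: `H214.local_existence` (LE) + `H394.kummer_charts_prime` (graded Kummer algebra + b5).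
No Kummer extension field, no roots of unity, no enlargement of constants.
-/

set_option autoImplicit false
set_option linter.style.haveILetI false

namespace Fermat.Agent.S18.H394

open Polynomial
open Fermat.Agent.S18.H138 (chart baseField)

section Regular

variable {R : Type*} [CommRing R] {F : Type*} [Field F] [Algebra R F]
variable [IsNoetherianRing R] [IsIntegrallyClosed R[X]] [CharZero F]

/-- `w ∤ x` in the chart `B₀`. -/
theorem not_dvd_coord (hinjR : Function.Injective (algebraMap R F)) {x : F}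
    (hx : Transcendental R x) (w : R) (hw : ¬ IsUnit w) (hw0 : w ≠ 0)
    (X₀ : chart R ({x} : Set F)) (hX₀ : (X₀ : F) = x) :
    ¬ algebraMap R (chart R ({x} : Set F)) w ∣ X₀ := by
  intro h
  obtain ⟨c, hc, h⟩ := (subalgebra_dvd_iff _ w X₀).mp h
  rw [hX₀] at h
  have := dvd_coeff_of_aeval_eq_mul hx hinjR w hw0 X hc (by rw [aeval_X]; exact h) 1
  rw [coeff_X_one] at this
  exact hw (isUnit_of_dvd_one this)

/-- The saturation property of the overlap `M` (hypothesis `hsat` of `H214.local_existence`). -/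
theorem chart_saturated (hinjR : Function.Injective (algebraMap R F)) {x : F}
    (hx : Transcendental R x) (w : R)
    (hw₀ : Prime (algebraMap R (chart R ({x} : Set F)) w))
    (hw₁ : Prime (algebraMap R (chart R ({x⁻¹} : Set F)) w))
    (f : F) (s₀ : chart R ({x} : Set F)) (hs₀ : ¬ algebraMap R (chart R ({x} : Set F)) w ∣ s₀)
    (s₁ : chart R ({x⁻¹} : Set F)) (hs₁ : ¬ algebraMap R (chart R ({x⁻¹} : Set F)) w ∣ s₁)
    (h1 : (s₀ : F) * (s₁ : F) * f ∈ chart R ({x, x⁻¹} : Set F))
    (h2 : algebraMap R F w * f ∈ chart R ({x, x⁻¹} : Set F)) :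
    f ∈ chart R ({x, x⁻¹} : Set F) := by
  have hx0 : x ≠ 0 := H138.ne_zero_of_transcendental hx
  have h0M : (chart R ({x} : Set F)) ≤ (chart R ({x, x⁻¹} : Set F)) := H138.chart_mono (by simp)
  have h1M : (chart R ({x⁻¹} : Set F)) ≤ (chart R ({x, x⁻¹} : Set F)) := H138.chart_mono (by simp)
  have hxB0 : x ∈ (chart R ({x} : Set F)) := H138.mem_chart_of_mem rfl
  have hxB1 : x⁻¹ ∈ (chart R ({x⁻¹} : Set F)) := H138.mem_chart_of_mem rfl
  have hloc0 : ∀ y ∈ (chart R ({x, x⁻¹} : Set F)), ∃ n : ℕ, x ^ n * y ∈ (chart R ({x} : Set F)) := fun y hy =>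
    H138.exists_pow_mul_mem_chart hx0 hy
  have hloc1 : ∀ y ∈ (chart R ({x, x⁻¹} : Set F)), ∃ n : ℕ, x⁻¹ ^ n * y ∈ (chart R ({x⁻¹} : Set F)) := by
    intro y hy
    refine H138.exists_pow_mul_mem_chart (inv_ne_zero hx0) ?_
    rw [chart_inv_pair]
    exact hy
  have hwnu : ¬ IsUnit w := fun h => hw₀.not_isUnit (h.map _)
  have hw0 : w ≠ 0 := by
    rintro rfl
    exact hw₀.ne_zero (map_zero _)
  have hX₁ : ¬ algebraMap R (chart R ({x⁻¹} : Set F)) w ∣ (⟨x⁻¹, hxB1⟩ : (chart R ({x⁻¹} : Set F))) :=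
    not_dvd_coord hinjR (H138.transcendental_inv hx) w hwnu hw0 _ rfl
  -- `t₁ = x ^ j * s₁ ∈ (chart R ({x} : Set F)) ∖ w (chart R ({x} : Set F))`
  obtain ⟨j, hj⟩ := hloc0 (s₁ : F) (h1M s₁.2)
  have ht₁ : ¬ algebraMap R (chart R ({x} : Set F)) w ∣ (⟨x ^ j * s₁, hj⟩ : (chart R ({x} : Set F))) := by
    intro h
    obtain ⟨c, hc, h⟩ := (subalgebra_dvd_iff _ w _).mp h
    change x ^ j * (s₁ : F) = algebraMap R F w * c at h
    obtain ⟨n, hn⟩ := hloc1 c (h0M hc)
    have hs : (s₁ : F) = x⁻¹ ^ j * (algebraMap R F w * c) := by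
      rw [← h, ← mul_assoc, ← mul_pow, inv_mul_cancel₀ hx0, one_pow, one_mul]
    have hdvd : algebraMap R (chart R ({x⁻¹} : Set F)) w ∣ (⟨x⁻¹, hxB1⟩ : (chart R ({x⁻¹} : Set F))) ^ n * s₁ := by
      rw [subalgebra_dvd_iff]
      refine ⟨x⁻¹ ^ j * (x⁻¹ ^ n * c), (chart R ({x⁻¹} : Set F)).mul_mem ((chart R ({x⁻¹} : Set F)).pow_mem hxB1 _) hn, ?_⟩
      change (x⁻¹) ^ n * (s₁ : F) = algebraMap R F w * (x⁻¹ ^ j * (x⁻¹ ^ n * c))
      rw [hs]
      ring
    rcases hw₁.dvd_or_dvd hdvd with h' | h'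
    · exact hX₁ (hw₁.dvd_of_dvd_pow h')
    · exact hs₁ h'
  obtain ⟨N₁, hN₁⟩ := hloc0 _ h2
  obtain ⟨N₂, hN₂⟩ := hloc0 _ h1
  set g : F := x ^ (N₁ + N₂ + j) * f with hg
  have hg1 : algebraMap R F w * g ∈ (chart R ({x} : Set F)) := by
    have : algebraMap R F w * g = x ^ (N₂ + j) * (x ^ N₁ * (algebraMap R F w * f)) := by
      rw [hg]; ring
    rw [this]
    exact (chart R ({x} : Set F)).mul_mem ((chart R ({x} : Set F)).pow_mem hxB0 _) hN₁
  have hg2 : ((s₀ * ⟨x ^ j * s₁, hj⟩ : (chart R ({x} : Set F))) : F) * g ∈ (chart R ({x} : Set F)) := by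
    have : ((s₀ * ⟨x ^ j * s₁, hj⟩ : (chart R ({x} : Set F))) : F) * g
        = x ^ (N₁ + j + j) * (x ^ N₂ * ((s₀ : F) * (s₁ : F) * f)) := by
      change (s₀ : F) * (x ^ j * (s₁ : F)) * g = _
      rw [hg]; ring
    rw [this]
    exact (chart R ({x} : Set F)).mul_mem ((chart R ({x} : Set F)).pow_mem hxB0 _) hN₂
  have hst : ¬ algebraMap R (chart R ({x} : Set F)) w ∣ s₀ * ⟨x ^ j * s₁, hj⟩ := by
    intro h
    rcases hw₀.dvd_or_dvd h with h' | h'
    · exact hs₀ h'
    · exact ht₁ h'
  have hgB : g ∈ (chart R ({x} : Set F)) := mem_of_mul_mem_of_prime (chart R ({x} : Set F)) w hw₀ _ hst g hg1 hg2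
  have : f = x⁻¹ ^ (N₁ + N₂ + j) * g := by
    rw [hg, ← mul_assoc, ← mul_pow, inv_mul_cancel₀ hx0, one_pow, one_mul]
  rw [this]
  exact (chart R ({x, x⁻¹} : Set F)).mul_mem ((chart R ({x, x⁻¹} : Set F)).pow_mem (h1M hxB1) _) (h0M hgB)

variable [IsLocalRing R]

/-- **Typed core of `node_alg`** (prime `m`). -/
theorem kummer_charts_of_regular
    (hinjR : Function.Injective (algebraMap R F))
    (hRF : ∀ y : F, IsIntegral R y → y ∈ Set.range (algebraMap R F))
    {x : F} (hx : Transcendental R x) [FiniteDimensional (baseField R x) F]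
    (w : R) (m : ℕ) (hm : m.Prime) (ν : R) (hν : ν * (m : R) = 1)
    (u : F) (hu : u ≠ 0)
    (hw₀ : Prime (algebraMap R (chart R ({x} : Set F)) w))
    (hw₁ : Prime (algebraMap R (chart R ({x⁻¹} : Set F)) w))
    (hreg₀ : H754.RegularAlong (algebraMap R (chart R ({x} : Set F)) w))
    (hreg₁ : H754.RegularAlong (algebraMap R (chart R ({x⁻¹} : Set F)) w))
    (hu₀ : H754.OneModPi (algebraMap R (chart R ({x} : Set F)) w) u)
    (hu₁ : H754.OneModPi (algebraMap R (chart R ({x⁻¹} : Set F)) w) u)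
    (hdiv₀ : H754.DivisibleDivisor (chart R ({x} : Set F)) m u)
    (hdiv₁ : H754.DivisibleDivisor (chart R ({x⁻¹} : Set F)) m u) :
    ∃ (r : R) (a : ℤ) (y : F), r ≠ 0 ∧ u = algebraMap R F r ^ a * y ^ m := by
  have hwnu : ¬ IsUnit w := fun h => hw₀.not_isUnit (h.map _)
  haveI : FiniteDimensional (baseField R x⁻¹) F := by
    rw [H138.baseField_inv]; infer_instance
  obtain ⟨i1, i2, i3⟩ := chart_instances (R := R) hx
  obtain ⟨j1, j2, j3⟩ := chart_instances (R := R) (H138.transcendental_inv hx)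
  obtain ⟨σ₀, σ₁, h₀, h₁, h₀₁⟩ := H214.local_existence m hm.ne_zero w u
    (chart R ({x} : Set F)) (chart R ({x⁻¹} : Set F)) (chart R ({x, x⁻¹} : Set F))
    (H138.chart_mono (by simp)) (H138.chart_mono (by simp)) hw₀ hw₁ hreg₀ hreg₁ hu₀ hu₁
    hdiv₀ hdiv₁ (rootClosed_chart _ hm.pos)
    (fun f s₀ hs₀ s₁ hs₁ h1 h2 => chart_saturated hinjR hx w hw₀ hw₁ f s₀ hs₀ s₁ hs₁ h1 h2)
  exact kummer_charts_prime hinjR hRF hx w hwnu m hm ν hν u hu σ₀ σ₁ h₀ h₁ h₀₁

end Regular

end Fermat.Agent.S18.H394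

end
-- ===== PACK-END S18/H394/KummerRegular.lean

-- ===== PACK-BEGIN A2/Alg/H34/Base.lean
section



/-!
# WALL A2 / ALG — BASE adapter (helper34)

From the standing hypotheses of `AlgSSStatement` (`E = Frac R`, `F / E(x)` finite, charts given by
an integrality predicate) to the setting of `S18.H138` / `S18.H394` (`chart R {x}`,
`baseField R x`): `chart_eq`, `transcendental_of_field`, `finiteDimensional_baseField`,
`algebraMap_RF_injective`, `chart_instances'` (noetherian, integrally closed, fraction field `F`).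
-/

set_option autoImplicit false
set_option linter.unusedSectionVars false
set_option linter.style.haveILetI false

namespace Fermat.Agent.A2.Alg.H34

open Fermat.Agent.A2 Fermat.Agent.A2.Alg
open Fermat.Agent.S18.H138 (chart baseField)
open Polynomial

variable {R E F : Type*} [CommRing R] [IsDomain R] [Field E] [Algebra R E] [IsFractionRing R E]
  [Field F] [Algebra E F] [Algebra R F] [IsScalarTower R E F]

omit [IsDomain R] [Field E] [Algebra R E] [IsFractionRing R E] [Algebra E F]
  [IsScalarTower R E F] in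
theorem algebraMap_RF_injective (E : Type*) [Field E] [Algebra R E] [IsFractionRing R E]
    [Algebra E F] [IsScalarTower R E F] : Function.Injective (algebraMap R F) := by
  rw [IsScalarTower.algebraMap_eq R E F]
  exact (algebraMap E F).injective.comp (IsFractionRing.injective R E)

theorem transcendental_of_field {x : F} (hx : Transcendental E x) : Transcendental R x := by
  intro h
  exact hx (h.extendScalars (IsFractionRing.injective R E))

theorem algebraMap_mem_baseField (x : F) (e : E) : algebraMap E F e ∈ baseField R x := by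
  obtain ⟨a, b, -, rfl⟩ := IsFractionRing.div_surjective (A := R) e
  rw [map_div₀, ← IsScalarTower.algebraMap_apply, ← IsScalarTower.algebraMap_apply]
  exact div_mem (Subfield.subset_closure (Or.inl ⟨a, rfl⟩))
    (Subfield.subset_closure (Or.inl ⟨b, rfl⟩))

theorem mem_baseField_of_mem_adjoin (x : F) {z : F}
    (hz : z ∈ IntermediateField.adjoin E ({x} : Set F)) : z ∈ baseField R x := by
  have h : IntermediateField.adjoin E ({x} : Set F) ≤
      Subfield.toIntermediateField (baseField R x) (algebraMap_mem_baseField (R := R) x) := by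
    rw [IntermediateField.adjoin_le_iff]
    rintro y hy
    rw [Set.mem_singleton_iff] at hy
    subst hy
    exact Subfield.subset_closure (Or.inr rfl)
  exact h hz

theorem finiteDimensional_baseField (x : F)
    (hfin : FiniteDimensional (IntermediateField.adjoin E ({x} : Set F)) F) :
    FiniteDimensional (baseField R x) F := by
  let ι : (IntermediateField.adjoin E ({x} : Set F)) →+* baseField R x :=
    { toFun := fun a => ⟨a.1, mem_baseField_of_mem_adjoin (R := R) x a.2⟩
      map_one' := rfl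
      map_mul' := fun _ _ => rfl
      map_zero' := rfl
      map_add' := fun _ _ => rfl }
  letI : Algebra (IntermediateField.adjoin E ({x} : Set F)) (baseField R x) := ι.toAlgebra
  haveI : IsScalarTower (IntermediateField.adjoin E ({x} : Set F)) (baseField R x) F :=
    IsScalarTower.of_algebraMap_eq (fun _ => rfl)
  exact Module.Finite.of_restrictScalars_finite (IntermediateField.adjoin E ({x} : Set F))
    (baseField R x) F

theorem chart_eq (x : F) (B : Subalgebra R F)
    (hB : ∀ f : F, f ∈ B ↔ IsIntegral (Algebra.adjoin R ({x} : Set F)) f) :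
    B = chart R ({x} : Set F) :=
  SetLike.ext fun f => (hB f).trans Fermat.Agent.S18.H138.mem_chart.symm

theorem charZero_of_field [CharZero E] : CharZero F :=
  charZero_of_injective_algebraMap (algebraMap E F).injective

/-- The chart of `ChartCtx` is a noetherian integrally closed domain with fraction field `F`. -/
theorem chart_instances' [IsDiscreteValuationRing R] [CharZero E] (w : R) (x : F)
    (B : Subalgebra R F) (hB : ChartCtx E w x B) :
    IsNoetherianRing B ∧ IsIntegrallyClosed B ∧ IsFractionRing B F := by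
  obtain rfl := chart_eq x B hB.hB
  haveI : CharZero F := charZero_of_field (E := E)
  haveI := finiteDimensional_baseField (R := R) x hB.hfin
  exact Fermat.Agent.S18.H394.chart_instances (transcendental_of_field hB.hx)

end Fermat.Agent.A2.Alg.H34

end
-- ===== PACK-END A2/Alg/H34/Base.lean

-- ===== PACK-BEGIN A2/Alg/H609/ChartFacts.lean
section



/-!
# WALL A2 / ALG (helper609): facts on a chart of `ChartCtx`

For a chart `B` (the integral closure of `R[x]` in `F`, `R` a discrete valuation ring with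
uniformiser `w`):

* `isIntegral_aeval_chart` : `B` is integral over `R[X]` via `X ↦ x`;
* `isDedekindDomain_quotient_chart` : for a prime `p ∋ w` with `B ⧸ p` integrally closed,
  `B ⧸ p` is a Dedekind domain;
* `algebraMap_field_mem` : a valuation subring of `F` containing `B` and `w⁻¹` contains `E`.
-/

set_option autoImplicit false

namespace Fermat.Agent.A2.Alg.H609

open Polynomial Fermat.Agent.A2 Fermat.Agent.A2.Alg

section Integral

variable {R F : Type*} [CommRing R] [Field F] [Algebra R F]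

theorem self_mem_chart (x : F) (B : Subalgebra R F)
    (hB : ∀ f : F, f ∈ B ↔ IsIntegral (Algebra.adjoin R ({x} : Set F)) f) : x ∈ B := by
  rw [hB]
  have h : IsIntegral (Algebra.adjoin R ({x} : Set F))
      (algebraMap (Algebra.adjoin R ({x} : Set F)) F
        ⟨x, Algebra.self_mem_adjoin_singleton R x⟩) := isIntegral_algebraMap
  exact h

/-- The chart is integral over `R[X]`. -/
theorem isIntegral_aeval_chart (x : F) (B : Subalgebra R F)
    (hB : ∀ f : F, f ∈ B ↔ IsIntegral (Algebra.adjoin R ({x} : Set F)) f) :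
    (aeval (R := R) (⟨x, self_mem_chart x B hB⟩ : B)).toRingHom.IsIntegral := by
  have hxB := self_mem_chart x B hB
  have hle : Algebra.adjoin R ({x} : Set F) ≤ B :=
    Algebra.adjoin_le (Set.singleton_subset_iff.2 hxB)
  let ι : Algebra.adjoin R ({x} : Set F) →+* B := (Subalgebra.inclusion hle).toRingHom
  let σ : R[X] →+* Algebra.adjoin R ({x} : Set F) :=
    (aeval (R := R) (⟨x, Algebra.self_mem_adjoin_singleton R x⟩ :
      Algebra.adjoin R ({x} : Set F))).toRingHom
  have hσ : Function.Surjective σ := by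
    rintro ⟨a, ha⟩
    have ha' := ha
    rw [Algebra.adjoin_singleton_eq_range_aeval] at ha'
    obtain ⟨Q, hQ⟩ := ha'
    refine ⟨Q, Subtype.ext ?_⟩
    change ((aeval (R := R) (⟨x, Algebra.self_mem_adjoin_singleton R x⟩ :
      Algebra.adjoin R ({x} : Set F)) Q : Algebra.adjoin R ({x} : Set F)) : F) = a
    rw [← hQ]
    exact (Polynomial.aeval_algHom_apply (Algebra.adjoin R ({x} : Set F)).val
      (⟨x, Algebra.self_mem_adjoin_singleton R x⟩ : Algebra.adjoin R ({x} : Set F)) Q).symm
  have hι : ι.IsIntegral := by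
    intro b
    obtain ⟨Q, hQm, hQ⟩ := (hB b).1 b.2
    refine ⟨Q, hQm, Subtype.ext ?_⟩
    have h := Polynomial.hom_eval₂ Q ι B.val.toRingHom b
    change ((eval₂ ι b Q : B) : F) = 0
    have h' : ((eval₂ ι b Q : B) : F) = eval₂ (B.val.toRingHom.comp ι) (b : F) Q := h
    rw [h']
    exact hQ
  have hcomp : (aeval (R := R) (⟨x, hxB⟩ : B)).toRingHom = ι.comp σ := by
    refine Polynomial.ringHom_ext (fun r => ?_) ?_
    · simp only [AlgHom.toRingHom_eq_coe, RingHom.coe_coe, aeval_C, RingHom.comp_apply, σ, ι,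
        AlgHom.commutes]
    · simp only [AlgHom.toRingHom_eq_coe, RingHom.coe_coe, aeval_X, RingHom.comp_apply, σ, ι]
      rfl
  rw [hcomp]
  exact RingHom.IsIntegral.trans σ ι (RingHom.isIntegral_of_surjective σ hσ) hι

end Integral

section Chart

variable {R E F : Type*} [CommRing R] [IsDomain R] [IsDiscreteValuationRing R]
  [Field E] [CharZero E] [Algebra R E] [IsFractionRing R E]
  [Field F] [Algebra E F] [Algebra R F] [IsScalarTower R E F]

omit [CharZero E] [IsFractionRing R E] [IsScalarTower R E F] in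
/-- The components of the special fibre of a chart are Dedekind. -/
theorem isDedekindDomain_quotient_chart (w : R) (x : F) (B : Subalgebra R F)
    (hB : ChartCtx E w x B) [IsNoetherianRing B] (p : Ideal B) [p.IsPrime]
    (hwp : algebraMap R B w ∈ p) [IsIntegrallyClosed (B ⧸ p)] : IsDedekindDomain (B ⧸ p) := by
  have hmax : (Ideal.span {w}).IsMaximal := by
    rw [← hB.hw.maximalIdeal_eq]
    exact IsLocalRing.maximalIdeal.isMaximal R
  exact isDedekindDomain_quotient hmax _ (isIntegral_aeval_chart x B hB.hB) p hwp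

omit [CharZero E] in
/-- A valuation subring of `F` containing `R` and `w⁻¹` contains `E`. -/
theorem algebraMap_field_mem {w : R} (hw : Irreducible w) (V : ValuationSubring F)
    (hR : ∀ r : R, algebraMap R F r ∈ V) (hwV : (algebraMap R F w)⁻¹ ∈ V) (e : E) :
    algebraMap E F e ∈ V := by
  obtain ⟨a, b, hb, rfl⟩ := IsFractionRing.div_surjective (A := R) e
  have hb0 : b ≠ 0 := nonZeroDivisors.ne_zero hb
  obtain ⟨k, ε, hε⟩ := IsDiscreteValuationRing.eq_unit_mul_pow_irreducible hb0 hw
  rw [map_div₀, ← IsScalarTower.algebraMap_apply, ← IsScalarTower.algebraMap_apply]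
  have h1 : algebraMap R F a / algebraMap R F b =
      algebraMap R F a * algebraMap R F ((ε⁻¹ : Rˣ) : R) * (algebraMap R F w)⁻¹ ^ k := by
    have hεF : algebraMap R F (ε : R) * algebraMap R F ((ε⁻¹ : Rˣ) : R) = 1 := by
      rw [← map_mul, Units.mul_inv, map_one]
    have hεinv : (algebraMap R F (ε : R))⁻¹ = algebraMap R F ((ε⁻¹ : Rˣ) : R) :=
      inv_eq_of_mul_eq_one_right hεF
    rw [hε, map_mul, map_pow, inv_pow, div_eq_mul_inv, mul_inv, hεinv, mul_assoc]
  rw [h1]
  exact V.mul_mem _ _ (V.mul_mem _ _ (hR a) (hR _)) (V.pow_mem hwV k)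

end Chart

end Fermat.Agent.A2.Alg.H609

end
-- ===== PACK-END A2/Alg/H609/ChartFacts.lean

-- ===== PACK-BEGIN A2/Alg/H34/StepI.lean
section




/-!
# WALL A2 / ALG — leaf A1 = Step I (helper34)

`stepI` : for every `f ≠ 0`, `τ f / f` has constant unit residues on both components of the
chart (`IsSplit`).  Statement VERBATIM that of `Fermat/Agent/A2/Alg/Skel.lean`.

`constAt_tau_div` is the ring-theoretic core (one component, any noetherian chart with
fraction field `F`).
-/

set_option autoImplicit false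
set_option linter.unusedSectionVars false
set_option linter.style.haveILetI false

namespace Fermat.Agent.A2.Alg.H34

open Fermat.Agent.A2 Fermat.Agent.A2.Alg

section Core

variable {R F : Type*} [CommRing R] [Field F] [Algebra R F]

/-- every `f ≠ 0` is `w ^ (k₁ - k₂) * A / D` with `A, D ∈ B ∖ p`. -/
theorem exists_decomp (w : R) (B : Subalgebra R F) [IsNoetherianRing B] [IsFractionRing B F]
    (p q : Ideal B) (hp : p.IsPrime) (hpq : p ⊓ q = Ideal.span {algebraMap R B w})
    (hqp : ¬ q ≤ p) (f : F) (hf : f ≠ 0) :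
    ∃ (k₁ k₂ : ℕ) (A D : B), A ∉ p ∧ D ∉ p ∧
      f * (algebraMap R F w ^ k₂ * (D : F)) = algebraMap R F w ^ k₁ * (A : F) := by
  haveI := hp
  have hwp : algebraMap R B w ∈ p := by
    have : algebraMap R B w ∈ p ⊓ q := by
      rw [hpq]
      exact Ideal.mem_span_singleton_self _
    exact this.1
  obtain ⟨s, hsq, hsp⟩ := SetLike.not_le_iff_exists.1 hqp
  have hloc : ∀ a ∈ p, ∃ s, s ∉ p ∧ ∃ a', a * s = algebraMap R B w * a' := by
    intro a ha
    have h1 : a * s ∈ p ⊓ q := ⟨p.mul_mem_right _ ha, q.mul_mem_left _ hsq⟩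
    rw [hpq, Ideal.mem_span_singleton'] at h1
    obtain ⟨a', ha'⟩ := h1
    exact ⟨s, hsp, a', by rw [← ha', mul_comm]⟩
  obtain ⟨a₀, b₀, hb₀, hab⟩ := IsFractionRing.div_surjective (A := B) f
  have hb₀' : b₀ ≠ 0 := nonZeroDivisors.ne_zero hb₀
  have hb₀F : (b₀ : F) ≠ 0 := fun h => hb₀' (Subtype.ext h)
  have hfb : f * (b₀ : F) = (a₀ : F) := by
    have : (a₀ : F) / (b₀ : F) = f := hab
    rw [← this]
    field_simp
  have ha₀ : a₀ ≠ 0 := by
    rintro rfl
    have : f * (b₀ : F) = 0 := by rw [hfb]; rfl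
    rcases mul_eq_zero.1 this with h | h
    · exact hf h
    · exact hb₀F h
  obtain ⟨k₁, a₁, t₁, ha₁, ht₁, h₁⟩ := exists_pow_mul_eq p (algebraMap R B w) hwp hloc a₀ ha₀
  obtain ⟨k₂, a₂, t₂, ha₂, ht₂, h₂⟩ := exists_pow_mul_eq p (algebraMap R B w) hwp hloc b₀ hb₀'
  refine ⟨k₁, k₂, t₂ * a₁, a₂ * t₁, ?_, ?_, ?_⟩
  · intro h
    rcases hp.mem_or_mem h with h | h
    · exact ht₂ h
    · exact ha₁ h
  · intro h
    rcases hp.mem_or_mem h with h | h
    · exact ha₂ h
    · exact ht₁ h
  · have e₁ : (t₁ : F) * (a₀ : F) = algebraMap R F w ^ k₁ * (a₁ : F) := by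
      have := congrArg (fun b : B => (b : F)) h₁
      simpa using this
    have e₂ : (t₂ : F) * (b₀ : F) = algebraMap R F w ^ k₂ * (a₂ : F) := by
      have := congrArg (fun b : B => (b : F)) h₂
      simpa using this
    push_cast
    calc f * (algebraMap R F w ^ k₂ * ((a₂ : F) * (t₁ : F)))
        = f * ((algebraMap R F w ^ k₂ * (a₂ : F)) * (t₁ : F)) := by ring
      _ = f * (((t₂ : F) * (b₀ : F)) * (t₁ : F)) := by rw [e₂]
      _ = (t₂ : F) * ((t₁ : F) * (f * (b₀ : F))) := by ring
      _ = (t₂ : F) * ((t₁ : F) * (a₀ : F)) := by rw [hfb]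
      _ = (t₂ : F) * (algebraMap R F w ^ k₁ * (a₁ : F)) := by rw [e₁]
      _ = algebraMap R F w ^ k₁ * ((t₂ : F) * (a₁ : F)) := by ring

/-- **Step I, one component.** -/
theorem constAt_tau_div (w : R) (B : Subalgebra R F) [IsNoetherianRing B] [IsFractionRing B F]
    (p q : Ideal B) (hp : p.IsPrime) (hpq : p ⊓ q = Ideal.span {algebraMap R B w})
    (hqp : ¬ q ≤ p) (hw0 : algebraMap R F w ≠ 0)
    (τ : F ≃+* F) (hτB : ∀ b ∈ B, ∃ c ∈ B, τ b - b = algebraMap R F w * c)
    (ξ ξ' : R) (hξ : ξ * ξ' = 1) (hτw : τ (algebraMap R F w) = algebraMap R F (ξ * w))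
    (f : F) (hf : f ≠ 0) : ConstAt B p (τ f * f⁻¹) := by
  have hwp : algebraMap R B w ∈ p := by
    have : algebraMap R B w ∈ p ⊓ q := by
      rw [hpq]
      exact Ideal.mem_span_singleton_self _
    exact this.1
  obtain ⟨k₁, k₂, A, D, hA, hD, h⟩ := exists_decomp w B p q hp hpq hqp f hf
  obtain ⟨A', cA, hA', hcA⟩ := exists_tau_eq w B τ hτB A
  obtain ⟨D', cD, hD', hcD⟩ := exists_tau_eq w B τ hτB D
  have hD'p : D' ∉ p := by
    intro h'
    apply hD
    have h1 : D = D' - algebraMap R B w * cD := by rw [← hcD]; ring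
    rw [h1]
    exact p.sub_mem h' (p.mul_mem_right _ hwp)
  have hA0 : (A : F) ≠ 0 := fun h' => hA (by
    have : A = 0 := Subtype.ext h'
    rw [this]; exact p.zero_mem)
  have hD0 : (D : F) ≠ 0 := fun h' => hD (by
    have : D = 0 := Subtype.ext h'
    rw [this]; exact p.zero_mem)
  have hD'0 : (D' : F) ≠ 0 := by
    rw [hD']
    exact (map_ne_zero τ).2 hD0
  -- the constant
  refine ⟨ξ ^ k₁ * ξ' ^ k₂, ?_, algebraMap R B (ξ ^ k₁ * ξ' ^ k₂) * (A' * D), D' * A, ?_, ?_, ?_⟩
  · have h1 : IsUnit ξ := IsUnit.of_mul_eq_one ξ' hξ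
    have h2 : IsUnit ξ' := IsUnit.of_mul_eq_one ξ (by rw [mul_comm]; exact hξ)
    exact (h1.pow _).mul (h2.pow _)
  · intro h'
    rcases hp.mem_or_mem h' with h' | h'
    · exact hD'p h'
    · exact hA h'
  · have h1 : algebraMap R B (ξ ^ k₁ * ξ' ^ k₂) * (A' * D) -
        algebraMap R B (ξ ^ k₁ * ξ' ^ k₂) * (D' * A) =
        algebraMap R B w * (algebraMap R B (ξ ^ k₁ * ξ' ^ k₂) * (cA * D - cD * A)) := by
      have e1 : A' = A + algebraMap R B w * cA := by rw [← hcA]; ring
      have e2 : D' = D + algebraMap R B w * cD := by rw [← hcD]; ring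
      rw [e1, e2]
      ring
    rw [h1]
    exact p.mul_mem_right _ hwp
  · -- the identity in `F`
    set W : F := algebraMap R F w with hW
    set X : F := algebraMap R F ξ with hX
    set X' : F := algebraMap R F ξ' with hX'
    have hXX' : X * X' = 1 := by
      rw [hX, hX', ← map_mul, hξ, map_one]
    have hτW : τ W = X * W := by
      rw [hW, hτw, map_mul]
    have h2 : τ f * ((X * W) ^ k₂ * (D' : F)) = (X * W) ^ k₁ * (A' : F) := by
      have := congrArg τ h
      rw [map_mul, map_mul, map_mul, map_pow, map_pow, hτW] at this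
      rw [hD', hA']
      exact this
    have hX0 : X ≠ 0 := left_ne_zero_of_mul_eq_one hXX'
    have hfac : X ^ k₂ * W ^ k₂ * W ^ k₁ * f ≠ 0 :=
      mul_ne_zero (mul_ne_zero (mul_ne_zero (pow_ne_zero _ hX0) (pow_ne_zero _ hw0))
        (pow_ne_zero _ hw0)) hf
    have hpow : X ^ k₂ * X' ^ k₂ = 1 := by rw [← mul_pow, hXX', one_pow]
    apply mul_right_cancel₀ hfac
    have hff : f⁻¹ * f = 1 := inv_mul_cancel₀ hf
    push_cast
    rw [← hX, ← hX']
    have e1 : τ f * f⁻¹ * ((D' : F) * (A : F)) * (X ^ k₂ * W ^ k₂ * W ^ k₁ * f) =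
        (τ f * ((X * W) ^ k₂ * (D' : F))) * ((A : F) * W ^ k₁) * (f⁻¹ * f) := by
      rw [mul_pow]; ring
    have e2 : X ^ k₁ * X' ^ k₂ * ((A' : F) * (D : F)) * (X ^ k₂ * W ^ k₂ * W ^ k₁ * f) =
        (X ^ k₂ * X' ^ k₂) * (X ^ k₁ * W ^ k₁ * (A' : F)) * (f * (W ^ k₂ * (D : F))) := by
      ring
    rw [e1, e2, h2, h, hff, hpow, mul_pow]
    ring

end Core

section Main

variable {R E F : Type*} [CommRing R] [IsDomain R] [IsDiscreteValuationRing R]
  [HenselianLocalRing R] [IsAlgClosed (IsLocalRing.ResidueField R)]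
  [Field E] [CharZero E] [Algebra R E] [IsFractionRing R E]
  [Field F] [Algebra E F] [Algebra R F] [IsScalarTower R E F]

/-- `τ w = ξ w` with `ξ` a unit of `R`. -/
theorem exists_tau_unif (w : R) (hw : Irreducible w) (B : Subalgebra R F)
    (τ : F ≃+* F) (τE : E ≃+* E) (τR : R ≃+* R) (hτ : TauCtx w B τ τE τR) :
    ∃ ξ ξ' : R, ξ * ξ' = 1 ∧ τ (algebraMap R F w) = algebraMap R F (ξ * w) := by
  have h1 : τ (algebraMap R F w) = algebraMap R F (τR w) := by
    rw [IsScalarTower.algebraMap_apply R E F, hτ.hτE, hτ.hτR, ← IsScalarTower.algebraMap_apply]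
  have h2 : Irreducible (τR w) := (MulEquiv.irreducible_iff τR).2 hw
  obtain ⟨v, hv⟩ := IsDiscreteValuationRing.associated_of_irreducible R hw h2
  refine ⟨v, ↑v⁻¹, Units.mul_inv v, ?_⟩
  rw [h1, ← hv, mul_comm]

/-- **A1 (Step I).**  `B_{p_i}` is a DVR with uniformiser `w`; write `f = w ^ k · a / b`,
`a, b ∈ B ∖ p_i`; `τ w / w ∈ Rˣ` and `τ a · b - a · τ b ∈ w B`. -/
theorem stepI (w : R) (x : F) (B : Subalgebra R F) (hB : ChartCtx E w x B)
    (c : SSChart w B) (hc : Incomparable c)
    (τ : F ≃+* F) (τE : E ≃+* E) (τR : R ≃+* R) (hτ : TauCtx w B τ τE τR)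
    (f : F) (hf : f ≠ 0) : IsSplit B c (τ f * f⁻¹) := by
  obtain ⟨hN, -, hFr⟩ := chart_instances' w x B hB
  haveI := hN
  haveI := hFr
  have hw0 : algebraMap R F w ≠ 0 := by
    intro h
    exact hB.hw.ne_zero (algebraMap_RF_injective E (by rw [h, map_zero]))
  obtain ⟨ξ, ξ', hξ, hτw⟩ := exists_tau_unif w hB.hw B τ τE τR hτ
  refine ⟨constAt_tau_div w B c.p₁ c.p₂ c.prime₁ c.inf_eq hc.2 hw0 τ hτ.hτB ξ ξ' hξ hτw f hf,
    constAt_tau_div w B c.p₂ c.p₁ c.prime₂ (by rw [inf_comm]; exact c.inf_eq) hc.1 hw0 τ hτ.hτB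
      ξ ξ' hξ hτw f hf⟩

end Main

end Fermat.Agent.A2.Alg.H34

end
-- ===== PACK-END A2/Alg/H34/StepI.lean

-- ===== PACK-BEGIN S18/H576/Objects.lean
section


/-!
# S18 / MOD-ASM (helper576): basic facts about the concrete objects of `Mod/Defs.lean`
-/

set_option autoImplicit false

noncomputable section

namespace Fermat.Agent.S18.H576

open ModularCurve AlgebraicCurve HahnSeries Fermat.Agent.S18 Fermat.Agent.S18.Mod

variable {M : ℕ} {A : ValuationSubring Qb} {E : IntermediateField ℚ Qb}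

/-- The inclusion of the constants. -/
abbrev iota (M : ℕ) : Qb →+* Om M := algebraMap Qb (Om M)

theorem iota_injective (M : ℕ) : Function.Injective (iota M) :=
  (algebraMap Qb (Om M)).injective

theorem coe_iota (a : Qb) :
    ((iota M a : Om M) : LaurentSeries Qb) = algebraMap Qb (LaurentSeries Qb) a := rfl

theorem coe_iota_single (a : Qb) :
    ((iota M a : Om M) : LaurentSeries Qb) = HahnSeries.single 0 a := by
  rw [coe_iota, algebraMap_laurentSeries_eq_single]

theorem mem_Lc_iff {y : Om M} : y ∈ Lc M ↔ ∃ a : Qb, iota M a = y := by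
  unfold Lc
  exact RingHom.mem_fieldRange

theorem mem_Ec_iff {y : Om M} : y ∈ Ec M E ↔ ∃ a : Qb, a ∈ E ∧ iota M a = y := by
  unfold Ec
  rw [Subfield.mem_map]
  constructor
  · rintro ⟨a, ha, rfl⟩
    exact ⟨a, ha, rfl⟩
  · rintro ⟨a, ha, rfl⟩
    exact ⟨a, ha, rfl⟩

theorem mem_Rc_iff {y : Om M} : y ∈ Rc M A E ↔ ∃ a : Qb, a ∈ A ∧ a ∈ E ∧ iota M a = y := by
  unfold Rc
  rw [Subring.mem_map]
  constructor
  · rintro ⟨a, ha, rfl⟩
    rw [Subring.mem_inf] at ha
    exact ⟨a, ha.1, ha.2, rfl⟩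
  · rintro ⟨a, haA, haE, rfl⟩
    exact ⟨a, Subring.mem_inf.mpr ⟨haA, haE⟩, rfl⟩

theorem iota_mem_Lc (a : Qb) : iota M a ∈ Lc M := mem_Lc_iff.mpr ⟨a, rfl⟩

theorem iota_mem_Ec {a : Qb} (ha : a ∈ E) : iota M a ∈ Ec M E := mem_Ec_iff.mpr ⟨a, ha, rfl⟩

theorem iota_mem_Rc {a : Qb} (haA : a ∈ A) (haE : a ∈ E) : iota M a ∈ Rc M A E :=
  mem_Rc_iff.mpr ⟨a, haA, haE, rfl⟩

theorem iota_mem_Ec_iff {a : Qb} : iota M a ∈ Ec M E ↔ a ∈ E := by
  constructor
  · intro h
    obtain ⟨b, hb, hab⟩ := mem_Ec_iff.mp h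
    rwa [← iota_injective M hab]
  · exact iota_mem_Ec

theorem iota_mem_Rc_iff {a : Qb} : iota M a ∈ Rc M A E ↔ a ∈ A ∧ a ∈ E := by
  constructor
  · intro h
    obtain ⟨b, hbA, hbE, hab⟩ := mem_Rc_iff.mp h
    rw [← iota_injective M hab]
    exact ⟨hbA, hbE⟩
  · exact fun h => iota_mem_Rc h.1 h.2

theorem Rc_subset_Ec : (Rc M A E : Set (Om M)) ⊆ Ec M E := by
  intro y hy
  obtain ⟨a, -, haE, rfl⟩ := mem_Rc_iff.mp hy
  exact iota_mem_Ec haE

theorem Ec_le_Lc : Ec M E ≤ Lc M := by
  intro y hy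
  obtain ⟨a, -, rfl⟩ := mem_Ec_iff.mp hy
  exact iota_mem_Lc a

theorem Ec_le_Fc : Ec M E ≤ Fc M E := by
  intro y hy
  exact Subfield.subset_closure (Or.inl hy)

theorem Rc_total : ∀ e ∈ Ec M E, e ∈ Rc M A E ∨ e⁻¹ ∈ Rc M A E := by
  intro e he
  obtain ⟨a, haE, rfl⟩ := mem_Ec_iff.mp he
  rcases A.mem_or_inv_mem a with h | h
  · exact Or.inl (iota_mem_Rc h haE)
  · right
    rw [← map_inv₀]
    exact iota_mem_Rc h (inv_mem haE)

instance charZero_Om (M : ℕ) : CharZero (Om M) :=
  charZero_of_injective_algebraMap (iota_injective M)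

theorem isAlgebraic_Ec_of_mem_Lc : ∀ a ∈ Lc M, IsAlgebraic (Ec M E) a := by
  intro a ha
  obtain ⟨b, rfl⟩ := mem_Lc_iff.mp ha
  have hb : IsAlgebraic ℚ b := (AlgebraicClosure.isAlgebraic ℚ).isAlgebraic b
  have h1 : IsAlgebraic ℚ (iota M b) := hb.algebraMap
  exact h1.tower_top (Ec M E)

theorem isAlgClosed_Lc (M : ℕ) : IsAlgClosed (Lc M) := by
  have e : Qb ≃+* (Lc M) := RingEquiv.ofBijective (iota M).rangeRestrictField
    ⟨fun a b h => iota_injective M (congrArg Subtype.val h),
      fun ⟨y, hy⟩ => by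
        obtain ⟨a, rfl⟩ := mem_Lc_iff.mp hy
        exact ⟨a, rfl⟩⟩
  exact IsAlgClosed.of_ringEquiv Qb (Lc M) e

end Fermat.Agent.S18.H576

end
end
-- ===== PACK-END S18/H576/Objects.lean

-- ===== PACK-BEGIN S18/H576/Coeff.lean
section


/-!
# S18 / MOD-ASM (helper576): coefficients of `Fc`, `E_closed_in_F`, `compositum`
-/

set_option autoImplicit false

noncomputable section

namespace Fermat.Agent.S18.H576

open ModularCurve AlgebraicCurve HahnSeries Fermat.Agent.S18 Fermat.Agent.S18.Mod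

variable {M : ℕ} {A : ValuationSubring Qb} {E : IntermediateField ℚ Qb}

/-- The coercion `Ω → Q̄((q))` as a ring homomorphism. -/
abbrev valOm (M : ℕ) : Om M →+* LaurentSeries Qb := (modularFunctionFieldBar M).val.toRingHom

theorem valOm_apply (y : Om M) : valOm M y = (y : LaurentSeries Qb) := rfl

theorem valOm_injective (M : ℕ) : Function.Injective (valOm M) := Subtype.val_injective

/-- Laurent series over `Q̄` all of whose coefficients lie in `E`. -/
def coeffSub (E : IntermediateField ℚ Qb) : Subfield (LaurentSeries Qb) :=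
  (coeffMap (algebraMap E Qb)).fieldRange

theorem mem_coeffSub_iff {f : LaurentSeries Qb} :
    f ∈ coeffSub E ↔ ∀ n : ℤ, f.coeff n ∈ E := by
  constructor
  · rintro ⟨g, rfl⟩ n
    rw [coeffMap_coeff]
    exact (g.coeff n).2
  · intro h
    refine ⟨⟨fun n => ⟨f.coeff n, h n⟩, ?_⟩, ?_⟩
    · refine f.isPWO_support.mono ?_
      intro n hn
      simp only [Function.mem_support, ne_eq] at hn ⊢
      intro h0
      exact hn (Subtype.ext h0)
    · ext n
      rfl

theorem coe_mem_coeffSub_of_mem_Fc {f : Om M} (hf : f ∈ Fc M E) :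
    (f : LaurentSeries Qb) ∈ coeffSub E := by
  have hle : Fc M E ≤ (coeffSub E).comap (valOm M) := by
    unfold Fc
    rw [Subfield.closure_le]
    rintro y (hy | hy)
    · obtain ⟨a, ha, rfl⟩ := mem_Ec_iff.mp hy
      show (iota M a : LaurentSeries Qb) ∈ coeffSub E
      rw [coe_iota_single, mem_coeffSub_iff]
      intro n
      by_cases hn : n = 0
      · subst hn
        rw [HahnSeries.coeff_single_same]
        exact ha
      · rw [HahnSeries.coeff_single_of_ne hn]
        exact zero_mem E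
    · obtain ⟨d, hd, hdM, rfl⟩ := hy
      show (jd M d hdM : LaurentSeries Qb) ∈ coeffSub E
      rw [mem_coeffSub_iff]
      intro n
      show (coeffEmb Qb (qExpand ℚ d jq)).coeff n ∈ E
      rw [coeffEmb_coeff]
      exact E.algebraMap_mem _
  exact hle hf

theorem coeff_mem_of_mem_Fc {f : Om M} (hf : f ∈ Fc M E) (n : ℤ) :
    (f : LaurentSeries Qb).coeff n ∈ E :=
  mem_coeffSub_iff.mp (coe_mem_coeffSub_of_mem_Fc hf) n

/-- A constant lying in `Fc` lies in `Ec`. -/
theorem mem_E_of_iota_mem_Fc {c : Qb} (h : iota M c ∈ Fc M E) : c ∈ E := by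
  have := coeff_mem_of_mem_Fc h 0
  rwa [coe_iota_single, HahnSeries.coeff_single_same] at this

/-- An element of `Ω` algebraic over `Q̄` is a constant. -/
theorem exists_iota_eq_of_isAlgebraic {f : Om M} (hf : IsAlgebraic Qb f) :
    ∃ c : Qb, iota M c = f := by
  have hint : IsIntegral Qb f := hf.isIntegral
  refine ⟨-(minpoly Qb f).coeff 0, ?_⟩
  have hq : (minpoly Qb f).leadingCoeff = 1 := minpoly.monic hint
  have h : (minpoly Qb f).degree = 1 :=
    IsAlgClosed.degree_eq_one_of_irreducible Qb (minpoly.irreducible hint)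
  have : Polynomial.aeval f (minpoly Qb f) = 0 := minpoly.aeval Qb f
  rw [Polynomial.eq_X_add_C_of_degree_eq_one h, hq, Polynomial.C_1, one_mul,
    Polynomial.aeval_add, Polynomial.aeval_X, Polynomial.aeval_C,
    add_eq_zero_iff_eq_neg] at this
  exact (map_neg (algebraMap Qb (Om M)) ((minpoly Qb f).coeff 0)).symm ▸ this.symm

theorem isAlgebraic_rat_of_mem_Ec {e : Om M} (he : e ∈ Ec M E) : IsAlgebraic ℚ e := by
  obtain ⟨a, -, rfl⟩ := mem_Ec_iff.mp he
  exact ((AlgebraicClosure.isAlgebraic ℚ).isAlgebraic a).algebraMap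

theorem E_closed_in_F : ∀ f ∈ Fc M E, IsAlgebraic (Ec M E) f → f ∈ Ec M E := by
  intro f hf halg
  haveI : Algebra.IsAlgebraic ℚ (Ec M E) := by
    refine ⟨fun e => ?_⟩
    have h := isAlgebraic_rat_of_mem_Ec e.2
    exact (isAlgebraic_algebraMap_iff (A := Om M) (algebraMap (Ec M E) (Om M)).injective).mp h
  have h1 : IsAlgebraic ℚ f := halg.restrictScalars ℚ
  have h2 : IsAlgebraic Qb f := h1.tower_top Qb
  obtain ⟨c, rfl⟩ := exists_iota_eq_of_isAlgebraic h2
  exact iota_mem_Ec (mem_E_of_iota_mem_Fc hf)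

/-- The image of `ℚ(j_d : d ∣ M)` in `Q̄((q))` lies in (the image of) `Fc`. -/
theorem coeffEmb_mem_map_Fc {z : LaurentSeries ℚ} (hz : z ∈ modularFunctionFieldFull M) :
    coeffEmb Qb z ∈ (Fc M E).map (valOm M) := by
  have hle : (modularFunctionFieldFull M).toSubfield ≤
      ((Fc M E).map (valOm M)).comap (coeffEmb Qb) := by
    unfold modularFunctionFieldFull
    rw [IntermediateField.adjoin_toSubfield, Subfield.closure_le]
    rintro y (⟨r, rfl⟩ | ⟨d, hd, hdM, rfl⟩)
    · show coeffEmb Qb (algebraMap ℚ (LaurentSeries ℚ) r) ∈ (Fc M E).map (valOm M)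
      refine ⟨iota M (algebraMap ℚ Qb r), Ec_le_Fc (iota_mem_Ec (E.algebraMap_mem r)), ?_⟩
      rw [valOm_apply, coe_iota_single, algebraMap_laurentSeries_eq_single, coeffEmb, coeffMap_single]
    · exact ⟨jd M d hdM, Subfield.subset_closure (Or.inr ⟨d, hd, hdM, rfl⟩), rfl⟩
  exact hle hz

theorem exists_mem_Fc_of_mem_full {z : LaurentSeries ℚ} (hz : z ∈ modularFunctionFieldFull M) :
    ∃ f ∈ Fc M E, (f : LaurentSeries Qb) = coeffEmb Qb z := by
  obtain ⟨f, hf, hfz⟩ := coeffEmb_mem_map_Fc (E := E) hz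
  exact ⟨f, hf, hfz⟩

theorem compositum_eq_top : Subfield.closure ((Fc M E : Set (Om M)) ∪ Lc M) = ⊤ := by
  rw [eq_top_iff]
  rintro y -
  set T : Subfield (Om M) := Subfield.closure ((Fc M E : Set (Om M)) ∪ Lc M) with hT
  have hle : (modularFunctionFieldBar M).toSubfield ≤ T.map (valOm M) := by
    show (laurentBaseChange Qb (modularFunctionFieldFull M)).toSubfield ≤ _
    unfold laurentBaseChange
    rw [IntermediateField.adjoin_toSubfield, Subfield.closure_le]
    rintro z (⟨a, rfl⟩ | ⟨z0, hz0, rfl⟩)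
    · exact ⟨iota M a, Subfield.subset_closure (Or.inr (iota_mem_Lc a)), rfl⟩
    · obtain ⟨f, hf, hfz⟩ := exists_mem_Fc_of_mem_full (E := E) hz0
      exact ⟨f, Subfield.subset_closure (Or.inl hf), hfz⟩
  obtain ⟨t, ht, hty⟩ := hle y.2
  have : t = y := valOm_injective M hty
  exact this ▸ ht

theorem fieldFacts (M : ℕ) (A : ValuationSubring Qb) (E : IntermediateField ℚ Qb) :
    FieldFacts M A E where
  R_le := Rc_subset_Ec
  R_total := Rc_total
  E_le_L := Ec_le_Lc
  E_le_F := Ec_le_Fc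
  L_algebraic := isAlgebraic_Ec_of_mem_Lc
  L_algClosed := isAlgClosed_Lc M
  E_closed_in_F := E_closed_in_F
  compositum := compositum_eq_top

end Fermat.Agent.S18.H576

end
end
-- ===== PACK-END S18/H576/Coeff.lean

-- ===== PACK-BEGIN S18/H576/Unif.lean
section




/-!
# S18 / MOD-ASM (helper576): the uniformiser facts (`UnifFacts`) from `H602.isDiscreteValuationRing_RE`
-/

set_option autoImplicit false

noncomputable section

namespace Fermat.Agent.S18.H576

open ModularCurve AlgebraicCurve HahnSeries Fermat.Agent.S18 Fermat.Agent.S18.Mod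
open Fermat.Agent.S18.H602 (RE mem_RE toA)

variable {M : ℕ} {A : ValuationSubring Qb} {E : IntermediateField ℚ Qb}

/-- The inclusion `R_E → Ω`. -/
def iotaR (M : ℕ) (A : ValuationSubring Qb) (E : IntermediateField ℚ Qb) : RE A E →+* Om M :=
  (iota M).comp ((algebraMap E Qb).comp (RE A E).subtype)

theorem iotaR_apply (r : RE A E) : iotaR M A E r = iota M ((r : E) : Qb) := rfl

theorem iotaR_injective : Function.Injective (iotaR M A E) := by
  intro r s h
  have h1 : ((r : E) : Qb) = ((s : E) : Qb) := iota_injective M h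
  exact Subtype.ext (Subtype.ext h1)

theorem iotaR_mem_Rc (r : RE A E) : iotaR M A E r ∈ Rc M A E :=
  iota_mem_Rc (mem_RE.mp r.2) (r : E).2

theorem mem_Rc_iff_exists_iotaR {y : Om M} : y ∈ Rc M A E ↔ ∃ r : RE A E, iotaR M A E r = y := by
  constructor
  · intro hy
    obtain ⟨a, haA, haE, rfl⟩ := mem_Rc_iff.mp hy
    exact ⟨⟨⟨a, haE⟩, haA⟩, rfl⟩
  · rintro ⟨r, rfl⟩
    exact iotaR_mem_Rc r

theorem iotaR_inv_mem_Rc_iff (r : RE A E) : (iotaR M A E r)⁻¹ ∈ Rc M A E ↔ r = 0 ∨ IsUnit r := by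
  constructor
  · intro h
    by_cases hr : r = 0
    · exact Or.inl hr
    right
    obtain ⟨s, hs⟩ := mem_Rc_iff_exists_iotaR.mp h
    refine isUnit_iff_exists_inv.mpr ⟨s, ?_⟩
    apply iotaR_injective (M := M)
    rw [map_mul, hs, map_one]
    exact mul_inv_cancel₀ (fun h0 => hr (iotaR_injective (by rw [h0, map_zero])))
  · rintro (rfl | hu)
    · rw [map_zero, inv_zero]
      exact zero_mem _
    · obtain ⟨s, hs⟩ := isUnit_iff_exists_inv.mp hu
      have : (iotaR M A E r)⁻¹ = iotaR M A E s := by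
        have h1 : iotaR M A E r * iotaR M A E s = 1 := by rw [← map_mul, hs, map_one]
        exact inv_eq_of_mul_eq_one_right h1
      rw [this]
      exact iotaR_mem_Rc s

/-- Every element of the residue field of `R_E` is algebraic over `𝔽_ℓ`. -/
theorem exists_polynomial_residue (r : RE A E) {ℓ : ℕ} (hℓ : ℓ.Prime) :
    ∃ P : Polynomial ℤ, P.map (Int.castRingHom (ZMod ℓ)) ≠ 0 ∧
      Polynomial.eval₂ (Int.castRingHom (RE A E)) r P = 0 := by
  haveI : Fact ℓ.Prime := ⟨hℓ⟩
  have halgQ : IsAlgebraic ℚ ((r : E) : Qb) := (AlgebraicClosure.isAlgebraic ℚ).isAlgebraic _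
  have halgZ : IsAlgebraic ℤ ((r : E) : Qb) := (IsFractionRing.isAlgebraic_iff ℤ ℚ Qb).mpr halgQ
  obtain ⟨P, hP0, hP⟩ := halgZ
  have hprim : P.primPart.IsPrimitive := Polynomial.isPrimitive_primPart P
  have hev : Polynomial.aeval ((r : E) : Qb) P.primPart = 0 := by
    have h1 := P.eq_C_content_mul_primPart
    rw [h1, map_mul, Polynomial.aeval_C] at hP
    rcases mul_eq_zero.mp hP with h | h
    · exfalso
      have : (P.content : Qb) = 0 := by simpa using h
      have h2 : P.content = 0 := by exact_mod_cast this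
      exact hP0 (Polynomial.content_eq_zero_iff.mp h2)
    · exact h
  refine ⟨P.primPart, ?_, ?_⟩
  · intro h0
    have hdvd : Polynomial.C (ℓ : ℤ) ∣ P.primPart := by
      rw [Polynomial.C_dvd_iff_dvd_coeff]
      intro i
      have := congrArg (fun Q : Polynomial (ZMod ℓ) => Q.coeff i) h0
      simp only [Polynomial.coeff_map, Polynomial.coeff_zero, eq_intCast] at this
      exact (ZMod.intCast_zmod_eq_zero_iff_dvd _ _).mp this
    have hu := hprim _ hdvd
    have : IsUnit (ℓ : ℤ) := hu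
    rw [Int.isUnit_iff] at this
    have hℓ2 := hℓ.two_le
    omega
  · have hinj : Function.Injective ((algebraMap E Qb).comp (RE A E).subtype) := by
      intro a b h
      exact Subtype.ext (Subtype.ext h)
    apply hinj
    rw [map_zero, Polynomial.hom_eval₂]
    have : (((algebraMap E Qb).comp (RE A E).subtype).comp (Int.castRingHom (RE A E))) =
        algebraMap ℤ Qb := RingHom.ext_int _ _
    rw [this]
    exact hev

end Fermat.Agent.S18.H576

namespace Fermat.Agent.S18.H576

open ModularCurve AlgebraicCurve HahnSeries Fermat.Agent.S18 Fermat.Agent.S18.Mod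
open Fermat.Agent.S18.H602 (RE mem_RE toA)

variable {M : ℕ} {A : ValuationSubring Qb} {E : IntermediateField ℚ Qb}

theorem natCast_mem_maximalIdeal_RE {ℓ : ℕ} (hA : A.LiesOverPrime ℓ) :
    ((ℓ : ℕ) : RE A E) ∈ IsLocalRing.maximalIdeal (RE A E) := by
  rw [IsLocalRing.mem_maximalIdeal, mem_nonunits_iff]
  have h := H602.natCast_not_isUnit_RE A E (ℓ := ℓ) hA
  intro hu
  apply h
  have : (⟨(ℓ : E), H602.natCast_mem_RE A E ℓ⟩ : RE A E) = ((ℓ : ℕ) : RE A E) := by
    apply Subtype.ext
    simp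
  rw [this]
  exact hu

theorem natCast_residue_RE_eq_zero {ℓ : ℕ} (hA : A.LiesOverPrime ℓ) :
    ((ℓ : ℕ) : IsLocalRing.ResidueField (RE A E)) = 0 := by
  have := (IsLocalRing.residue_eq_zero_iff ((ℓ : ℕ) : RE A E)).mpr
    (natCast_mem_maximalIdeal_RE hA)
  simpa using this

/-- The residue field of `R_E` is perfect: Frobenius is surjective modulo the maximal ideal. -/
theorem exists_pow_sub_mem_maximalIdeal {ℓ : ℕ} (hℓ : ℓ.Prime) (hA : A.LiesOverPrime ℓ)
    (r : RE A E) : ∃ s : RE A E, r - s ^ ℓ ∈ IsLocalRing.maximalIdeal (RE A E) := by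
  haveI : Fact ℓ.Prime := ⟨hℓ⟩
  set κ := IsLocalRing.ResidueField (RE A E) with hκ
  haveI : CharP κ ℓ := (CharP.charP_iff_prime_eq_zero hℓ).mpr (natCast_residue_RE_eq_zero hA)
  letI : Algebra (ZMod ℓ) κ := ZMod.algebra κ ℓ
  haveI : Algebra.IsAlgebraic (ZMod ℓ) κ := by
    refine ⟨fun x => ?_⟩
    obtain ⟨r', rfl⟩ := IsLocalRing.residue_surjective x
    obtain ⟨P, hP0, hP⟩ := exists_polynomial_residue r' hℓ
    refine ⟨P.map (Int.castRingHom (ZMod ℓ)), hP0, ?_⟩
    rw [Polynomial.aeval_def, Polynomial.eval₂_map]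
    have h1 : (algebraMap (ZMod ℓ) κ).comp (Int.castRingHom (ZMod ℓ)) =
        (IsLocalRing.residue (RE A E)).comp (Int.castRingHom (RE A E)) := RingHom.ext_int _ _
    rw [h1, ← Polynomial.hom_eval₂, hP, map_zero]
  haveI : PerfectField κ := Algebra.IsAlgebraic.perfectField (ZMod ℓ)
  haveI : ExpChar κ ℓ := ExpChar.prime hℓ
  obtain ⟨y, hy⟩ := surjective_frobenius κ ℓ (IsLocalRing.residue (RE A E) r)
  obtain ⟨s, rfl⟩ := IsLocalRing.residue_surjective y
  refine ⟨s, ?_⟩
  rw [← IsLocalRing.residue_eq_zero_iff, map_sub, map_pow, sub_eq_zero]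
  rw [frobenius_def] at hy
  exact hy.symm

/-- The uniformiser facts for `w = ` image of a uniformiser of `R_E`. -/
theorem exists_unifFacts (M : ℕ) {A : ValuationSubring Qb} (E : IntermediateField ℚ Qb)
    [FiniteDimensional ℚ E] {ℓ : ℕ} (hℓ : ℓ.Prime) (hA : A.LiesOverPrime ℓ) :
    ∃ ϖ : RE A E, Irreducible ϖ ∧ UnifFacts M A E (iotaR M A E ϖ) := by
  haveI : IsDiscreteValuationRing (RE A E) :=
    H602.isDiscreteValuationRing_RE A E hℓ.ne_zero hA
  obtain ⟨ϖ, hϖ⟩ := IsDiscreteValuationRing.exists_irreducible (RE A E)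
  have hϖ0 : ϖ ≠ 0 := hϖ.ne_zero
  have hw0 : iotaR M A E ϖ ≠ 0 := fun h => hϖ0 (iotaR_injective (by rw [h, map_zero]))
  have hmax : ∀ r : RE A E, r ∈ IsLocalRing.maximalIdeal (RE A E) → ∃ b : RE A E, r = b * ϖ := by
    intro r hr
    rw [hϖ.maximalIdeal_eq, Ideal.mem_span_singleton] at hr
    obtain ⟨b, hb⟩ := hr
    exact ⟨b, by rw [hb, mul_comm]⟩
  have hdiv : ∀ b : RE A E, iotaR M A E (b * ϖ) * (iotaR M A E ϖ)⁻¹ = iotaR M A E b := by
    intro b
    rw [map_mul, mul_assoc, mul_inv_cancel₀ hw0, mul_one]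
  refine ⟨ϖ, hϖ, ⟨iotaR_mem_Rc ϖ, hw0, ?_, ?_, ?_, ?_⟩⟩
  · intro h
    rcases (iotaR_inv_mem_Rc_iff ϖ).mp h with h0 | hu
    · exact hϖ0 h0
    · exact hϖ.not_isUnit hu
  · intro y hy hyinv
    obtain ⟨r, rfl⟩ := mem_Rc_iff_exists_iotaR.mp hy
    have hr : r ∈ IsLocalRing.maximalIdeal (RE A E) := by
      rw [IsLocalRing.mem_maximalIdeal, mem_nonunits_iff]
      intro hu
      exact hyinv ((iotaR_inv_mem_Rc_iff r).mpr (Or.inr hu))
    obtain ⟨b, rfl⟩ := hmax r hr
    rw [hdiv]
    exact iotaR_mem_Rc b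
  · intro y hy hy0
    obtain ⟨r, rfl⟩ := mem_Rc_iff_exists_iotaR.mp hy
    have hr0 : r ≠ 0 := fun h => hy0 (by rw [h, map_zero])
    obtain ⟨n, u, hu⟩ := IsDiscreteValuationRing.eq_unit_mul_pow_irreducible hr0 hϖ
    refine ⟨n, ?_⟩
    have h1 : iotaR M A E r * ((iotaR M A E ϖ)⁻¹) ^ n = iotaR M A E (u : RE A E) := by
      rw [hu, map_mul, map_pow, mul_assoc, ← mul_pow, mul_inv_cancel₀ hw0, one_pow, mul_one]
    rw [h1]
    exact ⟨iotaR_mem_Rc _, (iotaR_inv_mem_Rc_iff _).mpr (Or.inr u.isUnit)⟩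
  · refine ⟨ℓ, hℓ, ?_, ?_⟩
    · obtain ⟨b, hb⟩ := hmax _ (natCast_mem_maximalIdeal_RE (E := E) hA)
      have h1 : ((ℓ : ℕ) : Om M) = iotaR M A E (b * ϖ) := by
        rw [← hb, map_natCast]
      rw [h1, hdiv]
      exact iotaR_mem_Rc b
    · intro y hy
      obtain ⟨r, rfl⟩ := mem_Rc_iff_exists_iotaR.mp hy
      obtain ⟨s, hs⟩ := exists_pow_sub_mem_maximalIdeal hℓ hA r
      obtain ⟨b, hb⟩ := hmax _ hs
      refine ⟨iotaR M A E s, iotaR_mem_Rc s, ?_⟩
      have h1 : iotaR M A E r - iotaR M A E s ^ ℓ = iotaR M A E (b * ϖ) := by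
        rw [← hb, map_sub, map_pow]
      rw [h1, hdiv]
      exact iotaR_mem_Rc b

end Fermat.Agent.S18.H576

end
end
-- ===== PACK-END S18/H576/Unif.lean

-- ===== PACK-BEGIN S18/H576/Transport.lean
section



/-!
# S18 / node_mod (helper576): TRANSPORT between the `E`-level and the concrete objects of `Mod/Defs`

`E ⊆ Q̄` an intermediate field, `R_E = H602.RE A E = A ∩ E`, `κ_E` its residue field,
`F_E = laurentBaseChange E (modularFunctionFieldFull M) ⊆ E((q))`.

* `descendsTo_of_mem_Fc`     : `f ∈ Fc M E` ⟹ `f` comes from `F_E`;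
* `exists_mem_Fc_of_mem_FE`  : `g ∈ F_E` ⟹ `g` is (the `q`-expansion of) an element of `Fc M E`;
* `OE M A E : Subring R_E((q))` : the integral series lying in `F_E`;
  `phi : OE →+* Ω` (injective, values in `Fc M E`), `rho : OE →+* κ_E((q))` (reduction);
* `exists_rep_of_mem_VcSet`  : `f ∈ VcSet M A E` ⟹ `f · phi V₂ = phi V₁` with `rho V₂ ≠ 0`;
* `mem_VcSet_of_rep`         : the converse;
* `exists_div_of_rho_eq_zero`: `rho V = 0` ⟹ `phi V · w⁻¹ = phi V'` (for `w` with `w_gen`).
-/

set_option autoImplicit false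

noncomputable section

namespace Fermat.Agent.S18.H576

open ModularCurve AlgebraicCurve HahnSeries Fermat.Agent.S18 Fermat.Agent.S18.Mod
open Fermat.Agent.S18.H602 (RE mem_RE toA)

variable {M : ℕ} {A : ValuationSubring Qb} {E : IntermediateField ℚ Qb}

/-- Elements of `Fc M E` are defined over `E` (inside the base change `F_E`). -/
theorem descendsTo_of_mem_Fc {f : Om M} (hf : f ∈ Fc M E) :
    H602.DescendsTo (modularFunctionFieldFull M) E (f : LaurentSeries Qb) := by
  unfold Fc at hf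
  induction hf using Subfield.closure_induction with
  | mem y hy =>
      rcases hy with hy | ⟨d, hd, hdM, rfl⟩
      · obtain ⟨a, ha, rfl⟩ := mem_Ec_iff.mp hy
        refine ⟨algebraMap E (LaurentSeries E) ⟨a, ha⟩,
          (laurentBaseChange E (modularFunctionFieldFull M)).algebraMap_mem _, ?_⟩
        rw [H602.coeffMap_algebraMap']
        rfl
      · exact H602.descendsTo_coeffEmb E (jqd_mem_full M hdM)
  | one => exact H602.DescendsTo.one E
  | add x y _ _ hx hy => exact hx.add hy
  | neg x _ hx => exact hx.neg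
  | inv x _ hx => exact hx.inv
  | mul x y _ _ hx hy => exact hx.mul hy

/-- Elements of `F_E` give elements of `Fc M E`. -/
theorem exists_mem_Fc_of_mem_FE {g : LaurentSeries E}
    (hg : g ∈ laurentBaseChange E (modularFunctionFieldFull M)) :
    ∃ f ∈ Fc M E, (f : LaurentSeries Qb) = coeffMap (algebraMap E Qb) g := by
  rw [mem_laurentBaseChange_iff] at hg
  induction hg using Subfield.closure_induction with
  | mem y hy =>
      rcases hy with ⟨a, rfl⟩ | ⟨z, hz, rfl⟩
      · refine ⟨iota M (a : Qb), Ec_le_Fc (iota_mem_Ec a.2), ?_⟩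
        rw [H602.coeffMap_algebraMap']
        rfl
      · obtain ⟨f, hf, hfz⟩ := exists_mem_Fc_of_mem_full (M := M) (E := E) hz
        refine ⟨f, hf, ?_⟩
        rw [hfz, H602.coeffMap_coeffEmb']
  | one => exact ⟨1, one_mem _, by rw [map_one]; rfl⟩
  | add x y _ _ hx hy =>
      obtain ⟨f, hf, hfx⟩ := hx
      obtain ⟨g, hg, hgy⟩ := hy
      exact ⟨f + g, add_mem hf hg, by rw [map_add, ← hfx, ← hgy]; rfl⟩
  | neg x _ hx =>
      obtain ⟨f, hf, hfx⟩ := hx
      exact ⟨-f, neg_mem hf, by rw [map_neg, ← hfx]; rfl⟩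
  | inv x _ hx =>
      obtain ⟨f, hf, hfx⟩ := hx
      exact ⟨f⁻¹, inv_mem hf, by rw [map_inv₀, ← hfx]; rfl⟩
  | mul x y _ _ hx hy =>
      obtain ⟨f, hf, hfx⟩ := hx
      obtain ⟨g, hg, hgy⟩ := hy
      exact ⟨f * g, mul_mem hf hg, by rw [map_mul, ← hfx, ← hgy]; rfl⟩

theorem C_mem_FE (M : ℕ) (c : E) :
    HahnSeries.C (Γ := ℤ) c ∈ laurentBaseChange E (modularFunctionFieldFull M) := by
  have := (laurentBaseChange E (modularFunctionFieldFull M)).algebraMap_mem c
  rwa [algebraMap_laurentSeries_eq_single, ← HahnSeries.C_apply] at this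

/-- The ring of integral series over `R_E` lying in `F_E`. -/
def OE (M : ℕ) (A : ValuationSubring Qb) (E : IntermediateField ℚ Qb) :
    Subring (LaurentSeries (RE A E)) :=
  (laurentBaseChange E (modularFunctionFieldFull M)).toSubfield.toSubring.comap
    (coeffMap (RE A E).subtype)

theorem mem_OE {V : LaurentSeries (RE A E)} :
    V ∈ OE M A E ↔
      coeffMap (RE A E).subtype V ∈ laurentBaseChange E (modularFunctionFieldFull M) :=
  Iff.rfl

/-- `R_E((q)) → Q̄((q))`. -/
def incQ (A : ValuationSubring Qb) (E : IntermediateField ℚ Qb) :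
    LaurentSeries (RE A E) →+* LaurentSeries Qb :=
  (coeffMap (algebraMap E Qb)).comp (coeffMap (RE A E).subtype)

theorem incQ_apply (V : LaurentSeries (RE A E)) :
    incQ A E V = coeffMap (algebraMap E Qb) (coeffMap (RE A E).subtype V) := rfl

theorem incQ_eq (V : LaurentSeries (RE A E)) :
    incQ A E V = coeffMap A.subtype (coeffMap (toA A E) V) := by
  rw [incQ_apply, coeffMap_coeffMap, coeffMap_coeffMap, H602.subtype_comp_toA]

theorem incQ_injective : Function.Injective (incQ A E) := by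
  intro x y h
  have h1 := H602.coeffMap_injective (algebraMap E Qb) (algebraMap E Qb).injective h
  exact H602.coeffMap_injective (RE A E).subtype Subtype.val_injective h1

theorem incQ_mem (V : OE M A E) :
    incQ A E (V : LaurentSeries (RE A E)) ∈ modularFunctionFieldBar M :=
  H602.coeffMap_mem_laurentBaseChange _ _ V.2

/-- The element of `Ω` defined by an integral series. -/
def phi (M : ℕ) (A : ValuationSubring Qb) (E : IntermediateField ℚ Qb) : OE M A E →+* Om M where
  toFun V := ⟨incQ A E (V : LaurentSeries (RE A E)), incQ_mem V⟩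
  map_one' := Subtype.ext (by simp)
  map_mul' x y := Subtype.ext (by simp)
  map_zero' := Subtype.ext (by simp)
  map_add' x y := Subtype.ext (by simp)

theorem coe_phi (V : OE M A E) :
    ((phi M A E V : Om M) : LaurentSeries Qb) = incQ A E (V : LaurentSeries (RE A E)) := rfl

theorem phi_injective : Function.Injective (phi M A E) := by
  intro x y h
  have h1 : incQ A E (x : LaurentSeries (RE A E)) = incQ A E (y : LaurentSeries (RE A E)) :=
    congrArg Subtype.val h
  exact Subtype.ext (incQ_injective h1)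

theorem phi_mem_Fc (V : OE M A E) : phi M A E V ∈ Fc M E := by
  obtain ⟨f, hf, hfV⟩ := exists_mem_Fc_of_mem_FE (M := M) V.2
  have : phi M A E V = f := Subtype.ext (by rw [coe_phi, incQ_apply, hfV])
  rw [this]
  exact hf

/-- Reduction of an integral series. -/
def rho (M : ℕ) (A : ValuationSubring Qb) (E : IntermediateField ℚ Qb) :
    OE M A E →+* LaurentSeries (IsLocalRing.ResidueField (RE A E)) :=
  (coeffMap (IsLocalRing.residue (RE A E))).comp (OE M A E).subtype

theorem rho_apply (V : OE M A E) :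
    rho M A E V = coeffMap (IsLocalRing.residue (RE A E)) (V : LaurentSeries (RE A E)) := rfl

/-- The reduction over `A` of the series over `A` attached to `V`. -/
theorem residue_toA_eq (V : LaurentSeries (RE A E)) :
    coeffMap (IsLocalRing.residue A) (coeffMap (toA A E) V) =
      coeffMap (H602.resMap A E) (coeffMap (IsLocalRing.residue (RE A E)) V) :=
  H602.coeffMap_residue_toA A E V

theorem residue_toA_ne_zero_iff (V : LaurentSeries (RE A E)) :
    coeffMap (IsLocalRing.residue A) (coeffMap (toA A E) V) ≠ 0 ↔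
      coeffMap (IsLocalRing.residue (RE A E)) V ≠ 0 := by
  rw [residue_toA_eq]
  constructor
  · intro h h0
    exact h (by rw [h0, map_zero])
  · intro h h0
    apply h
    apply H602.coeffMap_injective (H602.resMap A E) (H602.resMap_injective A E)
    rw [h0, map_zero]

theorem isIntE_toA (V : OE M A E) :
    IsIntE M A E (coeffMap (toA A E) (V : LaurentSeries (RE A E))) := by
  refine ⟨fun n => ?_, phi M A E V, phi_mem_Fc V, ?_⟩
  · rw [coeffMap_coeff]
    exact ((V : LaurentSeries (RE A E)).coeff n : E).2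
  · rw [coe_phi, incQ_eq]

/-- Every element of `VcSet` is a quotient of two integral series over `R_E`, the denominator
with nonzero reduction. -/
theorem exists_rep_of_mem_VcSet {f : Om M} (hf : f ∈ VcSet M A E) :
    ∃ V₁ V₂ : OE M A E, rho M A E V₂ ≠ 0 ∧ f * phi M A E V₂ = phi M A E V₁ := by
  obtain ⟨-, U₁, U₂, ⟨-, g₁, hg₁, hgU₁⟩, ⟨-, g₂, hg₂, hgU₂⟩, hne, heq⟩ := hf
  have d₁ := descendsTo_of_mem_Fc hg₁
  have d₂ := descendsTo_of_mem_Fc hg₂
  rw [hgU₁] at d₁
  rw [hgU₂] at d₂
  obtain ⟨V₁, hV₁, hVU₁⟩ := H602.exists_series_descent U₁ d₁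
  obtain ⟨V₂, hV₂, hVU₂⟩ := H602.exists_series_descent U₂ d₂
  refine ⟨⟨V₁, hV₁⟩, ⟨V₂, hV₂⟩, ?_, ?_⟩
  · rw [rho_apply]
    rw [← hVU₂] at hne
    exact (residue_toA_ne_zero_iff V₂).mp hne
  · apply Subtype.ext
    show (f : LaurentSeries Qb) * incQ A E V₂ = incQ A E V₁
    rw [incQ_eq, incQ_eq, hVU₁, hVU₂]
    exact heq

/-- Conversely a quotient of two integral series over `R_E`, the denominator with nonzero
reduction, lies in `VcSet`. -/
theorem mem_VcSet_of_rep {g : Om M} (V₁ V₂ : OE M A E) (h2 : rho M A E V₂ ≠ 0)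
    (h : g * phi M A E V₂ = phi M A E V₁) : g ∈ VcSet M A E := by
  have hV₂0 : phi M A E V₂ ≠ 0 := by
    intro h0
    apply h2
    have : V₂ = 0 := phi_injective (by rw [h0, map_zero])
    rw [this, map_zero]
  have hg : g = phi M A E V₁ * (phi M A E V₂)⁻¹ := by
    rw [← h, mul_assoc, mul_inv_cancel₀ hV₂0, mul_one]
  refine ⟨?_, coeffMap (toA A E) (V₁ : LaurentSeries (RE A E)),
    coeffMap (toA A E) (V₂ : LaurentSeries (RE A E)), isIntE_toA V₁, isIntE_toA V₂, ?_, ?_⟩
  · rw [hg]
    exact mul_mem (phi_mem_Fc V₁) (inv_mem (phi_mem_Fc V₂))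
  · exact (residue_toA_ne_zero_iff _).mpr h2
  · rw [← incQ_eq, ← incQ_eq, ← coe_phi, ← coe_phi, ← h]
    rfl

theorem coeff_mem_maximalIdeal_of_rho_eq_zero (V : OE M A E) (hV : rho M A E V = 0) (n : ℤ) :
    (V : LaurentSeries (RE A E)).coeff n ∈ IsLocalRing.maximalIdeal (RE A E) := by
  rw [← IsLocalRing.residue_eq_zero_iff]
  have := congrArg (fun z : LaurentSeries (IsLocalRing.ResidueField (RE A E)) => z.coeff n) hV
  simpa [rho_apply, coeffMap_coeff] using this

/-- A series with zero reduction is divisible by the uniformiser `w`. -/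
theorem exists_div_of_rho_eq_zero {w : Om M} (hwm : w ∈ Rc M A E)
    (hwg : ∀ r ∈ Rc M A E, r⁻¹ ∉ Rc M A E → r * w⁻¹ ∈ Rc M A E)
    (V : OE M A E) (hV : rho M A E V = 0) :
    ∃ V' : OE M A E, phi M A E V' = phi M A E V * w⁻¹ := by
  obtain ⟨ϖ, rfl⟩ := mem_Rc_iff_exists_iotaR.mp hwm
  set c : E := ((ϖ : E))⁻¹ with hc
  set y : LaurentSeries E :=
    HahnSeries.C c * coeffMap (RE A E).subtype (V : LaurentSeries (RE A E)) with hy
  have hcoeff : ∀ n, y.coeff n = c * (((V : LaurentSeries (RE A E)).coeff n : RE A E) : E) := by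
    intro n
    rw [hy, HahnSeries.C_mul_eq_smul, HahnSeries.coeff_smul, smul_eq_mul, coeffMap_coeff]
    rfl
  have hrange : ∀ n, y.coeff n ∈ Set.range (RE A E).subtype := by
    intro n
    set r : RE A E := (V : LaurentSeries (RE A E)).coeff n with hr
    by_cases hr0 : r = 0
    · refine ⟨0, ?_⟩
      rw [hcoeff, ← hr, hr0]
      simp
    have hnu : ¬ IsUnit r := by
      have := coeff_mem_maximalIdeal_of_rho_eq_zero V hV n
      rwa [IsLocalRing.mem_maximalIdeal, mem_nonunits_iff] at this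
    have hinv : (iotaR M A E r)⁻¹ ∉ Rc M A E := by
      intro h
      rcases (iotaR_inv_mem_Rc_iff r).mp h with h | h
      · exact hr0 h
      · exact hnu h
    obtain ⟨s, hs⟩ := mem_Rc_iff_exists_iotaR.mp (hwg _ (iotaR_mem_Rc r) hinv)
    refine ⟨s, ?_⟩
    rw [hcoeff, ← hr]
    have hinj : Function.Injective ((iota M).comp (algebraMap E Qb)) :=
      (iota_injective M).comp (algebraMap E Qb).injective
    apply hinj
    show iotaR M A E s = _
    rw [hs, map_mul, hc, map_inv₀, mul_comm]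
    rfl
  obtain ⟨V', hV'⟩ := H602.exists_coeffMap_eq (RE A E).subtype Subtype.val_injective y hrange
  have hV'mem : V' ∈ OE M A E := by
    rw [mem_OE, hV', hy]
    exact mul_mem (C_mem_FE M c) V.2
  refine ⟨⟨V', hV'mem⟩, ?_⟩
  apply Subtype.ext
  show incQ A E V' = incQ A E (V : LaurentSeries (RE A E)) *
    ((iotaR M A E ϖ : Om M) : LaurentSeries Qb)⁻¹
  rw [incQ_apply, hV', hy, map_mul, H516.coeffMap_C, ← incQ_apply, iotaR_apply, coe_iota_single,
    ← HahnSeries.C_apply, ← map_inv₀, hc, map_inv₀, mul_comm]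
  rfl

end Fermat.Agent.S18.H576

end
end
-- ===== PACK-END S18/H576/Transport.lean

-- ===== PACK-BEGIN S18/H203/KBasis.lean
section


/-!
# S18 / b1 (helper203): the lifted family is a basis of the generic fibre

Same setting as `LiftBasis.lean`; moreover `F / K` is algebraic.  If the reductions of
`b : ι → B` form an `S̄`-basis of `B̄ = B ⧸ (w) B` then the images of the `b i` in `F` form a
`K`-basis of `F` (`basisOfLift`), so `card ι = [F : K]` (`card_eq_finrank`).
-/

set_option autoImplicit false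

namespace Fermat.Agent.S18.H203

open Ideal

section

variable {S B : Type*} [CommRing S] [IsDomain S] [CommRing B] [Algebra S B]

/-- The integral closure in a field is torsion-free over the base. -/
theorem isTorsionFree_of_isIntegralClosure (K F : Type*) [Field K] [Algebra S K]
    [IsFractionRing S K] [Field F] [Algebra K F] [Algebra S F] [IsScalarTower S K F]
    [Algebra B F] [IsScalarTower S B F] [IsIntegralClosure B S F] :
    Module.IsTorsionFree S B := by
  have hinjSF : Function.Injective (algebraMap S F) := by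
    rw [IsScalarTower.algebraMap_eq S K F]
    exact (algebraMap K F).injective.comp (IsFractionRing.injective S K)
  have h1 : Module.IsTorsionFree S F := Module.isTorsionFree_iff_algebraMap_injective.mpr hinjSF
  exact Function.Injective.moduleIsTorsionFree (algebraMap B F)
    (IsIntegralClosure.algebraMap_injective B S F) fun r m => by
      rw [Algebra.smul_def, map_mul, ← IsScalarTower.algebraMap_apply, Algebra.smul_def]

variable [IsNoetherianRing S] {ι : Type*} [Fintype ι]

/-- The lifts are linearly independent over `K` in `F`. -/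
theorem linearIndependent_map_lift (K F : Type*) [Field K] [Algebra S K]
    [IsFractionRing S K] [Field F] [Algebra K F] [Algebra S F] [IsScalarTower S K F]
    [Algebra B F] [IsScalarTower S B F] [IsIntegralClosure B S F]
    {w : S} (hw : Prime w) (b : ι → B)
    (hli : LinearIndependent (S ⧸ Ideal.span {w}) fun i => redB (S := S) w (b i)) :
    LinearIndependent K fun i => algebraMap B F (b i) := by
  have htf : Module.IsTorsionFree S B := isTorsionFree_of_isIntegralClosure K F
  have h1 : LinearIndependent S b := linearIndependent_lift hw b hli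
  have h2 : LinearIndependent S fun i => algebraMap B F (b i) := by
    have := h1.map' (IsScalarTower.toAlgHom S B F).toLinearMap
      (LinearMap.ker_eq_bot.mpr (IsIntegralClosure.algebraMap_injective B S F))
    exact this
  exact (LinearIndependent.iff_fractionRing S K).mp h2

omit [IsNoetherianRing S] in
/-- The lifts span `F` over `K`. -/
theorem span_map_lift_eq_top (K F : Type*) [Field K] [Algebra S K]
    [IsFractionRing S K] [Field F] [Algebra K F] [Algebra S F] [IsScalarTower S K F]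
    [Algebra B F] [IsScalarTower S B F] [IsIntegralClosure B S F]
    [Module.Finite S B] [Algebra.IsAlgebraic K F]
    (w : S) (hw1 : ¬ IsUnit w) (b : ι → B)
    (hspan : Submodule.span (S ⧸ Ideal.span {w}) (Set.range fun i => redB (S := S) w (b i)) = ⊤) :
    Submodule.span K (Set.range fun i => algebraMap B F (b i)) = ⊤ := by
  obtain ⟨r, hr1, hr⟩ := exists_smul_mem_span w b hspan
  have hinjSK : Function.Injective (algebraMap S K) := IsFractionRing.injective S K
  have hr0 : r ≠ 0 := by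
    rintro rfl
    rw [zero_sub, neg_mem_iff, Ideal.mem_span_singleton] at hr1
    exact hw1 (isUnit_of_dvd_one hr1)
  rw [eq_top_iff]
  intro f _
  -- `f` has an integral multiple
  have hf : IsAlgebraic S f := by
    have := Algebra.IsAlgebraic.isAlgebraic (R := K) f
    exact (IsFractionRing.isAlgebraic_iff S K F).mpr this
  obtain ⟨y, hy0, hy⟩ := hf.exists_integral_multiple
  obtain ⟨β, hβ⟩ := (IsIntegralClosure.isIntegral_iff (A := B)).mp hy
  -- `r • β ∈ span_S b`
  have h1 := hr β
  have h2 : algebraMap B F (r • β) ∈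
      Submodule.span K (Set.range fun i => algebraMap B F (b i)) := by
    have h3 : (IsScalarTower.toAlgHom S B F).toLinearMap (r • β) ∈
        Submodule.map (IsScalarTower.toAlgHom S B F).toLinearMap
          (Submodule.span S (Set.range b)) := Submodule.mem_map_of_mem h1
    rw [Submodule.map_span, ← Set.range_comp] at h3
    have h4 : Submodule.span S (Set.range ((IsScalarTower.toAlgHom S B F).toLinearMap ∘ b)) ≤
        (Submodule.span K (Set.range fun i => algebraMap B F (b i))).restrictScalars S := by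
      rw [Submodule.span_le]
      rintro _ ⟨i, rfl⟩
      exact Submodule.subset_span ⟨i, rfl⟩
    exact h4 h3
  have h5 : algebraMap B F (r • β) = (algebraMap S K (r * y)) • f := by
    rw [Algebra.smul_def r β, map_mul, hβ, ← IsScalarTower.algebraMap_apply,
      Algebra.smul_def y f, Algebra.smul_def, ← IsScalarTower.algebraMap_apply, map_mul]
    ring
  rw [h5] at h2
  have h6 : algebraMap S K (r * y) ≠ 0 := by
    simpa using (map_ne_zero_iff _ hinjSK).mpr (mul_ne_zero hr0 hy0)
  have h7 := Submodule.smul_mem _ (algebraMap S K (r * y))⁻¹ h2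
  rwa [smul_smul, inv_mul_cancel₀ h6, one_smul] at h7

/-- **The lifted basis of the generic fibre.** -/
noncomputable def basisOfLift (K F : Type*) [Field K] [Algebra S K]
    [IsFractionRing S K] [Field F] [Algebra K F] [Algebra S F] [IsScalarTower S K F]
    [Algebra B F] [IsScalarTower S B F] [IsIntegralClosure B S F]
    [Module.Finite S B] [Algebra.IsAlgebraic K F]
    {w : S} (hw : Prime w) (b : ι → B)
    (hli : LinearIndependent (S ⧸ Ideal.span {w}) fun i => redB (S := S) w (b i))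
    (hspan : Submodule.span (S ⧸ Ideal.span {w}) (Set.range fun i => redB (S := S) w (b i)) = ⊤) :
    Module.Basis ι K F :=
  Module.Basis.mk (linearIndependent_map_lift K F hw b hli)
    (span_map_lift_eq_top K F w hw.not_isUnit b hspan).ge

@[simp]
theorem basisOfLift_apply (K F : Type*) [Field K] [Algebra S K]
    [IsFractionRing S K] [Field F] [Algebra K F] [Algebra S F] [IsScalarTower S K F]
    [Algebra B F] [IsScalarTower S B F] [IsIntegralClosure B S F]
    [Module.Finite S B] [Algebra.IsAlgebraic K F]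
    {w : S} (hw : Prime w) (b : ι → B)
    (hli : LinearIndependent (S ⧸ Ideal.span {w}) fun i => redB (S := S) w (b i))
    (hspan : Submodule.span (S ⧸ Ideal.span {w}) (Set.range fun i => redB (S := S) w (b i)) = ⊤)
    (i : ι) : basisOfLift K F hw b hli hspan i = algebraMap B F (b i) := by
  simp [basisOfLift]

/-- The rank of the special fibre is the degree of the generic fibre. -/
theorem card_eq_finrank (K F : Type*) [Field K] [Algebra S K]
    [IsFractionRing S K] [Field F] [Algebra K F] [Algebra S F] [IsScalarTower S K F]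
    [Algebra B F] [IsScalarTower S B F] [IsIntegralClosure B S F]
    [Module.Finite S B] [Algebra.IsAlgebraic K F]
    {w : S} (hw : Prime w) (b : ι → B)
    (hli : LinearIndependent (S ⧸ Ideal.span {w}) fun i => redB (S := S) w (b i))
    (hspan : Submodule.span (S ⧸ Ideal.span {w}) (Set.range fun i => redB (S := S) w (b i)) = ⊤) :
    Fintype.card ι = Module.finrank K F :=
  (Module.finrank_eq_card_basis (basisOfLift K F hw b hli hspan)).symm

end

end Fermat.Agent.S18.H203

end
-- ===== PACK-END S18/H203/KBasis.lean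

-- ===== PACK-BEGIN S18/H203/TraceRed.lean
section


/-!
# S18 / b1–b2.1 (helper203): traces and discriminants commute with reduction mod `w`

Setting of `LiftBasis.lean` / `KBasis.lean`: `S` Noetherian integrally closed domain, `w ∈ S`
prime, `K = Frac S`, `F / K` finite, `B` the integral closure of `S` in `F`, finite over `S`;
`S̄ = S ⧸ (w)`, `B̄ = B ⧸ (w) B`, and `b̄` an `S̄`-basis of `B̄`.

* `trace_redB` : if `τ ∈ S` is the trace `Tr_{F/K} β` of `β ∈ B`, then
  `Tr_{B̄ / S̄} (β mod w) = τ mod w`.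
* `exists_trace_eq` : the trace of `β ∈ B` lies in `S`.
* `exists_discr_eq` : for lifts `b i ∈ B` of `b̄ i` there is `d ∈ S` which is the discriminant of
  the `K`-basis `b` of `F` and whose reduction is the discriminant of the `S̄`-basis `b̄` of `B̄`.
-/

set_option autoImplicit false

namespace Fermat.Agent.S18.H203

open Ideal

section General

variable {R A : Type*} [CommRing R] [CommRing A] [Algebra R A]
  {ι : Type*} [Fintype ι] [DecidableEq ι]

/-- Trace from a "matrix up to a scalar": if `r • (x * bas j) = ∑ i, s i j • bas i` for all `j`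
then `r * Tr x = ∑ i, s i i`. -/
theorem mul_trace_eq_sum (bas : Module.Basis ι R A) (x : A) (r : R) (s : ι → ι → R)
    (h : ∀ j, r • (x * bas j) = ∑ i, s i j • bas i) :
    r * Algebra.trace R A x = ∑ i, s i i := by
  rw [Algebra.trace_eq_matrix_trace bas, Matrix.trace, Finset.mul_sum]
  refine Finset.sum_congr rfl fun i _ => ?_
  rw [Matrix.diag_apply, Algebra.leftMulMatrix_eq_repr_mul]
  have h1 := congrArg (fun v => bas.repr v i) (h i)
  simp only [map_smul, Finsupp.smul_apply, smul_eq_mul, map_sum, Finsupp.coe_finsetSum,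
    Finset.sum_apply, Module.Basis.repr_self, Finsupp.single_apply, mul_ite, mul_one,
    mul_zero, Finset.sum_ite_eq', Finset.mem_univ, if_true] at h1
  exact h1

end General

section

variable {S B : Type*} [CommRing S] [IsDomain S] [IsNoetherianRing S] [IsIntegrallyClosed S]
  [CommRing B] [Algebra S B] {ι : Type*} [Fintype ι] [DecidableEq ι]

omit [IsNoetherianRing S] [IsDomain S] [DecidableEq ι] [Fintype ι] in
/-- The trace of an element of the integral closure lies in `S`. -/
theorem exists_trace_eq (K F : Type*) [Field K] [Algebra S K]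
    [IsFractionRing S K] [Field F] [Algebra K F] [Algebra S F] [IsScalarTower S K F]
    [Algebra B F] [IsScalarTower S B F] [IsIntegralClosure B S F] [FiniteDimensional K F]
    (β : B) : ∃ τ : S, algebraMap S K τ = Algebra.trace K F (algebraMap B F β) := by
  have h1 : IsIntegral S (algebraMap B F β) := (IsIntegralClosure.isIntegral S F β).algebraMap
  have h2 : IsIntegral S (Algebra.trace K F (algebraMap B F β)) := Algebra.isIntegral_trace h1
  exact IsIntegrallyClosed.isIntegral_iff.mp h2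

omit [IsIntegrallyClosed S] in
/-- **Traces commute with reduction mod `w`.** -/
theorem trace_redB (K F : Type*) [Field K] [Algebra S K]
    [IsFractionRing S K] [Field F] [Algebra K F] [Algebra S F] [IsScalarTower S K F]
    [Algebra B F] [IsScalarTower S B F] [IsIntegralClosure B S F]
    [Module.Finite S B] [FiniteDimensional K F]
    {w : S} (hw : Prime w)
    (bbar : Module.Basis ι (S ⧸ Ideal.span {w}) (B ⧸ (Ideal.span {w}).map (algebraMap S B)))
    (β : B) (τ : S) (hτ : algebraMap S K τ = Algebra.trace K F (algebraMap B F β)) :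
    Algebra.trace (S ⧸ Ideal.span {w}) (B ⧸ (Ideal.span {w}).map (algebraMap S B))
      (redB (S := S) w β) = redS w τ := by
  -- lifts of the basis
  choose b hb using fun i => Ideal.Quotient.mk_surjective (bbar i)
  have hfun : (fun i => redB (S := S) w (b i)) = ⇑bbar := funext hb
  have hli : LinearIndependent (S ⧸ Ideal.span {w}) fun i => redB (S := S) w (b i) := by
    rw [hfun]; exact bbar.linearIndependent
  have hspan : Submodule.span (S ⧸ Ideal.span {w})
      (Set.range fun i => redB (S := S) w (b i)) = ⊤ := by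
    rw [hfun]; exact bbar.span_eq
  -- the `K`-basis
  set bK : Module.Basis ι K F := basisOfLift K F hw b hli hspan with hbK
  -- Nakayama
  obtain ⟨r, hr1, hr⟩ := exists_smul_mem_span w b hspan
  have hrbar : redS w r = 1 := by
    have : redS w (r - 1) = 0 := Ideal.Quotient.eq_zero_iff_mem.mpr hr1
    rwa [map_sub, map_one, sub_eq_zero] at this
  -- the matrix
  have hex : ∀ j, ∃ c : ι → S, r • (β * b j) = ∑ i, c i • b i := fun j => by
    obtain ⟨c, hc⟩ := (Submodule.mem_span_range_iff_exists_fun S).mp (hr (β * b j))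
    exact ⟨c, hc.symm⟩
  choose s hs using hex
  -- generic fibre
  have hK : ∀ j, algebraMap S K r • (algebraMap B F β * bK j) =
      ∑ i, algebraMap S K (s j i) • bK i := by
    intro j
    have := congrArg (algebraMap B F) (hs j)
    simp only [map_sum, Algebra.smul_def, map_mul, ← IsScalarTower.algebraMap_apply] at this
    simp only [hbK, basisOfLift_apply, Algebra.smul_def, ← IsScalarTower.algebraMap_apply]
    exact this
  have e1 : algebraMap S K r * Algebra.trace K F (algebraMap B F β) =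
      ∑ i, algebraMap S K (s i i) :=
    mul_trace_eq_sum bK (algebraMap B F β) (algebraMap S K r)
      (fun i j => algebraMap S K (s j i)) hK
  have e2 : r * τ = ∑ i, s i i := by
    apply IsFractionRing.injective S K
    rw [map_mul, hτ, e1, map_sum]
  -- special fibre
  have hbar : ∀ j, (1 : S ⧸ Ideal.span {w}) • (redB (S := S) w β * bbar j) =
      ∑ i, redS w (s j i) • bbar i := by
    intro j
    have := congrArg (redB (S := S) w) (hs j)
    rw [redB_smul, hrbar, map_mul, map_sum, hb] at this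
    rw [this]
    refine Finset.sum_congr rfl fun i _ => ?_
    rw [redB_smul, hb]
  have e3 := mul_trace_eq_sum bbar (redB (S := S) w β) 1 (fun i j => redS w (s j i)) hbar
  rw [one_mul] at e3
  rw [e3, ← map_sum, ← e2, map_mul, hrbar, one_mul]

/-- **Discriminants commute with reduction mod `w`.** -/
theorem exists_discr_eq (K F : Type*) [Field K] [Algebra S K]
    [IsFractionRing S K] [Field F] [Algebra K F] [Algebra S F] [IsScalarTower S K F]
    [Algebra B F] [IsScalarTower S B F] [IsIntegralClosure B S F]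
    [Module.Finite S B] [FiniteDimensional K F]
    {w : S} (hw : Prime w)
    (bbar : Module.Basis ι (S ⧸ Ideal.span {w}) (B ⧸ (Ideal.span {w}).map (algebraMap S B)))
    (b : ι → B) (hb : ∀ i, redB (S := S) w (b i) = bbar i) :
    ∃ d : S, algebraMap S K d = Algebra.discr K (fun i => algebraMap B F (b i)) ∧
      redS w d = Algebra.discr (S ⧸ Ideal.span {w}) bbar := by
  choose D hD using fun p : ι × ι => exists_trace_eq (S := S) K F (b p.1 * b p.2)
  refine ⟨(Matrix.of fun i j => D (i, j)).det, ?_, ?_⟩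
  · rw [Algebra.discr_def, RingHom.map_det]
    congr 1
    ext i j
    simp only [RingHom.mapMatrix_apply, Matrix.map_apply, Matrix.of_apply,
      Algebra.traceMatrix_apply, Algebra.traceForm_apply, hD (i, j), map_mul]
  · rw [Algebra.discr_def, RingHom.map_det]
    congr 1
    ext i j
    simp only [RingHom.mapMatrix_apply, Matrix.map_apply, Matrix.of_apply,
      Algebra.traceMatrix_apply, Algebra.traceForm_apply]
    rw [← hb i, ← hb j, ← map_mul]
    exact (trace_redB K F hw bbar (b i * b j) (D (i, j)) (hD (i, j))).symm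

end

end Fermat.Agent.S18.H203

end
-- ===== PACK-END S18/H203/TraceRed.lean

-- ===== PACK-BEGIN S18/B12/H203/DiscrRed.lean
section




/-!
# S18 / b2.5, piece A3: discriminant reduction mod `w` (`DiscrRedStatement`)

`P` an integrally closed domain, `B` an integrally closed domain, finite and torsion-free over `P`,
`w ∈ P` prime, `𝔪 ∋ w` a prime ideal, `x` a basis of `B` locally at `𝔪` (`g • B ⊆ span x`, `g ∉ 𝔪`),
`bb` a basis of `B/wB` over `P/(w)`.  Then `bb` has as many elements as `x` and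
`intDiscr x mod w = ū² · disc bb` with `u ∉ 𝔪`.
-/

set_option autoImplicit false
set_option linter.unusedSectionVars false
set_option linter.unusedVariables false

noncomputable section

namespace Fermat.Agent.S18.B12.H203

open Fermat.Agent.S18.H203

universe u v

section Quasi

variable {P : Type*} {B : Type*} [CommRing P] [CommRing B] [Algebra P B]
  {ι : Type*} [Fintype ι]

/-- Coefficients of `g • b` with respect to a quasi-basis. -/
theorem exists_coef_of_smul_mem (x : ι → B) (g : P)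
    (hg : ∀ b : B, g • b ∈ Submodule.span P (Set.range x)) :
    ∃ c : B → ι → P, ∀ b, g • b = ∑ i, c b i • x i := by
  choose c hc using fun b => (Submodule.mem_span_range_iff_exists_fun P).mp (hg b)
  exact ⟨c, fun b => (hc b).symm⟩

/-- The reduction mod `w` of a quasi-basis (with `w ∤ g`) is linearly independent. -/
theorem linearIndependent_red_of_quasi [IsDomain P] {w : P} (hw : Prime w) (x : ι → B)
    (hli : LinearIndependent P x) (g : P) (hgw : ¬ w ∣ g)
    (hg : ∀ b : B, g • b ∈ Submodule.span P (Set.range x)) :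
    LinearIndependent (P ⧸ Ideal.span {w}) fun i => redB (S := P) w (x i) := by
  obtain ⟨c, hc⟩ := exists_coef_of_smul_mem x g hg
  rw [Fintype.linearIndependent_iff]
  intro ab hab i
  choose a ha using fun i => Ideal.Quotient.mk_surjective (ab i)
  have h1 : redB (S := P) w (∑ i, a i • x i) = 0 := by
    rw [map_sum, ← hab]
    refine Finset.sum_congr rfl fun i _ => ?_
    rw [redB_smul, ha]
  rw [redB_eq_zero_iff] at h1
  obtain ⟨b', hb'⟩ := h1
  have h2 : ∑ i, (g * a i) • x i = ∑ i, (w * c b' i) • x i := by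
    calc ∑ i, (g * a i) • x i = g • ∑ i, a i • x i := by
          rw [Finset.smul_sum]
          exact Finset.sum_congr rfl fun i _ => mul_smul _ _ _
      _ = g • (algebraMap P B w * b') := by rw [hb']
      _ = w • (g • b') := by rw [← Algebra.smul_def, smul_comm]
      _ = ∑ i, (w * c b' i) • x i := by
          rw [hc, Finset.smul_sum]
          exact Finset.sum_congr rfl fun i _ => (mul_smul _ _ _).symm
  have h3 : g * a i = w * c b' i := by
    have := Fintype.linearIndependent_iff.mp hli (fun i => g * a i - w * c b' i) (by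
      simp only [sub_smul, Finset.sum_sub_distrib, h2, sub_self])
    exact sub_eq_zero.mp (this i)
  have h4 : w ∣ a i := (hw.dvd_or_dvd ⟨c b' i, h3⟩).resolve_left hgw
  rw [← ha i]
  exact (redS_eq_zero_iff w (a i)).mpr h4

end Quasi

section Abstract

variable {A V : Type*} [CommRing A] [CommRing V] [Algebra A V] {n : ℕ}

/-- If `g • bb j = ∑ i, N i j • xb i` then `toMatrix bb xb * N = g • 1`. -/
theorem toMatrix_mul_eq_smul_one (bb : Module.Basis (Fin n) A V) (xb : Fin n → V) (g : A)
    (N : Matrix (Fin n) (Fin n) A) (hN : ∀ j, g • bb j = ∑ i, N i j • xb i) :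
    bb.toMatrix xb * N = g • (1 : Matrix (Fin n) (Fin n) A) := by
  ext l j
  have h := congrArg (fun v => bb.repr v l) (hN j)
  simp only [map_smul, Finsupp.smul_apply, smul_eq_mul, map_sum, Finsupp.coe_finsetSum,
    Finset.sum_apply, Module.Basis.repr_self, Finsupp.single_apply] at h
  rw [Matrix.mul_apply, Matrix.smul_apply, Matrix.one_apply, smul_eq_mul]
  simp only [Module.Basis.toMatrix_apply]
  rw [show (∑ k, bb.repr (xb k) l * N k j) = ∑ k, N k j * bb.repr (xb k) l from
    Finset.sum_congr rfl fun k _ => mul_comm _ _, ← h]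
  by_cases hlj : l = j
  · simp [hlj]
  · have : ¬ j = l := fun h' => hlj h'.symm
    simp [hlj, this]

/-- The determinant of the transition matrix to a quasi-basis is nonzero. -/
theorem det_toMatrix_ne_zero [IsDomain A] (bb : Module.Basis (Fin n) A V) (xb : Fin n → V)
    (g : A) (hg0 : g ≠ 0) (N : Matrix (Fin n) (Fin n) A)
    (hN : ∀ j, g • bb j = ∑ i, N i j • xb i) :
    (bb.toMatrix xb).det * N.det = g ^ n ∧ (bb.toMatrix xb).det ≠ 0 := by
  have h := congrArg Matrix.det (toMatrix_mul_eq_smul_one bb xb g N hN)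
  rw [Matrix.det_mul, Matrix.det_smul, Matrix.det_one, mul_one, Fintype.card_fin] at h
  refine ⟨h, fun h0 => ?_⟩
  rw [h0, zero_mul] at h
  exact pow_ne_zero n hg0 h.symm

/-- Trace from a "matrix up to a scalar" with respect to a quasi-basis. -/
theorem mul_trace_eq_trace_of_quasi [IsDomain A] (bb : Module.Basis (Fin n) A V)
    (xb : Fin n → V) (hdet : (bb.toMatrix xb).det ≠ 0) (g : A) (β : V)
    (m : Matrix (Fin n) (Fin n) A) (hm : ∀ j, g • (β * xb j) = ∑ i, m i j • xb i) :
    g * Algebra.trace A V β = m.trace := by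
  set M := bb.toMatrix xb with hM
  set T := Algebra.leftMulMatrix bb β with hT
  have key : g • (T * M) = M * m := by
    ext l j
    have h := congrArg (fun v => bb.repr v l) (hm j)
    simp only [map_smul, Finsupp.smul_apply, smul_eq_mul, map_sum, Finsupp.coe_finsetSum,
      Finset.sum_apply] at h
    rw [Matrix.smul_apply, smul_eq_mul, Matrix.mul_apply, Matrix.mul_apply]
    have h1 : ∑ k, T l k * M k j = bb.repr (β * xb j) l := by
      have := congrFun (Algebra.leftMulMatrix_mulVec_repr bb β (xb j)) l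
      rw [← this]
      rfl
    rw [h1, h]
    exact Finset.sum_congr rfl fun k _ => mul_comm _ _
  have h1 : M.det * (g * T.trace) = M.det * m.trace := by
    calc M.det * (g * T.trace) = ((g • (T * M)) * M.adjugate).trace := by
          rw [Matrix.smul_mul, Matrix.mul_assoc, Matrix.mul_adjugate, Matrix.trace_smul,
            Matrix.mul_smul, Matrix.trace_smul, Matrix.mul_one, smul_eq_mul, smul_eq_mul]
          ring
      _ = (M * m * M.adjugate).trace := by rw [key]
      _ = (M.adjugate * (M * m)).trace := by rw [Matrix.trace_mul_comm]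
      _ = M.det * m.trace := by
          rw [← Matrix.mul_assoc, Matrix.adjugate_mul, Matrix.smul_mul, Matrix.one_mul,
            Matrix.trace_smul, smul_eq_mul]
  rw [Algebra.trace_eq_matrix_trace bb]
  exact mul_left_cancel₀ hdet h1

end Abstract

section Generic

variable {S B : Type*} [CommRing S] [IsDomain S] [CommRing B] [Algebra S B]
  {ι : Type*} [Fintype ι]

/-- A linearly independent family of `B` stays linearly independent in the generic fibre. -/
theorem linearIndependent_map_of_linearIndependent (K F : Type*) [Field K] [Algebra S K]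
    [IsFractionRing S K] [Field F] [Algebra K F] [Algebra S F] [IsScalarTower S K F]
    [Algebra B F] [IsScalarTower S B F] [IsIntegralClosure B S F]
    (b : ι → B) (h1 : LinearIndependent S b) :
    LinearIndependent K fun i => algebraMap B F (b i) := by
  have h2 : LinearIndependent S fun i => algebraMap B F (b i) := by
    have := h1.map' (IsScalarTower.toAlgHom S B F).toLinearMap
      (LinearMap.ker_eq_bot.mpr (IsIntegralClosure.algebraMap_injective B S F))
    exact this
  exact (LinearIndependent.iff_fractionRing S K).mp h2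

/-- A quasi-basis spans the generic fibre. -/
theorem span_map_eq_top_of_smul_mem (K F : Type*) [Field K] [Algebra S K]
    [IsFractionRing S K] [Field F] [Algebra K F] [Algebra S F] [IsScalarTower S K F]
    [Algebra B F] [IsScalarTower S B F] [IsIntegralClosure B S F]
    [Algebra.IsAlgebraic K F]
    (r : S) (hr0 : r ≠ 0) (b : ι → B)
    (hr : ∀ β : B, r • β ∈ Submodule.span S (Set.range b)) :
    Submodule.span K (Set.range fun i => algebraMap B F (b i)) = ⊤ := by
  have hinjSK : Function.Injective (algebraMap S K) := IsFractionRing.injective S K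
  rw [eq_top_iff]
  intro f _
  have hf : IsAlgebraic S f := by
    have := Algebra.IsAlgebraic.isAlgebraic (R := K) f
    exact (IsFractionRing.isAlgebraic_iff S K F).mpr this
  obtain ⟨y, hy0, hy⟩ := hf.exists_integral_multiple
  obtain ⟨β, hβ⟩ := (IsIntegralClosure.isIntegral_iff (A := B)).mp hy
  have h1 := hr β
  have h2 : algebraMap B F (r • β) ∈
      Submodule.span K (Set.range fun i => algebraMap B F (b i)) := by
    have h3 : (IsScalarTower.toAlgHom S B F).toLinearMap (r • β) ∈
        Submodule.map (IsScalarTower.toAlgHom S B F).toLinearMap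
          (Submodule.span S (Set.range b)) := Submodule.mem_map_of_mem h1
    rw [Submodule.map_span, ← Set.range_comp] at h3
    have h4 : Submodule.span S (Set.range ((IsScalarTower.toAlgHom S B F).toLinearMap ∘ b)) ≤
        (Submodule.span K (Set.range fun i => algebraMap B F (b i))).restrictScalars S := by
      rw [Submodule.span_le]
      rintro _ ⟨i, rfl⟩
      exact Submodule.subset_span ⟨i, rfl⟩
    exact h4 h3
  have h5 : algebraMap B F (r • β) = (algebraMap S K (r * y)) • f := by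
    rw [Algebra.smul_def r β, map_mul, hβ, ← IsScalarTower.algebraMap_apply,
      Algebra.smul_def y f, Algebra.smul_def, ← IsScalarTower.algebraMap_apply, map_mul]
    ring
  rw [h5] at h2
  have h6 : algebraMap S K (r * y) ≠ 0 := by
    simpa using (map_ne_zero_iff _ hinjSK).mpr (mul_ne_zero hr0 hy0)
  have h7 := Submodule.smul_mem _ (algebraMap S K (r * y))⁻¹ h2
  rwa [smul_smul, inv_mul_cancel₀ h6, one_smul] at h7

/-- The `K`-basis of the generic fibre given by a quasi-basis. -/
def quasiBasis (K F : Type*) [Field K] [Algebra S K]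
    [IsFractionRing S K] [Field F] [Algebra K F] [Algebra S F] [IsScalarTower S K F]
    [Algebra B F] [IsScalarTower S B F] [IsIntegralClosure B S F]
    [Algebra.IsAlgebraic K F]
    (b : ι → B) (hli : LinearIndependent S b) (r : S) (hr0 : r ≠ 0)
    (hr : ∀ β : B, r • β ∈ Submodule.span S (Set.range b)) :
    Module.Basis ι K F :=
  Module.Basis.mk (linearIndependent_map_of_linearIndependent K F b hli)
    (span_map_eq_top_of_smul_mem K F r hr0 b hr).ge

@[simp]
theorem quasiBasis_apply (K F : Type*) [Field K] [Algebra S K]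
    [IsFractionRing S K] [Field F] [Algebra K F] [Algebra S F] [IsScalarTower S K F]
    [Algebra B F] [IsScalarTower S B F] [IsIntegralClosure B S F]
    [Algebra.IsAlgebraic K F]
    (b : ι → B) (hli : LinearIndependent S b) (r : S) (hr0 : r ≠ 0)
    (hr : ∀ β : B, r • β ∈ Submodule.span S (Set.range b)) (i : ι) :
    quasiBasis K F b hli r hr0 hr i = algebraMap B F (b i) := by
  simp [quasiBasis]

/-- Trace in the generic fibre from a matrix up to a scalar, with respect to a quasi-basis. -/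
theorem mul_trace_eq_sum_of_quasi [DecidableEq ι] (K F : Type*) [Field K] [Algebra S K]
    [IsFractionRing S K] [Field F] [Algebra K F] [Algebra S F] [IsScalarTower S K F]
    [Algebra B F] [IsScalarTower S B F] [IsIntegralClosure B S F]
    [Algebra.IsAlgebraic K F]
    (b : ι → B) (hli : LinearIndependent S b) (r : S) (hr0 : r ≠ 0)
    (hr : ∀ β : B, r • β ∈ Submodule.span S (Set.range b))
    (β : B) (m : ι → ι → S) (hm : ∀ j, r • (β * b j) = ∑ i, m i j • b i) :
    algebraMap S K r * Algebra.trace K F (algebraMap B F β) = ∑ i, algebraMap S K (m i i) := by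
  have hK : ∀ j, algebraMap S K r • (algebraMap B F β * quasiBasis K F b hli r hr0 hr j) =
      ∑ i, algebraMap S K (m i j) • quasiBasis K F b hli r hr0 hr i := by
    intro j
    have := congrArg (algebraMap B F) (hm j)
    simp only [map_sum, Algebra.smul_def, map_mul, ← IsScalarTower.algebraMap_apply] at this
    simp only [quasiBasis_apply, Algebra.smul_def, ← IsScalarTower.algebraMap_apply]
    exact this
  exact mul_trace_eq_sum (quasiBasis K F b hli r hr0 hr) (algebraMap B F β) (algebraMap S K r)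
    (fun i j => algebraMap S K (m i j)) hK

end Generic

section IntTrace

variable {P : Type u} {B : Type v} [CommRing P] [IsDomain P] [IsIntegrallyClosed P]
  [CommRing B] [IsDomain B] [IsIntegrallyClosed B] [Algebra P B] [Module.Finite P B]
  [Module.IsTorsionFree P B] {ι : Type*} [Fintype ι] [DecidableEq ι]

open nonZeroDivisors in
/-- The integral trace from a matrix up to a scalar, with respect to a quasi-basis. -/
theorem mul_intTrace_eq_sum_of_quasi
    (b : ι → B) (hli : LinearIndependent P b) (r : P) (hr0 : r ≠ 0)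
    (hr : ∀ β : B, r • β ∈ Submodule.span P (Set.range b))
    (β : B) (m : ι → ι → P) (hm : ∀ j, r • (β * b j) = ∑ i, m i j • b i) :
    r * Algebra.intTrace P B β = ∑ i, m i i := by
  let _ : Algebra (FractionRing P) (FractionRing B) := FractionRing.liftAlgebra P _
  have : IsScalarTower P (FractionRing P) (FractionRing B) :=
    FractionRing.isScalarTower_liftAlgebra P (FractionRing B)
  have : IsIntegralClosure B P (FractionRing B) :=
    IsIntegralClosure.of_isIntegrallyClosed _ _ _
  have : Algebra.IsAlgebraic (FractionRing P) (FractionRing B) :=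
    isAlgebraic_of_isFractionRing P B ..
  apply IsFractionRing.injective P (FractionRing P)
  rw [map_mul, Algebra.algebraMap_intTrace_fractionRing, map_sum]
  exact mul_trace_eq_sum_of_quasi (FractionRing P) (FractionRing B) b hli r hr0 hr β m hm

end IntTrace

section Final

variable {P : Type u} {B : Type v} [CommRing P] [IsDomain P] [CommRing B] [Algebra P B]

/-- Reduction of the quasi-basis relation: `ḡ • β̄ ∈ span x̄`, with coefficients. -/
theorem exists_red_coef {w : P} {ι : Type*} [Fintype ι] (x : ι → B) (g : P)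
    (hg : ∀ b : B, g • b ∈ Submodule.span P (Set.range x))
    (y : B ⧸ (Ideal.span {w}).map (algebraMap P B)) :
    ∃ c : ι → P ⧸ Ideal.span {w}, redS w g • y = ∑ i, c i • redB (S := P) w (x i) := by
  obtain ⟨b, rfl⟩ := Ideal.Quotient.mk_surjective y
  obtain ⟨c, hc⟩ := (Submodule.mem_span_range_iff_exists_fun P).mp (hg b)
  refine ⟨fun i => redS w (c i), ?_⟩
  have := congrArg (redB (S := P) w) hc
  rw [redB_smul] at this
  rw [← this, map_sum]
  exact Finset.sum_congr rfl fun i _ => (redB_smul w (c i) (x i)).symm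

theorem isDomain_quotient_span_of_prime {w : P} (hw : Prime w) :
    IsDomain (P ⧸ Ideal.span {w}) := by
  have : (Ideal.span {w}).IsPrime := (Ideal.span_singleton_prime hw.ne_zero).mpr hw
  exact Ideal.Quotient.isDomain _

/-- A basis of the special fibre has as many elements as a quasi-basis. -/
theorem card_eq_of_quasi {w : P} (hw : Prime w) {n n' : ℕ} (x : Fin n → B)
    (hli : LinearIndependent P x) (g : P) (hgw : ¬ w ∣ g)
    (hg : ∀ b : B, g • b ∈ Submodule.span P (Set.range x))
    (bb : Module.Basis (Fin n') (P ⧸ Ideal.span {w})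
      (B ⧸ (Ideal.span {w}).map (algebraMap P B))) : n' = n := by
  have hdom : IsDomain (P ⧸ Ideal.span {w}) := isDomain_quotient_span_of_prime hw
  have hg0 : redS w g ≠ 0 := fun h => hgw ((redS_eq_zero_iff w g).mp h)
  apply le_antisymm
  · -- `ḡ • bb` is linearly independent inside `span x̄`
    have hv : LinearIndependent (P ⧸ Ideal.span {w}) fun j => redS w g • bb j := by
      rw [Fintype.linearIndependent_iff]
      intro a ha j
      have h1 : ∑ j, (a j * redS w g) • bb j = 0 := by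
        rw [← ha]
        exact Finset.sum_congr rfl fun j _ => mul_smul _ _ _
      have h2 := Fintype.linearIndependent_iff.mp bb.linearIndependent _ h1 j
      exact (mul_eq_zero.mp h2).resolve_right hg0
    have hsub : Set.range (fun j => redS w g • bb j) ≤
        Submodule.span (P ⧸ Ideal.span {w}) (Set.range fun i => redB (S := P) w (x i)) := by
      rintro _ ⟨j, rfl⟩
      obtain ⟨c, hc⟩ := exists_red_coef (w := w) x g hg (bb j)
      simp only [SetLike.mem_coe]
      rw [hc]
      exact Submodule.sum_mem _ fun i _ => Submodule.smul_mem _ _ (Submodule.subset_span ⟨i, rfl⟩)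
    classical
    have h3 := linearIndependent_le_span_aux' _ hv _ hsub
    have h4 := Fintype.card_range_le (fun i => redB (S := P) w (x i))
    simpa using h3.trans h4
  · have hxb := linearIndependent_red_of_quasi hw x hli g hgw hg
    have hfin : Module.Finite (P ⧸ Ideal.span {w})
        (B ⧸ (Ideal.span {w}).map (algebraMap P B)) := Module.Finite.of_basis bb
    have h1 := hxb.fintype_card_le_finrank
    rw [Module.finrank_eq_card_basis bb] at h1
    simpa using h1

end Final

section Final2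

variable {P : Type u} {B : Type v} [CommRing P] [IsDomain P] [IsIntegrallyClosed P]
  [CommRing B] [IsDomain B] [IsIntegrallyClosed B] [Algebra P B] [Module.Finite P B]
  [Module.IsTorsionFree P B]

/-- **The integral trace commutes with reduction mod `w`** (quasi-basis version). -/
theorem trace_red_of_quasi {w : P} (hw : Prime w) {n : ℕ} (x : Fin n → B)
    (hli : LinearIndependent P x) (g : P) (hgw : ¬ w ∣ g)
    (hg : ∀ b : B, g • b ∈ Submodule.span P (Set.range x))
    (bb : Module.Basis (Fin n) (P ⧸ Ideal.span {w})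
      (B ⧸ (Ideal.span {w}).map (algebraMap P B))) (β : B) :
    Algebra.trace (P ⧸ Ideal.span {w}) (B ⧸ (Ideal.span {w}).map (algebraMap P B))
      (redB (S := P) w β) = redS w (Algebra.intTrace P B β) := by
  have hdom : IsDomain (P ⧸ Ideal.span {w}) := isDomain_quotient_span_of_prime hw
  have hgb0 : redS w g ≠ 0 := fun h => hgw ((redS_eq_zero_iff w g).mp h)
  have hg0 : g ≠ 0 := by
    rintro rfl
    exact hgw (dvd_zero w)
  obtain ⟨c, hc⟩ := exists_coef_of_smul_mem x g hg
  -- generic side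
  have e1 : g * Algebra.intTrace P B β = ∑ i, c (β * x i) i :=
    mul_intTrace_eq_sum_of_quasi x hli g hg0 hg β (fun i j => c (β * x j) i)
      (fun j => hc (β * x j))
  -- special side
  choose N hN using fun j => exists_red_coef (w := w) x g hg (bb j)
  have hdet := (det_toMatrix_ne_zero bb (fun i => redB (S := P) w (x i)) (redS w g) hgb0
    (Matrix.of fun i j => N j i) (fun j => by simpa using hN j)).2
  have e2 := mul_trace_eq_trace_of_quasi bb (fun i => redB (S := P) w (x i)) hdet (redS w g)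
    (redB (S := P) w β) (Matrix.of fun i j => redS w (c (β * x j) i)) (fun j => by
      have := congrArg (redB (S := P) w) (hc (β * x j))
      rw [redB_smul, map_mul, map_sum] at this
      rw [this]
      exact Finset.sum_congr rfl fun i _ => redB_smul w _ _)
  have e3 : redS w g * Algebra.trace (P ⧸ Ideal.span {w})
      (B ⧸ (Ideal.span {w}).map (algebraMap P B)) (redB (S := P) w β) =
      redS w g * redS w (Algebra.intTrace P B β) := by
    rw [e2, ← map_mul, e1, map_sum]
    rfl
  exact mul_left_cancel₀ hgb0 e3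

end Final2

/-- **A3 (discriminant reduction mod `w`).** -/
theorem discrRed.{u₁, v₁} : DiscrRedStatement.{u₁, v₁} := by
  intro P _ _ _ B _ _ _ _ _ _ w hw 𝔪 h𝔪 hwm n x hx n' bb
  obtain ⟨hli, g, hgm, hg⟩ := hx
  have hgw : ¬ w ∣ g := fun h => hgm (Ideal.mem_of_dvd 𝔪 h hwm)
  have hnn : n' = n := card_eq_of_quasi hw x hli g hgw hg bb
  subst hnn
  refine ⟨rfl, ?_⟩
  have hdom : IsDomain (P ⧸ Ideal.span {w}) := isDomain_quotient_span_of_prime hw
  have hgb0 : redS w g ≠ 0 := fun h => hgw ((redS_eq_zero_iff w g).mp h)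
  choose N hN using fun j => exists_red_coef (w := w) x g hg (bb j)
  obtain ⟨hMN, hdet⟩ := det_toMatrix_ne_zero bb (fun i => redB (S := P) w (x i)) (redS w g) hgb0
    (Matrix.of fun i j => N j i) (fun j => by simpa using hN j)
  obtain ⟨u, hu⟩ := Ideal.Quotient.mk_surjective (bb.toMatrix fun i => redB (S := P) w (x i)).det
  obtain ⟨v, hv⟩ := Ideal.Quotient.mk_surjective (Matrix.of fun i j => N j i).det
  refine ⟨u, ?_, ?_⟩
  · intro hum
    have h1 : redS w (u * v - g ^ n') = 0 := by
      rw [map_sub, map_mul, map_pow]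
      change Ideal.Quotient.mk _ u * Ideal.Quotient.mk _ v - _ = 0
      rw [hu, hv, hMN, sub_self]
    rw [redS_eq_zero_iff] at h1
    have h2 : u * v - g ^ n' ∈ 𝔪 := Ideal.mem_of_dvd 𝔪 h1 hwm
    have h3 : g ^ n' ∈ 𝔪 := by
      have := 𝔪.sub_mem (𝔪.mul_mem_right v hum) h2
      simpa using this
    exact hgm (h𝔪.mem_of_pow_mem n' h3)
  · rw [hu]
    have hx' : (fun i => redB (S := P) w (x i)) =
        Matrix.vecMul (⇑bb) ((bb.toMatrix fun i => redB (S := P) w (x i)).map
          (algebraMap (P ⧸ Ideal.span {w}) (B ⧸ (Ideal.span {w}).map (algebraMap P B)))) := by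
      funext j
      rw [← Module.Basis.sum_toMatrix_smul_self bb (fun i => redB (S := P) w (x i)) j]
      simp only [Matrix.vecMul, dotProduct, Matrix.map_apply, Algebra.smul_def]
      exact Finset.sum_congr rfl fun i _ => mul_comm _ _
    rw [← Algebra.discr_of_matrix_vecMul, ← hx', Algebra.discr_def, intDiscr, RingHom.map_det]
    congr 1
    ext i j
    simp only [RingHom.mapMatrix_apply, Matrix.map_apply, Matrix.of_apply,
      Algebra.traceMatrix_apply, Algebra.traceForm_apply]
    rw [← map_mul]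
    exact (trace_red_of_quasi hw x hli g hgw hg bb (x i * x j)).symm

end Fermat.Agent.S18.B12.H203

end
end
-- ===== PACK-END S18/B12/H203/DiscrRed.lean

-- ===== PACK-BEGIN S28/H208/Gcd.lean
section
/-
S28 [L4]: the gcd / generation lemma.  For distinct primes `p ≠ r` invertible in `k`,
`j(q^{pr}) ∈ k(j(q^r), j(q^p))`, because it is the unique common root of
`Φ_p(X, j(q^r))` and `Φ_r(X, j(q^p))`.
-/





set_option autoImplicit false

noncomputable section

open ModularCurve Polynomial

namespace Fermat.Agent.S28.H208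

section Gcd

variable (k : Type*) [Field k]

/-- The embedding `k((q)) → k̄((t))`, `q ↦ t^e`. -/
def iotaE (e : ℕ) [NeZero e] : LaurentSeries k →+* LaurentSeries (AlgebraicClosure k) :=
  (qExpand (AlgebraicClosure k) e).comp (coeffMap (algebraMap k (AlgebraicClosure k)))

theorem iotaE_jd (e : ℕ) [NeZero e] (d : ℕ) [NeZero d] :
    iotaE k e (qExpand k d (jqModC k)) =
      qExpand (AlgebraicClosure k) (e * d) (jqModC (AlgebraicClosure k)) := by
  rw [iotaE, RingHom.comp_apply, coeffMap_qExpand, coeffMap_jqModC, qExpand_qExpand]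

theorem iotaE_injective (e : ℕ) [NeZero e] : Function.Injective (iotaE k e) :=
  (iotaE k e).injective

variable {k}

theorem qExpand_coeff_neg_eq_zero_of_not_dvd {A : Type*} [CommRing A] (a b : ℕ) [NeZero a]
    (h : ¬ a ∣ b) (f : LaurentSeries A) : (qExpand A a f).coeff (-(b : ℤ)) = 0 := by
  apply qExpand_coeff_of_not_dvd
  intro h'
  exact h (by exact_mod_cast (dvd_neg.mp h'))

theorem qExpand_rootAt_some_coeff {K : Type*} [Field K] {p : ℕ} [NeZero p] (ζ : K) (hζ : ζ ≠ 0)
    (m : ℕ) [NeZero m] (b : Fin p) :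
    (qExpand K m (rootAt (p := p) ζ hζ (some b))).coeff (-(m : ℤ)) = (ζ ^ (b : ℕ))⁻¹ := by
  have h := qExpand_coeff_mul (R := K) m (rootAt (p := p) ζ hζ (some b)) (-1)
  rw [rootAt_some_coeff_neg_one, mul_neg, mul_one] at h
  exact h

theorem qExpand_rootAt_none {K : Type*} [Field K] {p : ℕ} [NeZero p] (ζ : K) (hζ : ζ ≠ 0)
    (m : ℕ) [NeZero m] :
    qExpand K m (rootAt (p := p) ζ hζ none) = qExpand K (m * (p * p)) (jqModC K) := by
  show qExpand K m (qExpand K (p * p) (jqModC K)) = _
  rw [qExpand_qExpand]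

/-- Key coprimality: the "new" roots of `Φ_p(X, j(t^{r²p}))` are not roots of
`Φ_r(X, j(t^{p²r}))`. -/
theorem gcd_core {K : Type*} [Field K] {p r : ℕ} [NeZero p] [NeZero r]
    (hp : p.Prime) (hr : r.Prime) (hpr : p ≠ r) (Dr : ModPolyData r)
    (ζp ζr : K) (hζp : IsPrimitiveRoot ζp p) (hζr : IsPrimitiveRoot ζr r) :
    IsCoprime
      (∏ b : Fin p, (X - C (qExpand K (r * r) (rootAt ζp (hζp.ne_zero (NeZero.ne p)) (some b)))))
      (Dr.Φ.map (evZ (qExpand K (p * p * r) (jqModC K)))) := by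
  have hζp0 : ζp ≠ 0 := hζp.ne_zero (NeZero.ne p)
  have hζr0 : ζr ≠ 0 := hζr.ne_zero (NeZero.ne r)
  rw [map_eq_prod_rootAt_qExpand Dr hr.one_lt ζr hζr (p * p)]
  refine IsCoprime.prod_left fun b _ => IsCoprime.prod_right fun i _ => ?_
  refine Polynomial.isCoprime_X_sub_C_of_isUnit_sub (IsUnit.mk0 _ (sub_ne_zero.mpr ?_))
  intro heq
  have hc : (qExpand K (r * r) (rootAt ζp hζp0 (some b))).coeff (-((r * r : ℕ) : ℤ)) =
      (qExpand K (p * p) (rootAt ζr hζr0 i)).coeff (-((r * r : ℕ) : ℤ)) := by rw [heq]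
  rw [qExpand_rootAt_some_coeff, qExpand_coeff_neg_eq_zero_of_not_dvd] at hc
  · exact inv_ne_zero (pow_ne_zero _ hζp0) hc
  · intro hdvd
    have h1 : p ∣ r * r := dvd_trans (dvd_mul_right p p) hdvd
    have h2 : p ∣ r := by
      rcases (Nat.Prime.dvd_mul hp).mp h1 with h | h <;> exact h
    exact hpr ((Nat.prime_dvd_prime_iff_eq hp hr).mp h2)

end Gcd

section Main

variable (k : Type*) [Field k]

/-- **gcd lemma**: `j(q^{pr}) ∈ k(j(q^r), j(q^p))` for distinct primes `p, r` invertible
in `k`. -/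
theorem jpr_mem_adjoin {p r : ℕ} [NeZero p] [NeZero r]
    (hp : p.Prime) (hr : r.Prime) (hpr : p ≠ r) (hpk : (p : k) ≠ 0) (hrk : (r : k) ≠ 0)
    (Dp : ModPolyData p) (Dr : ModPolyData r) :
    qExpand k (p * r) (jqModC k) ∈
      IntermediateField.adjoin k
        ({qExpand k r (jqModC k), qExpand k p (jqModC k)} : Set (LaurentSeries k)) := by
  classical
  -- notation
  set E := IntermediateField.adjoin k
    ({qExpand k r (jqModC k), qExpand k p (jqModC k)} : Set (LaurentSeries k)) with hE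
  set x : LaurentSeries k := qExpand k (p * r) (jqModC k) with hx
  have hr_mem : qExpand k r (jqModC k) ∈ E :=
    IntermediateField.subset_adjoin k _ (Set.mem_insert _ _)
  have hp_mem : qExpand k p (jqModC k) ∈ E :=
    IntermediateField.subset_adjoin k _ (Set.mem_insert_of_mem _ rfl)
  let yr : E := ⟨_, hr_mem⟩
  let yp : E := ⟨_, hp_mem⟩
  let AE : Polynomial E := Dp.Φ.map (evZ yr)
  let BE : Polynomial E := Dr.Φ.map (evZ yp)
  have hAE_map : AE.map (algebraMap E (LaurentSeries k)) =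
      Dp.Φ.map (evZ (qExpand k r (jqModC k))) := map_map_evZ _ _ _
  have hBE_map : BE.map (algebraMap E (LaurentSeries k)) =
      Dr.Φ.map (evZ (qExpand k p (jqModC k))) := map_map_evZ _ _ _
  have hAx : Polynomial.aeval x AE = 0 := by
    rw [Polynomial.aeval_def, ← Polynomial.eval_map, hAE_map, Polynomial.eval_map, hx,
      qExpand_congr (mul_comm p r)]
    exact eval_jp_ring_qExpand k Dp r
  have hBx : Polynomial.aeval x BE = 0 := by
    rw [Polynomial.aeval_def, ← Polynomial.eval_map, hBE_map, Polynomial.eval_map, hx]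
    exact eval_jp_ring_qExpand k Dr p
  have hAE_monic : AE.Monic := Dp.monic.map _
  have hint : IsIntegral E x := ⟨AE, hAE_monic, by rwa [Polynomial.aeval_def] at hAx⟩
  have hμA : minpoly E x ∣ AE := minpoly.dvd E x hAx
  have hμB : minpoly E x ∣ BE := minpoly.dvd E x hBx
  -- roots of unity upstairs
  haveI : NeZero ((p : ℕ) : k) := ⟨hpk⟩
  haveI : NeZero ((r : ℕ) : k) := ⟨hrk⟩
  obtain ⟨ζp, hζp⟩ := HasEnoughRootsOfUnity.exists_primitiveRoot (AlgebraicClosure k) p
  obtain ⟨ζr, hζr⟩ := HasEnoughRootsOfUnity.exists_primitiveRoot (AlgebraicClosure k) r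
  have hζp0 : ζp ≠ 0 := hζp.ne_zero (NeZero.ne p)
  -- the embedding
  let φ : E →+* LaurentSeries (AlgebraicClosure k) :=
    (iotaE k (p * r)).comp (algebraMap E (LaurentSeries k))
  have hAφ : AE.map φ = Dp.Φ.map (evZ (qExpand (AlgebraicClosure k) (r * r * p)
      (jqModC (AlgebraicClosure k)))) := by
    rw [← Polynomial.map_map, hAE_map, map_map_evZ, iotaE_jd]
    rw [qExpand_congr (show p * r * r = r * r * p by ring)]
  have hBφ : BE.map φ = Dr.Φ.map (evZ (qExpand (AlgebraicClosure k) (p * p * r)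
      (jqModC (AlgebraicClosure k)))) := by
    rw [← Polynomial.map_map, hBE_map, map_map_evZ, iotaE_jd]
    rw [qExpand_congr (show p * r * p = p * p * r by ring)]
  have hcop := gcd_core hp hr hpr Dr ζp ζr hζp hζr
  rw [← hBφ] at hcop
  have hAfac : AE.map φ =
      (X - C (qExpand (AlgebraicClosure k) (r * r * (p * p)) (jqModC (AlgebraicClosure k)))) *
      ∏ b : Fin p, (X - C (qExpand (AlgebraicClosure k) (r * r) (rootAt ζp hζp0 (some b)))) := by
    rw [hAφ, map_eq_prod_rootAt_qExpand Dp hp.one_lt ζp hζp (r * r), Fintype.prod_option,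
      qExpand_rootAt_none]
  have hμφA : (minpoly E x).map φ ∣ AE.map φ := Polynomial.map_dvd φ hμA
  have hμφB : (minpoly E x).map φ ∣ BE.map φ := Polynomial.map_dvd φ hμB
  have hcop' : IsCoprime ((minpoly E x).map φ)
      (∏ b : Fin p, (X - C (qExpand (AlgebraicClosure k) (r * r) (rootAt ζp hζp0 (some b))))) :=
    IsCoprime.of_isCoprime_of_dvd_left hcop.symm hμφB
  rw [hAfac] at hμφA
  have hdvd := hcop'.dvd_of_dvd_mul_right hμφA
  have hdeg : (minpoly E x).natDegree ≤ 1 := by
    have h1 := Polynomial.natDegree_le_of_dvd hdvd (Polynomial.X_sub_C_ne_zero _)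
    rwa [Polynomial.natDegree_map, Polynomial.natDegree_X_sub_C] at h1
  have hpos : 0 < (minpoly E x).natDegree := minpoly.natDegree_pos hint
  have hone : (minpoly E x).natDegree = 1 := le_antisymm hdeg hpos
  obtain ⟨e, he⟩ := (minpoly.natDegree_eq_one_iff).mp hone
  rw [← he]
  exact e.2

/-- gcd lemma, after the substitution `q ↦ q^c`. -/
theorem jpr_mem_adjoin_qExpand {p r : ℕ} [NeZero p] [NeZero r]
    (hp : p.Prime) (hr : r.Prime) (hpr : p ≠ r) (hpk : (p : k) ≠ 0) (hrk : (r : k) ≠ 0)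
    (Dp : ModPolyData p) (Dr : ModPolyData r) (c : ℕ) [NeZero c] :
    qExpand k (c * (p * r)) (jqModC k) ∈
      IntermediateField.adjoin k
        ({qExpand k (c * r) (jqModC k), qExpand k (c * p) (jqModC k)} :
          Set (LaurentSeries k)) := by
  have h := jpr_mem_adjoin k hp hr hpr hpk hrk Dp Dr
  have h2 : qExpandAlgHomC k c (qExpand k (p * r) (jqModC k)) ∈
      (IntermediateField.adjoin k
        ({qExpand k r (jqModC k), qExpand k p (jqModC k)} : Set (LaurentSeries k))).map
        (qExpandAlgHomC k c) := ⟨_, h, rfl⟩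
  rw [IntermediateField.adjoin_map, qExpandAlgHomC_apply, qExpand_qExpand, Set.image_pair,
    qExpandAlgHomC_apply, qExpandAlgHomC_apply, qExpand_qExpand, qExpand_qExpand] at h2
  exact h2

end Main

end Fermat.Agent.S28.H208

end

end
-- ===== PACK-END S28/H208/Gcd.lean

-- ===== PACK-BEGIN S28/H208/Tower.lean
section
/-
S28 [L4]: the tower step.  For a field `k`, a level `M` and a prime `p` with `p * M`
invertible in `k`:  `E_{pM} = E_M(ξ)` with `ξ = j(q^{p·p^a})`, `p^a ∥ M`, and `ξ` is a root of a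
monic polynomial of degree `p + 1` (if `p ∤ M`) resp. `p` (if `p ∣ M`) over `E_M`.
-/






set_option autoImplicit false

noncomputable section

open ModularCurve Polynomial IntermediateField

namespace Fermat.Agent.S28.H208

section Numerics

/-- If `d ∣ p * M` but `d ∤ M`, then `d = p · p^a · e` with `p^a ∥ M` and `e ∣ M / p^a`. -/
theorem exists_eq_mul_of_dvd_of_not_dvd {p M d : ℕ} (hp : p.Prime)
    (hd : d ∣ p * M) (hnd : ¬ d ∣ M) :
    ∃ e, d = p * p ^ M.factorization p * e ∧ e ∣ M / p ^ M.factorization p := by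
  have hM : p ^ M.factorization p * (M / p ^ M.factorization p) = M :=
    Nat.ordProj_mul_ordCompl_eq_self M p
  have hpM : p * M = p ^ (M.factorization p + 1) * (M / p ^ M.factorization p) := by
    conv_lhs => rw [← hM]
    rw [pow_succ]
    ring
  rw [hpM] at hd
  obtain ⟨y, z, hy, hz, rfl⟩ := Nat.dvd_mul.mp hd
  obtain ⟨i, hi, rfl⟩ := (Nat.dvd_prime_pow hp).mp hy
  rcases Nat.lt_or_ge i (M.factorization p + 1) with hlt | hge
  · exfalso
    apply hnd
    rw [← hM]
    exact Nat.mul_dvd_mul (pow_dvd_pow p (Nat.lt_succ_iff.mp hlt)) hz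
  · have : i = M.factorization p + 1 := le_antisymm hi hge
    subst this
    exact ⟨z, by rw [pow_succ]; ring, hz⟩

theorem natCast_ne_zero_of_dvd {k : Type*} [Semiring k] {a b : ℕ} (hab : a ∣ b)
    (hb : (b : k) ≠ 0) : (a : k) ≠ 0 := by
  intro ha
  obtain ⟨c, rfl⟩ := hab
  apply hb
  rw [Nat.cast_mul, ha, zero_mul]

end Numerics

section Generation

variable (k : Type*) [Field k]

/-- The tower generator `ξ = j(q^{p · p^a})`, `p^a ∥ M`. -/
def towerGen (M p : ℕ) [NeZero p] : LaurentSeries k :=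
  qExpand k (p * p ^ M.factorization p) (jqModC k)

/-- The integral version of the tower generator. -/
def towerGenZ (M p : ℕ) [NeZero p] : LaurentSeries ℤ :=
  qExpand ℤ (p * p ^ M.factorization p) (jqModC ℤ)

theorem coeffMap_towerGenZ (M p : ℕ) [NeZero p] :
    coeffMap (Int.castRingHom k) (towerGenZ M p) = towerGen k M p :=
  coeffMap_int_jd k _

/-- The hypothesis: modular polynomials exist for all primes dividing `N`. -/
def HasModPoly (N : ℕ) : Prop :=
  ∀ (r : ℕ) [NeZero r], r.Prime → r ∣ N → Nonempty (ModPolyData r)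

theorem HasModPoly.of_dvd {M N : ℕ} (h : HasModPoly N) (hMN : M ∣ N) : HasModPoly M :=
  fun r _ hr hrM => h r hr (hrM.trans hMN)

variable {k}

theorem jd_mem_full {M d : ℕ} [NeZero d] (hd : d ∣ M) :
    qExpand k d (jqModC k) ∈ modularFunctionFieldFullC k M :=
  jqModCd_mem_full k M hd

/-- Auxiliary: all `j(q^{p p^a e})`, `e ∣ M / p^a`, lie in `E_M(ξ)`. -/
theorem jd_mem_adjoin_aux (M p : ℕ) [NeZero M] [NeZero p] (hp : p.Prime)
    (hk : ((p * M : ℕ) : k) ≠ 0) (hΦ : HasModPoly (p * M)) :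
    ∀ (e : ℕ) [NeZero e], e ∣ M / p ^ M.factorization p →
      qExpand k (p * p ^ M.factorization p * e) (jqModC k) ∈
        (IntermediateField.adjoin (modularFunctionFieldFullC k M)
          ({towerGen k M p} : Set (LaurentSeries k))) := by
  intro e
  induction e using Nat.strong_induction_on with
  | _ e ih =>
    intro _ he
    have hM0 : M ≠ 0 := NeZero.ne M
    have hMfac : p ^ M.factorization p * (M / p ^ M.factorization p) = M :=
      Nat.ordProj_mul_ordCompl_eq_self M p
    rcases eq_or_ne e 1 with rfl | he1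
    · rw [qExpand_congr (mul_one _)]
      exact IntermediateField.mem_adjoin_simple_self _ _
    · -- a prime factor `r ≠ p` of `e`
      obtain ⟨r, hr, hre⟩ : ∃ r : ℕ, r.Prime ∧ r ∣ e :=
        ⟨e.minFac, Nat.minFac_prime he1, Nat.minFac_dvd e⟩
      obtain ⟨e', he'⟩ := hre
      have he0 : e ≠ 0 := NeZero.ne e
      have he'0 : e' ≠ 0 := by
        rintro rfl
        rw [mul_zero] at he'
        exact he0 he'
      haveI : NeZero e' := ⟨he'0⟩
      haveI : NeZero r := ⟨hr.ne_zero⟩
      have he'lt : e' < e := by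
        have h2 := hr.two_le
        calc e' < r * e' := by nlinarith [Nat.pos_of_ne_zero he'0]
          _ = e := he'.symm
      have he'dvd : e' ∣ M / p ^ M.factorization p :=
        (Dvd.intro_left _ he'.symm).trans he
      have hrM' : r ∣ M / p ^ M.factorization p := (Dvd.intro _ he'.symm).trans he
      have hrp : p ≠ r := by
        intro h
        rw [← h] at hrM'
        exact Nat.not_dvd_ordCompl hp hM0 hrM'
      have hrdvd : r ∣ p * M := by
        have h2 : M / p ^ M.factorization p ∣ M := Dvd.intro_left _ hMfac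
        exact (hrM'.trans h2).trans (Dvd.intro_left _ rfl)
      have hpk : (p : k) ≠ 0 := natCast_ne_zero_of_dvd (Dvd.intro _ rfl) hk
      have hrk : (r : k) ≠ 0 := natCast_ne_zero_of_dvd hrdvd hk
      obtain ⟨Dp⟩ := hΦ p hp (Dvd.intro _ rfl)
      obtain ⟨Dr⟩ := hΦ r hr hrdvd
      -- the gcd lemma with `c = p^a * e'`
      have hgcd := jpr_mem_adjoin_qExpand k hp hr hrp hpk hrk Dp Dr
        (p ^ M.factorization p * e')
      have hidx : p ^ M.factorization p * e' * (p * r) =
          p * p ^ M.factorization p * e := by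
        rw [he']; ring
      rw [qExpand_congr hidx] at hgcd
      -- both generators lie in `E_M(ξ)`
      have h1 : qExpand k (p ^ M.factorization p * e' * r) (jqModC k) ∈
          (IntermediateField.adjoin (modularFunctionFieldFullC k M)
            ({towerGen k M p} : Set (LaurentSeries k))) := by
        have hdvd : p ^ M.factorization p * e' * r ∣ M := by
          have : p ^ M.factorization p * e' * r = p ^ M.factorization p * e := by
            rw [he']; ring
          rw [this]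
          conv_rhs => rw [← hMfac]
          exact Nat.mul_dvd_mul_left _ he
        have hmem := jd_mem_full (k := k) hdvd
        exact (IntermediateField.adjoin (modularFunctionFieldFullC k M)
            ({towerGen k M p} : Set (LaurentSeries k))).algebraMap_mem ⟨_, hmem⟩
      have h2 : qExpand k (p ^ M.factorization p * e' * p) (jqModC k) ∈
          (IntermediateField.adjoin (modularFunctionFieldFullC k M)
            ({towerGen k M p} : Set (LaurentSeries k))) := by
        have := ih e' he'lt he'dvd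
        rwa [qExpand_congr (show p ^ M.factorization p * e' * p =
          p * p ^ M.factorization p * e' by ring)]
      have hle : IntermediateField.adjoin k
          ({qExpand k (p ^ M.factorization p * e' * r) (jqModC k),
            qExpand k (p ^ M.factorization p * e' * p) (jqModC k)} : Set (LaurentSeries k)) ≤
          (IntermediateField.adjoin (modularFunctionFieldFullC k M)
            ({towerGen k M p} : Set (LaurentSeries k))).restrictScalars k := by
        rw [IntermediateField.adjoin_le_iff]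
        rintro y (rfl | rfl)
        · exact h1
        · exact h2
      exact hle hgcd

/-- **Generation**: every `j(q^d)`, `d ∣ p * M`, lies in `E_M(ξ)`. -/
theorem jd_mem_adjoin_tower (M p : ℕ) [NeZero M] [NeZero p] (hp : p.Prime)
    (hk : ((p * M : ℕ) : k) ≠ 0) (hΦ : HasModPoly (p * M))
    (d : ℕ) [NeZero d] (hd : d ∣ p * M) :
    qExpand k d (jqModC k) ∈
      (IntermediateField.adjoin (modularFunctionFieldFullC k M)
        ({towerGen k M p} : Set (LaurentSeries k))) := by
  by_cases hdM : d ∣ M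
  · exact (IntermediateField.adjoin (modularFunctionFieldFullC k M)
      ({towerGen k M p} : Set (LaurentSeries k))).algebraMap_mem ⟨_, jd_mem_full hdM⟩
  · obtain ⟨e, hde, he⟩ := exists_eq_mul_of_dvd_of_not_dvd hp hd hdM
    have he0 : e ≠ 0 := by
      rintro rfl
      rw [mul_zero] at hde
      exact NeZero.ne d hde
    haveI : NeZero e := ⟨he0⟩
    rw [qExpand_congr hde]
    exact jd_mem_adjoin_aux M p hp hk hΦ e he

/-- `E_{pM} ≤ E_M(ξ)`. -/
theorem full_le_adjoin_tower (M p : ℕ) [NeZero M] [NeZero p] (hp : p.Prime)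
    (hk : ((p * M : ℕ) : k) ≠ 0) (hΦ : HasModPoly (p * M)) :
    modularFunctionFieldFullC k (p * M) ≤
      (IntermediateField.adjoin (modularFunctionFieldFullC k M)
        ({towerGen k M p} : Set (LaurentSeries k))).restrictScalars k := by
  rw [modularFunctionFieldFullC, IntermediateField.adjoin_le_iff]
  rintro y ⟨d, hd0, hd, rfl⟩
  exact jd_mem_adjoin_tower M p hp hk hΦ d hd

end Generation

end Fermat.Agent.S28.H208

end

end
-- ===== PACK-END S28/H208/Tower.lean

-- ===== PACK-BEGIN S28/H208/Span.lean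
section
/-
S28 [L4] = [L.UP]: spanning monomials, uniform in the field `k`.

`exists_spanning_monomials`: from `ModPolyData r` for the primes `r ∣ N` one gets
`dedekindPsi N` monomials in the `j(q^d)`, `d ∣ N` (defined over `ℤ`), whose images span
`k(j(q^d) : d ∣ N)` over `k(j)` for EVERY field `k` in which `N` is invertible.
-/







set_option autoImplicit false

noncomputable section

open ModularCurve Polynomial IntermediateField

namespace Fermat.Agent.S28.H208

/-! ### Arithmetic of `dedekindPsi` (copied from helper872, `Fermat.Agent.S20.H872`) -/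

section Psi

theorem psi_mul_prime_of_dvd {N p : ℕ} (hN : N ≠ 0) (hp : p.Prime) (hpN : p ∣ N) :
    ModularCurve.dedekindPsi (N * p) = p * ModularCurve.dedekindPsi N := by
  unfold ModularCurve.dedekindPsi
  have hset : (N * p).divisors.filter Squarefree = N.divisors.filter Squarefree := by
    ext d
    simp only [Finset.mem_filter, Nat.mem_divisors]
    constructor
    · rintro ⟨⟨hd, _⟩, hsq⟩
      refine ⟨⟨?_, hN⟩, hsq⟩
      have h2 : d ∣ N ^ 2 := by
        rw [pow_two]
        exact hd.trans (mul_dvd_mul_left N hpN)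
      exact (hsq.dvd_pow_iff_dvd two_ne_zero).1 h2
    · rintro ⟨⟨hd, _⟩, hsq⟩
      exact ⟨⟨hd.mul_right p, mul_ne_zero hN hp.ne_zero⟩, hsq⟩
  rw [hset, Finset.mul_sum]
  refine Finset.sum_congr rfl fun d hd => ?_
  have hdN : d ∣ N := (Nat.mem_divisors.1 (Finset.mem_filter.1 hd).1).1
  obtain ⟨e, rfl⟩ := hdN
  have hd0 : 0 < d := Nat.pos_of_ne_zero (by rintro rfl; simp at hN)
  rw [mul_assoc, Nat.mul_div_cancel_left _ hd0, Nat.mul_div_cancel_left _ hd0, mul_comm]

theorem psi_mul_prime_of_not_dvd {N p : ℕ} (hN : N ≠ 0) (hp : p.Prime) (hpN : ¬ p ∣ N) :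
    ModularCurve.dedekindPsi (N * p) = (p + 1) * ModularCurve.dedekindPsi N := by
  unfold ModularCurve.dedekindPsi
  have hcop : ∀ d, d ∣ N → Nat.Coprime d p := fun d hd =>
    (Nat.Coprime.symm ((Nat.Prime.coprime_iff_not_dvd hp).2 fun h => hpN (h.trans hd)))
  have hset : (N * p).divisors.filter Squarefree
      = (N.divisors.filter Squarefree) ∪ (N.divisors.filter Squarefree).image (· * p) := by
    ext d
    simp only [Finset.mem_filter, Nat.mem_divisors, Finset.mem_union, Finset.mem_image]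
    constructor
    · rintro ⟨⟨hd, _⟩, hsq⟩
      by_cases hpd : p ∣ d
      · right
        obtain ⟨e, rfl⟩ := hpd
        refine ⟨e, ⟨⟨?_, hN⟩, hsq.squarefree_of_dvd (Dvd.intro_left p rfl)⟩, mul_comm e p⟩
        rw [mul_comm p e] at hd
        exact Nat.dvd_of_mul_dvd_mul_right hp.pos hd
      · left
        refine ⟨⟨?_, hN⟩, hsq⟩
        have : Nat.Coprime d p := (Nat.Coprime.symm ((Nat.Prime.coprime_iff_not_dvd hp).2 hpd))
        exact this.dvd_of_dvd_mul_right hd
    · rintro (⟨⟨hd, _⟩, hsq⟩ | ⟨e, ⟨⟨he, _⟩, hsq⟩, rfl⟩)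
      · exact ⟨⟨hd.mul_right p, mul_ne_zero hN hp.ne_zero⟩, hsq⟩
      · refine ⟨⟨mul_dvd_mul_right he p, mul_ne_zero hN hp.ne_zero⟩, ?_⟩
        exact (Nat.squarefree_mul (hcop e he)).2 ⟨hsq, hp.squarefree⟩
  have hdisj : Disjoint (N.divisors.filter Squarefree)
      ((N.divisors.filter Squarefree).image (· * p)) := by
    rw [Finset.disjoint_left]
    intro d hd hd'
    simp only [Finset.mem_filter, Nat.mem_divisors, Finset.mem_image] at hd hd'
    obtain ⟨e, _, rfl⟩ := hd'
    exact hpN ((Dvd.intro_left e rfl).trans hd.1.1)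
  rw [hset, Finset.sum_union hdisj, Finset.sum_image, add_mul, one_mul, Finset.mul_sum]
  · congr 1
    · refine Finset.sum_congr rfl fun d hd => ?_
      have hdN : d ∣ N := (Nat.mem_divisors.1 (Finset.mem_filter.1 hd).1).1
      obtain ⟨e, rfl⟩ := hdN
      have hd0 : 0 < d := Nat.pos_of_ne_zero (by rintro rfl; simp at hN)
      rw [mul_assoc, Nat.mul_div_cancel_left _ hd0, Nat.mul_div_cancel_left _ hd0, mul_comm]
    · refine Finset.sum_congr rfl fun d hd => ?_
      exact Nat.mul_div_mul_right N d hp.pos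
  · intro a _ b _ hab
    exact Nat.eq_of_mul_eq_mul_right hp.pos hab

/-- The degree of the tower step `M → p * M`. -/
def stepDeg (M p : ℕ) : ℕ := if p ∣ M then p else p + 1

theorem stepDeg_pos (M p : ℕ) (hp : p.Prime) : 0 < stepDeg M p := by
  unfold stepDeg
  split_ifs
  · exact hp.pos
  · exact Nat.succ_pos p

theorem psi_mul_stepDeg {M p : ℕ} (hM : M ≠ 0) (hp : p.Prime) :
    ModularCurve.dedekindPsi M * stepDeg M p = ModularCurve.dedekindPsi (p * M) := by
  unfold stepDeg
  rw [mul_comm p M]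
  split_ifs with h
  · rw [psi_mul_prime_of_dvd hM hp h, mul_comm]
  · rw [psi_mul_prime_of_not_dvd hM hp h, mul_comm]

end Psi

/-! ### Integrality of the tower generator, with degree -/

section Integral

variable {k : Type*} [Field k]

theorem towerGen_ne {M p : ℕ} [NeZero p] (hp : p.Prime) (a' : ℕ)
    (ha : M.factorization p = a' + 1) :
    towerGen k M p ≠ qExpand k (p ^ a') (jqModC k) := by
  intro h
  have h1 : (towerGen k M p).coeff (-((p * p ^ M.factorization p : ℕ) : ℤ)) = 1 :=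
    coeff_jd_neg k _
  rw [h, coeff_jd_of_lt] at h1
  · exact zero_ne_one h1
  · rw [ha]
    have hp2 := hp.two_le
    have hpos : 0 < p ^ a' := pow_pos hp.pos a'
    have h4 : 4 ≤ p * p := Nat.mul_le_mul hp2 hp2
    have h5 := Nat.mul_le_mul_left (p ^ a') h4
    have : p ^ a' < p * p ^ (a' + 1) := by
      rw [pow_succ]
      nlinarith
    exact_mod_cast neg_lt_neg (by exact_mod_cast this : ((p ^ a' : ℕ) : ℤ) < (p * p ^ (a' + 1) : ℕ))

theorem exists_monic_towerGen (M p : ℕ) [NeZero M] [NeZero p] (hp : p.Prime)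
    (Dp : ModPolyData p) :
    ∃ Q : Polynomial (modularFunctionFieldFullC k M), Q.Monic ∧
      Q.natDegree = stepDeg M p ∧ Polynomial.aeval (towerGen k M p) Q = 0 := by
  have hM0 : M ≠ 0 := NeZero.ne M
  by_cases hpM : p ∣ M
  · -- old prime: divide by the known root
    obtain ⟨a', ha⟩ : ∃ a', M.factorization p = a' + 1 :=
      Nat.exists_eq_succ_of_ne_zero (hp.factorization_pos_of_dvd hM0 hpM).ne'
    have hP0 : p ^ (a' + 1) ∣ M := by
      rw [← ha]; exact Nat.ordProj_dvd M p
    have hP1 : p ^ a' ∣ M := (pow_dvd_pow p (Nat.le_succ a')).trans hP0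
    let y₀ : modularFunctionFieldFullC k M := ⟨qExpand k (p ^ (a' + 1)) (jqModC k), jd_mem_full hP0⟩
    let y₁ : modularFunctionFieldFullC k M := ⟨qExpand k (p ^ a') (jqModC k), jd_mem_full hP1⟩
    let Φ' : Polynomial (modularFunctionFieldFullC k M) := Dp.Φ.map (evZ y₀)
    have hΦ'monic : Φ'.Monic := Dp.monic.map _
    have hΦ'deg : Φ'.natDegree = p + 1 := by
      rw [Dp.monic.natDegree_map, Dp.natDegree_eq]
    have hΦ'map : Φ'.map (algebraMap (modularFunctionFieldFullC k M) (LaurentSeries k)) =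
        Dp.Φ.map (evZ (qExpand k (p ^ (a' + 1)) (jqModC k))) := map_map_evZ _ _ _
    have hroot : Φ'.IsRoot y₁ := by
      rw [Polynomial.IsRoot]
      apply (algebraMap (modularFunctionFieldFullC k M) (LaurentSeries k)).injective
      rw [map_zero, ← Polynomial.eval_map_apply, hΦ'map, Polynomial.eval_map]
      have h := eval_j_ring_qExpand k Dp (p ^ a')
      rw [qExpand_congr (pow_succ p a').symm] at h
      exact h
    have hfac : (X - C y₁) * (Φ' /ₘ (X - C y₁)) = Φ' :=
      Polynomial.mul_divByMonic_eq_iff_isRoot.mpr hroot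
    refine ⟨Φ' /ₘ (X - C y₁), ?_, ?_, ?_⟩
    · exact Polynomial.Monic.of_mul_monic_left (Polynomial.monic_X_sub_C y₁)
        (by rw [hfac]; exact hΦ'monic)
    · rw [Polynomial.natDegree_divByMonic _ (Polynomial.monic_X_sub_C y₁), hΦ'deg,
        Polynomial.natDegree_X_sub_C, stepDeg, if_pos hpM]
      rfl
    · have hΦ'ξ : Polynomial.aeval (towerGen k M p) Φ' = 0 := by
        have hξ : towerGen k M p = qExpand k (p ^ (a' + 1) * p) (jqModC k) :=
          qExpand_congr (by rw [ha]; ring) _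
        rw [Polynomial.aeval_def, ← Polynomial.eval_map, hΦ'map, Polynomial.eval_map, hξ]
        exact eval_jp_ring_qExpand k Dp (p ^ (a' + 1))
      rw [← hfac, map_mul, map_sub, Polynomial.aeval_X, Polynomial.aeval_C] at hΦ'ξ
      rcases mul_eq_zero.mp hΦ'ξ with h | h
      · exact absurd (sub_eq_zero.mp h) (towerGen_ne hp a' ha)
      · exact h
  · -- new prime
    have ha : M.factorization p = 0 := Nat.factorization_eq_zero_of_not_dvd hpM
    let y₀ : modularFunctionFieldFullC k M := ⟨jqModC k, jqModC_mem_full k M⟩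
    refine ⟨Dp.Φ.map (evZ y₀), Dp.monic.map _, ?_, ?_⟩
    · rw [Dp.monic.natDegree_map, Dp.natDegree_eq, stepDeg, if_neg hpM]
    · have hmap : (Dp.Φ.map (evZ y₀)).map
          (algebraMap (modularFunctionFieldFullC k M) (LaurentSeries k)) =
          Dp.Φ.map (evZ (jqModC k)) := map_map_evZ _ _ _
      have hξ : towerGen k M p = qExpand k p (jqModC k) :=
        qExpand_congr (by rw [ha]; simp) _
      rw [Polynomial.aeval_def, ← Polynomial.eval_map, hmap, Polynomial.eval_map, hξ]
      exact eval_jp_ring k Dp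

end Integral

/-! ### The spanning step -/

section SpanStep

variable {k : Type*} [Field k]

theorem mul_mem_span_of_mem_span {ι : Type*} (y : ι → LaurentSeries k) (w : LaurentSeries k)
    {z : LaurentSeries k} (hz : z ∈ Submodule.span (jField k) (Set.range y)) :
    z * w ∈ Submodule.span (jField k) (Set.range fun i => y i * w) := by
  induction hz using Submodule.span_induction with
  | mem x hx =>
    obtain ⟨i, rfl⟩ := hx
    exact Submodule.subset_span ⟨i, rfl⟩
  | zero => rw [zero_mul]; exact Submodule.zero_mem _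
  | add x y _ _ hx hy => rw [add_mul]; exact Submodule.add_mem _ hx hy
  | smul c x _ hx => rw [smul_mul_assoc]; exact Submodule.smul_mem _ c hx

theorem span_step (M p : ℕ) [NeZero M] [NeZero p] (hp : p.Prime)
    (hk : ((p * M : ℕ) : k) ≠ 0) (hΦ : HasModPoly (p * M))
    {n : ℕ} (y : Fin n → LaurentSeries k)
    (hy : ∀ z ∈ modularFunctionFieldFullC k M, z ∈ Submodule.span (jField k) (Set.range y)) :
    ∀ x ∈ modularFunctionFieldFullC k (p * M),
      x ∈ Submodule.span (jField k)
        (Set.range fun t : Fin n × Fin (stepDeg M p) => y t.1 * towerGen k M p ^ (t.2 : ℕ)) := by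
  intro x hx
  obtain ⟨Dp⟩ := hΦ p hp (Dvd.intro _ rfl)
  obtain ⟨Q, hQmonic, hQdeg, hQξ⟩ := exists_monic_towerGen (k := k) M p hp Dp
  have hint : IsIntegral (modularFunctionFieldFullC k M) (towerGen k M p) :=
    ⟨Q, hQmonic, by rwa [Polynomial.aeval_def] at hQξ⟩
  have hx' : x ∈ (IntermediateField.adjoin (modularFunctionFieldFullC k M)
      ({towerGen k M p} : Set (LaurentSeries k))) := full_le_adjoin_tower M p hp hk hΦ hx
  have hx'' : x ∈ (IntermediateField.adjoin (modularFunctionFieldFullC k M)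
      ({towerGen k M p} : Set (LaurentSeries k))).toSubalgebra := hx'
  rw [IntermediateField.adjoin_simple_toSubalgebra_of_isAlgebraic hint.isAlgebraic,
    Algebra.adjoin_singleton_eq_range_aeval] at hx''
  obtain ⟨f, rfl⟩ := hx''
  have hQ1 : Q ≠ 1 := by
    intro h
    have := stepDeg_pos M p hp
    rw [← hQdeg, h, Polynomial.natDegree_one] at this
    exact lt_irrefl _ this
  have hdeg : (f %ₘ Q).natDegree < stepDeg M p := by
    rw [← hQdeg]
    exact Polynomial.natDegree_modByMonic_lt f hQmonic hQ1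
  have hf : Polynomial.aeval (towerGen k M p) f = Polynomial.aeval (towerGen k M p) (f %ₘ Q) :=
    (Polynomial.aeval_modByMonic_eq_self_of_root hQξ).symm
  show Polynomial.aeval (towerGen k M p) f ∈ _
  rw [hf, Polynomial.aeval_eq_sum_range' hdeg]
  refine Submodule.sum_mem _ fun m hm => ?_
  have hm' : m < stepDeg M p := Finset.mem_range.mp hm
  have hc : (((f %ₘ Q).coeff m : modularFunctionFieldFullC k M) : LaurentSeries k) ∈
      Submodule.span (jField k) (Set.range y) := hy _ ((f %ₘ Q).coeff m).2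
  have h1 := mul_mem_span_of_mem_span y (towerGen k M p ^ m) hc
  have h2 : Submodule.span (jField k) (Set.range fun i => y i * towerGen k M p ^ m) ≤
      Submodule.span (jField k)
        (Set.range fun t : Fin n × Fin (stepDeg M p) => y t.1 * towerGen k M p ^ (t.2 : ℕ)) := by
    apply Submodule.span_mono
    rintro _ ⟨i, rfl⟩
    exact ⟨(i, ⟨m, hm'⟩), rfl⟩
  have h3 : ((f %ₘ Q).coeff m) • (towerGen k M p ^ m) =
      (((f %ₘ Q).coeff m : modularFunctionFieldFullC k M) : LaurentSeries k) *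
        towerGen k M p ^ m := by
    rw [Algebra.smul_def]
    rfl
  rw [h3]
  exact h2 h1

end SpanStep

/-! ### The main theorem -/

section Main

theorem intDivisorExpansions_mono {M N : ℕ} (h : M ∣ N) :
    intDivisorExpansions M ⊆ intDivisorExpansions N := by
  rintro x ⟨d, hd0, hd, rfl⟩
  exact ⟨d, hd0, hd.trans h, rfl⟩

/-- **Spanning monomials, uniform in `k`.** -/
theorem exists_spanning_monomials (N : ℕ) (hN : N ≠ 0) (hΦ : HasModPoly N) :
    ∃ (n : ℕ) (y : Fin n → LaurentSeries ℤ), n = dedekindPsi N ∧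
      (∀ i, y i ∈ Subring.closure (intDivisorExpansions N)) ∧
      ∀ (k : Type) [Field k], (N : k) ≠ 0 →
        ∀ x ∈ modularFunctionFieldFullC k N,
          x ∈ Submodule.span (jField k)
            (Set.range fun i => coeffMap (Int.castRingHom k) (y i)) := by
  induction N using induction_on_primes with
  | zero => exact absurd rfl hN
  | one =>
    refine ⟨1, fun _ => 1, dedekindPsi_one.symm, fun _ => Subring.one_mem _, ?_⟩
    intro k _ _ x hx
    have hle : modularFunctionFieldFullC k 1 ≤ jField k := by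
      rw [modularFunctionFieldFullC, IntermediateField.adjoin_le_iff]
      rintro _ ⟨d, hd0, hd, rfl⟩
      have hd1 : d = 1 := Nat.dvd_one.mp hd
      subst hd1
      rw [qExpand_one_apply]
      exact IntermediateField.subset_adjoin k _ rfl
    have hxj : x ∈ jField k := hle hx
    have h1 : (1 : LaurentSeries k) ∈ Submodule.span (jField k)
        (Set.range fun _ : Fin 1 => coeffMap (Int.castRingHom k) (1 : LaurentSeries ℤ)) := by
      apply Submodule.subset_span
      exact ⟨0, map_one _⟩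
    have h2 := Submodule.smul_mem _ (⟨x, hxj⟩ : jField k) h1
    have h3 : (⟨x, hxj⟩ : jField k) • (1 : LaurentSeries k) = x := by
      rw [Algebra.smul_def, mul_one]
      rfl
    rwa [h3] at h2
  | prime_mul p M hp ih =>
    have hM : M ≠ 0 := fun h => hN (by rw [h, mul_zero])
    haveI : NeZero M := ⟨hM⟩
    haveI : NeZero p := ⟨hp.ne_zero⟩
    obtain ⟨n, y, hn, hcl, hspan⟩ := ih hM (hΦ.of_dvd (Dvd.intro_left _ rfl))
    refine ⟨n * stepDeg M p,
      fun t => y (finProdFinEquiv.symm t).1 * towerGenZ M p ^ ((finProdFinEquiv.symm t).2 : ℕ),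
      ?_, ?_, ?_⟩
    · rw [hn, psi_mul_stepDeg hM hp]
    · intro t
      refine Subring.mul_mem _ ?_ (Subring.pow_mem _ ?_ _)
      · exact Subring.closure_mono (intDivisorExpansions_mono (Dvd.intro_left _ rfl)) (hcl _)
      · apply Subring.subset_closure
        refine ⟨p * p ^ M.factorization p, inferInstance, ?_, rfl⟩
        exact Nat.mul_dvd_mul_left p (Nat.ordProj_dvd M p)
    · intro k _ hk x hx
      have hkM : (M : k) ≠ 0 := natCast_ne_zero_of_dvd (Dvd.intro_left _ rfl) hk
      have h := span_step (k := k) M p hp hk hΦ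
        (fun i => coeffMap (Int.castRingHom k) (y i)) (hspan k hkM) x hx
      refine Submodule.span_mono ?_ h
      rintro _ ⟨t, rfl⟩
      refine ⟨finProdFinEquiv t, ?_⟩
      simp only [Equiv.symm_apply_apply, map_mul, map_pow, coeffMap_towerGenZ]

end Main

end Fermat.Agent.S28.H208

end

end
-- ===== PACK-END S28/H208/Span.lean

-- ===== PACK-BEGIN S28/H208/Upper.lean
section
/-
S28 [L.UP], consumer forms:
* `integral_jd` : every `j(q^d)`, `d ∣ N`, is integral over `ℤ[j]`  (`CoreData.integral`);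
* `card_le_dedekindPsi` : a `k(j)`-linearly independent family in `k(j(q^d) : d ∣ N)` has at most
  `dedekindPsi N` elements (any field `k` with `N` invertible);
* `upper_bound_rat` : the same over `ℚ`, in the shape `hU` of `H325.coreData_of_bounds`.
-/








set_option autoImplicit false

noncomputable section

open ModularCurve Polynomial IntermediateField

namespace Fermat.Agent.S28.H208

/-! ### Integrality of the `j(q^d)` over `ℤ[j]` -/

section Integral

/-- One integrality step: if `y` is integral over `ℤ[j]` (via `f`) and `x` is a root of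
`Φ(X, y)` with `Φ` monic, then `x` is integral over `ℤ[j]`. -/
theorem isIntegralElem_of_root {A : Type*} [CommRing A] (f : Polynomial ℤ →+* A)
    (Φ : Polynomial (Polynomial ℤ)) (hΦ : Φ.Monic) (x y : A)
    (hy : f.IsIntegralElem y) (hx : Φ.eval₂ (evZ y) x = 0) : f.IsIntegralElem x := by
  letI : Algebra (Polynomial ℤ) A := f.toAlgebra
  have hy' : IsIntegral (Polynomial ℤ) y := hy
  let S := integralClosure (Polynomial ℤ) A
  let yS : S := ⟨y, hy'⟩
  have hcomp : (algebraMap S A).comp (evZ yS) = evZ y := evZ_comp _ _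
  have hxS : IsIntegral S x := by
    refine ⟨Φ.map (evZ yS), hΦ.map _, ?_⟩
    rw [Polynomial.eval₂_map, hcomp]
    exact hx
  exact isIntegral_trans x hxS

theorem integral_jd_aux (d : ℕ) :
    ∀ [NeZero d], HasModPoly d →
      (evalAt (jqModC ℤ)).IsIntegralElem (qExpand ℤ d (jqModC ℤ)) := by
  induction d using induction_on_primes with
  | zero => intro h; exact absurd rfl (NeZero.ne (0 : ℕ))
  | one =>
    intro _ _
    refine ⟨Polynomial.X - Polynomial.C Polynomial.X, Polynomial.monic_X_sub_C _, ?_⟩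
    rw [Polynomial.eval₂_sub, Polynomial.eval₂_X, Polynomial.eval₂_C, qExpand_one_apply]
    simp [evalAt]
  | prime_mul p M hp ih =>
    intro _ hΦ
    have hM : M ≠ 0 := fun h => NeZero.ne (p * M) (by rw [h, mul_zero])
    haveI : NeZero M := ⟨hM⟩
    haveI : NeZero p := ⟨hp.ne_zero⟩
    obtain ⟨Dp⟩ := hΦ p hp (Dvd.intro _ rfl)
    have hy := ih (hΦ.of_dvd (Dvd.intro_left _ rfl))
    have hx := eval_jp_ring_qExpand ℤ Dp M
    rw [qExpand_congr (mul_comm M p)] at hx
    exact isIntegralElem_of_root _ Dp.Φ Dp.monic _ _ hy hx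

/-- **Integrality** of `j(q^d)` over `ℤ[j]` (the field `integral` of `CoreData`). -/
theorem integral_jd (N : ℕ) (hΦ : HasModPoly N) (d : ℕ) [NeZero d] (hd : d ∣ N) :
    ∃ P : Polynomial (Polynomial ℤ), P.Monic ∧
      P.eval₂ (evalAt (jqModC ℤ)) (qExpand ℤ d (jqModC ℤ)) = 0 :=
  integral_jd_aux d (hΦ.of_dvd hd)

end Integral

/-! ### The upper bound in "independent families are small" form -/

section Upper

theorem card_le_of_span {k : Type*} [Field k] {n m : ℕ} (y : Fin n → LaurentSeries k)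
    (x : Fin m → LaurentSeries k)
    (hx : ∀ i, x i ∈ Submodule.span (jField k) (Set.range y))
    (hli : LinearIndependent (jField k) x) : m ≤ n := by
  haveI : Module.Finite (jField k) (Submodule.span (jField k) (Set.range y)) :=
    Module.Finite.span_of_finite _ (Set.finite_range y)
  have hli' : LinearIndependent (jField k)
      (fun i => (⟨x i, hx i⟩ : Submodule.span (jField k) (Set.range y))) := by
    apply LinearIndependent.of_comp (Submodule.span (jField k) (Set.range y)).subtype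
    exact hli
  have h1 := hli'.fintype_card_le_finrank
  have h2 := finrank_range_le_card (R := jField k) y
  rw [Fintype.card_fin] at h1 h2
  exact h1.trans h2

/-- **Upper bound**, any field `k` (of type `Type`) in which `N` is invertible. -/
theorem card_le_dedekindPsi (N : ℕ) (hN : N ≠ 0) (hΦ : HasModPoly N) (k : Type) [Field k]
    (hk : (N : k) ≠ 0) (m : ℕ) (x : Fin m → LaurentSeries k)
    (hx : ∀ i, x i ∈ modularFunctionFieldFullC k N)
    (hli : LinearIndependent (jField k) x) : m ≤ dedekindPsi N := by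
  obtain ⟨n, y, hn, -, hspan⟩ := exists_spanning_monomials N hN hΦ
  rw [← hn]
  exact card_le_of_span _ x (fun i => hspan k hk _ (hx i)) hli

/-- **Upper bound over `ℚ`**, in the shape of the hypothesis `hU` of
`H325.coreData_of_bounds`. -/
theorem upper_bound_rat (N : ℕ) [NeZero N] (hΦ : HasModPoly N) :
    ∀ (m : ℕ) (x : Fin m → LaurentSeries ℚ), (∀ i, x i ∈ modularFunctionFieldFull N) →
      LinearIndependent (jField ℚ) x → m ≤ dedekindPsi N := by
  intro m x hx hli
  have hk : ((N : ℕ) : ℚ) ≠ 0 := Nat.cast_ne_zero.mpr (NeZero.ne N)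
  exact card_le_dedekindPsi N (NeZero.ne N) hΦ ℚ hk m x hx hli

/-- `HasModPoly N` from the analytic stub. -/
theorem hasModPoly_of_nonempty
    (h : ∀ (p : ℕ) [NeZero p], p.Prime → Nonempty (ModPolyData p)) (N : ℕ) : HasModPoly N :=
  fun r _ hr _ => h r hr

end Upper

end Fermat.Agent.S28.H208

end

end
-- ===== PACK-END S28/H208/Upper.lean

-- ===== PACK-BEGIN S18/H754/KummerTransfer.lean
section


/-!
# S18 / Route K / étale Kummer cover: transfer between `B` and its localisation `R = B_𝔪`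
-/

set_option autoImplicit false

noncomputable section

namespace Fermat.Agent.S18.H754

open Polynomial IsLocalRing

section Transfer

variable {B : Type*} [CommRing B] [IsDomain B]
  (𝔪 : Ideal B) [h𝔪 : 𝔪.IsPrime]
  (R : Type*) [CommRing R] [Algebra B R] [IsLocalization.AtPrime R 𝔪]

include h𝔪 in
lemma algebraMap_loc_injective : Function.Injective (algebraMap B R) :=
  IsLocalization.injective R 𝔪.primeCompl_le_nonZeroDivisors

lemma disjoint_primeCompl_span {ϖ : B} (hϖ𝔪 : ϖ ∈ 𝔪) :
    Disjoint (𝔪.primeCompl : Set B) (Ideal.span {ϖ} : Ideal B) := by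
  rw [Set.disjoint_left]
  intro x hx hx'
  apply hx
  have h : Ideal.span {ϖ} ≤ 𝔪 := (Ideal.span_singleton_le_iff_mem _).2 hϖ𝔪
  exact h hx'

lemma span_map_singleton (ϖ : B) :
    Ideal.span {algebraMap B R ϖ} = Ideal.map (algebraMap B R) (Ideal.span {ϖ}) := by
  rw [Ideal.map_span, Set.image_singleton]

lemma prime_algebraMap_loc {ϖ : B} (hϖ : Prime ϖ) (hϖ𝔪 : ϖ ∈ 𝔪) :
    Prime (algebraMap B R ϖ) := by
  have h0 : algebraMap B R ϖ ≠ 0 := by
    intro h
    exact hϖ.ne_zero (algebraMap_loc_injective 𝔪 R (by rw [h, map_zero]))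
  rw [← Ideal.span_singleton_prime h0, span_map_singleton]
  exact IsLocalization.isPrime_of_isPrime_disjoint 𝔪.primeCompl R _
    ((Ideal.span_singleton_prime hϖ.ne_zero).2 hϖ) (disjoint_primeCompl_span 𝔪 hϖ𝔪)

lemma not_dvd_algebraMap_loc {ϖ : B} (hϖ : Prime ϖ) (hϖ𝔪 : ϖ ∈ 𝔪) {x : B}
    (hx : x ∉ Ideal.span {ϖ}) : algebraMap B R x ∉ Ideal.span {algebraMap B R ϖ} := by
  intro h
  apply hx
  rw [span_map_singleton] at h
  have := IsLocalization.comap_map_of_isPrime_disjoint 𝔪.primeCompl R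
    ((Ideal.span_singleton_prime hϖ.ne_zero).2 hϖ) (disjoint_primeCompl_span 𝔪 hϖ𝔪)
  rw [← this]
  exact h

lemma maximalIdeal_loc_eq_span_pair [IsLocalRing R] {ϖ t : B} (hϖ𝔪 : ϖ ∈ 𝔪) (ht𝔪 : t ∈ 𝔪)
    (h : ∀ a ∈ 𝔪, ∃ s : B, s ∉ 𝔪 ∧ s * a ∈ Ideal.span {ϖ, t}) :
    maximalIdeal R = Ideal.span {algebraMap B R ϖ, algebraMap B R t} := by
  rw [← IsLocalization.AtPrime.map_eq_maximalIdeal 𝔪 R]
  have hspan : Ideal.span {algebraMap B R ϖ, algebraMap B R t} =
      Ideal.map (algebraMap B R) (Ideal.span {ϖ, t}) := by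
    rw [Ideal.map_span, Set.image_pair]
  apply le_antisymm
  · rw [Ideal.map_le_iff_le_comap]
    intro a ha
    obtain ⟨s, hs, hsa⟩ := h a ha
    rw [Ideal.mem_comap, hspan]
    have h1 : algebraMap B R (s * a) ∈ Ideal.map (algebraMap B R) (Ideal.span {ϖ, t}) :=
      Ideal.mem_map_of_mem _ hsa
    rw [map_mul] at h1
    have hu : IsUnit (algebraMap B R s) := IsLocalization.map_units R (⟨s, hs⟩ : 𝔪.primeCompl)
    exact (Ideal.unit_mul_mem_iff_mem _ hu).1 h1
  · rw [Ideal.span_le]
    intro x hx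
    rcases hx with rfl | hx
    · exact Ideal.mem_map_of_mem _ hϖ𝔪
    · rw [Set.mem_singleton_iff] at hx
      subst hx
      exact Ideal.mem_map_of_mem _ ht𝔪

section Field

variable {F : Type*} [Field F] [Algebra B F] [Algebra R F] [IsScalarTower B R F]

lemma oneModPi_loc {ϖ : B} (hϖ : Prime ϖ) (hϖ𝔪 : ϖ ∈ 𝔪) {u : F} (h : OneModPi ϖ u) :
    OneModPi (algebraMap B R ϖ) u := by
  obtain ⟨a, s, hs, has, hu⟩ := h
  refine ⟨algebraMap B R a, algebraMap B R s, not_dvd_algebraMap_loc 𝔪 R hϖ hϖ𝔪 hs, ?_, ?_⟩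
  · rw [← map_sub, span_map_singleton]
    exact Ideal.mem_map_of_mem _ has
  · rw [← IsScalarTower.algebraMap_apply, ← IsScalarTower.algebraMap_apply]
    exact hu

include 𝔪 in
lemma locallyPow_of_divisibleDivisor [IsDomain R] [IsNoetherianRing R] {p : ℕ} {u : F}
    (h : DivisibleDivisor B p u) (π : R) (hπ : Prime π) : LocallyPow R p u π := by
  haveI hP : (Ideal.span {π}).IsPrime := (Ideal.span_singleton_prime hπ.ne_zero).2 hπ
  have hht : (Ideal.span {π} : Ideal R).height = 1 := by
    apply le_antisymm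
    · refine Ideal.height_le_one_of_isPrincipal_of_mem_minimalPrimes (Ideal.span {π}) _ ?_
      rw [Ideal.minimalPrimes_eq_subsingleton_self]
      exact Set.mem_singleton _
    · rw [Order.one_le_iff_pos, pos_iff_ne_zero]
      intro h0
      rw [Ideal.height_eq_zero_iff, IsDomain.minimalPrimes_eq_singleton_bot] at h0
      rw [Set.mem_singleton_iff, Ideal.span_singleton_eq_bot] at h0
      exact hπ.ne_zero h0
  have hht' : ((Ideal.span {π} : Ideal R).under B).height = 1 := by
    rw [IsLocalization.height_comap 𝔪.primeCompl, hht]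
  obtain ⟨t, a, s, ha, hs, hu⟩ := h ((Ideal.span {π} : Ideal R).under B) inferInstance hht'
  refine ⟨t, algebraMap B R a, algebraMap B R s, ?_, ?_, ?_⟩
  · intro hd
    apply ha
    rw [Ideal.under_def, Ideal.mem_comap, Ideal.mem_span_singleton]
    exact hd
  · intro hd
    apply hs
    rw [Ideal.under_def, Ideal.mem_comap, Ideal.mem_span_singleton]
    exact hd
  · rw [← IsScalarTower.algebraMap_apply, ← IsScalarTower.algebraMap_apply]
    exact hu

end Field

section Int

variable {F' : Type*} [Field F'] [Algebra B F'] [Algebra R F'] [IsScalarTower B R F']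

/-- an element integral over `R = B_𝔪` has a multiple by some `m ∉ 𝔪` integral over `B`. -/
lemma exists_notMem_isIntegral_mul {c : F'} (hc : IsIntegral R c) :
    ∃ m : B, m ∉ 𝔪 ∧ IsIntegral B (algebraMap B F' m * c) := by
  obtain ⟨⟨m, hm⟩, h⟩ := IsIntegral.exists_multiple_integral_of_isLocalization 𝔪.primeCompl c hc
  refine ⟨m, hm, ?_⟩
  rw [← Algebra.smul_def]
  exact h

/-- `ϖ O'`-membership over `R = B_𝔪` gives `ϖ O'`-membership over `B` (same `O'`). -/
lemma inPiO_of_loc {ϖ : B} (hϖ : Prime ϖ) (hϖ𝔪 : ϖ ∈ 𝔪) {y : F'}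
    (h : InPiO (algebraMap B R ϖ) y) : InPiO ϖ y := by
  obtain ⟨s', hs', c, hc, hsc⟩ := h
  obtain ⟨m, hm, hmc⟩ := exists_notMem_isIntegral_mul 𝔪 R hc
  obtain ⟨s₁, ⟨s₂, hs₂⟩, hs⟩ := IsLocalization.exists_mk'_eq 𝔪.primeCompl s'
  have hs12 : s' * algebraMap B R s₂ = algebraMap B R s₁ := by
    rw [← hs]
    exact IsLocalization.mk'_spec R s₁ ⟨s₂, hs₂⟩
  have hπ' := prime_algebraMap_loc 𝔪 R hϖ hϖ𝔪
  have hs₁ : s₁ ∉ Ideal.span {ϖ} := by
    intro h1
    have h2 : algebraMap B R s₁ ∈ Ideal.span {algebraMap B R ϖ} := by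
      rw [span_map_singleton]
      exact Ideal.mem_map_of_mem _ h1
    rw [← hs12, Ideal.mem_span_singleton] at h2
    rw [Ideal.mem_span_singleton] at hs'
    rcases hπ'.dvd_or_dvd h2 with h3 | h3
    · exact hs' h3
    · have hu : IsUnit (algebraMap B R s₂) :=
        IsLocalization.map_units R (⟨s₂, hs₂⟩ : 𝔪.primeCompl)
      exact hπ'.not_unit (isUnit_of_dvd_unit h3 hu)
  have hm' : m ∉ Ideal.span {ϖ} := by
    intro h1
    apply hm
    have h : Ideal.span {ϖ} ≤ 𝔪 := (Ideal.span_singleton_le_iff_mem _).2 hϖ𝔪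
    exact h h1
  refine ⟨s₁ * m, ?_, algebraMap B F' s₂ * (algebraMap B F' m * c),
    isIntegral_algebraMap.mul hmc, ?_⟩
  · intro h1
    rw [Ideal.mem_span_singleton] at h1 hs₁ hm'
    rcases hϖ.dvd_or_dvd h1 with h2 | h2
    · exact hs₁ h2
    · exact hm' h2
  · have e1 : algebraMap B F' s₁ = algebraMap R F' s' * algebraMap B F' s₂ := by
      rw [IsScalarTower.algebraMap_apply B R F' s₁, ← hs12, map_mul,
        ← IsScalarTower.algebraMap_apply]
    have e2 : algebraMap R F' (algebraMap B R ϖ) = algebraMap B F' ϖ :=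
      (IsScalarTower.algebraMap_apply B R F' ϖ).symm
    rw [e2] at hsc
    rw [map_mul, e1]
    calc algebraMap R F' s' * algebraMap B F' s₂ * algebraMap B F' m * y
        = algebraMap B F' s₂ * algebraMap B F' m * (algebraMap R F' s' * y) := by ring
      _ = algebraMap B F' s₂ * algebraMap B F' m * (algebraMap B F' ϖ * c) := by rw [hsc]
      _ = algebraMap B F' ϖ * (algebraMap B F' s₂ * (algebraMap B F' m * c)) := by ring

/-- `ϖ O'`-membership over `B` gives `ϖ O'`-membership over `R = B_𝔪`. -/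
lemma inPiO_to_loc {ϖ : B} (hϖ : Prime ϖ) (hϖ𝔪 : ϖ ∈ 𝔪) {y : F'}
    (h : InPiO ϖ y) : InPiO (algebraMap B R ϖ) y := by
  obtain ⟨s, hs, c, hc, hsc⟩ := h
  refine ⟨algebraMap B R s, not_dvd_algebraMap_loc 𝔪 R hϖ hϖ𝔪 hs, c, hc.tower_top, ?_⟩
  rw [← IsScalarTower.algebraMap_apply, ← IsScalarTower.algebraMap_apply]
  exact hsc

end Int

end Transfer

end Fermat.Agent.S18.H754

end

end
-- ===== PACK-END S18/H754/KummerTransfer.lean

-- ===== PACK-BEGIN A2/Alg/H754/SmoothAbs.lean
section





/-!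
# A2 / ALG / P-S (helper754): purity at a smooth point of the special fibre, abstract form

`B` a Noetherian integrally closed domain with fraction field `F`, `ϖ ≠ 0` with
`(ϖ) = p ⊓ p'` (two incomparable primes), `B / p` Dedekind, `n` a maximal ideal with `p ≤ n`,
`¬ p' ≤ n`.  If `u ∈ Fˣ` has divisor divisible by `m` at every height-one prime
(`S18.H754.DivisibleDivisor`) and is a unit at `p`, then there is `d ∈ Fˣ` with `u d ^ m` a unit
at `n` and `d` a unit at `p` and at `p'`.

Proof: `B_n` is a Noetherian local domain, `ϖ` is prime in `B_n` and `𝔪 B_n = (ϖ, t)`, so `B_n`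
is a UFD (`S18.H754.ufd_of_regular_pair`) and `u = ε s ^ (-m)` (`S18.H754.exists_unit_mul_pow`).
Then `s` is a unit at `p`, and `s = υ ϖ ^ j` at `p'`; correct by `g ^ (-j)`, `g := g₀ ^ 2 + ϖ`,
`g₀ ∈ p' ∖ n`.
-/

set_option autoImplicit false
set_option linter.style.haveILetI false

noncomputable section

namespace Fermat.Agent.A2.Alg.H754

open IsLocalRing
open Fermat.Agent.S18.H754 (DivisibleDivisor LocallyPow)

variable {B F : Type*} [CommRing B] [IsDomain B] [Field F] [Algebra B F] [IsFractionRing B F]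

section Components

omit [IsDomain B] in
/-- local generation of `p` by `ϖ` away from `p'`. -/
lemma exists_mul_eq_of_mem (ϖ : B) (p p' : Ideal B) (hinf : p ⊓ p' = Ideal.span {ϖ}) {g b : B}
    (hg : g ∈ p') (hb : b ∈ p) : ∃ c : B, g * b = ϖ * c := by
  have h : g * b ∈ p ⊓ p' := ⟨p.mul_mem_left g hb, p'.mul_mem_right b hg⟩
  rw [hinf, Ideal.mem_span_singleton] at h
  exact h

omit [IsDomain B] in
lemma mem_minimalPrimes_of_inf (ϖ : B) (p p' : Ideal B) [hp : p.IsPrime]
    (hinf : p ⊓ p' = Ideal.span {ϖ}) (h21 : ¬ p' ≤ p) :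
    p ∈ (Ideal.span {ϖ}).minimalPrimes := by
  refine ⟨⟨hp, ?_⟩, ?_⟩
  · rw [← hinf]
    exact inf_le_left
  · rintro q ⟨hq, hle⟩ hqp
    have h1 : p * p' ≤ q := le_trans Ideal.mul_le_inf (hinf ▸ hle)
    rcases (Ideal.IsPrime.mul_le hq).1 h1 with h | h
    · exact h
    · exact absurd (le_trans h hqp) h21

lemma height_eq_one_of_inf [IsNoetherianRing B] (ϖ : B) (hϖ : ϖ ≠ 0) (p p' : Ideal B)
    [hp : p.IsPrime] (hinf : p ⊓ p' = Ideal.span {ϖ}) (h21 : ¬ p' ≤ p) : p.height = 1 := by
  apply le_antisymm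
  · exact Ideal.height_le_one_of_isPrincipal_of_mem_minimalPrimes (Ideal.span {ϖ}) p
      (mem_minimalPrimes_of_inf ϖ p p' hinf h21)
  · rw [Order.one_le_iff_pos, pos_iff_ne_zero, Ne, Ideal.height_eq_zero_iff_eq_bot]
    intro h0
    have : ϖ ∈ p := by
      have : ϖ ∈ p ⊓ p' := hinf ▸ Ideal.mem_span_singleton_self ϖ
      exact this.1
    rw [h0, Ideal.mem_bot] at this
    exact hϖ this

end Components

section Unif

variable [IsNoetherianRing B] [IsIntegrallyClosed B]

/-- At a height-one prime `𝔮` whose localisation has uniformiser `ϖ`, every nonzero element of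
`F` is a unit at `𝔮` times an integer power of `ϖ`. -/
theorem exists_zpow_locU (𝔮 : Ideal B) [h𝔮 : 𝔮.IsPrime] (h : 𝔮.height = 1) (ϖ : B) (hϖ0 : ϖ ≠ 0)
    (hϖ : ϖ ∈ 𝔮) (hgen : ∀ a ∈ 𝔮, ∃ g : B, g ∉ 𝔮 ∧ ∃ c : B, g * a = ϖ * c) {f : F}
    (hf : f ≠ 0) :
    ∃ (j : ℤ) (υ : F), LocU 𝔮 υ ∧ f = υ * (algebraMap B F ϖ) ^ j := by
  obtain ⟨W, hdvr, hW⟩ := Fermat.Agent.S18.H438.exists_dvr_of_height_one (F := F) 𝔮 h
  haveI := hdvr
  have h1𝔮 : (1 : B) ∉ 𝔮 := fun h1 => h𝔮.ne_top ((Ideal.eq_top_iff_one _).2 h1)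
  have hinj : Function.Injective (algebraMap B F) := IsFractionRing.injective B F
  have hϖF : algebraMap B F ϖ ≠ 0 := fun h0 => hϖ0 (hinj (by rw [h0, map_zero]))
  have hϖW : algebraMap B F ϖ ∈ W := (hW _).2 ⟨ϖ, 1, h1𝔮, by rw [map_one, mul_one]⟩
  -- units of `W`
  have hunit : ∀ x : W, IsUnit x ↔ LocU 𝔮 (x : F) := by
    intro x
    constructor
    · intro hx
      obtain ⟨y, hy⟩ := isUnit_iff_exists_inv.1 hx
      have hxy : (x : F) * (y : F) = 1 := by
        have := congrArg (Subtype.val) hy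
        simpa using this
      have hx0 : (x : F) ≠ 0 := left_ne_zero_of_mul_eq_one hxy
      rw [locU_iff_of_valuationSubring 𝔮 W hW hx0]
      refine ⟨x.2, ?_⟩
      rw [inv_eq_of_mul_eq_one_right hxy]
      exact y.2
    · intro hx
      have hx0 := hx.ne_zero
      obtain ⟨-, h2⟩ := (locU_iff_of_valuationSubring 𝔮 W hW hx0).1 hx
      exact isUnit_iff_exists_inv.2 ⟨⟨(x : F)⁻¹, h2⟩, Subtype.ext (mul_inv_cancel₀ hx0)⟩
  have hirr : Irreducible (⟨algebraMap B F ϖ, hϖW⟩ : W) := by
    rw [IsDiscreteValuationRing.irreducible_iff_uniformizer]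
    ext x
    rw [IsLocalRing.mem_maximalIdeal, mem_nonunits_iff, Ideal.mem_span_singleton]
    constructor
    · intro hx
      obtain ⟨a, s, hs, has⟩ := (hW x).1 x.2
      have ha : a ∈ 𝔮 := by
        by_contra ha
        exact hx ((hunit x).2 ⟨a, s, ha, hs, has⟩)
      obtain ⟨g, hg, c, hc⟩ := hgen a ha
      have hgs : g * s ∉ 𝔮 := fun hgs => (h𝔮.mem_or_mem hgs).elim hg hs
      have hgsF : algebraMap B F (g * s) ≠ 0 := LocU.algebraMap_ne_zero hgs
      have hy : algebraMap B F c * (algebraMap B F (g * s))⁻¹ ∈ W :=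
        (hW _).2 ⟨c, g * s, hgs, by rw [mul_assoc, inv_mul_cancel₀ hgsF, mul_one]⟩
      refine ⟨⟨_, hy⟩, Subtype.ext ?_⟩
      change (x : F) = algebraMap B F ϖ * (algebraMap B F c * (algebraMap B F (g * s))⁻¹)
      have e : (x : F) * algebraMap B F (g * s) = algebraMap B F ϖ * algebraMap B F c := by
        rw [map_mul, mul_comm (algebraMap B F g), ← mul_assoc, has, ← map_mul, ← map_mul,
          mul_comm a g, hc]
      rw [← mul_assoc, ← e, mul_assoc, mul_inv_cancel₀ hgsF, mul_one]
    · rintro ⟨y, rfl⟩ hu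
      have hu' : IsUnit (⟨algebraMap B F ϖ, hϖW⟩ : W) := isUnit_of_mul_isUnit_left hu
      obtain ⟨a, b, ha, hb, hab⟩ := (hunit _).1 hu'
      apply ha
      have : a = ϖ * b := hinj (by rw [map_mul]; exact hab.symm)
      rw [this]
      exact 𝔮.mul_mem_right b hϖ
  have key : ∀ x : W, x ≠ 0 →
      ∃ (j : ℕ) (υ : F), LocU 𝔮 υ ∧ (x : F) = υ * (algebraMap B F ϖ) ^ j := by
    intro x hx
    obtain ⟨j, υ, hxυ⟩ := IsDiscreteValuationRing.eq_unit_mul_pow_irreducible hx hirr
    refine ⟨j, ((υ : W) : F), (hunit _).1 υ.isUnit, ?_⟩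
    rw [hxυ]
    rfl
  rcases W.mem_or_inv_mem f with hfW | hfW
  · obtain ⟨j, υ, hυ, e⟩ := key ⟨f, hfW⟩ (fun h0 => hf (congrArg Subtype.val h0))
    exact ⟨j, υ, hυ, by rw [zpow_natCast]; exact e⟩
  · obtain ⟨j, υ, hυ, e⟩ := key ⟨f⁻¹, hfW⟩
      (fun h0 => inv_ne_zero hf (congrArg Subtype.val h0))
    refine ⟨-j, υ⁻¹, hυ.inv, ?_⟩
    have e' : f⁻¹ = υ * algebraMap B F ϖ ^ j := e
    rw [zpow_neg, zpow_natCast, ← mul_inv, ← e', inv_inv]

end Unif

section Main

variable [IsNoetherianRing B] [IsIntegrallyClosed B]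

/-- **Purity at a smooth point, abstract form.** -/
theorem pure_smooth_abs (ϖ : B) (hϖ : ϖ ≠ 0) (p p' : Ideal B) [hp : p.IsPrime]
    [hp' : p'.IsPrime] (hinf : p ⊓ p' = Ideal.span {ϖ}) (h12 : ¬ p ≤ p') (h21 : ¬ p' ≤ p)
    (hD : IsDedekindDomain (B ⧸ p))
    (n : Ideal B) (hn : n.IsMaximal) (hpn : p ≤ n) (hp'n : ¬ p' ≤ n)
    (m : ℕ) (hm : 0 < m) (u : F) (hu : u ≠ 0)
    (hdiv : DivisibleDivisor B m u) (hup : LocU p u) :
    ∃ d : F, d ≠ 0 ∧ LocU n (u * d ^ m) ∧ LocU p d ∧ LocU p' d := by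
  classical
  haveI hnp : n.IsPrime := hn.isPrime
  have h1n : (1 : B) ∉ n := fun h1 => hnp.ne_top ((Ideal.eq_top_iff_one _).2 h1)
  have hinj : Function.Injective (algebraMap B F) := IsFractionRing.injective B F
  obtain ⟨g₀, hg₀p', hg₀n⟩ := SetLike.not_le_iff_exists.1 hp'n
  obtain ⟨h₀, hh₀p, hh₀p'⟩ := SetLike.not_le_iff_exists.1 h12
  have hϖpp : ϖ ∈ p ⊓ p' := hinf ▸ Ideal.mem_span_singleton_self ϖ
  have hϖp : ϖ ∈ p := hϖpp.1
  have hϖp' : ϖ ∈ p' := hϖpp.2
  have hϖn : ϖ ∈ n := hpn hϖp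
  have hϖF : algebraMap B F ϖ ≠ 0 := fun h0 => hϖ (hinj (by rw [h0, map_zero]))
  -- local generator of `n` modulo `p`
  obtain ⟨t, htn, hreg⟩ : ∃ t ∈ n, ∀ a ∈ n, ∃ s : B, s ∉ n ∧ s * a ∈ Ideal.span {ϖ, t} := by
    haveI := hD
    have hsurj : Function.Surjective (Ideal.Quotient.mk p) := Ideal.Quotient.mk_surjective
    have hM : (n.map (Ideal.Quotient.mk p)).IsMaximal := by
      haveI := hn
      exact Ideal.IsMaximal.map_of_surjective_of_ker_le hsurj (by rw [Ideal.mk_ker]; exact hpn)
    obtain ⟨tb, htb, sb, hsb, hall⟩ :=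
      Fermat.Agent.S18.B12.H84.exists_local_generator (n.map (Ideal.Quotient.mk p)) hM
    obtain ⟨t, rfl⟩ := hsurj tb
    obtain ⟨s, rfl⟩ := hsurj sb
    have hmem : ∀ b : B, Ideal.Quotient.mk p b ∈ n.map (Ideal.Quotient.mk p) ↔ b ∈ n := by
      intro b
      rw [← Ideal.mem_comap, Ideal.comap_map_of_surjective _ hsurj, ← RingHom.ker_eq_comap_bot,
        Ideal.mk_ker, sup_eq_left.2 hpn]
    have hsn : s ∉ n := fun h => hsb ((hmem s).2 h)
    refine ⟨t, (hmem t).1 htb, fun a ha => ⟨g₀ * s, ?_, ?_⟩⟩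
    · exact fun h => (hnp.mem_or_mem h).elim hg₀n hsn
    · have h1 := hall _ ((hmem a).2 ha)
      rw [Ideal.mem_span_singleton'] at h1
      obtain ⟨cb, hcb⟩ := h1
      obtain ⟨c, rfl⟩ := hsurj cb
      have hd : s * a - c * t ∈ p := by
        rw [← Ideal.Quotient.eq, map_mul, map_mul]
        exact hcb.symm
      obtain ⟨e, he⟩ := exists_mul_eq_of_mem ϖ p p' hinf hg₀p' hd
      rw [Ideal.mem_span_pair]
      refine ⟨e, g₀ * c, ?_⟩
      linear_combination (-1 : B) * he
  -- the local ring `A = B_n ⊆ F`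
  let A : Subalgebra B F :=
    Localization.subalgebra.ofField F n.primeCompl n.primeCompl_le_nonZeroDivisors
  haveI : IsLocalization.AtPrime A n := (inferInstance : IsLocalization n.primeCompl A)
  haveI : IsLocalRing A := IsLocalization.AtPrime.isLocalRing A n
  haveI : IsNoetherianRing A := IsLocalization.isNoetherianRing n.primeCompl A inferInstance
  have hmapp : Ideal.span {algebraMap B A ϖ} = Ideal.map (algebraMap B A) p := by
    apply le_antisymm
    · rw [Ideal.span_singleton_le_iff_mem]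
      exact Ideal.mem_map_of_mem _ hϖp
    · rw [Ideal.map_le_iff_le_comap]
      intro b hb
      obtain ⟨c, hc⟩ := exists_mul_eq_of_mem ϖ p p' hinf hg₀p' hb
      rw [Ideal.mem_comap]
      have hu : IsUnit (algebraMap B A g₀) :=
        IsLocalization.map_units A (⟨g₀, hg₀n⟩ : n.primeCompl)
      have h2 : algebraMap B A g₀ * algebraMap B A b ∈ Ideal.span {algebraMap B A ϖ} := by
        rw [← map_mul, hc, map_mul]
        exact Ideal.mul_mem_right _ _ (Ideal.mem_span_singleton_self _)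
      exact (Ideal.unit_mul_mem_iff_mem _ hu).1 h2
  have hprime : Prime (algebraMap B A ϖ) := by
    have h0 : algebraMap B A ϖ ≠ 0 := fun h =>
      hϖ (IsLocalization.injective A n.primeCompl_le_nonZeroDivisors (by rw [h, map_zero]))
    rw [← Ideal.span_singleton_prime h0, hmapp]
    refine IsLocalization.isPrime_of_isPrime_disjoint n.primeCompl A p hp ?_
    rw [Set.disjoint_left]
    intro x hx hx'
    exact hx (hpn hx')
  have hmax : maximalIdeal A = Ideal.span {algebraMap B A ϖ, algebraMap B A t} :=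
    Fermat.Agent.S18.H754.maximalIdeal_loc_eq_span_pair n A hϖn htn hreg
  haveI : UniqueFactorizationMonoid A :=
    Fermat.Agent.S18.H754.ufd_of_regular_pair _ _ hprime hmax
  obtain ⟨s, hs0, ε, hε⟩ := Fermat.Agent.S18.H754.exists_unit_mul_pow (R := A) m hm u hu
    (fun π hπ => Fermat.Agent.S18.H754.locallyPow_of_divisibleDivisor n A hdiv π hπ)
  -- `u * s ^ m` is a unit at `n`
  have hUn : LocU n (u * s ^ m) := by
    have hne : u * s ^ m ≠ 0 := mul_ne_zero hu (pow_ne_zero _ hs0)
    refine locU_of_frac_of_inv_frac n hne ?_ ?_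
    · rw [hε]
      exact (Fermat.Agent.S18.H438.mem_ofField_primeCompl_iff n _).1 (ε : A).2
    · have e : (u * s ^ m)⁻¹ = algebraMap A F ((ε⁻¹ : Aˣ) : A) := by
        rw [hε]
        apply inv_eq_of_mul_eq_one_left
        rw [← map_mul, Units.inv_mul, map_one]
      rw [e]
      exact (Fermat.Agent.S18.H438.mem_ofField_primeCompl_iff n _).1 ((ε⁻¹ : Aˣ) : A).2
  -- `s` is a unit at `p`
  have hhtp : p.height = 1 := height_eq_one_of_inf ϖ hϖ p p' hinf h21
  have hhtp' : p'.height = 1 :=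
    height_eq_one_of_inf ϖ hϖ p' p (by rw [inf_comm]; exact hinf) h12
  have hsp : LocU p s := by
    obtain ⟨W, -, hW⟩ := Fermat.Agent.S18.H438.exists_dvr_of_height_one (F := F) p hhtp
    refine locU_of_pow p W hW hm ?_
    have h1 : LocU p (s ^ m * u) := by
      rw [mul_comm]
      exact hUn.mono hpn
    exact h1.of_mul_left hup
  -- `s` at `p'`
  have hgen' : ∀ a ∈ p', ∃ g : B, g ∉ p' ∧ ∃ c : B, g * a = ϖ * c := by
    intro a ha
    refine ⟨h₀, hh₀p', ?_⟩
    obtain ⟨c, hc⟩ := exists_mul_eq_of_mem ϖ p p' hinf ha hh₀p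
    exact ⟨c, by rw [mul_comm, hc]⟩
  obtain ⟨j, υ, hυ, hsυ⟩ := exists_zpow_locU p' hhtp' ϖ hϖ hϖp' hgen' hs0
  -- the correcting element
  have hgn : g₀ ^ 2 + ϖ ∉ n := by
    intro h
    have h2 : g₀ ^ 2 ∈ n := by
      have := n.sub_mem h hϖn
      rwa [add_sub_cancel_right] at this
    exact hg₀n (hnp.mem_of_pow_mem 2 h2)
  have hgp' : LocU p' (algebraMap B F (g₀ ^ 2 + ϖ) * (algebraMap B F ϖ)⁻¹) := by
    obtain ⟨c, hc⟩ := exists_mul_eq_of_mem ϖ p p' hinf hg₀p' hh₀p
    have hh2 : h₀ ^ 2 ∉ p' := fun h => hh₀p' (hp'.mem_of_pow_mem 2 h)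
    refine ⟨ϖ * c ^ 2 + h₀ ^ 2, h₀ ^ 2, ?_, hh2, ?_⟩
    · intro h
      apply hh2
      have := p'.sub_mem h (p'.mul_mem_right (c ^ 2) hϖp')
      rwa [add_sub_cancel_left] at this
    · have key : (g₀ ^ 2 + ϖ) * h₀ ^ 2 = ϖ * (ϖ * c ^ 2 + h₀ ^ 2) := by
        linear_combination (g₀ * h₀ + ϖ * c) * hc
      rw [mul_right_comm, ← map_mul, key, map_mul, mul_right_comm, mul_inv_cancel₀ hϖF, one_mul]
  have hGn : LocU n (algebraMap B F (g₀ ^ 2 + ϖ)) := LocU.of_notMem hgn h1n
  have hG0 : algebraMap B F (g₀ ^ 2 + ϖ) ≠ 0 := hGn.ne_zero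
  refine ⟨s * (algebraMap B F (g₀ ^ 2 + ϖ)) ^ (-j), mul_ne_zero hs0 (zpow_ne_zero _ hG0), ?_, ?_,
    ?_⟩
  · have e : u * (s * (algebraMap B F (g₀ ^ 2 + ϖ)) ^ (-j)) ^ m =
        (u * s ^ m) * ((algebraMap B F (g₀ ^ 2 + ϖ)) ^ (-j)) ^ m := by
      rw [mul_pow, mul_assoc]
    rw [e]
    exact hUn.mul ((hGn.zpow (-j)).pow m)
  · exact hsp.mul ((hGn.mono hpn).zpow (-j))
  · have e : s * (algebraMap B F (g₀ ^ 2 + ϖ)) ^ (-j) =
        υ * (algebraMap B F (g₀ ^ 2 + ϖ) * (algebraMap B F ϖ)⁻¹) ^ (-j) := by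
      rw [hsυ, mul_zpow, inv_zpow', neg_neg]
      ring
    rw [e]
    exact hυ.mul (hgp'.zpow (-j))

end Main

end Fermat.Agent.A2.Alg.H754

end

end
-- ===== PACK-END A2/Alg/H754/SmoothAbs.lean

-- ===== PACK-BEGIN A2/Alg/H754/PuritySmooth.lean
section





/-!
# A2 / ALG leaf P-S (helper754): `purity_smooth`, VERBATIM statement of `A2/Alg/Skel.lean`

Purity at a closed point `n` of the special fibre lying on exactly ONE component `p` of the
chart `B`:

* `B` is a Noetherian integrally closed domain with fraction field `F`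
  (`S18.H394.chart_instances`), integral over `R[x]` of Krull dimension `2`, so `B ⧸ p` is a
  Dedekind domain (`isDedekindDomain_quotient_of_dim`);
* `m ∣ div u` at every height-one prime of `B` (`divisibleDivisor_of_divisibleDiv`: horizontal
  primes from `DivisibleDiv`, the two vertical primes from `IsSplit`);
* abstract purity `pure_smooth_abs` (`B_n` is a UFD).

Also exported (reusable for P-N / GLUE): `chart_package`, `isDedekindDomain_component`,
`divisibleDivisor_of_divisibleDiv`.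
-/

set_option autoImplicit false
set_option linter.style.haveILetI false
set_option linter.unusedSectionVars false
set_option linter.unusedVariables false

noncomputable section

namespace Fermat.Agent.A2.Alg.H754

open Polynomial IsLocalRing
open Fermat.Agent.A2
open Fermat.Agent.S18.H138 (chart baseField)
open Fermat.Agent.S18.H754 (DivisibleDivisor)

section Chart

variable {R E F : Type*} [CommRing R] [IsDomain R] [IsDiscreteValuationRing R]
  [Field E] [Algebra R E] [IsFractionRing R E]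
  [Field F] [Algebra E F] [Algebra R F] [IsScalarTower R E F]

omit [IsDomain R] [IsDiscreteValuationRing R] in
theorem finiteDimensional_baseField (x : F)
    (hfin : FiniteDimensional (IntermediateField.adjoin E ({x} : Set F)) F) :
    FiniteDimensional (baseField R x) F := by
  have hle : ∀ z : F, z ∈ IntermediateField.adjoin E ({x} : Set F) → z ∈ baseField R x := by
    intro z hz
    have hz' : z ∈ Subfield.closure (Set.range (algebraMap E F) ∪ {x}) := hz
    refine Subfield.closure_le.2 ?_ hz'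
    rintro y (⟨e, rfl⟩ | hy)
    · obtain ⟨a, b, hb, rfl⟩ := IsFractionRing.div_surjective (A := R) e
      rw [map_div₀, ← IsScalarTower.algebraMap_apply, ← IsScalarTower.algebraMap_apply]
      exact (baseField R x).div_mem (Subfield.subset_closure (Or.inl ⟨a, rfl⟩))
        (Subfield.subset_closure (Or.inl ⟨b, rfl⟩))
    · exact Subfield.subset_closure (Or.inr hy)
  let φ : (IntermediateField.adjoin E ({x} : Set F)) →+* (baseField R x) :=
    { toFun := fun z => ⟨z.1, hle z.1 z.2⟩
      map_one' := rfl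
      map_mul' := fun _ _ => rfl
      map_zero' := rfl
      map_add' := fun _ _ => rfl }
  letI : Algebra (IntermediateField.adjoin E ({x} : Set F)) (baseField R x) := φ.toAlgebra
  haveI : IsScalarTower (IntermediateField.adjoin E ({x} : Set F)) (baseField R x) F :=
    IsScalarTower.of_algebraMap_eq (fun _ => rfl)
  exact Module.Finite.of_restrictScalars_finite (IntermediateField.adjoin E ({x} : Set F))
    (baseField R x) F

omit [Field E] [Algebra R E] [IsFractionRing R E] [Algebra E F] [IsScalarTower R E F] in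
theorem ringKrullDim_adjoin_le (x : F) (hx : Transcendental R x) :
    ringKrullDim (Algebra.adjoin R ({x} : Set F)) ≤ 2 := by
  have hinj : Function.Injective (aeval (R := R) x) :=
    (injective_iff_map_eq_zero _).2 (transcendental_iff.1 hx)
  let e : R[X] ≃ₐ[R] Algebra.adjoin R ({x} : Set F) :=
    (AlgEquiv.ofInjective (aeval (R := R) x) hinj).trans
      (Subalgebra.equivOfEq _ _ (Algebra.adjoin_singleton_eq_range_aeval R x).symm)
  rw [← ringKrullDim_eq_of_ringEquiv e.toRingEquiv, ringKrullDim_of_isNoetherianRing]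
  have h1 : ringKrullDim R ≤ 1 := by
    have := Ring.krullDimLE_iff.1 (inferInstance : Ring.KrullDimLE 1 R)
    exact_mod_cast this
  calc ringKrullDim R + 1 ≤ 1 + 1 := by gcongr
    _ = 2 := by norm_num

theorem transcendental_base [CharZero E] {x : F} (hx : Transcendental E x) : Transcendental R x :=
  hx.restrictScalars (IsFractionRing.injective R E)

include E in
omit [IsDomain R] [IsDiscreteValuationRing R] in
theorem algebraMap_base_injective : Function.Injective (algebraMap R F) := by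
  rw [IsScalarTower.algebraMap_eq R E F]
  exact (algebraMap E F).injective.comp (IsFractionRing.injective R E)

include E in
omit [IsDomain R] [IsDiscreteValuationRing R] in
theorem algebraMap_chart_injective (B : Subalgebra R F) :
    Function.Injective (algebraMap R B) := by
  intro a b hab
  apply algebraMap_base_injective (E := E) (F := F)
  have := congrArg (fun z : B => (z : F)) hab
  exact this

/-- The chart is a Noetherian integrally closed domain with fraction field `F`. -/
theorem chart_package [CharZero E] (w : R) (x : F) (B : Subalgebra R F) (hB : ChartCtx E w x B) :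
    IsNoetherianRing B ∧ IsIntegrallyClosed B ∧ IsFractionRing B F := by
  obtain rfl : B = chart R ({x} : Set F) :=
    SetLike.ext fun f => (hB.hB f).trans Fermat.Agent.S18.H138.mem_chart.symm
  haveI : CharZero F := charZero_of_injective_algebraMap (algebraMap E F).injective
  haveI := finiteDimensional_baseField (R := R) x hB.hfin
  exact Fermat.Agent.S18.H394.chart_instances (R := R) (transcendental_base hB.hx)

/-- The components of the chart are Dedekind. -/
theorem isDedekindDomain_component [CharZero E] (w : R) (x : F) (B : Subalgebra R F)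
    (hB : ChartCtx E w x B) (p : Ideal B) [hp : p.IsPrime] (hwp : algebraMap R B w ∈ p)
    (hnorm : IsIntegrallyClosed (B ⧸ p)) : IsDedekindDomain (B ⧸ p) := by
  obtain ⟨hN, -, -⟩ := chart_package w x B hB
  have hp0 : p ≠ ⊥ := by
    intro h0
    rw [h0, Ideal.mem_bot] at hwp
    exact hB.hw.ne_zero (algebraMap_chart_injective (E := E) B (by rw [hwp, map_zero]))
  obtain rfl : B = chart R ({x} : Set F) :=
    SetLike.ext fun f => (hB.hB f).trans Fermat.Agent.S18.H138.mem_chart.symm
  have hxR : Transcendental R x := transcendental_base hB.hx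
  haveI := Fermat.Agent.S18.H138.isNoetherianRing_adjoin_singleton (R := R) hxR
  letI : Algebra (Algebra.adjoin R ({x} : Set F)) (chart R ({x} : Set F)) :=
    inferInstanceAs (Algebra (Algebra.adjoin R ({x} : Set F))
      (integralClosure (Algebra.adjoin R ({x} : Set F)) F))
  haveI : Algebra.IsIntegral (Algebra.adjoin R ({x} : Set F)) (chart R ({x} : Set F)) :=
    inferInstanceAs (Algebra.IsIntegral (Algebra.adjoin R ({x} : Set F))
      (integralClosure (Algebra.adjoin R ({x} : Set F)) F))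
  exact isDedekindDomain_quotient_of_dim (A₀ := Algebra.adjoin R ({x} : Set F))
    (ringKrullDim_adjoin_le x hxR) p hp0 hnorm

/-- `m ∣ div u` at every height-one prime of the chart. -/
theorem divisibleDivisor_of_divisibleDiv (w : R) (hw : Irreducible w) (B : Subalgebra R F)
    [IsNoetherianRing B] [IsIntegrallyClosed B] [IsFractionRing B F]
    (c : SSChart w B) (m : ℕ) (u : F) (hdiv : DivisibleDiv E m u) (hs : IsSplit B c u) :
    DivisibleDivisor B m u := by
  intro 𝔭 h𝔭 hht
  haveI := h𝔭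
  have hinjB : Function.Injective (algebraMap R B) := algebraMap_chart_injective (E := E) B
  have hwB0 : algebraMap R B w ≠ 0 := fun h0 => hw.ne_zero (hinjB (by rw [h0, map_zero]))
  have hwpp : algebraMap R B w ∈ c.p₁ ⊓ c.p₂ := by
    rw [c.inf_eq]
    exact Ideal.mem_span_singleton_self _
  by_cases hw𝔭 : algebraMap R B w ∈ 𝔭
  · -- vertical prime: one of the two components
    have hle : c.p₁ * c.p₂ ≤ 𝔭 := by
      refine le_trans Ideal.mul_le_inf ?_
      rw [c.inf_eq, Ideal.span_singleton_le_iff_mem]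
      exact hw𝔭
    have key : ∀ p : Ideal B, p.IsPrime → algebraMap R B w ∈ p → p ≤ 𝔭 → ConstAt B p u →
        ∃ t : F, ∃ a s : B, a ∉ 𝔭 ∧ s ∉ 𝔭 ∧ u * t ^ m * algebraMap B F s = algebraMap B F a := by
      intro p hp hwp hp𝔭 hconst
      haveI := hp
      haveI : p.FiniteHeight := Ideal.finiteHeight_of_isNoetherianRing p
      have hpeq : p = 𝔭 := by
        refine Ideal.eq_of_le_of_height_le p hp𝔭 ?_
        rw [hht, Order.one_le_iff_pos, pos_iff_ne_zero, Ne, Ideal.height_eq_zero_iff_eq_bot]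
        intro h0
        rw [h0, Ideal.mem_bot] at hwp
        exact hwB0 hwp
      subst hpeq
      obtain ⟨c₀, hc₀, a, b, hb, hab, hu⟩ := hconst
      refine ⟨1, a, b, ?_, hb, ?_⟩
      · intro ha
        have h2 : algebraMap R B c₀ * b ∈ p := by
          have := p.sub_mem ha hab
          rwa [sub_sub_cancel] at this
        rcases hp.mem_or_mem h2 with h | h
        · exact hp.ne_top (Ideal.eq_top_of_isUnit_mem _ h (hc₀.map (algebraMap R B)))
        · exact hb h
      · rw [one_pow, mul_one]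
        exact hu
    rcases (Ideal.IsPrime.mul_le h𝔭).1 hle with h | h
    · exact key c.p₁ c.prime₁ hwpp.1 h hs.1
    · exact key c.p₂ c.prime₂ hwpp.2 h hs.2
  · -- horizontal prime: `B_𝔭` is a DVR containing `E`
    obtain ⟨W, hdvr, hW⟩ := Fermat.Agent.S18.H438.exists_dvr_of_height_one (F := F) 𝔭 hht
    have hE : ∀ e : E, algebraMap E F e ∈ W := by
      intro e
      obtain ⟨a, b, hb, rfl⟩ := IsFractionRing.div_surjective (A := R) e
      have hb0 : b ≠ 0 := nonZeroDivisors.ne_zero hb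
      obtain ⟨k, υ, hbk⟩ := IsDiscreteValuationRing.eq_unit_mul_pow_irreducible hb0 hw
      have hb𝔭 : algebraMap R B b ∉ 𝔭 := by
        rw [hbk, map_mul, map_pow]
        intro h
        rcases h𝔭.mem_or_mem h with h | h
        · exact h𝔭.ne_top (Ideal.eq_top_of_isUnit_mem _ h (υ.isUnit.map (algebraMap R B)))
        · exact hw𝔭 (h𝔭.mem_of_pow_mem k h)
      have hbF : algebraMap R F b ≠ 0 := fun h0 =>
        hb0 (algebraMap_base_injective (E := E) (F := F) (by rw [h0, map_zero]))
      refine (hW _).2 ⟨algebraMap R B a, algebraMap R B b, hb𝔭, ?_⟩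
      rw [← IsScalarTower.algebraMap_apply R B F, ← IsScalarTower.algebraMap_apply R B F,
        map_div₀, ← IsScalarTower.algebraMap_apply R E F, ← IsScalarTower.algebraMap_apply R E F,
        div_mul_cancel₀ _ hbF]
    obtain ⟨h, u₀, hh, hu₀, hu₀', hu⟩ := hdiv W hdvr hE
    by_cases hu₀0 : u₀ = 0
    · -- degenerate: `u = 0`, excluded by `IsSplit`
      exfalso
      obtain ⟨c₀, hc₀, a, b, hb, hab, hu'⟩ := hs.1
      rw [hu, hu₀0, zero_mul, zero_mul] at hu'
      have ha0 : a = 0 := Subtype.ext hu'.symm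
      rw [ha0, zero_sub, neg_mem_iff] at hab
      rcases c.prime₁.mem_or_mem hab with h' | h'
      · exact c.prime₁.ne_top (Ideal.eq_top_of_isUnit_mem _ h' (hc₀.map (algebraMap R B)))
      · exact hb h'
    · obtain ⟨a, s, ha, hs', has⟩ :=
        (locU_iff_of_valuationSubring 𝔭 W hW hu₀0).2 ⟨hu₀, hu₀'⟩
      refine ⟨h⁻¹, a, s, ha, hs', ?_⟩
      rw [hu, inv_pow, mul_assoc u₀, mul_inv_cancel₀ (pow_ne_zero _ hh), mul_one]
      exact has

/-- One-sided form of `purity_smooth`: `n` lies on `p` and not on `p'`. -/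
theorem purity_smooth_aux [CharZero E] (m : ℕ) (hm : 0 < m)
    (w : R) (x : F) (B : Subalgebra R F) (hB : ChartCtx E w x B)
    (c : SSChart w B) (u : F) (hu : u ≠ 0) (hdiv : DivisibleDiv E m u) (hs : IsSplit B c u)
    (p p' : Ideal B) (hp : p.IsPrime) (hp' : p'.IsPrime)
    (hinf : p ⊓ p' = Ideal.span {algebraMap R B w}) (h12 : ¬ p ≤ p') (h21 : ¬ p' ≤ p)
    (hnorm : IsIntegrallyClosed (B ⧸ p)) (hup : ConstAt B p u)
    (n : Ideal B) (hn : n.IsMaximal) (hpn : p ≤ n) (hp'n : ¬ p' ≤ n) :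
    ∃ d : F, d ≠ 0 ∧ LocUnit B n (u * d ^ m) ∧ LocUnit B p d ∧ LocUnit B p' d := by
  obtain ⟨hN, hIC, hFr⟩ := chart_package w x B hB
  haveI := hN
  haveI := hIC
  haveI := hFr
  haveI := hp
  haveI := hp'
  have hwB0 : algebraMap R B w ≠ 0 := fun h0 =>
    hB.hw.ne_zero (algebraMap_chart_injective (E := E) B (by rw [h0, map_zero]))
  have hwp : algebraMap R B w ∈ p := by
    have : algebraMap R B w ∈ p ⊓ p' := hinf ▸ Ideal.mem_span_singleton_self _
    exact this.1
  have hD : IsDedekindDomain (B ⧸ p) := isDedekindDomain_component w x B hB p hwp hnorm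
  have hDD : DivisibleDivisor B m u := divisibleDivisor_of_divisibleDiv w hB.hw B c m u hdiv hs
  have hup' : LocU p u := by
    obtain ⟨c₀, hc₀, a, b, hb, hab, hu'⟩ := hup
    refine ⟨a, b, ?_, hb, hu'⟩
    intro ha
    have h2 : algebraMap R B c₀ * b ∈ p := by
      have := p.sub_mem ha hab
      rwa [sub_sub_cancel] at this
    rcases hp.mem_or_mem h2 with h | h
    · exact hp.ne_top (Ideal.eq_top_of_isUnit_mem _ h (hc₀.map (algebraMap R B)))
    · exact hb h
  exact pure_smooth_abs (algebraMap R B w) hwB0 p p' hinf h12 h21 hD n hn hpn hp'n m hm u hu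
    hDD hup'

end Chart

section Leaf

variable {R E F : Type*} [CommRing R] [IsDomain R] [IsDiscreteValuationRing R]
  [HenselianLocalRing R] [IsAlgClosed (IsLocalRing.ResidueField R)]
  [Field E] [CharZero E] [Algebra R E] [IsFractionRing R E]
  [Field F] [Algebra E F] [Algebra R F] [IsScalarTower R E F]

/-- **P-S (purity at a smooth point).**  `n` lies on exactly one component `p`; then
`B_n / w = (B / p)_n` is a DVR, every divisorial ideal of `B_n` without vertical component is
principal (Nakayama), so the horizontal part `m · D` of `div u` is `m · div d⁻¹`; adjust `d` by an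
element of `p' ∖ (n ∪ p'^{(2)})` to make it a unit on the other component `p'`. -/
theorem purity_smooth (q m : ℕ) (hq : q.Prime) (hqR : (q : R) ∈ IsLocalRing.maximalIdeal R)
    (hm : 0 < m) (hqm : ¬ q ∣ m)
    (w : R) (x : F) (B : Subalgebra R F) (hB : ChartCtx E w x B)
    (c : SSChart w B) (hc : Incomparable c)
    (u : F) (hu : u ≠ 0) (hdiv : DivisibleDiv E m u) (hs : IsSplit B c u)
    (n : Ideal B) (hn : n.IsMaximal) (hwn : algebraMap R B w ∈ n)
    (h1 : ¬ (c.p₁ ≤ n ∧ c.p₂ ≤ n)) : PureAt B c m u n := by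
  have hle : c.p₁ * c.p₂ ≤ n := by
    refine le_trans Ideal.mul_le_inf ?_
    rw [c.inf_eq, Ideal.span_singleton_le_iff_mem]
    exact hwn
  rcases (Ideal.IsPrime.mul_le hn.isPrime).1 hle with h | h
  · have h2 : ¬ c.p₂ ≤ n := fun h2 => h1 ⟨h, h2⟩
    obtain ⟨d, hd0, hdn, hd1, hd2⟩ := purity_smooth_aux m hm w x B hB c u hu hdiv hs c.p₁ c.p₂
      c.prime₁ c.prime₂ c.inf_eq hc.1 hc.2 c.normal₁ hs.1 n hn h h2
    exact ⟨d, hd0, hdn, hd1, hd2⟩
  · have h2 : ¬ c.p₁ ≤ n := fun h2 => h1 ⟨h2, h⟩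
    obtain ⟨d, hd0, hdn, hd2, hd1⟩ := purity_smooth_aux m hm w x B hB c u hu hdiv hs c.p₂ c.p₁
      c.prime₂ c.prime₁ (by rw [inf_comm]; exact c.inf_eq) hc.2 hc.1 c.normal₂ hs.2 n hn h h2
    exact ⟨d, hd0, hdn, hd1, hd2⟩

end Leaf

end Fermat.Agent.A2.Alg.H754

end

end
-- ===== PACK-END A2/Alg/H754/PuritySmooth.lean

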