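import Fermat.Agent.Pack.S35.G3E0L0

-- ===== PACK-BEGIN S24/Inf/Gen.lean
section


/-!
# S24 / MOD-INF — expansions at `∞` of the functions `J((aτ+b)/d)` and distinctness

Everything is stated for an abstract function `J : ℍ → ℂ` satisfying
* `hinv : ∀ γ : SL(2, ℤ), ∀ τ, J (γ • τ) = J τ`,
* `hexp : InfExp 1 J infJq` (the `q`-expansion of `J` is the Prelude series `jq`).
-/

set_option autoImplicit false

noncomputable section

open HahnSeries ModularCurve UpperHalfPlane Complex Matrix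
open scoped Real MatrixGroups

namespace Fermat.Agent.S24

/-- The Prelude series `jq` with complex coefficients. -/
def infJq : LaurentSeries ℂ := coeffEmb ℂ jq

theorem infJq_coeff (n : ℤ) : infJq.coeff n = ((jq.coeff n : ℚ) : ℂ) := rfl

theorem infJq_coeff_neg_one : infJq.coeff (-1) = 1 := by
  rw [infJq_coeff, coeff_jq_neg_one]; simp

theorem infJq_coeff_of_lt {k : ℤ} (hk : k < -1) : infJq.coeff k = 0 := by
  rw [infJq_coeff, coeff_jq_of_lt hk]; simp

theorem infJq_order : infJq.order = -1 :=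
  inf_order_eq_of_coeff (by rw [infJq_coeff_neg_one]; exact one_ne_zero)
    (fun _ hm => infJq_coeff_of_lt hm)

theorem infJq_leadingCoeff : infJq.leadingCoeff = 1 := by
  rw [leadingCoeff_eq, infJq_order, infJq_coeff_neg_one]

theorem infJq_ne_zero : infJq ≠ 0 := by
  intro h
  have := infJq_coeff_neg_one
  rw [h] at this
  simp at this

/-- The expansion of `J((aτ+b)/d)` in `z = exp(2πiτ/N)`, where `e = aN/d`. -/
def infGenExp (e : ℕ) [NeZero e] (b : ℤ) (d : ℕ) : LaurentSeries ℂ :=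
  qExpand ℂ e (infTwist (infRoot b d) infJq)

theorem infGenExp_order (e : ℕ) [NeZero e] (b : ℤ) (d : ℕ) :
    (infGenExp e b d).order = -(e : ℤ) := by
  rw [infGenExp, inf_qExpand_order, infTwist_order, infJq_order]
  ring

theorem infGenExp_leadingCoeff (e : ℕ) [NeZero e] (b : ℤ) (d : ℕ) :
    (infGenExp e b d).leadingCoeff = (((infRoot b d)⁻¹ : ℂˣ) : ℂ) := by
  rw [infGenExp, inf_qExpand_leadingCoeff, infTwist_leadingCoeff, infJq_leadingCoeff, infJq_order,
    one_mul, zpow_neg_one]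

theorem infGenExp_ne_zero (e : ℕ) [NeZero e] (b : ℤ) (d : ℕ) : infGenExp e b d ≠ 0 := by
  rw [infGenExp, Ne, inf_qExpand_eq_zero_iff, infTwist_eq_zero_iff]
  exact infJq_ne_zero

section Abstract

variable {J : ℍ → ℂ}

/-- Expansion of `J((aτ+b)/d)` in `z = exp(2πiτ/N)` when `e·d = a·N`. -/
theorem inf_J_infAff_exp (hexp : InfExp 1 J infJq) {N a d e : ℕ} [NeZero e] (b : ℤ)
    (ha : 0 < a) (hd : 0 < d) (hN : 0 < N) (he : e * d = a * N) :
    InfExp N (fun τ => J (infAff a b d τ)) (infGenExp e b d) := by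
  have h := hexp.comp_infAff (e := e) b ha hd one_pos hN (by rw [mul_one]; exact he)
  rw [mul_one] at h
  exact h

/-- The function `τ ↦ J(dτ)` has the expansion `jq(z^{dN})` in `z = exp(2πiτ/N)`. -/
theorem inf_J_mul_exp (hexp : InfExp 1 J infJq) {N d : ℕ} (hd : 0 < d) (hN : 0 < N) :
    haveI : NeZero (d * N) := ⟨(Nat.mul_pos hd hN).ne'⟩
    InfExp N (fun τ => J (infAff d 0 1 τ)) (qExpand ℂ (d * N) infJq) := by
  have : NeZero (d * N) := ⟨(Nat.mul_pos hd hN).ne'⟩
  have h := inf_J_infAff_exp hexp (e := d * N) 0 hd one_pos hN (by ring)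
  rw [infGenExp, infRoot_zero, infTwist_one] at h
  exact h

/-- For `d ∣ N` and `γ ∈ SL₂(ℤ)`, the function `τ ↦ J(d·γτ)` has a convergent expansion in
`z = exp(2πiτ/N)`. -/
theorem inf_J_mul_smul_mem_expRing (hinv : ∀ (γ : SL(2, ℤ)) (τ : ℍ), J (γ • τ) = J τ)
    (hexp : InfExp 1 J infJq) {N d : ℕ} [NeZero N] (hdN : d ∣ N) (γ : SL(2, ℤ)) :
    (fun τ => J (infAff d 0 1 (γ • τ))) ∈ expRing N := by
  have hN : 0 < N := Nat.pos_of_ne_zero (NeZero.ne N)
  have hd : 0 < d := Nat.pos_of_dvd_of_pos hdN hN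
  obtain ⟨γ', a, d', b, ha, hd', had, h00, h01, h10, h11⟩ := inf_exists_hnf d hd γ
  have hd'N : d' ∣ N := (Dvd.intro_left a had).trans hdN
  obtain ⟨c, hc⟩ := hd'N
  have hc0 : 0 < c := by
    rcases Nat.eq_zero_or_pos c with h | h
    · rw [h, mul_zero] at hc; omega
    · exact h
  have : NeZero (a * c) := ⟨(Nat.mul_pos ha hc0).ne'⟩
  have h := inf_J_infAff_exp hexp (e := a * c) (N := N) b ha hd' hN (by rw [hc]; ring)
  refine ⟨_, h.congr fun τ => ?_⟩
  rw [inf_aff_smul_eq hd ha hd' γ γ' h00 h01 h10 h11 τ, hinv]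

end Abstract

end Fermat.Agent.S24

namespace Fermat.Agent.S24

open HahnSeries ModularCurve UpperHalfPlane Complex Matrix
open scoped Real MatrixGroups

theorem inf_SL2_mul_inv_10 (γ γ' : SL(2, ℤ)) :
    (γ * γ'⁻¹) 1 0 = γ 1 0 * γ' 1 1 - γ 1 1 * γ' 1 0 := by
  rw [Matrix.SpecialLinearGroup.SL2_inv_expl γ']
  simp [Matrix.SpecialLinearGroup.coe_mul, Matrix.mul_apply, Fin.sum_univ_two]
  ring

theorem infRoot_eq_iff {b b₁ : ℤ} {d : ℕ} (hd : 0 < d) :
    infRoot b d = infRoot b₁ d ↔ (d : ℤ) ∣ b - b₁ := by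
  have hd0 : (d : ℂ) ≠ 0 := by exact_mod_cast hd.ne'
  have hpi : (2 * π * Complex.I : ℂ) ≠ 0 := Complex.two_pi_I_ne_zero
  rw [← Units.val_inj, infRoot_coe, infRoot_coe, Complex.exp_eq_exp_iff_exists_int]
  constructor
  · rintro ⟨n, hn⟩
    refine ⟨n, ?_⟩
    field_simp at hn
    have h4 : b = b₁ + d * n := by exact_mod_cast hn
    linarith
  · rintro ⟨n, hn⟩
    refine ⟨n, ?_⟩
    have h1 : (b : ℂ) = b₁ + d * n := by
      have : b = b₁ + d * n := by linarith
      exact_mod_cast this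
    rw [h1]
    field_simp

section Distinct

variable {J : ℍ → ℂ}

/-- **Distinctness.**  If `J(N·γτ) = J(N·γ'τ)` for all `τ`, then `γ γ'⁻¹ ∈ Γ₀(N)`. -/
theorem inf_distinct (hinv : ∀ (γ : SL(2, ℤ)) (τ : ℍ), J (γ • τ) = J τ)
    (hexp : InfExp 1 J infJq) {N : ℕ} [NeZero N] (γ γ' : SL(2, ℤ))
    (h : ∀ τ, J (infAff N 0 1 (γ • τ)) = J (infAff N 0 1 (γ' • τ))) :
    γ * γ'⁻¹ ∈ CongruenceSubgroup.Gamma0 N := by
  have hN : 0 < N := Nat.pos_of_ne_zero (NeZero.ne N)
  obtain ⟨g, a, d, b, ha, hd, had, h00, h01, h10, h11⟩ := inf_exists_hnf N hN γ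
  obtain ⟨g', a', d', b', ha', hd', had', h00', h01', h10', h11'⟩ := inf_exists_hnf N hN γ'
  have : NeZero (a * a) := ⟨(Nat.mul_pos ha ha).ne'⟩
  have : NeZero (a' * a') := ⟨(Nat.mul_pos ha' ha').ne'⟩
  have e1 := inf_J_infAff_exp hexp (e := a * a) (N := N) b ha hd hN (by rw [← had]; ring)
  have e2 := inf_J_infAff_exp hexp (e := a' * a') (N := N) b' ha' hd' hN (by rw [← had']; ring)
  have hfun : ∀ τ, J (infAff a b d τ) = J (infAff a' b' d' τ) := by
    intro τ
    have := h τ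
    rwa [inf_aff_smul_eq hN ha hd γ g h00 h01 h10 h11 τ, hinv,
      inf_aff_smul_eq hN ha' hd' γ' g' h00' h01' h10' h11' τ, hinv] at this
  have heq : infGenExp (a * a) b d = infGenExp (a' * a') b' d' := e1.unique' e2 hfun
  -- compare orders
  have hord := congrArg HahnSeries.order heq
  rw [infGenExp_order, infGenExp_order] at hord
  have haa : a * a = a' * a' := by
    have : ((a * a : ℕ) : ℤ) = ((a' * a' : ℕ) : ℤ) := by linarith
    exact_mod_cast this
  have haeq : a = a' := Nat.mul_self_inj.mp haa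
  subst haeq
  have hdeq : d = d' := by
    have : a * d = a * d' := by rw [had, had']
    exact Nat.eq_of_mul_eq_mul_left ha this
  subst hdeq
  -- compare leading coefficients
  have hlc := congrArg HahnSeries.leadingCoeff heq
  rw [infGenExp_leadingCoeff, infGenExp_leadingCoeff] at hlc
  have hroot : infRoot b d = infRoot b' d := by
    have := Units.val_inj.mp hlc
    exact inv_injective this
  obtain ⟨k, hk⟩ := (infRoot_eq_iff hd).mp hroot
  -- conclude
  rw [CongruenceSubgroup.Gamma0_mem, ZMod.intCast_zmod_eq_zero_iff_dvd, inf_SL2_mul_inv_10]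
  have hNad : (N : ℤ) = a * d := by exact_mod_cast had.symm
  refine ⟨g 1 0 * g' 1 1 - g 1 1 * g' 1 0 - k * g 1 0 * g' 1 0, ?_⟩
  have hb : b = b' + d * k := by linarith
  rw [h10, h11, h10', h11', hNad, hb]
  ring

end Distinct

end Fermat.Agent.S24

end
end
-- ===== PACK-END S24/Inf/Gen.lean

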