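import Fermat.Prelude.Def_GaloisRep_ComplexConjugation
import Mathlib
import Fermat.Prelude.Def_EllipticCurve_FrobeniusTrace
import Fermat.Prelude.Def_CuspForm_Newforms
import Fermat.Prelude.Def_GaloisRep_LocalConditions
import Fermat.Prelude.Def_AlgebraicCurve_DivisorClassGroup
import Fermat.Prelude.Def_AlgebraicCurve_DivisorPushPull
import Fermat.Prelude.Def_AlgebraicCurve_Correspondence
import Fermat.Prelude.Def_ModularForm_HeckeOperator
import Fermat.Prelude.Def_CuspForm_HeckeAlgebra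
import Fermat.Prelude.Def_ModularCurve_PeriodHomPair
import Fermat.Statements.S37
import Fermat.Prelude.Def_ModularCurve_ReductionModL
import Fermat.Prelude.Thm_ModularForm_sturm_bound_Gamma0
import Mathlib.RingTheory.PowerSeries.Expand
import Fermat.Prelude.Def_ModularCurve_X0ModL
import Fermat.Prelude.Thm_ModularCurve_coeffMap_qExpand
import Mathlib.RingTheory.Ideal.KrullsHeightTheorem
import Mathlib.RingTheory.Ideal.MinimalPrime.Noetherian
import Mathlib.RingTheory.Ideal.BigOperators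
import Fermat.Agent.Pack.S35.G0E1L2
import Fermat.Agent.Pack.S35.G0E1L3
import Fermat.Agent.Pack.S35.G0E1L0
import Fermat.Agent.Pack.S35.G0E0L3
import Fermat.Agent.Pack.S35.G0E1L1
import Fermat.Agent.Pack.S35.G0E0L0
import Fermat.Agent.Pack.S35.G4E0L0
import Fermat.Agent.Pack.S35.G0E0L1
import Fermat.Agent.Pack.S35.G0E0L2

-- ===== PACK-BEGIN S35/H891/NewSub3.lean
section
/-
S35 top glue for the CUBIC relation (helper891): the adic eigenmodule of the NEW part, variant of
helper991's `S35.H991.exists_adic_eigenmodule_new` with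

* the degeneracy maps `f c` only required to be operator-equivariant on the `p`-power TORSION
  (this is the form in which helper155's `pushA_hecke`, `pushB_hecke` are proved);
* one more clause: CUBIC relations with integer coefficients on the `p`-power torsion of the new
  part are inherited by the module.

The module is built inside the Galois-stable subgroup
`newTorsSub p f = {x | x is p-power torsion ∧ ∀ γ c, f c (γ • x) = 0}`.
-/



set_option autoImplicit false
set_option linter.style.haveILetI false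

namespace Fermat.Agent.S35.H891

open TensorProduct IsLocalRing Fermat.Agent.S30.H529

section Transfer

variable (O : Type*) [CommRing O] [Module.Flat ℤ O]
variable {J J' : Type*} [AddCommGroup J] [AddCommGroup J']

/-- A map `J → J'` killing the `m`-torsion of `J` has a base change killing the `m`-torsion of
`O ⊗ J`. -/
theorem baseChange_eq_zero_of_torsion' (m : ℤ) (A : J →ₗ[ℤ] J')
    (hA : ∀ y : J, m • y = 0 → A y = 0) (x : O ⊗[ℤ] J) (hx : m • x = 0) :
    A.baseChange O x = 0 := by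
  obtain ⟨z, rfl⟩ := exists_lTensor_eq_of_smul_eq_zero O m x hx
  have h1 : A ∘ₗ (LinearMap.ker (m • (LinearMap.id : J →ₗ[ℤ] J))).subtype = 0 := by
    apply LinearMap.ext
    intro y
    have hy := y.2
    rw [LinearMap.mem_ker, LinearMap.smul_apply, LinearMap.id_apply] at hy
    simpa using hA y hy
  have h2 : A.baseChange O ((LinearMap.ker (m • (LinearMap.id : J →ₗ[ℤ] J))).subtype.lTensor O z)
      = (A ∘ₗ (LinearMap.ker (m • (LinearMap.id : J →ₗ[ℤ] J))).subtype).lTensor O z := by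
    rw [LinearMap.lTensor_comp]
    rfl
  rw [h2, h1, LinearMap.lTensor_zero, LinearMap.zero_apply]

end Transfer

section NewTorsSub

variable {G : Type*} [Group G] {J : Type*} [AddCommGroup J] [DistribMulAction G J]
variable {C : Type*} {J' : C → Type*} [∀ c, AddCommGroup (J' c)]

theorem smul_nsmul_comm (γ : G) (k : ℕ) (x : J) : γ • (k • x) = k • (γ • x) :=
  map_nsmul (DistribSMul.toAddMonoidHom J γ) k x

theorem smul_zsmul_comm (γ : G) (k : ℤ) (x : J) : γ • (k • x) = k • (γ • x) :=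
  map_zsmul (DistribSMul.toAddMonoidHom J γ) k x

/-- The `G`-stable subgroup of the `p`-power torsion of `J` cut out by the additive maps `f c`. -/
def newTorsSub (G : Type*) [Group G] [DistribMulAction G J] (p : ℕ) (f : ∀ c, J →+ J' c) :
    Submodule ℤ J where
  carrier := {x | (∃ n : ℕ, p ^ n • x = 0) ∧ ∀ (γ : G) (c : C), f c (γ • x) = 0}
  zero_mem' := by
    refine ⟨⟨0, smul_zero _⟩, ?_⟩
    intro γ c
    rw [smul_zero, map_zero]
  add_mem' := by
    rintro x y ⟨⟨n, hn⟩, hx⟩ ⟨⟨k, hk⟩, hy⟩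
    refine ⟨⟨n + k, ?_⟩, ?_⟩
    · have h1 : p ^ (n + k) • x = 0 := by rw [pow_add, mul_comm, mul_smul, hn, smul_zero]
      have h2 : p ^ (n + k) • y = 0 := by rw [pow_add, mul_smul, hk, smul_zero]
      rw [smul_add, h1, h2, add_zero]
    · intro γ c
      rw [smul_add, map_add, hx γ c, hy γ c, add_zero]
  smul_mem' := by
    rintro r x ⟨⟨n, hn⟩, hx⟩
    refine ⟨⟨n, ?_⟩, ?_⟩
    · rw [smul_comm, hn, smul_zero]
    · intro γ c
      rw [smul_zsmul_comm, map_zsmul, hx γ c, smul_zero]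

theorem mem_newTorsSub {p : ℕ} {f : ∀ c, J →+ J' c} {x : J} :
    x ∈ newTorsSub G p f ↔ (∃ n : ℕ, p ^ n • x = 0) ∧ ∀ (γ : G) (c : C), f c (γ • x) = 0 :=
  Iff.rfl

theorem smul_mem_newTorsSub {p : ℕ} {f : ∀ c, J →+ J' c} (γ : G) {x : J}
    (hx : x ∈ newTorsSub G p f) : γ • x ∈ newTorsSub G p f := by
  obtain ⟨⟨n, hn⟩, hx⟩ := hx
  refine ⟨⟨n, ?_⟩, ?_⟩
  · rw [← smul_nsmul_comm, hn, smul_zero]
  · intro γ' c
    rw [← mul_smul]
    exact hx (γ' * γ) c

/-- The Galois action on the new torsion subgroup. -/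
@[reducible] def newTorsSubAction (p : ℕ) (f : ∀ c, J →+ J' c) :
    DistribMulAction G (newTorsSub G p f) where
  smul γ x := ⟨γ • (x : J), smul_mem_newTorsSub γ x.2⟩
  one_smul x := Subtype.ext (one_smul G (x : J))
  mul_smul γ δ x := Subtype.ext (mul_smul γ δ (x : J))
  smul_zero γ := Subtype.ext (smul_zero γ)
  smul_add γ x y := Subtype.ext (smul_add γ (x : J) (y : J))

end NewTorsSub

section Main

/-- The absolute Galois group of `ℚ`. -/
local notation "Γℚ" => (AlgebraicClosure ℚ ≃ₐ[ℚ] AlgebraicClosure ℚ)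

variable {O : Type} [CommRing O] [IsDomain O] [IsDiscreteValuationRing O]
  [IsAdicComplete (maximalIdeal O) O] [CharZero O]

/-- **The adic eigenmodule of the new part**, torsion form, with the cubic clause. -/
theorem exists_adic_eigenmodule_new3 {p : ℕ} (hpO : (p : O) ∈ maximalIdeal O) (hp0 : p ≠ 0)
    {J : Type} [AddCommGroup J] [DistribMulAction Γℚ J]
    {ι : Type} (T : ι → J →+ J) (a : ι → O)
    (hT : ∀ (i : ι) (γ : Γℚ) (x : J), T i (γ • x) = γ • T i x)
    (hfin : {x : J | p • x = 0}.Finite)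
    (hsm : ∀ x : J, (∃ n : ℕ, p ^ n • x = 0) →
      ∃ L : IntermediateField ℚ (AlgebraicClosure ℚ), FiniteDimensional ℚ L ∧
        ∀ σ : Γℚ, (∀ y ∈ L, σ y = y) → σ • x = x)
    {C : Type} {J' : C → Type} [∀ c, AddCommGroup (J' c)]
    (T' : ∀ c, ι → J' c →+ J' c) (f : ∀ c, J →+ J' c)
    (hf : ∀ (c : C) (i : ι) (x : J), (∃ n : ℕ, p ^ n • x = 0) →
      f c (T i x) = T' c i (f c x))
    (hexcl : ∀ (c : C) (z : ℕ → O ⊗[ℤ] J' c), (p : O) • z 0 = 0 →
      (∀ n, (p : O) • z (n + 1) = z n) →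
      (∀ i n, tensorOp O (T' c) i (z n) = a i • z n) → z = 0)
    (v : ℕ → O ⊗[ℤ] J) (hv0 : (p : O) • v 0 = 0) (hv : ∀ n, (p : O) • v (n + 1) = v n)
    (hne : v ≠ 0) (heig : ∀ i n, tensorOp O T i (v n) = a i • v n) :
    ∃ (M : Type) (_ : AddCommGroup M) (_ : Module O M) (_ : Module.Free O M)
      (_ : Module.Finite O M) (ρ : Γℚ →* Module.End O M),
      Nontrivial M ∧ GaloisActionIsAdicContinuous O ρ ∧
      (∀ γ : Γℚ,
        (∀ x : J, (∃ n : ℕ, p ^ n • x = 0) → (∀ (γ' : Γℚ) (c : C), f c (γ' • x) = 0) →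
          γ • x = x) → ρ γ = 1) ∧
      (∀ (γ : Γℚ) (i : ι) (c : ℤ),
        (∀ x : J, (∃ n : ℕ, p ^ n • x = 0) → (∀ (γ' : Γℚ) (c' : C), f c' (γ' • x) = 0) →
          γ • γ • x - T i (γ • x) + c • x = 0) →
        ρ γ * ρ γ - a i • ρ γ + (c : O) • (1 : Module.End O M) = 0) ∧
      (∀ (γ : Γℚ) (c₂ c₁ c₀ : ℤ),
        (∀ x : J, (∃ n : ℕ, p ^ n • x = 0) → (∀ (γ' : Γℚ) (c' : C), f c' (γ' • x) = 0) →
          γ • γ • γ • x + c₂ • (γ • γ • x) + c₁ • (γ • x) + c₀ • x = 0) →
        ∀ m : M, ρ γ (ρ γ (ρ γ m)) + (c₂ : O) • ρ γ (ρ γ m) + (c₁ : O) • ρ γ m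
          + (c₀ : O) • m = 0) := by
  classical
  -- the new subgroup, with its Galois action
  let K : Submodule ℤ J := newTorsSub Γℚ p f
  letI actK : DistribMulAction Γℚ K := newTorsSubAction p f
  have hsmulK : ∀ (γ : Γℚ) (x : K), ((γ • x : K) : J) = γ • (x : J) := fun _ _ => rfl
  have htorsK : ∀ x : K, ∃ n : ℕ, p ^ n • (x : J) = 0 := fun x => x.2.1
  have hcoe_nsmul : ∀ (k : ℕ) (x : K), ((k • x : K) : J) = k • (x : J) := fun _ _ => rfl
  have hcoe_zsmul : ∀ (k : ℤ) (x : K), ((k • x : K) : J) = k • (x : J) := fun _ _ => rfl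
  -- the operators on `K`
  have hTK : ∀ (i : ι) (x : J), x ∈ K → T i x ∈ K := by
    rintro i x ⟨⟨n, hn⟩, hx⟩
    refine ⟨⟨n, ?_⟩, ?_⟩
    · rw [← map_nsmul, hn, map_zero]
    · intro γ c
      rw [← hT, hf c i (γ • x) ⟨n, by rw [← smul_nsmul_comm, hn, smul_zero]⟩, hx γ c, map_zero]
  let TK : ι → K →+ K := fun i =>
    { toFun := fun x => ⟨T i (x : J), hTK i (x : J) x.2⟩
      map_zero' := Subtype.ext (map_zero (T i))
      map_add' := fun x y => Subtype.ext (map_add (T i) (x : J) (y : J)) }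
  have hTKl : ∀ (i : ι) (x : K), ((TK i x : K) : J) = T i (x : J) := fun _ _ => rfl
  have hTKG : ∀ (i : ι) (γ : Γℚ) (x : K), TK i (γ • x) = γ • TK i x := by
    intro i γ x
    apply Subtype.ext
    rw [hTKl, hsmulK, hsmulK, hTKl]
    exact hT i γ (x : J)
  have hfinK : {x : K | p • x = 0}.Finite := by
    refine Set.Finite.of_finite_image (f := fun x : K => (x : J)) ?_
      (fun x _ y _ h => Subtype.ext h)
    refine hfin.subset ?_
    rintro _ ⟨x, hx, rfl⟩
    show p • (x : J) = 0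
    have : ((p • x : K) : J) = 0 := by rw [hx]; rfl
    exact this
  have hsmK : ∀ x : K, (∃ n : ℕ, p ^ n • x = 0) →
      ∃ L : IntermediateField ℚ (AlgebraicClosure ℚ), FiniteDimensional ℚ L ∧
        ∀ σ : Γℚ, (∀ y ∈ L, σ y = y) → σ • x = x := by
    rintro x -
    obtain ⟨L, hL, hLx⟩ := hsm (x : J) (htorsK x)
    exact ⟨L, hL, fun σ hσ => Subtype.ext (hLx σ hσ)⟩
  -- the eigen-sequence lies in `O ⊗ K`
  have hvpow : ∀ n, ((p ^ (n + 1) : ℕ) : ℤ) • v n = 0 := by
    intro n
    have h1 : (p : O) ^ (n + 1) • v n = 0 :=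
      tate_pow_succ_smul (ϖ := (p : O)) (t := tensorOp O T) (a := a) ⟨hv0, hv, heig⟩ n
    rw [← natCast_pow_smul]
    exact h1
  have hinj : Function.Injective (K.subtype.baseChange O) := by
    have := Module.Flat.lTensor_preserves_injective_linearMap (M := O) K.subtype
      K.injective_subtype
    exact this
  -- vanishing of the images under the degeneracy maps
  have hvan : ∀ (γ : Γℚ) (c : C) (n : ℕ),
      ((f c).toIntLinearMap.comp (actLin J γ)).baseChange O (v n) = 0 := by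
    intro γ c n
    have hz := hexcl c (fun n => ((f c).toIntLinearMap.comp (actLin J γ)).baseChange O (v n))
      (by rw [← map_smul, hv0, map_zero])
      (fun n => by rw [← map_smul, hv n])
      (fun i n => by
        show ((T' c i).toIntLinearMap.baseChange O)
            (((f c).toIntLinearMap.comp (actLin J γ)).baseChange O (v n))
          = a i • ((f c).toIntLinearMap.comp (actLin J γ)).baseChange O (v n)
        have h1 : ((T' c i).toIntLinearMap.comp ((f c).toIntLinearMap.comp (actLin J γ))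
            - ((f c).toIntLinearMap.comp (actLin J γ)).comp (T i).toIntLinearMap).baseChange O
              (v n) = 0 := by
          refine baseChange_eq_zero_of_torsion' O ((p ^ (n + 1) : ℕ) : ℤ) _ ?_ (v n) (hvpow n)
          intro y hy
          rw [natCast_zsmul] at hy
          show T' c i (f c (γ • y)) - f c (γ • T i y) = 0
          rw [← hT, hf c i (γ • y) ⟨n + 1, by rw [← smul_nsmul_comm, hy, smul_zero]⟩, sub_self]
        rw [LinearMap.baseChange_sub, LinearMap.sub_apply, sub_eq_zero,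
          LinearMap.baseChange_comp, LinearMap.baseChange_comp (f := (T i).toIntLinearMap),
          LinearMap.comp_apply, LinearMap.comp_apply] at h1
        rw [h1]
        have h2 : (T i).toIntLinearMap.baseChange O (v n) = a i • v n := heig i n
        rw [h2, map_smul])
    exact congrFun hz n
  have hlift : ∀ n, ∃ s : O ⊗[ℤ] K, K.subtype.baseChange O s = v n := by
    intro n
    have hfin' : {x : J | p ^ (n + 1) • x = 0}.Finite := finite_torsion_pow J p hfin (n + 1)
    obtain ⟨s, hs⟩ := Fermat.Agent.S35.H991.exists_lTensor_subtype_eq O (p ^ (n + 1)) hfin'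
      (C := Γℚ × C) (J' := fun γc => J' γc.2)
      (fun γc => (f γc.2).toIntLinearMap.comp (actLin J γc.1)) K
      (fun x hx0 hx => ⟨⟨n + 1, hx0⟩, fun γ c => hx (γ, c)⟩) (v n) (hvpow n)
      (fun γc => hvan γc.1 γc.2 n)
    exact ⟨s, hs⟩
  choose s hs using hlift
  have hs0 : (p : O) • s 0 = 0 := by
    apply hinj
    rw [map_smul, hs, hv0, map_zero]
  have hss : ∀ n, (p : O) • s (n + 1) = s n := by
    intro n
    apply hinj
    rw [map_smul, hs, hs, hv n]
  have hsne : s ≠ 0 := by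
    intro h
    apply hne
    funext n
    rw [← hs n, h]
    simp
  have hseig : ∀ i n, tensorOp O TK i (s n) = a i • s n := by
    intro i n
    apply hinj
    show K.subtype.baseChange O ((TK i).toIntLinearMap.baseChange O (s n))
      = K.subtype.baseChange O (a i • s n)
    have h1 : K.subtype.comp (TK i).toIntLinearMap
        = (T i).toIntLinearMap.comp K.subtype := by
      apply LinearMap.ext
      intro x
      rfl
    rw [← LinearMap.comp_apply, ← LinearMap.baseChange_comp, h1, LinearMap.baseChange_comp,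
      LinearMap.comp_apply, hs, map_smul, hs]
    exact heig i n
  obtain ⟨M, i1, i2, i3, i4, ρ, hnt, hcont, hunr, hquad, hcub⟩ :=
    exists_adic_galois_eigenmodule3 p O K TK a hpO hp0 hTKG hfinK hsmK s hs0 hss hsne hseig
  refine ⟨M, i1, i2, i3, i4, ρ, hnt, hcont, ?_, ?_, ?_⟩
  · intro γ hγ
    refine hunr γ ?_
    rintro x -
    apply Subtype.ext
    rw [hsmulK]
    exact hγ (x : J) (htorsK x) x.2.2
  · intro γ i c hγ
    refine hquad γ i c ?_
    rintro x -
    apply Subtype.ext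
    exact hγ (x : J) (htorsK x) x.2.2
  · intro γ c₂ c₁ c₀ hγ
    refine hcub γ c₂ c₁ c₀ ?_
    rintro x -
    apply Subtype.ext
    exact hγ (x : J) (htorsK x) x.2.2

end Main

end Fermat.Agent.S35.H891

end
-- ===== PACK-END S35/H891/NewSub3.lean

-- ===== PACK-BEGIN S30/H990/TwoDim1.lean
section
/-
S30 top glue (helper990): pure algebra, part 6: the rank one case and the conclusion of the
extraction.
-/


set_option autoImplicit false

namespace Fermat.Agent.S30.H990

open Module Polynomial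

section PiCong

variable {𝒪 : Type} [CommRing 𝒪]

/-- A vector with all coordinates in `I` lies in `I • ⊤`. -/
theorem pi_mem_smul_top (I : Ideal 𝒪) (y : Fin 2 → 𝒪) (hy : ∀ i, y i ∈ I) :
    y ∈ I • (⊤ : Submodule 𝒪 (Fin 2 → 𝒪)) := by
  classical
  rw [pi_eq_sum_univ' y]
  refine Submodule.sum_mem _ (fun i _ => ?_)
  exact Submodule.smul_mem_smul (hy i) Submodule.mem_top

end PiCong

section Constructions

variable {𝒪 M G : Type} [CommRing 𝒪] [IsDomain 𝒪] [IsPrincipalIdealRing 𝒪]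
  [AddCommGroup M] [Module 𝒪 M] [Module.Free 𝒪 M] [Module.Finite 𝒪 M] [Group G]
  (ρ : G →* Module.End 𝒪 M) (d : G →* 𝒪ˣ)

/-- The rank one case. -/
theorem twoDim_of_rank_one (v : M) (hv0 : v ≠ 0)
    (hsv : ∀ g, ∃ r : 𝒪, r ≠ 0 ∧ r • ρ g v ∈ Submodule.span 𝒪 {v}) :
    Nonempty (TwoDimOut ρ d) := by
  classical
  have hli : LinearIndependent 𝒪 (fun _ : Fin 1 => v) := by
    rw [linearIndependent_unique_iff]
    exact hv0
  have hrange : Set.range (fun _ : Fin 1 => v) = ({v} : Set M) := Set.range_const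
  set Λ : Submodule 𝒪 M := sat (Submodule.span 𝒪 ({v} : Set M)) with hΛ
  have hfr : Module.finrank 𝒪 Λ = 1 := by
    have := finrank_sat_span (fun _ : Fin 1 => v) hli
    rwa [hrange] at this
  have hstab : ∀ g, ∀ x ∈ Λ, ρ g x ∈ Λ := by
    apply sat_span_stable
    intro g x hx
    rw [Set.mem_singleton_iff] at hx
    subst hx
    exact hsv g
  have hvΛ : v ∈ Λ := le_sat _ (Submodule.subset_span (by simp))
  set ρΛ := restrictRep ρ Λ hstab with hρΛ
  -- the character
  let ψ : G →* 𝒪ˣ := (LinearMap.det.comp ρΛ).toHomUnits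
  have hψ : ∀ g (x : Λ), ρΛ g x = ((ψ g : 𝒪ˣ) : 𝒪) • x := fun g x =>
    apply_eq_det_smul hfr (ρΛ g) x
  have hψrel : ∀ g a, Rel ρ d g a →
      ((ψ g : 𝒪ˣ) : 𝒪) * ((ψ g : 𝒪ˣ) : 𝒪) - a * ((ψ g : 𝒪ˣ) : 𝒪) + ((d g : 𝒪ˣ) : 𝒪) = 0 := by
    intro g a hr
    have h1 := rel_apply ρΛ d (rel_restrictRep ρ d Λ hstab hr) ⟨v, hvΛ⟩
    rw [hψ g ⟨v, hvΛ⟩, map_smul, hψ g ⟨v, hvΛ⟩] at h1
    have h2 : (((ψ g : 𝒪ˣ) : 𝒪) * ((ψ g : 𝒪ˣ) : 𝒪) - a * ((ψ g : 𝒪ˣ) : 𝒪) + ((d g : 𝒪ˣ) : 𝒪))
        • (⟨v, hvΛ⟩ : Λ) = 0 := by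
      rw [← h1]
      module
    have hne : (⟨v, hvΛ⟩ : Λ) ≠ 0 := fun h => hv0 (congrArg Subtype.val h)
    exact (smul_eq_zero.mp h2).resolve_right hne
  -- the diagonal representation
  let δ : G →* (Fin 2 → 𝒪) :=
    { toFun := fun g => ![((ψ g : 𝒪ˣ) : 𝒪), ((d g * (ψ g)⁻¹ : 𝒪ˣ) : 𝒪)]
      map_one' := by
        ext i
        fin_cases i <;> simp
      map_mul' := fun g h => by
        ext i
        fin_cases i
        · simp
        · simp only [map_mul, mul_inv_rev, Units.val_mul, Fin.mk_one, Fin.isValue, Pi.mul_apply,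
            Matrix.cons_val_one, Matrix.cons_val_zero]
          ring }
  let A : G →* Matrix (Fin 2) (Fin 2) 𝒪 :=
    ((Matrix.diagonalRingHom (Fin 2) 𝒪 : (Fin 2 → 𝒪) →+* Matrix (Fin 2) (Fin 2) 𝒪) :
      (Fin 2 → 𝒪) →* Matrix (Fin 2) (Fin 2) 𝒪).comp δ
  let ρ₂ : G →* Module.End 𝒪 (Fin 2 → 𝒪) :=
    ((Matrix.toLinAlgEquiv' : Matrix (Fin 2) (Fin 2) 𝒪 ≃ₐ[𝒪] Module.End 𝒪 (Fin 2 → 𝒪)) :
      Matrix (Fin 2) (Fin 2) 𝒪 →* Module.End 𝒪 (Fin 2 → 𝒪)).comp A
  have hρ₂ : ∀ g, ρ₂ g = Matrix.toLin' (Matrix.diagonal (δ g)) := fun g => rfl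
  have hδ0 : ∀ g, δ g 0 = ((ψ g : 𝒪ˣ) : 𝒪) := fun g => rfl
  have hδ1 : ∀ g, δ g 1 = ((d g * (ψ g)⁻¹ : 𝒪ˣ) : 𝒪) := fun g => rfl
  refine ⟨{ V := Fin 2 → 𝒪
            finrank_eq := by simp
            ρ₂ := ρ₂
            charpoly_eq := ?_
            cong := ?_ }⟩
  · intro g a hr
    rw [hρ₂, Matrix.charpoly_toLin', Matrix.charpoly_fin_two, Matrix.trace_diagonal,
      Matrix.det_diagonal, Fin.sum_univ_two, Fin.prod_univ_two, hδ0, hδ1]
    have h := hψrel g a hr
    have hinv : ((ψ g : 𝒪ˣ) : 𝒪) * (((ψ g)⁻¹ : 𝒪ˣ) : 𝒪) = 1 := by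
      rw [← Units.val_mul, mul_inv_cancel, Units.val_one]
    have ha : ((ψ g : 𝒪ˣ) : 𝒪) + ((d g * (ψ g)⁻¹ : 𝒪ˣ) : 𝒪) = a := by
      rw [Units.val_mul]
      linear_combination (((ψ g)⁻¹ : 𝒪ˣ) : 𝒪) * h + (a - ((ψ g : 𝒪ˣ) : 𝒪)) * hinv
    have hd : ((ψ g : 𝒪ˣ) : 𝒪) * ((d g * (ψ g)⁻¹ : 𝒪ˣ) : 𝒪) = ((d g : 𝒪ˣ) : 𝒪) := by
      rw [Units.val_mul]
      linear_combination ((d g : 𝒪ˣ) : 𝒪) * hinv
    rw [ha, hd]
  · intro I g hg hdg x
    -- `ψ g - 1 ∈ I`
    have hψI : ((ψ g : 𝒪ˣ) : 𝒪) - 1 ∈ I := by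
      apply mem_of_smul_basis_mem hfr I
      intro y
      have hmem : ((ρΛ g y - y : Λ) : M) ∈ I • (⊤ : Submodule 𝒪 M) := hg (y : M)
      have := mem_smul_top_sat _ I _ hmem
      rwa [hψ g y, ← one_smul 𝒪 y, smul_smul, mul_one, ← sub_smul] at this
    have hinv : ((ψ g : 𝒪ˣ) : 𝒪) * (((ψ g)⁻¹ : 𝒪ˣ) : 𝒪) = 1 := by
      rw [← Units.val_mul, mul_inv_cancel, Units.val_one]
    have hδI : ((d g * (ψ g)⁻¹ : 𝒪ˣ) : 𝒪) - 1 ∈ I := by
      have : ((d g * (ψ g)⁻¹ : 𝒪ˣ) : 𝒪) - 1
          = (((ψ g)⁻¹ : 𝒪ˣ) : 𝒪) * ((((d g : 𝒪ˣ) : 𝒪) - 1) - (((ψ g : 𝒪ˣ) : 𝒪) - 1)) := by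
        rw [Units.val_mul]
        linear_combination hinv
      rw [this]
      exact I.mul_mem_left _ (I.sub_mem hdg hψI)
    apply pi_mem_smul_top
    intro i
    rw [hρ₂, Matrix.toLin'_apply, Pi.sub_apply, Matrix.mulVec_diagonal]
    have : δ g i * x i - x i = (δ g i - 1) * x i := by ring
    rw [this]
    apply I.mul_mem_right
    fin_cases i
    · exact hψI
    · exact hδI

/-- Conclusion of the extraction: from a nonzero finite free module on which every group element
satisfies a quadratic relation with constant term `d g`, and an involution `c` with `d c = -1`,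
one gets a rank two representation with the expected characteristic polynomials. -/
theorem exists_twoDim [Nontrivial M] (h2 : (2 : 𝒪) ≠ 0) (hrel : ∀ g, ∃ a, Rel ρ d g a)
    (c : G) (hc : c * c = 1) (hdc : d c = -1) : Nonempty (TwoDimOut ρ d) := by
  rcases exists_stable ρ d h2 hrel c hc hdc with ⟨v, hv0, hsv⟩ |
    ⟨u, w, ε, hε, hu0, hw0, hu, hw, hsu, hsw⟩
  · exact twoDim_of_rank_one ρ d v hv0 hsv
  · exact twoDim_of_rank_two ρ d hrel h2 c hdc u w ε hε hu0 hw0 hu hw hsu hsw

end Constructions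

end Fermat.Agent.S30.H990

end
-- ===== PACK-END S30/H990/TwoDim1.lean

-- ===== PACK-BEGIN S30/H990/Cyclo.lean
section
/-
S30 top glue (helper990): the `p`-adic cyclotomic character with values in a complete local ring
`𝒪` with `p ∈ 𝔪`: Frobenius elements, inertia, complex conjugation, continuity.
-/




set_option autoImplicit false

namespace Fermat.Agent.S30.H990

open Fermat.Agent.S55.H414 Fermat.Agent.S55.Bridge

section PadicHom

variable (p : ℕ) [Fact p.Prime]

/-- Ring homomorphisms from `ℤ_[p]` to a ring killed by a power of `p` are unique. -/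
theorem padicInt_ringHom_ext {R : Type*} [Ring R] (m : ℕ) (hm : (p : R) ^ m = 0)
    (f g : ℤ_[p] →+* R) : f = g := by
  have key : ∀ (h : ℤ_[p] →+* R) (x : ℤ_[p]), h x = ((x.appr m : ℕ) : R) := by
    intro h x
    have := PadicInt.appr_spec m x
    rw [Ideal.mem_span_singleton'] at this
    obtain ⟨y, hy⟩ := this
    have hx : x = y * (p : ℤ_[p]) ^ m + ((x.appr m : ℕ) : ℤ_[p]) := by rw [hy]; ring
    conv_lhs => rw [hx]
    rw [map_add, map_mul, map_pow, map_natCast, map_natCast, hm, mul_zero, zero_add]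
  ext x
  rw [key f, key g]

variable (𝒪 : Type) [CommRing 𝒪] [IsLocalRing 𝒪]
  [IsAdicComplete (IsLocalRing.maximalIdeal 𝒪) 𝒪]

/-- A complete local ring with `p` in its maximal ideal is a `ℤ_[p]`-algebra. -/
theorem exists_padicInt_ringHom (hp : (p : 𝒪) ∈ IsLocalRing.maximalIdeal 𝒪) :
    Nonempty (ℤ_[p] →+* 𝒪) := by
  classical
  have hpow : ∀ n, (p : 𝒪 ⧸ IsLocalRing.maximalIdeal 𝒪 ^ n) ^ n = 0 := by
    intro n
    have : (p : 𝒪 ⧸ IsLocalRing.maximalIdeal 𝒪 ^ n) ^ n
        = Ideal.Quotient.mk (IsLocalRing.maximalIdeal 𝒪 ^ n) ((p : 𝒪) ^ n) := by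
      simp
    rw [this, Ideal.Quotient.eq_zero_iff_mem]
    exact Ideal.pow_mem_pow hp n
  have hzero : ∀ n, ((p ^ n : ℕ) : 𝒪 ⧸ IsLocalRing.maximalIdeal 𝒪 ^ n) = 0 := by
    intro n
    rw [Nat.cast_pow]
    exact hpow n
  let f : (n : ℕ) → ℤ_[p] →+* 𝒪 ⧸ IsLocalRing.maximalIdeal 𝒪 ^ n := fun n =>
    haveI := ringChar.charP (𝒪 ⧸ IsLocalRing.maximalIdeal 𝒪 ^ n)
    (ZMod.castHom ((ringChar.spec _ _).mp (hzero n))
      (𝒪 ⧸ IsLocalRing.maximalIdeal 𝒪 ^ n)).comp (PadicInt.toZModPow n)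
  refine ⟨IsAdicComplete.liftRingHom (IsLocalRing.maximalIdeal 𝒪) f ?_⟩
  intro m n hle
  exact padicInt_ringHom_ext p m (hpow m) _ _

end PadicHom

section CycloZp

variable (p : ℕ) [Fact p.Prime]

/-- The `p`-adic cyclotomic character of `G_ℚ`. -/
noncomputable def cycloZp : GQ →* ℤ_[p]ˣ :=
  (cyclotomicCharacter (AlgebraicClosure ℚ) p).comp
    (MulSemiringAction.toRingAut GQ (AlgebraicClosure ℚ))

theorem cycloZp_spec (σ : GQ) (n : ℕ) :
    σ (zetaBar (p ^ n)) =
      zetaBar (p ^ n) ^ ((PadicInt.toZModPow n) ((cycloZp p σ : ℤ_[p]ˣ) : ℤ_[p])).val :=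
  cyclotomicCharacter.spec p (MulSemiringAction.toRingAut GQ (AlgebraicClosure ℚ) σ)
    (zetaBar (p ^ n)) (zetaBar_spec (p ^ n)).pow_eq_one

/-- The value of the cyclotomic character is determined by the action on the roots of unity
`ζ_{p^n}`. -/
theorem toZModPow_cycloZp (σ : GQ) (n : ℕ) (a : ℕ)
    (h : σ (zetaBar (p ^ n)) = zetaBar (p ^ n) ^ a) :
    (PadicInt.toZModPow n) ((cycloZp p σ : ℤ_[p]ˣ) : ℤ_[p]) = (a : ZMod (p ^ n)) := by
  have h1 := cycloZp_spec p σ n
  rw [h, pow_eq_pow_iff_natCast_eq (zetaBar_spec (p ^ n)), ZMod.natCast_zmod_val] at h1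
  exact h1.symm

theorem cycloZp_eq_of_forall (σ : GQ) (x : ℤ_[p])
    (h : ∀ n, ∃ a : ℕ, σ (zetaBar (p ^ n)) = zetaBar (p ^ n) ^ a ∧
      (a : ZMod (p ^ n)) = PadicInt.toZModPow n x) :
    ((cycloZp p σ : ℤ_[p]ˣ) : ℤ_[p]) = x := by
  rw [← PadicInt.ext_of_toZModPow]
  intro n
  obtain ⟨a, ha, hax⟩ := h n
  rw [toZModPow_cycloZp p σ n a ha, hax]

/-- Frobenius elements at `ℓ ≠ p`. -/
theorem cycloZp_frobenius {ℓ : ℕ} (hℓ : ℓ.Prime) (hℓp : ℓ ≠ p)
    (A : ValuationSubring (AlgebraicClosure ℚ)) (hA : A.LiesOverPrime ℓ) (σ : GQ)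
    (hσ : A.IsFrobeniusAt σ ℓ) : ((cycloZp p σ : ℤ_[p]ˣ) : ℤ_[p]) = (ℓ : ℤ_[p]) := by
  have hp : p.Prime := Fact.out
  apply cycloZp_eq_of_forall
  intro n
  have hNv : A.valuation ((p ^ n : ℕ) : AlgebraicClosure ℚ) = 1 := by
    rw [Nat.cast_pow, map_pow, val_prime_eq_one (A := A) hA hℓ hp hℓp, one_pow]
  refine ⟨ℓ, IsFrobeniusAt_apply_root hσ (NeZero.ne _) hNv (zetaBar_spec (p ^ n)).pow_eq_one, ?_⟩
  rw [map_natCast]

/-- Inertia at `q ≠ p`. -/
theorem cycloZp_inertia {q : ℕ} (hq : q.Prime) (hqp : q ≠ p)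
    (P : ValuationSubring (AlgebraicClosure ℚ)) (hP : P.LiesOverPrime q) (σ : GQ)
    (hσ : σ ∈ P.inertiaSubgroupIn ℚ) : cycloZp p σ = 1 := by
  have hp : p.Prime := Fact.out
  apply Units.ext
  rw [Units.val_one]
  apply cycloZp_eq_of_forall
  intro n
  have hNv : P.valuation ((p ^ n : ℕ) : AlgebraicClosure ℚ) = 1 := by
    rw [Nat.cast_pow, map_pow, val_prime_eq_one (A := P) hP hq hp hqp, one_pow]
  have h1 := inertia_le_fixingSubgroup_cycloLevel (p ^ n) P hNv hσ
  rw [mem_fixingSubgroup_cycloLevel_iff] at h1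
  refine ⟨1, by rw [h1, pow_one], ?_⟩
  rw [Nat.cast_one, map_one]

/-- Complex conjugation inverts roots of unity. -/
theorem complexConjugation_root {N : ℕ} (hN : N ≠ 0) {z : AlgebraicClosure ℚ} (hz : z ^ N = 1) :
    complexConjugation z = z⁻¹ := by
  apply complexEmbedding.toRingHom.injective
  show complexEmbedding (complexConjugation z) = complexEmbedding z⁻¹
  rw [complexEmbedding_complexConjugation, map_inv₀]
  have h1 : (complexEmbedding z) ^ N = 1 := by rw [← map_pow, hz, map_one]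
  exact (Complex.inv_eq_conj (Complex.norm_eq_one_of_pow_eq_one h1 hN)).symm

/-- Complex conjugation. -/
theorem cycloZp_complexConjugation : cycloZp p complexConjugation = -1 := by
  have hp : p.Prime := Fact.out
  apply Units.ext
  rw [Units.val_neg, Units.val_one]
  apply cycloZp_eq_of_forall
  intro n
  have hz := (zetaBar_spec (p ^ n)).pow_eq_one
  have hpos : 0 < p ^ n := pos_of_ne_zero (NeZero.ne _)
  refine ⟨p ^ n - 1, ?_, ?_⟩
  · rw [complexConjugation_root (NeZero.ne (p ^ n)) hz]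
    apply inv_eq_of_mul_eq_one_right
    rw [← pow_succ', Nat.sub_add_cancel hpos, hz]
  · rw [Nat.cast_sub hpos, Nat.cast_one, ZMod.natCast_self, zero_sub, map_neg, map_one]

/-- Continuity. -/
theorem cycloZp_sub_one_mem (n : ℕ) (σ : GQ) (h : ∀ x ∈ cycloLevel (p ^ n), σ x = x) :
    ((cycloZp p σ : ℤ_[p]ˣ) : ℤ_[p]) - 1 ∈ Ideal.span {(p : ℤ_[p]) ^ n} := by
  rw [← PadicInt.ker_toZModPow, RingHom.mem_ker, map_sub, map_one, sub_eq_zero]
  have h1 : σ (zetaBar (p ^ n)) = zetaBar (p ^ n) ^ 1 := by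
    rw [pow_one]
    exact h _ (zetaBar_mem_cycloLevel (p ^ n))
  rw [toZModPow_cycloZp p σ n 1 h1, Nat.cast_one]

end CycloZp

section Cyclo

variable (p : ℕ) [Fact p.Prime] (𝒪 : Type) [CommRing 𝒪] [IsLocalRing 𝒪]
  [IsAdicComplete (IsLocalRing.maximalIdeal 𝒪) 𝒪]

/-- The `p`-adic cyclotomic character with values in `𝒪`. -/
theorem exists_cyclo (hp : (p : 𝒪) ∈ IsLocalRing.maximalIdeal 𝒪) :
    ∃ d : GQ →* 𝒪ˣ,
      (∀ ℓ : ℕ, ℓ.Prime → ℓ ≠ p → ∀ A : ValuationSubring (AlgebraicClosure ℚ),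
        A.LiesOverPrime ℓ → ∀ σ : GQ, A.IsFrobeniusAt σ ℓ → ((d σ : 𝒪ˣ) : 𝒪) = (ℓ : 𝒪)) ∧
      (∀ q : ℕ, q.Prime → q ≠ p → ∀ P : ValuationSubring (AlgebraicClosure ℚ),
        P.LiesOverPrime q → ∀ σ ∈ P.inertiaSubgroupIn ℚ, d σ = 1) ∧
      d complexConjugation = -1 ∧
      (∀ (n : ℕ) (σ : GQ), (∀ x ∈ cycloLevel (p ^ n), σ x = x) →
        ((d σ : 𝒪ˣ) : 𝒪) - 1 ∈ IsLocalRing.maximalIdeal 𝒪 ^ n) := by
  obtain ⟨φ⟩ := exists_padicInt_ringHom p 𝒪 hp
  refine ⟨(Units.map (φ : ℤ_[p] →* 𝒪)).comp (cycloZp p), ?_, ?_, ?_, ?_⟩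
  · intro ℓ hℓ hℓp A hA σ hσ
    show φ ((cycloZp p σ : ℤ_[p]ˣ) : ℤ_[p]) = (ℓ : 𝒪)
    rw [cycloZp_frobenius p hℓ hℓp A hA σ hσ, map_natCast]
  · intro q hq hqp P hP σ hσ
    rw [MonoidHom.comp_apply, cycloZp_inertia p hq hqp P hP σ hσ, map_one]
  · rw [MonoidHom.comp_apply, cycloZp_complexConjugation]
    apply Units.ext
    show φ ((-1 : ℤ_[p]ˣ) : ℤ_[p]) = ((-1 : 𝒪ˣ) : 𝒪)
    rw [Units.val_neg, Units.val_one, Units.val_neg, Units.val_one, map_neg, map_one]
  · intro n σ h
    have h1 := cycloZp_sub_one_mem p n σ h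
    rw [Ideal.mem_span_singleton'] at h1
    obtain ⟨y, hy⟩ := h1
    show φ ((cycloZp p σ : ℤ_[p]ˣ) : ℤ_[p]) - 1 ∈ IsLocalRing.maximalIdeal 𝒪 ^ n
    have : φ ((cycloZp p σ : ℤ_[p]ˣ) : ℤ_[p]) - 1 = φ y * (p : 𝒪) ^ n := by
      rw [← map_one φ, ← map_sub, ← hy, map_mul, map_pow, map_natCast]
    rw [this]
    exact Ideal.mul_mem_left _ _ (Ideal.pow_mem_pow hp n)

end Cyclo

end Fermat.Agent.S30.H990

end
-- ===== PACK-END S30/H990/Cyclo.lean

-- ===== PACK-BEGIN S30/H990/Glue.lean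
section
/-
S30 top glue (helper990): assembly.
`result_of : ChebWeak → HasAdicEigenModules → <frozen statement S30>` (with `𝒪'' := 𝒪'`).
-/




set_option autoImplicit false

namespace Fermat.Agent.S30.H990

open Polynomial Fermat.Agent.S55.H414

section Assembly

variable {p N : ℕ} [Fact p.Prime] [NeZero N] {S : Finset ℕ}
  {𝒪 : Type} [CommRing 𝒪] [IsDomain 𝒪] [IsDiscreteValuationRing 𝒪]
  [IsAdicComplete (IsLocalRing.maximalIdeal 𝒪) 𝒪] [Finite (IsLocalRing.ResidueField 𝒪)]
  {χ : CuspForm.heckeAlgebra N 2 (↑S : Set ℕ) →+* 𝒪}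

/-- The quadratic relation modulo `𝔪 ^ n` for every element of `G_ℚ`. -/
theorem exists_rel_mod (hcheb : ChebWeak) (hpS : p ∈ S)
    (hNS : ∀ q : ℕ, q.Prime → q ∣ N → q ∈ S) (E : AdicEigenModule p N S 𝒪 χ)
    (d : GQ →* 𝒪ˣ)
    (hdfrob : ∀ ℓ : ℕ, ℓ.Prime → ℓ ≠ p → ∀ A : ValuationSubring (AlgebraicClosure ℚ),
      A.LiesOverPrime ℓ → ∀ σ : GQ, A.IsFrobeniusAt σ ℓ → ((d σ : 𝒪ˣ) : 𝒪) = (ℓ : 𝒪))
    (hdcont : ∀ (n : ℕ) (σ : GQ), (∀ x ∈ cycloLevel (p ^ n), σ x = x) →
      ((d σ : 𝒪ˣ) : 𝒪) - 1 ∈ IsLocalRing.maximalIdeal 𝒪 ^ n)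
    (g : GQ) (n : ℕ) :
    ∃ a : 𝒪, ∀ v : E.M, E.ρ g (E.ρ g v) - a • E.ρ g v + ((d g : 𝒪ˣ) : 𝒪) • v
      ∈ (IsLocalRing.maximalIdeal 𝒪 ^ n) • (⊤ : Submodule 𝒪 E.M) := by
  obtain ⟨L₁, hL₁fin, hL₁⟩ := E.cont n
  have : FiniteDimensional ℚ L₁ := hL₁fin
  have hLfin : FiniteDimensional ℚ ↥(L₁ ⊔ cycloLevel (p ^ n)) :=
    IntermediateField.finiteDimensional_sup L₁ (cycloLevel (p ^ n))
  obtain ⟨ℓ, hℓ, hℓS, A, hA, τ, hτ, j, hj⟩ := hcheb (L₁ ⊔ cycloLevel (p ^ n)) hLfin g S
  have hℓp : ℓ ≠ p := fun h => hℓS (h ▸ hpS)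
  have hℓN : ¬ ℓ ∣ N := fun h => hℓS (hNS ℓ hℓ h)
  have hℓS' : ℓ ∉ (↑S : Set ℕ) := fun h => hℓS (Finset.mem_coe.mp h)
  -- `g = τ ^ j * σ` with `σ` fixing `L`
  set σ : GQ := (τ ^ j)⁻¹ * g with hσ
  have hg : g = τ ^ j * σ := by rw [hσ, mul_inv_cancel_left]
  have hσfix : ∀ x ∈ L₁ ⊔ cycloLevel (p ^ n), σ x = x := by
    intro x hx
    have h1 : σ x = (τ ^ j)⁻¹ (g x) := rfl
    rw [h1, hj x hx]
    exact (τ ^ j).symm_apply_apply x
  have hs : ∀ v : E.M, E.ρ σ v - v
      ∈ (IsLocalRing.maximalIdeal 𝒪 ^ n) • (⊤ : Submodule 𝒪 E.M) :=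
    hL₁ σ (fun x hx => hσfix x ((le_sup_left : L₁ ≤ L₁ ⊔ cycloLevel (p ^ n)) hx))
  have hu : ((d σ : 𝒪ˣ) : 𝒪) - 1 ∈ IsLocalRing.maximalIdeal 𝒪 ^ n :=
    hdcont n σ (fun x hx =>
      hσfix x ((le_sup_right : cycloLevel (p ^ n) ≤ L₁ ⊔ cycloLevel (p ^ n)) hx))
  have hfrob := E.frob ℓ hℓ hℓN hℓS' A hA τ hτ
  obtain ⟨t, ht⟩ := lucas (E.ρ τ) (χ (CuspForm.heckeAlgebra.T hℓ hℓN hℓS')) (ℓ : 𝒪) hfrob j
  refine ⟨t, fun v => ?_⟩
  have key := rel_mod_of_mul (IsLocalRing.maximalIdeal 𝒪 ^ n) (E.ρ τ ^ j) (E.ρ σ) t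
    ((ℓ : 𝒪) ^ j) ((d σ : 𝒪ˣ) : 𝒪) ht hs hu v
  have hρg : E.ρ g = E.ρ τ ^ j * E.ρ σ := by rw [hg, map_mul, map_pow]
  have hdg : ((d g : 𝒪ˣ) : 𝒪) = (ℓ : 𝒪) ^ j * ((d σ : 𝒪ˣ) : 𝒪) := by
    rw [hg, map_mul, map_pow, Units.val_mul, Units.val_pow_eq_pow_val,
      hdfrob ℓ hℓ hℓp A hA τ hτ]
  rw [hρg, hdg]
  exact key

/-- From an adic eigenmodule to a two-dimensional adic Galois representation. -/
theorem exists_galoisRepAdic [CharZero 𝒪] (hcheb : ChebWeak) (hpS : p ∈ S)
    (hNS : ∀ q : ℕ, q.Prime → q ∣ N → q ∈ S)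
    (hp𝒪 : (p : 𝒪) ∈ IsLocalRing.maximalIdeal 𝒪) (E : AdicEigenModule p N S 𝒪 χ) :
    ∃ ρ : GaloisRepAdic 𝒪,
      (∀ (ℓ : ℕ) (hℓ : ℓ.Prime) (hℓN : ¬ ℓ ∣ N) (hℓS : ℓ ∉ (↑S : Set ℕ)),
        ∀ A : ValuationSubring (AlgebraicClosure ℚ), A.LiesOverPrime ℓ →
          ∀ σ : AlgebraicClosure ℚ ≃ₐ[ℚ] AlgebraicClosure ℚ, A.IsFrobeniusAt σ ℓ →
            LinearMap.charpoly (ρ.ρ σ) =
              X ^ 2 - C (χ (CuspForm.heckeAlgebra.T hℓ hℓN hℓS)) * X + C ((ℓ : 𝒪))) ∧
      (∀ q : ℕ, q.Prime → ¬ q ∣ N → q ≠ p → ρ.IsUnramifiedAt q) := by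
  obtain ⟨d, hdfrob, hdinert, hdc, hdcont⟩ := exists_cyclo p 𝒪 hp𝒪
  have hrel : ∀ g : GQ, ∃ a, Rel E.ρ d g a := fun g =>
    exists_rel_of_mod E.ρ d g (fun n => exists_rel_mod hcheb hpS hNS E d hdfrob hdcont g n)
  have h2 : (2 : 𝒪) ≠ 0 := two_ne_zero
  obtain ⟨T⟩ := exists_twoDim E.ρ d h2 hrel complexConjugation complexConjugation_mul_self hdc
  refine ⟨{ V := T.V
            finrank_eq := T.finrank_eq
            ρ := T.ρ₂
            isAdicContinuous := ?_ }, ?_, ?_⟩
  · intro n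
    obtain ⟨L₁, hL₁fin, hL₁⟩ := E.cont n
    have : FiniteDimensional ℚ L₁ := hL₁fin
    refine ⟨L₁ ⊔ cycloLevel (p ^ n),
      IntermediateField.finiteDimensional_sup L₁ (cycloLevel (p ^ n)), fun σ hσ v => ?_⟩
    refine T.cong (IsLocalRing.maximalIdeal 𝒪 ^ n) σ ?_ ?_ v
    · exact hL₁ σ (fun x hx => hσ x ((le_sup_left : L₁ ≤ L₁ ⊔ cycloLevel (p ^ n)) hx))
    · exact hdcont n σ (fun x hx =>
        hσ x ((le_sup_right : cycloLevel (p ^ n) ≤ L₁ ⊔ cycloLevel (p ^ n)) hx))
  · intro ℓ hℓ hℓN hℓS A hA σ hσ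
    have hℓp : ℓ ≠ p := fun h => hℓS (Finset.mem_coe.mpr (h ▸ hpS))
    have hr : Rel E.ρ d σ (χ (CuspForm.heckeAlgebra.T hℓ hℓN hℓS)) := by
      unfold Rel
      rw [hdfrob ℓ hℓ hℓp A hA σ hσ]
      exact E.frob ℓ hℓ hℓN hℓS A hA σ hσ
    have := T.charpoly_eq σ _ hr
    rw [hdfrob ℓ hℓ hℓp A hA σ hσ] at this
    exact this
  · intro q hq hqN hqp P hP σ hσ
    have h1 : E.ρ σ = 1 := E.unram q hq hqN hqp P hP σ hσ
    have h2 : d σ = 1 := hdinert q hq hqp P hP σ hσ
    have h3 := T.cong ⊥ σ (fun v => by rw [h1]; simp) (by rw [h2]; simp)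
    ext v
    have h4 := h3 v
    rw [Submodule.bot_smul, Submodule.mem_bot, sub_eq_zero] at h4
    simpa using h4

end Assembly

/-- **S30 from the Chebotarev hypothesis and the adic eigenmodules.** -/
theorem result_of (hcheb : ChebWeak) (hmod : HasAdicEigenModules) :
    ∀ (p : ℕ) [Fact p.Prime] (N : ℕ) [NeZero N] (S : Finset ℕ)
      (_hpS : p ∈ S) (_hNS : ∀ q : ℕ, q.Prime → q ∣ N → q ∈ S)
      (𝒪' : Type) [CommRing 𝒪'] [IsDomain 𝒪'] [IsDiscreteValuationRing 𝒪']
      [IsAdicComplete (IsLocalRing.maximalIdeal 𝒪') 𝒪'] [Finite (IsLocalRing.ResidueField 𝒪')]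
      [CharZero 𝒪'] (_hp𝒪' : (p : 𝒪') ∈ IsLocalRing.maximalIdeal 𝒪')
      (χ : CuspForm.heckeAlgebra N 2 (↑S : Set ℕ) →+* 𝒪'),
      ∃ (𝒪'' : Type) (_ : CommRing 𝒪'') (_ : IsDomain 𝒪'') (_ : IsDiscreteValuationRing 𝒪'')
        (_ : IsAdicComplete (IsLocalRing.maximalIdeal 𝒪'') 𝒪'')
        (_ : Finite (IsLocalRing.ResidueField 𝒪'')) (_ : CharZero 𝒪'')
        (_ : Algebra 𝒪' 𝒪'') (_ : Module.Finite 𝒪' 𝒪'') (_ : IsLocalHom (algebraMap 𝒪' 𝒪'')),
      Function.Injective (algebraMap 𝒪' 𝒪'') ∧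
      ∃ ρ : GaloisRepAdic 𝒪'',
        (∀ (ℓ : ℕ) (hℓ : ℓ.Prime) (hℓN : ¬ ℓ ∣ N) (hℓS : ℓ ∉ (↑S : Set ℕ)),
          ∀ A : ValuationSubring (AlgebraicClosure ℚ), A.LiesOverPrime ℓ →
            ∀ σ : AlgebraicClosure ℚ ≃ₐ[ℚ] AlgebraicClosure ℚ, A.IsFrobeniusAt σ ℓ →
              LinearMap.charpoly (ρ.ρ σ) =
                X ^ 2 - C (algebraMap 𝒪' 𝒪'' (χ (CuspForm.heckeAlgebra.T hℓ hℓN hℓS))) * X
                  + C ((ℓ : 𝒪''))) ∧
        (∀ q : ℕ, q.Prime → ¬ q ∣ N → q ≠ p → ρ.IsUnramifiedAt q) := by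
  intro p _ N _ S hpS hNS 𝒪' _ _ _ _ _ _ hp𝒪' χ
  obtain ⟨E⟩ := hmod p N S hpS hNS 𝒪' hp𝒪' χ
  obtain ⟨ρ, hρ1, hρ2⟩ := exists_galoisRepAdic hcheb hpS hNS hp𝒪' E
  exact ⟨𝒪', inferInstance, inferInstance, inferInstance, inferInstance, inferInstance,
    inferInstance, Algebra.id 𝒪', Module.Finite.self 𝒪', isLocalHom_id 𝒪',
    Function.injective_id, ρ, hρ1, hρ2⟩

end Fermat.Agent.S30.H990

end
-- ===== PACK-END S30/H990/Glue.lean

-- ===== PACK-BEGIN Lib/Cheb/FrobFinite.lean
section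





/-!
# CHEB, Tier 1, finite level: the qualitative Frobenius density theorem for Galois number fields

Assembly of the pieces `Z`, `B0` (helper761), `A` (helper764), `D` (helper943), `M` (helper993).
-/

set_option autoImplicit false

namespace Fermat.Agent.Lib.Cheb

/-- **Frobenius density theorem (qualitative), finite level.**  For a Galois number field `L`,
`σ ∈ Gal(L/ℚ)` and a finite set `S` of primes there are a prime `p ∉ S`, a prime `P` of `𝓞 L`
above `p` with trivial inertia and an arithmetic Frobenius `τ` at `P` with `⟨τ⟩ = ⟨σ⟩`. -/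
theorem frobFinite : Spec.FrobFiniteStatement :=
  H993.frobFinite H761.primeSum_statement H761.primeCountBound_statement H764.count
    H943.frobStatement

end Fermat.Agent.Lib.Cheb

end
-- ===== PACK-END Lib/Cheb/FrobFinite.lean

-- ===== PACK-BEGIN Lib/Cheb/H476/Bridge.lean
section





/-!
# CHEB piece F6 (bridge): `Spec.BridgeDivisionStatement` and `Spec.BridgeStatement`

From the finite-level statements (Galois number fields, primes of rings of integers, Mathlib's
`IsArithFrobAt`) to the Prelude-level statements (valuation subrings of `ℚ̄`, Prelude's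
`IsFrobeniusAt`, `inertiaSubgroupIn`).
-/

set_option autoImplicit false
set_option linter.style.haveILetI false

open NumberField
open scoped Pointwise

namespace Fermat.Agent.Lib.Cheb.H476

open Fermat.Agent.Lib.Cheb.Spec

/-- The normal closure of a finite extension of `ℚ` inside `ℚ̄` is a number field. -/
theorem numberField_normalClosure (E : IntermediateField ℚ Qb) [FiniteDimensional ℚ E] :
    NumberField (IntermediateField.normalClosure ℚ E Qb) :=
  { to_charZero := inferInstance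
    to_finiteDimensional := inferInstance }

/-- The normal closure of a finite extension of `ℚ` inside `ℚ̄` is Galois over `ℚ`. -/
theorem isGalois_normalClosure (E : IntermediateField ℚ Qb) [FiniteDimensional ℚ E] :
    IsGalois ℚ (IntermediateField.normalClosure ℚ E Qb) := by
  haveI : Algebra.IsAlgebraic ℚ Qb := AlgebraicClosure.isAlgebraic ℚ
  haveI : IsAlgClosure ℚ Qb := ⟨inferInstance, inferInstance⟩
  haveI : Normal ℚ Qb := IsAlgClosure.normal ℚ Qb
  have hn : Normal ℚ (IntermediateField.normalClosure ℚ E Qb) := normalClosure.normal ℚ E Qb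
  exact isGalois_iff.mpr ⟨inferInstance, hn⟩

theorem restrictNormal_coe (L : IntermediateField ℚ Qb) [Normal ℚ L] (g : GQ) (x : L) :
    ((AlgEquiv.restrictNormal g L x : L) : Qb) = g (x : Qb) :=
  AlgEquiv.restrictNormal_commutes g L x

theorem restrictNormal_pow (L : IntermediateField ℚ Qb) [Normal ℚ L] (g : GQ) (n : ℕ) :
    AlgEquiv.restrictNormal (g ^ n) L = (AlgEquiv.restrictNormal g L) ^ n :=
  map_pow (AlgEquiv.restrictNormalHom L) g n

/-- **F6 / W5, Tier 1**: the bridge from the finite-level Frobenius density theorem to the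
Prelude-level division statement. -/
theorem bridgeDivision : BridgeDivisionStatement := by
  intro hF E hE σ S
  haveI := hE
  haveI := numberField_normalClosure E
  haveI := isGalois_normalClosure E
  obtain ⟨p, P, τ, hp, hpS, hP, hpP, hI, hτ, hz⟩ :=
    hF (IntermediateField.normalClosure ℚ E Qb)
      (AlgEquiv.restrictNormal σ (IntermediateField.normalClosure ℚ E Qb)) S
  obtain ⟨A, φ, hAp, hφ, hin, hφτ⟩ :=
    exists_frobenius_restrict (IntermediateField.normalClosure ℚ E Qb) p hp P hP hpP hI τ hτ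
  have h1 : τ ∈ Subgroup.zpowers
      (AlgEquiv.restrictNormal σ (IntermediateField.normalClosure ℚ E Qb)) :=
    hz ▸ Subgroup.mem_zpowers τ
  have h2 : AlgEquiv.restrictNormal σ (IntermediateField.normalClosure ℚ E Qb) ∈
      Subgroup.zpowers τ := hz.symm ▸ Subgroup.mem_zpowers _
  obtain ⟨k, hk⟩ := (isOfFinOrder_of_finite
    (AlgEquiv.restrictNormal σ (IntermediateField.normalClosure ℚ E Qb))).mem_powers_iff_mem_zpowers.mpr h1
  obtain ⟨j, hj⟩ := (isOfFinOrder_of_finite τ).mem_powers_iff_mem_zpowers.mpr h2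
  replace hk : AlgEquiv.restrictNormal σ (IntermediateField.normalClosure ℚ E Qb) ^ k = τ := hk
  replace hj : τ ^ j = AlgEquiv.restrictNormal σ (IntermediateField.normalClosure ℚ E Qb) := hj
  have hEL : E ≤ IntermediateField.normalClosure ℚ E Qb := IntermediateField.le_normalClosure E
  refine ⟨p, A, φ, k, j, hp, hpS, hAp, hφ, ?_, ?_, ?_⟩
  · intro ι hι x hx
    exact hin ι hι ⟨x, hEL hx⟩
  · intro x hx
    have h3 := hφτ ⟨x, hEL hx⟩
    rw [← hk, ← restrictNormal_pow, restrictNormal_coe] at h3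
    exact h3
  · intro x hx
    have h4 : AlgEquiv.restrictNormal (φ ^ j) (IntermediateField.normalClosure ℚ E Qb) =
        AlgEquiv.restrictNormal σ (IntermediateField.normalClosure ℚ E Qb) := by
      rw [restrictNormal_pow, ← hj]
      congr 1
      apply AlgEquiv.ext
      intro y
      apply Subtype.ext
      rw [restrictNormal_coe]
      exact hφτ y
    have h5 := restrictNormal_coe (IntermediateField.normalClosure ℚ E Qb) (φ ^ j) ⟨x, hEL hx⟩
    rw [h4, restrictNormal_coe] at h5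
    exact h5.symm

/-- **Bridge, Tier 2**: from finite-level qualitative Chebotarev to the Prelude-level
statement. -/
theorem bridge : BridgeStatement := by
  intro hF E hE σ S
  haveI := hE
  haveI := numberField_normalClosure E
  haveI := isGalois_normalClosure E
  obtain ⟨p, P, hp, hpS, hP, hpP, hI, hτ⟩ :=
    hF (IntermediateField.normalClosure ℚ E Qb)
      (AlgEquiv.restrictNormal σ (IntermediateField.normalClosure ℚ E Qb)) S
  obtain ⟨A, φ, hAp, hφ, hin, hφτ⟩ :=
    exists_frobenius_restrict (IntermediateField.normalClosure ℚ E Qb) p hp P hP hpP hI _ hτ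
  have hEL : E ≤ IntermediateField.normalClosure ℚ E Qb := IntermediateField.le_normalClosure E
  refine ⟨p, A, φ, hp, hpS, hAp, hφ, ?_, ?_⟩
  · intro ι hι x hx
    exact hin ι hι ⟨x, hEL hx⟩
  · intro x hx
    have h3 := hφτ ⟨x, hEL hx⟩
    rw [restrictNormal_coe] at h3
    exact h3

end Fermat.Agent.Lib.Cheb.H476

end
-- ===== PACK-END Lib/Cheb/H476/Bridge.lean

-- ===== PACK-BEGIN Lib/Cheb/FrobeniusDivision.lean
section



/-!
# CHEB, Tier 1 END: the Frobenius division theorem over `ℚ̄`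

`Fermat.Agent.Lib.Cheb.frobeniusDivision : Spec.FrobeniusDivisionStatement`

For every finite extension `E ⊆ ℚ̄` of `ℚ`, every `σ ∈ Gal(ℚ̄/ℚ)` and every finite set `S` of
numbers there are a prime `ℓ ∉ S`, a valuation subring `A` of `ℚ̄` over `ℓ`, a Frobenius `τ` at `A`
(Prelude's `IsFrobeniusAt`) and exponents `k`, `j` such that the inertia group of `A` acts
trivially on `E`, `τ = σ ^ k` on `E` and `τ ^ j = σ` on `E`
(i.e. `τ|_E` and `σ|_E` generate the same cyclic subgroup: "Frobenius density, qualitative").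

Assembled from
* `frobFinite` (finite level, Galois number fields; pieces Z, B0, A, D, M), and
* `H476.bridgeDivision` (bridge F6 from the finite level to valuation subrings of `ℚ̄`).
-/

set_option autoImplicit false

namespace Fermat.Agent.Lib.Cheb

/-- **Frobenius division theorem** (qualitative Frobenius density theorem over `ℚ̄`). -/
theorem frobeniusDivision : Spec.FrobeniusDivisionStatement :=
  H476.bridgeDivision frobFinite

end Fermat.Agent.Lib.Cheb

end
-- ===== PACK-END Lib/Cheb/FrobeniusDivision.lean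

-- ===== PACK-BEGIN S30/H990/Final.lean
section
/-
S30 top glue (helper990): the frozen statement S30 from the adic eigenmodules alone
(the Chebotarev input is Tier 1 of the shared CHEB library).
-/




set_option autoImplicit false

namespace Fermat.Agent.S30.H990

open Polynomial

/-- **S30 from the adic eigenmodules.** -/
theorem result_of_hasAdicEigenModules (hmod : HasAdicEigenModules) :
    ∀ (p : ℕ) [Fact p.Prime] (N : ℕ) [NeZero N] (S : Finset ℕ)
      (_hpS : p ∈ S) (_hNS : ∀ q : ℕ, q.Prime → q ∣ N → q ∈ S)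
      (𝒪' : Type) [CommRing 𝒪'] [IsDomain 𝒪'] [IsDiscreteValuationRing 𝒪']
      [IsAdicComplete (IsLocalRing.maximalIdeal 𝒪') 𝒪'] [Finite (IsLocalRing.ResidueField 𝒪')]
      [CharZero 𝒪'] (_hp𝒪' : (p : 𝒪') ∈ IsLocalRing.maximalIdeal 𝒪')
      (χ : CuspForm.heckeAlgebra N 2 (↑S : Set ℕ) →+* 𝒪'),
      ∃ (𝒪'' : Type) (_ : CommRing 𝒪'') (_ : IsDomain 𝒪'') (_ : IsDiscreteValuationRing 𝒪'')
        (_ : IsAdicComplete (IsLocalRing.maximalIdeal 𝒪'') 𝒪'')
        (_ : Finite (IsLocalRing.ResidueField 𝒪'')) (_ : CharZero 𝒪'')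
        (_ : Algebra 𝒪' 𝒪'') (_ : Module.Finite 𝒪' 𝒪'') (_ : IsLocalHom (algebraMap 𝒪' 𝒪'')),
      Function.Injective (algebraMap 𝒪' 𝒪'') ∧
      ∃ ρ : GaloisRepAdic 𝒪'',
        (∀ (ℓ : ℕ) (hℓ : ℓ.Prime) (hℓN : ¬ ℓ ∣ N) (hℓS : ℓ ∉ (↑S : Set ℕ)),
          ∀ A : ValuationSubring (AlgebraicClosure ℚ), A.LiesOverPrime ℓ →
            ∀ σ : AlgebraicClosure ℚ ≃ₐ[ℚ] AlgebraicClosure ℚ, A.IsFrobeniusAt σ ℓ →
              LinearMap.charpoly (ρ.ρ σ) =
                X ^ 2 - C (algebraMap 𝒪' 𝒪'' (χ (CuspForm.heckeAlgebra.T hℓ hℓN hℓS))) * X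
                  + C ((ℓ : 𝒪''))) ∧
        (∀ q : ℕ, q.Prime → ¬ q ∣ N → q ≠ p → ρ.IsUnramifiedAt q) :=
  result_of (chebWeak_of_frobeniusDivision Fermat.Agent.Lib.Cheb.frobeniusDivision) hmod

end Fermat.Agent.S30.H990

end
-- ===== PACK-END S30/H990/Final.lean

-- ===== PACK-BEGIN S35/H991/Glue.lean
section
/-
S35 top glue (helper991): the frozen statement S35 from ONE tower input.

`HasNewformEigenModules` : for the eigencharacter of a weight-2 NEWFORM `g` of level `M` there is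
an adic eigenmodule (helper990's `S30.H990.AdicEigenModule`: nonzero finite free `𝒪'`-module with
adically continuous Galois action, unramified outside `M·λ`, Eichler–Shimura relation at good
primes) on which, in addition, every Frobenius lift `σ` at every prime `q ≠ λ`, `q ‖ M`, satisfies
the BAD-FROBENIUS relation `(σ² - 1)(σ² - q²) = 0`.

`result_of : HasNewformEigenModules → <frozen statement S35>`   (with `𝒪'' := 𝒪'`).

Proof: helper990's extraction (`exists_cyclo`, `exists_rel_mod`, `exists_rel_of_mod`,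
`exists_twoDim`, all on main) gives a rank-2 `ρ₂` with
`charpoly ρ₂(g) = X² - a X + d(g)` for EVERY `a` with `ρ(g)² - a ρ(g) + d(g) = 0` on the
eigenmodule, `d` = cyclotomic character, `d(σ) = q` for a Frobenius lift at `q ≠ λ`.
The algebraic core (`BadFrobAlg.lean`) shows `a = ±(q+1)`.
-/





set_option autoImplicit false

namespace Fermat.Agent.S35.H991

open Polynomial Fermat.Agent.S30.H990 Fermat.Agent.S55.H414

section Assembly

variable {p N : ℕ} [Fact p.Prime] [NeZero N] {S : Finset ℕ}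
  {𝒪 : Type} [CommRing 𝒪] [IsDomain 𝒪] [IsDiscreteValuationRing 𝒪]
  [IsAdicComplete (IsLocalRing.maximalIdeal 𝒪) 𝒪] [Finite (IsLocalRing.ResidueField 𝒪)]
  {χ : CuspForm.heckeAlgebra N 2 (↑S : Set ℕ) →+* 𝒪}

/-- The bad-Frobenius clause for an adic eigenmodule: at every prime `q ≠ p` exactly dividing
the level, every Frobenius lift `σ` satisfies `(σ² - 1)(σ² - q²) = 0` on the module. -/
def HasBadFrob (E : AdicEigenModule p N S 𝒪 χ) : Prop :=
  ∀ q : ℕ, q.Prime → q ≠ p → q ∣ N → ¬ q ^ 2 ∣ N →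
    ∀ A : ValuationSubring (AlgebraicClosure ℚ), A.LiesOverPrime q →
      ∀ σ : GQ, A.IsFrobeniusAt σ q → BadFrobRel (q : 𝒪) (E.ρ σ)

/-- From an adic eigenmodule with the bad-Frobenius clause to a two-dimensional adic Galois
representation with the Frobenius characteristic polynomials of S35. -/
theorem exists_galoisRepAdic_badFrob [CharZero 𝒪] (hcheb : ChebWeak) (hpS : p ∈ S)
    (hNS : ∀ q : ℕ, q.Prime → q ∣ N → q ∈ S)
    (hp𝒪 : (p : 𝒪) ∈ IsLocalRing.maximalIdeal 𝒪) (E : AdicEigenModule p N S 𝒪 χ)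
    (hE : HasBadFrob E) :
    ∃ ρ : GaloisRepAdic 𝒪,
      (∀ (ℓ : ℕ) (hℓ : ℓ.Prime) (hℓN : ¬ ℓ ∣ N) (hℓS : ℓ ∉ (↑S : Set ℕ)),
        ∀ A : ValuationSubring (AlgebraicClosure ℚ), A.LiesOverPrime ℓ →
          ∀ σ : AlgebraicClosure ℚ ≃ₐ[ℚ] AlgebraicClosure ℚ, A.IsFrobeniusAt σ ℓ →
            LinearMap.charpoly (ρ.ρ σ) =
              X ^ 2 - C (χ (CuspForm.heckeAlgebra.T hℓ hℓN hℓS)) * X + C ((ℓ : 𝒪))) ∧
      (∀ q : ℕ, q.Prime → ¬ q ∣ N → q ≠ p → ρ.IsUnramifiedAt q) ∧
      (∀ q : ℕ, q.Prime → q ≠ p → q ∣ N → ¬ q ^ 2 ∣ N →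
        ∀ A : ValuationSubring (AlgebraicClosure ℚ), A.LiesOverPrime q →
          ∀ σ : AlgebraicClosure ℚ ≃ₐ[ℚ] AlgebraicClosure ℚ, A.IsFrobeniusAt σ q →
            LinearMap.charpoly (ρ.ρ σ) = X ^ 2 - C ((q : 𝒪) + 1) * X + C ((q : 𝒪)) ∨
            LinearMap.charpoly (ρ.ρ σ) = X ^ 2 + C ((q : 𝒪) + 1) * X + C ((q : 𝒪))) := by
  obtain ⟨d, hdfrob, hdinert, hdc, hdcont⟩ := exists_cyclo p 𝒪 hp𝒪
  have hrel : ∀ g : GQ, ∃ a, S30.H990.Rel E.ρ d g a := fun g =>
    exists_rel_of_mod E.ρ d g (fun n => exists_rel_mod hcheb hpS hNS E d hdfrob hdcont g n)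
  have h2 : (2 : 𝒪) ≠ 0 := two_ne_zero
  obtain ⟨T⟩ := exists_twoDim E.ρ d h2 hrel complexConjugation complexConjugation_mul_self hdc
  refine ⟨{ V := T.V
            finrank_eq := T.finrank_eq
            ρ := T.ρ₂
            isAdicContinuous := ?_ }, ?_, ?_, ?_⟩
  · intro n
    obtain ⟨L₁, hL₁fin, hL₁⟩ := E.cont n
    have : FiniteDimensional ℚ L₁ := hL₁fin
    refine ⟨L₁ ⊔ cycloLevel (p ^ n),
      IntermediateField.finiteDimensional_sup L₁ (cycloLevel (p ^ n)), fun σ hσ v => ?_⟩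
    refine T.cong (IsLocalRing.maximalIdeal 𝒪 ^ n) σ ?_ ?_ v
    · exact hL₁ σ (fun x hx => hσ x ((le_sup_left : L₁ ≤ L₁ ⊔ cycloLevel (p ^ n)) hx))
    · exact hdcont n σ (fun x hx =>
        hσ x ((le_sup_right : cycloLevel (p ^ n) ≤ L₁ ⊔ cycloLevel (p ^ n)) hx))
  · intro ℓ hℓ hℓN hℓS A hA σ hσ
    have hℓp : ℓ ≠ p := fun h => hℓS (Finset.mem_coe.mpr (h ▸ hpS))
    have hr : S30.H990.Rel E.ρ d σ (χ (CuspForm.heckeAlgebra.T hℓ hℓN hℓS)) := by
      unfold S30.H990.Rel
      rw [hdfrob ℓ hℓ hℓp A hA σ hσ]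
      exact E.frob ℓ hℓ hℓN hℓS A hA σ hσ
    have := T.charpoly_eq σ _ hr
    rw [hdfrob ℓ hℓ hℓp A hA σ hσ] at this
    exact this
  · intro q hq hqN hqp P hP σ hσ
    have h1 : E.ρ σ = 1 := E.unram q hq hqN hqp P hP σ hσ
    have h2 : d σ = 1 := hdinert q hq hqp P hP σ hσ
    have h3 := T.cong ⊥ σ (fun v => by rw [h1]; simp) (by rw [h2]; simp)
    ext v
    have h4 := h3 v
    rw [Submodule.bot_smul, Submodule.mem_bot, sub_eq_zero] at h4
    simpa using h4
  · intro q hq hqp hqN hq2 A hA σ hσ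
    obtain ⟨a, ha⟩ := hrel σ
    have hdσ : ((d σ : 𝒪ˣ) : 𝒪) = (q : 𝒪) := hdfrob q hq hqp A hA σ hσ
    have hq0 : (q : 𝒪) ≠ 0 := Nat.cast_ne_zero.mpr hq.ne_zero
    have hquad : ∀ v : E.M, E.ρ σ (E.ρ σ v) - a • E.ρ σ v + (q : 𝒪) • v = 0 := by
      intro v
      have := rel_apply E.ρ d ha v
      rwa [hdσ] at this
    have hch := T.charpoly_eq σ a ha
    rw [hdσ] at hch
    rcases eq_or_eq_neg_of_rel_of_badFrob hq0 hquad (hE q hq hqp hqN hq2 A hA σ hσ) with h | h
    · left
      show LinearMap.charpoly (T.ρ₂ σ) = _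
      rw [hch, h]
    · right
      show LinearMap.charpoly (T.ρ₂ σ) = _
      rw [hch, h, map_neg, neg_mul, sub_neg_eq_add]

end Assembly

/-- **The tower hypothesis of S35**: the eigencharacter of a newform has an adic eigenmodule
satisfying the bad-Frobenius relation at the primes exactly dividing the level. -/
def HasNewformEigenModules : Prop :=
  ∀ (M : ℕ) [NeZero M] (g : CuspForm (CongruenceSubgroup.Gamma0 M) 2), g.IsNewform →
    ∀ (lam : ℕ) [Fact lam.Prime] (S : Finset ℕ)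
      (O' : Type) [CommRing O'] [IsDomain O'] [IsDiscreteValuationRing O']
      [IsAdicComplete (IsLocalRing.maximalIdeal O') O'] [Finite (IsLocalRing.ResidueField O')]
      [CharZero O'] (_hlamO' : (lam : O') ∈ IsLocalRing.maximalIdeal O')
      (chig : CuspForm.heckeAlgebra M 2 (↑S : Set ℕ) →+* ℂ)
      (_hchig : ∀ (ℓ : ℕ) (hℓ : ℓ.Prime) (hℓM : ¬ ℓ ∣ M) (hℓS : ℓ ∉ (↑S : Set ℕ)),
        chig (CuspForm.heckeAlgebra.T hℓ hℓM hℓS) = ModularFormClass.qCoeff g ℓ)
      (iota : chig.range →+* O')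
      (_hlamS : lam ∈ S) (_hMS : ∀ q : ℕ, q.Prime → q ∣ M → q ∈ S),
      ∃ E : AdicEigenModule lam M S O' (iota.comp chig.rangeRestrict), HasBadFrob E

/-- **S35 from the Chebotarev hypothesis and the newform eigenmodules.** -/
theorem result_of_chebWeak (hcheb : ChebWeak) (hmod : HasNewformEigenModules)
    {M : ℕ} [NeZero M] {g : CuspForm (CongruenceSubgroup.Gamma0 M) 2} (hg : g.IsNewform)
    (lam : ℕ) [Fact lam.Prime]
    (S : Finset ℕ)
    (O' : Type) [CommRing O'] [IsDomain O'] [IsDiscreteValuationRing O']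
    [IsAdicComplete (IsLocalRing.maximalIdeal O') O'] [Finite (IsLocalRing.ResidueField O')]
    [CharZero O'] (hlamO' : (lam : O') ∈ IsLocalRing.maximalIdeal O')
    (chig : CuspForm.heckeAlgebra M 2 (↑S : Set ℕ) →+* ℂ)
    (hchig : ∀ (ℓ : ℕ) (hℓ : ℓ.Prime) (hℓM : ¬ ℓ ∣ M) (hℓS : ℓ ∉ (↑S : Set ℕ)),
      chig (CuspForm.heckeAlgebra.T hℓ hℓM hℓS) = ModularFormClass.qCoeff g ℓ)
    (iota : chig.range →+* O')
    (hlamS : lam ∈ S) (hMS : ∀ q : ℕ, q.Prime → q ∣ M → q ∈ S) :
    ∃ (O'' : Type) (_ : CommRing O'') (_ : IsDomain O'') (_ : IsDiscreteValuationRing O'')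
      (_ : IsAdicComplete (IsLocalRing.maximalIdeal O'') O'') (_ : Finite (IsLocalRing.ResidueField O''))
      (_ : CharZero O'') (_ : Algebra O' O'') (_ : Module.Finite O' O'') (_ : IsLocalHom (algebraMap O' O'')),
      Function.Injective (algebraMap O' O'') ∧
      ∃ ρ : GaloisRepAdic O'',
        (∀ (ℓ : ℕ) (hℓ : ℓ.Prime) (hℓM : ¬ ℓ ∣ M) (hℓS : ℓ ∉ (↑S : Set ℕ)),
          ∀ A : ValuationSubring (AlgebraicClosure ℚ), A.LiesOverPrime ℓ →
            ∀ σ : AlgebraicClosure ℚ ≃ₐ[ℚ] AlgebraicClosure ℚ, A.IsFrobeniusAt σ ℓ →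
              LinearMap.charpoly (ρ.ρ σ) =
                X ^ 2 - C (algebraMap O' O'' ((iota.comp chig.rangeRestrict) (CuspForm.heckeAlgebra.T hℓ hℓM hℓS))) * X
                  + C ((ℓ : O''))) ∧
        (∀ q : ℕ, q.Prime → q ≠ lam → q ∣ M → ¬ q ^ 2 ∣ M →
          ∀ A : ValuationSubring (AlgebraicClosure ℚ), A.LiesOverPrime q →
            ∀ σ : AlgebraicClosure ℚ ≃ₐ[ℚ] AlgebraicClosure ℚ, A.IsFrobeniusAt σ q →
              LinearMap.charpoly (ρ.ρ σ) = X ^ 2 - C ((q : O'') + 1) * X + C ((q : O'')) ∨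
              LinearMap.charpoly (ρ.ρ σ) = X ^ 2 + C ((q : O'') + 1) * X + C ((q : O''))) := by
  obtain ⟨E, hE⟩ := hmod M g hg lam S O' hlamO' chig hchig iota hlamS hMS
  obtain ⟨ρ, hρ1, -, hρ3⟩ := exists_galoisRepAdic_badFrob hcheb hlamS hMS hlamO' E hE
  exact ⟨O', inferInstance, inferInstance, inferInstance, inferInstance, inferInstance,
    inferInstance, Algebra.id O', Module.Finite.self O', isLocalHom_id O',
    Function.injective_id, ρ, hρ1, hρ3⟩

/-- **S35 from the newform eigenmodules** (Chebotarev = Tier 1 of the shared CHEB library). -/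
theorem result_of (hmod : HasNewformEigenModules)
    {M : ℕ} [NeZero M] {g : CuspForm (CongruenceSubgroup.Gamma0 M) 2} (hg : g.IsNewform)
    (lam : ℕ) [Fact lam.Prime]
    (S : Finset ℕ)
    (O' : Type) [CommRing O'] [IsDomain O'] [IsDiscreteValuationRing O']
    [IsAdicComplete (IsLocalRing.maximalIdeal O') O'] [Finite (IsLocalRing.ResidueField O')]
    [CharZero O'] (hlamO' : (lam : O') ∈ IsLocalRing.maximalIdeal O')
    (chig : CuspForm.heckeAlgebra M 2 (↑S : Set ℕ) →+* ℂ)
    (hchig : ∀ (ℓ : ℕ) (hℓ : ℓ.Prime) (hℓM : ¬ ℓ ∣ M) (hℓS : ℓ ∉ (↑S : Set ℕ)),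
      chig (CuspForm.heckeAlgebra.T hℓ hℓM hℓS) = ModularFormClass.qCoeff g ℓ)
    (iota : chig.range →+* O')
    (hlamS : lam ∈ S) (hMS : ∀ q : ℕ, q.Prime → q ∣ M → q ∈ S) :
    ∃ (O'' : Type) (_ : CommRing O'') (_ : IsDomain O'') (_ : IsDiscreteValuationRing O'')
      (_ : IsAdicComplete (IsLocalRing.maximalIdeal O'') O'') (_ : Finite (IsLocalRing.ResidueField O''))
      (_ : CharZero O'') (_ : Algebra O' O'') (_ : Module.Finite O' O'') (_ : IsLocalHom (algebraMap O' O'')),
      Function.Injective (algebraMap O' O'') ∧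
      ∃ ρ : GaloisRepAdic O'',
        (∀ (ℓ : ℕ) (hℓ : ℓ.Prime) (hℓM : ¬ ℓ ∣ M) (hℓS : ℓ ∉ (↑S : Set ℕ)),
          ∀ A : ValuationSubring (AlgebraicClosure ℚ), A.LiesOverPrime ℓ →
            ∀ σ : AlgebraicClosure ℚ ≃ₐ[ℚ] AlgebraicClosure ℚ, A.IsFrobeniusAt σ ℓ →
              LinearMap.charpoly (ρ.ρ σ) =
                X ^ 2 - C (algebraMap O' O'' ((iota.comp chig.rangeRestrict) (CuspForm.heckeAlgebra.T hℓ hℓM hℓS))) * X
                  + C ((ℓ : O''))) ∧
        (∀ q : ℕ, q.Prime → q ≠ lam → q ∣ M → ¬ q ^ 2 ∣ M →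
          ∀ A : ValuationSubring (AlgebraicClosure ℚ), A.LiesOverPrime q →
            ∀ σ : AlgebraicClosure ℚ ≃ₐ[ℚ] AlgebraicClosure ℚ, A.IsFrobeniusAt σ q →
              LinearMap.charpoly (ρ.ρ σ) = X ^ 2 - C ((q : O'') + 1) * X + C ((q : O'')) ∨
              LinearMap.charpoly (ρ.ρ σ) = X ^ 2 + C ((q : O'') + 1) * X + C ((q : O''))) :=
  result_of_chebWeak (chebWeak_of_frobeniusDivision Fermat.Agent.Lib.Cheb.frobeniusDivision) hmod
    hg lam S O' hlamO' chig hchig iota hlamS hMS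

end Fermat.Agent.S35.H991

end
-- ===== PACK-END S35/H991/Glue.lean

-- ===== PACK-BEGIN S24/FFDict.lean
section




/-!
# S24 / FF layer: dictionary between places and primes of the integral closure of `K[t]`
(helper804)
-/

set_option autoImplicit false
set_option linter.unusedSectionVars false

namespace Fermat.Agent.S24.FF

open AlgebraicCurve Polynomial IntermediateField IsDedekindDomain

open scoped IntermediateField.algebraAdjoinAdjoin

variable {K F : Type*} [Field K] [Field F] [Algebra K F] {t : F}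

/-- `K[t] ⊆ O_v` when `t` is integral at `v`. -/
theorem mem_of_mem_coordRing (v : Place K F) (ht : 0 ≤ v.ord t) {r : F}
    (hr : r ∈ coordRing K t) : r ∈ v.toValuationSubring := by
  induction hr using Algebra.adjoin_induction with
  | mem x hx =>
    rw [Set.mem_singleton_iff] at hx
    subst hx
    exact mem_of_ord_nonneg v ht
  | algebraMap a => exact v.algebraMap_mem' a
  | add x y _ _ hx hy => exact add_mem hx hy
  | mul x y _ _ hx hy => exact mul_mem hx hy

/-- The integral closure of `K[t]` is contained in `O_v` when `t` is integral at `v`. -/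
theorem mem_of_mem_intRing (v : Place K F) (ht : 0 ≤ v.ord t) {s : F}
    (hs : s ∈ intRing K t) : s ∈ v.toValuationSubring := by
  let φ : coordRing K t →+* v.toValuationSubring :=
    { toFun := fun y => ⟨y, mem_of_mem_coordRing v ht y.2⟩
      map_one' := rfl
      map_mul' := fun _ _ => rfl
      map_zero' := rfl
      map_add' := fun _ _ => rfl }
  obtain ⟨p, hpm, hp⟩ := hs
  have hint' : IsIntegral v.toValuationSubring s := by
    refine ⟨p.map φ, hpm.map φ, ?_⟩
    rw [← hp, Polynomial.eval₂_map]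
    rfl
  obtain ⟨y, hy⟩ := IsIntegrallyClosed.isIntegral_iff.mp hint'
  rw [← hy]
  exact y.2

/-- The inclusion of the integral closure of `K[t]` into `O_v`. -/
def toPlaceRing (v : Place K F) (ht : 0 ≤ v.ord t) : intRing K t →+* v.toValuationSubring where
  toFun s := ⟨s, mem_of_mem_intRing v ht s.2⟩
  map_one' := rfl
  map_mul' _ _ := rfl
  map_zero' := rfl
  map_add' _ _ := rfl

@[simp] theorem coe_toPlaceRing (v : Place K F) (ht : 0 ≤ v.ord t) (s : intRing K t) :
    ((toPlaceRing v ht s : v.toValuationSubring) : F) = (s : F) := rfl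

/-- The center of the place `v` on the integral closure of `K[t]`. -/
def center (v : Place K F) (ht : 0 ≤ v.ord t) : Ideal (intRing K t) :=
  Ideal.comap (toPlaceRing v ht) (IsLocalRing.maximalIdeal v.toValuationSubring)

instance center_isPrime (v : Place K F) (ht : 0 ≤ v.ord t) : (center v ht).IsPrime := by
  unfold center
  infer_instance

theorem mem_center_iff (v : Place K F) (ht : 0 ≤ v.ord t) (s : intRing K t) :
    s ∈ center v ht ↔ (s : F) ∈ v.toValuationSubring.nonunits := by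
  rw [center, Ideal.mem_comap]
  exact ValuationSubring.coe_mem_nonunits_iff.symm

theorem mem_nonunits_valuationSubring_iff {Γ₀ : Type*} [LinearOrderedCommGroupWithZero Γ₀]
    (w : Valuation F Γ₀) (x : F) : x ∈ w.valuationSubring.nonunits ↔ w x < 1 := by
  rw [ValuationSubring.mem_nonunits_iff]
  exact (Valuation.isEquiv_valuation_valuationSubring w).lt_one_iff_lt_one.symm

variable (K t) in
/-- `t` as an element of `K[t]`. -/
def tR : coordRing K t := ⟨t, Algebra.self_mem_adjoin_singleton K t⟩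

variable (K t) in
/-- `t` as an element of the integral closure of `K[t]`. -/
def tS : intRing K t := algebraMap (coordRing K t) (intRing K t) (tR K t)

@[simp] theorem coe_tR : ((tR K t : coordRing K t) : F) = t := rfl

@[simp] theorem coe_tS : ((tS K t : intRing K t) : F) = t := rfl

section withCoord

variable [CharZero K] [IsCoord K t]

theorem center_ne_bot (v : Place K F) (ht : 0 < v.ord t) : center v ht.le ≠ ⊥ := by
  intro h
  have ht0 : t ≠ 0 := by
    rintro rfl
    simp at ht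
  have htS : tS K t ∈ center v ht.le :=
    (mem_center_iff v ht.le _).mpr ((ord_pos_iff_mem_nonunits v ht0).mp ht)
  rw [h, Ideal.mem_bot] at htS
  apply ht0
  have := congrArg (fun s : intRing K t => (s : F)) htS
  simpa using this

/-- The center of `v` as a height-one prime. -/
def centerPrime (v : Place K F) (ht : 0 < v.ord t) : HeightOneSpectrum (intRing K t) :=
  ⟨center v ht.le, inferInstance, center_ne_bot v ht⟩

@[simp] theorem centerPrime_asIdeal (v : Place K F) (ht : 0 < v.ord t) :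
    (centerPrime v ht).asIdeal = center v ht.le := rfl

/-- **Dictionary, surjectivity**: a place at which `t` vanishes is the place of its center. -/
theorem placeOfPrime_centerPrime (v : Place K F) (ht : 0 < v.ord t) :
    placeOfPrime K t (centerPrime v ht) = v := by
  apply Place.ext
  rw [placeOfPrime_toValuationSubring,
    ← HeightOneSpectrum.valuationSubringAtPrime_eq_valuationSubring]
  refine ValuationSubring.eq_of_le_of_ne_top _ ?_ v.ne_top'
  rintro x ⟨a, s, hs, rfl⟩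
  have ha : (a : F) ∈ v.toValuationSubring := mem_of_mem_intRing v ht.le a.2
  have hs' : (s : F) ∉ v.toValuationSubring.nonunits := fun h =>
    hs ((mem_center_iff v ht.le s).mpr h)
  have hsinv : (s : F)⁻¹ ∈ v.toValuationSubring := by
    by_contra hcon
    exact hs' ((ValuationSubring.mem_nonunits_iff_or _).mpr (Or.inr hcon))
  exact mul_mem ha hsinv

theorem ord_t_placeOfPrime_nonneg (q : HeightOneSpectrum (intRing K t)) :
    0 ≤ (placeOfPrime K t q).ord t := by
  apply ord_nonneg_of_mem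
  rw [placeOfPrime_toValuationSubring, Valuation.mem_valuationSubring_iff]
  exact q.valuation_le_one (tS K t)

/-- **Dictionary, injectivity**: the center of the place of `q` is `q`. -/
theorem center_placeOfPrime (q : HeightOneSpectrum (intRing K t)) :
    center (placeOfPrime K t q) (ord_t_placeOfPrime_nonneg q) = q.asIdeal := by
  ext s
  rw [mem_center_iff, placeOfPrime_toValuationSubring, mem_nonunits_valuationSubring_iff]
  exact q.valuation_lt_one_iff_mem s

theorem placeOfPrime_injective :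
    Function.Injective (placeOfPrime K t : HeightOneSpectrum (intRing K t) → Place K F) := by
  intro q q' h
  have h1 := center_placeOfPrime q
  have h2 := center_placeOfPrime q'
  apply HeightOneSpectrum.ext
  rw [← h1, ← h2]
  congr 1

/-- `t` vanishes at the place of `q` iff `t ∈ q`. -/
theorem ord_t_placeOfPrime_pos_iff (ht0 : t ≠ 0) (q : HeightOneSpectrum (intRing K t)) :
    0 < (placeOfPrime K t q).ord t ↔ tS K t ∈ q.asIdeal := by
  rw [ord_pos_iff_mem_nonunits _ ht0, placeOfPrime_toValuationSubring,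
    mem_nonunits_valuationSubring_iff]
  exact q.valuation_lt_one_iff_mem (tS K t)

end withCoord

end Fermat.Agent.S24.FF

end
-- ===== PACK-END S24/FFDict.lean

-- ===== PACK-BEGIN S24/FFIdentity.lean
section




/-!
# S24 / FF layer: the fundamental identity `∑_{v(t) > 0} ord_v(t) = [F : K(t)]`
(helper804)
-/

set_option autoImplicit false
set_option linter.unusedSectionVars false

namespace Fermat.Agent.S24.FF

open AlgebraicCurve Polynomial IntermediateField IsDedekindDomain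

open scoped IntermediateField.algebraAdjoinAdjoin

/-- Abstract criterion: if every element of `S` is congruent mod `q` to an element of `R`,
the inertia degree of `q` is one. -/
theorem inertiaDeg_eq_one_of_forall_exists {R S : Type*} [CommRing R] [CommRing S] [Algebra R S]
    (p : Ideal R) (q : Ideal S) [q.LiesOver p] [p.IsMaximal] [q.IsMaximal]
    (h : ∀ s : S, ∃ r : R, s - algebraMap R S r ∈ q) : q.inertiaDeg R = 1 := by
  rw [Ideal.inertiaDeg_eq_of_isMaximal p q]
  let _ : Field (R ⧸ p) := Ideal.Quotient.field _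
  rw [finrank_eq_one_iff_of_nonzero' (1 : S ⧸ q) one_ne_zero]
  intro w
  obtain ⟨s, rfl⟩ := Ideal.Quotient.mk_surjective w
  obtain ⟨r, hr⟩ := h s
  refine ⟨Ideal.Quotient.mk _ r, ?_⟩
  rw [Algebra.smul_def, mul_one, Ideal.Quotient.algebraMap_mk_of_liesOver, eq_comm,
    Ideal.Quotient.eq]
  exact hr

variable {K F : Type*} [Field K] [Field F] [Algebra K F] {t : F}

instance instTowerCoordIntRing : IsScalarTower (coordRing K t) (intRing K t) F :=
  IsScalarTower.of_algebraMap_eq (fun _ => rfl)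

section

variable [CharZero K] [IsCoord K t]

theorem t_ne_zero (ht : Transcendental K t) : t ≠ 0 := by
  rintro rfl
  exact ht isAlgebraic_zero

theorem tS_ne_zero : tS K t ≠ 0 := by
  intro h
  apply t_ne_zero (IsCoord.transcendental (K := K) (t := t))
  have := congrArg (fun s : intRing K t => (s : F)) h
  simpa using this

theorem irreducible_tR : Irreducible (tR K t) := by
  have h := Polynomial.irreducible_X (R := K)
  have e := algEquivOfTranscendental K t (IsCoord.transcendental (K := K) (t := t))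
  rw [tR, ← algEquivOfTranscendental_apply_X K t (IsCoord.transcendental (K := K) (t := t))]
  exact (MulEquiv.irreducible_iff
    (algEquivOfTranscendental K t (IsCoord.transcendental (K := K) (t := t)))).mpr h

variable (K t) in
/-- The maximal ideal `(t)` of `K[t]`. -/
def tIdeal : Ideal (coordRing K t) := Ideal.span {tR K t}

instance tIdeal_isMaximal : (tIdeal K t).IsMaximal :=
  PrincipalIdealRing.isMaximal_of_irreducible irreducible_tR

theorem map_tIdeal :
    (tIdeal K t).map (algebraMap (coordRing K t) (intRing K t)) = Ideal.span {tS K t} := by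
  rw [tIdeal, Ideal.map_span, Set.image_singleton]
  rfl

theorem map_tIdeal_ne_bot :
    (tIdeal K t).map (algebraMap (coordRing K t) (intRing K t)) ≠ ⊥ := by
  rw [map_tIdeal, Ne, Ideal.span_singleton_eq_bot]
  exact tS_ne_zero

theorem liesOver_iff (q : Ideal (intRing K t)) [hq : q.IsPrime] :
    q.LiesOver (tIdeal K t) ↔ tS K t ∈ q := by
  constructor
  · intro h
    have : tR K t ∈ q.under (coordRing K t) := by
      rw [← h.over]
      exact Ideal.subset_span rfl
    exact this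
  · intro h
    refine ⟨?_⟩
    apply (tIdeal_isMaximal (K := K) (t := t)).eq_of_le (Ideal.IsPrime.under _ q).ne_top
    rw [tIdeal, Ideal.span_le, Set.singleton_subset_iff]
    exact h

/-- `ord_v(t)` at the place of a prime `q` over `(t)` is the ramification index of `q`. -/
theorem ord_t_eq_ramificationIdx (q : HeightOneSpectrum (intRing K t))
    [hq : q.asIdeal.LiesOver (tIdeal K t)] :
    (placeOfPrime K t q).ord t = (q.asIdeal.ramificationIdx (coordRing K t) : ℤ) := by
  have := q.isPrime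
  rw [Ideal.IsDedekindDomain.ramificationIdx_eq_multiplicity (tIdeal K t) q.asIdeal
    map_tIdeal_ne_bot, map_tIdeal, ord_placeOfPrime]
  have h1 : q.valuation F t = q.intValuation (tS K t) := q.valuation_of_algebraMap (tS K t)
  rw [h1, q.intValuation_eq_exp_neg_multiplicity tS_ne_zero]
  simp

/-- The residue degree of every prime over `(t)` is one. -/
theorem inertiaDeg_eq_one [IsAlgClosed K] (q : HeightOneSpectrum (intRing K t))
    [hq : q.asIdeal.LiesOver (tIdeal K t)] :
    q.asIdeal.inertiaDeg (coordRing K t) = 1 := by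
  have : q.asIdeal.IsMaximal := q.isPrime.isMaximal q.ne_bot
  refine inertiaDeg_eq_one_of_forall_exists (tIdeal K t) q.asIdeal fun s => ?_
  have hsO : (s : F) ∈ (placeOfPrime K t q).toValuationSubring :=
    mem_of_mem_intRing _ (ord_t_placeOfPrime_nonneg q) s.2
  obtain ⟨a, ha⟩ := exists_const_sub_mem_nonunits (placeOfPrime K t q)
    (IsCoord.transcendental (K := K) (t := t)) hsO
  refine ⟨algebraMap K (coordRing K t) a, ?_⟩
  rw [← center_placeOfPrime q, mem_center_iff]
  exact ha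

/-- The height-one prime attached to a prime over `(t)`. -/
def primeOfOver (q : (tIdeal K t).primesOver (intRing K t)) :
    HeightOneSpectrum (intRing K t) :=
  ⟨q.1, q.2.1, fun h => tS_ne_zero (K := K) (t := t) (by
    have h1 := (liesOver_iff q.1 (hq := q.2.1)).mp q.2.2
    rw [h] at h1
    exact h1)⟩

@[simp] theorem primeOfOver_asIdeal (q : (tIdeal K t).primesOver (intRing K t)) :
    (primeOfOver q).asIdeal = q.1 := rfl

instance primeOfOver_liesOver (q : (tIdeal K t).primesOver (intRing K t)) :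
    (primeOfOver q).asIdeal.LiesOver (tIdeal K t) := q.2.2

/-- The place attached to a prime over `(t)`. -/
noncomputable def placeOfOver (q : (tIdeal K t).primesOver (intRing K t)) : Place K F :=
  placeOfPrime K t (primeOfOver q)

theorem placeOfOver_injective :
    Function.Injective (placeOfOver : (tIdeal K t).primesOver (intRing K t) → Place K F) := by
  intro q q' h
  have := placeOfPrime_injective h
  apply Subtype.ext
  exact congrArg HeightOneSpectrum.asIdeal this

theorem ord_t_placeOfOver_pos (q : (tIdeal K t).primesOver (intRing K t)) :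
    0 < (placeOfOver q).ord t := by
  rw [placeOfOver, ord_t_placeOfPrime_pos_iff (t_ne_zero (IsCoord.transcendental (K := K)))]
  exact (liesOver_iff q.1 (hq := q.2.1)).mp q.2.2

theorem exists_placeOfOver_eq (v : Place K F) (ht : 0 < v.ord t) :
    ∃ q : (tIdeal K t).primesOver (intRing K t), placeOfOver q = v := by
  have ht0 : t ≠ 0 := t_ne_zero (IsCoord.transcendental (K := K))
  have hmem : tS K t ∈ center v ht.le :=
    (mem_center_iff v ht.le _).mpr ((ord_pos_iff_mem_nonunits v ht0).mp ht)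
  refine ⟨⟨center v ht.le, center_isPrime v ht.le, (liesOver_iff _).mpr hmem⟩, ?_⟩
  exact placeOfPrime_centerPrime v ht

theorem range_placeOfOver :
    Set.range (placeOfOver : (tIdeal K t).primesOver (intRing K t) → Place K F) =
      {v : Place K F | 0 < v.ord t} := by
  ext v
  constructor
  · rintro ⟨q, rfl⟩
    exact ord_t_placeOfOver_pos q
  · intro hv
    exact exists_placeOfOver_eq v hv

theorem sum_placeOfOver [IsAlgClosed K] :
    ∑ q : (tIdeal K t).primesOver (intRing K t), (placeOfOver q).ord t =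
      (Module.finrank K⟮t⟯ F : ℤ) := by
  have h := Ideal.sum_ramification_inertia_eq_finrank (tIdeal K t) (intRing K t)
  rw [IsFractionRing.finrank_eq (coordRing K t) K⟮t⟯ (intRing K t) F, ← h]
  push_cast
  refine Finset.sum_congr rfl fun q _ => ?_
  have h1 := inertiaDeg_eq_one (primeOfOver q)
  rw [primeOfOver_asIdeal] at h1
  rw [placeOfOver, ord_t_eq_ramificationIdx (primeOfOver q), h1]
  simp

end

section final

/-- **Fundamental identity, finiteness**: a coordinate function has finitely many zeros. -/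
theorem finite_setOf_ord_pos [CharZero K] (ht : Transcendental K t)
    [FiniteDimensional K⟮t⟯ F] : {v : Place K F | 0 < v.ord t}.Finite := by
  have : IsCoord K t := ⟨ht, inferInstance⟩
  rw [← range_placeOfOver]
  exact Set.finite_range _

/-- **Fundamental identity**: `∑_{v(t) > 0} ord_v(t) = [F : K(t)]`. -/
theorem sum_ord_eq_finrank [IsAlgClosed K] [CharZero K] (ht : Transcendental K t)
    [FiniteDimensional K⟮t⟯ F] (s : Finset (Place K F)) (hs : ∀ v, v ∈ s ↔ 0 < v.ord t) :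
    ∑ v ∈ s, v.ord t = (Module.finrank K⟮t⟯ F : ℤ) := by
  have : IsCoord K t := ⟨ht, inferInstance⟩
  rw [← sum_placeOfOver]
  symm
  refine Finset.sum_bij (fun q _ => placeOfOver q) ?_ ?_ ?_ ?_
  · intro q _
    exact (hs _).mpr (ord_t_placeOfOver_pos q)
  · intro q _ q' _ h
    exact placeOfOver_injective h
  · intro v hv
    obtain ⟨q, hq⟩ := exists_placeOfOver_eq v ((hs v).mp hv)
    exact ⟨q, Finset.mem_univ _, hq⟩
  · intro q _
    rfl

/-- Skeleton form of the fundamental identity (helper864 FF3b). -/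
theorem sum_ord_pos_eq_finrank [IsAlgClosed K] [CharZero K] (ht : Transcendental K t)
    [FiniteDimensional K⟮t⟯ F] :
    ∑ v ∈ (finite_setOf_ord_pos ht).toFinset, v.ord t = (Module.finrank K⟮t⟯ F : ℤ) :=
  sum_ord_eq_finrank ht _ (fun v => by simp)

end final

end Fermat.Agent.S24.FF

end
-- ===== PACK-END S24/FFIdentity.lean

-- ===== PACK-BEGIN Lib/FF398/Local.lean
section







/-!
# Lib/FF398 — relative theory of places for a finite extension `F'/F` of function fields

For a place `v` of `F` and a finite extension `F'/F` (characteristic zero) we use the integral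
closure `S` of `O_v` in `F'` (a semi-local Dedekind domain) as a dictionary:
places of `F'` over `v`  ↔  height-one primes of `S`.

Main results of this file (helper398):
* `placeOf v q` : the place of `F'` attached to a height one prime `q` of `S`;
* `restrict_placeOf`, `exists_placeOf_eq`, `placeOf_injective` : the dictionary;
* `ord_placeOf` : `ord` of `placeOf v q` is the `q`-adic valuation.
-/

set_option autoImplicit false
set_option linter.unusedSectionVars false

open AlgebraicCurve IsDedekindDomain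

namespace Fermat.Agent.Lib.FF398

section Max

variable {K F : Type*} [Field K] [Field F] [Algebra K F]

/-- Discrete valuation rings are maximal subrings: comparable places are equal. -/
theorem place_eq_of_le {v w : Place K F} (h : v.toValuationSubring ≤ w.toValuationSubring) :
    v = w :=
  Place.ext (ValuationSubring.eq_of_le_of_ne_top _ h w.ne_top')

end Max

section Local

variable {K F F' : Type*} [Field K] [Field F] [Field F'] [Algebra K F] [Algebra K F']
  [Algebra F F'] [IsScalarTower K F F'] [FiniteDimensional F F'] [CharZero F]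
variable (v : Place K F)

variable (F') in
/-- The integral closure of `O_v` in `F'`. -/
abbrev intCl : Subalgebra v.toValuationSubring F' := integralClosure v.toValuationSubring F'

omit [Algebra K F'] [IsScalarTower K F F'] [FiniteDimensional F F'] [CharZero F] in
theorem algebraMap_OF'_injective :
    Function.Injective (algebraMap v.toValuationSubring F') := by
  intro a b h
  apply Subtype.ext
  exact (algebraMap F F').injective h

instance (priority := 2000) instFaithfulOF' : FaithfulSMul v.toValuationSubring F' :=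
  (faithfulSMul_iff_algebraMap_injective _ _).mpr (algebraMap_OF'_injective v)

instance (priority := 2000) instTorsionFreeOF' :
    Module.IsTorsionFree v.toValuationSubring F' :=
  FaithfulSMul.to_isTorsionFree _ _

instance (priority := 2000) instTorsionFreeIntCl :
    Module.IsTorsionFree v.toValuationSubring (intCl F' v) :=
  Subalgebra.instIsTorsionFree (intCl F' v)

instance instTowerKOF' : IsScalarTower K v.toValuationSubring F' :=
  IsScalarTower.of_algebraMap_eq fun a => by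
    show algebraMap K F' a = algebraMap F F' (algebraMap K F a)
    rw [← IsScalarTower.algebraMap_apply]

instance instDedekindIntCl : IsDedekindDomain (intCl F' v) :=
  integralClosure.isDedekindDomain v.toValuationSubring F F'

instance instFracIntCl : IsFractionRing (intCl F' v) F' :=
  IsIntegralClosure.isFractionRing_of_finite_extension v.toValuationSubring F F' (intCl F' v)

instance instFiniteIntCl : Module.Finite v.toValuationSubring (intCl F' v) :=
  IsIntegralClosure.finite v.toValuationSubring F F' (intCl F' v)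

instance instFreeIntCl : Module.Free v.toValuationSubring (intCl F' v) :=
  Module.free_of_finite_type_torsion_free'

/-- The place of `F'` attached to a height-one prime of the integral closure of `O_v`. -/
noncomputable def placeOf (q : HeightOneSpectrum (intCl F' v)) : Place K F' :=
  Place.ofHeightOneSpectrum (K := K) q

theorem placeOf_toValuationSubring (q : HeightOneSpectrum (intCl F' v)) :
    (placeOf v q).toValuationSubring = (q.valuation F').valuationSubring := rfl

theorem mem_placeOf_iff (q : HeightOneSpectrum (intCl F' v)) (g : F') :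
    g ∈ (placeOf v q).toValuationSubring ↔ q.valuation F' g ≤ 1 := Iff.rfl

/-- `placeOf v q` lies over `v`. -/
theorem restrict_placeOf (q : HeightOneSpectrum (intCl F' v)) :
    (placeOf v q).restrict F = v := by
  symm
  apply place_eq_of_le
  intro a ha
  rw [Place.restrict_toValuationSubring, ValuationSubring.mem_comap, mem_placeOf_iff]
  have : algebraMap F F' a = algebraMap (intCl F' v) F'
      (algebraMap v.toValuationSubring (intCl F' v) ⟨a, ha⟩) := rfl
  rw [this]
  exact q.valuation_le_one _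

/-- The order function of `placeOf v q` is the `q`-adic valuation. -/
theorem ord_placeOf (q : HeightOneSpectrum (intCl F' v)) (g : F') :
    (placeOf v q).ord g = -(WithZero.log (q.valuation F' g)) := by
  rcases eq_or_ne g 0 with rfl | hg
  · simp
  symm
  obtain ⟨π, hπ⟩ := q.valuation_exists_uniformizer F'
  have hπ0 : π ≠ 0 := by
    rintro rfl
    rw [map_zero] at hπ
    exact WithZero.exp_ne_zero hπ.symm
  refine Fermat.Agent.S24.FF.ordLike_eq_ord (fun g => -(WithZero.log (q.valuation F' g)))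
    (fun f g hf hg => ?_) (placeOf v q) (fun f hf => ?_) hπ0 ?_ hg
  · rw [map_mul, WithZero.log_mul ((Valuation.ne_zero_iff _).mpr hf)
      ((Valuation.ne_zero_iff _).mpr hg)]
    ring
  · rw [mem_placeOf_iff, neg_nonneg,
      WithZero.log_le_iff_le_exp ((Valuation.ne_zero_iff _).mpr hf)]
    rfl
  · rw [hπ, WithZero.log_exp]
    ring

/-- Membership in a height-one prime, read off from the valuation subring. -/
theorem mem_asIdeal_iff (q : HeightOneSpectrum (intCl F' v)) (s : intCl F' v) :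
    s ∈ q.asIdeal ↔ s = 0 ∨ ((s : F'))⁻¹ ∉ (placeOf v q).toValuationSubring := by
  rw [mem_placeOf_iff, ← q.valuation_lt_one_iff_mem (K := F')]
  show q.valuation F' (s : F') < 1 ↔ s = 0 ∨ ¬ q.valuation F' ((s : F'))⁻¹ ≤ 1
  rcases eq_or_ne s 0 with rfl | hs
  · simp
  have hs' : (s : F') ≠ 0 := fun h => hs (Subtype.ext h)
  have hv0 : q.valuation F' (s : F') ≠ 0 := (Valuation.ne_zero_iff _).mpr hs'
  rw [map_inv₀, not_le, one_lt_inv₀ (zero_lt_iff.mpr hv0)]
  simp [hs]

theorem placeOf_injective : Function.Injective (placeOf (F' := F') v) := by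
  intro q q' h
  apply HeightOneSpectrum.ext
  ext s
  rw [mem_asIdeal_iff, mem_asIdeal_iff, h]

omit [CharZero F] in
/-- The integral closure of `O_{w|F}` is contained in `O_w`. -/
theorem coe_intCl_mem (w : Place K F') (s : intCl F' (w.restrict F)) :
    (s : F') ∈ w.toValuationSubring := by
  obtain ⟨p, hp, hps⟩ := s.2
  have hint : IsIntegral w.toValuationSubring (s : F') := by
    refine ⟨p.map (Place.restrictInclusion F w), hp.map _, ?_⟩
    rw [Polynomial.eval₂_map]
    exact hps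
  obtain ⟨y, hy⟩ := IsIntegrallyClosed.isIntegral_iff.mp hint
  rw [← hy]
  exact y.2

/-- The inclusion of the integral closure of `O_{w|F}` into `O_w`. -/
def intClInclusion (w : Place K F') : intCl F' (w.restrict F) →+* w.toValuationSubring where
  toFun s := ⟨(s : F'), coe_intCl_mem w s⟩
  map_one' := rfl
  map_mul' _ _ := rfl
  map_zero' := rfl
  map_add' _ _ := rfl

@[simp]
theorem coe_intClInclusion (w : Place K F') (s : intCl F' (w.restrict F)) :
    ((intClInclusion w s : w.toValuationSubring) : F') = (s : F') := rfl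

/-- The centre of `w` on the integral closure of `O_{w|F}`. -/
def centre (w : Place K F') : Ideal (intCl F' (w.restrict F)) :=
  Ideal.comap (intClInclusion w) (IsLocalRing.maximalIdeal w.toValuationSubring)

instance centre_isPrime (w : Place K F') : (centre (F := F) w).IsPrime :=
  Ideal.comap_isPrime _ _

theorem centre_ne_bot (w : Place K F') : centre (F := F) w ≠ ⊥ := by
  obtain ⟨π, hπ⟩ := IsDiscreteValuationRing.exists_irreducible (w.restrict F).toValuationSubring
  intro h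
  have hmem : algebraMap (w.restrict F).toValuationSubring (intCl F' (w.restrict F)) π
      ∈ centre (F := F) w := by
    rw [centre, Ideal.mem_comap, IsLocalRing.mem_maximalIdeal, mem_nonunits_iff]
    intro hu
    have hu' : IsUnit (Place.restrictInclusion F w π) := hu
    exact hπ.not_isUnit (isUnit_of_map_unit (Place.restrictInclusion F w) π hu')
  rw [h, Ideal.mem_bot] at hmem
  have hinj : Function.Injective
      (algebraMap (w.restrict F).toValuationSubring (intCl F' (w.restrict F))) :=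
    FaithfulSMul.algebraMap_injective _ _
  exact hπ.ne_zero (hinj (by rw [hmem, map_zero]))

/-- The centre of `w` as a height-one prime. -/
def centrePrime (w : Place K F') : HeightOneSpectrum (intCl F' (w.restrict F)) :=
  ⟨centre w, centre_isPrime w, centre_ne_bot w⟩

theorem placeOf_centrePrime (w : Place K F') : placeOf (w.restrict F) (centrePrime w) = w := by
  apply place_eq_of_le
  intro g hg
  rw [mem_placeOf_iff] at hg
  obtain ⟨n, d, hnd⟩ := (centrePrime w).exists_primeCompl_mul_eq_of_integer g hg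
  have hd : (d : intCl F' (w.restrict F)) ∉ centre (F := F) w := d.2
  rw [centre, Ideal.mem_comap, IsLocalRing.mem_maximalIdeal, mem_nonunits_iff, not_not] at hd
  obtain ⟨b, hb⟩ := isUnit_iff_exists_inv.mp hd
  have hb' : ((d : intCl F' (w.restrict F)) : F') * (b : F') = 1 := congrArg Subtype.val hb
  have hd0 : ((d : intCl F' (w.restrict F)) : F') ≠ 0 := left_ne_zero_of_mul_eq_one hb'
  have hg' : g = ((n : F')) * (b : F') := by
    have h1 : g * ((d : intCl F' (w.restrict F)) : F') = (n : F') := hnd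
    calc g = g * (((d : intCl F' (w.restrict F)) : F') * (b : F')) := by rw [hb', mul_one]
      _ = (n : F') * (b : F') := by rw [← mul_assoc, h1]
  rw [hg']
  exact mul_mem (coe_intCl_mem w n) b.2

/-- Every place of `F'` over `v` comes from a height-one prime of the integral closure. -/
theorem exists_placeOf_eq (w : Place K F') (hw : w.restrict F = v) :
    ∃ q : HeightOneSpectrum (intCl F' v), placeOf v q = w := by
  subst hw
  exact ⟨centrePrime w, placeOf_centrePrime w⟩

theorem range_placeOf : Set.range (placeOf (F' := F') v) = {w : Place K F' | w.restrict F = v} := by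
  ext w
  constructor
  · rintro ⟨q, rfl⟩
    exact restrict_placeOf v q
  · intro hw
    exact exists_placeOf_eq v w hw

/-! ### Primes over the maximal ideal of `O_v` -/

/-- The maximal ideal of `O_v`. -/
abbrev pv : Ideal v.toValuationSubring := IsLocalRing.maximalIdeal v.toValuationSubring

theorem pv_ne_bot : pv v ≠ ⊥ := IsDiscreteValuationRing.not_a_field _

theorem algebraMap_O_intCl_injective :
    Function.Injective (algebraMap v.toValuationSubring (intCl F' v)) :=
  FaithfulSMul.algebraMap_injective _ _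

theorem map_pv_ne_bot : (pv v).map (algebraMap v.toValuationSubring (intCl F' v)) ≠ ⊥ := by
  rw [Ne, Ideal.map_eq_bot_iff_of_injective (algebraMap_O_intCl_injective v)]
  exact pv_ne_bot v

instance liesOver_pv (q : HeightOneSpectrum (intCl F' v)) : q.asIdeal.LiesOver (pv v) := by
  constructor
  have hprime : (q.asIdeal.under v.toValuationSubring).IsPrime := Ideal.IsPrime.under _ _
  have hne : q.asIdeal.under v.toValuationSubring ≠ ⊥ :=
    Ideal.under_ne_bot v.toValuationSubring q.ne_bot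
  have hmax : (q.asIdeal.under v.toValuationSubring).IsMaximal := hprime.isMaximal hne
  exact (IsLocalRing.eq_maximalIdeal hmax).symm

instance isMaximal_asIdeal (q : HeightOneSpectrum (intCl F' v)) : q.asIdeal.IsMaximal :=
  q.isPrime.isMaximal q.ne_bot

/-- The height-one prime attached to a prime over `𝔪_v`. -/
def primeOfOver (q : (pv v).primesOver (intCl F' v)) : HeightOneSpectrum (intCl F' v) :=
  ⟨q.1, q.2.1, by
    have := q.2.2
    exact Ideal.ne_bot_of_liesOver_of_ne_bot (pv_ne_bot v) q.1⟩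

@[simp]
theorem primeOfOver_asIdeal (q : (pv v).primesOver (intCl F' v)) :
    (primeOfOver v q).asIdeal = q.1 := rfl

theorem primeOfOver_injective : Function.Injective (primeOfOver (F' := F') v) := by
  intro q q' h
  apply Subtype.ext
  exact congrArg HeightOneSpectrum.asIdeal h

theorem primeOfOver_surjective : Function.Surjective (primeOfOver (F' := F') v) := by
  intro q
  exact ⟨⟨q.asIdeal, q.isPrime, liesOver_pv v q⟩, rfl⟩

instance finite_primesOver : Finite ((pv v).primesOver (intCl F' v)) :=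
  (Algebra.QuasiFinite.finite_primesOver (pv v)).to_subtype

instance finite_heightOneSpectrum : Finite (HeightOneSpectrum (intCl F' v)) :=
  Finite.of_surjective _ (primeOfOver_surjective v)

/-- The fibre over `v` is finite (no `HasPrincipalDivisors` needed). -/
theorem finite_fibre : {w : Place K F' | w.restrict F = v}.Finite := by
  rw [← range_placeOf]
  exact Set.finite_range _

/-! ### Ramification index and residue degree -/

theorem mem_asIdeal_iff_ord (q : HeightOneSpectrum (intCl F' v)) (s : intCl F' v) :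
    s ∈ q.asIdeal ↔ s = 0 ∨ 0 < (placeOf v q).ord (s : F') := by
  rcases eq_or_ne s 0 with rfl | hs
  · simp
  have hs' : (s : F') ≠ 0 := fun h => hs (Subtype.ext h)
  have hv0 : q.valuation F' (s : F') ≠ 0 := (Valuation.ne_zero_iff _).mpr hs'
  rw [ord_placeOf, neg_pos, WithZero.log_lt_iff_lt_exp hv0, ← q.valuation_lt_one_iff_mem (K := F')]
  simp only [hs, false_or]
  rfl

theorem ord_placeOf_coe_nonneg (q : HeightOneSpectrum (intCl F' v)) (s : intCl F' v) :
    0 ≤ (placeOf v q).ord (s : F') :=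
  (Fermat.Agent.S24.FF.mem_iff_ord_nonneg _).mp
    ((mem_placeOf_iff v q _).mpr (q.valuation_le_one s))

/-- The ramification index of `placeOf v q` (in the sense of the Prelude) is Mathlib's
ramification index of `q` over `O_v`. -/
theorem ramificationIndex_placeOf (q : HeightOneSpectrum (intCl F' v)) :
    ((placeOf v q).ramificationIndex F : ℤ)
      = (q.asIdeal.ramificationIdx v.toValuationSubring : ℤ) := by
  obtain ⟨π, hπ, hπ1⟩ := Fermat.Agent.S24.FF.exists_irreducible_coe v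
  have h1 := (placeOf v q).ord_restrict (F := F) (π : F)
  rw [restrict_placeOf, hπ1, mul_one] at h1
  rw [← h1, ord_placeOf]
  have hπS : algebraMap v.toValuationSubring (intCl F' v) π ≠ 0 := fun h =>
    hπ.ne_zero (algebraMap_O_intCl_injective v (by rw [h, map_zero]))
  have h2 : q.valuation F' (algebraMap F F' (π : F))
      = q.intValuation (algebraMap v.toValuationSubring (intCl F' v) π) :=
    q.valuation_of_algebraMap (algebraMap v.toValuationSubring (intCl F' v) π)
  rw [h2, q.intValuation_eq_exp_neg_multiplicity hπS, WithZero.log_exp, neg_neg,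
    Ideal.IsDedekindDomain.ramificationIdx_eq_multiplicity (pv v) q.asIdeal (map_pv_ne_bot v)]
  have h3 : (pv v).map (algebraMap v.toValuationSubring (intCl F' v))
      = Ideal.span {algebraMap v.toValuationSubring (intCl F' v) π} := by
    rw [pv, hπ.maximalIdeal_eq, Ideal.map_span, Set.image_singleton]
  rw [h3]

/-- If all places of `F'` have degree one, residue degrees over `O_v` are one. -/
theorem inertiaDeg_intCl_eq_one (hdeg' : ∀ w : Place K F', w.deg = 1)
    (q : HeightOneSpectrum (intCl F' v)) :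
    q.asIdeal.inertiaDeg v.toValuationSubring = 1 := by
  refine Fermat.Agent.S24.FF.inertiaDeg_eq_one_of_forall_exists (pv v) q.asIdeal fun s => ?_
  obtain ⟨c, hc⟩ := Fermat.Agent.Lib.RR.exists_const_sub (placeOf v q) (hdeg' _)
    (ord_placeOf_coe_nonneg v q s)
  refine ⟨algebraMap K v.toValuationSubring c, ?_⟩
  rw [mem_asIdeal_iff_ord]
  have hcoe : ((s - algebraMap v.toValuationSubring (intCl F' v)
      (algebraMap K v.toValuationSubring c) : intCl F' v) : F') = (s : F') - algebraMap K F' c := by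
    rw [IsScalarTower.algebraMap_apply K F F']
    rfl
  rcases hc with hc | hc
  · left
    apply Subtype.ext
    rw [hcoe]
    exact hc
  · right
    rw [hcoe]
    exact hc

omit [CharZero F] [FiniteDimensional F F'] in
/-- If all places of `F'` have degree one, the Prelude's residue degrees are one. -/
theorem inertiaDeg_eq_one [Algebra.IsIntegral F F'] (hdeg' : ∀ w : Place K F', w.deg = 1)
    (w : Place K F') : w.inertiaDeg F = 1 := by
  have h := w.deg_restrict_mul_inertiaDeg (F := F)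
  rw [hdeg' w] at h
  exact (mul_eq_one.mp h).2

omit [CharZero F] [FiniteDimensional F F'] in
theorem deg_restrict_eq_one [Algebra.IsIntegral F F'] (hdeg' : ∀ w : Place K F', w.deg = 1)
    (w : Place K F') : (w.restrict F).deg = 1 := by
  have h := w.deg_restrict_mul_inertiaDeg (F := F)
  rw [hdeg' w] at h
  exact (mul_eq_one.mp h).1

/-- **Local fundamental identity** `∑_{w | v} e(w|v) = [F' : F]`. -/
theorem sum_ramificationIndex (hdeg' : ∀ w : Place K F', w.deg = 1)
    (s : Finset (Place K F')) (hs : ∀ w, w ∈ s ↔ w.restrict F = v) :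
    ∑ w ∈ s, (w.ramificationIndex F : ℤ) = (Module.finrank F F' : ℤ) := by
  let _ : Fintype ((pv v).primesOver (intCl F' v)) := Fintype.ofFinite _
  have h := Ideal.sum_ramification_inertia_eq_finrank (pv v) (intCl F' v)
  rw [IsFractionRing.finrank_eq v.toValuationSubring F (intCl F' v) F', ← h]
  push_cast
  symm
  refine Finset.sum_bij (fun q _ => placeOf v (primeOfOver v q)) ?_ ?_ ?_ ?_
  · intro q _
    exact (hs _).mpr (restrict_placeOf v _)
  · intro q _ q' _ h
    exact primeOfOver_injective v (placeOf_injective v h)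
  · intro w hw
    obtain ⟨q, hq⟩ := exists_placeOf_eq v w ((hs w).mp hw)
    obtain ⟨q', rfl⟩ := primeOfOver_surjective v q
    exact ⟨q', Finset.mem_univ _, hq⟩
  · intro q _
    have h1 := inertiaDeg_intCl_eq_one v hdeg' (primeOfOver v q)
    rw [primeOfOver_asIdeal] at h1
    rw [ramificationIndex_placeOf, primeOfOver_asIdeal, h1]
    simp

/-! ### Norm formula -/

open UniqueFactorizationMonoid

theorem ord_coe_eq_multiplicity (a : v.toValuationSubring) (ha : a ≠ 0) :
    v.ord (a : F) = (multiplicity (pv v) (Ideal.span {a}) : ℤ) := by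
  rw [Place.ord, v.adicValuation_coe, v.heightOneSpectrum.intValuation_eq_exp_neg_multiplicity ha,
    WithZero.log_exp, neg_neg]
  rfl

theorem ord_placeOf_coe_eq_multiplicity (q : HeightOneSpectrum (intCl F' v)) (x : intCl F' v)
    (hx : x ≠ 0) :
    (placeOf v q).ord (x : F') = (multiplicity q.asIdeal (Ideal.span {x}) : ℤ) := by
  rw [ord_placeOf]
  have h2 : q.valuation F' (x : F') = q.intValuation x := q.valuation_of_algebraMap x
  rw [h2, q.intValuation_eq_exp_neg_multiplicity hx, WithZero.log_exp, neg_neg]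

theorem multiplicity_eq_count (q : HeightOneSpectrum (intCl F' v)) (I : Ideal (intCl F' v))
    (hI : I ≠ ⊥) :
    multiplicity q.asIdeal I = (normalizedFactors I).count q.asIdeal := by
  have hq : Prime q.asIdeal := Ideal.prime_of_isPrime q.ne_bot q.isPrime
  rw [multiplicity_eq_of_emultiplicity_eq_some
    (emultiplicity_eq_count_normalizedFactors hq.irreducible hI), normalize_eq]

theorem sum_count_eq_card [Fintype (HeightOneSpectrum (intCl F' v))] (I : Ideal (intCl F' v))
    (hI : I ≠ ⊥) :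
    ∑ q : HeightOneSpectrum (intCl F' v), (normalizedFactors I).count q.asIdeal
      = Multiset.card (normalizedFactors I) := by
  classical
  rw [← Multiset.toFinset_sum_count_eq]
  have hinj : Function.Injective
      (fun q : HeightOneSpectrum (intCl F' v) => q.asIdeal) := fun q q' h =>
    HeightOneSpectrum.ext h
  rw [← Finset.sum_image (s := Finset.univ)
    (f := fun P : Ideal (intCl F' v) => (normalizedFactors I).count P)
    (g := fun q : HeightOneSpectrum (intCl F' v) => q.asIdeal) (fun q _ q' _ h => hinj h)]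
  symm
  refine Finset.sum_subset ?_ ?_
  · intro P hP
    rw [Multiset.mem_toFinset, Ideal.mem_normalizedFactors_iff hI] at hP
    have hPne : P ≠ ⊥ := fun h => hI (le_bot_iff.mp (h ▸ hP.2))
    exact Finset.mem_image.mpr ⟨⟨P, hP.1, hPne⟩, Finset.mem_univ _, rfl⟩
  · intro P _ hP
    rw [Multiset.mem_toFinset] at hP
    exact Multiset.count_eq_zero_of_notMem hP

theorem relNorm_eq_pow (hdeg' : ∀ w : Place K F', w.deg = 1) (I : Ideal (intCl F' v))
    (hI : I ≠ ⊥) :
    Ideal.relNorm v.toValuationSubring I = (pv v) ^ Multiset.card (normalizedFactors I) := by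
  conv_lhs => rw [← Ideal.prod_normalizedFactors_eq_self hI]
  rw [map_multiset_prod]
  have hconst : (normalizedFactors I).map (Ideal.relNorm v.toValuationSubring)
      = (normalizedFactors I).map (fun _ => pv v) := by
    refine Multiset.map_congr rfl fun P hP => ?_
    rw [Ideal.mem_normalizedFactors_iff hI] at hP
    have hPne : P ≠ ⊥ := fun h => hI (le_bot_iff.mp (h ▸ hP.2))
    have key : ∀ q : HeightOneSpectrum (intCl F' v),
        Ideal.relNorm v.toValuationSubring q.asIdeal = pv v := fun q => by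
      have h1 := Ideal.relNorm_eq_pow_of_isMaximal q.asIdeal (pv v)
      rw [inertiaDeg_intCl_eq_one v hdeg' q, pow_one] at h1
      exact h1
    exact key ⟨P, hP.1, hPne⟩
  rw [hconst, Multiset.map_const', Multiset.prod_replicate]

theorem sum_ord_coe_eq_ord_intNorm [Fintype (HeightOneSpectrum (intCl F' v))]
    (hdeg' : ∀ w : Place K F', w.deg = 1) (x : intCl F' v) (hx : x ≠ 0) :
    ∑ q : HeightOneSpectrum (intCl F' v), (placeOf v q).ord (x : F')
      = v.ord ((Algebra.intNorm v.toValuationSubring (intCl F' v) x : v.toValuationSubring) : F) := by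
  have hI : Ideal.span {x} ≠ (⊥ : Ideal (intCl F' v)) := by
    rw [Ne, Ideal.span_singleton_eq_bot]
    exact hx
  have hN : Algebra.intNorm v.toValuationSubring (intCl F' v) x ≠ 0 :=
    Algebra.intNorm_ne_zero.mpr hx
  rw [ord_coe_eq_multiplicity v _ hN, ← Ideal.relNorm_singleton, relNorm_eq_pow v hdeg' _ hI,
    multiplicity_pow_self_of_prime
      (Ideal.prime_of_isPrime (pv_ne_bot v) (IsLocalRing.maximalIdeal.isMaximal _).isPrime),
    ← sum_count_eq_card v _ hI]
  push_cast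
  refine Finset.sum_congr rfl fun q _ => ?_
  rw [ord_placeOf_coe_eq_multiplicity v q x hx, multiplicity_eq_count v q _ hI]

omit [FiniteDimensional F F'] [CharZero F] [Algebra K F'] [IsScalarTower K F F'] [Algebra F F'] in
theorem ord_div' (u : Place K F) {f g : F} (hf : f ≠ 0) (hg : g ≠ 0) :
    u.ord (f / g) = u.ord f - u.ord g := by
  rw [div_eq_mul_inv, u.ord_mul hf (inv_ne_zero hg), u.ord_inv]
  ring

theorem sum_ord_eq_ord_norm_of_mem (hdeg' : ∀ w : Place K F', w.deg = 1)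
    (s : Finset (Place K F')) (hs : ∀ w, w ∈ s ↔ w.restrict F = v)
    (x : intCl F' v) (hx : x ≠ 0) :
    ∑ w ∈ s, w.ord (x : F') = v.ord (Algebra.norm F (x : F')) := by
  let _ : Fintype (HeightOneSpectrum (intCl F' v)) := Fintype.ofFinite _
  have h1 := sum_ord_coe_eq_ord_intNorm v hdeg' x hx
  have h2 : ((Algebra.intNorm v.toValuationSubring (intCl F' v) x : v.toValuationSubring) : F)
      = Algebra.norm F (x : F') :=
    Algebra.algebraMap_intNorm (A := v.toValuationSubring) (K := F) (L := F')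
      (B := intCl F' v) x
  rw [← h2, ← h1]
  symm
  refine Finset.sum_bij (fun q _ => placeOf v q) ?_ ?_ ?_ ?_
  · intro q _
    exact (hs _).mpr (restrict_placeOf v _)
  · intro q _ q' _ h
    exact placeOf_injective v h
  · intro w hw
    obtain ⟨q, hq⟩ := exists_placeOf_eq v w ((hs w).mp hw)
    exact ⟨q, Finset.mem_univ _, hq⟩
  · intro q _
    rfl

/-- **Local norm formula** `∑_{w | v} ord_w(g) = ord_v(N_{F'/F} g)`. -/
theorem sum_ord_eq_ord_norm (hdeg' : ∀ w : Place K F', w.deg = 1)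
    (s : Finset (Place K F')) (hs : ∀ w, w ∈ s ↔ w.restrict F = v)
    (g : F') (hg : g ≠ 0) :
    ∑ w ∈ s, w.ord g = v.ord (Algebra.norm F g) := by
  obtain ⟨a, b, hb, rfl⟩ := IsFractionRing.div_surjective (A := intCl F' v) g
  have hb0 : b ≠ 0 := nonZeroDivisors.ne_zero hb
  have ha0 : a ≠ 0 := by
    rintro rfl
    simp at hg
  have ha' : (a : F') ≠ 0 := fun h => ha0 (Subtype.ext h)
  have hb' : (b : F') ≠ 0 := fun h => hb0 (Subtype.ext h)
  have hcoea : algebraMap (intCl F' v) F' a = (a : F') := rfl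
  have hcoeb : algebraMap (intCl F' v) F' b = (b : F') := rfl
  have hnorm : Algebra.norm F ((a : F') / (b : F'))
      = Algebra.norm F (a : F') / Algebra.norm F (b : F') := by
    rw [eq_div_iff (Algebra.norm_ne_zero_iff.mpr hb'), ← map_mul, div_mul_cancel₀ _ hb']
  rw [hcoea, hcoeb, hnorm,
    ord_div' v (Algebra.norm_ne_zero_iff.mpr ha') (Algebra.norm_ne_zero_iff.mpr hb'),
    ← sum_ord_eq_ord_norm_of_mem v hdeg' s hs a ha0,
    ← sum_ord_eq_ord_norm_of_mem v hdeg' s hs b hb0, ← Finset.sum_sub_distrib]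
  refine Finset.sum_congr rfl fun w _ => ?_
  exact ord_div' w ha' hb'

end Local

end Fermat.Agent.Lib.FF398

end
-- ===== PACK-END Lib/FF398/Local.lean

-- ===== PACK-BEGIN S24/FFDegree.lean
section




/-!
# S24 / FF layer: poles of a coordinate function and `deg (div f) = 0`
(helper804)
-/

set_option autoImplicit false
set_option linter.unusedSectionVars false

namespace Fermat.Agent.S24.FF

open AlgebraicCurve Polynomial IntermediateField

variable {K F : Type*} [Field K] [Field F] [Algebra K F]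

theorem adjoin_inv_eq (f : F) : K⟮f⁻¹⟯ = K⟮f⟯ := by
  apply le_antisymm
  · rw [adjoin_simple_le_iff]
    exact inv_mem (mem_adjoin_simple_self K f)
  · rw [adjoin_simple_le_iff]
    have := inv_mem (mem_adjoin_simple_self K f⁻¹)
    rwa [inv_inv] at this

theorem finrank_adjoin_inv (f : F) : Module.finrank K⟮f⁻¹⟯ F = Module.finrank K⟮f⟯ F := by
  rw [adjoin_inv_eq]

theorem transcendental_inv {f : F} (hf : Transcendental K f) : Transcendental K f⁻¹ := by
  intro h
  apply hf
  have := h.inv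
  rwa [inv_inv] at this

theorem finiteDimensional_adjoin_inv (f : F) [h : FiniteDimensional K⟮f⟯ F] :
    FiniteDimensional K⟮f⁻¹⟯ F := by
  rw [adjoin_inv_eq]
  exact h

theorem adjoin_sub_const_eq (f : F) (a : K) : K⟮f - algebraMap K F a⟯ = K⟮f⟯ := by
  apply le_antisymm
  · rw [adjoin_simple_le_iff]
    exact sub_mem (mem_adjoin_simple_self K f) (IntermediateField.algebraMap_mem _ a)
  · rw [adjoin_simple_le_iff]
    have := add_mem (mem_adjoin_simple_self K (f - algebraMap K F a))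
      (IntermediateField.algebraMap_mem K⟮f - algebraMap K F a⟯ a)
    rwa [sub_add_cancel] at this

theorem finrank_adjoin_sub_const (f : F) (a : K) :
    Module.finrank K⟮f - algebraMap K F a⟯ F = Module.finrank K⟮f⟯ F := by
  rw [adjoin_sub_const_eq]

theorem finiteDimensional_adjoin_sub_const (f : F) (a : K) [h : FiniteDimensional K⟮f⟯ F] :
    FiniteDimensional K⟮f - algebraMap K F a⟯ F := by
  rw [adjoin_sub_const_eq]
  exact h

theorem transcendental_sub_const {f : F} (hf : Transcendental K f) (a : K) :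
    Transcendental K (f - algebraMap K F a) := by
  intro h
  apply hf
  have := h.add (isAlgebraic_algebraMap (R := K) (A := F) a)
  rwa [sub_add_cancel] at this

section

variable [CharZero K]

/-- A coordinate function has finitely many poles. -/
theorem finite_setOf_ord_neg {t : F} (ht : Transcendental K t) [FiniteDimensional K⟮t⟯ F] :
    {v : Place K F | v.ord t < 0}.Finite := by
  have := finiteDimensional_adjoin_inv (K := K) t
  have h := finite_setOf_ord_pos (transcendental_inv ht)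
  refine h.subset ?_
  intro v hv
  change 0 < v.ord t⁻¹
  have hv' : v.ord t < 0 := hv
  rw [v.ord_inv]
  omega

/-- A nonconstant function has finitely many zeros and poles. -/
theorem finite_setOf_ord_ne_zero {t : F} (ht : Transcendental K t) [FiniteDimensional K⟮t⟯ F] :
    {v : Place K F | v.ord t ≠ 0}.Finite := by
  refine ((finite_setOf_ord_pos ht).union (finite_setOf_ord_neg ht)).subset ?_
  intro v hv
  have hv' : v.ord t ≠ 0 := hv
  rcases lt_or_gt_of_ne hv' with h | h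
  · exact Or.inr h
  · exact Or.inl h

variable [IsAlgClosed K]

/-- **Fundamental identity at the poles**: `∑_{v(t) < 0} ord_v(t) = -[F : K(t)]`. -/
theorem sum_ord_neg_eq_neg_finrank {t : F} (ht : Transcendental K t) [FiniteDimensional K⟮t⟯ F]
    (s : Finset (Place K F)) (hs : ∀ v, v ∈ s ↔ v.ord t < 0) :
    ∑ v ∈ s, v.ord t = -(Module.finrank K⟮t⟯ F : ℤ) := by
  have := finiteDimensional_adjoin_inv (K := K) t
  have h := sum_ord_eq_finrank (transcendental_inv ht) s (fun v => by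
    rw [hs, v.ord_inv]
    omega)
  rw [finrank_adjoin_inv] at h
  rw [← h, ← Finset.sum_neg_distrib]
  refine Finset.sum_congr rfl fun v _ => ?_
  rw [v.ord_inv, neg_neg]

/-- **Fundamental identity over the point `a`**: `∑_{v(t - a) > 0} ord_v(t - a) = [F : K(t)]`. -/
theorem sum_ord_sub_const_eq_finrank {t : F} (ht : Transcendental K t)
    [FiniteDimensional K⟮t⟯ F] (a : K)
    (s : Finset (Place K F)) (hs : ∀ v, v ∈ s ↔ 0 < v.ord (t - algebraMap K F a)) :
    ∑ v ∈ s, v.ord (t - algebraMap K F a) = (Module.finrank K⟮t⟯ F : ℤ) := by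
  have := finiteDimensional_adjoin_sub_const (K := K) t a
  have h := sum_ord_eq_finrank (transcendental_sub_const ht a) s hs
  rwa [finrank_adjoin_sub_const] at h

theorem degree_eq_sum (D : Divisor K F) :
    Divisor.degree D = ∑ v ∈ D.support, D v * (v.deg : ℤ) := by
  simp [Divisor.degree, Finsupp.sum]

/-- **FF3: a principal divisor has degree zero.** -/
theorem degree_principal (j : F) (hj : Transcendental K j) [FiniteDimensional K⟮j⟯ F]
    (f : F) (D : Divisor K F) (hD : ∀ v : Place K F, D v = v.ord f) :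
    Divisor.degree D = 0 := by
  by_cases hfr : f ∈ (algebraMap K F).range
  · obtain ⟨a, rfl⟩ := hfr
    have : D = 0 := by
      ext v
      rw [hD, _root_.Fermat.Agent.S24.FF.ord_algebraMap]
      rfl
    rw [this, map_zero]
  have hft : Transcendental K f := transcendental_of_not_mem_range hfr
  have hfin : FiniteDimensional K⟮f⟯ F := finiteDimensional_adjoin_of_transcendental hj hft
  classical
  rw [degree_eq_sum]
  have hsupp : ∀ v, v ∈ D.support ↔ v.ord f ≠ 0 := fun v => by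
    rw [Finsupp.mem_support_iff, hD]
  have h1 : ∑ v ∈ D.support, D v * (v.deg : ℤ) = ∑ v ∈ D.support, v.ord f := by
    refine Finset.sum_congr rfl fun v _ => ?_
    rw [hD, deg_eq_one v hj]
    simp
  rw [h1, ← Finset.sum_filter_add_sum_filter_not D.support (fun v => 0 < v.ord f)]
  have hP := sum_ord_eq_finrank hft (D.support.filter fun v => 0 < v.ord f) (fun v => by
    rw [Finset.mem_filter, hsupp]
    constructor
    · exact fun h => h.2
    · exact fun h => ⟨h.ne', h⟩)
  have hN := sum_ord_neg_eq_neg_finrank hft (D.support.filter fun v => ¬ 0 < v.ord f)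
    (fun v => by
      rw [Finset.mem_filter, hsupp]
      constructor
      · rintro ⟨h1, h2⟩
        omega
      · intro h
        exact ⟨h.ne, by omega⟩)
  rw [hP, hN]
  ring

end

end Fermat.Agent.S24.FF

namespace Fermat.Agent.S24.FF

open AlgebraicCurve

variable {K F : Type*} [Field K] [Field F] [Algebra K F] [IsAlgClosed K] [CharZero K]

/-- Exact shape of helper984's `open_fundamental_le` (`Alg/Open.lean`). -/
theorem fundamental_le (t : F) (ht : Transcendental K t)
    [FiniteDimensional ↥(IntermediateField.adjoin K {t}) F]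
    (s : Finset (Place K F)) (hs : ∀ v : Place K F, v ∈ s ↔ 0 < v.ord t) :
    (Module.finrank ↥(IntermediateField.adjoin K {t}) F : ℤ) ≤ ∑ v ∈ s, v.ord t :=
  (sum_ord_eq_finrank ht s hs).ge

/-- Exact shape of helper984's `open_degree_principal` (`Alg/Open.lean`). -/
theorem degree_principal' (j : F) (hj : Transcendental K j)
    [FiniteDimensional ↥(IntermediateField.adjoin K {j}) F] (f : F) (_hf : f ≠ 0)
    (D : Divisor K F) (hD : ∀ v : Place K F, D v = v.ord f) : Divisor.degree D = 0 :=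
  _root_.Fermat.Agent.S24.FF.degree_principal j hj f D hD

end Fermat.Agent.S24.FF

end
-- ===== PACK-END S24/FFDegree.lean

-- ===== PACK-BEGIN Lib/FF398/Global.lean
section




/-!
# Lib/FF398 — global consequences for function fields over an algebraically closed field

* `hasPrincipalDivisors` : a function field of one variable over an algebraically closed field
  of characteristic zero has principal divisors (finite support, degree zero)
  [repackaging of helper804's `S24.FF.degree_principal`];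
* `sumRamificationInertia`, `fundamentalIdentity` : `∑_{w | v} e(w|v) f(w|v) = [F' : F]`;
* `pushforwardNormFormula` : `N_* div(g) = div(N g)`.
(helper398)
-/

set_option autoImplicit false
set_option linter.unusedSectionVars false

open AlgebraicCurve IsDedekindDomain IntermediateField

namespace Fermat.Agent.Lib.FF398

section HPD

variable {K F : Type*} [Field K] [Field F] [Algebra K F] [IsAlgClosed K] [CharZero K]

/-- A function field of one variable over an algebraically closed field of characteristic zero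
has principal divisors. -/
theorem hasPrincipalDivisors (j : F) (hj : Transcendental K j) [FiniteDimensional K⟮j⟯ F] :
    HasPrincipalDivisors K F where
  exists_divisor f hf := by
    by_cases hfr : f ∈ (algebraMap K F).range
    · obtain ⟨a, rfl⟩ := hfr
      refine ⟨0, fun v => ?_, map_zero _⟩
      rw [Fermat.Agent.S24.FF.ord_algebraMap]
      rfl
    · have hft : Transcendental K f := Fermat.Agent.S24.FF.transcendental_of_not_mem_range hfr
      have hfin : FiniteDimensional K⟮f⟯ F :=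
        Fermat.Agent.S24.FF.finiteDimensional_adjoin_of_transcendental hj hft
      have hfinite : {v : Place K F | v.ord f ≠ 0}.Finite :=
        Fermat.Agent.S24.FF.finite_setOf_ord_ne_zero hft
      let D : Divisor K F := Finsupp.ofSupportFinite (fun v => v.ord f) hfinite
      have hD : ∀ v : Place K F, D v = v.ord f := fun v => rfl
      exact ⟨D, hD, Fermat.Agent.S24.FF.degree_principal j hj f D hD⟩

end HPD

section Relative

variable {K F F' : Type*} [Field K] [Field F] [Field F'] [Algebra K F] [Algebra K F']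
  [Algebra F F'] [IsScalarTower K F F'] [FiniteDimensional F F'] [CharZero F]
  [HasPrincipalDivisors K F']

/-- **Fundamental identity** `∑_{w | v} e(w|v) f(w|v) = [F' : F]` when all places of `F'` have
degree one. -/
theorem sumRamificationInertia (hdeg' : ∀ w : Place K F', w.deg = 1) :
    SumRamificationInertia K F F' where
  sum_ramificationIndex_mul_inertiaDeg v := by
    rw [← sum_ramificationIndex v hdeg' (v.fiber F') (fun w => Place.mem_fiber)]
    refine Finset.sum_congr rfl fun w _ => ?_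
    rw [inertiaDeg_eq_one hdeg' w]
    simp

theorem fundamentalIdentity (hdeg' : ∀ w : Place K F', w.deg = 1) :
    FundamentalIdentity K F F' :=
  haveI := sumRamificationInertia (F := F) hdeg'
  inferInstance

/-- **Norm formula** `N_* div(g) = div(N_{F'/F} g)` when all places of `F'` have degree one. -/
theorem pushforwardNormFormula (hdeg' : ∀ w : Place K F', w.deg = 1) :
    Divisor.PushforwardNormFormula K F F' := by
  classical
  intro g hg D hD v
  rw [Divisor.pushforward_apply, ← sum_ord_eq_ord_norm v hdeg' (v.fiber F')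
    (fun w => Place.mem_fiber) g hg]
  rw [← Finset.sum_filter]
  refine Finset.sum_subset_zero_on_sdiff ?_ ?_ ?_
  · intro w hw
    rw [Finset.mem_filter] at hw
    exact Place.mem_fiber.mpr hw.2
  · intro w hw
    rw [Finset.mem_sdiff, Finset.mem_filter, Place.mem_fiber] at hw
    have hnot : w ∉ D.support := fun h => hw.2 ⟨h, hw.1⟩
    rw [Finsupp.notMem_support_iff, hD] at hnot
    exact hnot
  · intro w hw
    rw [hD, inertiaDeg_eq_one hdeg' w]
    simp

end Relative

end Fermat.Agent.Lib.FF398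

end
-- ===== PACK-END Lib/FF398/Global.lean

-- ===== PACK-BEGIN S24/Alg/Open.lean
section



/-!
# S24 / ALG — the fundamental equality (FF1)

INTERFACE FILE (statement by helper984).  Proof: helper804's Dedekind dictionary
(`Fermat.Agent.S24.FF.finite_setOf_ord_pos`, `Fermat.Agent.S24.FF.sum_ord_eq_finrank`).
-/

set_option autoImplicit false

noncomputable section

open AlgebraicCurve

namespace Fermat.Agent.S24

variable {K F : Type*} [Field K] [Field F] [Algebra K F] [IsAlgClosed K] [CharZero K]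

/-- FF1 (fundamental equality): the zeros of a transcendental `t` are finite in number and
`∑_{v | t} ord_v t = [F : K(t)]`. -/
theorem open_fundamental_eq (t : F) (ht : Transcendental K t)
    [FiniteDimensional ↥(IntermediateField.adjoin K {t}) F] :
    ∃ s : Finset (Place K F), (∀ v : Place K F, v ∈ s ↔ 0 < v.ord t) ∧
      ∑ v ∈ s, v.ord t = (Module.finrank ↥(IntermediateField.adjoin K {t}) F : ℤ) :=
  ⟨(FF.finite_setOf_ord_pos ht).toFinset, fun v => by simp,
    FF.sum_ord_eq_finrank ht _ (fun v => by simp)⟩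

end Fermat.Agent.S24

end
end
-- ===== PACK-END S24/Alg/Open.lean

-- ===== PACK-BEGIN S24/Alg/Principal.lean
section





/-!
# S24 / ALG — principal divisors have degree zero (FF3), from the fundamental equality (FF1)

helper984.  `deg div f = ∑_{zeros} ord_v f - ∑_{poles} ord_v f⁻¹ = [F:K(f)] - [F:K(f⁻¹)] = 0`.
-/

set_option autoImplicit false

noncomputable section

open AlgebraicCurve

namespace Fermat.Agent.S24

variable {K F : Type*} [Field K] [Field F] [Algebra K F]

theorem degree_eq_sum_of_deg_one' (hdeg : ∀ v : Place K F, v.deg = 1) (E : Divisor K F)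
    (T : Finset (Place K F)) (hT : E.support ⊆ T) :
    Divisor.degree E = ∑ v ∈ T, E v := by
  have h1 : Divisor.degree E = E.sum fun v n => n * (v.deg : ℤ) := by
    simp [Divisor.degree, Finsupp.liftAddHom_apply]
  rw [h1, Finsupp.sum_of_support_subset E hT _ (fun v _ => by simp)]
  refine Finset.sum_congr rfl fun v _ => ?_
  rw [hdeg v]; simp

variable [IsAlgClosed K] [CharZero K]

/-- FF1 in inequality form, for an arbitrary enumeration `s` of the zeros of `t`. -/
theorem fundamental_le (t : F) (ht : Transcendental K t)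
    [FiniteDimensional ↥(IntermediateField.adjoin K {t}) F]
    (s : Finset (Place K F)) (hs : ∀ v : Place K F, v ∈ s ↔ 0 < v.ord t) :
    (Module.finrank ↥(IntermediateField.adjoin K {t}) F : ℤ) ≤ ∑ v ∈ s, v.ord t := by
  obtain ⟨s', hs', hsum⟩ := open_fundamental_eq t ht
  have : s = s' := by
    ext v
    rw [hs, hs']
  rw [this, hsum]

/-- FF3: a principal divisor has degree zero. -/
theorem degree_principal (j : F) (hj : Transcendental K j)
    [FiniteDimensional ↥(IntermediateField.adjoin K {j}) F] (f : F) (hf : f ≠ 0)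
    (D : Divisor K F) (hD : ∀ v : Place K F, D v = v.ord f) : Divisor.degree D = 0 := by
  classical
  by_cases hfK : f ∈ (algebraMap K F).range
  · -- constants have no zeros or poles
    obtain ⟨c, rfl⟩ := hfK
    have : D = 0 := by
      ext v
      rw [hD, ord_algebraMap]
      rfl
    rw [this, map_zero]
  · have hft : Transcendental K f := FF.transcendental_of_not_mem_range hfK
    have hfit : Transcendental K f⁻¹ := by
      intro h
      exact hft (by simpa using h.inv)
    haveI : FiniteDimensional ↥(IntermediateField.adjoin K {f}) F :=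
      FF.finiteDimensional_adjoin_of_transcendental hj hft
    obtain ⟨hfd, hfr⟩ := finiteDimensional_and_finrank_of_eq (adjoin_inv K f)
    obtain ⟨Z, hZ, hZsum⟩ := open_fundamental_eq f hft
    obtain ⟨P, hP, hPsum⟩ := open_fundamental_eq f⁻¹ hfit
    have hdeg : ∀ v : Place K F, v.deg = 1 := fun v => FF.deg_eq_one v hj
    have hsupp : D.support ⊆ Z ∪ P := by
      intro v hv
      rw [Finsupp.mem_support_iff, hD] at hv
      rw [Finset.mem_union, hZ, hP, v.ord_inv]
      omega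
    have hdisj : Disjoint Z P := by
      rw [Finset.disjoint_left]
      intro v hvZ hvP
      rw [hZ] at hvZ
      rw [hP, v.ord_inv] at hvP
      omega
    rw [degree_eq_sum_of_deg_one' hdeg D _ hsupp, Finset.sum_union hdisj]
    have h1 : ∑ v ∈ Z, D v = ∑ v ∈ Z, v.ord f := Finset.sum_congr rfl fun v _ => hD v
    have h2 : ∑ v ∈ P, D v = -∑ v ∈ P, v.ord f⁻¹ := by
      rw [← Finset.sum_neg_distrib]
      refine Finset.sum_congr rfl fun v _ => ?_
      rw [hD, v.ord_inv, neg_neg]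
    rw [h1, h2, hZsum, hPsum, hfr]
    ring

end Fermat.Agent.S24

end
end
-- ===== PACK-END S24/Alg/Principal.lean

-- ===== PACK-BEGIN S24/Alg/LocFund.lean
section



/-!
# S24 / ALG-LOC: the fundamental inequality from local data (no Dedekind theory)

For `L : LocalData K F C X t`: at most `ord_v t` of the embeddings `L.σ x` induce a given
place `v` (with residue field `K`).  Hence `|X| ≤ ∑_{v | t} ord_v t`.
-/

set_option autoImplicit false

noncomputable section

open AlgebraicCurve Polynomial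

namespace Fermat.Agent.S24.H144

variable {K F : Type*} [Field K] [Field F] [Algebra K F]
variable {C : Type*} [Field C] {X : Type*} {t : F}

theorem loc_coeff_zero_C (c : C) : (HahnSeries.C c : LaurentSeries C).coeff 0 = c := by
  simp [HahnSeries.C, HahnSeries.coeff_single_same]

/-- The place induced by `L.σ x` lies over `t = 0`. -/
theorem loc_ord_t_pos_of_induces (L : LocalData K F C X t) {x : X} {v : Place K F}
    (hx : Induces (L.σ x) v) : 0 < v.ord t := by
  obtain ⟨g, hg, hord⟩ := loc_exists_mult v (L.σ x) hx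
  have h1 := hord t
  have h2 := loc_order_t_pos L x
  rw [h1] at h2
  have hg' : (0 : ℤ) < g := Int.natCast_pos.mpr hg
  exact (mul_pos_iff_of_pos_left hg').mp h2

/-- **Fibre bound.** At most `ord_v t` of the embeddings induce the place `v`. -/
theorem loc_fibre_card_le [CharZero C] (L : LocalData K F C X t) (v : Place K F)
    (hv : 0 < v.ord t) (hres : ResidueTrivial v) (T : Finset X)
    (hT : ∀ x ∈ T, Induces (L.σ x) v) : (T.card : ℤ) ≤ v.ord t := by
  classical
  obtain ⟨π, hπ⟩ := loc_exists_ord_eq_one v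
  have hπ0 : π ≠ 0 := by rintro rfl; simp at hπ
  have ht0 : t ≠ 0 := by rintro rfl; simp at hv
  obtain ⟨k, hk⟩ : ∃ k : ℕ, v.ord t = (k : ℤ) + 1 := ⟨(v.ord t - 1).toNat, by omega⟩
  -- the unit part of `t`
  set u : F := t * (π ^ (k + 1))⁻¹ with hu
  have hpk : π ^ (k + 1) ≠ 0 := pow_ne_zero _ hπ0
  have hu0 : u ≠ 0 := mul_ne_zero ht0 (inv_ne_zero hpk)
  have hut : t = u * π ^ (k + 1) := by rw [hu]; field_simp
  have hordu : v.ord u = 0 := by
    rw [hu, v.ord_mul ht0 (inv_ne_zero hpk), v.ord_inv, loc_ord_pow, hπ, hk]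
    push_cast; ring
  have humem : u ∈ v.toValuationSubring := loc_mem_of_ord_nonneg v hordu.ge
  -- the residue of `u`
  obtain ⟨c, hc⟩ := hres u humem
  have hucoeff : ∀ x ∈ T, (L.σ x u).coeff 0 = L.ι c := by
    intro x hx
    rcases hc with hc | hc
    · rw [hc, L.σ_const, loc_coeff_zero_C]
    · obtain ⟨g, hg, hord⟩ := loc_exists_mult v (L.σ x) (hT x hx)
      have h1 : 0 < (L.σ x (u - algebraMap K F c)).order := by
        rw [hord]
        exact mul_pos (Int.natCast_pos.mpr hg) hc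
      have h2 : (L.σ x (u - algebraMap K F c)).coeff 0 = 0 :=
        HahnSeries.coeff_eq_zero_of_lt_order h1
      rw [map_sub, HahnSeries.coeff_sub, L.σ_const, loc_coeff_zero_C, sub_eq_zero] at h2
      exact h2
  -- the key relation
  have hrel : ∀ x ∈ T, L.ι c * ((L.σ x π).leadingCoeff) ^ (k + 1) = (L.σ x t).leadingCoeff := by
    intro x hx
    obtain ⟨g, hg, hord⟩ := loc_exists_mult v (L.σ x) (hT x hx)
    have hou : LocBig 0 (L.σ x u) := LocBig.of_le_order (by rw [hord, hordu, mul_zero])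
    have hoπ : (L.σ x π).order = g := by rw [hord, hπ, mul_one]
    have hbπ : LocBig (g : ℤ) (L.σ x π) := LocBig.of_le_order hoπ.ge
    have hot : (L.σ x t).order = ((k + 1 : ℕ) : ℤ) * g := by
      rw [hord, hk]; push_cast; ring
    have h1 := hou.coeff_mul (hbπ.pow (k + 1))
    rw [hbπ.coeff_pow, zero_add, ← map_pow, ← map_mul, ← hut, hucoeff x hx] at h1
    have e1 : (L.σ x π).leadingCoeff = (L.σ x π).coeff g := by
      rw [HahnSeries.leadingCoeff_eq, hoπ]
    have e2 : (L.σ x t).leadingCoeff = (L.σ x t).coeff (((k + 1 : ℕ) : ℤ) * g) := by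
      rw [HahnSeries.leadingCoeff_eq, hot]
    rw [e1, e2, h1]
  have hιc : ∀ x ∈ T, L.ι c ≠ 0 := by
    intro x hx
    rw [← hucoeff x hx]
    obtain ⟨g, hg, hord⟩ := loc_exists_mult v (L.σ x) (hT x hx)
    have ho : (L.σ x u).order = 0 := by rw [hord, hordu, mul_zero]
    rw [← ho]
    exact HahnSeries.coeff_order_eq_zero.not.mpr ((map_ne_zero (L.σ x)).mpr hu0)
  rcases T.eq_empty_or_nonempty with rfl | ⟨x₀, hx₀⟩
  · simp only [Finset.card_empty, Nat.cast_zero]; exact hv.le
  -- all leading coefficients are `(k+1)`-th roots of the same element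
  set A : C := (L.σ x₀ t).leadingCoeff * (L.ι c)⁻¹ with hA
  have hroot : ∀ x ∈ T, (L.σ x π).leadingCoeff ∈ (nthRoots (k + 1) A).toFinset := by
    intro x hx
    rw [Multiset.mem_toFinset, mem_nthRoots (Nat.succ_pos k), hA, L.σ_t_eq x₀ x, ← hrel x hx]
    field_simp [hιc x hx]
  have hinj : Set.InjOn (fun x => (L.σ x π).leadingCoeff) (T : Set X) := by
    intro x hx y hy hxy
    apply L.σ_inj
    exact loc_emb_eq_of_leadingCoeff_eq hres hv hπ L.ι (L.σ x) (L.σ y) (L.σ_const x)
      (L.σ_const y) (hT x hx) (hT y hy) (L.σ_t_eq x y) hxy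
  have h1 : T.card ≤ (nthRoots (k + 1) A).toFinset.card :=
    Finset.card_le_card_of_injOn _ hroot hinj
  have h2 : (nthRoots (k + 1) A).toFinset.card ≤ k + 1 :=
    (Multiset.toFinset_card_le _).trans (card_nthRoots _ _)
  rw [hk]
  have : T.card ≤ k + 1 := h1.trans h2
  exact_mod_cast this

/-- **Fundamental inequality** `|X| ≤ ∑_{v | t} ord_v t`, hypothesis-explicit version. -/
theorem loc_card_le_sum_of_residueTrivial [CharZero C] [Finite X] (L : LocalData K F C X t)
    (hres : ∀ v : Place K F, 0 < v.ord t → ResidueTrivial v)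
    (s : Finset (Place K F)) (hs : ∀ v, v ∈ s ↔ 0 < v.ord t) :
    (Nat.card X : ℤ) ≤ ∑ v ∈ s, v.ord t := by
  classical
  have : Fintype X := Fintype.ofFinite X
  rw [Nat.card_eq_fintype_card, ← Finset.card_univ,
    Finset.card_eq_sum_card_image (locPlace L) Finset.univ]
  push_cast
  have himg : Finset.univ.image (locPlace L) ⊆ s := by
    intro v hv
    obtain ⟨x, _, rfl⟩ := Finset.mem_image.mp hv
    exact (hs _).mpr (loc_ord_t_pos_of_induces L (loc_induces_locPlace L x))
  refine le_trans (Finset.sum_le_sum fun v hv => ?_)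
    (Finset.sum_le_sum_of_subset_of_nonneg himg fun v hv _ => ((hs v).mp hv).le)
  have hvpos : 0 < v.ord t := (hs v).mp (himg hv)
  apply loc_fibre_card_le L v hvpos (hres v hvpos)
  intro x hx
  rw [Finset.mem_filter] at hx
  rw [← hx.2]
  exact loc_induces_locPlace L x

end Fermat.Agent.S24.H144

end
end
-- ===== PACK-END S24/Alg/LocFund.lean

-- ===== PACK-BEGIN S24/Alg/LocFundFF.lean
section



/-!
# S24 / ALG-LOC: the fundamental inequality `|X| ≤ ∑_{v | t} ord_v t` (final form)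

Combines the local uniqueness argument (`LocFund.lean`) with "residue field `= K`"
(helper804, `FFFinite.lean`).  No Dedekind theory.
-/

set_option autoImplicit false

noncomputable section

open AlgebraicCurve IntermediateField

namespace Fermat.Agent.S24.H144

variable {K F : Type*} [Field K] [Field F] [Algebra K F]
variable {C : Type*} [Field C] {X : Type*} {t : F}

/-- Over an algebraically closed constant field the residue field of every place is `K`. -/
theorem loc_residueTrivial [IsAlgClosed K] (v : Place K F) (ht : 0 < v.ord t)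
    [FiniteDimensional K⟮t⟯ F] : ResidueTrivial v := by
  have htr : Transcendental K t := by
    apply FF.transcendental_of_not_mem_range
    rintro ⟨c, rfl⟩
    rw [loc_ord_algebraMap] at ht
    exact lt_irrefl _ ht
  intro f hf
  obtain ⟨a, ha⟩ := FF.exists_const_sub_mem_nonunits v htr hf
  refine ⟨a, ?_⟩
  rcases eq_or_ne (f - algebraMap K F a) 0 with h0 | h0
  · exact Or.inl (sub_eq_zero.mp h0)
  · exact Or.inr ((FF.ord_pos_iff_mem_nonunits v h0).mpr ha)

/-- **Fundamental inequality from local data.** -/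
theorem loc_fundamental_inequality [IsAlgClosed K] [CharZero C] [Finite X]
    [FiniteDimensional K⟮t⟯ F] (L : LocalData K F C X t)
    (s : Finset (Place K F)) (hs : ∀ v, v ∈ s ↔ 0 < v.ord t) :
    (Nat.card X : ℤ) ≤ ∑ v ∈ s, v.ord t :=
  loc_card_le_sum_of_residueTrivial L (fun v hv => loc_residueTrivial v hv) s hs

end Fermat.Agent.S24.H144

end
end
-- ===== PACK-END S24/Alg/LocFundFF.lean

-- ===== PACK-BEGIN S28/H568/Series.lean
section



/-!
# S28 / H568 — formal preliminaries on `LaurentSeries ℂ`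

* order / leading coefficient of integer powers and finite products;
* the subring of Laurent series with coefficients in a subring `C ⊆ ℂ`;
* `InfExp` for integer powers and finite products.
-/

set_option autoImplicit false

noncomputable section

open HahnSeries ModularCurve UpperHalfPlane Complex
open scoped Real

namespace Fermat.Agent.S28.H568

open Fermat.Agent.S24

/-! ### order and leading coefficient -/

section Order

variable {K : Type*} [Field K]

theorem order_inv' {x : LaurentSeries K} (hx : x ≠ 0) : (x⁻¹).order = -x.order := by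
  have h := HahnSeries.order_mul hx (inv_ne_zero hx)
  rw [mul_inv_cancel₀ hx, HahnSeries.order_one] at h
  linarith

theorem leadingCoeff_inv' (x : LaurentSeries K) : (x⁻¹).leadingCoeff = x.leadingCoeff⁻¹ := by
  rcases eq_or_ne x 0 with rfl | hx
  · simp
  · have h := HahnSeries.leadingCoeff_mul x x⁻¹
    rw [mul_inv_cancel₀ hx, HahnSeries.leadingCoeff_one] at h
    exact eq_inv_of_mul_eq_one_right h.symm

theorem order_pow' {x : LaurentSeries K} (hx : x ≠ 0) (n : ℕ) :
    (x ^ n).order = n * x.order := by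
  induction n with
  | zero => simp
  | succ n ih =>
    rw [pow_succ, HahnSeries.order_mul (pow_ne_zero n hx) hx, ih]
    push_cast
    ring

theorem leadingCoeff_pow' (x : LaurentSeries K) (n : ℕ) :
    (x ^ n).leadingCoeff = x.leadingCoeff ^ n := by
  induction n with
  | zero => simp
  | succ n ih => rw [pow_succ, HahnSeries.leadingCoeff_mul, ih, pow_succ]

theorem order_zpow' {x : LaurentSeries K} (hx : x ≠ 0) (r : ℤ) :
    (x ^ r).order = r * x.order := by
  obtain ⟨n, rfl | rfl⟩ := r.eq_nat_or_neg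
  · rw [zpow_natCast, order_pow' hx]
  · rw [zpow_neg, zpow_natCast, order_inv' (pow_ne_zero n hx), order_pow' hx]
    ring

theorem leadingCoeff_zpow' (x : LaurentSeries K) (r : ℤ) :
    (x ^ r).leadingCoeff = x.leadingCoeff ^ r := by
  obtain ⟨n, rfl | rfl⟩ := r.eq_nat_or_neg
  · rw [zpow_natCast, zpow_natCast, leadingCoeff_pow']
  · rw [zpow_neg, zpow_natCast, zpow_neg, zpow_natCast, leadingCoeff_inv', leadingCoeff_pow']

theorem order_prod' {ι : Type*} (s : Finset ι) (f : ι → LaurentSeries K)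
    (hf : ∀ i ∈ s, f i ≠ 0) : (∏ i ∈ s, f i).order = ∑ i ∈ s, (f i).order := by
  classical
  induction s using Finset.induction_on with
  | empty => simp
  | insert a s ha ih =>
    rw [Finset.prod_insert ha, Finset.sum_insert ha,
      HahnSeries.order_mul (hf a (Finset.mem_insert_self a s))
        (Finset.prod_ne_zero_iff.mpr fun i hi => hf i (Finset.mem_insert_of_mem hi)),
      ih fun i hi => hf i (Finset.mem_insert_of_mem hi)]

theorem leadingCoeff_prod' {ι : Type*} (s : Finset ι) (f : ι → LaurentSeries K) :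
    (∏ i ∈ s, f i).leadingCoeff = ∏ i ∈ s, (f i).leadingCoeff := by
  classical
  induction s using Finset.induction_on with
  | empty => simp
  | insert a s ha ih =>
    rw [Finset.prod_insert ha, Finset.prod_insert ha, HahnSeries.leadingCoeff_mul, ih]

end Order

/-! ### series with coefficients in a subring -/

section Coeff

variable (C : Subring ℂ)

/-- Laurent series over `ℂ` all of whose coefficients lie in the subring `C`. -/
def coeffSubring : Subring (LaurentSeries ℂ) := (coeffMap C.subtype).range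

variable {C}

theorem mem_coeffSubring_iff {φ : LaurentSeries ℂ} :
    φ ∈ coeffSubring C ↔ ∀ n, φ.coeff n ∈ C := by
  constructor
  · rintro ⟨ψ, rfl⟩ n
    rw [coeffMap_coeff]
    exact (ψ.coeff n).2
  · intro h
    refine ⟨⟨fun n => ⟨φ.coeff n, h n⟩, φ.isPWO_support.mono fun n hn => ?_⟩, ?_⟩
    · simp only [Function.mem_support, ne_eq] at hn
      rw [mem_support]
      intro h0
      exact hn (Subtype.ext h0)
    · ext n
      rw [coeffMap_coeff]
      rfl

theorem C_mem_coeffSubring {c : ℂ} (hc : c ∈ C) : (HahnSeries.C c : LaurentSeries ℂ) ∈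
    coeffSubring C := by
  rw [mem_coeffSubring_iff]
  intro n
  rw [C_apply]
  by_cases hn : n = 0
  · subst hn; simpa using hc
  · rw [coeff_single_of_ne hn]; exact C.zero_mem

theorem qExpand_mem_coeffSubring (e : ℕ) [NeZero e] {φ : LaurentSeries ℂ}
    (hφ : φ ∈ coeffSubring C) : qExpand ℂ e φ ∈ coeffSubring C := by
  rw [mem_coeffSubring_iff] at hφ ⊢
  intro n
  by_cases hn : (e : ℤ) ∣ n
  · obtain ⟨k, rfl⟩ := hn
    rw [qExpand_coeff_mul]
    exact hφ k
  · rw [qExpand_coeff_of_not_dvd e _ hn]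
    exact C.zero_mem

theorem infTwist_mem_coeffSubring (u : ℂˣ) (hu : (u : ℂ) ∈ C) (hu' : ((u⁻¹ : ℂˣ) : ℂ) ∈ C)
    {φ : LaurentSeries ℂ} (hφ : φ ∈ coeffSubring C) : infTwist u φ ∈ coeffSubring C := by
  rw [mem_coeffSubring_iff] at hφ ⊢
  intro n
  rw [infTwist_coeff]
  refine C.mul_mem (hφ n) ?_
  obtain ⟨m, rfl | rfl⟩ := n.eq_nat_or_neg
  · rw [zpow_natCast, Units.val_pow_eq_pow_val]
    exact C.pow_mem hu m
  · rw [zpow_neg, zpow_natCast, ← inv_pow, Units.val_pow_eq_pow_val]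
    exact C.pow_mem hu' m

theorem coeffMap_int_mem_coeffSubring (ψ : LaurentSeries ℤ) :
    coeffMap (Int.castRingHom ℂ) ψ ∈ coeffSubring C := by
  rw [mem_coeffSubring_iff]
  intro n
  rw [coeffMap_coeff]
  exact intCast_mem C _

theorem leadingCoeff_mem_of_mem_coeffSubring {φ : LaurentSeries ℂ} (hφ : φ ∈ coeffSubring C) :
    φ.leadingCoeff ∈ C := by
  rw [leadingCoeff_eq]
  exact mem_coeffSubring_iff.mp hφ _

end Coeff

/-! ### `InfExp` for powers and products -/

section Exp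

variable {N : ℕ}

theorem InfExp.pow' {f : ℍ → ℂ} {φ : LaurentSeries ℂ} (hf : InfExp N f φ) (n : ℕ) :
    InfExp N (fun τ => f τ ^ n) (φ ^ n) := by
  induction n with
  | zero => simpa using (InfExp.one (N := N))
  | succ n ih =>
    have := ih.mul hf
    simpa [pow_succ] using this

theorem InfExp.zpow' {f : ℍ → ℂ} {φ ψ : LaurentSeries ℂ} (hf : InfExp N f φ)
    (hg : InfExp N (fun τ => (f τ)⁻¹) ψ) (hφψ : φ * ψ = 1) (r : ℤ) :
    InfExp N (fun τ => f τ ^ r) (φ ^ r) := by
  have hψ : ψ = φ⁻¹ := eq_inv_of_mul_eq_one_right hφψ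
  obtain ⟨n, rfl | rfl⟩ := r.eq_nat_or_neg
  · simpa using InfExp.pow' hf n
  · have := InfExp.pow' hg n
    rw [hψ] at this
    simpa [zpow_neg, inv_pow] using this

theorem InfExp.prod' {ι : Type*} (s : Finset ι) {f : ι → ℍ → ℂ} {φ : ι → LaurentSeries ℂ}
    (hf : ∀ i ∈ s, InfExp N (f i) (φ i)) :
    InfExp N (fun τ => ∏ i ∈ s, f i τ) (∏ i ∈ s, φ i) := by
  classical
  induction s using Finset.induction_on with
  | empty => simpa using (InfExp.one (N := N))
  | insert a s ha ih =>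
    have h1 := hf a (Finset.mem_insert_self a s)
    have h2 := ih fun i hi => hf i (Finset.mem_insert_of_mem hi)
    have := h1.mul h2
    simpa [Finset.prod_insert ha] using this

end Exp

end Fermat.Agent.S28.H568

end
end
-- ===== PACK-END S28/H568/Series.lean

-- ===== PACK-BEGIN S28/H568/DeltaSeries.lean
section


/-!
# S28 / H568 — the formal discriminant over `ℤ` and `ℂ`, and its expansions along `τ ↦ (aτ+b)/d`
-/

set_option autoImplicit false

noncomputable section

open HahnSeries ModularCurve UpperHalfPlane Complex Matrix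
open scoped Real MatrixGroups

namespace Fermat.Agent.S28.H568

open Fermat.Agent.S24

/-! ### the integral series -/

/-- The formal discriminant `Δ = q ∏ (1 - qⁿ)²⁴` over `ℤ`. -/
def deltaZ : LaurentSeries ℤ :=
  HahnSeries.single (1 : ℤ) (1 : ℤ) * HahnSeries.ofPowerSeries ℤ ℤ dedekindEtaUnit

/-- The formal inverse of `Δ` over `ℤ`. -/
def deltaInvZ : LaurentSeries ℤ :=
  HahnSeries.single (-1 : ℤ) (1 : ℤ) * HahnSeries.ofPowerSeries ℤ ℤ dedekindEtaUnitInv

theorem deltaZ_mul_deltaInvZ : deltaZ * deltaInvZ = 1 := by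
  rw [deltaZ, deltaInvZ]
  have h1 : HahnSeries.single (1 : ℤ) (1 : ℤ) * HahnSeries.single (-1 : ℤ) (1 : ℤ) = 1 := by
    rw [HahnSeries.single_mul_single]
    simp
  have h2 : HahnSeries.ofPowerSeries ℤ ℤ dedekindEtaUnit *
      HahnSeries.ofPowerSeries ℤ ℤ dedekindEtaUnitInv = 1 := by
    rw [← map_mul, dedekindEtaUnit_mul_inv, map_one]
  calc _ = (HahnSeries.single (1 : ℤ) (1 : ℤ) * HahnSeries.single (-1 : ℤ) (1 : ℤ)) *
      (HahnSeries.ofPowerSeries ℤ ℤ dedekindEtaUnit *
        HahnSeries.ofPowerSeries ℤ ℤ dedekindEtaUnitInv) := by ring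
    _ = 1 := by rw [h1, h2, one_mul]

/-- `Δ` as a unit of `ℤ((q))`. -/
def deltaU : (LaurentSeries ℤ)ˣ :=
  ⟨deltaZ, deltaInvZ, deltaZ_mul_deltaInvZ, by rw [mul_comm]; exact deltaZ_mul_deltaInvZ⟩

@[simp] theorem deltaU_val : (deltaU : LaurentSeries ℤ) = deltaZ := rfl

/-- Coefficient extension `ℤ((q)) → ℂ((q))`. -/
abbrev castC : LaurentSeries ℤ →+* LaurentSeries ℂ := coeffMap (Int.castRingHom ℂ)

theorem castC_injective : Function.Injective castC :=
  inf_coeffMap_injective (RingHom.injective_int (Int.castRingHom ℂ))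

/-- The formal discriminant over `ℂ`. -/
abbrev dS : LaurentSeries ℂ := H565.deltaSeriesC

/-- The formal inverse discriminant over `ℂ`. -/
abbrev dInvS : LaurentSeries ℂ := H565.deltaInvSeriesC

theorem castC_deltaZ : castC deltaZ = dS := by
  rw [deltaZ, map_mul, coeffMap_single, coeffMap_ofPowerSeries, H565.map_dedekindEtaUnit]
  simp [H565.deltaSeriesC]

theorem castC_deltaInvZ : castC deltaInvZ = dInvS := by
  rw [deltaInvZ, map_mul, coeffMap_single, coeffMap_ofPowerSeries]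
  simp [H565.deltaInvSeriesC, H565.etaInvC]

theorem dS_mul_dInvS : dS * dInvS = 1 := H565.deltaSeriesC_mul_inv

theorem dS_ne_zero : dS ≠ 0 := left_ne_zero_of_mul_eq_one dS_mul_dInvS

theorem dInvS_ne_zero : dInvS ≠ 0 := right_ne_zero_of_mul_eq_one dS_mul_dInvS

theorem dInvS_eq_inv : dInvS = dS⁻¹ := eq_inv_of_mul_eq_one_right dS_mul_dInvS

theorem dS_coeff_one : dS.coeff 1 = 1 := by
  have h := inf_coeff_single_mul_ofPowerSeries (1 : ℤ) (H565.etaProdC ^ 24) 0
  simp only [Nat.cast_zero, zero_add] at h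
  rw [show dS = single (1 : ℤ) (1 : ℂ) * ofPowerSeries ℤ ℂ (H565.etaProdC ^ 24) from rfl, h,
    ← H565.map_dedekindEtaUnit, PowerSeries.coeff_map, PowerSeries.coeff_zero_eq_constantCoeff,
    constantCoeff_dedekindEtaUnit]
  simp

theorem dS_coeff_of_lt {m : ℤ} (hm : m < 1) : dS.coeff m = 0 :=
  inf_coeff_single_mul_ofPowerSeries_of_lt (1 : ℤ) (H565.etaProdC ^ 24) hm

theorem dS_order : dS.order = 1 :=
  inf_order_eq_of_coeff (by rw [dS_coeff_one]; exact one_ne_zero) fun _ hm => dS_coeff_of_lt hm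

theorem dS_leadingCoeff : dS.leadingCoeff = 1 := by
  rw [leadingCoeff_eq, dS_order, dS_coeff_one]

theorem dInvS_order : dInvS.order = -1 := by
  rw [dInvS_eq_inv, order_inv' dS_ne_zero, dS_order]

theorem dInvS_leadingCoeff : dInvS.leadingCoeff = 1 := by
  rw [dInvS_eq_inv, leadingCoeff_inv', dS_leadingCoeff, inv_one]

theorem dS_mem_coeffSubring (C : Subring ℂ) : dS ∈ coeffSubring C := by
  rw [← castC_deltaZ]; exact coeffMap_int_mem_coeffSubring _

theorem dInvS_mem_coeffSubring (C : Subring ℂ) : dInvS ∈ coeffSubring C := by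
  rw [← castC_deltaInvZ]; exact coeffMap_int_mem_coeffSubring _

/-! ### analytic expansions -/

local notation "Δ" => ModularForm.discriminant

theorem infExp_of_hasTExp_one {f : ℍ → ℂ} {φ : LaurentSeries ℂ} (h : H565.HasTExp 1 f φ) :
    InfExp 1 f φ := by
  intro τ
  have := h τ
  simpa [infZ] using this

theorem infExp_delta : InfExp 1 Δ dS := infExp_of_hasTExp_one H565.hasTExp_discriminant

theorem infExp_delta_inv : InfExp 1 (fun τ => (Δ τ)⁻¹) dInvS :=
  infExp_of_hasTExp_one H565.hasTExp_discriminant_inv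

/-- Expansion of `Δ((aτ+b)/d)` in `z = exp(2πiτ/N)` when `e·d = a·N`. -/
theorem infExp_delta_aff {N a d e : ℕ} [NeZero e] (b : ℤ)
    (ha : 0 < a) (hd : 0 < d) (hN : 0 < N) (he : e * d = a * N) :
    InfExp N (fun τ => Δ (infAff a b d τ)) (qExpand ℂ e (infTwist (infRoot b d) dS)) := by
  have h := infExp_delta.comp_infAff (e := e) b ha hd one_pos hN (by rw [mul_one]; exact he)
  rw [mul_one] at h
  exact h

/-- Expansion of `Δ((aτ+b)/d)⁻¹` in `z = exp(2πiτ/N)` when `e·d = a·N`. -/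
theorem infExp_delta_inv_aff {N a d e : ℕ} [NeZero e] (b : ℤ)
    (ha : 0 < a) (hd : 0 < d) (hN : 0 < N) (he : e * d = a * N) :
    InfExp N (fun τ => (Δ (infAff a b d τ))⁻¹) (qExpand ℂ e (infTwist (infRoot b d) dInvS)) := by
  have h := infExp_delta_inv.comp_infAff (e := e) b ha hd one_pos hN (by rw [mul_one]; exact he)
  rw [mul_one] at h
  exact h

/-- Expansion of `Δ(τ)` in `z = exp(2πiτ/N)`. -/
theorem infExp_delta_N {N : ℕ} [NeZero N] : InfExp N Δ (qExpand ℂ N dS) := by
  have hN : 0 < N := Nat.pos_of_ne_zero (NeZero.ne N)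
  have h := infExp_delta_aff (N := N) (e := N) 0 one_pos one_pos hN (by ring)
  rw [infRoot_zero, infTwist_one] at h
  exact h.congr fun τ => by rw [infAff_one_zero_one]

/-- Expansion of `Δ(τ)⁻¹` in `z = exp(2πiτ/N)`. -/
theorem infExp_delta_inv_N {N : ℕ} [NeZero N] :
    InfExp N (fun τ => (Δ τ)⁻¹) (qExpand ℂ N dInvS) := by
  have hN : 0 < N := Nat.pos_of_ne_zero (NeZero.ne N)
  have h := infExp_delta_inv_aff (N := N) (e := N) 0 one_pos one_pos hN (by ring)
  rw [infRoot_zero, infTwist_one] at h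
  exact h.congr fun τ => by rw [infAff_one_zero_one]

/-! ### transformation of `Δ` -/

theorem discriminant_smul (γ : SL(2, ℤ)) (τ : ℍ) :
    Δ (γ • τ) = (((γ 1 0 : ℤ) : ℂ) * τ + ((γ 1 1 : ℤ) : ℂ)) ^ 12 * Δ τ := by
  have := SlashInvariantForm.slash_action_eqn' (Γ := 𝒮ℒ) CuspForm.discriminant
    (γ := (Matrix.SpecialLinearGroup.mapGL ℝ γ)) ⟨γ, rfl⟩ τ
  have h2 : (Matrix.SpecialLinearGroup.mapGL ℝ γ) • τ = γ • τ := rfl
  rw [h2] at this
  simpa using this

end Fermat.Agent.S28.H568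

end
end
-- ===== PACK-END S28/H568/DeltaSeries.lean

-- ===== PACK-BEGIN S29/H812/Fiber.lean
section


/-!
# S29 / H812 — the fibre of a place in a finite extension of function fields:
adapted families, the coordinate lemma, linear independence and the fundamental inequality.
-/

set_option autoImplicit false

noncomputable section

open AlgebraicCurve

namespace Fermat.Agent.S29.H812

open Fermat.Agent.S24

section Single

variable {K F : Type*} [Field K] [Field F] [Algebra K F]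

/-- An element with prescribed order `i` at `w` and order at least `B` at the places of `s`. -/
theorem exists_ord_eq_and_ge (w : Place K F) (s : Finset (Place K F)) (hw : w ∉ s) (i B : ℕ) :
    ∃ u : F, u ≠ 0 ∧ w.ord u = i ∧ (∀ w' ∈ s, (B : ℤ) ≤ w'.ord u) := by
  obtain ⟨ε, hε0, -, hε1, -, hε2⟩ := exists_indicator w s hw
  obtain ⟨π, hπ0, hπ1⟩ := H117.exists_ord_eq_one w
  set T : ℕ := ∑ w' ∈ s, (w'.ord π).natAbs with hT
  set M : ℕ := B + i * T with hM
  have hπi : π ^ i ≠ 0 := pow_ne_zero _ hπ0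
  have hεM : ε ^ M ≠ 0 := pow_ne_zero _ hε0
  refine ⟨π ^ i * ε ^ M, mul_ne_zero hπi hεM, ?_, ?_⟩
  · rw [w.ord_mul hπi hεM, H117.ord_pow, H117.ord_pow, hπ1, hε1]; ring
  · intro w' hw'
    rw [w'.ord_mul hπi hεM, H117.ord_pow, H117.ord_pow]
    have h1 : (1 : ℤ) ≤ w'.ord ε := (hε2 w' hw').1
    have h2 : ((w'.ord π).natAbs : ℤ) ≤ (T : ℤ) := by
      have : (w'.ord π).natAbs ≤ T := Finset.single_le_sum (f := fun w' : Place K F =>
        (w'.ord π).natAbs) (fun _ _ => Nat.zero_le _) hw'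
      exact_mod_cast this
    have h3 : -((w'.ord π).natAbs : ℤ) ≤ w'.ord π := by
      omega
    have h4 : (M : ℤ) ≤ (M : ℤ) * w'.ord ε := by
      have hM0 : (0 : ℤ) ≤ (M : ℤ) := Int.natCast_nonneg _
      nlinarith
    have h5 : -((i : ℤ) * (T : ℤ)) ≤ (i : ℤ) * w'.ord π := by
      have hi0 : (0 : ℤ) ≤ (i : ℤ) := Int.natCast_nonneg _
      nlinarith
    have h6 : (M : ℤ) = B + i * T := by rw [hM]; push_cast; ring
    linarith

/-- A uniformiser at `w` which is a unit at all places of `s`. -/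
theorem exists_ord_eq_one_and_zero (w : Place K F) (s : Finset (Place K F)) (hw : w ∉ s) :
    ∃ ϖ : F, ϖ ≠ 0 ∧ w.ord ϖ = 1 ∧ (∀ w' ∈ s, w'.ord ϖ = 0) := by
  obtain ⟨ε, hε0, hε0', hε1, hε1', hε2⟩ := exists_indicator w s hw
  obtain ⟨u, hu0, hu1, hu2⟩ := exists_ord_eq_and_ge w s hw 1 1
  have hsq : (1 - ε) ^ 2 ≠ 0 := pow_ne_zero _ hε0'
  have hlt : w.ord u < w.ord ((1 - ε) ^ 2) := by
    rw [H117.ord_pow, hu1]; push_cast; omega
  have h1 : w.ord (u + (1 - ε) ^ 2) = w.ord u := H117.ord_add_eq_of_lt w hlt hu0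
  have hne : u + (1 - ε) ^ 2 ≠ 0 := by
    intro h0
    rw [h0, w.ord_zero, hu1] at h1
    simp at h1
  refine ⟨u + (1 - ε) ^ 2, hne, by rw [h1, hu1]; rfl, ?_⟩
  intro w' hw'
  have hlt' : w'.ord ((1 - ε) ^ 2) < w'.ord u := by
    rw [H117.ord_pow, (hε2 w' hw').2]
    have := hu2 w' hw'
    push_cast at this ⊢
    omega
  rw [add_comm, H117.ord_add_eq_of_lt w' hlt' hsq, H117.ord_pow, (hε2 w' hw').2]
  ring

end Single

section Relative

variable {K F F' : Type*} [Field K] [Field F] [Field F']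
  [Algebra K F] [Algebra K F'] [Algebra F F'] [IsScalarTower K F F']
  [Algebra.IsIntegral F F']

/-- Order of a scalar multiple at a place above `v`. -/
theorem ord_smul_of_restrict {v : Place K F} {w : Place K F'} (hw : w.restrict F = v)
    {c : F} (hc : c ≠ 0) {u : F'} (hu : u ≠ 0) :
    w.ord (c • u) = (w.ramificationIndex F : ℤ) * v.ord c + w.ord u := by
  rw [Algebra.smul_def, w.ord_mul (by simpa using hc) hu, w.ord_restrict, hw]

/-- **Coordinate lemma.**  Let `u a` (`a : ι`) be a family adapted to the places `wt a` above `v`: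
`ord_{wt a} (u a) = idx a < e(wt a)` and `ord_{w'} (u a) ≥ e(w')` at the other places `w' = wt b`.
For a nonzero coefficient vector `c`, the combination `∑ c a • u a` is nonzero and, at a suitable
place `wt a₀`, has order `e · m + idx a₀` where `m = ord_v (c a₀)` is the minimum of the orders of
the nonzero coefficients. -/
theorem coord_lemma (v : Place K F) {ι : Type*} [Fintype ι] (wt : ι → Place K F') (idx : ι → ℕ)
    (u : ι → F') (hfib : ∀ a, (wt a).restrict F = v)
    (hidx : ∀ a, idx a < (wt a).ramificationIndex F)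
    (hu0 : ∀ a, u a ≠ 0) (hu1 : ∀ a, (wt a).ord (u a) = idx a)
    (hu2 : ∀ a b, wt b ≠ wt a → (((wt b).ramificationIndex F : ℕ) : ℤ) ≤ (wt b).ord (u a))
    (hinj : ∀ a b, wt a = wt b → idx a = idx b → a = b)
    (c : ι → F) (hc : ∃ a, c a ≠ 0) :
    ∃ a₀, c a₀ ≠ 0 ∧ (∀ a, c a ≠ 0 → v.ord (c a₀) ≤ v.ord (c a)) ∧
      (∑ a, c a • u a) ≠ 0 ∧
      (wt a₀).ord (∑ a, c a • u a)
        = ((wt a₀).ramificationIndex F : ℤ) * v.ord (c a₀) + idx a₀ := by
  classical
  -- first minimisation: the order of the coefficient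
  set S : Finset ι := Finset.univ.filter fun a => c a ≠ 0 with hS
  have hSne : S.Nonempty := by
    obtain ⟨a, ha⟩ := hc
    exact ⟨a, by simp [hS, ha]⟩
  obtain ⟨a₁, ha₁S, ha₁min⟩ := Finset.exists_min_image S (fun a => v.ord (c a)) hSne
  -- second minimisation: the index, among the minimal coefficients
  set S' : Finset ι := S.filter fun a => v.ord (c a) = v.ord (c a₁) with hS'
  have hS'ne : S'.Nonempty := ⟨a₁, by simp [hS', ha₁S]⟩
  obtain ⟨a₀, ha₀S', ha₀min⟩ := Finset.exists_min_image S' idx hS'ne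
  have ha₀S : a₀ ∈ S := (Finset.mem_filter.mp ha₀S').1
  have hc₀ : c a₀ ≠ 0 := (Finset.mem_filter.mp ha₀S).2
  have hm₀ : v.ord (c a₀) = v.ord (c a₁) := (Finset.mem_filter.mp ha₀S').2
  have hmin : ∀ a, c a ≠ 0 → v.ord (c a₀) ≤ v.ord (c a) := by
    intro a ha
    rw [hm₀]
    exact ha₁min a (by simp [hS, ha])
  have hepos : 0 < (wt a₀).ramificationIndex F := (wt a₀).ramificationIndex_pos (F := F)
  have hterm₀ : c a₀ • u a₀ ≠ 0 := smul_ne_zero hc₀ (hu0 a₀)
  have hord₀ : (wt a₀).ord (c a₀ • u a₀)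
      = ((wt a₀).ramificationIndex F : ℤ) * v.ord (c a₀) + idx a₀ := by
    rw [ord_smul_of_restrict (hfib a₀) hc₀ (hu0 a₀), hu1]
  have key := ord_sum_eq_of_lt (wt a₀) Finset.univ (fun a => c a • u a) a₀ (Finset.mem_univ _)
    hterm₀ (by
      intro a _ hne
      by_cases hca : c a = 0
      · left; simp [hca]
      right
      rw [hord₀, ord_smul_of_restrict (hfib a₀) hca (hu0 a)]
      have hle := hmin a hca
      have hi₀ := hidx a₀
      have he : (0 : ℤ) < ((wt a₀).ramificationIndex F : ℤ) := by exact_mod_cast hepos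
      by_cases hw : wt a = wt a₀
      · -- same place
        have hua : (wt a₀).ord (u a) = idx a := by rw [← hw, hu1]
        rw [hua]
        rcases eq_or_lt_of_le hle with heq | hlt
        · have haS' : a ∈ S' := by
            simp only [hS', hS, Finset.mem_filter, Finset.mem_univ, true_and]
            exact ⟨hca, by rw [← heq, hm₀]⟩
          have h1 := ha₀min a haS'
          have h2 : idx a ≠ idx a₀ := fun h => hne (hinj a a₀ hw h)
          have h3 : idx a₀ < idx a := lt_of_le_of_ne h1 (Ne.symm h2)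
          rw [← heq]
          have : ((idx a₀ : ℕ) : ℤ) < (idx a : ℤ) := by exact_mod_cast h3
          linarith
        · have h1 : ((wt a₀).ramificationIndex F : ℤ) * (v.ord (c a₀) + 1)
              ≤ ((wt a₀).ramificationIndex F : ℤ) * v.ord (c a) :=
            mul_le_mul_of_nonneg_left (by omega) he.le
          have h2 : ((idx a₀ : ℕ) : ℤ) < ((wt a₀).ramificationIndex F : ℤ) := by
            exact_mod_cast hi₀
          have h3 : (0 : ℤ) ≤ (idx a : ℤ) := Int.natCast_nonneg _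
          nlinarith
      · -- different place
        have hua := hu2 a a₀ (fun h => hw h.symm)
        have h1 : ((wt a₀).ramificationIndex F : ℤ) * v.ord (c a₀)
              ≤ ((wt a₀).ramificationIndex F : ℤ) * v.ord (c a) :=
            mul_le_mul_of_nonneg_left hle he.le
        have h2 : ((idx a₀ : ℕ) : ℤ) < ((wt a₀).ramificationIndex F : ℤ) := by
            exact_mod_cast hi₀
        linarith)
  exact ⟨a₀, hc₀, hmin, key.1, by rw [key.2, hord₀]⟩

end Relative

end Fermat.Agent.S29.H812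

end
end
-- ===== PACK-END S29/H812/Fiber.lean

-- ===== PACK-BEGIN S29/H812/FundId.lean
section




/-!
# S29 / H812 — the fundamental identity `∑_{w | v} e(w | v) = [F' : F]` for a finite extension of
function fields of one variable over an algebraically closed field of characteristic zero.
-/

set_option autoImplicit false

noncomputable section

open AlgebraicCurve IntermediateField

namespace Fermat.Agent.S29.H812

open Fermat.Agent.S24

variable {K F F' : Type*} [Field K] [Field F] [Field F']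
  [Algebra K F] [Algebra K F'] [Algebra F F'] [IsScalarTower K F F']
  [Algebra.IsIntegral F F'] [HasPrincipalDivisors K F']

/-- The index set of the adapted family of the fibre over `v`. -/
abbrev FibIdx (F' : Type*) [Field F'] [Algebra K F'] [Algebra F F'] [IsScalarTower K F F']
    [Algebra.IsIntegral F F'] [HasPrincipalDivisors K F'] (v : Place K F) : Type _ :=
  Σ w : {w : Place K F' // w ∈ v.fiber F'}, Fin (w.1.ramificationIndex F)

theorem card_fibIdx (v : Place K F) :
    Fintype.card (FibIdx F' v) = ∑ w ∈ v.fiber F', w.ramificationIndex F := by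
  classical
  rw [Fintype.card_sigma]
  simp only [Fintype.card_fin]
  exact Finset.sum_coe_sort (v.fiber F') (fun w => w.ramificationIndex F)

theorem fibIdx_ext (v : Place K F) (a b : FibIdx F' v) (h1 : a.1.1 = b.1.1)
    (h2 : (a.2 : ℕ) = (b.2 : ℕ)) : a = b := by
  obtain ⟨⟨w, hw⟩, i⟩ := a
  obtain ⟨⟨w', hw'⟩, i'⟩ := b
  simp only at h1
  subst h1
  simp only at h2
  have : i = i' := Fin.ext h2
  subst this
  rfl

/-- An adapted family for the fibre over `v`. -/
theorem exists_family (v : Place K F) :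
    ∃ u : FibIdx F' v → F', (∀ a, u a ≠ 0) ∧ (∀ a : FibIdx F' v, a.1.1.ord (u a) = (a.2 : ℕ)) ∧
      (∀ a b : FibIdx F' v, b.1.1 ≠ a.1.1 →
        ((b.1.1.ramificationIndex F : ℕ) : ℤ) ≤ b.1.1.ord (u a)) := by
  classical
  set B : ℕ := ∑ w ∈ v.fiber F', w.ramificationIndex F with hB
  have h : ∀ a : FibIdx F' v, ∃ u : F', u ≠ 0 ∧ a.1.1.ord u = (a.2 : ℕ) ∧
      ∀ w' ∈ (v.fiber F').erase a.1.1, (B : ℤ) ≤ w'.ord u := fun a =>
    exists_ord_eq_and_ge a.1.1 ((v.fiber F').erase a.1.1) (Finset.notMem_erase _ _) a.2 B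
  choose u hu0 hu1 hu2 using h
  refine ⟨u, hu0, hu1, ?_⟩
  intro a b hne
  have hmem : b.1.1 ∈ (v.fiber F').erase a.1.1 := Finset.mem_erase.mpr ⟨hne, b.1.2⟩
  have h1 := hu2 a b.1.1 hmem
  have h2 : b.1.1.ramificationIndex F ≤ B :=
    Finset.single_le_sum (f := fun w : Place K F' => w.ramificationIndex F)
      (fun _ _ => Nat.zero_le _) b.1.2
  have h3 : ((b.1.1.ramificationIndex F : ℕ) : ℤ) ≤ (B : ℤ) := by exact_mod_cast h2
  linarith

/-- The coordinate lemma for an adapted family. -/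
theorem family_coord (v : Place K F) (u : FibIdx F' v → F') (hu0 : ∀ a, u a ≠ 0)
    (hu1 : ∀ a : FibIdx F' v, a.1.1.ord (u a) = (a.2 : ℕ))
    (hu2 : ∀ a b : FibIdx F' v, b.1.1 ≠ a.1.1 →
        ((b.1.1.ramificationIndex F : ℕ) : ℤ) ≤ b.1.1.ord (u a))
    (c : FibIdx F' v → F) (hc : ∃ a, c a ≠ 0) :
    ∃ a₀, c a₀ ≠ 0 ∧ (∀ a, c a ≠ 0 → v.ord (c a₀) ≤ v.ord (c a)) ∧
      (∑ a, c a • u a) ≠ 0 ∧
      a₀.1.1.ord (∑ a, c a • u a)
        = (a₀.1.1.ramificationIndex F : ℤ) * v.ord (c a₀) + ((a₀.2 : ℕ) : ℤ) :=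
  coord_lemma v (fun a : FibIdx F' v => a.1.1) (fun a => (a.2 : ℕ)) u
    (fun a => Place.mem_fiber.mp a.1.2) (fun a => a.2.2) hu0 hu1 hu2
    (fun a b h1 h2 => fibIdx_ext v a b h1 h2) c hc

theorem family_linearIndependent (v : Place K F) (u : FibIdx F' v → F') (hu0 : ∀ a, u a ≠ 0)
    (hu1 : ∀ a : FibIdx F' v, a.1.1.ord (u a) = (a.2 : ℕ))
    (hu2 : ∀ a b : FibIdx F' v, b.1.1 ≠ a.1.1 →
        ((b.1.1.ramificationIndex F : ℕ) : ℤ) ≤ b.1.1.ord (u a)) :
    LinearIndependent F u := by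
  rw [Fintype.linearIndependent_iff]
  intro c hsum a
  by_contra ha
  obtain ⟨_, _, _, hne, _⟩ := family_coord v u hu0 hu1 hu2 c ⟨a, ha⟩
  exact hne hsum

/-- **Fundamental inequality** `∑_{w | v} e(w | v) ≤ [F' : F]`. -/
theorem sum_ramificationIndex_le_finrank [Module.Finite F F'] (v : Place K F) :
    ∑ w ∈ v.fiber F', w.ramificationIndex F ≤ Module.finrank F F' := by
  obtain ⟨u, hu0, hu1, hu2⟩ := exists_family (F' := F') v
  rw [← card_fibIdx]
  exact (family_linearIndependent v u hu0 hu1 hu2).fintype_card_le_finrank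

section Identity

variable [IsAlgClosed K] [CharZero K] [Module.Finite F F']

omit [Algebra.IsIntegral F F'] [HasPrincipalDivisors K F'] [IsAlgClosed K] [CharZero K]
  [Module.Finite F F'] in
theorem not_mem_range_of_ord_ne_zero (v : Place K F) {f : F} (hf : v.ord f ≠ 0) :
    f ∉ (algebraMap K F).range := by
  rintro ⟨c, rfl⟩
  exact hf (H117.ord_algebraMap v c)

/-- **Fundamental identity** `∑_{w | v} e(w | v) = [F' : F]`. -/
theorem sum_ramificationIndex_eq_finrank
    (hF : ∃ x : F, Transcendental K x ∧ FiniteDimensional K⟮x⟯ F) (v : Place K F) :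
    ∑ w ∈ v.fiber F', w.ramificationIndex F = Module.finrank F F' := by
  classical
  obtain ⟨x, hx, hxfin⟩ := hF
  obtain ⟨π, hπ0, hπ1⟩ := H117.exists_ord_eq_one v
  have hπt : Transcendental K π :=
    FF.transcendental_of_not_mem_range (not_mem_range_of_ord_ne_zero v (by rw [hπ1]; norm_num))
  haveI hπfin : FiniteDimensional K⟮π⟯ F := FF.finiteDimensional_adjoin_of_transcendental hx hπt
  set π' : F' := algebraMap F F' π with hπ'
  have hπ't : Transcendental K π' := transcendental_algebraMap_of hπt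
  haveI hπ'fin : FiniteDimensional K⟮π'⟯ F' := finiteDimensional_adjoin_algebraMap π
  set Z : Finset (Place K F) := (FF.finite_setOf_ord_pos hπt).toFinset with hZ
  set Z' : Finset (Place K F') := (FF.finite_setOf_ord_pos hπ't).toFinset with hZ'
  have hZmem : ∀ v', v' ∈ Z ↔ 0 < v'.ord π := fun v' => by simp [hZ]
  have hZ'mem : ∀ w, w ∈ Z' ↔ 0 < w.ord π' := fun w => by simp [hZ']
  have h1 := FF.sum_ord_eq_finrank hπt Z hZmem
  have h2 := FF.sum_ord_eq_finrank hπ't Z' hZ'mem
  rw [finrank_adjoin_algebraMap] at h2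
  -- positivity transfer
  have hpos : ∀ w : Place K F', 0 < w.ord π' ↔ 0 < (w.restrict F).ord π := by
    intro w
    rw [hπ', w.ord_restrict]
    have he : (0 : ℤ) < (w.ramificationIndex F : ℤ) := by
      exact_mod_cast w.ramificationIndex_pos (F := F)
    constructor
    · intro h
      by_contra hcon
      push Not at hcon
      nlinarith
    · intro h
      exact mul_pos he h
  have hmaps : ∀ w ∈ Z', w.restrict F ∈ Z := fun w hw =>
    (hZmem _).mpr ((hpos w).mp ((hZ'mem w).mp hw))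
  have h3 : ∑ w ∈ Z', w.ord π'
      = ∑ v' ∈ Z, v'.ord π * ((∑ w ∈ v'.fiber F', w.ramificationIndex F : ℕ) : ℤ) := by
    rw [← Finset.sum_fiberwise_of_maps_to hmaps]
    refine Finset.sum_congr rfl fun v' hv' => ?_
    have hfilter : Z'.filter (fun w => w.restrict F = v') = v'.fiber F' := by
      ext w
      simp only [Finset.mem_filter, Place.mem_fiber]
      constructor
      · exact fun h => h.2
      · intro h
        refine ⟨(hZ'mem w).mpr ((hpos w).mpr ?_), h⟩
        rw [h]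
        exact (hZmem v').mp hv'
    rw [hfilter]
    push_cast
    rw [Finset.mul_sum]
    refine Finset.sum_congr rfl fun w hw => ?_
    rw [hπ', w.ord_restrict, Place.mem_fiber.mp hw]
    ring
  -- compare
  have h4 : ∑ v' ∈ Z, v'.ord π * ((∑ w ∈ v'.fiber F', w.ramificationIndex F : ℕ) : ℤ)
      = ∑ v' ∈ Z, v'.ord π * (Module.finrank F F' : ℤ) := by
    rw [← h3, h2, ← Finset.sum_mul, h1]
    push_cast
    ring
  have hle : ∀ v' ∈ Z, v'.ord π * ((∑ w ∈ v'.fiber F', w.ramificationIndex F : ℕ) : ℤ)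
      ≤ v'.ord π * (Module.finrank F F' : ℤ) := by
    intro v' hv'
    have h5 : (0 : ℤ) ≤ v'.ord π := ((hZmem v').mp hv').le
    have h6 : ((∑ w ∈ v'.fiber F', w.ramificationIndex F : ℕ) : ℤ) ≤ (Module.finrank F F' : ℤ) := by
      exact_mod_cast sum_ramificationIndex_le_finrank (F' := F') v'
    exact mul_le_mul_of_nonneg_left h6 h5
  have h7 := (Finset.sum_eq_sum_iff_of_le hle).mp h4 v ((hZmem v).mpr (by rw [hπ1]; norm_num))
  rw [hπ1, one_mul, one_mul] at h7
  exact_mod_cast h7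

end Identity

end Fermat.Agent.S29.H812

end
end
-- ===== PACK-END S29/H812/FundId.lean

-- ===== PACK-BEGIN S21/H544/IntCSym.lean
section


/-!
# S21 INT-C (helper544): derivative of the symmetrization `sym N η`
-/

set_option autoImplicit false

open UpperHalfPlane CongruenceSubgroup Filter Topology MeasureTheory
open scoped MatrixGroups ComplexConjugate ContDiff

namespace Fermat.Agent.S21.H544

open Fermat.Agent.S21

variable (N : ℕ) {χ₁ : ℂ → ℝ}

/-- Local finiteness of the `Γ₀(N)`-translates of the support of a test function. -/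
theorem exists_finset_eventually (hχ : IsSL2ZPartition χ₁) {η : ℂ → ℝ} (hη : IsTest η)
    {z₀ : ℂ} (hz₀ : z₀ ∈ Uhp) :
    ∃ S : Finset (Gamma0 N), ∀ᶠ z in 𝓝 z₀,
      z ∈ Uhp ∧ ∀ γ : Gamma0 N, γ ∉ S → mob (γ : SL(2, ℤ)) z ∉ tsupport η := by
  obtain ⟨r, hr, hball⟩ := Metric.isOpen_iff.mp isOpen_Uhp z₀ hz₀
  have hV : IsCompact (Metric.closedBall z₀ (r / 2)) := isCompact_closedBall _ _
  have hVU : Metric.closedBall z₀ (r / 2) ⊆ Uhp :=
    (Metric.closedBall_subset_ball (by linarith)).trans hball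
  have hG := finite_mob_mem hχ _ _ hV hVU hη.2.1 hη.2.2
  have hS : {γ : Gamma0 N | (γ : SL(2, ℤ)) ∈
      {g : SL(2, ℤ) | ∃ z ∈ Metric.closedBall z₀ (r / 2), mob g z ∈ tsupport η}}.Finite :=
    hG.preimage (Subtype.val_injective.injOn)
  refine ⟨hS.toFinset, ?_⟩
  filter_upwards [Metric.closedBall_mem_nhds z₀ (by linarith : 0 < r / 2)] with z hz
  refine ⟨hVU hz, fun γ hγ hmem => hγ ?_⟩
  rw [Set.Finite.mem_toFinset]
  exact ⟨z, hz, hmem⟩

/-- The derivative of `sym N η` is a locally finite sum. -/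
theorem fderiv_sym (hχ : IsSL2ZPartition χ₁) {η : ℂ → ℝ} (hη : IsTest η)
    {z₀ : ℂ} (hz₀ : z₀ ∈ Uhp) :
    ∃ S : Finset (Gamma0 N), (∀ γ : Gamma0 N, γ ∉ S → mob (γ : SL(2, ℤ)) z₀ ∉ tsupport η) ∧
      fderiv ℝ (sym N η) z₀ = ∑ γ ∈ S, fderiv ℝ (fun z => η (mob (γ : SL(2, ℤ)) z)) z₀ := by
  obtain ⟨S, hS⟩ := exists_finset_eventually N hχ hη hz₀
  refine ⟨S, fun γ hγ => (hS.self_of_nhds).2 γ hγ, ?_⟩
  have heq : sym N η =ᶠ[𝓝 z₀] fun z => ∑ γ ∈ S, η (mob (γ : SL(2, ℤ)) z) := by
    filter_upwards [hS] with z hz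
    unfold sym
    refine finsum_eq_sum_of_support_subset _ ?_
    intro γ hγ
    by_contra hγS
    exact hz.2 γ hγS (subset_tsupport _ hγ)
  rw [heq.fderiv_eq]
  have hdiff : ∀ γ ∈ S, DifferentiableAt ℝ (fun z => η (mob ((γ : Gamma0 N) : SL(2, ℤ)) z)) z₀ :=
    fun γ _ => ((hη.1.differentiable (by simp)).differentiableAt).comp z₀
      (differentiableAt_mob _ hz₀)
  exact fderiv_fun_sum hdiff

/-- The density of `u` against `sym N η` as a locally finite sum. -/
theorem dens_sym (hχ : IsSL2ZPartition χ₁) (u : ℂ → ℝ)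
    (hinv : ∀ γ : Gamma0 N, ∀ z ∈ Uhp,
      dz u (mob (γ : SL(2, ℤ)) z) = (cd (γ : SL(2, ℤ)) z) ^ 2 * dz u z)
    {η : ℂ → ℝ} (hη : IsTest η) {z : ℂ} (hz : z ∈ Uhp) :
    ∃ S : Finset (Gamma0 N), (∀ γ : Gamma0 N, γ ∉ S → mob (γ : SL(2, ℤ)) z ∉ tsupport η) ∧
      dens u (sym N η) z
        = ∑ γ ∈ S, dens u η (mob (γ : SL(2, ℤ)) z) / ‖cd (γ : SL(2, ℤ)) z‖ ^ 4 := by
  obtain ⟨S, hS, hfd⟩ := fderiv_sym N hχ hη hz
  refine ⟨S, hS, ?_⟩
  have h1 : dens u (sym N η) z
      = ∑ γ ∈ S, dens u (fun w => η (mob ((γ : Gamma0 N) : SL(2, ℤ)) w)) z := by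
    unfold dens
    rw [hfd]
    simp only [FunLike.coe_sum, Finset.sum_apply, Finset.mul_sum]
    rw [← Finset.sum_add_distrib]
  rw [h1]
  refine Finset.sum_congr rfl fun γ _ => ?_
  exact dens_comp_mob u η _ hz ((hη.1.differentiable (by simp)).differentiableAt)
    (hinv γ z hz)

end Fermat.Agent.S21.H544

end
-- ===== PACK-END S21/H544/IntCSym.lean

-- ===== PACK-BEGIN S21/H544/IntCMain.lean
section


/-!
# S21 INT-C (helper544): the unfolding identity, with the INT-A facts on `chi` as hypotheses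
-/

set_option autoImplicit false

open UpperHalfPlane CongruenceSubgroup Filter Topology MeasureTheory
open scoped MatrixGroups ComplexConjugate ContDiff

namespace Fermat.Agent.S21.H544

open Fermat.Agent.S21

variable (N : ℕ) {χ₁ : ℂ → ℝ}

theorem chi_eq_zero_of_notMem {z : ℂ} (hz : z ∉ Uhp) : chi N χ₁ z = 0 := by
  unfold chi
  exact Set.indicator_of_notMem hz _

theorem measurableSet_Uhp : MeasurableSet Uhp := isOpen_Uhp.measurableSet

theorem continuousOn_dens {u η : ℂ → ℝ} (hu : ContDiffOn ℝ 1 u Uhp) (hη : ContDiff ℝ ∞ η) :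
    ContinuousOn (dens u η) Uhp := by
  have h1 := hu.continuousOn_fderiv_of_isOpen isOpen_Uhp le_rfl
  have h2 : Continuous (fderiv ℝ η) := hη.continuous_fderiv (by simp)
  unfold dens
  exact ((h1.clm_apply continuousOn_const).mul (h2.continuousOn.clm_apply continuousOn_const)).add
    ((h1.clm_apply continuousOn_const).mul (h2.continuousOn.clm_apply continuousOn_const))

theorem integrableOn_Uhp_of_continuousOn {f : ℂ → ℝ} (hf : ContinuousOn f Uhp) {K : Set ℂ}
    (hK : IsCompact K) (hKU : K ⊆ Uhp) (h0 : ∀ z ∈ Uhp, z ∉ K → f z = 0) :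
    IntegrableOn f Uhp := by
  have h1 : IntegrableOn f K := (hf.mono hKU).integrableOn_compact hK
  exact h1.of_forall_sdiff_eq_zero measurableSet_Uhp (fun x hx => h0 x hx.1 hx.2)

/-- The translated density `z ↦ dens u η (γ z) / |cz+d|⁴`. -/
noncomputable def phi (u η : ℂ → ℝ) (g : SL(2, ℤ)) (z : ℂ) : ℝ :=
  dens u η (mob g z) / ‖cd g z‖ ^ 4

theorem continuousOn_cd (g : SL(2, ℤ)) : ContinuousOn (cd g) Uhp := by
  unfold cd
  fun_prop

theorem continuousOn_phi {u η : ℂ → ℝ} (hu : ContDiffOn ℝ 1 u Uhp) (hη : ContDiff ℝ ∞ η)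
    (g : SL(2, ℤ)) : ContinuousOn (phi u η g) Uhp := by
  unfold phi
  refine ContinuousOn.div ?_ ?_ ?_
  · exact (continuousOn_dens hu hη).comp (_root_.Fermat.Agent.S21.H544.continuousOn_mob g) (fun z _ => _root_.Fermat.Agent.S21.H544.mob_mem_Uhp g z)
  · exact ((_root_.Fermat.Agent.S21.H544.continuousOn_cd g).norm).pow 4
  · intro z hz
    exact pow_ne_zero 4 (norm_ne_zero_iff.mpr (SmallAux.cd_ne_zero g hz))

theorem integrableOn_phi {u η : ℂ → ℝ} (hu : ContDiffOn ℝ 1 u Uhp) (hη : IsTest η)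
    (g : SL(2, ℤ)) : IntegrableOn (phi u η g) Uhp := by
  refine integrableOn_Uhp_of_continuousOn (continuousOn_phi hu hη.1 g)
    (K := mob g⁻¹ '' tsupport η) ?_ ?_ ?_
  · exact hη.2.1.image_of_continuousOn ((_root_.Fermat.Agent.S21.H544.continuousOn_mob g⁻¹).mono hη.2.2)
  · rintro _ ⟨w, _, rfl⟩
    exact _root_.Fermat.Agent.S21.H544.mob_mem_Uhp _ _
  · intro z hz hzK
    have : mob g z ∉ tsupport η := fun hmem => hzK ⟨mob g z, hmem, mob_inv_mob g hz⟩
    simp [phi, dens_eq_zero_of_notMem_tsupport this]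

theorem integrableOn_dens {u η : ℂ → ℝ} (hu : ContDiffOn ℝ 1 u Uhp) (hη : IsTest η) :
    IntegrableOn (dens u η) Uhp :=
  integrableOn_Uhp_of_continuousOn (continuousOn_dens hu hη.1) hη.2.1 hη.2.2
    (fun _ _ hz => dens_eq_zero_of_notMem_tsupport hz)

section Main

variable (hmeas : Measurable (chi N χ₁)) (h0 : ∀ z, 0 ≤ chi N χ₁ z)
  (h1 : ∀ z, chi N χ₁ z ≤ 1)

include hmeas h0 h1 in
theorem integrableOn_phi_mul_chi {u η : ℂ → ℝ} (hu : ContDiffOn ℝ 1 u Uhp) (hη : IsTest η)
    (g : SL(2, ℤ)) : IntegrableOn (fun z => phi u η g z * chi N χ₁ z) Uhp := by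
  refine (integrableOn_phi hu hη g).mul_bdd (c := 1) hmeas.aestronglyMeasurable ?_
  filter_upwards with z
  rw [Real.norm_eq_abs, abs_le]
  exact ⟨by linarith [h0 z], h1 z⟩

include hmeas h0 h1 in
theorem integrableOn_dens_mul_chi_mob {u η : ℂ → ℝ} (hu : ContDiffOn ℝ 1 u Uhp)
    (hη : IsTest η) (g : SL(2, ℤ)) :
    IntegrableOn (fun w => dens u η w * chi N χ₁ (mob g w)) Uhp := by
  refine (integrableOn_dens hu hη).mul_bdd (c := 1) ?_ ?_
  · have hm : AEMeasurable (mob g) (volume.restrict Uhp) :=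
      (_root_.Fermat.Agent.S21.H544.continuousOn_mob g).aemeasurable measurableSet_Uhp
    exact (hmeas.comp_aemeasurable hm).aestronglyMeasurable
  · filter_upwards with z
    rw [Real.norm_eq_abs, abs_le]
    exact ⟨by linarith [h0 (mob g z)], h1 _⟩

/-- Change of variables for one piece. -/
theorem setIntegral_phi_mul_chi (u η : ℂ → ℝ) (g : SL(2, ℤ)) :
    ∫ z in Uhp, phi u η g z * chi N χ₁ z
      = ∫ w in Uhp, dens u η w * chi N χ₁ (mob g⁻¹ w) := by
  have h := setIntegral_mob g Uhp measurableSet_Uhp subset_rfl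
    (fun w => dens u η w * chi N χ₁ (mob g⁻¹ w))
  rw [mob_image_Uhp] at h
  rw [← h]
  refine setIntegral_congr_fun measurableSet_Uhp fun z hz => ?_
  simp only [phi, mob_inv_mob g hz]
  ring

end Main

/-- **INT-C, hypothesis-explicit form**: the unfolding identity, with the needed facts about
`chi` (INT-A) as hypotheses. -/
theorem unfolding_of (hχ : IsSL2ZPartition χ₁)
    (hmeas : Measurable (chi N χ₁)) (h0 : ∀ z, 0 ≤ chi N χ₁ z) (h1 : ∀ z, chi N χ₁ z ≤ 1)
    (hlocfin : ∀ K : Set ℂ, IsCompact K → K ⊆ Uhp →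
      {γ : Gamma0 N | ∃ z ∈ K, chi N χ₁ (mob (γ : SL(2, ℤ)) z) ≠ 0}.Finite)
    (hsum : ∀ z ∈ Uhp, ∑ᶠ γ : Gamma0 N, chi N χ₁ (mob (γ : SL(2, ℤ)) z) = 1)
    (u : ℂ → ℝ) (hu : ContDiffOn ℝ 1 u Uhp)
    (hinv : ∀ γ : Gamma0 N, ∀ z ∈ Uhp,
      dz u (mob (γ : SL(2, ℤ)) z) = (cd (γ : SL(2, ℤ)) z) ^ 2 * dz u z)
    {η : ℂ → ℝ} (hη : IsTest η) :
    ∫ z, (fderiv ℝ u z 1 * fderiv ℝ (sym N η) z 1
        + fderiv ℝ u z Complex.I * fderiv ℝ (sym N η) z Complex.I) * chi N χ₁ z
      = ∫ z, (fderiv ℝ u z 1 * fderiv ℝ η z 1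
        + fderiv ℝ u z Complex.I * fderiv ℝ η z Complex.I) := by
  classical
  change ∫ z, dens u (sym N η) z * chi N χ₁ z = ∫ z, dens u η z
  -- the finite set of relevant group elements
  have hC := hlocfin (tsupport η) hη.2.1 hη.2.2
  set T : Finset (Gamma0 N) := hC.toFinset.image (fun γ => γ⁻¹) with hT
  have hTmem : ∀ (γ : Gamma0 N) (w : ℂ), w ∈ tsupport η →
      chi N χ₁ (mob ((γ : SL(2, ℤ))⁻¹) w) ≠ 0 → γ ∈ T := by
    intro γ w hw hne
    rw [hT, Finset.mem_image]
    refine ⟨γ⁻¹, ?_, inv_inv γ⟩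
    rw [Set.Finite.mem_toFinset]
    exact ⟨w, hw, by simpa using hne⟩
  -- Claim A
  have hA : ∀ z ∈ Uhp, dens u (sym N η) z * chi N χ₁ z
      = ∑ γ ∈ T, phi u η (γ : SL(2, ℤ)) z * chi N χ₁ z := by
    intro z hz
    by_cases hchi : chi N χ₁ z = 0
    · simp [hchi]
    obtain ⟨S, hS, hd⟩ := dens_sym N hχ u hinv hη hz
    rw [hd, ← Finset.sum_mul]
    congr 1
    have e1 : ∑ᶠ γ : Gamma0 N, phi u η (γ : SL(2, ℤ)) z
        = ∑ γ ∈ S, phi u η (γ : SL(2, ℤ)) z := by
      refine finsum_eq_sum_of_support_subset _ ?_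
      intro γ hγ
      by_contra hγS
      exact hγ (by simp [phi, dens_eq_zero_of_notMem_tsupport (hS γ hγS)])
    have e2 : ∑ᶠ γ : Gamma0 N, phi u η (γ : SL(2, ℤ)) z
        = ∑ γ ∈ T, phi u η (γ : SL(2, ℤ)) z := by
      refine finsum_eq_sum_of_support_subset _ ?_
      intro γ hγ
      have hmem : mob (γ : SL(2, ℤ)) z ∈ tsupport η := by
        by_contra hnot
        exact hγ (by simp [phi, dens_eq_zero_of_notMem_tsupport hnot])
      refine Finset.mem_coe.mpr (hTmem γ _ hmem ?_)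
      rw [mob_inv_mob _ hz]
      exact hchi
    have : ∑ γ ∈ S, dens u η (mob (γ : SL(2, ℤ)) z) / ‖cd (γ : SL(2, ℤ)) z‖ ^ 4
        = ∑ γ ∈ S, phi u η (γ : SL(2, ℤ)) z := rfl
    rw [this, ← e1, e2]
  -- Claim E
  have hE : ∀ w ∈ Uhp, ∑ γ ∈ T, dens u η w * chi N χ₁ (mob ((γ : SL(2, ℤ))⁻¹) w)
      = dens u η w := by
    intro w hw
    by_cases hd : dens u η w = 0
    · simp [hd]
    have hwK : w ∈ tsupport η := by
      by_contra hnot
      exact hd (dens_eq_zero_of_notMem_tsupport hnot)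
    rw [← Finset.mul_sum]
    have e1 : ∑ᶠ γ : Gamma0 N, chi N χ₁ (mob ((γ : SL(2, ℤ))⁻¹) w)
        = ∑ γ ∈ T, chi N χ₁ (mob ((γ : SL(2, ℤ))⁻¹) w) := by
      refine finsum_eq_sum_of_support_subset _ ?_
      intro γ hγ
      exact Finset.mem_coe.mpr (hTmem γ w hwK hγ)
    have e2 : ∑ᶠ γ : Gamma0 N, chi N χ₁ (mob ((γ : SL(2, ℤ))⁻¹) w) = 1 := by
      have := finsum_comp_equiv (Equiv.inv (Gamma0 N))
        (f := fun γ : Gamma0 N => chi N χ₁ (mob (γ : SL(2, ℤ)) w))
      simp only [Equiv.inv_apply, Subgroup.coe_inv] at this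
      rw [this]
      exact hsum w hw
    rw [← e1, e2, mul_one]
  -- assembly
  calc ∫ z, dens u (sym N η) z * chi N χ₁ z
      = ∫ z in Uhp, dens u (sym N η) z * chi N χ₁ z := by
        refine (setIntegral_eq_integral_of_forall_compl_eq_zero fun z hz => ?_).symm
        rw [_root_.Fermat.Agent.S21.H544.chi_eq_zero_of_notMem N hz, mul_zero]
    _ = ∫ z in Uhp, ∑ γ ∈ T, phi u η (γ : SL(2, ℤ)) z * chi N χ₁ z :=
        setIntegral_congr_fun measurableSet_Uhp hA
    _ = ∑ γ ∈ T, ∫ z in Uhp, phi u η (γ : SL(2, ℤ)) z * chi N χ₁ z :=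
        integral_finsetSum T fun γ _ => integrableOn_phi_mul_chi N hmeas h0 h1 hu hη _
    _ = ∑ γ ∈ T, ∫ w in Uhp, dens u η w * chi N χ₁ (mob ((γ : SL(2, ℤ))⁻¹) w) :=
        Finset.sum_congr rfl fun γ _ => setIntegral_phi_mul_chi N u η _
    _ = ∫ w in Uhp, ∑ γ ∈ T, dens u η w * chi N χ₁ (mob ((γ : SL(2, ℤ))⁻¹) w) :=
        (integral_finsetSum T fun γ _ =>
          integrableOn_dens_mul_chi_mob N hmeas h0 h1 hu hη _).symm
    _ = ∫ w in Uhp, dens u η w := setIntegral_congr_fun measurableSet_Uhp hE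
    _ = ∫ w, dens u η w := by
        refine setIntegral_eq_integral_of_forall_compl_eq_zero fun w hw => ?_
        exact dens_eq_zero_of_notMem_tsupport fun hmem => hw (hη.2.2 hmem)

end Fermat.Agent.S21.H544

end
-- ===== PACK-END S21/H544/IntCMain.lean

-- ===== PACK-BEGIN S21/IntC.lean
section



/-!
# S21 — INT-C: the unfolding identity (helper544)

Exact statement of `MSInterface.lean`, proved from INT-A (`IntA.lean`, helper480) and the
change of variables / chain rule of `Small.lean` (helper906).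
-/

set_option autoImplicit false

open ModularCurve ModularCurve.Period UpperHalfPlane CongruenceSubgroup Filter Topology
open MeasureTheory
open scoped MatrixGroups ComplexConjugate ContDiff

namespace Fermat.Agent.S21

variable (N : ℕ) [NeZero N] {χ₁ : ℂ → ℝ}

/-- **INT-C**: unfolding. -/
theorem unfolding (hχ : IsSL2ZPartition χ₁) (u : ℂ → ℝ) (hu : ContDiffOn ℝ 1 u Uhp)
    (hinv : ∀ γ : Gamma0 N, ∀ z ∈ Uhp,
      dz u (mob (γ : SL(2, ℤ)) z) = (cd (γ : SL(2, ℤ)) z) ^ 2 * dz u z)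
    {η : ℂ → ℝ} (hη : IsTest η) :
    ∫ z, (fderiv ℝ u z 1 * fderiv ℝ (sym N η) z 1
        + fderiv ℝ u z Complex.I * fderiv ℝ (sym N η) z Complex.I) * chi N χ₁ z
      = ∫ z, (fderiv ℝ u z 1 * fderiv ℝ η z 1
        + fderiv ℝ u z Complex.I * fderiv ℝ η z Complex.I) :=
  H544.unfolding_of N hχ (measurable_chi N hχ) (chi_nonneg N hχ) (chi_le_one N hχ)
    (chi_locfin N hχ) (chi_sum_eq_one N hχ) u hu hinv hη

end Fermat.Agent.S21

end
-- ===== PACK-END S21/IntC.lean

-- ===== PACK-BEGIN S21/MSInterface.lean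
section











/-!
# S21 — interface statements for the minimizing sequence (MS)

All pieces are now proved:
* MS-A `exists_partition_SL2Z` (helper896, `Partition.lean`), repackaged here as
  `exists_isSL2ZPartition`;
* MS-C `exists_u0` (helper81, `H81/U0Final.lean`);
* INT-A (helper480, `IntA.lean`), INT-B (helper753, `IntB.lean`), INT-C (helper544, `IntC.lean`),
  INT-D (helper98, `IntD.lean`, `IntDCore.lean`).
-/

set_option autoImplicit false

open ModularCurve ModularCurve.Period UpperHalfPlane CongruenceSubgroup Filter Topology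
open MeasureTheory
open scoped MatrixGroups ComplexConjugate ContDiff

namespace Fermat.Agent.S21

/-- **MS-A**, packaged as a structure. -/
theorem exists_isSL2ZPartition : ∃ χ₁ : ℂ → ℝ, IsSL2ZPartition χ₁ := by
  obtain ⟨χ₁, h1, h2, h3, h4, h5⟩ := exists_partition_SL2Z
  exact ⟨χ₁, ⟨h1, h2, h3, h4, h5⟩⟩

/-- **MS-C**: the initial function `u₀` with periods `φ`, locally constant high in every cusp. -/
theorem exists_u0 (N : ℕ) [NeZero N] (φ : Additive (Gamma0 N) →+ ℝ)
    (hφ : ModularCurve.Period.IsParabolicHom (Gamma0 N) φ) :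
    ∃ u₀ : ℂ → ℝ, ContDiffOn ℝ ∞ u₀ Uhp ∧
      (∀ (γ : Gamma0 N) (z : ℍ), u₀ ↑((γ : SL(2, ℤ)) • z) = u₀ ↑z + φ (Additive.ofMul γ)) ∧
      (∀ (δ : SL(2, ℤ)) (z : ℂ), 2 < z.im → dz u₀ (mob δ z) = 0) :=
  H81.exists_u0 N φ hφ

end Fermat.Agent.S21

end
-- ===== PACK-END S21/MSInterface.lean

-- ===== PACK-BEGIN S29/H801/M1LG.lean
section
/-
S29 / M1 (helper801), part 6: local generators along any integral map of function fields,
from the weak approximation theorem of the shared library RR (helper623).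
-/




set_option autoImplicit false
set_option linter.style.haveILetI false

noncomputable section

namespace Fermat.Agent.S29.H801

open AlgebraicCurve Fermat.Agent.S37.H818

variable {K F F₁ : Type*} [Field K] [Field F] [Field F₁] [Algebra K F] [Algebra K F₁]

/-- **Local generators** exist along every integral map (fibres are finite as soon as the
target has principal divisors): weak approximation on the fibre. -/
theorem hasLocalGenerators_of_hasPrincipalDivisors [HasPrincipalDivisors K F₁]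
    (a : F →ₐ[K] F₁) (ha : a.toRingHom.IsIntegral) : HasLocalGenerators a ha := by
  classical
  intro w
  obtain ⟨z, hz⟩ := Fermat.Agent.Lib.RR.H623.weak_approximation
    (Place.fiberAlong a ha (w.restrictAlong a ha)) (fun _ => (0 : F₁))
    (fun v => if v = w then 1 else 0)
  have hw : w ∈ Place.fiberAlong a ha (w.restrictAlong a ha) := Place.mem_fiberAlong.mpr rfl
  refine ⟨z, ?_, ?_, ?_⟩
  · have := (hz w hw).1
    simpa using this
  · have := (hz w hw).2
    simp only [sub_zero, if_true] at this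
    rw [this]
    exact one_ne_zero
  · intro w' hne hres
    have := (hz w' (Place.mem_fiberAlong.mpr hres)).2
    simpa [hne] using this

end Fermat.Agent.S29.H801

end

end
-- ===== PACK-END S29/H801/M1LG.lean

-- ===== PACK-BEGIN Lib/Newform/H683/SpecLeaves.lean
section
/-
NEWFORM library (helper683) — the leaves `EigenT`, `EigenU` (and, again, `Occurs`, `Descent`)
of the frozen interface `Fermat.Agent.Lib.Newform.H958` (Spec.lean), from `H683/Eigen.lean`
and `H683/Extract.lean`.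
-/



set_option autoImplicit false

open CongruenceSubgroup ModularFormClass ModularForm UpperHalfPlane

namespace Fermat.Agent.Lib.Newform.H683

theorem eigenT : Fermat.Agent.Lib.Newform.H958.EigenT :=
  fun _ _ hg _ hp hpN => heckeTLin_eq_of_eigenform hg hp hpN

theorem eigenU : Fermat.Agent.Lib.Newform.H958.EigenU :=
  fun _ _ _ hg _ hp hpN => heckeULin_eq_of_eigenform hg hp hpN

theorem occurs' : Fermat.Agent.Lib.Newform.H958.Occurs := by
  intro M _ h hh P a heig
  refine exists_normalizedEigenform_of_eigenvector (fun ℓ => ℓ ∈ P) a h hh ?_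
  intro ℓ hℓ hℓM hP
  have := congrArg (fun g : CuspForm (Gamma0 M) 2 => (⇑g : ℍ → ℂ)) (heig ℓ hℓ hℓM hP)
  simpa using this

theorem descent' : Fermat.Agent.Lib.Newform.H958.Descent :=
  fun N _ f hf => exists_newform_below (NeZero.ne N) f hf

end Fermat.Agent.Lib.Newform.H683

end
-- ===== PACK-END Lib/Newform/H683/SpecLeaves.lean

-- ===== PACK-BEGIN Lib/Newform/H803/Bridge.lean
section





/-!
# Bridge between `Γ₀(N)` cusp forms and `Γ⁰(N)`-invariant functions (helper803)
-/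

set_option autoImplicit false

namespace Fermat.Agent.Lib.Newform.H803

open Matrix Matrix.SpecialLinearGroup CongruenceSubgroup UpperHalfPlane ModularForm OnePoint
open scoped MatrixGroups ModularForm Manifold Pointwise Real

variable {k : ℤ}

/-! ### Conjugation by diagonal matrices -/

theorem mem_Gamma0_iff_dvd {N : ℕ} {g : SL(2, ℤ)} : g ∈ Gamma0 N ↔ (N : ℤ) ∣ g 1 0 := by
  rw [Gamma0_mem, ZMod.intCast_zmod_eq_zero_iff_dvd]

/-- `diag(1, N) γ = γ' diag(1, N)` with `γ' ∈ Γ₀(N)` for `γ ∈ Γ⁰(N)`. -/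
theorem heckeMatrix_zero_mul_mapGL {N : ℕ} (hN : N ≠ 0) {g : SL(2, ℤ)} (hg : g ∈ GammaU N) :
    ∃ g' ∈ Gamma0 N, heckeMatrix N 0 * mapGL ℝ g = mapGL ℝ g' * heckeMatrix N 0 := by
  obtain ⟨e, he⟩ := mem_GammaU.mp hg
  have hdet := det_eq_one' g
  obtain ⟨g', hg'⟩ : ∃ g' : SL(2, ℤ),
      (g' : Matrix (Fin 2) (Fin 2) ℤ) = !![g 0 0, e; N * g 1 0, g 1 1] := by
    refine ⟨⟨!![g 0 0, e; N * g 1 0, g 1 1], ?_⟩, rfl⟩
    rw [Matrix.det_fin_two_of]
    linear_combination hdet + (g 1 0) * he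
  refine ⟨g', ?_, ?_⟩
  · rw [mem_Gamma0_iff_dvd]
    have : g' 1 0 = N * g 1 0 := by rw [hg']; rfl
    rw [this]
    exact Dvd.intro _ rfl
  · apply Units.ext
    rw [Units.val_mul, Units.val_mul, val_heckeMatrix hN, mapGL_coe_matrix, mapGL_coe_matrix]
    have he' : ((g 0 1 : ℤ) : ℝ) = N * e := by exact_mod_cast he
    ext i j
    fin_cases i <;> fin_cases j <;>
      simp [Matrix.mul_apply, Fin.sum_univ_two, he', hg'] <;> ring

/-- `diag(d, 1) γ = γ' diag(d, 1)` with `γ' ∈ Γ⁰(d)` for `γ ∈ Γ₀(d)`. -/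
theorem heckeDiagMatrix_mul_mapGL {d : ℕ} (hd : d ≠ 0) {g : SL(2, ℤ)} (hg : g ∈ Gamma0 d) :
    ∃ g' ∈ GammaU d, heckeDiagMatrix d * mapGL ℝ g = mapGL ℝ g' * heckeDiagMatrix d := by
  obtain ⟨e, he⟩ := mem_Gamma0_iff_dvd.mp hg
  have hdet := det_eq_one' g
  obtain ⟨g', hg'⟩ : ∃ g' : SL(2, ℤ),
      (g' : Matrix (Fin 2) (Fin 2) ℤ) = !![g 0 0, d * g 0 1; e, g 1 1] := by
    refine ⟨⟨!![g 0 0, d * g 0 1; e, g 1 1], ?_⟩, rfl⟩
    rw [Matrix.det_fin_two_of]
    linear_combination hdet + (g 0 1) * he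
  refine ⟨g', ?_, ?_⟩
  · rw [mem_GammaU]
    have : g' 0 1 = d * g 0 1 := by rw [hg']; rfl
    rw [this]
    exact Dvd.intro _ rfl
  · apply Units.ext
    rw [Units.val_mul, Units.val_mul, val_heckeDiagMatrix hd, mapGL_coe_matrix, mapGL_coe_matrix]
    have he' : ((g 1 0 : ℤ) : ℝ) = d * e := by exact_mod_cast he
    ext i j
    fin_cases i <;> fin_cases j <;>
      simp [Matrix.mul_apply, Fin.sum_univ_two, he', hg'] <;> ring

/-- Upper triangular rational matrices. -/
noncomputable def upperTriQ (a b d : ℚ) (had : a * d ≠ 0) : GL (Fin 2) ℚ :=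
  Matrix.GeneralLinearGroup.mkOfDetNeZero !![a, b; 0, d]
    (by rwa [Matrix.det_fin_two_of, mul_zero, sub_zero])

theorem heckeMatrix_eq_map {p : ℕ} (hp : p ≠ 0) (j : ℕ) :
    heckeMatrix p j =
      (upperTriQ 1 j p (by rw [one_mul]; exact_mod_cast hp)).map (Rat.castHom ℝ) := by
  apply Units.ext
  rw [val_heckeMatrix hp]
  ext i j
  fin_cases i <;> fin_cases j <;> simp [upperTriQ]

theorem heckeDiagMatrix_eq_map {p : ℕ} (hp : p ≠ 0) :
    heckeDiagMatrix p =
      (upperTriQ p 0 1 (by rw [mul_one]; exact_mod_cast hp)).map (Rat.castHom ℝ) := by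
  apply Units.ext
  rw [val_heckeDiagMatrix hp]
  ext i j
  fin_cases i <;> fin_cases j <;> simp [upperTriQ]

theorem IsCuspidal.slash_heckeMatrix {F : ℍ → ℂ} (hF : IsCuspidal k F) {p : ℕ} (hp : p ≠ 0)
    (j : ℕ) : IsCuspidal k (F ∣[k] heckeMatrix p j) := by
  rw [heckeMatrix_eq_map hp]
  exact hF.slash_rat _

theorem IsCuspidal.slash_heckeDiagMatrix {F : ℍ → ℂ} (hF : IsCuspidal k F) {p : ℕ} (hp : p ≠ 0) :
    IsCuspidal k (F ∣[k] heckeDiagMatrix p) := by
  rw [heckeDiagMatrix_eq_map hp]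
  exact hF.slash_rat _

theorem sl_slash_mapGL (F : ℍ → ℂ) (γ : SL(2, ℤ)) : F ∣[k] γ = F ∣[k] (mapGL ℝ γ) := rfl

/-- The hat transform `f ↦ f ∣ diag(1, N)` of a `Γ₀(N)`-invariant function is
`Γ⁰(N)`-invariant. -/
theorem slInv_hat {N : ℕ} (hN : N ≠ 0) {f : ℍ → ℂ} (hf : SlInv k (Gamma0 N) f) :
    SlInv k (GammaU N) (f ∣[k] heckeMatrix N 0) := by
  intro g hg
  obtain ⟨g', hg', e⟩ := heckeMatrix_zero_mul_mapGL hN hg
  rw [sl_slash_mapGL, ← SlashAction.slash_mul, e, SlashAction.slash_mul,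
    ← sl_slash_mapGL, hf g' hg']

/-- The inverse transform `G ↦ G ∣ diag(d, 1)` of a `Γ⁰(d)`-invariant function is
`Γ₀(d)`-invariant. -/
theorem slInv_unhat {d : ℕ} (hd : d ≠ 0) {G : ℍ → ℂ} (hG : SlInv k (GammaU d) G) :
    SlInv k (Gamma0 d) (G ∣[k] heckeDiagMatrix d) := by
  intro g hg
  obtain ⟨g', hg', e⟩ := heckeDiagMatrix_mul_mapGL hd hg
  rw [sl_slash_mapGL, ← SlashAction.slash_mul, e, SlashAction.slash_mul,
    ← sl_slash_mapGL, hG g' hg']

theorem slInv_of_cuspForm {Γ : Subgroup SL(2, ℤ)} (f : CuspForm Γ k) :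
    SlInv k Γ (f : ℍ → ℂ) := fun γ hγ =>
  f.slash_action_eq' _ ⟨γ, hγ, rfl⟩

end Fermat.Agent.Lib.Newform.H803

end
-- ===== PACK-END Lib/Newform/H803/Bridge.lean

-- ===== PACK-BEGIN Lib/Newform/H803/QSeries.lean
section



/-!
# `q`-series of the hat transform and of the operators `avgT`, `killL` (helper803)
-/

set_option autoImplicit false

namespace Fermat.Agent.Lib.Newform.H803

open Matrix Matrix.SpecialLinearGroup CongruenceSubgroup UpperHalfPlane ModularForm
open scoped MatrixGroups ModularForm Manifold Real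

variable {k : ℤ}

/-- `F(τ) = ∑ c_n e^{2πi n τ / N}`. -/
def HasQN (N : ℕ) (c : ℕ → ℂ) (F : ℍ → ℂ) : Prop :=
  ∀ τ : ℍ, HasSum (fun n : ℕ => c n * Complex.exp (2 * π * Complex.I * n * τ / N)) (F τ)

theorem HasQN.eq_zero {N : ℕ} {c : ℕ → ℂ} {F : ℍ → ℂ} (h : HasQN N c F) (hc : ∀ n, c n = 0) :
    F = 0 := by
  funext τ
  have h1 := h τ
  simp only [hc, zero_mul] at h1
  exact h1.unique hasSum_zero

theorem HasQN.sub {N : ℕ} {c c' : ℕ → ℂ} {F F' : ℍ → ℂ} (h : HasQN N c F) (h' : HasQN N c' F') :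
    HasQN N (fun n => c n - c' n) (F - F') := by
  intro τ
  have := (h τ).sub (h' τ)
  simpa [sub_mul] using this

theorem coe_tU_smul (x : ℤ) (τ : ℍ) : ((tU x • τ : ℍ) : ℂ) = τ + x := by
  rw [tU_eq_T_zpow, ModularGroup.coe_T_zpow_smul_eq]

theorem slash_tU_apply (F : ℍ → ℂ) (x : ℤ) (τ : ℍ) : (F ∣[k] tU x) τ = F (tU x • τ) := by
  rw [ModularForm.SL_slash_apply]
  have : denom (tU x) τ = 1 := by
    rw [ModularGroup.denom_apply]
    simp
  rw [this, _root_.one_zpow, mul_one]

/-- The sum of the `p`-th roots of unity to the power `n`. -/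
theorem sum_exp_eq {p : ℕ} (hp : p ≠ 0) (n : ℕ) :
    ∑ j ∈ Finset.range p, Complex.exp (2 * π * Complex.I * n * j / p) =
      if p ∣ n then (p : ℂ) else 0 := by
  have hprim := Complex.isPrimitiveRoot_exp p hp
  set ζ : ℂ := Complex.exp (2 * π * Complex.I / p) with hζ
  have e : ∀ j : ℕ, Complex.exp (2 * π * Complex.I * n * j / p) = (ζ ^ n) ^ j := by
    intro j
    rw [hζ, ← Complex.exp_nat_mul, ← Complex.exp_nat_mul]
    congr 1
    ring
  simp only [e]
  split_ifs with h
  · have h1 : ζ ^ n = 1 := (hprim.pow_eq_one_iff_dvd n).mpr h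
    simp [h1]
  · have h1 : ζ ^ n ≠ 1 := fun h1 => h ((hprim.pow_eq_one_iff_dvd n).mp h1)
    have h2 := geom_sum_mul (ζ ^ n) p
    have h3 : (ζ ^ n) ^ p = 1 := by
      rw [← pow_mul, mul_comm, pow_mul, hprim.pow_eq_one, one_pow]
    rw [h3, sub_self] at h2
    rcases mul_eq_zero.mp h2 with h4 | h4
    · exact h4
    · exact absurd (sub_eq_zero.mp h4) h1

/-- `q`-series of `avgT`. -/
theorem hasQN_avgT {N : ℕ} {c : ℕ → ℂ} {F : ℍ → ℂ} (h : HasQN N c F) {p : ℕ} (hp : p ≠ 0)
    (hpN : p ∣ N) (hN : N ≠ 0) :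
    HasQN N (fun n => if p ∣ n then c n else 0) (avgT k (↑(N / p)) p F) := by
  intro τ
  have hN' : (N : ℂ) ≠ 0 := by exact_mod_cast hN
  have hp' : (p : ℂ) ≠ 0 := by exact_mod_cast hp
  have hval : avgT k (↑(N / p)) p F τ =
      (p : ℂ)⁻¹ * ∑ j ∈ Finset.range p, F (tU ((j : ℤ) * ↑(N / p)) • τ) := by
    simp only [Fermat.Agent.Lib.Newform.H803.avgT, Pi.smul_apply, Finset.sum_apply,
      slash_tU_apply, smul_eq_mul]
  rw [hval]
  have hsum : HasSum (fun n : ℕ => ∑ j ∈ Finset.range p,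
      c n * Complex.exp (2 * π * Complex.I * n * ((tU ((j : ℤ) * ↑(N / p)) • τ : ℍ) : ℂ) / N))
      (∑ j ∈ Finset.range p, F (tU ((j : ℤ) * ↑(N / p)) • τ)) :=
    hasSum_sum fun j _ => h (tU ((j : ℤ) * ↑(N / p)) • τ)
  have hsum' := hsum.mul_left ((p : ℂ)⁻¹)
  have hfun : (fun n : ℕ => (if p ∣ n then c n else 0) *
      Complex.exp (2 * π * Complex.I * n * τ / N)) = fun n : ℕ => (p : ℂ)⁻¹ *
      ∑ j ∈ Finset.range p,
        c n * Complex.exp (2 * π * Complex.I * n * ((tU ((j : ℤ) * ↑(N / p)) • τ : ℍ) : ℂ) / N) := by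
    funext n
    have e : ∀ j : ℕ, c n * Complex.exp
      (2 * π * Complex.I * n * ((tU ((j : ℤ) * ↑(N / p)) • τ : ℍ) : ℂ) / N) =
      (c n * Complex.exp (2 * π * Complex.I * n * τ / N)) *
        Complex.exp (2 * π * Complex.I * n * j / p) := by
      intro j
      rw [coe_tU_smul, mul_assoc (c n), ← Complex.exp_add]
      congr 2
      have hd : ((N / p : ℕ) : ℂ) = (N : ℂ) / p := by
        rw [Nat.cast_div hpN hp']
      have hcast : (((j : ℤ) * ((N / p : ℕ) : ℤ) : ℤ) : ℂ) = (j : ℂ) * ((N : ℂ) / p) := by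
        rw [Int.cast_mul, Int.cast_natCast, Int.cast_natCast, hd]
      rw [hcast]
      field_simp
    simp only [e, ← Finset.mul_sum, sum_exp_eq hp]
    split_ifs with hpn
    · field_simp
    · simp
  rw [hfun]
  exact hsum'

theorem HasQN.congr {N : ℕ} {c c' : ℕ → ℂ} {F : ℍ → ℂ} (h : HasQN N c F)
    (hc : ∀ n, c n = c' n) : HasQN N c' F := by
  have : c = c' := funext hc
  rwa [← this]

/-- `q`-series of `killL`. -/
theorem hasQN_killL {N : ℕ} (hN : N ≠ 0) {c : ℕ → ℂ} {F : ℍ → ℂ} (h : HasQN N c F) :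
    ∀ L : List ℕ, (∀ p ∈ L, p ≠ 0 ∧ p ∣ N) →
      HasQN N (fun n => if ∃ p ∈ L, p ∣ n then 0 else c n) (killL k N L F)
  | [], _ => by
    rw [killL_nil]
    exact h.congr fun n => by simp
  | p :: L, hL => by
    have ih := hasQN_killL hN h L (fun q hq => hL q (List.mem_cons_of_mem _ hq))
    have h1 := hasQN_avgT (k := k) ih (hL p List.mem_cons_self).1 (hL p List.mem_cons_self).2 hN
    have h2 := ih.sub h1
    rw [killL_cons]
    refine h2.congr fun n => ?_
    by_cases hp : p ∣ n <;> by_cases hq : ∃ q ∈ L, q ∣ n <;> simp [hp, hq]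

/-- `q`-series of the hat transform. -/
theorem hasQN_hat {N : ℕ} (hN : N ≠ 0) {f : ℍ → ℂ} {a : ℕ → ℂ}
    (hf : ∀ τ : ℍ, HasSum (fun m : ℕ => a m * Function.Periodic.qParam 1 τ ^ m) (f τ)) :
    HasQN N (fun n => (N : ℂ)⁻¹ * a n) (f ∣[k] heckeMatrix N 0) := by
  intro τ
  rw [slash_heckeMatrix_apply k hN 0 f τ]
  have h1 := (hf (heckeMatrix N 0 • τ)).mul_left ((N : ℂ)⁻¹)
  have hfun : (fun n : ℕ => (N : ℂ)⁻¹ * a n * Complex.exp (2 * π * Complex.I * n * τ / N)) =
      fun m : ℕ => (N : ℂ)⁻¹ *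
        (a m * Function.Periodic.qParam 1 ((heckeMatrix N 0 • τ : ℍ) : ℂ) ^ m) := by
    funext n
    rw [mul_assoc, Function.Periodic.qParam, ← Complex.exp_nat_mul, coe_heckeMatrix_smul hN]
    congr 3
    push_cast
    ring
  rw [hfun]
  exact h1

end Fermat.Agent.Lib.Newform.H803

end
-- ===== PACK-END Lib/Newform/H803/QSeries.lean

-- ===== PACK-BEGIN Lib/Newform/H803/MainLemma.lean
section




/-!
# The Atkin–Lehner main lemma for `Γ₀(N)` (helper803)

`mainLemma`: if `f ∈ S_k(Γ₀(N))` has `a_n(f) = 0` for all `n` coprime to `N`, then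
`f(τ) = ∑_{p ∣ N} g_p(p τ)` with `g_p ∈ S_k(Γ₀(N / p))`.
-/

set_option autoImplicit false

namespace Fermat.Agent.Lib.Newform.H803

open Matrix Matrix.SpecialLinearGroup CongruenceSubgroup UpperHalfPlane ModularForm
open scoped MatrixGroups ModularForm Manifold Real

variable {k : ℤ}

theorem one_mem_strictPeriods_Gamma0_H803 (N : ℕ) :
    (1 : ℝ) ∈ ((Gamma0 N : Subgroup SL(2, ℤ)) : Subgroup (GL (Fin 2) ℝ)).strictPeriods := by
  simp

/-- The `q`-expansion of a cusp form on `Γ₀(N)` sums to the form. -/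
theorem hasSum_qExpansion_Gamma0 {N : ℕ} (f : CuspForm (Gamma0 N) k) (τ : ℍ) :
    HasSum (fun m : ℕ => (qExpansion 1 f).coeff m * Function.Periodic.qParam 1 τ ^ m) (f τ) := by
  have hΓ := one_mem_strictPeriods_Gamma0_H803 N
  have hc : IsCusp OnePoint.infty ((Gamma0 N : Subgroup SL(2, ℤ)) : Subgroup (GL (Fin 2) ℝ)) :=
    Subgroup.isCusp_of_mem_strictPeriods one_pos hΓ
  have hz : IsZeroAtImInfty (f : ℍ → ℂ) := OnePoint.isZeroAt_infty_iff.mp (f.zero_at_cusps' hc)
  have := UpperHalfPlane.hasSum_qExpansion (f := (f : ℍ → ℂ)) one_pos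
    (SlashInvariantFormClass.periodic_comp_ofComplex f hΓ) f.holo' hz.isBoundedAtImInfty τ
  simpa [smul_eq_mul] using this

theorem heckeMatrix_smul_heckeDiagMatrix_smul {N : ℕ} (hN : N ≠ 0) (τ : ℍ) :
    heckeMatrix N 0 • (heckeDiagMatrix N • τ) = τ := by
  apply UpperHalfPlane.ext
  rw [coe_heckeMatrix_smul hN, coe_heckeDiagMatrix_smul hN]
  have : (N : ℂ) ≠ 0 := by exact_mod_cast hN
  field_simp
  simp

theorem heckeDiagMatrix_smul_smul {d p N : ℕ} (hd : d ≠ 0) (hp : p ≠ 0) (hN : N ≠ 0)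
    (h : p * d = N) (τ : ℍ) :
    heckeDiagMatrix d • (heckeDiagMatrix p • τ) = heckeDiagMatrix N • τ := by
  apply UpperHalfPlane.ext
  rw [coe_heckeDiagMatrix_smul hd, coe_heckeDiagMatrix_smul hp, coe_heckeDiagMatrix_smul hN, ← h]
  push_cast
  ring

/-- **Atkin–Lehner main lemma.** -/
theorem mainLemma (N : ℕ) [NeZero N] (k : ℤ) (f : CuspForm (Gamma0 N) k)
    (h : ∀ n : ℕ, n.Coprime N → (qExpansion 1 f).coeff n = 0) :
    ∃ g : (p : ℕ) → CuspForm (Gamma0 (N / p)) k,
      ∀ τ : ℍ, f τ = ∑ p ∈ N.primeFactors, g p (heckeDiagMatrix p • τ) := by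
  classical
  have hN : N ≠ 0 := NeZero.ne N
  set F : ℍ → ℂ := (f : ℍ → ℂ) ∣[k] heckeMatrix N 0 with hF
  have hFinv : SlInv k (GammaU N) F := slInv_hat hN (slInv_of_cuspForm f)
  have hFcusp : IsCuspidal k F := (isCuspidal_of_cuspForm f).slash_heckeMatrix hN 0
  have hLnd : (N.primeFactors.toList).Nodup := Finset.nodup_toList _
  have hLmem : ∀ p ∈ N.primeFactors.toList, p.Prime ∧ p ∣ N := by
    intro p hp
    rw [Finset.mem_toList, Nat.mem_primeFactors] at hp
    exact ⟨hp.1, hp.2.1⟩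
  have hQ : HasQN N (fun n => (N : ℂ)⁻¹ * (qExpansion 1 f).coeff n) F :=
    hasQN_hat hN (fun τ => hasSum_qExpansion_Gamma0 f τ)
  have hK : killL k N N.primeFactors.toList F = 0 := by
    refine (hasQN_killL hN hQ _ fun p hp => ⟨(hLmem p hp).1.ne_zero, (hLmem p hp).2⟩).eq_zero ?_
    intro n
    split_ifs with hn
    · rfl
    · rw [h n, mul_zero]
      apply Nat.Coprime.symm
      rw [Nat.coprime_comm]
      apply Nat.coprime_of_dvd
      intro q hq hqn hqN
      exact hn ⟨q, by rw [Finset.mem_toList, Nat.mem_primeFactors]; exact ⟨hq, hqN, hN⟩, hqn⟩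
  obtain ⟨G, hG, hGsum⟩ := main_hat (k := k) N cuspSub_slash_stable _ hLnd hLmem F
    (mem_cuspSub.mpr hFcusp) hFinv hK
  have hd0 : ∀ p ∈ N.primeFactors, N / p ≠ 0 := by
    intro p hp
    rw [Nat.mem_primeFactors] at hp
    exact (Nat.div_pos (Nat.le_of_dvd (Nat.pos_of_ne_zero hN) hp.2.1) hp.1.pos).ne'
  have hGc : ∀ p ∈ N.primeFactors, IsCuspidal k (G p) := fun p hp =>
    mem_cuspSub.mp (hG p (Finset.mem_toList.mpr hp)).1
  have hGi : ∀ p ∈ N.primeFactors, SlInv k (GammaU (N / p)) (G p) := fun p hp =>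
    (hG p (Finset.mem_toList.mpr hp)).2
  let g : (p : ℕ) → CuspForm (Gamma0 (N / p)) k := fun p =>
    if hp : p ∈ N.primeFactors then
      cuspFormOfIsCuspidal (Gamma0 (N / p))
        (((N : ℂ) * ((((N / p : ℕ) : ℂ)) ^ (k - 1))⁻¹) • (G p ∣[k] heckeDiagMatrix (N / p)))
        (((hGc p hp).slash_heckeDiagMatrix (hd0 p hp)).smul _)
        ((slInv_unhat (hd0 p hp) (hGi p hp)).smul _)
    else 0
  have hg : ∀ p ∈ N.primeFactors, ∀ τ : ℍ, g p τ =
      ((N : ℂ) * ((((N / p : ℕ) : ℂ)) ^ (k - 1))⁻¹) *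
        (G p ∣[k] heckeDiagMatrix (N / p)) τ := by
    intro p hp τ
    simp only [g, dif_pos hp]
    rfl
  refine ⟨g, ?_⟩
  intro τ
  -- `f τ = N * F (N τ)`
  have h1 : f τ = (N : ℂ) * F (heckeDiagMatrix N • τ) := by
    rw [hF, slash_heckeMatrix_apply k hN 0, heckeMatrix_smul_heckeDiagMatrix_smul hN]
    have : (N : ℂ) ≠ 0 := by exact_mod_cast hN
    field_simp
  rw [h1, hGsum, Finset.sum_map_toList, Finset.sum_apply, Finset.mul_sum]
  refine Finset.sum_congr rfl fun p hp => ?_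
  have hpN : p * (N / p) = N := Nat.mul_div_cancel' (Nat.mem_primeFactors.mp hp).2.1
  have hp0 : p ≠ 0 := (Nat.mem_primeFactors.mp hp).1.ne_zero
  rw [hg p hp, slash_heckeDiagMatrix_apply k (hd0 p hp),
    heckeDiagMatrix_smul_smul (hd0 p hp) hp0 hN hpN]
  have hd' : (((N / p : ℕ) : ℂ)) ^ (k - 1) ≠ 0 :=
    zpow_ne_zero _ (by exact_mod_cast hd0 p hp)
  field_simp

end Fermat.Agent.Lib.Newform.H803

end
-- ===== PACK-END Lib/Newform/H803/MainLemma.lean

-- ===== PACK-BEGIN Lib/RR/H804/CharZero.lean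
section



/-!
# RR library, bridge: `FF1 K F` for function fields over an algebraically closed field of
characteristic zero  (helper804)

From the Dedekind dictionary of `Fermat.Agent.S24.FF`: if `K` is algebraically closed of
characteristic zero and `F` is finite over `K(x)` for a transcendental `x`, then `F/K` satisfies
the standing hypotheses `FF1 K F` of the RR library.
-/

set_option autoImplicit false

noncomputable section

open AlgebraicCurve IntermediateField

namespace Fermat.Agent.Lib.RR.H804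

open Fermat.Agent.S24

variable {K F : Type*} [Field K] [Field F] [Algebra K F] [IsAlgClosed K] [CharZero K]

/-- Every function has finitely many zeros and poles. -/
theorem finite_setOf_ord_ne_zero {x : F} (hx : Transcendental K x) [FiniteDimensional K⟮x⟯ F]
    (f : F) : {v : Place K F | v.ord f ≠ 0}.Finite := by
  by_cases hfr : f ∈ (algebraMap K F).range
  · obtain ⟨a, rfl⟩ := hfr
    convert Set.finite_empty
    ext v
    simp [FF.ord_algebraMap]
  · have hft : Transcendental K f := FF.transcendental_of_not_mem_range hfr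
    have : FiniteDimensional K⟮f⟯ F := FF.finiteDimensional_adjoin_of_transcendental hx hft
    exact FF.finite_setOf_ord_ne_zero hft

/-- The divisor of a function. -/
def divOf {x : F} (hx : Transcendental K x) [FiniteDimensional K⟮x⟯ F] (f : F) :
    Divisor K F :=
  Finsupp.ofSupportFinite (fun v => v.ord f) (finite_setOf_ord_ne_zero hx f)

@[simp] theorem divOf_apply {x : F} (hx : Transcendental K x) [FiniteDimensional K⟮x⟯ F]
    (f : F) (v : Place K F) : _root_.Fermat.Agent.Lib.RR.H804.divOf hx f v = v.ord f := rfl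

theorem degree_divOf {x : F} (hx : Transcendental K x) [FiniteDimensional K⟮x⟯ F] (f : F) :
    Divisor.degree (_root_.Fermat.Agent.Lib.RR.H804.divOf hx f) = 0 :=
  FF.degree_principal x hx f _ (fun _ => rfl)

/-- Principal divisors exist and have degree zero. -/
theorem hasPrincipalDivisors {x : F} (hx : Transcendental K x) [FiniteDimensional K⟮x⟯ F] :
    HasPrincipalDivisors K F :=
  ⟨fun f _ => ⟨_root_.Fermat.Agent.Lib.RR.H804.divOf hx f, fun _ => rfl, _root_.Fermat.Agent.Lib.RR.H804.degree_divOf hx f⟩⟩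

/-- There is at least one place (a zero of `x`). -/
theorem nonempty_place {x : F} (hx : Transcendental K x) [FiniteDimensional K⟮x⟯ F] :
    Nonempty (Place K F) := by
  by_contra hne
  rw [not_nonempty_iff] at hne
  have h := FF.sum_ord_eq_finrank hx (∅ : Finset (Place K F)) (fun v => (hne.false v).elim)
  rw [Finset.sum_empty] at h
  have hpos : 0 < Module.finrank K⟮x⟯ F := Module.finrank_pos
  omega

/-- There is a zero of `x - a` for every `a`. -/
theorem exists_place_ord_sub_pos {x : F} (hx : Transcendental K x) [FiniteDimensional K⟮x⟯ F]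
    (a : K) : ∃ v : Place K F, 0 < v.ord (x - algebraMap K F a) := by
  by_contra hne
  rw [not_exists] at hne
  have h := FF.sum_ord_sub_const_eq_finrank hx a (∅ : Finset (Place K F))
    (fun v => ⟨fun h => (Finset.notMem_empty v h).elim, fun h => (hne v h).elim⟩)
  rw [Finset.sum_empty] at h
  have hpos : 0 < Module.finrank K⟮x⟯ F := Module.finrank_pos
  omega

/-- There is a pole of `x`. -/
theorem exists_place_ord_neg {x : F} (hx : Transcendental K x) [FiniteDimensional K⟮x⟯ F] :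
    ∃ v : Place K F, v.ord x < 0 := by
  by_contra hne
  rw [not_exists] at hne
  have h := FF.sum_ord_neg_eq_neg_finrank hx (∅ : Finset (Place K F))
    (fun v => ⟨fun h => (Finset.notMem_empty v h).elim, fun h => (hne v h).elim⟩)
  rw [Finset.sum_empty] at h
  have hpos : 0 < Module.finrank K⟮x⟯ F := Module.finrank_pos
  omega

omit [CharZero K] in
/-- The residue field of every place is `K`. -/
theorem residue_bijective {x : F} (hx : Transcendental K x) [FiniteDimensional K⟮x⟯ F]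
    (v : Place K F) : Function.Bijective (algebraMap K v.ResidueField) := by
  refine ⟨(algebraMap K v.ResidueField).injective, fun r => ?_⟩
  obtain ⟨f, rfl⟩ := IsLocalRing.residue_surjective r
  obtain ⟨a, ha⟩ := FF.exists_const_sub_mem_nonunits v hx f.2
  refine ⟨a, ?_⟩
  rw [IsScalarTower.algebraMap_apply K v.toValuationSubring v.ResidueField]
  symm
  rw [IsLocalRing.ResidueField.algebraMap_eq, ← sub_eq_zero, ← map_sub,
    IsLocalRing.residue_eq_zero_iff]
  exact ValuationSubring.coe_mem_nonunits_iff.mp ha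

omit [CharZero K] in
/-- Residue fields are finite over `K`. -/
theorem finite_residueField {x : F} (hx : Transcendental K x) [FiniteDimensional K⟮x⟯ F]
    (v : Place K F) : Module.Finite K v.ResidueField :=
  Module.Finite.of_surjective (Algebra.linearMap K v.ResidueField)
    (residue_bijective hx v).2

/-- **Bridge**: `FF1 K F` for `K` algebraically closed of characteristic zero. -/
theorem ff1 {x : F} (hx : Transcendental K x) [FiniteDimensional K⟮x⟯ F] : FF1 K F where
  hpd := hasPrincipalDivisors hx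
  deg_eq_one := fun v => FF.deg_eq_one v hx
  nonempty_place := nonempty_place hx
  exists_finite := ⟨x, hx, inferInstance⟩

end Fermat.Agent.Lib.RR.H804

end
end
-- ===== PACK-END Lib/RR/H804/CharZero.lean

-- ===== PACK-BEGIN S30/H990/FromH330.lean
section
/-
S30 top glue (helper990): adapter from helper330's adic module layer
(`H330.HasAdicFrobModule O (N * p) (· ∉ S) (eigenvalue χ)`) to the input of the top glue, and the
frozen statement S30 from it.
-/



set_option autoImplicit false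

namespace Fermat.Agent.S30.H990

open Polynomial

/-- helper330's output is an adic eigenmodule. -/
theorem nonempty_adicEigenModule_of_H330 {p N : ℕ} [NeZero N] (hp : p.Prime) {S : Finset ℕ}
    {𝒪 : Type} [CommRing 𝒪] [IsLocalRing 𝒪]
    (χ : CuspForm.heckeAlgebra N 2 (↑S : Set ℕ) →+* 𝒪)
    (h : Fermat.Agent.S30.H330.HasAdicFrobModule 𝒪 (N * p) (fun ℓ => ℓ ∉ S)
      (Fermat.Agent.S30.H330.eigenvalue χ)) :
    Nonempty (AdicEigenModule p N S 𝒪 χ) := by
  obtain ⟨M, i1, i2, i3, i4, ρ, hnt, hcont, hunr, hfrob⟩ := h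
  have hdvd : ∀ q : ℕ, q.Prime → ¬ q ∣ N → q ≠ p → ¬ q ∣ N * p := by
    intro q hq hqN hqp hdiv
    rcases (Nat.Prime.dvd_mul hq).1 hdiv with h1 | h1
    · exact hqN h1
    · exact hqp ((Nat.prime_dvd_prime_iff_eq hq hp).1 h1)
  exact ⟨{
    M := M
    ρ := ρ
    cont := hcont
    unram := fun q hq hqN hqp P hP σ hσ => hunr q hq (hdvd q hq hqN hqp) P hP σ hσ
    frob := fun ℓ hℓ hℓN hℓS A hA σ hσ => by
      have h1 := hfrob ℓ hℓ (fun hmem => hℓS (Finset.mem_coe.mpr hmem)) A hA σ hσ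
      have h2 : Fermat.Agent.S30.H330.eigenvalue χ ℓ
          = χ (CuspForm.heckeAlgebra.T hℓ hℓN hℓS) := by
        unfold Fermat.Agent.S30.H330.eigenvalue
        rw [dif_pos ⟨hℓ, hℓN, hℓS⟩]
      rw [h2] at h1
      exact h1 }⟩

/-- The tower hypothesis of the top glue from helper330's adic module layer. -/
theorem hasAdicEigenModules_of_H330
    (h : ∀ (p : ℕ) [Fact p.Prime] (N : ℕ) [NeZero N] (S : Finset ℕ)
      (_hpS : p ∈ S) (_hNS : ∀ q : ℕ, q.Prime → q ∣ N → q ∈ S)
      (𝒪' : Type) [CommRing 𝒪'] [IsDomain 𝒪'] [IsDiscreteValuationRing 𝒪']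
      [IsAdicComplete (IsLocalRing.maximalIdeal 𝒪') 𝒪'] [Finite (IsLocalRing.ResidueField 𝒪')]
      [CharZero 𝒪'] (_hp𝒪' : (p : 𝒪') ∈ IsLocalRing.maximalIdeal 𝒪')
      (χ : CuspForm.heckeAlgebra N 2 (↑S : Set ℕ) →+* 𝒪'),
      Fermat.Agent.S30.H330.HasAdicFrobModule 𝒪' (N * p) (fun ℓ => ℓ ∉ S)
        (Fermat.Agent.S30.H330.eigenvalue χ)) :
    HasAdicEigenModules := by
  intro p _ N _ S hpS hNS 𝒪' _ _ _ _ _ _ hp𝒪' χ
  exact nonempty_adicEigenModule_of_H330 (Fact.out : p.Prime) χ (h p N S hpS hNS 𝒪' hp𝒪' χ)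

end Fermat.Agent.S30.H990

end
-- ===== PACK-END S30/H990/FromH330.lean

-- ===== PACK-BEGIN S30/H709/PeriodLattice.lean
section






/-!
# S30-OCC, the period lattice

`perFun N γ` is the period functional `f ↦ ∫_z^{γ z} f` on `S₂(Γ₀(N))` (Prelude `periodMap`),
`perLattice N` is the subgroup of the dual of `S₂(Γ₀(N))` generated by the period functionals.
It is a finitely generated free abelian group; under the hypothesis `PeriodHecke N fac`
(Hecke-equivariance of the period map: `λ_γ ∘ T_ℓ = ∑_{δ ∈ fac ℓ γ} λ_δ`) it is stable under the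
transposes of all elements of the Hecke algebra, and the Hecke algebra acts faithfully on it
(`perRho`, `perRho_injective`).
-/

set_option autoImplicit false

noncomputable section

namespace Fermat.Agent.S30.H709

open CongruenceSubgroup ModularCurve ModularCurve.Period
open scoped MatrixGroups

/-- `SL(2, ℤ)` is finitely generated. -/
theorem fg_SL2Z : Group.FG SL(2, ℤ) :=
  Group.fg_iff.mpr ⟨{ModularGroup.S, ModularGroup.T}, SpecialLinearGroup.SL2Z_generators,
    Set.toFinite _⟩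

/-- `Γ₀(N)` is finitely generated (Schreier). -/
theorem fg_Gamma0 (N : ℕ) [NeZero N] : Group.FG (Gamma0 N) := by
  have := fg_SL2Z
  exact Subgroup.fg_of_index_ne_zero (Gamma0 N)

section PerFun

variable (N : ℕ) [NeZero N]

/-- The period functional `λ_γ : f ↦ periodMap N f γ` on weight-2 cusp forms. -/
def perFun (γ : Gamma0 N) : Module.Dual ℂ (CuspForm (Gamma0 N) 2) where
  toFun f := periodMap N f (Additive.ofMul γ)
  map_add' f g := by rw [Fermat.Agent.S21.H381.periodMap_add]; rfl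
  map_smul' a f := by rw [Fermat.Agent.S21.H381.periodMap_smul]; rfl

theorem perFun_apply (γ : Gamma0 N) (f : CuspForm (Gamma0 N) 2) :
    perFun N γ f = periodMap N f (Additive.ofMul γ) := rfl

theorem perFun_mul (γ δ : Gamma0 N) : perFun N (γ * δ) = perFun N γ + perFun N δ := by
  refine LinearMap.ext fun f => ?_
  rw [LinearMap.add_apply, perFun_apply, perFun_apply, perFun_apply, ofMul_mul, map_add]

theorem perFun_one : perFun N 1 = 0 := by
  refine LinearMap.ext fun f => ?_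
  rw [perFun_apply, ofMul_one, map_zero, LinearMap.zero_apply]

theorem perFun_inv (γ : Gamma0 N) : perFun N γ⁻¹ = - perFun N γ := by
  refine LinearMap.ext fun f => ?_
  rw [LinearMap.neg_apply, perFun_apply, perFun_apply, ofMul_inv, map_neg]

/-- Period functionals vanish on elements of trace `±2`. -/
theorem perFun_eq_zero_of_trace (γ : Gamma0 N)
    (hγ : ((γ : SL(2, ℤ)) : Matrix (Fin 2) (Fin 2) ℤ).trace ^ 2 = 4) : perFun N γ = 0 := by
  refine LinearMap.ext fun f => ?_
  rw [perFun_apply, LinearMap.zero_apply]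
  exact (mem_parabolicHoms_iff.mp (Fermat.Agent.S21.H381.periodMap_mem_parabolicHoms f)) γ hγ

/-- The period map is injective on cusp forms. -/
theorem periodMap_eq_zero {f : CuspForm (Gamma0 N) 2} (hf : periodMap N f = 0) : f = 0 := by
  have hinj := Fermat.Agent.S21.H81.injective_periodHomPair_of N
    (Fermat.Agent.S21.H381.existsPeriodMapLinear N)
    (fun f => Fermat.Agent.S21.H381.exists_hasEquivariantPrimitive f)
  have h0 : periodHomPair N (f, f) = periodHomPair N 0 := by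
    rw [Fermat.Agent.S21.H381.periodHomPair_apply, hf, map_zero, map_zero]
    simp
  have := hinj h0
  exact congrArg Prod.fst this

/-- The period lattice: the subgroup of the dual of `S₂(Γ₀(N))` generated by the period
functionals. -/
def perLattice : Submodule ℤ (Module.Dual ℂ (CuspForm (Gamma0 N) 2)) :=
  Submodule.span ℤ (Set.range (perFun N))

theorem perFun_mem_perLattice (γ : Gamma0 N) : perFun N γ ∈ perLattice N :=
  Submodule.subset_span ⟨γ, rfl⟩

theorem perLattice_fg : (perLattice N).FG := by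
  obtain ⟨G, hG, hfin⟩ := Group.fg_iff.mp (fg_Gamma0 N)
  have hle : perLattice N ≤ Submodule.span ℤ (perFun N '' G) := by
    refine Submodule.span_le.mpr ?_
    rintro _ ⟨γ, rfl⟩
    have hγ : γ ∈ Subgroup.closure G := by rw [hG]; exact Subgroup.mem_top γ
    induction hγ using Subgroup.closure_induction with
    | mem x hx => exact Submodule.subset_span ⟨x, hx, rfl⟩
    | one => rw [perFun_one]; exact Submodule.zero_mem _
    | mul x y _ _ hx hy => rw [perFun_mul]; exact Submodule.add_mem _ hx hy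
    | inv x _ hx => rw [perFun_inv]; exact Submodule.neg_mem _ hx
  have heq : perLattice N = Submodule.span ℤ (perFun N '' G) :=
    le_antisymm hle (Submodule.span_mono (Set.image_subset_range _ _))
  rw [heq]
  exact Submodule.fg_span (hfin.image _)

instance perLattice_finite : Module.Finite ℤ (perLattice N) :=
  Module.Finite.iff_fg.mpr (perLattice_fg N)

instance perLattice_free : Module.Free ℤ (perLattice N) :=
  Module.free_of_finite_type_torsion_free'

end PerFun

section Hecke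

variable (N : ℕ) [NeZero N]

/-- **Hypothesis `PeriodHecke`** (Hecke-equivariance of the period map, to be supplied by the
`M4a`/`E2a` owners): for every prime `ℓ ∤ N`, the period of `T_ℓ f` along `γ` is the sum of the
periods of `f` along the elements of the multiset `fac ℓ γ`
(`= {γ'ᵢ}` with `αᵢ γ = γ'ᵢ α_{π i}`, `αᵢ` the standard coset representatives of `T_ℓ`). -/
def PeriodHecke (fac : ℕ → Gamma0 N → Multiset (Gamma0 N)) : Prop :=
  ∀ (ℓ : ℕ) (hℓ : ℓ.Prime) (hℓN : ¬ ℓ ∣ N) (f : CuspForm (Gamma0 N) 2) (γ : Gamma0 N),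
    periodMap N (CuspForm.heckeTLin 2 hℓ hℓN f) (Additive.ofMul γ)
      = ((fac ℓ γ).map fun δ => periodMap N f (Additive.ofMul δ)).sum

variable {N}

theorem PeriodHecke.transpose_perFun {fac : ℕ → Gamma0 N → Multiset (Gamma0 N)}
    (hPH : PeriodHecke N fac) {ℓ : ℕ} (hℓ : ℓ.Prime) (hℓN : ¬ ℓ ∣ N) (γ : Gamma0 N) :
    Module.Dual.transpose (CuspForm.heckeTLin 2 hℓ hℓN) (perFun N γ)
      = ((fac ℓ γ).map (perFun N)).sum := by
  refine LinearMap.ext fun f => ?_
  rw [Module.Dual.transpose_apply, LinearMap.comp_apply, perFun_apply, hPH ℓ hℓ hℓN f γ]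
  have : ∀ m : Multiset (Gamma0 N),
      ((m.map (perFun N)).sum : Module.Dual ℂ (CuspForm (Gamma0 N) 2)) f
        = (m.map fun δ => periodMap N f (Additive.ofMul δ)).sum := by
    intro m
    induction m using Multiset.induction_on with
    | empty => simp
    | cons a m ih =>
      rw [Multiset.map_cons, Multiset.sum_cons, LinearMap.add_apply, ih, Multiset.map_cons,
        Multiset.sum_cons, perFun_apply]
  rw [this]

/-- Under `PeriodHecke`, and when `S` contains the primes dividing `N`, the period lattice is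
stable under the transpose of every element of the Hecke algebra. -/
theorem transpose_mem_perLattice {fac : ℕ → Gamma0 N → Multiset (Gamma0 N)}
    (hPH : PeriodHecke N fac) {S : Set ℕ} (hNS : ∀ q : ℕ, q.Prime → q ∣ N → q ∈ S)
    {t : Module.End ℂ (CuspForm (Gamma0 N) 2)} (ht : t ∈ CuspForm.heckeAlgebra N 2 S)
    {x : Module.Dual ℂ (CuspForm (Gamma0 N) 2)} (hx : x ∈ perLattice N) :
    Module.Dual.transpose t x ∈ perLattice N := by
  induction ht using Algebra.adjoin_induction generalizing x with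
  | mem t ht =>
    rcases ht with ⟨ℓ, hℓ, hℓN, -, rfl⟩ | ⟨q, hqN, hq, hqS, rfl⟩
    · induction hx using Submodule.span_induction with
      | mem y hy =>
        obtain ⟨γ, rfl⟩ := hy
        rw [hPH.transpose_perFun hℓ hℓN γ]
        refine multiset_sum_mem _ ?_
        intro z hz
        obtain ⟨δ, -, rfl⟩ := Multiset.mem_map.mp hz
        exact perFun_mem_perLattice N δ
      | zero => rw [map_zero]; exact Submodule.zero_mem _
      | add y z _ _ hy hz => rw [map_add]; exact Submodule.add_mem _ hy hz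
      | smul n y _ hy =>
        have : Module.Dual.transpose (CuspForm.heckeTLin 2 hℓ hℓN) (n • y)
            = n • Module.Dual.transpose (CuspForm.heckeTLin 2 hℓ hℓN) y := map_zsmul _ _ _
        rw [this]
        exact Submodule.smul_mem _ _ hy
    · exact absurd (hNS q hq hqN) hqS
  | algebraMap n =>
    have : Module.Dual.transpose (algebraMap ℤ (Module.End ℂ (CuspForm (Gamma0 N) 2)) n) x
        = n • x := by
      refine LinearMap.ext fun f => ?_
      rw [Module.Dual.transpose_apply, LinearMap.comp_apply, Module.algebraMap_end_apply,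
        map_zsmul, LinearMap.smul_apply]
    rw [this]
    exact Submodule.smul_mem _ _ hx
  | add t s _ _ iht ihs =>
    rw [map_add, LinearMap.add_apply]
    exact Submodule.add_mem _ (iht hx) (ihs hx)
  | mul t s _ _ iht ihs =>
    have : Module.Dual.transpose (t * s) x
        = Module.Dual.transpose s (Module.Dual.transpose t x) := by
      refine LinearMap.ext fun f => ?_
      simp only [Module.Dual.transpose_apply, LinearMap.comp_apply, Module.End.mul_apply]
    rw [this]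
    exact ihs (iht hx)

/-- The transpose of a Hecke operator, restricted to the period lattice. -/
def perRhoAux {fac : ℕ → Gamma0 N → Multiset (Gamma0 N)}
    (hPH : PeriodHecke N fac) {S : Set ℕ} (hNS : ∀ q : ℕ, q.Prime → q ∣ N → q ∈ S)
    (t : CuspForm.heckeAlgebra N 2 S) : Module.End ℤ (perLattice N) :=
  ((Module.Dual.transpose (R := ℂ)
      (t : Module.End ℂ (CuspForm (Gamma0 N) 2))).restrictScalars ℤ).restrict
        (p := perLattice N) (q := perLattice N) (fun _ hx => transpose_mem_perLattice hPH hNS t.2 hx)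

theorem perRhoAux_apply {fac : ℕ → Gamma0 N → Multiset (Gamma0 N)}
    (hPH : PeriodHecke N fac) {S : Set ℕ} (hNS : ∀ q : ℕ, q.Prime → q ∣ N → q ∈ S)
    (t : CuspForm.heckeAlgebra N 2 S) (x : perLattice N) (f : CuspForm (Gamma0 N) 2) :
    ((perRhoAux hPH hNS t x : perLattice N) : Module.Dual ℂ (CuspForm (Gamma0 N) 2)) f
      = (x : Module.Dual ℂ (CuspForm (Gamma0 N) 2))
          ((t : Module.End ℂ (CuspForm (Gamma0 N) 2)) f) :=
  rfl

/-- The action of the Hecke algebra on the period lattice (by transposes). -/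
def perRho {fac : ℕ → Gamma0 N → Multiset (Gamma0 N)}
    (hPH : PeriodHecke N fac) {S : Set ℕ} (hNS : ∀ q : ℕ, q.Prime → q ∣ N → q ∈ S) :
    CuspForm.heckeAlgebra N 2 S →+* Module.End ℤ (perLattice N) where
  toFun t := perRhoAux hPH hNS t
  map_one' := by
    refine LinearMap.ext fun x => Subtype.ext ?_
    refine LinearMap.ext fun f => ?_
    rw [perRhoAux_apply]
    rfl
  map_mul' t s := by
    refine LinearMap.ext fun x => Subtype.ext ?_
    refine LinearMap.ext fun f => ?_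
    rw [Module.End.mul_apply, perRhoAux_apply, perRhoAux_apply, perRhoAux_apply, mul_comm t s]
    rfl
  map_zero' := by
    refine LinearMap.ext fun x => Subtype.ext ?_
    refine LinearMap.ext fun f => ?_
    rw [perRhoAux_apply]
    simp
  map_add' t s := by
    refine LinearMap.ext fun x => Subtype.ext ?_
    refine LinearMap.ext fun f => ?_
    rw [LinearMap.add_apply, Submodule.coe_add, LinearMap.add_apply, perRhoAux_apply,
      perRhoAux_apply, perRhoAux_apply, Subalgebra.coe_add, LinearMap.add_apply, map_add]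

theorem perRho_apply_apply {fac : ℕ → Gamma0 N → Multiset (Gamma0 N)}
    (hPH : PeriodHecke N fac) {S : Set ℕ} (hNS : ∀ q : ℕ, q.Prime → q ∣ N → q ∈ S)
    (t : CuspForm.heckeAlgebra N 2 S) (x : perLattice N) (f : CuspForm (Gamma0 N) 2) :
    ((perRho hPH hNS t x : perLattice N) : Module.Dual ℂ (CuspForm (Gamma0 N) 2)) f
      = (x : Module.Dual ℂ (CuspForm (Gamma0 N) 2))
          ((t : Module.End ℂ (CuspForm (Gamma0 N) 2)) f) :=
  rfl

/-- The Hecke algebra acts faithfully on the period lattice. -/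
theorem perRho_injective {fac : ℕ → Gamma0 N → Multiset (Gamma0 N)}
    (hPH : PeriodHecke N fac) {S : Set ℕ} (hNS : ∀ q : ℕ, q.Prime → q ∣ N → q ∈ S) :
    Function.Injective (perRho hPH hNS : CuspForm.heckeAlgebra N 2 S →+* _) := by
  rw [injective_iff_map_eq_zero]
  intro t ht
  apply Subtype.ext
  refine LinearMap.ext fun f => ?_
  rw [ZeroMemClass.coe_zero, LinearMap.zero_apply]
  apply periodMap_eq_zero N
  refine AddMonoidHom.ext fun γ => ?_
  obtain ⟨γ, rfl⟩ : ∃ γ' : Gamma0 N, Additive.ofMul γ' = γ := ⟨Additive.toMul γ, rfl⟩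
  have h1 := congrArg (fun u : Module.End ℤ (perLattice N) =>
    ((u ⟨perFun N γ, perFun_mem_perLattice N γ⟩ : perLattice N) :
      Module.Dual ℂ (CuspForm (Gamma0 N) 2)) f) ht
  simp only [perRho_apply_apply, perFun_apply,
    LinearMap.zero_apply, ZeroMemClass.coe_zero] at h1
  rw [h1, AddMonoidHom.zero_apply]

end Hecke

end Fermat.Agent.S30.H709

end
end
-- ===== PACK-END S30/H709/PeriodLattice.lean

-- ===== PACK-BEGIN S30/H709/Occ.lean
section



/-!
# S30-OCC: every eigensystem of the Hecke algebra occurs in the period lattice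

Main result `exists_adic_eigen_lattice`.  Input: the Hecke-equivariance of the period map
(`PeriodHecke N fac`, a hypothesis) and a ring homomorphism `χ : heckeAlgebra N 2 S →+* A` to an
arbitrary domain `A` (for S30: `A = 𝒪'`; for S29: `A = F` a field of characteristic `p`).
Output: a lattice of integer-valued parabolic characters `c j : Γ₀(N) → ℤ` (`j : Fin r`), stable
under the cohomological Hecke operators with integer matrices `τ ℓ`, saturated and linearly
independent, and a nonzero vector `w : Fin r → A` such that `v = ∑ j, w j • c j` is an eigenvector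
with eigenvalues `χ (T_ℓ)`.
-/

set_option autoImplicit false

noncomputable section

namespace Fermat.Agent.S30.H709

open CongruenceSubgroup ModularCurve ModularCurve.Period
open scoped MatrixGroups

variable {N : ℕ} [NeZero N]

/-- The class of the period functional `λ_γ` in the period lattice. -/
def perCls (N : ℕ) [NeZero N] (γ : Gamma0 N) : perLattice N :=
  ⟨perFun N γ, perFun_mem_perLattice N γ⟩

theorem perCls_mul (γ δ : Gamma0 N) : perCls N (γ * δ) = perCls N γ + perCls N δ :=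
  Subtype.ext (perFun_mul N γ δ)

theorem perCls_one : perCls N 1 = 0 := Subtype.ext (perFun_one N)

theorem perCls_eq_zero_of_trace (γ : Gamma0 N)
    (hγ : ((γ : SL(2, ℤ)) : Matrix (Fin 2) (Fin 2) ℤ).trace ^ 2 = 4) : perCls N γ = 0 :=
  Subtype.ext (perFun_eq_zero_of_trace N γ hγ)

/-- The classes `perCls γ` generate the period lattice. -/
theorem perCls_induction {P : perLattice N → Prop} (h0 : P 0)
    (hadd : ∀ x y, P x → P y → P (x + y)) (hneg : ∀ x, P x → P (-x))
    (hcls : ∀ γ, P (perCls N γ)) (x : perLattice N) : P x := by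
  obtain ⟨x, hx⟩ := x
  induction hx using Submodule.span_induction with
  | mem y hy =>
    obtain ⟨γ, rfl⟩ := hy
    exact hcls γ
  | zero => exact h0
  | add y z hy hz ihy ihz => exact hadd ⟨y, hy⟩ ⟨z, hz⟩ ihy ihz
  | smul n y hy ihy =>
    have hsm : ∀ (k : ℕ), P (k • (⟨y, hy⟩ : perLattice N)) := by
      intro k
      induction k with
      | zero => rw [zero_smul]; exact h0
      | succ k ih => rw [succ_nsmul]; exact hadd _ _ ih ihy
    have key : P (n • (⟨y, hy⟩ : perLattice N)) := by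
      rcases Int.eq_nat_or_neg n with ⟨k, rfl | rfl⟩
      · rw [natCast_zsmul]; exact hsm k
      · rw [neg_smul, natCast_zsmul]; exact hneg _ (hsm k)
    exact key

theorem perRho_perCls {fac : ℕ → Gamma0 N → Multiset (Gamma0 N)}
    (hPH : PeriodHecke N fac) {S : Set ℕ} (hNS : ∀ q : ℕ, q.Prime → q ∣ N → q ∈ S)
    {ℓ : ℕ} (hℓ : ℓ.Prime) (hℓN : ¬ ℓ ∣ N) (hℓS : ℓ ∉ S) (γ : Gamma0 N) :
    perRho hPH hNS (CuspForm.heckeAlgebra.T hℓ hℓN hℓS) (perCls N γ)
      = ((fac ℓ γ).map (perCls N)).sum := by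
  apply Subtype.ext
  have h1 : ((perRho hPH hNS (CuspForm.heckeAlgebra.T hℓ hℓN hℓS) (perCls N γ) : perLattice N) :
      Module.Dual ℂ (CuspForm (Gamma0 N) 2))
      = Module.Dual.transpose (CuspForm.heckeTLin 2 hℓ hℓN) (perFun N γ) := rfl
  rw [h1, hPH.transpose_perFun hℓ hℓN γ]
  have h2 : ∀ m : Multiset (Gamma0 N),
      (((m.map (perCls N)).sum : perLattice N) : Module.Dual ℂ (CuspForm (Gamma0 N) 2))
        = (m.map (perFun N)).sum := by
    intro m
    induction m using Multiset.induction_on with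
    | empty => simp
    | cons a m ih =>
      rw [Multiset.map_cons, Multiset.sum_cons, Submodule.coe_add, ih, Multiset.map_cons,
        Multiset.sum_cons]
      rfl
  rw [h2]

/-- **S30-OCC** (adic `M4a`).  Every ring homomorphism `χ` from the Hecke algebra (away from a set
`S` containing the primes dividing `N`) to a domain `A` occurs in the lattice of integral parabolic
characters spanned by the period functionals. -/
theorem exists_adic_eigen_lattice {fac : ℕ → Gamma0 N → Multiset (Gamma0 N)}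
    (hPH : PeriodHecke N fac) {S : Set ℕ} (hNS : ∀ q : ℕ, q.Prime → q ∣ N → q ∈ S)
    {A : Type*} [CommRing A] [IsDomain A] (χ : CuspForm.heckeAlgebra N 2 S →+* A) :
    ∃ (r : ℕ) (c : Fin r → (Additive (Gamma0 N) →+ ℤ)) (τ : ℕ → Matrix (Fin r) (Fin r) ℤ)
      (w : Fin r → A),
      (∀ j, IsParabolicHom (Gamma0 N) (c j)) ∧
      (∀ (m : ℤ) (a : Fin r → ℤ),
        (∀ γ : Gamma0 N, m ∣ ∑ j, a j * c j (Additive.ofMul γ)) → ∀ j, m ∣ a j) ∧
      (∀ (ℓ : ℕ) (_ : ℓ.Prime) (_ : ¬ ℓ ∣ N) (_ : ℓ ∉ S) (j : Fin r) (γ : Gamma0 N),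
        ((fac ℓ γ).map fun δ => c j (Additive.ofMul δ)).sum
          = ∑ k, τ ℓ j k * c k (Additive.ofMul γ)) ∧
      w ≠ 0 ∧
      ∀ (ℓ : ℕ) (hℓ : ℓ.Prime) (hℓN : ¬ ℓ ∣ N) (hℓS : ℓ ∉ S) (k : Fin r),
        ∑ j, w j * ((τ ℓ j k : ℤ) : A) = χ (CuspForm.heckeAlgebra.T hℓ hℓN hℓS) * w k := by
  classical
  let b := Module.finBasis ℤ (perLattice N)
  let c : Fin (Module.finrank ℤ (perLattice N)) → (Additive (Gamma0 N) →+ ℤ) := fun j =>
    { toFun := fun γ => b.repr (perCls N (Additive.toMul γ)) j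
      map_zero' := by
        rw [toMul_zero, perCls_one, map_zero]
        rfl
      map_add' := fun γ δ => by
        rw [toMul_add, perCls_mul, map_add]
        rfl }
  have hc : ∀ j (γ : Gamma0 N), c j (Additive.ofMul γ) = b.repr (perCls N γ) j := fun _ _ => rfl
  let τ : ℕ → Matrix (Fin (Module.finrank ℤ (perLattice N)))
      (Fin (Module.finrank ℤ (perLattice N))) ℤ := fun ℓ =>
    if h : ℓ.Prime ∧ ¬ ℓ ∣ N ∧ ℓ ∉ S then
      Matrix.of fun j k => b.repr (perRho hPH hNS (CuspForm.heckeAlgebra.T h.1 h.2.1 h.2.2) (b k)) j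
    else 0
  have hτ : ∀ (ℓ : ℕ) (hℓ : ℓ.Prime) (hℓN : ¬ ℓ ∣ N) (hℓS : ℓ ∉ S) (j k),
      τ ℓ j k = b.repr (perRho hPH hNS (CuspForm.heckeAlgebra.T hℓ hℓN hℓS) (b k)) j := by
    intro ℓ hℓ hℓN hℓS j k
    simp only [τ, dif_pos (show ℓ.Prime ∧ ¬ ℓ ∣ N ∧ ℓ ∉ S from ⟨hℓ, hℓN, hℓS⟩), Matrix.of_apply]
  obtain ⟨w, hw0, hw⟩ := exists_eigen_coeffs (perRho hPH hNS) (perRho_injective hPH hNS) b χ
  refine ⟨Module.finrank ℤ (perLattice N), c, τ, w, ?_, ?_, ?_, hw0, ?_⟩
  · intro j γ hγ
    rw [hc, perCls_eq_zero_of_trace γ hγ, map_zero]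
    rfl
  · intro m a ha k
    let Λ : perLattice N →ₗ[ℤ] ℤ := ∑ j, a j • b.coord j
    have hΛ : ∀ x, Λ x = ∑ j, a j * b.repr x j := by
      intro x
      simp only [Λ, LinearMap.sum_apply, LinearMap.smul_apply, Module.Basis.coord_apply,
        smul_eq_mul]
    have hall : ∀ x : perLattice N, m ∣ Λ x := by
      intro x
      induction x using perCls_induction with
      | h0 => rw [map_zero]; exact dvd_zero m
      | hadd x y hx hy => rw [map_add]; exact dvd_add hx hy
      | hneg x hx => rw [map_neg]; exact (dvd_neg).mpr hx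
      | hcls γ => rw [hΛ]; exact ha γ
    have hk : Λ (b k) = a k := by
      rw [hΛ]
      simp [Module.Basis.repr_self, Finsupp.single_apply]
    rw [← hk]
    exact hall (b k)
  · intro ℓ hℓ hℓN hℓS j γ
    have h1 : ((fac ℓ γ).map fun δ => c j (Additive.ofMul δ)).sum
        = b.coord j (((fac ℓ γ).map (perCls N)).sum) := by
      rw [map_multiset_sum, Multiset.map_map]
      rfl
    rw [h1, ← perRho_perCls hPH hNS hℓ hℓN hℓS γ]
    conv_lhs => rw [← b.sum_repr (perCls N γ)]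
    rw [map_sum, map_sum]
    refine Finset.sum_congr rfl fun k _ => ?_
    rw [map_zsmul, map_zsmul, hτ ℓ hℓ hℓN hℓS, hc, smul_eq_mul, Module.Basis.coord_apply, mul_comm]
  · intro ℓ hℓ hℓN hℓS k
    rw [← hw (CuspForm.heckeAlgebra.T hℓ hℓN hℓS) k]
    refine Finset.sum_congr rfl fun j _ => ?_
    rw [hτ ℓ hℓ hℓN hℓS]

end Fermat.Agent.S30.H709

end
end
-- ===== PACK-END S30/H709/Occ.lean

-- ===== PACK-BEGIN S30/H709/OccJ.lean
section


/-!
# S30-OCC, transport to the Jacobian: occurrence of `χ` in `𝒪 ⊗ J` modulo every power of `p`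

`KummerSystem` is the interface expected from the Kummer layer (`M4b` for all `pⁿ`): maps
`κ n : (Γ₀(N) → ℤ) → J` (the class attached to `c mod pⁿ`), additive on integral parabolic
characters, compatible (`p • κ (n+1) = κ n`, `κ 0 = 0`), Hecke-equivariant, and injective modulo `p`
at level `1`.

`exists_occ_tensor`: from `PeriodHecke` and a `KummerSystem`, every `χ : heckeAlgebra N 2 S →+* 𝒪`
(`𝒪` a local principal ideal domain of characteristic `0` with `p ∈ 𝔪`) occurs in `𝒪 ⊗ J` with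
exact order `pⁿ⁺¹` for every `n`: exactly the hypothesis `hocc` of
`Fermat.Agent.S30.H349.nonempty_adicEigenModule_of_tower`.
-/

set_option autoImplicit false

noncomputable section

namespace Fermat.Agent.S30.H709

open CongruenceSubgroup ModularCurve ModularCurve.Period TensorProduct IsLocalRing
open scoped MatrixGroups

/-- Integral parabolic characters of `Γ₀(N)`, as plain functions. -/
def IsParZ {N : ℕ} (c : Gamma0 N → ℤ) : Prop :=
  (∀ γ δ : Gamma0 N, c (γ * δ) = c γ + c δ) ∧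
    ∀ γ : Gamma0 N, ((γ : SL(2, ℤ)) : Matrix (Fin 2) (Fin 2) ℤ).trace ^ 2 = 4 → c γ = 0

theorem IsParZ.zero {N : ℕ} : IsParZ (0 : Gamma0 N → ℤ) :=
  ⟨fun _ _ => by simp, fun _ _ => rfl⟩

theorem IsParZ.add {N : ℕ} {c c' : Gamma0 N → ℤ} (h : IsParZ c) (h' : IsParZ c') :
    IsParZ (c + c') :=
  ⟨fun γ δ => by simp only [Pi.add_apply, h.1 γ δ, h'.1 γ δ]; ring,
    fun γ hγ => by simp only [Pi.add_apply, h.2 γ hγ, h'.2 γ hγ, add_zero]⟩

theorem IsParZ.neg {N : ℕ} {c : Gamma0 N → ℤ} (h : IsParZ c) : IsParZ (-c) :=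
  ⟨fun γ δ => by simp only [Pi.neg_apply, h.1 γ δ]; ring,
    fun γ hγ => by simp only [Pi.neg_apply, h.2 γ hγ, neg_zero]⟩

theorem IsParZ.smul {N : ℕ} {c : Gamma0 N → ℤ} (h : IsParZ c) (a : ℤ) : IsParZ (a • c) :=
  ⟨fun γ δ => by simp only [Pi.smul_apply, smul_eq_mul, h.1 γ δ]; ring,
    fun γ hγ => by simp only [Pi.smul_apply, smul_eq_mul, h.2 γ hγ, mul_zero]⟩

theorem IsParZ.sum {N : ℕ} {ι : Type*} (s : Finset ι) (f : ι → Gamma0 N → ℤ)
    (h : ∀ i ∈ s, IsParZ (f i)) : IsParZ (∑ i ∈ s, f i) := by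
  classical
  induction s using Finset.induction_on with
  | empty => rw [Finset.sum_empty]; exact IsParZ.zero
  | insert a s ha ih =>
    rw [Finset.sum_insert ha]
    exact (h a (Finset.mem_insert_self a s)).add
      (ih fun i hi => h i (Finset.mem_insert_of_mem hi))

/-- The cohomological Hecke operator on functions `Γ₀(N) → ℤ` attached to `fac`. -/
def heckeFn {N : ℕ} (fac : ℕ → Gamma0 N → Multiset (Gamma0 N)) (ℓ : ℕ) (c : Gamma0 N → ℤ) :
    Gamma0 N → ℤ :=
  fun γ => ((fac ℓ γ).map c).sum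

/-- **Interface of the Kummer layer for all powers of `p`.**  `κ n c` is the class in `J[pⁿ]`
attached to the character `c mod pⁿ` (for S30: `J = JZero N`, `T ℓ` the Hecke operator). -/
structure KummerSystem (N : ℕ) (fac : ℕ → Gamma0 N → Multiset (Gamma0 N)) (S : Set ℕ) (p : ℕ)
    (J : Type*) [AddCommGroup J] (T : Nat.Primes → J →+ J) where
  /-- the Kummer maps -/
  κ : ℕ → (Gamma0 N → ℤ) → J
  map_add : ∀ n c c', IsParZ c → IsParZ c' → κ n (c + c') = κ n c + κ n c'
  map_zero_level : ∀ c, IsParZ c → κ 0 c = 0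
  compat : ∀ n c, IsParZ c → p • κ (n + 1) c = κ n c
  inj : ∀ c, IsParZ c → κ 1 c = 0 → ∀ γ, (p : ℤ) ∣ c γ
  hecke : ∀ (n : ℕ) (ℓ : Nat.Primes), ¬ (ℓ : ℕ) ∣ N → (ℓ : ℕ) ∉ S → ∀ c, IsParZ c →
    T ℓ (κ n c) = κ n (heckeFn fac ℓ c)

namespace KummerSystem

variable {N : ℕ} {fac : ℕ → Gamma0 N → Multiset (Gamma0 N)} {S : Set ℕ} {p : ℕ}
  {J : Type*} [AddCommGroup J] {T : Nat.Primes → J →+ J} (K : KummerSystem N fac S p J T)

theorem map_zero (n : ℕ) : K.κ n 0 = 0 := by
  have h := K.map_add n 0 0 IsParZ.zero IsParZ.zero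
  rw [add_zero] at h
  exact left_eq_add.mp h

theorem map_neg (n : ℕ) {c : Gamma0 N → ℤ} (hc : IsParZ c) : K.κ n (-c) = - K.κ n c := by
  have h := K.map_add n c (-c) hc hc.neg
  rw [add_neg_cancel, K.map_zero] at h
  exact (neg_eq_of_add_eq_zero_right h.symm).symm

theorem map_nsmul (n : ℕ) {c : Gamma0 N → ℤ} (hc : IsParZ c) (k : ℕ) :
    K.κ n (k • c) = k • K.κ n c := by
  induction k with
  | zero => rw [zero_smul, zero_smul, K.map_zero]
  | succ k ih =>
    rw [succ_nsmul, succ_nsmul, K.map_add n _ _ (by simpa using hc.smul (k : ℤ)) hc, ih]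

theorem map_zsmul (n : ℕ) {c : Gamma0 N → ℤ} (hc : IsParZ c) (a : ℤ) :
    K.κ n (a • c) = a • K.κ n c := by
  rcases Int.eq_nat_or_neg a with ⟨k, rfl | rfl⟩
  · rw [natCast_zsmul, natCast_zsmul, K.map_nsmul n hc]
  · rw [neg_smul, neg_smul, natCast_zsmul, natCast_zsmul,
      K.map_neg n (by simpa using hc.smul (k : ℤ)), K.map_nsmul n hc]

theorem map_sum (n : ℕ) {ι : Type*} (s : Finset ι) (f : ι → Gamma0 N → ℤ)
    (h : ∀ i ∈ s, IsParZ (f i)) : K.κ n (∑ i ∈ s, f i) = ∑ i ∈ s, K.κ n (f i) := by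
  classical
  induction s using Finset.induction_on with
  | empty => rw [Finset.sum_empty, Finset.sum_empty, K.map_zero]
  | insert a s ha ih =>
    rw [Finset.sum_insert ha, Finset.sum_insert ha,
      K.map_add n _ _ (h a (Finset.mem_insert_self a s))
        (IsParZ.sum s f fun i hi => h i (Finset.mem_insert_of_mem hi)),
      ih fun i hi => h i (Finset.mem_insert_of_mem hi)]

theorem pow_smul (n k : ℕ) {c : Gamma0 N → ℤ} (hc : IsParZ c) :
    p ^ k • K.κ (n + k) c = K.κ n c := by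
  induction k with
  | zero => rw [pow_zero, one_smul, add_zero]
  | succ k ih =>
    rw [pow_succ, mul_smul, ← add_assoc, K.compat (n + k) c hc, ih]

end KummerSystem

/-- In a local principal ideal domain every nonzero vector is a nonzero multiple of a vector
with a unit coordinate. -/
theorem exists_primitive_vector {O : Type*} [CommRing O] [IsDomain O] [IsLocalRing O]
    [IsPrincipalIdealRing O] {r : ℕ} (w : Fin r → O) (hw : w ≠ 0) :
    ∃ (g : O) (w' : Fin r → O), g ≠ 0 ∧ (∀ j, w j = g * w' j) ∧ ∃ j, IsUnit (w' j) := by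
  classical
  obtain ⟨g, hg⟩ := (IsPrincipalIdealRing.principal (Ideal.span (Set.range w))).principal
  have hmem : ∀ j, w j ∈ Ideal.span ({g} : Set O) := by
    intro j
    have : w j ∈ Ideal.span (Set.range w) := Ideal.subset_span ⟨j, rfl⟩
    rw [hg] at this
    exact this
  have hdiv : ∀ j, ∃ a, w j = g * a := fun j => by
    obtain ⟨a, ha⟩ := Ideal.mem_span_singleton'.mp (hmem j)
    exact ⟨a, by rw [← ha, mul_comm]⟩
  choose w' hw' using hdiv
  have hg0 : g ≠ 0 := by
    rintro rfl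
    apply hw
    funext j
    rw [hw' j, zero_mul]
    rfl
  have hgmem : g ∈ Ideal.span (Set.range w) := by
    rw [hg]
    exact Ideal.subset_span rfl
  obtain ⟨a, ha⟩ := Ideal.mem_span_range_iff_exists_fun.mp hgmem
  have hone : ∑ j, a j * w' j = 1 := by
    have h1 : g * ∑ j, a j * w' j = g * 1 := by
      rw [mul_one, Finset.mul_sum]
      conv_rhs => rw [← ha]
      refine Finset.sum_congr rfl fun j _ => ?_
      rw [hw' j]
      ring
    exact mul_left_cancel₀ hg0 h1
  refine ⟨g, w', hg0, hw', ?_⟩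
  by_contra hcon
  rw [not_exists] at hcon
  have hmax : ∑ j, a j * w' j ∈ maximalIdeal O :=
    Ideal.sum_mem _ fun j _ => Ideal.mul_mem_left _ _ ((mem_maximalIdeal _).mpr (hcon j))
  rw [hone] at hmax
  exact (mem_maximalIdeal _).mp hmax isUnit_one

section Nonvanishing

variable {O : Type*} [CommRing O] [IsDomain O] [CharZero O] {J : Type*} [AddCommGroup J]

/-- The `j`-th coordinate `O ⊗ ℤʳ → O`. -/
def coordTensor (O : Type*) [CommRing O] {r : ℕ} (j : Fin r) : O ⊗[ℤ] (Fin r → ℤ) →+ O :=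
  (TensorProduct.lift (LinearMap.mk₂ ℤ (fun (o : O) (a : Fin r → ℤ) => a j • o)
    (fun o o' a => by simp only [smul_add])
    (fun t o a => smul_comm (a j) t o)
    (fun o a a' => by simp only [Pi.add_apply, add_smul])
    (fun t o a => by simp only [Pi.smul_apply, smul_eq_mul, mul_smul]))).toAddMonoidHom

omit [IsDomain O] [CharZero O] in
theorem coordTensor_tmul {r : ℕ} (j : Fin r) (o : O) (a : Fin r → ℤ) :
    coordTensor O j (o ⊗ₜ[ℤ] a) = a j • o := by
  simp only [coordTensor, LinearMap.toAddMonoidHom_coe, TensorProduct.lift.tmul,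
    LinearMap.mk₂_apply]

/-- Flatness: if `φ : ℤʳ → J` has kernel inside `p ℤʳ` and `∑ wⱼ ⊗ φ(eⱼ) = 0` in `O ⊗ J`,
then `p` divides every `wⱼ`. -/
theorem dvd_of_tensor_eq_zero {r : ℕ} (φ : (Fin r → ℤ) →ₗ[ℤ] J) (m : ℤ)
    (hker : ∀ a : Fin r → ℤ, φ a = 0 → ∀ j, m ∣ a j) (w : Fin r → O)
    (hz : ∑ j, w j ⊗ₜ[ℤ] φ (Pi.single j 1) = 0) (j : Fin r) : (m : O) ∣ w j := by
  classical
  let z : O ⊗[ℤ] (Fin r → ℤ) := ∑ k, w k ⊗ₜ[ℤ] (Pi.single k (1 : ℤ))
  have hzφ : LinearMap.lTensor O φ z = 0 := by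
    rw [map_sum, ← hz]
    refine Finset.sum_congr rfl fun k _ => ?_
    rw [LinearMap.lTensor_tmul]
  have hex := Module.Flat.lTensor_exact O (LinearMap.exact_subtype_ker_map φ)
  obtain ⟨t, ht⟩ := (hex z).mp hzφ
  have hzj : coordTensor O j z = w j := by
    rw [map_sum]
    simp only [coordTensor_tmul]
    rw [Finset.sum_eq_single j]
    · rw [Pi.single_eq_same, one_smul]
    · intro k _ hk
      rw [Pi.single_eq_of_ne (Ne.symm hk), zero_smul]
    · intro h
      exact absurd (Finset.mem_univ j) h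
  have hall : ∀ t : O ⊗[ℤ] LinearMap.ker φ,
      (m : O) ∣ coordTensor O j (LinearMap.lTensor O (LinearMap.ker φ).subtype t) := by
    intro t
    induction t using TensorProduct.induction_on with
    | zero => rw [map_zero, map_zero]; exact dvd_zero _
    | tmul o a =>
      rw [LinearMap.lTensor_tmul, coordTensor_tmul]
      obtain ⟨b, hb⟩ := hker a.1 (LinearMap.mem_ker.mp a.2) j
      rw [Submodule.subtype_apply, hb, mul_smul, zsmul_eq_mul]
      exact Dvd.intro _ rfl
    | add x y hx hy => rw [map_add, map_add]; exact dvd_add hx hy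
  rw [← hzj, ← ht]
  exact hall t

end Nonvanishing

section Main

variable {N : ℕ} [NeZero N]

/-- **Occurrence of `χ` in `𝒪 ⊗ J` modulo every power of `p`**: the hypothesis `hocc` of the
`p`-adic module layer, from `PeriodHecke` and a `KummerSystem`. -/
theorem exists_occ_tensor {fac : ℕ → Gamma0 N → Multiset (Gamma0 N)}
    (hPH : PeriodHecke N fac) {S : Set ℕ} (hNS : ∀ q : ℕ, q.Prime → q ∣ N → q ∈ S)
    {O : Type*} [CommRing O] [IsDomain O] [IsLocalRing O] [IsPrincipalIdealRing O] [CharZero O]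
    (χ : CuspForm.heckeAlgebra N 2 S →+* O)
    {p : ℕ} (hpO : (p : O) ∈ maximalIdeal O)
    {J : Type*} [AddCommGroup J] {T : Nat.Primes → J →+ J}
    (K : KummerSystem N fac S p J T) (n : ℕ) :
    ∃ x : O ⊗[ℤ] J, (p : O) ^ (n + 1) • x = 0 ∧ (p : O) ^ n • x ≠ 0 ∧
      ∀ (ℓ : ℕ) (hℓ : ℓ.Prime) (hℓN : ¬ ℓ ∣ N) (hℓS : ℓ ∉ S),
        (T ⟨ℓ, hℓ⟩).toIntLinearMap.baseChange O x
          = χ (CuspForm.heckeAlgebra.T hℓ hℓN hℓS) • x := by
  classical
  obtain ⟨r, c, τ, w₀, hpar, hsat, hτ, hw₀, heig₀⟩ := exists_adic_eigen_lattice hPH hNS χ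
  obtain ⟨g, w, hg0, hgw, j₀, hj₀⟩ := exists_primitive_vector w₀ hw₀
  -- the eigen-relation for the primitive vector
  have heig : ∀ (ℓ : ℕ) (hℓ : ℓ.Prime) (hℓN : ¬ ℓ ∣ N) (hℓS : ℓ ∉ S) (k : Fin r),
      ∑ j, w j * ((τ ℓ j k : ℤ) : O) = χ (CuspForm.heckeAlgebra.T hℓ hℓN hℓS) * w k := by
    intro ℓ hℓ hℓN hℓS k
    have h := heig₀ ℓ hℓ hℓN hℓS k
    apply mul_left_cancel₀ hg0
    rw [Finset.mul_sum]
    calc ∑ j, g * (w j * ((τ ℓ j k : ℤ) : O)) = ∑ j, w₀ j * ((τ ℓ j k : ℤ) : O) := by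
          refine Finset.sum_congr rfl fun j _ => ?_
          rw [hgw j]; ring
      _ = χ (CuspForm.heckeAlgebra.T hℓ hℓN hℓS) * w₀ k := h
      _ = g * (χ (CuspForm.heckeAlgebra.T hℓ hℓN hℓS) * w k) := by rw [hgw k]; ring
  -- the characters as functions
  let cf : Fin r → Gamma0 N → ℤ := fun j γ => c j (Additive.ofMul γ)
  have hcf : ∀ j, IsParZ (cf j) := fun j =>
    ⟨fun γ δ => by simp only [cf, ofMul_mul, map_add], fun γ hγ => hpar j γ hγ⟩
  have hheckeFn : ∀ (ℓ : ℕ) (hℓ : ℓ.Prime) (hℓN : ¬ ℓ ∣ N) (hℓS : ℓ ∉ S) (j : Fin r),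
      heckeFn fac ℓ (cf j) = ∑ k, τ ℓ j k • cf k := by
    intro ℓ hℓ hℓN hℓS j
    funext γ
    rw [heckeFn, hτ ℓ hℓ hℓN hℓS j γ, Finset.sum_apply]
    rfl
  -- the eigenclass at level `m`
  let x : ℕ → O ⊗[ℤ] J := fun m => ∑ j, w j ⊗ₜ[ℤ] K.κ m (cf j)
  have hx_pow : ∀ m k : ℕ, (p : O) ^ k • x (m + k) = x m := by
    intro m k
    simp only [x]
    rw [Finset.smul_sum]
    refine Finset.sum_congr rfl fun j _ => ?_
    rw [← K.pow_smul m k (hcf j), TensorProduct.tmul_smul, ← Nat.cast_pow,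
      Nat.cast_smul_eq_nsmul]
  have hx0 : x 0 = 0 := by
    simp only [x]
    refine Finset.sum_eq_zero fun j _ => ?_
    rw [K.map_zero_level _ (hcf j), TensorProduct.tmul_zero]
  refine ⟨x (n + 1), ?_, ?_, ?_⟩
  · have := hx_pow 0 (n + 1)
    rw [zero_add] at this
    rw [this, hx0]
  · have h1 := hx_pow 1 n
    rw [add_comm 1 n] at h1
    rw [h1]
    intro hzero
    -- `x 1 = 0` forces `p ∣ w j₀`, impossible for a unit
    let φ : (Fin r → ℤ) →ₗ[ℤ] J :=
      { toFun := fun a => ∑ j, a j • K.κ 1 (cf j)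
        map_add' := fun a b => by
          simp only [Pi.add_apply, add_smul, Finset.sum_add_distrib]
        map_smul' := fun t a => by
          simp only [Pi.smul_apply, smul_eq_mul, mul_smul, Finset.smul_sum, RingHom.id_apply] }
    have hφ : ∀ a : Fin r → ℤ, φ a = K.κ 1 (∑ j, a j • cf j) := by
      intro a
      rw [K.map_sum 1 Finset.univ (fun j => a j • cf j) fun j _ => (hcf j).smul (a j)]
      show ∑ j, a j • K.κ 1 (cf j) = _
      refine Finset.sum_congr rfl fun j _ => ?_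
      rw [K.map_zsmul 1 (hcf j)]
    have hker : ∀ a : Fin r → ℤ, φ a = 0 → ∀ j, (p : ℤ) ∣ a j := by
      intro a ha
      rw [hφ] at ha
      have hdiv := K.inj _ (IsParZ.sum Finset.univ (fun j => a j • cf j)
        fun j _ => (hcf j).smul (a j)) ha
      refine hsat (p : ℤ) a fun γ => ?_
      have := hdiv γ
      simpa [Finset.sum_apply, cf] using this
    have hsingle : ∀ j, φ (Pi.single j 1) = K.κ 1 (cf j) := by
      intro j
      show ∑ k, (Pi.single j (1 : ℤ) : Fin r → ℤ) k • K.κ 1 (cf k) = _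
      rw [Finset.sum_eq_single j]
      · rw [Pi.single_eq_same, one_smul]
      · intro k _ hk
        rw [Pi.single_eq_of_ne hk, zero_smul]
      · intro h
        exact absurd (Finset.mem_univ j) h
    have hz : ∑ j, w j ⊗ₜ[ℤ] φ (Pi.single j 1) = 0 := by
      rw [← hzero]
      refine Finset.sum_congr rfl fun j _ => ?_
      rw [hsingle]
    have hdvd := dvd_of_tensor_eq_zero φ (p : ℤ) hker w hz j₀
    rw [Int.cast_natCast] at hdvd
    have hmem : w j₀ ∈ maximalIdeal O := by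
      obtain ⟨b, hb⟩ := hdvd
      rw [hb]
      exact Ideal.mul_mem_right _ _ hpO
    exact (mem_maximalIdeal _).mp hmem hj₀
  · intro ℓ hℓ hℓN hℓS
    simp only [x]
    rw [map_sum, Finset.smul_sum]
    have h1 : ∀ j, (T ⟨ℓ, hℓ⟩).toIntLinearMap.baseChange O (w j ⊗ₜ[ℤ] K.κ (n + 1) (cf j))
        = ∑ k, (w j * ((τ ℓ j k : ℤ) : O)) ⊗ₜ[ℤ] K.κ (n + 1) (cf k) := by
      intro j
      rw [LinearMap.baseChange_tmul, AddMonoidHom.coe_toIntLinearMap,
        K.hecke (n + 1) ⟨ℓ, hℓ⟩ hℓN hℓS _ (hcf j), hheckeFn ℓ hℓ hℓN hℓS j,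
        K.map_sum (n + 1) Finset.univ (fun k => τ ℓ j k • cf k)
          fun k _ => (hcf k).smul (τ ℓ j k), TensorProduct.tmul_sum]
      refine Finset.sum_congr rfl fun k _ => ?_
      rw [K.map_zsmul (n + 1) (hcf k), TensorProduct.tmul_smul, TensorProduct.smul_tmul',
        zsmul_eq_mul, mul_comm]
    rw [Finset.sum_congr rfl fun j _ => h1 j, Finset.sum_comm]
    refine Finset.sum_congr rfl fun k _ => ?_
    rw [← TensorProduct.sum_tmul, heig ℓ hℓ hℓN hℓS k, TensorProduct.smul_tmul', smul_eq_mul]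

end Main

end Fermat.Agent.S30.H709

end
end
-- ===== PACK-END S30/H709/OccJ.lean

-- ===== PACK-BEGIN S30/H709/ParEigen.lean
section




/-!
# S30-OCC, unconditional: the eigensystem `χ` occurs in the parabolic cohomology `H¹_par(Γ₀(N), O)`

* `periodHecke_facCoh` : the hypothesis `PeriodHecke` holds for the factorisation of `DefsM.lean`
  (`heckeFac`), by helper201's E2a (`H201.periodMap_heckeTLin`) and helper391's bridge
  (`M4aTop_heckeCoh_eq_sum_trf`).
* `exists_parEigen` : for every domain `O` (any characteristic) and every ring homomorphism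
  `χ : heckeAlgebra N 2 S →+* O` (`S` containing the primes dividing `N`) there is a nonzero
  parabolic character `c : Γ₀(N) → O` (`S29.IsParHom`) with `heckeCoh N ℓ c = χ (T_ℓ) • c` for all
  primes `ℓ ∉ S`.  This is the statement `(P) ParEigenStatement` of the adic module layer
  (helper330 `AdicDefs.lean`), unfolded.
* `exists_adic_eigen_lattice_coh`, `exists_occ_tensor_coh` : the lattice form and the transport to
  `O ⊗ J`, with `PeriodHecke` discharged.
-/

set_option autoImplicit false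

noncomputable section

namespace Fermat.Agent.S30.H709

open CongruenceSubgroup ModularCurve ModularCurve.Period TensorProduct IsLocalRing
open Fermat.Agent.S29
open scoped MatrixGroups

variable (N : ℕ) [NeZero N]

/-- The multiset `{γ'ᵢ}` of `DefsM.heckeFac`: `αᵢ γ = γ'ᵢ α_{π i}`. -/
def facCoh (ℓ : ℕ) (γ : Gamma0 N) : Multiset (Gamma0 N) :=
  (Finset.univ : Finset (Option (Fin ℓ))).val.map fun i => (heckeFac N ℓ γ i).2

omit [NeZero N] in
theorem sum_map_facCoh {A : Type*} [AddCommMonoid A] (ℓ : ℕ) (c : Gamma0 N → A) (γ : Gamma0 N) :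
    ((facCoh N ℓ γ).map c).sum = heckeCoh N ℓ c γ := by
  rw [facCoh, Multiset.map_map]
  rfl

omit [NeZero N] in
/-- **`PeriodHecke` holds** for the factorisation `heckeFac` of `DefsM.lean`. -/
theorem periodHecke_facCoh : PeriodHecke N (facCoh N) := by
  intro ℓ hℓ hℓN f γ
  have : Fact ℓ.Prime := ⟨hℓ⟩
  rw [sum_map_facCoh N ℓ (fun δ => periodMap N f (Additive.ofMul δ)) γ,
    M4aTop_heckeCoh_eq_sum_trf hℓN, Fermat.Agent.S29.H201.periodMap_heckeTLin hℓ hℓN f,
    Fermat.Agent.S29.H201.heckeHom_apply]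

variable {N}

/-- Period classes of elements of finite order vanish. -/
theorem perCls_eq_zero_of_pow {γ : Gamma0 N} {n : ℕ} (hn : 0 < n) (hγ : γ ^ n = 1) :
    perCls N γ = 0 := by
  have hpow : ∀ k : ℕ, perCls N (γ ^ k) = k • perCls N γ := by
    intro k
    induction k with
    | zero => rw [pow_zero, perCls_one, zero_smul]
    | succ k ih => rw [pow_succ, perCls_mul, ih, succ_nsmul]
  have h := hpow n
  rw [hγ, perCls_one] at h
  have h2 : (n : ℤ) • perCls N γ = 0 := by rw [natCast_zsmul]; exact h.symm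
  rcases smul_eq_zero.mp h2 with h3 | h3
  · exact absurd h3 (by exact_mod_cast hn.ne')
  · exact h3

/-- **(P)** The eigensystem `χ` occurs in the parabolic cohomology of `Γ₀(N)` with coefficients
in `O` (any domain). -/
theorem exists_parEigen {S : Set ℕ} (hNS : ∀ q : ℕ, q.Prime → q ∣ N → q ∈ S)
    {O : Type*} [CommRing O] [IsDomain O] (χ : CuspForm.heckeAlgebra N 2 S →+* O) :
    ∃ c : G0 N → O, IsParHom c ∧ c ≠ 0 ∧
      ∀ (ℓ : ℕ) (hℓ : ℓ.Prime) (hℓN : ¬ ℓ ∣ N) (hℓS : ℓ ∉ S) (γ : G0 N),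
        heckeCoh N ℓ c γ = χ (CuspForm.heckeAlgebra.T hℓ hℓN hℓS) * c γ := by
  classical
  have hPH := periodHecke_facCoh N
  let b := Module.finBasis ℤ (perLattice N)
  obtain ⟨w, hw0, hw⟩ := exists_eigen_coeffs (perRho hPH hNS) (perRho_injective hPH hNS) b χ
  -- the `χ`-semilinear functional on the period lattice
  let u : perLattice N →+ O :=
    { toFun := fun x => ∑ j, w j * ((b.repr x j : ℤ) : O)
      map_zero' := by simp
      map_add' := fun x y => by
        simp only [map_add, Finsupp.coe_add, Pi.add_apply, Int.cast_add, mul_add,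
          Finset.sum_add_distrib] }
  have hu : ∀ x, u x = ∑ j, w j * ((b.repr x j : ℤ) : O) := fun _ => rfl
  have hub : ∀ k, u (b k) = w k := by
    intro k
    rw [hu, Finset.sum_eq_single k]
    · rw [Module.Basis.repr_self, Finsupp.single_eq_same, Int.cast_one, mul_one]
    · intro j _ hj
      rw [Module.Basis.repr_self, Finsupp.single_eq_of_ne hj, Int.cast_zero, mul_zero]
    · intro h
      exact absurd (Finset.mem_univ k) h
  have hsemi : ∀ (t : CuspForm.heckeAlgebra N 2 S) (x : perLattice N),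
      u (perRho hPH hNS t x) = χ t * u x := by
    intro t x
    conv_lhs => rw [← b.sum_repr x]
    conv_rhs => rw [← b.sum_repr x]
    rw [map_sum, map_sum, map_sum, Finset.mul_sum]
    refine Finset.sum_congr rfl fun k _ => ?_
    rw [map_zsmul, map_zsmul, map_zsmul, hub, zsmul_eq_mul, zsmul_eq_mul, hu, hw t k]
    ring
  refine ⟨fun γ => u (perCls N γ), ⟨?_, ?_, ?_⟩, ?_, ?_⟩
  · intro γ γ'
    show u (perCls N (γ * γ')) = _
    rw [perCls_mul, map_add]
  · intro γ hγ
    have htr : ((γ : SL(2, ℤ)) : Matrix (Fin 2) (Fin 2) ℤ).trace ^ 2 = 4 := by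
      rcases hγ with h | h
      · have : ((γ : SL(2, ℤ)) : Matrix (Fin 2) (Fin 2) ℤ).trace = 2 := h
        rw [this]; norm_num
      · have : ((γ : SL(2, ℤ)) : Matrix (Fin 2) (Fin 2) ℤ).trace = -2 := h
        rw [this]; norm_num
    show u (perCls N γ) = 0
    rw [perCls_eq_zero_of_trace γ htr, map_zero]
  · intro γ n hn hγ
    show u (perCls N γ) = 0
    rw [perCls_eq_zero_of_pow hn hγ, map_zero]
  · intro hc
    apply hw0
    have hvan : ∀ x : perLattice N, u x = 0 := by
      intro x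
      induction x using perCls_induction with
      | h0 => exact map_zero u
      | hadd x y hx hy => rw [map_add, hx, hy, add_zero]
      | hneg x hx => rw [map_neg, hx, neg_zero]
      | hcls γ => exact congrFun hc γ
    funext k
    rw [← hub k, hvan]
    rfl
  · intro ℓ hℓ hℓN hℓS γ
    rw [← sum_map_facCoh N ℓ (fun γ => u (perCls N γ)) γ]
    have h1 : ((facCoh N ℓ γ).map fun δ => u (perCls N δ)).sum
        = u (((facCoh N ℓ γ).map (perCls N)).sum) := by
      rw [map_multiset_sum, Multiset.map_map]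
      rfl
    rw [h1, ← perRho_perCls hPH hNS hℓ hℓN hℓS γ, hsemi]

end Fermat.Agent.S30.H709

end
end
-- ===== PACK-END S30/H709/ParEigen.lean

-- ===== PACK-BEGIN S37/H99/Formal.lean
section



/-!
# S37 (helper99): formal reduction R1

`SpecializationExists N p J` follows from the existence, for every prime `ℓ ∤ N * p` and every
valuation subring `A` over `ℓ`, of an additive "reduction map" `red : J →+ Y` (into ANY additive
group, no Hecke structure on `Y`) with four pointwise properties.  The quotient `J'`, the map `sp`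
and the Frobenius `F` of `IsSpecialization` are then constructed formally.
-/

set_option autoImplicit false

noncomputable section

namespace Fermat.Agent.S37.H99

open ModularCurve ValuationSubring

section Abstract

variable {K L : Type*} [Field K] [Field L] [Algebra K L]
variable (p : ℕ) (J : Type) [AddCommGroup J] [Module HeckeAlg J]
  [DistribMulAction (L ≃ₐ[K] L) J] [SMulCommClass (L ≃ₐ[K] L) HeckeAlg J]

/-- The four pointwise properties of a reduction map at `(A, ℓ)`. -/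
structure IsRed (A : ValuationSubring L) (ℓ : ℕ) (hℓ : ℓ.Prime) {Y : Type*} [AddCommGroup Y]
    (red : J →+ Y) : Prop where
  inertia : ∀ τ ∈ A.inertiaSubgroupIn K, ∀ x : J, red (τ • x) = red x
  frob_ker : ∀ σ : L ≃ₐ[K] L, A.IsFrobeniusAt σ ℓ → ∀ x : J, red x = 0 → red (σ • x) = 0
  inj_torsion : ∀ x : J, (∃ n : ℕ, p ^ n • x = 0) → red x = 0 → x = 0
  relation : ∀ σ : L ≃ₐ[K] L, A.IsFrobeniusAt σ ℓ → ∀ x : J,
    red (σ • σ • x - heckeGen ⟨ℓ, hℓ⟩ • (σ • x) + ℓ • x) = 0

variable {p J}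

/-- The largest Hecke submodule contained in the kernel of `red`. -/
def redKer {Y : Type*} [AddCommGroup Y] (red : J →+ Y) : Submodule HeckeAlg J where
  carrier := {x | ∀ t : HeckeAlg, red (t • x) = 0}
  zero_mem' := fun t => by simp
  add_mem' := by
    intro x y hx hy t
    rw [smul_add, map_add, hx t, hy t, add_zero]
  smul_mem' := by
    intro c x hx t
    rw [← mul_smul]
    exact hx (t * c)

theorem mem_redKer {Y : Type*} [AddCommGroup Y] (red : J →+ Y) (x : J) :
    x ∈ redKer red ↔ ∀ t : HeckeAlg, red (t • x) = 0 := Iff.rfl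

/-- two Frobenius elements at `A` differ by inertia -/
theorem inv_mul_mem_inertiaSubgroupIn {A : ValuationSubring L} {ℓ : ℕ} {σ₀ σ : L ≃ₐ[K] L}
    (h₀ : A.IsFrobeniusAt σ₀ ℓ) (h : A.IsFrobeniusAt σ ℓ) :
    σ₀⁻¹ * σ ∈ A.inertiaSubgroupIn K := by
  have hσ₀ := h₀.mem_decompositionSubgroup
  have hσ := h.mem_decompositionSubgroup
  let d₀ : A.decompositionSubgroup K := ⟨σ₀, hσ₀⟩
  let d : A.decompositionSubgroup K := ⟨σ, hσ⟩
  refine ⟨d₀⁻¹ * d, ?_, rfl⟩
  refine MonoidHom.mem_ker.mpr ?_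
  ext x
  show (d₀⁻¹ * d) • x = x
  rw [mul_smul]
  have h1 : d • x = x ^ ℓ := h.smul_residue_eq x
  have h2 : d₀ • x = x ^ ℓ := h₀.smul_residue_eq x
  rw [h1, ← h2, inv_smul_smul]

variable (p) in
/-- **R1 at one place.** -/
theorem exists_specialization_of_isRed (A : ValuationSubring L) (ℓ : ℕ) (hℓ : ℓ.Prime)
    (hfrob : ∃ σ₀ : L ≃ₐ[K] L, A.IsFrobeniusAt σ₀ ℓ)
    {Y : Type*} [AddCommGroup Y] (red : J →+ Y) (hred : IsRed (K := K) p J A ℓ hℓ red) :
    ∃ (J' : Type) (_ : AddCommGroup J') (_ : Module HeckeAlg J') (sp : J →+ J')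
      (F : J' →+ J'),
      IsSpecialization (K := K) p J J' A ℓ sp F ∧ SpecialFibreRelation J' ℓ hℓ F := by
  obtain ⟨σ₀, hσ₀⟩ := hfrob
  let M : Submodule HeckeAlg J := redKer red
  -- commutation of Galois with Hecke
  have hcomm : ∀ (g : L ≃ₐ[K] L) (t : HeckeAlg) (x : J), t • (g • x) = g • (t • x) :=
    fun g t x => (smul_comm g t x).symm
  -- Frobenius elements preserve `M`
  have hFM : ∀ σ : L ≃ₐ[K] L, A.IsFrobeniusAt σ ℓ → ∀ x ∈ M, σ • x ∈ M := by
    intro σ hσ x hx t
    rw [hcomm]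
    exact hred.frob_ker σ hσ _ (hx t)
  -- inertia acts trivially modulo `M`
  have hIM : ∀ τ ∈ A.inertiaSubgroupIn K, ∀ x : J, τ • x - x ∈ M := by
    intro τ hτ x t
    rw [smul_sub, map_sub, hcomm, hred.inertia τ hτ, sub_self]
  -- the additive endomorphism `x ↦ σ₀ • x` of `J`
  let φ : J →+ J := DistribSMul.toAddMonoidHom J σ₀
  have hφ : ∀ x, φ x = σ₀ • x := fun _ => rfl
  -- the induced map on the quotient
  let F : (J ⧸ M) →+ (J ⧸ M) :=
    QuotientAddGroup.map M.toAddSubgroup M.toAddSubgroup φ (by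
      intro x hx
      exact hFM σ₀ hσ₀ x hx)
  have hF : ∀ x : J, F (Submodule.Quotient.mk x) = Submodule.Quotient.mk (σ₀ • x) := fun _ => rfl
  let sp : J →+ (J ⧸ M) := (Submodule.mkQ M).toAddMonoidHom
  have hsp : ∀ x : J, sp x = Submodule.Quotient.mk x := fun _ => rfl
  refine ⟨J ⧸ M, inferInstance, inferInstance, sp, F, ⟨?_, ?_, ?_, ?_⟩, ?_⟩
  · -- hecke_comm
    intro T x
    rfl
  · -- inertia_comm
    intro τ hτ x
    rw [hsp, hsp, Submodule.Quotient.eq]
    exact hIM τ hτ x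
  · -- frobenius_comm
    intro σ hσ x
    rw [hsp, hsp, hF, Submodule.Quotient.eq]
    have hτ := inv_mul_mem_inertiaSubgroupIn hσ₀ hσ
    have h1 : σ • x - σ₀ • x = σ₀ • ((σ₀⁻¹ * σ) • x - x) := by
      rw [smul_sub, ← mul_smul, mul_inv_cancel_left]
    rw [h1]
    exact hFM σ₀ hσ₀ _ (hIM _ hτ x)
  · -- injective_torsion
    intro x hx hx0
    rw [hsp, Submodule.Quotient.mk_eq_zero] at hx0
    have := hx0 1
    rw [one_smul] at this
    exact hred.inj_torsion x hx this
  · -- special fibre relation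
    intro y
    obtain ⟨x, rfl⟩ := Submodule.Quotient.mk_surjective M y
    rw [hF, hF]
    have h2 : (Submodule.Quotient.mk (σ₀ • σ₀ • x) : J ⧸ M)
        - heckeGen ⟨ℓ, hℓ⟩ • (Submodule.Quotient.mk (σ₀ • x) : J ⧸ M)
        + ℓ • (Submodule.Quotient.mk x : J ⧸ M)
        = Submodule.Quotient.mk (σ₀ • σ₀ • x - heckeGen ⟨ℓ, hℓ⟩ • (σ₀ • x) + ℓ • x) := by
      rfl
    rw [h2, Submodule.Quotient.mk_eq_zero]
    intro t
    have h3 : t • (σ₀ • σ₀ • x - heckeGen ⟨ℓ, hℓ⟩ • (σ₀ • x) + ℓ • x)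
        = σ₀ • σ₀ • (t • x) - heckeGen ⟨ℓ, hℓ⟩ • (σ₀ • (t • x)) + ℓ • (t • x) := by
      rw [smul_add, smul_sub, hcomm, hcomm, smul_comm t (heckeGen ⟨ℓ, hℓ⟩), hcomm,
        smul_comm t ℓ]
    rw [h3]
    exact hred.relation σ₀ hσ₀ (t • x)

end Abstract

section Rat

variable (N p : ℕ) (J : Type) [AddCommGroup J] [Module HeckeAlg J]
  [DistribMulAction (AlgebraicClosure ℚ ≃ₐ[ℚ] AlgebraicClosure ℚ) J]
  [SMulCommClass (AlgebraicClosure ℚ ≃ₐ[ℚ] AlgebraicClosure ℚ) HeckeAlg J]

/-- **R1.**  Over `ℚ`, `SpecializationExists` follows from the existence of reduction maps. -/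
theorem specializationExists_of_isRed
    (H : ∀ ℓ : ℕ, (hℓ : ℓ.Prime) → ¬ ℓ ∣ N * p →
      ∀ A : ValuationSubring (AlgebraicClosure ℚ), A.LiesOverPrime ℓ →
        ∃ (Y : Type) (_ : AddCommGroup Y) (red : J →+ Y),
          IsRed (K := ℚ) p J A ℓ hℓ red) :
    SpecializationExists (K := ℚ) (L := AlgebraicClosure ℚ) N p J := by
  intro ℓ hℓ hdvd A hA
  obtain ⟨Y, _, red, hred⟩ := H ℓ hℓ hdvd A hA
  exact exists_specialization_of_isRed p A ℓ hℓ (exists_isFrobeniusAt ℓ hℓ A hA) red hred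

end Rat

end Fermat.Agent.S37.H99

end
end
-- ===== PACK-END S37/H99/Formal.lean

-- ===== PACK-BEGIN S37/Core/Weak.lean
section


/-!
# S37 row (helper37): weak reduction data suffice

`IsWeakRed` drops the field `frob_ker` of `Fermat.Agent.S37.H99.IsRed` and asks for the
Eichler-Shimura relation at ONE Frobenius element `σ₀` only.  From a weak reduction map `red`
we build `red' x = (n ↦ red (σ₀ ^ n • x))`, which satisfies all four fields of `IsRed`.
Consequently the geometric part of S37 never has to talk about a Frobenius action on the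
special fibre.
-/

set_option autoImplicit false

noncomputable section

namespace Fermat.Agent.S37.Core

open ModularCurve ValuationSubring Fermat.Agent.S37.H99

section Abstract

variable {K L : Type*} [Field K] [Field L] [Algebra K L]
variable (p : ℕ) (J : Type) [AddCommGroup J] [Module HeckeAlg J]
  [DistribMulAction (L ≃ₐ[K] L) J] [SMulCommClass (L ≃ₐ[K] L) HeckeAlg J]

/-- Weak reduction data at `(A, ℓ)` relative to ONE Frobenius element `σ₀`. -/
structure IsWeakRed (A : ValuationSubring L) (ℓ : ℕ) (hℓ : ℓ.Prime) (σ₀ : L ≃ₐ[K] L)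
    {Y : Type*} [AddCommGroup Y] (red : J →+ Y) : Prop where
  frob : A.IsFrobeniusAt σ₀ ℓ
  inertia : ∀ τ ∈ A.inertiaSubgroupIn K, ∀ x : J, red (τ • x) = red x
  inj_torsion : ∀ x : J, (∃ n : ℕ, p ^ n • x = 0) → red x = 0 → x = 0
  relation : ∀ x : J, red (σ₀ • σ₀ • x - heckeGen ⟨ℓ, hℓ⟩ • (σ₀ • x) + ℓ • x) = 0

variable {p J}

/-- the inertia subgroup is stable under conjugation by the decomposition group -/
theorem conj_mem_inertiaSubgroupIn {A : ValuationSubring L} {g τ : L ≃ₐ[K] L}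
    (hg : g ∈ A.decompositionSubgroup K) (hτ : τ ∈ A.inertiaSubgroupIn K) :
    g * τ * g⁻¹ ∈ A.inertiaSubgroupIn K := by
  obtain ⟨t, ht, rfl⟩ := hτ
  let d : A.decompositionSubgroup K := ⟨g, hg⟩
  haveI : (A.inertiaSubgroup K).Normal := MonoidHom.normal_ker _
  refine ⟨d * t * d⁻¹, Subgroup.Normal.conj_mem ‹_› t ht d, rfl⟩

/-- `red' x = (n ↦ red (σ₀ ^ n • x))` -/
def iterRed (σ₀ : L ≃ₐ[K] L) {Y : Type*} [AddCommGroup Y] (red : J →+ Y) : J →+ (ℕ → Y) where
  toFun x n := red (σ₀ ^ n • x)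
  map_zero' := by
    funext n
    simp
  map_add' x y := by
    funext n
    simp [smul_add]

@[simp] theorem iterRed_apply (σ₀ : L ≃ₐ[K] L) {Y : Type*} [AddCommGroup Y] (red : J →+ Y)
    (x : J) (n : ℕ) : iterRed σ₀ red x n = red (σ₀ ^ n • x) := rfl

theorem IsWeakRed.red_pow_smul_inertia {A : ValuationSubring L} {ℓ : ℕ} {hℓ : ℓ.Prime}
    {σ₀ : L ≃ₐ[K] L} {Y : Type*} [AddCommGroup Y] {red : J →+ Y}
    (h : IsWeakRed (K := K) p J A ℓ hℓ σ₀ red) (n : ℕ) {τ : L ≃ₐ[K] L}
    (hτ : τ ∈ A.inertiaSubgroupIn K) (x : J) :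
    red (σ₀ ^ n • τ • x) = red (σ₀ ^ n • x) := by
  have hg : σ₀ ^ n ∈ A.decompositionSubgroup K :=
    pow_mem h.frob.mem_decompositionSubgroup n
  have hconj := conj_mem_inertiaSubgroupIn hg hτ
  have e : σ₀ ^ n • τ • x = (σ₀ ^ n * τ * (σ₀ ^ n)⁻¹) • (σ₀ ^ n • x) := by
    rw [← mul_smul, ← mul_smul, inv_mul_cancel_right]
  rw [e, h.inertia _ hconj]

theorem IsWeakRed.red_pow_smul_frob {A : ValuationSubring L} {ℓ : ℕ} {hℓ : ℓ.Prime}
    {σ₀ : L ≃ₐ[K] L} {Y : Type*} [AddCommGroup Y] {red : J →+ Y}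
    (h : IsWeakRed (K := K) p J A ℓ hℓ σ₀ red) (n : ℕ) {σ : L ≃ₐ[K] L}
    (hσ : A.IsFrobeniusAt σ ℓ) (x : J) :
    red (σ₀ ^ n • σ • x) = red (σ₀ ^ (n + 1) • x) := by
  have hτ := inv_mul_mem_inertiaSubgroupIn h.frob hσ
  have e : σ₀ ^ n • σ • x = σ₀ ^ (n + 1) • (σ₀⁻¹ * σ) • x := by
    rw [← mul_smul, ← mul_smul, pow_succ, mul_assoc, mul_inv_cancel_left]
  rw [e, h.red_pow_smul_inertia (n + 1) hτ]

/-- **Weak reduction data suffice.** -/
theorem IsWeakRed.isRed_iterRed {A : ValuationSubring L} {ℓ : ℕ} {hℓ : ℓ.Prime}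
    {σ₀ : L ≃ₐ[K] L} {Y : Type*} [AddCommGroup Y] {red : J →+ Y}
    (h : IsWeakRed (K := K) p J A ℓ hℓ σ₀ red) :
    IsRed (K := K) p J A ℓ hℓ (iterRed σ₀ red) where
  inertia τ hτ x := by
    funext n
    exact h.red_pow_smul_inertia n hτ x
  frob_ker σ hσ x hx := by
    funext n
    rw [iterRed_apply, h.red_pow_smul_frob n hσ]
    exact congrFun hx (n + 1)
  inj_torsion x hx hx0 := by
    refine h.inj_torsion x hx ?_
    have := congrFun hx0 0
    simpa using this
  relation σ hσ x := by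
    funext n
    have hgal : ∀ (g : L ≃ₐ[K] L) (t : HeckeAlg) (y : J), t • (g • y) = g • (t • y) :=
      fun g t y => (smul_comm g t y).symm
    have e2 : σ₀ • σ₀ • (σ₀ ^ n • x) = σ₀ ^ (n + 1 + 1) • x := by
      rw [smul_smul, smul_smul, pow_succ' σ₀ (n + 1), pow_succ' σ₀ n, mul_assoc]
    have e1 : σ₀ • (σ₀ ^ n • x) = σ₀ ^ (n + 1) • x := by
      rw [smul_smul, pow_succ' σ₀ n]
    have h1 : red (σ₀ ^ n • σ • σ • x) = red (σ₀ • σ₀ • (σ₀ ^ n • x)) := by
      rw [e2, h.red_pow_smul_frob n hσ (σ • x), h.red_pow_smul_frob (n + 1) hσ x]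
    have h2 : red (σ₀ ^ n • (heckeGen ⟨ℓ, hℓ⟩ • (σ • x))) =
        red (heckeGen ⟨ℓ, hℓ⟩ • (σ₀ • (σ₀ ^ n • x))) := by
      rw [e1, hgal σ (heckeGen ⟨ℓ, hℓ⟩) x, h.red_pow_smul_frob n hσ (heckeGen ⟨ℓ, hℓ⟩ • x),
        hgal (σ₀ ^ (n + 1)) (heckeGen ⟨ℓ, hℓ⟩) x]
    have h3 : red (σ₀ ^ n • ((ℓ : ℕ) • x)) = red ((ℓ : ℕ) • (σ₀ ^ n • x)) := by
      rw [smul_comm]
    have := h.relation (σ₀ ^ n • x)
    rw [map_add, map_sub] at this
    show red (σ₀ ^ n • (σ • σ • x - heckeGen ⟨ℓ, hℓ⟩ • (σ • x) + ℓ • x)) = 0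
    rw [smul_add, smul_sub, map_add, map_sub, h1, h2, h3]
    exact this

variable (p) in
/-- **R1 at one place, weak form.** -/
theorem exists_specialization_of_isWeakRed (A : ValuationSubring L) (ℓ : ℕ) (hℓ : ℓ.Prime)
    (σ₀ : L ≃ₐ[K] L) {Y : Type*} [AddCommGroup Y] (red : J →+ Y)
    (hred : IsWeakRed (K := K) p J A ℓ hℓ σ₀ red) :
    ∃ (J' : Type) (_ : AddCommGroup J') (_ : Module HeckeAlg J') (sp : J →+ J')
      (F : J' →+ J'),
      IsSpecialization (K := K) p J J' A ℓ sp F ∧ SpecialFibreRelation J' ℓ hℓ F :=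
  exists_specialization_of_isRed p A ℓ hℓ ⟨σ₀, hred.frob⟩ (iterRed σ₀ red) hred.isRed_iterRed

end Abstract

end Fermat.Agent.S37.Core

end
end
-- ===== PACK-END S37/Core/Weak.lean

-- ===== PACK-BEGIN S37/Core/PlaceRed.lean
section



/-!
# S37 row (helper37): from a place reduction map to the frozen statement

`PlaceRed N A ℓ σ₀` is the geometric datum to be constructed by the row:
a map `r` from the places of `ℚ̄(X₀(N))` to the places of the function field of the special
fibre such that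
* `isRed`, `gen` : `r` witnesses `ReductionInputsModL A N` (Prelude);
* `inertia` : `r (τ • P) = r P` for `τ` in the inertia group at `A`;
* `es` : Eichler-Shimura on divisors, `r_* (T_ℓ P) = r (σ₀ P) + ℓ · r (σ₀⁻¹ P)`.

`specialization_of_placeRed` turns it (together with `HeckeInputsAlong` and the conclusion of
the frozen statement S18, both taken as hypotheses) into the conclusion of S37 at `(ℓ, A)`.
Everything here is fully proved.
-/

set_option autoImplicit false
set_option synthInstance.maxHeartbeats 400000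

noncomputable section

namespace Fermat.Agent.S37.Core

open ModularCurve ValuationSubring AlgebraicCurve HahnSeries

/-- the conclusion of the frozen statement S18 at `(N, ℓ, A)` -/
def InjTorsionModL (N : ℕ) [NeZero N] (ℓ : ℕ) (A : ValuationSubring (AlgebraicClosure ℚ)) :
    Prop :=
  ∀ (_ : ReductionInputsModL A N) (m : ℕ), ¬ ℓ ∣ m → ∀ z : JZero N, m • z = 0 →
    reductionModL A N z = 0 → z = 0

/-- The geometric datum: a place reduction map with inertia invariance and the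
Eichler-Shimura congruence on divisors, relative to one Frobenius element `σ₀`. -/
structure PlaceRed (N : ℕ) [NeZero N] (A : ValuationSubring (AlgebraicClosure ℚ)) (ℓ : ℕ)
    [NeZero ℓ] (σ₀ : AlgebraicClosure ℚ ≃ₐ[ℚ] AlgebraicClosure ℚ) : Type where
  /-- the reduction map on places -/
  r : Place (AlgebraicClosure ℚ) (modularFunctionFieldBar N) →
    Place (IsLocalRing.ResidueField A) (modularFunctionFieldFullC (IsLocalRing.ResidueField A) N)
  isRed : IsPlaceReductionModL A N r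
  gen : PrincipalGeneratedByIntegral A (IsLocalRing.residue A) N
  inertia : ∀ τ ∈ A.inertiaSubgroupIn ℚ,
    ∀ P : Place (AlgebraicClosure ℚ) (modularFunctionFieldBar N),
      r (arithmeticGalois (modularFunctionFieldFull N) τ • P) = r P
  es : ∀ (hα : HeckeAlphaBarIntegral (AlgebraicClosure ℚ) N ℓ)
    (hβ : HeckeBetaBarIntegral (AlgebraicClosure ℚ) N ℓ)
    [HasPrincipalDivisors (AlgebraicClosure ℚ) (modularFunctionFieldBar (N * ℓ))]
    (P : Place (AlgebraicClosure ℚ) (modularFunctionFieldBar N)),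
    Finsupp.mapDomain r (heckeDivBar hα hβ (Finsupp.single P 1)) =
      Finsupp.single (r (arithmeticGalois (modularFunctionFieldFull N) σ₀ • P)) 1 +
        Finsupp.single (r ((arithmeticGalois (modularFunctionFieldFull N) σ₀)⁻¹ • P)) (ℓ : ℤ)

section Torsion

variable {L : Type*} [Field L] [Algebra ℚ L] {A : ValuationSubring L}
variable {k : Type*} [Field k] {π : A →+* k} {N : ℕ}

/-- two place reductions agree on principal divisors -/
theorem mapDomain_eq_of_mem_principal
    {r₁ r₂ : Place L (laurentBaseChange L (modularFunctionFieldFull N)) →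
      Place k (modularFunctionFieldFullC k N)}
    (h₁ : IsPlaceReductionAlong A π N r₁) (h₂ : IsPlaceReductionAlong A π N r₂)
    (hgen : PrincipalGeneratedByIntegral A π N)
    {D : Divisor L (laurentBaseChange L (modularFunctionFieldFull N))}
    (hD : D ∈ Divisor.principal (K := L) (F := laurentBaseChange L (modularFunctionFieldFull N))) :
    Finsupp.mapDomain r₁ D = Finsupp.mapDomain r₂ D := by
  have hD' := hgen hD
  clear hD
  induction hD' using AddSubgroup.closure_induction with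
  | mem E hE =>
    obtain ⟨y, hy, hyk, hne, hDy⟩ := hE
    ext Q
    rw [h₁.2 y hy hyk hne E hDy Q, h₂.2 y hy hyk hne E hDy Q]
  | zero => rw [Finsupp.mapDomain_zero, Finsupp.mapDomain_zero]
  | add E E' _ _ hE hE' => rw [Finsupp.mapDomain_add, Finsupp.mapDomain_add, hE, hE']
  | neg E _ hE =>
    rw [← Finsupp.mapDomain.addMonoidHom_apply, ← Finsupp.mapDomain.addMonoidHom_apply, map_neg,
      map_neg, Finsupp.mapDomain.addMonoidHom_apply, Finsupp.mapDomain.addMonoidHom_apply, hE]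

/-- two place reductions agree on divisors some nonzero multiple of which is principal -/
theorem mapDomain_eq_of_nsmul_mem_principal
    {r₁ r₂ : Place L (laurentBaseChange L (modularFunctionFieldFull N)) →
      Place k (modularFunctionFieldFullC k N)}
    (h₁ : IsPlaceReductionAlong A π N r₁) (h₂ : IsPlaceReductionAlong A π N r₂)
    (hgen : PrincipalGeneratedByIntegral A π N)
    {D : Divisor L (laurentBaseChange L (modularFunctionFieldFull N))} {m : ℕ} (hm : m ≠ 0)
    (hD : m • D ∈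
      Divisor.principal (K := L) (F := laurentBaseChange L (modularFunctionFieldFull N))) :
    Finsupp.mapDomain r₁ D = Finsupp.mapDomain r₂ D := by
  have h := mapDomain_eq_of_mem_principal h₁ h₂ hgen hD
  rw [← Finsupp.mapDomain.addMonoidHom_apply, ← Finsupp.mapDomain.addMonoidHom_apply,
    map_nsmul, map_nsmul, Finsupp.mapDomain.addMonoidHom_apply,
    Finsupp.mapDomain.addMonoidHom_apply] at h
  ext Q
  have hQ := DFunLike.congr_fun h Q
  rw [Finsupp.smul_apply, Finsupp.smul_apply, nsmul_eq_mul, nsmul_eq_mul] at hQ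
  exact mul_left_cancel₀ (Nat.cast_ne_zero.mpr hm) hQ

/-- on torsion classes the reduction map does not depend on the place reduction -/
theorem reductionPic0Along_eq_of_nsmul_eq_zero
    {r₁ r₂ : Place L (laurentBaseChange L (modularFunctionFieldFull N)) →
      Place k (modularFunctionFieldFullC k N)}
    (h₁ : IsPlaceReductionAlong A π N r₁) (h₂ : IsPlaceReductionAlong A π N r₂)
    (hgen : PrincipalGeneratedByIntegral A π N) {m : ℕ} (hm : m ≠ 0)
    {x : Pic0 L (laurentBaseChange L (modularFunctionFieldFull N))} (hx : m • x = 0) :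
    reductionPic0Along r₁ h₁ hgen x = reductionPic0Along r₂ h₂ hgen x := by
  obtain ⟨D, rfl⟩ := Pic0.mk_surjective x
  rw [reductionPic0Along_mk, reductionPic0Along_mk]
  congr 1
  apply Subtype.ext
  rw [coe_reductionDegZeroAlong, coe_reductionDegZeroAlong]
  refine mapDomain_eq_of_nsmul_mem_principal h₁ h₂ hgen hm ?_
  have h0 : (m • D : Divisor.degZero (K := L)
      (F := laurentBaseChange L (modularFunctionFieldFull N))) ∈
      (Divisor.principal (K := L)
        (F := laurentBaseChange L (modularFunctionFieldFull N))).addSubgroupOf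
        (Divisor.degZero (K := L) (F := laurentBaseChange L (modularFunctionFieldFull N))) := by
    rw [← QuotientAddGroup.eq_zero_iff]
    exact hx
  rw [AddSubgroup.mem_addSubgroupOf, AddSubgroupClass.coe_nsmul] at h0
  exact h0

end Torsion

section Main

variable {N : ℕ} [NeZero N] {A : ValuationSubring (AlgebraicClosure ℚ)} {ℓ : ℕ} [NeZero ℓ]
  {σ₀ : AlgebraicClosure ℚ ≃ₐ[ℚ] AlgebraicClosure ℚ}

/-- the reduction map on `J₀(N)` attached to a `PlaceRed` -/
def PlaceRed.red (D : PlaceRed N A ℓ σ₀) : JZero N →+ JZeroC (IsLocalRing.ResidueField A) N :=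
  reductionPic0Along D.r D.isRed D.gen

theorem PlaceRed.red_mk (D : PlaceRed N A ℓ σ₀)
    (E : Divisor.degZero (K := AlgebraicClosure ℚ) (F := modularFunctionFieldBar N)) :
    D.red (Pic0.mk E) = Pic0.mk (reductionDegZeroAlong D.r D.isRed.1 E) := rfl

theorem PlaceRed.reductionInputs (D : PlaceRed N A ℓ σ₀) : ReductionInputsModL A N :=
  ⟨D.r, D.isRed, D.gen⟩

/-- on torsion classes `D.red` is the Prelude reduction map -/
theorem PlaceRed.red_eq_reductionModL (D : PlaceRed N A ℓ σ₀) {m : ℕ} (hm : m ≠ 0)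
    {x : JZero N} (hx : m • x = 0) : D.red x = reductionModL A N x := by
  have h := D.reductionInputs
  show reductionPic0Along D.r D.isRed D.gen x = reductionAlong A (IsLocalRing.residue A) N x
  rw [reductionAlong_eq h]
  exact reductionPic0Along_eq_of_nsmul_eq_zero D.isRed h.choose_spec.1 D.gen hm hx

/-- inertia acts trivially after reduction -/
theorem PlaceRed.red_inertia (D : PlaceRed N A ℓ σ₀)
    {τ : AlgebraicClosure ℚ ≃ₐ[ℚ] AlgebraicClosure ℚ} (hτ : τ ∈ A.inertiaSubgroupIn ℚ)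
    (x : JZero N) : D.red (τ • x) = D.red x := by
  obtain ⟨E, rfl⟩ := Pic0.mk_surjective x
  rw [galois_smul_pic0_def, SemilinearAut.pic0_smul_mk, D.red_mk, D.red_mk]
  congr 1
  apply Subtype.ext
  rw [coe_reductionDegZeroAlong, coe_reductionDegZeroAlong, SemilinearAut.coe_degZeroSMulHom,
    SemilinearAut.divisor_smul_def, ← Finsupp.mapDomain_comp]
  congr 1
  funext P
  exact D.inertia τ hτ P

/-- injectivity on prime-to-`ℓ` torsion, from the conclusion of S18 -/
theorem PlaceRed.red_inj_torsion (D : PlaceRed N A ℓ σ₀) (hS18 : InjTorsionModL N ℓ A)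
    {m : ℕ} (hm : ¬ ℓ ∣ m) {x : JZero N} (hx : m • x = 0) (h0 : D.red x = 0) : x = 0 := by
  have hm0 : m ≠ 0 := fun h => hm (h ▸ dvd_zero ℓ)
  refine hS18 D.reductionInputs m hm x hx ?_
  rw [← D.red_eq_reductionModL hm0 hx]
  exact h0

/-- the Eichler-Shimura relation on divisors -/
theorem PlaceRed.mapDomain_relation (D : PlaceRed N A ℓ σ₀)
    (hα : HeckeAlphaBarIntegral (AlgebraicClosure ℚ) N ℓ)
    (hβ : HeckeBetaBarIntegral (AlgebraicClosure ℚ) N ℓ)
    [HasPrincipalDivisors (AlgebraicClosure ℚ) (modularFunctionFieldBar (N * ℓ))]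
    (E : Divisor (AlgebraicClosure ℚ) (modularFunctionFieldBar N)) :
    Finsupp.mapDomain D.r
      (arithmeticGalois (modularFunctionFieldFull N) σ₀ •
          arithmeticGalois (modularFunctionFieldFull N) σ₀ • E -
        heckeDivBar hα hβ (arithmeticGalois (modularFunctionFieldFull N) σ₀ • E) +
        ℓ • E) = 0 := by
  set g := arithmeticGalois (modularFunctionFieldFull N) σ₀ with hg
  let Ψ : Divisor (AlgebraicClosure ℚ) (modularFunctionFieldBar N) →+
      Divisor (IsLocalRing.ResidueField A)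
        (modularFunctionFieldFullC (IsLocalRing.ResidueField A) N) :=
    (Finsupp.mapDomain.addMonoidHom D.r).comp
      ((DistribSMul.toAddMonoidHom _ g).comp (DistribSMul.toAddMonoidHom _ g) -
        (heckeDivBar hα hβ).comp (DistribSMul.toAddMonoidHom _ g) +
        ℓ • AddMonoidHom.id _)
  have hΨ : Ψ = 0 := by
    refine Finsupp.addHom_ext' fun P => ?_
    refine AddMonoidHom.ext_int ?_
    show Finsupp.mapDomain D.r (g • g • Finsupp.single P 1 -
      heckeDivBar hα hβ (g • Finsupp.single P 1) + ℓ • Finsupp.single P 1) = 0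
    rw [SemilinearAut.smul_single, SemilinearAut.smul_single, Finsupp.mapDomain_add,
      Finsupp.mapDomain_sub, D.es hα hβ (g • P), inv_smul_smul, Finsupp.mapDomain_single,
      Finsupp.smul_single, Finsupp.mapDomain_single, nsmul_eq_mul, mul_one]
    abel
  exact DFunLike.congr_fun hΨ E

end Main

end Fermat.Agent.S37.Core

end
end
-- ===== PACK-END S37/Core/PlaceRed.lean

-- ===== PACK-BEGIN S37/Core/Assemble.lean
section


/-!
# S37 row (helper37): assembly

`result_of_pieces` : the frozen statement S37 from the three top-level pieces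
* `hHIA`  : `HeckeInputsAlong ℚ̄ N ℓ` (so that the Prelude `T_ℓ` is the honest correspondence),
* `hS18`  : the conclusion of the frozen statement S18,
* `hPR`   : a `PlaceRed N A ℓ σ₀` for every Frobenius element `σ₀` at `A`.
Fully proved.
-/

set_option autoImplicit false
set_option synthInstance.maxHeartbeats 400000

noncomputable section

namespace Fermat.Agent.S37.Core

open ModularCurve ValuationSubring AlgebraicCurve HahnSeries Fermat.Agent.S37.H99

section Main

variable {N : ℕ} [NeZero N] {A : ValuationSubring (AlgebraicClosure ℚ)} {ℓ : ℕ} [NeZero ℓ]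
  {σ₀ : AlgebraicClosure ℚ ≃ₐ[ℚ] AlgebraicClosure ℚ}

/-- the Eichler-Shimura relation after reduction -/
theorem PlaceRed.red_relation (D : PlaceRed N A ℓ σ₀)
    (HIA : HeckeInputsAlong (AlgebraicClosure ℚ) N ℓ) (x : JZero N) :
    D.red (σ₀ • σ₀ • x - heckeOperatorAlong (AlgebraicClosure ℚ) N ℓ (σ₀ • x) + ℓ • x) = 0 := by
  obtain ⟨hα, hβ, hP, hfin, hFI, hN⟩ := HIA
  haveI := hP
  rw [heckeOperatorAlong_eq hα hβ hFI hfin hN]
  obtain ⟨E, rfl⟩ := Pic0.mk_surjective x
  set g := arithmeticGalois (modularFunctionFieldFull N) σ₀ with hg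
  have e1 : σ₀ • σ₀ • Pic0.mk E - heckePic0Bar hα hβ hFI hfin hN (σ₀ • Pic0.mk E) + ℓ • Pic0.mk E
      = Pic0.mk (SemilinearAut.degZeroSMulHom g (SemilinearAut.degZeroSMulHom g E) -
          Pic0.degZeroCorrespondence (heckeBetaBar (AlgebraicClosure ℚ) N ℓ)
            (heckeAlphaBar (AlgebraicClosure ℚ) N ℓ) hβ hα hFI (SemilinearAut.degZeroSMulHom g E) +
          ℓ • E) := rfl
  rw [e1, D.red_mk]
  have e2 : reductionDegZeroAlong D.r D.isRed.1
      (SemilinearAut.degZeroSMulHom g (SemilinearAut.degZeroSMulHom g E) -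
          Pic0.degZeroCorrespondence (heckeBetaBar (AlgebraicClosure ℚ) N ℓ)
            (heckeAlphaBar (AlgebraicClosure ℚ) N ℓ) hβ hα hFI (SemilinearAut.degZeroSMulHom g E) +
          ℓ • E) = 0 := by
    apply Subtype.ext
    rw [coe_reductionDegZeroAlong]
    exact D.mapDomain_relation hα hβ (E : Divisor (AlgebraicClosure ℚ) (modularFunctionFieldBar N))
  rw [e2]
  rfl

end Main

/-- **S37 at one place from the pieces.** -/
theorem isWeakRed_of_placeRed (N p : ℕ) [NeZero N] (hcomm : HeckeOperatorsCommuteBar N)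
    (A : ValuationSubring (AlgebraicClosure ℚ)) (ℓ : ℕ) (hℓ : ℓ.Prime) (hℓp : ¬ ℓ ∣ p)
    (σ₀ : AlgebraicClosure ℚ ≃ₐ[ℚ] AlgebraicClosure ℚ) (hσ₀ : A.IsFrobeniusAt σ₀ ℓ)
    (HIA : haveI : NeZero ℓ := ⟨hℓ.ne_zero⟩; HeckeInputsAlong (AlgebraicClosure ℚ) N ℓ)
    (hS18 : InjTorsionModL N ℓ A)
    (D : haveI : NeZero ℓ := ⟨hℓ.ne_zero⟩; PlaceRed N A ℓ σ₀) :
    letI := heckeModuleBar N
    ∀ (_ : SMulCommClass (AlgebraicClosure ℚ ≃ₐ[ℚ] AlgebraicClosure ℚ) HeckeAlg (JZero N)),
      IsWeakRed (K := ℚ) p (JZero N) A ℓ hℓ σ₀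
        (haveI : NeZero ℓ := ⟨hℓ.ne_zero⟩; D.red) := by
  letI := heckeModuleBar N
  haveI : NeZero ℓ := ⟨hℓ.ne_zero⟩
  intro _
  refine ⟨hσ₀, fun τ hτ x => D.red_inertia hτ x, ?_, ?_⟩
  · rintro x ⟨n, hn⟩ hx
    refine D.red_inj_torsion hS18 (m := p ^ n) ?_ hn hx
    exact fun h => hℓp (hℓ.dvd_of_dvd_pow h)
  · intro x
    have h := D.red_relation HIA x
    rw [heckeModuleBar_heckeGen_smul hcomm ⟨ℓ, hℓ⟩ (σ₀ • x)]
    exact h

/-- **S37 from the three top-level pieces.** -/
theorem result_of_pieces (N p : ℕ) [NeZero N]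
    (hHIA : ∀ (ℓ : ℕ) (hℓ : ℓ.Prime), ¬ ℓ ∣ N →
      haveI : NeZero ℓ := ⟨hℓ.ne_zero⟩; HeckeInputsAlong (AlgebraicClosure ℚ) N ℓ)
    (hS18 : ∀ (ℓ : ℕ), ℓ.Prime → ¬ ℓ ∣ N →
      ∀ A : ValuationSubring (AlgebraicClosure ℚ), A.LiesOverPrime ℓ → InjTorsionModL N ℓ A)
    (hPR : ∀ (ℓ : ℕ) (hℓ : ℓ.Prime), ¬ ℓ ∣ N →
      ∀ A : ValuationSubring (AlgebraicClosure ℚ), A.LiesOverPrime ℓ →
        ∀ σ₀ : AlgebraicClosure ℚ ≃ₐ[ℚ] AlgebraicClosure ℚ, A.IsFrobeniusAt σ₀ ℓ →
          haveI : NeZero ℓ := ⟨hℓ.ne_zero⟩; Nonempty (PlaceRed N A ℓ σ₀))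
    (hcomm : ModularCurve.HeckeOperatorsCommuteBar N) :
    letI := ModularCurve.heckeModuleBar N
    ∀ (_ : SMulCommClass (AlgebraicClosure ℚ ≃ₐ[ℚ] AlgebraicClosure ℚ) ModularCurve.HeckeAlg
      (ModularCurve.JZero N)),
      ModularCurve.SpecializationExists (K := ℚ) (L := AlgebraicClosure ℚ) N p
        (ModularCurve.JZero N) := by
  letI := ModularCurve.heckeModuleBar N
  intro inst
  intro ℓ hℓ hdvd A hA
  have hℓN : ¬ ℓ ∣ N := fun h => hdvd (Dvd.dvd.mul_right h p)
  have hℓp : ¬ ℓ ∣ p := fun h => hdvd (Dvd.dvd.mul_left h N)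
  obtain ⟨σ₀, hσ₀⟩ := exists_isFrobeniusAt ℓ hℓ A hA
  haveI : NeZero ℓ := ⟨hℓ.ne_zero⟩
  obtain ⟨D⟩ := hPR ℓ hℓ hℓN A hA σ₀ hσ₀
  exact exists_specialization_of_isWeakRed p A ℓ hℓ σ₀ D.red
    (isWeakRed_of_placeRed N p hcomm A ℓ hℓ hℓp σ₀ hσ₀ (hHIA ℓ hℓ hℓN) (hS18 ℓ hℓ hℓN A hA) D inst)

end Fermat.Agent.S37.Core

end
end
-- ===== PACK-END S37/Core/Assemble.lean

-- ===== PACK-BEGIN S37/H99/Glue.lean
section


/-!
# S37 (helper99): the frozen statement S37 from reduction data (R1, final glue)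

`RedData N A ℓ hℓ` is the ONLY thing left to construct: an additive map `red` from
`JZero N = Pic⁰(ℚ̄(X₀(N)))` to an arbitrary additive group such that
* inertia at `A` acts trivially after `red`,
* Frobenius elements at `A` preserve `ker red`,
* `red` is injective on torsion of order prime to `ℓ`,
* (Eichler–Shimura) `red (σ²x - T_ℓ σ x + ℓ x) = 0` for Frobenius elements `σ` at `A`.
No Hecke-module structure on the target is needed.
-/

set_option autoImplicit false

noncomputable section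

namespace Fermat.Agent.S37.H99

open ModularCurve ValuationSubring

/-- Reduction data for `J₀(N)` at a valuation subring `A` of `ℚ̄` over the prime `ℓ`. -/
structure RedData (N : ℕ) [NeZero N] (A : ValuationSubring (AlgebraicClosure ℚ)) (ℓ : ℕ)
    (hℓ : ℓ.Prime) where
  /-- the target group (e.g. divisor classes on the special fibre) -/
  Y : Type
  /-- additive group structure on the target -/
  instY : AddCommGroup Y
  /-- the reduction map -/
  red : JZero N →+ Y
  inertia : ∀ τ ∈ A.inertiaSubgroupIn ℚ, ∀ x : JZero N, red (τ • x) = red x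
  frob_ker : ∀ σ : AlgebraicClosure ℚ ≃ₐ[ℚ] AlgebraicClosure ℚ, A.IsFrobeniusAt σ ℓ →
    ∀ x : JZero N, red x = 0 → red (σ • x) = 0
  inj_torsion : ∀ (m : ℕ) (x : JZero N), m.Coprime ℓ → m • x = 0 → red x = 0 → x = 0
  relation : ∀ σ : AlgebraicClosure ℚ ≃ₐ[ℚ] AlgebraicClosure ℚ, A.IsFrobeniusAt σ ℓ →
    ∀ x : JZero N, red (σ • σ • x - heckeOperatorBar N ⟨ℓ, hℓ⟩ (σ • x) + ℓ • x) = 0

attribute [instance] RedData.instY

/-- **S37 from reduction data.**  Same binders and conclusion as the frozen statement, plus the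
hypothesis `H`. -/
theorem result_of_redData (N p : ℕ) [NeZero N]
    (H : ∀ ℓ : ℕ, (hℓ : ℓ.Prime) → ¬ ℓ ∣ N →
      ∀ A : ValuationSubring (AlgebraicClosure ℚ), A.LiesOverPrime ℓ →
        Nonempty (RedData N A ℓ hℓ))
    (hcomm : ModularCurve.HeckeOperatorsCommuteBar N) :
    letI := ModularCurve.heckeModuleBar N
    ∀ (_ : SMulCommClass (AlgebraicClosure ℚ ≃ₐ[ℚ] AlgebraicClosure ℚ) ModularCurve.HeckeAlg
      (ModularCurve.JZero N)),
      ModularCurve.SpecializationExists (K := ℚ) (L := AlgebraicClosure ℚ) N p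
        (ModularCurve.JZero N) := by
  letI := ModularCurve.heckeModuleBar N
  intro _
  refine specializationExists_of_isRed N p (JZero N) ?_
  intro ℓ hℓ hdvd A hA
  have hℓN : ¬ ℓ ∣ N := fun h => hdvd (Dvd.dvd.mul_right h p)
  have hℓp : ¬ ℓ ∣ p := fun h => hdvd (Dvd.dvd.mul_left h N)
  obtain ⟨D⟩ := H ℓ hℓ hℓN A hA
  refine ⟨D.Y, D.instY, D.red, ⟨D.inertia, D.frob_ker, ?_, ?_⟩⟩
  · rintro x ⟨n, hn⟩ hx
    refine D.inj_torsion (p ^ n) x ?_ hn hx
    exact Nat.Coprime.pow_left n ((Nat.coprime_comm.mp ((Nat.Prime.coprime_iff_not_dvd hℓ).mpr hℓp)))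
  · intro σ hσ x
    have h := D.relation σ hσ x
    rwa [← heckeModuleBar_heckeGen_smul hcomm ⟨ℓ, hℓ⟩ (σ • x)] at h

end Fermat.Agent.S37.H99

end
end
-- ===== PACK-END S37/H99/Glue.lean

-- ===== PACK-BEGIN S37/Core/AssemblePull.lean
section


/-!
# S37 row (helper37): assembly through an auxiliary level

For `ℓ ∈ {2, 3}` the smooth model is only available at levels `M` divisible by an auxiliary
prime.  `PullData N M ℓ` is the interface of piece [PULL]: a pullback map
`π^* : J₀(N) → J₀(M)` which is Galois equivariant, injective on prime-to-`ℓ` torsion and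
commutes with `T_ℓ`.  `result_of_pieces'` is the variant of `result_of_pieces` in which the
place reduction may live at any such level `M` (take `M = N`, `pull = id` when possible).
Fully proved.
-/

set_option autoImplicit false
set_option synthInstance.maxHeartbeats 400000

noncomputable section

namespace Fermat.Agent.S37.Core

open ModularCurve ValuationSubring AlgebraicCurve HahnSeries Fermat.Agent.S37.H99

/-- Interface of piece [PULL]. -/
structure PullData (N M : ℕ) [NeZero N] [NeZero M] (ℓ : ℕ) [NeZero ℓ] : Type where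
  /-- the pullback map -/
  pull : JZero N →+ JZero M
  galois : ∀ (σ : AlgebraicClosure ℚ ≃ₐ[ℚ] AlgebraicClosure ℚ) (x : JZero N),
    pull (σ • x) = σ • pull x
  inj_torsion : ∀ (m : ℕ), ¬ ℓ ∣ m → ∀ x : JZero N, m • x = 0 → pull x = 0 → x = 0
  hecke : ∀ x : JZero N,
    pull (heckeOperatorAlong (AlgebraicClosure ℚ) N ℓ x) =
      heckeOperatorAlong (AlgebraicClosure ℚ) M ℓ (pull x)

/-- the trivial pull datum -/
def PullData.refl (N : ℕ) [NeZero N] (ℓ : ℕ) [NeZero ℓ] : PullData N N ℓ where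
  pull := AddMonoidHom.id _
  galois _ _ := rfl
  inj_torsion _ _ _ _ h := h
  hecke _ := rfl

/-- **S37 at one place from the pieces, through an auxiliary level `M`.** -/
theorem isWeakRed_of_placeRed_pull (N M p : ℕ) [NeZero N] [NeZero M]
    (hcomm : HeckeOperatorsCommuteBar N)
    (A : ValuationSubring (AlgebraicClosure ℚ)) (ℓ : ℕ) (hℓ : ℓ.Prime) (hℓp : ¬ ℓ ∣ p)
    (σ₀ : AlgebraicClosure ℚ ≃ₐ[ℚ] AlgebraicClosure ℚ) (hσ₀ : A.IsFrobeniusAt σ₀ ℓ)
    (HIA : haveI : NeZero ℓ := ⟨hℓ.ne_zero⟩; HeckeInputsAlong (AlgebraicClosure ℚ) M ℓ)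
    (hS18 : InjTorsionModL M ℓ A)
    (D : haveI : NeZero ℓ := ⟨hℓ.ne_zero⟩; PlaceRed M A ℓ σ₀)
    (Pd : haveI : NeZero ℓ := ⟨hℓ.ne_zero⟩; PullData N M ℓ) :
    letI := heckeModuleBar N
    ∀ (_ : SMulCommClass (AlgebraicClosure ℚ ≃ₐ[ℚ] AlgebraicClosure ℚ) HeckeAlg (JZero N)),
      IsWeakRed (K := ℚ) p (JZero N) A ℓ hℓ σ₀
        (haveI : NeZero ℓ := ⟨hℓ.ne_zero⟩; D.red.comp Pd.pull) := by
  letI := heckeModuleBar N
  haveI : NeZero ℓ := ⟨hℓ.ne_zero⟩
  intro _
  refine ⟨hσ₀, ?_, ?_, ?_⟩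
  · intro τ hτ x
    show D.red (Pd.pull (τ • x)) = D.red (Pd.pull x)
    rw [Pd.galois, D.red_inertia hτ]
  · rintro x ⟨n, hn⟩ hx
    have hℓpn : ¬ ℓ ∣ p ^ n := fun h => hℓp (hℓ.dvd_of_dvd_pow h)
    refine Pd.inj_torsion (p ^ n) hℓpn x hn ?_
    refine D.red_inj_torsion hS18 (m := p ^ n) hℓpn ?_ hx
    rw [← map_nsmul, hn, map_zero]
  · intro x
    rw [heckeModuleBar_heckeGen_smul hcomm ⟨ℓ, hℓ⟩ (σ₀ • x)]
    show D.red (Pd.pull (σ₀ • σ₀ • x - heckeOperatorAlong (AlgebraicClosure ℚ) N ℓ (σ₀ • x)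
      + ℓ • x)) = 0
    rw [map_add, map_sub, map_nsmul, Pd.galois, Pd.galois, Pd.hecke, Pd.galois]
    exact D.red_relation HIA (Pd.pull x)

/-- **S37 from the pieces, the place reduction living at auxiliary levels.** -/
theorem result_of_pieces' (N p : ℕ) [NeZero N]
    (H : ∀ (ℓ : ℕ) (hℓ : ℓ.Prime), ¬ ℓ ∣ N →
      ∀ A : ValuationSubring (AlgebraicClosure ℚ), A.LiesOverPrime ℓ →
        ∀ σ₀ : AlgebraicClosure ℚ ≃ₐ[ℚ] AlgebraicClosure ℚ, A.IsFrobeniusAt σ₀ ℓ →
          haveI : NeZero ℓ := ⟨hℓ.ne_zero⟩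
          ∃ (M : ℕ) (_ : NeZero M), HeckeInputsAlong (AlgebraicClosure ℚ) M ℓ ∧
            InjTorsionModL M ℓ A ∧ Nonempty (PlaceRed M A ℓ σ₀) ∧ Nonempty (PullData N M ℓ))
    (hcomm : ModularCurve.HeckeOperatorsCommuteBar N) :
    letI := ModularCurve.heckeModuleBar N
    ∀ (_ : SMulCommClass (AlgebraicClosure ℚ ≃ₐ[ℚ] AlgebraicClosure ℚ) ModularCurve.HeckeAlg
      (ModularCurve.JZero N)),
      ModularCurve.SpecializationExists (K := ℚ) (L := AlgebraicClosure ℚ) N p
        (ModularCurve.JZero N) := by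
  letI := ModularCurve.heckeModuleBar N
  intro inst ℓ hℓ hdvd A hA
  have hℓN : ¬ ℓ ∣ N := fun h => hdvd (Dvd.dvd.mul_right h p)
  have hℓp : ¬ ℓ ∣ p := fun h => hdvd (Dvd.dvd.mul_left h N)
  obtain ⟨σ₀, hσ₀⟩ := exists_isFrobeniusAt ℓ hℓ A hA
  haveI : NeZero ℓ := ⟨hℓ.ne_zero⟩
  obtain ⟨M, hM, hHIA, hS18, ⟨D⟩, ⟨Pd⟩⟩ := H ℓ hℓ hℓN A hA σ₀ hσ₀
  exact exists_specialization_of_isWeakRed p A ℓ hℓ σ₀ (D.red.comp Pd.pull)
    (isWeakRed_of_placeRed_pull N M p hcomm A ℓ hℓ hℓp σ₀ hσ₀ hHIA hS18 D Pd inst)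

end Fermat.Agent.S37.Core

end
end
-- ===== PACK-END S37/Core/AssemblePull.lean

-- ===== PACK-BEGIN S29/H222/ESKInt.lean
section
/-
S29 / helper222 — piece ESK, part 1: integral series (`S18.IsInt`) and the action of the
decomposition group of `A` on them.
-/


set_option autoImplicit false
set_option linter.style.haveILetI false

noncomputable section

namespace Fermat.Agent.S29.H222

open ModularCurve AlgebraicCurve HahnSeries IsLocalRing
open Fermat.Agent.S18 (Qb IsInt toF CoreStatement)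

variable {A : ValuationSubring Qb} {N : ℕ}

/-! ### Basic algebra of integral series -/

theorem esk_coeffMap_subtype_injective :
    Function.Injective (coeffMap A.subtype : LaurentSeries A → LaurentSeries Qb) := by
  intro x y hxy
  ext k
  have := congrArg (fun z => z.coeff k) hxy
  simpa using this

theorem isInt_one : IsInt A N (1 : LaurentSeries A) :=
  ⟨by rw [map_one]; exact one_mem _, by rw [map_one]; exact one_mem _,
    by rw [map_one]; exact one_ne_zero⟩

theorem isInt_mul {U V : LaurentSeries A} (hU : IsInt A N U) (hV : IsInt A N V) :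
    IsInt A N (U * V) :=
  ⟨by rw [map_mul]; exact mul_mem hU.1 hV.1, by rw [map_mul]; exact mul_mem hU.2.1 hV.2.1,
    by rw [map_mul]; exact mul_ne_zero hU.2.2 hV.2.2⟩

theorem isInt_pow {U : LaurentSeries A} (hU : IsInt A N U) (n : ℕ) : IsInt A N (U ^ n) :=
  ⟨by rw [map_pow]; exact pow_mem hU.1 n, by rw [map_pow]; exact pow_mem hU.2.1 n,
    by rw [map_pow]; exact pow_ne_zero n hU.2.2⟩

theorem toF_ne_zero {U : LaurentSeries A} (hU : IsInt A N U) : toF hU ≠ 0 := by
  intro h0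
  have h1 : coeffMap A.subtype U = 0 := congrArg Subtype.val h0
  have h2 : U = 0 := esk_coeffMap_subtype_injective (by rw [h1, map_zero])
  exact hU.2.2 (by rw [h2, map_zero])

@[simp] theorem coe_toF {U : LaurentSeries A} (hU : IsInt A N U) :
    ((toF hU : modularFunctionFieldBar N) : LaurentSeries Qb) = coeffMap A.subtype U := rfl

theorem toF_mul {U V : LaurentSeries A} (hU : IsInt A N U) (hV : IsInt A N V) :
    toF (isInt_mul hU hV) = toF hU * toF hV :=
  Subtype.ext (map_mul _ _ _)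

theorem toF_pow {U : LaurentSeries A} (hU : IsInt A N U) (n : ℕ) :
    toF (isInt_pow hU n) = toF hU ^ n :=
  Subtype.ext (map_pow _ _ _)

theorem toF_congr {U V : LaurentSeries A} (hU : IsInt A N U) (hV : IsInt A N V) (h : U = V) :
    toF hU = toF hV := by
  subst h; rfl

/-! ### Coefficientwise ring homomorphisms preserve the function field in characteristic `ℓ` -/

theorem coeffMap_mem_fullC {k : Type*} [Field k] (φ : k →+* k) {x : LaurentSeries k}
    (hx : x ∈ modularFunctionFieldFullC k N) :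
    coeffMap φ x ∈ modularFunctionFieldFullC k N := by
  unfold modularFunctionFieldFullC at hx
  induction hx using IntermediateField.adjoin_induction with
  | mem y hy =>
      obtain ⟨d, hne, hd, rfl⟩ := hy
      haveI := hne
      rw [coeffMap_qExpand, coeffMap_jqModC]
      exact jqModCd_mem_full k N hd
  | algebraMap c =>
      rw [coeffMap_algebraMap]
      exact (modularFunctionFieldFullC k N).algebraMap_mem _
  | add y z _ _ hy hz => rw [map_add]; exact add_mem hy hz
  | inv y _ hy => rw [map_inv₀]; exact inv_mem hy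
  | mul y z _ _ hy hz => rw [map_mul]; exact mul_mem hy hz

theorem coeffMap_ne_zero_of_injective {R S : Type*} [CommRing R] [CommRing S] (φ : R →+* S)
    (hφ : Function.Injective φ) {x : LaurentSeries R} (hx : x ≠ 0) : coeffMap φ x ≠ 0 := by
  intro h
  apply hx
  ext n
  have hn := congrArg (fun y : LaurentSeries S => y.coeff n) h
  simp only [coeffMap_coeff, HahnSeries.coeff_zero] at hn ⊢
  exact hφ (by rw [hn, map_zero])

/-! ### The decomposition group acts on integral series -/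

/-- The ring endomorphism of `A` induced by an element of the decomposition group. -/
def decA (g : A.decompositionSubgroup ℚ) : A →+* A :=
  MulSemiringAction.toRingHom (A.decompositionSubgroup ℚ) A g

@[simp] theorem coe_decA (g : A.decompositionSubgroup ℚ) (a : A) :
    ((decA g a : A) : Qb) = (g : Qb ≃ₐ[ℚ] Qb) (a : Qb) := rfl

/-- The ring endomorphism of the residue field induced by an element of the decomposition
group. -/
def decK (g : A.decompositionSubgroup ℚ) : ResidueField A →+* ResidueField A :=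
  MulSemiringAction.toRingHom (A.decompositionSubgroup ℚ) (ResidueField A) g

theorem decK_residue (g : A.decompositionSubgroup ℚ) (a : A) :
    decK g (residue A a) = residue A (decA g a) := rfl

theorem decK_injective (g : A.decompositionSubgroup ℚ) : Function.Injective (decK g) :=
  (decK g).injective

/-- The coefficientwise action of the decomposition group on `A((q))`. -/
def galA (g : A.decompositionSubgroup ℚ) : LaurentSeries A →+* LaurentSeries A :=
  coeffMap (decA g)

theorem coeffMap_subtype_galA (g : A.decompositionSubgroup ℚ) (U : LaurentSeries A) :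
    coeffMap A.subtype (galA g U)
      = coeffMap (((g : Qb ≃ₐ[ℚ] Qb)) : Qb →+* Qb) (coeffMap A.subtype U) := by
  rw [galA, coeffMap_coeffMap, coeffMap_coeffMap]
  exact coeffMap_congr (RingHom.ext fun a => rfl) U

theorem coeffMap_residue_galA (g : A.decompositionSubgroup ℚ) (U : LaurentSeries A) :
    coeffMap (residue A) (galA g U) = coeffMap (decK g) (coeffMap (residue A) U) := by
  rw [galA, coeffMap_coeffMap, coeffMap_coeffMap]
  exact coeffMap_congr (RingHom.ext fun a => rfl) U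

theorem isInt_galA (g : A.decompositionSubgroup ℚ) {U : LaurentSeries A} (hU : IsInt A N U) :
    IsInt A N (galA g U) := by
  refine ⟨?_, ?_, ?_⟩
  · rw [coeffMap_subtype_galA]
    exact coeffMap_mem_laurentBaseChange (g : Qb ≃ₐ[ℚ] Qb) hU.1
  · rw [coeffMap_residue_galA]
    exact coeffMap_mem_fullC _ hU.2.1
  · rw [coeffMap_residue_galA]
    exact coeffMap_ne_zero_of_injective _ (decK_injective g) hU.2.2

theorem toF_galA (g : A.decompositionSubgroup ℚ) {U : LaurentSeries A} (hU : IsInt A N U) :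
    toF (isInt_galA g hU)
      = arithmeticGalois (modularFunctionFieldFull N) (g : Qb ≃ₐ[ℚ] Qb) • toF hU := by
  apply Subtype.ext
  rw [coe_arithmeticGalois_smul]
  exact coeffMap_subtype_galA g U

end Fermat.Agent.S29.H222

end
end
-- ===== PACK-END S29/H222/ESKInt.lean

-- ===== PACK-BEGIN S29/H222/ESKDiv.lean
section
/-
S29 / helper222 — piece ESK, part 2: divisors of functions (`IsDivOf`), their behaviour under
products, powers and semilinear automorphisms, and the decomposition of a principal divisor as a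
difference of divisors of INTEGRAL series (from the Prelude's `PrincipalGeneratedByIntegral`).
-/


set_option autoImplicit false
set_option linter.style.haveILetI false

noncomputable section

namespace Fermat.Agent.S29.H222

open ModularCurve AlgebraicCurve HahnSeries IsLocalRing
open Fermat.Agent.S18 (Qb IsInt toF CoreStatement)

section Generic

variable {K F : Type*} [Field K] [Field F] [Algebra K F]

/-- `D` is the divisor of the function `f`. -/
def IsDivOf (f : F) (D : Divisor K F) : Prop := ∀ v : Place K F, D v = v.ord f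

theorem IsDivOf.mul {f g : F} {D E : Divisor K F} (hf0 : f ≠ 0) (hg0 : g ≠ 0)
    (hf : IsDivOf f D) (hg : IsDivOf g E) : IsDivOf (f * g) (D + E) := fun v => by
  rw [Finsupp.add_apply, hf v, hg v, v.ord_mul hf0 hg0]

theorem esk_ord_pow (v : Place K F) (f : F) (n : ℕ) : v.ord (f ^ n) = n * v.ord f := by
  have := v.ord_zpow f (n : ℤ)
  simpa using this

theorem IsDivOf.pow {f : F} {D : Divisor K F} (hf : IsDivOf f D) (n : ℕ) :
    IsDivOf (f ^ n) ((n : ℤ) • D) := fun v => by
  rw [Finsupp.smul_apply, hf v, esk_ord_pow, smul_eq_mul]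

theorem IsDivOf.smul {f : F} {D : Divisor K F} (g : SemilinearAut K F) (hf : IsDivOf f D) :
    IsDivOf (g • f) (g • D) := fun w => by
  rw [SemilinearAut.divisor_smul_apply, hf (g⁻¹ • w)]
  have h := SemilinearAut.ord_smul g (g⁻¹ • w) f
  rw [smul_inv_smul] at h
  exact h.symm

theorem esk_ord_algebraMap (v : Place K F) {c : K} (hc : c ≠ 0) :
    v.ord (algebraMap K F c) = 0 := by
  have h1 : algebraMap K F c ∈ v.toValuationSubring := v.algebraMap_mem' c
  have h2 : algebraMap K F c⁻¹ ∈ v.toValuationSubring := v.algebraMap_mem' c⁻¹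
  let u : (v.toValuationSubring)ˣ :=
    { val := ⟨algebraMap K F c, h1⟩
      inv := ⟨algebraMap K F c⁻¹, h2⟩
      val_inv := by
        apply Subtype.ext
        show algebraMap K F c * algebraMap K F c⁻¹ = 1
        rw [← map_mul, mul_inv_cancel₀ hc, map_one]
      inv_val := by
        apply Subtype.ext
        show algebraMap K F c⁻¹ * algebraMap K F c = 1
        rw [← map_mul, inv_mul_cancel₀ hc, map_one] }
  exact v.ord_coe_unit u

/-- **Kummer criterion**: if `V₁ = c · y ^ m · V₂` and `div V₁ - div V₂ = m • E` (`m ≠ 0`), then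
`E` is the divisor of `y`; in particular `E` is principal. -/
theorem isDivOf_of_eq_const_mul_pow {m : ℕ} (hm : m ≠ 0) {V₁ V₂ y : F} {c : K} (hc : c ≠ 0)
    (hy : y ≠ 0) (hV₂ : V₂ ≠ 0) (h : V₁ = algebraMap K F c * y ^ m * V₂)
    {E : Divisor K F} (hE : ∀ v : Place K F, (m : ℤ) * E v = v.ord V₁ - v.ord V₂) :
    IsDivOf y E := fun v => by
  have hc' : algebraMap K F c ≠ 0 := by
    simpa using hc
  have h1 : v.ord V₁ = (m : ℤ) * v.ord y + v.ord V₂ := by
    rw [h, v.ord_mul (mul_ne_zero hc' (pow_ne_zero m hy)) hV₂,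
      v.ord_mul hc' (pow_ne_zero m hy), esk_ord_algebraMap v hc, esk_ord_pow, zero_add]
  have h2 : (m : ℤ) * E v = (m : ℤ) * v.ord y := by rw [hE v, h1]; ring
  exact mul_left_cancel₀ (Int.natCast_ne_zero.mpr hm) h2

end Generic

variable {A : ValuationSubring Qb} {N : ℕ}

/-- A principal divisor is the difference of the divisors of two integral series. -/
theorem exists_isInt_of_principal
    (hpgi : PrincipalGeneratedByIntegral A (residue A) N)
    {D : Divisor Qb (modularFunctionFieldBar N)}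
    (hD : D ∈ Divisor.principal (K := Qb) (F := modularFunctionFieldBar N)) :
    ∃ (U₁ U₂ : LaurentSeries A) (h₁ : IsInt A N U₁) (h₂ : IsInt A N U₂)
      (D₁ D₂ : Divisor Qb (modularFunctionFieldBar N)),
      IsDivOf (toF h₁) D₁ ∧ IsDivOf (toF h₂) D₂ ∧ D = D₁ - D₂ := by
  have hD' := hpgi hD
  clear hD
  induction hD' using AddSubgroup.closure_induction with
  | mem E hE =>
      obtain ⟨y, hy, hyk, hne, hEy⟩ := hE
      refine ⟨y, 1, ⟨hy, hyk, hne⟩, isInt_one, E, 0, fun v => hEy v, fun v => ?_, by simp⟩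
      have : toF (isInt_one (A := A) (N := N)) = 1 := Subtype.ext (map_one _)
      rw [this]
      simp
  | zero =>
      refine ⟨1, 1, isInt_one, isInt_one, 0, 0, fun v => ?_, fun v => ?_, by simp⟩ <;>
      · have : toF (isInt_one (A := A) (N := N)) = 1 := Subtype.ext (map_one _)
        rw [this]
        simp
  | add E E' _ _ hE hE' =>
      obtain ⟨U₁, U₂, h₁, h₂, D₁, D₂, hd₁, hd₂, rfl⟩ := hE
      obtain ⟨U₁', U₂', h₁', h₂', D₁', D₂', hd₁', hd₂', rfl⟩ := hE'
      refine ⟨U₁ * U₁', U₂ * U₂', isInt_mul h₁ h₁', isInt_mul h₂ h₂', D₁ + D₁', D₂ + D₂',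
        ?_, ?_, by abel⟩
      · rw [toF_mul h₁ h₁']
        exact hd₁.mul (toF_ne_zero h₁) (toF_ne_zero h₁') hd₁'
      · rw [toF_mul h₂ h₂']
        exact hd₂.mul (toF_ne_zero h₂) (toF_ne_zero h₂') hd₂'
  | neg E _ hE =>
      obtain ⟨U₁, U₂, h₁, h₂, D₁, D₂, hd₁, hd₂, rfl⟩ := hE
      exact ⟨U₂, U₁, h₂, h₁, D₂, D₁, hd₂, hd₁, by abel⟩

end Fermat.Agent.S29.H222

end
end
-- ===== PACK-END S29/H222/ESKDiv.lean

-- ===== PACK-BEGIN S29/H222/ESKInertia.lean
section
/-
S29 / helper222 — piece ESK-U: inertia at `A` acts trivially on `J₀(N)(ℚ̄)[m]`, from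
`S18.CoreStatement N A m` and the Prelude's `PrincipalGeneratedByIntegral`.

Proof: `x = [D]`, `m D = div U₁ - div U₂` (`U₁, U₂` integral).  For `τ` in the inertia group put
`V₁ = τU₁ · U₂`, `V₂ = U₁ · τU₂`; they have the same reduction, and `div V₁ - div V₂ = m (τD - D)`.
CORE gives `V₁ = c y^m V₂`, hence `τD - D = div y`.
-/


set_option autoImplicit false
set_option linter.style.haveILetI false

noncomputable section

namespace Fermat.Agent.S29.H222

open ModularCurve AlgebraicCurve HahnSeries IsLocalRing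
open Fermat.Agent.S18 (Qb IsInt toF CoreStatement)

variable {A : ValuationSubring Qb} {N : ℕ}

/-- `m`-torsion classes: `m • D` is principal. -/
theorem smul_mem_principal_of_torsion {m : ℕ}
    (D : Divisor.degZero (K := Qb) (F := modularFunctionFieldBar N))
    (hx : (m : ℤ) • (Pic0.mk D : JZero N) = 0) :
    (m : ℤ) • (D : Divisor Qb (modularFunctionFieldBar N))
      ∈ Divisor.principal (K := Qb) (F := modularFunctionFieldBar N) := by
  have hx' : ((m : ℤ) • D : Divisor.degZero (K := Qb) (F := modularFunctionFieldBar N)) ∈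
      (Divisor.principal (K := Qb) (F := modularFunctionFieldBar N)).addSubgroupOf
        (Divisor.degZero (K := Qb) (F := modularFunctionFieldBar N)) := by
    have : Pic0.mk ((m : ℤ) • D) = 0 := hx
    exact (QuotientAddGroup.eq_zero_iff _).mp this
  rw [AddSubgroup.mem_addSubgroupOf] at hx'
  simpa using hx'

/-- Two classes are equal as soon as the difference of the divisors is the divisor of a
function. -/
theorem pic0_mk_eq_of_isDivOf
    (D D' : Divisor.degZero (K := Qb) (F := modularFunctionFieldBar N))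
    {y : modularFunctionFieldBar N} (hy : y ≠ 0)
    (h : IsDivOf (K := Qb) y ((D' : Divisor Qb (modularFunctionFieldBar N))
      - (D : Divisor Qb (modularFunctionFieldBar N)))) :
    (Pic0.mk D' : JZero N) = Pic0.mk D := by
  symm
  refine QuotientAddGroup.eq.mpr ?_
  rw [AddSubgroup.mem_addSubgroupOf]
  refine ⟨y, hy, fun v => ?_⟩
  have := h v
  rw [← this]
  simp [sub_eq_neg_add]

theorem decK_eq_self_of_mem_inertia {g : A.decompositionSubgroup ℚ}
    (hg : g ∈ A.inertiaSubgroup ℚ) (x : ResidueField A) : decK g x = x := by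
  have h1 := MonoidHom.mem_ker.mp hg
  exact congrArg (fun e : RingAut (ResidueField A) => e x) h1

theorem coeffMap_decK_of_mem_inertia {g : A.decompositionSubgroup ℚ}
    (hg : g ∈ A.inertiaSubgroup ℚ) (x : LaurentSeries (ResidueField A)) :
    coeffMap (decK g) x = x := by
  ext n
  rw [coeffMap_coeff, decK_eq_self_of_mem_inertia hg]

/-- **ESK-U.** -/
theorem esk_inertia : ESKInertiaStatement := by
  intro N _ m hm A hcore hpgi τ hτ x hx
  obtain ⟨g, hg, rfl⟩ := hτ
  obtain ⟨D, rfl⟩ := Pic0.mk_surjective x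
  obtain ⟨U₁, U₂, h₁, h₂, D₁, D₂, hd₁, hd₂, hDD⟩ :=
    exists_isInt_of_principal hpgi (smul_mem_principal_of_torsion D hx)
  set G := arithmeticGalois (modularFunctionFieldFull N)
    (((A.decompositionSubgroup ℚ).subtype g : Qb ≃ₐ[ℚ] Qb)) with hG
  have hV₁ : IsInt A N (galA g U₁ * U₂) := isInt_mul (isInt_galA g h₁) h₂
  have hV₂ : IsInt A N (U₁ * galA g U₂) := isInt_mul h₁ (isInt_galA g h₂)
  have hred : coeffMap (residue A) (galA g U₁ * U₂) = coeffMap (residue A) (U₁ * galA g U₂) := by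
    rw [map_mul, map_mul, coeffMap_residue_galA, coeffMap_residue_galA,
      coeffMap_decK_of_mem_inertia hg, coeffMap_decK_of_mem_inertia hg]
  have hgd₁ : IsDivOf (toF (isInt_galA g h₁)) (G • D₁) := by
    rw [toF_galA]; exact hd₁.smul G
  have hgd₂ : IsDivOf (toF (isInt_galA g h₂)) (G • D₂) := by
    rw [toF_galA]; exact hd₂.smul G
  have hdV₁ : IsDivOf (toF hV₁) (G • D₁ + D₂) := by
    rw [toF_mul (isInt_galA g h₁) h₂]
    exact hgd₁.mul (toF_ne_zero _) (toF_ne_zero _) hd₂
  have hdV₂ : IsDivOf (toF hV₂) (D₁ + G • D₂) := by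
    rw [toF_mul h₁ (isInt_galA g h₂)]
    exact hd₁.mul (toF_ne_zero _) (toF_ne_zero _) hgd₂
  have hkey : ∀ v : Place Qb (modularFunctionFieldBar N),
      (m : ℤ) * (G • (D : Divisor Qb (modularFunctionFieldBar N)) - D) v
        = v.ord (toF hV₁) - v.ord (toF hV₂) := by
    intro v
    rw [← hdV₁ v, ← hdV₂ v]
    have e1 : ((m : ℤ) • (D : Divisor Qb (modularFunctionFieldBar N))) v = D₁ v - D₂ v := by
      rw [hDD, Finsupp.sub_apply]
    have e2 : ((m : ℤ) • (D : Divisor Qb (modularFunctionFieldBar N))) (G⁻¹ • v)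
        = D₁ (G⁻¹ • v) - D₂ (G⁻¹ • v) := by
      rw [hDD, Finsupp.sub_apply]
    rw [Finsupp.smul_apply, smul_eq_mul] at e1 e2
    simp only [Finsupp.sub_apply, Finsupp.add_apply, SemilinearAut.divisor_smul_apply]
    linear_combination e2 - e1
  have hord : ∀ v : Place Qb (modularFunctionFieldBar N),
      (m : ℤ) ∣ v.ord (toF hV₁) - v.ord (toF hV₂) := fun v => ⟨_, (hkey v).symm⟩
  obtain ⟨c, y, hc, hy, hcy⟩ := hcore _ _ hV₁ hV₂ hred hord
  have hE := isDivOf_of_eq_const_mul_pow hm hc hy (toF_ne_zero hV₂) hcy hkey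
  show (((A.decompositionSubgroup ℚ).subtype g : Qb ≃ₐ[ℚ] Qb)) • (Pic0.mk D : JZero N) = Pic0.mk D
  rw [galois_smul_pic0_def, SemilinearAut.pic0_smul_mk]
  exact pic0_mk_eq_of_isDivOf D _ hy hE

end Fermat.Agent.S29.H222

end
end
-- ===== PACK-END S29/H222/ESKInertia.lean

-- ===== PACK-BEGIN S29/H222/ESKNorm.lean
section
/-
S29 / helper222 — piece ESK, part 3: the Hecke correspondence on divisors of functions
(`T_ℓ (div y) = div (Nm_α (β y))`, from the Prelude's `HeckeInputsAlong`), and the integral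
Kronecker norm `K(U) = kronNorm ℓ (σ U)` with its reduction.
-/


set_option autoImplicit false
set_option linter.style.haveILetI false

noncomputable section

namespace Fermat.Agent.S29.H222

open ModularCurve AlgebraicCurve HahnSeries IsLocalRing
open Fermat.Agent.S18 (Qb IsInt toF CoreStatement)
open Fermat.Agent.S37.H400 (kronNorm)

variable {A : ValuationSubring Qb} {N : ℕ}

/-! ### Characteristic of the residue field -/

theorem charP_residueField_of_liesOver {ℓ : ℕ} (hℓ : ℓ.Prime) (hA : A.LiesOverPrime ℓ) :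
    CharP (ResidueField A) ℓ := by
  rw [CharP.charP_iff_prime_eq_zero hℓ]
  have h1 : ((ℓ : A) : Qb) ∈ A.nonunits := by
    have : ((ℓ : A) : Qb) = (ℓ : Qb) := by simp
    rw [this]; exact hA
  have h2 : (ℓ : A) ∈ maximalIdeal A := ValuationSubring.coe_mem_nonunits_iff.mp h1
  have h3 : residue A (ℓ : A) = 0 := (residue_eq_zero_iff _).mpr h2
  rw [← h3, map_natCast]

/-! ### The Hecke correspondence on divisors of functions -/

section Hecke

variable [NeZero N] {ℓ : ℕ} [NeZero ℓ]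

omit [NeZero N] in
/-- `β^* (div y) = div (β y)`. -/
theorem isDivOf_pullbackAlong_beta
    [HasPrincipalDivisors Qb (laurentBaseChange Qb (modularFunctionFieldFull (N * ℓ)))]
    (hβ : HeckeBetaBarIntegral Qb N ℓ)
    {y : modularFunctionFieldBar N} {E : Divisor Qb (modularFunctionFieldBar N)}
    (hE : IsDivOf y E) :
    IsDivOf (K := Qb) (heckeBetaBar Qb N ℓ y)
      (Divisor.pullbackAlong (heckeBetaBar Qb N ℓ) hβ E) := by
  intro w
  letI := algebraAlong (heckeBetaBar Qb N ℓ)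
  haveI := isScalarTower_along (heckeBetaBar Qb N ℓ)
  haveI := isIntegral_along (heckeBetaBar Qb N ℓ) hβ
  exact Divisor.pullback_apply_eq_ord hE w

/-- `α_* (div z) = div (Nm_α z)`. -/
theorem isDivOf_pushforwardAlong_alpha
    (hα : HeckeAlphaBarIntegral Qb N ℓ) (hfin : FiniteAlong Qb (heckeAlphaBar Qb N ℓ))
    (hN : NormFormulaAlong Qb (heckeAlphaBar Qb N ℓ) hfin)
    {z : laurentBaseChange Qb (modularFunctionFieldFull (N * ℓ))} (hz : z ≠ 0)
    {E : Divisor Qb (laurentBaseChange Qb (modularFunctionFieldFull (N * ℓ)))}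
    (hE : IsDivOf z E) :
    IsDivOf (K := Qb)
      (letI := algebraAlong (heckeAlphaBar Qb N ℓ)
       Algebra.norm (modularFunctionFieldBar N) z)
      (Divisor.pushforwardAlong (heckeAlphaBar Qb N ℓ) hα E) := by
  intro v
  letI := algebraAlong (heckeAlphaBar Qb N ℓ)
  haveI := isScalarTower_along (heckeAlphaBar Qb N ℓ)
  haveI := isIntegral_along (heckeAlphaBar Qb N ℓ) hα
  haveI : Module.Finite (modularFunctionFieldBar N)
    (laurentBaseChange Qb (modularFunctionFieldFull (N * ℓ))) := hfin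
  exact hN z hz E hE v

/-- `T_ℓ (div y) = div (heckeNorm y)` on divisors. -/
theorem isDivOf_heckeDivBar
    [HasPrincipalDivisors Qb (laurentBaseChange Qb (modularFunctionFieldFull (N * ℓ)))]
    (hα : HeckeAlphaBarIntegral Qb N ℓ) (hβ : HeckeBetaBarIntegral Qb N ℓ)
    (hfin : FiniteAlong Qb (heckeAlphaBar Qb N ℓ))
    (hN : NormFormulaAlong Qb (heckeAlphaBar Qb N ℓ) hfin)
    {y : modularFunctionFieldBar N} (hy : y ≠ 0) {E : Divisor Qb (modularFunctionFieldBar N)}
    (hE : IsDivOf y E) :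
    IsDivOf (K := Qb) (heckeNorm N ℓ y) (heckeDivBar hα hβ E) := by
  have hβy : heckeBetaBar Qb N ℓ y ≠ 0 := by
    intro h
    exact hy ((heckeBetaBar Qb N ℓ).toRingHom.injective (by simpa using h))
  exact isDivOf_pushforwardAlong_alpha hα hfin hN hβy (isDivOf_pullbackAlong_beta hβ hE)

end Hecke

end Fermat.Agent.S29.H222

end
end
-- ===== PACK-END S29/H222/ESKNorm.lean

-- ===== PACK-BEGIN S18/H333/Sturm.lean
section






/-!
# S18 / c3 (helper333): the formal level-2 / level-3 identities via the Sturm bound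
-/

set_option autoImplicit false
set_option linter.unusedSectionVars false

noncomputable section

namespace Fermat.Agent.S18.H333

open UpperHalfPlane ModularForm CongruenceSubgroup MatrixGroups EisensteinSeries

/-- coefficient map `ℤ⟦X⟧ → ℂ⟦X⟧` -/
abbrev toCs : PowerSeries ℤ →+* PowerSeries ℂ := PowerSeries.map (Int.castRingHom ℂ)

theorem toCs_injective : Function.Injective toCs := by
  intro f g h
  ext n
  have := congrArg (PowerSeries.coeff n) h
  simpa using this

theorem toCs_zsmul (c : ℤ) (f : PowerSeries ℤ) : toCs (c • f) = (c : ℂ) • toCs f := by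
  ext n
  rw [PowerSeries.coeff_map, map_zsmul, PowerSeries.coeff_smul, PowerSeries.coeff_map]
  simp

theorem toCs_Vser (p : ℕ) (f : PowerSeries ℤ) : toCs (Vser p f) = Vser p (toCs f) :=
  Vser_map _ _ _

/-- `Δ` as a level-one modular form -/
def DeltaMF : ModularForm 𝒮ℒ 12 := CuspForm.toModularFormₗ CuspForm.discriminant

theorem qExpansion_E4 : qExpansion 1 E₄ = toCs Ez :=
  Fermat.Agent.S28.H505.qExpansion_E₄_eq_e4C

theorem qExpansion_DeltaMF : qExpansion 1 DeltaMF = toCs Dz := by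
  have h : qExpansion 1 DeltaMF = Fermat.Agent.S28.H505.deltaC :=
    Fermat.Agent.S28.H505.qExpansion_discriminant_eq_deltaC
  rw [h, Fermat.Agent.S28.H505.deltaC, Dz, map_mul, map_pow, PowerSeries.map_X]

variable (p : ℕ) [NeZero p]

local notation "Γp" => (Gamma0 p : Subgroup (GL (Fin 2) ℝ))

theorem qExp_restr {k : ℤ} (H : ModularForm 𝒮ℒ k) :
    qExpansion 1 (restr p H) = qExpansion 1 H := rfl

theorem qExp_mul {a b : ℤ} (f : ModularForm Γp a) (g : ModularForm Γp b) :
    qExpansion 1 (f.mul g) = qExpansion 1 f * qExpansion 1 g :=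
  ModularForm.qExpansion_mul one_pos (one_mem_strictPeriods_Gamma0 p) f g

theorem qExp_add {a : ℤ} (f g : ModularForm Γp a) :
    qExpansion 1 (⇑(f + g)) = qExpansion 1 f + qExpansion 1 g := by
  rw [FunLike.coe_add]
  exact ModularForm.qExpansion_add one_pos (one_mem_strictPeriods_Gamma0 p) f g

theorem qExp_sub {a : ℤ} (f g : ModularForm Γp a) :
    qExpansion 1 (⇑(f - g)) = qExpansion 1 f - qExpansion 1 g := by
  rw [FunLike.coe_sub]
  exact ModularForm.qExpansion_sub one_pos (one_mem_strictPeriods_Gamma0 p) f g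

theorem qExp_smul {a : ℤ} (c : ℂ) (f : ModularForm Γp a) :
    qExpansion 1 (⇑(c • f)) = c • qExpansion 1 f := by
  rw [FunLike.coe_smul]
  exact ModularForm.qExpansion_smul one_pos (one_mem_strictPeriods_Gamma0 p) c f

theorem qExp_pow {a : ℤ} (f : ModularForm Γp a) (n : ℕ) :
    qExpansion 1 (f.pow n) = qExpansion 1 f ^ n :=
  ModularForm.qExpansion_pow one_pos (one_mem_strictPeriods_Gamma0 p) f n

/-- the Sturm bound in the form we use: vanishing of `q`-expansion coefficients below `n`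
with `k * ψ(p) / 12 < n` forces a form whose `q`-expansion comes from `ℤ⟦X⟧` to vanish. -/
theorem series_eq_zero_of_sturm {k : ℤ} (F : ModularForm Γp k) (Φ : PowerSeries ℤ)
    (hF : qExpansion 1 F = toCs Φ) (n : ℕ)
    (hn : (k * ((Gamma0 p).index : ℤ)).toNat / 12 < n) (hΦ : tl n Φ = tzero n) : Φ = 0 := by
  have hzero : F = 0 := by
    refine ModularForm.sturm_bound_Gamma0 p F fun m hm => ?_
    rw [hF, PowerSeries.coeff_map, (tl_eq_tzero_iff n Φ).mp hΦ m (lt_of_le_of_lt hm hn), map_zero]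
  apply toCs_injective
  rw [map_zero, ← hF, hzero]
  exact qExpansion_zero 1

/-! ### level 2 -/

theorem index_Gamma0_two : (Gamma0 2).index = 3 := by
  rw [Fermat.Agent.S20.Comb.index_Gamma0]
  decide +kernel

theorem index_Gamma0_three : (Gamma0 3).index = 4 := by
  rw [Fermat.Agent.S20.Comb.index_Gamma0]
  decide +kernel

/-- `E₄³` on `Γ₀(p)`, weight 12 -/
def EcubeF : ModularForm Γp 12 := ((restr p E₄).pow 3).mcast (by norm_num)

/-- `E₄(p·)³` on `Γ₀(p)`, weight 12 -/
def EpcubeF : ModularForm Γp 12 := ((raise p E₄).pow 3).mcast (by norm_num)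

/-- `Δ` on `Γ₀(p)` -/
def XF : ModularForm Γp 12 := restr p DeltaMF

/-- `Δ(p·)` on `Γ₀(p)` -/
def YF : ModularForm Γp 12 := raise p DeltaMF

theorem qExp_EcubeF : qExpansion 1 (EcubeF p) = toCs (Ez ^ 3) := by
  rw [EcubeF, ModularForm.qExpansion_mcast, qExp_pow, qExp_restr, qExpansion_E4, map_pow]

theorem qExp_EpcubeF : qExpansion 1 (EpcubeF p) = toCs (Vser p Ez ^ 3) := by
  rw [EpcubeF, ModularForm.qExpansion_mcast, qExp_pow, qExpansion_raise, qExpansion_E4, map_pow,
    toCs_Vser]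

theorem qExp_XF : qExpansion 1 (XF p) = toCs Dz := by
  rw [XF, qExp_restr, qExpansion_DeltaMF]

theorem qExp_YF : qExpansion 1 (YF p) = toCs (Vser p Dz) := by
  rw [YF, qExpansion_raise, qExpansion_DeltaMF, toCs_Vser]

/-- the weight-36 form `E³ X Y - (X + c Y)³` -/
def cubicF (E : ModularForm Γp 12) (c : ℤ) : ModularForm Γp ((12 + 12) + 12) :=
  ((E.mul (XF p)).mul (YF p)) -
    (((XF p + (c : ℂ) • YF p).mul (XF p + (c : ℂ) • YF p)).mul (XF p + (c : ℂ) • YF p))

theorem qExp_cubicF (E : ModularForm Γp 12) (c : ℤ) (e : PowerSeries ℤ)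
    (hE : qExpansion 1 E = toCs e) :
    qExpansion 1 (cubicF p E c) =
      toCs (e * Dz * Vser p Dz - (Dz + c • Vser p Dz) ^ 3) := by
  rw [cubicF, qExp_sub, qExp_mul, qExp_mul, qExp_mul, qExp_mul, qExp_add, qExp_smul, hE, qExp_XF,
    qExp_YF, map_sub, map_mul, map_mul, map_pow, map_add, toCs_zsmul]
  ring

theorem Phi2a_eq_zero : Phi2a = 0 := by
  refine series_eq_zero_of_sturm 2 (cubicF 2 (EcubeF 2) 256) Phi2a ?_ 10 ?_ tl_Phi2a
  · rw [qExp_cubicF 2 _ 256 _ (qExp_EcubeF 2)]; rfl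
  · rw [index_Gamma0_two]; decide

theorem Phi2b_eq_zero : Phi2b = 0 := by
  refine series_eq_zero_of_sturm 2 (cubicF 2 (EpcubeF 2) 16) Phi2b ?_ 10 ?_ tl_Phi2b
  · rw [qExp_cubicF 2 _ 16 _ (qExp_EpcubeF 2)]; rfl
  · rw [index_Gamma0_two]; decide

/-! ### level 3 -/

/-- the weight-48 form `A² - X Y (E - B)²`, `A = X² + c₂ X Y + c₄ Y²`, `B = c₁ X + c₃ Y` -/
def quarticF (E : ModularForm Γp 12) (c₁ c₂ c₃ c₄ : ℤ) :
    ModularForm Γp ((12 + 12) + (12 + 12)) :=
  (((XF p).mul (XF p) + (c₂ : ℂ) • (XF p).mul (YF p) + (c₄ : ℂ) • (YF p).mul (YF p)).mul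
    ((XF p).mul (XF p) + (c₂ : ℂ) • (XF p).mul (YF p) + (c₄ : ℂ) • (YF p).mul (YF p))) -
  ((XF p).mul (YF p)).mul
    ((E - ((c₁ : ℂ) • XF p + (c₃ : ℂ) • YF p)).mul (E - ((c₁ : ℂ) • XF p + (c₃ : ℂ) • YF p)))

theorem qExp_quarticF (E : ModularForm Γp 12) (c₁ c₂ c₃ c₄ : ℤ) (e : PowerSeries ℤ)
    (hE : qExpansion 1 E = toCs e) :
    qExpansion 1 (quarticF p E c₁ c₂ c₃ c₄) =
      toCs ((Dz * Dz + c₂ • (Dz * Vser p Dz) + c₄ • (Vser p Dz * Vser p Dz)) *
          (Dz * Dz + c₂ • (Dz * Vser p Dz) + c₄ • (Vser p Dz * Vser p Dz)) -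
        (Dz * Vser p Dz) * ((e - (c₁ • Dz + c₃ • Vser p Dz)) * (e - (c₁ • Dz + c₃ • Vser p Dz)))) := by
  simp only [quarticF, qExp_sub, qExp_mul, qExp_add, qExp_smul, hE, qExp_XF, qExp_YF, map_sub,
    map_mul, map_add, toCs_zsmul]

theorem Phi3a_eq_zero : Phi3a = 0 := by
  refine series_eq_zero_of_sturm 3 (quarticF 3 (EcubeF 3) 756 196830 19131876 387420489) Phi3a
    ?_ 17 ?_ tl_Phi3a
  · rw [qExp_quarticF 3 _ _ _ _ _ _ (qExp_EcubeF 3)]; rfl
  · rw [index_Gamma0_three]; decide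

theorem Phi3b_eq_zero : Phi3b = 0 := by
  refine series_eq_zero_of_sturm 3 (quarticF 3 (EpcubeF 3) 36 270 756 729) Phi3b
    ?_ 17 ?_ tl_Phi3b
  · rw [qExp_quarticF 3 _ _ _ _ _ _ (qExp_EpcubeF 3)]; rfl
  · rw [index_Gamma0_three]; decide

end Fermat.Agent.S18.H333

end
end
-- ===== PACK-END S18/H333/Sturm.lean

-- ===== PACK-BEGIN S18/H333/HauptPS.lean
section



/-!
# S18 / c3 (helper333): power-series preliminaries for the Hauptmoduln

* `Vser p` is the ring homomorphism `PowerSeries.expand p`;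
* `Zz = X² η₁¹² η₃¹²` with `Zz² = Δ Δ₃`, and the LINEAR level-3 identities
  `A3a = Zz (E₄³ - B3a)`, `A3b = Zz (E₄(q³)³ - B3b)` (sign fixed by the `q²`-coefficient).
-/

set_option autoImplicit false

noncomputable section

namespace Fermat.Agent.S18.H333

open PowerSeries ModularCurve

theorem Vser_eq_expand (p : ℕ) (hp : p ≠ 0) (f : PowerSeries ℤ) :
    Vser p f = PowerSeries.expand p hp f := by
  ext n
  rw [coeff_Vser, PowerSeries.coeff_expand]

theorem Vser_mul (p : ℕ) (hp : p ≠ 0) (f g : PowerSeries ℤ) :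
    Vser p (f * g) = Vser p f * Vser p g := by
  simp only [Vser_eq_expand p hp, map_mul]

theorem Vser_pow (p : ℕ) (hp : p ≠ 0) (f : PowerSeries ℤ) (n : ℕ) :
    Vser p (f ^ n) = Vser p f ^ n := by
  simp only [Vser_eq_expand p hp, map_pow]

theorem Vser_one (p : ℕ) (hp : p ≠ 0) : Vser p (1 : PowerSeries ℤ) = 1 := by
  simp only [Vser_eq_expand p hp, map_one]

theorem Vser_X (p : ℕ) (hp : p ≠ 0) : Vser p (X : PowerSeries ℤ) = X ^ p := by
  rw [Vser_eq_expand p hp, PowerSeries.expand_X]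

/-- `η¹²` -/
def eta12 : PowerSeries ℤ := etaProd ^ 12

/-- `η⁻¹²` -/
def eta12Inv : PowerSeries ℤ := eta12.invOfUnit 1

theorem constantCoeff_eta12 : PowerSeries.constantCoeff eta12 = 1 := by
  rw [eta12, map_pow, constantCoeff_etaProd, one_pow]

theorem eta12_mul_inv : eta12 * eta12Inv = 1 :=
  PowerSeries.mul_invOfUnit _ _ (by rw [constantCoeff_eta12]; rfl)

theorem eta12_sq : eta12 * eta12 = dedekindEtaUnit := by
  rw [eta12, dedekindEtaUnit]; ring

theorem Dz_eq : Dz = X * dedekindEtaUnit := rfl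

theorem Vser_Dz (p : ℕ) (hp : p ≠ 0) : Vser p Dz = X ^ p * Vser p dedekindEtaUnit := by
  rw [Dz_eq, Vser_mul p hp, Vser_X p hp]

/-- `q² η₁¹² η₃¹²` -/
def Zz : PowerSeries ℤ := X ^ 2 * eta12 * Vser 3 eta12

theorem Zz_sq : Zz * Zz = Dz * Vser 3 Dz := by
  rw [Vser_Dz 3 (by norm_num), Dz_eq, ← eta12_sq, Vser_mul 3 (by norm_num), Zz]
  ring

theorem tl_eta12 (n : ℕ) : tl n eta12 = tpow n (etaLrec n n) 12 := by
  rw [eta12, tl_pow, tl_etaProd]

theorem tl_Zz (n : ℕ) : tl n Zz =
    tmul n (tmul n (tpow n (tX n) 2) (tpow n (etaLrec n n) 12))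
      (tV n 3 (tpow n (etaLrec n n) 12)) := by
  rw [Zz, tl_mul, tl_mul, tl_pow, tl_X, tl_Vser _ _ (by norm_num), tl_eta12]

theorem tl_Ez_3 : tl 3 Ez = [1, 240, 2160] := by
  rw [tl_Ez]; decide +kernel

theorem tl_Dz_3 : tl 3 Dz = [0, 1, -24] := by
  rw [tl_Dz]; decide +kernel

theorem coeff_two_ne_of_tl {f : PowerSeries ℤ} {a b c : ℤ} (h : tl 3 f = [a, b, c]) (hc : c ≠ 0) :
    f ≠ 0 := by
  intro h0
  have h2 := tl_getD 3 f (i := 2) (by norm_num)
  rw [h, h0] at h2
  simp at h2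
  exact hc h2

/-- linear form of `(t₃+27)(t₃+243)³ = j t₃³` -/
theorem A3a_eq : A3a = Zz * (Ez ^ 3 - B3a) := by
  have h := Phi3a_eq_zero
  rw [Phi3a, ← Zz_sq] at h
  have hprod : (A3a - Zz * (Ez ^ 3 - B3a)) * (A3a + Zz * (Ez ^ 3 - B3a)) = 0 := by
    linear_combination h
  rcases mul_eq_zero.mp hprod with h1 | h1
  · exact sub_eq_zero.mp h1
  · exfalso
    have htl : tl 3 (A3a + Zz * (Ez ^ 3 - B3a)) = [0, 0, 2] := by
      rw [A3a, B3a]
      simp only [tl_sub, tl_mul, tl_pow, tl_add, tl_smul, tl_Vser _ _ (show 0 < 3 by norm_num),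
        tl_Dz_3, tl_Ez_3, tl_Zz]
      decide +kernel
    exact coeff_two_ne_of_tl htl (by norm_num) h1

/-- linear form of `(t₃+27)(t₃+3)³ = j(q³) t₃` -/
theorem A3b_eq : A3b = Zz * (Vser 3 Ez ^ 3 - B3b) := by
  have h := Phi3b_eq_zero
  rw [Phi3b, ← Zz_sq] at h
  have hprod : (A3b - Zz * (Vser 3 Ez ^ 3 - B3b)) * (A3b + Zz * (Vser 3 Ez ^ 3 - B3b)) = 0 := by
    linear_combination h
  rcases mul_eq_zero.mp hprod with h1 | h1
  · exact sub_eq_zero.mp h1
  · exfalso
    have htl : tl 3 (A3b + Zz * (Vser 3 Ez ^ 3 - B3b)) = [0, 0, 2] := by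
      rw [A3b, B3b]
      simp only [tl_sub, tl_mul, tl_pow, tl_add, tl_smul, tl_Vser _ _ (show 0 < 3 by norm_num),
        tl_Dz_3, tl_Ez_3, tl_Zz]
      decide +kernel
    exact coeff_two_ne_of_tl htl (by norm_num) h1

end Fermat.Agent.S18.H333

end
end
-- ===== PACK-END S18/H333/HauptPS.lean

-- ===== PACK-BEGIN S18/H333/HauptLaurent.lean
section




/-!
# S18 / c3 (helper333): the Hauptmoduln `t₂`, `t₃` as Laurent series over `ℤ`

* `t2Z = q⁻¹ (η(q)/η(q²))²⁴`, `t3Z = q⁻¹ (η(q)/η(q³))¹²  : LaurentSeries ℤ`;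
* `t2Z_rel_a : jqModC ℤ * t2Z ^ 2 = (t2Z + 256) ^ 3`
* `t2Z_rel_b : qExpand ℤ 2 (jqModC ℤ) * t2Z = (t2Z + 16) ^ 3`
* `t3Z_rel_a : jqModC ℤ * t3Z ^ 3 = (t3Z + 27) * (t3Z + 243) ^ 3`
* `t3Z_rel_b : qExpand ℤ 3 (jqModC ℤ) * t3Z = (t3Z + 27) * (t3Z + 3) ^ 3`
-/

set_option autoImplicit false

noncomputable section

namespace Fermat.Agent.S18.H333

open PowerSeries ModularCurve HahnSeries

/-- power series to Laurent series over `ℤ` -/
abbrev ιZ : PowerSeries ℤ →+* LaurentSeries ℤ := HahnSeries.ofPowerSeries ℤ ℤ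

theorem ιZ_injective : Function.Injective ιZ := HahnSeries.ofPowerSeries_injective

theorem ιZ_coeff_neg (f : PowerSeries ℤ) {k : ℤ} (hk : k < 0) : (ιZ f).coeff k = 0 :=
  ofPowerSeries_coeff_of_neg f hk

theorem ιZ_coeff_nat (f : PowerSeries ℤ) (n : ℕ) : (ιZ f).coeff (n : ℤ) = PowerSeries.coeff n f :=
  HahnSeries.ofPowerSeries_apply_coeff f n

theorem qExpand_ιZ (p : ℕ) [NeZero p] (f : PowerSeries ℤ) :
    qExpand ℤ p (ιZ f) = ιZ (Vser p f) := by
  have hp : 0 < p := Nat.pos_of_ne_zero (NeZero.ne p)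
  ext k
  by_cases hk : (p : ℤ) ∣ k
  · obtain ⟨m, rfl⟩ := hk
    rw [qExpand_coeff_mul]
    rcases le_or_gt 0 m with hm | hm
    · lift m to ℕ using hm
      rw [ιZ_coeff_nat, show ((p : ℤ) * (m : ℤ)) = ((p * m : ℕ) : ℤ) by push_cast; rfl,
        ιZ_coeff_nat, coeff_Vser, if_pos (Dvd.intro m rfl), Nat.mul_div_cancel_left m hp]
    · rw [ιZ_coeff_neg _ hm, ιZ_coeff_neg _ (mul_neg_of_pos_of_neg (by exact_mod_cast hp) hm)]
  · rw [qExpand_coeff_of_not_dvd _ _ hk]
    rcases le_or_gt 0 k with hk0 | hk0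
    · lift k to ℕ using hk0
      rw [ιZ_coeff_nat, coeff_Vser, if_neg]
      intro h
      exact hk (by exact_mod_cast h)
    · rw [ιZ_coeff_neg _ hk0]

theorem ιZ_X : ιZ X = single 1 1 := HahnSeries.ofPowerSeries_X

theorem single_neg_one_mul_single_one :
    (single (-1 : ℤ) (1 : ℤ) : LaurentSeries ℤ) * single 1 1 = 1 := by
  rw [single_mul_single]
  simp

theorem jNum_map_int : jNum.map (Int.castRingHom ℤ) = jNum := by
  ext n
  simp

/-- `Δ` as a Laurent series -/
def DL : LaurentSeries ℤ := ιZ Dz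

theorem DL_ne_zero : DL ≠ 0 := by
  intro h
  have h1 : (ιZ Dz).coeff ((1 : ℕ) : ℤ) = 0 := by rw [show ιZ Dz = DL from rfl, h]; rfl
  rw [ιZ_coeff_nat] at h1
  have h2 := tl_getD 3 Dz (i := 1) (by norm_num)
  rw [tl_Dz_3, h1] at h2
  simp at h2

theorem qExpand_DL_ne_zero (p : ℕ) [NeZero p] : qExpand ℤ p DL ≠ 0 := by
  intro h
  exact DL_ne_zero (qExpand_injective p (by rw [h, map_zero]))

theorem jZ_mul_DL : jqModC ℤ * DL = ιZ (Ez ^ 3) := by
  have h1 : jNum * dedekindEtaUnit = Ez ^ 3 := by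
    rw [jNum, mul_assoc, mul_comm dedekindEtaUnitInv, dedekindEtaUnit_mul_inv, mul_one]; rfl
  rw [jqModC, jNum_map_int, DL, Dz_eq, map_mul, ιZ_X, ← h1, map_mul]
  calc single (-1 : ℤ) (1 : ℤ) * ιZ jNum * (single 1 1 * ιZ dedekindEtaUnit)
      = (single (-1 : ℤ) (1 : ℤ) * single 1 1) * (ιZ jNum * ιZ dedekindEtaUnit) := by ring
    _ = ιZ jNum * ιZ dedekindEtaUnit := by rw [single_neg_one_mul_single_one, one_mul]

theorem qExpand_jZ_mul (p : ℕ) [NeZero p] :
    qExpand ℤ p (jqModC ℤ) * qExpand ℤ p DL = ιZ (Vser p Ez ^ 3) := by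
  rw [← map_mul, jZ_mul_DL, qExpand_ιZ, Vser_pow p (NeZero.ne p)]

/-- `t₂ = q⁻¹ (η(q)/η(q²))²⁴` -/
def t2Z : LaurentSeries ℤ :=
  single (-1 : ℤ) 1 * ιZ (dedekindEtaUnit * Vser 2 dedekindEtaUnitInv)

/-- `t₃ = q⁻¹ (η(q)/η(q³))¹²` -/
def t3Z : LaurentSeries ℤ :=
  single (-1 : ℤ) 1 * ιZ (eta12 * Vser 3 eta12Inv)

theorem t2Z_mul : t2Z * qExpand ℤ 2 DL = DL := by
  have h1 : Vser 2 dedekindEtaUnitInv * Vser 2 dedekindEtaUnit = 1 := by
    rw [← Vser_mul 2 (by norm_num), mul_comm, dedekindEtaUnit_mul_inv, Vser_one 2 (by norm_num)]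
  have h2 : ιZ (Vser 2 dedekindEtaUnitInv) * ιZ (Vser 2 dedekindEtaUnit) = 1 := by
    rw [← map_mul, h1, map_one]
  rw [t2Z, DL, qExpand_ιZ, Vser_Dz 2 (by norm_num), Dz_eq]
  simp only [map_mul, map_pow, ιZ_X]
  have h3 := single_neg_one_mul_single_one
  linear_combination (single (1 : ℤ) (1 : ℤ) * ιZ dedekindEtaUnit * ιZ (Vser 2 dedekindEtaUnitInv)
    * ιZ (Vser 2 dedekindEtaUnit)) * h3 + single (1 : ℤ) (1 : ℤ) * ιZ dedekindEtaUnit * h2

theorem t3Z_mul : t3Z * qExpand ℤ 3 DL = ιZ Zz := by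
  have h1 : Vser 3 eta12Inv * Vser 3 eta12 = 1 := by
    rw [← Vser_mul 3 (by norm_num), mul_comm, eta12_mul_inv, Vser_one 3 (by norm_num)]
  have h2 : ιZ (Vser 3 eta12Inv) * ιZ (Vser 3 eta12) = 1 := by
    rw [← map_mul, h1, map_one]
  rw [t3Z, DL, qExpand_ιZ, Vser_Dz 3 (by norm_num), Zz, ← eta12_sq, Vser_mul 3 (by norm_num)]
  simp only [map_mul, map_pow, ιZ_X]
  have h3 := single_neg_one_mul_single_one
  linear_combination (single (1 : ℤ) (1 : ℤ) ^ 2 * ιZ eta12 * ιZ (Vser 3 eta12Inv)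
    * ιZ (Vser 3 eta12) * ιZ (Vser 3 eta12)) * h3
    + single (1 : ℤ) (1 : ℤ) ^ 2 * ιZ eta12 * ιZ (Vser 3 eta12) * h2

theorem ιZ_zsmul (c : ℤ) (f : PowerSeries ℤ) : ιZ (c • f) = (c : LaurentSeries ℤ) * ιZ f := by
  rw [zsmul_eq_mul, map_mul, map_intCast]

/-- `j t₂² = (t₂ + 256)³` over `ℤ` -/
theorem t2Z_rel_a : jqModC ℤ * t2Z ^ 2 = (t2Z + 256) ^ 3 := by
  have hne := pow_ne_zero 3 (qExpand_DL_ne_zero 2)
  refine mul_right_cancel₀ hne ?_
  have hP := congrArg ιZ Phi2a_eq_zero
  simp only [Phi2a, map_zero, map_sub, map_mul, map_pow, map_add, ιZ_zsmul] at hP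
  have hE : ιZ Ez ^ 3 = jqModC ℤ * DL := by rw [jZ_mul_DL, map_pow]
  have hV : ιZ (Vser 2 Dz) = qExpand ℤ 2 DL := (qExpand_ιZ 2 Dz).symm
  rw [hE, hV, show ιZ Dz = DL from rfl] at hP
  push_cast at hP
  have ht := t2Z_mul
  linear_combination hP + (jqModC ℤ * qExpand ℤ 2 DL * (t2Z * qExpand ℤ 2 DL + DL)
    - ((t2Z + 256) * qExpand ℤ 2 DL) ^ 2
    - (t2Z + 256) * qExpand ℤ 2 DL * (DL + 256 * qExpand ℤ 2 DL)
    - (DL + 256 * qExpand ℤ 2 DL) ^ 2) * ht

/-- `j(q²) t₂ = (t₂ + 16)³` over `ℤ` -/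
theorem t2Z_rel_b : qExpand ℤ 2 (jqModC ℤ) * t2Z = (t2Z + 16) ^ 3 := by
  have hne := pow_ne_zero 3 (qExpand_DL_ne_zero 2)
  refine mul_right_cancel₀ hne ?_
  have hP := congrArg ιZ Phi2b_eq_zero
  simp only [Phi2b, map_zero, map_sub, map_mul, map_pow, map_add, ιZ_zsmul] at hP
  have hE : ιZ (Vser 2 Ez) ^ 3 = qExpand ℤ 2 (jqModC ℤ) * qExpand ℤ 2 DL := by
    rw [qExpand_jZ_mul, map_pow]
  have hV : ιZ (Vser 2 Dz) = qExpand ℤ 2 DL := (qExpand_ιZ 2 Dz).symm
  rw [hE, hV, show ιZ Dz = DL from rfl] at hP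
  push_cast at hP
  have ht := t2Z_mul
  linear_combination hP + (qExpand ℤ 2 (jqModC ℤ) * qExpand ℤ 2 DL * qExpand ℤ 2 DL
    - ((t2Z + 16) * qExpand ℤ 2 DL) ^ 2
    - (t2Z + 16) * qExpand ℤ 2 DL * (DL + 16 * qExpand ℤ 2 DL)
    - (DL + 16 * qExpand ℤ 2 DL) ^ 2) * ht

theorem ιZ_Zz_sq : ιZ Zz * ιZ Zz = DL * qExpand ℤ 3 DL := by
  rw [← map_mul, Zz_sq, map_mul, ← qExpand_ιZ]
  rfl

/-- `j t₃³ = (t₃ + 27)(t₃ + 243)³` over `ℤ` -/
theorem t3Z_rel_a : jqModC ℤ * t3Z ^ 3 = (t3Z + 27) * (t3Z + 243) ^ 3 := by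
  have hne := pow_ne_zero 4 (qExpand_DL_ne_zero 3)
  refine mul_right_cancel₀ hne ?_
  have hA := congrArg ιZ A3a_eq
  simp only [A3a, B3a, map_sub, map_mul, map_pow, map_add, ιZ_zsmul] at hA
  have hE : ιZ Ez ^ 3 = jqModC ℤ * DL := by rw [jZ_mul_DL, map_pow]
  have hV : ιZ (Vser 3 Dz) = qExpand ℤ 3 DL := (qExpand_ιZ 3 Dz).symm
  rw [hE, hV, show ιZ Dz = DL from rfl] at hA
  push_cast at hA
  have ht := t3Z_mul
  have hZ := ιZ_Zz_sq
  generalize ιZ Zz = Z at *
  generalize qExpand ℤ 3 DL = Q at *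
  generalize jqModC ℤ = j at *
  generalize DL = D at *
  have hG : j * Z ^ 3 * Q = (Z + 27 * Q) * (Z + 243 * Q) ^ 3 := by
    linear_combination (j * Q * Z - Z ^ 2 - D * Q - 756 * Q * Z - 196830 * Q ^ 2) * hZ
      - Q ^ 2 * hA
  calc j * t3Z ^ 3 * Q ^ 4 = j * (t3Z * Q) ^ 3 * Q := by ring
    _ = (t3Z * Q + 27 * Q) * (t3Z * Q + 243 * Q) ^ 3 := by rw [ht, hG]
    _ = (t3Z + 27) * (t3Z + 243) ^ 3 * Q ^ 4 := by ring

/-- `j(q³) t₃ = (t₃ + 27)(t₃ + 3)³` over `ℤ` -/
theorem t3Z_rel_b : qExpand ℤ 3 (jqModC ℤ) * t3Z = (t3Z + 27) * (t3Z + 3) ^ 3 := by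
  have hne := pow_ne_zero 4 (qExpand_DL_ne_zero 3)
  refine mul_right_cancel₀ hne ?_
  have hA := congrArg ιZ A3b_eq
  simp only [A3b, B3b, map_sub, map_mul, map_pow, map_add, ιZ_zsmul] at hA
  have hE : ιZ (Vser 3 Ez) ^ 3 = qExpand ℤ 3 (jqModC ℤ) * qExpand ℤ 3 DL := by
    rw [qExpand_jZ_mul, map_pow]
  have hV : ιZ (Vser 3 Dz) = qExpand ℤ 3 DL := (qExpand_ιZ 3 Dz).symm
  rw [hE, hV, show ιZ Dz = DL from rfl] at hA
  push_cast at hA
  have ht := t3Z_mul
  have hZ := ιZ_Zz_sq
  generalize ιZ Zz = Z at *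
  generalize qExpand ℤ 3 (jqModC ℤ) = J at *
  generalize qExpand ℤ 3 DL = Q at *
  generalize DL = D at *
  have hG : J * Q * Z * Q ^ 2 = (Z + 27 * Q) * (Z + 3 * Q) ^ 3 := by
    linear_combination (-(Z ^ 2 + D * Q + 36 * Q * Z + 270 * Q ^ 2)) * hZ - Q ^ 2 * hA
  calc J * t3Z * Q ^ 4 = J * Q * (t3Z * Q) * Q ^ 2 := by ring
    _ = (t3Z * Q + 27 * Q) * (t3Z * Q + 3 * Q) ^ 3 := by rw [ht, hG]
    _ = (t3Z + 27) * (t3Z + 3) ^ 3 * Q ^ 4 := by ring

/-! ### leading terms -/

theorem constantCoeff_Vser (p : ℕ) (hp : p ≠ 0) (f : PowerSeries ℤ) :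
    PowerSeries.constantCoeff (Vser p f) = PowerSeries.constantCoeff f := by
  rw [Vser_eq_expand p hp, PowerSeries.constantCoeff_expand]

theorem single_neg_one_mul_coeff (f : PowerSeries ℤ) (k : ℤ) :
    (single (-1 : ℤ) (1 : ℤ) * ιZ f).coeff k = (ιZ f).coeff (k + 1) := by
  have := HahnSeries.coeff_single_mul_add (r := (1 : ℤ)) (x := ιZ f) (a := k + 1) (b := (-1 : ℤ))
  rw [one_mul] at this
  rw [← this]
  congr 1
  ring

theorem t2Z_coeff_neg_one : t2Z.coeff (-1) = 1 := by
  rw [t2Z, single_neg_one_mul_coeff]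
  have : ((-1 : ℤ) + 1) = ((0 : ℕ) : ℤ) := by norm_num
  rw [this, ιZ_coeff_nat, PowerSeries.coeff_zero_eq_constantCoeff, map_mul,
    constantCoeff_dedekindEtaUnit, one_mul]
  have h := congrArg (PowerSeries.constantCoeff (R := ℤ))
    (show Vser 2 dedekindEtaUnit * Vser 2 dedekindEtaUnitInv = 1 by
      rw [← Vser_mul 2 (by norm_num), dedekindEtaUnit_mul_inv, Vser_one 2 (by norm_num)])
  rw [map_mul, map_one, constantCoeff_Vser 2 (by norm_num), constantCoeff_dedekindEtaUnit,
    one_mul] at h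
  exact h

theorem t2Z_coeff_of_lt {k : ℤ} (hk : k < -1) : t2Z.coeff k = 0 := by
  rw [t2Z, single_neg_one_mul_coeff]
  exact ιZ_coeff_neg _ (by omega)

theorem t3Z_coeff_neg_one : t3Z.coeff (-1) = 1 := by
  rw [t3Z, single_neg_one_mul_coeff]
  have : ((-1 : ℤ) + 1) = ((0 : ℕ) : ℤ) := by norm_num
  rw [this, ιZ_coeff_nat, PowerSeries.coeff_zero_eq_constantCoeff, map_mul,
    constantCoeff_eta12, one_mul]
  have h := congrArg (PowerSeries.constantCoeff (R := ℤ))
    (show Vser 3 eta12 * Vser 3 eta12Inv = 1 by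
      rw [← Vser_mul 3 (by norm_num), eta12_mul_inv, Vser_one 3 (by norm_num)])
  rw [map_mul, map_one, constantCoeff_Vser 3 (by norm_num), constantCoeff_eta12,
    one_mul] at h
  exact h

theorem t3Z_coeff_of_lt {k : ℤ} (hk : k < -1) : t3Z.coeff k = 0 := by
  rw [t3Z, single_neg_one_mul_coeff]
  exact ιZ_coeff_neg _ (by omega)

end Fermat.Agent.S18.H333

end
end
-- ===== PACK-END S18/H333/HauptLaurent.lean

-- ===== PACK-BEGIN S18/H333/HauptMem.lean
section



/-!
# S18 / c3 (helper333): `t₂ ∈ K(j, j(q²))`, `t₃ ∈ K(j, j(q³))`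

For every field `K`:
* `t2 K, t3 K : LaurentSeries K` (images of `t2Z`, `t3Z`), with the four relations
  `t2_rel_a`, `t2_rel_b`, `t3_rel_a`, `t3_rel_b`;
* `t2_mem_full : (2 : K) ≠ 0 → 2 ∣ M → t2 K ∈ modularFunctionFieldFullC K M`;
* `t3_mem_full : (3 : K) ≠ 0 → 3 ∣ M → t3 K ∈ modularFunctionFieldFullC K M`.
Proof: explicit elimination `D t + N = 0` (HauptElim) and `D ≠ 0`, because
`D Δ² Δ₂² = -2²⁴ q⁵ + …`  resp.  `D Δ⁵ Δ₃³ = -3¹⁸ q⁷ + …`  (kernel computation).
-/

set_option autoImplicit false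

noncomputable section

namespace Fermat.Agent.S18.H333

open PowerSeries ModularCurve HahnSeries

/-! ### two more truncation rules -/

theorem tl_ofNat (n : ℕ) (c : ℕ) [c.AtLeastTwo] :
    tl n (ofNat(c) : PowerSeries ℤ) = tsmul n (ofNat(c)) (tone n) := by
  rw [← tl_one, ← tl_smul]
  congr 1
  rw [zsmul_eq_mul, mul_one, Int.cast_ofNat]

theorem tl_neg (n : ℕ) (f : PowerSeries ℤ) : tl n (-f) = tsmul n (-1) (tl n f) := by
  rw [← tl_smul]
  congr 1
  simp

/-! ### the numerators of `D` -/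

/-- `D₂ Δ² Δ₂²` -/
def P2 : PowerSeries ℤ := elimDh2 (Ez ^ 3) Dz (Vser 2 Ez ^ 3) (Vser 2 Dz)

/-- `D₃ Δ⁵ Δ₃³` -/
def P3 : PowerSeries ℤ := elimDh3 (Ez ^ 3) Dz (Vser 3 Ez ^ 3) (Vser 3 Dz)

theorem tl_Ez_8 : tl 8 Ez = [1, 240, 2160, 6720, 17520, 30240, 60480, 82560] := by
  rw [tl_Ez]; decide +kernel

theorem tl_Dz_8 : tl 8 Dz = [0, 1, -24, 252, -1472, 4830, -6048, -16744] := by
  rw [tl_Dz]; decide +kernel

theorem tl_Ez_6 : tl 6 Ez = [1, 240, 2160, 6720, 17520, 30240] := by
  rw [tl_Ez]; decide +kernel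

theorem tl_Dz_6 : tl 6 Dz = [0, 1, -24, 252, -1472, 4830] := by
  rw [tl_Dz]; decide +kernel

theorem tl_P2 : tl 6 P2 = [0, 0, 0, 0, 0, -16777216] := by
  rw [P2, elimDh2]
  simp only [tl_sub, tl_mul, tl_pow, tl_add, tl_neg, tl_ofNat,
    tl_Vser _ _ (show 0 < 2 by norm_num), tl_Dz_6, tl_Ez_6]
  decide +kernel

theorem tl_P3 : tl 8 P3 = [0, 0, 0, 0, 0, 0, 0, -387420489] := by
  rw [P3, elimDh3]
  simp only [tl_sub, tl_mul, tl_pow, tl_add, tl_neg, tl_ofNat,
    tl_Vser _ _ (show 0 < 3 by norm_num), tl_Dz_8, tl_Ez_8]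
  decide +kernel

theorem coeff_P2 : PowerSeries.coeff 5 P2 = -16777216 := by
  have h := tl_getD 6 P2 (i := 5) (by norm_num)
  rw [tl_P2] at h
  simpa using h.symm

theorem coeff_P3 : PowerSeries.coeff 7 P3 = -387420489 := by
  have h := tl_getD 8 P3 (i := 7) (by norm_num)
  rw [tl_P3] at h
  simpa using h.symm

theorem elimD2_mul : elimD2 (jqModC ℤ) (qExpand ℤ 2 (jqModC ℤ)) * DL ^ 2 * qExpand ℤ 2 DL ^ 2
    = ιZ P2 := by
  rw [elimD2_hom, jZ_mul_DL, qExpand_jZ_mul, P2, map_elimDh2, ← qExpand_ιZ 2 Dz]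
  rfl

theorem elimD3_mul : elimD3 (jqModC ℤ) (qExpand ℤ 3 (jqModC ℤ)) * DL ^ 5 * qExpand ℤ 3 DL ^ 3
    = ιZ P3 := by
  rw [elimD3_hom, jZ_mul_DL, qExpand_jZ_mul, P3, map_elimDh3, ← qExpand_ιZ 3 Dz]
  rfl

/-! ### over a field -/

section Field

variable (K : Type*) [Field K]

/-- `t₂` over `K` -/
def t2 : LaurentSeries K := coeffMap (Int.castRingHom K) t2Z

/-- `t₃` over `K` -/
def t3 : LaurentSeries K := coeffMap (Int.castRingHom K) t3Z

theorem t2_rel_a : jqModC K * t2 K ^ 2 = (t2 K + 256) ^ 3 := by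
  have h := congrArg (coeffMap (Int.castRingHom K)) t2Z_rel_a
  simpa only [t2, map_mul, map_pow, map_add, map_ofNat, coeffMap_jqModC] using h

theorem t2_rel_b : qExpand K 2 (jqModC K) * t2 K = (t2 K + 16) ^ 3 := by
  have h := congrArg (coeffMap (Int.castRingHom K)) t2Z_rel_b
  simpa only [t2, map_mul, map_pow, map_add, map_ofNat, coeffMap_jqModC, coeffMap_qExpand] using h

theorem t3_rel_a : jqModC K * t3 K ^ 3 = (t3 K + 27) * (t3 K + 243) ^ 3 := by
  have h := congrArg (coeffMap (Int.castRingHom K)) t3Z_rel_a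
  simpa only [t3, map_mul, map_pow, map_add, map_ofNat, coeffMap_jqModC] using h

theorem t3_rel_b : qExpand K 3 (jqModC K) * t3 K = (t3 K + 27) * (t3 K + 3) ^ 3 := by
  have h := congrArg (coeffMap (Int.castRingHom K)) t3Z_rel_b
  simpa only [t3, map_mul, map_pow, map_add, map_ofNat, coeffMap_jqModC, coeffMap_qExpand] using h

theorem coeffMap_ιZ_coeff (P : PowerSeries ℤ) (n : ℕ) :
    (coeffMap (Int.castRingHom K) (ιZ P)).coeff (n : ℤ) = ((PowerSeries.coeff n P : ℤ) : K) := by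
  rw [coeffMap_coeff, ιZ_coeff_nat]
  rfl

theorem elimD2_ne_zero (h2 : (2 : K) ≠ 0) :
    elimD2 (jqModC K) (qExpand K 2 (jqModC K)) ≠ 0 := by
  intro h0
  have h := congrArg (coeffMap (Int.castRingHom K)) elimD2_mul
  rw [map_mul, map_mul, map_elimD2, coeffMap_jqModC, coeffMap_qExpand, coeffMap_jqModC, h0,
    zero_mul, zero_mul] at h
  have h5 := congrArg (fun x : LaurentSeries K => x.coeff ((5 : ℕ) : ℤ)) h
  simp only [coeffMap_ιZ_coeff, coeff_P2] at h5
  have : ((-16777216 : ℤ) : K) = -(2 : K) ^ 24 := by push_cast; norm_num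
  rw [this] at h5
  exact neg_ne_zero.mpr (pow_ne_zero 24 h2) h5.symm

theorem elimD3_ne_zero (h3 : (3 : K) ≠ 0) :
    elimD3 (jqModC K) (qExpand K 3 (jqModC K)) ≠ 0 := by
  intro h0
  have h := congrArg (coeffMap (Int.castRingHom K)) elimD3_mul
  rw [map_mul, map_mul, map_elimD3, coeffMap_jqModC, coeffMap_qExpand, coeffMap_jqModC, h0,
    zero_mul, zero_mul] at h
  have h5 := congrArg (fun x : LaurentSeries K => x.coeff ((7 : ℕ) : ℤ)) h
  simp only [coeffMap_ιZ_coeff, coeff_P3] at h5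
  have : ((-387420489 : ℤ) : K) = -(3 : K) ^ 18 := by push_cast; norm_num
  rw [this] at h5
  exact neg_ne_zero.mpr (pow_ne_zero 18 h3) h5.symm

/-- explicit formula: `t₂ = -N₂(j, j₂) / D₂(j, j₂)` -/
theorem t2_eq (h2 : (2 : K) ≠ 0) :
    t2 K = -elimN2 (jqModC K) (qExpand K 2 (jqModC K))
      / elimD2 (jqModC K) (qExpand K 2 (jqModC K)) := by
  have h := elim2 (t2 K) _ _ (t2_rel_a K) (t2_rel_b K)
  rw [eq_div_iff (elimD2_ne_zero K h2)]
  linear_combination h

/-- explicit formula: `t₃ = -N₃(j, j₃) / D₃(j, j₃)` -/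
theorem t3_eq (h3 : (3 : K) ≠ 0) :
    t3 K = -elimN3 (jqModC K) (qExpand K 3 (jqModC K))
      / elimD3 (jqModC K) (qExpand K 3 (jqModC K)) := by
  have h := elim3 (t3 K) _ _ (t3_rel_a K) (t3_rel_b K)
  rw [eq_div_iff (elimD3_ne_zero K h3)]
  linear_combination h

variable {K} in
theorem elimD2_mem (F : IntermediateField K (LaurentSeries K)) {j J : LaurentSeries K}
    (hj : j ∈ F) (hJ : J ∈ F) : elimD2 j J ∈ F := by
  have := map_elimD2 (algebraMap F (LaurentSeries K)) ⟨j, hj⟩ ⟨J, hJ⟩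
  exact this ▸ (elimD2 (⟨j, hj⟩ : F) ⟨J, hJ⟩).2

variable {K} in
theorem elimN2_mem (F : IntermediateField K (LaurentSeries K)) {j J : LaurentSeries K}
    (hj : j ∈ F) (hJ : J ∈ F) : elimN2 j J ∈ F := by
  have := map_elimN2 (algebraMap F (LaurentSeries K)) ⟨j, hj⟩ ⟨J, hJ⟩
  exact this ▸ (elimN2 (⟨j, hj⟩ : F) ⟨J, hJ⟩).2

variable {K} in
theorem elimD3_mem (F : IntermediateField K (LaurentSeries K)) {j J : LaurentSeries K}
    (hj : j ∈ F) (hJ : J ∈ F) : elimD3 j J ∈ F := by
  have := map_elimD3 (algebraMap F (LaurentSeries K)) ⟨j, hj⟩ ⟨J, hJ⟩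
  exact this ▸ (elimD3 (⟨j, hj⟩ : F) ⟨J, hJ⟩).2

variable {K} in
theorem elimN3_mem (F : IntermediateField K (LaurentSeries K)) {j J : LaurentSeries K}
    (hj : j ∈ F) (hJ : J ∈ F) : elimN3 j J ∈ F := by
  have := map_elimN3 (algebraMap F (LaurentSeries K)) ⟨j, hj⟩ ⟨J, hJ⟩
  exact this ▸ (elimN3 (⟨j, hj⟩ : F) ⟨J, hJ⟩).2

/-- **`t₂` is a modular function of level `M`** (`2 ∣ M`, `char K ≠ 2`). -/
theorem t2_mem_full (h2 : (2 : K) ≠ 0) (M : ℕ) (hM : 2 ∣ M) :
    t2 K ∈ modularFunctionFieldFullC K M := by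
  have hj : jqModC K ∈ modularFunctionFieldFullC K M := jqModC_mem_full K M
  have hJ : qExpand K 2 (jqModC K) ∈ modularFunctionFieldFullC K M := jqModCd_mem_full K M hM
  rw [t2_eq K h2]
  exact div_mem (neg_mem (elimN2_mem _ hj hJ)) (elimD2_mem _ hj hJ)

/-- **`t₃` is a modular function of level `M`** (`3 ∣ M`, `char K ≠ 3`). -/
theorem t3_mem_full (h3 : (3 : K) ≠ 0) (M : ℕ) (hM : 3 ∣ M) :
    t3 K ∈ modularFunctionFieldFullC K M := by
  have hj : jqModC K ∈ modularFunctionFieldFullC K M := jqModC_mem_full K M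
  have hJ : qExpand K 3 (jqModC K) ∈ modularFunctionFieldFullC K M := jqModCd_mem_full K M hM
  rw [t3_eq K h3]
  exact div_mem (neg_mem (elimN3_mem _ hj hJ)) (elimD3_mem _ hj hJ)

end Field

end Fermat.Agent.S18.H333

end
end
-- ===== PACK-END S18/H333/HauptMem.lean

-- ===== PACK-BEGIN S18/H333/Coord.lean
section



/-!
# S18 / NODE COORD (c3), helper333: existence of the coordinates

`node_coord` has EXACTLY the type of `Integ.node_coord` in the row skeleton
(origin/helper18:Fermat/Agent/S18/Integ/Skeleton.lean):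

    theorem node_coord (M : ℕ) [NeZero M] {ℓ : ℕ} [Fact ℓ.Prime] (hℓM : ¬ ℓ ∣ M)
        (h3 : ℓ = 3 → 2 ∣ M) (h2 : ℓ = 2 → 3 ∣ M) : Mod.CoordinateStatement M ℓ

`ℓ ≥ 5`: `x = j`;  `ℓ = 3`: `x = t₂ = q⁻¹(η(q)/η(q²))²⁴`;  `ℓ = 2`: `x = t₃ = q⁻¹(η(q)/η(q³))¹²`.
-/

set_option autoImplicit false

noncomputable section

namespace Fermat.Agent.S18.H333

open ModularCurve AlgebraicCurve HahnSeries

theorem coeffEmb_coeffMap_int (X : LaurentSeries ℤ) :
    coeffEmb Qb (coeffMap (Int.castRingHom ℚ) X) = coeffMap (Int.castRingHom Qb) X := by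
  rw [coeffEmb, coeffMap_coeffMap]
  exact coeffMap_congr (RingHom.ext_int _ _) X

theorem jOm_coe (M : ℕ) : ((Mod.jOm M : Mod.Om M) : LaurentSeries Qb) = jqModC Qb := by
  show coeffEmb Qb (qExpand ℚ 1 jq) = jqModC Qb
  rw [qExpand_one_apply, ← jqModC_rat, coeffEmb, coeffMap_jqModC]

/-- the element of `Ω = F_M` given by an integral series lying in `ℚ(j_d : d ∣ M)` -/
def omOf (M : ℕ) (X : LaurentSeries ℤ)
    (hX : coeffMap (Int.castRingHom ℚ) X ∈ modularFunctionFieldFull M) : Mod.Om M :=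
  ⟨coeffEmb Qb (coeffMap (Int.castRingHom ℚ) X), coeffEmb_mem_laurentBaseChange Qb hX⟩

theorem omOf_coe (M : ℕ) (X : LaurentSeries ℤ)
    (hX : coeffMap (Int.castRingHom ℚ) X ∈ modularFunctionFieldFull M) :
    ((omOf M X hX : Mod.Om M) : LaurentSeries Qb) = coeffMap (Int.castRingHom Qb) X :=
  coeffEmb_coeffMap_int X

theorem t2Q_mem (M : ℕ) (hM : 2 ∣ M) :
    coeffMap (Int.castRingHom ℚ) t2Z ∈ modularFunctionFieldFull M :=
  t2_mem_full ℚ (by norm_num) M hM

theorem t3Q_mem (M : ℕ) (hM : 3 ∣ M) :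
    coeffMap (Int.castRingHom ℚ) t3Z ∈ modularFunctionFieldFull M :=
  t3_mem_full ℚ (by norm_num) M hM

/-- `t₂ ∈ Ω = F_M` (`2 ∣ M`) -/
def t2Om (M : ℕ) (hM : 2 ∣ M) : Mod.Om M := omOf M t2Z (t2Q_mem M hM)

/-- `t₃ ∈ Ω = F_M` (`3 ∣ M`) -/
def t3Om (M : ℕ) (hM : 3 ∣ M) : Mod.Om M := omOf M t3Z (t3Q_mem M hM)

theorem t2Om_rel (M : ℕ) (hM : 2 ∣ M) :
    Mod.jOm M * t2Om M hM ^ 2 = (t2Om M hM + 256) ^ 3 := by
  apply Subtype.ext
  have h := t2_rel_a Qb
  have hx : ((t2Om M hM : Mod.Om M) : LaurentSeries Qb) = t2 Qb := omOf_coe M t2Z _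
  push_cast
  rw [jOm_coe, hx]
  exact h

theorem t3Om_rel (M : ℕ) (hM : 3 ∣ M) :
    Mod.jOm M * t3Om M hM ^ 3 = (t3Om M hM + 27) * (t3Om M hM + 243) ^ 3 := by
  apply Subtype.ext
  have h := t3_rel_a Qb
  have hx : ((t3Om M hM : Mod.Om M) : LaurentSeries Qb) = t3 Qb := omOf_coe M t3Z _
  push_cast
  rw [jOm_coe, hx]
  exact h

/-- **NODE COORD.** -/
theorem node_coord (M : ℕ) [NeZero M] {ℓ : ℕ} [Fact ℓ.Prime] (hℓM : ¬ ℓ ∣ M)
    (h3 : ℓ = 3 → 2 ∣ M) (h2 : ℓ = 2 → 3 ∣ M) : Mod.CoordinateStatement M ℓ := by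
  classical
  have hp : ℓ.Prime := Fact.out
  by_cases hl3 : ℓ = 3
  · refine ⟨t2Om M (h3 hl3), {0, -64}, Or.inr ⟨Or.inl ⟨hl3, t2Om_rel M (h3 hl3), ?_⟩, ?_⟩⟩
    · intro s; simp
    · exact ⟨t2Z, t2Z_coeff_neg_one, fun k hk => t2Z_coeff_of_lt hk, omOf_coe M t2Z _,
        t2Q_mem M (h3 hl3)⟩
  by_cases hl2 : ℓ = 2
  · refine ⟨t3Om M (h2 hl2), {0, -27}, Or.inr ⟨Or.inr ⟨hl2, t3Om_rel M (h2 hl2), ?_⟩, ?_⟩⟩
    · intro s; simp
    · exact ⟨t3Z, t3Z_coeff_neg_one, fun k hk => t3Z_coeff_of_lt hk, omOf_coe M t3Z _,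
        t3Q_mem M (h2 hl2)⟩
  · refine ⟨Mod.jOm M, {0, 1728}, Or.inl ⟨?_, rfl, ?_⟩⟩
    · have h2' := hp.two_le
      by_contra hlt
      have : ℓ = 4 := by omega
      subst this
      exact absurd hp (by norm_num)
    · intro s; simp

end Fermat.Agent.S18.H333

end
end
-- ===== PACK-END S18/H333/Coord.lean

-- ===== PACK-BEGIN Lib/RR/Zeros.lean
section



/-!
# RR library, layer L2: the zeros of `x` number at most `[F : K(x)]`  (Stichtenoth 1.3.3)

Proof.  Let `P_1, …, P_r` be distinct zeros of `x`, `e_i = ord_{P_i} x`.  Choose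
uniformizers `t_i` at `P_i` and (approximation) `s_i` with `ord_{P_i} s_i = 0` and
`ord_{P_k} s_i ≥ M` for `k ≠ i`, `M` large.  The `∑ e_i` elements `t_i ^ a * s_i`
(`0 ≤ a < e_i`) are linearly independent over `K(x)`: the order of a nonzero element of `K(x)`
at `P_i` is `n * e_i` with `n` independent of `i`; in a nontrivial relation pick the term with
lexicographically least `(n, a)`; at its place it has strictly smaller order than all others.
-/

set_option autoImplicit false

noncomputable section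

open AlgebraicCurve Polynomial

namespace Fermat.Agent.Lib.RR

variable {K F : Type*} [Field K] [Field F] [Algebra K F]

theorem add_ne_zero_of_ord_lt (v : Place K F) {f g : F}
    (h : v.ord f < v.ord g) : f + g ≠ 0 := by
  intro h0
  have : g = -f := by rw [← sub_eq_zero, sub_neg_eq_add, add_comm]; exact h0
  rw [this, ord_neg] at h
  exact lt_irrefl _ h

theorem aeval_mem (v : Place K F) {x : F} (hx : 0 ≤ v.ord x) (p : K[X]) :
    aeval x p ∈ v.toValuationSubring := by
  induction p using Polynomial.induction_on' with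
  | add p q hp hq => rw [map_add]; exact add_mem hp hq
  | monomial n c =>
    rw [aeval_monomial]
    exact mul_mem (v.algebraMap_mem' c) (pow_mem (mem_of_ord_nonneg v hx) n)

/-- A polynomial in `x` with nonzero constant term is a unit at every zero of `x`. -/
theorem aeval_of_coeff_zero_ne (v : Place K F) {x : F} (hx : 0 < v.ord x) {p : K[X]}
    (hp : p.coeff 0 ≠ 0) : aeval x p ≠ 0 ∧ v.ord (aeval x p) = 0 := by
  have hdecomp : aeval x p = algebraMap K F (p.coeff 0) + aeval x p.divX * x := by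
    conv_lhs => rw [← Polynomial.divX_mul_X_add p]
    simp [add_comm]
  have hc0 : algebraMap K F (p.coeff 0) ≠ 0 := by
    simpa using hp
  have hc : v.ord (algebraMap K F (p.coeff 0)) = 0 := ord_algebraMap v _
  rcases eq_or_ne (aeval x p.divX * x) 0 with h0 | h0
  · rw [hdecomp, h0, add_zero]; exact ⟨hc0, hc⟩
  · have hx0 : x ≠ 0 := right_ne_zero_of_mul h0
    have hr0 : aeval x p.divX ≠ 0 := left_ne_zero_of_mul h0
    have hr : 0 ≤ v.ord (aeval x p.divX) := ord_nonneg_of_mem v (aeval_mem v hx.le _)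
    have hlt : v.ord (algebraMap K F (p.coeff 0)) < v.ord (aeval x p.divX * x) := by
      rw [hc, v.ord_mul hr0 hx0]; omega
    rw [hdecomp]
    exact ⟨add_ne_zero_of_ord_lt v hlt, by rw [ord_add_eq_of_lt v hc0 h0 hlt, hc]⟩

/-- The order of a nonzero polynomial in `x` at a zero of `x`. -/
theorem aeval_ord (v : Place K F) {x : F} (hx : 0 < v.ord x) {p : K[X]} (hp : p ≠ 0) :
    aeval x p ≠ 0 ∧ v.ord (aeval x p) = (p.rootMultiplicity 0 : ℤ) * v.ord x := by
  obtain ⟨q, hq, hq'⟩ := Polynomial.exists_eq_pow_rootMultiplicity_mul_and_not_dvd p hp 0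
  have hq0 : q.coeff 0 ≠ 0 := by
    intro h; apply hq'
    rw [C_0, sub_zero]; exact Polynomial.X_dvd_iff.mpr h
  obtain ⟨h1, h2⟩ := aeval_of_coeff_zero_ne v hx hq0
  have hx0 : x ≠ 0 := ne_zero_of_ord_ne_zero v hx.ne'
  have hval : aeval x p = x ^ (p.rootMultiplicity 0) * aeval x q := by
    conv_lhs => rw [hq]
    simp
  rw [hval]
  refine ⟨mul_ne_zero (pow_ne_zero _ hx0) h1, ?_⟩
  rw [v.ord_mul (pow_ne_zero _ hx0) h1, ord_pow, h2, add_zero]

/-- **Lemma A**: the order of a nonzero element of `K(x)` at a zero `v` of `x` is a multiple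
`n * ord_v x`, with `n` independent of `v`. -/
theorem exists_ord_eq_mul {x : F} (c : IntermediateField.adjoin K {x}) (hc : c ≠ 0) :
    ∃ n : ℤ, ∀ v : Place K F, 0 < v.ord x → v.ord (c : F) = n * v.ord x := by
  obtain ⟨r, s, hrs⟩ := (IntermediateField.mem_adjoin_simple_iff K (c : F)).mp c.2
  have hcF : (c : F) ≠ 0 := by simpa using hc
  have hr : r ≠ 0 := by
    rintro rfl; apply hcF; rw [hrs]; simp
  have hs : s ≠ 0 := by
    rintro rfl; apply hcF; rw [hrs]; simp
  refine ⟨(r.rootMultiplicity 0 : ℤ) - (s.rootMultiplicity 0 : ℤ), fun v hv => ?_⟩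
  obtain ⟨hr1, hr2⟩ := aeval_ord v hv hr
  obtain ⟨hs1, hs2⟩ := aeval_ord v hv hs
  rw [hrs, div_eq_mul_inv, v.ord_mul hr1 (inv_ne_zero hs1), v.ord_inv, hr2, hs2]
  ring


/-- **L2** (zeros): the zeros of `x`, counted with multiplicity, number at most `[F : K(x)]`. -/
theorem sum_ord_le_finrank (hdeg : ∀ v : Place K F, v.deg = 1) (x : F)
    [FiniteDimensional (IntermediateField.adjoin K {x}) F]
    (S : Finset (Place K F)) (hS : ∀ v ∈ S, 0 < v.ord x) :
    ∑ v ∈ S, v.ord x ≤ (Module.finrank (IntermediateField.adjoin K {x}) F : ℤ) := by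
  classical
  have _ := hdeg
  -- multiplicities
  set e : Place K F → ℕ := fun v => (v.ord x).toNat with he
  have he_cast : ∀ v ∈ S, (e v : ℤ) = v.ord x := fun v hv =>
    Int.toNat_of_nonneg (hS v hv).le
  -- uniformizers
  choose t ht using fun v : Place K F => exists_ord_eq_one v
  have ht0 : ∀ v, t v ≠ 0 := fun v => ne_zero_of_ord_ne_zero v (by rw [ht v]; omega)
  -- the bound `M`
  set M : ℕ := ∑ v ∈ S, e v + ∑ v ∈ S, ∑ w ∈ S, e w * (v.ord (t w)).natAbs with hM
  have hMbound : ∀ v ∈ S, ∀ w ∈ S, e v + e w * (v.ord (t w)).natAbs ≤ M := by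
    intro v hv w hw
    have h1 : e v ≤ ∑ v ∈ S, e v := Finset.single_le_sum (fun _ _ => Nat.zero_le _) hv
    have h2 : e w * (v.ord (t w)).natAbs ≤ ∑ w ∈ S, e w * (v.ord (t w)).natAbs :=
      Finset.single_le_sum (f := fun w => e w * (v.ord (t w)).natAbs)
        (fun _ _ => Nat.zero_le _) hw
    have h3 : ∑ w ∈ S, e w * (v.ord (t w)).natAbs
        ≤ ∑ v ∈ S, ∑ w ∈ S, e w * (v.ord (t w)).natAbs :=
      Finset.single_le_sum (f := fun v => ∑ w ∈ S, e w * (v.ord (t w)).natAbs)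
        (fun _ _ => Nat.zero_le _) hv
    omega
  -- approximating units
  choose s hs0 hsv hsw using fun w : Place K F =>
    exists_unit_zeros w (S.erase w) (Finset.notMem_erase w S) M
  -- the family
  let I := Σ v : S, Fin (e v)
  let b : I → F := fun i => t i.1 ^ (i.2 : ℕ) * s i.1
  have hb0 : ∀ i, b i ≠ 0 := fun i => mul_ne_zero (pow_ne_zero _ (ht0 _)) (hs0 _)
  -- orders of the family
  have hb_self : ∀ (i : I) (v : Place K F), v = i.1 → v.ord (b i) = ((i.2 : ℕ) : ℤ) := by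
    rintro i v rfl
    show (i.1 : Place K F).ord (t i.1 ^ (i.2 : ℕ) * s i.1) = _
    rw [Place.ord_mul _ (pow_ne_zero _ (ht0 _)) (hs0 _), ord_pow, ht, hsv]
    simp
  have hb_other : ∀ (i : I) (v : Place K F), v ∈ S → v ≠ i.1 → (e v : ℤ) ≤ v.ord (b i) := by
    intro i v hv hne
    show (e v : ℤ) ≤ v.ord (t i.1 ^ (i.2 : ℕ) * s i.1)
    rw [Place.ord_mul _ (pow_ne_zero _ (ht0 _)) (hs0 _), ord_pow]
    have h1 : (M : ℤ) ≤ v.ord (s i.1) :=
      hsw i.1 v (Finset.mem_erase.mpr ⟨hne, hv⟩)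
    have h2 := hMbound v hv i.1 i.1.2
    have h3 : ((i.2 : ℕ) : ℤ) < e i.1 := by exact_mod_cast i.2.2
    have h4 : -(((v.ord (t i.1)).natAbs : ℕ) : ℤ) ≤ v.ord (t i.1) := by
      rw [Int.natCast_natAbs]; exact neg_abs_le _
    have h5 : -((e i.1 : ℤ) * ((v.ord (t i.1)).natAbs : ℤ)) ≤ ((i.2 : ℕ) : ℤ) * v.ord (t i.1) := by
      have h6 : (0 : ℤ) ≤ ((i.2 : ℕ) : ℤ) := Int.natCast_nonneg _
      have h7 : (0 : ℤ) ≤ ((v.ord (t i.1)).natAbs : ℤ) := Int.natCast_nonneg _
      nlinarith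
    have h2' : (e v : ℤ) + (e i.1 : ℤ) * ((v.ord (t i.1)).natAbs : ℤ) ≤ M := by
      exact_mod_cast h2
    omega
  -- linear independence over `K(x)`
  have hli : LinearIndependent (IntermediateField.adjoin K {x}) b := by
    rw [Fintype.linearIndependent_iff]
    intro g hg
    by_contra hcon
    simp only [not_forall] at hcon
    obtain ⟨j, hj⟩ := hcon
    -- orders of the coefficients
    have hn : ∀ i : I, ∃ n : ℤ, g i ≠ 0 →
        ∀ v : Place K F, 0 < v.ord x → v.ord ((g i : F)) = n * v.ord x := by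
      intro i
      by_cases hgi : g i = 0
      · exact ⟨0, fun h => absurd hgi h⟩
      · obtain ⟨n, hn⟩ := exists_ord_eq_mul (g i) hgi
        exact ⟨n, fun _ => hn⟩
    choose n hn using hn
    set E : ℤ := ∑ v ∈ S, (e v : ℤ) with hE
    have hE_ge : ∀ v ∈ S, (e v : ℤ) ≤ E := fun v hv =>
      Finset.single_le_sum (f := fun v => (e v : ℤ)) (fun _ _ => Int.natCast_nonneg _) hv
    let T : Finset I := Finset.univ.filter fun i => g i ≠ 0
    have hT : T.Nonempty := ⟨j, by simp [T, hj]⟩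
    obtain ⟨i₀, hi₀T, hmin⟩ := T.exists_min_image (fun i => n i * E + ((i.2 : ℕ) : ℤ)) hT
    have hgi₀ : g i₀ ≠ 0 := by simpa [T] using hi₀T
    set v₀ : Place K F := i₀.1.1 with hv₀
    have hv₀S : v₀ ∈ S := i₀.1.2
    have hv₀x : 0 < v₀.ord x := hS v₀ hv₀S
    have ha₀ : ((i₀.2 : ℕ) : ℤ) < e v₀ := by exact_mod_cast i₀.2.2
    have he₀ : (e v₀ : ℤ) = v₀.ord x := he_cast v₀ hv₀S
    let y : I → F := fun i => (g i : F) * b i
    have hy : ∀ i, g i • b i = y i := fun i => by
      show g i • b i = (g i : F) * b i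
      rw [Algebra.smul_def]; rfl
    have hgF : ∀ i, g i ≠ 0 → (g i : F) ≠ 0 := fun i h => by simpa using h
    have hy₀ : y i₀ ≠ 0 := mul_ne_zero (hgF i₀ hgi₀) (hb0 i₀)
    have hord₀ : v₀.ord (y i₀) = n i₀ * v₀.ord x + ((i₀.2 : ℕ) : ℤ) := by
      show v₀.ord ((g i₀ : F) * b i₀) = _
      rw [v₀.ord_mul (hgF i₀ hgi₀) (hb0 i₀), hn i₀ hgi₀ v₀ hv₀x, hb_self i₀ v₀ rfl]
    have hothers : ∀ i ∈ Finset.univ.erase i₀, y i = 0 ∨ v₀.ord (y i₀) < v₀.ord (y i) := by
      intro i hi
      have hne : i ≠ i₀ := Finset.ne_of_mem_erase hi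
      by_cases hgi : g i = 0
      · left; show (g i : F) * b i = 0; rw [hgi]; simp
      right
      have hiT : i ∈ T := by simp [T, hgi]
      have hmin_i := hmin i hiT
      have hai : ((i.2 : ℕ) : ℤ) < e i.1 := by exact_mod_cast i.2.2
      have hai0 : (0 : ℤ) ≤ ((i.2 : ℕ) : ℤ) := Int.natCast_nonneg _
      have ha₀0 : (0 : ℤ) ≤ ((i₀.2 : ℕ) : ℤ) := Int.natCast_nonneg _
      have hEi : (e i.1 : ℤ) ≤ E := hE_ge i.1 i.1.2
      have hE₀ : (e v₀ : ℤ) ≤ E := hE_ge v₀ hv₀S
      -- `n i ≥ n i₀`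
      have hnge : n i₀ ≤ n i := by
        by_contra hlt
        have hlt' : n i + 1 ≤ n i₀ := by omega
        have : (n i + 1) * E ≤ n i₀ * E :=
          mul_le_mul_of_nonneg_right hlt' (by linarith)
        nlinarith
      have hordi : v₀.ord (y i) = n i * v₀.ord x + v₀.ord (b i) := by
        show v₀.ord ((g i : F) * b i) = _
        rw [v₀.ord_mul (hgF i hgi) (hb0 i), hn i hgi v₀ hv₀x]
      rw [hord₀, hordi]
      by_cases hvi : (i.1 : Place K F) = v₀
      · -- same place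
        have hbi : v₀.ord (b i) = ((i.2 : ℕ) : ℤ) := hb_self i v₀ hvi.symm
        rw [hbi]
        rcases hnge.lt_or_eq with hlt | heq
        · have hlt' : n i₀ + 1 ≤ n i := by omega
          have : (n i₀ + 1) * v₀.ord x ≤ n i * v₀.ord x :=
            mul_le_mul_of_nonneg_right hlt' hv₀x.le
          nlinarith
        · have h1 : ((i₀.2 : ℕ) : ℤ) ≤ ((i.2 : ℕ) : ℤ) := by
            rw [heq] at hmin_i; linarith
          have h2 : ((i₀.2 : ℕ) : ℤ) ≠ ((i.2 : ℕ) : ℤ) := by
            intro h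
            apply hne
            have h3 : (i.2 : ℕ) = (i₀.2 : ℕ) := by exact_mod_cast h.symm
            have h4 : i.1 = i₀.1 := Subtype.ext hvi
            obtain ⟨iv, ia⟩ := i
            obtain ⟨jv, ja⟩ := i₀
            simp only at h4 h3
            subst h4
            congr 1
            exact Fin.ext h3
          rw [heq]
          omega
      · -- different place
        have hbi : (e v₀ : ℤ) ≤ v₀.ord (b i) := hb_other i v₀ hv₀S (fun h => hvi h.symm)
        have : n i₀ * v₀.ord x ≤ n i * v₀.ord x :=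
          mul_le_mul_of_nonneg_right hnge hv₀x.le
        omega
    have hsum : y i₀ + ∑ i ∈ Finset.univ.erase i₀, y i = 0 := by
      rw [Finset.add_sum_erase _ _ (Finset.mem_univ i₀)]
      simpa [hy] using hg
    rcases ord_sum_gt v₀ (Finset.univ.erase i₀) y (v₀.ord (y i₀)) hothers with h0 | hgt
    · rw [h0, add_zero] at hsum; exact hy₀ hsum
    · have : ∑ i ∈ Finset.univ.erase i₀, y i = -y i₀ := by
        rw [← sub_eq_zero, sub_neg_eq_add, add_comm]; exact hsum
      rw [this, ord_neg] at hgt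
      exact lt_irrefl _ hgt
  have hcard := hli.fintype_card_le_finrank
  have hcardI : Fintype.card I = ∑ v ∈ S, e v := by
    simp only [I, Fintype.card_sigma, Fintype.card_fin]
    exact Finset.sum_coe_sort S e
  rw [hcardI] at hcard
  have hsum : ∑ v ∈ S, v.ord x = ((∑ v ∈ S, e v : ℕ) : ℤ) := by
    push_cast
    exact Finset.sum_congr rfl fun v hv => (he_cast v hv).symm
  rw [hsum]
  exact_mod_cast hcard


theorem sum_ord_le_finrank_of_eq (hdeg : ∀ v : Place K F, v.deg = 1) (x : F)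
    (L : IntermediateField K F) (hL : L = IntermediateField.adjoin K {x})
    [FiniteDimensional L F]
    (S : Finset (Place K F)) (hS : ∀ v ∈ S, 0 < v.ord x) :
    ∑ v ∈ S, v.ord x ≤ (Module.finrank L F : ℤ) := by
  subst hL
  exact sum_ord_le_finrank hdeg x S hS

theorem adjoin_inv_eq (x : F) :
    IntermediateField.adjoin K {x} = IntermediateField.adjoin K {x⁻¹} := by
  apply le_antisymm
  · rw [IntermediateField.adjoin_simple_le_iff]
    have := inv_mem (IntermediateField.mem_adjoin_simple_self K x⁻¹)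
    rwa [inv_inv] at this
  · rw [IntermediateField.adjoin_simple_le_iff]
    exact inv_mem (IntermediateField.mem_adjoin_simple_self K x)

/-- **L2** (poles): the poles of `x`, counted with multiplicity, number at most `[F : K(x)]`. -/
theorem sum_neg_ord_le_finrank (hdeg : ∀ v : Place K F, v.deg = 1) (x : F)
    [FiniteDimensional (IntermediateField.adjoin K {x}) F]
    (S : Finset (Place K F)) (hS : ∀ v ∈ S, v.ord x < 0) :
    ∑ v ∈ S, -v.ord x ≤ (Module.finrank (IntermediateField.adjoin K {x}) F : ℤ) := by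
  have h := sum_ord_le_finrank_of_eq hdeg x⁻¹ (IntermediateField.adjoin K {x})
    (adjoin_inv_eq x) S (fun v hv => by rw [v.ord_inv]; have := hS v hv; omega)
  simpa [Place.ord_inv] using h

end Fermat.Agent.Lib.RR

end
end
-- ===== PACK-END Lib/RR/Zeros.lean

-- ===== PACK-BEGIN Lib/RR/H443/Discrete.lean
section




/-!
# RR bridge (helper443), part 1: valuation rings of a function field are discrete

Characteristic-free.  Let `F / K` be a field extension such that `F` is finite over `K(x)` for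
every transcendental `x`.  Then every valuation subring `O ≠ ⊤` of `F` containing `K` is a
principal ideal ring (Stichtenoth, Thm. 1.1.6), hence defines a `Place K F`.
-/

set_option autoImplicit false

noncomputable section

open AlgebraicCurve Polynomial IntermediateField

namespace Fermat.Agent.Lib.RR.H443

variable {K F : Type*} [Field K] [Field F] [Algebra K F]

section Valuation

variable {Γ : Type*} [LinearOrderedCommGroupWithZero Γ] (v : Valuation F Γ)

/-- A finite sum whose nonzero terms have pairwise distinct valuations vanishes only if all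
terms vanish. -/
theorem eq_zero_of_sum_eq_zero {ι : Type*} (s : Finset ι) (f : ι → F)
    (hinj : ∀ i ∈ s, ∀ j ∈ s, f i ≠ 0 → f j ≠ 0 → v (f i) = v (f j) → i = j)
    (hsum : ∑ i ∈ s, f i = 0) : ∀ i ∈ s, f i = 0 := by
  classical
  by_contra hcon
  push Not at hcon
  obtain ⟨i₁, hi₁, hfi₁⟩ := hcon
  have hne : (s.filter fun i => f i ≠ 0).Nonempty := ⟨i₁, Finset.mem_filter.mpr ⟨hi₁, hfi₁⟩⟩
  obtain ⟨i₀, hi₀, hmax⟩ := Finset.exists_max_image _ (fun i => v (f i)) hne
  rw [Finset.mem_filter] at hi₀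
  have hv0 : v (f i₀) ≠ 0 := (Valuation.ne_zero_iff v).mpr hi₀.2
  have hrest : v (∑ j ∈ s.erase i₀, f j) < v (f i₀) := by
    refine Valuation.map_sum_lt v hv0 fun j hj => ?_
    rw [Finset.mem_erase] at hj
    by_cases hfj : f j = 0
    · rw [hfj, map_zero]
      exact zero_lt_iff.mpr hv0
    · have hle := hmax j (Finset.mem_filter.mpr ⟨hj.2, hfj⟩)
      refine lt_of_le_of_ne hle fun heq => hj.1 ?_
      exact hinj j hj.2 i₀ hi₀.1 hfj hi₀.2 heq
  have htot : v (∑ j ∈ s, f j) = v (f i₀) := by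
    rw [← Finset.add_sum_erase s f hi₀.1]
    exact Valuation.map_add_eq_of_lt_left v hrest
  rw [hsum, map_zero] at htot
  exact hv0 htot.symm

variable (hK : ∀ a : K, a ≠ 0 → v (algebraMap K F a) = 1)

include hK in
theorem v_algebraMap_le_one (a : K) : v (algebraMap K F a) ≤ 1 := by
  rcases eq_or_ne a 0 with rfl | ha
  · simp
  · exact (hK a ha).le

include hK in
theorem v_aeval_le_one {x : F} (hx : v x ≤ 1) (p : K[X]) : v (aeval x p) ≤ 1 := by
  rw [aeval_eq_sum_range]
  refine Valuation.map_sum_le v fun i _ => ?_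
  rw [Algebra.smul_def, map_mul, map_pow]
  exact mul_le_one' (v_algebraMap_le_one v hK _) (pow_le_one' hx i)

include hK in
/-- `v (p(x)) = 1` when `p(0) ≠ 0` and `v x < 1`. -/
theorem v_aeval_eq_one {x : F} (hx : v x < 1) (p : K[X]) (hp : p.coeff 0 ≠ 0) :
    v (aeval x p) = 1 := by
  have hdecomp : aeval x p = algebraMap K F (p.coeff 0) + x * aeval x p.divX := by
    have := congrArg (aeval x) (Polynomial.divX_mul_X_add p)
    simp only [map_add, map_mul, aeval_X, aeval_C] at this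
    rw [← this]
    ring
  rw [hdecomp]
  have h1 : v (x * aeval x p.divX) < v (algebraMap K F (p.coeff 0)) := by
    rw [hK _ hp, map_mul]
    calc v x * v (aeval x p.divX) ≤ v x * 1 :=
          mul_le_mul' le_rfl (v_aeval_le_one v hK hx.le _)
      _ = v x := mul_one _
      _ < 1 := hx
  rw [Valuation.map_add_eq_of_lt_left v h1, hK _ hp]

include hK in
/-- `v (p(x)) = v(x) ^ ord₀ p` for `p ≠ 0`, when `v x < 1`. -/
theorem v_aeval {x : F} (hx : v x < 1) (p : K[X]) (hp : p ≠ 0) :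
    v (aeval x p) = v x ^ p.rootMultiplicity 0 := by
  obtain ⟨q, hq, hndvd⟩ := Polynomial.exists_eq_pow_rootMultiplicity_mul_and_not_dvd p hp 0
  have hq0 : q.coeff 0 ≠ 0 := by
    intro h0
    apply hndvd
    rw [map_zero, sub_zero]
    exact Polynomial.X_dvd_iff.mpr h0
  conv_lhs => rw [hq]
  rw [map_zero, sub_zero, map_mul, map_pow, aeval_X, map_mul, map_pow,
    v_aeval_eq_one v hK hx q hq0, mul_one]

include hK in
/-- **Chain lemma** (Stichtenoth 1.1.6 (a)). -/
theorem chain_le_finrank {x : F} (hx0 : x ≠ 0) (hx : v x < 1) [FiniteDimensional K⟮x⟯ F]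
    {m : ℕ} (y : Fin m → F) (hy1 : ∀ i, v (y i) < 1) (hyx : ∀ i, v x ≤ v (y i))
    (hmono : StrictMono fun i => v (y i)) :
    m ≤ Module.finrank K⟮x⟯ F := by
  classical
  have hvx0 : v x ≠ 0 := (Valuation.ne_zero_iff v).mpr hx0
  have hy0 : ∀ i, y i ≠ 0 := fun i h => by
    have := hyx i
    rw [h, map_zero] at this
    exact hvx0 (le_antisymm this zero_le)
  open scoped IntermediateField.algebraAdjoinAdjoin in
  have hli : LinearIndependent K⟮x⟯ y := by
    rw [← LinearIndependent.iff_fractionRing (R := Algebra.adjoin K {x}) (K := K⟮x⟯)]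
    rw [Fintype.linearIndependent_iff]
    intro c hc i
    -- choose polynomials
    have hex : ∀ j, ∃ p : K[X], aeval x p = (c j : F) := fun j => by
      have : (c j : F) ∈ (aeval x : K[X] →ₐ[K] F).range := by
        rw [← Algebra.adjoin_singleton_eq_range_aeval]
        exact (c j).2
      exact this
    choose p hp using hex
    have hsum : ∑ j ∈ Finset.univ, aeval x (p j) * y j = 0 := by
      rw [← hc]
      refine Finset.sum_congr rfl fun j _ => ?_
      rw [hp j]
      rfl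
    have hval : ∀ j, aeval x (p j) * y j ≠ 0 →
        v (aeval x (p j) * y j) = v x ^ (p j).rootMultiplicity 0 * v (y j) := by
      intro j hj
      have hpj : p j ≠ 0 := by
        rintro h
        rw [h, map_zero, zero_mul] at hj
        exact hj rfl
      rw [map_mul, v_aeval v hK hx (p j) hpj]
    have key := eq_zero_of_sum_eq_zero v Finset.univ (fun j => aeval x (p j) * y j) (by
      intro i _ j _ hi hj heq
      rw [hval i hi, hval j hj] at heq
      -- wlog on the multiplicities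
      have aux : ∀ (a b : ℕ) (i j : Fin m), a ≤ b →
          v x ^ a * v (y i) = v x ^ b * v (y j) → i = j := by
        intro a b i j hab h
        obtain ⟨d, rfl⟩ := Nat.exists_eq_add_of_le hab
        rw [pow_add, mul_assoc] at h
        have hpa : v x ^ a ≠ 0 := pow_ne_zero _ hvx0
        have h' : v (y i) = v x ^ d * v (y j) := mul_left_cancel₀ hpa h
        rcases Nat.eq_zero_or_pos d with rfl | hd
        · rw [pow_zero, one_mul] at h'
          exact hmono.injective h'
        · exfalso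
          have h1 : v x ^ d ≤ v x := by
            calc v x ^ d = v x ^ (d - 1 + 1) := by rw [Nat.sub_add_cancel hd]
              _ = v x ^ (d - 1) * v x := pow_succ _ _
              _ ≤ 1 * v x := mul_le_mul' (pow_le_one' hx.le _) le_rfl
              _ = v x := one_mul _
          have h2 : v x ^ d * v (y j) < v x := by
            calc v x ^ d * v (y j) ≤ v x * v (y j) := mul_le_mul' h1 le_rfl
              _ < v x * 1 := by
                  exact mul_lt_mul_of_pos_left (hy1 j) (zero_lt_iff.mpr hvx0)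
              _ = v x := mul_one _
          have h3 := hyx i
          rw [h'] at h3
          exact absurd h2 (not_lt.mpr h3)
      rcases le_total ((p i).rootMultiplicity 0) ((p j).rootMultiplicity 0) with h | h
      · exact aux _ _ i j h heq
      · exact (aux _ _ j i h heq.symm).symm) hsum
    have hi := key i (Finset.mem_univ i)
    have : aeval x (p i) = 0 := (mul_eq_zero.mp hi).resolve_right (hy0 i)
    apply Subtype.ext
    rw [← hp i, this]
    rfl
  simpa using hli.fintype_card_le_finrank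

end Valuation

section ValuationSubring

variable (O : ValuationSubring F)

/-- The valuation of a valuation subring containing `K` is trivial on `Kˣ`. -/
theorem valuation_algebraMap_eq_one (hK : ∀ a : K, algebraMap K F a ∈ O) (a : K) (ha : a ≠ 0) :
    O.valuation (algebraMap K F a) = 1 := by
  have h1 : O.valuation (algebraMap K F a) ≤ 1 := (O.valuation_le_one_iff _).mpr (hK a)
  have h2 : O.valuation (algebraMap K F a⁻¹) ≤ 1 := (O.valuation_le_one_iff _).mpr (hK a⁻¹)
  have hne : algebraMap K F a ≠ 0 := (map_ne_zero (algebraMap K F)).mpr ha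
  have hv0 : O.valuation (algebraMap K F a) ≠ 0 := (Valuation.ne_zero_iff _).mpr hne
  have hprod : O.valuation (algebraMap K F a) * O.valuation (algebraMap K F a⁻¹) = 1 := by
    rw [← map_mul, ← map_mul, mul_inv_cancel₀ ha, map_one, map_one]
  have h3 : 1 ≤ O.valuation (algebraMap K F a) := by
    by_contra hlt
    rw [not_le] at hlt
    have h4 : O.valuation (algebraMap K F a) * O.valuation (algebraMap K F a⁻¹) < 1 := by
      calc O.valuation (algebraMap K F a) * O.valuation (algebraMap K F a⁻¹)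
          ≤ O.valuation (algebraMap K F a) * 1 := mul_le_mul' le_rfl h2
        _ = O.valuation (algebraMap K F a) := mul_one _
        _ < 1 := hlt
    rw [hprod] at h4
    exact lt_irrefl _ h4
  exact le_antisymm h1 h3

/-- A nonzero nonunit of a valuation subring containing `K` is transcendental over `K`. -/
theorem transcendental_of_valuation_lt_one (hK : ∀ a : K, algebraMap K F a ∈ O) {x : F}
    (hx : O.valuation x < 1) (hx0 : x ≠ 0) : Transcendental K x := by
  intro halg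
  have hint : IsIntegral K x := halg.isIntegral
  have hinv : x⁻¹ ∈ Algebra.adjoin K {x} := by
    have h := IntermediateField.adjoin_simple_toSubalgebra_of_isAlgebraic halg
    have hmem' : x⁻¹ ∈ K⟮x⟯ := inv_mem (mem_adjoin_simple_self K x)
    have hmem : x⁻¹ ∈ (K⟮x⟯).toSubalgebra := hmem'
    rwa [h] at hmem
  have hxO : x ∈ O := (O.valuation_le_one_iff _).mp hx.le
  let S : Subalgebra K F := { O.toSubring with algebraMap_mem' := hK }
  have hle : Algebra.adjoin K {x} ≤ S :=
    Algebra.adjoin_le (Set.singleton_subset_iff.mpr (show x ∈ S from hxO))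
  have hinvO : x⁻¹ ∈ O := hle hinv
  have h1 : O.valuation x⁻¹ ≤ 1 := (O.valuation_le_one_iff _).mpr hinvO
  have hv0 : O.valuation x ≠ 0 := (Valuation.ne_zero_iff _).mpr hx0
  have h2 : O.valuation x * O.valuation x⁻¹ = 1 := by
    rw [← map_mul, mul_inv_cancel₀ hx0, map_one]
  have h3 : O.valuation x * O.valuation x⁻¹ < 1 := by
    calc O.valuation x * O.valuation x⁻¹ ≤ O.valuation x * 1 := mul_le_mul' le_rfl h1
      _ = O.valuation x := mul_one _
      _ < 1 := hx
  rw [h2] at h3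
  exact lt_irrefl _ h3

/-- **Stichtenoth 1.1.6**: divisibility is well-founded in a valuation ring of a function
field. -/
theorem wfDvdMonoid_of_finite (hK : ∀ a : K, algebraMap K F a ∈ O)
    (hfin : ∀ x : F, Transcendental K x → FiniteDimensional K⟮x⟯ F) : WfDvdMonoid O := by
  constructor
  rw [wellFounded_iff_isEmpty_descending_chain]
  refine ⟨fun ⟨f, hf⟩ => ?_⟩
  set v := O.valuation with hv
  have hne : ∀ n, ((f (n + 1) : O) : F) ≠ 0 := fun n h => by
    have := (hf n).1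
    exact this (Subtype.ext h)
  have hle1 : ∀ n, v (f n : F) ≤ 1 := fun n => (O.valuation_le_one_iff _).mpr (f n).2
  have hstep : ∀ n, v (f (n + 1) : F) < v (f (n + 2) : F) := by
    intro n
    obtain ⟨-, c, hc, hfc⟩ := hf (n + 1)
    have hcv : v (c : F) < 1 := by
      have : c ∈ IsLocalRing.maximalIdeal O := by
        rw [IsLocalRing.mem_maximalIdeal, mem_nonunits_iff]
        exact hc
      exact (O.valuation_lt_one_iff c).mp this
    have h0 : v (f (n + 2) : F) ≠ 0 := (Valuation.ne_zero_iff _).mpr (hne (n + 1))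
    have : (f (n + 1) : F) = (f (n + 1 + 1) : F) * (c : F) := by
      rw [hfc]; rfl
    rw [this, map_mul]
    calc v (f (n + 1 + 1) : F) * v (c : F) < v (f (n + 1 + 1) : F) * 1 :=
          mul_lt_mul_of_pos_left hcv (zero_lt_iff.mpr h0)
      _ = v (f (n + 2) : F) := mul_one _
  have hmono : StrictMono fun n : ℕ => v (f (n + 1) : F) := strictMono_nat_of_lt_succ hstep
  have hlt1 : ∀ n, v (f (n + 1) : F) < 1 := fun n => lt_of_lt_of_le (hstep n) (hle1 _)
  set x : F := (f 1 : F) with hx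
  have hx0 : x ≠ 0 := hne 0
  have hxt : Transcendental K x := transcendental_of_valuation_lt_one O hK (hlt1 0) hx0
  have := hfin x hxt
  have key := chain_le_finrank v (valuation_algebraMap_eq_one O hK) hx0 (hlt1 0)
    (m := Module.finrank K⟮x⟯ F + 1) (fun i => (f (i.1 + 1) : F)) (fun i => hlt1 _)
    (fun i => hmono.monotone (Nat.zero_le _)) (fun i j hij => hmono hij)
  omega

/-- A valuation subring `≠ ⊤` of a function field, containing the constants, is a place. -/
def placeOfValuationSubring (hK : ∀ a : K, algebraMap K F a ∈ O) (hO : O ≠ ⊤)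
    (hfin : ∀ x : F, Transcendental K x → FiniteDimensional K⟮x⟯ F) : Place K F where
  toValuationSubring := O
  algebraMap_mem' := hK
  ne_top' := hO
  isPrincipalIdealRing' := by
    have h := wfDvdMonoid_of_finite O hK hfin
    exact ((IsBezout.TFAE (R := O)).out 3 1).mp h

@[simp]
theorem placeOfValuationSubring_toValuationSubring (hK : ∀ a : K, algebraMap K F a ∈ O)
    (hO : O ≠ ⊤) (hfin : ∀ x : F, Transcendental K x → FiniteDimensional K⟮x⟯ F) :
    (placeOfValuationSubring O hK hO hfin).toValuationSubring = O := rfl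

end ValuationSubring

section Existence

variable (hfin : ∀ x : F, Transcendental K x → FiniteDimensional K⟮x⟯ F)

include hfin in
/-- Every transcendental element has a zero. -/
theorem exists_place_ord_pos {t : F} (ht : Transcendental K t) :
    ∃ v : Place K F, 0 < v.ord t := by
  have ht0 : t ≠ 0 := fun h => ht (h ▸ isAlgebraic_zero)
  let A : Subring F := (Algebra.adjoin K {t}).toSubring
  have htA : t ∈ A := Algebra.self_mem_adjoin_singleton K t
  let I : Ideal A := Ideal.span {⟨t, htA⟩}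
  have hI : I ≠ ⊤ := by
    intro h
    rw [Ideal.eq_top_iff_one, Ideal.mem_span_singleton'] at h
    obtain ⟨g, hg⟩ := h
    have hgF : (g : F) * t = 1 := congrArg Subtype.val hg
    have hgmem : (g : F) ∈ (aeval t : K[X] →ₐ[K] F).range := by
      rw [← Algebra.adjoin_singleton_eq_range_aeval]
      exact g.2
    obtain ⟨p, hp⟩ := hgmem
    have hp' : aeval t p = (g : F) := hp
    apply ht
    refine ⟨p * X - 1, ?_, ?_⟩
    · intro h0
      have := congrArg (fun q => Polynomial.coeff q 0) h0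
      simp at this
    · simp [hp', hgF]
  obtain ⟨B, hAB, hIB⟩ := Ideal.image_subset_nonunits_valuationSubring I hI
  have hK : ∀ a : K, algebraMap K F a ∈ B := fun a =>
    hAB ((Algebra.adjoin K {t}).algebraMap_mem a)
  have htB : t ∈ B.nonunits := hIB ⟨⟨t, htA⟩, Ideal.subset_span rfl, rfl⟩
  have htv : B.valuation t < 1 := (B.mem_nonunits_iff).mp htB
  have hB : B ≠ ⊤ := by
    intro h
    have h1 : t⁻¹ ∈ B := h ▸ ValuationSubring.mem_top _
    have h2 : B.valuation t⁻¹ ≤ 1 := (B.valuation_le_one_iff _).mpr h1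
    have h3 : B.valuation t * B.valuation t⁻¹ = 1 := by
      rw [← map_mul, mul_inv_cancel₀ ht0, map_one]
    have h4 : B.valuation t * B.valuation t⁻¹ < 1 := by
      calc B.valuation t * B.valuation t⁻¹ ≤ B.valuation t * 1 := mul_le_mul' le_rfl h2
        _ = B.valuation t := mul_one _
        _ < 1 := htv
    rw [h3] at h4
    exact lt_irrefl _ h4
  refine ⟨placeOfValuationSubring B hK hB hfin, ?_⟩
  set v := placeOfValuationSubring B hK hB hfin with hv
  have hmem : (⟨t, (B.valuation_le_one_iff _).mp htv.le⟩ : v.toValuationSubring) ∈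
      IsLocalRing.maximalIdeal v.toValuationSubring :=
    (B.valuation_lt_one_iff _).mpr htv
  rcases (mem_maximalIdeal_iff v _).mp hmem with h | h
  · exact absurd h ht0
  · exact h

include hfin in
/-- Every transcendental element has a pole. -/
theorem exists_place_ord_neg {t : F} (ht : Transcendental K t) :
    ∃ v : Place K F, v.ord t < 0 := by
  have ht' : Transcendental K t⁻¹ := fun h => ht (by simpa using h.inv)
  obtain ⟨v, hv⟩ := exists_place_ord_pos hfin ht'
  refine ⟨v, ?_⟩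
  rw [v.ord_inv] at hv
  omega

end Existence

end Fermat.Agent.Lib.RR.H443

end
end
-- ===== PACK-END Lib/RR/H443/Discrete.lean

-- ===== PACK-BEGIN Lib/RR/H443/LSpace.lean
section


/-!
# RR bridge (helper443), part 2: the spaces `L(D)` without `HasPrincipalDivisors`

Characteristic-free.  Under the hypotheses `Hyp K F` (all places have degree one, `F` is finite
over `K(x)` for every transcendental `x`, `K` is algebraically closed in `F`) we prove
`L(0) = K`, finite-dimensionality of `L(D)` and `ℓ(D) ≤ deg D + 1` for `D ≥ 0`, *without*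
assuming that principal divisors have degree zero.
-/

set_option autoImplicit false

noncomputable section

open AlgebraicCurve Polynomial IntermediateField
open Fermat.Agent.Lib.RR

namespace Fermat.Agent.Lib.RR.H443

variable {K F : Type*} [Field K] [Field F] [Algebra K F]

variable (K F) in
/-- Hypotheses of the bridge: a function field of one variable with constant field `K`, all of
whose places have degree one. -/
structure Hyp : Prop where
  deg_eq_one : ∀ v : Place K F, v.deg = 1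
  finite : ∀ x : F, Transcendental K x → FiniteDimensional K⟮x⟯ F
  const : ∀ f : F, IsAlgebraic K f → f ∈ (algebraMap K F).range

/-- Functions without poles are constant (no `HasPrincipalDivisors` needed). -/
theorem L_zero_eq (h : Hyp K F) :
    riemannRochSpace (0 : Divisor K F) = LinearMap.range (Algebra.linearMap K F) := by
  apply le_antisymm
  · intro f hf
    by_contra hcon
    have htr : Transcendental K f := fun halg => hcon (by
      obtain ⟨c, hc⟩ := h.const f halg
      exact ⟨c, hc⟩)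
    obtain ⟨v, hv⟩ := exists_place_ord_neg h.finite htr
    rcases mem_L_iff.mp hf v with h0 | h0
    · rw [h0, v.ord_zero] at hv
      exact lt_irrefl _ hv
    · simp only [Finsupp.coe_zero, Pi.zero_apply, neg_zero] at h0
      omega
  · rintro _ ⟨c, rfl⟩
    rw [mem_L_iff]
    intro v
    right
    simp [ord_algebraMap]

theorem finite_L_zero (h : Hyp K F) : Module.Finite K (riemannRochSpace (0 : Divisor K F)) := by
  rw [L_zero_eq h]
  infer_instance

theorem ell_zero_eq (h : Hyp K F) : ell (0 : Divisor K F) = 1 := by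
  unfold ell
  rw [L_zero_eq h]
  have hinj : Function.Injective (Algebra.linearMap K F) := (algebraMap K F).injective
  rw [LinearMap.finrank_range_of_inj hinj]
  exact Module.finrank_self K

theorem prim_le_of_pos {D : Divisor K F} (hD : 0 ≤ D) {v : Place K F} (hv : D v ≠ 0) :
    prim v ≤ D := by
  rw [Finsupp.le_def]
  intro w
  have hw0 : 0 ≤ D w := by simpa using Finsupp.le_def.mp hD w
  by_cases hw : w = v
  · subst hw
    rw [prim_apply_self]
    omega
  · rw [prim_apply_of_ne hw]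
    exact hw0

/-- `L(D)` is finite-dimensional of dimension `≤ deg D + 1` for effective `D`. -/
theorem finite_and_ell_le_of_nonneg (h : Hyp K F) :
    ∀ (n : ℕ) (D : Divisor K F), 0 ≤ D → Divisor.degree D ≤ n →
      Module.Finite K (riemannRochSpace D) ∧ (ell D : ℤ) ≤ Divisor.degree D + 1 := by
  intro n
  induction n with
  | zero =>
    intro D hD hdeg
    have hD0 : D = 0 := by
      by_contra hne
      obtain ⟨v, hv⟩ := Finsupp.support_nonempty_iff.mpr hne
      rw [Finsupp.mem_support_iff] at hv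
      have := degree_mono (prim_le_of_pos hD hv)
      rw [degree_prim v (h.deg_eq_one v)] at this
      push_cast at hdeg
      omega
    subst hD0
    refine ⟨finite_L_zero h, ?_⟩
    rw [ell_zero_eq h, map_zero]
    norm_num
  | succ n ih =>
    intro D hD hdeg
    by_cases hD0 : D = 0
    · subst hD0
      refine ⟨finite_L_zero h, ?_⟩
      rw [ell_zero_eq h, map_zero]
      norm_num
    obtain ⟨v, hv⟩ := Finsupp.support_nonempty_iff.mpr hD0
    rw [Finsupp.mem_support_iff] at hv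
    have hle := prim_le_of_pos hD hv
    have hD' : 0 ≤ D - prim v := sub_nonneg.mpr hle
    have hdeg' : Divisor.degree (D - prim v) ≤ n := by
      rw [map_sub, degree_prim v (h.deg_eq_one v)]
      push_cast at hdeg
      omega
    obtain ⟨hfin, hell⟩ := ih (D - prim v) hD' hdeg'
    have := L_add_prim_finite v (h.deg_eq_one v) (D - prim v)
    rw [sub_add_cancel] at this
    refine ⟨this.1, ?_⟩
    have h2 := this.2
    rw [map_sub, degree_prim v (h.deg_eq_one v)] at hell
    have h3 : (ell D : ℤ) ≤ (ell (D - prim v) : ℤ) + 1 := by exact_mod_cast h2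
    omega

theorem finite_L_of_nonneg (h : Hyp K F) {D : Divisor K F} (hD : 0 ≤ D) :
    Module.Finite K (riemannRochSpace D) :=
  (finite_and_ell_le_of_nonneg h (Divisor.degree D).toNat D hD (Int.self_le_toNat _)).1

theorem ell_le_of_nonneg (h : Hyp K F) {D : Divisor K F} (hD : 0 ≤ D) :
    (ell D : ℤ) ≤ Divisor.degree D + 1 :=
  (finite_and_ell_le_of_nonneg h (Divisor.degree D).toNat D hD (Int.self_le_toNat _)).2

/-- `L(D)` is finite-dimensional for every divisor `D`. -/
theorem finite_L (h : Hyp K F) (D : Divisor K F) : Module.Finite K (riemannRochSpace D) := by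
  have hle : D ≤ D ⊔ 0 := le_sup_left
  have hfin := finite_L_of_nonneg h (D := D ⊔ 0) le_sup_right
  exact Submodule.finiteDimensional_of_le (L_mono hle)

end Fermat.Agent.Lib.RR.H443

end
end
-- ===== PACK-END Lib/RR/H443/LSpace.lean

-- ===== PACK-BEGIN Lib/RR/H443/Degree.lean
section


/-!
# RR bridge (helper443), part 3: `deg (x)_∞ = [F : K(x)]` and `HasPrincipalDivisors`

Characteristic-free.  From `Hyp K F` and the bound `ZerosBound K F` (layer L2 of the RR library:
zeros of `x` counted with multiplicity are at most `[F : K(x)]`) we deduce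

* finiteness of the zeros and poles of every function;
* `[F : K(x)] ≤ deg (x)_∞` (Stichtenoth 1.4.11), hence equality;
* every principal divisor has degree `0`, i.e. `HasPrincipalDivisors K F`, and `FF1 K F`.
-/

set_option autoImplicit false

noncomputable section

open AlgebraicCurve Polynomial IntermediateField
open Fermat.Agent.Lib.RR

namespace Fermat.Agent.Lib.RR.H443

variable {K F : Type*} [Field K] [Field F] [Algebra K F]

variable (K F) in
/-- The statement of layer L2 of the RR library. -/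
def ZerosBound : Prop :=
  ∀ (x : F) [FiniteDimensional K⟮x⟯ F] (S : Finset (Place K F)), (∀ v ∈ S, 0 < v.ord x) →
    ∑ v ∈ S, v.ord x ≤ (Module.finrank K⟮x⟯ F : ℤ)

/-! ### Finiteness of zeros and poles -/

theorem finite_zeros_of_finite (hZ : ZerosBound K F) (x : F) [FiniteDimensional K⟮x⟯ F] :
    {v : Place K F | 0 < v.ord x}.Finite := by
  by_contra hinf
  have hinf' : {v : Place K F | 0 < v.ord x}.Infinite := hinf
  obtain ⟨S, hS, hcard⟩ := hinf'.exists_subset_card_eq (Module.finrank K⟮x⟯ F + 1)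
  have h1 := hZ x S (fun v hv => hS hv)
  have h2 : (S.card : ℤ) ≤ ∑ v ∈ S, v.ord x := by
    have : ∑ _v ∈ S, (1 : ℤ) ≤ ∑ v ∈ S, v.ord x :=
      Finset.sum_le_sum fun v hv => by
        have : 0 < v.ord x := hS hv
        omega
    simpa using this
  rw [hcard] at h2
  push_cast at h2
  omega

theorem transcendental_inv {f : F} (hf : Transcendental K f) : Transcendental K f⁻¹ :=
  fun h => hf (by simpa using h.inv)

theorem adjoin_inv_eq (f : F) : K⟮f⁻¹⟯ = K⟮f⟯ := by
  apply le_antisymm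
  · rw [adjoin_simple_le_iff]
    exact inv_mem (mem_adjoin_simple_self K f)
  · rw [adjoin_simple_le_iff]
    have h2 : (f⁻¹)⁻¹ ∈ K⟮f⁻¹⟯ := inv_mem (mem_adjoin_simple_self K f⁻¹)
    rwa [inv_inv] at h2

theorem finrank_adjoin_inv (f : F) : Module.finrank K⟮f⁻¹⟯ F = Module.finrank K⟮f⟯ F :=
  congrArg (fun E : IntermediateField K F => Module.finrank E F) (_root_.Fermat.Agent.Lib.RR.H443.adjoin_inv_eq f)

theorem ord_eq_zero_of_isAlgebraic (h : Hyp K F) {f : F} (hf : IsAlgebraic K f)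
    (v : Place K F) : v.ord f = 0 := by
  obtain ⟨c, rfl⟩ := h.const f hf
  exact ord_algebraMap v c

theorem finite_zeros (h : Hyp K F) (hZ : ZerosBound K F) (f : F) :
    {v : Place K F | 0 < v.ord f}.Finite := by
  by_cases hf : Transcendental K f
  · have := h.finite f hf
    exact finite_zeros_of_finite hZ f
  · have hf' : IsAlgebraic K f := by
      by_contra hna
      exact hf hna
    have : {v : Place K F | 0 < v.ord f} = ∅ := by
      ext v
      simp [ord_eq_zero_of_isAlgebraic h hf' v]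
    rw [this]
    exact Set.finite_empty

theorem finite_poles (h : Hyp K F) (hZ : ZerosBound K F) (f : F) :
    {v : Place K F | v.ord f < 0}.Finite := by
  refine (finite_zeros h hZ f⁻¹).subset fun v hv => ?_
  have hv' : v.ord f < 0 := hv
  show 0 < v.ord f⁻¹
  rw [v.ord_inv]
  omega

/-! ### The pole divisor -/

/-- The pole divisor `(f)_∞`. -/
def poleDiv (h : Hyp K F) (hZ : ZerosBound K F) (f : F) : Divisor K F :=
  Finsupp.ofSupportFinite (fun v => max 0 (-v.ord f)) <| by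
    refine (finite_poles h hZ f).subset fun v hv => ?_
    have hv' : max 0 (-v.ord f) ≠ 0 := hv
    show v.ord f < 0
    by_contra hcon
    apply hv'
    rw [max_eq_left]
    omega

@[simp]
theorem poleDiv_apply (h : Hyp K F) (hZ : ZerosBound K F) (f : F) (v : Place K F) :
    poleDiv h hZ f v = max 0 (-v.ord f) := rfl

theorem poleDiv_nonneg (h : Hyp K F) (hZ : ZerosBound K F) (f : F) : 0 ≤ poleDiv h hZ f := by
  rw [Finsupp.le_def]
  intro v
  simp

theorem mem_support_poleDiv (h : Hyp K F) (hZ : ZerosBound K F) (f : F) (v : Place K F) :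
    v ∈ (poleDiv h hZ f).support ↔ v.ord f < 0 := by
  rw [Finsupp.mem_support_iff, poleDiv_apply]
  constructor
  · intro hne
    by_contra hcon
    apply hne
    rw [max_eq_left]
    omega
  · intro hlt
    rw [max_eq_right (by omega)]
    omega

theorem degree_poleDiv (h : Hyp K F) (hZ : ZerosBound K F) (f : F) :
    Divisor.degree (poleDiv h hZ f) = ∑ v ∈ (poleDiv h hZ f).support, v.ord f⁻¹ := by
  rw [degree_eq_sum]
  refine Finset.sum_congr rfl fun v hv => ?_
  rw [mem_support_poleDiv] at hv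
  rw [h.deg_eq_one v, poleDiv_apply, v.ord_inv, max_eq_right (by omega)]
  simp

/-- `deg (x)_∞ ≤ [F : K(x)]`, from the zeros bound applied to `x⁻¹`. -/
theorem degree_poleDiv_le (h : Hyp K F) (hZ : ZerosBound K F) {x : F}
    (hx : Transcendental K x) :
    Divisor.degree (poleDiv h hZ x) ≤ (@Module.finrank K⟮x⟯ F _ _ _ : ℤ) := by
  have := h.finite x⁻¹ (transcendental_inv hx)
  rw [degree_poleDiv, ← finrank_adjoin_inv x]
  refine hZ x⁻¹ _ fun v hv => ?_
  rw [mem_support_poleDiv] at hv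
  rw [v.ord_inv]
  omega

/-! ### The lower bound -/

theorem linearIndependent_pow_of_transcendental {A : Type*} [Ring A] [Algebra K A] {a : A}
    (ha : Transcendental K a) (l : ℕ) :
    LinearIndependent K fun i : Fin (l + 1) => a ^ (i : ℕ) := by
  rw [Fintype.linearIndependent_iff]
  intro g hg i
  have hinj := transcendental_iff_injective.mp ha
  have hp : aeval a (∑ i : Fin (l + 1), Polynomial.monomial (i : ℕ) (g i)) = 0 := by
    rw [map_sum]
    simp_rw [aeval_monomial, ← Algebra.smul_def]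
    exact hg
  have hp0 : (∑ i : Fin (l + 1), Polynomial.monomial (i : ℕ) (g i)) = 0 :=
    hinj (by rw [hp, map_zero])
  have := congrArg (fun q : K[X] => q.coeff (i : ℕ)) hp0
  simp only [Polynomial.finsetSum_coeff, Polynomial.coeff_monomial, Polynomial.coeff_zero] at this
  rw [Finset.sum_eq_single i] at this
  · simpa using this
  · intro j _ hji
    rw [if_neg]
    exact fun h => hji (Fin.ext h)
  · intro hi
    exact absurd (Finset.mem_univ i) hi

set_option maxHeartbeats 800000 in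
/-- The products `x ^ i * b j` (`i ≤ l`, `b` a `K(x)`-basis of `F`) are `K`-linearly
independent. -/
theorem linearIndependent_pow_mul_basis {x : F} (hx : Transcendental K x)
    [FiniteDimensional K⟮x⟯ F] (l : ℕ) :
    LinearIndependent K fun p : Fin (l + 1) × Fin (Module.finrank K⟮x⟯ F) =>
      x ^ (p.1 : ℕ) * (Module.finBasis K⟮x⟯ F p.2 : F) := by
  have hgen : Transcendental K (AdjoinSimple.gen K x) := by
    rw [← transcendental_algebraMap_iff (algebraMap K⟮x⟯ F).injective]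
    exact hx
  have h1 := linearIndependent_pow_of_transcendental hgen l
  have h2 := (Module.finBasis K⟮x⟯ F).linearIndependent
  have h3 := linearIndependent_smul h1 h2
  convert h3 using 2 with p
  rw [Algebra.smul_def]
  simp

/-- `[F : K(x)] ≤ deg (x)_∞` (Stichtenoth, Thm. 1.4.11). -/
theorem finrank_le_degree_poleDiv (h : Hyp K F) (hZ : ZerosBound K F) {x : F}
    (hx : Transcendental K x) :
    (@Module.finrank K⟮x⟯ F _ _ _ : ℤ) ≤ Divisor.degree (poleDiv h hZ x) := by
  classical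
  have hfinx := h.finite x hx
  set n := Module.finrank K⟮x⟯ F with hn
  set B := poleDiv h hZ x with hB
  set C : Divisor K F := ∑ j : Fin n, poleDiv h hZ (Module.finBasis K⟮x⟯ F j : F) with hC
  have hB0 : 0 ≤ B := poleDiv_nonneg h hZ x
  have hC0 : 0 ≤ C := Finset.sum_nonneg fun j _ => poleDiv_nonneg h hZ _
  have hx0 : x ≠ 0 := fun h0 => hx (h0 ▸ isAlgebraic_zero)
  -- the key inequality for every `l`
  have key : ∀ l : ℕ, ((l + 1) * n : ℤ) ≤ l * Divisor.degree B + Divisor.degree C + 1 := by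
    intro l
    have hD0 : 0 ≤ l • B + C := add_nonneg (nsmul_nonneg hB0 l) hC0
    have hfin := finite_L_of_nonneg h hD0
    have hell := ell_le_of_nonneg h hD0
    have hli := linearIndependent_pow_mul_basis hx l
    have hmem : ∀ p : Fin (l + 1) × Fin n,
        x ^ (p.1 : ℕ) * (Module.finBasis K⟮x⟯ F p.2 : F) ∈ riemannRochSpace (l • B + C) := by
      rintro ⟨i, j⟩
      rw [mem_L_iff]
      intro v
      right
      have hbj : (Module.finBasis K⟮x⟯ F j : F) ≠ 0 := (Module.finBasis K⟮x⟯ F).ne_zero j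
      rw [v.ord_mul (pow_ne_zero _ hx0) hbj, ord_pow]
      have hBv : B v = max 0 (-v.ord x) := rfl
      have hCv : max 0 (-v.ord (Module.finBasis K⟮x⟯ F j : F)) ≤ C v := by
        rw [hC, Finsupp.finsetSum_apply]
        have : poleDiv h hZ (Module.finBasis K⟮x⟯ F j : F) v ≤
            ∑ j' : Fin n, poleDiv h hZ (Module.finBasis K⟮x⟯ F j' : F) v :=
          Finset.single_le_sum
            (f := fun j' => poleDiv h hZ (Module.finBasis K⟮x⟯ F j' : F) v)
            (fun j' _ => by simp) (Finset.mem_univ j)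
        simpa using this
      have hi : (i : ℕ) ≤ l := Nat.lt_succ_iff.mp i.2
      have hval : (l • B + C) v = (l : ℤ) * B v + C v := by
        rw [Finsupp.add_apply, Finsupp.smul_apply, nsmul_eq_mul]
      rw [hval, hBv]
      have h1 : ((i : ℕ) : ℤ) * max 0 (-v.ord x) ≤ (l : ℤ) * max 0 (-v.ord x) :=
        mul_le_mul_of_nonneg_right (by exact_mod_cast hi) (le_max_left _ _)
      have h2 : -(((i : ℕ) : ℤ) * max 0 (-v.ord x)) ≤ ((i : ℕ) : ℤ) * v.ord x := by
        have h3 : -v.ord x ≤ max 0 (-v.ord x) := le_max_right _ _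
        have h4 : (0 : ℤ) ≤ ((i : ℕ) : ℤ) := Int.natCast_nonneg _
        nlinarith
      have h5 : -v.ord (Module.finBasis K⟮x⟯ F j : F) ≤
          max 0 (-v.ord (Module.finBasis K⟮x⟯ F j : F)) := le_max_right _ _
      push_cast
      linarith
    -- count
    let g : Fin (l + 1) × Fin n → riemannRochSpace (l • B + C) := fun p => ⟨_, hmem p⟩
    have hli' : LinearIndependent K g := by
      apply LinearIndependent.of_comp (riemannRochSpace (l • B + C)).subtype
      exact hli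
    have hcard := hli'.fintype_card_le_finrank
    rw [Fintype.card_prod, Fintype.card_fin, Fintype.card_fin] at hcard
    have hdeg : Divisor.degree (l • B + C) = l * Divisor.degree B + Divisor.degree C := by
      rw [map_add, map_nsmul, nsmul_eq_mul]
    have hcard' : (((l + 1) * n : ℕ) : ℤ) ≤ (ell (l • B + C) : ℤ) := by exact_mod_cast hcard
    rw [hdeg] at hell
    push_cast at hcard'
    linarith
  -- conclude
  by_contra hcon
  rw [not_le] at hcon
  have hdC : 0 ≤ Divisor.degree C := degree_nonneg hC0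
  have hdB : 0 ≤ Divisor.degree B := degree_nonneg hB0
  have hk := key ((Divisor.degree C).toNat + 1)
  have hl : ((Divisor.degree C).toNat : ℤ) = Divisor.degree C := Int.toNat_of_nonneg hdC
  push_cast at hk
  rw [hl] at hk
  have hn1 : 0 ≤ (n : ℤ) - Divisor.degree B - 1 := by omega
  have hC2 : 0 ≤ Divisor.degree C + 2 := by omega
  nlinarith [mul_nonneg hC2 hn1]

/-- **The degree of the pole divisor** of a transcendental `x` is `[F : K(x)]`. -/
theorem degree_poleDiv_eq (h : Hyp K F) (hZ : ZerosBound K F) {x : F}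
    (hx : Transcendental K x) :
    Divisor.degree (poleDiv h hZ x) = (@Module.finrank K⟮x⟯ F _ _ _ : ℤ) :=
  le_antisymm (degree_poleDiv_le h hZ hx) (finrank_le_degree_poleDiv h hZ hx)

/-! ### Principal divisors -/

/-- The divisor of a function. -/
def divFun (h : Hyp K F) (hZ : ZerosBound K F) (f : F) : Divisor K F :=
  poleDiv h hZ f⁻¹ - poleDiv h hZ f

theorem divFun_apply (h : Hyp K F) (hZ : ZerosBound K F) (f : F) (v : Place K F) :
    divFun h hZ f v = v.ord f := by
  simp only [divFun, Finsupp.coe_sub, Pi.sub_apply, poleDiv_apply, v.ord_inv, neg_neg]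
  rcases le_total 0 (v.ord f) with h0 | h0
  · rw [max_eq_right h0, max_eq_left (by omega)]
    ring
  · rw [max_eq_left h0, max_eq_right (by omega)]
    ring

theorem degree_divFun (h : Hyp K F) (hZ : ZerosBound K F) (f : F) :
    Divisor.degree (divFun h hZ f) = 0 := by
  by_cases hf : Transcendental K f
  · rw [divFun, map_sub, degree_poleDiv_eq h hZ hf,
      degree_poleDiv_eq h hZ (transcendental_inv hf), finrank_adjoin_inv]
    ring
  · have hf' : IsAlgebraic K f := by
      by_contra hna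
      exact hf hna
    have : divFun h hZ f = 0 := by
      ext v
      rw [divFun_apply, ord_eq_zero_of_isAlgebraic h hf' v]
      rfl
    rw [this, map_zero]

/-- **Principal divisors have degree zero** — in any characteristic. -/
theorem hasPrincipalDivisors (h : Hyp K F) (hZ : ZerosBound K F) : HasPrincipalDivisors K F :=
  ⟨fun f _ => ⟨divFun h hZ f, divFun_apply h hZ f, degree_divFun h hZ f⟩⟩

/-- The bridge: the standing hypotheses `FF1` of the RR library. -/
theorem ff1_of_hyp (h : Hyp K F) (hZ : ZerosBound K F) {x : F} (hx : Transcendental K x) :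
    FF1 K F where
  hpd := hasPrincipalDivisors h hZ
  deg_eq_one := h.deg_eq_one
  nonempty_place := by
    obtain ⟨v, -⟩ := exists_place_ord_pos h.finite hx
    exact ⟨v⟩
  exists_finite := ⟨x, hx, h.finite x hx⟩

/-- **Fundamental identity at the zeros**: `∑_{v(x) > 0} ord_v x = [F : K(x)]`. -/
theorem sum_ord_zeros_eq_finrank (h : Hyp K F) (hZ : ZerosBound K F) {x : F}
    (hx : Transcendental K x) (S : Finset (Place K F)) (hS : ∀ v, v ∈ S ↔ 0 < v.ord x) :
    ∑ v ∈ S, v.ord x = (@Module.finrank K⟮x⟯ F _ _ _ : ℤ) := by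
  have h1 := degree_poleDiv_eq h hZ (transcendental_inv hx)
  rw [finrank_adjoin_inv, degree_poleDiv, inv_inv] at h1
  rw [← h1]
  refine Finset.sum_congr ?_ fun _ _ => rfl
  ext v
  rw [hS, mem_support_poleDiv, v.ord_inv]
  omega

/-- **Fundamental identity at the poles**: `∑_{v(x) < 0} -ord_v x = [F : K(x)]`. -/
theorem sum_ord_poles_eq_finrank (h : Hyp K F) (hZ : ZerosBound K F) {x : F}
    (hx : Transcendental K x) (S : Finset (Place K F)) (hS : ∀ v, v ∈ S ↔ v.ord x < 0) :
    ∑ v ∈ S, -v.ord x = (@Module.finrank K⟮x⟯ F _ _ _ : ℤ) := by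
  have h1 := degree_poleDiv_eq h hZ hx
  rw [degree_poleDiv] at h1
  rw [← h1]
  refine Finset.sum_congr ?_ fun v _ => ?_
  · ext v
    rw [hS, mem_support_poleDiv]
  · rw [v.ord_inv]

end Fermat.Agent.Lib.RR.H443

end
end
-- ===== PACK-END Lib/RR/H443/Degree.lean

-- ===== PACK-BEGIN Lib/RR/H443/Bridge.lean
section




/-!
# RR bridge (helper443), part 4: `FF1 K F` in ANY characteristic

For `K` algebraically closed (of any characteristic) and `F` a finite extension of `K(x)`, `x`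
transcendental over `K`:

* `hasPrincipalDivisors_of_isAlgClosed` : `HasPrincipalDivisors K F`
  (finitely many zeros and poles, principal divisors have degree `0`);
* `ff1_of_isAlgClosed` : the standing hypotheses `FF1 K F` of the RR library;
* `sum_ord_zeros_eq_finrank'`, `sum_ord_poles_eq_finrank'` : the fundamental identity
  `∑_{v(x) > 0} ord_v x = [F : K(x)] = ∑_{v(x) < 0} -ord_v x`;
* `exists_place_ord_pos'`, `exists_place_ord_neg'` : existence of zeros and poles.

No separability, no Dedekind domains: only valuation theory (Stichtenoth, Ch. 1).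
-/

set_option autoImplicit false

noncomputable section

open AlgebraicCurve Polynomial IntermediateField
open Fermat.Agent.Lib.RR

namespace Fermat.Agent.Lib.RR.H443

variable {K F : Type*} [Field K] [Field F] [Algebra K F]

/-- Layer L2 of the RR library gives the zeros bound. -/
theorem zerosBound (hdeg : ∀ v : Place K F, v.deg = 1) : ZerosBound K F :=
  fun x _ S hS => sum_ord_le_finrank hdeg x S hS

variable [IsAlgClosed K]

/-- The hypotheses of the bridge hold over an algebraically closed constant field. -/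
theorem hyp_of_isAlgClosed {x : F} (hx : Transcendental K x) [FiniteDimensional K⟮x⟯ F] :
    Hyp K F where
  deg_eq_one := fun v => S24.FF.deg_eq_one v hx
  finite := fun _ hy => S24.FF.finiteDimensional_adjoin_of_transcendental hx hy
  const := fun _ hf => S24.FF.mem_range_of_isAlgebraic hf

/-- **`FF1 K F` in any characteristic.** -/
theorem ff1_of_isAlgClosed {x : F} (hx : Transcendental K x) [FiniteDimensional K⟮x⟯ F] :
    FF1 K F :=
  ff1_of_hyp (hyp_of_isAlgClosed hx) (zerosBound (hyp_of_isAlgClosed hx).deg_eq_one) hx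

/-- **`HasPrincipalDivisors K F` in any characteristic.** -/
theorem hasPrincipalDivisors_of_isAlgClosed {x : F} (hx : Transcendental K x)
    [FiniteDimensional K⟮x⟯ F] : HasPrincipalDivisors K F :=
  hasPrincipalDivisors (hyp_of_isAlgClosed hx) (zerosBound (hyp_of_isAlgClosed hx).deg_eq_one)

/-- Every place has degree one. -/
theorem deg_eq_one_of_isAlgClosed {x : F} (hx : Transcendental K x) [FiniteDimensional K⟮x⟯ F]
    (v : Place K F) : v.deg = 1 :=
  S24.FF.deg_eq_one v hx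

/-- Every nonconstant function has a zero. -/
theorem exists_place_ord_pos' {x : F} (hx : Transcendental K x) [FiniteDimensional K⟮x⟯ F]
    {t : F} (ht : Transcendental K t) : ∃ v : Place K F, 0 < v.ord t :=
  exists_place_ord_pos (hyp_of_isAlgClosed hx).finite ht

/-- Every nonconstant function has a pole. -/
theorem exists_place_ord_neg' {x : F} (hx : Transcendental K x) [FiniteDimensional K⟮x⟯ F]
    {t : F} (ht : Transcendental K t) : ∃ v : Place K F, v.ord t < 0 :=
  exists_place_ord_neg (hyp_of_isAlgClosed hx).finite ht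

/-- Finitely many zeros and poles. -/
theorem finite_setOf_ord_ne_zero {x : F} (hx : Transcendental K x) [FiniteDimensional K⟮x⟯ F]
    (f : F) : {v : Place K F | v.ord f ≠ 0}.Finite := by
  have h := hyp_of_isAlgClosed hx
  have hZ := zerosBound h.deg_eq_one
  refine ((finite_zeros h hZ f).union (finite_poles h hZ f)).subset fun v hv => ?_
  have hv' : v.ord f ≠ 0 := hv
  rcases lt_or_gt_of_ne hv' with h1 | h1
  · exact Or.inr h1
  · exact Or.inl h1

/-- **Fundamental identity at the zeros** (any characteristic). -/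
theorem sum_ord_zeros_eq_finrank' {x : F} (hx : Transcendental K x) [FiniteDimensional K⟮x⟯ F]
    (S : Finset (Place K F)) (hS : ∀ v, v ∈ S ↔ 0 < v.ord x) :
    ∑ v ∈ S, v.ord x = (Module.finrank K⟮x⟯ F : ℤ) :=
  sum_ord_zeros_eq_finrank (hyp_of_isAlgClosed hx)
    (zerosBound (hyp_of_isAlgClosed hx).deg_eq_one) hx S hS

/-- **Fundamental identity at the poles** (any characteristic). -/
theorem sum_ord_poles_eq_finrank' {x : F} (hx : Transcendental K x) [FiniteDimensional K⟮x⟯ F]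
    (S : Finset (Place K F)) (hS : ∀ v, v ∈ S ↔ v.ord x < 0) :
    ∑ v ∈ S, -v.ord x = (Module.finrank K⟮x⟯ F : ℤ) :=
  sum_ord_poles_eq_finrank (hyp_of_isAlgClosed hx)
    (zerosBound (hyp_of_isAlgClosed hx).deg_eq_one) hx S hS

/-- Every valuation subring `≠ ⊤` of `F` containing `K` is (the ring of) a place. -/
theorem exists_place_eq (O : ValuationSubring F) (hK : ∀ a : K, algebraMap K F a ∈ O)
    (hO : O ≠ ⊤) {x : F} (hx : Transcendental K x) [FiniteDimensional K⟮x⟯ F] :
    ∃ v : Place K F, v.toValuationSubring = O :=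
  ⟨placeOfValuationSubring O hK hO (hyp_of_isAlgClosed hx).finite, rfl⟩

end Fermat.Agent.Lib.RR.H443

end
end
-- ===== PACK-END Lib/RR/H443/Bridge.lean

-- ===== PACK-BEGIN A2/H729/Glue.lean
section


/-!
# A2, piece ALG_ss (helper729), version A: gluing a generic idempotent

Setting of `S18.H138.connected_special_fibre`: `R` a noetherian domain with `R[X]` integrally
closed (a DVR), `w ∈ R` prime, `F` a field of characteristic `0`, `x ∈ F` transcendental, `F`
finite over `baseField R x`, `R` integrally closed in `F`.  The charts are the integral closures of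
`R[x]`, `R[x⁻¹]`, `R[x, x⁻¹]` in `F`.

`O` is the *Gauss ring*: a subalgebra of `F` containing the charts (in the application the
intersection of the valuation rings of `F` over the Gauss valuations of the special fibre), with
the `q`-expansion principle `chart ∩ w O = w chart` for the three charts (the special fibre is
reduced).  `e₀ ∈ O` is idempotent modulo `w O` (an idempotent of the total ring of fractions of
the special fibre).

**Theorem** (`generic_idempotent_trivial`).  If `e₀` is *locally regular* at every closed point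
of the special fibre of both charts (for every maximal ideal `𝔫 ∋ w` of the chart there is a
denominator `s ∉ 𝔫` with `s e₀ ≡` an element of the chart modulo `w O`), then `e₀ ≡ 0` or
`e₀ ≡ 1` modulo `w O`.

No normality of the special fibre is used: only reducedness (the three `qep` hypotheses).
-/

set_option autoImplicit false

namespace Fermat.Agent.A2.H729

open Fermat.Agent.S18.H138

variable {R : Type*} [CommRing R] {F : Type*} [Field F] [Algebra R F]

/-- `z ∈ w O`. -/
def InW (O : Subalgebra R F) (w : R) (z : F) : Prop :=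
  ∃ t ∈ O, z = algebraMap R F w * t

theorem InW.add {O : Subalgebra R F} {w : R} {a b : F} (ha : InW O w a) (hb : InW O w b) :
    InW O w (a + b) := by
  obtain ⟨s, hs, rfl⟩ := ha
  obtain ⟨t, ht, rfl⟩ := hb
  exact ⟨s + t, O.add_mem hs ht, by ring⟩

theorem InW.neg {O : Subalgebra R F} {w : R} {a : F} (ha : InW O w a) : InW O w (-a) := by
  obtain ⟨s, hs, rfl⟩ := ha
  exact ⟨-s, O.neg_mem hs, by ring⟩

theorem InW.sub {O : Subalgebra R F} {w : R} {a b : F} (ha : InW O w a) (hb : InW O w b) :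
    InW O w (a - b) := by
  rw [sub_eq_add_neg]
  exact ha.add hb.neg

theorem InW.mul_left {O : Subalgebra R F} {w : R} {a : F} (ha : InW O w a) {c : F}
    (hc : c ∈ O) : InW O w (c * a) := by
  obtain ⟨s, hs, rfl⟩ := ha
  exact ⟨c * s, O.mul_mem hc hs, by ring⟩

theorem InW.mul_right {O : Subalgebra R F} {w : R} {a : F} (ha : InW O w a) {c : F}
    (hc : c ∈ O) : InW O w (a * c) := by
  rw [mul_comm]
  exact ha.mul_left hc

theorem InW.zero (O : Subalgebra R F) (w : R) : InW O w 0 :=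
  ⟨0, O.zero_mem, by ring⟩

theorem InW.of_mul {O : Subalgebra R F} (w : R) {t : F} (ht : t ∈ O) :
    InW O w (algebraMap R F w * t) :=
  ⟨t, ht, rfl⟩

theorem InW.mem {O : Subalgebra R F} {w : R} {a : F} (ha : InW O w a) : a ∈ O := by
  obtain ⟨s, hs, rfl⟩ := ha
  exact O.mul_mem (O.algebraMap_mem w) hs

theorem InW.sum {O : Subalgebra R F} {w : R} {ι : Type*} (s : Finset ι) (f : ι → F)
    (h : ∀ i ∈ s, InW O w (f i)) : InW O w (∑ i ∈ s, f i) := by
  classical
  induction s using Finset.induction_on with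
  | empty => simpa using InW.zero O w
  | insert a s ha ih =>
    rw [Finset.sum_insert ha]
    exact (h a (Finset.mem_insert_self a s)).add
      (ih fun i hi => h i (Finset.mem_insert_of_mem hi))

/-- The *regularity ideal* of `e₀` on the chart `C`: the denominators `s ∈ C` such that
`s e₀` is congruent modulo `w O` to an element of `C`. -/
def regIdeal (C O : Subalgebra R F) (hCO : C ≤ O) (w : R) (e₀ : F) : Ideal C where
  carrier := {s | ∃ e ∈ C, InW O w ((s : F) * e₀ - e)}
  add_mem' := by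
    rintro a b ⟨e, he, h⟩ ⟨e', he', h'⟩
    refine ⟨e + e', C.add_mem he he', ?_⟩
    have : ((a + b : C) : F) * e₀ - (e + e') = ((a : F) * e₀ - e) + ((b : F) * e₀ - e') := by
      push_cast; ring
    rw [this]
    exact h.add h'
  zero_mem' := ⟨0, C.zero_mem, by simpa using InW.zero O w⟩
  smul_mem' := by
    rintro c a ⟨e, he, h⟩
    refine ⟨c * e, C.mul_mem c.2 he, ?_⟩
    have : ((c • a : C) : F) * e₀ - c * e = (c : F) * ((a : F) * e₀ - e) := by
      rw [smul_eq_mul]; push_cast; ring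
    rw [this]
    exact h.mul_left (hCO c.2)

theorem mem_regIdeal {C O : Subalgebra R F} {hCO : C ≤ O} {w : R} {e₀ : F} {s : C} :
    s ∈ regIdeal C O hCO w e₀ ↔ ∃ e ∈ C, InW O w ((s : F) * e₀ - e) := Iff.rfl

/-- If `e₀ ∈ O` is locally regular at all maximal ideals of `C` containing `w`, it is congruent
modulo `w O` to an element of `C`. -/
theorem exists_chart_rep {C O : Subalgebra R F} (hCO : C ≤ O) (w : R) {e₀ : F} (he₀ : e₀ ∈ O)
    (hloc : ∀ 𝔫 : Ideal C, 𝔫.IsMaximal → algebraMap R C w ∈ 𝔫 →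
      ∃ s : C, s ∉ 𝔫 ∧ ∃ e ∈ C, InW O w ((s : F) * e₀ - e)) :
    ∃ e ∈ C, InW O w (e₀ - e) := by
  have hw : algebraMap R C w ∈ regIdeal C O hCO w e₀ := by
    refine ⟨0, C.zero_mem, ?_⟩
    rw [sub_zero]
    exact ⟨e₀, he₀, rfl⟩
  have htop : regIdeal C O hCO w e₀ = ⊤ := by
    by_contra hne
    obtain ⟨𝔫, h𝔫, hle⟩ := Ideal.exists_le_maximal _ hne
    obtain ⟨s, hs, e, he, h⟩ := hloc 𝔫 h𝔫 (hle hw)
    exact hs (hle ⟨e, he, h⟩)
  have h1 : (1 : C) ∈ regIdeal C O hCO w e₀ := by rw [htop]; trivial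
  obtain ⟨e, he, h⟩ := h1
  refine ⟨e, he, ?_⟩
  simpa using h

section Main

variable [IsNoetherianRing R] [IsIntegrallyClosed (Polynomial R)] [CharZero F]

/-- **ALG_ss, version A.**  A generic idempotent of a reduced special fibre which is locally
regular at every closed point of both charts is `0` or `1`. -/
theorem generic_idempotent_trivial
    (hinjR : Function.Injective (algebraMap R F))
    (hRF : ∀ y : F, IsIntegral R y → y ∈ Set.range (algebraMap R F))
    {x : F} (hx : Transcendental R x) [FiniteDimensional (baseField R x) F]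
    (w : R) (hw : Prime w)
    (O : Subalgebra R F)
    (hfin : chart R ({x} : Set F) ≤ O) (hinf : chart R ({x⁻¹} : Set F) ≤ O)
    (qep_fin : ∀ b ∈ chart R ({x} : Set F), InW O w b →
      ∃ t ∈ chart R ({x} : Set F), b = algebraMap R F w * t)
    (qep_inf : ∀ b ∈ chart R ({x⁻¹} : Set F), InW O w b →
      ∃ t ∈ chart R ({x⁻¹} : Set F), b = algebraMap R F w * t)
    (qep_mid : ∀ b ∈ chart R ({x, x⁻¹} : Set F), InW O w b →
      ∃ t ∈ chart R ({x, x⁻¹} : Set F), b = algebraMap R F w * t)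
    {e₀ : F} (he₀ : e₀ ∈ O) (hidem : InW O w (e₀ ^ 2 - e₀))
    (hloc_fin : ∀ 𝔫 : Ideal (chart R ({x} : Set F)), 𝔫.IsMaximal →
      algebraMap R (chart R ({x} : Set F)) w ∈ 𝔫 →
      ∃ s : chart R ({x} : Set F), s ∉ 𝔫 ∧
        ∃ e ∈ chart R ({x} : Set F), InW O w ((s : F) * e₀ - e))
    (hloc_inf : ∀ 𝔫 : Ideal (chart R ({x⁻¹} : Set F)), 𝔫.IsMaximal →
      algebraMap R (chart R ({x⁻¹} : Set F)) w ∈ 𝔫 →
      ∃ s : chart R ({x⁻¹} : Set F), s ∉ 𝔫 ∧
        ∃ e ∈ chart R ({x⁻¹} : Set F), InW O w ((s : F) * e₀ - e)) :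
    InW O w e₀ ∨ InW O w (1 - e₀) := by
  obtain ⟨e₁, he₁, h₁⟩ := exists_chart_rep hfin w he₀ hloc_fin
  obtain ⟨e₂, he₂, h₂⟩ := exists_chart_rep hinf w he₀ hloc_inf
  have he₁O : e₁ ∈ O := hfin he₁
  have he₂O : e₂ ∈ O := hinf he₂
  -- `e₁` is idempotent modulo `w` in the finite chart
  have hi₁ : ∃ t ∈ chart R ({x} : Set F), e₁ ^ 2 - e₁ = algebraMap R F w * t := by
    refine qep_fin _ (Subalgebra.sub_mem _ (Subalgebra.pow_mem _ he₁ 2) he₁) ?_
    have : e₁ ^ 2 - e₁ = (e₀ ^ 2 - e₀) - (e₀ - e₁) * (e₀ + e₁ - 1) := by ring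
    rw [this]
    exact hidem.sub (h₁.mul_right
      (O.sub_mem (O.add_mem he₀ he₁O) O.one_mem))
  have hi₂ : ∃ t ∈ chart R ({x⁻¹} : Set F), e₂ ^ 2 - e₂ = algebraMap R F w * t := by
    refine qep_inf _ (Subalgebra.sub_mem _ (Subalgebra.pow_mem _ he₂ 2) he₂) ?_
    have : e₂ ^ 2 - e₂ = (e₀ ^ 2 - e₀) - (e₀ - e₂) * (e₀ + e₂ - 1) := by ring
    rw [this]
    exact hidem.sub (h₂.mul_right
      (O.sub_mem (O.add_mem he₀ he₂O) O.one_mem))
  have h₁₂ : ∃ t ∈ chart R ({x, x⁻¹} : Set F), e₁ - e₂ = algebraMap R F w * t := by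
    refine qep_mid _ (Subalgebra.sub_mem _ (chart_mono (by simp) he₁)
      (chart_mono (by simp) he₂)) ?_
    have : e₁ - e₂ = (e₀ - e₂) - (e₀ - e₁) := by ring
    rw [this]
    exact h₂.sub h₁
  rcases connected_special_fibre hinjR hRF hx w hw e₁ e₂ he₁ he₂ hi₁ hi₂ h₁₂ with
    ⟨⟨t, ht, h⟩, _⟩ | ⟨⟨t, ht, h⟩, _⟩
  · left
    have : e₀ = (e₀ - e₁) + e₁ := by ring
    rw [this]
    exact h₁.add ⟨t, hfin ht, h⟩
  · right
    have : 1 - e₀ = (1 - e₁) - (e₀ - e₁) := by ring
    rw [this]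
    exact InW.sub ⟨t, hfin ht, h⟩ h₁

end Main

end Fermat.Agent.A2.H729

end
-- ===== PACK-END A2/H729/Glue.lean

-- ===== PACK-BEGIN A2/H729/Gauss.lean
section



/-!
# A2 (helper729): the canonical Gauss ring of the `x`-line model and its `q`-expansion principle

`R` a domain with `R[X]` integrally closed, `w ∈ R` prime, `F ⊇ R` a field, `x ∈ F` transcendental.
`gaussO hw x` is the ring of all `t ∈ F` such that `Q(x) t` is integral over `R[x]` for some
polynomial `Q` which is nonzero modulo `w` (the integral closure in `F` of the Gauss valuation ring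
`R[x]_(w)` of `R(x)`; the intersection of the valuation rings of `F` over the Gauss valuation).

Results (all hypotheses of `generic_idempotent_trivial` / `kummer_trivial_of_local` about `O`):
* `chart_fin_le_gaussO`, `chart_inf_le_gaussO`, `chart_mid_le_gaussO`;
* `qep_fin`, `qep_inf`, `qep_mid`: `chart ∩ w O = w chart`.
These hold for EVERY finite extension `F` (normality of the charts); reducedness of the special
fibre is what allows the user to prove congruences modulo `w O`.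
-/

set_option autoImplicit false
set_option linter.unusedSectionVars false

namespace Fermat.Agent.A2.H729

open Polynomial Fermat.Agent.S18.H138

variable {R : Type*} [CommRing R] {F : Type*} [Field F] [Algebra R F]

/-- `s = Q(x)` for a polynomial `Q` which is nonzero modulo `w`. -/
def IsGaussDenom (w : R) (x s : F) : Prop :=
  ∃ Q : R[X], ¬ C w ∣ Q ∧ s = aeval x Q

theorem not_C_dvd_one {w : R} (hw : Prime w) : ¬ (C w : R[X]) ∣ 1 := fun h =>
  hw.not_isUnit (Polynomial.isUnit_C.1 (isUnit_of_dvd_one h))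

theorem not_C_dvd_X_pow {w : R} (hw : Prime w) (k : ℕ) : ¬ (C w : R[X]) ∣ X ^ k := by
  intro h
  have hp : Prime (C w : R[X]) := prime_C_iff.2 hw
  have h1 : (C w : R[X]) ∣ X := hp.dvd_of_dvd_pow h
  obtain ⟨q, hq⟩ := h1
  have := congrArg (fun p : R[X] => p.coeff 1) hq
  simp only [coeff_X_one, coeff_C_mul] at this
  exact hw.not_isUnit (IsUnit.of_mul_eq_one _ this.symm)

theorem isGaussDenom_one {w : R} (hw : Prime w) (x : F) : IsGaussDenom w x 1 :=
  ⟨1, not_C_dvd_one hw, by simp⟩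

theorem isGaussDenom_X_pow {w : R} (hw : Prime w) (x : F) (k : ℕ) : IsGaussDenom w x (x ^ k) :=
  ⟨X ^ k, not_C_dvd_X_pow hw k, by simp⟩

theorem IsGaussDenom.mul {w : R} (hw : Prime w) {x s s' : F} (hs : IsGaussDenom w x s)
    (hs' : IsGaussDenom w x s') : IsGaussDenom w x (s * s') := by
  obtain ⟨Q, hQ, rfl⟩ := hs
  obtain ⟨Q', hQ', rfl⟩ := hs'
  refine ⟨Q * Q', fun h => ?_, by simp⟩
  rcases (prime_C_iff.2 hw).dvd_or_dvd h with h | h
  · exact hQ h
  · exact hQ' h

theorem IsGaussDenom.mem_adjoin {w : R} {x s : F} (hs : IsGaussDenom w x s) :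
    s ∈ Algebra.adjoin R ({x} : Set F) := by
  obtain ⟨Q, -, rfl⟩ := hs
  exact mem_adjoin_singleton_iff.2 ⟨Q, rfl⟩

theorem x_mem_chart_fin (x : F) : x ∈ chart R ({x} : Set F) :=
  mem_chart_of_mem (Set.mem_singleton x)

theorem xinv_mem_chart_inf (x : F) : x⁻¹ ∈ chart R ({x⁻¹} : Set F) :=
  mem_chart_of_mem (Set.mem_singleton x⁻¹)

theorem xinv_mem_chart_mid (x : F) : x⁻¹ ∈ chart R ({x, x⁻¹} : Set F) :=
  mem_chart_of_mem (Set.mem_insert_of_mem _ (Set.mem_singleton x⁻¹))

theorem chart_fin_le_mid (x : F) : chart R ({x} : Set F) ≤ chart R ({x, x⁻¹} : Set F) :=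
  chart_mono (Set.singleton_subset_iff.2 (Set.mem_insert _ _))

theorem chart_inf_le_mid (x : F) : chart R ({x⁻¹} : Set F) ≤ chart R ({x, x⁻¹} : Set F) :=
  chart_mono (Set.singleton_subset_iff.2 (Set.mem_insert_of_mem _ (Set.mem_singleton x⁻¹)))

/-- The canonical Gauss ring. -/
def gaussO {w : R} (hw : Prime w) (x : F) : Subalgebra R F where
  carrier := {t | ∃ s, IsGaussDenom w x s ∧ s * t ∈ chart R ({x} : Set F)}
  mul_mem' := by
    rintro a b ⟨s, hs, ha⟩ ⟨s', hs', hb⟩
    refine ⟨s * s', hs.mul hw hs', ?_⟩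
    have : s * s' * (a * b) = (s * a) * (s' * b) := by ring
    rw [this]
    exact Subalgebra.mul_mem _ ha hb
  add_mem' := by
    rintro a b ⟨s, hs, ha⟩ ⟨s', hs', hb⟩
    refine ⟨s * s', hs.mul hw hs', ?_⟩
    have : s * s' * (a + b) = s' * (s * a) + s * (s' * b) := by ring
    rw [this]
    exact Subalgebra.add_mem _
      (Subalgebra.mul_mem _ (adjoin_le_chart _ hs'.mem_adjoin) ha)
      (Subalgebra.mul_mem _ (adjoin_le_chart _ hs.mem_adjoin) hb)
  algebraMap_mem' r := ⟨1, isGaussDenom_one hw x, by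
    rw [one_mul]; exact Subalgebra.algebraMap_mem _ r⟩

theorem mem_gaussO {w : R} {hw : Prime w} {x t : F} :
    t ∈ gaussO hw x ↔ ∃ s, IsGaussDenom w x s ∧ s * t ∈ chart R ({x} : Set F) := Iff.rfl

theorem chart_fin_le_gaussO {w : R} (hw : Prime w) (x : F) :
    chart R ({x} : Set F) ≤ gaussO hw x := fun t ht =>
  ⟨1, isGaussDenom_one hw x, by rwa [one_mul]⟩

theorem chart_mid_le_gaussO {w : R} (hw : Prime w) {x : F} (hx : x ≠ 0) :
    chart R ({x, x⁻¹} : Set F) ≤ gaussO hw x := fun t ht => by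
  obtain ⟨K, hK⟩ := exists_pow_mul_mem_chart hx ht
  exact ⟨x ^ K, isGaussDenom_X_pow hw x K, hK⟩

theorem chart_inf_le_gaussO {w : R} (hw : Prime w) {x : F} (hx : x ≠ 0) :
    chart R ({x⁻¹} : Set F) ≤ gaussO hw x :=
  le_trans (chart_inf_le_mid (R := R) x) (chart_mid_le_gaussO hw hx)

section Transcendental

variable [IsDomain R]

/-- `R[X] ≃ R[x]` for transcendental `x`. -/
noncomputable def adjoinEquiv {x : F} (hx : Transcendental R x) :
    R[X] ≃ₐ[R] Algebra.adjoin R ({x} : Set F) :=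
  (AlgEquiv.ofInjective (aeval x) (transcendental_iff_injective.1 hx)).trans
    (Subalgebra.equivOfEq _ _ (Algebra.adjoin_singleton_eq_range_aeval R x).symm)

theorem coe_adjoinEquiv {x : F} (hx : Transcendental R x) (Q : R[X]) :
    ((adjoinEquiv hx Q : Algebra.adjoin R ({x} : Set F)) : F) = aeval x Q := rfl

theorem prime_algebraMap_adjoin {w : R} (hw : Prime w) {x : F} (hx : Transcendental R x) :
    Prime (algebraMap R (Algebra.adjoin R ({x} : Set F)) w) := by
  have h : Prime (adjoinEquiv hx (C w)) :=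
    (MulEquiv.prime_iff (adjoinEquiv hx).toMulEquiv).2 (prime_C_iff.2 hw)
  have h2 : adjoinEquiv hx (C w) = algebraMap R (Algebra.adjoin R ({x} : Set F)) w := by
    apply Subtype.ext
    rw [coe_adjoinEquiv, aeval_C]
    rfl
  rwa [h2] at h

theorem not_dvd_adjoinEquiv {w : R} {x : F} (hx : Transcendental R x) {Q : R[X]}
    (hQ : ¬ C w ∣ Q) :
    ¬ algebraMap R (Algebra.adjoin R ({x} : Set F)) w ∣ adjoinEquiv hx Q := by
  rintro ⟨a, ha⟩
  apply hQ
  refine ⟨(adjoinEquiv hx).symm a, ?_⟩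
  apply (adjoinEquiv hx).injective
  rw [map_mul, AlgEquiv.apply_symm_apply, ha]
  congr 1
  apply Subtype.ext
  rw [coe_adjoinEquiv, aeval_C]
  rfl

variable [IsIntegrallyClosed R[X]]

/-- The regular-sequence lemma on the chart: if `w t` and `Q(x) t` are integral over `R[x]`,
`Q ≢ 0 mod w`, then `t` is integral over `R[x]`. -/
theorem mem_chart_of_mul_mem {w : R} (hw : Prime w) {x : F} (hx : Transcendental R x)
    {s t : F} (hs : IsGaussDenom w x s)
    (h1 : algebraMap R F w * t ∈ chart R ({x} : Set F))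
    (h2 : s * t ∈ chart R ({x} : Set F)) : t ∈ chart R ({x} : Set F) := by
  obtain ⟨Q, hQ, rfl⟩ := hs
  have := isIntegrallyClosed_adjoin_singleton (R := R) hx
  rw [mem_chart] at h1 h2 ⊢
  refine isIntegral_of_smul_of_smul (prime_algebraMap_adjoin hw hx)
    (not_dvd_adjoinEquiv hx hQ) ?_ ?_
  · have : algebraMap R (Algebra.adjoin R ({x} : Set F)) w • t = algebraMap R F w * t := rfl
    rw [this]; exact h1
  · have : adjoinEquiv hx Q • t = aeval x Q * t := rfl
    rw [this]; exact h2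

/-- **QEP** on the finite chart. -/
theorem qep_fin {w : R} (hw : Prime w) {x : F} (hx : Transcendental R x) :
    ∀ b ∈ chart R ({x} : Set F), InW (gaussO hw x) w b →
      ∃ t ∈ chart R ({x} : Set F), b = algebraMap R F w * t := by
  rintro b hb ⟨t, ⟨s, hs, hst⟩, rfl⟩
  exact ⟨t, mem_chart_of_mul_mem hw hx hs hb hst, rfl⟩

/-- **QEP** on the middle chart. -/
theorem qep_mid {w : R} (hw : Prime w) {x : F} (hx : Transcendental R x) :
    ∀ b ∈ chart R ({x, x⁻¹} : Set F), InW (gaussO hw x) w b →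
      ∃ t ∈ chart R ({x, x⁻¹} : Set F), b = algebraMap R F w * t := by
  have hx0 : x ≠ 0 := ne_zero_of_transcendental hx
  rintro b hb ⟨t, ⟨s, hs, hst⟩, rfl⟩
  obtain ⟨K, hK⟩ := exists_pow_mul_mem_chart hx0 hb
  have h1 : algebraMap R F w * (x ^ K * t) ∈ chart R ({x} : Set F) := by
    have : algebraMap R F w * (x ^ K * t) = x ^ K * (algebraMap R F w * t) := by ring
    rw [this]; exact hK
  have h2 : s * (x ^ K * t) ∈ chart R ({x} : Set F) := by
    have : s * (x ^ K * t) = x ^ K * (s * t) := by ring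
    rw [this]
    exact Subalgebra.mul_mem _ (Subalgebra.pow_mem _ (x_mem_chart_fin (R := R) x) K) hst
  have h3 : x ^ K * t ∈ chart R ({x} : Set F) := mem_chart_of_mul_mem hw hx hs h1 h2
  refine ⟨t, ?_, rfl⟩
  have : t = x⁻¹ ^ K * (x ^ K * t) := by
    rw [← mul_assoc, ← mul_pow, inv_mul_cancel₀ hx0, one_pow, one_mul]
  rw [this]
  exact Subalgebra.mul_mem _ (Subalgebra.pow_mem _ (xinv_mem_chart_mid (R := R) x) K)
    (chart_fin_le_mid (R := R) x h3)

theorem not_C_dvd_reflect {w : R} {Q : R[X]} (hQ : ¬ C w ∣ Q) (d : ℕ) :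
    ¬ C w ∣ reflect d Q := by
  rintro ⟨q, hq⟩
  apply hQ
  have h1 : Q = reflect d (reflect d Q) := reflect_reflect.symm
  rw [hq, reflect_C_mul] at h1
  exact ⟨_, h1⟩

/-- Membership in the Gauss ring can be tested on the chart at infinity. -/
theorem exists_denom_inv_of_mem_gaussO {w : R} (hw : Prime w) {x : F} (hx0 : x ≠ 0) {t : F}
    (ht : t ∈ gaussO hw x) :
    ∃ s, IsGaussDenom w x⁻¹ s ∧ s * t ∈ chart R ({x⁻¹} : Set F) := by
  obtain ⟨s, ⟨Q, hQ, rfl⟩, hst⟩ := ht
  obtain ⟨D, hD⟩ := exists_inv_pow_mul_mem_chart hx0 hst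
  set d := Q.natDegree with hd
  have hrefl : x⁻¹ ^ d * aeval x Q = aeval x⁻¹ (reflect d Q) := by
    have := pow_mul_aeval_inv (R := R) (x := x⁻¹) (inv_ne_zero hx0) Q (d := d) le_rfl
    rwa [inv_inv] at this
  refine ⟨aeval x⁻¹ (X ^ D * reflect d Q), ⟨X ^ D * reflect d Q, fun h => ?_, rfl⟩, ?_⟩
  · rcases (prime_C_iff.2 hw).dvd_or_dvd h with h | h
    · exact not_C_dvd_X_pow hw D h
    · exact not_C_dvd_reflect hQ d h
  · rw [map_mul, map_pow, aeval_X, ← hrefl]
    have : x⁻¹ ^ D * (x⁻¹ ^ d * aeval x Q) * t = x⁻¹ ^ d * (x⁻¹ ^ D * (aeval x Q * t)) := by ring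
    rw [this]
    exact Subalgebra.mul_mem _ (Subalgebra.pow_mem _ (xinv_mem_chart_inf (R := R) x) d) hD

/-- **QEP** on the chart at infinity. -/
theorem qep_inf {w : R} (hw : Prime w) {x : F} (hx : Transcendental R x) :
    ∀ b ∈ chart R ({x⁻¹} : Set F), InW (gaussO hw x) w b →
      ∃ t ∈ chart R ({x⁻¹} : Set F), b = algebraMap R F w * t := by
  have hx0 : x ≠ 0 := ne_zero_of_transcendental hx
  rintro b hb ⟨t, ht, rfl⟩
  obtain ⟨s, hs, hst⟩ := exists_denom_inv_of_mem_gaussO hw hx0 ht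
  exact ⟨t, mem_chart_of_mul_mem hw (transcendental_inv hx) hs hb hst, rfl⟩

end Transcendental

end Fermat.Agent.A2.H729

end
-- ===== PACK-END A2/H729/Gauss.lean

-- ===== PACK-BEGIN A2/H729/GaussUnits.lean
section


/-!
# A2 (helper729): units and roots in the canonical Gauss ring

* `mem_chart_of_pow_mem`, `mem_gaussO_of_pow_mem` : the charts and the Gauss ring are closed under
  taking roots (they are integrally closed in `F`).
* `inv_one_add_mem_gaussO` : `w` lies in the Jacobson radical of the Gauss ring: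
  `t ∈ O → (1 + w t)⁻¹ ∈ O`.
* `inW_inv_sub_one` : `h ≡ 1 mod w O → h⁻¹ ≡ 1 mod w O`.
-/

set_option autoImplicit false
set_option linter.unusedSectionVars false

namespace Fermat.Agent.A2.H729

open Polynomial Fermat.Agent.S18.H138

variable {R : Type*} [CommRing R] {F : Type*} [Field F] [Algebra R F]

theorem mem_chart_of_pow_mem {S : Set F} {z : F} {n : ℕ} (hn : 0 < n)
    (h : z ^ n ∈ chart R S) : z ∈ chart R S := by
  rw [mem_chart] at h ⊢
  exact IsIntegral.of_pow hn h

theorem mem_gaussO_of_pow_mem {w : R} (hw : Prime w) {x z : F} {n : ℕ} (hn : 0 < n)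
    (h : z ^ n ∈ gaussO hw x) : z ∈ gaussO hw x := by
  obtain ⟨s, hs, hsz⟩ := h
  refine ⟨s, hs, mem_chart_of_pow_mem hn ?_⟩
  have : (s * z) ^ n = s ^ (n - 1) * (s * z ^ n) := by
    rw [mul_pow, ← mul_assoc, ← pow_succ]
    congr 2
    omega
  rw [this]
  exact Subalgebra.mul_mem _ (Subalgebra.pow_mem _ (adjoin_le_chart _ hs.mem_adjoin) _) hsz

section Transcendental

variable [IsDomain R]

theorem not_C_dvd_symm {w : R} {x : F} (hx : Transcendental R x)
    {a : Algebra.adjoin R ({x} : Set F)}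
    (ha : ¬ algebraMap R (Algebra.adjoin R ({x} : Set F)) w ∣ a) :
    ¬ C w ∣ (adjoinEquiv hx).symm a := by
  rintro ⟨q, hq⟩
  apply ha
  refine ⟨adjoinEquiv hx q, ?_⟩
  have h1 := congrArg (adjoinEquiv hx) hq
  rw [AlgEquiv.apply_symm_apply, map_mul] at h1
  rw [h1]
  congr 1
  apply Subtype.ext
  rw [coe_adjoinEquiv, aeval_C]
  rfl

theorem isGaussDenom_of_not_dvd {w : R} {x : F} (hx : Transcendental R x)
    {a : Algebra.adjoin R ({x} : Set F)}
    (ha : ¬ algebraMap R (Algebra.adjoin R ({x} : Set F)) w ∣ a) :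
    IsGaussDenom w x (a : F) := by
  refine ⟨(adjoinEquiv hx).symm a, not_C_dvd_symm hx ha, ?_⟩
  rw [← coe_adjoinEquiv hx, AlgEquiv.apply_symm_apply]

/-- `w` is in the Jacobson radical of the Gauss ring. -/
theorem one_add_unit_gaussO {w : R} (hw : Prime w) {x : F} (hx : Transcendental R x)
    {t : F} (ht : t ∈ gaussO hw x) :
    (1 + algebraMap R F w * t) ≠ 0 ∧ (1 + algebraMap R F w * t)⁻¹ ∈ gaussO hw x := by
  classical
  obtain ⟨s, ⟨Q, hQ, rfl⟩, hst⟩ := ht
  set A := Algebra.adjoin R ({x} : Set F) with hA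
  set w' : A := algebraMap R A w with hw'
  have hw'p : Prime w' := prime_algebraMap_adjoin hw hx
  set sA : A := adjoinEquiv hx Q with hsA
  have hsA' : ¬ w' ∣ sA := not_dvd_adjoinEquiv hx hQ
  have hsAcoe : (sA : F) = aeval x Q := coe_adjoinEquiv hx Q
  set c : F := aeval x Q * t with hc
  obtain ⟨m, hm, hmc⟩ := (mem_chart.1 hst : IsIntegral A c)
  set n := m.natDegree with hn
  set P : A[X] := (m.scaleRoots w').comp (X - C sA) with hP
  set β : F := aeval x Q + algebraMap R F w * c with hβ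
  have hβC : β ∈ chart R ({x} : Set F) :=
    Subalgebra.add_mem _ (adjoin_le_chart _ (mem_adjoin_singleton_iff.2 ⟨Q, rfl⟩))
      (Subalgebra.mul_mem _ (Subalgebra.algebraMap_mem _ w) hst)
  -- `P(β) = 0`
  have hPβ : aeval β P = 0 := by
    rw [hP, aeval_comp]
    have h1 : aeval β (X - C sA : A[X]) = algebraMap A F w' * c := by
      rw [map_sub, aeval_X, aeval_C]
      have : algebraMap A F sA = aeval x Q := hsAcoe
      rw [this, hβ]
      have : algebraMap A F w' = algebraMap R F w := rfl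
      rw [this]
      ring
    rw [h1]
    exact scaleRoots_aeval_eq_zero hmc
  -- constant term of `P`
  have hP0 : ¬ w' ∣ P.coeff 0 := by
    rw [coeff_zero_eq_eval_zero, hP, eval_comp]
    have h0 : eval 0 (X - C sA : A[X]) = -sA := by simp
    rw [h0, eval_eq_sum_range, natDegree_scaleRoots, Finset.sum_range_succ]
    intro hdvd
    have hlow : w' ∣ ∑ i ∈ Finset.range m.natDegree,
        (m.scaleRoots w').coeff i * (-sA) ^ i := by
      refine Finset.dvd_sum fun i hi => ?_
      rw [coeff_scaleRoots]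
      have hi' : 0 < m.natDegree - i := by
        have := Finset.mem_range.1 hi
        omega
      exact Dvd.dvd.mul_right (Dvd.dvd.mul_left (dvd_pow_self _ hi'.ne') _) _
    have htop : w' ∣ (m.scaleRoots w').coeff m.natDegree * (-sA) ^ m.natDegree :=
      (dvd_add_right hlow).1 hdvd
    rw [coeff_scaleRoots, Nat.sub_self, pow_zero, mul_one, hm.coeff_natDegree, one_mul] at htop
    have := hw'p.dvd_of_dvd_pow htop
    exact hsA' ((dvd_neg).1 this)
  -- `β * γ = p₀`
  set γ : F := -aeval β P.divX with hγ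
  have hγC : γ ∈ chart R ({x} : Set F) := by
    rw [hγ]
    refine Subalgebra.neg_mem _ ?_
    rw [aeval_eq_sum_range]
    refine Subalgebra.sum_mem _ fun i _ => ?_
    rw [Algebra.smul_def]
    exact Subalgebra.mul_mem _ (adjoin_le_chart _ (P.divX.coeff i).2)
      (Subalgebra.pow_mem _ hβC i)
  have hβγ : β * γ = ((P.coeff 0 : A) : F) := by
    have h1 : aeval β (P.divX * X + C (P.coeff 0)) = 0 := by rw [divX_mul_X_add, hPβ]
    rw [map_add, map_mul, aeval_X, aeval_C] at h1
    have h2 : algebraMap A F (P.coeff 0) = ((P.coeff 0 : A) : F) := rfl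
    rw [h2] at h1
    rw [hγ]
    linear_combination -h1
  have hp0 : ((P.coeff 0 : A) : F) ≠ 0 := by
    intro h
    have : P.coeff 0 = 0 := Subtype.ext h
    exact hP0 (this ▸ dvd_zero _)
  have hβ0 : β ≠ 0 := fun h => hp0 (by rw [← hβγ, h, zero_mul])
  have hz : β = aeval x Q * (1 + algebraMap R F w * t) := by
    rw [hβ, hc]; ring
  have hz0 : (1 + algebraMap R F w * t) ≠ 0 := fun h => hβ0 (by rw [hz, h, mul_zero])
  refine ⟨hz0, ((P.coeff 0 : A) : F), isGaussDenom_of_not_dvd hx hP0, ?_⟩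
  have : ((P.coeff 0 : A) : F) * (1 + algebraMap R F w * t)⁻¹ = aeval x Q * γ := by
    rw [← hβγ, hz]
    field_simp
  rw [this]
  exact Subalgebra.mul_mem _ (adjoin_le_chart _ (mem_adjoin_singleton_iff.2 ⟨Q, rfl⟩)) hγC

theorem inv_one_add_mem_gaussO {w : R} (hw : Prime w) {x : F} (hx : Transcendental R x)
    {t : F} (ht : t ∈ gaussO hw x) : (1 + algebraMap R F w * t)⁻¹ ∈ gaussO hw x :=
  (one_add_unit_gaussO hw hx ht).2

/-- `h ≡ 1 mod w O` implies `h ≠ 0`, `h⁻¹ ∈ O` and `h⁻¹ ≡ 1 mod w O`. -/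
theorem inW_inv_sub_one {w : R} (hw : Prime w) {x : F} (hx : Transcendental R x)
    {h : F} (hh : InW (gaussO hw x) w (h - 1)) :
    h ≠ 0 ∧ h⁻¹ ∈ gaussO hw x ∧ InW (gaussO hw x) w (h⁻¹ - 1) := by
  obtain ⟨t, ht, htt⟩ := hh
  have hh' : h = 1 + algebraMap R F w * t := by rw [← htt]; ring
  obtain ⟨hne, hinv⟩ := one_add_unit_gaussO hw hx ht
  rw [← hh'] at hne hinv
  refine ⟨hne, hinv, ⟨-(h⁻¹ * t), Subalgebra.neg_mem _ (Subalgebra.mul_mem _ hinv ht), ?_⟩⟩
  field_simp
  rw [hh']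
  ring

end Transcendental

end Fermat.Agent.A2.H729

end
-- ===== PACK-END A2/H729/GaussUnits.lean

-- ===== PACK-BEGIN Ribet/H801/PushPic0.lean
section
/-
RIBET / W-DEG (helper801), part 1 (generic, Prelude language):
the push-forward `a_* : Pic0 K F₁ →+ Pic0 K F` along an integral map `a : F →ₐ[K] F₁` of function
fields with norm formula, its equivariance under semilinear automorphisms, and its commutation
with correspondences:

      a_* ∘ (ψ₁_* φ₁^*) = (ψ_* φ^*) ∘ a_*

for a commutative diagram `a' ∘ φ = φ₁ ∘ a`, `a' ∘ ψ = ψ₁ ∘ a` whose `φ`-square satisfies base change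
(helper818's `pullback_pushforward_eq`).
-/






set_option autoImplicit false
set_option linter.style.haveILetI false

noncomputable section

namespace Fermat.Agent.Ribet.H801

open AlgebraicCurve Fermat.Agent.S37.H818 Fermat.Agent.S29.H801

variable {K F F₁ G G₁ : Type*} [Field K] [Field F] [Field F₁] [Field G] [Field G₁]
  [Algebra K F] [Algebra K F₁] [Algebra K G] [Algebra K G₁]

section Def

variable (a : F →ₐ[K] F₁) (ha : a.toRingHom.IsIntegral)

/-- Push-forward of degree-zero divisors along `a`. -/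
def pushDegZero :
    Divisor.degZero (K := K) (F := F₁) →+ Divisor.degZero (K := K) (F := F) :=
  ((Divisor.pushforwardAlong a ha).domRestrict
    (Divisor.degZero (K := K) (F := F₁))).codRestrict _
    (fun D => Divisor.pushforwardAlong_mem_degZero a ha D.2)

@[simp]
theorem coe_pushDegZero (D : Divisor.degZero (K := K) (F := F₁)) :
    (pushDegZero a ha D : Divisor K F) = Divisor.pushforwardAlong a ha (D : Divisor K F₁) :=
  rfl

variable (hfin : FiniteAlong K a) (hN : NormFormulaAlong K a hfin)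

/-- **Push-forward on `Pic0`** along `a`. -/
def pushPic0 : Pic0 K F₁ →+ Pic0 K F :=
  QuotientAddGroup.map _ _ (pushDegZero a ha) (by
    rintro ⟨D, hD0⟩ hD
    simp only [AddSubgroup.mem_addSubgroupOf] at hD ⊢
    exact Divisor.isPrincipal_pushforwardAlong a ha hfin hN hD)

theorem pushPic0_mk (D : Divisor.degZero (K := K) (F := F₁)) :
    pushPic0 a ha hfin hN (Pic0.mk D) = Pic0.mk (pushDegZero a ha D) :=
  rfl

end Def

section Smul

variable (a : F →ₐ[K] F₁) (ha : a.toRingHom.IsIntegral)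
  (hfin : FiniteAlong K a) (hN : NormFormulaAlong K a hfin)
  {g : SemilinearAut K F} {g' : SemilinearAut K F₁}

/-- The push-forward on `Pic0` commutes with intertwined semilinear automorphisms. -/
theorem pushPic0_smul (h : SemilinearAut.IntertwinesAlong (a : F →+* F₁) g g')
    (x : Pic0 K F₁) :
    pushPic0 a ha hfin hN (g' • x) = g • pushPic0 a ha hfin hN x := by
  obtain ⟨D, rfl⟩ := Pic0.mk_surjective x
  rw [SemilinearAut.pic0_smul_mk, pushPic0_mk, pushPic0_mk, SemilinearAut.pic0_smul_mk]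
  refine congrArg Pic0.mk (Subtype.ext ?_)
  rw [coe_pushDegZero, SemilinearAut.coe_degZeroSMulHom, SemilinearAut.coe_degZeroSMulHom,
    coe_pushDegZero]
  exact Fermat.Agent.S29.H571.pushforwardAlong_smul a ha h (D : Divisor K F₁)

end Smul

section Correspondence

variable (a : F →ₐ[K] F₁) (φ ψ : F →ₐ[K] G) (φ₁ ψ₁ : F₁ →ₐ[K] G₁) (a' : G →ₐ[K] G₁)
  (ha : a.toRingHom.IsIntegral) (hφ : φ.toRingHom.IsIntegral) (hψ : ψ.toRingHom.IsIntegral)
  (hφ₁ : φ₁.toRingHom.IsIntegral) (hψ₁ : ψ₁.toRingHom.IsIntegral)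
  (ha' : a'.toRingHom.IsIntegral)
  (hsqφ : φ₁.comp a = a'.comp φ) (hsqψ : ψ₁.comp a = a'.comp ψ)

variable [HasPrincipalDivisors K G] [HasPrincipalDivisors K G₁] [HasPrincipalDivisors K F₁]

include hsqφ hsqψ ha' in
/-- `a_* ∘ (ψ₁_* φ₁^*) = (ψ_* φ^*) ∘ a_*` on divisors. -/
theorem pushforwardAlong_correspondence
    (hfin : FiniteAlong K a) (hN : NormFormulaAlong K a hfin)
    (hfin' : FiniteAlong K a') (hN' : NormFormulaAlong K a' hfin')
    (hnorm : NormCompat a φ a' φ₁) (hLG : HasLocalGenerators a ha) (D : Divisor K F₁) :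
    Divisor.pushforwardAlong a ha (Divisor.correspondence φ₁ ψ₁ hφ₁ hψ₁ D) =
      Divisor.correspondence φ ψ hφ hψ (Divisor.pushforwardAlong a ha D) := by
  have h1 : (ψ₁.comp a).toRingHom.IsIntegral := RingHom.IsIntegral.trans _ _ ha hψ₁
  have h2 : (a'.comp ψ).toRingHom.IsIntegral := RingHom.IsIntegral.trans _ _ hψ ha'
  rw [Divisor.correspondence_apply, Divisor.correspondence_apply,
    pullback_pushforward_eq a φ a' φ₁ ha hφ ha' hφ₁ hsqφ hfin hN hfin' hN' hnorm hLG,
    ← pushforwardAlong_comp a ψ₁ ha hψ₁ h1, ← pushforwardAlong_comp ψ a' hψ ha' h2]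
  exact pushforwardAlong_congr hsqψ h1 h2 _

include hsqφ hsqψ ha' in
/-- **`a_*` intertwines the correspondences on `Pic0`.** -/
theorem pushPic0_correspondence
    (hFI : FundamentalIdentityAlong K φ hφ) (hFI₁ : FundamentalIdentityAlong K φ₁ hφ₁)
    (hfinψ : FiniteAlong K ψ) (hNψ : NormFormulaAlong K ψ hfinψ)
    (hfinψ₁ : FiniteAlong K ψ₁) (hNψ₁ : NormFormulaAlong K ψ₁ hfinψ₁)
    (hfin : FiniteAlong K a) (hN : NormFormulaAlong K a hfin)
    (hfin' : FiniteAlong K a') (hN' : NormFormulaAlong K a' hfin')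
    (hnorm : NormCompat a φ a' φ₁) (hLG : HasLocalGenerators a ha) (x : Pic0 K F₁) :
    pushPic0 a ha hfin hN (Pic0.correspondence φ₁ ψ₁ hφ₁ hψ₁ hFI₁ hfinψ₁ hNψ₁ x) =
      Pic0.correspondence φ ψ hφ hψ hFI hfinψ hNψ (pushPic0 a ha hfin hN x) := by
  obtain ⟨D, rfl⟩ := Pic0.mk_surjective x
  rw [Pic0.correspondence_mk, pushPic0_mk, pushPic0_mk, Pic0.correspondence_mk]
  congr 1
  apply Subtype.ext
  simp only [Pic0.coe_degZeroCorrespondence, coe_pushDegZero]
  exact pushforwardAlong_correspondence a φ ψ φ₁ ψ₁ a' ha hφ hψ hφ₁ hψ₁ ha' hsqφ hsqψ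
    hfin hN hfin' hN' hnorm hLG D

end Correspondence

end Fermat.Agent.Ribet.H801

end

end
-- ===== PACK-END Ribet/H801/PushPic0.lean

-- ===== PACK-BEGIN A2/Mod/H189/ChartChangeT3.lean
section


/-!
# Cell A2 / MOD, GOODRED part G3 (helper189): from the `t₃`-charts to the `j`-charts (`q = 2`)

Abstract setting (Mathlib only): `F` a field over `R`, `3` a unit of `R`, `t, j ∈ F` with
`j t³ = (t + 27)(t + 243)³` (`t` = Hauptmodul of `X₀(3)`), `j ≠ 0`; `V` a subring of `F`
containing `R` in which `t`, `t + 27`, `t + 243` are units (the Gauss valuation ring), `w : F`.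

* `goodOn_j_of_t3`    : `GoodOn` for the chart of `R[t]` ⟹ `GoodOn` for the chart of `R[j]`;
* `goodOn_jinv_of_t3` : `GoodOn` for the charts of `R[t]` and `R[1/t]` ⟹ `GoodOn` for the chart of
  `R[1/j]`  (`IC(R[1/j]) = IC(R[u₁, u₂])`, `u₁ = 1/(t+27)`, `u₂ = 1/(t+243)`, glued from
  `IC(R[t])[1/((t+27)(t+243))]` and `IC(R[1/t])[1/((1+27/t)(1+243/t))]`).
-/

set_option autoImplicit false

namespace Fermat.Agent.A2.Mod.H189

variable {R : Type*} [CommRing R] {F : Type*} [Field F] [Algebra R F]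

section T3

variable {V : Subring F} {w : F} {t j : F} (i : R)

include i in
theorem t3_facts (hi : (3 : R) * i = 1) (hj : j ≠ 0)
    (hrel : j * t ^ 3 = (t + 27) * (t + 243) ^ 3) :
    (3 : F) * algebraMap R F i = 1 ∧ (3 : F) ≠ 0 ∧ t ≠ 0 ∧ t + 27 ≠ 0 ∧ t + 243 ≠ 0 := by
  have h1 : (3 : F) * algebraMap R F i = 1 := by
    have := congrArg (algebraMap R F) hi
    rwa [map_mul, map_one, map_ofNat] at this
  have h2 : (3 : F) ≠ 0 := fun h => by rw [h, zero_mul] at h1; exact zero_ne_one h1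
  have h27 : (27 : F) ≠ 0 := by
    have : (27 : F) = 3 ^ 3 := by norm_num
    rw [this]
    exact pow_ne_zero 3 h2
  have h243 : (243 : F) ≠ 0 := by
    have : (243 : F) = 3 ^ 5 := by norm_num
    rw [this]
    exact pow_ne_zero 5 h2
  have h3 : t ≠ 0 := by
    intro h
    rw [h] at hrel
    simp only [ne_eq, OfNat.ofNat_ne_zero, not_false_eq_true, zero_pow, mul_zero, zero_add] at hrel
    exact mul_ne_zero h27 (pow_ne_zero 3 h243) hrel.symm
  have hjt : j * t ^ 3 ≠ 0 := mul_ne_zero hj (pow_ne_zero 3 h3)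
  refine ⟨h1, h2, h3, fun h => hjt ?_, fun h => hjt ?_⟩
  · rw [hrel, h, zero_mul]
  · rw [hrel, h]
    simp

include i in
/-- **`t₃ → j`, finite chart.** -/
theorem goodOn_j_of_t3 (hi : (3 : R) * i = 1) (hj : j ≠ 0)
    (hrel : j * t ^ 3 = (t + 27) * (t + 243) ^ 3)
    (htV : t ∈ V) (htV' : t⁻¹ ∈ V) (hg : GoodOn V w (Aof R t)) : GoodOn V w (Aof R j) := by
  obtain ⟨hi', h3, ht0, -, -⟩ := t3_facts i hi hj hrel
  have hjeq : j = (t + 27) * (t + 243) ^ 3 * t⁻¹ ^ 3 := by
    field_simp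
    exact hrel
  refine (hg.loc (self_mem_Aof t) ht0 htV htV').congr ?_ ?_
  · intro a ha
    refine isIntegral_of_mem_locSub (A' := Aof R j) (fun a ha => ?_) ?_ ha
    · refine isIntegral_of_mem_adjoin (A := Aof R j) (S := {t}) (fun x hx => ?_) ha
      rw [Set.mem_singleton_iff] at hx
      subst hx
      refine isIntegral_of_quartic (a := 1) (v := 1) (c₃ := 756 - j) (c₂ := 196830)
        (c₁ := 19131876) (c₀ := 387420489) (Subalgebra.one_mem _) (one_mul 1)
        (Subalgebra.sub_mem _ (ofNat_mem_sub _ 756) (self_mem_Aof j))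
        (ofNat_mem_sub _ 196830) (ofNat_mem_sub _ 19131876) (ofNat_mem_sub _ 387420489) ?_
      linear_combination -hrel
    · refine isIntegral_of_quartic (a := 387420489) (v := algebraMap R F (i ^ 18))
        (c₃ := 19131876) (c₂ := 196830) (c₁ := 756 - j) (c₀ := 1)
        (Subalgebra.algebraMap_mem _ _) ?_
        (ofNat_mem_sub _ 19131876) (ofNat_mem_sub _ 196830)
        (Subalgebra.sub_mem _ (ofNat_mem_sub _ 756) (self_mem_Aof j)) (Subalgebra.one_mem _) ?_
      · rw [map_pow]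
        have : (387420489 : F) = 3 ^ 18 := by norm_num
        rw [this, ← mul_pow, mul_comm, hi', one_pow]
      · field_simp
        linear_combination -hrel
  · intro a ha
    refine isIntegral_of_mem (Aof_le (B := locSub (Aof R t) t) ?_ ha)
    rw [hjeq]
    refine Subalgebra.mul_mem _ (Subalgebra.mul_mem _ (Subalgebra.add_mem _
        (le_locSub _ _ (self_mem_Aof t)) (ofNat_mem_sub _ 27))
      (Subalgebra.pow_mem _ (Subalgebra.add_mem _
        (le_locSub _ _ (self_mem_Aof t)) (ofNat_mem_sub _ 243)) 3))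
      (Subalgebra.pow_mem _ (inv_mem_locSub _ _) 3)

include i in
/-- **`t₃ → j`, chart at infinity.** -/
theorem goodOn_jinv_of_t3 (hi : (3 : R) * i = 1) (hj : j ≠ 0)
    (hrel : j * t ^ 3 = (t + 27) * (t + 243) ^ 3) (hRV : ∀ r : R, algebraMap R F r ∈ V)
    (htV : t ∈ V) (htV' : t⁻¹ ∈ V) (hu₁V : (t + 27)⁻¹ ∈ V) (hu₂V : (t + 243)⁻¹ ∈ V)
    (hg : GoodOn V w (Aof R t)) (hg' : GoodOn V w (Aof R t⁻¹)) : GoodOn V w (Aof R j⁻¹) := by
  obtain ⟨hi', h3, ht0, ht27, ht243⟩ := t3_facts i hi hj hrel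
  have hi27 : (27 : F) * algebraMap R F (i ^ 3) = 1 := by
    rw [map_pow]
    have : (27 : F) = 3 ^ 3 := by norm_num
    rw [this, ← mul_pow, hi', one_pow]
  have h27V : (27 : F) ∈ V := by
    have := hRV 27
    rwa [map_ofNat] at this
  have h243V : (243 : F) ∈ V := by
    have := hRV 243
    rwa [map_ofNat] at this
  set u₁ : F := (t + 27)⁻¹ with hu₁
  set u₂ : F := (t + 243)⁻¹ with hu₂
  have hu₁0 : u₁ ≠ 0 := inv_ne_zero ht27
  have hu₂0 : u₂ ≠ 0 := inv_ne_zero ht243
  have htu₁ : t * u₁ = 1 - 27 * u₁ := by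
    rw [hu₁]
    field_simp
    ring
  have htu₂ : t * u₂ = 1 - 243 * u₂ := by
    rw [hu₂]
    field_simp
    ring
  have hjinv : j⁻¹ = (1 - 243 * u₂) ^ 2 * (1 - 27 * u₁) * u₂ := by
    rw [← htu₁, ← htu₂, hu₁, hu₂]
    field_simp
    linear_combination -hrel
  have h1u₁0 : 1 - 27 * u₁ ≠ 0 := by
    rw [← htu₁]
    exact mul_ne_zero ht0 hu₁0
  have h1u₂0 : 1 - 243 * u₂ ≠ 0 := by
    rw [← htu₂]
    exact mul_ne_zero ht0 hu₂0
  have hinv1 : (1 - 27 * u₁)⁻¹ = 1 + 27 * t⁻¹ := by
    rw [← htu₁, hu₁]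
    field_simp
  have hinv2 : (1 - 243 * u₂)⁻¹ = 1 + 243 * t⁻¹ := by
    rw [← htu₂, hu₂]
    field_simp
  -- the two denominators
  set D : F := (t + 27) * (t + 243) with hD
  set D' : F := (1 + 27 * t⁻¹) * (1 + 243 * t⁻¹) with hD'
  have hD0 : D ≠ 0 := mul_ne_zero ht27 ht243
  have hDinv : D⁻¹ = u₁ * u₂ := by rw [hD, mul_inv]
  have hD'inv : D'⁻¹ = (1 - 27 * u₁) * (1 - 243 * u₂) := by
    rw [hD', mul_inv, ← hinv1, ← hinv2, inv_inv, inv_inv]
  have hD'0 : D' ≠ 0 := by
    intro h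
    rw [h, inv_zero] at hD'inv
    exact mul_ne_zero h1u₁0 h1u₂0 hD'inv.symm
  -- the chart of `R[u₁, u₂]`
  set A' : Subalgebra R F := Algebra.adjoin R ({u₁, u₂} : Set F) with hA'
  have hu₁A : u₁ ∈ A' := Algebra.subset_adjoin (Set.mem_insert _ _)
  have hu₂A : u₂ ∈ A' := Algebra.subset_adjoin (Set.mem_insert_of_mem _ rfl)
  have hA'le : ∀ {B : Subalgebra R F}, u₁ ∈ B → u₂ ∈ B → A' ≤ B := by
    intro B h1 h2
    refine Algebra.adjoin_le ?_
    rintro x (hx | hx)
    · rw [hx]; exact h1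
    · rw [Set.mem_singleton_iff] at hx
      rw [hx]; exact h2
  have hgA : GoodOn V w A' := by
    refine GoodOn.glue (s₁ := u₁) (s₂ := 1 - 27 * u₁) (α := 27) (β := 1)
      (adjoin_subset_subring hRV (by
        rintro x (hx | hx)
        · rw [hx]; exact hu₁V
        · rw [Set.mem_singleton_iff] at hx
          rw [hx]; exact hu₂V))
      hu₁A
      (Subalgebra.sub_mem _ (Subalgebra.one_mem _)
        (Subalgebra.mul_mem _ (ofNat_mem_sub _ 27) hu₁A))
      (ofNat_mem_sub _ 27) (Subalgebra.one_mem _) (by ring) ?_ ?_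
    · -- `R[u₁, u₂, 1/u₁] = R[t, 1/D]`
      refine (hg.loc (s := D) (Subalgebra.mul_mem _
          (Subalgebra.add_mem _ (self_mem_Aof t) (ofNat_mem_sub _ 27))
          (Subalgebra.add_mem _ (self_mem_Aof t) (ofNat_mem_sub _ 243)))
        hD0 (V.mul_mem (V.add_mem htV h27V) (V.add_mem htV h243V)) ?_).of_le_of_le ?_ ?_
      · rw [hDinv]
        exact V.mul_mem hu₁V hu₂V
      · refine locSub_le (Aof_le ?_) ?_
        · have : t = u₁⁻¹ - 27 := by rw [hu₁, inv_inv]; ring
          rw [this]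
          exact Subalgebra.sub_mem _ (inv_mem_locSub _ _) (ofNat_mem_sub _ 27)
        · rw [hDinv]
          exact le_locSub _ _ (Subalgebra.mul_mem _ hu₁A hu₂A)
      · refine locSub_le (hA'le ?_ ?_) ?_
        · have : u₁ = (t + 243) * D⁻¹ := by
            rw [hD, hu₁]
            field_simp
          rw [this]
          exact Subalgebra.mul_mem _ (le_locSub _ _
            (Subalgebra.add_mem _ (self_mem_Aof t) (ofNat_mem_sub _ 243))) (inv_mem_locSub _ _)
        · have : u₂ = (t + 27) * D⁻¹ := by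
            rw [hD, hu₂]
            field_simp
          rw [this]
          exact Subalgebra.mul_mem _ (le_locSub _ _
            (Subalgebra.add_mem _ (self_mem_Aof t) (ofNat_mem_sub _ 27))) (inv_mem_locSub _ _)
        · rw [hu₁, inv_inv]
          exact le_locSub _ _ (Subalgebra.add_mem _ (self_mem_Aof t) (ofNat_mem_sub _ 27))
    · -- `R[u₁, u₂, 1/(1 - 27 u₁)] = R[1/t, 1/D']`
      refine (hg'.loc (s := D') (Subalgebra.mul_mem _
          (Subalgebra.add_mem _ (Subalgebra.one_mem _)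
            (Subalgebra.mul_mem _ (ofNat_mem_sub _ 27) (self_mem_Aof t⁻¹)))
          (Subalgebra.add_mem _ (Subalgebra.one_mem _)
            (Subalgebra.mul_mem _ (ofNat_mem_sub _ 243) (self_mem_Aof t⁻¹))))
        hD'0 (V.mul_mem (V.add_mem V.one_mem (V.mul_mem h27V htV'))
          (V.add_mem V.one_mem (V.mul_mem h243V htV'))) ?_).of_le_of_le ?_ ?_
      · rw [hD'inv, ← htu₁, ← htu₂]
        exact V.mul_mem (V.mul_mem htV hu₁V) (V.mul_mem htV hu₂V)
      · refine locSub_le (Aof_le ?_) ?_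
        · have : t⁻¹ = algebraMap R F (i ^ 3) * ((1 - 27 * u₁)⁻¹ - 1) := by
            rw [hinv1]
            linear_combination (-t⁻¹) * hi27
          rw [this]
          exact Subalgebra.mul_mem _ (Subalgebra.algebraMap_mem _ _)
            (Subalgebra.sub_mem _ (inv_mem_locSub _ _) (Subalgebra.one_mem _))
        · rw [hD'inv]
          exact le_locSub _ _ (Subalgebra.mul_mem _
            (Subalgebra.sub_mem _ (Subalgebra.one_mem _)
              (Subalgebra.mul_mem _ (ofNat_mem_sub _ 27) hu₁A))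
            (Subalgebra.sub_mem _ (Subalgebra.one_mem _)
              (Subalgebra.mul_mem _ (ofNat_mem_sub _ 243) hu₂A)))
      · refine locSub_le (hA'le ?_ ?_) ?_
        · have : u₁ = t⁻¹ * (1 + 243 * t⁻¹) * D'⁻¹ := by
            rw [hD', hu₁]
            field_simp
          rw [this]
          exact Subalgebra.mul_mem _ (le_locSub _ _ (Subalgebra.mul_mem _ (self_mem_Aof t⁻¹)
            (Subalgebra.add_mem _ (Subalgebra.one_mem _)
              (Subalgebra.mul_mem _ (ofNat_mem_sub _ 243) (self_mem_Aof t⁻¹)))))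
            (inv_mem_locSub _ _)
        · have : u₂ = t⁻¹ * (1 + 27 * t⁻¹) * D'⁻¹ := by
            rw [hD', hu₂]
            field_simp
          rw [this]
          exact Subalgebra.mul_mem _ (le_locSub _ _ (Subalgebra.mul_mem _ (self_mem_Aof t⁻¹)
            (Subalgebra.add_mem _ (Subalgebra.one_mem _)
              (Subalgebra.mul_mem _ (ofNat_mem_sub _ 27) (self_mem_Aof t⁻¹)))))
            (inv_mem_locSub _ _)
        · rw [hinv1]
          exact le_locSub _ _ (Subalgebra.add_mem _ (Subalgebra.one_mem _)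
            (Subalgebra.mul_mem _ (ofNat_mem_sub _ 27) (self_mem_Aof t⁻¹)))
  -- `IC(R[1/j]) = IC(R[u₁, u₂])`
  refine hgA.congr ?_ ?_
  · intro a ha
    refine isIntegral_of_mem_adjoin (A := Aof R j⁻¹) (S := {u₁, u₂}) (fun x hx => ?_) ha
    rcases hx with hx | hx
    · rw [hx]
      -- `(1 - 27 u₁)³ u₁ = (1/j) (1 + 216 u₁)³`
      have hrel₁ : (1 - 27 * u₁) ^ 3 * u₁ = j⁻¹ * (1 + 216 * u₁) ^ 3 := by
        rw [hjinv, hu₁, hu₂]
        field_simp
        ring
      refine isIntegral_of_quartic (a := -19683) (v := algebraMap R F (-(i ^ 9)))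
        (c₃ := 2187 - 10077696 * j⁻¹) (c₂ := -81 - 139968 * j⁻¹) (c₁ := 1 - 648 * j⁻¹)
        (c₀ := -j⁻¹) (Subalgebra.algebraMap_mem _ _) ?_ ?_ ?_ ?_ ?_ ?_
      · rw [map_neg, map_pow]
        have : (-19683 : F) = -(3 ^ 9) := by norm_num
        rw [this, neg_mul_neg, ← mul_pow, mul_comm, hi', one_pow]
      · exact Subalgebra.sub_mem _ (ofNat_mem_sub _ 2187)
          (Subalgebra.mul_mem _ (ofNat_mem_sub _ 10077696) (self_mem_Aof j⁻¹))
      · exact Subalgebra.sub_mem _ (Subalgebra.neg_mem _ (ofNat_mem_sub _ 81))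
          (Subalgebra.mul_mem _ (ofNat_mem_sub _ 139968) (self_mem_Aof j⁻¹))
      · exact Subalgebra.sub_mem _ (Subalgebra.one_mem _)
          (Subalgebra.mul_mem _ (ofNat_mem_sub _ 648) (self_mem_Aof j⁻¹))
      · exact Subalgebra.neg_mem _ (self_mem_Aof j⁻¹)
      · linear_combination hrel₁
    · rw [Set.mem_singleton_iff] at hx
      rw [hx]
      -- `(1 - 243 u₂)³ u₂ = (1/j) (1 - 216 u₂)`
      have hrel₂ : (1 - 243 * u₂) ^ 3 * u₂ = j⁻¹ * (1 - 216 * u₂) := by
        rw [hjinv, hu₁, hu₂]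
        field_simp
        ring
      refine isIntegral_of_quartic (a := -14348907) (v := algebraMap R F (-(i ^ 15)))
        (c₃ := 177147) (c₂ := -729) (c₁ := 1 + 216 * j⁻¹)
        (c₀ := -j⁻¹) (Subalgebra.algebraMap_mem _ _) ?_ ?_ ?_ ?_ ?_ ?_
      · rw [map_neg, map_pow]
        have : (-14348907 : F) = -(3 ^ 15) := by norm_num
        rw [this, neg_mul_neg, ← mul_pow, mul_comm, hi', one_pow]
      · exact ofNat_mem_sub _ 177147
      · exact Subalgebra.neg_mem _ (ofNat_mem_sub _ 729)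
      · exact Subalgebra.add_mem _ (Subalgebra.one_mem _)
          (Subalgebra.mul_mem _ (ofNat_mem_sub _ 216) (self_mem_Aof j⁻¹))
      · exact Subalgebra.neg_mem _ (self_mem_Aof j⁻¹)
      · linear_combination hrel₂
  · intro a ha
    refine isIntegral_of_mem (Aof_le (B := A') ?_ ha)
    rw [hjinv]
    exact Subalgebra.mul_mem _ (Subalgebra.mul_mem _ (Subalgebra.pow_mem _
      (Subalgebra.sub_mem _ (Subalgebra.one_mem _)
        (Subalgebra.mul_mem _ (ofNat_mem_sub _ 243) hu₂A)) 2)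
      (Subalgebra.sub_mem _ (Subalgebra.one_mem _)
        (Subalgebra.mul_mem _ (ofNat_mem_sub _ 27) hu₁A))) hu₂A

end T3

end Fermat.Agent.A2.Mod.H189

end
-- ===== PACK-END A2/Mod/H189/ChartChangeT3.lean

-- ===== PACK-BEGIN A2/H729/Kummer.lean
section


/-!
# A2, piece ALG_ss (helper729), versions B and C: the Kummer idempotent

Same setting as `Glue.lean`; `F` is now the Kummer field `F₀(y)`, `y ^ m = u`, `m` invertible
in `R`, and `y ≡ (root of unity)` generically on the special fibre: `y ^ m - 1 ∈ w O`.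

* `kummerIdem mi m y = mi * ∑_{i < m} y ^ i` is idempotent modulo `w O`
  (`inW_kummerIdem_sq_sub`), and `(y - 1) * kummerIdem ∈ w O` (`inW_sub_one_mul_kummerIdem`).
* **Version B** (`kummer_trivial_of_local`): if at every closed point `𝔫 ∋ w` of both charts
  there is `y₁ ≡ y mod w O` and a denominator `s ∉ 𝔫` with `s * y₁` in the chart, then
  `kummerIdem ∈ w O` or `y - 1 ∈ w O`.
* **Version C** (`kummer_trivial_of_local_factorisation`): the same with the local hypothesis
  stated on the charts of a base subalgebra `F₀` (local factorisation `y ^ m = ε * h ^ m`,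
  `h ≡ 1 mod w O`, `ε` regular at the point).
-/

set_option autoImplicit false

namespace Fermat.Agent.A2.H729

open Fermat.Agent.S18.H138

variable {R : Type*} [CommRing R] {F : Type*} [Field F] [Algebra R F]

/-- The Kummer idempotent `(1/m) ∑_{i<m} y^i`. -/
noncomputable def kummerIdem (mi : R) (m : ℕ) (y : F) : F :=
  algebraMap R F mi * ∑ i ∈ Finset.range m, y ^ i

theorem kummerIdem_mem {O : Subalgebra R F} (mi : R) (m : ℕ) {y : F} (hy : y ∈ O) :
    kummerIdem mi m y ∈ O :=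
  O.mul_mem (O.algebraMap_mem mi) (O.sum_mem fun i _ => O.pow_mem hy i)

theorem sub_one_mul_geom (m : ℕ) (y : F) :
    (y - 1) * ∑ i ∈ Finset.range m, y ^ i = y ^ m - 1 := by
  rw [mul_comm]
  exact geom_sum_mul y m

/-- `(y - 1) e₀ ∈ w O`. -/
theorem inW_sub_one_mul_kummerIdem {O : Subalgebra R F} {w : R} (mi : R) (m : ℕ) {y : F}
    (hym : InW O w (y ^ m - 1)) : InW O w ((y - 1) * kummerIdem mi m y) := by
  have : (y - 1) * kummerIdem mi m y = algebraMap R F mi * (y ^ m - 1) := by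
    rw [kummerIdem, ← sub_one_mul_geom m y]; ring
  rw [this]
  exact hym.mul_left (O.algebraMap_mem mi)

theorem inW_pow_sub_one_mul_kummerIdem {O : Subalgebra R F} {w : R} (mi : R) (m : ℕ) {y : F}
    (hy : y ∈ O) (hym : InW O w (y ^ m - 1)) (k : ℕ) :
    InW O w ((y ^ k - 1) * kummerIdem mi m y) := by
  induction k with
  | zero => simpa using InW.zero O w
  | succ k ih =>
    have : (y ^ (k + 1) - 1) * kummerIdem mi m y =
        y * ((y ^ k - 1) * kummerIdem mi m y) + (y - 1) * kummerIdem mi m y := by ring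
    rw [this]
    exact (ih.mul_left hy).add (inW_sub_one_mul_kummerIdem mi m hym)

/-- `e₀² ≡ e₀ mod w O`. -/
theorem inW_kummerIdem_sq_sub {O : Subalgebra R F} {w : R} {mi : R} {m : ℕ}
    (hmi : (m : R) * mi = 1) {y : F} (hy : y ∈ O) (hym : InW O w (y ^ m - 1)) :
    InW O w (kummerIdem mi m y ^ 2 - kummerIdem mi m y) := by
  have hmiF : (m : F) * algebraMap R F mi = 1 := by
    have := congrArg (algebraMap R F) hmi
    simpa using this
  have key : kummerIdem mi m y ^ 2 - kummerIdem mi m y =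
      algebraMap R F mi * ∑ i ∈ Finset.range m, (y ^ i - 1) * kummerIdem mi m y := by
    have h1 : ∑ i ∈ Finset.range m, (y ^ i - 1) * kummerIdem mi m y =
        (∑ i ∈ Finset.range m, y ^ i) * kummerIdem mi m y - (m : F) * kummerIdem mi m y := by
      rw [← Finset.sum_mul, Finset.sum_sub_distrib]
      simp [sub_mul]
    rw [h1]
    have h2 : algebraMap R F mi * ((∑ i ∈ Finset.range m, y ^ i) * kummerIdem mi m y) =
        kummerIdem mi m y ^ 2 := by
      rw [kummerIdem]; ring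
    have h3 : algebraMap R F mi * ((m : F) * kummerIdem mi m y) = kummerIdem mi m y := by
      rw [← mul_assoc, mul_comm (algebraMap R F mi), hmiF, one_mul]
    rw [mul_sub, h2, h3]
  rw [key]
  exact (InW.sum _ _ fun i _ => inW_pow_sub_one_mul_kummerIdem mi m hy hym i).mul_left
    (O.algebraMap_mem mi)

/-- If `e₀ ≡ 1` then `y ≡ 1`. -/
theorem inW_sub_one_of_inW_one_sub_kummerIdem {O : Subalgebra R F} {w : R} (mi : R) (m : ℕ)
    {y : F} (hy : y ∈ O) (hym : InW O w (y ^ m - 1))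
    (h : InW O w (1 - kummerIdem mi m y)) : InW O w (y - 1) := by
  have : y - 1 = (y - 1) * kummerIdem mi m y + (y - 1) * (1 - kummerIdem mi m y) := by ring
  rw [this]
  exact (inW_sub_one_mul_kummerIdem mi m hym).add (h.mul_left (O.sub_mem hy O.one_mem))

/-- `y ^ i ≡ y₁ ^ i` if `y ≡ y₁`. -/
theorem inW_pow_sub_pow {O : Subalgebra R F} {w : R} {y y₁ : F} (hy : y ∈ O) (hy₁ : y₁ ∈ O)
    (h : InW O w (y - y₁)) (i : ℕ) : InW O w (y ^ i - y₁ ^ i) := by
  induction i with
  | zero => simpa using InW.zero O w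
  | succ i ih =>
    have : y ^ (i + 1) - y₁ ^ (i + 1) = y * (y ^ i - y₁ ^ i) + (y - y₁) * y₁ ^ i := by ring
    rw [this]
    exact (ih.mul_left hy).add (h.mul_right (O.pow_mem hy₁ i))

/-- Local regularity of the Kummer idempotent from a local integral model of `y`. -/
theorem kummerIdem_locally_regular {C O : Subalgebra R F} (hCO : C ≤ O) {w : R} (mi : R)
    {m : ℕ} (hm : 0 < m) {y : F} (hy : y ∈ O) (𝔫 : Ideal C) [h𝔫 : 𝔫.IsPrime]
    {s : C} (hs : s ∉ 𝔫) {y₁ : F} (h₁ : InW O w (y - y₁)) (hsy : (s : F) * y₁ ∈ C) :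
    ∃ s' : C, s' ∉ 𝔫 ∧ ∃ e ∈ C, InW O w ((s' : F) * kummerIdem mi m y - e) := by
  have hy₁ : y₁ ∈ O := by
    have : y₁ = y - (y - y₁) := by ring
    rw [this]
    exact O.sub_mem hy h₁.mem
  refine ⟨s ^ (m - 1), fun h => hs (h𝔫.mem_of_pow_mem _ h),
    (s : F) ^ (m - 1) * kummerIdem mi m y₁, ?_, ?_⟩
  · -- `s^(m-1) * e₁ ∈ C`
    have : (s : F) ^ (m - 1) * kummerIdem mi m y₁ =
        algebraMap R F mi * ∑ i ∈ Finset.range m, (s : F) ^ (m - 1 - i) * ((s : F) * y₁) ^ i := by
      rw [kummerIdem, Finset.mul_sum, Finset.mul_sum, Finset.mul_sum]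
      refine Finset.sum_congr rfl fun i hi => ?_
      have hi' : i ≤ m - 1 := by
        have := Finset.mem_range.1 hi
        omega
      have : (s : F) ^ (m - 1) = (s : F) ^ (m - 1 - i) * (s : F) ^ i := by
        rw [← pow_add]; congr 1; omega
      rw [this, mul_pow]; ring
    rw [this]
    exact C.mul_mem (C.algebraMap_mem mi)
      (C.sum_mem fun i _ => C.mul_mem (C.pow_mem s.2 _) (C.pow_mem hsy i))
  · have : ((s ^ (m - 1) : C) : F) * kummerIdem mi m y - (s : F) ^ (m - 1) * kummerIdem mi m y₁ =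
        ((s : F) ^ (m - 1) * algebraMap R F mi) * ∑ i ∈ Finset.range m, (y ^ i - y₁ ^ i) := by
      rw [kummerIdem, kummerIdem, Finset.sum_sub_distrib]
      push_cast
      ring
    rw [this]
    exact (InW.sum _ _ fun i _ => inW_pow_sub_pow hy hy₁ h₁ i).mul_left
      (O.mul_mem (O.pow_mem (hCO s.2) _) (O.algebraMap_mem mi))

section Main

variable [IsNoetherianRing R] [IsIntegrallyClosed (Polynomial R)] [CharZero F]

/-- **ALG_ss, version B.** -/
theorem kummer_trivial_of_local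
    (hinjR : Function.Injective (algebraMap R F))
    (hRF : ∀ y : F, IsIntegral R y → y ∈ Set.range (algebraMap R F))
    {x : F} (hx : Transcendental R x) [FiniteDimensional (baseField R x) F]
    (w : R) (hw : Prime w)
    (O : Subalgebra R F)
    (hfin : chart R ({x} : Set F) ≤ O) (hinf : chart R ({x⁻¹} : Set F) ≤ O)
    (qep_fin : ∀ b ∈ chart R ({x} : Set F), InW O w b →
      ∃ t ∈ chart R ({x} : Set F), b = algebraMap R F w * t)
    (qep_inf : ∀ b ∈ chart R ({x⁻¹} : Set F), InW O w b →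
      ∃ t ∈ chart R ({x⁻¹} : Set F), b = algebraMap R F w * t)
    (qep_mid : ∀ b ∈ chart R ({x, x⁻¹} : Set F), InW O w b →
      ∃ t ∈ chart R ({x, x⁻¹} : Set F), b = algebraMap R F w * t)
    {mi : R} {m : ℕ} (hm : 0 < m) (hmi : (m : R) * mi = 1)
    {y : F} (hy : y ∈ O) (hym : InW O w (y ^ m - 1))
    (hloc_fin : ∀ 𝔫 : Ideal (chart R ({x} : Set F)), 𝔫.IsMaximal →
      algebraMap R (chart R ({x} : Set F)) w ∈ 𝔫 →
      ∃ s : chart R ({x} : Set F), s ∉ 𝔫 ∧
        ∃ y₁ : F, InW O w (y - y₁) ∧ (s : F) * y₁ ∈ chart R ({x} : Set F))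
    (hloc_inf : ∀ 𝔫 : Ideal (chart R ({x⁻¹} : Set F)), 𝔫.IsMaximal →
      algebraMap R (chart R ({x⁻¹} : Set F)) w ∈ 𝔫 →
      ∃ s : chart R ({x⁻¹} : Set F), s ∉ 𝔫 ∧
        ∃ y₁ : F, InW O w (y - y₁) ∧ (s : F) * y₁ ∈ chart R ({x⁻¹} : Set F)) :
    InW O w (kummerIdem mi m y) ∨ InW O w (y - 1) := by
  have h := generic_idempotent_trivial hinjR hRF hx w hw O hfin hinf qep_fin qep_inf qep_mid
    (kummerIdem_mem mi m hy) (inW_kummerIdem_sq_sub hmi hy hym)
    (fun 𝔫 h𝔫 hw𝔫 => by
      obtain ⟨s, hs, y₁, h₁, hsy⟩ := hloc_fin 𝔫 h𝔫 hw𝔫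
      have := h𝔫.isPrime
      exact kummerIdem_locally_regular hfin mi hm hy 𝔫 hs h₁ hsy)
    (fun 𝔫 h𝔫 hw𝔫 => by
      obtain ⟨s, hs, y₁, h₁, hsy⟩ := hloc_inf 𝔫 h𝔫 hw𝔫
      have := h𝔫.isPrime
      exact kummerIdem_locally_regular hinf mi hm hy 𝔫 hs h₁ hsy)
  rcases h with h | h
  · exact Or.inl h
  · exact Or.inr (inW_sub_one_of_inW_one_sub_kummerIdem mi m hy hym h)

end Main

end Fermat.Agent.A2.H729

end
-- ===== PACK-END A2/H729/Kummer.lean

-- ===== PACK-BEGIN A2/H609/Generator.lean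
section





/-!
# Node purity, part 5: a simultaneous local generator of the root ideal

`R` noetherian local integrally closed domain, `u ≠ 0`, `π ∈ 𝔪`, `V(u, π) = {𝔪}`.
If `m ∣ ord_𝔓 (u)` at every prime `𝔓 ∋ u`, `𝔓 ∌ π` (hypothesis `H1`), then there are `t r : R` with
`t ^ m = u * r` and `π ^ k ∈ (u, r)`.  Mathlib only.
-/

set_option autoImplicit false

namespace Fermat.Agent.A2.H609

open Ideal

variable {R : Type*} [CommRing R] [IsDomain R] [IsIntegrallyClosed R]

/-- `S_𝔓 = {f | f ^ m ∈ (u) * 𝔓}`: the elements of the root ideal that do not generate it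
at `𝔓`. -/
def nonGenIdeal (u : R) (m : ℕ) (hm : m ≠ 0) (𝔓 : Ideal R) [𝔓.IsPrime] : Ideal R where
  carrier := {f | f ^ m ∈ Ideal.span {u} * 𝔓}
  add_mem' := by
    intro f g hf hg
    show (f + g) ^ m ∈ Ideal.span {u} * 𝔓
    have hf' : f ^ m ∈ Ideal.span {u} * 𝔓 := hf
    have hg' : g ^ m ∈ Ideal.span {u} * 𝔓 := hg
    obtain ⟨x, hx, hfx⟩ := Ideal.mem_span_singleton_mul.mp hf'
    obtain ⟨y, hy, hgy⟩ := Ideal.mem_span_singleton_mul.mp hg'
    by_cases hu0 : u = 0
    · subst hu0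
      have h0 : f ^ m = 0 := by rw [← hfx, zero_mul]
      have h1 : g ^ m = 0 := by rw [← hgy, zero_mul]
      have hf0 : f = 0 := pow_eq_zero_iff hm |>.mp h0
      have hg0 : g = 0 := pow_eq_zero_iff hm |>.mp h1
      rw [hf0, hg0, add_zero, zero_pow hm]
      exact Ideal.zero_mem _
    rw [add_pow]
    refine Ideal.sum_mem _ fun i hi => ?_
    have hi' : i ≤ m := Nat.lt_succ_iff.mp (Finset.mem_range.mp hi)
    refine Ideal.mul_mem_right _ _ ?_
    -- `f^i g^(m-i) = u z` with `z ∈ 𝔓`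
    obtain ⟨z, hz⟩ : u ∣ f ^ i * g ^ (m - i) :=
      dvd_pow_mul_pow hm (Dvd.intro x hfx) (Dvd.intro y hgy) hi'
    have hzm : z ^ m = x ^ i * y ^ (m - i) := by
      have h1 : (u * z) ^ m = u ^ m * (x ^ i * y ^ (m - i)) := by
        rw [← hz]
        have : (f ^ i * g ^ (m - i)) ^ m = (f ^ m) ^ i * (g ^ m) ^ (m - i) := by ring
        rw [this, ← hfx, ← hgy, mul_pow, mul_pow]
        have hum : u ^ m = u ^ i * u ^ (m - i) := by
          rw [← pow_add, Nat.add_sub_cancel' hi']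
        rw [hum]; ring
      rw [mul_pow] at h1
      exact mul_left_cancel₀ (pow_ne_zero m hu0) h1
    have hzP : z ∈ 𝔓 := by
      apply Ideal.IsPrime.mem_of_pow_mem (inferInstance : 𝔓.IsPrime) m
      rw [hzm]
      by_cases hi0 : i = 0
      · subst hi0
        rw [pow_zero, one_mul, Nat.sub_zero]
        exact Ideal.pow_mem_of_mem _ hy m (Nat.pos_of_ne_zero hm)
      · exact Ideal.mul_mem_right _ _ (Ideal.pow_mem_of_mem _ hx i (Nat.pos_of_ne_zero hi0))
    rw [hz]
    exact Ideal.mul_mem_mul (Ideal.mem_span_singleton_self u) hzP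
  zero_mem' := by
    show (0 : R) ^ m ∈ Ideal.span {u} * 𝔓
    rw [zero_pow hm]
    exact Ideal.zero_mem _
  smul_mem' := by
    intro c f hf
    show (c • f) ^ m ∈ Ideal.span {u} * 𝔓
    rw [smul_eq_mul, mul_pow]
    exact Ideal.mul_mem_left _ _ hf

theorem mem_nonGenIdeal {u : R} {m : ℕ} {hm : m ≠ 0} {𝔓 : Ideal R} [𝔓.IsPrime] {f : R} :
    f ∈ nonGenIdeal u m hm 𝔓 ↔ f ^ m ∈ Ideal.span {u} * 𝔓 := Iff.rfl

/-- If `f ^ m = u * r` then `f ∈ S_𝔓 ↔ r ∈ 𝔓`. -/
theorem mem_nonGenIdeal_iff_of_eq {u : R} (hu0 : u ≠ 0) {m : ℕ} {hm : m ≠ 0} {𝔓 : Ideal R}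
    [𝔓.IsPrime] {f r : R} (hf : f ^ m = u * r) : f ∈ nonGenIdeal u m hm 𝔓 ↔ r ∈ 𝔓 := by
  rw [mem_nonGenIdeal, Ideal.mem_span_singleton_mul]
  constructor
  · rintro ⟨z, hz, hzf⟩
    rw [hf] at hzf
    rwa [← mul_left_cancel₀ hu0 hzf]
  · intro hr
    exact ⟨r, hr, hf.symm⟩

variable [IsNoetherianRing R] [IsLocalRing R]

omit [IsIntegrallyClosed R] in
/-- Dimension argument: in a local ring in which `𝔪` is the only prime containing `u` and `π`,
there is no chain `u ∈ 𝔓 < 𝔔` of primes with `π ∉ 𝔔`. -/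
theorem not_lt_of_mem_of_not_mem {u π : R} (hu0 : u ≠ 0)
    (hπ : π ∈ IsLocalRing.maximalIdeal R)
    (huπ : ∀ 𝔮 : Ideal R, 𝔮.IsPrime → u ∈ 𝔮 → π ∈ 𝔮 → 𝔮 = IsLocalRing.maximalIdeal R)
    {𝔓 𝔔 : Ideal R} [h𝔓 : 𝔓.IsPrime] [h𝔔 : 𝔔.IsPrime] (hu : u ∈ 𝔓) (hπ𝔔 : π ∉ 𝔔) (hlt : 𝔓 < 𝔔) :
    False := by
  classical
  have hbot : (⊥ : Ideal R) < 𝔓 := by
    rw [bot_lt_iff_ne_bot]
    intro h
    rw [h, Ideal.mem_bot] at hu
    exact hu0 hu
  have h𝔔𝔪 : 𝔔 < IsLocalRing.maximalIdeal R := by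
    refine lt_of_le_of_ne (IsLocalRing.le_maximalIdeal h𝔔.ne_top) ?_
    intro h
    rw [h] at hπ𝔔
    exact hπ𝔔 hπ
  have hmin : IsLocalRing.maximalIdeal R ∈ (Ideal.span (({u, π} : Finset R) : Set R)).minimalPrimes := by
    refine ⟨⟨inferInstance, ?_⟩, ?_⟩
    · rw [Ideal.span_le]
      intro x hx
      simp only [Finset.coe_insert, Finset.coe_singleton, Set.mem_insert_iff,
        Set.mem_singleton_iff] at hx
      rcases hx with rfl | rfl
      · exact (IsLocalRing.le_maximalIdeal h𝔓.ne_top) hu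
      · exact hπ
    · rintro 𝔮 ⟨h𝔮, h𝔮le⟩ _
      have h1 : u ∈ 𝔮 := h𝔮le (Ideal.subset_span (by simp))
      have h2 : π ∈ 𝔮 := h𝔮le (Ideal.subset_span (by simp))
      exact (huπ 𝔮 h𝔮 h1 h2).ge
  have hle : (IsLocalRing.maximalIdeal R).height ≤ (({u, π} : Finset R)).card :=
    Ideal.height_le_card_of_mem_minimalPrimes_span_finset hmin
  have hcard : ((({u, π} : Finset R)).card : ℕ∞) ≤ 2 := by
    exact_mod_cast Finset.card_le_two
  have h1 : (⊥ : Ideal R).height + 1 ≤ 𝔓.height :=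
    Ideal.height_add_one_le_of_lt_of_isPrime hbot
  have h2 : 𝔓.height + 1 ≤ 𝔔.height := Ideal.height_add_one_le_of_lt_of_isPrime hlt
  have h3 : 𝔔.height + 1 ≤ (IsLocalRing.maximalIdeal R).height :=
    Ideal.height_add_one_le_of_lt_of_isPrime h𝔔𝔪
  have h4 : (3 : ℕ∞) ≤ (IsLocalRing.maximalIdeal R).height := by
    calc (3 : ℕ∞) = 0 + 1 + 1 + 1 := by norm_num
      _ ≤ (⊥ : Ideal R).height + 1 + 1 + 1 := by gcongr; exact zero_le
      _ ≤ 𝔓.height + 1 + 1 := by gcongr
      _ ≤ 𝔔.height + 1 := by gcongr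
      _ ≤ _ := h3
  have h5 : (3 : ℕ∞) ≤ 2 := h4.trans (hle.trans hcard)
  exact absurd h5 (by norm_num)

/-- Existence of a simultaneous local generator. -/
theorem exists_generator {u π : R} {m : ℕ} (hm : m ≠ 0) (hu0 : u ≠ 0)
    (hπ : π ∈ IsLocalRing.maximalIdeal R)
    (huπ : ∀ 𝔮 : Ideal R, 𝔮.IsPrime → u ∈ 𝔮 → π ∈ 𝔮 → 𝔮 = IsLocalRing.maximalIdeal R)
    (H1 : ∀ 𝔓 : Ideal R, 𝔓.IsPrime → u ∈ 𝔓 → π ∉ 𝔓 → ∃ f r : R, r ∉ 𝔓 ∧ f ^ m = u * r) :
    ∃ t r : R, ∃ k : ℕ, t ^ m = u * r ∧ π ^ k ∈ Ideal.span {u, r} := by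
  classical
  have hfinite : (Ideal.span {u}).minimalPrimes.Finite :=
    Ideal.finite_minimalPrimes_of_isNoetherianRing R _
  set s : Finset (Ideal R) := hfinite.toFinset.filter (fun 𝔓 => π ∉ 𝔓) with hs
  have hs_mem : ∀ 𝔓, 𝔓 ∈ s ↔ 𝔓 ∈ (Ideal.span {u}).minimalPrimes ∧ π ∉ 𝔓 := by
    intro 𝔓
    rw [hs, Finset.mem_filter, Set.Finite.mem_toFinset]
  have hs_prime : ∀ 𝔓 ∈ s, 𝔓.IsPrime := fun 𝔓 h𝔓 => ((hs_mem 𝔓).mp h𝔓).1.1.1
  have hs_u : ∀ 𝔓 ∈ s, u ∈ 𝔓 := fun 𝔓 h𝔓 =>
    ((hs_mem 𝔓).mp h𝔓).1.1.2 (Ideal.mem_span_singleton_self u)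
  -- local generators
  have hex : ∀ 𝔓 : Ideal R, ∃ f r : R, 𝔓 ∈ s → (r ∉ 𝔓 ∧ f ^ m = u * r) := by
    intro 𝔓
    by_cases h𝔓 : 𝔓 ∈ s
    · obtain ⟨f, r, hr, hf⟩ := H1 𝔓 (hs_prime 𝔓 h𝔓) (hs_u 𝔓 h𝔓) ((hs_mem 𝔓).mp h𝔓).2
      exact ⟨f, r, fun _ => ⟨hr, hf⟩⟩
    · exact ⟨0, 0, fun h => absurd h h𝔓⟩
  choose f r hfr using hex
  -- separating elements
  have hexe : ∀ 𝔓 : Ideal R, ∃ e : R, 𝔓 ∈ s → (e ∉ 𝔓 ∧ ∀ 𝔔 ∈ s, 𝔔 ≠ 𝔓 → e ∈ 𝔔) := by
    intro 𝔓
    by_cases h𝔓 : 𝔓 ∈ s
    · have := hs_prime 𝔓 h𝔓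
      have hnle : ¬ (∏ 𝔔 ∈ s.erase 𝔓, 𝔔) ≤ 𝔓 := by
        intro hle
        obtain ⟨𝔔, h𝔔, h𝔔le⟩ := (Ideal.IsPrime.prod_le (hs_prime 𝔓 h𝔓)).mp hle
        have h𝔔s : 𝔔 ∈ s := Finset.mem_of_mem_erase h𝔔
        have h𝔔ne : 𝔔 ≠ 𝔓 := Finset.ne_of_mem_erase h𝔔
        have hmin𝔓 := ((hs_mem 𝔓).mp h𝔓).1
        have hmin𝔔 := ((hs_mem 𝔔).mp h𝔔s).1
        exact h𝔔ne (le_antisymm h𝔔le (hmin𝔓.2 hmin𝔔.1 h𝔔le))
      obtain ⟨e, he, he'⟩ := SetLike.not_le_iff_exists.mp hnle
      refine ⟨e, fun _ => ⟨he', fun 𝔔 h𝔔 hne => ?_⟩⟩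
      have : (∏ 𝔔' ∈ s.erase 𝔓, 𝔔') ≤ 𝔔 :=
        Ideal.prod_le_inf.trans (Finset.inf_le (Finset.mem_erase.mpr ⟨hne, h𝔔⟩))
      exact this he
    · exact ⟨0, fun h => absurd h h𝔓⟩
  choose e he using hexe
  set t : R := ∑ 𝔓 ∈ s, e 𝔓 * f 𝔓 with ht
  -- `t ∈ I_1`
  have hterm : ∀ 𝔓 ∈ s, e 𝔓 * f 𝔓 ∈ rootIdeal u m hm 1 := by
    intro 𝔓 h𝔓
    refine Ideal.mul_mem_left _ _ ?_
    rw [mem_rootIdeal, pow_one, (hfr 𝔓 h𝔓).2]
    exact Dvd.intro _ rfl
  have htI : t ∈ rootIdeal u m hm 1 := Ideal.sum_mem _ hterm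
  obtain ⟨r₀, hr₀⟩ : u ∣ t ^ m := by
    have := htI
    rwa [mem_rootIdeal, pow_one] at this
  -- `r₀ ∉ 𝔓` for `𝔓 ∈ s`
  have hr₀s : ∀ 𝔓 ∈ s, r₀ ∉ 𝔓 := by
    intro 𝔓 h𝔓 hr𝔓
    have := hs_prime 𝔓 h𝔓
    have h1 : t ∈ nonGenIdeal u m hm 𝔓 := (mem_nonGenIdeal_iff_of_eq hu0 hr₀).mpr hr𝔓
    have h2 : ∀ 𝔔 ∈ s.erase 𝔓, e 𝔔 * f 𝔔 ∈ nonGenIdeal u m hm 𝔓 := by
      intro 𝔔 h𝔔
      have h𝔔s : 𝔔 ∈ s := Finset.mem_of_mem_erase h𝔔
      have h𝔔ne : 𝔔 ≠ 𝔓 := Finset.ne_of_mem_erase h𝔔
      have hmem : e 𝔔 ∈ 𝔓 := (he 𝔔 h𝔔s).2 𝔓 h𝔓 (Ne.symm h𝔔ne)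
      have hpow : (e 𝔔 * f 𝔔) ^ m = u * (e 𝔔 ^ m * r 𝔔) := by
        rw [mul_pow, (hfr 𝔔 h𝔔s).2]; ring
      exact (mem_nonGenIdeal_iff_of_eq hu0 hpow).mpr
        (Ideal.mul_mem_right _ _ (Ideal.pow_mem_of_mem _ hmem m (Nat.pos_of_ne_zero hm)))
    have h3 : e 𝔓 * f 𝔓 ∈ nonGenIdeal u m hm 𝔓 := by
      have hsum : t = e 𝔓 * f 𝔓 + ∑ 𝔔 ∈ s.erase 𝔓, e 𝔔 * f 𝔔 := by
        rw [ht, ← Finset.add_sum_erase s _ h𝔓]
      have : e 𝔓 * f 𝔓 = t - ∑ 𝔔 ∈ s.erase 𝔓, e 𝔔 * f 𝔔 := by rw [hsum]; ring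
      rw [this]
      exact Ideal.sub_mem _ h1 (Ideal.sum_mem _ h2)
    have hpow : (e 𝔓 * f 𝔓) ^ m = u * (e 𝔓 ^ m * r 𝔓) := by
      rw [mul_pow, (hfr 𝔓 h𝔓).2]; ring
    have h4 : e 𝔓 ^ m * r 𝔓 ∈ 𝔓 := (mem_nonGenIdeal_iff_of_eq hu0 hpow).mp h3
    rcases Ideal.IsPrime.mem_or_mem (hs_prime 𝔓 h𝔓) h4 with h | h
    · exact (he 𝔓 h𝔓).1 (Ideal.IsPrime.mem_of_pow_mem (hs_prime 𝔓 h𝔓) m h)
    · exact (hfr 𝔓 h𝔓).1 h
  -- `π ∈ √(u, r₀)`
  have hrad : π ∈ (Ideal.span {u, r₀}).radical := by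
    rw [Ideal.radical_eq_sInf, Ideal.mem_sInf]
    rintro 𝔔 ⟨h𝔔le, h𝔔⟩
    by_contra hπ𝔔
    have hu𝔔 : u ∈ 𝔔 := h𝔔le (Ideal.subset_span (by simp))
    have hr𝔔 : r₀ ∈ 𝔔 := h𝔔le (Ideal.subset_span (by simp))
    have hle : Ideal.span {u} ≤ 𝔔 := by
      rw [Ideal.span_le, Set.singleton_subset_iff]
      exact hu𝔔
    obtain ⟨𝔓, h𝔓min, h𝔓le⟩ := Ideal.exists_minimalPrimes_le hle
    have hπ𝔓 : π ∉ 𝔓 := fun h => hπ𝔔 (h𝔓le h)
    have h𝔓s : 𝔓 ∈ s := (hs_mem 𝔓).mpr ⟨h𝔓min, hπ𝔓⟩
    have := hs_prime 𝔓 h𝔓s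
    have hne : 𝔓 ≠ 𝔔 := by
      intro h
      rw [← h] at hr𝔔
      exact hr₀s 𝔓 h𝔓s hr𝔔
    exact not_lt_of_mem_of_not_mem hu0 hπ huπ (hs_u 𝔓 h𝔓s) hπ𝔔 (lt_of_le_of_ne h𝔓le hne)
  obtain ⟨k, hk⟩ := hrad
  exact ⟨t, r₀, k, hr₀, hk⟩

end Fermat.Agent.A2.H609

end
-- ===== PACK-END A2/H609/Generator.lean

-- ===== PACK-BEGIN A2/H609/Purity.lean
section



/-!
# Node purity, part 7: the abstract purity criterion

`R` a noetherian local integrally closed domain, `π ∈ 𝔪`, `u` regular modulo `π`, `(u, π)`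
`𝔪`-primary, (H1) `m ∣ ord_𝔓 u` at the horizontal primes.  If an ideal `J' ∋ π` contains every
`f` with `f ^ m = u r`, `r ∈ 𝔪`, and `ℓ(R/(u, π)) < m ℓ(R/J')`, then `u = ε f ^ m`.
Mathlib only.
-/

set_option autoImplicit false

namespace Fermat.Agent.A2.H609

open Ideal

variable {R : Type*} [CommRing R] [IsDomain R] [IsIntegrallyClosed R] [IsNoetherianRing R]
  [IsLocalRing R]

/-- The abstract purity criterion (length count). -/
theorem exists_unit_mul_pow_of_relLen {u π : R} {m : ℕ} (hm : m ≠ 0) (hu0 : u ≠ 0)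
    (hπ0 : π ≠ 0) (hπ : π ∈ IsLocalRing.maximalIdeal R)
    (hreg : ∀ x : R, π ∣ u * x → π ∣ x)
    (huπ : ∀ 𝔮 : Ideal R, 𝔮.IsPrime → u ∈ 𝔮 → π ∈ 𝔮 → 𝔮 = IsLocalRing.maximalIdeal R)
    (H1 : ∀ 𝔓 : Ideal R, 𝔓.IsPrime → u ∈ 𝔓 → π ∉ 𝔓 → ∃ f r : R, r ∉ 𝔓 ∧ f ^ m = u * r)
    (J' : Ideal R) (hπJ : π ∈ J')
    (hJ' : ∀ f r : R, f ^ m = u * r → r ∈ IsLocalRing.maximalIdeal R → f ∈ J')
    (B : ℕ) (hB : (B : ℕ∞) ≤ relLen J' (⊤ : Ideal R))
    (hlt : relLen (Ideal.span {u, π}) (⊤ : Ideal R) < (m : ℕ∞) * B) :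
    ∃ (f : R) (ε : Rˣ), u = ε * f ^ m := by
  by_contra hcon
  have hall : ∀ f r : R, f ^ m = u * r → r ∈ IsLocalRing.maximalIdeal R := by
    intro f r hfr
    by_contra hr
    have hr' : IsUnit r := by
      by_contra h
      exact hr ((IsLocalRing.mem_maximalIdeal r).mpr h)
    obtain ⟨ε, rfl⟩ := hr'
    apply hcon
    refine ⟨f, ε⁻¹, ?_⟩
    rw [hfr, mul_comm u, ← mul_assoc, Units.inv_mul, one_mul]
  have hI : rootIdeal u m hm 1 ⊔ Ideal.span {π} ≤ J' := by
    refine sup_le ?_ ?_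
    · intro f hf
      rw [mem_rootIdeal, pow_one] at hf
      obtain ⟨r, hr⟩ := hf
      exact hJ' f r hr (hall f r hr)
    · rw [Ideal.span_singleton_le_iff_mem]
      exact hπJ
  have h1 : (B : ℕ∞) ≤ relLen (rootIdeal u m hm 1 ⊔ Ideal.span {π}) (⊤ : Ideal R) :=
    hB.trans (relLen_mono_left hI le_top)
  obtain ⟨t, r, k, ht, hk⟩ := exists_generator hm hu0 hπ huπ H1
  have hfin : relLen (Ideal.span {u, π}) (⊤ : Ideal R) ≠ ⊤ := by
    intro h
    rw [h] at hlt
    exact not_top_lt hlt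
  have h2 := relLen_span_pair_eq_nsmul (hm := hm) hu0 hπ0 hreg ht hk hfin
  rw [h2, nsmul_eq_mul] at hlt
  exact absurd (mul_le_mul_right h1 (m : ℕ∞)) (not_le.mpr hlt)

end Fermat.Agent.A2.H609

end
-- ===== PACK-END A2/H609/Purity.lean

-- ===== PACK-BEGIN A2/H609/Smooth.lean
section


/-!
# Node purity, part 8: a smooth point of the special fibre

`R` a noetherian local integrally closed domain, `𝔭 = (π)` prime with `R ⧸ 𝔭` a discrete
valuation ring (so `R` is regular of dimension two, but unique factorisation of regular local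
rings is not used).  If `u ∉ 𝔭` satisfies (H1) `m ∣ ord_𝔓 u` at the horizontal primes and (H2)
`u` is a unit times an `m`-th power modulo `𝔭`, then `u = ε f ^ m`.  Mathlib only.
-/

set_option autoImplicit false

namespace Fermat.Agent.A2.H609

open Ideal

section BranchLength

variable {R : Type*} [CommRing R] [IsLocalRing R]
variable (𝔭 : Ideal R) [𝔭.IsPrime] [IsDiscreteValuationRing (R ⧸ 𝔭)]

/-- `𝔪 = (x) + 𝔭` for a uniformiser `x` modulo `𝔭`. -/
theorem maximalIdeal_le_span_sup {x : R} (hx : Irreducible (Ideal.Quotient.mk 𝔭 x)) :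
    IsLocalRing.maximalIdeal R ≤ Ideal.span {x} ⊔ 𝔭 := by
  intro s hs
  obtain ⟨g, hg⟩ := exists_sub_mul_mem_of_mem_maximalIdeal 𝔭 hx hs
  have h : s = x * g + (s - x * g) := by ring
  rw [h]
  exact Ideal.add_mem _ (Ideal.mem_sup_left (Ideal.mem_span_singleton.mpr (Dvd.intro g rfl)))
    (Ideal.mem_sup_right hg)

/-- `ℓ(R / ((x ^ k) + 𝔭)) = k` for a uniformiser `x` modulo `𝔭`. -/
theorem relLen_branch_pow {x : R} (hx : Irreducible (Ideal.Quotient.mk 𝔭 x)) (k : ℕ) :
    relLen (Ideal.span {x ^ k} ⊔ 𝔭) (⊤ : Ideal R) = k := by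
  have h := relLen_pow_chain 𝔭 hx 𝔭 le_rfl 0 ?_ k
  · rw [zero_add, pow_zero, Ideal.span_singleton_one, top_sup_eq] at h
    exact h
  · intro n _ s hs
    obtain ⟨g, hg⟩ := exists_sub_mul_mem_of_mem_maximalIdeal 𝔭 hx hs
    have h : s * x ^ n = x ^ (n + 1) * g + (s - x * g) * x ^ n := by ring
    rw [h]
    exact Ideal.add_mem _
      (Ideal.mem_sup_left (Ideal.mem_span_singleton.mpr (Dvd.intro g rfl)))
      (Ideal.mem_sup_right (𝔭.mul_mem_right _ hg))

omit [IsLocalRing R] [IsDiscreteValuationRing (R ⧸ 𝔭)] [𝔭.IsPrime] in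
/-- A prime containing `𝔭` and `u ≡ ε x ^ n` contains `x`. -/
theorem mem_of_le_of_mk_eq {x u : R} {n : ℕ} {ε : (R ⧸ 𝔭)ˣ}
    (hu : Ideal.Quotient.mk 𝔭 u = ε * (Ideal.Quotient.mk 𝔭 x) ^ n)
    {𝔮 : Ideal R} (h𝔮 : 𝔮.IsPrime) (hle : 𝔭 ≤ 𝔮) (hu𝔮 : u ∈ 𝔮) : x ∈ 𝔮 := by
  obtain ⟨e, he⟩ := exists_pow_sub_mul_mem 𝔭 hu
  refine h𝔮.mem_of_pow_mem n ?_
  have h : x ^ n = (x ^ n - u * e) + u * e := by ring
  rw [h]
  exact 𝔮.add_mem (hle he) (𝔮.mul_mem_right _ hu𝔮)

end BranchLength

variable {R : Type*} [CommRing R] [IsDomain R] [IsIntegrallyClosed R] [IsNoetherianRing R]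
  [IsLocalRing R]

/-- **Purity at a smooth point of the special fibre.** -/
theorem exists_unit_mul_pow_of_smooth {u π : R} {m : ℕ} (hm : m ≠ 0) (hπ0 : π ≠ 0)
    (𝔭 : Ideal R) [𝔭.IsPrime] [IsDiscreteValuationRing (R ⧸ 𝔭)] (h𝔭 : 𝔭 = Ideal.span {π})
    (hu : u ∉ 𝔭)
    (H1 : ∀ 𝔓 : Ideal R, 𝔓.IsPrime → u ∈ 𝔓 → π ∉ 𝔓 → ∃ f r : R, r ∉ 𝔓 ∧ f ^ m = u * r)
    (H2 : ∃ v : R ⧸ 𝔭, Associated (v ^ m) (Ideal.Quotient.mk 𝔭 u)) :
    ∃ (f : R) (ε : Rˣ), u = ε * f ^ m := by
  have hπ𝔭 : π ∈ 𝔭 := by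
    rw [h𝔭]
    exact Ideal.mem_span_singleton_self π
  have h𝔭𝔪 : 𝔭 ≤ IsLocalRing.maximalIdeal R :=
    IsLocalRing.le_maximalIdeal (Ideal.IsPrime.ne_top inferInstance)
  have hu0 : u ≠ 0 := by
    rintro rfl
    exact hu 𝔭.zero_mem
  obtain ⟨ϖ, hϖ⟩ := IsDiscreteValuationRing.exists_irreducible (R ⧸ 𝔭)
  obtain ⟨x, rfl⟩ := Ideal.Quotient.mk_surjective ϖ
  obtain ⟨a, ε, hε⟩ := exists_mk_eq_unit_mul_pow 𝔭 hϖ hm hu H2
  have h𝔪 := maximalIdeal_le_span_sup 𝔭 hϖ
  have hreg : ∀ z : R, π ∣ u * z → π ∣ z := by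
    intro z hz
    have h1 : u * z ∈ 𝔭 := by
      rw [h𝔭]
      exact Ideal.mem_span_singleton.mpr hz
    rcases Ideal.IsPrime.mem_or_mem inferInstance h1 with h | h
    · exact absurd h hu
    · rw [h𝔭] at h
      exact Ideal.mem_span_singleton.mp h
  have huπ : ∀ 𝔮 : Ideal R, 𝔮.IsPrime → u ∈ 𝔮 → π ∈ 𝔮 →
      𝔮 = IsLocalRing.maximalIdeal R := by
    intro 𝔮 h𝔮 hu𝔮 hπ𝔮
    have hle : 𝔭 ≤ 𝔮 := by
      rw [h𝔭, Ideal.span_singleton_le_iff_mem]
      exact hπ𝔮
    have hx𝔮 : x ∈ 𝔮 := mem_of_le_of_mk_eq 𝔭 hε h𝔮 hle hu𝔮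
    refine le_antisymm (IsLocalRing.le_maximalIdeal h𝔮.ne_top) (h𝔪.trans ?_)
    exact sup_le ((Ideal.span_singleton_le_iff_mem _).mpr hx𝔮) hle
  refine exists_unit_mul_pow_of_relLen hm hu0 hπ0 (h𝔭𝔪 hπ𝔭) hreg huπ H1
    (Ideal.span {x ^ (a + 1)} ⊔ 𝔭) (Ideal.mem_sup_right hπ𝔭) ?_ (a + 1) ?_ ?_
  · intro f r hf hr
    obtain ⟨g, hg⟩ := exists_sub_pow_succ_mul_mem 𝔭 hϖ hε hf hr
    have h : f = x ^ (a + 1) * g + (f - x ^ (a + 1) * g) := by ring
    rw [h]
    exact Ideal.add_mem _
      (Ideal.mem_sup_left (Ideal.mem_span_singleton.mpr (Dvd.intro g rfl)))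
      (Ideal.mem_sup_right hg)
  · rw [relLen_branch_pow 𝔭 hϖ (a + 1)]
  · have hle : Ideal.span {x ^ (m * a)} ⊔ 𝔭 ≤ Ideal.span {u, π} := by
      refine sup_le ?_ ?_
      · rw [Ideal.span_singleton_le_iff_mem]
        obtain ⟨e, he⟩ := exists_pow_sub_mul_mem 𝔭 hε
        rw [h𝔭, Ideal.mem_span_singleton] at he
        obtain ⟨c, hc⟩ := he
        have h : x ^ (m * a) = e * u + c * π := by
          have : x ^ (m * a) = (x ^ (m * a) - u * e) + u * e := by ring
          rw [this, hc]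
          ring
        rw [h]
        exact Ideal.add_mem _
          (Ideal.mul_mem_left _ _ (Ideal.subset_span (by simp)))
          (Ideal.mul_mem_left _ _ (Ideal.subset_span (by simp)))
      · rw [h𝔭, Ideal.span_singleton_le_iff_mem]
        exact Ideal.subset_span (by simp)
    have h1 : relLen (Ideal.span {u, π}) (⊤ : Ideal R) ≤ ((m * a : ℕ) : ℕ∞) := by
      rw [← relLen_branch_pow 𝔭 hϖ (m * a)]
      exact relLen_mono_left hle le_top
    refine lt_of_le_of_lt h1 ?_
    have h2 : m * a < m * (a + 1) := by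
      have : 0 < m := Nat.pos_of_ne_zero hm
      nlinarith
    exact_mod_cast h2

end Fermat.Agent.A2.H609

end
-- ===== PACK-END A2/H609/Smooth.lean

-- ===== PACK-BEGIN A2/H609/Node.lean
section


/-!
# Node purity, part 9: an ordinary double point of the special fibre

`R` a noetherian local integrally closed domain, `𝔭₁ 𝔭₂` primes with `𝔭₁ ⊓ 𝔭₂ = (π)`,
`𝔭₁ ⊔ 𝔭₂ = 𝔪` and `R ⧸ 𝔭ᵢ` discrete valuation rings (two smooth branches meeting transversally;
no hypothesis on the thickness of the node, no completion).  If `u ∉ 𝔭₁ ∪ 𝔭₂` satisfies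
(H1) `m ∣ ord_𝔓 u` at the horizontal primes and (H2) `u` is a unit times an `m`-th power
modulo each `𝔭ᵢ`, then `u = ε f ^ m`.  Mathlib only.
-/

set_option autoImplicit false

namespace Fermat.Agent.A2.H609

open Ideal

section NodeData

variable {R : Type*} [CommRing R] [IsLocalRing R]
variable (𝔭 𝔮 : Ideal R) [𝔭.IsPrime] [IsDiscreteValuationRing (R ⧸ 𝔭)]

/-- A uniformiser of the branch `𝔭` lying on the other branch `𝔮`. -/
theorem exists_mem_irreducible_mk (hsup : IsLocalRing.maximalIdeal R ≤ 𝔭 ⊔ 𝔮) :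
    ∃ x ∈ 𝔮, Irreducible (Ideal.Quotient.mk 𝔭 x) := by
  obtain ⟨ϖ, hϖ⟩ := IsDiscreteValuationRing.exists_irreducible (R ⧸ 𝔭)
  obtain ⟨z, rfl⟩ := Ideal.Quotient.mk_surjective ϖ
  have hz : z ∈ IsLocalRing.maximalIdeal R := by
    rw [IsLocalRing.mem_maximalIdeal]
    intro h
    exact hϖ.not_isUnit (h.map (Ideal.Quotient.mk 𝔭))
  obtain ⟨z₁, hz₁, z₂, hz₂, rfl⟩ := Submodule.mem_sup.mp (hsup hz)
  refine ⟨z₂, hz₂, ?_⟩
  have h : Ideal.Quotient.mk 𝔭 (z₁ + z₂) = Ideal.Quotient.mk 𝔭 z₂ := by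
    rw [Ideal.Quotient.eq, add_sub_cancel_right]
    exact hz₁
  rwa [h] at hϖ

/-- The other branch is generated by the uniformiser and `𝔭 ⊓ 𝔮`. -/
theorem le_span_sup_inf {x : R} (hx𝔮 : x ∈ 𝔮) (hx : Irreducible (Ideal.Quotient.mk 𝔭 x))
    (h𝔮 : 𝔮 ≤ IsLocalRing.maximalIdeal R) : 𝔮 ≤ Ideal.span {x} ⊔ (𝔭 ⊓ 𝔮) := by
  intro z hz
  obtain ⟨g, hg⟩ := exists_sub_mul_mem_of_mem_maximalIdeal 𝔭 hx (h𝔮 hz)
  have h : z = x * g + (z - x * g) := by ring
  rw [h]
  refine Ideal.add_mem _
    (Ideal.mem_sup_left (Ideal.mem_span_singleton.mpr (Dvd.intro g rfl)))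
    (Ideal.mem_sup_right ⟨hg, ?_⟩)
  exact 𝔮.sub_mem hz (𝔮.mul_mem_right _ hx𝔮)

end NodeData

variable {R : Type*} [CommRing R] [IsDomain R] [IsIntegrallyClosed R] [IsNoetherianRing R]
  [IsLocalRing R]

/-- **Purity at an ordinary double point of the special fibre.** -/
theorem exists_unit_mul_pow_of_node {u π : R} {m : ℕ} (hm : m ≠ 0)
    (𝔭₁ 𝔭₂ : Ideal R) [𝔭₁.IsPrime] [𝔭₂.IsPrime]
    [IsDiscreteValuationRing (R ⧸ 𝔭₁)] [IsDiscreteValuationRing (R ⧸ 𝔭₂)]
    (hinf : 𝔭₁ ⊓ 𝔭₂ = Ideal.span {π}) (hsup : 𝔭₁ ⊔ 𝔭₂ = IsLocalRing.maximalIdeal R)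
    (hu₁ : u ∉ 𝔭₁) (hu₂ : u ∉ 𝔭₂)
    (H1 : ∀ 𝔓 : Ideal R, 𝔓.IsPrime → u ∈ 𝔓 → π ∉ 𝔓 → ∃ f r : R, r ∉ 𝔓 ∧ f ^ m = u * r)
    (H2₁ : ∃ v : R ⧸ 𝔭₁, Associated (v ^ m) (Ideal.Quotient.mk 𝔭₁ u))
    (H2₂ : ∃ v : R ⧸ 𝔭₂, Associated (v ^ m) (Ideal.Quotient.mk 𝔭₂ u)) :
    ∃ (f : R) (ε : Rˣ), u = ε * f ^ m := by
  have h𝔭₁𝔪 : 𝔭₁ ≤ IsLocalRing.maximalIdeal R := hsup ▸ le_sup_left
  have h𝔭₂𝔪 : 𝔭₂ ≤ IsLocalRing.maximalIdeal R := hsup ▸ le_sup_right
  have hπ₁ : π ∈ 𝔭₁ :=
    (inf_le_left : 𝔭₁ ⊓ 𝔭₂ ≤ 𝔭₁) (hinf ▸ Ideal.mem_span_singleton_self π)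
  have hπ₂ : π ∈ 𝔭₂ :=
    (inf_le_right : 𝔭₁ ⊓ 𝔭₂ ≤ 𝔭₂) (hinf ▸ Ideal.mem_span_singleton_self π)
  have hmem_inf : ∀ z : R, z ∈ 𝔭₁ → z ∈ 𝔭₂ → ∃ c : R, z = c * π := by
    intro z h1 h2
    have h : z ∈ 𝔭₁ ⊓ 𝔭₂ := ⟨h1, h2⟩
    rw [hinf] at h
    exact Ideal.mem_span_singleton'.mp h |>.imp fun c hc => hc.symm
  have hu0 : u ≠ 0 := by
    rintro rfl
    exact hu₁ 𝔭₁.zero_mem
  -- uniformisers of the two branches
  obtain ⟨x, hx₂, hx⟩ := exists_mem_irreducible_mk 𝔭₁ 𝔭₂ hsup.ge
  obtain ⟨y, hy₁, hy⟩ := exists_mem_irreducible_mk 𝔭₂ 𝔭₁ (by rw [sup_comm]; exact hsup.ge)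
  have hx₁ : x ∉ 𝔭₁ := fun h => hx.ne_zero (Ideal.Quotient.eq_zero_iff_mem.mpr h)
  have hy₂ : y ∉ 𝔭₂ := fun h => hy.ne_zero (Ideal.Quotient.eq_zero_iff_mem.mpr h)
  have h𝔭₂ : 𝔭₂ ≤ Ideal.span {x} ⊔ Ideal.span {π} := by
    rw [← hinf]
    exact le_span_sup_inf 𝔭₁ 𝔭₂ hx₂ hx h𝔭₂𝔪
  have h𝔭₁ : 𝔭₁ ≤ Ideal.span {y} ⊔ Ideal.span {π} := by
    rw [← hinf, inf_comm]
    exact le_span_sup_inf 𝔭₂ 𝔭₁ hy₁ hy h𝔭₁𝔪
  have h𝔭₂' : 𝔭₂ = Ideal.span {x} ⊔ Ideal.span {π} :=
    le_antisymm h𝔭₂ (sup_le ((Ideal.span_singleton_le_iff_mem _).mpr hx₂)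
      ((Ideal.span_singleton_le_iff_mem _).mpr hπ₂))
  have hπ0 : π ≠ 0 := by
    rintro rfl
    obtain ⟨c, hc⟩ := hmem_inf (x * y) (𝔭₁.mul_mem_left _ hy₁) (𝔭₂.mul_mem_right _ hx₂)
    rw [mul_zero] at hc
    rcases mul_eq_zero.mp hc with h | h
    · exact hx₁ (h ▸ 𝔭₁.zero_mem)
    · exact hy₂ (h ▸ 𝔭₂.zero_mem)
  obtain ⟨a₁, ε₁, hε₁⟩ := exists_mk_eq_unit_mul_pow 𝔭₁ hx hm hu₁ H2₁
  obtain ⟨a₂, ε₂, hε₂⟩ := exists_mk_eq_unit_mul_pow 𝔭₂ hy hm hu₂ H2₂
  have hreg : ∀ z : R, π ∣ u * z → π ∣ z := by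
    intro z hz
    have h1 : u * z ∈ 𝔭₁ ⊓ 𝔭₂ := by
      rw [hinf]
      exact Ideal.mem_span_singleton.mpr hz
    have h2 : z ∈ 𝔭₁ :=
      (Ideal.IsPrime.mem_or_mem inferInstance h1.1).resolve_left hu₁
    have h3 : z ∈ 𝔭₂ :=
      (Ideal.IsPrime.mem_or_mem inferInstance h1.2).resolve_left hu₂
    obtain ⟨c, hc⟩ := hmem_inf z h2 h3
    exact ⟨c, by rw [hc, mul_comm]⟩
  have huπ : ∀ 𝔮 : Ideal R, 𝔮.IsPrime → u ∈ 𝔮 → π ∈ 𝔮 →
      𝔮 = IsLocalRing.maximalIdeal R := by
    intro 𝔮 h𝔮 hu𝔮 hπ𝔮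
    have hle : 𝔭₁ ⊓ 𝔭₂ ≤ 𝔮 := by
      rw [hinf, Ideal.span_singleton_le_iff_mem]
      exact hπ𝔮
    refine le_antisymm (IsLocalRing.le_maximalIdeal h𝔮.ne_top) ?_
    rw [← hsup]
    rcases h𝔮.inf_le.mp hle with h | h
    · have hx𝔮 : x ∈ 𝔮 := mem_of_le_of_mk_eq 𝔭₁ hε₁ h𝔮 h hu𝔮
      refine sup_le h (h𝔭₂.trans (sup_le ?_ ?_))
      · exact (Ideal.span_singleton_le_iff_mem _).mpr hx𝔮
      · exact (Ideal.span_singleton_le_iff_mem _).mpr hπ𝔮
    · have hy𝔮 : y ∈ 𝔮 := mem_of_le_of_mk_eq 𝔭₂ hε₂ h𝔮 h hu𝔮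
      refine sup_le (h𝔭₁.trans (sup_le ?_ ?_)) h
      · exact (Ideal.span_singleton_le_iff_mem _).mpr hy𝔮
      · exact (Ideal.span_singleton_le_iff_mem _).mpr hπ𝔮
  -- the lengths of the ideals `J(b, c) = (x ^ b, y ^ c, π)`, `b, c ≥ 1`
  have hlen : ∀ k c : ℕ, relLen
      (Ideal.span {x ^ (1 + k)} ⊔ (Ideal.span {y ^ (c + 1)} ⊔ Ideal.span {π}))
      (⊤ : Ideal R) = ((k + (c + 1) : ℕ) : ℕ∞) := by
    intro k c
    have h𝔞 : Ideal.span {y ^ (c + 1)} ⊔ Ideal.span {π} ≤ 𝔭₁ :=
      sup_le ((Ideal.span_singleton_le_iff_mem _).mpr (𝔭₁.pow_mem_of_mem hy₁ _ (by omega)))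
        ((Ideal.span_singleton_le_iff_mem _).mpr hπ₁)
    have hchain := relLen_pow_chain 𝔭₁ hx _ h𝔞 1 ?_ k
    · have hbase : Ideal.span {x ^ 1} ⊔ (Ideal.span {y ^ (c + 1)} ⊔ Ideal.span {π}) =
          Ideal.span {y ^ (c + 1)} ⊔ 𝔭₂ := by
        rw [pow_one, h𝔭₂', sup_left_comm]
      have hmono : Ideal.span {x ^ (1 + k)} ⊔ (Ideal.span {y ^ (c + 1)} ⊔ Ideal.span {π}) ≤
          Ideal.span {x ^ 1} ⊔ (Ideal.span {y ^ (c + 1)} ⊔ Ideal.span {π}) := by
        refine sup_le_sup_right ?_ _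
        rw [Ideal.span_singleton_le_span_singleton]
        exact pow_dvd_pow x (by omega)
      rw [relLen_add hmono le_top, hchain, hbase, relLen_branch_pow 𝔭₂ hy (c + 1)]
      push_cast
      rfl
    · intro n hn s hs
      obtain ⟨g, hg⟩ := exists_sub_mul_mem_of_mem_maximalIdeal 𝔭₁ hx hs
      obtain ⟨d, hd⟩ := hmem_inf ((s - x * g) * x ^ n) (𝔭₁.mul_mem_right _ hg)
        (𝔭₂.mul_mem_left _ (𝔭₂.pow_mem_of_mem hx₂ _ (by omega)))
      have h : s * x ^ n = x ^ (n + 1) * g + d * π := by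
        rw [← hd]
        ring
      rw [h]
      exact Ideal.add_mem _
        (Ideal.mem_sup_left (Ideal.mem_span_singleton.mpr (Dvd.intro g rfl)))
        (Ideal.mem_sup_right (Ideal.mem_sup_right
          (Ideal.mem_span_singleton.mpr (Dvd.intro_left d rfl))))
  refine exists_unit_mul_pow_of_relLen hm hu0 hπ0 (h𝔭₁𝔪 hπ₁) hreg huπ H1
    (Ideal.span {x ^ (1 + a₁)} ⊔ (Ideal.span {y ^ (a₂ + 1)} ⊔ Ideal.span {π}))
    (Ideal.mem_sup_right (Ideal.mem_sup_right (Ideal.mem_span_singleton_self π))) ?_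
    (a₁ + (a₂ + 1)) (hlen a₁ a₂).ge ?_
  · -- every `f` with `f ^ m = u r`, `r ∈ 𝔪`, lies in `J(a₁ + 1, a₂ + 1)`
    intro f r hf hr
    obtain ⟨g₁, hg₁⟩ := exists_sub_pow_succ_mul_mem 𝔭₁ hx hε₁ hf hr
    obtain ⟨g₂, hg₂⟩ := exists_sub_pow_succ_mul_mem 𝔭₂ hy hε₂ hf hr
    obtain ⟨d, hd⟩ := hmem_inf (f - x ^ (a₁ + 1) * g₁ - y ^ (a₂ + 1) * g₂)
      (𝔭₁.sub_mem hg₁ (𝔭₁.mul_mem_right _ (𝔭₁.pow_mem_of_mem hy₁ _ (by omega))))
      (by
        have h : f - x ^ (a₁ + 1) * g₁ - y ^ (a₂ + 1) * g₂ =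
            (f - y ^ (a₂ + 1) * g₂) - x ^ (a₁ + 1) * g₁ := by ring
        rw [h]
        exact 𝔭₂.sub_mem hg₂ (𝔭₂.mul_mem_right _ (𝔭₂.pow_mem_of_mem hx₂ _ (by omega))))
    have h : f = x ^ (1 + a₁) * g₁ + (y ^ (a₂ + 1) * g₂ + d * π) := by
      rw [← hd, add_comm 1 a₁]
      ring
    rw [h]
    exact Ideal.add_mem _
      (Ideal.mem_sup_left (Ideal.mem_span_singleton.mpr (Dvd.intro g₁ rfl)))
      (Ideal.mem_sup_right (Ideal.add_mem _
        (Ideal.mem_sup_left (Ideal.mem_span_singleton.mpr (Dvd.intro g₂ rfl)))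
        (Ideal.mem_sup_right (Ideal.mem_span_singleton.mpr (Dvd.intro_left d rfl)))))
  · -- `ℓ(R/(u, π)) ≤ m (a₁ + a₂)`
    set J'' : Ideal R :=
      Ideal.span {x ^ (1 + m * a₁)} ⊔ (Ideal.span {y ^ (m * a₂ + 1)} ⊔ Ideal.span {π})
      with hJ''
    set T : Ideal R := IsLocalRing.maximalIdeal R * Ideal.span {u} ⊔ Ideal.span {π} with hT
    have hxT : x ^ (1 + m * a₁) ∈ T := by
      obtain ⟨e, he⟩ := exists_pow_sub_mul_mem 𝔭₁ hε₁
      obtain ⟨d, hd⟩ := hmem_inf (x * (x ^ (m * a₁) - u * e)) (𝔭₁.mul_mem_left _ he)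
        (𝔭₂.mul_mem_right _ hx₂)
      have h : x ^ (1 + m * a₁) = (x * e) * u + d * π := by
        rw [← hd]
        ring
      rw [h]
      exact Ideal.add_mem _
        (Ideal.mem_sup_left (Ideal.mul_mem_mul (Ideal.mul_mem_right _ _ (h𝔭₂𝔪 hx₂))
          (Ideal.mem_span_singleton_self u)))
        (Ideal.mem_sup_right (Ideal.mem_span_singleton.mpr (Dvd.intro_left d rfl)))
    have hyT : y ^ (m * a₂ + 1) ∈ T := by
      obtain ⟨e, he⟩ := exists_pow_sub_mul_mem 𝔭₂ hε₂
      obtain ⟨d, hd⟩ := hmem_inf (y * (y ^ (m * a₂) - u * e)) (𝔭₁.mul_mem_right _ hy₁)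
        (𝔭₂.mul_mem_left _ he)
      have h : y ^ (m * a₂ + 1) = (y * e) * u + d * π := by
        rw [← hd]
        ring
      rw [h]
      exact Ideal.add_mem _
        (Ideal.mem_sup_left (Ideal.mul_mem_mul (Ideal.mul_mem_right _ _ (h𝔭₁𝔪 hy₁))
          (Ideal.mem_span_singleton_self u)))
        (Ideal.mem_sup_right (Ideal.mem_span_singleton.mpr (Dvd.intro_left d rfl)))
    have hJT : J'' ≤ T :=
      sup_le ((Ideal.span_singleton_le_iff_mem _).mpr hxT)
        (sup_le ((Ideal.span_singleton_le_iff_mem _).mpr hyT) le_sup_right)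
    have huT : u ∉ T := by
      intro h
      obtain ⟨t, ht, p, hp, htp⟩ := Submodule.mem_sup.mp h
      obtain ⟨s, hs, rfl⟩ := Ideal.mem_mul_span_singleton.mp ht
      obtain ⟨c, rfl⟩ := Ideal.mem_span_singleton'.mp hp
      have h1 : u * (1 - s) ∈ 𝔭₁ := by
        have : u * (1 - s) = c * π := by
          linear_combination -htp
        rw [this]
        exact 𝔭₁.mul_mem_left _ hπ₁
      rcases Ideal.IsPrime.mem_or_mem inferInstance h1 with h2 | h2
      · exact hu₁ h2
      · have h3 : (1 : R) ∈ IsLocalRing.maximalIdeal R := by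
          have : (1 : R) = (1 - s) + s := by ring
          rw [this]
          exact Ideal.add_mem _ (h𝔭₁𝔪 h2) hs
        exact (Ideal.ne_top_iff_one _).mp (IsLocalRing.maximalIdeal.isMaximal R).ne_top h3
    have hTle : T ≤ Ideal.span {u, π} := by
      refine sup_le ?_ ?_
      · refine Ideal.mul_le_right.trans ?_
        rw [Ideal.span_singleton_le_iff_mem]
        exact Ideal.subset_span (by simp)
      · rw [Ideal.span_singleton_le_iff_mem]
        exact Ideal.subset_span (by simp)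
    have h1 : 1 ≤ relLen J'' (Ideal.span {u, π}) :=
      one_le_relLen_of_notMem (Ideal.subset_span (by simp)) (fun h => huT (hJT h))
    have h2 : relLen J'' (⊤ : Ideal R) = ((m * a₁ + (m * a₂ + 1) : ℕ) : ℕ∞) := hlen _ _
    rw [relLen_add (hJT.trans hTle) le_top] at h2
    have h3 : relLen (Ideal.span {u, π}) (⊤ : Ideal R) ≠ ⊤ := by
      intro h
      rw [h, add_top] at h2
      exact ENat.top_ne_natCast _ h2
    have h4 : relLen J'' (Ideal.span {u, π}) ≠ ⊤ := by
      intro h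
      rw [h, top_add] at h2
      exact ENat.top_ne_natCast _ h2
    lift relLen (Ideal.span {u, π}) (⊤ : Ideal R) to ℕ using h3 with L
    lift relLen J'' (Ideal.span {u, π}) to ℕ using h4 with L'
    have h5 : 1 ≤ L' := by exact_mod_cast h1
    have h6 : L' + L = m * a₁ + (m * a₂ + 1) := by exact_mod_cast h2
    have h7 : L < m * (a₁ + (a₂ + 1)) := by
      have : 0 < m := Nat.pos_of_ne_zero hm
      nlinarith
    exact_mod_cast h7

end Fermat.Agent.A2.H609

end
-- ===== PACK-END A2/H609/Node.lean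

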