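import Mathlib.Analysis.Complex.Periodic
import Mathlib.Analysis.Complex.UpperHalfPlane.Basic
import Mathlib.Analysis.Normed.Ring.InfiniteSum
import Mathlib.Analysis.SpecificLimits.Normed
import Fermat.Agent.Pack.S35.G1E0L0

-- ===== PACK-BEGIN S24/Inf/Conv.lean
section






/-!
# S24 / MOD-INF — convergent Laurent expansions at `∞`

`InfExp N f φ` : the Laurent series `φ` converges to `f : ℍ → ℂ` on all of `ℍ` in the
variable `z = exp (2πiτ/N)`.  We prove closure under the ring operations and uniqueness.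
-/

set_option autoImplicit false

noncomputable section

open HahnSeries ModularCurve UpperHalfPlane Complex
open scoped Real

namespace Fermat.Agent.S24

/-- The local parameter `exp (2πiτ/N)` at `∞` (width `N`). -/
def infZ (N : ℕ) (τ : ℍ) : ℂ := Function.Periodic.qParam (N : ℝ) (τ : ℂ)

theorem infZ_def (N : ℕ) (τ : ℍ) : infZ N τ = Complex.exp (2 * π * Complex.I * τ / N) := by
  simp [infZ, Function.Periodic.qParam]

theorem infZ_ne_zero (N : ℕ) (τ : ℍ) : infZ N τ ≠ 0 :=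
  Function.Periodic.qParam_ne_zero _

theorem norm_infZ_lt_one (N : ℕ) [NeZero N] (τ : ℍ) : ‖infZ N τ‖ < 1 :=
  Function.Periodic.norm_qParam_lt_one
    (by exact_mod_cast Nat.pos_of_ne_zero (NeZero.ne N)) τ.im_pos

/-- Every point of the punctured unit disc is a value of `infZ N`. -/
theorem exists_infZ_eq (N : ℕ) [NeZero N] {z : ℂ} (hz : z ≠ 0) (hz1 : ‖z‖ < 1) :
    ∃ τ : ℍ, infZ N τ = z := by
  have hN : (0 : ℝ) < N := by exact_mod_cast Nat.pos_of_ne_zero (NeZero.ne N)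
  have him : 0 < (Function.Periodic.invQParam (N : ℝ) z).im := by
    rw [Function.Periodic.im_invQParam]
    have hlog : Real.log ‖z‖ < 0 := Real.log_neg (norm_pos_iff.mpr hz) hz1
    have : -(N : ℝ) / (2 * π) < 0 := by
      apply div_neg_of_neg_of_pos (by linarith) (by positivity)
    exact mul_pos_of_neg_of_neg this hlog
  exact ⟨⟨_, him⟩, Function.Periodic.qParam_right_inv hN.ne' hz⟩

/-- `φ` converges to `f` on `ℍ` in the variable `z = exp (2πiτ/N)`. -/
def InfExp (N : ℕ) (f : ℍ → ℂ) (φ : LaurentSeries ℂ) : Prop :=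
  ∀ τ : ℍ, HasSum (fun n : ℤ => φ.coeff n * infZ N τ ^ n) (f τ)

/-- Power series version. -/
def InfPExp (N : ℕ) (f : ℍ → ℂ) (ψ : PowerSeries ℂ) : Prop :=
  ∀ τ : ℍ, HasSum (fun n : ℕ => PowerSeries.coeff n ψ * infZ N τ ^ n) (f τ)

section Shift

theorem inf_coeff_single_mul_ofPowerSeries (k : ℤ) (ψ : PowerSeries ℂ) (n : ℕ) :
    (single k (1 : ℂ) * ofPowerSeries ℤ ℂ ψ).coeff ((n : ℤ) + k) = PowerSeries.coeff n ψ := by
  rw [coeff_single_mul, one_mul, add_sub_cancel_right, ofPowerSeries_apply_coeff]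

theorem inf_coeff_single_mul_ofPowerSeries_of_lt (k : ℤ) (ψ : PowerSeries ℂ) {m : ℤ}
    (hm : m < k) : (single k (1 : ℂ) * ofPowerSeries ℤ ℂ ψ).coeff m = 0 := by
  rw [coeff_single_mul, one_mul]
  exact ofPowerSeries_coeff_of_neg _ (by omega)

theorem inf_hasSum_shift_iff (k : ℤ) (ψ : PowerSeries ℂ) {z : ℂ} (hz : z ≠ 0) (s : ℂ) :
    HasSum (fun n : ℤ => (single k (1 : ℂ) * ofPowerSeries ℤ ℂ ψ).coeff n * z ^ n) s ↔
      HasSum (fun n : ℕ => PowerSeries.coeff n ψ * z ^ n) (z ^ (-k) * s) := by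
  have hinj : Function.Injective (fun n : ℕ => (n : ℤ) + k) := fun a b h => by
    simpa using h
  have hrange : ∀ m : ℤ, m ∉ Set.range (fun n : ℕ => (n : ℤ) + k) →
      (single k (1 : ℂ) * ofPowerSeries ℤ ℂ ψ).coeff m * z ^ m = 0 := by
    intro m hm
    have : m < k := by
      by_contra h
      rw [not_lt] at h
      exact hm ⟨(m - k).toNat, by simp [Int.toNat_of_nonneg (sub_nonneg.mpr h)]⟩
    rw [inf_coeff_single_mul_ofPowerSeries_of_lt k ψ this, zero_mul]
  rw [← hinj.hasSum_iff hrange]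
  have hfun : ((fun n : ℤ => (single k (1 : ℂ) * ofPowerSeries ℤ ℂ ψ).coeff n * z ^ n) ∘
      fun n : ℕ => (n : ℤ) + k) = fun n : ℕ => z ^ k * (PowerSeries.coeff n ψ * z ^ n) := by
    funext n
    simp only [Function.comp_apply, inf_coeff_single_mul_ofPowerSeries]
    rw [zpow_add₀ hz, zpow_natCast]
    ring
  rw [hfun]
  constructor
  · intro h
    have := h.mul_left (z ^ (-k))
    have e : (fun n : ℕ => z ^ (-k) * (z ^ k * (PowerSeries.coeff n ψ * z ^ n))) =
        fun n : ℕ => PowerSeries.coeff n ψ * z ^ n := by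
      funext n
      rw [← mul_assoc, ← zpow_add₀ hz, neg_add_cancel, zpow_zero, one_mul]
    rwa [e] at this
  · intro h
    have := h.mul_left (z ^ k)
    rwa [← mul_assoc, ← zpow_add₀ hz, add_neg_cancel, zpow_zero, one_mul] at this

end Shift

section Basic

variable {N : ℕ}

theorem InfExp.powerSeriesPart {f : ℍ → ℂ} {φ : LaurentSeries ℂ} (h : InfExp N f φ) :
    InfPExp N (fun τ => infZ N τ ^ (-φ.order) * f τ) φ.powerSeriesPart := by
  intro τ
  have := h τ
  have h2 : HasSum (fun n : ℤ =>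
      (single φ.order (1 : ℂ) * ofPowerSeries ℤ ℂ φ.powerSeriesPart).coeff n * infZ N τ ^ n)
      (f τ) := by
    rw [LaurentSeries.single_order_mul_powerSeriesPart φ]
    exact this
  exact (inf_hasSum_shift_iff _ _ (infZ_ne_zero N τ) _).mp h2

theorem InfPExp.infExp {g : ℍ → ℂ} {ψ : PowerSeries ℂ} (h : InfPExp N g ψ) (k : ℤ) :
    InfExp N (fun τ => infZ N τ ^ k * g τ) (single k (1 : ℂ) * ofPowerSeries ℤ ℂ ψ) := by
  intro τ
  rw [inf_hasSum_shift_iff _ _ (infZ_ne_zero N τ)]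
  have hz := infZ_ne_zero N τ
  rw [← mul_assoc, ← zpow_add₀ hz, neg_add_cancel, zpow_zero, one_mul]
  exact h τ

theorem InfPExp.mul {g₁ g₂ : ℍ → ℂ} {ψ₁ ψ₂ : PowerSeries ℂ} (h₁ : InfPExp N g₁ ψ₁)
    (h₂ : InfPExp N g₂ ψ₂) : InfPExp N (fun τ => g₁ τ * g₂ τ) (ψ₁ * ψ₂) := by
  intro τ
  have s₁ := (h₁ τ).summable.norm
  have s₂ := (h₂ τ).summable.norm
  have key := summable_norm_sum_mul_antidiagonal_of_summable_norm s₁ s₂
  have hsum := key.of_norm.hasSum
  rw [← tsum_mul_tsum_eq_tsum_sum_antidiagonal_of_summable_norm s₁ s₂, (h₁ τ).tsum_eq,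
    (h₂ τ).tsum_eq] at hsum
  have e : (fun n : ℕ => PowerSeries.coeff n (ψ₁ * ψ₂) * infZ N τ ^ n) =
      fun n => ∑ kl ∈ Finset.HasAntidiagonal.antidiagonal n,
        PowerSeries.coeff kl.1 ψ₁ * infZ N τ ^ kl.1 *
          (PowerSeries.coeff kl.2 ψ₂ * infZ N τ ^ kl.2) := by
    funext n
    rw [PowerSeries.coeff_mul, Finset.sum_mul]
    refine Finset.sum_congr rfl fun p hp => ?_
    have hp' : p.1 + p.2 = n := Finset.HasAntidiagonal.mem_antidiagonal.mp hp
    rw [← hp', pow_add]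
    ring
  show HasSum (fun n : ℕ => PowerSeries.coeff n (ψ₁ * ψ₂) * infZ N τ ^ n) (g₁ τ * g₂ τ)
  rw [e]
  exact hsum

theorem InfExp.zero : InfExp N (fun _ => 0) 0 := by
  intro τ
  simp [hasSum_zero]

theorem InfExp.const (c : ℂ) : InfExp N (fun _ => c) (HahnSeries.C c) := by
  intro τ
  have h := hasSum_single (f := fun n : ℤ => (HahnSeries.C c : LaurentSeries ℂ).coeff n *
    infZ N τ ^ n) (0 : ℤ) (fun n hn => by
      rw [C_apply, coeff_single_of_ne hn, zero_mul])
  simpa using h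

theorem InfExp.one : InfExp N (fun _ => 1) 1 := by
  have := InfExp.const (N := N) 1
  rwa [map_one] at this

theorem InfExp.add {f g : ℍ → ℂ} {φ ψ : LaurentSeries ℂ} (hf : InfExp N f φ)
    (hg : InfExp N g ψ) : InfExp N (fun τ => f τ + g τ) (φ + ψ) := by
  intro τ
  have := (hf τ).add (hg τ)
  simpa [add_mul] using this

theorem InfExp.neg {f : ℍ → ℂ} {φ : LaurentSeries ℂ} (hf : InfExp N f φ) :
    InfExp N (fun τ => -f τ) (-φ) := by
  intro τ
  have := (hf τ).neg
  simpa [neg_mul] using this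

theorem InfExp.sub {f g : ℍ → ℂ} {φ ψ : LaurentSeries ℂ} (hf : InfExp N f φ)
    (hg : InfExp N g ψ) : InfExp N (fun τ => f τ - g τ) (φ - ψ) := by
  have := hf.add hg.neg
  simpa [sub_eq_add_neg] using this

theorem InfExp.mul {f g : ℍ → ℂ} {φ ψ : LaurentSeries ℂ} (hf : InfExp N f φ)
    (hg : InfExp N g ψ) : InfExp N (fun τ => f τ * g τ) (φ * ψ) := by
  have h := (hf.powerSeriesPart.mul hg.powerSeriesPart).infExp (φ.order + ψ.order)
  have hφ : φ * ψ = single (φ.order + ψ.order) (1 : ℂ) *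
      ofPowerSeries ℤ ℂ (φ.powerSeriesPart * ψ.powerSeriesPart) := by
    conv_lhs => rw [← LaurentSeries.single_order_mul_powerSeriesPart φ,
      ← LaurentSeries.single_order_mul_powerSeriesPart ψ]
    rw [map_mul, mul_mul_mul_comm, single_mul_single, one_mul]
  rw [hφ]
  intro τ
  have hz := infZ_ne_zero N τ
  have this : infZ N τ ^ (φ.order + ψ.order) * (infZ N τ ^ (-φ.order) * f τ *
      (infZ N τ ^ (-ψ.order) * g τ)) = f τ * g τ := by
    have e : infZ N τ ^ (φ.order + ψ.order) * (infZ N τ ^ (-φ.order) * f τ *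
      (infZ N τ ^ (-ψ.order) * g τ)) =
      (infZ N τ ^ (φ.order + ψ.order) * infZ N τ ^ (-φ.order) * infZ N τ ^ (-ψ.order)) *
        (f τ * g τ) := by ring
    rw [e, ← zpow_add₀ hz, ← zpow_add₀ hz]
    simp
  have h' := h τ
  simp only [this] at h'
  exact h'

theorem InfExp.congr {f g : ℍ → ℂ} {φ : LaurentSeries ℂ} (hf : InfExp N f φ)
    (h : ∀ τ, f τ = g τ) : InfExp N g φ := by
  intro τ
  rw [← h τ]
  exact hf τ

/-- The function is determined by the expansion. -/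
theorem InfExp.fun_unique {f g : ℍ → ℂ} {φ : LaurentSeries ℂ} (hf : InfExp N f φ)
    (hg : InfExp N g φ) : f = g :=
  funext fun τ => (hf τ).unique (hg τ)

end Basic

end Fermat.Agent.S24

end
end
-- ===== PACK-END S24/Inf/Conv.lean

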