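import Mathlib.Analysis.Complex.UpperHalfPlane.MoebiusAction
import Mathlib.NumberTheory.ModularForms.CongruenceSubgroups
import Fermat.Agent.Pack.S35.G2E0L0

-- ===== PACK-BEGIN S24/Inf/Unique.lean
section


/-!
# S24 / MOD-INF — uniqueness of convergent Laurent expansions, the expansion ring
-/

set_option autoImplicit false

noncomputable section

open HahnSeries ModularCurve UpperHalfPlane Complex
open scoped Real

namespace Fermat.Agent.S24

/-- A power series converging to `0` on the punctured unit disc has zero constant coefficient. -/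
theorem inf_coeff_zero_eq_zero_of_hasSum_zero (a : ℕ → ℂ)
    (h : ∀ z : ℂ, z ≠ 0 → ‖z‖ < 1 → HasSum (fun n => a n * z ^ n) 0) : a 0 = 0 := by
  have hhalf : HasSum (fun n => a n * ((1 / 2 : ℝ) : ℂ) ^ n) 0 :=
    h _ (by norm_num) (by rw [Complex.norm_real]; norm_num)
  have hs1 : Summable (fun n => ‖a (n + 1)‖ * (1 / 2 : ℝ) ^ n) := by
    have h1 : Summable (fun n => ‖a n * ((1 / 2 : ℝ) : ℂ) ^ n‖) := hhalf.summable.norm
    have h2 := (summable_nat_add_iff 1).mpr h1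
    have h3 := h2.mul_left 2
    refine h3.congr fun n => ?_
    rw [norm_mul, norm_pow, Complex.norm_real, pow_succ]
    simp only [Real.norm_eq_abs]
    rw [abs_of_pos (by norm_num : (0 : ℝ) < 1 / 2)]
    ring
  set C : ℝ := ∑' n, ‖a (n + 1)‖ * (1 / 2 : ℝ) ^ n with hC
  have hC0 : 0 ≤ C := tsum_nonneg fun n => by positivity
  have key : ∀ t : ℝ, 0 < t → t ≤ 1 / 2 → ‖a 0‖ ≤ t * C := by
    intro t ht0 ht
    have hz : HasSum (fun n => a n * ((t : ℝ) : ℂ) ^ n) 0 :=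
      h _ (by exact_mod_cast ht0.ne') (by
        rw [Complex.norm_real, Real.norm_eq_abs, abs_of_pos ht0]; linarith)
    have hz' := (hasSum_nat_add_iff' 1).mpr hz
    simp only [Finset.range_one, Finset.sum_singleton, pow_zero, mul_one, zero_sub] at hz'
    have hb : HasSum (fun n => t * (‖a (n + 1)‖ * (1 / 2 : ℝ) ^ n)) (t * C) :=
      hs1.hasSum.mul_left t
    have := hz'.norm_le_of_bounded hb (fun n => by
      rw [norm_mul, norm_pow, Complex.norm_real, Real.norm_eq_abs, abs_of_pos ht0, pow_succ]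
      have : t ^ n ≤ (1 / 2 : ℝ) ^ n := pow_le_pow_left₀ ht0.le ht n
      have h0 : 0 ≤ ‖a (n + 1)‖ := norm_nonneg _
      calc ‖a (n + 1)‖ * (t ^ n * t) = t * (‖a (n + 1)‖ * t ^ n) := by ring
        _ ≤ t * (‖a (n + 1)‖ * (1 / 2 : ℝ) ^ n) := by gcongr)
    rwa [norm_neg] at this
  by_contra hne
  have hpos : 0 < ‖a 0‖ := norm_pos_iff.mpr hne
  set t : ℝ := min (1 / 2) (‖a 0‖ / (2 * (C + 1))) with ht
  have ht0 : 0 < t := lt_min (by norm_num) (by positivity)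
  have ht1 : t ≤ 1 / 2 := min_le_left _ _
  have ht2 : t ≤ ‖a 0‖ / (2 * (C + 1)) := min_le_right _ _
  have h1 := key t ht0 ht1
  have h2 : t * C ≤ ‖a 0‖ / (2 * (C + 1)) * C := by gcongr
  have h3 : ‖a 0‖ / (2 * (C + 1)) * C < ‖a 0‖ := by
    rw [div_mul_eq_mul_div, div_lt_iff₀ (by positivity)]
    nlinarith
  linarith

variable {N : ℕ} [NeZero N]

theorem InfPExp.coeff_zero_eq_zero {ψ : PowerSeries ℂ} (h : InfPExp N (fun _ => 0) ψ) :
    PowerSeries.coeff 0 ψ = 0 := by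
  refine inf_coeff_zero_eq_zero_of_hasSum_zero (fun n => PowerSeries.coeff n ψ) ?_
  intro z hz hz1
  obtain ⟨τ, rfl⟩ := exists_infZ_eq N hz hz1
  exact h τ

/-- Uniqueness of the expansion: only the zero series converges to the zero function. -/
theorem InfExp.eq_zero {φ : LaurentSeries ℂ} (h : InfExp N (fun _ => 0) φ) : φ = 0 := by
  by_contra hφ
  have h1 := h.powerSeriesPart
  simp only [mul_zero] at h1
  have h2 := h1.coeff_zero_eq_zero
  rw [LaurentSeries.powerSeriesPart_coeff] at h2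
  simp only [Nat.cast_zero, add_zero] at h2
  exact hφ (coeff_order_eq_zero.mp h2)

theorem InfExp.unique {f : ℍ → ℂ} {φ ψ : LaurentSeries ℂ} (hφ : InfExp N f φ)
    (hψ : InfExp N f ψ) : φ = ψ := by
  have h := hφ.sub hψ
  simp only [sub_self] at h
  exact sub_eq_zero.mp h.eq_zero

theorem InfExp.unique' {f g : ℍ → ℂ} {φ ψ : LaurentSeries ℂ} (hφ : InfExp N f φ)
    (hψ : InfExp N g ψ) (hfg : ∀ τ, f τ = g τ) : φ = ψ :=
  (hφ.congr hfg).unique hψ

variable (N) in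
/-- The ring of functions on `ℍ` admitting a convergent Laurent expansion in
`z = exp (2πiτ/N)` (finitely many negative exponents). -/
def expRing : Subring (ℍ → ℂ) where
  carrier := {f | ∃ φ, InfExp N f φ}
  mul_mem' := by
    rintro f g ⟨φ, hφ⟩ ⟨ψ, hψ⟩
    exact ⟨φ * ψ, hφ.mul hψ⟩
  one_mem' := ⟨1, InfExp.one⟩
  add_mem' := by
    rintro f g ⟨φ, hφ⟩ ⟨ψ, hψ⟩
    exact ⟨φ + ψ, hφ.add hψ⟩
  zero_mem' := ⟨0, InfExp.zero⟩
  neg_mem' := by
    rintro f ⟨φ, hφ⟩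
    exact ⟨-φ, hφ.neg⟩

theorem mem_expRing {f : ℍ → ℂ} : f ∈ expRing N ↔ ∃ φ, InfExp N f φ := Iff.rfl

theorem InfExp.mem_expRing {f : ℍ → ℂ} {φ : LaurentSeries ℂ} (h : InfExp N f φ) :
    f ∈ expRing N := ⟨φ, h⟩

variable (N) in
/-- The expansion at `∞` as a function. -/
def expInfFun (f : expRing N) : LaurentSeries ℂ := Classical.choose f.2

theorem expInfFun_spec (f : expRing N) : InfExp N (f : ℍ → ℂ) (expInfFun N f) :=
  Classical.choose_spec f.2

theorem InfExp.expInfFun_eq {f : ℍ → ℂ} {φ : LaurentSeries ℂ} (h : InfExp N f φ) :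
    expInfFun N ⟨f, h.mem_expRing⟩ = φ :=
  (expInfFun_spec _).unique h

variable (N) in
/-- The expansion at `∞` as a ring homomorphism. -/
def expInf : expRing N →+* LaurentSeries ℂ where
  toFun := expInfFun N
  map_one' := (expInfFun_spec (1 : expRing N)).unique InfExp.one
  map_mul' f g := (expInfFun_spec (f * g)).unique ((expInfFun_spec f).mul (expInfFun_spec g))
  map_zero' := (expInfFun_spec (0 : expRing N)).unique InfExp.zero
  map_add' f g := (expInfFun_spec (f + g)).unique ((expInfFun_spec f).add (expInfFun_spec g))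

theorem expInf_spec (f : expRing N) : InfExp N (f : ℍ → ℂ) (expInf N f) :=
  expInfFun_spec f

theorem InfExp.expInf_eq {f : ℍ → ℂ} {φ : LaurentSeries ℂ} (h : InfExp N f φ) :
    expInf N ⟨f, h.mem_expRing⟩ = φ :=
  h.expInfFun_eq

theorem expInf_injective : Function.Injective (expInf N) := by
  intro f g hfg
  apply Subtype.ext
  have hf := expInf_spec f
  have hg := expInf_spec g
  rw [hfg] at hf
  exact hf.fun_unique hg

instance expRing_isDomain : IsDomain (expRing N) :=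
  Function.Injective.isDomain (expInf N) expInf_injective

end Fermat.Agent.S24

end
end
-- ===== PACK-END S24/Inf/Unique.lean

-- ===== PACK-BEGIN S24/Inf/Subst.lean
section


/-!
# S24 / MOD-INF — substitution `τ ↦ (aτ + b)/d` in convergent Laurent expansions
-/

set_option autoImplicit false

noncomputable section

open HahnSeries ModularCurve UpperHalfPlane Complex
open scoped Real

namespace Fermat.Agent.S24

/-- The map `τ ↦ (aτ + b)/d` of `ℍ` (the identity if `a = 0` or `d = 0`). -/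
def infAff (a : ℕ) (b : ℤ) (d : ℕ) (τ : ℍ) : ℍ :=
  if h : 0 < a ∧ 0 < d then
    ⟨((a : ℂ) * τ + b) / d, by
      have ha : (0 : ℝ) < a := by exact_mod_cast h.1
      have hd : (0 : ℝ) < d := by exact_mod_cast h.2
      have e : (((a : ℂ) * τ + b) / d).im = a * τ.im / d := by
        have : ((a : ℂ) * τ + b) / d = (((a : ℝ) : ℂ) * τ + ((b : ℝ) : ℂ)) / ((d : ℝ) : ℂ) := by
          push_cast; rfl
        rw [this, Complex.div_ofReal_im]
        simp
      rw [e]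
      have := τ.im_pos
      positivity⟩
  else τ

theorem infAff_coe {a d : ℕ} (ha : 0 < a) (hd : 0 < d) (b : ℤ) (τ : ℍ) :
    (infAff a b d τ : ℂ) = ((a : ℂ) * τ + b) / d := by
  rw [infAff, dif_pos ⟨ha, hd⟩]

@[simp]
theorem infAff_one_zero_one (τ : ℍ) : infAff 1 0 1 τ = τ := by
  apply UpperHalfPlane.ext
  rw [infAff_coe one_pos one_pos]
  simp

/-- The unit `exp (2πi b/n)` of `ℂ`. -/
def infRoot (b : ℤ) (n : ℕ) : ℂˣ :=
  Units.mk0 (Complex.exp (2 * π * Complex.I * b / n)) (Complex.exp_ne_zero _)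

@[simp]
theorem infRoot_coe (b : ℤ) (n : ℕ) :
    ((infRoot b n : ℂˣ) : ℂ) = Complex.exp (2 * π * Complex.I * b / n) := rfl

theorem infRoot_zpow_coe (b : ℤ) (n : ℕ) (k : ℤ) :
    (((infRoot b n) ^ k : ℂˣ) : ℂ) = Complex.exp (2 * π * Complex.I * b / n) ^ k := by
  rw [Units.val_zpow_eq_zpow_val, infRoot_coe]

theorem infRoot_zero (n : ℕ) : infRoot 0 n = 1 := by
  apply Units.ext
  simp

/-- Key computation: `z_M((aτ+b)/d) = exp(2πi b/(dM)) · z_N(τ)^e` when `e·d·M = a·N`. -/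
theorem infZ_infAff {M N a d e : ℕ} (b : ℤ) (ha : 0 < a) (hd : 0 < d) (hM : 0 < M)
    (hN : 0 < N) (he : e * (d * M) = a * N) (τ : ℍ) :
    infZ M (infAff a b d τ) = (infRoot b (d * M) : ℂ) * infZ N τ ^ e := by
  rw [infZ_def, infZ_def, infAff_coe ha hd, infRoot_coe, ← Complex.exp_nat_mul, ← Complex.exp_add]
  congr 1
  have hd' : (d : ℂ) ≠ 0 := by exact_mod_cast hd.ne'
  have hM' : (M : ℂ) ≠ 0 := by exact_mod_cast hM.ne'
  have hN' : (N : ℂ) ≠ 0 := by exact_mod_cast hN.ne'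
  have he' : (e : ℂ) * ((d : ℂ) * M) = a * N := by exact_mod_cast congrArg (Nat.cast : ℕ → ℂ) he
  push_cast
  field_simp
  linear_combination (-(τ : ℂ)) * he'

/-- **Substitution (general form).** If `z_M(u τ) = c · z_N(τ)^k` then `f ∘ u` has the
expansion `φ(c · z^k)` in `z_N`. -/
theorem InfExp.subst {M N : ℕ} {f : ℍ → ℂ} {φ : LaurentSeries ℂ} (hf : InfExp M f φ)
    (u : ℍ → ℍ) (c : ℂˣ) (k : ℕ) [NeZero k]
    (hu : ∀ τ : ℍ, infZ M (u τ) = (c : ℂ) * infZ N τ ^ k) :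
    InfExp N (fun τ => f (u τ)) (qExpand ℂ k (infTwist c φ)) := by
  intro τ
  have h := hf (u τ)
  rw [hu τ] at h
  have he0 : (k : ℤ) ≠ 0 := by exact_mod_cast NeZero.ne k
  have hinj : Function.Injective (fun n : ℤ => (k : ℤ) * n) :=
    mul_right_injective₀ he0
  have hrange : ∀ m : ℤ, m ∉ Set.range (fun n : ℤ => (k : ℤ) * n) →
      (qExpand ℂ k (infTwist c φ)).coeff m * infZ N τ ^ m = 0 := by
    intro m hm
    rw [qExpand_coeff_of_not_dvd k _ (fun ⟨j, hj⟩ => hm ⟨j, hj.symm⟩), zero_mul]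
  rw [← hinj.hasSum_iff hrange]
  convert h using 1
  funext n
  simp only [Function.comp_apply, qExpand_coeff_mul, infTwist_coeff]
  rw [mul_zpow, ← zpow_natCast (infZ N τ) k, ← zpow_mul, Units.val_zpow_eq_zpow_val]
  ring

/-- **Substitution.** If `φ` converges to `f` in `z_M`, then `f ∘ (τ ↦ (aτ+b)/d)` has the
expansion `φ(u · z_N^e)` in `z_N`, `u = exp(2πi b/(dM))`, `e = aN/(dM)`. -/
theorem InfExp.comp_infAff {M N a d e : ℕ} [NeZero e] (b : ℤ) (ha : 0 < a) (hd : 0 < d)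
    (hM : 0 < M) (hN : 0 < N) (he : e * (d * M) = a * N) {f : ℍ → ℂ} {φ : LaurentSeries ℂ}
    (hf : InfExp M f φ) :
    InfExp N (fun τ => f (infAff a b d τ)) (qExpand ℂ e (infTwist (infRoot b (d * M)) φ)) :=
  hf.subst (infAff a b d) (infRoot b (d * M)) e (infZ_infAff b ha hd hM hN he)

/-- Translation `τ ↦ τ + 1`: the expansion in `z_N` is twisted by `ζ_N = exp(2πi/N)`. -/
theorem InfExp.comp_translate {N : ℕ} [NeZero N] {f : ℍ → ℂ} {φ : LaurentSeries ℂ}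
    (hf : InfExp N f φ) (b : ℤ) :
    InfExp N (fun τ => f (infAff 1 b 1 τ)) (infTwist (infRoot b N) φ) := by
  have hN : 0 < N := Nat.pos_of_ne_zero (NeZero.ne N)
  have h := hf.comp_infAff (e := 1) b one_pos one_pos hN hN (by ring)
  rw [qExpand_one_apply, one_mul] at h
  exact h

end Fermat.Agent.S24

end
end
-- ===== PACK-END S24/Inf/Subst.lean

-- ===== PACK-BEGIN S24/Inf/HNF.lean
section




/-!
# S24 / MOD-INF — Hermite normal form of `diag(d,1)·γ` and its action on `ℍ`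
-/

set_option autoImplicit false

noncomputable section

open UpperHalfPlane Complex Matrix
open scoped MatrixGroups

namespace Fermat.Agent.S24

theorem inf_sl_det (γ : SL(2, ℤ)) : γ 0 0 * γ 1 1 - γ 0 1 * γ 1 0 = 1 := by
  have := γ.det_coe
  rw [Matrix.det_fin_two] at this
  exact this

/-- **Hermite normal form.** For `γ ∈ SL₂(ℤ)` and `d > 0` there are `γ' ∈ SL₂(ℤ)` and an upper
triangular matrix `[[a,b],[0,d']]`, `a d' = d`, with `diag(d,1)·γ = γ'·[[a,b],[0,d']]`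
(written entrywise). -/
theorem inf_exists_hnf (d : ℕ) (hd : 0 < d) (γ : SL(2, ℤ)) :
    ∃ (γ' : SL(2, ℤ)) (a d' : ℕ) (b : ℤ), 0 < a ∧ 0 < d' ∧ a * d' = d ∧
      (d : ℤ) * γ 0 0 = γ' 0 0 * a ∧ (d : ℤ) * γ 0 1 = γ' 0 0 * b + γ' 0 1 * d' ∧
      γ 1 0 = γ' 1 0 * a ∧ γ 1 1 = γ' 1 0 * b + γ' 1 1 * d' := by
  have hdet := inf_sl_det γ
  generalize γ 0 0 = p at hdet ⊢
  generalize γ 0 1 = q at hdet ⊢
  generalize γ 1 0 = r at hdet ⊢
  generalize γ 1 1 = s at hdet ⊢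
  have hgpos : 0 < Int.gcd (d : ℤ) r := Int.gcd_pos_of_ne_zero_left _ (by exact_mod_cast hd.ne')
  obtain ⟨d₁, r₁, hcop, hd₁, hr₁⟩ := Int.exists_gcd_one hgpos
  generalize Int.gcd (d : ℤ) r = a at hgpos hd₁ hr₁
  have ha0 : (0 : ℤ) < a := by exact_mod_cast hgpos
  have hd0 : (0 : ℤ) < d := by exact_mod_cast hd
  have hd₁pos : 0 < d₁ := by
    by_contra h
    rw [not_lt] at h
    have : d₁ * (a : ℤ) ≤ 0 := mul_nonpos_of_nonpos_of_nonneg h ha0.le
    omega
  -- coprimality of the first column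
  have hc1 : IsCoprime d₁ r₁ := Int.isCoprime_iff_gcd_eq_one.mpr hcop
  have hc2 : IsCoprime p r₁ := by
    refine ⟨s, -(q * a), ?_⟩
    rw [hr₁] at hdet
    linear_combination hdet
  have hc3 : IsCoprime (d₁ * p) r₁ := hc1.mul_left hc2
  obtain ⟨v, u', hbez⟩ := hc3
  -- `v * (d₁ p) + u' * r₁ = 1`; the new matrix is `[[d₁ p, -u'], [r₁, v]]`
  refine ⟨⟨!![d₁ * p, -u'; r₁, v], by rw [Matrix.det_fin_two_of]; linear_combination hbez⟩,
    a, d₁.toNat, v * (d : ℤ) * q + u' * s, hgpos, by omega, ?_, ?_, ?_, ?_, ?_⟩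
  · have : ((a * d₁.toNat : ℕ) : ℤ) = (d : ℤ) := by
      push_cast
      rw [Int.toNat_of_nonneg hd₁pos.le, hd₁]
      ring
    exact_mod_cast this
  · simp only [Matrix.of_apply, Matrix.cons_val', Matrix.cons_val_zero, Matrix.cons_val_fin_one]
    rw [hd₁]; ring
  · simp only [Matrix.of_apply, Matrix.cons_val', Matrix.cons_val_zero, Matrix.cons_val_one,
      Matrix.cons_val_fin_one, Int.toNat_of_nonneg hd₁pos.le]
    rw [hr₁] at hdet
    rw [hd₁]
    linear_combination (-(a * d₁ * q) : ℤ) * hbez + (-(d₁ * u') : ℤ) * hdet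
  · simp only [Matrix.of_apply, Matrix.cons_val', Matrix.cons_val_zero, Matrix.cons_val_one,
      Matrix.cons_val_fin_one]
    exact hr₁
  · simp only [Matrix.of_apply, Matrix.cons_val', Matrix.cons_val_zero, Matrix.cons_val_one,
      Matrix.cons_val_fin_one, Int.toNat_of_nonneg hd₁pos.le]
    rw [hr₁] at hdet
    rw [hd₁]
    linear_combination (-s : ℤ) * hbez + (v * d₁ : ℤ) * hdet

theorem inf_sl_denom_ne_zero (γ : SL(2, ℤ)) (τ : ℍ) :
    ((γ 1 0 : ℤ) : ℂ) * τ + ((γ 1 1 : ℤ) : ℂ) ≠ 0 := by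
  have h := UpperHalfPlane.denom_ne_zero (γ : GL (Fin 2) ℝ) τ
  simpa [UpperHalfPlane.denom] using h

theorem inf_sl_smul_coe (γ : SL(2, ℤ)) (τ : ℍ) :
    ((γ • τ : ℍ) : ℂ) = (((γ 0 0 : ℤ) : ℂ) * τ + ((γ 0 1 : ℤ) : ℂ)) /
      (((γ 1 0 : ℤ) : ℂ) * τ + ((γ 1 1 : ℤ) : ℂ)) := by
  rw [UpperHalfPlane.coe_specialLinearGroup_apply]
  simp

/-- The matrix identity `diag(d,1)·γ = γ'·[[a,b],[0,d']]` on the level of `ℍ`. -/
theorem inf_aff_smul_eq {d a d' : ℕ} {b : ℤ} (hd : 0 < d) (ha : 0 < a) (hd' : 0 < d')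
    (γ γ' : SL(2, ℤ))
    (h00 : (d : ℤ) * γ 0 0 = γ' 0 0 * a) (h01 : (d : ℤ) * γ 0 1 = γ' 0 0 * b + γ' 0 1 * d')
    (h10 : γ 1 0 = γ' 1 0 * a) (h11 : γ 1 1 = γ' 1 0 * b + γ' 1 1 * d') (τ : ℍ) :
    infAff d 0 1 (γ • τ) = γ' • infAff a b d' τ := by
  apply UpperHalfPlane.ext
  rw [infAff_coe hd one_pos, inf_sl_smul_coe γ' (infAff a b d' τ), infAff_coe ha hd',
    inf_sl_smul_coe γ τ]
  have hden := inf_sl_denom_ne_zero γ τ
  have hden' := inf_sl_denom_ne_zero γ' (infAff a b d' τ)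
  rw [infAff_coe ha hd'] at hden'
  have hd'0 : (d' : ℂ) ≠ 0 := by exact_mod_cast hd'.ne'
  have e00 : (d : ℂ) * ((γ 0 0 : ℤ) : ℂ) = ((γ' 0 0 : ℤ) : ℂ) * a := by exact_mod_cast h00
  have e01 : (d : ℂ) * ((γ 0 1 : ℤ) : ℂ) = ((γ' 0 0 : ℤ) : ℂ) * b + ((γ' 0 1 : ℤ) : ℂ) * d' := by
    exact_mod_cast h01
  have e10 : ((γ 1 0 : ℤ) : ℂ) = ((γ' 1 0 : ℤ) : ℂ) * a := by exact_mod_cast h10
  have e11 : ((γ 1 1 : ℤ) : ℂ) = ((γ' 1 0 : ℤ) : ℂ) * b + ((γ' 1 1 : ℤ) : ℂ) * d' := by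
    exact_mod_cast h11
  have hden'' : ((γ' 1 0 : ℤ) : ℂ) * (((a : ℂ) * τ + b) / d') + ((γ' 1 1 : ℤ) : ℂ) =
      (((γ 1 0 : ℤ) : ℂ) * τ + ((γ 1 1 : ℤ) : ℂ)) / d' := by
    rw [e10, e11]
    field_simp
    ring
  have hnum : ((γ' 0 0 : ℤ) : ℂ) * (((a : ℂ) * τ + b) / d') + ((γ' 0 1 : ℤ) : ℂ) =
      ((d : ℂ) * (((γ 0 0 : ℤ) : ℂ) * τ + ((γ 0 1 : ℤ) : ℂ))) / d' := by
    rw [mul_add, ← mul_assoc, e00, e01]
    field_simp
    ring
  rw [hnum, hden'']
  field_simp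
  simp

end Fermat.Agent.S24

end
end
-- ===== PACK-END S24/Inf/HNF.lean

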