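import Mathlib
import Fermat.Prelude.Def_ModularCurve_X0ModL
import Fermat.Prelude.Thm_ModularCurve_coeffMap_qExpand
import Fermat.Prelude.Def_ModularForm_HeckeOperatorForms
import Fermat.Prelude.Def_FLTPrelim_Ramification
import Fermat.Prelude.Def_AlgebraicCurve_Correspondence
import Fermat.Prelude.Def_AlgebraicCurve_DivisorPushPull
import Fermat.Agent.Pack.S35.G0E1L0
import Fermat.Agent.Pack.S35.G0E1L1
import Fermat.Agent.Pack.S35.G0E0L1
import Fermat.Agent.Pack.S35.G0E1L3
import Fermat.Agent.Pack.S35.G0E0L3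
import Fermat.Agent.Pack.S35.G0E0L2
import Fermat.Agent.Pack.S35.G0E1L2
import Fermat.Agent.Pack.S35.G0E0L0
import Fermat.Agent.Pack.S35.G3E0L0

-- ===== PACK-BEGIN A2/H12/GSpec.lean
section



/-!
# Cell A2 — route G: the hub definitions and leaf conclusions of the ALG assembly (helper12)

Definitions only (plus trivial lemmas), no `sorry`.  See `GAsm.lean` for the assembly theorem
`algG` and `origin/helper12:coord/A2-wallG.md` for the plan.

Setting: `R` the base ring (a DVR in the application), `w : R` the uniformiser, `F` the function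
field, `x : F` the coordinate, `L ⊇ F` a cover.  Charts of any field `K ⊇ R[x]` are the
`S18.H138.chart R {x}`, `chart R {x⁻¹}`, `chart R {x, x⁻¹}`.

* `IsSheet w x W`    : the valuation subring `W` of `K` extends the Gauss valuation of `R[x]`.
* `SplitAt`, `HorDiv`, `IsKummerSplit` : Kummer covers `L = F(g_i^{1/m})` with `m ∣ div g_i` on the
  generic fibre and `g_i` an `m`-th power in the residue field of every sheet of `F`.
* `SheetsConclusion`, `RedConclusion`, `ConstConclusion`, `CountConclusion`, `CoverConclusion` :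
  the conclusions of the leaves `SHEETS`, `RED`, `CONST`, `COUNT`, `COVER`.
-/

set_option autoImplicit false

namespace Fermat.Agent.A2.H12

open Polynomial
open Fermat.Agent.S18.H138 (chart baseField)

universe u

section Hub

variable {R : Type u} [CommRing R] {K : Type u} [Field K] [Algebra R K]

/-- `W` is a *sheet* of `K`: a valuation subring containing `R[x]` in which `w` is a non-unit and
which induces the Gauss valuation on `R[x]` (a polynomial in `x` with a coefficient not divisible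
by `w` is a unit of `W`). -/
def IsSheet (w : R) (x : K) (W : ValuationSubring K) : Prop :=
  (∀ r : R, algebraMap R K r ∈ W) ∧ x ∈ W ∧ algebraMap R K w ∈ W.nonunits ∧
    ∀ P : R[X], (∃ i, ¬ w ∣ P.coeff i) → (aeval x P)⁻¹ ∈ W

end Hub

section Cover

variable {R : Type u} [CommRing R] {F : Type u} [Field F] [Algebra R F]

/-- `g` is an `m`-th power in the residue field of `V` (and a unit of `V`). -/
def SplitAt (m : ℕ) (V : ValuationSubring F) (g : F) : Prop :=
  ∃ u : F, u ∈ V ∧ u⁻¹ ∈ V ∧ g - u ^ m ∈ V.nonunits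

variable (R) in
/-- `m ∣ div g` on the generic fibre: at every discrete valuation ring of `F` containing
`Frac R`, `g` is a unit times an `m`-th power. -/
def HorDiv (m : ℕ) (g : F) : Prop :=
  ∀ V : ValuationSubring F, IsDiscreteValuationRing V →
    (∀ r : R, r ≠ 0 → algebraMap R F r ∈ V ∧ (algebraMap R F r)⁻¹ ∈ V) →
    ∃ h u : F, h ≠ 0 ∧ u ∈ V ∧ u⁻¹ ∈ V ∧ g = u * h ^ m

variable (L : Type u) [Field L] [Algebra F L] [Algebra R L] [IsScalarTower R F L]

/-- `L / F` is a finite Galois Kummer cover generated by `m`-th roots of elements `g i` of `F`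
with `m ∣ div (g i)` on the generic fibre and split at every sheet of `F`. -/
structure IsKummerSplit (w : R) (x : F) (m : ℕ) : Prop where
  finite : FiniteDimensional F L
  galois : IsGalois F L
  gen : ∃ (n : ℕ) (y : Fin n → L) (g : Fin n → F),
    (∀ i, g i ≠ 0) ∧ (∀ i, y i ^ m = algebraMap F L (g i)) ∧
    IntermediateField.adjoin F (Set.range y) = ⊤ ∧
    (∀ i, HorDiv R m (g i)) ∧ ∀ i, ∀ V : ValuationSubring F, IsSheet w x V → SplitAt m V (g i)

/-- Conclusion of leaf **SHEETS**. -/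
structure SheetsConclusion (w : R) (x : F) : Prop where
  /-- finitely many sheets -/
  finite : {W : ValuationSubring L | IsSheet w (algebraMap F L x) W}.Finite
  /-- every sheet of `F` extends to `L` -/
  exists_over : ∀ V : ValuationSubring F, IsSheet w x V →
    ∃ W : ValuationSubring L, IsSheet w (algebraMap F L x) W ∧ W.comap (algebraMap F L) = V
  /-- `w` is a uniformiser of every sheet of `L` -/
  unif : ∀ W : ValuationSubring L, IsSheet w (algebraMap F L x) W →
    ∀ a ∈ W.nonunits, ∃ b ∈ W, a = algebraMap R L w * b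
  /-- residue degree one -/
  resdeg : ∀ W : ValuationSubring L, IsSheet w (algebraMap F L x) W →
    ∀ b ∈ W, ∃ c : F, b - algebraMap F L c ∈ W.nonunits
  /-- the Galois group is transitive on the sheets over a sheet of `F` -/
  trans : ∀ W W' : ValuationSubring L, IsSheet w (algebraMap F L x) W →
    IsSheet w (algebraMap F L x) W' → W.comap (algebraMap F L) = W'.comap (algebraMap F L) →
    ∃ σ : L ≃ₐ[F] L, ∀ b, b ∈ W ↔ σ b ∈ W'
  /-- the decomposition groups are trivial -/
  free : ∀ W : ValuationSubring L, IsSheet w (algebraMap F L x) W →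
    ∀ σ : L ≃ₐ[F] L, (∀ b, b ∈ W ↔ σ b ∈ W) → σ = 1

/-- Conclusion of leaf **RED**: the special fibre of each of the three charts of `L` is reduced
and all its components are sheets. -/
def RedConclusion (w : R) (x : F) : Prop :=
  ∀ T : Set L, T = {algebraMap F L x} ∨ T = {(algebraMap F L x)⁻¹} ∨
      T = {algebraMap F L x, (algebraMap F L x)⁻¹} →
    ∀ b ∈ chart R T, (∀ W : ValuationSubring L, IsSheet w (algebraMap F L x) W → b ∈ W.nonunits) →
      ∃ t ∈ chart R T, b = algebraMap R L w * t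

/-- Conclusion of leaf **CONST**: `R` is integrally closed in `L` and `L` is finite over
`Frac R (x)`. -/
structure ConstConclusion (x : F) : Prop where
  closed : ∀ y : L, IsIntegral R y → y ∈ Set.range (algebraMap R L)
  finite : FiniteDimensional (baseField R (algebraMap F L x)) L

/-- **COUNT** for one chart `T`: through a closed point of the chart passes at most one sheet
of each colour (colour = the sheet of `F` below). -/
def CountAt (w : R) (x : F) (T : Set L) : Prop :=
  ∀ 𝔫 : Ideal (chart R T), 𝔫.IsMaximal → ∀ W W' : ValuationSubring L,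
    IsSheet w (algebraMap F L x) W → IsSheet w (algebraMap F L x) W' →
    W.comap (algebraMap F L) = W'.comap (algebraMap F L) →
    (∀ c : chart R T, (c : L) ∈ W.nonunits → c ∈ 𝔫) →
    (∀ c : chart R T, (c : L) ∈ W'.nonunits → c ∈ 𝔫) → W = W'

/-- Conclusion of leaf **COUNT**. -/
def CountConclusion (w : R) (x : F) : Prop :=
  CountAt L w x {algebraMap F L x} ∧ CountAt L w x {(algebraMap F L x)⁻¹}

end Cover

section CoverExists

variable {R : Type u} [CommRing R] {F : Type u} [Field F] [Algebra R F]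

/-- Conclusion of leaf **COVER**: a Kummer-split cover of `F` containing an `m`-th root of `g`
to which `τ` lifts. -/
def CoverConclusion (w : R) (x : F) (m : ℕ) (τ : F ≃+* F) (g : F) : Prop :=
  ∃ (L : Type u) (_ : Field L) (_ : Algebra F L) (_ : Algebra R L) (_ : IsScalarTower R F L),
    IsKummerSplit L w x m ∧ ∃ (τ' : L ≃+* L) (y : L),
      (∀ f : F, τ' (algebraMap F L f) = algebraMap F L (τ f)) ∧ y ^ m = algebraMap F L g

end CoverExists

end Fermat.Agent.A2.H12

end
-- ===== PACK-END A2/H12/GSpec.lean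

-- ===== PACK-BEGIN A2/H12/AlgLeaves.lean
section



/-!
# Cell A2 — route G: the leaves of ALG in the frozen language of `A2/Spec.lean` (helper12)

Definitions only, no `sorry`.  `SSCtx` bundles the data and hypotheses of
`Fermat.Agent.A2.AlgSSStatement` (the frozen ALG interface of the row-lead).  Each leaf is a `Prop`
of the form `∀ context, SSCtx … → conclusion`; the conclusions are those of `H12/GSpec.lean`.
`H12/AlgSS.lean` proves `AlgSSStatement` from the seven leaves.

| leaf | conclusion |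
|---|---|
| `BaseLeaf`   | the sheets of `F` exist, are `τ`-stable with `τ ≡ id` on the residue field, and are discrete with uniformiser `w` |
| `RootLeaf`   | `μ_m ⊆ R` fixed by `τ`, units of `R` are `m`-th powers |
| `SheetsLeaf` | `SheetsConclusion` for every Kummer-split cover |
| `RedLeaf`    | `RedConclusion` for every Kummer-split cover |
| `ConstLeaf`  | `ConstConclusion` for every Kummer-split cover |
| `CountLeaf`  | `CountConclusion` for every Kummer-split cover (the δ-count) |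
| `CoverLeaf`  | `CoverConclusion` for every split `g` with `m ∣ div g` |
-/

set_option autoImplicit false

namespace Fermat.Agent.A2.H12

open Fermat.Agent.A2

/-- The data and hypotheses of `AlgSSStatement`. -/
structure SSCtx {R E F : Type} [CommRing R] [IsDomain R] [IsDiscreteValuationRing R]
    [HenselianLocalRing R] [IsAlgClosed (IsLocalRing.ResidueField R)]
    [Field E] [CharZero E] [Algebra R E] [IsFractionRing R E]
    [Field F] [Algebra E F] [Algebra R F] [IsScalarTower R E F]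
    (w : R) (q m : ℕ) (x : F) (Bf Bi : Subalgebra R F)
    (τ : F ≃+* F) (τE : E ≃+* E) (τR : R ≃+* R) : Prop where
  irr : Irreducible w
  qprime : q.Prime
  qmem : (q : R) ∈ IsLocalRing.maximalIdeal R
  mpos : 0 < m
  qm : ¬ q ∣ m
  transc : Transcendental E x
  fin : FiniteDimensional (IntermediateField.adjoin E ({x} : Set F)) F
  const : ∀ f : F, IsAlgebraic E f → f ∈ (algebraMap E F).range
  hBf : ∀ f : F, f ∈ Bf ↔ IsIntegral (Algebra.adjoin R ({x} : Set F)) f
  hBi : ∀ f : F, f ∈ Bi ↔ IsIntegral (Algebra.adjoin R ({x⁻¹} : Set F)) f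
  cf : Nonempty (SSChart w Bf)
  ci : Nonempty (SSChart w Bi)
  sf : SepCoord R E x Bf
  si : SepCoord R E x⁻¹ Bi
  hτE : ∀ e : E, τ (algebraMap E F e) = algebraMap E F (τE e)
  hτR : ∀ r : R, τE (algebraMap R E r) = algebraMap R E (τR r)
  hτx : τ x = x
  hfo : ∃ r : ℕ, 0 < r ∧ ∀ f : F, (⇑τ)^[r] f = f
  hτf : ∀ b ∈ Bf, ∃ c ∈ Bf, τ b - b = algebraMap R F w * c
  hτi : ∀ b ∈ Bi, ∃ c ∈ Bi, τ b - b = algebraMap R F w * c

section Conclusions

variable {R F : Type} [CommRing R] [Field F] [Algebra R F]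

/-- Conclusion of leaf **BASE**. -/
structure BaseConclusion (w : R) (x : F) (τ : F ≃+* F) : Prop where
  exists_sheet : ∃ V : ValuationSubring F, IsSheet w x V
  stable : ∀ V : ValuationSubring F, IsSheet w x V → ∀ c : F,
    (c ∈ V ↔ τ c ∈ V) ∧ (c ∈ V → τ c - c ∈ V.nonunits)
  discrete : ∀ V : ValuationSubring F, IsSheet w x V → ∀ f : F, f ≠ 0 →
    ∃ (n : ℤ) (u : F), u ∈ V ∧ u⁻¹ ∈ V ∧ f = algebraMap R F w ^ n * u

/-- Conclusion of leaf **ROOT**. -/
structure RootConclusion (m : ℕ) (τR : R ≃+* R) : Prop where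
  root : ∃ ζ : R, IsPrimitiveRoot ζ m ∧ τR ζ = ζ
  unit_pow : ∀ c : R, IsUnit c → ∃ c₀ : R, c = c₀ ^ m

end Conclusions

/-- Leaf **BASE**. -/
def BaseLeaf : Prop :=
  ∀ {R E F : Type} [CommRing R] [IsDomain R] [IsDiscreteValuationRing R]
    [HenselianLocalRing R] [IsAlgClosed (IsLocalRing.ResidueField R)]
    [Field E] [CharZero E] [Algebra R E] [IsFractionRing R E]
    [Field F] [Algebra E F] [Algebra R F] [IsScalarTower R E F]
    (w : R) (q m : ℕ) (x : F) (Bf Bi : Subalgebra R F)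
    (τ : F ≃+* F) (τE : E ≃+* E) (τR : R ≃+* R),
    SSCtx w q m x Bf Bi τ τE τR → BaseConclusion w x τ

/-- Leaf **ROOT**. -/
def RootLeaf : Prop :=
  ∀ {R E F : Type} [CommRing R] [IsDomain R] [IsDiscreteValuationRing R]
    [HenselianLocalRing R] [IsAlgClosed (IsLocalRing.ResidueField R)]
    [Field E] [CharZero E] [Algebra R E] [IsFractionRing R E]
    [Field F] [Algebra E F] [Algebra R F] [IsScalarTower R E F]
    (w : R) (q m : ℕ) (x : F) (Bf Bi : Subalgebra R F)
    (τ : F ≃+* F) (τE : E ≃+* E) (τR : R ≃+* R),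
    SSCtx w q m x Bf Bi τ τE τR → RootConclusion m τR

/-- Leaf **SHEETS**. -/
def SheetsLeaf : Prop :=
  ∀ {R E F : Type} [CommRing R] [IsDomain R] [IsDiscreteValuationRing R]
    [HenselianLocalRing R] [IsAlgClosed (IsLocalRing.ResidueField R)]
    [Field E] [CharZero E] [Algebra R E] [IsFractionRing R E]
    [Field F] [Algebra E F] [Algebra R F] [IsScalarTower R E F]
    (w : R) (q m : ℕ) (x : F) (Bf Bi : Subalgebra R F)
    (τ : F ≃+* F) (τE : E ≃+* E) (τR : R ≃+* R),
    SSCtx w q m x Bf Bi τ τE τR →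
    ∀ (L : Type) [Field L] [Algebra F L] [Algebra R L] [IsScalarTower R F L],
      IsKummerSplit L w x m → SheetsConclusion L w x

/-- Leaf **RED**. -/
def RedLeaf : Prop :=
  ∀ {R E F : Type} [CommRing R] [IsDomain R] [IsDiscreteValuationRing R]
    [HenselianLocalRing R] [IsAlgClosed (IsLocalRing.ResidueField R)]
    [Field E] [CharZero E] [Algebra R E] [IsFractionRing R E]
    [Field F] [Algebra E F] [Algebra R F] [IsScalarTower R E F]
    (w : R) (q m : ℕ) (x : F) (Bf Bi : Subalgebra R F)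
    (τ : F ≃+* F) (τE : E ≃+* E) (τR : R ≃+* R),
    SSCtx w q m x Bf Bi τ τE τR →
    ∀ (L : Type) [Field L] [Algebra F L] [Algebra R L] [IsScalarTower R F L],
      IsKummerSplit L w x m → RedConclusion L w x

/-- Leaf **CONST**. -/
def ConstLeaf : Prop :=
  ∀ {R E F : Type} [CommRing R] [IsDomain R] [IsDiscreteValuationRing R]
    [HenselianLocalRing R] [IsAlgClosed (IsLocalRing.ResidueField R)]
    [Field E] [CharZero E] [Algebra R E] [IsFractionRing R E]
    [Field F] [Algebra E F] [Algebra R F] [IsScalarTower R E F]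
    (w : R) (q m : ℕ) (x : F) (Bf Bi : Subalgebra R F)
    (τ : F ≃+* F) (τE : E ≃+* E) (τR : R ≃+* R),
    SSCtx w q m x Bf Bi τ τE τR →
    ∀ (L : Type) [Field L] [Algebra F L] [Algebra R L] [IsScalarTower R F L],
      IsKummerSplit L w x m → ConstConclusion (R := R) L x

/-- Leaf **COUNT** (the δ-count). -/
def CountLeaf : Prop :=
  ∀ {R E F : Type} [CommRing R] [IsDomain R] [IsDiscreteValuationRing R]
    [HenselianLocalRing R] [IsAlgClosed (IsLocalRing.ResidueField R)]
    [Field E] [CharZero E] [Algebra R E] [IsFractionRing R E]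
    [Field F] [Algebra E F] [Algebra R F] [IsScalarTower R E F]
    (w : R) (q m : ℕ) (x : F) (Bf Bi : Subalgebra R F)
    (τ : F ≃+* F) (τE : E ≃+* E) (τR : R ≃+* R),
    SSCtx w q m x Bf Bi τ τE τR →
    ∀ (L : Type) [Field L] [Algebra F L] [Algebra R L] [IsScalarTower R F L],
      IsKummerSplit L w x m → CountConclusion L w x

/-- Leaf **COVER**. -/
def CoverLeaf : Prop :=
  ∀ {R E F : Type} [CommRing R] [IsDomain R] [IsDiscreteValuationRing R]
    [HenselianLocalRing R] [IsAlgClosed (IsLocalRing.ResidueField R)]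
    [Field E] [CharZero E] [Algebra R E] [IsFractionRing R E]
    [Field F] [Algebra E F] [Algebra R F] [IsScalarTower R E F]
    (w : R) (q m : ℕ) (x : F) (Bf Bi : Subalgebra R F)
    (τ : F ≃+* F) (τE : E ≃+* E) (τR : R ≃+* R),
    SSCtx w q m x Bf Bi τ τE τR →
    ∀ g : F, g ≠ 0 → HorDiv R m g →
      (∀ V : ValuationSubring F, IsSheet w x V → SplitAt m V g) →
      CoverConclusion w x m τ g

end Fermat.Agent.A2.H12

end
-- ===== PACK-END A2/H12/AlgLeaves.lean

-- ===== PACK-BEGIN A2/H12/GLemmas.lean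
section


/-!
# Cell A2 — route G: glue lemmas for the ALG assembly (helper12)

Elementary facts on sheets (`IsSheet`), charts and ring automorphisms.
-/

set_option autoImplicit false

namespace Fermat.Agent.A2.H12

open Polynomial
open Fermat.Agent.S18.H138 (chart baseField)

universe u

section Sheets

variable {R : Type u} [CommRing R] {K : Type u} [Field K] [Algebra R K]

theorem mul_mem_nonunits (W : ValuationSubring K) {a c : K} (ha : a ∈ W.nonunits) (hc : c ∈ W) :
    c * a ∈ W.nonunits := by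
  rw [ValuationSubring.mem_nonunits_iff] at ha ⊢
  rw [map_mul]
  have h1 : W.valuation c ≤ 1 := (W.valuation_le_one_iff c).2 hc
  calc W.valuation c * W.valuation a ≤ 1 * W.valuation a := by gcongr
    _ = W.valuation a := one_mul _
    _ < 1 := ha

theorem one_not_mem_nonunits (W : ValuationSubring K) : (1 : K) ∉ W.nonunits := by
  rw [ValuationSubring.mem_nonunits_iff, map_one]
  exact lt_irrefl _

/-- membership in a valuation subring in terms of its nonunits -/
theorem mem_iff_inv_not_mem_nonunits (W : ValuationSubring K) {b : K} (hb : b ≠ 0) :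
    b ∈ W ↔ b⁻¹ ∉ W.nonunits := by
  rw [ValuationSubring.inv_mem_nonunits_iff]
  constructor
  · intro h h'
    rcases h' with h' | h'
    · exact hb h'
    · exact h' h
  · intro h
    by_contra h'
    exact h (Or.inr h')

/-- nonunits of a comap along a ring homomorphism of fields -/
theorem mem_nonunits_comap {K' : Type*} [Field K'] (W : ValuationSubring K') (ψ : K →+* K')
    (b : K) : b ∈ (W.comap ψ).nonunits ↔ ψ b ∈ W.nonunits := by
  rw [ValuationSubring.mem_nonunits_iff_or, ValuationSubring.mem_nonunits_iff_or,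
    ValuationSubring.mem_comap, map_inv₀, map_eq_zero]

theorem IsSheet.not_dvd_one {w : R} {x : K} {W : ValuationSubring K} (hW : IsSheet w x W) :
    ¬ w ∣ 1 := by
  rintro ⟨c, hc⟩
  have h1 : algebraMap R K w * algebraMap R K c = 1 := by
    rw [← map_mul, ← hc, map_one]
  have h2 := mul_mem_nonunits W hW.2.2.1 (hW.1 c)
  rw [mul_comm, h1] at h2
  exact one_not_mem_nonunits W h2

theorem IsSheet.inv_mem {w : R} {x : K} {W : ValuationSubring K} (hW : IsSheet w x W) :
    x⁻¹ ∈ W := by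
  have := hW.2.2.2 X ⟨1, by simpa using hW.not_dvd_one⟩
  simpa using this

/-- An element integral over a subalgebra contained in a valuation subring lies in it. -/
theorem mem_of_isIntegral_of_le (W : ValuationSubring K) (A : Subalgebra R K)
    (hA : ∀ a ∈ A, a ∈ W) {c : K} (hc : IsIntegral A c) : c ∈ W := by
  let φ : A →+* W :=
    { toFun := fun a => ⟨a, hA a a.2⟩
      map_one' := rfl
      map_mul' := fun _ _ => rfl
      map_zero' := rfl
      map_add' := fun _ _ => rfl }
  have h1 : IsIntegral W ((RingHom.id K) c) :=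
    IsIntegral.map_of_comp_eq (R := A) (S := K) (T := W) (U := K) φ (RingHom.id K)
      (by ext; rfl) hc
  obtain ⟨y, hy⟩ := (IsIntegrallyClosed.isIntegral_iff (R := W) (K := K)).1 h1
  have : (y : K) = c := hy
  rw [← this]
  exact y.2

/-- The charts lie in every sheet. -/
theorem IsSheet.chart_le {w : R} {x : K} {W : ValuationSubring K} (hW : IsSheet w x W)
    {T : Set K} (hT : T ⊆ {x, x⁻¹}) {c : K} (hc : c ∈ chart R T) : c ∈ W := by
  refine mem_of_isIntegral_of_le W (Algebra.adjoin R T) ?_ hc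
  intro a ha
  induction ha using Algebra.adjoin_induction with
  | mem y hy =>
    rcases hT hy with rfl | rfl
    · exact hW.2.1
    · exact hW.inv_mem
  | algebraMap r => exact hW.1 r
  | add y z _ _ hy hz => exact W.add_mem _ _ hy hz
  | mul y z _ _ hy hz => exact W.mul_mem _ _ hy hz

/-- Transport of a sheet along a ring automorphism compatible with `R` and fixing `x`. -/
theorem IsSheet.comap {w : R} {x : K} {W : ValuationSubring K} (hW : IsSheet w x W)
    (ψ : K ≃+* K) (ρ : R ≃+* R) (hψR : ∀ r, ψ (algebraMap R K r) = algebraMap R K (ρ r))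
    (hρw : ∀ r, w ∣ r ↔ w ∣ ρ r) (hψx : ψ x = x) :
    IsSheet w x (W.comap (ψ : K →+* K)) := by
  refine ⟨?_, ?_, ?_, ?_⟩
  · intro r
    rw [ValuationSubring.mem_comap]
    change ψ (algebraMap R K r) ∈ W
    rw [hψR]
    exact hW.1 _
  · rw [ValuationSubring.mem_comap]
    change ψ x ∈ W
    rw [hψx]
    exact hW.2.1
  · rw [mem_nonunits_comap]
    change ψ (algebraMap R K w) ∈ W.nonunits
    rw [hψR]
    obtain ⟨c, hc⟩ := (hρw w).1 dvd_rfl
    rw [hc, map_mul, mul_comm]
    exact mul_mem_nonunits W hW.2.2.1 (hW.1 c)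
  · intro P hP
    rw [ValuationSubring.mem_comap]
    change ψ ((aeval x P)⁻¹) ∈ W
    have h1 : ψ (aeval x P) = aeval x (P.map (ρ : R →+* R)) := by
      rw [aeval_def, aeval_def, eval₂_map]
      have := Polynomial.hom_eval₂ P (algebraMap R K) (ψ : K →+* K) x
      rw [show (ψ : K →+* K) (eval₂ (algebraMap R K) x P) = ψ (eval₂ (algebraMap R K) x P)
        from rfl] at this
      rw [this]
      congr 1
      · ext r
        exact hψR r
    rw [map_inv₀, h1]
    apply hW.2.2.2
    obtain ⟨i, hi⟩ := hP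
    refine ⟨i, ?_⟩
    rw [coeff_map]
    intro hdvd
    exact hi ((hρw _).2 hdvd)

/-- nonunits determine membership: automorphism version -/
theorem mem_iff_of_nonunits_iff (ψ : K ≃+* K) (W W' : ValuationSubring K)
    (h : ∀ b, b ∈ W.nonunits ↔ ψ b ∈ W'.nonunits) : ∀ b, b ∈ W ↔ ψ b ∈ W' := by
  intro b
  by_cases hb : b = 0
  · subst hb
    simp [W.zero_mem, W'.zero_mem]
  · have hψb : ψ b ≠ 0 := by
      intro h0
      exact hb ((map_eq_zero_iff ψ ψ.injective).1 h0)
    rw [mem_iff_inv_not_mem_nonunits W hb, mem_iff_inv_not_mem_nonunits W' hψb, h b⁻¹, map_inv₀]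

theorem nonunits_iff_of_mem_iff (ψ : K ≃+* K) (W W' : ValuationSubring K)
    (h : ∀ b, b ∈ W ↔ ψ b ∈ W') : ∀ b, b ∈ W.nonunits ↔ ψ b ∈ W'.nonunits := by
  intro b
  rw [ValuationSubring.mem_nonunits_iff_or, ValuationSubring.mem_nonunits_iff_or, h b⁻¹,
    map_inv₀, map_eq_zero_iff ψ ψ.injective]

/-- A ring endomorphism compatible with `R` and mapping `T` into `R[T]` maps the chart into
itself. -/
theorem chart_map_mem {T : Set K} (ψ : K →+* K)
    (hψR : ∀ r : R, ∃ r' : R, ψ (algebraMap R K r) = algebraMap R K r')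
    (hψT : ∀ t ∈ T, ψ t ∈ Algebra.adjoin R T) {b : K} (hb : b ∈ chart R T) :
    ψ b ∈ chart R T := by
  have hadj : ∀ a ∈ Algebra.adjoin R T, ψ a ∈ Algebra.adjoin R T := by
    intro a ha
    induction ha using Algebra.adjoin_induction with
    | mem y hy => exact hψT y hy
    | algebraMap r =>
      obtain ⟨r', hr'⟩ := hψR r
      rw [hr']
      exact Subalgebra.algebraMap_mem _ _
    | add y z _ _ hy hz => rw [map_add]; exact Subalgebra.add_mem _ hy hz
    | mul y z _ _ hy hz => rw [map_mul]; exact Subalgebra.mul_mem _ hy hz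
  let φ : Algebra.adjoin R T →+* Algebra.adjoin R T := RingHom.restrict ψ _ _ hadj
  exact IsIntegral.map_of_comp_eq (R := Algebra.adjoin R T) (S := K)
    (T := Algebra.adjoin R T) (U := K) φ ψ (by ext; rfl) hb

end Sheets

section Tower

variable {R : Type u} [CommRing R] {F : Type u} [Field F] [Algebra R F]
variable {L : Type u} [Field L] [Algebra F L] [Algebra R L] [IsScalarTower R F L]

/-- The restriction of a sheet of `L` to `F` is a sheet of `F`. -/
theorem IsSheet.comap_algebraMap {w : R} {x : F} {W : ValuationSubring L}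
    (hW : IsSheet w (algebraMap F L x) W) : IsSheet w x (W.comap (algebraMap F L)) := by
  refine ⟨?_, ?_, ?_, ?_⟩
  · intro r
    rw [ValuationSubring.mem_comap, ← IsScalarTower.algebraMap_apply]
    exact hW.1 r
  · rw [ValuationSubring.mem_comap]
    exact hW.2.1
  · rw [mem_nonunits_comap, ← IsScalarTower.algebraMap_apply]
    exact hW.2.2.1
  · intro P hP
    rw [ValuationSubring.mem_comap, map_inv₀, ← aeval_algebraMap_apply]
    exact hW.2.2.2 P hP

end Tower

end Fermat.Agent.A2.H12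

end
-- ===== PACK-END A2/H12/GLemmas.lean

-- ===== PACK-BEGIN A2/H12/GAsm.lean
section


/-!
# Cell A2 — route G: the ALG assembly (helper12)

`algG_core` : for a cover `L / F` satisfying the conclusions of the leaves SHEETS, RED, CONST, COUNT
and a lift `τ'` of `τ` fixing one sheet: `τ g / g` is an `m`-th power in `F` for every `g` having an
`m`-th root in `L`.

`algG` : the same from the leaf COVER (any lift), choosing the lift fixing a sheet by transitivity.
-/

set_option autoImplicit false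

namespace Fermat.Agent.A2.H12

open Polynomial
open Fermat.Agent.S18.H138 (chart baseField)

universe u

/-- The Galois group as a subgroup of the ring automorphisms. -/
def galSubgroup (F L : Type u) [Field F] [Field L] [Algebra F L] : Subgroup (L ≃+* L) where
  carrier := {σ | ∀ f : F, σ (algebraMap F L f) = algebraMap F L f}
  mul_mem' := fun {a b} ha hb f => by
    change a (b (algebraMap F L f)) = _
    rw [hb f, ha f]
  one_mem' := fun _ => rfl
  inv_mem' := fun {a} ha f => by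
    change a.symm (algebraMap F L f) = _
    rw [RingEquiv.symm_apply_eq, ha f]

theorem mem_galSubgroup {F L : Type u} [Field F] [Field L] [Algebra F L] (σ : L ≃+* L) :
    σ ∈ galSubgroup F L ↔ ∀ f : F, σ (algebraMap F L f) = algebraMap F L f := Iff.rfl

section Asm

variable {R : Type u} [CommRing R] {F : Type u} [Field F] [Algebra R F]
variable {L : Type u} [Field L] [Algebra F L] [Algebra R L] [IsScalarTower R F L]

/-- A lift of `τ` is compatible with `R`. -/
theorem lift_algebraMap_R (τ : F ≃+* F) (τR : R ≃+* R)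
    (hτR : ∀ r, τ (algebraMap R F r) = algebraMap R F (τR r))
    (τ' : L ≃+* L) (hτ' : ∀ f : F, τ' (algebraMap F L f) = algebraMap F L (τ f)) (r : R) :
    τ' (algebraMap R L r) = algebraMap R L (τR r) := by
  rw [IsScalarTower.algebraMap_apply R F L, hτ', hτR, ← IsScalarTower.algebraMap_apply]

theorem lift_symm_algebraMap_R (τ : F ≃+* F) (τR : R ≃+* R)
    (hτR : ∀ r, τ (algebraMap R F r) = algebraMap R F (τR r))
    (τ' : L ≃+* L) (hτ' : ∀ f : F, τ' (algebraMap F L f) = algebraMap F L (τ f)) (r : R) :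
    τ'.symm (algebraMap R L r) = algebraMap R L (τR.symm r) := by
  rw [RingEquiv.symm_apply_eq, lift_algebraMap_R τ τR hτR τ' hτ', RingEquiv.apply_symm_apply]

theorem lift_symm_algebraMap (τ : F ≃+* F)
    (τ' : L ≃+* L) (hτ' : ∀ f : F, τ' (algebraMap F L f) = algebraMap F L (τ f)) (f : F) :
    τ'.symm (algebraMap F L f) = algebraMap F L (τ.symm f) := by
  rw [RingEquiv.symm_apply_eq, hτ', RingEquiv.apply_symm_apply]

/-- A lift of `τ` preserves the chart `R[T]`-integral closure, for `T ⊆ {x, x⁻¹}`. -/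
theorem lift_chart_iff (x : F) (τ : F ≃+* F) (τR : R ≃+* R)
    (hτx : τ x = x) (hτR : ∀ r, τ (algebraMap R F r) = algebraMap R F (τR r))
    (τ' : L ≃+* L) (hτ' : ∀ f : F, τ' (algebraMap F L f) = algebraMap F L (τ f))
    (T : Set L) (hT : T ⊆ {algebraMap F L x, (algebraMap F L x)⁻¹}) (b : L) :
    b ∈ chart R T ↔ τ' b ∈ chart R T := by
  have hx' : τ' (algebraMap F L x) = algebraMap F L x := by rw [hτ', hτx]
  have hxs : τ'.symm (algebraMap F L x) = algebraMap F L x := by
    rw [RingEquiv.symm_apply_eq, hx']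
  constructor
  · intro hb
    refine chart_map_mem (τ' : L →+* L)
      (fun r => ⟨τR r, lift_algebraMap_R τ τR hτR τ' hτ' r⟩) ?_ hb
    intro t ht
    rcases hT ht with rfl | rfl
    · change τ' (algebraMap F L x) ∈ _
      rw [hx']
      exact Algebra.subset_adjoin ht
    · change τ' (algebraMap F L x)⁻¹ ∈ _
      rw [map_inv₀, hx']
      exact Algebra.subset_adjoin ht
  · intro hb
    have := chart_map_mem (T := T) (τ'.symm : L →+* L)
      (fun r => ⟨τR.symm r, lift_symm_algebraMap_R τ τR hτR τ' hτ' r⟩) ?_ hb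
    · simpa using this
    intro t ht
    rcases hT ht with rfl | rfl
    · change τ'.symm (algebraMap F L x) ∈ _
      rw [hxs]
      exact Algebra.subset_adjoin ht
    · change τ'.symm (algebraMap F L x)⁻¹ ∈ _
      rw [map_inv₀, hxs]
      exact Algebra.subset_adjoin ht

/-- The image of a sheet under a lift of `τ` is a sheet. -/
theorem lift_isSheet (w : R) (x : F) (τ : F ≃+* F) (τR : R ≃+* R)
    (hτx : τ x = x) (hτR : ∀ r, τ (algebraMap R F r) = algebraMap R F (τR r))
    (hτw : ∀ r, w ∣ r ↔ w ∣ τR r)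
    (τ' : L ≃+* L) (hτ' : ∀ f : F, τ' (algebraMap F L f) = algebraMap F L (τ f))
    {W : ValuationSubring L} (hW : IsSheet w (algebraMap F L x) W) :
    IsSheet w (algebraMap F L x) (W.comap (τ'.symm : L →+* L)) := by
  refine hW.comap τ'.symm τR.symm (lift_symm_algebraMap_R τ τR hτR τ' hτ') ?_ ?_
  · intro r
    have := hτw (τR.symm r)
    rw [RingEquiv.apply_symm_apply] at this
    exact this.symm
  · rw [RingEquiv.symm_apply_eq, hτ', hτx]

/-- An element of the Galois group maps sheets to sheets. -/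
theorem gal_isSheet (w : R) (x : F) (σ : L ≃+* L) (hσ : σ ∈ galSubgroup F L)
    {W : ValuationSubring L} (hW : IsSheet w (algebraMap F L x) W) :
    IsSheet w (algebraMap F L x) (W.comap (σ.symm : L →+* L)) := by
  have hσs : ∀ f : F, σ.symm (algebraMap F L f) = algebraMap F L f := by
    intro f
    rw [RingEquiv.symm_apply_eq, hσ f]
  refine hW.comap σ.symm (RingEquiv.refl R) ?_ (fun r => Iff.rfl) (hσs x)
  intro r
  rw [IsScalarTower.algebraMap_apply R F L, hσs, ← IsScalarTower.algebraMap_apply]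
  rfl

/-- **Route G, ALG core.**  Cover `L / F` with the leaf conclusions, lift `τ'` fixing the sheet
`W₀`: then `τ g / g ∈ F ^ m` for every `g` with an `m`-th root in `L`. -/
theorem algG_core [IsDomain R] [IsNoetherianRing R] [IsIntegrallyClosed R[X]] [CharZero F]
    (w : R) (x : F) (m : ℕ) (τ : F ≃+* F) (τR : R ≃+* R)
    (hinj : Function.Injective (algebraMap R F)) (hx : Transcendental R x) (hw : Prime w)
    (hm : 0 < m) (hroot : ∃ ζ : R, IsPrimitiveRoot ζ m ∧ τR ζ = ζ)
    (hτx : τ x = x) (hτR : ∀ r, τ (algebraMap R F r) = algebraMap R F (τR r))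
    (hτw : ∀ r, w ∣ r ↔ w ∣ τR r)
    (hτV : ∀ V : ValuationSubring F, IsSheet w x V → ∀ c : F,
      (c ∈ V ↔ τ c ∈ V) ∧ (c ∈ V → τ c - c ∈ V.nonunits))
    [FiniteDimensional F L] [IsGalois F L]
    (hS : SheetsConclusion L w x) (hRed : RedConclusion L w x)
    (hConst : ConstConclusion (R := R) L x) (hCount : CountConclusion L w x)
    (τ' : L ≃+* L) (hτ' : ∀ f : F, τ' (algebraMap F L f) = algebraMap F L (τ f))
    (W₀ : ValuationSubring L) (hW₀ : IsSheet w (algebraMap F L x) W₀)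
    (hfix : ∀ b, b ∈ W₀ ↔ τ' b ∈ W₀)
    (g : F) (hg : g ≠ 0) (y : L) (hy : y ^ m = algebraMap F L g) :
    ∃ z : F, τ g = z ^ m * g := by
  classical
  set xL : L := algebraMap F L x with hxL
  let S := ↥{W : ValuationSubring L | IsSheet w xL W}
  have : Fintype S := hS.finite.fintype
  let M : S → AddSubgroup L := fun s => s.1.nonunits.toAddSubgroup
  have hι : Function.Injective (algebraMap F L) := (algebraMap F L).injective
  have hinjL : Function.Injective (algebraMap R L) := by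
    rw [IsScalarTower.algebraMap_eq R F L]
    exact hι.comp hinj
  have : CharZero L := charZero_of_injective_algebraMap hι
  have := hConst.finite
  have hxLt : Transcendental R xL := (transcendental_algebraMap_iff hι).2 hx
  have hy0 : y ≠ 0 := by
    rintro rfl
    rw [zero_pow hm.ne'] at hy
    exact hg (hι (by rw [← hy, map_zero]))
  have hιg : algebraMap F L g ≠ 0 := fun h => hg (hι (by rw [h, map_zero]))
  -- roots of unity
  have hζ : ∀ σ ∈ galSubgroup F L, ∃ ζ : L, σ y = ζ * y ∧ τ' ζ = ζ := by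
    intro σ hσ
    obtain ⟨ζ₀, hζ₀, hτζ₀⟩ := hroot
    have hprim : IsPrimitiveRoot (algebraMap R L ζ₀) m := hζ₀.map_of_injective hinjL
    have hpow : (σ y / y) ^ m = 1 := by
      rw [div_pow, ← map_pow, hy, hσ g, div_self hιg]
    have : NeZero m := ⟨hm.ne'⟩
    obtain ⟨i, -, hi⟩ := hprim.eq_pow_of_pow_eq_one hpow
    refine ⟨σ y / y, by field_simp, ?_⟩
    rw [← hi, map_pow, lift_algebraMap_R τ τR hτR τ' hτ', hτζ₀]
  have key := wallG (R := R) (L := L) (S := S) w (chart R {xL}) (chart R {xL⁻¹})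
    (chart R {xL, xL⁻¹}) M
    (fun s c hc a ha => mul_mem_nonunits s.1 ha (s.2.chart_le Set.Subset.rfl hc))
    (Fermat.Agent.S18.H138.chart_mono (Set.singleton_subset_iff.2 (Or.inl rfl)))
    (Fermat.Agent.S18.H138.chart_mono (Set.singleton_subset_iff.2 (Or.inr rfl)))
    (fun s => one_not_mem_nonunits s.1)
    (fun s => s.2.2.2.1)
    (fun b hb h => hRed _ (Or.inr (Or.inr rfl)) b hb (fun W hW => h ⟨W, hW⟩))
    (fun b hb h => hRed _ (Or.inl rfl) b hb (fun W hW => h ⟨W, hW⟩))
    (fun b hb h => hRed _ (Or.inr (Or.inl rfl)) b hb (fun W hW => h ⟨W, hW⟩))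
    (fun e₁ e₂ he₁ he₂ h1 h2 h12 =>
      Fermat.Agent.S18.H138.connected_special_fibre hinjL hConst.closed hxLt w hw e₁ e₂ he₁ he₂
        h1 h2 h12)
    τ'
    (lift_chart_iff x τ τR hτx hτR τ' hτ' {xL} (Set.singleton_subset_iff.2 (Or.inl rfl)))
    (lift_chart_iff x τ τR hτx hτR τ' hτ' {xL⁻¹} (Set.singleton_subset_iff.2 (Or.inr rfl)))
    (fun s => ⟨⟨s.1.comap (τ'.symm : L →+* L), lift_isSheet w x τ τR hτx hτR hτw τ' hτ' s.2⟩,
      fun b => by
        change b ∈ s.1.nonunits ↔ τ' b ∈ (s.1.comap (τ'.symm : L →+* L)).nonunits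
        rw [mem_nonunits_comap]
        simp⟩)
    (fun s t hst => by
      apply Subtype.ext
      apply ValuationSubring.nonunits_injective
      ext b
      have := congrArg (fun A : AddSubgroup L => b ∈ A) hst
      exact iff_of_eq this)
    (col := fun s : S => s.1.comap (algebraMap F L))
    (fun s s' h => by
      have hmem := mem_iff_of_nonunits_iff τ' s.1 s'.1 h
      have hV := (IsSheet.comap_algebraMap s.2)
      ext f
      have h1 := hmem (algebraMap F L (τ.symm f))
      rw [hτ', RingEquiv.apply_symm_apply] at h1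
      have h2 := (hτV _ hV (τ.symm f)).1
      rw [RingEquiv.apply_symm_apply] at h2
      rw [ValuationSubring.mem_comap, ← h1, ← ValuationSubring.mem_comap, h2])
    (fun s h b hb => by
      have hmem := mem_iff_of_nonunits_iff τ' s.1 s.1 h
      have hV := (IsSheet.comap_algebraMap s.2)
      have hbW : b ∈ s.1 := by
        rcases hb with hb | hb
        · exact s.2.chart_le (Set.singleton_subset_iff.2 (Or.inl rfl)) hb
        · exact s.2.chart_le (Set.singleton_subset_iff.2 (Or.inr rfl)) hb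
      obtain ⟨c, hc⟩ := hS.resdeg s.1 s.2 b hbW
      have hcW : algebraMap F L c ∈ s.1 := by
        have : algebraMap F L c = b - (b - algebraMap F L c) := by ring
        rw [this]
        exact sub_mem hbW (ValuationSubring.nonunits_subset hc)
      have hcV : c ∈ s.1.comap (algebraMap F L) := hcW
      have h3 := (mem_nonunits_comap s.1 (algebraMap F L) _).1 ((hτV _ hV c).2 hcV)
      rw [map_sub] at h3
      have h4 : τ' (b - algebraMap F L c) ∈ s.1.nonunits := (h _).1 hc
      have h5 : τ' b - b = (τ' (b - algebraMap F L c) - (b - algebraMap F L c)) +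
          (algebraMap F L (τ c) - algebraMap F L c) := by
        rw [map_sub, hτ']
        ring
      change τ' b - b ∈ s.1.nonunits
      rw [h5]
      exact s.1.nonunits.add_mem (s.1.nonunits.sub_mem h4 hc) h3)
    (fun 𝔫 h𝔫 s t hc hs ht => Subtype.ext (hCount.1 𝔫 h𝔫 s.1 t.1 s.2 t.2 hc hs ht))
    (fun 𝔫 h𝔫 s t hc hs ht => Subtype.ext (hCount.2 𝔫 h𝔫 s.1 t.1 s.2 t.2 hc hs ht))
    ⟨W₀, hW₀⟩ (nonunits_iff_of_mem_iff τ' W₀ W₀ hfix)
    (galSubgroup F L)
    (fun σ hσ s => ⟨⟨s.1.comap (σ.symm : L →+* L), gal_isSheet w x σ hσ s.2⟩, fun b => by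
        change b ∈ s.1.nonunits ↔ σ b ∈ (s.1.comap (σ.symm : L →+* L)).nonunits
        rw [mem_nonunits_comap]
        simp⟩)
    (fun σ hσ s h => by
      have hmem := mem_iff_of_nonunits_iff σ s.1 s.1 h
      have h1 := hS.free s.1 s.2 (AlgEquiv.ofRingEquiv (f := σ) hσ) hmem
      ext b
      have := congrArg (fun f : L ≃ₐ[F] L => f b) h1
      exact this)
    (fun σ hσ f => by
      change τ' (σ (τ'.symm (algebraMap F L f))) = algebraMap F L f
      rw [lift_symm_algebraMap τ τ' hτ', hσ, hτ', RingEquiv.apply_symm_apply])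
    y hy0 hζ
  -- conclusion
  have hz : τ' y / y ∈ (⊥ : IntermediateField F L) := by
    rw [IsGalois.mem_bot_iff_fixed]
    intro f
    exact key (f : L ≃+* L) (fun c => f.commutes c)
  obtain ⟨z, hz⟩ := IntermediateField.mem_bot.1 hz
  refine ⟨z, hι ?_⟩
  rw [map_mul, map_pow, hz, div_pow, ← hy, div_mul_cancel₀ _ (pow_ne_zero m hy0), ← map_pow, hy,
    hτ']

/-- **Route G, ALG assembly.**  From the leaves SHEETS, RED, CONST, COUNT (for all Kummer-split
covers of `F`) and COVER (for `g`): `τ g / g` is an `m`-th power in `F`. -/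
theorem algG [IsDomain R] [IsNoetherianRing R] [IsIntegrallyClosed R[X]] [CharZero F]
    (w : R) (x : F) (m : ℕ) (τ : F ≃+* F) (τR : R ≃+* R)
    (hinj : Function.Injective (algebraMap R F)) (hx : Transcendental R x) (hw : Prime w)
    (hm : 0 < m) (hroot : ∃ ζ : R, IsPrimitiveRoot ζ m ∧ τR ζ = ζ)
    (hτx : τ x = x) (hτR : ∀ r, τ (algebraMap R F r) = algebraMap R F (τR r))
    (hτw : ∀ r, w ∣ r ↔ w ∣ τR r)
    (hτV : ∀ V : ValuationSubring F, IsSheet w x V → ∀ c : F,
      (c ∈ V ↔ τ c ∈ V) ∧ (c ∈ V → τ c - c ∈ V.nonunits))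
    (hsheet : ∃ V : ValuationSubring F, IsSheet w x V)
    (hSheets : ∀ (L : Type u) [Field L] [Algebra F L] [Algebra R L] [IsScalarTower R F L],
      IsKummerSplit L w x m → SheetsConclusion L w x)
    (hRed : ∀ (L : Type u) [Field L] [Algebra F L] [Algebra R L] [IsScalarTower R F L],
      IsKummerSplit L w x m → RedConclusion L w x)
    (hConst : ∀ (L : Type u) [Field L] [Algebra F L] [Algebra R L] [IsScalarTower R F L],
      IsKummerSplit L w x m → ConstConclusion (R := R) L x)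
    (hCount : ∀ (L : Type u) [Field L] [Algebra F L] [Algebra R L] [IsScalarTower R F L],
      IsKummerSplit L w x m → CountConclusion L w x)
    (g : F) (hg : g ≠ 0) (hCover : CoverConclusion w x m τ g) :
    ∃ z : F, τ g = z ^ m * g := by
  obtain ⟨L, _, _, _, _, hKS, τ₀, y, hτ₀, hy⟩ := hCover
  have := hKS.finite
  have := hKS.galois
  have S1 := hSheets L hKS
  obtain ⟨V₀, hV₀⟩ := hsheet
  obtain ⟨W₀, hW₀, -⟩ := S1.exists_over V₀ hV₀
  have hW₁ : IsSheet w (algebraMap F L x) (W₀.comap (τ₀.symm : L →+* L)) :=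
    lift_isSheet w x τ τR hτx hτR hτw τ₀ hτ₀ hW₀
  have hcol : (W₀.comap (τ₀.symm : L →+* L)).comap (algebraMap F L) =
      W₀.comap (algebraMap F L) := by
    ext f
    have h2 := (hτV _ (IsSheet.comap_algebraMap hW₀) (τ.symm f)).1
    rw [RingEquiv.apply_symm_apply] at h2
    rw [ValuationSubring.mem_comap, ValuationSubring.mem_comap]
    change τ₀.symm (algebraMap F L f) ∈ W₀ ↔ _
    rw [lift_symm_algebraMap τ τ₀ hτ₀, ← ValuationSubring.mem_comap, h2]
  obtain ⟨σ, hσ⟩ := S1.trans _ W₀ hW₁ hW₀ hcol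
  refine algG_core (L := L) w x m τ τR hinj hx hw hm hroot hτx hτR hτw hτV S1 (hRed L hKS)
    (hConst L hKS) (hCount L hKS) (τ₀.trans (σ : L ≃+* L)) ?_ W₀ hW₀ ?_ g hg y hy
  · intro f
    change σ (τ₀ (algebraMap F L f)) = _
    rw [hτ₀, σ.commutes]
  · intro b
    change b ∈ W₀ ↔ σ (τ₀ b) ∈ W₀
    rw [← hσ, ValuationSubring.mem_comap]
    change _ ↔ τ₀.symm (τ₀ b) ∈ W₀
    rw [RingEquiv.symm_apply_apply]

end Asm

end Fermat.Agent.A2.H12

end
-- ===== PACK-END A2/H12/GAsm.lean

-- ===== PACK-BEGIN S35/H891/DeckF.lean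
section


/-!
# S35, cell FROB — the deck lemma for a FROBENIUS lift (helper891)

Variant of helper12's route-G wall (`Fermat/Agent/A2/H12/{Deck,DeckTwo,WallG}.lean`) for a ring
automorphism `φ̃` of the cover which does NOT act trivially on the residue rings of the sheets
(a lift of a Frobenius element).  The hypothesis `h_triv` of `A2.H12.wallG` is replaced by

* `h_node` : if `φ̃` fixes the sheet `s` and a second sheet `t ≠ s` passes through the closed
  point `𝔫` of `s`, then `φ̃⁻¹` maps `𝔫` into itself (crossing points on a fixed sheet are fixed),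

and the root-of-unity hypothesis `τ ζ = ζ` by `φ̃ ζ = ζ ^ Q`.  Conclusion: `φ̃ y / y ^ Q` is
invariant under the Galois group.

Mathlib + `A2.H12` (definitions `Adj`, `TwoAdj`, `SubAdj`, `SepAt`, `chartIdeal`, lemmas
`sheetGraph_connected_sub`, `wallG_comm`, `exists_maximal_of_not_comaximal`).
-/

set_option autoImplicit false

namespace Fermat.Agent.S35.H891

open Fermat.Agent.A2.H12

open scoped Classical

section Graph

variable {S P : Type*}

/-- **Graph lemma, node form.**  As `A2.H12.fixes_all`, but only the points of a fixed sheet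
through which a SECOND sheet passes are assumed to be fixed. -/
theorem fixes_all_node {C : Type*} (inc : S → P → Prop) (col : S → C) (τS : S → S)
    (τP : P → P)
    (h_col : ∀ s, col (τS s) = col s)
    (h_inc : ∀ s p, inc s p → inc (τS s) (τP p))
    (h_fix : ∀ s t p, τS s = s → s ≠ t → inc s p → inc t p → τP p = p)
    (h_uni : ∀ s t p, inc s p → inc t p → col s = col t → s = t)
    (h_conn : ∀ s t : S, Relation.ReflTransGen (Adj inc) s t)
    (s₀ : S) (h₀ : τS s₀ = s₀) : ∀ s, τS s = s := by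
  intro s
  have key : ∀ a b, Relation.ReflTransGen (Adj inc) a b → τS a = a → τS b = b := by
    intro a b hab
    induction hab with
    | refl => exact id
    | @tail b c _ hbc ih =>
      intro ha
      have hb := ih ha
      by_cases hbc' : b = c
      · rw [← hbc']; exact hb
      · obtain ⟨p, hbp, hcp⟩ := hbc
        have hp : τP p = p := h_fix b c p hb hbc' hbp hcp
        have h1 := h_inc _ p hcp
        rw [hp] at h1
        exact h_uni _ _ p h1 hcp (h_col _)
  exact key s₀ s (h_conn s₀ s) h₀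

end Graph

section Two

variable {R₁ R₂ : Type*} [CommRing R₁] [CommRing R₂] {S C : Type*}

/-- **Deck lemma, two charts, ring form, node version.** -/
theorem fixes_all_two_node (ρ₁ : R₁ →+* R₁) (hρ₁ : Function.Surjective ρ₁)
    (ρ₂ : R₂ →+* R₂) (hρ₂ : Function.Surjective ρ₂)
    (Q₁ : S → Ideal R₁) (Q₂ : S → Ideal R₂) (τS : S → S) (col : S → C)
    (hQ₁ : ∀ s b, b ∈ Q₁ (τS s) → ρ₁ b ∈ Q₁ s)
    (hQ₂ : ∀ s b, b ∈ Q₂ (τS s) → ρ₂ b ∈ Q₂ s)
    (h_col : ∀ s, col (τS s) = col s)
    (h_node₁ : ∀ s t, τS s = s → s ≠ t → ∀ 𝔫 : Ideal R₁, 𝔫.IsMaximal → Q₁ s ≤ 𝔫 → Q₁ t ≤ 𝔫 →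
      ∀ b ∈ 𝔫, ρ₁ b ∈ 𝔫)
    (h_node₂ : ∀ s t, τS s = s → s ≠ t → ∀ 𝔫 : Ideal R₂, 𝔫.IsMaximal → Q₂ s ≤ 𝔫 → Q₂ t ≤ 𝔫 →
      ∀ b ∈ 𝔫, ρ₂ b ∈ 𝔫)
    (h_uni₁ : ∀ 𝔫 : Ideal R₁, 𝔫.IsMaximal → ∀ s t, col s = col t →
      Q₁ s ≤ 𝔫 → Q₁ t ≤ 𝔫 → s = t)
    (h_uni₂ : ∀ 𝔫 : Ideal R₂, 𝔫.IsMaximal → ∀ s t, col s = col t →
      Q₂ s ≤ 𝔫 → Q₂ t ≤ 𝔫 → s = t)
    (h_conn : ∀ s t : S, Relation.ReflTransGen (TwoAdj Q₁ Q₂) s t)
    (s₀ : S) (h₀ : τS s₀ = s₀) : ∀ s, τS s = s := by
  classical
  let Pt := {𝔫 : Ideal R₁ // 𝔫.IsMaximal} ⊕ {𝔫 : Ideal R₂ // 𝔫.IsMaximal}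
  let inc : S → Pt → Prop := fun s p =>
    Sum.elim (fun 𝔫 => Q₁ s ≤ 𝔫.1) (fun 𝔫 => Q₂ s ≤ 𝔫.1) p
  let τP : Pt → Pt := fun p =>
    Sum.elim
      (fun 𝔫 => Sum.inl ⟨𝔫.1.comap ρ₁, by
        have := 𝔫.2
        exact Ideal.comap_isMaximal_of_surjective ρ₁ hρ₁⟩)
      (fun 𝔫 => Sum.inr ⟨𝔫.1.comap ρ₂, by
        have := 𝔫.2
        exact Ideal.comap_isMaximal_of_surjective ρ₂ hρ₂⟩) p
  refine fixes_all_node inc col τS τP h_col ?_ ?_ ?_ ?_ s₀ h₀
  · -- incidence is preserved
    rintro s (𝔫 | 𝔫) hsp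
    · intro b hb
      exact hsp (hQ₁ s b hb)
    · intro b hb
      exact hsp (hQ₂ s b hb)
  · -- crossing points of a fixed sheet are fixed
    rintro s t (𝔫 | 𝔫) hs hst hsp htp
    · have hle : 𝔫.1 ≤ 𝔫.1.comap ρ₁ := fun b hb =>
        Ideal.mem_comap.2 (h_node₁ s t hs hst 𝔫.1 𝔫.2 hsp htp b hb)
      have hmax : (𝔫.1.comap ρ₁).IsMaximal := by
        have := 𝔫.2
        exact Ideal.comap_isMaximal_of_surjective ρ₁ hρ₁
      have : 𝔫.1.comap ρ₁ = 𝔫.1 := (𝔫.2.eq_of_le hmax.ne_top hle).symm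
      exact congrArg Sum.inl (Subtype.ext this)
    · have hle : 𝔫.1 ≤ 𝔫.1.comap ρ₂ := fun b hb =>
        Ideal.mem_comap.2 (h_node₂ s t hs hst 𝔫.1 𝔫.2 hsp htp b hb)
      have hmax : (𝔫.1.comap ρ₂).IsMaximal := by
        have := 𝔫.2
        exact Ideal.comap_isMaximal_of_surjective ρ₂ hρ₂
      have : 𝔫.1.comap ρ₂ = 𝔫.1 := (𝔫.2.eq_of_le hmax.ne_top hle).symm
      exact congrArg Sum.inr (Subtype.ext this)
  · -- COUNT
    rintro s t (𝔫 | 𝔫) hs ht hc
    · exact h_uni₁ 𝔫.1 𝔫.2 s t hc hs ht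
    · exact h_uni₂ 𝔫.1 𝔫.2 s t hc hs ht
  · -- connectedness
    intro s t
    refine Relation.ReflTransGen.mono ?_ _ _ (h_conn s t)
    rintro a b (h | h)
    · obtain ⟨𝔫, h𝔫, ha, hb⟩ := exists_maximal_of_not_comaximal _ _ h
      exact ⟨Sum.inl ⟨𝔫, h𝔫⟩, ha, hb⟩
    · obtain ⟨𝔫, h𝔫, ha, hb⟩ := exists_maximal_of_not_comaximal _ _ h
      exact ⟨Sum.inr ⟨𝔫, h𝔫⟩, ha, hb⟩

end Two

section Kummer

variable {L : Type*} [Field L]

/-- **Kummer part, Frobenius version.**  If `τ` commutes with every `g ∈ G` on `y`, and every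
`g ∈ G` multiplies `y` by a root of unity `ζ` with `τ ζ = ζ ^ Q`, then `τ y / y ^ Q` is fixed
by `G`. -/
theorem kummer_of_commute_pow (G : Set (L ≃+* L)) (τ : L ≃+* L) (y : L) (hy : y ≠ 0) (Q : ℕ)
    (h_comm : ∀ g ∈ G, τ (g y) = g (τ y))
    (h_char : ∀ g ∈ G, ∃ ζ : L, g y = ζ * y ∧ τ ζ = ζ ^ Q) :
    ∀ g ∈ G, g (τ y / y ^ Q) = τ y / y ^ Q := by
  intro g hg
  obtain ⟨ζ, hζ, hτζ⟩ := h_char g hg
  have h1 : g (τ y) = ζ ^ Q * τ y := by
    rw [← h_comm g hg, hζ, map_mul, hτζ]
  have hζ0 : ζ ≠ 0 := by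
    rintro rfl
    rw [zero_mul] at hζ
    exact hy ((map_eq_zero_iff g g.injective).1 hζ)
  have hyQ : y ^ Q ≠ 0 := pow_ne_zero _ hy
  have hζQ : ζ ^ Q ≠ 0 := pow_ne_zero _ hζ0
  rw [map_div₀, h1, map_pow, hζ, mul_pow]
  field_simp

end Kummer

section Val

variable {R : Type*} [CommRing R] {L : Type*} [Field L] [Algebra R L] {S : Type*}

/-- **Frobenius wall, step "φ̃ fixes every sheet".** -/
theorem wallF_fixes [Fintype S] (w : R) (Bfin Binf Bmid : Subalgebra R L)
    (M : S → AddSubgroup L)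
    (habs : ∀ s, ∀ c ∈ Bmid, ∀ a ∈ M s, c * a ∈ M s)
    (hfm : Bfin ≤ Bmid) (him : Binf ≤ Bmid)
    (hM1 : ∀ s, (1 : L) ∉ M s) (hwM : ∀ s, algebraMap R L w ∈ M s)
    (hred_mid : ∀ b ∈ Bmid, (∀ s, b ∈ M s) → ∃ t ∈ Bmid, b = algebraMap R L w * t)
    (hred_fin : ∀ b ∈ Bfin, (∀ s, b ∈ M s) → ∃ t ∈ Bfin, b = algebraMap R L w * t)
    (hred_inf : ∀ b ∈ Binf, (∀ s, b ∈ M s) → ∃ t ∈ Binf, b = algebraMap R L w * t)
    (hcech : ∀ e₁ e₂ : L, e₁ ∈ Bfin → e₂ ∈ Binf →
      (∃ t ∈ Bfin, e₁ ^ 2 - e₁ = algebraMap R L w * t) →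
      (∃ t ∈ Binf, e₂ ^ 2 - e₂ = algebraMap R L w * t) →
      (∃ t ∈ Bmid, e₁ - e₂ = algebraMap R L w * t) →
      ((∃ t ∈ Bfin, e₁ = algebraMap R L w * t) ∧ (∃ t ∈ Binf, e₂ = algebraMap R L w * t)) ∨
      ((∃ t ∈ Bfin, 1 - e₁ = algebraMap R L w * t) ∧
        (∃ t ∈ Binf, 1 - e₂ = algebraMap R L w * t)))
    (τ : L ≃+* L) (hτfin : ∀ b, b ∈ Bfin ↔ τ b ∈ Bfin) (hτinf : ∀ b, b ∈ Binf ↔ τ b ∈ Binf)
    (τS : S → S) (hτM : ∀ s b, b ∈ M s ↔ τ b ∈ M (τS s))
    {C : Type*} (col : S → C) (h_col : ∀ s, col (τS s) = col s)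
    (h_node_fin : ∀ s t, τS s = s → s ≠ t → ∀ 𝔫 : Ideal Bfin, 𝔫.IsMaximal →
      (∀ c : Bfin, (c : L) ∈ M s → c ∈ 𝔫) → (∀ c : Bfin, (c : L) ∈ M t → c ∈ 𝔫) →
      ∀ c : Bfin, c ∈ 𝔫 → ∀ h : τ.symm (c : L) ∈ Bfin, (⟨τ.symm (c : L), h⟩ : Bfin) ∈ 𝔫)
    (h_node_inf : ∀ s t, τS s = s → s ≠ t → ∀ 𝔫 : Ideal Binf, 𝔫.IsMaximal →
      (∀ c : Binf, (c : L) ∈ M s → c ∈ 𝔫) → (∀ c : Binf, (c : L) ∈ M t → c ∈ 𝔫) →
      ∀ c : Binf, c ∈ 𝔫 → ∀ h : τ.symm (c : L) ∈ Binf, (⟨τ.symm (c : L), h⟩ : Binf) ∈ 𝔫)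
    (h_uni_fin : ∀ 𝔫 : Ideal Bfin, 𝔫.IsMaximal → ∀ s t, col s = col t →
      (∀ c : Bfin, (c : L) ∈ M s → c ∈ 𝔫) → (∀ c : Bfin, (c : L) ∈ M t → c ∈ 𝔫) → s = t)
    (h_uni_inf : ∀ 𝔫 : Ideal Binf, 𝔫.IsMaximal → ∀ s t, col s = col t →
      (∀ c : Binf, (c : L) ∈ M s → c ∈ 𝔫) → (∀ c : Binf, (c : L) ∈ M t → c ∈ 𝔫) → s = t)
    (s₀ : S) (h₀ : τS s₀ = s₀) : ∀ s, τS s = s := by
  have hsymm_fin : ∀ b ∈ Bfin, (τ.symm : L →+* L) b ∈ Bfin := by
    intro b hb
    rw [hτfin]
    simpa using hb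
  have hsymm_inf : ∀ b ∈ Binf, (τ.symm : L →+* L) b ∈ Binf := by
    intro b hb
    rw [hτinf]
    simpa using hb
  let ρ₁ : Bfin →+* Bfin := RingHom.restrict (τ.symm : L →+* L) Bfin Bfin hsymm_fin
  let ρ₂ : Binf →+* Binf := RingHom.restrict (τ.symm : L →+* L) Binf Binf hsymm_inf
  have hρ₁ : ∀ b : Bfin, ((ρ₁ b : Bfin) : L) = τ.symm (b : L) := fun b => rfl
  have hρ₂ : ∀ b : Binf, ((ρ₂ b : Binf) : L) = τ.symm (b : L) := fun b => rfl
  have hsurj₁ : Function.Surjective ρ₁ := by
    intro b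
    refine ⟨⟨τ (b : L), (hτfin _).1 b.2⟩, Subtype.ext ?_⟩
    rw [hρ₁]
    simp
  have hsurj₂ : Function.Surjective ρ₂ := by
    intro b
    refine ⟨⟨τ (b : L), (hτinf _).1 b.2⟩, Subtype.ext ?_⟩
    rw [hρ₂]
    simp
  refine fixes_all_two_node ρ₁ hsurj₁ ρ₂ hsurj₂
    (fun s => chartIdeal Bfin (M s) (fun c hc => habs s c (hfm hc)))
    (fun s => chartIdeal Binf (M s) (fun c hc => habs s c (him hc)))
    τS col ?_ ?_ h_col ?_ ?_ ?_ ?_ ?_ s₀ h₀
  · intro s b hb
    rw [mem_chartIdeal] at hb ⊢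
    rw [hρ₁, hτM s]
    simpa using hb
  · intro s b hb
    rw [mem_chartIdeal] at hb ⊢
    rw [hρ₂, hτM s]
    simpa using hb
  · intro s t hs hst 𝔫 h𝔫 hsn htn b hb
    exact h_node_fin s t hs hst 𝔫 h𝔫 (fun c hc => hsn hc) (fun c hc => htn hc) b hb
      (hsymm_fin _ b.2)
  · intro s t hs hst 𝔫 h𝔫 hsn htn b hb
    exact h_node_inf s t hs hst 𝔫 h𝔫 (fun c hc => hsn hc) (fun c hc => htn hc) b hb
      (hsymm_inf _ b.2)
  · intro 𝔫 h𝔫 s t hc hs ht
    exact h_uni_fin 𝔫 h𝔫 s t hc (fun c hcM => hs hcM) (fun c hcM => ht hcM)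
  · intro 𝔫 h𝔫 s t hc hs ht
    exact h_uni_inf 𝔫 h𝔫 s t hc (fun c hcM => hs hcM) (fun c hcM => ht hcM)
  · intro s t
    refine Relation.ReflTransGen.mono ?_ _ _
      (sheetGraph_connected_sub w Bfin Binf Bmid M habs hfm him hM1 hwM hred_mid hred_fin
        hred_inf hcech s t)
    rintro a b (h | h)
    · left
      rintro ⟨c, hc, d, hd, hcd⟩
      exact h ⟨c.1, c.2, hc, d.1, d.2, hd, congrArg Subtype.val hcd⟩
    · right
      rintro ⟨c, hc, d, hd, hcd⟩
      exact h ⟨c.1, c.2, hc, d.1, d.2, hd, congrArg Subtype.val hcd⟩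

/-- **The Frobenius wall, field form.**  Under the hypotheses of `wallF_fixes` and
`A2.H12.wallG_comm`, for every Kummer generator `y` (each `σ ∈ Γ` multiplies `y` by a root of
unity `ζ` with `φ̃ ζ = ζ ^ Q`) the quotient `φ̃ y / y ^ Q` is `Γ`-invariant. -/
theorem wallF [Fintype S] (w : R) (Bfin Binf Bmid : Subalgebra R L)
    (M : S → AddSubgroup L)
    (habs : ∀ s, ∀ c ∈ Bmid, ∀ a ∈ M s, c * a ∈ M s)
    (hfm : Bfin ≤ Bmid) (him : Binf ≤ Bmid)
    (hM1 : ∀ s, (1 : L) ∉ M s) (hwM : ∀ s, algebraMap R L w ∈ M s)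
    (hred_mid : ∀ b ∈ Bmid, (∀ s, b ∈ M s) → ∃ t ∈ Bmid, b = algebraMap R L w * t)
    (hred_fin : ∀ b ∈ Bfin, (∀ s, b ∈ M s) → ∃ t ∈ Bfin, b = algebraMap R L w * t)
    (hred_inf : ∀ b ∈ Binf, (∀ s, b ∈ M s) → ∃ t ∈ Binf, b = algebraMap R L w * t)
    (hcech : ∀ e₁ e₂ : L, e₁ ∈ Bfin → e₂ ∈ Binf →
      (∃ t ∈ Bfin, e₁ ^ 2 - e₁ = algebraMap R L w * t) →
      (∃ t ∈ Binf, e₂ ^ 2 - e₂ = algebraMap R L w * t) →
      (∃ t ∈ Bmid, e₁ - e₂ = algebraMap R L w * t) →
      ((∃ t ∈ Bfin, e₁ = algebraMap R L w * t) ∧ (∃ t ∈ Binf, e₂ = algebraMap R L w * t)) ∨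
      ((∃ t ∈ Bfin, 1 - e₁ = algebraMap R L w * t) ∧
        (∃ t ∈ Binf, 1 - e₂ = algebraMap R L w * t)))
    (τ : L ≃+* L) (hτfin : ∀ b, b ∈ Bfin ↔ τ b ∈ Bfin) (hτinf : ∀ b, b ∈ Binf ↔ τ b ∈ Binf)
    (hτM : ∀ s, ∃ s', ∀ b, b ∈ M s ↔ τ b ∈ M s')
    (hMinj : Function.Injective M)
    {C : Type*} (col : S → C)
    (h_col : ∀ s s', (∀ b, b ∈ M s ↔ τ b ∈ M s') → col s' = col s)
    (h_node_fin : ∀ s t, (∀ b, b ∈ M s ↔ τ b ∈ M s) → s ≠ t → ∀ 𝔫 : Ideal Bfin, 𝔫.IsMaximal →
      (∀ c : Bfin, (c : L) ∈ M s → c ∈ 𝔫) → (∀ c : Bfin, (c : L) ∈ M t → c ∈ 𝔫) →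
      ∀ c : Bfin, c ∈ 𝔫 → ∀ h : τ.symm (c : L) ∈ Bfin, (⟨τ.symm (c : L), h⟩ : Bfin) ∈ 𝔫)
    (h_node_inf : ∀ s t, (∀ b, b ∈ M s ↔ τ b ∈ M s) → s ≠ t → ∀ 𝔫 : Ideal Binf, 𝔫.IsMaximal →
      (∀ c : Binf, (c : L) ∈ M s → c ∈ 𝔫) → (∀ c : Binf, (c : L) ∈ M t → c ∈ 𝔫) →
      ∀ c : Binf, c ∈ 𝔫 → ∀ h : τ.symm (c : L) ∈ Binf, (⟨τ.symm (c : L), h⟩ : Binf) ∈ 𝔫)
    (h_uni_fin : ∀ 𝔫 : Ideal Bfin, 𝔫.IsMaximal → ∀ s t, col s = col t →
      (∀ c : Bfin, (c : L) ∈ M s → c ∈ 𝔫) → (∀ c : Bfin, (c : L) ∈ M t → c ∈ 𝔫) → s = t)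
    (h_uni_inf : ∀ 𝔫 : Ideal Binf, 𝔫.IsMaximal → ∀ s t, col s = col t →
      (∀ c : Binf, (c : L) ∈ M s → c ∈ 𝔫) → (∀ c : Binf, (c : L) ∈ M t → c ∈ 𝔫) → s = t)
    (s₀ : S) (h₀ : ∀ b, b ∈ M s₀ ↔ τ b ∈ M s₀)
    (Γ : Subgroup (L ≃+* L))
    (hΓM : ∀ σ ∈ Γ, ∀ s, ∃ s', ∀ b, b ∈ M s ↔ σ b ∈ M s')
    (hfree : ∀ σ ∈ Γ, ∀ s, (∀ b, b ∈ M s ↔ σ b ∈ M s) → σ = 1)
    (hnorm : ∀ σ ∈ Γ, τ * σ * τ⁻¹ ∈ Γ)
    (y : L) (hy : y ≠ 0) (Q : ℕ) (hζ : ∀ σ ∈ Γ, ∃ ζ : L, σ y = ζ * y ∧ τ ζ = ζ ^ Q) :
    ∀ σ ∈ Γ, σ (τ y / y ^ Q) = τ y / y ^ Q := by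
  choose τS hτS using hτM
  have huniq : ∀ s s', (∀ b, b ∈ M s ↔ τ b ∈ M s') → τS s = s' := by
    intro s s' h
    apply hMinj
    ext c
    have h1 := hτS s (τ.symm c)
    have h2 := h (τ.symm c)
    simp only [RingEquiv.apply_symm_apply] at h1 h2
    rw [← h1, h2]
  have hfixiff : ∀ s, τS s = s → ∀ b, b ∈ M s ↔ τ b ∈ M s := by
    intro s hs c
    have := hτS s c
    rwa [hs] at this
  have hfix := wallF_fixes w Bfin Binf Bmid M habs hfm him hM1 hwM hred_mid hred_fin hred_inf
    hcech τ hτfin hτinf τS hτS col (fun s => h_col s (τS s) (hτS s))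
    (fun s t hs hst => h_node_fin s t (hfixiff s hs) hst)
    (fun s t hs hst => h_node_inf s t (hfixiff s hs) hst)
    h_uni_fin h_uni_inf s₀ (huniq s₀ s₀ h₀)
  have hall : ∀ s b, b ∈ M s ↔ τ b ∈ M s := fun s => hfixiff s (hfix s)
  have hcomm := wallG_comm M τ hall Γ hΓM hfree hnorm s₀
  exact kummer_of_commute_pow (Γ : Set (L ≃+* L)) τ y hy Q (fun g hg => hcomm g hg y)
    (fun g hg => hζ g hg)

end Val

end Fermat.Agent.S35.H891

end
-- ===== PACK-END S35/H891/DeckF.lean

-- ===== PACK-BEGIN S35/H891/FrobAsm.lean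
section



/-!
# S35, cell FROB — the ALG assembly for a Frobenius lift (helper891)

Variant of helper12's `A2.H12.algG_core` / `algG` for a semilinear automorphism `φ` of the
function field `F` which is NOT the identity on the residue fields of the sheets:

* `φ` preserves every sheet of `F` (`hφV`), fixes the coordinate `x`;
* `φ` maps every CROSSING point of the two base charts to itself (`NodesFixed`);
* `φ ζ = ζ ^ Q` for a primitive `m`-th root of unity `ζ ∈ R`.

For a Kummer-split cover `L / F` satisfying the conclusions of the route-G leaves SHEETS, RED,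
CONST, COUNT (these do not involve any automorphism) and `SurjConclusion` (the charts of `L` are
generated by the charts of `F` modulo every sheet), and a lift `φ'` of `φ` to `L`:

  `algF_core`, `algF` :  `φ g = z ^ m * g ^ Q`  for every `g ∈ F` having an `m`-th root in `L`.
-/

set_option autoImplicit false

namespace Fermat.Agent.S35.H891

open Polynomial
open Fermat.Agent.S18.H138 (chart baseField)
open Fermat.Agent.A2.H12

universe u

section Defs

variable {R : Type u} [CommRing R] {F : Type u} [Field F] [Algebra R F]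

/-- **FIX.**  The automorphism `φ` maps every crossing point of the chart `R[T]`-integral
closure (a closed point lying on two distinct sheets) into itself, for `T = {x}` and
`T = {x⁻¹}`.  (Stated for `φ⁻¹`; for closed points this is equivalent to `φ 𝔫 = 𝔫`.) -/
def NodesFixed (w : R) (x : F) (φ : F ≃+* F) : Prop :=
  ∀ T : Set F, T = {x} ∨ T = {x⁻¹} → ∀ 𝔫 : Ideal (chart R T), 𝔫.IsMaximal →
    ∀ V V' : ValuationSubring F, IsSheet w x V → IsSheet w x V' → V ≠ V' →
      (∀ c : chart R T, (c : F) ∈ V.nonunits → c ∈ 𝔫) →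
      (∀ c : chart R T, (c : F) ∈ V'.nonunits → c ∈ 𝔫) →
      ∀ c : chart R T, c ∈ 𝔫 → ∀ h : φ.symm (c : F) ∈ chart R T,
        (⟨φ.symm (c : F), h⟩ : chart R T) ∈ 𝔫

variable (L : Type u) [Field L] [Algebra F L] [Algebra R L] [IsScalarTower R F L]

/-- **SURJ.**  Modulo every sheet `W` of the cover `L`, the charts of `L` are generated by the
charts of `F` (the components of the special fibre of the cover map isomorphically onto the
components of the base: residue degree one + the base components are normal). -/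
def SurjConclusion (w : R) (x : F) : Prop :=
  ∀ W : ValuationSubring L, IsSheet w (algebraMap F L x) W →
    (∀ b ∈ chart R ({algebraMap F L x} : Set L), ∃ c ∈ chart R ({x} : Set F),
      b - algebraMap F L c ∈ W.nonunits) ∧
    (∀ b ∈ chart R ({(algebraMap F L x)⁻¹} : Set L), ∃ c ∈ chart R ({x⁻¹} : Set F),
      b - algebraMap F L c ∈ W.nonunits)

end Defs

section Charts

variable {R : Type u} [CommRing R] {F : Type u} [Field F] [Algebra R F]
variable {L : Type u} [Field L] [Algebra F L] [Algebra R L] [IsScalarTower R F L]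

theorem algebraMap_mem_adjoin_image {T : Set F} {a : F} (ha : a ∈ Algebra.adjoin R T) :
    algebraMap F L a ∈ Algebra.adjoin R (algebraMap F L '' T) := by
  induction ha using Algebra.adjoin_induction with
  | mem y hy => exact Algebra.subset_adjoin ⟨y, hy, rfl⟩
  | algebraMap r =>
    rw [← IsScalarTower.algebraMap_apply]
    exact Subalgebra.algebraMap_mem _ _
  | add y z _ _ hy hz => rw [map_add]; exact Subalgebra.add_mem _ hy hz
  | mul y z _ _ hy hz => rw [map_mul]; exact Subalgebra.mul_mem _ hy hz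

/-- The chart of `F` maps into the chart of `L`. -/
theorem algebraMap_mem_chart_image {T : Set F} {c : F} (hc : c ∈ chart R T) :
    algebraMap F L c ∈ chart R (algebraMap F L '' T) := by
  let φ : Algebra.adjoin R T →+* Algebra.adjoin R (algebraMap F L '' T) :=
    RingHom.restrict (algebraMap F L) _ _ (fun a ha => algebraMap_mem_adjoin_image ha)
  exact IsIntegral.map_of_comp_eq (R := Algebra.adjoin R T) (S := F)
    (T := Algebra.adjoin R (algebraMap F L '' T)) (U := L) φ (algebraMap F L) (by ext; rfl) hc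

theorem algebraMap_mem_chart_fin {x c : F} (hc : c ∈ chart R ({x} : Set F)) :
    algebraMap F L c ∈ chart R ({algebraMap F L x} : Set L) := by
  have := algebraMap_mem_chart_image (L := L) hc
  rwa [Set.image_singleton] at this

theorem algebraMap_mem_chart_inf {x c : F} (hc : c ∈ chart R ({x⁻¹} : Set F)) :
    algebraMap F L c ∈ chart R ({(algebraMap F L x)⁻¹} : Set L) := by
  have := algebraMap_mem_chart_image (L := L) hc
  rwa [Set.image_singleton, map_inv₀] at this

/-- The contraction of a maximal ideal of a chart of `L` to the chart of `F` is maximal. -/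
theorem isMaximal_comap_chart {TF : Set F} {TL : Set L} (hT : TL = algebraMap F L '' TF)
    (ι : chart R TF →+* chart R TL) (hι : ∀ c : chart R TF, ((ι c : chart R TL) : L) =
      algebraMap F L (c : F))
    (𝔫 : Ideal (chart R TL)) (h𝔫 : 𝔫.IsMaximal) : (𝔫.comap ι).IsMaximal := by
  subst hT
  have hint : ι.IsIntegral := by
    intro b
    have hb : IsIntegral (Algebra.adjoin R (algebraMap F L '' TF)) (b : L) := b.2
    obtain ⟨p, hpm, hp⟩ := hb
    -- the surjection `R[T_F] → R[T_L]`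
    let ψ : Algebra.adjoin R TF →+* Algebra.adjoin R (algebraMap F L '' TF) :=
      RingHom.restrict (algebraMap F L) _ _ (fun a ha => algebraMap_mem_adjoin_image ha)
    have hψ : Function.Surjective ψ := by
      rintro ⟨a, ha⟩
      induction ha using Algebra.adjoin_induction with
      | mem y hy =>
        obtain ⟨t, ht, rfl⟩ := hy
        exact ⟨⟨t, Algebra.subset_adjoin ht⟩, rfl⟩
      | algebraMap r =>
        refine ⟨algebraMap R _ r, Subtype.ext ?_⟩
        change algebraMap F L (algebraMap R F r) = algebraMap R L r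
        rw [← IsScalarTower.algebraMap_apply]
      | add y z hy' hz' hy hz =>
        obtain ⟨cy, hcy⟩ := hy
        obtain ⟨cz, hcz⟩ := hz
        refine ⟨cy + cz, ?_⟩
        rw [map_add, hcy, hcz]
        rfl
      | mul y z hy' hz' hy hz =>
        obtain ⟨cy, hcy⟩ := hy
        obtain ⟨cz, hcz⟩ := hz
        refine ⟨cy * cz, ?_⟩
        rw [map_mul, hcy, hcz]
        rfl
    have hpl : p ∈ Polynomial.lifts ψ := by
      rw [Polynomial.mem_lifts]
      exact Polynomial.map_surjective ψ hψ p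
    obtain ⟨q₀, hq₀, -, hq₀m⟩ := Polynomial.lifts_and_degree_eq_and_monic hpl hpm
    -- the inclusion `R[T_F] → chart_F`
    let j : Algebra.adjoin R TF →+* chart R TF :=
      (Subalgebra.inclusion (Fermat.Agent.S18.H138.adjoin_le_chart TF)).toRingHom
    refine ⟨q₀.map j, hq₀m.map j, ?_⟩
    apply Subtype.ext
    have h1 : ((Polynomial.eval₂ ι b (q₀.map j) : chart R (algebraMap F L '' TF)) : L) =
        Polynomial.eval₂ ((chart R (algebraMap F L '' TF)).val.toRingHom.comp ι) (b : L)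
          (q₀.map j) :=
      Polynomial.hom_eval₂ (q₀.map j) ι ((chart R (algebraMap F L '' TF)).val.toRingHom) b
    rw [h1, Polynomial.eval₂_map]
    have h2 : ((chart R (algebraMap F L '' TF)).val.toRingHom.comp ι).comp j =
        (algebraMap (Algebra.adjoin R (algebraMap F L '' TF)) L).comp ψ := by
      ext a
      change ((ι (j a) : chart R (algebraMap F L '' TF)) : L) = algebraMap F L (a : F)
      rw [hι]
      rfl
    rw [h2, ← Polynomial.eval₂_map, hq₀, hp]
    rfl
  have := h𝔫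
  exact Ideal.isMaximal_comap_of_isIntegral_of_isMaximal' ι hint 𝔫

end Charts

section Asm

variable {R : Type u} [CommRing R] {F : Type u} [Field F] [Algebra R F]
variable {L : Type u} [Field L] [Algebra F L] [Algebra R L] [IsScalarTower R F L]

/-- A semilinear automorphism fixing `x` preserves the charts of `F`. -/
theorem symm_mem_chart (x : F) (φ : F ≃+* F) (φR : R ≃+* R)
    (hφx : φ x = x) (hφR : ∀ r, φ (algebraMap R F r) = algebraMap R F (φR r))
    {T : Set F} (hT : T = {x} ∨ T = {x⁻¹}) {c : F} (hc : c ∈ chart R T) :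
    φ.symm c ∈ chart R T := by
  have hxs : φ.symm x = x := by rw [RingEquiv.symm_apply_eq, hφx]
  refine chart_map_mem (T := T) (φ.symm : F →+* F) (fun r => ⟨φR.symm r, ?_⟩) ?_ hc
  · change φ.symm (algebraMap R F r) = _
    rw [RingEquiv.symm_apply_eq, hφR, RingEquiv.apply_symm_apply]
  · intro t ht
    rcases hT with rfl | rfl
    · rw [Set.mem_singleton_iff] at ht
      subst ht
      change φ.symm t ∈ _
      rw [hxs]
      exact Algebra.subset_adjoin rfl
    · rw [Set.mem_singleton_iff] at ht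
      subst ht
      change φ.symm x⁻¹ ∈ _
      rw [map_inv₀, hxs]
      exact Algebra.subset_adjoin rfl

/-- **The node step.**  A crossing point `𝔫` of the cover chart lying on a `φ'`-fixed sheet `W`
is mapped into itself by `φ'⁻¹`. -/
theorem node_step (w : R) (x : F) (φ : F ≃+* F) (φR : R ≃+* R)
    (hφx : φ x = x) (hφR : ∀ r, φ (algebraMap R F r) = algebraMap R F (φR r))
    (hFix : NodesFixed w x φ)
    (φ' : L ≃+* L) (hφ' : ∀ f : F, φ' (algebraMap F L f) = algebraMap F L (φ f))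
    (TF : Set F) (hTF : TF = {x} ∨ TF = {x⁻¹}) (TL : Set L) (hTL : TL = algebraMap F L '' TF)
    (hCount : CountAt L w x TL)
    (hφchart : ∀ b, b ∈ chart R TL ↔ φ' b ∈ chart R TL)
    (W W' : ValuationSubring L) (hW : IsSheet w (algebraMap F L x) W)
    (hW' : IsSheet w (algebraMap F L x) W') (hne : W ≠ W')
    (hsurj : ∀ b ∈ chart R TL, ∃ c ∈ chart R TF, b - algebraMap F L c ∈ W.nonunits)
    (hWfix : ∀ b, b ∈ W.nonunits ↔ φ' b ∈ W.nonunits)
    (𝔫 : Ideal (chart R TL)) (h𝔫 : 𝔫.IsMaximal)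
    (hWn : ∀ c : chart R TL, (c : L) ∈ W.nonunits → c ∈ 𝔫)
    (hW'n : ∀ c : chart R TL, (c : L) ∈ W'.nonunits → c ∈ 𝔫)
    (c : chart R TL) (hc : c ∈ 𝔫) (h : φ'.symm (c : L) ∈ chart R TL) :
    (⟨φ'.symm (c : L), h⟩ : chart R TL) ∈ 𝔫 := by
  have hmemL : ∀ c₀ : F, c₀ ∈ chart R TF → algebraMap F L c₀ ∈ chart R TL := by
    intro c₀ hc₀
    rw [hTL]
    exact algebraMap_mem_chart_image hc₀
  -- the inclusion of charts
  let ι : chart R TF →+* chart R TL :=
    { toFun := fun c₀ => ⟨algebraMap F L (c₀ : F), hmemL _ c₀.2⟩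
      map_one' := Subtype.ext (map_one _)
      map_mul' := fun a b => Subtype.ext (map_mul _ _ _)
      map_zero' := Subtype.ext (map_zero _)
      map_add' := fun a b => Subtype.ext (map_add _ _ _) }
  have hι : ∀ c₀ : chart R TF, ((ι c₀ : chart R TL) : L) = algebraMap F L (c₀ : F) :=
    fun _ => rfl
  have hmax : (𝔫.comap ι).IsMaximal := isMaximal_comap_chart hTL ι hι 𝔫 h𝔫
  -- decompose `c`
  obtain ⟨c₀, hc₀, hc₀W⟩ := hsurj c c.2
  have ha : (c - ι ⟨c₀, hc₀⟩ : chart R TL) ∈ 𝔫 := hWn _ hc₀W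
  have hc₀n : (⟨c₀, hc₀⟩ : chart R TF) ∈ 𝔫.comap ι := by
    rw [Ideal.mem_comap]
    have : ι ⟨c₀, hc₀⟩ = c - (c - ι ⟨c₀, hc₀⟩) := by ring
    rw [this]
    exact 𝔫.sub_mem hc ha
  -- the sheets below
  have hV := IsSheet.comap_algebraMap hW
  have hV' := IsSheet.comap_algebraMap hW'
  have hVne : W.comap (algebraMap F L) ≠ W'.comap (algebraMap F L) := fun hVV =>
    hne (hCount 𝔫 h𝔫 W W' hW hW' hVV hWn hW'n)
  have hVn : ∀ d : chart R TF, (d : F) ∈ (W.comap (algebraMap F L)).nonunits →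
      d ∈ 𝔫.comap ι := by
    intro d hd
    rw [Ideal.mem_comap]
    exact hWn _ ((mem_nonunits_comap W (algebraMap F L) _).1 hd)
  have hV'n : ∀ d : chart R TF, (d : F) ∈ (W'.comap (algebraMap F L)).nonunits →
      d ∈ 𝔫.comap ι := by
    intro d hd
    rw [Ideal.mem_comap]
    exact hW'n _ ((mem_nonunits_comap W' (algebraMap F L) _).1 hd)
  have hsymm₀ : φ.symm c₀ ∈ chart R TF := symm_mem_chart x φ φR hφx hφR hTF hc₀
  have h1 := hFix TF hTF (𝔫.comap ι) hmax _ _ hV hV' hVne hVn hV'n ⟨c₀, hc₀⟩ hc₀n hsymm₀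
  rw [Ideal.mem_comap] at h1
  -- the part in the sheet
  have hsymm_chart : ∀ b, b ∈ chart R TL → φ'.symm b ∈ chart R TL := by
    intro b hb
    rw [hφchart]
    simpa using hb
  have h2mem : φ'.symm ((c : L) - algebraMap F L c₀) ∈ chart R TL :=
    hsymm_chart _ (Subalgebra.sub_mem _ c.2 (hmemL _ hc₀))
  have h2 : (⟨φ'.symm ((c : L) - algebraMap F L c₀), h2mem⟩ : chart R TL) ∈ 𝔫 := by
    apply hWn
    change φ'.symm ((c : L) - algebraMap F L c₀) ∈ W.nonunits
    rw [hWfix]
    simpa using hc₀W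
  have h3 : (⟨φ'.symm (c : L), h⟩ : chart R TL) =
      ι ⟨φ.symm c₀, hsymm₀⟩ + ⟨φ'.symm ((c : L) - algebraMap F L c₀), h2mem⟩ := by
    apply Subtype.ext
    change φ'.symm (c : L) = algebraMap F L (φ.symm c₀) + φ'.symm ((c : L) - algebraMap F L c₀)
    rw [map_sub, lift_symm_algebraMap φ φ' hφ']
    ring
  rw [h3]
  exact 𝔫.add_mem h1 h2

/-- **Frobenius ALG core.**  Cover `L / F` with the leaf conclusions, lift `φ'` of `φ` fixing
the sheet `W₀`: then `φ g / g ^ Q ∈ F ^ m` for every `g` with an `m`-th root in `L`. -/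
theorem algF_core [IsDomain R] [IsNoetherianRing R] [IsIntegrallyClosed R[X]] [CharZero F]
    (w : R) (x : F) (m Q : ℕ) (φ : F ≃+* F) (φR : R ≃+* R)
    (hinj : Function.Injective (algebraMap R F)) (hx : Transcendental R x) (hw : Prime w)
    (hm : 0 < m) (hroot : ∃ ζ : R, IsPrimitiveRoot ζ m ∧ φR ζ = ζ ^ Q)
    (hφx : φ x = x) (hφR : ∀ r, φ (algebraMap R F r) = algebraMap R F (φR r))
    (hφw : ∀ r, w ∣ r ↔ w ∣ φR r)
    (hφV : ∀ V : ValuationSubring F, IsSheet w x V → ∀ c : F, (c ∈ V ↔ φ c ∈ V))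
    (hFix : NodesFixed w x φ)
    [FiniteDimensional F L] [IsGalois F L]
    (hS : SheetsConclusion L w x) (hRed : RedConclusion L w x)
    (hConst : ConstConclusion (R := R) L x) (hCount : CountConclusion L w x)
    (hSurj : SurjConclusion L w x)
    (φ' : L ≃+* L) (hφ' : ∀ f : F, φ' (algebraMap F L f) = algebraMap F L (φ f))
    (W₀ : ValuationSubring L) (hW₀ : IsSheet w (algebraMap F L x) W₀)
    (hfix : ∀ b, b ∈ W₀ ↔ φ' b ∈ W₀)
    (g : F) (hg : g ≠ 0) (y : L) (hy : y ^ m = algebraMap F L g) :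
    ∃ z : F, φ g = z ^ m * g ^ Q := by
  classical
  set xL : L := algebraMap F L x with hxL
  let S := ↥{W : ValuationSubring L | IsSheet w xL W}
  have : Fintype S := hS.finite.fintype
  let M : S → AddSubgroup L := fun s => s.1.nonunits.toAddSubgroup
  have hι : Function.Injective (algebraMap F L) := (algebraMap F L).injective
  have hinjL : Function.Injective (algebraMap R L) := by
    rw [IsScalarTower.algebraMap_eq R F L]
    exact hι.comp hinj
  have : CharZero L := charZero_of_injective_algebraMap hι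
  have := hConst.finite
  have hxLt : Transcendental R xL := (transcendental_algebraMap_iff hι).2 hx
  have hy0 : y ≠ 0 := by
    rintro rfl
    rw [zero_pow hm.ne'] at hy
    exact hg (hι (by rw [← hy, map_zero]))
  have hιg : algebraMap F L g ≠ 0 := fun h => hg (hι (by rw [h, map_zero]))
  -- roots of unity
  have hζ : ∀ σ ∈ galSubgroup F L, ∃ ζ : L, σ y = ζ * y ∧ φ' ζ = ζ ^ Q := by
    intro σ hσ
    obtain ⟨ζ₀, hζ₀, hφζ₀⟩ := hroot
    have hprim : IsPrimitiveRoot (algebraMap R L ζ₀) m := hζ₀.map_of_injective hinjL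
    have hpow : (σ y / y) ^ m = 1 := by
      rw [div_pow, ← map_pow, hy, hσ g, div_self hιg]
    have : NeZero m := ⟨hm.ne'⟩
    obtain ⟨i, -, hi⟩ := hprim.eq_pow_of_pow_eq_one hpow
    refine ⟨σ y / y, by field_simp, ?_⟩
    rw [← hi, map_pow, lift_algebraMap_R φ φR hφR φ' hφ', hφζ₀, map_pow, ← pow_mul, ← pow_mul,
      mul_comm]
  have hchart_fin := lift_chart_iff (L := L) x φ φR hφx hφR φ' hφ' {xL}
    (Set.singleton_subset_iff.2 (Or.inl rfl))
  have hchart_inf := lift_chart_iff (L := L) x φ φR hφx hφR φ' hφ' {xL⁻¹}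
    (Set.singleton_subset_iff.2 (Or.inr rfl))
  have key := wallF (R := R) (L := L) (S := S) w (chart R {xL}) (chart R {xL⁻¹})
    (chart R {xL, xL⁻¹}) M
    (fun s c hc a ha => mul_mem_nonunits s.1 ha (s.2.chart_le Set.Subset.rfl hc))
    (Fermat.Agent.S18.H138.chart_mono (Set.singleton_subset_iff.2 (Or.inl rfl)))
    (Fermat.Agent.S18.H138.chart_mono (Set.singleton_subset_iff.2 (Or.inr rfl)))
    (fun s => one_not_mem_nonunits s.1)
    (fun s => s.2.2.2.1)
    (fun b hb h => hRed _ (Or.inr (Or.inr rfl)) b hb (fun W hW => h ⟨W, hW⟩))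
    (fun b hb h => hRed _ (Or.inl rfl) b hb (fun W hW => h ⟨W, hW⟩))
    (fun b hb h => hRed _ (Or.inr (Or.inl rfl)) b hb (fun W hW => h ⟨W, hW⟩))
    (fun e₁ e₂ he₁ he₂ h1 h2 h12 =>
      Fermat.Agent.S18.H138.connected_special_fibre hinjL hConst.closed hxLt w hw e₁ e₂ he₁ he₂
        h1 h2 h12)
    φ' hchart_fin hchart_inf
    (fun s => ⟨⟨s.1.comap (φ'.symm : L →+* L), lift_isSheet w x φ φR hφx hφR hφw φ' hφ' s.2⟩,
      fun b => by
        change b ∈ s.1.nonunits ↔ φ' b ∈ (s.1.comap (φ'.symm : L →+* L)).nonunits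
        rw [mem_nonunits_comap]
        simp⟩)
    (fun s t hst => by
      apply Subtype.ext
      apply ValuationSubring.nonunits_injective
      ext b
      have := congrArg (fun A : AddSubgroup L => b ∈ A) hst
      exact iff_of_eq this)
    (col := fun s : S => s.1.comap (algebraMap F L))
    (fun s s' h => by
      have hmem := mem_iff_of_nonunits_iff φ' s.1 s'.1 h
      have hV := (IsSheet.comap_algebraMap s.2)
      ext f
      have h1 := hmem (algebraMap F L (φ.symm f))
      rw [hφ', RingEquiv.apply_symm_apply] at h1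
      have h2 := hφV _ hV (φ.symm f)
      rw [RingEquiv.apply_symm_apply] at h2
      rw [ValuationSubring.mem_comap, ← h1, ← ValuationSubring.mem_comap, h2])
    (fun s t hs hst 𝔫 h𝔫 hsn htn c hc h =>
      node_step w x φ φR hφx hφR hFix φ' hφ' {x} (Or.inl rfl) {xL}
        (by rw [Set.image_singleton]) hCount.1 hchart_fin s.1 t.1 s.2 t.2
        (fun hst' => hst (Subtype.ext hst')) (hSurj s.1 s.2).1 hs 𝔫 h𝔫 hsn htn c hc h)
    (fun s t hs hst 𝔫 h𝔫 hsn htn c hc h =>
      node_step w x φ φR hφx hφR hFix φ' hφ' {x⁻¹} (Or.inr rfl) {xL⁻¹}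
        (by rw [Set.image_singleton, map_inv₀]) hCount.2 hchart_inf s.1 t.1 s.2 t.2
        (fun hst' => hst (Subtype.ext hst')) (hSurj s.1 s.2).2 hs 𝔫 h𝔫 hsn htn c hc h)
    (fun 𝔫 h𝔫 s t hc hs ht => Subtype.ext (hCount.1 𝔫 h𝔫 s.1 t.1 s.2 t.2 hc hs ht))
    (fun 𝔫 h𝔫 s t hc hs ht => Subtype.ext (hCount.2 𝔫 h𝔫 s.1 t.1 s.2 t.2 hc hs ht))
    ⟨W₀, hW₀⟩ (nonunits_iff_of_mem_iff φ' W₀ W₀ hfix)
    (galSubgroup F L)
    (fun σ hσ s => ⟨⟨s.1.comap (σ.symm : L →+* L), gal_isSheet w x σ hσ s.2⟩, fun b => by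
        change b ∈ s.1.nonunits ↔ σ b ∈ (s.1.comap (σ.symm : L →+* L)).nonunits
        rw [mem_nonunits_comap]
        simp⟩)
    (fun σ hσ s h => by
      have hmem := mem_iff_of_nonunits_iff σ s.1 s.1 h
      have h1 := hS.free s.1 s.2 (AlgEquiv.ofRingEquiv (f := σ) hσ) hmem
      ext b
      have := congrArg (fun f : L ≃ₐ[F] L => f b) h1
      exact this)
    (fun σ hσ f => by
      change φ' (σ (φ'.symm (algebraMap F L f))) = algebraMap F L f
      rw [lift_symm_algebraMap φ φ' hφ', hσ, hφ', RingEquiv.apply_symm_apply])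
    y hy0 Q hζ
  -- conclusion
  have hz : φ' y / y ^ Q ∈ (⊥ : IntermediateField F L) := by
    rw [IsGalois.mem_bot_iff_fixed]
    intro f
    exact key (f : L ≃+* L) (fun c => f.commutes c)
  obtain ⟨z, hz⟩ := IntermediateField.mem_bot.1 hz
  refine ⟨z, hι ?_⟩
  have hyQ : y ^ Q ≠ 0 := pow_ne_zero _ hy0
  rw [map_mul, map_pow, map_pow, hz, div_pow, ← hy, ← pow_mul, ← pow_mul, mul_comm Q m,
    div_mul_cancel₀ _ (pow_ne_zero _ hy0), ← map_pow, hy, hφ']

/-- **Frobenius ALG assembly.**  From the leaf conclusions SHEETS, RED, CONST, COUNT, SURJ (for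
all Kummer-split covers of `F`) and a cover to which `φ` lifts (COVER): `φ g / g ^ Q` is an
`m`-th power in `F`. -/
theorem algF [IsDomain R] [IsNoetherianRing R] [IsIntegrallyClosed R[X]] [CharZero F]
    (w : R) (x : F) (m Q : ℕ) (φ : F ≃+* F) (φR : R ≃+* R)
    (hinj : Function.Injective (algebraMap R F)) (hx : Transcendental R x) (hw : Prime w)
    (hm : 0 < m) (hroot : ∃ ζ : R, IsPrimitiveRoot ζ m ∧ φR ζ = ζ ^ Q)
    (hφx : φ x = x) (hφR : ∀ r, φ (algebraMap R F r) = algebraMap R F (φR r))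
    (hφw : ∀ r, w ∣ r ↔ w ∣ φR r)
    (hφV : ∀ V : ValuationSubring F, IsSheet w x V → ∀ c : F, (c ∈ V ↔ φ c ∈ V))
    (hFix : NodesFixed w x φ)
    (hsheet : ∃ V : ValuationSubring F, IsSheet w x V)
    (hSheets : ∀ (L : Type u) [Field L] [Algebra F L] [Algebra R L] [IsScalarTower R F L],
      IsKummerSplit L w x m → SheetsConclusion L w x)
    (hRed : ∀ (L : Type u) [Field L] [Algebra F L] [Algebra R L] [IsScalarTower R F L],
      IsKummerSplit L w x m → RedConclusion L w x)
    (hConst : ∀ (L : Type u) [Field L] [Algebra F L] [Algebra R L] [IsScalarTower R F L],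
      IsKummerSplit L w x m → ConstConclusion (R := R) L x)
    (hCount : ∀ (L : Type u) [Field L] [Algebra F L] [Algebra R L] [IsScalarTower R F L],
      IsKummerSplit L w x m → CountConclusion L w x)
    (hSurj : ∀ (L : Type u) [Field L] [Algebra F L] [Algebra R L] [IsScalarTower R F L],
      IsKummerSplit L w x m → SurjConclusion L w x)
    (g : F) (hg : g ≠ 0) (hCover : CoverConclusion w x m φ g) :
    ∃ z : F, φ g = z ^ m * g ^ Q := by
  obtain ⟨L, _, _, _, _, hKS, φ₀, y, hφ₀, hy⟩ := hCover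
  have := hKS.finite
  have := hKS.galois
  have S1 := hSheets L hKS
  obtain ⟨V₀, hV₀⟩ := hsheet
  obtain ⟨W₀, hW₀, -⟩ := S1.exists_over V₀ hV₀
  have hW₁ : IsSheet w (algebraMap F L x) (W₀.comap (φ₀.symm : L →+* L)) :=
    lift_isSheet w x φ φR hφx hφR hφw φ₀ hφ₀ hW₀
  have hcol : (W₀.comap (φ₀.symm : L →+* L)).comap (algebraMap F L) =
      W₀.comap (algebraMap F L) := by
    ext f
    have h2 := hφV _ (IsSheet.comap_algebraMap hW₀) (φ.symm f)
    rw [RingEquiv.apply_symm_apply] at h2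
    rw [ValuationSubring.mem_comap, ValuationSubring.mem_comap]
    change φ₀.symm (algebraMap F L f) ∈ W₀ ↔ _
    rw [lift_symm_algebraMap φ φ₀ hφ₀, ← ValuationSubring.mem_comap, h2]
  obtain ⟨σ, hσ⟩ := S1.trans _ W₀ hW₁ hW₀ hcol
  refine algF_core (L := L) w x m Q φ φR hinj hx hw hm hroot hφx hφR hφw hφV hFix S1
    (hRed L hKS) (hConst L hKS) (hCount L hKS) (hSurj L hKS) (φ₀.trans (σ : L ≃+* L)) ?_ W₀ hW₀
    ?_ g hg y hy
  · intro f
    change σ (φ₀ (algebraMap F L f)) = _
    rw [hφ₀, σ.commutes]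
  · intro b
    change b ∈ W₀ ↔ σ (φ₀ b) ∈ W₀
    rw [← hσ, ValuationSubring.mem_comap]
    change _ ↔ φ₀.symm (φ₀ b) ∈ W₀
    rw [RingEquiv.symm_apply_apply]

end Asm

end Fermat.Agent.S35.H891

end
-- ===== PACK-END S35/H891/FrobAsm.lean

-- ===== PACK-BEGIN S24/Mod/H997Core.lean
section


/-!
# S24 / MOD — the analytic interface `AnalyticCore N` and the assembly of the modular package

`AnalyticCore N` is the complete list of analytic facts needed (besides the degree bound
`[FF N : ℚ̄(j)] ≤ |SL₂(ℤ)/Γ₀(N)|`) to produce all the `LocalData` of helper984's interface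
`ModularPackage N`.
-/

set_option autoImplicit false

noncomputable section

open ModularCurve HahnSeries UpperHalfPlane
open scoped MatrixGroups

namespace Fermat.Agent.S24.H997

variable {N : ℕ} [NeZero N]

/-- Local data at a point of `ℍ` lying over `a = J(τ₀)`: an expansion (Taylor expansion at `τ₀`),
rotation data for the stabilising element `ε`, and the order of vanishing of `J - a`. -/
structure PointData (B : HolBase N) (a : ℂ) (ε : SL(2, ℤ)) where
  X : Expansion B
  R : RotData B X ε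
  order_J : (X.E (B.JH 1 (one_dvd N) - B.constH a)).order = (R.m : ℤ)

/-- **The analytic interface.** -/
structure AnalyticCore (N : ℕ) [NeZero N] extends HolBase N where
  /-- generic points: `J - a` has a simple zero at some `τ₀` -/
  generic : ∀ a : ℂ, a ≠ 0 → a ≠ 1728 → PointData toHolBase a 1

  /-- the point `i` over `1728`, rotation by `S` -/
  at1728 : PointData toHolBase 1728 ModularGroup.S
  /-- the point `ρ` over `0`, rotation by `S * T` -/
  at0 : PointData toHolBase 0 (ModularGroup.S * ModularGroup.T)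
  /-- the cusp `∞`: `qexp (h ∘ T)` is `qexp h` with `z` replaced by `ζ z` -/
  infζ : ℂ
  inf_hζ : IsPrimitiveRoot infζ N
  inf_shift : ∀ (h : Hol) (n : ℤ),
    (qexp (toHolBase.compH ModularGroup.T h)).coeff n = infζ ^ n * (qexp h).coeff n

namespace HolBase

variable (B : HolBase N)

/-- the expansion at `∞` -/
def qexpExpansion : Expansion B := ⟨B.qexp, B.qexp_injective, B.qexp_const⟩

theorem qexp_J_one_coeff (k : ℤ) :
    (B.qexp (B.JH 1 (one_dvd N))).coeff k
      = if (N : ℤ) ∣ k then ((jq.coeff (k / (N : ℤ)) : ℚ) : ℂ) else 0 := by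
  have := B.qexp_J 1 (one_dvd N) k
  simpa [JH] using this

theorem qexp_J_one_ne_zero : B.qexp (B.JH 1 (one_dvd N)) ≠ 0 := by
  apply ne_zero_of_coeff_ne_zero (g := -(N : ℤ))
  rw [qexp_J_one_coeff, if_pos (dvd_neg.mpr dvd_rfl)]
  have hN : (N : ℤ) ≠ 0 := by exact_mod_cast NeZero.ne N
  rw [Int.neg_ediv_of_dvd dvd_rfl, Int.ediv_self hN, coeff_jq_neg_one]
  simp

theorem order_qexp_J_one : (B.qexp (B.JH 1 (one_dvd N))).order = -(N : ℤ) := by
  have hN : (N : ℤ) ≠ 0 := by exact_mod_cast NeZero.ne N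
  have hNpos : (0 : ℤ) < N := by exact_mod_cast Nat.pos_of_ne_zero (NeZero.ne N)
  apply le_antisymm
  · apply order_le_of_coeff_ne_zero
    rw [qexp_J_one_coeff, if_pos (dvd_neg.mpr dvd_rfl)]
    rw [Int.neg_ediv_of_dvd dvd_rfl, Int.ediv_self hN, coeff_jq_neg_one]
    simp
  · by_contra hlt
    replace hlt := lt_of_not_ge hlt
    have h0 := coeff_order_eq_zero.not.mpr B.qexp_J_one_ne_zero
    apply h0
    rw [qexp_J_one_coeff]
    split_ifs with hdvd
    · obtain ⟨m, hm⟩ := hdvd
      rw [hm, Int.mul_ediv_cancel_left _ hN]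
      have : m < -1 := by
        rw [hm] at hlt
        by_contra hge
        replace hge := le_of_not_gt hge
        have : (N : ℤ) * m ≥ N * (-1) := mul_le_mul_of_nonneg_left hge hNpos.le
        linarith
      rw [coeff_jq_of_lt this]
      simp
    · rfl

end HolBase

/-- Rotation data from a coefficientwise statement `coeff_n (E (h ∘ ε)) = ζ^n coeff_n (E h)`. -/
def RotData.ofCoeff (B : HolBase N) (X : Expansion B) (ε : SL(2, ℤ)) (m : ℕ) (m_pos : 0 < m)
    (ζ : ℂ) (hζ : IsPrimitiveRoot ζ m)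
    (h : ∀ (f : B.Hol) (n : ℤ), (X.E (B.compH ε f)).coeff n = ζ ^ n * (X.E f).coeff n) :
    RotData B X ε where
  m := m
  m_pos := m_pos
  ζ := ζ
  hζ := hζ
  rot f := by
    have hζ0 : ζ ≠ 0 := hζ.ne_zero m_pos.ne'
    by_cases hf : X.E f = 0
    · have : X.E (B.compH ε f) = 0 := by
        ext n; rw [h, hf]; simp
      rw [hf, this]; exact RotRel.zero
    · have hf' : X.E (B.compH ε f) ≠ 0 := by
        intro h0
        apply hf
        ext n
        have := congrArg (fun s => s.coeff n) h0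
        simp only [h, coeff_zero, mul_eq_zero, zpow_ne_zero n hζ0, false_or] at this
        simpa using this
      have hord : (X.E (B.compH ε f)).order = (X.E f).order := by
        apply le_antisymm
        · apply order_le_of_coeff_ne_zero
          rw [h]
          exact mul_ne_zero (zpow_ne_zero _ hζ0) (coeff_order_eq_zero.not.mpr hf)
        · apply order_le_of_coeff_ne_zero
          have := coeff_order_eq_zero.not.mpr hf'
          rw [h] at this
          exact right_ne_zero_of_mul this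
      refine ⟨hord, ?_⟩
      rw [leadingCoeff_eq, leadingCoeff_eq, hord, h]

theorem numOrbits_inv {X : Type*} (π : Equiv.Perm X) : numOrbits π⁻¹ = numOrbits π := by
  unfold numOrbits
  rw [Subgroup.zpowers_inv]

theorem permOf_inv (N : ℕ) [NeZero N] (g : SL(2, ℤ)) : permOf N g⁻¹ = (permOf N g)⁻¹ := by
  ext x
  simp [permOf]

theorem permOf_one (N : ℕ) [NeZero N] : permOf N 1 = 1 := by
  ext x
  simp [permOf]

namespace AnalyticCore

variable (A : AnalyticCore N)

/-- rotation data at the cusp -/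
def infRot : RotData A.toHolBase A.toHolBase.qexpExpansion ModularGroup.T :=
  RotData.ofCoeff A.toHolBase A.toHolBase.qexpExpansion ModularGroup.T N
    (Nat.pos_of_ne_zero (NeZero.ne N)) A.infζ A.inf_hζ A.inf_shift

/-- the local data at `∞` -/
def dataInf : LocalData Kbar (FF N) ℂ (XX N) (jF N)⁻¹ :=
  A.toHolBase.mkLocalData A.toHolBase.qexpExpansion ModularGroup.T A.infRot (jF N)⁻¹
    (A.qexp (A.toHolBase.JH 1 (one_dvd N)))⁻¹
    (fun g => by rw [map_inv₀, HolBase.sigmaG_jF]; rfl)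
    (by
      rw [RotRel.order_inv' A.toHolBase.qexp_J_one_ne_zero, A.toHolBase.order_qexp_J_one, neg_neg]
      rfl)

theorem sigmaG_sub {a : Kbar} {ε : SL(2, ℤ)} (P : PointData A.toHolBase (ιK a) ε)
    (g : SL(2, ℤ)) :
    A.toHolBase.sigmaG P.X g (jF N - algebraMap Kbar (FF N) a)
      = P.X.E (A.toHolBase.JH 1 (one_dvd N) - A.toHolBase.constH (ιK a)) := by
  rw [map_sub, HolBase.sigmaG_jF, HolBase.sigmaG_algebraMap, map_sub, P.X.const]

/-- the local data attached to point data over `a` -/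
def dataOfPoint {a : Kbar} {ε : SL(2, ℤ)} (P : PointData A.toHolBase (ιK a) ε) :
    LocalData Kbar (FF N) ℂ (XX N) (jF N - algebraMap Kbar (FF N) a) :=
  A.toHolBase.mkLocalData P.X ε P.R _ _ (fun g => A.sigmaG_sub P g) P.order_J

/-- all the embeddings `σ_x` agree on `ℚ̄(j)` -/
theorem sigmaX_eq_on_adjoin (X : Expansion A.toHolBase) (x y : XX N) {f : FF N}
    (hf : f ∈ IntermediateField.adjoin Kbar {jF N}) :
    A.toHolBase.sigmaX X x f = A.toHolBase.sigmaX X y f := by
  induction hf using IntermediateField.adjoin_induction with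
  | mem z hz =>
      rw [Set.mem_singleton_iff] at hz
      subst hz
      show A.toHolBase.sigmaG X _ (jF N) = A.toHolBase.sigmaG X _ (jF N)
      rw [HolBase.sigmaG_jF, HolBase.sigmaG_jF]
  | algebraMap c =>
      show A.toHolBase.sigmaG X _ _ = A.toHolBase.sigmaG X _ _
      rw [HolBase.sigmaG_algebraMap, HolBase.sigmaG_algebraMap]
  | add z w _ _ hz hw => rw [map_add, map_add, hz, hw]
  | inv z _ hz => rw [map_inv₀, map_inv₀, hz]
  | mul z w _ _ hz hw => rw [map_mul, map_mul, hz, hw]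

/-- lower bound for the degree: `|SL₂(ℤ)/Γ₀(N)| ≤ [FF N : ℚ̄(j)]`. -/
theorem card_le_finrank (A : AnalyticCore N)
    [FiniteDimensional ↥(IntermediateField.adjoin Kbar {jF N}) (FF N)] :
    Nat.card (XX N) ≤ Module.finrank ↥(IntermediateField.adjoin Kbar {jF N}) (FF N) := by
  classical
  set E := IntermediateField.adjoin Kbar {jF N} with hE
  let X := A.toHolBase.qexpExpansion
  let x0 : XX N := ((1 : SL(2, ℤ)) : XX N)
  let ψ : ↥E →+* LaurentSeries ℂ := (A.toHolBase.sigmaX X x0).comp (algebraMap ↥E (FF N))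
  letI : Algebra ↥E (LaurentSeries ℂ) := ψ.toAlgebra
  let a : XX N → (FF N →ₐ[↥E] LaurentSeries ℂ) := fun x =>
    { A.toHolBase.sigmaX X x with
      commutes' := fun y => A.sigmaX_eq_on_adjoin X x x0 y.2 }
  have ha : Function.Injective a := by
    intro x y hxy
    apply A.toHolBase.sigmaX_injective X
    refine RingHom.ext fun f => ?_
    exact congrArg (fun φ : FF N →ₐ[↥E] LaurentSeries ℂ => φ f) hxy
  haveI : Module.Free ↥E (FF N) := Module.Free.of_divisionRing ↥E (FF N)
  haveI : Module.Finite ↥E (FF N) := ‹FiniteDimensional ↥E (FF N)›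
  haveI : Finite (FF N →ₐ[↥E] LaurentSeries ℂ) := Finite.algHom ↥E (FF N) (LaurentSeries ℂ)
  calc Nat.card (XX N) ≤ Nat.card (FF N →ₐ[↥E] LaurentSeries ℂ) :=
        Nat.card_le_card_of_injective a ha
    _ ≤ Module.finrank ↥E (FF N) := card_algHom_le_finrank ↥E (FF N) (LaurentSeries ℂ)

/-- the local data over a finite point `a : ℚ̄` -/
def dataFin (a : Kbar) : LocalData Kbar (FF N) ℂ (XX N) (jF N - algebraMap Kbar (FF N) a) :=
  letI := Classical.propDecidable
  if h0 : a = 0 then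
    A.dataOfPoint (a := a) (ε := ModularGroup.S * ModularGroup.T)
      (by rw [h0, map_zero]; exact A.at0)
  else if h1 : a = 1728 then
    A.dataOfPoint (a := a) (ε := ModularGroup.S)
      (by
        have : ιK a = 1728 := by rw [h1]; exact map_ofNat ιK 1728
        rw [this]; exact A.at1728)
  else
    A.dataOfPoint (a := a) (ε := 1)
      (A.generic (ιK a)
        (fun h => h0 (ιK_injective (by rw [h, map_zero])))
        (fun h => h1 (ιK_injective (by rw [h]; exact (map_ofNat ιK 1728).symm))))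

theorem dataFin_perm_generic (a : Kbar) (h0 : a ≠ 0) (h1 : a ≠ 1728) :
    (A.dataFin a).perm = 1 := by
  unfold dataFin
  rw [dif_neg h0, dif_neg h1]
  show permOf N 1⁻¹ = 1
  rw [inv_one, permOf_one]

theorem dataFin_zero_perm :
    numOrbits (A.dataFin 0).perm = numOrbits (permOf N (ModularGroup.S * ModularGroup.T)) := by
  unfold dataFin
  rw [dif_pos rfl]
  show numOrbits (permOf N (ModularGroup.S * ModularGroup.T)⁻¹) = _
  rw [permOf_inv, numOrbits_inv]

theorem dataFin_1728_perm :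
    numOrbits (A.dataFin 1728).perm = numOrbits (permOf N ModularGroup.S) := by
  have h0 : (1728 : Kbar) ≠ 0 := by norm_num
  unfold dataFin
  rw [dif_neg h0, dif_pos rfl]
  show numOrbits (permOf N ModularGroup.S⁻¹) = _
  rw [permOf_inv, numOrbits_inv]

theorem dataInf_perm :
    numOrbits A.dataInf.perm = numOrbits (permOf N ModularGroup.T) := by
  show numOrbits (permOf N ModularGroup.T⁻¹) = _
  rw [permOf_inv, numOrbits_inv]

/-- **Assembly.**  All fields of helper984's `ModularPackage N` from the analytic core and the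
degree bound. -/
theorem modularPackage_fields (A : AnalyticCore N)
    (hfd : FiniteDimensional ↥(IntermediateField.adjoin Kbar {jF N}) (FF N))
    (hle : Module.finrank ↥(IntermediateField.adjoin Kbar {jF N}) (FF N) ≤ Nat.card (XX N)) :
    ∃ (dataFin : ∀ a : Kbar, LocalData Kbar (FF N) ℂ (XX N) (jF N - algebraMap Kbar (FF N) a))
      (dataInf : LocalData Kbar (FF N) ℂ (XX N) (jF N)⁻¹),
      Module.finrank ↥(IntermediateField.adjoin Kbar {jF N}) (FF N) = Nat.card (XX N) ∧
      (∀ a : Kbar, a ≠ 0 → a ≠ 1728 → (dataFin a).perm = 1) ∧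
      numOrbits (dataFin 0).perm = numOrbits (permOf N (ModularGroup.S * ModularGroup.T)) ∧
      numOrbits (dataFin 1728).perm = numOrbits (permOf N ModularGroup.S) ∧
      numOrbits dataInf.perm = numOrbits (permOf N ModularGroup.T) :=
  ⟨A.dataFin, A.dataInf, le_antisymm hle A.card_le_finrank, A.dataFin_perm_generic,
    A.dataFin_zero_perm, A.dataFin_1728_perm, A.dataInf_perm⟩

end AnalyticCore

end Fermat.Agent.S24.H997

end
end
-- ===== PACK-END S24/Mod/H997Core.lean

-- ===== PACK-BEGIN S24/H624/Germ.lean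
section


/-!
# Taylor coefficients of germs; leading coefficient under Möbius transformations
-/

set_option autoImplicit false

namespace Fermat.Agent.S24.H624

open UpperHalfPlane Complex
open scoped Manifold Topology MatrixGroups

/-- `n`-th Taylor coefficient at `z₀` of a function `ℂ → ℂ`. -/
noncomputable def germCoeff (z₀ : ℂ) (F : ℂ → ℂ) (n : ℕ) : ℂ :=
  iteratedDeriv n F z₀ / (n.factorial : ℂ)

theorem taylorCoeff_eq_germCoeff (τ : ℍ) (f : ℍ → ℂ) (n : ℕ) :
    taylorCoeff τ f n = germCoeff (τ : ℂ) (f ∘ ofComplex) n := rfl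

theorem germCoeff_congr {F G : ℂ → ℂ} {z₀ : ℂ} (h : F =ᶠ[𝓝 z₀] G) (n : ℕ) :
    germCoeff z₀ F n = germCoeff z₀ G n := by
  unfold germCoeff
  rw [h.iteratedDeriv_eq]

theorem germCoeff_zero_idx (z₀ : ℂ) (F : ℂ → ℂ) : germCoeff z₀ F 0 = F z₀ := by
  simp [germCoeff]

theorem germCoeff_mul {F G : ℂ → ℂ} {z₀ : ℂ} (hF : AnalyticAt ℂ F z₀) (hG : AnalyticAt ℂ G z₀)
    (n : ℕ) :
    germCoeff z₀ (F * G) n
      = ∑ p ∈ Finset.HasAntidiagonal.antidiagonal n, germCoeff z₀ F p.1 * germCoeff z₀ G p.2 := by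
  unfold germCoeff
  have hF' : ContDiffAt ℂ n F z₀ := hF.contDiffAt.of_le (by exact_mod_cast le_top)
  have hG' : ContDiffAt ℂ n G z₀ := hG.contDiffAt.of_le (by exact_mod_cast le_top)
  rw [iteratedDeriv_mul hF' hG',
    Finset.Nat.sum_antidiagonal_eq_sum_range_succ
      (fun i j => iteratedDeriv i F z₀ / (i.factorial : ℂ)
        * (iteratedDeriv j G z₀ / (j.factorial : ℂ))) n,
    Finset.sum_div]
  refine Finset.sum_congr rfl fun i hi => ?_
  have hi' : i ≤ n := Nat.lt_succ_iff.mp (Finset.mem_range.mp hi)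
  have h1 : (n.choose i : ℂ)
      = (n.factorial : ℂ) / ((i.factorial : ℂ) * ((n - i).factorial : ℂ)) := by
    rw [Nat.choose_eq_factorial_div_factorial hi']
    rw [Nat.cast_div (Nat.factorial_mul_factorial_dvd_factorial hi')
      (by exact_mod_cast (Nat.mul_pos (Nat.factorial_pos _) (Nat.factorial_pos _)).ne')]
    push_cast
    rfl
  rw [h1]
  have hn : (n.factorial : ℂ) ≠ 0 := by exact_mod_cast (Nat.factorial_pos n).ne'
  have hi0 : (i.factorial : ℂ) ≠ 0 := by exact_mod_cast (Nat.factorial_pos i).ne'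
  have hni : ((n - i).factorial : ℂ) ≠ 0 := by exact_mod_cast (Nat.factorial_pos (n - i)).ne'
  field_simp

theorem germCoeff_sub_id (z₀ : ℂ) (n : ℕ) :
    germCoeff z₀ (fun z => z - z₀) n = if n = 1 then 1 else 0 := by
  unfold germCoeff
  rcases n with _ | _ | n
  · simp
  · have h : deriv (fun z : ℂ => z - z₀) = fun _ => (1 : ℂ) := by
      funext z
      simp
    rw [iteratedDeriv_succ', h]
    simp
  · have h : deriv (fun z : ℂ => z - z₀) = fun _ => (1 : ℂ) := by
      funext z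
      simp
    rw [iteratedDeriv_succ', h, iteratedDeriv_succ']
    simp

theorem germCoeff_sub_mul {G : ℂ → ℂ} {z₀ : ℂ} (hG : AnalyticAt ℂ G z₀) (n : ℕ) :
    germCoeff z₀ (fun z => (z - z₀) * G z) (n + 1) = germCoeff z₀ G n := by
  have hF : AnalyticAt ℂ (fun z : ℂ => z - z₀) z₀ := by fun_prop
  have := germCoeff_mul hF hG (n + 1)
  rw [show (fun z => (z - z₀) * G z) = (fun z : ℂ => z - z₀) * G from rfl, this]
  rw [Finset.sum_eq_single (1, n)]
  · rw [germCoeff_sub_id]
    simp
  · rintro ⟨i, j⟩ hij hne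
    rw [germCoeff_sub_id]
    have hsum : i + j = n + 1 := by simpa using hij
    have hi : i ≠ 1 := by
      rintro rfl
      apply hne
      have : j = n := by omega
      rw [this]
    simp [hi]
  · intro h
    exfalso
    apply h
    simp
    omega

theorem germCoeff_pow_mul {G : ℂ → ℂ} {z₀ : ℂ} (hG : AnalyticAt ℂ G z₀) (n : ℕ) :
    germCoeff z₀ (fun z => (z - z₀) ^ n * G z) n = G z₀ := by
  induction n generalizing G with
  | zero => simp [germCoeff_zero_idx]
  | succ n ih =>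
    have hG' : AnalyticAt ℂ (fun z => (z - z₀) ^ n * G z) z₀ := by fun_prop
    have h1 : (fun z => (z - z₀) ^ (n + 1) * G z)
        = fun z => (z - z₀) * ((z - z₀) ^ n * G z) := by
      funext z
      ring
    rw [h1, germCoeff_sub_mul hG', ih hG]

/-- Leading Taylor coefficient via a local factorisation. -/
theorem germCoeff_of_eventuallyEq {F u : ℂ → ℂ} {z₀ : ℂ} (hu : AnalyticAt ℂ u z₀) {n : ℕ}
    (h : ∀ᶠ z in 𝓝 z₀, F z = (z - z₀) ^ n * u z) : germCoeff z₀ F n = u z₀ := by
  rw [germCoeff_congr (G := fun z => (z - z₀) ^ n * u z) h, germCoeff_pow_mul hu]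

/-- **Leading coefficient form of the rotation lemma.**  If `f` has order `n` at `g • τ`, the
`n`-th Taylor coefficient of `f ∘ g` at `τ` is `(g'(τ)) ^ n` times that of `f` at `g • τ`. -/
theorem taylorCoeff_comp_smul {g : GL (Fin 2) ℝ} (hg : 0 < g.det.val) {f : ℍ → ℂ} (hf : MDiff f)
    (τ : ℍ) {n : ℕ} (hn : ordAt (g • τ) f = n) :
    taylorCoeff τ (fun z : ℍ => f (g • z)) n
      = (((g.det.val : ℝ) : ℂ) / denom g (τ : ℂ) ^ 2) ^ n * taylorCoeff (g • τ) f n := by
  have hord : analyticOrderAt (f ∘ ofComplex) ((g • τ : ℍ) : ℂ) = (n : ℕ∞) := by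
    rw [← ordAt_def, hn]
  obtain ⟨u, hu, -, hfu⟩ :=
    ((analyticAt_of_mdiff hf (g • τ)).analyticOrderAt_eq_natCast).mp hord
  have hd : denom g (τ : ℂ) ≠ 0 := denom_ne_zero g τ
  have hmτ : moeb g (τ : ℂ) = ((g • τ : ℍ) : ℂ) := moeb_coe hg τ
  have hman : AnalyticAt ℂ (moeb g) (τ : ℂ) := analyticAt_moeb g hd
  have hmcont : ContinuousAt (moeb g) (τ : ℂ) := hman.continuousAt
  set c : ℂ := ((g.det.val : ℝ) : ℂ) with hc
  -- right-hand side: value of u at g τ
  have hR : taylorCoeff (g • τ) f n = u ((g • τ : ℍ) : ℂ) := by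
    rw [taylorCoeff_eq_germCoeff]
    refine germCoeff_of_eventuallyEq hu ?_
    filter_upwards [hfu] with z hz
    rw [hz, smul_eq_mul]
  -- left-hand side
  have h2 : ∀ᶠ z in 𝓝 (τ : ℂ), (f ∘ ofComplex) (moeb g z)
      = (moeb g z - ((g • τ : ℍ) : ℂ)) ^ n • u (moeb g z) := by
    have : Filter.Tendsto (moeb g) (𝓝 (τ : ℂ)) (𝓝 ((g • τ : ℍ) : ℂ)) := by
      have := hmcont.tendsto
      rwa [hmτ] at this
    exact this.eventually hfu
  have h3 : ∀ᶠ z in 𝓝 (τ : ℂ), denom g z ≠ 0 :=
    (hasDerivAt_denom g _).continuousAt.eventually_ne hd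
  have hden_an : AnalyticAt ℂ (fun z => denom g z * denom g (τ : ℂ)) (τ : ℂ) := by
    have : (fun z => denom g z * denom g (τ : ℂ))
        = fun w : ℂ => (((g 1 0 : ℝ) : ℂ) * w + ((g 1 1 : ℝ) : ℂ)) * denom g (τ : ℂ) := by
      funext w; simp [denom]
    rw [this]
    fun_prop
  have hU : AnalyticAt ℂ (fun z => (c / (denom g z * denom g (τ : ℂ))) ^ n * u (moeb g z))
      (τ : ℂ) := by
    have h1 : AnalyticAt ℂ (fun z => c / (denom g z * denom g (τ : ℂ))) (τ : ℂ) :=
      analyticAt_const.div hden_an (mul_ne_zero hd hd)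
    have h2' : AnalyticAt ℂ (fun z => u (moeb g z)) (τ : ℂ) := by
      have : AnalyticAt ℂ u (moeb g (τ : ℂ)) := by rw [hmτ]; exact hu
      exact AnalyticAt.fun_comp this hman
    exact (h1.pow n).mul h2'
  have hL : taylorCoeff τ (fun z : ℍ => f (g • z)) n
      = (c / (denom g (τ : ℂ) * denom g (τ : ℂ))) ^ n * u (moeb g (τ : ℂ)) := by
    rw [taylorCoeff_eq_germCoeff]
    refine germCoeff_of_eventuallyEq (u := fun z => (c / (denom g z * denom g (τ : ℂ))) ^ n
      * u (moeb g z)) hU ?_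
    filter_upwards [eventuallyEq_comp_smul hg f τ, h2, h3] with z e1 e2 e3
    rw [e1]
    simp only [Function.comp_apply] at e2 ⊢
    rw [e2, ← hmτ, moeb_sub_moeb g e3 hd, smul_eq_mul, ← mul_assoc, ← mul_pow]
    congr 2
    ring
  rw [hL, hR, hmτ, sq]

/-- `SL(2, ℤ)` version for the left action `(γ • f) τ = f (γ⁻¹ • τ)`. -/
theorem taylorCoeff_smul_holoRing (γ : SL(2, ℤ)) (f : holoRing) (τ : ℍ) {n : ℕ}
    (hn : ordAt (γ⁻¹ • τ) (f : ℍ → ℂ) = n) :
    taylorCoeff τ ((γ • f : holoRing) : ℍ → ℂ) n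
      = (1 / denom ((γ⁻¹ : SL(2, ℤ)) : GL (Fin 2) ℝ) (τ : ℂ) ^ 2) ^ n
        * taylorCoeff (γ⁻¹ • τ) (f : ℍ → ℂ) n := by
  have h := taylorCoeff_comp_smul (g := ((γ⁻¹ : SL(2, ℤ)) : GL (Fin 2) ℝ))
    (det_coe_SL_pos γ⁻¹) f.2 τ (n := n) hn
  rw [det_coe_SL, Complex.ofReal_one] at h
  exact h

end Fermat.Agent.S24.H624

end
-- ===== PACK-END S24/H624/Germ.lean

-- ===== PACK-BEGIN S24/H624/Laurent.lean
section


/-!
# Laurent expansion of quotients of holomorphic functions; `SL(2, ℤ)`-action and the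
leading-coefficient form of the rotation lemma

`MerH := FractionRing holoRing` is the field of quotients of holomorphic functions on `ℍ`.
`laurentAt τ : MerH →+* LaurentSeries ℂ` is the (injective) Laurent expansion at `τ` in the
coordinate `z - τ`.
-/

set_option autoImplicit false

namespace Fermat.Agent.S24.H624

open UpperHalfPlane Complex
open scoped Manifold Topology MatrixGroups

/-! ### order and leading coefficient of a power series viewed as a Laurent series -/

section PowerSeriesCoe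

variable {R : Type*} [CommRing R]

theorem coeff_ofPowerSeries_nat (φ : PowerSeries R) (n : ℕ) :
    (HahnSeries.ofPowerSeries ℤ R φ).coeff (n : ℤ) = PowerSeries.coeff n φ := by
  simp

theorem coeff_ofPowerSeries_neg (φ : PowerSeries R) {i : ℤ} (hi : i < 0) :
    (HahnSeries.ofPowerSeries ℤ R φ).coeff i = 0 := by
  have := PowerSeries.coeff_coe (R := R) (f := φ) i
  rw [if_pos hi] at this
  exact this

theorem order_ofPowerSeries {φ : PowerSeries R} {n : ℕ} (hn : φ.order = n) :
    (HahnSeries.ofPowerSeries ℤ R φ).order = (n : ℤ) := by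
  have hφn : PowerSeries.coeff n φ ≠ 0 := ((PowerSeries.order_eq_nat).mp hn).1
  have hlt : ∀ i < n, PowerSeries.coeff i φ = 0 := ((PowerSeries.order_eq_nat).mp hn).2
  set x := HahnSeries.ofPowerSeries ℤ R φ with hx
  have hxn : x.coeff (n : ℤ) ≠ 0 := by rw [hx, coeff_ofPowerSeries_nat]; exact hφn
  have hx0 : x ≠ 0 := fun h => hxn (by rw [h]; rfl)
  have hle : x.order ≤ n := HahnSeries.order_le_of_coeff_ne_zero hxn
  have hco : x.coeff x.order ≠ 0 := fun h => hx0 (HahnSeries.coeff_order_eq_zero.mp h)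
  have hnn : 0 ≤ x.order := by
    by_contra hneg
    exact hco (coeff_ofPowerSeries_neg φ (not_le.mp hneg))
  obtain ⟨k, hk⟩ := Int.eq_ofNat_of_zero_le hnn
  rw [hk, coeff_ofPowerSeries_nat] at hco
  have hkn : n ≤ k := by
    by_contra hlt'
    exact hco (hlt k (not_le.mp hlt'))
  rw [hk] at hle ⊢
  have : (k : ℤ) ≤ n := hle
  omega

theorem leadingCoeff_ofPowerSeries {φ : PowerSeries R} {n : ℕ} (hn : φ.order = n) :
    (HahnSeries.ofPowerSeries ℤ R φ).leadingCoeff = PowerSeries.coeff n φ := by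
  rw [HahnSeries.leadingCoeff_eq, order_ofPowerSeries hn, coeff_ofPowerSeries_nat]

end PowerSeriesCoe

/-! ### transfer of order / leading coefficient relations to the fraction field -/

section Transfer

variable {A : Type*} [CommRing A] [IsDomain A] {K : Type*} [Field K] [Algebra A K]
  [IsFractionRing A K] {C : Type*} [Field C]

theorem order_div_of_ne_zero {x y : LaurentSeries C} (hx : x ≠ 0) (hy : y ≠ 0) :
    (x / y).order = x.order - y.order := by
  have hxy : x / y ≠ 0 := div_ne_zero hx hy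
  have h := HahnSeries.order_mul hxy hy
  rw [div_mul_cancel₀ x hy] at h
  omega

theorem leadingCoeff_div_of_ne_zero {x y : LaurentSeries C} (hy : y ≠ 0) :
    (x / y).leadingCoeff = x.leadingCoeff / y.leadingCoeff := by
  have h := HahnSeries.leadingCoeff_mul (x / y) y
  rw [div_mul_cancel₀ x hy] at h
  rw [h, mul_div_assoc, div_self (HahnSeries.leadingCoeff_ne_zero.mpr hy), mul_one]

/-- If two embeddings `φ ψ : K → C((z))` of a fraction field satisfy
`ord (φ a) = ord (ψ a)` and `lc (φ a) = ζ ^ ord (ψ a) * lc (ψ a)` on the ring `A`, they do so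
on all of `K`. -/
theorem order_leadingCoeff_transfer (φ ψ : K →+* LaurentSeries C) (ζ : C) (hζ : ζ ≠ 0)
    (h : ∀ a : A, a ≠ 0 → (φ (algebraMap A K a)).order = (ψ (algebraMap A K a)).order ∧
      (φ (algebraMap A K a)).leadingCoeff
        = ζ ^ (ψ (algebraMap A K a)).order * (ψ (algebraMap A K a)).leadingCoeff)
    (x : K) :
    (φ x).order = (ψ x).order ∧
      (φ x).leadingCoeff = ζ ^ (ψ x).order * (ψ x).leadingCoeff := by
  obtain ⟨a, b, hb, rfl⟩ := IsFractionRing.div_surjective (A := A) x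
  have hb0 : b ≠ 0 := nonZeroDivisors.ne_zero hb
  have hbK : algebraMap A K b ≠ 0 := by
    intro h0
    exact hb0 ((IsFractionRing.injective A K) (by rw [h0, map_zero]))
  by_cases ha0 : a = 0
  · subst ha0
    simp
  have haK : algebraMap A K a ≠ 0 := by
    intro h0
    exact ha0 ((IsFractionRing.injective A K) (by rw [h0, map_zero]))
  have hφa : φ (algebraMap A K a) ≠ 0 := (map_ne_zero φ).mpr haK
  have hφb : φ (algebraMap A K b) ≠ 0 := (map_ne_zero φ).mpr hbK
  have hψa : ψ (algebraMap A K a) ≠ 0 := (map_ne_zero ψ).mpr haK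
  have hψb : ψ (algebraMap A K b) ≠ 0 := (map_ne_zero ψ).mpr hbK
  obtain ⟨ha1, ha2⟩ := h a ha0
  obtain ⟨hb1, hb2⟩ := h b hb0
  rw [map_div₀, map_div₀, order_div_of_ne_zero hφa hφb, order_div_of_ne_zero hψa hψb,
    leadingCoeff_div_of_ne_zero hφb, leadingCoeff_div_of_ne_zero hψb, ha1, hb1, ha2, hb2]
  refine ⟨rfl, ?_⟩
  rw [zpow_sub₀ hζ]
  have h1 : ζ ^ (ψ (algebraMap A K b)).order ≠ 0 := zpow_ne_zero _ hζ
  have h2 : (ψ (algebraMap A K b)).leadingCoeff ≠ 0 := HahnSeries.leadingCoeff_ne_zero.mpr hψb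
  field_simp

end Transfer

/-! ### the field `MerH` and its Laurent expansions -/

/-- The field of quotients of holomorphic functions on the upper half-plane. -/
abbrev MerH : Type := FractionRing holoRing

/-- Taylor expansion at `τ` as a ring hom into Laurent series. -/
noncomputable def taylorLaurent (τ : ℍ) : holoRing →+* LaurentSeries ℂ :=
  (HahnSeries.ofPowerSeries ℤ ℂ).comp (taylorAt τ : holoRing →+* PowerSeries ℂ)

theorem taylorLaurent_apply (τ : ℍ) (f : holoRing) :
    taylorLaurent τ f = HahnSeries.ofPowerSeries ℤ ℂ (taylorAt τ f) := rfl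

theorem taylorLaurent_injective (τ : ℍ) : Function.Injective (taylorLaurent τ) := by
  intro f g h
  exact taylorAt_injective τ (HahnSeries.ofPowerSeries_injective h)

/-- Laurent expansion at `τ` (coordinate `z - τ`) of a quotient of holomorphic functions. -/
noncomputable def laurentAt (τ : ℍ) : MerH →+* LaurentSeries ℂ :=
  IsFractionRing.lift (taylorLaurent_injective τ)

@[simp]
theorem laurentAt_algebraMap (τ : ℍ) (f : holoRing) :
    laurentAt τ (algebraMap holoRing MerH f) = HahnSeries.ofPowerSeries ℤ ℂ (taylorAt τ f) :=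
  IsFractionRing.lift_algebraMap (taylorLaurent_injective τ) f

theorem laurentAt_injective (τ : ℍ) : Function.Injective (laurentAt τ) :=
  (laurentAt τ).injective

theorem laurentAt_const (τ : ℍ) (c : ℂ) :
    laurentAt τ (algebraMap holoRing MerH (algebraMap ℂ holoRing c)) = HahnSeries.C c := by
  rw [laurentAt_algebraMap, AlgHom.commutes, PowerSeries.algebraMap_apply,
    Algebra.algebraMap_self, RingHom.id_apply, HahnSeries.ofPowerSeries_C]

theorem order_laurentAt_algebraMap (τ : ℍ) {f : holoRing} (hf : f ≠ 0) :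
    (laurentAt τ (algebraMap holoRing MerH f)).order = ((ordAt τ (f : ℍ → ℂ)).toNat : ℤ) := by
  rw [laurentAt_algebraMap]
  refine order_ofPowerSeries ?_
  rw [order_taylorAt, ENat.natCast_toNat (ordAt_ne_top f.2 (fun h => hf (Subtype.ext h)) τ)]

theorem leadingCoeff_laurentAt_algebraMap (τ : ℍ) {f : holoRing} (hf : f ≠ 0) :
    (laurentAt τ (algebraMap holoRing MerH f)).leadingCoeff
      = taylorCoeff τ (f : ℍ → ℂ) (ordAt τ (f : ℍ → ℂ)).toNat := by
  rw [laurentAt_algebraMap, leadingCoeff_ofPowerSeries (n := (ordAt τ (f : ℍ → ℂ)).toNat),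
    coeff_taylorAt]
  rw [order_taylorAt, ENat.natCast_toNat (ordAt_ne_top f.2 (fun h => hf (Subtype.ext h)) τ)]

/-! ### the `SL(2, ℤ)`-action on `MerH` -/

/-- The action of `SL(2, ℤ)` on `MerH` extending `(γ • f) τ = f (γ⁻¹ • τ)`. -/
noncomputable instance instMulSemiringActionMerH : MulSemiringAction SL(2, ℤ) MerH :=
  IsFractionRing.mulSemiringAction SL(2, ℤ) holoRing MerH

theorem smul_algebraMap_MerH (γ : SL(2, ℤ)) (f : holoRing) :
    γ • algebraMap holoRing MerH f = algebraMap holoRing MerH (γ • f) :=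
  IsFractionRing.ringEquivOfRingEquiv_algebraMap (MulSemiringAction.toRingEquiv SL(2, ℤ) holoRing γ) f

/-- The ring automorphism of `MerH` given by `γ`. -/
noncomputable def merSL (γ : SL(2, ℤ)) : MerH ≃+* MerH :=
  MulSemiringAction.toRingEquiv SL(2, ℤ) MerH γ

@[simp]
theorem merSL_apply (γ : SL(2, ℤ)) (F : MerH) : merSL γ F = γ • F := rfl

/-- **Rotation lemma, order + leading coefficient form**, on `MerH`. -/
theorem laurentAt_smul (γ : SL(2, ℤ)) (τ : ℍ) (F : MerH) :
    (laurentAt τ (γ • F)).order = (laurentAt (γ⁻¹ • τ) F).order ∧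
    (laurentAt τ (γ • F)).leadingCoeff
      = (1 / denom ((γ⁻¹ : SL(2, ℤ)) : GL (Fin 2) ℝ) (τ : ℂ) ^ 2) ^ (laurentAt (γ⁻¹ • τ) F).order
        * (laurentAt (γ⁻¹ • τ) F).leadingCoeff := by
  have hd : denom ((γ⁻¹ : SL(2, ℤ)) : GL (Fin 2) ℝ) (τ : ℂ) ≠ 0 := denom_ne_zero _ τ
  have hζ : (1 / denom ((γ⁻¹ : SL(2, ℤ)) : GL (Fin 2) ℝ) (τ : ℂ) ^ 2) ≠ 0 :=
    one_div_ne_zero (pow_ne_zero _ hd)
  refine order_leadingCoeff_transfer (A := holoRing)
    ((laurentAt τ).comp (merSL γ : MerH →+* MerH)) (laurentAt (γ⁻¹ • τ)) _ hζ ?_ F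
  intro f hf
  have hγf : γ • f ≠ 0 := by
    intro h
    apply hf
    have := congrArg (fun g => γ⁻¹ • g) h
    simpa using this
  have hord : ordAt τ ((γ • f : holoRing) : ℍ → ℂ) = ordAt (γ⁻¹ • τ) (f : ℍ → ℂ) := by
    have := ordAt_smul_holoRing γ f (γ⁻¹ • τ)
    rwa [smul_inv_smul] at this
  have hne := ordAt_ne_top f.2 (fun h => hf (Subtype.ext h)) (γ⁻¹ • τ)
  simp only [RingHom.coe_comp, RingHom.coe_coe, Function.comp_apply, merSL_apply]
  rw [smul_algebraMap_MerH, order_laurentAt_algebraMap τ hγf,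
    order_laurentAt_algebraMap _ hf, leadingCoeff_laurentAt_algebraMap τ hγf,
    leadingCoeff_laurentAt_algebraMap _ hf, hord]
  refine ⟨rfl, ?_⟩
  rw [zpow_natCast]
  exact taylorCoeff_smul_holoRing γ f τ (ENat.natCast_toNat hne).symm

theorem order_laurentAt_smul (γ : SL(2, ℤ)) (τ : ℍ) (F : MerH) :
    (laurentAt τ (γ • F)).order = (laurentAt (γ⁻¹ • τ) F).order :=
  (laurentAt_smul γ τ F).1

theorem leadingCoeff_laurentAt_smul (γ : SL(2, ℤ)) (τ : ℍ) (F : MerH) :
    (laurentAt τ (γ • F)).leadingCoeff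
      = (1 / denom ((γ⁻¹ : SL(2, ℤ)) : GL (Fin 2) ℝ) (τ : ℂ) ^ 2) ^ (laurentAt (γ⁻¹ • τ) F).order
        * (laurentAt (γ⁻¹ • τ) F).leadingCoeff :=
  (laurentAt_smul γ τ F).2

/-- Fixed-point version, in exactly the shape of the `LocalData` fields
`σ_perm_order` / `σ_perm_leadingCoeff`. -/
theorem laurentAt_smul_of_fixed {γ : SL(2, ℤ)} {τ : ℍ} (hτ : γ • τ = τ) (F : MerH) :
    (laurentAt τ (γ • F)).order = (laurentAt τ F).order ∧
    (laurentAt τ (γ • F)).leadingCoeff
      = (1 / denom ((γ⁻¹ : SL(2, ℤ)) : GL (Fin 2) ℝ) (τ : ℂ) ^ 2) ^ (laurentAt τ F).order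
        * (laurentAt τ F).leadingCoeff := by
  have h := laurentAt_smul γ τ F
  have hfix : γ⁻¹ • τ = τ := by
    rw [inv_smul_eq_iff, hτ]
  rwa [hfix] at h

end Fermat.Agent.S24.H624

end
-- ===== PACK-END S24/H624/Laurent.lean

-- ===== PACK-BEGIN S24/H624/Elliptic.lean
section


/-!
# Elliptic fixed points: the rotation factor is a primitive 2nd / 3rd root of unity
-/

set_option autoImplicit false

namespace Fermat.Agent.S24.H624

open UpperHalfPlane Complex
open scoped Manifold Topology MatrixGroups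

/-- The factor by which `γ` rotates leading coefficients at `τ`
(the derivative of `z ↦ γ⁻¹ • z` at `τ`). -/
noncomputable def rotFactor (γ : SL(2, ℤ)) (τ : ℍ) : ℂ :=
  1 / denom ((γ⁻¹ : SL(2, ℤ)) : GL (Fin 2) ℝ) (τ : ℂ) ^ 2

theorem rotFactor_def (γ : SL(2, ℤ)) (τ : ℍ) :
    rotFactor γ τ = 1 / denom ((γ⁻¹ : SL(2, ℤ)) : GL (Fin 2) ℝ) (τ : ℂ) ^ 2 := rfl

theorem rotFactor_ne_zero (γ : SL(2, ℤ)) (τ : ℍ) : rotFactor γ τ ≠ 0 :=
  one_div_ne_zero (pow_ne_zero _ (denom_ne_zero _ τ))

/-- `LocalData`-shaped statement with `rotFactor`. -/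
theorem laurentAt_smul_fixed_rotFactor {γ : SL(2, ℤ)} {τ : ℍ} (hτ : γ • τ = τ) (F : MerH) :
    (laurentAt τ (γ • F)).order = (laurentAt τ F).order ∧
    (laurentAt τ (γ • F)).leadingCoeff
      = rotFactor γ τ ^ (laurentAt τ F).order * (laurentAt τ F).leadingCoeff :=
  laurentAt_smul_of_fixed hτ F

theorem trace_inv_SL (γ : SL(2, ℤ)) : (γ⁻¹) 0 0 + (γ⁻¹) 1 1 = γ 0 0 + γ 1 1 := by
  rw [Matrix.SpecialLinearGroup.coe_inv, Matrix.adjugate_fin_two]
  simp
  ring

theorem inv_smul_of_fixed {γ : SL(2, ℤ)} {τ : ℍ} (hτ : γ • τ = τ) : γ⁻¹ • τ = τ := by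
  rw [inv_smul_eq_iff, hτ]

theorem rotFactor_eq_neg_one {γ : SL(2, ℤ)} {τ : ℍ} (hτ : γ • τ = τ)
    (htr : γ 0 0 + γ 1 1 = 0) : rotFactor γ τ = -1 := by
  have h2 := denom_sq_eq_of_fixed (inv_smul_of_fixed hτ)
  rw [trace_inv_SL, htr] at h2
  simp only [Int.cast_zero, zero_mul, zero_sub] at h2
  rw [rotFactor_def, h2]
  norm_num

theorem isPrimitiveRoot_rotFactor_two {γ : SL(2, ℤ)} {τ : ℍ} (hτ : γ • τ = τ)
    (htr : γ 0 0 + γ 1 1 = 0) : IsPrimitiveRoot (rotFactor γ τ) 2 := by
  rw [rotFactor_eq_neg_one hτ htr]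
  exact IsPrimitiveRoot.neg_one 0 (by norm_num)

theorem isPrimitiveRoot_three_of_root {μ : ℂ} (hμ : μ ^ 2 + μ + 1 = 0) : IsPrimitiveRoot μ 3 := by
  have h3 : μ ^ 3 = 1 := by linear_combination (μ - 1) * hμ
  refine IsPrimitiveRoot.mk_of_lt μ (by norm_num) h3 ?_
  intro l hl0 hl3 hl
  have : 3 ∣ l := three_dvd_of_root hμ hl
  omega

theorem isPrimitiveRoot_rotFactor_three {γ : SL(2, ℤ)} {τ : ℍ} (hτ : γ • τ = τ)
    (htr : γ 0 0 + γ 1 1 = 1 ∨ γ 0 0 + γ 1 1 = -1) : IsPrimitiveRoot (rotFactor γ τ) 3 := by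
  have h2 := denom_sq_eq_of_fixed (inv_smul_of_fixed hτ)
  rw [trace_inv_SL] at h2
  set lam := denom ((γ⁻¹ : SL(2, ℤ)) : GL (Fin 2) ℝ) (τ : ℂ) with hlam
  have hlam0 : lam ≠ 0 := denom_ne_zero _ τ
  have hμ : (lam ^ 2) ^ 2 + lam ^ 2 + 1 = 0 := by
    rcases htr with htr | htr
    · rw [htr] at h2
      simp only [Int.cast_one, one_mul] at h2
      linear_combination (lam ^ 2 + lam + 1) * h2
    · rw [htr] at h2
      simp only [Int.cast_neg, Int.cast_one, neg_mul, one_mul] at h2
      linear_combination (lam ^ 2 - lam + 1) * h2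
  apply isPrimitiveRoot_three_of_root
  rw [rotFactor_def, ← hlam]
  have h4 : (lam ^ 2) ≠ 0 := pow_ne_zero _ hlam0
  field_simp
  linear_combination hμ

theorem S_smul_I : ModularGroup.S • UpperHalfPlane.I = UpperHalfPlane.I := by
  rw [modular_S_smul]
  ext
  simp [UpperHalfPlane.coe_I, Complex.inv_I]

theorem trace_S : (ModularGroup.S : SL(2, ℤ)) 0 0 + (ModularGroup.S : SL(2, ℤ)) 1 1 = 0 := by
  decide

theorem trace_ST :
    (ModularGroup.S * ModularGroup.T : SL(2, ℤ)) 0 0
      + (ModularGroup.S * ModularGroup.T : SL(2, ℤ)) 1 1 = 1 := by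
  decide

/-- The point `ρ = -1/2 + (√3/2) i`. -/
noncomputable def rhoH : ℍ :=
  ⟨⟨-1 / 2, Real.sqrt 3 / 2⟩, by
    show (0 : ℝ) < Real.sqrt 3 / 2
    positivity⟩

theorem rhoH_coe : (rhoH : ℂ) = ⟨-1 / 2, Real.sqrt 3 / 2⟩ := rfl

theorem rhoH_sq : (rhoH : ℂ) ^ 2 + (rhoH : ℂ) + 1 = 0 := by
  have h3 : Real.sqrt 3 * Real.sqrt 3 = 3 := Real.mul_self_sqrt (by norm_num)
  rw [rhoH_coe]
  apply Complex.ext
  · simp [pow_two]
    nlinarith
  · simp [pow_two]
    ring

theorem ST_smul_rhoH : (ModularGroup.S * ModularGroup.T) • rhoH = rhoH := by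
  apply UpperHalfPlane.ext
  rw [coe_specialLinearGroup_apply]
  have h := rhoH_sq
  have hne : (rhoH : ℂ) + 1 ≠ 0 := by
    intro h0
    have : (rhoH : ℂ) = -1 := by linear_combination h0
    rw [this] at h
    norm_num at h
  have e00 : (ModularGroup.S * ModularGroup.T : SL(2, ℤ)) 0 0 = 0 := by decide
  have e01 : (ModularGroup.S * ModularGroup.T : SL(2, ℤ)) 0 1 = -1 := by decide
  have e10 : (ModularGroup.S * ModularGroup.T : SL(2, ℤ)) 1 0 = 1 := by decide
  have e11 : (ModularGroup.S * ModularGroup.T : SL(2, ℤ)) 1 1 = 1 := by decide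
  rw [e00, e01, e10, e11]
  simp only [algebraMap_int_eq, Int.coe_castRingHom, Int.cast_zero, Complex.ofReal_zero,
    zero_mul, Int.cast_neg, Int.cast_one, Complex.ofReal_neg, Complex.ofReal_one, zero_add,
    one_mul]
  rw [div_eq_iff hne]
  linear_combination -h

theorem isPrimitiveRoot_rotFactor_S :
    IsPrimitiveRoot (rotFactor ModularGroup.S UpperHalfPlane.I) 2 :=
  isPrimitiveRoot_rotFactor_two S_smul_I trace_S

theorem isPrimitiveRoot_rotFactor_ST :
    IsPrimitiveRoot (rotFactor (ModularGroup.S * ModularGroup.T) rhoH) 3 :=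
  isPrimitiveRoot_rotFactor_three ST_smul_rhoH (Or.inl trace_ST)

end Fermat.Agent.S24.H624

end
-- ===== PACK-END S24/H624/Elliptic.lean

-- ===== PACK-BEGIN S24/Mod/H997Taylor.lean
section




/-!
# S24 / MOD — the finite-point data of `AnalyticCore` from Taylor expansions

For a `HolBase N` whose ring `Hol` consists of holomorphic functions and whose `J 1` is the
`j`-function, the three `PointData` fields of `AnalyticCore` are constructed from
helper624's Taylor/rotation package (`H624`) and helper47's local orders of `j` (`M7.H47`).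
-/

set_option autoImplicit false

noncomputable section

open ModularCurve HahnSeries UpperHalfPlane ModularForm EisensteinSeries
open scoped MatrixGroups Manifold

namespace Fermat.Agent.S24.H997

open Fermat.Agent.S24.H624 Fermat.Agent.S20.L1 Fermat.Agent.S24.M7.H47

variable {N : ℕ} [NeZero N]

/-- `Hol` consists of holomorphic functions and `J 1` is the `j`-function. -/
structure HolBase.IsHolo (B : HolBase N) : Prop where
  mdiff : ∀ f ∈ B.Hol, f ∈ holoRing
  J_one : B.J 1 = jFun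

namespace HolBase

variable (B : HolBase N) (hB : B.IsHolo)

/-- the inclusion `Hol → holoRing` -/
def toHolo : B.Hol →+* holoRing where
  toFun h := ⟨h.1, hB.mdiff h.1 h.2⟩
  map_one' := rfl
  map_mul' _ _ := rfl
  map_zero' := rfl
  map_add' _ _ := rfl

theorem toHolo_injective : Function.Injective (B.toHolo hB) := by
  intro x y h
  exact Subtype.ext (congrArg (fun f : holoRing => (f : ℍ → ℂ)) h)

theorem toHolo_compH (ε : SL(2, ℤ)) (h : B.Hol) :
    B.toHolo hB (B.compH ε h) = ε⁻¹ • B.toHolo hB h := by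
  apply Subtype.ext
  funext τ
  rw [smul_holoRing_apply, inv_inv]
  rfl

/-- the Taylor expansion at `τ₀` as an `Expansion` -/
def taylorExpansion (τ₀ : ℍ) : Expansion B where
  E := (taylorLaurent τ₀).comp (B.toHolo hB)
  inj := (taylorLaurent_injective τ₀).comp (B.toHolo_injective hB)
  const c := by
    show HahnSeries.ofPowerSeries ℤ ℂ (taylorAt τ₀ (B.toHolo hB (B.constH c))) = HahnSeries.C c
    have : B.toHolo hB (B.constH c) = algebraMap ℂ holoRing c := rfl
    rw [this, AlgHom.commutes, PowerSeries.algebraMap_apply, Algebra.algebraMap_self,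
      RingHom.id_apply, HahnSeries.ofPowerSeries_C]

theorem taylorExpansion_E (τ₀ : ℍ) (h : B.Hol) :
    (B.taylorExpansion hB τ₀).E h
      = laurentAt τ₀ (algebraMap holoRing MerH (B.toHolo hB h)) :=
  (laurentAt_algebraMap τ₀ _).symm

/-- rotation data at a fixed point -/
def taylorRot {τ₀ : ℍ} {ε : SL(2, ℤ)} (hε : ε • τ₀ = τ₀) (m : ℕ) (hm : 0 < m)
    (hζ : IsPrimitiveRoot (rotFactor ε⁻¹ τ₀) m) :
    RotData B (B.taylorExpansion hB τ₀) ε where
  m := m
  m_pos := hm
  ζ := rotFactor ε⁻¹ τ₀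
  hζ := hζ
  rot h := by
    have hfix : ε⁻¹ • τ₀ = τ₀ := inv_smul_of_fixed hε
    rw [taylorExpansion_E, taylorExpansion_E, toHolo_compH, ← smul_algebraMap_MerH]
    exact laurentAt_smul_fixed_rotFactor hfix _

/-- trivial rotation data -/
def trivialRot (X : Expansion B) : RotData B X 1 where
  m := 1
  m_pos := one_pos
  ζ := 1
  hζ := IsPrimitiveRoot.one
  rot h := by
    rw [B.compH_one]
    exact ⟨rfl, by simp⟩

theorem taylor_order_J (τ₀ : ℍ) (a : ℂ) (ha : jFun τ₀ = a) (m : ℕ)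
    (hord : analyticOrderAt (fun w : ℂ => jFun (ofComplex w) - jFun τ₀) (τ₀ : ℂ) = m) :
    ((B.taylorExpansion hB τ₀).E (B.JH 1 (one_dvd N) - B.constH a)).order = (m : ℤ) := by
  show (HahnSeries.ofPowerSeries ℤ ℂ (taylorAt τ₀ (B.toHolo hB _))).order = _
  apply order_ofPowerSeries
  rw [order_taylorAt, ordAt_def, ← hord]
  congr 1
  funext w
  show B.J 1 (ofComplex w) - a = _
  rw [hB.J_one, ha]

/-- the point data over a generic value -/
def genericPoint (a : ℂ) (h0 : a ≠ 0) (h1 : a ≠ 1728) : PointData B a 1 :=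
  let τ₀ : ℍ := (jFun_surjective a).choose
  have hτ₀ : jFun τ₀ = a := (jFun_surjective a).choose_spec
  { X := B.taylorExpansion hB τ₀
    R := B.trivialRot _
    order_J := by
      have h4 : E₄ τ₀ ≠ 0 := fun h => h0 (hτ₀ ▸ (jFun_eq_zero_iff τ₀).mpr h)
      have h6 : E₆ τ₀ ≠ 0 := fun h => h1 (hτ₀ ▸ (jFun_eq_1728_iff τ₀).mpr h)
      have := B.taylor_order_J hB τ₀ a hτ₀ 1
        (by exact_mod_cast analyticOrderAt_jFun_sub_generic h4 h6)
      exact this }

/-- the point data over `1728` (at `i`, rotation by `S`) -/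
def point1728 : PointData B 1728 ModularGroup.S where
  X := B.taylorExpansion hB UpperHalfPlane.I
  R := B.taylorRot hB (τ₀ := UpperHalfPlane.I) (ε := ModularGroup.S)
    Fermat.Agent.S24.H624.S_smul_I 2 two_pos
    (isPrimitiveRoot_rotFactor_two (inv_smul_of_fixed Fermat.Agent.S24.H624.S_smul_I)
      (by rw [trace_inv_SL]; exact trace_S))
  order_J := by
    have := B.taylor_order_J hB UpperHalfPlane.I 1728 jFun_I 2
      (by exact_mod_cast analyticOrderAt_jFun_sub_of_E₆ E₆_I)
    exact this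

/-- the point data over `0` (at `ρ`, rotation by `S * T`) -/
def point0 : PointData B 0 (ModularGroup.S * ModularGroup.T) where
  X := B.taylorExpansion hB rho
  R := B.taylorRot hB (τ₀ := rho) (ε := ModularGroup.S * ModularGroup.T)
    ST_smul_rho 3 (by norm_num)
    (isPrimitiveRoot_rotFactor_three (inv_smul_of_fixed ST_smul_rho)
      (by rw [trace_inv_SL]; exact Or.inl trace_ST))
  order_J := by
    have := B.taylor_order_J hB rho 0 jFun_rho 3
      (by exact_mod_cast analyticOrderAt_jFun_sub_of_E₄ E₄_rho)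
    exact this

/-- **`AnalyticCore` from a holomorphic `HolBase` with `T`-shift.** -/
def toAnalyticCore (ζ : ℂ) (hζ : IsPrimitiveRoot ζ N)
    (hshift : ∀ (h : B.Hol) (n : ℤ),
      (B.qexp (B.compH ModularGroup.T h)).coeff n = ζ ^ n * (B.qexp h).coeff n) :
    AnalyticCore N where
  toHolBase := B
  generic := B.genericPoint hB
  at1728 := B.point1728 hB
  at0 := B.point0 hB
  infζ := ζ
  inf_hζ := hζ
  inf_shift := hshift

end HolBase

end Fermat.Agent.S24.H997

end
end
-- ===== PACK-END S24/Mod/H997Taylor.lean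

-- ===== PACK-BEGIN S28/H685/JIntegral.lean
section




/-!
# S28 helper (helper685): integrality in the `j`-polynomial principle (J4)

If `P(j)` has all its Laurent coefficients in a subring `C₀ ⊆ ℂ`, then so has `P`.
Combined with `exists_polynomial_of_S_invariant` this gives the polynomial principle with
coefficients in `C₀`.  Also the versions for the parameter `q^(1/N)`.
-/

set_option autoImplicit false

namespace Fermat.Agent.S28.H685

open UpperHalfPlane Function Complex Filter HahnSeries ModularForm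
open scoped Topology Manifold MatrixGroups

noncomputable section

local notation "𝕢" => Periodic.qParam

theorem jqModC_pow_eq (n : ℕ) : ModularCurve.jqModC ℂ ^ n =
    HahnSeries.single (-(n : ℤ)) (1 : ℂ) * HahnSeries.ofPowerSeries ℤ ℂ (jNumC ^ n) := by
  rw [jqModC_eq, hauptmodul_pow]

/-- The coefficients of the powers of `j` are integers. -/
theorem coeff_jqModC_pow_mem (C₀ : Subring ℂ) (n : ℕ) (k : ℤ) :
    (ModularCurve.jqModC ℂ ^ n).coeff k ∈ C₀ := by
  have h : (ModularCurve.jqModC ℂ ^ n).coeff k =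
      (((ModularCurve.jqModC ℤ ^ n).coeff k : ℤ) : ℂ) := by
    rw [← ModularCurve.map_jqModC (Int.castRingHom ℂ)]
    have hpow : ((ModularCurve.jqModC ℤ).map (Int.castRingHom ℂ)) ^ n =
        (ModularCurve.jqModC ℤ ^ n).map (Int.castRingHom ℂ) := by
      induction n with
      | zero =>
        ext g
        simp only [pow_zero, HahnSeries.map_coeff, HahnSeries.coeff_one]
        split_ifs <;> simp
      | succ n ih =>
        rw [pow_succ, pow_succ, ih]
        exact (HahnSeries.map_mul (Int.castRingHom ℂ).toNonUnitalRingHom).symm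
    rw [hpow, HahnSeries.map_coeff]
    rfl
  rw [h]
  exact intCast_mem C₀ _

/-- **(J4)** If `P(j)` has all its coefficients in the subring `C₀`, so has `P`. -/
theorem coeff_mem_of_aeval_jqModC (C₀ : Subring ℂ) :
    ∀ (m : ℕ) (P : Polynomial ℂ), P.natDegree ≤ m →
      (∀ k : ℤ, (Polynomial.aeval (ModularCurve.jqModC ℂ) P).coeff k ∈ C₀) →
      ∀ i, P.coeff i ∈ C₀ := by
  intro m
  induction m with
  | zero =>
    intro P hP hc i
    rw [Polynomial.eq_C_of_natDegree_le_zero hP] at hc ⊢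
    have h0 := hc 0
    rw [Polynomial.aeval_C, algebraMap_eq_C] at h0
    have h1 : (HahnSeries.C (P.coeff 0) : LaurentSeries ℂ).coeff 0 = P.coeff 0 := by
      simp
    rw [h1] at h0
    rw [Polynomial.coeff_C]
    split_ifs
    · exact h0
    · exact C₀.zero_mem
  | succ m ih =>
    intro P hP hc i
    set a := P.coeff (m + 1) with ha
    set Q := P - Polynomial.C a * Polynomial.X ^ (m + 1) with hQ
    have hQdeg : Q.natDegree ≤ m := by
      rw [Polynomial.natDegree_le_iff_coeff_eq_zero]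
      intro N hN
      rw [hQ, Polynomial.coeff_sub, Polynomial.coeff_C_mul, Polynomial.coeff_X_pow]
      rcases Nat.lt_or_ge (m + 1) N with h1 | h1
      · rw [Polynomial.coeff_eq_zero_of_natDegree_lt (lt_of_le_of_lt hP h1),
          if_neg (by omega), mul_zero, sub_zero]
      · have : N = m + 1 := by omega
        rw [if_pos this, this, mul_one, sub_self]
    -- the coefficient `a` is the coefficient of `q^{-(m+1)}` in `P(j)`
    have haeval : Polynomial.aeval (ModularCurve.jqModC ℂ) P =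
        Polynomial.aeval (ModularCurve.jqModC ℂ) Q +
          HahnSeries.C a * ModularCurve.jqModC ℂ ^ (m + 1) := by
      rw [hQ, map_sub, map_mul, map_pow, Polynomial.aeval_X, Polynomial.aeval_C,
        algebraMap_eq_C]
      ring
    have hQlow : ∀ k : ℤ, k < -(m : ℤ) →
        (Polynomial.aeval (ModularCurve.jqModC ℂ) Q).coeff k = 0 := by
      intro k hk
      rw [Polynomial.aeval_eq_sum_range' (Nat.lt_succ_of_le hQdeg)]
      rw [HahnSeries.coeff_sum]
      refine Finset.sum_eq_zero fun n hn => ?_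
      have hn' : n ≤ m := Nat.lt_succ_iff.mp (Finset.mem_range.mp hn)
      rw [Algebra.smul_def, algebraMap_eq_C, HahnSeries.C_mul_eq_smul, HahnSeries.coeff_smul,
        jqModC_pow_eq, coeff_single_mul_ofPS_of_lt _ _ (by omega), smul_zero]
    have haC : a ∈ C₀ := by
      have h1 := hc (-((m + 1 : ℕ) : ℤ))
      rw [haeval, HahnSeries.coeff_add, hQlow _ (by push_cast; omega), zero_add,
        HahnSeries.C_mul_eq_smul, HahnSeries.coeff_smul, jqModC_eq,
        coeff_hauptmodul_pow_self _ constantCoeff_jNumC, smul_eq_mul, mul_one] at h1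
      exact h1
    have hQc : ∀ k : ℤ, (Polynomial.aeval (ModularCurve.jqModC ℂ) Q).coeff k ∈ C₀ := by
      intro k
      have h1 := hc k
      rw [haeval, HahnSeries.coeff_add, HahnSeries.C_mul_eq_smul, HahnSeries.coeff_smul,
        smul_eq_mul] at h1
      have h2 : a * (ModularCurve.jqModC ℂ ^ (m + 1)).coeff k ∈ C₀ :=
        C₀.mul_mem haC (coeff_jqModC_pow_mem C₀ _ _)
      have := C₀.sub_mem h1 h2
      simpa using this
    have hQi := ih Q hQdeg hQc i
    have hPi : P.coeff i = Q.coeff i + (Polynomial.C a * Polynomial.X ^ (m + 1)).coeff i := by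
      rw [hQ, Polynomial.coeff_sub]
      ring
    rw [hPi]
    refine C₀.add_mem hQi ?_
    rw [Polynomial.coeff_C_mul, Polynomial.coeff_X_pow]
    split_ifs
    · simpa using haC
    · simp

/-- **The `j`-polynomial principle with coefficients in a subring.** -/
theorem exists_polynomial_of_S_invariant_of_mem (C₀ : Subring ℂ) (F : ℍ → ℂ)
    (φ : LaurentSeries ℂ) (hφ : ∀ n : ℤ, φ.coeff n ∈ C₀) (hF : HasQLaurent 1 F φ)
    (hS : ∀ τ, F (ModularGroup.S • τ) = F τ) :
    ∃ P : Polynomial ℂ, (∀ i, P.coeff i ∈ C₀) ∧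
      φ = Polynomial.aeval (ModularCurve.jqModC ℂ) P ∧ ∀ τ, F τ = P.eval (jFun τ) := by
  obtain ⟨P, h1, h2⟩ := exists_polynomial_of_S_invariant' F φ hF hS
  exact ⟨P, coeff_mem_of_aeval_jqModC C₀ P.natDegree P le_rfl (fun k => h1 ▸ hφ k), h1, h2⟩

end

end Fermat.Agent.S28.H685

end
-- ===== PACK-END S28/H685/JIntegral.lean

-- ===== PACK-BEGIN S28/H589/Descent.lean
section








/-!
# S28 / A-Φ, A-W descent, formal part 2 (helper589): from `ℂ[Y][X]` to `ℤ[Y][X]`

`descent`: let `Φ ∈ ℂ[Y][X]` be monic of degree `p+1` in `X`, and `g, f ∈ ℤ((q))` with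
`ord f` prime to `p`, `f ≠ V_p g`, such that in `ℂ((q))`
`Φ(X := g, Y := j) = 0` and `Φ(X := f, Y := V_p j) = 0`.
Then `Φ` has integer coefficients: `Φ(X, j) = (X - g) · χ` where `χ` is the characteristic
polynomial of the section matrix of `f` (which lives over `ℤ((q))`).
-/

set_option autoImplicit false

noncomputable section

open ModularCurve HahnSeries Polynomial

namespace Fermat.Agent.S28.H589

/-- Base change of coefficients `ℤ((q)) → ℂ((q))`. -/
abbrev iotaC : LaurentSeries ℤ →+* LaurentSeries ℂ := coeffMap (Int.castRingHom ℂ)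

theorem iotaC_injective : Function.Injective iotaC := by
  intro x y h
  ext k
  have := congrArg (fun z => z.coeff k) h
  simp only [coeffMap_coeff, Int.coe_castRingHom] at this
  exact_mod_cast this

theorem iotaC_eq_zero_iff (x : LaurentSeries ℤ) : iotaC x = 0 ↔ x = 0 := by
  constructor
  · intro h
    exact iotaC_injective (by rw [h, map_zero])
  · rintro rfl
    exact map_zero _

theorem iotaC_coeff_eq_zero_iff (x : LaurentSeries ℤ) (n : ℤ) :
    (iotaC x).coeff n = 0 ↔ x.coeff n = 0 := by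
  simp only [coeffMap_coeff, Int.coe_castRingHom, Int.cast_eq_zero]

theorem order_iotaC (x : LaurentSeries ℤ) : (iotaC x).order = x.order := by
  by_cases hx : x = 0
  · subst hx
    simp
  · have hx' : iotaC x ≠ 0 := fun h => hx ((iotaC_eq_zero_iff x).mp h)
    apply le_antisymm
    · apply HahnSeries.order_le_of_coeff_ne_zero
      rw [Ne, iotaC_coeff_eq_zero_iff]
      exact fun h => hx (HahnSeries.coeff_order_eq_zero.mp h)
    · apply HahnSeries.order_le_of_coeff_ne_zero
      rw [Ne, ← iotaC_coeff_eq_zero_iff]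
      exact fun h => hx' (HahnSeries.coeff_order_eq_zero.mp h)

/-- Evaluation `ℂ[Y] → ℂ((q))`, `Y ↦ y`. -/
def evC (y : LaurentSeries ℂ) : Polynomial ℂ →+* LaurentSeries ℂ :=
  Polynomial.eval₂RingHom HahnSeries.C y

theorem evC_apply (y : LaurentSeries ℂ) (P : Polynomial ℂ) :
    evC y P = Polynomial.eval₂ HahnSeries.C y P := rfl

theorem evC_eq_aeval (y : LaurentSeries ℂ) (P : Polynomial ℂ) :
    evC y P = Polynomial.aeval y P := by
  rw [evC_apply, Polynomial.aeval_def]
  congr 1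
  ext c : 1
  exact (Fermat.Agent.S28.H685.algebraMap_eq_C c).symm

theorem qExpand_comp_evC (p : ℕ) [NeZero p] (y : LaurentSeries ℂ) :
    (qExpand ℂ p).comp (evC y) = evC (qExpand ℂ p y) := by
  refine Polynomial.ringHom_ext (fun c => ?_) ?_
  · simp [evC]
  · simp [evC]

theorem iotaC_comp_evalAt (y : LaurentSeries ℤ) :
    iotaC.comp (evalAt y) = (evC (iotaC y)).comp (Polynomial.mapRingHom (Int.castRingHom ℂ)) := by
  refine Polynomial.ringHom_ext' (Subsingleton.elim _ _) ?_
  simp [evalAt, evC]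

/-- Transfer of a vanishing relation from `ℂ((q))` to `ℤ((q))`. -/
theorem eval₂_evalAt_eq_zero_of (Ψ : Polynomial (Polynomial ℤ)) (y x : LaurentSeries ℤ)
    (h : (Ψ.map (Polynomial.mapRingHom (Int.castRingHom ℂ))).eval₂ (evC (iotaC y)) (iotaC x) = 0) :
    Ψ.eval₂ (evalAt y) x = 0 := by
  apply iotaC_injective
  rw [Polynomial.hom_eval₂, iotaC_comp_evalAt, ← Polynomial.eval₂_map, h, map_zero]

/-- **Descent.** -/
theorem descent (p : ℕ) [NeZero p]
    (Φ : Polynomial (Polynomial ℂ)) (hΦ : Φ.Monic) (n : ℕ) (hdeg : Φ.natDegree = n)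
    (hn : n = p + 1)
    (g f : LaurentSeries ℤ) (hf0 : f ≠ 0) (hford : IsCoprime f.order (p : ℤ))
    (hne : f ≠ qExpand ℤ p g)
    (h1 : Φ.eval₂ (evC (jqModC ℂ)) (iotaC g) = 0)
    (h2 : Φ.eval₂ (evC (qExpand ℂ p (jqModC ℂ))) (iotaC f) = 0) :
    ∃ Ψ : Polynomial (Polynomial ℤ), Ψ.Monic ∧ Ψ.natDegree = n ∧
      Ψ.eval₂ (evalAt (jqModC ℤ)) g = 0 ∧
      Ψ.eval₂ (evalAt (qExpand ℤ p (jqModC ℤ))) f = 0 := by
  classical
  subst hn
  set V : LaurentSeries ℂ →+* LaurentSeries ℂ := qExpand ℂ p with hV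
  set a : LaurentSeries ℂ := iotaC g with ha
  set x : LaurentSeries ℂ := iotaC f with hx
  -- the polynomial over `ℂ((q))`
  set Φ₁ : Polynomial (LaurentSeries ℂ) := Φ.map (evC (jqModC ℂ)) with hΦ₁
  have hΦ₁m : Φ₁.Monic := hΦ.map _
  have hΦ₁d : Φ₁.natDegree = p + 1 := by rw [hΦ₁, hΦ.natDegree_map, hdeg]
  have hroot : Φ₁.IsRoot a := by
    rw [Polynomial.IsRoot, hΦ₁, Polynomial.eval_map]; exact h1
  obtain ⟨G, hG⟩ := Polynomial.dvd_iff_isRoot.mpr hroot
  have hGm : G.Monic := by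
    have : ((X - Polynomial.C a) * G).Monic := hG ▸ hΦ₁m
    exact (Polynomial.monic_X_sub_C a).of_mul_monic_left this
  have hGd : G.natDegree = p := by
    have h := congrArg Polynomial.natDegree hG
    rw [hΦ₁d, (Polynomial.monic_X_sub_C a).natDegree_mul hGm, Polynomial.natDegree_X_sub_C] at h
    omega
  -- apply `V` to the coefficients
  have hmapV : Φ.map (evC (V (jqModC ℂ))) = (X - Polynomial.C (V a)) * G.map V := by
    have h := congrArg (Polynomial.map V) hG
    rw [hΦ₁, Polynomial.map_map, qExpand_comp_evC] at h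
    rw [h, Polynomial.map_mul, Polynomial.map_sub, Polynomial.map_X, Polynomial.map_C]
  have hxa : x - V a ≠ 0 := by
    intro h
    apply hne
    apply iotaC_injective
    rw [coeffMap_qExpand]
    exact sub_eq_zero.mp h
  have hGV : (G.map V).eval x = 0 := by
    have h := h2
    rw [← Polynomial.eval_map, hmapV, Polynomial.eval_mul, Polynomial.eval_sub,
      Polynomial.eval_X, Polynomial.eval_C] at h
    exact (mul_eq_zero.mp h).resolve_left hxa
  -- the section charpoly
  obtain ⟨χ, hχm, hχd, hχ⟩ := exists_section_charpoly p f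
  set χ' : Polynomial (LaurentSeries ℂ) := χ.map iotaC with hχ'
  have hχ'm : χ'.Monic := hχm.map _
  have hχ'd : χ'.natDegree = p := by rw [hχ', hχm.natDegree_map, hχd]
  have hχ'V : (χ'.map V).eval x = 0 := by
    have h := congrArg iotaC hχ
    rw [Polynomial.eval_map, Polynomial.hom_eval₂, map_zero] at h
    rw [hχ', Polynomial.map_map, Polynomial.eval_map]
    have hcomp : V.comp iotaC = iotaC.comp (qExpand ℤ p) := by
      ext y : 1
      exact (coeffMap_qExpand (Int.castRingHom ℂ) p y).symm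
    rw [hcomp]
    exact h
  -- `G = χ'`
  have hD : G - χ' = 0 := by
    have hVinj : Function.Injective (Polynomial.map V) :=
      Polynomial.map_injective V (qExpand_injective p)
    apply hVinj
    rw [Polynomial.map_zero]
    have hx0 : x ≠ 0 := fun h => hf0 ((iotaC_eq_zero_iff f).mp h)
    have hxord : IsCoprime x.order (p : ℤ) := by rw [hx, order_iotaC]; exact hford
    refine Fermat.Agent.S28.H145.eq_zero_of_eval_eq_zero_of_natDegree_lt p x hx0 hxord _
      (fun m => ?_) ?_ ?_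
    · rw [Polynomial.coeff_map]
      exact ⟨_, rfl⟩
    · refine lt_of_le_of_lt Polynomial.natDegree_map_le ?_
      by_cases hz : G - χ' = 0
      · rw [hz, Polynomial.natDegree_zero]
        exact Nat.pos_of_ne_zero (NeZero.ne p)
      · have hdeg' : (G - χ').degree < G.degree := by
          apply Polynomial.degree_sub_lt_left
          · rw [Polynomial.degree_eq_natDegree hGm.ne_zero,
              Polynomial.degree_eq_natDegree hχ'm.ne_zero, hGd, hχ'd]
          · exact hGm.ne_zero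
          · rw [hGm.leadingCoeff, hχ'm.leadingCoeff]
        rw [Polynomial.degree_eq_natDegree hGm.ne_zero, hGd] at hdeg'
        exact (Polynomial.natDegree_lt_iff_degree_lt hz).mpr hdeg'
    · rw [Polynomial.map_sub, Polynomial.eval_sub, hGV, hχ'V, sub_zero]
  have hGχ : G = χ' := sub_eq_zero.mp hD
  -- coefficients of `Φ₁` are in the image of `ℤ((q))`
  set Θ : Polynomial (LaurentSeries ℤ) := (X - Polynomial.C g) * χ with hΘ
  have hΦ₁Θ : Φ₁ = Θ.map iotaC := by
    rw [hG, hGχ, hΘ, Polynomial.map_mul, Polynomial.map_sub, Polynomial.map_X, Polynomial.map_C]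
  -- every coefficient of `Φ` has integer coefficients
  set C₀ : Subring ℂ := (Int.castRingHom ℂ).range with hC₀
  have hcoef : ∀ k i, (Φ.coeff k).coeff i ∈ C₀ := by
    intro k
    refine Fermat.Agent.S28.H685.coeff_mem_of_aeval_jqModC C₀ (Φ.coeff k).natDegree (Φ.coeff k)
      le_rfl (fun m => ?_)
    have h : Polynomial.aeval (jqModC ℂ) (Φ.coeff k) = iotaC (Θ.coeff k) := by
      rw [← evC_eq_aeval, ← Polynomial.coeff_map, ← hΦ₁, hΦ₁Θ, Polynomial.coeff_map]
    rw [h, coeffMap_coeff]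
    exact ⟨_, rfl⟩
  -- lift `Φ`
  have hlift : Φ ∈ Polynomial.lifts (Polynomial.mapRingHom (Int.castRingHom ℂ)) := by
    rw [Polynomial.lifts_iff_coeff_lifts]
    intro k
    have hk : Φ.coeff k ∈ Polynomial.lifts (Int.castRingHom ℂ) := by
      rw [Polynomial.lifts_iff_coeff_lifts]
      intro i
      exact hcoef k i
    obtain ⟨q, hq⟩ := (Polynomial.mem_lifts _).mp hk
    exact ⟨q, hq⟩
  obtain ⟨Ψ, hΨ, hΨd, hΨm⟩ := Polynomial.lifts_and_natDegree_eq_and_monic hlift hΦ
  refine ⟨Ψ, hΨm, by rw [hΨd, hdeg], ?_, ?_⟩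
  · apply eval₂_evalAt_eq_zero_of
    rw [hΨ, coeffMap_jqModC]
    exact h1
  · apply eval₂_evalAt_eq_zero_of
    rw [hΨ, coeffMap_qExpand, coeffMap_jqModC]
    exact h2

end Fermat.Agent.S28.H589

end

end
-- ===== PACK-END S28/H589/Descent.lean

-- ===== PACK-BEGIN S28/H589/ModPoly.lean
section






/-!
# S28 / [A-Φ] (helper589): the modular polynomial `Φ_p ∈ ℤ[Y][X]`

Analytic input: helper648's conjugate product (`Fermat.Agent.S24.H648.exists_charPoly_jFun`)
gives `Φ ∈ ℂ[Y][X]`, monic of degree `[SL₂(ℤ) : Γ₀(p)] = p + 1`, with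
`Φ(j(pτ), j(τ)) = 0` and `Φ(j(τ), j(pτ)) = 0` as functions on `ℍ`.
helper565's `HasTExp` calculus turns these into identities in `ℂ((q))`, and `descent`
(this directory) shows that `Φ` has integer coefficients.
-/

set_option autoImplicit false

noncomputable section

open UpperHalfPlane ModularCurve CongruenceSubgroup Function
open scoped MatrixGroups Manifold Real

namespace Fermat.Agent.S28.H589

open Fermat.Agent.S28.H565 (HasTExp)
open Fermat.Agent.S24.H648 (goodRing charPolyAt)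

local notation "𝕢" => Periodic.qParam

/-- The scaling map `τ ↦ d τ` on `ℍ`. -/
def scaleH (d : ℕ) (hd : 0 < d) (τ : ℍ) : ℍ :=
  UpperHalfPlane.mk ((d : ℂ) * (τ : ℂ)) (by
    have h : ((d : ℂ) * (τ : ℂ)).im = d * τ.im := by simp
    rw [h]
    exact mul_pos (by exact_mod_cast hd) τ.im_pos)

@[simp]
theorem scaleH_coe (d : ℕ) (hd : 0 < d) (τ : ℍ) : ((scaleH d hd τ : ℍ) : ℂ) = (d : ℂ) * τ := rfl

theorem qParam_scaleH (d : ℕ) (hd : 0 < d) (τ : ℍ) :
    𝕢 1 ((scaleH d hd τ : ℍ) : ℂ) = 𝕢 1 (τ : ℂ) ^ d := by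
  simp only [Periodic.qParam, scaleH_coe]
  rw [← Complex.exp_nat_mul]
  congr 1
  push_cast
  ring

/-- If `f` has `q`-expansion `φ` then `τ ↦ f (d τ)` has `q`-expansion `V_d φ`. -/
theorem hasTExp_comp_scaleH (d : ℕ) [NeZero d] (hd : 0 < d) {f : ℍ → ℂ} {φ : LaurentSeries ℂ}
    (hf : HasTExp 1 f φ) : HasTExp 1 (fun τ => f (scaleH d hd τ)) (qExpand ℂ d φ) := by
  intro τ
  have hm : (d : ℤ) ≠ 0 := by exact_mod_cast NeZero.ne d
  have hι : Function.Injective (fun k : ℤ => (d : ℤ) * k) := mul_right_injective₀ hm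
  have hzero : ∀ n ∉ Set.range (fun k : ℤ => (d : ℤ) * k),
      (qExpand ℂ d φ).coeff n * 𝕢 1 τ ^ n = 0 := by
    intro n hn
    rw [qExpand_coeff_of_not_dvd, zero_mul]
    rintro ⟨c, rfl⟩
    exact hn ⟨c, rfl⟩
  rw [← hι.hasSum_iff hzero]
  have hfun : ((fun n : ℤ => (qExpand ℂ d φ).coeff n * 𝕢 1 τ ^ n) ∘
      fun k : ℤ => (d : ℤ) * k) = fun k : ℤ => φ.coeff k * 𝕢 1 (scaleH d hd τ) ^ k := by
    funext k
    simp only [Function.comp_apply]
    rw [qExpand_coeff_mul, qParam_scaleH, zpow_mul, zpow_natCast]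
  rw [hfun]
  exact hf (scaleH d hd τ)

/-- Two-variable polynomial expressions in functions with `q`-expansions. -/
theorem hasTExp_eval₂ (P : Polynomial (Polynomial ℂ)) {a b : ℍ → ℂ} {α β : LaurentSeries ℂ}
    (ha : HasTExp 1 a α) (hb : HasTExp 1 b β) :
    HasTExp 1 (fun τ => (P.map (Polynomial.evalRingHom (a τ))).eval (b τ))
      (P.eval₂ (evC α) β) := by
  induction P using Polynomial.induction_on' with
  | add p q hp hq =>
    rw [Polynomial.eval₂_add]
    exact (hp.add hq).congr fun τ => by simp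
  | monomial n c =>
    rw [Polynomial.eval₂_monomial, evC_eq_aeval]
    have h1 := (ha.polynomial_aeval c).mul (hb.pow n)
    exact h1.congr fun τ => by simp [Polynomial.eval_monomial]

/-- A function-level identity `P(a(τ))(b(τ)) = 0` gives the formal identity. -/
theorem eval₂_eq_zero_of_forall (P : Polynomial (Polynomial ℂ)) {a b : ℍ → ℂ}
    {α β : LaurentSeries ℂ} (ha : HasTExp 1 a α) (hb : HasTExp 1 b β)
    (h : ∀ τ, (P.map (Polynomial.evalRingHom (a τ))).eval (b τ) = 0) :
    P.eval₂ (evC α) β = 0 := by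
  have h1 := hasTExp_eval₂ P ha hb
  have h2 : HasTExp 1 (0 : ℍ → ℂ) (P.eval₂ (evC α) β) := h1.congr fun τ => by simp [h τ]
  exact h2.eq_zero one_pos

theorem jFun648_eq : (Fermat.Agent.S24.H648.jFun : ℍ → ℂ) = Fermat.Agent.S28.H565.jFun := rfl

theorem scaleH_S_scaleH (p : ℕ) (hp : 0 < p) (w : ℍ) :
    scaleH p hp (ModularGroup.S • scaleH p hp w) = ModularGroup.S • w := by
  apply UpperHalfPlane.ext
  rw [scaleH_coe, UpperHalfPlane.modular_S_smul, UpperHalfPlane.modular_S_smul]
  simp only [scaleH_coe]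
  have hw : (w : ℂ) ≠ 0 := UpperHalfPlane.ne_zero w
  have hp' : (p : ℂ) ≠ 0 := by exact_mod_cast hp.ne'
  field_simp

theorem dedekindPsi_prime (p : ℕ) (hp : p.Prime) : ModularCurve.dedekindPsi p = p + 1 := by
  have h := Fermat.Agent.S20.H872.dedekindPsi_mul_prime_of_not_dvd (N := 1) one_ne_zero hp
    (by
      intro h
      exact hp.one_lt.ne' (Nat.dvd_one.mp h))
  rwa [one_mul, ModularCurve.dedekindPsi_one, mul_one] at h

theorem finite_quot_Gamma0 (N : ℕ) [NeZero N] : Finite (SL(2, ℤ) ⧸ Gamma0 N) := by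
  apply Nat.finite_of_card_ne_zero
  rw [Fermat.Agent.S20.H872.card_quot_Gamma0]
  intro h
  have hpos : 0 < ModularCurve.dedekindPsi N := by
    unfold ModularCurve.dedekindPsi
    apply Finset.sum_pos'
    · intro d _; exact Nat.zero_le _
    · refine ⟨1, ?_, ?_⟩
      · simp [NeZero.ne N]
      · simp [Nat.pos_of_ne_zero (NeZero.ne N)]
  omega

/-- The fintype structure on `SL₂(ℤ) / Γ₀(N)` used for the conjugate product. -/
@[reducible] def fintypeQuot (N : ℕ) [NeZero N] : Fintype (SL(2, ℤ) ⧸ Gamma0 N) :=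
  haveI := finite_quot_Gamma0 N
  Fintype.ofFinite _

theorem card_quot_prime (p : ℕ) [NeZero p] (hp : p.Prime) :
    @Fintype.card (SL(2, ℤ) ⧸ Gamma0 p) (fintypeQuot p) = p + 1 := by
  letI := fintypeQuot p
  rw [← Nat.card_eq_fintype_card, Fermat.Agent.S20.H872.card_quot_Gamma0, dedekindPsi_prime p hp]

/-- The complex modular polynomial with its two formal vanishing relations. -/
theorem exists_modPoly_complex (p : ℕ) [NeZero p] (hp : p.Prime) :
    ∃ Φ : Polynomial (Polynomial ℂ), Φ.Monic ∧ Φ.natDegree = p + 1 ∧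
      Φ.eval₂ (evC (jqModC ℂ)) (qExpand ℂ p (jqModC ℂ)) = 0 ∧
      Φ.eval₂ (evC (qExpand ℂ p (jqModC ℂ))) (jqModC ℂ) = 0 := by
  letI := fintypeQuot p
  set f₀ : ℍ → ℂ := fun τ => Fermat.Agent.S24.H648.jFun (scaleH p hp.pos τ) with hf₀
  have hf : f₀ ∈ goodRing p :=
    Fermat.Agent.S24.H648.jFun_scale_mem_goodRing p p hp.pos dvd_rfl (scaleH p hp.pos)
      (fun τ => rfl)
  obtain ⟨P, hPm, hPd, hP⟩ := Fermat.Agent.S24.H648.exists_charPoly_jFun hf
  have hj : HasTExp 1 Fermat.Agent.S24.H648.jFun (jqModC ℂ) := by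
    rw [jFun648_eq]; exact Fermat.Agent.S28.H565.hasTExp_jFun
  have hjp : HasTExp 1 f₀ (qExpand ℂ p (jqModC ℂ)) := hasTExp_comp_scaleH p hp.pos hj
  refine ⟨P, hPm, ?_, ?_, ?_⟩
  · rw [hPd]; exact card_quot_prime p hp
  · refine eval₂_eq_zero_of_forall P hj hjp fun τ => ?_
    rw [hP]
    exact Fermat.Agent.S24.H648.charPolyAt_eval_self hf.2.1 τ
  · refine eval₂_eq_zero_of_forall P hjp hj fun w => ?_
    show (P.map (Polynomial.evalRingHom
      (Fermat.Agent.S24.H648.jFun (scaleH p hp.pos w)))).eval (Fermat.Agent.S24.H648.jFun w) = 0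
    rw [hP]
    have hconj : Fermat.Agent.S24.H648.conj p f₀
        (((ModularGroup.S)⁻¹ : SL(2, ℤ)) : SL(2, ℤ) ⧸ Gamma0 p) (scaleH p hp.pos w)
        = Fermat.Agent.S24.H648.jFun w := by
      rw [Fermat.Agent.S24.H648.conj_mk hf.2.1, inv_inv]
      show Fermat.Agent.S24.H648.jFun (scaleH p hp.pos (ModularGroup.S • scaleH p hp.pos w)) = _
      rw [scaleH_S_scaleH, Fermat.Agent.S24.H648.jFun_smul]
    rw [← hconj]
    exact Fermat.Agent.S24.H648.charPolyAt_eval_conj f₀ _ _

theorem jqModC_int_ne_zero : jqModC ℤ ≠ 0 := jqModC_ne_zero_of_nontrivial ℤ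

theorem order_jqModC_int : (jqModC ℤ).order = -1 := by
  rw [← order_iotaC, iotaC, coeffMap_jqModC]
  exact Fermat.Agent.S28.H145.order_jqModC ℂ

/-- **[A-Φ]** -/
theorem nonempty_modPolyData (p : ℕ) [NeZero p] (hp : p.Prime) : Nonempty (ModPolyData p) := by
  obtain ⟨Φ, hΦm, hΦd, h1, h2⟩ := exists_modPoly_complex p hp
  have hne : jqModC ℤ ≠ qExpand ℤ p (qExpand ℤ p (jqModC ℤ)) := by
    intro h
    have hc : (jqModC ℤ).coeff (-1) = (qExpand ℤ p (qExpand ℤ p (jqModC ℤ))).coeff (-1) :=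
      congrArg (fun z => z.coeff (-1)) h
    rw [qExpand_coeff_of_not_dvd] at hc
    · have h1 : (jqModC ℤ).coeff (-1) ≠ 0 := by
        have := HahnSeries.coeff_order_eq_zero (x := jqModC ℤ)
        rw [order_jqModC_int] at this
        exact fun h0 => jqModC_int_ne_zero (this.mp h0)
      exact h1 hc
    · intro hdvd
      have h2 : (p : ℤ) ∣ 1 := (Int.dvd_neg).mp hdvd
      have h3 : p ∣ 1 := by exact_mod_cast h2
      exact hp.one_lt.ne' (Nat.dvd_one.mp h3)
  have hcop : IsCoprime (jqModC ℤ).order (p : ℤ) := by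
    rw [order_jqModC_int]
    exact (isCoprime_one_left (x := (p : ℤ))).neg_left
  obtain ⟨Ψ, hΨm, hΨd, hΨ1, hΨ2⟩ := descent p Φ hΦm (p + 1) hΦd rfl
    (qExpand ℤ p (jqModC ℤ)) (jqModC ℤ) jqModC_int_ne_zero hcop hne
    (by rw [iotaC, coeffMap_qExpand, coeffMap_jqModC]; exact h1)
    (by rw [iotaC, coeffMap_jqModC]; exact h2)
  exact ⟨⟨Ψ, hΨm, hΨd, hΨ1, hΨ2⟩⟩

end Fermat.Agent.S28.H589

end

end
-- ===== PACK-END S28/H589/ModPoly.lean

-- ===== PACK-BEGIN S28/H589/UnitAnalytic.lean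
section





/-!
# S28 / [A-W], analytic part (helper589): the unit `p¹² Δ(pτ)/Δ(τ)` is a good function

We show that `u(τ) = p¹² Δ(pτ)/Δ(τ)` belongs to helper648's `goodRing p`
(holomorphic, `Γ₀(p)`-invariant, all `SL₂(ℤ)`-translates of at most exponential growth).
-/

set_option autoImplicit false

noncomputable section

open UpperHalfPlane ModularCurve CongruenceSubgroup Function Filter Asymptotics
open scoped MatrixGroups Manifold Real Modular

namespace Fermat.Agent.S28.H589

open Fermat.Agent.S24.H648 (goodRing ExpGrowth)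

local notation "Δ" => ModularForm.discriminant

/-- The unit `u(τ) = p¹² Δ(pτ)/Δ(τ)`. -/
def unitFun (p : ℕ) (hp : 0 < p) (τ : ℍ) : ℂ :=
  (p : ℂ) ^ 12 * Δ (scaleH p hp τ) * (Δ τ)⁻¹

/-- Its conjugate under `S` evaluated at `pτ`: `Δ(τ)/Δ(pτ)`. -/
def unitFun' (p : ℕ) (hp : 0 < p) (τ : ℍ) : ℂ :=
  Δ τ * (Δ (scaleH p hp τ))⁻¹

theorem continuous_discriminant : Continuous (Δ : ℍ → ℂ) :=
  (Fermat.Agent.S28.H565.mdifferentiable_discriminant).continuous

/-- `‖Δ τ‖ · (im τ)⁶` is bounded. -/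
theorem exists_discriminant_bound : ∃ C : ℝ, ∀ τ : ℍ, ‖Δ τ‖ * τ.im ^ 6 ≤ C := by
  obtain ⟨C, hC⟩ := CuspFormClass.exists_bound (k := 12) (Γ := 𝒮ℒ) CuspForm.discriminant
  refine ⟨C, fun τ => ?_⟩
  have h := hC τ
  have him : 0 < τ.im := τ.im_pos
  have hpow : τ.im ^ (((12 : ℤ) : ℝ) / 2) = τ.im ^ 6 := by
    have : (((12 : ℤ) : ℝ) / 2) = ((6 : ℕ) : ℝ) := by norm_num
    rw [this, Real.rpow_natCast]
  rw [hpow] at h
  have h6 : 0 < τ.im ^ 6 := by positivity
  have h' : ‖Δ τ‖ ≤ C / τ.im ^ 6 := h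
  rwa [le_div_iff₀ h6] at h'

/-- `‖Δ τ‖ · (im τ)⁶` is `SL₂(ℤ)`-invariant. -/
theorem discriminant_norm_mul_im_smul (g : SL(2, ℤ)) (τ : ℍ) :
    ‖Δ (g • τ)‖ * (g • τ).im ^ 6 = ‖Δ τ‖ * τ.im ^ 6 := by
  rw [Fermat.Agent.S24.H648.discriminant_smul, ModularGroup.im_smul_eq_div_normSq, norm_mul,
    norm_zpow]
  have hd : denom g τ ≠ 0 := denom_ne_zero _ _
  have hn : 0 < Complex.normSq (denom g τ) := Complex.normSq_pos.mpr hd
  have h1 : ‖denom g τ‖ ^ (12 : ℤ) = Complex.normSq (denom g τ) ^ 6 := by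
    rw [Complex.normSq_eq_norm_sq, ← pow_mul]
    norm_cast
  rw [h1, div_pow]
  field_simp

/-- `1/Δ` has at most exponential growth on `im τ ≥ 1`. -/
theorem exists_inv_discriminant_bound :
    ∃ C : ℝ, ∀ τ : ℍ, 1 ≤ τ.im → ‖(Δ τ)⁻¹‖ ≤ C * Real.exp (2 * π * τ.im) := by
  have hcont : Continuous (fun τ : ℍ => (Δ τ)⁻¹) :=
    continuous_discriminant.inv₀ fun τ => ModularForm.discriminant_ne_zero τ
  have hinv : (fun τ : ℍ => (Δ τ)⁻¹)
      =O[atImInfty] fun τ : ℍ => Real.exp (2 * π * (1 : ℝ) * τ.im) := by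
    have hΔ := ModularForm.exp_isBigO_discriminant
    have h1 : (fun τ : ℍ => (Δ τ)⁻¹)
        =O[atImInfty] fun τ : ℍ => (Real.exp (-2 * π * τ.im))⁻¹ := by
      refine hΔ.inv_rev ?_
      exact Eventually.of_forall fun τ h => absurd h (Real.exp_pos _).ne'
    refine h1.congr_right fun τ => ?_
    rw [← Real.exp_neg]
    congr 1
    ring
  obtain ⟨C, hC⟩ := Fermat.Agent.S24.H648.exists_bound_fd_of_isBigO_exp hcont 1 hinv
  refine ⟨C, fun τ hτ => ?_⟩
  -- translate into the fundamental domain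
  set n : ℤ := -round τ.re with hn
  set τ' : ℍ := ModularGroup.T ^ n • τ with hτ'
  have hcoe : (τ' : ℂ) = τ + n := ModularGroup.coe_T_zpow_smul_eq τ
  have him : τ'.im = τ.im := by
    have := congrArg Complex.im hcoe
    simpa using this
  have hre : τ'.re = τ.re - round τ.re := by
    have := congrArg Complex.re hcoe
    simp only [Complex.add_re, Complex.intCast_re, hn] at this
    rw [UpperHalfPlane.coe_re, UpperHalfPlane.coe_re] at this
    rw [this]
    push_cast
    ring
  have hfd : τ' ∈ 𝒟 := by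
    refine ⟨?_, ?_⟩
    · rw [Complex.normSq_apply]
      have h1 : (τ' : ℂ).im = τ.im := by rw [UpperHalfPlane.coe_im, him]
      rw [h1]
      nlinarith [mul_self_nonneg (τ' : ℂ).re]
    · rw [hre]
      exact abs_sub_round _
  have hΔ : Δ τ' = Δ τ := by
    rw [hτ', Fermat.Agent.S28.H565.discriminant_smul, ModularGroup.coe_T_zpow]
    simp
  have h := hC τ' hfd
  rw [hΔ, him] at h
  simpa using h

/-- Pure real-number bookkeeping for `expGrowth_unitFun_smul`. -/
theorem unit_real_aux (P X Y D a b C₁ C₂ E : ℝ) (hP : 0 < P) (ha : 0 < a)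
    (hb : 1 ≤ b) (hD : 0 < D) (hY : 0 < Y) (hC₁ : 0 ≤ C₁)
    (hX : X * (P * a) ^ 6 ≤ C₁) (hinv : Y * a ^ 6 = D * b ^ 6) (h2 : D⁻¹ ≤ C₂ * E) :
    P ^ 12 * X * Y⁻¹ ≤ P ^ 6 * C₁ * C₂ * E := by
  have hb0 : 0 < b := lt_of_lt_of_le one_pos hb
  have ha6 : 0 < a ^ 6 := pow_pos ha 6
  have hb6 : 1 ≤ b ^ 6 := one_le_pow₀ hb
  have hP6 : 0 < P ^ 6 := pow_pos hP 6
  have hYinv : Y⁻¹ = a ^ 6 * D⁻¹ * (b ^ 6)⁻¹ := by
    have hY' : Y = D * b ^ 6 / a ^ 6 := by
      rw [eq_div_iff ha6.ne']; exact hinv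
    rw [hY', inv_div, div_eq_mul_inv, mul_inv, mul_assoc]
  have hbinv : (b ^ 6)⁻¹ ≤ 1 := inv_le_one_of_one_le₀ hb6
  have hDinv : 0 < D⁻¹ := inv_pos.mpr hD
  have h3 : P ^ 12 * X * Y⁻¹ = P ^ 6 * (X * (P * a) ^ 6) * D⁻¹ * (b ^ 6)⁻¹ := by
    rw [hYinv]; ring
  rw [h3]
  have h4 : P ^ 6 * (X * (P * a) ^ 6) ≤ P ^ 6 * C₁ := mul_le_mul_of_nonneg_left hX hP6.le
  have h5 : P ^ 6 * (X * (P * a) ^ 6) * D⁻¹ ≤ P ^ 6 * C₁ * D⁻¹ :=
    mul_le_mul_of_nonneg_right h4 hDinv.le
  have h6 : 0 ≤ P ^ 6 * C₁ * D⁻¹ := by positivity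
  have h7 : P ^ 6 * (X * (P * a) ^ 6) * D⁻¹ * (b ^ 6)⁻¹ ≤ P ^ 6 * C₁ * D⁻¹ := by
    have h8 : P ^ 6 * (X * (P * a) ^ 6) * D⁻¹ * (b ^ 6)⁻¹
        ≤ P ^ 6 * C₁ * D⁻¹ * (b ^ 6)⁻¹ :=
      mul_le_mul_of_nonneg_right h5 (inv_nonneg.mpr (by positivity))
    exact h8.trans (mul_le_of_le_one_right h6 hbinv)
  refine h7.trans ?_
  have h9 : P ^ 6 * C₁ * D⁻¹ ≤ P ^ 6 * C₁ * (C₂ * E) :=
    mul_le_mul_of_nonneg_left h2 (by positivity)
  refine h9.trans (le_of_eq ?_)
  ring

theorem im_scaleH (p : ℕ) (hp : 0 < p) (τ : ℍ) : (scaleH p hp τ).im = p * τ.im := by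
  have h : ((scaleH p hp τ : ℍ) : ℂ).im = ((p : ℂ) * (τ : ℂ)).im := rfl
  rw [UpperHalfPlane.coe_im] at h
  rw [h]
  simp

/-- Growth of all translates of the unit. -/
theorem expGrowth_unitFun_smul (p : ℕ) (hp : 0 < p) (g : SL(2, ℤ)) :
    ExpGrowth (fun τ => unitFun p hp (g • τ)) := by
  obtain ⟨C₁, hC₁⟩ := exists_discriminant_bound
  obtain ⟨C₂, hC₂⟩ := exists_inv_discriminant_bound
  have hC₁0 : 0 ≤ C₁ := le_trans (by positivity) (hC₁ UpperHalfPlane.I)
  refine ⟨(p : ℝ) ^ 6 * C₁ * C₂, 1, fun τ hτ => ?_⟩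
  have hX := hC₁ (scaleH p hp (g • τ))
  rw [im_scaleH] at hX
  have h2 := hC₂ τ hτ
  rw [norm_inv] at h2
  have key := unit_real_aux (p : ℝ) ‖Δ (scaleH p hp (g • τ))‖ ‖Δ (g • τ)‖ ‖Δ τ‖ (g • τ).im τ.im
    C₁ C₂ (Real.exp (2 * π * τ.im)) (by exact_mod_cast hp) (g • τ).im_pos hτ
    (norm_pos_iff.mpr (ModularForm.discriminant_ne_zero τ))
    (norm_pos_iff.mpr (ModularForm.discriminant_ne_zero _)) hC₁0 hX
    (discriminant_norm_mul_im_smul g τ) h2
  show ‖unitFun p hp (g • τ)‖ ≤ _
  rw [unitFun, norm_mul, norm_mul, norm_pow, norm_inv, Complex.norm_natCast]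
  refine key.trans (le_of_eq ?_)
  push_cast
  ring_nf

end Fermat.Agent.S28.H589

end

end
-- ===== PACK-END S28/H589/UnitAnalytic.lean

-- ===== PACK-BEGIN S24/H864/FF3d.lean
section



/-!
# S24 / ALG / FF1+FF3 (part d): the fundamental identity `∑_{v(t)>0} v(t) = [F : K(t)]`
-/

set_option autoImplicit false

noncomputable section

open AlgebraicCurve IntermediateField IsDedekindDomain
open scoped IntermediateField.algebraAdjoinAdjoin

namespace Fermat.Agent.S24.H864

variable {K F : Type*} [Field K] [Field F] [Algebra K F]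

section Inst

variable (K) (t : F)

theorem polyRing_isPrincipalIdealRing (ht : Transcendental K t) :
    IsPrincipalIdealRing (polyRing K t) :=
  IsPrincipalIdealRing.of_surjective (polyEquiv K t ht).toAlgHom.toRingHom
    (polyEquiv K t ht).surjective

theorem tR_ne_zero (ht : Transcendental K t) : tR K t ≠ 0 := by
  intro h
  have h1 : t = 0 := congrArg Subtype.val h
  rw [h1] at ht
  exact ht (isAlgebraic_zero)

theorem tR_prime (ht : Transcendental K t) : Prime (tR K t) := by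
  rw [← polyEquiv_X K t ht]
  exact (MulEquiv.prime_iff (polyEquiv K t ht).toMulEquiv).mpr Polynomial.prime_X

theorem exists_sub_mem_span_tR (ht : Transcendental K t) (r : polyRing K t) :
    ∃ c : K, r - algebraMap K (polyRing K t) c ∈ Ideal.span {tR K t} := by
  obtain ⟨P, rfl⟩ := (polyEquiv K t ht).surjective r
  refine ⟨P.coeff 0, ?_⟩
  rw [Ideal.mem_span_singleton']
  refine ⟨polyEquiv K t ht P.divX, ?_⟩
  rw [← polyEquiv_X K t ht, ← map_mul, ← AlgEquiv.commutes (polyEquiv K t ht), ← map_sub]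
  congr 1
  conv_rhs => rw [← Polynomial.divX_mul_X_add P]
  simp [Polynomial.algebraMap_eq]

theorem coe_mem_valuationSubring_of_ord_nonneg (v : Place K F) (hv : 0 ≤ v.ord t)
    (r : polyRing K t) : (r : F) ∈ v.toValuationSubring := by
  obtain ⟨r, hr⟩ := r
  show r ∈ v.toValuationSubring
  induction hr using Algebra.adjoin_induction with
  | mem x hx =>
      rw [Set.mem_singleton_iff] at hx
      rw [hx]
      exact (FF.mem_iff_ord_nonneg v).mpr hv
  | algebraMap c => exact v.algebraMap_mem' c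
  | add x y _ _ hx hy => exact add_mem hx hy
  | mul x y _ _ hx hy => exact mul_mem hx hy

end Inst

section Main

variable [IsAlgClosed K] [CharZero K]

/-- **Fundamental identity (FF1).**  For `t` transcendental over `K` with `F / K(t)` finite,
the zeros of `t`, counted with multiplicity, are `[F : K(t)]` in number. -/
theorem fundamental_identity (t : F) (ht : Transcendental K t)
    [FiniteDimensional ↥(IntermediateField.adjoin K {t}) F]
    (s : Finset (Place K F)) (hs : ∀ v : Place K F, v ∈ s ↔ 0 < v.ord t) :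
    ∑ v ∈ s, v.ord t = (Module.finrank ↥(IntermediateField.adjoin K {t}) F : ℤ) := by
  haveI : IsPrincipalIdealRing (polyRing K t) := polyRing_isPrincipalIdealRing K t ht
  haveI : IsScalarTower (polyRing K t) (integralClosure (polyRing K t) F) F :=
    Subalgebra.isScalarTower_mid _
  haveI : IsFractionRing (integralClosure (polyRing K t) F) F :=
    integralClosure.isFractionRing_of_finite_extension K⟮t⟯ F
  haveI : IsDedekindDomain (integralClosure (polyRing K t) F) :=
    IsIntegralClosure.isDedekindDomain (polyRing K t) K⟮t⟯ F (integralClosure (polyRing K t) F)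
  haveI : Module.Finite (polyRing K t) (integralClosure (polyRing K t) F) :=
    IsIntegralClosure.finite (polyRing K t) K⟮t⟯ F (integralClosure (polyRing K t) F)
  have hfin : Module.finrank K⟮t⟯ F
      = Module.finrank (polyRing K t) (integralClosure (polyRing K t) F) :=
    IsFractionRing.finrank_eq (polyRing K t) K⟮t⟯ (integralClosure (polyRing K t) F) F
  have hprime : (Ideal.span {tR K t}).IsPrime :=
    (Ideal.span_singleton_prime (tR_ne_zero K t ht)).mpr (tR_prime K t ht)
  have hne : Ideal.span {tR K t} ≠ ⊥ := by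
    rw [Ne, Ideal.span_singleton_eq_bot]
    exact tR_ne_zero K t ht
  haveI hmax : (Ideal.span {tR K t}).IsMaximal := hprime.isMaximal hne
  have hinj : Function.Injective
      (algebraMap (polyRing K t) (integralClosure (polyRing K t) F)) := by
    intro a b hab
    have := congrArg (algebraMap (integralClosure (polyRing K t) F) F) hab
    rw [← IsScalarTower.algebraMap_apply, ← IsScalarTower.algebraMap_apply] at this
    exact Subtype.ext this
  rw [hfin]
  exact fundamental_identity_abstract (K := K) (F := F)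
    (S := integralClosure (polyRing K t) F) (R := polyRing K t)
    (Ideal.span {tR K t}) (tR K t) rfl (tR_ne_zero K t ht) hinj
    (exists_sub_mem_span_tR K t ht)
    (fun v hv r => coe_mem_valuationSubring_of_ord_nonneg K t v hv.le r) s hs

end Main

end Fermat.Agent.S24.H864

end
end
-- ===== PACK-END S24/H864/FF3d.lean

-- ===== PACK-BEGIN S24/H864/FF3e.lean
section



/-!
# S24 / ALG / FF3: a principal divisor has degree zero
-/

set_option autoImplicit false

noncomputable section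

open AlgebraicCurve IntermediateField

namespace Fermat.Agent.S24.H864

variable {K F : Type*} [Field K] [Field F] [Algebra K F]

theorem adjoin_simple_inv_eq (f : F) : K⟮f⁻¹⟯ = K⟮f⟯ := by
  apply le_antisymm
  · rw [IntermediateField.adjoin_simple_le_iff]
    exact inv_mem (IntermediateField.mem_adjoin_simple_self K f)
  · rw [IntermediateField.adjoin_simple_le_iff]
    have h := inv_mem (IntermediateField.mem_adjoin_simple_self K f⁻¹)
    rwa [inv_inv] at h

theorem transcendental_inv {f : F} (hf : Transcendental K f) : Transcendental K f⁻¹ := by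
  intro h
  apply hf
  have := h.inv
  rwa [inv_inv] at this

variable [IsAlgClosed K] [CharZero K]

/-- the number of zeros equals the number of poles -/
theorem sum_ord_pos_eq_sum_ord_neg (f : F) (hf : Transcendental K f)
    [FiniteDimensional ↥(IntermediateField.adjoin K {f}) F]
    (sp sn : Finset (Place K F)) (hsp : ∀ v : Place K F, v ∈ sp ↔ 0 < v.ord f)
    (hsn : ∀ v : Place K F, v ∈ sn ↔ v.ord f < 0) :
    ∑ v ∈ sp, v.ord f + ∑ v ∈ sn, v.ord f = 0 := by
  have h1 := fundamental_identity f hf sp hsp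
  have hfi : Transcendental K f⁻¹ := transcendental_inv hf
  haveI : FiniteDimensional ↥(IntermediateField.adjoin K {f⁻¹}) F := by
    rw [adjoin_simple_inv_eq]; infer_instance
  have hsn' : ∀ v : Place K F, v ∈ sn ↔ 0 < v.ord f⁻¹ := by
    intro v
    rw [hsn, Place.ord_inv]
    omega
  have h2 := fundamental_identity f⁻¹ hfi sn hsn'
  have h3 : Module.finrank ↥(IntermediateField.adjoin K {f⁻¹}) F
      = Module.finrank ↥(IntermediateField.adjoin K {f}) F := by
    rw [adjoin_simple_inv_eq]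
  have h4 : ∑ v ∈ sn, v.ord f = -∑ v ∈ sn, v.ord f⁻¹ := by
    rw [← Finset.sum_neg_distrib]
    refine Finset.sum_congr rfl fun v _ => ?_
    rw [Place.ord_inv, neg_neg]
  rw [h1, h4, h2, h3]
  ring

/-- **FF3.**  A principal divisor has degree zero. -/
theorem degree_principal (j : F) (hj : Transcendental K j)
    [FiniteDimensional ↥(IntermediateField.adjoin K {j}) F] (f : F) (hf : f ≠ 0)
    (D : Divisor K F) (hD : ∀ v : Place K F, D v = v.ord f) : Divisor.degree D = 0 := by
  classical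
  have hdeg : Divisor.degree D = ∑ v ∈ D.support, v.ord f := by
    show Finsupp.liftAddHom (fun v : Place K F => AddMonoidHom.mulRight (v.deg : ℤ)) D = _
    rw [Finsupp.liftAddHom_apply, Finsupp.sum]
    refine Finset.sum_congr rfl fun v _ => ?_
    rw [AddMonoidHom.coe_mulRight, hD v, FF.deg_eq_one v hj]
    simp
  rw [hdeg]
  by_cases hfK : f ∈ (algebraMap K F).range
  · obtain ⟨c, rfl⟩ := hfK
    refine Finset.sum_eq_zero fun v _ => FF.ord_algebraMap v c
  · have hft : Transcendental K f := FF.transcendental_of_not_mem_range hfK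
    haveI : FiniteDimensional ↥(IntermediateField.adjoin K {f}) F :=
      FF.finiteDimensional_adjoin_of_transcendental hj hft
    have hsupp : ∀ v : Place K F, v ∈ D.support ↔ v.ord f ≠ 0 := by
      intro v
      rw [Finsupp.mem_support_iff, hD v]
    set sp := D.support.filter (fun v => 0 < v.ord f) with hsp
    set sn := D.support.filter (fun v => v.ord f < 0) with hsn
    have hsp' : ∀ v : Place K F, v ∈ sp ↔ 0 < v.ord f := by
      intro v
      rw [hsp, Finset.mem_filter, hsupp]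
      constructor
      · exact fun h => h.2
      · exact fun h => ⟨by omega, h⟩
    have hsn' : ∀ v : Place K F, v ∈ sn ↔ v.ord f < 0 := by
      intro v
      rw [hsn, Finset.mem_filter, hsupp]
      constructor
      · exact fun h => h.2
      · exact fun h => ⟨by omega, h⟩
    have hkey := sum_ord_pos_eq_sum_ord_neg f hft sp sn hsp' hsn'
    have hunion : D.support = sp ∪ sn := by
      ext v
      rw [Finset.mem_union, hsp', hsn', hsupp]
      omega
    have hdisj : Disjoint sp sn := by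
      rw [Finset.disjoint_left]
      intro v h1 h2
      rw [hsp'] at h1
      rw [hsn'] at h2
      omega
    rw [hunion, Finset.sum_union hdisj]
    exact hkey

end Fermat.Agent.S24.H864

end
end
-- ===== PACK-END S24/H864/FF3e.lean

-- ===== PACK-BEGIN S24/H864/FF3f.lean
section


/-!
# S24 / ALG / FF1, existence form: the zeros of a transcendental `t` form a finite set `s` and
`∑_{v ∈ s} v(t) = [F : K(t)]`  (exact shape of `Alg/Open.lean` `open_fundamental_eq`).
-/

set_option autoImplicit false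

noncomputable section

open AlgebraicCurve IntermediateField IsDedekindDomain
open scoped IntermediateField.algebraAdjoinAdjoin

namespace Fermat.Agent.S24.H864

section Rel

variable {K F : Type*} [Field K] [Field F] [Algebra K F]
variable {S : Type*} [CommRing S] [IsDedekindDomain S] [Algebra S F] [IsFractionRing S F]
  [Algebra K S] [IsScalarTower K S F]
variable {R : Type*} [CommRing R] [IsDomain R] [Algebra R S] [Algebra R F] [IsScalarTower R S F]
  [Module.Finite R S]
variable (p : Ideal R) [hpmax : p.IsMaximal] (τ : R)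

/-- the set of zeros of `τ` is finite -/
theorem exists_finset_zeros_abstract
    (hp : p = Ideal.span {τ}) (hτ : τ ≠ 0) (hinj : Function.Injective (algebraMap R S))
    (hR : ∀ v : Place K F, 0 < v.ord (algebraMap R F τ) →
      ∀ r : R, algebraMap R F r ∈ v.toValuationSubring) :
    ∃ s : Finset (Place K F), ∀ v, v ∈ s ↔ 0 < v.ord (algebraMap R F τ) := by
  classical
  haveI : Fintype (p.primesOver S) := (Algebra.QuasiFinite.finite_primesOver p).fintype
  have hτ' : algebraMap R S τ ≠ 0 := fun h => hτ (hinj (by rw [h, map_zero]))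
  set g : p.primesOver S → Place K F :=
    fun q => Place.ofHeightOneSpectrum (K := K) (wOf p τ hp hτ hinj q) with hg
  have hg_ord : ∀ q, (g q).ord (algebraMap R F τ) = (q.1.ramificationIdx R : ℤ) :=
    fun q => ord_wOf p τ hp hτ hinj q
  refine ⟨Finset.univ.image g, fun v => ?_⟩
  rw [Finset.mem_image]
  constructor
  · rintro ⟨q, -, rfl⟩
    rw [hg_ord]
    exact_mod_cast Ideal.ramificationIdx_pos q.1 R
  · intro hv
    have hS := algebraMap_mem_of_base (S := S) v (hR v hv)
    have hv' : 0 < v.ord (algebraMap S F (algebraMap R S τ)) := by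
      rwa [← IsScalarTower.algebraMap_apply R S F]
    obtain ⟨w, hw, hwq⟩ := exists_heightOneSpectrum_of_place v hS hτ' hv'
    have hle : p ≤ w.asIdeal.under R := by
      rw [hp, Ideal.span_singleton_le_iff_mem, Ideal.under_def, Ideal.mem_comap, hwq]
      exact (mem_primeOfPlace v hS hτ').mpr hv'
    have hne : w.asIdeal.under R ≠ ⊤ := (Ideal.IsPrime.under R w.asIdeal).ne_top
    have hq : w.asIdeal ∈ p.primesOver S := ⟨w.isPrime, ⟨hpmax.eq_of_le hne hle⟩⟩
    refine ⟨⟨w.asIdeal, hq⟩, Finset.mem_univ _, ?_⟩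
    rw [← hw]
    show Place.ofHeightOneSpectrum (K := K) (wOf p τ hp hτ hinj ⟨w.asIdeal, hq⟩) = _
    congr 1

end Rel

section Main

variable {K F : Type*} [Field K] [Field F] [Algebra K F] [IsAlgClosed K] [CharZero K]

/-- the zeros of a transcendental `t` are finite in number -/
theorem exists_finset_zeros (t : F) (ht : Transcendental K t)
    [FiniteDimensional ↥(IntermediateField.adjoin K {t}) F] :
    ∃ s : Finset (Place K F), ∀ v : Place K F, v ∈ s ↔ 0 < v.ord t := by
  haveI : IsPrincipalIdealRing (polyRing K t) := polyRing_isPrincipalIdealRing K t ht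
  haveI : IsScalarTower (polyRing K t) (integralClosure (polyRing K t) F) F :=
    Subalgebra.isScalarTower_mid _
  haveI : IsFractionRing (integralClosure (polyRing K t) F) F :=
    integralClosure.isFractionRing_of_finite_extension K⟮t⟯ F
  haveI : IsDedekindDomain (integralClosure (polyRing K t) F) :=
    IsIntegralClosure.isDedekindDomain (polyRing K t) K⟮t⟯ F (integralClosure (polyRing K t) F)
  haveI : Module.Finite (polyRing K t) (integralClosure (polyRing K t) F) :=
    IsIntegralClosure.finite (polyRing K t) K⟮t⟯ F (integralClosure (polyRing K t) F)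
  have hprime : (Ideal.span {tR K t}).IsPrime :=
    (Ideal.span_singleton_prime (tR_ne_zero K t ht)).mpr (tR_prime K t ht)
  have hne : Ideal.span {tR K t} ≠ ⊥ := by
    rw [Ne, Ideal.span_singleton_eq_bot]
    exact tR_ne_zero K t ht
  haveI hmax : (Ideal.span {tR K t}).IsMaximal := hprime.isMaximal hne
  have hinj : Function.Injective
      (algebraMap (polyRing K t) (integralClosure (polyRing K t) F)) := by
    intro a b hab
    have := congrArg (algebraMap (integralClosure (polyRing K t) F) F) hab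
    rw [← IsScalarTower.algebraMap_apply, ← IsScalarTower.algebraMap_apply] at this
    exact Subtype.ext this
  exact exists_finset_zeros_abstract (K := K) (F := F)
    (S := integralClosure (polyRing K t) F) (R := polyRing K t)
    (Ideal.span {tR K t}) (tR K t) rfl (tR_ne_zero K t ht) hinj
    (fun v hv r => coe_mem_valuationSubring_of_ord_nonneg K t v hv.le r)

/-- **FF1 (fundamental equality)**, exact shape of `Alg/Open.lean` `open_fundamental_eq`. -/
theorem fundamental_eq (t : F) (ht : Transcendental K t)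
    [FiniteDimensional ↥(IntermediateField.adjoin K {t}) F] :
    ∃ s : Finset (Place K F), (∀ v : Place K F, v ∈ s ↔ 0 < v.ord t) ∧
      ∑ v ∈ s, v.ord t = (Module.finrank ↥(IntermediateField.adjoin K {t}) F : ℤ) := by
  obtain ⟨s, hs⟩ := exists_finset_zeros t ht
  exact ⟨s, hs, fundamental_identity t ht s hs⟩

end Main

end Fermat.Agent.S24.H864

end
end
-- ===== PACK-END S24/H864/FF3f.lean

-- ===== PACK-BEGIN Lib/RR/H864/FF1Bridge.lean
section




/-!
# RR library, bridge: `FF1 K F` in characteristic zero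

For `K` algebraically closed of characteristic `0` and `F` finite over `K(x)`, `x` transcendental:
`HasPrincipalDivisors K F` (divisors of functions exist and have degree `0`), every place has
degree one, and there is a place.  Hence `FF1 K F`.
-/

set_option autoImplicit false

noncomputable section

open AlgebraicCurve IntermediateField

namespace Fermat.Agent.Lib.RR.H864

variable {K F : Type*} [Field K] [Field F] [Algebra K F] [IsAlgClosed K] [CharZero K]

/-- divisors of functions exist (finitely many zeros and poles) -/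
theorem exists_divisor (x : F) (hx : Transcendental K x)
    [FiniteDimensional ↥(IntermediateField.adjoin K {x}) F] (f : F) (hf : f ≠ 0) :
    ∃ D : Divisor K F, (∀ v : Place K F, D v = v.ord f) ∧ Divisor.degree D = 0 := by
  classical
  suffices h : ∃ D : Divisor K F, ∀ v : Place K F, D v = v.ord f by
    obtain ⟨D, hD⟩ := h
    exact ⟨D, hD, S24.H864.degree_principal x hx f hf D hD⟩
  by_cases hfK : f ∈ (algebraMap K F).range
  · obtain ⟨c, rfl⟩ := hfK
    exact ⟨0, fun v => by rw [S24.FF.ord_algebraMap v c]; rfl⟩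
  · have hft : Transcendental K f := S24.FF.transcendental_of_not_mem_range hfK
    haveI : FiniteDimensional ↥(IntermediateField.adjoin K {f}) F :=
      S24.FF.finiteDimensional_adjoin_of_transcendental hx hft
    haveI : FiniteDimensional ↥(IntermediateField.adjoin K {f⁻¹}) F := by
      rw [S24.H864.adjoin_simple_inv_eq]; infer_instance
    obtain ⟨sp, hsp⟩ := S24.H864.exists_finset_zeros f hft
    obtain ⟨sn, hsn⟩ := S24.H864.exists_finset_zeros f⁻¹ (S24.H864.transcendental_inv hft)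
    refine ⟨Finsupp.onFinset (sp ∪ sn) (fun v => v.ord f) ?_, fun v => rfl⟩
    intro v hv
    rw [Finset.mem_union, hsp, hsn, Place.ord_inv]
    omega

theorem hasPrincipalDivisors (x : F) (hx : Transcendental K x)
    [FiniteDimensional ↥(IntermediateField.adjoin K {x}) F] : HasPrincipalDivisors K F :=
  ⟨fun f hf => exists_divisor x hx f hf⟩

/-- there is a place (a zero of `x`) -/
theorem nonempty_place (x : F) (hx : Transcendental K x)
    [FiniteDimensional ↥(IntermediateField.adjoin K {x}) F] : Nonempty (Place K F) := by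
  obtain ⟨s, _, hsum⟩ := S24.H864.fundamental_eq x hx
  by_contra hne
  rw [not_nonempty_iff] at hne
  have h0 : ∑ v ∈ s, v.ord x = 0 := Finset.sum_eq_zero fun v _ => (hne.false v).elim
  rw [h0] at hsum
  have hpos : 0 < Module.finrank ↥(IntermediateField.adjoin K {x}) F := Module.finrank_pos
  omega

/-- **Bridge.**  `FF1 K F` for function fields of one variable over an algebraically closed field
of characteristic zero. -/
theorem ff1 (x : F) (hx : Transcendental K x)
    [hfin : FiniteDimensional ↥(IntermediateField.adjoin K {x}) F] : FF1 K F where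
  hpd := hasPrincipalDivisors x hx
  deg_eq_one := fun v => S24.FF.deg_eq_one v hx
  nonempty_place := nonempty_place x hx
  exists_finite := ⟨x, hx, hfin⟩

end Fermat.Agent.Lib.RR.H864

end
end
-- ===== PACK-END Lib/RR/H864/FF1Bridge.lean

-- ===== PACK-BEGIN S29/H395/Strip.lean
section
/-
S29 / layer M / bridge BR, piece NORM — helper395.

Growth lemma: a continuous, `M`-periodic function on `ℍ` of at most exponential growth on
`im τ ≥ 1` has at most exponential growth on every half plane `im τ ≥ c`, `c > 0`.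
Consequence: composition with `τ ↦ (a τ + b) / d` preserves exponential growth.
-/



set_option autoImplicit false
set_option linter.style.haveILetI false

noncomputable section

open UpperHalfPlane
open scoped Real

namespace Fermat.Agent.S29.H395

open Fermat.Agent.S24 Fermat.Agent.S24.H648

theorem periodic_int_of_periodic {F : ℍ → ℂ} {M : ℝ} (hper : ∀ τ : ℍ, F (M +ᵥ τ) = F τ)
    (k : ℤ) (τ : ℍ) : F ((k * M : ℝ) +ᵥ τ) = F τ := by
  induction k using Int.induction_on generalizing τ with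
  | zero => simp
  | succ n ih =>
    have : (((n : ℤ) + 1 : ℤ) * M : ℝ) +ᵥ τ = M +ᵥ (((n : ℤ) * M : ℝ) +ᵥ τ) := by
      rw [vadd_vadd]; congr 1; push_cast; ring
    rw [this, hper, ih]
  | pred n ih =>
    have h1 := hper ((((-(n : ℤ) - 1 : ℤ)) * M : ℝ) +ᵥ τ)
    have : M +ᵥ ((((-(n : ℤ) - 1 : ℤ)) * M : ℝ) +ᵥ τ) = (((-(n : ℤ) : ℤ)) * M : ℝ) +ᵥ τ := by
      rw [vadd_vadd]; congr 1; push_cast; ring
    rw [this] at h1
    rw [← h1, ih]

/-- Boundedness on a horizontal strip `c ≤ im τ ≤ 1` of a continuous periodic function. -/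
theorem exists_bound_strip {F : ℍ → ℂ} (hF : Continuous F) {M : ℝ} (hM : 0 < M)
    (hper : ∀ τ : ℍ, F (M +ᵥ τ) = F τ) {c : ℝ} (hc : 0 < c) :
    ∃ B : ℝ, 0 ≤ B ∧ ∀ τ : ℍ, c ≤ τ.im → τ.im ≤ 1 → ‖F τ‖ ≤ B := by
  -- the compact rectangle
  let K : Set ℂ := Set.Icc (0 : ℝ) M ×ℂ Set.Icc c 1
  have hK : IsCompact K := isCompact_Icc.reProdIm isCompact_Icc
  have hpos : ∀ z ∈ K, 0 < z.im := fun z hz => lt_of_lt_of_le hc hz.2.1
  haveI : CompactSpace K := isCompact_iff_compactSpace.mp hK
  let g : K → ℍ := fun z => ⟨z.1, hpos z.1 z.2⟩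
  have hg : Continuous g := by
    rw [UpperHalfPlane.isEmbedding_coe.continuous_iff]
    exact continuous_subtype_val
  obtain ⟨B, hB⟩ := (isCompact_range (hF.comp hg)).exists_bound_of_continuousOn
    (f := fun w : ℂ => w) continuousOn_id
  refine ⟨max B 0, le_max_right _ _, fun τ h1 h2 => ?_⟩
  -- translate the real part into `[0, M)`
  set k : ℤ := -⌊τ.re / M⌋ with hk
  have hτ' := periodic_int_of_periodic hper k τ
  set τ' : ℍ := ((k * M : ℝ) +ᵥ τ) with hτ'def
  have hre : τ'.re = k * M + τ.re := by rw [hτ'def, UpperHalfPlane.vadd_re]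
  have him : τ'.im = τ.im := by rw [hτ'def, UpperHalfPlane.vadd_im]
  have hfl := Int.floor_le (τ.re / M)
  have hfl' := Int.lt_floor_add_one (τ.re / M)
  have hkc : (k : ℝ) = -(⌊τ.re / M⌋ : ℝ) := by rw [hk]; push_cast; ring
  have h0 : 0 ≤ τ'.re := by
    rw [hre, hkc]
    have : (⌊τ.re / M⌋ : ℝ) * M ≤ τ.re := by
      have := mul_le_mul_of_nonneg_right hfl hM.le
      rwa [div_mul_cancel₀ _ hM.ne'] at this
    linarith
  have h1' : τ'.re ≤ M := by
    rw [hre, hkc]
    have : τ.re < ((⌊τ.re / M⌋ : ℝ) + 1) * M := by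
      have := mul_lt_mul_of_pos_right hfl' hM
      rwa [div_mul_cancel₀ _ hM.ne'] at this
    linarith
  have hmem : (τ' : ℂ) ∈ K := by
    refine ⟨⟨?_, ?_⟩, ⟨?_, ?_⟩⟩
    · simpa using h0
    · simpa using h1'
    · simpa [him] using h1
    · simpa [him] using h2
  have hb := hB (F τ') ⟨⟨(τ' : ℂ), hmem⟩, by
    show F (g ⟨(τ' : ℂ), hmem⟩) = F τ'
    congr 1⟩
  rw [← hτ']
  exact le_trans hb (le_max_left _ _)

/-- Exponential growth on `im τ ≥ c` for every `c > 0`. -/
theorem expGrowth_halfPlane {F : ℍ → ℂ} (hF : Continuous F) {M : ℝ} (hM : 0 < M)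
    (hper : ∀ τ : ℍ, F (M +ᵥ τ) = F τ) (hgr : ExpGrowth F) {c : ℝ} (hc : 0 < c) :
    ∃ (C : ℝ) (m : ℕ), 0 ≤ C ∧
      ∀ τ : ℍ, c ≤ τ.im → ‖F τ‖ ≤ C * Real.exp (2 * π * m * τ.im) := by
  obtain ⟨C0, m, h0⟩ := hgr
  obtain ⟨B, hB0, hB⟩ := exists_bound_strip hF hM hper hc
  refine ⟨max |C0| B, m, le_trans (abs_nonneg _) (le_max_left _ _), fun τ hτ => ?_⟩
  have hexp : 1 ≤ Real.exp (2 * π * m * τ.im) := by
    apply Real.one_le_exp
    have := τ.im_pos
    positivity
  by_cases h1 : 1 ≤ τ.im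
  · calc ‖F τ‖ ≤ C0 * Real.exp (2 * π * m * τ.im) := h0 τ h1
      _ ≤ |C0| * Real.exp (2 * π * m * τ.im) := by
          gcongr; exact le_abs_self _
      _ ≤ max |C0| B * Real.exp (2 * π * m * τ.im) := by
          gcongr; exact le_max_left _ _
  · have := hB τ hτ (le_of_not_ge h1)
    calc ‖F τ‖ ≤ B := this
      _ ≤ max |C0| B := le_max_right _ _
      _ = max |C0| B * 1 := (mul_one _).symm
      _ ≤ max |C0| B * Real.exp (2 * π * m * τ.im) :=
          mul_le_mul_of_nonneg_left hexp (le_trans (abs_nonneg _) (le_max_left _ _))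

theorem infAff_im {a d : ℕ} (ha : 0 < a) (hd : 0 < d) (b : ℤ) (τ : ℍ) :
    (infAff a b d τ).im = a * τ.im / d := by
  have h := congrArg Complex.im (infAff_coe ha hd b τ)
  rw [UpperHalfPlane.coe_im] at h
  rw [h]
  have : ((a : ℂ) * τ + b) / d = (((a : ℝ) : ℂ) * τ + ((b : ℝ) : ℂ)) / ((d : ℝ) : ℂ) := by
    push_cast; rfl
  rw [this, Complex.div_ofReal_im]
  simp

/-- Composition with `τ ↦ (a τ + b) / d` preserves exponential growth (for continuous periodic
functions). -/
theorem expGrowth_comp_infAff {F : ℍ → ℂ} (hF : Continuous F) {M : ℝ} (hM : 0 < M)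
    (hper : ∀ τ : ℍ, F (M +ᵥ τ) = F τ) (hgr : ExpGrowth F) {a d : ℕ} (ha : 0 < a) (hd : 0 < d)
    (b : ℤ) : ExpGrowth (fun τ => F (infAff a b d τ)) := by
  have hc : (0 : ℝ) < (a : ℝ) / d := by positivity
  obtain ⟨C, m, hC, h⟩ := expGrowth_halfPlane hF hM hper hgr hc
  refine ⟨C, m * a, fun τ hτ => ?_⟩
  have him := infAff_im ha hd b τ
  have h1 : (a : ℝ) / d ≤ (infAff a b d τ).im := by
    rw [him]
    have : (a : ℝ) * 1 / d ≤ a * τ.im / d := by gcongr
    simpa using this
  have h2 : (infAff a b d τ).im ≤ a * τ.im := by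
    rw [him]
    have hd1 : (1 : ℝ) ≤ d := by exact_mod_cast hd
    have := τ.im_pos
    exact div_le_self (by positivity) hd1
  calc ‖F (infAff a b d τ)‖ ≤ C * Real.exp (2 * π * m * (infAff a b d τ).im) := h _ h1
    _ ≤ C * Real.exp (2 * π * (m * a : ℕ) * τ.im) := by
        refine mul_le_mul_of_nonneg_left (Real.exp_le_exp.mpr ?_) hC
        push_cast
        have hpi := Real.pi_pos
        have : (2 * π * m) * (infAff a b d τ).im ≤ (2 * π * m) * (a * τ.im) :=
          mul_le_mul_of_nonneg_left h2 (by positivity)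
        linarith

end Fermat.Agent.S29.H395

end

end
-- ===== PACK-END S29/H395/Strip.lean

-- ===== PACK-BEGIN S29/H395/AnalyticKron.lean
section
/-
S29 / layer M / bridge BR, piece NORM (analytic half, `q`-expansions) — helper395.

**Analytic Kronecker norm.**  If `a : ℍ → ℂ` has the (everywhere convergent) `q`-expansion `A` at
`i∞` (`InfExp 1 a A`, S24), then

  `heckeProd ℓ a τ = a (ℓ τ) * ∏_{j < ℓ} a ((τ + j) / ℓ)`

has the `q`-expansion `kronNorm ℓ A = V_ℓ A * det (secMat ℓ A)` (helper400's formal Kronecker norm,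
which row S37 identifies with the `q`-expansion of `Nm_α (β y)`).
-/






set_option autoImplicit false

noncomputable section

open CongruenceSubgroup Matrix.SpecialLinearGroup UpperHalfPlane ModularCurve HahnSeries
open scoped MatrixGroups Real Polynomial OnePoint
open P2MW.S_ModularForm_heckeT_slash_eq_self_of_mem_Gamma0.ModularForm.HeckeSlashInvariance

namespace Fermat.Agent.S29.H395

open Fermat.Agent.S24 Fermat.Agent.S37.H340 Fermat.Agent.S37.H400

/-! ### `InfExp` bookkeeping -/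

theorem infExp_finset_prod {N : ℕ} {ι : Type*} (s : Finset ι) (f : ι → ℍ → ℂ)
    (φ : ι → LaurentSeries ℂ) (h : ∀ i ∈ s, InfExp N (f i) (φ i)) :
    InfExp N (fun τ => ∏ i ∈ s, f i τ) (∏ i ∈ s, φ i) := by
  classical
  induction s using Finset.induction_on with
  | empty => simpa using (InfExp.one (N := N))
  | insert i s hi ih =>
    have h1 := h i (Finset.mem_insert_self i s)
    have h2 := ih fun j hj => h j (Finset.mem_insert_of_mem hj)
    have := h1.mul h2
    simpa [Finset.prod_insert hi] using this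

theorem infZ_pow_eq (ℓ : ℕ) [NeZero ℓ] (τ : ℍ) : infZ ℓ τ ^ ℓ = infZ 1 τ := by
  rw [infZ_def, infZ_def, ← Complex.exp_nat_mul]
  congr 1
  have hℓ : (ℓ : ℂ) ≠ 0 := by exact_mod_cast NeZero.ne ℓ
  field_simp
  simp

/-- Descent of the variable: an expansion in `z_ℓ = q^{1/ℓ}` which only involves powers of
`z_ℓ^ℓ = q` is an expansion in `q`. -/
theorem infExp_of_qExpand {ℓ : ℕ} [NeZero ℓ] {f : ℍ → ℂ} {φ : LaurentSeries ℂ}
    (h : InfExp ℓ f (qExpand ℂ ℓ φ)) : InfExp 1 f φ := by
  intro τ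
  have h1 := h τ
  have he0 : (ℓ : ℤ) ≠ 0 := by exact_mod_cast NeZero.ne ℓ
  have hinj : Function.Injective (fun n : ℤ => (ℓ : ℤ) * n) := mul_right_injective₀ he0
  have hrange : ∀ m : ℤ, m ∉ Set.range (fun n : ℤ => (ℓ : ℤ) * n) →
      (qExpand ℂ ℓ φ).coeff m * infZ ℓ τ ^ m = 0 := by
    intro m hm
    rw [qExpand_coeff_of_not_dvd ℓ _ (fun ⟨j, hj⟩ => hm ⟨j, hj.symm⟩), zero_mul]
  rw [← hinj.hasSum_iff hrange] at h1
  convert h1 using 1
  funext n
  simp only [Function.comp_apply, qExpand_coeff_mul]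
  rw [← infZ_pow_eq ℓ τ, ← zpow_natCast (infZ ℓ τ) ℓ, ← zpow_mul]

/-! ### The Hecke representatives as affine maps -/

section Rep

variable {ℓ : ℕ} [Fact ℓ.Prime]

theorem heckeRep_infty_smul (τ : ℍ) : _root_.P2MW.S_ModularForm_heckeT_slash_eq_self_of_mem_Gamma0.ModularForm.HeckeSlashInvariance.heckeRep ℓ ∞ • τ = infAff ℓ 0 1 τ := by
  have hℓ : ℓ ≠ 0 := (Fact.out : ℓ.Prime).ne_zero
  apply UpperHalfPlane.ext
  rw [heckeRep_infty, ModularForm.coe_heckeDiagMatrix_smul hℓ,
    infAff_coe (Nat.pos_of_ne_zero hℓ) one_pos]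
  simp

theorem heckeRep_coe_smul (j : ZMod ℓ) (τ : ℍ) :
    _root_.P2MW.S_ModularForm_heckeT_slash_eq_self_of_mem_Gamma0.ModularForm.HeckeSlashInvariance.heckeRep ℓ (j : OnePoint (ZMod ℓ)) • τ = infAff 1 (j.val : ℤ) ℓ τ := by
  have hℓ : ℓ ≠ 0 := (Fact.out : ℓ.Prime).ne_zero
  apply UpperHalfPlane.ext
  rw [heckeRep_coe, ModularForm.coe_heckeMatrix_smul hℓ,
    infAff_coe one_pos (Nat.pos_of_ne_zero hℓ)]
  simp

theorem heckeProd_eq (a : ℍ → ℂ) (τ : ℍ) :
    heckeProd ℓ a τ = a (infAff ℓ 0 1 τ) * ∏ j : ZMod ℓ, a (infAff 1 (j.val : ℤ) ℓ τ) := by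
  rw [heckeProd_apply]
  have h := Fintype.prod_option (fun x : OnePoint (ZMod ℓ) => a (_root_.P2MW.S_ModularForm_heckeT_slash_eq_self_of_mem_Gamma0.ModularForm.HeckeSlashInvariance.heckeRep ℓ x • τ))
  rw [show (∏ x : OnePoint (ZMod ℓ), a (_root_.P2MW.S_ModularForm_heckeT_slash_eq_self_of_mem_Gamma0.ModularForm.HeckeSlashInvariance.heckeRep ℓ x • τ))
      = ∏ x : Option (ZMod ℓ), a (_root_.P2MW.S_ModularForm_heckeT_slash_eq_self_of_mem_Gamma0.ModularForm.HeckeSlashInvariance.heckeRep ℓ x • τ) from rfl, h]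
  congr 1
  · exact congrArg a (heckeRep_infty_smul τ)
  · exact Finset.prod_congr rfl fun j _ => congrArg a (heckeRep_coe_smul j τ)

end Rep

/-! ### Expansions of the translates -/

section Translates

variable {ℓ : ℕ} [NeZero ℓ] {a : ℍ → ℂ} {A : LaurentSeries ℂ}

theorem infExp_comp_mul (ha : InfExp 1 a A) :
    InfExp 1 (fun τ => a (infAff ℓ 0 1 τ)) (qExpand ℂ ℓ A) := by
  have hℓ : 0 < ℓ := Nat.pos_of_ne_zero (NeZero.ne ℓ)
  have h := ha.comp_infAff (N := 1) (e := ℓ) 0 hℓ one_pos one_pos one_pos (by ring)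
  rwa [infRoot_zero, infTwist_one] at h

theorem infExp_comp_div (ha : InfExp 1 a A) (j : ℤ) :
    InfExp ℓ (fun τ => a (infAff 1 j ℓ τ)) (infTwist (infRoot j ℓ) A) := by
  have hℓ : 0 < ℓ := Nat.pos_of_ne_zero (NeZero.ne ℓ)
  have h := ha.comp_infAff (N := ℓ) (e := 1) j one_pos hℓ one_pos hℓ (by ring)
  rwa [qExpand_one_apply, mul_one] at h

end Translates

/-! ### The formal product formula -/

section Formal

variable (ℓ : ℕ) [NeZero ℓ]

/-- `ζ_ℓ = exp (2πi/ℓ)`. -/
def zetaL : ℂ := Complex.exp (2 * π * Complex.I / ℓ)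

theorem isPrimitiveRoot_zetaL : IsPrimitiveRoot (zetaL ℓ) ℓ :=
  Complex.isPrimitiveRoot_exp ℓ (NeZero.ne ℓ)

omit [NeZero ℓ] in
theorem infRoot_eq_zetaL_pow (b : ℕ) : ((infRoot (b : ℤ) ℓ : ℂˣ) : ℂ) = zetaL ℓ ^ b := by
  rw [infRoot_coe, zetaL, ← Complex.exp_nat_mul]
  congr 1
  push_cast
  ring

theorem zpw_eq_zpow {w : ℂ} (hw : w ^ ℓ = 1) (hw0 : w ≠ 0) (n : ℤ) : zpw ℓ w n = w ^ n := by
  unfold zpw
  have hℓ : (0 : ℤ) < ℓ := by exact_mod_cast Nat.pos_of_ne_zero (NeZero.ne ℓ)
  have h1 : n = (ℓ : ℤ) * (n / ℓ) + n % ℓ := (Int.mul_ediv_add_emod n ℓ).symm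
  have h2 : 0 ≤ n % (ℓ : ℤ) := Int.emod_nonneg n hℓ.ne'
  conv_rhs => rw [h1]
  rw [zpow_add₀ hw0, zpow_mul, zpow_natCast, hw, one_zpow, one_mul]
  conv_rhs => rw [← Int.toNat_of_nonneg h2]
  rw [zpow_natCast]

theorem tw_eq_infTwist (b : ℕ) (A : LaurentSeries ℂ) :
    tw ℓ (zetaL ℓ ^ b) A = infTwist (infRoot (b : ℤ) ℓ) A := by
  ext n
  rw [tw_coeff, infTwist_coeff, Units.val_zpow_eq_zpow_val, infRoot_eq_zetaL_pow, mul_comm]
  congr 1
  have hζ := (isPrimitiveRoot_zetaL ℓ)
  refine zpw_eq_zpow ℓ ?_ (pow_ne_zero _ (hζ.ne_zero (NeZero.ne ℓ))) n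
  rw [← pow_mul, mul_comm, pow_mul, hζ.pow_eq_one, one_pow]

theorem kronMat_eq_secMat (A : LaurentSeries ℂ) : kronMat ℓ A = secMat ℓ A := by
  ext i j n
  rw [kronMat_apply, secMat_apply', sect_coeff, secL_coeff]

/-- **Product formula** `∏_{b < ℓ} A(ζ^b z) = (det secMat A)(z^ℓ)`. -/
theorem prod_infTwist_eq (A : LaurentSeries ℂ) :
    ∏ b : Fin ℓ, infTwist (infRoot ((b : ℕ) : ℤ) ℓ) A = qExpand ℂ ℓ (secMat ℓ A).det := by
  classical
  have h := kron_map_qExpand_eq_prod (isPrimitiveRoot_zetaL ℓ) A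
  have h0 : (Polynomial.map (qExpand ℂ ℓ) (kron ℓ A)).coeff 0
      = (∏ b : Fin ℓ, (Polynomial.X - Polynomial.C (tw ℓ (zetaL ℓ ^ (b : ℕ)) A))).coeff 0 := by
    rw [h]
  rw [Polynomial.coeff_map, kron, Polynomial.coeff_zero_eq_eval_zero (∏ b : Fin ℓ, _),
    Polynomial.eval_prod] at h0
  simp only [Polynomial.eval_sub, Polynomial.eval_X, Polynomial.eval_C, zero_sub] at h0
  rw [Finset.prod_neg, Finset.card_univ, Fintype.card_fin] at h0
  have hdet := Matrix.det_eq_sign_charpoly_coeff (kronMat ℓ A)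
  rw [Fintype.card_fin] at hdet
  rw [← kronMat_eq_secMat, hdet, map_mul, map_pow, map_neg, map_one, h0, ← mul_assoc,
    ← mul_pow]
  simp only [neg_mul_neg, one_mul, one_pow]
  exact Finset.prod_congr rfl fun b _ => (tw_eq_infTwist ℓ b A).symm

end Formal

/-! ### The main statement -/

/-- **Analytic Kronecker norm**: `heckeProd ℓ a` has the `q`-expansion `kronNorm ℓ A`. -/
theorem infExp_heckeProd {ℓ : ℕ} [Fact ℓ.Prime] {a : ℍ → ℂ} {A : LaurentSeries ℂ}
    (ha : InfExp 1 a A) : InfExp 1 (heckeProd ℓ a) (kronNorm ℓ A) := by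
  have h1 : InfExp 1 (fun τ => a (infAff ℓ 0 1 τ)) (qExpand ℂ ℓ A) := infExp_comp_mul ha
  have h2 : InfExp ℓ (fun τ => ∏ b : Fin ℓ, a (infAff 1 ((b : ℕ) : ℤ) ℓ τ))
      (∏ b : Fin ℓ, infTwist (infRoot ((b : ℕ) : ℤ) ℓ) A) :=
    infExp_finset_prod Finset.univ _ _ fun b _ => infExp_comp_div ha _
  rw [prod_infTwist_eq] at h2
  have h3 := infExp_of_qExpand h2
  have h4 := h1.mul h3
  rw [kronNorm]
  refine h4.congr fun τ => ?_
  rw [heckeProd_eq]
  congr 1
  -- reindex `Fin ℓ ≃ ZMod ℓ`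
  refine Finset.prod_nbij' (fun b : Fin ℓ => ((b : ℕ) : ZMod ℓ))
    (fun j : ZMod ℓ => ⟨j.val, ZMod.val_lt j⟩) (fun _ _ => Finset.mem_univ _)
    (fun _ _ => Finset.mem_univ _) (fun b _ => ?_) (fun j _ => ?_) (fun b _ => ?_)
  · exact Fin.ext (ZMod.val_natCast_of_lt b.2)
  · exact ZMod.natCast_zmod_val j
  · rw [ZMod.val_natCast_of_lt b.2]

end Fermat.Agent.S29.H395

end

end
-- ===== PACK-END S29/H395/AnalyticKron.lean

-- ===== PACK-BEGIN S29/H395/GoodProd.lean
section
/-
S29 / layer M / bridge BR, piece NORM — helper395.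

`heckeProd ℓ` preserves the landed ring `S24.H648.goodRing N` (holomorphic, `Γ₀(N)`-invariant, all
`SL₂(ℤ)`-translates of at most exponential growth), for a prime `ℓ ∤ N`.
-/



set_option autoImplicit false
set_option linter.style.haveILetI false

noncomputable section

open CongruenceSubgroup Matrix.SpecialLinearGroup UpperHalfPlane
open scoped MatrixGroups Real Manifold OnePoint
open P2MW.S_ModularForm_heckeT_slash_eq_self_of_mem_Gamma0.ModularForm.HeckeSlashInvariance

namespace Fermat.Agent.S29.H395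

open Fermat.Agent.S24 Fermat.Agent.S24.H648 Fermat.Agent.S29.H201

/-! ### Finite products -/

theorem mdiff_finset_prod {ι : Type*} (s : Finset ι) (f : ι → ℍ → ℂ)
    (h : ∀ i ∈ s, MDifferentiable 𝓘(ℂ) 𝓘(ℂ) (f i)) :
    MDifferentiable 𝓘(ℂ) 𝓘(ℂ) (fun τ => ∏ i ∈ s, f i τ) := by
  classical
  induction s using Finset.induction_on with
  | empty => simpa using (mdifferentiable_const : MDifferentiable 𝓘(ℂ) 𝓘(ℂ) (fun _ : ℍ => (1 : ℂ)))
  | insert i s hi ih =>
    have h1 := h i (Finset.mem_insert_self i s)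
    have h2 := ih fun j hj => h j (Finset.mem_insert_of_mem hj)
    have := h1.mul h2
    have e : (fun τ => ∏ j ∈ insert i s, f j τ) = f i * fun τ => ∏ j ∈ s, f j τ := by
      funext τ
      simp [Finset.prod_insert hi]
    rw [e]
    exact this

theorem expGrowth_finset_prod {ι : Type*} (s : Finset ι) (f : ι → ℍ → ℂ)
    (h : ∀ i ∈ s, ExpGrowth (f i)) : ExpGrowth (fun τ => ∏ i ∈ s, f i τ) := by
  classical
  induction s using Finset.induction_on with
  | empty => simpa using expGrowth_const 1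
  | insert i s hi ih =>
    have h1 := h i (Finset.mem_insert_self i s)
    have h2 := ih fun j hj => h j (Finset.mem_insert_of_mem hj)
    have := h1.mul h2
    have e : (fun τ => ∏ j ∈ insert i s, f j τ) = f i * fun τ => ∏ j ∈ s, f j τ := by
      funext τ
      simp [Finset.prod_insert hi]
    rw [e]
    exact this

/-! ### Holomorphy -/

section Hol

variable {ℓ : ℕ} [Fact ℓ.Prime]

omit [Fact ℓ.Prime] in
theorem heckeRep_det_pos (x : OnePoint (ZMod ℓ)) : 0 < ((_root_.P2MW.S_ModularForm_heckeT_slash_eq_self_of_mem_Gamma0.ModularForm.HeckeSlashInvariance.heckeRep ℓ x).det : ℝ) := by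
  induction x using OnePoint.rec with
  | infty => exact ModularForm.det_heckeDiagMatrix_pos ℓ
  | coe j => exact ModularForm.det_heckeMatrix_pos ℓ j.val

theorem mdiff_heckeProd {U : ℍ → ℂ} (hU : MDifferentiable 𝓘(ℂ) 𝓘(ℂ) U) :
    MDifferentiable 𝓘(ℂ) 𝓘(ℂ) (heckeProd ℓ U) := by
  refine mdiff_finset_prod Finset.univ (fun x τ => U (_root_.P2MW.S_ModularForm_heckeT_slash_eq_self_of_mem_Gamma0.ModularForm.HeckeSlashInvariance.heckeRep ℓ x • τ)) fun x _ => ?_
  exact hU.comp (UpperHalfPlane.mdifferentiable_smul (heckeRep_det_pos x))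

end Hol

/-! ### Periodicity of the translates of an invariant function -/

theorem conj_T_pow_mem_Gamma0 (N : ℕ) (g : SL(2, ℤ)) :
    g * ModularGroup.T ^ (N : ℤ) * g⁻¹ ∈ Gamma0 N := by
  have h1 : ModularGroup.T ^ (N : ℤ) ∈ Gamma N := by
    have := ModularGroup_T_pow_mem_Gamma (N : ℤ) (N : ℤ) dvd_rfl
    simpa using this
  have h2 : g * ModularGroup.T ^ (N : ℤ) * g⁻¹ ∈ Gamma N := (Gamma_normal N).conj_mem _ h1 g
  rw [Gamma0_mem]
  exact (Gamma_mem.mp h2).2.2.1

theorem translate_periodic {N : ℕ} {G : ℍ → ℂ}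
    (hG : ∀ γ ∈ Gamma0 N, ∀ τ : ℍ, G (γ • τ) = G τ) (g : SL(2, ℤ)) (τ : ℍ) :
    G (g • ((N : ℝ) +ᵥ τ)) = G (g • τ) := by
  have h1 : ((N : ℝ) +ᵥ τ) = ModularGroup.T ^ (N : ℤ) • τ := by
    rw [UpperHalfPlane.modular_T_zpow_smul]; simp
  have h2 : g • (ModularGroup.T ^ (N : ℤ) • τ)
      = (g * ModularGroup.T ^ (N : ℤ) * g⁻¹) • (g • τ) := by
    rw [← mul_smul, ← mul_smul, inv_mul_cancel_right]
  rw [h1, h2, hG _ (conj_T_pow_mem_Gamma0 N g)]

theorem continuous_translate {G : ℍ → ℂ} (hG : MDifferentiable 𝓘(ℂ) 𝓘(ℂ) G) (g : SL(2, ℤ)) :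
    Continuous (fun τ : ℍ => G (g • τ)) := by
  have h : MDifferentiable 𝓘(ℂ) 𝓘(ℂ) (fun τ : ℍ => G (g • τ)) :=
    hG.comp (UpperHalfPlane.mdifferentiable_smul (g := (g : GL (Fin 2) ℝ)) (by simp))
  exact h.continuous

/-! ### The main statement -/

section Main

variable {N : ℕ} [NeZero N] {ℓ : ℕ} [Fact ℓ.Prime]

/-- Growth of a single factor `τ ↦ G (heckeRep x • g • τ)`. -/
theorem expGrowth_factor {G : ℍ → ℂ} (hG : G ∈ goodRing N) (g : SL(2, ℤ))
    (x : OnePoint (ZMod ℓ)) : ExpGrowth (fun τ => G (_root_.P2MW.S_ModularForm_heckeT_slash_eq_self_of_mem_Gamma0.ModularForm.HeckeSlashInvariance.heckeRep ℓ x • (g • τ))) := by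
  obtain ⟨hmd, hinv, hgr⟩ := hG
  have hℓ1 : ¬ ℓ ∣ 1 := (Fact.out : ℓ.Prime).one_lt.ne' ∘ Nat.dvd_one.mp
  have hℓ : 0 < ℓ := (Fact.out : ℓ.Prime).pos
  obtain ⟨g', -, hg'⟩ := heckeRep_mul hℓ1 g (one_dvd _) x
  have hNpos : (0 : ℝ) < (N : ℝ) := by exact_mod_cast Nat.pos_of_ne_zero (NeZero.ne N)
  have key : ∀ τ : ℍ, G (_root_.P2MW.S_ModularForm_heckeT_slash_eq_self_of_mem_Gamma0.ModularForm.HeckeSlashInvariance.heckeRep ℓ x • (g • τ))
      = G (g' • (_root_.P2MW.S_ModularForm_heckeT_slash_eq_self_of_mem_Gamma0.ModularForm.HeckeSlashInvariance.heckeRep ℓ (redMatrix ℓ g • x) • τ)) := by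
    intro τ
    show G (_root_.P2MW.S_ModularForm_heckeT_slash_eq_self_of_mem_Gamma0.ModularForm.HeckeSlashInvariance.heckeRep ℓ x • (mapGL ℝ g • τ)) = G (mapGL ℝ g' • (_root_.P2MW.S_ModularForm_heckeT_slash_eq_self_of_mem_Gamma0.ModularForm.HeckeSlashInvariance.heckeRep ℓ (redMatrix ℓ g • x) • τ))
    rw [← mul_smul, ← mul_smul, hg']
  have hF := continuous_translate hmd g'
  have hper := translate_periodic hinv g'
  generalize redMatrix ℓ g • x = y at key
  induction y using OnePoint.rec with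
  | infty =>
    have := expGrowth_comp_infAff hF hNpos hper (hgr g') hℓ one_pos 0
    have e : (fun τ => G (_root_.P2MW.S_ModularForm_heckeT_slash_eq_self_of_mem_Gamma0.ModularForm.HeckeSlashInvariance.heckeRep ℓ x • (g • τ))) = fun τ => G (g' • infAff ℓ 0 1 τ) := by
      funext τ
      rw [key τ, heckeRep_infty_smul]
    rw [e]
    exact this
  | coe j =>
    have := expGrowth_comp_infAff hF hNpos hper (hgr g') one_pos hℓ (j.val : ℤ)
    have e : (fun τ => G (_root_.P2MW.S_ModularForm_heckeT_slash_eq_self_of_mem_Gamma0.ModularForm.HeckeSlashInvariance.heckeRep ℓ x • (g • τ)))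
        = fun τ => G (g' • infAff 1 (j.val : ℤ) ℓ τ) := by
      funext τ
      rw [key τ, heckeRep_coe_smul]
    rw [e]
    exact this

/-- **`heckeProd ℓ` preserves good functions** (`ℓ ∤ N` prime). -/
theorem heckeProd_mem_goodRing (hℓN : ¬ ℓ ∣ N) {G : ℍ → ℂ} (hG : G ∈ goodRing N) :
    heckeProd ℓ G ∈ goodRing N := by
  refine ⟨mdiff_heckeProd hG.1, fun γ hγ τ => ?_, fun g => ?_⟩
  · have h := heckeProd_smul hℓN (h := G) (c := fun _ => 1)
      (fun γ τ => by rw [one_mul]; exact hG.2.1 _ γ.2 τ) ⟨γ, hγ⟩ τ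
    simpa using h
  · exact expGrowth_finset_prod Finset.univ
      (fun x τ => G (_root_.P2MW.S_ModularForm_heckeT_slash_eq_self_of_mem_Gamma0.ModularForm.HeckeSlashInvariance.heckeRep ℓ x • (g • τ))) fun x _ => expGrowth_factor hG g x

end Main

end Fermat.Agent.S29.H395

end

end
-- ===== PACK-END S29/H395/GoodProd.lean

-- ===== PACK-BEGIN Lib/Newform/H923/TraceALProof.lean
section




/-!
# The leaf `TraceAL` of the NEWFORM library

We package the Atkin–Lehner operator `W_q` on cusp forms of level `q M` (`q ∤ M`) as a linear map,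
and prove the frozen interface statement `Fermat.Agent.Lib.Newform.H958.TraceAL`:
`W_q` commutes with all `T_ℓ` (`ℓ ∤ N`) and both `f + U_q (W_q f)` and `W_q f + U_q f` are cusp
forms of level `N / q`.
-/

set_option autoImplicit false

noncomputable section

namespace Fermat.Agent.Lib.Newform.H923

open Matrix UpperHalfPlane ModularForm CongruenceSubgroup
open scoped MatrixGroups ModularForm OnePoint Manifold Pointwise

theorem IsAL.det_pos {q M : ℕ} (hq : q ≠ 0) {A : GL (Fin 2) ℝ} (hA : IsAL q M A) :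
    0 < (A.det : ℝ) := by
  obtain ⟨a, b, c, d, hInt, h⟩ := hA
  rw [hInt.det]
  have : (q * a : ℤ) * (q * d) - b * (q * M * c) = q := by linear_combination (q : ℤ) * h
  rw [this]
  exact_mod_cast Nat.pos_of_ne_zero hq

theorem IsAL.σ_eq {q M : ℕ} (hq : q ≠ 0) {A : GL (Fin 2) ℝ} (hA : IsAL q M A) :
    UpperHalfPlane.σ A = .refl ℝ ℂ := by
  rw [UpperHalfPlane.σ, if_pos (hA.det_pos hq)]

/-- An Atkin–Lehner matrix normalises `Γ₀(q M)` (one inclusion). -/
theorem IsAL.conj_le {q M : ℕ} {A : GL (Fin 2) ℝ} (hA : IsAL q M A) :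
    ConjAct.toConjAct A • (Gamma0 (q * M) : Subgroup (GL (Fin 2) ℝ)) ≤
      (Gamma0 (q * M) : Subgroup (GL (Fin 2) ℝ)) := by
  intro x hx
  rw [Subgroup.mem_pointwise_smul_iff_inv_smul_mem, ← ConjAct.toConjAct_inv,
    ConjAct.toConjAct_smul, inv_inv] at hx
  obtain ⟨g, hg, hgx⟩ := hx
  obtain ⟨g', hg', h⟩ := hA.exists_eq_mul (hA.mul_mapGL hg)
  refine ⟨g', hg', ?_⟩
  have h1 : A * (A⁻¹ * x * A) = x * A := by group
  rw [← hgx] at h1
  rw [h] at h1
  exact mul_right_cancel h1

theorem IsAL.isCusp_smul {q M : ℕ} {A : GL (Fin 2) ℝ} (hA : IsAL q M A) {c : OnePoint ℝ}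
    (hc : IsCusp c (Gamma0 (q * M) : Subgroup (GL (Fin 2) ℝ))) :
    IsCusp (A • c) (Gamma0 (q * M) : Subgroup (GL (Fin 2) ℝ)) :=
  (hc.smul A).mono hA.conj_le

/-- The Atkin–Lehner operator on cusp forms of level `q M`. -/
def alCusp (k : ℤ) {q M : ℕ} {A : GL (Fin 2) ℝ} (hA : IsAL q M A)
    (f : CuspForm (Gamma0 (q * M)) k) : CuspForm (Gamma0 (q * M)) k where
  toFun := ⇑f ∣[k] A
  slash_action_eq' := slash_AL_invariant (invUnder_of_slashInvariantFormClass f) hA
  holo' := (CuspFormClass.holo f).slash k A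
  zero_at_cusps' := fun {c} hc => by
    rw [← OnePoint.IsZeroAt.smul_iff]
    exact CuspFormClass.zero_at_cusps f (hA.isCusp_smul hc)

@[simp] theorem coe_alCusp (k : ℤ) {q M : ℕ} {A : GL (Fin 2) ℝ} (hA : IsAL q M A)
    (f : CuspForm (Gamma0 (q * M)) k) : ⇑(alCusp k hA f) = ⇑f ∣[k] A := rfl

/-- The Atkin–Lehner operator as a linear map. -/
def alLin (k : ℤ) {q M : ℕ} (hq : q ≠ 0) {A : GL (Fin 2) ℝ} (hA : IsAL q M A) :
    CuspForm (Gamma0 (q * M)) k →ₗ[ℂ] CuspForm (Gamma0 (q * M)) k where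
  toFun := alCusp k hA
  map_add' f g := DFunLike.coe_injective <| by
    rw [coe_alCusp, CuspForm.coe_add, SlashAction.add_slash, CuspForm.coe_add, coe_alCusp,
      coe_alCusp]
  map_smul' c f := DFunLike.coe_injective <| by
    rw [coe_alCusp, CuspForm.IsGLPos.coe_smul, ModularForm.smul_slash, hA.σ_eq hq,
      RingHom.id_apply, CuspForm.IsGLPos.coe_smul, coe_alCusp]
    rfl

@[simp] theorem coe_alLin (k : ℤ) {q M : ℕ} (hq : q ≠ 0) {A : GL (Fin 2) ℝ} (hA : IsAL q M A)
    (f : CuspForm (Gamma0 (q * M)) k) : ⇑(alLin k hq hA f) = ⇑f ∣[k] A := rfl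

/-- Cusps of `Γ₀(M)` are cusps of `Γ₀(N)` (both are all of `ℙ¹(ℚ)`). -/
theorem isCusp_Gamma0_of_isCusp_Gamma0 {M N : ℕ} [NeZero M] [NeZero N] {c : OnePoint ℝ}
    (hc : IsCusp c (Gamma0 M : Subgroup (GL (Fin 2) ℝ))) :
    IsCusp c (Gamma0 N : Subgroup (GL (Fin 2) ℝ)) := by
  rw [Subgroup.IsArithmetic.isCusp_iff_isCusp_SL2Z] at hc ⊢
  exact hc

/-- A function which is a cusp form of level `N` and is invariant under `Γ₀(M)` is a cusp form
of level `M`. -/
def descendCusp (k : ℤ) {M N : ℕ} [NeZero M] [NeZero N] (F : CuspForm (Gamma0 N) k)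
    (hinv : InvUnder M k ⇑F) : CuspForm (Gamma0 M) k where
  toFun := ⇑F
  slash_action_eq' := hinv
  holo' := CuspFormClass.holo F
  zero_at_cusps' := fun {c} hc =>
    CuspFormClass.zero_at_cusps F (isCusp_Gamma0_of_isCusp_Gamma0 hc)

@[simp] theorem coe_descendCusp (k : ℤ) {M N : ℕ} [NeZero M] [NeZero N]
    (F : CuspForm (Gamma0 N) k) (hinv : InvUnder M k ⇑F) :
    ⇑(descendCusp k F hinv) = ⇑F := rfl

/-- The statement `TraceAL` for the level written as `q * M`. -/
theorem traceAL_aux {q M : ℕ} [NeZero (q * M)] (hq : q.Prime) (hqM : ¬ q ∣ M) :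
    ∃ W : CuspForm (Gamma0 (q * M)) 2 →ₗ[ℂ] CuspForm (Gamma0 (q * M)) 2,
      (∀ (ℓ : ℕ) (hℓ : ℓ.Prime) (hℓN : ¬ ℓ ∣ q * M) (f : CuspForm (Gamma0 (q * M)) 2),
        W (CuspForm.heckeTLin 2 hℓ hℓN f) = CuspForm.heckeTLin 2 hℓ hℓN (W f)) ∧
      (∀ f : CuspForm (Gamma0 (q * M)) 2, ∃ g : CuspForm (Gamma0 M) 2,
        (⇑g : UpperHalfPlane → ℂ) = ⇑f + ModularForm.heckeU 2 q ⇑(W f)) ∧
      (∀ f : CuspForm (Gamma0 (q * M)) 2, ∃ g : CuspForm (Gamma0 M) 2,
        (⇑g : UpperHalfPlane → ℂ) = ⇑(W f) + ModularForm.heckeU 2 q ⇑f) := by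
  have hq0 : q ≠ 0 := hq.ne_zero
  have hM0 : M ≠ 0 := fun h => NeZero.ne (q * M) (by rw [h, mul_zero])
  haveI : NeZero M := ⟨hM0⟩
  have hcop : Nat.Coprime q M := (Nat.Prime.coprime_iff_not_dvd hq).mpr hqM
  obtain ⟨A, hA⟩ := exists_isAL hq0 hcop
  have hqN : q ∣ q * M := Dvd.intro _ rfl
  refine ⟨alLin 2 hq0 hA, ?_, ?_, ?_⟩
  · intro ℓ hℓ hℓN f
    apply DFunLike.coe_injective
    rw [coe_alLin, CuspForm.coe_heckeTLin_apply, CuspForm.coe_heckeTLin_apply, coe_alLin]
    exact heckeT_slash_AL 2 hq0 hℓ hℓN (invUnder_of_slashInvariantFormClass f) hA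
  · intro f
    have hinv : InvUnder M 2 ⇑(f + CuspForm.heckeULin 2 hqN (alLin 2 hq0 hA f)) := by
      have h1 := invUnder_slash_AL_add_heckeU 2 hq
        (invUnder_of_slashInvariantFormClass (alLin 2 hq0 hA f)) hA
      rw [coe_alLin, slash_AL_slash_AL hq0 (invUnder_of_slashInvariantFormClass f) hA] at h1
      rw [CuspForm.coe_add, CuspForm.coe_heckeULin_apply, coe_alLin]
      exact h1
    refine ⟨descendCusp 2 _ hinv, ?_⟩
    rw [coe_descendCusp, CuspForm.coe_add, CuspForm.coe_heckeULin_apply]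
  · intro f
    have hinv : InvUnder M 2 ⇑(alLin 2 hq0 hA f + CuspForm.heckeULin 2 hqN f) := by
      have h1 := invUnder_slash_AL_add_heckeU 2 hq (invUnder_of_slashInvariantFormClass f) hA
      rw [CuspForm.coe_add, CuspForm.coe_heckeULin_apply, coe_alLin]
      exact h1
    refine ⟨descendCusp 2 _ hinv, ?_⟩
    rw [coe_descendCusp, CuspForm.coe_add, CuspForm.coe_heckeULin_apply]

/-- **The leaf `TraceAL`.** -/
theorem traceAL : Fermat.Agent.Lib.Newform.H958.TraceAL := by
  intro N q _ hq hqN hq2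
  obtain ⟨M, rfl⟩ := hqN
  have hqM : ¬ q ∣ M := by
    intro h
    apply hq2
    rw [pow_two]
    exact Nat.mul_dvd_mul_left q h
  rw [Nat.mul_div_cancel_left M hq.pos]
  exact traceAL_aux hq hqM

end Fermat.Agent.Lib.Newform.H923

end
end
-- ===== PACK-END Lib/Newform/H923/TraceALProof.lean

-- ===== PACK-BEGIN S37/H700/GaussNorm.lean
section


/-!
# S37 / piece GAUSS (helper700): normal forms

* `exists_normaliser` : among finitely many elements of `L`, not all zero, one divides all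
  the others in the valuation ring `A`.
* `normalize_family`  : a finite family of polynomials over `L`, not all zero, can be scaled
  into `A[X]` such that one member has nonzero reduction.
* `exists_denominator`: every element of the span satisfies `Q(j)·x = ∑ Pᵢ(j)·yᵢ`.
-/

set_option autoImplicit false

noncomputable section

namespace Fermat.Agent.S37.H700

open ModularCurve HahnSeries Polynomial
open Fermat.Agent.S28 (jField intDivisorExpansions)

section Normalise

variable {L : Type*} [Field L] (A : ValuationSubring L)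

theorem exists_normaliser (C : Finset L) (hC : ∃ x ∈ C, x ≠ 0) :
    ∃ x₀ ∈ C, x₀ ≠ 0 ∧ ∀ x ∈ C, x₀⁻¹ * x ∈ A := by
  obtain ⟨x₁, hx₁, hx₁0⟩ := hC
  obtain ⟨x₀, hx₀, hmax⟩ := Finset.exists_max_image C (fun x => A.valuation x) ⟨x₁, hx₁⟩
  have hx₀0 : x₀ ≠ 0 := by
    intro h
    have h1 := hmax x₁ hx₁
    simp only [h, map_zero] at h1
    exact hx₁0 ((map_eq_zero _).mp (le_antisymm h1 zero_le))
  refine ⟨x₀, hx₀, hx₀0, fun x hx => ?_⟩
  rw [← A.valuation_le_one_iff, map_mul, map_inv₀]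
  have hv0 : A.valuation x₀ ≠ 0 := (_root_.map_ne_zero _).mpr hx₀0
  rw [inv_mul_le_iff₀ (lt_of_le_of_ne zero_le hv0.symm), mul_one]
  exact hmax x hx

theorem exists_lift_of_coeff_mem (P : L[X]) (h : ∀ m, P.coeff m ∈ A) :
    ∃ P' : Polynomial A, P'.map A.subtype = P := by
  have : P ∈ Polynomial.lifts A.subtype := by
    rw [Polynomial.lifts_iff_coeff_lifts]
    intro m
    exact ⟨⟨P.coeff m, h m⟩, rfl⟩
  exact (Polynomial.mem_lifts P).mp this

theorem normalize_family {ι : Type*} [Fintype ι] (P : ι → L[X]) (h : ∃ i, P i ≠ 0) :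
    ∃ c : L, c ≠ 0 ∧ ∃ P' : ι → Polynomial A,
      (∀ i, (P' i).map A.subtype = Polynomial.C c * P i) ∧
      ∃ i, (P' i).map (IsLocalRing.residue A) ≠ 0 := by
  classical
  set C : Finset L := Finset.univ.biUnion (fun i => (P i).coeffs) with hCdef
  have hCne : ∃ x ∈ C, x ≠ 0 := by
    obtain ⟨i, hi⟩ := h
    refine ⟨(P i).leadingCoeff, ?_, Polynomial.leadingCoeff_ne_zero.mpr hi⟩
    rw [hCdef, Finset.mem_biUnion]
    exact ⟨i, Finset.mem_univ _, Polynomial.coeff_mem_coeffs (Polynomial.leadingCoeff_ne_zero.mpr hi)⟩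
  obtain ⟨x₀, hx₀C, hx₀0, hx₀⟩ := exists_normaliser A C hCne
  have hcoeff : ∀ i m, x₀⁻¹ * (P i).coeff m ∈ A := by
    intro i m
    by_cases hz : (P i).coeff m = 0
    · rw [hz, mul_zero]; exact A.zero_mem
    · apply hx₀
      rw [hCdef, Finset.mem_biUnion]
      exact ⟨i, Finset.mem_univ _, Polynomial.coeff_mem_coeffs hz⟩
  have hlift : ∀ i, ∃ P' : Polynomial A, P'.map A.subtype = Polynomial.C x₀⁻¹ * P i := by
    intro i
    apply exists_lift_of_coeff_mem
    intro m
    rw [Polynomial.coeff_C_mul]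
    exact hcoeff i m
  choose P' hP' using hlift
  refine ⟨x₀⁻¹, inv_ne_zero hx₀0, P', hP', ?_⟩
  rw [hCdef, Finset.mem_biUnion] at hx₀C
  obtain ⟨i₀, -, hi₀⟩ := hx₀C
  rw [Polynomial.mem_coeffs_iff] at hi₀
  obtain ⟨m₀, -, hm₀⟩ := hi₀
  refine ⟨i₀, fun hzero => ?_⟩
  have h1 : ((P' i₀).coeff m₀ : L) = 1 := by
    have := congrArg (fun p => Polynomial.coeff p m₀) (hP' i₀)
    simp only [Polynomial.coeff_map, Polynomial.coeff_C_mul] at this
    rw [← hm₀, inv_mul_cancel₀ hx₀0] at this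
    exact this
  have h2 : (P' i₀).coeff m₀ = 1 := Subtype.ext h1
  have h3 := congrArg (fun p => Polynomial.coeff p m₀) hzero
  simp only [Polynomial.coeff_map, Polynomial.coeff_zero, h2, map_one] at h3
  exact one_ne_zero h3

end Normalise

section Denominator

variable (L : Type*) [Field L] {n : ℕ} (y : Fin n → LaurentSeries ℤ)

/-- Every element of the `L(j)`-span has a polynomial denominator. -/
theorem exists_denominator {x : LaurentSeries L} (hx : x ∈ spanL L y) :
    ∃ (Q : L[X]) (P : Fin n → L[X]), Q ≠ 0 ∧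
      evalJ L Q * x = ∑ i, evalJ L (P i) * coeffMap (Int.castRingHom L) (y i) := by
  classical
  induction hx using Submodule.span_induction with
  | mem x hx =>
    obtain ⟨i, rfl⟩ := hx
    refine ⟨1, fun j => if j = i then 1 else 0, one_ne_zero, ?_⟩
    rw [evalJ_one, one_mul, Finset.sum_eq_single i]
    · simp [evalJ_one]
    · intro j _ hj
      simp [hj, evalJ_zero]
    · intro h
      exact absurd (Finset.mem_univ i) h
  | zero =>
    exact ⟨1, fun _ => 0, one_ne_zero, by simp [evalJ_zero]⟩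
  | add x z _ _ hx hz =>
    obtain ⟨Q₁, P₁, hQ₁, h₁⟩ := hx
    obtain ⟨Q₂, P₂, hQ₂, h₂⟩ := hz
    refine ⟨Q₁ * Q₂, fun i => Q₂ * P₁ i + Q₁ * P₂ i, mul_ne_zero hQ₁ hQ₂, ?_⟩
    simp only [evalJ_mul, evalJ_add, add_mul, Finset.sum_add_distrib, mul_assoc]
    rw [← Finset.mul_sum, ← Finset.mul_sum, ← h₁, ← h₂]
    ring
  | smul c x _ hx =>
    obtain ⟨Q, P, hQ, h⟩ := hx
    obtain ⟨r, s, hs, hrs⟩ := exists_evalJ_of_mem_jField L c.2
    refine ⟨s * Q, fun i => r * P i, mul_ne_zero hs hQ, ?_⟩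
    simp only [evalJ_mul, mul_assoc]
    rw [← Finset.mul_sum, ← h, smul_jField_def, ← hrs]
    ring

end Denominator

end Fermat.Agent.S37.H700

end
end
-- ===== PACK-END S37/H700/GaussNorm.lean

-- ===== PACK-BEGIN S37/H700/GaussMain.lean
section


/-!
# S37 / piece GAUSS (helper700): consequences of `S28.CoreData N k`

`A ⊆ Q̄` a valuation subring, `k = A/𝔪`, `F̄_N = Q̄(j(q^d) : d ∣ N) ⊆ Q̄((q))`,
`F_k = k(j(q^d) : d ∣ N) ⊆ k((q))`.  From `CoreData N k` (output of row S28):

* `normal_form`     : for `u ∈ A((q)) ∩ F̄_N` there are `Q, Pᵢ ∈ A[X]` with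
  `Q(j)·u = ∑ Pᵢ(j)·yᵢ` in `A((q))` and `Q mod 𝔪 ≠ 0`;
* `reduction_mem`   : (G1) the coefficientwise reduction of `u` lies in `F_k`;
* `pgi`             : (G2) `PrincipalGeneratedByIntegral A (residue A) N`.
-/

set_option autoImplicit false

noncomputable section

namespace Fermat.Agent.S37.H700

open ModularCurve HahnSeries Polynomial AlgebraicCurve
open Fermat.Agent.S28 (jField intDivisorExpansions CoreData)

/-- The field `Q̄`. -/
abbrev Qb : Type := AlgebraicClosure ℚ

section Main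

variable (N : ℕ) [NeZero N] (A : ValuationSubring Qb)

/-- Reductions of the integral monomials are linearly independent over `k(j)`: pointwise form. -/
theorem eq_zero_of_sum_evalJ_eq_zero {K : Type*} [Field K] {n : ℕ} (yK : Fin n → LaurentSeries K)
    (hind : LinearIndependent (jField K) yK) (P : Fin n → K[X])
    (h : ∑ i, evalJ K (P i) * yK i = 0) : ∀ i, P i = 0 := by
  intro i
  have h' : ∑ i, (⟨evalJ K (P i), evalJ_mem_jField K (P i)⟩ : jField K) • yK i = 0 := by
    simpa only [smul_jField_def] using h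
  have := Fintype.linearIndependent_iff.mp hind _ h' i
  exact (evalJ_eq_zero_iff K).mp (congrArg Subtype.val this)

theorem evalJ_C {R : Type*} [CommRing R] (c : R) :
    evalJ R (Polynomial.C c) = HahnSeries.C c := by
  unfold evalJ
  rw [Polynomial.eval₂_C]

variable {N A}

omit [NeZero N] in
/-- **Normal form** of a Gauss-integral element of `F̄_N`. -/
theorem normal_form {n : ℕ} (y : Fin n → LaurentSeries ℤ)
    (hy_mem : ∀ i, y i ∈ Subring.closure (intDivisorExpansions N))
    (hy_span : ∀ x ∈ modularFunctionFieldFull N,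
      x ∈ Submodule.span (jField ℚ) (Set.range fun i => coeffMap (Int.castRingHom ℚ) (y i)))
    (hy_ind : LinearIndependent (jField (IsLocalRing.ResidueField A))
      (fun i => coeffMap (Int.castRingHom (IsLocalRing.ResidueField A)) (y i)))
    (u : LaurentSeries A) (hu : coeffMap A.subtype u ∈ modularFunctionFieldBar N) :
    ∃ (Q : Polynomial A) (P : Fin n → Polynomial A),
      evalJ A Q * u = ∑ i, evalJ A (P i) * coeffMap (Int.castRingHom A) (y i) ∧
      Q.map (IsLocalRing.residue A) ≠ 0 := by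
  classical
  obtain ⟨Q₀, P₀, hQ₀, h₀⟩ := exists_denominator Qb y
    (mem_spanL_of_mem_baseChange Qb y N hy_mem hy_span hu)
  -- normalise the family `Q₀, P₀ i`
  obtain ⟨c, hc, P', hP', i₀, hi₀⟩ := normalize_family A
    (fun o : Option (Fin n) => o.elim Q₀ P₀) ⟨none, hQ₀⟩
  have hQ' : (P' none).map A.subtype = Polynomial.C c * Q₀ := hP' none
  have hPi : ∀ i, (P' (some i)).map A.subtype = Polynomial.C c * P₀ i := fun i => hP' (some i)
  have hid : evalJ A (P' none) * u =
      ∑ i, evalJ A (P' (some i)) * coeffMap (Int.castRingHom A) (y i) := by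
    apply coeffMap_injective A.subtype_injective
    rw [map_mul, map_sum, coeffMap_evalJ, hQ', evalJ_mul, mul_assoc, h₀, Finset.mul_sum]
    refine Finset.sum_congr rfl fun i _ => ?_
    rw [map_mul, coeffMap_evalJ, hPi, evalJ_mul, coeffMap_coeffMap, mul_assoc]
    congr 2
  refine ⟨P' none, fun i => P' (some i), hid, fun hzero => ?_⟩
  -- if `Q` reduces to zero, linear independence kills all `P i`, contradiction
  have hred := congrArg (coeffMap (IsLocalRing.residue A)) hid
  rw [map_mul, map_sum, coeffMap_evalJ, hzero, evalJ_zero, zero_mul] at hred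
  have hred' : ∑ i, evalJ (IsLocalRing.ResidueField A) ((P' (some i)).map (IsLocalRing.residue A)) *
      coeffMap (Int.castRingHom (IsLocalRing.ResidueField A)) (y i) = 0 := by
    rw [hred]
    refine Finset.sum_congr rfl fun i _ => ?_
    rw [map_mul, coeffMap_evalJ, coeffMap_coeffMap]
    congr 1
  have hall := eq_zero_of_sum_evalJ_eq_zero _ hy_ind _ hred'
  rcases i₀ with _ | i
  · exact hi₀ hzero
  · exact hi₀ (hall i)

/-- **(G1)** The coefficientwise reduction of a Gauss-integral element of `F̄_N` lies in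
`F_k = k(j(q^d) : d ∣ N)`. -/
theorem reduction_mem (hcore : CoreData N (IsLocalRing.ResidueField A))
    (u : LaurentSeries A) (hu : coeffMap A.subtype u ∈ modularFunctionFieldBar N) :
    coeffMap (IsLocalRing.residue A) u ∈
      modularFunctionFieldFullC (IsLocalRing.ResidueField A) N := by
  obtain ⟨n, y, hy_mem, hy_span, hy_ind⟩ := hcore.exists_basis
  obtain ⟨Q, P, hid, hQ⟩ := normal_form y hy_mem hy_span hy_ind u hu
  have hred := congrArg (coeffMap (IsLocalRing.residue A)) hid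
  rw [map_mul, map_sum, coeffMap_evalJ] at hred
  have hQ0 : evalJ (IsLocalRing.ResidueField A) (Q.map (IsLocalRing.residue A)) ≠ 0 :=
    fun h => hQ ((evalJ_eq_zero_iff _).mp h)
  have hjF : jField (IsLocalRing.ResidueField A) ≤
      modularFunctionFieldFullC (IsLocalRing.ResidueField A) N := by
    rw [jField, IntermediateField.adjoin_le_iff]
    rintro x rfl
    exact jqModC_mem_full _ N
  have hmem : ∀ R : Polynomial (IsLocalRing.ResidueField A),
      evalJ (IsLocalRing.ResidueField A) R ∈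
        modularFunctionFieldFullC (IsLocalRing.ResidueField A) N :=
    fun R => hjF (evalJ_mem_jField _ R)
  have : coeffMap (IsLocalRing.residue A) u =
      (evalJ (IsLocalRing.ResidueField A) (Q.map (IsLocalRing.residue A)))⁻¹ *
        ∑ i, coeffMap (IsLocalRing.residue A)
          (evalJ A (P i) * coeffMap (Int.castRingHom A) (y i)) := by
    rw [← hred, ← mul_assoc, inv_mul_cancel₀ hQ0, one_mul]
  rw [this]
  refine mul_mem (inv_mem (hmem _)) (sum_mem fun i _ => ?_)
  rw [map_mul, coeffMap_evalJ, coeffMap_coeffMap]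
  refine mul_mem (hmem _) ?_
  have := coeffMap_intCast_mem_fullC (IsLocalRing.ResidueField A) N (hy_mem i)
  rwa [coeffMap_congr (RingHom.ext_int _ (Int.castRingHom (IsLocalRing.ResidueField A))) (y i)]


/-- Constants have order zero at every place. -/
theorem ord_algebraMap_eq_zero {K F : Type*} [Field K] [Field F] [Algebra K F]
    (v : Place K F) {c : K} (hc : c ≠ 0) : v.ord (algebraMap K F c) = 0 := by
  have h1 : (⟨algebraMap K F c, v.algebraMap_mem' c⟩ : v.toValuationSubring) *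
      ⟨algebraMap K F c⁻¹, v.algebraMap_mem' c⁻¹⟩ = 1 := by
    apply Subtype.ext
    show algebraMap K F c * algebraMap K F c⁻¹ = 1
    rw [← map_mul, mul_inv_cancel₀ hc, map_one]
  have h2 : (⟨algebraMap K F c⁻¹, v.algebraMap_mem' c⁻¹⟩ : v.toValuationSubring) *
      ⟨algebraMap K F c, v.algebraMap_mem' c⟩ = 1 := by
    rw [mul_comm]; exact h1
  exact v.ord_coe_unit ⟨_, _, h1, h2⟩

omit [NeZero N] in
theorem jField_le_bar : jField Qb ≤ modularFunctionFieldBar N := by
  rw [jField, IntermediateField.adjoin_le_iff]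
  rintro x rfl
  have h1 : jqModC ℚ ∈ modularFunctionFieldFull N := by
    rw [← modularFunctionFieldFullC_rat]; exact jqModC_mem_full ℚ N
  have := coeffEmb_mem_laurentBaseChange Qb h1
  rwa [coeffEmb, coeffMap_jqModC] at this

omit [NeZero N] in
theorem C_mem_bar (c : Qb) : (HahnSeries.C c : LaurentSeries Qb) ∈ modularFunctionFieldBar N := by
  have := (modularFunctionFieldBar N).algebraMap_mem c
  rwa [algebraMap_laurentSeries_eq_single] at this

/-- **(G2)** PGI: every principal divisor of `F̄_N` is a difference of two divisors of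
Gauss-integral functions with nonzero reduction in `F_k`. -/
theorem pgi (hcore : CoreData N (IsLocalRing.ResidueField A))
    [HasPrincipalDivisors Qb (modularFunctionFieldBar N)] :
    PrincipalGeneratedByIntegral A (IsLocalRing.residue A) N := by
  classical
  obtain ⟨n, y, hy_mem, hy_span, hy_ind⟩ := hcore.exists_basis
  intro D hD
  obtain ⟨f, hf0, hDf⟩ := hD
  have hfU : (f : LaurentSeries Qb) ≠ 0 := fun h => hf0 (Subtype.ext h)
  obtain ⟨Q₀, P₀, hQ₀, h₀⟩ := exists_denominator Qb y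
    (mem_spanL_of_mem_baseChange Qb y N hy_mem hy_span f.2)
  have hQ₀e : evalJ Qb Q₀ ≠ 0 := fun h => hQ₀ ((evalJ_eq_zero_iff Qb).mp h)
  have hP₀ : ∃ i, P₀ i ≠ 0 := by
    by_contra hcon
    push Not at hcon
    have : evalJ Qb Q₀ * (f : LaurentSeries Qb) = 0 := by
      rw [h₀]
      exact Finset.sum_eq_zero fun i _ => by rw [hcon i, evalJ_zero, zero_mul]
    exact (mul_ne_zero hQ₀e hfU) this
  -- normalise `Q₀` and the `P₀ i` separately
  obtain ⟨cQ, hcQ, Q', hQ', u₀, hQ'red⟩ := normalize_family A (fun _ : Unit => Q₀) ⟨(), hQ₀⟩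
  obtain ⟨cP, hcP, P', hP', i₀, hi₀⟩ := normalize_family A P₀ hP₀
  set b : LaurentSeries A := evalJ A (Q' ()) with hb
  set a : LaurentSeries A := ∑ i, evalJ A (P' i) * coeffMap (Int.castRingHom A) (y i) with ha
  have hbL : coeffMap A.subtype b = HahnSeries.C cQ * evalJ Qb Q₀ := by
    rw [hb, coeffMap_evalJ, hQ' (), evalJ_mul, evalJ_C]
  have haL : coeffMap A.subtype a = HahnSeries.C cP * (evalJ Qb Q₀ * (f : LaurentSeries Qb)) := by
    rw [ha, map_sum, h₀, Finset.mul_sum]
    refine Finset.sum_congr rfl fun i _ => ?_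
    rw [map_mul, coeffMap_evalJ, hP' i, evalJ_mul, evalJ_C, coeffMap_coeffMap, mul_assoc]
    congr 2
  have hQmem : evalJ Qb Q₀ ∈ modularFunctionFieldBar N := jField_le_bar (evalJ_mem_jField Qb Q₀)
  have hbmem : coeffMap A.subtype b ∈ modularFunctionFieldBar N := by
    rw [hbL]; exact mul_mem (C_mem_bar cQ) hQmem
  have hamem : coeffMap A.subtype a ∈ modularFunctionFieldBar N := by
    rw [haL]; exact mul_mem (C_mem_bar cP) (mul_mem hQmem f.2)
  -- reductions
  have hbred : coeffMap (IsLocalRing.residue A) b ≠ 0 := by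
    rw [hb, coeffMap_evalJ]
    exact fun h => hQ'red ((evalJ_eq_zero_iff _).mp h)
  have hared : coeffMap (IsLocalRing.residue A) a ≠ 0 := by
    intro h
    rw [ha, map_sum] at h
    have h' : ∑ i, evalJ (IsLocalRing.ResidueField A) ((P' i).map (IsLocalRing.residue A)) *
        coeffMap (Int.castRingHom (IsLocalRing.ResidueField A)) (y i) = 0 := by
      rw [← h]
      refine Finset.sum_congr rfl fun i _ => ?_
      rw [map_mul, coeffMap_evalJ, coeffMap_coeffMap]
      congr 1
    exact hi₀ (eq_zero_of_sum_evalJ_eq_zero _ hy_ind _ h' i₀)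
  -- the elements of `F̄_N`
  set aF : modularFunctionFieldBar N := ⟨coeffMap A.subtype a, hamem⟩ with haF
  set bF : modularFunctionFieldBar N := ⟨coeffMap A.subtype b, hbmem⟩ with hbF
  set qF : modularFunctionFieldBar N := ⟨evalJ Qb Q₀, hQmem⟩ with hqF
  have hqF0 : qF ≠ 0 := fun h => hQ₀e (congrArg Subtype.val h)
  have haF_eq : aF = algebraMap Qb (modularFunctionFieldBar N) cP * (qF * f) := by
    apply Subtype.ext
    show coeffMap A.subtype a = algebraMap Qb (LaurentSeries Qb) cP * (evalJ Qb Q₀ * f)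
    rw [haL, algebraMap_laurentSeries_eq_single]; rfl
  have hbF_eq : bF = algebraMap Qb (modularFunctionFieldBar N) cQ * qF := by
    apply Subtype.ext
    show coeffMap A.subtype b = algebraMap Qb (LaurentSeries Qb) cQ * evalJ Qb Q₀
    rw [hbL, algebraMap_laurentSeries_eq_single]; rfl
  have hord : ∀ v : Place Qb (modularFunctionFieldBar N), v.ord f = v.ord aF - v.ord bF := by
    intro v
    have hcP' : algebraMap Qb (modularFunctionFieldBar N) cP ≠ 0 :=
      (_root_.map_ne_zero _).mpr hcP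
    have hcQ' : algebraMap Qb (modularFunctionFieldBar N) cQ ≠ 0 :=
      (_root_.map_ne_zero _).mpr hcQ
    rw [haF_eq, hbF_eq, v.ord_mul hcP' (mul_ne_zero hqF0 hf0), v.ord_mul hqF0 hf0,
      v.ord_mul hcQ' hqF0, ord_algebraMap_eq_zero v hcP, ord_algebraMap_eq_zero v hcQ]
    ring
  obtain ⟨Ea, hEa, -⟩ := HasPrincipalDivisors.exists_divisor (K := Qb) aF
    (fun h => hared (by
      have : coeffMap A.subtype a = 0 := congrArg Subtype.val h
      rw [(coeffMap_injective A.subtype_injective) (this.trans (map_zero _).symm), map_zero]))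
  obtain ⟨Eb, hEb, -⟩ := HasPrincipalDivisors.exists_divisor (K := Qb) bF
    (fun h => hbred (by
      have : coeffMap A.subtype b = 0 := congrArg Subtype.val h
      rw [(coeffMap_injective A.subtype_injective) (this.trans (map_zero _).symm), map_zero]))
  have hDeq : D = Ea - Eb := by
    ext v
    rw [Finsupp.sub_apply, hDf v, hEa v, hEb v, hord v]
  rw [hDeq]
  refine AddSubgroup.sub_mem _ (AddSubgroup.subset_closure ?_) (AddSubgroup.subset_closure ?_)
  · exact ⟨a, hamem, reduction_mem hcore a hamem, hared, hEa⟩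
  · exact ⟨b, hbmem, reduction_mem hcore b hbmem, hbred, hEb⟩

end Main

end Fermat.Agent.S37.H700

end
end
-- ===== PACK-END S37/H700/GaussMain.lean

-- ===== PACK-BEGIN S28/H807/Points.lean
section
/-
S28 / helper807 — the points `(τ+b)/p` and `pτ` of the upper half plane, the nome `q(τ)`,
and `q`-expansions of functions on `ℍ`.
-/



set_option autoImplicit false
set_option maxHeartbeats 400000

noncomputable section

open ModularCurve Polynomial Matrix UpperHalfPlane Complex

namespace Fermat.Agent.S28.H807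

/-- The nome `q(τ) = exp(2πiτ)`. -/
def nome (τ : ℍ) : ℂ := Complex.exp (2 * Real.pi * Complex.I * (τ : ℂ))

theorem nome_ne_zero (τ : ℍ) : nome τ ≠ 0 := Complex.exp_ne_zero _

theorem nome_eq_qParam (τ : ℍ) : nome τ = Function.Periodic.qParam 1 (τ : ℂ) := by
  simp [nome, Function.Periodic.qParam]

/-- `f` has the (everywhere convergent) `q`-expansion `c`. -/
def HasQExp (c : LaurentSeries ℂ) (F : ℍ → ℂ) : Prop :=
  ∀ τ : ℍ, HasLSum c (nome τ) (F τ)

theorem hasQExp_iff (c : LaurentSeries ℂ) (F : ℍ → ℂ) :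
    HasQExp c F ↔ ∀ τ : ℍ, HasSum (fun n : ℤ => c.coeff n *
      (Function.Periodic.qParam 1 (τ : ℂ)) ^ n) (F τ) := by
  unfold HasQExp HasLSum
  simp only [nome_eq_qParam]

/-- The point `(τ + b)/p`. -/
def divShift (p : ℕ) [NeZero p] (b : ℤ) (τ : ℍ) : ℍ :=
  ⟨((τ : ℂ) + (b : ℂ)) / (p : ℂ), by
    have hp : (0 : ℝ) < (p : ℝ) := by exact_mod_cast Nat.pos_of_ne_zero (NeZero.ne p)
    have h1 : (((τ : ℂ) + (b : ℂ)) / (p : ℂ)).im = (τ : ℂ).im / (p : ℝ) := by
      rw [show ((p : ℂ)) = ((p : ℝ) : ℂ) by push_cast; rfl, Complex.div_ofReal_im]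
      simp
    rw [h1]
    exact div_pos τ.im_pos hp⟩

/-- The point `pτ`. -/
def mulNat (p : ℕ) [NeZero p] (τ : ℍ) : ℍ :=
  ⟨(p : ℂ) * (τ : ℂ), by
    have hp : (0 : ℝ) < (p : ℝ) := by exact_mod_cast Nat.pos_of_ne_zero (NeZero.ne p)
    have h1 : ((p : ℂ) * (τ : ℂ)).im = (p : ℝ) * (τ : ℂ).im := by
      rw [show ((p : ℂ)) = ((p : ℝ) : ℂ) by push_cast; rfl, Complex.im_ofReal_mul]
    rw [h1]
    exact mul_pos hp τ.im_pos⟩

@[simp] theorem coe_divShift (p : ℕ) [NeZero p] (b : ℤ) (τ : ℍ) :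
    ((divShift p b τ : ℍ) : ℂ) = ((τ : ℂ) + (b : ℂ)) / (p : ℂ) := rfl

@[simp] theorem coe_mulNat (p : ℕ) [NeZero p] (τ : ℍ) :
    ((mulNat p τ : ℍ) : ℂ) = (p : ℂ) * (τ : ℂ) := rfl

theorem nome_mulNat (p : ℕ) [NeZero p] (τ : ℍ) : nome (mulNat p τ) = nome τ ^ p := by
  unfold nome
  rw [← Complex.exp_nat_mul, coe_mulNat]
  congr 1; ring

theorem nome_divShift_pow (p : ℕ) [NeZero p] (b : ℤ) (τ : ℍ) :
    nome (divShift p b τ) ^ p = nome τ := by
  have hp : (p : ℂ) ≠ 0 := by exact_mod_cast NeZero.ne p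
  unfold nome
  rw [← Complex.exp_nat_mul, coe_divShift]
  have : (p : ℂ) * (2 * Real.pi * Complex.I * (((τ : ℂ) + (b : ℂ)) / (p : ℂ)))
      = 2 * Real.pi * Complex.I * (τ : ℂ) + (b : ℂ) * (2 * Real.pi * Complex.I) := by
    field_simp
  rw [this, Complex.exp_add, Complex.exp_int_mul_two_pi_mul_I, mul_one]

theorem nome_divShift_injective (p : ℕ) [NeZero p] (τ : ℍ) :
    Function.Injective (fun b : Fin p => nome (divShift p ((b : ℕ) : ℤ) τ)) := by
  have hp : (p : ℂ) ≠ 0 := by exact_mod_cast NeZero.ne p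
  intro b b' h
  simp only [nome] at h
  rw [Complex.exp_eq_exp_iff_exists_int] at h
  obtain ⟨n, hn⟩ := h
  simp only [coe_divShift] at hn
  have hpi : (2 * Real.pi * Complex.I : ℂ) ≠ 0 := by
    simp [Real.pi_ne_zero]
  have h1 : ((τ : ℂ) + ((b : ℕ) : ℤ)) / (p : ℂ) = ((τ : ℂ) + ((b' : ℕ) : ℤ)) / (p : ℂ) + n := by
    have := hn
    have h2 : 2 * Real.pi * Complex.I * (((τ : ℂ) + ((b : ℕ) : ℤ)) / (p : ℂ))
        = 2 * Real.pi * Complex.I * (((τ : ℂ) + ((b' : ℕ) : ℤ)) / (p : ℂ) + n) := by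
      rw [this]; ring
    exact mul_left_cancel₀ hpi h2
  have h3 : (((b : ℕ) : ℤ) : ℂ) = (((b' : ℕ) : ℤ) : ℂ) + (n : ℂ) * (p : ℂ) := by
    field_simp at h1
    linear_combination h1
  have h4 : ((b : ℕ) : ℤ) = ((b' : ℕ) : ℤ) + n * (p : ℤ) := by exact_mod_cast h3
  have hb := b.2
  have hb' := b'.2
  have hn0 : n = 0 := by
    by_contra hne
    rcases lt_or_gt_of_ne hne with hlt | hgt
    · have : n ≤ -1 := by omega
      have : n * (p : ℤ) ≤ -1 * (p : ℤ) := by
        apply mul_le_mul_of_nonneg_right this; positivity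
      omega
    · have : 1 ≤ n := by omega
      have : 1 * (p : ℤ) ≤ n * (p : ℤ) := by
        apply mul_le_mul_of_nonneg_right this; positivity
      omega
  rw [hn0] at h4
  apply Fin.ext
  omega

/-- **Generic analytic theorem**: the coefficients of `(X - e)·charpoly(secMat p g)` have
convergent `q`-expansions, with values the coefficients of
`(X - E(τ)) ∏_b (X - G((τ+b)/p))`. -/
theorem hasQExp_coeff_mul_charpoly (p : ℕ) [NeZero p] (g e : LaurentSeries ℂ) (G E : ℍ → ℂ)
    (hG : HasQExp g G) (hE : HasQExp e E) (k : ℕ) :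
    HasQExp (((X - C e) * (secMat p g).charpoly).coeff k)
      (fun τ => ((X - C (E τ)) *
        ∏ b : Fin p, (X - C (G (divShift p ((b : ℕ) : ℤ) τ)))).coeff k) := by
  intro τ
  exact hasLSum_coeff_mul_charpoly g e (nome τ)
    (fun b : Fin p => nome (divShift p ((b : ℕ) : ℤ) τ))
    (fun b => nome_ne_zero _) (fun b => nome_divShift_pow p _ τ)
    (nome_divShift_injective p τ)
    (fun b => G (divShift p ((b : ℕ) : ℤ) τ)) (fun b => hG _) (E τ) (hE τ) k

/-- `q`-expansion of `τ ↦ F(pτ)`. -/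
theorem HasQExp.mulNat {c : LaurentSeries ℂ} {F : ℍ → ℂ} (h : HasQExp c F) (p : ℕ) [NeZero p] :
    HasQExp (ModularCurve.qExpand ℂ p c) (fun τ => F (mulNat p τ)) := by
  intro τ
  apply HasLSum.expand
  rw [← nome_mulNat]
  exact h _

theorem HasQExp.mul {c d : LaurentSeries ℂ} {F G : ℍ → ℂ} (h1 : HasQExp c F)
    (h2 : HasQExp d G) : HasQExp (c * d) (fun τ => F τ * G τ) :=
  fun τ => (h1 τ).mul (nome_ne_zero τ) (h2 τ)

theorem HasQExp.add {c d : LaurentSeries ℂ} {F G : ℍ → ℂ} (h1 : HasQExp c F)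
    (h2 : HasQExp d G) : HasQExp (c + d) (fun τ => F τ + G τ) :=
  fun τ => (h1 τ).add (h2 τ)

theorem hasQExp_C (a : ℂ) : HasQExp (HahnSeries.C a) (fun _ => a) :=
  fun _ => hasLSum_C _ a

theorem HasQExp.unique {c : LaurentSeries ℂ} {F G : ℍ → ℂ} (h1 : HasQExp c F)
    (h2 : HasQExp c G) : F = G :=
  funext fun τ => (h1 τ).unique (h2 τ)

end Fermat.Agent.S28.H807

end

end
-- ===== PACK-END S28/H807/Points.lean

-- ===== PACK-BEGIN S28/H807/SAction.lean
section
/-
S28 / helper807 — the action of `S : τ ↦ -1/τ` on the `p+1` conjugates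
`{E(τ)} ∪ {G((τ+b)/p) : b < p}`: abstract permutation lemma + the point identities in `ℍ`.
-/



set_option autoImplicit false
set_option maxHeartbeats 400000

noncomputable section

open ModularCurve Polynomial Matrix UpperHalfPlane Complex
open scoped MatrixGroups

namespace Fermat.Agent.S28.H807

section Perm

variable (p : ℕ) [Fact p.Prime]

/-- `b ↦ -1/b` on nonzero residues, on representatives in `Fin p`. -/
def negInvFin (b : Fin p) : Fin p :=
  ⟨(-((b : ℕ) : ZMod p)⁻¹).val, ZMod.val_lt _⟩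

theorem negInvFin_cast (b : Fin p) :
    (((negInvFin p b : Fin p) : ℕ) : ZMod p) = -((b : ℕ) : ZMod p)⁻¹ := by
  simp [negInvFin]

theorem cast_ne_zero_of_ne_zero {b : Fin p} (hb : (b : ℕ) ≠ 0) : (((b : ℕ) : ZMod p)) ≠ 0 := by
  intro h
  rw [ZMod.natCast_eq_zero_iff] at h
  have := Nat.le_of_dvd (Nat.pos_of_ne_zero hb) h
  exact absurd b.2 (not_lt.mpr this)

theorem negInvFin_ne_zero {b : Fin p} (hb : (b : ℕ) ≠ 0) : ((negInvFin p b : Fin p) : ℕ) ≠ 0 := by
  intro h
  have h1 := negInvFin_cast p b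
  rw [h] at h1
  simp only [Nat.cast_zero] at h1
  have h2 : (((b : ℕ) : ZMod p))⁻¹ = 0 := by
    have := h1.symm
    rwa [neg_eq_zero] at this
  rw [inv_eq_zero] at h2
  exact cast_ne_zero_of_ne_zero p hb h2

theorem negInvFin_negInvFin {b : Fin p} (_hb : (b : ℕ) ≠ 0) :
    negInvFin p (negInvFin p b) = b := by
  apply Fin.ext
  show (-(((negInvFin p b : Fin p) : ℕ) : ZMod p)⁻¹).val = (b : ℕ)
  rw [negInvFin_cast, inv_neg, neg_neg, inv_inv, ZMod.val_natCast_of_lt b.2]

theorem dvd_mul_negInvFin_add_one {b : Fin p} (hb : (b : ℕ) ≠ 0) :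
    (p : ℤ) ∣ ((b : ℕ) : ℤ) * (((negInvFin p b : Fin p) : ℕ) : ℤ) + 1 := by
  have h1 : ((((b : ℕ) : ℤ) * (((negInvFin p b : Fin p) : ℕ) : ℤ) + 1 : ℤ) : ZMod p) = 0 := by
    push_cast
    rw [negInvFin_cast, mul_neg, mul_inv_cancel₀ (cast_ne_zero_of_ne_zero p hb)]
    ring
  exact (ZMod.intCast_zmod_eq_zero_iff_dvd _ p).mp h1

/-- The permutation of `P¹(𝔽_p) = Option (Fin p)` induced by `S`. -/
def sPermFun : Option (Fin p) → Option (Fin p)
  | none => some ⟨0, (Fact.out : p.Prime).pos⟩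
  | some b => if (b : ℕ) = 0 then none else some (negInvFin p b)

theorem sPermFun_involutive : Function.Involutive (sPermFun p) := by
  intro i
  cases i with
  | none => simp [sPermFun]
  | some b =>
    by_cases hb : (b : ℕ) = 0
    · simp only [sPermFun, hb, if_true]
      congr 1
      exact Fin.ext hb.symm
    · simp only [sPermFun, hb, if_false, negInvFin_ne_zero p hb]
      rw [negInvFin_negInvFin p hb]

/-- **Abstract `S`-invariance**: if the conjugates at `τ'` are obtained from those at `τ` by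
the permutation `sPermFun`, the two products agree. -/
theorem prod_conj_eq_of_perm (E E' : ℂ) (G G' : Fin p → ℂ)
    (ha : E' = G ⟨0, (Fact.out : p.Prime).pos⟩)
    (hb : G' ⟨0, (Fact.out : p.Prime).pos⟩ = E)
    (hc : ∀ b : Fin p, (b : ℕ) ≠ 0 → G' b = G (negInvFin p b)) :
    (X - C E') * ∏ b : Fin p, (X - C (G' b)) = (X - C E) * ∏ b : Fin p, (X - C (G b)) := by
  set f : Option (Fin p) → ℂ := fun i => Option.elim i E G with hf
  set f' : Option (Fin p) → ℂ := fun i => Option.elim i E' G' with hf'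
  have h1 : (X - C E) * ∏ b : Fin p, (X - C (G b)) = ∏ i : Option (Fin p), (X - C (f i)) := by
    rw [Fintype.prod_option]; rfl
  have h2 : (X - C E') * ∏ b : Fin p, (X - C (G' b)) = ∏ i : Option (Fin p), (X - C (f' i)) := by
    rw [Fintype.prod_option]; rfl
  have h3 : ∀ i, f' i = f (sPermFun p i) := by
    intro i
    cases i with
    | none => simp [hf, hf', sPermFun, ha]
    | some b =>
      by_cases hb0 : (b : ℕ) = 0
      · have hb1 : b = ⟨0, (Fact.out : p.Prime).pos⟩ := Fin.ext hb0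
        subst hb1
        show G' ⟨0, (Fact.out : p.Prime).pos⟩ = f (sPermFun p (some ⟨0, (Fact.out : p.Prime).pos⟩))
        rw [hb]
        simp [hf, sPermFun]
      · simp [hf, hf', sPermFun, hb0, hc b hb0]
  rw [h1, h2]
  rw [← Equiv.prod_comp ((sPermFun_involutive p).toPerm _) (fun i => (X - C (f i)))]
  apply Finset.prod_congr rfl
  intro i _
  rw [h3 i]
  rfl

end Perm

section PointIdentities

variable (p : ℕ) [NeZero p]

theorem mulNat_S_smul (τ : ℍ) :
    mulNat p (ModularGroup.S • τ) = ModularGroup.S • divShift p 0 τ := by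
  have hp : (p : ℂ) ≠ 0 := by exact_mod_cast NeZero.ne p
  have hτ : (τ : ℂ) ≠ 0 := ne_zero τ
  apply UpperHalfPlane.ext
  rw [modular_S_smul, modular_S_smul]
  simp only [coe_mulNat, coe_divShift, Int.cast_zero, add_zero]
  field_simp

theorem divShift_zero_S_smul (τ : ℍ) :
    divShift p 0 (ModularGroup.S • τ) = ModularGroup.S • mulNat p τ := by
  have hp : (p : ℂ) ≠ 0 := by exact_mod_cast NeZero.ne p
  have hτ : (τ : ℂ) ≠ 0 := ne_zero τ
  apply UpperHalfPlane.ext
  rw [modular_S_smul, modular_S_smul]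
  simp only [coe_mulNat, coe_divShift, Int.cast_zero, add_zero]
  field_simp

theorem mulNat_divShift (b : ℤ) (τ : ℍ) :
    mulNat p (divShift p b τ) = ModularGroup.T ^ b • τ := by
  have hp : (p : ℂ) ≠ 0 := by exact_mod_cast NeZero.ne p
  apply UpperHalfPlane.ext
  rw [modular_T_zpow_smul]
  simp only [coe_mulNat, coe_divShift, UpperHalfPlane.coe_vadd]
  field_simp
  push_cast
  ring

/-- The matrix `[[B, -k], [p, -B']]` with `B B' + 1 = p k`. -/
def conjMat (B B' k : ℤ) (h : B * B' + 1 = (p : ℤ) * k) : SL(2, ℤ) :=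
  ⟨!![B, -k; (p : ℤ), -B'], by
    rw [Matrix.det_fin_two_of]
    linarith⟩

theorem conjMat_smul (B B' k : ℤ) (h : B * B' + 1 = (p : ℤ) * k) (τ : ℍ) :
    conjMat p B B' k h • divShift p B' τ = divShift p B (ModularGroup.S • τ) := by
  have hp : (p : ℂ) ≠ 0 := by exact_mod_cast NeZero.ne p
  have hτ : (τ : ℂ) ≠ 0 := ne_zero τ
  have hk : (B : ℂ) * (B' : ℂ) + 1 = (p : ℂ) * (k : ℂ) := by exact_mod_cast h
  apply UpperHalfPlane.ext
  rw [coe_specialLinearGroup_apply, modular_S_smul]
  simp only [coe_divShift, conjMat]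
  simp only [Matrix.of_apply, Matrix.cons_val',
    Matrix.cons_val_zero, Matrix.cons_val_one, Matrix.cons_val_fin_one, algebraMap_int_eq,
    eq_intCast, Int.cast_neg, Int.cast_natCast, Complex.ofReal_intCast, Complex.ofReal_neg,
    Complex.ofReal_natCast]
  have hden : (p : ℂ) * (((τ : ℂ) + (B' : ℂ)) / (p : ℂ)) + -(B' : ℂ) = (τ : ℂ) := by
    field_simp; ring
  rw [hden]
  field_simp
  linear_combination hk

theorem denom_conjMat (B B' k : ℤ) (h : B * B' + 1 = (p : ℤ) * k) (τ : ℍ) :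
    denom (conjMat p B B' k h) (divShift p B' τ) = (τ : ℂ) := by
  have hp : (p : ℂ) ≠ 0 := by exact_mod_cast NeZero.ne p
  rw [ModularGroup.denom_apply]
  simp only [coe_divShift, conjMat]
  simp only [Matrix.of_apply, Matrix.cons_val',
    Matrix.cons_val_zero, Matrix.cons_val_one, Matrix.cons_val_fin_one]
  push_cast
  field_simp
  ring

end PointIdentities

end Fermat.Agent.S28.H807

end

end
-- ===== PACK-END S28/H807/SAction.lean

-- ===== PACK-BEGIN S28/H807/Families.lean
section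
/-
S28 / helper807 — `S`-invariance of the two families of conjugates:
* `j`-family: `{J(pτ)} ∪ {J((τ+b)/p)}` for an `SL(2,ℤ)`-invariant `J`;
* unit family: `{p¹² D(pτ)/D(τ)} ∪ {D((τ+b)/p)/D(τ)}` for a weight-12 form `D`.
-/



set_option autoImplicit false
set_option maxHeartbeats 400000

noncomputable section

open ModularCurve Polynomial Matrix UpperHalfPlane Complex
open scoped MatrixGroups

namespace Fermat.Agent.S28.H807

variable (p : ℕ) [NeZero p]

/-- The polynomial `(X - E(τ)) ∏_b (X - G((τ+b)/p))`. -/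
def conjPoly (E G : ℍ → ℂ) (τ : ℍ) : Polynomial ℂ :=
  (X - C (E τ)) * ∏ b : Fin p, (X - C (G (divShift p ((b : ℕ) : ℤ) τ)))

theorem conjPoly_S_of (hp : p.Prime) (E G : ℍ → ℂ)
    (ha : ∀ τ : ℍ, E (ModularGroup.S • τ) = G (divShift p 0 τ))
    (hb : ∀ τ : ℍ, G (divShift p 0 (ModularGroup.S • τ)) = E τ)
    (hc : ∀ (B B' k : ℤ) (_ : B * B' + 1 = (p : ℤ) * k) (τ : ℍ),
      G (divShift p B (ModularGroup.S • τ)) = G (divShift p B' τ))
    (τ : ℍ) : conjPoly p E G (ModularGroup.S • τ) = conjPoly p E G τ := by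
  have : Fact p.Prime := ⟨hp⟩
  unfold conjPoly
  apply prod_conj_eq_of_perm p (E τ) (E (ModularGroup.S • τ))
    (fun b => G (divShift p ((b : ℕ) : ℤ) τ))
    (fun b => G (divShift p ((b : ℕ) : ℤ) (ModularGroup.S • τ)))
  · simpa using ha τ
  · simpa using hb τ
  · intro b hb0
    obtain ⟨k, hk⟩ := dvd_mul_negInvFin_add_one p hb0
    exact hc _ _ k hk τ

/-- `S`-invariance for the `j`-family. -/
theorem conjPoly_J_S (hp : p.Prime) (J : ℍ → ℂ)
    (hJ : ∀ (γ : SL(2, ℤ)) (τ : ℍ), J (γ • τ) = J τ) (τ : ℍ) :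
    conjPoly p (fun τ => J (mulNat p τ)) J (ModularGroup.S • τ)
      = conjPoly p (fun τ => J (mulNat p τ)) J τ := by
  apply conjPoly_S_of p hp
  · intro τ
    rw [mulNat_S_smul, hJ]
  · intro τ
    rw [divShift_zero_S_smul, hJ]
  · intro B B' k h τ
    rw [← conjMat_smul p B B' k h, hJ]

/-- The function `τ' ↦ D(τ')/D(pτ')`, whose values at `(τ+b)/p` are `D((τ+b)/p)/D(τ)`. -/
def unitG (D : ℍ → ℂ) (τ : ℍ) : ℂ := D τ / D (mulNat p τ)

/-- The function `τ ↦ p¹² D(pτ)/D(τ)`. -/
def unitE (D : ℍ → ℂ) (τ : ℍ) : ℂ := (p : ℂ) ^ 12 * D (mulNat p τ) / D τ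

/-- `S`-invariance for the unit family. -/
theorem conjPoly_unit_S (hp : p.Prime) (D : ℍ → ℂ) (hD0 : ∀ τ, D τ ≠ 0)
    (hD : ∀ (γ : SL(2, ℤ)) (τ : ℍ), D (γ • τ) = (denom γ τ) ^ 12 * D τ) (τ : ℍ) :
    conjPoly p (unitE p D) (unitG p D) (ModularGroup.S • τ)
      = conjPoly p (unitE p D) (unitG p D) τ := by
  have hpc : (p : ℂ) ≠ 0 := by exact_mod_cast NeZero.ne p
  have hS : ∀ z : ℍ, D (ModularGroup.S • z) = (z : ℂ) ^ 12 * D z := by
    intro z
    rw [hD, ModularGroup.denom_S]
  have hT : ∀ (n : ℤ) (z : ℍ), D (ModularGroup.T ^ n • z) = D z := by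
    intro n z
    rw [hD]
    have : denom ((ModularGroup.T ^ n : SL(2, ℤ)) : GL (Fin 2) ℝ) z = 1 := by
      rw [ModularGroup.denom_apply]
      simp [ModularGroup.coe_T_zpow]
    rw [this, one_pow, one_mul]
  apply conjPoly_S_of p hp
  · intro τ
    have hτ : (τ : ℂ) ≠ 0 := ne_zero τ
    unfold unitE unitG
    rw [mulNat_S_smul, hS, hS, mulNat_divShift, hT]
    have h1 : ((divShift p 0 τ : ℍ) : ℂ) = (τ : ℂ) / (p : ℂ) := by simp
    rw [h1]
    have := hD0 τ
    field_simp
  · intro τ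
    have hτ : (τ : ℂ) ≠ 0 := ne_zero τ
    unfold unitE unitG
    rw [mulNat_divShift, hT, divShift_zero_S_smul, hS, hS]
    have h1 : ((mulNat p τ : ℍ) : ℂ) = (p : ℂ) * (τ : ℂ) := by simp
    rw [h1]
    have := hD0 τ
    field_simp
  · intro B B' k h τ
    have hτ : (τ : ℂ) ≠ 0 := ne_zero τ
    unfold unitG
    rw [mulNat_divShift, hT, mulNat_divShift, hT, ← conjMat_smul p B B' k h, hD,
      denom_conjMat, hS]
    have := hD0 τ
    field_simp

end Fermat.Agent.S28.H807

end

end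
-- ===== PACK-END S28/H807/Families.lean

-- ===== PACK-BEGIN S28/H807/Core.lean
section
/-
S28 / helper807 — generic construction: from two convergent `q`-series `g, e ∈ ℤ((q))` whose
families of conjugates are `S`-stable, the polynomial `(X - e)·charpoly(secMat p g)` has
coefficients in `ℤ[j]`.
-/





set_option autoImplicit false
set_option maxHeartbeats 400000

noncomputable section

open ModularCurve Polynomial Matrix UpperHalfPlane
open scoped MatrixGroups

namespace Fermat.Agent.S28.H807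

/-- The level-one polynomial principle (analytic input, provided by the bridge seats):
an `S`-invariant function on `ℍ` with a convergent Laurent `q`-expansion is a polynomial in `j`. -/
def PolyPrinciple : Prop :=
  ∀ (c : LaurentSeries ℂ) (F : ℍ → ℂ), HasQExp c F →
    (∀ τ : ℍ, F (ModularGroup.S • τ) = F τ) → ∃ P : Polynomial ℂ, c = evalJ ℂ P

section Formal

variable {R : Type*} [CommRing R] (p : ℕ) [NeZero p]

/-- The formal polynomial `(X - e) · charpoly (secMat p g)`. -/
def formalPoly (g e : LaurentSeries R) : Polynomial (LaurentSeries R) :=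
  (X - C e) * (secMat p g).charpoly

theorem formalPoly_monic (g e : LaurentSeries R) : (formalPoly p g e).Monic :=
  (monic_X_sub_C e).mul (Matrix.charpoly_monic _)

theorem formalPoly_natDegree [Nontrivial R] (g e : LaurentSeries R) :
    (formalPoly p g e).natDegree = p + 1 := by
  unfold formalPoly
  rw [Polynomial.Monic.natDegree_mul (monic_X_sub_C e) (Matrix.charpoly_monic _),
    natDegree_X_sub_C, Matrix.charpoly_natDegree_eq_dim, Fintype.card_fin, add_comm]

theorem formalPoly_eval_self (g e : LaurentSeries R) : (formalPoly p g e).eval e = 0 := by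
  simp [formalPoly]

theorem formalPoly_map_qExpand_eval (g e : LaurentSeries R) :
    ((formalPoly p g e).map (qExpand R p)).eval g = 0 := by
  unfold formalPoly
  rw [Polynomial.map_mul, Polynomial.eval_mul, secMat_charpoly_eval, mul_zero]

theorem formalPoly_map_coeffMap {S : Type*} [CommRing S] (φ : R →+* S) (g e : LaurentSeries R) :
    (formalPoly p g e).map (coeffMap φ) = formalPoly p (coeffMap φ g) (coeffMap φ e) := by
  unfold formalPoly
  rw [Polynomial.map_mul, Polynomial.map_sub, Polynomial.map_X, Polynomial.map_C,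
    ← Matrix.charpoly_map, secMat_coeffMap]

end Formal

/-- Evaluation at `j` as a ring hom `ℤ[Y] → ℤ((q))`. -/
def evalJZHom : Polynomial ℤ →+* LaurentSeries ℤ :=
  Polynomial.eval₂RingHom (Int.castRingHom _) (jqModC ℤ)

theorem evalJZHom_apply (Q : Polynomial ℤ) : evalJZHom Q = evalJZ Q := rfl

variable (p : ℕ) [NeZero p]

/-- The coefficients of the formal polynomial lie in `ℤ[j]`. -/
theorem formalPoly_coeff_mem_range (hPP : PolyPrinciple) (gZ eZ : LaurentSeries ℤ)
    (G E : ℍ → ℂ)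
    (hG : HasQExp (coeffMap (Int.castRingHom ℂ) gZ) G)
    (hE : HasQExp (coeffMap (Int.castRingHom ℂ) eZ) E)
    (hS : ∀ τ : ℍ, conjPoly p E G (ModularGroup.S • τ) = conjPoly p E G τ) (k : ℕ) :
    (formalPoly p gZ eZ).coeff k ∈ Set.range evalJZHom := by
  have h1 : HasQExp ((formalPoly p (coeffMap (Int.castRingHom ℂ) gZ)
      (coeffMap (Int.castRingHom ℂ) eZ)).coeff k) (fun τ => (conjPoly p E G τ).coeff k) :=
    hasQExp_coeff_mul_charpoly p _ _ G E hG hE k
  have h2 : ∀ τ : ℍ, (conjPoly p E G (ModularGroup.S • τ)).coeff k = (conjPoly p E G τ).coeff k :=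
    fun τ => by rw [hS τ]
  obtain ⟨P, hP⟩ := hPP _ _ h1 h2
  have h3 : evalJ ℂ P = coeffMap (Int.castRingHom ℂ) ((formalPoly p gZ eZ).coeff k) := by
    rw [← hP, ← formalPoly_map_coeffMap, Polynomial.coeff_map]
  obtain ⟨Q, hQ⟩ := exists_int_poly_of_evalJ_eq P _ h3
  exact ⟨Q, hQ⟩

/-- **Main generic theorem**: a monic lift of the formal polynomial to `ℤ[Y][X]`. -/
theorem exists_lift_formalPoly (hPP : PolyPrinciple) (gZ eZ : LaurentSeries ℤ)
    (G E : ℍ → ℂ)
    (hG : HasQExp (coeffMap (Int.castRingHom ℂ) gZ) G)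
    (hE : HasQExp (coeffMap (Int.castRingHom ℂ) eZ) E)
    (hS : ∀ τ : ℍ, conjPoly p E G (ModularGroup.S • τ) = conjPoly p E G τ) :
    ∃ Φ : Polynomial (Polynomial ℤ), Φ.Monic ∧ Φ.natDegree = p + 1 ∧
      Φ.map evalJZHom = formalPoly p gZ eZ := by
  have hl : formalPoly p gZ eZ ∈ Polynomial.lifts evalJZHom := by
    rw [Polynomial.lifts_iff_coeff_lifts]
    intro k
    exact formalPoly_coeff_mem_range p hPP gZ eZ G E hG hE hS k
  obtain ⟨Φ, h1, h2, h3⟩ :=
    Polynomial.lifts_and_natDegree_eq_and_monic hl (formalPoly_monic p gZ eZ)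
  exact ⟨Φ, h3, by rw [h2, formalPoly_natDegree], h1⟩

end Fermat.Agent.S28.H807

end

end
-- ===== PACK-END S28/H807/Core.lean

-- ===== PACK-BEGIN S28/H807/ModPoly.lean
section
/-
S28 / helper807 — the prime-level analytic inputs `ModPolyData p` and `UnitPolyData p`
of the captain skeleton (`Fermat/Agent/S28/Defs.lean`), from three explicit analytic
hypotheses (level-one polynomial principle, `q`-expansion of `j`, `q`-expansion of `Δ^{±1}`).
-/




set_option autoImplicit false
set_option maxHeartbeats 400000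

noncomputable section

open ModularCurve Polynomial Matrix UpperHalfPlane
open scoped MatrixGroups

namespace Fermat.Agent.S28.H807

open Fermat.Agent.S28

theorem evalAt_jqModC_eq : evalAt (jqModC ℤ) = evalJZHom := by
  apply Polynomial.ringHom_ext
  · intro a
    simp [evalAt, evalJZHom]
  · simp [evalAt, evalJZHom]

theorem evalAt_comp_qExpand (p : ℕ) [NeZero p] :
    evalAt (qExpand ℤ p (jqModC ℤ)) = (qExpand ℤ p).comp evalJZHom := by
  apply Polynomial.ringHom_ext
  · intro a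
    simp [evalAt, evalJZHom]
  · simp [evalAt, evalJZHom]

variable (p : ℕ) [NeZero p]

/-- **[A-Φ]** The modular polynomial of prime level `p`, from the analytic hypotheses. -/
theorem nonempty_modPolyData_of (hp : p.Prime) (hPP : PolyPrinciple) (J : ℍ → ℂ)
    (hJinv : ∀ (γ : SL(2, ℤ)) (τ : ℍ), J (γ • τ) = J τ)
    (hJexp : HasQExp (jqModC ℂ) J) : Nonempty (ModPolyData p) := by
  have hG : HasQExp (coeffMap (Int.castRingHom ℂ) (jqModC ℤ)) J := by
    rw [coeffMap_jqModC]; exact hJexp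
  have hE : HasQExp (coeffMap (Int.castRingHom ℂ) (qExpand ℤ p (jqModC ℤ)))
      (fun τ => J (mulNat p τ)) := by
    rw [coeffMap_qExpand, coeffMap_jqModC]; exact hJexp.mulNat p
  obtain ⟨Φ, hmonic, hdeg, hmap⟩ := exists_lift_formalPoly p hPP (jqModC ℤ)
    (qExpand ℤ p (jqModC ℤ)) J (fun τ => J (mulNat p τ)) hG hE (conjPoly_J_S p hp J hJinv)
  refine ⟨⟨Φ, hmonic, hdeg, ?_, ?_⟩⟩
  · rw [evalAt_jqModC_eq, Polynomial.eval₂_eq_eval_map, hmap]
    exact formalPoly_eval_self p _ _
  · rw [evalAt_comp_qExpand, Polynomial.eval₂_eq_eval_map, ← Polynomial.map_map, hmap]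
    exact formalPoly_map_qExpand_eval p _ _

/-- **[A-W]** `p¹² Δ(q^p)/Δ(q)` is integral over `ℤ[j]`, from the analytic hypotheses. -/
theorem nonempty_unitPolyData_of (hp : p.Prime) (hPP : PolyPrinciple) (D : ℍ → ℂ)
    (hD0 : ∀ τ, D τ ≠ 0)
    (hD : ∀ (γ : SL(2, ℤ)) (τ : ℍ), D (γ • τ) = (denom γ τ) ^ 12 * D τ)
    (hDexp : HasQExp (coeffMap (Int.castRingHom ℂ) (deltaL ℤ)) D)
    (hDinvexp : HasQExp (coeffMap (Int.castRingHom ℂ) (deltaInvL ℤ)) (fun τ => (D τ)⁻¹)) :
    Nonempty (UnitPolyData p) := by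
  have hG : HasQExp (coeffMap (Int.castRingHom ℂ) (deltaL ℤ * qExpand ℤ p (deltaInvL ℤ)))
      (unitG p D) := by
    rw [map_mul, coeffMap_qExpand]
    intro τ
    have := (hDexp.mul (hDinvexp.mulNat p)) τ
    simpa [unitG, div_eq_mul_inv] using this
  have hE : HasQExp (coeffMap (Int.castRingHom ℂ) ((p : LaurentSeries ℤ) ^ 12 * unitL ℤ p))
      (unitE p D) := by
    rw [map_mul, map_pow, map_natCast, unitL, map_mul, coeffMap_qExpand]
    have hc : HasQExp ((p : LaurentSeries ℂ) ^ 12) (fun _ => (p : ℂ) ^ 12) := by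
      have h1 : ((p : LaurentSeries ℂ) ^ 12) = HahnSeries.C ((p : ℂ) ^ 12) := by
        rw [map_pow, map_natCast]
      rw [h1]
      exact hasQExp_C _
    intro τ
    have := (hc.mul ((hDexp.mulNat p).mul hDinvexp)) τ
    simpa [unitE, div_eq_mul_inv, mul_assoc] using this
  obtain ⟨Φ, hmonic, _, hmap⟩ := exists_lift_formalPoly p hPP
    (deltaL ℤ * qExpand ℤ p (deltaInvL ℤ)) ((p : LaurentSeries ℤ) ^ 12 * unitL ℤ p)
    (unitG p D) (unitE p D) hG hE (conjPoly_unit_S p hp D hD0 hD)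
  refine ⟨⟨Φ, hmonic, ?_⟩⟩
  rw [evalAt_jqModC_eq, Polynomial.eval₂_eq_eval_map, hmap]
  exact formalPoly_eval_self p _ _

end Fermat.Agent.S28.H807

end

end
-- ===== PACK-END S28/H807/ModPoly.lean

-- ===== PACK-BEGIN S18/Mod/H216/IntE.lean
section



/-!
# S18 / MOD (helper216): the ring `intE` of `E`-rational integral series and its two homs

* `toOm : intE M A E →+* Om M`   (injective, image in `Fc M E`),
* `redE : intE M A E →+* κ((q))` (`κ` = residue field of `A`),
* `mem_Vc_iff'` : `f ∈ Vc ↔ ∃ U₁ U₂ : intE, redE U₂ ≠ 0 ∧ f * toOm U₂ = toOm U₁`,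
* constants `cInt`, the coordinate `jInt`, and division of a series by a constant (`divC`).
-/

set_option autoImplicit false
set_option linter.unusedSectionVars false

noncomputable section

namespace Fermat.Agent.S18.Mod.H216

open ModularCurve AlgebraicCurve HahnSeries Fermat.Agent.S18 Fermat.Agent.S18.Mod

variable (M : ℕ) (A : ValuationSubring Qb) (E : IntermediateField ℚ Qb)

/-- `A((q)) → Q̄((q))`. -/
abbrev inclA : LaurentSeries ↥A →+* LaurentSeries Qb := coeffMap A.subtype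

/-- `A((q)) → κ((q))`. -/
abbrev redA : LaurentSeries ↥A →+* LaurentSeries (IsLocalRing.ResidueField ↥A) :=
  coeffMap (IsLocalRing.residue ↥A)

theorem inclA_injective : Function.Injective (inclA A) := H516.incl_injective A

theorem inclA_mem_bar (U : ↥(intE M A E)) :
    inclA A (U : LaurentSeries ↥A) ∈ modularFunctionFieldBar M := by
  obtain ⟨f, -, hfU⟩ := U.2.2
  rw [← hfU]
  exact f.2

/-- The element of `Ω` defined by an integral series. -/
def toOm : ↥(intE M A E) →+* Om M where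
  toFun U := ⟨inclA A (U : LaurentSeries ↥A), inclA_mem_bar M A E U⟩
  map_one' := Subtype.ext (by simp)
  map_mul' U W := Subtype.ext (by simp)
  map_zero' := Subtype.ext (by simp)
  map_add' U W := Subtype.ext (by simp)

@[simp] theorem coe_toOm (U : ↥(intE M A E)) :
    ((toOm M A E U : Om M) : LaurentSeries Qb) = inclA A (U : LaurentSeries ↥A) := rfl

theorem toOm_injective : Function.Injective (toOm M A E) := by
  intro U W h
  apply Subtype.ext
  apply inclA_injective A
  exact congrArg Subtype.val h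

theorem toOm_mem_Fc (U : ↥(intE M A E)) : toOm M A E U ∈ Fc M E := by
  obtain ⟨f, hf, hfU⟩ := U.2.2
  have : toOm M A E U = f := Subtype.ext hfU.symm
  rw [this]
  exact hf

/-- The reduction of an integral series. -/
def redE : ↥(intE M A E) →+* LaurentSeries (IsLocalRing.ResidueField ↥A) :=
  (redA A).comp (intE M A E).subtype

@[simp] theorem redE_apply (U : ↥(intE M A E)) :
    redE M A E U = redA A (U : LaurentSeries ↥A) := rfl

theorem toOm_ne_zero_of_redE {U : ↥(intE M A E)} (h : redE M A E U ≠ 0) :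
    toOm M A E U ≠ 0 := by
  intro h0
  apply h
  have : U = 0 := toOm_injective M A E (by rw [h0, map_zero])
  rw [this, map_zero]

theorem mem_Vc_iff' {f : Om M} :
    f ∈ Vc M A E ↔ ∃ U₁ U₂ : ↥(intE M A E), redE M A E U₂ ≠ 0 ∧
      f * toOm M A E U₂ = toOm M A E U₁ := by
  constructor
  · rintro ⟨-, U₁, U₂, h₁, h₂, hne, heq⟩
    exact ⟨⟨U₁, (mem_intE M A E).mpr h₁⟩, ⟨U₂, (mem_intE M A E).mpr h₂⟩, hne, Subtype.ext heq⟩
  · rintro ⟨U₁, U₂, hne, heq⟩
    have h2 := toOm_ne_zero_of_redE M A E hne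
    have hf : f = toOm M A E U₁ * (toOm M A E U₂)⁻¹ := by
      rw [← heq, mul_assoc, mul_inv_cancel₀ h2, mul_one]
    refine ⟨?_, U₁, U₂, (mem_intE M A E).mp U₁.2, (mem_intE M A E).mp U₂.2, hne, ?_⟩
    · rw [hf]
      exact mul_mem (toOm_mem_Fc M A E U₁) (inv_mem (toOm_mem_Fc M A E U₂))
    · exact congrArg Subtype.val heq

theorem toOm_mem_Vc (U : ↥(intE M A E)) : toOm M A E U ∈ Vc M A E :=
  (mem_Vc_iff' M A E).mpr ⟨U, 1, by rw [map_one]; exact one_ne_zero, by rw [map_one, mul_one]⟩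

theorem inv_toOm_mem_Vc {U : ↥(intE M A E)} (h : redE M A E U ≠ 0) :
    (toOm M A E U)⁻¹ ∈ Vc M A E :=
  (mem_Vc_iff' M A E).mpr ⟨1, U, h, by
    rw [map_one, inv_mul_cancel₀ (toOm_ne_zero_of_redE M A E h)]⟩

/-! ### Constants -/

theorem mem_Ec_iff {r : Om M} : r ∈ Ec M E ↔ ∃ c : Qb, c ∈ E ∧ algebraMap Qb (Om M) c = r := by
  constructor
  · rintro ⟨c, hc, rfl⟩
    exact ⟨c, hc, rfl⟩
  · rintro ⟨c, hc, rfl⟩
    exact ⟨c, hc, rfl⟩

theorem mem_Rc_iff {r : Om M} :
    r ∈ Rc M A E ↔ ∃ c : Qb, c ∈ A ∧ c ∈ E ∧ algebraMap Qb (Om M) c = r := by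
  constructor
  · rintro ⟨c, ⟨hcA, hcE⟩, rfl⟩
    exact ⟨c, hcA, hcE, rfl⟩
  · rintro ⟨c, hcA, hcE, rfl⟩
    exact ⟨c, ⟨hcA, hcE⟩, rfl⟩

theorem coe_algebraMap_Om (c : Qb) :
    ((algebraMap Qb (Om M) c : Om M) : LaurentSeries Qb) = HahnSeries.C c := by
  show algebraMap Qb (LaurentSeries Qb) c = _
  rw [algebraMap_laurentSeries_eq_single, ← HahnSeries.C_apply]

theorem Ec_le_Fc : Ec M E ≤ Fc M E := fun _ h => Subfield.subset_closure (Or.inl h)

theorem Rc_le_Ec : (Rc M A E : Set (Om M)) ⊆ Ec M E := by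
  intro r hr
  obtain ⟨c, -, hcE, rfl⟩ := (mem_Rc_iff M A E).mp hr
  exact (mem_Ec_iff M E).mpr ⟨c, hcE, rfl⟩

theorem C_mem_intE {c : Qb} (hcA : c ∈ A) (hcE : c ∈ E) :
    (HahnSeries.C (⟨c, hcA⟩ : ↥A) : LaurentSeries ↥A) ∈ intE M A E := by
  rw [mem_intE]
  refine ⟨fun n => ?_, algebraMap Qb (Om M) c, Ec_le_Fc M E ((mem_Ec_iff M E).mpr ⟨c, hcE, rfl⟩), ?_⟩
  · rw [HahnSeries.C_apply, HahnSeries.coeff_single]
    split_ifs
    · exact hcE
    · exact zero_mem _
  · rw [coe_algebraMap_Om, H516.coeffMap_C]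
    rfl

/-- The constant series of `c ∈ A ∩ E`. -/
def cInt {c : Qb} (hcA : c ∈ A) (hcE : c ∈ E) : ↥(intE M A E) :=
  ⟨HahnSeries.C (⟨c, hcA⟩ : ↥A), C_mem_intE M A E hcA hcE⟩

theorem toOm_cInt {c : Qb} (hcA : c ∈ A) (hcE : c ∈ E) :
    toOm M A E (cInt M A E hcA hcE) = algebraMap Qb (Om M) c := by
  apply Subtype.ext
  rw [coe_toOm, coe_algebraMap_Om]
  show coeffMap A.subtype (HahnSeries.C (⟨c, hcA⟩ : ↥A)) = _
  rw [H516.coeffMap_C]
  rfl

theorem redE_cInt {c : Qb} (hcA : c ∈ A) (hcE : c ∈ E) :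
    redE M A E (cInt M A E hcA hcE) = HahnSeries.C (IsLocalRing.residue ↥A ⟨c, hcA⟩) := by
  show coeffMap (IsLocalRing.residue ↥A) (HahnSeries.C (⟨c, hcA⟩ : ↥A)) = _
  rw [H516.coeffMap_C]

/-! ### The coordinate `j` -/

theorem coe_jOm : ((jOm M : Om M) : LaurentSeries Qb) = jqModC Qb := by
  show coeffEmb Qb (qExpand ℚ 1 jq) = _
  rw [qExpand_one_apply, H516.coeffEmb_jq]

theorem jOm_mem_Fc : jOm M ∈ Fc M E :=
  Subfield.subset_closure (Or.inr ⟨1, inferInstance, one_dvd M, rfl⟩)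

theorem jqModC_mem_intE : (jqModC ↥A : LaurentSeries ↥A) ∈ intE M A E := by
  rw [mem_intE]
  refine ⟨fun n => ?_, jOm M, jOm_mem_Fc M E, ?_⟩
  · have h : ((jqModC ↥A).coeff n : Qb) = (((jqModC ℤ).coeff n : ℤ) : Qb) := by
      have h1 : jqModC ↥A = coeffMap (Int.castRingHom ↥A) (jqModC ℤ) := (coeffMap_jqModC (Int.castRingHom ↥A)).symm
      rw [h1, coeffMap_coeff]
      simp
    rw [h]
    exact intCast_mem E _
  · rw [coe_jOm, coeffMap_jqModC]

/-- `j` as an integral series. -/
def jInt : ↥(intE M A E) := ⟨jqModC ↥A, jqModC_mem_intE M A E⟩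

theorem toOm_jInt : toOm M A E (jInt M A E) = jOm M := by
  apply Subtype.ext
  rw [coe_toOm, coe_jOm]
  show coeffMap A.subtype (jqModC ↥A) = _
  rw [coeffMap_jqModC]

theorem redE_jInt : redE M A E (jInt M A E) = jqModC (IsLocalRing.ResidueField ↥A) := by
  show coeffMap (IsLocalRing.residue ↥A) (jqModC ↥A) = _
  rw [coeffMap_jqModC]

theorem jOm_mem_Vc : jOm M ∈ Vc M A E := by
  rw [← toOm_jInt M A E]
  exact toOm_mem_Vc M A E _

end Fermat.Agent.S18.Mod.H216

end
end
-- ===== PACK-END S18/Mod/H216/IntE.lean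

-- ===== PACK-BEGIN S18/Mod/H216/Eval.lean
section



/-!
# S18 / MOD (helper216): polynomials in `j` over `A ∩ E` — the evaluation dictionary

`S0 A E = A ∩ E ⊆ Q̄`,  `eRc : S0 ≃+* Rc M A E`,  `resS : S0 →+* κ`,
`Uev : (S0)[X] →+* intE M A E`, `X ↦ j`, with

* `toOm_Uev` : `toOm (Uev p) = evR (Rc M A E) (jOm M) (p.map eRc)`   (value in `Ω`),
* `redE_Uev` : `redE (Uev p) = evJ (p.map resS)`                      (reduction),
* `redE_Uev_ne_zero_iff` : `redE (Uev p) ≠ 0 ↔ p.map resS ≠ 0`.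
-/

set_option autoImplicit false
set_option linter.unusedSectionVars false

noncomputable section

namespace Fermat.Agent.S18.Mod.H216

open ModularCurve AlgebraicCurve HahnSeries Polynomial Fermat.Agent.S18 Fermat.Agent.S18.Mod

variable (M : ℕ) (A : ValuationSubring Qb) (E : IntermediateField ℚ Qb)

/-- `A ∩ E` as a subring of `Q̄`. -/
abbrev S0 : Subring Qb := A.toSubring ⊓ E.toSubfield.toSubring

theorem Rc_eq_map : Rc M A E = (S0 A E).map (algebraMap Qb (Om M)) := rfl

/-- `A ∩ E ≃ Rc`. -/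
def eRc : ↥(S0 A E) ≃+* ↥(Rc M A E) :=
  Subring.equivMapOfInjective (S0 A E) (algebraMap Qb (Om M)) (algebraMap Qb (Om M)).injective

@[simp] theorem coe_eRc (c : ↥(S0 A E)) :
    ((eRc M A E c : ↥(Rc M A E)) : Om M) = algebraMap Qb (Om M) (c : Qb) := rfl

/-- `A ∩ E → A`. -/
def s0ToA : ↥(S0 A E) →+* ↥A := Subring.inclusion (inf_le_left : S0 A E ≤ A.toSubring)

@[simp] theorem coe_s0ToA (c : ↥(S0 A E)) : ((s0ToA A E c : ↥A) : Qb) = (c : Qb) := rfl

/-- The residue map on `A ∩ E`. -/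
def resS : ↥(S0 A E) →+* IsLocalRing.ResidueField ↥A :=
  (IsLocalRing.residue ↥A).comp (s0ToA A E)

/-- Constant series. -/
def cS : ↥(S0 A E) →+* ↥(intE M A E) where
  toFun c := cInt M A E c.2.1 c.2.2
  map_one' := Subtype.ext (by simp [cInt]; rfl)
  map_mul' a b := Subtype.ext (by
    show HahnSeries.C (⟨(a : Qb) * (b : Qb), _⟩ : ↥A) = HahnSeries.C _ * HahnSeries.C _
    rw [← map_mul]
    rfl)
  map_zero' := Subtype.ext (by simp [cInt]; rfl)
  map_add' a b := Subtype.ext (by
    show HahnSeries.C (⟨(a : Qb) + (b : Qb), _⟩ : ↥A) = HahnSeries.C _ + HahnSeries.C _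
    rw [← map_add]
    rfl)

theorem toOm_cS (c : ↥(S0 A E)) : toOm M A E (cS M A E c) = algebraMap Qb (Om M) (c : Qb) :=
  toOm_cInt M A E c.2.1 c.2.2

theorem redE_cS (c : ↥(S0 A E)) : redE M A E (cS M A E c) = HahnSeries.C (resS A E c) :=
  redE_cInt M A E c.2.1 c.2.2

/-- Evaluation at `j` of polynomials over `A ∩ E`, as integral series. -/
def Uev : (↥(S0 A E))[X] →+* ↥(intE M A E) := Polynomial.eval₂RingHom (cS M A E) (jInt M A E)

theorem toOm_Uev (p : (↥(S0 A E))[X]) :
    toOm M A E (Uev M A E p) =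
      evR (Rc M A E) (jOm M) (p.map (eRc M A E : ↥(S0 A E) →+* ↥(Rc M A E))) := by
  have h : (toOm M A E).comp (Uev M A E) =
      (evR (Rc M A E) (jOm M)).comp
        (Polynomial.mapRingHom (eRc M A E : ↥(S0 A E) →+* ↥(Rc M A E))) := by
    apply Polynomial.ringHom_ext
    · intro c
      simp only [RingHom.comp_apply, Uev, Polynomial.coe_eval₂RingHom, Polynomial.eval₂_C,
        Polynomial.coe_mapRingHom, Polynomial.map_C, evR_C]
      rw [toOm_cS]
      rfl
    · simp only [RingHom.comp_apply, Uev, Polynomial.coe_eval₂RingHom, Polynomial.eval₂_X,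
        Polynomial.coe_mapRingHom, Polynomial.map_X, evR_X]
      exact toOm_jInt M A E
  exact RingHom.congr_fun h p

theorem redE_Uev (p : (↥(S0 A E))[X]) :
    redE M A E (Uev M A E p) = H516.evJ (p.map (resS A E)) := by
  have h : (redE M A E).comp (Uev M A E) =
      (Polynomial.eval₂RingHom (HahnSeries.C (Γ := ℤ) (R := IsLocalRing.ResidueField ↥A))
        (jqModC (IsLocalRing.ResidueField ↥A))).comp (Polynomial.mapRingHom (resS A E)) := by
    apply Polynomial.ringHom_ext
    · intro c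
      simp only [RingHom.comp_apply, Uev, Polynomial.coe_eval₂RingHom, Polynomial.eval₂_C,
        Polynomial.coe_mapRingHom, Polynomial.map_C]
      exact redE_cS M A E c
    · simp only [RingHom.comp_apply, Uev, Polynomial.coe_eval₂RingHom, Polynomial.eval₂_X,
        Polynomial.coe_mapRingHom, Polynomial.map_X]
      exact redE_jInt M A E
  exact RingHom.congr_fun h p

theorem redE_Uev_eq_zero_iff (p : (↥(S0 A E))[X]) :
    redE M A E (Uev M A E p) = 0 ↔ p.map (resS A E) = 0 := by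
  rw [redE_Uev, H516.evJ_eq_zero_iff]

/-- Every polynomial over `Rc` comes from a polynomial over `A ∩ E`. -/
theorem evR_eq_toOm_Uev (p : (↥(Rc M A E))[X]) :
    evR (Rc M A E) (jOm M) p =
      toOm M A E (Uev M A E (p.map ((eRc M A E).symm : ↥(Rc M A E) →+* ↥(S0 A E)))) := by
  rw [toOm_Uev, Polynomial.map_map]
  have : ((eRc M A E : ↥(S0 A E) →+* ↥(Rc M A E)).comp
      ((eRc M A E).symm : ↥(Rc M A E) →+* ↥(S0 A E))) = RingHom.id _ := by
    ext c
    simp
  rw [this, Polynomial.map_id]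

end Fermat.Agent.S18.Mod.H216

end
end
-- ===== PACK-END S18/Mod/H216/Eval.lean

-- ===== PACK-BEGIN S18/Mod/H216/PartVj.lean
section


/-!
# S18 / MOD (helper216): G-V for the coordinate `j` — the fields that need no basis

For a uniformiser `w` (`PartR (Ec M E) (Rc M A E) w`):
`R_le_V`, `w_inv_not_mem_V`, `V_gen`, `gauss` for `V = Vc M A E`, `x = jOm M`.
(`V_total` needs the S28 basis: see `Basis.lean`.)
-/

set_option autoImplicit false
set_option linter.unusedSectionVars false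

noncomputable section

namespace Fermat.Agent.S18.Mod.H216

open ModularCurve AlgebraicCurve HahnSeries Polynomial Fermat.Agent.S18 Fermat.Agent.S18.Mod

variable (M : ℕ) (A : ValuationSubring Qb) (E : IntermediateField ℚ Qb)

/-! ### Units and non-units of `A` -/

theorem residue_eq_zero_of_inv_not_mem {c : Qb} (hc : c ∈ A) (hinv : c⁻¹ ∉ A) :
    IsLocalRing.residue ↥A ⟨c, hc⟩ = 0 := by
  rw [IsLocalRing.residue_eq_zero_iff, IsLocalRing.mem_maximalIdeal, mem_nonunits_iff]
  rintro ⟨u, hu⟩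
  apply hinv
  have h1 : (⟨c, hc⟩ : ↥A) * ((u⁻¹ : (↥A)ˣ) : ↥A) = 1 := by
    rw [← hu]
    exact u.mul_inv
  have h2 : c * ((((u⁻¹ : (↥A)ˣ) : ↥A) : Qb)) = 1 := congrArg Subtype.val h1
  have h3 : c⁻¹ = ((((u⁻¹ : (↥A)ˣ) : ↥A) : Qb)) := inv_eq_of_mul_eq_one_right h2
  rw [h3]
  exact SetLike.coe_mem _

theorem residue_ne_zero_of_inv_mem {c : Qb} (hc : c ∈ A) (hc0 : c ≠ 0) (hinv : c⁻¹ ∈ A) :
    IsLocalRing.residue ↥A ⟨c, hc⟩ ≠ 0 := by
  rw [Ne, IsLocalRing.residue_eq_zero_iff, IsLocalRing.mem_maximalIdeal, mem_nonunits_iff, not_not]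
  exact IsUnit.of_mul_eq_one (⟨c⁻¹, hinv⟩ : ↥A) (Subtype.ext (mul_inv_cancel₀ hc0))

theorem inv_not_mem_of_residue_eq_zero {c : Qb} (hc : c ∈ A) (hc0 : c ≠ 0)
    (h : IsLocalRing.residue ↥A ⟨c, hc⟩ = 0) : c⁻¹ ∉ A :=
  fun hinv => residue_ne_zero_of_inv_mem A hc hc0 hinv h

/-! ### Constants -/

theorem algebraMap_mem_Rc_iff {c : Qb} : algebraMap Qb (Om M) c ∈ Rc M A E ↔ c ∈ A ∧ c ∈ E := by
  constructor
  · intro h
    obtain ⟨c', hA, hE, hcc⟩ := (mem_Rc_iff M A E).mp h
    have : c' = c := (algebraMap Qb (Om M)).injective hcc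
    exact this ▸ ⟨hA, hE⟩
  · rintro ⟨hA, hE⟩
    exact (mem_Rc_iff M A E).mpr ⟨c, hA, hE, rfl⟩

/-- The uniformiser data extracted from `PartR`. -/
theorem exists_unif {w : Om M} (hR : PartR (Ec M E) (Rc M A E) w) :
    ∃ c : Qb, c ∈ A ∧ c ∈ E ∧ c ≠ 0 ∧ c⁻¹ ∉ A ∧ algebraMap Qb (Om M) c = w := by
  obtain ⟨c, hA, hE, rfl⟩ := (mem_Rc_iff M A E).mp hR.w_mem
  refine ⟨c, hA, hE, ?_, ?_, rfl⟩
  · intro h0
    apply hR.w_ne_zero
    rw [h0, map_zero]
  · intro hinv
    apply hR.w_inv_not_mem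
    rw [← map_inv₀]
    exact (algebraMap_mem_Rc_iff M A E).mpr ⟨hinv, inv_mem hE⟩

theorem R_le_V : Rc M A E ≤ Vc M A E := by
  intro r hr
  obtain ⟨c, hA, hE, rfl⟩ := (mem_Rc_iff M A E).mp hr
  rw [← toOm_cInt M A E hA hE]
  exact toOm_mem_Vc M A E _

theorem w_inv_not_mem_V {w : Om M} (hR : PartR (Ec M E) (Rc M A E) w) : w⁻¹ ∉ Vc M A E := by
  obtain ⟨c, hA, hE, hc0, hcinv, rfl⟩ := exists_unif M A E hR
  intro h
  obtain ⟨U₁, U₂, hne, heq⟩ := (mem_Vc_iff' M A E).mp h
  have hw0 : algebraMap Qb (Om M) c ≠ 0 := hR.w_ne_zero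
  have h1 : toOm M A E U₂ = toOm M A E (cInt M A E hA hE * U₁) := by
    rw [map_mul, toOm_cInt, ← heq, ← mul_assoc, mul_inv_cancel₀ hw0, one_mul]
  have h2 : U₂ = cInt M A E hA hE * U₁ := toOm_injective M A E h1
  apply hne
  rw [h2, map_mul, redE_cInt, residue_eq_zero_of_inv_not_mem A hA hcinv, map_zero, zero_mul]

/-! ### Division of a series by the uniformiser -/

open Classical in
/-- Coefficientwise division by `c` (junk value `0` when the quotient is not in `A`). -/
def divC (c : Qb) : ZeroHom ↥A ↥A where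
  toFun a := if h : (a : Qb) * c⁻¹ ∈ A then ⟨(a : Qb) * c⁻¹, h⟩ else 0
  map_zero' := by
    have h : ((0 : ↥A) : Qb) * c⁻¹ ∈ A := by simp
    rw [dif_pos h]
    apply Subtype.ext
    simp

open Classical in
theorem divC_apply {c : Qb} {a : ↥A} (h : (a : Qb) * c⁻¹ ∈ A) :
    ((divC A c a : ↥A) : Qb) = (a : Qb) * c⁻¹ := by
  show ((if h : (a : Qb) * c⁻¹ ∈ A then (⟨(a : Qb) * c⁻¹, h⟩ : ↥A) else 0 : ↥A) : Qb) = _
  rw [dif_pos h]

theorem algebraMap_LS_eq_C (c : Qb) :
    algebraMap Qb (LaurentSeries Qb) c = HahnSeries.C c := by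
  rw [algebraMap_laurentSeries_eq_single, ← HahnSeries.C_apply]

/-- A series with zero reduction is divisible by the uniformiser inside `intE`. -/
theorem exists_eq_unif_mul {w : Om M} (hR : PartR (Ec M E) (Rc M A E) w)
    {U : ↥(intE M A E)} (hU : redE M A E U = 0) :
    ∃ U' : ↥(intE M A E), toOm M A E U = w * toOm M A E U' := by
  obtain ⟨c, hA, hE, hc0, hcinv, rfl⟩ := exists_unif M A E hR
  have hUE : ∀ n, (((U : LaurentSeries ↥A).coeff n : ↥A) : Qb) ∈ E :=
    ((mem_intE M A E).mp U.2).1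
  have hres : ∀ n, IsLocalRing.residue ↥A ((U : LaurentSeries ↥A).coeff n) = 0 := by
    intro n
    have := congrArg (fun z : LaurentSeries (IsLocalRing.ResidueField ↥A) => z.coeff n) hU
    simpa using this
  have hdiv : ∀ n, (((U : LaurentSeries ↥A).coeff n : ↥A) : Qb) * c⁻¹ ∈ A := by
    intro n
    set a := (U : LaurentSeries ↥A).coeff n with ha
    by_cases ha0 : (a : Qb) = 0
    · rw [ha0, zero_mul]
      exact zero_mem _
    have hr : algebraMap Qb (Om M) (a : Qb) ∈ Rc M A E :=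
      (algebraMap_mem_Rc_iff M A E).mpr ⟨a.2, hUE n⟩
    have hrinv : (algebraMap Qb (Om M) (a : Qb))⁻¹ ∉ Rc M A E := by
      rw [← map_inv₀, algebraMap_mem_Rc_iff]
      rintro ⟨h, -⟩
      exact inv_not_mem_of_residue_eq_zero A a.2 ha0 (hres n) h
    have := hR.w_gen _ hr hrinv
    rw [← map_inv₀, ← map_mul, algebraMap_mem_Rc_iff] at this
    exact this.1
  set U' : LaurentSeries ↥A := (U : LaurentSeries ↥A).map (divC A c) with hU'
  have hcoeff : ∀ n, ((U'.coeff n : ↥A) : Qb) = (((U : LaurentSeries ↥A).coeff n : ↥A) : Qb) * c⁻¹ :=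
    fun n => divC_apply A (hdiv n)
  have hmul : inclA A (U : LaurentSeries ↥A) = HahnSeries.C c * inclA A U' := by
    ext n
    rw [HahnSeries.C_mul_eq_smul, HahnSeries.coeff_smul]
    show (((U : LaurentSeries ↥A).coeff n : ↥A) : Qb) = c • ((U'.coeff n : ↥A) : Qb)
    rw [hcoeff, smul_eq_mul]
    field_simp
  have hw0 : algebraMap Qb (Om M) c ≠ 0 := hR.w_ne_zero
  have hincl : inclA A U' =
      (((algebraMap Qb (Om M) c)⁻¹ * toOm M A E U : Om M) : LaurentSeries Qb) := by
    have hC0 : (HahnSeries.C c : LaurentSeries Qb) ≠ 0 := by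
      rw [← coe_algebraMap_Om M c]
      exact fun h => hw0 (Subtype.ext h)
    push_cast
    rw [algebraMap_LS_eq_C, coe_toOm, hmul, ← mul_assoc, inv_mul_cancel₀ hC0, one_mul]
  have hmem : U' ∈ intE M A E := by
    rw [mem_intE]
    refine ⟨fun n => ?_, (algebraMap Qb (Om M) c)⁻¹ * toOm M A E U, ?_, hincl.symm⟩
    · rw [hcoeff]
      exact mul_mem (hUE n) (inv_mem hE)
    · exact mul_mem (inv_mem (Ec_le_Fc M E ((mem_Ec_iff M E).mpr ⟨c, hE, rfl⟩)))
        (toOm_mem_Fc M A E U)
  refine ⟨⟨U', hmem⟩, ?_⟩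
  apply Subtype.ext
  push_cast
  rw [algebraMap_LS_eq_C, coe_toOm, coe_toOm]
  exact hmul

theorem V_gen {w : Om M} (hR : PartR (Ec M E) (Rc M A E) w) :
    ∀ f ∈ Vc M A E, f⁻¹ ∉ Vc M A E → f * w⁻¹ ∈ Vc M A E := by
  intro f hf hfinv
  obtain ⟨U₁, U₂, hne, heq⟩ := (mem_Vc_iff' M A E).mp hf
  have hw0 := hR.w_ne_zero
  have h1 : redE M A E U₁ = 0 := by
    by_contra h1
    apply hfinv
    have hU1 := toOm_ne_zero_of_redE M A E h1
    have hf0 : f ≠ 0 := by
      intro h0
      rw [h0, zero_mul] at heq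
      exact hU1 heq.symm
    refine (mem_Vc_iff' M A E).mpr ⟨U₂, U₁, h1, ?_⟩
    rw [← heq, ← mul_assoc, inv_mul_cancel₀ hf0, one_mul]
  obtain ⟨U', hU'⟩ := exists_eq_unif_mul M A E hR h1
  refine (mem_Vc_iff' M A E).mpr ⟨U', U₂, hne, ?_⟩
  rw [mul_right_comm, heq, hU', mul_comm w, mul_assoc, mul_inv_cancel₀ hw0, mul_one]

/-! ### The Gauss property -/

theorem gauss_j (P : Polynomial (Om M)) (hP : ∀ i, P.coeff i ∈ Rc M A E)
    (hu : ∃ i, P.coeff i ≠ 0 ∧ (P.coeff i)⁻¹ ∈ Rc M A E) :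
    (P.eval (jOm M))⁻¹ ∈ Vc M A E := by
  have hlifts : P ∈ Polynomial.lifts (Rc M A E).subtype :=
    (Polynomial.lifts_iff_coeff_lifts P).mpr fun i => ⟨⟨P.coeff i, hP i⟩, rfl⟩
  obtain ⟨p, hp⟩ := (Polynomial.mem_lifts P).mp hlifts
  have hev : P.eval (jOm M) = evR (Rc M A E) (jOm M) p := by
    rw [← hp, evR_apply, Polynomial.eval_map]
  rw [hev, evR_eq_toOm_Uev]
  apply inv_toOm_mem_Vc
  rw [Ne, redE_Uev_eq_zero_iff]
  obtain ⟨i, hi0, hiinv⟩ := hu
  intro h0
  have h1 := congrArg (fun q => q.coeff i) h0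
  simp only [Polynomial.coeff_map, Polynomial.coeff_zero] at h1
  set c := (eRc M A E).symm (p.coeff i) with hc
  have hcP : algebraMap Qb (Om M) (c : Qb) = P.coeff i := by
    have h2 : ((eRc M A E c : ↥(Rc M A E)) : Om M) = ((p.coeff i : ↥(Rc M A E)) : Om M) := by
      rw [hc, RingEquiv.apply_symm_apply]
    rw [coe_eRc] at h2
    rw [h2, ← hp, Polynomial.coeff_map]
    rfl
  have hc0 : (c : Qb) ≠ 0 := by
    intro h
    apply hi0
    rw [← hcP, h, map_zero]
  have hcinv : (c : Qb)⁻¹ ∈ A := by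
    rw [← hcP, ← map_inv₀, algebraMap_mem_Rc_iff] at hiinv
    exact hiinv.1
  exact residue_ne_zero_of_inv_mem A c.2.1 hc0 hcinv h1

end Fermat.Agent.S18.Mod.H216

end
end
-- ===== PACK-END S18/Mod/H216/PartVj.lean

-- ===== PACK-BEGIN S18/Mod/H216/Basis.lean
section


/-!
# S18 / MOD (helper216): the S28 basis inside `Fc M E`

* `exists_Fc_of_full` (T0): `coeffEmb Q̄ z`, `z ∈ F_ℚ`, is the value of an element of `Fc M E`.
* `exists_FE_of_Fc` (T1): every `f ∈ Fc M E` is the coefficientwise image of an element of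
  `F_E := laurentBaseChange E (modularFunctionFieldFull M) ⊆ E((q))`.
* `yInt` : the S28 monomials as elements of `intE M A E`.
* `exists_scaled_relation` (B2): `q(j) f = ∑ pᵢ(j) yᵢ` with `q, pᵢ ∈ (A ∩ E)[X]`, jointly primitive.
* `redE_sum_eq_zero` (B3): independence of the reductions over `κ[j̄]`.
-/

set_option autoImplicit false
set_option linter.unusedSectionVars false

noncomputable section

namespace Fermat.Agent.S18.Mod.H216

open ModularCurve AlgebraicCurve HahnSeries Polynomial Fermat.Agent.S18 Fermat.Agent.S18.Mod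
open Fermat.Agent.S28

variable (M : ℕ) (A : ValuationSubring Qb) (E : IntermediateField ℚ Qb)

/-! ### T0, T1 -/

theorem coe_jd (d : ℕ) [NeZero d] (hd : d ∣ M) :
    ((jd M d hd : Om M) : LaurentSeries Qb) = coeffEmb Qb (qExpand ℚ d jq) := rfl

theorem jd_mem_Fc (d : ℕ) [NeZero d] (hd : d ∣ M) : jd M d hd ∈ Fc M E :=
  Subfield.subset_closure (Or.inr ⟨d, inferInstance, hd, rfl⟩)

theorem coeffEmb_algebraMap (r : ℚ) :
    coeffEmb Qb (algebraMap ℚ (LaurentSeries ℚ) r) = HahnSeries.C (algebraMap ℚ Qb r) := by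
  rw [algebraMap_laurentSeries_eq_single, coeffEmb, coeffMap_single, ← HahnSeries.C_apply]

/-- **T0.** -/
theorem exists_Fc_of_full {z : LaurentSeries ℚ} (hz : z ∈ modularFunctionFieldFull M) :
    ∃ f ∈ Fc M E, (f : LaurentSeries Qb) = coeffEmb Qb z := by
  have hle : Subfield.closure (Set.range (algebraMap ℚ (LaurentSeries ℚ)) ∪ divisorExpansions M) ≤
      Subfield.comap (coeffEmb Qb) ((Fc M E).map (omVal M)) := by
    rw [Subfield.closure_le]
    rintro x (⟨r, rfl⟩ | ⟨d, hd, hdM, rfl⟩)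
    · refine ⟨algebraMap Qb (Om M) (algebraMap ℚ Qb r), ?_, ?_⟩
      · exact Ec_le_Fc M E ((mem_Ec_iff M E).mpr ⟨_, E.algebraMap_mem r, rfl⟩)
      · rw [omVal_apply, coe_algebraMap_Om, coeffEmb_algebraMap]
    · haveI := hd
      exact ⟨jd M d hdM, jd_mem_Fc M E d hdM, rfl⟩
  obtain ⟨f, hf, hfz⟩ := hle hz
  exact ⟨f, hf, hfz⟩

/-- `E((q)) → Q̄((q))`. -/
abbrev iotaE : LaurentSeries ↥E →+* LaurentSeries Qb := coeffMap (algebraMap ↥E Qb)

theorem iotaE_coeffEmb (z : LaurentSeries ℚ) : iotaE E (coeffEmb ↥E z) = coeffEmb Qb z := by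
  rw [coeffEmb, coeffEmb, coeffMap_coeffMap]
  exact coeffMap_congr (RingHom.ext_rat _ _) z

theorem iotaE_algebraMap (c : ↥E) :
    iotaE E (algebraMap ↥E (LaurentSeries ↥E) c) = HahnSeries.C (c : Qb) := by
  rw [algebraMap_laurentSeries_eq_single, coeffMap_single, ← HahnSeries.C_apply]
  rfl

/-- **T1.** -/
theorem exists_FE_of_Fc {f : Om M} (hf : f ∈ Fc M E) :
    ∃ g ∈ laurentBaseChange ↥E (modularFunctionFieldFull M), iotaE E g = (f : LaurentSeries Qb) := by
  have hle : Fc M E ≤ Subfield.comap (omVal M)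
      ((laurentBaseChange ↥E (modularFunctionFieldFull M)).toSubfield.map (iotaE E)) := by
    rw [Fc, Subfield.closure_le]
    rintro x (hx | ⟨d, hd, hdM, rfl⟩)
    · obtain ⟨c, hc, rfl⟩ := (mem_Ec_iff M E).mp hx
      refine ⟨algebraMap ↥E (LaurentSeries ↥E) ⟨c, hc⟩, ?_, ?_⟩
      · exact (laurentBaseChange ↥E (modularFunctionFieldFull M)).algebraMap_mem _
      · rw [omVal_apply, coe_algebraMap_Om]
        exact iotaE_algebraMap E ⟨c, hc⟩
    · haveI := hd
      refine ⟨coeffEmb ↥E (qExpand ℚ d jq), ?_, ?_⟩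
      · exact coeffEmb_mem_laurentBaseChange ↥E (jqd_mem_full M hdM)
      · rw [omVal_apply, coe_jd]
        exact iotaE_coeffEmb E _
  obtain ⟨g, hg, hgf⟩ := hle hf
  exact ⟨g, hg, hgf⟩

/-! ### The monomials -/

variable {M} {n : ℕ} {y : Fin n → LaurentSeries ℤ}

theorem coeffMap_intCast_mem_intE [NeZero M] (hS : H516.SpansQ M y) (i : Fin n) :
    coeffMap (Int.castRingHom ↥A) (y i) ∈ intE M A E := by
  rw [mem_intE]
  obtain ⟨f, hf, hfz⟩ := exists_Fc_of_full M E (H516.yQ_mem_full hS i)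
  refine ⟨fun k => ?_, f, hf, ?_⟩
  · rw [coeffMap_coeff]
    simp only [eq_intCast, SubringClass.coe_intCast]
    exact intCast_mem E _
  · rw [hfz, ← H516.coeffMap_intCast_eq_coeffEmb, coeffMap_coeffMap]
    exact coeffMap_congr (RingHom.ext_int _ _) _

/-- The S28 monomials as integral series. -/
def yInt [NeZero M] (hS : H516.SpansQ M y) (i : Fin n) : ↥(intE M A E) :=
  ⟨coeffMap (Int.castRingHom ↥A) (y i), coeffMap_intCast_mem_intE A E hS i⟩

theorem coe_toOm_yInt [NeZero M] (hS : H516.SpansQ M y) (i : Fin n) :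
    ((toOm M A E (yInt A E hS i) : Om M) : LaurentSeries Qb) =
      coeffMap (Int.castRingHom Qb) (y i) := by
  rw [coe_toOm]
  show coeffMap A.subtype (coeffMap (Int.castRingHom ↥A) (y i)) = _
  rw [coeffMap_coeffMap]
  exact coeffMap_congr (RingHom.ext_int _ _) _

theorem redE_yInt [NeZero M] (hS : H516.SpansQ M y) (i : Fin n) :
    redE M A E (yInt A E hS i) =
      coeffMap (Int.castRingHom (IsLocalRing.ResidueField ↥A)) (y i) := by
  show coeffMap (IsLocalRing.residue ↥A) (coeffMap (Int.castRingHom ↥A) (y i)) = _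
  rw [coeffMap_coeffMap]
  exact coeffMap_congr (RingHom.ext_int _ _) _

/-- **(B3)** independence of the reductions over `κ[j̄]`. -/
theorem redE_sum_eq_zero [NeZero M] (hS : H516.SpansQ M y)
    (hli : LinearIndependent (jField (IsLocalRing.ResidueField ↥A))
      (fun i => coeffMap (Int.castRingHom (IsLocalRing.ResidueField ↥A)) (y i)))
    (p : Fin n → (↥(S0 A E))[X])
    (h : redE M A E (∑ i, Uev M A E (p i) * yInt A E hS i) = 0) :
    ∀ i, (p i).map (resS A E) = 0 := by
  rw [map_sum] at h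
  simp only [map_mul, redE_Uev, redE_yInt] at h
  have h2 := Fintype.linearIndependent_iff.mp hli
    (fun i => (⟨H516.evJ ((p i).map (resS A E)), H516.evJ_mem_jField _ _⟩ :
      jField (IsLocalRing.ResidueField ↥A))) h
  intro i
  have h3 := congrArg Subtype.val (h2 i)
  exact (H516.evJ_eq_zero_iff _).mp h3

/-! ### (B2) the scaled relation -/

variable (M) in
theorem coe_toOm_Uev (p : (↥(S0 A E))[X]) :
    ((toOm M A E (Uev M A E p) : Om M) : LaurentSeries Qb) =
      H516.evJ (p.map (S0 A E).subtype) := by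
  have h : (omVal M).comp ((toOm M A E).comp (Uev M A E)) =
      (Polynomial.eval₂RingHom (HahnSeries.C (Γ := ℤ) (R := Qb)) (jqModC Qb)).comp
        (Polynomial.mapRingHom (S0 A E).subtype) := by
    apply Polynomial.ringHom_ext
    · intro c
      simp only [RingHom.comp_apply, Uev, Polynomial.coe_eval₂RingHom, Polynomial.eval₂_C,
        Polynomial.coe_mapRingHom, Polynomial.map_C, omVal_apply]
      rw [toOm_cS, coe_algebraMap_Om]
      rfl
    · simp only [RingHom.comp_apply, Uev, Polynomial.coe_eval₂RingHom, Polynomial.eval₂_X,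
        Polynomial.coe_mapRingHom, Polynomial.map_X, omVal_apply]
      rw [toOm_jInt, coe_jOm]
  exact RingHom.congr_fun h p

/-- `A ∩ E` as a valuation subring of `E`. -/
def RE : ValuationSubring ↥E := A.comap (algebraMap ↥E Qb)

/-- `RE → S0`. -/
def reToS0 : ↥(RE A E) →+* ↥(S0 A E) where
  toFun c := ⟨algebraMap ↥E Qb (c : ↥E), c.2, (c : ↥E).2⟩
  map_one' := Subtype.ext (by simp)
  map_mul' a b := Subtype.ext (by simp)
  map_zero' := Subtype.ext (by simp)
  map_add' a b := Subtype.ext (by simp)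

theorem subtype_comp_reToS0 :
    (S0 A E).subtype.comp (reToS0 A E) = (algebraMap ↥E Qb).comp (RE A E).subtype := rfl

variable (M) in
theorem coe_toOm_Uev_map (P : (↥(RE A E))[X]) :
    ((toOm M A E (Uev M A E (P.map (reToS0 A E))) : Om M) : LaurentSeries Qb) =
      iotaE E (H516.evJ (P.map (RE A E).subtype)) := by
  rw [coe_toOm_Uev, H516.coeffMap_evJ, Polynomial.map_map, Polynomial.map_map,
    subtype_comp_reToS0]

/-- **(B2)** every `f ∈ Fc M E` satisfies a jointly primitive relation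
`q(j) f = ∑ pᵢ(j) yᵢ` over `A ∩ E`. -/
theorem exists_scaled_relation [NeZero M] (hS : H516.SpansQ M y) {f : Om M}
    (hf : f ∈ Fc M E) :
    ∃ (q : (↥(S0 A E))[X]) (p : Fin n → (↥(S0 A E))[X]),
      (q.map (resS A E) ≠ 0 ∨ ∃ i, (p i).map (resS A E) ≠ 0) ∧
      toOm M A E (Uev M A E q) * f =
        toOm M A E (∑ i, Uev M A E (p i) * yInt A E hS i) := by
  classical
  obtain ⟨g, hg, hgf⟩ := exists_FE_of_Fc M E hf
  have hgs := (H516.mem_baseChange_iff_mem_spanL ↥E hS).mp hg
  obtain ⟨G, H, hG, hrel⟩ :=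
    H516.exists_cleared ↥E (fun i => coeffMap (Int.castRingHom ↥E) (y i)) hgs
  obtain ⟨c, H', hc, hH', i0, m0, h1⟩ :=
    H516.exists_scale (RE A E) (Fin.cons G H : Fin (n + 1) → (↥E)[X]) ⟨0, by simpa using hG⟩
  have hq : (H' 0).map (RE A E).subtype = C c⁻¹ * G := by
    rw [hH' 0, Fin.cons_zero]
  have hp : ∀ i : Fin n, (H' i.succ).map (RE A E).subtype = C c⁻¹ * H i := by
    intro i
    rw [hH' i.succ, Fin.cons_succ]
  refine ⟨(H' 0).map (reToS0 A E), fun i => (H' i.succ).map (reToS0 A E), ?_, ?_⟩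
  · -- primitivity
    have hone : ∀ P : (↥(RE A E))[X], P.coeff m0 = 1 →
        (P.map (reToS0 A E)).map (resS A E) ≠ 0 := by
      intro P hP h0
      have := congrArg (fun q => q.coeff m0) h0
      simp only [Polynomial.coeff_map, hP, map_one, Polynomial.coeff_zero] at this
      exact one_ne_zero this
    rcases Fin.eq_zero_or_eq_succ i0 with h0 | ⟨i, hi⟩
    · left
      exact hone _ (h0 ▸ h1)
    · right
      exact ⟨i, hone _ (hi ▸ h1)⟩
  · -- the relation
    have hE : H516.evJ ((H' 0).map (RE A E).subtype) * g =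
        ∑ i, H516.evJ ((H' i.succ).map (RE A E).subtype) *
          coeffMap (Int.castRingHom ↥E) (y i) := by
      rw [hq, H516.evJ_mul, mul_assoc, hrel, Finset.mul_sum]
      refine Finset.sum_congr rfl fun i _ => ?_
      rw [hp i, H516.evJ_mul, mul_assoc]
    apply Subtype.ext
    have hy : ∀ i, iotaE E (coeffMap (Int.castRingHom ↥E) (y i)) =
        ((toOm M A E (yInt A E hS i) : Om M) : LaurentSeries Qb) := by
      intro i
      rw [coe_toOm_yInt, coeffMap_coeffMap]
      exact coeffMap_congr (RingHom.ext_int _ _) _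
    have h2 := congrArg (iotaE E) hE
    rw [map_mul, map_sum, hgf, ← coe_toOm_Uev_map M] at h2
    rw [map_sum]
    push_cast
    rw [h2]
    refine Finset.sum_congr rfl fun i _ => ?_
    rw [map_mul, hy, ← coe_toOm_Uev_map M, map_mul]
    rfl

end Fermat.Agent.S18.Mod.H216

end
end
-- ===== PACK-END S18/Mod/H216/Basis.lean

-- ===== PACK-BEGIN S18/Mod/H216/DenJ.lean
section


/-!
# S18 / MOD (helper216): `V_total`, denominators and integrality for the coordinate `j`

From the S28 basis (`SpansQ M y`, independence of the reductions over `κ(j̄)`, integrality of the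
`j(q^d)` over `ℤ[j]`):

* `V_total_j`     : `Vc M A E` is a valuation ring of `Fc M E`;
* `injective_evR_j` : `j` is transcendental over `Rc M A E`;
* `isIntegral_toOm_yInt` : the monomials are integral over `Rc[j]`;
* `denAt_j`       : the denominator statement `DenAt` on the chart `Rc[j]`.
-/

set_option autoImplicit false
set_option linter.unusedSectionVars false

noncomputable section

namespace Fermat.Agent.S18.Mod.H216

open ModularCurve AlgebraicCurve HahnSeries Polynomial Fermat.Agent.S18 Fermat.Agent.S18.Mod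
open Fermat.Agent.S28 Fermat.Agent.S18.Alg

variable {M : ℕ} [NeZero M] (A : ValuationSubring Qb) (E : IntermediateField ℚ Qb)
variable {n : ℕ} {y : Fin n → LaurentSeries ℤ}

theorem redE_sum_ne_zero (hS : H516.SpansQ M y)
    (hli : LinearIndependent (jField (IsLocalRing.ResidueField ↥A))
      (fun i => coeffMap (Int.castRingHom (IsLocalRing.ResidueField ↥A)) (y i)))
    {q : (↥(S0 A E))[X]} {p : Fin n → (↥(S0 A E))[X]}
    (hprim : q.map (resS A E) ≠ 0 ∨ ∃ i, (p i).map (resS A E) ≠ 0)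
    (hq : q.map (resS A E) = 0) :
    redE M A E (∑ i, Uev M A E (p i) * yInt A E hS i) ≠ 0 := by
  intro h
  have h1 := redE_sum_eq_zero A E hS hli p h
  rcases hprim with h2 | ⟨i, hi⟩
  · exact h2 hq
  · exact hi (h1 i)

/-- **`V_total`** for `x = j`. -/
theorem V_total_j (hS : H516.SpansQ M y)
    (hli : LinearIndependent (jField (IsLocalRing.ResidueField ↥A))
      (fun i => coeffMap (Int.castRingHom (IsLocalRing.ResidueField ↥A)) (y i))) :
    ∀ f ∈ Fc M E, f ∈ Vc M A E ∨ f⁻¹ ∈ Vc M A E := by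
  intro f hf
  obtain ⟨q, p, hprim, hrel⟩ := exists_scaled_relation A E hS hf
  by_cases hq : q.map (resS A E) = 0
  · right
    have hN := redE_sum_ne_zero A E hS hli hprim hq
    have hf0 : f ≠ 0 := by
      intro h0
      rw [h0, mul_zero] at hrel
      exact toOm_ne_zero_of_redE M A E hN hrel.symm
    refine (mem_Vc_iff' M A E).mpr
      ⟨Uev M A E q, ∑ i, Uev M A E (p i) * yInt A E hS i, hN, ?_⟩
    rw [← hrel, mul_comm (toOm M A E (Uev M A E q)), ← mul_assoc, inv_mul_cancel₀ hf0, one_mul]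
  · left
    have hD : redE M A E (Uev M A E q) ≠ 0 := by rwa [Ne, redE_Uev_eq_zero_iff]
    refine (mem_Vc_iff' M A E).mpr
      ⟨∑ i, Uev M A E (p i) * yInt A E hS i, Uev M A E q, hD, ?_⟩
    rw [mul_comm]
    exact hrel

/-- `j` is transcendental over `Rc`. -/
theorem injective_evR_j : Function.Injective (evR (Rc M A E) (jOm M)) := by
  rw [injective_iff_map_eq_zero]
  intro p hp
  rw [evR_eq_toOm_Uev] at hp
  have h1 := congrArg (fun z : Om M => (z : LaurentSeries Qb)) hp
  simp only [coe_toOm_Uev, ZeroMemClass.coe_zero] at h1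
  have h2 := (H516.evJ_eq_zero_iff Qb).mp h1
  rw [Polynomial.map_map] at h2
  have hinj : Function.Injective
      (((S0 A E).subtype).comp ((eRc M A E).symm : ↥(Rc M A E) →+* ↥(S0 A E))) :=
    (Subtype.val_injective).comp (eRc M A E).symm.injective
  exact Polynomial.map_injective _ hinj (by rw [h2, Polynomial.map_zero])

theorem toOm_Uev_mem_polyRing (p : (↥(S0 A E))[X]) :
    toOm M A E (Uev M A E p) ∈ polyRing (Rc M A E) (jOm M) := by
  rw [toOm_Uev]
  exact (mem_polyRing_iff _ _).mpr ⟨_, rfl⟩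

theorem isIntegral_toOm_Uev (p : (↥(S0 A E))[X]) :
    IsIntegral (polyRing (Rc M A E) (jOm M)) (toOm M A E (Uev M A E p)) :=
  isIntegral_algebraMap (R := polyRing (Rc M A E) (jOm M)) (A := Om M)
    (x := ⟨_, toOm_Uev_mem_polyRing A E p⟩)

/-- **Denominators** on the chart `Rc[j]`. -/
theorem denAt_j {w : Om M} (hR : PartR (Ec M E) (Rc M A E) w) (hS : H516.SpansQ M y)
    (hli : LinearIndependent (jField (IsLocalRing.ResidueField ↥A))
      (fun i => coeffMap (Int.castRingHom (IsLocalRing.ResidueField ↥A)) (y i)))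
    (hint : ∀ i, IsIntegral (polyRing (Rc M A E) (jOm M)) (toOm M A E (yInt A E hS i))) :
    DenAt (Fc M E) (Rc M A E) (Vc M A E) w (jOm M) := by
  intro f hf hfV
  obtain ⟨q, p, hprim, hrel⟩ := exists_scaled_relation A E hS hf
  have hq : q.map (resS A E) ≠ 0 := by
    intro hq0
    have hN := redE_sum_ne_zero A E hS hli hprim hq0
    obtain ⟨U₁, U₂, hne, heq⟩ := (mem_Vc_iff' M A E).mp hfV
    have h1 : toOm M A E (Uev M A E q * U₁) =
        toOm M A E ((∑ i, Uev M A E (p i) * yInt A E hS i) * U₂) := by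
      rw [map_mul, map_mul, ← heq, ← hrel]
      ring
    have h3 := congrArg (redE M A E) (toOm_injective M A E h1)
    rw [map_mul, map_mul, (redE_Uev_eq_zero_iff M A E q).mpr hq0, zero_mul] at h3
    exact mul_ne_zero hN hne h3.symm
  have hD : redE M A E (Uev M A E q) ≠ 0 := by rwa [Ne, redE_Uev_eq_zero_iff]
  refine ⟨toOm M A E (Uev M A E q), toOm_Uev_mem_polyRing A E q, ?_, ?_⟩
  · intro h
    obtain ⟨c, hA, hE, hc0, hcinv, rfl⟩ := exists_unif M A E hR
    have hw0 : algebraMap Qb (Om M) c ≠ 0 := hR.w_ne_zero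
    obtain ⟨U₁, U₂, hne, heq⟩ := (mem_Vc_iff' M A E).mp h
    have h1 : toOm M A E (Uev M A E q * U₂) = toOm M A E (cInt M A E hA hE * U₁) := by
      rw [map_mul, map_mul, toOm_cInt, ← heq]
      field_simp
    have h3 := congrArg (redE M A E) (toOm_injective M A E h1)
    rw [map_mul, map_mul, redE_cInt, residue_eq_zero_of_inv_not_mem A hA hcinv, map_zero,
      zero_mul] at h3
    exact mul_ne_zero hD hne h3
  · rw [hrel, map_sum]
    refine IsIntegral.sum _ fun i _ => ?_
    rw [map_mul]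
    exact (isIntegral_toOm_Uev A E (p i)).mul (hint i)

end Fermat.Agent.S18.Mod.H216

end
end
-- ===== PACK-END S18/Mod/H216/DenJ.lean

-- ===== PACK-BEGIN S18/H456/ModFields.lean
section


/-!
# S18 / MOD assembly (helper456): the fields `compositum`, `E_closed_in_F`, `x_mem`,
`x_transcendental` of `Alg.GoodModel` for the concrete objects
-/

set_option autoImplicit false

noncomputable section

namespace Fermat.Agent.S18.H456

open ModularCurve AlgebraicCurve HahnSeries Fermat.Agent.S18 Fermat.Agent.S18.Mod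

/-! ### Algebraic Laurent series are constant -/

section LaurentConst

variable {K : Type*} [Field K]

/-- A Laurent series over a field `K` which is algebraic over `K` is constant. -/
theorem laurent_const_of_isAlgebraic (f : LaurentSeries K) (hf : IsAlgebraic K f) :
    ∃ c : K, f = algebraMap K (LaurentSeries K) c := by
  have key : ∀ g : LaurentSeries K, IsAlgebraic K g →
      ∃ y : PowerSeries K, algebraMap (PowerSeries K) (LaurentSeries K) y = g := by
    intro g hg
    obtain ⟨p, hpm, hp⟩ := hg.isIntegral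
    have h2 : IsIntegral (PowerSeries K) g := by
      refine ⟨p.map (PowerSeries.C (R := K)), hpm.map _, ?_⟩
      rw [Polynomial.eval₂_map]
      exact hp
    exact IsIntegrallyClosed.isIntegral_iff.mp h2
  obtain ⟨y, hy⟩ := key f hf
  set c₀ := PowerSeries.constantCoeff y with hc₀
  by_cases hg : y - PowerSeries.C c₀ = 0
  · refine ⟨c₀, ?_⟩
    rw [← hy, sub_eq_zero.mp hg]
    rfl
  · exfalso
    have hg' : algebraMap (PowerSeries K) (LaurentSeries K) (y - PowerSeries.C c₀) ≠ 0 := by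
      intro h
      exact hg ((injective_iff_map_eq_zero _).1
        (IsFractionRing.injective (PowerSeries K) (LaurentSeries K)) _ h)
    have halg : IsAlgebraic K (algebraMap (PowerSeries K) (LaurentSeries K)
        (y - PowerSeries.C c₀)) := by
      rw [map_sub, hy]
      refine hf.sub ?_
      have : algebraMap (PowerSeries K) (LaurentSeries K) (PowerSeries.C c₀) =
          algebraMap K (LaurentSeries K) c₀ := rfl
      rw [this]
      exact isAlgebraic_algebraMap c₀
    obtain ⟨z, hz⟩ := key _ halg.inv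
    have h1 : algebraMap (PowerSeries K) (LaurentSeries K) ((y - PowerSeries.C c₀) * z) =
        algebraMap (PowerSeries K) (LaurentSeries K) 1 := by
      rw [map_mul, hz, map_one, mul_inv_cancel₀ hg']
    have h2 := IsFractionRing.injective (PowerSeries K) (LaurentSeries K) h1
    have h3 := congrArg (PowerSeries.constantCoeff (R := K)) h2
    rw [map_mul, map_sub, PowerSeries.constantCoeff_C, ← hc₀, sub_self, zero_mul, map_one] at h3
    exact zero_ne_one h3

end LaurentConst

variable (M : ℕ) (A : ValuationSubring Qb) (E : IntermediateField ℚ Qb)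

/-! ### Coefficients of elements of `Fc` lie in `E` -/

/-- The subfield of `Q̄((q))` of series with coefficients in `E`. -/
def coeffField : Subfield (LaurentSeries Qb) :=
  (coeffMap (algebraMap E Qb)).fieldRange

theorem mem_coeffField_iff {g : LaurentSeries Qb} :
    g ∈ coeffField E ↔ ∃ h : LaurentSeries E, coeffMap (algebraMap E Qb) h = g := Iff.rfl

theorem coeff_mem_of_mem_coeffField {g : LaurentSeries Qb} (hg : g ∈ coeffField E) (n : ℤ) :
    g.coeff n ∈ E := by
  obtain ⟨h, rfl⟩ := hg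
  rw [coeffMap_coeff]
  exact (h.coeff n).2

theorem val_cst (c : Qb) : ((cst M c : Om M) : LaurentSeries Qb) =
    HahnSeries.single 0 c := by
  show algebraMap Qb (LaurentSeries Qb) c = _
  exact algebraMap_laurentSeries_eq_single Qb c

theorem coeffEmb_mem_coeffField (z : LaurentSeries ℚ) : coeffEmb Qb z ∈ coeffField E := by
  refine ⟨coeffMap (algebraMap ℚ E) z, ?_⟩
  rw [coeffMap_coeffMap, coeffEmb]
  exact coeffMap_congr (RingHom.ext_rat _ _) z

theorem val_mem_coeffField {f : Om M} (hf : f ∈ Fc M E) :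
    (f : LaurentSeries Qb) ∈ coeffField E := by
  unfold Fc at hf
  induction hf using Subfield.closure_induction with
  | mem y hy =>
      rcases hy with hy | hy
      · obtain ⟨c, hc, rfl⟩ := (mem_Ec_iff M E).1 hy
        rw [val_cst]
        exact ⟨HahnSeries.single 0 ⟨c, hc⟩, by rw [coeffMap_single]; rfl⟩
      · obtain ⟨d, hd, hdM, rfl⟩ := hy
        exact coeffEmb_mem_coeffField E _
  | one => exact one_mem _
  | add x y _ _ hx hy => exact add_mem hx hy
  | neg x _ hx => exact neg_mem hx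
  | inv x _ hx =>
      show ((x⁻¹ : Om M) : LaurentSeries Qb) ∈ _
      rw [show ((x⁻¹ : Om M) : LaurentSeries Qb) = (x : LaurentSeries Qb)⁻¹ from rfl]
      exact inv_mem hx
  | mul x y _ _ hx hy => exact mul_mem hx hy

theorem coeff_mem_of_mem_Fc {f : Om M} (hf : f ∈ Fc M E) (n : ℤ) :
    (f : LaurentSeries Qb).coeff n ∈ E :=
  coeff_mem_of_mem_coeffField E (val_mem_coeffField M E hf) n

/-! ### Elements of `ℚ(j_d)` lie in `Fc` -/

theorem ratCast_mem_Fc (c : ℚ) : cst M (algebraMap ℚ Qb c) ∈ Fc M E :=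
  field_E_le_F M E (cst_mem_Ec M E (E.algebraMap_mem c))

/-- The image of `z ∈ ℚ(j_d : d ∣ M)` in `Ω`. -/
def ofFull [NeZero M] (z : LaurentSeries ℚ) (hz : z ∈ modularFunctionFieldFull M) : Om M :=
  ⟨coeffEmb Qb z, coeffEmb_mem_laurentBaseChange Qb hz⟩

theorem ofFull_mem_Fc [NeZero M] (z : LaurentSeries ℚ) (hz : z ∈ modularFunctionFieldFull M) :
    ofFull M z hz ∈ Fc M E := by
  have hz' := hz
  unfold modularFunctionFieldFull at hz'
  -- induction over the adjoin, keeping track of membership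
  have key : ∀ y (hy : y ∈ IntermediateField.adjoin ℚ (divisorExpansions M)),
      ∃ h : y ∈ modularFunctionFieldFull M, ofFull M y h ∈ Fc M E := by
    intro y hy
    induction hy using IntermediateField.adjoin_induction with
    | mem y hy =>
        obtain ⟨d, hd, hdM, rfl⟩ := hy
        refine ⟨jqd_mem_full M hdM, ?_⟩
        exact Subfield.subset_closure (Or.inr ⟨d, hd, hdM, rfl⟩)
    | algebraMap c =>
        refine ⟨(modularFunctionFieldFull M).algebraMap_mem c, ?_⟩
        have : ofFull M (algebraMap ℚ (LaurentSeries ℚ) c)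
            ((modularFunctionFieldFull M).algebraMap_mem c) = cst M (algebraMap ℚ Qb c) := by
          apply Subtype.ext
          show coeffEmb Qb (algebraMap ℚ (LaurentSeries ℚ) c) = _
          rw [val_cst, coeffEmb, algebraMap_laurentSeries_eq_single, coeffMap_single]
        rw [this]
        exact ratCast_mem_Fc M E c
    | add x y _ _ hx hy =>
        obtain ⟨hx1, hx2⟩ := hx
        obtain ⟨hy1, hy2⟩ := hy
        refine ⟨add_mem hx1 hy1, ?_⟩
        have : ofFull M (x + y) (add_mem hx1 hy1) = ofFull M x hx1 + ofFull M y hy1 :=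
          Subtype.ext (map_add (coeffEmb Qb) x y)
        rw [this]
        exact add_mem hx2 hy2
    | inv x _ hx =>
        obtain ⟨hx1, hx2⟩ := hx
        refine ⟨inv_mem hx1, ?_⟩
        have : ofFull M x⁻¹ (inv_mem hx1) = (ofFull M x hx1)⁻¹ :=
          Subtype.ext (map_inv₀ (coeffEmb Qb) x)
        rw [this]
        exact inv_mem hx2
    | mul x y _ _ hx hy =>
        obtain ⟨hx1, hx2⟩ := hx
        obtain ⟨hy1, hy2⟩ := hy
        refine ⟨mul_mem hx1 hy1, ?_⟩
        have : ofFull M (x * y) (mul_mem hx1 hy1) = ofFull M x hx1 * ofFull M y hy1 :=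
          Subtype.ext (map_mul (coeffEmb Qb) x y)
        rw [this]
        exact mul_mem hx2 hy2
  obtain ⟨_, h⟩ := key z hz'
  exact h

/-! ### `compositum` -/

theorem field_compositum [NeZero M] :
    Subfield.closure ((Fc M E : Set (Om M)) ∪ Lc M) = ⊤ := by
  rw [eq_top_iff]
  rintro ⟨f, hf⟩ -
  set T : Subfield (Om M) := Subfield.closure ((Fc M E : Set (Om M)) ∪ Lc M) with hT
  let val : Om M →+* LaurentSeries Qb := (modularFunctionFieldBar M).val.toRingHom
  have hle : Subfield.closure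
        (Set.range (algebraMap Qb (LaurentSeries Qb)) ∪
          (⇑(coeffEmb Qb) '' (modularFunctionFieldFull M : Set (LaurentSeries ℚ)))) ≤
      T.map val := by
    rw [Subfield.closure_le]
    rintro y (⟨c, rfl⟩ | ⟨z, hz, rfl⟩)
    · exact ⟨cst M c, Subfield.subset_closure (Or.inr (cst_mem_Lc M c)), rfl⟩
    · exact ⟨ofFull M z hz, Subfield.subset_closure (Or.inl (ofFull_mem_Fc M E z hz)), rfl⟩
  obtain ⟨t, ht, htf⟩ := hle (mem_laurentBaseChange_iff.1 hf)
  have : t = ⟨f, hf⟩ := Subtype.ext htf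
  rw [← this]
  exact ht

end Fermat.Agent.S18.H456

end
end
-- ===== PACK-END S18/H456/ModFields.lean

-- ===== PACK-BEGIN S18/H456/ModCoord.lean
section


/-!
# S18 / MOD assembly (helper456): `E_closed_in_F`, `x_mem`, `x_transcendental`
-/

set_option autoImplicit false

noncomputable section

namespace Fermat.Agent.S18.H456

open ModularCurve AlgebraicCurve HahnSeries Fermat.Agent.S18 Fermat.Agent.S18.Mod

variable (M : ℕ) (A : ValuationSubring Qb) (E : IntermediateField ℚ Qb)

/-- `Q̄ ≃ Lc`. -/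
def LcEquiv : Qb ≃+* Lc M :=
  RingEquiv.ofBijective (algebraMap Qb (Om M)).rangeRestrictField
    ⟨(algebraMap Qb (Om M)).rangeRestrictField.injective, fun ⟨_, c, hc⟩ => ⟨c, Subtype.ext hc⟩⟩

theorem cst_LcEquiv_symm (y : Lc M) : cst M ((LcEquiv M).symm y) = (y : Om M) := by
  have h := (LcEquiv M).apply_symm_apply y
  exact congrArg Subtype.val h

/-- An element of `Ω` which is algebraic over a field of constants is constant. -/
theorem exists_cst_of_isAlgebraic (K₀ : Subfield (Om M)) (hK : K₀ ≤ Lc M) (f : Om M)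
    (hf : IsAlgebraic K₀ f) : ∃ c : Qb, f = cst M c := by
  obtain ⟨p, hp0, hp⟩ := hf
  let ψ : K₀ →+* Qb := ((LcEquiv M).symm : Lc M →+* Qb).comp (Subfield.inclusion hK)
  have hψ : ∀ y : K₀, cst M (ψ y) = (y : Om M) := fun y =>
    cst_LcEquiv_symm M (Subfield.inclusion hK y)
  let val : Om M →+* LaurentSeries Qb := (modularFunctionFieldBar M).val.toRingHom
  have hcomp : val.comp (algebraMap K₀ (Om M)) =
      (algebraMap Qb (LaurentSeries Qb)).comp ψ := by
    ext1 y
    show ((algebraMap K₀ (Om M) y : Om M) : LaurentSeries Qb) =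
      algebraMap Qb (LaurentSeries Qb) (ψ y)
    have : (algebraMap K₀ (Om M) y : Om M) = cst M (ψ y) := (hψ y).symm
    rw [this]
    rfl
  have halg : IsAlgebraic Qb (f : LaurentSeries Qb) := by
    refine ⟨p.map ψ, (Polynomial.map_ne_zero_iff ψ.injective).2 hp0, ?_⟩
    rw [Polynomial.aeval_def, Polynomial.eval₂_map, ← hcomp]
    have h := Polynomial.hom_eval₂ p (algebraMap K₀ (Om M)) val f
    rw [Polynomial.aeval_def] at hp
    rw [hp, map_zero] at h
    exact h.symm
  obtain ⟨c, hc⟩ := laurent_const_of_isAlgebraic _ halg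
  exact ⟨c, Subtype.ext hc⟩

theorem field_E_closed_in_F : ∀ f ∈ Fc M E, IsAlgebraic (Ec M E) f → f ∈ Ec M E := by
  intro f hf halg
  obtain ⟨c, rfl⟩ := exists_cst_of_isAlgebraic M (Ec M E) (field_E_le_L M E) f halg
  have h := coeff_mem_of_mem_Fc M E hf 0
  rw [val_cst, HahnSeries.coeff_single_same] at h
  exact cst_mem_Ec M E h

/-! ### The coordinate -/

/-- The data of an integral `q`-expansion `q⁻¹ + …` of the coordinate. -/
def HasIntExp [NeZero M] (x : Om M) : Prop :=
  ∃ X : LaurentSeries ℤ, X.coeff (-1) = 1 ∧ (∀ k : ℤ, k < -1 → X.coeff k = 0) ∧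
     (x : LaurentSeries Qb) = coeffMap (Int.castRingHom Qb) X ∧
     coeffMap (Int.castRingHom ℚ) X ∈ modularFunctionFieldFull M

theorem val_jOm [NeZero M] : ((jOm M : Om M) : LaurentSeries Qb) = jqModC Qb := by
  show coeffEmb Qb (qExpand ℚ 1 jq) = _
  rw [qExpand_one_apply]
  exact coeffMap_jqModC (algebraMap ℚ Qb)

theorem hasIntExp_jOm [NeZero M] : HasIntExp M (jOm M) := by
  refine ⟨jqModC ℤ, coeff_jqModC_neg_one ℤ, fun k hk => coeff_jqModC_of_lt ℤ hk, ?_, ?_⟩
  · rw [val_jOm, coeffMap_jqModC]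
  · rw [coeffMap_jqModC]
    exact modularFunctionField_le_full M (jq_mem M)

theorem hasIntExp_of_isCoordinate [NeZero M] {ℓ : ℕ} {x : Om M} {S : Finset (Om M)}
    (hx : IsCoordinate M ℓ x S) : HasIntExp M x := by
  rcases hx with ⟨-, rfl, -⟩ | ⟨-, h⟩
  · exact hasIntExp_jOm M
  · exact h

theorem coeff_neg_one_of_hasIntExp [NeZero M] {x : Om M} (hx : HasIntExp M x) :
    (x : LaurentSeries Qb).coeff (-1) = 1 := by
  obtain ⟨X, h1, -, h3, -⟩ := hx
  rw [h3, coeffMap_coeff, h1, map_one]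

theorem coeff_of_lt_of_hasIntExp [NeZero M] {x : Om M} (hx : HasIntExp M x) {k : ℤ}
    (hk : k < -1) : (x : LaurentSeries Qb).coeff k = 0 := by
  obtain ⟨X, -, h2, h3, -⟩ := hx
  rw [h3, coeffMap_coeff, h2 k hk, map_zero]

theorem mem_Fc_of_hasIntExp [NeZero M] {x : Om M} (hx : HasIntExp M x) : x ∈ Fc M E := by
  obtain ⟨X, -, -, h3, h4⟩ := hx
  have : x = ofFull M _ h4 := by
    apply Subtype.ext
    rw [h3]
    show _ = coeffEmb Qb (coeffMap (Int.castRingHom ℚ) X)
    rw [coeffEmb, coeffMap_coeffMap]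
    exact coeffMap_congr (RingHom.ext_int _ _) X
  rw [this]
  exact ofFull_mem_Fc M E _ h4

theorem transcendental_of_hasIntExp [NeZero M] {x : Om M} (hx : HasIntExp M x) :
    Transcendental (Lc M) x := by
  intro halg
  obtain ⟨c, hc⟩ := exists_cst_of_isAlgebraic M (Lc M) le_rfl x halg
  have h := coeff_neg_one_of_hasIntExp M hx
  rw [hc, val_cst, HahnSeries.coeff_single_of_ne (by decide)] at h
  exact zero_ne_one h

theorem field_x_mem [NeZero M] {ℓ : ℕ} {x : Om M} {S : Finset (Om M)}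
    (hx : IsCoordinate M ℓ x S) : x ∈ Fc M E :=
  mem_Fc_of_hasIntExp M E (hasIntExp_of_isCoordinate M hx)

theorem field_x_transcendental [NeZero M] {ℓ : ℕ} {x : Om M} {S : Finset (Om M)}
    (hx : IsCoordinate M ℓ x S) : Transcendental (Lc M) x :=
  transcendental_of_hasIntExp M (hasIntExp_of_isCoordinate M hx)

end Fermat.Agent.S18.H456

end
end
-- ===== PACK-END S18/H456/ModCoord.lean

-- ===== PACK-BEGIN S18/H456/ModS.lean
section



/-!
# S18 / MOD assembly (helper456): the fields `S_mem`, `S_distinct`, `S_unit` of `Alg.GoodModel`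
-/

set_option autoImplicit false

noncomputable section

namespace Fermat.Agent.S18.H456

open ModularCurve AlgebraicCurve HahnSeries Fermat.Agent.S18 Fermat.Agent.S18.Mod

variable (M : ℕ) (A : ValuationSubring Qb) (E : IntermediateField ℚ Qb)

/-- An integer prime to `ℓ` is a unit of `A`. -/
theorem inv_intCast_mem_A {ℓ : ℕ} (hA : A.LiesOverPrime ℓ) (n : ℤ)
    (hn : IsCoprime n (ℓ : ℤ)) : ((n : Qb))⁻¹ ∈ A := by
  obtain ⟨a, b, hab⟩ := hn
  have hℓ : A.valuation (ℓ : Qb) < 1 := (ValuationSubring.mem_nonunits_iff A).1 hA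
  have hle : ∀ k : ℤ, A.valuation (k : Qb) ≤ 1 := fun k =>
    (A.valuation_le_one_iff _).2 (intCast_mem A k)
  rw [← A.valuation_le_one_iff, map_inv₀]
  by_contra hcon
  have hlt : A.valuation (n : Qb) < 1 := by
    by_contra h
    push Not at h
    have h1 : A.valuation (n : Qb) = 1 := le_antisymm (hle n) h
    rw [h1, inv_one] at hcon
    exact hcon le_rfl
  have h1 : A.valuation ((a : Qb) * n + b * ℓ) < 1 := by
    refine lt_of_le_of_lt (A.valuation.map_add _ _) (max_lt ?_ ?_)
    · rw [map_mul]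
      calc A.valuation (a : Qb) * A.valuation (n : Qb) ≤ 1 * A.valuation (n : Qb) :=
            mul_le_mul_left (hle a) _
        _ = A.valuation (n : Qb) := one_mul _
        _ < 1 := hlt
    · rw [map_mul]
      calc A.valuation (b : Qb) * A.valuation (ℓ : Qb) ≤ 1 * A.valuation (ℓ : Qb) :=
            mul_le_mul_left (hle b) _
        _ = A.valuation (ℓ : Qb) := one_mul _
        _ < 1 := hℓ
  have h2 : ((a : Qb) * n + b * ℓ) = 1 := by
    have := congrArg (Int.cast : ℤ → Qb) hab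
    push_cast at this
    exact this
  rw [h2, map_one] at h1
  exact lt_irrefl _ h1

theorem cst_intCast (n : ℤ) : cst M (n : Qb) = (n : Om M) := map_intCast _ n

theorem intCast_mem_Rc (n : ℤ) : (n : Om M) ∈ Rc M A E := by
  rw [← cst_intCast]
  exact cst_mem_Rc M A E (intCast_mem A n) (intCast_mem E n)

theorem inv_intCast_mem_Rc {ℓ : ℕ} (hA : A.LiesOverPrime ℓ) (n : ℤ)
    (hn : IsCoprime n (ℓ : ℤ)) : ((n : Om M))⁻¹ ∈ Rc M A E := by
  rw [← cst_intCast, ← map_inv₀]
  exact cst_mem_Rc M A E (inv_intCast_mem_A A hA n hn) (inv_mem (intCast_mem E n))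

/-- The three fields `S_mem`, `S_distinct`, `S_unit` for `S = {0, b}`, `b` an integer prime
to `ℓ`. -/
theorem S_fields_of_int {ℓ : ℕ} (hA : A.LiesOverPrime ℓ) (b : ℤ) (hb : IsCoprime b (ℓ : ℤ))
    (S : Finset (Om M)) (hS : ∀ s, s ∈ S ↔ s = 0 ∨ s = (b : Om M)) :
    (∀ s ∈ S, s ∈ Rc M A E) ∧
    (∀ s ∈ S, ∀ t ∈ S, s ≠ t → (s - t)⁻¹ ∈ Rc M A E) ∧
    (∀ s ∈ S, s ≠ 0 → s⁻¹ ∈ Rc M A E) := by
  have hb' : IsCoprime (-b) (ℓ : ℤ) := hb.neg_left
  refine ⟨?_, ?_, ?_⟩
  · intro s hs
    rcases (hS s).1 hs with rfl | rfl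
    · exact zero_mem _
    · exact intCast_mem_Rc M A E b
  · intro s hs t ht hst
    rcases (hS s).1 hs with rfl | rfl <;> rcases (hS t).1 ht with rfl | rfl
    · exact absurd rfl hst
    · rw [zero_sub]
      have := inv_intCast_mem_Rc M A E hA (-b) hb'
      rwa [Int.cast_neg] at this
    · rw [sub_zero]
      exact inv_intCast_mem_Rc M A E hA b hb
    · exact absurd rfl hst
  · intro s hs hs0
    rcases (hS s).1 hs with rfl | rfl
    · exact absurd rfl hs0
    · exact inv_intCast_mem_Rc M A E hA b hb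

/-- **S-fields** for an admissible coordinate (`ℓ` prime). -/
theorem field_S [NeZero M] {ℓ : ℕ} (hℓ : ℓ.Prime) (hA : A.LiesOverPrime ℓ) {x : Om M}
    {S : Finset (Om M)} (hx : IsCoordinate M ℓ x S) :
    (∀ s ∈ S, s ∈ Rc M A E) ∧
    (∀ s ∈ S, ∀ t ∈ S, s ≠ t → (s - t)⁻¹ ∈ Rc M A E) ∧
    (∀ s ∈ S, s ≠ 0 → s⁻¹ ∈ Rc M A E) := by
  rcases hx with ⟨h5, -, hS⟩ | ⟨⟨h3, -, hS⟩ | ⟨h2, -, hS⟩, -⟩
  · refine S_fields_of_int M A E hA 1728 ?_ S (fun s => by rw [hS s]; norm_num)
    have h1728 : (1728 : ℤ) = 2 ^ 6 * 3 ^ 3 := by norm_num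
    rw [h1728]
    have h2 : IsCoprime (2 : ℤ) (ℓ : ℤ) := by
      rw [Int.isCoprime_iff_gcd_eq_one]
      exact (Nat.coprime_primes Nat.prime_two hℓ).2 (by omega)
    have h3 : IsCoprime (3 : ℤ) (ℓ : ℤ) := by
      rw [Int.isCoprime_iff_gcd_eq_one]
      exact (Nat.coprime_primes Nat.prime_three hℓ).2 (by omega)
    exact (h2.pow_left).mul_left (h3.pow_left)
  · subst h3
    refine S_fields_of_int M A E hA (-64) ?_ S (fun s => by rw [hS s]; norm_num)
    have h64 : (-64 : ℤ) = -(2 ^ 6) := by norm_num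
    rw [h64]
    have h2 : IsCoprime (2 : ℤ) ((3 : ℕ) : ℤ) := by
      rw [Int.isCoprime_iff_gcd_eq_one]; decide
    exact (h2.pow_left).neg_left
  · subst h2
    refine S_fields_of_int M A E hA (-27) ?_ S (fun s => by rw [hS s]; norm_num)
    have h27 : (-27 : ℤ) = -(3 ^ 3) := by norm_num
    rw [h27]
    have h3 : IsCoprime (3 : ℤ) ((2 : ℕ) : ℤ) := by
      rw [Int.isCoprime_iff_gcd_eq_one]; decide
    exact (h3.pow_left).neg_left

end Fermat.Agent.S18.H456

end
end
-- ===== PACK-END S18/H456/ModS.lean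

-- ===== PACK-BEGIN S18/H456/ModR.lean
section



/-!
# S18 / MOD assembly (helper456): G-R — the fields `w_mem`, `w_ne_zero`, `w_inv_not_mem`, `w_gen`,
`w_discrete`, `residue_perfect` of `Alg.GoodModel` for `R = Rc M A E` (`E/ℚ` finite)

Input: `H602.isDiscreteValuationRing_RE` (helper602, on main).
-/

set_option autoImplicit false

noncomputable section

namespace Fermat.Agent.S18.H456

open ModularCurve AlgebraicCurve HahnSeries Fermat.Agent.S18 Fermat.Agent.S18.Mod
open scoped NumberField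

variable (M : ℕ) (A : ValuationSubring Qb) (E : IntermediateField ℚ Qb)

/-- The constant in `Ω` attached to an element of `R_E = A ∩ E`. -/
def cstR (r : H602.RE A E) : Om M := cst M ((r : E) : Qb)

theorem cstR_mem_Rc (r : H602.RE A E) : cstR M A E r ∈ Rc M A E :=
  cst_mem_Rc M A E (H602.mem_RE.1 r.2) (r : E).2

theorem mem_Rc_iff_cstR {f : Om M} : f ∈ Rc M A E ↔ ∃ r : H602.RE A E, cstR M A E r = f := by
  constructor
  · intro hf
    obtain ⟨c, hA, hE, rfl⟩ := (mem_Rc_iff M A E).1 hf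
    exact ⟨⟨⟨c, hE⟩, H602.mem_RE.2 hA⟩, rfl⟩
  · rintro ⟨r, rfl⟩
    exact cstR_mem_Rc M A E r

theorem cstR_injective : Function.Injective (cstR M A E) := by
  intro r s h
  have h1 : ((r : E) : Qb) = ((s : E) : Qb) := cst_injective M h
  exact Subtype.ext (Subtype.ext h1)

theorem cstR_mul (r s : H602.RE A E) : cstR M A E (r * s) = cstR M A E r * cstR M A E s := by
  unfold cstR
  rw [← map_mul]
  rfl

theorem cstR_pow (r : H602.RE A E) (n : ℕ) : cstR M A E (r ^ n) = cstR M A E r ^ n := by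
  unfold cstR
  rw [← map_pow]
  rfl

theorem cstR_sub (r s : H602.RE A E) : cstR M A E (r - s) = cstR M A E r - cstR M A E s := by
  unfold cstR
  rw [← map_sub]
  rfl

theorem cstR_one : cstR M A E 1 = 1 := by
  unfold cstR
  exact map_one _

theorem cstR_zero : cstR M A E 0 = 0 := by
  unfold cstR
  exact map_zero _

theorem cstR_natCast (n : ℕ) : cstR M A E (n : H602.RE A E) = (n : Om M) := by
  unfold cstR
  show cst M (((n : H602.RE A E) : E) : Qb) = _
  have : (((n : H602.RE A E) : E) : Qb) = (n : Qb) := by simp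
  rw [this]
  exact map_natCast _ n

theorem cstR_eq_zero_iff {r : H602.RE A E} : cstR M A E r = 0 ↔ r = 0 := by
  rw [← cstR_zero M A E]
  exact (cstR_injective M A E).eq_iff

/-- `cstR r` is invertible in `Rc` iff `r` is a unit. -/
theorem inv_cstR_mem_Rc_iff {r : H602.RE A E} (hr : r ≠ 0) :
    (cstR M A E r)⁻¹ ∈ Rc M A E ↔ IsUnit r := by
  constructor
  · intro h
    obtain ⟨s, hs⟩ := (mem_Rc_iff_cstR M A E).1 h
    refine isUnit_iff_exists_inv.2 ⟨s, ?_⟩
    apply cstR_injective M A E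
    rw [cstR_mul, hs, cstR_one]
    exact mul_inv_cancel₀ (fun h0 => hr ((cstR_eq_zero_iff M A E).1 h0))
  · intro h
    obtain ⟨s, hs⟩ := isUnit_iff_exists_inv.1 h
    have : (cstR M A E r)⁻¹ = cstR M A E s := by
      apply inv_eq_of_mul_eq_one_right
      rw [← cstR_mul, hs, cstR_one]
    rw [this]
    exact cstR_mem_Rc M A E s

/-- `w` is (the image of) a uniformiser of `R_E`. -/
def IsUnif (w : Om M) : Prop := ∃ ϖ : H602.RE A E, Irreducible ϖ ∧ w = cstR M A E ϖ

variable {M A E}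

theorem IsUnif.mem {w : Om M} (hw : IsUnif M A E w) : w ∈ Rc M A E := by
  obtain ⟨ϖ, -, rfl⟩ := hw
  exact cstR_mem_Rc M A E ϖ

theorem IsUnif.ne_zero {w : Om M} (hw : IsUnif M A E w) : w ≠ 0 := by
  obtain ⟨ϖ, hϖ, rfl⟩ := hw
  exact fun h => hϖ.ne_zero ((cstR_eq_zero_iff M A E).1 h)

theorem IsUnif.inv_not_mem {w : Om M} (hw : IsUnif M A E w) : w⁻¹ ∉ Rc M A E := by
  obtain ⟨ϖ, hϖ, rfl⟩ := hw
  exact fun h => hϖ.not_isUnit ((inv_cstR_mem_Rc_iff M A E hϖ.ne_zero).1 h)

section DVR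

variable [IsDiscreteValuationRing (H602.RE A E)]

theorem IsUnif.gen {w : Om M} (hw : IsUnif M A E w) :
    ∀ r ∈ Rc M A E, r⁻¹ ∉ Rc M A E → r * w⁻¹ ∈ Rc M A E := by
  obtain ⟨ϖ, hϖ, rfl⟩ := hw
  intro r hr hrinv
  obtain ⟨r₀, rfl⟩ := (mem_Rc_iff_cstR M A E).1 hr
  have hr0 : r₀ ≠ 0 := by
    rintro rfl
    rw [cstR_zero, inv_zero] at hrinv
    exact hrinv (zero_mem _)
  have hnu : ¬ IsUnit r₀ := fun h => hrinv ((inv_cstR_mem_Rc_iff M A E hr0).2 h)
  have hmem : r₀ ∈ IsLocalRing.maximalIdeal (H602.RE A E) :=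
    (IsLocalRing.mem_maximalIdeal _).2 hnu
  rw [hϖ.maximalIdeal_eq, Ideal.mem_span_singleton] at hmem
  obtain ⟨s, rfl⟩ := hmem
  rw [cstR_mul, mul_comm (cstR M A E ϖ), mul_assoc,
    mul_inv_cancel₀ (fun h => hϖ.ne_zero ((cstR_eq_zero_iff M A E).1 h)), mul_one]
  exact cstR_mem_Rc M A E s

theorem IsUnif.discrete {w : Om M} (hw : IsUnif M A E w) :
    ∀ r ∈ Rc M A E, r ≠ 0 →
      ∃ n : ℕ, r * (w⁻¹) ^ n ∈ Rc M A E ∧ (r * (w⁻¹) ^ n)⁻¹ ∈ Rc M A E := by
  obtain ⟨ϖ, hϖ, rfl⟩ := hw
  intro r hr hr0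
  obtain ⟨r₀, rfl⟩ := (mem_Rc_iff_cstR M A E).1 hr
  have hr0' : r₀ ≠ 0 := fun h => hr0 (by rw [h, cstR_zero])
  obtain ⟨n, u, hu⟩ := IsDiscreteValuationRing.eq_unit_mul_pow_irreducible hr0' hϖ
  have hw0 : cstR M A E ϖ ≠ 0 := fun h => hϖ.ne_zero ((cstR_eq_zero_iff M A E).1 h)
  have key : cstR M A E r₀ * ((cstR M A E ϖ)⁻¹) ^ n = cstR M A E (u : H602.RE A E) := by
    rw [hu, cstR_mul, cstR_pow, mul_assoc, inv_pow, mul_inv_cancel₀ (pow_ne_zero n hw0), mul_one]
  refine ⟨n, ?_, ?_⟩
  · rw [key]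
    exact cstR_mem_Rc M A E _
  · rw [key]
    exact (inv_cstR_mem_Rc_iff M A E u.ne_zero).2 u.isUnit

/-- Membership in the maximal ideal, in terms of `w`. -/
theorem IsUnif.mul_inv_mem_iff {w : Om M} (hw : IsUnif M A E w) (r : H602.RE A E) :
    cstR M A E r * w⁻¹ ∈ Rc M A E ↔ r ∈ IsLocalRing.maximalIdeal (H602.RE A E) := by
  obtain ⟨ϖ, hϖ, rfl⟩ := hw
  have hw0 : cstR M A E ϖ ≠ 0 := fun h => hϖ.ne_zero ((cstR_eq_zero_iff M A E).1 h)
  rw [hϖ.maximalIdeal_eq, Ideal.mem_span_singleton]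
  constructor
  · intro h
    obtain ⟨s, hs⟩ := (mem_Rc_iff_cstR M A E).1 h
    refine ⟨s, ?_⟩
    apply cstR_injective M A E
    rw [cstR_mul, hs, mul_comm, mul_assoc, inv_mul_cancel₀ hw0, mul_one]
  · rintro ⟨s, rfl⟩
    rw [cstR_mul, mul_comm (cstR M A E ϖ), mul_assoc, mul_inv_cancel₀ hw0, mul_one]
    exact cstR_mem_Rc M A E s

end DVR

variable (M A E)

theorem exists_isUnif [IsDiscreteValuationRing (H602.RE A E)] : ∃ w : Om M, IsUnif M A E w := by
  obtain ⟨ϖ, hϖ⟩ := IsDiscreteValuationRing.exists_irreducible (H602.RE A E)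
  exact ⟨cstR M A E ϖ, ϖ, hϖ, rfl⟩

end Fermat.Agent.S18.H456

end
end
-- ===== PACK-END S18/H456/ModR.lean

-- ===== PACK-BEGIN S18/H456/ModRes.lean
section


/-!
# S18 / MOD assembly (helper456): `residue_perfect` for `R = Rc M A E`
-/

set_option autoImplicit false

noncomputable section

namespace Fermat.Agent.S18.H456

open ModularCurve AlgebraicCurve HahnSeries Fermat.Agent.S18 Fermat.Agent.S18.Mod
open IsDedekindDomain
open scoped NumberField

variable (A : ValuationSubring Qb) (E : IntermediateField ℚ Qb)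

section NF

variable [NumberField E]

/-- `𝓞 E → κ_E`. -/
def toRes : 𝓞 E →+* IsLocalRing.ResidueField (H602.RE A E) :=
  (IsLocalRing.residue (H602.RE A E)).comp (H602.ofInt A E)

omit [NumberField E] in
theorem toRes_eq_zero_iff (a : 𝓞 E) : toRes A E a = 0 ↔ a ∈ H602.primeBelow A E := by
  unfold toRes
  rw [RingHom.comp_apply, IsLocalRing.residue_eq_zero_iff]
  rfl

theorem toRes_surjective {ℓ : ℕ} (hℓ : ℓ ≠ 0) (hA : (ℓ : Qb) ∈ A.nonunits) :
    Function.Surjective (toRes A E) := by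
  intro x
  obtain ⟨r, rfl⟩ := IsLocalRing.residue_surjective x
  have hr : (r : E) ∈ (H602.primeSpec A E hℓ hA).valuationSubringAtPrime E := by
    rw [H602.RE_eq_valuationSubringAtPrime A E hℓ hA]
    exact r.2
  obtain ⟨a, s, hs, hrs⟩ := hr
  -- `s` is invertible modulo the maximal ideal `P`
  have hPmax : (H602.primeBelow A E).IsMaximal :=
    Ideal.IsPrime.isMaximal inferInstance (H602.primeBelow_ne_bot A E hℓ hA)
  have hs' : s ∉ H602.primeBelow A E := hs
  obtain ⟨t, ht⟩ := Ideal.IsMaximal.exists_inv hPmax hs'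
  obtain ⟨u, hu, hstu⟩ := ht
  -- `s * t + u = 1`, hence `φ s * φ t = 1`
  have h1 : toRes A E s * toRes A E t = 1 := by
    have := congrArg (toRes A E) hstu
    rw [map_add, map_mul, (toRes_eq_zero_iff A E u).2 hu, add_zero, map_one] at this
    rwa [mul_comm] at this
  refine ⟨a * t, ?_⟩
  -- `r * s = a` in `R_E`
  have h2 : r * H602.ofInt A E s = H602.ofInt A E a := by
    apply Subtype.ext
    show (r : E) * algebraMap (𝓞 E) E s = algebraMap (𝓞 E) E a
    rw [hrs]
    have hs0 : algebraMap (𝓞 E) E s ≠ 0 := by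
      intro h0
      have : s = 0 := by
        apply FaithfulSMul.algebraMap_injective (𝓞 E) E
        rw [h0, map_zero]
      exact hs' (this ▸ Ideal.zero_mem _)
    rw [mul_assoc, inv_mul_cancel₀ hs0, mul_one]
  have h3 : IsLocalRing.residue (H602.RE A E) r * toRes A E s = toRes A E a := by
    have := congrArg (IsLocalRing.residue (H602.RE A E)) h2
    rwa [map_mul] at this
  rw [map_mul, ← h3, mul_assoc, h1, mul_one]

theorem finite_residueField {ℓ : ℕ} (hℓ : ℓ ≠ 0) (hA : (ℓ : Qb) ∈ A.nonunits) :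
    Finite (IsLocalRing.ResidueField (H602.RE A E)) := by
  have hP : H602.primeBelow A E ≠ ⊥ := H602.primeBelow_ne_bot A E hℓ hA
  have : Finite (𝓞 E ⧸ H602.primeBelow A E) := Ideal.finiteQuotientOfFreeOfNeBot _ hP
  let ψ : 𝓞 E ⧸ H602.primeBelow A E →+* IsLocalRing.ResidueField (H602.RE A E) :=
    Ideal.Quotient.lift _ (toRes A E) (fun a ha => (toRes_eq_zero_iff A E a).2 ha)
  have hψ : Function.Surjective ψ := by
    intro x
    obtain ⟨a, rfl⟩ := toRes_surjective A E hℓ hA x
    exact ⟨Ideal.Quotient.mk _ a, rfl⟩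
  exact Finite.of_surjective ψ hψ

end NF

/-- Frobenius is surjective on the residue field of `R_E` (`E/ℚ` finite). -/
theorem exists_pow_sub_mem_maximalIdeal [FiniteDimensional ℚ E] {ℓ : ℕ} (hℓ : ℓ.Prime)
    (hA : A.LiesOverPrime ℓ) (r : H602.RE A E) :
    ∃ s : H602.RE A E, r - s ^ ℓ ∈ IsLocalRing.maximalIdeal (H602.RE A E) := by
  have := H602.numberField_of_finiteDimensional E
  have : Finite (IsLocalRing.ResidueField (H602.RE A E)) :=
    finite_residueField A E hℓ.ne_zero hA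
  have hℓ0 : ((ℓ : ℕ) : IsLocalRing.ResidueField (H602.RE A E)) = 0 := by
    rw [← map_natCast (IsLocalRing.residue (H602.RE A E)), IsLocalRing.residue_eq_zero_iff,
      IsLocalRing.mem_maximalIdeal, mem_nonunits_iff]
    exact H602.natCast_not_isUnit_RE A E hA
  have : Fact ℓ.Prime := ⟨hℓ⟩
  have : CharP (IsLocalRing.ResidueField (H602.RE A E)) ℓ :=
    (CharP.charP_iff_prime_eq_zero hℓ).2 hℓ0
  have : PerfectRing (IsLocalRing.ResidueField (H602.RE A E)) ℓ :=
    PerfectRing.ofFiniteOfIsReduced ℓ _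
  obtain ⟨y, hy⟩ := surjective_frobenius (IsLocalRing.ResidueField (H602.RE A E)) ℓ
    (IsLocalRing.residue _ r)
  obtain ⟨s, rfl⟩ := IsLocalRing.residue_surjective y
  refine ⟨s, ?_⟩
  rw [← IsLocalRing.residue_eq_zero_iff, map_sub, map_pow, sub_eq_zero]
  exact hy.symm

variable (M : ℕ)

/-- **`residue_perfect`** for `R = Rc M A E`. -/
theorem field_residue_perfect [FiniteDimensional ℚ E] {ℓ : ℕ} (hℓ : ℓ.Prime)
    (hA : A.LiesOverPrime ℓ) {w : Om M} (hw : IsUnif M A E w) :
    ∃ p : ℕ, p.Prime ∧ (p : Om M) * w⁻¹ ∈ Rc M A E ∧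
      ∀ r ∈ Rc M A E, ∃ s ∈ Rc M A E, (r - s ^ p) * w⁻¹ ∈ Rc M A E := by
  have : IsDiscreteValuationRing (H602.RE A E) :=
    H602.isDiscreteValuationRing_RE A E hℓ.ne_zero hA
  refine ⟨ℓ, hℓ, ?_, ?_⟩
  · rw [← cstR_natCast M A E, hw.mul_inv_mem_iff, IsLocalRing.mem_maximalIdeal, mem_nonunits_iff]
    exact H602.natCast_not_isUnit_RE A E hA
  · intro r hr
    obtain ⟨r₀, rfl⟩ := (mem_Rc_iff_cstR M A E).1 hr
    obtain ⟨s, hs⟩ := exists_pow_sub_mem_maximalIdeal A E hℓ hA r₀
    refine ⟨cstR M A E s, cstR_mem_Rc M A E s, ?_⟩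
    rw [← cstR_pow, ← cstR_sub, hw.mul_inv_mem_iff]
    exact hs

end Fermat.Agent.S18.H456

end
end
-- ===== PACK-END S18/H456/ModRes.lean

-- ===== PACK-BEGIN S18/H24/GaussA.lean
section


/-!
# S18 / MOD-ASM, piece G-V (helper24) — part A: integral series and the Gauss valuation ring

Concrete objects of `S18/Mod/Defs.lean`.  `inc = coeffMap A.subtype : A((q)) → Q̄((q))`,
`red = coeffMap (residue A) : A((q)) → κ((q))`.

* `isIntE_iff`                 : `IsIntE M A E U ↔ ∃ f ∈ Fc M E, f = inc U`;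
* `IsIntE.add/mul/neg/...`     : integral series form a ring;
* `Vc M A E : Subring (Om M)`  : the Gauss valuation ring, with carrier `VcSet M A E`
  (`coe_Vc`);
* fields `V_le`, `R_le_V`, `w_inv_not_mem_V` of `Alg.GoodModel`.
-/

set_option autoImplicit false

noncomputable section

namespace Fermat.Agent.S18.H24

open ModularCurve AlgebraicCurve HahnSeries Fermat.Agent.S18 Fermat.Agent.S18.Mod
open Fermat.Agent.S18.H456

variable (M : ℕ) (A : ValuationSubring Qb) (E : IntermediateField ℚ Qb)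

/-- `A((q)) → Q̄((q))`. -/
abbrev inc : LaurentSeries A →+* LaurentSeries Qb := coeffMap A.subtype

/-- `A((q)) → κ((q))`. -/
abbrev red : LaurentSeries A →+* LaurentSeries (IsLocalRing.ResidueField A) :=
  coeffMap (IsLocalRing.residue A)

variable {A} in
theorem inc_injective : Function.Injective (inc A) := by
  intro x y hxy
  ext k
  have := congrArg (fun z => z.coeff k) hxy
  simpa using this

variable {A} in
theorem inc_coeff (U : LaurentSeries A) (n : ℤ) : (inc A U).coeff n = (U.coeff n : Qb) := by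
  rw [coeffMap_coeff]; rfl

variable {A} in
theorem red_coeff (U : LaurentSeries A) (n : ℤ) :
    (red A U).coeff n = IsLocalRing.residue A (U.coeff n) := by
  rw [coeffMap_coeff]

variable {A} in
/-- A series over `Q̄` with coefficients in `A` comes from `A((q))`. -/
theorem exists_inc_eq {g : LaurentSeries Qb} (hg : ∀ n, g.coeff n ∈ A) :
    ∃ U : LaurentSeries A, inc A U = g := by
  have hsupp : (Function.support fun n => (⟨g.coeff n, hg n⟩ : A)) = g.support := by
    ext n
    simp only [Function.mem_support, HahnSeries.mem_support, ne_eq]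
    constructor
    · intro h h0
      exact h (Subtype.ext h0)
    · intro h h0
      exact h (congrArg Subtype.val h0)
  refine ⟨⟨fun n => ⟨g.coeff n, hg n⟩, ?_⟩, ?_⟩
  · rw [hsupp]; exact g.isPWO_support
  · ext n
    rw [inc_coeff]

variable {A} in
theorem red_eq_zero_iff (U : LaurentSeries A) :
    red A U = 0 ↔ ∀ n, U.coeff n ∈ IsLocalRing.maximalIdeal A := by
  constructor
  · intro h n
    have := congrArg (fun z => z.coeff n) h
    simp only [red_coeff, HahnSeries.coeff_zero] at this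
    exact (IsLocalRing.residue_eq_zero_iff _).mp this
  · intro h
    ext n
    rw [red_coeff, HahnSeries.coeff_zero]
    exact (IsLocalRing.residue_eq_zero_iff _).mpr (h n)

variable {A} in
/-- an element of `A` is in the maximal ideal iff it is `0` or its inverse is not in `A`. -/
theorem mem_maximalIdeal_iff (c : A) :
    c ∈ IsLocalRing.maximalIdeal A ↔ (c : Qb) = 0 ∨ (c : Qb)⁻¹ ∉ A := by
  rw [IsLocalRing.mem_maximalIdeal, mem_nonunits_iff]
  constructor
  · intro h
    by_contra hcon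
    rw [not_or, not_not] at hcon
    apply h
    exact isUnit_iff_exists_inv.mpr ⟨⟨(c : Qb)⁻¹, hcon.2⟩, Subtype.ext (by
      show (c : Qb) * (c : Qb)⁻¹ = 1
      exact mul_inv_cancel₀ hcon.1)⟩
  · rintro (h | h) hu
    · have : c = 0 := Subtype.ext h
      rw [this] at hu
      exact not_isUnit_zero hu
    · obtain ⟨d, hd⟩ := isUnit_iff_exists_inv.mp hu
      apply h
      have h1 : (c : Qb) * (d : Qb) = 1 := congrArg Subtype.val hd
      have : (c : Qb)⁻¹ = d := inv_eq_of_mul_eq_one_right h1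
      rw [this]; exact d.2

/-! ### Integral series -/

theorem isIntE_iff {U : LaurentSeries A} :
    IsIntE M A E U ↔ ∃ f ∈ Fc M E, (f : LaurentSeries Qb) = inc A U := by
  constructor
  · exact fun h => h.2
  · rintro ⟨f, hf, hfU⟩
    refine ⟨fun n => ?_, f, hf, hfU⟩
    have := coeff_mem_of_mem_Fc M E hf n
    rw [hfU, inc_coeff] at this
    exact this

variable {M A E}

theorem isIntE_zero : IsIntE M A E 0 :=
  (isIntE_iff M A E).mpr ⟨0, zero_mem _, by simp⟩

theorem isIntE_one : IsIntE M A E 1 :=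
  (isIntE_iff M A E).mpr ⟨1, one_mem _, by simp⟩

theorem IsIntE.add {U U' : LaurentSeries A} (h : IsIntE M A E U) (h' : IsIntE M A E U') :
    IsIntE M A E (U + U') := by
  obtain ⟨f, hf, hfU⟩ := (isIntE_iff M A E).mp h
  obtain ⟨f', hf', hfU'⟩ := (isIntE_iff M A E).mp h'
  exact (isIntE_iff M A E).mpr ⟨f + f', add_mem hf hf', by
    rw [map_add, ← hfU, ← hfU']; rfl⟩

theorem IsIntE.mul {U U' : LaurentSeries A} (h : IsIntE M A E U) (h' : IsIntE M A E U') :
    IsIntE M A E (U * U') := by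
  obtain ⟨f, hf, hfU⟩ := (isIntE_iff M A E).mp h
  obtain ⟨f', hf', hfU'⟩ := (isIntE_iff M A E).mp h'
  exact (isIntE_iff M A E).mpr ⟨f * f', mul_mem hf hf', by
    rw [map_mul, ← hfU, ← hfU']; rfl⟩

theorem IsIntE.neg {U : LaurentSeries A} (h : IsIntE M A E U) : IsIntE M A E (-U) := by
  obtain ⟨f, hf, hfU⟩ := (isIntE_iff M A E).mp h
  exact (isIntE_iff M A E).mpr ⟨-f, neg_mem hf, by
    rw [map_neg, ← hfU]; rfl⟩

theorem IsIntE.pow {U : LaurentSeries A} (h : IsIntE M A E U) (n : ℕ) : IsIntE M A E (U ^ n) := by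
  induction n with
  | zero => rw [pow_zero]; exact isIntE_one
  | succ n ih => rw [pow_succ]; exact IsIntE.mul ih h

/-- A constant `c ∈ A ∩ E` as an integral series. -/
theorem isIntE_C {c : A} (hc : (c : Qb) ∈ E) : IsIntE M A E (HahnSeries.C c) := by
  refine (isIntE_iff M A E).mpr ⟨cst M (c : Qb), field_E_le_F M E (cst_mem_Ec M E hc), ?_⟩
  rw [val_cst]
  ext n
  rw [inc_coeff]
  by_cases hn : n = 0
  · subst hn
    simp [HahnSeries.C_apply]
  · rw [HahnSeries.coeff_single_of_ne hn]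
    have : (HahnSeries.C c : LaurentSeries A).coeff n = 0 := by
      rw [HahnSeries.C_apply, HahnSeries.coeff_single_of_ne hn]
    rw [this]; rfl

theorem inc_C (c : A) : inc A (HahnSeries.C c) = HahnSeries.C (c : Qb) := by
  ext n
  rw [inc_coeff]
  by_cases hn : n = 0
  · subst hn
    simp [HahnSeries.C_apply]
  · rw [HahnSeries.C_apply, HahnSeries.C_apply, HahnSeries.coeff_single_of_ne hn,
      HahnSeries.coeff_single_of_ne hn]
    rfl

theorem red_C (c : A) : red A (HahnSeries.C c) = HahnSeries.C (IsLocalRing.residue A c) := by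
  ext n
  rw [red_coeff]
  by_cases hn : n = 0
  · subst hn
    simp [HahnSeries.C_apply]
  · rw [HahnSeries.C_apply, HahnSeries.C_apply, HahnSeries.coeff_single_of_ne hn,
      HahnSeries.coeff_single_of_ne hn, map_zero]

/-! ### The Gauss valuation ring -/

theorem mem_VcSet_iff {f : Om M} :
    f ∈ VcSet M A E ↔ f ∈ Fc M E ∧ ∃ U₁ U₂ : LaurentSeries A, IsIntE M A E U₁ ∧ IsIntE M A E U₂ ∧
      red A U₂ ≠ 0 ∧ (f : LaurentSeries Qb) * inc A U₂ = inc A U₁ := Iff.rfl

/-- An integral series defines an element of `V`. -/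
theorem mem_VcSet_of_isIntE {f : Om M} {U : LaurentSeries A} (hU : IsIntE M A E U)
    (hf : (f : LaurentSeries Qb) = inc A U) : f ∈ VcSet M A E := by
  obtain ⟨g, hg, hgU⟩ := (isIntE_iff M A E).mp hU
  have hfg : f = g := Subtype.ext (by rw [hf, hgU])
  refine ⟨hfg ▸ hg, U, 1, hU, isIntE_one, ?_, ?_⟩
  · rw [map_one]; exact one_ne_zero
  · rw [map_one, mul_one, hf]

variable (M A E) in
/-- The Gauss valuation ring `V` of `Fc`, as a subring of `Ω`. -/
def Vc : Subring (Om M) where
  carrier := VcSet M A E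
  zero_mem' := mem_VcSet_of_isIntE isIntE_zero (by simp)
  one_mem' := mem_VcSet_of_isIntE isIntE_one (by simp)
  add_mem' := by
    rintro f g ⟨hf, U₁, U₂, h₁, h₂, hr, hfU⟩ ⟨hg, W₁, W₂, k₁, k₂, kr, hgW⟩
    refine ⟨add_mem hf hg, U₁ * W₂ + W₁ * U₂, U₂ * W₂, IsIntE.add (IsIntE.mul h₁ k₂) (IsIntE.mul k₁ h₂), IsIntE.mul h₂ k₂,
      ?_, ?_⟩
    · rw [map_mul]; exact mul_ne_zero hr kr
    · show ((f : LaurentSeries Qb) + (g : LaurentSeries Qb)) * inc A (U₂ * W₂) = _
      rw [map_mul, map_add, map_mul, map_mul, ← hfU, ← hgW]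
      ring
  mul_mem' := by
    rintro f g ⟨hf, U₁, U₂, h₁, h₂, hr, hfU⟩ ⟨hg, W₁, W₂, k₁, k₂, kr, hgW⟩
    refine ⟨mul_mem hf hg, U₁ * W₁, U₂ * W₂, IsIntE.mul h₁ k₁, IsIntE.mul h₂ k₂, ?_, ?_⟩
    · rw [map_mul]; exact mul_ne_zero hr kr
    · show ((f : LaurentSeries Qb) * (g : LaurentSeries Qb)) * inc A (U₂ * W₂) = _
      rw [map_mul, map_mul, ← hfU, ← hgW]
      ring
  neg_mem' := by
    rintro f ⟨hf, U₁, U₂, h₁, h₂, hr, hfU⟩
    refine ⟨neg_mem hf, -U₁, U₂, IsIntE.neg h₁, h₂, hr, ?_⟩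
    show (-(f : LaurentSeries Qb)) * inc A U₂ = _
    rw [map_neg, ← hfU]
    ring

variable (M A E) in
theorem coe_Vc : (Vc M A E : Set (Om M)) = VcSet M A E := rfl

theorem mem_Vc_iff {f : Om M} : f ∈ Vc M A E ↔ f ∈ VcSet M A E := Iff.rfl

variable (M A E) in
/-- field `V_le`. -/
theorem field_V_le : (Vc M A E : Set (Om M)) ⊆ Fc M E := fun _ hf => hf.1

variable (M A E) in
/-- field `R_le_V`. -/
theorem field_R_le_V : Rc M A E ≤ Vc M A E := by
  intro r hr
  obtain ⟨c, hcA, hcE, rfl⟩ := (mem_Rc_iff M A E).mp hr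
  refine mem_VcSet_of_isIntE (U := HahnSeries.C (⟨c, hcA⟩ : A)) (isIntE_C hcE) ?_
  rw [val_cst, inc_C]
  rfl

/-- field `w_inv_not_mem_V`: a non-unit `w₀ ≠ 0` of `A` is not invertible in `V`. -/
theorem field_w_inv_not_mem_V {w₀ : Qb} (hw0 : w₀ ≠ 0) (hwn : w₀⁻¹ ∉ A) :
    (cst M w₀)⁻¹ ∉ Vc M A E := by
  rintro ⟨-, U₁, U₂, -, -, hr, hU⟩
  apply hr
  rw [red_eq_zero_iff]
  intro n
  rw [mem_maximalIdeal_iff]
  have hval : (((cst M w₀)⁻¹ : Om M) : LaurentSeries Qb) = HahnSeries.C (w₀⁻¹) := by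
    rw [← map_inv₀]
    exact val_cst M _
  rw [hval] at hU
  have hn := congrArg (fun z => z.coeff n) hU
  simp only [HahnSeries.C_mul_eq_smul, HahnSeries.coeff_smul, inc_coeff, smul_eq_mul] at hn
  by_cases h0 : ((U₂.coeff n : A) : Qb) = 0
  · exact Or.inl h0
  · right
    intro hinv
    apply hwn
    have : w₀⁻¹ = (U₁.coeff n : Qb) * ((U₂.coeff n : A) : Qb)⁻¹ := by
      rw [← hn]; field_simp
    rw [this]
    exact A.mul_mem _ _ (U₁.coeff n).2 hinv

end Fermat.Agent.S18.H24

end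
end
-- ===== PACK-END S18/H24/GaussA.lean

-- ===== PACK-BEGIN S18/H24/GaussB.lean
section


/-!
# S18 / MOD-ASM, piece G-V (helper24) — part B: `V_gen`, primitive parts, `V_total`

`IsUnif A E w₀` : `w₀` is a uniformiser of the discrete valuation ring `A ∩ E` (element-wise form,
to be supplied by G-R).  With `w = cst M w₀`:

* `field_V_gen`          : `f ∈ V`, `f⁻¹ ∉ V` ⟹ `f/w ∈ V`;
* `exists_primitive`     : a nonzero integral series is `w₀^a ·` (integral series with nonzero
                           reduction);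
* `exists_gauss_form`    : every `f ≠ 0` in `Fc` is `w^n · U₁/U₂` with `U₁, U₂` integral of nonzero
                           reduction;
* `field_V_total`        : `f ∈ V ∨ f⁻¹ ∈ V` for `f ∈ Fc`.
-/

set_option autoImplicit false

noncomputable section

namespace Fermat.Agent.S18.H24

open ModularCurve AlgebraicCurve HahnSeries Fermat.Agent.S18 Fermat.Agent.S18.Mod
open Fermat.Agent.S18.H456

/-- `w₀` is a uniformiser of the discrete valuation ring `A ∩ E`. -/
structure IsUnif (A : ValuationSubring Qb) (E : IntermediateField ℚ Qb) (w₀ : Qb) : Prop where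
  mem_A : w₀ ∈ A
  mem_E : w₀ ∈ E
  ne_zero : w₀ ≠ 0
  inv_not_mem : w₀⁻¹ ∉ A
  gen : ∀ c, c ∈ A → c ∈ E → c⁻¹ ∉ A → c * w₀⁻¹ ∈ A
  discrete : ∀ c, c ∈ A → c ∈ E → c ≠ 0 →
    ∃ n : ℕ, c * (w₀⁻¹) ^ n ∈ A ∧ (c * (w₀⁻¹) ^ n)⁻¹ ∈ A

variable {M : ℕ} {A : ValuationSubring Qb} {E : IntermediateField ℚ Qb}

theorem val_inv (f : Om M) : ((f⁻¹ : Om M) : LaurentSeries Qb) = (f : LaurentSeries Qb)⁻¹ := rfl

theorem val_mul (f g : Om M) :
    ((f * g : Om M) : LaurentSeries Qb) = (f : LaurentSeries Qb) * (g : LaurentSeries Qb) := rfl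

theorem val_cst' (c : Qb) : ((cst M c : Om M) : LaurentSeries Qb) = HahnSeries.C c := by
  rw [val_cst]; rfl

theorem val_eq_zero_iff {f : Om M} : (f : LaurentSeries Qb) = 0 ↔ f = 0 :=
  ⟨fun h => Subtype.ext h, fun h => by rw [h]; rfl⟩

theorem red_ne_zero_imp_inc_ne_zero {U : LaurentSeries A} (h : red A U ≠ 0) : inc A U ≠ 0 := by
  intro h0
  apply h
  have : U = 0 := inc_injective (by rw [h0, map_zero])
  rw [this, map_zero]

/-- Dividing an integral series with zero reduction by the uniformiser. -/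
theorem exists_div_unif {w₀ : Qb} (hw : _root_.Fermat.Agent.S18.H24.IsUnif A E w₀) {U : LaurentSeries A}
    (hU : IsIntE M A E U) (hred : red A U = 0) :
    ∃ U' : LaurentSeries A, IsIntE M A E U' ∧ inc A U' = HahnSeries.C (w₀⁻¹) * inc A U := by
  have hcoef : ∀ n, (HahnSeries.C (w₀⁻¹) * inc A U).coeff n ∈ A := by
    intro n
    rw [HahnSeries.C_mul_eq_smul, HahnSeries.coeff_smul, inc_coeff, smul_eq_mul, mul_comm]
    have hm := (red_eq_zero_iff U).mp hred n
    rcases (mem_maximalIdeal_iff _).mp hm with h0 | hni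
    · rw [h0, zero_mul]; exact A.zero_mem
    · exact hw.gen _ (U.coeff n).2 (hU.1 n) hni
  obtain ⟨U', hU'⟩ := exists_inc_eq hcoef
  refine ⟨U', ?_, hU'⟩
  obtain ⟨f, hf, hfU⟩ := hU.2
  refine (isIntE_iff M A E).mpr ⟨(cst M w₀)⁻¹ * f, ?_, ?_⟩
  · exact mul_mem (inv_mem (field_E_le_F M E (cst_mem_Ec M E hw.mem_E))) hf
  · rw [hU', val_mul, val_inv, val_cst', hfU, ← map_inv₀]

variable (M) in
/-- field `V_gen`. -/
theorem field_V_gen {w₀ : Qb} (hw : _root_.Fermat.Agent.S18.H24.IsUnif A E w₀) :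
    ∀ f ∈ Vc M A E, f⁻¹ ∉ Vc M A E → f * (cst M w₀)⁻¹ ∈ Vc M A E := by
  rintro f ⟨hfF, U₁, U₂, h₁, h₂, hr, hfU⟩ hfinv
  have hf0 : f ≠ 0 := by
    rintro rfl
    rw [inv_zero] at hfinv
    exact hfinv (zero_mem _)
  have hfv0 : (f : LaurentSeries Qb) ≠ 0 := fun h => hf0 (val_eq_zero_iff.mp h)
  have hred : red A U₁ = 0 := by
    by_contra hne
    apply hfinv
    refine ⟨inv_mem hfF, U₂, U₁, h₂, h₁, hne, ?_⟩
    rw [val_inv, ← hfU]
    field_simp
  obtain ⟨U', hU', hU'eq⟩ := exists_div_unif hw h₁ hred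
  refine ⟨mul_mem hfF (inv_mem (field_E_le_F M E (cst_mem_Ec M E hw.mem_E))), U', U₂, hU', h₂, hr,
    ?_⟩
  rw [hU'eq, val_mul, val_inv, val_cst', ← hfU, ← map_inv₀]
  ring

/-! ### Primitive parts -/

theorem unit_mul_pow_mem {w₀ : Qb} (hw : _root_.Fermat.Agent.S18.H24.IsUnif A E w₀) {c : Qb} {k a : ℕ} (hak : a ≤ k)
    (hc : c * (w₀⁻¹) ^ k ∈ A) : c * (w₀⁻¹) ^ a ∈ A := by
  obtain ⟨d, rfl⟩ := Nat.exists_eq_add_of_le hak
  have : c * (w₀⁻¹) ^ a = c * (w₀⁻¹) ^ (a + d) * w₀ ^ d := by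
    rw [_root_.pow_add, inv_pow, inv_pow]
    have := hw.ne_zero
    field_simp
  rw [this]
  exact A.mul_mem _ _ hc (pow_mem hw.mem_A d)

/-- A nonzero integral series is a power of the uniformiser times an integral series with
nonzero reduction. -/
theorem exists_primitive {w₀ : Qb} (hw : _root_.Fermat.Agent.S18.H24.IsUnif A E w₀) {U : LaurentSeries A}
    (hU : IsIntE M A E U) (hU0 : U ≠ 0) :
    ∃ (a : ℕ) (U₀ : LaurentSeries A), IsIntE M A E U₀ ∧ red A U₀ ≠ 0 ∧
      inc A U = HahnSeries.C (w₀ ^ a) * inc A U₀ := by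
  classical
  -- the set of valuations of nonzero coefficients
  have hex : ∃ k : ℕ, ∃ n : ℤ, U.coeff n ≠ 0 ∧ (U.coeff n : Qb) * (w₀⁻¹) ^ k ∈ A ∧
      ((U.coeff n : Qb) * (w₀⁻¹) ^ k)⁻¹ ∈ A := by
    obtain ⟨n, hn⟩ : ∃ n, U.coeff n ≠ 0 := by
      by_contra h
      push Not at h
      exact hU0 (HahnSeries.ext (funext h))
    have hn' : (U.coeff n : Qb) ≠ 0 := fun h => hn (Subtype.ext h)
    obtain ⟨k, hk1, hk2⟩ := hw.discrete _ (U.coeff n).2 (hU.1 n) hn'
    exact ⟨k, n, hn, hk1, hk2⟩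
  set a := Nat.find hex with ha
  obtain ⟨n₀, hn₀, hn₀1, hn₀2⟩ := Nat.find_spec hex
  have hmin : ∀ k, (∃ n : ℤ, U.coeff n ≠ 0 ∧ (U.coeff n : Qb) * (w₀⁻¹) ^ k ∈ A ∧
      ((U.coeff n : Qb) * (w₀⁻¹) ^ k)⁻¹ ∈ A) → a ≤ k := fun k hk => Nat.find_min' hex hk
  have hcoef : ∀ n, (HahnSeries.C ((w₀⁻¹) ^ a) * inc A U).coeff n ∈ A := by
    intro n
    rw [HahnSeries.C_mul_eq_smul, HahnSeries.coeff_smul, inc_coeff, smul_eq_mul, mul_comm]
    by_cases hn : U.coeff n = 0
    · rw [hn]; simp
    · have hn' : (U.coeff n : Qb) ≠ 0 := fun h => hn (Subtype.ext h)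
      obtain ⟨k, hk1, hk2⟩ := hw.discrete _ (U.coeff n).2 (hU.1 n) hn'
      exact unit_mul_pow_mem hw (hmin k ⟨n, hn, hk1, hk2⟩) hk1
  obtain ⟨U₀, hU₀⟩ := exists_inc_eq hcoef
  have hw0 := hw.ne_zero
  refine ⟨a, U₀, ?_, ?_, ?_⟩
  · obtain ⟨f, hf, hfU⟩ := hU.2
    refine (isIntE_iff M A E).mpr ⟨((cst M w₀)⁻¹) ^ a * f, ?_, ?_⟩
    · exact mul_mem (pow_mem (inv_mem (field_E_le_F M E (cst_mem_Ec M E hw.mem_E))) _) hf
    · rw [hU₀, val_mul, hfU]
      congr 1
      show (((cst M w₀)⁻¹ ^ a : Om M) : LaurentSeries Qb) = _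
      rw [← map_inv₀, ← map_pow]
      exact val_cst' _
  · intro hred
    have hm := (red_eq_zero_iff U₀).mp hred n₀
    rcases (mem_maximalIdeal_iff _).mp hm with h0 | hni
    · have h1 : ((U₀.coeff n₀ : A) : Qb) = (U.coeff n₀ : Qb) * (w₀⁻¹) ^ a := by
        rw [← inc_coeff, hU₀, HahnSeries.C_mul_eq_smul, HahnSeries.coeff_smul, inc_coeff,
          smul_eq_mul, mul_comm]
      rw [h1] at h0
      have hn₀' : (U.coeff n₀ : Qb) ≠ 0 := fun h => hn₀ (Subtype.ext h)
      exact mul_ne_zero hn₀' (pow_ne_zero _ (inv_ne_zero hw0)) h0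
    · apply hni
      have h1 : ((U₀.coeff n₀ : A) : Qb) = (U.coeff n₀ : Qb) * (w₀⁻¹) ^ a := by
        rw [← inc_coeff, hU₀, HahnSeries.C_mul_eq_smul, HahnSeries.coeff_smul, inc_coeff,
          smul_eq_mul, mul_comm]
      rw [h1]
      exact hn₀2
  · rw [hU₀, ← mul_assoc, ← map_mul, inv_pow, mul_inv_cancel₀ (pow_ne_zero _ hw0), map_one,
      one_mul]

/-! ### The Gauss normal form -/

/-- `f = w^n · U₁ / U₂` with integral `U₁, U₂` of nonzero reduction. -/
def GaussForm (M : ℕ) (A : ValuationSubring Qb) (E : IntermediateField ℚ Qb) (w₀ : Qb)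
    (f : Om M) : Prop :=
  ∃ (n : ℤ) (U₁ U₂ : LaurentSeries A), IsIntE M A E U₁ ∧ IsIntE M A E U₂ ∧
    red A U₁ ≠ 0 ∧ red A U₂ ≠ 0 ∧
    (f : LaurentSeries Qb) * inc A U₂ = HahnSeries.C w₀ ^ n * inc A U₁

theorem GaussForm.ne_zero {w₀ : Qb} (hw0 : w₀ ≠ 0) {f : Om M} (h : GaussForm M A E w₀ f) :
    f ≠ 0 := by
  rintro rfl
  obtain ⟨n, U₁, U₂, -, -, hr₁, -, heq⟩ := h
  have h1 : (HahnSeries.C w₀ : LaurentSeries Qb) ≠ 0 := by
    intro h
    exact hw0 (HahnSeries.C_injective (by rw [h, map_zero]))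
  have : HahnSeries.C w₀ ^ n * inc A U₁ = 0 := by
    rw [← heq]
    show (0 : LaurentSeries Qb) * _ = 0
    rw [zero_mul]
  rcases mul_eq_zero.mp this with h | h
  · exact zpow_ne_zero n h1 h
  · exact red_ne_zero_imp_inc_ne_zero hr₁ h

theorem C_ne_zero' {w₀ : Qb} (hw0 : w₀ ≠ 0) : (HahnSeries.C w₀ : LaurentSeries Qb) ≠ 0 := by
  intro h
  exact hw0 (HahnSeries.C_injective (by rw [h, map_zero]))

theorem GaussForm.inv {w₀ : Qb} (hw0 : w₀ ≠ 0) {f : Om M} (h : GaussForm M A E w₀ f) :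
    GaussForm M A E w₀ f⁻¹ := by
  have hf0 := h.ne_zero hw0
  obtain ⟨n, U₁, U₂, h₁, h₂, hr₁, hr₂, heq⟩ := h
  refine ⟨-n, U₂, U₁, h₂, h₁, hr₂, hr₁, ?_⟩
  have hfv0 : (f : LaurentSeries Qb) ≠ 0 := fun h => hf0 (val_eq_zero_iff.mp h)
  have hC := C_ne_zero' hw0
  have hCn : (HahnSeries.C w₀ : LaurentSeries Qb) ^ n ≠ 0 := zpow_ne_zero n hC
  rw [val_inv, zpow_neg]
  have h1 : inc A U₁ = (HahnSeries.C w₀ ^ n)⁻¹ * ((f : LaurentSeries Qb) * inc A U₂) := by
    rw [heq, ← mul_assoc, inv_mul_cancel₀ hCn, one_mul]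
  rw [h1]
  field_simp

theorem GaussForm.mul {w₀ : Qb} (hw0 : w₀ ≠ 0) {f g : Om M} (hf : GaussForm M A E w₀ f)
    (hg : GaussForm M A E w₀ g) : GaussForm M A E w₀ (f * g) := by
  obtain ⟨n, U₁, U₂, h₁, h₂, hr₁, hr₂, heq⟩ := hf
  obtain ⟨n', W₁, W₂, k₁, k₂, kr₁, kr₂, heq'⟩ := hg
  refine ⟨n + n', U₁ * W₁, U₂ * W₂, IsIntE.mul h₁ k₁, IsIntE.mul h₂ k₂, ?_, ?_, ?_⟩
  · rw [map_mul]; exact mul_ne_zero hr₁ kr₁
  · rw [map_mul]; exact mul_ne_zero hr₂ kr₂
  · rw [val_mul, map_mul, map_mul, zpow_add₀ (C_ne_zero' hw0)]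
    calc (f : LaurentSeries Qb) * (g : LaurentSeries Qb) * (inc A U₂ * inc A W₂)
        = ((f : LaurentSeries Qb) * inc A U₂) * ((g : LaurentSeries Qb) * inc A W₂) := by ring
      _ = _ := by rw [heq, heq']; ring

theorem GaussForm.neg {w₀ : Qb} {f : Om M} (hf : GaussForm M A E w₀ f) :
    GaussForm M A E w₀ (-f) := by
  obtain ⟨n, U₁, U₂, h₁, h₂, hr₁, hr₂, heq⟩ := hf
  refine ⟨n, -U₁, U₂, IsIntE.neg h₁, h₂, ?_, hr₂, ?_⟩
  · rw [map_neg]; exact neg_ne_zero.mpr hr₁
  · show (-(f : LaurentSeries Qb)) * inc A U₂ = _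
    rw [map_neg, neg_mul, heq, mul_neg]

/-- The sum of two Gauss forms (with `n ≤ n'`) is `0` or a Gauss form. -/
theorem GaussForm.add_aux {w₀ : Qb} (hw : _root_.Fermat.Agent.S18.H24.IsUnif A E w₀) {f g : Om M} {n : ℤ} {d : ℕ}
    {U₁ U₂ W₁ W₂ : LaurentSeries A}
    (h₁ : IsIntE M A E U₁) (h₂ : IsIntE M A E U₂) (hr₂ : red A U₂ ≠ 0)
    (heq : (f : LaurentSeries Qb) * inc A U₂ = HahnSeries.C w₀ ^ n * inc A U₁)
    (k₁ : IsIntE M A E W₁) (k₂ : IsIntE M A E W₂) (kr₂ : red A W₂ ≠ 0)
    (heq' : (g : LaurentSeries Qb) * inc A W₂ = HahnSeries.C w₀ ^ (n + d) * inc A W₁) :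
    f + g = 0 ∨ GaussForm M A E w₀ (f + g) := by
  have hw0 := hw.ne_zero
  have hC := C_ne_zero' hw0
  -- the numerator
  set Nn : LaurentSeries A := U₁ * W₂ + HahnSeries.C (⟨w₀, hw.mem_A⟩ ^ d : A) * W₁ * U₂ with hNn
  have hNint : IsIntE M A E Nn := by
    refine IsIntE.add (IsIntE.mul h₁ k₂) (IsIntE.mul (IsIntE.mul ?_ k₁) h₂)
    refine isIntE_C ?_
    show ((⟨w₀, hw.mem_A⟩ ^ d : A) : Qb) ∈ E
    rw [SubmonoidClass.coe_pow]
    exact pow_mem hw.mem_E d
  have hincN : inc A Nn = inc A U₁ * inc A W₂ + HahnSeries.C w₀ ^ d * inc A W₁ * inc A U₂ := by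
    rw [hNn, map_add, map_mul, map_mul, map_mul, inc_C, SubmonoidClass.coe_pow, map_pow]
  have hden : red A (U₂ * W₂) ≠ 0 := by rw [map_mul]; exact mul_ne_zero hr₂ kr₂
  have hmain : ((f + g : Om M) : LaurentSeries Qb) * inc A (U₂ * W₂) =
      HahnSeries.C w₀ ^ n * inc A Nn := by
    show ((f : LaurentSeries Qb) + (g : LaurentSeries Qb)) * inc A (U₂ * W₂) = _
    rw [map_mul, hincN]
    calc ((f : LaurentSeries Qb) + (g : LaurentSeries Qb)) * (inc A U₂ * inc A W₂)
        = ((f : LaurentSeries Qb) * inc A U₂) * inc A W₂ +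
            ((g : LaurentSeries Qb) * inc A W₂) * inc A U₂ := by ring
      _ = _ := by
        rw [heq, heq', zpow_add₀ hC, zpow_natCast]; ring
  by_cases hN0 : Nn = 0
  · left
    rw [hN0, map_zero, mul_zero] at hmain
    rcases mul_eq_zero.mp hmain with h | h
    · exact val_eq_zero_iff.mp h
    · exact absurd h (red_ne_zero_imp_inc_ne_zero hden)
  · right
    obtain ⟨a, N₀, hN₀, hrN₀, hNeq⟩ := exists_primitive hw hNint hN0
    refine ⟨n + a, N₀, U₂ * W₂, hN₀, IsIntE.mul h₂ k₂, hrN₀, hden, ?_⟩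
    rw [hmain, hNeq, zpow_add₀ hC, zpow_natCast, map_pow]
    ring

theorem GaussForm.add {w₀ : Qb} (hw : _root_.Fermat.Agent.S18.H24.IsUnif A E w₀) {f g : Om M}
    (hf : GaussForm M A E w₀ f) (hg : GaussForm M A E w₀ g) :
    f + g = 0 ∨ GaussForm M A E w₀ (f + g) := by
  obtain ⟨n, U₁, U₂, h₁, h₂, -, hr₂, heq⟩ := hf
  obtain ⟨n', W₁, W₂, k₁, k₂, -, kr₂, heq'⟩ := hg
  rcases le_total n n' with h | h
  · obtain ⟨d, hd⟩ := Int.le.dest h
    rw [← hd] at heq'
    exact GaussForm.add_aux hw h₁ h₂ hr₂ heq k₁ k₂ kr₂ heq'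
  · obtain ⟨d, hd⟩ := Int.le.dest h
    rw [← hd] at heq
    rw [add_comm]
    exact GaussForm.add_aux hw k₁ k₂ kr₂ heq' h₁ h₂ hr₂ heq

end Fermat.Agent.S18.H24

end
end
-- ===== PACK-END S18/H24/GaussB.lean

-- ===== PACK-BEGIN S18/H24/GaussC.lean
section



/-!
# S18 / MOD-ASM, piece G-V (helper24) — part C: `V_total`, `gauss`, `x ∈ V`

* `gaussForm_of_mem_Fc` : every `f ∈ Fc` is `0` or has a Gauss normal form `w^n U₁/U₂`;
* `field_V_total`       : field `V_total` of `Alg.GoodModel`;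
* `field_gauss`         : field `gauss` for every coordinate with an integral expansion `q⁻¹ + …`;
* `coord_mem_Vc`        : the coordinate lies in `V`.
-/

set_option autoImplicit false

noncomputable section

namespace Fermat.Agent.S18.H24

open ModularCurve AlgebraicCurve HahnSeries Fermat.Agent.S18 Fermat.Agent.S18.Mod
open Fermat.Agent.S18.H456

variable {M : ℕ} {A : ValuationSubring Qb} {E : IntermediateField ℚ Qb}

theorem residue_ne_zero_of_inv_mem {c : A} (hc0 : (c : Qb) ≠ 0) (hc : (c : Qb)⁻¹ ∈ A) :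
    IsLocalRing.residue A c ≠ 0 := by
  intro h
  have hm := (IsLocalRing.residue_eq_zero_iff _).mp h
  rcases (mem_maximalIdeal_iff _).mp hm with h0 | hni
  · exact hc0 h0
  · exact hni hc

/-- Gauss form of a nonzero constant of `E`. -/
theorem gaussForm_cst {w₀ : Qb} (hw : _root_.Fermat.Agent.S18.H24.IsUnif A E w₀) {c : Qb} (hcE : c ∈ E) (hc0 : c ≠ 0) :
    GaussForm M A E w₀ (cst M c) := by
  have hw0 := hw.ne_zero
  have hC := C_ne_zero' hw0
  -- the case `c ∈ A`
  have key : ∀ c : Qb, c ∈ E → c ≠ 0 → c ∈ A → GaussForm M A E w₀ (cst M c) := by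
    intro c hcE hc0 hcA
    obtain ⟨k, hk1, hk2⟩ := hw.discrete c hcA hcE hc0
    have hu0 : c * (w₀⁻¹) ^ k ≠ 0 := mul_ne_zero hc0 (pow_ne_zero _ (inv_ne_zero hw0))
    have huE : c * (w₀⁻¹) ^ k ∈ E := mul_mem hcE (pow_mem (inv_mem hw.mem_E) _)
    refine ⟨k, HahnSeries.C (⟨c * (w₀⁻¹) ^ k, hk1⟩ : A), 1, isIntE_C huE, isIntE_one, ?_, ?_, ?_⟩
    · rw [red_C]
      intro h
      exact residue_ne_zero_of_inv_mem (c := ⟨c * (w₀⁻¹) ^ k, hk1⟩) hu0 hk2
        (HahnSeries.C_injective (by rw [h, map_zero]))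
    · rw [map_one]; exact one_ne_zero
    · rw [map_one, mul_one, val_cst', inc_C, zpow_natCast, ← map_pow, ← map_mul]
      congr 1
      show c = w₀ ^ k * (c * (w₀⁻¹) ^ k)
      rw [inv_pow]
      field_simp
  rcases A.mem_or_inv_mem c with hcA | hcA
  · exact key c hcE hc0 hcA
  · have := (key c⁻¹ (inv_mem hcE) (inv_ne_zero hc0) hcA).inv hw0
    rwa [← map_inv₀, inv_inv] at this

theorem jqNModC_ne_zero (K : Type*) [CommRing K] [Nontrivial K] (d : ℕ) [NeZero d] :
    jqNModC K d ≠ 0 := by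
  intro h
  have : jqModC K = 0 := qExpand_injective d (by rw [map_zero]; exact h)
  exact jqModC_ne_zero_of_nontrivial K this

theorem val_jd (d : ℕ) [NeZero d] (hd : d ∣ M) :
    ((jd M d hd : Om M) : LaurentSeries Qb) = inc A (jqNModC A d) := by
  show coeffEmb Qb (qExpand ℚ d jq) = _
  have h1 : coeffEmb Qb (qExpand ℚ d jq) = jqNModC Qb d := coeffMap_jqNModC (algebraMap ℚ Qb) d
  rw [h1]
  exact (coeffMap_jqNModC A.subtype d).symm

theorem jd_mem_Fc (d : ℕ) [NeZero d] (hd : d ∣ M) : jd M d hd ∈ Fc M E :=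
  Subfield.subset_closure (Or.inr ⟨d, inferInstance, hd, rfl⟩)

theorem gaussForm_jd (w₀ : Qb) (d : ℕ) [NeZero d] (hd : d ∣ M) :
    GaussForm M A E w₀ (jd M d hd) := by
  refine ⟨0, jqNModC A d, 1, ?_, isIntE_one, ?_, ?_, ?_⟩
  · exact (isIntE_iff M A E).mpr ⟨jd M d hd, jd_mem_Fc d hd, val_jd d hd⟩
  · show coeffMap (IsLocalRing.residue A) (jqNModC A d) ≠ 0
    rw [coeffMap_jqNModC]
    exact jqNModC_ne_zero _ d
  · rw [map_one]; exact one_ne_zero
  · rw [map_one, mul_one, zpow_zero, one_mul, val_jd d hd]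

theorem gaussForm_one (w₀ : Qb) : GaussForm M A E w₀ 1 := by
  refine ⟨0, 1, 1, isIntE_one, isIntE_one, ?_, ?_, ?_⟩
  · rw [map_one]; exact one_ne_zero
  · rw [map_one]; exact one_ne_zero
  · rw [map_one, mul_one, zpow_zero, one_mul]; rfl

/-- **Gauss normal form.** -/
theorem gaussForm_of_mem_Fc {w₀ : Qb} (hw : _root_.Fermat.Agent.S18.H24.IsUnif A E w₀) {f : Om M} (hf : f ∈ Fc M E) :
    f = 0 ∨ GaussForm M A E w₀ f := by
  have hw0 := hw.ne_zero
  unfold Fc at hf
  induction hf using Subfield.closure_induction with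
  | mem y hy =>
    rcases hy with hy | hy
    · obtain ⟨c, hc, rfl⟩ := (mem_Ec_iff M E).1 hy
      by_cases hc0 : c = 0
      · left; rw [hc0]; exact map_zero _
      · right; exact gaussForm_cst hw hc hc0
    · obtain ⟨d, hd, hdM, rfl⟩ := hy
      right
      exact gaussForm_jd w₀ d hdM
  | one => right; exact gaussForm_one w₀
  | add x y _ _ hx hy =>
    rcases hx with rfl | hx
    · rw [zero_add]; exact hy
    · rcases hy with rfl | hy
      · rw [add_zero]; exact Or.inr hx
      · exact hx.add hw hy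
  | neg x _ hx =>
    rcases hx with rfl | hx
    · left; rw [neg_zero]
    · right; exact hx.neg
  | inv x _ hx =>
    rcases hx with rfl | hx
    · left; rw [inv_zero]
    · right; exact hx.inv hw0
  | mul x y _ _ hx hy =>
    rcases hx with rfl | hx
    · left; rw [zero_mul]
    · rcases hy with rfl | hy
      · left; rw [mul_zero]
      · right; exact hx.mul hw0 hy

/-- A Gauss form with `n ≥ 0` lies in `V`. -/
theorem GaussForm.mem_Vc_of_nonneg {w₀ : Qb} (hw : _root_.Fermat.Agent.S18.H24.IsUnif A E w₀) {f : Om M} (hfF : f ∈ Fc M E)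
    {n : ℕ} {U₁ U₂ : LaurentSeries A} (h₁ : IsIntE M A E U₁) (h₂ : IsIntE M A E U₂)
    (hr₂ : red A U₂ ≠ 0)
    (heq : (f : LaurentSeries Qb) * inc A U₂ = HahnSeries.C w₀ ^ n * inc A U₁) :
    f ∈ Vc M A E := by
  refine ⟨hfF, HahnSeries.C (⟨w₀, hw.mem_A⟩ ^ n : A) * U₁, U₂, IsIntE.mul (isIntE_C ?_) h₁, h₂,
    hr₂, ?_⟩
  · show ((⟨w₀, hw.mem_A⟩ ^ n : A) : Qb) ∈ E
    rw [SubmonoidClass.coe_pow]
    exact pow_mem hw.mem_E n
  · rw [heq, map_mul, inc_C, SubmonoidClass.coe_pow, map_pow]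

variable (M) in
/-- field `V_total`. -/
theorem field_V_total {w₀ : Qb} (hw : _root_.Fermat.Agent.S18.H24.IsUnif A E w₀) :
    ∀ f ∈ Fc M E, f ∈ Vc M A E ∨ f⁻¹ ∈ Vc M A E := by
  intro f hf
  rcases gaussForm_of_mem_Fc hw hf with rfl | hG
  · left; exact zero_mem _
  · have hw0 := hw.ne_zero
    obtain ⟨n, U₁, U₂, h₁, h₂, hr₁, hr₂, heq⟩ := hG
    rcases le_total 0 n with hn | hn
    · left
      obtain ⟨d, rfl⟩ := Int.eq_ofNat_of_zero_le hn
      rw [zpow_natCast] at heq
      exact GaussForm.mem_Vc_of_nonneg hw hf h₁ h₂ hr₂ heq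
    · right
      have hG' : GaussForm M A E w₀ f := ⟨n, U₁, U₂, h₁, h₂, hr₁, hr₂, heq⟩
      obtain ⟨n', W₁, W₂, k₁, k₂, kr₁, kr₂, heq'⟩ := hG'.inv hw0
      -- use the explicit inverse form instead
      have hf0 := hG'.ne_zero hw0
      have hfv0 : (f : LaurentSeries Qb) ≠ 0 := fun h => hf0 (val_eq_zero_iff.mp h)
      have hC := C_ne_zero' hw0
      obtain ⟨d, hd⟩ : ∃ d : ℕ, -n = d := Int.eq_ofNat_of_zero_le (by omega)
      have heq2 : ((f⁻¹ : Om M) : LaurentSeries Qb) * inc A U₁ = HahnSeries.C w₀ ^ d * inc A U₂ := by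
        rw [val_inv]
        have hCn : (HahnSeries.C w₀ : LaurentSeries Qb) ^ n ≠ 0 := zpow_ne_zero n hC
        have h1 : inc A U₁ = (HahnSeries.C w₀ ^ n)⁻¹ * ((f : LaurentSeries Qb) * inc A U₂) := by
          rw [heq, ← mul_assoc, inv_mul_cancel₀ hCn, one_mul]
        rw [h1, ← zpow_neg, hd, zpow_natCast]
        field_simp
      exact GaussForm.mem_Vc_of_nonneg hw (inv_mem hf) h₂ h₁ hr₁ heq2

/-! ### The coordinate and the field `gauss` -/

section Coord

variable [NeZero M]

/-- The integral series of a coordinate, over `A`. -/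
theorem exists_series_of_hasIntExp {x : Om M} (hx : HasIntExp M x) :
    ∃ XA : LaurentSeries A, IsIntE M A E XA ∧ inc A XA = (x : LaurentSeries Qb) ∧
      (red A XA).order ≠ 0 := by
  have hxF := mem_Fc_of_hasIntExp M E hx
  obtain ⟨X, h1, h2, h3, -⟩ := hx
  refine ⟨coeffMap (Int.castRingHom A) X, ?_, ?_, ?_⟩
  · refine (isIntE_iff M A E).mpr ⟨x, hxF, ?_⟩
    rw [h3]
    show _ = coeffMap A.subtype (coeffMap (Int.castRingHom A) X)
    rw [coeffMap_coeffMap]
    exact coeffMap_congr (RingHom.ext_int _ _) X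
  · rw [h3]
    show coeffMap A.subtype (coeffMap (Int.castRingHom A) X) = _
    rw [coeffMap_coeffMap]
    exact coeffMap_congr (RingHom.ext_int _ _) X
  · show (coeffMap (IsLocalRing.residue A) (coeffMap (Int.castRingHom A) X)).order ≠ 0
    rw [coeffMap_coeffMap]
    set Xk := coeffMap ((IsLocalRing.residue A).comp (Int.castRingHom A)) X with hXk
    have hc1 : Xk.coeff (-1) = 1 := by
      rw [hXk, coeffMap_coeff, h1, map_one]
    have hne : Xk ≠ 0 := by
      intro h
      rw [h, HahnSeries.coeff_zero] at hc1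
      exact zero_ne_one hc1
    have hle : Xk.order ≤ -1 := HahnSeries.order_le_of_coeff_ne_zero (by rw [hc1]; exact one_ne_zero)
    omega

theorem coord_mem_Vc {x : Om M} (hx : HasIntExp M x) : x ∈ Vc M A E := by
  obtain ⟨XA, hXA, hinc, -⟩ := exists_series_of_hasIntExp (A := A) (E := E) hx
  exact mem_VcSet_of_isIntE hXA hinc.symm

/-- field `gauss` (for a coordinate with integral expansion `q⁻¹ + …`). -/
theorem field_gauss {x : Om M} (hx : HasIntExp M x) :
    ∀ P : Polynomial (Om M), (∀ i, P.coeff i ∈ Rc M A E) →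
      (∃ i, P.coeff i ≠ 0 ∧ (P.coeff i)⁻¹ ∈ Rc M A E) → (P.eval x)⁻¹ ∈ Vc M A E := by
  intro P hP hunit
  have hxF := mem_Fc_of_hasIntExp M E hx
  obtain ⟨XA, hXA, hinc, hord⟩ := exists_series_of_hasIntExp (A := A) (E := E) hx
  -- lift `P` to `A[X]`
  let φ : A →+* Om M := (algebraMap Qb (Om M)).comp A.subtype
  have hlift : P ∈ Polynomial.lifts φ := by
    rw [Polynomial.lifts_iff_coeff_lifts]
    intro i
    obtain ⟨c, hcA, -, hc⟩ := (mem_Rc_iff M A E).mp (hP i)
    exact ⟨⟨c, hcA⟩, hc⟩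
  obtain ⟨p, hp'⟩ := hlift
  have hp : p.map φ = P := hp'
  have hpcoeff : ∀ i, cst M ((p.coeff i : A) : Qb) = P.coeff i := by
    intro i
    rw [← hp, Polynomial.coeff_map]
    rfl
  have hpE : ∀ i, ((p.coeff i : A) : Qb) ∈ E := by
    intro i
    obtain ⟨c, -, hcE, hc⟩ := (mem_Rc_iff M A E).mp (hP i)
    have : c = ((p.coeff i : A) : Qb) := cst_injective M (by rw [hc, hpcoeff])
    rw [← this]; exact hcE
  -- the series
  set U : LaurentSeries A := p.eval₂ (HahnSeries.C (Γ := ℤ) (R := A)) XA with hU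
  have hUint : IsIntE M A E U := by
    rw [hU, Polynomial.eval₂_eq_sum_range]
    have : ∀ (s : Finset ℕ), IsIntE M A E (∑ i ∈ s, HahnSeries.C (p.coeff i) * XA ^ i) := by
      intro s
      induction s using Finset.induction_on with
      | empty => rw [Finset.sum_empty]; exact isIntE_zero
      | insert a s ha ih =>
        rw [Finset.sum_insert ha]
        exact IsIntE.add (IsIntE.mul (isIntE_C (hpE a)) (IsIntE.pow hXA a)) ih
    exact this _
  have hincU : inc A U = ((P.eval x : Om M) : LaurentSeries Qb) := by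
    rw [hU, Polynomial.hom_eval₂, hinc]
    have h1 : ((P.eval x : Om M) : LaurentSeries Qb) =
        P.eval₂ (modularFunctionFieldBar M).val.toRingHom (x : LaurentSeries Qb) := by
      have := Polynomial.hom_eval₂ P (RingHom.id (Om M)) (modularFunctionFieldBar M).val.toRingHom x
      simp only [Polynomial.eval₂_id, RingHom.comp_id] at this
      exact this
    rw [h1, ← hp, Polynomial.eval₂_map]
    congr 1
    ext c : 1
    show inc A (HahnSeries.C c) = ((cst M (c : Qb) : Om M) : LaurentSeries Qb)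
    rw [inc_C, val_cst']
  have hredU : red A U ≠ 0 := by
    rw [hU, Polynomial.hom_eval₂]
    have hcomp : (red A).comp (HahnSeries.C (Γ := ℤ) (R := A)) =
        (HahnSeries.C (Γ := ℤ) (R := IsLocalRing.ResidueField A)).comp (IsLocalRing.residue A) := by
      ext c : 1
      exact red_C c
    rw [hcomp, ← Polynomial.eval₂_map]
    intro h0
    have hp0 := Fermat.Agent.S28.H806.eq_zero_of_eval₂_C_eq_zero _ hord _ h0
    obtain ⟨i, hi0, hiinv⟩ := hunit
    have hci : (p.map (IsLocalRing.residue A)).coeff i = 0 := by rw [hp0, Polynomial.coeff_zero]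
    rw [Polynomial.coeff_map] at hci
    have hc0 : ((p.coeff i : A) : Qb) ≠ 0 := by
      intro h
      apply hi0
      rw [← hpcoeff, h]
      exact map_zero _
    have hcinv : ((p.coeff i : A) : Qb)⁻¹ ∈ A := by
      obtain ⟨c, hcA, -, hc⟩ := (mem_Rc_iff M A E).mp hiinv
      rw [← hpcoeff, ← map_inv₀] at hc
      have := cst_injective M hc
      rw [← this]; exact hcA
    exact residue_ne_zero_of_inv_mem hc0 hcinv hci
  have hPx0 : ((P.eval x : Om M) : LaurentSeries Qb) ≠ 0 := by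
    rw [← hincU]; exact red_ne_zero_imp_inc_ne_zero hredU
  refine ⟨inv_mem ?_, 1, U, isIntE_one, hUint, hredU, ?_⟩
  · -- `P.eval x ∈ Fc`
    rw [Polynomial.eval_eq_sum_range]
    refine Subfield.sum_mem _ fun i _ => ?_
    exact mul_mem (field_E_le_F M E (field_R_le M A E (hP i))) (pow_mem hxF i)
  · rw [val_inv, hincU, map_one, inv_mul_cancel₀ hPx0]

end Coord

end Fermat.Agent.S18.H24

end
end
-- ===== PACK-END S18/H24/GaussC.lean

-- ===== PACK-BEGIN S20/Comb/OrbitCounts.lean
section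




/-!
# Orbit counts of `S` and `S * T` on `SL(2,ℤ) ⧸ Gamma0 N`, and the genus identity

* `two_mul_card_orbits_S : 2 * #(Q / ⟨S⟩) = ψ(N) + ν₂(N)`
* `three_mul_card_orbits_ST : 3 * #(Q / ⟨S * T⟩) = ψ(N) + 2 * ν₃(N)`
* `genusFormula_eq_of_card_orbits_T` : the Euler-characteristic identity
  `genusFormula N = 1 + (μ - o₂ - o₃ - o∞) / 2`.
-/

set_option autoImplicit false

namespace Fermat.Agent.S20.Comb

open Matrix MatrixGroups CongruenceSubgroup MulAction Subgroup

/-- `-1` acts trivially on `SL(2,ℤ) ⧸ Γ₀(N)`. -/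
lemma neg_one_smul_quotient (N : ℕ) (q : SL(2, ℤ) ⧸ Gamma0 N) : (-1 : SL(2, ℤ)) • q = q := by
  obtain ⟨g, rfl⟩ := QuotientGroup.mk_surjective q
  rw [smul_mk_eq_mk_iff]
  have h : ∀ i j, ((-1 : SL(2, ℤ)) * g) i j = - g i j := by
    intro i j
    rw [neg_mul, one_mul, Matrix.SpecialLinearGroup.coe_neg, Matrix.neg_apply]
  rw [h, h]
  push_cast
  ring

lemma S_pow_two : ModularGroup.S ^ 2 = (-1 : SL(2, ℤ)) := by
  apply Subtype.ext
  rw [pow_two, Matrix.SpecialLinearGroup.coe_mul, ModularGroup.coe_S,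
    Matrix.SpecialLinearGroup.coe_neg, Matrix.SpecialLinearGroup.coe_one]
  ext i j
  fin_cases i <;> fin_cases j <;> simp [Matrix.mul_apply, Fin.sum_univ_two]

lemma ST_pow_three : (ModularGroup.S * ModularGroup.T) ^ 3 = (-1 : SL(2, ℤ)) := by
  apply Subtype.ext
  rw [pow_succ, pow_two, Matrix.SpecialLinearGroup.coe_mul, Matrix.SpecialLinearGroup.coe_mul,
    coe_S_mul_T, Matrix.SpecialLinearGroup.coe_neg, Matrix.SpecialLinearGroup.coe_one]
  ext i j
  fin_cases i <;> fin_cases j <;> simp [Matrix.mul_apply, Fin.sum_univ_two]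

/-- `2 * #(S-orbits) = ψ(N) + ν₂(N)`. -/
theorem two_mul_card_orbits_S (N : ℕ) [NeZero N] :
    2 * Nat.card (orbitRel.Quotient (zpowers ModularGroup.S) (SL(2, ℤ) ⧸ Gamma0 N))
      = ModularCurve.dedekindPsi N + ModularCurve.nuTwo N := by
  have h := prime_mul_card_orbits (X := SL(2, ℤ) ⧸ Gamma0 N) ModularGroup.S 2 Nat.prime_two
    (fun x => by rw [S_pow_two]; exact neg_one_smul_quotient N x)
  rw [card_quotient_Gamma0, card_fixedBy_S] at h
  exact h.trans (by norm_num)

/-- `3 * #(ST-orbits) = ψ(N) + 2 * ν₃(N)`. -/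
theorem three_mul_card_orbits_ST (N : ℕ) [NeZero N] :
    3 * Nat.card (orbitRel.Quotient (zpowers (ModularGroup.S * ModularGroup.T))
        (SL(2, ℤ) ⧸ Gamma0 N))
      = ModularCurve.dedekindPsi N + 2 * ModularCurve.nuThree N := by
  have h := prime_mul_card_orbits (X := SL(2, ℤ) ⧸ Gamma0 N)
    (ModularGroup.S * ModularGroup.T) 3 Nat.prime_three
    (fun x => by rw [ST_pow_three]; exact neg_one_smul_quotient N x)
  rw [card_quotient_Gamma0, card_fixedBy_ST] at h
  exact h.trans (by norm_num)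

/-- The Euler-characteristic identity: with `μ = #Q`, `o₂`, `o₃`, `o∞` the numbers of orbits of
`S`, `S * T`, `T` on `Q = SL(2,ℤ) ⧸ Γ₀(N)`, one has `genusFormula N = 1 + (μ - o₂ - o₃ - o∞) / 2`,
provided `o∞ = cuspCount N`. -/
theorem genusFormula_eq_of_card_orbits_T (N : ℕ) [NeZero N]
    (hT : Nat.card (orbitRel.Quotient (zpowers ModularGroup.T) (SL(2, ℤ) ⧸ Gamma0 N))
      = ModularCurve.cuspCount N) :
    ModularCurve.genusFormula N
      = 1 + ((Nat.card (SL(2, ℤ) ⧸ Gamma0 N) : ℚ)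
          - (Nat.card (orbitRel.Quotient (zpowers ModularGroup.S) (SL(2, ℤ) ⧸ Gamma0 N)) : ℚ)
          - (Nat.card (orbitRel.Quotient (zpowers (ModularGroup.S * ModularGroup.T))
              (SL(2, ℤ) ⧸ Gamma0 N)) : ℚ)
          - (Nat.card (orbitRel.Quotient (zpowers ModularGroup.T)
              (SL(2, ℤ) ⧸ Gamma0 N)) : ℚ)) / 2 := by
  have h2 := two_mul_card_orbits_S N
  have h3 := three_mul_card_orbits_ST N
  have h2' := congrArg (Nat.cast : ℕ → ℚ) h2
  have h3' := congrArg (Nat.cast : ℕ → ℚ) h3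
  push_cast at h2' h3'
  rw [hT, card_quotient_Gamma0, ModularCurve.genusFormula]
  linear_combination (1 / 4 : ℚ) * h2' + (1 / 6 : ℚ) * h3'

/-- Orbit-count form used by dimension bounds: `μ + 2 - o₂ - o₃ - o∞ = 2 * genusFormula N`. -/
theorem two_mul_genusFormula_of_card_orbits_T (N : ℕ) [NeZero N]
    (hT : Nat.card (orbitRel.Quotient (zpowers ModularGroup.T) (SL(2, ℤ) ⧸ Gamma0 N))
      = ModularCurve.cuspCount N) :
    2 * ModularCurve.genusFormula N
      + (Nat.card (orbitRel.Quotient (zpowers ModularGroup.S) (SL(2, ℤ) ⧸ Gamma0 N)) : ℚ)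
      + (Nat.card (orbitRel.Quotient (zpowers (ModularGroup.S * ModularGroup.T))
          (SL(2, ℤ) ⧸ Gamma0 N)) : ℚ)
      + (Nat.card (orbitRel.Quotient (zpowers ModularGroup.T) (SL(2, ℤ) ⧸ Gamma0 N)) : ℚ)
      = (Nat.card (SL(2, ℤ) ⧸ Gamma0 N) : ℚ) + 2 := by
  rw [genusFormula_eq_of_card_orbits_T N hT]
  ring

end Fermat.Agent.S20.Comb

end
-- ===== PACK-END S20/Comb/OrbitCounts.lean

-- ===== PACK-BEGIN S18/B12/H33/CoreAux.lean
section



/-!
# S18 b2.5 (helper33): auxiliary lemmas for the assembly of `B2CoreAbsStatement`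
-/

set_option autoImplicit false

noncomputable section

namespace Fermat.Agent.S18.B12.H33

open Polynomial

universe u v

section Quot

variable {P : Type u} [CommRing P] (w : P)

/-- `a ∈ (w, p)` iff `mk p ∣ mk a` in `P/(w)`. -/
theorem mem_span_pair_iff_mk_dvd (p a : P) :
    a ∈ Ideal.span {w, p} ↔
      Ideal.Quotient.mk (Ideal.span {w}) p ∣ Ideal.Quotient.mk (Ideal.span {w}) a := by
  constructor
  · intro h
    rw [Ideal.mem_span_pair] at h
    obtain ⟨c, d, rfl⟩ := h
    refine ⟨Ideal.Quotient.mk _ d, ?_⟩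
    have hw0 : Ideal.Quotient.mk (Ideal.span {w}) w = 0 :=
      Ideal.Quotient.eq_zero_iff_mem.mpr (Ideal.mem_span_singleton_self w)
    simp [map_add, map_mul, hw0, mul_comm]
  · rintro ⟨c, hc⟩
    obtain ⟨d, rfl⟩ := Ideal.Quotient.mk_surjective c
    rw [← map_mul, Ideal.Quotient.eq, Ideal.mem_span_singleton] at hc
    obtain ⟨e, he⟩ := hc
    rw [Ideal.mem_span_pair]
    refine ⟨e, d, ?_⟩
    have : a = w * e + p * d := by linear_combination he
    rw [this]; ring

theorem span_pair_eq_comap (p : P) :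
    Ideal.span {w, p} = Ideal.comap (Ideal.Quotient.mk (Ideal.span {w}))
      (Ideal.span {Ideal.Quotient.mk (Ideal.span {w}) p}) := by
  ext a
  rw [mem_span_pair_iff_mk_dvd, Ideal.mem_comap, Ideal.mem_span_singleton]

end Quot

end Fermat.Agent.S18.B12.H33

end
end
-- ===== PACK-END S18/B12/H33/CoreAux.lean

-- ===== PACK-BEGIN S18/B12/H33/Core.lean
section



/-!
# S18 b2.5 (helper33): `B2CoreAbsStatement` from the assembly pieces A0, A2, A2', A3, A4, A5, A5'
-/

set_option autoImplicit false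

noncomputable section

namespace Fermat.Agent.S18.B12.H33

open Polynomial

universe u v

section Setup

variable {P : Type u} [CommRing P] [IsDomain P] [UniqueFactorizationMonoid P] [IsNoetherianRing P]
  {B : Type v} [CommRing B] [IsDomain B] [IsIntegrallyClosed B] [Algebra P B]
  [Module.Finite P B] [Module.IsTorsionFree P B]

/-- Local bases restrict to smaller ideals. -/
theorem IsLocalBasis.mono {𝔪 𝔫 : Ideal P} (h𝔫 : 𝔫 ≤ 𝔪) {n : ℕ} {x : Fin n → B}
    (hx : IsLocalBasis P B 𝔪 n x) : IsLocalBasis P B 𝔫 n x := by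
  obtain ⟨hli, g, hg, hsp⟩ := hx
  exact ⟨hli, g, fun h => hg (h𝔫 h), hsp⟩

/-- For a local basis at `𝔪 ∋ π` (prime), `π ∣ ∑ aᵢ xᵢ` in `B` forces `π ∣ aᵢ`. -/
theorem IsLocalBasis.dvd_coeff {𝔪 : Ideal P} {n : ℕ} {x : Fin n → B}
    (hx : IsLocalBasis P B 𝔪 n x) {π : P} (hπ : Prime π) (hπ𝔪 : π ∈ 𝔪)
    (a : Fin n → P) (h : (∑ i, a i • x i) ∈ Ideal.span {algebraMap P B π}) (i : Fin n) :
    π ∣ a i := by
  obtain ⟨hli, g, hg, hsp⟩ := hx
  rw [Ideal.mem_span_singleton] at h
  obtain ⟨b, hb⟩ := h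
  have hgb := hsp b
  rw [Submodule.mem_span_range_iff_exists_fun] at hgb
  obtain ⟨c, hc⟩ := hgb
  -- ∑ (g aᵢ - π cᵢ) xᵢ = 0
  have hrel : ∑ j, (g * a j - π * c j) • x j = 0 := by
    have h1 : ∑ j, (g * a j - π * c j) • x j
        = g • (∑ j, a j • x j) - π • (∑ j, c j • x j) := by
      rw [Finset.smul_sum, Finset.smul_sum, ← Finset.sum_sub_distrib]
      refine Finset.sum_congr rfl fun j _ => ?_
      rw [sub_smul, mul_smul, mul_smul]
    rw [h1, hc, hb, Algebra.smul_def, Algebra.smul_def, Algebra.smul_def]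
    ring
  have hz := Fintype.linearIndependent_iff.mp hli _ hrel i
  have hdvd : π ∣ g * a i := ⟨c i, by linear_combination hz⟩
  rcases hπ.dvd_or_dvd hdvd with h | h
  · exact absurd (Ideal.mem_of_dvd 𝔪 h hπ𝔪) hg
  · exact h

end Setup

end Fermat.Agent.S18.B12.H33

namespace Fermat.Agent.S18.B12.H33

open Polynomial

universe u v

set_option linter.unusedSectionVars false
set_option linter.unusedVariables false

section Main

variable {P : Type u} [CommRing P] [IsDomain P] (w : P)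
  {B : Type v} [CommRing B] [Algebra P B]


/-- Reduction of a radical-membership from `B` to `B/wB`. -/
theorem mk_sub_sum_mem_radical {r : ℕ} (y : Fin r → B) (q : P) (t : (P ⧸ Ideal.span {w}))
    (hqt : Associated (Ideal.Quotient.mk (Ideal.span {w}) q) t)
    (c : B) (a : Fin r → P)
    (h : c - ∑ i, a i • y i ∈ (Ideal.span {algebraMap P B w, algebraMap P B q}).radical) :
    (Ideal.Quotient.mk ((Ideal.span {w}).map (algebraMap P B)) c : (B ⧸ (Ideal.span {w}).map (algebraMap P B)))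
      - ∑ i, (Ideal.Quotient.mk (Ideal.span {w}) (a i)) •
          (Ideal.Quotient.mk ((Ideal.span {w}).map (algebraMap P B)) (y i) : (B ⧸ (Ideal.span {w}).map (algebraMap P B))) ∈
      (Ideal.span {algebraMap (P ⧸ Ideal.span {w}) (B ⧸ (Ideal.span {w}).map (algebraMap P B)) t}).radical := by
  obtain ⟨k, hk⟩ := h
  refine ⟨k, ?_⟩
  have e1 : (Ideal.Quotient.mk ((Ideal.span {w}).map (algebraMap P B)) c : (B ⧸ (Ideal.span {w}).map (algebraMap P B)))
      - ∑ i, (Ideal.Quotient.mk (Ideal.span {w}) (a i)) •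
          (Ideal.Quotient.mk ((Ideal.span {w}).map (algebraMap P B)) (y i) : (B ⧸ (Ideal.span {w}).map (algebraMap P B)))
      = Ideal.Quotient.mk ((Ideal.span {w}).map (algebraMap P B)) (c - ∑ i, a i • y i) := by
    rw [map_sub, map_sum]
    congr 1
  rw [e1, ← map_pow]
  rw [Ideal.mem_span_pair] at hk
  obtain ⟨c₁, c₂, hc⟩ := hk
  rw [← hc, map_add, map_mul, map_mul]
  have hw0 : Ideal.Quotient.mk ((Ideal.span {w}).map (algebraMap P B)) (algebraMap P B w) = 0 :=
    Ideal.Quotient.eq_zero_iff_mem.mpr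
      (Ideal.mem_map_of_mem _ (Ideal.mem_span_singleton_self w))
  rw [hw0, mul_zero, zero_add]
  have hq' : Ideal.Quotient.mk ((Ideal.span {w}).map (algebraMap P B)) (algebraMap P B q)
      = algebraMap (P ⧸ Ideal.span {w}) (B ⧸ (Ideal.span {w}).map (algebraMap P B)) (Ideal.Quotient.mk (Ideal.span {w}) q) := rfl
  rw [hq']
  obtain ⟨v, hv⟩ := hqt
  rw [Ideal.mem_span_singleton]
  refine Dvd.dvd.mul_left ?_ _
  rw [← hv, map_mul]
  exact ⟨algebraMap (P ⧸ Ideal.span {w}) (B ⧸ (Ideal.span {w}).map (algebraMap P B)) ((v⁻¹ : (P ⧸ Ideal.span {w})ˣ) : (P ⧸ Ideal.span {w})), by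
    rw [mul_assoc, ← map_mul, Units.mul_inv, map_one, mul_one]⟩

end Main

end Fermat.Agent.S18.B12.H33

end
end
-- ===== PACK-END S18/B12/H33/Core.lean

-- ===== PACK-BEGIN S18/B12/H33/CoreMain.lean
section



/-!
# S18 b2.5 (helper33): `B2CoreAbsStatement` from the assembly pieces A0, A2, A2', A3, A4, A5, A5'
-/

set_option autoImplicit false

noncomputable section

namespace Fermat.Agent.S18.B12.H33

open Polynomial

universe u v

theorem b2CoreAbs_of_pieces
    (hA0 : RegSeqAbsStatement.{u, v}) (hA2 : LocalBasisStatement.{u, v})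
    (hA2' : LocalBasisRankStatement.{u, v}) (hA3 : DiscrRedStatement.{u, v})
    (hA4 : UFDStepStatement.{u}) (hA5 : GenericDiscrStatement.{u, v})
    (hA5' : RedBasisAbsStatement.{u, v}) : B2CoreAbsStatement.{u, v} := by
  intro P _ _ _ _ w hw hΛ hΛ₀ hℚ B _ _ _ _ _ _ hsep S hS1 hS2 hNC t ht n bb
  haveI := hΛ
  haveI hdomΛ : IsDomain (P ⧸ Ideal.span {w}) := by
    rw [Ideal.Quotient.isDomain_iff_prime]
    exact (Ideal.span_singleton_prime hw.ne_zero).mpr hw
  have hmkw : Ideal.Quotient.mk (Ideal.span {w}) w = 0 :=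
    Ideal.Quotient.eq_zero_iff_mem.mpr (Ideal.mem_span_singleton_self w)
  obtain ⟨p, hp⟩ := Ideal.Quotient.mk_surjective t
  -- the closed point
  have htmax : (Ideal.span {t}).IsMaximal :=
    PrincipalIdealRing.isMaximal_of_irreducible ht.irreducible
  have h𝔪p : (Ideal.span {w, p}).IsMaximal := by
    rw [span_pair_eq_comap, hp]
    exact Ideal.comap_isMaximal_of_surjective _ Ideal.Quotient.mk_surjective
  -- choice of the second generator `q`
  obtain ⟨q, hq𝔪, hqcase⟩ : ∃ q, Ideal.span {w, q} = Ideal.span {w, p} ∧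
      (q ∈ S ∨ ∀ s ∈ S, s ∉ Ideal.span {w, p}) := by
    by_cases h : ∃ s ∈ S, s ∈ Ideal.span {w, p}
    · obtain ⟨s, hs, hs𝔪⟩ := h
      refine ⟨s, ?_, Or.inl hs⟩
      have hmax := (hS1 s hs).2.2.1
      refine hmax.eq_of_le h𝔪p.ne_top ?_
      rw [Ideal.span_le]
      intro z hz
      rcases hz with rfl | hz
      · exact Ideal.subset_span (by simp)
      · rw [Set.mem_singleton_iff] at hz; subst hz; exact hs𝔪
    · push_neg at h
      exact ⟨p, rfl, Or.inr h⟩
  have h𝔪max : (Ideal.span {w, q}).IsMaximal := hq𝔪 ▸ h𝔪p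
  haveI h𝔪prime : (Ideal.span {w, q}).IsPrime := h𝔪max.isPrime
  have hw𝔪 : w ∈ Ideal.span {w, q} := Ideal.subset_span (by simp)
  -- `mk q` is associated to `t`
  have hqt : Associated (Ideal.Quotient.mk (Ideal.span {w}) q) t := by
    rw [← Ideal.span_singleton_eq_span_singleton]
    ext b
    obtain ⟨a, rfl⟩ := Ideal.Quotient.mk_surjective b
    rw [Ideal.mem_span_singleton, Ideal.mem_span_singleton, ← mem_span_pair_iff_mk_dvd, hq𝔪,
      mem_span_pair_iff_mk_dvd, hp]
  have hmkq_prime : Prime (Ideal.Quotient.mk (Ideal.span {w}) q) := hqt.symm.prime ht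
  have hwq : ¬ w ∣ q := by
    intro h
    apply hmkq_prime.ne_zero
    exact Ideal.Quotient.eq_zero_iff_mem.mpr (Ideal.mem_span_singleton.mpr h)
  -- local basis
  haveI : Algebra.IsIntegral P B := inferInstance
  have hreg := hA0 P B q w hw hwq
  obtain ⟨n₀, x, hx⟩ := hA2 P B w q h𝔪max hreg
  obtain ⟨hn₀, hgram⟩ := hA2' P B (Ideal.span {w, q}) n₀ x hx
  obtain ⟨hn, u, hu, hD⟩ := hA3 P B w hw (Ideal.span {w, q}) hw𝔪 n₀ x hx n bb
  subst hn
  -- `w ∤ D`
  have hwD : ¬ w ∣ intDiscr P B x := by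
    obtain ⟨x', hx'⟩ := hsep
    subst hn₀
    obtain ⟨g, v, hg, hgv⟩ := hgram x'
    intro hdvd
    have h1 : w ∣ g ^ 2 * intDiscr P B x' := by
      rw [hgv]; exact Dvd.dvd.mul_left hdvd _
    rcases hw.dvd_or_dvd h1 with h2 | h2
    · exact hg (Ideal.mem_of_dvd _ (hw.dvd_of_dvd_pow h2) hw𝔪)
    · exact hx' h2
  have hD0 : intDiscr P B x ≠ 0 := fun h => hwD (h ▸ dvd_zero w)
  have hmkD0 : Ideal.Quotient.mk (Ideal.span {w}) (intDiscr P B x) ≠ 0 := by
    intro h
    exact hwD (Ideal.mem_span_singleton.mp (Ideal.Quotient.eq_zero_iff_mem.mp h))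
  have hdisc0 : Algebra.discr (P ⧸ Ideal.span {w}) bb ≠ 0 := by
    intro h
    rw [h, mul_zero] at hD
    exact hmkD0 hD
  refine ⟨hdisc0, ?_⟩
  have hmku : ¬ t ∣ Ideal.Quotient.mk (Ideal.span {w}) u := by
    intro h
    apply hu
    rw [mem_span_pair_iff_mk_dvd]
    exact hqt.dvd.trans h
  -- unramified primes through the closed point do not divide `D`
  have hunram : ∀ π : P, Prime π → π ∈ Ideal.span {w, q} → ¬ Associated π w →
      (∀ s ∈ S, ¬ Associated π s) → ¬ π ∣ intDiscr P B x := by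
    intro π hπ hπ𝔪 hπw hπS
    have hrad := hNC π hπ hπw hπS
    have hxπ : IsLocalBasis P B (Ideal.span {π}) n x :=
      IsLocalBasis.mono ((Ideal.span_singleton_le_iff_mem _).mpr hπ𝔪) hx
    have := hA5 P w hw hΛ₀ hℚ B π hπ hπw n x hxπ n x
      (fun a ha i => IsLocalBasis.dvd_coeff hx hπ hπ𝔪 a (hrad.radical ▸ ha) i)
    simpa using this
  rcases hqcase with hqS | hnoS
  · -- Case 1: the closed point is a branch point `q ∈ S`
    obtain ⟨hqprime, hqw, -, hqPID⟩ := hS1 q hqS
    obtain ⟨a, D₁, hDeq, hD₁⟩ := hA4 P (Ideal.span {w, q}) q hqprime (intDiscr P B x) hD0 (by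
      intro π hπ hπD hπ𝔪
      by_contra hne
      refine hunram π hπ hπ𝔪 ?_ ?_ hπD
      · intro hπw
        exact hwD (hπw.symm.dvd.trans hπD)
      · intro s hs hπs
        have hs𝔪 : s ∈ Ideal.span {w, q} := Ideal.mem_of_dvd _ hπs.dvd hπ𝔪
        by_cases hsq : q = s
        · subst hsq; exact hne hπs
        · exact hS2 q hqS s hs hsq hs𝔪)
    obtain ⟨r, y, hyi, hys⟩ := hA5' P B q hqprime hqPID
    have hxq : IsLocalBasis P B (Ideal.span {q}) n x :=
      IsLocalBasis.mono ((Ideal.span_singleton_le_iff_mem _).mpr (Ideal.subset_span (by simp))) hx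
    have hnd := hA5 P w hw hΛ₀ hℚ B q hqprime hqw n x hxq r y hyi
    have ha : a < n - r + 1 := by
      by_contra hcon
      push_neg at hcon
      apply hnd
      rw [hDeq]
      exact Dvd.dvd.mul_right (pow_dvd_pow q hcon) _
    refine ⟨r, fun i => Ideal.Quotient.mk _ (y i), ?_, ?_⟩
    · intro c
      obtain ⟨c, rfl⟩ := Ideal.Quotient.mk_surjective c
      obtain ⟨a', ha'⟩ := hys c
      refine ⟨fun i => Ideal.Quotient.mk _ (a' i), ?_⟩
      refine mk_sub_sum_mem_radical w y q t hqt c a' ?_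
      refine Ideal.radical_mono ?_ ha'
      rw [Ideal.span_le]
      intro z hz
      rw [Set.mem_singleton_iff] at hz; subst hz
      exact Ideal.subset_span (by simp)
    · intro hdvd
      have h1 : Ideal.Quotient.mk (Ideal.span {w}) q ^ (n - r + 1) ∣
          Ideal.Quotient.mk (Ideal.span {w}) (intDiscr P B x) := by
        rw [hD]
        exact Dvd.dvd.mul_left ((hqt.pow_pow.dvd).trans hdvd) _
      rw [hDeq, map_mul, map_pow] at h1
      have h2 : Ideal.Quotient.mk (Ideal.span {w}) q ^ (a + 1) ∣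
          Ideal.Quotient.mk (Ideal.span {w}) q ^ a * Ideal.Quotient.mk (Ideal.span {w}) D₁ :=
        (pow_dvd_pow _ (by omega)).trans h1
      rw [pow_succ, mul_dvd_mul_iff_left (pow_ne_zero _ hmkq_prime.ne_zero)] at h2
      exact hD₁ ((mem_span_pair_iff_mk_dvd w q D₁).mpr h2)
  · -- Case 2: no branch point at this closed point
    have hnoS' : ∀ s ∈ S, s ∉ Ideal.span {w, q} := hq𝔪 ▸ hnoS
    obtain ⟨a, D₁, hDeq, hD₁⟩ := hA4 P (Ideal.span {w, q}) w hw (intDiscr P B x) hD0 (by
      intro π hπ hπD hπ𝔪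
      by_contra hne
      refine hunram π hπ hπ𝔪 hne ?_ hπD
      intro s hs hπs
      exact hnoS' s hs (Ideal.mem_of_dvd _ hπs.dvd hπ𝔪))
    have ha0 : a = 0 := by
      by_contra h
      apply hwD
      rw [hDeq]
      exact Dvd.dvd.mul_right (dvd_pow_self w h) _
    subst ha0
    rw [pow_zero, one_mul] at hDeq
    obtain ⟨hli, g, hg, hsp⟩ := hx
    -- inverse of `g` modulo the maximal ideal
    obtain ⟨g', hg'⟩ : ∃ g', g * g' - 1 ∈ Ideal.span {w, q} := by
      have := h𝔪max.exists_inv hg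
      obtain ⟨g', m, hm, hgm⟩ := this
      refine ⟨g', ?_⟩
      have : g * g' - 1 = -m := by linear_combination hgm
      rw [this]; exact neg_mem hm
    refine ⟨n, fun i => Ideal.Quotient.mk _ (x i), ?_, ?_⟩
    · intro c
      obtain ⟨c, rfl⟩ := Ideal.Quotient.mk_surjective c
      have hgc := hsp c
      rw [Submodule.mem_span_range_iff_exists_fun] at hgc
      obtain ⟨cf, hcf⟩ := hgc
      refine ⟨fun i => Ideal.Quotient.mk _ (g' * cf i), ?_⟩
      refine mk_sub_sum_mem_radical w x q t hqt c (fun i => g' * cf i) ?_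
      apply Ideal.le_radical
      have e : c - ∑ i, (g' * cf i) • x i = algebraMap P B (-(g * g' - 1)) * c := by
        have : ∑ i, (g' * cf i) • x i = g' • (g • c) := by
          rw [← hcf, Finset.smul_sum]
          exact Finset.sum_congr rfl fun i _ => by rw [mul_smul]
        rw [this, Algebra.smul_def, Algebra.smul_def, map_neg, map_sub, map_mul, map_one]
        ring
      rw [e]
      refine Ideal.mul_mem_right _ _ ?_
      have hmap : Ideal.map (algebraMap P B) (Ideal.span {w, q})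
          = Ideal.span {algebraMap P B w, algebraMap P B q} := by
        rw [Ideal.map_span]; congr 1; simp [Set.image_pair]
      rw [← hmap]
      exact Ideal.mem_map_of_mem _ (neg_mem hg')
    · intro hdvd
      have hnn : n - n + 1 = 1 := by omega
      rw [hnn, pow_one] at hdvd
      have h1 : t ∣ Ideal.Quotient.mk (Ideal.span {w}) (intDiscr P B x) := by
        rw [hD]; exact Dvd.dvd.mul_left hdvd _
      apply hD₁
      rw [← hDeq, mem_span_pair_iff_mk_dvd]
      exact hqt.dvd.trans h1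

end Fermat.Agent.S18.B12.H33

end
end
-- ===== PACK-END S18/B12/H33/CoreMain.lean

-- ===== PACK-BEGIN S18/B12/H33/Regular.lean
section



/-!
# S18 b2.5 (helper33): OUTPUT O1 — `B2RegularStatement` from the pieces

`B2RegularStatement` (special fibre of the normal model is regular = `H754.RegularAlong (C w)`)
from `B2CoreAbsStatement` (heart), A0 (regular sequence), A8 (normality from discriminant bounds),
A9 (regular along a Dedekind fibre) and A1 (instantiation `P = R[X]`).
-/

set_option autoImplicit false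

noncomputable section

namespace Fermat.Agent.S18.B12.H33

open Polynomial

universe u v

section Abs

variable {P : Type u} [CommRing P] [IsDomain P] [IsIntegrallyClosed P]
  {B : Type v} [CommRing B] [IsDomain B] [IsIntegrallyClosed B] [Algebra P B]
  [Module.Finite P B] [Module.IsTorsionFree P B]

/-- `B/wB` is torsion-free over `P/(w)` (from A0). -/
theorem isTorsionFree_quotient (hA0 : RegSeqAbsStatement.{u, v}) (w : P) (hw : Prime w) :
    Module.IsTorsionFree (P ⧸ Ideal.span {w}) (B ⧸ (Ideal.span {w}).map (algebraMap P B)) := by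
  haveI : IsDomain (P ⧸ Ideal.span {w}) := by
    rw [Ideal.Quotient.isDomain_iff_prime]
    exact (Ideal.span_singleton_prime hw.ne_zero).mpr hw
  haveI : Algebra.IsIntegral P B := inferInstance
  have hJ : (Ideal.span {w}).map (algebraMap P B) = Ideal.span {algebraMap P B w} := by
    rw [Ideal.map_span, Set.image_singleton]
  refine Module.IsTorsionFree.of_smul_eq_zero fun a b hab => ?_
  obtain ⟨a, rfl⟩ := Ideal.Quotient.mk_surjective a
  obtain ⟨b, rfl⟩ := Ideal.Quotient.mk_surjective b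
  by_cases ha : w ∣ a
  · left
    exact Ideal.Quotient.eq_zero_iff_mem.mpr (Ideal.mem_span_singleton.mpr ha)
  · right
    rw [Ideal.Quotient.mk_smul_mk_quotient_map_quotient, Ideal.Quotient.eq_zero_iff_mem, hJ,
      Ideal.mem_span_singleton] at hab
    obtain ⟨c, hc⟩ := hab
    obtain ⟨b'', hb, -⟩ := hA0 P B a w hw ha b c hc
    rw [Ideal.Quotient.eq_zero_iff_mem, hJ, Ideal.mem_span_singleton]
    exact ⟨b'', hb⟩

end Abs

end Fermat.Agent.S18.B12.H33

namespace Fermat.Agent.S18.B12.H33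

open Polynomial

universe u v

/-- In `P/(w)`, the image of `p` is prime if `(w, p)` is maximal and `w ∤ p`. -/
theorem prime_mk_of_isMaximal {P : Type u} [CommRing P] [IsDomain P] (w p : P) (hw : Prime w)
    (hmax : (Ideal.span {w, p}).IsMaximal) (hwp : ¬ w ∣ p) :
    Prime (Ideal.Quotient.mk (Ideal.span {w}) p) := by
  haveI : IsDomain (P ⧸ Ideal.span {w}) := by
    rw [Ideal.Quotient.isDomain_iff_prime]
    exact (Ideal.span_singleton_prime hw.ne_zero).mpr hw
  have hne : Ideal.Quotient.mk (Ideal.span {w}) p ≠ 0 := by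
    intro h
    exact hwp (Ideal.mem_span_singleton.mp (Ideal.Quotient.eq_zero_iff_mem.mp h))
  rw [← Ideal.span_singleton_prime hne]
  have hcomap : Ideal.comap (Ideal.Quotient.mk (Ideal.span {w}))
      (Ideal.span {Ideal.Quotient.mk (Ideal.span {w}) p}) = Ideal.span {w, p} :=
    (span_pair_eq_comap w p).symm
  have hmap : Ideal.span {Ideal.Quotient.mk (Ideal.span {w}) p}
      = Ideal.map (Ideal.Quotient.mk (Ideal.span {w})) (Ideal.span {w, p}) := by
    rw [← hcomap, Ideal.map_comap_of_surjective _ Ideal.Quotient.mk_surjective]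
  rw [hmap]
  rcases Ideal.map_eq_top_or_isMaximal_of_surjective (Ideal.Quotient.mk (Ideal.span {w}))
    Ideal.Quotient.mk_surjective hmax with h | h
  · exfalso
    rw [← hmap] at h
    have : Ideal.span {w, p} = ⊤ := by
      rw [← hcomap, h, Ideal.comap_top]
    exact hmax.ne_top this
  · exact h.isPrime

theorem b2Regular_of_pieces
    (hcore : B2CoreAbsStatement.{u, v}) (hA0 : RegSeqAbsStatement.{u, v})
    (hA8 : IntClosedOfDiscrStatement.{u, v}) (hA9 : RegularAlongOfDedekindStatement.{v})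
    (hA1 : PolyInstStatement.{u}) : B2RegularStatement.{u, v} := by
  intro R _ _ _ _ w hw B _ _ _ _ _ _ hdom hsep S hS hNC 𝔪 h𝔪 hw𝔪
  obtain ⟨hCw, hΛ, hΛ₀, hℚ, hc⟩ := hA1 R w hw
  refine hA9 B (algebraMap R[X] B (C w)) ?_ 𝔪 h𝔪 hw𝔪
  have hJ : (Ideal.span {(C w : R[X])}).map (algebraMap R[X] B)
      = Ideal.span {algebraMap R[X] B (C w)} := by
    rw [Ideal.map_span, Set.image_singleton]
  rw [← hJ]
  -- instances on the special fibre
  haveI hJprime : ((Ideal.span {(C w : R[X])}).map (algebraMap R[X] B)).IsPrime := by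
    rw [hJ]; exact (Ideal.span_singleton_prime hdom.ne_zero).mpr hdom
  haveI := hΛ
  haveI : IsDomain (R[X] ⧸ Ideal.span {(C w : R[X])}) := by
    rw [Ideal.Quotient.isDomain_iff_prime]
    exact (Ideal.span_singleton_prime hCw.ne_zero).mpr hCw
  haveI tf := isTorsionFree_quotient (B := B) hA0 (C w : R[X]) hCw
  haveI : Module.Finite (R[X] ⧸ Ideal.span {(C w : R[X])})
      (B ⧸ (Ideal.span {(C w : R[X])}).map (algebraMap R[X] B)) :=
    Module.Finite.of_restrictScalars_finite R[X] _ _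
  haveI : Module.Free (R[X] ⧸ Ideal.span {(C w : R[X])})
      (B ⧸ (Ideal.span {(C w : R[X])}).map (algebraMap R[X] B)) :=
    Module.free_of_finite_type_torsion_free'
  let bb := Module.finBasis (R[X] ⧸ Ideal.span {(C w : R[X])})
      (B ⧸ (Ideal.span {(C w : R[X])}).map (algebraMap R[X] B))
  -- translate the hypotheses
  classical
  have hS1' : ∀ s ∈ S.image (fun c => (X - C c : R[X])), Prime s ∧ ¬ Associated s (C w) ∧
      (Ideal.span {(C w : R[X]), s}).IsMaximal ∧
      IsPrincipalIdealRing (R[X] ⧸ Ideal.span {s}) := by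
    intro s hs
    obtain ⟨c, -, rfl⟩ := Finset.mem_image.mp hs
    obtain ⟨h1, h2, h3, h4, -⟩ := hc c
    exact ⟨h1, h2, h3, h4⟩
  have hS2' : ∀ s ∈ S.image (fun c => (X - C c : R[X])),
      ∀ s' ∈ S.image (fun c => (X - C c : R[X])), s ≠ s' →
      s' ∉ Ideal.span {(C w : R[X]), s} := by
    intro s hs s' hs' hne hmem
    obtain ⟨c, hcS, rfl⟩ := Finset.mem_image.mp hs
    obtain ⟨c', hcS', rfl⟩ := Finset.mem_image.mp hs'
    have hcc : c ≠ c' := fun h => hne (by rw [h])
    exact (hc c).2.2.2.2 c' hmem (hS c hcS c' hcS' hcc)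
  have hNC' : ∀ π : R[X], Prime π → ¬ Associated π (C w) →
      (∀ s ∈ S.image (fun c => (X - C c : R[X])), ¬ Associated π s) →
      (Ideal.span {algebraMap R[X] B π}).IsRadical := by
    intro π hπ hπw hπS
    exact hNC π hπ hπw (fun c hcS => hπS _ (Finset.mem_image_of_mem _ hcS))
  have hcore' := hcore R[X] (C w) hCw hΛ hΛ₀ hℚ B hsep (S.image (fun c => (X - C c : R[X])))
    hS1' hS2' hNC'
  -- a prime of `Λ`
  obtain ⟨h01, h02, h03, -, -⟩ := hc 0
  have hw0 : ¬ (C w : R[X]) ∣ X - C 0 := by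
    intro hdvd
    obtain ⟨r, hr⟩ := hdvd
    rcases h01.irreducible.isUnit_or_isUnit hr with h | h
    · exact hCw.not_unit h
    · exact h02 ⟨h.unit⁻¹, by rw [hr, mul_assoc, IsUnit.mul_val_inv, mul_one]⟩
  have ht₀ := prime_mk_of_isMaximal (C w : R[X]) (X - C 0) hCw h03 hw0
  have hdisc := (hcore' _ ht₀ _ bb).1
  haveI : IsIntegrallyClosed (B ⧸ (Ideal.span {(C w : R[X])}).map (algebraMap R[X] B)) :=
    hA8 _ _ _ bb hdisc (fun t ht => (hcore' t ht _ bb).2)
  haveI : IsNoetherianRing B :=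
    isNoetherian_of_tower R[X] (isNoetherian_of_isNoetherianRing_of_finite R[X] B)
  haveI : Ring.DimensionLEOne (B ⧸ (Ideal.span {(C w : R[X])}).map (algebraMap R[X] B)) :=
    Ring.DimensionLEOne.of_isIntegral (R[X] ⧸ Ideal.span {(C w : R[X])}) _
  exact { }

end Fermat.Agent.S18.B12.H33

end
end
-- ===== PACK-END S18/B12/H33/Regular.lean

-- ===== PACK-BEGIN S18/B12/H444/GenericDiscr.lean
section




/-!
# S18 / b2.5 / A5 (helper444): the generic-fibre discriminant bound

Frozen statement: `GenericDiscrStatement` of `Fermat/Agent/S18/B12/Spec2.lean` (helper33);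
exact-shape theorem `genericDiscr : GenericDiscrStatement` in `GenericDiscrSpec.lean`.

Main theorem here (abstract over the localisations `Λ = P[1/w]`, `C₀ = B[1/w]`):

    theorem genericDiscr_abs  -- P int. closed noetherian domain, B normal finite torsion-free / P,
        (w : P) (hw0 : w ≠ 0) Λ C₀ [IsLocalization (powers w) Λ]
        [IsLocalization (algebraMapSubmonoid B (powers w)) C₀] [IsPrincipalIdealRing Λ] [Algebra ℚ Λ]
        (π : P) (hπ : Prime π) (hπw : ¬ π ∣ w) (n) (x : Fin n → B) (hli : LinearIndependent P x)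
        (g : P) (hgπ : ¬ π ∣ g) (hg : ∀ b, g • b ∈ span P (range x)) (r) (y : Fin r → B)
        (hy : ∀ a, ∑ i, a i • y i ∈ (span {algebraMap P B π}).radical → ∀ i, π ∣ a i) :
        ¬ π ^ (n - r + 1) ∣ (Matrix.of fun i j => Algebra.intTrace P B (x i * x j)).det

Proof: `C₀` is a Dedekind domain, free of rank `n` over the PID `Λ`; the integral trace localises
(`Algebra.intTrace_eq_of_isLocalization`); the base-change matrix `U` from a `Λ`-basis `β` of `C₀`
to `x` has `t ∤ det U` (`t` = image of `π`), so `t^k ∣ disc(x) = det U² · disc β` forces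
`t^k ∣ disc β`, contradicting helper274's tame bound `H274.tameDiscr`.  The independence of `y`
modulo `rad(t C₀)` descends from `B` by clearing denominators and the regular-sequence lemma
`dvd_of_mul_eq_mul` (A0-type, via helper203's `isIntegral_of_isIntegral_mul`).
-/

set_option autoImplicit false

noncomputable section

namespace Fermat.Agent.S18.B12.H444

open Polynomial Module Matrix

universe u v

section RegSeq

variable {P : Type u} [CommRing P] [IsDomain P] [IsIntegrallyClosed P]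
  {B : Type v} [CommRing B] [IsDomain B] [IsIntegrallyClosed B] [Algebra P B]
  [Algebra.IsIntegral P B] [Module.IsTorsionFree P B]

/-- Regular sequence (A0-type): `π` prime in `P`, `π ∤ u`, `u z ∈ π B` implies `z ∈ π B`. -/
theorem dvd_of_mul_eq_mul {π u : P} (hπ : Prime π) (hu : ¬ π ∣ u) {z b : B}
    (h : algebraMap P B u * z = algebraMap P B π * b) :
    ∃ b'' : B, z = algebraMap P B π * b'' := by
  let K := FractionRing P
  let F := FractionRing B
  letI : Algebra K F := FractionRing.liftAlgebra P F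
  haveI : IsScalarTower P K F := FractionRing.isScalarTower_liftAlgebra P F
  have hinjPB : Function.Injective (algebraMap P B) := FaithfulSMul.algebraMap_injective P B
  have hπB : algebraMap P B π ≠ 0 := (map_ne_zero_iff _ hinjPB).mpr hπ.ne_zero
  have hπF : algebraMap P F π ≠ 0 := by
    rw [IsScalarTower.algebraMap_apply P B F]
    exact (map_ne_zero_iff _ (IsFractionRing.injective B F)).mpr hπB
  set ζ : F := (algebraMap P F π)⁻¹ * algebraMap B F z with hζ
  have h1 : algebraMap P F π * ζ = algebraMap B F z := by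
    rw [hζ, mul_inv_cancel_left₀ hπF]
  have h2 : algebraMap P F u * ζ = algebraMap B F b := by
    have h' := congrArg (algebraMap B F) h
    rw [map_mul, map_mul, ← IsScalarTower.algebraMap_apply P B F,
      ← IsScalarTower.algebraMap_apply P B F] at h'
    rw [hζ, mul_left_comm, h', inv_mul_cancel_left₀ hπF]
  have hint : IsIntegral P ζ := by
    refine Fermat.Agent.S18.H203.isIntegral_of_isIntegral_mul K hπ hu ?_ ?_
    · rw [h1]
      exact (Algebra.IsIntegral.isIntegral (R := P) z).map (IsScalarTower.toAlgHom P B F)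
    · rw [h2]
      exact (Algebra.IsIntegral.isIntegral (R := P) b).map (IsScalarTower.toAlgHom P B F)
  have hintB : IsIntegral B ζ := hint.tower_top
  obtain ⟨b'', hb''⟩ := (IsIntegrallyClosed.isIntegral_iff (R := B) (K := F)).mp hintB
  refine ⟨b'', ?_⟩
  apply IsFractionRing.injective B F
  rw [map_mul, hb'', ← h1, IsScalarTower.algebraMap_apply P B F]

end RegSeq

section Loc

theorem powers_le_nonZeroDivisors' {P : Type u} [CommRing P] [IsDomain P] (w : P) (hw0 : w ≠ 0) :
    Submonoid.powers w ≤ nonZeroDivisors P := by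
  rintro a ⟨k, rfl⟩
  exact mem_nonZeroDivisors_of_ne_zero (pow_ne_zero k hw0)

theorem map_powers_le_nonZeroDivisors' {P : Type u} [CommRing P] [IsDomain P]
    (B : Type v) [CommRing B] [IsDomain B] [Algebra P B] [Module.IsTorsionFree P B]
    (w : P) (hw0 : w ≠ 0) :
    Algebra.algebraMapSubmonoid B (Submonoid.powers w) ≤ nonZeroDivisors B := by
  rintro a ⟨b, ⟨k, rfl⟩, rfl⟩
  refine mem_nonZeroDivisors_of_ne_zero ?_
  exact (map_ne_zero_iff _ (FaithfulSMul.algebraMap_injective P B)).mpr (pow_ne_zero k hw0)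

theorem isDomain_loc {P : Type u} [CommRing P] [IsDomain P]
    (B : Type v) [CommRing B] [IsDomain B] [Algebra P B] [Module.IsTorsionFree P B]
    (w : P) (C₀ : Type v) [CommRing C₀] [Algebra B C₀]
    [IsLocalization (Algebra.algebraMapSubmonoid B (Submonoid.powers w)) C₀]
    (hw0 : w ≠ 0) : IsDomain C₀ :=
  IsLocalization.isDomain_of_le_nonZeroDivisors _ (map_powers_le_nonZeroDivisors' B w hw0)

theorem injective_algebraMap_loc {P : Type u} [CommRing P] [IsDomain P]
    (B : Type v) [CommRing B] [IsDomain B] [Algebra P B] [Module.IsTorsionFree P B]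
    (w : P)
    (Λ : Type u) [CommRing Λ] [Algebra P Λ] [IsLocalization (Submonoid.powers w) Λ]
    (C₀ : Type v) [CommRing C₀] [Algebra B C₀] [Algebra Λ C₀] [Algebra P C₀]
    [IsScalarTower P Λ C₀] [IsScalarTower P B C₀]
    [IsLocalization (Algebra.algebraMapSubmonoid B (Submonoid.powers w)) C₀]
    (hw0 : w ≠ 0) : Function.Injective (algebraMap Λ C₀) := by
  have hBC : Function.Injective (algebraMap B C₀) :=
    IsLocalization.injective C₀ (map_powers_le_nonZeroDivisors' B w hw0)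
  have hPB : Function.Injective (algebraMap P B) := FaithfulSMul.algebraMap_injective P B
  rw [injective_iff_map_eq_zero]
  intro a ha
  obtain ⟨⟨p, s⟩, hps⟩ := IsLocalization.surj (Submonoid.powers w) a
  simp only at hps
  have h1 : algebraMap Λ C₀ (algebraMap P Λ p) = 0 := by
    rw [← hps, map_mul, ha, zero_mul]
  rw [← IsScalarTower.algebraMap_apply, IsScalarTower.algebraMap_apply P B C₀] at h1
  have h2 : p = 0 := by
    have := (map_eq_zero_iff _ hBC).mp h1
    exact (map_eq_zero_iff _ hPB).mp this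
  rw [h2, map_zero] at hps
  have hu : IsUnit (algebraMap P Λ s) := IsLocalization.map_units Λ s
  exact (hu.mul_left_eq_zero).mp hps

theorem isDedekindDomain_loc {P : Type u} [CommRing P] [IsDomain P] [IsNoetherianRing P]
    (B : Type v) [CommRing B] [IsDomain B] [IsIntegrallyClosed B] [Algebra P B]
    [Module.Finite P B] [Module.IsTorsionFree P B]
    (w : P)
    (Λ : Type u) [CommRing Λ] [Algebra P Λ] [IsLocalization (Submonoid.powers w) Λ]
    (C₀ : Type v) [CommRing C₀] [Algebra B C₀] [Algebra Λ C₀] [Algebra P C₀]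
    [IsScalarTower P Λ C₀] [IsScalarTower P B C₀]
    [IsLocalization (Algebra.algebraMapSubmonoid B (Submonoid.powers w)) C₀]
    [IsDomain Λ] [IsPrincipalIdealRing Λ] (hw0 : w ≠ 0) :
    IsDedekindDomain C₀ := by
  have : IsDomain C₀ := isDomain_loc B w C₀ hw0
  have : IsNoetherianRing B := IsNoetherianRing.of_finite P B
  have : IsNoetherianRing C₀ :=
    IsLocalization.isNoetherianRing (Algebra.algebraMapSubmonoid B (Submonoid.powers w)) C₀
      inferInstance
  have : IsIntegrallyClosed C₀ :=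
    isIntegrallyClosed_of_isLocalization C₀ _ (map_powers_le_nonZeroDivisors' B w hw0)
  have : Module.Finite Λ C₀ := Module.Finite.of_isLocalization P B (Submonoid.powers w)
  have : Algebra.IsIntegral Λ C₀ := Algebra.IsIntegral.of_finite Λ C₀
  have : Ring.DimensionLEOne C₀ := Ring.DimensionLEOne.of_isIntegral Λ C₀
  exact { }

end Loc

section Abstract

variable {P : Type u} [CommRing P] [IsDomain P]
  (w : P)
  (Λ : Type u) [CommRing Λ] [Algebra P Λ] [IsLocalization (Submonoid.powers w) Λ]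

include w in
omit [IsDomain P] in
theorem not_dvd_pow_of_not_dvd {π : P} (hπ : Prime π) (hπw : ¬ π ∣ w) (k : ℕ) : ¬ π ∣ w ^ k :=
  fun h => hπw (hπ.dvd_of_dvd_pow h)

omit [IsDomain P] in
theorem disjoint_powers {π : P} (hπ : Prime π) (hπw : ¬ π ∣ w) :
    Disjoint (Submonoid.powers w : Set P) (Ideal.span {π} : Ideal P) := by
  rw [Set.disjoint_left]
  rintro a ⟨k, rfl⟩ ha
  exact not_dvd_pow_of_not_dvd w hπ hπw k (Ideal.mem_span_singleton.mp ha)

theorem prime_map {π : P} (hπ : Prime π) (hπw : ¬ π ∣ w) (hw0 : w ≠ 0) :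
    Prime (algebraMap P Λ π) := by
  have hinj : Function.Injective (algebraMap P Λ) :=
    IsLocalization.injective Λ (powers_le_nonZeroDivisors' w hw0)
  have h0 : algebraMap P Λ π ≠ 0 := (map_ne_zero_iff _ hinj).mpr hπ.ne_zero
  rw [← Ideal.span_singleton_prime h0]
  have := IsLocalization.isPrime_of_isPrime_disjoint (Submonoid.powers w) Λ (Ideal.span {π})
    ((Ideal.span_singleton_prime hπ.ne_zero).mpr hπ) (disjoint_powers w hπ hπw)
  rwa [Ideal.map_span, Set.image_singleton] at this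

omit [IsDomain P] in
theorem dvd_of_map_dvd {π : P} (hπ : Prime π) (hπw : ¬ π ∣ w) {a : P}
    (h : algebraMap P Λ π ∣ algebraMap P Λ a) : π ∣ a := by
  have h1 := IsLocalization.under_map_of_isPrime_disjoint (Submonoid.powers w) Λ
    ((Ideal.span_singleton_prime hπ.ne_zero).mpr hπ) (disjoint_powers w hπ hπw)
  have h2 : a ∈ (Ideal.map (algebraMap P Λ) (Ideal.span {π})).under P := by
    rw [Ideal.under_def, Ideal.mem_comap, Ideal.map_span, Set.image_singleton]
    exact Ideal.mem_span_singleton.mpr h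
  rw [h1] at h2
  exact Ideal.mem_span_singleton.mp h2

end Abstract
section Loc2

/-- The trace of `B[1/w]` over `P[1/w]` restricts to the integral trace of `B` over `P`. -/
theorem map_intTrace_eq_trace {P : Type u} [CommRing P] [IsDomain P] [IsIntegrallyClosed P]
    (B : Type v) [CommRing B] [IsDomain B] [IsIntegrallyClosed B] [Algebra P B]
    [Module.Finite P B] [Module.IsTorsionFree P B]
    (w : P)
    (Λ : Type u) [CommRing Λ] [Algebra P Λ] [IsLocalization (Submonoid.powers w) Λ]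
    (C₀ : Type v) [CommRing C₀] [Algebra B C₀] [Algebra Λ C₀] [Algebra P C₀]
    [IsScalarTower P Λ C₀] [IsScalarTower P B C₀]
    [IsLocalization (Algebra.algebraMapSubmonoid B (Submonoid.powers w)) C₀]
    [IsDomain Λ] [IsPrincipalIdealRing Λ] (hw0 : w ≠ 0) (b : B) :
    algebraMap P Λ (Algebra.intTrace P B b) = Algebra.trace Λ C₀ (algebraMap B C₀ b) := by
  have : IsDomain C₀ := isDomain_loc B w C₀ hw0
  have : IsIntegrallyClosed C₀ :=
    isIntegrallyClosed_of_isLocalization C₀ _ (map_powers_le_nonZeroDivisors' B w hw0)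
  have : Module.Finite Λ C₀ := Module.Finite.of_isLocalization P B (Submonoid.powers w)
  have : Module.IsTorsionFree Λ C₀ :=
    isTorsionFree_iff_algebraMap_injective.mpr (injective_algebraMap_loc B w Λ C₀ hw0)
  have : Module.Free Λ C₀ := Module.free_of_finite_type_torsion_free'
  rw [Algebra.intTrace_eq_of_isLocalization P B (Submonoid.powers w) (Aₘ := Λ) (Bₘ := C₀) b,
    Algebra.intTrace_eq_trace]

/-- Radical membership descends from `B[1/w]` to `B` (regular sequence `π, w`). -/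
theorem mem_radical_of_map_mem_radical {P : Type u} [CommRing P] [IsDomain P]
    [IsIntegrallyClosed P]
    (B : Type v) [CommRing B] [IsDomain B] [IsIntegrallyClosed B] [Algebra P B]
    [Module.Finite P B] [Module.IsTorsionFree P B]
    (w : P)
    (Λ : Type u) [CommRing Λ] [Algebra P Λ]
    (C₀ : Type v) [CommRing C₀] [Algebra B C₀] [Algebra Λ C₀] [Algebra P C₀]
    [IsScalarTower P Λ C₀] [IsScalarTower P B C₀]
    [IsLocalization (Algebra.algebraMapSubmonoid B (Submonoid.powers w)) C₀]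
    (hw0 : w ≠ 0) {π : P} (hπ : Prime π) (hπw : ¬ π ∣ w) {z : B}
    (h : algebraMap B C₀ z ∈ (Ideal.span {algebraMap Λ C₀ (algebraMap P Λ π)}).radical) :
    z ∈ (Ideal.span {algebraMap P B π}).radical := by
  have hBC : Function.Injective (algebraMap B C₀) :=
    IsLocalization.injective C₀ (map_powers_le_nonZeroDivisors' B w hw0)
  obtain ⟨N, hN⟩ := h
  obtain ⟨c, hc⟩ := Ideal.mem_span_singleton'.mp hN
  obtain ⟨⟨b, s⟩, hbs⟩ :=
    IsLocalization.surj (Algebra.algebraMapSubmonoid B (Submonoid.powers w)) c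
  simp only at hbs
  obtain ⟨s', ⟨k, rfl⟩, hs'⟩ := s.2
  have hs'' : (s : B) = algebraMap P B (w ^ k) := hs'.symm
  have e1 : algebraMap Λ C₀ (algebraMap P Λ π) = algebraMap B C₀ (algebraMap P B π) := by
    rw [← IsScalarTower.algebraMap_apply, ← IsScalarTower.algebraMap_apply]
  have key : algebraMap P B (w ^ k) * z ^ N = algebraMap P B π * b := by
    apply hBC
    rw [map_mul, map_mul, map_pow (algebraMap B C₀) z N, ← hc, e1, ← hbs, hs'']
    ring
  have hnd : ¬ π ∣ w ^ k := fun h => hπw (hπ.dvd_of_dvd_pow h)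
  obtain ⟨b'', hb''⟩ := dvd_of_mul_eq_mul hπ hnd key
  refine ⟨N, Ideal.mem_span_singleton'.mpr ⟨b'', ?_⟩⟩
  rw [hb'', mul_comm]

/-- A local spanning family stays spanning (up to `g`) after inverting `w`. -/
theorem smul_mem_span_loc {P : Type u} [CommRing P]
    (B : Type v) [CommRing B] [Algebra P B]
    (w : P)
    (Λ : Type u) [CommRing Λ] [Algebra P Λ] [IsLocalization (Submonoid.powers w) Λ]
    (C₀ : Type v) [CommRing C₀] [Algebra B C₀] [Algebra Λ C₀] [Algebra P C₀]
    [IsScalarTower P Λ C₀] [IsScalarTower P B C₀]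
    [IsLocalization (Algebra.algebraMapSubmonoid B (Submonoid.powers w)) C₀]
    {n : ℕ} (x : Fin n → B) (g : P)
    (hg : ∀ b : B, g • b ∈ Submodule.span P (Set.range x)) (c : C₀) :
    algebraMap P Λ g • c ∈ Submodule.span Λ (Set.range (algebraMap B C₀ ∘ x)) := by
  obtain ⟨⟨b, s⟩, hbs⟩ :=
    IsLocalization.surj (Algebra.algebraMapSubmonoid B (Submonoid.powers w)) c
  simp only at hbs
  obtain ⟨s', ⟨k, rfl⟩, hs'⟩ := s.2
  have hs'' : (s : B) = algebraMap P B (w ^ k) := hs'.symm
  have hu : IsUnit (algebraMap P Λ (w ^ k)) :=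
    IsLocalization.map_units Λ (⟨w ^ k, k, rfl⟩ : Submonoid.powers w)
  obtain ⟨v, hv⟩ := hu.exists_left_inv
  -- `c = v • ι b`
  have hc : c = v • algebraMap B C₀ b := by
    rw [← hbs, hs'', ← IsScalarTower.algebraMap_apply P B C₀,
      IsScalarTower.algebraMap_apply P Λ C₀, Algebra.smul_def, ← mul_assoc, mul_comm _ c,
      mul_assoc, ← map_mul, hv, map_one, mul_one]
  -- `ι (g • b)` lies in the span
  have h1 : algebraMap B C₀ (g • b) ∈ Submodule.span Λ (Set.range (algebraMap B C₀ ∘ x)) := by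
    have h2 := hg b
    have h3 : (IsScalarTower.toAlgHom P B C₀).toLinearMap (g • b) ∈
        Submodule.map (IsScalarTower.toAlgHom P B C₀).toLinearMap
          (Submodule.span P (Set.range x)) := Submodule.mem_map_of_mem h2
    rw [Submodule.map_span, ← Set.range_comp] at h3
    have h4 : Submodule.span P (Set.range ((IsScalarTower.toAlgHom P B C₀).toLinearMap ∘ x)) ≤
        (Submodule.span Λ (Set.range (algebraMap B C₀ ∘ x))).restrictScalars P :=
      Submodule.span_le_restrictScalars P Λ _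
    exact h4 h3
  have h5 : algebraMap P Λ g • c = v • algebraMap B C₀ (g • b) := by
    rw [hc, Algebra.smul_def g b, map_mul, ← IsScalarTower.algebraMap_apply P B C₀,
      IsScalarTower.algebraMap_apply P Λ C₀, ← Algebra.smul_def, smul_comm]
  rw [h5]
  exact Submodule.smul_mem _ _ h1

end Loc2

section Main

/-- **A5, abstract form.**  `Λ = P[1/w]` a PID containing `ℚ`, `C₀ = B[1/w]`. -/
theorem genericDiscr_abs {P : Type u} [CommRing P] [IsDomain P] [IsIntegrallyClosed P]
    [IsNoetherianRing P]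
    (B : Type v) [CommRing B] [IsDomain B] [IsIntegrallyClosed B] [Algebra P B]
    [Module.Finite P B] [Module.IsTorsionFree P B]
    (w : P) (hw0 : w ≠ 0)
    (Λ : Type u) [CommRing Λ] [Algebra P Λ] [IsLocalization (Submonoid.powers w) Λ]
    (C₀ : Type v) [CommRing C₀] [Algebra B C₀] [Algebra Λ C₀] [Algebra P C₀]
    [IsScalarTower P Λ C₀] [IsScalarTower P B C₀]
    [IsLocalization (Algebra.algebraMapSubmonoid B (Submonoid.powers w)) C₀]
    [IsDomain Λ] [IsPrincipalIdealRing Λ] [Algebra ℚ Λ]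
    (π : P) (hπ : Prime π) (hπw : ¬ π ∣ w)
    (n : ℕ) (x : Fin n → B) (hli : LinearIndependent P x)
    (g : P) (hgπ : ¬ π ∣ g) (hg : ∀ b : B, g • b ∈ Submodule.span P (Set.range x))
    (r : ℕ) (y : Fin r → B)
    (hy : ∀ a : Fin r → P,
      (∑ i, a i • y i) ∈ (Ideal.span {algebraMap P B π}).radical → ∀ i, π ∣ a i) :
    ¬ π ^ (n - r + 1) ∣ (Matrix.of fun i j => Algebra.intTrace P B (x i * x j)).det := by
  classical
  have hD : IsDedekindDomain C₀ := isDedekindDomain_loc B w Λ C₀ hw0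
  have : Module.Finite Λ C₀ := Module.Finite.of_isLocalization P B (Submonoid.powers w)
  have hinjΛ := injective_algebraMap_loc B w Λ C₀ hw0
  have : Module.IsTorsionFree Λ C₀ := isTorsionFree_iff_algebraMap_injective.mpr hinjΛ
  have : Module.Free Λ C₀ := Module.free_of_finite_type_torsion_free'
  have hinjP : Function.Injective (algebraMap P Λ) :=
    IsLocalization.injective Λ (powers_le_nonZeroDivisors' w hw0)
  set t := algebraMap P Λ π with ht_def
  have ht : Prime t := prime_map w Λ hπ hπw hw0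
  set x' : Fin n → C₀ := algebraMap B C₀ ∘ x with hx'
  have hli' : LinearIndependent Λ x' :=
    hli.localization_localization (Rₛ := Λ) (Submonoid.powers w) C₀
  have hg0 : algebraMap P Λ g ≠ 0 := by
    intro h
    apply hgπ
    have : g = 0 := hinjP (by rw [h, map_zero])
    rw [this]
    exact dvd_zero π
  have hspan : ∀ c : C₀, algebraMap P Λ g • c ∈ Submodule.span Λ (Set.range x') :=
    fun c => smul_mem_span_loc B w Λ C₀ x g hg c
  -- rank
  have hn : Module.finrank Λ C₀ = n := by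
    apply le_antisymm
    · let φ : C₀ →ₗ[Λ] Submodule.span Λ (Set.range x') :=
        LinearMap.codRestrict _ (algebraMap P Λ g • LinearMap.id) hspan
      have hφ : Function.Injective φ := by
        intro c c' hcc
        have h1 : algebraMap P Λ g • c = algebraMap P Λ g • c' := congrArg Subtype.val hcc
        exact smul_right_injective C₀ hg0 h1
      calc Module.finrank Λ C₀
          ≤ Module.finrank Λ (Submodule.span Λ (Set.range x')) :=
            LinearMap.finrank_le_finrank_of_injective hφ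
        _ ≤ Fintype.card (Fin n) := finrank_range_le_card x'
        _ = n := Fintype.card_fin n
    · have := hli'.fintype_card_le_finrank
      simpa using this
  let β : Module.Basis (Fin n) Λ C₀ := Module.finBasisOfFinrankEq Λ C₀ hn
  let U : Matrix (Fin n) (Fin n) Λ := fun i j => β.repr (x' i) j
  have hU : x' = (U.map (algebraMap Λ C₀)) *ᵥ β := by
    ext i
    simp only [Matrix.mulVec, dotProduct]
    calc x' i = ∑ j, β.repr (x' i) j • β j := (β.sum_repr (x' i)).symm
      _ = _ := Finset.sum_congr rfl (fun j _ => by rw [Matrix.map_apply, Algebra.smul_def])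
  have hV : ∀ j, ∃ c : Fin n → Λ, ∑ i, c i • x' i = algebraMap P Λ g • β j := fun j =>
    (Submodule.mem_span_range_iff_exists_fun Λ).mp (hspan (β j))
  choose V hVeq using hV
  have hVU : (Matrix.of V) * U = algebraMap P Λ g • (1 : Matrix (Fin n) (Fin n) Λ) := by
    ext j l
    have h1 := congrArg (fun z => β.repr z l) (hVeq j)
    simp only [map_sum, map_smul, Finsupp.coe_finsetSum, Finsupp.coe_smul, Finset.sum_apply,
      Pi.smul_apply, smul_eq_mul, Module.Basis.repr_self] at h1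
    rw [Matrix.mul_apply, Matrix.smul_apply, Matrix.one_apply, smul_eq_mul]
    simp only [Matrix.of_apply, U]
    rw [h1, Finsupp.single_apply]
  have hdetU : ¬ t ∣ U.det := by
    intro hdvd
    have h1 : (Matrix.of V).det * U.det = (algebraMap P Λ g) ^ n := by
      rw [← Matrix.det_mul, hVU, Matrix.det_smul, Matrix.det_one, mul_one, Fintype.card_fin]
    have h2 : t ∣ algebraMap P Λ g ^ n := h1 ▸ Dvd.dvd.mul_left hdvd _
    have h3 : t ∣ algebraMap P Λ g := ht.dvd_of_dvd_pow h2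
    exact hgπ (dvd_of_map_dvd w Λ hπ hπw h3)
  have hdisc : algebraMap P Λ ((Matrix.of fun i j => Algebra.intTrace P B (x i * x j)).det)
      = U.det ^ 2 * Algebra.discr Λ β := by
    rw [← Algebra.discr_of_matrix_mulVec, ← hU, Algebra.discr_def, RingHom.map_det]
    congr 1
    ext i j
    simp only [RingHom.mapMatrix_apply, Matrix.map_apply, Matrix.of_apply,
      Algebra.traceMatrix_apply, Algebra.traceForm_apply, hx', Function.comp_apply]
    rw [map_intTrace_eq_trace B w Λ C₀ hw0, map_mul]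
  have hy' : ∀ a : Fin r → Λ,
      (∑ i, a i • (algebraMap B C₀ ∘ y) i) ∈ (Ideal.span {algebraMap Λ C₀ t}).radical →
        ∀ i, t ∣ a i := by
    intro a ha i
    obtain ⟨s, hs⟩ := IsLocalization.exist_integer_multiples_of_finite (Submonoid.powers w) a
    choose a' ha' using hs
    have hz : algebraMap B C₀ (∑ i, a' i • y i) =
        algebraMap Λ C₀ (algebraMap P Λ (s : P)) * ∑ i, a i • (algebraMap B C₀ ∘ y) i := by
      rw [map_sum, Finset.mul_sum]
      refine Finset.sum_congr rfl fun i _ => ?_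
      rw [Algebra.smul_def (a' i) (y i), map_mul, ← IsScalarTower.algebraMap_apply P B C₀,
        IsScalarTower.algebraMap_apply P Λ C₀, ha' i, Algebra.smul_def, map_mul,
        Algebra.smul_def, Function.comp_apply]
      ring
    have hmem : algebraMap B C₀ (∑ i, a' i • y i) ∈
        (Ideal.span {algebraMap Λ C₀ (algebraMap P Λ π)}).radical := by
      rw [hz]
      exact Ideal.mul_mem_left _ _ ha
    have h1 : π ∣ a' i :=
      hy a' (mem_radical_of_map_mem_radical B w Λ C₀ hw0 hπ hπw hmem) i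
    have h2 : t ∣ algebraMap P Λ (a' i) := map_dvd (algebraMap P Λ) h1
    rw [ha' i, Algebra.smul_def] at h2
    exact ((IsLocalization.map_units Λ s).dvd_mul_left).mp h2
  have htame := Fermat.Agent.S18.H274.tameDiscr Λ t ht C₀ n β r (algebraMap B C₀ ∘ y) hy'
  intro hdvd
  apply htame
  have h4 : t ^ (n - r + 1) ∣ U.det ^ 2 * Algebra.discr Λ β := by
    rw [← hdisc, ht_def, ← map_pow]
    exact map_dvd (algebraMap P Λ) hdvd
  exact ht.pow_dvd_of_dvd_mul_left _ (fun h => hdetU (ht.dvd_of_dvd_pow h)) h4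

end Main

end Fermat.Agent.S18.B12.H444

end
end
-- ===== PACK-END S18/B12/H444/GenericDiscr.lean

-- ===== PACK-BEGIN S18/B12/H444/GenericDiscrSpec.lean
section




/-!
# S18 / b2.5 / A5 (helper444): `GenericDiscrStatement` in the exact frozen shape

`theorem genericDiscr : GenericDiscrStatement` (frozen in `B12/Spec2.lean`, squad-lead helper33),
from `genericDiscr_abs` (`GenericDiscr.lean`) with `Λ := Localization.Away w`,
`C₀ := Localization (algebraMapSubmonoid B (powers w))` and helper274's tame discriminant bound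
(`H274.tameDiscr`, on main).
-/

set_option autoImplicit false

noncomputable section

namespace Fermat.Agent.S18.B12.H444

open Polynomial Module

universe u v

/-- A commutative ring in which all positive integers are units is a `ℚ`-algebra. -/
def ratAlgebraOfUnits (Λ : Type u) [CommRing Λ] (h : ∀ m : ℕ, m ≠ 0 → IsUnit ((m : ℕ) : Λ)) :
    Algebra ℚ Λ :=
  RingHom.toAlgebra
    (IsLocalization.lift (M := nonZeroDivisors ℤ) (S := ℚ) (g := Int.castRingHom Λ)
      (fun y => by
        have hy : (y : ℤ) ≠ 0 := nonZeroDivisors.coe_ne_zero y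
        have hn : (y : ℤ).natAbs ≠ 0 := Int.natAbs_ne_zero.mpr hy
        have hu := h _ hn
        rcases Int.natAbs_eq (y : ℤ) with h1 | h1
        · have : Int.castRingHom Λ (y : ℤ) = (((y : ℤ).natAbs : ℕ) : Λ) := by
            conv_lhs => rw [h1]
            simp
          rw [this]; exact hu
        · have : Int.castRingHom Λ (y : ℤ) = -(((y : ℤ).natAbs : ℕ) : Λ) := by
            conv_lhs => rw [h1]
            simp
          rw [this]; exact hu.neg))

theorem not_dvd_of_not_associated {P : Type u} [CommRing P] [IsDomain P] {π w : P}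
    (hπ : Prime π) (hw : Prime w) (h : ¬ Associated π w) : ¬ π ∣ w := by
  rintro ⟨c, hc⟩
  rcases hw.irreducible.isUnit_or_isUnit hc with h1 | h1
  · exact hπ.not_isUnit h1
  · exact h ⟨h1.unit, by simp [hc]⟩

/-- **A5** in the exact frozen shape of `B12/Spec2.lean`. -/
theorem genericDiscr : GenericDiscrStatement.{u, v} := by
  intro P _ _ _ _ w hw hPID hunits B _ _ _ _ _ _ π hπ hπw n x hx r y hy
  obtain ⟨hli, g, hgπ, hg⟩ := hx
  have hw0 : w ≠ 0 := hw.ne_zero
  let Λ := Localization.Away w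
  let C₀ := Localization (Algebra.algebraMapSubmonoid B (Submonoid.powers w))
  letI : Algebra Λ C₀ := localizationAlgebra (Submonoid.powers w) B
  haveI : IsScalarTower P Λ C₀ := IsScalarTower.of_algebraMap_eq'
    (by rw [RingHom.algebraMap_toAlgebra, IsLocalization.map_comp, ← IsScalarTower.algebraMap_eq])
  haveI : IsDomain Λ := IsLocalization.isDomain_localization (powers_le_nonZeroDivisors' w hw0)
  haveI : IsPrincipalIdealRing Λ := hPID
  letI : Algebra ℚ Λ := ratAlgebraOfUnits Λ (fun m hm => by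
    have := hunits m hm
    rwa [map_natCast] at this)
  unfold intDiscr
  exact genericDiscr_abs B w hw0 Λ C₀ π hπ (not_dvd_of_not_associated hπ hw hπw) n x hli g
    (fun h => hgπ (Ideal.mem_span_singleton.mpr h)) hg r y hy

end Fermat.Agent.S18.B12.H444

end
end
-- ===== PACK-END S18/B12/H444/GenericDiscrSpec.lean

-- ===== PACK-BEGIN S18/H754/HncTyped.lean
section


/-!
# S18 / ALG-FRONT / hNC adapter, typed form

The hypothesis `hNC` of `B12.B2RegularStatement`, from the `unramified` field of `Alg.GoodModel`: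

    hNC_typed : ∀ π : R[X], Prime π → ¬ Associated π (C w) → (∀ c ∈ S, ¬ Associated π (X - C c)) →
        (Ideal.span {algebraMap R[X] B π}).IsRadical

for `R` a DVR of characteristic `0`, `B` a finite torsion-free integrally closed `R[X]`-algebra,
domain, with `C w` prime in `B`, embedded in a field `Ω` with an algebraically closed subfield of
constants `Lc ⊇ R`, algebraic over `R`.
-/

set_option autoImplicit false

noncomputable section

namespace Fermat.Agent.S18.H754

open Polynomial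

section Dvd

variable {A B : Type*} [CommRing A] [IsDomain A] [IsIntegrallyClosed A]
  [CommRing B] [IsDomain B] [Algebra A B] [Module.IsTorsionFree A B] [Algebra.IsIntegral A B]

/-- Divisibility in an integral torsion-free extension domain of an integrally closed domain
descends. -/
theorem dvd_of_algebraMap_dvd {a q : A} (ha : a ≠ 0)
    (h : algebraMap A B a ∣ algebraMap A B q) : a ∣ q := by
  have hinj : Function.Injective (algebraMap A B) := FaithfulSMul.algebraMap_injective A B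
  obtain ⟨b, hb⟩ := h
  have hbint : IsIntegral A b := Algebra.IsIntegral.isIntegral b
  set p : A[X] := C a * X - C q with hp
  have hpb : aeval b p = 0 := by
    rw [hp, map_sub, map_mul, aeval_C, aeval_C, aeval_X, hb, sub_self]
  have hdvd : minpoly A b ∣ p := minpoly.isIntegrallyClosed_dvd hbint hpb
  have hp1 : p.coeff 1 = a := by
    rw [hp]
    simp
  have hp0 : p ≠ 0 := by
    intro h0
    rw [h0, coeff_zero] at hp1
    exact ha hp1.symm
  have hpdeg : p.natDegree ≤ 1 := by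
    rw [hp]
    refine (natDegree_sub_le _ _).trans (max_le ?_ ?_)
    · exact (natDegree_C_mul_X a ha).le
    · rw [natDegree_C]; exact Nat.zero_le _
  have hmdeg : (minpoly A b).natDegree ≤ 1 := (natDegree_le_of_dvd hdvd hp0).trans hpdeg
  have hmpos : 0 < (minpoly A b).natDegree := minpoly.natDegree_pos hbint
  have hm1 : (minpoly A b).natDegree = 1 := le_antisymm hmdeg hmpos
  have hmonic : (minpoly A b).Monic := minpoly.monic hbint
  have hmeq := eq_X_add_C_of_natDegree_le_one hmdeg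
  have hlead : (minpoly A b).coeff 1 = 1 := by
    have := hmonic.coeff_natDegree
    rwa [hm1] at this
  rw [hlead, C_1, one_mul] at hmeq
  have hmb : aeval b (minpoly A b) = 0 := minpoly.aeval A b
  rw [hmeq, map_add, aeval_X, aeval_C] at hmb
  have hb' : b = algebraMap A B (-(minpoly A b).coeff 0) := by
    rw [map_neg]
    exact eq_neg_of_add_eq_zero_left hmb
  refine ⟨-(minpoly A b).coeff 0, ?_⟩
  apply hinj
  rw [map_mul, ← hb', hb]

end Dvd

section Constants

variable {R : Type*} [CommRing R] [IsDomain R] [IsDiscreteValuationRing R]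
  {Ω : Type*} [Field Ω]

/-- An element algebraic over a DVR `R` becomes integral after multiplication by a power of the
uniformiser. -/
theorem exists_pow_mul_isIntegralElem (ι : R →+* Ω) (w : R) (hw : Irreducible w)
    (a : Ω) (ha : ∃ p : R[X], p ≠ 0 ∧ eval₂ ι a p = 0) :
    ∃ n : ℕ, ι.IsIntegralElem (ι w ^ n * a) := by
  letI : Algebra R Ω := ι.toAlgebra
  have halg : IsAlgebraic R a := by
    obtain ⟨p, hp0, hp⟩ := ha
    exact ⟨p, hp0, by rw [aeval_def]; exact hp⟩
  obtain ⟨y, hy0, hy⟩ := halg.exists_integral_multiple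
  obtain ⟨n, u, rfl⟩ := IsDiscreteValuationRing.eq_unit_mul_pow_irreducible hy0 hw
  refine ⟨n, ?_⟩
  have h1 : IsIntegral R ((((u⁻¹ : Rˣ) : R)) • ((u : R) * w ^ n) • a) :=
    IsIntegral.smul _ hy
  have h2 : (((u⁻¹ : Rˣ) : R)) • ((u : R) * w ^ n) • a = ι w ^ n * a := by
    rw [smul_smul, ← mul_assoc, Units.inv_mul, one_mul, Algebra.smul_def, map_pow]
    rfl
  rw [h2] at h1
  exact h1

variable [CharZero R]

/-- Factorisation over the constants of a nonconstant irreducible polynomial over `R`: pairwise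
distinct roots. -/
theorem exists_factorization_of_irreducible (ι : R →+* Ω) (hι : Function.Injective ι)
    (Lc : Subfield Ω) (hLcl : IsAlgClosed Lc) (hRL : ∀ r, ι r ∈ Lc)
    (π : R[X]) (hπ : Irreducible π) (hdeg : π.natDegree ≠ 0) :
    ∃ (roots : Finset Ω) (lc : Ω), lc ∈ Lc ∧ lc ≠ 0 ∧
      (∀ c ∈ roots, c ∈ Lc ∧ eval₂ ι c π = 0) ∧
      ∀ x : Ω, eval₂ ι x π = lc * ∏ c ∈ roots, (x - c) := by
  classical
  haveI := hLcl
  let K := FractionRing R
  have hprim : π.IsPrimitive := hπ.isPrimitive hdeg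
  have hK : Irreducible (π.map (algebraMap R K)) :=
    (hprim.irreducible_iff_irreducible_map_fraction_map).1 hπ
  haveI : CharZero K := charZero_of_injective_algebraMap (IsFractionRing.injective R K)
  have hsepK : (π.map (algebraMap R K)).Separable := hK.separable
  let ιL : R →+* Lc := ι.codRestrict Lc hRL
  have hιL : Function.Injective ιL := by
    intro a b hab
    apply hι
    exact congrArg Subtype.val hab
  let φ : K →+* Lc := IsFractionRing.lift hιL
  have hφ : φ.comp (algebraMap R K) = ιL := by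
    ext r
    exact congrArg Subtype.val (IsFractionRing.lift_algebraMap hιL r)
  set Q : Lc[X] := π.map ιL with hQ
  have hQ' : Q = (π.map (algebraMap R K)).map φ := by
    rw [Polynomial.map_map, hφ]
  have hsepQ : Q.Separable := by
    rw [hQ']
    exact hsepK.map
  have hsplit : Q.Splits := IsAlgClosed.splits Q
  have hQfac := hsplit.eq_prod_roots
  have hnodup : Q.roots.Nodup := nodup_roots hsepQ
  have hQ0 : Q ≠ 0 := by
    rw [hQ]
    exact (Polynomial.map_ne_zero_iff hιL).2 hπ.ne_zero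
  have hsub : (Lc.subtype).comp ιL = ι := by
    ext r
    rfl
  have heval : ∀ x : Ω, eval₂ ι x π = eval₂ Lc.subtype x Q := by
    intro x
    rw [hQ, eval₂_map, hsub]
  refine ⟨Q.roots.toFinset.map ⟨Subtype.val, Subtype.val_injective⟩, (Q.leadingCoeff : Ω),
    Q.leadingCoeff.2, ?_, ?_, ?_⟩
  · intro h0
    have : Q.leadingCoeff = 0 := Subtype.ext h0
    exact hQ0 (leadingCoeff_eq_zero.1 this)
  · intro c hc
    rw [Finset.mem_map] at hc
    obtain ⟨a, ha, rfl⟩ := hc
    rw [Multiset.mem_toFinset] at ha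
    refine ⟨a.2, ?_⟩
    have hroot : Q.eval a = 0 := (mem_roots hQ0).1 ha
    rw [heval]
    change eval₂ Lc.subtype (Lc.subtype a) Q = 0
    rw [eval₂_at_apply, hroot, map_zero]
  · intro x
    rw [heval]
    conv_lhs => rw [hQfac]
    rw [eval₂_mul, eval₂_C, eval₂_multiset_prod, Multiset.map_map, Finset.prod_map,
      Finset.prod_eq_multiset_prod, Multiset.toFinset_val, Multiset.dedup_eq_self.2 hnodup]
    congr 2
    refine Multiset.map_congr rfl fun a _ => ?_
    simp [eval₂_sub, eval₂_X, eval₂_C]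

end Constants

section Typed

variable (R : Type*) [CommRing R] [IsDomain R] [IsDiscreteValuationRing R] [CharZero R]
  (B : Type*) [CommRing B] [IsDomain B] [IsIntegrallyClosed B] [Algebra R[X] B]
  [Module.Finite R[X] B] [Module.IsTorsionFree R[X] B]
  {Ω : Type*} [Field Ω] [Algebra B Ω] [FaithfulSMul B Ω]

/-- **hNC, typed form** = the hypothesis `hNC` of `B12.B2RegularStatement`, from the `unramified`
field of `Alg.GoodModel` (with `x = algebraMap B Ω (algebraMap R[X] B X)`). -/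
theorem hNC_typed (w : R) (hw : Irreducible w)
    (hwB : Prime (algebraMap R[X] B (C w)))
    (Lc : Subfield Ω) (hLcl : IsAlgClosed Lc)
    (hRL : ∀ r : R, algebraMap B Ω (algebraMap R[X] B (C r)) ∈ Lc)
    (hLalg : ∀ a ∈ Lc, ∃ p : R[X], p ≠ 0 ∧
      eval₂ ((algebraMap B Ω).comp ((algebraMap R[X] B).comp C)) a p = 0)
    (S : Finset R) (SΩ : Finset Ω)
    (hS : ∀ c ∈ SΩ, ∃ s ∈ S, algebraMap B Ω (algebraMap R[X] B (C s)) = c)
    (hunr : ∀ O : ValuationSubring Ω, (∀ a ∈ Lc, a ∈ O) → ∀ c ∈ Lc, c ∉ SΩ →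
        algebraMap B Ω (algebraMap R[X] B X) - c ∈ O →
        (algebraMap B Ω (algebraMap R[X] B X) - c)⁻¹ ∉ O →
        ∀ t ∈ O, t⁻¹ ∉ O → t * (algebraMap B Ω (algebraMap R[X] B X) - c)⁻¹ ∈ O) :
    ∀ π : R[X], Prime π → ¬ Associated π (C w) → (∀ c ∈ S, ¬ Associated π (X - C c)) →
        (Ideal.span {algebraMap R[X] B π}).IsRadical := by
  classical
  intro π hπ hπw hπS
  haveI : IsNoetherianRing B := IsNoetherianRing.of_finite R[X] B
  haveI : Algebra.IsIntegral R[X] B := Algebra.IsIntegral.of_finite R[X] B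
  have hinjRB : Function.Injective (algebraMap R[X] B) :=
    FaithfulSMul.algebraMap_injective R[X] B
  have hinjBΩ : Function.Injective (algebraMap B Ω) := FaithfulSMul.algebraMap_injective B Ω
  set ι : R →+* Ω := (algebraMap B Ω).comp ((algebraMap R[X] B).comp C) with hιdef
  have hι : Function.Injective ι := by
    intro a b hab
    exact C_injective (hinjRB (hinjBΩ hab))
  have hwprime : Prime w := hw.prime
  have hCw : Irreducible (C w : R[X]) := (prime_C_iff.2 hwprime).irreducible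
  -- `π` is not constant
  have hdeg : π.natDegree ≠ 0 := by
    intro h0
    obtain ⟨r, hr⟩ : ∃ r : R, π = C r := ⟨π.coeff 0, eq_C_of_natDegree_eq_zero h0⟩
    have hrp : Prime r := by
      rw [hr] at hπ
      exact prime_C_iff.1 hπ
    have hass : Associated r w :=
      IsDiscreteValuationRing.associated_of_irreducible R hrp.irreducible hw
    apply hπw
    rw [hr]
    obtain ⟨u, hu⟩ := hass
    refine ⟨Units.map (C : R →+* R[X]).toMonoidHom u, ?_⟩
    simp only [Units.coe_map, RingHom.toMonoidHom_eq_coe, MonoidHom.coe_coe]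
    rw [← map_mul, hu]
  have hπ'0 : algebraMap R[X] B π ≠ 0 := by
    intro h0
    exact hπ.ne_zero (hinjRB (by rw [h0, map_zero]))
  -- `w` lies in no height-one prime containing `π`
  have hwP : ∀ 𝔓 : Ideal B, 𝔓.IsPrime → 𝔓.height = 1 → algebraMap R[X] B π ∈ 𝔓 →
      algebraMap R[X] B (C w) ∉ 𝔓 := by
    intro 𝔓 h𝔓 hht hπ𝔓 hw𝔓
    haveI := h𝔓
    haveI hwI : (Ideal.span {algebraMap R[X] B (C w)}).IsPrime :=
      (Ideal.span_singleton_prime hwB.ne_zero).2 hwB
    have hle : Ideal.span {algebraMap R[X] B (C w)} ≤ 𝔓 :=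
      (Ideal.span_singleton_le_iff_mem _).2 hw𝔓
    by_cases heq : Ideal.span {algebraMap R[X] B (C w)} = 𝔓
    · rw [← heq, Ideal.mem_span_singleton] at hπ𝔓
      have hCw0 : (C w : R[X]) ≠ 0 := hCw.ne_zero
      have hdvd : (C w : R[X]) ∣ π := dvd_of_algebraMap_dvd (B := B) hCw0 hπ𝔓
      exact hπw (hCw.associated_of_dvd hπ.irreducible hdvd).symm
    · have hlt : Ideal.span {algebraMap R[X] B (C w)} < 𝔓 := lt_of_le_of_ne hle heq
      have hfin : (Ideal.span {algebraMap R[X] B (C w)}).FiniteHeight := by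
        refine ⟨Or.inr ?_⟩
        intro htop
        have h2 := Ideal.height_mono hle
        rw [htop, hht, top_le_iff] at h2
        exact ENat.one_ne_top h2
      have h3 := Ideal.height_strict_mono_of_isPrime hlt
      rw [hht, ENat.lt_one_iff_eq_zero] at h3
      rw [Ideal.height_eq_zero_iff, IsDomain.minimalPrimes_eq_singleton_bot,
        Set.mem_singleton_iff, Ideal.span_singleton_eq_bot] at h3
      exact hwB.ne_zero h3
  -- constants become integral after multiplication by a power of `w`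
  have hLc' : ∀ a ∈ Lc, ∃ n : ℕ,
      IsIntegral B (algebraMap B Ω (algebraMap R[X] B (C w)) ^ n * a) := by
    intro a ha
    obtain ⟨n, P, hP, hPa⟩ := exists_pow_mul_isIntegralElem ι w hw a (hLalg a ha)
    refine ⟨n, P.map ((algebraMap R[X] B).comp C), hP.map _, ?_⟩
    rw [eval₂_map]
    exact hPa
  -- factorisation of `π` over the constants
  obtain ⟨roots, lc, hlc, hlc0, hroots, hfac⟩ :=
    exists_factorization_of_irreducible ι hι Lc hLcl hRL π hπ.irreducible hdeg
  have hcomp : (algebraMap B Ω).comp (algebraMap R[X] B) =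
      eval₂RingHom ι (algebraMap B Ω (algebraMap R[X] B X)) := by
    apply Polynomial.ringHom_ext
    · intro r
      simp [hιdef]
    · simp
  have hfac' : algebraMap B Ω (algebraMap R[X] B π) =
      lc * ∏ c ∈ roots, (algebraMap B Ω (algebraMap R[X] B X) - c) := by
    rw [← hfac]
    have := congrArg (fun f : R[X] →+* Ω => f π) hcomp
    simpa using this
  have hroots' : ∀ c ∈ roots, c ∈ Lc ∧ c ∉ SΩ := by
    intro c hc
    refine ⟨(hroots c hc).1, fun hcS => ?_⟩
    obtain ⟨s, hs, rfl⟩ := hS c hcS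
    have h1 := (hroots _ hc).2
    change eval₂ ι (ι s) π = 0 at h1
    rw [eval₂_at_apply] at h1
    have h2 : π.eval s = 0 := hι (by rw [h1, map_zero])
    have h3 : (X - C s : R[X]) ∣ π := dvd_iff_isRoot.2 h2
    exact hπS s hs ((prime_X_sub_C s).irreducible.associated_of_dvd hπ.irreducible h3).symm
  exact isRadical_span_of_unramified Lc (algebraMap R[X] B π) hπ'0 (algebraMap R[X] B (C w))
    hwP hLc' (algebraMap B Ω (algebraMap R[X] B X)) SΩ roots hroots' lc hlc hlc0 hfac' hunr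

end Typed

end Fermat.Agent.S18.H754

end

end
-- ===== PACK-END S18/H754/HncTyped.lean

-- ===== PACK-BEGIN S35/H433/Cong.lean
section


/-!
# S35 / (G) — congruences in localisations of a chart, normality, patching (helper433)

* `InLoc`-calculus of congruences `x ≡ y mod I B_n` (`InLoc B n I (x - y)`);
* `exists_res_of_pow` (Lemma N): `B / p` integrally closed, `y ∈ B_p`, `y ^ m ≡ z mod p B_p` with
  `z ∈ B_n` (`p ≤ n`)  ⟹  `y ≡ ρ mod p B_p` for some `ρ ∈ B_n`;
* `exists_patch_smooth`, `exists_patch_node`: elements of `B_n` with prescribed residues on the two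
  components.
-/

set_option autoImplicit false

namespace Fermat.Agent.S35.H433

open Fermat.Agent.A2 Fermat.Agent.A2.Alg

variable {R F : Type*} [CommRing R] [Field F] [Algebra R F] {B : Subalgebra R F}

/-! ### congruence calculus -/

theorem cong_mul {n I : Ideal B} [n.IsPrime] {x y x' y' : F} (hx : InLoc B n ⊤ x)
    (hy' : InLoc B n ⊤ y') (h : InLoc B n I (x - y)) (h' : InLoc B n I (x' - y')) :
    InLoc B n I (x * x' - y * y') := by
  have e : x * x' - y * y' = x * (x' - y') + (x - y) * y' := by ring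
  rw [e]
  exact (hx.mul h').add (h.mul' hy')

theorem inLoc_of_cong {n I : Ideal B} [n.IsPrime] {x y : F} (hy : InLoc B n ⊤ y)
    (h : InLoc B n I (x - y)) : InLoc B n ⊤ x := by
  have e : x = y + (x - y) := by ring
  rw [e]
  exact hy.add h.top

theorem cong_pow {n I : Ideal B} [n.IsPrime] {x y : F} (hx : InLoc B n ⊤ x)
    (hy : InLoc B n ⊤ y) (h : InLoc B n I (x - y)) (k : ℕ) :
    InLoc B n I (x ^ k - y ^ k) := by
  induction k with
  | zero => simpa using inLoc_zero n I
  | succ k ih =>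
    rw [pow_succ, pow_succ]
    exact cong_mul (hx.pow k) hy ih h

theorem cong_symm {n I : Ideal B} {x y : F} (h : InLoc B n I (x - y)) : InLoc B n I (y - x) := by
  have := h.neg
  rwa [neg_sub] at this

theorem cong_trans {n I : Ideal B} [n.IsPrime] {x y z : F} (h : InLoc B n I (x - y))
    (h' : InLoc B n I (y - z)) : InLoc B n I (x - z) := by
  have e : x - z = (x - y) + (y - z) := by ring
  rw [e]
  exact h.add h'

/-- `1 ∉ n B_n`. -/
theorem not_inLoc_one {n : Ideal B} : ¬ InLoc B n n (1 : F) := by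
  rintro ⟨a, b, ha, hb, hab⟩
  rw [one_mul] at hab
  have : b = a := Subtype.ext hab
  exact hb (this ▸ ha)

/-- A unit of `B_n` is not in `n B_n`. -/
theorem not_inLoc_of_locUnit {n : Ideal B} [hn : n.IsPrime] {x : F} (hx : LocUnit B n x) :
    ¬ InLoc B n n x := by
  intro h
  obtain ⟨hx0, -, hxi⟩ := locUnit_iff.1 hx
  have := h.mul' hxi
  rw [mul_inv_cancel₀ hx0] at this
  exact not_inLoc_one this

/-- `x ∈ B_n ∖ n B_n` is a unit of `B_n`. -/
theorem locUnit_of_not_inLoc {n : Ideal B} [hn : n.IsPrime] {x : F} (hx : InLoc B n ⊤ x)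
    (hnx : ¬ InLoc B n n x) : LocUnit B n x := by
  have hx0 : x ≠ 0 := by
    rintro rfl
    exact hnx (inLoc_zero n n)
  exact locUnit_iff.2 ⟨hx0, hx, inLoc_inv_of_not hx hnx⟩

/-- Units are stable under congruence modulo `n B_n`. -/
theorem locUnit_of_cong {n : Ideal B} [hn : n.IsPrime] {x y : F} (hy : LocUnit B n y)
    (h : InLoc B n n (x - y)) : LocUnit B n x := by
  have hy' := (locUnit_iff.1 hy).2.1
  refine locUnit_of_not_inLoc (inLoc_of_cong hy' h) ?_
  intro hx
  apply not_inLoc_of_locUnit hy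
  have e : y = x - (x - y) := by ring
  rw [e]
  exact hx.sub h

theorem locUnit_mul {n : Ideal B} [hn : n.IsPrime] {x y : F} (hx : LocUnit B n x)
    (hy : LocUnit B n y) : LocUnit B n (x * y) := by
  obtain ⟨hx0, hx1, hx2⟩ := locUnit_iff.1 hx
  obtain ⟨hy0, hy1, hy2⟩ := locUnit_iff.1 hy
  refine locUnit_iff.2 ⟨mul_ne_zero hx0 hy0, hx1.mul hy1, ?_⟩
  rw [mul_inv]
  exact hx2.mul hy2

theorem locUnit_inv {n : Ideal B} [hn : n.IsPrime] {x : F} (hx : LocUnit B n x) :
    LocUnit B n x⁻¹ := by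
  obtain ⟨hx0, hx1, hx2⟩ := locUnit_iff.1 hx
  refine locUnit_iff.2 ⟨inv_ne_zero hx0, hx2, ?_⟩
  rwa [inv_inv]

theorem locUnit_one (n : Ideal B) [hn : n.IsPrime] : LocUnit B n (1 : F) :=
  locUnit_iff.2 ⟨one_ne_zero, inLoc_one n, by rw [inv_one]; exact inLoc_one n⟩

theorem locUnit_pow {n : Ideal B} [hn : n.IsPrime] {x : F} (hx : LocUnit B n x) (k : ℕ) :
    LocUnit B n (x ^ k) := by
  induction k with
  | zero => rw [pow_zero]; exact locUnit_one n
  | succ k ih => rw [pow_succ]; exact locUnit_mul ih hx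

theorem LocUnit_anti {n p : Ideal B} (hpn : p ≤ n) {x : F} (hx : LocUnit B n x) :
    LocUnit B p x := by
  obtain ⟨a, b, ha, hb, hab⟩ := hx
  exact ⟨a, b, fun h => ha (hpn h), fun h => hb (hpn h), hab⟩

/-- Inverses of congruent units are congruent. -/
theorem cong_inv {n I : Ideal B} [hn : n.IsPrime] {x y : F} (hx : LocUnit B n x)
    (hy : LocUnit B n y) (h : InLoc B n I (x - y)) : InLoc B n I (x⁻¹ - y⁻¹) := by
  obtain ⟨hx0, -, hx2⟩ := locUnit_iff.1 hx
  obtain ⟨hy0, -, hy2⟩ := locUnit_iff.1 hy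
  have e : x⁻¹ - y⁻¹ = x⁻¹ * ((y - x) * y⁻¹) := by
    field_simp
  rw [e]
  exact hx2.mul ((cong_symm h).mul' hy2)

/-! ### Lemma D: glueing the two components -/

/-- `z ∈ B_n`, `z ≡ 1` on both components  ⟹  `z ∈ 1 + (p₁ ∩ p₂) B_n`. -/
theorem inLoc_inf_of_oneAt {n p₁ p₂ : Ideal B} [hp₁ : p₁.IsPrime] [hp₂ : p₂.IsPrime] {z : F}
    (hz : InLoc B n ⊤ z) (h₁ : InLoc B p₁ p₁ (z - 1)) (h₂ : InLoc B p₂ p₂ (z - 1)) :
    InLoc B n (p₁ ⊓ p₂) (z - 1) := by
  obtain ⟨a, b, -, hb, hab⟩ := hz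
  have key : ∀ (p : Ideal B), p.IsPrime → InLoc B p p (z - 1) → a - b ∈ p := by
    rintro p hp ⟨a', b', ha', hb', hab'⟩
    have h1 : (a - b) * b' = a' * b := by
      apply Subtype.ext
      push_cast
      rw [← hab, ← hab']
      ring
    have h2 : (a - b) * b' ∈ p := by
      rw [h1]
      exact p.mul_mem_right _ ha'
    exact (hp.mem_or_mem h2).resolve_right hb'
  refine ⟨a - b, b, ⟨key p₁ hp₁ h₁, key p₂ hp₂ h₂⟩, hb, ?_⟩
  push_cast
  rw [← hab]
  ring

/-! ### Lemma N: normality of the components -/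

/-- Abstract core of Lemma N: in a ring `A` with `A / p` an integrally closed domain,
`a ^ m e₂ ≡ e₁ b ^ m mod p`, `b ∉ p`, `0 < m`  ⟹  `e₂ a ≡ g b mod p` for some `g`. -/
theorem exists_root_mod {A : Type*} [CommRing A] (p : Ideal A) [hp : p.IsPrime]
    (hnorm : IsIntegrallyClosed (A ⧸ p)) {m : ℕ} (hm : 0 < m) {a b e₁ e₂ : A} (hb : b ∉ p)
    (hkey : a ^ m * e₂ - e₁ * b ^ m ∈ p) : ∃ g : A, e₂ * a - g * b ∈ p := by
  let K := FractionRing (A ⧸ p)
  let ι : A →+* K := (algebraMap (A ⧸ p) K).comp (Ideal.Quotient.mk p)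
  have hι : ∀ t : A, ι t = 0 ↔ t ∈ p := by
    intro t
    show algebraMap (A ⧸ p) K (Ideal.Quotient.mk p t) = 0 ↔ _
    rw [map_eq_zero_iff _ (IsFractionRing.injective (A ⧸ p) K), Ideal.Quotient.eq_zero_iff_mem]
  have hιb : ι b ≠ 0 := fun h' => hb ((hι b).1 h')
  have hkey' : ι a ^ m * ι e₂ = ι e₁ * ι b ^ m := by
    have := (hι _).2 hkey
    rw [map_sub, map_mul, map_mul, map_pow, map_pow, sub_eq_zero] at this
    exact this
  set Y : K := ι (e₂ * a) / ι b with hY
  have hYm : Y ^ m = ι (e₂ ^ (m - 1) * e₁) := by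
    obtain ⟨k, rfl⟩ : ∃ k, m = k + 1 := ⟨m - 1, by omega⟩
    rw [hY, div_pow, map_mul, mul_pow, Nat.add_sub_cancel, map_mul, map_pow]
    rw [div_eq_iff (pow_ne_zero _ hιb)]
    calc ι e₂ ^ (k + 1) * ι a ^ (k + 1) = ι e₂ ^ k * (ι a ^ (k + 1) * ι e₂) := by ring
      _ = ι e₂ ^ k * (ι e₁ * ι b ^ (k + 1)) := by rw [hkey']
      _ = ι e₂ ^ k * ι e₁ * ι b ^ (k + 1) := by ring
  have hint : IsIntegral (A ⧸ p) Y := by
    refine ⟨Polynomial.X ^ m - Polynomial.C (Ideal.Quotient.mk p (e₂ ^ (m - 1) * e₁)),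
      Polynomial.monic_X_pow_sub_C _ hm.ne', ?_⟩
    rw [Polynomial.eval₂_sub, Polynomial.eval₂_pow, Polynomial.eval₂_X, Polynomial.eval₂_C]
    show Y ^ m - ι (e₂ ^ (m - 1) * e₁) = 0
    rw [hYm, sub_self]
  obtain ⟨gbar, hg⟩ := IsIntegrallyClosed.isIntegral_iff.1 hint
  obtain ⟨g, rfl⟩ := Ideal.Quotient.mk_surjective gbar
  have hg' : ι g * ι b = ι (e₂ * a) := by
    have : ι g = Y := hg
    rw [this, hY, div_mul_cancel₀ _ hιb]
  refine ⟨g, ?_⟩
  rw [← hι, map_sub, sub_eq_zero, ← hg', map_mul]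

/-- **Lemma N.**  `B / p` integrally closed, `p ≤ n`, `y ∈ B_p` with `y ^ m ≡ z mod p B_p`,
`z ∈ B_n`, `0 < m`  ⟹  `y ≡ ρ mod p B_p` for some `ρ ∈ B_n`. -/
theorem exists_res_of_pow {n p : Ideal B} [hp : p.IsPrime] (hpn : p ≤ n)
    (hnorm : IsIntegrallyClosed (B ⧸ p)) {m : ℕ} (hm : 0 < m) {y z : F}
    (hy : InLoc B p ⊤ y) (hz : InLoc B n ⊤ z) (h : InLoc B p p (y ^ m - z)) :
    ∃ ρ : F, InLoc B n ⊤ ρ ∧ InLoc B p p (y - ρ) := by
  obtain ⟨a, b, -, hb, hab⟩ := hy
  obtain ⟨e₁, e₂, -, he₂, he⟩ := hz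
  obtain ⟨a₃, b₃, ha₃, hb₃, h₃⟩ := h
  have he₂p : e₂ ∉ p := fun h' => he₂ (hpn h')
  have hb0 : (b : F) ≠ 0 := coe_ne_zero_of_not_mem hb
  have he0 : (e₂ : F) ≠ 0 := coe_ne_zero_of_not_mem he₂
  -- the key congruence in `B`
  have hkey : a ^ m * e₂ - e₁ * b ^ m ∈ p := by
    have h1 : (a ^ m * e₂ - e₁ * b ^ m) * b₃ = a₃ * (b ^ m * e₂) := by
      apply Subtype.ext
      push_cast
      rw [← h₃, ← hab, ← he]
      ring
    have h2 : (a ^ m * e₂ - e₁ * b ^ m) * b₃ ∈ p := by
      rw [h1]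
      exact p.mul_mem_right _ ha₃
    exact (hp.mem_or_mem h2).resolve_right hb₃
  obtain ⟨g, hgp⟩ := exists_root_mod p hnorm hm hb hkey
  refine ⟨(g : F) / e₂, ⟨g, e₂, trivial, he₂, by field_simp⟩,
    ⟨e₂ * a - g * b, b * e₂, hgp, fun h' => (hp.mem_or_mem h').elim hb he₂p, ?_⟩⟩
  push_cast
  rw [← hab]
  field_simp

/-! ### patching -/

/-- **Patching at a smooth point**: `p₁ ≤ n`, `p₂ ⊄ n`, `p₁ ⊄ p₂`. -/
theorem exists_patch_smooth {n p₁ p₂ : Ideal B} [hn : n.IsPrime] [hp₁ : p₁.IsPrime]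
    [hp₂ : p₂.IsPrime] (h1n : p₁ ≤ n) (h2n : ¬ p₂ ≤ n) (h12 : ¬ p₁ ≤ p₂) {ρ₁ ρ₂ : F}
    (hρ₁ : InLoc B n ⊤ ρ₁) (hρ₂ : InLoc B p₂ ⊤ ρ₂) :
    ∃ η : F, InLoc B n ⊤ η ∧ InLoc B p₁ p₁ (η - ρ₁) ∧ InLoc B p₂ p₂ (η - ρ₂) := by
  obtain ⟨a₁, b₁, -, hb₁, hab₁⟩ := hρ₁
  obtain ⟨a₂, b₂, -, hb₂, hab₂⟩ := hρ₂
  obtain ⟨t, ht2, htn⟩ := SetLike.not_le_iff_exists.1 h2n
  obtain ⟨s, hs1, hs2⟩ := SetLike.not_le_iff_exists.1 h12
  have hb₁p : b₁ ∉ p₁ := fun h => hb₁ (h1n h)
  have hD : t * b₁ + s * b₂ ∉ n := by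
    intro h
    have h1 : t * b₁ ∈ n := by
      have : t * b₁ = (t * b₁ + s * b₂) - s * b₂ := by ring
      rw [this]
      exact n.sub_mem h (n.mul_mem_right _ (h1n hs1))
    exact (hn.mem_or_mem h1).elim htn hb₁
  have hD1 : t * b₁ + s * b₂ ∉ p₁ := fun h => hD (h1n h)
  have hD2 : t * b₁ + s * b₂ ∉ p₂ := by
    intro h
    have h1 : s * b₂ ∈ p₂ := by
      have : s * b₂ = (t * b₁ + s * b₂) - t * b₁ := by ring
      rw [this]
      exact p₂.sub_mem h (p₂.mul_mem_right _ ht2)
    exact (hp₂.mem_or_mem h1).elim hs2 hb₂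
  have hD0 : ((t * b₁ + s * b₂ : B) : F) ≠ 0 := coe_ne_zero_of_not_mem hD
  have hb₁0 : (b₁ : F) ≠ 0 := coe_ne_zero_of_not_mem hb₁
  have hb₂0 : (b₂ : F) ≠ 0 := coe_ne_zero_of_not_mem hb₂
  have hρ₁e : ρ₁ = (a₁ : F) / b₁ := by field_simp; exact hab₁
  have hρ₂e : ρ₂ = (a₂ : F) / b₂ := by field_simp; exact hab₂
  refine ⟨((t * a₁ + s * a₂ : B) : F) / ((t * b₁ + s * b₂ : B) : F),
    ⟨t * a₁ + s * a₂, t * b₁ + s * b₂, trivial, hD, by field_simp⟩,
    ⟨s * (a₂ * b₁ - a₁ * b₂), (t * b₁ + s * b₂) * b₁, p₁.mul_mem_right _ hs1,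
      fun h => (hp₁.mem_or_mem h).elim hD1 hb₁p, ?_⟩,
    ⟨t * (a₁ * b₂ - a₂ * b₁), (t * b₁ + s * b₂) * b₂, p₂.mul_mem_right _ ht2,
      fun h => (hp₂.mem_or_mem h).elim hD2 hb₂, ?_⟩⟩
  · rw [hρ₁e]
    push_cast at hD0 ⊢
    field_simp
    ring
  · rw [hρ₂e]
    push_cast at hD0 ⊢
    field_simp
    ring

/-- **Patching at a crossing point**: residues agreeing modulo `(p₁ + p₂) B_n`. -/
theorem exists_patch_node {n p₁ p₂ : Ideal B} [hn : n.IsPrime] (h1n : p₁ ≤ n) (h2n : p₂ ≤ n)
    {ρ₁ ρ₂ : F} (hρ₁ : InLoc B n ⊤ ρ₁) (h : InLoc B n (p₁ ⊔ p₂) (ρ₁ - ρ₂)) :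
    ∃ η : F, InLoc B n ⊤ η ∧ InLoc B p₁ p₁ (η - ρ₁) ∧ InLoc B p₂ p₂ (η - ρ₂) := by
  obtain ⟨π₁, π₂, hπ₁, hπ₂, e⟩ := h.exists_add
  refine ⟨ρ₁ - π₁, hρ₁.sub hπ₁.top, ?_, ?_⟩
  · have : ρ₁ - π₁ - ρ₁ = -π₁ := by ring
    rw [this]
    exact (hπ₁.anti h1n).neg
  · have : ρ₁ - π₁ - ρ₂ = π₂ := by rw [sub_right_comm, e]; ring
    rw [this]
    exact hπ₂.anti h2n

end Fermat.Agent.S35.H433

end
-- ===== PACK-END S35/H433/Cong.lean

-- ===== PACK-BEGIN S35/H433/PhiAsm.lean
section


/-!
# S35 / (G) — `φ`-ASM: local factorisation of `φ u / u ^ Q` for split `u` (helper433)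

`φ` = a semilinear automorphism of the function field `F` which preserves a chart `B` of a
semistable model and its two components, acts on the constants as the `Q`-power map modulo `w`
and FIXES THE CROSSING POINTS (for `S35`: `φ = Frob²` at a prime `q ‖ N`, `Q = q²`; the crossing
points of `X₀(N)` mod `q` are supersingular, hence `𝔽_{q²}`-rational).

`localFactor_phi_of_pureAt` : purity data for `u` at `φ⁻¹ n` and at `n` (leaves P-S / P-N of the
A2 wall, `Fermat/Agent/A2/Alg`), `u` split  ⟹  `LocalFactor B c m (φ u / u ^ Q) n`.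

Together with the leaf GLUE of the A2 wall this gives `φ u = h ^ m · u ^ Q` (`FrobToric.lean`).
-/

set_option autoImplicit false

namespace Fermat.Agent.S35.H433

open Fermat.Agent.A2 Fermat.Agent.A2.Alg

variable {R F : Type*} [CommRing R] [Field F] [Algebra R F]

/-- The standing hypotheses on `φ`, on one chart. -/
structure PhiCtx (w : R) (B : Subalgebra R F) (c : SSChart w B) (φ : F ≃+* F) (Q : ℕ) :
    Prop where
  /-- `φ` maps the chart into itself -/
  mapB : ∀ b : F, b ∈ B → φ b ∈ B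
  /-- `φ⁻¹` maps the chart into itself -/
  mapB' : ∀ b : F, φ b ∈ B → b ∈ B
  /-- `φ` preserves the first component -/
  map₁ : ∀ b : B, (⟨φ b, mapB b b.2⟩ : B) ∈ c.p₁ ↔ b ∈ c.p₁
  /-- `φ` preserves the second component -/
  map₂ : ∀ b : B, (⟨φ b, mapB b b.2⟩ : B) ∈ c.p₂ ↔ b ∈ c.p₂
  /-- `φ` is the `Q`-power map on constants modulo `w` -/
  frob : ∀ r : R, ∃ s : B, φ (algebraMap R F r) - algebraMap R F r ^ Q = algebraMap R F w * s

variable {w : R} {B : Subalgebra R F} {c : SSChart w B} {φ : F ≃+* F} {Q : ℕ}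

/-- The restriction of `φ` to the chart. -/
def PhiCtx.hom (hφ : PhiCtx w B c φ Q) : B →+* B where
  toFun b := ⟨φ b, hφ.mapB b b.2⟩
  map_one' := Subtype.ext (by simp)
  map_mul' a b := Subtype.ext (by simp)
  map_zero' := Subtype.ext (by simp)
  map_add' a b := Subtype.ext (by simp)

@[simp] theorem PhiCtx.coe_hom (hφ : PhiCtx w B c φ Q) (b : B) : ((hφ.hom b : B) : F) = φ b := rfl

/-- Transport of `I B_{n'}` to `J B_n` along `φ`. -/
theorem PhiCtx.inLoc (hφ : PhiCtx w B c φ Q) {n n' I J : Ideal B}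
    (hnn' : ∀ b : B, b ∉ n' → hφ.hom b ∉ n) (hIJ : ∀ b : B, b ∈ I → hφ.hom b ∈ J) {u : F}
    (h : InLoc B n' I u) : InLoc B n J (φ u) := by
  obtain ⟨a, b, ha, hb, hab⟩ := h
  refine ⟨hφ.hom a, hφ.hom b, hIJ a ha, hnn' b hb, ?_⟩
  rw [hφ.coe_hom, hφ.coe_hom, ← map_mul, hab]

/-- Transport of units of `B_{n'}` to units of `B_n` along `φ`. -/
theorem PhiCtx.locUnit (hφ : PhiCtx w B c φ Q) {n n' : Ideal B}
    (hnn' : ∀ b : B, b ∉ n' → hφ.hom b ∉ n) {u : F} (h : LocUnit B n' u) :
    LocUnit B n (φ u) := by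
  obtain ⟨a, b, ha, hb, hab⟩ := h
  refine ⟨hφ.hom a, hφ.hom b, hnn' a ha, hnn' b hb, ?_⟩
  rw [hφ.coe_hom, hφ.coe_hom, ← map_mul, hab]

theorem PhiCtx.hom_surjective (hφ : PhiCtx w B c φ Q) : Function.Surjective hφ.hom := by
  intro b
  refine ⟨⟨φ.symm b, hφ.mapB' _ (by rw [φ.apply_symm_apply]; exact b.2)⟩, ?_⟩
  apply Subtype.ext
  rw [hφ.coe_hom]
  exact φ.apply_symm_apply _

theorem PhiCtx.not_mem_comap (hφ : PhiCtx w B c φ Q) (n : Ideal B) :
    ∀ b : B, b ∉ n.comap hφ.hom → hφ.hom b ∉ n := fun _ hb => hb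

theorem mem_w_left (c : SSChart w B) : algebraMap R B w ∈ c.p₁ := by
  have : algebraMap R B w ∈ c.p₁ ⊓ c.p₂ := by
    rw [c.inf_eq]
    exact Ideal.mem_span_singleton_self _
  exact this.1

theorem mem_w_right (c : SSChart w B) : algebraMap R B w ∈ c.p₂ := by
  have : algebraMap R B w ∈ c.p₁ ⊓ c.p₂ := by
    rw [c.inf_eq]
    exact Ideal.mem_span_singleton_self _
  exact this.2

/-- A unit constant is a unit of every `B_p`. -/
theorem locUnit_const {p : Ideal B} [hp : p.IsPrime] {c₀ : R} (hc : IsUnit c₀) :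
    LocUnit B p (algebraMap R F c₀) := by
  have hu : IsUnit (algebraMap R B c₀) := hc.map _
  have hnp : algebraMap R B c₀ ∉ p := fun h => hp.ne_top (Ideal.eq_top_of_isUnit_mem _ h hu)
  refine ⟨algebraMap R B c₀, 1, hnp, fun h => hp.ne_top ((Ideal.eq_top_iff_one p).2 h), ?_⟩
  simp

/-- Data extracted from `ConstAt`: `u` is a unit at `p`, congruent to a unit constant. -/
theorem exists_const_of_constAt {p : Ideal B} [hp : p.IsPrime] {u : F} (h : ConstAt B p u) :
    ∃ c₀ : R, IsUnit c₀ ∧ LocUnit B p u ∧ InLoc B p p (u - algebraMap R F c₀) := by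
  obtain ⟨c₀, hc, a, b, hb, hab, hu⟩ := h
  have hcong : InLoc B p p (u - algebraMap R F c₀) := by
    refine ⟨a - algebraMap R B c₀ * b, b, hab, hb, ?_⟩
    push_cast
    rw [← hu]
    ring
  exact ⟨c₀, hc, locUnit_of_cong (locUnit_const hc) hcong, hcong⟩

/-- **Step 2.**  `u` with constant residue at a `φ`-stable component `p`  ⟹  `φ u / u ^ Q ≡ 1`
on `p`. -/
theorem PhiCtx.cong_one_of_constAt (hφ : PhiCtx w B c φ Q) {p : Ideal B} [hp : p.IsPrime]
    (hwp : algebraMap R B w ∈ p) (hmap : ∀ b : B, hφ.hom b ∈ p ↔ b ∈ p) {u : F}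
    (h : ConstAt B p u) : InLoc B p p (φ u * (u ^ Q)⁻¹ - 1) := by
  obtain ⟨c₀, hc, huu, hcong⟩ := exists_const_of_constAt h
  have hcu : LocUnit B p (algebraMap R F c₀) := locUnit_const hc
  have hnn : ∀ b : B, b ∉ p → hφ.hom b ∉ p := fun b hb h' => hb ((hmap b).1 h')
  have hII : ∀ b : B, b ∈ p → hφ.hom b ∈ p := fun b hb => (hmap b).2 hb
  -- `φ u ≡ φ c₀ ≡ c₀ ^ Q`
  have h1 : InLoc B p p (φ u - φ (algebraMap R F c₀)) := by
    rw [← map_sub]
    exact hφ.inLoc hnn hII hcong
  have h2 : InLoc B p p (φ (algebraMap R F c₀) - algebraMap R F c₀ ^ Q) := by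
    obtain ⟨s, hs⟩ := hφ.frob c₀
    rw [hs]
    have : algebraMap R F w * (s : F) = ((algebraMap R B w * s : B) : F) := rfl
    rw [this]
    exact inLoc_coe (p.mul_mem_right _ hwp)
  have h3 : InLoc B p p (φ u - algebraMap R F c₀ ^ Q) := cong_trans h1 h2
  have hcQ : LocUnit B p (algebraMap R F c₀ ^ Q) := locUnit_pow hcu Q
  have huQ : LocUnit B p (u ^ Q) := locUnit_pow huu Q
  have h4 : InLoc B p p (u ^ Q - algebraMap R F c₀ ^ Q) :=
    cong_pow (locUnit_iff.1 huu).2.1 (locUnit_iff.1 hcu).2.1 hcong Q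
  have h5 := cong_inv huQ hcQ h4
  have hφu : LocUnit B p (φ u) := locUnit_of_cong hcQ h3
  have h6 := cong_mul (locUnit_iff.1 hφu).2.1 (locUnit_iff.1 hcQ).2.2 h3 h5
  rwa [mul_inv_cancel₀ (locUnit_iff.1 hcQ).1] at h6

/-- **Step 6.**  The final assembly of a local factorisation. -/
theorem localFactor_of_patch (c : SSChart w B) {m : ℕ} {v δ υ η : F} {n : Ideal B}
    [hn : n.IsPrime] (hrel : v * δ ^ m = υ) (hυ : InLoc B n ⊤ υ) (hη : InLoc B n ⊤ η)
    (hδ₁ : LocUnit B c.p₁ δ) (hδ₂ : LocUnit B c.p₂ δ)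
    (hv₁ : InLoc B c.p₁ c.p₁ (v - 1)) (hv₂ : InLoc B c.p₂ c.p₂ (v - 1))
    (hη₁ : InLoc B c.p₁ c.p₁ (η - δ⁻¹)) (hη₂ : InLoc B c.p₂ c.p₂ (η - δ⁻¹)) :
    LocalFactor B c m v n := by
  have := c.prime₁
  have := c.prime₂
  have hδ0 : δ ≠ 0 := locUnit_ne_zero hδ₁
  have key : ∀ (p : Ideal B) [p.IsPrime], LocUnit B p δ → InLoc B p p (v - 1) →
      InLoc B p p (η - δ⁻¹) → InLoc B p p (δ * η - 1) ∧ InLoc B p p (v * (δ * η) ^ m - 1) := by
    intro p _ hδ hv hη'
    have hδ' := (locUnit_iff.1 hδ).2.1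
    have h1 : InLoc B p p (δ * η - 1) := by
      have e : δ * η - 1 = δ * (η - δ⁻¹) := by
        rw [mul_sub, mul_inv_cancel₀ hδ0]
      rw [e]
      exact hδ'.mul hη'
    have hone : InLoc B p ⊤ (1 : F) := inLoc_one p
    have hh : InLoc B p ⊤ (δ * η) := inLoc_of_cong hone h1
    have hvv : InLoc B p ⊤ v := inLoc_of_cong hone hv
    have h2 := cong_pow hh hone h1 m
    have h3 := cong_mul hvv (hone.pow m) hv h2
    rw [one_pow, one_mul] at h3
    exact ⟨h1, h3⟩
  obtain ⟨h11, h12⟩ := key c.p₁ hδ₁ hv₁ hη₁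
  obtain ⟨h21, h22⟩ := key c.p₂ hδ₂ hv₂ hη₂
  have hη0 : η ≠ 0 := by
    rintro rfl
    rw [mul_zero, zero_sub] at h11
    have := h11.neg
    rw [neg_neg] at this
    exact not_inLoc_one this
  refine ⟨δ * η, mul_ne_zero hδ0 hη0, ?_, oneAt_iff.2 h11, oneAt_iff.2 h21⟩
  rw [locOne_iff, ← c.inf_eq]
  have hmem : InLoc B n ⊤ (v * (δ * η) ^ m) := by
    have e : v * (δ * η) ^ m = υ * η ^ m := by
      rw [mul_pow, ← mul_assoc, hrel]
    rw [e]
    exact hυ.mul (hη.pow m)
  exact inLoc_inf_of_oneAt hmem h12 h22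

/-- **Step 4/5, smooth case.**  `n` lies on the component `p` and not on `p'`. -/
theorem exists_eta_smooth {n p p' : Ideal B} [hn : n.IsPrime] [hp : p.IsPrime]
    [hp' : p'.IsPrime] (hpn : p ≤ n) (hp'n : ¬ p' ≤ n) (hpp' : ¬ p ≤ p')
    (hnorm : IsIntegrallyClosed (B ⧸ p)) {m : ℕ} (hm : 0 < m) {v δ υ : F}
    (hrel : v * δ ^ m = υ) (hυ : LocUnit B n υ)
    (hδ : LocUnit B p δ) (hδ' : LocUnit B p' δ) (hv : InLoc B p p (v - 1)) :
    ∃ η : F, InLoc B n ⊤ η ∧ InLoc B p p (η - δ⁻¹) ∧ InLoc B p' p' (η - δ⁻¹) := by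
  obtain ⟨hδ0, hδ1, hδ2⟩ := locUnit_iff.1 hδ
  obtain ⟨hυ0, hυ1, hυ2⟩ := locUnit_iff.1 hυ
  have hpow : InLoc B p p (δ⁻¹ ^ m - υ⁻¹) := by
    have e : δ⁻¹ ^ m - υ⁻¹ = (v - 1) * υ⁻¹ := by
      rw [← hrel] at hυ0 ⊢
      have hv0 : v ≠ 0 := left_ne_zero_of_mul hυ0
      have hδm : δ ^ m ≠ 0 := pow_ne_zero _ hδ0
      rw [inv_pow, mul_inv, sub_mul, one_mul, ← mul_assoc, mul_inv_cancel₀ hv0, one_mul]
    rw [e]
    exact hv.mul' (hυ2.anti hpn)
  obtain ⟨ρ, hρ, hρ'⟩ := exists_res_of_pow hpn hnorm hm hδ2 hυ2 hpow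
  obtain ⟨η, hη, hη₁, hη₂⟩ := exists_patch_smooth hpn hp'n hpp' hρ (locUnit_iff.1 hδ').2.2
  exact ⟨η, hη, cong_trans hη₁ (cong_symm hρ'), hη₂⟩

/-! ### crossing points -/

/-- `φ` fixes `n` as a set. -/
theorem PhiCtx.mem_of_hom_mem (hφ : PhiCtx w B c φ Q) {n : Ideal B} (hn : n.IsMaximal)
    (hfix : ∀ b : B, b ∈ n → hφ.hom b ∈ n) (b : B) (h : hφ.hom b ∈ n) : b ∈ n := by
  have hle : n ≤ n.comap hφ.hom := fun x hx => hfix x hx
  have hne : n.comap hφ.hom ≠ ⊤ := (Ideal.comap_isPrime hφ.hom n).ne_top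
  have := hn.eq_of_le hne hle
  rw [this]
  exact h

/-- **Lemma EV.**  At a fixed closed point with residue field `R / w`, `φ b ≡ b ^ Q`. -/
theorem PhiCtx.hom_sub_pow_mem (hφ : PhiCtx w B c φ Q) {n : Ideal B}
    (hwn : algebraMap R B w ∈ n) (hk : ∀ b : B, ∃ r : R, b - algebraMap R B r ∈ n)
    (hfix : ∀ b : B, b ∈ n → hφ.hom b ∈ n) (a : B) : hφ.hom a - a ^ Q ∈ n := by
  obtain ⟨r, hr⟩ := hk a
  obtain ⟨s, hs⟩ := hφ.frob r
  have h1 : hφ.hom (algebraMap R B r) - algebraMap R B r ^ Q = algebraMap R B w * s := by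
    apply Subtype.ext
    push_cast
    rw [hφ.coe_hom]
    exact hs
  have h2 : a ^ Q - algebraMap R B r ^ Q ∈ n := by
    obtain ⟨t, ht⟩ := sub_dvd_pow_sub_pow a (algebraMap R B r) Q
    rw [ht]
    exact n.mul_mem_right _ hr
  have e : hφ.hom a - a ^ Q = hφ.hom (a - algebraMap R B r) + algebraMap R B w * s
      - (a ^ Q - algebraMap R B r ^ Q) := by
    rw [← h1, map_sub]
    ring
  rw [e]
  exact n.sub_mem (n.add_mem (hfix _ hr) (n.mul_mem_right _ hwn)) h2

/-- At a fixed closed point, `φ ρ / ρ ^ Q ≡ 1 mod n B_n` for every unit `ρ` of `B_n`. -/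
theorem PhiCtx.cong_one_of_fixed (hφ : PhiCtx w B c φ Q) {n : Ideal B} (hn : n.IsMaximal)
    (hwn : algebraMap R B w ∈ n) (hk : ∀ b : B, ∃ r : R, b - algebraMap R B r ∈ n)
    (hfix : ∀ b : B, b ∈ n → hφ.hom b ∈ n) {ρ : F} (hρ : LocUnit B n ρ) :
    InLoc B n n (φ ρ * (ρ ^ Q)⁻¹ - 1) := by
  have hnp := hn.isPrime
  obtain ⟨a, b, ha, hb, hab⟩ := hρ
  have ha0 : (a : F) ≠ 0 := coe_ne_zero_of_not_mem ha
  have hb0 : (b : F) ≠ 0 := coe_ne_zero_of_not_mem hb
  have hφb : hφ.hom b ∉ n := fun h => hb (hφ.mem_of_hom_mem hn hfix b h)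
  have hφb0 : φ (b : F) ≠ 0 := (map_ne_zero φ).2 hb0
  refine ⟨hφ.hom a * b ^ Q - a ^ Q * hφ.hom b, hφ.hom b * a ^ Q, ?_, ?_, ?_⟩
  · have e : hφ.hom a * b ^ Q - a ^ Q * hφ.hom b
        = (hφ.hom a - a ^ Q) * b ^ Q - a ^ Q * (hφ.hom b - b ^ Q) := by ring
    rw [e]
    exact n.sub_mem (n.mul_mem_right _ (hφ.hom_sub_pow_mem hwn hk hfix a))
      (n.mul_mem_left _ (hφ.hom_sub_pow_mem hwn hk hfix b))
  · intro h
    rcases hnp.mem_or_mem h with h | h
    · exact hφb h
    · exact ha (hnp.mem_of_pow_mem _ h)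
  · have hρe : ρ = (a : F) / b := by
      field_simp
      exact hab
    push_cast
    rw [hφ.coe_hom, hφ.coe_hom, hρe, map_div₀, div_pow]
    field_simp

/-- **Step 4, crossing point, one branch.**  `d ≡ r` on the branch `p` for a unit `r` of `B_n`;
hence `φ d / d ^ Q ≡ θ := φ r / r ^ Q` on `p`, and `θ ≡ 1 mod n`. -/
theorem PhiCtx.exists_theta (hφ : PhiCtx w B c φ Q) {n p : Ideal B} (hn : n.IsMaximal)
    [hp : p.IsPrime] (hpn : p ≤ n) (hmap : ∀ b : B, hφ.hom b ∈ p ↔ b ∈ p)
    (hnorm : IsIntegrallyClosed (B ⧸ p))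
    (hwn : algebraMap R B w ∈ n) (hk : ∀ b : B, ∃ r : R, b - algebraMap R B r ∈ n)
    (hfix : ∀ b : B, b ∈ n → hφ.hom b ∈ n) {m : ℕ} (hm : 0 < m) {u d : F}
    (hu : ConstAt B p u) (hd : LocUnit B p d) (hε : LocUnit B n (u * d ^ m)) :
    ∃ θ : F, LocUnit B n θ ∧ InLoc B n n (θ - 1) ∧ InLoc B p p (φ d * (d ^ Q)⁻¹ - θ) := by
  have hnp := hn.isPrime
  obtain ⟨c₀, hc, huu, hcong⟩ := exists_const_of_constAt hu
  obtain ⟨hu0, hu1, hu2⟩ := locUnit_iff.1 huu
  obtain ⟨hd0, hd1, hd2⟩ := locUnit_iff.1 hd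
  obtain ⟨hε0, hε1, hε2⟩ := locUnit_iff.1 hε
  have hcn : LocUnit B n (algebraMap R F c₀) := locUnit_const hc
  have hcp : LocUnit B p (algebraMap R F c₀) := locUnit_const hc
  obtain ⟨hc0, hc1, hc2⟩ := locUnit_iff.1 hcn
  have hdm0 : d ^ m ≠ 0 := pow_ne_zero _ hd0
  -- `d ^ m ≡ ε c₀⁻¹` and `d⁻¹ ^ m ≡ c₀ ε⁻¹` on `p`
  have hinv : InLoc B p p (u⁻¹ - (algebraMap R F c₀)⁻¹) := cong_inv huu hcp hcong
  have h1 : InLoc B p p (d ^ m - (u * d ^ m) * (algebraMap R F c₀)⁻¹) := by
    have e : d ^ m - (u * d ^ m) * (algebraMap R F c₀)⁻¹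
        = (u * d ^ m) * (u⁻¹ - (algebraMap R F c₀)⁻¹) := by
      field_simp
    rw [e]
    exact (hε1.anti hpn).mul hinv
  have h2 : InLoc B p p (d⁻¹ ^ m - algebraMap R F c₀ * (u * d ^ m)⁻¹) := by
    have e : d⁻¹ ^ m - algebraMap R F c₀ * (u * d ^ m)⁻¹
        = (u - algebraMap R F c₀) * (u * d ^ m)⁻¹ := by
      rw [sub_mul, mul_inv, mul_inv_cancel_left₀ hu0, inv_pow]
    rw [e]
    exact hcong.mul' (hε2.anti hpn)
  obtain ⟨r, hr, hr'⟩ := exists_res_of_pow hpn hnorm hm hd1 (hε1.mul hc2) h1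
  obtain ⟨r', hr₂, hr₂'⟩ := exists_res_of_pow hpn hnorm hm hd2 (hc1.mul hε2) h2
  -- `r r' ≡ 1`, so `r` is a unit of `B_n`
  have h3 : InLoc B p p (r * r' - 1) := by
    have := cong_mul (hr.anti hpn) hd2 (cong_symm hr') (cong_symm hr₂')
    rwa [mul_inv_cancel₀ hd0] at this
  have h4 : InLoc B n n (r * r' - 1) := (InLoc.of_le ((hr.mul hr₂).sub (inLoc_one n)) h3).mono hpn
  have h5 : LocUnit B n (r * r') := locUnit_of_cong (locUnit_one n) h4
  have hr0 : r ≠ 0 := left_ne_zero_of_mul (locUnit_ne_zero h5)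
  have hrU : LocUnit B n r := by
    refine locUnit_iff.2 ⟨hr0, hr, ?_⟩
    have e : r⁻¹ = r' * (r * r')⁻¹ := by
      have hr'0 : r' ≠ 0 := right_ne_zero_of_mul (locUnit_ne_zero h5)
      field_simp
    rw [e]
    exact hr₂.mul (locUnit_iff.1 h5).2.2
  have hrp : LocUnit B p r := LocUnit_anti hpn hrU
  -- transport along `φ`
  have hnn : ∀ b : B, b ∉ n → hφ.hom b ∉ n := fun b hb h => hb (hφ.mem_of_hom_mem hn hfix b h)
  have hpp : ∀ b : B, b ∉ p → hφ.hom b ∉ p := fun b hb h => hb ((hmap b).1 h)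
  have hpI : ∀ b : B, b ∈ p → hφ.hom b ∈ p := fun b hb => (hmap b).2 hb
  have hφr : LocUnit B n (φ r) := hφ.locUnit hnn hrU
  have hφd : LocUnit B p (φ d) := hφ.locUnit hpp hd
  have hrQ : LocUnit B n (r ^ Q) := locUnit_pow hrU Q
  refine ⟨φ r * (r ^ Q)⁻¹, locUnit_mul hφr (locUnit_inv hrQ),
    hφ.cong_one_of_fixed hn hwn hk hfix hrU, ?_⟩
  have h6 : InLoc B p p (φ d - φ r) := by
    rw [← map_sub]
    exact hφ.inLoc hpp hpI hr'
  have h7 : InLoc B p p (d ^ Q - r ^ Q) := cong_pow hd1 (hr.anti hpn) hr' Q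
  have h8 := cong_inv (locUnit_pow hd Q) (locUnit_pow hrp Q) h7
  exact cong_mul (locUnit_iff.1 hφd).2.1 (locUnit_iff.1 (locUnit_pow hrp Q)).2.2 h6 h8

/-- **Step 4/5, crossing point.** -/
theorem PhiCtx.exists_eta_node (hφ : PhiCtx w B c φ Q) {n : Ideal B} (hn : n.IsMaximal)
    (h1n : c.p₁ ≤ n) (h2n : c.p₂ ≤ n)
    (hwn : algebraMap R B w ∈ n) (hk : ∀ b : B, ∃ r : R, b - algebraMap R B r ∈ n)
    (hfix : ∀ b : B, b ∈ n → hφ.hom b ∈ n)
    (htr : ∀ b : B, b ∈ n → ∃ s : B, s ∉ n ∧ s * b ∈ c.p₁ ⊔ c.p₂)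
    {m : ℕ} (hm : 0 < m) {u d : F} (hs : IsSplit B c u)
    (hd₁ : LocUnit B c.p₁ d) (hd₂ : LocUnit B c.p₂ d) (hε : LocUnit B n (u * d ^ m)) :
    ∃ η : F, InLoc B n ⊤ η ∧ InLoc B c.p₁ c.p₁ (η - (φ d * (d ^ Q)⁻¹)⁻¹) ∧
      InLoc B c.p₂ c.p₂ (η - (φ d * (d ^ Q)⁻¹)⁻¹) := by
  have hnp := hn.isPrime
  have hp₁ := c.prime₁
  have hp₂ := c.prime₂
  obtain ⟨θ₁, hθ₁, hθ₁n, hθ₁p⟩ :=
    hφ.exists_theta hn h1n hφ.map₁ c.normal₁ hwn hk hfix hm hs.1 hd₁ hε
  obtain ⟨θ₂, hθ₂, hθ₂n, hθ₂p⟩ :=
    hφ.exists_theta hn h2n hφ.map₂ c.normal₂ hwn hk hfix hm hs.2 hd₂ hε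
  have hpp₁ : ∀ b : B, b ∉ c.p₁ → hφ.hom b ∉ c.p₁ := fun b hb h => hb ((hφ.map₁ b).1 h)
  have hpp₂ : ∀ b : B, b ∉ c.p₂ → hφ.hom b ∉ c.p₂ := fun b hb h => hb ((hφ.map₂ b).1 h)
  have hδ₁ : LocUnit B c.p₁ (φ d * (d ^ Q)⁻¹) :=
    locUnit_mul (hφ.locUnit hpp₁ hd₁) (locUnit_inv (locUnit_pow hd₁ Q))
  have hδ₂ : LocUnit B c.p₂ (φ d * (d ^ Q)⁻¹) :=
    locUnit_mul (hφ.locUnit hpp₂ hd₂) (locUnit_inv (locUnit_pow hd₂ Q))
  -- the residues `θ_i⁻¹` agree at `n`
  have e₁ : InLoc B n n (θ₁⁻¹ - 1) := by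
    have := cong_inv hθ₁ (locUnit_one n) hθ₁n
    rwa [inv_one] at this
  have e₂ : InLoc B n n (θ₂⁻¹ - 1) := by
    have := cong_inv hθ₂ (locUnit_one n) hθ₂n
    rwa [inv_one] at this
  have e₃ : InLoc B n n (θ₁⁻¹ - θ₂⁻¹) := cong_trans e₁ (cong_symm e₂)
  have e₄ : InLoc B n (c.p₁ ⊔ c.p₂) (θ₁⁻¹ - θ₂⁻¹) := by
    obtain ⟨a, b, ha, hb, hab⟩ := e₃
    obtain ⟨s, hs, hsa⟩ := htr a ha
    refine ⟨s * a, s * b, hsa, fun h => (hnp.mem_or_mem h).elim hs hb, ?_⟩
    push_cast
    rw [← hab]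
    ring
  obtain ⟨η, hη, hη₁, hη₂⟩ := exists_patch_node h1n h2n (locUnit_iff.1 hθ₁).2.2 e₄
  refine ⟨η, hη, cong_trans hη₁ (cong_symm ?_), cong_trans hη₂ (cong_symm ?_)⟩
  · exact cong_inv hδ₁ (LocUnit_anti h1n hθ₁) hθ₁p
  · exact cong_inv hδ₂ (LocUnit_anti h2n hθ₂) hθ₂p

/-! ### the theorem -/

/-- **`φ`-ASM.**  Purity data for a split `u` at `φ⁻¹ n` and at `n`  ⟹  local factorisation of
`φ u / u ^ Q` at `n`.  At a crossing point `n` one needs: `n` is fixed by `φ`, the residue field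
of `n` is that of `R`, and the two components are transversal at `n`. -/
theorem localFactor_phi_of_pureAt (w : R) (B : Subalgebra R F) (c : SSChart w B)
    (φ : F ≃+* F) (Q : ℕ) (hφ : PhiCtx w B c φ Q)
    (m : ℕ) (hm : 0 < m) (u : F) (hu : u ≠ 0) (hs : IsSplit B c u)
    (n : Ideal B) (hn : n.IsMaximal) (hwn : algebraMap R B w ∈ n)
    (hk : c.p₁ ≤ n → c.p₂ ≤ n → ∀ b : B, ∃ r : R, b - algebraMap R B r ∈ n)
    (hfix : c.p₁ ≤ n → c.p₂ ≤ n → ∀ b : B, b ∈ n → hφ.hom b ∈ n)
    (htr : c.p₁ ≤ n → c.p₂ ≤ n → ∀ b : B, b ∈ n → ∃ s : B, s ∉ n ∧ s * b ∈ c.p₁ ⊔ c.p₂)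
    (h' : PureAt B c m u (n.comap hφ.hom)) (h : PureAt B c m u n) :
    LocalFactor B c m (φ u * (u ^ Q)⁻¹) n := by
  have hnp := hn.isPrime
  have hp₁ := c.prime₁
  have hp₂ := c.prime₂
  have hpp₁ : ∀ b : B, b ∉ c.p₁ → hφ.hom b ∉ c.p₁ := fun b hb h => hb ((hφ.map₁ b).1 h)
  have hpp₂ : ∀ b : B, b ∉ c.p₂ → hφ.hom b ∉ c.p₂ := fun b hb h => hb ((hφ.map₂ b).1 h)
  have hv₁ := hφ.cong_one_of_constAt (mem_w_left c) hφ.map₁ hs.1
  have hv₂ := hφ.cong_one_of_constAt (mem_w_right c) hφ.map₂ hs.2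
  obtain ⟨d, hd0, hε, hd₁, hd₂⟩ := h
  have hφu : φ u ≠ 0 := (map_ne_zero φ).2 hu
  by_cases h1n : c.p₁ ≤ n
  · by_cases h2n : c.p₂ ≤ n
    · -- crossing point
      have hfix' := hfix h1n h2n
      have hnn : ∀ b : B, b ∉ n → hφ.hom b ∉ n :=
        fun b hb h => hb (hφ.mem_of_hom_mem hn hfix' b h)
      obtain ⟨η, hη, hη₁, hη₂⟩ := hφ.exists_eta_node hn h1n h2n hwn (hk h1n h2n) hfix'
        (htr h1n h2n) hm hs hd₁ hd₂ hε
      have hrel : φ u * (u ^ Q)⁻¹ * (φ d * (d ^ Q)⁻¹) ^ m
          = φ (u * d ^ m) * ((u * d ^ m) ^ Q)⁻¹ := by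
        rw [map_mul, map_pow]
        ring
      exact localFactor_of_patch c hrel
        (locUnit_iff.1 (locUnit_mul (hφ.locUnit hnn hε) (locUnit_inv (locUnit_pow hε Q)))).2.1 hη
        (locUnit_mul (hφ.locUnit hpp₁ hd₁) (locUnit_inv (locUnit_pow hd₁ Q)))
        (locUnit_mul (hφ.locUnit hpp₂ hd₂) (locUnit_inv (locUnit_pow hd₂ Q)))
        hv₁ hv₂ hη₁ hη₂
    · -- smooth point on the first component
      obtain ⟨d', hd'0, hε', hd'₁, hd'₂⟩ := h'
      have hδ₁ : LocUnit B c.p₁ (φ d' * (d ^ Q)⁻¹) :=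
        locUnit_mul (hφ.locUnit hpp₁ hd'₁) (locUnit_inv (locUnit_pow hd₁ Q))
      have hδ₂ : LocUnit B c.p₂ (φ d' * (d ^ Q)⁻¹) :=
        locUnit_mul (hφ.locUnit hpp₂ hd'₂) (locUnit_inv (locUnit_pow hd₂ Q))
      have hυ : LocUnit B n (φ (u * d' ^ m) * ((u * d ^ m) ^ Q)⁻¹) :=
        locUnit_mul (hφ.locUnit (hφ.not_mem_comap n) hε') (locUnit_inv (locUnit_pow hε Q))
      have hrel : φ u * (u ^ Q)⁻¹ * (φ d' * (d ^ Q)⁻¹) ^ m
          = φ (u * d' ^ m) * ((u * d ^ m) ^ Q)⁻¹ := by
        rw [map_mul, map_pow]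
        ring
      obtain ⟨η, hη, hη₁, hη₂⟩ :=
        exists_eta_smooth h1n h2n c.not_le₁₂ c.normal₁ hm hrel hυ hδ₁ hδ₂ hv₁
      exact localFactor_of_patch c hrel (locUnit_iff.1 hυ).2.1 hη hδ₁ hδ₂ hv₁ hv₂ hη₁ hη₂
  · -- smooth point on the second component
    have h2n : c.p₂ ≤ n := by
      have hle : c.p₁ ⊓ c.p₂ ≤ n := by
        rw [c.inf_eq, Ideal.span_singleton_le_iff_mem]
        exact hwn
      rcases (Ideal.IsPrime.inf_le hnp).1 hle with h | h
      · exact absurd h h1n
      · exact h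
    obtain ⟨d', hd'0, hε', hd'₁, hd'₂⟩ := h'
    have hδ₁ : LocUnit B c.p₁ (φ d' * (d ^ Q)⁻¹) :=
      locUnit_mul (hφ.locUnit hpp₁ hd'₁) (locUnit_inv (locUnit_pow hd₁ Q))
    have hδ₂ : LocUnit B c.p₂ (φ d' * (d ^ Q)⁻¹) :=
      locUnit_mul (hφ.locUnit hpp₂ hd'₂) (locUnit_inv (locUnit_pow hd₂ Q))
    have hυ : LocUnit B n (φ (u * d' ^ m) * ((u * d ^ m) ^ Q)⁻¹) :=
      locUnit_mul (hφ.locUnit (hφ.not_mem_comap n) hε') (locUnit_inv (locUnit_pow hε Q))
    have hrel : φ u * (u ^ Q)⁻¹ * (φ d' * (d ^ Q)⁻¹) ^ m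
        = φ (u * d' ^ m) * ((u * d ^ m) ^ Q)⁻¹ := by
      rw [map_mul, map_pow]
      ring
    obtain ⟨η, hη, hη₂, hη₁⟩ :=
      exists_eta_smooth h2n h1n c.not_le₂₁ c.normal₂ hm hrel hυ hδ₂ hδ₁ hv₂
    exact localFactor_of_patch c hrel (locUnit_iff.1 hυ).2.1 hη hδ₁ hδ₂ hv₁ hv₂ hη₁ hη₂

end Fermat.Agent.S35.H433

end
-- ===== PACK-END S35/H433/PhiAsm.lean

-- ===== PACK-BEGIN S35/H433/Approx.lean
section


/-!
# S35 / (G) — F4 APPROX: from residues in `kˣ · (κˣ)^m` to split classes (helper433)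

* `GSplitAt B p m u` : `u` is a unit on the component `p` whose residue is a constant times an
  `m`-th power (`u = c · y ^ m · (1 + p B_p)`, `y` a unit of `B_p`, `c` a unit of `R`);
* `exists_approx` : weak approximation on the two components of a chart;
* `exists_isSplit_of_gSplit` : if `u` is `GSplitAt` both components, then `u · G⁻ᵐ` is split
  (`Alg.IsSplit`) for some `G ≠ 0`.
-/

set_option autoImplicit false

namespace Fermat.Agent.S35.H433

open Fermat.Agent.A2 Fermat.Agent.A2.Alg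

variable {R F : Type*} [CommRing R] [Field F] [Algebra R F]

/-- `u` is a unit on the component `p` with residue in `kˣ · (κ(p)ˣ)^m`. -/
def GSplitAt (B : Subalgebra R F) (p : Ideal B) (m : ℕ) (u : F) : Prop :=
  ∃ y : F, LocUnit B p y ∧ ConstAt B p (u * (y ^ m)⁻¹)

variable {B : Subalgebra R F}

/-- Converse of `exists_const_of_constAt`. -/
theorem constAt_of_cong {p : Ideal B} {u : F} {c₀ : R} (hc : IsUnit c₀)
    (h : InLoc B p p (u - algebraMap R F c₀)) : ConstAt B p u := by
  obtain ⟨a, b, ha, hb, hab⟩ := h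
  refine ⟨c₀, hc, a + algebraMap R B c₀ * b, b, hb, by simpa using ha, ?_⟩
  push_cast
  rw [← hab]
  ring

theorem constAt_iff {p : Ideal B} [p.IsPrime] {u : F} :
    ConstAt B p u ↔ ∃ c₀ : R, IsUnit c₀ ∧ InLoc B p p (u - algebraMap R F c₀) := by
  constructor
  · intro h
    obtain ⟨c₀, hc, -, hcong⟩ := exists_const_of_constAt h
    exact ⟨c₀, hc, hcong⟩
  · rintro ⟨c₀, hc, h⟩
    exact constAt_of_cong hc h

/-- A split class is `GSplitAt` both components. -/
theorem gSplitAt_of_constAt {p : Ideal B} [p.IsPrime] {m : ℕ} {u : F} (h : ConstAt B p u) :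
    GSplitAt B p m u :=
  ⟨1, locUnit_one p, by simpa using h⟩

/-- **Weak approximation** on the two components of a chart. -/
theorem exists_approx {w : R} (c : SSChart w B) {y₁ y₂ : F} (h₁ : LocUnit B c.p₁ y₁)
    (h₂ : LocUnit B c.p₂ y₂) :
    ∃ G : F, LocUnit B c.p₁ G ∧ LocUnit B c.p₂ G ∧ InLoc B c.p₁ c.p₁ (G - y₁) ∧
      InLoc B c.p₂ c.p₂ (G - y₂) := by
  have := c.prime₁
  have := c.prime₂
  obtain ⟨G, -, hG₁, hG₂⟩ := exists_patch_smooth (le_refl c.p₁) c.not_le₂₁ c.not_le₁₂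
    (locUnit_iff.1 h₁).2.1 (locUnit_iff.1 h₂).2.1
  exact ⟨G, locUnit_of_cong h₁ hG₁, locUnit_of_cong h₂ hG₂, hG₁, hG₂⟩

/-- One component: `u ≡ c y ^ m`, `G ≡ y`  ⟹  `u G⁻ᵐ ≡ c`. -/
theorem constAt_div_pow {p : Ideal B} [hp : p.IsPrime] {m : ℕ} {u y G : F}
    (hy : LocUnit B p y) (hu : ConstAt B p (u * (y ^ m)⁻¹)) (hG : LocUnit B p G)
    (hGy : InLoc B p p (G - y)) : ConstAt B p (u * (G ^ m)⁻¹) := by
  obtain ⟨c₀, hc, hu', hcong⟩ := exists_const_of_constAt hu
  refine constAt_of_cong hc ?_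
  have hym : LocUnit B p (y ^ m) := locUnit_pow hy m
  have hGm : LocUnit B p (G ^ m) := locUnit_pow hG m
  have h1 : InLoc B p p (G ^ m - y ^ m) :=
    cong_pow (locUnit_iff.1 hG).2.1 (locUnit_iff.1 hy).2.1 hGy m
  have h2 : InLoc B p p ((G ^ m)⁻¹ - (y ^ m)⁻¹) := cong_inv hGm hym h1
  -- `u = (u y⁻ᵐ) yᵐ ∈ B_p`
  have huB : InLoc B p ⊤ u := by
    have e : u = u * (y ^ m)⁻¹ * y ^ m := by
      rw [mul_assoc, inv_mul_cancel₀ (locUnit_ne_zero hym), mul_one]
    rw [e]
    exact (locUnit_iff.1 hu').2.1.mul (locUnit_iff.1 hym).2.1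
  have h3 : InLoc B p p (u * (G ^ m)⁻¹ - u * (y ^ m)⁻¹) := by
    rw [← mul_sub]
    exact huB.mul h2
  exact cong_trans h3 hcong

/-- **F4.**  `u` with residues in `kˣ · (κˣ)^m` on both components of a chart becomes split after
division by an `m`-th power. -/
theorem exists_isSplit_of_gSplit {w : R} (c : SSChart w B) {m : ℕ} {u : F}
    (h₁ : GSplitAt B c.p₁ m u) (h₂ : GSplitAt B c.p₂ m u) :
    ∃ G : F, G ≠ 0 ∧ IsSplit B c (u * (G ^ m)⁻¹) := by
  have := c.prime₁
  have := c.prime₂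
  obtain ⟨y₁, hy₁, hu₁⟩ := h₁
  obtain ⟨y₂, hy₂, hu₂⟩ := h₂
  obtain ⟨G, hG₁, hG₂, hc₁, hc₂⟩ := exists_approx c hy₁ hy₂
  exact ⟨G, locUnit_ne_zero hG₁, constAt_div_pow hy₁ hu₁ hG₁ hc₁, constAt_div_pow hy₂ hu₂ hG₂ hc₂⟩

end Fermat.Agent.S35.H433

end
-- ===== PACK-END S35/H433/Approx.lean

-- ===== PACK-BEGIN S35/H433/FrobToric.lean
section



/-!
# S35 / (G) — N4, the toric Frobenius relation, assembled from the A2-wall leaves (helper433)

`frobToric_of_parts` : in the setting of the A2 wall (`Fermat/Agent/A2/Alg`), let `φ` be a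
semilinear automorphism of `F` preserving both charts and their components, acting on constants as
the `Q`-power map modulo `w`, and fixing the crossing points.  If `u` is split with `m ∣ div u`,
then `φ u = h ^ m · u ^ Q`.

Inputs are the leaves PURITY (P-S + P-N) and GLUE of the A2 wall (both `τ`-free), as hypotheses in
exactly the shape of `Fermat/Agent/A2/Alg/Skel.lean` (origin/helper34).

For `S35`: `φ = σ²` (`σ` a Frobenius lift at `q ‖ N`), `Q = q²`; the conclusion says that `σ²` acts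
as `q²` on the toric part of `J₀(N)[m]`.
-/

set_option autoImplicit false

namespace Fermat.Agent.S35.H433

open Fermat.Agent.A2 Fermat.Agent.A2.Alg

section Div

variable {E F : Type*} [Field E] [Field F] [Algebra E F]

theorem divisibleDiv_pow (m : ℕ) (f : F) (hf : DivisibleDiv E m f) (k : ℕ) :
    DivisibleDiv E m (f ^ k) := by
  intro V hV hE
  obtain ⟨h, u, hh, hu, hu', rfl⟩ := hf V hV hE
  refine ⟨h ^ k, u ^ k, pow_ne_zero _ hh, pow_mem hu k, ?_, ?_⟩
  · rw [← inv_pow]
    exact pow_mem hu' k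
  · rw [mul_pow, ← pow_mul, ← pow_mul, mul_comm m k]

end Div

variable {R E F : Type*} [CommRing R] [Field E] [Field F] [Algebra E F] [Algebra R F]

/-- `w ∈ φ⁻¹ n` for a closed point `n` of the special fibre. -/
theorem PhiCtx.w_mem_comap {w : R} {B : Subalgebra R F} {c : SSChart w B} {φ : F ≃+* F} {Q : ℕ}
    (hφ : PhiCtx w B c φ Q) (hQ : 0 < Q) {n : Ideal B} (hwn : algebraMap R B w ∈ n) :
    algebraMap R B w ∈ n.comap hφ.hom := by
  obtain ⟨s, hs⟩ := hφ.frob w
  have h1 : hφ.hom (algebraMap R B w) = algebraMap R B w ^ Q + algebraMap R B w * s := by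
    apply Subtype.ext
    push_cast
    rw [hφ.coe_hom]
    have e1 : ((algebraMap R B w : B) : F) = algebraMap R F w := rfl
    rw [e1]
    linear_combination hs
  rw [Ideal.mem_comap, h1]
  exact n.add_mem (n.pow_mem_of_mem hwn Q hQ) (n.mul_mem_right _ hwn)

/-- Local factorisations of `φ u / u ^ Q` at all closed points of one chart. -/
theorem locallyFactored_phi {w : R} (B : Subalgebra R F) (c : SSChart w B)
    (φ : F ≃+* F) (Q : ℕ) (hQ : 0 < Q) (hφ : PhiCtx w B c φ Q) (m : ℕ) (hm : 0 < m)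
    (hk : ∀ n : Ideal B, n.IsMaximal → c.p₁ ≤ n → c.p₂ ≤ n →
      ∀ b : B, ∃ r : R, b - algebraMap R B r ∈ n)
    (hfix : ∀ n : Ideal B, n.IsMaximal → c.p₁ ≤ n → c.p₂ ≤ n →
      ∀ b : B, b ∈ n → hφ.hom b ∈ n)
    (htr : ∀ n : Ideal B, n.IsMaximal → c.p₁ ≤ n → c.p₂ ≤ n →
      ∀ b : B, b ∈ n → ∃ s : B, s ∉ n ∧ s * b ∈ c.p₁ ⊔ c.p₂)
    (u : F) (hu : u ≠ 0) (hs : IsSplit B c u)
    (hpur : ∀ n : Ideal B, n.IsMaximal → algebraMap R B w ∈ n → PureAt B c m u n) :
    LocallyFactored B c m (φ u * (u ^ Q)⁻¹) := by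
  intro n hn hwn
  have hn' : (n.comap hφ.hom).IsMaximal :=
    Ideal.comap_isMaximal_of_surjective hφ.hom hφ.hom_surjective
  exact localFactor_phi_of_pureAt w B c φ Q hφ m hm u hu hs n hn hwn (hk n hn) (hfix n hn)
    (htr n hn) (hpur _ hn' (hφ.w_mem_comap hQ hwn)) (hpur n hn hwn)

/-- **N4 (toric Frobenius relation), assembled.**  `u` split on both charts, `m ∣ div u`
⟹ `φ u = h ^ m · u ^ Q`. -/
theorem frobToric_of_parts (m : ℕ) (hm : 0 < m) (w : R) (Bf Bi : Subalgebra R F)
    (cf : SSChart w Bf) (ci : SSChart w Bi)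
    (φ : F ≃+* F) (φE : E ≃+* E) (Q : ℕ) (hQ : 0 < Q)
    (hφE : ∀ e : E, φ (algebraMap E F e) = algebraMap E F (φE e))
    (hφf : PhiCtx w Bf cf φ Q) (hφi : PhiCtx w Bi ci φ Q)
    (hkf : ∀ n : Ideal Bf, n.IsMaximal → cf.p₁ ≤ n → cf.p₂ ≤ n →
      ∀ b : Bf, ∃ r : R, b - algebraMap R Bf r ∈ n)
    (hki : ∀ n : Ideal Bi, n.IsMaximal → ci.p₁ ≤ n → ci.p₂ ≤ n →
      ∀ b : Bi, ∃ r : R, b - algebraMap R Bi r ∈ n)
    (hfixf : ∀ n : Ideal Bf, n.IsMaximal → cf.p₁ ≤ n → cf.p₂ ≤ n →
      ∀ b : Bf, b ∈ n → hφf.hom b ∈ n)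
    (hfixi : ∀ n : Ideal Bi, n.IsMaximal → ci.p₁ ≤ n → ci.p₂ ≤ n →
      ∀ b : Bi, b ∈ n → hφi.hom b ∈ n)
    (htrf : ∀ n : Ideal Bf, n.IsMaximal → cf.p₁ ≤ n → cf.p₂ ≤ n →
      ∀ b : Bf, b ∈ n → ∃ s : Bf, s ∉ n ∧ s * b ∈ cf.p₁ ⊔ cf.p₂)
    (htri : ∀ n : Ideal Bi, n.IsMaximal → ci.p₁ ≤ n → ci.p₂ ≤ n →
      ∀ b : Bi, b ∈ n → ∃ s : Bi, s ∉ n ∧ s * b ∈ ci.p₁ ⊔ ci.p₂)
    (u : F) (hu : u ≠ 0) (hdiv : DivisibleDiv E m u)
    (hsf : IsSplit Bf cf u) (hsi : IsSplit Bi ci u)
    (hpurf : ∀ n : Ideal Bf, n.IsMaximal → algebraMap R Bf w ∈ n → PureAt Bf cf m u n)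
    (hpuri : ∀ n : Ideal Bi, n.IsMaximal → algebraMap R Bi w ∈ n → PureAt Bi ci m u n)
    (hglue : ∀ v : F, v ≠ 0 → DivisibleDiv E m v → LocallyFactored Bf cf m v →
      LocallyFactored Bi ci m v → ∃ y : F, y ≠ 0 ∧ v = y ^ m) :
    ∃ h : F, h ≠ 0 ∧ φ u = h ^ m * u ^ Q := by
  have hφu : φ u ≠ 0 := (map_ne_zero φ).2 hu
  have huQ : u ^ Q ≠ 0 := pow_ne_zero _ hu
  have hv : φ u * (u ^ Q)⁻¹ ≠ 0 := mul_ne_zero hφu (inv_ne_zero huQ)
  have hdivv : DivisibleDiv E m (φ u * (u ^ Q)⁻¹) :=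
    H34.divisibleDiv_mul_inv m _ _ (H34.divisibleDiv_tau φ φE hφE m u hdiv)
      (divisibleDiv_pow m u hdiv Q)
  obtain ⟨y, hy, hyv⟩ := hglue _ hv hdivv
    (locallyFactored_phi Bf cf φ Q hQ hφf m hm hkf hfixf htrf u hu hsf hpurf)
    (locallyFactored_phi Bi ci φ Q hQ hφi m hm hki hfixi htri u hu hsi hpuri)
  refine ⟨y, hy, ?_⟩
  rw [← hyv, mul_assoc, inv_mul_cancel₀ huQ, mul_one]

end Fermat.Agent.S35.H433

end
-- ===== PACK-END S35/H433/FrobToric.lean

-- ===== PACK-BEGIN S37/H155/PullAbstract.lean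
section
/-
S37 / [PULL] (helper155), abstract part.

For embeddings of function fields (Prelude language `Place`, `Divisor`, `Pic0`, `…Along`):

* `hasLocalGenerators`            : `H818.HasLocalGenerators` always holds (weak approximation);
* `normCompat_of_span`            : `H818.NormCompat` for a square with equal degrees in which the
                                    image of `F₁` spans `G₁` over `G` (basis transport);
* `pullbackPic0Along_smul`        : `π^*` is equivariant for intertwined semilinear automorphisms;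
* `pushforwardAlong_pullbackAlong`: `π_* π^* D = [G : F] • D`;
* `pullbackPic0Along_eq_zero`     : `π^*` is injective on torsion prime to `[G : F]`.
-/






set_option autoImplicit false
set_option linter.style.haveILetI false

noncomputable section

namespace Fermat.Agent.S37.H155

open AlgebraicCurve Fermat.Agent.S37.H818

variable {K F F₁ G G₁ : Type*} [Field K] [Field F] [Field F₁] [Field G] [Field G₁]
  [Algebra K F] [Algebra K F₁] [Algebra K G] [Algebra K G₁]

/-! ### Local generators -/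

/-- Local generators always exist, by the weak approximation theorem. -/
theorem hasLocalGenerators [HasPrincipalDivisors K F₁] (a : F →ₐ[K] F₁)
    (ha : a.toRingHom.IsIntegral) : HasLocalGenerators a ha := by
  classical
  intro w
  obtain ⟨z, hz⟩ := Fermat.Agent.Lib.RR.H623.weak_approximation
    (Place.fiberAlong a ha (w.restrictAlong a ha)) (fun _ => (0 : F₁))
    (fun v => if v = w then 1 else 0)
  have hw := hz w (Place.mem_fiberAlong.mpr rfl)
  refine ⟨z, ?_, ?_, ?_⟩
  · simpa using hw.1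
  · have h2 := hw.2
    simp only [sub_zero, if_true] at h2
    rw [h2]
    exact one_ne_zero
  · intro w' hne hw'
    have h2 := (hz w' (Place.mem_fiberAlong.mpr hw')).2
    simpa [hne] using h2

/-! ### Norm compatibility -/

/-- **Norm compatibility by basis transport.**  In a commutative square with
`[G₁ : G] = [F₁ : F] < ∞` in which the image of `F₁` spans `G₁` over `G`, norms are compatible. -/
theorem normCompat_of_span (a : F →ₐ[K] F₁) (i : F →ₐ[K] G) (a' : G →ₐ[K] G₁)
    (i₁ : F₁ →ₐ[K] G₁) (hsq : i₁.comp a = a'.comp i)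
    (hfin : FiniteAlong K a)
    (hdeg : finrankAlong K a' = finrankAlong K a)
    (hspan : ∀ g : G₁, g ∈ (letI := algebraAlong a'; Submodule.span G (Set.range i₁))) :
    NormCompat a i a' i₁ := by
  letI := algebraAlong a
  letI := algebraAlong a'
  haveI : Module.Finite F F₁ := hfin
  intro f
  show Algebra.norm G (i₁ f) = i (Algebra.norm F f)
  let b := Module.finBasis F F₁
  have hsq' : ∀ c : F, i₁ (algebraMap F F₁ c) = algebraMap G G₁ (i c) := fun c =>
    congrArg (fun φ : F →ₐ[K] G₁ => φ c) hsq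
  have hmap : ∀ y : F₁, i₁ y = ∑ r, (i (b.repr y r)) • i₁ (b r) := by
    intro y
    conv_lhs => rw [← b.sum_repr y]
    rw [map_sum]
    refine Finset.sum_congr rfl fun r _ => ?_
    rw [Algebra.smul_def, map_mul, hsq', Algebra.smul_def]
  have hspan' : ⊤ ≤ Submodule.span G (Set.range (fun r => i₁ (b r))) := by
    intro g _
    have hg := hspan g
    refine Submodule.span_le.mpr ?_ hg
    rintro _ ⟨y, rfl⟩
    rw [SetLike.mem_coe, hmap y]
    exact Submodule.sum_mem _ fun r _ =>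
      Submodule.smul_mem _ _ (Submodule.subset_span ⟨r, rfl⟩)
  have hcard : Fintype.card (Fin (Module.finrank F F₁)) = Module.finrank G G₁ := by
    rw [Fintype.card_fin]
    exact hdeg.symm
  let b' : Module.Basis (Fin (Module.finrank F F₁)) G G₁ :=
    basisOfTopLeSpanOfCardEqFinrank (fun r => i₁ (b r)) hspan' hcard
  have hb' : ∀ r, b' r = i₁ (b r) := fun r => by
    simp only [b', coe_basisOfTopLeSpanOfCardEqFinrank]
  have hrepr : ∀ (y : F₁) (r : Fin (Module.finrank F F₁)),
      b'.repr (i₁ y) r = i (b.repr y r) := by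
    intro y r
    have h1 : i₁ y = ∑ r, (i (b.repr y r)) • b' r := by
      rw [hmap y]
      exact Finset.sum_congr rfl fun r _ => by rw [hb']
    rw [h1, map_sum, Finsupp.finsetSum_apply]
    simp only [map_smul, Module.Basis.repr_self, Finsupp.smul_single, smul_eq_mul, mul_one,
      Finsupp.single_apply]
    rw [Finset.sum_ite_eq' Finset.univ r]
    simp
  rw [Algebra.norm_eq_matrix_det b', Algebra.norm_eq_matrix_det b]
  have hdet := RingHom.map_det (i : F →+* G) (Algebra.leftMulMatrix b f)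
  rw [show (i (Algebra.leftMulMatrix b f).det : G)
    = (i : F →+* G) (Algebra.leftMulMatrix b f).det from rfl, hdet]
  congr 1
  ext r c
  rw [Algebra.leftMulMatrix_eq_repr_mul, RingHom.mapMatrix_apply, Matrix.map_apply,
    Algebra.leftMulMatrix_eq_repr_mul, hb', ← map_mul, hrepr]
  rfl

/-! ### Galois equivariance -/

/-- `π^*` on `Pic0` is equivariant for intertwined semilinear automorphisms. -/
theorem pullbackPic0Along_smul [HasPrincipalDivisors K G] (i : F →ₐ[K] G)
    (hi : i.toRingHom.IsIntegral) (hFI : FundamentalIdentityAlong K i hi)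
    {g : SemilinearAut K F} {g' : SemilinearAut K G}
    (h : SemilinearAut.IntertwinesAlong (i : F →+* G) g g') (x : Pic0 K F) :
    pullbackPic0Along i hi hFI (g • x) = g' • pullbackPic0Along i hi hFI x := by
  obtain ⟨D, rfl⟩ := Pic0.mk_surjective x
  rw [SemilinearAut.pic0_smul_mk, pullbackPic0Along_mk, pullbackPic0Along_mk,
    SemilinearAut.pic0_smul_mk]
  refine congrArg Pic0.mk (Subtype.ext ?_)
  rw [coe_pullbackDegZeroAlong, SemilinearAut.coe_degZeroSMulHom,
    SemilinearAut.coe_degZeroSMulHom, coe_pullbackDegZeroAlong]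
  exact Fermat.Agent.S29.H571.pullbackAlong_smul i hi h (D : Divisor K F)

/-! ### `π_* π^* = deg` -/

/-- The sum formula `∑ e f = n` along a homomorphism. -/
def SumRamificationInertiaAlong [HasPrincipalDivisors K G] (i : F →ₐ[K] G)
    (hi : i.toRingHom.IsIntegral) : Prop :=
  letI := algebraAlong i
  haveI := isScalarTower_along i
  haveI := isIntegral_along i hi
  SumRamificationInertia K F G

section Instance

variable [Algebra F G] [IsScalarTower K F G] [Algebra.IsIntegral F G] [HasPrincipalDivisors K G]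

theorem pushforward_pullback [SumRamificationInertia K F G] (D : Divisor K F) :
    Divisor.pushforward F (Divisor.pullback G D) = (Module.finrank F G : ℤ) • D := by
  classical
  induction D using Finsupp.induction with
  | zero => simp
  | single_add v n D _ _ ih =>
    rw [map_add, map_add, ih, smul_add]
    congr 1
    rw [Divisor.pullback_single, map_sum]
    have h1 : ∀ w ∈ v.fiber G, Divisor.pushforward F
        (Finsupp.single w (n * (w.ramificationIndex F : ℤ)))
        = Finsupp.single v (n * ((w.ramificationIndex F : ℤ) * (w.inertiaDeg F : ℤ))) := by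
      intro w hw
      rw [Divisor.pushforward_single, Place.mem_fiber.mp hw, mul_assoc]
    rw [Finset.sum_congr rfl h1, ← Finsupp.single_finsetSum, ← Finset.mul_sum,
      SumRamificationInertia.sum_ramificationIndex_mul_inertiaDeg (K := K) (F := F) (F' := G) v,
      Finsupp.smul_single, smul_eq_mul, mul_comm]

end Instance

/-- `π_* π^* D = [G : F] • D`. -/
theorem pushforwardAlong_pullbackAlong [HasPrincipalDivisors K G] (i : F →ₐ[K] G)
    (hi : i.toRingHom.IsIntegral) (hS : SumRamificationInertiaAlong i hi) (D : Divisor K F) :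
    Divisor.pushforwardAlong i hi (Divisor.pullbackAlong i hi D)
      = (finrankAlong K i : ℤ) • D := by
  letI := algebraAlong i
  haveI := isScalarTower_along i
  haveI := isIntegral_along i hi
  haveI : SumRamificationInertia K F G := hS
  exact pushforward_pullback D

/-! ### Injectivity on torsion -/

theorem mk_eq_zero_iff (D : Divisor.degZero (K := K) (F := F)) :
    Pic0.mk D = 0 ↔ (D : Divisor K F) ∈ Divisor.principal (K := K) (F := F) := by
  unfold Pic0.mk
  rw [QuotientAddGroup.eq_zero_iff, AddSubgroup.mem_addSubgroupOf]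

/-- **`π^*` is injective on torsion prime to the degree.** -/
theorem pullbackPic0Along_eq_zero [HasPrincipalDivisors K G] (i : F →ₐ[K] G)
    (hi : i.toRingHom.IsIntegral) (hFI : FundamentalIdentityAlong K i hi)
    (hS : SumRamificationInertiaAlong i hi)
    (hfin : FiniteAlong K i) (hN : NormFormulaAlong K i hfin)
    (m : ℕ) (hcop : Nat.Coprime m (finrankAlong K i)) (x : Pic0 K F) (hm : m • x = 0)
    (hx : pullbackPic0Along i hi hFI x = 0) : x = 0 := by
  obtain ⟨D, rfl⟩ := Pic0.mk_surjective x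
  rw [pullbackPic0Along_mk, mk_eq_zero_iff, coe_pullbackDegZeroAlong] at hx
  have h1 : (finrankAlong K i : ℤ) • (D : Divisor K F) ∈ Divisor.principal (K := K) (F := F) := by
    rw [← pushforwardAlong_pullbackAlong i hi hS]
    exact Divisor.isPrincipal_pushforwardAlong i hi hfin hN hx
  have h2 : (m : ℤ) • (D : Divisor K F) ∈ Divisor.principal (K := K) (F := F) := by
    have h3 : Pic0.mk (m • D) = 0 := hm
    rw [mk_eq_zero_iff] at h3
    rw [natCast_zsmul]
    exact h3
  rw [mk_eq_zero_iff]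
  have hb := Int.gcd_eq_gcd_ab (m : ℤ) (finrankAlong K i : ℤ)
  have hg : ((Int.gcd (m : ℤ) (finrankAlong K i : ℤ) : ℕ) : ℤ) = 1 := by
    rw [Int.gcd_natCast_natCast]
    exact_mod_cast hcop
  rw [hg] at hb
  have e : (D : Divisor K F)
      = Int.gcdA (m : ℤ) (finrankAlong K i : ℤ) • ((m : ℤ) • (D : Divisor K F))
        + Int.gcdB (m : ℤ) (finrankAlong K i : ℤ) • ((finrankAlong K i : ℤ) • (D : Divisor K F)) := by
    rw [smul_smul, smul_smul, ← add_smul, mul_comm _ (m : ℤ), mul_comm _ (finrankAlong K i : ℤ),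
      ← hb, one_smul]
  rw [e]
  exact add_mem (AddSubgroup.zsmul_mem _ h2 _) (AddSubgroup.zsmul_mem _ h1 _)

end Fermat.Agent.S37.H155

end

end
-- ===== PACK-END S37/H155/PullAbstract.lean

-- ===== PACK-BEGIN Lib/HI/H864/RelAbstract.lean
section



/-!
# Lib / HI (helper864): places over a principal maximal ideal, abstract form

`R ⊆ S` Dedekind domains (`R` any domain for the first part), `S` finite over `R`, `F = Frac S`,
`p = (τ)` a maximal ideal of `R`.  The places `v` of `F / K` whose valuation ring contains `R` and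
with `0 < v(τ)` are exactly the places `placeOf q` attached to the primes `q` of `S` over `p`.
Consequences: sums over these places are sums over `p.primesOver S`.
-/

set_option autoImplicit false
set_option linter.unusedSectionVars false
set_option linter.style.haveILetI false
set_option linter.unusedVariables false

noncomputable section

open AlgebraicCurve IsDedekindDomain

namespace Fermat.Agent.Lib.HI.H864

open Fermat.Agent.S24 Fermat.Agent.S24.H864

section Rel

variable {K F : Type*} [Field K] [Field F] [Algebra K F]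
variable {S : Type*} [CommRing S] [IsDedekindDomain S] [Algebra S F] [IsFractionRing S F]
  [Algebra K S] [IsScalarTower K S F]
variable {R : Type*} [CommRing R] [IsDomain R] [Algebra R S] [Algebra R F] [IsScalarTower R S F]
  [Module.Finite R S]
variable (p : Ideal R) [hpmax : p.IsMaximal] (τ : R)

/-- the place of `F` attached to a prime of `S` over `p` -/
def placeOf (hp : p = Ideal.span {τ}) (hτ : τ ≠ 0)
    (hinj : Function.Injective (algebraMap R S)) (q : p.primesOver S) : Place K F :=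
  Place.ofHeightOneSpectrum (K := K) (wOf p τ hp hτ hinj q)

omit hpmax [Module.Finite R S] in
theorem placeOf_injective (hp : p = Ideal.span {τ}) (hτ : τ ≠ 0)
    (hinj : Function.Injective (algebraMap R S)) :
    Function.Injective (placeOf (K := K) (F := F) p τ hp hτ hinj) := by
  intro q q' h
  have h1 : wOf p τ hp hτ hinj q = wOf p τ hp hτ hinj q' :=
    ofHeightOneSpectrum_injective (K := K) (F := F) h
  exact Subtype.ext (congrArg HeightOneSpectrum.asIdeal h1)

omit hpmax [Module.Finite R S] in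
theorem ord_placeOf_tau (hp : p = Ideal.span {τ}) (hτ : τ ≠ 0)
    (hinj : Function.Injective (algebraMap R S)) (q : p.primesOver S) :
    (placeOf (K := K) (F := F) p τ hp hτ hinj q).ord (algebraMap R F τ)
      = (q.1.ramificationIdx R : ℤ) :=
  ord_wOf p τ hp hτ hinj q

omit hpmax [Module.Finite R S] in
theorem ord_placeOf_algebraMap (hp : p = Ideal.span {τ}) (hτ : τ ≠ 0)
    (hinj : Function.Injective (algebraMap R S)) (q : p.primesOver S) {a : S} (ha : a ≠ 0) :
    (placeOf (K := K) (F := F) p τ hp hτ hinj q).ord (algebraMap S F a)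
      = (multiplicity q.1 (Ideal.span {a}) : ℤ) :=
  ord_ofHeightOneSpectrum_algebraMap (K := K) (F := F) (wOf p τ hp hτ hinj q) ha

omit hpmax [Module.Finite R S] in
theorem algebraMap_mem_placeOf (hp : p = Ideal.span {τ}) (hτ : τ ≠ 0)
    (hinj : Function.Injective (algebraMap R S)) (q : p.primesOver S) (a : S) :
    algebraMap S F a ∈ (placeOf (K := K) (F := F) p τ hp hτ hinj q).toValuationSubring := by
  rw [placeOf, Place.ofHeightOneSpectrum_toValuationSubring, Valuation.mem_valuationSubring_iff]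
  exact HeightOneSpectrum.valuation_le_one _ a

theorem exists_placeOf_eq (hp : p = Ideal.span {τ}) (hτ : τ ≠ 0)
    (hinj : Function.Injective (algebraMap R S)) (v : Place K F)
    (hv : 0 < v.ord (algebraMap R F τ))
    (hR : ∀ r : R, algebraMap R F r ∈ v.toValuationSubring) :
    ∃ q : p.primesOver S, placeOf (K := K) (F := F) p τ hp hτ hinj q = v := by
  have hτ' : algebraMap R S τ ≠ 0 := fun h => hτ (hinj (by rw [h, map_zero]))
  have hS := algebraMap_mem_of_base (S := S) v hR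
  have hv' : 0 < v.ord (algebraMap S F (algebraMap R S τ)) := by
    rwa [← IsScalarTower.algebraMap_apply R S F]
  obtain ⟨w, hw, hwq⟩ := exists_heightOneSpectrum_of_place v hS hτ' hv'
  have hle : p ≤ w.asIdeal.under R := by
    rw [hp, Ideal.span_singleton_le_iff_mem, Ideal.under_def, Ideal.mem_comap, hwq]
    exact (mem_primeOfPlace v hS hτ').mpr hv'
  have hne : w.asIdeal.under R ≠ ⊤ := (Ideal.IsPrime.under R w.asIdeal).ne_top
  have hq : w.asIdeal ∈ p.primesOver S := ⟨w.isPrime, ⟨hpmax.eq_of_le hne hle⟩⟩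
  refine ⟨⟨w.asIdeal, hq⟩, ?_⟩
  rw [← hw]
  show Place.ofHeightOneSpectrum (K := K) (wOf p τ hp hτ hinj ⟨w.asIdeal, hq⟩) = _
  congr 1

/-- The places over `p` are the image of `placeOf`. -/
theorem image_placeOf [Fintype (p.primesOver S)] [DecidableEq (Place K F)]
    (hp : p = Ideal.span {τ}) (hτ : τ ≠ 0)
    (hinj : Function.Injective (algebraMap R S))
    (s : Finset (Place K F))
    (hs : ∀ v, v ∈ s ↔ (0 < v.ord (algebraMap R F τ) ∧
      ∀ r : R, algebraMap R F r ∈ v.toValuationSubring)) :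
    Finset.univ.image (placeOf (K := K) (F := F) p τ hp hτ hinj) = s := by
  ext v
  rw [Finset.mem_image, hs]
  constructor
  · rintro ⟨q, -, rfl⟩
    refine ⟨?_, fun r => ?_⟩
    · rw [ord_placeOf_tau]
      exact_mod_cast Ideal.ramificationIdx_pos q.1 R
    · rw [IsScalarTower.algebraMap_apply R S F]
      exact algebraMap_mem_placeOf p τ hp hτ hinj q _
  · rintro ⟨hv, hR⟩
    obtain ⟨q, hq⟩ := exists_placeOf_eq p τ hp hτ hinj v hv hR
    exact ⟨q, Finset.mem_univ _, hq⟩

/-- Sums over the places over `p` are sums over `p.primesOver S`. -/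
theorem sum_places_eq_sum_primesOver [Fintype (p.primesOver S)]
    (hp : p = Ideal.span {τ}) (hτ : τ ≠ 0)
    (hinj : Function.Injective (algebraMap R S))
    (s : Finset (Place K F))
    (hs : ∀ v, v ∈ s ↔ (0 < v.ord (algebraMap R F τ) ∧
      ∀ r : R, algebraMap R F r ∈ v.toValuationSubring))
    (h : Place K F → ℤ) :
    ∑ v ∈ s, h v = ∑ q : p.primesOver S, h (placeOf (K := K) (F := F) p τ hp hτ hinj q) := by
  classical
  rw [← image_placeOf p τ hp hτ hinj s hs,
    Finset.sum_image (fun a _ b _ hab => placeOf_injective p τ hp hτ hinj hab)]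

section Main

variable [IsAlgClosed K] [Algebra K R] [IsScalarTower K R S] [Module.Flat R S]

/-- **Relative fundamental identity, abstract form.** -/
theorem sum_ord_tau_eq_finrank
    (hp : p = Ideal.span {τ}) (hτ : τ ≠ 0) (hinj : Function.Injective (algebraMap R S))
    (hres : ∀ r : R, ∃ c : K, r - algebraMap K R c ∈ p)
    (s : Finset (Place K F))
    (hs : ∀ v, v ∈ s ↔ (0 < v.ord (algebraMap R F τ) ∧
      ∀ r : R, algebraMap R F r ∈ v.toValuationSubring)) :
    ∑ v ∈ s, v.ord (algebraMap R F τ) = (Module.finrank R S : ℤ) := by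
  classical
  haveI : Fintype (p.primesOver S) := (Algebra.QuasiFinite.finite_primesOver p).fintype
  have hsum := Ideal.sum_ramification_inertia_eq_finrank p S
  rw [sum_places_eq_sum_primesOver p τ hp hτ hinj s hs, ← hsum]
  push_cast
  refine Finset.sum_congr rfl fun q _ => ?_
  rw [ord_placeOf_tau, inertiaDeg_eq_one p hres q, Nat.cast_one, mul_one]

end Main

end Rel

section Norm

variable {K F : Type*} [Field K] [Field F] [Algebra K F]
variable {S : Type*} [CommRing S] [IsDedekindDomain S] [Algebra S F] [IsFractionRing S F]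
  [Algebra K S] [IsScalarTower K S F]
variable {R : Type*} [CommRing R] [IsDedekindDomain R] [Algebra R S] [Algebra R F]
  [IsScalarTower R S F] [Module.Finite R S] [Module.IsTorsionFree R S]
  [PerfectField (FractionRing R)]
variable [IsAlgClosed K] [Algebra K R] [IsScalarTower K R S]
variable (p : Ideal R) [hpmax : p.IsMaximal] (τ : R)

/-- **Norm formula, abstract form**: the sum of the orders of `a ∈ S` at the places over `p`
is the multiplicity of `p` in the ideal generated by the norm of `a`. -/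
theorem sum_ord_eq_multiplicity_intNorm
    (hp : p = Ideal.span {τ}) (hτ : τ ≠ 0) (hinj : Function.Injective (algebraMap R S))
    (hres : ∀ r : R, ∃ c : K, r - algebraMap K R c ∈ p)
    (s : Finset (Place K F))
    (hs : ∀ v, v ∈ s ↔ (0 < v.ord (algebraMap R F τ) ∧
      ∀ r : R, algebraMap R F r ∈ v.toValuationSubring))
    {a : S} (ha : a ≠ 0) :
    ∑ v ∈ s, v.ord (algebraMap S F a)
      = (multiplicity p (Ideal.span {Algebra.intNorm R S a}) : ℤ) := by
  classical
  haveI : Fintype (p.primesOver S) := (Algebra.QuasiFinite.finite_primesOver p).fintype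
  have hp0 : p ≠ ⊥ := by
    rw [hp, Ne, Ideal.span_singleton_eq_bot]
    exact hτ
  have hI : Ideal.span {a} ≠ (⊥ : Ideal S) := by
    rw [Ne, Ideal.span_singleton_eq_bot]
    exact ha
  rw [sum_places_eq_sum_primesOver p τ hp hτ hinj s hs, ← Ideal.relNorm_singleton,
    multiplicity_relNorm_eq_sum p hp0 _ hI]
  push_cast
  refine Finset.sum_congr rfl fun q _ => ?_
  rw [ord_placeOf_algebraMap p τ hp hτ hinj q ha, inertiaDeg_eq_one p hres q, Nat.cast_one,
    one_mul]

end Norm

end Fermat.Agent.Lib.HI.H864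

end
end
-- ===== PACK-END Lib/HI/H864/RelAbstract.lean

-- ===== PACK-BEGIN Lib/HI/H864/RelPlace.lean
section




/-!
# Lib / HI (helper864): the fibre of a place in a finite extension of function fields

`K` algebraically closed of characteristic `0`, `F'/F` a finite extension of function fields of
one variable over `K`, `v` a place of `F`.  With `R = O_v` and `S` the integral closure of `R` in
`F'`:

* `sum_fiber_ord_uniformizer` : `∑_{w | v} w(τ) = [F' : F]` for a uniformizer `τ` of `v`;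
* `sum_fiber_ord_eq_ord_norm` : `∑_{w | v} w(f) = v(N_{F'/F} f)`.
-/

set_option autoImplicit false
set_option linter.unusedSectionVars false
set_option linter.style.haveILetI false
set_option linter.unusedVariables false

noncomputable section

open AlgebraicCurve IsDedekindDomain IntermediateField

namespace Fermat.Agent.Lib.HI.H864

open Fermat.Agent.S24

section

variable {K F F' : Type*} [Field K] [Field F] [Field F'] [Algebra K F] [Algebra K F']
  [Algebra F F'] [IsScalarTower K F F']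

theorem flat_of_torsionFree (R S : Type*) [CommRing R] [IsDedekindDomain R] [CommRing S]
    [Algebra R S] [Module.IsTorsionFree R S] : Module.Flat R S := inferInstance

theorem torsionFree_integralClosure (v : Place K F) :
    Module.IsTorsionFree v.toValuationSubring (integralClosure v.toValuationSubring F') :=
  inferInstance

theorem isScalarTower_valuationSubring (v : Place K F) :
    IsScalarTower K v.toValuationSubring F' :=
  IsScalarTower.of_algebraMap_eq fun a => by
    rw [IsScalarTower.algebraMap_apply K F F']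
    rfl

/-- `ord` on the valuation ring is the multiplicity of the maximal ideal. -/
theorem ord_coe_eq_multiplicity (v : Place K F) {r : v.toValuationSubring} (hr : r ≠ 0) :
    v.ord (r : F) = (multiplicity (IsLocalRing.maximalIdeal v.toValuationSubring)
      (Ideal.span {r}) : ℤ) := by
  show -(WithZero.log (v.heightOneSpectrum.valuation F (algebraMap v.toValuationSubring F r))) = _
  rw [HeightOneSpectrum.valuation_of_algebraMap,
    HeightOneSpectrum.intValuation_eq_exp_neg_multiplicity _ hr, WithZero.log_exp, neg_neg,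
    Place.heightOneSpectrum_asIdeal]

section Fiber

variable [Algebra.IsIntegral F F']

/-- A place `w` of `F'` restricts to `v` iff its valuation ring contains `O_v`. -/
theorem restrict_eq_iff (v : Place K F) (w : Place K F') :
    w.restrict F = v ↔
      ∀ r : v.toValuationSubring, algebraMap F F' (r : F) ∈ w.toValuationSubring := by
  constructor
  · rintro rfl r
    exact (Place.mem_restrict_iff w).mp r.2
  · intro h
    apply Place.ext
    symm
    refine ValuationSubring.eq_of_le_of_ne_top _ ?_ (w.restrict F).ne_top'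
    intro r hr
    exact (Place.mem_restrict_iff w).mpr (h ⟨r, hr⟩)

theorem ord_algebraMap_of_restrict_eq {v : Place K F} {w : Place K F'} (hw : w.restrict F = v)
    (f : F) : w.ord (algebraMap F F' f) = (w.ramificationIndex F : ℤ) * v.ord f := by
  rw [w.ord_restrict f, hw]

theorem ord_uniformizer_of_restrict_eq {v : Place K F} {w : Place K F'} (hw : w.restrict F = v)
    {τ : v.toValuationSubring} (hτ : Irreducible τ) :
    w.ord (algebraMap F F' (τ : F)) = (w.ramificationIndex F : ℤ) := by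
  rw [ord_algebraMap_of_restrict_eq hw, v.ord_coe_irreducible hτ, mul_one]

theorem fiber_iff [HasPrincipalDivisors K F'] (v : Place K F) {τ : v.toValuationSubring}
    (hτ : Irreducible τ) (w : Place K F') :
    w ∈ v.fiber F' ↔ (0 < w.ord (algebraMap v.toValuationSubring F' τ) ∧
      ∀ r : v.toValuationSubring, algebraMap v.toValuationSubring F' r ∈ w.toValuationSubring) := by
  rw [Place.mem_fiber, restrict_eq_iff]
  constructor
  · intro h
    refine ⟨?_, h⟩
    have hw : w.restrict F = v := (restrict_eq_iff v w).mpr h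
    show 0 < w.ord (algebraMap F F' (τ : F))
    rw [ord_uniformizer_of_restrict_eq hw hτ]
    exact_mod_cast w.ramificationIndex_pos (F := F)
  · rintro ⟨-, h⟩
    exact h

end Fiber

section Main

variable [IsAlgClosed K] [CharZero K] [FiniteDimensional F F'] [HasPrincipalDivisors K F']

theorem exists_const_sub_mem_maximalIdeal (x : F) (hx : Transcendental K x)
    [FiniteDimensional K⟮x⟯ F] (v : Place K F) (r : v.toValuationSubring) :
    ∃ c : K, r - algebraMap K v.toValuationSubring c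
      ∈ IsLocalRing.maximalIdeal v.toValuationSubring := by
  obtain ⟨a, ha⟩ := FF.exists_const_sub_mem_nonunits v hx r.2
  refine ⟨a, ?_⟩
  rw [← ValuationSubring.coe_mem_nonunits_iff]
  exact ha

/-- **Relative fundamental identity** for a uniformizer. -/
theorem sum_fiber_ord_uniformizer (x : F) (hx : Transcendental K x)
    [FiniteDimensional K⟮x⟯ F] (v : Place K F) {τ : v.toValuationSubring}
    (hτ : Irreducible τ) :
    ∑ w ∈ v.fiber F', w.ord (algebraMap F F' (τ : F)) = (Module.finrank F F' : ℤ) := by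
  haveI : Module.IsTorsionFree v.toValuationSubring (integralClosure v.toValuationSubring F') :=
    torsionFree_integralClosure v
  haveI : Module.Flat v.toValuationSubring (integralClosure v.toValuationSubring F') :=
    flat_of_torsionFree _ _
  haveI : IsScalarTower K v.toValuationSubring F' := isScalarTower_valuationSubring v
  haveI : CharZero F := charZero_of_injective_algebraMap (algebraMap K F).injective
  haveI : IsScalarTower v.toValuationSubring (integralClosure v.toValuationSubring F') F' :=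
    Subalgebra.isScalarTower_mid _
  haveI : IsFractionRing (integralClosure v.toValuationSubring F') F' :=
    integralClosure.isFractionRing_of_finite_extension F F'
  haveI : IsDedekindDomain (integralClosure v.toValuationSubring F') :=
    IsIntegralClosure.isDedekindDomain v.toValuationSubring F F'
      (integralClosure v.toValuationSubring F')
  haveI : Module.Finite v.toValuationSubring (integralClosure v.toValuationSubring F') :=
    IsIntegralClosure.finite v.toValuationSubring F F' (integralClosure v.toValuationSubring F')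
  have hfin : Module.finrank F F'
      = Module.finrank v.toValuationSubring (integralClosure v.toValuationSubring F') :=
    IsFractionRing.finrank_eq v.toValuationSubring F (integralClosure v.toValuationSubring F') F'
  haveI hmax : (IsLocalRing.maximalIdeal v.toValuationSubring).IsMaximal :=
    IsLocalRing.maximalIdeal.isMaximal _
  have hinj : Function.Injective
      (algebraMap v.toValuationSubring (integralClosure v.toValuationSubring F')) := by
    intro a b hab
    have := congrArg (algebraMap (integralClosure v.toValuationSubring F') F') hab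
    rw [← IsScalarTower.algebraMap_apply, ← IsScalarTower.algebraMap_apply] at this
    exact Subtype.ext ((algebraMap F F').injective this)
  rw [hfin]
  exact sum_ord_tau_eq_finrank (K := K) (F := F')
    (S := integralClosure v.toValuationSubring F') (R := v.toValuationSubring)
    (IsLocalRing.maximalIdeal v.toValuationSubring) τ hτ.maximalIdeal_eq hτ.ne_zero hinj
    (exists_const_sub_mem_maximalIdeal x hx v) (v.fiber F') (fiber_iff v hτ)

/-- Over an algebraically closed constant field all inertia degrees are `1`. -/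
theorem place_inertiaDeg_eq_one (x : F) (hx : Transcendental K x) [FiniteDimensional K⟮x⟯ F]
    (x' : F') (hx' : Transcendental K x') [FiniteDimensional K⟮x'⟯ F'] (w : Place K F') :
    w.inertiaDeg F = 1 := by
  have h := w.deg_restrict_mul_inertiaDeg (F := F)
  rw [FF.deg_eq_one (w.restrict F) hx, FF.deg_eq_one w hx', one_mul] at h
  exact h

/-- **`∑ e f = n`** in the language of places. -/
theorem sumRamificationInertia (x : F) (hx : Transcendental K x) [FiniteDimensional K⟮x⟯ F]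
    (x' : F') (hx' : Transcendental K x') [FiniteDimensional K⟮x'⟯ F'] :
    SumRamificationInertia K F F' where
  sum_ramificationIndex_mul_inertiaDeg v := by
    obtain ⟨τ, hτ⟩ := IsDiscreteValuationRing.exists_irreducible v.toValuationSubring
    rw [← sum_fiber_ord_uniformizer x hx v hτ]
    refine Finset.sum_congr rfl fun w hw => ?_
    rw [ord_uniformizer_of_restrict_eq (Place.mem_fiber.mp hw) hτ,
      place_inertiaDeg_eq_one x hx x' hx' w, Nat.cast_one, mul_one]

/-- Norm formula for integral elements. -/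
theorem sum_fiber_ord_integral (x : F) (hx : Transcendental K x)
    [FiniteDimensional K⟮x⟯ F] (v : Place K F)
    {a : integralClosure v.toValuationSubring F'} (ha : a ≠ 0) :
    ∑ w ∈ v.fiber F', w.ord (a : F') = v.ord (Algebra.norm F (a : F')) := by
  obtain ⟨τ, hτ⟩ := IsDiscreteValuationRing.exists_irreducible v.toValuationSubring
  haveI : Module.IsTorsionFree v.toValuationSubring (integralClosure v.toValuationSubring F') :=
    torsionFree_integralClosure v
  haveI : IsScalarTower K v.toValuationSubring F' := isScalarTower_valuationSubring v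
  haveI : CharZero F := charZero_of_injective_algebraMap (algebraMap K F).injective
  haveI : CharZero v.toValuationSubring :=
    charZero_of_injective_algebraMap (algebraMap K v.toValuationSubring).injective
  haveI : CharZero (FractionRing v.toValuationSubring) :=
    charZero_of_injective_algebraMap
      (IsFractionRing.injective v.toValuationSubring (FractionRing v.toValuationSubring))
  haveI : PerfectField (FractionRing v.toValuationSubring) := PerfectField.ofCharZero
  haveI : IsScalarTower v.toValuationSubring (integralClosure v.toValuationSubring F') F' :=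
    Subalgebra.isScalarTower_mid _
  haveI : IsFractionRing (integralClosure v.toValuationSubring F') F' :=
    integralClosure.isFractionRing_of_finite_extension F F'
  haveI : IsDedekindDomain (integralClosure v.toValuationSubring F') :=
    IsIntegralClosure.isDedekindDomain v.toValuationSubring F F'
      (integralClosure v.toValuationSubring F')
  haveI : Module.Finite v.toValuationSubring (integralClosure v.toValuationSubring F') :=
    IsIntegralClosure.finite v.toValuationSubring F F' (integralClosure v.toValuationSubring F')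
  haveI hmax : (IsLocalRing.maximalIdeal v.toValuationSubring).IsMaximal :=
    IsLocalRing.maximalIdeal.isMaximal _
  have hinj : Function.Injective
      (algebraMap v.toValuationSubring (integralClosure v.toValuationSubring F')) := by
    intro a b hab
    have := congrArg (algebraMap (integralClosure v.toValuationSubring F') F') hab
    rw [← IsScalarTower.algebraMap_apply, ← IsScalarTower.algebraMap_apply] at this
    exact Subtype.ext ((algebraMap F F').injective this)
  have h1 := sum_ord_eq_multiplicity_intNorm (K := K) (F := F')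
    (S := integralClosure v.toValuationSubring F') (R := v.toValuationSubring)
    (IsLocalRing.maximalIdeal v.toValuationSubring) τ hτ.maximalIdeal_eq hτ.ne_zero hinj
    (exists_const_sub_mem_maximalIdeal x hx v) (v.fiber F') (fiber_iff v hτ) ha
  have h3 : algebraMap v.toValuationSubring F
      (Algebra.intNorm v.toValuationSubring (integralClosure v.toValuationSubring F') a)
        = Algebra.norm F (algebraMap (integralClosure v.toValuationSubring F') F' a) :=
    Algebra.algebraMap_intNorm (A := v.toValuationSubring) (K := F) (L := F')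
      (B := integralClosure v.toValuationSubring F') a
  have ha' : (a : F') ≠ 0 := fun h => ha (Subtype.ext h)
  have hn0 : Algebra.intNorm v.toValuationSubring (integralClosure v.toValuationSubring F') a
      ≠ 0 := by
    intro h0
    rw [h0, map_zero] at h3
    exact (Algebra.norm_ne_zero_iff.mpr ha') h3.symm
  have h2 := ord_coe_eq_multiplicity v hn0
  have h4 : (algebraMap (integralClosure v.toValuationSubring F') F' a) = (a : F') := rfl
  rw [h4] at h1 h3
  rw [h1, ← h2, ← h3]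
  rfl

/-- **Norm formula**: `∑_{w | v} w(f) = v(N_{F'/F} f)`. -/
theorem sum_fiber_ord_eq_ord_norm (x : F) (hx : Transcendental K x)
    [FiniteDimensional K⟮x⟯ F] (v : Place K F) {f : F'} (hf : f ≠ 0) :
    ∑ w ∈ v.fiber F', w.ord f = v.ord (Algebra.norm F f) := by
  haveI : CharZero F := charZero_of_injective_algebraMap (algebraMap K F).injective
  haveI : IsScalarTower v.toValuationSubring (integralClosure v.toValuationSubring F') F' :=
    Subalgebra.isScalarTower_mid _
  haveI : IsFractionRing (integralClosure v.toValuationSubring F') F' :=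
    integralClosure.isFractionRing_of_finite_extension F F'
  obtain ⟨a, b, hb, hab⟩ :=
    IsFractionRing.div_surjective (A := integralClosure v.toValuationSubring F') f
  have hb0 : b ≠ 0 := nonZeroDivisors.ne_zero hb
  have hb' : (b : F') ≠ 0 := fun h => hb0 (Subtype.ext h)
  have hfb : f * (b : F') = (a : F') := by
    have h1 : algebraMap (integralClosure v.toValuationSubring F') F' a = (a : F') := rfl
    have h2 : algebraMap (integralClosure v.toValuationSubring F') F' b = (b : F') := rfl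
    rw [h1, h2] at hab
    rw [← hab, div_mul_cancel₀ _ hb']
  have ha' : (a : F') ≠ 0 := by
    rw [← hfb]
    exact mul_ne_zero hf hb'
  have ha0 : a ≠ 0 := fun h => ha' (by rw [h]; rfl)
  have hA := sum_fiber_ord_integral x hx v ha0
  have hB := sum_fiber_ord_integral x hx v hb0
  have hsum : ∑ w ∈ v.fiber F', w.ord (a : F')
      = ∑ w ∈ v.fiber F', w.ord f + ∑ w ∈ v.fiber F', w.ord (b : F') := by
    rw [← Finset.sum_add_distrib]
    refine Finset.sum_congr rfl fun w _ => ?_
    rw [← hfb, w.ord_mul hf hb']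
  have hnorm : Algebra.norm F (a : F') = Algebra.norm F f * Algebra.norm F (b : F') := by
    rw [← hfb, map_mul]
  have hNf : Algebra.norm F f ≠ 0 := Algebra.norm_ne_zero_iff.mpr hf
  have hNb : Algebra.norm F (b : F') ≠ 0 := Algebra.norm_ne_zero_iff.mpr hb'
  rw [hnorm, v.ord_mul hNf hNb] at hA
  omega

/-- **Push-forward of principal divisors is given by the norm.** -/
theorem pushforwardNormFormula (x : F) (hx : Transcendental K x) [FiniteDimensional K⟮x⟯ F]
    (x' : F') (hx' : Transcendental K x') [FiniteDimensional K⟮x'⟯ F'] :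
    Divisor.PushforwardNormFormula K F F' := by
  classical
  intro f hf D hD v
  rw [Divisor.pushforward_apply, ← sum_fiber_ord_eq_ord_norm x hx v hf]
  have h1 : ∀ w ∈ D.support, (if w.restrict F = v then D w * (w.inertiaDeg F : ℤ) else 0)
      = if w ∈ v.fiber F' then w.ord f else 0 := by
    intro w _
    by_cases hwv : w.restrict F = v
    · rw [if_pos hwv, if_pos (Place.mem_fiber.mpr hwv), hD,
        place_inertiaDeg_eq_one x hx x' hx' w, Nat.cast_one, mul_one]
    · rw [if_neg hwv, if_neg (fun h => hwv (Place.mem_fiber.mp h))]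
  rw [Finset.sum_congr rfl h1, ← Finset.sum_filter]
  refine Finset.sum_subset (fun w hw => (Finset.mem_filter.mp hw).2) ?_
  intro w hw hnot
  rw [Finset.mem_filter, not_and_or] at hnot
  rcases hnot with h | h
  · rw [Finsupp.mem_support_iff, not_not, hD] at h
    exact h
  · exact absurd hw h

end Main

end

end Fermat.Agent.Lib.HI.H864

end
end
-- ===== PACK-END Lib/HI/H864/RelPlace.lean

-- ===== PACK-BEGIN Lib/HI/H864/Along.lean
section





/-!
# Lib / HI (helper864): the five inputs of a correspondence, along an embedding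

`K` algebraically closed of characteristic `0`, `φ : F →ₐ[K] F'` an embedding of function fields
of one variable (`x ∈ F` transcendental, `F / K(x)` and `F' / K(φ x)` finite).  Then, in the
language of the Prelude (`Def_AlgebraicCurve_Correspondence`):

* `isIntegral_along_of_finite` : `φ.toRingHom.IsIntegral`
* `finiteAlong`                : `FiniteAlong K φ`
* `hasPrincipalDivisors`       : `HasPrincipalDivisors K F'`
* `fundamentalIdentityAlong`   : `FundamentalIdentityAlong K φ hφ`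
* `normFormulaAlong`           : `NormFormulaAlong K φ hfin`
-/

set_option autoImplicit false
set_option linter.unusedSectionVars false
set_option linter.style.haveILetI false
set_option linter.unusedVariables false

noncomputable section

open AlgebraicCurve IsDedekindDomain IntermediateField

namespace Fermat.Agent.Lib.HI.H864

open Fermat.Agent.S24

section Finite

variable {K F F' : Type*} [Field K] [Field F] [Field F'] [Algebra K F] [Algebra K F']
  [Algebra F F'] [IsScalarTower K F F']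

/-- If `F'` is finite over `K(x')` with `x'` the image of `x ∈ F`, then `F'` is finite over `F`. -/
theorem finite_of_adjoin (x : F) [hfin : FiniteDimensional K⟮algebraMap F F' x⟯ F'] :
    FiniteDimensional F F' := by
  obtain ⟨s, hs⟩ := (Module.Finite.fg_top : (⊤ : Submodule K⟮algebraMap F F' x⟯ F').FG)
  refine ⟨⟨s, ?_⟩⟩
  have hle : K⟮algebraMap F F' x⟯ ≤ (IsScalarTower.toAlgHom K F F').fieldRange := by
    rw [IntermediateField.adjoin_simple_le_iff]
    exact ⟨x, rfl⟩
  have key : ∀ y ∈ Submodule.span K⟮algebraMap F F' x⟯ (s : Set F'),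
      y ∈ Submodule.span F (s : Set F') := by
    intro y hy
    induction hy using Submodule.span_induction with
    | mem z hz => exact Submodule.subset_span hz
    | zero => exact zero_mem _
    | add a b _ _ ha hb => exact add_mem ha hb
    | smul c z _ hz =>
      obtain ⟨c', hc'⟩ := hle c.2
      have h1 : c • z = c' • z := by
        rw [Algebra.smul_def, Algebra.smul_def]
        congr 1
        exact hc'.symm
      rw [h1]
      exact Submodule.smul_mem _ _ hz
  rw [eq_top_iff]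
  intro y _
  exact key y (by rw [hs]; trivial)

end Finite

section HPD

variable {K F : Type*} [Field K] [Field F] [Algebra K F] [IsAlgClosed K] [CharZero K]

/-- divisors of functions exist (finitely many zeros and poles) and have degree `0` -/
theorem exists_divisor (x : F) (hx : Transcendental K x)
    [FiniteDimensional ↥(IntermediateField.adjoin K {x}) F] (f : F) (hf : f ≠ 0) :
    ∃ D : Divisor K F, (∀ v : Place K F, D v = v.ord f) ∧ Divisor.degree D = 0 := by
  classical
  suffices h : ∃ D : Divisor K F, ∀ v : Place K F, D v = v.ord f by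
    obtain ⟨D, hD⟩ := h
    exact ⟨D, hD, S24.H864.degree_principal x hx f hf D hD⟩
  by_cases hfK : f ∈ (algebraMap K F).range
  · obtain ⟨c, rfl⟩ := hfK
    exact ⟨0, fun v => by rw [S24.FF.ord_algebraMap v c]; rfl⟩
  · have hft : Transcendental K f := S24.FF.transcendental_of_not_mem_range hfK
    haveI : FiniteDimensional ↥(IntermediateField.adjoin K {f}) F :=
      S24.FF.finiteDimensional_adjoin_of_transcendental hx hft
    haveI : FiniteDimensional ↥(IntermediateField.adjoin K {f⁻¹}) F := by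
      rw [S24.H864.adjoin_simple_inv_eq]; infer_instance
    obtain ⟨sp, hsp⟩ := S24.H864.exists_finset_zeros f hft
    obtain ⟨sn, hsn⟩ := S24.H864.exists_finset_zeros f⁻¹ (S24.H864.transcendental_inv hft)
    refine ⟨Finsupp.onFinset (sp ∪ sn) (fun v => v.ord f) ?_, fun v => rfl⟩
    intro v hv
    rw [Finset.mem_union, hsp, hsn, Place.ord_inv]
    omega

theorem hasPrincipalDivisors (x : F) (hx : Transcendental K x)
    [FiniteDimensional ↥(IntermediateField.adjoin K {x}) F] : HasPrincipalDivisors K F :=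
  ⟨fun f hf => exists_divisor x hx f hf⟩

end HPD

section Along

variable {K F F' : Type*} [Field K] [Field F] [Field F'] [Algebra K F] [Algebra K F']
  [IsAlgClosed K] [CharZero K]
variable (φ : F →ₐ[K] F') (x : F)

theorem transcendental_map (hx : Transcendental K x) : Transcendental K (φ x) := by
  intro h
  exact hx ((isAlgebraic_algHom_iff φ φ.injective).mp h)

theorem finiteAlong [hfin : FiniteDimensional K⟮φ x⟯ F'] : FiniteAlong K φ := by
  unfold FiniteAlong
  letI := algebraAlong φ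
  haveI := isScalarTower_along φ
  haveI : FiniteDimensional K⟮algebraMap F F' x⟯ F' := hfin
  exact finite_of_adjoin (K := K) x

theorem isIntegral_along_of_finite [hfin : FiniteDimensional K⟮φ x⟯ F'] :
    φ.toRingHom.IsIntegral := by
  letI := algebraAlong φ
  haveI : Module.Finite F F' := finiteAlong φ x
  exact (Algebra.IsIntegral.of_finite F F').isIntegral

theorem fundamentalIdentityAlong (hx : Transcendental K x) [FiniteDimensional K⟮x⟯ F]
    [hfin : FiniteDimensional K⟮φ x⟯ F'] [HasPrincipalDivisors K F']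
    (hφ : φ.toRingHom.IsIntegral) : FundamentalIdentityAlong K φ hφ := by
  unfold FundamentalIdentityAlong
  letI := algebraAlong φ
  haveI := isScalarTower_along φ
  haveI : FiniteDimensional F F' := finiteAlong φ x
  haveI : SumRamificationInertia K F F' :=
    sumRamificationInertia x hx (φ x) (transcendental_map φ x hx)
  exact instFundamentalIdentityOfSumRamificationInertia

theorem normFormulaAlong (hx : Transcendental K x) [FiniteDimensional K⟮x⟯ F]
    [hfin : FiniteDimensional K⟮φ x⟯ F']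
    (hfin' : FiniteAlong K φ) : NormFormulaAlong K φ hfin' := by
  unfold NormFormulaAlong
  letI := algebraAlong φ
  haveI := isScalarTower_along φ
  haveI : FiniteDimensional F F' := hfin'
  haveI : HasPrincipalDivisors K F' :=
    hasPrincipalDivisors (φ x) (transcendental_map φ x hx)
  exact pushforwardNormFormula x hx (φ x) (transcendental_map φ x hx)

end Along

end Fermat.Agent.Lib.HI.H864

end
end
-- ===== PACK-END Lib/HI/H864/Along.lean

-- ===== PACK-BEGIN A2/H348/Conn.lean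
section



/-!
# A2 / piece E (ALG_ss), part 5: the connectedness input from S18 (`H138.connected_special_fibre`)

`R` a noetherian domain with `R[X]` integrally closed, `F ⊇ R` a field of characteristic `0`,
`x ∈ F` transcendental over `R`, `F` finite over `Frac R (x)`.  For every finite field extension
`L / F` in which `R` is integrally closed (constants do not grow), the special fibre of the
normalisation of the `x`-line model in `L` is connected: `ConnAt w B_fin B_inf B_mid L`
(`conn_of_const`).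
-/

set_option autoImplicit false
set_option linter.unusedSectionVars false
set_option linter.style.haveILetI false

open Polynomial

namespace Fermat.Agent.A2.H348

open Fermat.Agent.S18.H138 (chart baseField)

section Adapter

variable {R F L : Type*} [CommRing R] [Field F] [Field L] [Algebra R F] [Algebra F L]
  [Algebra R L] [IsScalarTower R F L]

/-- integrality over a subalgebra `T ⊆ F` and over its image in `L`. -/
theorem isIntegral_map_iff (T : Subalgebra R F) (e : L) :
    IsIntegral (T.map (IsScalarTower.toAlgHom R F L)) e ↔ IsIntegral T e := by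
  have hinj : Function.Injective (IsScalarTower.toAlgHom R F L) := (algebraMap F L).injective
  set ψ := Subalgebra.equivMapOfInjective T (IsScalarTower.toAlgHom R F L) hinj with hψ
  constructor
  · intro h
    have := IsIntegral.map_of_comp_eq (R := T.map (IsScalarTower.toAlgHom R F L)) (S := L)
      (T := T) (U := L) (ψ.symm : _ →+* _) (RingHom.id L) (by
        ext a
        obtain ⟨b, rfl⟩ := ψ.surjective a
        simp only [RingHom.coe_comp, Function.comp_apply, RingHom.coe_coe,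
          AlgEquiv.symm_apply_apply, RingHom.id_apply]
        rfl) h
    simpa using this
  · intro h
    have := IsIntegral.map_of_comp_eq (R := T) (S := L)
      (T := T.map (IsScalarTower.toAlgHom R F L)) (U := L) (ψ : _ →+* _) (RingHom.id L) (by
        ext a
        rfl) h
    simpa using this

/-- integrality over a chart of `F` is integrality over the generating subalgebra. -/
theorem isIntegral_chart_iff (S : Set F) (e : L) :
    IsIntegral (chart R S) e ↔ IsIntegral (Algebra.adjoin R S) e := by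
  constructor
  · intro h
    -- transitivity
    set T := Algebra.adjoin R S with hT
    have h1 : IsIntegral (integralClosure T F) e := by
      have := IsIntegral.map_of_comp_eq (R := chart R S) (S := L)
        (T := integralClosure T F) (U := L)
        (RingHom.id _ : (integralClosure T F) →+* (integralClosure T F)) (RingHom.id L) (by
          ext a
          rfl) h
      simpa using this
    exact isIntegral_trans (R := T) (A := integralClosure T F) e h1
  · intro h
    exact _root_.Fermat.Agent.A2.H348.isIntegral_of_le (Fermat.Agent.S18.H138.adjoin_le_chart S) h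

/-- membership in a chart of `L` in terms of integrality over the chart of `F`. -/
theorem mem_chart_image_iff (S : Set F) (e : L) :
    e ∈ chart R ((algebraMap F L) '' S) ↔ IsIntegral (chart R S) e := by
  rw [isIntegral_chart_iff, ← isIntegral_map_iff, AlgHom.map_adjoin]
  rfl

end Adapter

section Conn

variable {R F L : Type*} [CommRing R] [Field F] [Field L] [Algebra R F] [Algebra F L]
  [Algebra R L] [IsScalarTower R F L]

/-- `L` is finite over the base field of the `x`-line. -/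
theorem finiteDimensional_baseField [FiniteDimensional F L] (x : F)
    [FiniteDimensional (baseField R x) F] :
    FiniteDimensional (baseField R (algebraMap F L x)) L := by
  set K := baseField R x with hK
  set K' := baseField R (algebraMap F L x) with hK'
  have hle : K ≤ K'.comap (algebraMap F L) := by
    refine Subfield.closure_le.2 ?_
    rintro y (⟨r, rfl⟩ | hy)
    · show algebraMap F L (algebraMap R F r) ∈ K'
      rw [← IsScalarTower.algebraMap_apply]
      exact Subfield.subset_closure (Or.inl ⟨r, rfl⟩)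
    · rw [Set.mem_singleton_iff] at hy
      subst hy
      exact Subfield.subset_closure (Or.inr rfl)
  haveI : Module.Finite K L := Module.Finite.trans F L
  let φ : K →+* K' :=
    { toFun := fun a => ⟨algebraMap F L a, hle a.2⟩
      map_one' := Subtype.ext (map_one _)
      map_mul' := fun a b => Subtype.ext (map_mul _ _ _)
      map_zero' := Subtype.ext (map_zero _)
      map_add' := fun a b => Subtype.ext (map_add _ _ _) }
  letI : Algebra K K' := φ.toAlgebra
  haveI : IsScalarTower K K' L := IsScalarTower.of_algebraMap_eq fun _ => rfl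
  exact Module.Finite.of_restrictScalars_finite K K' L

variable [IsNoetherianRing R] [IsIntegrallyClosed R[X]] [CharZero F]

/-- **Connectedness of the special fibre** of the normalisation of the `x`-line model in a
finite extension `L / F` with the same constants, in the language of `ConnAt`. -/
theorem conn_of_const [FiniteDimensional F L] (hinjR : Function.Injective (algebraMap R F))
    {x : F} (hx : Transcendental R x) [FiniteDimensional (baseField R x) F]
    (w : R) (hw : Prime w)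
    (hRL : ∀ y : L, IsIntegral R y → y ∈ Set.range (algebraMap R L)) :
    ConnAt w (chart R ({x} : Set F)) (chart R ({x⁻¹} : Set F)) (chart R ({x, x⁻¹} : Set F)) L := by
  intro e₁ e₂ he₁ he₂ hi1 hi2 h12
  haveI := finiteDimensional_baseField (R := R) (L := L) x
  haveI : CharZero L := charZero_of_injective_algebraMap (algebraMap F L).injective
  set x' : L := algebraMap F L x with hx'def
  have hx' : Transcendental R x' :=
    (transcendental_algebraMap_iff (algebraMap F L).injective).2 hx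
  have hinjL : Function.Injective (algebraMap R L) := by
    rw [IsScalarTower.algebraMap_eq R F L]
    exact (algebraMap F L).injective.comp hinjR
  have himg1 : (algebraMap F L) '' ({x} : Set F) = {x'} := Set.image_singleton
  have himg2 : (algebraMap F L) '' ({x⁻¹} : Set F) = {x'⁻¹} := by
    rw [Set.image_singleton, map_inv₀]
  have himg3 : (algebraMap F L) '' ({x, x⁻¹} : Set F) = {x', x'⁻¹} := by
    rw [Set.image_pair, map_inv₀]
  have hw' : algebraMap F L (algebraMap R F w) = algebraMap R L w :=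
    (IsScalarTower.algebraMap_apply R F L w).symm
  have m1 : ∀ e : L, e ∈ chart R ({x'} : Set L) ↔ IsIntegral (chart R ({x} : Set F)) e :=
    fun e => by rw [← himg1]; exact mem_chart_image_iff _ e
  have m2 : ∀ e : L, e ∈ chart R ({x'⁻¹} : Set L) ↔ IsIntegral (chart R ({x⁻¹} : Set F)) e :=
    fun e => by rw [← himg2]; exact mem_chart_image_iff _ e
  have m3 : ∀ e : L, e ∈ chart R ({x', x'⁻¹} : Set L) ↔
      IsIntegral (chart R ({x, x⁻¹} : Set F)) e :=
    fun e => by rw [← himg3]; exact mem_chart_image_iff _ e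
  rw [hw'] at hi1 hi2 h12 ⊢
  have := Fermat.Agent.S18.H138.connected_special_fibre hinjL hRL hx' w hw e₁ e₂
    ((m1 e₁).2 he₁) ((m2 e₂).2 he₂)
    (by obtain ⟨t, ht, h⟩ := hi1; exact ⟨t, (m1 t).2 ht, h⟩)
    (by obtain ⟨t, ht, h⟩ := hi2; exact ⟨t, (m2 t).2 ht, h⟩)
    (by obtain ⟨t, ht, h⟩ := h12; exact ⟨t, (m3 t).2 ht, h⟩)
  rcases this with ⟨⟨t, ht, h⟩, -⟩ | ⟨⟨t, ht, h⟩, -⟩
  · left
    exact ⟨t, (m1 t).1 ht, h⟩
  · right
    exact ⟨t, (m1 t).1 ht, h⟩

end Conn

end Fermat.Agent.A2.H348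

end
-- ===== PACK-END A2/H348/Conn.lean

-- ===== PACK-BEGIN A2/H348/Final.lean
section


/-!
# A2 / piece E (ALG_ss): final theorem

`exists_pow_eq_of_local_factorisation`:

`R` a noetherian domain with `R[X]` integrally closed (e.g. a DVR), `w ∈ R` prime, `F ⊇ R` a field
of characteristic `0`, `x ∈ F` transcendental over `R`, `F` finite over `Frac R (x)`;
`B_fin = chart R {x}`, `B_inf = chart R {x⁻¹}` the two charts of the normal `x`-line model (as in
`S18.H138`), `V ⊆ F` the semilocal Gauss ring (intersection of the valuation rings of the generic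
points of the special fibre) with

* `GaussData w m u V` : `V` integrally closed in `F`, `w⁻¹ ∉ V`, `1 + w V ⊆ V^×`, `m⁻¹ ∈ R`,
  `u ∈ 1 + w V`;
* `ChartData w m u B V` for `B = B_fin, B_inf` : `B ⊆ V`, `B ∩ w V = w B` (reduced special fibre),
  and at every maximal ideal `𝔪 ∋ w` of `B` a **local factorisation** `u = ε h ^ m` with
  `ε ∈ 1 + w B_𝔪`, `h ∈ 1 + w V`;
* constants do not grow in the residue fields of the Kummer algebra `F[X]/(X ^ m - u)`.

Then `u = y ^ m` with `y ∈ F`, `y ∈ 1 + w V`.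
-/

set_option autoImplicit false
set_option linter.unusedSectionVars false
set_option linter.style.haveILetI false

open Polynomial

namespace Fermat.Agent.A2.H348

open Fermat.Agent.S18.H138 (chart baseField)

section KummerAlg

variable {F : Type*} [Field F]

/-- the Kummer basis of `F[X]/(X ^ m - u)`. -/
noncomputable def kummerBasisAdjoinRoot {m : ℕ} (hm : m ≠ 0) (u : F) :
    haveI : Nontrivial (AdjoinRoot (X ^ m - C u)) :=
      AdjoinRoot.nontrivial _ (by rw [degree_X_pow_sub_C (Nat.pos_of_ne_zero hm)]; exact_mod_cast hm)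
    KummerBasis m u (AdjoinRoot.root (X ^ m - C u)) :=
  haveI : Nontrivial (AdjoinRoot (X ^ m - C u)) :=
    AdjoinRoot.nontrivial _ (by rw [degree_X_pow_sub_C (Nat.pos_of_ne_zero hm)]; exact_mod_cast hm)
  have hf : (X ^ m - C u : F[X]) ≠ 0 := (monic_X_pow_sub_C u hm).ne_zero
  { pow_eq := by
      have h := AdjoinRoot.eval₂_root (X ^ m - C u : F[X])
      rw [eval₂_sub, eval₂_pow, eval₂_X, eval₂_C, sub_eq_zero] at h
      exact h
    basis := (AdjoinRoot.powerBasis hf).basis.reindex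
      (finCongr ((AdjoinRoot.powerBasis_dim hf).trans natDegree_X_pow_sub_C))
    basis_apply := by
      intro i
      rw [Module.Basis.reindex_apply, PowerBasis.basis_eq_pow, AdjoinRoot.powerBasis_gen]
      rfl }

end KummerAlg

section Final

variable {R F : Type*} [CommRing R] [Field F] [Algebra R F]
  [IsNoetherianRing R] [IsIntegrallyClosed R[X]] [CharZero F]

/-- **ALG_ss (route S of the A2 wall).** -/
theorem exists_pow_eq_of_local_factorisation
    (hinjR : Function.Injective (algebraMap R F))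
    {x : F} (hx : Transcendental R x) [FiniteDimensional (baseField R x) F]
    (w : R) (hw : Prime w) {m : ℕ} {u : F} {V : Subalgebra R F}
    (hV : GaussData w m u V)
    (hfin : ChartData w m u (chart R ({x} : Set F)) V)
    (hinf : ChartData w m u (chart R ({x⁻¹} : Set F)) V)
    (hconst : ∀ 𝔫 : Ideal (AdjoinRoot (X ^ m - C u)), 𝔫.IsMaximal →
      ∀ y : AdjoinRoot (X ^ m - C u) ⧸ 𝔫, IsIntegral R y →
        y ∈ Set.range (algebraMap R (AdjoinRoot (X ^ m - C u) ⧸ 𝔫))) :
    ∃ y : F, y ^ m = u ∧ ∃ t ∈ V, y = 1 + algebraMap R F w * t := by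
  have hm : m ≠ 0 := by
    rintro rfl
    exact hV.m_ne (by simp)
  have hx0 : x ≠ 0 := Fermat.Agent.S18.H138.ne_zero_of_transcendental hx
  haveI : Nontrivial (AdjoinRoot (X ^ m - C u)) :=
    AdjoinRoot.nontrivial _ (by rw [degree_X_pow_sub_C (Nat.pos_of_ne_zero hm)]; exact_mod_cast hm)
  have kb := kummerBasisAdjoinRoot hm u
  haveI := kb.finiteDimensional
  refine exists_root_of_connected (Bmid := chart R ({x, x⁻¹} : Set F)) hV hfin hinf
    (Fermat.Agent.S18.H138.chart_mono (by simp)) (Fermat.Agent.S18.H138.chart_mono (by simp))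
    ⟨x, Fermat.Agent.S18.H138.mem_chart_of_mem rfl⟩ hx0
    (Fermat.Agent.S18.H138.mem_chart_of_mem (by simp))
    (fun f hf => Fermat.Agent.S18.H138.exists_pow_mul_mem_chart hx0 hf) kb ?_
  intro 𝔫 h𝔫
  letI : Field (AdjoinRoot (X ^ m - C u) ⧸ 𝔫) := Ideal.Quotient.field 𝔫
  exact conn_of_const hinjR hx w hw (hconst 𝔫 h𝔫)

end Final

end Fermat.Agent.A2.H348

end
-- ===== PACK-END A2/H348/Final.lean

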