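import Fermat.Prelude.Def_ModularCurve_HeckeModule
import Mathlib
import Fermat.Prelude.Def_EllipticCurve_FrobeniusTrace
import Fermat.Prelude.Def_AlgebraicCurve_Correspondence
import Fermat.Prelude.Def_ModularCurve_HeckeOperatorTotal
import Fermat.Prelude.Thm_ModularCurve_coeffMap_qExpand
import Fermat.Prelude.Def_CuspForm_HeckeLocal
import Fermat.Prelude.Def_FLTPrelim_ModularRep
import Fermat.Prelude.Thm_CuspForm_heckeTLin_comm
import Fermat.Prelude.Def_ModularCurve_ReductionModL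
import Fermat.Prelude.Def_FLTPrelim_Ramification
import Fermat.Prelude.Def_ModularCurve_ArithmeticGalois
import Fermat.Prelude.Def_AlgebraicCurve_DivisorClassGroup
import Fermat.Prelude.Def_ModularCurve_HeckeOperator
import Fermat.Prelude.Thm_ModularCurve_coeff_jqModC_pow_self
import Fermat.Prelude.Thm_ModularCurve_coeff_jqModC_pow_of_lt
import Mathlib.RingTheory.Ideal.GoingUp
import Mathlib.RingTheory.Polynomial.ScaleRoots
import Mathlib.RingTheory.Ideal.AssociatedPrime.Localization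
import Fermat.Agent.Pack.S35.G0E1L2
import Fermat.Agent.Pack.S35.G0E2L2
import Fermat.Agent.Pack.S35.G0E2L1
import Fermat.Agent.Pack.S35.G0E0L1
import Fermat.Agent.Pack.S35.G0E2L3
import Fermat.Agent.Pack.S35.G4E0L0
import Fermat.Agent.Pack.S35.G0E1L0
import Fermat.Agent.Pack.S35.G0E0L0
import Fermat.Agent.Pack.S35.G0E0L3
import Fermat.Agent.Pack.S35.G0E0L2
import Fermat.Agent.Pack.S35.G0E1L3
import Fermat.Agent.Pack.S35.G0E2L0
import Fermat.Agent.Pack.S35.G0E1L1
import Fermat.Agent.Pack.S35.G1E0L0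

-- ===== PACK-BEGIN S35/H991/Mid.lean
section
/-
S35 mid layer (helper991): `HasNewformEigenModules` (the input of the landed top glue
`Fermat.Agent.S35.H991.result_of`) from

* the inputs of row S30 in the unfolded lattice form used by row S34
  (`Fermat/Agent/S34/H789/Inputs.lean`): `hfin hsm hgeq hunr hes hlat`;
* `NewPartFrobStatement` (cell A2+): for `q ∥ M` there are two Hecke-equivariant additive maps
  `a b : J₀(M) → J₀(M/q)` (the two degeneracy push-forwards) such that every Frobenius lift `σ` at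
  `q` satisfies `(σ² - 1)(σ² - q²) = 0` on the torsion prime to `q` of the Galois-stable subgroup
  `{x | ∀ γ, a (γ x) = 0 ∧ b (γ x) = 0}` (the `q`-new part);
* `ExclTateStatement`: the eigensystem of a newform of level `M` does not occur in the
  `p`-adic Tate module of `J₀(M/q)`.

No case distinction ramified / unramified, no constants: see `coord/S35-helper991.md`.
-/





set_option autoImplicit false

namespace Fermat.Agent.S35.H991

open TensorProduct IsLocalRing Fermat.Agent.S30.H990 Fermat.Agent.S30.H529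

/-- **(A2+) Bad Frobenius on the `q`-new torsion.** -/
def NewPartFrobStatement : Prop :=
  ∀ (M q : ℕ) [NeZero M] [NeZero (M / q)], q.Prime → q ∣ M → ¬ q ^ 2 ∣ M →
    ∃ a b : ModularCurve.JZero M →+ ModularCurve.JZero (M / q),
      (∀ ℓ : Nat.Primes, ¬ (ℓ : ℕ) ∣ M → ∀ x : ModularCurve.JZero M,
        a (ModularCurve.heckeOperatorBar M ℓ x) = ModularCurve.heckeOperatorBar (M / q) ℓ (a x)) ∧
      (∀ ℓ : Nat.Primes, ¬ (ℓ : ℕ) ∣ M → ∀ x : ModularCurve.JZero M,
        b (ModularCurve.heckeOperatorBar M ℓ x) = ModularCurve.heckeOperatorBar (M / q) ℓ (b x)) ∧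
      ∀ A : ValuationSubring (AlgebraicClosure ℚ), A.LiesOverPrime q →
        ∀ σ : GQ, A.IsFrobeniusAt σ q →
          ∀ m : ℕ, ¬ q ∣ m → ∀ x : ModularCurve.JZero M, m • x = 0 →
            (∀ γ : GQ, a (γ • x) = 0 ∧ b (γ • x) = 0) →
            σ • σ • σ • σ • x - (1 + (q : ℤ) ^ 2) • (σ • σ • x) + ((q : ℤ) ^ 2) • x = 0

/-- **(X) Exclusion.**  The eigensystem of a newform of level `M` does not occur in the `p`-adic
Tate module of `J₀(M / q)`, `q ∣ M` prime. -/
def ExclTateStatement : Prop :=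
  ∀ (M : ℕ) [NeZero M] (g : CuspForm (CongruenceSubgroup.Gamma0 M) 2), g.IsNewform →
    ∀ (q : ℕ) [NeZero (M / q)], q.Prime → q ∣ M →
    ∀ (p : ℕ) [Fact p.Prime] (S : Finset ℕ)
      (O' : Type) [CommRing O'] [IsDomain O'] [IsDiscreteValuationRing O']
      [IsAdicComplete (IsLocalRing.maximalIdeal O') O'] [Finite (IsLocalRing.ResidueField O')]
      [CharZero O'] (_hpO' : (p : O') ∈ IsLocalRing.maximalIdeal O')
      (chig : CuspForm.heckeAlgebra M 2 (↑S : Set ℕ) →+* ℂ)
      (_hchig : ∀ (ℓ : ℕ) (hℓ : ℓ.Prime) (hℓM : ¬ ℓ ∣ M) (hℓS : ℓ ∉ (↑S : Set ℕ)),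
        chig (CuspForm.heckeAlgebra.T hℓ hℓM hℓS) = ModularFormClass.qCoeff g ℓ)
      (iota : chig.range →+* O')
      (_hpS : p ∈ S) (_hMS : ∀ r : ℕ, r.Prime → r ∣ M → r ∈ S)
      (z : ℕ → O' ⊗[ℤ] ModularCurve.JZero (M / q)),
      (p : O') • z 0 = 0 → (∀ n, (p : O') • z (n + 1) = z n) →
      (∀ (ℓ : ℕ) (hℓ : ℓ.Prime) (hℓM : ¬ ℓ ∣ M) (hℓS : ℓ ∉ (↑S : Set ℕ)) (n : ℕ),
        (ModularCurve.heckeOperatorBar (M / q) ⟨ℓ, hℓ⟩).baseChange O' (z n)
          = (iota.comp chig.rangeRestrict) (CuspForm.heckeAlgebra.T hℓ hℓM hℓS) • z n) →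
      z = 0

/-- **The newform eigenmodules from the inputs of row S30, (A2+) and (X).** -/
theorem hasNewformEigenModules_of_inputs
    (hfin : ∀ (N p : ℕ) [NeZero N], p.Prime →
      Finite {x : ModularCurve.JZero N // (p : ℤ) • x = 0})
    (hsm : ∀ (N p : ℕ) [NeZero N], ∀ x : ModularCurve.JZero N,
      (∃ n : ℕ, ((p : ℤ) ^ n) • x = 0) →
        ∃ L : IntermediateField ℚ (AlgebraicClosure ℚ), FiniteDimensional ℚ L ∧
          ∀ σ : GQ, (∀ y ∈ L, σ y = y) → σ • x = x)
    (hgeq : ∀ (N : ℕ) [NeZero N] (ℓ : Nat.Primes) (σ : GQ) (x : ModularCurve.JZero N),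
      ModularCurve.heckeOperatorBar N ℓ (σ • x) = σ • ModularCurve.heckeOperatorBar N ℓ x)
    (hunr : ∀ (N p : ℕ) [NeZero N], ∀ q : ℕ, q.Prime → ¬ q ∣ N * p →
      ∀ A : ValuationSubring (AlgebraicClosure ℚ), A.LiesOverPrime q →
        ∀ σ ∈ A.inertiaSubgroupIn ℚ, ∀ x : ModularCurve.JZero N,
          (∃ n : ℕ, ((p : ℤ) ^ n) • x = 0) → σ • x = x)
    (hes : ∀ (N p : ℕ) [NeZero N], ∀ (ℓ : ℕ) (hℓ : ℓ.Prime), ¬ ℓ ∣ N * p →
      ∀ A : ValuationSubring (AlgebraicClosure ℚ), A.LiesOverPrime ℓ →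
        ∀ σ : GQ, A.IsFrobeniusAt σ ℓ → ∀ x : ModularCurve.JZero N,
          (∃ n : ℕ, ((p : ℤ) ^ n) • x = 0) →
            σ • σ • x - ModularCurve.heckeOperatorBar N ⟨ℓ, hℓ⟩ (σ • x) + (ℓ : ℤ) • x = 0)
    (hlat : ∀ (N p : ℕ) [NeZero N], p.Prime →
      ∃ (Λ : Type) (_ : AddCommGroup Λ) (_ : Module.Free ℤ Λ) (_ : Module.Finite ℤ Λ)
        (TΛ : Nat.Primes → Λ →ₗ[ℤ] Λ) (κ : ℕ → Λ →ₗ[ℤ] ModularCurve.JZero N),
        (∀ (n : ℕ) (x : Λ), κ n x = 0 ↔ ∃ y : Λ, x = ((p : ℤ) ^ n) • y) ∧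
        (∀ (n : ℕ) (x : Λ), (p : ℤ) • κ (n + 1) x = κ n x) ∧
        (∀ ℓ : Nat.Primes, ¬ (ℓ : ℕ) ∣ N * p → ∀ (n : ℕ) (x : Λ),
          κ n (TΛ ℓ x) = ModularCurve.heckeOperatorBar N ℓ (κ n x)) ∧
        (∀ (S : Set ℕ) (R : Type) [CommRing R] [IsDomain R] [CharZero R]
          (χ : CuspForm.heckeAlgebra N 2 S →+* R),
          ∃ v : R ⊗[ℤ] Λ, v ≠ 0 ∧
            ∀ (ℓ : ℕ) (hℓ : ℓ.Prime) (hℓN : ¬ ℓ ∣ N) (hℓS : ℓ ∉ S),
              (TΛ ⟨ℓ, hℓ⟩).baseChange R v = χ (CuspForm.heckeAlgebra.T hℓ hℓN hℓS) • v))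
    (hG : NewPartFrobStatement) (hX : ExclTateStatement) :
    HasNewformEigenModules := by
  classical
  intro M _ g hg p _ S O' _ _ _ _ _ _ hpO' chig hchig iota hpS hMS
  have hp : p.Prime := Fact.out
  set χ : CuspForm.heckeAlgebra M 2 (↑S : Set ℕ) →+* O' := iota.comp chig.rangeRestrict with hχ
  obtain ⟨Λ, i1, i2, i3, TΛ, κ, hκ0, hκs, hκT, hocc⟩ := hlat M p hp
  obtain ⟨v, hv, hva⟩ := hocc (↑S : Set ℕ) O' χ
  -- good primes
  have hNp : ∀ ℓ : ℕ, ℓ.Prime → ¬ ℓ ∣ M → ℓ ≠ p → ¬ ℓ ∣ M * p := by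
    intro ℓ hℓ hℓN hℓp h
    rcases (Nat.Prime.dvd_mul hℓ).1 h with h | h
    · exact hℓN h
    · exact hℓp ((Nat.prime_dvd_prime_iff_eq hℓ hp).1 h)
  have hιp : ∀ i : {ℓ : Nat.Primes // ¬ (ℓ : ℕ) ∣ M ∧ (ℓ : ℕ) ∉ (↑S : Set ℕ)},
      ((i.1 : Nat.Primes) : ℕ) ≠ p := by
    intro i h
    exact i.2.2 (by rw [h]; exact hpS)
  -- conversions between `ℤ`- and `ℕ`-torsion
  have hpow : ∀ (N : ℕ) (n : ℕ) (x : ModularCurve.JZero N),
      ((p : ℤ) ^ n) • x = p ^ n • x := by
    intro N n x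
    rw [← Nat.cast_pow, natCast_zsmul]
  -- the operators
  let T : {ℓ : Nat.Primes // ¬ (ℓ : ℕ) ∣ M ∧ (ℓ : ℕ) ∉ (↑S : Set ℕ)} →
      ModularCurve.JZero M →+ ModularCurve.JZero M :=
    fun i => (ModularCurve.heckeOperatorBar M i.1).toAddMonoidHom
  let a : {ℓ : Nat.Primes // ¬ (ℓ : ℕ) ∣ M ∧ (ℓ : ℕ) ∉ (↑S : Set ℕ)} → O' :=
    fun i => χ (CuspForm.heckeAlgebra.T i.1.2 i.2.1 i.2.2)
  have hT' : ∀ i, (T i).toIntLinearMap = ModularCurve.heckeOperatorBar M i.1 :=
    fun i => LinearMap.ext fun _ => rfl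
  have hfin' : {x : ModularCurve.JZero M | p • x = 0}.Finite := by
    have h1 : {x : ModularCurve.JZero M | (p : ℤ) • x = 0}.Finite :=
      Set.finite_coe_iff.mp (hfin M p hp)
    refine h1.subset fun x hx => ?_
    show (p : ℤ) • x = 0
    rw [natCast_zsmul]
    exact hx
  -- the Kummer sequence (as in `S30.H649.exists_adicFrobModule_of_lattice`)
  have hκzero : ∀ w : O' ⊗[ℤ] Λ, (κ 0).baseChange O' w = 0 := by
    have h0 : κ 0 = 0 := by
      apply LinearMap.ext
      intro x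
      rw [LinearMap.zero_apply, hκ0 0 x]
      exact ⟨x, by rw [pow_zero, one_smul]⟩
    intro w
    rw [h0, LinearMap.baseChange_zero, LinearMap.zero_apply]
  have hκsucc : ∀ (n : ℕ) (w : O' ⊗[ℤ] Λ),
      (p : O') • (κ (n + 1)).baseChange O' w = (κ n).baseChange O' w := by
    intro n w
    have h1 : (p : ℤ) • κ (n + 1) = κ n := LinearMap.ext fun x => hκs n x
    have h2 : ((p : ℤ) : O') • (κ (n + 1)).baseChange O' w
        = (p : ℤ) • (κ (n + 1)).baseChange O' w := Fermat.Agent.S30.H649.intCast_smul_tensor _ _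
    rw [Int.cast_natCast] at h2
    rw [h2, ← LinearMap.smul_apply, ← LinearMap.baseChange_smul, h1]
  obtain ⟨n₀, hn₀⟩ := Fermat.Agent.S30.H649.exists_baseChange_ne_zero (𝒪 := O') hpO' κ hκ0 v hv
  obtain ⟨m₀, rfl⟩ : ∃ m₀, n₀ = m₀ + 1 := by
    cases n₀ with
    | zero => exact absurd (hκzero v) hn₀
    | succ m => exact ⟨m, rfl⟩
  let seq : ℕ → O' ⊗[ℤ] ModularCurve.JZero M := fun n => (κ (n + 1)).baseChange O' v
  have hseq0 : (p : O') • seq 0 = 0 := by
    show (p : O') • (κ (0 + 1)).baseChange O' v = 0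
    rw [hκsucc 0 v, hκzero v]
  have hseqs : ∀ n, (p : O') • seq (n + 1) = seq n := fun n => hκsucc (n + 1) v
  have hseqne : seq ≠ 0 := fun h => hn₀ (congrFun h m₀)
  have hseqeig : ∀ i n, tensorOp O' T i (seq n) = a i • seq n := by
    intro i n
    show ((T i).toIntLinearMap.baseChange O') ((κ (n + 1)).baseChange O' v)
      = a i • (κ (n + 1)).baseChange O' v
    have h1 : ModularCurve.heckeOperatorBar M i.1 ∘ₗ κ (n + 1) = κ (n + 1) ∘ₗ TΛ i.1 :=
      LinearMap.ext fun x => (hκT i.1 (hNp _ i.1.2 i.2.1 (hιp i)) (n + 1) x).symm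
    have hva' : (TΛ i.1).baseChange O' v = a i • v := hva i.1 i.1.2 i.2.1 i.2.2
    rw [hT' i, ← LinearMap.comp_apply, ← LinearMap.baseChange_comp, h1,
      LinearMap.baseChange_comp, LinearMap.comp_apply, hva', map_smul]
  -- the degeneracy maps at the primes `q ∥ M`, `q ≠ p`
  let Q : Type := {q : ℕ // q.Prime ∧ q ≠ p ∧ q ∣ M ∧ ¬ q ^ 2 ∣ M}
  have hne0 : ∀ q : Q, NeZero (M / q.1) := by
    intro q
    refine ⟨?_⟩
    have hM : M ≠ 0 := NeZero.ne M
    intro h0
    have h1 := Nat.div_mul_cancel q.2.2.2.1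
    rw [h0, zero_mul] at h1
    exact hM h1.symm
  have hab : ∀ q : Q, ∃ a b : ModularCurve.JZero M →+ ModularCurve.JZero (M / q.1),
      (∀ ℓ : Nat.Primes, ¬ (ℓ : ℕ) ∣ M → ∀ x : ModularCurve.JZero M,
        a (ModularCurve.heckeOperatorBar M ℓ x)
          = @ModularCurve.heckeOperatorBar (M / q.1) (hne0 q) ℓ (a x)) ∧
      (∀ ℓ : Nat.Primes, ¬ (ℓ : ℕ) ∣ M → ∀ x : ModularCurve.JZero M,
        b (ModularCurve.heckeOperatorBar M ℓ x)
          = @ModularCurve.heckeOperatorBar (M / q.1) (hne0 q) ℓ (b x)) ∧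
      ∀ A : ValuationSubring (AlgebraicClosure ℚ), A.LiesOverPrime q.1 →
        ∀ σ : GQ, A.IsFrobeniusAt σ q.1 →
          ∀ m : ℕ, ¬ q.1 ∣ m → ∀ x : ModularCurve.JZero M, m • x = 0 →
            (∀ γ : GQ, a (γ • x) = 0 ∧ b (γ • x) = 0) →
            σ • σ • σ • σ • x - (1 + (q.1 : ℤ) ^ 2) • (σ • σ • x) + ((q.1 : ℤ) ^ 2) • x = 0 :=
    fun q => @hG M q.1 _ (hne0 q) q.2.1 q.2.2.2.1 q.2.2.2.2
  choose da db hda hdb hfrobq using hab
  let J' : Q × Bool → Type := fun c => ModularCurve.JZero (M / c.1.1)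
  let f : ∀ c : Q × Bool, ModularCurve.JZero M →+ J' c := fun c =>
    match c with
    | (q, true) => da q
    | (q, false) => db q
  let T'' : ∀ c : Q × Bool, {ℓ : Nat.Primes // ¬ (ℓ : ℕ) ∣ M ∧ (ℓ : ℕ) ∉ (↑S : Set ℕ)} →
      J' c →+ J' c :=
    fun c i => (@ModularCurve.heckeOperatorBar (M / c.1.1) (hne0 c.1) i.1).toAddMonoidHom
  have hf : ∀ (c : Q × Bool) (i : {ℓ : Nat.Primes // ¬ (ℓ : ℕ) ∣ M ∧ (ℓ : ℕ) ∉ (↑S : Set ℕ)})
      (x : ModularCurve.JZero M), f c (T i x) = T'' c i (f c x) := by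
    rintro ⟨q, b⟩ i x
    cases b with
    | true => exact hda q i.1 i.2.1 x
    | false => exact hdb q i.1 i.2.1 x
  have hexcl : ∀ (c : Q × Bool) (z : ℕ → O' ⊗[ℤ] J' c), (p : O') • z 0 = 0 →
      (∀ n, (p : O') • z (n + 1) = z n) →
      (∀ i n, tensorOp O' (T'' c) i (z n) = a i • z n) → z = 0 := by
    intro c z hz0 hzs hzeig
    exact @hX M _ g hg c.1.1 (hne0 c.1) c.1.2.1 c.1.2.2.2.1 p _ S O' _ _ _ _ _ _ hpO' chig hchig
      iota hpS hMS z hz0 hzs (fun ℓ hℓ hℓM hℓS n => hzeig ⟨⟨ℓ, hℓ⟩, hℓM, hℓS⟩ n)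
  -- the eigenmodule of the new part
  obtain ⟨E, j1, j2, j3, j4, ρ, hnt, hcont, hone, hquad, hquadZ⟩ :=
    exists_adic_eigenmodule_new (O := O') hpO' hp.ne_zero (J := ModularCurve.JZero M) T a
      (fun i γ x => hgeq M i.1 γ x) hfin'
      (fun x hx => hsm M p x (by
        obtain ⟨n, hn⟩ := hx
        exact ⟨n, by rw [hpow]; exact hn⟩))
      T'' f hf hexcl seq hseq0 hseqs hseqne hseqeig
  refine ⟨{ M := E
            ρ := ρ
            cont := hcont
            unram := fun q hq hqN hqp P hP σ hσ =>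
              hone σ fun x hx _ => hunr M p q hq (hNp q hq hqN hqp) P hP σ hσ x (by
                obtain ⟨n, hn⟩ := hx
                exact ⟨n, by rw [hpow]; exact hn⟩)
            frob := fun ℓ hℓ hℓN hℓS A hA σ hσ => by
              have hℓp : ℓ ≠ p := fun h => hℓS (Finset.mem_coe.mpr (h ▸ hpS))
              have h := hquad σ ⟨⟨ℓ, hℓ⟩, hℓN, hℓS⟩ ((ℓ : ℕ) : ℤ)
                (fun x hx _ => hes M p ℓ hℓ (hNp ℓ hℓ hℓN hℓp) A hA σ hσ x (by
                  obtain ⟨n, hn⟩ := hx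
                  exact ⟨n, by rw [hpow]; exact hn⟩))
              simpa using h }, ?_⟩
  -- the bad-Frobenius relation
  intro q hq hqp hqM hq2 A hA σ hσ
  have hqpn : ∀ n : ℕ, ¬ q ∣ p ^ n := by
    intro n h
    exact hqp ((Nat.prime_dvd_prime_iff_eq hq hp).1 (hq.dvd_of_dvd_pow h))
  have hrel := hquadZ (σ * σ) (1 + (q : ℤ) ^ 2) ((q : ℤ) ^ 2) (by
    rintro x ⟨n, hn⟩ hnew
    have h1 := hfrobq ⟨q, hq, hqp, hqM, hq2⟩ A hA σ hσ (p ^ n) (hqpn n) x hn
      (fun γ => ⟨hnew γ (⟨q, hq, hqp, hqM, hq2⟩, true), hnew γ (⟨q, hq, hqp, hqM, hq2⟩, false)⟩)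
    rw [mul_smul, mul_smul]
    exact h1)
  intro w
  have h2 := congrArg (fun F : Module.End O' E => F w) hrel
  simp only [map_mul, LinearMap.add_apply, LinearMap.sub_apply, LinearMap.smul_apply,
    Module.End.mul_apply, Module.End.one_apply, LinearMap.zero_apply] at h2
  have h3 : ((1 + (q : ℤ) ^ 2 : ℤ) : O') = 1 + (q : O') ^ 2 := by push_cast; ring
  have h4 : (((q : ℤ) ^ 2 : ℤ) : O') = (q : O') ^ 2 := by push_cast; ring
  rw [h3, h4] at h2
  exact h2

end Fermat.Agent.S35.H991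

end
-- ===== PACK-END S35/H991/Mid.lean

-- ===== PACK-BEGIN Lib/FF398/Hecke.lean
section




/-!
# Lib/FF398 — the Hecke correspondence `T_ℓ` on `J₀(N)` is the genuine one

`ModularCurve.heckeOperatorAlong L N ℓ` is defined by `dite` on `HeckeInputsAlong L N ℓ`
(junk value `0` if the inputs fail).  We prove the inputs for `L = ℚ̄`:

* `heckeInputs_general` : for ANY two `K`-embeddings `α β : F → F'` of function fields of one
  variable over an algebraically closed field of characteristic zero, all six inputs hold;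
* `heckeInputsAlong N ℓ : HeckeInputsAlong ℚ̄ N ℓ`;
* `heckeOperatorBar_eq` : `heckeOperatorBar N ℓ` is `Pic0.correspondence β α` (norm ∘ conorm).
(helper398)
-/

set_option autoImplicit false
set_option linter.unusedSectionVars false

open AlgebraicCurve IsDedekindDomain IntermediateField ModularCurve

namespace Fermat.Agent.Lib.FF398

section General

variable {K F F' : Type*} [Field K] [Field F] [Field F'] [Algebra K F] [Algebra K F']
  [IsAlgClosed K] [CharZero K]

/-- A `K`-embedding of function fields of one variable is finite. -/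
theorem finiteAlong_of_functionField (φ : F →ₐ[K] F') (j : F) (hj : Transcendental K j)
    (j' : F') (hj' : Transcendental K j') [FiniteDimensional K⟮j'⟯ F'] :
    FiniteAlong K φ := by
  letI := algebraAlong φ
  show Module.Finite F F'
  have hy : Transcendental K (φ j) := by
    intro h
    exact hj ((isAlgebraic_algHom_iff φ φ.injective).mp h)
  haveI : FiniteDimensional K⟮φ j⟯ F' :=
    Fermat.Agent.S24.FF.finiteDimensional_adjoin_of_transcendental hj' hy
  obtain ⟨S, hS⟩ := (Module.finite_def (R := K⟮φ j⟯) (M := F')).mp inferInstance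
  refine Module.finite_def.mpr ⟨S, ?_⟩
  have hle : K⟮φ j⟯ ≤ φ.fieldRange := by
    rw [adjoin_le_iff]
    rintro _ rfl
    exact ⟨j, rfl⟩
  have key : ∀ x : F', x ∈ Submodule.span K⟮φ j⟯ (S : Set F') →
      x ∈ Submodule.span F (S : Set F') := by
    intro x hx
    induction hx using Submodule.span_induction with
    | mem x hx => exact Submodule.subset_span hx
    | zero => exact zero_mem _
    | add x y _ _ hx hy => exact add_mem hx hy
    | smul e x _ hx =>
      obtain ⟨f, hf⟩ := hle e.2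
      have : e • x = f • x := by
        rw [Algebra.smul_def, Algebra.smul_def]
        show (e : F') * x = φ f * x
        rw [← hf]
        rfl
      rw [this]
      exact Submodule.smul_mem _ _ hx
  rw [eq_top_iff]
  intro x _
  exact key x (by rw [hS]; trivial)

/-- **All six inputs of the Hecke correspondence** for two embeddings of function fields. -/
theorem heckeInputs_general (α β : F →ₐ[K] F') (j : F) (hj : Transcendental K j)
    (j' : F') (hj' : Transcendental K j') [FiniteDimensional K⟮j'⟯ F'] :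
    ∃ (_ : α.toRingHom.IsIntegral) (hβ : β.toRingHom.IsIntegral)
      (_ : HasPrincipalDivisors K F') (hfin : FiniteAlong K α),
      FundamentalIdentityAlong K β hβ ∧ NormFormulaAlong K α hfin := by
  haveI hP : HasPrincipalDivisors K F' := hasPrincipalDivisors j' hj'
  haveI : CharZero F := charZero_of_injective_algebraMap (algebraMap K F).injective
  have hdeg' : ∀ w : Place K F', w.deg = 1 := fun w => Fermat.Agent.S24.FF.deg_eq_one w hj'
  have hfinα : FiniteAlong K α := finiteAlong_of_functionField α j hj j' hj'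
  have hfinβ : FiniteAlong K β := finiteAlong_of_functionField β j hj j' hj'
  have hα : α.toRingHom.IsIntegral := by
    letI := algebraAlong α
    haveI : Module.Finite F F' := hfinα
    exact fun x => Algebra.IsIntegral.isIntegral (R := F) x
  have hβ : β.toRingHom.IsIntegral := by
    letI := algebraAlong β
    haveI : Module.Finite F F' := hfinβ
    exact fun x => Algebra.IsIntegral.isIntegral (R := F) x
  refine ⟨hα, hβ, hP, hfinα, ?_, ?_⟩
  · letI := algebraAlong β
    haveI := isScalarTower_along β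
    haveI : Module.Finite F F' := hfinβ
    exact fundamentalIdentity (K := K) (F := F) (F' := F') hdeg'
  · letI := algebraAlong α
    haveI := isScalarTower_along α
    haveI : Module.Finite F F' := hfinα
    exact pushforwardNormFormula (K := K) (F := F) (F' := F') hdeg'

end General

section Modular

open Fermat.Agent.S24

theorem transcendental_jF (N : ℕ) [NeZero N] : Transcendental Kbar (jF N) := by
  intro halg
  obtain ⟨p, hp0, hp⟩ := halg
  apply Deg457.aeval_JK_ne_zero Kbar hp0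
  have h2 := congrArg (algebraMap (FF N) (LaurentSeries Kbar)) hp
  rw [← Polynomial.aeval_algebraMap_apply, map_zero] at h2
  exact h2

instance finiteDimensional_FF (N : ℕ) [NeZero N] :
    FiniteDimensional ↥(IntermediateField.adjoin Kbar {jF N}) (FF N) :=
  (Deg457.degree_fields N).1

/-- The function field of `X₀(N)` over `ℚ̄` has principal divisors. -/
theorem hasPrincipalDivisors_FF (N : ℕ) [NeZero N] :
    HasPrincipalDivisors Kbar (FF N) :=
  hasPrincipalDivisors (jF N) (transcendental_jF N)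

/-- Every place of the function field of `X₀(N)` over `ℚ̄` has degree one. -/
theorem deg_eq_one_FF (N : ℕ) [NeZero N] (v : Place Kbar (FF N)) : v.deg = 1 :=
  Fermat.Agent.S24.FF.deg_eq_one v (transcendental_jF N)

/-- **The Hecke correspondence `T_ℓ` on `J₀(N)` over `ℚ̄` is the genuine one.** -/
theorem heckeInputsAlong (N ℓ : ℕ) [NeZero N] [NeZero ℓ] :
    HeckeInputsAlong (AlgebraicClosure ℚ) N ℓ :=
  heckeInputs_general (heckeAlphaBar (AlgebraicClosure ℚ) N ℓ)
    (heckeBetaBar (AlgebraicClosure ℚ) N ℓ) (jF N) (transcendental_jF N)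
    (jF (N * ℓ)) (transcendental_jF (N * ℓ))

/-! ### Named components (for unfolding `T_ℓ`) -/

variable (N ℓ : ℕ) [NeZero N] [NeZero ℓ]

/-- The function field of `X₀(M)` over `ℚ̄` has principal divisors (instance form). -/
instance instHasPrincipalDivisorsFF (M : ℕ) [NeZero M] :
    HasPrincipalDivisors (AlgebraicClosure ℚ)
      (laurentBaseChange (AlgebraicClosure ℚ) (modularFunctionFieldFull M)) :=
  hasPrincipalDivisors_FF M

theorem heckeAlphaBarIntegral : HeckeAlphaBarIntegral (AlgebraicClosure ℚ) N ℓ :=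
  (heckeInputsAlong N ℓ).1

theorem heckeBetaBarIntegral : HeckeBetaBarIntegral (AlgebraicClosure ℚ) N ℓ :=
  (heckeInputsAlong N ℓ).2.1

theorem finiteAlong_alpha : FiniteAlong (AlgebraicClosure ℚ) (heckeAlphaBar (AlgebraicClosure ℚ) N ℓ) :=
  finiteAlong_of_functionField _ (jF N) (transcendental_jF N) (jF (N * ℓ))
    (transcendental_jF (N * ℓ))

theorem finiteAlong_beta : FiniteAlong (AlgebraicClosure ℚ) (heckeBetaBar (AlgebraicClosure ℚ) N ℓ) :=
  finiteAlong_of_functionField _ (jF N) (transcendental_jF N) (jF (N * ℓ))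
    (transcendental_jF (N * ℓ))

theorem fundamentalIdentityAlong_beta :
    FundamentalIdentityAlong (AlgebraicClosure ℚ) (heckeBetaBar (AlgebraicClosure ℚ) N ℓ)
      (heckeBetaBarIntegral N ℓ) := by
  letI := algebraAlong (heckeBetaBar (AlgebraicClosure ℚ) N ℓ)
  haveI := isScalarTower_along (heckeBetaBar (AlgebraicClosure ℚ) N ℓ)
  haveI : Module.Finite (FF N) (FF (N * ℓ)) := finiteAlong_beta N ℓ
  haveI : CharZero (FF N) :=
    charZero_of_injective_algebraMap (algebraMap (AlgebraicClosure ℚ) (FF N)).injective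
  exact fundamentalIdentity (K := AlgebraicClosure ℚ) (F := FF N) (F' := FF (N * ℓ))
    (deg_eq_one_FF (N * ℓ))

theorem fundamentalIdentityAlong_alpha :
    FundamentalIdentityAlong (AlgebraicClosure ℚ) (heckeAlphaBar (AlgebraicClosure ℚ) N ℓ)
      (heckeAlphaBarIntegral N ℓ) := by
  letI := algebraAlong (heckeAlphaBar (AlgebraicClosure ℚ) N ℓ)
  haveI := isScalarTower_along (heckeAlphaBar (AlgebraicClosure ℚ) N ℓ)
  haveI : Module.Finite (FF N) (FF (N * ℓ)) := finiteAlong_alpha N ℓ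
  haveI : CharZero (FF N) :=
    charZero_of_injective_algebraMap (algebraMap (AlgebraicClosure ℚ) (FF N)).injective
  exact fundamentalIdentity (K := AlgebraicClosure ℚ) (F := FF N) (F' := FF (N * ℓ))
    (deg_eq_one_FF (N * ℓ))

theorem normFormulaAlong_alpha :
    NormFormulaAlong (AlgebraicClosure ℚ) (heckeAlphaBar (AlgebraicClosure ℚ) N ℓ)
      (finiteAlong_alpha N ℓ) := by
  letI := algebraAlong (heckeAlphaBar (AlgebraicClosure ℚ) N ℓ)
  haveI := isScalarTower_along (heckeAlphaBar (AlgebraicClosure ℚ) N ℓ)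
  haveI : Module.Finite (FF N) (FF (N * ℓ)) := finiteAlong_alpha N ℓ
  haveI : CharZero (FF N) :=
    charZero_of_injective_algebraMap (algebraMap (AlgebraicClosure ℚ) (FF N)).injective
  exact pushforwardNormFormula (K := AlgebraicClosure ℚ) (F := FF N) (F' := FF (N * ℓ))
    (deg_eq_one_FF (N * ℓ))

theorem normFormulaAlong_beta :
    NormFormulaAlong (AlgebraicClosure ℚ) (heckeBetaBar (AlgebraicClosure ℚ) N ℓ)
      (finiteAlong_beta N ℓ) := by
  letI := algebraAlong (heckeBetaBar (AlgebraicClosure ℚ) N ℓ)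
  haveI := isScalarTower_along (heckeBetaBar (AlgebraicClosure ℚ) N ℓ)
  haveI : Module.Finite (FF N) (FF (N * ℓ)) := finiteAlong_beta N ℓ
  haveI : CharZero (FF N) :=
    charZero_of_injective_algebraMap (algebraMap (AlgebraicClosure ℚ) (FF N)).injective
  exact pushforwardNormFormula (K := AlgebraicClosure ℚ) (F := FF N) (F' := FF (N * ℓ))
    (deg_eq_one_FF (N * ℓ))

/-- `T_ℓ` on `Pic⁰` is `α_* ∘ β^*` (norm ∘ conorm), not the junk value. -/
theorem heckeOperatorAlong_eq_heckePic0Bar :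
    heckeOperatorAlong (AlgebraicClosure ℚ) N ℓ
      = heckePic0Bar (heckeAlphaBarIntegral N ℓ) (heckeBetaBarIntegral N ℓ)
          (fundamentalIdentityAlong_beta N ℓ) (finiteAlong_alpha N ℓ)
          (normFormulaAlong_alpha N ℓ) :=
  heckeOperatorAlong_eq _ _ _ _ _

/-- `T_ℓ` on a divisor class: `T_ℓ [D] = [α_* β^* D]`. -/
theorem heckeOperatorAlong_mk
    (D : Divisor.degZero (K := AlgebraicClosure ℚ)
      (F := laurentBaseChange (AlgebraicClosure ℚ) (modularFunctionFieldFull N))) :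
    heckeOperatorAlong (AlgebraicClosure ℚ) N ℓ (Pic0.mk D)
      = Pic0.mk (Pic0.degZeroCorrespondence (heckeBetaBar (AlgebraicClosure ℚ) N ℓ)
          (heckeAlphaBar (AlgebraicClosure ℚ) N ℓ) (heckeBetaBarIntegral N ℓ)
          (heckeAlphaBarIntegral N ℓ) (fundamentalIdentityAlong_beta N ℓ) D) := by
  rw [heckeOperatorAlong_eq_heckePic0Bar]
  rfl

/-- `T_ℓ` (as `heckeOperatorBar`) on a divisor class. -/
theorem heckeOperatorBar_mk (p : Nat.Primes)
    (D : Divisor.degZero (K := AlgebraicClosure ℚ)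
      (F := laurentBaseChange (AlgebraicClosure ℚ) (modularFunctionFieldFull N))) :
    haveI : NeZero (p : ℕ) := ⟨p.2.ne_zero⟩
    heckeOperatorBar N p (Pic0.mk D)
      = Pic0.mk (Pic0.degZeroCorrespondence (heckeBetaBar (AlgebraicClosure ℚ) N p)
          (heckeAlphaBar (AlgebraicClosure ℚ) N p) (heckeBetaBarIntegral N p)
          (heckeAlphaBarIntegral N p) (fundamentalIdentityAlong_beta N p) D) := by
  haveI : NeZero (p : ℕ) := ⟨p.2.ne_zero⟩
  rw [heckeOperatorBar_apply]
  exact heckeOperatorAlong_mk N p D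

end Modular

end Fermat.Agent.Lib.FF398

end
-- ===== PACK-END Lib/FF398/Hecke.lean

-- ===== PACK-BEGIN S35/H155/B2.lean
section
/-
S35 / cell FROB, leaf B2 (helper155): the two degeneracy push-forwards
`α_*, β_* : J₀(N q) → J₀(N)`.

* `pushforwardPic0Along`       : push-forward on `Pic0` along a finite homomorphism of function
                                 fields with norm formula (abstract; Prelude language);
* `pushforwardPic0Along_smul`  : equivariance for intertwined semilinear automorphisms;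
* `pushA`, `pushB`             : `α_*`, `β_*` on `JZero (N * q) →+ JZero N`;
* `pushA_galois`, `pushB_galois`: Galois equivariance;
* `hecke_eq_frob`              : on `p`-power torsion `T_ℓ y = σ y + ℓ σ⁻¹ y` for every Frobenius
                                 lift `σ` at `ℓ ∤ N p` (from the torsion relations (T));
* `map_hecke_of_galois`        : ANY Galois-equivariant additive map `J₀(M) → J₀(N)` commutes with
                                 `T_ℓ` (`ℓ ∤ M N p`) on `p`-power torsion, given (T) at both levels;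
* `pushA_hecke`, `pushB_hecke` : the instances for `α_*`, `β_*`;
* `IsQNew`                     : `x` is `q`-new (`α_* x = 0 = β_* x`), stability lemmas.

The torsion relations are taken in UNFOLDED form (`TorsRel`, definitionally equal to
`Fermat.Agent.S30.H330.TorsionRelations`), so this file does not import the S30 tower.
-/






set_option autoImplicit false
set_option linter.style.haveILetI false

noncomputable section

namespace Fermat.Agent.S35.H155

open AlgebraicCurve ModularCurve Fermat.Agent.Lib.FF398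

/-! ### Abstract push-forward on `Pic0` -/

section Abstract

variable {K F F' : Type*} [Field K] [Field F] [Field F'] [Algebra K F] [Algebra K F']
variable (φ : F →ₐ[K] F') (hφ : φ.toRingHom.IsIntegral)
variable (hfin : FiniteAlong K φ) (hN : NormFormulaAlong K φ hfin)

/-- Push-forward of degree-zero divisors along `φ`. -/
def pushforwardDegZeroAlong :
    Divisor.degZero (K := K) (F := F') →+ Divisor.degZero (K := K) (F := F) :=
  ((Divisor.pushforwardAlong φ hφ).domRestrict (Divisor.degZero (K := K) (F := F'))).codRestrict _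
    fun D => Divisor.pushforwardAlong_mem_degZero φ hφ D.2

@[simp]
theorem coe_pushforwardDegZeroAlong (D : Divisor.degZero (K := K) (F := F')) :
    (pushforwardDegZeroAlong φ hφ D : Divisor K F) =
      Divisor.pushforwardAlong φ hφ (D : Divisor K F') := rfl

/-- Push-forward on `Pic0` along `φ` (the degeneracy map `π_*`). -/
def pushforwardPic0Along : Pic0 K F' →+ Pic0 K F :=
  QuotientAddGroup.map _ _ (pushforwardDegZeroAlong φ hφ) (by
    rintro ⟨D, hD0⟩ hD
    simp only [AddSubgroup.mem_addSubgroupOf] at hD ⊢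
    exact Divisor.isPrincipal_pushforwardAlong φ hφ hfin hN hD)

theorem pushforwardPic0Along_mk (D : Divisor.degZero (K := K) (F := F')) :
    pushforwardPic0Along φ hφ hfin hN (Pic0.mk D) = Pic0.mk (pushforwardDegZeroAlong φ hφ D) :=
  rfl

/-- `π_*` on `Pic0` is equivariant for intertwined semilinear automorphisms. -/
theorem pushforwardPic0Along_smul {g : SemilinearAut K F} {g' : SemilinearAut K F'}
    (h : SemilinearAut.IntertwinesAlong (φ : F →+* F') g g') (x : Pic0 K F') :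
    pushforwardPic0Along φ hφ hfin hN (g' • x) = g • pushforwardPic0Along φ hφ hfin hN x := by
  obtain ⟨D, rfl⟩ := Pic0.mk_surjective x
  rw [SemilinearAut.pic0_smul_mk, pushforwardPic0Along_mk, pushforwardPic0Along_mk,
    SemilinearAut.pic0_smul_mk]
  refine congrArg Pic0.mk (Subtype.ext ?_)
  rw [coe_pushforwardDegZeroAlong, SemilinearAut.coe_degZeroSMulHom,
    SemilinearAut.coe_degZeroSMulHom, coe_pushforwardDegZeroAlong]
  exact Fermat.Agent.S29.H571.pushforwardAlong_smul φ hφ h (D : Divisor K F')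

/-- The class of `D` is killed by `π_*` iff `π_* D` is principal. -/
theorem pushforwardPic0Along_mk_eq_zero_iff (D : Divisor.degZero (K := K) (F := F')) :
    pushforwardPic0Along φ hφ hfin hN (Pic0.mk D) = 0 ↔
      (Divisor.pushforwardAlong φ hφ (D : Divisor K F')).IsPrincipal := by
  rw [pushforwardPic0Along_mk]
  change ((QuotientAddGroup.mk (pushforwardDegZeroAlong φ hφ D) :
    Divisor.degZero (K := K) (F := F) ⧸ _) = 0) ↔ _
  rw [QuotientAddGroup.eq_zero_iff]
  simp only [AddSubgroup.mem_addSubgroupOf, coe_pushforwardDegZeroAlong]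
  rfl

end Abstract

/-! ### The degeneracy push-forwards on `J₀` -/

abbrev Kbar : Type := AlgebraicClosure ℚ

abbrev GQ : Type := Kbar ≃ₐ[ℚ] Kbar

section Degeneracy

variable (N q : ℕ) [NeZero N] [NeZero q]

/-- `α_* : J₀(N q) → J₀(N)`, push-forward along the inclusion `heckeAlphaBar`. -/
def pushA : JZero (N * q) →+ JZero N :=
  pushforwardPic0Along (heckeAlphaBar Kbar N q) (heckeAlphaBarIntegral N q)
    (finiteAlong_alpha N q) (normFormulaAlong_alpha N q)

/-- `β_* : J₀(N q) → J₀(N)`, push-forward along `heckeBetaBar` (`f(τ) ↦ f(qτ)`). -/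
def pushB : JZero (N * q) →+ JZero N :=
  pushforwardPic0Along (heckeBetaBar Kbar N q) (heckeBetaBarIntegral N q)
    (finiteAlong_beta N q) (normFormulaAlong_beta N q)

theorem pushA_galois (σ : GQ) (x : JZero (N * q)) : pushA N q (σ • x) = σ • pushA N q x := by
  rw [galois_smul_pic0_def, galois_smul_pic0_def]
  exact pushforwardPic0Along_smul _ _ _ _
    (Fermat.Agent.S29.H571.intertwines_heckeAlphaBar N q σ) x

theorem pushB_galois (σ : GQ) (x : JZero (N * q)) : pushB N q (σ • x) = σ • pushB N q x := by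
  rw [galois_smul_pic0_def, galois_smul_pic0_def]
  exact pushforwardPic0Along_smul _ _ _ _
    (Fermat.Agent.S29.H571.intertwines_heckeBetaBar N q σ) x

theorem pushA_mk_eq_zero_iff
    (D : Divisor.degZero (K := Kbar) (F := modularFunctionFieldBar (N * q))) :
    pushA N q (Pic0.mk D) = 0 ↔
      (Divisor.pushforwardAlong (heckeAlphaBar Kbar N q) (heckeAlphaBarIntegral N q)
        (D : Divisor Kbar (modularFunctionFieldBar (N * q)))).IsPrincipal :=
  pushforwardPic0Along_mk_eq_zero_iff _ _ _ _ D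

theorem pushB_mk_eq_zero_iff
    (D : Divisor.degZero (K := Kbar) (F := modularFunctionFieldBar (N * q))) :
    pushB N q (Pic0.mk D) = 0 ↔
      (Divisor.pushforwardAlong (heckeBetaBar Kbar N q) (heckeBetaBarIntegral N q)
        (D : Divisor Kbar (modularFunctionFieldBar (N * q)))).IsPrincipal :=
  pushforwardPic0Along_mk_eq_zero_iff _ _ _ _ D

end Degeneracy

/-! ### Hecke operators on torsion through Frobenius -/

/-- The torsion relations (T) at level `N` for the prime `p`, in unfolded form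
(definitionally `Fermat.Agent.S30.H330.TorsionRelations N p`). -/
def TorsRel (N : ℕ) [NeZero N] (p : ℕ) : Prop :=
  ∀ (ℓ : ℕ) (hℓ : ℓ.Prime), ¬ ℓ ∣ N * p → ∀ A : ValuationSubring Kbar, A.LiesOverPrime ℓ →
    (∀ σ ∈ A.inertiaSubgroupIn ℚ, ∀ x : JZero N, (∃ n : ℕ, (p ^ n) • x = 0) → σ • x = x) ∧
    (∀ σ : GQ, A.IsFrobeniusAt σ ℓ → ∀ x : JZero N, (∃ n : ℕ, (p ^ n) • x = 0) →
      σ • σ • x - heckeOperatorBar N ⟨ℓ, hℓ⟩ (σ • x) + ℓ • x = 0)

section Torsion

variable {N : ℕ} [NeZero N] {p : ℕ}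

omit [NeZero N] in
theorem galois_torsion (σ : GQ) {x : JZero N} (hx : ∃ n : ℕ, (p ^ n) • x = 0) :
    ∃ n : ℕ, (p ^ n) • (σ • x) = 0 := by
  obtain ⟨n, hn⟩ := hx
  refine ⟨n, ?_⟩
  have h : (p ^ n) • (σ • x) = σ • ((p ^ n) • x) :=
    (map_nsmul (DistribSMul.toAddMonoidHom (JZero N) σ) (p ^ n) x).symm
  rw [h, hn]
  exact map_zero (DistribSMul.toAddMonoidHom (JZero N) σ)

/-- On `p`-power torsion, `T_ℓ = σ + ℓ σ⁻¹` for every Frobenius lift `σ` at a prime
`ℓ ∤ N p`. -/
theorem hecke_eq_frob (hT : TorsRel N p) {ℓ : ℕ} (hℓ : ℓ.Prime) (hℓN : ¬ ℓ ∣ N * p)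
    (A : ValuationSubring Kbar) (hA : A.LiesOverPrime ℓ) (σ : GQ) (hσ : A.IsFrobeniusAt σ ℓ)
    (y : JZero N) (hy : ∃ n : ℕ, (p ^ n) • y = 0) :
    heckeOperatorBar N ⟨ℓ, hℓ⟩ y = σ • y + ℓ • (σ⁻¹ • y) := by
  have h := (hT ℓ hℓ hℓN A hA).2 σ hσ (σ⁻¹ • y) (galois_torsion σ⁻¹ hy)
  rw [smul_inv_smul] at h
  have h2 : σ • y + ℓ • (σ⁻¹ • y) - heckeOperatorBar N ⟨ℓ, hℓ⟩ y = 0 := by
    rw [← h]; abel
  exact (sub_eq_zero.mp h2).symm

end Torsion

section MapHecke

variable {M N : ℕ} [NeZero M] [NeZero N] {p : ℕ}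

/-- **Hecke equivariance for free.**  Any Galois-equivariant additive map `J₀(M) → J₀(N)`
commutes with `T_ℓ` on `p`-power torsion, for every prime `ℓ ∤ M p`, `ℓ ∤ N p`, as soon as the
torsion relations (T) hold at both levels. -/
theorem map_hecke_of_galois (f : JZero M →+ JZero N) (hf : ∀ (σ : GQ) (x : JZero M),
    f (σ • x) = σ • f x) (hTM : TorsRel M p) (hTN : TorsRel N p) {ℓ : ℕ} (hℓ : ℓ.Prime)
    (hℓM : ¬ ℓ ∣ M * p) (hℓN : ¬ ℓ ∣ N * p) (y : JZero M) (hy : ∃ n : ℕ, (p ^ n) • y = 0) :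
    f (heckeOperatorBar M ⟨ℓ, hℓ⟩ y) = heckeOperatorBar N ⟨ℓ, hℓ⟩ (f y) := by
  obtain ⟨A, hA⟩ := Fermat.Agent.S54.exists_valuationSubring_liesOver ℓ hℓ
  obtain ⟨σ, hσ⟩ := Fermat.Agent.S37.H99.exists_isFrobeniusAt ℓ hℓ A hA
  have hfy : ∃ n : ℕ, (p ^ n) • f y = 0 := by
    obtain ⟨n, hn⟩ := hy
    exact ⟨n, by rw [← map_nsmul, hn, map_zero]⟩
  rw [hecke_eq_frob hTM hℓ hℓM A hA σ hσ y hy, hecke_eq_frob hTN hℓ hℓN A hA σ hσ (f y) hfy,
    map_add, map_nsmul, hf, hf]

/-- Additive maps preserve `p`-power torsion. -/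
theorem map_torsion {A B : Type*} [AddCommGroup A] [AddCommGroup B] (f : A →+ B) {y : A}
    (hy : ∃ n : ℕ, (p ^ n) • y = 0) : ∃ n : ℕ, (p ^ n) • f y = 0 := by
  obtain ⟨n, hn⟩ := hy
  exact ⟨n, by rw [← map_nsmul, hn, map_zero]⟩

/-- **Hecke equivariance for free, polynomial form.**  A Galois-equivariant additive map
`J₀(M) → J₀(N)` commutes, on `p`-power torsion, with every element of the abstract Hecke algebra
supported on the variables `ℓ ∤ M N p`. -/
theorem map_heckeEval_of_galois (f : JZero M →+ JZero N) (hf : ∀ (σ : GQ) (x : JZero M),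
    f (σ • x) = σ • f x) (hTM : TorsRel M p) (hTN : TorsRel N p)
    (hcM : HeckeOperatorsCommuteBar M) (hcN : HeckeOperatorsCommuteBar N)
    (t : HeckeAlg)
    (ht : t ∈ MvPolynomial.supported ℤ {ℓ : Nat.Primes | ¬ (ℓ : ℕ) ∣ M * p ∧ ¬ (ℓ : ℕ) ∣ N * p})
    (y : JZero M) (hy : ∃ n : ℕ, (p ^ n) • y = 0) :
    f (heckeEvalBar hcM t y) = heckeEvalBar hcN t (f y) := by
  rw [MvPolynomial.supported_eq_adjoin_X] at ht
  induction ht using Algebra.adjoin_induction generalizing y with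
  | mem t ht =>
    obtain ⟨ℓ, hℓ, rfl⟩ := ht
    rw [show (MvPolynomial.X ℓ : HeckeAlg) = heckeGen ℓ from rfl, heckeEvalBar_heckeGen,
      heckeEvalBar_heckeGen]
    exact map_hecke_of_galois f hf hTM hTN ℓ.2 hℓ.1 hℓ.2 y hy
  | algebraMap r =>
    rw [MvPolynomial.algebraMap_eq, heckeEvalBar_C, heckeEvalBar_C, Module.End.intCast_apply,
      Module.End.intCast_apply, map_zsmul]
  | add a b _ _ ha hb =>
    rw [map_add, map_add, LinearMap.add_apply, LinearMap.add_apply, map_add, ha y hy, hb y hy]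
  | mul a b _ _ ha hb =>
    have hby : ∃ n : ℕ, (p ^ n) • (heckeEvalBar hcM b y) = 0 :=
      map_torsion (heckeEvalBar hcM b).toAddMonoidHom hy
    rw [map_mul, map_mul, Module.End.mul_apply, Module.End.mul_apply, ha _ hby, hb y hy]

end MapHecke

section DegeneracyHecke

variable (N q : ℕ) [NeZero N] [NeZero q] {p : ℕ}

omit [NeZero N] [NeZero q] in
theorem not_dvd_of_not_dvd_mul {ℓ : ℕ} (h : ¬ ℓ ∣ N * q * p) : ¬ ℓ ∣ N * p := fun h' =>
  h (by
    obtain ⟨c, hc⟩ := h'
    exact ⟨c * q, by rw [← mul_assoc, ← hc]; ring⟩)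

/-- `α_*` commutes with `T_ℓ` (`ℓ ∤ N q p`) on `p`-power torsion. -/
theorem pushA_hecke (hT' : TorsRel (N * q) p) (hT : TorsRel N p) {ℓ : ℕ} (hℓ : ℓ.Prime)
    (hℓN : ¬ ℓ ∣ N * q * p) (y : JZero (N * q)) (hy : ∃ n : ℕ, (p ^ n) • y = 0) :
    pushA N q (heckeOperatorBar (N * q) ⟨ℓ, hℓ⟩ y) = heckeOperatorBar N ⟨ℓ, hℓ⟩ (pushA N q y) :=
  map_hecke_of_galois (pushA N q) (pushA_galois N q) hT' hT hℓ hℓN
    (not_dvd_of_not_dvd_mul N q hℓN) y hy

/-- `β_*` commutes with `T_ℓ` (`ℓ ∤ N q p`) on `p`-power torsion. -/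
theorem pushB_hecke (hT' : TorsRel (N * q) p) (hT : TorsRel N p) {ℓ : ℕ} (hℓ : ℓ.Prime)
    (hℓN : ¬ ℓ ∣ N * q * p) (y : JZero (N * q)) (hy : ∃ n : ℕ, (p ^ n) • y = 0) :
    pushB N q (heckeOperatorBar (N * q) ⟨ℓ, hℓ⟩ y) = heckeOperatorBar N ⟨ℓ, hℓ⟩ (pushB N q y) :=
  map_hecke_of_galois (pushB N q) (pushB_galois N q) hT' hT hℓ hℓN
    (not_dvd_of_not_dvd_mul N q hℓN) y hy

end DegeneracyHecke

/-! ### `q`-new classes -/

section QNew

variable (N q : ℕ) [NeZero N] [NeZero q]

/-- `x ∈ J₀(N q)` is `q`-new: it is killed by both degeneracy push-forwards to level `N`. -/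
def IsQNew (x : JZero (N * q)) : Prop := pushA N q x = 0 ∧ pushB N q x = 0

variable {N q}

theorem isQNew_zero : IsQNew N q 0 := ⟨map_zero _, map_zero _⟩

theorem IsQNew.add {x y : JZero (N * q)} (hx : IsQNew N q x) (hy : IsQNew N q y) :
    IsQNew N q (x + y) :=
  ⟨by rw [map_add, hx.1, hy.1, add_zero], by rw [map_add, hx.2, hy.2, add_zero]⟩

theorem IsQNew.neg {x : JZero (N * q)} (hx : IsQNew N q x) : IsQNew N q (-x) :=
  ⟨by rw [map_neg, hx.1, neg_zero], by rw [map_neg, hx.2, neg_zero]⟩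

theorem IsQNew.nsmul {x : JZero (N * q)} (hx : IsQNew N q x) (n : ℕ) : IsQNew N q (n • x) :=
  ⟨by rw [map_nsmul, hx.1, smul_zero], by rw [map_nsmul, hx.2, smul_zero]⟩

theorem IsQNew.zsmul {x : JZero (N * q)} (hx : IsQNew N q x) (n : ℤ) : IsQNew N q (n • x) :=
  ⟨by rw [map_zsmul, hx.1, smul_zero], by rw [map_zsmul, hx.2, smul_zero]⟩

theorem IsQNew.galois {x : JZero (N * q)} (hx : IsQNew N q x) (σ : GQ) : IsQNew N q (σ • x) :=
  ⟨by rw [pushA_galois, hx.1]; exact map_zero (DistribSMul.toAddMonoidHom (JZero N) σ),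
   by rw [pushB_galois, hx.2]; exact map_zero (DistribSMul.toAddMonoidHom (JZero N) σ)⟩

/-- `q`-newness in terms of divisors: `x = [D]` with `α_* D` and `β_* D` principal. -/
theorem isQNew_mk_iff (D : Divisor.degZero (K := Kbar) (F := modularFunctionFieldBar (N * q))) :
    IsQNew N q (Pic0.mk D) ↔
      (Divisor.pushforwardAlong (heckeAlphaBar Kbar N q) (heckeAlphaBarIntegral N q)
        (D : Divisor Kbar (modularFunctionFieldBar (N * q)))).IsPrincipal ∧
      (Divisor.pushforwardAlong (heckeBetaBar Kbar N q) (heckeBetaBarIntegral N q)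
        (D : Divisor Kbar (modularFunctionFieldBar (N * q)))).IsPrincipal := by
  rw [IsQNew, pushA_mk_eq_zero_iff, pushB_mk_eq_zero_iff]

/-- `T_ℓ` (`ℓ ∤ N q p`) preserves `q`-new `p`-power torsion classes. -/
theorem IsQNew.hecke {p : ℕ} (hT' : TorsRel (N * q) p) (hT : TorsRel N p) {ℓ : ℕ} (hℓ : ℓ.Prime)
    (hℓN : ¬ ℓ ∣ N * q * p) {y : JZero (N * q)} (hy : ∃ n : ℕ, (p ^ n) • y = 0)
    (hq : IsQNew N q y) : IsQNew N q (heckeOperatorBar (N * q) ⟨ℓ, hℓ⟩ y) :=
  ⟨by rw [pushA_hecke N q hT' hT hℓ hℓN y hy, hq.1, map_zero],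
   by rw [pushB_hecke N q hT' hT hℓ hℓN y hy, hq.2, map_zero]⟩

/-- **KILLER ⇒ `q`-new.**  If `t` (supported on the variables `ℓ ∤ N q p`) kills the `p`-power
torsion of `J₀(N)`, then `t • y` is `q`-new for every `p`-power torsion `y ∈ J₀(N q)`. -/
theorem isQNew_heckeEval {p : ℕ} (hT' : TorsRel (N * q) p) (hT : TorsRel N p)
    (hc' : HeckeOperatorsCommuteBar (N * q)) (hc : HeckeOperatorsCommuteBar N)
    (t : HeckeAlg)
    (ht : t ∈ MvPolynomial.supported ℤ {ℓ : Nat.Primes | ¬ (ℓ : ℕ) ∣ N * q * p})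
    (hkill : ∀ z : JZero N, (∃ n : ℕ, (p ^ n) • z = 0) → heckeEvalBar hc t z = 0)
    (y : JZero (N * q)) (hy : ∃ n : ℕ, (p ^ n) • y = 0) :
    IsQNew N q (heckeEvalBar hc' t y) := by
  have ht' : t ∈ MvPolynomial.supported ℤ
      {ℓ : Nat.Primes | ¬ (ℓ : ℕ) ∣ N * q * p ∧ ¬ (ℓ : ℕ) ∣ N * p} := by
    refine MvPolynomial.supported_mono ?_ ht
    intro ℓ hℓ
    exact ⟨hℓ, not_dvd_of_not_dvd_mul N q hℓ⟩
  constructor
  · rw [map_heckeEval_of_galois (pushA N q) (pushA_galois N q) hT' hT hc' hc t ht' y hy]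
    exact hkill _ (map_torsion (pushA N q) hy)
  · rw [map_heckeEval_of_galois (pushB N q) (pushB_galois N q) hT' hT hc' hc t ht' y hy]
    exact hkill _ (map_torsion (pushB N q) hy)

end QNew

end Fermat.Agent.S35.H155

end

end
-- ===== PACK-END S35/H155/B2.lean

-- ===== PACK-BEGIN S35/H891/Mid3.lean
section
/-
S35 mid layer for the CUBIC relation (helper891): `S35.H991.HasNewformEigenModules` (the input of
the landed top glue `S35.H991.result_of`) from

* the inputs of row S30 in the unfolded lattice form (`hfin hsm hgeq hunr hes hlat`, exactly as in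
  `S35/H991/Mid.lean`);
* `NewPartFrob3Statement` : for `q ∥ M` there are two GALOIS-equivariant additive maps
  `a b : J₀(M) → J₀(M/q)` such that every Frobenius lift `σ` at `q` satisfies the CUBIC relation
  `(σ² - q²)(σ² - 1)² x = 0` on the torsion prime to `q` of `ker a ∩ ker b`;
* `S35.H991.ExclTateStatement`.

Differences with `S35.H991.hasNewformEigenModules_of_inputs`:
* the relation is cubic in `σ²` (this is what the norm-residue argument NR gives without
  normalising the Kummer generator; the quartic relation on the eigenmodule FOLLOWS, by the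
  algebra of `Cubic.lean` and the quadratic relation with determinant `q`);
* no Hecke-equivariance of `a`, `b` is asked: on torsion it follows from the Galois-equivariance
  and the Eichler–Shimura relations (`S35.H155.map_hecke_of_galois`).
-/





set_option autoImplicit false

namespace Fermat.Agent.S35.H891

open TensorProduct IsLocalRing Fermat.Agent.S30.H990 Fermat.Agent.S30.H529
  Fermat.Agent.S35.H991

/-- Bad Frobenius on the `q`-new torsion, cubic form, for degeneracy maps `J₀(M) → J₀(K)`. -/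
def NewPartFrob3At (M K q : ℕ) [NeZero M] [NeZero K] : Prop :=
  ∃ a b : ModularCurve.JZero M →+ ModularCurve.JZero K,
    (∀ (γ : GQ) (x : ModularCurve.JZero M), a (γ • x) = γ • a x) ∧
    (∀ (γ : GQ) (x : ModularCurve.JZero M), b (γ • x) = γ • b x) ∧
    ∀ A : ValuationSubring (AlgebraicClosure ℚ), A.LiesOverPrime q →
      ∀ σ : GQ, A.IsFrobeniusAt σ q →
        ∀ m : ℕ, ¬ q ∣ m → ∀ x : ModularCurve.JZero M, m • x = 0 → a x = 0 → b x = 0 →
          σ • σ • σ • σ • σ • σ • x + (1 + 2 * q ^ 2) • (σ • σ • x)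
            = (2 + q ^ 2) • (σ • σ • σ • σ • x) + q ^ 2 • x

/-- **Bad Frobenius on the `q`-new torsion, cubic form.** -/
def NewPartFrob3Statement : Prop :=
  ∀ (M q : ℕ) [NeZero M] [NeZero (M / q)], q.Prime → q ∣ M → ¬ q ^ 2 ∣ M →
    NewPartFrob3At M (M / q) q

/-- **The newform eigenmodules from the inputs of row S30, the cubic relation and (X).** -/
theorem hasNewformEigenModules_of_cubic
    (hfin : ∀ (N p : ℕ) [NeZero N], p.Prime →
      Finite {x : ModularCurve.JZero N // (p : ℤ) • x = 0})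
    (hsm : ∀ (N p : ℕ) [NeZero N], ∀ x : ModularCurve.JZero N,
      (∃ n : ℕ, ((p : ℤ) ^ n) • x = 0) →
        ∃ L : IntermediateField ℚ (AlgebraicClosure ℚ), FiniteDimensional ℚ L ∧
          ∀ σ : GQ, (∀ y ∈ L, σ y = y) → σ • x = x)
    (hgeq : ∀ (N : ℕ) [NeZero N] (ℓ : Nat.Primes) (σ : GQ) (x : ModularCurve.JZero N),
      ModularCurve.heckeOperatorBar N ℓ (σ • x) = σ • ModularCurve.heckeOperatorBar N ℓ x)
    (hunr : ∀ (N p : ℕ) [NeZero N], ∀ q : ℕ, q.Prime → ¬ q ∣ N * p →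
      ∀ A : ValuationSubring (AlgebraicClosure ℚ), A.LiesOverPrime q →
        ∀ σ ∈ A.inertiaSubgroupIn ℚ, ∀ x : ModularCurve.JZero N,
          (∃ n : ℕ, ((p : ℤ) ^ n) • x = 0) → σ • x = x)
    (hes : ∀ (N p : ℕ) [NeZero N], ∀ (ℓ : ℕ) (hℓ : ℓ.Prime), ¬ ℓ ∣ N * p →
      ∀ A : ValuationSubring (AlgebraicClosure ℚ), A.LiesOverPrime ℓ →
        ∀ σ : GQ, A.IsFrobeniusAt σ ℓ → ∀ x : ModularCurve.JZero N,
          (∃ n : ℕ, ((p : ℤ) ^ n) • x = 0) →
            σ • σ • x - ModularCurve.heckeOperatorBar N ⟨ℓ, hℓ⟩ (σ • x) + (ℓ : ℤ) • x = 0)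
    (hlat : ∀ (N p : ℕ) [NeZero N], p.Prime →
      ∃ (Λ : Type) (_ : AddCommGroup Λ) (_ : Module.Free ℤ Λ) (_ : Module.Finite ℤ Λ)
        (TΛ : Nat.Primes → Λ →ₗ[ℤ] Λ) (κ : ℕ → Λ →ₗ[ℤ] ModularCurve.JZero N),
        (∀ (n : ℕ) (x : Λ), κ n x = 0 ↔ ∃ y : Λ, x = ((p : ℤ) ^ n) • y) ∧
        (∀ (n : ℕ) (x : Λ), (p : ℤ) • κ (n + 1) x = κ n x) ∧
        (∀ ℓ : Nat.Primes, ¬ (ℓ : ℕ) ∣ N * p → ∀ (n : ℕ) (x : Λ),
          κ n (TΛ ℓ x) = ModularCurve.heckeOperatorBar N ℓ (κ n x)) ∧
        (∀ (S : Set ℕ) (R : Type) [CommRing R] [IsDomain R] [CharZero R]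
          (χ : CuspForm.heckeAlgebra N 2 S →+* R),
          ∃ v : R ⊗[ℤ] Λ, v ≠ 0 ∧
            ∀ (ℓ : ℕ) (hℓ : ℓ.Prime) (hℓN : ¬ ℓ ∣ N) (hℓS : ℓ ∉ S),
              (TΛ ⟨ℓ, hℓ⟩).baseChange R v = χ (CuspForm.heckeAlgebra.T hℓ hℓN hℓS) • v))
    (hG : NewPartFrob3Statement) (hX : ExclTateStatement) :
    HasNewformEigenModules := by
  classical
  intro M _ g hg p _ S O' _ _ _ _ _ _ hpO' chig hchig iota hpS hMS
  have hp : p.Prime := Fact.out
  set χ : CuspForm.heckeAlgebra M 2 (↑S : Set ℕ) →+* O' := iota.comp chig.rangeRestrict with hχ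
  obtain ⟨Λ, i1, i2, i3, TΛ, κ, hκ0, hκs, hκT, hocc⟩ := hlat M p hp
  obtain ⟨v, hv, hva⟩ := hocc (↑S : Set ℕ) O' χ
  -- good primes
  have hNp : ∀ ℓ : ℕ, ℓ.Prime → ¬ ℓ ∣ M → ℓ ≠ p → ¬ ℓ ∣ M * p := by
    intro ℓ hℓ hℓN hℓp h
    rcases (Nat.Prime.dvd_mul hℓ).1 h with h | h
    · exact hℓN h
    · exact hℓp ((Nat.prime_dvd_prime_iff_eq hℓ hp).1 h)
  have hιp : ∀ i : {ℓ : Nat.Primes // ¬ (ℓ : ℕ) ∣ M ∧ (ℓ : ℕ) ∉ (↑S : Set ℕ)},
      ((i.1 : Nat.Primes) : ℕ) ≠ p := by
    intro i h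
    exact i.2.2 (by rw [h]; exact hpS)
  -- conversions between `ℤ`- and `ℕ`-torsion
  have hpow : ∀ (N : ℕ) (n : ℕ) (x : ModularCurve.JZero N),
      ((p : ℤ) ^ n) • x = p ^ n • x := by
    intro N n x
    rw [← Nat.cast_pow, natCast_zsmul]
  -- the torsion relations in the form of helper155
  have hTors : ∀ (N : ℕ) [NeZero N], Fermat.Agent.S35.H155.TorsRel N p := by
    intro N _ ℓ hℓ hℓN A hA
    refine ⟨fun σ hσ x hx => hunr N p ℓ hℓ hℓN A hA σ hσ x ?_, fun σ hσ x hx => ?_⟩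
    · obtain ⟨n, hn⟩ := hx
      exact ⟨n, by rw [hpow]; exact hn⟩
    · have h := hes N p ℓ hℓ hℓN A hA σ hσ x (by
        obtain ⟨n, hn⟩ := hx
        exact ⟨n, by rw [hpow]; exact hn⟩)
      rw [natCast_zsmul] at h
      exact h
  -- the operators
  let T : {ℓ : Nat.Primes // ¬ (ℓ : ℕ) ∣ M ∧ (ℓ : ℕ) ∉ (↑S : Set ℕ)} →
      ModularCurve.JZero M →+ ModularCurve.JZero M :=
    fun i => (ModularCurve.heckeOperatorBar M i.1).toAddMonoidHom
  let a : {ℓ : Nat.Primes // ¬ (ℓ : ℕ) ∣ M ∧ (ℓ : ℕ) ∉ (↑S : Set ℕ)} → O' :=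
    fun i => χ (CuspForm.heckeAlgebra.T i.1.2 i.2.1 i.2.2)
  have hT' : ∀ i, (T i).toIntLinearMap = ModularCurve.heckeOperatorBar M i.1 :=
    fun i => LinearMap.ext fun _ => rfl
  have hfin' : {x : ModularCurve.JZero M | p • x = 0}.Finite := by
    have h1 : {x : ModularCurve.JZero M | (p : ℤ) • x = 0}.Finite :=
      Set.finite_coe_iff.mp (hfin M p hp)
    refine h1.subset fun x hx => ?_
    show (p : ℤ) • x = 0
    rw [natCast_zsmul]
    exact hx
  -- the Kummer sequence (as in `S30.H649.exists_adicFrobModule_of_lattice`)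
  have hκzero : ∀ w : O' ⊗[ℤ] Λ, (κ 0).baseChange O' w = 0 := by
    have h0 : κ 0 = 0 := by
      apply LinearMap.ext
      intro x
      rw [LinearMap.zero_apply, hκ0 0 x]
      exact ⟨x, by rw [pow_zero, one_smul]⟩
    intro w
    rw [h0, LinearMap.baseChange_zero, LinearMap.zero_apply]
  have hκsucc : ∀ (n : ℕ) (w : O' ⊗[ℤ] Λ),
      (p : O') • (κ (n + 1)).baseChange O' w = (κ n).baseChange O' w := by
    intro n w
    have h1 : (p : ℤ) • κ (n + 1) = κ n := LinearMap.ext fun x => hκs n x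
    have h2 : ((p : ℤ) : O') • (κ (n + 1)).baseChange O' w
        = (p : ℤ) • (κ (n + 1)).baseChange O' w := Fermat.Agent.S30.H649.intCast_smul_tensor _ _
    rw [Int.cast_natCast] at h2
    rw [h2, ← LinearMap.smul_apply, ← LinearMap.baseChange_smul, h1]
  obtain ⟨n₀, hn₀⟩ := Fermat.Agent.S30.H649.exists_baseChange_ne_zero (𝒪 := O') hpO' κ hκ0 v hv
  obtain ⟨m₀, rfl⟩ : ∃ m₀, n₀ = m₀ + 1 := by
    cases n₀ with
    | zero => exact absurd (hκzero v) hn₀
    | succ m => exact ⟨m, rfl⟩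
  let seq : ℕ → O' ⊗[ℤ] ModularCurve.JZero M := fun n => (κ (n + 1)).baseChange O' v
  have hseq0 : (p : O') • seq 0 = 0 := by
    show (p : O') • (κ (0 + 1)).baseChange O' v = 0
    rw [hκsucc 0 v, hκzero v]
  have hseqs : ∀ n, (p : O') • seq (n + 1) = seq n := fun n => hκsucc (n + 1) v
  have hseqne : seq ≠ 0 := fun h => hn₀ (congrFun h m₀)
  have hseqeig : ∀ i n, tensorOp O' T i (seq n) = a i • seq n := by
    intro i n
    show ((T i).toIntLinearMap.baseChange O') ((κ (n + 1)).baseChange O' v)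
      = a i • (κ (n + 1)).baseChange O' v
    have h1 : ModularCurve.heckeOperatorBar M i.1 ∘ₗ κ (n + 1) = κ (n + 1) ∘ₗ TΛ i.1 :=
      LinearMap.ext fun x => (hκT i.1 (hNp _ i.1.2 i.2.1 (hιp i)) (n + 1) x).symm
    have hva' : (TΛ i.1).baseChange O' v = a i • v := hva i.1 i.1.2 i.2.1 i.2.2
    rw [hT' i, ← LinearMap.comp_apply, ← LinearMap.baseChange_comp, h1,
      LinearMap.baseChange_comp, LinearMap.comp_apply, hva', map_smul]
  -- the degeneracy maps at the primes `q ∥ M`, `q ≠ p`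
  let Q : Type := {q : ℕ // q.Prime ∧ q ≠ p ∧ q ∣ M ∧ ¬ q ^ 2 ∣ M}
  have hne0 : ∀ q : Q, NeZero (M / q.1) := by
    intro q
    refine ⟨?_⟩
    have hM : M ≠ 0 := NeZero.ne M
    intro h0
    have h1 := Nat.div_mul_cancel q.2.2.2.1
    rw [h0, zero_mul] at h1
    exact hM h1.symm
  have hab : ∀ q : Q, ∃ a b : ModularCurve.JZero M →+ ModularCurve.JZero (M / q.1),
      (∀ (γ : GQ) (x : ModularCurve.JZero M), a (γ • x) = γ • a x) ∧
      (∀ (γ : GQ) (x : ModularCurve.JZero M), b (γ • x) = γ • b x) ∧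
      ∀ A : ValuationSubring (AlgebraicClosure ℚ), A.LiesOverPrime q.1 →
        ∀ σ : GQ, A.IsFrobeniusAt σ q.1 →
          ∀ m : ℕ, ¬ q.1 ∣ m → ∀ x : ModularCurve.JZero M, m • x = 0 → a x = 0 → b x = 0 →
            σ • σ • σ • σ • σ • σ • x + (1 + 2 * q.1 ^ 2) • (σ • σ • x)
              = (2 + q.1 ^ 2) • (σ • σ • σ • σ • x) + q.1 ^ 2 • x :=
    fun q => @hG M q.1 _ (hne0 q) q.2.1 q.2.2.2.1 q.2.2.2.2
  choose da db hda hdb hfrobq using hab
  let J' : Q × Bool → Type := fun c => ModularCurve.JZero (M / c.1.1)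
  let f : ∀ c : Q × Bool, ModularCurve.JZero M →+ J' c := fun c =>
    match c with
    | (q, true) => da q
    | (q, false) => db q
  let T'' : ∀ c : Q × Bool, {ℓ : Nat.Primes // ¬ (ℓ : ℕ) ∣ M ∧ (ℓ : ℕ) ∉ (↑S : Set ℕ)} →
      J' c →+ J' c :=
    fun c i => (@ModularCurve.heckeOperatorBar (M / c.1.1) (hne0 c.1) i.1).toAddMonoidHom
  have hdivp : ∀ (q : Q) (ℓ : ℕ), ℓ.Prime → ¬ ℓ ∣ M → ℓ ≠ p → ¬ ℓ ∣ (M / q.1) * p := by
    intro q ℓ hℓ hℓN hℓp h
    rcases (Nat.Prime.dvd_mul hℓ).1 h with h | h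
    · exact hℓN (h.trans (Nat.div_dvd_of_dvd q.2.2.2.1))
    · exact hℓp ((Nat.prime_dvd_prime_iff_eq hℓ hp).1 h)
  have hf : ∀ (c : Q × Bool) (i : {ℓ : Nat.Primes // ¬ (ℓ : ℕ) ∣ M ∧ (ℓ : ℕ) ∉ (↑S : Set ℕ)})
      (x : ModularCurve.JZero M), (∃ n : ℕ, p ^ n • x = 0) → f c (T i x) = T'' c i (f c x) := by
    rintro ⟨q, b⟩ i x hx
    cases b with
    | true =>
      exact @Fermat.Agent.S35.H155.map_hecke_of_galois M (M / q.1) _ (hne0 q) p (da q) (hda q)
        (hTors M) (@hTors (M / q.1) (hne0 q)) i.1.1 i.1.2 (hNp _ i.1.2 i.2.1 (hιp i))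
        (hdivp q _ i.1.2 i.2.1 (hιp i)) x hx
    | false =>
      exact @Fermat.Agent.S35.H155.map_hecke_of_galois M (M / q.1) _ (hne0 q) p (db q) (hdb q)
        (hTors M) (@hTors (M / q.1) (hne0 q)) i.1.1 i.1.2 (hNp _ i.1.2 i.2.1 (hιp i))
        (hdivp q _ i.1.2 i.2.1 (hιp i)) x hx
  have hexcl : ∀ (c : Q × Bool) (z : ℕ → O' ⊗[ℤ] J' c), (p : O') • z 0 = 0 →
      (∀ n, (p : O') • z (n + 1) = z n) →
      (∀ i n, tensorOp O' (T'' c) i (z n) = a i • z n) → z = 0 := by
    intro c z hz0 hzs hzeig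
    exact @hX M _ g hg c.1.1 (hne0 c.1) c.1.2.1 c.1.2.2.2.1 p _ S O' _ _ _ _ _ _ hpO' chig hchig
      iota hpS hMS z hz0 hzs (fun ℓ hℓ hℓM hℓS n => hzeig ⟨⟨ℓ, hℓ⟩, hℓM, hℓS⟩ n)
  -- the eigenmodule of the new part
  obtain ⟨E, j1, j2, j3, j4, ρ, hnt, hcont, hone, hquad, hcub⟩ :=
    exists_adic_eigenmodule_new3 (O := O') hpO' hp.ne_zero (J := ModularCurve.JZero M) T a
      (fun i γ x => hgeq M i.1 γ x) hfin'
      (fun x hx => hsm M p x (by
        obtain ⟨n, hn⟩ := hx
        exact ⟨n, by rw [hpow]; exact hn⟩))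
      T'' f hf hexcl seq hseq0 hseqs hseqne hseqeig
  -- the adic eigenmodule
  let EM : AdicEigenModule p M S O' χ :=
    { M := E
      ρ := ρ
      cont := hcont
      unram := fun q hq hqN hqp P hP σ hσ =>
        hone σ fun x hx _ => hunr M p q hq (hNp q hq hqN hqp) P hP σ hσ x (by
          obtain ⟨n, hn⟩ := hx
          exact ⟨n, by rw [hpow]; exact hn⟩)
      frob := fun ℓ hℓ hℓN hℓS A hA σ hσ => by
        have hℓp : ℓ ≠ p := fun h => hℓS (Finset.mem_coe.mpr (h ▸ hpS))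
        have h := hquad σ ⟨⟨ℓ, hℓ⟩, hℓN, hℓS⟩ ((ℓ : ℕ) : ℤ)
          (fun x hx _ => hes M p ℓ hℓ (hNp ℓ hℓ hℓN hℓp) A hA σ hσ x (by
            obtain ⟨n, hn⟩ := hx
            exact ⟨n, by rw [hpow]; exact hn⟩))
        simpa using h }
  refine ⟨EM, ?_⟩
  -- the bad-Frobenius relation: cubic on the module, then quartic by algebra
  intro q hq hqp hqM hq2 A hA σ hσ
  have hqpn : ∀ n : ℕ, ¬ q ∣ p ^ n := by
    intro n h
    exact hqp ((Nat.prime_dvd_prime_iff_eq hq hp).1 (hq.dvd_of_dvd_pow h))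
  have hc := hcub (σ * σ) (-(2 + (q : ℤ) ^ 2)) (1 + 2 * (q : ℤ) ^ 2) (-((q : ℤ) ^ 2)) (by
    rintro x ⟨n, hn⟩ hnew
    have h1 := hfrobq ⟨q, hq, hqp, hqM, hq2⟩ A hA σ hσ (p ^ n) (hqpn n) x hn
      (by simpa using hnew 1 (⟨q, hq, hqp, hqM, hq2⟩, true))
      (by simpa using hnew 1 (⟨q, hq, hqp, hqM, hq2⟩, false))
    simp only [mul_smul]
    have h2 : σ • σ • σ • σ • σ • σ • x + (1 + 2 * q ^ 2) • (σ • σ • x)
        = (2 + q ^ 2) • (σ • σ • σ • σ • x) + q ^ 2 • x := h1
    generalize σ • σ • σ • σ • σ • σ • x = X6 at h2 ⊢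
    generalize σ • σ • σ • σ • x = X4 at h2 ⊢
    generalize σ • σ • x = X2 at h2 ⊢
    linear_combination (norm := module) h2)
  -- the quadratic relation with determinant `q`
  obtain ⟨d, hdfrob, -, -, hdcont⟩ := exists_cyclo p O' hpO'
  have hcheb : ChebWeak :=
    chebWeak_of_frobeniusDivision Fermat.Agent.Lib.Cheb.frobeniusDivision
  obtain ⟨tr, htr⟩ : ∃ tr, S30.H990.Rel EM.ρ d σ tr :=
    exists_rel_of_mod EM.ρ d σ (fun n => exists_rel_mod hcheb hpS hMS EM d hdfrob hdcont σ n)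
  have hdσ : ((d σ : O'ˣ) : O') = (q : O') := hdfrob q hq hqp A hA σ hσ
  have hq0 : (q : O') ≠ 0 := Nat.cast_ne_zero.mpr hq.ne_zero
  have hquad' : ∀ w : EM.M, EM.ρ σ (EM.ρ σ w) - tr • EM.ρ σ w + (q : O') • w = 0 := by
    intro w
    have := rel_apply EM.ρ d htr w
    rwa [hdσ] at this
  have hcubic : CubicFrobRel (q : O') (EM.ρ σ) := by
    intro w
    have h2 := hc w
    have hmul : ∀ u : E, ρ (σ * σ) u = ρ σ (ρ σ u) := by
      intro u
      rw [map_mul]
      rfl
    rw [hmul, hmul, hmul] at h2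
    show ρ σ (ρ σ (ρ σ (ρ σ (ρ σ (ρ σ w))))) - (2 + (q : O') ^ 2) • ρ σ (ρ σ (ρ σ (ρ σ w)))
      + (1 + 2 * (q : O') ^ 2) • ρ σ (ρ σ w) - ((q : O') ^ 2) • w = 0
    have e1 : ((-(2 + (q : ℤ) ^ 2) : ℤ) : O') = -(2 + (q : O') ^ 2) := by push_cast; ring
    have e2 : ((1 + 2 * (q : ℤ) ^ 2 : ℤ) : O') = 1 + 2 * (q : O') ^ 2 := by push_cast; ring
    have e3 : ((-((q : ℤ) ^ 2) : ℤ) : O') = -((q : O') ^ 2) := by push_cast; ring
    rw [e1, e2, e3] at h2
    rw [← h2]
    module
  intro w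
  exact quartic_of_cubicFrob hq0 hquad' hcubic w

end Fermat.Agent.S35.H891

end
-- ===== PACK-END S35/H891/Mid3.lean

-- ===== PACK-BEGIN S35/H891/Wired3.lean
section
/-
S35 (helper891): the frozen statement S35 from the CUBIC bad-Frobenius relation.

`result_of_cubic` : the frozen statement S35 (binders as in the template) from
* the six inputs of row S30 in the unfolded lattice form (`S34/H789/Inputs.lean` shapes, exactly
  as in `S35/H991/Wired.lean`),
* `NewPartFrob3Statement` (cubic relation on the `q`-new torsion, Galois-equivariant degeneracy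
  maps),
* `S35.H991.ExclTateStatement`.
-/


set_option autoImplicit false

namespace Fermat.Agent.S35.H891

open Polynomial TensorProduct Fermat.Agent.S30.H990 Fermat.Agent.S35.H991

theorem result_of_cubic
    (hfin : ∀ (N p : ℕ) [NeZero N], p.Prime →
      Finite {x : ModularCurve.JZero N // (p : ℤ) • x = 0})
    (hsm : ∀ (N p : ℕ) [NeZero N], ∀ x : ModularCurve.JZero N,
      (∃ n : ℕ, ((p : ℤ) ^ n) • x = 0) →
        ∃ L : IntermediateField ℚ (AlgebraicClosure ℚ), FiniteDimensional ℚ L ∧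
          ∀ σ : GQ, (∀ y ∈ L, σ y = y) → σ • x = x)
    (hgeq : ∀ (N : ℕ) [NeZero N] (ℓ : Nat.Primes) (σ : GQ) (x : ModularCurve.JZero N),
      ModularCurve.heckeOperatorBar N ℓ (σ • x) = σ • ModularCurve.heckeOperatorBar N ℓ x)
    (hunr : ∀ (N p : ℕ) [NeZero N], ∀ q : ℕ, q.Prime → ¬ q ∣ N * p →
      ∀ A : ValuationSubring (AlgebraicClosure ℚ), A.LiesOverPrime q →
        ∀ σ ∈ A.inertiaSubgroupIn ℚ, ∀ x : ModularCurve.JZero N,
          (∃ n : ℕ, ((p : ℤ) ^ n) • x = 0) → σ • x = x)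
    (hes : ∀ (N p : ℕ) [NeZero N], ∀ (ℓ : ℕ) (hℓ : ℓ.Prime), ¬ ℓ ∣ N * p →
      ∀ A : ValuationSubring (AlgebraicClosure ℚ), A.LiesOverPrime ℓ →
        ∀ σ : GQ, A.IsFrobeniusAt σ ℓ → ∀ x : ModularCurve.JZero N,
          (∃ n : ℕ, ((p : ℤ) ^ n) • x = 0) →
            σ • σ • x - ModularCurve.heckeOperatorBar N ⟨ℓ, hℓ⟩ (σ • x) + (ℓ : ℤ) • x = 0)
    (hlat : ∀ (N p : ℕ) [NeZero N], p.Prime →
      ∃ (Λ : Type) (_ : AddCommGroup Λ) (_ : Module.Free ℤ Λ) (_ : Module.Finite ℤ Λ)
        (TΛ : Nat.Primes → Λ →ₗ[ℤ] Λ) (κ : ℕ → Λ →ₗ[ℤ] ModularCurve.JZero N),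
        (∀ (n : ℕ) (x : Λ), κ n x = 0 ↔ ∃ y : Λ, x = ((p : ℤ) ^ n) • y) ∧
        (∀ (n : ℕ) (x : Λ), (p : ℤ) • κ (n + 1) x = κ n x) ∧
        (∀ ℓ : Nat.Primes, ¬ (ℓ : ℕ) ∣ N * p → ∀ (n : ℕ) (x : Λ),
          κ n (TΛ ℓ x) = ModularCurve.heckeOperatorBar N ℓ (κ n x)) ∧
        (∀ (S : Set ℕ) (R : Type) [CommRing R] [IsDomain R] [CharZero R]
          (χ : CuspForm.heckeAlgebra N 2 S →+* R),
          ∃ v : R ⊗[ℤ] Λ, v ≠ 0 ∧
            ∀ (ℓ : ℕ) (hℓ : ℓ.Prime) (hℓN : ¬ ℓ ∣ N) (hℓS : ℓ ∉ S),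
              (TΛ ⟨ℓ, hℓ⟩).baseChange R v = χ (CuspForm.heckeAlgebra.T hℓ hℓN hℓS) • v))
    (hG : NewPartFrob3Statement) (hX : ExclTateStatement)
    {M : ℕ} [NeZero M] {g : CuspForm (CongruenceSubgroup.Gamma0 M) 2} (hg : g.IsNewform)
    (lam : ℕ) [Fact lam.Prime]
    (S : Finset ℕ)
    (O' : Type) [CommRing O'] [IsDomain O'] [IsDiscreteValuationRing O']
    [IsAdicComplete (IsLocalRing.maximalIdeal O') O'] [Finite (IsLocalRing.ResidueField O')]
    [CharZero O'] (hlamO' : (lam : O') ∈ IsLocalRing.maximalIdeal O')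
    (chig : CuspForm.heckeAlgebra M 2 (↑S : Set ℕ) →+* ℂ)
    (hchig : ∀ (ℓ : ℕ) (hℓ : ℓ.Prime) (hℓM : ¬ ℓ ∣ M) (hℓS : ℓ ∉ (↑S : Set ℕ)),
      chig (CuspForm.heckeAlgebra.T hℓ hℓM hℓS) = ModularFormClass.qCoeff g ℓ)
    (iota : chig.range →+* O')
    (hlamS : lam ∈ S) (hMS : ∀ q : ℕ, q.Prime → q ∣ M → q ∈ S) :
    ∃ (O'' : Type) (_ : CommRing O'') (_ : IsDomain O'') (_ : IsDiscreteValuationRing O'')
      (_ : IsAdicComplete (IsLocalRing.maximalIdeal O'') O'') (_ : Finite (IsLocalRing.ResidueField O''))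
      (_ : CharZero O'') (_ : Algebra O' O'') (_ : Module.Finite O' O'') (_ : IsLocalHom (algebraMap O' O'')),
      Function.Injective (algebraMap O' O'') ∧
      ∃ ρ : GaloisRepAdic O'',
        (∀ (ℓ : ℕ) (hℓ : ℓ.Prime) (hℓM : ¬ ℓ ∣ M) (hℓS : ℓ ∉ (↑S : Set ℕ)),
          ∀ A : ValuationSubring (AlgebraicClosure ℚ), A.LiesOverPrime ℓ →
            ∀ σ : AlgebraicClosure ℚ ≃ₐ[ℚ] AlgebraicClosure ℚ, A.IsFrobeniusAt σ ℓ →
              LinearMap.charpoly (ρ.ρ σ) =
                X ^ 2 - C (algebraMap O' O'' ((iota.comp chig.rangeRestrict) (CuspForm.heckeAlgebra.T hℓ hℓM hℓS))) * X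
                  + C ((ℓ : O''))) ∧
        (∀ q : ℕ, q.Prime → q ≠ lam → q ∣ M → ¬ q ^ 2 ∣ M →
          ∀ A : ValuationSubring (AlgebraicClosure ℚ), A.LiesOverPrime q →
            ∀ σ : AlgebraicClosure ℚ ≃ₐ[ℚ] AlgebraicClosure ℚ, A.IsFrobeniusAt σ q →
              LinearMap.charpoly (ρ.ρ σ) = X ^ 2 - C ((q : O'') + 1) * X + C ((q : O'')) ∨
              LinearMap.charpoly (ρ.ρ σ) = X ^ 2 + C ((q : O'') + 1) * X + C ((q : O''))) :=
  _root_.Fermat.Agent.S35.H991.result_of (hasNewformEigenModules_of_cubic hfin hsm hgeq hunr hes hlat hG hX)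
    hg lam S O' hlamO' chig hchig iota hlamS hMS

end Fermat.Agent.S35.H891

end
-- ===== PACK-END S35/H891/Wired3.lean

-- ===== PACK-BEGIN S35/H891/Spec.lean
section





/-!
# S35, cell FROB — interfaces (helper891).  Definitions only, no `sorry`.

Plan: `coord/S35-FROB-helper891.md` (origin/helper891).  Notation: `N = M' * q`, `q ∤ M'`, `q ∤ m`,
`s` a Frobenius lift at a place `P ∣ q`, `φ = s²`, `Q = q²`.

* `FrobCtx`, `AlgFrobStatement`   : **FS**, the abstract theorem (language of `A2/Spec.lean` and of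
  route G, `A2/H12/GSpec.lean`): for a semilinear automorphism `φ` of the function field which
  induces `r ↦ r ^ Q` on the residue field of `R`, preserves the two sheets and fixes the crossing
  points of the two charts, every Kummer class `u` with `m ∣ div u` whose residues at the sheets are
  `m`-th powers satisfies `φ u = z ^ m * u ^ Q`.
* `SurjLeaf`, `CoverFLeaf`        : the two leaves which FS needs besides the route-G leaves
  `BaseLeaf`, `RootLeaf`, `SheetsLeaf`, `RedLeaf`, `ConstLeaf`, `CountLeaf` of `A2/H12/AlgLeaves.lean`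
  (`FrobLeaves.lean` : `algFrob_of_leaves`).
* `KummerQNewFrobStatement`       : **QNF**, Kummer form, in the modular function field `F̄_N`.
* `QNewFrobStatement`             : **QNF** on `JZero (M' * q)`:
  `(φ - Q)(φ - 1)² x = 0` for every `q`-new `x` of order prime to `q`.
  (The quartic relation `(φ - Q)(φ - 1) x = 0` of helper991 / helper433 implies it; the top glue
  `Top.lean` only needs the cubic one.)
-/

set_option autoImplicit false

noncomputable section

namespace Fermat.Agent.S35.H891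

open Fermat.Agent.A2 Fermat.Agent.A2.H12 ModularCurve AlgebraicCurve

/-! ## FS: the abstract Frobenius theorem -/

/-- The data and hypotheses of `AlgFrobStatement`: those of `A2.AlgSSStatement`, with the
inertia automorphism replaced by a Frobenius-type automorphism `φ`. -/
structure FrobCtx {R E F : Type} [CommRing R] [IsDomain R] [IsDiscreteValuationRing R]
    [HenselianLocalRing R] [IsAlgClosed (IsLocalRing.ResidueField R)]
    [Field E] [CharZero E] [Algebra R E] [IsFractionRing R E]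
    [Field F] [Algebra E F] [Algebra R F] [IsScalarTower R E F]
    (w : R) (q m Q : ℕ) (x : F) (Bf Bi : Subalgebra R F)
    (φ : F ≃+* F) (φE : E ≃+* E) (φR : R ≃+* R) : Prop where
  irr : Irreducible w
  qprime : q.Prime
  qmem : (q : R) ∈ IsLocalRing.maximalIdeal R
  mpos : 0 < m
  qm : ¬ q ∣ m
  transc : Transcendental E x
  fin : FiniteDimensional (IntermediateField.adjoin E ({x} : Set F)) F
  const : ∀ f : F, IsAlgebraic E f → f ∈ (algebraMap E F).range
  hBf : ∀ f : F, f ∈ Bf ↔ IsIntegral (Algebra.adjoin R ({x} : Set F)) f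
  hBi : ∀ f : F, f ∈ Bi ↔ IsIntegral (Algebra.adjoin R ({x⁻¹} : Set F)) f
  cf : Nonempty (SSChart w Bf)
  ci : Nonempty (SSChart w Bi)
  sf : SepCoord R E x Bf
  si : SepCoord R E x⁻¹ Bi
  hφE : ∀ e : E, φ (algebraMap E F e) = algebraMap E F (φE e)
  hφR : ∀ r : R, φE (algebraMap R E r) = algebraMap R E (φR r)
  hφx : φ x = x
  /-- `φ` induces `r ↦ r ^ Q` on the residue field of `R` -/
  hfrob : ∀ r : R, w ∣ φR r - r ^ Q
  /-- `φ` preserves every sheet (= every component of the special fibre) -/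
  hsheet : ∀ V : ValuationSubring F, IsSheet w x V → ∀ c : F, c ∈ V ↔ φ c ∈ V
  /-- `φ` fixes the crossing points of both charts -/
  hnodes : NodesFixed w x φ

/-- **FS (interface statement).** -/
def AlgFrobStatement : Prop :=
  ∀ {R E F : Type} [CommRing R] [IsDomain R] [IsDiscreteValuationRing R]
    [HenselianLocalRing R] [IsAlgClosed (IsLocalRing.ResidueField R)]
    [Field E] [CharZero E] [Algebra R E] [IsFractionRing R E]
    [Field F] [Algebra E F] [Algebra R F] [IsScalarTower R E F]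
    (w : R) (q m Q : ℕ) (x : F) (Bf Bi : Subalgebra R F)
    (φ : F ≃+* F) (φE : E ≃+* E) (φR : R ≃+* R),
    FrobCtx w q m Q x Bf Bi φ φE φR →
    ∀ u : F, u ≠ 0 → DivisibleDiv E m u →
      (∀ V : ValuationSubring F, IsSheet w x V → SplitAt m V u) →
      (∃ r : ℕ, 0 < r ∧ (φ ^ r) u = u) →
      ∃ z : F, z ≠ 0 ∧ φ u = z ^ m * u ^ Q

/-- Leaf **SURJ**: for every Kummer-split cover, the charts of the cover are generated by the
charts of the base modulo every sheet. -/
def SurjLeaf : Prop :=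
  ∀ {R E F : Type} [CommRing R] [IsDomain R] [IsDiscreteValuationRing R]
    [HenselianLocalRing R] [IsAlgClosed (IsLocalRing.ResidueField R)]
    [Field E] [CharZero E] [Algebra R E] [IsFractionRing R E]
    [Field F] [Algebra E F] [Algebra R F] [IsScalarTower R E F]
    (w : R) (q m : ℕ) (x : F) (Bf Bi : Subalgebra R F)
    (τ : F ≃+* F) (τE : E ≃+* E) (τR : R ≃+* R),
    SSCtx w q m x Bf Bi τ τE τR →
    ∀ (L : Type) [Field L] [Algebra F L] [Algebra R L] [IsScalarTower R F L],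
      IsKummerSplit L w x m → SurjConclusion L w x

/-- Leaf **COVER-F**: a Kummer-split cover containing an `m`-th root of `g` to which `φ` lifts,
for `g` with a finite `φ`-orbit (`φ` itself has infinite order). -/
def CoverFLeaf : Prop :=
  ∀ {R F : Type} [CommRing R] [Field F] [CharZero F] [Algebra R F]
    (w : R) (x : F) (m : ℕ) (φ : F ≃+* F) (φR : R ≃+* R),
    Function.Injective (algebraMap R F) → 0 < m → (∃ ζ : R, IsPrimitiveRoot ζ m) →
    φ x = x → (∀ r, φ (algebraMap R F r) = algebraMap R F (φR r)) → (∀ r, w ∣ r ↔ w ∣ φR r) →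
    ∀ (r : ℕ), 0 < r → ∀ g : F, (φ ^ r) g = g → g ≠ 0 → HorDiv R m g →
      (∀ V : ValuationSubring F, IsSheet w x V → SplitAt m V g) →
      CoverConclusion w x m φ g

/-! ## QNF: the theorem on the modular curve -/

/-- `φ = s²` on the modular function field `F̄_N`. -/
abbrev actSq (N : ℕ) (s : Qb ≃ₐ[ℚ] Qb) (f : modularFunctionFieldBar N) :
    modularFunctionFieldBar N :=
  act N s (act N s f)

/-- **QNF, Kummer form.**  `N = M' * q`.  If `m ∣ div f` and both norms `N_α f`, `N_β f` are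
`m`-th powers in `F̄_{M'}` (the class of `f` is `q`-new), then
`φ³ f · (φ f) ^ (1 + 2Q) = h ^ m · (φ² f) ^ (2 + Q) · f ^ Q`, `φ = s²`, `Q = q²`. -/
def KummerQNewFrobStatement : Prop :=
  ∀ (M' q m : ℕ) [NeZero M'] [NeZero q], q.Prime → ¬ q ∣ M' → 0 < m → ¬ q ∣ m →
    ∀ P : ValuationSubring Qb, P.LiesOverPrime q →
    ∀ s : Qb ≃ₐ[ℚ] Qb, P.IsFrobeniusAt s q →
    ∀ f : modularFunctionFieldBar (M' * q), f ≠ 0 →
      (∀ v : Place Qb (modularFunctionFieldBar (M' * q)), (m : ℤ) ∣ v.ord f) →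
      (∃ h : modularFunctionFieldBar M', h ≠ 0 ∧
        Fermat.Agent.S29.H395.normAlong (heckeAlphaBar Qb M' q) f = h ^ m) →
      (∃ h : modularFunctionFieldBar M', h ≠ 0 ∧
        Fermat.Agent.S29.H395.normAlong (heckeBetaBar Qb M' q) f = h ^ m) →
      ∃ h : modularFunctionFieldBar (M' * q), h ≠ 0 ∧
        actSq (M' * q) s (actSq (M' * q) s (actSq (M' * q) s f)) *
            actSq (M' * q) s f ^ (1 + 2 * q ^ 2) =
          h ^ m * actSq (M' * q) s (actSq (M' * q) s f) ^ (2 + q ^ 2) * f ^ (q ^ 2)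

/-- `x ∈ J₀(M' q)` is `q`-new: it is the class of a divisor of degree `0` both of whose
pushforwards to level `M'` are principal. -/
def IsQNew (M' q : ℕ) [NeZero M'] [NeZero q] (x : JZero (M' * q)) : Prop :=
  ∃ (hα : HeckeAlphaBarIntegral Qb M' q) (hβ : HeckeBetaBarIntegral Qb M' q)
    (D : Divisor.degZero (K := Qb) (F := modularFunctionFieldBar (M' * q))),
    Pic0.mk D = x ∧
      (Divisor.pushforwardAlong (heckeAlphaBar Qb M' q) hα (D : Divisor Qb _)).IsPrincipal ∧
      (Divisor.pushforwardAlong (heckeBetaBar Qb M' q) hβ (D : Divisor Qb _)).IsPrincipal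

/-- **QNF.**  `(φ - Q)(φ - 1)² x = 0` for every `q`-new `x ∈ J₀(M' q)[m]`, `φ = s²`, `Q = q²`:
`φ³ x + (1 + 2Q) φ x = (2 + Q) φ² x + Q x`. -/
def QNewFrobStatement : Prop :=
  ∀ (M' q m : ℕ) [NeZero M'] [NeZero q], q.Prime → ¬ q ∣ M' → 0 < m → ¬ q ∣ m →
    ∀ P : ValuationSubring Qb, P.LiesOverPrime q →
    ∀ s : Qb ≃ₐ[ℚ] Qb, P.IsFrobeniusAt s q →
    ∀ x : JZero (M' * q), m • x = 0 → IsQNew M' q x →
      s • s • s • s • s • s • x + (1 + 2 * q ^ 2) • (s • s • x) =
        (2 + q ^ 2) • (s • s • s • s • x) + q ^ 2 • x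

end Fermat.Agent.S35.H891

end
end
-- ===== PACK-END S35/H891/Spec.lean

-- ===== PACK-BEGIN S35/H155/B2Spec.lean
section
/-
S35 / cell FROB, leaf B2 (helper155): adapter between `H155.IsQNew` (kernel of both degeneracy
push-forwards) and the divisor form `H891.IsQNew` of the frozen interface `S35/H891/Spec.lean`.
-/



set_option autoImplicit false
set_option linter.style.haveILetI false

noncomputable section

namespace Fermat.Agent.S35.H155

open AlgebraicCurve ModularCurve Fermat.Agent.Lib.FF398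

/-- The two notions of `q`-new classes agree. -/
theorem isQNew_iff_spec (N q : ℕ) [NeZero N] [NeZero q] (x : JZero (N * q)) :
    Fermat.Agent.S35.H891.IsQNew N q x ↔ IsQNew N q x := by
  constructor
  · rintro ⟨hα, hβ, D, rfl, h1, h2⟩
    exact (isQNew_mk_iff D).mpr ⟨h1, h2⟩
  · intro h
    obtain ⟨D, rfl⟩ := Pic0.mk_surjective x
    obtain ⟨h1, h2⟩ := (isQNew_mk_iff D).mp h
    exact ⟨heckeAlphaBarIntegral N q, heckeBetaBarIntegral N q, D, rfl, h1, h2⟩

/-- Spec form of `isQNew_heckeEval`: KILLER ⇒ `q`-new (interface `H891.IsQNew`). -/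
theorem isQNew_spec_heckeEval (N q : ℕ) [NeZero N] [NeZero q] {p : ℕ}
    (hT' : TorsRel (N * q) p) (hT : TorsRel N p)
    (hc' : HeckeOperatorsCommuteBar (N * q)) (hc : HeckeOperatorsCommuteBar N)
    (t : HeckeAlg)
    (ht : t ∈ MvPolynomial.supported ℤ {ℓ : Nat.Primes | ¬ (ℓ : ℕ) ∣ N * q * p})
    (hkill : ∀ z : JZero N, (∃ n : ℕ, (p ^ n) • z = 0) → heckeEvalBar hc t z = 0)
    (y : JZero (N * q)) (hy : ∃ n : ℕ, (p ^ n) • y = 0) :
    Fermat.Agent.S35.H891.IsQNew N q (heckeEvalBar hc' t y) :=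
  (isQNew_iff_spec N q _).mpr (isQNew_heckeEval hT' hT hc' hc t ht hkill y hy)

end Fermat.Agent.S35.H155

end

end
-- ===== PACK-END S35/H155/B2Spec.lean

-- ===== PACK-BEGIN S35/H891/Bridge3.lean
section
/-
S35 (helper891): from the interface statement `QNewFrobStatement` of `S35/H891/Spec.lean`
(level `M' * q`, divisor form of "`q`-new") to `NewPartFrob3Statement` (level `M`, `q ∥ M`,
kernel of the two degeneracy push-forwards of helper155), and the frozen statement S35 from the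
six inputs of row S30, `QNewFrobStatement` and `ExclTateStatement`.
-/



set_option autoImplicit false

namespace Fermat.Agent.S35.H891

open Fermat.Agent.S35.H155

/-- `QNewFrobStatement` at level `M' * q`, with target level `K = M'`. -/
theorem newPartFrob3At_of_qNew (h : QNewFrobStatement) (M' q K : ℕ) (hK : K = M')
    [NeZero (M' * q)] [NeZero K] (hq : q.Prime) (hqM' : ¬ q ∣ M') :
    NewPartFrob3At (M' * q) K q := by
  subst hK
  haveI : NeZero q := ⟨hq.ne_zero⟩
  refine ⟨pushA K q, pushB K q, pushA_galois K q, pushB_galois K q, ?_⟩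
  intro A hA σ hσ m hm x hx ha hb
  have hm0 : 0 < m := Nat.pos_of_ne_zero (fun h0 => hm (h0 ▸ dvd_zero q))
  exact h K q m hq hqM' hm0 hm A hA σ hσ x hx ((isQNew_iff_spec K q x).mpr ⟨ha, hb⟩)

/-- **`QNewFrobStatement ⟹ NewPartFrob3Statement`**, with `a = α_*`, `b = β_*`. -/
theorem newPartFrob3_of_qNew (h : QNewFrobStatement) : NewPartFrob3Statement := by
  intro M q instM instMq hq hqM hq2
  obtain ⟨M', rfl⟩ : ∃ M', M = M' * q := ⟨M / q, (Nat.div_mul_cancel hqM).symm⟩
  have hM' : M' * q / q = M' := Nat.mul_div_cancel M' hq.pos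
  have hqM' : ¬ q ∣ M' := fun hd => hq2 (by
    rw [pow_two]
    exact Nat.mul_dvd_mul hd (dvd_refl q))
  exact newPartFrob3At_of_qNew h M' q (M' * q / q) hM' hq hqM'

/-- **The frozen statement S35** from the six inputs of row S30, `QNewFrobStatement` (cell FROB)
and `ExclTateStatement` (cell X). -/
theorem result_of_qNew
    (hfin : ∀ (N p : ℕ) [NeZero N], p.Prime →
      Finite {x : ModularCurve.JZero N // (p : ℤ) • x = 0})
    (hsm : ∀ (N p : ℕ) [NeZero N], ∀ x : ModularCurve.JZero N,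
      (∃ n : ℕ, ((p : ℤ) ^ n) • x = 0) →
        ∃ L : IntermediateField ℚ (AlgebraicClosure ℚ), FiniteDimensional ℚ L ∧
          ∀ σ : S30.H990.GQ, (∀ y ∈ L, σ y = y) → σ • x = x)
    (hgeq : ∀ (N : ℕ) [NeZero N] (ℓ : Nat.Primes) (σ : S30.H990.GQ) (x : ModularCurve.JZero N),
      ModularCurve.heckeOperatorBar N ℓ (σ • x) = σ • ModularCurve.heckeOperatorBar N ℓ x)
    (hunr : ∀ (N p : ℕ) [NeZero N], ∀ q : ℕ, q.Prime → ¬ q ∣ N * p →
      ∀ A : ValuationSubring (AlgebraicClosure ℚ), A.LiesOverPrime q →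
        ∀ σ ∈ A.inertiaSubgroupIn ℚ, ∀ x : ModularCurve.JZero N,
          (∃ n : ℕ, ((p : ℤ) ^ n) • x = 0) → σ • x = x)
    (hes : ∀ (N p : ℕ) [NeZero N], ∀ (ℓ : ℕ) (hℓ : ℓ.Prime), ¬ ℓ ∣ N * p →
      ∀ A : ValuationSubring (AlgebraicClosure ℚ), A.LiesOverPrime ℓ →
        ∀ σ : S30.H990.GQ, A.IsFrobeniusAt σ ℓ → ∀ x : ModularCurve.JZero N,
          (∃ n : ℕ, ((p : ℤ) ^ n) • x = 0) →
            σ • σ • x - ModularCurve.heckeOperatorBar N ⟨ℓ, hℓ⟩ (σ • x) + (ℓ : ℤ) • x = 0)
    (hlat : ∀ (N p : ℕ) [NeZero N], p.Prime →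
      ∃ (Λ : Type) (_ : AddCommGroup Λ) (_ : Module.Free ℤ Λ) (_ : Module.Finite ℤ Λ)
        (TΛ : Nat.Primes → Λ →ₗ[ℤ] Λ) (κ : ℕ → Λ →ₗ[ℤ] ModularCurve.JZero N),
        (∀ (n : ℕ) (x : Λ), κ n x = 0 ↔ ∃ y : Λ, x = ((p : ℤ) ^ n) • y) ∧
        (∀ (n : ℕ) (x : Λ), (p : ℤ) • κ (n + 1) x = κ n x) ∧
        (∀ ℓ : Nat.Primes, ¬ (ℓ : ℕ) ∣ N * p → ∀ (n : ℕ) (x : Λ),
          κ n (TΛ ℓ x) = ModularCurve.heckeOperatorBar N ℓ (κ n x)) ∧
        (∀ (S : Set ℕ) (R : Type) [CommRing R] [IsDomain R] [CharZero R]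
          (χ : CuspForm.heckeAlgebra N 2 S →+* R),
          ∃ v : TensorProduct ℤ R Λ, v ≠ 0 ∧
            ∀ (ℓ : ℕ) (hℓ : ℓ.Prime) (hℓN : ¬ ℓ ∣ N) (hℓS : ℓ ∉ S),
              (TΛ ⟨ℓ, hℓ⟩).baseChange R v = χ (CuspForm.heckeAlgebra.T hℓ hℓN hℓS) • v))
    (hQ : QNewFrobStatement) (hX : Fermat.Agent.S35.H991.ExclTateStatement)
    {M : ℕ} [NeZero M] {g : CuspForm (CongruenceSubgroup.Gamma0 M) 2} (hg : g.IsNewform)
    (lam : ℕ) [Fact lam.Prime]
    (S : Finset ℕ)
    (O' : Type) [CommRing O'] [IsDomain O'] [IsDiscreteValuationRing O']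
    [IsAdicComplete (IsLocalRing.maximalIdeal O') O'] [Finite (IsLocalRing.ResidueField O')]
    [CharZero O'] (hlamO' : (lam : O') ∈ IsLocalRing.maximalIdeal O')
    (chig : CuspForm.heckeAlgebra M 2 (↑S : Set ℕ) →+* ℂ)
    (hchig : ∀ (ℓ : ℕ) (hℓ : ℓ.Prime) (hℓM : ¬ ℓ ∣ M) (hℓS : ℓ ∉ (↑S : Set ℕ)),
      chig (CuspForm.heckeAlgebra.T hℓ hℓM hℓS) = ModularFormClass.qCoeff g ℓ)
    (iota : chig.range →+* O')
    (hlamS : lam ∈ S) (hMS : ∀ q : ℕ, q.Prime → q ∣ M → q ∈ S) :
    ∃ (O'' : Type) (_ : CommRing O'') (_ : IsDomain O'') (_ : IsDiscreteValuationRing O'')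
      (_ : IsAdicComplete (IsLocalRing.maximalIdeal O'') O'') (_ : Finite (IsLocalRing.ResidueField O''))
      (_ : CharZero O'') (_ : Algebra O' O'') (_ : Module.Finite O' O'') (_ : IsLocalHom (algebraMap O' O'')),
      Function.Injective (algebraMap O' O'') ∧
      ∃ ρ : GaloisRepAdic O'',
        (∀ (ℓ : ℕ) (hℓ : ℓ.Prime) (hℓM : ¬ ℓ ∣ M) (hℓS : ℓ ∉ (↑S : Set ℕ)),
          ∀ A : ValuationSubring (AlgebraicClosure ℚ), A.LiesOverPrime ℓ →
            ∀ σ : AlgebraicClosure ℚ ≃ₐ[ℚ] AlgebraicClosure ℚ, A.IsFrobeniusAt σ ℓ →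
              LinearMap.charpoly (ρ.ρ σ) =
                Polynomial.X ^ 2 - Polynomial.C (algebraMap O' O'' ((iota.comp chig.rangeRestrict) (CuspForm.heckeAlgebra.T hℓ hℓM hℓS))) * Polynomial.X
                  + Polynomial.C ((ℓ : O''))) ∧
        (∀ q : ℕ, q.Prime → q ≠ lam → q ∣ M → ¬ q ^ 2 ∣ M →
          ∀ A : ValuationSubring (AlgebraicClosure ℚ), A.LiesOverPrime q →
            ∀ σ : AlgebraicClosure ℚ ≃ₐ[ℚ] AlgebraicClosure ℚ, A.IsFrobeniusAt σ q →
              LinearMap.charpoly (ρ.ρ σ) = Polynomial.X ^ 2 - Polynomial.C ((q : O'') + 1) * Polynomial.X + Polynomial.C ((q : O'')) ∨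
              LinearMap.charpoly (ρ.ρ σ) = Polynomial.X ^ 2 + Polynomial.C ((q : O'') + 1) * Polynomial.X + Polynomial.C ((q : O''))) :=
  result_of_cubic hfin hsm hgeq hunr hes hlat (newPartFrob3_of_qNew hQ) hX
    hg lam S O' hlamO' chig hchig iota hlamS hMS

end Fermat.Agent.S35.H891

end
-- ===== PACK-END S35/H891/Bridge3.lean

-- ===== PACK-BEGIN S35/H252/ExclGlue.lean
section
/-
S35, piece (X) (helper252): the tail glue

  `ExclPolyStatement → Fermat.Agent.S35.H991.ExclTateStatement`.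

Given a polynomial `t` in the Hecke operators away from `S` which kills the `p`-power torsion of
`J₀(M / q)` and with `t(a_ℓ(g)) ≠ 0`, an eigen-sequence `z n ∈ O' ⊗ J₀(M / q)` with the eigenvalues
of `g` satisfies `0 = t • z n = ι(t(a_ℓ(g))) • z n`; as `ι` is injective (integrality) the scalar is
a nonzero element of the discrete valuation ring `O'`, hence divides a power of `p`, and
`z n = p ^ k • z (n + k) = 0`.
-/




set_option autoImplicit false

namespace Fermat.Agent.S35.H252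

open TensorProduct CongruenceSubgroup

/-- A ring homomorphism from a domain which is integral over `ℤ` to a ring of characteristic
zero is injective. -/
theorem injective_of_isIntegral_int {A B : Type*} [CommRing A] [IsDomain A]
    [Algebra.IsIntegral ℤ A] [CommRing B] [CharZero B] (f : A →+* B) : Function.Injective f := by
  rw [RingHom.injective_iff_ker_eq_bot]
  apply Ideal.eq_bot_of_comap_eq_bot (R := ℤ)
  rw [eq_bot_iff]
  intro n hn
  rw [Ideal.mem_comap, RingHom.mem_ker, eq_intCast, map_intCast] at hn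
  rw [Ideal.mem_bot]
  exact_mod_cast hn

/-- In a discrete valuation ring every nonzero element divides a power of any element of the
maximal ideal. -/
theorem exists_pow_eq_mul_of_ne_zero {O : Type*} [CommRing O] [IsDomain O]
    [IsDiscreteValuationRing O] {π c : O} (hπ : π ∈ IsLocalRing.maximalIdeal O) (hc : c ≠ 0) :
    ∃ (k : ℕ) (d : O), π ^ k = d * c := by
  obtain ⟨ϖ, hϖ⟩ := IsDiscreteValuationRing.exists_irreducible O
  obtain ⟨k, hk⟩ := IsDiscreteValuationRing.associated_pow_irreducible hc hϖ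
  have h1 : ϖ ∣ π := by
    rw [hϖ.maximalIdeal_eq, Ideal.mem_span_singleton] at hπ
    exact hπ
  have h2 : c ∣ π ^ k := hk.dvd.trans (pow_dvd_pow_of_dvd h1 k)
  obtain ⟨d, hd⟩ := h2
  exact ⟨k, d, by rw [hd, mul_comm]⟩

/-- **(X), tail glue.** -/
theorem exclTate_of_poly (hX : ExclPolyStatement) :
    Fermat.Agent.S35.H991.ExclTateStatement := by
  classical
  intro M _ g hg q _ hq hqM p _ S O' _ _ _ _ _ _ hpO' chig hchig iota hpS hMS z hz0 hzs hzeig
  have hp : p.Prime := Fact.out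
  obtain ⟨h, t, hkill, htg⟩ := hX M g hg q hq hqM p S hp hpS hMS
  -- the index type and the good primes
  have hIM : ∀ i : {ℓ : Nat.Primes // (ℓ : ℕ) ∉ S}, ¬ ((i : Nat.Primes) : ℕ) ∣ M :=
    fun i hdvd => i.2 (hMS _ i.1.2 hdvd)
  have hIS : ∀ i : {ℓ : Nat.Primes // (ℓ : ℕ) ∉ S}, ((i : Nat.Primes) : ℕ) ∉ (↑S : Set ℕ) :=
    fun i hmem => i.2 (Finset.mem_coe.mp hmem)
  -- the evaluation at level `M`
  let evM : MvPolynomial {ℓ : Nat.Primes // (ℓ : ℕ) ∉ S} ℤ →ₐ[ℤ]
      CuspForm.heckeAlgebra M 2 (↑S : Set ℕ) :=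
    MvPolynomial.aeval fun i => CuspForm.heckeAlgebra.T i.1.2 (hIM i) (hIS i)
  let ψ : MvPolynomial {ℓ : Nat.Primes // (ℓ : ℕ) ∉ S} ℤ →+* O' :=
    (iota.comp chig.rangeRestrict).comp evM.toRingHom
  have hψX : ∀ i : {ℓ : Nat.Primes // (ℓ : ℕ) ∉ S},
      ψ (MvPolynomial.X i)
        = (iota.comp chig.rangeRestrict) (CuspForm.heckeAlgebra.T i.1.2 (hIM i) (hIS i)) := by
    intro i
    show (iota.comp chig.rangeRestrict) (evM (MvPolynomial.X i)) = _
    rw [MvPolynomial.aeval_X]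
  have hψC : ∀ a : ℤ, ψ (MvPolynomial.C a) = (a : O') := by
    intro a
    rw [← MvPolynomial.algebraMap_eq, eq_intCast, map_intCast]
  -- Claim 1: `t` acts on the eigen-sequence through `ψ`
  have claim1 : ∀ (s : MvPolynomial {ℓ : Nat.Primes // (ℓ : ℕ) ∉ S} ℤ) (n : ℕ),
      (ModularCurve.heckeEvalBar h (MvPolynomial.rename Subtype.val s)).baseChange O' (z n)
        = ψ s • z n := by
    intro s
    induction s using MvPolynomial.induction_on with
    | C a =>
      intro n
      rw [MvPolynomial.rename_C, ModularCurve.heckeEvalBar_C, hψC]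
      have h1 : ((a : Module.End ℤ (ModularCurve.JZero (M / q))))
          = a • (LinearMap.id : ModularCurve.JZero (M / q) →ₗ[ℤ] ModularCurve.JZero (M / q)) := by
        rw [← Module.End.one_eq_id, zsmul_one]
      rw [h1, LinearMap.baseChange_smul, LinearMap.baseChange_id, LinearMap.smul_apply,
        LinearMap.id_apply]
      exact (Int.cast_smul_eq_zsmul O' a (z n)).symm
    | add s₁ s₂ h₁ h₂ =>
      intro n
      rw [map_add, map_add, LinearMap.baseChange_add, LinearMap.add_apply, h₁ n, h₂ n, map_add,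
        add_smul]
    | mul_X s i hs =>
      intro n
      rw [map_mul, map_mul, MvPolynomial.rename_X]
      have h1 : ModularCurve.heckeEvalBar h (MvPolynomial.X (i : Nat.Primes))
          = ModularCurve.heckeOperatorBar (M / q) (i : Nat.Primes) :=
        ModularCurve.heckeEvalBar_heckeGen h (i : Nat.Primes)
      rw [h1, Module.End.mul_eq_comp, LinearMap.baseChange_comp, LinearMap.comp_apply]
      have h2 : (ModularCurve.heckeOperatorBar (M / q) (i : Nat.Primes)).baseChange O' (z n)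
          = (iota.comp chig.rangeRestrict)
              (CuspForm.heckeAlgebra.T i.1.2 (hIM i) (hIS i)) • z n :=
        hzeig i.1 i.1.2 (hIM i) (hIS i) n
      rw [h2, map_smul, hs n, map_mul, hψX i, smul_smul, mul_comm]
  -- Claim 2: `z n` is killed by `p ^ (n + 1)`
  have hzp : ∀ n : ℕ, ((p : O') ^ (n + 1)) • z n = 0 := by
    intro n
    induction n with
    | zero => rw [zero_add, pow_one]; exact hz0
    | succ n ih => rw [pow_succ, mul_smul, hzs n]; exact ih
  have hzpZ : ∀ n : ℕ, ((p : ℤ) ^ (n + 1)) • z n = 0 := by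
    intro n
    rw [← Int.cast_smul_eq_zsmul O' ((p : ℤ) ^ (n + 1)) (z n)]
    push_cast
    exact hzp n
  haveI : Module.Flat ℤ O' := inferInstance
  have claim2 : ∀ n : ℕ,
      (ModularCurve.heckeEvalBar h (MvPolynomial.rename Subtype.val t)).baseChange O' (z n)
        = 0 := fun n =>
    Fermat.Agent.S30.H529.baseChange_eq_zero_of_torsion O' ((p : ℤ) ^ (n + 1))
      (ModularCurve.heckeEvalBar h (MvPolynomial.rename Subtype.val t))
      (fun y hy => hkill (n + 1) y hy) (z n) (hzpZ n)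
  have hc0 : ∀ n : ℕ, ψ t • z n = 0 := fun n => by rw [← claim1 t n, claim2 n]
  -- `ψ t ≠ 0`
  have hchigev : ∀ s : MvPolynomial {ℓ : Nat.Primes // (ℓ : ℕ) ∉ S} ℤ,
      chig (evM s) = MvPolynomial.aeval (fun ℓ : {ℓ : Nat.Primes // (ℓ : ℕ) ∉ S} =>
        ModularFormClass.qCoeff g ((ℓ : Nat.Primes) : ℕ)) s := by
    intro s
    induction s using MvPolynomial.induction_on with
    | C a =>
      rw [← MvPolynomial.algebraMap_eq, eq_intCast, map_intCast, map_intCast, map_intCast]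
    | add s₁ s₂ h₁ h₂ => rw [map_add, map_add, map_add, h₁, h₂]
    | mul_X s i hs =>
      rw [map_mul, map_mul, map_mul, hs, MvPolynomial.aeval_X, MvPolynomial.aeval_X,
        hchig i.1 i.1.2 (hIM i) (hIS i)]
  haveI : Module.Finite ℤ (CuspForm.heckeAlgebra M 2 (↑S : Set ℕ)) :=
    Fermat.Agent.S22.result M 2 (↑S : Set ℕ)
  haveI : Algebra.IsIntegral ℤ (CuspForm.heckeAlgebra M 2 (↑S : Set ℕ)) := inferInstance
  haveI : Algebra.IsIntegral ℤ chig.range := by
    refine ⟨fun y => ?_⟩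
    obtain ⟨b, hb⟩ := chig.rangeRestrict_surjective y
    rw [← hb]
    exact (Algebra.IsIntegral.isIntegral (R := ℤ) b).map
      (chig.rangeRestrict.toIntAlgHom)
  have hinj : Function.Injective iota := injective_of_isIntegral_int iota
  have hψt : ψ t ≠ 0 := by
    intro h0
    have h1 : iota (chig.rangeRestrict (evM t)) = iota 0 := by rw [map_zero]; exact h0
    have h2 := hinj h1
    have h3 : chig (evM t) = 0 := congrArg Subtype.val h2
    rw [hchigev t] at h3
    exact htg h3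
  -- conclusion
  obtain ⟨k, d, hkd⟩ := exists_pow_eq_mul_of_ne_zero hpO' hψt
  have hpk : ∀ n : ℕ, ((p : O') ^ k) • z n = 0 := by
    intro n
    rw [hkd, mul_smul, hc0 n, smul_zero]
  have hshift : ∀ (j n : ℕ), ((p : O') ^ j) • z (n + j) = z n := by
    intro j
    induction j with
    | zero => intro n; rw [pow_zero, one_smul, add_zero]
    | succ j ih =>
      intro n
      rw [pow_succ, mul_smul, ← add_assoc, hzs (n + j)]
      exact ih n
  funext n
  rw [← hshift k n, hpk (n + k)]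
  rfl

end Fermat.Agent.S35.H252

end
-- ===== PACK-END S35/H252/ExclGlue.lean

-- ===== PACK-BEGIN S24/Mod/H997HolBase.lean
section




/-!
# S24 / MOD — the concrete `HolBase N` and `Nonempty (AnalyticCore N)`

`Hol := {f holomorphic on ℍ | ∀ γ ∈ SL(2,ℤ), f ∘ γ has a convergent expansion in exp(2πiτ/N)}`,
`J d τ := j(dτ)`, `qexp :=` expansion at `i∞` (helper384's `expInf`).
-/

set_option autoImplicit false

noncomputable section

open ModularCurve HahnSeries UpperHalfPlane ModularForm EisensteinSeries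
open scoped MatrixGroups Manifold Real

namespace Fermat.Agent.S24.H997

open Fermat.Agent.S24.H624 Fermat.Agent.S20.L1

/-- the `j`-function has the Prelude `q`-expansion -/
theorem infExp_jFun : InfExp 1 jFun infJq := by
  intro τ
  have h := Fermat.Agent.S24.JFun.hasSum_jFun τ
  have h1 : infJq = jqModC ℂ := by
    rw [infJq, ← map_jqModC (algebraMap ℚ ℂ), jqModC_rat]
    rfl
  have h2 : infZ 1 τ = Function.Periodic.qParam 1 (τ : ℂ) := by
    simp [infZ]
  rw [h1]
  simp only [h2]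
  exact h

theorem jFun_smul' (γ : SL(2, ℤ)) (τ : ℍ) : jFun (γ • τ) = jFun τ :=
  Fermat.Agent.S24.M7.H47.jFun_smul γ τ

/-- `τ ↦ j(dτ)` -/
def Jd (d : ℕ) : ℍ → ℂ := fun τ => jFun (infAff d 0 1 τ)

theorem Jd_one : Jd 1 = jFun := by
  funext τ
  simp [Jd]

theorem mdiff_Jd {d : ℕ} (hd : 0 < d) : MDiff (Jd d) := by
  rw [UpperHalfPlane.mdifferentiable_iff]
  have hj : DifferentiableOn ℂ (jFun ∘ ofComplex) {z : ℂ | 0 < z.im} :=
    UpperHalfPlane.mdifferentiable_iff.mp mdiff_jFun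
  have hmul : DifferentiableOn ℂ (fun z : ℂ => (d : ℂ) * z) {z : ℂ | 0 < z.im} :=
    (differentiable_id.const_mul (d : ℂ)).differentiableOn
  have hmaps : Set.MapsTo (fun z : ℂ => (d : ℂ) * z) {z : ℂ | 0 < z.im} {z : ℂ | 0 < z.im} := by
    intro z hz
    simp only [Set.mem_ofPred_eq] at hz ⊢
    have : ((d : ℂ) * z).im = d * z.im := by simp
    rw [this]
    have hd' : (0 : ℝ) < d := by exact_mod_cast hd
    positivity
  refine (hj.comp hmul hmaps).congr ?_
  intro z hz
  simp only [Set.mem_ofPred_eq] at hz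
  simp only [Function.comp_apply, Jd]
  congr 1
  apply UpperHalfPlane.ext
  rw [infAff_coe hd one_pos, ofComplex_apply_of_im_pos hz]
  have hz' : 0 < ((d : ℂ) * z).im := hmaps hz
  rw [ofComplex_apply_of_im_pos hz']
  simp

variable (N : ℕ) [NeZero N]

/-- the ring `Hol` -/
def holN : Subring (ℍ → ℂ) where
  carrier := {f | f ∈ holoRing ∧ ∀ γ : SL(2, ℤ), compSL γ f ∈ expRing N}
  mul_mem' := by
    rintro f g ⟨hf, hf'⟩ ⟨hg, hg'⟩
    exact ⟨mul_mem hf hg, fun γ => mul_mem (hf' γ) (hg' γ)⟩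
  one_mem' := ⟨one_mem _, fun _ => one_mem _⟩
  add_mem' := by
    rintro f g ⟨hf, hf'⟩ ⟨hg, hg'⟩
    exact ⟨add_mem hf hg, fun γ => add_mem (hf' γ) (hg' γ)⟩
  zero_mem' := ⟨zero_mem _, fun _ => zero_mem _⟩
  neg_mem' := by
    rintro f ⟨hf, hf'⟩
    exact ⟨neg_mem hf, fun γ => neg_mem (hf' γ)⟩

theorem mem_holN {f : ℍ → ℂ} :
    f ∈ holN N ↔ f ∈ holoRing ∧ ∀ γ : SL(2, ℤ), compSL γ f ∈ expRing N := Iff.rfl

theorem const_mem_holN (c : ℂ) : (fun _ : ℍ => c) ∈ holN N :=
  ⟨(algebraMap ℂ holoRing c).2, fun _ => (InfExp.const c).mem_expRing⟩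

theorem comp_mem_holN (g : SL(2, ℤ)) (f : ℍ → ℂ) (hf : f ∈ holN N) : compSL g f ∈ holN N := by
  refine ⟨(precompSL g ⟨f, hf.1⟩).2, fun γ => ?_⟩
  rw [← compSL_mul]
  exact hf.2 _

theorem Jd_mem_holN (d : ℕ) (hd : d ∣ N) : Jd d ∈ holN N := by
  have hN : 0 < N := Nat.pos_of_ne_zero (NeZero.ne N)
  have hd0 : 0 < d := Nat.pos_of_dvd_of_pos hd hN
  exact ⟨mdiff_Jd hd0, fun γ => inf_J_mul_smul_mem_expRing jFun_smul' infExp_jFun hd γ⟩

theorem Jd_inv (d : ℕ) (hd : d ∣ N) (g : SL(2, ℤ)) (hg : g ∈ CongruenceSubgroup.Gamma0 N)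
    (τ : ℍ) : Jd d (g • τ) = Jd d τ := by
  have hN : 0 < N := Nat.pos_of_ne_zero (NeZero.ne N)
  have hd0 : 0 < d := Nat.pos_of_dvd_of_pos hd hN
  have hNg : (N : ℤ) ∣ g 1 0 := by
    rw [CongruenceSubgroup.Gamma0_mem] at hg
    exact (ZMod.intCast_zmod_eq_zero_iff_dvd _ _).mp hg
  have hdg : (d : ℤ) ∣ g 1 0 := dvd_trans (by exact_mod_cast hd) hNg
  obtain ⟨c, hc⟩ := hdg
  have hdet := inf_sl_det g
  let g' : SL(2, ℤ) := ⟨!![g 0 0, d * g 0 1; c, g 1 1], by
    rw [Matrix.det_fin_two_of]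
    rw [hc] at hdet
    linear_combination hdet⟩
  have h := inf_aff_smul_eq (d := d) (a := d) (d' := 1) (b := 0) hd0 hd0 one_pos g g'
    (by simp [g']; ring) (by simp [g']) (by simp [g', hc]; ring) (by simp [g']) τ
  show jFun (infAff d 0 1 (g • τ)) = jFun (infAff d 0 1 τ)
  rw [h, jFun_smul']

theorem Jd_distinct (g : SL(2, ℤ)) (h : ∀ τ : ℍ, Jd N (g • τ) = Jd N τ) :
    g ∈ CongruenceSubgroup.Gamma0 N := by
  have := inf_distinct (J := jFun) jFun_smul' infExp_jFun (N := N) g 1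
    (fun τ => by simpa [Jd] using h τ)
  simpa using this

/-- the inclusion `Hol → expRing N` -/
def holToExp : holN N →+* expRing N where
  toFun h := ⟨h.1, by simpa [compSL_one] using h.2.2 1⟩
  map_one' := rfl
  map_mul' _ _ := rfl
  map_zero' := rfl
  map_add' _ _ := rfl

theorem holToExp_injective : Function.Injective (holToExp N) := by
  intro x y h
  exact Subtype.ext (congrArg (fun f : expRing N => (f : ℍ → ℂ)) h)

theorem expInf_Jd (d : ℕ) (hd : d ∣ N) :
    haveI : NeZero (d * N) := ⟨Nat.mul_ne_zero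
      (Nat.pos_of_dvd_of_pos hd (Nat.pos_of_ne_zero (NeZero.ne N))).ne' (NeZero.ne N)⟩
    expInf N (holToExp N ⟨Jd d, Jd_mem_holN N d hd⟩) = qExpand ℂ (d * N) infJq := by
  have hN : 0 < N := Nat.pos_of_ne_zero (NeZero.ne N)
  have hd0 : 0 < d := Nat.pos_of_dvd_of_pos hd hN
  exact (inf_J_mul_exp infExp_jFun hd0 hN).expInf_eq

/-- **The concrete `HolBase N`.** -/
def holBase : HolBase N where
  Hol := holN N
  const_mem := const_mem_holN N
  comp_mem := comp_mem_holN N
  J := Jd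
  J_mem := Jd_mem_holN N
  J_one_inv g τ := by rw [Jd_one]; exact jFun_smul' g τ
  J_inv := Jd_inv N
  J_distinct := Jd_distinct N
  qexp := (expInf N).comp (holToExp N)
  qexp_injective := expInf_injective.comp (holToExp_injective N)
  qexp_const c := (InfExp.const c).expInf_eq
  qexp_J d hd k := by
    have hN : 0 < N := Nat.pos_of_ne_zero (NeZero.ne N)
    have hd0 : 0 < d := Nat.pos_of_dvd_of_pos hd hN
    haveI : NeZero (d * N) := ⟨Nat.mul_ne_zero hd0.ne' (NeZero.ne N)⟩
    show (expInf N (holToExp N ⟨Jd d, Jd_mem_holN N d hd⟩)).coeff k = _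
    rw [expInf_Jd N d hd]
    have hcast : ((N * d : ℕ) : ℤ) = ((d * N : ℕ) : ℤ) := by rw [mul_comm]
    rw [hcast]
    split_ifs with hk
    · obtain ⟨m, rfl⟩ := hk
      rw [qExpand_coeff_mul, Int.mul_ediv_cancel_left _
        (by exact_mod_cast (NeZero.ne (d * N)) : ((d * N : ℕ) : ℤ) ≠ 0)]
      rfl
    · exact qExpand_coeff_of_not_dvd (d * N) _ hk

theorem holBase_isHolo : (holBase N).IsHolo where
  mdiff f hf := hf.1
  J_one := Jd_one

theorem T_smul_eq_infAff (τ : ℍ) : ModularGroup.T • τ = infAff 1 1 1 τ := by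
  apply UpperHalfPlane.ext
  rw [UpperHalfPlane.modular_T_smul, infAff_coe one_pos one_pos]
  simp [add_comm]

theorem holBase_shift (h : (holBase N).Hol) (n : ℤ) :
    ((holBase N).qexp ((holBase N).compH ModularGroup.T h)).coeff n
      = ((infRoot 1 N : ℂˣ) : ℂ) ^ n * ((holBase N).qexp h).coeff n := by
  have hf : InfExp N (h : ℍ → ℂ) ((holBase N).qexp h) := expInf_spec (holToExp N h)
  have hT := hf.comp_translate 1
  have hT' : InfExp N (((holBase N).compH ModularGroup.T h : (holBase N).Hol) : ℍ → ℂ)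
      (infTwist (infRoot 1 N) ((holBase N).qexp h)) := by
    refine hT.congr fun τ => ?_
    show (h : ℍ → ℂ) (infAff 1 1 1 τ) = (h : ℍ → ℂ) (ModularGroup.T • τ)
    rw [T_smul_eq_infAff]
  have heq : (holBase N).qexp ((holBase N).compH ModularGroup.T h)
      = infTwist (infRoot 1 N) ((holBase N).qexp h) :=
    (expInf_spec (holToExp N ((holBase N).compH ModularGroup.T h))).unique hT'
  rw [heq, infTwist_coeff, Units.val_zpow_eq_zpow_val, mul_comm]

theorem isPrimitiveRoot_infRoot : IsPrimitiveRoot ((infRoot 1 N : ℂˣ) : ℂ) N := by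
  have h := Complex.isPrimitiveRoot_exp N (NeZero.ne N)
  have : ((infRoot 1 N : ℂˣ) : ℂ) = Complex.exp (2 * π * Complex.I / N) := by
    rw [infRoot_coe]
    congr 1
    push_cast
    ring
  rw [this]
  exact h

/-- **The analytic core exists.** -/
def analyticCore : AnalyticCore N :=
  (holBase N).toAnalyticCore (holBase_isHolo N) _ (isPrimitiveRoot_infRoot N) (holBase_shift N)

theorem nonempty_analyticCore : Nonempty (AnalyticCore N) := ⟨analyticCore N⟩

end Fermat.Agent.S24.H997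

end
end
-- ===== PACK-END S24/Mod/H997HolBase.lean

-- ===== PACK-BEGIN S24/Mod.lean
section




/-!
# S24 — modular side: local embedding data for the function field of `X₀(N)`

INTERFACE FILE (statements frozen by helper984 @4630f4b).

Proof: helper997's assembly `H997.AnalyticCore.modularPackage_fields` applied to
* the concrete analytic core `H997.analyticCore N` (`Mod/H997HolBase.lean`: helper384's
  expansions at `∞`, helper624's Taylor expansions, helper47's local orders of `j`, helper264's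
  `q`-expansion of `j`), and
* the degree bound `Deg457.degree_fields N` (helper457 / helper648 / helper708).
-/

set_option autoImplicit false

noncomputable section

open AlgebraicCurve ModularCurve
open scoped MatrixGroups

namespace Fermat.Agent.S24

/-- Everything the algebraic side needs to know about `F = ℚ̄(j(q^d) : d ∣ N)`. -/
structure ModularPackage (N : ℕ) [NeZero N] where
  finiteDimensional :
    FiniteDimensional ↥(IntermediateField.adjoin Kbar {jF N}) (FF N)
  finrank_eq :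
    Module.finrank ↥(IntermediateField.adjoin Kbar {jF N}) (FF N) = Nat.card (XX N)
  dataFin : ∀ a : Kbar, LocalData Kbar (FF N) ℂ (XX N) (jF N - algebraMap Kbar (FF N) a)
  dataInf : LocalData Kbar (FF N) ℂ (XX N) (jF N)⁻¹
  perm_generic : ∀ a : Kbar, a ≠ 0 → a ≠ 1728 → (dataFin a).perm = 1
  orbits_zero :
    numOrbits (dataFin 0).perm = numOrbits (permOf N (ModularGroup.S * ModularGroup.T))
  orbits_1728 : numOrbits (dataFin 1728).perm = numOrbits (permOf N ModularGroup.S)
  orbits_inf : numOrbits dataInf.perm = numOrbits (permOf N ModularGroup.T)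

theorem nonempty_modularPackage (N : ℕ) [NeZero N] : Nonempty (ModularPackage N) := by
  obtain ⟨hfd, hle⟩ := Deg457.degree_fields N
  obtain ⟨dF, dI, h1, h2, h3, h4, h5⟩ := (H997.analyticCore N).modularPackage_fields hfd hle
  exact ⟨⟨hfd, h1, dF, dI, h2, h3, h4, h5⟩⟩

end Fermat.Agent.S24

end
end
-- ===== PACK-END S24/Mod.lean

-- ===== PACK-BEGIN S29/H882/MeroMain.lean
section




/-!
# S29 / MERO (helper882), part 3: good functions have `q`-expansions in the function field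

Main result `qexpFun_mem_FC`: for `f` holomorphic on `ℍ`, `Γ₀(N)`-invariant, with all
`SL₂(ℤ)`-translates of at most exponential growth at `i∞` (i.e. `f ∈ S24.H648.goodRing N`), the
`q`-expansion of `f` lies in `laurentBaseChange ℂ (modularFunctionFieldFull N)`, the function field
of `X₀(N)` over `ℂ` of the Prelude.

Proof: the field `MC N` generated by all such `q`-expansions has degree `≤ [SL₂(ℤ):Γ₀(N)]` over
`ℂ(j)` (conjugate product, landed S24), and contains `FC N`, which has degree `≥ [SL₂(ℤ):Γ₀(N)]`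
(landed S24 over `ℚ̄`, transported to `ℂ` by descent of relations).
-/

set_option autoImplicit false

noncomputable section

open UpperHalfPlane ModularGroup CongruenceSubgroup Polynomial ModularCurve IntermediateField
open scoped MatrixGroups Manifold Modular Real

namespace Fermat.Agent.S29.H882

open Fermat.Agent.S24 Fermat.Agent.S24.H648 Fermat.Agent.S24.H708 Fermat.Agent.S24.Deg457

section BaseChange

variable {K L : Type*} [Field K] [Algebra ℚ K] [Field L] [Algebra ℚ L]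

/-- `coeffMap ι` maps the function field over `K` into the function field over `L`. -/
theorem coeffMap_mem_laurentBaseChange_of_mem (ι : K →+* L)
    (F₀ : IntermediateField ℚ (LaurentSeries ℚ)) {x : LaurentSeries K}
    (hx : x ∈ laurentBaseChange K F₀) : coeffMap ι x ∈ laurentBaseChange L F₀ := by
  rw [mem_laurentBaseChange_iff] at hx
  induction hx using Subfield.closure_induction with
  | mem y hy =>
      rcases hy with ⟨a, rfl⟩ | ⟨z, hz, rfl⟩
      · rw [coeffMap_algebraMap']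
        exact (laurentBaseChange L F₀).algebraMap_mem _
      · rw [coeffMap_coeffEmb']
        exact coeffEmb_mem_laurentBaseChange L hz
  | one => simp
  | add x y _ _ hx hy => simpa using add_mem hx hy
  | neg x _ hx => simpa using neg_mem hx
  | inv x _ hx => simpa using inv_mem hx
  | mul x y _ _ hx hy => simpa using mul_mem hx hy

end BaseChange

variable (N : ℕ) [NeZero N]

/-- The function field of `X₀(N)` over `ℂ` (Prelude object). -/
abbrev FC : IntermediateField ℂ (LaurentSeries ℂ) :=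
  laurentBaseChange ℂ (modularFunctionFieldFull N)

/-- The field generated by the `q`-expansions of good functions. -/
def MC : IntermediateField ℂ (LaurentSeries ℂ) :=
  IntermediateField.adjoin ℂ (goodQ N : Set (LaurentSeries ℂ))

theorem goodQ_le_MC {b : LaurentSeries ℂ} (hb : b ∈ goodQ N) : b ∈ MC N :=
  IntermediateField.subset_adjoin ℂ _ hb

theorem JK_mem_FC : JK ℂ ∈ FC N :=
  coeffEmb_mem_laurentBaseChange ℂ (modularFunctionField_le_full N (jq_mem N))

theorem FC_le_MC : FC N ≤ MC N := by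
  refine (laurentBaseChange_full_le (K := ℂ) N).trans ?_
  refine IntermediateField.adjoin.mono ℂ _ _ ?_
  intro b hb
  exact AK_le_goodQ N (Algebra.subset_adjoin hb)

/-- `j` as an element of `MC N`. -/
def jM : MC N := ⟨JK ℂ, goodQ_le_MC N (JK_mem_goodQ N)⟩

theorem aeval_jM_ne_zero {t : ℂ[X]} (ht : t ≠ 0) :
    aeval (AdjoinSimple.gen ℂ (jM N)) t ≠ 0 := by
  intro h0
  apply aeval_JK_ne_zero ℂ ht
  have h1 := congrArg (algebraMap ↥(IntermediateField.adjoin ℂ {jM N}) (MC N)) h0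
  rw [← aeval_algebraMap_apply, map_zero, AdjoinSimple.algebraMap_gen] at h1
  have h2 := congrArg (algebraMap (MC N) (LaurentSeries ℂ)) h1
  rw [← aeval_algebraMap_apply, map_zero] at h2
  exact h2

theorem algebraMap_comp_aeval_jM :
    (algebraMap (MC N) (LaurentSeries ℂ)).comp
      ((aeval (jM N) : ℂ[X] →ₐ[ℂ] MC N).toRingHom) = evJ (JK ℂ) := by
  refine Polynomial.ringHom_ext ?_ ?_
  · intro c
    simp [evJ, ← IsScalarTower.algebraMap_apply]
  · simp [evJ]
    rfl

/-- **Degree bound**: `[MC N : ℂ(j)] ≤ [SL₂(ℤ) : Γ₀(N)]`. -/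
theorem finiteDimensional_and_finrank_le_MC :
    FiniteDimensional ↥(IntermediateField.adjoin ℂ {jM N}) (MC N) ∧
      Module.finrank ↥(IntermediateField.adjoin ℂ {jM N}) (MC N) ≤ Nat.card (XX N) := by
  refine finiteDimensional_and_finrank_le_of_forall_natDegree_minpoly_le _ fun x => ?_
  obtain ⟨Q, hQ0, hQn, hQ⟩ := algDeg_of_mem_adjoin (goodQ N) (JK_mem_goodQ N)
    (fun b hb => algDeg_of_mem_goodQ hb) x.2
  have hinc : Function.Injective (algebraMap (MC N) (LaurentSeries ℂ)) :=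
    (algebraMap (MC N) (LaurentSeries ℂ)).injective
  refine isIntegral_and_natDegree_le_of_relation (K := ℂ)
    (AdjoinSimple.gen ℂ (jM N)) (fun t ht => aeval_jM_ne_zero N ht) x Q hQ0 _ hQn ?_
  apply hinc
  rw [map_zero, Polynomial.hom_eval₂, AdjoinSimple.algebraMap_gen, algebraMap_comp_aeval_jM]
  exact hQ

end Fermat.Agent.S29.H882

end
end
-- ===== PACK-END S29/H882/MeroMain.lean

-- ===== PACK-BEGIN S29/H882/MeroPrim.lean
section


/-!
# S29 / MERO (helper882), part 4: `MC N = FC N`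

A primitive element `θ` of the function field over `ℚ̄` stays of degree `[SL₂(ℤ):Γ₀(N)]` over
`ℂ(j)` after base change (descent of relations), hence generates `MC N` over `ℂ(j)`.
-/

set_option autoImplicit false

noncomputable section

open UpperHalfPlane ModularGroup CongruenceSubgroup Polynomial ModularCurve IntermediateField
open scoped MatrixGroups Manifold Modular Real

namespace Fermat.Agent.S29.H882

open Fermat.Agent.S24 Fermat.Agent.S24.H648 Fermat.Agent.S24.H708 Fermat.Agent.S24.Deg457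

variable (N : ℕ) [NeZero N]

/-- A primitive element of the function field over `ℚ̄(j)`. -/
theorem exists_theta (P : ModularPackage N) : ∃ θ : FF N,
    (minpoly ↥(IntermediateField.adjoin Kbar {jF N}) θ).natDegree = Nat.card (XX N) := by
  haveI := P.finiteDimensional
  obtain ⟨θ, hθ⟩ := Field.exists_primitive_element ↥(IntermediateField.adjoin Kbar {jF N}) (FF N)
  refine ⟨θ, ?_⟩
  rw [(Field.primitive_element_iff_minpoly_natDegree_eq _ θ).mp hθ, P.finrank_eq]

/-- The base change of an element of the function field over `ℚ̄`, as a Laurent series over `ℂ`. -/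
def ΘL (θ : FF N) : LaurentSeries ℂ := coeffMap iotaC (θ : LaurentSeries Kbar)

theorem ΘL_mem_FC (θ : FF N) : ΘL N θ ∈ FC N :=
  coeffMap_mem_laurentBaseChange_of_mem iotaC _ θ.2

/-- The same element in `MC N`. -/
def ΘM (θ : FF N) : MC N := ⟨ΘL N θ, FC_le_MC N (ΘL_mem_FC N θ)⟩

theorem aeval_jF_ne_zero {t : Kbar[X]} (ht : t ≠ 0) :
    aeval (AdjoinSimple.gen Kbar (jF N)) t ≠ 0 := by
  intro h0
  apply aeval_JK_ne_zero Kbar ht
  have h1 := congrArg (algebraMap ↥(IntermediateField.adjoin Kbar {jF N}) (FF N)) h0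
  rw [← aeval_algebraMap_apply, map_zero, AdjoinSimple.algebraMap_gen] at h1
  have h2 := congrArg (algebraMap (FF N) (LaurentSeries Kbar)) h1
  rw [← aeval_algebraMap_apply, map_zero] at h2
  exact h2

theorem algebraMap_comp_aeval_jF :
    (algebraMap (FF N) (LaurentSeries Kbar)).comp
      ((aeval (jF N) : Kbar[X] →ₐ[Kbar] FF N).toRingHom) = evJ (JK Kbar) := by
  refine Polynomial.ringHom_ext ?_ ?_
  · intro c
    simp [evJ, ← IsScalarTower.algebraMap_apply]
  · simp [evJ]
    rfl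

theorem card_le_natDegree_minpoly (θ : FF N)
    (hθ : (minpoly ↥(IntermediateField.adjoin Kbar {jF N}) θ).natDegree = Nat.card (XX N)) :
    Nat.card (XX N) ≤ (minpoly ↥(IntermediateField.adjoin ℂ {jM N}) (ΘM N θ)).natDegree := by
  haveI := (finiteDimensional_and_finrank_le_MC N).1
  by_contra hlt
  rw [not_le] at hlt
  have hint : IsIntegral ↥(IntermediateField.adjoin ℂ {jM N}) (ΘM N θ) := IsIntegral.of_finite _ _
  have hp0 : minpoly ↥(IntermediateField.adjoin ℂ {jM N}) (ΘM N θ) ≠ 0 := minpoly.ne_zero hint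
  obtain ⟨t, Q, ht, hQ⟩ := exists_clear_denominators (K := ℂ) (jM N)
    (minpoly ↥(IntermediateField.adjoin ℂ {jM N}) (ΘM N θ))
  have hφinj : Function.Injective
      ((aeval (AdjoinSimple.gen ℂ (jM N)) : ℂ[X] →ₐ[ℂ] ℂ⟮jM N⟯).toRingHom) := by
    rw [injective_iff_map_eq_zero]
    intro t ht0
    by_contra h
    exact aeval_jM_ne_zero N h ht0
  have hQ0 : Q ≠ 0 := by
    intro h
    rw [h, Polynomial.map_zero] at hQ
    exact (mul_ne_zero (C_ne_zero.mpr ht) hp0) hQ.symm
  have hQd : Q.natDegree ≤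
      (minpoly ↥(IntermediateField.adjoin ℂ {jM N}) (ΘM N θ)).natDegree := by
    rw [← Polynomial.natDegree_map_eq_of_injective hφinj Q, hQ, natDegree_C_mul ht]
  have hroot : Q.eval₂ (evJ (JK ℂ)) (ΘL N θ) = 0 := by
    have h1 : aeval (ΘM N θ)
        (Q.map ((aeval (AdjoinSimple.gen ℂ (jM N)) : ℂ[X] →ₐ[ℂ] ℂ⟮jM N⟯).toRingHom)) = 0 := by
      rw [hQ, map_mul, minpoly.aeval, mul_zero]
    have h2 := congrArg (algebraMap (MC N) (LaurentSeries ℂ)) h1
    rw [map_zero, aeval_def, eval₂_map, Polynomial.hom_eval₂] at h2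
    have hcomp : (algebraMap (MC N) (LaurentSeries ℂ)).comp
        ((algebraMap ↥(IntermediateField.adjoin ℂ {jM N}) (MC N)).comp
          ((aeval (AdjoinSimple.gen ℂ (jM N)) : ℂ[X] →ₐ[ℂ] ℂ⟮jM N⟯).toRingHom))
        = evJ (JK ℂ) := by
      refine Polynomial.ringHom_ext ?_ ?_
      · intro c
        simp [evJ, ← IsScalarTower.algebraMap_apply]
      · simp [evJ]
        rfl
    rw [hcomp] at h2
    exact h2
  obtain ⟨Q', hQ'0, hQ'd, hQ'⟩ := exists_relation_of_coeffMap_ne_zero iotaC (JK Kbar)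
    (θ : LaurentSeries Kbar) _ Q hQ0 hQd (by rw [coeffMap_JK]; exact hroot)
  have hinc : Function.Injective (algebraMap (FF N) (LaurentSeries Kbar)) :=
    (algebraMap (FF N) (LaurentSeries Kbar)).injective
  have key := isIntegral_and_natDegree_le_of_relation (K := Kbar)
    (AdjoinSimple.gen Kbar (jF N)) (fun t ht => aeval_jF_ne_zero N ht) θ Q' hQ'0 _ hQ'd (by
      apply hinc
      rw [map_zero, Polynomial.hom_eval₂, AdjoinSimple.algebraMap_gen, algebraMap_comp_aeval_jF]
      exact hQ')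
  have := key.2
  omega

/-- `ΘM` is a primitive element of `MC N` over `ℂ(j)`. -/
theorem adjoin_ΘM_eq_top (θ : FF N)
    (hθ : (minpoly ↥(IntermediateField.adjoin Kbar {jF N}) θ).natDegree = Nat.card (XX N)) :
    IntermediateField.adjoin ↥(IntermediateField.adjoin ℂ {jM N}) {ΘM N θ} = ⊤ := by
  haveI := (finiteDimensional_and_finrank_le_MC N).1
  rw [Field.primitive_element_iff_minpoly_natDegree_eq]
  have h1 := card_le_natDegree_minpoly N θ hθ
  have h2 := (finiteDimensional_and_finrank_le_MC N).2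
  have h3 : (minpoly ↥(IntermediateField.adjoin ℂ {jM N}) (ΘM N θ)).natDegree ≤
      Module.finrank ↥(IntermediateField.adjoin ℂ {jM N}) (MC N) := minpoly.natDegree_le _
  omega

theorem coe_mem_FC_of_mem_adjoin_jM (e : ↥(IntermediateField.adjoin ℂ {jM N})) :
    (((e : MC N)) : LaurentSeries ℂ) ∈ FC N := by
  obtain ⟨r, s, hrs⟩ := (IntermediateField.mem_adjoin_simple_iff ℂ (e : MC N)).mp e.2
  have hr : ((aeval (jM N) r : MC N) : LaurentSeries ℂ) = aeval (JK ℂ) r := by
    have := (aeval_algebraMap_apply (LaurentSeries ℂ) (jM N) r).symm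
    exact this
  have hs : ((aeval (jM N) s : MC N) : LaurentSeries ℂ) = aeval (JK ℂ) s := by
    have := (aeval_algebraMap_apply (LaurentSeries ℂ) (jM N) s).symm
    exact this
  have hmem : ∀ t : ℂ[X], aeval (JK ℂ) t ∈ FC N := by
    intro t
    have := (aeval_algebraMap_apply (LaurentSeries ℂ) (⟨JK ℂ, JK_mem_FC N⟩ : FC N) t)
    have h2 : (algebraMap (FC N) (LaurentSeries ℂ)) (⟨JK ℂ, JK_mem_FC N⟩ : FC N) = JK ℂ := rfl
    rw [h2] at this
    rw [this]
    exact (aeval (⟨JK ℂ, JK_mem_FC N⟩ : FC N) t).2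
  rw [hrs]
  have : (((aeval (jM N) r / aeval (jM N) s : MC N)) : LaurentSeries ℂ)
      = aeval (JK ℂ) r / aeval (JK ℂ) s := by
    rw [← hr, ← hs]
    rfl
  rw [this]
  exact div_mem (hmem r) (hmem s)

/-- **`MC N ≤ FC N`**: every `q`-expansion of a good function lies in the function field. -/
theorem MC_le_FC : MC N ≤ FC N := by
  obtain ⟨P⟩ := nonempty_modularPackage N
  obtain ⟨θ, hθ⟩ := exists_theta N P
  have htop := adjoin_ΘM_eq_top N θ hθ
  intro y hy
  have hy' : (⟨y, hy⟩ : MC N) ∈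
      IntermediateField.adjoin ↥(IntermediateField.adjoin ℂ {jM N}) {ΘM N θ} := by
    rw [htop]; exact IntermediateField.mem_top
  have key : ∀ z : MC N,
      z ∈ IntermediateField.adjoin ↥(IntermediateField.adjoin ℂ {jM N}) {ΘM N θ} →
      (z : LaurentSeries ℂ) ∈ FC N := by
    intro z hz
    refine IntermediateField.adjoin_induction ↥(IntermediateField.adjoin ℂ {jM N})
      (p := fun (z : MC N) _ => ((z : MC N) : LaurentSeries ℂ) ∈ FC N) ?_ ?_ ?_ ?_ ?_ hz
    · intro x hx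
      rw [Set.mem_singleton_iff] at hx
      subst hx
      exact ΘL_mem_FC N θ
    · intro e
      exact coe_mem_FC_of_mem_adjoin_jM N e
    · intro x y _ _ hx hy
      exact add_mem hx hy
    · intro x _ hx
      exact inv_mem hx
    · intro x y _ _ hx hy
      exact mul_mem hx hy
  exact key ⟨y, hy⟩ hy'

theorem MC_eq_FC : MC N = FC N := le_antisymm (MC_le_FC N) (FC_le_MC N)

variable {N}

/-- **MERO (A)**: the `q`-expansion of a good function of level `N` lies in the function field of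
`X₀(N)` over `ℂ`. -/
theorem mem_FC_of_mem_goodQ {b : LaurentSeries ℂ} (hb : b ∈ goodQ N) :
    b ∈ laurentBaseChange ℂ (modularFunctionFieldFull N) :=
  MC_le_FC N (goodQ_le_MC N hb)

/-- **MERO (A)**, function form. -/
theorem qexpFun_mem_FC {f : ℍ → ℂ} (hf : f ∈ goodRing N) :
    qexpFun 1 f ∈ laurentBaseChange ℂ (modularFunctionFieldFull N) :=
  mem_FC_of_mem_goodQ (qexpFun_mem_goodQ hf)

/-- **MERO (A)**, `HasQExp` form. -/
theorem mem_FC_of_hasQExp {f : ℍ → ℂ} {b : LaurentSeries ℂ} (hf : f ∈ goodRing N)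
    (hb : HasQExp 1 f b) : b ∈ laurentBaseChange ℂ (modularFunctionFieldFull N) :=
  mem_FC_of_mem_goodQ ⟨f, hf, hb⟩

end Fermat.Agent.S29.H882

end
end
-- ===== PACK-END S29/H882/MeroPrim.lean

-- ===== PACK-BEGIN S29/M4b/Defs.lean
section
/-
S29 row, LAYER M, SUB-LAYER M4b (the Kummer map) — FROZEN interface definitions
(sub-architect: deputy helper822).  Namespace `Fermat.Agent.S29.M4b`.
Do not edit; propose changes via a note kind='question' stmt='S29'.

The relation `IsKum N p c x` ("`x` is the Kummer class of the character `c`"):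
`x = [D]`, `p • D = div f` (landed `H455.IsKummerClass`), and after clearing poles by a `p`-th power
`t ^ p` the function `f * t ^ p` is the `p`-th power of a holomorphic `U : ℍ → ℂ` which transforms
under `Γ₀(N)` by the character `γ ↦ ζ_p ^ c(γ)`.

"Analytic realisation" = equality of `q`-expansions at `i∞` (landed S24 / H882 language):
`G` realises `u ∈ FF N` iff `G ∈ S24.H648.goodRing N` (holomorphic, `Γ₀(N)`-invariant, all
`SL₂(ℤ)`-translates of at most exponential growth) and `qexpFun 1 G = coeffMap iotaC u`.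
-/




set_option autoImplicit false

noncomputable section

open ModularCurve AlgebraicCurve CongruenceSubgroup UpperHalfPlane
open scoped MatrixGroups Manifold

namespace Fermat.Agent.S29.M4b

open Fermat.Agent.S24 Fermat.Agent.S29

/-- The fixed primitive `p`-th root of unity `exp(2πi/p)`. -/
def zetaP (p : ℕ) : ℂ := Complex.exp (2 * Real.pi * Complex.I / p)

/-- `G : ℍ → ℂ` realises `u ∈ FF N = ℚ̄(j(q^d) : d ∣ N)`: `G` is a "good" function (holomorphic on
`ℍ`, `Γ₀(N)`-invariant, exponential growth at all cusps) whose `q`-expansion at `i∞` is `u`, the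
coefficients being embedded by the fixed `Deg457.iotaC : ℚ̄ → ℂ`. -/
def Realises (N : ℕ) [NeZero N] (u : FF N) (G : ℍ → ℂ) : Prop :=
  G ∈ H648.goodRing N ∧
    H708.qexpFun 1 G = coeffMap Deg457.iotaC ((u : FF N) : LaurentSeries Kbar)

/-- `U` transforms under `Γ₀(N)` by the character `γ ↦ ζ_p ^ c(γ)`. -/
def HasChar (N p : ℕ) (c : G0 N → ZMod p) (U : ℍ → ℂ) : Prop :=
  ∀ (γ : G0 N) (τ : ℍ), U ((γ : SL(2, ℤ)) • τ) = zetaP p ^ (c γ).val * U τ

/-- `U` is a twisted function of character `c`: holomorphic on `ℍ`, not identically zero, of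
character `c`, with `U ^ p` good (i.e. `U` has at most exponential growth at every cusp). -/
structure IsTwisted (N p : ℕ) (c : G0 N → ZMod p) (U : ℍ → ℂ) : Prop where
  mdiff : MDifferentiable 𝓘(ℂ) 𝓘(ℂ) U
  ne_zero : ∃ τ : ℍ, U τ ≠ 0
  hasChar : HasChar N p c U
  pow_mem : (fun τ => U τ ^ p) ∈ H648.goodRing N

/-- **The Kummer relation.**  `x ∈ J₀(N)(ℚ̄)` is the Kummer class of the character `c`. -/
def IsKum (N p : ℕ) [NeZero N] (c : G0 N → ZMod p) (x : JZero N) : Prop :=
  ∃ (f t : FF N) (U : ℍ → ℂ), t ≠ 0 ∧ H455.IsKummerClass (p : ℤ) f x ∧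
    IsTwisted N p c U ∧ Realises N (f * t ^ p) (fun τ => U τ ^ p)

/-- `c'` is the transfer (= Hecke image `T_ℓ c`) of `c`: `c'(γ) = ∑ᵢ c(δᵢ)` for EVERY
factorisation `αᵢ γ = δᵢ α_{π i}` (`αᵢ = heckeRep ℓ i` of `DefsM`).  For `ℓ ∤ N` prime the
factorisation exists and is unique (piece `HCoh`), so `c' = heckeCoh N ℓ c`. -/
def IsTransfer (N ℓ : ℕ) {A : Type*} [AddCommMonoid A] (c c' : G0 N → A) : Prop :=
  ∀ (γ : G0 N) (π : Option (Fin ℓ) → Option (Fin ℓ)) (δ : Option (Fin ℓ) → G0 N),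
    (∀ i, IsHeckeFactor ℓ γ i (π i, δ i)) → c' γ = ∑ i, c (δ i)

end Fermat.Agent.S29.M4b

end
end
-- ===== PACK-END S29/M4b/Defs.lean

-- ===== PACK-BEGIN S30/H450/KumCompat.lean
section
/-
S30 (p-adic version), helper450: the Kummer relation of S29 sub-layer M4b (`M4b.IsKum`, frozen
definitions of helper822, general modulus) is compatible with change of modulus.

* `isKum_red`  : REDUCTION.  `IsKum N (m * d) c x → IsKum N m (c mod m) (d • x)`
  (data `(f, t, U) ↦ (f, t ^ d, U ^ d)`).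
* `isKum_infl` : INFLATION.  `IsKum N m c x → IsKum N (m * d) (d * c) x`
  (data `(f, t, U) ↦ (f ^ d, t, U)`).

Everything here is formal: no analysis beyond `ζ_{md} ^ d = ζ_m`.
-/


set_option autoImplicit false

noncomputable section

open ModularCurve AlgebraicCurve CongruenceSubgroup UpperHalfPlane
open scoped MatrixGroups Manifold

namespace Fermat.Agent.S30.H450

open Fermat.Agent.S24 Fermat.Agent.S29 Fermat.Agent.S29.M4b

/-! ### Roots of unity -/

theorem zetaP_pow_self (m : ℕ) (hm : m ≠ 0) : zetaP m ^ m = 1 := by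
  unfold zetaP
  rw [← Complex.exp_nat_mul]
  have hm' : (m : ℂ) ≠ 0 := by exact_mod_cast hm
  have : (m : ℂ) * (2 * Real.pi * Complex.I / m) = 2 * Real.pi * Complex.I := by
    field_simp
  rw [this, Complex.exp_two_pi_mul_I]

theorem zetaP_mul_pow (m d : ℕ) (hd : d ≠ 0) : zetaP (m * d) ^ d = zetaP m := by
  unfold zetaP
  rw [← Complex.exp_nat_mul]
  congr 1
  have hd' : (d : ℂ) ≠ 0 := by exact_mod_cast hd
  by_cases hm : m = 0
  · subst hm
    simp
  have hm' : (m : ℂ) ≠ 0 := by exact_mod_cast hm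
  push_cast
  field_simp

theorem zetaP_pow_mod (m : ℕ) (hm : m ≠ 0) (a : ℕ) : zetaP m ^ (a % m) = zetaP m ^ a := by
  conv_rhs => rw [← Nat.mod_add_div a m]
  rw [pow_add, pow_mul, zetaP_pow_self m hm, one_pow, mul_one]

/-! ### Reduction and inflation of characters -/

/-- Reduction of a character modulo a divisor of the modulus. -/
def redChar {N m m' : ℕ} (h : m ∣ m') (c : G0 N → ZMod m') : G0 N → ZMod m :=
  fun γ => ZMod.castHom h (ZMod m) (c γ)

/-- Inflation of a character: `ZMod m → ZMod (m * d)`, `a ↦ d * a` (on representatives). -/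
def inflChar {N : ℕ} (m d : ℕ) (c : G0 N → ZMod m) : G0 N → ZMod (m * d) :=
  fun γ => ((d * (c γ).val : ℕ) : ZMod (m * d))

theorem isParHom_redChar {N m m' : ℕ} (h : m ∣ m') {c : G0 N → ZMod m'} (hc : IsParHom c) :
    IsParHom (redChar h c) where
  map_mul γ γ' := by
    simp only [redChar, hc.map_mul, map_add]
  parabolic γ hγ := by
    simp only [redChar, hc.parabolic γ hγ, map_zero]
  elliptic γ n hn hγ := by
    simp only [redChar, hc.elliptic γ n hn hγ, map_zero]

theorem redChar_add {N m m' : ℕ} (h : m ∣ m') (c c' : G0 N → ZMod m') :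
    redChar h (c + c') = redChar h c + redChar h c' := by
  funext γ
  simp only [redChar, Pi.add_apply, map_add]

theorem val_redChar {N m m' : ℕ} [NeZero m'] (h : m ∣ m') (c : G0 N → ZMod m') (γ : G0 N) :
    (redChar h c γ).val = (c γ).val % m := by
  unfold redChar
  have h1 : ZMod.castHom h (ZMod m) (c γ) = (((c γ).val : ℕ) : ZMod m) := by
    conv_lhs => rw [← ZMod.natCast_zmod_val (c γ)]
    rw [map_natCast]
  rw [h1, ZMod.val_natCast]

/-! ### Kummer classes under change of modulus (Prelude language) -/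

section Alg

variable {K F : Type*} [Field K] [Field F] [Algebra K F]

theorem isKummerClass_red {m d : ℕ} {f : F} {x : Pic0 K F}
    (h : H455.IsKummerClass ((m * d : ℕ) : ℤ) f x) :
    H455.IsKummerClass (m : ℤ) f (d • x) := by
  obtain ⟨hf, D, rfl, hD⟩ := h
  refine ⟨hf, d • D, rfl, fun v => ?_⟩
  rw [← hD v]
  simp only [AddSubmonoidClass.coe_nsmul, Finsupp.smul_apply, nsmul_eq_mul]
  push_cast
  ring

theorem isKummerClass_infl {m d : ℕ} {f : F} {x : Pic0 K F}
    (h : H455.IsKummerClass (m : ℤ) f x) :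
    H455.IsKummerClass ((m * d : ℕ) : ℤ) (f ^ d) x := by
  obtain ⟨hf, D, rfl, hD⟩ := h
  refine ⟨pow_ne_zero d hf, D, rfl, fun v => ?_⟩
  rw [← zpow_natCast, Place.ord_zpow, ← hD v]
  push_cast
  ring

end Alg

/-! ### The analytic part -/

section An

variable {N : ℕ}

theorem isTwisted_red {m d : ℕ} [NeZero m] [NeZero d] {c : G0 N → ZMod (m * d)} {U : ℍ → ℂ}
    (hU : IsTwisted N (m * d) c U) :
    IsTwisted N m (redChar (Dvd.intro d rfl) c) (fun τ => U τ ^ d) where
  mdiff := hU.mdiff.pow d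
  ne_zero := by
    obtain ⟨τ, hτ⟩ := hU.ne_zero
    exact ⟨τ, pow_ne_zero d hτ⟩
  hasChar := by
    intro γ τ
    have : NeZero (m * d) := ⟨Nat.mul_ne_zero (NeZero.ne m) (NeZero.ne d)⟩
    beta_reduce
    rw [hU.hasChar γ τ, mul_pow, ← pow_mul, mul_comm (c γ).val d, pow_mul,
      zetaP_mul_pow m d (NeZero.ne d), val_redChar, zetaP_pow_mod m (NeZero.ne m)]
  pow_mem := by
    have h := hU.pow_mem
    have e : (fun τ => (U τ ^ d) ^ m) = fun τ => U τ ^ (m * d) := by
      funext τ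
      rw [← pow_mul, mul_comm]
    rw [e]
    exact h

variable [NeZero N]

theorem realises_red {m d : ℕ} {f t : FF N} {U : ℍ → ℂ}
    (h : Realises N (f * t ^ (m * d)) (fun τ => U τ ^ (m * d))) :
    Realises N (f * (t ^ d) ^ m) (fun τ => (U τ ^ d) ^ m) := by
  have e : (fun τ => (U τ ^ d) ^ m) = fun τ => U τ ^ (m * d) := by
    funext τ
    rw [← pow_mul, mul_comm]
  have e' : f * (t ^ d) ^ m = f * t ^ (m * d) := by
    rw [← pow_mul, mul_comm d m]
  rw [e, e']
  exact h

/-- **REDUCTION.**  If `x` is the Kummer class of `c` for the modulus `m * d`, then `d • x` is the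
Kummer class of `c mod m` for the modulus `m`. -/
theorem isKum_red {m d : ℕ} [NeZero m] [NeZero d] {c : G0 N → ZMod (m * d)} {x : JZero N}
    (h : IsKum N (m * d) c x) :
    IsKum N m (redChar (Dvd.intro d rfl) c) (d • x) := by
  obtain ⟨f, t, U, ht, hx, hU, hR⟩ := h
  exact ⟨f, t ^ d, fun τ => U τ ^ d, pow_ne_zero d ht, isKummerClass_red hx, isTwisted_red hU,
    realises_red hR⟩

/-- Variant of `isKum_red` with a propositional equality of moduli (e.g. `p ^ (n+1) = p ^ n * p`). -/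
theorem isKum_red' {m m' d : ℕ} [NeZero m] [NeZero d] (hm : m' = m * d) (hdvd : m ∣ m')
    {c : G0 N → ZMod m'} {x : JZero N} (h : IsKum N m' c x) :
    IsKum N m (redChar hdvd c) (d • x) := by
  subst hm
  exact isKum_red h

theorem realises_pow {u : FF N} {G : ℍ → ℂ} (h : Realises N u G) (d : ℕ) :
    Realises N (u ^ d) (fun τ => G τ ^ d) := by
  obtain ⟨h1, h2⟩ := h
  have hq : H708.HasQExp 1 G (coeffMap Deg457.iotaC ((u : FF N) : LaurentSeries Kbar)) :=
    h2 ▸ H882.hasQExp_of_mem_goodRing h1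
  have hG : (fun τ => G τ ^ d) = G ^ d := rfl
  refine ⟨hG ▸ (H648.goodRing N).pow_mem h1 d, ?_⟩
  rw [hG, (hq.pow d).qexpFun_eq]
  rw [IntermediateField.coe_pow, map_pow]

omit [NeZero N] in
theorem zetaP_pow_val_inflChar {m d : ℕ} [NeZero m] [NeZero d] (c : G0 N → ZMod m) (γ : G0 N) :
    zetaP (m * d) ^ (inflChar m d c γ).val = zetaP m ^ (c γ).val := by
  have hmd : m * d ≠ 0 := Nat.mul_ne_zero (NeZero.ne m) (NeZero.ne d)
  have : NeZero (m * d) := ⟨hmd⟩
  unfold inflChar
  rw [ZMod.val_natCast, zetaP_pow_mod (m * d) hmd, pow_mul, zetaP_mul_pow m d (NeZero.ne d)]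

/-- **INFLATION.**  If `x` is the Kummer class of `c` for the modulus `m`, then `x` is the Kummer
class of `d * c` for the modulus `m * d`. -/
theorem isKum_infl {m d : ℕ} [NeZero m] [NeZero d] {c : G0 N → ZMod m} {x : JZero N}
    (h : IsKum N m c x) : IsKum N (m * d) (inflChar m d c) x := by
  obtain ⟨f, t, U, ht, hx, hU, hR⟩ := h
  have e : (fun τ => U τ ^ (m * d)) = fun τ => (U τ ^ m) ^ d := by
    funext τ
    rw [pow_mul]
  refine ⟨f ^ d, t, U, ht, isKummerClass_infl hx, ⟨hU.mdiff, hU.ne_zero, fun γ τ => ?_, ?_⟩, ?_⟩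
  · rw [zetaP_pow_val_inflChar]
    exact hU.hasChar γ τ
  · rw [e]
    exact (realises_pow hR d).1
  · have e' : f ^ d * t ^ (m * d) = (f * t ^ m) ^ d := by
      rw [mul_pow, pow_mul]
    rw [e, e']
    exact realises_pow hR d

end An

end Fermat.Agent.S30.H450

end
end
-- ===== PACK-END S30/H450/KumCompat.lean

-- ===== PACK-BEGIN S30/H450/KumTower.lean
section
/-
S30 (p-adic version), helper450: the KUMMER TOWER from the pieces of S29 sub-layer M4b.

* `KumPackage N m` : the pieces of helper822's `M4b/Skeleton.lean` at the modulus `m`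
  (existence, uniqueness, injectivity, additivity, Hecke-equivariance of `M4b.IsKum N m`).
* `KumPackage.of_skeleton` : the package from statements in the EXACT shapes of the M4b skeleton
  (the Hecke piece is converted with the landed `HCoh` facts of helper149).
* `exists_kummerTower_of` : the conclusion of helper49's `SkeletonLat.exists_kummerTower`
  (maps `κ n` on characters mod `p ^ n`, additive, injective, `p • κ (n+1) c = κ n (c mod p ^ n)`,
  Hecke-equivariant), from `KumPackage N (p ^ n)` for all `n`; the tower compatibility is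
  `isKum_red` of `KumCompat.lean`.
-/



set_option autoImplicit false

noncomputable section

open ModularCurve AlgebraicCurve CongruenceSubgroup UpperHalfPlane
open scoped MatrixGroups Manifold

namespace Fermat.Agent.S30.H450

open Fermat.Agent.S24 Fermat.Agent.S29 Fermat.Agent.S29.M4b

/-- The pieces of S29 sub-layer M4b at the modulus `m`. -/
structure KumPackage (N m : ℕ) [NeZero N] : Prop where
  ex : ∀ c : G0 N → ZMod m, IsParHom c → ∃ x : JZero N, IsKum N m c x
  uniq : ∀ (c : G0 N → ZMod m) (x x' : JZero N), IsKum N m c x → IsKum N m c x' → x = x'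
  inj : ∀ c : G0 N → ZMod m, IsKum N m c (0 : JZero N) → c = 0
  add : ∀ (c c' : G0 N → ZMod m) (x x' : JZero N),
    IsKum N m c x → IsKum N m c' x' → IsKum N m (c + c') (x + x')
  hecke : ∀ ℓ : Nat.Primes, ¬ (ℓ : ℕ) ∣ N * m → ∀ (c : G0 N → ZMod m) (x : JZero N),
    IsParHom c → IsKum N m c x → IsKum N m (heckeCoh N ℓ c) (heckeOperatorBar N ℓ x)

section Skeleton

variable {N : ℕ} [NeZero N]

omit [NeZero N] in
/-- The transfer of `c` is `heckeCoh N ℓ c` (for `ℓ ∤ N` prime; landed `HCoh`). -/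
theorem isTransfer_heckeCoh_h450 {ℓ : ℕ} (hℓ : ℓ.Prime) (hℓN : ¬ ℓ ∣ N) {A : Type*}
    [AddCommMonoid A] (c : G0 N → A) : IsTransfer N ℓ c (heckeCoh N ℓ c) := by
  intro γ π δ hfac
  unfold heckeCoh
  refine Finset.sum_congr rfl fun i _ => ?_
  rw [H149.HCoh_heckeFac_unique hℓ hℓN (hfac i)]

omit [NeZero N] in
/-- Existence of the Hecke factorisation with a permutation of the indices (landed `HCoh`). -/
theorem exists_perm_factor_h450 {ℓ : ℕ} (hℓ : ℓ.Prime) (hℓN : ¬ ℓ ∣ N) (γ : G0 N) :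
    ∃ (π : Equiv.Perm (Option (Fin ℓ))) (δ : Option (Fin ℓ) → G0 N),
      ∀ i, IsHeckeFactor ℓ γ i (π i, δ i) :=
  ⟨H149.HCoh_perm (H149.HCoh_isFactorSystem hℓ hℓN) γ, fun i => (heckeFac N ℓ γ i).2,
    fun i => H149.HCoh_heckeFac_spec hℓ hℓN γ i⟩

/-- The package at the modulus `m` from statements in the EXACT shapes of
`Fermat/Agent/S29/M4b/Skeleton.lean` (`isKum_exists`, `isKum_unique`, `isKum_zero_right`,
`isKum_add`, `isKum_hecke`). -/
theorem KumPackage.of_skeleton {m : ℕ}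
    (hex : ∀ {c : G0 N → ZMod m}, IsParHom c → ∃ x : JZero N, IsKum N m c x)
    (huniq : ∀ {c : G0 N → ZMod m} {x x' : JZero N}, IsKum N m c x → IsKum N m c x' → x = x')
    (hinj : ∀ {c : G0 N → ZMod m}, IsKum N m c (0 : JZero N) → c = 0)
    (hadd : ∀ {c c' : G0 N → ZMod m} {x x' : JZero N},
      IsKum N m c x → IsKum N m c' x' → IsKum N m (c + c') (x + x'))
    (hhecke : ∀ (ℓ : Nat.Primes), ¬ (ℓ : ℕ) ∣ N * m →
      (∀ γ : G0 N, ∃ (π : Equiv.Perm (Option (Fin (ℓ : ℕ)))) (δ : Option (Fin (ℓ : ℕ)) → G0 N),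
        ∀ i, IsHeckeFactor (ℓ : ℕ) γ i (π i, δ i)) →
      ∀ {c c' : G0 N → ZMod m}, IsParHom c → IsTransfer N (ℓ : ℕ) c c' →
      ∀ {x : JZero N}, IsKum N m c x → IsKum N m c' (heckeOperatorBar N ℓ x)) :
    KumPackage N m where
  ex _ hc := hex hc
  uniq _ _ _ h h' := huniq h h'
  inj _ h := hinj h
  add _ _ _ _ h h' := hadd h h'
  hecke ℓ hℓ c x hc h := by
    have hℓN : ¬ (ℓ : ℕ) ∣ N := fun hd => hℓ (Dvd.dvd.mul_right hd m)
    exact hhecke ℓ hℓ (exists_perm_factor_h450 ℓ.2 hℓN) hc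
      (isTransfer_heckeCoh_h450 ℓ.2 hℓN c) h

end Skeleton

section Tower

variable (N : ℕ) [NeZero N] (p : ℕ)

open Classical in
/-- The Kummer tower: `kumTower N p n c` is THE Kummer class of the character `c` mod `p ^ n`
(and `0` if there is none). -/
def kumTower (n : ℕ) (c : G0 N → ZMod (p ^ n)) : JZero N :=
  if h : ∃ x : JZero N, IsKum N (p ^ n) c x then h.choose else 0

variable {N p}

theorem isKum_kumTower (H : ∀ n, KumPackage N (p ^ n)) {n : ℕ} {c : G0 N → ZMod (p ^ n)}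
    (hc : IsParHom c) : IsKum N (p ^ n) c (kumTower N p n c) := by
  have h := (H n).ex c hc
  rw [kumTower, dif_pos h]
  exact h.choose_spec

theorem kumTower_eq (H : ∀ n, KumPackage N (p ^ n)) {n : ℕ} {c : G0 N → ZMod (p ^ n)}
    {x : JZero N} (h : IsKum N (p ^ n) c x) : kumTower N p n c = x := by
  have h' : ∃ x : JZero N, IsKum N (p ^ n) c x := ⟨x, h⟩
  rw [kumTower, dif_pos h']
  exact (H n).uniq c _ _ h'.choose_spec h

theorem not_dvd_mul_pow {ℓ : ℕ} (hℓ : ℓ.Prime) {N p : ℕ} (h : ¬ ℓ ∣ N * p) (n : ℕ) :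
    ¬ ℓ ∣ N * p ^ n := by
  intro hd
  rcases (Nat.Prime.dvd_mul hℓ).1 hd with h1 | h1
  · exact h (Dvd.dvd.mul_right h1 p)
  · exact h (Dvd.dvd.mul_left (hℓ.dvd_of_dvd_pow h1) N)

/-- **The Kummer tower** (conclusion of helper49's `SkeletonLat.exists_kummerTower`, with the
extra information that `κ n c` IS the Kummer class of `c`), from the M4b pieces at all moduli
`p ^ n`. -/
theorem exists_kummerTower_isKum_of [NeZero p] (H : ∀ n, KumPackage N (p ^ n)) :
    ∃ κ : (n : ℕ) → (G0 N → ZMod (p ^ n)) → JZero N,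
      (∀ n c, IsParHom c → IsKum N (p ^ n) c (κ n c)) ∧
      (∀ n c c', IsParHom c → IsParHom c' → κ n (c + c') = κ n c + κ n c') ∧
      (∀ n c, IsParHom c → κ n c = 0 → c = 0) ∧
      (∀ (n : ℕ) (c : G0 N → ZMod (p ^ (n + 1))), IsParHom c →
        (p : ℤ) • κ (n + 1) c =
          κ n (fun γ => ZMod.castHom (pow_dvd_pow p (Nat.le_succ n)) (ZMod (p ^ n)) (c γ))) ∧
      (∀ ℓ : Nat.Primes, ¬ (ℓ : ℕ) ∣ N * p → ∀ n c, IsParHom c →
        κ n (heckeCoh N ℓ c) = heckeOperatorBar N ℓ (κ n c)) := by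
  refine ⟨kumTower N p, fun n c hc => isKum_kumTower H hc, fun n c c' hc hc' => ?_,
    fun n c hc h0 => ?_, fun n c hc => ?_, fun ℓ hℓ n c hc => ?_⟩
  · exact kumTower_eq H ((H n).add c c' _ _ (isKum_kumTower H hc) (isKum_kumTower H hc'))
  · have h := isKum_kumTower H hc
    rw [h0] at h
    exact (H n).inj c h
  · have h := isKum_kumTower H hc
    have h1 := isKum_red' (m := p ^ n) (d := p) (pow_succ p n)
      (pow_dvd_pow p (Nat.le_succ n)) h
    rw [natCast_zsmul]
    exact (kumTower_eq H h1).symm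
  · exact kumTower_eq H ((H n).hecke ℓ (not_dvd_mul_pow ℓ.2 hℓ n) c _ hc (isKum_kumTower H hc))

/-- **The Kummer tower**, EXACT conclusion of helper49's `SkeletonLat.exists_kummerTower`. -/
theorem exists_kummerTower_of [NeZero p] (H : ∀ n, KumPackage N (p ^ n)) :
    ∃ κ : (n : ℕ) → (G0 N → ZMod (p ^ n)) → JZero N,
      (∀ n c c', IsParHom c → IsParHom c' → κ n (c + c') = κ n c + κ n c') ∧
      (∀ n c, IsParHom c → κ n c = 0 → c = 0) ∧
      (∀ (n : ℕ) (c : G0 N → ZMod (p ^ (n + 1))), IsParHom c →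
        (p : ℤ) • κ (n + 1) c =
          κ n (fun γ => ZMod.castHom (pow_dvd_pow p (Nat.le_succ n)) (ZMod (p ^ n)) (c γ))) ∧
      (∀ ℓ : Nat.Primes, ¬ (ℓ : ℕ) ∣ N * p → ∀ n c, IsParHom c →
        κ n (heckeCoh N ℓ c) = heckeOperatorBar N ℓ (κ n c)) := by
  obtain ⟨κ, -, h1, h2, h3, h4⟩ := exists_kummerTower_isKum_of H
  exact ⟨κ, h1, h2, h3, h4⟩

end Tower

end Fermat.Agent.S30.H450

end
end
-- ===== PACK-END S30/H450/KumTower.lean

-- ===== PACK-BEGIN S29/H509/KummerFun.lean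
section



/-!
# The Kummer function of a character (helper509, S29 piece K1-full)

For `Γ ≤ SL(2, ℤ)` and a unitary character `χ : Γ →* ℂˣ` trivial on the stabiliser of `∞`:
`kumH χ τ = twEis χ 12 τ / Δ τ` is holomorphic on `ℍ`, nonzero, satisfies
`kumH χ (γ • τ) = χ γ * kumH χ τ` for `γ ∈ Γ`, and all its `SL(2, ℤ)`-translates have at most
exponential growth at `i∞`.  If `χ ^ p = 1` and `Γ = Γ₀(N)`, then `kumH χ ^ p` lies in helper648's
`goodRing N` (so, by helper882's MERO, its `q`-expansion lies in the function field over `ℂ`).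
-/

set_option autoImplicit false

namespace Fermat.Agent.S29.H509

open ModularForm UpperHalfPlane Matrix CongruenceSubgroup EisensteinSeries Filter Topology
open scoped MatrixGroups Manifold Real

open Fermat.Agent.S24.H648 (goodRing ExpGrowth)

noncomputable section

local notation "Δ" => ModularForm.discriminant

/-- A uniform bound for weighted Eisenstein sums on `im z ≥ 1`. -/
theorem exists_bound_wEis {k : ℤ} (hk : 3 ≤ k) :
    ∃ M : ℝ, ∀ (w : (Fin 2 → ℤ) → ℂ), (∀ v, ‖w v‖ ≤ 1) → ∀ z : ℍ, 1 ≤ z.im →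
      ‖wEis w k z‖ ≤ M := by
  refine ⟨∑' x : Fin 2 → ℤ, r ⟨⟨1, 1⟩, one_pos⟩ ^ (-k) * ‖x‖ ^ (-k), fun w hw z hz => ?_⟩
  obtain ⟨n, hn⟩ := ModularGroup_T_zpow_mem_verticalStrip z (N := 1) one_pos
  refine (norm_wEis_le_eisMaj hw hk z).trans ?_
  rw [← eisMaj_T_zpow_smul k ((1 : ℕ) * n) z]
  refine eisMaj_le_of_mem_verticalStrip hk one_pos ?_
  exact verticalStrip_anti_right _ hz (by simpa using hn)

variable {Γ : Subgroup SL(2, ℤ)}

/-- A uniform bound for all `SL(2, ℤ)`-translates of the twisted Eisenstein series on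
`im z ≥ 1`. -/
theorem exists_bound_twEis_slash {χ : Γ →* ℂˣ} (hnorm : ∀ γ, ‖(χ γ : ℂ)‖ = 1) {k : ℤ}
    (hk : 3 ≤ k) : ∃ M : ℝ, ∀ (g : SL(2, ℤ)) (z : ℍ), 1 ≤ z.im →
      ‖(twEis χ k ∣[k] g) z‖ ≤ M := by
  obtain ⟨M, hM⟩ := exists_bound_wEis hk
  refine ⟨M, fun g z hz => ?_⟩
  unfold twEis
  rw [wEis_slash]
  exact hM _ (fun v => norm_chiWeight_le hnorm _) z hz

/-- The Kummer function `E^χ₁₂ / Δ` of a character `χ`. -/
def kumH (χ : Γ →* ℂˣ) : ℍ → ℂ := fun τ => twEis χ 12 τ * (Δ τ)⁻¹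

lemma kumH_apply (χ : Γ →* ℂˣ) (τ : ℍ) : kumH χ τ = twEis χ 12 τ * (Δ τ)⁻¹ := rfl

theorem kumH_mdifferentiable {χ : Γ →* ℂˣ} (hnorm : ∀ γ, ‖(χ γ : ℂ)‖ = 1) :
    MDiff (kumH χ) := by
  have h1 : MDiff (twEis χ 12) := twEis_mdifferentiable hnorm (by norm_num)
  have h2 := h1.div Fermat.Agent.S28.H565.mdifferentiable_discriminant
    ModularForm.discriminant_ne_zero
  have h3 : kumH χ = twEis χ 12 / Δ := by
    funext τ
    simp only [kumH_apply, Pi.div_apply, div_eq_mul_inv]
  rw [h3]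
  exact h2

lemma denom_SL_eq (g : SL(2, ℤ)) (τ : ℍ) :
    denom (g : SL(2, ℤ)) τ = ((g 1 0 : ℤ) : ℂ) * τ + ((g 1 1 : ℤ) : ℂ) := by
  simp [UpperHalfPlane.denom]

/-- Translates of the Kummer function by `SL(2, ℤ)`. -/
theorem kumH_smul_SL (χ : Γ →* ℂˣ) (g : SL(2, ℤ)) (τ : ℍ) :
    kumH χ (g • τ) = (twEis χ 12 ∣[(12 : ℤ)] g) τ * (Δ τ)⁻¹ := by
  have hd : denom (g : SL(2, ℤ)) τ ≠ 0 := denom_ne_zero _ τ
  rw [kumH_apply, SL_slash_apply, Fermat.Agent.S28.H565.discriminant_smul, ← denom_SL_eq,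
    mul_inv, _root_.zpow_neg]
  ring

/-- The Kummer function transforms under `Γ` by the character `χ`. -/
theorem kumH_smul {χ : Γ →* ℂˣ} (hχ : TrivOnUnip χ) (γ : Γ) (τ : ℍ) :
    kumH χ ((γ : SL(2, ℤ)) • τ) = (χ γ : ℂ) * kumH χ τ := by
  rw [kumH_smul_SL, twEis_slash hχ, Pi.smul_apply, smul_eq_mul, kumH_apply, mul_assoc]

/-- All translates of the Kummer function have at most exponential growth at `i∞`. -/
theorem kumH_expGrowth {χ : Γ →* ℂˣ} (hnorm : ∀ γ, ‖(χ γ : ℂ)‖ = 1) (g : SL(2, ℤ)) :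
    ExpGrowth (fun τ => kumH χ (g • τ)) := by
  obtain ⟨M, hM⟩ := exists_bound_twEis_slash (χ := χ) hnorm (k := 12) (by norm_num)
  obtain ⟨C, hC⟩ := Fermat.Agent.S28.H589.exists_inv_discriminant_bound
  have hM0 : 0 ≤ M := (norm_nonneg _).trans (hM 1 UpperHalfPlane.I (by simp))
  refine ⟨M * C, 1, fun τ hτ => ?_⟩
  show ‖kumH χ (g • τ)‖ ≤ _
  rw [kumH_smul_SL, norm_mul]
  calc ‖(twEis χ 12 ∣[(12 : ℤ)] g) τ‖ * ‖(Δ τ)⁻¹‖
      ≤ M * (C * Real.exp (2 * π * τ.im)) :=
        mul_le_mul (hM g τ hτ) (hC τ hτ) (norm_nonneg _) hM0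
    _ = M * C * Real.exp (2 * π * (1 : ℕ) * τ.im) := by
        simp only [Nat.cast_one, mul_one]
        ring

/-- The Kummer function is not identically zero. -/
theorem kumH_ne_zero {χ : Γ →* ℂˣ} (hnorm : ∀ γ, ‖(χ γ : ℂ)‖ = 1) (hχ : TrivOnStabInfty χ) :
    kumH χ ≠ 0 := by
  intro h0
  apply twEis_ne_zero hnorm hχ (k := 12) (by norm_num) (by decide)
  funext τ
  have h1 : kumH χ τ = 0 := by rw [h0]; rfl
  rw [kumH_apply] at h1
  rcases mul_eq_zero.mp h1 with h | h
  · exact h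
  · exact absurd (inv_eq_zero.mp h) (ModularForm.discriminant_ne_zero τ)

/-- The `p`-th power of the Kummer function of a character of order dividing `p` is a good
function for `Γ₀(N)`: holomorphic, `Γ₀(N)`-invariant, all translates of exponential growth. -/
theorem kumH_pow_mem_goodRing {N : ℕ} {χ : Gamma0 N →* ℂˣ} (hχ : TrivOnUnip χ) {p : ℕ}
    (hp : p ≠ 0) (hχp : ∀ γ, χ γ ^ p = 1) : kumH χ ^ p ∈ goodRing N := by
  have hnorm : ∀ γ, ‖(χ γ : ℂ)‖ = 1 := fun γ => norm_eq_one_of_pow_eq_one' hp (hχp γ)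
  refine ⟨(kumH_mdifferentiable hnorm).pow p, fun γ hγ τ => ?_, fun g => ?_⟩
  · have h := kumH_smul hχ ⟨γ, hγ⟩ τ
    simp only [Pi.pow_apply]
    change kumH χ (γ • τ) = _ at h
    rw [h, mul_pow]
    have h1 : (χ ⟨γ, hγ⟩ : ℂ) ^ p = 1 := by
      have := congrArg (fun x : ℂˣ => (x : ℂ)) (hχp ⟨γ, hγ⟩)
      simpa using this
    rw [h1, one_mul]
  · have h := kumH_expGrowth (χ := χ) hnorm g
    have hpow : ∀ n : ℕ, ExpGrowth (fun τ => kumH χ (g • τ) ^ n) := by
      intro n
      induction n with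
      | zero =>
        simp only [pow_zero]
        exact Fermat.Agent.S24.H648.expGrowth_const 1
      | succ n ih =>
        have h2 := ih.mul h
        have h3 : ((fun τ => kumH χ (g • τ) ^ n) * fun τ => kumH χ (g • τ))
            = fun τ => kumH χ (g • τ) ^ (n + 1) := by
          funext τ
          simp only [Pi.mul_apply, pow_succ]
        rwa [h3] at h2
    exact hpow p

end

end Fermat.Agent.S29.H509

end
-- ===== PACK-END S29/H509/KummerFun.lean

-- ===== PACK-BEGIN S29/H509/KummerHom.lean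
section


/-!
# The Kummer function of an additive character `Γ₀(N) → ℤ/p` (helper509, S29 piece K1-full)

`chiOfHom c γ = exp (2πi c(γ) / p)` turns `c : Additive Γ →+ ZMod p` into a character
`Γ →* ℂˣ`; `exists_kummerFun_of_hom` is the packaged statement for consumers (DICT / DESC / NORM).
-/

set_option autoImplicit false

namespace Fermat.Agent.S29.H509

open ModularForm UpperHalfPlane Matrix CongruenceSubgroup EisensteinSeries Filter Topology
open scoped MatrixGroups Manifold Real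

open Fermat.Agent.S24.H648 (goodRing ExpGrowth)

noncomputable section

variable {Γ : Subgroup SL(2, ℤ)} {p : ℕ} [NeZero p]

/-- The character `γ ↦ exp (2πi c(γ) / p)` attached to `c : Γ → ℤ/p`. -/
def chiOfHom (c : Additive Γ →+ ZMod p) : Γ →* ℂˣ :=
  MonoidHom.toHomUnits
    { toFun := fun γ => ZMod.stdAddChar (N := p) (c (Additive.ofMul γ))
      map_one' := by simp
      map_mul' := fun a b => by
        rw [ofMul_mul, map_add, AddChar.map_add_eq_mul] }

@[simp] lemma chiOfHom_apply (c : Additive Γ →+ ZMod p) (γ : Γ) :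
    ((chiOfHom c γ : ℂˣ) : ℂ) = ZMod.stdAddChar (N := p) (c (Additive.ofMul γ)) := rfl

lemma chiOfHom_eq_one_iff (c : Additive Γ →+ ZMod p) (γ : Γ) :
    chiOfHom c γ = 1 ↔ c (Additive.ofMul γ) = 0 := by
  rw [← Units.val_inj, chiOfHom_apply, Units.val_one,
    ← (ZMod.stdAddChar (N := p)).map_zero_eq_one, ZMod.injective_stdAddChar.eq_iff]

lemma chiOfHom_pow (c : Additive Γ →+ ZMod p) (γ : Γ) : chiOfHom c γ ^ p = 1 := by
  rw [← Units.val_inj, Units.val_pow_eq_pow_val, chiOfHom_apply, Units.val_one,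
    ← AddChar.map_nsmul_eq_pow]
  simp

lemma chiOfHom_add (c c' : Additive Γ →+ ZMod p) (γ : Γ) :
    chiOfHom (c + c') γ = chiOfHom c γ * chiOfHom c' γ := by
  rw [← Units.val_inj, Units.val_mul, chiOfHom_apply, chiOfHom_apply, chiOfHom_apply,
    AddMonoidHom.add_apply, AddChar.map_add_eq_mul]

lemma chiOfHom_zero : chiOfHom (0 : Additive Γ →+ ZMod p) = 1 := by
  ext γ
  simp

lemma trivOnStabInfty_chiOfHom {c : Additive Γ →+ ZMod p}
    (hc : ∀ γ : Γ, (γ : SL(2, ℤ)) 1 0 = 0 → c (Additive.ofMul γ) = 0) :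
    TrivOnStabInfty (chiOfHom c) :=
  fun γ hγ => (chiOfHom_eq_one_iff c γ).mpr (hc γ hγ)

/-- An element of `SL(2, ℤ)` with lower left entry `0` has trace `±2`. -/
lemma trace_sq_of_lower_left_eq_zero (γ : SL(2, ℤ)) (h : γ 1 0 = 0) :
    (γ : Matrix (Fin 2) (Fin 2) ℤ).trace ^ 2 = 4 := by
  have hdet := γ.det_coe
  rw [Matrix.det_fin_two] at hdet
  have h' : (γ : Matrix (Fin 2) (Fin 2) ℤ) 1 0 = 0 := h
  rw [h', mul_zero, sub_zero] at hdet
  rw [Matrix.trace_fin_two]
  rcases Int.eq_one_or_neg_one_of_mul_eq_one' hdet with ⟨h1, h2⟩ | ⟨h1, h2⟩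
  · rw [h1, h2]; norm_num
  · rw [h1, h2]; norm_num

/-- **K1 (packaged).**  For an additive character `c : Γ₀(N) → ℤ/p` vanishing on the elements
fixing `∞` (e.g. on all elements with `trace ^ 2 = 4`), the Kummer function
`h = kumH (chiOfHom c)` is holomorphic, nonzero, transforms by
`h (γ • τ) = exp (2πi c(γ)/p) * h τ` under `Γ₀(N)`, all its `SL(2, ℤ)`-translates have at most
exponential growth, and `h ^ p` is a good function for `Γ₀(N)`. -/
theorem exists_kummerFun_of_hom (N : ℕ) (c : Additive (Gamma0 N) →+ ZMod p)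
    (hc : ∀ γ : Gamma0 N, (γ : SL(2, ℤ)) 1 0 = 0 → c (Additive.ofMul γ) = 0) :
    ∃ h : ℍ → ℂ, MDiff h ∧ h ≠ 0 ∧
      (∀ (γ : Gamma0 N) (τ : ℍ),
        h ((γ : SL(2, ℤ)) • τ) = ZMod.stdAddChar (N := p) (c (Additive.ofMul γ)) * h τ) ∧
      (∀ g : SL(2, ℤ), ExpGrowth (fun τ => h (g • τ))) ∧
      h ^ p ∈ goodRing N := by
  have hp : p ≠ 0 := NeZero.ne p
  have hstab := trivOnStabInfty_chiOfHom hc
  have hnorm : ∀ γ, ‖((chiOfHom c γ : ℂˣ) : ℂ)‖ = 1 :=
    fun γ => norm_eq_one_of_pow_eq_one' hp (chiOfHom_pow c γ)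
  refine ⟨kumH (chiOfHom c), kumH_mdifferentiable hnorm, kumH_ne_zero hnorm hstab,
    fun γ τ => ?_, kumH_expGrowth hnorm, kumH_pow_mem_goodRing hstab.trivOnUnip hp
      (chiOfHom_pow c)⟩
  rw [kumH_smul hstab.trivOnUnip, chiOfHom_apply]

end

end Fermat.Agent.S29.H509

end
-- ===== PACK-END S29/H509/KummerHom.lean

-- ===== PACK-BEGIN S29/H509/K1.lean
section



/-!
# S29 / M4b piece K1 (`exists_isTwisted`) in helper822's EXACT shape (helper509)

`U := kumH (chiOfHom c)`, i.e. `E^χ₁₂ / Δ` with `χ = ζ_p ^ c`.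
-/

set_option autoImplicit false

namespace Fermat.Agent.S29.H509

open ModularCurve AlgebraicCurve CongruenceSubgroup UpperHalfPlane
open scoped MatrixGroups Manifold

open Fermat.Agent.S24 Fermat.Agent.S29 Fermat.Agent.S29.M4b

noncomputable section

/-- The additive character `Additive Γ₀(N) →+ ZMod p` underlying a parabolic hom `c`. -/
def homOfParHom {N p : ℕ} {c : G0 N → ZMod p} (hc : IsParHom c) :
    Additive (Gamma0 N) →+ ZMod p where
  toFun γ := c (Additive.toMul γ)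
  map_zero' := by
    have h := hc.map_mul 1 1
    rw [mul_one] at h
    have : c 1 + 0 = c 1 + c 1 := by rw [add_zero]; exact h
    exact (add_left_cancel this).symm
  map_add' a b := hc.map_mul _ _

@[simp] lemma homOfParHom_apply {N p : ℕ} {c : G0 N → ZMod p} (hc : IsParHom c)
    (γ : Gamma0 N) : homOfParHom hc (Additive.ofMul γ) = c γ := rfl

lemma stdAddChar_eq_zetaP_pow (p : ℕ) [NeZero p] (a : ZMod p) :
    ZMod.stdAddChar (N := p) a = zetaP p ^ a.val := by
  have h1 : ((a.val : ℤ) : ZMod p) = a := by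
    rw [Int.cast_natCast, ZMod.natCast_zmod_val]
  conv_lhs => rw [← h1]
  rw [ZMod.stdAddChar_coe, zetaP, ← Complex.exp_nat_mul]
  congr 1
  push_cast
  ring

/-- **PIECE K1** of `M4b/Skeleton.lean`, exact type. -/
theorem exists_isTwisted (N : ℕ) [NeZero N] (p : ℕ) [NeZero p] {c : G0 N → ZMod p}
    (hc : IsParHom c) : ∃ U : ℍ → ℂ, IsTwisted N p c U := by
  have hstab : ∀ γ : Gamma0 N, (γ : SL(2, ℤ)) 1 0 = 0 →
      homOfParHom hc (Additive.ofMul γ) = 0 := by
    intro γ hγ
    rw [homOfParHom_apply]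
    apply hc.parabolic
    have hdet := (γ : SL(2, ℤ)).det_coe
    rw [Matrix.det_fin_two] at hdet
    have h' : ((γ : SL(2, ℤ)) : Matrix (Fin 2) (Fin 2) ℤ) 1 0 = 0 := hγ
    rw [h', mul_zero, sub_zero] at hdet
    have htr : (G0.mat γ).trace = ((γ : SL(2, ℤ)) : Matrix (Fin 2) (Fin 2) ℤ) 0 0
        + ((γ : SL(2, ℤ)) : Matrix (Fin 2) (Fin 2) ℤ) 1 1 := by
      rw [G0.mat, Matrix.trace_fin_two]
    rw [htr]
    rcases Int.eq_one_or_neg_one_of_mul_eq_one' hdet with ⟨h1, h2⟩ | ⟨h1, h2⟩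
    · left; rw [h1, h2]; norm_num
    · right; rw [h1, h2]; norm_num
  obtain ⟨h, hmd, hne, hchar, -, hgood⟩ := exists_kummerFun_of_hom N (homOfParHom hc) hstab
  refine ⟨h, hmd, ?_, ?_, hgood⟩
  · by_contra hall
    push_neg at hall
    exact hne (funext hall)
  · intro γ τ
    rw [hchar γ τ, homOfParHom_apply, stdAddChar_eq_zetaP_pow]

end

end Fermat.Agent.S29.H509

end
-- ===== PACK-END S29/H509/K1.lean

-- ===== PACK-BEGIN S24/Alg/Sub.lean
section






/-!
# S24 / ALG — sub-interface (statements needed by the global assembly in `Alg.lean`)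

Adapters (helper984) from the FF layer (helper804), the KD layer (helper84) and the local
theorem (helper117) to the shapes used by the assembly.
-/

set_option autoImplicit false

noncomputable section

open AlgebraicCurve KaehlerDifferential

namespace Fermat.Agent.S24

variable {K F : Type*} [Field K] [Field F] [Algebra K F] [IsAlgClosed K] [CharZero K]
variable {C : Type*} [Field C] [CharZero C] {X : Type*} [Finite X]

/-- The places of `F/K` at which `t` vanishes. -/
def zeroPlaces (K : Type*) {F : Type*} [Field K] [Field F] [Algebra K F] (t : F) :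
    Set (Place K F) := {v | 0 < v.ord t}

/-! ### FF (function-field generalities) -/

omit [CharZero K] in
/-- FF2: all places have degree one. -/
theorem sub_deg_eq_one (j : F) (hj : Transcendental K j)
    [FiniteDimensional ↥(IntermediateField.adjoin K {j}) F] (v : Place K F) : v.deg = 1 :=
  FF.deg_eq_one v hj

/-- FF3: a principal divisor has degree zero. -/
theorem sub_degree_principal (j : F) (hj : Transcendental K j)
    [FiniteDimensional ↥(IntermediateField.adjoin K {j}) F] (f : F) (hf : f ≠ 0)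
    (D : Divisor K F) (hD : ∀ v : Place K F, D v = v.ord f) : Divisor.degree D = 0 :=
  degree_principal j hj f hf D hD

omit [CharZero K] in
/-- FF4: every place lies over a point of `ℙ¹_j`. -/
theorem sub_exists_point (j : F)
    [FiniteDimensional ↥(IntermediateField.adjoin K {j}) F] (v : Place K F) :
    v.ord j < 0 ∨ ∃ a : K, 0 < v.ord (j - algebraMap K F a) := by
  rcases lt_or_ge (v.ord j) 0 with h | h
  · exact Or.inl h
  · haveI : Algebra.IsAlgebraic ↥(IntermediateField.adjoin K {j}) F :=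
      Algebra.IsAlgebraic.of_finite _ _
    exact Or.inr (FF.exists_ord_sub_pos v j h)

/-! ### KD (Kähler differentials) -/

omit [IsAlgClosed K] in
/-- KD1: `Ω[F/K]` is spanned by `D j`. -/
theorem sub_exists_smul_D (j : F)
    [FiniteDimensional ↥(IntermediateField.adjoin K {j}) F] (ω : Ω[F⁄K]) :
    ∃ f : F, ω = f • D K F j := by
  haveI : Algebra.IsAlgebraic ↥(IntermediateField.adjoin K {j}) F :=
    Algebra.IsAlgebraic.of_finite _ _
  have h : ω ∈ Submodule.span F {D K F j} := by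
    rw [H84.span_D_eq_top j]; exact Submodule.mem_top
  obtain ⟨f, hf⟩ := Submodule.mem_span_singleton.mp h
  exact ⟨f, hf.symm⟩

/-- KD2: `ordDifferential` is additive in the coefficient. -/
theorem sub_ordDifferential_smul (j : F)
    [FiniteDimensional ↥(IntermediateField.adjoin K {j}) F] (v : Place K F)
    (f : F) (hf : f ≠ 0) (ω : Ω[F⁄K]) (hω : ω ≠ 0) :
    v.ordDifferential (f • ω) = v.ord f + v.ordDifferential ω := by
  haveI : v.DCoordGenerates := H84.place_dCoordGenerates j v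
  haveI : Nontrivial Ω[F⁄K] := ⟨⟨ω, 0, hω⟩⟩
  refine v.ordDifferential_smul hf ?_
  intro h0
  apply hω
  rw [← v.differentialCoeff_smul_dCoord ω, h0, zero_smul]

/-! ### LT (local theorem) -/

/-- LT: the places over the zero of `t` are finite in number, in bijection with the orbits of
`perm`, and the ramification indices add up to the degree. -/
theorem sub_local_count (t : F)
    [FiniteDimensional ↥(IntermediateField.adjoin K {t}) F]
    (hrank : Module.finrank ↥(IntermediateField.adjoin K {t}) F = Nat.card X)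
    (d : LocalData K F C X t) :
    (zeroPlaces K t).Finite ∧ Nat.card ↥(zeroPlaces K t) = numOrbits d.perm ∧
      ∑ᶠ v ∈ zeroPlaces K t, v.ord t = (Nat.card X : ℤ) := by
  classical
  have hfin : (zeroPlaces K t).Finite :=
    H117.finite_places_over d (IntermediateField.adjoin K {t}) le_rfl hrank
  have hs : ∀ v : Place K F, v ∈ hfin.toFinset ↔ 0 < v.ord t := fun v => by
    simp [zeroPlaces]
  have ht : Transcendental K t := by
    have hpos : 0 < Nat.card X := hrank ▸ Module.finrank_pos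
    obtain ⟨x⟩ := (Nat.card_pos_iff.mp hpos).1
    refine FF.transcendental_of_not_mem_range ?_
    rintro ⟨c, hc⟩
    have h1 := d.σ_t_order x
    have h3 : d.σ x t = HahnSeries.C (d.ι c) := by rw [← d.σ_const x c, hc]
    rw [h3] at h1
    have h2 : (HahnSeries.C (d.ι c) : LaurentSeries C).order = 0 := by
      rw [HahnSeries.C_apply]
      by_cases h0 : d.ι c = 0
      · simp [h0]
      · exact HahnSeries.order_single h0
    rw [h2] at h1
    have := d.m_pos
    omega
  have hle : (Nat.card X : ℤ) ≤ ∑ v ∈ hfin.toFinset, v.ord t := by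
    rw [← hrank]
    exact fundamental_le t ht hfin.toFinset hs
  obtain ⟨h1, -, h3⟩ :=
    H117.localThm d (IntermediateField.adjoin K {t}) le_rfl hrank hfin.toFinset hs hle
  refine ⟨hfin, ?_, ?_⟩
  · rw [Nat.card_coe_set_eq, Set.ncard_eq_toFinset_card _ hfin]
    exact h1
  · rw [finsum_mem_eq_finite_toFinset_sum _ hfin]
    exact h3

/-- LT + KD4: order of `dt` at a zero of `t`. -/
theorem sub_ordDifferential_D (t : F)
    [FiniteDimensional ↥(IntermediateField.adjoin K {t}) F]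
    (hrank : Module.finrank ↥(IntermediateField.adjoin K {t}) F = Nat.card X)
    (d : LocalData K F C X t) (v : Place K F) (hv : 0 < v.ord t) :
    v.ordDifferential (D K F t) = v.ord t - 1 := by
  obtain ⟨x, rfl⟩ :=
    H117.exists_placeOf_eq d (IntermediateField.adjoin K {t}) le_rfl hrank v hv
  haveI : (H117.placeOf d x).DCoordGenerates := H84.place_dCoordGenerates t _
  exact H84.place_ordDifferential_D_of_ord_ne_zero (H117.placeOf d x) (d.σ x) d.ι (d.σ_const x)
    (H117.mult d x) (H117.mult_pos d x) (fun f _ => H117.order_eq d x f) t hv.ne'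

end Fermat.Agent.S24

end
end
-- ===== PACK-END S24/Alg/Sub.lean

-- ===== PACK-BEGIN S24/Alg.lean
section





/-!
# S24 — algebraic side (Riemann–Hurwitz for `F / K(j)` from local embedding data)

Global assembly (helper984): the two frozen interface theorems
`exists_differential_ne_zero` and `degree_eq_of_localData`, proved from the sub-interface
in `Alg/Sub.lean`.
-/

set_option autoImplicit false

noncomputable section

open AlgebraicCurve KaehlerDifferential

namespace Fermat.Agent.S24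

variable {K F : Type*} [Field K] [Field F] [Algebra K F] [IsAlgClosed K] [CharZero K]
variable {C : Type*} [Field C] [CharZero C] {X : Type*} [Finite X]

omit [CharZero K] in
theorem exists_algebraMap_eq_of_isAlgebraic {x : F} (hx : IsAlgebraic K x) :
    ∃ c : K, algebraMap K F c = x := by
  have hint : IsIntegral K x := hx.isIntegral
  refine ⟨-(minpoly K x).coeff 0, ?_⟩
  have hq : (minpoly K x).leadingCoeff = 1 := minpoly.monic hint
  have h : (minpoly K x).degree = 1 :=
    IsAlgClosed.degree_eq_one_of_irreducible K (minpoly.irreducible hint)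
  have : Polynomial.aeval x (minpoly K x) = 0 := minpoly.aeval K x
  rw [Polynomial.eq_X_add_C_of_degree_eq_one h, hq, Polynomial.C_1, one_mul,
    Polynomial.aeval_add, Polynomial.aeval_X, Polynomial.aeval_C,
    add_eq_zero_iff_eq_neg] at this
  exact (map_neg (algebraMap K F) ((minpoly K x).coeff 0)).symm ▸ this.symm

omit [IsAlgClosed K] [CharZero K] [CharZero C] [Finite X] in
theorem not_mem_range_of_localData {t : F} [Nonempty X] (d : LocalData K F C X t) (c : K) :
    t ≠ algebraMap K F c := by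
  intro h
  obtain ⟨x⟩ := ‹Nonempty X›
  have h1 := d.σ_t_order x
  have h3 : d.σ x t = HahnSeries.C (d.ι c) := (congrArg (d.σ x) h).trans (d.σ_const x c)
  rw [h3] at h1
  have h2 : (HahnSeries.C (d.ι c) : LaurentSeries C).order = 0 := by
    rw [HahnSeries.C_apply]
    by_cases hc : d.ι c = 0
    · simp [hc]
    · exact HahnSeries.order_single hc
  rw [h2] at h1
  have := d.m_pos
  omega

omit [CharZero K] [CharZero C] [Finite X] in
theorem transcendental_of_localData_inv (j : F) [Nonempty X]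
    (dataInf : LocalData K F C X j⁻¹) : Transcendental K j := by
  intro halg
  obtain ⟨c, hc⟩ := exists_algebraMap_eq_of_isAlgebraic halg
  refine not_mem_range_of_localData dataInf c⁻¹ ?_
  rw [map_inv₀, hc]

omit [Finite X] in
theorem numOrbits_one : numOrbits (1 : Equiv.Perm X) = Nat.card X := by
  unfold numOrbits
  refine Nat.card_congr (Equiv.ofBijective (Quotient.mk'' (s₁ := MulAction.orbitRel _ X)) ?_).symm
  constructor
  · intro x y hxy
    have h := Quotient.exact' hxy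
    change x ∈ MulAction.orbit _ y at h
    obtain ⟨⟨g, hg⟩, hgx⟩ := h
    rw [Subgroup.zpowers_one_eq_bot, Subgroup.mem_bot] at hg
    subst hg
    simpa using hgx.symm
  · exact Quotient.mk''_surjective

end Fermat.Agent.S24

namespace Fermat.Agent.S24

variable {K F : Type*} [Field K] [Field F] [Algebra K F] [IsAlgClosed K] [CharZero K]
variable {C : Type*} [Field C] [CharZero C] {X : Type*} [Finite X]

omit [IsAlgClosed K] [CharZero K] [Finite X] in
/-- `dt ≠ 0` if there is local data at `t` (helper240). -/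
theorem D_ne_zero_of_localData {t : F} [Nonempty X] (d : LocalData K F C X t) :
    D K F t ≠ 0 := by
  obtain ⟨x⟩ := ‹Nonempty X›
  apply H240.exists_embDerivation (d.σ x) d.ι (d.σ_const x)
  apply H240.lsD_ne_zero_of_order_ne_zero
  rw [d.σ_t_order x]
  exact_mod_cast d.m_pos.ne'

omit [IsAlgClosed K] [CharZero K] [Finite X] in
/-- If `F` admits local data at `j⁻¹`, then `Ω[F/K] ≠ 0` (helper240). -/
theorem exists_differential_ne_zero (j : F) [Nonempty X]
    (dataInf : LocalData K F C X j⁻¹) :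
    ∃ ω : Ω[F⁄K], ω ≠ 0 :=
  ⟨D K F j⁻¹, D_ne_zero_of_localData dataInf⟩

section LocalConsequences

variable (t : F) [FiniteDimensional ↥(IntermediateField.adjoin K {t}) F]
  (hrank : Module.finrank ↥(IntermediateField.adjoin K {t}) F = Nat.card X)
  (d : LocalData K F C X t)

include hrank d in
theorem zeroPlaces_finite : (zeroPlaces K t).Finite := (sub_local_count t hrank d).1

include hrank in
theorem card_zeroPlaces_toFinset :
    ((zeroPlaces_finite t hrank d).toFinset.card : ℤ) = numOrbits d.perm := by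
  have h := (sub_local_count t hrank d).2.1
  rw [Nat.card_coe_set_eq, Set.ncard_eq_toFinset_card _ (zeroPlaces_finite t hrank d)] at h
  exact_mod_cast h

include hrank in
theorem sum_ord_zeroPlaces :
    ∑ v ∈ (zeroPlaces_finite t hrank d).toFinset, v.ord t = (Nat.card X : ℤ) := by
  have h := (sub_local_count t hrank d).2.2
  rwa [finsum_mem_eq_finite_toFinset_sum _ (zeroPlaces_finite t hrank d)] at h

include hrank in
theorem sum_ord_sub_one_zeroPlaces :
    ∑ v ∈ (zeroPlaces_finite t hrank d).toFinset, (v.ord t - 1)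
      = (Nat.card X : ℤ) - numOrbits d.perm := by
  rw [Finset.sum_sub_distrib, sum_ord_zeroPlaces t hrank d, Finset.sum_const,
    ← card_zeroPlaces_toFinset t hrank d]
  simp

include hrank in
theorem sum_neg_ord_sub_one_zeroPlaces :
    ∑ v ∈ (zeroPlaces_finite t hrank d).toFinset, (-(v.ord t) - 1)
      = -(Nat.card X : ℤ) - numOrbits d.perm := by
  rw [Finset.sum_sub_distrib, Finset.sum_neg_distrib, sum_ord_zeroPlaces t hrank d,
    Finset.sum_const, ← card_zeroPlaces_toFinset t hrank d]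
  simp

include hrank in
/-- If the monodromy is trivial, `t` is unramified: every zero of `t` is simple. -/
theorem ord_eq_one_of_perm_eq_one (hperm : d.perm = 1) (v : Place K F) (hv : 0 < v.ord t) :
    v.ord t = 1 := by
  have hsum := sum_ord_sub_one_zeroPlaces t hrank d
  rw [hperm, numOrbits_one, sub_self] at hsum
  have hnonneg : ∀ w ∈ (zeroPlaces_finite t hrank d).toFinset, 0 ≤ w.ord t - 1 := by
    intro w hw
    have : 0 < w.ord t := by simpa [zeroPlaces] using hw
    omega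
  have hz := (Finset.sum_eq_zero_iff_of_nonneg hnonneg).mp hsum v
    (by simpa [zeroPlaces] using hv)
  omega

end LocalConsequences

section Global

variable (j : F) [FiniteDimensional ↥(IntermediateField.adjoin K {j}) F]
  (hrank : Module.finrank ↥(IntermediateField.adjoin K {j}) F = Nat.card X)

include hrank in
/-- Local package at a finite point, with all instance transport done. -/
theorem local_fin (a : K) (d : LocalData K F C X (j - algebraMap K F a)) :
    ∃ Z : Finset (Place K F), (∀ v : Place K F, v ∈ Z ↔ 0 < v.ord (j - algebraMap K F a)) ∧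
      ∑ v ∈ Z, (v.ord (j - algebraMap K F a) - 1) = (Nat.card X : ℤ) - numOrbits d.perm ∧
      (∀ v : Place K F, 0 < v.ord (j - algebraMap K F a) →
        v.ordDifferential (D K F (j - algebraMap K F a)) = v.ord (j - algebraMap K F a) - 1) ∧
      (d.perm = 1 → ∀ v : Place K F, 0 < v.ord (j - algebraMap K F a) →
        v.ord (j - algebraMap K F a) = 1) := by
  obtain ⟨hfd, hfr⟩ := finiteDimensional_and_finrank_of_eq (adjoin_sub_algebraMap K j a)
  have hr := hfr.trans hrank
  refine ⟨(zeroPlaces_finite _ hr d).toFinset, fun v => by simp [zeroPlaces],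
    sum_ord_sub_one_zeroPlaces _ hr d, fun v hv => sub_ordDifferential_D _ hr d v hv,
    fun h v hv => ord_eq_one_of_perm_eq_one _ hr d h v hv⟩

include hrank in
/-- Local package at infinity, with all instance transport done. -/
theorem local_inf (d : LocalData K F C X j⁻¹) :
    ∃ Z : Finset (Place K F), (∀ v : Place K F, v ∈ Z ↔ 0 < v.ord j⁻¹) ∧
      ∑ v ∈ Z, (-(v.ord j⁻¹) - 1) = -(Nat.card X : ℤ) - numOrbits d.perm ∧
      (∀ v : Place K F, 0 < v.ord j⁻¹ → v.ordDifferential (D K F j⁻¹) = v.ord j⁻¹ - 1) := by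
  obtain ⟨hfd, hfr⟩ := finiteDimensional_and_finrank_of_eq (adjoin_inv K j)
  have hr := hfr.trans hrank
  exact ⟨(zeroPlaces_finite _ hr d).toFinset, fun v => by simp [zeroPlaces],
    sum_neg_ord_sub_one_zeroPlaces _ hr d, fun v hv => sub_ordDifferential_D _ hr d v hv⟩

omit [IsAlgClosed K] [CharZero K] in
theorem degree_eq_sum_of_deg_one (hdeg : ∀ v : Place K F, v.deg = 1) (E : Divisor K F)
    (T : Finset (Place K F)) (hT : E.support ⊆ T) :
    Divisor.degree E = ∑ v ∈ T, E v := by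
  have h1 : Divisor.degree E = E.sum fun v n => n * (v.deg : ℤ) := by
    simp [Divisor.degree, Finsupp.liftAddHom_apply]
  rw [h1, Finsupp.sum_of_support_subset E hT _ (fun v _ => by simp)]
  refine Finset.sum_congr rfl fun v _ => ?_
  rw [hdeg v]; simp

include hrank in
/-- **Riemann–Hurwitz from embeddings.**  Degree of the divisor of any nonzero differential. -/
theorem degree_eq_of_localData
    (dataFin : ∀ a : K, LocalData K F C X (j - algebraMap K F a))
    (dataInf : LocalData K F C X j⁻¹)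
    (S₀ : Finset K) (hgen : ∀ a : K, a ∉ S₀ → (dataFin a).perm = 1)
    (ω : Ω[F⁄K]) (hω : ω ≠ 0) (E : Divisor K F)
    (hE : ∀ v : Place K F, E v = v.ordDifferential ω) :
    Divisor.degree E =
      (∑ a ∈ S₀, ((Nat.card X : ℤ) - numOrbits (dataFin a).perm))
        - Nat.card X - numOrbits dataInf.perm := by
  classical
  have hpos : 0 < Nat.card X := hrank ▸ Module.finrank_pos
  have hne : Nonempty X := (Nat.card_pos_iff.mp hpos).1
  have hj : Transcendental K j := transcendental_of_localData_inv j dataInf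
  have hj0 : j ≠ 0 := fun h => hj (h ▸ isAlgebraic_zero)
  have hdeg : ∀ v : Place K F, v.deg = 1 := sub_deg_eq_one j hj
  -- `ω = f • dj`
  obtain ⟨f, rfl⟩ := sub_exists_smul_D j ω
  have hf : f ≠ 0 := by rintro rfl; simp at hω
  have hDinv : D K F j = (-(j ^ 2)) • D K F j⁻¹ := by
    have h := Derivation.leibniz_inv (D K F) (j⁻¹)
    rw [inv_inv] at h
    exact h
  have hDjinv : D K F j⁻¹ ≠ 0 := D_ne_zero_of_localData dataInf
  have hc : (-(j ^ 2)) ≠ 0 := neg_ne_zero.mpr (pow_ne_zero 2 hj0)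
  have hDj : D K F j ≠ 0 := by
    rw [hDinv]
    exact smul_ne_zero hc hDjinv
  -- local packages
  choose Zf hZf_mem hZf_sum hZf_ord hZf_unr using fun a => local_fin j hrank a (dataFin a)
  obtain ⟨Zi, hZi_mem, hZi_sum, hZi_ord⟩ := local_inf j hrank dataInf
  -- the ramification function
  set R : Place K F → ℤ := fun v => v.ordDifferential (D K F j) with hR
  have hDv : ∀ v : Place K F, E v = v.ord f + R v := fun v => by
    rw [hE, sub_ordDifferential_smul j v f hf _ hDj]
  have hRfin : ∀ (a : K) (v : Place K F), 0 < v.ord (j - algebraMap K F a) →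
      R v = v.ord (j - algebraMap K F a) - 1 := by
    intro a v hv
    have : D K F (j - algebraMap K F a) = D K F j := by simp
    rw [← hZf_ord a v hv, this]
  have hRinf : ∀ v : Place K F, 0 < v.ord j⁻¹ → R v = -(v.ord j⁻¹) - 1 := by
    intro v hv
    show v.ordDifferential (D K F j) = _
    rw [hDinv, sub_ordDifferential_smul j v _ hc _ hDjinv, hZi_ord v hv, ord_neg, pow_two,
      v.ord_mul hj0 hj0]
    have := v.ord_inv j
    omega
  -- the finite set of special places
  set T : Finset (Place K F) := S₀.biUnion Zf ∪ Zi with hT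
  have hRT : ∀ v : Place K F, R v ≠ 0 → v ∈ T := by
    intro v hv
    rcases sub_exists_point j v with h | ⟨a, ha⟩
    · refine Finset.mem_union_right _ ((hZi_mem v).mpr ?_)
      have := v.ord_inv j
      omega
    · by_cases haS : a ∈ S₀
      · exact Finset.mem_union_left _ (Finset.mem_biUnion.mpr ⟨a, haS, (hZf_mem a v).mpr ha⟩)
      · exfalso
        apply hv
        rw [hRfin a v ha, hZf_unr a (hgen a haS) v ha]
        simp
  let Rfs : Divisor K F := Finsupp.onFinset T R hRT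
  have hRfs : ∀ v : Place K F, Rfs v = R v := fun v => rfl
  have hprinc : Divisor.degree (E - Rfs) = 0 :=
    sub_degree_principal j hj f hf (E - Rfs) fun v => by
      rw [Finsupp.sub_apply, hRfs, hDv]; ring
  have hsplit : Divisor.degree E = Divisor.degree Rfs := by
    have := map_sub (Divisor.degree (K := K) (F := F)) E Rfs
    rw [hprinc] at this
    linarith
  rw [hsplit, degree_eq_sum_of_deg_one hdeg Rfs T Finsupp.support_onFinset_subset]
  simp only [hRfs]
  -- split the sum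
  have hdisj1 : Disjoint (S₀.biUnion Zf) Zi := by
    rw [Finset.disjoint_left]
    intro v hv hvi
    obtain ⟨a, -, hva⟩ := Finset.mem_biUnion.mp hv
    exact not_pos_ord_sub_of_pos_ord_inv v j a ((hZi_mem v).mp hvi) ((hZf_mem a v).mp hva)
  have hdisj2 : (S₀ : Set K).PairwiseDisjoint Zf := by
    intro a _ b _ hab
    rw [Function.onFun, Finset.disjoint_left]
    intro v hva hvb
    exact hab (point_unique v j ((hZf_mem a v).mp hva) ((hZf_mem b v).mp hvb))
  rw [hT, Finset.sum_union hdisj1, Finset.sum_biUnion hdisj2]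
  have h1 : ∀ a ∈ S₀, ∑ v ∈ Zf a, R v = (Nat.card X : ℤ) - numOrbits (dataFin a).perm := by
    intro a _
    rw [← hZf_sum a]
    exact Finset.sum_congr rfl fun v hv => hRfin a v ((hZf_mem a v).mp hv)
  have h2 : ∑ v ∈ Zi, R v = -(Nat.card X : ℤ) - numOrbits dataInf.perm := by
    rw [← hZi_sum]
    exact Finset.sum_congr rfl fun v hv => hRinf v ((hZi_mem v).mp hv)
  rw [Finset.sum_congr rfl h1, h2]
  ring

end Global

end Fermat.Agent.S24

end
end
-- ===== PACK-END S24/Alg.lean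

-- ===== PACK-BEGIN S29/H389/Dict.lean
section





/-!
# S29 / layer M / BR — piece DICT (helper389)

Places dictionary for the function field `FF N = ℚ̄(j(q^d) : d ∣ N)` of `X₀(N)`, on top of the
landed S24 library (`H997.analyticCore`, `H117` local theorem).

Main result `dvd_ord_of_analytic_pow` : let `r, t ∈ R_N = ℚ̄[j(q^d)]`, and let `h₁, h₂` be
functions in the S24 ring `Hol` with `e(r) · h₂ ^ p = c · h₁ ^ p · e(t)` (`e` the bridge
`R_N → Hol`), such that the quotient `h₁ / h₂` is invariant under every `δ ∈ Γ₀(N)` which has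
finite order or trace `2`.  Then `p ∣ ord_v (r / t)` for EVERY place `v` of `FF N`.

(Intended use: `h₁/h₂ = h·u` with `h` a twisted Eisenstein quotient of character `χ`, `χ` trivial
on elliptic and parabolic elements, and `u` a modular function; `r / t` the Kummer generator.)
-/

set_option autoImplicit false
set_option linter.style.haveILetI false

noncomputable section

open AlgebraicCurve HahnSeries ModularCurve
open scoped MatrixGroups

namespace Fermat.Agent.S29.H389

open Fermat.Agent.S24 Fermat.Agent.S24.H997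

variable {N : ℕ} [NeZero N]

/-- Iterating the rotation data: precomposition with `ε ^ n`. -/
theorem rot_iter (B : HolBase N) (X : Expansion B) (ε : SL(2, ℤ)) (R : RotData B X ε)
    (n : ℕ) (h : B.Hol) :
    (X.E (B.compH (ε ^ n) h)).order = (X.E h).order ∧
      (X.E (B.compH (ε ^ n) h)).leadingCoeff
        = (R.ζ ^ (X.E h).order) ^ n * (X.E h).leadingCoeff := by
  induction n with
  | zero => simp [B.compH_one]
  | succ n ih =>
    have hstep : B.compH (ε ^ (n + 1)) h = B.compH ε (B.compH (ε ^ n) h) := by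
      rw [pow_succ, B.compH_mul]
    have hr := R.rot (B.compH (ε ^ n) h)
    rw [hstep]
    refine ⟨by rw [hr.1, ih.1], ?_⟩
    rw [hr.2, ih.1, ih.2, pow_succ]
    ring


/-! ### Small facts on Laurent series over `ℂ` -/

theorem ls_order_mul {a b : LaurentSeries ℂ} (ha : a ≠ 0) (hb : b ≠ 0) :
    (a * b).order = a.order + b.order :=
  order_mul_of_ne_zero
    (mul_ne_zero (leadingCoeff_ne_zero.mpr ha) (leadingCoeff_ne_zero.mpr hb))

theorem ls_order_pow {a : LaurentSeries ℂ} (ha : a ≠ 0) (n : ℕ) :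
    (a ^ n).order = n * a.order := by
  induction n with
  | zero => simp
  | succ n ih =>
    rw [pow_succ, ls_order_mul (pow_ne_zero n ha) ha, ih]
    push_cast
    ring

theorem ls_order_C {c : ℂ} : (HahnSeries.C c : LaurentSeries ℂ).order = 0 := order_C

/-! ### "Nice" elements: finite order or trace `2` -/

/-- An element of `SL(2,ℤ)` of finite order, or of trace `2`. -/
def Nice (δ : SL(2, ℤ)) : Prop :=
  IsOfFinOrder δ ∨ (δ : Matrix (Fin 2) (Fin 2) ℤ).trace = 2

theorem Nice.conj {δ : SL(2, ℤ)} (h : Nice δ) (g : SL(2, ℤ)) : Nice (g⁻¹ * δ * g) := by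
  rcases h with h | h
  · left
    rw [isOfFinOrder_iff_pow_eq_one] at h ⊢
    obtain ⟨n, hn, hδ⟩ := h
    refine ⟨n, hn, ?_⟩
    have : (g⁻¹ * δ * g) ^ n = g⁻¹ * δ ^ n * g := by
      have := conj_pow (a := g⁻¹) (b := δ) (i := n)
      simpa using this
    rw [this, hδ]
    simp
  · right
    have h1 : ((g⁻¹ * δ * g : SL(2, ℤ)) : Matrix (Fin 2) (Fin 2) ℤ)
        = (g⁻¹ : SL(2, ℤ)).1 * δ.1 * g.1 := by
      simp
    rw [h1, Matrix.trace_mul_comm, ← mul_assoc]
    have h2 : g.1 * (g⁻¹ : SL(2, ℤ)).1 = 1 := by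
      rw [← Matrix.SpecialLinearGroup.coe_mul, mul_inv_cancel,
        Matrix.SpecialLinearGroup.coe_one]
    rw [h2, one_mul]
    exact h

/-! ### The local statement -/

/-- **DICT, local form.**  For the local data built from an expansion with rotation data,
an analytic `p`-th power relation whose root is invariant under nice elements of `Γ₀(N)`
forces `p ∣ ord_v` at every place over `t = 0`. -/
theorem dvd_ord_mkLocalData (B : HolBase N) (X : Expansion B) (ε : SL(2, ℤ))
    (R : RotData B X ε) (t : FF N) (u : LaurentSeries ℂ)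
    (ht : ∀ g : SL(2, ℤ), B.sigmaG X g t = u) (hu : u.order = (R.m : ℤ))
    [FiniteDimensional ↥(IntermediateField.adjoin Kbar {t}) (FF N)]
    (hrank : Module.finrank ↥(IntermediateField.adjoin Kbar {t}) (FF N) = Nat.card (XX N))
    (hε : ∀ n : ℕ, Nice (ε ^ n))
    (p : ℕ) (r s : RN N) (hr : r ≠ 0) (hs : s ≠ 0) (h₁ h₂ : B.Hol) (hh₁ : h₁ ≠ 0)
    (hh₂ : h₂ ≠ 0) (c : ℂ) (hc : c ≠ 0)
    (hrel : B.bridge r * h₂ ^ p = B.constH c * h₁ ^ p * B.bridge s)
    (hinv : ∀ δ : SL(2, ℤ), δ ∈ CongruenceSubgroup.Gamma0 N → Nice δ →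
      B.compH δ h₁ * h₂ = h₁ * B.compH δ h₂)
    (v : Place Kbar (FF N)) (hv : 0 < v.ord t) :
    (p : ℤ) ∣ v.ord (inclRN N r / inclRN N s) := by
  classical
  set L := B.mkLocalData X ε R t u ht hu with hL
  obtain ⟨x, hx⟩ :=
    H117.exists_placeOf_eq L (IntermediateField.adjoin Kbar {t}) le_rfl hrank v hv
  obtain ⟨g, rfl⟩ := QuotientGroup.mk_surjective x
  have hσ : L.σ (g : XX N) = B.sigmaG X g := B.sigmaX_mk X g
  -- translated functions
  set h₁' := B.compH g⁻¹ h₁ with hh₁'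
  set h₂' := B.compH g⁻¹ h₂ with hh₂'
  have hE₁ : X.E h₁' ≠ 0 := by
    intro h0
    apply hh₁
    apply B.compH_injective g⁻¹
    apply X.inj
    rw [h0, map_zero, map_zero]
  have hE₂ : X.E h₂' ≠ 0 := by
    intro h0
    apply hh₂
    apply B.compH_injective g⁻¹
    apply X.inj
    rw [h0, map_zero, map_zero]
  set k₁ := (X.E h₁').order with hk₁
  set k₂ := (X.E h₂').order with hk₂
  -- the relation, expanded
  have hrel' : B.sigmaG X g (inclRN N r) * (X.E h₂') ^ p
      = HahnSeries.C c * (X.E h₁') ^ p * B.sigmaG X g (inclRN N s) := by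
    rw [B.sigmaG_inclRN, B.sigmaG_inclRN]
    have := congrArg (fun z => X.E (B.compH g⁻¹ z)) hrel
    simp only [map_mul, map_pow, B.compH_constH, X.const] at this
    exact this
  have hr' : inclRN N r ≠ 0 := fun h => hr (inclRN_injective N (by rw [h, map_zero]))
  have hs' : inclRN N s ≠ 0 := fun h => hs (inclRN_injective N (by rw [h, map_zero]))
  have hσr : B.sigmaG X g (inclRN N r) ≠ 0 := (map_ne_zero _).mpr hr'
  have hσs : B.sigmaG X g (inclRN N s) ≠ 0 := (map_ne_zero _).mpr hs'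
  have hC : (HahnSeries.C c : LaurentSeries ℂ) ≠ 0 := by
    intro h0
    apply hc
    have := congrArg (fun z : LaurentSeries ℂ => z.coeff 0) h0
    simpa using this
  have hord : (B.sigmaG X g (inclRN N r / inclRN N s)).order = (p : ℤ) * (k₁ - k₂) := by
    have h1 := congrArg HahnSeries.order hrel'
    rw [ls_order_mul hσr (pow_ne_zero p hE₂), ls_order_pow hE₂,
      ls_order_mul (mul_ne_zero hC (pow_ne_zero p hE₁)) hσs,
      ls_order_mul hC (pow_ne_zero p hE₁), ls_order_pow hE₁, ls_order_C] at h1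
    rw [map_div₀, div_eq_mul_inv, ls_order_mul hσr (inv_ne_zero hσs),
      RotRel.order_inv' hσs]
    linarith
  -- multiplicity
  have hmult := H117.order_eq L (g : XX N) (inclRN N r / inclRN N s)
  rw [hσ, hord, hx] at hmult
  -- orbit length
  have hfin := H117.finite_places_over L (IntermediateField.adjoin Kbar {t}) le_rfl hrank
  have hS : ∀ w : Place Kbar (FF N), w ∈ hfin.toFinset ↔ 0 < w.ord t := fun w => by
    simp
  have hsum := H144.loc_fundamental_inequality L hfin.toFinset hS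
  obtain ⟨-, horb, -⟩ :=
    H117.localThm L (IntermediateField.adjoin Kbar {t}) le_rfl hrank hfin.toFinset hS hsum
  have hn := horb (g : XX N)
  rw [hx] at hn
  set n := Nat.card (MulAction.orbit (Subgroup.zpowers L.perm) (g : XX N)) with hn_def
  have hnpos : 0 < n := by
    have : (0 : ℤ) < n := by rw [hn]; exact hv
    exact_mod_cast this
  -- `perm ^ n` fixes `x`
  have hper : (L.perm ^ n) (g : XX N) = (g : XX N) := by
    letI : Fintype (MulAction.orbit (Subgroup.zpowers L.perm) (g : XX N)) :=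
      Fintype.ofFinite _
    have h1 : Function.minimalPeriod (L.perm • ·) (g : XX N) = n := by
      rw [MulAction.minimalPeriod_eq_card, hn_def, Nat.card_eq_fintype_card]
    have h2 := Function.isPeriodicPt_minimalPeriod (L.perm • ·) (g : XX N)
    rw [h1] at h2
    have h3 : ((L.perm • ·) : XX N → XX N) = ⇑L.perm := rfl
    rw [h3] at h2
    have h4 : (⇑L.perm)^[n] (g : XX N) = (g : XX N) := h2
    rw [Equiv.Perm.iterate_eq_pow] at h4
    exact h4
  -- the element `δ = g⁻¹ ε ^ n g` of `Γ₀(N)`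
  have hperm_pow : (L.perm ^ n) (g : XX N) = (((ε⁻¹) ^ n * g : SL(2, ℤ)) : XX N) := by
    have h1 : L.perm = permOf N ε⁻¹ := rfl
    rw [h1]
    have h2 : (permOf N ε⁻¹) ^ n = permOf N ((ε⁻¹) ^ n) := by
      unfold permOf
      exact (map_pow (MulAction.toPermHom SL(2, ℤ) (XX N)) ε⁻¹ n).symm
    rw [h2]
    rfl
  have hδmem : g⁻¹ * ε ^ n * g ∈ CongruenceSubgroup.Gamma0 N := by
    have h1 := hper
    rw [hperm_pow] at h1
    have h2 := QuotientGroup.eq.mp h1
    have h3 : ((ε⁻¹) ^ n * g)⁻¹ * g = g⁻¹ * ε ^ n * g := by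
      rw [mul_inv_rev, inv_pow, inv_inv]
    rwa [h3] at h2
  have hδnice : Nice (g⁻¹ * ε ^ n * g) := (hε n).conj g
  have hinv' := hinv _ hδmem hδnice
  -- transport by `g⁻¹`
  have hcomp : ∀ h : B.Hol, B.compH g⁻¹ (B.compH (g⁻¹ * ε ^ n * g) h)
      = B.compH (ε ^ n) (B.compH g⁻¹ h) := by
    intro h
    rw [← B.compH_mul, ← B.compH_mul]
    congr 1
    group
  have hrot : B.compH (ε ^ n) h₁' * h₂' = h₁' * B.compH (ε ^ n) h₂' := by
    have := congrArg (B.compH g⁻¹) hinv'
    rw [map_mul, map_mul, hcomp, hcomp] at this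
    exact this
  have hlc := congrArg (fun z => (X.E z).leadingCoeff) hrot
  simp only [map_mul, leadingCoeff_mul] at hlc
  rw [(rot_iter B X ε R n h₁').2, (rot_iter B X ε R n h₂').2] at hlc
  have hl₁ : (X.E h₁').leadingCoeff ≠ 0 := leadingCoeff_ne_zero.mpr hE₁
  have hl₂ : (X.E h₂').leadingCoeff ≠ 0 := leadingCoeff_ne_zero.mpr hE₂
  have hζ0 : R.ζ ≠ 0 := R.hζ.ne_zero R.m_pos.ne'
  have hζeq : (R.ζ ^ k₁) ^ n = (R.ζ ^ k₂) ^ n := by
    have h1 : (R.ζ ^ k₁) ^ n * ((X.E h₁').leadingCoeff * (X.E h₂').leadingCoeff)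
        = (R.ζ ^ k₂) ^ n * ((X.E h₁').leadingCoeff * (X.E h₂').leadingCoeff) := by
      linear_combination hlc
    exact mul_right_cancel₀ (mul_ne_zero hl₁ hl₂) h1
  have hζ1 : R.ζ ^ ((n : ℤ) * (k₁ - k₂)) = 1 := by
    have h1 : R.ζ ^ ((n : ℤ) * k₁) = R.ζ ^ ((n : ℤ) * k₂) := by
      rw [mul_comm (n : ℤ) k₁, mul_comm (n : ℤ) k₂, zpow_mul, zpow_mul, zpow_natCast,
        zpow_natCast]
      exact hζeq
    rw [mul_sub, zpow_sub₀ hζ0, h1]
    exact div_self (zpow_ne_zero _ hζ0)
  have hdvd : ((R.m : ℕ) : ℤ) ∣ (n : ℤ) * (k₁ - k₂) := (R.hζ.zpow_eq_one_iff_dvd _).mp hζ1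
  have hmm := H117.mult_mul_ord_t L (g : XX N)
  rw [hx, ← hn] at hmm
  have hLm : L.m = R.m := rfl
  rw [hLm] at hmm
  rw [← hmm] at hdvd
  have hn0 : (n : ℤ) ≠ 0 := by exact_mod_cast hnpos.ne'
  have hdvd' : (H117.mult L (g : XX N) : ℤ) ∣ (k₁ - k₂) := by
    rw [mul_comm] at hdvd
    exact (mul_dvd_mul_iff_left hn0).mp hdvd
  obtain ⟨q, hq⟩ := hdvd'
  refine ⟨q, ?_⟩
  have hm0 : (H117.mult L (g : XX N) : ℤ) ≠ 0 := by
    exact_mod_cast (H117.mult_pos L (g : XX N)).ne'
  rw [hq] at hmult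
  have : (H117.mult L (g : XX N) : ℤ) * ((p : ℤ) * q)
      = (H117.mult L (g : XX N) : ℤ) * v.ord (inclRN N r / inclRN N s) := by
    rw [← hmult]; ring
  exact (mul_left_cancel₀ hm0 this).symm


/-! ### Nice powers of the four rotation elements -/

theorem nice_pow_one (n : ℕ) : Nice ((1 : SL(2, ℤ)) ^ n) := by
  left
  rw [one_pow]
  exact IsOfFinOrder.one

theorem S_pow_four : ModularGroup.S ^ 4 = 1 := by
  apply Subtype.ext
  simp only [Matrix.SpecialLinearGroup.coe_pow, Matrix.SpecialLinearGroup.coe_one,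
    ModularGroup.coe_S]
  ext i j
  fin_cases i <;> fin_cases j <;> simp [pow_succ, Matrix.mul_apply, Fin.sum_univ_two]

theorem ST_pow_six : (ModularGroup.S * ModularGroup.T) ^ 6 = 1 := by
  apply Subtype.ext
  simp only [Matrix.SpecialLinearGroup.coe_pow, Matrix.SpecialLinearGroup.coe_mul,
    Matrix.SpecialLinearGroup.coe_one, ModularGroup.coe_S, ModularGroup.coe_T]
  ext i j
  fin_cases i <;> fin_cases j <;> simp [pow_succ, Matrix.mul_apply, Fin.sum_univ_two]

theorem nice_pow_S (n : ℕ) : Nice (ModularGroup.S ^ n) := by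
  left
  exact (isOfFinOrder_iff_pow_eq_one.mpr ⟨4, by norm_num, S_pow_four⟩).pow

theorem nice_pow_ST (n : ℕ) : Nice ((ModularGroup.S * ModularGroup.T) ^ n) := by
  left
  exact (isOfFinOrder_iff_pow_eq_one.mpr ⟨6, by norm_num, ST_pow_six⟩).pow

theorem nice_pow_T (n : ℕ) : Nice (ModularGroup.T ^ n) := by
  right
  have h := ModularGroup.coe_T_zpow (n : ℤ)
  rw [zpow_natCast] at h
  show (ModularGroup.T ^ n).1.trace = 2
  rw [h]
  simp [Matrix.trace_fin_two]

/-! ### The global statement -/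

/-- **DICT.**  Let `A` be an analytic core for level `N` (e.g. `S24.H997.analyticCore N`), let
`r, s ∈ R_N` be nonzero and `h₁, h₂ ∈ Hol` nonzero with `e(r) · h₂ ^ p = c · h₁ ^ p · e(s)`,
`c ≠ 0`, and suppose `h₁ / h₂` is invariant under every element of `Γ₀(N)` of finite order or of
trace `2`.  Then `p` divides the order of `r / s` at EVERY place of the function field `FF N`. -/
theorem dvd_ord_of_analytic_pow (A : AnalyticCore N) (p : ℕ) (r s : RN N) (hr : r ≠ 0)
    (hs : s ≠ 0) (h₁ h₂ : A.toHolBase.Hol) (hh₁ : h₁ ≠ 0) (hh₂ : h₂ ≠ 0) (c : ℂ) (hc : c ≠ 0)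
    (hrel : A.toHolBase.bridge r * h₂ ^ p
      = A.toHolBase.constH c * h₁ ^ p * A.toHolBase.bridge s)
    (hinv : ∀ δ : SL(2, ℤ), δ ∈ CongruenceSubgroup.Gamma0 N → Nice δ →
      A.toHolBase.compH δ h₁ * h₂ = h₁ * A.toHolBase.compH δ h₂)
    (v : Place Kbar (FF N)) :
    (p : ℤ) ∣ v.ord (inclRN N r / inclRN N s) := by
  classical
  obtain ⟨hfd, hle⟩ := Deg457.degree_fields N
  haveI := hfd
  have hrank : Module.finrank ↥(IntermediateField.adjoin Kbar {jF N}) (FF N)
      = Nat.card (XX N) := le_antisymm hle A.card_le_finrank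
  by_cases hj : 0 ≤ v.ord (jF N)
  · haveI : Algebra.IsAlgebraic ↥(IntermediateField.adjoin Kbar {jF N}) (FF N) :=
      Algebra.IsAlgebraic.of_finite _ _
    obtain ⟨a, ha⟩ := FF.exists_ord_sub_pos v (jF N) hj
    obtain ⟨hfd', hfr⟩ :=
      finiteDimensional_and_finrank_of_eq (adjoin_sub_algebraMap Kbar (jF N) a)
    haveI := hfd'
    have hr' := hfr.trans hrank
    have key : ∀ (ε : SL(2, ℤ)) (P : PointData A.toHolBase (ιK a) ε),
        (∀ n : ℕ, Nice (ε ^ n)) → (p : ℤ) ∣ v.ord (inclRN N r / inclRN N s) := fun ε P hε =>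
      dvd_ord_mkLocalData A.toHolBase P.X ε P.R _ _ (fun g => A.sigmaG_sub P g) P.order_J hr'
        hε p r s hr hs h₁ h₂ hh₁ hh₂ c hc hrel hinv v ha
    by_cases h0 : a = 0
    · exact key (ModularGroup.S * ModularGroup.T) (by rw [h0, map_zero]; exact A.at0)
        nice_pow_ST
    · by_cases h1 : a = 1728
      · refine key ModularGroup.S ?_ nice_pow_S
        have : ιK a = 1728 := by rw [h1]; exact map_ofNat ιK 1728
        rw [this]; exact A.at1728
      · exact key 1 (A.generic (ιK a)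
          (fun h => h0 (ιK_injective (by rw [h, map_zero])))
          (fun h => h1 (ιK_injective (by rw [h]; exact (map_ofNat ιK 1728).symm))))
          nice_pow_one
  · have hjinv : 0 < v.ord (jF N)⁻¹ := by
      rw [Place.ord_inv]
      omega
    obtain ⟨hfd', hfr⟩ := finiteDimensional_and_finrank_of_eq (adjoin_inv Kbar (jF N))
    haveI := hfd'
    have hr' := hfr.trans hrank
    exact dvd_ord_mkLocalData A.toHolBase A.toHolBase.qexpExpansion ModularGroup.T A.infRot
      (jF N)⁻¹ (A.qexp (A.toHolBase.JH 1 (one_dvd N)))⁻¹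
      (fun g => by rw [map_inv₀, HolBase.sigmaG_jF]; rfl)
      (by
        rw [RotRel.order_inv' A.toHolBase.qexp_J_one_ne_zero, A.toHolBase.order_qexp_J_one,
          neg_neg]
        rfl)
      hr' nice_pow_T p r s hr hs h₁ h₂ hh₁ hh₂ c hc hrel hinv v hjinv

end Fermat.Agent.S29.H389

end
end
-- ===== PACK-END S29/H389/Dict.lean

-- ===== PACK-BEGIN Lib/RR/H864/FF1Modular.lean
section



/-!
# RR library, bridge: `FF1` for the function field of `X₀(N)` over `ℚ̄`
-/

set_option autoImplicit false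

noncomputable section

open AlgebraicCurve ModularCurve IntermediateField

namespace Fermat.Agent.Lib.RR.H864

open Fermat.Agent.S24 in
theorem jF_not_mem_range (N : ℕ) [NeZero N] :
    jF N ∉ (algebraMap Kbar (FF N)).range := by
  rintro ⟨c, hc⟩
  have h1 : ((algebraMap Kbar (FF N) c : FF N) : LaurentSeries Kbar).coeff (-1)
      = ((jF N : FF N) : LaurentSeries Kbar).coeff (-1) := by rw [hc]
  have h2 : ((algebraMap Kbar (FF N) c : FF N) : LaurentSeries Kbar)
      = algebraMap Kbar (LaurentSeries Kbar) c := rfl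
  rw [h2, algebraMap_laurentSeries_eq_single] at h1
  have h3 : ((jF N : FF N) : LaurentSeries Kbar) = coeffEmb Kbar jq := rfl
  rw [h3, coeffEmb_coeff, coeff_jq_neg_one, map_one,
    HahnSeries.coeff_single_of_ne (by norm_num)] at h1
  exact zero_ne_one h1

open Fermat.Agent.S24 in
theorem transcendental_jF (N : ℕ) [NeZero N] : Transcendental Kbar (jF N) :=
  FF.transcendental_of_not_mem_range (jF_not_mem_range N)

open Fermat.Agent.S24 in
/-- **`FF1` for the modular function field** `ℚ̄(j(q^d) : d ∣ N)`. -/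
theorem ff1_modularFunctionFieldBar (N : ℕ) [NeZero N] :
    FF1 (AlgebraicClosure ℚ) ↥(modularFunctionFieldBar N) := by
  obtain ⟨P⟩ := nonempty_modularPackage N
  haveI := P.finiteDimensional
  exact ff1 (jF N) (transcendental_jF N)

/-- The modular function field has principal divisors. -/
theorem hasPrincipalDivisors_modularFunctionFieldBar (N : ℕ) [NeZero N] :
    HasPrincipalDivisors (AlgebraicClosure ℚ) ↥(modularFunctionFieldBar N) :=
  (ff1_modularFunctionFieldBar N).hpd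

end Fermat.Agent.Lib.RR.H864

end
end
-- ===== PACK-END Lib/RR/H864/FF1Modular.lean

-- ===== PACK-BEGIN S29/H389/DictKummer.lean
section




/-!
# S29 / layer M / BR — DICT, Kummer-class form (helper389)

`exists_isKummerClass_of_analytic_pow` : in the situation of `dvd_ord_of_analytic_pow`
(`e(r) · h₂ ^ p = c · h₁ ^ p · e(s)`, `h₁ / h₂` invariant under the elliptic and parabolic elements
of `Γ₀(N)`), the function `f = r / s ∈ FF N` has a `p`-Kummer class in `J₀(N)(ℚ̄) = Pic⁰(FF N)`: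
there is a degree-zero divisor `D` with `p • D = div f` (landed predicate `H455.IsKummerClass`).
-/

set_option autoImplicit false
set_option linter.style.haveILetI false

noncomputable section

open AlgebraicCurve HahnSeries ModularCurve
open scoped MatrixGroups

namespace Fermat.Agent.S29.H389

open Fermat.Agent.S24 Fermat.Agent.S24.H997

variable {N : ℕ} [NeZero N]

/-- A divisor all of whose coefficients are divisible by `p ≠ 0` is `p` times a divisor, of
degree zero if the original one is. -/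
theorem exists_divisor_div {K F : Type*} [Field K] [Field F] [Algebra K F]
    (p : ℕ) (hp : p ≠ 0) (D₀ : Divisor K F) (hdvd : ∀ v, (p : ℤ) ∣ D₀ v)
    (hdeg : Divisor.degree D₀ = 0) :
    ∃ D : Divisor K F, Divisor.degree D = 0 ∧ ∀ v, (p : ℤ) * D v = D₀ v := by
  classical
  have hp' : (p : ℤ) ≠ 0 := by exact_mod_cast hp
  let D : Divisor K F := D₀.mapRange (fun n : ℤ => n / (p : ℤ)) (by simp)
  have hD : ∀ v, (p : ℤ) * D v = D₀ v := by
    intro v
    show (p : ℤ) * (D₀.mapRange (fun n : ℤ => n / (p : ℤ)) (by simp)) v = D₀ v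
    rw [Finsupp.mapRange_apply]
    exact Int.mul_ediv_cancel' (hdvd v)
  have hsmul : (p : ℤ) • D = D₀ := by
    ext v
    rw [Finsupp.smul_apply, smul_eq_mul, hD]
  refine ⟨D, ?_, hD⟩
  have h1 : (p : ℤ) * Divisor.degree D = 0 := by
    rw [← smul_eq_mul, ← map_zsmul, hsmul, hdeg]
  rcases mul_eq_zero.1 h1 with h | h
  · exact absurd h hp'
  · exact h

/-- **DICT, Kummer form.** -/
theorem exists_isKummerClass_of_analytic_pow (A : AnalyticCore N) (p : ℕ) (hp : p ≠ 0)
    (r s : RN N) (hr : r ≠ 0) (hs : s ≠ 0) (h₁ h₂ : A.toHolBase.Hol) (hh₁ : h₁ ≠ 0)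
    (hh₂ : h₂ ≠ 0) (c : ℂ) (hc : c ≠ 0)
    (hrel : A.toHolBase.bridge r * h₂ ^ p
      = A.toHolBase.constH c * h₁ ^ p * A.toHolBase.bridge s)
    (hinv : ∀ δ : SL(2, ℤ), δ ∈ CongruenceSubgroup.Gamma0 N → Nice δ →
      A.toHolBase.compH δ h₁ * h₂ = h₁ * A.toHolBase.compH δ h₂) :
    ∃ x : JZero N, H455.IsKummerClass (p : ℤ) (inclRN N r / inclRN N s) x := by
  have hr' : inclRN N r ≠ 0 := fun h => hr (inclRN_injective N (by rw [h, map_zero]))
  have hs' : inclRN N s ≠ 0 := fun h => hs (inclRN_injective N (by rw [h, map_zero]))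
  have hf : inclRN N r / inclRN N s ≠ 0 := div_ne_zero hr' hs'
  haveI := Fermat.Agent.Lib.RR.H864.hasPrincipalDivisors_modularFunctionFieldBar N
  obtain ⟨D₀, hD₀, hdeg₀⟩ :=
    HasPrincipalDivisors.exists_divisor (K := AlgebraicClosure ℚ) (inclRN N r / inclRN N s) hf
  obtain ⟨D, hdeg, hD⟩ := exists_divisor_div p hp D₀
    (fun v => by
      rw [hD₀ v]
      exact dvd_ord_of_analytic_pow A p r s hr hs h₁ h₂ hh₁ hh₂ c hc hrel hinv v)
    hdeg₀
  refine ⟨Pic0.mk ⟨D, hdeg⟩, hf, ⟨D, hdeg⟩, rfl, fun v => ?_⟩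
  rw [hD v, hD₀ v]

end Fermat.Agent.S29.H389

end
end
-- ===== PACK-END S29/H389/DictKummer.lean

-- ===== PACK-BEGIN S29/H332/KummerFun.lean
section




/-!
# S29 / M4b / K1 — the Kummer function `h = E^χ₁₂ / (2Δ)`

For a character `χ : Γ₀(N) →* ℂˣ`, unitary and trivial on all elements of trace `±2`, the function
`kummerFun N χ = E^χ₁₂ / (2Δ)` is holomorphic on `ℍ`, satisfies `h(γτ) = χ(γ) h(τ)`, belongs to the
S24 ring `holN N` (expansions in `exp(2πiτ/N)` at all cusps) and has a simple pole with leading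
coefficient `1` at `i∞` (in `q = exp(2πiτ)`).

The first part is abstract: any holomorphic function with a parabolic character and moderate growth
belongs to `holN N`.
-/

set_option autoImplicit false

noncomputable section

open UpperHalfPlane EisensteinSeries ModularForm Filter Topology HahnSeries ModularCurve
open scoped Matrix MatrixGroups Manifold

namespace Fermat.Agent.S29.H332

open Fermat.Agent.S24 Fermat.Agent.S24.H997 Fermat.Agent.S24.H624

local notation "Δ" => ModularForm.discriminant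

/-! ### Conjugates of translations -/

/-- `g T^w g⁻¹` has trace `2`. -/
theorem trace_conj_T_zpow (g : SL(2, ℤ)) (w : ℤ) :
    (g * ModularGroup.T ^ w * g⁻¹ : SL(2, ℤ)).1.trace = 2 := by
  rw [Matrix.SpecialLinearGroup.coe_mul, Matrix.SpecialLinearGroup.coe_mul, Matrix.trace_mul_comm,
    ← Matrix.mul_assoc, ← Matrix.SpecialLinearGroup.coe_mul, inv_mul_cancel,
    Matrix.SpecialLinearGroup.coe_one, Matrix.one_mul, ModularGroup.coe_T_zpow]
  simp [Matrix.trace_fin_two]

/-- `g T^N g⁻¹ ∈ Γ₀(N)` for every `g ∈ SL(2,ℤ)`. -/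
theorem conj_T_zpow_mem_Gamma0 (N : ℕ) (g : SL(2, ℤ)) (m : ℤ) :
    g * ModularGroup.T ^ ((N : ℤ) * m) * g⁻¹ ∈ CongruenceSubgroup.Gamma0 N := by
  rw [CongruenceSubgroup.Gamma0_mem]
  have h : (g * ModularGroup.T ^ ((N : ℤ) * m) * g⁻¹ : SL(2, ℤ)).1 1 0
      = -((N : ℤ) * m * (g.1 1 0) ^ 2) := by
    rw [Matrix.SpecialLinearGroup.coe_mul, Matrix.SpecialLinearGroup.coe_mul,
      ModularGroup.coe_T_zpow, Matrix.SpecialLinearGroup.coe_inv, Matrix.adjugate_fin_two]
    simp [Matrix.mul_apply, Fin.sum_univ_two]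
    ring
  rw [h]
  push_cast
  simp

/-! ### The discriminant -/

theorem mdiff_delta : MDiff Δ := CuspForm.discriminant.holo'

theorem mdiff_delta_pow (m : ℕ) : MDiff (fun τ : ℍ => Δ τ ^ m) := by
  induction m with
  | zero => simpa using (mdifferentiable_const : MDiff (fun _ : ℍ => (1 : ℂ)))
  | succ m ih =>
    have := ih.mul mdiff_delta
    have e : (fun τ : ℍ => Δ τ ^ (m + 1)) = (fun τ => Δ τ ^ m) * Δ := by
      funext τ
      simp [pow_succ]
    rw [e]
    exact this

theorem delta_slash (γ : SL(2, ℤ)) : Δ ∣[(12 : ℤ)] γ = Δ := by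
  have := SlashInvariantFormClass.slash_action_eq CuspForm.discriminant
    (Matrix.SpecialLinearGroup.mapGL ℝ γ) ⟨γ, rfl⟩
  rw [CuspForm.coe_discriminant] at this
  rw [ModularForm.SL_slash]
  exact this

theorem delta_smul (γ : SL(2, ℤ)) (τ : ℍ) : Δ (γ • τ) = denom γ τ ^ (12 : ℤ) * Δ τ := by
  have h := congrFun (delta_slash γ) τ
  rw [SL_slash_apply] at h
  have hd : denom γ τ ≠ 0 := denom_ne_zero γ τ
  rw [← h, mul_comm, mul_assoc, ← zpow_add₀ hd]
  simp

theorem delta_vadd (n : ℤ) (τ : ℍ) : Δ ((n : ℝ) +ᵥ τ) = Δ τ := by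
  have h := delta_smul (ModularGroup.T ^ n) τ
  rw [denom_T_zpow, one_zpow, one_mul, UpperHalfPlane.modular_T_zpow_smul] at h
  exact h

/-- A function on `ℍ` invariant under `τ ↦ τ + N` gives an `N`-periodic function on `ℂ`. -/
theorem periodic_comp_ofComplex_of_vadd {f : ℍ → ℂ} {N : ℕ}
    (h : ∀ τ : ℍ, f (((N : ℤ) : ℝ) +ᵥ τ) = f τ) :
    Function.Periodic (f ∘ ofComplex) (N : ℝ) := by
  intro z
  simp only [Function.comp_apply]
  by_cases hz : 0 < z.im
  · have hz' : 0 < (z + (N : ℝ)).im := by simpa using hz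
    rw [ofComplex_apply_of_im_pos hz, ofComplex_apply_of_im_pos hz']
    rw [← h ⟨z, hz⟩]
    congr 1
    apply UpperHalfPlane.ext
    simp [add_comm]
  · have hz' : ¬ 0 < (z + (N : ℝ)).im := by simpa using hz
    rw [ofComplex_apply_eq_of_im_nonpos (not_lt.mp hz') (not_lt.mp hz)]

theorem infExp_deltaInv (N : ℕ) [NeZero N] :
    InfExp N (fun τ : ℍ => (Δ τ)⁻¹) (qExpand ℂ N Fermat.Agent.S28.H568.dInvS) := by
  have hN : 0 < N := Nat.pos_of_ne_zero (NeZero.ne N)
  have h := Fermat.Agent.S28.H568.infExp_delta_inv_aff (N := N) (e := N) 0 one_pos one_pos hN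
    (by ring)
  rw [infRoot_zero, infTwist_one] at h
  exact h.congr fun τ => by rw [infAff_one_zero_one]

/-! ### Functions with a parabolic character -/

section Character

variable {N : ℕ} [NeZero N]

/-- `χ` is trivial on all elements of `Γ₀(N)` of trace `±2` (cusp stabilisers and `-1`). -/
def ParTrivial (χ : CongruenceSubgroup.Gamma0 N →* ℂˣ) : Prop :=
  ∀ γ : CongruenceSubgroup.Gamma0 N,
    ((γ : SL(2, ℤ)).1.trace = 2 ∨ (γ : SL(2, ℤ)).1.trace = -2) → χ γ = 1

/-- `h(γ τ) = χ(γ) h(τ)` for all `γ ∈ Γ₀(N)`. -/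
def HasCharacter (χ : CongruenceSubgroup.Gamma0 N →* ℂˣ) (h : ℍ → ℂ) : Prop :=
  ∀ (γ : CongruenceSubgroup.Gamma0 N) (τ : ℍ), h ((γ : SL(2, ℤ)) • τ) = (χ γ : ℂ) * h τ

variable {χ : CongruenceSubgroup.Gamma0 N →* ℂˣ} {h : ℍ → ℂ}

omit [NeZero N] in
/-- If `g T^w g⁻¹ ∈ Γ₀(N)`, then `h ∘ g` is invariant under `τ ↦ τ + w` (local parameter of width
`w` at the cusp `g∞`). -/
theorem HasCharacter.compSL_T_zpow (hh : HasCharacter χ h) (hχ : ParTrivial χ) (g : SL(2, ℤ))
    (w : ℤ) (hw : g * ModularGroup.T ^ w * g⁻¹ ∈ CongruenceSubgroup.Gamma0 N) (τ : ℍ) :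
    compSL g h (ModularGroup.T ^ w • τ) = compSL g h τ := by
  have h1 : g • (ModularGroup.T ^ w • τ) = (g * ModularGroup.T ^ w * g⁻¹) • (g • τ) := by
    rw [← mul_smul, ← mul_smul, mul_assoc, mul_assoc, inv_mul_cancel, mul_one]
  have h2 := hh ⟨_, hw⟩ (g • τ)
  rw [hχ ⟨_, hw⟩ (Or.inl (trace_conj_T_zpow g w))] at h2
  simp only [compSL_apply]
  rw [h1, h2, Units.val_one, one_mul]

omit [NeZero N] in
/-- `h ∘ g` is `w`-periodic if `g T^w g⁻¹ ∈ Γ₀(N)`. -/
theorem HasCharacter.compSL_vadd (hh : HasCharacter χ h) (hχ : ParTrivial χ) (g : SL(2, ℤ))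
    (w : ℕ) (hw : g * ModularGroup.T ^ (w : ℤ) * g⁻¹ ∈ CongruenceSubgroup.Gamma0 N)
    (τ : ℍ) : compSL g h (((w : ℤ) : ℝ) +ᵥ τ) = compSL g h τ := by
  have := hh.compSL_T_zpow hχ g (w : ℤ) hw τ
  rwa [UpperHalfPlane.modular_T_zpow_smul] at this

omit [NeZero N] in
theorem HasCharacter.periodic (hh : HasCharacter χ h) (hχ : ParTrivial χ) (g : SL(2, ℤ))
    (w : ℕ) (hw : g * ModularGroup.T ^ (w : ℤ) * g⁻¹ ∈ CongruenceSubgroup.Gamma0 N) :
    Function.Periodic (compSL g h ∘ ofComplex) (w : ℝ) :=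
  periodic_comp_ofComplex_of_vadd (hh.compSL_vadd hχ g w hw)

/-- The expansion of `h ∘ g` in the local parameter of width `w`, as an explicit Laurent series
(`m` = a bound for the pole order in units of `Δ⁻¹`). -/
def cuspExp (h : ℍ → ℂ) (m : ℕ) (g : SL(2, ℤ)) (w : ℕ) [NeZero w] : LaurentSeries ℂ :=
  qExpand ℂ w Fermat.Agent.S28.H568.dInvS ^ m *
    HahnSeries.ofPowerSeries ℤ ℂ
      (UpperHalfPlane.qExpansion (w : ℝ) (fun τ => Δ τ ^ m * compSL g h τ))

omit [NeZero N] in
/-- Expansion at the cusp `g∞` in the local parameter of width `w` (any `w` with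
`g T^w g⁻¹ ∈ Γ₀(N)`): a holomorphic function with a parabolic character such that
`Δ^m · (h ∘ g)` is bounded at `i∞` has a Laurent expansion in `exp(2πiτ/w)`. -/
theorem HasCharacter.infExp_cuspExp (hh : HasCharacter χ h) (hχ : ParTrivial χ)
    (hhol : MDiff h) (m : ℕ) (g : SL(2, ℤ)) (w : ℕ) [NeZero w]
    (hw : g * ModularGroup.T ^ (w : ℤ) * g⁻¹ ∈ CongruenceSubgroup.Gamma0 N)
    (hbd : IsBoundedAtImInfty (fun τ => Δ τ ^ m * compSL g h τ)) :
    InfExp w (compSL g h) (cuspExp h m g w) := by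
  have hN : (0 : ℝ) < w := by exact_mod_cast Nat.pos_of_ne_zero (NeZero.ne w)
  set F : ℍ → ℂ := fun τ => Δ τ ^ m * compSL g h τ with hF
  have hcomp : MDiff (compSL g h) := (precompSL g ⟨h, hhol⟩).2
  have hFhol : MDiff F := (mdiff_delta_pow m).mul hcomp
  have hFper : Function.Periodic (F ∘ ofComplex) (w : ℝ) := by
    intro z
    have h1 := hh.periodic hχ g w hw z
    have h2 := periodic_comp_ofComplex_of_vadd (f := Δ) (N := w) (fun τ => delta_vadd w τ) z
    simp only [Function.comp_apply, hF] at h1 h2 ⊢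
    rw [h1, h2]
  have hsum := fun τ => UpperHalfPlane.hasSum_qExpansion hN hFper hFhol hbd τ
  have hP : InfPExp w F (UpperHalfPlane.qExpansion (w : ℝ) F) := by
    intro τ
    simpa [infZ, smul_eq_mul] using hsum τ
  have hE : InfExp w F (HahnSeries.ofPowerSeries ℤ ℂ (UpperHalfPlane.qExpansion (w : ℝ) F)) := by
    have := hP.infExp 0
    simp only [zpow_zero, one_mul] at this
    have e : (HahnSeries.single (0 : ℤ) (1 : ℂ)) = 1 := rfl
    rwa [e, one_mul] at this
  have hDinv : InfExp w (fun τ => (Δ τ)⁻¹ ^ m)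
      (qExpand ℂ w Fermat.Agent.S28.H568.dInvS ^ m) :=
    Fermat.Agent.S28.H568.InfExp.pow' (infExp_deltaInv w) m
  have : compSL g h = fun τ => (Δ τ)⁻¹ ^ m * F τ := by
    funext τ
    simp only [hF]
    have hΔ : Δ τ ≠ 0 := ModularForm.discriminant_ne_zero τ
    rw [← mul_assoc, ← mul_pow, inv_mul_cancel₀ hΔ, one_pow, one_mul]
  rw [this]
  exact hDinv.mul hE

/-- Abstract membership criterion at one cusp. -/
theorem HasCharacter.compSL_mem_expRing (hh : HasCharacter χ h) (hχ : ParTrivial χ)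
    (hhol : MDiff h) (m : ℕ) (g : SL(2, ℤ))
    (hbd : IsBoundedAtImInfty (fun τ => Δ τ ^ m * compSL g h τ)) :
    compSL g h ∈ expRing N :=
  (hh.infExp_cuspExp hχ hhol m g N (by simpa using conj_T_zpow_mem_Gamma0 N g 1) hbd).mem_expRing

/-- Abstract membership criterion: a holomorphic function with a parabolic character such that
`Δ^m · (h ∘ g)` is bounded at `i∞` for every `g ∈ SL(2,ℤ)` lies in the S24 ring `holN N`. -/
theorem HasCharacter.mem_holN (hh : HasCharacter χ h) (hχ : ParTrivial χ)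
    (hhol : MDiff h) (m : ℕ)
    (hbd : ∀ g : SL(2, ℤ), IsBoundedAtImInfty (fun τ => Δ τ ^ m * compSL g h τ)) :
    h ∈ holN N :=
  ⟨hhol, fun g => hh.compSL_mem_expRing hχ hhol m g (hbd g)⟩

omit [NeZero N] in
/-- Powers: `h ^ p` has character `χ ^ p`; in particular it is `Γ₀(N)`-invariant if `χ ^ p = 1`. -/
theorem HasCharacter.pow_invariant (hh : HasCharacter χ h) {p : ℕ}
    (hp : ∀ γ, χ γ ^ p = 1) (γ : CongruenceSubgroup.Gamma0 N) (τ : ℍ) :
    h ((γ : SL(2, ℤ)) • τ) ^ p = h τ ^ p := by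
  rw [hh γ τ, mul_pow, ← Units.val_pow_eq_pow_val, hp γ, Units.val_one, one_mul]

end Character

/-! ### The Kummer function -/

section Kummer

variable (N : ℕ) [NeZero N] (χ : CongruenceSubgroup.Gamma0 N →* ℂˣ)

/-- The Kummer function `E^χ₁₂ / (2Δ)`. -/
def kummerFun : ℍ → ℂ :=
  fun τ => twistedEis (CongruenceSubgroup.Gamma0 N) χ 12 τ / (2 * Δ τ)

variable {N χ}

omit [NeZero N] in
theorem ParTrivial.trivialOnUnipotent (hχ : ParTrivial χ) : TrivialOnUnipotent χ := by
  intro γ hγ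
  apply hχ γ
  left
  have h10 : (γ : SL(2, ℤ)).1 1 0 = 0 := by
    have := congrFun hγ 0
    simpa [botRow] using this
  have h11 : (γ : SL(2, ℤ)).1 1 1 = 1 := by
    have := congrFun hγ 1
    simpa [botRow] using this
  have hdet := (γ : SL(2, ℤ)).det_coe
  rw [Matrix.det_fin_two, h10, h11, mul_zero, sub_zero, mul_one] at hdet
  rw [Matrix.trace_fin_two, hdet, h11]
  rfl

omit [NeZero N] in
theorem ParTrivial.neg_one (hχ : ParTrivial χ)
    (hneg : (-1 : SL(2, ℤ)) ∈ CongruenceSubgroup.Gamma0 N) : χ ⟨-1, hneg⟩ = 1 := by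
  apply hχ
  right
  simp [Matrix.trace_fin_two]

omit [NeZero N] in
theorem neg_one_mem_Gamma0 : (-1 : SL(2, ℤ)) ∈ CongruenceSubgroup.Gamma0 N := by
  rw [CongruenceSubgroup.Gamma0_mem]
  simp

omit [NeZero N] in
theorem compSL_kummerFun (g : SL(2, ℤ)) :
    compSL g (kummerFun N χ)
      = fun τ => (twistedEis (CongruenceSubgroup.Gamma0 N) χ 12 ∣[(12 : ℤ)] g) τ / (2 * Δ τ) := by
  funext τ
  have hd : denom g τ ≠ 0 := denom_ne_zero g τ
  have hΔ : Δ τ ≠ 0 := ModularForm.discriminant_ne_zero τ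
  simp only [compSL_apply, kummerFun]
  rw [SL_slash_apply, delta_smul, zpow_neg]
  field_simp

omit [NeZero N] in
theorem hasCharacter_kummerFun (hχ : ParTrivial χ) : HasCharacter χ (kummerFun N χ) := by
  intro γ τ
  have h := congrFun (compSL_kummerFun (N := N) (χ := χ) (γ : SL(2, ℤ))) τ
  rw [compSL_apply] at h
  rw [h, twistedEis_slash hχ.trivialOnUnipotent]
  simp only [Pi.smul_apply, smul_eq_mul, kummerFun]
  ring

omit [NeZero N] in
theorem mdiff_kummerFun (hχ : ParTrivial χ) (hnorm : ∀ γ, ‖(χ γ : ℂ)‖ = 1) :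
    MDiff (kummerFun N χ) := by
  have hE : MDiff (twistedEis (CongruenceSubgroup.Gamma0 N) χ 12) :=
    twistedEis_mdifferentiable hχ.trivialOnUnipotent hnorm (by norm_num)
  rw [UpperHalfPlane.mdifferentiable_iff] at hE ⊢
  have hΔ := UpperHalfPlane.mdifferentiable_iff.mp mdiff_delta
  have h2 : DifferentiableOn ℂ (fun z => 2 * (Δ ∘ ofComplex) z) {z : ℂ | 0 < z.im} :=
    hΔ.const_mul 2
  refine (hE.div h2 ?_).congr ?_
  · intro z hz
    exact mul_ne_zero two_ne_zero (ModularForm.discriminant_ne_zero _)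
  · intro z hz
    simp [kummerFun]

omit [NeZero N] in
theorem isBoundedAtImInfty_delta_mul_kummerFun (hχ : ParTrivial χ)
    (hnorm : ∀ γ, ‖(χ γ : ℂ)‖ = 1) (g : SL(2, ℤ)) :
    IsBoundedAtImInfty (fun τ => Δ τ ^ 1 * compSL g (kummerFun N χ) τ) := by
  have hE := twistedEis_slash_isBoundedAtImInfty hχ.trivialOnUnipotent hnorm
    (k := 12) (by norm_num) g
  have : (fun τ => Δ τ ^ 1 * compSL g (kummerFun N χ) τ)
      = (fun _ : ℍ => (1 / 2 : ℂ)) * (twistedEis (CongruenceSubgroup.Gamma0 N) χ 12 ∣[(12 : ℤ)] g) := by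
    funext τ
    have hΔ : Δ τ ≠ 0 := ModularForm.discriminant_ne_zero τ
    rw [compSL_kummerFun]
    simp only [Pi.mul_apply, pow_one]
    field_simp
  rw [this]
  exact (Filter.const_boundedAtFilter _ _).mul hE

/-- **K1**: the Kummer function lies in the S24 ring `holN N`. -/
theorem kummerFun_mem_holN (hχ : ParTrivial χ) (hnorm : ∀ γ, ‖(χ γ : ℂ)‖ = 1) :
    kummerFun N χ ∈ holN N :=
  (hasCharacter_kummerFun hχ).mem_holN hχ (mdiff_kummerFun hχ hnorm) 1
    (isBoundedAtImInfty_delta_mul_kummerFun hχ hnorm)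

/-! ### The expansion of the Kummer function at `i∞` -/

omit [NeZero N] in
theorem T_mem_Gamma0 :
    (1 : SL(2, ℤ)) * ModularGroup.T ^ ((1 : ℕ) : ℤ) * (1 : SL(2, ℤ))⁻¹
      ∈ CongruenceSubgroup.Gamma0 N := by
  rw [CongruenceSubgroup.Gamma0_mem]
  simp [ModularGroup.T]

omit [NeZero N] in
theorem delta_mul_kummerFun (τ : ℍ) :
    Δ τ ^ 1 * compSL 1 (kummerFun N χ) τ
      = twistedEis (CongruenceSubgroup.Gamma0 N) χ 12 τ / 2 := by
  have hΔ : Δ τ ≠ 0 := ModularForm.discriminant_ne_zero τ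
  rw [compSL_one]
  simp only [kummerFun, pow_one]
  field_simp

omit [NeZero N] in
theorem tendsto_delta_mul_kummerFun (hχ : ParTrivial χ) (hnorm : ∀ γ, ‖(χ γ : ℂ)‖ = 1) :
    Tendsto (fun τ => Δ τ ^ 1 * compSL 1 (kummerFun N χ) τ) atImInfty (𝓝 1) := by
  have h := tendsto_twistedEis_two hχ.trivialOnUnipotent hnorm (k := 12) (by norm_num)
    (by decide) neg_one_mem_Gamma0 (hχ.neg_one _)
  have h2 := h.div_const 2
  rw [div_self (two_ne_zero)] at h2
  refine h2.congr fun τ => ?_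
  rw [delta_mul_kummerFun]

variable (N χ) in
/-- The expansion of the Kummer function at `i∞` in `q = exp(2πiτ)`. -/
def kummerExp : LaurentSeries ℂ := cuspExp (kummerFun N χ) 1 1 1

omit [NeZero N] in
theorem infExp_kummerFun (hχ : ParTrivial χ) (hnorm : ∀ γ, ‖(χ γ : ℂ)‖ = 1) :
    InfExp 1 (kummerFun N χ) (kummerExp N χ) := by
  have h := (hasCharacter_kummerFun hχ).infExp_cuspExp hχ (mdiff_kummerFun hχ hnorm) 1 1 1
    T_mem_Gamma0 (isBoundedAtImInfty_delta_mul_kummerFun hχ hnorm 1)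
  rwa [compSL_one] at h

omit [NeZero N] in
theorem coeff_zero_qExpansion_kummer (hχ : ParTrivial χ) (hnorm : ∀ γ, ‖(χ γ : ℂ)‖ = 1) :
    (UpperHalfPlane.qExpansion ((1 : ℕ) : ℝ)
      (fun τ => Δ τ ^ 1 * compSL 1 (kummerFun N χ) τ)).coeff 0 = 1 := by
  have hper : Function.Periodic ((fun τ => Δ τ ^ 1 * compSL 1 (kummerFun N χ) τ) ∘ ofComplex)
      ((1 : ℕ) : ℝ) := by
    intro z
    have h1 := (hasCharacter_kummerFun hχ).periodic hχ 1 1 T_mem_Gamma0 z
    have h2 := periodic_comp_ofComplex_of_vadd (f := Δ) (N := 1) (fun τ => delta_vadd (1 : ℕ) τ) z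
    simp only [Function.comp_apply] at h1 h2 ⊢
    rw [h1, h2]
  have hhol : MDiff (fun τ => Δ τ ^ 1 * compSL 1 (kummerFun N χ) τ) :=
    (mdiff_delta_pow 1).mul (precompSL 1 ⟨_, mdiff_kummerFun hχ hnorm⟩).2
  have han := UpperHalfPlane.analyticAt_cuspFunction_zero (h := ((1 : ℕ) : ℝ)) (by norm_num)
    hper hhol (isBoundedAtImInfty_delta_mul_kummerFun hχ hnorm 1)
  rw [UpperHalfPlane.qExpansion_coeff_zero (by norm_num) han hper]
  exact (tendsto_delta_mul_kummerFun hχ hnorm).limUnder_eq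

omit [NeZero N] in
theorem kummerExp_eq (hχ : ParTrivial χ) (hnorm : ∀ γ, ‖(χ γ : ℂ)‖ = 1) :
    (kummerExp N χ).order = -1 ∧ (kummerExp N χ).leadingCoeff = 1 := by
  set ψ := UpperHalfPlane.qExpansion ((1 : ℕ) : ℝ)
      (fun τ => Δ τ ^ 1 * compSL 1 (kummerFun N χ) τ) with hψ
  have hc : PowerSeries.coeff 0 ψ = 1 := coeff_zero_qExpansion_kummer hχ hnorm
  have hord : ψ.order = ((0 : ℕ) : ℕ∞) := by
    rw [PowerSeries.order_eq_nat]
    exact ⟨by rw [hc]; exact one_ne_zero, fun i hi => absurd hi (Nat.not_lt_zero i)⟩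
  have h1 : (HahnSeries.ofPowerSeries ℤ ℂ ψ).order = 0 := by
    simpa using order_ofPowerSeries hord
  have h2 : (HahnSeries.ofPowerSeries ℤ ℂ ψ).leadingCoeff = 1 := by
    rw [leadingCoeff_ofPowerSeries hord, hc]
  have h3 : (qExpand ℂ 1 Fermat.Agent.S28.H568.dInvS ^ 1).order = -1 := by
    rw [pow_one, inf_qExpand_order, Fermat.Agent.S28.H568.dInvS_order]
    simp
  have h4 : (qExpand ℂ 1 Fermat.Agent.S28.H568.dInvS ^ 1).leadingCoeff = 1 := by
    rw [pow_one, inf_qExpand_leadingCoeff, Fermat.Agent.S28.H568.dInvS_leadingCoeff]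
  have hx : (qExpand ℂ 1 Fermat.Agent.S28.H568.dInvS ^ 1) ≠ 0 := by
    intro h0
    rw [h0] at h4
    simp at h4
  have hy : (HahnSeries.ofPowerSeries ℤ ℂ ψ) ≠ 0 := by
    intro h0
    rw [h0] at h2
    simp at h2
  refine ⟨?_, ?_⟩
  · show (_ * _ : LaurentSeries ℂ).order = -1
    rw [HahnSeries.order_mul hx hy, h3, h1, add_zero]
  · show (_ * _ : LaurentSeries ℂ).leadingCoeff = 1
    rw [HahnSeries.leadingCoeff_mul, h4, h2, one_mul]

omit [NeZero N] in
theorem kummerExp_ne_zero (hχ : ParTrivial χ) (hnorm : ∀ γ, ‖(χ γ : ℂ)‖ = 1) :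
    kummerExp N χ ≠ 0 := by
  intro h0
  have := (kummerExp_eq hχ hnorm).2
  rw [h0] at this
  simp at this

omit [NeZero N] in
theorem kummerFun_ne_zero (hχ : ParTrivial χ) (hnorm : ∀ γ, ‖(χ γ : ℂ)‖ = 1) :
    kummerFun N χ ≠ 0 := by
  intro h0
  have h := infExp_kummerFun hχ hnorm
  rw [h0] at h
  exact kummerExp_ne_zero hχ hnorm (InfExp.eq_zero h)

/-- The expansion in `exp(2πiτ/N)` (the S24 `qexp`). -/
theorem infExp_kummerFun_level (hχ : ParTrivial χ) (hnorm : ∀ γ, ‖(χ γ : ℂ)‖ = 1) :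
    InfExp N (kummerFun N χ) (qExpand ℂ N (kummerExp N χ)) := by
  have hN : (N : ℂ) ≠ 0 := by exact_mod_cast NeZero.ne N
  have h := (infExp_kummerFun hχ hnorm).subst (N := N) (fun τ => τ) 1 N (fun τ => by
    rw [infZ_def, infZ_def, Units.val_one, one_mul, ← Complex.exp_nat_mul]
    congr 1
    push_cast
    field_simp)
  rwa [infTwist_one] at h

theorem expInf_kummerFun (hχ : ParTrivial χ) (hnorm : ∀ γ, ‖(χ γ : ℂ)‖ = 1) :
    expInf N (holToExp N ⟨kummerFun N χ, kummerFun_mem_holN hχ hnorm⟩)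
      = qExpand ℂ N (kummerExp N χ) :=
  (infExp_kummerFun_level hχ hnorm).expInf_eq

end Kummer


end Fermat.Agent.S29.H332

end
end
-- ===== PACK-END S29/H332/KummerFun.lean

-- ===== PACK-BEGIN S29/H389/K2.lean
section





/-!
# S29 / M4b / PIECE K2 (DICT) — `exists_isKummerClass_of_realised` (helper389)

The piece `K2` of helper822's M4b sub-skeleton, in the EXACT type of `M4b/Skeleton.lean`
(general modulus `p`, `[NeZero p]`):

if `u ∈ FF N` is realised by `U ^ p`, `U` a twisted function whose character kills the parabolic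
and the elliptic elements of `Γ₀(N)`, then `u` has a `p`-Kummer class in `J₀(N)(ℚ̄)`.

Proof: direct route over `ℚ̄` on the landed S24 package.
* `U ∈ holN N` (S24 ring of the concrete analytic core): every `SL₂(ℤ)`-translate of `U` is
  holomorphic, `N`-periodic (`g T^N g⁻¹ ∈ Γ₀(N)` has trace `2`) and of exponential growth (because
  its `p`-th power is), so it has a convergent expansion in `exp(2πiτ/N)`;
* `e(r) = U ^ p · e(s)` for `u = r / s` (equality of expansions at `i∞`);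
* `U` is invariant under the elliptic and parabolic elements of `Γ₀(N)`;
* conclude by the landed `H389.exists_isKummerClass_of_analytic_pow` (BR-DICT).
-/

set_option autoImplicit false

noncomputable section

open ModularCurve AlgebraicCurve CongruenceSubgroup UpperHalfPlane HahnSeries
open scoped MatrixGroups Manifold Real

namespace Fermat.Agent.S29.H389

open Fermat.Agent.S24 Fermat.Agent.S24.H997 Fermat.Agent.S24.H648 Fermat.Agent.S24.H708
  Fermat.Agent.S24.H624 Fermat.Agent.S29 Fermat.Agent.S29.M4b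

/-- A function whose `p`-th power (`p ≠ 0`) has exponential growth has exponential growth. -/
theorem K2_expGrowth_of_pow {f : ℍ → ℂ} {p : ℕ} (hp : p ≠ 0)
    (h : ExpGrowth (fun τ => f τ ^ p)) : ExpGrowth f := by
  obtain ⟨C, m, hC⟩ := h
  refine ⟨max C 1, m, fun τ hτ => ?_⟩
  have h1 := hC τ hτ
  rw [norm_pow] at h1
  have him : 0 < τ.im := τ.im_pos
  have hpi := Real.pi_pos
  have hE : 1 ≤ Real.exp (2 * π * m * τ.im) := Real.one_le_exp (by positivity)
  have hmax : (1 : ℝ) ≤ max C 1 := le_max_right _ _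
  have hB : 1 ≤ max C 1 * Real.exp (2 * π * m * τ.im) := by
    calc (1 : ℝ) = 1 * 1 := (one_mul 1).symm
      _ ≤ max C 1 * Real.exp (2 * π * m * τ.im) :=
        mul_le_mul hmax hE zero_le_one (zero_le_one.trans hmax)
  have hle : ‖f τ‖ ^ p ≤ max C 1 * Real.exp (2 * π * m * τ.im) :=
    h1.trans (mul_le_mul_of_nonneg_right (le_max_left _ _) (Real.exp_pos _).le)
  by_cases h0 : ‖f τ‖ ≤ 1
  · exact h0.trans hB
  · have : ‖f τ‖ ≤ ‖f τ‖ ^ p := le_self_pow₀ (le_of_lt (not_le.mp h0)) hp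
    exact this.trans hle

/-- `qh N ^ N = qh 1`. -/
theorem K2_qh_pow (N : ℕ) [NeZero N] (M : ℕ) : qh N ^ (N * M) = qh 1 ^ M := by
  funext τ
  have hN : (N : ℂ) ≠ 0 := by exact_mod_cast NeZero.ne N
  simp only [Pi.pow_apply, qh_apply, pow_mul]
  congr 1
  simp only [Function.Periodic.qParam]
  rw [← Complex.exp_nat_mul]
  congr 1
  push_cast
  field_simp

section Twisted

variable (N : ℕ) [NeZero N] (p : ℕ) [NeZero p]

omit [NeZero N] [NeZero p] in
/-- All translates of a function with a parabolic character are `N`-periodic. -/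
theorem K2_compSL_vadd {c : G0 N → ZMod p} (hc : IsParHom c) {U : ℍ → ℂ}
    (hU : HasChar N p c U) (g : SL(2, ℤ)) (τ : ℍ) :
    compSL g U (((N : ℤ) : ℝ) +ᵥ τ) = compSL g U τ := by
  have hmem := H332.conj_T_zpow_mem_Gamma0 N g 1
  rw [mul_one] at hmem
  have htr := H332.trace_conj_T_zpow g (N : ℤ)
  have hc0 : c ⟨_, hmem⟩ = 0 := hc.parabolic ⟨_, hmem⟩ (Or.inl htr)
  have h2 := hU ⟨_, hmem⟩ (g • τ)
  rw [hc0] at h2
  simp only [ZMod.val_zero, pow_zero, one_mul] at h2
  rw [← UpperHalfPlane.modular_T_zpow_smul]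
  simp only [compSL_apply]
  rw [← h2]
  congr 1
  rw [← mul_smul, ← mul_smul, mul_assoc, mul_assoc, inv_mul_cancel, mul_one]

/-- Every translate of a twisted function is meromorphic at `i∞` of width `N`. -/
theorem K2_isMerInf {c : G0 N → ZMod p} (hc : IsParHom c) {U : ℍ → ℂ}
    (hU : IsTwisted N p c U) (g : SL(2, ℤ)) : IsMerInf N (compSL g U) := by
  refine ⟨H648.mdifferentiable_comp_smul hU.mdiff g,
    H332.periodic_comp_ofComplex_of_vadd (K2_compSL_vadd N p hc hU.hasChar g), ?_⟩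
  have hg : ExpGrowth (compSL g U) :=
    K2_expGrowth_of_pow (NeZero.ne p) (hU.pow_mem.2.2 g)
  obtain ⟨M, hM⟩ := H882.isBounded_mul_qh_pow_of_expGrowth hg
  exact ⟨N * M, by rw [K2_qh_pow]; exact hM⟩

/-- A twisted function lies in the S24 ring `holN N`. -/
theorem K2_mem_holN {c : G0 N → ZMod p} (hc : IsParHom c) {U : ℍ → ℂ}
    (hU : IsTwisted N p c U) : U ∈ holN N :=
  ⟨hU.mdiff, fun g => ⟨qexpFun N (compSL g U), fun τ => hasSum_qexpFun (K2_isMerInf N p hc hU g) τ⟩⟩

end Twisted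

/-- The two fixed embeddings `ℚ̄ → ℂ` of S24 agree. -/
theorem K2_iotaC_eq : Deg457.iotaC = ιK := rfl

/-- An expansion in `q` is an expansion in `q^{1/N}`. -/
theorem K2_infExp_of_one (N : ℕ) [NeZero N] {f : ℍ → ℂ} {φ : LaurentSeries ℂ}
    (h : InfExp 1 f φ) : InfExp N f (qExpand ℂ N φ) := by
  have hN : 0 < N := Nat.pos_of_ne_zero (NeZero.ne N)
  have h1 := h.comp_infAff (N := N) (e := N) 0 one_pos one_pos one_pos hN (by ring)
  rw [mul_one, infRoot_zero, infTwist_one] at h1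
  refine h1.congr fun τ => ?_
  rw [infAff_one_zero_one]

section Main

variable (N : ℕ) [NeZero N] (p : ℕ) [NeZero p]

/-- **PIECE `K2`** of the M4b sub-skeleton (EXACT type of `M4b/Skeleton.lean`). -/
theorem exists_isKummerClass_of_realised {c : G0 N → ZMod p} (hc : IsParHom c) {U : ℍ → ℂ}
    {u : FF N} (hU : IsTwisted N p c U) (hu : Realises N u (fun τ => U τ ^ p)) :
    ∃ x : JZero N, H455.IsKummerClass (p : ℤ) u x := by
  classical
  set A : AnalyticCore N := analyticCore N with hA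
  -- `U` as an element of `Hol`
  have hmem : U ∈ holN N := K2_mem_holN N p hc hU
  let Uh : A.toHolBase.Hol := ⟨U, hmem⟩
  have hUh : Uh ≠ 0 := by
    intro h0
    obtain ⟨τ, hτ⟩ := hU.ne_zero
    apply hτ
    have := congrArg (fun f : A.toHolBase.Hol => (f : ℍ → ℂ) τ) h0
    simpa [Uh] using this
  -- the expansion of `U ^ p`
  have hmer : IsMerInf 1 (fun τ => U τ ^ p) := H882.isMerInf_of_mem_goodRing hu.1
  have hexp1 : InfExp 1 (fun τ => U τ ^ p)
      (coeffMap ιK ((u : FF N) : LaurentSeries Kbar)) := by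
    intro τ
    have := hasSum_qexpFun hmer τ
    rw [hu.2, K2_iotaC_eq] at this
    exact this
  have hexpN := K2_infExp_of_one N hexp1
  have hqU : A.toHolBase.qexp (Uh ^ p) = HolBase.Φ N ((u : FF N) : LaurentSeries Kbar) := by
    have hs : InfExp N (((Uh ^ p : A.toHolBase.Hol) : ℍ → ℂ)) (A.toHolBase.qexp (Uh ^ p)) :=
      expInf_spec (holToExp N (Uh ^ p))
    exact hs.unique' hexpN (fun τ => rfl)
  -- `u = r / s`
  obtain ⟨r, s, hs, hrs⟩ := exists_div_inclRN N u
  have hs' : inclRN N s ≠ 0 := fun h => hs (inclRN_injective N (by rw [h, map_zero]))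
  have hus : ((u : FF N) : LaurentSeries Kbar) * (s : LaurentSeries Kbar)
      = (r : LaurentSeries Kbar) := by
    have h1 : u * inclRN N s = inclRN N r := by rw [hrs, div_mul_cancel₀ _ hs']
    have := congrArg (fun f : FF N => (f : LaurentSeries Kbar)) h1
    simpa using this
  have hrel : A.toHolBase.bridge r * (1 : A.toHolBase.Hol) ^ p
      = A.toHolBase.constH 1 * Uh ^ p * A.toHolBase.bridge s := by
    apply A.toHolBase.qexp_injective
    have h1 : A.toHolBase.qexp (A.toHolBase.constH 1) = 1 := by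
      have := A.toHolBase.qexp_const 1
      rw [HahnSeries.C_one] at this
      exact this
    rw [one_pow, mul_one, map_mul, map_mul, HolBase.qexp_bridge, HolBase.qexp_bridge, hqU,
      h1, one_mul, ← map_mul, hus]
  have hr : r ≠ 0 := by
    intro hr0
    rw [hr0, map_zero, zero_mul] at hrel
    have h1 : A.toHolBase.constH 1 * Uh ^ p * A.toHolBase.bridge s = 0 := hrel.symm
    have hb : A.toHolBase.bridge s ≠ 0 := fun h =>
      hs (HolBase.bridge_injective A.toHolBase (by rw [h, map_zero]))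
    have hc1 : A.toHolBase.constH 1 ≠ 0 := by
      intro h
      have := congrArg A.toHolBase.qexp h
      rw [map_zero] at this
      have h2 := A.toHolBase.qexp_const 1
      rw [HahnSeries.C_one] at h2
      rw [HolBase.constH, h2] at this
      exact one_ne_zero this
    have : IsDomain A.toHolBase.Hol :=
      Function.Injective.isDomain A.toHolBase.qexp A.toHolBase.qexp_injective
    exact mul_ne_zero (mul_ne_zero hc1 (pow_ne_zero p hUh)) hb h1
  have hinv : ∀ δ : SL(2, ℤ), δ ∈ CongruenceSubgroup.Gamma0 N → Nice δ →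
      A.toHolBase.compH δ Uh * 1 = Uh * A.toHolBase.compH δ 1 := by
    intro δ hδ hnice
    rw [map_one, mul_one, mul_one]
    have hc0 : c ⟨δ, hδ⟩ = 0 := by
      rcases hnice with hfin | htr
      · obtain ⟨n, hn, hpow⟩ := isOfFinOrder_iff_pow_eq_one.mp hfin
        exact hc.elliptic ⟨δ, hδ⟩ n hn (Subtype.ext (by simpa using hpow))
      · exact hc.parabolic ⟨δ, hδ⟩ (Or.inl htr)
    apply Subtype.ext
    funext τ
    have h2 := hU.hasChar ⟨δ, hδ⟩ τ
    rw [hc0] at h2
    simp only [ZMod.val_zero, pow_zero, one_mul] at h2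
    exact h2
  obtain ⟨x, hx⟩ := exists_isKummerClass_of_analytic_pow A p (NeZero.ne p) r s hr hs Uh 1 hUh
    one_ne_zero 1 one_ne_zero hrel hinv
  exact ⟨x, by rw [hrs]; exact hx⟩

end Main

end Fermat.Agent.S29.H389

end
end
-- ===== PACK-END S29/H389/K2.lean

-- ===== PACK-BEGIN S29/M4b/K3/Defs.lean
section
/-
S29 row, LAYER M, SUB-LAYER M4b, PIECE K3 (descent `ℂ → ℚ̄`) — interface definitions of the
K3 sub-skeleton (helper42, squad-lead S29/S42).  Namespace `Fermat.Agent.S29.M4b.K3`.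

K3 (`exists_realised_isTwisted` of `M4b/Skeleton.lean`) is PROVED in `M4b/K3/Top.lean` from
* `H152.desc_main` (helper152; places-free descent of Kummer classes),
* the landed ROOT lemma `H751.exists_pow_eq_UHP`, MERO `H882`, and
* the two `Prop`s below: `DegStatement` (bounded degree of `F_ℂ` over `ℂ(j)`) and `FinStatement`
  (finiteness of the `Aut(ℂ/ℚ̄)`-orbit of the Kummer class of a twisted function).
-/


set_option autoImplicit false

noncomputable section

open ModularCurve AlgebraicCurve CongruenceSubgroup UpperHalfPlane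
open scoped MatrixGroups Manifold

namespace Fermat.Agent.S29.M4b.K3

open Fermat.Agent.S24 Fermat.Agent.S24.H648 Fermat.Agent.S24.H708 Fermat.Agent.S24.Deg457
open Fermat.Agent.S29 Fermat.Agent.S29.M4b

/-- `ℂ` as an algebra over `ℚ̄` along the fixed embedding `Deg457.iotaC`.  (A `def`, not an
instance: use `letI := algKC`.) -/
@[reducible] def algKC : Algebra Kbar ℂ := iotaC.toAlgebra

/-- The function field of `X₀(N)` over `ℂ` inside `ℂ((q))` (Prelude object). -/
abbrev FC (N : ℕ) : IntermediateField ℂ (LaurentSeries ℂ) :=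
  laurentBaseChange ℂ (modularFunctionFieldFull N)

/-- SUB-PIECE `K3-DEG`: the function field `F_ℂ = ℂ(j(q^d) : d ∣ N)` has bounded degree over
`ℂ(j)` (every element is a root of a polynomial of degree `≤ n` over `ℂ(j)`).
Exactly the hypothesis `hdeg` of `H152.desc_main`. -/
def DegStatement (N : ℕ) : Prop :=
  ∃ n : ℕ, ∀ u ∈ FC N,
    IsIntegral (IntermediateField.adjoin ℂ {coeffEmb ℂ jq}) u ∧
      (minpoly (IntermediateField.adjoin ℂ {coeffEmb ℂ jq}) u).natDegree ≤ n

/-- SUB-PIECE `K3-FIN` (the arithmetic heart of K3): for a twisted function `U` of a parabolic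
character, the `Aut(ℂ/ℚ̄)`-orbit of the class of `f = qexp (U ^ p)` in `F_ℂˣ / (F_ℂˣ) ^ p` is
finite.  Exactly the hypothesis `horb` of `H152.desc_main`.

Why true: `p ∣ ord_w f` at every place `w` of `F_ℂ/ℂ` (K2 over `ℂ`); `σ` permutes the places, so
the same holds for `σ f`, which is again the `q`-expansion of a good function `G_σ` (`σ f` is
integral over `ℂ[j]`); by the easy half of the dictionary `p ∣ ord_τ G_σ` for all `τ ∈ ℍ`, so
`G_σ = U_σ ^ p` (ROOT) and `U_σ` has a character `χ_σ : Γ₀(N) → μ_p`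
(`H751.exists_character_of_pow_eq`); there are finitely many characters (`Γ₀(N)` is finitely
generated), and `χ_σ = χ_σ'` implies `σ f / σ' f = (U_σ U_σ' ^ (p-1) / G_σ') ^ p ∈ (F_ℂˣ) ^ p`
(MERO applied to the good invariant function `U_σ U_σ' ^ (p-1)`). -/
def FinStatement (N p : ℕ) : Prop :=
  letI := algKC
  ∀ (c : G0 N → ZMod p), IsParHom c → ∀ U : ℍ → ℂ, IsTwisted N p c U →
    ∃ T : Set (LaurentSeries ℂ), T.Finite ∧ ∀ σ : ℂ ≃ₐ[Kbar] ℂ, ∃ t ∈ T,
      ∃ u ∈ FC N, u ≠ 0 ∧
        coeffMap (σ : ℂ →+* ℂ) (qexpFun 1 (fun τ => U τ ^ p)) = t * u ^ p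

end Fermat.Agent.S29.M4b.K3

end
end
-- ===== PACK-END S29/M4b/K3/Defs.lean

-- ===== PACK-BEGIN S29/M4b/K3/Basic.lean
section
/-
S29 row, M4b, piece K3 — basic lemmas for the top assembly (helper42).

* `isMerInf_of_isTwisted` : a twisted function of a parabolic character has a `q`-expansion at `i∞`.
* `exists_div_AK`, `exists_div_goodQ` : elements of the function fields over `ℚ̄` / `ℂ` are
  quotients of polynomials in the `j(q^d)` / of `q`-expansions of good functions.
* `hasChar_of_mul_eq` : transport of the character along `U' * B = ζ * U * A`.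
-/



set_option autoImplicit false

noncomputable section

open ModularCurve AlgebraicCurve CongruenceSubgroup UpperHalfPlane
open scoped MatrixGroups Manifold

namespace Fermat.Agent.S29.M4b.K3

open Fermat.Agent.S24 Fermat.Agent.S24.H648 Fermat.Agent.S24.H708 Fermat.Agent.S24.Deg457
open Fermat.Agent.S24.H624
open Fermat.Agent.S29 Fermat.Agent.S29.M4b

variable {N : ℕ} [NeZero N] {p : ℕ} [NeZero p]

/-- The translation `T` as an element of `Γ₀(N)`. -/
def TG (N : ℕ) : G0 N := ⟨ModularGroup.T, H882.T_mem_Gamma0 N⟩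

omit [NeZero N] in
theorem trace_TG : (TG N).mat.trace = 2 := by
  simp [TG, G0.mat, ModularGroup.T, Matrix.trace_fin_two]

omit [NeZero N] [NeZero p] in
/-- A twisted function of a parabolic character is `1`-periodic. -/
theorem periodic_of_isTwisted {c : G0 N → ZMod p} (hc : IsParHom c) {U : ℍ → ℂ}
    (hU : HasChar N p c U) : Function.Periodic (U ∘ ofComplex) (1 : ℝ) := by
  have hT : ∀ τ : ℍ, U (ModularGroup.T • τ) = U τ := by
    intro τ
    have h := hU (TG N) τ
    rw [hc.parabolic (TG N) (Or.inl trace_TG)] at h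
    simpa [TG] using h
  intro w
  by_cases hw : 0 < Complex.im w
  · have hw' : 0 < Complex.im (w + ((1 : ℝ) : ℂ)) := by simpa using hw
    simp only [Function.comp_apply, ofComplex_apply_of_im_pos hw', ofComplex_apply_of_im_pos hw]
    rw [← hT ⟨w, hw⟩]
    congr 1
    apply UpperHalfPlane.ext
    rw [UpperHalfPlane.modular_T_smul, UpperHalfPlane.coe_vadd]
    simp [add_comm]
  · have hw0 : Complex.im w ≤ 0 := not_lt.mp hw
    have hw' : Complex.im (w + ((1 : ℝ) : ℂ)) ≤ 0 := by simpa using hw0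
    simp only [Function.comp_apply]
    rw [ofComplex_apply_of_im_nonpos hw', ofComplex_apply_of_im_nonpos hw0]

omit [NeZero N] in
/-- If `U ^ p` has at most exponential growth, so has `U`. -/
theorem expGrowth_of_pow {U : ℍ → ℂ} (h : ExpGrowth (fun τ => U τ ^ p)) : ExpGrowth U := by
  obtain ⟨C, m, hC⟩ := h
  refine ⟨1 + |C|, m, fun τ hτ => ?_⟩
  have h1 := hC τ hτ
  rw [norm_pow] at h1
  have hp : p ≠ 0 := NeZero.ne p
  have hexp : (1 : ℝ) ≤ Real.exp (2 * Real.pi * m * τ.im) := by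
    apply Real.one_le_exp
    have := Real.pi_pos
    have := τ.im_pos
    positivity
  by_cases hle : ‖U τ‖ ≤ 1
  · calc ‖U τ‖ ≤ 1 := hle
      _ ≤ (1 + |C|) * 1 := by have := abs_nonneg C; linarith
      _ ≤ (1 + |C|) * Real.exp (2 * Real.pi * m * τ.im) := by
          apply mul_le_mul_of_nonneg_left hexp
          have := abs_nonneg C; linarith
  · have hgt : 1 ≤ ‖U τ‖ := (not_le.mp hle).le
    have h2 : ‖U τ‖ ≤ ‖U τ‖ ^ p := le_self_pow₀ hgt hp
    calc ‖U τ‖ ≤ ‖U τ‖ ^ p := h2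
      _ ≤ C * Real.exp (2 * Real.pi * m * τ.im) := h1
      _ ≤ (1 + |C|) * Real.exp (2 * Real.pi * m * τ.im) := by
          apply mul_le_mul_of_nonneg_right _ (Real.exp_pos _).le
          have := le_abs_self C; linarith

omit [NeZero N] in
/-- **K3a**: a twisted function of a parabolic character is meromorphic at `i∞` in `q`. -/
theorem isMerInf_of_isTwisted {c : G0 N → ZMod p} (hc : IsParHom c) {U : ℍ → ℂ}
    (hU : IsTwisted N p c U) : IsMerInf 1 U := by
  refine ⟨hU.mdiff, ?_, ?_⟩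
  · have := periodic_of_isTwisted hc hU.hasChar
    simpa using this
  · obtain ⟨-, -, h3⟩ := hU.pow_mem
    have h := h3 1
    simp only [one_smul] at h
    exact H882.isBounded_mul_qh_pow_of_expGrowth (expGrowth_of_pow h)

/-! ### Quotient presentations -/

section Quot

variable (K : Type*) [Field K] [Algebra ℚ K]

omit [NeZero N] in
/-- The polynomials in the `j(q^d)` lie in the function field. -/
theorem AK_le_laurentBaseChange (N : ℕ) :
    AK K N ≤ (laurentBaseChange K (modularFunctionFieldFull N)).toSubalgebra := by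
  refine Algebra.adjoin_le ?_
  rintro _ ⟨y, hy, rfl⟩
  exact coeffEmb_mem_laurentBaseChange K (IntermediateField.subset_adjoin ℚ _ hy)

omit [NeZero N] in
/-- Every element of the function field is a quotient of two polynomials in the `j(q^d)`. -/
theorem exists_div_AK (N : ℕ) {x : LaurentSeries K}
    (hx : x ∈ laurentBaseChange K (modularFunctionFieldFull N)) :
    ∃ r ∈ AK K N, ∃ s ∈ AK K N, s ≠ 0 ∧ x = r / s := by
  have h := laurentBaseChange_full_le (K := K) N hx
  rw [IntermediateField.mem_adjoin_iff_div] at h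
  obtain ⟨r, hr, s, hs, rfl⟩ := h
  by_cases hs0 : s = 0
  · refine ⟨0, zero_mem _, 1, one_mem _, one_ne_zero, ?_⟩
    rw [hs0, div_zero, zero_div]
  · exact ⟨r, hr, s, hs, hs0, rfl⟩

end Quot

/-- Every element of `F_ℂ` is a quotient of `q`-expansions of good functions. -/
theorem exists_div_goodQ {x : LaurentSeries ℂ} (hx : x ∈ FC N) :
    ∃ a ∈ H882.goodQ N, ∃ b ∈ H882.goodQ N, b ≠ 0 ∧ x = a / b := by
  obtain ⟨r, hr, s, hs, hs0, h⟩ := exists_div_AK ℂ N hx
  exact ⟨r, H882.AK_le_goodQ N hr, s, H882.AK_le_goodQ N hs, hs0, h⟩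

/-! ### Transport of the character -/

omit [NeZero N] [NeZero p] in
/-- If `U' * B = ζ * (U * A)` with `A`, `B` invariant under `Γ₀(N)`, `B ≠ 0`, all functions
holomorphic, and `U` has character `c`, then `U'` has character `c`. -/
theorem hasChar_of_mul_eq {c : G0 N → ZMod p} {U U' A B : ℍ → ℂ} (ζ : ℂ)
    (hU' : MDifferentiable 𝓘(ℂ) 𝓘(ℂ) U') (hB : MDifferentiable 𝓘(ℂ) 𝓘(ℂ) B) (hB0 : B ≠ 0)
    (hAinv : ∀ γ ∈ Gamma0 N, ∀ τ : ℍ, A (γ • τ) = A τ)
    (hBinv : ∀ γ ∈ Gamma0 N, ∀ τ : ℍ, B (γ • τ) = B τ)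
    (hU : HasChar N p c U) (h : ∀ τ, U' τ * B τ = ζ * (U τ * A τ)) : HasChar N p c U' := by
  intro γ τ₀
  -- the holomorphic function `D τ = U' (γ τ) - χ U' τ`
  set χ : ℂ := zetaP p ^ (c γ).val with hχ
  set D : ℍ → ℂ := fun τ => U' ((γ : SL(2, ℤ)) • τ) - χ * U' τ with hD
  have hDm : MDifferentiable 𝓘(ℂ) 𝓘(ℂ) D := by
    have h1 : MDifferentiable 𝓘(ℂ) 𝓘(ℂ) (fun τ : ℍ => U' ((γ : SL(2, ℤ)) • τ)) :=
      (precompSL (γ : SL(2, ℤ)) ⟨U', hU'⟩).2
    have h2 : MDifferentiable 𝓘(ℂ) 𝓘(ℂ) (fun τ : ℍ => χ * U' τ) :=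
      (mdifferentiable_const (c := χ)).mul hU'
    exact h1.sub h2
  have hDB : D * B = 0 := by
    funext τ
    simp only [Pi.mul_apply, Pi.zero_apply, hD]
    have e1 := h ((γ : SL(2, ℤ)) • τ)
    rw [hBinv _ γ.2 τ, hAinv _ γ.2 τ, hU γ τ] at e1
    have e2 := h τ
    calc (U' ((γ : SL(2, ℤ)) • τ) - χ * U' τ) * B τ
        = U' ((γ : SL(2, ℤ)) • τ) * B τ - χ * (U' τ * B τ) := by ring
      _ = ζ * (zetaP p ^ (c γ).val * U τ * A τ) - χ * (ζ * (U τ * A τ)) := by rw [e1, e2]
      _ = 0 := by rw [hχ]; ring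
  rcases mul_eq_zero_of_mdiff hDm hB hDB with h0 | h0
  · have := congrFun h0 τ₀
    simp only [hD, Pi.zero_apply] at this
    exact sub_eq_zero.mp this
  · exact absurd h0 hB0

end Fermat.Agent.S29.M4b.K3

end
end
-- ===== PACK-END S29/M4b/K3/Basic.lean

-- ===== PACK-BEGIN S29/M4b/K3/Top.lean
section
/-
S29 row, LAYER M, SUB-LAYER M4b, PIECE K3 (descent `ℂ → ℚ̄`) — TOP ASSEMBLY (helper42).

`exists_realised_isTwisted_of` = the EXACT statement of piece `K3` of helper822's
`M4b/Skeleton.lean` (`exists_realised_isTwisted`), PROVED from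
* `DegStatement N`   (sub-piece K3-DEG),
* `FinStatement N p` (sub-piece K3-FIN),
* `H152.desc_main` (helper152, places-free descent), ROOT `H751`, MERO `H882`.

Proof.  `f = qexp (U^p) ∈ F_ℂ` (MERO), `h = qexp U`, `h^p = f`.  By `desc_main` there are
`g ∈ F_ℂˣ`, `f' ∈ FF N` with `f g^p = ι f'`.  Write `f' = r / s` with `r, s` polynomials in the
`j(q^d)` over `ℚ̄`; `u := r s^(p-1) = f' s^p` is realised by a good function `G'`
(`AK ⊆ goodQ`).  Write `g ι(s) = a / b` with `a = qexp A`, `b = qexp B`, `A B` good.  Then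
`G' B^p = (U A)^p`, so all orders of `G'` are divisible by `p`, `G' = U'^p` (ROOT), and
`U' B = ζ U A`, whence `U'` has the character of `U`.
-/




set_option autoImplicit false
set_option linter.style.haveILetI false

noncomputable section

open ModularCurve AlgebraicCurve CongruenceSubgroup UpperHalfPlane
open scoped MatrixGroups Manifold

namespace Fermat.Agent.S29.M4b.K3

open Fermat.Agent.S24 Fermat.Agent.S24.H648 Fermat.Agent.S24.H708 Fermat.Agent.S24.Deg457
open Fermat.Agent.S24.H624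
open Fermat.Agent.S29 Fermat.Agent.S29.M4b

theorem order_jq : jq.order = -1 := by
  have hne : jq ≠ 0 := by
    intro h
    have h1 := coeff_jq_neg_one
    rw [h, HahnSeries.coeff_zero] at h1
    exact zero_ne_one h1
  refine le_antisymm (HahnSeries.order_le_of_coeff_ne_zero ?_) ?_
  · rw [coeff_jq_neg_one]
    exact one_ne_zero
  · by_contra hlt
    rw [not_le] at hlt
    refine HahnSeries.coeff_order_eq_zero.not.mpr hne ?_
    exact coeff_jq_of_lt hlt

/-- ROOT with divisibility read off from an identity `G * B ^ p = V ^ p`. -/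
theorem exists_root_of_mul_pow_eq {p : ℕ} (hp : p ≠ 0) {G B V : ℍ → ℂ}
    (hG : MDifferentiable 𝓘(ℂ) 𝓘(ℂ) G) (hB : MDifferentiable 𝓘(ℂ) 𝓘(ℂ) B)
    (hV : MDifferentiable 𝓘(ℂ) 𝓘(ℂ) V) (hB0 : B ≠ 0) (hV0 : V ≠ 0)
    (h : ∀ τ, G τ * B τ ^ p = V τ ^ p) :
    ∃ U' : ℍ → ℂ, MDifferentiable 𝓘(ℂ) 𝓘(ℂ) U' ∧ ∀ τ : ℍ, U' τ ^ p = G τ := by
  refine H751.exists_pow_eq_UHP hG p hp fun τ => ?_
  have hfun : G * B ^ p = V ^ p := funext h
  have h1 : ordAt τ (G * B ^ p) = ordAt τ G + p • ordAt τ B := by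
    rw [ordAt_mul hG (hB.pow p)]
    congr 1
    rw [ordAt_def, ordAt_def]
    have : (B ^ p) ∘ ofComplex = (B ∘ ofComplex) ^ p := rfl
    rw [this, analyticOrderAt_pow (analyticAt_of_mdiff hB τ)]
  have h2 : ordAt τ (V ^ p) = p • ordAt τ V := by
    rw [ordAt_def, ordAt_def]
    have : (V ^ p) ∘ ofComplex = (V ∘ ofComplex) ^ p := rfl
    rw [this, analyticOrderAt_pow (analyticAt_of_mdiff hV τ)]
  rw [hfun, h2] at h1
  obtain ⟨b, hb⟩ := ENat.ne_top_iff_exists.mp (ordAt_ne_top hB hB0 τ)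
  obtain ⟨v, hv⟩ := ENat.ne_top_iff_exists.mp (ordAt_ne_top hV hV0 τ)
  have hGne : ordAt τ G ≠ ⊤ := by
    intro htop
    rw [htop, top_add, ← hv] at h1
    have h4 : ((p * v : ℕ) : ℕ∞) = ⊤ := by
      rw [← h1]; push_cast; simp [nsmul_eq_mul]
    exact ENat.natCast_ne_top _ h4
  obtain ⟨g, hg⟩ := ENat.ne_top_iff_exists.mp hGne
  rw [← hb, ← hv, ← hg] at h1
  have h3 : p * v = g + p * b := by
    have : ((p * v : ℕ) : ℕ∞) = ((g + p * b : ℕ) : ℕ∞) := by
      push_cast
      simpa [nsmul_eq_mul] using h1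
    exact_mod_cast this
  refine ⟨v - b, ?_⟩
  rw [← ordAt_def, ← hg]
  have hbv : b ≤ v := by
    by_contra hlt
    rw [not_le] at hlt
    have : p * v < p * b := Nat.mul_lt_mul_of_pos_left hlt (Nat.pos_of_ne_zero hp)
    omega
  have : g = p * (v - b) := by
    rw [Nat.mul_sub]
    omega
  rw [this]

/-- **PIECE K3** (exact statement of `exists_realised_isTwisted` in `M4b/Skeleton.lean`), from
the sub-pieces `K3-DEG` and `K3-FIN`. -/
theorem exists_realised_isTwisted_of (N : ℕ) [NeZero N] (p : ℕ) [NeZero p]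
    (hdeg : DegStatement N) (hfin : FinStatement N p)
    {c : G0 N → ZMod p} (hc : IsParHom c) {U : ℍ → ℂ} (hU : IsTwisted N p c U) :
    ∃ (U' : ℍ → ℂ) (u : FF N), IsTwisted N p c U' ∧ Realises N u (fun τ => U' τ ^ p) := by
  classical
  letI : Algebra Kbar ℂ := algKC
  have hp : p ≠ 0 := NeZero.ne p
  -- `q`-expansions of `U` and `U ^ p`
  have hqU : HasQExp 1 U (qexpFun 1 U) := HasQExp.of_isMerInf (isMerInf_of_isTwisted hc hU)
  have hqG : HasQExp 1 (fun τ => U τ ^ p) (qexpFun 1 U ^ p) := hqU.pow p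
  have hfFC : qexpFun 1 (fun τ => U τ ^ p) ∈ FC N := H882.qexpFun_mem_FC hU.pow_mem
  have hUne : U ≠ 0 := by
    obtain ⟨τ, hτ⟩ := hU.ne_zero
    intro h0
    exact hτ (by rw [h0]; rfl)
  have hGne : (fun τ => U τ ^ p) ≠ 0 := by
    obtain ⟨τ, hτ⟩ := hU.ne_zero
    intro h0
    exact pow_ne_zero p hτ (congrFun h0 τ)
  have hf0 : qexpFun 1 (fun τ => U τ ^ p) ≠ 0 := by
    rw [hqG.qexpFun_eq]
    exact fun h0 => hGne (hqG.eq_zero_iff.mp h0)
  -- descent
  obtain ⟨n, hn⟩ := hdeg
  obtain ⟨T, hT, horb⟩ := hfin c hc U hU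
  obtain ⟨g, hgF, hg0, -, -, -, f', hf', hfg⟩ := H152.desc_main (K := Kbar) (Ω := ℂ)
    (modularFunctionFieldFull N) jq (modularFunctionField_le_full N (jq_mem N)) order_jq n hn
    p (Nat.pos_of_ne_zero hp) (qexpFun 1 (fun τ => U τ ^ p)) (qexpFun 1 U) hfFC hf0
    hqG.qexpFun_eq.symm T hT horb
  -- clear the denominator of `f'` by a `p`-th power
  obtain ⟨r, hr, s, hs, hs0, hrs⟩ := exists_div_AK Kbar N hf'
  have hιinj : Function.Injective (coeffMap iotaC) := by
    intro x y hxy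
    ext k
    have := congrArg (fun z : LaurentSeries ℂ => z.coeff k) hxy
    simp only [coeffMap_coeff] at this
    exact iotaC.injective this
  have hιs0 : coeffMap iotaC s ≠ 0 := fun h0 => hs0 (hιinj (by rw [h0, map_zero]))
  set u₀ : LaurentSeries Kbar := r * s ^ (p - 1) with hu₀
  have hu₀AK : u₀ ∈ AK Kbar N := mul_mem hr (pow_mem hs _)
  have hu₀F : u₀ ∈ modularFunctionFieldBar N := AK_le_laurentBaseChange Kbar N hu₀AK
  have hu₀eq : u₀ = f' * s ^ p := by
    rw [hu₀, hrs]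
    have : s ^ p = s ^ (p - 1) * s := by
      rw [← pow_succ, Nat.sub_add_cancel (Nat.pos_of_ne_zero hp)]
    rw [this]
    field_simp
  -- `ι u₀ = f * φ ^ p` with `φ = g * ι s ∈ F_ℂ`
  set φ : LaurentSeries ℂ := g * coeffMap iotaC s with hφ
  have hφF : φ ∈ FC N :=
    mul_mem hgF (AK_le_laurentBaseChange ℂ N (coeffMap_mem_AK iotaC hs))
  have hφ0 : φ ≠ 0 := mul_ne_zero hg0 hιs0
  have hιu : coeffMap iotaC u₀ = qexpFun 1 (fun τ => U τ ^ p) * φ ^ p := by
    rw [hu₀eq, map_mul, map_pow, hφ, mul_pow, ← mul_assoc, hfg]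
    rfl
  -- the good function realising `u₀`
  obtain ⟨G', hG'good, hG'q⟩ := H882.AK_le_goodQ N (coeffMap_mem_AK iotaC hu₀AK)
  -- `φ = a / b`, quotient of `q`-expansions of good functions
  obtain ⟨a, ⟨A, hAgood, hAq⟩, b, ⟨B, hBgood, hBq⟩, hb0, hab⟩ := exists_div_goodQ hφF
  have ha0 : a ≠ 0 := by
    rintro rfl
    rw [zero_div] at hab
    exact hφ0 hab
  have hA0 : A ≠ 0 := fun h0 => ha0 (hAq.eq_zero_iff.mpr h0)
  have hB0 : B ≠ 0 := fun h0 => hb0 (hBq.eq_zero_iff.mpr h0)
  -- `G' * B ^ p = (U * A) ^ p`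
  have hser : coeffMap iotaC u₀ * b ^ p = (qexpFun 1 U * a) ^ p := by
    rw [hιu, hab, mul_pow, hqG.qexpFun_eq, mul_assoc, div_pow,
      div_mul_cancel₀ _ (pow_ne_zero p hb0)]
  have hfunc : G' * B ^ p = (U * A) ^ p :=
    HasQExp.eq_of_eq (hser ▸ hG'q.mul (hBq.pow p)) ((hqU.mul hAq).pow p)
  have hpt : ∀ τ, G' τ * B τ ^ p = (U * A) τ ^ p := fun τ => congrFun hfunc τ
  have hG'm : MDifferentiable 𝓘(ℂ) 𝓘(ℂ) G' := hG'good.1
  have hAm : MDifferentiable 𝓘(ℂ) 𝓘(ℂ) A := hAgood.1
  have hBm : MDifferentiable 𝓘(ℂ) 𝓘(ℂ) B := hBgood.1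
  have hUAm : MDifferentiable 𝓘(ℂ) 𝓘(ℂ) (U * A) := hU.mdiff.mul hAm
  have hUA0 : U * A ≠ 0 := by
    intro h0
    rcases mul_eq_zero_of_mdiff hU.mdiff hAm h0 with h1 | h1
    · exact hUne h1
    · exact hA0 h1
  -- the root
  obtain ⟨U', hU'm, hU'p⟩ := exists_root_of_mul_pow_eq hp hG'm hBm hUAm hB0 hUA0 hpt
  -- `U' * B = ζ * (U * A)`
  obtain ⟨τ₀, hτ₀⟩ : ∃ τ₀, (U * A) τ₀ ≠ 0 := by
    by_contra hcon
    push Not at hcon
    exact hUA0 (funext hcon)
  have hpow : ∀ τ, (U' τ * B τ) ^ p = (U * A) τ ^ p := fun τ => by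
    rw [mul_pow, hU'p, hpt]
  set ζ : ℂ := U' τ₀ * B τ₀ / (U * A) τ₀ with hζ
  have hζp : ζ ^ p = 1 := by
    rw [hζ, div_pow, hpow, div_self (pow_ne_zero p hτ₀)]
  have hζ0 : ζ ≠ 0 := fun h0 => by
    rw [h0, zero_pow hp] at hζp
    exact zero_ne_one hζp
  have hmul : (fun τ => U' τ * B τ) = fun τ => ζ * (U * A) τ := by
    refine H751.eq_of_pow_eq_UHP (hU'm.mul hBm) ((mdifferentiable_const (c := ζ)).mul hUAm) hp
      (fun τ => ?_) (τ₀ := τ₀) ?_ ?_
    · rw [hpow, mul_pow, hζp, one_mul]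
    · rw [hζ]
      field_simp
    · intro h0
      have h1 := hpow τ₀
      rw [h0, zero_pow hp] at h1
      exact pow_ne_zero p hτ₀ h1.symm
  have hchar : HasChar N p c U' :=
    hasChar_of_mul_eq ζ hU'm hBm hB0 hAgood.2.1 hBgood.2.1 hU.hasChar
      (fun τ => congrFun hmul τ)
  have hG'eq : (fun τ => U' τ ^ p) = G' := funext hU'p
  have hG'0 : G' ≠ 0 := by
    intro h0
    have := hpt τ₀
    rw [h0] at this
    simp only [Pi.zero_apply, zero_mul] at this
    exact pow_ne_zero p hτ₀ this.symm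
  refine ⟨U', ⟨u₀, hu₀F⟩, ⟨hU'm, ?_, hchar, ?_⟩, ?_, ?_⟩
  · by_contra hcon
    push Not at hcon
    apply hG'0
    funext τ
    rw [← hU'p, hcon, zero_pow hp]
    rfl
  · rw [hG'eq]; exact hG'good
  · rw [hG'eq]; exact hG'good
  · rw [hG'eq]; exact hG'q.qexpFun_eq

end Fermat.Agent.S29.M4b.K3

end
end
-- ===== PACK-END S29/M4b/K3/Top.lean

-- ===== PACK-BEGIN S29/M4b/K3/Deg.lean
section
/-
S29 row, M4b, piece K3 — sub-piece `K3-DEG` (helper42): bounded degree of `F_ℂ` over `ℂ(j)`.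

`degStatement N : DegStatement N` (= hypothesis `hdeg` of `H152.desc_main` for `Ω = ℂ`), with
`n = [SL₂(ℤ) : Γ₀(N)]`.  From the landed S24 degree theory (`Deg457.algDeg_of_mem_field`) and
`H882.exists_monic_of_mem_goodQ`.
-/



set_option autoImplicit false

noncomputable section

open ModularCurve AlgebraicCurve CongruenceSubgroup UpperHalfPlane Polynomial
open scoped MatrixGroups Manifold

namespace Fermat.Agent.S29.M4b.K3

open Fermat.Agent.S24 Fermat.Agent.S24.H648 Fermat.Agent.S24.H708 Fermat.Agent.S24.Deg457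
open Fermat.Agent.S29 Fermat.Agent.S29.M4b

/-- The interface hypothesis of the S24 degree theory over `ℂ`. -/
theorem hyp_complex (N : ℕ) [NeZero N] : Hyp ℂ N (Nat.card (XX N)) := by
  intro b hb
  obtain ⟨P, hPm, hPn, hP⟩ := H882.exists_monic_of_mem_goodQ (H882.AK_le_goodQ N hb)
  exact ⟨P, hPm, hPn, hP⟩

/-- **K3-DEG**. -/
theorem degStatement (N : ℕ) [NeZero N] : DegStatement N := by
  refine ⟨Nat.card (XX N), fun u hu => ?_⟩
  obtain ⟨Q, hQ0, hQn, hQ⟩ := algDeg_of_mem_field (RingHom.id ℂ) (_root_.Fermat.Agent.S29.M4b.K3.hyp_complex N) hu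
  have hj : ∀ t : ℂ[X], t ≠ 0 →
      aeval (IntermediateField.AdjoinSimple.gen ℂ (coeffEmb ℂ jq)) t ≠ 0 := by
    intro t ht h0
    apply aeval_JK_ne_zero ℂ ht
    have h1 := congrArg (algebraMap ↥(IntermediateField.adjoin ℂ {coeffEmb ℂ jq})
      (LaurentSeries ℂ)) h0
    rw [← aeval_algebraMap_apply, map_zero, IntermediateField.AdjoinSimple.algebraMap_gen] at h1
    exact h1
  refine isIntegral_and_natDegree_le_of_relation (K := ℂ)
    (IntermediateField.AdjoinSimple.gen ℂ (coeffEmb ℂ jq)) hj u Q hQ0 _ hQn ?_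
  rw [IntermediateField.AdjoinSimple.algebraMap_gen]
  exact hQ

end Fermat.Agent.S29.M4b.K3

end
end
-- ===== PACK-END S29/M4b/K3/Deg.lean

-- ===== PACK-BEGIN S29/M4b/Top.lean
section
/-
S29 row, LAYER M, SUB-LAYER M4b (the Kummer map) — TOP ASSEMBLY over the seven pieces of
helper822's sub-skeleton (`origin/helper822:Fermat/Agent/S29/M4b/Skeleton.lean`), with the pieces
as `Prop`s (row-lead helper269; the assembly proof is helper822's `exists_kummerMap_of`).

A piece is DONE when it proves one of the `Prop`s `PieceK1 N p`, ..., `PieceHecke N p` below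
(they are the EXACT statements of the skeleton, for a fixed level `N` and modulus `p`).

`M4b_of_pieces` : the seven pieces for `(N, p)`, `p` prime ⟹ the Kummer bridge for `(N, p)`;
`M4bStatement_of_pieces` : the seven pieces for all `N` and all primes `p` ⟹ `M4bStatement`
(the `Prop` of `Fermat/Agent/S29/Parts.lean` consumed by `Main.S29_of_parts`).
The two group-theoretic facts about Hecke factorisations come from the landed `H149/HCoh.lean`.
-/




set_option autoImplicit false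

noncomputable section

open ModularCurve AlgebraicCurve CongruenceSubgroup UpperHalfPlane
open scoped MatrixGroups Manifold

namespace Fermat.Agent.S29.M4b

open Fermat.Agent.S24 Fermat.Agent.S29

section Pieces

variable (N : ℕ) [NeZero N] (p : ℕ)

/-- PIECE `K1` (twisted Eisenstein series). -/
def PieceK1 : Prop :=
  ∀ {c : G0 N → ZMod p}, IsParHom c → ∃ U : ℍ → ℂ, IsTwisted N p c U

/-- PIECE `K3` (descent `ℂ → ℚ̄`). -/
def PieceK3 : Prop :=
  ∀ {c : G0 N → ZMod p}, IsParHom c → ∀ {U : ℍ → ℂ}, IsTwisted N p c U →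
    ∃ (U' : ℍ → ℂ) (u : FF N), IsTwisted N p c U' ∧ Realises N u (fun τ => U' τ ^ p)

/-- PIECE `K2` (dictionary over `ℚ̄`). -/
def PieceK2 : Prop :=
  ∀ {c : G0 N → ZMod p}, IsParHom c → ∀ {U : ℍ → ℂ} {u : FF N}, IsTwisted N p c U →
    Realises N u (fun τ => U τ ^ p) → ∃ x : JZero N, H455.IsKummerClass (p : ℤ) u x

/-- PIECE `K4-UNIQ`. -/
def PieceUniq : Prop :=
  ∀ {c : G0 N → ZMod p} {x x' : JZero N}, IsKum N p c x → IsKum N p c x' → x = x'

/-- PIECE `K4-INJ`. -/
def PieceInj : Prop :=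
  ∀ {c : G0 N → ZMod p}, IsKum N p c (0 : JZero N) → c = 0

/-- PIECE `K4-ADD`. -/
def PieceAdd : Prop :=
  ∀ {c c' : G0 N → ZMod p} {x x' : JZero N},
    IsKum N p c x → IsKum N p c' x' → IsKum N p (c + c') (x + x')

/-- PIECE `K4-HECKE`. -/
def PieceHecke : Prop :=
  ∀ (ℓ : Nat.Primes), ¬ (ℓ : ℕ) ∣ N * p →
    (∀ γ : G0 N, ∃ (π : Equiv.Perm (Option (Fin (ℓ : ℕ)))) (δ : Option (Fin (ℓ : ℕ)) → G0 N),
      ∀ i, IsHeckeFactor (ℓ : ℕ) γ i (π i, δ i)) →
    ∀ {c c' : G0 N → ZMod p}, IsParHom c → IsTransfer N (ℓ : ℕ) c c' →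
      ∀ {x : JZero N}, IsKum N p c x → IsKum N p c' (heckeOperatorBar N ℓ x)

end Pieces

section Assembly

variable {N : ℕ} [NeZero N] {p : ℕ}

theorem top_isKum_exists (h1 : PieceK1 N p) (h3 : PieceK3 N p) (h2 : PieceK2 N p)
    {c : G0 N → ZMod p} (hc : IsParHom c) : ∃ x : JZero N, IsKum N p c x := by
  obtain ⟨U, hU⟩ := h1 hc
  obtain ⟨U', u, hU', hu⟩ := h3 hc hU
  obtain ⟨x, hx⟩ := h2 hc hU' hu
  refine ⟨x, u, 1, U', one_ne_zero, hx, hU', ?_⟩
  simpa using hu

theorem top_isKum_mem_Jp {c : G0 N → ZMod p} {x : JZero N} (h : IsKum N p c x) :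
    x ∈ Jp N p := by
  obtain ⟨f, t, U, -, hx, -, -⟩ := h
  rw [Submodule.mem_torsionBy_iff]
  exact hx.zsmul_eq_zero

open Classical in
/-- The Kummer map: `κ c` is THE Kummer class of `c` (and `0` if there is none). -/
def topKummerMap (N : ℕ) [NeZero N] (p : ℕ) (c : G0 N → ZMod p) : Jp N p :=
  if h : ∃ x : JZero N, IsKum N p c x then ⟨h.choose, top_isKum_mem_Jp h.choose_spec⟩ else 0

theorem top_isKum_kummerMap (h1 : PieceK1 N p) (h3 : PieceK3 N p) (h2 : PieceK2 N p)
    {c : G0 N → ZMod p} (hc : IsParHom c) :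
    IsKum N p c (topKummerMap N p c : JZero N) := by
  have h := top_isKum_exists h1 h3 h2 hc
  rw [topKummerMap, dif_pos h]
  exact h.choose_spec

theorem top_kummerMap_eq (hu : PieceUniq N p) {c : G0 N → ZMod p} {x : JZero N}
    (h : IsKum N p c x) : (topKummerMap N p c : JZero N) = x := by
  have h' : ∃ x : JZero N, IsKum N p c x := ⟨x, h⟩
  rw [topKummerMap, dif_pos h']
  exact hu h'.choose_spec h

/-- The transfer of `c` is `heckeCoh N ℓ c` (`ℓ ∤ N` prime). -/
theorem top_isTransfer_heckeCoh {ℓ : ℕ} (hℓ : ℓ.Prime) (hℓN : ¬ ℓ ∣ N) (c : G0 N → ZMod p) :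
    IsTransfer N ℓ c (heckeCoh N ℓ c) := by
  intro γ π δ hfac
  unfold heckeCoh
  refine Finset.sum_congr rfl fun i _ => ?_
  rw [H149.HCoh_heckeFac_unique hℓ hℓN (hfac i)]

/-- Existence of the Hecke factorisation, with the index map a permutation. -/
theorem top_exists_factor {ℓ : ℕ} (hℓ : ℓ.Prime) (hℓN : ¬ ℓ ∣ N) (γ : G0 N) :
    ∃ (π : Equiv.Perm (Option (Fin ℓ))) (δ : Option (Fin ℓ) → G0 N),
      ∀ i, IsHeckeFactor ℓ γ i (π i, δ i) :=
  ⟨H149.HCoh_perm (H149.HCoh_isFactorSystem hℓ hℓN) γ, fun i => (heckeFac N ℓ γ i).2,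
    fun i => H149.HCoh_heckeFac_spec hℓ hℓN γ i⟩

/-- **Output of sub-layer M4b** for a fixed level and modulus, from the seven pieces. -/
theorem M4b_of_pieces (N : ℕ) [NeZero N] (p : ℕ)
    (h1 : PieceK1 N p) (h3 : PieceK3 N p) (h2 : PieceK2 N p) (hu : PieceUniq N p)
    (hi : PieceInj N p) (ha : PieceAdd N p) (hh : PieceHecke N p) :
    ∃ κ : (G0 N → ZMod p) → Jp N p,
      (∀ c c', IsParHom c → IsParHom c' → κ (c + c') = κ c + κ c') ∧
      (∀ c, IsParHom c → κ c = 0 → c = 0) ∧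
      (∀ ℓ : Nat.Primes, ¬ (ℓ : ℕ) ∣ N * p → ∀ c, IsParHom c →
        κ (heckeCoh N ℓ c) = heckeJp N p ℓ (κ c)) := by
  refine ⟨topKummerMap N p, fun c c' hc hc' => ?_, fun c hc h0 => ?_, fun ℓ hℓ c hc => ?_⟩
  · apply Subtype.ext
    rw [Submodule.coe_add]
    exact top_kummerMap_eq hu
      (ha (top_isKum_kummerMap h1 h3 h2 hc) (top_isKum_kummerMap h1 h3 h2 hc'))
  · have h := top_isKum_kummerMap h1 h3 h2 hc
    rw [h0] at h
    exact hi h
  · apply Subtype.ext
    rw [coe_heckeJp]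
    have hℓN : ¬ (ℓ : ℕ) ∣ N := fun h => hℓ (Dvd.dvd.mul_right h p)
    exact top_kummerMap_eq hu (hh ℓ hℓ (top_exists_factor ℓ.2 hℓN) hc
      (top_isTransfer_heckeCoh ℓ.2 hℓN c) (top_isKum_kummerMap h1 h3 h2 hc))

/-- The seven pieces for all levels and all PRIME moduli give `M4bStatement`. -/
theorem M4bStatement_of_pieces
    (h1 : ∀ (N : ℕ) [NeZero N] (p : ℕ), p.Prime → PieceK1 N p)
    (h3 : ∀ (N : ℕ) [NeZero N] (p : ℕ), p.Prime → PieceK3 N p)
    (h2 : ∀ (N : ℕ) [NeZero N] (p : ℕ), p.Prime → PieceK2 N p)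
    (hu : ∀ (N : ℕ) [NeZero N] (p : ℕ), p.Prime → PieceUniq N p)
    (hi : ∀ (N : ℕ) [NeZero N] (p : ℕ), p.Prime → PieceInj N p)
    (ha : ∀ (N : ℕ) [NeZero N] (p : ℕ), p.Prime → PieceAdd N p)
    (hh : ∀ (N : ℕ) [NeZero N] (p : ℕ), p.Prime → PieceHecke N p) :
    M4bStatement := by
  intro N _ p hp
  exact M4b_of_pieces N p (h1 N p hp.out) (h3 N p hp.out) (h2 N p hp.out) (hu N p hp.out)
    (hi N p hp.out) (ha N p hp.out) (hh N p hp.out)

end Assembly

end Fermat.Agent.S29.M4b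

end
end
-- ===== PACK-END S29/M4b/Top.lean

-- ===== PACK-BEGIN S29/M4b/K3/Main.lean
section
/-
S29 row, M4b, piece K3 — `PieceK3 N p` from the single remaining sub-piece `K3-FIN` (helper42).
-/




set_option autoImplicit false

noncomputable section

open ModularCurve AlgebraicCurve CongruenceSubgroup UpperHalfPlane
open scoped MatrixGroups Manifold

namespace Fermat.Agent.S29.M4b.K3

open Fermat.Agent.S24 Fermat.Agent.S29 Fermat.Agent.S29.M4b

/-- **PIECE K3** in the `Prop` form of `M4b/Top.lean`, from `K3-FIN`. -/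
theorem pieceK3_of_fin (N : ℕ) [NeZero N] (p : ℕ) [NeZero p] (hfin : FinStatement N p) :
    PieceK3 N p :=
  fun hc _ hU => exists_realised_isTwisted_of N p (degStatement N) hfin hc hU

end Fermat.Agent.S29.M4b.K3

end
end
-- ===== PACK-END S29/M4b/K3/Main.lean

-- ===== PACK-BEGIN S29/H332/Growth.lean
section




/-!
# S29 / M4b / K1 → K2 bridge: `holN N` ⊆ exponential growth, and `h ^ p ∈ goodRing N`

* `expGrowth_of_infExp` : a convergent Laurent expansion in `exp(2πiτ/N)` gives the S24 `ExpGrowth`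
  bound on all of `im τ ≥ 1`;
* `mem_goodRing_of_mem_holN` : a `Γ₀(N)`-invariant element of the S24 ring `holN N` lies in the S24
  ring `goodRing N` (the input of helper882's MERO);
* `kummerFun_pow_mem_goodRing`, `hasQExp_kummerFun_pow`.
-/

set_option autoImplicit false

noncomputable section

open UpperHalfPlane HahnSeries ModularCurve Complex
open scoped Real MatrixGroups Manifold

namespace Fermat.Agent.S29.H332

open Fermat.Agent.S24 Fermat.Agent.S24.H997 Fermat.Agent.S24.H624 Fermat.Agent.S24.H648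

variable {N : ℕ} [NeZero N]

omit [NeZero N] in
theorem norm_infZ_eq (τ : ℍ) : ‖infZ N τ‖ = Real.exp (-2 * π * τ.im / N) := by
  rw [infZ, Function.Periodic.norm_qParam]
  rfl

/-- A convergent power series in `z = exp (2πiτ/N)` is bounded on `‖z‖ ≤ r` for every `r < 1`. -/
theorem exists_bound_of_infPExp_of_lt {g : ℍ → ℂ} {ψ : PowerSeries ℂ} (h : InfPExp N g ψ)
    {r : ℝ} (hr0 : 0 < r) (hr1 : r < 1) :
    ∃ C : ℝ, ∀ τ : ℍ, ‖infZ N τ‖ ≤ r → ‖g τ‖ ≤ C := by
  obtain ⟨ρ, hrρ, hρ1⟩ : ∃ ρ, r < ρ ∧ ρ < 1 := exists_between hr1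
  have hρ0 : 0 < ρ := hr0.trans hrρ
  obtain ⟨τ₀, hτ₀⟩ := exists_infZ_eq N (z := ((ρ : ℝ) : ℂ))
    (by exact_mod_cast hρ0.ne')
    (by rw [Complex.norm_real, Real.norm_eq_abs, abs_of_pos hρ0]; exact hρ1)
  have h0 := h τ₀
  rw [hτ₀] at h0
  have hterm := h0.summable.tendsto_atTop_zero
  obtain ⟨B, hB⟩ := (Metric.isBounded_range_of_tendsto _ hterm).exists_norm_le
  have hB' : ∀ n : ℕ, ‖PowerSeries.coeff n ψ‖ * ρ ^ n ≤ B := by
    intro n
    have := hB _ ⟨n, rfl⟩
    rwa [norm_mul, norm_pow, Complex.norm_real, Real.norm_eq_abs, abs_of_pos hρ0] at this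
  have hB0 : 0 ≤ B := le_trans (by positivity) (hB' 0)
  have hq0 : 0 ≤ r / ρ := by positivity
  have hq1 : r / ρ < 1 := (div_lt_one hρ0).mpr hrρ
  refine ⟨B * (1 - r / ρ)⁻¹, fun τ hτ => ?_⟩
  have hgeo : HasSum (fun n : ℕ => B * (r / ρ) ^ n) (B * (1 - r / ρ)⁻¹) :=
    (hasSum_geometric_of_lt_one hq0 hq1).mul_left B
  rw [← (h τ).tsum_eq]
  refine tsum_of_norm_bounded hgeo fun n => ?_
  rw [norm_mul, norm_pow]
  have h1 : ‖infZ N τ‖ ^ n ≤ r ^ n := pow_le_pow_left₀ (norm_nonneg _) hτ n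
  calc ‖PowerSeries.coeff n ψ‖ * ‖infZ N τ‖ ^ n
      ≤ ‖PowerSeries.coeff n ψ‖ * r ^ n :=
        mul_le_mul_of_nonneg_left h1 (norm_nonneg _)
    _ = (‖PowerSeries.coeff n ψ‖ * ρ ^ n) * (r / ρ) ^ n := by
        have e : ρ * (r / ρ) = r := by field_simp
        rw [mul_assoc, ← mul_pow, e]
    _ ≤ B * (r / ρ) ^ n := mul_le_mul_of_nonneg_right (hB' n) (by positivity)

/-- A function with a convergent Laurent expansion in `exp (2πiτ/N)` satisfies the S24
`ExpGrowth` bound (on all of `im τ ≥ 1`). -/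
theorem expGrowth_of_infExp {f : ℍ → ℂ} {φ : LaurentSeries ℂ} (h : InfExp N f φ) :
    ExpGrowth f := by
  have hN : (0 : ℝ) < N := by exact_mod_cast Nat.pos_of_ne_zero (NeZero.ne N)
  have hN1 : (1 : ℝ) ≤ N := by exact_mod_cast Nat.one_le_iff_ne_zero.mpr (NeZero.ne N)
  set r : ℝ := Real.exp (-2 * π / N) with hr
  have hr0 : 0 < r := Real.exp_pos _
  have hr1 : r < 1 := by
    rw [hr, Real.exp_lt_one_iff]
    have : 0 < 2 * π / N := by positivity
    have e : -2 * π / N = -(2 * π / N) := by ring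
    rw [e]
    linarith
  obtain ⟨C, hC⟩ := exists_bound_of_infPExp_of_lt h.powerSeriesPart hr0 hr1
  refine ⟨C, (-φ.order).toNat, fun τ hτ => ?_⟩
  have hz0 : infZ N τ ≠ 0 := infZ_ne_zero N τ
  have hzpos : 0 < ‖infZ N τ‖ := norm_pos_iff.mpr hz0
  have hzle : ‖infZ N τ‖ ≤ r := by
    rw [norm_infZ_eq, hr]
    apply Real.exp_le_exp.mpr
    have hpi := Real.pi_pos
    rw [div_le_div_iff_of_pos_right hN]
    nlinarith
  have hg := hC τ hzle
  rw [norm_mul, norm_zpow] at hg
  have hf : ‖f τ‖ = ‖infZ N τ‖ ^ φ.order * (‖infZ N τ‖ ^ (-φ.order) * ‖f τ‖) := by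
    rw [← mul_assoc, ← zpow_add₀ hzpos.ne', add_neg_cancel, zpow_zero, one_mul]
  have hC0 : 0 ≤ C := le_trans (by positivity) hg
  have hpow : ‖infZ N τ‖ ^ φ.order ≤ Real.exp (2 * π * ((-φ.order).toNat : ℕ) * τ.im) := by
    have hz1 : ‖infZ N τ‖ ≤ 1 := hzle.trans hr1.le
    have hle : -(((-φ.order).toNat : ℕ) : ℤ) ≤ φ.order := by
      have := Int.self_le_toNat (-φ.order)
      omega
    have h1 : ‖infZ N τ‖ ^ φ.order ≤ ‖infZ N τ‖ ^ (-(((-φ.order).toNat : ℕ) : ℤ)) :=
      zpow_le_zpow_right_of_le_one₀ hzpos hz1 hle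
    refine h1.trans ?_
    rw [zpow_neg, zpow_natCast, ← inv_pow, norm_infZ_eq, ← Real.exp_neg, ← Real.exp_nat_mul]
    apply Real.exp_le_exp.mpr
    have him : 0 < τ.im := τ.im_pos
    have hm0 : (0 : ℝ) ≤ ((-φ.order).toNat : ℕ) := Nat.cast_nonneg _
    have hq : 2 * π * τ.im / N ≤ 2 * π * τ.im := by
      rw [div_le_iff₀ hN]
      have : 0 < 2 * π * τ.im := by positivity
      nlinarith
    have : -(-2 * π * τ.im / N) = 2 * π * τ.im / N := by ring
    rw [this]
    calc (((-φ.order).toNat : ℕ) : ℝ) * (2 * π * τ.im / N)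
        ≤ (((-φ.order).toNat : ℕ) : ℝ) * (2 * π * τ.im) :=
          mul_le_mul_of_nonneg_left hq hm0
      _ = 2 * π * ((-φ.order).toNat : ℕ) * τ.im := by ring
  rw [hf]
  calc ‖infZ N τ‖ ^ φ.order * (‖infZ N τ‖ ^ (-φ.order) * ‖f τ‖)
      ≤ Real.exp (2 * π * ((-φ.order).toNat : ℕ) * τ.im) * C :=
        mul_le_mul hpow hg (by positivity) (Real.exp_pos _).le
    _ = C * Real.exp (2 * π * ((-φ.order).toNat : ℕ) * τ.im) := mul_comm _ _

/-- A `Γ₀(N)`-invariant element of `holN N` lies in `goodRing N`. -/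
theorem mem_goodRing_of_mem_holN {f : ℍ → ℂ} (hf : f ∈ holN N)
    (hinv : ∀ γ ∈ CongruenceSubgroup.Gamma0 N, ∀ τ : ℍ, f (γ • τ) = f τ) :
    f ∈ goodRing N := by
  refine ⟨hf.1, hinv, fun g => ?_⟩
  obtain ⟨φ, hφ⟩ := hf.2 g
  exact expGrowth_of_infExp hφ

/-- **K1 → MERO**: the `p`-th power of the Kummer function is a good function of level `N`. -/
theorem kummerFun_pow_mem_goodRing {χ : CongruenceSubgroup.Gamma0 N →* ℂˣ} (hχ : ParTrivial χ)
    (hnorm : ∀ γ, ‖(χ γ : ℂ)‖ = 1) {p : ℕ} (hp : ∀ γ, χ γ ^ p = 1) :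
    kummerFun N χ ^ p ∈ goodRing N := by
  refine mem_goodRing_of_mem_holN (pow_mem (kummerFun_mem_holN hχ hnorm) p) ?_
  intro γ hγ τ
  exact (hasCharacter_kummerFun hχ).pow_invariant hp ⟨γ, hγ⟩ τ

/-- `InfExp` (S24 `Inf`) implies `HasQExp` (S24 `H708`) for holomorphic functions. -/
theorem hasQExp_of_infExp {f : ℍ → ℂ} {φ : LaurentSeries ℂ} (hol : MDiff f)
    (h : InfExp N f φ) : Fermat.Agent.S24.H708.HasQExp N f φ :=
  Fermat.Agent.S24.H708.HasQExp.of_hasSum hol h

omit [NeZero N] in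
/-- The `q`-expansion of the Kummer function (S24 `H708` form). -/
theorem hasQExp_kummerFun {χ : CongruenceSubgroup.Gamma0 N →* ℂˣ} (hχ : ParTrivial χ)
    (hnorm : ∀ γ, ‖(χ γ : ℂ)‖ = 1) :
    Fermat.Agent.S24.H708.HasQExp 1 (kummerFun N χ) (kummerExp N χ) :=
  hasQExp_of_infExp (mdiff_kummerFun hχ hnorm) (infExp_kummerFun hχ hnorm)

omit [NeZero N] in
/-- The `q`-expansion of the `p`-th power of the Kummer function. -/
theorem hasQExp_kummerFun_pow {χ : CongruenceSubgroup.Gamma0 N →* ℂˣ} (hχ : ParTrivial χ)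
    (hnorm : ∀ γ, ‖(χ γ : ℂ)‖ = 1) (p : ℕ) :
    Fermat.Agent.S24.H708.HasQExp 1 (kummerFun N χ ^ p) (kummerExp N χ ^ p) :=
  (hasQExp_kummerFun hχ hnorm).pow p

end Fermat.Agent.S29.H332

end
end
-- ===== PACK-END S29/H332/Growth.lean

-- ===== PACK-BEGIN S29/H332/Rot.lean
section



/-!
# S29 / M4b / K2 (analytic part): local orders of a function with character

In the S24 framework (`HolBase`, `Expansion`, `RotData`): if `f ∈ Hol` is invariant under `ε ^ k`
then `R.m ∣ k * ord (X.E f)`.  For a function `h` with a character `χ` of `Γ₀(N)` and the coset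
`x = g Γ₀(N)`, `h ∘ g⁻¹` is invariant under `ε ^ k` as soon as `ε ^ k x = x` and `χ` is trivial on
`g⁻¹ ε ^ k g` (automatic if `χ` kills parabolic and finite-order elements).  Hence the order of
the expansion `σ_x` of `h ^ p` is divisible by `p * (m / k)`: the divisor of `h ^ p` is divisible
by `p` at every place.
-/

set_option autoImplicit false
set_option linter.unusedSectionVars false

noncomputable section

open UpperHalfPlane HahnSeries ModularCurve
open scoped MatrixGroups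

namespace Fermat.Agent.S29.H332

open Fermat.Agent.S24 Fermat.Agent.S24.H997

variable {N : ℕ} [NeZero N]

section Abstract

variable (B : HolBase N) (X : Expansion B) {ε : SL(2, ℤ)} (R : RotData B X ε)

/-- Iterating the rotation relation. -/
theorem rotRel_pow (k : ℕ) (f : B.Hol) :
    RotRel (R.ζ ^ k) (X.E f) (X.E (B.compH (ε ^ k) f)) := by
  induction k with
  | zero =>
    rw [pow_zero, pow_zero, HolBase.compH_one]
    exact ⟨rfl, by simp⟩
  | succ k ih =>
    have h1 := R.rot (B.compH (ε ^ k) f)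
    rw [← HolBase.compH_mul, ← pow_succ] at h1
    refine ⟨h1.1.trans ih.1, ?_⟩
    rw [h1.2, ih.1, ih.2, ← mul_assoc, pow_succ, mul_zpow, mul_comm (R.ζ ^ (X.E f).order)]

/-- If `f ≠ 0` is invariant under `ε ^ k`, then `m ∣ k * ord (E f)`. -/
theorem dvd_mul_order_of_compH_pow_eq (k : ℕ) {f : B.Hol} (hf : f ≠ 0)
    (hinv : B.compH (ε ^ k) f = f) : (R.m : ℤ) ∣ (k : ℤ) * (X.E f).order := by
  have h := rotRel_pow B X R k f
  rw [hinv] at h
  have hE : X.E f ≠ 0 := fun h0 => hf (X.inj (by rw [h0, map_zero]))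
  have hlc : (X.E f).leadingCoeff ≠ 0 := leadingCoeff_ne_zero.mpr hE
  have h2 := h.2
  have h3 : (R.ζ ^ k) ^ (X.E f).order = 1 := by
    have : (R.ζ ^ k) ^ (X.E f).order * (X.E f).leadingCoeff = 1 * (X.E f).leadingCoeff := by
      rw [one_mul]
      exact h2.symm
    exact mul_right_cancel₀ hlc this
  rw [← zpow_natCast, ← zpow_mul] at h3
  exact (R.hζ.zpow_eq_one_iff_dvd _).mp h3

end Abstract

section Character

variable {χ : CongruenceSubgroup.Gamma0 N →* ℂˣ} {h : ℍ → ℂ}

omit [NeZero N] in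
/-- `h ∘ g` is invariant under `δ` if `g δ g⁻¹ ∈ Γ₀(N)` and `χ (g δ g⁻¹) = 1`. -/
theorem HasCharacter.compSL_compSL (hh : HasCharacter χ h) (g δ : SL(2, ℤ))
    (hδ : g * δ * g⁻¹ ∈ CongruenceSubgroup.Gamma0 N) (hχ : χ ⟨_, hδ⟩ = 1) :
    compSL δ (compSL g h) = compSL g h := by
  funext τ
  simp only [compSL_apply]
  have h1 : g • (δ • τ) = (g * δ * g⁻¹) • (g • τ) := by
    rw [← mul_smul, ← mul_smul, mul_assoc, mul_assoc, inv_mul_cancel, mul_one]
  have h2 := hh ⟨_, hδ⟩ (g • τ)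
  rw [hχ, Units.val_one, one_mul] at h2
  rw [h1, h2]

/-- `χ` is trivial on the elements of finite order. -/
def EllTrivial (χ : CongruenceSubgroup.Gamma0 N →* ℂˣ) : Prop :=
  ∀ (γ : CongruenceSubgroup.Gamma0 N) (n : ℕ), 0 < n → γ ^ n = 1 → χ γ = 1

/-- **Local divisibility.**  Let `h ∈ holN N` be nonzero with character `χ`, `X` an expansion with
rotation data for `ε`, `g ∈ SL(2,ℤ)` and `k` with `g ε^k g⁻¹ ∈ Γ₀(N)`, `χ(g ε^k g⁻¹) = 1`.  Then
`m ∣ k * ord (E (h ∘ g))`. -/
theorem HasCharacter.dvd_mul_order (hh : HasCharacter χ h) (hmem : h ∈ holN N) (h0 : h ≠ 0)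
    (X : Expansion (holBase N)) {ε : SL(2, ℤ)} (R : RotData (holBase N) X ε)
    (g : SL(2, ℤ)) (k : ℕ) (hk : g * ε ^ k * g⁻¹ ∈ CongruenceSubgroup.Gamma0 N)
    (hχ : χ ⟨_, hk⟩ = 1) :
    (R.m : ℤ) ∣ (k : ℤ) * (X.E ((holBase N).compH g ⟨h, hmem⟩)).order := by
  refine dvd_mul_order_of_compH_pow_eq (holBase N) X R k ?_ ?_
  · intro hz
    apply h0
    have := (holBase N).compH_injective g (hz.trans (map_zero _).symm)
    exact congrArg Subtype.val this
  · apply Subtype.ext
    exact hh.compSL_compSL g (ε ^ k) hk hχ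

omit [NeZero N] in
/-- Conjugates of elements of finite order have finite order. -/
theorem EllTrivial.conj (hχ : EllTrivial χ) {ε : SL(2, ℤ)} {n : ℕ} (hn : 0 < n) (hε : ε ^ n = 1)
    (g : SL(2, ℤ)) (k : ℕ) (hk : g * ε ^ k * g⁻¹ ∈ CongruenceSubgroup.Gamma0 N) :
    χ ⟨_, hk⟩ = 1 := by
  refine hχ _ n hn ?_
  apply Subtype.ext
  rw [SubgroupClass.coe_pow, Subgroup.coe_mk, OneMemClass.coe_one]
  have : (g * ε ^ k * g⁻¹) ^ n = g * (ε ^ k) ^ n * g⁻¹ := conj_pow
  rw [this, ← pow_mul, mul_comm, pow_mul, hε, one_pow, mul_one, mul_inv_cancel]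

omit [NeZero N] in
/-- Conjugates of powers of `T` are parabolic. -/
theorem ParTrivial.conj_T (hχ : ParTrivial χ) (g : SL(2, ℤ)) (k : ℕ)
    (hk : g * ModularGroup.T ^ k * g⁻¹ ∈ CongruenceSubgroup.Gamma0 N) :
    χ ⟨_, hk⟩ = 1 := by
  apply hχ
  left
  have := trace_conj_T_zpow g (k : ℤ)
  rwa [zpow_natCast] at this

/-- Local divisibility at a point with finite-order rotation `ε` (elliptic points: `ε = S`,
`ε = S * T`; generic points: `ε = 1`). -/
theorem HasCharacter.dvd_mul_order_of_finite_order (hh : HasCharacter χ h) (hmem : h ∈ holN N)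
    (h0 : h ≠ 0) (hχ : EllTrivial χ)
    (X : Expansion (holBase N)) {ε : SL(2, ℤ)} (R : RotData (holBase N) X ε)
    {n : ℕ} (hn : 0 < n) (hε : ε ^ n = 1)
    (g : SL(2, ℤ)) (k : ℕ) (hk : g * ε ^ k * g⁻¹ ∈ CongruenceSubgroup.Gamma0 N) :
    (R.m : ℤ) ∣ (k : ℤ) * (X.E ((holBase N).compH g ⟨h, hmem⟩)).order :=
  hh.dvd_mul_order hmem h0 X R g k hk (hχ.conj hn hε g k hk)

/-- Local divisibility at the cusps (`ε = T`). -/
theorem HasCharacter.dvd_mul_order_T (hh : HasCharacter χ h) (hmem : h ∈ holN N)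
    (h0 : h ≠ 0) (hχ : ParTrivial χ)
    (X : Expansion (holBase N)) (R : RotData (holBase N) X ModularGroup.T)
    (g : SL(2, ℤ)) (k : ℕ)
    (hk : g * ModularGroup.T ^ k * g⁻¹ ∈ CongruenceSubgroup.Gamma0 N) :
    (R.m : ℤ) ∣ (k : ℤ) * (X.E ((holBase N).compH g ⟨h, hmem⟩)).order :=
  hh.dvd_mul_order hmem h0 X R g k hk (hχ.conj_T g k hk)

end Character

end Fermat.Agent.S29.H332

end
end
-- ===== PACK-END S29/H332/Rot.lean

-- ===== PACK-BEGIN S29/H332/KummerChar.lean
section




/-!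
# S29 / M4b / K1 — Kummer functions of additive characters `Γ₀(N) → ℤ/m`

For an additive map `c : Γ₀(N) → ZMod m` vanishing on all elements of trace `±2` we package the
character `χ_c(γ) = exp(2πi c(γ)/m)` and the Kummer function `h_c = E^{χ_c}₁₂ / (2Δ)`:

* `h_c ∈ holN N`, `h_c(γτ) = χ_c(γ) h_c(τ)`;
* `h_c ^ m ∈ goodRing N` and its `q`-expansion `kummerExp ^ m` lies in the function field
  `laurentBaseChange ℂ (modularFunctionFieldFull N)` (via helper882's MERO);
* `q`-expansion of `h_c` has order `-1` and leading coefficient `1`.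

The modulus `m ≥ 1` is arbitrary (rows S29: `m = p`; S30: `m = p ^ n`).
-/

set_option autoImplicit false
set_option linter.unusedSectionVars false

noncomputable section

open UpperHalfPlane HahnSeries ModularCurve Complex AlgebraicCurve
open scoped Real MatrixGroups Manifold

namespace Fermat.Agent.S29.H332

open Fermat.Agent.S24 Fermat.Agent.S24.H997 Fermat.Agent.S24.H624 Fermat.Agent.S24.H648

variable {N m : ℕ} [NeZero m]

/-- An additive character `Γ₀(N) → ℤ/m` vanishing on the elements of trace `±2`. -/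
structure IsParAdd (c : CongruenceSubgroup.Gamma0 N → ZMod m) : Prop where
  map_mul : ∀ γ γ' : CongruenceSubgroup.Gamma0 N, c (γ * γ') = c γ + c γ'
  parabolic : ∀ γ : CongruenceSubgroup.Gamma0 N,
    ((γ : SL(2, ℤ)).1.trace = 2 ∨ (γ : SL(2, ℤ)).1.trace = -2) → c γ = 0

namespace IsParAdd

variable {c c' : CongruenceSubgroup.Gamma0 N → ZMod m}

theorem map_one (hc : IsParAdd c) : c 1 = 0 := by
  have h := hc.map_mul 1 1
  rw [mul_one] at h
  exact left_eq_add.mp h

/-- The multiplicative character `γ ↦ exp(2πi c(γ)/m)`. -/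
def char (hc : IsParAdd c) : CongruenceSubgroup.Gamma0 N →* ℂˣ :=
  MonoidHom.toHomUnits
    { toFun := fun γ => ZMod.stdAddChar (c γ)
      map_one' := by rw [hc.map_one, AddChar.map_zero_eq_one]
      map_mul' := fun γ γ' => by rw [hc.map_mul, AddChar.map_add_eq_mul] }

@[simp]
theorem char_apply (hc : IsParAdd c) (γ : CongruenceSubgroup.Gamma0 N) :
    (hc.char γ : ℂ) = ZMod.stdAddChar (c γ) := rfl

theorem norm_char (hc : IsParAdd c) (γ : CongruenceSubgroup.Gamma0 N) :
    ‖(hc.char γ : ℂ)‖ = 1 := by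
  rw [char_apply, ZMod.stdAddChar_apply]
  exact Circle.norm_coe _

theorem char_pow (hc : IsParAdd c) (γ : CongruenceSubgroup.Gamma0 N) : hc.char γ ^ m = 1 := by
  apply Units.ext
  rw [Units.val_pow_eq_pow_val, char_apply, ← AddChar.map_nsmul_eq_pow, Units.val_one]
  have : m • c γ = 0 := by
    rw [nsmul_eq_mul]
    simp
  rw [this, AddChar.map_zero_eq_one]

theorem char_eq_one_iff (hc : IsParAdd c) (γ : CongruenceSubgroup.Gamma0 N) :
    hc.char γ = 1 ↔ c γ = 0 := by
  constructor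
  · intro h
    have h1 : (hc.char γ : ℂ) = 1 := by rw [h, Units.val_one]
    rw [char_apply, ← AddChar.map_zero_eq_one (ZMod.stdAddChar (N := m))] at h1
    exact ZMod.injective_stdAddChar h1
  · intro h
    apply Units.ext
    rw [char_apply, h, AddChar.map_zero_eq_one, Units.val_one]

theorem parTrivial (hc : IsParAdd c) : ParTrivial hc.char := by
  intro γ hγ
  rw [char_eq_one_iff]
  exact hc.parabolic γ hγ

theorem ellTrivial (hc : IsParAdd c)
    (hell : ∀ (γ : CongruenceSubgroup.Gamma0 N) (n : ℕ), 0 < n → γ ^ n = 1 → c γ = 0) :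
    EllTrivial hc.char := by
  intro γ n hn hγ
  rw [char_eq_one_iff]
  exact hell γ n hn hγ

theorem add (hc : IsParAdd c) (hc' : IsParAdd c') : IsParAdd (c + c') where
  map_mul γ γ' := by
    simp only [Pi.add_apply, hc.map_mul, hc'.map_mul]
    abel
  parabolic γ hγ := by
    simp only [Pi.add_apply, hc.parabolic γ hγ, hc'.parabolic γ hγ, add_zero]

theorem char_add (hc : IsParAdd c) (hc' : IsParAdd c') :
    (hc.add hc').char = hc.char * hc'.char := by
  ext γ
  simp [AddChar.map_add_eq_mul]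

variable [NeZero N]

variable (N) in
/-- The Kummer function of an additive parabolic character. -/
def kfun (hc : IsParAdd c) : ℍ → ℂ := kummerFun N hc.char

variable (N) in
/-- Its `q`-expansion at `i∞`. -/
def kexp (hc : IsParAdd c) : LaurentSeries ℂ := kummerExp N hc.char

theorem kfun_mem_holN (hc : IsParAdd c) : hc.kfun N ∈ holN N :=
  kummerFun_mem_holN hc.parTrivial hc.norm_char

theorem kfun_smul (hc : IsParAdd c) (γ : CongruenceSubgroup.Gamma0 N) (τ : ℍ) :
    hc.kfun N ((γ : SL(2, ℤ)) • τ) = ZMod.stdAddChar (c γ) * hc.kfun N τ :=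
  hasCharacter_kummerFun hc.parTrivial γ τ

theorem kfun_pow_mem_goodRing (hc : IsParAdd c) : hc.kfun N ^ m ∈ goodRing N :=
  kummerFun_pow_mem_goodRing hc.parTrivial hc.norm_char hc.char_pow

theorem hasQExp_kfun (hc : IsParAdd c) :
    Fermat.Agent.S24.H708.HasQExp 1 (hc.kfun N) (hc.kexp N) :=
  hasQExp_kummerFun hc.parTrivial hc.norm_char

theorem kexp_order (hc : IsParAdd c) : (hc.kexp N).order = -1 :=
  (kummerExp_eq hc.parTrivial hc.norm_char).1

theorem kexp_leadingCoeff (hc : IsParAdd c) : (hc.kexp N).leadingCoeff = 1 :=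
  (kummerExp_eq hc.parTrivial hc.norm_char).2

theorem kexp_ne_zero (hc : IsParAdd c) : hc.kexp N ≠ 0 :=
  kummerExp_ne_zero hc.parTrivial hc.norm_char

theorem kfun_ne_zero (hc : IsParAdd c) : hc.kfun N ≠ 0 :=
  kummerFun_ne_zero hc.parTrivial hc.norm_char

theorem hasCharacter_kfun (hc : IsParAdd c) : HasCharacter hc.char (hc.kfun N) :=
  hasCharacter_kummerFun hc.parTrivial

/-- **K2 (analytic part)**: local divisibility of the orders of the Kummer function, at a point
with rotation `ε` of finite order (`ε = 1`, `S`, `S * T`), for the coset `g⁻¹ Γ₀(N)` of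
`ε`-period `k`. -/
theorem kfun_dvd_mul_order_of_finite_order (hc : IsParAdd c)
    (hell : ∀ (γ : CongruenceSubgroup.Gamma0 N) (n : ℕ), 0 < n → γ ^ n = 1 → c γ = 0)
    (X : Expansion (holBase N)) {ε : SL(2, ℤ)} (R : RotData (holBase N) X ε)
    {n : ℕ} (hn : 0 < n) (hε : ε ^ n = 1)
    (g : SL(2, ℤ)) (k : ℕ) (hk : g * ε ^ k * g⁻¹ ∈ CongruenceSubgroup.Gamma0 N) :
    (R.m : ℤ) ∣ (k : ℤ) * (X.E ((holBase N).compH g ⟨hc.kfun N, hc.kfun_mem_holN⟩)).order :=
  hc.hasCharacter_kfun.dvd_mul_order_of_finite_order hc.kfun_mem_holN hc.kfun_ne_zero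
    (hc.ellTrivial hell) X R hn hε g k hk

/-- **K2 (analytic part)** at the cusps (`ε = T`). -/
theorem kfun_dvd_mul_order_T (hc : IsParAdd c)
    (X : Expansion (holBase N)) (R : RotData (holBase N) X ModularGroup.T)
    (g : SL(2, ℤ)) (k : ℕ)
    (hk : g * ModularGroup.T ^ k * g⁻¹ ∈ CongruenceSubgroup.Gamma0 N) :
    (R.m : ℤ) ∣ (k : ℤ) * (X.E ((holBase N).compH g ⟨hc.kfun N, hc.kfun_mem_holN⟩)).order :=
  hc.hasCharacter_kfun.dvd_mul_order_T hc.kfun_mem_holN hc.kfun_ne_zero hc.parTrivial X R g k hk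

/-- **K1 + MERO**: the `q`-expansion of `h_c ^ m` lies in the function field of `X₀(N)` over `ℂ`. -/
theorem kexp_pow_mem_FC (hc : IsParAdd c) :
    hc.kexp N ^ m ∈ laurentBaseChange ℂ (modularFunctionFieldFull N) :=
  Fermat.Agent.S29.H882.mem_FC_of_hasQExp hc.kfun_pow_mem_goodRing
    ((hc.hasQExp_kfun).pow m)

end IsParAdd

end Fermat.Agent.S29.H332

end
end
-- ===== PACK-END S29/H332/KummerChar.lean

-- ===== PACK-BEGIN S29/H332/K1.lean
section



/-!
# S29 / M4b — PIECE `K1` (exact skeleton type)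

`exists_isTwisted` : for a parabolic character `c : Γ₀(N) → ℤ/p` (any modulus `p ≥ 1`) there is a
twisted function `U` of character `c`; `U = E^χ₁₂ / (2Δ)`, `χ = ζ_p ^ c`.
-/

set_option autoImplicit false
set_option linter.unusedSectionVars false

noncomputable section

open ModularCurve AlgebraicCurve CongruenceSubgroup UpperHalfPlane
open scoped MatrixGroups Manifold

namespace Fermat.Agent.S29.H332

open Fermat.Agent.S24 Fermat.Agent.S29 Fermat.Agent.S29.M4b

variable {N : ℕ} {p : ℕ} [NeZero p]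

/-- `ζ_p ^ (a.val) = stdAddChar a`. -/
theorem zetaP_pow_val (a : ZMod p) : zetaP p ^ a.val = ZMod.stdAddChar a := by
  have h := ZMod.stdAddChar_coe (N := p) (a.val : ℤ)
  rw [Int.cast_natCast, ZMod.natCast_zmod_val] at h
  rw [h, zetaP, ← Complex.exp_nat_mul]
  congr 1
  push_cast
  ring

/-- A parabolic character in the sense of `DefsM` is one in the sense of `H332`. -/
theorem isParAdd_of_isParHom {c : G0 N → ZMod p} (hc : IsParHom c) : IsParAdd c where
  map_mul := hc.map_mul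
  parabolic := hc.parabolic

variable (N p) in
/-- **PIECE `K1`** of the M4b skeleton (exact type). -/
theorem exists_isTwisted [NeZero N] {c : G0 N → ZMod p} (hc : IsParHom c) :
    ∃ U : ℍ → ℂ, IsTwisted N p c U := by
  have hc' : IsParAdd c := isParAdd_of_isParHom hc
  refine ⟨hc'.kfun N, ?_, ?_, ?_, ?_⟩
  · exact (hc'.kfun_mem_holN).1
  · by_contra hne
    exact hc'.kfun_ne_zero (funext fun τ => by_contra fun h => hne ⟨τ, h⟩)
  · intro γ τ
    rw [zetaP_pow_val]
    exact hc'.kfun_smul γ τ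
  · exact hc'.kfun_pow_mem_goodRing

end Fermat.Agent.S29.H332

end
end
-- ===== PACK-END S29/H332/K1.lean

-- ===== PACK-BEGIN S29/H282/K2Ana.lean
section




/-!
# S29 / M4b-K2 (helper282) — analytic adapter: twisted functions lie in `holN N`

* `expGrowth_of_pow` : `f ^ p` of exponential growth (`p ≥ 1`) ⟹ `f` of exponential growth;
* `mem_holN_of_isTwisted` : a twisted function (M4b `IsTwisted`) of a parabolic character lies in
  the S24 ring `holN N`;
* `infExp_level_of_hasQExp` : a `q`-expansion (`H708.HasQExp 1`) gives the `q^{1/N}`-expansion.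
-/

set_option autoImplicit false

noncomputable section

open ModularCurve AlgebraicCurve CongruenceSubgroup UpperHalfPlane
open scoped MatrixGroups Manifold Real

namespace Fermat.Agent.S29.H282

open Fermat.Agent.S24 Fermat.Agent.S24.H997 Fermat.Agent.S24.H648 Fermat.Agent.S24.H708
open Fermat.Agent.S24.H624
open Fermat.Agent.S29 Fermat.Agent.S29.M4b Fermat.Agent.S29.H332

/-- root extraction for growth bounds -/
theorem expGrowth_of_pow {f : ℍ → ℂ} {p : ℕ} (hp : p ≠ 0)
    (h : ExpGrowth (fun τ => f τ ^ p)) : ExpGrowth f := by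
  obtain ⟨C, m, hb⟩ := h
  refine ⟨1 + |C|, m, fun τ hτ => ?_⟩
  have h1 := hb τ hτ
  rw [norm_pow] at h1
  have hexp : (1 : ℝ) ≤ Real.exp (2 * π * m * τ.im) := by
    apply Real.one_le_exp
    have := Real.pi_pos
    have := τ.im_pos
    positivity
  have hC : C * Real.exp (2 * π * m * τ.im) ≤ |C| * Real.exp (2 * π * m * τ.im) :=
    mul_le_mul_of_nonneg_right (le_abs_self C) (Real.exp_pos _).le
  rcases le_or_gt ‖f τ‖ 1 with h0 | h0
  · calc ‖f τ‖ ≤ 1 := h0
      _ ≤ Real.exp (2 * π * m * τ.im) := hexp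
      _ ≤ (1 + |C|) * Real.exp (2 * π * m * τ.im) := by
        have : 0 ≤ |C| * Real.exp (2 * π * m * τ.im) :=
          mul_nonneg (abs_nonneg C) (Real.exp_pos _).le
        linarith
  · have h2 : ‖f τ‖ ≤ ‖f τ‖ ^ p := le_self_pow₀ h0.le hp
    calc ‖f τ‖ ≤ ‖f τ‖ ^ p := h2
      _ ≤ C * Real.exp (2 * π * m * τ.im) := h1
      _ ≤ |C| * Real.exp (2 * π * m * τ.im) := hC
      _ ≤ (1 + |C|) * Real.exp (2 * π * m * τ.im) := by
        have : 0 ≤ Real.exp (2 * π * m * τ.im) := (Real.exp_pos _).le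
        linarith

theorem qh_one_eq_qh_pow (N : ℕ) [NeZero N] (τ : ℍ) : qh 1 τ = qh N τ ^ N := by
  have hN : (N : ℂ) ≠ 0 := by exact_mod_cast NeZero.ne N
  rw [qh_apply, qh_apply, Function.Periodic.qParam, Function.Periodic.qParam,
    ← Complex.exp_nat_mul]
  congr 1
  push_cast
  field_simp

/-- exponential growth gives a pole of finite order in the variable `q^{1/N}` -/
theorem isBounded_mul_qh_pow_level (N : ℕ) [NeZero N] {f : ℍ → ℂ} (hf : ExpGrowth f) :
    ∃ M : ℕ, IsBoundedAtImInfty (f * qh N ^ M) := by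
  obtain ⟨M, hM⟩ := Fermat.Agent.S29.H882.isBounded_mul_qh_pow_of_expGrowth hf
  refine ⟨N * M, ?_⟩
  have : f * qh N ^ (N * M) = f * qh 1 ^ M := by
    funext τ
    simp only [Pi.mul_apply, Pi.pow_apply]
    rw [qh_one_eq_qh_pow N τ, ← pow_mul]
  rw [this]
  exact hM

variable {N : ℕ} [NeZero N] {p : ℕ} [NeZero p]

/-- the multiplicative character of a twisted function -/
theorem hasCharacter_of_hasChar {c : G0 N → ZMod p} (hc : IsParHom c) {U : ℍ → ℂ}
    (hU : HasChar N p c U) : HasCharacter (isParAdd_of_isParHom hc).char U := by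
  intro γ τ
  rw [hU γ τ, IsParAdd.char_apply, zetaP_pow_val]

/-- **A twisted function of a parabolic character lies in `holN N`.** -/
theorem mem_holN_of_isTwisted {c : G0 N → ZMod p} (hc : IsParHom c) {U : ℍ → ℂ}
    (hU : IsTwisted N p c U) : U ∈ holN N := by
  have hc' : IsParAdd c := isParAdd_of_isParHom hc
  have hh : HasCharacter hc'.char U := hasCharacter_of_hasChar hc hU.hasChar
  have hχ : ParTrivial hc'.char := hc'.parTrivial
  refine ⟨hU.mdiff, fun g => ?_⟩
  have hhol : MDiff (compSL g U) := (precompSL g ⟨U, hU.mdiff⟩).2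
  have hper : Function.Periodic (compSL g U ∘ ofComplex) (N : ℝ) :=
    hh.periodic hχ g N (by simpa using conj_T_zpow_mem_Gamma0 N g 1)
  have hgr : ExpGrowth (compSL g U) :=
    expGrowth_of_pow (NeZero.ne p) (hU.pow_mem.2.2 g)
  have hmer : IsMerInf N (compSL g U) := ⟨hhol, hper, isBounded_mul_qh_pow_level N hgr⟩
  have hq := HasQExp.of_isMerInf hmer
  have hinf : InfExp N (compSL g U) (qexpFun N (compSL g U)) := fun τ => hq.hasSum τ
  exact hinf.mem_expRing

/-- from the `q`-expansion to the `q^{1/N}`-expansion -/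
theorem infExp_level_of_hasQExp {G : ℍ → ℂ} {φ : LaurentSeries ℂ} (h : HasQExp 1 G φ) :
    InfExp N G (qExpand ℂ N φ) := by
  have hN : (N : ℂ) ≠ 0 := by exact_mod_cast NeZero.ne N
  have h1 : InfExp 1 G φ := fun τ => h.hasSum τ
  have h2 := h1.subst (N := N) (fun τ => τ) 1 N (fun τ => by
    rw [infZ_def, infZ_def, Units.val_one, one_mul, ← Complex.exp_nat_mul]
    congr 1
    push_cast
    field_simp)
  rwa [infTwist_one] at h2

end Fermat.Agent.S29.H282

end
end
-- ===== PACK-END S29/H282/K2Ana.lean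

-- ===== PACK-BEGIN S29/H282/FracK.lean
section


/-!
# S29 / M4b-K2 (helper282) — the function field of `X₀(N)` over an arbitrary field `K ⊇ ℚ`

Port of `Fermat/Agent/S24/Mod/H997Frac.lean` from `ℚ̄` to an arbitrary field `K` of
characteristic zero:

* `FFK K N`    : the function field `laurentBaseChange K (modularFunctionFieldFull N)`;
* `RNK K N`    : the `K`-subalgebra of `K((q))` generated by the `j(q^d)`, `d ∣ N`;
* `inclRNK`    : the inclusion `RNK K N → FFK K N`;
* `liftFK`     : every injective ring hom `RNK K N →+* L` into a field extends to `FFK K N`.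
-/

set_option autoImplicit false

noncomputable section

open ModularCurve HahnSeries IntermediateField

namespace Fermat.Agent.S29.H282

open Fermat.Agent.S24 Fermat.Agent.S24.Deg457

variable (K : Type*) [Field K] [Algebra ℚ K] (N : ℕ)

/-- The function field of `X₀(N)` over `K` (as a type). -/
abbrev FFK : Type _ := ↥(laurentBaseChange K (modularFunctionFieldFull N))

/-- The function field of `X₀(N)` over `K` is generated over `K` by the `j(q^d)`, `d ∣ N`. -/
theorem ffK_eq_adjoin :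
    laurentBaseChange K (modularFunctionFieldFull N) = IntermediateField.adjoin K (gens K N) := by
  apply le_antisymm
  · exact laurentBaseChange_full_le N
  · rw [laurentBaseChange]
    exact IntermediateField.adjoin.mono _ _ _
      (Set.image_mono (IntermediateField.subset_adjoin ℚ _))

/-- The polynomial ring `K[j(q^d) : d ∣ N] ⊆ K((q))`. -/
abbrev RNK : Subalgebra K (LaurentSeries K) := AK K N

theorem RNK_le : RNK K N ≤ (laurentBaseChange K (modularFunctionFieldFull N)).toSubalgebra := by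
  rw [ffK_eq_adjoin]
  exact IntermediateField.algebra_adjoin_le_adjoin K (gens K N)

/-- The inclusion `R_N → FFK K N`. -/
def inclRNK : RNK K N →ₐ[K] FFK K N := Subalgebra.inclusion (RNK_le K N)

@[simp] theorem coe_inclRNK (r : RNK K N) :
    ((inclRNK K N r : FFK K N) : LaurentSeries K) = r := rfl

theorem inclRNK_injective : Function.Injective (inclRNK K N) :=
  Subalgebra.inclusion_injective (RNK_le K N)

theorem exists_div_inclRNK (f : FFK K N) :
    ∃ r t : RNK K N, t ≠ 0 ∧ f = inclRNK K N r / inclRNK K N t := by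
  have hf : (f : LaurentSeries K) ∈ IntermediateField.adjoin K (gens K N) := by
    rw [← ffK_eq_adjoin]; exact f.2
  obtain ⟨r, hr, s, hs, h⟩ := IntermediateField.mem_adjoin_iff_div.mp hf
  by_cases hs0 : s = 0
  · refine ⟨0, 1, one_ne_zero, ?_⟩
    apply Subtype.ext
    rw [h, hs0, div_zero]
    simp
  · refine ⟨⟨r, hr⟩, ⟨s, hs⟩, fun h0 => hs0 (congrArg Subtype.val h0), ?_⟩
    apply Subtype.ext
    rw [h]
    simp

/-- The generator `j(q^d)` as an element of `R_N`. -/
def jRK (d : ℕ) [NeZero d] (hd : d ∣ N) : RNK K N :=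
  ⟨coeffEmb K (qExpand ℚ d jq),
    Algebra.subset_adjoin ⟨_, mem_divisorExpansions N hd, rfl⟩⟩

/-- The `j`-function as an element of the function field of `X₀(N)` over `K`. -/
def jFK [NeZero N] : FFK K N :=
  ⟨coeffEmb K jq,
    coeffEmb_mem_laurentBaseChange K (modularFunctionField_le_full N (jq_mem N))⟩

theorem inclRNK_jRK_one [NeZero N] : inclRNK K N (jRK K N 1 (one_dvd N)) = jFK K N := by
  apply Subtype.ext
  simp [jRK, jFK, qExpand_one_apply]

theorem jFK_Kbar [NeZero N] : jFK Kbar N = jF N := rfl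

section Lift

variable {K N}
variable {L : Type*} [Field L]

/-- Extension of an injective ring hom `R_N →+* L` to the fraction field `FFK K N`. -/
def liftFK (s : RNK K N →+* L) (hs : Function.Injective s) : FFK K N →+* L :=
  letI : Algebra (RNK K N) (FFK K N) := (inclRNK K N).toRingHom.toAlgebra
  haveI : FaithfulSMul (RNK K N) (FFK K N) :=
    (faithfulSMul_iff_algebraMap_injective _ _).mpr (inclRNK_injective K N)
  haveI : IsFractionRing (RNK K N) (FFK K N) :=
    IsFractionRing.of_field _ _ fun z => by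
      obtain ⟨r, t, -, h⟩ := exists_div_inclRNK K N z
      exact ⟨r, t, h⟩
  IsFractionRing.lift hs

theorem liftFK_inclRNK (s : RNK K N →+* L) (hs : Function.Injective s) (r : RNK K N) :
    liftFK s hs (inclRNK K N r) = s r := by
  let _ : Algebra (RNK K N) (FFK K N) := (inclRNK K N).toRingHom.toAlgebra
  have : FaithfulSMul (RNK K N) (FFK K N) :=
    (faithfulSMul_iff_algebraMap_injective _ _).mpr (inclRNK_injective K N)
  have : IsFractionRing (RNK K N) (FFK K N) :=
    IsFractionRing.of_field _ _ fun z => by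
      obtain ⟨r, t, -, h⟩ := exists_div_inclRNK K N z
      exact ⟨r, t, h⟩
  exact IsFractionRing.lift_algebraMap hs r

theorem liftFK_div (s : RNK K N →+* L) (hs : Function.Injective s) (r t : RNK K N) :
    liftFK s hs (inclRNK K N r / inclRNK K N t) = s r / s t := by
  rw [map_div₀, liftFK_inclRNK, liftFK_inclRNK]

theorem liftFK_algebraMap (s : RNK K N →+* L) (hs : Function.Injective s) (c : K) :
    liftFK s hs (algebraMap K (FFK K N) c) = s (algebraMap K (RNK K N) c) := by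
  rw [← liftFK_inclRNK s hs]
  congr 1

end Lift

end Fermat.Agent.S29.H282

end
end
-- ===== PACK-END S29/H282/FracK.lean

-- ===== PACK-BEGIN S29/H282/BridgeK.lean
section


/-!
# S29 / M4b-K2 (helper282) — the bridge `R_N(K) → Hol` for an arbitrary coefficient field `K ⊆ ℂ`

Port of the second half of `Fermat/Agent/S24/Mod/H997Bridge.lean` from `(ℚ̄, ιK)` to an arbitrary
field `K` with a ring hom `ι : K →+* ℂ`.
-/

set_option autoImplicit false

noncomputable section

open ModularCurve HahnSeries UpperHalfPlane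
open scoped MatrixGroups

namespace Fermat.Agent.S29.H282

open Fermat.Agent.S24 Fermat.Agent.S24.H997 Fermat.Agent.S24.Deg457

variable {K : Type*} [Field K] [Algebra ℚ K] (ι : K →+* ℂ)
variable {N : ℕ} [NeZero N] (B : HolBase N)

theorem ι_algebraMap (c : ℚ) : ι (algebraMap ℚ K c) = (c : ℂ) := by
  have h : ι.comp (algebraMap ℚ K) = algebraMap ℚ ℂ := Subsingleton.elim _ _
  have := congrArg (fun f : ℚ →+* ℂ => f c) h
  simpa using this

/-- The formal comparison map `K((q)) → ℂ((z))`, `q ↦ z^N`, coefficients via `ι`. -/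
def ΦK (N : ℕ) [NeZero N] : LaurentSeries K →+* LaurentSeries ℂ :=
  (qExpand ℂ N).comp (coeffMap ι)

theorem ΦK_injective : Function.Injective (ΦK ι N) := by
  intro x y h
  have h1 : coeffMap ι x = coeffMap ι y := qExpand_injective N h
  ext k
  apply ι.injective
  have := congrArg (fun s => s.coeff k) h1
  simpa using this

theorem ΦK_coeff (x : LaurentSeries K) (k : ℤ) :
    (ΦK ι N x).coeff k = if (N : ℤ) ∣ k then ι (x.coeff (k / N)) else 0 := by
  split_ifs with h
  · obtain ⟨m, rfl⟩ := h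
    have hN : (N : ℤ) ≠ 0 := by exact_mod_cast NeZero.ne N
    rw [Int.mul_ediv_cancel_left _ hN]
    show (qExpand ℂ N (coeffMap ι x)).coeff (N * m) = _
    rw [qExpand_coeff_mul]; rfl
  · exact qExpand_coeff_of_not_dvd N _ h

theorem ΦK_algebraMap (c : K) :
    ΦK ι N (algebraMap K (LaurentSeries K) c) = HahnSeries.C (ι c) := by
  rw [algebraMap_laurentSeries_eq_single]
  show qExpand ℂ N (coeffMap ι (HahnSeries.single 0 c)) = _
  rw [coeffMap_single, qExpand_single, mul_zero]; rfl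

theorem ΦK_gen (d : ℕ) [NeZero d] (hd : d ∣ N) :
    ΦK ι N (coeffEmb K (qExpand ℚ d jq)) = B.qexp (B.JH d hd) := by
  ext k
  rw [ΦK_coeff]
  show _ = (B.qexp ⟨B.J d, B.J_mem d hd⟩).coeff k
  rw [B.qexp_J d hd k]
  have hN : (N : ℤ) ≠ 0 := by exact_mod_cast NeZero.ne N
  have hd0 : (d : ℤ) ≠ 0 := by exact_mod_cast NeZero.ne d
  by_cases h1 : (N : ℤ) ∣ k
  · obtain ⟨m, rfl⟩ := h1
    rw [if_pos (dvd_mul_right _ _), Int.mul_ediv_cancel_left _ hN, coeffEmb_coeff, ι_algebraMap]
    by_cases h2 : (d : ℤ) ∣ m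
    · obtain ⟨l, rfl⟩ := h2
      have h3 : ((N * d : ℕ) : ℤ) ∣ (N : ℤ) * (d * l) := ⟨l, by push_cast; ring⟩
      rw [if_pos h3, qExpand_coeff_mul]
      have : (N : ℤ) * (d * l) / ((N * d : ℕ) : ℤ) = l := by
        have h4 : (N : ℤ) * (d * l) = ((N * d : ℕ) : ℤ) * l := by push_cast; ring
        rw [h4, Int.mul_ediv_cancel_left]
        exact_mod_cast (Nat.mul_ne_zero (NeZero.ne N) (NeZero.ne d))
      rw [this]
    · have h3 : ¬ ((N * d : ℕ) : ℤ) ∣ (N : ℤ) * m := by
        rintro ⟨l, hl⟩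
        apply h2
        refine ⟨l, ?_⟩
        have : (N : ℤ) * m = N * (d * l) := by rw [hl]; push_cast; ring
        exact mul_left_cancel₀ hN this
      rw [if_neg h3, qExpand_coeff_of_not_dvd d _ h2]
      simp
  · have h3 : ¬ ((N * d : ℕ) : ℤ) ∣ k := by
      intro h; apply h1
      exact dvd_trans ⟨(d : ℤ), by push_cast; ring⟩ h
    rw [if_neg h1, if_neg h3]

theorem ΦK_mem_range {r : LaurentSeries K} (hr : r ∈ RNK K N) : ΦK ι N r ∈ B.qexp.range := by
  induction hr using Algebra.adjoin_induction with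
  | mem x hx =>
      obtain ⟨y, ⟨d, hne, hd, rfl⟩, rfl⟩ := hx
      exact ⟨B.JH d hd, (ΦK_gen ι B d hd).symm⟩
  | algebraMap c =>
      exact ⟨B.constH (ι c), by rw [ΦK_algebraMap]; exact B.qexp_const _⟩
  | add _ _ _ _ hx hy => rw [map_add]; exact add_mem hx hy
  | mul _ _ _ _ hx hy => rw [map_mul]; exact mul_mem hx hy

/-- The bridge `e : R_N(K) →+* Hol`. -/
def bridgeK : RNK K N →+* B.Hol :=
  (B.qexpEquiv.symm : B.qexp.range →+* B.Hol).comp
    (((ΦK ι N).comp (RNK K N).val.toRingHom).codRestrict B.qexp.range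
      fun r => ΦK_mem_range ι B r.2)

theorem qexp_bridgeK (r : RNK K N) :
    B.qexp (bridgeK ι B r) = ΦK ι N (r : LaurentSeries K) := by
  have h := B.qexpEquiv.apply_symm_apply
    ((((ΦK ι N).comp (RNK K N).val.toRingHom).codRestrict B.qexp.range
      fun r => ΦK_mem_range ι B r.2) r)
  exact congrArg Subtype.val h

theorem bridgeK_injective : Function.Injective (bridgeK ι B) := by
  intro r r' h
  apply Subtype.ext
  apply ΦK_injective ι (N := N)
  rw [← qexp_bridgeK, ← qexp_bridgeK, h]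

theorem bridgeK_algebraMap (c : K) :
    bridgeK ι B (algebraMap K (RNK K N) c) = B.constH (ι c) := by
  apply B.qexp_injective
  rw [qexp_bridgeK]
  show ΦK ι N (algebraMap K (LaurentSeries K) c) = _
  rw [ΦK_algebraMap]
  exact (B.qexp_const _).symm

theorem bridgeK_jRK (d : ℕ) [NeZero d] (hd : d ∣ N) :
    bridgeK ι B (jRK K N d hd) = B.JH d hd := by
  apply B.qexp_injective
  rw [qexp_bridgeK]
  exact ΦK_gen ι B d hd

/-- Every `e r` is `Γ₀(N)`-invariant. -/
theorem compH_bridgeK_of_mem {g : SL(2, ℤ)} (hg : g ∈ CongruenceSubgroup.Gamma0 N)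
    (r : RNK K N) : B.compH g (bridgeK ι B r) = bridgeK ι B r := by
  obtain ⟨r, hr⟩ := r
  induction hr using Algebra.adjoin_induction with
  | mem x hx =>
      obtain ⟨y, ⟨d, hne, hd, rfl⟩, rfl⟩ := hx
      have : (⟨coeffEmb K (qExpand ℚ d jq), Algebra.subset_adjoin
          ⟨_, ⟨d, hne, hd, rfl⟩, rfl⟩⟩ : RNK K N) = jRK K N d hd := rfl
      rw [this, bridgeK_jRK]
      exact B.compH_JH_of_mem d hd hg
  | algebraMap c =>
      have : (⟨algebraMap K (LaurentSeries K) c, Subalgebra.algebraMap_mem _ c⟩ : RNK K N)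
          = algebraMap K (RNK K N) c := rfl
      rw [this, bridgeK_algebraMap]
      rfl
  | add x y hx hy ihx ihy =>
      have : (⟨x + y, add_mem hx hy⟩ : RNK K N) = ⟨x, hx⟩ + ⟨y, hy⟩ := rfl
      rw [this, map_add, map_add, ihx, ihy]
  | mul x y hx hy ihx ihy =>
      have : (⟨x * y, mul_mem hx hy⟩ : RNK K N) = ⟨x, hx⟩ * ⟨y, hy⟩ := rfl
      rw [this, map_mul, map_mul, ihx, ihy]

end Fermat.Agent.S29.H282

end
end
-- ===== PACK-END S29/H282/BridgeK.lean

-- ===== PACK-BEGIN S29/H282/LocalK.lean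
section


/-!
# S29 / M4b-K2 (helper282) — `LocalData` for the function field over `K` from an expansion

Port of `Fermat/Agent/S24/Mod/H997Local.lean` (namespace `HolBase`) and of the first half of
`H997Core.lean` from `(ℚ̄, ιK)` to an arbitrary field `K` with `ι : K →+* ℂ`.
-/

set_option autoImplicit false

noncomputable section

open ModularCurve HahnSeries UpperHalfPlane
open scoped MatrixGroups

namespace Fermat.Agent.S29.H282

open Fermat.Agent.S24 Fermat.Agent.S24.H997 Fermat.Agent.S24.Deg457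

variable {K : Type*} [Field K] [Algebra ℚ K] (ι : K →+* ℂ)
variable {N : ℕ} [NeZero N] (B : HolBase N) (X : Expansion B)

/-- the ring hom `R_N(K) → ℂ((z))`, `r ↦ E (e r ∘ g⁻¹)` -/
def sGK (g : SL(2, ℤ)) : RNK K N →+* LaurentSeries ℂ :=
  X.E.comp ((B.compH g⁻¹).comp (bridgeK ι B))

theorem sGK_apply (g : SL(2, ℤ)) (r : RNK K N) :
    sGK ι B X g r = X.E (B.compH g⁻¹ (bridgeK ι B r)) := rfl

theorem sGK_injective (g : SL(2, ℤ)) : Function.Injective (sGK ι B X g) :=
  X.inj.comp ((B.compH_injective g⁻¹).comp (bridgeK_injective ι B))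

/-- the embedding `FFK K N → ℂ((z))` attached to `g` -/
def sigmaGK (g : SL(2, ℤ)) : FFK K N →+* LaurentSeries ℂ :=
  liftFK (sGK ι B X g) (sGK_injective ι B X g)

theorem sigmaGK_inclRNK (g : SL(2, ℤ)) (r : RNK K N) :
    sigmaGK ι B X g (inclRNK K N r) = X.E (B.compH g⁻¹ (bridgeK ι B r)) :=
  liftFK_inclRNK _ _ r

theorem sigmaGK_algebraMap (g : SL(2, ℤ)) (c : K) :
    sigmaGK ι B X g (algebraMap K (FFK K N) c) = HahnSeries.C (ι c) := by
  rw [sigmaGK, liftFK_algebraMap, sGK_apply, bridgeK_algebraMap, HolBase.compH_constH, X.const]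

theorem sigmaGK_jFK (g : SL(2, ℤ)) :
    sigmaGK ι B X g (jFK K N) = X.E (B.JH 1 (one_dvd N)) := by
  rw [← inclRNK_jRK_one, sigmaGK_inclRNK, bridgeK_jRK, HolBase.compH_JH_one]

theorem sGK_mul_of_mem (g : SL(2, ℤ)) {δ : SL(2, ℤ)} (hδ : δ ∈ CongruenceSubgroup.Gamma0 N) :
    sGK ι B X (g * δ) = sGK ι B X g := by
  ext1 r
  rw [sGK_apply, sGK_apply, mul_inv_rev, HolBase.compH_mul,
    compH_bridgeK_of_mem ι B (inv_mem hδ)]

theorem sigmaGK_mul_of_mem (g : SL(2, ℤ)) {δ : SL(2, ℤ)}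
    (hδ : δ ∈ CongruenceSubgroup.Gamma0 N) : sigmaGK ι B X (g * δ) = sigmaGK ι B X g := by
  unfold sigmaGK
  congr 1
  exact sGK_mul_of_mem ι B X g hδ

theorem sigmaGK_eq_of_mk_eq {g g' : SL(2, ℤ)}
    (h : (g : XX N) = (g' : XX N)) : sigmaGK ι B X g = sigmaGK ι B X g' := by
  have hmem : g⁻¹ * g' ∈ CongruenceSubgroup.Gamma0 N := QuotientGroup.eq.mp h
  have := sigmaGK_mul_of_mem ι B X g hmem
  rw [mul_inv_cancel_left] at this
  exact this.symm

/-- the embedding attached to a coset -/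
def sigmaXK (x : XX N) : FFK K N →+* LaurentSeries ℂ := sigmaGK ι B X (Quotient.out x)

theorem sigmaXK_mk (g : SL(2, ℤ)) : sigmaXK ι B X (g : XX N) = sigmaGK ι B X g :=
  sigmaGK_eq_of_mk_eq ι B X (QuotientGroup.out_eq' _)

theorem sigmaXK_injective : Function.Injective (sigmaXK (K := K) ι B X) := by
  intro x y hxy
  obtain ⟨g, rfl⟩ := QuotientGroup.mk_surjective x
  obtain ⟨g', rfl⟩ := QuotientGroup.mk_surjective y
  rw [sigmaXK_mk, sigmaXK_mk] at hxy
  have h1 := congrArg (fun s => s (inclRNK K N (jRK K N N dvd_rfl))) hxy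
  simp only [sigmaGK_inclRNK, bridgeK_jRK] at h1
  have h2 := X.inj h1
  apply QuotientGroup.eq.mpr
  apply B.J_distinct
  intro τ
  have h3 := congrArg (fun h : B.Hol => (h : ℍ → ℂ) (g' • τ)) h2
  simp only [HolBase.compH_apply] at h3
  rw [← mul_smul, ← mul_smul, inv_mul_cancel, one_smul] at h3
  exact h3

theorem rotRel_sigmaGK (ε : SL(2, ℤ)) (R : RotData B X ε) (g : SL(2, ℤ)) (f : FFK K N) :
    RotRel R.ζ (sigmaGK ι B X g f) (sigmaGK ι B X (ε⁻¹ * g) f) := by
  have hζ : R.ζ ≠ 0 := R.hζ.ne_zero R.m_pos.ne'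
  obtain ⟨r, t, -, rfl⟩ := exists_div_inclRNK K N f
  rw [map_div₀, map_div₀]
  have key : ∀ r : RNK K N, RotRel R.ζ (sigmaGK ι B X g (inclRNK K N r))
      (sigmaGK ι B X (ε⁻¹ * g) (inclRNK K N r)) := by
    intro r
    rw [sigmaGK_inclRNK, sigmaGK_inclRNK, mul_inv_rev, inv_inv, HolBase.compH_mul]
    exact R.rot _
  exact (key r).div hζ (key t)

/-- `LocalData` from an expansion with rotation data. -/
def mkLocalDataK (ε : SL(2, ℤ)) (R : RotData B X ε) (t : FFK K N) (u : LaurentSeries ℂ)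
    (ht : ∀ g : SL(2, ℤ), sigmaGK ι B X g t = u) (hu : u.order = (R.m : ℤ)) :
    LocalData K (FFK K N) ℂ (XX N) t where
  m := R.m
  m_pos := R.m_pos
  ζ := R.ζ
  hζ := R.hζ
  ι := ι
  perm := permOf N ε⁻¹
  σ := sigmaXK ι B X
  σ_inj := sigmaXK_injective ι B X
  σ_const x c := sigmaGK_algebraMap ι B X _ c
  σ_t_eq x y := by
    show sigmaGK ι B X _ t = sigmaGK ι B X _ t
    rw [ht, ht]
  σ_t_order x := by
    show (sigmaGK ι B X _ t).order = _
    rw [ht, hu]
  σ_perm_order x f := by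
    obtain ⟨g, rfl⟩ := QuotientGroup.mk_surjective x
    have h : permOf N ε⁻¹ (g : XX N) = ((ε⁻¹ * g : SL(2, ℤ)) : XX N) := rfl
    rw [h, sigmaXK_mk, sigmaXK_mk]
    exact (rotRel_sigmaGK ι B X ε R g f).1
  σ_perm_leadingCoeff x f := by
    obtain ⟨g, rfl⟩ := QuotientGroup.mk_surjective x
    have h : permOf N ε⁻¹ (g : XX N) = ((ε⁻¹ * g : SL(2, ℤ)) : XX N) := rfl
    rw [h, sigmaXK_mk, sigmaXK_mk]
    exact (rotRel_sigmaGK ι B X ε R g f).2

@[simp] theorem mkLocalDataK_perm (ε : SL(2, ℤ)) (R : RotData B X ε) (t : FFK K N)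
    (u : LaurentSeries ℂ) (ht : ∀ g : SL(2, ℤ), sigmaGK ι B X g t = u)
    (hu : u.order = (R.m : ℤ)) :
    (mkLocalDataK ι B X ε R t u ht hu).perm = permOf N ε⁻¹ := rfl

@[simp] theorem mkLocalDataK_σ (ε : SL(2, ℤ)) (R : RotData B X ε) (t : FFK K N)
    (u : LaurentSeries ℂ) (ht : ∀ g : SL(2, ℤ), sigmaGK ι B X g t = u)
    (hu : u.order = (R.m : ℤ)) :
    (mkLocalDataK ι B X ε R t u ht hu).σ = sigmaXK ι B X := rfl

@[simp] theorem mkLocalDataK_m (ε : SL(2, ℤ)) (R : RotData B X ε) (t : FFK K N)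
    (u : LaurentSeries ℂ) (ht : ∀ g : SL(2, ℤ), sigmaGK ι B X g t = u)
    (hu : u.order = (R.m : ℤ)) :
    (mkLocalDataK ι B X ε R t u ht hu).m = R.m := rfl

@[simp] theorem mkLocalDataK_ζ (ε : SL(2, ℤ)) (R : RotData B X ε) (t : FFK K N)
    (u : LaurentSeries ℂ) (ht : ∀ g : SL(2, ℤ), sigmaGK ι B X g t = u)
    (hu : u.order = (R.m : ℤ)) :
    (mkLocalDataK ι B X ε R t u ht hu).ζ = R.ζ := rfl

end Fermat.Agent.S29.H282

end
end
-- ===== PACK-END S29/H282/LocalK.lean

-- ===== PACK-BEGIN S29/H282/CoreK.lean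
section


/-!
# S29 / M4b-K2 (helper282) — the local data of the function field over `K` at every point

Port of the second half of `Fermat/Agent/S24/Mod/H997Core.lean` from `(ℚ̄, ιK)` to an arbitrary
field `K` with `ι : K →+* ℂ`.
-/

set_option autoImplicit false

noncomputable section

open ModularCurve HahnSeries UpperHalfPlane
open scoped MatrixGroups

namespace Fermat.Agent.S29.H282

open Fermat.Agent.S24 Fermat.Agent.S24.H997 Fermat.Agent.S24.Deg457

variable {K : Type*} [Field K] [Algebra ℚ K] (ι : K →+* ℂ)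
variable {N : ℕ} [NeZero N] (A : AnalyticCore N)

/-- the local data at `∞` -/
def dataInfK : LocalData K (FFK K N) ℂ (XX N) (jFK K N)⁻¹ :=
  mkLocalDataK ι A.toHolBase A.toHolBase.qexpExpansion ModularGroup.T A.infRot (jFK K N)⁻¹
    (A.qexp (A.toHolBase.JH 1 (one_dvd N)))⁻¹
    (fun g => by rw [map_inv₀, sigmaGK_jFK]; rfl)
    (by
      rw [RotRel.order_inv' A.toHolBase.qexp_J_one_ne_zero, A.toHolBase.order_qexp_J_one, neg_neg]
      rfl)

theorem sigmaGK_sub {a : K} {ε : SL(2, ℤ)} (P : PointData A.toHolBase (ι a) ε)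
    (g : SL(2, ℤ)) :
    sigmaGK ι A.toHolBase P.X g (jFK K N - algebraMap K (FFK K N) a)
      = P.X.E (A.toHolBase.JH 1 (one_dvd N) - A.toHolBase.constH (ι a)) := by
  rw [map_sub, sigmaGK_jFK, sigmaGK_algebraMap, map_sub, P.X.const]

/-- the local data attached to point data over `a` -/
def dataOfPointK {a : K} {ε : SL(2, ℤ)} (P : PointData A.toHolBase (ι a) ε) :
    LocalData K (FFK K N) ℂ (XX N) (jFK K N - algebraMap K (FFK K N) a) :=
  mkLocalDataK ι A.toHolBase P.X ε P.R _ _ (fun g => sigmaGK_sub ι A P g) P.order_J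

/-- all the embeddings `σ_x` agree on `K(j)` -/
theorem sigmaXK_eq_on_adjoin (X : Expansion A.toHolBase) (x y : XX N) {f : FFK K N}
    (hf : f ∈ IntermediateField.adjoin K {jFK K N}) :
    sigmaXK ι A.toHolBase X x f = sigmaXK ι A.toHolBase X y f := by
  induction hf using IntermediateField.adjoin_induction with
  | mem z hz =>
      rw [Set.mem_singleton_iff] at hz
      subst hz
      show sigmaGK ι A.toHolBase X _ (jFK K N) = sigmaGK ι A.toHolBase X _ (jFK K N)
      rw [sigmaGK_jFK, sigmaGK_jFK]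
  | algebraMap c =>
      show sigmaGK ι A.toHolBase X _ _ = sigmaGK ι A.toHolBase X _ _
      rw [sigmaGK_algebraMap, sigmaGK_algebraMap]
  | add z w _ _ hz hw => rw [map_add, map_add, hz, hw]
  | inv z _ hz => rw [map_inv₀, map_inv₀, hz]
  | mul z w _ _ hz hw => rw [map_mul, map_mul, hz, hw]

include ι A in
/-- lower bound for the degree: `|SL₂(ℤ)/Γ₀(N)| ≤ [FFK K N : K(j)]`. -/
theorem card_le_finrankK
    [FiniteDimensional ↥(IntermediateField.adjoin K {jFK K N}) (FFK K N)] :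
    Nat.card (XX N) ≤ Module.finrank ↥(IntermediateField.adjoin K {jFK K N}) (FFK K N) := by
  classical
  set E := IntermediateField.adjoin K {jFK K N} with hE
  let X := A.toHolBase.qexpExpansion
  let x0 : XX N := ((1 : SL(2, ℤ)) : XX N)
  let ψ : ↥E →+* LaurentSeries ℂ := (sigmaXK ι A.toHolBase X x0).comp (algebraMap ↥E (FFK K N))
  letI : Algebra ↥E (LaurentSeries ℂ) := ψ.toAlgebra
  let a : XX N → (FFK K N →ₐ[↥E] LaurentSeries ℂ) := fun x =>
    { sigmaXK ι A.toHolBase X x with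
      commutes' := fun y => sigmaXK_eq_on_adjoin ι A X x x0 y.2 }
  have ha : Function.Injective a := by
    intro x y hxy
    apply sigmaXK_injective ι A.toHolBase X
    refine RingHom.ext fun f => ?_
    exact congrArg (fun φ : FFK K N →ₐ[↥E] LaurentSeries ℂ => φ f) hxy
  haveI : Module.Free ↥E (FFK K N) := Module.Free.of_divisionRing ↥E (FFK K N)
  haveI : Module.Finite ↥E (FFK K N) := ‹FiniteDimensional ↥E (FFK K N)›
  haveI : Finite (FFK K N →ₐ[↥E] LaurentSeries ℂ) :=
    Finite.algHom ↥E (FFK K N) (LaurentSeries ℂ)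
  calc Nat.card (XX N) ≤ Nat.card (FFK K N →ₐ[↥E] LaurentSeries ℂ) :=
        Nat.card_le_card_of_injective a ha
    _ ≤ Module.finrank ↥E (FFK K N) := card_algHom_le_finrank ↥E (FFK K N) (LaurentSeries ℂ)

/-- the stabiliser generator used over the point `a` -/
def epsAt (a : K) : SL(2, ℤ) :=
  letI := Classical.propDecidable
  if ι a = 0 then ModularGroup.S * ModularGroup.T
  else if ι a = 1728 then ModularGroup.S else 1

/-- the point data over the point `a` -/
def pointAt (a : K) : PointData A.toHolBase (ι a) (epsAt ι a) :=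
  letI := Classical.propDecidable
  if h0 : ι a = 0 then by
    rw [epsAt, if_pos h0, h0]; exact A.at0
  else if h1 : ι a = 1728 then by
    rw [epsAt, if_neg h0, if_pos h1, h1]; exact A.at1728
  else by
    rw [epsAt, if_neg h0, if_neg h1]; exact A.generic (ι a) h0 h1

/-- the local data over a finite point `a : K` -/
def dataFinK (a : K) : LocalData K (FFK K N) ℂ (XX N) (jFK K N - algebraMap K (FFK K N) a) :=
  dataOfPointK ι A (pointAt ι A a)

theorem dataFinK_perm (a : K) : (dataFinK ι A a).perm = permOf N (epsAt ι a)⁻¹ := rfl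

theorem dataFinK_σ (a : K) :
    (dataFinK ι A a).σ = sigmaXK ι A.toHolBase (pointAt ι A a).X := rfl

theorem dataFinK_m (a : K) : (dataFinK ι A a).m = (pointAt ι A a).R.m := rfl

theorem dataFinK_ζ (a : K) : (dataFinK ι A a).ζ = (pointAt ι A a).R.ζ := rfl

theorem dataInfK_perm : (dataInfK (K := K) ι A).perm = permOf N ModularGroup.T⁻¹ := rfl

theorem dataInfK_σ :
    (dataInfK (K := K) ι A).σ = sigmaXK ι A.toHolBase A.toHolBase.qexpExpansion := rfl

theorem dataInfK_m : (dataInfK (K := K) ι A).m = N := rfl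

end Fermat.Agent.S29.H282

end
end
-- ===== PACK-END S29/H282/CoreK.lean

-- ===== PACK-BEGIN S29/H282/DegK.lean
section


/-!
# S29 / M4b-K2 (helper282) — the degree of the function field over `K`

For every field `K` with an embedding `ι : K →+* ℂ`:
`[FFK K N : K(j)] = [SL₂(ℤ) : Γ₀(N)]`.
Port of `Fermat/Agent/S24/Deg/H457_Main.lean` (upper bound) and `H997Core` (lower bound).
-/

set_option autoImplicit false

noncomputable section

open Polynomial ModularCurve IntermediateField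

namespace Fermat.Agent.S29.H282

open Fermat.Agent.S24 Fermat.Agent.S24.H997 Fermat.Agent.S24.Deg457

variable {K : Type*} [Field K] [Algebra ℚ K] (ι : K →+* ℂ)
variable (N : ℕ) [NeZero N]

theorem coe_jFK : ((jFK K N : FFK K N) : LaurentSeries K) = JK K := rfl

include ι in
/-- **Degree bound**: `[FFK K N : K(j)] ≤ [SL₂(ℤ) : Γ₀(N)]`. -/
theorem finiteDimensional_and_finrank_leK :
    FiniteDimensional ↥(IntermediateField.adjoin K {jFK K N}) (FFK K N) ∧
      Module.finrank ↥(IntermediateField.adjoin K {jFK K N}) (FFK K N) ≤ Nat.card (XX N) := by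
  haveI : CharZero K := algebraRat.charZero K
  refine finiteDimensional_and_finrank_le_of_forall_natDegree_minpoly_le _ fun x => ?_
  obtain ⟨Q, hQ0, hQn, hQ⟩ := algDeg_of_mem_field ι (hyp_complex_card N) x.2
  have hinc : Function.Injective (algebraMap (FFK K N) (LaurentSeries K)) :=
    (algebraMap (FFK K N) (LaurentSeries K)).injective
  refine isIntegral_and_natDegree_le_of_relation (K := K)
    (AdjoinSimple.gen K (jFK K N)) ?_ x Q hQ0 _ hQn ?_
  · intro t ht h0
    apply aeval_JK_ne_zero K ht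
    have h1 := congrArg (algebraMap ↥(IntermediateField.adjoin K {jFK K N}) (FFK K N)) h0
    rw [← aeval_algebraMap_apply, map_zero, AdjoinSimple.algebraMap_gen] at h1
    have h2 := congrArg (algebraMap (FFK K N) (LaurentSeries K)) h1
    rw [← aeval_algebraMap_apply, map_zero] at h2
    exact h2
  · apply hinc
    rw [map_zero, Polynomial.hom_eval₂, AdjoinSimple.algebraMap_gen]
    have hcomp : (algebraMap (FFK K N) (LaurentSeries K)).comp
        ((aeval (jFK K N) : K[X] →ₐ[K] FFK K N).toRingHom) = evJ (JK K) := by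
      refine Polynomial.ringHom_ext ?_ ?_
      · intro c
        simp [evJ, ← IsScalarTower.algebraMap_apply]
      · simp [evJ]
        rfl
    rw [hcomp]
    exact hQ

include ι in
theorem finiteDimensional_adjoin_jFK :
    FiniteDimensional ↥(IntermediateField.adjoin K {jFK K N}) (FFK K N) :=
  (finiteDimensional_and_finrank_leK ι N).1

include ι in
/-- **The degree**: `[FFK K N : K(j)] = [SL₂(ℤ) : Γ₀(N)]`. -/
theorem finrank_adjoin_jFK :
    Module.finrank ↥(IntermediateField.adjoin K {jFK K N}) (FFK K N) = Nat.card (XX N) := by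
  haveI := finiteDimensional_adjoin_jFK ι N
  exact le_antisymm (finiteDimensional_and_finrank_leK ι N).2
    (card_le_finrankK ι (analyticCore N))

end Fermat.Agent.S29.H282

end
end
-- ===== PACK-END S29/H282/DegK.lean

-- ===== PACK-BEGIN S29/H282/Rot.lean
section


/-!
# S29 / M4b-K2 (helper282) — iterating the rotation relation

For an expansion `X` with rotation data `R` for `ε` (a primitive `m`-th root of unity `ζ`):
if `H ∘ ε ^ e = H` then `m ∣ e * ord (E H)`.
-/

set_option autoImplicit false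

noncomputable section

open ModularCurve HahnSeries UpperHalfPlane
open scoped MatrixGroups

namespace Fermat.Agent.S29.H282

open Fermat.Agent.S24 Fermat.Agent.S24.H997

variable {N : ℕ} [NeZero N] (B : HolBase N) (X : Expansion B)

theorem compH_pow_succ (ε : SL(2, ℤ)) (i : ℕ) (H : B.Hol) :
    B.compH (ε ^ (i + 1)) H = B.compH ε (B.compH (ε ^ i) H) := by
  rw [pow_succ, HolBase.compH_mul]

/-- iterating the rotation relation -/
theorem rot_iterate (ε : SL(2, ℤ)) (R : RotData B X ε) (H : B.Hol) (i : ℕ) :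
    (X.E (B.compH (ε ^ i) H)).order = (X.E H).order ∧
      (X.E (B.compH (ε ^ i) H)).leadingCoeff
        = (R.ζ ^ (X.E H).order) ^ i * (X.E H).leadingCoeff := by
  induction i with
  | zero => simp [HolBase.compH_one]
  | succ n ih =>
    have h := R.rot (B.compH (ε ^ n) H)
    rw [compH_pow_succ]
    refine ⟨by rw [h.1, ih.1], ?_⟩
    rw [h.2, ih.1, ih.2, pow_succ]
    ring

/-- **Key divisibility.**  If `H` is invariant under `ε ^ e`, then the order `m` of the rotation
divides `e * ord (E H)`. -/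
theorem rot_dvd_of_compH_pow_eq (ε : SL(2, ℤ)) (R : RotData B X ε) (H : B.Hol) (e : ℕ)
    (hH : B.compH (ε ^ e) H = H) : (R.m : ℤ) ∣ (e : ℤ) * (X.E H).order := by
  by_cases h0 : X.E H = 0
  · rw [h0, order_zero, mul_zero]
    exact dvd_zero _
  · have hlc : (X.E H).leadingCoeff ≠ 0 := leadingCoeff_ne_zero.mpr h0
    have h := (rot_iterate B X ε R H e).2
    rw [hH] at h
    have h1 : (R.ζ ^ (X.E H).order) ^ e = 1 := by
      have : (R.ζ ^ (X.E H).order) ^ e * (X.E H).leadingCoeff = 1 * (X.E H).leadingCoeff := by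
        rw [one_mul]; exact h.symm
      exact mul_right_cancel₀ hlc this
    have h2 : R.ζ ^ ((X.E H).order * (e : ℤ)) = 1 := by
      rw [zpow_mul, zpow_natCast]
      exact h1
    have h3 := (R.hζ.zpow_eq_one_iff_dvd _).mp h2
    rwa [mul_comm] at h3

end Fermat.Agent.S29.H282

end
end
-- ===== PACK-END S29/H282/Rot.lean

-- ===== PACK-BEGIN S29/H282/Dict.lean
section





/-!
# S29 / M4b-K2 (helper282) — the places dictionary (DICT-hard)

`K` algebraically closed with an embedding `ι : K →+* ℂ` (main cases: `K = ℂ`, `K = ℚ̄`).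

* `exists_placeOf_eqK` : every place of `FFK K N / K` is induced by one of the embeddings
  `σ_x` of the local data `dataInfK` (cusps) or `dataFinK a` (points over `j = a`);
* `IsAvatar`           : `h : Hol` is an analytic avatar of `f : FFK K N`
  (`qexp h = ΦK ι N f`, i.e. the expansion of `h` at `i∞` is the Laurent series `f`);
* `IsAvatar.sigmaGK_eq`: then `σ_g f = E (h ∘ g⁻¹)` for every expansion;
* `dvd_ord_of_isAvatar_pow` (**DICT-hard**): if `f` has the avatar `h ^ M` and `h` is invariant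
  under the special elements (finite order or trace `2`) of `Γ₀(N)`, then `M ∣ w.ord f` for every
  place `w` of `FFK K N / K`.
-/

set_option autoImplicit false

noncomputable section

open ModularCurve HahnSeries UpperHalfPlane AlgebraicCurve IntermediateField
open scoped MatrixGroups

namespace Fermat.Agent.S29.H282

open Fermat.Agent.S24 Fermat.Agent.S24.H997 Fermat.Agent.S24.Deg457

/-! ### Generic: the orbit of `x` under `perm` has `ord_v t` elements -/

section Generic

variable {K F : Type*} [Field K] [Field F] [Algebra K F] [IsAlgClosed K] [CharZero K]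
variable {C : Type*} [Field C] [CharZero C] {X : Type*} [Finite X]
variable {t : F} (L : LocalData K F C X t)
variable (E : IntermediateField K F) (hE : E ≤ K⟮t⟯) [FiniteDimensional E F]
  (hrank : Module.finrank E F = Nat.card X)

include hE hrank in
/-- the cardinality of the `perm`-orbit of `x` is the ramification index `ord_v t` -/
theorem card_orbit_eq_ord_t (x : X) :
    (Nat.card (MulAction.orbit (Subgroup.zpowers L.perm) x) : ℤ) = (H117.placeOf L x).ord t := by
  classical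
  haveI := H504.isAlgebraic_adjoin_of_le (t := t) E hE
  have hfin : {v : Place K F | 0 < v.ord t}.Finite := H117.finite_places_over L E hE hrank
  have hs : ∀ v : Place K F, v ∈ hfin.toFinset ↔ 0 < v.ord t := fun v => by simp
  exact (H117.localThm L E hE hrank hfin.toFinset hs
    (H504.LocalData.card_le_sum_ord L hfin.toFinset hs)).2.1 x

include hE hrank in
/-- `perm ^ e` fixes `x`, where `e = ord_v t` is the ramification index of the place of `x` -/
theorem perm_pow_ord_t_apply (x : X) :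
    (L.perm ^ ((H117.placeOf L x).ord t).toNat) x = x := by
  classical
  have h := card_orbit_eq_ord_t L E hE hrank x
  haveI : Fintype (MulAction.orbit (Subgroup.zpowers L.perm) x) := Fintype.ofFinite _
  have h1 : Function.minimalPeriod (L.perm • ·) x
      = Nat.card (MulAction.orbit (Subgroup.zpowers L.perm) x) := by
    rw [MulAction.minimalPeriod_eq_card, Nat.card_eq_fintype_card]
  have h2 : ((H117.placeOf L x).ord t).toNat
      = Nat.card (MulAction.orbit (Subgroup.zpowers L.perm) x) := by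
    rw [← h]; simp
  have h3 : (L.perm ^ ((H117.placeOf L x).ord t).toNat) • x = x := by
    rw [MulAction.pow_smul_eq_iff_minimalPeriod_dvd, h1, h2]
  exact h3

end Generic

/-! ### Avatars -/

section Avatar

variable {K : Type*} [Field K] [Algebra ℚ K] (ι : K →+* ℂ)
variable {N : ℕ} [NeZero N] (B : HolBase N)

/-- `h : Hol` is an analytic avatar of `f : FFK K N`: the expansion of `h` at `i∞` (in the
variable `q^{1/N}`) is the Laurent series `f` (coefficients mapped by `ι`). -/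
def IsAvatar (f : FFK K N) (h : B.Hol) : Prop := B.qexp h = ΦK ι N (f : LaurentSeries K)

variable {ι B}

theorem isAvatar_inclRNK (r : RNK K N) : IsAvatar ι B (inclRNK K N r) (bridgeK ι B r) :=
  qexp_bridgeK ι B r

theorem IsAvatar.unique {f : FFK K N} {h h' : B.Hol} (hav : IsAvatar ι B f h)
    (hav' : IsAvatar ι B f h') : h = h' :=
  B.qexp_injective (hav.trans hav'.symm)

theorem IsAvatar.injective {f f' : FFK K N} {h : B.Hol} (hav : IsAvatar ι B f h)
    (hav' : IsAvatar ι B f' h) : f = f' :=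
  Subtype.ext (ΦK_injective ι (hav.symm.trans hav'))

theorem isAvatar_zero : IsAvatar ι B (0 : FFK K N) 0 := by
  show B.qexp 0 = ΦK ι N ((0 : FFK K N) : LaurentSeries K)
  simp

theorem isAvatar_one : IsAvatar ι B (1 : FFK K N) 1 := by
  show B.qexp 1 = ΦK ι N ((1 : FFK K N) : LaurentSeries K)
  simp

theorem IsAvatar.mul {f f' : FFK K N} {h h' : B.Hol} (hav : IsAvatar ι B f h)
    (hav' : IsAvatar ι B f' h') : IsAvatar ι B (f * f') (h * h') := by
  show B.qexp (h * h') = ΦK ι N ((f * f' : FFK K N) : LaurentSeries K)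
  rw [map_mul, hav, hav', ← map_mul]
  rfl

theorem IsAvatar.add {f f' : FFK K N} {h h' : B.Hol} (hav : IsAvatar ι B f h)
    (hav' : IsAvatar ι B f' h') : IsAvatar ι B (f + f') (h + h') := by
  show B.qexp (h + h') = ΦK ι N ((f + f' : FFK K N) : LaurentSeries K)
  rw [map_add, hav, hav', ← map_add]
  rfl

theorem IsAvatar.pow {f : FFK K N} {h : B.Hol} (hav : IsAvatar ι B f h) (n : ℕ) :
    IsAvatar ι B (f ^ n) (h ^ n) := by
  induction n with
  | zero => simpa using isAvatar_one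
  | succ n ih => rw [pow_succ, pow_succ]; exact ih.mul hav

theorem IsAvatar.eq_zero_iff {f : FFK K N} {h : B.Hol} (hav : IsAvatar ι B f h) :
    h = 0 ↔ f = 0 :=
  ⟨fun h0 => hav.injective (h0 ▸ isAvatar_zero), fun f0 => hav.unique (f0 ▸ isAvatar_zero)⟩

/-- clearing denominators: `h * e(t) = e(r)` when `f = r / t` -/
theorem IsAvatar.mul_bridgeK {f : FFK K N} {h : B.Hol} (hav : IsAvatar ι B f h)
    {r t : RNK K N} (ht : t ≠ 0) (hf : f = inclRNK K N r / inclRNK K N t) :
    h * bridgeK ι B t = bridgeK ι B r := by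
  have ht' : inclRNK K N t ≠ 0 := fun h0 =>
    ht (inclRNK_injective K N (h0.trans (map_zero _).symm))
  have h1 : f * inclRNK K N t = inclRNK K N r := by
    rw [hf, div_mul_cancel₀ _ ht']
  exact (hav.mul (isAvatar_inclRNK t)).unique (h1 ▸ isAvatar_inclRNK r)

/-- **The embeddings in terms of the avatar**: `σ_g f = E (h ∘ g⁻¹)`. -/
theorem IsAvatar.sigmaGK_eq {f : FFK K N} {h : B.Hol} (hav : IsAvatar ι B f h)
    (X : Expansion B) (g : SL(2, ℤ)) : sigmaGK ι B X g f = X.E (B.compH g⁻¹ h) := by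
  obtain ⟨r, t, ht, hf⟩ := exists_div_inclRNK K N f
  have hmul := hav.mul_bridgeK ht hf
  have ht' : X.E (B.compH g⁻¹ (bridgeK ι B t)) ≠ 0 := by
    intro h0
    apply ht
    apply sGK_injective ι B X g
    rw [sGK_apply, h0, map_zero]
  rw [hf, map_div₀, sigmaGK_inclRNK, sigmaGK_inclRNK, ← hmul, map_mul, map_mul,
    mul_div_assoc, div_self ht', mul_one]

theorem IsAvatar.sigmaXK_mk_eq {f : FFK K N} {h : B.Hol} (hav : IsAvatar ι B f h)
    (X : Expansion B) (g : SL(2, ℤ)) :
    sigmaXK ι B X (g : XX N) f = X.E (B.compH g⁻¹ h) := by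
  rw [sigmaXK_mk]
  exact hav.sigmaGK_eq X g

end Avatar

/-! ### The dictionary -/

section Dict

variable {K : Type*} [Field K] [Algebra ℚ K] (ι : K →+* ℂ)
variable {N : ℕ} [NeZero N]

omit [NeZero N] in
theorem permOf_pow_apply (γ : SL(2, ℤ)) (e : ℕ) (g : SL(2, ℤ)) :
    (permOf N γ ^ e) (g : XX N) = ((γ ^ e * g : SL(2, ℤ)) : XX N) := by
  induction e with
  | zero => simp
  | succ n ih =>
    rw [pow_succ', Equiv.Perm.mul_apply, ih, pow_succ', mul_assoc]
    rfl

omit [NeZero N] in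
/-- if `perm_{ε⁻¹} ^ e` fixes the coset of `g` then `g⁻¹ ε ^ e g ∈ Γ₀(N)` -/
theorem conj_mem_of_permOf_pow_apply_eq {ε g : SL(2, ℤ)} {e : ℕ}
    (h : (permOf N ε⁻¹ ^ e) (g : XX N) = (g : XX N)) :
    g⁻¹ * ε ^ e * g ∈ CongruenceSubgroup.Gamma0 N := by
  rw [permOf_pow_apply] at h
  have h1 := QuotientGroup.eq.mp h
  have h2 : ((ε⁻¹) ^ e * g)⁻¹ * g = g⁻¹ * ε ^ e * g := by
    rw [mul_inv_rev, inv_pow, inv_inv]
  rwa [h2] at h1

variable (B : HolBase N)

/-- `h` is invariant under the special elements of `Γ₀(N)` -/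
def IsUnramified (h : B.Hol) : Prop :=
  ∀ γ : SL(2, ℤ), γ ∈ CongruenceSubgroup.Gamma0 N → IsSpecialElt γ → B.compH γ h = h

variable {B}

theorem IsUnramified.compH_pow_eq {h : B.Hol} (hinv : IsUnramified B h) {ε g : SL(2, ℤ)} {e : ℕ}
    (hε : IsSpecialElt (ε ^ e)) (hmem : g⁻¹ * ε ^ e * g ∈ CongruenceSubgroup.Gamma0 N) :
    B.compH (ε ^ e) (B.compH g⁻¹ h) = B.compH g⁻¹ h := by
  have h1 := hinv _ hmem (hε.conj g)
  rw [← HolBase.compH_mul]
  have h2 : g⁻¹ * ε ^ e = (g⁻¹ * ε ^ e * g) * g⁻¹ := by group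
  rw [h2, HolBase.compH_mul, h1]

variable [IsAlgClosed K]

/-- **DICT-hard, local form**: for local data constructed from an expansion with rotation data for
`ε` (all of whose powers are special), the order at every place `placeOf x` of a function with
avatar `h ^ M`, `h` unramified, is divisible by `M`. -/
theorem dvd_ord_placeOf_mkLocalDataK (X : Expansion B) (ε : SL(2, ℤ)) (R : RotData B X ε)
    (t : FFK K N) (u : LaurentSeries ℂ) (ht : ∀ g : SL(2, ℤ), sigmaGK ι B X g t = u)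
    (hu : u.order = (R.m : ℤ))
    (E : IntermediateField K (FFK K N)) (hE : E ≤ K⟮t⟯) [FiniteDimensional E (FFK K N)]
    (hrank : Module.finrank E (FFK K N) = Nat.card (XX N))
    (hε : ∀ e : ℕ, IsSpecialElt (ε ^ e))
    {h : B.Hol} (hinv : IsUnramified B h) {f : FFK K N} {M : ℕ}
    (hav : IsAvatar ι B f (h ^ M)) (x : XX N) :
    (M : ℤ) ∣ (H117.placeOf (mkLocalDataK ι B X ε R t u ht hu) x).ord f := by
  haveI : CharZero K := algebraRat.charZero K
  set L := mkLocalDataK ι B X ε R t u ht hu with hL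
  obtain ⟨g, rfl⟩ := QuotientGroup.mk_surjective x
  set w := H117.placeOf L (g : XX N) with hw
  set e : ℕ := (w.ord t).toNat with he
  have hpos : 0 < w.ord t := H117.ord_t_pos L _
  have hecast : (e : ℤ) = w.ord t := Int.toNat_of_nonneg hpos.le
  have he0 : (e : ℤ) ≠ 0 := by rw [hecast]; exact hpos.ne'
  -- the orbit
  have hfix : (permOf N ε⁻¹ ^ e) (g : XX N) = (g : XX N) :=
    perm_pow_ord_t_apply L E hE hrank (g : XX N)
  have hmem := conj_mem_of_permOf_pow_apply_eq hfix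
  -- the rotation
  set H : B.Hol := B.compH g⁻¹ h with hH
  have hHinv : B.compH (ε ^ e) H = H := hinv.compH_pow_eq (hε e) hmem
  have hdvd : (R.m : ℤ) ∣ (e : ℤ) * (X.E H).order := rot_dvd_of_compH_pow_eq B X ε R H e hHinv
  -- the multiplicity
  have hmult : (H117.mult L (g : XX N) : ℤ) * w.ord t = (R.m : ℤ) := H117.mult_mul_ord_t L _
  have hk0 : (H117.mult L (g : XX N) : ℤ) ≠ 0 := by
    exact_mod_cast (H117.mult_pos L (g : XX N)).ne'
  have hdvd2 : (H117.mult L (g : XX N) : ℤ) ∣ (X.E H).order := by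
    rw [← hmult, ← hecast, mul_comm] at hdvd
    exact (mul_dvd_mul_iff_left he0).mp hdvd
  obtain ⟨k, hk⟩ := hdvd2
  -- the order of `f`
  have hσ : L.σ (g : XX N) f = X.E H ^ M := by
    show sigmaXK ι B X (g : XX N) f = _
    rw [hav.sigmaXK_mk_eq X g, map_pow, map_pow]
  have hord : (L.σ (g : XX N) f).order = (M : ℤ) * (X.E H).order := by
    rw [hσ, HahnSeries.order_pow, nsmul_eq_mul]
  have h1 := H117.order_eq L (g : XX N) f
  rw [hord, hk] at h1
  refine ⟨k, ?_⟩
  have h2 : (H117.mult L (g : XX N) : ℤ) * w.ord f = (H117.mult L (g : XX N) : ℤ) * (M * k) := by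
    rw [← h1]; ring
  exact mul_left_cancel₀ hk0 h2

omit [IsAlgClosed K] in
theorem adjoin_jFK_le_sub (a : K) :
    K⟮jFK K N⟯ ≤ K⟮jFK K N - algebraMap K (FFK K N) a⟯ := by
  rw [IntermediateField.adjoin_le_iff, Set.singleton_subset_iff]
  have h := add_mem
    (IntermediateField.mem_adjoin_simple_self K (jFK K N - algebraMap K (FFK K N) a))
    (IntermediateField.algebraMap_mem K⟮jFK K N - algebraMap K (FFK K N) a⟯ a)
  rwa [sub_add_cancel] at h

omit [IsAlgClosed K] in
theorem adjoin_jFK_le_inv : K⟮jFK K N⟯ ≤ K⟮(jFK K N)⁻¹⟯ := by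
  rw [IntermediateField.adjoin_le_iff, Set.singleton_subset_iff]
  have h := inv_mem (IntermediateField.mem_adjoin_simple_self K (jFK K N)⁻¹)
  rwa [inv_inv] at h

variable (A : AnalyticCore N)

/-- **Every place of `FFK K N / K` is analytic**: it is induced by an embedding `σ_x` of the local
data at `∞` or over a finite point `a`. -/
theorem exists_placeOf_eqK (w : Place K (FFK K N)) :
    (∃ x : XX N, H117.placeOf (dataInfK ι A) x = w) ∨
      ∃ (a : K) (x : XX N), H117.placeOf (dataFinK ι A a) x = w := by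
  haveI : CharZero K := algebraRat.charZero K
  haveI := finiteDimensional_adjoin_jFK ι N
  have hrank := finrank_adjoin_jFK ι N
  rcases sub_exists_point (jFK K N) w with h | ⟨a, ha⟩
  · left
    have h' : 0 < w.ord (jFK K N)⁻¹ := by
      rw [Place.ord_inv]; omega
    exact H117.exists_placeOf_eq (dataInfK ι A) K⟮jFK K N⟯ adjoin_jFK_le_inv hrank w h'
  · right
    exact ⟨a, H117.exists_placeOf_eq (dataFinK ι A a) K⟮jFK K N⟯ (adjoin_jFK_le_sub a) hrank w ha⟩

omit [Algebra ℚ K] [IsAlgClosed K] in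
theorem isSpecialElt_epsAt_pow (a : K) (e : ℕ) : IsSpecialElt (epsAt ι a ^ e) := by
  classical
  unfold epsAt
  split_ifs
  · exact isSpecialElt_ST_pow e
  · exact isSpecialElt_S_pow e
  · exact isSpecialElt_one_pow e

variable {ι A}

/-- **DICT-hard.**  Let `f` be an element of the function field of `X₀(N)` over `K` whose analytic
avatar is `h ^ M`, where `h : Hol` is invariant under all special elements (finite order or
trace `2`) of `Γ₀(N)`.  Then `M ∣ ord_w f` for every place `w` of the function field. -/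
theorem dvd_ord_of_isAvatar_pow {h : A.Hol} (hinv : IsUnramified A.toHolBase h)
    {f : FFK K N} {M : ℕ} (hav : IsAvatar ι A.toHolBase f (h ^ M))
    (w : Place K (FFK K N)) : (M : ℤ) ∣ w.ord f := by
  haveI := finiteDimensional_adjoin_jFK ι N
  have hrank := finrank_adjoin_jFK ι N
  rcases exists_placeOf_eqK ι A w with ⟨x, rfl⟩ | ⟨a, x, rfl⟩
  · exact dvd_ord_placeOf_mkLocalDataK ι A.toHolBase.qexpExpansion ModularGroup.T A.infRot
      (jFK K N)⁻¹ (A.qexp (A.toHolBase.JH 1 (one_dvd N)))⁻¹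
      (fun g => by rw [map_inv₀, sigmaGK_jFK]; rfl)
      (by
        rw [RotRel.order_inv' A.toHolBase.qexp_J_one_ne_zero, A.toHolBase.order_qexp_J_one,
          neg_neg]
        rfl)
      K⟮jFK K N⟯ adjoin_jFK_le_inv hrank isSpecialElt_T_pow hinv hav x
  · exact dvd_ord_placeOf_mkLocalDataK ι (pointAt ι A a).X (epsAt ι a) (pointAt ι A a).R
      (jFK K N - algebraMap K (FFK K N) a) _
      (fun g => sigmaGK_sub ι A (pointAt ι A a) g) (pointAt ι A a).order_J
      K⟮jFK K N⟯ (adjoin_jFK_le_sub a) hrank (isSpecialElt_epsAt_pow ι a) hinv hav x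

end Dict

end Fermat.Agent.S29.H282

end
end
-- ===== PACK-END S29/H282/Dict.lean

-- ===== PACK-BEGIN S29/H282/K2.lean
section




/-!
# S29 / M4b — PIECE `K2` (DICT), exact skeleton type (helper282)

`exists_isKummerClass_of_realised` : if `u ∈ FF N` is realised by `U ^ p`, `U` twisted of a
character `c` killing parabolic and elliptic elements, then `u` has a `p`-Kummer class in
`J₀(N)(ℚ̄)`: `p ∣ ord_v u` at every place (`dvd_ord_of_isAvatar_pow`) and `(1/p) div u` has
degree `0`.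

Also `dvd_ord_of_realised` (the divisibility alone) and the same over `ℂ`.
-/

set_option autoImplicit false

noncomputable section

open ModularCurve AlgebraicCurve CongruenceSubgroup UpperHalfPlane
open scoped MatrixGroups Manifold Real

namespace Fermat.Agent.S29.H282

open Fermat.Agent.S24 Fermat.Agent.S24.H997 Fermat.Agent.S24.H648 Fermat.Agent.S24.H708
open Fermat.Agent.S24.H624
open Fermat.Agent.S29 Fermat.Agent.S29.M4b Fermat.Agent.S29.H332

variable {N : ℕ} [NeZero N] {p : ℕ} [NeZero p]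

/-- a twisted function as an element of `Hol` of the concrete analytic core -/
def twistedHol {c : G0 N → ZMod p} (hc : IsParHom c) {U : ℍ → ℂ} (hU : IsTwisted N p c U) :
    (analyticCore N).Hol := ⟨U, mem_holN_of_isTwisted hc hU⟩

theorem coe_twistedHol {c : G0 N → ZMod p} (hc : IsParHom c) {U : ℍ → ℂ}
    (hU : IsTwisted N p c U) : ((twistedHol hc hU : (analyticCore N).Hol) : ℍ → ℂ) = U := rfl

/-- a character killing parabolic and elliptic elements is trivial on special elements -/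
theorem isParHom_apply_of_isSpecialElt {c : G0 N → ZMod p} (hc : IsParHom c) (γ : G0 N)
    (hγ : IsSpecialElt (γ : SL(2, ℤ))) : c γ = 0 := by
  rcases hγ with ⟨n, hn, h⟩ | h
  · exact hc.elliptic γ n hn (Subtype.ext (by simpa using h))
  · exact hc.parabolic γ (Or.inl h)

theorem isUnramified_twistedHol {c : G0 N → ZMod p} (hc : IsParHom c) {U : ℍ → ℂ}
    (hU : IsTwisted N p c U) :
    IsUnramified (analyticCore N).toHolBase (twistedHol hc hU) := by
  intro γ hγ hsp
  apply Subtype.ext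
  funext τ
  show U (γ • τ) = U τ
  have h := hU.hasChar ⟨γ, hγ⟩ τ
  rw [isParHom_apply_of_isSpecialElt hc ⟨γ, hγ⟩ hsp] at h
  simpa using h

/-- the avatar relation over `ℚ̄` -/
theorem isAvatar_of_realises {c : G0 N → ZMod p} (hc : IsParHom c) {U : ℍ → ℂ}
    {u : FF N} (hU : IsTwisted N p c U) (hu : Realises N u (fun τ => U τ ^ p)) :
    IsAvatar (K := Kbar) Deg457.iotaC (analyticCore N).toHolBase u (twistedHol hc hU ^ p) := by
  have hq : HasQExp 1 (fun τ => U τ ^ p) (qexpFun 1 (fun τ => U τ ^ p)) :=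
    Fermat.Agent.S29.H882.hasQExp_of_mem_goodRing hu.1
  have hinf : InfExp N (fun τ => U τ ^ p)
      (qExpand ℂ N (coeffMap Deg457.iotaC ((u : FF N) : LaurentSeries Kbar))) := by
    rw [← hu.2]
    exact infExp_level_of_hasQExp hq
  exact (expInf_spec (holToExp N (twistedHol hc hU ^ p))).unique hinf

/-- **DICT-hard over `ℚ̄`, M4b language**: `p ∣ ord_v u` at every place of `FF N`. -/
theorem dvd_ord_of_realised {c : G0 N → ZMod p} (hc : IsParHom c) {U : ℍ → ℂ}
    {u : FF N} (hU : IsTwisted N p c U) (hu : Realises N u (fun τ => U τ ^ p))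
    (v : Place Kbar (FF N)) : (p : ℤ) ∣ v.ord u :=
  dvd_ord_of_isAvatar_pow (K := Kbar) (ι := Deg457.iotaC) (A := analyticCore N)
    (isUnramified_twistedHol hc hU) (isAvatar_of_realises hc hU hu) v

theorem ne_zero_of_realised {c : G0 N → ZMod p} (hc : IsParHom c) {U : ℍ → ℂ}
    {u : FF N} (hU : IsTwisted N p c U) (hu : Realises N u (fun τ => U τ ^ p)) : u ≠ 0 := by
  intro h0
  have hav := isAvatar_of_realises hc hU hu
  have h1 : twistedHol hc hU ^ p = 0 := hav.eq_zero_iff.mpr h0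
  have h2 : twistedHol hc hU = 0 := by
    apply (analyticCore N).toHolBase.qexp_injective
    have h3 := congrArg (analyticCore N).toHolBase.qexp h1
    rw [map_pow, map_zero] at h3
    rw [map_zero]
    exact pow_eq_zero_iff (NeZero.ne p) |>.mp h3
  obtain ⟨τ, hτ⟩ := hU.ne_zero
  apply hτ
  have := congrArg (fun f : (analyticCore N).Hol => (f : ℍ → ℂ) τ) h2
  simpa [coe_twistedHol] using this

variable (N p)

/-- **PIECE `K2`** of the M4b skeleton (exact type). -/
theorem exists_isKummerClass_of_realised {c : G0 N → ZMod p} (hc : IsParHom c) {U : ℍ → ℂ}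
    {u : FF N} (hU : IsTwisted N p c U) (hu : Realises N u (fun τ => U τ ^ p)) :
    ∃ x : JZero N, H455.IsKummerClass (p : ℤ) u x := by
  have hf : u ≠ 0 := ne_zero_of_realised hc hU hu
  haveI := Fermat.Agent.Lib.RR.H864.hasPrincipalDivisors_modularFunctionFieldBar N
  obtain ⟨D₀, hD₀, hdeg₀⟩ :=
    HasPrincipalDivisors.exists_divisor (K := AlgebraicClosure ℚ) u hf
  obtain ⟨D, hdeg, hD⟩ := Fermat.Agent.S29.H389.exists_divisor_div p (NeZero.ne p) D₀
    (fun v => by
      rw [hD₀ v]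
      exact dvd_ord_of_realised hc hU hu v)
    hdeg₀
  refine ⟨Pic0.mk ⟨D, hdeg⟩, hf, ⟨D, hdeg⟩, rfl, fun v => ?_⟩
  rw [hD v, hD₀ v]

end Fermat.Agent.S29.H282

end
end
-- ===== PACK-END S29/H282/K2.lean

-- ===== PACK-BEGIN S29/M4b/K3/DTo.lean
section
/-
S29 row, LAYER M, SUB-LAYER M4b, PIECE K3, sub-piece `K3-DTO` (helper42).
Namespace `Fermat.Agent.S29.M4b.K3`.

`dto` : for a twisted function `U` of a parabolic character, the `q`-expansion `f = qexp (U ^ p)`
(an element of `F_ℂ = laurentBaseChange ℂ (modularFunctionFieldFull N)`) satisfies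
`p ∣ ord_w f` at EVERY place `w` of `F_ℂ / ℂ`.

This is the landed generic-`K` dictionary `H282.dvd_ord_of_isAvatar_pow` at `K = ℂ`, `ι = id`.
-/



set_option autoImplicit false

noncomputable section

open ModularCurve AlgebraicCurve CongruenceSubgroup UpperHalfPlane
open scoped MatrixGroups Manifold

namespace Fermat.Agent.S29.M4b.K3

open Fermat.Agent.S24 Fermat.Agent.S24.H997 Fermat.Agent.S24.H648 Fermat.Agent.S24.H708
open Fermat.Agent.S24.H624
open Fermat.Agent.S29 Fermat.Agent.S29.M4b Fermat.Agent.S29.H282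

variable {N : ℕ} [NeZero N] {p : ℕ} [NeZero p]

/-- the avatar relation over `ℂ` -/
theorem isAvatar_of_qexp {c : G0 N → ZMod p} (hc : IsParHom c) {U : ℍ → ℂ}
    (hU : IsTwisted N p c U) {f : FFK ℂ N}
    (hf : (f : LaurentSeries ℂ) = qexpFun 1 (fun τ => U τ ^ p)) :
    IsAvatar (K := ℂ) (RingHom.id ℂ) (analyticCore N).toHolBase f (twistedHol hc hU ^ p) := by
  have hq : HasQExp 1 (fun τ => U τ ^ p) (qexpFun 1 (fun τ => U τ ^ p)) :=
    Fermat.Agent.S29.H882.hasQExp_of_mem_goodRing hU.pow_mem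
  have hinf : InfExp N (fun τ => U τ ^ p)
      (qExpand ℂ N (coeffMap (RingHom.id ℂ) ((f : FFK ℂ N) : LaurentSeries ℂ))) := by
    rw [coeffMap_id, hf]
    exact infExp_level_of_hasQExp hq
  exact (expInf_spec (holToExp N (twistedHol hc hU ^ p))).unique hinf

/-- **K3-DTO.**  `p ∣ ord_w (qexp (U ^ p))` at every place `w` of `F_ℂ`. -/
theorem dto {c : G0 N → ZMod p} (hc : IsParHom c) {U : ℍ → ℂ}
    (hU : IsTwisted N p c U) {f : FC N}
    (hf : (f : LaurentSeries ℂ) = qexpFun 1 (fun τ => U τ ^ p))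
    (w : Place ℂ (FC N)) : (p : ℤ) ∣ w.ord f :=
  dvd_ord_of_isAvatar_pow (K := ℂ) (ι := RingHom.id ℂ) (A := analyticCore N)
    (isUnramified_twistedHol hc hU) (isAvatar_of_qexp hc hU hf) w

end Fermat.Agent.S29.M4b.K3

end
end
-- ===== PACK-END S29/M4b/K3/DTo.lean

-- ===== PACK-BEGIN S29/H942/SameChar.lean
section


/-!
# S29 / M4b / K3 (DESC), sub-piece (B) "FINITE" (helper942)

Two twisted functions of the SAME character have `p`-th powers whose `q`-expansions differ by a
`p`-th power of the function field `F_ℂ = laurentBaseChange ℂ (modularFunctionFieldFull N)`.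

* `expGrowth_of_pow` : root of a growth bound.
* `mem_goodRing_of_pow_mem` : a holomorphic `Γ₀(N)`-invariant function with a good power is good.
* `mul_pow_pred_mem_goodRing` : `U * V ^ (p - 1)` is good for `U`, `V` twisted of the same
  character.
* `exists_pow_mul_eq_of_isTwisted` : `qexp (U ^ p) = g ^ p * qexp (V ^ p)` with `g ∈ F_ℂ`, `g ≠ 0`.
* `exists_pow_mul_eq_of_realised` : the same for data `(f, t, U)` with `qexp (U ^ p) = f * t ^ p`
  (the shape used in `IsKum`).
-/

set_option autoImplicit false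

noncomputable section

open ModularCurve AlgebraicCurve CongruenceSubgroup UpperHalfPlane
open scoped MatrixGroups Manifold

namespace Fermat.Agent.S29.H942

open Fermat.Agent.S24 Fermat.Agent.S29 Fermat.Agent.S29.M4b

/-- Root of a growth bound: if `f ^ p` (`p ≠ 0`) has at most exponential growth, so has `f`. -/
theorem expGrowth_of_pow {f : ℍ → ℂ} {p : ℕ} (hp : p ≠ 0)
    (h : H648.ExpGrowth (fun τ => f τ ^ p)) : H648.ExpGrowth f := by
  obtain ⟨C, m, hC⟩ := h
  refine ⟨max C 1, m, fun τ hτ => ?_⟩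
  have hexp : (1 : ℝ) ≤ Real.exp (2 * Real.pi * m * τ.im) := by
    apply Real.one_le_exp
    have := Real.pi_pos
    have := τ.im_pos
    positivity
  have hpow := hC τ hτ
  rw [norm_pow] at hpow
  rcases le_total ‖f τ‖ 1 with h1 | h1
  · calc ‖f τ‖ ≤ 1 := h1
      _ = 1 * 1 := (one_mul 1).symm
      _ ≤ max C 1 * Real.exp (2 * Real.pi * m * τ.im) :=
          mul_le_mul (le_max_right _ _) hexp zero_le_one (le_trans zero_le_one (le_max_right _ _))
  · calc ‖f τ‖ ≤ ‖f τ‖ ^ p := le_self_pow₀ h1 hp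
      _ ≤ C * Real.exp (2 * Real.pi * m * τ.im) := hpow
      _ ≤ max C 1 * Real.exp (2 * Real.pi * m * τ.im) := by
          gcongr
          exact le_max_left _ _

/-- A holomorphic `Γ₀(N)`-invariant function one of whose powers is good is good. -/
theorem mem_goodRing_of_pow_mem (N : ℕ) {W : ℍ → ℂ} {p : ℕ} (hp : p ≠ 0)
    (hW : MDifferentiable 𝓘(ℂ) 𝓘(ℂ) W)
    (hinv : ∀ γ ∈ Gamma0 N, ∀ τ : ℍ, W (γ • τ) = W τ)
    (hpow : (fun τ => W τ ^ p) ∈ H648.goodRing N) : W ∈ H648.goodRing N := by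
  refine ⟨hW, hinv, fun g => ?_⟩
  exact expGrowth_of_pow hp (hpow.2.2 g)

/-- `ζ_p ^ p = 1`. -/
theorem zetaP_pow_self' (p : ℕ) [NeZero p] : zetaP p ^ p = 1 := by
  unfold zetaP
  rw [← Complex.exp_nat_mul]
  have hp : (p : ℂ) ≠ 0 := Nat.cast_ne_zero.mpr (NeZero.ne p)
  rw [mul_div_cancel₀ _ hp]
  exact Complex.exp_two_pi_mul_I

variable (N : ℕ) [NeZero N] (p : ℕ) [NeZero p]

/-- For `U`, `V` of the same character, `U * V ^ (p - 1)` is `Γ₀(N)`-invariant. -/
theorem mul_pow_pred_invariant {c : G0 N → ZMod p} {U V : ℍ → ℂ}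
    (hU : HasChar N p c U) (hV : HasChar N p c V) (γ : SL(2, ℤ)) (hγ : γ ∈ Gamma0 N) (τ : ℍ) :
    U (γ • τ) * V (γ • τ) ^ (p - 1) = U τ * V τ ^ (p - 1) := by
  have h1 := hU ⟨γ, hγ⟩ τ
  have h2 := hV ⟨γ, hγ⟩ τ
  simp only at h1 h2
  rw [h1, h2, mul_pow, ← pow_mul]
  have hp1 : 1 ≤ p := Nat.one_le_iff_ne_zero.mpr (NeZero.ne p)
  have hz : zetaP p ^ (c ⟨γ, hγ⟩).val * zetaP p ^ ((c ⟨γ, hγ⟩).val * (p - 1)) = 1 := by
    rw [← pow_add]
    have : (c ⟨γ, hγ⟩).val + (c ⟨γ, hγ⟩).val * (p - 1) = p * (c ⟨γ, hγ⟩).val := by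
      have hpp : p - 1 + 1 = p := Nat.sub_add_cancel hp1
      calc (c ⟨γ, hγ⟩).val + (c ⟨γ, hγ⟩).val * (p - 1)
          = (c ⟨γ, hγ⟩).val * (p - 1 + 1) := by ring
        _ = p * (c ⟨γ, hγ⟩).val := by rw [hpp, mul_comm]
    rw [this, pow_mul, zetaP_pow_self', one_pow]
  calc zetaP p ^ (c ⟨γ, hγ⟩).val * U τ * (zetaP p ^ ((c ⟨γ, hγ⟩).val * (p - 1)) * V τ ^ (p - 1))
      = (zetaP p ^ (c ⟨γ, hγ⟩).val * zetaP p ^ ((c ⟨γ, hγ⟩).val * (p - 1))) *
          (U τ * V τ ^ (p - 1)) := by ring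
    _ = U τ * V τ ^ (p - 1) := by rw [hz, one_mul]

/-- For `U`, `V` twisted of the same character, `U * V ^ (p - 1)` is good. -/
theorem mul_pow_pred_mem_goodRing {c : G0 N → ZMod p} {U V : ℍ → ℂ}
    (hU : IsTwisted N p c U) (hV : IsTwisted N p c V) :
    (fun τ => U τ * V τ ^ (p - 1)) ∈ H648.goodRing N := by
  refine mem_goodRing_of_pow_mem N (NeZero.ne p) (hU.mdiff.mul (hV.mdiff.pow (p - 1)))
    (fun γ hγ τ => mul_pow_pred_invariant N p hU.hasChar hV.hasChar γ hγ τ) ?_
  have h : (fun τ => (U τ * V τ ^ (p - 1)) ^ p)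
      = (fun τ => U τ ^ p) * (fun τ => V τ ^ p) ^ (p - 1) := by
    funext τ
    simp only [Pi.mul_apply, Pi.pow_apply]
    rw [mul_pow, ← pow_mul, ← pow_mul, mul_comm (p - 1) p]
  rw [h]
  exact (H648.goodRing N).mul_mem hU.pow_mem ((H648.goodRing N).pow_mem hV.pow_mem _)

/-- `qexpFun` commutes with powers of functions meromorphic at `i∞`. -/
theorem qexpFun_pow' {f : ℍ → ℂ} (hf : H708.IsMerInf 1 f) (n : ℕ) :
    H708.qexpFun 1 (f ^ n) = H708.qexpFun 1 f ^ n := by
  induction n with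
  | zero =>
      rw [pow_zero, pow_zero]
      have h1 : (1 : ℍ → ℂ) = fun _ => (1 : ℂ) := rfl
      rw [h1, H708.qexpFun_const]
      simp
  | succ n ih => rw [pow_succ, H708.qexpFun_mul (hf.pow n) hf, ih, pow_succ]

omit [NeZero N] [NeZero p] in
/-- A twisted function has a nonzero `p`-th power. -/
theorem pow_ne_zero_of_isTwisted {c : G0 N → ZMod p} {U : ℍ → ℂ} (hU : IsTwisted N p c U) :
    (fun τ => U τ ^ p) ≠ 0 := by
  obtain ⟨τ, hτ⟩ := hU.ne_zero
  intro h0
  exact pow_ne_zero p hτ (congrFun h0 τ)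

/-- The `q`-expansion of the `p`-th power of a twisted function is a nonzero element of `F_ℂ`. -/
theorem qexpFun_pow_ne_zero_of_isTwisted {c : G0 N → ZMod p} {U : ℍ → ℂ}
    (hU : IsTwisted N p c U) : H708.qexpFun 1 (fun τ => U τ ^ p) ≠ 0 := by
  intro h0
  exact pow_ne_zero_of_isTwisted N p hU
    ((H708.qexpFun_eq_zero_iff (H882.isMerInf_of_mem_goodRing hU.pow_mem)).mp h0)

/-- **Sub-piece (B) of K3.**  If `U` and `V` are twisted functions of the same character `c`, then
the `q`-expansions of `U ^ p` and `V ^ p` differ by the `p`-th power of a nonzero element of the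
function field `F_ℂ` of `X₀(N)` over `ℂ`. -/
theorem exists_pow_mul_eq_of_isTwisted {c : G0 N → ZMod p} {U V : ℍ → ℂ}
    (hU : IsTwisted N p c U) (hV : IsTwisted N p c V) :
    ∃ g : LaurentSeries ℂ, g ∈ H882.FC N ∧ g ≠ 0 ∧
      H708.qexpFun 1 (fun τ => U τ ^ p) = g ^ p * H708.qexpFun 1 (fun τ => V τ ^ p) := by
  set W : ℍ → ℂ := fun τ => U τ * V τ ^ (p - 1) with hWdef
  have hW : W ∈ H648.goodRing N := mul_pow_pred_mem_goodRing N p hU hV
  have hWm := H882.isMerInf_of_mem_goodRing hW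
  have hUm := H882.isMerInf_of_mem_goodRing hU.pow_mem
  have hVm := H882.isMerInf_of_mem_goodRing hV.pow_mem
  set w := H708.qexpFun 1 W with hw
  set a := H708.qexpFun 1 (fun τ => U τ ^ p) with ha
  set b := H708.qexpFun 1 (fun τ => V τ ^ p) with hb
  have hwFC : w ∈ H882.FC N := H882.qexpFun_mem_FC hW
  have hbFC : b ∈ H882.FC N := H882.qexpFun_mem_FC hV.pow_mem
  have hb0 : b ≠ 0 := qexpFun_pow_ne_zero_of_isTwisted N p hV
  have ha0 : a ≠ 0 := qexpFun_pow_ne_zero_of_isTwisted N p hU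
  -- `w ^ p = a * b ^ (p - 1)`
  have hfun : W ^ p = (fun τ => U τ ^ p) * (fun τ => V τ ^ p) ^ (p - 1) := by
    funext τ
    simp only [hWdef, Pi.mul_apply, Pi.pow_apply]
    rw [mul_pow, ← pow_mul, ← pow_mul, mul_comm (p - 1) p]
  have hwp : w ^ p = a * b ^ (p - 1) := by
    rw [hw, ← qexpFun_pow' hWm p, hfun, H708.qexpFun_mul hUm (hVm.pow (p - 1)),
      qexpFun_pow' hVm (p - 1)]
  have hp1 : p - 1 + 1 = p := Nat.sub_add_cancel (Nat.one_le_iff_ne_zero.mpr (NeZero.ne p))
  refine ⟨w * b⁻¹, mul_mem hwFC (inv_mem hbFC), ?_, ?_⟩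
  · refine mul_ne_zero ?_ (inv_ne_zero hb0)
    intro h0
    rw [h0, zero_pow (NeZero.ne p)] at hwp
    exact mul_ne_zero ha0 (pow_ne_zero _ hb0) hwp.symm
  · rw [mul_pow, hwp, inv_pow]
    have hbp : b ^ p = b ^ (p - 1) * b := by rw [← pow_succ, hp1]
    rw [hbp, mul_inv]
    field_simp

/-- Variant of (B) for data in the shape of `IsKum`: if `qexp (U ^ p) = f * t ^ p` and
`qexp (V ^ p) = f' * t' ^ p` with `U`, `V` twisted of the same character, `t, t' ≠ 0`, then
`f = g ^ p * f'` for some nonzero `g ∈ F_ℂ` (provided `t, t' ∈ F_ℂ`). -/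
theorem exists_pow_mul_eq_of_realised {c : G0 N → ZMod p} {U V : ℍ → ℂ}
    (hU : IsTwisted N p c U) (hV : IsTwisted N p c V) {f t f' t' : LaurentSeries ℂ}
    (ht : t ∈ H882.FC N) (ht0 : t ≠ 0) (ht' : t' ∈ H882.FC N) (ht0' : t' ≠ 0)
    (hf : H708.qexpFun 1 (fun τ => U τ ^ p) = f * t ^ p)
    (hf' : H708.qexpFun 1 (fun τ => V τ ^ p) = f' * t' ^ p) :
    ∃ g : LaurentSeries ℂ, g ∈ H882.FC N ∧ g ≠ 0 ∧ f = g ^ p * f' := by
  obtain ⟨g, hg, hg0, h⟩ := exists_pow_mul_eq_of_isTwisted N p hU hV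
  refine ⟨g * t' * t⁻¹, mul_mem (mul_mem hg ht') (inv_mem ht),
    mul_ne_zero (mul_ne_zero hg0 ht0') (inv_ne_zero ht0), ?_⟩
  rw [hf, hf'] at h
  have htp : t ^ p ≠ 0 := pow_ne_zero _ ht0
  rw [mul_pow, mul_pow, inv_pow]
  field_simp
  rw [h]
  ring

end Fermat.Agent.S29.H942

end
end
-- ===== PACK-END S29/H942/SameChar.lean

-- ===== PACK-BEGIN S29/M4b/K3/Fin.lean
section
/-
S29 row, LAYER M, SUB-LAYER M4b, PIECE K3, sub-piece `K3-FIN` (helper42).
Namespace `Fermat.Agent.S29.M4b.K3`.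

`finStatement_of_dfrom : DFromStatement N p → FinStatement N p`.

`FinStatement` (= hypothesis `horb` of `H152.desc_main` for `f = qexp (U ^ p)`) is proved from
the single remaining analytic input `DFromStatement N p` ("DICT-easy + ROOT over `ℂ`"):
every `x ∈ F_ℂˣ` whose divisor is divisible by `p` is, up to a `p`-th power of `F_ℂˣ`, the
`q`-expansion of the `p`-th power of a holomorphic function `V` on `ℍ` with `V ^ p` good.

Steps (`f = qexp (U ^ p)`):
* `dto` (file `DTo.lean`): `p ∣ ord_w f` at every place `w` of `F_ℂ`;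
* transport: `σ ∈ Aut(ℂ/ℚ̄)` acts semilinearly on `F_ℂ` (Prelude `arithmeticGalois`) and permutes
  the places (`SemilinearAut.ord_smul`), so `p ∣ ord_w (σ f)` for all `w`;
* `DFromStatement` gives `V_σ` with `qexp (V_σ ^ p) = σ f * s_σ ^ p`;
* `V_σ` has a character `κ_σ : Γ₀(N) →* ℂˣ`, `κ_σ ^ p = 1` (`H942.exists_kummerChar`);
* there are finitely many such characters (`Γ₀(N)` is finitely generated): `finite_pChar`;
* equal characters give equal classes modulo `p`-th powers: `exists_pow_mul_eq_of_sameChar`.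
-/




set_option autoImplicit false
set_option linter.style.haveILetI false

noncomputable section

open ModularCurve AlgebraicCurve CongruenceSubgroup UpperHalfPlane
open scoped MatrixGroups Manifold

namespace Fermat.Agent.S29.M4b.K3

open Fermat.Agent.S24 Fermat.Agent.S24.H648 Fermat.Agent.S24.H708 Fermat.Agent.S24.Deg457
open Fermat.Agent.S29 Fermat.Agent.S29.M4b

/-- SUB-PIECE `K3-DFROM` ("DICT-easy + ROOT over `ℂ`"): an element `f ≠ 0` of `F_ℂ` all of whose
orders are divisible by `p` is, up to the `p`-th power of a nonzero element `s` of `F_ℂ`, the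
`q`-expansion of `V ^ p` for a holomorphic `V : ℍ → ℂ` with `V ^ p` good. -/
def DFromStatement (N p : ℕ) : Prop :=
  ∀ f : FC N, f ≠ 0 → (∀ w : Place ℂ (FC N), (p : ℤ) ∣ w.ord f) →
    ∃ s : LaurentSeries ℂ, s ∈ FC N ∧ s ≠ 0 ∧ ∃ V : ℍ → ℂ, MDifferentiable 𝓘(ℂ) 𝓘(ℂ) V ∧
      (fun τ => V τ ^ p) ∈ goodRing N ∧
      qexpFun 1 (fun τ => V τ ^ p) = (f : LaurentSeries ℂ) * s ^ p

variable {N : ℕ} [NeZero N] {p : ℕ} [NeZero p]

/-- There are finitely many characters `Γ₀(N) →* ℂˣ` of exponent `p`. -/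
theorem finite_pChar (N : ℕ) [NeZero N] (p : ℕ) [NeZero p] :
    Finite {κ : Gamma0 N →* ℂˣ // ∀ γ, κ γ ^ p = 1} := by
  classical
  haveI : Group.FG SL(2, ℤ) := Group.fg_iff.mpr ⟨{ModularGroup.S, ModularGroup.T},
    SpecialLinearGroup.SL2Z_generators, by simp⟩
  haveI : Group.FG (Gamma0 N) := inferInstance
  obtain ⟨S, hS, hSfin⟩ := Group.fg_iff.mp (inferInstance : Group.FG (Gamma0 N))
  haveI : Finite S := hSfin
  let Φ : {κ : Gamma0 N →* ℂˣ // ∀ γ, κ γ ^ p = 1} → (S → rootsOfUnity p ℂ) :=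
    fun κ s => ⟨κ.1 s, (mem_rootsOfUnity p _).mpr (κ.2 s)⟩
  refine Finite.of_injective Φ ?_
  intro κ₁ κ₂ h
  apply Subtype.ext
  apply MonoidHom.eq_of_eqOn_dense hS
  intro x hx
  have := congrFun h ⟨x, hx⟩
  exact congrArg Subtype.val this

/-- Two holomorphic functions with good `p`-th powers and the SAME character have `p`-th powers
whose `q`-expansions differ by a `p`-th power of `F_ℂ`. -/
theorem exists_pow_mul_eq_of_sameChar {V₁ V₂ : ℍ → ℂ} (κ : Gamma0 N →* ℂˣ)
    (hκ : ∀ γ, κ γ ^ p = 1)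
    (h1m : MDifferentiable 𝓘(ℂ) 𝓘(ℂ) V₁) (h2m : MDifferentiable 𝓘(ℂ) 𝓘(ℂ) V₂)
    (h1 : ∀ (γ : Gamma0 N) (τ : ℍ), V₁ ((γ : SL(2, ℤ)) • τ) = ((κ γ : ℂˣ) : ℂ) * V₁ τ)
    (h2 : ∀ (γ : Gamma0 N) (τ : ℍ), V₂ ((γ : SL(2, ℤ)) • τ) = ((κ γ : ℂˣ) : ℂ) * V₂ τ)
    (h1g : (fun τ => V₁ τ ^ p) ∈ goodRing N) (h2g : (fun τ => V₂ τ ^ p) ∈ goodRing N)
    (h1ne : qexpFun 1 (fun τ => V₁ τ ^ p) ≠ 0) (h2ne : qexpFun 1 (fun τ => V₂ τ ^ p) ≠ 0) :
    ∃ g : LaurentSeries ℂ, g ∈ FC N ∧ g ≠ 0 ∧
      qexpFun 1 (fun τ => V₁ τ ^ p) = g ^ p * qexpFun 1 (fun τ => V₂ τ ^ p) := by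
  have hp : p ≠ 0 := NeZero.ne p
  have hp1 : p - 1 + 1 = p := Nat.sub_add_cancel (Nat.one_le_iff_ne_zero.mpr hp)
  set W : ℍ → ℂ := fun τ => V₁ τ * V₂ τ ^ (p - 1) with hWdef
  have hfun : (fun τ => W τ ^ p) = (fun τ => V₁ τ ^ p) * (fun τ => V₂ τ ^ p) ^ (p - 1) := by
    funext τ
    simp only [hWdef, Pi.mul_apply, Pi.pow_apply]
    rw [mul_pow, ← pow_mul, ← pow_mul, mul_comm (p - 1) p]
  have hWinv : ∀ γ ∈ Gamma0 N, ∀ τ : ℍ, W (γ • τ) = W τ := by
    intro γ hγ τ
    have e1 := h1 ⟨γ, hγ⟩ τ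
    have e2 := h2 ⟨γ, hγ⟩ τ
    simp only at e1 e2
    simp only [hWdef]
    rw [e1, e2, mul_pow]
    have hk : ((κ ⟨γ, hγ⟩ : ℂˣ) : ℂ) * ((κ ⟨γ, hγ⟩ : ℂˣ) : ℂ) ^ (p - 1) = 1 := by
      rw [← pow_succ', hp1]
      have h3 := congrArg (fun u : ℂˣ => (u : ℂ)) (hκ ⟨γ, hγ⟩)
      simpa using h3
    calc ((κ ⟨γ, hγ⟩ : ℂˣ) : ℂ) * V₁ τ * (((κ ⟨γ, hγ⟩ : ℂˣ) : ℂ) ^ (p - 1) * V₂ τ ^ (p - 1))
        = (((κ ⟨γ, hγ⟩ : ℂˣ) : ℂ) * ((κ ⟨γ, hγ⟩ : ℂˣ) : ℂ) ^ (p - 1)) *
            (V₁ τ * V₂ τ ^ (p - 1)) := by ring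
      _ = V₁ τ * V₂ τ ^ (p - 1) := by rw [hk, one_mul]
  have hW : W ∈ goodRing N := by
    refine H942.mem_goodRing_of_pow_mem N hp (h1m.mul (h2m.pow (p - 1))) hWinv ?_
    rw [hfun]
    exact (goodRing N).mul_mem h1g ((goodRing N).pow_mem h2g _)
  have hWm := H882.isMerInf_of_mem_goodRing hW
  have h1M := H882.isMerInf_of_mem_goodRing h1g
  have h2M := H882.isMerInf_of_mem_goodRing h2g
  set w := qexpFun 1 W with hw
  set a := qexpFun 1 (fun τ => V₁ τ ^ p) with ha
  set b := qexpFun 1 (fun τ => V₂ τ ^ p) with hb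
  have hwFC : w ∈ FC N := H882.qexpFun_mem_FC hW
  have hbFC : b ∈ FC N := H882.qexpFun_mem_FC h2g
  have hwp : w ^ p = a * b ^ (p - 1) := by
    have hfun' : W ^ p = (fun τ => V₁ τ ^ p) * (fun τ => V₂ τ ^ p) ^ (p - 1) := hfun
    rw [hw, ← H942.qexpFun_pow' hWm p, hfun', qexpFun_mul h1M (h2M.pow (p - 1)),
      H942.qexpFun_pow' h2M (p - 1)]
  refine ⟨w * b⁻¹, mul_mem hwFC (inv_mem hbFC), ?_, ?_⟩
  · refine mul_ne_zero ?_ (inv_ne_zero h2ne)
    intro h0
    rw [h0, zero_pow hp] at hwp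
    exact mul_ne_zero h1ne (pow_ne_zero _ h2ne) hwp.symm
  · rw [mul_pow, hwp, inv_pow]
    have hbp : b ^ p = b ^ (p - 1) * b := by rw [← pow_succ, hp1]
    rw [hbp, mul_inv]
    field_simp

/-- Representatives of the fibres of a map to a finite type. -/
theorem exists_finset_fibre_rep {G X : Type*} [Finite X] (χ : G → X) :
    ∃ s : Finset G, ∀ g : G, ∃ h ∈ s, χ g = χ h := by
  classical
  haveI : Fintype (Set.range χ) := Fintype.ofFinite _
  let r : Set.range χ → G := fun x => x.2.choose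
  have hr : ∀ x : Set.range χ, χ (r x) = x := fun x => x.2.choose_spec
  refine ⟨Finset.univ.image r, fun g => ⟨r ⟨χ g, g, rfl⟩, ?_, ?_⟩⟩
  · exact Finset.mem_image_of_mem _ (Finset.mem_univ _)
  · exact (hr ⟨χ g, g, rfl⟩).symm

/-- **K3-FIN from K3-DFROM.** -/
theorem finStatement_of_dfrom (N : ℕ) [NeZero N] (p : ℕ) [NeZero p]
    (hd : DFromStatement N p) : FinStatement N p := by
  letI := algKC
  intro c hc U hU
  classical
  have hp : p ≠ 0 := NeZero.ne p
  set a : LaurentSeries ℂ := qexpFun 1 (fun τ => U τ ^ p) with ha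
  have haFC : a ∈ FC N := H882.qexpFun_mem_FC hU.pow_mem
  have ha0 : a ≠ 0 := H942.qexpFun_pow_ne_zero_of_isTwisted N p hU
  set f₀ : FC N := ⟨a, haFC⟩ with hf₀def
  have hf₀ : f₀ ≠ 0 := fun h => ha0 (congrArg Subtype.val h)
  have hdvd : ∀ w : Place ℂ (FC N), (p : ℤ) ∣ w.ord f₀ := fun w => dto hc hU rfl w
  -- the data attached to each `σ`
  have key : ∀ σ : ℂ ≃ₐ[Kbar] ℂ, ∃ (s : LaurentSeries ℂ) (V : ℍ → ℂ)
      (κ : {κ : Gamma0 N →* ℂˣ // ∀ γ, κ γ ^ p = 1}), s ∈ FC N ∧ s ≠ 0 ∧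
      MDifferentiable 𝓘(ℂ) 𝓘(ℂ) V ∧ (fun τ => V τ ^ p) ∈ goodRing N ∧
      (∀ (γ : Gamma0 N) (τ : ℍ), V ((γ : SL(2, ℤ)) • τ) = ((κ.1 γ : ℂˣ) : ℂ) * V τ) ∧
      qexpFun 1 (fun τ => V τ ^ p) ≠ 0 ∧
      qexpFun 1 (fun τ => V τ ^ p) = coeffMap (σ : ℂ →+* ℂ) a * s ^ p := by
    intro σ
    set g : SemilinearAut ℂ (FC N) :=
      arithmeticGalois (modularFunctionFieldFull N) (σ.toRingEquiv.toRatAlgEquiv) with hg
    have hcoe : ((g • f₀ : FC N) : LaurentSeries ℂ) = coeffMap (σ : ℂ →+* ℂ) a := rfl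
    have hne : g • f₀ ≠ 0 := (smul_ne_zero_iff_ne g).mpr hf₀
    have hdvd' : ∀ w : Place ℂ (FC N), (p : ℤ) ∣ w.ord (g • f₀) := by
      intro w
      have h := SemilinearAut.ord_smul g (g⁻¹ • w) f₀
      rw [smul_inv_smul] at h
      rw [h]
      exact hdvd _
    obtain ⟨s, hs, hs0, V, hVm, hVg, hq⟩ := hd (g • f₀) hne hdvd'
    rw [hcoe] at hq
    have hqne : qexpFun 1 (fun τ => V τ ^ p) ≠ 0 := by
      rw [hq]
      refine mul_ne_zero ?_ (pow_ne_zero _ hs0)
      rw [← hcoe]
      exact fun h => hne (Subtype.ext h)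
    have hV0 : V ≠ 0 := by
      intro h0
      apply hqne
      have : (fun τ => V τ ^ p) = 0 := by
        funext τ
        rw [h0]
        simp [hp]
      rw [this]
      exact (qexpFun_eq_zero_iff (H882.isMerInf_of_mem_goodRing
        (by rw [← this]; exact hVg))).mpr rfl
    obtain ⟨κ, hκ, hVκ⟩ := H942.exists_kummerChar (Gamma0 N) hVm hV0 hp
      (fun γ hγ z => hVg.2.1 γ hγ z)
    exact ⟨s, V, ⟨κ, hκ⟩, hs, hs0, hVm, hVg, hVκ, hqne, hq⟩
  choose s V κ hs hs0 hVm hVg hVκ hqne hq using key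
  haveI := finite_pChar N p
  obtain ⟨R, hR⟩ := exists_finset_fibre_rep κ
  refine ⟨(fun σ : ℂ ≃ₐ[Kbar] ℂ => coeffMap (σ : ℂ →+* ℂ) a) '' (R : Set (ℂ ≃ₐ[Kbar] ℂ)),
    R.finite_toSet.image _, fun σ => ?_⟩
  obtain ⟨h, hhR, hκeq⟩ := hR σ
  refine ⟨coeffMap (h : ℂ →+* ℂ) a, ⟨h, hhR, rfl⟩, ?_⟩
  have h2 := hVκ h
  rw [← hκeq] at h2
  obtain ⟨g, hg, hg0, hgeq⟩ := exists_pow_mul_eq_of_sameChar (κ σ).1 (κ σ).2 (hVm σ) (hVm h)
    (hVκ σ) h2 (hVg σ) (hVg h) (hqne σ) (hqne h)
  rw [hq σ, hq h] at hgeq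
  refine ⟨g * s h * (s σ)⁻¹, mul_mem (mul_mem hg (hs h)) (inv_mem (hs σ)),
    mul_ne_zero (mul_ne_zero hg0 (hs0 h)) (inv_ne_zero (hs0 σ)), ?_⟩
  have hsp : s σ ^ p ≠ 0 := pow_ne_zero _ (hs0 σ)
  rw [mul_pow, mul_pow, inv_pow]
  field_simp
  rw [hgeq]
  ring

end Fermat.Agent.S29.M4b.K3

end
end
-- ===== PACK-END S29/M4b/K3/Fin.lean

-- ===== PACK-BEGIN S29/M4b/K3/Final.lean
section
/-
S29 row, M4b, piece K3 — `PieceK3 N p` from the single remaining sub-piece `K3-DFROM` (helper42).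
-/



set_option autoImplicit false

noncomputable section

open ModularCurve AlgebraicCurve CongruenceSubgroup UpperHalfPlane
open scoped MatrixGroups Manifold

namespace Fermat.Agent.S29.M4b.K3

open Fermat.Agent.S24 Fermat.Agent.S29 Fermat.Agent.S29.M4b

/-- **PIECE K3** in the `Prop` form of `M4b/Top.lean`, from `K3-DFROM`. -/
theorem pieceK3_of_dfrom (N : ℕ) [NeZero N] (p : ℕ) [NeZero p] (hd : DFromStatement N p) :
    PieceK3 N p :=
  pieceK3_of_fin N p (finStatement_of_dfrom N p hd)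

end Fermat.Agent.S29.M4b.K3

end
end
-- ===== PACK-END S29/M4b/K3/Final.lean

-- ===== PACK-BEGIN S29/H282/DictEasy.lean
section


/-!
# S29 / M4b-K2 (helper282) — the places dictionary, easy direction (DICT-easy)

For every `τ ∈ ℍ` with `j(τ) ∈ ι(K)` the Taylor expansion at `τ` of the avatar defines a place
`placeAtTau` of `FFK K N / K`, and `ord_τ (avatar of f) = k · ord_w f` with `k > 0`.
Hence: if `m ∣ ord_w f` for every place `w`, then `m ∣ ord_τ h` for the avatar `h` of `f`, at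
every such `τ` (for `K = ℂ`: at every `τ ∈ ℍ`).
-/

set_option autoImplicit false

noncomputable section

open ModularCurve HahnSeries UpperHalfPlane AlgebraicCurve IntermediateField
open scoped MatrixGroups Manifold

namespace Fermat.Agent.S29.H282

open Fermat.Agent.S24 Fermat.Agent.S24.H997 Fermat.Agent.S24.Deg457 Fermat.Agent.S24.H624

variable {K : Type*} [Field K] [Algebra ℚ K] (ι : K →+* ℂ)
variable {N : ℕ} [NeZero N] (B : HolBase N) (hB : B.IsHolo)

/-- the embedding "Taylor expansion at `τ` of the avatar" -/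
def sigmaTau (τ : ℍ) : FFK K N →+* LaurentSeries ℂ :=
  sigmaGK ι B (B.taylorExpansion hB τ) 1

variable {ι B}

theorem IsAvatar.sigmaTau_eq {f : FFK K N} {h : B.Hol} (hav : IsAvatar ι B f h) (τ : ℍ) :
    sigmaTau ι B hB τ f = (B.taylorExpansion hB τ).E h := by
  rw [sigmaTau, hav.sigmaGK_eq, inv_one, B.compH_one]

theorem order_taylorExpansion {h : B.Hol} (hh : h ≠ 0) (τ : ℍ) :
    ((B.taylorExpansion hB τ).E h).order = ((ordAt τ (h : ℍ → ℂ)).toNat : ℤ) := by
  have h0 : B.toHolo hB h ≠ 0 := fun h1 =>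
    hh (B.toHolo_injective hB (h1.trans (map_zero _).symm))
  rw [HolBase.taylorExpansion_E, order_laurentAt_algebraMap τ h0]
  rfl

theorem IsAvatar.order_sigmaTau {f : FFK K N} {h : B.Hol} (hav : IsAvatar ι B f h)
    (hh : h ≠ 0) (τ : ℍ) :
    (sigmaTau ι B hB τ f).order = ((ordAt τ (h : ℍ → ℂ)).toNat : ℤ) := by
  rw [hav.sigmaTau_eq hB τ, order_taylorExpansion hB hh τ]

variable (ι B)

theorem eord_sigmaTau_const (τ : ℍ) (c : K) :
    0 ≤ H117.eord (sigmaTau ι B hB τ) (algebraMap K (FFK K N) c) := by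
  show 0 ≤ (sigmaGK ι B (B.taylorExpansion hB τ) 1 (algebraMap K (FFK K N) c)).order
  rw [sigmaGK_algebraMap, HahnSeries.order_C]

theorem JH_one_sub_constH_ne_zero (c : ℂ) : B.JH 1 (one_dvd N) - B.constH c ≠ 0 := by
  intro h0
  have h1 : B.JH 1 (one_dvd N) = B.constH c := sub_eq_zero.mp h0
  have h2 := B.order_qexp_J_one
  rw [h1] at h2
  have h3 : (B.qexp (B.constH c)).order = 0 := by
    show (B.qexp ⟨_, B.const_mem c⟩).order = 0
    rw [B.qexp_const, HahnSeries.order_C]
  rw [h3] at h2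
  have hN : (0 : ℤ) < N := by exact_mod_cast Nat.pos_of_ne_zero (NeZero.ne N)
  omega

theorem sigmaTau_jFK_sub (τ : ℍ) (a : K) :
    sigmaTau ι B hB τ (jFK K N - algebraMap K (FFK K N) a)
      = (B.taylorExpansion hB τ).E (B.JH 1 (one_dvd N) - B.constH (ι a)) := by
  rw [sigmaTau, map_sub, sigmaGK_jFK, sigmaGK_algebraMap, map_sub, (B.taylorExpansion hB τ).const]

theorem exists_eord_sigmaTau_ne_zero (τ : ℍ) (a : K) (ha : ι a = B.J 1 τ) :
    ∃ t : FFK K N, H117.eord (sigmaTau ι B hB τ) t ≠ 0 := by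
  refine ⟨jFK K N - algebraMap K (FFK K N) a, ?_⟩
  show (sigmaTau ι B hB τ (jFK K N - algebraMap K (FFK K N) a)).order ≠ 0
  rw [sigmaTau_jFK_sub, order_taylorExpansion hB (JH_one_sub_constH_ne_zero B (ι a)) τ]
  have hne := JH_one_sub_constH_ne_zero B (ι a)
  set g : B.Hol := B.JH 1 (one_dvd N) - B.constH (ι a) with hg
  have hmd : MDiff (g : ℍ → ℂ) := hB.mdiff _ g.2
  have hg0 : (g : ℍ → ℂ) ≠ 0 := fun h => hne (Subtype.ext h)
  have htop : ordAt τ (g : ℍ → ℂ) ≠ ⊤ := ordAt_ne_top hmd hg0 τ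
  have hval : (g : ℍ → ℂ) τ = 0 := by
    show B.J 1 τ - ι a = 0
    rw [ha, sub_self]
  have hz : ordAt τ (g : ℍ → ℂ) ≠ 0 := fun h => (ordAt_eq_zero_iff hmd τ).mp h hval
  intro h0
  have h1 : (ordAt τ (g : ℍ → ℂ)).toNat = 0 := by exact_mod_cast h0
  rcases (ENat.toNat_eq_zero).mp h1 with h | h
  · exact hz h
  · exact htop h

/-- **The place of `FFK K N / K` at a point `τ ∈ ℍ`** with `j(τ) = ι a`. -/
def placeAtTau (τ : ℍ) (a : K) (ha : ι a = B.J 1 τ) : Place K (FFK K N) :=
  H117.placeOfEmb (sigmaTau ι B hB τ) (eord_sigmaTau_const ι B hB τ)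
    (exists_eord_sigmaTau_ne_zero ι B hB τ a ha)

theorem exists_mult_placeAtTau (τ : ℍ) (a : K) (ha : ι a = B.J 1 τ) :
    ∃ k : ℕ, 0 < k ∧ ∀ f : FFK K N,
      (sigmaTau ι B hB τ f).order = k * (placeAtTau ι B hB τ a ha).ord f :=
  H117.exists_mult (sigmaTau ι B hB τ) _ _

variable {ι B}

/-- `ord_τ h = k · ord_w f` for the avatar `h` of `f`. -/
theorem IsAvatar.exists_ordAt_eq {f : FFK K N} {h : B.Hol} (hav : IsAvatar ι B f h)
    (hh : h ≠ 0) (τ : ℍ) (a : K) (ha : ι a = B.J 1 τ) :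
    ∃ k : ℕ, 0 < k ∧
      ((ordAt τ (h : ℍ → ℂ)).toNat : ℤ) = k * (placeAtTau ι B hB τ a ha).ord f := by
  obtain ⟨k, hk, hkf⟩ := exists_mult_placeAtTau ι B hB τ a ha
  exact ⟨k, hk, by rw [← hkf f, hav.order_sigmaTau hB hh τ]⟩

include hB in
/-- **DICT-easy.**  If `m ∣ ord_w f` at every place `w` of `FFK K N / K`, then `m` divides the
order of vanishing of the avatar `h` of `f` at every `τ ∈ ℍ` with `j(τ) ∈ ι(K)`. -/
theorem IsAvatar.exists_ordAt_eq_mul {f : FFK K N} {h : B.Hol} (hav : IsAvatar ι B f h)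
    (hh : h ≠ 0) {m : ℕ} (hdvd : ∀ w : Place K (FFK K N), (m : ℤ) ∣ w.ord f)
    (τ : ℍ) (a : K) (ha : ι a = B.J 1 τ) :
    ∃ k : ℕ, ordAt τ (h : ℍ → ℂ) = ((m * k : ℕ) : ℕ∞) := by
  obtain ⟨k, -, hk⟩ := hav.exists_ordAt_eq hB hh τ a ha
  have hmd : MDiff (h : ℍ → ℂ) := hB.mdiff _ h.2
  have hh0 : (h : ℍ → ℂ) ≠ 0 := fun h0 => hh (Subtype.ext h0)
  have htop : ordAt τ (h : ℍ → ℂ) ≠ ⊤ := ordAt_ne_top hmd hh0 τ
  have h1 : (m : ℤ) ∣ ((ordAt τ (h : ℍ → ℂ)).toNat : ℤ) := by
    rw [hk]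
    exact Dvd.dvd.mul_left (hdvd _) _
  obtain ⟨l, hl⟩ := Int.natCast_dvd_natCast.mp h1
  refine ⟨l, ?_⟩
  rw [← hl, ENat.natCast_toNat htop]

end Fermat.Agent.S29.H282

end
end
-- ===== PACK-END S29/H282/DictEasy.lean

-- ===== PACK-BEGIN S29/H282/DictC.lean
section




/-!
# S29 / M4b / K3 (helper282) — the dictionary over `ℂ` (and any alg. closed `K ⊆ ℂ`), K3 language

Sub-pieces (F1) and (F4) of helper42's K3 sub-skeleton (`coord/S29-K3.md`):

* `mem_holN_of_mem_goodRing`       : a good function lies in the S24 ring `holN N`;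
* `isAvatar_of_hasQExp`            : `G ∈ holN N` with `q`-expansion `coeffMap ι f` is an avatar of `f`;
* `dvd_ord_of_isTwisted` (**F1**, generic `K`) and `dvd_ord_of_isTwisted_complex` (**F1**, `K = ℂ`):
  `U` twisted of a parabolic+elliptic-trivial character, `f = qexp (U ^ p) ∈ F_K`
  ⟹ `p ∣ ord_w f` at EVERY place `w` of `F_K / K`;
* `exists_ordAt_eq_mul_of_forall_dvd_ord` (**DICT-easy**, `K = ℂ`) and
  `exists_pow_eq_of_forall_dvd_ord` (**F4** = DICT-easy + ROOT): `G` good, `G ≢ 0`,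
  `m ∣ ord_w (qexp G)` at every place `w` of `F_ℂ / ℂ` ⟹ `G = V ^ m`, `V` holomorphic on `ℍ`.
-/

set_option autoImplicit false

noncomputable section

open ModularCurve AlgebraicCurve CongruenceSubgroup UpperHalfPlane
open scoped MatrixGroups Manifold Real

namespace Fermat.Agent.S29.H282

open Fermat.Agent.S24 Fermat.Agent.S24.H997 Fermat.Agent.S24.H648 Fermat.Agent.S24.H708
open Fermat.Agent.S24.H624
open Fermat.Agent.S29 Fermat.Agent.S29.M4b Fermat.Agent.S29.H332

variable {N : ℕ} [NeZero N]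

/-- the translates of a `Γ₀(N)`-invariant function are `N`-periodic -/
theorem periodic_compSL_of_invariant {G : ℍ → ℂ}
    (hinv : ∀ γ ∈ Gamma0 N, ∀ τ : ℍ, G (γ • τ) = G τ) (g : SL(2, ℤ)) :
    Function.Periodic (compSL g G ∘ ofComplex) (N : ℝ) := by
  have hh : HasCharacter (1 : CongruenceSubgroup.Gamma0 N →* ℂˣ) G := by
    intro γ τ
    rw [hinv γ γ.2 τ]
    simp
  have hχ : ParTrivial (1 : CongruenceSubgroup.Gamma0 N →* ℂˣ) := fun _ _ => rfl
  exact hh.periodic hχ g N (by simpa using conj_T_zpow_mem_Gamma0 N g 1)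

/-- **A good function lies in `holN N`.** -/
theorem mem_holN_of_mem_goodRing {G : ℍ → ℂ} (hG : G ∈ goodRing N) : G ∈ holN N := by
  obtain ⟨hmd, hinv, hgr⟩ := hG
  refine ⟨hmd, fun g => ?_⟩
  have hhol : MDiff (compSL g G) := (precompSL g ⟨G, hmd⟩).2
  have hmer : IsMerInf N (compSL g G) :=
    ⟨hhol, periodic_compSL_of_invariant hinv g, isBounded_mul_qh_pow_level N (hgr g)⟩
  have hq := HasQExp.of_isMerInf hmer
  have hinf : InfExp N (compSL g G) (qexpFun N (compSL g G)) := fun τ => hq.hasSum τ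
  exact hinf.mem_expRing

section Generic

variable {K : Type*} [Field K] [Algebra ℚ K] (ι : K →+* ℂ)

/-- a function of `holN N` whose `q`-expansion is `coeffMap ι f` is an avatar of `f` -/
theorem isAvatar_of_hasQExp {G : ℍ → ℂ} (hG : G ∈ holN N) {f : FFK K N}
    (hq : HasQExp 1 G (coeffMap ι (f : LaurentSeries K))) :
    IsAvatar ι (analyticCore N).toHolBase f (⟨G, hG⟩ : (analyticCore N).Hol) := by
  have hinf : InfExp N G (qExpand ℂ N (coeffMap ι (f : LaurentSeries K))) :=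
    infExp_level_of_hasQExp hq
  exact (expInf_spec (holToExp N (⟨G, hG⟩ : holN N))).unique hinf

theorem isAvatar_of_mem_goodRing {G : ℍ → ℂ} (hG : G ∈ goodRing N) {f : FFK K N}
    (hq : qexpFun 1 G = coeffMap ι (f : LaurentSeries K)) :
    IsAvatar ι (analyticCore N).toHolBase f
      (⟨G, mem_holN_of_mem_goodRing hG⟩ : (analyticCore N).Hol) :=
  isAvatar_of_hasQExp ι _ (hq ▸ Fermat.Agent.S29.H882.hasQExp_of_mem_goodRing hG)

variable {p : ℕ} [NeZero p]

/-- **(F1), generic `K`**: DICT-hard for twisted functions. -/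
theorem dvd_ord_of_isTwisted [IsAlgClosed K] {c : G0 N → ZMod p} (hc : IsParHom c)
    {U : ℍ → ℂ} (hU : IsTwisted N p c U) {f : FFK K N}
    (hq : qexpFun 1 (fun τ => U τ ^ p) = coeffMap ι (f : LaurentSeries K))
    (w : Place K (FFK K N)) : (p : ℤ) ∣ w.ord f := by
  have hav : IsAvatar ι (analyticCore N).toHolBase f
      ((⟨U, mem_holN_of_isTwisted hc hU⟩ : (analyticCore N).Hol) ^ p) :=
    isAvatar_of_hasQExp ι (G := fun τ => U τ ^ p)
      (pow_mem (mem_holN_of_isTwisted hc hU) p)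
      (hq ▸ Fermat.Agent.S29.H882.hasQExp_of_mem_goodRing hU.pow_mem)
  have hinv : IsUnramified (analyticCore N).toHolBase
      (⟨U, mem_holN_of_isTwisted hc hU⟩ : (analyticCore N).Hol) := by
    intro γ hγ hsp
    apply Subtype.ext
    funext τ
    show U (γ • τ) = U τ
    have h := hU.hasChar ⟨γ, hγ⟩ τ
    have h0 : c ⟨γ, hγ⟩ = 0 := by
      rcases hsp with ⟨n, hn, h⟩ | h
      · exact hc.elliptic ⟨γ, hγ⟩ n hn (Subtype.ext (by simpa using h))
      · exact hc.parabolic ⟨γ, hγ⟩ (Or.inl h)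
    rw [h0] at h
    simpa using h
  exact dvd_ord_of_isAvatar_pow hinv hav w

/-- **DICT-easy, generic `K`**, for good functions: at every `τ` with `j(τ) ∈ ι(K)`. -/
theorem exists_ordAt_eq_mul_of_forall_dvd_ord_at {G : ℍ → ℂ} (hG : G ∈ goodRing N)
    (hG0 : G ≠ 0) {f : FFK K N} (hq : qexpFun 1 G = coeffMap ι (f : LaurentSeries K))
    {m : ℕ} (hdvd : ∀ w : Place K (FFK K N), (m : ℤ) ∣ w.ord f)
    (τ : ℍ) (a : K) (ha : ι a = JFun.jFun τ) :
    ∃ k : ℕ, analyticOrderAt (G ∘ ofComplex) (τ : ℂ) = ((m * k : ℕ) : ℕ∞) := by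
  have hav := isAvatar_of_mem_goodRing ι hG hq
  have hh : (⟨G, mem_holN_of_mem_goodRing hG⟩ : (analyticCore N).Hol) ≠ 0 := fun h0 =>
    hG0 (congrArg Subtype.val h0)
  have ha' : ι a = (analyticCore N).toHolBase.J 1 τ := by
    rw [ha]
    show JFun.jFun τ = Jd 1 τ
    rw [Jd_one]
    rfl
  exact hav.exists_ordAt_eq_mul (holBase_isHolo N) hh hdvd τ a ha'

end Generic

/-! ### `K = ℂ` -/

section Complex

variable {p : ℕ} [NeZero p]

/-- **(F1)**: DICT-hard over `ℂ`.  `f = qexp (U ^ p)` as an element of `F_ℂ`. -/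
theorem dvd_ord_of_isTwisted_complex {c : G0 N → ZMod p} (hc : IsParHom c)
    {U : ℍ → ℂ} (hU : IsTwisted N p c U)
    (hf : qexpFun 1 (fun τ => U τ ^ p) ∈ laurentBaseChange ℂ (modularFunctionFieldFull N))
    (w : Place ℂ ↥(laurentBaseChange ℂ (modularFunctionFieldFull N))) :
    (p : ℤ) ∣ w.ord ⟨qexpFun 1 (fun τ => U τ ^ p), hf⟩ :=
  dvd_ord_of_isTwisted (K := ℂ) (RingHom.id ℂ) hc hU
    (f := ⟨qexpFun 1 (fun τ => U τ ^ p), hf⟩) (coeffMap_id _).symm w

/-- **DICT-easy over `ℂ`**: `G` good, `m ∣ ord_w (qexp G)` at every place of `F_ℂ/ℂ` ⟹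
`m ∣ ord_τ G` at every `τ ∈ ℍ` (the exact hypothesis of `H751.exists_pow_eq_UHP`). -/
theorem exists_ordAt_eq_mul_of_forall_dvd_ord {G : ℍ → ℂ} (hG : G ∈ goodRing N) (hG0 : G ≠ 0)
    (hf : qexpFun 1 G ∈ laurentBaseChange ℂ (modularFunctionFieldFull N)) {m : ℕ}
    (hdvd : ∀ w : Place ℂ ↥(laurentBaseChange ℂ (modularFunctionFieldFull N)),
      (m : ℤ) ∣ w.ord ⟨qexpFun 1 G, hf⟩) (τ : ℍ) :
    ∃ k : ℕ, analyticOrderAt (G ∘ ofComplex) (τ : ℂ) = ((m * k : ℕ) : ℕ∞) :=
  exists_ordAt_eq_mul_of_forall_dvd_ord_at (K := ℂ) (RingHom.id ℂ) hG hG0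
    (f := ⟨qexpFun 1 G, hf⟩) (coeffMap_id _).symm hdvd τ (JFun.jFun τ) rfl

/-- **(F4)** = DICT-easy + ROOT: a good function all of whose orders at the places of `F_ℂ/ℂ`
are divisible by `m` is the `m`-th power of a holomorphic function on `ℍ`. -/
theorem exists_pow_eq_of_forall_dvd_ord {G : ℍ → ℂ} (hG : G ∈ goodRing N) (hG0 : G ≠ 0)
    (hf : qexpFun 1 G ∈ laurentBaseChange ℂ (modularFunctionFieldFull N)) {m : ℕ} (hm : m ≠ 0)
    (hdvd : ∀ w : Place ℂ ↥(laurentBaseChange ℂ (modularFunctionFieldFull N)),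
      (m : ℤ) ∣ w.ord ⟨qexpFun 1 G, hf⟩) :
    ∃ V : ℍ → ℂ, MDifferentiable 𝓘(ℂ) 𝓘(ℂ) V ∧ ∀ τ : ℍ, V τ ^ m = G τ :=
  Fermat.Agent.S29.H751.exists_pow_eq_UHP hG.1 m hm
    (fun τ => exists_ordAt_eq_mul_of_forall_dvd_ord hG hG0 hf hdvd τ)

end Complex

end Fermat.Agent.S29.H282

end
end
-- ===== PACK-END S29/H282/DictC.lean

-- ===== PACK-BEGIN S29/H282/DFrom.lean
section



/-!
# S29 / M4b / K3-DFROM (helper282)

`exists_root_of_forall_dvd_ord` : let `f ≠ 0` be an element of the function field `F_ℂ` of `X₀(N)`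
over `ℂ` such that `p ∣ ord_w f` at EVERY place `w` of `F_ℂ/ℂ`.  Then there are `s ∈ F_ℂ`, `s ≠ 0`,
and a holomorphic `V : ℍ → ℂ`, `V ≢ 0`, with `V ^ p` good and `qexp (V ^ p) = f * s ^ p`; moreover
`V` transforms under `Γ₀(N)` by a character `χ` with `χ ^ p = 1`, i.e. `V` is twisted
(`M4b.IsTwisted`) of an additive character `c : Γ₀(N) → ℤ/p`.
-/

set_option autoImplicit false

noncomputable section

open ModularCurve AlgebraicCurve CongruenceSubgroup UpperHalfPlane
open scoped MatrixGroups Manifold Real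

namespace Fermat.Agent.S29.H282

open Fermat.Agent.S24 Fermat.Agent.S24.H997 Fermat.Agent.S24.H648 Fermat.Agent.S24.H708
open Fermat.Agent.S24.H624 Fermat.Agent.S24.Deg457
open Fermat.Agent.S29 Fermat.Agent.S29.M4b Fermat.Agent.S29.H332

variable {N : ℕ} [NeZero N]

/-! ### The character of a `p`-th root of an invariant function -/

/-- If `V` is holomorphic, `V ≢ 0` and `V ^ p` is `Γ₀(N)`-invariant, then for every `γ ∈ Γ₀(N)`
there is a `p`-th root of unity `z` with `V (γ τ) = z V(τ)`. -/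
theorem exists_root_of_unity_of_pow_invariant {p : ℕ} (hp : p ≠ 0) {V : ℍ → ℂ}
    (hV : MDifferentiable 𝓘(ℂ) 𝓘(ℂ) V) {τ₁ : ℍ} (hτ₁ : V τ₁ ≠ 0)
    (hinv : ∀ γ ∈ Gamma0 N, ∀ τ : ℍ, V (γ • τ) ^ p = V τ ^ p) (γ : SL(2, ℤ))
    (hγ : γ ∈ Gamma0 N) :
    ∃ z : ℂ, z ^ p = 1 ∧ ∀ τ : ℍ, V (γ • τ) = z * V τ := by
  have hA1 : V (γ • τ₁) ≠ 0 := by
    intro h0
    have := hinv γ hγ τ₁
    rw [h0, zero_pow hp] at this
    exact pow_ne_zero p hτ₁ this.symm
  set z : ℂ := V (γ • τ₁) / V τ₁ with hz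
  have hzp : z ^ p = 1 := by
    rw [hz, div_pow, hinv γ hγ τ₁, div_self (pow_ne_zero p hτ₁)]
  refine ⟨z, hzp, fun τ => ?_⟩
  have hAd : MDifferentiable 𝓘(ℂ) 𝓘(ℂ) (fun τ : ℍ => V (γ • τ)) :=
    H648.mdifferentiable_comp_smul hV γ
  have hBd : MDifferentiable 𝓘(ℂ) 𝓘(ℂ) (fun τ : ℍ => z * V τ) :=
    (mdifferentiable_const (c := z)).mul hV
  have := Fermat.Agent.S29.H751.eq_of_pow_eq_UHP hAd hBd hp (fun τ => by
    show V (γ • τ) ^ p = (z * V τ) ^ p
    rw [hinv γ hγ τ, mul_pow, hzp, one_mul]) (τ₀ := τ₁)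
    (by
      show V (γ • τ₁) = z * V τ₁
      rw [hz, div_mul_cancel₀ _ hτ₁]) hA1
  exact congrFun this τ

theorem isPrimitiveRoot_zetaP (p : ℕ) [NeZero p] : IsPrimitiveRoot (zetaP p) p := by
  unfold zetaP
  exact Complex.isPrimitiveRoot_exp p (NeZero.ne p)

/-- the additive character of a `p`-th root of an invariant function -/
theorem exists_hasChar_of_pow_invariant {p : ℕ} [NeZero p] {V : ℍ → ℂ}
    (hV : MDifferentiable 𝓘(ℂ) 𝓘(ℂ) V) (hV0 : ∃ τ, V τ ≠ 0)
    (hinv : ∀ γ ∈ Gamma0 N, ∀ τ : ℍ, V (γ • τ) ^ p = V τ ^ p) :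
    ∃ c : G0 N → ZMod p, (∀ γ γ' : G0 N, c (γ * γ') = c γ + c γ') ∧ HasChar N p c V := by
  classical
  obtain ⟨τ₁, hτ₁⟩ := hV0
  have hprim := isPrimitiveRoot_zetaP p
  have key : ∀ γ : G0 N, ∃ k : ZMod p, ∀ τ : ℍ,
      V ((γ : SL(2, ℤ)) • τ) = zetaP p ^ k.val * V τ := by
    intro γ
    obtain ⟨z, hzp, hz⟩ := exists_root_of_unity_of_pow_invariant (NeZero.ne p) hV hτ₁ hinv γ γ.2
    obtain ⟨i, hi, rfl⟩ := hprim.eq_pow_of_pow_eq_one hzp
    refine ⟨(i : ZMod p), fun τ => ?_⟩
    rw [hz τ, ZMod.val_natCast, Nat.mod_eq_of_lt hi]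
  choose c hc using key
  refine ⟨c, fun γ γ' => ?_, hc⟩
  -- additivity
  have h1 := hc (γ * γ') τ₁
  have h2 := hc γ ((γ' : SL(2, ℤ)) • τ₁)
  have h3 := hc γ' τ₁
  have hsm : ((γ * γ' : G0 N) : SL(2, ℤ)) • τ₁
      = (γ : SL(2, ℤ)) • ((γ' : SL(2, ℤ)) • τ₁) := by
    rw [Subgroup.coe_mul, mul_smul]
  rw [hsm, h2, h3, ← mul_assoc, ← pow_add] at h1
  have h4 : zetaP p ^ ((c γ).val + (c γ').val) = zetaP p ^ (c (γ * γ')).val :=
    mul_right_cancel₀ hτ₁ h1
  have hfin : IsOfFinOrder (zetaP p) :=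
    isOfFinOrder_iff_pow_eq_one.mpr ⟨p, Nat.pos_of_ne_zero (NeZero.ne p), hprim.pow_eq_one⟩
  have h5 : ((c γ).val + (c γ').val) ≡ (c (γ * γ')).val [MOD p] := by
    have := hfin.pow_eq_pow_iff_modEq.mp h4
    rwa [← hprim.eq_orderOf] at this
  have h6 : (((c γ).val + (c γ').val : ℕ) : ZMod p) = ((c (γ * γ')).val : ZMod p) :=
    (ZMod.natCast_eq_natCast_iff _ _ _).mpr h5
  rw [Nat.cast_add, ZMod.natCast_zmod_val, ZMod.natCast_zmod_val, ZMod.natCast_zmod_val] at h6
  exact h6.symm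

/-! ### DFROM -/

/-- **K3-DFROM.** -/
theorem exists_root_of_forall_dvd_ord (N : ℕ) [NeZero N] (p : ℕ) [NeZero p]
    {f : LaurentSeries ℂ} (hf : f ∈ laurentBaseChange ℂ (modularFunctionFieldFull N))
    (hf0 : f ≠ 0)
    (hdvd : ∀ w : Place ℂ ↥(laurentBaseChange ℂ (modularFunctionFieldFull N)),
      (p : ℤ) ∣ w.ord ⟨f, hf⟩) :
    ∃ s : LaurentSeries ℂ, s ∈ laurentBaseChange ℂ (modularFunctionFieldFull N) ∧ s ≠ 0 ∧
      ∃ V : ℍ → ℂ, MDifferentiable 𝓘(ℂ) 𝓘(ℂ) V ∧ (∃ τ, V τ ≠ 0) ∧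
        (fun τ => V τ ^ p) ∈ goodRing N ∧ qexpFun 1 (fun τ => V τ ^ p) = f * s ^ p ∧
        ∃ c : G0 N → ZMod p, (∀ γ γ' : G0 N, c (γ * γ') = c γ + c γ') ∧
          IsTwisted N p c V := by
  have hp : p ≠ 0 := NeZero.ne p
  -- write `f = r / t` with `r, t` polynomials in the `j(q^d)`
  obtain ⟨r, t, ht, hfrt⟩ := exists_div_inclRNK ℂ N ⟨f, hf⟩
  have ht' : inclRNK ℂ N t ≠ 0 := fun h0 =>
    ht (inclRNK_injective ℂ N (h0.trans (map_zero _).symm))
  have hts : ((t : RNK ℂ N) : LaurentSeries ℂ) ≠ 0 := fun h0 => ht (Subtype.ext h0)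
  have hfF : (⟨f, hf⟩ : FFK ℂ N) ≠ 0 := fun h0 => hf0 (congrArg Subtype.val h0)
  -- the good function with `q`-expansion `r * t ^ (p - 1) = f * t ^ p`
  have hmem : ((r * t ^ (p - 1) : RNK ℂ N) : LaurentSeries ℂ) ∈ AK ℂ N := (r * t ^ (p - 1)).2
  obtain ⟨G, hG, hGq⟩ := Fermat.Agent.S29.H882.AK_le_goodQ N hmem
  have hgF : (⟨f, hf⟩ : FFK ℂ N) * inclRNK ℂ N t ^ p = inclRNK ℂ N (r * t ^ (p - 1)) := by
    rw [hfrt, map_mul, map_pow]
    have : p = (p - 1) + 1 := (Nat.succ_pred_eq_of_ne_zero hp).symm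
    conv_lhs => rw [this, pow_succ]
    field_simp
  have hgL : f * ((t : RNK ℂ N) : LaurentSeries ℂ) ^ p
      = ((r * t ^ (p - 1) : RNK ℂ N) : LaurentSeries ℂ) := by
    have := congrArg (fun x : FFK ℂ N => (x : LaurentSeries ℂ)) hgF
    simpa using this
  have hqG : qexpFun 1 G = f * ((t : RNK ℂ N) : LaurentSeries ℂ) ^ p := by
    rw [hGq.qexpFun_eq, hgL]
  have hfs : qexpFun 1 G ∈ laurentBaseChange ℂ (modularFunctionFieldFull N) :=
    Fermat.Agent.S29.H882.qexpFun_mem_FC hG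
  have hGF : (⟨qexpFun 1 G, hfs⟩ : FFK ℂ N) = ⟨f, hf⟩ * inclRNK ℂ N t ^ p := by
    apply Subtype.ext
    show qexpFun 1 G = ((⟨f, hf⟩ * inclRNK ℂ N t ^ p : FFK ℂ N) : LaurentSeries ℂ)
    rw [hqG]
    simp
  have hG0 : G ≠ 0 := by
    intro h0
    have h1 : qexpFun 1 G = 0 := (qexpFun_eq_zero_iff hGq.isMerInf).mpr h0
    rw [hqG] at h1
    rcases mul_eq_zero.mp h1 with h | h
    · exact hf0 h
    · exact hts (pow_eq_zero_iff hp |>.mp h)
  -- divisibility of the orders of `f * t ^ p`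
  have hdvd' : ∀ w : Place ℂ ↥(laurentBaseChange ℂ (modularFunctionFieldFull N)),
      (p : ℤ) ∣ w.ord ⟨qexpFun 1 G, hfs⟩ := by
    intro w
    rw [hGF, w.ord_mul hfF (pow_ne_zero p ht'), H117.ord_pow]
    exact dvd_add (hdvd w) (dvd_mul_right _ _)
  -- the root
  obtain ⟨V, hVmd, hVp⟩ := exists_pow_eq_of_forall_dvd_ord hG hG0 hfs hp hdvd'
  have hVG : (fun τ => V τ ^ p) = G := funext hVp
  have hV0 : ∃ τ, V τ ≠ 0 := by
    by_contra hcon
    push Not at hcon
    apply hG0
    funext τ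
    rw [← hVp τ, hcon τ, zero_pow hp]
    rfl
  have hVinv : ∀ γ ∈ Gamma0 N, ∀ τ : ℍ, V (γ • τ) ^ p = V τ ^ p := by
    intro γ hγ τ
    rw [hVp, hVp]
    exact hG.2.1 γ hγ τ
  obtain ⟨c, hcadd, hchar⟩ := exists_hasChar_of_pow_invariant hVmd hV0 hVinv
  refine ⟨((t : RNK ℂ N) : LaurentSeries ℂ), (inclRNK ℂ N t).2, hts, V, hVmd, hV0,
    hVG ▸ hG, ?_, c, hcadd, ⟨hVmd, hV0, hchar, hVG ▸ hG⟩⟩
  rw [hVG, hqG]

end Fermat.Agent.S29.H282

end
end
-- ===== PACK-END S29/H282/DFrom.lean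

-- ===== PACK-BEGIN S29/M4b/H822/Basic.lean
section
/-
S29 / M4b (helper822): basic API for the frozen definitions of `M4b/Defs.lean`
(roots of unity, characters, realisations).  Sorry-free.
-/


set_option autoImplicit false

noncomputable section

open ModularCurve AlgebraicCurve CongruenceSubgroup UpperHalfPlane
open scoped MatrixGroups Manifold

namespace Fermat.Agent.S29.M4b.H822

open Fermat.Agent.S24 Fermat.Agent.S29 Fermat.Agent.S29.M4b

/-! ### The root of unity `zetaP p` -/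

theorem isPrimitiveRoot_zetaP (p : ℕ) [NeZero p] : IsPrimitiveRoot (zetaP p) p := by
  unfold zetaP
  exact Complex.isPrimitiveRoot_exp p (NeZero.ne p)

theorem zetaP_pow_self (p : ℕ) [NeZero p] : zetaP p ^ p = 1 :=
  (isPrimitiveRoot_zetaP p).pow_eq_one

theorem zetaP_ne_zero (p : ℕ) [NeZero p] : zetaP p ≠ 0 := by
  unfold zetaP
  exact Complex.exp_ne_zero _

theorem zetaP_pow_val_add (p : ℕ) [NeZero p] (a b : ZMod p) :
    zetaP p ^ (a + b).val = zetaP p ^ a.val * zetaP p ^ b.val := by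
  rw [ZMod.val_add, ← pow_add, ← pow_eq_pow_mod _ (zetaP_pow_self p)]

theorem zetaP_pow_val_eq_one_iff (p : ℕ) [NeZero p] (a : ZMod p) :
    zetaP p ^ a.val = 1 ↔ a = 0 := by
  rw [(isPrimitiveRoot_zetaP p).pow_eq_one_iff_dvd]
  constructor
  · intro h
    have h1 : a.val = 0 := Nat.eq_zero_of_dvd_of_lt h (ZMod.val_lt a)
    exact (ZMod.val_eq_zero a).mp h1
  · rintro rfl
    simp

theorem zetaP_pow_val_zero (p : ℕ) [NeZero p] : zetaP p ^ (0 : ZMod p).val = 1 := by
  simp

/-! ### Characters -/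

theorem hasChar_mul {N p : ℕ} [NeZero p] {c c' : G0 N → ZMod p} {U U' : ℍ → ℂ}
    (h : HasChar N p c U) (h' : HasChar N p c' U') :
    HasChar N p (c + c') (fun τ => U τ * U' τ) := by
  intro γ τ
  show U _ * U' _ = _
  rw [h γ τ, h' γ τ, Pi.add_apply, zetaP_pow_val_add]
  ring

theorem hasChar_pow_invariant {N p : ℕ} [NeZero p] {c : G0 N → ZMod p} {U : ℍ → ℂ}
    (h : HasChar N p c U) (γ : G0 N) (τ : ℍ) :
    U ((γ : SL(2, ℤ)) • τ) ^ p = U τ ^ p := by
  rw [h γ τ, mul_pow, ← pow_mul, mul_comm (c γ).val p, pow_mul, zetaP_pow_self, one_pow, one_mul]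

/-! ### Realisations -/

section Realises

variable {N : ℕ} [NeZero N]

theorem realises_mem {u : FF N} {G : ℍ → ℂ} (h : Realises N u G) : G ∈ H648.goodRing N := h.1

theorem realises_isMerInf {u : FF N} {G : ℍ → ℂ} (h : Realises N u G) : H708.IsMerInf 1 G :=
  H882.isMerInf_of_mem_goodRing h.1

theorem realises_hasQExp {u : FF N} {G : ℍ → ℂ} (h : Realises N u G) :
    H708.HasQExp 1 G (coeffMap Deg457.iotaC ((u : FF N) : LaurentSeries Kbar)) :=
  ⟨realises_isMerInf h, h.2⟩

theorem realises_of_hasQExp {u : FF N} {G : ℍ → ℂ} (hG : G ∈ H648.goodRing N)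
    (h : H708.HasQExp 1 G (coeffMap Deg457.iotaC ((u : FF N) : LaurentSeries Kbar))) :
    Realises N u G :=
  ⟨hG, h.2⟩

theorem realises_mul {u v : FF N} {G H : ℍ → ℂ} (hu : Realises N u G) (hv : Realises N v H) :
    Realises N (u * v) (G * H) := by
  refine realises_of_hasQExp ((H648.goodRing N).mul_mem hu.1 hv.1) ?_
  have := (realises_hasQExp hu).mul (realises_hasQExp hv)
  simpa using this

theorem realises_pow {u : FF N} {G : ℍ → ℂ} (hu : Realises N u G) (n : ℕ) :
    Realises N (u ^ n) (G ^ n) := by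
  refine realises_of_hasQExp ((H648.goodRing N).pow_mem hu.1 n) ?_
  have := (realises_hasQExp hu).pow n
  simpa using this

theorem coeffMap_iotaC_injective :
    Function.Injective (coeffMap Deg457.iotaC : LaurentSeries Kbar → LaurentSeries ℂ) := by
  intro x y h
  ext n
  have h1 := congrArg (fun z : LaurentSeries ℂ => z.coeff n) h
  simp only [coeffMap] at h1
  exact Deg457.iotaC.injective (by simpa using h1)

/-- A realisation of a nonzero element is not the zero function. -/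
theorem realises_ne_zero {u : FF N} {G : ℍ → ℂ} (h : Realises N u G) (hu : u ≠ 0) : G ≠ 0 := by
  intro hG
  have h1 := ((realises_hasQExp h).eq_zero_iff).mpr hG
  have h2 : ((u : FF N) : LaurentSeries Kbar) = 0 :=
    coeffMap_iotaC_injective (by rw [h1, map_zero])
  exact hu (Subtype.ext h2)

/-- The realised element is determined by the function. -/
theorem realises_unique_left {u v : FF N} {G : ℍ → ℂ} (hu : Realises N u G)
    (hv : Realises N v G) : u = v := by
  apply Subtype.ext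
  apply coeffMap_iotaC_injective
  rw [← hu.2, ← hv.2]

/-- The function is determined by the realised element. -/
theorem realises_unique_right {u : FF N} {G H : ℍ → ℂ} (hG : Realises N u G)
    (hH : Realises N u H) : G = H :=
  (realises_hasQExp hG).eq_of_eq (realises_hasQExp hH)

/-- Every element of the polynomial ring `ℚ̄[j(q^d) : d ∣ N]` is realised by a good function. -/
theorem exists_realises_of_mem_AK {a : FF N}
    (ha : ((a : FF N) : LaurentSeries Kbar) ∈ Deg457.AK Kbar N) :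
    ∃ G : ℍ → ℂ, Realises N a G := by
  have h1 := Deg457.coeffMap_mem_AK Deg457.iotaC ha
  obtain ⟨G, hG, hq⟩ := H882.AK_le_goodQ N h1
  exact ⟨G, hG, hq.2⟩

end Realises

end Fermat.Agent.S29.M4b.H822

end
end
-- ===== PACK-END S29/M4b/H822/Basic.lean

-- ===== PACK-BEGIN S18/H564/ConstF.lean
section




/-!
# S18 / T2 (helper564): `CONST_F` — a function without zeros is constant (char 0)

* `exists_const_of_forall_ord_eq_zero` : generic form, for any function field `F/K`
  (`K` algebraically closed of characteristic `0`) having a coordinate `t`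
  (`t` transcendental, `F/K(t)` finite): `u ≠ const ⇒ u` has a zero.  From the fundamental
  identity `∑_{v(u) > 0} ord_v u = [F : K(u)]` (S24, `FF.sum_ord_pos_eq_finrank`, on main).
* `constOfOrdZero_modularFunctionFieldBar N` : the instance `F = ℚ̄(j(q^d) : d ∣ N)`; its
  statement is (defeq to) helper94's `ConstOfOrdZero (AlgebraicClosure ℚ) (modularFunctionFieldBar N)`.
-/

set_option autoImplicit false

noncomputable section

open AlgebraicCurve ModularCurve IntermediateField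

namespace Fermat.Agent.S18.H564

section Generic

variable {K F : Type*} [Field K] [Field F] [Algebra K F] [IsAlgClosed K] [CharZero K]

/-- A non-constant function has a zero. -/
theorem exists_ord_pos_of_transcendental (t : F) (ht : Transcendental K t)
    [FiniteDimensional K⟮t⟯ F] {u : F} (hu : Transcendental K u) :
    ∃ v : Place K F, 0 < v.ord u := by
  have hcoord0 : Fermat.Agent.S24.FF.IsCoord K t := ⟨ht, inferInstance⟩
  have hcoord : Fermat.Agent.S24.FF.IsCoord K u :=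
    Fermat.Agent.S24.FF.IsCoord.of_transcendental (x := t) hu
  have : FiniteDimensional K⟮u⟯ F := hcoord.finite
  have hsum := Fermat.Agent.S24.FF.sum_ord_pos_eq_finrank (K := K) (F := F) hu
  by_contra hne
  have hempty : (Fermat.Agent.S24.FF.finite_setOf_ord_pos (K := K) (F := F) hu).toFinset = ∅ := by
    rw [Finset.eq_empty_iff_forall_notMem]
    intro v hv
    rw [Set.Finite.mem_toFinset] at hv
    exact hne ⟨v, hv⟩
  rw [hempty, Finset.sum_empty] at hsum
  have hpos : 0 < Module.finrank K⟮u⟯ F := Module.finrank_pos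
  omega

/-- **CONST_F, generic form.** -/
theorem exists_const_of_forall_ord_eq_zero (t : F) (ht : Transcendental K t)
    [FiniteDimensional K⟮t⟯ F] (u : F) (hu : ∀ v : Place K F, v.ord u = 0) :
    ∃ c : K, u = algebraMap K F c := by
  by_contra hne
  have hu_tr : Transcendental K u := by
    intro halg
    obtain ⟨c, hc⟩ := Fermat.Agent.S24.exists_algebraMap_eq_of_isAlgebraic halg
    exact hne ⟨c, hc.symm⟩
  obtain ⟨v, hv⟩ := exists_ord_pos_of_transcendental t ht hu_tr
  rw [hu v] at hv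
  exact lt_irrefl _ hv

end Generic

/-- `j` is a coordinate of the function field of `X₀(N)` over `ℚ̄`. -/
theorem transcendental_jF (N : ℕ) [NeZero N] :
    Transcendental (AlgebraicClosure ℚ) (Fermat.Agent.S24.jF N) := by
  obtain ⟨P⟩ := Fermat.Agent.S24.nonempty_modularPackage N
  have : Nonempty (Fermat.Agent.S24.XX N) := ⟨((1 : Matrix.SpecialLinearGroup (Fin 2) ℤ) :
    Fermat.Agent.S24.XX N)⟩
  exact Fermat.Agent.S24.transcendental_of_localData_inv (Fermat.Agent.S24.jF N) P.dataInf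

theorem finiteDimensional_jF (N : ℕ) [NeZero N] :
    FiniteDimensional (AlgebraicClosure ℚ)⟮Fermat.Agent.S24.jF N⟯
      ↥(modularFunctionFieldBar N) := by
  obtain ⟨P⟩ := Fermat.Agent.S24.nonempty_modularPackage N
  exact P.finiteDimensional

/-- **T2 = CONST_F** for `F = modularFunctionFieldBar N`
(= helper94's `ConstOfOrdZero (AlgebraicClosure ℚ) (modularFunctionFieldBar N)`, unfolded). -/
theorem constOfOrdZero_modularFunctionFieldBar (N : ℕ) [NeZero N] :
    ∀ u : ↥(modularFunctionFieldBar N), u ≠ 0 →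
      (∀ v : Place (AlgebraicClosure ℚ) ↥(modularFunctionFieldBar N), v.ord u = 0) →
      ∃ c : AlgebraicClosure ℚ,
        u = algebraMap (AlgebraicClosure ℚ) ↥(modularFunctionFieldBar N) c := by
  intro u _ hu
  have := finiteDimensional_jF N
  exact exists_const_of_forall_ord_eq_zero (Fermat.Agent.S24.jF N) (transcendental_jF N) u hu

/-- A non-constant modular function has a zero (and, applied to `u⁻¹`, a pole). -/
theorem exists_ord_pos_modularFunctionFieldBar (N : ℕ) [NeZero N]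
    {u : ↥(modularFunctionFieldBar N)} (hu : Transcendental (AlgebraicClosure ℚ) u) :
    ∃ v : Place (AlgebraicClosure ℚ) ↥(modularFunctionFieldBar N), 0 < v.ord u := by
  have := finiteDimensional_jF N
  exact exists_ord_pos_of_transcendental (Fermat.Agent.S24.jF N) (transcendental_jF N) hu

end Fermat.Agent.S18.H564

end
end
-- ===== PACK-END S18/H564/ConstF.lean

-- ===== PACK-BEGIN S29/M4b/H822/K4Basic.lean
section
/-
S29 / M4b (helper822): PIECES `K4-ADD` (`isKum_add`) and `K4-INJ` (`isKum_zero_right`) of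
`M4b/Skeleton.lean`, exact statements.  Sorry-free.
-/




set_option autoImplicit false

noncomputable section

open ModularCurve AlgebraicCurve CongruenceSubgroup UpperHalfPlane
open scoped MatrixGroups Manifold

namespace Fermat.Agent.S29.M4b.H822

open Fermat.Agent.S24 Fermat.Agent.S29 Fermat.Agent.S29.M4b

variable (N : ℕ) [NeZero N] (p : ℕ) [NeZero p]

/-- A function which is not the zero function has a point of non-vanishing. -/
theorem exists_ne_zero_of_ne_zero {G : ℍ → ℂ} (h : G ≠ 0) : ∃ τ : ℍ, G τ ≠ 0 := by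
  by_contra hh
  exact h (funext fun τ => not_not.mp fun hτ => hh ⟨τ, hτ⟩)

/-- PIECE `K4-ADD`: additivity of the Kummer relation. -/
theorem isKum_add {c c' : G0 N → ZMod p} {x x' : JZero N}
    (h : IsKum N p c x) (h' : IsKum N p c' x') : IsKum N p (c + c') (x + x') := by
  obtain ⟨f, t, U, ht, hx, hU, hr⟩ := h
  obtain ⟨f', t', U', ht', hx', hU', hr'⟩ := h'
  have hfun : (fun τ => (U τ * U' τ) ^ p) = (fun τ => U τ ^ p) * (fun τ => U' τ ^ p) := by
    funext τ
    simp [mul_pow]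
  have hreal : Realises N (f * f' * (t * t') ^ p) (fun τ => (U τ * U' τ) ^ p) := by
    have h1 := realises_mul hr hr'
    rw [hfun]
    have h2 : f * f' * (t * t') ^ p = f * t ^ p * (f' * t' ^ p) := by ring
    rw [h2]
    exact h1
  refine ⟨f * f', t * t', fun τ => U τ * U' τ, mul_ne_zero ht ht', hx.add hx', ?_, hreal⟩
  refine ⟨hU.mdiff.mul hU'.mdiff, ?_, hasChar_mul hU.hasChar hU'.hasChar, hreal.1⟩
  have hne : f * f' * (t * t') ^ p ≠ 0 :=
    mul_ne_zero (mul_ne_zero hx.ne_zero hx'.ne_zero) (pow_ne_zero _ (mul_ne_zero ht ht'))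
  obtain ⟨τ, hτ⟩ := exists_ne_zero_of_ne_zero (realises_ne_zero hreal hne)
  refine ⟨τ, fun h0 => hτ ?_⟩
  show (U τ * U' τ) ^ p = 0
  rw [h0, zero_pow (NeZero.ne p)]

/-- PIECE `K4-INJ`: only the trivial character has Kummer class `0`. -/
theorem isKum_zero_right {c : G0 N → ZMod p} (h : IsKum N p c (0 : JZero N)) : c = 0 := by
  obtain ⟨f, t, U, ht, hx, hU, hr⟩ := h
  have hp0 : (p : ℤ) ≠ 0 := by exact_mod_cast NeZero.ne p
  have hpn : p ≠ 0 := NeZero.ne p
  obtain ⟨g, hg, hfg⟩ := (hx.eq_zero_iff hp0).mp rfl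
  have hf0 := hx.ne_zero
  -- `f / g ^ p` is a constant
  have hu : ∀ v : Place Kbar (FF N), v.ord (f / g ^ p) = 0 := by
    intro v
    have hpow : v.ord (g ^ p) = (p : ℤ) * v.ord g := by
      rw [← zpow_natCast, Place.ord_zpow]
    rw [div_eq_mul_inv, Place.ord_mul v hf0 (inv_ne_zero (pow_ne_zero _ hg)), Place.ord_inv,
      hpow, hfg v]
    ring
  obtain ⟨a0, ha0⟩ := Fermat.Agent.S18.H564.constOfOrdZero_modularFunctionFieldBar N (f / g ^ p)
    (div_ne_zero hf0 (pow_ne_zero _ hg)) hu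
  obtain ⟨b0, hb0⟩ := IsAlgClosed.exists_pow_nat_eq a0 (Nat.pos_of_ne_zero hpn)
  -- `f * t ^ p = v ^ p`
  set v : FF N := algebraMap Kbar (FF N) b0 * g * t with hv
  have hvp : v ^ p = f * t ^ p := by
    have h1 : f = algebraMap Kbar (FF N) a0 * g ^ p := by
      rw [← ha0, div_mul_cancel₀ _ (pow_ne_zero _ hg)]
    rw [hv, mul_pow, mul_pow, ← map_pow, hb0, ← h1]
  have hv0 : v ≠ 0 := by
    intro h0
    have : f * t ^ p = 0 := by rw [← hvp, h0, zero_pow hpn]
    exact (mul_ne_zero hf0 (pow_ne_zero _ ht)) this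
  -- `v = A / B` with `A, B` polynomials in the `j(q^d)`
  obtain ⟨A, B, hB0, hvAB⟩ := H997.exists_div_inclRN N v
  have hB0' : H997.inclRN N B ≠ 0 := fun h0 =>
    hB0 (H997.inclRN_injective N (by rw [h0, map_zero]))
  have hA0' : H997.inclRN N A ≠ 0 := by
    intro h0
    rw [h0, zero_div] at hvAB
    exact hv0 hvAB
  obtain ⟨GA, hGA⟩ := exists_realises_of_mem_AK (a := H997.inclRN N A) A.2
  obtain ⟨GB, hGB⟩ := exists_realises_of_mem_AK (a := H997.inclRN N B) B.2
  have h3 : f * t ^ p * (H997.inclRN N B) ^ p = (H997.inclRN N A) ^ p := by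
    rw [← hvp, ← mul_pow, hvAB, div_mul_cancel₀ _ hB0']
  have h1 : Realises N ((H997.inclRN N A) ^ p) ((fun τ => U τ ^ p) * GB ^ p) := by
    have := realises_mul hr (realises_pow hGB p)
    rwa [h3] at this
  have h4 : (fun τ => U τ ^ p) * GB ^ p = GA ^ p := realises_unique_right h1 (realises_pow hGA p)
  have h5 : ∀ τ : ℍ, (U τ * GB τ) ^ p = GA τ ^ p := by
    intro τ
    have := congrFun h4 τ
    simp only [Pi.mul_apply, Pi.pow_apply] at this
    rw [mul_pow]
    exact this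
  obtain ⟨τ₀, hτ₀⟩ := exists_ne_zero_of_ne_zero (realises_ne_zero hGA hA0')
  have hUB0 : U τ₀ * GB τ₀ ≠ 0 := by
    intro h0
    have := h5 τ₀
    rw [h0, zero_pow hpn] at this
    exact hτ₀ (pow_eq_zero_iff hpn |>.mp this.symm)
  set z : ℂ := U τ₀ * GB τ₀ / GA τ₀ with hz
  have hzp : z ^ p = 1 := by
    rw [hz, div_pow, h5 τ₀, div_self (pow_ne_zero _ hτ₀)]
  have hGAmd : MDifferentiable 𝓘(ℂ) 𝓘(ℂ) GA := hGA.1.1
  have hGBmd : MDifferentiable 𝓘(ℂ) 𝓘(ℂ) GB := hGB.1.1
  have hEq : (fun τ => U τ * GB τ) = fun τ => z * GA τ := by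
    refine H751.eq_of_pow_eq_UHP (hU.mdiff.mul hGBmd) (mdifferentiable_const.mul hGAmd) hpn
      (fun τ => ?_) (τ₀ := τ₀) ?_ hUB0
    · show (U τ * GB τ) ^ p = (z * GA τ) ^ p
      rw [mul_pow z, hzp, one_mul, h5 τ]
    · show U τ₀ * GB τ₀ = z * GA τ₀
      rw [hz, div_mul_cancel₀ _ hτ₀]
  funext γ
  have hinvA : GA ((γ : SL(2, ℤ)) • τ₀) = GA τ₀ := hGA.1.2.1 _ γ.2 τ₀
  have hinvB : GB ((γ : SL(2, ℤ)) • τ₀) = GB τ₀ := hGB.1.2.1 _ γ.2 τ₀
  have e1 := congrFun hEq ((γ : SL(2, ℤ)) • τ₀)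
  have e2 := congrFun hEq τ₀
  rw [hinvA, hinvB, ← e2, hU.hasChar γ τ₀] at e1
  have e3 : (zetaP p ^ (c γ).val - 1) * (U τ₀ * GB τ₀) = 0 := by
    linear_combination e1
  rcases mul_eq_zero.mp e3 with h | h
  · exact (zetaP_pow_val_eq_one_iff p (c γ)).mp (sub_eq_zero.mp h)
  · exact absurd h hUB0

end Fermat.Agent.S29.M4b.H822

end
end
-- ===== PACK-END S29/M4b/H822/K4Basic.lean

-- ===== PACK-BEGIN S29/M4b/H822/K4Uniq.lean
section
/-
S29 / M4b (helper822): PIECE `K4-UNIQ` (`isKum_unique`) of `M4b/Skeleton.lean`, exact statement.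
Sorry-free.  Inputs (all on main): MERO `H882.qexpFun_mem_FC`, `H32.mem_range_of_finite_orbit`,
`H32.exists_of_coeff_mem_range`, `H455.IsKummerClass` API.
-/




set_option autoImplicit false

noncomputable section

open ModularCurve AlgebraicCurve CongruenceSubgroup UpperHalfPlane
open scoped MatrixGroups Manifold

namespace Fermat.Agent.S29.M4b.H822

open Fermat.Agent.S24 Fermat.Agent.S29 Fermat.Agent.S29.M4b

/-! ### Growth of roots -/

theorem expGrowth_of_pow {F : ℍ → ℂ} {p : ℕ} (hp : p ≠ 0)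
    (h : H648.ExpGrowth (fun τ => F τ ^ p)) : H648.ExpGrowth F := by
  obtain ⟨C, m, hC⟩ := h
  refine ⟨1 + |C|, m, fun τ hτ => ?_⟩
  have h1 := hC τ hτ
  rw [norm_pow] at h1
  have hE : (1 : ℝ) ≤ Real.exp (2 * Real.pi * m * τ.im) := by
    apply Real.one_le_exp
    have : (0 : ℝ) ≤ τ.im := τ.im_pos.le
    positivity
  have h2 : ‖F τ‖ ≤ 1 + ‖F τ‖ ^ p := by
    rcases le_or_gt ‖F τ‖ 1 with h | h
    · have : (0 : ℝ) ≤ ‖F τ‖ ^ p := by positivity
      linarith
    · have : ‖F τ‖ ≤ ‖F τ‖ ^ p := le_self_pow₀ h.le hp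
      linarith
  have h3 : C * Real.exp (2 * Real.pi * m * τ.im) ≤ |C| * Real.exp (2 * Real.pi * m * τ.im) :=
    mul_le_mul_of_nonneg_right (le_abs_self C) (Real.exp_pos _).le
  calc ‖F τ‖ ≤ 1 + ‖F τ‖ ^ p := h2
    _ ≤ 1 + |C| * Real.exp (2 * Real.pi * m * τ.im) := by linarith
    _ ≤ Real.exp (2 * Real.pi * m * τ.im) + |C| * Real.exp (2 * Real.pi * m * τ.im) := by
        linarith
    _ = (1 + |C|) * Real.exp (2 * Real.pi * m * τ.im) := by ring

/-- A holomorphic `Γ₀(N)`-invariant function whose `p`-th power is good is good. -/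
theorem mem_goodRing_of_pow_mem {N : ℕ} {V : ℍ → ℂ} {p : ℕ} (hp : p ≠ 0)
    (hV : MDifferentiable 𝓘(ℂ) 𝓘(ℂ) V)
    (hinv : ∀ γ ∈ Gamma0 N, ∀ τ : ℍ, V (γ • τ) = V τ)
    (hpow : (fun τ => V τ ^ p) ∈ H648.goodRing N) : V ∈ H648.goodRing N :=
  ⟨hV, hinv, fun g => expGrowth_of_pow hp (hpow.2.2 g)⟩

/-! ### Algebraicity of the coefficients of a `p`-th root -/

/-- The algebra structure `ℚ̄ → ℂ` given by the fixed embedding `iotaC`. -/
abbrev algKbarC : Algebra Kbar ℂ := Deg457.iotaC.toAlgebra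

theorem isScalarTower_algKbarC :
    letI := algKbarC
    IsScalarTower ℚ Kbar ℂ := by
  letI := algKbarC
  refine IsScalarTower.of_algebraMap_eq fun q => ?_
  show (algebraMap ℚ ℂ) q = Deg457.iotaC (algebraMap ℚ Kbar q)
  unfold Deg457.iotaC
  simp

/-- If `s ^ p` has coefficients in `ℚ̄`, so has `s` (`p ≥ 1`). -/
theorem coeff_mem_range_of_pow_eq {p : ℕ} [NeZero p] {s : LaurentSeries ℂ}
    {w : LaurentSeries Kbar} (hs : s ^ p = coeffMap Deg457.iotaC w) (n : ℤ) :
    s.coeff n ∈ Set.range Deg457.iotaC := by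
  letI := algKbarC
  have hpn : p ≠ 0 := NeZero.ne p
  show s.coeff n ∈ Set.range (algebraMap Kbar ℂ)
  apply H32.mem_range_of_finite_orbit
  rcases eq_or_ne s 0 with rfl | hs0
  · refine (Set.finite_singleton (0 : ℂ)).subset ?_
    rintro _ ⟨σ, rfl⟩
    simp
  -- the conjugates are among the `ζ ^ i * s_n`
  refine (Set.finite_range fun i : Fin p => zetaP p ^ (i : ℕ) * s.coeff n).subset ?_
  rintro _ ⟨σ, rfl⟩
  set s' : LaurentSeries ℂ := coeffMap (σ : ℂ →+* ℂ) s with hs'
  have h1 : s' ^ p = s ^ p := by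
    rw [hs', ← map_pow, hs, coeffMap_coeffMap]
    apply coeffMap_congr
    ext c
    exact σ.commutes c
  have h2 : (s' / s) ^ p = 1 := by
    rw [div_pow, h1, div_self (pow_ne_zero _ hs0)]
  have hprim : IsPrimitiveRoot (algebraMap ℂ (LaurentSeries ℂ) (zetaP p)) p :=
    (isPrimitiveRoot_zetaP p).map_of_injective (algebraMap ℂ (LaurentSeries ℂ)).injective
  obtain ⟨i, hi, hi2⟩ := hprim.eq_pow_of_pow_eq_one h2
  have h3 : s' = algebraMap ℂ (LaurentSeries ℂ) (zetaP p ^ i) * s := by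
    rw [map_pow, hi2, div_mul_cancel₀ _ hs0]
  refine ⟨⟨i, hi⟩, ?_⟩
  show zetaP p ^ i * s.coeff n = σ (s.coeff n)
  have h4 : s'.coeff n = σ (s.coeff n) := rfl
  rw [← h4, h3, H32.coeff_algebraMap_mul]

/-! ### Powers of Kummer classes -/

theorem isKummerClass_pow {K F : Type*} [Field K] [Field F] [Algebra K F] {n : ℤ} {f : F}
    {x : Pic0 K F} (h : H455.IsKummerClass n f x) (k : ℕ) :
    H455.IsKummerClass n (f ^ k) (k • x) := by
  induction k with
  | zero => simpa using (H455.IsKummerClass.zero (n := n) (K := K) (F := F))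
  | succ k ih =>
    rw [pow_succ, succ_nsmul]
    exact ih.add h

/-! ### The piece -/

variable (N : ℕ) [NeZero N] (p : ℕ) [NeZero p]

/-- PIECE `K4-UNIQ`: the Kummer class of a character is unique. -/
theorem isKum_unique {c : G0 N → ZMod p} {x x' : JZero N}
    (h : IsKum N p c x) (h' : IsKum N p c x') : x = x' := by
  obtain ⟨f, t, U, ht, hx, hU, hr⟩ := h
  obtain ⟨f', t', U', ht', hx', hU', hr'⟩ := h'
  have hpn : p ≠ 0 := NeZero.ne p
  have hp0 : (p : ℤ) ≠ 0 := by exact_mod_cast hpn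
  have hp1 : p - 1 + 1 = p := Nat.sub_add_cancel (Nat.pos_of_ne_zero hpn)
  -- the invariant function `V = U * U' ^ (p - 1)`
  set V : ℍ → ℂ := fun τ => U τ * U' τ ^ (p - 1) with hVdef
  set w : FF N := f * t ^ p * (f' * t' ^ p) ^ (p - 1) with hw
  have hVpow : (fun τ => V τ ^ p) = (fun τ => U τ ^ p) * (fun τ => U' τ ^ p) ^ (p - 1) := by
    funext τ
    simp only [hVdef, Pi.mul_apply, Pi.pow_apply, mul_pow]
    rw [← pow_mul, ← pow_mul, mul_comm (p - 1) p]
  have hWreal : Realises N w (fun τ => V τ ^ p) := by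
    rw [hVpow]
    exact realises_mul hr (realises_pow hr' (p - 1))
  have hVmd : MDifferentiable 𝓘(ℂ) 𝓘(ℂ) V := hU.mdiff.mul (hU'.mdiff.pow (p - 1))
  have hVinv : ∀ γ ∈ Gamma0 N, ∀ τ : ℍ, V (γ • τ) = V τ := by
    intro γ hγ τ
    have e1 := hU.hasChar ⟨γ, hγ⟩ τ
    have e2 := hU'.hasChar ⟨γ, hγ⟩ τ
    simp only at e1 e2
    show U (γ • τ) * U' (γ • τ) ^ (p - 1) = U τ * U' τ ^ (p - 1)
    rw [e1, e2, mul_pow]
    have e3 : zetaP p ^ (c ⟨γ, hγ⟩).val * (zetaP p ^ (c ⟨γ, hγ⟩).val) ^ (p - 1) = 1 := by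
      rw [← pow_succ', hp1, ← pow_mul, mul_comm, pow_mul, zetaP_pow_self, one_pow]
    linear_combination (U τ * U' τ ^ (p - 1)) * e3
  have hVgood : V ∈ H648.goodRing N := mem_goodRing_of_pow_mem hpn hVmd hVinv hWreal.1
  -- its `q`-expansion `s`
  set s : LaurentSeries ℂ := H708.qexpFun 1 V with hsdef
  have hsQ : H708.HasQExp 1 V s := H882.hasQExp_of_mem_goodRing hVgood
  have hsFC : s ∈ laurentBaseChange ℂ (modularFunctionFieldFull N) := H882.qexpFun_mem_FC (N := N) hVgood
  have hsp : s ^ p = coeffMap Deg457.iotaC ((w : FF N) : LaurentSeries Kbar) := by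
    have h1 := hsQ.pow p
    have h2 : V ^ p = fun τ => V τ ^ p := rfl
    rw [h2] at h1
    exact h1.unique (realises_hasQExp hWreal)
  -- descent of `s` to `ℚ̄`
  let _ : Algebra Kbar ℂ := algKbarC
  have _ : IsScalarTower ℚ Kbar ℂ := isScalarTower_algKbarC
  obtain ⟨y, hy, hys⟩ := H32.exists_of_coeff_mem_range (k := Kbar) (Ω := ℂ)
    (modularFunctionFieldFull N) hsFC (fun n => coeff_mem_range_of_pow_eq hsp n)
  set vv : FF N := ⟨y, hy⟩ with hvv
  have hvvp : vv ^ p = w := by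
    apply Subtype.ext
    apply coeffMap_iotaC_injective
    show coeffMap Deg457.iotaC (((vv ^ p : FF N) : FF N) : LaurentSeries Kbar) = _
    rw [← hsp, ← hys]
    simp only [SubmonoidClass.coe_pow, map_pow]
    rfl
  -- `f * f' ^ (p - 1)` is a `p`-th power
  have hf0 := hx.ne_zero
  have hf0' := hx'.ne_zero
  have hd0 : t * t' ^ (p - 1) ≠ 0 := mul_ne_zero ht (pow_ne_zero _ ht')
  set g : FF N := vv / (t * t' ^ (p - 1)) with hg
  have hgp : g ^ p = f * f' ^ (p - 1) := by
    rw [hg, div_pow, hvvp, hw]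
    rw [div_eq_iff (pow_ne_zero _ hd0)]
    have e1 : (t' ^ p) ^ (p - 1) = (t' ^ (p - 1)) ^ p := by
      rw [← pow_mul, ← pow_mul, mul_comm]
    rw [mul_pow, mul_pow, e1]
    ring
  have hg0 : g ≠ 0 := by
    intro h0
    rw [h0, zero_pow hpn] at hgp
    exact (mul_ne_zero hf0 (pow_ne_zero _ hf0')) hgp.symm
  have hsum : H455.IsKummerClass (p : ℤ) (f * f' ^ (p - 1)) (x + (p - 1) • x') :=
    hx.add (isKummerClass_pow hx' (p - 1))
  have hzero : x + (p - 1) • x' = 0 := by
    refine (hsum.eq_zero_iff hp0).mpr ⟨g, hg0, fun v => ?_⟩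
    rw [← hgp, ← zpow_natCast, Place.ord_zpow]
  have hpx' : (p : ℤ) • x' = 0 := hx'.zsmul_eq_zero
  have h5 : (p - 1) • x' + x' = 0 := by
    rw [← succ_nsmul, hp1, ← natCast_zsmul]
    exact hpx'
  have h6 : x - x' = 0 := by
    have : x - x' = (x + (p - 1) • x') - ((p - 1) • x' + x') := by abel
    rw [this, hzero, h5, sub_zero]
  exact sub_eq_zero.mp h6

end Fermat.Agent.S29.M4b.H822

end
end
-- ===== PACK-END S29/M4b/H822/K4Uniq.lean

-- ===== PACK-BEGIN S29/M4b/H822/K4.lean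
section
/-
S29 / M4b (helper822): the pieces `K4-UNIQ`, `K4-INJ`, `K4-ADD` of the Kummer map, in the EXACT
shape of the `Prop`s `PieceUniq`, `PieceInj`, `PieceAdd` of `M4b/Top.lean` (for every modulus
`p ≠ 0`, in particular for `p` prime).  Sorry-free.
-/




set_option autoImplicit false

namespace Fermat.Agent.S29.M4b.H822

open Fermat.Agent.S24 Fermat.Agent.S29 Fermat.Agent.S29.M4b

/-- PIECE `K4-UNIQ`, exact `Prop` of `M4b/Top.lean`. -/
theorem pieceUniq (N : ℕ) [NeZero N] (p : ℕ) (hp : p ≠ 0) : PieceUniq N p := by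
  haveI : NeZero p := ⟨hp⟩
  intro c x x' h h'
  exact isKum_unique N p h h'

/-- PIECE `K4-INJ`, exact `Prop` of `M4b/Top.lean`. -/
theorem pieceInj (N : ℕ) [NeZero N] (p : ℕ) (hp : p ≠ 0) : PieceInj N p := by
  haveI : NeZero p := ⟨hp⟩
  intro c h
  exact isKum_zero_right N p h

/-- PIECE `K4-ADD`, exact `Prop` of `M4b/Top.lean`. -/
theorem pieceAdd (N : ℕ) [NeZero N] (p : ℕ) (hp : p ≠ 0) : PieceAdd N p := by
  haveI : NeZero p := ⟨hp⟩
  intro c c' x x' h h'
  exact isKum_add N p h h'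

/-- The Kummer bridge `M4bStatement` from the FOUR remaining pieces (`K1`, `K3`, `K2`,
`K4-HECKE`), for all levels and prime moduli. -/
theorem m4bStatement_of_four
    (h1 : ∀ (N : ℕ) [NeZero N] (p : ℕ), p.Prime → PieceK1 N p)
    (h3 : ∀ (N : ℕ) [NeZero N] (p : ℕ), p.Prime → PieceK3 N p)
    (h2 : ∀ (N : ℕ) [NeZero N] (p : ℕ), p.Prime → PieceK2 N p)
    (hh : ∀ (N : ℕ) [NeZero N] (p : ℕ), p.Prime → PieceHecke N p) :
    M4bStatement :=
  M4bStatement_of_pieces h1 h3 h2 (fun N _ p hp => pieceUniq N p hp.ne_zero)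
    (fun N _ p hp => pieceInj N p hp.ne_zero) (fun N _ p hp => pieceAdd N p hp.ne_zero) hh

end Fermat.Agent.S29.M4b.H822

end
-- ===== PACK-END S29/M4b/H822/K4.lean

-- ===== PACK-BEGIN S29/H812/IntBasis.lean
section


/-!
# S29 / H812 — a local integral basis at a place `v` of `F` for a finite extension `F'/F`

`InFib v x` : `x ∈ F'` is integral at every place above `v`.  We construct a basis `b` of `F'/F`
consisting of such elements, such that the coordinates of every such element lie in the valuation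
ring of `v`.
-/

set_option autoImplicit false

noncomputable section

open AlgebraicCurve IntermediateField

namespace Fermat.Agent.S29.H812

open Fermat.Agent.S24

variable {K F F' : Type*} [Field K] [Field F] [Field F']
  [Algebra K F] [Algebra K F'] [Algebra F F'] [IsScalarTower K F F']
  [Algebra.IsIntegral F F'] [HasPrincipalDivisors K F']

/-- `x` is integral at all places of `F'` above `v`. -/
def InFib (v : Place K F) (x : F') : Prop := ∀ w ∈ v.fiber F', x ∈ w.toValuationSubring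

theorem inFib_zero (v : Place K F) : InFib v (0 : F') := fun _ _ => zero_mem _

theorem inFib_one (v : Place K F) : InFib v (1 : F') := fun _ _ => one_mem _

theorem InFib.add {v : Place K F} {x y : F'} (hx : InFib v x) (hy : InFib v y) :
    InFib v (x + y) := fun w hw => add_mem (hx w hw) (hy w hw)

theorem InFib.mul {v : Place K F} {x y : F'} (hx : InFib v x) (hy : InFib v y) :
    InFib v (x * y) := fun w hw => mul_mem (hx w hw) (hy w hw)

theorem inFib_sum {v : Place K F} {ι : Type*} (s : Finset ι) (f : ι → F')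
    (h : ∀ i ∈ s, InFib v (f i)) : InFib v (∑ i ∈ s, f i) :=
  fun w hw => sum_mem fun i hi => h i hi w hw

theorem inFib_algebraMap {v : Place K F} {c : F} (hc : c ∈ v.toValuationSubring) :
    InFib v (algebraMap F F' c) := by
  intro w hw
  have h := Place.mem_fiber.mp hw
  rw [← h] at hc
  exact (Place.mem_restrict_iff w).mp hc

theorem InFib.smul {v : Place K F} {c : F} (hc : c ∈ v.toValuationSubring) {x : F'}
    (hx : InFib v x) : InFib v (c • x) := by
  rw [Algebra.smul_def]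
  exact (inFib_algebraMap hc).mul hx

theorem inFib_iff_ord {v : Place K F} {x : F'} :
    InFib v x ↔ ∀ w ∈ v.fiber F', 0 ≤ w.ord x :=
  forall₂_congr fun w _ => H117.mem_iff_ord_nonneg w

section Basis

variable [IsAlgClosed K] [CharZero K] [Module.Finite F F']

/-- **Local integral basis.** -/
theorem exists_integral_basis
    (hF : ∃ x : F, Transcendental K x ∧ FiniteDimensional K⟮x⟯ F) (v : Place K F) :
    ∃ b : Module.Basis (FibIdx F' v) F F',
      (∀ i, InFib v (b i)) ∧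
      (∀ x : F', InFib v x → ∀ i, b.repr x i ∈ v.toValuationSubring) := by
  classical
  obtain ⟨u, hu0, hu1, hu2⟩ := exists_family (F' := F') v
  have hli := family_linearIndependent v u hu0 hu1 hu2
  have hcard : Fintype.card (FibIdx F' v) = Module.finrank F F' := by
    rw [card_fibIdx, sum_ramificationIndex_eq_finrank hF v]
  set b : Module.Basis (FibIdx F' v) F F' := basisOfLinearIndependentOfCardEqFinrank' u hli hcard
    with hb
  have hbu : ∀ i, b i = u i := fun i => by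
    rw [hb, coe_basisOfLinearIndependentOfCardEqFinrank']
  refine ⟨b, ?_, ?_⟩
  · intro a
    rw [hbu, inFib_iff_ord]
    intro w hw
    by_cases h : w = a.1.1
    · rw [h, hu1]; exact Int.natCast_nonneg _
    · have hpos : 0 < w.ramificationIndex F := w.ramificationIndex_pos (F := F)
      have := hu2 a ⟨⟨w, hw⟩, ⟨0, hpos⟩⟩ h
      have h0 : (0 : ℤ) ≤ ((w.ramificationIndex F : ℕ) : ℤ) := Int.natCast_nonneg _
      exact h0.trans this
  · intro x hx a
    by_cases hall : ∀ a, b.repr x a = 0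
    · rw [hall a]; exact zero_mem _
    push Not at hall
    obtain ⟨a₀, hc₀, hmin, -, hord⟩ := family_coord v u hu0 hu1 hu2 (fun a => b.repr x a) hall
    have hsum : ∑ a, b.repr x a • u a = x := by
      have := b.sum_repr x
      simpa [hbu] using this
    rw [hsum] at hord
    have h0 : 0 ≤ a₀.1.1.ord x := H117.ord_nonneg_of_mem _ (hx a₀.1.1 a₀.1.2)
    have hi : ((a₀.2 : ℕ) : ℤ) < (a₀.1.1.ramificationIndex F : ℤ) := by exact_mod_cast a₀.2.2
    have hm : 0 ≤ v.ord (b.repr x a₀) := by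
      by_contra hneg
      push Not at hneg
      have he : (0 : ℤ) < (a₀.1.1.ramificationIndex F : ℤ) := by
        exact_mod_cast a₀.1.1.ramificationIndex_pos (F := F)
      nlinarith
    by_cases ha : b.repr x a = 0
    · rw [ha]; exact zero_mem _
    · exact H117.mem_of_ord_nonneg v (hm.trans (hmin a ha))

end Basis

end Fermat.Agent.S29.H812

end
end
-- ===== PACK-END S29/H812/IntBasis.lean

-- ===== PACK-BEGIN S29/H812/Norm.lean
section


/-!
# S29 / H812 — the norm formula `ord_v (N_{F'/F} f) = ∑_{w | v} ord_w f` for a finite extension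
of function fields of one variable over an algebraically closed field of characteristic zero.
-/

set_option autoImplicit false

noncomputable section

open AlgebraicCurve IntermediateField

namespace Fermat.Agent.S29.H812

open Fermat.Agent.S24

section Single

variable {K F : Type*} [Field K] [Field F] [Algebra K F]

theorem ord_prod (w : Place K F) {ι : Type*} (s : Finset ι) (g : ι → F)
    (hg : ∀ i ∈ s, g i ≠ 0) : w.ord (∏ i ∈ s, g i) = ∑ i ∈ s, w.ord (g i) := by
  classical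
  induction s using Finset.induction_on with
  | empty => simp
  | insert a s ha ih =>
    rw [Finset.prod_insert ha, Finset.sum_insert ha,
      w.ord_mul (hg a (Finset.mem_insert_self _ _))
        (Finset.prod_ne_zero_iff.mpr fun i hi => hg i (Finset.mem_insert_of_mem hi)),
      ih fun i hi => hg i (Finset.mem_insert_of_mem hi)]

theorem isUnit_of_ord_eq_zero (v : Place K F) (a : v.toValuationSubring) (ha : (a : F) ≠ 0)
    (h : v.ord (a : F) = 0) : IsUnit a := by
  rw [← v.adicValuation_coe_eq_one_iff, H504.adicValuation_eq_exp_neg_ord v ha, h]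
  simp

end Single

variable {K F F' : Type*} [Field K] [Field F] [Field F']
  [Algebra K F] [Algebra K F'] [Algebra F F'] [IsScalarTower K F F']
  [Algebra.IsIntegral F F'] [HasPrincipalDivisors K F']
  [IsAlgClosed K] [CharZero K] [Module.Finite F F']

/-- The matrix of multiplication by an integral element in a local integral basis, over the
valuation ring. -/
theorem exists_matrix (v : Place K F) [DecidableEq (FibIdx F' v)]
    (b : Module.Basis (FibIdx F' v) F F')
    (hb : ∀ i, InFib v (b i))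
    (hrepr : ∀ x : F', InFib v x → ∀ i, b.repr x i ∈ v.toValuationSubring)
    {x : F'} (hx : InFib v x) :
    ∃ A : Matrix (FibIdx F' v) (FibIdx F' v) v.toValuationSubring,
      Algebra.leftMulMatrix b x = A.map v.toValuationSubring.subtype := by
  refine ⟨fun i j => ⟨Algebra.leftMulMatrix b x i j, ?_⟩, ?_⟩
  · rw [Algebra.leftMulMatrix_eq_repr_mul]
    exact hrepr _ (hx.mul (hb j)) i
  · ext i j
    rfl

/-- The norm of an element integral above `v` is integral at `v`. -/
theorem norm_mem_of_inFib (hF : ∃ x : F, Transcendental K x ∧ FiniteDimensional K⟮x⟯ F)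
    (v : Place K F) {x : F'} (hx : InFib v x) : Algebra.norm F x ∈ v.toValuationSubring := by
  classical
  obtain ⟨b, hb, hrepr⟩ := exists_integral_basis (F' := F') hF v
  obtain ⟨A, hA⟩ := exists_matrix v b hb hrepr hx
  rw [Algebra.norm_eq_matrix_det b x, hA, ← RingHom.mapMatrix_apply, ← RingHom.map_det]
  exact (A.det).2

/-- If the norm of an integral element is a unit at `v`, the inverse is integral above `v`. -/
theorem inFib_inv_of_ord_norm_eq_zero
    (hF : ∃ x : F, Transcendental K x ∧ FiniteDimensional K⟮x⟯ F)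
    (v : Place K F) {x : F'} (hx0 : x ≠ 0) (hx : InFib v x)
    (hN : v.ord (Algebra.norm F x) = 0) : InFib v x⁻¹ := by
  classical
  obtain ⟨b, hb, hrepr⟩ := exists_integral_basis (F' := F') hF v
  obtain ⟨A, hA⟩ := exists_matrix v b hb hrepr hx
  have hdet : ((A.det : v.toValuationSubring) : F) = Algebra.norm F x := by
    rw [Algebra.norm_eq_matrix_det b x, hA, ← RingHom.mapMatrix_apply, ← RingHom.map_det]
    rfl
  have hNne : Algebra.norm F x ≠ 0 := Algebra.norm_ne_zero_iff.mpr hx0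
  have hunit : IsUnit A.det :=
    isUnit_of_ord_eq_zero v A.det (by rw [hdet]; exact hNne) (by rw [hdet]; exact hN)
  -- the inverse matrix
  have h1 : A⁻¹ * A = 1 := Matrix.nonsing_inv_mul A hunit
  have h2 : (A⁻¹).map v.toValuationSubring.subtype * Algebra.leftMulMatrix b x = 1 := by
    rw [hA, ← Matrix.map_mul, h1]
    exact Matrix.map_one _ (map_zero _) (map_one _)
  have h3 : Algebra.leftMulMatrix b x * Algebra.leftMulMatrix b x⁻¹ = 1 := by
    rw [← map_mul, mul_inv_cancel₀ hx0, map_one]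
  have h4 : Algebra.leftMulMatrix b x⁻¹ = (A⁻¹).map v.toValuationSubring.subtype := by
    calc Algebra.leftMulMatrix b x⁻¹
        = ((A⁻¹).map v.toValuationSubring.subtype * Algebra.leftMulMatrix b x)
            * Algebra.leftMulMatrix b x⁻¹ := by rw [h2, one_mul]
      _ = (A⁻¹).map v.toValuationSubring.subtype := by rw [mul_assoc, h3, mul_one]
  -- coordinates of `x⁻¹`
  have hcoord : ∀ i, b.repr x⁻¹ i ∈ v.toValuationSubring := by
    intro i
    have h5 := congrFun (Algebra.leftMulMatrix_mulVec_repr b x⁻¹ 1) i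
    rw [mul_one] at h5
    rw [← h5, Matrix.mulVec, dotProduct]
    refine sum_mem fun j _ => mul_mem ?_ (hrepr 1 (inFib_one v) j)
    rw [h4]
    exact (A⁻¹ i j).2
  rw [← b.sum_repr x⁻¹]
  exact inFib_sum _ _ fun i _ => (hb i).smul (hcoord i)

variable (hF : ∃ x : F, Transcendental K x ∧ FiniteDimensional K⟮x⟯ F)

include hF in
/-- Units above `v` have unit norm. -/
theorem ord_norm_eq_zero_of_unit (v : Place K F) {x : F'} (hx0 : x ≠ 0)
    (hx : ∀ w ∈ v.fiber F', w.ord x = 0) : v.ord (Algebra.norm F x) = 0 := by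
  have h1 : InFib v x := inFib_iff_ord.mpr fun w hw => (hx w hw).ge
  have h2 : InFib v x⁻¹ := inFib_iff_ord.mpr fun w hw => by
    rw [w.ord_inv, hx w hw]; rfl
  have h3 := H117.ord_nonneg_of_mem v (norm_mem_of_inFib hF v h1)
  have h4 := H117.ord_nonneg_of_mem v (norm_mem_of_inFib hF v h2)
  have h5 : Algebra.norm F x * Algebra.norm F x⁻¹ = 1 := by
    rw [← map_mul, mul_inv_cancel₀ hx0, map_one]
  have h6 : v.ord (Algebra.norm F x) + v.ord (Algebra.norm F x⁻¹) = 0 := by
    rw [← v.ord_mul (Algebra.norm_ne_zero_iff.mpr hx0)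
      (Algebra.norm_ne_zero_iff.mpr (inv_ne_zero hx0)), h5, v.ord_one]
  omega

include hF in
/-- Non-units above `v` have non-unit norm. -/
theorem ord_norm_pos_of_ord_pos (v : Place K F) {x : F'} (hx0 : x ≠ 0) (hx : InFib v x)
    {w₀ : Place K F'} (hw₀ : w₀ ∈ v.fiber F') (hpos : 0 < w₀.ord x) :
    0 < v.ord (Algebra.norm F x) := by
  have h3 := H117.ord_nonneg_of_mem v (norm_mem_of_inFib hF v hx)
  rcases eq_or_lt_of_le h3 with h0 | hlt
  · exfalso
    have h := inFib_inv_of_ord_norm_eq_zero hF v hx0 hx h0.symm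
    have := H117.ord_nonneg_of_mem w₀ (h w₀ hw₀)
    rw [w₀.ord_inv] at this
    omega
  · exact hlt

include hF in
/-- Elements with the same orders above `v` have norms of the same order at `v`. -/
theorem ord_norm_congr (v : Place K F) {g h : F'} (hg : g ≠ 0) (hh : h ≠ 0)
    (hgh : ∀ w ∈ v.fiber F', w.ord g = w.ord h) :
    v.ord (Algebra.norm F g) = v.ord (Algebra.norm F h) := by
  have hu0 : g * h⁻¹ ≠ 0 := mul_ne_zero hg (inv_ne_zero hh)
  have hu : v.ord (Algebra.norm F (g * h⁻¹)) = 0 :=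
    ord_norm_eq_zero_of_unit hF v hu0 fun w hw => by
      rw [w.ord_mul hg (inv_ne_zero hh), w.ord_inv, hgh w hw]; ring
  have h1 : g = (g * h⁻¹) * h := by field_simp
  have h2 : Algebra.norm F g = Algebra.norm F (g * h⁻¹) * Algebra.norm F h := by
    rw [← map_mul, ← h1]
  rw [h2, v.ord_mul (Algebra.norm_ne_zero_iff.mpr hu0) (Algebra.norm_ne_zero_iff.mpr hh), hu,
    zero_add]

end Fermat.Agent.S29.H812

end
end
-- ===== PACK-END S29/H812/Norm.lean

-- ===== PACK-BEGIN S29/H812/NormFormula.lean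
section


/-!
# S29 / H812 — the norm formula and the Prelude classes `SumRamificationInertia`,
`FundamentalIdentity`, `PushforwardNormFormula` for finite extensions of function fields over an
algebraically closed field of characteristic zero.
-/

set_option autoImplicit false

noncomputable section

open AlgebraicCurve IntermediateField

namespace Fermat.Agent.S29.H812

open Fermat.Agent.S24

variable {K F F' : Type*} [Field K] [Field F] [Field F']
  [Algebra K F] [Algebra K F'] [Algebra F F'] [IsScalarTower K F F']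
  [Algebra.IsIntegral F F'] [HasPrincipalDivisors K F']
  [IsAlgClosed K] [CharZero K] [Module.Finite F F']

variable (hF : ∃ x : F, Transcendental K x ∧ FiniteDimensional K⟮x⟯ F)

include hF in
omit [HasPrincipalDivisors K F'] [CharZero K] in
theorem inertiaDeg_eq_one (w : Place K F') : w.inertiaDeg F = 1 := by
  obtain ⟨x, hx, hxfin⟩ := hF
  haveI := finiteDimensional_adjoin_algebraMap (K := K) (F' := F') x
  have h := w.deg_restrict_mul_inertiaDeg (F := F)
  rw [FF.deg_eq_one (w.restrict F) hx,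
    FF.deg_eq_one w (transcendental_algebraMap_of (F' := F') hx), one_mul] at h
  exact h

include hF in
/-- **Norm formula**: `ord_v (N f) = ∑_{w | v} ord_w f`. -/
theorem ord_norm_eq_sum (v : Place K F) {f : F'} (hf : f ≠ 0) :
    v.ord (Algebra.norm F f) = ∑ w ∈ v.fiber F', w.ord f := by
  classical
  have hϖ : ∀ w : Place K F', ∃ ϖ : F', ϖ ≠ 0 ∧ w.ord ϖ = 1 ∧
      ∀ w' ∈ (v.fiber F').erase w, w'.ord ϖ = 0 := fun w =>
    exists_ord_eq_one_and_zero w _ (Finset.notMem_erase _ _)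
  choose ϖ hϖ0 hϖ1 hϖ2 using hϖ
  set c : Place K F' → ℤ := fun w => v.ord (Algebra.norm F (ϖ w)) with hc
  have hpne : ∀ k : Place K F' → ℕ, ∏ w ∈ v.fiber F', ϖ w ^ k w ≠ 0 := fun k =>
    Finset.prod_ne_zero_iff.mpr fun w _ => pow_ne_zero _ (hϖ0 w)
  have hprod : ∀ (k : Place K F' → ℕ), ∀ w' ∈ v.fiber F',
      w'.ord (∏ w ∈ v.fiber F', ϖ w ^ k w) = k w' := by
    intro k w' hw'
    rw [ord_prod w' _ _ fun w _ => pow_ne_zero _ (hϖ0 w)]
    simp_rw [H117.ord_pow]
    rw [Finset.sum_eq_single w']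
    · rw [hϖ1 w']; ring
    · intro w _ hne
      rw [hϖ2 w w' (Finset.mem_erase.mpr ⟨fun h => hne h.symm, hw'⟩)]; ring
    · intro h; exact absurd hw' h
  have hnorm : ∀ k : Place K F' → ℕ,
      v.ord (Algebra.norm F (∏ w ∈ v.fiber F', ϖ w ^ k w)) = ∑ w ∈ v.fiber F', (k w : ℤ) * c w := by
    intro k
    rw [map_prod, ord_prod v _ _ fun w _ =>
      Algebra.norm_ne_zero_iff.mpr (pow_ne_zero _ (hϖ0 w))]
    refine Finset.sum_congr rfl fun w _ => ?_
    rw [map_pow, H117.ord_pow]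
  have hstar : ∀ f : F', f ≠ 0 →
      v.ord (Algebra.norm F f) = ∑ w ∈ v.fiber F', w.ord f * c w := by
    intro f hf
    set p : Place K F' → ℕ := fun w => (w.ord f).toNat with hp
    set n : Place K F' → ℕ := fun w => (-(w.ord f)).toNat with hn
    have hpn : ∀ w : Place K F', w.ord f = (p w : ℤ) - (n w : ℤ) := by
      intro w
      simp only [hp, hn]
      omega
    have hcong := ord_norm_congr hF v (g := f * ∏ w ∈ v.fiber F', ϖ w ^ n w)
      (h := ∏ w ∈ v.fiber F', ϖ w ^ p w) (mul_ne_zero hf (hpne n)) (hpne p) (by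
        intro w' hw'
        rw [w'.ord_mul hf (hpne n), hprod n w' hw', hprod p w' hw', hpn w']
        ring)
    rw [map_mul, v.ord_mul (Algebra.norm_ne_zero_iff.mpr hf)
      (Algebra.norm_ne_zero_iff.mpr (hpne n)), hnorm, hnorm] at hcong
    have : ∑ w ∈ v.fiber F', w.ord f * c w
        = ∑ w ∈ v.fiber F', (p w : ℤ) * c w - ∑ w ∈ v.fiber F', (n w : ℤ) * c w := by
      rw [← Finset.sum_sub_distrib]
      refine Finset.sum_congr rfl fun w _ => ?_
      rw [hpn w]; ring
    rw [this]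
    linarith
  -- the constants `c w` are all `1`
  obtain ⟨π, hπ0, hπ1⟩ := H117.exists_ord_eq_one v
  have hπ' : algebraMap F F' π ≠ 0 := by simpa using hπ0
  have h1 := hstar (algebraMap F F' π) hπ'
  rw [Algebra.norm_algebraMap, H117.ord_pow, hπ1, mul_one] at h1
  have h2 : ∀ w ∈ v.fiber F', w.ord (algebraMap F F' π) = (w.ramificationIndex F : ℤ) := by
    intro w hw
    rw [w.ord_restrict, Place.mem_fiber.mp hw, hπ1, mul_one]
  have h3 : ((∑ w ∈ v.fiber F', w.ramificationIndex F : ℕ) : ℤ) = (Module.finrank F F' : ℤ) := by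
    exact_mod_cast sum_ramificationIndex_eq_finrank hF v
  have hcpos : ∀ w ∈ v.fiber F', 1 ≤ c w := by
    intro w hw
    have hin : InFib v (ϖ w) := inFib_iff_ord.mpr fun w' hw' => by
      by_cases h : w' = w
      · rw [h, hϖ1]; norm_num
      · rw [hϖ2 w w' (Finset.mem_erase.mpr ⟨h, hw'⟩)]
    have := ord_norm_pos_of_ord_pos hF v (hϖ0 w) hin hw (by rw [hϖ1]; norm_num)
    exact this
  have h4 : ∑ w ∈ v.fiber F', (w.ramificationIndex F : ℤ) * (c w - 1) = 0 := by
    have : ∑ w ∈ v.fiber F', (w.ramificationIndex F : ℤ) * (c w - 1)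
        = ∑ w ∈ v.fiber F', w.ord (algebraMap F F' π) * c w
          - ∑ w ∈ v.fiber F', (w.ramificationIndex F : ℤ) := by
      rw [← Finset.sum_sub_distrib]
      refine Finset.sum_congr rfl fun w hw => ?_
      rw [h2 w hw]; ring
    rw [this, ← h1]
    push_cast at h3
    rw [h3]; ring
  have h5 := (Finset.sum_eq_zero_iff_of_nonneg (fun w hw => by
    have he : (0 : ℤ) ≤ (w.ramificationIndex F : ℤ) := Int.natCast_nonneg _
    have := hcpos w hw
    exact mul_nonneg he (by omega))).mp h4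
  have hc1 : ∀ w ∈ v.fiber F', c w = 1 := by
    intro w hw
    have h6 := h5 w hw
    have he : (0 : ℤ) < (w.ramificationIndex F : ℤ) := by
      exact_mod_cast w.ramificationIndex_pos (F := F)
    rcases mul_eq_zero.mp h6 with h7 | h7
    · omega
    · omega
  rw [hstar f hf]
  refine Finset.sum_congr rfl fun w hw => ?_
  rw [hc1 w hw, mul_one]

include hF in
/-- The Prelude's `PushforwardNormFormula`. -/
theorem pushforwardNormFormula : Divisor.PushforwardNormFormula K F F' := by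
  classical
  intro f hf D hD v
  rw [Divisor.pushforward_apply, ord_norm_eq_sum hF v hf]
  have h1 : ∀ w ∈ D.support,
      (if w.restrict F = v then D w * (w.inertiaDeg F : ℤ) else 0)
        = if w.restrict F = v then w.ord f else 0 := by
    intro w _
    rw [inertiaDeg_eq_one hF w, hD w]
    simp
  rw [Finset.sum_congr rfl h1, ← Finset.sum_filter]
  refine Finset.sum_subset ?_ ?_
  · intro w hw
    exact Place.mem_fiber.mpr (Finset.mem_filter.mp hw).2
  · intro w hw hnot
    have : w ∉ D.support := fun h => hnot (Finset.mem_filter.mpr ⟨h, Place.mem_fiber.mp hw⟩)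
    rw [Finsupp.notMem_support_iff] at this
    rw [← hD w, this]

include hF in
/-- The Prelude's `SumRamificationInertia`. -/
theorem sumRamificationInertia : SumRamificationInertia K F F' where
  sum_ramificationIndex_mul_inertiaDeg v := by
    have h := sum_ramificationIndex_eq_finrank (F' := F') hF v
    rw [← h]
    push_cast
    refine Finset.sum_congr rfl fun w _ => ?_
    rw [inertiaDeg_eq_one hF w]
    simp

include hF in
/-- The Prelude's `FundamentalIdentity`. -/
theorem fundamentalIdentity : FundamentalIdentity K F F' :=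
  haveI := sumRamificationInertia (F' := F') hF
  inferInstance

end Fermat.Agent.S29.H812

end
end
-- ===== PACK-END S29/H812/NormFormula.lean

-- ===== PACK-BEGIN S29/H812/Along.lean
section



/-!
# S29 / H812 — the Prelude's `…Along` predicates for an arbitrary `K`-algebra homomorphism between
function fields of one variable over an algebraically closed field of characteristic zero.
-/

set_option autoImplicit false

noncomputable section

open AlgebraicCurve IntermediateField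

namespace Fermat.Agent.S29.H812

open Fermat.Agent.S24

variable {K F F' : Type*} [Field K] [Field F] [Field F'] [Algebra K F] [Algebra K F']
  [IsAlgClosed K] [CharZero K]

/-- A `K`-algebra homomorphism of function fields of one variable is finite. -/
theorem finiteAlong (hF : ∃ x : F, Transcendental K x ∧ FiniteDimensional K⟮x⟯ F)
    (hF' : ∃ x : F', Transcendental K x ∧ FiniteDimensional K⟮x⟯ F') (φ : F →ₐ[K] F') :
    FiniteAlong K φ := by
  letI := algebraAlong φ
  haveI := isScalarTower_along φ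
  obtain ⟨x, hx, -⟩ := hF
  obtain ⟨x', hx', hx'fin⟩ := hF'
  have hφx : Transcendental K (algebraMap F F' x) := transcendental_algebraMap_of hx
  haveI : FiniteDimensional K⟮algebraMap F F' x⟯ F' :=
    FF.finiteDimensional_adjoin_of_transcendental hx' hφx
  exact finite_of_finite_adjoin_algebraMap (K := K) x

theorem isIntegral_of_finiteAlong {φ : F →ₐ[K] F'} (h : FiniteAlong K φ) :
    φ.toRingHom.IsIntegral := by
  letI := algebraAlong φ
  haveI : Module.Finite F F' := h
  exact (Algebra.IsIntegral.of_finite F F').isIntegral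

theorem fundamentalIdentityAlong (hF : ∃ x : F, Transcendental K x ∧ FiniteDimensional K⟮x⟯ F)
    [HasPrincipalDivisors K F'] (φ : F →ₐ[K] F') (hfin : FiniteAlong K φ)
    (hφ : φ.toRingHom.IsIntegral) : FundamentalIdentityAlong K φ hφ := by
  letI := algebraAlong φ
  haveI := isScalarTower_along φ
  haveI := isIntegral_along φ hφ
  haveI : Module.Finite F F' := hfin
  exact fundamentalIdentity (F' := F') hF

theorem normFormulaAlong (hF : ∃ x : F, Transcendental K x ∧ FiniteDimensional K⟮x⟯ F)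
    [HasPrincipalDivisors K F'] (φ : F →ₐ[K] F') (hfin : FiniteAlong K φ) :
    NormFormulaAlong K φ hfin := by
  letI := algebraAlong φ
  haveI := isScalarTower_along φ
  haveI : Module.Finite F F' := hfin
  exact pushforwardNormFormula (F' := F') hF

end Fermat.Agent.S29.H812

end
end
-- ===== PACK-END S29/H812/Along.lean

-- ===== PACK-BEGIN S29/H812/HeckeInputs.lean
section




/-!
# S29 / H812 — the Prelude Hecke operator on `J₀(N)(ℚ̄)` is the genuine correspondence

All six inputs of `ModularCurve.HeckeInputsAlong (AlgebraicClosure ℚ) N ℓ` hold, for every `N ≠ 0`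
and every `ℓ ≠ 0` (prime or not, dividing `N` or not); consequently
`heckeOperatorAlong = heckePic0Bar …` (Prelude `heckeOperatorAlong_eq`).

Generic part (`Fermat/Agent/S29/H812/*.lean`): for a finite extension `F'/F` of function fields of
one variable over an algebraically closed field of characteristic zero,
`∑_{w | v} e(w | v) = [F' : F]` and `ord_v (N_{F'/F} f) = ∑_{w | v} ord_w f`.
-/

set_option autoImplicit false

noncomputable section

namespace Fermat.Agent.S29.H812

open ModularCurve AlgebraicCurve IntermediateField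

/-- The modular function field has a coordinate. -/
theorem exists_coord_modular (M : ℕ) [NeZero M] :
    ∃ x : ↥(modularFunctionFieldBar M), Transcendental (AlgebraicClosure ℚ) x ∧
      FiniteDimensional (AlgebraicClosure ℚ)⟮x⟯ ↥(modularFunctionFieldBar M) :=
  (Fermat.Agent.Lib.RR.H864.ff1_modularFunctionFieldBar M).exists_finite

/-- The degeneracy map `α` (inclusion) is finite. -/
theorem finiteAlong_heckeAlphaBar (N : ℕ) [NeZero N] (ℓ : ℕ) [NeZero ℓ] :
    FiniteAlong (AlgebraicClosure ℚ) (heckeAlphaBar (AlgebraicClosure ℚ) N ℓ) := by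
  haveI : NeZero (N * ℓ) := ⟨Nat.mul_ne_zero (NeZero.ne N) (NeZero.ne ℓ)⟩
  exact finiteAlong (exists_coord_modular N) (exists_coord_modular (N * ℓ)) _

/-- The degeneracy map `β` (`q ↦ q^ℓ`) is finite. -/
theorem finiteAlong_heckeBetaBar (N : ℕ) [NeZero N] (ℓ : ℕ) [NeZero ℓ] :
    FiniteAlong (AlgebraicClosure ℚ) (heckeBetaBar (AlgebraicClosure ℚ) N ℓ) := by
  haveI : NeZero (N * ℓ) := ⟨Nat.mul_ne_zero (NeZero.ne N) (NeZero.ne ℓ)⟩
  exact finiteAlong (exists_coord_modular N) (exists_coord_modular (N * ℓ)) _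

/-- `HeckeInputsAlong` for every `ℓ ≠ 0`. -/
theorem heckeInputsAlong (N : ℕ) [NeZero N] (ℓ : ℕ) [NeZero ℓ] :
    HeckeInputsAlong (AlgebraicClosure ℚ) N ℓ := by
  haveI : NeZero (N * ℓ) := ⟨Nat.mul_ne_zero (NeZero.ne N) (NeZero.ne ℓ)⟩
  haveI hP : HasPrincipalDivisors (AlgebraicClosure ℚ)
      (laurentBaseChange (AlgebraicClosure ℚ) (modularFunctionFieldFull (N * ℓ))) :=
    Fermat.Agent.Lib.RR.H864.hasPrincipalDivisors_modularFunctionFieldBar (N * ℓ)
  have hF := exists_coord_modular N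
  have hfinα := finiteAlong_heckeAlphaBar N ℓ
  have hfinβ := finiteAlong_heckeBetaBar N ℓ
  have hα : HeckeAlphaBarIntegral (AlgebraicClosure ℚ) N ℓ := isIntegral_of_finiteAlong hfinα
  have hβ : HeckeBetaBarIntegral (AlgebraicClosure ℚ) N ℓ := isIntegral_of_finiteAlong hfinβ
  exact heckeInputsAlong_intro hα hβ
    (fundamentalIdentityAlong hF (heckeBetaBar (AlgebraicClosure ℚ) N ℓ) hfinβ hβ)
    hfinα
    (normFormulaAlong hF (heckeAlphaBar (AlgebraicClosure ℚ) N ℓ) hfinα)

end Fermat.Agent.S29.H812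

end
end
-- ===== PACK-END S29/H812/HeckeInputs.lean

-- ===== PACK-BEGIN S29/HI.lean
section



/-!
# S29, layer M, piece `HI` (helper812): exact `SkeletonM` statement.
Proof in `Fermat/Agent/S29/H812/HeckeInputs.lean` (holds for every `ℓ ≠ 0`).
-/

set_option autoImplicit false

noncomputable section

namespace Fermat.Agent.S29

open ModularCurve AlgebraicCurve

variable (N : ℕ) [NeZero N]

/-- PIECE `HI`: the Prelude Hecke operator is the genuine correspondence (all six inputs hold). -/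
theorem heckeInputsAlong_bar (ℓ : ℕ) [NeZero ℓ] (_hℓ : ℓ.Prime) :
    HeckeInputsAlong (AlgebraicClosure ℚ) N ℓ :=
  H812.heckeInputsAlong N ℓ

end Fermat.Agent.S29

end
end
-- ===== PACK-END S29/HI.lean

-- ===== PACK-BEGIN S29/H395/K4Hecke.lean
section
/-
S29 / layer M / sub-layer M4b, PIECE `K4-HECKE` — helper395.

`isKum_hecke_of_normId` : the exact conclusion of `M4b.isKum_hecke` (helper822's skeleton),
from ONE external input, the `q`-expansion form of the norm identity
`H222.NormId N ℓ : (Nm_α (β y) : ℚ̄((q))) = kronNorm ℓ y` (row S37, NORM-ID / NKI).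

Everything else is proved: Hecke inputs (landed `HI`), the correspondence on Kummer classes
(landed `H455`), the transfer formula for products (`ProdChar`), the analytic Kronecker norm
(`AnalyticKron`), stability of good functions under `heckeProd` (`GoodProd`), and the comparison
of the two index conventions (landed `M4a/Fac`).
-/






set_option autoImplicit false
set_option linter.style.haveILetI false

noncomputable section

open ModularCurve AlgebraicCurve CongruenceSubgroup UpperHalfPlane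
open scoped MatrixGroups Manifold Real

namespace Fermat.Agent.S29.H395

open Fermat.Agent.S24 Fermat.Agent.S29 Fermat.Agent.S29.M4b Fermat.Agent.S37.H400

/-! ### Roots of unity bookkeeping -/

theorem zetaP_pow_self (p : ℕ) [NeZero p] : zetaP p ^ p = 1 :=
  (Complex.isPrimitiveRoot_exp p (NeZero.ne p)).pow_eq_one

theorem zetaP_pow_eq_of_natCast_eq (p : ℕ) [NeZero p] {a b : ℕ}
    (h : (a : ZMod p) = (b : ZMod p)) : zetaP p ^ a = zetaP p ^ b := by
  have hab : a ≡ b [MOD p] := (ZMod.natCast_eq_natCast_iff a b p).mp h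
  rw [← Nat.div_add_mod a p, ← Nat.div_add_mod b p, pow_add, pow_add, pow_mul, pow_mul,
    zetaP_pow_self, one_pow, one_pow, one_mul, one_mul, hab]

/-! ### The character of `heckeProd ℓ U` -/

theorem hasChar_heckeProd (N p : ℕ) [NeZero N] [NeZero p] {ℓ : ℕ} [Fact ℓ.Prime] (hℓN : ¬ ℓ ∣ N)
    {c c' : G0 N → ZMod p} (hcc' : IsTransfer N ℓ c c') {U : ℍ → ℂ} (hU : HasChar N p c U) :
    HasChar N p c' (heckeProd ℓ U) := by
  intro γ τ
  rw [heckeProd_smul hℓN (h := U) (c := fun γ => zetaP p ^ (c γ).val) hU γ τ]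
  congr 1
  rw [Finset.prod_pow_eq_pow_sum]
  apply zetaP_pow_eq_of_natCast_eq
  have h1 := hcc' γ (M4aTop_perm γ) (fun i => H201.trf hℓN γ (M4aTop_idx ℓ i))
    (fun i => M4aTop_isHeckeFactor_trf hℓN γ i)
  rw [ZMod.natCast_zmod_val, h1, Nat.cast_sum]
  simp only [ZMod.natCast_zmod_val]
  exact (Equiv.sum_comp (M4aTop_idx ℓ) (fun x => c (H201.trf hℓN γ x))).symm

/-! ### `q`-expansions: `InfExp` versus `HasQExp` -/

theorem infExp_of_hasQExp {f : ℍ → ℂ} {φ : LaurentSeries ℂ} (h : H708.HasQExp 1 f φ) :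
    InfExp 1 f φ := fun τ => h.hasSum τ

theorem hasQExp_of_infExp {f : ℍ → ℂ} {φ : LaurentSeries ℂ}
    (hol : MDifferentiable 𝓘(ℂ) 𝓘(ℂ) f) (h : InfExp 1 f φ) : H708.HasQExp 1 f φ :=
  H708.HasQExp.of_hasSum hol fun τ => h τ

/-- The `q`-expansion of `heckeProd ℓ G` for a good function `G`. -/
theorem qexpFun_heckeProd {N : ℕ} [NeZero N] {ℓ : ℕ} [Fact ℓ.Prime] (hℓN : ¬ ℓ ∣ N) {G : ℍ → ℂ}
    (hG : G ∈ H648.goodRing N) :
    H708.qexpFun 1 (heckeProd ℓ G) = kronNorm ℓ (H708.qexpFun 1 G) := by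
  have h1 := infExp_of_hasQExp (H882.hasQExp_of_mem_goodRing hG)
  have h2 := infExp_heckeProd (ℓ := ℓ) h1
  exact (hasQExp_of_infExp (heckeProd_mem_goodRing hℓN hG).1 h2).qexpFun_eq

/-! ### The main theorem -/

section Main

variable (N : ℕ) [NeZero N] (p : ℕ) [NeZero p]

omit [NeZero p] in
theorem heckeProd_pow_fun (ℓ : ℕ) [Fact ℓ.Prime] (U : ℍ → ℂ) :
    heckeProd ℓ (fun τ => U τ ^ p) = fun τ => heckeProd ℓ U τ ^ p := by
  have := heckeProd_pow (p := ℓ) U p
  exact this

/-- **PIECE `K4-HECKE`**, from the norm identity `NormId N ℓ`. -/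
theorem isKum_hecke_of_normId (ℓ : Nat.Primes) (hℓ : ¬ (ℓ : ℕ) ∣ N * p)
    (hnorm : haveI : NeZero (ℓ : ℕ) := ⟨ℓ.2.ne_zero⟩; H222.NormId N (ℓ : ℕ))
    {c c' : G0 N → ZMod p} (hcc' : IsTransfer N (ℓ : ℕ) c c')
    {x : JZero N} (h : IsKum N p c x) : IsKum N p c' (heckeOperatorBar N ℓ x) := by
  haveI : NeZero (ℓ : ℕ) := ⟨ℓ.2.ne_zero⟩
  haveI : Fact (ℓ : ℕ).Prime := ⟨ℓ.2⟩
  have hℓN : ¬ (ℓ : ℕ) ∣ N := fun h' => hℓ (Dvd.dvd.mul_right h' p)
  obtain ⟨f, t, U, ht, hx, hU, hR⟩ := h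
  obtain ⟨hα, hβ, hP, hfin, hFI, hN⟩ := heckeInputsAlong_bar N (ℓ : ℕ) ℓ.2
  haveI := hP
  -- the new data
  set α := heckeAlphaBar (AlgebraicClosure ℚ) N (ℓ : ℕ) with hαdef
  set β := heckeBetaBar (AlgebraicClosure ℚ) N (ℓ : ℕ) with hβdef
  have hT : heckeOperatorBar N ℓ x = Pic0.correspondence β α hβ hα hFI hfin hN x := by
    rw [heckeOperatorBar_apply, heckeOperatorAlong_eq hα hβ hFI hfin hN]
    rfl
  have hx' := hx.correspondence β α hβ hα hFI hfin hN
  rw [← hT] at hx'
  have ht' : H455.normAlong α (β t) ≠ 0 :=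
    H455.normAlong_ne_zero α hfin ((map_ne_zero β).mpr ht)
  have hmul : H455.normAlong α (β f) * H455.normAlong α (β t) ^ p
      = H222.heckeNorm N (ℓ : ℕ) (f * t ^ p) := by
    rw [← H455.normAlong_pow, ← H455.normAlong_mul, ← map_pow, ← map_mul]
    rfl
  -- the analytic side
  have hgood : (fun τ => heckeProd (ℓ : ℕ) U τ ^ p) ∈ H648.goodRing N := by
    rw [← heckeProd_pow_fun]
    exact heckeProd_mem_goodRing hℓN hR.1
  have hq : H708.qexpFun 1 (fun τ => heckeProd (ℓ : ℕ) U τ ^ p)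
      = coeffMap Deg457.iotaC
          ((((H455.normAlong α (β f) * H455.normAlong α (β t) ^ p : FF N)) : FF N) :
            LaurentSeries Kbar) := by
    rw [← heckeProd_pow_fun, qexpFun_heckeProd hℓN hR.1, hR.2, ← coeffMap_kronNorm, hmul]
    exact congrArg _ (hnorm (f * t ^ p)).symm
  have hne : (H455.normAlong α (β f) * H455.normAlong α (β t) ^ p : FF N) ≠ 0 :=
    mul_ne_zero hx'.ne_zero (pow_ne_zero _ ht')
  refine ⟨H455.normAlong α (β f), H455.normAlong α (β t), heckeProd (ℓ : ℕ) U, ht', hx',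
    ⟨mdiff_heckeProd hU.mdiff, ?_, hasChar_heckeProd N p hℓN hcc' hU.hasChar, hgood⟩,
    ⟨hgood, hq⟩⟩
  -- non-vanishing
  by_contra hzero
  push Not at hzero
  have hp0 : p ≠ 0 := NeZero.ne p
  have h0 : (fun τ => heckeProd (ℓ : ℕ) U τ ^ p) = 0 := by
    funext τ
    rw [hzero τ]
    simp [hp0]
  have h1 := (H882.hasQExp_of_mem_goodRing hgood)
  have h2 : H708.qexpFun 1 (fun τ => heckeProd (ℓ : ℕ) U τ ^ p) = 0 :=
    h1.eq_zero_iff.mpr h0
  rw [hq] at h2
  have hinj : Function.Injective (coeffMap Deg457.iotaC) :=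
    inf_coeffMap_injective Deg457.iotaC.injective
  have h3 : (((H455.normAlong α (β f) * H455.normAlong α (β t) ^ p : FF N)) :
      LaurentSeries Kbar) = 0 := hinj (by rw [h2, map_zero])
  exact hne (by exact_mod_cast h3)

end Main

end Fermat.Agent.S29.H395

end

end
-- ===== PACK-END S29/H395/K4Hecke.lean

-- ===== PACK-BEGIN S37/H819/Gamma.lean
section


/-!
# S37 / NORM (helper819) — matrix lemmas for the cosets of `Γ₀(Nℓ)` in `Γ₀(N)`

For a prime `ℓ ∤ N` and `h ∈ Γ₀(N)`: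
* either `ℓ ∣ h₁₀` (then `h ∈ Γ₀(Nℓ)`), or there is `b` with `ℓ ∣ h₁₁ - b h₁₀`;
* in the second case `diag(dℓ,1)·h = γ'·[[d, d b],[0, ℓ]]` for every `d ∣ N`, i.e.
  `j(dℓ·hτ) = j(d(τ+b)/ℓ)`;
* every residue `b` occurs.
-/

set_option autoImplicit false

noncomputable section

open UpperHalfPlane
open scoped MatrixGroups

namespace Fermat.Agent.S37.H819

open Fermat.Agent.S24 Fermat.Agent.S24.H997

theorem gamma0_mem_iff_dvd (N : ℕ) (g : SL(2, ℤ)) :
    g ∈ CongruenceSubgroup.Gamma0 N ↔ (N : ℤ) ∣ g 1 0 := by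
  rw [CongruenceSubgroup.Gamma0_mem, ZMod.intCast_zmod_eq_zero_iff_dvd]

/-- If `ℓ ∣ h₁₀` and `h ∈ Γ₀(N)` with `gcd(N,ℓ) = 1`, then `h ∈ Γ₀(Nℓ)`. -/
theorem mem_gamma0_mul {N ℓ : ℕ} (hcop : Nat.Coprime N ℓ) {h : SL(2, ℤ)}
    (hN : h ∈ CongruenceSubgroup.Gamma0 N) (hℓ : (ℓ : ℤ) ∣ h 1 0) :
    h ∈ CongruenceSubgroup.Gamma0 (N * ℓ) := by
  rw [gamma0_mem_iff_dvd] at hN ⊢
  have hc : IsCoprime (N : ℤ) (ℓ : ℤ) := Nat.isCoprime_iff_coprime.mpr hcop
  push_cast
  exact hc.mul_dvd hN hℓ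

/-- For `ℓ` prime, either `ℓ ∣ h₁₀` or `h₁₁ ≡ b h₁₀ mod ℓ` for some `b`. -/
theorem dvd_or_exists_b {ℓ : ℕ} (hℓ : ℓ.Prime) (h : SL(2, ℤ)) :
    (ℓ : ℤ) ∣ h 1 0 ∨ ∃ b : ℤ, (ℓ : ℤ) ∣ h 1 1 - b * h 1 0 := by
  by_cases hd : (ℓ : ℤ) ∣ h 1 0
  · exact Or.inl hd
  · right
    have hp : Prime (ℓ : ℤ) := Nat.prime_iff_prime_int.mp hℓ
    have hc : IsCoprime (ℓ : ℤ) (h 1 0) := (Prime.coprime_iff_not_dvd hp).mpr hd
    obtain ⟨s, t, hst⟩ := hc
    refine ⟨h 1 1 * t, ⟨h 1 1 * s, ?_⟩⟩
    linear_combination (-(h 1 1)) * hst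

/-- `ℓ ∣ h₁₁ - b h₁₀` excludes `ℓ ∣ h₁₀`. -/
theorem not_dvd_of_twist {ℓ : ℕ} (hℓ : ℓ.Prime) {h : SL(2, ℤ)} {b : ℤ}
    (hb : (ℓ : ℤ) ∣ h 1 1 - b * h 1 0) : ¬ (ℓ : ℤ) ∣ h 1 0 := by
  intro hd
  have h11 : (ℓ : ℤ) ∣ h 1 1 := by
    have := dvd_add hb (Dvd.dvd.mul_left hd b)
    simpa using this
  have hdet := inf_sl_det h
  have h1 : (ℓ : ℤ) ∣ 1 := by
    rw [← hdet]
    exact dvd_sub (Dvd.dvd.mul_left h11 _) (Dvd.dvd.mul_left hd _)
  have hp : Prime (ℓ : ℤ) := Nat.prime_iff_prime_int.mp hℓ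
  exact hp.not_dvd_one h1

/-- The Hermite normal form `diag(dℓ,1)·h = γ'·[[d, d b],[0, ℓ]]`. -/
theorem exists_hnf_twist (d ℓ : ℕ) (b : ℤ) (h : SL(2, ℤ)) (hd : (d : ℤ) ∣ h 1 0)
    (hb : (ℓ : ℤ) ∣ h 1 1 - b * h 1 0) :
    ∃ γ' : SL(2, ℤ), ((d * ℓ : ℕ) : ℤ) * h 0 0 = γ' 0 0 * (d : ℕ) ∧
      ((d * ℓ : ℕ) : ℤ) * h 0 1 = γ' 0 0 * ((d : ℤ) * b) + γ' 0 1 * (ℓ : ℕ) ∧
      h 1 0 = γ' 1 0 * (d : ℕ) ∧ h 1 1 = γ' 1 0 * ((d : ℤ) * b) + γ' 1 1 * (ℓ : ℕ) := by
  obtain ⟨c, hc⟩ := hd
  obtain ⟨e, he⟩ := hb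
  have hdet := inf_sl_det h
  refine ⟨⟨!![(ℓ : ℤ) * h 0 0, (d : ℤ) * h 0 1 - (d : ℤ) * b * h 0 0; c, e], ?_⟩, ?_, ?_, ?_, ?_⟩
  · rw [Matrix.det_fin_two_of]
    have h11 : h 1 1 = (ℓ : ℤ) * e + b * h 1 0 := by linarith
    rw [h11, hc] at hdet
    linear_combination hdet
  · simp; ring
  · simp; ring
  · simp [hc]; ring
  · simp
    have h11 : h 1 1 = (ℓ : ℤ) * e + b * h 1 0 := by linarith
    rw [h11, hc]; ring

/-- Every residue class `b` is realised by some `h ∈ Γ₀(N)`. -/
theorem exists_rep {N ℓ : ℕ} (hcop : Nat.Coprime N ℓ) (b : ℤ) :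
    ∃ h : SL(2, ℤ), h ∈ CongruenceSubgroup.Gamma0 N ∧ (ℓ : ℤ) ∣ h 1 1 - b * h 1 0 := by
  have hc : IsCoprime (b * N + ℓ : ℤ) (N : ℤ) := by
    have h0 : IsCoprime (ℓ : ℤ) (N : ℤ) := (Nat.isCoprime_iff_coprime.mpr hcop).symm
    have := h0.add_mul_right_left b
    simpa [add_comm] using this
  obtain ⟨s, t, hst⟩ := hc
  have hdet : (!![s, -t; (N : ℤ), b * N + ℓ] : Matrix (Fin 2) (Fin 2) ℤ).det = 1 := by
    rw [Matrix.det_fin_two_of]
    linear_combination hst
  let g : SL(2, ℤ) := ⟨!![s, -t; (N : ℤ), b * N + ℓ], hdet⟩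
  have g10 : g 1 0 = (N : ℤ) := by simp [g]
  have g11 : g 1 1 = b * N + ℓ := by simp [g]
  refine ⟨g, ?_, ?_⟩
  · rw [gamma0_mem_iff_dvd, g10]
  · rw [g10, g11]
    exact ⟨1, by ring⟩

end Fermat.Agent.S37.H819

end
end
-- ===== PACK-END S37/H819/Gamma.lean

-- ===== PACK-BEGIN S37/H819/Emb.lean
section




/-!
# S37 / NORM (helper819) — the embeddings `σ_g` of `ℚ̄(X₀(Nℓ))` for `g ∈ Γ₀(N)`

`M = N ℓ`, `σ_g := sigmaG (holBase M) qexp g : FF M →+* ℂ((z))`, `z = q^{1/M}`
(S24, helper997).  For `h ∈ Γ₀(N)`: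
* `σ_{h⁻¹} ∘ α = Φ_M` on `FF N`                                  (`sig_alpha`)
* `σ_{h⁻¹} ∘ β = (y ↦ y(ζ^b q^{1/ℓ}))` if `ℓ ∣ h₁₁ - b h₁₀`       (`sig_beta`)
* `σ_1 = Φ_M`                                                      (`sig_one`)
where `α, β : FF N → FF M` are the Prelude degeneracy maps `heckeAlphaBar`, `heckeBetaBar`.
-/

set_option autoImplicit false

noncomputable section

open ModularCurve HahnSeries UpperHalfPlane AlgebraicCurve
open scoped MatrixGroups

namespace Fermat.Agent.S37.H819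

open Fermat.Agent.S24 Fermat.Agent.S24.H997

/-! ### Formal lemmas on `infTwist`, `qExpand`, `coeffMap` -/

section Formal

variable {R : Type*} [CommRing R]

theorem infTwist_qExpand (u : Rˣ) (d : ℕ) [NeZero d] (x : LaurentSeries R) :
    infTwist u (qExpand R d x) = qExpand R d (infTwist (u ^ d) x) := by
  ext k
  rw [infTwist_coeff]
  by_cases hk : (d : ℤ) ∣ k
  · obtain ⟨m, rfl⟩ := hk
    rw [qExpand_coeff_mul, qExpand_coeff_mul, infTwist_coeff]
    congr 2
    rw [zpow_mul, zpow_natCast]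
  · rw [qExpand_coeff_of_not_dvd d _ hk, qExpand_coeff_of_not_dvd d _ hk, zero_mul]

theorem coeffMap_infTwist {S : Type*} [CommRing S] (f : R →+* S) (u : Rˣ)
    (x : LaurentSeries R) :
    coeffMap f (infTwist u x) = infTwist (Units.map (f : R →* S) u) (coeffMap f x) := by
  ext k
  rw [coeffMap_coeff, infTwist_coeff, infTwist_coeff, coeffMap_coeff, map_mul]
  congr 1
  rw [← map_zpow]
  rfl

theorem coeffMap_C' {S : Type*} [CommRing S] (f : R →+* S) (r : R) :
    coeffMap f (HahnSeries.C r) = HahnSeries.C (f r) := by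
  rw [C_apply, coeffMap_single, C_apply]

end Formal

theorem coeffMap_ιK_coeffEmb (s : LaurentSeries ℚ) :
    coeffMap ιK (coeffEmb Kbar s) = coeffEmb ℂ s := by
  rw [coeffEmb, coeffMap_coeffMap, coeffEmb]
  refine coeffMap_congr (RingHom.ext fun c => ?_) s
  rw [RingHom.comp_apply, ιK_algebraMap]
  simp

theorem infRoot_pow (b : ℤ) (n d : ℕ) : (infRoot b n) ^ d = infRoot ((d : ℤ) * b) n := by
  apply Units.ext
  rw [Units.val_pow_eq_pow_val, infRoot_coe, infRoot_coe, ← Complex.exp_nat_mul]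
  congr 1
  push_cast
  ring

/-- the expansion of `j(d(τ+b)/ℓ)` is `j_d(ζ^b q^{1/ℓ})`, in the variable `z = q^{1/(Nℓ)}` -/
theorem infGenExp_eq_twist (N ℓ d : ℕ) [NeZero N] [NeZero d] (b : ℤ) :
    haveI : NeZero (d * N) := ⟨Nat.mul_ne_zero (NeZero.ne d) (NeZero.ne N)⟩
    infGenExp (d * N) ((d : ℤ) * b) ℓ
      = qExpand ℂ N (infTwist (infRoot b ℓ) (coeffMap ιK (coeffEmb Kbar (qExpand ℚ d jq)))) := by
  have : NeZero (d * N) := ⟨Nat.mul_ne_zero (NeZero.ne d) (NeZero.ne N)⟩
  rw [coeffMap_ιK_coeffEmb, coeffEmb, coeffMap_qExpand, infTwist_qExpand, qExpand_qExpand,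
    infRoot_pow, infGenExp]
  have : coeffMap (algebraMap ℚ ℂ) jq = infJq := rfl
  rw [this]
  exact qExpand_congr (Nat.mul_comm d N) _

variable (N ℓ : ℕ) [NeZero N] [NeZero ℓ]

/-- the embedding `σ_g` at level `N ℓ` -/
def sig (g : SL(2, ℤ)) : FF (N * ℓ) →+* LaurentSeries ℂ :=
  (holBase (N * ℓ)).sigmaG (holBase (N * ℓ)).qexpExpansion g

theorem sig_inclRN (g : SL(2, ℤ)) (r : RN (N * ℓ)) :
    sig N ℓ g (inclRN (N * ℓ) r)
      = (holBase (N * ℓ)).qexp ((holBase (N * ℓ)).compH g⁻¹ ((holBase (N * ℓ)).bridge r)) :=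
  (holBase (N * ℓ)).sigmaG_inclRN _ g r

theorem sig_algebraMap (g : SL(2, ℤ)) (c : Kbar) :
    sig N ℓ g (algebraMap Kbar (FF (N * ℓ)) c) = HahnSeries.C (ιK c) :=
  (holBase (N * ℓ)).sigmaG_algebraMap _ g c

/-- the value of `qexp` from a convergent expansion -/
theorem qexp_eq_of_infExp {M : ℕ} [NeZero M] (h : (holBase M).Hol) {φ : LaurentSeries ℂ}
    (hφ : InfExp M (h : ℍ → ℂ) φ) : (holBase M).qexp h = φ :=
  (expInf_spec (holToExp M h)).unique hφ

/-- `σ_1` is the formal comparison map `Φ_M`. -/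
theorem sig_one (x : FF (N * ℓ)) :
    sig N ℓ 1 x = HolBase.Φ (N * ℓ) (x : LaurentSeries Kbar) := by
  obtain ⟨r, t, -, rfl⟩ := exists_div_inclRN (N * ℓ) x
  rw [map_div₀, sig_inclRN, sig_inclRN, inv_one, HolBase.compH_one, HolBase.compH_one,
    HolBase.qexp_bridge, HolBase.qexp_bridge]
  rw [IntermediateField.coe_div, map_div₀]
  rfl

/-- Two ring homs out of `FF N` into a field agree if they agree on constants and on the
generators `j(q^d)`, `d ∣ N`. -/
theorem ringHom_ext_FF {E : Type*} [Field E] (f g : FF N →+* E)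
    (hc : ∀ c : Kbar, f (algebraMap Kbar (FF N) c) = g (algebraMap Kbar (FF N) c))
    (hgen : ∀ (d : ℕ) [NeZero d] (hd : d ∣ N),
      f (inclRN N (jR N d hd)) = g (inclRN N (jR N d hd))) : f = g := by
  let f' : RN N →+* E := f.comp (inclRN N).toRingHom
  let g' : RN N →+* E := g.comp (inclRN N).toRingHom
  have key' : ∀ r : RN N, f' r = g' r := by
    rintro ⟨r, hr⟩
    induction hr using Algebra.adjoin_induction with
    | mem x hx =>
        obtain ⟨y, ⟨d, hne, hd, rfl⟩, rfl⟩ := hx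
        have : (⟨coeffEmb Kbar (qExpand ℚ d jq), Algebra.subset_adjoin
            ⟨_, ⟨d, hne, hd, rfl⟩, rfl⟩⟩ : RN N) = jR N d hd := rfl
        rw [this]
        exact hgen d hd
    | algebraMap c =>
        have : (⟨algebraMap Kbar (LaurentSeries Kbar) c, Subalgebra.algebraMap_mem _ c⟩ : RN N)
            = algebraMap Kbar (RN N) c := rfl
        rw [this]
        show f (inclRN N (algebraMap Kbar (RN N) c)) = g (inclRN N (algebraMap Kbar (RN N) c))
        have e : inclRN N (algebraMap Kbar (RN N) c) = algebraMap Kbar (FF N) c := rfl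
        rw [e]
        exact hc c
    | add x y hx hy ihx ihy =>
        have : (⟨x + y, add_mem hx hy⟩ : RN N) = ⟨x, hx⟩ + ⟨y, hy⟩ := rfl
        rw [this, map_add, map_add, ihx, ihy]
    | mul x y hx hy ihx ihy =>
        have : (⟨x * y, mul_mem hx hy⟩ : RN N) = ⟨x, hx⟩ * ⟨y, hy⟩ := rfl
        rw [this, map_mul, map_mul, ihx, ihy]
  have key : ∀ r : RN N, f (inclRN N r) = g (inclRN N r) := key'
  ext x
  obtain ⟨r, t, -, rfl⟩ := exists_div_inclRN N x
  rw [map_div₀, map_div₀, key, key]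

/-- the coercion `FF N → ℚ̄((q))` as a ring hom -/
def coeHom : FF N →+* LaurentSeries Kbar where
  toFun x := (x : LaurentSeries Kbar)
  map_one' := rfl
  map_mul' _ _ := rfl
  map_zero' := rfl
  map_add' _ _ := rfl

@[simp] theorem coeHom_apply (x : FF N) : coeHom N x = (x : LaurentSeries Kbar) := rfl

theorem coe_inclRN_jR (d : ℕ) [NeZero d] (hd : d ∣ N) :
    ((inclRN N (jR N d hd) : FF N) : LaurentSeries Kbar) = coeffEmb Kbar (qExpand ℚ d jq) := rfl

theorem coe_algebraMap_FF (c : Kbar) :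
    ((algebraMap Kbar (FF N) c : FF N) : LaurentSeries Kbar)
      = algebraMap Kbar (LaurentSeries Kbar) c := rfl

theorem alpha_inclRN_jR (d : ℕ) [NeZero d] (hd : d ∣ N) (hd' : d ∣ N * ℓ) :
    heckeAlphaBar Kbar N ℓ (inclRN N (jR N d hd)) = inclRN (N * ℓ) (jR (N * ℓ) d hd') := by
  apply Subtype.ext
  rw [coe_heckeAlphaBar, coe_inclRN_jR, coe_inclRN_jR]

theorem beta_inclRN_jR (d : ℕ) [NeZero d] (hd : d ∣ N) [NeZero (d * ℓ)]
    (hdℓ : d * ℓ ∣ N * ℓ) :
    heckeBetaBar Kbar N ℓ (inclRN N (jR N d hd)) = inclRN (N * ℓ) (jR (N * ℓ) (d * ℓ) hdℓ) := by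
  apply Subtype.ext
  rw [coe_heckeBetaBar, coe_inclRN_jR, coe_inclRN_jR, coeffEmb, ← coeffMap_qExpand,
    qExpand_qExpand]
  congr 1
  exact qExpand_congr (Nat.mul_comm ℓ d) _

theorem compH_JH_of_mem_gamma0 {h : SL(2, ℤ)} (hh : h ∈ CongruenceSubgroup.Gamma0 N)
    (d : ℕ) (hd : d ∣ N) (hd' : d ∣ N * ℓ) :
    (holBase (N * ℓ)).compH h ((holBase (N * ℓ)).JH d hd') = (holBase (N * ℓ)).JH d hd' := by
  apply Subtype.ext
  funext τ
  exact Jd_inv N d hd h hh τ

/-- For `h ∈ Γ₀(N)` the embedding `σ_{h⁻¹}` restricts to `Φ_M` on `α(FF N)`. -/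
theorem sig_alpha {h : SL(2, ℤ)} (hh : h ∈ CongruenceSubgroup.Gamma0 N) (y : FF N) :
    sig N ℓ h⁻¹ (heckeAlphaBar Kbar N ℓ y) = HolBase.Φ (N * ℓ) (y : LaurentSeries Kbar) := by
  have key := ringHom_ext_FF N ((sig N ℓ h⁻¹).comp (heckeAlphaBar Kbar N ℓ).toRingHom)
    ((HolBase.Φ (N * ℓ)).comp (coeHom N)) ?_ ?_
  · exact RingHom.congr_fun key y
  · intro c
    rw [RingHom.comp_apply, RingHom.comp_apply, coeHom_apply, coe_algebraMap_FF,
      HolBase.Φ_algebraMap]
    have e : (heckeAlphaBar Kbar N ℓ).toRingHom (algebraMap Kbar (FF N) c)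
        = algebraMap Kbar (FF (N * ℓ)) c := (heckeAlphaBar Kbar N ℓ).commutes c
    rw [e, sig_algebraMap]
  · intro d _ hd
    have hd' : d ∣ N * ℓ := Dvd.dvd.mul_right hd ℓ
    rw [RingHom.comp_apply, RingHom.comp_apply, coeHom_apply, coe_inclRN_jR]
    have e : (heckeAlphaBar Kbar N ℓ).toRingHom (inclRN N (jR N d hd))
        = inclRN (N * ℓ) (jR (N * ℓ) d hd') := alpha_inclRN_jR N ℓ d hd hd'
    rw [e, sig_inclRN, HolBase.bridge_jR, inv_inv, (holBase (N * ℓ)).Φ_gen d hd',
      compH_JH_of_mem_gamma0 N ℓ hh d hd hd']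

/-- For `h ∈ Γ₀(N)` with `h₁₁ ≡ b h₁₀ mod ℓ`, the embedding `σ_{h⁻¹}` is
`y ↦ y(ζ_ℓ^b q^{1/ℓ})` on `β(FF N)`. -/
theorem sig_beta {h : SL(2, ℤ)} (hh : h ∈ CongruenceSubgroup.Gamma0 N) {b : ℤ}
    (hb : (ℓ : ℤ) ∣ h 1 1 - b * h 1 0) (y : FF N) :
    sig N ℓ h⁻¹ (heckeBetaBar Kbar N ℓ y)
      = qExpand ℂ N (infTwist (infRoot b ℓ) (coeffMap ιK (y : LaurentSeries Kbar))) := by
  have key := ringHom_ext_FF N ((sig N ℓ h⁻¹).comp (heckeBetaBar Kbar N ℓ).toRingHom)
    (((qExpand ℂ N).comp (infTwist (infRoot b ℓ))).comp ((coeffMap ιK).comp (coeHom N))) ?_ ?_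
  · exact RingHom.congr_fun key y
  · intro c
    rw [RingHom.comp_apply, RingHom.comp_apply, RingHom.comp_apply, RingHom.comp_apply,
      coeHom_apply, coe_algebraMap_FF]
    have e : (heckeBetaBar Kbar N ℓ).toRingHom (algebraMap Kbar (FF N) c)
        = algebraMap Kbar (FF (N * ℓ)) c := (heckeBetaBar Kbar N ℓ).commutes c
    rw [e, sig_algebraMap, algebraMap_laurentSeries_eq_single, coeffMap_single,
      infTwist_single, qExpand_single]
    simp [HahnSeries.C_apply]
  · intro d _ hd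
    have hN0 : 0 < N := Nat.pos_of_ne_zero (NeZero.ne N)
    have hℓ0 : 0 < ℓ := Nat.pos_of_ne_zero (NeZero.ne ℓ)
    have hd0 : 0 < d := Nat.pos_of_dvd_of_pos hd hN0
    have hdℓ : d * ℓ ∣ N * ℓ := Nat.mul_dvd_mul_right hd ℓ
    haveI hne1 : NeZero (d * ℓ) := ⟨Nat.mul_ne_zero (NeZero.ne d) (NeZero.ne ℓ)⟩
    haveI hne2 : NeZero (d * N) := ⟨Nat.mul_ne_zero (NeZero.ne d) (NeZero.ne N)⟩
    rw [RingHom.comp_apply, RingHom.comp_apply, RingHom.comp_apply, RingHom.comp_apply,
      coeHom_apply, coe_inclRN_jR]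
    have e : (heckeBetaBar Kbar N ℓ).toRingHom (inclRN N (jR N d hd))
        = inclRN (N * ℓ) (jR (N * ℓ) (d * ℓ) hdℓ) := beta_inclRN_jR N ℓ d hd hdℓ
    rw [e, sig_inclRN, HolBase.bridge_jR, inv_inv, ← infGenExp_eq_twist N ℓ d b]
    have hdvd : ((d : ℕ) : ℤ) ∣ h 1 0 := by
      rw [gamma0_mem_iff_dvd] at hh
      exact dvd_trans (by exact_mod_cast hd) hh
    obtain ⟨γ', h00, h01, h10, h11⟩ := exists_hnf_twist d ℓ b h hdvd hb
    have hexp : InfExp (N * ℓ) (fun τ => Fermat.Agent.S20.L1.jFun (infAff d ((d : ℤ) * b) ℓ τ))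
        (infGenExp (d * N) ((d : ℤ) * b) ℓ) :=
      inf_J_infAff_exp infExp_jFun (e := d * N) (N := N * ℓ) ((d : ℤ) * b) hd0 hℓ0
        (Nat.mul_pos hN0 hℓ0) (by ring)
    refine qexp_eq_of_infExp _ (hexp.congr fun τ => ?_)
    have hJ : (((holBase (N * ℓ)).compH h ((holBase (N * ℓ)).JH (d * ℓ) hdℓ) :
        (holBase (N * ℓ)).Hol) : ℍ → ℂ) τ = Jd (d * ℓ) (h • τ) := rfl
    rw [hJ]
    unfold Jd
    rw [inf_aff_smul_eq (Nat.mul_pos hd0 hℓ0) hd0 hℓ0 h γ' h00 h01 h10 h11 τ, jFun_smul']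

end Fermat.Agent.S37.H819

end
end
-- ===== PACK-END S37/H819/Emb.lean

-- ===== PACK-BEGIN S37/H819/Enum.lean
section


/-!
# S37 / NORM (helper819) — enumeration of the `FF N`-embeddings of `FF (N ℓ)` and the norm
-/

set_option autoImplicit false

noncomputable section

open ModularCurve HahnSeries UpperHalfPlane AlgebraicCurve
open scoped MatrixGroups

namespace Fermat.Agent.S37.H819

open Fermat.Agent.S24 Fermat.Agent.S24.H997

variable (N ℓ : ℕ) [NeZero N] [NeZero ℓ]

/-- `α (j) = j` -/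
theorem alpha_jF : heckeAlphaBar Kbar N ℓ (jF N) = jF (N * ℓ) := by
  apply Subtype.ext
  rw [coe_heckeAlphaBar]
  rfl

/-- every element of `ℚ̄(j) ⊆ FF (N ℓ)` lies in the image of `α` -/
theorem exists_alpha_eq_of_mem_adjoin {c : FF (N * ℓ)}
    (hc : c ∈ IntermediateField.adjoin Kbar {jF (N * ℓ)}) :
    ∃ c' : FF N, heckeAlphaBar Kbar N ℓ c' = c := by
  induction hc using IntermediateField.adjoin_induction with
  | mem z hz =>
      rw [Set.mem_singleton_iff] at hz
      subst hz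
      exact ⟨jF N, alpha_jF N ℓ⟩
  | algebraMap a => exact ⟨algebraMap Kbar (FF N) a, (heckeAlphaBar Kbar N ℓ).commutes a⟩
  | add z w _ _ hz hw =>
      obtain ⟨z', rfl⟩ := hz
      obtain ⟨w', rfl⟩ := hw
      exact ⟨z' + w', map_add _ _ _⟩
  | inv z _ hz =>
      obtain ⟨z', rfl⟩ := hz
      exact ⟨z'⁻¹, map_inv₀ _ _⟩
  | mul z w _ _ hz hw =>
      obtain ⟨z', rfl⟩ := hz
      obtain ⟨w', rfl⟩ := hw
      exact ⟨z' * w', map_mul _ _ _⟩

/-- `FF (N ℓ)` is finite over `FF N` (along `α`). -/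
theorem finite_alpha :
    letI := algebraAlong (heckeAlphaBar Kbar N ℓ)
    Module.Finite (FF N) (FF (N * ℓ)) := by
  letI := algebraAlong (heckeAlphaBar Kbar N ℓ)
  haveI hfd := (Deg457.degree_fields (N * ℓ)).1
  obtain ⟨s, hs⟩ := (Module.Finite.fg_top :
    (⊤ : Submodule ↥(IntermediateField.adjoin Kbar {jF (N * ℓ)}) (FF (N * ℓ))).FG)
  refine ⟨⟨s, ?_⟩⟩
  rw [eq_top_iff]
  intro x hxt
  have hx : x ∈ Submodule.span ↥(IntermediateField.adjoin Kbar {jF (N * ℓ)})
      (s : Set (FF (N * ℓ))) := by rw [hs]; trivial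
  revert hxt
  induction hx using Submodule.span_induction with
  | mem y hy => exact fun _ => Submodule.subset_span hy
  | zero => exact fun _ => zero_mem _
  | add y z _ _ hy hz => exact fun _ => add_mem (hy trivial) (hz trivial)
  | smul c y _ hy =>
      obtain ⟨c', hc'⟩ := exists_alpha_eq_of_mem_adjoin N ℓ c.2
      have e : c • y = c' • y := by
        show (c : FF (N * ℓ)) * y = heckeAlphaBar Kbar N ℓ c' * y
        rw [hc']
      rw [e]
      exact fun _ => Submodule.smul_mem _ c' (hy trivial)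

/-! ### The target field and the algebra structures -/

/-- An algebraic closure of `ℂ((z))` (type synonym carrying `N`, `ℓ`). -/
def Om (_N _ℓ : ℕ) : Type := AlgebraicClosure (LaurentSeries ℂ)

instance : Field (Om N ℓ) := inferInstanceAs (Field (AlgebraicClosure (LaurentSeries ℂ)))

instance : IsAlgClosed (Om N ℓ) :=
  inferInstanceAs (IsAlgClosed (AlgebraicClosure (LaurentSeries ℂ)))

/-- the inclusion `ℂ((z)) → Ω` -/
def incOm : LaurentSeries ℂ →+* Om N ℓ :=
  algebraMap (LaurentSeries ℂ) (AlgebraicClosure (LaurentSeries ℂ))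

theorem incOm_injective : Function.Injective (incOm N ℓ) :=
  (algebraMap (LaurentSeries ℂ) (AlgebraicClosure (LaurentSeries ℂ))).injective

/-- `FF (N ℓ)` as an `FF N`-algebra along `α` (the Prelude's `algebraAlong`) -/
local instance instAlgAlpha : Algebra (FF N) (FF (N * ℓ)) :=
  algebraAlong (heckeAlphaBar Kbar N ℓ)

/-- `Ω` as an `FF N`-algebra through `σ₁ ∘ α` -/
local instance instAlgOm : Algebra (FF N) (Om N ℓ) :=
  (((incOm N ℓ).comp (sig N ℓ 1)).comp (heckeAlphaBar Kbar N ℓ).toRingHom).toAlgebra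

theorem algebraMap_alpha (y : FF N) :
    algebraMap (FF N) (FF (N * ℓ)) y = heckeAlphaBar Kbar N ℓ y := rfl

theorem algebraMap_Om (y : FF N) :
    algebraMap (FF N) (Om N ℓ) y = incOm N ℓ (sig N ℓ 1 (heckeAlphaBar Kbar N ℓ y)) := rfl

local instance instFiniteAlpha : Module.Finite (FF N) (FF (N * ℓ)) := finite_alpha N ℓ

example : Algebra.IsSeparable (FF N) (FF (N * ℓ)) := inferInstance

/-- the `FF N`-embedding `σ_{h⁻¹}` for `h ∈ Γ₀(N)` -/
def embOf (h : SL(2, ℤ)) (hh : h ∈ CongruenceSubgroup.Gamma0 N) :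
    FF (N * ℓ) →ₐ[FF N] Om N ℓ :=
  { (incOm N ℓ).comp (sig N ℓ h⁻¹) with
    commutes' := fun y => by
      show incOm N ℓ (sig N ℓ h⁻¹ (heckeAlphaBar Kbar N ℓ y))
        = incOm N ℓ (sig N ℓ 1 (heckeAlphaBar Kbar N ℓ y))
      rw [sig_alpha N ℓ hh, sig_one, coe_heckeAlphaBar] }

theorem embOf_apply (h : SL(2, ℤ)) (hh : h ∈ CongruenceSubgroup.Gamma0 N) (x : FF (N * ℓ)) :
    embOf N ℓ h hh x = incOm N ℓ (sig N ℓ h⁻¹ x) := rfl

/-! ### Every `FF N`-embedding is some `σ_g` -/

/-- all the `σ_g` agree with `σ₁` on `ℚ̄(j)` -/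
theorem sig_eq_on_adjoin (g : SL(2, ℤ)) {f : FF (N * ℓ)}
    (hf : f ∈ IntermediateField.adjoin Kbar {jF (N * ℓ)}) : sig N ℓ g f = sig N ℓ 1 f := by
  induction hf using IntermediateField.adjoin_induction with
  | mem z hz =>
      rw [Set.mem_singleton_iff] at hz
      subst hz
      unfold sig
      rw [HolBase.sigmaG_jF, HolBase.sigmaG_jF]
  | algebraMap c => rw [sig_algebraMap, sig_algebraMap]
  | add z w _ _ hz hw => rw [map_add, map_add, hz, hw]
  | inv z _ hz => rw [map_inv₀, map_inv₀, hz]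
  | mul z w _ _ hz hw => rw [map_mul, map_mul, hz, hw]

/-- `ℚ̄(j)` inside `FF (N ℓ)` -/
abbrev Kj : Type := ↥(IntermediateField.adjoin Kbar {jF (N * ℓ)})

/-- `Ω` as a `ℚ̄(j)`-algebra through `σ₁` -/
local instance instAlgKjOm : Algebra (Kj N ℓ) (Om N ℓ) :=
  (((incOm N ℓ).comp (sig N ℓ 1)).comp (algebraMap (Kj N ℓ) (FF (N * ℓ)))).toAlgebra

/-- the `ℚ̄(j)`-embedding attached to a coset -/
def embK (x : XX (N * ℓ)) : FF (N * ℓ) →ₐ[Kj N ℓ] Om N ℓ :=
  { (incOm N ℓ).comp ((holBase (N * ℓ)).sigmaX (holBase (N * ℓ)).qexpExpansion x) with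
    commutes' := fun c => by
      show incOm N ℓ (sig N ℓ (Quotient.out x) (c : FF (N * ℓ)))
        = incOm N ℓ (sig N ℓ 1 (c : FF (N * ℓ)))
      rw [sig_eq_on_adjoin N ℓ _ c.2] }

theorem embK_apply (x : XX (N * ℓ)) (f : FF (N * ℓ)) :
    embK N ℓ x f = incOm N ℓ ((holBase (N * ℓ)).sigmaX (holBase (N * ℓ)).qexpExpansion x f) :=
  rfl

theorem embK_injective : Function.Injective (embK N ℓ) := by
  intro x y hxy
  apply (holBase (N * ℓ)).sigmaX_injective (holBase (N * ℓ)).qexpExpansion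
  refine RingHom.ext fun f => ?_
  apply incOm_injective N ℓ
  have := congrArg (fun φ : FF (N * ℓ) →ₐ[Kj N ℓ] Om N ℓ => φ f) hxy
  simpa only [embK_apply] using this

theorem embK_bijective : Function.Bijective (embK N ℓ) := by
  haveI hfd := (Deg457.degree_fields (N * ℓ)).1
  haveI : Module.Finite (Kj N ℓ) (FF (N * ℓ)) := hfd
  haveI : Module.Free (Kj N ℓ) (FF (N * ℓ)) := Module.Free.of_divisionRing _ _
  haveI : Finite (FF (N * ℓ) →ₐ[Kj N ℓ] Om N ℓ) := Finite.algHom _ _ _
  refine (embK_injective N ℓ).bijective_of_nat_card_le ?_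
  calc Nat.card (FF (N * ℓ) →ₐ[Kj N ℓ] Om N ℓ)
      ≤ Module.finrank (Kj N ℓ) (FF (N * ℓ)) := card_algHom_le_finrank _ _ _
    _ ≤ Nat.card (XX (N * ℓ)) := (Deg457.degree_fields (N * ℓ)).2

/-- an `FF N`-embedding agrees with `σ₁` on `ℚ̄(j)` -/
theorem algHom_eq_on_adjoin (τ : FF (N * ℓ) →ₐ[FF N] Om N ℓ) {f : FF (N * ℓ)}
    (hf : f ∈ IntermediateField.adjoin Kbar {jF (N * ℓ)}) :
    τ f = incOm N ℓ (sig N ℓ 1 f) := by
  obtain ⟨c', rfl⟩ := exists_alpha_eq_of_mem_adjoin N ℓ hf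
  exact τ.commutes c'

/-- **Classification.** Every `FF N`-embedding of `FF (N ℓ)` into `Ω` is `σ_{h⁻¹}` for some
`h ∈ Γ₀(N)`. -/
theorem exists_embOf_eq (τ : FF (N * ℓ) →ₐ[FF N] Om N ℓ) :
    ∃ (h : SL(2, ℤ)) (hh : h ∈ CongruenceSubgroup.Gamma0 N), τ = embOf N ℓ h hh := by
  -- view `τ` as a `ℚ̄(j)`-embedding
  let τK : FF (N * ℓ) →ₐ[Kj N ℓ] Om N ℓ :=
    { τ.toRingHom with
      commutes' := fun c => algHom_eq_on_adjoin N ℓ τ c.2 }
  obtain ⟨x, hx⟩ := (embK_bijective N ℓ).2 τK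
  obtain ⟨g, rfl⟩ := QuotientGroup.mk_surjective x
  have hτ : ∀ f : FF (N * ℓ), τ f = incOm N ℓ (sig N ℓ g f) := by
    intro f
    have h1 : τK f = τ f := rfl
    rw [← h1, ← hx, embK_apply, HolBase.sigmaX_mk]
    rfl
  -- `g⁻¹ ∈ Γ₀(N)`
  have hg : g⁻¹ ∈ CongruenceSubgroup.Gamma0 N := by
    have hNN : N ∣ N * ℓ := Dvd.intro ℓ rfl
    have h2 := hτ (heckeAlphaBar Kbar N ℓ (inclRN N (jR N N dvd_rfl)))
    have h3 : τ (heckeAlphaBar Kbar N ℓ (inclRN N (jR N N dvd_rfl)))
        = incOm N ℓ (sig N ℓ 1 (heckeAlphaBar Kbar N ℓ (inclRN N (jR N N dvd_rfl)))) :=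
      τ.commutes _
    rw [h3] at h2
    have h4 := incOm_injective N ℓ h2
    rw [alpha_inclRN_jR N ℓ N dvd_rfl hNN, sig_inclRN, sig_inclRN, HolBase.bridge_jR, inv_one,
      HolBase.compH_one] at h4
    have h5 := (holBase (N * ℓ)).qexp_injective h4
    apply Jd_distinct N
    intro t
    have h6 := congrArg (fun f : (holBase (N * ℓ)).Hol => (f : ℍ → ℂ) t) h5
    exact h6.symm
  refine ⟨g⁻¹, hg, ?_⟩
  apply AlgHom.ext
  intro f
  rw [hτ f, embOf_apply, inv_inv]

/-! ### Generation of `FF (N ℓ)` by `α(FF N)` and `β(FF N)` -/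

omit [NeZero ℓ] in
theorem dvd_cases {ℓ : ℕ} (hℓ : ℓ.Prime) {N d : ℕ} (hd : d ∣ N * ℓ) :
    d ∣ N ∨ ∃ d', d' ∣ N ∧ d = d' * ℓ := by
  by_cases hℓd : ℓ ∣ d
  · right
    obtain ⟨d', rfl⟩ := hℓd
    refine ⟨d', ?_, Nat.mul_comm _ _⟩
    rw [Nat.mul_comm N ℓ] at hd
    exact Nat.dvd_of_mul_dvd_mul_left hℓ.pos hd
  · left
    have hc : Nat.Coprime d ℓ := (Nat.coprime_comm.mp ((Nat.Prime.coprime_iff_not_dvd hℓ).mpr hℓd))
    exact hc.dvd_of_dvd_mul_right hd

/-- Two ring homs out of `FF (N ℓ)` agreeing on `α(FF N)` and on `β(FF N)` are equal. -/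
theorem ringHom_ext_alpha_beta (hℓ : ℓ.Prime) {E : Type*} [Field E]
    (f g : FF (N * ℓ) →+* E)
    (hα : ∀ y : FF N, f (heckeAlphaBar Kbar N ℓ y) = g (heckeAlphaBar Kbar N ℓ y))
    (hβ : ∀ y : FF N, f (heckeBetaBar Kbar N ℓ y) = g (heckeBetaBar Kbar N ℓ y)) : f = g := by
  apply ringHom_ext_FF (N * ℓ) f g
  · intro c
    have := hα (algebraMap Kbar (FF N) c)
    rwa [AlgHom.commutes] at this
  · intro d hne hd
    rcases dvd_cases hℓ hd with hdN | ⟨d', hd', rfl⟩
    · rw [← alpha_inclRN_jR N ℓ d hdN hd]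
      exact hα _
    · haveI : NeZero d' := ⟨fun h0 => hne.out (by rw [h0, Nat.zero_mul])⟩
      rw [← beta_inclRN_jR N ℓ d' hd' hd]
      exact hβ _

/-! ### The `ℓ + 1` embeddings -/

section Reps

variable (hℓ : ℓ.Prime) (hℓN : ¬ ℓ ∣ N)

include hℓ hℓN in
theorem coprime_N_ℓ : Nat.Coprime N ℓ :=
  Nat.coprime_comm.mp ((Nat.Prime.coprime_iff_not_dvd hℓ).mpr hℓN)

/-- a representative `h_b ∈ Γ₀(N)` with `(h_b)₁₁ ≡ b (h_b)₁₀ mod ℓ` -/
def hrep (b : ℤ) : SL(2, ℤ) := Classical.choose (exists_rep (coprime_N_ℓ N ℓ hℓ hℓN) b)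

theorem hrep_mem (b : ℤ) : hrep N ℓ hℓ hℓN b ∈ CongruenceSubgroup.Gamma0 N :=
  (Classical.choose_spec (exists_rep (coprime_N_ℓ N ℓ hℓ hℓN) b)).1

theorem hrep_dvd (b : ℤ) :
    (ℓ : ℤ) ∣ (hrep N ℓ hℓ hℓN b) 1 1 - b * (hrep N ℓ hℓ hℓN b) 1 0 :=
  (Classical.choose_spec (exists_rep (coprime_N_ℓ N ℓ hℓ hℓN) b)).2

/-- the `ℓ + 1` embeddings: `none ↦ σ₁`, `some b ↦ σ_{h_b⁻¹}` -/
def embList : Option (Fin ℓ) → (FF (N * ℓ) →ₐ[FF N] Om N ℓ)
  | none => embOf N ℓ 1 (one_mem _)
  | some b => embOf N ℓ (hrep N ℓ hℓ hℓN (b : ℕ)) (hrep_mem N ℓ hℓ hℓN _)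

theorem embList_none_beta (y : FF N) :
    embList N ℓ hℓ hℓN none (heckeBetaBar Kbar N ℓ y)
      = incOm N ℓ (HolBase.Φ (N * ℓ) (qExpand Kbar ℓ (y : LaurentSeries Kbar))) := by
  show incOm N ℓ (sig N ℓ 1⁻¹ (heckeBetaBar Kbar N ℓ y)) = _
  rw [inv_one, sig_one, coe_heckeBetaBar]

theorem embList_some_beta (b : Fin ℓ) (y : FF N) :
    embList N ℓ hℓ hℓN (some b) (heckeBetaBar Kbar N ℓ y)
      = incOm N ℓ (qExpand ℂ N (infTwist (infRoot (b : ℕ) ℓ)
          (coeffMap ιK (y : LaurentSeries Kbar)))) := by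
  show incOm N ℓ (sig N ℓ (hrep N ℓ hℓ hℓN (b : ℕ))⁻¹ (heckeBetaBar Kbar N ℓ y)) = _
  rw [sig_beta N ℓ (hrep_mem N ℓ hℓ hℓN _) (hrep_dvd N ℓ hℓ hℓN _)]

/-- the test element `j ∈ FF N` -/
def jTest : FF N := inclRN N (jR N 1 (one_dvd N))

theorem coe_jTest : ((jTest N : FF N) : LaurentSeries Kbar) = coeffEmb Kbar (qExpand ℚ 1 jq) :=
  rfl

theorem phi_beta_jTest_order :
    (HolBase.Φ (N * ℓ) (qExpand Kbar ℓ ((jTest N : FF N) : LaurentSeries Kbar))).order
      = -(((N * ℓ * ℓ : ℕ)) : ℤ) := by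
  rw [coe_jTest]
  show (qExpand ℂ (N * ℓ) (coeffMap ιK (qExpand Kbar ℓ
    (coeffEmb Kbar (qExpand ℚ 1 jq))))).order = _
  rw [coeffMap_qExpand, coeffMap_ιK_coeffEmb, coeffEmb, coeffMap_qExpand, inf_qExpand_order,
    inf_qExpand_order, inf_qExpand_order]
  have : coeffMap (algebraMap ℚ ℂ) jq = infJq := rfl
  rw [this, infJq_order]
  push_cast
  ring

theorem twist_jTest_eq (b : ℤ) :
    haveI : NeZero (1 * N) := ⟨by rw [one_mul]; exact NeZero.ne N⟩
    qExpand ℂ N (infTwist (infRoot b ℓ) (coeffMap ιK ((jTest N : FF N) : LaurentSeries Kbar)))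
      = infGenExp (1 * N) (((1 : ℕ) : ℤ) * b) ℓ := by
  rw [coe_jTest]
  exact (infGenExp_eq_twist N ℓ 1 b).symm

include hℓ in
theorem embList_injective : Function.Injective (embList N ℓ hℓ hℓN) := by
  haveI : NeZero (1 * N) := ⟨by rw [one_mul]; exact NeZero.ne N⟩
  have hℓ2 : 2 ≤ ℓ := hℓ.two_le
  have hN1 : 1 ≤ N := Nat.pos_of_ne_zero (NeZero.ne N)
  have key_ns : ∀ b : Fin ℓ, embList N ℓ hℓ hℓN none ≠ embList N ℓ hℓ hℓN (some b) := by
    intro b hEq
    have h1 := congrArg (fun φ : FF (N * ℓ) →ₐ[FF N] Om N ℓ =>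
      φ (heckeBetaBar Kbar N ℓ (jTest N))) hEq
    simp only [embList_none_beta, embList_some_beta] at h1
    have h2 := incOm_injective N ℓ h1
    have h3 := congrArg HahnSeries.order h2
    rw [phi_beta_jTest_order, twist_jTest_eq, infGenExp_order] at h3
    have h4 : N * ℓ * ℓ = 1 * N := by
      have : ((N * ℓ * ℓ : ℕ) : ℤ) = ((1 * N : ℕ) : ℤ) := by linarith
      exact_mod_cast this
    have h5 : N * 4 ≤ N * ℓ * ℓ := by
      rw [Nat.mul_assoc]
      exact Nat.mul_le_mul_left N (Nat.mul_le_mul hℓ2 hℓ2)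
    omega
  have key_ss : ∀ b b' : Fin ℓ, embList N ℓ hℓ hℓN (some b) = embList N ℓ hℓ hℓN (some b') →
      b = b' := by
    intro b b' hEq
    have h1 := congrArg (fun φ : FF (N * ℓ) →ₐ[FF N] Om N ℓ =>
      φ (heckeBetaBar Kbar N ℓ (jTest N))) hEq
    simp only [embList_some_beta] at h1
    have h2 := incOm_injective N ℓ h1
    rw [twist_jTest_eq, twist_jTest_eq] at h2
    have h3 := congrArg HahnSeries.leadingCoeff h2
    rw [infGenExp_leadingCoeff, infGenExp_leadingCoeff] at h3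
    have h4 : infRoot (((1 : ℕ) : ℤ) * ((b : ℕ) : ℤ)) ℓ = infRoot (((1 : ℕ) : ℤ) * ((b' : ℕ) : ℤ)) ℓ :=
      inv_injective (Units.val_inj.mp h3)
    obtain ⟨k, hk⟩ := (infRoot_eq_iff hℓ.pos).mp h4
    have hb := b.2
    have hb' := b'.2
    apply Fin.ext
    have h5 : ((b : ℕ) : ℤ) - ((b' : ℕ) : ℤ) = ℓ * k := by
      simp only [Nat.cast_one, one_mul] at hk
      exact hk
    have hk0 : k = 0 := by
      by_contra hne
      rcases lt_or_gt_of_ne hne with hlt | hgt
      · have : (ℓ : ℤ) * k ≤ ℓ * (-1) :=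
          mul_le_mul_of_nonneg_left (by omega) (by positivity)
        have h6 : ((b : ℕ) : ℤ) < ℓ := by exact_mod_cast hb
        have h7 : (0 : ℤ) ≤ ((b : ℕ) : ℤ) := by positivity
        have h8 : ((b' : ℕ) : ℤ) < ℓ := by exact_mod_cast hb'
        linarith
      · have : (ℓ : ℤ) * 1 ≤ ℓ * k :=
          mul_le_mul_of_nonneg_left (by omega) (by positivity)
        have h6 : ((b : ℕ) : ℤ) < ℓ := by exact_mod_cast hb
        have h7 : (0 : ℤ) ≤ ((b' : ℕ) : ℤ) := by positivity
        linarith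
    rw [hk0, mul_zero] at h5
    have : ((b : ℕ) : ℤ) = ((b' : ℕ) : ℤ) := by linarith
    exact_mod_cast this
  intro o o' hEq
  rcases o with _ | b <;> rcases o' with _ | b'
  · rfl
  · exact absurd hEq (key_ns b')
  · exact absurd hEq.symm (key_ns b)
  · rw [key_ss b b' hEq]

include hℓ in
theorem embList_surjective : Function.Surjective (embList N ℓ hℓ hℓN) := by
  intro τ
  obtain ⟨h, hh, rfl⟩ := exists_embOf_eq N ℓ τ
  rcases dvd_or_exists_b hℓ h with hd | ⟨b, hb⟩
  · -- `h ∈ Γ₀(N ℓ)`, so `σ_{h⁻¹} = σ₁`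
    refine ⟨none, ?_⟩
    have hM : h ∈ CongruenceSubgroup.Gamma0 (N * ℓ) :=
      mem_gamma0_mul (coprime_N_ℓ N ℓ hℓ hℓN) hh hd
    have e : sig N ℓ h⁻¹ = sig N ℓ (1 : SL(2, ℤ))⁻¹ := by
      have := (holBase (N * ℓ)).sigmaG_mul_of_mem (holBase (N * ℓ)).qexpExpansion 1
        (inv_mem hM)
      rw [one_mul] at this
      rw [inv_one]
      exact this
    apply AlgHom.ext
    intro f
    show incOm N ℓ (sig N ℓ (1 : SL(2, ℤ))⁻¹ f) = incOm N ℓ (sig N ℓ h⁻¹ f)
    rw [e]
  · -- `σ_{h⁻¹} = σ_{h_{b₀}⁻¹}` with `b₀ = b mod ℓ`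
    have hℓpos : (0 : ℤ) < ℓ := by exact_mod_cast hℓ.pos
    have hb0 : 0 ≤ b % (ℓ : ℤ) := Int.emod_nonneg b hℓpos.ne'
    have hb1 : b % (ℓ : ℤ) < ℓ := Int.emod_lt_of_pos b hℓpos
    let b₀ : Fin ℓ := ⟨(b % (ℓ : ℤ)).toNat, by
      have := hb1
      omega⟩
    have hb₀ : ((b₀ : ℕ) : ℤ) = b % (ℓ : ℤ) := Int.toNat_of_nonneg hb0
    refine ⟨some b₀, ?_⟩
    have e : sig N ℓ (hrep N ℓ hℓ hℓN ((b₀ : ℕ) : ℤ))⁻¹ = sig N ℓ h⁻¹ := by
      apply ringHom_ext_alpha_beta N ℓ hℓ
      · intro y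
        rw [sig_alpha N ℓ (hrep_mem N ℓ hℓ hℓN _), sig_alpha N ℓ hh]
      · intro y
        rw [sig_beta N ℓ (hrep_mem N ℓ hℓ hℓN _) (hrep_dvd N ℓ hℓ hℓN _), sig_beta N ℓ hh hb]
        have : infRoot ((b₀ : ℕ) : ℤ) ℓ = infRoot b ℓ := by
          rw [infRoot_eq_iff hℓ.pos, hb₀]
          exact ⟨-(b / (ℓ : ℤ)), by linarith [Int.emod_add_mul_ediv b ℓ]⟩
        rw [this]
    apply AlgHom.ext
    intro f
    show incOm N ℓ (sig N ℓ (hrep N ℓ hℓ hℓN ((b₀ : ℕ) : ℤ))⁻¹ f) = incOm N ℓ (sig N ℓ h⁻¹ f)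
    rw [e]

include hℓ in
theorem embList_bijective : Function.Bijective (embList N ℓ hℓ hℓN) :=
  ⟨embList_injective N ℓ hℓ hℓN, embList_surjective N ℓ hℓ hℓN⟩

end Reps

end Fermat.Agent.S37.H819

end
end
-- ===== PACK-END S37/H819/Enum.lean

-- ===== PACK-BEGIN S37/H819/Norm.lean
section


/-!
# S37 / NORM (helper819) — the norm of `β y` over `α(FF N)` is the Kronecker product

Main results (`K = ℚ̄`, `ℓ` prime, `ℓ ∤ N`, `α = heckeAlphaBar`, `β = heckeBetaBar`,
`FF N = ℚ̄(j(q^d) : d ∣ N) ⊆ ℚ̄((q))`, the norm is taken for the Prelude algebra structure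
`algebraAlong α` on `FF (N ℓ)`):

* `norm_heckeBeta` :
  `V_ℓ (Nm_α (β y)) = V_{ℓ²} y * ∏_{b < ℓ} y(ζ^b u)`   in `ℚ̄((u))`, `u = q^{1/ℓ}`,
  i.e. `Nm_α(β y)(q) = y(q^ℓ) ∏_b y(ζ^b q^{1/ℓ})`, for any primitive `ℓ`-th root of unity `ζ`.
-/

set_option autoImplicit false

noncomputable section

open ModularCurve HahnSeries UpperHalfPlane AlgebraicCurve
open scoped MatrixGroups

namespace Fermat.Agent.S37.H819

open Fermat.Agent.S24 Fermat.Agent.S24.H997

variable (N ℓ : ℕ) [NeZero N] [NeZero ℓ]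

section Internal

attribute [local instance] instAlgAlpha instAlgOm instFiniteAlpha

/-- The norm formula over `ℂ((z))`, `z = q^{1/(N ℓ)}`. -/
theorem norm_complex (hℓ : ℓ.Prime) (hℓN : ¬ ℓ ∣ N) (y : FF N) :
    HolBase.Φ (N * ℓ)
        ((Algebra.norm (FF N) (heckeBetaBar Kbar N ℓ y) : FF N) : LaurentSeries Kbar)
      = HolBase.Φ (N * ℓ) (qExpand Kbar ℓ (y : LaurentSeries Kbar))
        * ∏ b : Fin ℓ, qExpand ℂ N (infTwist (infRoot ((b : ℕ) : ℤ) ℓ)
            (coeffMap ιK (y : LaurentSeries Kbar))) := by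
  have h := Algebra.norm_eq_prod_embeddings (FF N) (Om N ℓ) (heckeBetaBar Kbar N ℓ y)
  rw [algebraMap_Om, sig_one, coe_heckeAlphaBar] at h
  have he := embList_bijective N ℓ hℓ hℓN
  rw [← he.prod_comp (fun σ : FF (N * ℓ) →ₐ[FF N] Om N ℓ => σ (heckeBetaBar Kbar N ℓ y)),
    Fintype.prod_option, embList_none_beta] at h
  simp only [embList_some_beta] at h
  rw [← map_prod, ← map_mul] at h
  exact incOm_injective N ℓ h

/-- Products over the powers of a primitive root do not depend on the primitive root. -/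
theorem prod_range_pow_primitive {R M : Type*} [CommRing R] [IsDomain R] [CommMonoid M] {n : ℕ}
    {ω ε : R} (hω : IsPrimitiveRoot ω n) (hε : IsPrimitiveRoot ε n) (T : R → M) :
    ∏ b ∈ Finset.range n, T (ω ^ b) = ∏ b ∈ Finset.range n, T (ε ^ b) := by
  classical
  rcases Nat.eq_zero_or_pos n with rfl | hn
  · simp
  have key : ∀ {ξ : R}, IsPrimitiveRoot ξ n →
      ∏ b ∈ Finset.range n, T (ξ ^ b) = ∏ u ∈ Polynomial.nthRootsFinset n (1 : R), T u := by
    intro ξ hξ
    have himg : (Finset.range n).image (fun b => ξ ^ b) = Polynomial.nthRootsFinset n (1 : R) := by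
      apply Finset.eq_of_subset_of_card_le
      · intro u hu
        obtain ⟨b, -, rfl⟩ := Finset.mem_image.mp hu
        rw [Polynomial.mem_nthRootsFinset hn, ← pow_mul, mul_comm, pow_mul, hξ.pow_eq_one, one_pow]
      · rw [hξ.card_nthRootsFinset, Finset.card_image_of_injOn hξ.injOn_pow, Finset.card_range]
    rw [← himg, Finset.prod_image]
    intro a ha b hb hab
    exact hξ.injOn_pow ha hb hab
  rw [key hω, key hε]

omit [NeZero N] in
theorem coe_infRoot_one_isPrimitiveRoot : IsPrimitiveRoot ((infRoot 1 ℓ : ℂˣ) : ℂ) ℓ := by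
  have h := Complex.isPrimitiveRoot_exp ℓ (NeZero.ne ℓ)
  have e : ((infRoot 1 ℓ : ℂˣ) : ℂ) = Complex.exp (2 * Real.pi * Complex.I / ℓ) := by
    rw [infRoot_coe]
    congr 1
    push_cast
    ring
  rw [e]
  exact h

/-- `Φ_N ∘ V_ℓ = Φ_{N ℓ}` -/
theorem Φ_qExpand (x : LaurentSeries Kbar) :
    HolBase.Φ N (qExpand Kbar ℓ x) = HolBase.Φ (N * ℓ) x := by
  show qExpand ℂ N (coeffMap ιK (qExpand Kbar ℓ x)) = qExpand ℂ (N * ℓ) (coeffMap ιK x)
  rw [coeffMap_qExpand, qExpand_qExpand]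

/-- **The norm of `β y` over `α(FF N)`** (Kronecker product formula): for `ℓ ∤ N` prime and
any primitive `ℓ`-th root of unity `ζ ∈ ℚ̄`,
`Nm(β y)(u^ℓ) = y(u^{ℓ²}) · ∏_{b<ℓ} y(ζ^b u)`. -/
theorem norm_heckeBeta_aux (hℓ : ℓ.Prime) (hℓN : ¬ ℓ ∣ N) (ζ : Kbarˣ)
    (hζ : IsPrimitiveRoot (ζ : Kbar) ℓ) (y : FF N) :
    qExpand Kbar ℓ
        ((Algebra.norm (FF N) (heckeBetaBar Kbar N ℓ y) : FF N) : LaurentSeries Kbar)
      = qExpand Kbar (ℓ * ℓ) (y : LaurentSeries Kbar)
        * ∏ b ∈ Finset.range ℓ, infTwist (ζ ^ b) (y : LaurentSeries Kbar) := by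
  apply HolBase.Φ_injective (N := N)
  have e2 : HolBase.Φ N (qExpand Kbar (ℓ * ℓ) (y : LaurentSeries Kbar))
      = HolBase.Φ (N * ℓ) (qExpand Kbar ℓ (y : LaurentSeries Kbar)) := by
    rw [← Φ_qExpand, qExpand_qExpand]
  rw [map_mul, map_prod, Φ_qExpand, norm_complex N ℓ hℓ hℓN y, e2]
  congr 1
  rw [Fin.prod_univ_eq_prod_range (fun b : ℕ => qExpand ℂ N (infTwist (infRoot ((b : ℕ) : ℤ) ℓ)
    (coeffMap ιK (y : LaurentSeries Kbar)))) ℓ]
  -- both sides are products of `T (ξ ^ b)`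
  let T : ℂ → LaurentSeries ℂ := fun u =>
    if h : u = 0 then 1
    else qExpand ℂ N (infTwist (Units.mk0 u h) (coeffMap ιK (y : LaurentSeries Kbar)))
  have hT : ∀ v : ℂˣ, T (v : ℂ)
      = qExpand ℂ N (infTwist v (coeffMap ιK (y : LaurentSeries Kbar))) := by
    intro v
    simp only [T]
    rw [dif_neg v.ne_zero]
    congr 3
    exact Units.ext rfl
  have hε := coe_infRoot_one_isPrimitiveRoot ℓ
  have hω : IsPrimitiveRoot (ιK (ζ : Kbar)) ℓ := hζ.map_of_injective ιK_injective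
  have hL : ∀ b ∈ Finset.range ℓ,
      qExpand ℂ N (infTwist (infRoot ((b : ℕ) : ℤ) ℓ) (coeffMap ιK (y : LaurentSeries Kbar)))
        = T (((infRoot 1 ℓ : ℂˣ) : ℂ) ^ b) := by
    intro b _
    rw [← Units.val_pow_eq_pow_val, hT, infRoot_pow, mul_one]
  have hR : ∀ b ∈ Finset.range ℓ,
      HolBase.Φ N (infTwist (ζ ^ b) (y : LaurentSeries Kbar)) = T ((ιK (ζ : Kbar)) ^ b) := by
    intro b _
    have e : (ιK (ζ : Kbar)) ^ b = ((Units.map (ιK : Kbar →* ℂ) (ζ ^ b) : ℂˣ) : ℂ) := by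
      simp
    rw [e, hT]
    show qExpand ℂ N (coeffMap ιK (infTwist (ζ ^ b) (y : LaurentSeries Kbar))) = _
    rw [coeffMap_infTwist]
  rw [Finset.prod_congr rfl hL, Finset.prod_congr rfl hR]
  exact prod_range_pow_primitive hε hω T

/-- the degree of `FF (N ℓ)` over `α(FF N)` is `ℓ + 1` -/
theorem finrank_alpha_aux (hℓ : ℓ.Prime) (hℓN : ¬ ℓ ∣ N) :
    Module.finrank (FF N) (FF (N * ℓ)) = ℓ + 1 := by
  rw [← AlgHom.card (FF N) (FF (N * ℓ)) (Om N ℓ),
    ← Fintype.card_of_bijective (embList_bijective N ℓ hℓ hℓN)]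
  simp

omit [NeZero N] in
theorem coe_sub_FF (a b : FF N) :
    ((a - b : FF N) : LaurentSeries Kbar) = (a : LaurentSeries Kbar) - (b : LaurentSeries Kbar) :=
  rfl

set_option maxHeartbeats 1000000 in
set_option synthInstance.maxHeartbeats 200000 in
/-- the characteristic polynomial of `β y` over `α(FF N)` is the Kronecker polynomial -/
theorem charpoly_heckeBeta_aux (hℓ : ℓ.Prime) (hℓN : ¬ ℓ ∣ N) (ζ : Kbarˣ)
    (hζ : IsPrimitiveRoot (ζ : Kbar) ℓ) (y : FF N) :
    (((Algebra.lmul (FF N) (FF (N * ℓ)) (heckeBetaBar Kbar N ℓ y)).charpoly.map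
        (coeHom N)).map (qExpand Kbar ℓ))
      = (Polynomial.X - Polynomial.C (qExpand Kbar (ℓ * ℓ) (y : LaurentSeries Kbar)))
        * ∏ b ∈ Finset.range ℓ,
            (Polynomial.X - Polynomial.C (infTwist (ζ ^ b) (y : LaurentSeries Kbar))) := by
  apply Polynomial.eq_of_infinite_eval_eq
  refine Set.infinite_of_injective_forall_mem
    (f := fun c : Kbar => algebraMap Kbar (LaurentSeries Kbar) c)
    (algebraMap Kbar (LaurentSeries Kbar)).injective ?_
  intro c
  show Polynomial.eval _ _ = Polynomial.eval _ _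
  -- the constant `c` as an element of `FF N`
  set t : FF N := algebraMap Kbar (FF N) c with ht
  have hc : algebraMap Kbar (LaurentSeries Kbar) c = qExpand Kbar ℓ (coeHom N t) := by
    rw [coeHom_apply, ht, coe_algebraMap_FF, algebraMap_laurentSeries_eq_single, qExpand_single,
      mul_zero]
  -- left side
  have hL : Polynomial.eval (algebraMap Kbar (LaurentSeries Kbar) c)
      (((Algebra.lmul (FF N) (FF (N * ℓ)) (heckeBetaBar Kbar N ℓ y)).charpoly.map
        (coeHom N)).map (qExpand Kbar ℓ))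
      = qExpand Kbar ℓ ((Algebra.norm (FF N)
          (heckeBetaBar Kbar N ℓ (t - y)) : FF N) : LaurentSeries Kbar) := by
    rw [hc, Polynomial.eval_map, Polynomial.eval₂_hom, Polynomial.eval_map,
      Polynomial.eval₂_hom, LinearMap.eval_charpoly, coeHom_apply]
    congr 2
    rw [Algebra.norm_apply]
    congr 1
    rw [map_sub, map_sub]
    congr 1
    refine LinearMap.ext fun z => ?_
    show heckeAlphaBar Kbar N ℓ t * z = heckeBetaBar Kbar N ℓ t * z
    rw [ht, AlgHom.commutes, AlgHom.commutes]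
  rw [hL, norm_heckeBeta_aux N ℓ hℓ hℓN ζ hζ (t - y)]
  have hsub : ((t - y : FF N) : LaurentSeries Kbar)
      = algebraMap Kbar (LaurentSeries Kbar) c - (y : LaurentSeries Kbar) := by
    rw [coe_sub_FF, ht, coe_algebraMap_FF]
  have hV : ∀ (n : ℕ) [NeZero n], qExpand Kbar n (algebraMap Kbar (LaurentSeries Kbar) c)
      = algebraMap Kbar (LaurentSeries Kbar) c := by
    intro n _
    rw [algebraMap_laurentSeries_eq_single, qExpand_single, mul_zero]
  have hT : ∀ u : Kbarˣ, infTwist u (algebraMap Kbar (LaurentSeries Kbar) c)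
      = algebraMap Kbar (LaurentSeries Kbar) c := by
    intro u
    rw [algebraMap_laurentSeries_eq_single, infTwist_single]
    simp
  rw [hsub, map_sub, hV, Polynomial.eval_mul, Polynomial.eval_sub, Polynomial.eval_X,
    Polynomial.eval_C, Polynomial.eval_prod]
  congr 1
  refine Finset.prod_congr rfl fun b _ => ?_
  rw [map_sub, hT, Polynomial.eval_sub, Polynomial.eval_X, Polynomial.eval_C]

end Internal

/-! ### Public statements (with the Prelude's `algebraAlong`) -/

/-- `FF (N ℓ)` is a finite extension of `α(FF N)`: the Prelude's `FiniteAlong`. -/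
theorem finiteAlong_heckeAlphaBar :
    FiniteAlong Kbar (heckeAlphaBar Kbar N ℓ) :=
  finite_alpha N ℓ

/-- `[FF (N ℓ) : α(FF N)] = ℓ + 1` for a prime `ℓ ∤ N`. -/
theorem finrankAlong_heckeAlphaBar (hℓ : ℓ.Prime) (hℓN : ¬ ℓ ∣ N) :
    finrankAlong Kbar (heckeAlphaBar Kbar N ℓ) = ℓ + 1 :=
  finrank_alpha_aux N ℓ hℓ hℓN

/-- **NORM.** For a prime `ℓ ∤ N`, a primitive `ℓ`-th root of unity `ζ ∈ ℚ̄` and `y ∈ FF N`:
`Nm_{FF(Nℓ)/α(FF N)}(β y)(u^ℓ) = y(u^{ℓ²}) · ∏_{b<ℓ} y(ζ^b u)` in `ℚ̄((u))`. -/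
theorem norm_heckeBeta (hℓ : ℓ.Prime) (hℓN : ¬ ℓ ∣ N) (ζ : Kbarˣ)
    (hζ : IsPrimitiveRoot (ζ : Kbar) ℓ) (y : FF N) :
    letI := algebraAlong (heckeAlphaBar Kbar N ℓ)
    qExpand Kbar ℓ
        ((Algebra.norm (FF N) (heckeBetaBar Kbar N ℓ y) : FF N) : LaurentSeries Kbar)
      = qExpand Kbar (ℓ * ℓ) (y : LaurentSeries Kbar)
        * ∏ b ∈ Finset.range ℓ, infTwist (ζ ^ b) (y : LaurentSeries Kbar) :=
  norm_heckeBeta_aux N ℓ hℓ hℓN ζ hζ y

set_option maxHeartbeats 1000000 in
set_option synthInstance.maxHeartbeats 200000 in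
/-- **CHARPOLY.** The characteristic polynomial of `β y` over `α(FF N)` is the Kronecker
polynomial `(X - y(q^ℓ)) ∏_b (X - y(ζ^b q^{1/ℓ}))` (written in `u = q^{1/ℓ}`). -/
theorem charpoly_heckeBeta (hℓ : ℓ.Prime) (hℓN : ¬ ℓ ∣ N) (ζ : Kbarˣ)
    (hζ : IsPrimitiveRoot (ζ : Kbar) ℓ) (y : FF N) :
    letI := algebraAlong (heckeAlphaBar Kbar N ℓ)
    haveI : Module.Finite (FF N) (FF (N * ℓ)) := finiteAlong_heckeAlphaBar N ℓ
    (((Algebra.lmul (FF N) (FF (N * ℓ)) (heckeBetaBar Kbar N ℓ y)).charpoly.map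
        (coeHom N)).map (qExpand Kbar ℓ))
      = (Polynomial.X - Polynomial.C (qExpand Kbar (ℓ * ℓ) (y : LaurentSeries Kbar)))
        * ∏ b ∈ Finset.range ℓ,
            (Polynomial.X - Polynomial.C (infTwist (ζ ^ b) (y : LaurentSeries Kbar))) :=
  charpoly_heckeBeta_aux N ℓ hℓ hℓN ζ hζ y

end Fermat.Agent.S37.H819

end
end
-- ===== PACK-END S37/H819/Norm.lean

-- ===== PACK-BEGIN S37/H819/NormId.lean
section




/-!
# S37 / node NORMID (helper819)

`normId` : for a prime `ℓ ∤ M` and `f ∈ ℚ̄(X₀(M)) = modularFunctionFieldBar M`, the `q`-expansion of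
the norm of `β f` over `α(F_M)` (Prelude algebra structure `algebraAlong (heckeAlphaBar ℚ̄ M ℓ)`)
is the formal Kronecker norm `H400.kronNorm ℓ f = V_ℓ f · det (secMat ℓ f)`.
This is exactly `Board.NormIdStatement M ℓ` of `origin/helper37:Fermat/Agent/S37/Core/Skeleton3.lean`.
-/

set_option autoImplicit false

noncomputable section

open ModularCurve HahnSeries AlgebraicCurve

namespace Fermat.Agent.S37.H819

open Fermat.Agent.S24

/-- H400's section matrix is H340's Kronecker matrix. -/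
theorem secMat_eq_kronMat {R : Type*} [CommRing R] (p : ℕ) [NeZero p] (f : LaurentSeries R) :
    Fermat.Agent.S37.H400.secMat p f = Fermat.Agent.S37.H340.kronMat p f := by
  ext i j n
  rw [Fermat.Agent.S37.H400.secMat_apply', Fermat.Agent.S37.H340.kronMat_apply,
    Fermat.Agent.S37.H400.secL_coeff, Fermat.Agent.S37.H340.sect_coeff]

/-- H340's twist by an `ℓ`-th root of unity is the S24 twist. -/
theorem tw_eq_infTwist {R : Type*} [CommRing R] (ℓ : ℕ) [NeZero ℓ] (u : Rˣ)
    (hu : (u : R) ^ ℓ = 1) (f : LaurentSeries R) :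
    Fermat.Agent.S37.H340.tw ℓ (u : R) f = infTwist u f := by
  ext n
  rw [Fermat.Agent.S37.H340.tw_coeff, infTwist_coeff, mul_comm]
  congr 1
  have hℓ : (ℓ : ℤ) ≠ 0 := by exact_mod_cast NeZero.ne ℓ
  have hu' : u ^ ℓ = 1 := Units.ext (by rw [Units.val_pow_eq_pow_val, hu, Units.val_one])
  unfold Fermat.Agent.S37.H340.zpw
  have h1 : n = n % (ℓ : ℤ) + (ℓ : ℤ) * (n / (ℓ : ℤ)) := (Int.emod_add_mul_ediv n ℓ).symm
  have h0 : 0 ≤ n % (ℓ : ℤ) := Int.emod_nonneg n hℓ
  have h2 : ((n % (ℓ : ℤ)).toNat : ℤ) = n % (ℓ : ℤ) := Int.toNat_of_nonneg h0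
  have h3 : u ^ n = u ^ (n % (ℓ : ℤ)).toNat := by
    conv_lhs => rw [h1, zpow_add, zpow_mul, zpow_natCast, hu', one_zpow, mul_one, ← h2,
      zpow_natCast]
  rw [← Units.val_pow_eq_pow_val, ← h3]

/-- `V_ℓ (det (secMat ℓ f)) = ∏_{b<ℓ} f(ζ^b q)` -/
theorem qExpand_det_secMat {R : Type*} [CommRing R] [IsDomain R] (ℓ : ℕ) [NeZero ℓ] (ζ : Rˣ)
    (hζ : IsPrimitiveRoot (ζ : R) ℓ) (f : LaurentSeries R) :
    qExpand R ℓ (Fermat.Agent.S37.H400.secMat ℓ f).det
      = ∏ b ∈ Finset.range ℓ, infTwist (ζ ^ b) f := by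
  have h := Fermat.Agent.S37.H340.kron_map_qExpand_eq_prod hζ f
  rw [Fermat.Agent.S37.H340.kron, ← secMat_eq_kronMat, ← Matrix.charpoly_map] at h
  have hdet : qExpand R ℓ (Fermat.Agent.S37.H400.secMat ℓ f).det
      = ((Fermat.Agent.S37.H400.secMat ℓ f).map (qExpand R ℓ)).det := by
    rw [RingHom.map_det, RingHom.mapMatrix_apply]
  rw [hdet, Matrix.det_eq_sign_charpoly_coeff, h, Fintype.card_fin,
    Polynomial.coeff_zero_eq_eval_zero, Polynomial.eval_prod]
  simp only [Polynomial.eval_sub, Polynomial.eval_X, Polynomial.eval_C, zero_sub]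
  rw [Finset.prod_neg, Finset.card_univ, Fintype.card_fin, ← mul_assoc, ← mul_pow]
  simp only [mul_neg, mul_one, neg_neg, one_pow, one_mul]
  rw [← Fin.prod_univ_eq_prod_range (fun b : ℕ => infTwist (ζ ^ b) f) ℓ]
  refine Finset.prod_congr rfl fun b _ => ?_
  rw [← Units.val_pow_eq_pow_val, tw_eq_infTwist]
  rw [Units.val_pow_eq_pow_val, ← pow_mul, mul_comm, pow_mul, hζ.pow_eq_one, one_pow]

/-- **Node NORMID** (`Board.NormIdStatement M ℓ`, unfolded): for a prime `ℓ ∤ M` the
`q`-expansion of `Nm_{F_{Mℓ}/α F_M}(β f)` is the formal Kronecker norm `kronNorm ℓ f`. -/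
theorem normId (M ℓ : ℕ) [NeZero M] [NeZero ℓ] (hℓ : ℓ.Prime) (hℓM : ¬ ℓ ∣ M) :
    ∀ f : modularFunctionFieldBar M,
      (((letI := algebraAlong (heckeAlphaBar (AlgebraicClosure ℚ) M ℓ)
         Algebra.norm (modularFunctionFieldBar M) (heckeBetaBar (AlgebraicClosure ℚ) M ℓ f)) :
          modularFunctionFieldBar M) : LaurentSeries (AlgebraicClosure ℚ)) =
        Fermat.Agent.S37.H400.kronNorm ℓ (f : LaurentSeries (AlgebraicClosure ℚ)) := by
  intro f
  have : NeZero ((ℓ : ℕ) : AlgebraicClosure ℚ) := ⟨by exact_mod_cast NeZero.ne ℓ⟩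
  obtain ⟨ζ₀, hζ₀⟩ := HasEnoughRootsOfUnity.exists_primitiveRoot (AlgebraicClosure ℚ) ℓ
  obtain ⟨ζ, rfl⟩ := hζ₀.isUnit (NeZero.ne ℓ)
  apply qExpand_injective (R := AlgebraicClosure ℚ) (N := ℓ)
  have h := norm_heckeBeta M ℓ hℓ hℓM ζ hζ₀ f
  rw [Fermat.Agent.S37.H400.kronNorm, map_mul, qExpand_qExpand, qExpand_det_secMat ℓ ζ hζ₀]
  exact h

end Fermat.Agent.S37.H819

end
end
-- ===== PACK-END S37/H819/NormId.lean

-- ===== PACK-BEGIN S29/M4b/H395/Hecke.lean
section
/-
S29 row, LAYER M, SUB-LAYER M4b — PIECE `K4-HECKE` (helper395): DONE, unconditional.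

`pieceHecke N p hp : M4b.PieceHecke N p` for every level `N` and every prime `p`
(the exact `Prop` of `Fermat/Agent/S29/M4b/Top.lean`), and `isKum_hecke` (the exact statement
of helper822's sub-skeleton, with its hypotheses `hfac`, `hc`, which are not needed).

Proof: `Fermat.Agent.S29.H395.isKum_hecke_of_normId` (the Hecke product
`V(τ) = ∏ᵢ U(αᵢ τ)` over the `ℓ + 1` Hecke representatives is twisted of character the
transfer of `c`; its `p`-th power realises `heckeNorm (f · t ^ p)`; `T_ℓ` of a Kummer class is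
the Kummer class of the norm), fed with the landed NORM-ID `Fermat.Agent.S37.H819.normId`.
-/




set_option autoImplicit false

noncomputable section

open ModularCurve AlgebraicCurve CongruenceSubgroup UpperHalfPlane
open scoped MatrixGroups Manifold

namespace Fermat.Agent.S29.M4b.H395

open Fermat.Agent.S24 Fermat.Agent.S29 Fermat.Agent.S29.M4b

/-- The landed NORM-ID (`S37.H819.normId`) in the packaging of `H222.NormId`. -/
theorem normId_H222 (N ℓ : ℕ) [NeZero N] [NeZero ℓ] (hℓ : ℓ.Prime) (hℓN : ¬ ℓ ∣ N) :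
    Fermat.Agent.S29.H222.NormId N ℓ :=
  fun y => Fermat.Agent.S37.H819.normId N ℓ hℓ hℓN y

/-- **PIECE `K4-HECKE`**, exact statement of the sub-skeleton
(`origin/helper822:Fermat/Agent/S29/M4b/Skeleton.lean`, `isKum_hecke`). -/
theorem isKum_hecke (N : ℕ) [NeZero N] (p : ℕ) [NeZero p]
    (ℓ : Nat.Primes) (hℓ : ¬ (ℓ : ℕ) ∣ N * p)
    (_hfac : ∀ γ : G0 N, ∃ (π : Equiv.Perm (Option (Fin (ℓ : ℕ))))
      (δ : Option (Fin (ℓ : ℕ)) → G0 N), ∀ i, IsHeckeFactor (ℓ : ℕ) γ i (π i, δ i))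
    {c c' : G0 N → ZMod p} (_hc : IsParHom c) (hcc' : IsTransfer N (ℓ : ℕ) c c')
    {x : JZero N} (h : IsKum N p c x) : IsKum N p c' (heckeOperatorBar N ℓ x) := by
  have : NeZero (ℓ : ℕ) := ⟨ℓ.2.ne_zero⟩
  have hℓN : ¬ (ℓ : ℕ) ∣ N := fun hd => hℓ (Dvd.dvd.mul_right hd p)
  exact Fermat.Agent.S29.H395.isKum_hecke_of_normId N p ℓ hℓ
    (normId_H222 N (ℓ : ℕ) ℓ.2 hℓN) hcc' h

/-- **PIECE `K4-HECKE`** in the form of `M4b/Top.lean`. -/
theorem pieceHecke (N : ℕ) [NeZero N] (p : ℕ) (hp : p.Prime) : PieceHecke N p := by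
  have : NeZero p := ⟨hp.ne_zero⟩
  intro ℓ hℓ hfac c c' hc hcc' x h
  exact isKum_hecke N p ℓ hℓ hfac hc hcc' h

end Fermat.Agent.S29.M4b.H395

end
end
-- ===== PACK-END S29/M4b/H395/Hecke.lean

-- ===== PACK-BEGIN S30/Chain/Package.lean
section
/-
S30 — squad-lead chain (helper49): the Kummer packages `H450.KumPackage N m` at EVERY modulus
`m ≠ 0`, UNCONDITIONALLY, from the landed pieces of S29 sub-layer M4b:

* `ex`    : K1 (`H509.exists_isTwisted`) + K3 (`M4b.K3.pieceK3_of_dfrom` on `H282` DFROM)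
            + K2 (`H389.exists_isKummerClass_of_realised`);
* `uniq`, `inj`, `add` : `M4b.H822.pieceUniq / pieceInj / pieceAdd`;
* `hecke` : `M4b.H395.isKum_hecke`.

Together with ONTO (`H810.exists_isKum_of_torsion`) this discharges inputs (K') and (F) of the adic
module layer, so that the frozen S30 follows from input (T) alone (`Chain/FromT.lean`).
-/








set_option autoImplicit false

noncomputable section

open ModularCurve AlgebraicCurve CongruenceSubgroup UpperHalfPlane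
open scoped MatrixGroups Manifold

namespace Fermat.Agent.S30.Chain

open Fermat.Agent.S24 Fermat.Agent.S29 Fermat.Agent.S29.M4b

/-- K3-DFROM in the `Prop` form of `M4b/K3/Fin.lean` (from helper282's `DFrom`). -/
theorem dfromStatement (N : ℕ) [NeZero N] (p : ℕ) [NeZero p] : K3.DFromStatement N p := by
  intro f hf0 hdvd
  have hf0' : (f : LaurentSeries ℂ) ≠ 0 := fun h => hf0 (Subtype.ext h)
  obtain ⟨s, hs, hs0, V, hV, -, hVg, hq, -⟩ :=
    Fermat.Agent.S29.H282.exists_root_of_forall_dvd_ord N p f.2 hf0' hdvd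
  exact ⟨s, hs, hs0, V, hV, hVg, hq⟩

/-- PIECE K3 at every modulus `p ≠ 0`, unconditionally. -/
theorem pieceK3 (N : ℕ) [NeZero N] (p : ℕ) [NeZero p] : PieceK3 N p :=
  K3.pieceK3_of_dfrom N p (dfromStatement N p)

/-- Existence of the Kummer class of a parabolic character, at every modulus `p ≠ 0`. -/
theorem isKum_exists (N : ℕ) [NeZero N] (p : ℕ) [NeZero p] {c : G0 N → ZMod p}
    (hc : IsParHom c) : ∃ x : JZero N, IsKum N p c x := by
  obtain ⟨U, hU⟩ := Fermat.Agent.S29.H509.exists_isTwisted N p hc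
  obtain ⟨U', u, hU', hu⟩ := pieceK3 N p hc hU
  obtain ⟨x, hx⟩ := Fermat.Agent.S29.H389.exists_isKummerClass_of_realised N p hc hU' hu
  refine ⟨x, u, 1, U', one_ne_zero, hx, hU', ?_⟩
  simpa using hu

/-- **The Kummer package at every modulus `m ≠ 0`**, unconditionally. -/
theorem kumPackage (N : ℕ) [NeZero N] (m : ℕ) [NeZero m] : Fermat.Agent.S30.H450.KumPackage N m :=
  Fermat.Agent.S30.H450.KumPackage.of_skeleton
    (fun hc => isKum_exists N m hc)
    (fun h h' => Fermat.Agent.S29.M4b.H822.pieceUniq N m (NeZero.ne m) h h')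
    (fun h => Fermat.Agent.S29.M4b.H822.pieceInj N m (NeZero.ne m) h)
    (fun h h' => Fermat.Agent.S29.M4b.H822.pieceAdd N m (NeZero.ne m) h h')
    (fun ℓ hℓ hfac _ _ hc htr _ hx =>
      Fermat.Agent.S29.M4b.H395.isKum_hecke N m ℓ hℓ hfac hc htr hx)

end Fermat.Agent.S30.Chain

end
end
-- ===== PACK-END S30/Chain/Package.lean

-- ===== PACK-BEGIN S30/H810/Real.lean
section
/-
S30 / piece FIN-ONTO (helper810), part 1: analytic realisation of `R_N = ℚ̄[j(q^d) : d ∣ N]`
by good functions, and the Taylor embeddings `σ_τ : FF N → ℂ((z))`.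

* `realRN N : RN N →+* goodRing N` : the good function with `q`-expansion `ι r`;
* `sigmaTau N τ : FF N →+* LaurentSeries ℂ` : Taylor expansion at `τ` of the realisation;
* `sigmaTau_of_realises` : if `G` realises `u` (M4b `Realises`), then
  `sigmaTau N τ u = taylorLaurent τ G`.
-/





set_option autoImplicit false
set_option linter.unusedSectionVars false

noncomputable section

open ModularCurve AlgebraicCurve CongruenceSubgroup UpperHalfPlane HahnSeries
open scoped MatrixGroups Manifold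

namespace Fermat.Agent.S30.H810

open Fermat.Agent.S24 Fermat.Agent.S24.H648 Fermat.Agent.S24.H708 Fermat.Agent.S24.Deg457
open Fermat.Agent.S24.H624 Fermat.Agent.S24.H997 Fermat.Agent.S29 Fermat.Agent.S29.M4b
open Fermat.Agent.S29.H882

variable (N : ℕ) [NeZero N]

/-- every element of `R_N` is the `q`-expansion of a good function -/
theorem exists_good_of_RN (r : RN N) :
    ∃ f : ℍ → ℂ, f ∈ goodRing N ∧ HasQExp 1 f (coeffMap iotaC (r : LaurentSeries Kbar)) := by
  have h1 : (r : LaurentSeries Kbar) ∈ AK Kbar N := r.2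
  have h2 : coeffMap iotaC (r : LaurentSeries Kbar) ∈ AK ℂ N := coeffMap_mem_AK iotaC h1
  exact AK_le_goodQ N h2

/-- the good function realising `r ∈ R_N` -/
def realFun (r : RN N) : ℍ → ℂ := (exists_good_of_RN N r).choose

theorem realFun_mem (r : RN N) : realFun N r ∈ goodRing N :=
  (exists_good_of_RN N r).choose_spec.1

theorem realFun_hasQExp (r : RN N) :
    HasQExp 1 (realFun N r) (coeffMap iotaC (r : LaurentSeries Kbar)) :=
  (exists_good_of_RN N r).choose_spec.2

/-- the realisation `R_N → goodRing N` as a ring hom -/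
def realRN : RN N →+* goodRing N where
  toFun r := ⟨realFun N r, realFun_mem N r⟩
  map_one' := by
    apply Subtype.ext
    have h := realFun_hasQExp N (1 : RN N)
    have h1 : coeffMap iotaC ((1 : RN N) : LaurentSeries Kbar) = 1 := by
      rw [OneMemClass.coe_one, map_one]
    rw [h1] at h
    exact h.eq_of_eq (HasQExp.one 1)
  map_mul' a b := by
    apply Subtype.ext
    have h := realFun_hasQExp N (a * b)
    have h1 : coeffMap iotaC ((a * b : RN N) : LaurentSeries Kbar)
        = coeffMap iotaC (a : LaurentSeries Kbar) * coeffMap iotaC (b : LaurentSeries Kbar) := by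
      rw [MulMemClass.coe_mul, map_mul]
    rw [h1] at h
    exact h.eq_of_eq ((realFun_hasQExp N a).mul (realFun_hasQExp N b))
  map_zero' := by
    apply Subtype.ext
    have h := realFun_hasQExp N (0 : RN N)
    have h1 : coeffMap iotaC ((0 : RN N) : LaurentSeries Kbar) = 0 := by
      rw [ZeroMemClass.coe_zero, map_zero]
    rw [h1] at h
    exact h.eq_of_eq (HasQExp.zero 1)
  map_add' a b := by
    apply Subtype.ext
    have h := realFun_hasQExp N (a + b)
    have h1 : coeffMap iotaC ((a + b : RN N) : LaurentSeries Kbar)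
        = coeffMap iotaC (a : LaurentSeries Kbar) + coeffMap iotaC (b : LaurentSeries Kbar) := by
      rw [AddMemClass.coe_add, map_add]
    rw [h1] at h
    exact h.eq_of_eq ((realFun_hasQExp N a).add (realFun_hasQExp N b))

@[simp] theorem coe_realRN (r : RN N) : ((realRN N r : goodRing N) : ℍ → ℂ) = realFun N r := rfl

theorem iotaC_injective : Function.Injective iotaC := iotaC.injective

theorem coeffMap_iotaC_injective :
    Function.Injective (coeffMap iotaC : LaurentSeries Kbar → LaurentSeries ℂ) := by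
  intro x y h
  ext k
  apply iotaC_injective
  have := congrArg (fun s : LaurentSeries ℂ => s.coeff k) h
  simpa using this

theorem realRN_injective : Function.Injective (realRN N) := by
  intro a b h
  apply Subtype.ext
  apply coeffMap_iotaC_injective
  have ha := realFun_hasQExp N a
  have hb := realFun_hasQExp N b
  have h' : realFun N a = realFun N b := congrArg Subtype.val h
  rw [h'] at ha
  exact ha.unique hb

/-- good functions are holomorphic -/
theorem goodRing_le_holoRing : goodRing N ≤ holoRing := fun _ hf => hf.1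

/-- the inclusion `goodRing N → holoRing` -/
def goodToHolo : goodRing N →+* holoRing :=
  (Subalgebra.inclusion (goodRing_le_holoRing N)).toRingHom

@[simp] theorem coe_goodToHolo (f : goodRing N) :
    ((goodToHolo N f : holoRing) : ℍ → ℂ) = (f : ℍ → ℂ) := rfl

theorem goodToHolo_injective : Function.Injective (goodToHolo N) :=
  Subalgebra.inclusion_injective (goodRing_le_holoRing N)

/-- Taylor expansion at `τ` of the realisation of `r ∈ R_N` -/
def sTau (τ : ℍ) : RN N →+* LaurentSeries ℂ :=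
  (taylorLaurent τ).comp ((goodToHolo N).comp (realRN N))

theorem sTau_injective (τ : ℍ) : Function.Injective (sTau N τ) :=
  (taylorLaurent_injective τ).comp ((goodToHolo_injective N).comp (realRN_injective N))

/-- **The Taylor embedding** `σ_τ : FF N → ℂ((z))`. -/
def sigmaTau (τ : ℍ) : FF N →+* LaurentSeries ℂ := liftF (sTau N τ) (sTau_injective N τ)

theorem sigmaTau_inclRN (τ : ℍ) (r : RN N) :
    sigmaTau N τ (inclRN N r) = taylorLaurent τ (goodToHolo N (realRN N r)) :=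
  liftF_inclRN _ _ r

theorem algebraMap_laurent_eq_C (c : ℂ) :
    algebraMap ℂ (LaurentSeries ℂ) c = HahnSeries.C c := by
  rw [algebraMap_laurentSeries_eq_single]; rfl

theorem realFun_algebraMap (c : Kbar) :
    realFun N (algebraMap Kbar (RN N) c) = fun _ => iotaC c := by
  have h := realFun_hasQExp N (algebraMap Kbar (RN N) c)
  have h1 : ((algebraMap Kbar (RN N) c : RN N) : LaurentSeries Kbar)
      = algebraMap Kbar (LaurentSeries Kbar) c := rfl
  rw [h1, coeffMap_algebraMap', algebraMap_laurent_eq_C] at h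
  exact h.eq_of_eq (HasQExp.const 1 (iotaC c))

theorem taylorLaurent_const (τ : ℍ) (c : ℂ) (f : holoRing) (hf : (f : ℍ → ℂ) = fun _ => c) :
    taylorLaurent τ f = HahnSeries.C c := by
  have : f = algebraMap ℂ holoRing c := Subtype.ext hf
  rw [this, taylorLaurent_apply, AlgHom.commutes, PowerSeries.algebraMap_apply,
    Algebra.algebraMap_self, RingHom.id_apply, HahnSeries.ofPowerSeries_C]

theorem sigmaTau_algebraMap (τ : ℍ) (c : Kbar) :
    sigmaTau N τ (algebraMap Kbar (FF N) c) = HahnSeries.C (iotaC c) := by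
  rw [sigmaTau, liftF_algebraMap]
  exact taylorLaurent_const τ (iotaC c) _ (realFun_algebraMap N c)

variable {N}

theorem Realises.hasQExp {u : FF N} {G : ℍ → ℂ} (hG : Realises N u G) :
    HasQExp 1 G (coeffMap iotaC ((u : FF N) : LaurentSeries Kbar)) := by
  have h := hasQExp_of_mem_goodRing hG.1
  rwa [hG.2] at h

/-- **Compatibility**: if `G` realises `u`, then `σ_τ u` is the Taylor expansion of `G` at `τ`. -/
theorem sigmaTau_of_realises {u : FF N} {G : ℍ → ℂ} (hG : Realises N u G)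
    (hmd : G ∈ holoRing) (τ : ℍ) :
    sigmaTau N τ u = taylorLaurent τ ⟨G, hmd⟩ := by
  obtain ⟨r, t, ht, hu⟩ := exists_div_inclRN N u
  have ht' : inclRN N t ≠ 0 := fun h => ht (inclRN_injective N (by rw [h, map_zero]))
  have hmul : u * inclRN N t = inclRN N r := by
    rw [hu, div_mul_cancel₀ _ ht']
  have hcoe : ((u : FF N) : LaurentSeries Kbar) * (t : LaurentSeries Kbar)
      = (r : LaurentSeries Kbar) := by
    have := congrArg (fun x : FF N => (x : LaurentSeries Kbar)) hmul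
    simpa using this
  have hq : HasQExp 1 (G * realFun N t) (coeffMap iotaC (r : LaurentSeries Kbar)) := by
    have := (Realises.hasQExp hG).mul (realFun_hasQExp N t)
    rwa [← map_mul, hcoe] at this
  have hfun : G * realFun N t = realFun N r := hq.eq_of_eq (realFun_hasQExp N r)
  have hholo : (⟨G, hmd⟩ : holoRing) * goodToHolo N (realRN N t)
      = goodToHolo N (realRN N r) := Subtype.ext hfun
  have hT0 : taylorLaurent τ (goodToHolo N (realRN N t)) ≠ 0 := by
    intro h
    exact ht (sTau_injective N τ (by rw [map_zero]; exact h))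
  rw [hu, map_div₀, sigmaTau_inclRN, sigmaTau_inclRN, ← hholo, map_mul, mul_div_assoc,
    div_self hT0, mul_one]

end Fermat.Agent.S30.H810

end
end
-- ===== PACK-END S30/H810/Real.lean

-- ===== PACK-BEGIN S30/H810/RevDict.lean
section
/-
S30 / piece FIN-ONTO (helper810), part 2: the REVERSE DICTIONARY.

If `u ∈ FF N` is realised by the good function `G` and `p ∣ ord_v u` at every place `v` of
`FF N / ℚ̄`, then `p ∣ ord_τ G` at EVERY point `τ ∈ ℍ`.

Proof: the Taylor embedding `σ_τ : FF N → ℂ((z))` either is trivial (all orders `0`; this is the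
case of transcendental `j(τ)`) or defines a place `v_τ` with `ord ∘ σ_τ = k * ord_{v_τ}`
(`S24.H117.exists_mult`).
-/


set_option autoImplicit false
set_option linter.unusedSectionVars false

noncomputable section

open ModularCurve AlgebraicCurve CongruenceSubgroup UpperHalfPlane HahnSeries
open scoped MatrixGroups Manifold

namespace Fermat.Agent.S30.H810

open Fermat.Agent.S24 Fermat.Agent.S24.H648 Fermat.Agent.S24.H708 Fermat.Agent.S24.Deg457
open Fermat.Agent.S24.H624 Fermat.Agent.S24.H997 Fermat.Agent.S29 Fermat.Agent.S29.M4b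
open Fermat.Agent.S29.H882

variable {N : ℕ} [NeZero N]

theorem eord_sigmaTau_algebraMap (τ : ℍ) (c : Kbar) :
    H117.eord (sigmaTau N τ) (algebraMap Kbar (FF N) c) = 0 := by
  rw [H117.eord, sigmaTau_algebraMap, HahnSeries.order_C]

/-- the order of the Taylor embedding of a realised element is the analytic order -/
theorem eord_sigmaTau_of_realises {u : FF N} {G : ℍ → ℂ} (hG : Realises N u G)
    (τ : ℍ) {n : ℕ} (hn : ordAt τ G = (n : ℕ∞)) :
    H117.eord (sigmaTau N τ) u = (n : ℤ) := by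
  have hmd : G ∈ holoRing := hG.1.1
  rw [H117.eord, sigmaTau_of_realises hG hmd τ, taylorLaurent_apply]
  apply order_ofPowerSeries
  rw [order_taylorAt]
  exact hn

theorem realises_ne_zero {u : FF N} {G : ℍ → ℂ} (hG : Realises N u G) (hu : u ≠ 0) : G ≠ 0 := by
  intro h0
  have h := Realises.hasQExp hG
  have h1 : coeffMap iotaC ((u : FF N) : LaurentSeries Kbar) = 0 := (h.eq_zero_iff).mpr h0
  apply hu
  apply Subtype.ext
  apply coeffMap_iotaC_injective
  rw [h1]
  simp

/-- **REVERSE DICTIONARY.** -/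
theorem exists_analyticOrderAt_eq_mul {u : FF N} {G : ℍ → ℂ} (hG : Realises N u G) (hu : u ≠ 0)
    (p : ℕ) (hp : p ≠ 0) (hdiv : ∀ v : Place Kbar (FF N), (p : ℤ) ∣ v.ord u) (τ : ℍ) :
    ∃ m : ℕ, analyticOrderAt (G ∘ ofComplex) (τ : ℂ) = ((p * m : ℕ) : ℕ∞) := by
  have hmd : MDiff G := hG.1.1
  have hG0 : G ≠ 0 := realises_ne_zero hG hu
  have htop : ordAt τ G ≠ ⊤ := ordAt_ne_top hmd hG0 τ
  obtain ⟨n, hn⟩ := ENat.ne_top_iff_exists.mp htop
  have hord : H117.eord (sigmaTau N τ) u = (n : ℤ) := eord_sigmaTau_of_realises hG τ hn.symm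
  rw [← ordAt_def, ← hn]
  by_cases hnt : ∃ t : FF N, H117.eord (sigmaTau N τ) t ≠ 0
  · obtain ⟨k, hk, h⟩ := H117.exists_mult (K := Kbar) (sigmaTau N τ)
      (fun c => (eord_sigmaTau_algebraMap τ c).ge) hnt
    obtain ⟨j, hj⟩ := hdiv (H117.placeOfEmb (sigmaTau N τ)
      (fun c => (eord_sigmaTau_algebraMap τ c).ge) hnt)
    have h1 := h u
    rw [hord, hj] at h1
    have hk' : (0 : ℤ) < k := by exact_mod_cast hk
    have hp' : (0 : ℤ) < p := by exact_mod_cast Nat.pos_of_ne_zero hp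
    have hj0 : 0 ≤ j := by
      by_contra hneg
      push Not at hneg
      have : (k : ℤ) * (p * j) < 0 :=
        mul_neg_of_pos_of_neg hk' (mul_neg_of_pos_of_neg hp' hneg)
      omega
    refine ⟨k * j.toNat, ?_⟩
    have h2 : (n : ℤ) = ((p * (k * j.toNat) : ℕ) : ℤ) := by
      push_cast
      rw [Int.toNat_of_nonneg hj0, h1]
      ring
    have h3 : n = p * (k * j.toNat) := by exact_mod_cast h2
    rw [h3]
  · push Not at hnt
    have h1 := hnt u
    rw [hord] at h1
    have h3 : n = 0 := by exact_mod_cast h1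
    exact ⟨0, by rw [h3]; simp⟩

end Fermat.Agent.S30.H810

end
end
-- ===== PACK-END S30/H810/RevDict.lean

-- ===== PACK-BEGIN S30/H109/Onto.lean
section



/-!
# S30 / adic layer, piece ONTO (helper109): every torsion class is a Kummer class

`exists_isKum_of_torsion` : if `m • x = 0` in `J₀(N)(ℚ̄)` then `x` is the Kummer class
(`M4b.IsKum`) of an additive character `c : Γ₀(N) → ℤ/m`.

Input (hypothesis `DCStatement`, the converse direction of the dictionary DICT): a function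
`f ∈ FF N` all of whose orders at the places of `FF N / ℚ̄` are divisible by `m` has, after
multiplication by an `m`-th power, a holomorphic realisation all of whose analytic orders of
vanishing are divisible by `m`.  Then ROOT (landed `H751`) gives the `m`-th root `U`, which
transforms by a character of `Γ₀(N)`.
-/

set_option autoImplicit false

noncomputable section

open ModularCurve AlgebraicCurve CongruenceSubgroup UpperHalfPlane
open scoped MatrixGroups Manifold

namespace Fermat.Agent.S30.H109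

open Fermat.Agent.S24 Fermat.Agent.S29 Fermat.Agent.S29.M4b

/-- The converse dictionary: divisibility of all algebraic orders by `m` gives a holomorphic
realisation (up to an `m`-th power) with all analytic orders divisible by `m`. -/
def DCStatement (N m : ℕ) [NeZero N] : Prop :=
  ∀ f : FF N, f ≠ 0 → (∀ v : Place Kbar (FF N), (m : ℤ) ∣ v.ord f) →
    ∃ (t : FF N) (G : ℍ → ℂ), t ≠ 0 ∧ Realises N (f * t ^ m) G ∧
      ∀ τ : ℍ, ∃ k : ℕ, analyticOrderAt (G ∘ ofComplex) (τ : ℂ) = ((m * k : ℕ) : ℕ∞)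

section roots

variable (m : ℕ) [NeZero m]

lemma zetaP_isPrimitiveRoot : IsPrimitiveRoot (zetaP m) m :=
  Complex.isPrimitiveRoot_exp m (NeZero.ne m)

lemma zetaP_pow_val_add (a b : ZMod m) :
    zetaP m ^ (a + b).val = zetaP m ^ a.val * zetaP m ^ b.val := by
  rw [← pow_add]
  have h1 : (a + b).val = (a.val + b.val) % m := ZMod.val_add a b
  rw [h1]
  exact (pow_mod_orderOf_aux m).symm
where
  pow_mod_orderOf_aux (m : ℕ) [NeZero m] {n : ℕ} :
      zetaP m ^ n = zetaP m ^ (n % m) := by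
    conv_lhs => rw [← Nat.div_add_mod n m, pow_add, pow_mul,
      (zetaP_isPrimitiveRoot m).pow_eq_one, one_pow, one_mul]

lemma zetaP_pow_val_injective {a b : ZMod m}
    (h : zetaP m ^ a.val = zetaP m ^ b.val) : a = b := by
  apply ZMod.val_injective m
  exact (zetaP_isPrimitiveRoot m).pow_inj (ZMod.val_lt a) (ZMod.val_lt b) h

lemma exists_zmod_of_pow_eq_one {z : ℂ} (hz : z ^ m = 1) :
    ∃ c : ZMod m, zetaP m ^ c.val = z := by
  obtain ⟨i, hi, hiz⟩ := (zetaP_isPrimitiveRoot m).eq_pow_of_pow_eq_one hz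
  refine ⟨(i : ZMod m), ?_⟩
  rw [ZMod.val_natCast_of_lt hi, hiz]

end roots

section onto

variable (N : ℕ) [NeZero N] (m : ℕ) [NeZero m]

/-- The character of an `m`-th root of a `Γ₀(N)`-invariant function. -/
theorem exists_hom_hasChar {U : ℍ → ℂ} (hU : MDifferentiable 𝓘(ℂ) 𝓘(ℂ) U)
    (hne : ∃ τ, U τ ≠ 0)
    (hinv : ∀ γ ∈ Gamma0 N, ∀ τ : ℍ, U (γ • τ) ^ m = U τ ^ m) :
    ∃ c : G0 N → ZMod m, (∀ γ γ' : G0 N, c (γ * γ') = c γ + c γ') ∧ HasChar N m c U := by
  have hm : m ≠ 0 := NeZero.ne m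
  obtain ⟨τ₁, hτ₁⟩ := hne
  -- the constant attached to `γ`
  have key : ∀ γ : G0 N, ∃ c : ZMod m, ∀ τ : ℍ,
      U ((γ : SL(2, ℤ)) • τ) = zetaP m ^ c.val * U τ := by
    intro γ
    have hA1 : U ((γ : SL(2, ℤ)) • τ₁) ≠ 0 := by
      intro h0
      have := hinv γ γ.2 τ₁
      rw [h0, zero_pow hm] at this
      exact pow_ne_zero m hτ₁ this.symm
    set z : ℂ := U ((γ : SL(2, ℤ)) • τ₁) / U τ₁ with hz
    have hzm : z ^ m = 1 := by
      rw [hz, div_pow, hinv γ γ.2 τ₁, div_self (pow_ne_zero m hτ₁)]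
    obtain ⟨c, hc⟩ := exists_zmod_of_pow_eq_one m hzm
    refine ⟨c, fun τ => ?_⟩
    have hdet : 0 < ((Matrix.SpecialLinearGroup.mapGL ℝ (γ : SL(2, ℤ))).det : ℝ) := by
      simp
    have hAd : MDifferentiable 𝓘(ℂ) 𝓘(ℂ) (fun τ : ℍ => U ((γ : SL(2, ℤ)) • τ)) :=
      hU.comp (UpperHalfPlane.mdifferentiable_smul hdet)
    have hBd : MDifferentiable 𝓘(ℂ) 𝓘(ℂ) (fun τ : ℍ => zetaP m ^ c.val * U τ) :=
      (mdifferentiable_const (c := zetaP m ^ c.val)).mul hU
    have := H751.eq_of_pow_eq_UHP hAd hBd hm (fun τ => by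
      rw [hinv γ γ.2 τ, mul_pow, hc, hzm, one_mul]) (τ₀ := τ₁)
      (by
        simp only [hc, hz]
        field_simp) hA1
    exact congrFun this τ
  choose c hc using key
  refine ⟨c, fun γ γ' => ?_, fun γ τ => hc γ τ⟩
  apply zetaP_pow_val_injective m
  rw [zetaP_pow_val_add]
  have h1 := hc (γ * γ') τ₁
  have h2 := hc γ ((γ' : SL(2, ℤ)) • τ₁)
  have h3 := hc γ' τ₁
  have hsm : ((γ * γ' : G0 N) : SL(2, ℤ)) • τ₁ = (γ : SL(2, ℤ)) • ((γ' : SL(2, ℤ)) • τ₁) := by
    rw [Subgroup.coe_mul, mul_smul]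
  rw [hsm, h2, h3] at h1
  have h5 : zetaP m ^ (c γ).val * zetaP m ^ (c γ').val * U τ₁ =
      zetaP m ^ (c (γ * γ')).val * U τ₁ := by
    linear_combination h1
  exact (mul_right_cancel₀ hτ₁ h5).symm

/-- **ONTO.**  Every `m`-torsion class of `J₀(N)(ℚ̄)` is the Kummer class of an additive
character of `Γ₀(N)` with values in `ℤ/m`. -/
theorem exists_isKum_of_torsion (hDC : DCStatement N m) {x : JZero N}
    (hx : (m : ℤ) • x = 0) :
    ∃ c : G0 N → ZMod m, (∀ γ γ' : G0 N, c (γ * γ') = c γ + c γ') ∧ IsKum N m c x := by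
  have hm : m ≠ 0 := NeZero.ne m
  obtain ⟨f, hf⟩ := H455.exists_isKummerClass_of_zsmul_eq_zero hx
  have hdvd : ∀ v : Place Kbar (FF N), (m : ℤ) ∣ v.ord f := by
    obtain ⟨-, D, -, hD⟩ := hf
    exact fun v => ⟨_, (hD v).symm⟩
  obtain ⟨t, G, ht, hG, hord⟩ := hDC f hf.ne_zero hdvd
  have hGgood := hG.1
  obtain ⟨U, hUd, hUG⟩ := H751.exists_pow_eq_UHP hGgood.1 m hm hord
  have hpowfun : (fun τ => U τ ^ m) = G := funext hUG
  -- `G` is not identically zero
  have hGne : G ≠ 0 := by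
    intro h0
    have hq := hG.2
    have hmer := (H882.hasQExp_of_mem_goodRing hGgood).isMerInf
    rw [(H708.qexpFun_eq_zero_iff hmer).2 h0] at hq
    have hne : (f * t ^ m : FF N) ≠ 0 := mul_ne_zero hf.ne_zero (pow_ne_zero m ht)
    have hne' : ((f * t ^ m : FF N) : LaurentSeries Kbar) ≠ 0 := by
      intro h
      exact hne (Subtype.ext h)
    exact hne' ((map_eq_zero_iff _ (coeffMap Deg457.iotaC).injective).1 hq.symm)
  have hUne : ∃ τ, U τ ≠ 0 := by
    by_contra hcon
    simp only [not_exists, not_not] at hcon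
    apply hGne
    funext τ
    rw [← hUG τ, hcon τ, zero_pow hm]
    rfl
  obtain ⟨c, hcmul, hchar⟩ := exists_hom_hasChar N m hUd hUne (fun γ hγ τ => by
    rw [hUG, hUG, hGgood.2.1 γ hγ τ])
  refine ⟨c, hcmul, f, t, U, ht, hf, ⟨hUd, hUne, hchar, ?_⟩, ?_⟩
  · rw [hpowfun]
    exact hGgood
  · rw [hpowfun]
    exact hG

/-- The set of additive characters `Γ₀(N) → ℤ/m` is finite (`Γ₀(N)` is finitely generated). -/
theorem finite_hom_set :
    {c : G0 N → ZMod m | ∀ γ γ' : G0 N, c (γ * γ') = c γ + c γ'}.Finite := by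
  haveI : Group.FG SL(2, ℤ) := Group.fg_iff.mpr ⟨{ModularGroup.S, ModularGroup.T},
    SpecialLinearGroup.SL2Z_generators, by simp⟩
  haveI : Group.FG (G0 N) := inferInstance
  obtain ⟨s, hs⟩ := Group.fg_def.mp (inferInstance : Group.FG (G0 N))
  let T := {c : G0 N → ZMod m | ∀ γ γ' : G0 N, c (γ * γ') = c γ + c γ'}
  let r : T → (s → ZMod m) := fun c x => c.1 x
  have hr : Function.Injective r := by
    intro c d hcd
    have hc := c.2
    have hd := d.2
    have hc1 : c.1 1 = 0 := by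
      have := hc 1 1
      rw [mul_one] at this
      exact left_eq_add.mp this
    have hd1 : d.1 1 = 0 := by
      have := hd 1 1
      rw [mul_one] at this
      exact left_eq_add.mp this
    have hcinv : ∀ γ, c.1 γ⁻¹ = -c.1 γ := fun γ => by
      have := hc γ γ⁻¹
      rw [mul_inv_cancel, hc1] at this
      exact eq_neg_of_add_eq_zero_right this.symm
    have hdinv : ∀ γ, d.1 γ⁻¹ = -d.1 γ := fun γ => by
      have := hd γ γ⁻¹
      rw [mul_inv_cancel, hd1] at this
      exact eq_neg_of_add_eq_zero_right this.symm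
    apply Subtype.ext
    funext γ
    have hγ : γ ∈ Subgroup.closure (s : Set (G0 N)) := by rw [hs]; trivial
    induction hγ using Subgroup.closure_induction with
    | mem x hx => exact congrFun hcd ⟨x, hx⟩
    | one => rw [hc1, hd1]
    | mul x y _ _ hx hy => rw [hc, hd, hx, hy]
    | inv x _ hx => rw [hcinv, hdinv, hx]
  haveI : Finite T := Finite.of_injective r hr
  exact Set.toFinite T

/-- **FIN.**  `J₀(N)(ℚ̄)[m]` is finite, given the converse dictionary and the uniqueness of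
Kummer classes (piece `K4-UNIQ` of sub-layer M4b). -/
theorem finite_torsion (hDC : DCStatement N m)
    (huniq : ∀ (c : G0 N → ZMod m) (x x' : JZero N),
      IsKum N m c x → IsKum N m c x' → x = x') :
    {x : JZero N | m • x = 0}.Finite := by
  have key : ∀ x : {x : JZero N | m • x = 0}, ∃ c : G0 N → ZMod m,
      (∀ γ γ' : G0 N, c (γ * γ') = c γ + c γ') ∧ IsKum N m c x.1 := fun x =>
    exists_isKum_of_torsion N m hDC (by rw [natCast_zsmul]; exact x.2)
  choose c hc1 hc2 using key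
  let T := {c : G0 N → ZMod m | ∀ γ γ' : G0 N, c (γ * γ') = c γ + c γ'}
  haveI : Finite T := (finite_hom_set N m).to_subtype
  let φ : {x : JZero N | m • x = 0} → T := fun x => ⟨c x, hc1 x⟩
  have hinj : Function.Injective φ := by
    intro x y h
    have hxy : c x = c y := congrArg Subtype.val h
    apply Subtype.ext
    exact huniq (c x) x.1 y.1 (hc2 x) (hxy ▸ hc2 y)
  haveI : Finite {x : JZero N | m • x = 0} := Finite.of_injective φ hinj
  exact Set.toFinite _

end onto

end Fermat.Agent.S30.H109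

end
end
-- ===== PACK-END S30/H109/Onto.lean

-- ===== PACK-BEGIN S29/H102/KBasic.lean
section
/-
S29 / M4b / K4 (helper102) — basic lemmas shared by the K4 pieces.

* `KBasic_zetaP_pow`            : `zetaP p ^ p = 1`;
* `KBasic_expGrowth_of_pow`     : `ExpGrowth (F ^ p) → ExpGrowth F` (`p ≠ 0`);
* `KBasic_mem_goodRing_of_pow`  : a holomorphic `Γ₀(N)`-invariant `V` with `V ^ p` good is good;
* `KBasic_realises_hasQExp`     : `Realises N u G → HasQExp 1 G (coeffMap iotaC u)`;
* `KBasic_exists_root`          : a good function `V` whose `p`-th power realises `w ∈ FF N`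
                                  realises a `p`-th root `v ∈ FF N` of `w`
                                  (MERO + root descent + `F_ℂ ∩ ℚ̄((q)) = FF N`).
-/




set_option autoImplicit false

noncomputable section

open ModularCurve AlgebraicCurve CongruenceSubgroup UpperHalfPlane
open scoped MatrixGroups Manifold

namespace Fermat.Agent.S29.H102

open Fermat.Agent.S24 Fermat.Agent.S29 Fermat.Agent.S29.M4b
open Fermat.Agent.S24.H648 Fermat.Agent.S24.H708

theorem KBasic_zetaP_pow (p : ℕ) [NeZero p] : zetaP p ^ p = 1 := by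
  have hp : (p : ℂ) ≠ 0 := Nat.cast_ne_zero.mpr (NeZero.ne p)
  rw [zetaP, ← Complex.exp_nat_mul, mul_div_cancel₀ _ hp]
  exact Complex.exp_two_pi_mul_I

theorem KBasic_zetaP_ne_zero (p : ℕ) : zetaP p ≠ 0 := Complex.exp_ne_zero _

/-- `ζ_p ^ a = 1` iff `p ∣ a`. -/
theorem KBasic_zetaP_pow_eq_one_iff (p : ℕ) [NeZero p] (a : ℕ) : zetaP p ^ a = 1 ↔ p ∣ a := by
  have h : IsPrimitiveRoot (zetaP p) p := by
    have := Complex.isPrimitiveRoot_exp p (NeZero.ne p)
    simpa [zetaP] using this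
  exact h.pow_eq_one_iff_dvd a

/-- The character value only depends on the class mod `p`. -/
theorem KBasic_zetaP_pow_val_add (p : ℕ) [NeZero p] (a b : ZMod p) :
    zetaP p ^ (a + b).val = zetaP p ^ a.val * zetaP p ^ b.val := by
  rw [← pow_add, ZMod.val_add]
  conv_rhs => rw [← Nat.mod_add_div (a.val + b.val) p]
  rw [pow_add, pow_mul, KBasic_zetaP_pow, one_pow, mul_one]

theorem KBasic_expGrowth_of_pow {F : ℍ → ℂ} {p : ℕ} (hp : p ≠ 0)
    (h : ExpGrowth (fun τ => F τ ^ p)) : ExpGrowth F := by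
  obtain ⟨C, m, hC⟩ := h
  refine ⟨max C 1, m, fun τ hτ => ?_⟩
  have hexp : (1 : ℝ) ≤ Real.exp (2 * Real.pi * m * τ.im) := by
    apply Real.one_le_exp
    have := Real.pi_pos
    have := τ.im_pos
    positivity
  have hmax1 : (1 : ℝ) ≤ max C 1 := le_max_right _ _
  by_cases h1 : ‖F τ‖ ≤ 1
  · calc ‖F τ‖ ≤ 1 := h1
      _ = 1 * 1 := (one_mul 1).symm
      _ ≤ max C 1 * Real.exp (2 * Real.pi * m * τ.im) :=
          mul_le_mul hmax1 hexp zero_le_one (le_trans zero_le_one hmax1)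
  · have h1' : 1 ≤ ‖F τ‖ := le_of_lt (not_le.mp h1)
    have h2 : ‖F τ‖ ≤ ‖F τ‖ ^ p := le_self_pow₀ h1' hp
    have h3 : ‖F τ‖ ^ p ≤ C * Real.exp (2 * Real.pi * m * τ.im) := by
      have := hC τ hτ
      rwa [norm_pow] at this
    calc ‖F τ‖ ≤ ‖F τ‖ ^ p := h2
      _ ≤ C * Real.exp (2 * Real.pi * m * τ.im) := h3
      _ ≤ max C 1 * Real.exp (2 * Real.pi * m * τ.im) :=
          mul_le_mul_of_nonneg_right (le_max_left _ _) (Real.exp_pos _).le

theorem KBasic_mem_goodRing_of_pow {N : ℕ} {V : ℍ → ℂ} {p : ℕ} (hp : p ≠ 0)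
    (hV : MDifferentiable 𝓘(ℂ) 𝓘(ℂ) V)
    (hinv : ∀ γ ∈ Gamma0 N, ∀ τ : ℍ, V (γ • τ) = V τ)
    (hpow : (fun τ => V τ ^ p) ∈ goodRing N) : V ∈ goodRing N := by
  refine ⟨hV, hinv, fun g => ?_⟩
  exact KBasic_expGrowth_of_pow hp (hpow.2.2 g)

variable {N : ℕ} [NeZero N]

theorem KBasic_realises_hasQExp {u : FF N} {G : ℍ → ℂ} (h : Realises N u G) :
    HasQExp 1 G (coeffMap Deg457.iotaC ((u : FF N) : LaurentSeries Kbar)) :=
  ⟨H882.isMerInf_of_mem_goodRing h.1, h.2⟩

theorem KBasic_coeffMap_iotaC_injective :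
    Function.Injective (coeffMap Deg457.iotaC : LaurentSeries Kbar → LaurentSeries ℂ) := by
  intro x y h
  ext k
  have := congrArg (fun z : LaurentSeries ℂ => z.coeff k) h
  simp only [coeffMap_coeff] at this
  exact Deg457.iotaC.injective this

/-- **Analytic `p`-th roots are algebraic.**  If `V` is good of level `N` and `V ^ p` realises
`w ∈ FF N`, then `V` realises some `v ∈ FF N` with `v ^ p = w`. -/
theorem KBasic_exists_root {p : ℕ} (hp : p ≠ 0) {V : ℍ → ℂ} (hV : V ∈ goodRing N) {w : FF N}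
    (hw : Realises N w (fun τ => V τ ^ p)) :
    ∃ v : FF N, v ^ p = w ∧ Realises N v V := by
  have hVq : HasQExp 1 V (qexpFun 1 V) := H882.hasQExp_of_mem_goodRing hV
  have hVp : HasQExp 1 (fun τ => V τ ^ p) (qexpFun 1 V ^ p) := hVq.pow p
  have hwq := KBasic_realises_hasQExp hw
  have heq : qexpFun 1 V ^ p = coeffMap Deg457.iotaC ((w : FF N) : LaurentSeries Kbar) :=
    hVp.unique hwq
  obtain ⟨v₀, hv₀⟩ := RootDesc_laurent Deg457.iotaC hp (qexpFun 1 V)
    ((w : FF N) : LaurentSeries Kbar) heq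
  have hmem : v₀ ∈ modularFunctionFieldBar N := by
    apply H882.mem_laurentBaseChange_of_coeffMap_mem Deg457.iotaC (modularFunctionFieldFull N)
    rw [hv₀]
    exact H882.qexpFun_mem_FC hV
  refine ⟨⟨v₀, hmem⟩, ?_, hV, hv₀.symm⟩
  apply Subtype.ext
  apply KBasic_coeffMap_iotaC_injective
  show coeffMap Deg457.iotaC (v₀ ^ p) = _
  rw [map_pow, hv₀, heq]

end Fermat.Agent.S29.H102

end
end
-- ===== PACK-END S29/H102/KBasic.lean

-- ===== PACK-BEGIN S29/H102/KUniq.lean
section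
/-
S29 / M4b / PIECE `K4-UNIQ` (helper102): the Kummer class of a character is unique.

EXACT statement of `origin/helper822:Fermat/Agent/S29/M4b/Skeleton.lean` (`isKum_unique`):

    theorem isKum_unique (N : ℕ) [NeZero N] (p : ℕ) [NeZero p] {c : G0 N → ZMod p}
        {x x' : JZero N} (h : IsKum N p c x) (h' : IsKum N p c x') : x = x'

Proof.  Data `(f, t, U)`, `(f', t', U')`.  `V := U * U' ^ (p-1)` has trivial character and
`V ^ p = U ^ p * (U' ^ p) ^ (p-1)` is good, so `V` is good and realises a `p`-th root `v ∈ FF N`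
of `w := (f t^p) (f' t'^p)^(p-1)` (`KBasic_exists_root`: MERO + root descent + coefficient
descent).  Hence `f * f' ^ (p-1) = (v / (t * t' ^ (p-1))) ^ p`, so `x + (p-1) • x' = 0`; as
`p • x' = 0` we get `x = x'`.
-/


set_option autoImplicit false

noncomputable section

open ModularCurve AlgebraicCurve CongruenceSubgroup UpperHalfPlane
open scoped MatrixGroups Manifold

namespace Fermat.Agent.S29.H102

open Fermat.Agent.S24 Fermat.Agent.S29 Fermat.Agent.S29.M4b
open Fermat.Agent.S24.H648 Fermat.Agent.S24.H708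

section Algebra

variable {K F : Type*} [Field K] [Field F] [Algebra K F]

/-- Kummer classes of powers. -/
theorem KUniq_isKummerClass_pow {n : ℤ} {g : F} {y : Pic0 K F}
    (h : H455.IsKummerClass n g y) (k : ℕ) : H455.IsKummerClass n (g ^ k) (k • y) := by
  induction k with
  | zero =>
    rw [pow_zero, zero_nsmul]
    exact H455.IsKummerClass.zero
  | succ k ih =>
    rw [pow_succ, succ_nsmul]
    exact ih.add h

/-- The Kummer class of an `n`-th power is trivial. -/
theorem KUniq_eq_zero_of_pow {p : ℕ} (hp : p ≠ 0) {g : F} (hg : g ≠ 0) {y : Pic0 K F}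
    (h : H455.IsKummerClass (p : ℤ) (g ^ p) y) : y = 0 := by
  have hn : (p : ℤ) ≠ 0 := Int.natCast_ne_zero.mpr hp
  rw [h.eq_zero_iff hn]
  refine ⟨g, hg, fun v => ?_⟩
  rw [← zpow_natCast, Place.ord_zpow]

end Algebra

variable (N : ℕ) [NeZero N] (p : ℕ) [NeZero p]

omit [NeZero N] in
/-- The product `U * U' ^ (p-1)` of two twisted functions of the same character is
`Γ₀(N)`-invariant. -/
theorem KUniq_invariant {c : G0 N → ZMod p} {U U' : ℍ → ℂ} (hU : HasChar N p c U)
    (hU' : HasChar N p c U') (γ : SL(2, ℤ)) (hγ : γ ∈ Gamma0 N) (τ : ℍ) :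
    U (γ • τ) * U' (γ • τ) ^ (p - 1) = U τ * U' τ ^ (p - 1) := by
  have h1 := hU ⟨γ, hγ⟩ τ
  have h2 := hU' ⟨γ, hγ⟩ τ
  simp only at h1 h2
  rw [h1, h2, mul_pow]
  have hp : p - 1 + 1 = p := Nat.sub_add_cancel (Nat.one_le_iff_ne_zero.mpr (NeZero.ne p))
  have h3 : zetaP p ^ (c ⟨γ, hγ⟩).val * (zetaP p ^ (c ⟨γ, hγ⟩).val) ^ (p - 1) = 1 := by
    rw [← pow_succ', hp, ← pow_mul, mul_comm, pow_mul, KBasic_zetaP_pow, one_pow]
  calc zetaP p ^ (c ⟨γ, hγ⟩).val * U τ * ((zetaP p ^ (c ⟨γ, hγ⟩).val) ^ (p - 1) * U' τ ^ (p - 1))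
      = (zetaP p ^ (c ⟨γ, hγ⟩).val * (zetaP p ^ (c ⟨γ, hγ⟩).val) ^ (p - 1))
          * (U τ * U' τ ^ (p - 1)) := by ring
    _ = U τ * U' τ ^ (p - 1) := by rw [h3, one_mul]

/-- **PIECE `K4-UNIQ`.** -/
theorem isKum_unique {c : G0 N → ZMod p} {x x' : JZero N}
    (h : IsKum N p c x) (h' : IsKum N p c x') : x = x' := by
  obtain ⟨f, t, U, ht, hx, hU, hR⟩ := h
  obtain ⟨f', t', U', ht', hx', hU', hR'⟩ := h'
  have hp : p ≠ 0 := NeZero.ne p
  have hp1 : p - 1 + 1 = p := Nat.sub_add_cancel (Nat.one_le_iff_ne_zero.mpr hp)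
  -- the invariant function
  set V : ℍ → ℂ := fun τ => U τ * U' τ ^ (p - 1) with hVdef
  have hVmd : MDifferentiable 𝓘(ℂ) 𝓘(ℂ) V := hU.mdiff.mul (hU'.mdiff.pow (p - 1))
  have hVinv : ∀ γ ∈ Gamma0 N, ∀ τ : ℍ, V (γ • τ) = V τ := fun γ hγ τ =>
    KUniq_invariant N p hU.hasChar hU'.hasChar γ hγ τ
  have hVfun : (fun τ => V τ ^ p)
      = (fun τ => U τ ^ p) * (fun τ => U' τ ^ p) ^ (p - 1) := by
    funext τ
    simp only [hVdef, Pi.mul_apply, Pi.pow_apply]
    rw [mul_pow, ← pow_mul, ← pow_mul, mul_comm (p - 1) p]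
  have hVpow : (fun τ => V τ ^ p) ∈ goodRing N := by
    rw [hVfun]
    exact (goodRing N).mul_mem hR.1 ((goodRing N).pow_mem hR'.1 _)
  have hVgood : V ∈ goodRing N := KBasic_mem_goodRing_of_pow hp hVmd hVinv hVpow
  -- the algebraic function realised by `V ^ p`
  set w : FF N := (f * t ^ p) * (f' * t' ^ p) ^ (p - 1) with hwdef
  have hw : Realises N w (fun τ => V τ ^ p) := by
    refine ⟨hVpow, ?_⟩
    have h1 := (KBasic_realises_hasQExp hR).mul ((KBasic_realises_hasQExp hR').pow (p - 1))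
    rw [← hVfun] at h1
    rw [h1.qexpFun_eq, hwdef]
    simp only [MulMemClass.coe_mul, SubmonoidClass.coe_pow, map_mul, map_pow]
  obtain ⟨v, hvp, -⟩ := KBasic_exists_root hp hVgood hw
  -- `f * f' ^ (p-1)` is a `p`-th power
  have hf0 : f ≠ 0 := hx.ne_zero
  have hf0' : f' ≠ 0 := hx'.ne_zero
  have hd0 : t * t' ^ (p - 1) ≠ 0 := mul_ne_zero ht (pow_ne_zero _ ht')
  have hv0 : v ≠ 0 := by
    intro h0
    have : w = 0 := by rw [← hvp, h0, zero_pow hp]
    rw [hwdef] at this
    exact (mul_ne_zero (mul_ne_zero hf0 (pow_ne_zero _ ht))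
      (pow_ne_zero _ (mul_ne_zero hf0' (pow_ne_zero _ ht')))) this
  have hg0 : v / (t * t' ^ (p - 1)) ≠ 0 := div_ne_zero hv0 hd0
  have hpow : f * f' ^ (p - 1) = (v / (t * t' ^ (p - 1))) ^ p := by
    rw [div_pow, hvp, hwdef, eq_div_iff (pow_ne_zero _ hd0)]
    ring
  have hcl : H455.IsKummerClass (p : ℤ) (f * f' ^ (p - 1)) (x + (p - 1) • x') :=
    hx.add (KUniq_isKummerClass_pow hx' (p - 1))
  rw [hpow] at hcl
  have hzero : x + (p - 1) • x' = 0 := KUniq_eq_zero_of_pow hp hg0 hcl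
  have hpx' : p • x' = 0 := by
    have := hx'.zsmul_eq_zero
    rwa [natCast_zsmul] at this
  have h2 : (p - 1) • x' + x' = 0 := by
    rw [← succ_nsmul, hp1]
    exact hpx'
  have h3 : (p - 1) • x' = -x' := eq_neg_of_add_eq_zero_left h2
  rw [h3] at hzero
  exact eq_of_sub_eq_zero (by rw [sub_eq_add_neg]; exact hzero)

end Fermat.Agent.S29.H102

end
end
-- ===== PACK-END S29/H102/KUniq.lean

-- ===== PACK-BEGIN S30/H810/Fin.lean
section
/-
S30 / piece FIN (helper810): `J₀(N)(ℚ̄)[m]` is FINITE, unconditionally, for every `m ≥ 1`.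

* `dcStatement N m : H109.DCStatement N m` — the converse dictionary in helper109's shape,
  from the reverse dictionary `exists_analyticOrderAt_eq_mul` (`RevDict.lean`);
* `torsion_finite N m : {x : JZero N | m • x = 0}.Finite` — via helper109's `finite_torsion`
  and the landed M4b piece K4-UNIQ (`H102.isKum_unique`);
* `exists_hom_isKum_of_torsion` — ONTO with an additive character.
-/




set_option autoImplicit false
set_option linter.unusedSectionVars false

noncomputable section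

open ModularCurve AlgebraicCurve CongruenceSubgroup UpperHalfPlane HahnSeries
open scoped MatrixGroups Manifold

namespace Fermat.Agent.S30.H810

open Fermat.Agent.S24 Fermat.Agent.S24.H648 Fermat.Agent.S24.H708 Fermat.Agent.S24.Deg457
open Fermat.Agent.S24.H624 Fermat.Agent.S24.H997 Fermat.Agent.S29 Fermat.Agent.S29.M4b
open Fermat.Agent.S29.H882

variable (N : ℕ) [NeZero N]

/-- Clearing poles: every `f ∈ FF N` times a suitable `m`-th power is realised by a good
function. -/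
theorem exists_realises_mul_pow (m : ℕ) (hm : m ≠ 0) (f : FF N) :
    ∃ (t : FF N) (G : ℍ → ℂ), t ≠ 0 ∧ Realises N (f * t ^ m) G := by
  obtain ⟨r, t, ht, hft⟩ := exists_div_inclRN N f
  have ht' : inclRN N t ≠ 0 := fun h => ht (inclRN_injective N (by rw [h, map_zero]))
  obtain ⟨q, hq⟩ : ∃ q : ℕ, m = q + 1 := ⟨m - 1, by have := Nat.pos_of_ne_zero hm; omega⟩
  have hur : f * inclRN N t ^ m = inclRN N (r * t ^ q) := by
    rw [hft, hq, map_mul, map_pow, pow_succ]
    field_simp
  refine ⟨inclRN N t, realFun N (r * t ^ q), ht', realFun_mem N _, ?_⟩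
  rw [(realFun_hasQExp N (r * t ^ q)).qexpFun_eq, hur]
  rfl

/-- **The converse dictionary** in helper109's shape. -/
theorem dcStatement (m : ℕ) [NeZero m] : H109.DCStatement N m := by
  intro f hf hdiv
  have hm : m ≠ 0 := NeZero.ne m
  obtain ⟨t, G, ht, hG⟩ := exists_realises_mul_pow N m hm f
  refine ⟨t, G, ht, hG, fun τ => ?_⟩
  refine exists_analyticOrderAt_eq_mul hG (mul_ne_zero hf (pow_ne_zero _ ht)) m hm ?_ τ
  intro v
  rw [Place.ord_mul v hf (pow_ne_zero _ ht), H117.ord_pow]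
  exact dvd_add (hdiv v) (dvd_mul_right _ _)

/-- **FIN**: the `m`-torsion of `J₀(N)(ℚ̄)` is finite. -/
theorem torsion_finite (m : ℕ) [NeZero m] : {x : JZero N | m • x = 0}.Finite :=
  H109.finite_torsion N m (dcStatement N m)
    (fun _ _ _ h h' => H102.isKum_unique N m h h')

/-- **ONTO** with an additive character. -/
theorem exists_hom_isKum_of_torsion (m : ℕ) [NeZero m] {x : JZero N} (hx : (m : ℤ) • x = 0) :
    ∃ c : G0 N → ZMod m, (∀ γ γ' : G0 N, c (γ * γ') = c γ + c γ') ∧ IsKum N m c x :=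
  H109.exists_isKum_of_torsion N m (dcStatement N m) hx

end Fermat.Agent.S30.H810

end
end
-- ===== PACK-END S30/H810/Fin.lean

-- ===== PACK-BEGIN S30/H810/ParEll.lean
section
/-
S30 / piece ONTO (helper810), part 4: the character of a Kummer pair is ADDITIVE and vanishes on
elements acting trivially on `ℍ` and on elements with a FIXED POINT in `ℍ` (elliptic elements).

Setting: `U` twisted of character `c` (M4b `IsTwisted`), `U ^ m` realises `u ∈ FF N`, `u ≠ 0`, and
`m ∣ ord_v u` at every place `v` of `FF N / ℚ̄` (this is what `IsKum N m c x` provides).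
-/



set_option autoImplicit false
set_option linter.unusedSectionVars false

noncomputable section

open ModularCurve AlgebraicCurve CongruenceSubgroup UpperHalfPlane HahnSeries
open scoped MatrixGroups Manifold

namespace Fermat.Agent.S30.H810

open Fermat.Agent.S24 Fermat.Agent.S24.H648 Fermat.Agent.S24.H708 Fermat.Agent.S24.Deg457
open Fermat.Agent.S24.H624 Fermat.Agent.S24.H997 Fermat.Agent.S29 Fermat.Agent.S29.M4b
open Fermat.Agent.S29.H882

variable {N : ℕ} [NeZero N] {m : ℕ} [NeZero m]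

/-- The character of a twisted function is additive. -/
theorem IsTwisted.map_mul {c : G0 N → ZMod m} {U : ℍ → ℂ} (hU : IsTwisted N m c U)
    (γ γ' : G0 N) : c (γ * γ') = c γ + c γ' := by
  obtain ⟨τ, hτ⟩ := hU.ne_zero
  apply H109.zetaP_pow_val_injective m
  rw [H109.zetaP_pow_val_add]
  have h1 := hU.hasChar (γ * γ') τ
  have h2 := hU.hasChar γ (((γ' : G0 N) : SL(2, ℤ)) • τ)
  have h3 := hU.hasChar γ' τ
  have hmul : (((γ * γ' : G0 N) : SL(2, ℤ))) • τ
      = ((γ : G0 N) : SL(2, ℤ)) • (((γ' : G0 N) : SL(2, ℤ)) • τ) := by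
    rw [Subgroup.coe_mul, mul_smul]
  rw [hmul, h2, h3, ← mul_assoc] at h1
  exact (mul_right_cancel₀ hτ h1).symm

/-- The character of a twisted function vanishes on elements acting trivially on `ℍ`. -/
theorem IsTwisted.eq_zero_of_trivial {c : G0 N → ZMod m} {U : ℍ → ℂ} (hU : IsTwisted N m c U)
    (γ : G0 N) (hγ : ∀ τ : ℍ, ((γ : G0 N) : SL(2, ℤ)) • τ = τ) : c γ = 0 := by
  obtain ⟨τ, hτ⟩ := hU.ne_zero
  apply H109.zetaP_pow_val_injective m
  have h1 := hU.hasChar γ τ
  rw [hγ τ] at h1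
  have h2 : zetaP m ^ (c γ).val = 1 := by
    have : (1 : ℂ) * U τ = zetaP m ^ (c γ).val * U τ := by rw [one_mul]; exact h1
    exact (mul_right_cancel₀ hτ this).symm
  rw [h2, ZMod.val_zero, pow_zero]

theorem zetaP_pow_val_eq_one_iff (a : ZMod m) : zetaP m ^ a.val = 1 ↔ a = 0 := by
  constructor
  · intro h
    apply H109.zetaP_pow_val_injective m
    rw [h, ZMod.val_zero, pow_zero]
  · rintro rfl
    rw [ZMod.val_zero, pow_zero]

/-- a good function is fixed by `γ ∈ Γ₀(N)` in `holoRing` -/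
theorem smul_good_eq {A : holoRing} (hA : (A : ℍ → ℂ) ∈ goodRing N) {γ : SL(2, ℤ)}
    (hγ : γ ∈ Gamma0 N) : γ • A = A := by
  apply Subtype.ext
  funext τ
  rw [smul_holoRing_apply]
  exact hA.2.1 γ⁻¹ (inv_mem hγ) τ

/-- rotation relation for holomorphic functions at a fixed point -/
theorem leadingCoeff_taylorLaurent_smul {γ : SL(2, ℤ)} {τ : ℍ} (hτ : γ • τ = τ) (F : holoRing) :
    (taylorLaurent τ (γ • F)).leadingCoeff
      = rotFactor γ τ ^ (taylorLaurent τ F).order * (taylorLaurent τ F).leadingCoeff := by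
  have h := (laurentAt_smul_fixed_rotFactor hτ (algebraMap holoRing MerH F)).2
  rw [smul_algebraMap_MerH, laurentAt_algebraMap, laurentAt_algebraMap] at h
  exact h

/-- an invariant nonzero holomorphic function has order killed by the rotation factor -/
theorem rotFactor_zpow_order_eq_one {γ : SL(2, ℤ)} {τ : ℍ} (hτ : γ • τ = τ) {F : holoRing}
    (hF : F ≠ 0) (hinv : γ • F = F) : rotFactor γ τ ^ (taylorLaurent τ F).order = 1 := by
  have h := leadingCoeff_taylorLaurent_smul hτ F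
  rw [hinv] at h
  have hlc : (taylorLaurent τ F).leadingCoeff ≠ 0 :=
    HahnSeries.leadingCoeff_ne_zero.mpr (fun h0 => hF (taylorLaurent_injective τ (by
      rw [h0, map_zero])))
  have h2 : (1 : ℂ) * (taylorLaurent τ F).leadingCoeff
      = rotFactor γ τ ^ (taylorLaurent τ F).order * (taylorLaurent τ F).leadingCoeff := by
    rw [one_mul]; exact h
  exact (mul_right_cancel₀ hlc h2).symm

/-- the rotation factor kills the orders of the Taylor embedding `σ_τ` at a fixed point of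
`γ ∈ Γ₀(N)` -/
theorem rotFactor_zpow_eord_eq_one {γ : SL(2, ℤ)} (hγ : γ ∈ Gamma0 N) {τ : ℍ} (hτ : γ • τ = τ)
    {f : FF N} (hf : f ≠ 0) : rotFactor γ τ ^ H117.eord (sigmaTau N τ) f = 1 := by
  have key : ∀ r : RN N, r ≠ 0 → rotFactor γ τ ^ H117.eord (sigmaTau N τ) (inclRN N r) = 1 := by
    intro r hr
    rw [H117.eord, sigmaTau_inclRN]
    refine rotFactor_zpow_order_eq_one hτ ?_ (smul_good_eq (realRN N r).2 hγ)
    intro h0
    have h1 : realRN N r = 0 := goodToHolo_injective N (by rw [h0, map_zero])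
    exact hr (realRN_injective N (by rw [h1, map_zero]))
  obtain ⟨r, t, ht, hft⟩ := exists_div_inclRN N f
  have ht' : inclRN N t ≠ 0 := fun h => ht (inclRN_injective N (by rw [h, map_zero]))
  have hr : r ≠ 0 := by
    rintro rfl
    apply hf
    rw [hft, map_zero, zero_div]
  have hr' : inclRN N r ≠ 0 := fun h => hr (inclRN_injective N (by rw [h, map_zero]))
  rw [hft, div_eq_mul_inv, H117.eord_mul _ hr' (inv_ne_zero ht'), H117.eord_inv,
    zpow_add₀ (rotFactor_ne_zero γ τ), zpow_neg, key r hr, key t ht, inv_one, mul_one]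

theorem leadingCoeff_C_mul (a : ℂ) (x : LaurentSeries ℂ) :
    (HahnSeries.C a * x).leadingCoeff = a * x.leadingCoeff := by
  rw [HahnSeries.leadingCoeff_mul]
  congr 1
  rcases eq_or_ne a 0 with rfl | ha
  · simp
  · rw [HahnSeries.C_apply, HahnSeries.leadingCoeff_of_single]

/-- **ELLIPTIC CASE.** The character of a Kummer pair vanishes on every element of `Γ₀(N)` with a
fixed point in `ℍ`. -/
theorem IsTwisted.eq_zero_of_fixed {c : G0 N → ZMod m} {U : ℍ → ℂ} (hU : IsTwisted N m c U)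
    {u : FF N} (hG : Realises N u (fun τ => U τ ^ m))
    (hdiv : ∀ v : Place Kbar (FF N), (m : ℤ) ∣ v.ord u)
    (γ : G0 N) {τ₀ : ℍ} (hτ₀ : ((γ : G0 N) : SL(2, ℤ)) • τ₀ = τ₀) : c γ = 0 := by
  have hm : m ≠ 0 := NeZero.ne m
  have hgmem : ((γ : G0 N) : SL(2, ℤ))⁻¹ ∈ Gamma0 N := inv_mem γ.2
  have hgτ : ((γ : G0 N) : SL(2, ℤ))⁻¹ • τ₀ = τ₀ := inv_smul_of_fixed hτ₀
  set g : SL(2, ℤ) := ((γ : G0 N) : SL(2, ℤ))⁻¹ with hg
  set Uh : holoRing := ⟨U, hU.mdiff⟩ with hUh
  have hUh0 : Uh ≠ 0 := by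
    intro h0
    obtain ⟨τ, hτ⟩ := hU.ne_zero
    exact hτ (congrFun (congrArg Subtype.val h0) τ)
  have hTL0 : taylorLaurent τ₀ Uh ≠ 0 := fun h0 =>
    hUh0 (taylorLaurent_injective τ₀ (by rw [h0, map_zero]))
  -- (1) the twisted transformation rule in `holoRing`
  have h1 : g • Uh = algebraMap ℂ holoRing (zetaP m ^ (c γ).val) * Uh := by
    apply Subtype.ext
    funext τ
    rw [smul_holoRing_apply, hg, inv_inv]
    exact hU.hasChar γ τ
  have h2 := leadingCoeff_taylorLaurent_smul hgτ Uh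
  have hTLc : taylorLaurent τ₀ (algebraMap ℂ holoRing (zetaP m ^ (c γ).val))
      = HahnSeries.C (zetaP m ^ (c γ).val) := taylorLaurent_const τ₀ _ _ rfl
  rw [h1, _root_.map_mul, hTLc, leadingCoeff_C_mul] at h2
  have hlc : (taylorLaurent τ₀ Uh).leadingCoeff ≠ 0 := HahnSeries.leadingCoeff_ne_zero.mpr hTL0
  have h3 : zetaP m ^ (c γ).val = rotFactor g τ₀ ^ (taylorLaurent τ₀ Uh).order :=
    mul_right_cancel₀ hlc h2
  -- (2) the order of `u` under the Taylor embedding
  have hmd : (fun τ => U τ ^ m) ∈ holoRing := hG.1.1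
  have h4 : sigmaTau N τ₀ u = taylorLaurent τ₀ Uh ^ m := by
    rw [sigmaTau_of_realises hG hmd τ₀, ← map_pow]
    rfl
  have h5 : H117.eord (sigmaTau N τ₀) u = m * (taylorLaurent τ₀ Uh).order := by
    rw [H117.eord, h4, HahnSeries.order_pow, nsmul_eq_mul]
  have hm' : (m : ℤ) ≠ 0 := by exact_mod_cast hm
  -- (3) the rotation factor kills the order of `U`
  have h6 : rotFactor g τ₀ ^ (taylorLaurent τ₀ Uh).order = 1 := by
    by_cases hnt : ∃ t : FF N, H117.eord (sigmaTau N τ₀) t ≠ 0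
    · obtain ⟨k, hk, h⟩ := H117.exists_mult (K := Kbar) (sigmaTau N τ₀)
        (fun c => (eord_sigmaTau_algebraMap τ₀ c).ge) hnt
      obtain ⟨π, hπ0, hπ⟩ := H117.exists_ord_eq_one (H117.placeOfEmb (sigmaTau N τ₀)
        (fun c => (eord_sigmaTau_algebraMap τ₀ c).ge) hnt)
      have hk1 : rotFactor g τ₀ ^ (k : ℤ) = 1 := by
        have := rotFactor_zpow_eord_eq_one hgmem hgτ hπ0
        rwa [h π, hπ, mul_one] at this
      obtain ⟨j, hj⟩ := hdiv (H117.placeOfEmb (sigmaTau N τ₀)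
        (fun c => (eord_sigmaTau_algebraMap τ₀ c).ge) hnt)
      have h7 := h u
      rw [h5, hj] at h7
      have h8 : (taylorLaurent τ₀ Uh).order = k * j := by
        have : (m : ℤ) * (taylorLaurent τ₀ Uh).order = m * (k * j) := by rw [h7]; ring
        exact mul_left_cancel₀ hm' this
      rw [h8, zpow_mul, hk1, one_zpow]
    · push Not at hnt
      have h7 := hnt u
      rw [h5] at h7
      have h8 : (taylorLaurent τ₀ Uh).order = 0 := by
        rcases mul_eq_zero.mp h7 with h | h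
        · exact absurd h hm'
        · exact h
      rw [h8, zpow_zero]
  rw [h6] at h3
  exact (zetaP_pow_val_eq_one_iff _).mp h3

end Fermat.Agent.S30.H810

end
end
-- ===== PACK-END S30/H810/ParEll.lean

-- ===== PACK-BEGIN S30/H810/SigmaGen.lean
section
/-
S30 / piece ONTO (helper810), part 6: the embedding `σ_E : FF N → ℂ((z))` attached to an arbitrary
injective expansion `E : goodRing N →+* ℂ((z))`, and the dictionary for it.
-/


set_option autoImplicit false
set_option linter.unusedSectionVars false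

noncomputable section

open ModularCurve AlgebraicCurve CongruenceSubgroup UpperHalfPlane HahnSeries
open scoped MatrixGroups Manifold

namespace Fermat.Agent.S30.H810

open Fermat.Agent.S24 Fermat.Agent.S24.H648 Fermat.Agent.S24.H708 Fermat.Agent.S24.Deg457
open Fermat.Agent.S24.H624 Fermat.Agent.S24.H997 Fermat.Agent.S29 Fermat.Agent.S29.M4b
open Fermat.Agent.S29.H882

variable (N : ℕ) [NeZero N]

section

variable (E : goodRing N →+* LaurentSeries ℂ) (hE : Function.Injective E)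

/-- the embedding of `FF N` attached to an injective expansion of good functions -/
def sigmaOf : FF N →+* LaurentSeries ℂ :=
  liftF (E.comp (realRN N)) (hE.comp (realRN_injective N))

theorem sigmaOf_inclRN (r : RN N) : sigmaOf N E hE (inclRN N r) = E (realRN N r) :=
  liftF_inclRN _ _ r

theorem sigmaOf_algebraMap (hEc : ∀ c : ℂ, E (algebraMap ℂ (goodRing N) c) = HahnSeries.C c)
    (c : Kbar) : sigmaOf N E hE (algebraMap Kbar (FF N) c) = HahnSeries.C (iotaC c) := by
  rw [sigmaOf, liftF_algebraMap, RingHom.comp_apply]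
  have : realRN N (algebraMap Kbar (RN N) c) = algebraMap ℂ (goodRing N) (iotaC c) :=
    Subtype.ext (realFun_algebraMap N c)
  rw [this, hEc]

theorem eord_sigmaOf_algebraMap
    (hEc : ∀ c : ℂ, E (algebraMap ℂ (goodRing N) c) = HahnSeries.C c) (c : Kbar) :
    H117.eord (sigmaOf N E hE) (algebraMap Kbar (FF N) c) = 0 := by
  rw [H117.eord, sigmaOf_algebraMap N E hE hEc, HahnSeries.order_C]

variable {N}

theorem sigmaOf_of_realises {u : FF N} {G : ℍ → ℂ} (hG : Realises N u G)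
    (hGm : G ∈ goodRing N) : sigmaOf N E hE u = E ⟨G, hGm⟩ := by
  obtain ⟨r, t, ht, hu⟩ := exists_div_inclRN N u
  have ht' : inclRN N t ≠ 0 := fun h => ht (inclRN_injective N (by rw [h, map_zero]))
  have hmul : u * inclRN N t = inclRN N r := by
    rw [hu, div_mul_cancel₀ _ ht']
  have hcoe : ((u : FF N) : LaurentSeries Kbar) * (t : LaurentSeries Kbar)
      = (r : LaurentSeries Kbar) := by
    have := congrArg (fun x : FF N => (x : LaurentSeries Kbar)) hmul
    simpa using this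
  have hq : HasQExp 1 (G * realFun N t) (coeffMap iotaC (r : LaurentSeries Kbar)) := by
    have := (Realises.hasQExp hG).mul (realFun_hasQExp N t)
    rwa [← _root_.map_mul, hcoe] at this
  have hfun : G * realFun N t = realFun N r := hq.eq_of_eq (realFun_hasQExp N r)
  have hgood : (⟨G, hGm⟩ : goodRing N) * realRN N t = realRN N r := Subtype.ext hfun
  have hT0 : E (realRN N t) ≠ 0 := by
    intro h
    exact ht (realRN_injective N (hE (by rw [h, map_zero, map_zero])))
  rw [hu, map_div₀, sigmaOf_inclRN, sigmaOf_inclRN, ← hgood, _root_.map_mul, mul_div_assoc,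
    div_self hT0, mul_one]

/-- **Dictionary for `σ_E`**: if `d` divides the order of the expansion of every (nonzero) good
function realising an element of `R_N`, and `m ∣ ord_v u` at all places, then `d * m ∣ ord σ_E u`. -/
theorem mul_dvd_eord_sigmaOf
    (hEc : ∀ c : ℂ, E (algebraMap ℂ (goodRing N) c) = HahnSeries.C c)
    (d : ℤ) (hd : ∀ r : RN N, d ∣ (E (realRN N r)).order)
    {u : FF N} (m : ℤ) (hdiv : ∀ v : Place Kbar (FF N), m ∣ v.ord u) :
    d * m ∣ H117.eord (sigmaOf N E hE) u := by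
  have hdF : ∀ f : FF N, d ∣ H117.eord (sigmaOf N E hE) f := by
    intro f
    obtain ⟨r, t, ht, hft⟩ := exists_div_inclRN N f
    rcases eq_or_ne f 0 with rfl | hf
    · simp
    have ht' : inclRN N t ≠ 0 := fun h => ht (inclRN_injective N (by rw [h, map_zero]))
    have hr' : inclRN N r ≠ 0 := by
      intro h
      apply hf
      rw [hft, h, zero_div]
    rw [hft, div_eq_mul_inv, H117.eord_mul _ hr' (inv_ne_zero ht'), H117.eord_inv]
    refine dvd_add ?_ (Dvd.dvd.neg_right ?_)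
    · rw [H117.eord, sigmaOf_inclRN]; exact hd r
    · rw [H117.eord, sigmaOf_inclRN]; exact hd t
  by_cases hnt : ∃ t : FF N, H117.eord (sigmaOf N E hE) t ≠ 0
  · obtain ⟨k, hk, h⟩ := H117.exists_mult (K := Kbar) (sigmaOf N E hE)
      (fun c => (eord_sigmaOf_algebraMap N E hE hEc c).ge) hnt
    obtain ⟨π, hπ0, hπ⟩ := H117.exists_ord_eq_one (H117.placeOfEmb (sigmaOf N E hE)
      (fun c => (eord_sigmaOf_algebraMap N E hE hEc c).ge) hnt)
    have hdk : d ∣ (k : ℤ) := by
      have := hdF π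
      rwa [h π, hπ, mul_one] at this
    obtain ⟨j, hj⟩ := hdiv (H117.placeOfEmb (sigmaOf N E hE)
      (fun c => (eord_sigmaOf_algebraMap N E hE hEc c).ge) hnt)
    rw [h u, hj, ← mul_assoc]
    exact Dvd.dvd.mul_right (mul_dvd_mul_right hdk m) j
  · push Not at hnt
    rw [hnt u]
    exact dvd_zero _

end

end Fermat.Agent.S30.H810

end
end
-- ===== PACK-END S30/H810/SigmaGen.lean

-- ===== PACK-BEGIN S30/H810/ParCusp.lean
section
/-
S30 / piece ONTO (helper810), part 8: the PARABOLIC case.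

If `γ ∈ Γ₀(N)` satisfies `γ ∘ h = h ∘ (τ ↦ τ + n)` on `ℍ` (`h ∈ SL(2, ℤ)`, `n ≥ 1`), then the
character of a Kummer pair vanishes on `γ`.  Proof with `q_L`-expansions at the cusp `h ∞`,
`L = n m`: the shift by `n` twists the `j`-th coefficient by `ζ_m^j`.
-/



set_option autoImplicit false
set_option linter.unusedSectionVars false

noncomputable section

open ModularCurve AlgebraicCurve CongruenceSubgroup UpperHalfPlane HahnSeries
open scoped MatrixGroups Manifold Real

namespace Fermat.Agent.S30.H810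

open Fermat.Agent.S24 Fermat.Agent.S24.H648 Fermat.Agent.S24.H708 Fermat.Agent.S24.Deg457
open Fermat.Agent.S24.H624 Fermat.Agent.S24.H997 Fermat.Agent.S29 Fermat.Agent.S29.M4b
open Fermat.Agent.S29.H882

/-- iterating a quasi-periodicity -/
theorem vadd_iterate {f : ℍ → ℂ} {a : ℝ} {z : ℂ} (hf : ∀ τ : ℍ, f (a +ᵥ τ) = z * f τ) (j : ℕ)
    (τ : ℍ) : f (((j : ℝ) * a) +ᵥ τ) = z ^ j * f τ := by
  induction j generalizing τ with
  | zero => simp
  | succ j ih =>
    have h1 : (((j + 1 : ℕ) : ℝ) * a) +ᵥ τ = a +ᵥ (((j : ℝ) * a) +ᵥ τ) := by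
      rw [vadd_vadd]
      congr 1
      push_cast
      ring
    rw [h1, hf, ih, pow_succ]
    ring

theorem shiftUnit_eq_zetaP (n m : ℕ) [NeZero n] [NeZero m] :
    ((shiftUnit (n * m) (n : ℝ) : ℂˣ) : ℂ) = zetaP m := by
  rw [shiftUnit, Units.val_mk0, zetaP]
  congr 1
  have hn : (n : ℂ) ≠ 0 := Nat.cast_ne_zero.mpr (NeZero.ne n)
  have hm : (m : ℂ) ≠ 0 := Nat.cast_ne_zero.mpr (NeZero.ne m)
  push_cast
  field_simp

theorem zetaP_zpow_eq_one_iff (m : ℕ) [NeZero m] (k : ℤ) : zetaP m ^ k = 1 ↔ (m : ℤ) ∣ k :=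
  (H109.zetaP_isPrimitiveRoot m).zpow_eq_one_iff_dvd k

theorem mdiff_compSL {U : ℍ → ℂ} (hU : MDiff U) (γ : SL(2, ℤ)) :
    MDiff (fun τ => U (γ • τ)) :=
  (precompSL γ ⟨U, hU⟩).2

variable {N : ℕ} [NeZero N]

section Cusp

variable (h : SL(2, ℤ)) (L : ℕ) [NeZero L]
  (hper : ∀ A : ℍ → ℂ, A ∈ goodRing N → ∀ τ : ℍ, A (h • ((L : ℝ) +ᵥ τ)) = A (h • τ))

/-- composition with `h` maps good functions to `q_L`-meromorphic functions -/
theorem isMerInf_comp {A : ℍ → ℂ} (hA : A ∈ goodRing N)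
    (hperA : ∀ τ : ℍ, A (h • ((L : ℝ) +ᵥ τ)) = A (h • τ)) :
    IsMerInf L (fun τ => A (h • τ)) :=
  isMerInf_of_periodic (mdiff_compSL hA.1 h) hperA (hA.2.2 h)

/-- the ring hom `A ↦ A ∘ h` into `merInf L` -/
def compMer : goodRing N →+* merInf L where
  toFun A := ⟨fun τ => (A : ℍ → ℂ) (h • τ), isMerInf_comp h L A.2 (hper A A.2)⟩
  map_one' := rfl
  map_mul' _ _ := rfl
  map_zero' := rfl
  map_add' _ _ := rfl

theorem compMer_injective : Function.Injective (compMer h L hper) := by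
  intro A B hAB
  apply Subtype.ext
  funext τ
  have := congrFun (congrArg Subtype.val hAB) (h⁻¹ • τ)
  simpa [compMer] using this

/-- the expansion at the cusp `h ∞` -/
def cuspE : goodRing N →+* LaurentSeries ℂ :=
  ((qexpInf L : merInf L →ₐ[ℂ] LaurentSeries ℂ) : merInf L →+* LaurentSeries ℂ).comp
    (compMer h L hper)

theorem cuspE_apply (A : goodRing N) :
    cuspE h L hper A = qexpFun L (fun τ => (A : ℍ → ℂ) (h • τ)) := rfl

theorem cuspE_injective : Function.Injective (cuspE h L hper) :=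
  (qexpInf_injective L).comp (compMer_injective h L hper)

theorem cuspE_const (c : ℂ) : cuspE h L hper (algebraMap ℂ (goodRing N) c) = HahnSeries.C c := by
  rw [cuspE_apply]
  exact qexpFun_const L c

end Cusp

section CuspMain

variable {m : ℕ} [NeZero m]

/-- **Parabolic case.**  If `γ h = h (τ ↦ τ + n)` on `ℍ` with `n ≥ 1`, then `c γ = 0`. -/
theorem IsTwisted.eq_zero_of_cusp {c : G0 N → ZMod m} {U : ℍ → ℂ} (hU : IsTwisted N m c U)
    {u : FF N} (hG : Realises N u (fun τ => U τ ^ m))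
    (hdiv : ∀ v : Place Kbar (FF N), (m : ℤ) ∣ v.ord u)
    (γ : G0 N) (h : SL(2, ℤ)) (n : ℕ) [NeZero n]
    (hconj : ∀ τ : ℍ, ((γ : G0 N) : SL(2, ℤ)) • (h • τ) = h • ((n : ℝ) +ᵥ τ)) : c γ = 0 := by
  have hm0 : m ≠ 0 := NeZero.ne m
  haveI hL : NeZero (n * m) := ⟨Nat.mul_ne_zero (NeZero.ne n) (NeZero.ne m)⟩
  have hcast : ((m : ℝ) * (n : ℝ)) = (((n * m : ℕ) : ℝ)) := by push_cast; ring
  -- step 1: periodicity of good functions
  have hper1 : ∀ A : ℍ → ℂ, A ∈ goodRing N → ∀ τ : ℍ, A (h • ((n : ℝ) +ᵥ τ)) = A (h • τ) := by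
    intro A hA τ
    rw [← hconj τ]
    exact hA.2.1 γ γ.2 (h • τ)
  have hper : ∀ A : ℍ → ℂ, A ∈ goodRing N →
      ∀ τ : ℍ, A (h • (((n * m : ℕ) : ℝ) +ᵥ τ)) = A (h • τ) := by
    intro A hA τ
    have key := vadd_iterate (f := fun τ => A (h • τ)) (a := (n : ℝ)) (z := 1)
      (by intro τ; rw [one_mul]; exact hper1 A hA τ) m τ
    simp only [one_pow, one_mul] at key
    rw [← key, hcast]
  -- step 2: orders of expansions of good functions are divisible by `m`
  have hd : ∀ r : RN N, (m : ℤ) ∣ (cuspE h (n * m) hper (realRN N r)).order := by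
    intro r
    rw [cuspE_apply]
    set A : ℍ → ℂ := ((realRN N r : goodRing N) : ℍ → ℂ) with hA
    have hAm : A ∈ goodRing N := (realRN N r).2
    have hmer : IsMerInf (n * m) (fun τ => A (h • τ)) := isMerInf_comp h (n * m) hAm (hper A hAm)
    by_cases h0 : (fun τ => A (h • τ)) = 0
    · rw [h0]
      have : qexpFun (n * m) (0 : ℍ → ℂ) = 0 := (qexpFun_eq_zero_iff (IsMerInf.zero _)).mpr rfl
      rw [this, HahnSeries.order_zero]
      exact dvd_zero _
    · have h1 := shiftUnit_zpow_order_eq (HasQExp.of_isMerInf hmer) h0 (n : ℝ) 1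
        (by intro τ; rw [one_mul]; exact hper1 A hAm τ)
      rw [shiftUnit_eq_zetaP] at h1
      exact (zetaP_zpow_eq_one_iff m _).mp h1
  -- step 3: the twisted function at the cusp
  set V : ℍ → ℂ := fun τ => U (h • τ) with hV
  have hVmd : MDiff V := mdiff_compSL hU.mdiff h
  have hVq : ∀ τ : ℍ, V ((n : ℝ) +ᵥ τ) = zetaP m ^ (c γ).val * V τ := by
    intro τ
    show U (h • ((n : ℝ) +ᵥ τ)) = _
    rw [← hconj τ]
    exact hU.hasChar γ (h • τ)
  have hVper : ∀ τ : ℍ, V (((n * m : ℕ) : ℝ) +ᵥ τ) = V τ := by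
    intro τ
    have key := vadd_iterate hVq m τ
    have hz : (zetaP m ^ (c γ).val) ^ m = 1 := by
      rw [← pow_mul, mul_comm, pow_mul, H102.KBasic_zetaP_pow, one_pow]
    rw [hz, one_mul, hcast] at key
    exact key
  have hVg : ExpGrowth V := H102.KBasic_expGrowth_of_pow hm0 (hG.1.2.2 h)
  have hVmer : IsMerInf (n * m) V := isMerInf_of_periodic hVmd hVper hVg
  have hV0 : V ≠ 0 := by
    obtain ⟨τ, hτ⟩ := hU.ne_zero
    intro h0
    apply hτ
    have := congrFun h0 (h⁻¹ • τ)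
    simpa [hV] using this
  have hVQ : HasQExp (n * m) V (qexpFun (n * m) V) := HasQExp.of_isMerInf hVmer
  have h3 := shiftUnit_zpow_order_eq hVQ hV0 (n : ℝ) (zetaP m ^ (c γ).val) hVq
  rw [shiftUnit_eq_zetaP] at h3
  -- step 4: the embedding at the cusp
  have hσ : sigmaOf N (cuspE h (n * m) hper) (cuspE_injective h (n * m) hper) u
      = qexpFun (n * m) V ^ m := by
    rw [sigmaOf_of_realises _ _ hG hG.1, cuspE_apply]
    have hpow := hVQ.pow m
    have : (fun τ => ((⟨fun τ => U τ ^ m, hG.1⟩ : goodRing N) : ℍ → ℂ) (h • τ)) = V ^ m := by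
      funext τ
      rfl
    rw [this]
    exact hpow.2
  have hφ0 : qexpFun (n * m) V ≠ 0 := fun h0 => hV0 ((qexpFun_eq_zero_iff hVmer).mp h0)
  have he : H117.eord (sigmaOf N (cuspE h (n * m) hper) (cuspE_injective h (n * m) hper)) u
      = (m : ℤ) * (qexpFun (n * m) V).order := by
    rw [H117.eord, hσ, HahnSeries.order_pow, nsmul_eq_mul]
  have hdvd := mul_dvd_eord_sigmaOf (cuspE h (n * m) hper) (cuspE_injective h (n * m) hper)
    (cuspE_const h (n * m) hper) (m : ℤ) hd (m : ℤ) hdiv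
  rw [he] at hdvd
  have hmz : (m : ℤ) ≠ 0 := Int.natCast_ne_zero.mpr hm0
  have hdvd' : (m : ℤ) ∣ (qexpFun (n * m) V).order := (mul_dvd_mul_iff_left hmz).mp hdvd
  have h4 := (zetaP_zpow_eq_one_iff m _).mpr hdvd'
  rw [h3] at h4
  exact (zetaP_pow_val_eq_one_iff _).mp h4

end CuspMain

end Fermat.Agent.S30.H810

end
end
-- ===== PACK-END S30/H810/ParCusp.lean

-- ===== PACK-BEGIN S30/H810/ParHom.lean
section
/-
S30 / piece ONTO (helper810), part 9 (final): the character of a Kummer pair is PARABOLIC.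

* `isParHom_of_isKum : IsKum N m c x → IsParHom c` — the character of any Kummer pair is additive
  and vanishes on elliptic (finite order) and on parabolic (trace `±2`) elements of `Γ₀(N)`;
* `exists_isParHom_isKum_of_torsion : (m : ℤ) • x = 0 → ∃ c, IsParHom c ∧ IsKum N m c x` —
  **ONTO** in the final shape, for every modulus `m ≥ 1`, unconditionally.
-/



set_option autoImplicit false
set_option linter.unusedSectionVars false

noncomputable section

open ModularCurve AlgebraicCurve CongruenceSubgroup UpperHalfPlane HahnSeries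
open scoped MatrixGroups Manifold Real

namespace Fermat.Agent.S30.H810

open Fermat.Agent.S24 Fermat.Agent.S24.H648 Fermat.Agent.S24.H708 Fermat.Agent.S24.Deg457
open Fermat.Agent.S24.H624 Fermat.Agent.S24.H997 Fermat.Agent.S29 Fermat.Agent.S29.M4b
open Fermat.Agent.S29.H882

variable {N : ℕ} [NeZero N] {m : ℕ} [NeZero m]

theorem IsTwisted.map_one_eq_zero {c : G0 N → ZMod m} {U : ℍ → ℂ} (hU : IsTwisted N m c U) :
    c 1 = 0 := by
  have h := IsTwisted.map_mul hU 1 1
  rw [mul_one] at h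
  exact left_eq_add.mp h

theorem IsTwisted.map_inv_add {c : G0 N → ZMod m} {U : ℍ → ℂ} (hU : IsTwisted N m c U)
    (γ : G0 N) : c γ⁻¹ + c γ = 0 := by
  rw [← IsTwisted.map_mul hU, inv_mul_cancel, IsTwisted.map_one_eq_zero hU]

/-- parabolic case with a positive translation length -/
theorem IsTwisted.eq_zero_of_conj_pos {c : G0 N → ZMod m} {U : ℍ → ℂ} (hU : IsTwisted N m c U)
    {u : FF N} (hG : Realises N u (fun τ => U τ ^ m))
    (hdiv : ∀ v : Place Kbar (FF N), (m : ℤ) ∣ v.ord u)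
    (γ : G0 N) (h : SL(2, ℤ)) (n : ℤ) (hn : 0 < n)
    (hconj : ∀ τ : ℍ, ((γ : G0 N) : SL(2, ℤ)) • (h • τ) = h • (ModularGroup.T ^ n • τ)) :
    c γ = 0 := by
  haveI : NeZero n.toNat := ⟨by omega⟩
  refine IsTwisted.eq_zero_of_cusp hU hG hdiv γ h n.toNat fun τ => ?_
  rw [hconj τ, UpperHalfPlane.modular_T_zpow_smul]
  congr 2
  have : ((n.toNat : ℕ) : ℤ) = n := Int.toNat_of_nonneg hn.le
  exact_mod_cast this.symm

/-- **The character of a twisted function with `m`-divisible realised divisor is parabolic.** -/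
theorem isParHom_of_isTwisted {c : G0 N → ZMod m} {U : ℍ → ℂ} (hU : IsTwisted N m c U)
    {u : FF N} (hG : Realises N u (fun τ => U τ ^ m))
    (hdiv : ∀ v : Place Kbar (FF N), (m : ℤ) ∣ v.ord u) : IsParHom c := by
  refine ⟨IsTwisted.map_mul hU, ?_, ?_⟩
  · intro γ htr
    have ht : ((γ : G0 N) : SL(2, ℤ)) 0 0 + ((γ : G0 N) : SL(2, ℤ)) 1 1 = 2 ∨
        ((γ : G0 N) : SL(2, ℤ)) 0 0 + ((γ : G0 N) : SL(2, ℤ)) 1 1 = -2 := by
      simpa [G0.mat, Matrix.trace_fin_two] using htr
    obtain ⟨h, n, hconj⟩ := parabolic_conj ((γ : G0 N) : SL(2, ℤ)) ht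
    rcases lt_trichotomy n 0 with hn | rfl | hn
    · -- negative translation: pass to the inverse
      have hinv : c γ⁻¹ = 0 := by
        refine IsTwisted.eq_zero_of_conj_pos hU hG hdiv γ⁻¹ h (-n) (by omega) fun τ => ?_
        have h1 := hconj (ModularGroup.T ^ (-n) • τ)
        rw [← mul_smul (ModularGroup.T ^ n), ← zpow_add, add_neg_cancel, zpow_zero, one_smul] at h1
        rw [← h1]
        show ((γ⁻¹ : G0 N) : SL(2, ℤ)) • ((γ : G0 N) : SL(2, ℤ)) • _ = _
        rw [← mul_smul]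
        have : ((γ⁻¹ : G0 N) : SL(2, ℤ)) * ((γ : G0 N) : SL(2, ℤ)) = 1 := by
          rw [← Subgroup.coe_mul, inv_mul_cancel, Subgroup.coe_one]
        rw [this, one_smul]
      have := IsTwisted.map_inv_add hU γ
      rwa [hinv, zero_add] at this
    · -- trivial action
      refine IsTwisted.eq_zero_of_trivial hU γ fun τ => ?_
      have h1 := hconj (h⁻¹ • τ)
      rwa [zpow_zero, one_smul, ← mul_smul h, mul_inv_cancel, one_smul] at h1
    · exact IsTwisted.eq_zero_of_conj_pos hU hG hdiv γ h n hn hconj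
  · intro γ n hn hγ
    have hγ' : ((γ : G0 N) : SL(2, ℤ)) ^ n = 1 := by
      rw [← Subgroup.coe_pow, hγ, Subgroup.coe_one]
    rcases fixed_or_trivial_of_pow_eq_one _ n hn hγ' with h | ⟨τ₀, hτ₀⟩
    · exact IsTwisted.eq_zero_of_trivial hU γ h
    · exact IsTwisted.eq_zero_of_fixed hU hG hdiv γ hτ₀

/-- **The character of a Kummer pair is parabolic.** -/
theorem isParHom_of_isKum {c : G0 N → ZMod m} {x : JZero N} (hk : IsKum N m c x) :
    IsParHom c := by
  obtain ⟨f, t, U, ht, hx, hU, hR⟩ := hk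
  refine isParHom_of_isTwisted hU hR fun v => ?_
  have hf : f ≠ 0 := hx.ne_zero
  have hdvd : (m : ℤ) ∣ v.ord f := by
    obtain ⟨-, D, -, hD⟩ := hx
    exact ⟨_, (hD v).symm⟩
  rw [Place.ord_mul v hf (pow_ne_zero _ ht), H117.ord_pow]
  exact dvd_add hdvd (dvd_mul_right _ _)

variable (N m)

/-- **ONTO** (final shape): every `m`-torsion class of `J₀(N)(ℚ̄)` is the Kummer class of a
parabolic character `Γ₀(N) → ℤ/m`. -/
theorem exists_isParHom_isKum_of_torsion {x : JZero N} (hx : (m : ℤ) • x = 0) :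
    ∃ c : G0 N → ZMod m, IsParHom c ∧ IsKum N m c x := by
  obtain ⟨c, -, hc⟩ := exists_hom_isKum_of_torsion N m hx
  exact ⟨c, isParHom_of_isKum hc, hc⟩

end Fermat.Agent.S30.H810

end
end
-- ===== PACK-END S30/H810/ParHom.lean

-- ===== PACK-BEGIN S21/MSAssembly.lean
section



/-!
# S21 — assembly of MS (the minimizing sequence) from MS-A/B/C/E and INT-A..D
-/

set_option autoImplicit false

open ModularCurve ModularCurve.Period UpperHalfPlane CongruenceSubgroup Filter Topology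
open MeasureTheory
open scoped MatrixGroups ComplexConjugate ContDiff

namespace Fermat.Agent.S21

section Measure

variable (N : ℕ) [NeZero N] {χ₁ : ℂ → ℝ}

/-- the density of the energy measure as an `ℝ≥0`-valued function -/
noncomputable def chiNN (N : ℕ) (χ₁ : ℂ → ℝ) : ℂ → NNReal := fun z => (chi N χ₁ z).toNNReal

/-- the energy measure `χ dA` -/
noncomputable def nu (N : ℕ) (χ₁ : ℂ → ℝ) : Measure ℂ :=
  (volume : Measure ℂ).withDensity (fun z => (chiNN N χ₁ z : ENNReal))

theorem measurable_chiNN (hχ : IsSL2ZPartition χ₁) : Measurable (chiNN N χ₁) :=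
  (measurable_chi N hχ).real_toNNReal

omit [NeZero N] in
theorem chi_eq_zero_of_notMem {z : ℂ} (hz : z ∉ Uhp) : chi N χ₁ z = 0 :=
  Set.indicator_of_notMem hz _

theorem integral_nu (hχ : IsSL2ZPartition χ₁) (g : ℂ → ℝ) :
    ∫ z, g z ∂(nu N χ₁) = ∫ z, g z * chi N χ₁ z := by
  rw [nu, integral_withDensity_eq_integral_smul (measurable_chiNN N hχ)]
  refine integral_congr_ae (ae_of_all _ fun z => ?_)
  simp only [NNReal.smul_def, chiNN, Real.coe_toNNReal _ (chi_nonneg N hχ z), smul_eq_mul]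
  ring

theorem integrable_nu_iff (hχ : IsSL2ZPartition χ₁) {g : ℂ → ℝ} :
    Integrable g (nu N χ₁) ↔ Integrable (fun z => g z * chi N χ₁ z) := by
  rw [nu, integrable_withDensity_iff_integrable_smul (measurable_chiNN N hχ)]
  refine integrable_congr (ae_of_all _ fun z => ?_)
  simp only [NNReal.smul_def, chiNN, Real.coe_toNNReal _ (chi_nonneg N hχ z), smul_eq_mul]
  ring

theorem aesm_indicator {G : ℂ → ℂ} (hG : ContinuousOn G Uhp) (μ : Measure ℂ) :
    AEStronglyMeasurable (Set.indicator Uhp G) μ := by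
  rw [aestronglyMeasurable_indicator_iff isOpen_Uhp.measurableSet]
  exact hG.aestronglyMeasurable isOpen_Uhp.measurableSet

theorem memLp_indicator (hχ : IsSL2ZPartition χ₁) {G : ℂ → ℂ} (hG : ContinuousOn G Uhp)
    (hfin : Integrable (fun z => ‖G z‖ ^ 2 * chi N χ₁ z)) :
    MemLp (Set.indicator Uhp G) 2 (nu N χ₁) := by
  rw [memLp_two_iff_integrable_sq_norm (aesm_indicator hG _), integrable_nu_iff N hχ]
  refine hfin.congr (ae_of_all _ fun z => ?_)
  by_cases hz : z ∈ Uhp
  · simp [Set.indicator_of_mem hz]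
  · simp [Set.indicator_of_notMem hz, chi_eq_zero_of_notMem N hz]

theorem integrable_of_memLp_indicator (hχ : IsSL2ZPartition χ₁) {G : ℂ → ℂ}
    (hG : ContinuousOn G Uhp) (h : MemLp (Set.indicator Uhp G) 2 (nu N χ₁)) :
    Integrable (fun z => ‖G z‖ ^ 2 * chi N χ₁ z) := by
  rw [memLp_two_iff_integrable_sq_norm (aesm_indicator hG _), integrable_nu_iff N hχ] at h
  refine h.congr (ae_of_all _ fun z => ?_)
  by_cases hz : z ∈ Uhp
  · simp [Set.indicator_of_mem hz]
  · simp [Set.indicator_of_notMem hz, chi_eq_zero_of_notMem N hz]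

theorem inner_toLp_indicator (hχ : IsSL2ZPartition χ₁) {G₁ G₂ : ℂ → ℂ}
    (h₁ : MemLp (Set.indicator Uhp G₁) 2 (nu N χ₁))
    (h₂ : MemLp (Set.indicator Uhp G₂) 2 (nu N χ₁)) :
    inner ℝ (h₁.toLp _) (h₂.toLp _) = ∫ z, (inner ℝ (G₁ z) (G₂ z) : ℝ) * chi N χ₁ z := by
  rw [L2.inner_def]
  have e : ∫ z, (inner ℝ ((h₁.toLp _ : Lp ℂ 2 (nu N χ₁)) z) ((h₂.toLp _ : Lp ℂ 2 (nu N χ₁)) z) : ℝ)
        ∂(nu N χ₁)
      = ∫ z, (inner ℝ (Set.indicator Uhp G₁ z) (Set.indicator Uhp G₂ z) : ℝ) ∂(nu N χ₁) := by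
    refine integral_congr_ae ?_
    filter_upwards [h₁.coeFn_toLp, h₂.coeFn_toLp] with z e1 e2
    rw [e1, e2]
  rw [e, integral_nu N hχ]
  refine integral_congr_ae (ae_of_all _ fun z => ?_)
  by_cases hz : z ∈ Uhp
  · simp [Set.indicator_of_mem hz]
  · simp [Set.indicator_of_notMem hz, chi_eq_zero_of_notMem N hz]

theorem norm_sq_toLp_indicator (hχ : IsSL2ZPartition χ₁) {G : ℂ → ℂ}
    (h : MemLp (Set.indicator Uhp G) 2 (nu N χ₁)) :
    ‖h.toLp _‖ ^ 2 = ∫ z, ‖G z‖ ^ 2 * chi N χ₁ z := by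
  rw [← real_inner_self_eq_norm_sq, inner_toLp_indicator N hχ h h]
  refine integral_congr_ae (ae_of_all _ fun z => ?_)
  simp only [real_inner_self_eq_norm_sq]

end Measure

theorem inner_dz (u w : ℂ → ℝ) (z : ℂ) :
    (inner ℝ (dz u z) (dz w z) : ℝ)
      = fderiv ℝ u z 1 * fderiv ℝ w z 1 + fderiv ℝ u z Complex.I * fderiv ℝ w z Complex.I := by
  rw [Complex.inner]
  simp [dz]
  ring

theorem dz_const_mul {u : ℂ → ℝ} {z : ℂ} (hu : DifferentiableAt ℝ u z) (c : ℝ) :
    dz (fun w => c * u w) z = c * dz u z := by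
  unfold dz
  have : fderiv ℝ (fun w => c * u w) z = c • fderiv ℝ u z := fderiv_const_mul hu c
  rw [this]
  simp only [smul_apply, smul_eq_mul]
  push_cast
  ring

theorem dz_zero (z : ℂ) : dz (fun _ => (0 : ℝ)) z = 0 := by
  unfold dz
  simp

theorem isTest_add {η₁ η₂ : ℂ → ℝ} (h₁ : IsTest η₁) (h₂ : IsTest η₂) :
    IsTest (fun w => η₁ w + η₂ w) := by
  refine ⟨h₁.1.add h₂.1, h₁.2.1.add h₂.2.1, ?_⟩
  have : tsupport (fun w => η₁ w + η₂ w) ⊆ tsupport η₁ ∪ tsupport η₂ := by
    refine closure_minimal ?_ ((isClosed_tsupport _).union (isClosed_tsupport _))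
    intro z hz
    by_contra hcon
    simp only [Set.mem_union, not_or] at hcon
    apply hz
    show η₁ z + η₂ z = 0
    rw [image_eq_zero_of_notMem_tsupport hcon.1, image_eq_zero_of_notMem_tsupport hcon.2, add_zero]
  exact this.trans (Set.union_subset h₁.2.2 h₂.2.2)

theorem isTest_smul {η : ℂ → ℝ} (h : IsTest η) (c : ℝ) : IsTest (fun w => c * η w) := by
  refine ⟨contDiff_const.mul h.1, h.2.1.mul_left, ?_⟩
  have : tsupport (fun w => c * η w) ⊆ tsupport η := by
    refine closure_minimal ?_ (isClosed_tsupport _)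
    intro z hz
    by_contra hcon
    apply hz
    show c * η z = 0
    rw [image_eq_zero_of_notMem_tsupport hcon, mul_zero]
  exact this.trans h.2.2

theorem isTest_zero : IsTest (fun _ => (0 : ℝ)) := by
  refine ⟨contDiff_const, HasCompactSupport.zero, ?_⟩
  have : tsupport (fun _ : ℂ => (0 : ℝ)) = ∅ := by
    rw [tsupport_eq_empty_iff]; rfl
  rw [this]
  exact Set.empty_subset _

end Fermat.Agent.S21

namespace Fermat.Agent.S21

section Sub

variable (N : ℕ) [NeZero N] {χ₁ : ℂ → ℝ}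

theorem differentiableAt_sym {η : ℂ → ℝ} (hη : IsTest η) {z : ℂ} (hz : z ∈ Uhp) :
    DifferentiableAt ℝ (sym N η) z :=
  ((contDiffOn_sym N hη).differentiableOn (by norm_cast)).differentiableAt
    (isOpen_Uhp.mem_nhds hz)

theorem continuousOn_dz_sym {η : ℂ → ℝ} (hη : IsTest η) : ContinuousOn (dz (sym N η)) Uhp :=
  continuousOn_dz ((contDiffOn_sym N hη).of_le (by norm_cast))

theorem memLp_sym (hχ : IsSL2ZPartition χ₁) {η : ℂ → ℝ} (hη : IsTest η) :
    MemLp (Set.indicator Uhp (dz (sym N η))) 2 (nu N χ₁) :=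
  memLp_indicator N hχ (continuousOn_dz_sym N hη) (integrable_energy_sym N hχ hη)

theorem dz_sym_add {η₁ η₂ : ℂ → ℝ} (h₁ : IsTest η₁) (h₂ : IsTest η₂) {z : ℂ} (hz : z ∈ Uhp) :
    dz (sym N (fun w => η₁ w + η₂ w)) z = dz (sym N η₁) z + dz (sym N η₂) z := by
  have h : sym N (fun w => η₁ w + η₂ w) =ᶠ[𝓝 z] fun w => sym N η₁ w + sym N η₂ w := by
    filter_upwards [isOpen_Uhp.mem_nhds hz] with w hw
    exact sym_add N h₁ h₂ w hw
  rw [dz_congr h, dz_add (differentiableAt_sym N h₁ hz) (differentiableAt_sym N h₂ hz)]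

theorem dz_sym_smul {η : ℂ → ℝ} (hη : IsTest η) (c : ℝ) {z : ℂ} (hz : z ∈ Uhp) :
    dz (sym N (fun w => c * η w)) z = c * dz (sym N η) z := by
  have h : sym N (fun w => c * η w) =ᶠ[𝓝 z] fun w => c * sym N η w := by
    filter_upwards [isOpen_Uhp.mem_nhds hz] with w hw
    exact sym_smul N hη c w hw
  rw [dz_congr h, dz_const_mul (differentiableAt_sym N hη hz)]

/-- The space of (classes of) `dz` of symmetrized test functions. -/
noncomputable def Vsub (hχ : IsSL2ZPartition χ₁) : Submodule ℝ (Lp ℂ 2 (nu N χ₁)) where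
  carrier := {x | ∃ η : ℂ → ℝ, ∃ hη : IsTest η, x = (memLp_sym N hχ hη).toLp _}
  zero_mem' := by
    refine ⟨fun _ => 0, isTest_zero, ?_⟩
    have h0 : MemLp (0 : ℂ → ℂ) 2 (nu N χ₁) := MemLp.zero
    rw [← MemLp.toLp_zero h0]
    refine MemLp.toLp_congr _ _ (ae_of_all _ fun z => ?_)
    by_cases hz : z ∈ Uhp
    · rw [Set.indicator_of_mem hz]
      have h : sym N (fun _ => (0 : ℝ)) =ᶠ[𝓝 z] fun _ => (0 : ℝ) := by
        refine Filter.Eventually.of_forall fun w => ?_
        simp [sym]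
      rw [dz_congr h, dz_zero]
      rfl
    · rw [Set.indicator_of_notMem hz]
      rfl
  add_mem' := by
    rintro x y ⟨η₁, h₁, rfl⟩ ⟨η₂, h₂, rfl⟩
    refine ⟨fun w => η₁ w + η₂ w, isTest_add h₁ h₂, ?_⟩
    rw [← MemLp.toLp_add]
    refine MemLp.toLp_congr _ _ (ae_of_all _ fun z => ?_)
    by_cases hz : z ∈ Uhp
    · simp only [Pi.add_apply, Set.indicator_of_mem hz]
      rw [dz_sym_add N h₁ h₂ hz]
    · simp only [Pi.add_apply, Set.indicator_of_notMem hz, add_zero]
  smul_mem' := by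
    rintro c x ⟨η, hη, rfl⟩
    refine ⟨fun w => c * η w, isTest_smul hη c, ?_⟩
    rw [← MemLp.toLp_const_smul]
    refine MemLp.toLp_congr _ _ (ae_of_all _ fun z => ?_)
    by_cases hz : z ∈ Uhp
    · simp only [Pi.smul_apply, Set.indicator_of_mem hz]
      rw [dz_sym_smul N hη c hz]
      simp
    · simp only [Pi.smul_apply, Set.indicator_of_notMem hz, smul_zero]

end Sub

end Fermat.Agent.S21

namespace Fermat.Agent.S21

section Main

variable (N : ℕ) [NeZero N] {χ₁ : ℂ → ℝ}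

/-- invariance of `dz (sym η)` -/
theorem dz_sym_inv {η : ℂ → ℝ} (hη : IsTest η) (γ : Gamma0 N) {z : ℂ} (hz : z ∈ Uhp) :
    dz (sym N η) (mob (γ : SL(2, ℤ)) z) = (cd (γ : SL(2, ℤ)) z) ^ 2 * dz (sym N η) z := by
  refine asm_dz_inv ((contDiffOn_sym N hη).of_le (by norm_cast)) 0 (γ : SL(2, ℤ)) (fun w => ?_) hz
  rw [← mob_coe, sym_mob N hη γ _ (coe_mem_Uhp w), add_zero]

/-- The local `L²` estimate for differences of symmetrized test functions. -/
theorem ms_local (hχ : IsSL2ZPartition χ₁) {η₁ η₂ : ℂ → ℝ} (h₁ : IsTest η₁) (h₂ : IsTest η₂)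
    (K : Set ℂ) (hK : IsCompact K) (hKU : K ⊆ Uhp) (M : ℕ)
    (hM : ∀ w ∈ Uhp, {g : SL(2, ℤ) | mob g w ∈ K}.encard ≤ M) :
    ∫ z in K, ‖dz (sym N η₁) z - dz (sym N η₂) z‖ ^ 2
      ≤ M * ‖(memLp_sym N hχ h₁).toLp _ - (memLp_sym N hχ h₂).toLp _‖ ^ 2 := by
  set G : ℂ → ℂ := fun z => dz (sym N η₁) z - dz (sym N η₂) z with hG
  have hGc : ContinuousOn G Uhp := (continuousOn_dz_sym N h₁).sub (continuousOn_dz_sym N h₂)
  have hmem : MemLp (Set.indicator Uhp G) 2 (nu N χ₁) := by
    have := (memLp_sym N hχ h₁).sub (memLp_sym N hχ h₂)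
    refine this.ae_eq (ae_of_all _ fun z => ?_)
    by_cases hz : z ∈ Uhp
    · simp [Set.indicator_of_mem hz, hG]
    · simp [Set.indicator_of_notMem hz]
  have hfin := integrable_of_memLp_indicator N hχ hGc hmem
  have hinv : ∀ γ : Gamma0 N, ∀ z ∈ Uhp,
      G (mob (γ : SL(2, ℤ)) z) = (cd (γ : SL(2, ℤ)) z) ^ 2 * G z := by
    intro γ z hz
    simp only [hG]
    rw [dz_sym_inv N h₁ γ hz, dz_sym_inv N h₂ γ hz]
    ring
  have hfold := folding N hχ G hGc hinv hfin K hK.measurableSet hKU M hM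
  have heq : (memLp_sym N hχ h₁).toLp _ - (memLp_sym N hχ h₂).toLp _ = hmem.toLp _ := by
    rw [← MemLp.toLp_sub]
    refine MemLp.toLp_congr _ _ (ae_of_all _ fun z => ?_)
    by_cases hz : z ∈ Uhp
    · simp [Set.indicator_of_mem hz, hG]
    · simp [Set.indicator_of_notMem hz]
  rw [heq, norm_sq_toLp_indicator N hχ hmem]
  exact hfold

end Main

end Fermat.Agent.S21

namespace Fermat.Agent.S21

/-- **MS** (Dirichlet principle): an energy-minimizing sequence with periods `φ`. -/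
theorem exists_minimizing_sequence (N : ℕ) [NeZero N] (φ : Additive (Gamma0 N) →+ ℝ)
    (hφ : IsParabolicHom (Gamma0 N) φ) :
    ∃ u : ℕ → ℂ → ℝ,
      (∀ n, ContDiffOn ℝ ∞ (u n) Uhp) ∧
      (∀ n (γ : Gamma0 N) (z : ℍ),
          u n ↑((γ : SL(2, ℤ)) • z) = u n ↑z + φ (Additive.ofMul γ)) ∧
      (∀ K : Set ℂ, IsCompact K → K ⊆ Uhp → ∀ ε > 0, ∃ M, ∀ m ≥ M, ∀ n ≥ M,
          ∫ z in K, ‖dz (u n) z - dz (u m) z‖ ^ 2 < ε) ∧
      (∀ η : ℂ → ℝ, ContDiff ℝ ∞ η → HasCompactSupport η → tsupport η ⊆ Uhp →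
          Tendsto (fun n => ∫ z, (fderiv ℝ (u n) z 1 * fderiv ℝ η z 1
              + fderiv ℝ (u n) z Complex.I * fderiv ℝ η z Complex.I)) atTop (𝓝 0)) ∧
      (∀ δ : SL(2, ℤ), ∃ C : ℝ, ∀ n, ∀ Y : ℝ,
          ∫ z in strip Y, ‖dz (u n) (mob δ z)‖ ^ 2 / ‖cd δ z‖ ^ 4 ≤ C) := by
  obtain ⟨χ₁, hχ⟩ := exists_isSL2ZPartition
  obtain ⟨u₀, hu₀, hper₀, hcusp₀⟩ := exists_u0 N φ hφ
  have hu₀1 : ContDiffOn ℝ 1 u₀ Uhp := hu₀.of_le (by norm_cast)
  have hE₀ := integrable_energy_u0 N hχ u₀ hu₀ hcusp₀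
  have ha := memLp_indicator N hχ (continuousOn_dz hu₀1) hE₀
  obtain ⟨v, hvV, hvC, hvO, hvB⟩ := abstract_dirichlet (ha.toLp _) (Vsub N hχ)
  choose η hη hv using hvV
  -- the functions
  set u : ℕ → ℂ → ℝ := fun n z => u₀ z + sym N (η n) z with hu
  have hu_smooth : ∀ n, ContDiffOn ℝ ∞ (u n) Uhp := fun n =>
    hu₀.add (contDiffOn_sym N (hη n))
  have hu1 : ∀ n, ContDiffOn ℝ 1 (u n) Uhp := fun n => (hu_smooth n).of_le (by norm_cast)
  have hu_per : ∀ n (γ : Gamma0 N) (z : ℍ),
      u n ↑((γ : SL(2, ℤ)) • z) = u n ↑z + φ (Additive.ofMul γ) := by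
    intro n γ z
    simp only [hu]
    rw [hper₀ γ z, ← mob_coe, sym_mob N (hη n) γ _ (coe_mem_Uhp z)]
    ring
  have hdz : ∀ n, ∀ z ∈ Uhp, dz (u n) z = dz u₀ z + dz (sym N (η n)) z := by
    intro n z hz
    exact dz_add ((hu₀1.differentiableOn one_ne_zero).differentiableAt
      (isOpen_Uhp.mem_nhds hz)) (differentiableAt_sym N (hη n) hz)
  -- the class of `dz (u n)`
  have hmem : ∀ n, MemLp (Set.indicator Uhp (dz (u n))) 2 (nu N χ₁) := by
    intro n
    refine (ha.add (memLp_sym N hχ (hη n))).ae_eq (ae_of_all _ fun z => ?_)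
    by_cases hz : z ∈ Uhp
    · simp [Set.indicator_of_mem hz, hdz n z hz]
    · simp [Set.indicator_of_notMem hz]
  have hclass : ∀ n, ha.toLp _ + v n = (hmem n).toLp _ := by
    intro n
    rw [hv n, ← MemLp.toLp_add]
    refine MemLp.toLp_congr _ _ (ae_of_all _ fun z => ?_)
    by_cases hz : z ∈ Uhp
    · simp [Set.indicator_of_mem hz, hdz n z hz]
    · simp [Set.indicator_of_notMem hz]
  have hinv : ∀ n (γ : Gamma0 N), ∀ z ∈ Uhp,
      dz (u n) (mob (γ : SL(2, ℤ)) z) = (cd (γ : SL(2, ℤ)) z) ^ 2 * dz (u n) z :=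
    fun n γ z hz => asm_dz_inv (hu1 n) _ (γ : SL(2, ℤ)) (hu_per n γ) hz
  have hfin : ∀ n, Integrable (fun z => ‖dz (u n) z‖ ^ 2 * chi N χ₁ z) := fun n =>
    integrable_of_memLp_indicator N hχ (continuousOn_dz (hu1 n)) (hmem n)
  refine ⟨u, hu_smooth, hu_per, ?_, ?_, ?_⟩
  · -- local Cauchy
    intro K hK hKU ε hε
    obtain ⟨M, hM⟩ := mult_compact K hK hKU
    obtain ⟨M₀, hM₀⟩ := hvC (ε / (M + 1)) (by positivity)
    refine ⟨M₀, fun m hm n hn => ?_⟩
    have h1 := ms_local N hχ (hη n) (hη m) K hK hKU M hM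
    rw [← hv n, ← hv m] at h1
    have h2 := hM₀ m hm n hn
    have h3 : ∫ z in K, ‖dz (u n) z - dz (u m) z‖ ^ 2
        = ∫ z in K, ‖dz (sym N (η n)) z - dz (sym N (η m)) z‖ ^ 2 := by
      refine setIntegral_congr_fun hK.measurableSet fun z hz => ?_
      show ‖dz (u n) z - dz (u m) z‖ ^ 2 = ‖dz (sym N (η n)) z - dz (sym N (η m)) z‖ ^ 2
      rw [hdz n z (hKU hz), hdz m z (hKU hz)]
      congr 2
      ring
    rw [h3]
    have hMpos : (0 : ℝ) ≤ M := Nat.cast_nonneg M
    calc ∫ z in K, ‖dz (sym N (η n)) z - dz (sym N (η m)) z‖ ^ 2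
        ≤ M * ‖v n - v m‖ ^ 2 := h1
      _ ≤ M * (ε / (M + 1)) := by gcongr
      _ < ε := by
        rw [← mul_div_assoc, div_lt_iff₀ (by positivity)]
        nlinarith
  · -- weak harmonicity
    intro η' h1 h2 h3
    have hη' : IsTest η' := ⟨h1, h2, h3⟩
    have hw : (memLp_sym N hχ hη').toLp _ ∈ Vsub N hχ := ⟨η', hη', rfl⟩
    have := hvO _ hw
    refine this.congr fun n => ?_
    rw [hclass n, inner_toLp_indicator N hχ (hmem n) (memLp_sym N hχ hη')]
    simp_rw [inner_dz]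
    exact unfolding N hχ (u n) (hu1 n) (hinv n) hη'
  · -- cusp bound
    intro δ
    refine ⟨10 * (‖ha.toLp _‖ ^ 2 + 1), fun n Y => ?_⟩
    have hcv := setIntegral_mob δ (strip Y) (isCompact_strip Y).measurableSet
      (strip_subset_Uhp Y) (fun w => ‖dz (u n) w‖ ^ 2)
    rw [hcv]
    have hAc : IsCompact (mob δ '' strip Y) :=
      (isCompact_strip Y).image_of_continuousOn
        ((continuousOn_mob δ).mono (strip_subset_Uhp Y))
    have hAU : mob δ '' strip Y ⊆ Uhp := by
      rintro _ ⟨z, -, rfl⟩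
      exact mob_mem_Uhp δ z
    have hfold := folding N hχ (dz (u n)) (continuousOn_dz (hu1 n)) (hinv n) (hfin n) _
      hAc.measurableSet hAU 10 (fun w hw => by exact_mod_cast mult_strip δ Y w hw)
    have hnorm := norm_sq_toLp_indicator N hχ (hmem n)
    rw [← hclass n] at hnorm
    have hB := hvB n
    calc ∫ w in mob δ '' strip Y, ‖dz (u n) w‖ ^ 2
        ≤ ((10 : ℕ) : ℝ) * ∫ z, ‖dz (u n) z‖ ^ 2 * chi N χ₁ z := hfold
      _ = 10 * ‖ha.toLp _ + v n‖ ^ 2 := by rw [hnorm]; norm_num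
      _ ≤ 10 * (‖ha.toLp _‖ ^ 2 + 1) := by gcongr

end Fermat.Agent.S21

end
-- ===== PACK-END S21/MSAssembly.lean

-- ===== PACK-BEGIN S21/HodgeAssembly.lean
section





/-!
# S21 — assembly of D' (Hodge existence) from the interface pieces
-/

set_option autoImplicit false

open ModularCurve ModularCurve.Period UpperHalfPlane CongruenceSubgroup Filter Topology
open MeasureTheory
open scoped MatrixGroups ComplexConjugate ContDiff

namespace Fermat.Agent.S21

/-- The integrand `∇u · ∇η` is continuous with compact support. -/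
theorem asm_integrable_pair {u : ℂ → ℝ} (hu : ContDiffOn ℝ 1 u Uhp) {η : ℂ → ℝ}
    (hη : ContDiff ℝ ∞ η) (hc : HasCompactSupport η) (hs : tsupport η ⊆ Uhp) (a b : ℂ) :
    Integrable (fun z => fderiv ℝ u z a * fderiv ℝ η z b) := by
  have hcont : Continuous (fun z => fderiv ℝ u z a * fderiv ℝ η z b) := by
    rw [continuous_iff_continuousAt]
    intro z
    by_cases hz : z ∈ tsupport η
    · have hzU : z ∈ Uhp := hs hz
      have h1 : ContinuousOn (fderiv ℝ u) Uhp :=
        hu.continuousOn_fderiv_of_isOpen isOpen_Uhp le_rfl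
      have h2 : ContinuousAt (fderiv ℝ u) z := h1.continuousAt (isOpen_Uhp.mem_nhds hzU)
      have h3 : ContinuousAt (fun z => fderiv ℝ u z a) z :=
        (ContinuousLinearMap.apply ℝ ℝ a).continuous.continuousAt.comp h2
      have h4 : Continuous (fun z => fderiv ℝ η z b) :=
        (ContinuousLinearMap.apply ℝ ℝ b).continuous.comp
          (hη.continuous_fderiv (by norm_num))
      exact h3.mul h4.continuousAt
    · have hopen : IsOpen (tsupport η)ᶜ := (isClosed_tsupport η).isOpen_compl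
      have : (fun z => fderiv ℝ u z a * fderiv ℝ η z b) =ᶠ[𝓝 z] fun _ => 0 := by
        filter_upwards [hopen.mem_nhds hz] with w hw
        rw [fderiv_of_notMem_tsupport ℝ hw]
        simp
      exact (continuousAt_const).congr this.symm
  refine hcont.integrable_of_hasCompactSupport ?_
  refine hc.mono' ?_
  intro z hz
  by_contra hzn
  apply hz
  show fderiv ℝ u z a * fderiv ℝ η z b = 0
  rw [fderiv_of_notMem_tsupport ℝ hzn]
  simp

/-- The hypothesis `hweak` of the Weyl lemma for `g n = dz (u n)`. -/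
theorem asm_weak {u : ℕ → ℂ → ℝ} (hu : ∀ n, ContDiffOn ℝ ∞ (u n) Uhp)
    (hw : ∀ η : ℂ → ℝ, ContDiff ℝ ∞ η → HasCompactSupport η → tsupport η ⊆ Uhp →
          Tendsto (fun n => ∫ z, (fderiv ℝ (u n) z 1 * fderiv ℝ η z 1
              + fderiv ℝ (u n) z Complex.I * fderiv ℝ η z Complex.I)) atTop (𝓝 0))
    (η : ℂ → ℝ) (hη : ContDiff ℝ ∞ η) (hc : HasCompactSupport η) (hs : tsupport η ⊆ Uhp) :
    Tendsto (fun n => ∫ z, dz (u n) z *
          (((fderiv ℝ η z 1 : ℝ) : ℂ) + Complex.I * ((fderiv ℝ η z Complex.I : ℝ) : ℂ)))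
          atTop (𝓝 0) := by
  have key : ∀ n, ∫ z, dz (u n) z *
          (((fderiv ℝ η z 1 : ℝ) : ℂ) + Complex.I * ((fderiv ℝ η z Complex.I : ℝ) : ℂ))
      = ((∫ z, (fderiv ℝ (u n) z 1 * fderiv ℝ η z 1
              + fderiv ℝ (u n) z Complex.I * fderiv ℝ η z Complex.I) : ℝ) : ℂ) := by
    intro n
    have hu1 : ContDiffOn ℝ 1 (u n) Uhp := (hu n).of_le (by norm_num)
    have hu2 : ContDiffOn ℝ 2 (u n) Uhp := (hu n).of_le (by norm_cast)
    have i11 := asm_integrable_pair hu1 hη hc hs 1 1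
    have iII := asm_integrable_pair hu1 hη hc hs Complex.I Complex.I
    have i1I := asm_integrable_pair hu1 hη hc hs 1 Complex.I
    have iI1 := asm_integrable_pair hu1 hη hc hs Complex.I 1
    have hcurl := integral_curl_eq_zero (u n) hu2 η hη hc hs
    have hpt : ∀ z, dz (u n) z *
          (((fderiv ℝ η z 1 : ℝ) : ℂ) + Complex.I * ((fderiv ℝ η z Complex.I : ℝ) : ℂ))
        = (((fderiv ℝ (u n) z 1 * fderiv ℝ η z 1
              + fderiv ℝ (u n) z Complex.I * fderiv ℝ η z Complex.I : ℝ)) : ℂ)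
          + (((fderiv ℝ (u n) z 1 * fderiv ℝ η z Complex.I
              - fderiv ℝ (u n) z Complex.I * fderiv ℝ η z 1 : ℝ)) : ℂ) * Complex.I := by
      intro z
      unfold dz
      push_cast
      ring_nf
      rw [Complex.I_sq]
      ring
    simp_rw [hpt]
    rw [integral_add, integral_mul_const]
    · rw [integral_complex_ofReal, integral_complex_ofReal, hcurl]
      simp
    · exact (i11.add iII).ofReal
    · exact ((i1I.sub iI1).ofReal).mul_const _
  simp_rw [key]
  have := (Complex.continuous_ofReal.tendsto (0 : ℝ)).comp (hw η hη hc hs)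
  exact this

end Fermat.Agent.S21

namespace Fermat.Agent.S21

/-- `L²` convergence on compacts transfers under Möbius maps. -/
theorem asm_tendsto_mob {g : ℕ → ℂ → ℂ} {f : ℂ → ℂ}
    (hconv : ∀ K : Set ℂ, IsCompact K → K ⊆ Uhp →
      Tendsto (fun n => ∫ z in K, ‖g n z - f z‖ ^ 2) atTop (𝓝 0))
    (δ : SL(2, ℤ)) (K : Set ℂ) (hK : IsCompact K) (hKU : K ⊆ Uhp) :
    Tendsto (fun n => ∫ z in K, ‖g n (mob δ z) - f (mob δ z)‖ ^ 2 / ‖cd δ z‖ ^ 4)
      atTop (𝓝 0) := by
  have h1 : IsCompact (mob δ '' K) := hK.image_of_continuousOn ((continuousOn_mob δ).mono hKU)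
  have h2 : mob δ '' K ⊆ Uhp := by
    rintro _ ⟨z, -, rfl⟩
    exact mob_mem_Uhp δ z
  have h3 := hconv _ h1 h2
  have h4 : ∀ n, ∫ z in K, ‖g n (mob δ z) - f (mob δ z)‖ ^ 2 / ‖cd δ z‖ ^ 4
      = ∫ w in mob δ '' K, ‖g n w - f w‖ ^ 2 := fun n =>
    setIntegral_mob δ K hK.measurableSet hKU (fun w => ‖g n w - f w‖ ^ 2)
  simp_rw [h4]
  exact h3

theorem asm_integrableOn {F : ℂ → ℝ} {K : Set ℂ} (hK : IsCompact K) (hF : ContinuousOn F K) :
    IntegrableOn F K := hF.integrableOn_compact hK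

/-- If a continuous nonnegative function has arbitrarily small integral on every small closed
ball, it vanishes. -/
theorem asm_eq_zero_of_integral_le {D : ℂ → ℝ} (hD : ContinuousOn D Uhp) (hpos : ∀ z, 0 ≤ D z)
    (h : ∀ K : Set ℂ, IsCompact K → K ⊆ Uhp → ∫ z in K, D z ≤ 0) {z₀ : ℂ} (hz₀ : z₀ ∈ Uhp) :
    D z₀ = 0 := by
  by_contra hne
  have hpos0 : 0 < D z₀ := lt_of_le_of_ne (hpos z₀) (Ne.symm hne)
  -- a small ball where `D ≥ D z₀ / 2`
  have hopen : {z | z ∈ Uhp ∧ D z₀ / 2 < D z} ∈ 𝓝 z₀ := by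
    have h1 : Uhp ∈ 𝓝 z₀ := isOpen_Uhp.mem_nhds hz₀
    have h2 : ∀ᶠ z in 𝓝 z₀, D z₀ / 2 < D z := by
      have := (hD.continuousAt h1).eventually (lt_mem_nhds (show D z₀ / 2 < D z₀ by linarith))
      exact this
    filter_upwards [h1, h2] with z hz1 hz2 using ⟨hz1, hz2⟩
  obtain ⟨r, hr, hball⟩ := Metric.nhds_basis_closedBall.mem_iff.mp hopen
  have hKU : Metric.closedBall z₀ r ⊆ Uhp := fun z hz => (hball hz).1
  have hK : IsCompact (Metric.closedBall z₀ r) := isCompact_closedBall z₀ r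
  have hint := h _ hK hKU
  have hvol : 0 < (volume (Metric.closedBall z₀ r)).toReal := by
    refine ENNReal.toReal_pos ?_ ?_
    · exact (Metric.measure_closedBall_pos volume z₀ hr).ne'
    · exact hK.measure_lt_top.ne
  have hge : (D z₀ / 2) * (volume (Metric.closedBall z₀ r)).toReal
      ≤ ∫ z in Metric.closedBall z₀ r, D z := by
    have hc : ∫ _z in Metric.closedBall z₀ r, (D z₀ / 2) = (D z₀ / 2) * (volume (Metric.closedBall z₀ r)).toReal := by
      rw [setIntegral_const]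
      simp [Measure.real, mul_comm]
    rw [← hc]
    refine setIntegral_mono_on ?_ ?_ hK.measurableSet ?_
    · exact (continuousOn_const).integrableOn_compact hK
    · exact (hD.mono hKU).integrableOn_compact hK
    · intro z hz
      exact (hball hz).2.le
  have : 0 < (D z₀ / 2) * (volume (Metric.closedBall z₀ r)).toReal := by positivity
  linarith

end Fermat.Agent.S21

namespace Fermat.Agent.S21

theorem asm_cont_comp_mob {E : Type*} [TopologicalSpace E] {h : ℂ → E} (hh : ContinuousOn h Uhp)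
    (δ : SL(2, ℤ)) : ContinuousOn (fun z => h (mob δ z)) Uhp :=
  hh.comp (continuousOn_mob δ) fun z _ => mob_mem_Uhp δ z

theorem asm_norm_sq_add_le (a b : ℂ) : ‖a + b‖ ^ 2 ≤ 2 * ‖a‖ ^ 2 + 2 * ‖b‖ ^ 2 := by
  have h1 : ‖a + b‖ ≤ ‖a‖ + ‖b‖ := norm_add_le a b
  have h2 : ‖a + b‖ ^ 2 ≤ (‖a‖ + ‖b‖) ^ 2 := by
    apply pow_le_pow_left₀ (norm_nonneg _) h1
  nlinarith [sq_nonneg (‖a‖ - ‖b‖)]

/-- weight-2 invariance of the limit `f`. -/
theorem asm_f_inv {g : ℕ → ℂ → ℂ} {f : ℂ → ℂ} (hg : ∀ n, ContinuousOn (g n) Uhp)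
    (hf : ContinuousOn f Uhp)
    (hconv : ∀ K : Set ℂ, IsCompact K → K ⊆ Uhp →
      Tendsto (fun n => ∫ z in K, ‖g n z - f z‖ ^ 2) atTop (𝓝 0))
    (γ : SL(2, ℤ)) (hginv : ∀ n, ∀ z ∈ Uhp, g n (mob γ z) = (cd γ z) ^ 2 * g n z)
    {z₀ : ℂ} (hz₀ : z₀ ∈ Uhp) : f (mob γ z₀) = (cd γ z₀) ^ 2 * f z₀ := by
  set D : ℂ → ℝ := fun z => ‖f (mob γ z) - (cd γ z) ^ 2 * f z‖ ^ 2 / ‖cd γ z‖ ^ 4 with hD
  have hcdcont : ContinuousOn (fun z => ‖cd γ z‖ ^ 4) Uhp :=
    ((continuous_cd γ).norm.pow 4).continuousOn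
  have hcdpos : ∀ z ∈ Uhp, ‖cd γ z‖ ^ 4 ≠ 0 := fun z hz =>
    pow_ne_zero 4 (norm_ne_zero_iff.mpr (cd_ne_zero γ hz))
  have hDcont : ContinuousOn D Uhp := by
    refine ContinuousOn.div ?_ hcdcont hcdpos
    refine (ContinuousOn.norm ?_).pow 2
    exact (asm_cont_comp_mob hf γ).sub (((continuous_cd γ).pow 2).continuousOn.mul hf)
  have hDpos : ∀ z, 0 ≤ D z := fun z => by positivity
  have key : ∀ K : Set ℂ, IsCompact K → K ⊆ Uhp → ∫ z in K, D z ≤ 0 := by
    intro K hK hKU
    have ha := asm_tendsto_mob hconv γ K hK hKU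
    have hb := hconv K hK hKU
    have hlim : Tendsto (fun n => 2 * (∫ z in K, ‖g n (mob γ z) - f (mob γ z)‖ ^ 2 / ‖cd γ z‖ ^ 4)
        + 2 * ∫ z in K, ‖g n z - f z‖ ^ 2) atTop (𝓝 0) := by
      have := (ha.const_mul 2).add (hb.const_mul 2)
      simpa using this
    refine ge_of_tendsto' hlim fun n => ?_
    have hi1 : IntegrableOn (fun z => ‖g n (mob γ z) - f (mob γ z)‖ ^ 2 / ‖cd γ z‖ ^ 4) K := by
      refine ContinuousOn.integrableOn_compact hK (ContinuousOn.mono ?_ hKU)
      refine ContinuousOn.div ?_ hcdcont hcdpos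
      exact (((asm_cont_comp_mob (hg n) γ).sub (asm_cont_comp_mob hf γ)).norm).pow 2
    have hi2 : IntegrableOn (fun z => ‖g n z - f z‖ ^ 2) K :=
      ContinuousOn.integrableOn_compact hK ((((hg n).sub hf).norm.pow 2).mono hKU)
    rw [← integral_const_mul, ← integral_const_mul, ← integral_add (hi1.const_mul 2) (hi2.const_mul 2)]
    refine setIntegral_mono_on ((hDcont.mono hKU).integrableOn_compact hK)
      ((hi1.const_mul 2).add (hi2.const_mul 2)) hK.measurableSet fun z hz => ?_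
    have hzU := hKU hz
    have hne := cd_ne_zero γ hzU
    have hpos : 0 < ‖cd γ z‖ ^ 4 := by positivity
    have e : f (mob γ z) - (cd γ z) ^ 2 * f z
        = (f (mob γ z) - g n (mob γ z)) + (cd γ z) ^ 2 * (g n z - f z) := by
      rw [hginv n z hzU]; ring
    have h1 := asm_norm_sq_add_le (f (mob γ z) - g n (mob γ z)) ((cd γ z) ^ 2 * (g n z - f z))
    have h2 : ‖(cd γ z) ^ 2 * (g n z - f z)‖ ^ 2 = ‖cd γ z‖ ^ 4 * ‖g n z - f z‖ ^ 2 := by
      rw [norm_mul, norm_pow]; ring
    have h3 : ‖f (mob γ z) - g n (mob γ z)‖ = ‖g n (mob γ z) - f (mob γ z)‖ := norm_sub_rev _ _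
    show D z ≤ _
    simp only [hD]
    rw [e, div_le_iff₀ hpos]
    rw [h2, h3] at h1
    have : (2 * (‖g n (mob γ z) - f (mob γ z)‖ ^ 2 / ‖cd γ z‖ ^ 4) + 2 * ‖g n z - f z‖ ^ 2)
        * ‖cd γ z‖ ^ 4 = 2 * ‖g n (mob γ z) - f (mob γ z)‖ ^ 2
          + 2 * (‖cd γ z‖ ^ 4 * ‖g n z - f z‖ ^ 2) := by
      field_simp
    rw [this]
    exact h1
  have hzero := asm_eq_zero_of_integral_le hDcont hDpos key hz₀
  have hne := cd_ne_zero γ hz₀
  have hpos : 0 < ‖cd γ z₀‖ ^ 4 := by positivity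
  simp only [hD] at hzero
  rw [div_eq_zero_iff] at hzero
  rcases hzero with h | h
  · have := pow_eq_zero_iff (two_ne_zero) |>.mp h
    exact sub_eq_zero.mp (norm_eq_zero.mp this)
  · exact absurd h hpos.ne'

/-- The cusp-strip energy bound passes to the limit. -/
theorem asm_f_cusp {g : ℕ → ℂ → ℂ} {f : ℂ → ℂ} (hg : ∀ n, ContinuousOn (g n) Uhp)
    (hf : ContinuousOn f Uhp)
    (hconv : ∀ K : Set ℂ, IsCompact K → K ⊆ Uhp →
      Tendsto (fun n => ∫ z in K, ‖g n z - f z‖ ^ 2) atTop (𝓝 0))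
    (δ : SL(2, ℤ)) (C : ℝ) (Y : ℝ)
    (hC : ∀ n, ∫ z in strip Y, ‖g n (mob δ z)‖ ^ 2 / ‖cd δ z‖ ^ 4 ≤ C) :
    ∫ z in strip Y, ‖f (mob δ z)‖ ^ 2 / ‖cd δ z‖ ^ 4 ≤ C := by
  have hK := isCompact_strip Y
  have hKU := strip_subset_Uhp Y
  have hcdcont : ContinuousOn (fun z => ‖cd δ z‖ ^ 4) Uhp :=
    ((continuous_cd δ).norm.pow 4).continuousOn
  have hcdpos : ∀ z ∈ Uhp, ‖cd δ z‖ ^ 4 ≠ 0 := fun z hz =>
    pow_ne_zero 4 (norm_ne_zero_iff.mpr (cd_ne_zero δ hz))
  have hlim := asm_tendsto_mob hconv δ (strip Y) hK hKU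
  -- for every `ε > 0`: `b ≤ (1+ε) C + (1+1/ε) e_n`
  have hC0 : 0 ≤ C := by
    refine le_trans ?_ (hC 0)
    exact integral_nonneg fun z => by positivity
  refine le_of_forall_pos_le_add fun ε hε => ?_
  -- choose t with t * C ≤ ε
  obtain ⟨t, ht, htC⟩ : ∃ t : ℝ, 0 < t ∧ t * C ≤ ε := by
    refine ⟨ε / (C + 1), by positivity, ?_⟩
    rw [div_mul_eq_mul_div, div_le_iff₀ (by positivity)]
    nlinarith
  have hlim2 : Tendsto (fun n => (1 + t) * C + (1 + 1 / t) *
      ∫ z in strip Y, ‖g n (mob δ z) - f (mob δ z)‖ ^ 2 / ‖cd δ z‖ ^ 4) atTop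
      (𝓝 ((1 + t) * C + (1 + 1 / t) * 0)) :=
    tendsto_const_nhds.add (hlim.const_mul _)
  have hle : ∫ z in strip Y, ‖f (mob δ z)‖ ^ 2 / ‖cd δ z‖ ^ 4 ≤ (1 + t) * C + (1 + 1 / t) * 0 := by
    refine ge_of_tendsto' hlim2 fun n => ?_
    have hi0 : IntegrableOn (fun z => ‖f (mob δ z)‖ ^ 2 / ‖cd δ z‖ ^ 4) (strip Y) := by
      refine ContinuousOn.integrableOn_compact hK (ContinuousOn.mono ?_ hKU)
      exact ContinuousOn.div ((asm_cont_comp_mob hf δ).norm.pow 2) hcdcont hcdpos
    have hi1 : IntegrableOn (fun z => ‖g n (mob δ z)‖ ^ 2 / ‖cd δ z‖ ^ 4) (strip Y) := by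
      refine ContinuousOn.integrableOn_compact hK (ContinuousOn.mono ?_ hKU)
      exact ContinuousOn.div ((asm_cont_comp_mob (hg n) δ).norm.pow 2) hcdcont hcdpos
    have hi2 : IntegrableOn (fun z => ‖g n (mob δ z) - f (mob δ z)‖ ^ 2 / ‖cd δ z‖ ^ 4)
        (strip Y) := by
      refine ContinuousOn.integrableOn_compact hK (ContinuousOn.mono ?_ hKU)
      refine ContinuousOn.div ?_ hcdcont hcdpos
      exact (((asm_cont_comp_mob (hg n) δ).sub (asm_cont_comp_mob hf δ)).norm).pow 2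
    have hmono : ∫ z in strip Y, ‖f (mob δ z)‖ ^ 2 / ‖cd δ z‖ ^ 4
        ≤ ∫ z in strip Y, ((1 + t) * (‖g n (mob δ z)‖ ^ 2 / ‖cd δ z‖ ^ 4)
          + (1 + 1 / t) * (‖g n (mob δ z) - f (mob δ z)‖ ^ 2 / ‖cd δ z‖ ^ 4)) := by
      refine setIntegral_mono_on hi0 ((hi1.const_mul _).add (hi2.const_mul _))
        hK.measurableSet fun z hz => ?_
      have hzU := hKU hz
      have hne := cd_ne_zero δ hzU
      have hpos : 0 < ‖cd δ z‖ ^ 4 := by positivity
      have hpt : ‖f (mob δ z)‖ ^ 2 ≤ (1 + t) * ‖g n (mob δ z)‖ ^ 2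
          + (1 + 1 / t) * ‖g n (mob δ z) - f (mob δ z)‖ ^ 2 := by
        set a := ‖g n (mob δ z)‖
        set b := ‖g n (mob δ z) - f (mob δ z)‖
        have h1 : ‖f (mob δ z)‖ ≤ a + b := by
          have : f (mob δ z) = g n (mob δ z) - (g n (mob δ z) - f (mob δ z)) := by ring
          calc ‖f (mob δ z)‖ = ‖g n (mob δ z) - (g n (mob δ z) - f (mob δ z))‖ := by rw [← this]
            _ ≤ a + b := norm_sub_le _ _
        have ha : 0 ≤ a := norm_nonneg _
        have hb : 0 ≤ b := norm_nonneg _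
        have h2 : ‖f (mob δ z)‖ ^ 2 ≤ (a + b) ^ 2 := pow_le_pow_left₀ (norm_nonneg _) h1 2
        have h3 : 2 * a * b ≤ t * a ^ 2 + (1 / t) * b ^ 2 := by
          have := sq_nonneg (t * a - b)
          have e : t * a ^ 2 + (1 / t) * b ^ 2 - 2 * a * b = (t * a - b) ^ 2 / t := by
            field_simp
            ring
          have : 0 ≤ (t * a - b) ^ 2 / t := by positivity
          linarith
        nlinarith
      have : (1 + t) * (‖g n (mob δ z)‖ ^ 2 / ‖cd δ z‖ ^ 4)
          + (1 + 1 / t) * (‖g n (mob δ z) - f (mob δ z)‖ ^ 2 / ‖cd δ z‖ ^ 4)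
          = ((1 + t) * ‖g n (mob δ z)‖ ^ 2
              + (1 + 1 / t) * ‖g n (mob δ z) - f (mob δ z)‖ ^ 2) / ‖cd δ z‖ ^ 4 := by
        ring
      rw [this]
      exact div_le_div_of_nonneg_right hpt hpos.le
    rw [integral_add (hi1.const_mul _) (hi2.const_mul _), integral_const_mul,
      integral_const_mul] at hmono
    have := hC n
    have h1t : 0 ≤ 1 + t := by linarith
    nlinarith [mul_le_mul_of_nonneg_left this h1t]
  calc ∫ z in strip Y, ‖f (mob δ z)‖ ^ 2 / ‖cd δ z‖ ^ 4 ≤ (1 + t) * C + (1 + 1 / t) * 0 := hle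
    _ = C + t * C := by ring
    _ ≤ C + ε := by linarith

end Fermat.Agent.S21

namespace Fermat.Agent.S21

/-- **D'** (Hodge existence): every real parabolic homomorphism is the real part of the period
homomorphism of a cusp form. -/
theorem exists_cuspForm_re_period_eq (N : ℕ) [NeZero N] (φ : Additive (Gamma0 N) →+ ℝ)
    (hφ : IsParabolicHom (Gamma0 N) φ) :
    ∃ (f : CuspForm (Gamma0 N) 2) (F : ℍ → ℂ), HasEquivariantPrimitive N f F ∧
      ∀ γ : Gamma0 N,
        (F ((γ : SL(2, ℤ)) • UpperHalfPlane.I) - F UpperHalfPlane.I).re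
          = φ (Additive.ofMul γ) := by
  obtain ⟨u, hu_smooth, hu_per, hu_cauchy, hu_weak, hu_cusp⟩ :=
    exists_minimizing_sequence N φ hφ
  have hu1 : ∀ n, ContDiffOn ℝ 1 (u n) Uhp := fun n => (hu_smooth n).of_le (by norm_cast)
  have hg_cont : ∀ n, ContinuousOn (dz (u n)) Uhp := fun n => continuousOn_dz (hu1 n)
  obtain ⟨f, hf_diff, hf_conv⟩ :=
    weyl_lemma (fun n => dz (u n)) hg_cont hu_cauchy (asm_weak hu_smooth hu_weak)
  have hf_cont : ContinuousOn f Uhp := hf_diff.continuousOn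
  have hf_inv : ∀ (γ : Gamma0 N) (z : ℍ),
      f ↑((γ : SL(2, ℤ)) • z) = (cd (γ : SL(2, ℤ)) z) ^ 2 * f ↑z := by
    intro γ z
    have := asm_f_inv hg_cont hf_cont hf_conv (γ : SL(2, ℤ))
      (fun n w hw => asm_dz_inv (hu1 n) _ _ (hu_per n γ) hw) (coe_mem_Uhp z)
    rwa [mob_coe] at this
  have hf_cusp : ∀ δ : SL(2, ℤ), ∃ C : ℝ, ∀ Y : ℝ,
      ∫ z in strip Y, ‖f (mob δ z)‖ ^ 2 / ‖cd δ z‖ ^ 4 ≤ C := by
    intro δ
    obtain ⟨C, hC⟩ := hu_cusp δ
    exact ⟨C, fun Y => asm_f_cusp hg_cont hf_cont hf_conv δ C Y (fun n => hC n Y)⟩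
  obtain ⟨fc, hfc⟩ := exists_cuspForm_of_energy N f hf_diff hf_inv hf_cusp
  obtain ⟨F, hF⟩ := exists_primitive N fc
  refine ⟨fc, F, hF, fun γ => ?_⟩
  -- periods
  set v : ℕ → ℂ → ℝ := fun n z => u n z - (F (ofComplex z)).re with hv
  have hQ : ∀ z ∈ Uhp, HasDerivAt (F ∘ ofComplex) (f z) z := by
    intro z hz
    have := hF.1 ⟨z, hz⟩
    rw [hfc] at this
    exact this
  have hQdiff : DifferentiableOn ℂ (F ∘ ofComplex) Uhp := fun z hz =>
    (hQ z hz).differentiableAt.differentiableWithinAt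
  have hQsmooth : ContDiffOn ℝ 1 (fun z => (F (ofComplex z)).re) Uhp := by
    have h1 : ContDiffOn ℂ 1 (F ∘ ofComplex) Uhp := hQdiff.contDiffOn isOpen_Uhp
    have h2 : ContDiffOn ℝ 1 (F ∘ ofComplex) Uhp := h1.restrict_scalars ℝ
    exact Complex.reCLM.contDiff.comp_contDiffOn h2
  have hv1 : ∀ n, ContDiffOn ℝ 1 (v n) Uhp := fun n => (hu1 n).sub hQsmooth
  have hdzv : ∀ n, ∀ z ∈ Uhp, dz (v n) z = dz (u n) z - f z := by
    intro n z hz
    have hU := isOpen_Uhp.mem_nhds hz
    have d1 : DifferentiableAt ℝ (u n) z :=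
      ((hu1 n).differentiableOn one_ne_zero).differentiableAt hU
    have d2 : DifferentiableAt ℝ (fun z => (F (ofComplex z)).re) z :=
      (hQsmooth.differentiableOn one_ne_zero).differentiableAt hU
    have e := dz_sub d1 d2
    have e2 : dz (fun z => (F (ofComplex z)).re) z = f z := dz_re_of_hasDerivAt (hQ z hz)
    rw [e2] at e
    exact e
  have hconv : ∀ K : Set ℂ, IsCompact K → K ⊆ Uhp →
      Tendsto (fun n => ∫ z in K, ‖dz (v n) z‖ ^ 2) atTop (𝓝 0) := by
    intro K hK hKU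
    refine (hf_conv K hK hKU).congr fun n => ?_
    refine setIntegral_congr_fun hK.measurableSet fun z hz => ?_
    show ‖dz (u n) z - f z‖ ^ 2 = ‖dz (v n) z‖ ^ 2
    rw [hdzv n z (hKU hz)]
  have hper : ∀ n (z : ℍ), v n ↑((γ : SL(2, ℤ)) • z) = v n ↑z + (φ (Additive.ofMul γ)
      - (F ((γ : SL(2, ℤ)) • UpperHalfPlane.I) - F UpperHalfPlane.I).re) := by
    intro n z
    have h1 := hu_per n γ z
    have h2 := hF.2.2.1.sub_eq_period γ z
    have h3 := hF.2.2.1.sub_eq_period γ UpperHalfPlane.I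
    simp only [hv, ofComplex_apply]
    have : F ((γ : SL(2, ℤ)) • z)
        = F z + (F ((γ : SL(2, ℤ)) • UpperHalfPlane.I) - F UpperHalfPlane.I) := by
      rw [h3, ← h2]; ring
    rw [h1, this, Complex.add_re]
    ring
  have := period_eq_zero_of_tendsto v hv1 hconv (γ : SL(2, ℤ)) _ hper
  linarith

end Fermat.Agent.S21

end
-- ===== PACK-END S21/HodgeAssembly.lean

-- ===== PACK-BEGIN S21/Glue.lean
section



/-!
# S21 — glue: the frozen statement from the six interface theorems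
-/

set_option autoImplicit false

open ModularCurve ModularCurve.Period UpperHalfPlane CongruenceSubgroup Filter Topology
open scoped MatrixGroups ComplexConjugate

namespace Fermat.Agent.S21

variable {N : ℕ}

theorem hasEquivariantPrimitive_add {f g : CuspForm (Gamma0 N) 2} {F G : ℍ → ℂ}
    (hF : HasEquivariantPrimitive N f F) (hG : HasEquivariantPrimitive N g G) :
    HasEquivariantPrimitive N (f + g) (F + G) := by
  refine ⟨fun τ => ?_, ?_, fun γ => ?_, fun δ => ?_⟩
  · have := (hF.1 τ).add (hG.1 τ)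
    exact this
  · have := hF.2.1.add hG.2.1
    rw [add_zero] at this
    exact this
  · obtain ⟨c, hc⟩ := hF.2.2.1 γ
    obtain ⟨d, hd⟩ := hG.2.2.1 γ
    refine ⟨c + d, fun z => ?_⟩
    have h1 := hc z
    have h2 := hd z
    simp only [Pi.add_apply]
    linear_combination h1 + h2
  · obtain ⟨L, hL⟩ := hF.2.2.2 δ
    obtain ⟨M, hM⟩ := hG.2.2.2 δ
    exact ⟨L + M, hL.add hM⟩

theorem hasEquivariantPrimitive_smul (c : ℂ) {f : CuspForm (Gamma0 N) 2} {F : ℍ → ℂ}
    (hF : HasEquivariantPrimitive N f F) :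
    HasEquivariantPrimitive N (c • f) (c • F) := by
  refine ⟨fun τ => ?_, ?_, fun γ => ?_, fun δ => ?_⟩
  · have := (hF.1 τ).const_smul c
    exact this
  · have := hF.2.1.const_smul c
    rw [smul_zero] at this
    exact this
  · obtain ⟨d, hd⟩ := hF.2.2.1 γ
    refine ⟨c * d, fun z => ?_⟩
    have h1 := hd z
    simp only [Pi.smul_apply, smul_eq_mul]
    linear_combination c * h1
  · obtain ⟨L, hL⟩ := hF.2.2.2 δ
    exact ⟨c • L, hL.const_smul c⟩

theorem periodMap_eq_of_primitive {f : CuspForm (Gamma0 N) 2} {F : ℍ → ℂ}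
    (hF : HasEquivariantPrimitive N f F) :
    periodMap N f = hF.2.2.1.periodHom := by
  obtain ⟨F₀, h₀, h⟩ := periodMap_def N f hF
  have hFF : F₀ = F := primitive_unique N f h₀ hF
  subst hFF
  exact h

theorem periodMap_apply {f : CuspForm (Gamma0 N) 2} {F : ℍ → ℂ}
    (hF : HasEquivariantPrimitive N f F) (γ : Gamma0 N) :
    periodMap N f (Additive.ofMul γ)
      = F ((γ : SL(2, ℤ)) • UpperHalfPlane.I) - F UpperHalfPlane.I := by
  rw [periodMap_eq_of_primitive hF]
  rfl

variable (N) in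
theorem existsPeriodMapLinear [NeZero N] : ExistsPeriodMapLinear N := by
  refine ⟨{ toFun := periodMap N, map_add' := fun f g => ?_, map_smul' := fun c f => ?_ },
    fun f => rfl⟩
  · obtain ⟨F, hF⟩ := exists_primitive N f
    obtain ⟨G, hG⟩ := exists_primitive N g
    refine AddMonoidHom.ext fun γ => ?_
    obtain ⟨γ, rfl⟩ := Additive.ofMul.surjective γ
    rw [AddMonoidHom.add_apply, periodMap_apply hF, periodMap_apply hG,
      periodMap_apply (hasEquivariantPrimitive_add hF hG)]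
    simp only [Pi.add_apply]
    ring
  · obtain ⟨F, hF⟩ := exists_primitive N f
    refine AddMonoidHom.ext fun γ => ?_
    obtain ⟨γ, rfl⟩ := Additive.ofMul.surjective γ
    rw [RingHom.id_apply, AddMonoidHom.smul_apply, periodMap_apply hF,
      periodMap_apply (hasEquivariantPrimitive_smul c hF)]
    simp only [Pi.smul_apply, smul_eq_mul]
    ring

/-- The period map as a linear map. -/
noncomputable def periodLin (N : ℕ) [NeZero N] :
    CuspForm (Gamma0 N) 2 →ₗ[ℂ] (Additive (Gamma0 N) →+ ℂ) :=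
  (existsPeriodMapLinear N).choose

theorem periodLin_apply [NeZero N] (f : CuspForm (Gamma0 N) 2) :
    periodLin N f = periodMap N f :=
  (existsPeriodMapLinear N).choose_spec f

theorem periodHomPair_eq [NeZero N] :
    periodHomPair N = LinearMap.coprod
      ((LinearMap.id + charInvolution N ℂ ℂ) ∘ₗ periodLin N)
      ((LinearMap.id - charInvolution N ℂ ℂ) ∘ₗ periodLin N) := by
  unfold periodHomPair
  rw [dif_pos (existsPeriodMapLinear N)]
  rfl

theorem periodHomPair_apply [NeZero N] (f g : CuspForm (Gamma0 N) 2) (γ : Gamma0 N) :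
    periodHomPair N (f, g) (Additive.ofMul γ)
      = (periodMap N f (Additive.ofMul γ)
          + periodMap N f (Additive.ofMul (jConjGamma0 N γ)))
        + (periodMap N g (Additive.ofMul γ)
          - periodMap N g (Additive.ofMul (jConjGamma0 N γ))) := by
  rw [periodHomPair_eq]
  simp [LinearMap.coprod_apply, periodLin_apply, charInvolution_apply]

theorem periodMap_add [NeZero N] (f g : CuspForm (Gamma0 N) 2) :
    periodMap N (f + g) = periodMap N f + periodMap N g := by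
  rw [← periodLin_apply, map_add, periodLin_apply, periodLin_apply]

theorem periodMap_sub [NeZero N] (f g : CuspForm (Gamma0 N) 2) :
    periodMap N (f - g) = periodMap N f - periodMap N g := by
  rw [← periodLin_apply, map_sub, periodLin_apply, periodLin_apply]

theorem periodMap_smul [NeZero N] (c : ℂ) (f : CuspForm (Gamma0 N) 2) :
    periodMap N (c • f) = c • periodMap N f := by
  rw [← periodLin_apply, map_smul, periodLin_apply]

theorem periodMap_mem_parabolicHoms [NeZero N] (f : CuspForm (Gamma0 N) 2) :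
    periodMap N f ∈ parabolicHoms ℂ (Gamma0 N) ℂ :=
  periodMap_mem_parabolicHoms' N f

/-- C' restated with `periodMap`. -/
theorem eq_zero_of_re_periodMap_eq_zero [NeZero N] (f : CuspForm (Gamma0 N) 2)
    (h : ∀ γ : Gamma0 N, (periodMap N f (Additive.ofMul γ)).re = 0) : f = 0 := by
  obtain ⟨F, hF⟩ := exists_primitive N f
  refine eq_zero_of_re_period_eq_zero N f hF fun γ => ?_
  rw [← periodMap_apply hF]
  exact h γ

/-- D' restated with `periodMap`. -/
theorem exists_re_periodMap_eq [NeZero N] (φ : Additive (Gamma0 N) →+ ℝ)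
    (hφ : IsParabolicHom (Gamma0 N) φ) :
    ∃ f : CuspForm (Gamma0 N) 2, ∀ γ : Gamma0 N,
      (periodMap N f (Additive.ofMul γ)).re = φ (Additive.ofMul γ) := by
  obtain ⟨f, F, hF, h⟩ := exists_cuspForm_re_period_eq N φ hφ
  refine ⟨f, fun γ => ?_⟩
  rw [periodMap_apply hF]
  exact h γ

/-- E1 restated with `periodMap`. -/
theorem exists_star [NeZero N] (f : CuspForm (Gamma0 N) 2) :
    ∃ g : CuspForm (Gamma0 N) 2, ∀ γ : Gamma0 N,
      periodMap N g (Additive.ofMul γ)
        = - conj (periodMap N f (Additive.ofMul (jConjGamma0 N γ))) := by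
  obtain ⟨F, hF⟩ := exists_primitive N f
  obtain ⟨g, G, hG, h⟩ := exists_conj_partner N f hF
  refine ⟨g, fun γ => ?_⟩
  rw [periodMap_apply hG, periodMap_apply hF]
  exact h γ

theorem exists_star' [NeZero N] (f : CuspForm (Gamma0 N) 2) :
    ∃ g : CuspForm (Gamma0 N) 2, (∀ γ : Gamma0 N,
      periodMap N g (Additive.ofMul γ)
        = - conj (periodMap N f (Additive.ofMul (jConjGamma0 N γ)))) ∧
      ∀ γ : Gamma0 N, periodMap N g (Additive.ofMul (jConjGamma0 N γ))
        = - conj (periodMap N f (Additive.ofMul γ)) := by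
  obtain ⟨g, hg⟩ := exists_star f
  refine ⟨g, hg, fun γ => ?_⟩
  rw [hg, jConjGamma0_jConjGamma0]

/-- The `+`-part: `(1 + ι) P f = 0 → f = 0`. -/
theorem eq_zero_of_plus [NeZero N] (f : CuspForm (Gamma0 N) 2)
    (h : ∀ γ : Gamma0 N, periodMap N f (Additive.ofMul γ)
          + periodMap N f (Additive.ofMul (jConjGamma0 N γ)) = 0) : f = 0 := by
  obtain ⟨s, hs, -⟩ := exists_star' f
  -- `P s = conj (P f)`
  have hs' : ∀ γ : Gamma0 N,
      periodMap N s (Additive.ofMul γ) = conj (periodMap N f (Additive.ofMul γ)) := by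
    intro γ
    rw [hs, ← map_neg]
    congr 1
    linear_combination - h γ
  have h1 : f - s = 0 := by
    refine eq_zero_of_re_periodMap_eq_zero _ fun γ => ?_
    rw [periodMap_sub, AddMonoidHom.sub_apply, hs', Complex.sub_re, Complex.conj_re, sub_self]
  have h2 : (Complex.I : ℂ) • (f + s) = 0 := by
    refine eq_zero_of_re_periodMap_eq_zero _ fun γ => ?_
    rw [periodMap_smul, periodMap_add, AddMonoidHom.smul_apply, AddMonoidHom.add_apply, hs']
    simp
  have h3 : f + s = 0 := by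
    have := congrArg (fun x => (-Complex.I) • x) h2
    simpa [smul_smul] using this
  have h4 : f = s := sub_eq_zero.mp h1
  rw [← h4] at h3
  have h5 : (2 : ℂ) • f = 0 := by rw [two_smul]; exact h3
  have := congrArg (fun x => (2⁻¹ : ℂ) • x) h5
  simpa [smul_smul] using this

/-- The `-`-part: `(1 - ι) P g = 0 → g = 0`. -/
theorem eq_zero_of_minus [NeZero N] (g : CuspForm (Gamma0 N) 2)
    (h : ∀ γ : Gamma0 N, periodMap N g (Additive.ofMul γ)
          - periodMap N g (Additive.ofMul (jConjGamma0 N γ)) = 0) : g = 0 := by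
  obtain ⟨s, hs, -⟩ := exists_star' g
  -- `P s = - conj (P g)`
  have hs' : ∀ γ : Gamma0 N,
      periodMap N s (Additive.ofMul γ) = - conj (periodMap N g (Additive.ofMul γ)) := by
    intro γ
    rw [hs]
    congr 2
    linear_combination - h γ
  have h1 : g + s = 0 := by
    refine eq_zero_of_re_periodMap_eq_zero _ fun γ => ?_
    rw [periodMap_add, AddMonoidHom.add_apply, hs', Complex.add_re, Complex.neg_re,
      Complex.conj_re, add_neg_cancel]
  have h2 : (Complex.I : ℂ) • (g - s) = 0 := by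
    refine eq_zero_of_re_periodMap_eq_zero _ fun γ => ?_
    rw [periodMap_smul, periodMap_sub, AddMonoidHom.smul_apply, AddMonoidHom.sub_apply, hs']
    simp
  have h3 : g - s = 0 := by
    have := congrArg (fun x => (-Complex.I) • x) h2
    simpa [smul_smul] using this
  have h4 : g = s := sub_eq_zero.mp h3
  rw [← h4] at h1
  have h5 : (2 : ℂ) • g = 0 := by rw [two_smul]; exact h1
  have := congrArg (fun x => (2⁻¹ : ℂ) • x) h5
  simpa [smul_smul] using this

theorem periodHomPair_injective (N : ℕ) [NeZero N] : Function.Injective (periodHomPair N) := by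
  rw [injective_iff_map_eq_zero]
  rintro ⟨f, g⟩ hfg
  have key : ∀ γ : Gamma0 N,
      (periodMap N f (Additive.ofMul γ) + periodMap N f (Additive.ofMul (jConjGamma0 N γ)))
        + (periodMap N g (Additive.ofMul γ)
          - periodMap N g (Additive.ofMul (jConjGamma0 N γ))) = 0 := by
    intro γ
    rw [← periodHomPair_apply, hfg]
    rfl
  have hf : f = 0 := by
    refine eq_zero_of_plus f fun γ => ?_
    have h1 := key γ
    have h2 := key (jConjGamma0 N γ)
    rw [jConjGamma0_jConjGamma0] at h2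
    linear_combination (1 / 2 : ℂ) * h1 + (1 / 2 : ℂ) * h2
  have hg : g = 0 := by
    refine eq_zero_of_minus g fun γ => ?_
    have h1 := key γ
    have h2 := key (jConjGamma0 N γ)
    rw [jConjGamma0_jConjGamma0] at h2
    linear_combination (1 / 2 : ℂ) * h1 - (1 / 2 : ℂ) * h2
  rw [hf, hg]
  rfl

theorem periodHomPair_mem_parabolicHoms [NeZero N] (x : CuspForm (Gamma0 N) 2 × CuspForm (Gamma0 N) 2) :
    periodHomPair N x ∈ parabolicHoms ℂ (Gamma0 N) ℂ := by
  rw [periodHomPair_eq]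
  obtain ⟨f, g⟩ := x
  simp only [LinearMap.coprod_apply, LinearMap.comp_apply, LinearMap.add_apply,
    LinearMap.sub_apply, LinearMap.id_apply, periodLin_apply]
  have hf := periodMap_mem_parabolicHoms f
  have hg := periodMap_mem_parabolicHoms g
  exact Submodule.add_mem _
    (Submodule.add_mem _ hf (charInvolution_mem_parabolicHoms N ℂ ℂ hf))
    (Submodule.sub_mem _ hg (charInvolution_mem_parabolicHoms N ℂ ℂ hg))

/-- real part of a complex parabolic hom -/
noncomputable def reHom (ψ : Additive (Gamma0 N) →+ ℂ) : Additive (Gamma0 N) →+ ℝ :=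
  (Complex.reLm.toAddMonoidHom).comp ψ

/-- imaginary part of a complex parabolic hom -/
noncomputable def imHom (ψ : Additive (Gamma0 N) →+ ℂ) : Additive (Gamma0 N) →+ ℝ :=
  (Complex.imLm.toAddMonoidHom).comp ψ

theorem periodHomPair_surjective [NeZero N] (ψ : Additive (Gamma0 N) →+ ℂ)
    (hψ : ψ ∈ parabolicHoms ℂ (Gamma0 N) ℂ) : ∃ x, periodHomPair N x = ψ := by
  rw [mem_parabolicHoms_iff] at hψ
  have h1 : IsParabolicHom (Gamma0 N) (reHom ψ) := fun γ hγ => by
    show (ψ (Additive.ofMul γ)).re = 0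
    rw [hψ γ hγ]; rfl
  have h2 : IsParabolicHom (Gamma0 N) (imHom ψ) := fun γ hγ => by
    show (ψ (Additive.ofMul γ)).im = 0
    rw [hψ γ hγ]; rfl
  obtain ⟨f₁, hf₁⟩ := exists_re_periodMap_eq (reHom ψ) h1
  obtain ⟨f₂, hf₂⟩ := exists_re_periodMap_eq (imHom ψ) h2
  obtain ⟨s₁, -, hs₁⟩ := exists_star' f₁
  obtain ⟨s₂, -, hs₂⟩ := exists_star' (Complex.I • f₂)
  -- `ψ = ½ P(a) + ½ ι P(b)`, `a = f₁ + i f₂`, `b = s₂ - s₁`
  set a : CuspForm (Gamma0 N) 2 := f₁ + Complex.I • f₂ with ha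
  set b : CuspForm (Gamma0 N) 2 := s₂ - s₁ with hb
  refine ⟨((4⁻¹ : ℂ) • (a + b), (4⁻¹ : ℂ) • (a - b)), ?_⟩
  refine AddMonoidHom.ext fun γ => ?_
  obtain ⟨γ, rfl⟩ := Additive.ofMul.surjective γ
  rw [periodHomPair_apply]
  simp only [periodMap_smul, periodMap_add, periodMap_sub, AddMonoidHom.smul_apply,
    AddMonoidHom.add_apply, AddMonoidHom.sub_apply, ha, hb, hs₁, hs₂, smul_eq_mul]
  have e1 : (periodMap N f₁ (Additive.ofMul γ)).re = (ψ (Additive.ofMul γ)).re := hf₁ γ
  have e2 : (periodMap N f₂ (Additive.ofMul γ)).re = (ψ (Additive.ofMul γ)).im := hf₂ γ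
  apply Complex.ext
  · simp only [Complex.add_re, Complex.sub_re, Complex.mul_re, Complex.neg_re, Complex.conj_re,
      Complex.I_re, Complex.I_im, Complex.conj_im, Complex.add_im, Complex.sub_im, Complex.mul_im,
      Complex.neg_im, map_mul, Complex.conj_I, Complex.inv_re, Complex.inv_im]
    norm_num
    linarith
  · simp only [Complex.add_re, Complex.sub_re, Complex.mul_re, Complex.neg_re, Complex.conj_re,
      Complex.I_re, Complex.I_im, Complex.conj_im, Complex.add_im, Complex.sub_im, Complex.mul_im,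
      Complex.neg_im, map_mul, Complex.conj_I, Complex.inv_re, Complex.inv_im]
    norm_num
    linarith

theorem main (N : ℕ) [NeZero N] :
    Function.Injective (ModularCurve.periodHomPair N)
      ∧ LinearMap.range (ModularCurve.periodHomPair N)
          = ModularCurve.Period.parabolicHoms ℂ (CongruenceSubgroup.Gamma0 N) ℂ := by
  refine ⟨periodHomPair_injective N, le_antisymm ?_ ?_⟩
  · rintro ψ ⟨x, rfl⟩
    exact periodHomPair_mem_parabolicHoms x
  · intro ψ hψ
    exact periodHomPair_surjective ψ hψ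

end Fermat.Agent.S21

end
-- ===== PACK-END S21/Glue.lean

-- ===== PACK-BEGIN Lib/Ribet/H584/DeligneSerre.lean
section





/-!
# RIBET, piece R3b (helper584): Deligne–Serre lifting for weight 2, level `N`, any prime `p`

Let `𝕋 = heckeAlgebra N 2 S` be the Hecke algebra of `S₂(Γ₀(N))` away from a set `S` of primes.

* `exists_eigenform_of_prime` : for every prime ideal `𝔫` of `𝕋` there are a normalised eigenform
  `f` of level `N` (in the sense of the prelude: eigen for ALL `T_ℓ`, `U_q`), a ring homomorphism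
  `χ : 𝕋 → ℤ̄` with `χ (T_ℓ) = a_ℓ(f)` for the good primes `ℓ ∉ S`, and a maximal ideal `𝔪'` of
  `ℤ̄` with `χ(𝔫) ⊆ 𝔪'`.
* `exists_eigenform_of_ringHom` : the same for the kernel of a ring homomorphism `φ : 𝕋 → k` to a
  field of characteristic `p`; then `p ∈ 𝔪'`.
* `exists_eigenform_congr_of_ringHom` : congruence form (the shape of
  `WeierstrassCurve.IsResiduallyModularOfLevel`): if `φ (T_ℓ) = b ℓ` (image of an integer) for the
  good primes `ℓ ∉ S`, then `a_ℓ(f) - b ℓ ∈ 𝔪'`.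

Everything is assembled from landed pieces: S23 (integral structure), S49 (linear algebra,
going up), NEWFORM/H863 (normalisation of a common eigenvector).
-/

set_option autoImplicit false
open CuspForm CongruenceSubgroup ModularFormClass

namespace Fermat.Agent.Lib.Ribet.H584

variable {N : ℕ} [NeZero N] (S : Set ℕ)

/-- Every element of the Hecke algebra (away from `S`) is integral over `ℤ`. -/
theorem isIntegral_heckeAlgebra (t : heckeAlgebra N 2 S) : IsIntegral ℤ t := by
  have hbij := CuspForm.latticeRestrictHom_bijective N S (Fermat.Agent.S23.result N)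
  have h1 : IsIntegral ℤ (CuspForm.latticeRestrictHom N S t) :=
    Algebra.IsIntegral.isIntegral _
  exact (isIntegral_algHom_iff _ hbij.1).mp h1

/-- Going up for prime ideals: a maximal ideal of `ℤ̄` containing the image of a prime ideal
which contains the kernel. -/
theorem exists_maximal_over_prime {A : Type*} [CommRing A] (χ : A →+* integralClosure ℤ ℂ)
    (𝔫 : Ideal A) [𝔫.IsPrime] (h : RingHom.ker χ ≤ 𝔫) :
    ∃ 𝔪' : Ideal (integralClosure ℤ ℂ), 𝔪'.IsMaximal ∧ ∀ t ∈ 𝔫, χ t ∈ 𝔪' := by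
  let _ : Algebra A (integralClosure ℤ ℂ) := χ.toAlgebra
  have hint : Algebra.IsIntegral A (integralClosure ℤ ℂ) :=
    ⟨fun x => (Algebra.IsIntegral.isIntegral (R := ℤ) x).tower_top⟩
  obtain ⟨Q, -, hQ, hQc⟩ := Ideal.exists_ideal_over_prime_of_isIntegral 𝔫 (⊥ : Ideal _)
    (by
      intro t ht
      apply h
      rw [RingHom.mem_ker]
      have h1 : (algebraMap A (integralClosure ℤ ℂ)) t ∈ (⊥ : Ideal (integralClosure ℤ ℂ)) := ht
      exact Ideal.mem_bot.mp h1)
  obtain ⟨𝔪', h𝔪', hle⟩ := Ideal.exists_le_maximal Q hQ.ne_top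
  refine ⟨𝔪', h𝔪', fun t ht => hle ?_⟩
  have : t ∈ Q.comap (algebraMap A (integralClosure ℤ ℂ)) := hQc ▸ ht
  exact this

/-- **Deligne–Serre lifting**, prime-ideal form. -/
theorem exists_eigenform_of_prime (𝔫 : Ideal (heckeAlgebra N 2 S)) [𝔫.IsPrime] :
    ∃ (f : CuspForm (Gamma0 N) 2) (𝔪' : Ideal (integralClosure ℤ ℂ))
      (χ : heckeAlgebra N 2 S →+* integralClosure ℤ ℂ),
      f.IsNormalizedEigenform ∧ 𝔪'.IsMaximal ∧
      (∀ (ℓ : ℕ) (hℓ : ℓ.Prime) (hℓN : ¬ ℓ ∣ N) (hℓS : ℓ ∉ S),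
        ((χ (heckeAlgebra.T hℓ hℓN hℓS) : integralClosure ℤ ℂ) : ℂ) = qCoeff f ℓ) ∧
      (∀ t ∈ 𝔫, χ t ∈ 𝔪') := by
  classical
  have := Fermat.Agent.Lib.Newform.H863.finiteDimensional_cuspForm N
  obtain ⟨g, χ₀, hg, hχ₀, hker⟩ := Fermat.Agent.S49.exists_eigenvector_ker_le
    (K := ℂ) (V := CuspForm (Gamma0 N) 2)
    ((heckeAlgebra N 2 S).val.toRingHom) Subtype.val_injective 𝔫
  -- the eigencharacter takes values in the integral closure
  have hint : ∀ t, χ₀ t ∈ integralClosure ℤ ℂ := fun t =>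
    (isIntegral_heckeAlgebra S t).map χ₀.toIntAlgHom
  let χ : heckeAlgebra N 2 S →+* integralClosure ℤ ℂ :=
    χ₀.codRestrict (integralClosure ℤ ℂ).toSubring hint
  have hχ : ∀ t, ((χ t : integralClosure ℤ ℂ) : ℂ) = χ₀ t := fun t => rfl
  have hker' : RingHom.ker χ ≤ 𝔫 := by
    intro t ht
    apply hker
    rw [RingHom.mem_ker] at ht ⊢
    rw [← hχ, ht]
    rfl
  obtain ⟨𝔪', h𝔪', hover⟩ := exists_maximal_over_prime χ 𝔫 hker'
  -- normalise
  set lam : ℕ → ℂ := fun ℓ =>
    if h : ℓ.Prime ∧ ¬ ℓ ∣ N ∧ ℓ ∉ S then χ₀ (heckeAlgebra.T h.1 h.2.1 h.2.2) else 0 with hlam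
  have heig : ∀ (ℓ : ℕ) (hℓ : ℓ.Prime) (hℓN : ¬ ℓ ∣ N), ℓ ∉ S →
      CuspForm.heckeTLin 2 hℓ hℓN g = lam ℓ • g := by
    intro ℓ hℓ hℓN hℓS
    have h1 := hχ₀ (heckeAlgebra.T hℓ hℓN hℓS)
    have h2 : lam ℓ = χ₀ (heckeAlgebra.T hℓ hℓN hℓS) := by
      simp only [hlam]
      rw [dif_pos ⟨hℓ, hℓN, hℓS⟩]
    rw [h2, ← h1]
    rfl
  obtain ⟨f, hf, hfl⟩ :=
    Fermat.Agent.Lib.Newform.H863.exists_normalizedEigenform_of_eigenvector S lam g hg heig
  refine ⟨f, 𝔪', χ, hf, h𝔪', fun ℓ hℓ hℓN hℓS => ?_, hover⟩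
  rw [hχ, hfl ℓ hℓ hℓN hℓS]
  simp only [hlam]
  rw [dif_pos ⟨hℓ, hℓN, hℓS⟩]

/-- **Deligne–Serre lifting** for a ring homomorphism of the Hecke algebra to a field of
characteristic `p`. -/
theorem exists_eigenform_of_ringHom {k : Type*} [Field k] (p : ℕ) [CharP k p]
    (φ : heckeAlgebra N 2 S →+* k) :
    ∃ (f : CuspForm (Gamma0 N) 2) (𝔪' : Ideal (integralClosure ℤ ℂ))
      (χ : heckeAlgebra N 2 S →+* integralClosure ℤ ℂ),
      f.IsNormalizedEigenform ∧ 𝔪'.IsMaximal ∧ (p : integralClosure ℤ ℂ) ∈ 𝔪' ∧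
      (∀ (ℓ : ℕ) (hℓ : ℓ.Prime) (hℓN : ¬ ℓ ∣ N) (hℓS : ℓ ∉ S),
        ((χ (heckeAlgebra.T hℓ hℓN hℓS) : integralClosure ℤ ℂ) : ℂ) = qCoeff f ℓ) ∧
      (∀ t, φ t = 0 → χ t ∈ 𝔪') := by
  have hprime : (RingHom.ker φ).IsPrime := RingHom.ker_isPrime φ
  obtain ⟨f, 𝔪', χ, hf, h𝔪', hT, hover⟩ := exists_eigenform_of_prime S (RingHom.ker φ)
  refine ⟨f, 𝔪', χ, hf, h𝔪', ?_, hT, fun t ht => hover t (RingHom.mem_ker.mpr ht)⟩
  have hp : ((p : ℕ) : heckeAlgebra N 2 S) ∈ RingHom.ker φ := by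
    rw [RingHom.mem_ker, map_natCast]
    exact CharP.cast_eq_zero k p
  have := hover _ hp
  rwa [map_natCast] at this

/-- **Deligne–Serre lifting**, congruence form: an eigensystem `b` with values in `ℤ` which is
realised modulo `p` by a character of the Hecke algebra is congruent to the eigensystem of a
normalised eigenform. -/
theorem exists_eigenform_congr_of_ringHom {k : Type*} [Field k] (p : ℕ) [CharP k p]
    (φ : heckeAlgebra N 2 S →+* k) (b : ℕ → ℤ)
    (hb : ∀ (ℓ : ℕ) (hℓ : ℓ.Prime) (hℓN : ¬ ℓ ∣ N) (hℓS : ℓ ∉ S),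
      φ (heckeAlgebra.T hℓ hℓN hℓS) = ((b ℓ : ℤ) : k)) :
    ∃ (f : CuspForm (Gamma0 N) 2) (𝔪' : Ideal (integralClosure ℤ ℂ)),
      f.IsNormalizedEigenform ∧ 𝔪'.IsMaximal ∧ (p : integralClosure ℤ ℂ) ∈ 𝔪' ∧
      ∀ ℓ : ℕ, ℓ.Prime → ¬ ℓ ∣ N → ℓ ∉ S →
        ∃ a : integralClosure ℤ ℂ, (a : ℂ) = qCoeff f ℓ ∧
          a - ((b ℓ : ℤ) : integralClosure ℤ ℂ) ∈ 𝔪' := by
  obtain ⟨f, 𝔪', χ, hf, h𝔪', hp, hT, hover⟩ := exists_eigenform_of_ringHom S p φ
  refine ⟨f, 𝔪', hf, h𝔪', hp, fun ℓ hℓ hℓN hℓS => ⟨χ (heckeAlgebra.T hℓ hℓN hℓS),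
    hT ℓ hℓ hℓN hℓS, ?_⟩⟩
  have h0 : φ (heckeAlgebra.T hℓ hℓN hℓS - ((b ℓ : ℤ) : heckeAlgebra N 2 S)) = 0 := by
    rw [map_sub, hb ℓ hℓ hℓN hℓS, map_intCast, sub_self]
  have := hover _ h0
  rwa [map_sub, map_intCast] at this

/-- The set of primes excluded in `WeierstrassCurve.IsResiduallyModularOfLevel`: `p` and the
bad primes of `W`. -/
def excluded (W : WeierstrassCurve ℤ) (p : ℕ) : Set ℕ :=
  {ℓ | ℓ = p ∨ ¬ W.IsGoodPrimeFor ℓ}

theorem notMem_excluded {W : WeierstrassCurve ℤ} {p ℓ : ℕ} (hg : W.IsGoodPrimeFor ℓ)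
    (hℓp : ℓ ≠ p) : ℓ ∉ excluded W p := by
  rintro (h | h)
  · exact hℓp h
  · exact h hg

/-- **R3b, final shape**: a character of the Hecke algebra of level `N` (away from `p` and the
bad primes of `W`) with values in a field of characteristic `p` which sends `T_ℓ` to `a_ℓ(W)`
makes `W` residually modular of level `N` at `p`. -/
theorem isResiduallyModularOfLevel_of_ringHom (W : WeierstrassCurve ℤ) {k : Type*} [Field k]
    (p : ℕ) [CharP k p] (φ : heckeAlgebra N 2 (excluded W p) →+* k)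
    (hφ : ∀ (ℓ : ℕ) (hℓ : ℓ.Prime) (hℓN : ¬ ℓ ∣ N) (hℓS : ℓ ∉ excluded W p),
      φ (heckeAlgebra.T hℓ hℓN hℓS) = ((W.apOfModel ℓ : ℤ) : k)) :
    W.IsResiduallyModularOfLevel p N := by
  obtain ⟨f, 𝔪', hf, h𝔪', hp, hcong⟩ :=
    exists_eigenform_congr_of_ringHom (excluded W p) p φ (fun ℓ => W.apOfModel ℓ) hφ
  exact ⟨f, 𝔪', hf, h𝔪', hp, fun ℓ hℓ hg hℓN hℓp =>
    hcong ℓ hℓ hℓN (notMem_excluded hg hℓp)⟩

/-- **R3b, Frey shape**: the same for `FreyPackage.ModularRepOfLevel`. -/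
theorem modularRepOfLevel_of_ringHom (P : FreyPackage) (W : WeierstrassCurve ℤ)
    (hW : W.IsIntegralModelOf P.freyCurve) {k : Type*} [Field k] [CharP k P.p]
    (φ : heckeAlgebra N 2 (excluded W P.p) →+* k)
    (hφ : ∀ (ℓ : ℕ) (hℓ : ℓ.Prime) (hℓN : ¬ ℓ ∣ N) (hℓS : ℓ ∉ excluded W P.p),
      φ (heckeAlgebra.T hℓ hℓN hℓS) = ((W.apOfModel ℓ : ℤ) : k)) :
    P.ModularRepOfLevel N := by
  obtain ⟨f, 𝔪', hf, h𝔪', hp, hcong⟩ :=
    exists_eigenform_congr_of_ringHom (excluded W P.p) P.p φ (fun ℓ => W.apOfModel ℓ) hφ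
  exact ⟨f, W, 𝔪', hf, hW, h𝔪', hp, fun ℓ hℓ hg hℓN hℓp =>
    hcong ℓ hℓ hℓN (notMem_excluded hg hℓp)⟩

end Fermat.Agent.Lib.Ribet.H584

end
-- ===== PACK-END Lib/Ribet/H584/DeligneSerre.lean

-- ===== PACK-BEGIN Lib/HFree/H412/R3Core.lean
section







/-!
# R3 core: a Hecke eigen-character modulo `p` of `Γ₀(M)` comes from an eigenform of level `M`

Let `c : Γ₀(M) → ℤ/p` be a nonzero parabolic character (killing parabolic and finite order
elements) with `T_ℓ c = a_ℓ c` for the primes `ℓ ∤ M`, `ℓ ∉ S`.  Then there is a normalised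
eigenform `g` of weight 2 and level `M` and a maximal ideal `𝔪 ∋ p` of `ℤ̄` with
`a_ℓ(g) ≡ a_ℓ mod 𝔪` for all those `ℓ`.

Inputs: HFree (this library), the real form of Eichler–Shimura (S21: `f ↦ Re per_f` is a
bijection `S₂(Γ₀(M)) → Hom_par(Γ₀(M), ℝ)`), Hecke equivariance of the period map (S29/H201) and
Deligne–Serre lifting (Lib/Ribet/H584).
-/

set_option autoImplicit false
set_option linter.unusedSectionVars false
set_option linter.style.haveILetI false

open CuspForm CongruenceSubgroup ModularFormClass ModularCurve ModularCurve.Period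
open scoped MatrixGroups

namespace Fermat.Agent.Lib.HFree.H412

open Fermat.Agent.S29.H201 (heckeHom heckeHom_comp heckeHom_mem_pe IsPe periodMap_heckeTLin)
open Fermat.Agent.S21 (reHom exists_re_periodMap_eq eq_zero_of_re_periodMap_eq_zero
  periodMap_add periodMap_sub periodMap_smul)

variable {M : ℕ} [NeZero M]

/-! ### Integral parabolic characters -/

/-- `ℤ`-valued characters kill elements of finite order. -/
theorem int_hom_finOrder (c : Additive (Gamma0 M) →+ ℤ) (γ : Gamma0 M) (hγ : IsOfFinOrder γ) :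
    c (Additive.ofMul γ) = 0 := by
  obtain ⟨n, hn, hγn⟩ := hγ.exists_pow_eq_one
  have h1 : c (Additive.ofMul (γ ^ n)) = n • c (Additive.ofMul γ) := by
    rw [ofMul_pow, map_nsmul]
  rw [hγn, ofMul_one, map_zero] at h1
  have hn' : (n : ℤ) ≠ 0 := by exact_mod_cast hn.ne'
  rw [nsmul_eq_mul] at h1
  exact (mul_eq_zero.mp h1.symm).resolve_left hn'

theorem isPe_int {c : Additive (Gamma0 M) →+ ℤ} (hc : IsParabolicHom (Gamma0 M) c) : IsPe c :=
  ⟨hc, fun γ hγ => int_hom_finOrder c γ hγ⟩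

/-- HFree for bundled characters. -/
theorem exists_lift_isPe (m : ℕ) [NeZero m] (c : Additive (Gamma0 M) →+ ZMod m) (hc : IsPe c) :
    ∃ c' : Additive (Gamma0 M) →+ ℤ, IsParabolicHom (Gamma0 M) c' ∧
      (Int.castAddHom (ZMod m)).comp c' = c := by
  obtain ⟨c', hc', hpar, hred⟩ := exists_lift_addChar (Γ := Gamma0 M)
    (neg_one_mem_Gamma0_HFree M) m (fun γ => c (Additive.ofMul γ))
    (fun γ γ' => map_add c (Additive.ofMul γ) (Additive.ofMul γ'))
    (fun γ n hn hγ => hc.2 γ (isOfFinOrder_iff_pow_eq_one.mpr ⟨n, hn, hγ⟩))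
    (fun γ hγ => hc.1 γ (by rw [hγ]; norm_num))
  refine ⟨AddMonoidHom.mk' (fun γ => c' (Additive.toMul γ)) (fun γ γ' => hc' _ _), ?_, ?_⟩
  · intro γ hγ
    have h2 : ((γ : SL(2, ℤ)) : Matrix (Fin 2) (Fin 2) ℤ).trace = 2 ∨
        ((γ : SL(2, ℤ)) : Matrix (Fin 2) (Fin 2) ℤ).trace = -2 := by
      have : (((γ : SL(2, ℤ)) : Matrix (Fin 2) (Fin 2) ℤ).trace - 2) *
          (((γ : SL(2, ℤ)) : Matrix (Fin 2) (Fin 2) ℤ).trace + 2) = 0 := by
        linear_combination hγ
      rcases mul_eq_zero.mp this with h' | h'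
      · left; linarith
      · right; linarith
    exact hpar γ h2
  · refine AddMonoidHom.ext fun γ => ?_
    exact hred (Additive.toMul γ)

/-- An integral parabolic character which vanishes modulo `m` is divisible by `m`. -/
theorem exists_eq_nsmul_of_comp_eq_zero (m : ℕ) [NeZero m] (c : Additive (Gamma0 M) →+ ℤ)
    (hc : IsParabolicHom (Gamma0 M) c) (h0 : (Int.castAddHom (ZMod m)).comp c = 0) :
    ∃ c' : Additive (Gamma0 M) →+ ℤ, IsParabolicHom (Gamma0 M) c' ∧ c = m • c' := by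
  have hm0 : (m : ℤ) ≠ 0 := by exact_mod_cast NeZero.ne m
  have hdvd : ∀ γ : Additive (Gamma0 M), ∃ e : ℤ, c γ = m * e := fun γ =>
    (ZMod.intCast_zmod_eq_zero_iff_dvd (c γ) m).mp (DFunLike.congr_fun h0 γ)
  choose c' hc' using hdvd
  refine ⟨AddMonoidHom.mk' c' (fun γ γ' => ?_), fun γ hγ => ?_, ?_⟩
  · apply mul_left_cancel₀ hm0
    rw [mul_add, ← hc', ← hc', ← hc', map_add]
  · apply mul_left_cancel₀ hm0
    show (m : ℤ) * c' (Additive.ofMul γ) = m * 0
    rw [← hc', mul_zero, hc γ hγ]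
  · refine AddMonoidHom.ext fun γ => ?_
    show c γ = (m • AddMonoidHom.mk' c' _) γ
    rw [AddMonoidHom.smul_apply, nsmul_eq_mul]
    exact hc' γ

/-! ### The lattice of cusp forms with integral real periods -/

/-- The cusp forms whose real periods form an integral parabolic character. -/
def intPerLattice (M : ℕ) [NeZero M] : AddSubgroup (CuspForm (Gamma0 M) 2) where
  carrier := {f | ∃ c : Additive (Gamma0 M) →+ ℤ, IsParabolicHom (Gamma0 M) c ∧
    reHom (periodMap M f) = (Int.castAddHom ℝ).comp c}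
  zero_mem' := by
    refine ⟨0, fun _ _ => rfl, ?_⟩
    refine AddMonoidHom.ext fun γ => ?_
    have h0 : periodMap M (0 : CuspForm (Gamma0 M) 2) = 0 := by
      have := periodMap_smul (N := M) (0 : ℂ) (0 : CuspForm (Gamma0 M) 2)
      rwa [zero_smul, zero_smul] at this
    show (periodMap M (0 : CuspForm (Gamma0 M) 2) γ).re = ((0 : ℤ) : ℝ)
    rw [h0]
    simp
  add_mem' := by
    rintro f g ⟨c, hc, hf⟩ ⟨d, hd, hg⟩
    refine ⟨c + d, fun γ hγ => ?_, ?_⟩
    · show c (Additive.ofMul γ) + d (Additive.ofMul γ) = 0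
      rw [hc γ hγ, hd γ hγ, add_zero]
    · refine AddMonoidHom.ext fun γ => ?_
      have h1 : (periodMap M f γ).re = ((c γ : ℤ) : ℝ) := DFunLike.congr_fun hf γ
      have h2 : (periodMap M g γ).re = ((d γ : ℤ) : ℝ) := DFunLike.congr_fun hg γ
      show (periodMap M (f + g) γ).re = (((c + d) γ : ℤ) : ℝ)
      rw [periodMap_add, AddMonoidHom.add_apply, Complex.add_re, h1, h2,
        AddMonoidHom.add_apply]
      push_cast
      rfl
  neg_mem' := by
    rintro f ⟨c, hc, hf⟩
    refine ⟨-c, fun γ hγ => ?_, ?_⟩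
    · show -c (Additive.ofMul γ) = 0
      rw [hc γ hγ, neg_zero]
    · refine AddMonoidHom.ext fun γ => ?_
      have h1 : (periodMap M f γ).re = ((c γ : ℤ) : ℝ) := DFunLike.congr_fun hf γ
      have hneg : periodMap M (-f) = -periodMap M f := by
        have := periodMap_smul (N := M) (-1 : ℂ) f
        rwa [neg_one_smul, neg_one_smul] at this
      show (periodMap M (-f) γ).re = (((-c) γ : ℤ) : ℝ)
      rw [hneg, AddMonoidHom.neg_apply, Complex.neg_re, h1, AddMonoidHom.neg_apply]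
      push_cast
      rfl

theorem mem_intPerLattice {f : CuspForm (Gamma0 M) 2} :
    f ∈ intPerLattice M ↔ ∃ c : Additive (Gamma0 M) →+ ℤ, IsParabolicHom (Gamma0 M) c ∧
      reHom (periodMap M f) = (Int.castAddHom ℝ).comp c := Iff.rfl

/-- Every integral parabolic character is the real period character of a cusp form. -/
theorem exists_mem_intPerLattice (c : Additive (Gamma0 M) →+ ℤ)
    (hc : IsParabolicHom (Gamma0 M) c) :
    ∃ f : CuspForm (Gamma0 M) 2, reHom (periodMap M f) = (Int.castAddHom ℝ).comp c := by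
  obtain ⟨f, hf⟩ := exists_re_periodMap_eq ((Int.castAddHom ℝ).comp c) (fun γ hγ => by
    show ((c (Additive.ofMul γ) : ℤ) : ℝ) = 0
    rw [hc γ hγ]
    simp)
  refine ⟨f, AddMonoidHom.ext fun γ => ?_⟩
  obtain ⟨γ, rfl⟩ : ∃ γ' : Gamma0 M, Additive.ofMul γ' = γ := ⟨Additive.toMul γ, rfl⟩
  exact hf γ

/-- A cusp form is determined by its real periods. -/
theorem eq_of_reHom_periodMap_eq {f g : CuspForm (Gamma0 M) 2}
    (h : reHom (periodMap M f) = reHom (periodMap M g)) : f = g := by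
  rw [← sub_eq_zero]
  refine eq_zero_of_re_periodMap_eq_zero (f - g) fun γ => ?_
  have h1 : (periodMap M f (Additive.ofMul γ)).re = (periodMap M g (Additive.ofMul γ)).re :=
    DFunLike.congr_fun h (Additive.ofMul γ)
  rw [periodMap_sub, AddMonoidHom.sub_apply, Complex.sub_re, h1, sub_self]

/-- Real periods of `T_ℓ f`. -/
theorem reHom_periodMap_heckeTLin {ℓ : ℕ} [Fact ℓ.Prime] (hℓ : ℓ.Prime) (hℓM : ¬ ℓ ∣ M)
    (f : CuspForm (Gamma0 M) 2) :
    reHom (periodMap M (heckeTLin 2 hℓ hℓM f)) = heckeHom ℓ hℓM ℝ (reHom (periodMap M f)) := by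
  rw [periodMap_heckeTLin hℓ hℓM f]
  exact (heckeHom_comp hℓM Complex.reLm.toAddMonoidHom (periodMap M f)).symm

theorem heckeTLin_mem_intPerLattice {ℓ : ℕ} (hℓ : ℓ.Prime) (hℓM : ¬ ℓ ∣ M)
    {f : CuspForm (Gamma0 M) 2} (hf : f ∈ intPerLattice M) :
    heckeTLin 2 hℓ hℓM f ∈ intPerLattice M := by
  haveI : Fact ℓ.Prime := ⟨hℓ⟩
  obtain ⟨c, hc, hfc⟩ := hf
  refine ⟨heckeHom ℓ hℓM ℤ c, (heckeHom_mem_pe hℓM (isPe_int hc)).1, ?_⟩
  rw [reHom_periodMap_heckeTLin hℓ hℓM, hfc, heckeHom_comp]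

/-- The Hecke algebra away from `S'` (containing all primes dividing `M`) preserves the lattice. -/
theorem apply_mem_intPerLattice (S' : Set ℕ) (hS' : ∀ q : ℕ, q.Prime → q ∣ M → q ∈ S')
    {t : Module.End ℂ (CuspForm (Gamma0 M) 2)} (ht : t ∈ heckeAlgebra M 2 S')
    {f : CuspForm (Gamma0 M) 2} (hf : f ∈ intPerLattice M) : t f ∈ intPerLattice M := by
  induction ht using Algebra.adjoin_induction generalizing f with
  | mem x hx =>
    rcases hx with ⟨ℓ, hℓ, hℓM, -, rfl⟩ | ⟨q, hqM, hq, hqS, rfl⟩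
    · exact heckeTLin_mem_intPerLattice hℓ hℓM hf
    · exact absurd (hS' q hq hqM) hqS
  | algebraMap r =>
    rw [Algebra.algebraMap_eq_smul_one, LinearMap.smul_apply, Module.End.one_apply]
    exact (intPerLattice M).zsmul_mem hf r
  | add x y _ _ hx hy =>
    rw [LinearMap.add_apply]
    exact (intPerLattice M).add_mem (hx hf) (hy hf)
  | mul x y _ _ hx hy =>
    rw [Module.End.mul_apply]
    exact hx (hy hf)

/-! ### The main theorem -/

/-- **R3 core.** A nonzero parabolic Hecke eigen-character modulo `p` of `Γ₀(M)` is congruent to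
a normalised eigenform of level `M`. -/
theorem exists_eigenform_of_eigen_isPe {p : ℕ} (hp : p.Prime) (S : Set ℕ) (a : ℕ → ℤ)
    (c : Additive (Gamma0 M) →+ ZMod p) (hc : IsPe c) (hc0 : c ≠ 0)
    (heig : ∀ (ℓ : ℕ) [Fact ℓ.Prime] (hℓM : ¬ ℓ ∣ M), ℓ ∉ S →
      heckeHom ℓ hℓM (ZMod p) c = a ℓ • c) :
    ∃ (g : CuspForm (Gamma0 M) 2) (𝔪 : Ideal (integralClosure ℤ ℂ)),
      g.IsNormalizedEigenform ∧ 𝔪.IsMaximal ∧ (p : integralClosure ℤ ℂ) ∈ 𝔪 ∧
      ∀ ℓ : ℕ, ℓ.Prime → ¬ ℓ ∣ M → ℓ ∉ S →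
        ∃ b : integralClosure ℤ ℂ, (b : ℂ) = qCoeff g ℓ ∧
          b - ((a ℓ : ℤ) : integralClosure ℤ ℂ) ∈ 𝔪 := by
  classical
  haveI : NeZero p := ⟨hp.ne_zero⟩
  -- the excluded set
  set S' : Set ℕ := {ℓ | ℓ ∈ S ∨ ℓ ∣ M} with hS'def
  have hS' : ∀ q : ℕ, q.Prime → q ∣ M → q ∈ S' := fun q _ hqM => Or.inr hqM
  -- lift the character and realise it by real periods
  obtain ⟨c', hc'par, hc'red⟩ := exists_lift_isPe p c hc
  obtain ⟨f₀, hf₀⟩ := exists_mem_intPerLattice c' hc'par
  have hf₀L : f₀ ∈ intPerLattice M := ⟨c', hc'par, hf₀⟩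
  -- the ideal
  set gens : Set (heckeAlgebra M 2 S') :=
    insert ((p : ℕ) : heckeAlgebra M 2 S')
      {t | ∃ (ℓ : ℕ) (hℓ : ℓ.Prime) (hℓM : ¬ ℓ ∣ M) (hℓS : ℓ ∉ S'),
        t = heckeAlgebra.T hℓ hℓM hℓS - ((a ℓ : ℤ) : heckeAlgebra M 2 S')} with hgens
  have hkey : ∀ t ∈ Ideal.span gens, ∃ f' ∈ intPerLattice M,
      (t : Module.End ℂ (CuspForm (Gamma0 M) 2)) f₀ = p • f' := by
    intro t ht
    induction ht using Submodule.span_induction with
    | mem x hx =>
      rcases hx with rfl | ⟨ℓ, hℓ, hℓM, hℓS, rfl⟩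
      · refine ⟨f₀, hf₀L, ?_⟩
        show ((heckeAlgebra M 2 S').val ((p : ℕ) : heckeAlgebra M 2 S')) f₀ = p • f₀
        rw [map_natCast, Module.End.natCast_apply]
      · haveI : Fact ℓ.Prime := ⟨hℓ⟩
        have hℓS0 : ℓ ∉ S := fun h => hℓS (Or.inl h)
        -- the integral character `T_ℓ c' - a_ℓ c'` vanishes mod `p`
        set d : Additive (Gamma0 M) →+ ℤ := heckeHom ℓ hℓM ℤ c' - a ℓ • c' with hd
        have hdpar : IsParabolicHom (Gamma0 M) d := by
          intro γ hγ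
          show heckeHom ℓ hℓM ℤ c' (Additive.ofMul γ) - a ℓ • c' (Additive.ofMul γ) = 0
          rw [(heckeHom_mem_pe hℓM (isPe_int hc'par)).1 γ hγ, hc'par γ hγ]
          simp
        have hdred : (Int.castAddHom (ZMod p)).comp d = 0 := by
          have h1 : (Int.castAddHom (ZMod p)).comp (heckeHom ℓ hℓM ℤ c') =
              heckeHom ℓ hℓM (ZMod p) c := by
            rw [← heckeHom_comp, hc'red]
          refine AddMonoidHom.ext fun γ => ?_
          have h2 := DFunLike.congr_fun h1 γ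
          have h3 := DFunLike.congr_fun (heig ℓ hℓM hℓS0) γ
          have h4 := DFunLike.congr_fun hc'red γ
          simp only [AddMonoidHom.comp_apply, Int.coe_castAddHom, AddMonoidHom.smul_apply]
            at h2 h3 h4
          show (((heckeHom ℓ hℓM ℤ c' γ - a ℓ • c' γ : ℤ)) : ZMod p) = 0
          rw [smul_eq_mul]
          push_cast
          rw [h2, h3, h4, zsmul_eq_mul, sub_self]
        obtain ⟨d', hd'par, hdd'⟩ := exists_eq_nsmul_of_comp_eq_zero p d hdpar hdred
        obtain ⟨f', hf'⟩ := exists_mem_intPerLattice d' hd'par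
        refine ⟨f', ⟨d', hd'par, hf'⟩, ?_⟩
        have hcoe : ((heckeAlgebra.T hℓ hℓM hℓS - ((a ℓ : ℤ) : heckeAlgebra M 2 S') :
            heckeAlgebra M 2 S') : Module.End ℂ (CuspForm (Gamma0 M) 2)) f₀ =
            heckeTLin 2 hℓ hℓM f₀ - (a ℓ : ℤ) • f₀ := by
          show ((heckeAlgebra M 2 S').val (heckeAlgebra.T hℓ hℓM hℓS -
            ((a ℓ : ℤ) : heckeAlgebra M 2 S'))) f₀ = _
          rw [map_sub, map_intCast, LinearMap.sub_apply, Module.End.intCast_apply]
          rfl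
        rw [hcoe]
        apply eq_of_reHom_periodMap_eq
        refine AddMonoidHom.ext fun γ => ?_
        have e1 := DFunLike.congr_fun (reHom_periodMap_heckeTLin hℓ hℓM f₀) γ
        have e2 := DFunLike.congr_fun hf₀ γ
        have e3 := DFunLike.congr_fun hf' γ
        have e4 := DFunLike.congr_fun hdd' γ
        have e5 := DFunLike.congr_fun (heckeHom_comp hℓM (Int.castAddHom ℝ) c') γ
        rw [hf₀] at e1
        rw [e5] at e1
        have hsmulp : periodMap M (p • f') = (p : ℂ) • periodMap M f' := by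
          rw [← periodMap_smul, Nat.cast_smul_eq_nsmul]
        have hsmula : periodMap M ((a ℓ : ℤ) • f₀) = (a ℓ : ℂ) • periodMap M f₀ := by
          rw [← periodMap_smul, Int.cast_smul_eq_zsmul]
        show (periodMap M (heckeTLin 2 hℓ hℓM f₀ - (a ℓ : ℤ) • f₀) γ).re =
          (periodMap M (p • f') γ).re
        rw [periodMap_sub, hsmulp, hsmula]
        simp only [AddMonoidHom.sub_apply, AddMonoidHom.smul_apply, Complex.sub_re,
          smul_eq_mul, Complex.mul_re, Complex.intCast_re, Complex.intCast_im,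
          Complex.natCast_re, Complex.natCast_im, zero_mul, sub_zero]
        have e1' : (periodMap M (heckeTLin 2 hℓ hℓM f₀) γ).re =
            ((heckeHom ℓ hℓM ℤ c' γ : ℤ) : ℝ) := e1
        have e2' : (periodMap M f₀ γ).re = ((c' γ : ℤ) : ℝ) := e2
        have e3' : (periodMap M f' γ).re = ((d' γ : ℤ) : ℝ) := e3
        have e4' : heckeHom ℓ hℓM ℤ c' γ - a ℓ * c' γ = p * d' γ := by
          simpa [hd, AddMonoidHom.sub_apply, AddMonoidHom.smul_apply, zsmul_eq_mul,
            nsmul_eq_mul] using e4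
        rw [e1', e2', e3']
        exact_mod_cast e4'
    | zero =>
      refine ⟨0, (intPerLattice M).zero_mem, ?_⟩
      simp
    | add x y _ _ hx hy =>
      obtain ⟨f₁, hf₁, e₁⟩ := hx
      obtain ⟨f₂, hf₂, e₂⟩ := hy
      refine ⟨f₁ + f₂, (intPerLattice M).add_mem hf₁ hf₂, ?_⟩
      rw [Subalgebra.coe_add, LinearMap.add_apply, e₁, e₂, smul_add]
    | smul b x _ hx =>
      obtain ⟨f₁, hf₁, e₁⟩ := hx
      refine ⟨(b : Module.End ℂ (CuspForm (Gamma0 M) 2)) f₁,
        apply_mem_intPerLattice S' hS' b.2 hf₁, ?_⟩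
      rw [smul_eq_mul, Subalgebra.coe_mul, Module.End.mul_apply, e₁, map_nsmul]
  -- the ideal is proper
  have hne : Ideal.span gens ≠ ⊤ := by
    intro htop
    obtain ⟨f', ⟨d', hd'par, hf'⟩, e⟩ := hkey 1 (htop ▸ Submodule.mem_top)
    rw [Subalgebra.coe_one, Module.End.one_apply] at e
    apply hc0
    rw [← hc'red]
    refine AddMonoidHom.ext fun γ => ?_
    have e2 : (periodMap M f₀ γ).re = ((c' γ : ℤ) : ℝ) := DFunLike.congr_fun hf₀ γ
    have e3 : (periodMap M f' γ).re = ((d' γ : ℤ) : ℝ) := DFunLike.congr_fun hf' γ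
    have hsmulp : periodMap M (p • f') = (p : ℂ) • periodMap M f' := by
      rw [← periodMap_smul, Nat.cast_smul_eq_nsmul]
    rw [e, hsmulp] at e2
    simp only [AddMonoidHom.smul_apply, smul_eq_mul, Complex.mul_re, Complex.natCast_re,
      Complex.natCast_im, zero_mul, sub_zero] at e2
    rw [e3] at e2
    have e4 : (p : ℤ) * d' γ = c' γ := by exact_mod_cast e2
    show ((c' γ : ℤ) : ZMod p) = 0
    rw [← e4]
    push_cast
    simp
  obtain ⟨𝔫, h𝔫max, h𝔫le⟩ := Ideal.exists_le_maximal _ hne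
  letI : Field (heckeAlgebra M 2 S' ⧸ 𝔫) := Ideal.Quotient.field 𝔫
  have hpk : ((p : ℕ) : heckeAlgebra M 2 S' ⧸ 𝔫) = 0 := by
    have h1 : ((p : ℕ) : heckeAlgebra M 2 S') ∈ 𝔫 :=
      h𝔫le (Ideal.subset_span (Set.mem_insert _ _))
    have h2 := Ideal.Quotient.eq_zero_iff_mem.mpr h1
    rwa [map_natCast] at h2
  haveI : CharP (heckeAlgebra M 2 S' ⧸ 𝔫) p := (CharP.charP_iff_prime_eq_zero hp).mpr hpk
  obtain ⟨g, 𝔪, hg, h𝔪, hp𝔪, hcongr⟩ :=
    Fermat.Agent.Lib.Ribet.H584.exists_eigenform_congr_of_ringHom S' p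
      (Ideal.Quotient.mk 𝔫) a (fun ℓ hℓ hℓM hℓS => by
        have h1 : heckeAlgebra.T hℓ hℓM hℓS - ((a ℓ : ℤ) : heckeAlgebra M 2 S') ∈ 𝔫 :=
          h𝔫le (Ideal.subset_span (Set.mem_insert_of_mem _ ⟨ℓ, hℓ, hℓM, hℓS, rfl⟩))
        have h2 := Ideal.Quotient.eq_zero_iff_mem.mpr h1
        rw [map_sub, map_intCast, sub_eq_zero] at h2
        exact h2)
  refine ⟨g, 𝔪, hg, h𝔪, hp𝔪, fun ℓ hℓ hℓM hℓS => hcongr ℓ hℓ hℓM ?_⟩
  rintro (h | h)
  · exact hℓS h
  · exact hℓM h

/-! ### The same in the language of `Fermat.Agent.S29.DefsM` (`G0`, `IsParHom`, `heckeCoh`) -/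

open Fermat.Agent.S29 (G0 IsParHom heckeCoh)

/-- The bundled character of a parabolic character in the sense of `S29.DefsM`. -/
def bundle {A : Type*} [AddCommGroup A] (c : G0 M → A) (hc : IsParHom c) :
    Additive (Gamma0 M) →+ A :=
  AddMonoidHom.mk' (fun γ => c (Additive.toMul γ)) (fun _ _ => hc.map_mul _ _)

theorem bundle_apply {A : Type*} [AddCommGroup A] (c : G0 M → A) (hc : IsParHom c)
    (γ : Gamma0 M) : bundle c hc (Additive.ofMul γ) = c γ := rfl

theorem isPe_bundle {A : Type*} [AddCommGroup A] (c : G0 M → A) (hc : IsParHom c) :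
    IsPe (bundle c hc) := by
  refine ⟨fun γ hγ => ?_, fun γ hγ => ?_⟩
  · have h2 : ((γ : SL(2, ℤ)) : Matrix (Fin 2) (Fin 2) ℤ).trace = 2 ∨
        ((γ : SL(2, ℤ)) : Matrix (Fin 2) (Fin 2) ℤ).trace = -2 := by
      have : (((γ : SL(2, ℤ)) : Matrix (Fin 2) (Fin 2) ℤ).trace - 2) *
          (((γ : SL(2, ℤ)) : Matrix (Fin 2) (Fin 2) ℤ).trace + 2) = 0 := by
        linear_combination hγ
      rcases mul_eq_zero.mp this with h' | h'
      · left; linarith
      · right; linarith
    exact hc.parabolic γ h2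
  · obtain ⟨n, hn, hγn⟩ := hγ.exists_pow_eq_one
    exact hc.elliptic γ n hn hγn

theorem heckeHom_bundle {A : Type*} [AddCommGroup A] {ℓ : ℕ} [Fact ℓ.Prime] (hℓM : ¬ ℓ ∣ M)
    (c : G0 M → A) (hc : IsParHom c) (γ : Gamma0 M) :
    heckeHom ℓ hℓM A (bundle c hc) (Additive.ofMul γ) = heckeCoh M ℓ c γ := by
  rw [Fermat.Agent.S29.M4aTop_heckeCoh_eq_sum_trf hℓM c γ]
  rfl

/-- **R3 core**, `S29.DefsM` form. -/
theorem exists_eigenform_of_eigen_isParHom {p : ℕ} (hp : p.Prime) (S : Set ℕ) (a : ℕ → ℤ)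
    (c : G0 M → ZMod p) (hc : IsParHom c) (hc0 : ∃ γ, c γ ≠ 0)
    (heig : ∀ ℓ : ℕ, ℓ.Prime → ¬ ℓ ∣ M → ℓ ∉ S →
      ∀ γ : G0 M, heckeCoh M ℓ c γ = (a ℓ : ZMod p) * c γ) :
    ∃ (g : CuspForm (Gamma0 M) 2) (𝔪 : Ideal (integralClosure ℤ ℂ)),
      g.IsNormalizedEigenform ∧ 𝔪.IsMaximal ∧ (p : integralClosure ℤ ℂ) ∈ 𝔪 ∧
      ∀ ℓ : ℕ, ℓ.Prime → ¬ ℓ ∣ M → ℓ ∉ S →
        ∃ b : integralClosure ℤ ℂ, (b : ℂ) = qCoeff g ℓ ∧
          b - ((a ℓ : ℤ) : integralClosure ℤ ℂ) ∈ 𝔪 := by
  refine exists_eigenform_of_eigen_isPe hp S a (bundle c hc) (isPe_bundle c hc) ?_ ?_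
  · intro h0
    obtain ⟨γ, hγ⟩ := hc0
    apply hγ
    rw [← bundle_apply c hc γ, h0]
    rfl
  · intro ℓ _ hℓM hℓS
    refine AddMonoidHom.ext fun γ => ?_
    obtain ⟨γ, rfl⟩ : ∃ γ' : Gamma0 M, Additive.ofMul γ' = γ := ⟨Additive.toMul γ, rfl⟩
    rw [heckeHom_bundle hℓM c hc γ, heig ℓ Fact.out hℓM hℓS γ, AddMonoidHom.smul_apply,
      bundle_apply, zsmul_eq_mul]

end Fermat.Agent.Lib.HFree.H412

end
-- ===== PACK-END Lib/HFree/H412/R3Core.lean

-- ===== PACK-BEGIN Lib/X0Deg/Basic.lean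
section




/-!
# Shared library X0DEG (helper760): relative degrees of the function fields `ℚ̄(X₀(M))`

All fields are the Prelude fields `modularFunctionFieldBar M ⊆ ℚ̄((q))`.

* `relfinrank_JB`      : `[F̄_N : ℚ̄(j)] = ψ(N)` in ambient (`IntermediateField.relfinrank`) form;
* `relfinrank_mul_psi` : `N ∣ M → [F̄_M : F̄_N] * ψ(N) = ψ(M)`;
* `finrankAlong_inclusion`, `finrankAlong_heckeAlphaBar_mul_psi`,
  `finrankAlong_heckeAlphaBar_of_not_dvd` (`= ℓ + 1`), `finrankAlong_heckeAlphaBar_of_dvd` (`= ℓ`),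
  `finiteAlong_heckeAlphaBar` : the same for the Prelude degeneracy map `heckeAlphaBar`.

Input: landed S24 (`nonempty_modularPackage`, `card_XX`) and S20 (`dedekindPsi` arithmetic).
-/

set_option autoImplicit false

noncomputable section

open ModularCurve AlgebraicCurve IntermediateField
open Fermat.Agent.S24

namespace Fermat.Agent.Lib.X0Deg

/-- The `j`-function as a Laurent series over `ℚ̄`. -/
def jB : LaurentSeries Kbar := coeffEmb Kbar jq

/-- `j(q^d)` as a Laurent series over `ℚ̄`. -/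
def jBd (d : ℕ) [NeZero d] : LaurentSeries Kbar := coeffEmb Kbar (qExpand ℚ d jq)

/-- `ℚ̄(j)` as an intermediate field of `ℚ̄((q))/ℚ̄`. -/
def JB : IntermediateField Kbar (LaurentSeries Kbar) := adjoin Kbar {jB}

theorem jBd_mem {d M : ℕ} [NeZero d] (hd : d ∣ M) : jBd d ∈ modularFunctionFieldBar M :=
  coeffEmb_mem_laurentBaseChange Kbar (jqd_mem_full M hd)

theorem jB_mem (M : ℕ) [NeZero M] : jB ∈ modularFunctionFieldBar M :=
  coeffEmb_mem_laurentBaseChange Kbar (modularFunctionField_le_full M (jq_mem M))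

theorem jBd_one : jBd 1 = jB := by
  simp [jBd, jB, qExpand_one_apply]

theorem JB_le (M : ℕ) [NeZero M] : JB ≤ modularFunctionFieldBar M := by
  rw [JB, adjoin_le_iff]
  rintro x hx
  rw [Set.mem_singleton_iff] at hx
  subst hx
  exact jB_mem M

/-- Monotonicity of the Prelude function fields in the level. -/
theorem modularFunctionFieldBar_mono {N M : ℕ} [NeZero N] [NeZero M] (h : N ∣ M) :
    modularFunctionFieldBar N ≤ modularFunctionFieldBar M := by
  show laurentBaseChange Kbar _ ≤ laurentBaseChange Kbar _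
  rw [laurentBaseChange, adjoin_le_iff]
  rintro _ ⟨y, hy, rfl⟩
  exact coeffEmb_mem_laurentBaseChange Kbar (full_degeneracy_le h hy)

theorem val_jF (N : ℕ) [NeZero N] : ((jF N : FF N) : LaurentSeries Kbar) = jB := rfl

theorem comap_val_JB (N : ℕ) [NeZero N] :
    JB.comap (modularFunctionFieldBar N).val = adjoin Kbar {jF N} := by
  have h1 : (adjoin Kbar {jF N}).map (modularFunctionFieldBar N).val = JB := by
    rw [adjoin_map, Set.image_singleton]
    rfl
  rw [← h1]
  exact comap_map _ _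

/-- `[F̄_N : ℚ̄(j)] = ψ(N)`. -/
theorem relfinrank_JB (N : ℕ) [NeZero N] :
    JB.relfinrank (modularFunctionFieldBar N) = dedekindPsi N := by
  obtain ⟨P⟩ := nonempty_modularPackage N
  have h1 := relfinrank_comap JB (modularFunctionFieldBar N).val ⊤
  rw [relfinrank_top_right, ← AlgHom.fieldRange_eq_map, fieldRange_val] at h1
  rw [← h1, ← card_XX N, ← P.finrank_eq]
  rw [comap_val_JB]

theorem dedekindPsi_pos (N : ℕ) [NeZero N] : 0 < dedekindPsi N := by
  rw [← card_XX N]
  exact Nat.card_pos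

/-- `N ∣ M → [F̄_M : F̄_N] * ψ(N) = ψ(M)`. -/
theorem relfinrank_mul_psi {N M : ℕ} [NeZero N] [NeZero M] (h : N ∣ M) :
    (modularFunctionFieldBar N).relfinrank (modularFunctionFieldBar M) * dedekindPsi N
      = dedekindPsi M := by
  have := relfinrank_mul_relfinrank (JB_le N) (modularFunctionFieldBar_mono h)
  rw [relfinrank_JB, relfinrank_JB] at this
  rw [mul_comm]
  exact this

end Fermat.Agent.Lib.X0Deg

end
end
-- ===== PACK-END Lib/X0Deg/Basic.lean

-- ===== PACK-BEGIN Lib/X0Deg/Alpha.lean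
section


/-!
# X0DEG (helper760): the degree of the Prelude degeneracy map `heckeAlphaBar`

* `finrankAlong_inclusion`, `finiteAlong_inclusion` : abstract (any tower of intermediate fields);
* `finrankAlong_heckeAlphaBar_mul_psi` : `[F̄_{Nℓ} : α F̄_N] * ψ(N) = ψ(Nℓ)` (any `ℓ ≠ 0`);
* `finrankAlong_heckeAlphaBar_of_not_dvd` : `= ℓ + 1` for a prime `ℓ ∤ N`;
* `finrankAlong_heckeAlphaBar_of_dvd` : `= ℓ` for a prime `ℓ ∣ N`;
* `finiteAlong_heckeAlphaBar` : `FiniteAlong ℚ̄ (heckeAlphaBar ℚ̄ N ℓ)` (one of the six fields of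
  the Prelude `HeckeInputsAlong`);
* `finrankAlong_heckeAlphaBar_square` : equal degrees in the square used for the commutation of
  Hecke operators: `[F̄_{Nℓℓ'} : F̄_{Nℓ}] = [F̄_{Nℓ'} : F̄_N]` for primes `ℓ ≠ ℓ'`.
-/

set_option autoImplicit false

noncomputable section

open ModularCurve AlgebraicCurve IntermediateField
open Fermat.Agent.S24

namespace Fermat.Agent.Lib.X0Deg

section Abstract

variable {K E : Type*} [Field K] [Field E] [Algebra K E]

/-- For intermediate fields `A ≤ B`, the `A`-module `B` (via the inclusion) is linearly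
equivalent to `extendScalars`. -/
def inclusionLinearEquiv {A B : IntermediateField K E} (h : A ≤ B) :
    letI := algebraAlong (IntermediateField.inclusion h)
    ↥B ≃ₗ[↥A] ↥(extendScalars h) :=
  letI := algebraAlong (IntermediateField.inclusion h)
  { toFun := fun x => ⟨x.1, x.2⟩
    invFun := fun y => ⟨y.1, y.2⟩
    map_add' := fun _ _ => rfl
    map_smul' := fun _ _ => rfl
    left_inv := fun _ => rfl
    right_inv := fun _ => rfl }

theorem finrankAlong_inclusion {A B : IntermediateField K E} (h : A ≤ B) :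
    finrankAlong K (IntermediateField.inclusion h) = A.relfinrank B := by
  rw [relfinrank_eq_finrank_of_le h]
  let _ := algebraAlong (IntermediateField.inclusion h)
  exact (inclusionLinearEquiv h).finrank_eq

theorem finiteAlong_inclusion {A B : IntermediateField K E} (h : A ≤ B)
    (hpos : 0 < A.relfinrank B) : FiniteAlong K (IntermediateField.inclusion h) := by
  let _ := algebraAlong (IntermediateField.inclusion h)
  show Module.Finite ↥A ↥B
  apply Module.finite_of_finrank_pos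
  have := finrankAlong_inclusion h
  rw [finrankAlong] at this
  rw [this]
  exact hpos

end Abstract

section Modular

variable (N ℓ : ℕ) [NeZero N] [NeZero ℓ]

theorem le_mul : modularFunctionFieldBar N ≤ modularFunctionFieldBar (N * ℓ) :=
  modularFunctionFieldBar_mono (dvd_mul_right N ℓ)

theorem finrankAlong_heckeAlphaBar :
    finrankAlong Kbar (heckeAlphaBar Kbar N ℓ)
      = (modularFunctionFieldBar N).relfinrank (modularFunctionFieldBar (N * ℓ)) := by
  rw [heckeAlphaBar_eq_inclusion N ℓ (le_mul N ℓ)]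
  exact finrankAlong_inclusion _

/-- `[F̄_{Nℓ} : α F̄_N] * ψ(N) = ψ(Nℓ)`. -/
theorem finrankAlong_heckeAlphaBar_mul_psi :
    finrankAlong Kbar (heckeAlphaBar Kbar N ℓ) * dedekindPsi N = dedekindPsi (N * ℓ) := by
  rw [finrankAlong_heckeAlphaBar]
  exact relfinrank_mul_psi (dvd_mul_right N ℓ)

/-- For a prime `ℓ ∤ N` the degeneracy map `α : F̄_N → F̄_{Nℓ}` has degree `ℓ + 1`. -/
theorem finrankAlong_heckeAlphaBar_of_not_dvd (hℓ : ℓ.Prime) (h : ¬ ℓ ∣ N) :
    finrankAlong Kbar (heckeAlphaBar Kbar N ℓ) = ℓ + 1 := by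
  have h1 := finrankAlong_heckeAlphaBar_mul_psi N ℓ
  have h2 : dedekindPsi (N * ℓ) = (ℓ + 1) * dedekindPsi N := by
    rw [mul_comm N ℓ]
    exact Fermat.Agent.S20.Comb694.dedekindPsi_prime_mul_of_not_dvd ℓ N hℓ (NeZero.ne N) h
  exact Nat.eq_of_mul_eq_mul_right (dedekindPsi_pos N) (h1.trans h2)

/-- For a prime `ℓ ∣ N` the degeneracy map `α : F̄_N → F̄_{Nℓ}` has degree `ℓ`. -/
theorem finrankAlong_heckeAlphaBar_of_dvd (hℓ : ℓ.Prime) (h : ℓ ∣ N) :
    finrankAlong Kbar (heckeAlphaBar Kbar N ℓ) = ℓ := by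
  have h1 := finrankAlong_heckeAlphaBar_mul_psi N ℓ
  have h2 : dedekindPsi (N * ℓ) = ℓ * dedekindPsi N := by
    rw [mul_comm N ℓ]
    exact Fermat.Agent.S20.Comb694.dedekindPsi_prime_mul_of_dvd ℓ N hℓ (NeZero.ne N) h
  exact Nat.eq_of_mul_eq_mul_right (dedekindPsi_pos N) (h1.trans h2)

theorem finrankAlong_heckeAlphaBar_pos : 0 < finrankAlong Kbar (heckeAlphaBar Kbar N ℓ) := by
  have h1 := finrankAlong_heckeAlphaBar_mul_psi N ℓ
  have h2 := dedekindPsi_pos (N * ℓ)
  rw [← h1] at h2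
  exact Nat.pos_of_mul_pos_right h2

/-- The degeneracy map `α` is finite (a field of the Prelude `HeckeInputsAlong`). -/
theorem finiteAlong_heckeAlphaBar : FiniteAlong Kbar (heckeAlphaBar Kbar N ℓ) := by
  have hpos := finrankAlong_heckeAlphaBar_pos N ℓ
  rw [finrankAlong_heckeAlphaBar] at hpos
  rw [heckeAlphaBar_eq_inclusion N ℓ (le_mul N ℓ)]
  exact finiteAlong_inclusion _ hpos

/-- Equal degrees in the commutation square: for primes `ℓ ≠ ℓ'`,
`[F̄_{Nℓℓ'} : F̄_{Nℓ}] = [F̄_{Nℓ'} : F̄_N]`. -/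
theorem finrankAlong_heckeAlphaBar_square (ℓ' : ℕ) [NeZero ℓ'] (hℓ : ℓ.Prime) (hℓ' : ℓ'.Prime)
    (hne : ℓ ≠ ℓ') :
    finrankAlong Kbar (heckeAlphaBar Kbar (N * ℓ) ℓ')
      = finrankAlong Kbar (heckeAlphaBar Kbar N ℓ') := by
  by_cases h : ℓ' ∣ N
  · rw [finrankAlong_heckeAlphaBar_of_dvd N ℓ' hℓ' h,
      finrankAlong_heckeAlphaBar_of_dvd (N * ℓ) ℓ' hℓ' (h.mul_right ℓ)]
  · have h' : ¬ ℓ' ∣ N * ℓ := by
      intro hd
      rcases (Nat.Prime.dvd_mul hℓ').mp hd with h1 | h1
      · exact h h1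
      · exact hne ((Nat.prime_dvd_prime_iff_eq hℓ' hℓ).mp h1).symm
    rw [finrankAlong_heckeAlphaBar_of_not_dvd N ℓ' hℓ' h,
      finrankAlong_heckeAlphaBar_of_not_dvd (N * ℓ) ℓ' hℓ' h']

end Modular

end Fermat.Agent.Lib.X0Deg

end
end
-- ===== PACK-END Lib/X0Deg/Alpha.lean

-- ===== PACK-BEGIN Lib/X0Deg/Gen.lean
section


/-!
# X0DEG (helper760): `ℚ̄(X₀(M)) = ℚ̄(j, j(q^M))`

* `adjoin_jF_jMF_eq_top` : `ℚ̄(j)(j_M) = F̄_M` (as intermediate field of `F̄_M / ℚ̄(j)`);
* `modularFunctionFieldBar_eq_adjoin_pair` : `F̄_M = ℚ̄(j, j(q^M))` inside `ℚ̄((q))`;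
* `modularFunctionFieldBar_eq_sup` : `N ∣ M → F̄_M = F̄_N ⊔ ℚ̄(j(q^M))`;
* `modularFunctionFieldBar_square` : `F̄_{Nℓℓ'} = F̄_{Nℓ} ⊔ V_ℓ(F̄_{Nℓ'})` (the square used for the
  commutation of Hecke operators is "cartesian").

Proof: the `ψ(M)` embeddings `σ_x : F̄_M → ℂ((z))` of S24 (`H997.HolBase.sigmaX`) agree on `ℚ̄(j)`
and are pairwise distinct on `j(q^M)`; compare with `[F̄_M : ℚ̄(j)] = ψ(M)`.
-/

set_option autoImplicit false

noncomputable section

open ModularCurve AlgebraicCurve IntermediateField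
open Fermat.Agent.S24

namespace Fermat.Agent.Lib.X0Deg

variable (M : ℕ) [NeZero M]

/-- `j(q^M)` as an element of the function field `F̄_M`. -/
def jMF : FF M := H997.inclRN M (H997.jR M M dvd_rfl)

theorem val_jMF : ((jMF M : FF M) : LaurentSeries Kbar) = jBd M := rfl

/-- The S24 embeddings `σ_x` are pairwise distinct on `j(q^M)`. -/
theorem sigmaX_jMF_injective (B : H997.HolBase M) (X : H997.Expansion B) {x y : XX M}
    (hxy : B.sigmaX X x (jMF M) = B.sigmaX X y (jMF M)) : x = y := by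
  obtain ⟨g, rfl⟩ := QuotientGroup.mk_surjective x
  obtain ⟨g', rfl⟩ := QuotientGroup.mk_surjective y
  rw [H997.HolBase.sigmaX_mk, H997.HolBase.sigmaX_mk] at hxy
  have h1 : X.E (B.compH g⁻¹ (B.JH M dvd_rfl)) = X.E (B.compH g'⁻¹ (B.JH M dvd_rfl)) := by
    have := hxy
    simp only [jMF, H997.HolBase.sigmaG_inclRN, H997.HolBase.bridge_jR] at this
    exact this
  have h2 := X.inj h1
  apply QuotientGroup.eq.mpr
  apply B.J_distinct
  intro τ
  have h3 := congrArg (fun h : B.Hol => (h : UpperHalfPlane → ℂ) (g' • τ)) h2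
  simp only [H997.HolBase.compH_apply] at h3
  rw [← mul_smul, ← mul_smul, inv_mul_cancel, one_smul] at h3
  exact h3

/-- `ℚ̄(j)(j(q^M)) = F̄_M`. -/
theorem adjoin_jF_jMF_eq_top :
    IntermediateField.adjoin ↥(IntermediateField.adjoin Kbar {jF M}) {jMF M} = ⊤ := by
  classical
  obtain ⟨P⟩ := nonempty_modularPackage M
  have := P.finiteDimensional
  set E := IntermediateField.adjoin Kbar {jF M} with hE
  set E' := IntermediateField.adjoin ↥E {jMF M} with hE'
  let A := H997.analyticCore M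
  let X := A.toHolBase.qexpExpansion
  let x0 : XX M := ((1 : Matrix.SpecialLinearGroup (Fin 2) ℤ) : XX M)
  let ψ : ↥E →+* LaurentSeries ℂ := (A.toHolBase.sigmaX X x0).comp (algebraMap ↥E (FF M))
  let _ : Algebra ↥E (LaurentSeries ℂ) := ψ.toAlgebra
  let a : XX M → (FF M →ₐ[↥E] LaurentSeries ℂ) := fun x =>
    { A.toHolBase.sigmaX X x with
      commutes' := fun y => A.sigmaX_eq_on_adjoin X x x0 y.2 }
  let b : XX M → (↥E' →ₐ[↥E] LaurentSeries ℂ) := fun x => (a x).comp E'.val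
  have hb : Function.Injective b := by
    intro x y hxy
    apply sigmaX_jMF_injective M A.toHolBase X
    have hmem : jMF M ∈ E' := IntermediateField.mem_adjoin_simple_self _ _
    have := congrArg (fun φ : ↥E' →ₐ[↥E] LaurentSeries ℂ => φ ⟨jMF M, hmem⟩) hxy
    exact this
  have : Module.Free ↥E ↥E' := Module.Free.of_divisionRing ↥E ↥E'
  have : Module.Finite ↥E ↥E' := inferInstance
  have : Finite (↥E' →ₐ[↥E] LaurentSeries ℂ) := Finite.algHom ↥E ↥E' (LaurentSeries ℂ)
  have h1 : Nat.card (XX M) ≤ Module.finrank ↥E ↥E' :=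
    calc Nat.card (XX M) ≤ Nat.card (↥E' →ₐ[↥E] LaurentSeries ℂ) :=
          Nat.card_le_card_of_injective b hb
      _ ≤ Module.finrank ↥E ↥E' := card_algHom_le_finrank ↥E ↥E' (LaurentSeries ℂ)
  have h2 : Module.finrank ↥E (FF M) = Nat.card (XX M) := P.finrank_eq
  have h3 : Module.finrank ↥E ↥E' ≤ Module.finrank ↥E (FF M) :=
    Submodule.finrank_le (Subalgebra.toSubmodule E'.toSubalgebra)
  have h4 : Module.finrank ↥E ↥E' = Module.finrank ↥E (FF M) := le_antisymm h3 (h2 ▸ h1)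
  exact IntermediateField.eq_of_le_of_finrank_eq le_top
    (by rw [h4, IntermediateField.finrank_top'])

/-- `F̄_M = ℚ̄(j, j(q^M))` inside `ℚ̄((q))`. -/
theorem modularFunctionFieldBar_eq_adjoin_pair :
    modularFunctionFieldBar M = IntermediateField.adjoin Kbar {jB, jBd M} := by
  apply le_antisymm
  · intro x hx
    have h1 : (⟨x, hx⟩ : FF M) ∈
        IntermediateField.adjoin ↥(IntermediateField.adjoin Kbar {jF M}) {jMF M} := by
      rw [adjoin_jF_jMF_eq_top]
      exact IntermediateField.mem_top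
    have h2 : (⟨x, hx⟩ : FF M) ∈ IntermediateField.adjoin Kbar ({jF M} ∪ {jMF M}) := by
      rw [← IntermediateField.adjoin_adjoin_left]
      exact h1
    have h3 : (IntermediateField.adjoin Kbar ({jF M} ∪ {jMF M} : Set (FF M))).map
        (modularFunctionFieldBar M).val = IntermediateField.adjoin Kbar {jB, jBd M} := by
      rw [IntermediateField.adjoin_map, Set.image_union, Set.image_singleton,
        Set.image_singleton]
      rfl
    rw [← h3]
    exact ⟨⟨x, hx⟩, h2, rfl⟩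
  · rw [IntermediateField.adjoin_le_iff]
    rintro x (rfl | rfl)
    · exact jB_mem M
    · exact jBd_mem dvd_rfl

/-- `N ∣ M → F̄_M = F̄_N ⊔ ℚ̄(j(q^M))`. -/
theorem modularFunctionFieldBar_eq_sup {N : ℕ} [NeZero N] (h : N ∣ M) :
    modularFunctionFieldBar M
      = modularFunctionFieldBar N ⊔ IntermediateField.adjoin Kbar {jBd M} := by
  apply le_antisymm
  · rw [modularFunctionFieldBar_eq_adjoin_pair M, IntermediateField.adjoin_le_iff]
    rintro x (rfl | rfl)
    · exact (le_sup_left : modularFunctionFieldBar N ≤ _) (jB_mem N)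
    · exact (le_sup_right : IntermediateField.adjoin Kbar {jBd M} ≤ _)
        (IntermediateField.mem_adjoin_simple_self _ _)
  · refine sup_le (modularFunctionFieldBar_mono h) ?_
    rw [IntermediateField.adjoin_le_iff]
    rintro x rfl
    exact jBd_mem dvd_rfl

theorem coeffMap_qExpand_comm {R S : Type*} [CommRing R] [CommRing S] (f : R →+* S) (n : ℕ)
    [NeZero n] (x : LaurentSeries R) : coeffMap f (qExpand R n x) = qExpand S n (coeffMap f x) := by
  ext k
  by_cases hk : (n : ℤ) ∣ k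
  · obtain ⟨m, rfl⟩ := hk
    rw [coeffMap_coeff, qExpand_coeff_mul, qExpand_coeff_mul, coeffMap_coeff]
  · rw [coeffMap_coeff, qExpand_coeff_of_not_dvd n _ hk, qExpand_coeff_of_not_dvd n _ hk,
      map_zero]

theorem qExpand_congr_level {R : Type*} [CommRing R] {a b : ℕ} [NeZero a] [NeZero b] (h : a = b)
    (f : LaurentSeries R) : qExpand R a f = qExpand R b f := by
  subst h
  rfl

/-- `V_k (j(q^M)) = j(q^{M k})`. -/
theorem qExpand_jBd (k : ℕ) [NeZero k] : qExpand Kbar k (jBd M) = jBd (M * k) := by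
  unfold jBd coeffEmb
  rw [← coeffMap_qExpand_comm, qExpand_qExpand]
  congr 1
  exact qExpand_congr_level (mul_comm k M) _

omit [NeZero M] in
/-- `V_k` maps `F̄_M` into `F̄_{M k}`. -/
theorem map_qExpand_le (k : ℕ) [NeZero k] :
    (modularFunctionFieldBar M).map (qExpandAlgHomC Kbar k) ≤ modularFunctionFieldBar (M * k) := by
  rintro _ ⟨x, hx, rfl⟩
  exact (heckeBetaBar Kbar M k ⟨x, hx⟩).2

/-- **Cartesian square, general form.** For every `N' ∣ M k`:
`F̄_{M k} = F̄_{N'} ⊔ V_k(F̄_M)`. -/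
theorem modularFunctionFieldBar_mul_eq_sup (k : ℕ) [NeZero k] {N' : ℕ} [NeZero N']
    (h : N' ∣ M * k) :
    modularFunctionFieldBar (M * k)
      = modularFunctionFieldBar N' ⊔ (modularFunctionFieldBar M).map (qExpandAlgHomC Kbar k) := by
  apply le_antisymm
  · rw [modularFunctionFieldBar_eq_adjoin_pair (M * k), IntermediateField.adjoin_le_iff]
    rintro x (rfl | rfl)
    · exact (le_sup_left : modularFunctionFieldBar N' ≤ _) (jB_mem N')
    · refine (le_sup_right : (modularFunctionFieldBar M).map (qExpandAlgHomC Kbar k) ≤ _) ?_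
      exact ⟨jBd M, jBd_mem dvd_rfl, qExpand_jBd M k⟩
  · exact sup_le (modularFunctionFieldBar_mono h) (map_qExpand_le M k)

/-- **Cartesian square for the commutation of Hecke operators.**
`F̄_{Nℓℓ'} = F̄_{Nℓ} ⊔ V_ℓ(F̄_{Nℓ'})`. -/
theorem modularFunctionFieldBar_square (N ℓ ℓ' : ℕ) [NeZero N] [NeZero ℓ] [NeZero ℓ'] :
    modularFunctionFieldBar (N * ℓ * ℓ')
      = modularFunctionFieldBar (N * ℓ)
        ⊔ (modularFunctionFieldBar (N * ℓ')).map (qExpandAlgHomC Kbar ℓ) := by
  have e : N * ℓ * ℓ' = N * ℓ' * ℓ := by ring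
  have h : N * ℓ ∣ N * ℓ' * ℓ := by rw [← e]; exact dvd_mul_right _ _
  rw [e]
  exact modularFunctionFieldBar_mul_eq_sup (N * ℓ') ℓ h

end Fermat.Agent.Lib.X0Deg

end
end
-- ===== PACK-END Lib/X0Deg/Gen.lean

-- ===== PACK-BEGIN S29/H801/M1NC.lean
section
/-
S29 / M1 (helper801), part 5: the norm compatibility `nc` of the mixed square

      F_N   --α_{ℓ'}-->  F_{Nℓ'}
       |β_ℓ               |β_ℓ
       v                  v
      F_{Nℓ} --α_{ℓ'}--> F_{Nℓℓ'}

from `F_{Nℓℓ'} = F_{Nℓ} ⊔ V_ℓ(F_{Nℓ'})` and `[F_{Nℓ'} : F_N] ≤ [F_{Nℓℓ'} : F_{Nℓ}]`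
(general coefficient field `L`); over `ℚ̄` both inputs are in the shared library X0DEG (helper760).
-/






set_option autoImplicit false
set_option linter.style.haveILetI false

noncomputable section

namespace Fermat.Agent.S29.H801

open AlgebraicCurve ModularCurve Fermat.Agent.S37.H818

section General

variable (L : Type*) [Field L] [Algebra ℚ L]

theorem algebraMap_along_apply (M k : ℕ) [NeZero M] [NeZero k] (a : _root_.Fermat.Agent.S29.H801.FB L M) :
    letI := algebraAlong (heckeAlphaBar L M k)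
    algebraMap (_root_.Fermat.Agent.S29.H801.FB L M) (_root_.Fermat.Agent.S29.H801.FB L (M * k)) a = heckeAlphaBar L M k a := rfl

theorem algebraMap_level_apply (M : ℕ) [NeZero M] (a : _root_.Fermat.Agent.S29.H801.FB L M) :
    algebraMap (laurentBaseChange L (modularFunctionFieldFull M)) (LaurentSeries L) a
      = (a : LaurentSeries L) := rfl

theorem smul_along_coe (M k : ℕ) [NeZero M] [NeZero k] (a : _root_.Fermat.Agent.S29.H801.FB L M) (x : _root_.Fermat.Agent.S29.H801.FB L (M * k)) :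
    letI := algebraAlong (heckeAlphaBar L M k)
    ((a • x : _root_.Fermat.Agent.S29.H801.FB L (M * k)) : LaurentSeries L) = (a : LaurentSeries L) * (x : LaurentSeries L) := by
  letI := algebraAlong (heckeAlphaBar L M k)
  rw [Algebra.smul_def, algebraMap_along_apply, MulMemClass.coe_mul, coe_heckeAlphaBar]

theorem smul_level_eq (M : ℕ) [NeZero M] (a : _root_.Fermat.Agent.S29.H801.FB L M) (x : LaurentSeries L) :
    a • x = (a : LaurentSeries L) * x := by
  rw [Algebra.smul_def, algebraMap_level_apply]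

/-- Elements of `F_{Mk}` are algebraic over `F_M`. -/
theorem isAlgebraic_level (M k : ℕ) [NeZero M] [NeZero k]
    (hfin : FiniteAlong L (heckeAlphaBar L M k)) (x : LaurentSeries L)
    (hx : x ∈ laurentBaseChange L (modularFunctionFieldFull (M * k))) :
    IsAlgebraic (laurentBaseChange L (modularFunctionFieldFull M)) x := by
  letI := algebraAlong (heckeAlphaBar L M k)
  haveI : Module.Finite (_root_.Fermat.Agent.S29.H801.FB L M) (_root_.Fermat.Agent.S29.H801.FB L (M * k)) := hfin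
  have hint : IsIntegral (_root_.Fermat.Agent.S29.H801.FB L M) (⟨x, hx⟩ : _root_.Fermat.Agent.S29.H801.FB L (M * k)) := IsIntegral.of_finite _ _
  obtain ⟨p, hp, hpx⟩ := hint
  refine ⟨p, hp.ne_zero, ?_⟩
  have h := Polynomial.hom_eval₂ p (algebraMap (_root_.Fermat.Agent.S29.H801.FB L M) (_root_.Fermat.Agent.S29.H801.FB L (M * k)))
    ((laurentBaseChange L (modularFunctionFieldFull (M * k))).val :
      _root_.Fermat.Agent.S29.H801.FB L (M * k) →+* LaurentSeries L) ⟨x, hx⟩
  rw [hpx, map_zero] at h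
  have hcomp : ((laurentBaseChange L (modularFunctionFieldFull (M * k))).val :
      _root_.Fermat.Agent.S29.H801.FB L (M * k) →+* LaurentSeries L).comp (algebraMap (_root_.Fermat.Agent.S29.H801.FB L M) (_root_.Fermat.Agent.S29.H801.FB L (M * k)))
      = algebraMap (laurentBaseChange L (modularFunctionFieldFull M)) (LaurentSeries L) := by
    refine RingHom.ext fun a => ?_
    rw [RingHom.comp_apply, algebraMap_along_apply, algebraMap_level_apply]
    exact coe_heckeAlphaBar M k a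
  rw [hcomp] at h
  rw [Polynomial.aeval_def]
  exact h.symm

/-- The image of `β_ℓ : F_{Nℓ'} → F_{Nℓℓ'}` spans `F_{Nℓℓ'}` over `F_{Nℓ}`. -/
theorem span_range_betaTo (N ℓ ℓ' : ℕ) [NeZero N] [NeZero ℓ] [NeZero ℓ']
    (hfin : FiniteAlong L (heckeAlphaBar L (N * ℓ) ℓ'))
    (hsup : laurentBaseChange L (modularFunctionFieldFull (N * ℓ * ℓ'))
      = laurentBaseChange L (modularFunctionFieldFull (N * ℓ))
        ⊔ (laurentBaseChange L (modularFunctionFieldFull (N * ℓ'))).map (qExpandAlgHomC L ℓ)) :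
    letI := algebraAlong (heckeAlphaBar L (N * ℓ) ℓ')
    Submodule.span (_root_.Fermat.Agent.S29.H801.FB L (N * ℓ))
      (Set.range (betaTo L (N * ℓ') ℓ (N * ℓ * ℓ') (Nat.mul_right_comm N ℓ' ℓ))) = ⊤ := by
  letI := algebraAlong (heckeAlphaBar L (N * ℓ) ℓ')
  rw [eq_top_iff]
  rintro t -
  have ht : (t : LaurentSeries L) ∈ laurentBaseChange L (modularFunctionFieldFull (N * ℓ))
      ⊔ (laurentBaseChange L (modularFunctionFieldFull (N * ℓ'))).map (qExpandAlgHomC L ℓ) := by
    rw [← hsup]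
    exact t.2
  have halg : ∀ x ∈ (laurentBaseChange L (modularFunctionFieldFull (N * ℓ'))).map
      (qExpandAlgHomC L ℓ),
      IsAlgebraic (laurentBaseChange L (modularFunctionFieldFull (N * ℓ))) x := by
    intro x hx
    refine isAlgebraic_level L (N * ℓ) ℓ' hfin x ?_
    rw [hsup]
    exact (le_sup_right : (laurentBaseChange L (modularFunctionFieldFull (N * ℓ'))).map
      (qExpandAlgHomC L ℓ) ≤ _) hx
  have hs := mem_span_of_mem_sup _ _ halg ht
  -- transport the span statement from `L((q))` to `F_{Nℓℓ'}`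
  have key : ∀ x : LaurentSeries L,
      x ∈ Submodule.span (laurentBaseChange L (modularFunctionFieldFull (N * ℓ)))
        (((laurentBaseChange L (modularFunctionFieldFull (N * ℓ'))).map (qExpandAlgHomC L ℓ) :
          IntermediateField L (LaurentSeries L)) : Set (LaurentSeries L)) →
      ∃ y : _root_.Fermat.Agent.S29.H801.FB L (N * ℓ * ℓ'),
        y ∈ Submodule.span (_root_.Fermat.Agent.S29.H801.FB L (N * ℓ))
          (Set.range (betaTo L (N * ℓ') ℓ (N * ℓ * ℓ') (Nat.mul_right_comm N ℓ' ℓ))) ∧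
        (y : LaurentSeries L) = x := by
    intro x hx
    induction hx using Submodule.span_induction with
    | mem x hx =>
      obtain ⟨z, hz, rfl⟩ := hx
      refine ⟨betaTo L (N * ℓ') ℓ (N * ℓ * ℓ') (Nat.mul_right_comm N ℓ' ℓ) ⟨z, hz⟩,
        Submodule.subset_span ⟨_, rfl⟩, ?_⟩
      rw [coe_betaTo]
      rfl
    | zero => exact ⟨0, Submodule.zero_mem _, rfl⟩
    | add x y _ _ hx hy =>
      obtain ⟨x', hx', rfl⟩ := hx
      obtain ⟨y', hy', rfl⟩ := hy
      exact ⟨x' + y', Submodule.add_mem _ hx' hy', rfl⟩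
    | smul a x _ hx =>
      obtain ⟨x', hx', rfl⟩ := hx
      refine ⟨a • x', Submodule.smul_mem _ a hx', ?_⟩
      rw [smul_along_coe, smul_level_eq]
  obtain ⟨y, hy, hyt⟩ := key _ hs
  have : y = t := Subtype.ext hyt
  rw [← this]
  exact hy

/-- The norm compatibility `nc` from the cartesian square and the degrees. -/
theorem normCompat_of_square (N ℓ ℓ' : ℕ) [NeZero N] [NeZero ℓ] [NeZero ℓ']
    (hfin : FiniteAlong L (heckeAlphaBar L N ℓ'))
    (hfin' : FiniteAlong L (heckeAlphaBar L (N * ℓ) ℓ'))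
    (hrk : finrankAlong L (heckeAlphaBar L N ℓ') ≤ finrankAlong L (heckeAlphaBar L (N * ℓ) ℓ'))
    (hsup : laurentBaseChange L (modularFunctionFieldFull (N * ℓ * ℓ'))
      = laurentBaseChange L (modularFunctionFieldFull (N * ℓ))
        ⊔ (laurentBaseChange L (modularFunctionFieldFull (N * ℓ'))).map (qExpandAlgHomC L ℓ)) :
    NormCompat (heckeAlphaBar L N ℓ') (heckeBetaBar L N ℓ) (heckeAlphaBar L (N * ℓ) ℓ')
      (betaTo L (N * ℓ') ℓ (N * ℓ * ℓ') (Nat.mul_right_comm N ℓ' ℓ)) :=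
  normCompat_of_span _ _ _ _ (rel_sq₁ N ℓ ℓ') hfin hfin' hrk
    (span_range_betaTo L N ℓ ℓ' hfin' hsup)

end General

/-- **The norm compatibility `nc` over `ℚ̄`.** -/
theorem normCompat_bar (N ℓ ℓ' : ℕ) [NeZero N] [NeZero ℓ] [NeZero ℓ'] (hℓ : ℓ.Prime)
    (hℓ' : ℓ'.Prime) (hne : ℓ ≠ ℓ') :
    NormCompat (heckeAlphaBar (AlgebraicClosure ℚ) N ℓ') (heckeBetaBar (AlgebraicClosure ℚ) N ℓ)
      (heckeAlphaBar (AlgebraicClosure ℚ) (N * ℓ) ℓ')
      (betaTo (AlgebraicClosure ℚ) (N * ℓ') ℓ (N * ℓ * ℓ') (Nat.mul_right_comm N ℓ' ℓ)) :=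
  normCompat_of_square (AlgebraicClosure ℚ) N ℓ ℓ'
    (Fermat.Agent.Lib.X0Deg.finiteAlong_heckeAlphaBar N ℓ')
    (Fermat.Agent.Lib.X0Deg.finiteAlong_heckeAlphaBar (N * ℓ) ℓ')
    (le_of_eq (Fermat.Agent.Lib.X0Deg.finrankAlong_heckeAlphaBar_square N ℓ ℓ' hℓ hℓ' hne).symm)
    (Fermat.Agent.Lib.X0Deg.modularFunctionFieldBar_square N ℓ ℓ')

end Fermat.Agent.S29.H801

end

end
-- ===== PACK-END S29/H801/M1NC.lean

-- ===== PACK-BEGIN S29/M1.lean
section





/-!
# S29, layer M, piece `M1` (helper801): exact `SkeletonM` statement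

`heckeOperatorsCommuteBar : HeckeOperatorsCommuteBar N` — the Prelude Hecke operators
`heckeOperatorBar N ℓ` on `J₀(N)(ℚ̄) = Pic⁰(ℚ̄(X₀(N)))` commute.  This is the hypothesis `hcomm`
of the frozen statement S37.

Purely algebraic proof (no places ↔ points dictionary): both `T_ℓ T_ℓ'` and `T_ℓ' T_ℓ` are the
correspondence through the common cover `F_{Nℓℓ'}`
(`H801.pic0_correspondence_comm`, on top of helper818's base-change lemma), with inputs
* `HI` at all levels (helper812 / helper864 / helper460),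
* local generators from weak approximation (shared library RR, helper623),
* norm compatibility of the mixed square from `F_{Nℓℓ'} = F_{Nℓ} ⊔ V_ℓ(F_{Nℓ'})` and
  `[F_{Nℓℓ'} : F_{Nℓ}] = [F_{Nℓ'} : F_N]` (shared library X0DEG, helper760).
-/

set_option autoImplicit false
set_option linter.style.haveILetI false

noncomputable section

namespace Fermat.Agent.S29

open ModularCurve AlgebraicCurve

/-- All inputs of the commutation theorem hold over `ℚ̄`. -/
theorem H801.m1Inputs_bar : H801.M1Inputs (AlgebraicClosure ℚ) where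
  hi := fun M ℓ _ _ hℓ => heckeInputsAlong_bar M ℓ hℓ
  lg := fun M ℓ _ _ hℓ hα => by
    obtain ⟨_, _, hP, _, _, _⟩ := heckeInputsAlong_bar M ℓ hℓ
    haveI := hP
    exact H801.hasLocalGenerators_of_hasPrincipalDivisors _ hα
  nc := fun N ℓ ℓ' _ _ _ hℓ hℓ' hne => H801.normCompat_bar N ℓ ℓ' hℓ hℓ' hne

variable (N : ℕ) [NeZero N]

/-- PIECE `M1`: Hecke operators on `J₀(N)(ℚ̄)` commute. -/
theorem heckeOperatorsCommuteBar : HeckeOperatorsCommuteBar N :=
  H801.heckeOperatorsCommuteBar_of_inputs H801.m1Inputs_bar N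

end Fermat.Agent.S29

end

end
-- ===== PACK-END S29/M1.lean

-- ===== PACK-BEGIN S35/H252/Factor.lean
section
/-
S35, piece (X-J) (helper252): `XJacStatement` ("FACTOR"), UNCONDITIONAL.

A polynomial `t` in the Hecke operators `T_ℓ`, `ℓ ∉ S` (`p ∈ S`, primes of `N` in `S`), which
vanishes on `S₂(Γ₀(N))` kills the `p`-power torsion of `J₀(N)(ℚ̄)`.

Route (all inputs on main):
* ONTO  (`S30.H810.exists_isParHom_isKum_of_torsion`): every `m`-torsion class `x` is the Kummer
  class of a parabolic character `c : Γ₀(N) → ℤ/m`;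
* HFree (`Lib.HFree.H412.exists_lift_isPe`): `c` lifts to an integral parabolic character `c'`;
* S21   (`Lib.HFree.H412.exists_mem_intPerLattice`): `c'` is the real period character of a cusp
  form `f`;
* the relation `JRel x f` so obtained is additive, `ℤ`-homogeneous and Hecke-equivariant
  (`S30.Chain.kumPackage` + `S29.H201.periodMap_heckeTLin`), and `JRel x 0 → x = 0`.
-/






set_option autoImplicit false
set_option linter.unusedSectionVars false
set_option linter.style.haveILetI false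

open CuspForm CongruenceSubgroup ModularFormClass ModularCurve ModularCurve.Period
open scoped MatrixGroups

namespace Fermat.Agent.S35.H252

open Fermat.Agent.S29 (G0 IsParHom heckeCoh)
open Fermat.Agent.S29.M4b (IsKum)
open Fermat.Agent.S30.H450 (KumPackage)
open Fermat.Agent.S29.H201 (heckeHom heckeHom_comp heckeHom_mem_pe IsPe)
open Fermat.Agent.S21 (reHom periodMap_add periodMap_smul)
open Fermat.Agent.Lib.HFree.H412 (bundle bundle_apply isPe_bundle heckeHom_bundle isPe_int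
  exists_lift_isPe exists_mem_intPerLattice reHom_periodMap_heckeTLin)

variable {N m : ℕ} [NeZero N]

/-! ### Small facts on the Kummer relation -/

/-- The zero character is parabolic. -/
theorem xj_isParHom_zero : IsParHom (0 : G0 N → ZMod m) :=
  ⟨fun _ _ => by simp, fun _ _ => rfl, fun _ _ _ _ => rfl⟩

/-- The Kummer class of the zero character is zero. -/
theorem xj_isKum_zero (K : KumPackage N m) : IsKum N m (0 : G0 N → ZMod m) (0 : JZero N) := by
  obtain ⟨x0, h0⟩ := K.ex 0 xj_isParHom_zero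
  have h1 := K.add 0 0 x0 x0 h0 h0
  rw [add_zero] at h1
  have hx : x0 + x0 = x0 := K.uniq 0 _ _ h1 h0
  have hx0 : x0 = 0 := by simpa using hx
  rwa [hx0] at h0

/-- Natural multiples of a Kummer pair. -/
theorem xj_isKum_nsmul (K : KumPackage N m) {c : G0 N → ZMod m} {x : JZero N}
    (h : IsKum N m c x) (n : ℕ) : IsKum N m (n • c) (n • x) := by
  induction n with
  | zero => simpa using xj_isKum_zero K
  | succ k ih =>
    rw [succ_nsmul, succ_nsmul]
    exact K.add _ _ _ _ ih h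

/-- Integral multiples of a Kummer pair killed by `m`. -/
theorem xj_isKum_zsmul [NeZero m] (K : KumPackage N m) {c : G0 N → ZMod m} {x : JZero N}
    (hx : (m : ℤ) • x = 0) (h : IsKum N m c x) (a : ℤ) :
    IsKum N m (fun γ => (a : ZMod m) * c γ) (a • x) := by
  set n : ℕ := (a % (m : ℤ)).toNat with hn
  have hm0 : (m : ℤ) ≠ 0 := by exact_mod_cast NeZero.ne m
  have hnz : (n : ℤ) = a % (m : ℤ) := Int.toNat_of_nonneg (Int.emod_nonneg _ hm0)
  have hax : a • x = n • x := by
    have hdecomp : a = (m : ℤ) * (a / (m : ℤ)) + (n : ℤ) := by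
      rw [hnz]; exact (Int.mul_ediv_add_emod a m).symm
    rw [hdecomp, add_zsmul, mul_comm, mul_zsmul, hx, smul_zero, zero_add, natCast_zsmul]
  have hna : (n : ZMod m) = (a : ZMod m) := by
    have : ((n : ℤ) : ZMod m) = ((a % (m : ℤ) : ℤ) : ZMod m) := by rw [hnz]
    rw [Int.cast_natCast] at this
    rw [this]
    exact (ZMod.intCast_mod a m)
  have h2 : IsKum N m (n • c) (n • x) := xj_isKum_nsmul K h n
  have hc : (n • c) = fun γ => (a : ZMod m) * c γ := by
    funext γ
    rw [Pi.smul_apply, nsmul_eq_mul, hna]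
  rw [hax, ← hc]
  exact h2

/-! ### The relation between torsion points and cusp forms -/

/-- `x ∈ J₀(N)[m]` and the cusp form `f` are related: the Kummer character of `x` is the
reduction modulo `m` of the (integral) real period character of `f`. -/
def JRel (N m : ℕ) [NeZero N] (x : JZero N) (f : CuspForm (Gamma0 N) 2) : Prop :=
  (m : ℤ) • x = 0 ∧ ∃ c' : Additive (Gamma0 N) →+ ℤ, IsParabolicHom (Gamma0 N) c' ∧
    reHom (periodMap N f) = (Int.castAddHom ℝ).comp c' ∧
    IsKum N m (fun γ : G0 N => ((c' (Additive.ofMul γ) : ℤ) : ZMod m)) x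

/-- Every `m`-torsion point is related to a cusp form. -/
theorem jRel_exists [NeZero m] {x : JZero N} (hx : (m : ℤ) • x = 0) :
    ∃ f : CuspForm (Gamma0 N) 2, JRel N m x f := by
  obtain ⟨c, hc, hk⟩ := Fermat.Agent.S30.H810.exists_isParHom_isKum_of_torsion N m hx
  obtain ⟨c', hc'par, hc'red⟩ := exists_lift_isPe m (bundle c hc) (isPe_bundle c hc)
  obtain ⟨f, hf⟩ := exists_mem_intPerLattice c' hc'par
  refine ⟨f, hx, c', hc'par, hf, ?_⟩
  have hcc : (fun γ : G0 N => ((c' (Additive.ofMul γ) : ℤ) : ZMod m)) = c := by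
    funext γ
    have := DFunLike.congr_fun hc'red (Additive.ofMul γ)
    rw [bundle_apply] at this
    exact this
  rw [hcc]
  exact hk

theorem jRel_add (K : KumPackage N m) {x x' : JZero N} {f f' : CuspForm (Gamma0 N) 2}
    (h : JRel N m x f) (h' : JRel N m x' f') : JRel N m (x + x') (f + f') := by
  obtain ⟨hx, c, hc, hf, hk⟩ := h
  obtain ⟨hx', d, hd, hf', hk'⟩ := h'
  refine ⟨by rw [zsmul_add, hx, hx', add_zero], c + d, fun γ hγ => ?_, ?_, ?_⟩
  · show c (Additive.ofMul γ) + d (Additive.ofMul γ) = 0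
    rw [hc γ hγ, hd γ hγ, add_zero]
  · refine AddMonoidHom.ext fun γ => ?_
    have h1 : (periodMap N f γ).re = ((c γ : ℤ) : ℝ) := DFunLike.congr_fun hf γ
    have h2 : (periodMap N f' γ).re = ((d γ : ℤ) : ℝ) := DFunLike.congr_fun hf' γ
    show (periodMap N (f + f') γ).re = (((c + d) γ : ℤ) : ℝ)
    rw [periodMap_add, AddMonoidHom.add_apply, Complex.add_re, h1, h2,
      AddMonoidHom.add_apply]
    push_cast
    rfl
  · have h3 := K.add _ _ _ _ hk hk'
    have hcd : ((fun γ : G0 N => ((c (Additive.ofMul γ) : ℤ) : ZMod m)) +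
        fun γ : G0 N => ((d (Additive.ofMul γ) : ℤ) : ZMod m))
        = fun γ : G0 N => (((c + d) (Additive.ofMul γ) : ℤ) : ZMod m) := by
      funext γ
      rw [Pi.add_apply, AddMonoidHom.add_apply]
      push_cast
      rfl
    rw [hcd] at h3
    exact h3

theorem jRel_zsmul [NeZero m] (K : KumPackage N m) {x : JZero N} {f : CuspForm (Gamma0 N) 2}
    (h : JRel N m x f) (a : ℤ) : JRel N m (a • x) (a • f) := by
  obtain ⟨hx, c, hc, hf, hk⟩ := h
  refine ⟨by rw [smul_comm, hx, smul_zero], a • c, fun γ hγ => ?_, ?_, ?_⟩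
  · show a • c (Additive.ofMul γ) = 0
    rw [hc γ hγ, smul_zero]
  · refine AddMonoidHom.ext fun γ => ?_
    have h1 : (periodMap N f γ).re = ((c γ : ℤ) : ℝ) := DFunLike.congr_fun hf γ
    have hsmul : periodMap N (a • f) = (a : ℂ) • periodMap N f := by
      rw [← periodMap_smul, Int.cast_smul_eq_zsmul]
    show (periodMap N (a • f) γ).re = (((a • c) γ : ℤ) : ℝ)
    rw [hsmul, AddMonoidHom.smul_apply, AddMonoidHom.smul_apply, smul_eq_mul, smul_eq_mul,
      Complex.mul_re, Complex.intCast_re, Complex.intCast_im, zero_mul, sub_zero, h1]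
    push_cast
    rfl
  · have h3 := xj_isKum_zsmul K hx hk a
    have hcd : (fun γ : G0 N => (a : ZMod m) * ((c (Additive.ofMul γ) : ℤ) : ZMod m))
        = fun γ : G0 N => (((a • c) (Additive.ofMul γ) : ℤ) : ZMod m) := by
      funext γ
      rw [AddMonoidHom.smul_apply, smul_eq_mul]
      push_cast
      rfl
    rw [hcd] at h3
    exact h3

theorem jRel_hecke [NeZero m] (K : KumPackage N m) {ℓ : ℕ} (hℓ : ℓ.Prime) (hℓN : ¬ ℓ ∣ N)
    (hℓNm : ¬ ℓ ∣ N * m) {x : JZero N} {f : CuspForm (Gamma0 N) 2} (h : JRel N m x f) :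
    JRel N m (heckeOperatorBar N ⟨ℓ, hℓ⟩ x) (heckeTLin 2 hℓ hℓN f) := by
  haveI : Fact ℓ.Prime := ⟨hℓ⟩
  obtain ⟨hx, c, hc, hf, hk⟩ := h
  have hcpar : IsParHom (fun γ : G0 N => ((c (Additive.ofMul γ) : ℤ) : ZMod m)) :=
    Fermat.Agent.S30.H810.isParHom_of_isKum hk
  refine ⟨by rw [← map_zsmul, hx, map_zero], heckeHom ℓ hℓN ℤ c,
    (heckeHom_mem_pe hℓN (isPe_int hc)).1, ?_, ?_⟩
  · rw [reHom_periodMap_heckeTLin hℓ hℓN, hf, heckeHom_comp]
  · have h3 := K.hecke ⟨ℓ, hℓ⟩ hℓNm _ x hcpar hk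
    have hb : bundle (fun γ : G0 N => ((c (Additive.ofMul γ) : ℤ) : ZMod m)) hcpar
        = (Int.castAddHom (ZMod m)).comp c := by
      refine AddMonoidHom.ext fun γ => ?_
      rfl
    have hcd : heckeCoh N ℓ (fun γ : G0 N => ((c (Additive.ofMul γ) : ℤ) : ZMod m))
        = fun γ : G0 N => (((heckeHom ℓ hℓN ℤ c) (Additive.ofMul γ) : ℤ) : ZMod m) := by
      funext γ
      rw [← heckeHom_bundle hℓN _ hcpar γ, hb, heckeHom_comp]
      rfl
    rw [hcd] at h3
    exact h3

theorem jRel_zero_right (K : KumPackage N m) {x : JZero N}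
    (h : JRel N m x (0 : CuspForm (Gamma0 N) 2)) : x = 0 := by
  obtain ⟨-, c, -, hf, hk⟩ := h
  have h0 : periodMap N (0 : CuspForm (Gamma0 N) 2) = 0 := by
    have := periodMap_smul (N := N) (0 : ℂ) (0 : CuspForm (Gamma0 N) 2)
    rwa [zero_smul, zero_smul] at this
  have hc0 : ∀ γ : G0 N, c (Additive.ofMul γ) = 0 := by
    intro γ
    have h1 : (periodMap N (0 : CuspForm (Gamma0 N) 2) (Additive.ofMul γ)).re
        = ((c (Additive.ofMul γ) : ℤ) : ℝ) := DFunLike.congr_fun hf (Additive.ofMul γ)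
    rw [h0] at h1
    have h2 : ((c (Additive.ofMul γ) : ℤ) : ℝ) = 0 := by
      rw [← h1]
      simp
    exact_mod_cast h2
  have hcz : (fun γ : G0 N => ((c (Additive.ofMul γ) : ℤ) : ZMod m)) = 0 := by
    funext γ
    rw [hc0 γ]
    simp
  rw [hcz] at hk
  exact K.uniq 0 _ _ hk (xj_isKum_zero K)

/-! ### The main induction -/

/-- **(X-J), FACTOR.** -/
theorem xJac : XJacStatement := by
  intro N _ p S hp hpS hNS t ht
  refine ⟨Fermat.Agent.S29.heckeOperatorsCommuteBar N, fun n x hx => ?_⟩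
  haveI : NeZero (p ^ n) := ⟨pow_ne_zero n hp.ne_zero⟩
  have K : KumPackage N (p ^ n) := Fermat.Agent.S30.Chain.kumPackage N (p ^ n)
  have hx' : ((p ^ n : ℕ) : ℤ) • x = 0 := by
    rw [Nat.cast_pow]
    exact hx
  -- the good primes
  have hIN : ∀ i : {ℓ : Nat.Primes // (ℓ : ℕ) ∉ S}, ¬ ((i : Nat.Primes) : ℕ) ∣ N :=
    fun i hdvd => i.2 (hNS _ i.1.2 hdvd)
  have hINm : ∀ i : {ℓ : Nat.Primes // (ℓ : ℕ) ∉ S}, ¬ ((i : Nat.Primes) : ℕ) ∣ N * p ^ n := by
    intro i hdvd
    rcases (Nat.Prime.dvd_mul i.1.2).1 hdvd with h | h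
    · exact hIN i h
    · have h1 := (Nat.prime_dvd_prime_iff_eq i.1.2 hp).1 (i.1.2.dvd_of_dvd_pow h)
      exact i.2 (h1 ▸ hpS)
  -- the induction
  have key : ∀ (s : MvPolynomial {ℓ : Nat.Primes // (ℓ : ℕ) ∉ S} ℤ) (y : JZero N)
      (f : CuspForm (Gamma0 N) 2), JRel N (p ^ n) y f →
      JRel N (p ^ n)
        (heckeEvalBar (Fermat.Agent.S29.heckeOperatorsCommuteBar N)
          (MvPolynomial.rename Subtype.val s) y)
        ((heckeEvalForms N 2 (MvPolynomial.rename Subtype.val s) :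
          Module.End ℂ (CuspForm (Gamma0 N) 2)) f) := by
    intro s
    induction s using MvPolynomial.induction_on with
    | C a =>
      intro y f hyf
      rw [MvPolynomial.rename_C, heckeEvalBar_C, heckeEvalForms_C, Module.End.intCast_apply]
      have h1 : ((algebraMap ℤ (heckeAlgebra N 2 ∅) a : heckeAlgebra N 2 ∅) :
          Module.End ℂ (CuspForm (Gamma0 N) 2)) f = a • f := by
        show ((heckeAlgebra N 2 ∅).val (algebraMap ℤ (heckeAlgebra N 2 ∅) a)) f = a • f
        rw [eq_intCast, map_intCast, Module.End.intCast_apply]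
      rw [h1]
      exact jRel_zsmul K hyf a
    | add s₁ s₂ h₁ h₂ =>
      intro y f hyf
      rw [map_add, map_add, map_add, LinearMap.add_apply, Subalgebra.coe_add,
        LinearMap.add_apply]
      exact jRel_add K (h₁ y f hyf) (h₂ y f hyf)
    | mul_X s i hs =>
      intro y f hyf
      rw [map_mul, map_mul, map_mul, MvPolynomial.rename_X, Module.End.mul_apply,
        Subalgebra.coe_mul, Module.End.mul_apply]
      have e1 : heckeEvalBar (Fermat.Agent.S29.heckeOperatorsCommuteBar N)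
          (MvPolynomial.X (i : Nat.Primes)) = heckeOperatorBar N (i : Nat.Primes) :=
        heckeEvalBar_heckeGen _ (i : Nat.Primes)
      have e2 : heckeEvalForms N 2 (MvPolynomial.X (i : Nat.Primes))
          = heckeAlgebra.T i.1.2 (hIN i) (Set.notMem_empty _) :=
        heckeEvalForms_heckeGen_of_not_dvd (hIN i)
      rw [e1, e2, heckeAlgebra.coe_T]
      exact hs _ _ (jRel_hecke K i.1.2 (hIN i) (hINm i) hyf)
  obtain ⟨f, hf⟩ := jRel_exists (N := N) (m := p ^ n) hx'
  have h1 := key t x f hf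
  rw [ht f] at h1
  exact jRel_zero_right K h1

end Fermat.Agent.S35.H252

end
-- ===== PACK-END S35/H252/Factor.lean

-- ===== PACK-BEGIN Lib/Newform/H863/Minimal.lean
section


/-!
# NEWFORM library, piece D2 (helper863): the newform attached to an eigenform

With the prelude's definition (`IsNewform` = normalised eigenform whose good eigensystem does
not occur at any proper divisor level), the existence of the associated newform is a
minimal-level argument.
-/

set_option autoImplicit false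
open CuspForm CongruenceSubgroup ModularFormClass

namespace Fermat.Agent.Lib.Newform.H863

/-- Transitivity of "the good eigensystem occurs". -/
theorem goodEigensystemOccursAt_trans {N M M' : ℕ} (hMN : M ∣ N)
    {f : CuspForm (Gamma0 N) 2} {g : CuspForm (Gamma0 M) 2}
    (hg : ∀ ℓ : ℕ, ℓ.Prime → ¬ ℓ ∣ N → qCoeff g ℓ = qCoeff f ℓ)
    (h : GoodEigensystemOccursAt g M') : GoodEigensystemOccursAt f M' := by
  obtain ⟨h', hh', hl⟩ := h
  refine ⟨h', hh', fun ℓ hℓ hℓN => ?_⟩
  rw [hl ℓ hℓ (fun hd => hℓN (hd.trans hMN)), hg ℓ hℓ hℓN]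

/-- **D2.** Every normalised eigenform of level `N ≠ 0` has an associated newform (in the
prelude's sense) of some level `M ∣ N` with the same good eigenvalues. -/
theorem exists_isNewform_of_isNormalizedEigenform {N : ℕ} [NeZero N]
    (f : CuspForm (Gamma0 N) 2) (hf : f.IsNormalizedEigenform) :
    ∃ M : ℕ, M ∣ N ∧ ∃ g : CuspForm (Gamma0 M) 2, g.IsNewform ∧
      ∀ ℓ : ℕ, ℓ.Prime → ¬ ℓ ∣ N → qCoeff g ℓ = qCoeff f ℓ := by
  classical
  have hex : ∃ M : ℕ, M ∣ N ∧ GoodEigensystemOccursAt f M :=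
    ⟨N, dvd_rfl, GoodEigensystemOccursAt.refl hf⟩
  obtain ⟨hMN, g, hg, hgl⟩ := Nat.find_spec hex
  refine ⟨Nat.find hex, hMN, g, ⟨hg, fun M' hM' hne hocc => ?_⟩, hgl⟩
  have hM0 : Nat.find hex ≠ 0 := fun h0 => NeZero.ne N (Nat.eq_zero_of_zero_dvd (h0 ▸ hMN))
  have hlt : M' < Nat.find hex :=
    lt_of_le_of_ne (Nat.le_of_dvd (Nat.pos_of_ne_zero hM0) hM') hne
  exact Nat.find_min hex hlt ⟨hM'.trans hMN, goodEigensystemOccursAt_trans hMN hgl hocc⟩

/-- A newform's good eigensystem occurs at no proper divisor level, even for a common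
eigenvector of the good Hecke operators only. -/
theorem IsNewform.eq_zero_of_eigenvector {N M : ℕ} [NeZero N] (hMN : M ∣ N) (hne : M ≠ N)
    {f : CuspForm (Gamma0 N) 2} (hf : f.IsNewform) (h : CuspForm (Gamma0 M) 2)
    (heig : ∀ (ℓ : ℕ) (hℓ : ℓ.Prime) (hℓN : ¬ ℓ ∣ N),
      CuspForm.heckeTLin 2 hℓ (fun hd => hℓN (hd.trans hMN)) h = qCoeff f ℓ • h) :
    h = 0 := by
  by_contra hh
  haveI : NeZero M := ⟨fun h0 => NeZero.ne N (Nat.eq_zero_of_zero_dvd (h0 ▸ hMN))⟩
  exact hf.2 M hMN hne (goodEigensystemOccursAt_of_eigenvector hMN f h hh heig)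

end Fermat.Agent.Lib.Newform.H863

end
-- ===== PACK-END Lib/Newform/H863/Minimal.lean

-- ===== PACK-BEGIN Lib/Newform/H443/SMOCore.lean
section
/-
NEWFORM library (helper443) — STRONG MULTIPLICITY ONE from the MAIN LEMMA.

Prelude language: `CuspForm (Gamma0 N) 2`, `CuspForm.heckeTLin`, `ModularFormClass.qCoeff`,
`CuspForm.IsNewform` (= normalised eigenform whose good eigensystem does not occur at a proper
divisor level).

* `qCoeff_eq_of_prime_eq` : two normalised eigenforms (levels dividing `D`) with the same `a_ℓ`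
  at all primes `ℓ ∤ D` have the same `a_n` for all `n` coprime to `D`.
* `IsNewform.eq_zero_of_mem_old` : let `Φ j : S₂(Γ₀(M j)) → S₂(Γ₀(N))` (`j` in a finite type,
  `M j ∣ N`, `M j ≠ N`) be linear maps commuting with `T_ℓ`, `ℓ ∤ N`.  A common eigenvector of the
  `T_ℓ`, `ℓ ∤ N`, with the eigenvalues of a NEWFORM `f` of level `N`, which lies in
  `⨆ j, range (Φ j)` ("old space"), is zero.
* `IsNewform.eq_of_mainLemma` : **strong multiplicity one at level `N`**, given the main lemma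
  in the form "`a_n(h) = 0` for all `n` coprime to `N` ⟹ `h ∈ ⨆ j, range (Φ j)`":
  a normalised eigenform `g` of level `N` with `a_ℓ(g) = a_ℓ(f)` for all primes `ℓ ∤ N`
  equals the newform `f`.
* `IsNewform.eq_smul_of_mainLemma` : the good eigenspace of a newform is the line `ℂ f`.
-/





set_option autoImplicit false

open CuspForm CongruenceSubgroup ModularFormClass

namespace Fermat.Agent.Lib.Newform.H443

/-- The coefficients `a_{p^r}`, `p ∤ N, N'`, of normalised eigenforms are determined by `a_p`. -/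
theorem qCoeff_prime_pow_eq {N N' : ℕ} {f : CuspForm (Gamma0 N) 2} {g : CuspForm (Gamma0 N') 2}
    (hf : f.IsNormalizedEigenform) (hg : g.IsNormalizedEigenform) {p : ℕ} (hp : p.Prime)
    (hpN : ¬ p ∣ N) (hpN' : ¬ p ∣ N') (h : qCoeff g p = qCoeff f p) :
    ∀ r : ℕ, qCoeff g (p ^ r) = qCoeff f (p ^ r) := by
  have key : ∀ r : ℕ, qCoeff g (p ^ r) = qCoeff f (p ^ r) ∧
      qCoeff g (p ^ (r + 1)) = qCoeff f (p ^ (r + 1)) := by
    intro r
    induction r with
    | zero =>
      refine ⟨?_, ?_⟩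
      · rw [pow_zero, hf.qCoeff_one, hg.qCoeff_one]
      · simpa using h
    | succ r ih =>
      refine ⟨ih.2, ?_⟩
      rw [hf.qCoeff_prime_pow_of_not_dvd p r hp hpN, hg.qCoeff_prime_pow_of_not_dvd p r hp hpN',
        h, ih.1, ih.2]
  exact fun r => (key r).1

/-- Two normalised eigenforms of levels dividing `D` with the same `a_ℓ` at all primes `ℓ ∤ D`
have the same `a_n` for all `n` coprime to `D`. -/
theorem qCoeff_eq_of_prime_eq {N N' D : ℕ} (hND : N ∣ D) (hN'D : N' ∣ D)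
    {f : CuspForm (Gamma0 N) 2} {g : CuspForm (Gamma0 N') 2}
    (hf : f.IsNormalizedEigenform) (hg : g.IsNormalizedEigenform)
    (h : ∀ ℓ : ℕ, ℓ.Prime → ¬ ℓ ∣ D → qCoeff g ℓ = qCoeff f ℓ) :
    ∀ n : ℕ, n.Coprime D → qCoeff g n = qCoeff f n := by
  intro n
  induction n using Nat.strong_induction_on with
  | _ n ih =>
    intro hn
    rcases Nat.eq_zero_or_pos n with rfl | hpos
    · rw [Fermat.Agent.Lib.Newform.H683.qCoeff_zero_cusp, Fermat.Agent.Lib.Newform.H683.qCoeff_zero_cusp]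
    rcases Nat.eq_or_lt_of_le (Nat.succ_le_of_lt hpos) with h1 | h1
    · have : n = 1 := h1.symm
      subst this
      rw [hf.qCoeff_one, hg.qCoeff_one]
    · -- `n ≥ 2`: split off a prime power
      obtain ⟨p, hp, hpn⟩ := Nat.exists_prime_and_dvd (show n ≠ 1 by omega)
      obtain ⟨r, m, hm, rfl⟩ := Nat.exists_eq_pow_mul_and_not_dvd hpos.ne' p hp.ne_one
      have hr : r ≠ 0 := by
        rintro rfl
        rw [pow_zero, one_mul] at hpn
        exact hm hpn
      have hcop : (p ^ r).Coprime m :=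
        Nat.Coprime.pow_left r ((Nat.Prime.coprime_iff_not_dvd hp).mpr hm)
      have hpD : ¬ p ∣ D := by
        intro hpD
        have h2 : p ∣ Nat.gcd (p ^ r * m) D :=
          Nat.dvd_gcd (Dvd.dvd.mul_right (dvd_pow_self p hr) m) hpD
        rw [Nat.Coprime] at hn
        rw [hn] at h2
        exact hp.one_lt.ne' (Nat.dvd_one.mp h2)
      have hmD : m.Coprime D := Nat.Coprime.coprime_dvd_left (Dvd.intro_left _ rfl) hn
      have hmlt : m < p ^ r * m := by
        have hmpos : 0 < m := Nat.pos_of_ne_zero (by rintro rfl; simp at hpos)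
        have : 1 < p ^ r := Nat.one_lt_pow hr hp.one_lt
        nlinarith
      rw [hf.qCoeff_mul_of_coprime _ _ hcop, hg.qCoeff_mul_of_coprime _ _ hcop,
        ih m hmlt hmD,
        qCoeff_prime_pow_eq hf hg hp (fun hd => hpD (hd.trans hND))
          (fun hd => hpD (hd.trans hN'D)) (h p hp hpD) r]

section Old

variable {N : ℕ} [NeZero N] {J : Type*} [Finite J] (M : J → ℕ) (hMN : ∀ j, M j ∣ N)
  (Φ : ∀ j, CuspForm (Gamma0 (M j)) 2 →ₗ[ℂ] CuspForm (Gamma0 N) 2)

/-- **No newform eigensystem in the old space.**  Let `Φ j : S₂(Γ₀(M j)) → S₂(Γ₀(N))` be finitely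
many linear maps from proper divisor levels commuting with the `T_ℓ`, `ℓ ∤ N`.  If `f` is a
newform of level `N` and `h ∈ ⨆ j, range (Φ j)` satisfies `T_ℓ h = a_ℓ(f) h` for all primes
`ℓ ∤ N`, then `h = 0`. -/
theorem IsNewform.eq_zero_of_mem_old {f : CuspForm (Gamma0 N) 2} (hf : f.IsNewform)
    (hne : ∀ j, M j ≠ N)
    (hΦ : ∀ j (ℓ : ℕ) (hℓ : ℓ.Prime) (hℓN : ¬ ℓ ∣ N) (v : CuspForm (Gamma0 (M j)) 2),
      Φ j (heckeTLin 2 hℓ (fun hd => hℓN (hd.trans (hMN j))) v) = heckeTLin 2 hℓ hℓN (Φ j v))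
    (h : CuspForm (Gamma0 N) 2) (hmem : h ∈ ⨆ j, LinearMap.range (Φ j))
    (heig : ∀ (ℓ : ℕ) (hℓ : ℓ.Prime) (hℓN : ¬ ℓ ∣ N), heckeTLin 2 hℓ hℓN h = qCoeff f ℓ • h) :
    h = 0 := by
  by_contra hh
  have hM0 : ∀ j, NeZero (M j) := fun j =>
    ⟨fun h0 => NeZero.ne N (Nat.eq_zero_of_zero_dvd (h0 ▸ hMN j))⟩
  have : ∀ j, FiniteDimensional ℂ (CuspForm (Gamma0 (M j)) 2) := fun j =>
    have := hM0 j
    Fermat.Agent.Lib.Newform.H863.finiteDimensional_cuspForm (M j)
  -- the operators, indexed by the good primes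
  let ι : Type := {ℓ : ℕ // ℓ.Prime ∧ ¬ ℓ ∣ N}
  let S : ∀ j, ι → Module.End ℂ (CuspForm (Gamma0 (M j)) 2) := fun j ℓ =>
    heckeTLin 2 ℓ.2.1 (fun hd => ℓ.2.2 (hd.trans (hMN j)))
  let T : ι → Module.End ℂ (CuspForm (Gamma0 N) 2) := fun ℓ => heckeTLin 2 ℓ.2.1 ℓ.2.2
  obtain ⟨j, v, hv0, hv⟩ := exists_eigenvector_of_equivariant_family S T
    (fun j ℓ ℓ' => CuspForm.heckeTLin_comm 2 _ _ _ _) Φ
    (fun j ℓ v => hΦ j ℓ.1 ℓ.2.1 ℓ.2.2 v) (fun ℓ => qCoeff f ℓ.1) hh hmem
    (fun ℓ => heig ℓ.1 ℓ.2.1 ℓ.2.2)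
  exact hv0 (Fermat.Agent.Lib.Newform.H863.IsNewform.eq_zero_of_eigenvector (hMN j) (hne j) hf v
    (fun ℓ hℓ hℓN => hv ⟨ℓ, hℓ, hℓN⟩))

/-- **Strong multiplicity one at level `N`, from the main lemma.**  Assume the main lemma in
the form: every `h ∈ S₂(Γ₀(N))` with `a_n(h) = 0` for all `n` coprime to `N` lies in the old
space `⨆ j, range (Φ j)`.  Then a `T_ℓ`-eigenvector (`ℓ ∤ N`) with the eigenvalues of a newform
`f` of level `N` is a multiple of `f`. -/
theorem IsNewform.eq_smul_of_mainLemma {f : CuspForm (Gamma0 N) 2} (hf : f.IsNewform)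
    (hne : ∀ j, M j ≠ N)
    (hΦ : ∀ j (ℓ : ℕ) (hℓ : ℓ.Prime) (hℓN : ¬ ℓ ∣ N) (v : CuspForm (Gamma0 (M j)) 2),
      Φ j (heckeTLin 2 hℓ (fun hd => hℓN (hd.trans (hMN j))) v) = heckeTLin 2 hℓ hℓN (Φ j v))
    (hmain : ∀ h : CuspForm (Gamma0 N) 2, (∀ n : ℕ, n.Coprime N → qCoeff h n = 0) →
      h ∈ ⨆ j, LinearMap.range (Φ j))
    (g : CuspForm (Gamma0 N) 2)
    (heig : ∀ (ℓ : ℕ) (hℓ : ℓ.Prime) (hℓN : ¬ ℓ ∣ N), heckeTLin 2 hℓ hℓN g = qCoeff f ℓ • g) :
    g = qCoeff g 1 • f := by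
  have hfeig : ∀ (ℓ : ℕ) (hℓ : ℓ.Prime) (hℓN : ¬ ℓ ∣ N),
      heckeTLin 2 hℓ hℓN f = qCoeff f ℓ • f := fun ℓ hℓ hℓN =>
    Fermat.Agent.Lib.Newform.H683.heckeTLin_eq_of_eigenform hf.1 hℓ hℓN
  set h : CuspForm (Gamma0 N) 2 := g - qCoeff g 1 • f with hh
  have hheig : ∀ (ℓ : ℕ) (hℓ : ℓ.Prime) (hℓN : ¬ ℓ ∣ N),
      heckeTLin 2 hℓ hℓN h = qCoeff f ℓ • h := by
    intro ℓ hℓ hℓN
    rw [hh, map_sub, map_smul, heig ℓ hℓ hℓN, hfeig ℓ hℓ hℓN, smul_sub, smul_comm]
  -- the coefficients of `h` prime to `N` vanish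
  have hcoeff1 : qCoeff h 1 = 0 := by
    rw [hh, Fermat.Agent.Lib.Newform.H683.qCoeff_sub_cusp,
      Fermat.Agent.Lib.Newform.H683.qCoeff_smul_cusp, hf.1.qCoeff_one, mul_one, sub_self]
  have hstep : ∀ (ℓ : ℕ) (hℓ : ℓ.Prime) (hℓN : ¬ ℓ ∣ N) (n : ℕ), ¬ ℓ ∣ n →
      qCoeff h (n * ℓ) = qCoeff f ℓ * qCoeff h n := by
    intro ℓ hℓ hℓN n hn
    have h1 := congrArg (fun F : CuspForm (Gamma0 N) 2 => qCoeff (⇑F) n) (hheig ℓ hℓ hℓN)
    beta_reduce at h1
    rw [Fermat.Agent.Lib.Newform.H683.qCoeff_smul_cusp, CuspForm.coe_heckeTLin_apply,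
      Fermat.Agent.Lib.Newform.H683.qCoeff_heckeT_cusp 2 h hℓ.ne_zero,
      ModularForm.coeffHeckeT_apply, if_neg hn, add_zero] at h1
    exact h1
  have hstep2 : ∀ (ℓ : ℕ) (hℓ : ℓ.Prime) (hℓN : ¬ ℓ ∣ N) (n : ℕ), ℓ ∣ n →
      qCoeff h (n * ℓ) = qCoeff f ℓ * qCoeff h n - (ℓ : ℂ) * qCoeff h (n / ℓ) := by
    intro ℓ hℓ hℓN n hn
    have h1 := congrArg (fun F : CuspForm (Gamma0 N) 2 => qCoeff (⇑F) n) (hheig ℓ hℓ hℓN)
    beta_reduce at h1
    rw [Fermat.Agent.Lib.Newform.H683.qCoeff_smul_cusp, CuspForm.coe_heckeTLin_apply,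
      Fermat.Agent.Lib.Newform.H683.qCoeff_heckeT_cusp 2 h hℓ.ne_zero,
      ModularForm.coeffHeckeT_apply, if_pos hn] at h1
    rw [← h1]
    norm_num
  have hzero : ∀ n : ℕ, n.Coprime N → qCoeff h n = 0 := by
    intro n
    induction n using Nat.strong_induction_on with
    | _ n ih =>
      intro hn
      rcases Nat.eq_zero_or_pos n with rfl | hpos
      · exact Fermat.Agent.Lib.Newform.H683.qCoeff_zero_cusp 2 h
      rcases Nat.eq_or_lt_of_le (Nat.succ_le_of_lt hpos) with h1 | h1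
      · have : n = 1 := h1.symm
        subst this
        exact hcoeff1
      · obtain ⟨p, hp, hpn⟩ := Nat.exists_prime_and_dvd (show n ≠ 1 by omega)
        obtain ⟨m, rfl⟩ := hpn
        have hmpos : 0 < m := Nat.pos_of_ne_zero (by rintro rfl; simp at hpos)
        have hpN : ¬ p ∣ N := by
          intro hpN
          have h2 : p ∣ Nat.gcd (p * m) N := Nat.dvd_gcd (Dvd.intro _ rfl) hpN
          rw [Nat.Coprime] at hn
          rw [hn] at h2
          exact hp.one_lt.ne' (Nat.dvd_one.mp h2)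
        have hmN : m.Coprime N := Nat.Coprime.coprime_dvd_left (Dvd.intro_left _ rfl) hn
        have hmlt : m < p * m := by
          have := hp.one_lt
          nlinarith
        rw [mul_comm p m]
        by_cases hpm : p ∣ m
        · rw [hstep2 p hp hpN m hpm, ih m hmlt hmN, mul_zero, zero_sub, neg_eq_zero]
          have hdlt : m / p < p * m :=
            lt_of_le_of_lt (Nat.div_le_self m p) hmlt
          have hdN : (m / p).Coprime N :=
            Nat.Coprime.coprime_dvd_left (Nat.div_dvd_of_dvd hpm) hmN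
          rw [ih (m / p) hdlt hdN, mul_zero]
        · rw [hstep p hp hpN m hpm, ih m hmlt hmN, mul_zero]
  have h0 : h = 0 := IsNewform.eq_zero_of_mem_old M hMN Φ hf hne hΦ h (hmain h hzero) hheig
  exact sub_eq_zero.mp h0

/-- **Strong multiplicity one at level `N`, from the main lemma** (normalised form): a normalised
eigenform `g` of level `N` with the good eigenvalues of a newform `f` of level `N` equals `f`. -/
theorem IsNewform.eq_of_mainLemma {f : CuspForm (Gamma0 N) 2} (hf : f.IsNewform)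
    (hne : ∀ j, M j ≠ N)
    (hΦ : ∀ j (ℓ : ℕ) (hℓ : ℓ.Prime) (hℓN : ¬ ℓ ∣ N) (v : CuspForm (Gamma0 (M j)) 2),
      Φ j (heckeTLin 2 hℓ (fun hd => hℓN (hd.trans (hMN j))) v) = heckeTLin 2 hℓ hℓN (Φ j v))
    (hmain : ∀ h : CuspForm (Gamma0 N) 2, (∀ n : ℕ, n.Coprime N → qCoeff h n = 0) →
      h ∈ ⨆ j, LinearMap.range (Φ j))
    {g : CuspForm (Gamma0 N) 2} (hg : g.IsNormalizedEigenform)
    (hgf : ∀ ℓ : ℕ, ℓ.Prime → ¬ ℓ ∣ N → qCoeff g ℓ = qCoeff f ℓ) :
    g = f := by
  have := IsNewform.eq_smul_of_mainLemma M hMN Φ hf hne hΦ hmain g (fun ℓ hℓ hℓN => by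
    rw [Fermat.Agent.Lib.Newform.H683.heckeTLin_eq_of_eigenform hg hℓ hℓN, hgf ℓ hℓ hℓN])
  rw [hg.qCoeff_one, one_smul] at this
  exact this

end Old

end Fermat.Agent.Lib.Newform.H443

end
-- ===== PACK-END Lib/Newform/H443/SMOCore.lean

-- ===== PACK-BEGIN Lib/Newform/H958/X/Global.lean
section



/-!
# NEWFORM block X — step X6: the global identity between Euler polynomials
-/

set_option autoImplicit false

open CongruenceSubgroup Complex Polynomial
open UpperHalfPlane hiding I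
open scoped MatrixGroups ModularForm

namespace Fermat.Agent.Lib.Newform.H958.X

open ModularFormClass ModularForm

/-- The product of the Euler polynomials at the primes of `T`, evaluated at `p ^ (-s)`. -/
noncomputable def eulerProd (N : ℕ) (a : ℕ → ℂ) (T : Finset ℕ) (s : ℂ) : ℂ :=
  ∏ p ∈ T, (eulerPoly N a p).eval ((p : ℂ) ^ (-s))

theorem differentiable_cpow_neg (p : ℕ) (hp : p ≠ 0) :
    Differentiable ℂ (fun s : ℂ => (p : ℂ) ^ (-s)) := by
  have hpc : (p : ℂ) ≠ 0 := Nat.cast_ne_zero.mpr hp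
  intro s
  exact (differentiableAt_id.neg).const_cpow (Or.inl hpc)

theorem differentiable_eulerProd (N : ℕ) (a : ℕ → ℂ) (T : Finset ℕ) (hT : ∀ p ∈ T, p.Prime) :
    Differentiable ℂ (eulerProd N a T) := by
  unfold eulerProd
  apply Differentiable.fun_finsetProd
  intro p hp
  exact (Polynomial.differentiable _).comp (differentiable_cpow_neg p (hT p hp).ne_zero)

theorem differentiable_natCast_cpow (N : ℕ) [NeZero N] :
    Differentiable ℂ (fun s : ℂ => (N : ℂ) ^ (s - 1)) := by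
  have hNc : (N : ℂ) ≠ 0 := Nat.cast_ne_zero.mpr (NeZero.ne N)
  intro s
  exact (differentiableAt_id.sub_const 1).const_cpow (Or.inl hNc)

variable {N N' : ℕ} [NeZero N] [NeZero N']

/-- Step (a): the depleted coefficients agree. -/
theorem depleted_eq {f : CuspForm (Gamma0 N) 2} {g : CuspForm (Gamma0 N') 2}
    (hf : f.IsNormalizedEigenform) (hg : g.IsNormalizedEigenform)
    (T : Finset ℕ) (hT : ∀ p ∈ T, p.Prime)
    (hTN : N.primeFactors ⊆ T) (hTN' : N'.primeFactors ⊆ T)
    (hagree : ∀ ℓ : ℕ, ℓ.Prime → ℓ ∉ T → qCoeff f ℓ = qCoeff g ℓ) (n : ℕ)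
    (hn : ∀ p ∈ T, ¬ p ∣ n) : qCoeff f n = qCoeff g n := by
  have hN : N ≠ 0 := NeZero.ne N
  have hN' : N' ≠ 0 := NeZero.ne N'
  -- every prime factor of `D` lies in `T`
  have hD : ∀ p : ℕ, p.Prime → p ∣ N * N' * ∏ t ∈ T, t → p ∈ T := by
    intro p hp hpD
    rcases (Nat.Prime.dvd_mul hp).mp hpD with h | h
    · rcases (Nat.Prime.dvd_mul hp).mp h with h | h
      · exact hTN (Nat.mem_primeFactors.mpr ⟨hp, h, hN⟩)
      · exact hTN' (Nat.mem_primeFactors.mpr ⟨hp, h, hN'⟩)
    · obtain ⟨t, htT, hpt⟩ := (Prime.dvd_finsetProd_iff hp.prime _).mp h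
      rw [(Nat.prime_dvd_prime_iff_eq hp (hT t htT)).mp hpt]
      exact htT
  symm
  refine Fermat.Agent.Lib.Newform.H443.qCoeff_eq_of_prime_eq (D := N * N' * ∏ t ∈ T, t)
    ((dvd_mul_right N N').mul_right _) ((dvd_mul_left N' N).mul_right _) hf hg ?_ n ?_
  · intro ℓ hℓ hℓD
    refine (hagree ℓ hℓ fun hℓT => hℓD ?_).symm
    exact (Finset.dvd_prod_of_mem _ hℓT).mul_left _
  · exact Nat.coprime_of_dvd fun p hp hpn hpD => hn p (hD p hp hpD) hpn

theorem Gammaℂ_ne_zero_of_pos {s : ℂ} (hs : 0 < s.re) : Gammaℂ s ≠ 0 := by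
  rw [Gammaℂ_def]
  have h1 : ((2 : ℂ) * (Real.pi : ℂ)) ≠ 0 :=
    mul_ne_zero two_ne_zero (ofReal_ne_zero.mpr Real.pi_ne_zero)
  exact mul_ne_zero (mul_ne_zero two_ne_zero ((cpow_ne_zero_iff_of_exponent_ne_zero
    (by
      intro h
      rw [neg_eq_zero] at h
      rw [h] at hs
      simp at hs)).mpr h1)) (Complex.Gamma_ne_zero_of_re_pos hs)

/-- An entire function vanishing on the half-plane `Re s > 2` vanishes identically. -/
theorem eq_zero_of_eq_zero_on_halfplane {F : ℂ → ℂ} (hF : Differentiable ℂ F)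
    (h : ∀ s : ℂ, 2 < s.re → F s = 0) : ∀ s : ℂ, F s = 0 := by
  have han : AnalyticOnNhd ℂ F Set.univ :=
    (hF.differentiableOn).analyticOnNhd isOpen_univ
  have hev : F =ᶠ[nhds (3 : ℂ)] 0 := by
    have hopen : IsOpen {s : ℂ | 2 < s.re} := isOpen_lt continuous_const continuous_re
    have hmem : (3 : ℂ) ∈ {s : ℂ | 2 < s.re} := by
      show (2 : ℝ) < (3 : ℂ).re
      simp only [re_ofNat]
      norm_num
    filter_upwards [hopen.mem_nhds hmem] with s hs
    exact h s hs
  have := han.eqOn_zero_of_preconnected_of_eventuallyEq_zero isPreconnected_univ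
    (Set.mem_univ (3 : ℂ)) hev
  intro s
  exact this (Set.mem_univ s)

/-- Step (b)+(c): `Λ_f P_f = Λ_g P_g` everywhere. -/
theorem Lam_mul_eulerProd_eq (hDep : Deplete)
    {f : CuspForm (Gamma0 N) 2} {g : CuspForm (Gamma0 N') 2}
    (hf : f.IsNormalizedEigenform) (hg : g.IsNormalizedEigenform)
    (T : Finset ℕ) (hT : ∀ p ∈ T, p.Prime)
    (hTN : N.primeFactors ⊆ T) (hTN' : N'.primeFactors ⊆ T)
    (hagree : ∀ ℓ : ℕ, ℓ.Prime → ℓ ∉ T → qCoeff f ℓ = qCoeff g ℓ) (s : ℂ) :
    Lam f s * eulerProd N (qCoeff f) T s = Lam g s * eulerProd N' (qCoeff g) T s := by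
  have key : ∀ s : ℂ, 2 < s.re →
      Lam f s * eulerProd N (qCoeff f) T s - Lam g s * eulerProd N' (qCoeff g) T s = 0 := by
    intro s hs
    have h1 := hDep N f hf T hT s hs
    have h2 := hDep N' g hg T hT s hs
    have hfun : (fun n : ℕ => (if ∀ p ∈ T, ¬ p ∣ n then qCoeff f n else 0) / (n : ℂ) ^ s) =
        fun n : ℕ => (if ∀ p ∈ T, ¬ p ∣ n then qCoeff g n else 0) / (n : ℂ) ^ s := by
      funext n
      by_cases hn : ∀ p ∈ T, ¬ p ∣ n
      · rw [if_pos hn, if_pos hn, depleted_eq hf hg T hT hTN hTN' hagree n hn]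
      · rw [if_neg hn, if_neg hn]
    rw [hfun] at h1
    have h3 := h1.unique h2
    have hG : (2 : ℂ) / Gammaℂ s ≠ 0 :=
      div_ne_zero two_ne_zero (Gammaℂ_ne_zero_of_pos (by linarith))
    have h4 : (2 / Gammaℂ s) * (Lam f s * eulerProd N (qCoeff f) T s) =
        (2 / Gammaℂ s) * (Lam g s * eulerProd N' (qCoeff g) T s) := by
      unfold eulerProd
      linear_combination h3
    rw [sub_eq_zero]
    exact mul_left_cancel₀ hG h4
  have hdiff : Differentiable ℂ (fun s : ℂ =>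
      Lam f s * eulerProd N (qCoeff f) T s - Lam g s * eulerProd N' (qCoeff g) T s) :=
    ((differentiable_Lam f).mul (differentiable_eulerProd N _ T hT)).sub
      ((differentiable_Lam g).mul (differentiable_eulerProd N' _ T hT))
  exact sub_eq_zero.mp (eq_zero_of_eq_zero_on_halfplane hdiff key s)

/-- **X6**: the global identity between the Euler polynomials of two newforms with the same
eigenvalues outside `T`. -/
theorem globalIdentity_of (hD : DirichletSeries) (hDep : Deplete)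
    {f : CuspForm (Gamma0 N) 2} {g : CuspForm (Gamma0 N') 2}
    (hf : f.IsNormalizedEigenform) (hg : g.IsNormalizedEigenform) {wf wg : ℂ}
    (hFEf : ∀ s : ℂ, Lam f (2 - s) = -(wf * (N : ℂ) ^ (s - 1)) * Lam f s)
    (hFEg : ∀ s : ℂ, Lam g (2 - s) = -(wg * (N' : ℂ) ^ (s - 1)) * Lam g s)
    (T : Finset ℕ) (hT : ∀ p ∈ T, p.Prime)
    (hTN : N.primeFactors ⊆ T) (hTN' : N'.primeFactors ⊆ T)
    (hagree : ∀ ℓ : ℕ, ℓ.Prime → ℓ ∉ T → qCoeff f ℓ = qCoeff g ℓ) (s : ℂ) :
    wf * (N : ℂ) ^ (s - 1) * eulerProd N (qCoeff f) T (2 - s) * eulerProd N' (qCoeff g) T s =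
      wg * (N' : ℂ) ^ (s - 1) * eulerProd N (qCoeff f) T s * eulerProd N' (qCoeff g) T (2 - s) := by
  have hI := Lam_mul_eulerProd_eq hDep hf hg T hT hTN hTN' hagree
  -- `Λ_f · U = 0`
  have hprod : ∀ s : ℂ, Lam f s *
      (wf * (N : ℂ) ^ (s - 1) * eulerProd N (qCoeff f) T (2 - s) * eulerProd N' (qCoeff g) T s -
        wg * (N' : ℂ) ^ (s - 1) * eulerProd N (qCoeff f) T s *
          eulerProd N' (qCoeff g) T (2 - s)) = 0 := by
    intro s
    have h1 := hI s
    have h2 := hI (2 - s)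
    rw [hFEf s, hFEg s] at h2
    linear_combination (-eulerProd N' (qCoeff g) T s) * h2 -
      (wg * (N' : ℂ) ^ (s - 1) * eulerProd N' (qCoeff g) T (2 - s)) * h1
  -- analyticity
  have hLan : AnalyticOnNhd ℂ (Lam f) Set.univ :=
    ((differentiable_Lam f).differentiableOn).analyticOnNhd isOpen_univ
  have hsub : Differentiable ℂ (fun s : ℂ => (2 : ℂ) - s) :=
    (differentiable_const _).sub differentiable_id
  have hUd : Differentiable ℂ (fun s : ℂ =>
      wf * (N : ℂ) ^ (s - 1) * eulerProd N (qCoeff f) T (2 - s) * eulerProd N' (qCoeff g) T s -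
        wg * (N' : ℂ) ^ (s - 1) * eulerProd N (qCoeff f) T s *
          eulerProd N' (qCoeff g) T (2 - s)) := by
    have e1 := differentiable_eulerProd N (qCoeff f) T hT
    have e2 := differentiable_eulerProd N' (qCoeff g) T hT
    have c1 := differentiable_natCast_cpow N
    have c2 := differentiable_natCast_cpow N'
    exact ((((differentiable_const wf).mul c1).mul (e1.comp hsub)).mul e2).sub
      ((((differentiable_const wg).mul c2).mul e1).mul (e2.comp hsub))
  have hUan := (hUd.differentiableOn).analyticOnNhd isOpen_univ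
  rcases AnalyticOnNhd.eq_zero_or_eq_zero_of_mul_eq_zero hLan hUan
    (fun s _ => hprod s) isPreconnected_univ with h | h
  · exfalso
    obtain ⟨s₀, -, hs₀⟩ := exists_Lam_ne_zero hD f hf.qCoeff_one
    exact hs₀ (h s₀ (Set.mem_univ s₀))
  · exact sub_eq_zero.mp (h s (Set.mem_univ s))

end Fermat.Agent.Lib.Newform.H958.X

end
-- ===== PACK-END Lib/Newform/H958/X/Global.lean

-- ===== PACK-BEGIN Lib/Newform/H958/X/Local.lean
section


/-!
# NEWFORM block X — from the global identity to the local identities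
-/

set_option autoImplicit false

open CongruenceSubgroup Complex Polynomial
open UpperHalfPlane hiding I
open scoped MatrixGroups ModularForm

namespace Fermat.Agent.Lib.Newform.H958.X

open ModularFormClass ModularForm

/-- `(∏_{p ∈ T} p ^ k p) ^ z = ∏_{p ∈ T} (p ^ z) ^ k p`. -/
theorem natCast_prod_pow_cpow (T : Finset ℕ) (k : ℕ → ℕ) (z : ℂ) :
    (((∏ p ∈ T, p ^ k p : ℕ) : ℂ)) ^ z = ∏ p ∈ T, ((p : ℂ) ^ z) ^ k p := by
  classical
  induction T using Finset.induction_on with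
  | empty => simp
  | insert a T ha ih =>
    rw [Finset.prod_insert ha, Finset.prod_insert ha, Nat.cast_mul, natCast_mul_natCast_cpow, ih]
    congr 1
    rw [Nat.cast_pow, ← natCast_cpow_natCast_mul, Complex.cpow_nat_mul]

/-- `N = ∏_{p ∈ T} p ^ v_p(N)` if `T` is a set of primes containing the prime factors of `N`. -/
theorem prod_pow_factorization_eq {N : ℕ} (hN : N ≠ 0) (T : Finset ℕ)
    (hTN : N.primeFactors ⊆ T) : ∏ p ∈ T, p ^ N.factorization p = N := by
  have h1 : ∏ p ∈ T, p ^ N.factorization p = ∏ p ∈ N.primeFactors, p ^ N.factorization p := by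
    refine (Finset.prod_subset hTN fun p _ hp => ?_).symm
    have : N.factorization p = 0 := by
      rw [← Finsupp.notMem_support_iff, Nat.support_factorization]
      exact hp
    rw [this, pow_zero]
  rw [h1]
  exact Nat.prod_factorization_pow_eq_self hN

theorem natCast_cpow_eq_prod {N : ℕ} (hN : N ≠ 0) (T : Finset ℕ)
    (hTN : N.primeFactors ⊆ T) (z : ℂ) :
    (N : ℂ) ^ z = ∏ p ∈ T, ((p : ℂ) ^ z) ^ N.factorization p := by
  rw [← natCast_prod_pow_cpow, prod_pow_factorization_eq hN T hTN]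

/-- `p ^ (-(2 - s)) = p⁻² / p ^ (-s)`. -/
theorem cpow_neg_two_sub {p : ℕ} (hp : p ≠ 0) (s : ℂ) :
    (p : ℂ) ^ (-(2 - s)) = ((p : ℂ) ^ 2)⁻¹ / (p : ℂ) ^ (-s) := by
  have hpc : (p : ℂ) ≠ 0 := Nat.cast_ne_zero.mpr hp
  rw [show -(2 - s) = (-(2 : ℕ) : ℂ) + s by push_cast; ring, Complex.cpow_add _ _ hpc,
    Complex.cpow_neg, Complex.cpow_natCast, Complex.cpow_neg, div_eq_mul_inv, inv_inv]

theorem eulerProd_two_sub (N : ℕ) (a : ℕ → ℂ) (T : Finset ℕ) (hT : ∀ p ∈ T, p.Prime) (s : ℂ) :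
    (∏ p ∈ T, ((p : ℂ) ^ (-s)) ^ 2) * eulerProd N a T (2 - s) =
      ∏ p ∈ T, (eulerPolyRev N a p).eval ((p : ℂ) ^ (-s)) := by
  unfold eulerProd
  rw [← Finset.prod_mul_distrib]
  refine Finset.prod_congr rfl fun p hp => ?_
  have hp0 : p ≠ 0 := (hT p hp).ne_zero
  have hpc : (p : ℂ) ≠ 0 := Nat.cast_ne_zero.mpr hp0
  have hx : (p : ℂ) ^ (-s) ≠ 0 := (Complex.cpow_ne_zero_iff).mpr (Or.inl hpc)
  rw [eval_eulerPolyRev N a hp0 hx, cpow_neg_two_sub hp0]

/-- From the global identity to the local identity at a prime `q ∈ T`. -/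
theorem localIdentity_of_global (hIL : IndepLocal)
    {N N' : ℕ} [NeZero N] [NeZero N'] (a b : ℕ → ℂ) {wf wg : ℂ} (hwf : wf ≠ 0) (hwg : wg ≠ 0)
    (T : Finset ℕ) (hT : ∀ p ∈ T, p.Prime)
    (hTN : N.primeFactors ⊆ T) (hTN' : N'.primeFactors ⊆ T)
    (hglob : ∀ s : ℂ, wf * (N : ℂ) ^ (s - 1) * eulerProd N a T (2 - s) * eulerProd N' b T s =
      wg * (N' : ℂ) ^ (s - 1) * eulerProd N a T s * eulerProd N' b T (2 - s))
    (q : ℕ) (hq : q ∈ T) :
    ∃ c : ℂ, c ≠ 0 ∧
      X ^ (N'.factorization q) * eulerPolyRev N a q * eulerPoly N' b q =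
        C c * (X ^ (N.factorization q) * eulerPoly N a q * eulerPolyRev N' b q) := by
  classical
  have hN : N ≠ 0 := NeZero.ne N
  have hN' : N' ≠ 0 := NeZero.ne N'
  have hNc : (N : ℂ) ≠ 0 := Nat.cast_ne_zero.mpr hN
  have hN'c : (N' : ℂ) ≠ 0 := Nat.cast_ne_zero.mpr hN'
  set c₀ : ℂ := wg * N / (wf * N') with hc₀
  have hc₀ne : c₀ ≠ 0 := div_ne_zero (mul_ne_zero hwg hNc) (mul_ne_zero hwf hN'c)
  let A : ℕ → ℂ[X] := fun p =>
    X ^ (N'.factorization p) * eulerPolyRev N a p * eulerPoly N' b p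
  let B : ℕ → ℂ[X] := fun p =>
    X ^ (N.factorization p) * eulerPoly N a p * eulerPolyRev N' b p
  let B' : ℕ → ℂ[X] := fun p => (if p = q then C c₀ else 1) * B p
  have hA : ∀ p ∈ T, A p ≠ 0 := fun p _ =>
    mul_ne_zero (mul_ne_zero (pow_ne_zero _ X_ne_zero) (eulerPolyRev_ne_zero N a p))
      (eulerPoly_ne_zero N' b p)
  have hB : ∀ p, B p ≠ 0 := fun p =>
    mul_ne_zero (mul_ne_zero (pow_ne_zero _ X_ne_zero) (eulerPoly_ne_zero N a p))
      (eulerPolyRev_ne_zero N' b p)
  have hB' : ∀ p ∈ T, B' p ≠ 0 := by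
    intro p _
    refine mul_ne_zero ?_ (hB p)
    split_ifs
    · exact C_ne_zero.mpr hc₀ne
    · exact one_ne_zero
  have hid : ∀ s : ℂ, ∏ p ∈ T, (A p).eval ((p : ℂ) ^ (-s)) =
      ∏ p ∈ T, (B' p).eval ((p : ℂ) ^ (-s)) := by
    intro s
    have hL : ∏ p ∈ T, (A p).eval ((p : ℂ) ^ (-s)) =
        (N' : ℂ) ^ (-s) * ((∏ p ∈ T, ((p : ℂ) ^ (-s)) ^ 2) * eulerProd N a T (2 - s)) *
          eulerProd N' b T s := by
      rw [eulerProd_two_sub N a T hT, natCast_cpow_eq_prod hN' T hTN', eulerProd,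
        ← Finset.prod_mul_distrib, ← Finset.prod_mul_distrib]
      refine Finset.prod_congr rfl fun p _ => ?_
      simp only [A, eval_mul, eval_pow, eval_X]
    have hR : ∏ p ∈ T, (B' p).eval ((p : ℂ) ^ (-s)) =
        c₀ * ((N : ℂ) ^ (-s) * eulerProd N a T s *
          ((∏ p ∈ T, ((p : ℂ) ^ (-s)) ^ 2) * eulerProd N' b T (2 - s))) := by
      rw [eulerProd_two_sub N' b T hT, natCast_cpow_eq_prod hN T hTN, eulerProd,
        ← Finset.prod_mul_distrib, ← Finset.prod_mul_distrib]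
      have h1 : ∏ p ∈ T, (B' p).eval ((p : ℂ) ^ (-s)) =
          (∏ p ∈ T, (if p = q then c₀ else 1)) * ∏ p ∈ T, (B p).eval ((p : ℂ) ^ (-s)) := by
        rw [← Finset.prod_mul_distrib]
        refine Finset.prod_congr rfl fun p _ => ?_
        simp only [B', eval_mul]
        split_ifs <;> simp
      rw [h1, Finset.prod_ite_eq' T q (fun _ => c₀), if_pos hq]
      congr 1
      refine Finset.prod_congr rfl fun p _ => ?_
      simp only [B, eval_mul, eval_pow, eval_X]
    rw [hL, hR]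
    have hg := hglob s
    rw [Complex.cpow_sub _ _ hNc, Complex.cpow_sub _ _ hN'c, Complex.cpow_one,
      Complex.cpow_one] at hg
    rw [Complex.cpow_neg, Complex.cpow_neg]
    have hu : (N : ℂ) ^ s ≠ 0 := (Complex.cpow_ne_zero_iff).mpr (Or.inl hNc)
    have hv : (N' : ℂ) ^ s ≠ 0 := (Complex.cpow_ne_zero_iff).mpr (Or.inl hN'c)
    rw [hc₀]
    field_simp
    field_simp at hg
    linear_combination (∏ p ∈ T, ((p : ℂ) ^ (-s)) ^ 2) * hg
  obtain ⟨c, hc, hAB⟩ := hIL T hT A B' hA hB' hid q hq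
  refine ⟨c * c₀, mul_ne_zero hc hc₀ne, ?_⟩
  have : A q = C c * B' q := hAB
  simp only [A, B', B, ↓reduceIte] at this
  rw [this, C_mul]
  ring

end Fermat.Agent.Lib.Newform.H958.X

end
-- ===== PACK-END Lib/Newform/H958/X/Local.lean

-- ===== PACK-BEGIN Lib/Newform/H958/X/MainOf.lean
section


/-!
# NEWFORM block X — `LocalIdentity` from the leaves
-/

set_option autoImplicit false

open CongruenceSubgroup Complex Polynomial
open UpperHalfPlane hiding I
open scoped MatrixGroups ModularForm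

namespace Fermat.Agent.Lib.Newform.H958.X

open ModularFormClass ModularForm

theorem localIdentity_of (hIL : IndepLocal) (hD : DirichletSeries) (hDep : Deplete)
    (hO : FrickeOp) (hI : FrickeInvol) (hH : FrickeHecke) (hM : MultOne)
    (hET : Fermat.Agent.Lib.Newform.H958.EigenT) : LocalIdentity := by
  intro N N' _ _ f g hf hg S hagree q hq
  classical
  let T : Finset ℕ := (S ∪ N.primeFactors ∪ N'.primeFactors ∪ {q}).filter Nat.Prime
  have hT : ∀ p ∈ T, p.Prime := fun p hp => (Finset.mem_filter.mp hp).2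
  have hqT : q ∈ T := Finset.mem_filter.mpr ⟨by simp, hq⟩
  have hTN : N.primeFactors ⊆ T := fun p hp =>
    Finset.mem_filter.mpr ⟨by simp [hp], (Nat.mem_primeFactors.mp hp).1⟩
  have hTN' : N'.primeFactors ⊆ T := fun p hp =>
    Finset.mem_filter.mpr ⟨by simp [hp], (Nat.mem_primeFactors.mp hp).1⟩
  have hag : ∀ ℓ : ℕ, ℓ.Prime → ℓ ∉ T → qCoeff f ℓ = qCoeff g ℓ := fun ℓ hℓ hℓT =>
    hagree ℓ hℓ fun hS => hℓT (Finset.mem_filter.mpr ⟨by simp [hS], hℓ⟩)
  obtain ⟨wf, hwf, hFEf⟩ := functionalEq_newform_of hO hI hH hM hET hf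
  obtain ⟨wg, hwg, hFEg⟩ := functionalEq_newform_of hO hI hH hM hET hg
  have hwf0 : wf ≠ 0 := by
    rintro rfl
    simp at hwf
  have hwg0 : wg ≠ 0 := by
    rintro rfl
    simp at hwg
  have hglob := globalIdentity_of hD hDep hf.1 hg.1 hFEf hFEg T hT hTN hTN' hag
  exact localIdentity_of_global hIL _ _ hwf0 hwg0 T hT hTN hTN' hglob q hqT

end Fermat.Agent.Lib.Newform.H958.X

end
-- ===== PACK-END Lib/Newform/H958/X/MainOf.lean

-- ===== PACK-BEGIN Lib/Newform/H803/MultOne.lean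
section




/-!
# Multiplicity one for Prelude newforms (helper803)

Glue of the Atkin–Lehner main lemma (`H803.mainLemma`) with helper443's conditional strong
multiplicity one (`H443.IsNewform.eq_smul_of_mainLemma`) and helper863's degeneracy maps.

* `oldMap N p : S₂(Γ₀(N/p)) →ₗ S₂(Γ₀(N))`, `g ↦ g(p τ)`, for `p ∈ N.primeFactors`;
* `mem_oldSpace_of_coprime_coeff_eq_zero` : main lemma, submodule form;
* `IsNewform.eq_smul_of_eigen` : the good eigenspace of a newform is the line `ℂ f`;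
* `IsNewform.eq_of_eigenform` : a normalised eigenform of level `N` with the good eigenvalues of
  a newform `f` of level `N` equals `f`.
-/

set_option autoImplicit false

namespace Fermat.Agent.Lib.Newform.H803

open CongruenceSubgroup ModularFormClass UpperHalfPlane
open ModularForm (heckeDiagMatrix)
open Fermat.Agent.Lib.Newform.H863
open scoped MatrixGroups

/-- The old-space map `S₂(Γ₀(N/p)) → S₂(Γ₀(N))`, `g ↦ g(p τ)`. -/
noncomputable def oldMap (N : ℕ) (p : N.primeFactors) :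
    CuspForm (Gamma0 (N / (p : ℕ))) 2 →ₗ[ℂ] CuspForm (Gamma0 N) 2 :=
  haveI : NeZero (p : ℕ) := ⟨(Nat.prime_of_mem_primeFactors p.2).ne_zero⟩
  (levelIncl (dvd_of_eq (Nat.div_mul_cancel (Nat.dvd_of_mem_primeFactors p.2)))).comp
    (degen (p : ℕ))

theorem oldMap_apply (N : ℕ) (p : N.primeFactors) (g : CuspForm (Gamma0 (N / (p : ℕ))) 2)
    (τ : ℍ) : oldMap N p g τ = g (heckeDiagMatrix (p : ℕ) • τ) := by
  have : NeZero (p : ℕ) := ⟨(Nat.prime_of_mem_primeFactors p.2).ne_zero⟩
  exact degen_apply (p : ℕ) g τ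

theorem div_dvd_of_mem_primeFactors {N : ℕ} (p : N.primeFactors) : N / (p : ℕ) ∣ N :=
  Nat.div_dvd_of_dvd (Nat.dvd_of_mem_primeFactors p.2)

theorem div_ne_of_mem_primeFactors {N : ℕ} (p : N.primeFactors) : N / (p : ℕ) ≠ N := by
  have hp := Nat.prime_of_mem_primeFactors p.2
  have hpN := Nat.dvd_of_mem_primeFactors p.2
  have hN : 0 < N := Nat.pos_of_ne_zero (Nat.mem_primeFactors.mp p.2).2.2
  exact (Nat.div_lt_self hN hp.one_lt).ne

/-- `oldMap` commutes with the good Hecke operators. -/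
theorem oldMap_heckeTLin (N : ℕ) (p : N.primeFactors) (ℓ : ℕ) (hℓ : ℓ.Prime) (hℓN : ¬ ℓ ∣ N)
    (v : CuspForm (Gamma0 (N / (p : ℕ))) 2) :
    oldMap N p (CuspForm.heckeTLin 2 hℓ (fun hd => hℓN (hd.trans (div_dvd_of_mem_primeFactors p))) v) =
      CuspForm.heckeTLin 2 hℓ hℓN (oldMap N p v) := by
  have : NeZero (p : ℕ) := ⟨(Nat.prime_of_mem_primeFactors p.2).ne_zero⟩
  have hpN : N / (p : ℕ) * (p : ℕ) = N := Nat.div_mul_cancel (Nat.dvd_of_mem_primeFactors p.2)
  have hℓ' : ¬ ℓ ∣ N / (p : ℕ) * (p : ℕ) := by rw [hpN]; exact hℓN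
  show levelIncl (dvd_of_eq hpN) (degen (p : ℕ) _) =
    CuspForm.heckeTLin 2 hℓ hℓN (levelIncl (dvd_of_eq hpN) (degen (p : ℕ) v))
  rw [heckeTLin_levelIncl (dvd_of_eq hpN) hℓ hℓN, heckeTLin_degen hℓ hℓ']

theorem coe_sum_cuspForm {Γ : Subgroup (GL (Fin 2) ℝ)} {k : ℤ} {ι : Type*} (s : Finset ι)
    (F : ι → CuspForm Γ k) : (⇑(∑ i ∈ s, F i) : ℍ → ℂ) = ∑ i ∈ s, ⇑(F i) := by
  classical
  induction s using Finset.induction_on with
  | empty => simp
  | insert a s ha ih => rw [Finset.sum_insert ha, Finset.sum_insert ha, FunLike.coe_add, ih]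

/-- **Main lemma, submodule form.** -/
theorem mem_oldSpace_of_coprime_coeff_eq_zero (N : ℕ) [NeZero N] (h : CuspForm (Gamma0 N) 2)
    (h0 : ∀ n : ℕ, n.Coprime N → qCoeff h n = 0) :
    h ∈ ⨆ p : N.primeFactors, LinearMap.range (oldMap N p) := by
  obtain ⟨g, hg⟩ := mainLemma N 2 h h0
  have e : h = ∑ p : N.primeFactors, oldMap N p (g p) := by
    apply DFunLike.coe_injective
    funext τ
    rw [hg τ, ← Finset.sum_coe_sort]
    rw [coe_sum_cuspForm, Finset.sum_apply]
    exact Finset.sum_congr rfl fun p _ => (oldMap_apply N p (g p) τ).symm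
  rw [e]
  exact Submodule.sum_mem _ fun p _ =>
    Submodule.mem_iSup_of_mem p (LinearMap.mem_range_self _ _)

/-- **Multiplicity one.** The good eigenspace of a newform `f` of level `N` is the line `ℂ f`. -/
theorem IsNewform.eq_smul_of_eigen {N : ℕ} [NeZero N] {f : CuspForm (Gamma0 N) 2}
    (hf : CuspForm.IsNewform f) (g : CuspForm (Gamma0 N) 2)
    (heig : ∀ (ℓ : ℕ) (hℓ : ℓ.Prime) (hℓN : ¬ ℓ ∣ N), CuspForm.heckeTLin 2 hℓ hℓN g = qCoeff f ℓ • g) :
    g = qCoeff g 1 • f :=
  Fermat.Agent.Lib.Newform.H443.IsNewform.eq_smul_of_mainLemma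
    (fun p : N.primeFactors => N / (p : ℕ)) div_dvd_of_mem_primeFactors (oldMap N) hf
    div_ne_of_mem_primeFactors (oldMap_heckeTLin N)
    (mem_oldSpace_of_coprime_coeff_eq_zero N) g heig

/-- **Multiplicity one**, normalised form. -/
theorem IsNewform.eq_of_eigenform {N : ℕ} [NeZero N] {f : CuspForm (Gamma0 N) 2}
    (hf : CuspForm.IsNewform f) {g : CuspForm (Gamma0 N) 2} (hg : CuspForm.IsNormalizedEigenform g)
    (hgf : ∀ ℓ : ℕ, ℓ.Prime → ¬ ℓ ∣ N → qCoeff g ℓ = qCoeff f ℓ) : g = f :=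
  Fermat.Agent.Lib.Newform.H443.IsNewform.eq_of_mainLemma
    (fun p : N.primeFactors => N / (p : ℕ)) div_dvd_of_mem_primeFactors (oldMap N) hf
    div_ne_of_mem_primeFactors (oldMap_heckeTLin N)
    (mem_oldSpace_of_coprime_coeff_eq_zero N) hg hgf

end Fermat.Agent.Lib.Newform.H803

end
-- ===== PACK-END Lib/Newform/H803/MultOne.lean

-- ===== PACK-BEGIN Lib/Newform/H803/XMultOne.lean
section



/-!
# Leaf `MULT-ONE` of NEWFORM block X (helper803)

Same-level multiplicity one for Prelude newforms, in the frozen form `H958.X.MultOne`.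
-/

set_option autoImplicit false

namespace Fermat.Agent.Lib.Newform.H803

/-- **MULT-ONE** (unconditional). -/
theorem multOne : Fermat.Agent.Lib.Newform.H958.X.MultOne :=
  fun _ _ _ hf h heig => IsNewform.eq_smul_of_eigen hf h heig

end Fermat.Agent.Lib.Newform.H803

end
-- ===== PACK-END Lib/Newform/H803/XMultOne.lean

-- ===== PACK-BEGIN Lib/Newform/H958/Leaves.lean
section



/-!
# Shared library NEWFORM — leaves already available

* `occurs : Occurs` (adapter around helper863's `exists_normalizedEigenform_of_eigenvector`);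
* `incl : Incl` (level inclusion `M ∣ C`).
-/

set_option autoImplicit false

open CongruenceSubgroup UpperHalfPlane
open scoped MatrixGroups

namespace Fermat.Agent.Lib.Newform.H958

theorem occurs : Occurs := by
  intro M _ h hh P a heig
  obtain ⟨g, hg, hgl⟩ := Fermat.Agent.Lib.Newform.H863.exists_normalizedEigenform_of_eigenvector
    (S := Pᶜ) a h hh (fun ℓ hℓ hℓM hS => heig ℓ hℓ hℓM (by simpa using hS))
  exact ⟨g, hg, fun ℓ hℓ hℓM hP => hgl ℓ hℓ hℓM (by simpa using hP)⟩

theorem gamma0_le_of_dvd {M C : ℕ} (h : M ∣ C) : Gamma0 C ≤ Gamma0 M := by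
  intro γ hγ
  rw [Gamma0_mem] at hγ ⊢
  exact (ZMod.intCast_zmod_eq_zero_iff_dvd _ _).mpr
    ((Int.natCast_dvd_natCast.mpr h).trans ((ZMod.intCast_zmod_eq_zero_iff_dvd _ _).mp hγ))

theorem incl : Incl := by
  intro M C hMC g
  have hle : (Gamma0 C : Subgroup (GL (Fin 2) ℝ)) ≤ (Gamma0 M : Subgroup (GL (Fin 2) ℝ)) :=
    Subgroup.map_mono (gamma0_le_of_dvd hMC)
  exact ⟨{ toFun := ⇑g
           slash_action_eq' := fun γ hγ => SlashInvariantFormClass.slash_action_eq g γ (hle hγ)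
           holo' := CuspFormClass.holo g
           zero_at_cusps' := fun hc => CuspFormClass.zero_at_cusps g (hc.mono hle) }, rfl⟩

end Fermat.Agent.Lib.Newform.H958

end
-- ===== PACK-END Lib/Newform/H958/Leaves.lean

-- ===== PACK-BEGIN Lib/Newform/H958/Final.lean
section





/-!
# Shared library NEWFORM — unconditional results (consumer API, part 1)

All leaf interfaces of `Spec.lean` are proved (helper683: `EigenT`, `EigenU`; helper563:
`LowerU`; helper923: `TraceAL`; helper863/helper958: `Occurs`, `Incl`), so the targets hold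
unconditionally:

* `newformBadPrimeCoeff N : CuspForm.NewformBadPrimeCoeff N` for every `N ≠ 0`;
* `badCoeffAt` : the same for forms that are new at a single prime (`CuspForm.IsNewformAt`);
* `descent` : every normalized eigenform comes from a newform of a level dividing its level;
* `stab` : a normalized eigenform of level `M ∣ C` gives a normalized eigenform of level `C`
  with the same eigenvalues at all primes `ℓ ∤ C`.
-/

set_option autoImplicit false

open CongruenceSubgroup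

namespace Fermat.Agent.Lib.Newform.H958

theorem badCoeffAt : BadCoeffAt :=
  badCoeffAt_of Fermat.Agent.Lib.Newform.H683.eigenT Fermat.Agent.Lib.Newform.H683.eigenU occurs
    Fermat.Agent.Lib.Newform.H563.lowerU Fermat.Agent.Lib.Newform.H923.traceAL

theorem badCoeff : BadCoeff := badCoeff_of badCoeffAt

/-- The Prelude's `NewformBadPrimeCoeff` holds at every positive level. -/
theorem newformBadPrimeCoeff (N : ℕ) [NeZero N] : CuspForm.NewformBadPrimeCoeff N := badCoeff N

theorem stab : Stab :=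
  stab_of Fermat.Agent.Lib.Newform.H683.eigenT incl occurs

/-- `a_q² = 1` for a newform at a prime `q ∥ N`. -/
theorem qCoeff_sq_eq_one {N : ℕ} [NeZero N] {f : CuspForm (Gamma0 N) 2} (hf : f.IsNewform)
    {q : ℕ} (hq : q.Prime) (hqN : q ∣ N) (hq2 : ¬ q ^ 2 ∣ N) :
    ModularFormClass.qCoeff f q ^ 2 = 1 :=
  (newformBadPrimeCoeff N f hf q hq hqN).1 hq2

/-- `a_q = 0` for a newform at a prime `q` with `q² ∣ N`. -/
theorem qCoeff_eq_zero {N : ℕ} [NeZero N] {f : CuspForm (Gamma0 N) 2} (hf : f.IsNewform)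
    {q : ℕ} (hq : q.Prime) (hq2 : q ^ 2 ∣ N) :
    ModularFormClass.qCoeff f q = 0 :=
  (newformBadPrimeCoeff N f hf q hq ((dvd_pow_self q two_ne_zero).trans hq2)).2 hq2

end Fermat.Agent.Lib.Newform.H958

end
-- ===== PACK-END Lib/Newform/H958/Final.lean

-- ===== PACK-BEGIN Lib/Newform/H863/X8.lean
section




/-!
# NEWFORM block X, piece X8 (helper863): local case analysis

From the local identity (`H958.X.LocalIdentity`, the output of X6 + X7) we derive the targets of
block X: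

* `crossLevelSq_of : LocalIdentity → CrossLevelSq`  (what S36 needs; no strict bound);
* `crossLevel_of : LocalIdentity → StrictBound → CrossLevel`;
* `strongMultOne_of : LocalIdentity → StrictBound → StrongMultOne`.

Inputs from the core of the library (all on main, unconditional): `H958.badCoeff`
(`a_q² = 1` if `q ∥ N`, `a_q = 0` if `q² ∣ N`) and `H958.descent`.
-/

set_option autoImplicit false

open CongruenceSubgroup Polynomial

namespace Fermat.Agent.Lib.Newform.H863.X8

open ModularFormClass Fermat.Agent.Lib.Newform.H958 Fermat.Agent.Lib.Newform.H958.X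

/-- The three possible shapes of the local Euler factor of a newform. -/
theorem shape {N : ℕ} [NeZero N] {f : CuspForm (Gamma0 N) 2} (hf : f.IsNewform) {q : ℕ}
    (hq : q.Prime) :
    (N.factorization q = 0 ∧ ¬ q ∣ N ∧
      eulerPoly N (qCoeff f) q = 1 - C (qCoeff f q) * X + C (q : ℂ) * X ^ 2 ∧
      eulerPolyRev N (qCoeff f) q =
        X ^ 2 - C (qCoeff f q * ((q : ℂ) ^ 2)⁻¹) * X + C (((q : ℂ) ^ 3)⁻¹)) ∨
    (N.factorization q = 1 ∧ qCoeff f q ^ 2 = 1 ∧
      eulerPoly N (qCoeff f) q = 1 - C (qCoeff f q) * X ∧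
      eulerPolyRev N (qCoeff f) q = X ^ 2 - C (qCoeff f q * ((q : ℂ) ^ 2)⁻¹) * X) ∨
    (2 ≤ N.factorization q ∧ qCoeff f q = 0 ∧
      eulerPoly N (qCoeff f) q = 1 ∧ eulerPolyRev N (qCoeff f) q = X ^ 2) := by
  have hN : N ≠ 0 := NeZero.ne N
  by_cases hqN : q ∣ N
  · have hbad := badCoeff N f hf q hq hqN
    have hpos : 0 < N.factorization q := hq.factorization_pos_of_dvd hN hqN
    by_cases hq2 : q ^ 2 ∣ N
    · right; right
      have ha := hbad.2 hq2
      refine ⟨(hq.pow_dvd_iff_le_factorization hN).mp hq2, ha, ?_, ?_⟩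
      · rw [eulerPoly, if_pos hqN, ha]; simp
      · rw [eulerPolyRev, if_pos hqN, ha]; simp
    · right; left
      have ha := hbad.1 hq2
      have hle : ¬ 2 ≤ N.factorization q := fun h =>
        hq2 ((hq.pow_dvd_iff_le_factorization hN).mpr h)
      refine ⟨by omega, ha, ?_, ?_⟩
      · rw [eulerPoly, if_pos hqN, add_zero]
      · rw [eulerPolyRev, if_pos hqN, add_zero]
  · left
    refine ⟨Nat.factorization_eq_zero_of_not_dvd hqN, hqN, ?_, ?_⟩
    · rw [eulerPoly, if_neg hqN]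
    · rw [eulerPolyRev, if_neg hqN]

theorem cast_prime_ne_zero {q : ℕ} (hq : q.Prime) : (q : ℂ) ≠ 0 :=
  Nat.cast_ne_zero.mpr hq.ne_zero

theorem cast_prime_ne_one {q : ℕ} (hq : q.Prime) : (q : ℂ) ≠ 1 := by
  intro h
  have : q = 1 := by exact_mod_cast h
  exact hq.ne_one this

theorem cast_prime_sq_ne_one {q : ℕ} (hq : q.Prime) : (q : ℂ) ^ 2 ≠ 1 := by
  intro h
  have h1 : q ^ 2 = 1 := by exact_mod_cast h
  have h2 : q = 1 := by
    rcases Nat.pow_eq_one.mp h1 with h3 | h3
    · exact h3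
    · exact absurd h3 (by norm_num)
  exact hq.ne_one h2

/-- The local comparison at one prime: if two newforms satisfy the local identity at `q`, then
either `v_q(N) ≤ v_q(N')`-type information or an exceptional equality `a_q(g)² = (q+1)²`. -/
theorem local_le {N N' : ℕ} [NeZero N] [NeZero N'] {f : CuspForm (Gamma0 N) 2}
    {g : CuspForm (Gamma0 N') 2} (hf : f.IsNewform) (hg : g.IsNewform) {q : ℕ} (hq : q.Prime)
    {c : ℂ} (hc : c ≠ 0)
    (hid : X ^ (N'.factorization q) * eulerPolyRev N (qCoeff f) q * eulerPoly N' (qCoeff g) q =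
        C c * (X ^ (N.factorization q) * eulerPoly N (qCoeff f) q *
          eulerPolyRev N' (qCoeff g) q)) :
    (2 ≤ N.factorization q → N.factorization q = N'.factorization q) ∧
    (N.factorization q = 1 → N'.factorization q = 0 →
      ¬ q ∣ N' ∧ qCoeff g q ^ 2 = ((q : ℂ) + 1) ^ 2) := by
  have hq0 := cast_prime_ne_zero hq
  have hq1 := cast_prime_ne_one hq
  have hq2 := cast_prime_sq_ne_one hq
  rcases shape hf hq with ⟨he, -, hP, hR⟩ | ⟨he, ha, hP, hR⟩ | ⟨he, -, hP, hR⟩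
  · exact ⟨fun h => by omega, fun h => by omega⟩
  · refine ⟨fun h => by omega, fun _ he'0 => ?_⟩
    rcases shape hg hq with ⟨he', hqN', hP', hR'⟩ | ⟨he', -, -, -⟩ | ⟨he', -, -, -⟩
    · rw [hP, hR, hP', hR', he, he'] at hid
      exact ⟨hqN', caseD _ _ _ _ hq0 hq1 ha hid⟩
    · omega
    · omega
  · refine ⟨fun _ => ?_, fun h => by omega⟩
    rcases shape hg hq with ⟨he', -, hP', hR'⟩ | ⟨he', ha', hP', hR'⟩ | ⟨he', -, hP', hR'⟩
    · rw [hP, hR, hP', hR', he'] at hid
      exact (caseA _ _ _ hq0 hq2 _ he hid).elim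
    · rw [hP, hR, hP', hR', he'] at hid
      exact (caseB _ _ _ hq0 hq2 ha' _ he hid).elim
    · rw [hP, hR, hP', hR'] at hid
      exact caseC c hc _ _ hid

/-- Equality of the `q`-th coefficients when the levels have the same `q`-adic valuation. -/
theorem local_eq {N N' : ℕ} [NeZero N] [NeZero N'] {f : CuspForm (Gamma0 N) 2}
    {g : CuspForm (Gamma0 N') 2} (hf : f.IsNewform) (hg : g.IsNewform) {q : ℕ} (hq : q.Prime)
    {c : ℂ}
    (hid : X ^ (N'.factorization q) * eulerPolyRev N (qCoeff f) q * eulerPoly N' (qCoeff g) q =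
        C c * (X ^ (N.factorization q) * eulerPoly N (qCoeff f) q *
          eulerPolyRev N' (qCoeff g) q))
    (hee : N.factorization q = N'.factorization q) : qCoeff f q = qCoeff g q := by
  have hq0 := cast_prime_ne_zero hq
  have hq1 := cast_prime_ne_one hq
  have hq2 := cast_prime_sq_ne_one hq
  rcases shape hf hq with ⟨he, -, hP, hR⟩ | ⟨he, ha, hP, hR⟩ | ⟨he, ha, hP, hR⟩ <;>
    rcases shape hg hq with ⟨he', -, hP', hR'⟩ | ⟨he', ha', hP', hR'⟩ | ⟨he', ha', hP', hR'⟩
  · rw [hP, hR, hP', hR', he, he'] at hid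
    exact caseE _ _ _ _ hq0 hq1 hid
  · omega
  · omega
  · omega
  · rw [hP, hR, hP', hR', he, he'] at hid
    exact caseF _ _ _ _ hq0 hq2 ha ha' hid
  · omega
  · omega
  · omega
  · rw [ha, ha']

/-- Passing from a normalized eigenform to the newform below it keeps the hypothesis
"same eigenvalues outside a finite set". -/
theorem exists_newform_same {N N' : ℕ} [NeZero N'] {f : CuspForm (Gamma0 N) 2}
    {g : CuspForm (Gamma0 N') 2} (hg : g.IsNormalizedEigenform) (S : Finset ℕ)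
    (hS : ∀ ℓ : ℕ, ℓ.Prime → ℓ ∉ S → qCoeff f ℓ = qCoeff g ℓ) :
    ∃ (M' : ℕ) (_ : NeZero M') (_ : M' ∣ N') (g₀ : CuspForm (Gamma0 M') 2), g₀.IsNewform ∧
      ∀ ℓ : ℕ, ℓ.Prime → ℓ ∉ S ∪ N'.primeFactors → qCoeff f ℓ = qCoeff g₀ ℓ := by
  obtain ⟨M', hM', g₀, hg₀, hgg⟩ := descent N' g hg
  have hN' : N' ≠ 0 := NeZero.ne N'
  have hM0 : M' ≠ 0 := fun h => by
    subst h
    exact hN' (zero_dvd_iff.mp hM')
  refine ⟨M', ⟨hM0⟩, hM', g₀, hg₀, fun ℓ hℓ hℓS => ?_⟩
  rw [Finset.mem_union, not_or] at hℓS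
  have hℓN' : ¬ ℓ ∣ N' := fun h => hℓS.2 (Nat.mem_primeFactors.mpr ⟨hℓ, h, hN'⟩)
  rw [hS ℓ hℓ hℓS.1, hgg ℓ hℓ hℓN']

/-- **X-SQ** from the local identity. -/
theorem crossLevelSq_of (hL : LocalIdentity) : CrossLevelSq := by
  intro N N' _ _ f g hf hg S hS q hq hq2
  obtain ⟨M', hM'0, hM', g₀, hg₀, hS'⟩ := exists_newform_same hg S hS
  obtain ⟨c, hc, hid⟩ := hL N M' f g₀ hf hg₀ _ hS' q hq
  have hN : N ≠ 0 := NeZero.ne N
  have hM0 : M' ≠ 0 := NeZero.ne M'
  have he : 2 ≤ N.factorization q := (hq.pow_dvd_iff_le_factorization hN).mp hq2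
  have hee := (local_le hf hg₀ hq hc hid).1 he
  have : q ^ 2 ∣ M' := (hq.pow_dvd_iff_le_factorization hM0).mpr (hee ▸ he)
  exact this.trans hM'

/-- **X-LEVEL** from the local identity and the strict trivial bound. -/
theorem crossLevel_of (hL : LocalIdentity) (hSB : StrictBound) : CrossLevel := by
  intro N N' _ _ f g hf hg S hS
  obtain ⟨M', hM'0, hM', g₀, hg₀, hS'⟩ := exists_newform_same hg S hS
  have hN : N ≠ 0 := NeZero.ne N
  have hM0 : M' ≠ 0 := NeZero.ne M'
  refine Dvd.dvd.trans ?_ hM'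
  rw [← Nat.factorization_le_iff_dvd hN hM0]
  intro q
  by_cases hq : q.Prime
  · obtain ⟨c, hc, hid⟩ := hL N M' f g₀ hf hg₀ _ hS' q hq
    have h := local_le hf hg₀ hq hc hid
    rcases Nat.lt_or_ge (N.factorization q) 2 with h2 | h2
    · rcases Nat.eq_zero_or_pos (N.factorization q) with h0 | h0
      · rw [h0]; exact Nat.zero_le _
      · have h1 : N.factorization q = 1 := by omega
        rcases Nat.eq_zero_or_pos (M'.factorization q) with h0' | h0'
        · obtain ⟨hqM', hsq⟩ := h.2 h1 h0'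
          exact absurd hsq (hSB M' g₀ hg₀.1 q hq hqM')
        · omega
    · exact (h.1 h2).le
  · rw [Nat.factorization_eq_zero_of_not_prime N hq]
    exact Nat.zero_le _

/-- Two normalized eigenforms of the same level with the same `a_p` for all primes `p` have the
same coefficients. -/
theorem qCoeff_eq_of_forall_prime {N : ℕ} {f g : CuspForm (Gamma0 N) 2}
    (hf : f.IsNormalizedEigenform) (hg : g.IsNormalizedEigenform)
    (h : ∀ p : ℕ, p.Prime → qCoeff f p = qCoeff g p) : ∀ n : ℕ, qCoeff f n = qCoeff g n := by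
  have hpow : ∀ p : ℕ, p.Prime → ∀ r : ℕ, qCoeff f (p ^ r) = qCoeff g (p ^ r) ∧
      qCoeff f (p ^ (r + 1)) = qCoeff g (p ^ (r + 1)) := by
    intro p hp r
    induction r with
    | zero =>
      refine ⟨?_, ?_⟩
      · rw [pow_zero, hf.qCoeff_one, hg.qCoeff_one]
      · simpa using h p hp
    | succ r ih =>
      refine ⟨ih.2, ?_⟩
      by_cases hpN : p ∣ N
      · rw [hf.qCoeff_prime_pow_of_dvd p r hp hpN, hg.qCoeff_prime_pow_of_dvd p r hp hpN,
          h p hp, ih.2]
      · rw [hf.qCoeff_prime_pow_of_not_dvd p r hp hpN,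
          hg.qCoeff_prime_pow_of_not_dvd p r hp hpN, h p hp, ih.1, ih.2]
  intro n
  induction n using Nat.strong_induction_on with
  | _ n ih =>
    rcases Nat.eq_zero_or_pos n with rfl | hpos
    · rw [Fermat.Agent.Lib.Newform.H683.qCoeff_zero_cusp,
        Fermat.Agent.Lib.Newform.H683.qCoeff_zero_cusp]
    rcases Nat.eq_or_lt_of_le (Nat.succ_le_of_lt hpos) with h1 | h1
    · have : n = 1 := h1.symm
      subst this
      rw [hf.qCoeff_one, hg.qCoeff_one]
    · obtain ⟨p, hp, hpn⟩ := Nat.exists_prime_and_dvd (show n ≠ 1 by omega)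
      obtain ⟨r, m, hm, rfl⟩ := Nat.exists_eq_pow_mul_and_not_dvd hpos.ne' p hp.ne_one
      have hr : r ≠ 0 := by
        rintro rfl
        rw [pow_zero, one_mul] at hpn
        exact hm hpn
      have hcop : (p ^ r).Coprime m :=
        Nat.Coprime.pow_left r ((Nat.Prime.coprime_iff_not_dvd hp).mpr hm)
      have hmlt : m < p ^ r * m := by
        have hmpos : 0 < m := Nat.pos_of_ne_zero (by rintro rfl; simp at hpos)
        have : 1 < p ^ r := Nat.one_lt_pow hr hp.one_lt
        nlinarith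
      rw [hf.qCoeff_mul_of_coprime _ _ hcop, hg.qCoeff_mul_of_coprime _ _ hcop,
        ih m hmlt, (hpow p hp r).1]

/-- **X-SMO** from the local identity and the strict trivial bound. -/
theorem strongMultOne_of (hL : LocalIdentity) (hSB : StrictBound) : StrongMultOne := by
  intro N N' _ _ f g hf hg S hS
  have h1 : N ∣ N' := crossLevel_of hL hSB N N' f g hf hg.1 S hS
  have h2 : N' ∣ N := crossLevel_of hL hSB N' N g f hg hf.1 S
    (fun ℓ hℓ hℓS => (hS ℓ hℓ hℓS).symm)
  have hNN : N = N' := Nat.dvd_antisymm h1 h2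
  subst hNN
  refine ⟨rfl, ?_⟩
  apply qCoeff_eq_of_forall_prime hf.1 hg.1
  intro p hp
  obtain ⟨c, -, hid⟩ := hL N N f g hf hg S hS p hp
  exact local_eq hf hg hp hid rfl

end Fermat.Agent.Lib.Newform.H863.X8

end
-- ===== PACK-END Lib/Newform/H863/X8.lean

-- ===== PACK-BEGIN Lib/Newform/H958/X/Final.lean
section









/-!
# NEWFORM block X — unconditional results (consumer API, part 2)

Cross-level strong multiplicity one for Prelude-newforms of weight 2 on `Γ₀(N)`, proved with the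
functional equation of the Hecke `L`-function (Mathlib) and the strict trivial bound.

* `crossLevelSq` : a newform of level `N` and a normalized eigenform of level `N'` with the
  same `a_ℓ` outside a finite set of primes satisfy `q² ∣ N → q² ∣ N'`  (input of S36);
* `crossLevel` : under the same hypotheses `N ∣ N'`;
* `strongMultOne` : two newforms with the same `a_ℓ` outside a finite set of primes have the
  same level and the same `q`-expansion;
* `localIdentity` : the local identity between Euler polynomials at every prime.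

Leaves: helper16 (Fricke), helper683 (depletion, independence, `EigenT`), helper803
(same-level multiplicity one), helper863 (local case analysis), helper263 (strict bound),
helper958 (functional equation, Dirichlet series, global identity, assembly).
-/

set_option autoImplicit false

open CongruenceSubgroup

namespace Fermat.Agent.Lib.Newform.H958.X

theorem localIdentity : LocalIdentity :=
  localIdentity_of Fermat.Agent.Lib.Newform.H683.indepLocal dirichletSeries
    Fermat.Agent.Lib.Newform.H683.deplete Fermat.Agent.Lib.Newform.H16.frickeOp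
    Fermat.Agent.Lib.Newform.H16.frickeInvol Fermat.Agent.Lib.Newform.H16.frickeHecke
    Fermat.Agent.Lib.Newform.H803.multOne Fermat.Agent.Lib.Newform.H683.eigenT

theorem crossLevelSq : CrossLevelSq :=
  Fermat.Agent.Lib.Newform.H863.X8.crossLevelSq_of localIdentity

theorem crossLevel : CrossLevel :=
  Fermat.Agent.Lib.Newform.H863.X8.crossLevel_of localIdentity
    Fermat.Agent.Lib.Newform.H263.strictBound

theorem strongMultOne : StrongMultOne :=
  Fermat.Agent.Lib.Newform.H863.X8.strongMultOne_of localIdentity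
    Fermat.Agent.Lib.Newform.H263.strictBound

end Fermat.Agent.Lib.Newform.H958.X

end
-- ===== PACK-END Lib/Newform/H958/X/Final.lean

-- ===== PACK-BEGIN S35/H252/XForms.lean
section
/-
S35, piece (X-forms) (helper252): `XFormsStatement`, UNCONDITIONAL.

For a newform `g` of level `M`, a prime `q ∣ M` and a finite set `S` containing the primes of `M`
there is a polynomial `t` in the Hecke operators `T_ℓ`, `ℓ ∉ S`, which vanishes on
`S₂(Γ₀(M / q))` and with `t(a_ℓ(g)) ≠ 0`.

Proof by contradiction: otherwise the kernel of the action on `S₂(Γ₀(M / q))` is contained in the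
kernel of the eigencharacter `ψ` of `g`; the eigenvector lemma (`S49.exists_eigenvector_ker_le'`)
gives an eigenvector with a character `χ`, `ker χ ≤ ker ψ`; by integrality (S22) the kernels are
equal, hence `ψ = σ ∘ χ` for a ring automorphism `σ` of `ℂ` (`exists_ringEquiv_of_ker_eq`); the
`σ`-conjugate (`S23.Cap.galois_stable`) of the normalised eigenform attached to the eigenvector
(`Lib.Newform.H863.exists_normalizedEigenform_of_eigenvector`) is a normalised eigenform of level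
`M / q` with the eigenvalues of `g` away from `S`; this contradicts
`Lib.Newform.H958.X.crossLevel` (`M ∣ M / q`).
-/








set_option autoImplicit false
set_option linter.style.haveILetI false

open CuspForm CongruenceSubgroup ModularFormClass Polynomial

namespace Fermat.Agent.S35.H252

/-- The conjugate of a normalised eigenform by a ring endomorphism of `ℂ`. -/
theorem exists_conj_eigenform {N : ℕ} [NeZero N] (σ : ℂ →+* ℂ) {f : CuspForm (Gamma0 N) 2}
    (hf : f.IsNormalizedEigenform) :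
    ∃ f' : CuspForm (Gamma0 N) 2, f'.IsNormalizedEigenform ∧
      ∀ n : ℕ, qCoeff f' n = σ (qCoeff f n) := by
  obtain ⟨g, ⟨g', rfl⟩, hg⟩ := Fermat.Agent.S23.Cap.galois_stable N 2 σ f ⟨f, rfl⟩
  have hq : ∀ n : ℕ, qCoeff g' n = σ (qCoeff f n) := by
    intro n
    show (Fermat.Agent.S23.Cap.qx (g' : UpperHalfPlane → ℂ)).coeff n
      = σ ((Fermat.Agent.S23.Cap.qx (f : UpperHalfPlane → ℂ)).coeff n)
    rw [hg, PowerSeries.coeff_map]
  refine ⟨g', ⟨?_, ?_, ?_, ?_⟩, hq⟩
  · rw [hq, hf.qCoeff_one, map_one]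
  · intro m n hmn
    rw [hq, hq, hq, hf.qCoeff_mul_of_coprime m n hmn, map_mul]
  · intro p r hp hpN
    rw [hq, hq, hq, hq, hf.qCoeff_prime_pow_of_not_dvd p r hp hpN, map_sub, map_mul, map_mul,
      map_natCast]
  · intro p r hp hpN
    rw [hq, hq, hq, hf.qCoeff_prime_pow_of_dvd p r hp hpN, map_mul]

/-- **(X-forms).** -/
theorem xForms : XFormsStatement := by
  classical
  intro M _ g hg q _ hq hqM S hMS
  by_contra hcon
  push Not at hcon
  -- the good primes
  have hqdvd : M / q ∣ M := Nat.div_dvd_of_dvd hqM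
  have hIN : ∀ i : {ℓ : Nat.Primes // (ℓ : ℕ) ∉ S}, ¬ ((i : Nat.Primes) : ℕ) ∣ M / q :=
    fun i hdvd => i.2 (hMS _ i.1.2 (hdvd.trans hqdvd))
  -- the two characters
  let ρ : MvPolynomial {ℓ : Nat.Primes // (ℓ : ℕ) ∉ S} ℤ →+*
      Module.End ℂ (CuspForm (Gamma0 (M / q)) 2) :=
    ((heckeAlgebra (M / q) 2 ∅).val.toRingHom).comp
      ((heckeEvalForms (M / q) 2).comp (MvPolynomial.rename Subtype.val).toRingHom)
  let ψ : MvPolynomial {ℓ : Nat.Primes // (ℓ : ℕ) ∉ S} ℤ →+* ℂ :=
    (MvPolynomial.aeval (fun ℓ : {ℓ : Nat.Primes // (ℓ : ℕ) ∉ S} =>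
      qCoeff g ((ℓ : Nat.Primes) : ℕ))).toRingHom
  have hρψ : RingHom.ker ρ ≤ RingHom.ker ψ := by
    intro t ht
    rw [RingHom.mem_ker] at ht ⊢
    refine hcon t fun f => ?_
    have : ρ t f = 0 := by rw [ht, LinearMap.zero_apply]
    exact this
  haveI : FiniteDimensional ℂ (CuspForm (Gamma0 (M / q)) 2) :=
    Fermat.Agent.Lib.Newform.H863.finiteDimensional_cuspForm (M / q)
  haveI : (RingHom.ker ψ).IsPrime := RingHom.ker_isPrime ψ
  obtain ⟨h, χ, hh, hχ, hker⟩ := Fermat.Agent.S49.exists_eigenvector_ker_le'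
    (K := ℂ) (V := CuspForm (Gamma0 (M / q)) 2) ρ (RingHom.ker ψ) hρψ
  -- `ker ρ ≤ ker χ`
  have hρχ : RingHom.ker ρ ≤ RingHom.ker χ := by
    intro t ht
    rw [RingHom.mem_ker] at ht ⊢
    have h1 := hχ t
    rw [ht, LinearMap.zero_apply] at h1
    rcases smul_eq_zero.mp h1.symm with h2 | h2
    · exact h2
    · exact absurd h2 hh
  -- integrality
  haveI : Module.Finite ℤ (heckeAlgebra (M / q) 2 (∅ : Set ℕ)) :=
    Fermat.Agent.S22.result (M / q) 2 ∅
  haveI : Algebra.IsIntegral ℤ (heckeAlgebra (M / q) 2 (∅ : Set ℕ)) := inferInstance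
  have hint : ∀ s : MvPolynomial {ℓ : Nat.Primes // (ℓ : ℕ) ∉ S} ℤ, ∃ P : ℤ[X], P.Monic ∧
      eval₂ (algebraMap ℤ (MvPolynomial {ℓ : Nat.Primes // (ℓ : ℕ) ∉ S} ℤ)) s P
        ∈ RingHom.ker χ := by
    intro s
    obtain ⟨P, hPm, hP⟩ := Algebra.IsIntegral.isIntegral (R := ℤ)
      (heckeEvalForms (M / q) 2 (MvPolynomial.rename Subtype.val s))
    refine ⟨P, hPm, hρχ ?_⟩
    rw [RingHom.mem_ker]
    show ((heckeAlgebra (M / q) 2 ∅).val.toRingHom)
      (((heckeEvalForms (M / q) 2).comp (MvPolynomial.rename Subtype.val).toRingHom)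
        (eval₂ (algebraMap ℤ (MvPolynomial {ℓ : Nat.Primes // (ℓ : ℕ) ∉ S} ℤ)) s P)) = 0
    rw [Polynomial.hom_eval₂]
    have e : ((heckeEvalForms (M / q) 2).comp (MvPolynomial.rename Subtype.val).toRingHom).comp
        (algebraMap ℤ (MvPolynomial {ℓ : Nat.Primes // (ℓ : ℕ) ∉ S} ℤ))
        = algebraMap ℤ (heckeAlgebra (M / q) 2 (∅ : Set ℕ)) := RingHom.ext_int _ _
    rw [e]
    have hP' : eval₂ (algebraMap ℤ (heckeAlgebra (M / q) 2 (∅ : Set ℕ)))
        (((heckeEvalForms (M / q) 2).comp (MvPolynomial.rename Subtype.val).toRingHom) s) P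
        = 0 := hP
    rw [hP', map_zero]
  have hker' : RingHom.ker ψ ≤ RingHom.ker χ := ker_le_of_isIntegral χ ψ hker hint
  have hkereq : RingHom.ker χ = RingHom.ker ψ := le_antisymm hker hker'
  -- the values of `χ` are algebraic
  have halg : ∀ s : MvPolynomial {ℓ : Nat.Primes // (ℓ : ℕ) ∉ S} ℤ, IsAlgebraic ℚ (χ s) := by
    intro s
    obtain ⟨P, hPm, hP⟩ := hint s
    rw [RingHom.mem_ker, Polynomial.hom_eval₂] at hP
    have hZ : IsIntegral ℤ (χ s) := by
      refine ⟨P, hPm, ?_⟩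
      have e : χ.comp (algebraMap ℤ (MvPolynomial {ℓ : Nat.Primes // (ℓ : ℕ) ∉ S} ℤ))
          = algebraMap ℤ ℂ := RingHom.ext_int _ _
      rw [← e]
      exact hP
    exact (hZ.tower_top (A := ℚ)).isAlgebraic
  obtain ⟨σ, hσ⟩ := exists_ringEquiv_of_ker_eq χ ψ hkereq halg
  -- the eigenform of level `M / q`
  let lam : ℕ → ℂ := fun ℓ =>
    if hc : ℓ.Prime ∧ ℓ ∉ S then χ (MvPolynomial.X ⟨⟨ℓ, hc.1⟩, hc.2⟩) else 0
  have hlam : ∀ i : {ℓ : Nat.Primes // (ℓ : ℕ) ∉ S},
      lam ((i : Nat.Primes) : ℕ) = χ (MvPolynomial.X i) := by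
    intro i
    have hc : ((i : Nat.Primes) : ℕ).Prime ∧ ((i : Nat.Primes) : ℕ) ∉ S := ⟨i.1.2, i.2⟩
    simp only [lam, dif_pos hc]
    rfl
  have hρX : ∀ i : {ℓ : Nat.Primes // (ℓ : ℕ) ∉ S},
      ρ (MvPolynomial.X i) = heckeTLin 2 i.1.2 (hIN i) := by
    intro i
    show ((heckeAlgebra (M / q) 2 ∅).val.toRingHom)
      ((heckeEvalForms (M / q) 2) (MvPolynomial.rename Subtype.val (MvPolynomial.X i))) = _
    rw [MvPolynomial.rename_X]
    have e2 : heckeEvalForms (M / q) 2 (MvPolynomial.X (i : Nat.Primes))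
        = heckeAlgebra.T i.1.2 (hIN i) (Set.notMem_empty _) :=
      heckeEvalForms_heckeGen_of_not_dvd (hIN i)
    rw [e2]
    rfl
  obtain ⟨f₁, hf₁, hf₁c⟩ :=
    Fermat.Agent.Lib.Newform.H863.exists_normalizedEigenform_of_eigenvector
      (M := M / q) (↑S : Set ℕ) lam h hh (by
        intro ℓ hℓ hℓN hℓS
        have hℓS' : ℓ ∉ S := fun hmem => hℓS (Finset.mem_coe.mpr hmem)
        have h1 := hχ (MvPolynomial.X ⟨⟨ℓ, hℓ⟩, hℓS'⟩)
        rw [hρX ⟨⟨ℓ, hℓ⟩, hℓS'⟩, ← hlam ⟨⟨ℓ, hℓ⟩, hℓS'⟩] at h1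
        exact h1)
  obtain ⟨f₂, hf₂, hf₂c⟩ := exists_conj_eigenform (σ : ℂ →+* ℂ) hf₁
  -- cross level
  have hdvd : M ∣ M / q :=
    Fermat.Agent.Lib.Newform.H958.X.crossLevel M (M / q) g f₂ hg hf₂ S (by
      intro ℓ hℓ hℓS
      have hℓN : ¬ ℓ ∣ M / q := hIN ⟨⟨ℓ, hℓ⟩, hℓS⟩
      rw [hf₂c ℓ, hf₁c ℓ hℓ hℓN (fun hmem => hℓS (Finset.mem_coe.mp hmem)),
        hlam ⟨⟨ℓ, hℓ⟩, hℓS⟩]
      have h1 := hσ (MvPolynomial.X ⟨⟨ℓ, hℓ⟩, hℓS⟩)
      rw [RingEquiv.coe_toRingHom, h1]
      show qCoeff g ℓ = MvPolynomial.aeval (fun ℓ : {ℓ : Nat.Primes // (ℓ : ℕ) ∉ S} =>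
        qCoeff g ((ℓ : Nat.Primes) : ℕ)) (MvPolynomial.X ⟨⟨ℓ, hℓ⟩, hℓS⟩)
      rw [MvPolynomial.aeval_X])
  have hM0 : 0 < M := Nat.pos_of_ne_zero (NeZero.ne M)
  have hlt : M / q < M := Nat.div_lt_self hM0 hq.one_lt
  have hle : M ≤ M / q := Nat.le_of_dvd (Nat.pos_of_ne_zero (NeZero.ne (M / q))) hdvd
  omega

end Fermat.Agent.S35.H252

end
-- ===== PACK-END S35/H252/XForms.lean

-- ===== PACK-BEGIN S35/H252/Excl.lean
section
/-
S35, piece (X) (helper252): `Fermat.Agent.S35.H991.ExclTateStatement`, UNCONDITIONAL.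

The eigensystem of a newform of level `M` does not occur in the `p`-adic Tate module of
`J₀(M / q)`, `q ∣ M` prime.

  exclTate = exclTate_of_poly (exclPoly_of xForms xJac)

* `xForms` (XForms.lean): a polynomial `t` in the `T_ℓ`, `ℓ ∉ S`, vanishing on `S₂(Γ₀(M / q))` with
  `t(a_ℓ(g)) ≠ 0`;
* `xJac` (Factor.lean): such a `t` kills the `p`-power torsion of `J₀(M / q)`;
* `exclTate_of_poly` (ExclGlue.lean): the Tate module form.
-/




set_option autoImplicit false

namespace Fermat.Agent.S35.H252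

/-- **(X)**, polynomial form, unconditional. -/
theorem exclPoly : ExclPolyStatement := exclPoly_of xForms xJac

/-- **(X)**, the input `ExclTateStatement` of the S35 mid layer, unconditional. -/
theorem exclTate : Fermat.Agent.S35.H991.ExclTateStatement := exclTate_of_poly exclPoly

end Fermat.Agent.S35.H252

end
-- ===== PACK-END S35/H252/Excl.lean

-- ===== PACK-BEGIN S30/H42/TateLattice.lean
section
/-
S30 / S32 / S34 / S35 -- the TATE LATTICE input `hlat` (helper42).

`tateLattice` has EXACTLY the shape of the hypothesis `hlat` of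
`Fermat/Agent/S32/Eig.lean` (`flatEigenStatement_of_inputs`), `S35/H991/Wired.lean` and
`S34/H789/Inputs.lean`:

* `Λ`  := the `ℤ`-module of parabolic additive characters `Γ₀(N) → ℤ` (`parLattice N`), finite
  (restriction to a finite generating set is injective) and torsion-free, hence free;
* `TΛ ℓ` := the cohomological Hecke operator `heckeCoh N ℓ` (for `ℓ ∤ N`, else `0`);
* `κ n c` := the Kummer class of `c mod p ^ n` (Kummer tower of `H450`, packages of `Chain`);
* occurrence of every Hecke character in `R ⊗ Λ`: `H169.exists_eigen_parLattice_coord` and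
  flatness of the torsion-free `ℤ`-module `R`.
-/




set_option autoImplicit false
set_option linter.style.haveILetI false

noncomputable section

namespace Fermat.Agent.S30.H42

open Fermat.Agent.S29 (G0 IsParHom heckeCoh)
open ModularCurve
open scoped TensorProduct

/-! ### The lattice of parabolic characters -/

/-- The `ℤ`-module of parabolic additive characters `Γ₀(N) → ℤ`. -/
def parLattice (N : ℕ) : Submodule ℤ (G0 N → ℤ) where
  carrier := {c | IsParHom c}
  add_mem' := by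
    intro c c' hc hc'
    refine ⟨fun γ γ' => ?_, fun γ hγ => ?_, fun γ n hn hγ => ?_⟩
    · simp only [Pi.add_apply, hc.map_mul, hc'.map_mul]; ring
    · simp only [Pi.add_apply, hc.parabolic γ hγ, hc'.parabolic γ hγ, add_zero]
    · simp only [Pi.add_apply, hc.elliptic γ n hn hγ, hc'.elliptic γ n hn hγ, add_zero]
  zero_mem' := ⟨fun _ _ => by simp, fun _ _ => rfl, fun _ _ _ _ => rfl⟩
  smul_mem' := by
    intro a c hc
    refine ⟨fun γ γ' => ?_, fun γ hγ => ?_, fun γ n hn hγ => ?_⟩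
    · simp only [Pi.smul_apply, hc.map_mul, smul_add]
    · simp only [Pi.smul_apply, hc.parabolic γ hγ, smul_zero]
    · simp only [Pi.smul_apply, hc.elliptic γ n hn hγ, smul_zero]

theorem mem_parLattice {N : ℕ} {c : G0 N → ℤ} : c ∈ parLattice N ↔ IsParHom c := Iff.rfl

/-- A character is determined by its values on a generating set. -/
theorem parHom_eq_zero_of_closure {N : ℕ} {A : Type*} [AddCommGroup A] {c : G0 N → A}
    (hc : IsParHom c) (S₀ : Set (G0 N)) (hS₀ : Subgroup.closure S₀ = ⊤)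
    (h0 : ∀ γ ∈ S₀, c γ = 0) (γ : G0 N) : c γ = 0 := by
  have h1 : c 1 = 0 := by
    have := hc.map_mul 1 1
    rw [mul_one] at this
    exact (add_eq_left.mp this.symm)
  have hγ : γ ∈ Subgroup.closure S₀ := hS₀ ▸ Subgroup.mem_top γ
  induction hγ using Subgroup.closure_induction with
  | mem x hx => exact h0 x hx
  | one => exact h1
  | mul x y _ _ hx hy => rw [hc.map_mul, hx, hy, add_zero]
  | inv x _ hx =>
    have := hc.map_mul x x⁻¹
    rw [mul_inv_cancel, h1, hx, zero_add] at this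
    exact this.symm

instance parLattice_finite (N : ℕ) [NeZero N] : Module.Finite ℤ (parLattice N) := by
  classical
  obtain ⟨S₀, hS₀, hS₀fin⟩ := Group.fg_iff.mp (Fermat.Agent.S29.M4aTop_fg_Gamma0 N)
  haveI : Finite S₀ := hS₀fin
  let r : parLattice N →ₗ[ℤ] (S₀ → ℤ) :=
    { toFun := fun c γ => (c : G0 N → ℤ) γ
      map_add' := fun _ _ => rfl
      map_smul' := fun _ _ => rfl }
  have hr : Function.Injective r := by
    rw [← LinearMap.ker_eq_bot, LinearMap.ker_eq_bot']
    intro c hc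
    apply Subtype.ext
    funext γ
    exact parHom_eq_zero_of_closure c.2 S₀ hS₀ (fun δ hδ => congrFun hc ⟨δ, hδ⟩) γ
  exact Module.Finite.of_injective r hr

instance parLattice_free (N : ℕ) [NeZero N] : Module.Free ℤ (parLattice N) :=
  Module.free_of_finite_type_torsion_free'

/-! ### The Hecke operators on the lattice -/

theorem heckeCoh_add_h42 (N : ℕ) {A : Type*} [AddCommMonoid A] (ℓ : ℕ) (c c' : G0 N → A) :
    heckeCoh N ℓ (c + c') = heckeCoh N ℓ c + heckeCoh N ℓ c' := by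
  funext γ
  simp only [heckeCoh, Pi.add_apply, Finset.sum_add_distrib]

theorem heckeCoh_zsmul_h42 (N : ℕ) (ℓ : ℕ) (a : ℤ) (c : G0 N → ℤ) :
    heckeCoh N ℓ (a • c) = a • heckeCoh N ℓ c := by
  funext γ
  simp only [heckeCoh, Pi.smul_apply, Finset.smul_sum]

theorem heckeCoh_map_h42 (N : ℕ) {A B : Type*} [AddCommMonoid A] [AddCommMonoid B] (ℓ : ℕ)
    (f : A →+ B) (c : G0 N → A) :
    heckeCoh N ℓ (fun γ => f (c γ)) = fun γ => f (heckeCoh N ℓ c γ) := by
  funext γ
  simp only [heckeCoh, map_sum]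

open Classical in
/-- The Hecke operator `T_ℓ` on the lattice of parabolic characters (`0` if `ℓ ∣ N`). -/
def TLat (N : ℕ) [NeZero N] (ℓ : Nat.Primes) : parLattice N →ₗ[ℤ] parLattice N :=
  if h : ¬ (ℓ : ℕ) ∣ N then
    { toFun := fun c => ⟨heckeCoh N ℓ (c : G0 N → ℤ),
        Fermat.Agent.S29.isParHom_heckeCoh N ℓ.2 h c.2⟩
      map_add' := fun _ _ => Subtype.ext (heckeCoh_add_h42 N ℓ _ _)
      map_smul' := fun a _ => Subtype.ext (heckeCoh_zsmul_h42 N ℓ a _) }
  else 0

theorem TLat_coe {N : ℕ} [NeZero N] {ℓ : Nat.Primes} (h : ¬ (ℓ : ℕ) ∣ N) (c : parLattice N) :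
    ((TLat N ℓ c : parLattice N) : G0 N → ℤ) = heckeCoh N ℓ (c : G0 N → ℤ) := by
  rw [TLat, dif_pos h]
  rfl

/-! ### Reduction of characters modulo `m` -/

/-- Reduction of an integral character modulo `m`. -/
def redChar {N : ℕ} (m : ℕ) (c : G0 N → ℤ) : G0 N → ZMod m := fun γ => ((c γ : ℤ) : ZMod m)

theorem redChar_add {N : ℕ} (m : ℕ) (c c' : G0 N → ℤ) :
    redChar m (c + c') = redChar m c + redChar m c' := by
  funext γ
  simp only [redChar, Pi.add_apply, Int.cast_add]

theorem redChar_zero {N : ℕ} (m : ℕ) : redChar m (0 : G0 N → ℤ) = 0 := by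
  funext γ
  simp only [redChar, Pi.zero_apply, Int.cast_zero]

theorem isParHom_redChar {N : ℕ} (m : ℕ) {c : G0 N → ℤ} (hc : IsParHom c) :
    IsParHom (redChar m c) := by
  refine ⟨fun γ γ' => ?_, fun γ hγ => ?_, fun γ n hn hγ => ?_⟩
  · simp only [redChar, hc.map_mul, Int.cast_add]
  · simp only [redChar, hc.parabolic γ hγ, Int.cast_zero]
  · simp only [redChar, hc.elliptic γ n hn hγ, Int.cast_zero]

theorem redChar_heckeCoh {N : ℕ} (m : ℕ) (ℓ : ℕ) (c : G0 N → ℤ) :
    redChar m (heckeCoh N ℓ c) = heckeCoh N ℓ (redChar m c) :=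
  (heckeCoh_map_h42 N ℓ (Int.castAddHom (ZMod m)) c).symm

theorem redChar_eq_zero_iff {N : ℕ} (m : ℕ) (c : G0 N → ℤ) :
    redChar m c = 0 ↔ ∀ γ, (m : ℤ) ∣ c γ := by
  constructor
  · intro h γ
    exact (ZMod.intCast_zmod_eq_zero_iff_dvd _ _).mp (congrFun h γ)
  · intro h
    funext γ
    exact (ZMod.intCast_zmod_eq_zero_iff_dvd _ _).mpr (h γ)

/-- Division of a parabolic character by `m ≠ 0` when all its values are divisible by `m`. -/
theorem exists_parLattice_eq_smul {N : ℕ} {m : ℤ} (hm : m ≠ 0) (x : parLattice N)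
    (h : ∀ γ, m ∣ (x : G0 N → ℤ) γ) : ∃ y : parLattice N, x = m • y := by
  have hx : IsParHom (x : G0 N → ℤ) := x.2
  have hy : ∀ γ, (x : G0 N → ℤ) γ = m * ((x : G0 N → ℤ) γ / m) :=
    fun γ => (Int.mul_ediv_cancel' (h γ)).symm
  refine ⟨⟨fun γ => (x : G0 N → ℤ) γ / m, ⟨fun γ γ' => ?_, fun γ hγ => ?_, fun γ n hn hγ => ?_⟩⟩,
    ?_⟩
  · apply mul_left_cancel₀ hm
    rw [mul_add, ← hy, ← hy, ← hy, hx.map_mul]
  · rw [hx.parabolic γ hγ, Int.zero_ediv]
  · rw [hx.elliptic γ n hn hγ, Int.zero_ediv]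
  · apply Subtype.ext
    funext γ
    simp only [Submodule.coe_smul, Pi.smul_apply, smul_eq_mul]
    exact hy γ

/-! ### The Kummer maps on the lattice -/

/-- The Kummer tower on the lattice: additivity, kernel, compatibility, Hecke-equivariance. -/
theorem exists_kummerLattice (N p : ℕ) [NeZero N] [NeZero p] :
    ∃ κ : ℕ → parLattice N →ₗ[ℤ] JZero N,
      (∀ (n : ℕ) (x : parLattice N), κ n x = 0 ↔ ∃ y : parLattice N, x = ((p : ℤ) ^ n) • y) ∧
      (∀ (n : ℕ) (x : parLattice N), (p : ℤ) • κ (n + 1) x = κ n x) ∧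
      (∀ ℓ : Nat.Primes, ¬ (ℓ : ℕ) ∣ N * p → ∀ (n : ℕ) (x : parLattice N),
        κ n (TLat N ℓ x) = heckeOperatorBar N ℓ (κ n x)) := by
  obtain ⟨κ₀, -, hadd, hinj, hcompat, hhecke⟩ :=
    Fermat.Agent.S30.H450.exists_kummerTower_isKum_of (N := N) (p := p)
      (fun n => Fermat.Agent.S30.Chain.kumPackage N (p ^ n))
  have hzero : ∀ n, κ₀ n 0 = 0 := by
    intro n
    have h0 : IsParHom (0 : G0 N → ZMod (p ^ n)) := by
      have := isParHom_redChar (N := N) (p ^ n) (parLattice N).zero_mem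
      rwa [redChar_zero] at this
    have := hadd n 0 0 h0 h0
    rw [add_zero] at this
    exact add_eq_left.mp this.symm
  let κ : ℕ → parLattice N →ₗ[ℤ] JZero N := fun n =>
    (AddMonoidHom.mk' (fun c : parLattice N => κ₀ n (redChar (p ^ n) (c : G0 N → ℤ)))
      (fun c c' => by
        show κ₀ n (redChar (p ^ n) ((c : G0 N → ℤ) + (c' : G0 N → ℤ))) = _
        rw [redChar_add]
        exact hadd n _ _ (isParHom_redChar _ c.2) (isParHom_redChar _ c'.2))).toIntLinearMap
  have hκ : ∀ n (c : parLattice N), κ n c = κ₀ n (redChar (p ^ n) (c : G0 N → ℤ)) :=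
    fun _ _ => rfl
  have hpn : ∀ n : ℕ, ((p : ℤ) ^ n) ≠ 0 := fun n =>
    pow_ne_zero _ (by exact_mod_cast NeZero.ne p)
  refine ⟨κ, fun n x => ⟨fun h => ?_, fun h => ?_⟩, fun n x => ?_, fun ℓ hℓ n x => ?_⟩
  · rw [hκ] at h
    have h1 := hinj n _ (isParHom_redChar _ x.2) h
    rw [redChar_eq_zero_iff] at h1
    refine exists_parLattice_eq_smul (hpn n) x (fun γ => ?_)
    have := h1 γ
    rwa [Nat.cast_pow] at this
  · obtain ⟨y, rfl⟩ := h
    rw [hκ]
    have : redChar (p ^ n) ((((p : ℤ) ^ n) • y : parLattice N) : G0 N → ℤ) = 0 := by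
      rw [redChar_eq_zero_iff]
      intro γ
      rw [Nat.cast_pow]
      exact ⟨(y : G0 N → ℤ) γ, rfl⟩
    rw [this, hzero]
  · rw [hκ, hκ, hcompat n _ (isParHom_redChar _ x.2)]
    congr 1
    funext γ
    simp only [redChar, map_intCast]
  · have hℓN : ¬ (ℓ : ℕ) ∣ N := fun hd => hℓ (Dvd.dvd.mul_right hd p)
    rw [hκ, hκ, TLat_coe hℓN, redChar_heckeCoh]
    exact hhecke ℓ hℓ n _ (isParHom_redChar _ x.2)

/-! ### Occurrence of Hecke characters in `R ⊗ Λ` -/

/-- An additive function on `Γ₀(N)` vanishing on a generating set vanishes. -/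
theorem addFun_eq_zero_of_closure {N : ℕ} {A : Type*} [AddCommGroup A] {c : G0 N → A}
    (hc : ∀ γ γ' : G0 N, c (γ * γ') = c γ + c γ') (S₀ : Set (G0 N))
    (hS₀ : Subgroup.closure S₀ = ⊤) (h0 : ∀ γ ∈ S₀, c γ = 0) (γ : G0 N) : c γ = 0 := by
  have h1 : c 1 = 0 := by
    have := hc 1 1
    rw [mul_one] at this
    exact (add_eq_left.mp this.symm)
  have hγ : γ ∈ Subgroup.closure S₀ := hS₀ ▸ Subgroup.mem_top γ
  induction hγ using Subgroup.closure_induction with
  | mem x hx => exact h0 x hx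
  | one => exact h1
  | mul x y _ _ hx hy => rw [hc, hx, hy, add_zero]
  | inv x _ hx =>
    have := hc x x⁻¹
    rw [mul_inv_cancel, h1, hx, zero_add] at this
    exact this.symm

/-- Every character of the Hecke algebra with values in a characteristic-zero domain `R` occurs
in `R ⊗ Λ`. -/
theorem exists_occ (N : ℕ) [NeZero N] (S : Set ℕ) (R : Type) [CommRing R] [IsDomain R]
    [CharZero R] (χ : CuspForm.heckeAlgebra N 2 S →+* R) :
    ∃ v : R ⊗[ℤ] parLattice N, v ≠ 0 ∧
      ∀ (ℓ : ℕ) (hℓ : ℓ.Prime) (hℓN : ¬ ℓ ∣ N) (hℓS : ℓ ∉ S),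
        (TLat N ⟨ℓ, hℓ⟩).baseChange R v = χ (CuspForm.heckeAlgebra.T hℓ hℓN hℓS) • v := by
  classical
  obtain ⟨n, w, c, hc, ⟨γ₀, hγ₀⟩, heig⟩ :=
    Fermat.Agent.S30.H169.exists_eigen_parLattice_coord N S R χ
  obtain ⟨S₀, hS₀, hS₀fin⟩ := Group.fg_iff.mp (Fermat.Agent.S29.M4aTop_fg_Gamma0 N)
  letI : Fintype S₀ := hS₀fin.fintype
  -- restriction to the generating set
  let r : parLattice N →ₗ[ℤ] (S₀ → ℤ) :=
    { toFun := fun c γ => (c : G0 N → ℤ) γ
      map_add' := fun _ _ => rfl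
      map_smul' := fun _ _ => rfl }
  have hr : Function.Injective r := by
    rw [← LinearMap.ker_eq_bot, LinearMap.ker_eq_bot']
    intro c hc
    apply Subtype.ext
    funext γ
    exact parHom_eq_zero_of_closure c.2 S₀ hS₀ (fun δ hδ => congrFun hc ⟨δ, hδ⟩) γ
  let E : R ⊗[ℤ] parLattice N →ₗ[R] (S₀ → R) :=
    (TensorProduct.piScalarRight ℤ R R S₀).toLinearMap ∘ₗ (r.baseChange R)
  have hE : Function.Injective E := by
    have h1 : Function.Injective (r.baseChange R) := by
      rw [LinearMap.baseChange_eq_ltensor]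
      exact Module.Flat.lTensor_preserves_injective_linearMap r hr
    exact (TensorProduct.piScalarRight ℤ R R S₀).injective.comp h1
  have hEt : ∀ (a : R) (x : parLattice N) (γ : S₀),
      E (a ⊗ₜ[ℤ] x) γ = a * (((x : G0 N → ℤ) γ : ℤ) : R) := by
    intro a x γ
    show (TensorProduct.piScalarRight ℤ R R S₀) ((r.baseChange R) (a ⊗ₜ[ℤ] x)) γ = _
    rw [LinearMap.baseChange_tmul, TensorProduct.piScalarRight_apply,
      TensorProduct.piScalarRightHom_tmul]
    show (r x γ : ℤ) • a = _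
    rw [zsmul_eq_mul, mul_comm]
    rfl
  let v : R ⊗[ℤ] parLattice N := ∑ j, w j ⊗ₜ[ℤ] (⟨c j, hc j⟩ : parLattice N)
  have hEv : ∀ γ : S₀, E v γ = ∑ j, w j * ((c j γ : ℤ) : R) := by
    intro γ
    simp only [v, map_sum, Finset.sum_apply, hEt]
  refine ⟨v, fun hv => hγ₀ ?_, fun ℓ hℓ hℓN hℓS => hE ?_⟩
  · -- the `R`-valued character `∑ w j * c j` vanishes on the generators
    refine addFun_eq_zero_of_closure (c := fun γ => ∑ j, w j * ((c j γ : ℤ) : R))
      (fun γ γ' => ?_) S₀ hS₀ (fun γ hγ => ?_) γ₀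
    · simp only [(hc _).map_mul, Int.cast_add, mul_add, Finset.sum_add_distrib]
    · have := hEv ⟨γ, hγ⟩
      rw [hv, map_zero] at this
      exact this.symm
  · funext γ
    have h1 : E ((TLat N ⟨ℓ, hℓ⟩).baseChange R v) γ
        = ∑ j, w j * ((heckeCoh N ℓ (c j) γ : ℤ) : R) := by
      simp only [v, map_sum, LinearMap.baseChange_tmul, Finset.sum_apply, hEt]
      refine Finset.sum_congr rfl fun j _ => ?_
      rw [TLat_coe (ℓ := ⟨ℓ, hℓ⟩) hℓN]
    rw [h1, map_smul, Pi.smul_apply, hEv, smul_eq_mul]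
    exact heig ℓ hℓ hℓN hℓS γ

/-! ### The Tate lattice -/

/-- **The Tate lattice** (input `hlat` of `S32/Eig.lean`, `S35/H991/Wired.lean`,
`S34/H789/Inputs.lean`, in exactly that shape). -/
theorem tateLattice : ∀ (N p : ℕ) [NeZero N], p.Prime →
    ∃ (Λ : Type) (_ : AddCommGroup Λ) (_ : Module.Free ℤ Λ) (_ : Module.Finite ℤ Λ)
      (TΛ : Nat.Primes → Λ →ₗ[ℤ] Λ) (κ : ℕ → Λ →ₗ[ℤ] ModularCurve.JZero N),
      (∀ (n : ℕ) (x : Λ), κ n x = 0 ↔ ∃ y : Λ, x = ((p : ℤ) ^ n) • y) ∧
      (∀ (n : ℕ) (x : Λ), (p : ℤ) • κ (n + 1) x = κ n x) ∧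
      (∀ ℓ : Nat.Primes, ¬ (ℓ : ℕ) ∣ N * p → ∀ (n : ℕ) (x : Λ),
        κ n (TΛ ℓ x) = ModularCurve.heckeOperatorBar N ℓ (κ n x)) ∧
      (∀ (S : Set ℕ) (R : Type) [CommRing R] [IsDomain R] [CharZero R]
        (χ : CuspForm.heckeAlgebra N 2 S →+* R),
        ∃ v : R ⊗[ℤ] Λ, v ≠ 0 ∧
          ∀ (ℓ : ℕ) (hℓ : ℓ.Prime) (hℓN : ¬ ℓ ∣ N) (hℓS : ℓ ∉ S),
            (TΛ ⟨ℓ, hℓ⟩).baseChange R v = χ (CuspForm.heckeAlgebra.T hℓ hℓN hℓS) • v) := by
  intro N p _ hp
  haveI : NeZero p := ⟨hp.ne_zero⟩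
  obtain ⟨κ, h1, h2, h3⟩ := exists_kummerLattice N p
  exact ⟨parLattice N, inferInstance, parLattice_free N, parLattice_finite N, TLat N, κ,
    h1, h2, h3, fun S R _ _ _ χ => exists_occ N S R χ⟩

end Fermat.Agent.S30.H42

end
end
-- ===== PACK-END S30/H42/TateLattice.lean

-- ===== PACK-BEGIN S30/H330/KumQZ.lean
section
/-
S30 -- ADIC MODULE LAYER, input (K) from the pieces of S29 sub-layer M4b (helper330).

The Kummer relation `M4b.IsKum N m c x` of helper822 is stated for `ℤ/m`-valued characters; the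
adic module layer uses `ℚ/ℤ`-valued characters.  This file provides the dictionary:

* `zmodToQZ m : ZMod m →+ ℚ/ℤ`, `a ↦ a/m` (injective, onto the `m`-torsion);
* `IsKumQZ N m c x` : `x` is the Kummer class of the `ℚ/ℤ`-valued character `c`, at modulus `m`;
  it is insensitive to the modulus (`IsKumQZ.mul_right`, inflation of helper450);
* `kummerInjStatement_of_packages` : the Kummer packages `H450.KumPackage N (p ^ n)` for all `n`
  (= the seven pieces of M4b at the moduli `p ^ n`) give a Kummer map on the `p`-primary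
  parabolic characters with values in `ℚ/ℤ`: additive, injective, Hecke-equivariant
  (`KummerInjStatement N p`).

Only characters of `p`-power order are used, because piece `K4-HECKE` at the modulus `m` is only
available for the primes `ℓ ∤ N m`.
-/



set_option autoImplicit false

noncomputable section

namespace Fermat.Agent.S30.H330

open Fermat.Agent.S29 Fermat.Agent.S29.M4b ModularCurve Fermat.Agent.S30.H450

/-! ### The embedding `ℤ/m → ℚ/ℤ` -/

/-- `1/m` in `ℚ/ℤ`. -/
def invQZ (m : ℕ) : QZ := (((m : ℚ)⁻¹ : ℚ) : QZ)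

theorem nsmul_invQZ (m : ℕ) : m • invQZ m = 0 := by
  rcases Nat.eq_zero_or_pos m with h | h
  · subst h; simp
  · unfold invQZ
    rw [← AddCircle.coe_nsmul, nsmul_eq_mul, mul_inv_cancel₀ (by positivity)]
    exact AddCircle.coe_period 1

theorem nsmul_invQZ_mul (m d : ℕ) (hd : d ≠ 0) : d • invQZ (m * d) = invQZ m := by
  unfold invQZ
  rw [← AddCircle.coe_nsmul, nsmul_eq_mul]
  congr 1
  have hd' : (d : ℚ) ≠ 0 := by exact_mod_cast hd
  push_cast
  rw [mul_inv, mul_comm (m : ℚ)⁻¹, ← mul_assoc, mul_inv_cancel₀ hd', one_mul]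

/-- The embedding `ℤ/m → ℚ/ℤ`, `a ↦ a/m`. -/
def zmodToQZ (m : ℕ) : ZMod m →+ QZ :=
  ZMod.lift m ⟨zmultiplesHom QZ (invQZ m), by
    rw [zmultiplesHom_apply, natCast_zsmul]
    exact nsmul_invQZ m⟩

theorem zmodToQZ_intCast (m : ℕ) (k : ℤ) : zmodToQZ m (k : ZMod m) = k • invQZ m := by
  unfold zmodToQZ
  rw [ZMod.lift_coe]
  rfl

theorem zmodToQZ_natCast (m : ℕ) (k : ℕ) : zmodToQZ m (k : ZMod m) = k • invQZ m := by
  have := zmodToQZ_intCast m (k : ℤ)
  rwa [Int.cast_natCast, natCast_zsmul] at this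

theorem zmodToQZ_eq_val (m : ℕ) [NeZero m] (a : ZMod m) : zmodToQZ m a = a.val • invQZ m := by
  conv_lhs => rw [← ZMod.natCast_zmod_val a]
  exact zmodToQZ_natCast m _

theorem zmodToQZ_injective (m : ℕ) [NeZero m] : Function.Injective (zmodToQZ m) := by
  rw [injective_iff_map_eq_zero]
  intro a ha
  rw [zmodToQZ_eq_val] at ha
  have hm : (m : ℚ) ≠ 0 := by exact_mod_cast NeZero.ne m
  have hmpos : (0 : ℚ) < m := by exact_mod_cast Nat.pos_of_ne_zero (NeZero.ne m)
  unfold invQZ at ha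
  rw [← AddCircle.coe_nsmul, nsmul_eq_mul, AddCircle.coe_eq_zero_iff] at ha
  obtain ⟨n, hn⟩ := ha
  rw [zsmul_eq_mul, mul_one] at hn
  have h1 : (a.val : ℚ) = n * m := by
    field_simp at hn
    linarith
  have h2 : (a.val : ℤ) = n * m := by exact_mod_cast h1
  have hlt : (a.val : ℤ) < m := by exact_mod_cast ZMod.val_lt a
  have hnn : (0 : ℤ) ≤ a.val := by positivity
  have hmz : (0 : ℤ) < m := by exact_mod_cast Nat.pos_of_ne_zero (NeZero.ne m)
  have hn0 : n = 0 := by
    by_contra hne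
    rcases lt_or_gt_of_ne hne with h | h
    · have : n * (m : ℤ) < 0 := mul_neg_of_neg_of_pos h hmz
      omega
    · have : (m : ℤ) ≤ n * m := by nlinarith
      omega
  rw [hn0, zero_mul] at h2
  have h3 : a.val = 0 := by exact_mod_cast h2
  exact (ZMod.val_eq_zero a).mp h3

theorem exists_zmodToQZ_eq (m : ℕ) [NeZero m] {y : QZ} (hy : m • y = 0) :
    ∃ a : ZMod m, zmodToQZ m a = y := by
  obtain ⟨q, rfl⟩ := QuotientAddGroup.mk_surjective y
  have hm : (m : ℚ) ≠ 0 := by exact_mod_cast NeZero.ne m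
  change m • ((q : ℚ) : QZ) = 0 at hy
  rw [← AddCircle.coe_nsmul, nsmul_eq_mul, AddCircle.coe_eq_zero_iff] at hy
  obtain ⟨k, hk⟩ := hy
  rw [zsmul_eq_mul, mul_one] at hk
  refine ⟨(k : ZMod m), ?_⟩
  rw [zmodToQZ_intCast]
  unfold invQZ
  rw [← AddCircle.coe_zsmul, zsmul_eq_mul]
  congr 1
  rw [hk]
  field_simp

theorem nsmul_zmodToQZ (m : ℕ) (a : ZMod m) : m • zmodToQZ m a = 0 := by
  rw [← map_nsmul]
  have : m • a = 0 := by
    rw [nsmul_eq_mul, ZMod.natCast_self, zero_mul]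
  rw [this, map_zero]

/-! ### Characters with values in `ℤ/m` and in `ℚ/ℤ` -/

section Char

variable {N : ℕ}

/-- A `ℤ/m`-valued function is a parabolic character as soon as its image in `ℚ/ℤ` is one. -/
theorem isParHom_of_zmodToQZ {m : ℕ} [NeZero m] {cm : G0 N → ZMod m} {c : G0 N → QZ}
    (hc : IsParHom c) (h : ∀ γ, zmodToQZ m (cm γ) = c γ) : IsParHom cm where
  map_mul γ γ' := by
    apply zmodToQZ_injective m
    rw [map_add, h, h, h, hc.map_mul]
  parabolic γ hγ := by
    apply zmodToQZ_injective m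
    rw [h, map_zero, hc.parabolic γ hγ]
  elliptic γ n hn hγ := by
    apply zmodToQZ_injective m
    rw [h, map_zero, hc.elliptic γ n hn hγ]

/-- A `ℚ/ℤ`-valued function killed by `m` factors through `ℤ/m`. -/
theorem exists_zmod_char {m : ℕ} [NeZero m] {c : G0 N → QZ} (hm : m • c = 0) :
    ∃ cm : G0 N → ZMod m, ∀ γ, zmodToQZ m (cm γ) = c γ := by
  have h : ∀ γ, ∃ a : ZMod m, zmodToQZ m a = c γ := fun γ =>
    exists_zmodToQZ_eq m (by simpa using congrFun hm γ)
  exact ⟨fun γ => (h γ).choose, fun γ => (h γ).choose_spec⟩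

theorem zmodToQZ_inflChar {m d : ℕ} [NeZero m] [NeZero d] (cm : G0 N → ZMod m) (γ : G0 N) :
    zmodToQZ (m * d) (inflChar m d cm γ) = zmodToQZ m (cm γ) := by
  unfold inflChar
  rw [zmodToQZ_natCast, zmodToQZ_eq_val, mul_comm d, mul_nsmul',
    nsmul_invQZ_mul m d (NeZero.ne d)]

end Char

/-! ### The Kummer relation for `ℚ/ℤ`-valued characters -/

section Rel

variable {N : ℕ} [NeZero N]

/-- `x` is the Kummer class of the `ℚ/ℤ`-valued character `c`, at the modulus `m`. -/
def IsKumQZ (N : ℕ) [NeZero N] (m : ℕ) (c : G0 N → QZ) (x : JZero N) : Prop :=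
  ∃ cm : G0 N → ZMod m, (∀ γ, zmodToQZ m (cm γ) = c γ) ∧ IsKum N m cm x

/-- The modulus can be multiplied (inflation, helper450). -/
theorem IsKumQZ.mul_right {m : ℕ} [NeZero m] {c : G0 N → QZ} {x : JZero N}
    (h : IsKumQZ N m c x) (d : ℕ) [NeZero d] : IsKumQZ N (m * d) c x := by
  obtain ⟨cm, hcm, hk⟩ := h
  exact ⟨inflChar m d cm, fun γ => by rw [zmodToQZ_inflChar, hcm], isKum_infl hk⟩

/-- The level of a Kummer class in the `p`-power tower can be raised. -/
theorem IsKumQZ.pow_le {p : ℕ} [NeZero p] {n n' : ℕ} (hn : n ≤ n') {c : G0 N → QZ}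
    {x : JZero N} (h : IsKumQZ N (p ^ n) c x) : IsKumQZ N (p ^ n') c x := by
  obtain ⟨k, rfl⟩ := Nat.exists_eq_add_of_le hn
  have := h.mul_right (p ^ k)
  rwa [← pow_add] at this

theorem IsKumQZ.unique {m : ℕ} [NeZero m] (H : KumPackage N m) {c : G0 N → QZ}
    {x x' : JZero N} (h : IsKumQZ N m c x) (h' : IsKumQZ N m c x') : x = x' := by
  obtain ⟨cm, hcm, hk⟩ := h
  obtain ⟨cm', hcm', hk'⟩ := h'
  have : cm = cm' := funext fun γ => zmodToQZ_injective m (by rw [hcm, hcm'])
  subst this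
  exact H.uniq cm x x' hk hk'

theorem IsKumQZ.add {m : ℕ} (H : KumPackage N m) {c c' : G0 N → QZ}
    {x x' : JZero N} (h : IsKumQZ N m c x) (h' : IsKumQZ N m c' x') :
    IsKumQZ N m (c + c') (x + x') := by
  obtain ⟨cm, hcm, hk⟩ := h
  obtain ⟨cm', hcm', hk'⟩ := h'
  exact ⟨cm + cm', fun γ => by rw [Pi.add_apply, map_add, hcm, hcm', Pi.add_apply],
    H.add cm cm' x x' hk hk'⟩

theorem IsKumQZ.eq_zero {m : ℕ} (H : KumPackage N m) {c : G0 N → QZ}
    (h : IsKumQZ N m c (0 : JZero N)) : c = 0 := by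
  obtain ⟨cm, hcm, hk⟩ := h
  have h0 := H.inj cm hk
  funext γ
  rw [← hcm, h0, Pi.zero_apply, map_zero, Pi.zero_apply]

theorem IsKumQZ.hecke {m : ℕ} [NeZero m] (H : KumPackage N m) (ℓ : Nat.Primes)
    (hℓ : ¬ (ℓ : ℕ) ∣ N * m) {c : G0 N → QZ} (hc : IsParHom c) {x : JZero N}
    (h : IsKumQZ N m c x) : IsKumQZ N m (heckeCoh N ℓ c) (heckeOperatorBar N ℓ x) := by
  obtain ⟨cm, hcm, hk⟩ := h
  refine ⟨heckeCoh N ℓ cm, fun γ => ?_, H.hecke ℓ hℓ cm x (isParHom_of_zmodToQZ hc hcm) hk⟩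
  have h1 := congrFun (heckeCoh_comp (N := N) (ℓ : ℕ) cm (zmodToQZ m)) γ
  rw [← h1]
  congr 1
  funext γ'
  exact hcm γ'

theorem IsKumQZ.exists {m : ℕ} [NeZero m] (H : KumPackage N m) {c : G0 N → QZ}
    (hc : IsParHom c) (hm : m • c = 0) : ∃ x : JZero N, IsKumQZ N m c x := by
  obtain ⟨cm, hcm⟩ := exists_zmod_char hm
  obtain ⟨x, hx⟩ := H.ex cm (isParHom_of_zmodToQZ hc hcm)
  exact ⟨x, cm, hcm, hx⟩

end Rel

/-! ### The `p`-primary Kummer map -/

/-- INPUT (K'), the `p`-primary form of `KummerStatement` without surjectivity: a Kummer map on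
the parabolic characters of `p`-power order with values in `ℚ/ℤ`, additive, injective and
Hecke-equivariant. -/
def KummerInjStatement (N : ℕ) [NeZero N] (p : ℕ) : Prop :=
  ∃ κ : (G0 N → QZ) → JZero N,
    (∀ c c', IsParHom c → IsParHom c' → (∃ n : ℕ, p ^ n • c = 0) → (∃ n : ℕ, p ^ n • c' = 0) →
      κ (c + c') = κ c + κ c') ∧
    (∀ c, IsParHom c → (∃ n : ℕ, p ^ n • c = 0) → κ c = 0 → c = 0) ∧
    (∀ ℓ : Nat.Primes, ¬ (ℓ : ℕ) ∣ N * p → ∀ c, IsParHom c → (∃ n : ℕ, p ^ n • c = 0) →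
      κ (heckeCoh N ℓ c) = heckeOperatorBar N ℓ (κ c))

/-- INPUT (F): finiteness of the `p`-torsion of `J₀(N)(ℚ̄)`. -/
def FinStatement (N : ℕ) [NeZero N] (p : ℕ) : Prop :=
  {x : JZero N | p • x = 0}.Finite

section Tower

variable {N : ℕ} [NeZero N] {p : ℕ}

open Classical in
/-- The Kummer map on `ℚ/ℤ`-valued characters: THE Kummer class at some level of the `p`-power
tower (and `0` if there is none). -/
def kumQZ (N : ℕ) [NeZero N] (p : ℕ) (c : G0 N → QZ) : JZero N :=
  if h : ∃ x : JZero N, ∃ n : ℕ, IsKumQZ N (p ^ n) c x then h.choose else 0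

theorem kumQZ_eq [NeZero p] (H : ∀ n, KumPackage N (p ^ n)) {c : G0 N → QZ} {x : JZero N}
    {n : ℕ} (h : IsKumQZ N (p ^ n) c x) : kumQZ N p c = x := by
  have h' : ∃ x : JZero N, ∃ n : ℕ, IsKumQZ N (p ^ n) c x := ⟨x, n, h⟩
  rw [kumQZ, dif_pos h']
  obtain ⟨n', hn'⟩ := h'.choose_spec
  exact IsKumQZ.unique (H (max n n')) (hn'.pow_le (le_max_right n n'))
    (h.pow_le (le_max_left n n'))

theorem isKumQZ_kumQZ [NeZero p] (H : ∀ n, KumPackage N (p ^ n)) {c : G0 N → QZ}
    (hc : IsParHom c) {n : ℕ} (hn : p ^ n • c = 0) : IsKumQZ N (p ^ n) c (kumQZ N p c) := by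
  obtain ⟨x, hx⟩ := IsKumQZ.exists (H n) hc hn
  rw [kumQZ_eq H hx]
  exact hx

theorem nsmul_eq_zero_of_le {A : Type*} [AddCommMonoid A] {p n n' : ℕ} (h : n ≤ n') {c : A}
    (hc : p ^ n • c = 0) : p ^ n' • c = 0 := by
  obtain ⟨k, rfl⟩ := Nat.exists_eq_add_of_le h
  rw [pow_add, mul_comm, mul_nsmul', hc, nsmul_zero]

/-- **Input (K') from the pieces of M4b** at the moduli `p ^ n`. -/
theorem kummerInjStatement_of_packages [NeZero p] (H : ∀ n, KumPackage N (p ^ n)) :
    KummerInjStatement N p := by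
  refine ⟨kumQZ N p, ?_, ?_, ?_⟩
  · rintro c c' hc hc' ⟨n, hn⟩ ⟨n', hn'⟩
    have h1 := isKumQZ_kumQZ H hc (nsmul_eq_zero_of_le (le_max_left n n') hn)
    have h2 := isKumQZ_kumQZ H hc' (nsmul_eq_zero_of_le (le_max_right n n') hn')
    exact kumQZ_eq H (IsKumQZ.add (H _) h1 h2)
  · rintro c hc ⟨n, hn⟩ h0
    have h1 := isKumQZ_kumQZ H hc hn
    rw [h0] at h1
    exact IsKumQZ.eq_zero (H n) h1
  · rintro ℓ hℓ c hc ⟨n, hn⟩
    have h1 := isKumQZ_kumQZ H hc hn
    exact kumQZ_eq H (IsKumQZ.hecke (H n) ℓ (not_dvd_mul_pow ℓ.2 hℓ n) hc h1)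

end Tower

end Fermat.Agent.S30.H330

end
end
-- ===== PACK-END S30/H330/KumQZ.lean

-- ===== PACK-BEGIN S30/H330/AdicInputs.lean
section
/-
S30 -- ADIC MODULE LAYER, assembly from the `p`-PRIMARY inputs (helper330).

`hasAdicFrobModule_of_inj` : (K') + (F) + (P) + (T) + (Sm) + (GH)  ⟹  `HasAdicFrobModule`, where
  (K') `KummerInjStatement N p` : Kummer map on the parabolic characters of `p`-power order
       (additive, injective, Hecke-equivariant; NO surjectivity);
  (F)  `FinStatement N p` : `J₀(N)(ℚ̄)[p]` is finite.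
This is the form of `hasAdicFrobModule_of_inputs` which is fed by the pieces of S29 sub-layer M4b
(`kummerInjStatement_of_packages`) and by piece FIN of the S30 row.
-/


set_option autoImplicit false

noncomputable section

namespace Fermat.Agent.S30.H330

open Fermat.Agent.S29 ModularCurve
open scoped MatrixGroups

/-- `KummerStatement` (all characters, with surjectivity) implies the `p`-primary form. -/
theorem kummerInjStatement_of_kummerStatement {N : ℕ} [NeZero N] {p : ℕ}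
    (h : KummerStatement N p) : KummerInjStatement N p := by
  obtain ⟨κ, hadd, hinj, -, hhecke⟩ := h
  exact ⟨κ, fun c c' hc hc' _ _ => hadd c c' hc hc', fun c hc _ h0 => hinj c hc h0,
    fun ℓ hℓ c hc _ => hhecke ℓ hℓ c hc⟩

/-- `KummerStatement` implies the finiteness of the `p`-torsion. -/
theorem finStatement_of_kummerStatement {N : ℕ} [NeZero N] {p : ℕ} [Fact p.Prime]
    (h : KummerStatement N p) : FinStatement N p :=
  finite_torsion h

/-- The eigenvector `f(x) = κ(γ ↦ ϑ(c(γ) x))`, from the `p`-primary Kummer map. -/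
theorem exists_eigenHom_of_inj {p : ℕ} [Fact p.Prime] {N : ℕ} [NeZero N] {S : Finset ℕ}
    (hpS : p ∈ S) (hNS : ∀ q : ℕ, q.Prime → q ∣ N → q ∈ S)
    {O : Type} [CommRing O] [IsDomain O] [IsDiscreteValuationRing O]
    (hpO : (p : O) ∈ IsLocalRing.maximalIdeal O)
    (χ : CuspForm.heckeAlgebra N 2 (↑S : Set ℕ) →+* O)
    (hK : KummerInjStatement N p) (hP : ParEigenStatement N S O χ) :
    ∃ f : FractionRing O →+ JZero N,
      (∀ r : O, f (algebraMap O (FractionRing O) r) = 0) ∧ f ≠ 0 ∧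
      ∀ (ℓ : Nat.Primes), (ℓ : ℕ) ∉ S → ∀ x,
        heckeOperatorBar N ℓ (f x) =
          f (algebraMap O (FractionRing O) (eigenvalue χ ℓ) * x) := by
  classical
  obtain ⟨κ, hadd, hinj, hhecke⟩ := hK
  obtain ⟨c, hc, hc0, hceig⟩ := hP
  obtain ⟨ϖ, hϖ⟩ := IsDiscreteValuationRing.exists_irreducible O
  obtain ⟨ϑ, hϑ0, hϑ1⟩ := exists_character hϖ
  have hϖ0 : algebraMap O (FractionRing O) ϖ ≠ 0 := algebraMap_irreducible_ne_zero hϖ
  -- the additive map `r ↦ ϑ (r x)`
  let φ : FractionRing O → (O →+ QZ) := fun x =>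
    ϑ.comp ((AddMonoidHom.mulRight x).comp (algebraMap O (FractionRing O)).toAddMonoidHom)
  have hφ : ∀ x r, φ x r = ϑ (algebraMap O (FractionRing O) r * x) := fun x r => rfl
  let cx : FractionRing O → (G0 N → QZ) := fun x γ => φ x (c γ)
  have hcx : ∀ x, IsParHom (cx x) := fun x => isParHom_comp hc (φ x)
  have hcx_add : ∀ x y, cx (x + y) = cx x + cx y := by
    intro x y
    funext γ
    show φ (x + y) (c γ) = φ x (c γ) + φ y (c γ)
    rw [hφ, hφ, hφ, mul_add, map_add]
  -- the characters `cx x` have `p`-power order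
  have hcx_pow : ∀ x, ∃ n : ℕ, p ^ n • cx x = 0 := by
    intro x
    obtain ⟨n, y, rfl⟩ := exists_eq_div_pow hϖ x
    obtain ⟨b, hb⟩ : ∃ b : O, b * ϖ = (p : O) := by
      have h := hpO
      rw [hϖ.maximalIdeal_eq, Ideal.mem_span_singleton'] at h
      exact h
    refine ⟨n, ?_⟩
    funext γ
    show p ^ n • φ _ (c γ) = 0
    rw [hφ, ← map_nsmul]
    have : p ^ n • (algebraMap O (FractionRing O) (c γ) *
        (algebraMap O (FractionRing O) y / algebraMap O (FractionRing O) ϖ ^ n)) =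
        algebraMap O (FractionRing O) (c γ * (b ^ n * y)) := by
      rw [nsmul_eq_mul]
      have hp : ((p ^ n : ℕ) : FractionRing O) = algebraMap O (FractionRing O) ((b * ϖ) ^ n) := by
        rw [hb]; simp
      rw [hp, mul_pow]
      simp only [map_mul, map_pow]
      field_simp
    rw [this]
    exact hϑ0 _
  have hκ0 : κ 0 = 0 := by
    have := hadd 0 0 isParHom_zero isParHom_zero ⟨0, by simp⟩ ⟨0, by simp⟩
    rw [add_zero] at this
    exact left_eq_add.mp this
  let f : FractionRing O →+ JZero N := AddMonoidHom.mk' (fun x => κ (cx x)) (fun x y => by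
    show κ (cx (x + y)) = κ (cx x) + κ (cx y)
    rw [hcx_add, hadd _ _ (hcx x) (hcx y) (hcx_pow x) (hcx_pow y)])
  have hf : ∀ x, f x = κ (cx x) := fun x => rfl
  refine ⟨f, fun r => ?_, ?_, fun ℓ hℓS x => ?_⟩
  · rw [hf]
    have : cx (algebraMap O (FractionRing O) r) = 0 := by
      funext γ
      show φ _ (c γ) = 0
      rw [hφ, ← map_mul]
      exact hϑ0 _
    rw [this]
    exact hκ0
  · intro hf0
    obtain ⟨γ₀, hγ₀⟩ : ∃ γ₀, c γ₀ ≠ 0 := by
      by_contra h
      push Not at h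
      exact hc0 (funext h)
    have hcγ : algebraMap O (FractionRing O) (c γ₀) ≠ 0 := by
      simpa using hγ₀
    set x₀ : FractionRing O :=
      (algebraMap O (FractionRing O) (c γ₀))⁻¹ * (algebraMap O (FractionRing O) ϖ)⁻¹ with hx₀
    have h1 : κ (cx x₀) = 0 := by
      rw [← hf, hf0]
      rfl
    have h2 := hinj _ (hcx x₀) (hcx_pow x₀) h1
    have h3 : cx x₀ γ₀ = 0 := by rw [h2]; rfl
    apply hϑ1
    have h4 : cx x₀ γ₀ = ϑ ((algebraMap O (FractionRing O) ϖ)⁻¹) := by
      show φ x₀ (c γ₀) = _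
      rw [hφ, hx₀, mul_inv_cancel_left₀ hcγ]
    rw [← h4, h3]
  · have hℓ : (ℓ : ℕ).Prime := ℓ.2
    have hℓN : ¬ (ℓ : ℕ) ∣ N := fun h => hℓS (hNS _ hℓ h)
    have hℓS' : (ℓ : ℕ) ∉ (↑S : Set ℕ) := by simpa using hℓS
    have hℓNp : ¬ (ℓ : ℕ) ∣ N * p := by
      intro h
      rcases (Nat.Prime.dvd_mul hℓ).mp h with h | h
      · exact hℓN h
      · have : (ℓ : ℕ) = p := (Nat.prime_dvd_prime_iff_eq hℓ (Fact.out : p.Prime)).mp h
        exact hℓS (this ▸ hpS)
    rw [hf, hf, ← hhecke ℓ hℓNp _ (hcx x) (hcx_pow x)]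
    congr 1
    rw [show cx x = fun γ => φ x (c γ) from rfl, heckeCoh_comp]
    funext γ
    show φ x (heckeCoh N ℓ c γ) = φ _ (c γ)
    rw [hφ, hφ, hceig ℓ hℓ hℓN hℓS' γ, eigenvalue_eq χ hℓ hℓN hℓS']
    congr 1
    rw [map_mul (algebraMap O (FractionRing O))]
    ring

/-- ASSEMBLY of the adic module layer from the `p`-primary inputs:
(K') + (F) + (P) + (T) + (Sm) + (GH) ⟹ `HasAdicFrobModule`. -/
theorem hasAdicFrobModule_of_inj {p : ℕ} [Fact p.Prime] {N : ℕ} [NeZero N] {S : Finset ℕ}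
    (hpS : p ∈ S) (hNS : ∀ q : ℕ, q.Prime → q ∣ N → q ∈ S)
    {O : Type} [CommRing O] [IsDomain O] [IsDiscreteValuationRing O]
    [IsAdicComplete (IsLocalRing.maximalIdeal O) O] [Finite (IsLocalRing.ResidueField O)]
    [CharZero O] (hpO : (p : O) ∈ IsLocalRing.maximalIdeal O)
    (χ : CuspForm.heckeAlgebra N 2 (↑S : Set ℕ) →+* O)
    (hK : KummerInjStatement N p) (hF : FinStatement N p) (hP : ParEigenStatement N S O χ)
    (hT : TorsionRelations N p) (hSm : SmoothStatement N) (hGH : GaloisHeckeStatement N) :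
    HasAdicFrobModule O (N * p) (fun ℓ => ℓ ∉ S) (eigenvalue χ) := by
  classical
  obtain ⟨f, hf0, hf, hfe⟩ := exists_eigenHom_of_inj hpS hNS hpO χ hK hP
  -- index set of Hecke operators
  let t : {ℓ : Nat.Primes // (ℓ : ℕ) ∉ S} → JZero N →+ JZero N := fun i =>
    (heckeOperatorBar N i.1).toAddMonoidHom
  let a : {ℓ : Nat.Primes // (ℓ : ℕ) ∉ S} → O := fun i => eigenvalue χ (i.1 : ℕ)
  have ht : ∀ i (σ : GQ) (x : JZero N), σ • t i x = t i (σ • x) := fun i σ x => hGH σ i.1 x
  obtain ⟨M, i1, i2, i3, i4, ρ, hnt, hcont, hunr, hquad⟩ :=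
    adicModule_of_torsion (J := JZero N) (Fact.out : p.Prime) hpO (fun x => hSm x) hF t ht a f
      hf0 hf (fun i x => hfe i.1 i.2 x)
  refine ⟨M, i1, i2, i3, i4, ρ, hnt, hcont, ?_, ?_⟩
  · intro ℓ hℓ hℓNp A hA σ hσ
    exact hunr σ fun x hx => (hT ℓ hℓ hℓNp A hA).1 σ hσ x hx
  · intro ℓ hℓ hℓS A hA σ hσ
    have hℓN : ¬ ℓ ∣ N := fun h => hℓS (hNS _ hℓ h)
    have hℓNp : ¬ ℓ ∣ N * p := by
      intro h
      rcases (Nat.Prime.dvd_mul hℓ).mp h with h | h
      · exact hℓN h
      · have : ℓ = p := (Nat.prime_dvd_prime_iff_eq hℓ (Fact.out : p.Prime)).mp h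
        exact hℓS (this ▸ hpS)
    exact hquad ⟨⟨ℓ, hℓ⟩, hℓS⟩ ℓ σ fun x hx => (hT ℓ hℓ hℓNp A hA).2 σ hσ x hx

end Fermat.Agent.S30.H330

end
end
-- ===== PACK-END S30/H330/AdicInputs.lean

-- ===== PACK-BEGIN Lib/RR/H804/Modular.lean
section




/-!
# RR library, bridge: `FF1` for the function field of `X₀(N)` over `ℚ̄`  (helper804)

Inputs: the modular package of S24 (`j` is transcendental and `F` is finite over `ℚ̄(j)`).
-/

set_option autoImplicit false

noncomputable section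

open AlgebraicCurve IntermediateField ModularCurve

namespace Fermat.Agent.Lib.RR.H804

open Fermat.Agent.S24

variable (N : ℕ) [NeZero N]

/-- `j` is transcendental over `ℚ̄` in the function field of `X₀(N)`. -/
theorem transcendental_jF : Transcendental Kbar (jF N) := by
  obtain ⟨P⟩ := nonempty_modularPackage N
  exact transcendental_of_localData_inv (jF N) P.dataInf

/-- The function field of `X₀(N)` is finite over `ℚ̄(j)`. -/
theorem finiteDimensional_jF : FiniteDimensional Kbar⟮jF N⟯ (FF N) :=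
  (nonempty_modularPackage N).some.finiteDimensional

/-- `[ℚ̄(X₀(N)) : ℚ̄(j)] = [SL₂(ℤ) : Γ₀(N)]`. -/
theorem finrank_jF : Module.finrank Kbar⟮jF N⟯ (FF N) = Nat.card (XX N) :=
  (nonempty_modularPackage N).some.finrank_eq

/-- **Bridge**: the standing hypotheses of the RR library hold for `ℚ̄(X₀(N))`. -/
instance ff1_modular : FF1 (AlgebraicClosure ℚ) ↥(modularFunctionFieldBar N) :=
  haveI := finiteDimensional_jF N
  ff1 (transcendental_jF N)

/-- Principal divisors of `ℚ̄(X₀(N))` exist and have degree zero. -/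
instance hasPrincipalDivisors_modular :
    HasPrincipalDivisors (AlgebraicClosure ℚ) ↥(modularFunctionFieldBar N) :=
  haveI := finiteDimensional_jF N
  hasPrincipalDivisors (transcendental_jF N)

/-- Every place of `ℚ̄(X₀(N))` has degree one. -/
theorem deg_eq_one_modular (v : Place (AlgebraicClosure ℚ) ↥(modularFunctionFieldBar N)) :
    v.deg = 1 :=
  haveI := finiteDimensional_jF N
  FF.deg_eq_one v (transcendental_jF N)

/-- Residue fields of places of `ℚ̄(X₀(N))` are finite over `ℚ̄`. -/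
instance finite_residueField_modular
    (v : Place (AlgebraicClosure ℚ) ↥(modularFunctionFieldBar N)) :
    Module.Finite (AlgebraicClosure ℚ) v.ResidueField :=
  haveI := finiteDimensional_jF N
  finite_residueField (transcendental_jF N) v

end Fermat.Agent.Lib.RR.H804

end
end
-- ===== PACK-END Lib/RR/H804/Modular.lean

-- ===== PACK-BEGIN S29/H126/M3.lean
section
/-
S29 row, piece `M3` (helper126): the Galois action on `J₀(N)(ℚ̄)` is smooth — every class is fixed
by an open subgroup `Gal(ℚ̄/L)`, `L/ℚ` finite.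

Route: every element of the function field `ℚ̄(X₀(N))` (a subfield of `ℚ̄((q))` generated by `ℚ̄` and
series with rational coefficients) is fixed by an open subgroup; a place `v` is determined, among the
finitely many zeros of a function `t` with `v(t) > 0`, by finitely many functions separating it from
the other zeros; a divisor has finite support.
-/




set_option autoImplicit false

noncomputable section

namespace Fermat.Agent.S29.H126

open ModularCurve AlgebraicCurve IntermediateField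
open Fermat.Agent.S24 Fermat.Agent.Lib.RR.H804

/-- A property of Galois elements which holds on an open subgroup `Gal(ℚ̄/L)`, `L/ℚ` finite. -/
def M3OpenFixed (P : GQ → Prop) : Prop :=
  ∃ L : IntermediateField ℚ (AlgebraicClosure ℚ), FiniteDimensional ℚ L ∧
    ∀ σ : GQ, (∀ y ∈ L, σ y = y) → P σ

theorem M3OpenFixed.mono {P Q : GQ → Prop} (h : M3OpenFixed P) (hPQ : ∀ σ, P σ → Q σ) :
    M3OpenFixed Q := by
  obtain ⟨L, hL, hP⟩ := h
  exact ⟨L, hL, fun σ hσ => hPQ σ (hP σ hσ)⟩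

theorem M3OpenFixed.of_forall {P : GQ → Prop} (h : ∀ σ, P σ) : M3OpenFixed P :=
  ⟨⊥, inferInstance, fun σ _ => h σ⟩

theorem M3OpenFixed.and {P Q : GQ → Prop} (hP : M3OpenFixed P) (hQ : M3OpenFixed Q) :
    M3OpenFixed (fun σ => P σ ∧ Q σ) := by
  obtain ⟨L₁, hL₁, h₁⟩ := hP
  obtain ⟨L₂, hL₂, h₂⟩ := hQ
  refine ⟨L₁ ⊔ L₂, inferInstance,
    fun σ hσ => ⟨h₁ σ fun y hy => hσ y ?_, h₂ σ fun y hy => hσ y ?_⟩⟩
  · exact (le_sup_left : L₁ ≤ L₁ ⊔ L₂) hy
  · exact (le_sup_right : L₂ ≤ L₁ ⊔ L₂) hy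

theorem M3OpenFixed.finset {ι : Type*} (s : Finset ι) {P : ι → GQ → Prop}
    (h : ∀ i ∈ s, M3OpenFixed (P i)) : M3OpenFixed (fun σ => ∀ i ∈ s, P i σ) := by
  classical
  induction s using Finset.induction_on with
  | empty => exact .of_forall (fun σ i hi => absurd hi (Finset.notMem_empty i))
  | insert a s ha ih =>
    have h1 := h a (Finset.mem_insert_self a s)
    have h2 := ih (fun i hi => h i (Finset.mem_insert_of_mem hi))
    refine (h1.and h2).mono fun σ hσ i hi => ?_
    rcases Finset.mem_insert.mp hi with rfl | hi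
    · exact hσ.1
    · exact hσ.2 i hi

/-- Every element of the base-changed field is fixed (coefficientwise) by an open subgroup. -/
theorem M3_coeffMap_openFixed (F₀ : IntermediateField ℚ (LaurentSeries ℚ))
    {f : LaurentSeries (AlgebraicClosure ℚ)}
    (hf : f ∈ laurentBaseChange (AlgebraicClosure ℚ) F₀) :
    M3OpenFixed (fun σ => coeffMap (σ : AlgebraicClosure ℚ →+* AlgebraicClosure ℚ) f = f) := by
  rw [mem_laurentBaseChange_iff] at hf
  induction hf using Subfield.closure_induction with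
  | mem y hy =>
      rcases hy with ⟨a, rfl⟩ | ⟨z, hz, rfl⟩
      · have ha : IsIntegral ℚ a := ((AlgebraicClosure.isAlgebraic ℚ).isAlgebraic a).isIntegral
        refine ⟨ℚ⟮a⟯, adjoin.finiteDimensional ha, fun σ hσ => ?_⟩
        show coeffMap (σ : AlgebraicClosure ℚ →+* AlgebraicClosure ℚ) (algebraMap _ _ a) = _
        rw [coeffMap_algebraMap]
        exact congrArg _ (hσ a (mem_adjoin_simple_self ℚ a))
      · exact .of_forall fun σ => coeffMap_coeffEmb σ z
  | one => exact .of_forall fun σ => map_one _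
  | add x y _ _ hx hy => exact (hx.and hy).mono fun σ h => by rw [map_add, h.1, h.2]
  | neg x _ hx => exact hx.mono fun σ h => by rw [map_neg, h]
  | inv x _ hx => exact hx.mono fun σ h => by rw [map_inv₀, h]
  | mul x y _ _ hx hy => exact (hx.and hy).mono fun σ h => by rw [map_mul, h.1, h.2]

/-- Two distinct places are separated by a function. -/
theorem M3_exists_mem_not_mem {K F : Type*} [Field K] [Field F] [Algebra K F] {v w : Place K F}
    (h : w ≠ v) : ∃ g : F, g ∈ v.toValuationSubring ∧ g ∉ w.toValuationSubring := by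
  by_contra hcon
  have hle : v.toValuationSubring ≤ w.toValuationSubring := fun g hg =>
    by_contra fun hgw => hcon ⟨g, hg, hgw⟩
  exact h (Place.ext (ValuationSubring.eq_of_le_of_ne_top _ hle w.ne_top').symm)

variable (N : ℕ) [NeZero N]

omit [NeZero N] in
/-- Every function in `ℚ̄(X₀(N))` is fixed by an open subgroup. -/
theorem M3_elt_openFixed (f : FF N) :
    M3OpenFixed (fun σ => arithmeticGalois (modularFunctionFieldFull N) σ • f = f) :=
  (M3_coeffMap_openFixed _ f.2).mono fun σ h =>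
    Subtype.ext (by rw [coe_arithmeticGalois_smul]; exact h)

/-- Every place of `ℚ̄(X₀(N))` is fixed by an open subgroup. -/
theorem M3_place_openFixed (v : Place Kbar (FF N)) :
    M3OpenFixed (fun σ => arithmeticGalois (modularFunctionFieldFull N) σ • v = v) := by
  classical
  obtain ⟨x, hx⟩ : ∃ x : FF N, x ∉ v.toValuationSubring := by
    by_contra h
    exact v.ne_top' (eq_top_iff.mpr fun x _ => by_contra fun hx => h ⟨x, hx⟩)
  have hx0 : x ≠ 0 := fun h0 => hx (h0 ▸ zero_mem _)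
  set t : FF N := x⁻¹ with ht
  have htpos : 0 < v.ord t := by
    have h1 : ¬ 0 ≤ v.ord x := mt (FF.mem_of_ord_nonneg v) hx
    rw [ht, v.ord_inv]
    omega
  have htK : t ∉ (algebraMap Kbar (FF N)).range := by
    rintro ⟨a, ha⟩
    rw [← ha, FF.ord_algebraMap] at htpos
    exact lt_irrefl _ htpos
  have htr : Transcendental Kbar t := FF.transcendental_of_not_mem_range htK
  have := finiteDimensional_jF N
  have : FiniteDimensional Kbar⟮t⟯ (FF N) :=
    FF.finiteDimensional_adjoin_of_transcendental (transcendental_jF N) htr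
  have hZ : {w : Place Kbar (FF N) | 0 < w.ord t}.Finite := FF.finite_setOf_ord_pos htr
  have hQ : ∀ w ∈ hZ.toFinset, M3OpenFixed
      (fun σ => arithmeticGalois (modularFunctionFieldFull N) σ • v = w → w = v) := by
    intro w _
    by_cases hwv : w = v
    · exact .of_forall fun σ _ => hwv
    · obtain ⟨g, hgv, hgw⟩ := M3_exists_mem_not_mem hwv
      refine (M3_elt_openFixed N g).mono fun σ hσ hσv => ?_
      exfalso
      apply hgw
      rw [← hσv, SemilinearAut.smul_toValuationSubring, ← hσ]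
      exact ValuationSubring.smul_mem_pointwise_smul _ g _ hgv
  refine ((M3_elt_openFixed N t).and (M3OpenFixed.finset _ hQ)).mono fun σ hσ => ?_
  obtain ⟨hσt, hσQ⟩ := hσ
  have hmem : arithmeticGalois (modularFunctionFieldFull N) σ • v ∈ hZ.toFinset := by
    rw [Set.Finite.mem_toFinset]
    show 0 < (arithmeticGalois (modularFunctionFieldFull N) σ • v).ord t
    have := SemilinearAut.ord_smul (arithmeticGalois (modularFunctionFieldFull N) σ) v t
    rw [hσt] at this
    rw [this]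
    exact htpos
  exact hσQ _ hmem rfl

/-- Every divisor of `ℚ̄(X₀(N))` is fixed by an open subgroup. -/
theorem M3_divisor_openFixed (D : Divisor Kbar (FF N)) :
    M3OpenFixed (fun σ => arithmeticGalois (modularFunctionFieldFull N) σ • D = D) := by
  refine (M3OpenFixed.finset D.support (fun v _ => M3_place_openFixed N v)).mono fun σ hσ => ?_
  rw [SemilinearAut.divisor_smul_def]
  conv_rhs => rw [← Finsupp.mapDomain_id (v := D)]
  exact Finsupp.mapDomain_congr fun v hv => hσ v hv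

/-- PIECE `M3`: the Galois action on `J₀(N)(ℚ̄)` is smooth. -/
theorem M3_jZero_smooth (x : JZero N) :
    ∃ L : IntermediateField ℚ (AlgebraicClosure ℚ), FiniteDimensional ℚ L ∧
      ∀ σ : GQ, (∀ y ∈ L, σ y = y) → σ • x = x := by
  obtain ⟨D, rfl⟩ := Pic0.mk_surjective x
  refine (M3_divisor_openFixed N (D : Divisor Kbar (FF N))).mono fun σ hσ => ?_
  rw [galois_smul_pic0_def, SemilinearAut.pic0_smul_mk]
  exact congrArg Pic0.mk (Subtype.ext (by rw [SemilinearAut.coe_degZeroSMulHom]; exact hσ))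

end Fermat.Agent.S29.H126

end
end
-- ===== PACK-END S29/H126/M3.lean

-- ===== PACK-BEGIN S29/M3.lean
section
/-
S29 row, PIECE `M3` (helper126): the Galois action on `J₀(N)(ℚ̄)` is smooth.
Statement exactly as in `SkeletonM.lean`; proof in `Fermat/Agent/S29/H126/M3.lean`.
-/



set_option autoImplicit false

noncomputable section

namespace Fermat.Agent.S29

open ModularCurve AlgebraicCurve

variable (N : ℕ) [NeZero N]

/-- PIECE `M3`: the Galois action on `J₀(N)(ℚ̄)` is smooth. -/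
theorem jZero_smooth (x : JZero N) :
    ∃ L : IntermediateField ℚ (AlgebraicClosure ℚ), FiniteDimensional ℚ L ∧
      ∀ σ : GQ, (∀ y ∈ L, σ y = y) → σ • x = x :=
  H126.M3_jZero_smooth N x

end Fermat.Agent.S29

end
end
-- ===== PACK-END S29/M3.lean

-- ===== PACK-BEGIN S30/H990/FromInputs.lean
section
/-
S30 top glue (helper990): the frozen statement S30 from the three open inputs of the adic module
layer of helper330: (K) Kummer map onto torsion, (P) eigen parabolic character, (T) torsion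
relations.  The inputs (Sm) and (GH) are discharged from main (S29 pieces M3 and M2).
-/





set_option autoImplicit false

namespace Fermat.Agent.S30.H990

open Polynomial

/-- Input (Sm) of the adic module layer holds (S29 piece M3, helper126). -/
theorem smoothStatement (N : ℕ) [NeZero N] : Fermat.Agent.S30.H330.SmoothStatement N :=
  fun x => Fermat.Agent.S29.jZero_smooth N x

/-- Input (GH) of the adic module layer holds (S29 piece M2, helper571). -/
theorem galoisHeckeStatement (N : ℕ) [NeZero N] :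
    Fermat.Agent.S30.H330.GaloisHeckeStatement N :=
  fun σ ℓ x => (Fermat.Agent.S29.H571.heckeOperatorBar_smul N ℓ σ x).symm

/-- **S30 from the inputs (K), (P), (T).** -/
theorem result_of_inputs
    (hK : ∀ (N : ℕ) [NeZero N] (p : ℕ) [Fact p.Prime],
      Fermat.Agent.S30.H330.KummerStatement N p)
    (hT : ∀ (N : ℕ) [NeZero N] (p : ℕ) [Fact p.Prime],
      Fermat.Agent.S30.H330.TorsionRelations N p)
    (hP : ∀ (p : ℕ) [Fact p.Prime] (N : ℕ) [NeZero N] (S : Finset ℕ)
      (_hpS : p ∈ S) (_hNS : ∀ q : ℕ, q.Prime → q ∣ N → q ∈ S)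
      (𝒪' : Type) [CommRing 𝒪'] [IsDomain 𝒪'] [IsDiscreteValuationRing 𝒪']
      [IsAdicComplete (IsLocalRing.maximalIdeal 𝒪') 𝒪'] [Finite (IsLocalRing.ResidueField 𝒪')]
      [CharZero 𝒪'] (_hp𝒪' : (p : 𝒪') ∈ IsLocalRing.maximalIdeal 𝒪')
      (χ : CuspForm.heckeAlgebra N 2 (↑S : Set ℕ) →+* 𝒪'),
      Fermat.Agent.S30.H330.ParEigenStatement N S 𝒪' χ) :
    ∀ (p : ℕ) [Fact p.Prime] (N : ℕ) [NeZero N] (S : Finset ℕ)
      (_hpS : p ∈ S) (_hNS : ∀ q : ℕ, q.Prime → q ∣ N → q ∈ S)
      (𝒪' : Type) [CommRing 𝒪'] [IsDomain 𝒪'] [IsDiscreteValuationRing 𝒪']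
      [IsAdicComplete (IsLocalRing.maximalIdeal 𝒪') 𝒪'] [Finite (IsLocalRing.ResidueField 𝒪')]
      [CharZero 𝒪'] (_hp𝒪' : (p : 𝒪') ∈ IsLocalRing.maximalIdeal 𝒪')
      (χ : CuspForm.heckeAlgebra N 2 (↑S : Set ℕ) →+* 𝒪'),
      ∃ (𝒪'' : Type) (_ : CommRing 𝒪'') (_ : IsDomain 𝒪'') (_ : IsDiscreteValuationRing 𝒪'')
        (_ : IsAdicComplete (IsLocalRing.maximalIdeal 𝒪'') 𝒪'')
        (_ : Finite (IsLocalRing.ResidueField 𝒪'')) (_ : CharZero 𝒪'')
        (_ : Algebra 𝒪' 𝒪'') (_ : Module.Finite 𝒪' 𝒪'') (_ : IsLocalHom (algebraMap 𝒪' 𝒪'')),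
      Function.Injective (algebraMap 𝒪' 𝒪'') ∧
      ∃ ρ : GaloisRepAdic 𝒪'',
        (∀ (ℓ : ℕ) (hℓ : ℓ.Prime) (hℓN : ¬ ℓ ∣ N) (hℓS : ℓ ∉ (↑S : Set ℕ)),
          ∀ A : ValuationSubring (AlgebraicClosure ℚ), A.LiesOverPrime ℓ →
            ∀ σ : AlgebraicClosure ℚ ≃ₐ[ℚ] AlgebraicClosure ℚ, A.IsFrobeniusAt σ ℓ →
              LinearMap.charpoly (ρ.ρ σ) =
                X ^ 2 - C (algebraMap 𝒪' 𝒪'' (χ (CuspForm.heckeAlgebra.T hℓ hℓN hℓS))) * X
                  + C ((ℓ : 𝒪''))) ∧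
        (∀ q : ℕ, q.Prime → ¬ q ∣ N → q ≠ p → ρ.IsUnramifiedAt q) :=
  result_of_hasAdicEigenModules (hasAdicEigenModules_of_H330
    (fun p _ N _ S hpS hNS 𝒪' _ _ _ _ _ _ hp𝒪' χ =>
      Fermat.Agent.S30.H330.hasAdicFrobModule_of_inputs hpS hNS hp𝒪' χ (hK N p)
        (hP p N S hpS hNS 𝒪' hp𝒪' χ) (hT N p) (smoothStatement N) (galoisHeckeStatement N)))

end Fermat.Agent.S30.H990

end
-- ===== PACK-END S30/H990/FromInputs.lean

-- ===== PACK-BEGIN S30/Fin/Count.lean
section
/-
S30 row, piece FIN (helper49): finiteness of the `m`-torsion of `J₀(N)(ℚ̄)` from the Kummer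
relation `IsKum` of `Fermat.Agent.S29.M4b.Defs`.

`finite_torsion_of` : if every `m`-torsion class is the Kummer class of SOME function
`c : Γ₀(N) → ℤ/m` (piece `ONTO`), and Kummer classes are unique (piece `K4-UNIQ` of S29/M4b), then
`J₀(N)(ℚ̄)[m]` is finite.  Reason: the character of a twisted function is additive, `Γ₀(N)` is
finitely generated, so there are only finitely many characters.
-/


set_option autoImplicit false

noncomputable section

open ModularCurve AlgebraicCurve CongruenceSubgroup UpperHalfPlane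
open scoped MatrixGroups Manifold

namespace Fermat.Agent.S30.Fin

open Fermat.Agent.S29 Fermat.Agent.S29.M4b

/-- `SL(2, ℤ)` is finitely generated. -/
theorem fin_fg_SL2Z : Group.FG SL(2, ℤ) :=
  Group.fg_iff.mpr ⟨{ModularGroup.S, ModularGroup.T}, SpecialLinearGroup.SL2Z_generators,
    Set.toFinite _⟩

/-- `Γ₀(N)` is finitely generated (Schreier). -/
theorem fin_fg_Gamma0 (N : ℕ) [NeZero N] : Group.FG (G0 N) := by
  have := fin_fg_SL2Z
  exact Subgroup.fg_of_index_ne_zero (Gamma0 N)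

theorem fin_zetaP_isPrimitiveRoot (m : ℕ) [NeZero m] : IsPrimitiveRoot (zetaP m) m :=
  Complex.isPrimitiveRoot_exp m (NeZero.ne m)

/-- `ζ_m ^ a = ζ_m ^ b` forces `a = b` in `ℤ/m`. -/
theorem fin_natCast_eq_of_zetaP_pow_eq (m : ℕ) [NeZero m] {a b : ℕ}
    (h : zetaP m ^ a = zetaP m ^ b) : (a : ZMod m) = (b : ZMod m) := by
  have hζ := fin_zetaP_isPrimitiveRoot m
  have hne : zetaP m ≠ 0 := hζ.ne_zero (NeZero.ne m)
  have key : ∀ a b : ℕ, a ≤ b → zetaP m ^ a = zetaP m ^ b → (a : ZMod m) = (b : ZMod m) := by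
    intro a b hab h
    obtain ⟨d, rfl⟩ := Nat.exists_eq_add_of_le hab
    rw [pow_add] at h
    have h1 : zetaP m ^ d = 1 := by
      have h2 : zetaP m ^ a * 1 = zetaP m ^ a * zetaP m ^ d := by rw [mul_one]; exact h
      exact (mul_left_cancel₀ (pow_ne_zero a hne) h2).symm
    have h3 : m ∣ d := (hζ.pow_eq_one_iff_dvd d).mp h1
    rw [Nat.cast_add, (ZMod.natCast_eq_zero_iff d m).mpr h3, add_zero]
  rcases le_total a b with hab | hab
  · exact key a b hab h
  · exact (key b a hab h.symm).symm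

/-- The character of a twisted function is additive. -/
theorem fin_isTwisted_map_mul {N m : ℕ} [NeZero m] {c : G0 N → ZMod m} {U : ℍ → ℂ}
    (h : IsTwisted N m c U) (γ γ' : G0 N) : c (γ * γ') = c γ + c γ' := by
  obtain ⟨τ₀, hτ₀⟩ := h.ne_zero
  have h1 := h.hasChar (γ * γ') τ₀
  have h2 := h.hasChar γ (((γ' : G0 N) : SL(2, ℤ)) • τ₀)
  have h3 := h.hasChar γ' τ₀
  have hsmul : (((γ * γ' : G0 N) : SL(2, ℤ))) • τ₀
      = ((γ : G0 N) : SL(2, ℤ)) • ((γ' : G0 N) : SL(2, ℤ)) • τ₀ := by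
    rw [← mul_smul]
    rfl
  rw [hsmul, h2, h3, ← mul_assoc, ← pow_add] at h1
  have h4 : zetaP m ^ ((c γ).val + (c γ').val) = zetaP m ^ (c (γ * γ')).val :=
    mul_right_cancel₀ hτ₀ h1
  have h5 := fin_natCast_eq_of_zetaP_pow_eq m h4
  rw [Nat.cast_add, ZMod.natCast_zmod_val, ZMod.natCast_zmod_val, ZMod.natCast_zmod_val] at h5
  exact h5.symm

/-- The character of a Kummer class is additive. -/
theorem fin_isKum_map_mul {N m : ℕ} [NeZero N] [NeZero m] {c : G0 N → ZMod m} {x : JZero N}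
    (h : IsKum N m c x) (γ γ' : G0 N) : c (γ * γ') = c γ + c γ' := by
  obtain ⟨f, t, U, -, -, hU, -⟩ := h
  exact fin_isTwisted_map_mul hU γ γ'

/-- **FIN from ONTO and UNIQ.** -/
theorem finite_torsion_of (N : ℕ) [NeZero N] (m : ℕ) [NeZero m]
    (hex : ∀ x : JZero N, (m : ℤ) • x = 0 → ∃ c : G0 N → ZMod m, IsKum N m c x)
    (huniq : ∀ (c : G0 N → ZMod m) (x x' : JZero N), IsKum N m c x → IsKum N m c x' → x = x') :
    {x : JZero N | (m : ℤ) • x = 0}.Finite := by
  classical
  obtain ⟨S, hS, hSfin⟩ := Group.fg_iff.mp (fin_fg_Gamma0 N)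
  have : Finite S := hSfin.to_subtype
  choose! c hc using hex
  -- the character of `x` as a monoid homomorphism
  have hone : ∀ x : JZero N, (m : ℤ) • x = 0 → c x 1 = 0 := by
    intro x hx
    have h := fin_isKum_map_mul (hc x hx) 1 1
    rw [mul_one] at h
    exact left_eq_add.mp h
  let φ : {x : JZero N // (m : ℤ) • x = 0} → (S → ZMod m) := fun x s => c x.1 s.1
  have hinj : Function.Injective φ := by
    rintro ⟨x, hx⟩ ⟨x', hx'⟩ h
    let f : G0 N →* Multiplicative (ZMod m) :=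
      { toFun := fun γ => Multiplicative.ofAdd (c x γ)
        map_one' := by
          show Multiplicative.ofAdd (c x 1) = 1
          rw [hone x hx]; rfl
        map_mul' := fun γ γ' => by
          show Multiplicative.ofAdd (c x (γ * γ')) = _
          rw [fin_isKum_map_mul (hc x hx) γ γ']; rfl }
    let f' : G0 N →* Multiplicative (ZMod m) :=
      { toFun := fun γ => Multiplicative.ofAdd (c x' γ)
        map_one' := by
          show Multiplicative.ofAdd (c x' 1) = 1
          rw [hone x' hx']; rfl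
        map_mul' := fun γ γ' => by
          show Multiplicative.ofAdd (c x' (γ * γ')) = _
          rw [fin_isKum_map_mul (hc x' hx') γ γ']; rfl }
    have hff' : f = f' := by
      refine MonoidHom.eq_of_eqOn_dense hS ?_
      intro s hs
      show Multiplicative.ofAdd (c x s) = Multiplicative.ofAdd (c x' s)
      have := congrFun h ⟨s, hs⟩
      exact congrArg Multiplicative.ofAdd this
    have hcc : c x = c x' := by
      funext γ
      have := DFunLike.congr_fun hff' γ
      exact Multiplicative.ofAdd.injective this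
    apply Subtype.ext
    have h1 := hc x hx
    rw [hcc] at h1
    exact huniq (c x') x x' h1 (hc x' hx')
  have hfin : Finite {x : JZero N // (m : ℤ) • x = 0} := Finite.of_injective φ hinj
  exact Set.finite_coe_iff.mp hfin

end Fermat.Agent.S30.Fin

end
end
-- ===== PACK-END S30/Fin/Count.lean

-- ===== PACK-BEGIN S30/H330/AdicFinal.lean
section
/-
S30 -- the frozen statement S30 from the OPEN PIECES (helper330).

Chain:  pieces of S29 sub-layer M4b at the moduli `p ^ n` (`H450.KumPackage N (p ^ n)`)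
        + piece ONTO at the modulus `p` (every `p`-torsion class is a Kummer class)
        + (T) torsion relations (rows S37/S18)
   ⟹  (K') + (F) + (T)                         [`KumQZ.lean`, `Fin/Count.lean`]
   ⟹  `HasAdicFrobModule`                       [`AdicInputs.lean`; (P) = helper709, (Sm) = S29 M3,
                                                   (GH) = helper571]
   ⟹  `H990.HasAdicEigenModules` ⟹ frozen S30   [top glue of helper990].

* `result_of_inj`      : S30 from (K'), (F), (T);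
* `result_of_packages` : S30 from the Kummer packages, ONTO and (T).
-/





set_option autoImplicit false
set_option linter.overlappingInstances false

noncomputable section

namespace Fermat.Agent.S30.H330

open Fermat.Agent.S29 Fermat.Agent.S29.M4b ModularCurve Fermat.Agent.S30.H450 Polynomial

/-- Input (P) of the adic module layer holds (helper709, unconditional). -/
theorem parEigenStatement {N : ℕ} [NeZero N] {S : Finset ℕ}
    (hNS : ∀ q : ℕ, q.Prime → q ∣ N → q ∈ S) {O : Type} [CommRing O] [IsDomain O]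
    (χ : CuspForm.heckeAlgebra N 2 (↑S : Set ℕ) →+* O) : ParEigenStatement N S O χ :=
  Fermat.Agent.S30.H709.exists_parEigen
    (fun q hq hqN => Finset.mem_coe.mpr (hNS q hq hqN)) χ

/-- Input (F) from ONTO and UNIQ at the modulus `p`. -/
theorem finStatement_of_onto {N : ℕ} [NeZero N] {p : ℕ} [NeZero p]
    (huniq : ∀ (c : G0 N → ZMod p) (x x' : JZero N), IsKum N p c x → IsKum N p c x' → x = x')
    (honto : ∀ x : JZero N, (p : ℤ) • x = 0 → ∃ c : G0 N → ZMod p, IsKum N p c x) :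
    FinStatement N p := by
  have h := Fermat.Agent.S30.Fin.finite_torsion_of N p honto huniq
  refine h.subset ?_
  intro x hx
  show (p : ℤ) • x = 0
  rw [natCast_zsmul]
  exact hx

/-- The Kummer package at the modulus `p` from the tower. -/
theorem kumPackage_one {N : ℕ} [NeZero N] {p : ℕ} (H : ∀ n, KumPackage N (p ^ n)) :
    KumPackage N p := by
  have := H 1
  rwa [pow_one] at this

/-- **S30 from (K'), (F), (T).** -/
theorem result_of_inj
    (hK : ∀ (N : ℕ) [NeZero N] (p : ℕ) [Fact p.Prime], KummerInjStatement N p)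
    (hF : ∀ (N : ℕ) [NeZero N] (p : ℕ) [Fact p.Prime], FinStatement N p)
    (hT : ∀ (N : ℕ) [NeZero N] (p : ℕ) [Fact p.Prime], TorsionRelations N p) :
    ∀ (p : ℕ) [Fact p.Prime] (N : ℕ) [NeZero N] (S : Finset ℕ)
      (_hpS : p ∈ S) (_hNS : ∀ q : ℕ, q.Prime → q ∣ N → q ∈ S)
      (𝒪' : Type) [CommRing 𝒪'] [IsDomain 𝒪'] [IsDiscreteValuationRing 𝒪']
      [IsAdicComplete (IsLocalRing.maximalIdeal 𝒪') 𝒪'] [Finite (IsLocalRing.ResidueField 𝒪')]
      [CharZero 𝒪'] (_hp𝒪' : (p : 𝒪') ∈ IsLocalRing.maximalIdeal 𝒪')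
      (χ : CuspForm.heckeAlgebra N 2 (↑S : Set ℕ) →+* 𝒪'),
      ∃ (𝒪'' : Type) (_ : CommRing 𝒪'') (_ : IsDomain 𝒪'') (_ : IsDiscreteValuationRing 𝒪'')
        (_ : IsAdicComplete (IsLocalRing.maximalIdeal 𝒪'') 𝒪'')
        (_ : Finite (IsLocalRing.ResidueField 𝒪'')) (_ : CharZero 𝒪'')
        (_ : Algebra 𝒪' 𝒪'') (_ : Module.Finite 𝒪' 𝒪'') (_ : IsLocalHom (algebraMap 𝒪' 𝒪'')),
      Function.Injective (algebraMap 𝒪' 𝒪'') ∧
      ∃ ρ : GaloisRepAdic 𝒪'',
        (∀ (ℓ : ℕ) (hℓ : ℓ.Prime) (hℓN : ¬ ℓ ∣ N) (hℓS : ℓ ∉ (↑S : Set ℕ)),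
          ∀ A : ValuationSubring (AlgebraicClosure ℚ), A.LiesOverPrime ℓ →
            ∀ σ : AlgebraicClosure ℚ ≃ₐ[ℚ] AlgebraicClosure ℚ, A.IsFrobeniusAt σ ℓ →
              LinearMap.charpoly (ρ.ρ σ) =
                X ^ 2 - C (algebraMap 𝒪' 𝒪'' (χ (CuspForm.heckeAlgebra.T hℓ hℓN hℓS))) * X
                  + C ((ℓ : 𝒪''))) ∧
        (∀ q : ℕ, q.Prime → ¬ q ∣ N → q ≠ p → ρ.IsUnramifiedAt q) :=
  Fermat.Agent.S30.H990.result_of_hasAdicEigenModules
    (Fermat.Agent.S30.H990.hasAdicEigenModules_of_H330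
      (fun p _ N _ _ hpS hNS _ _ _ _ _ _ _ hp𝒪' χ =>
        hasAdicFrobModule_of_inj hpS hNS hp𝒪' χ (hK N p) (hF N p) (parEigenStatement hNS χ)
          (hT N p) (Fermat.Agent.S30.H990.smoothStatement N)
          (Fermat.Agent.S30.H990.galoisHeckeStatement N)))

/-- **S30 from the open pieces**: the Kummer packages at the moduli `p ^ n` (the seven pieces of
S29 sub-layer M4b, see `H450.KumPackage.of_skeleton`), piece ONTO at the modulus `p`, and the
torsion relations (T). -/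
theorem result_of_packages
    (hpk : ∀ (N : ℕ) [NeZero N] (p : ℕ) [Fact p.Prime] (n : ℕ), KumPackage N (p ^ n))
    (honto : ∀ (N : ℕ) [NeZero N] (p : ℕ) [Fact p.Prime] (x : JZero N), (p : ℤ) • x = 0 →
      ∃ c : G0 N → ZMod p, IsKum N p c x)
    (hT : ∀ (N : ℕ) [NeZero N] (p : ℕ) [Fact p.Prime], TorsionRelations N p) :
    ∀ (p : ℕ) [Fact p.Prime] (N : ℕ) [NeZero N] (S : Finset ℕ)
      (_hpS : p ∈ S) (_hNS : ∀ q : ℕ, q.Prime → q ∣ N → q ∈ S)
      (𝒪' : Type) [CommRing 𝒪'] [IsDomain 𝒪'] [IsDiscreteValuationRing 𝒪']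
      [IsAdicComplete (IsLocalRing.maximalIdeal 𝒪') 𝒪'] [Finite (IsLocalRing.ResidueField 𝒪')]
      [CharZero 𝒪'] (_hp𝒪' : (p : 𝒪') ∈ IsLocalRing.maximalIdeal 𝒪')
      (χ : CuspForm.heckeAlgebra N 2 (↑S : Set ℕ) →+* 𝒪'),
      ∃ (𝒪'' : Type) (_ : CommRing 𝒪'') (_ : IsDomain 𝒪'') (_ : IsDiscreteValuationRing 𝒪'')
        (_ : IsAdicComplete (IsLocalRing.maximalIdeal 𝒪'') 𝒪'')
        (_ : Finite (IsLocalRing.ResidueField 𝒪'')) (_ : CharZero 𝒪'')
        (_ : Algebra 𝒪' 𝒪'') (_ : Module.Finite 𝒪' 𝒪'') (_ : IsLocalHom (algebraMap 𝒪' 𝒪'')),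
      Function.Injective (algebraMap 𝒪' 𝒪'') ∧
      ∃ ρ : GaloisRepAdic 𝒪'',
        (∀ (ℓ : ℕ) (hℓ : ℓ.Prime) (hℓN : ¬ ℓ ∣ N) (hℓS : ℓ ∉ (↑S : Set ℕ)),
          ∀ A : ValuationSubring (AlgebraicClosure ℚ), A.LiesOverPrime ℓ →
            ∀ σ : AlgebraicClosure ℚ ≃ₐ[ℚ] AlgebraicClosure ℚ, A.IsFrobeniusAt σ ℓ →
              LinearMap.charpoly (ρ.ρ σ) =
                X ^ 2 - C (algebraMap 𝒪' 𝒪'' (χ (CuspForm.heckeAlgebra.T hℓ hℓN hℓS))) * X
                  + C ((ℓ : 𝒪''))) ∧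
        (∀ q : ℕ, q.Prime → ¬ q ∣ N → q ≠ p → ρ.IsUnramifiedAt q) :=
  result_of_inj
    (fun N _ p hp =>
      haveI : NeZero p := ⟨hp.out.ne_zero⟩
      kummerInjStatement_of_packages (fun n => hpk N p n))
    (fun N _ p hp =>
      haveI : NeZero p := ⟨hp.out.ne_zero⟩
      finStatement_of_onto (kumPackage_one (fun n => hpk N p n)).uniq (honto N p))
    hT

end Fermat.Agent.S30.H330

end
end
-- ===== PACK-END S30/H330/AdicFinal.lean

-- ===== PACK-BEGIN S37/H98/RawES.lean
section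





/-!
# S37 → S29 export (helper98): the raw Eichler–Shimura statement on torsion

Row S29 (helper269) consumes from rows S37/S18 exactly `Fermat.Agent.S29.RawESStatement`
(`Fermat/Agent/S29/Parts.lean`): for `ℓ ∤ N p`, `A` over `ℓ`, inertia at `A` fixes the
`p`-torsion of `JZero N` and every Frobenius `σ` at `A` satisfies
`σ² x - T_ℓ (σ x) + ℓ x = 0` on it.  This file derives it formally

* `rawES_of_redData`  : from reduction data `H99.RedData N A ℓ hℓ` for all `ℓ ∤ N`, `A`;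
* `rawES_of_pieces`   : from the two remaining pieces of the S37 row plan
  (`Core.result_of_pieces`): [S18] `Core.InjTorsionModL` and [PR] `Core.PlaceRed`
  ([HIA] is on main: `Lib.FF398.heckeInputsAlong`).

No Hecke-module structure, no `HeckeOperatorsCommuteBar`.  The pointwise versions
`rawES_at_of_redData`, `rawES_at_of_placeRed` hold for every `m` prime to `ℓ` (not only primes).
-/

set_option autoImplicit false
set_option synthInstance.maxHeartbeats 400000

noncomputable section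

namespace Fermat.Agent.S37.H98

open ModularCurve ValuationSubring AlgebraicCurve

section Abstract

variable {G J : Type*} [Group G] [AddCommGroup J] [DistribMulAction G J]

/-- Abstract core, inertia part: a map killing `τ x - x` and injective on `m`-torsion. -/
theorem smul_eq_of_red {Y : Type*} [AddCommGroup Y] (red : J →+ Y) {m : ℕ}
    (hinj : ∀ x : J, m • x = 0 → red x = 0 → x = 0) (τ : G)
    (hτ : ∀ x : J, red (τ • x) = red x) {x : J} (hx : (m : ℤ) • x = 0) :
    τ • x = x := by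
  have h1 : (m : ℤ) • (τ • x - x) = 0 := by
    rw [zsmul_sub, ← smul_comm τ (m : ℤ) x, hx, smul_zero, sub_zero]
  rw [natCast_zsmul] at h1
  have h2 : red (τ • x - x) = 0 := by rw [map_sub, hτ x, sub_self]
  exact sub_eq_zero.mp (hinj _ h1 h2)

/-- Abstract core, Frobenius part (`T` any additive endomorphism). -/
theorem relation_eq_zero_of_red {Y : Type*} [AddCommGroup Y] (red : J →+ Y) {m : ℕ}
    (hinj : ∀ x : J, m • x = 0 → red x = 0 → x = 0) (σ : G) (T : J →+ J) (ℓ : ℕ)
    (hσ : ∀ x : J, red (σ • σ • x - T (σ • x) + ℓ • x) = 0)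
    {x : J} (hx : (m : ℤ) • x = 0) :
    σ • σ • x - T (σ • x) + (ℓ : ℤ) • x = 0 := by
  rw [natCast_zsmul]
  refine hinj _ ?_ (hσ x)
  have h0 : (m : ℤ) • (σ • x) = 0 := by
    rw [← smul_comm σ (m : ℤ) x, hx, smul_zero]
  have h1 : (m : ℤ) • (σ • σ • x) = 0 := by
    rw [← smul_comm σ (m : ℤ) (σ • x), h0, smul_zero]
  have h2 : (m : ℤ) • T (σ • x) = 0 := by
    rw [← map_zsmul, h0, map_zero]
  have h3 : (m : ℤ) • (ℓ • x) = 0 := by
    rw [← natCast_zsmul x ℓ, smul_comm, hx, smul_zero]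
  have h4 : (m : ℤ) • (σ • σ • x - T (σ • x) + ℓ • x) = 0 := by
    rw [zsmul_add, zsmul_sub, h1, h2, h3, sub_zero, add_zero]
  rwa [natCast_zsmul] at h4

end Abstract

/-- Raw Eichler–Shimura at `(ℓ, A)` on `m`-torsion (`m` prime to `ℓ`), from reduction data. -/
theorem rawES_at_of_redData {N : ℕ} [NeZero N] {A : ValuationSubring (AlgebraicClosure ℚ)}
    {ℓ : ℕ} {hℓ : ℓ.Prime} (D : Fermat.Agent.S37.H99.RedData N A ℓ hℓ) (m : ℕ)
    (hm : m.Coprime ℓ) :
    (∀ σ ∈ A.inertiaSubgroupIn ℚ, ∀ x : JZero N, (m : ℤ) • x = 0 → σ • x = x) ∧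
    (∀ σ : AlgebraicClosure ℚ ≃ₐ[ℚ] AlgebraicClosure ℚ, A.IsFrobeniusAt σ ℓ →
      ∀ x : JZero N, (m : ℤ) • x = 0 →
        σ • σ • x - heckeOperatorBar N ⟨ℓ, hℓ⟩ (σ • x) + (ℓ : ℤ) • x = 0) := by
  have hinj : ∀ x : JZero N, m • x = 0 → D.red x = 0 → x = 0 :=
    fun x hx h0 => D.inj_torsion m x hm hx h0
  exact ⟨fun τ hτ x hx => smul_eq_of_red D.red hinj τ (D.inertia τ hτ) hx,
    fun σ hσ x hx => relation_eq_zero_of_red D.red hinj σ
      (heckeOperatorBar N ⟨ℓ, hℓ⟩).toAddMonoidHom ℓ (D.relation σ hσ) hx⟩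

/-- **`RawESStatement` from reduction data** (`H99.RedData` for all `ℓ ∤ N` and all `A`). -/
theorem rawES_of_redData
    (H : ∀ (N : ℕ) [NeZero N] (ℓ : ℕ) (hℓ : ℓ.Prime), ¬ ℓ ∣ N →
      ∀ A : ValuationSubring (AlgebraicClosure ℚ), A.LiesOverPrime ℓ →
        Nonempty (Fermat.Agent.S37.H99.RedData N A ℓ hℓ)) :
    Fermat.Agent.S29.RawESStatement := by
  intro N p _ hp ℓ hℓ hdvd A hA
  have hℓN : ¬ ℓ ∣ N := fun h => hdvd (Dvd.dvd.mul_right h p)
  have hℓp : ¬ ℓ ∣ p := fun h => hdvd (Dvd.dvd.mul_left h N)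
  obtain ⟨D⟩ := H N ℓ hℓ hℓN A hA
  exact rawES_at_of_redData D p
    (Nat.coprime_comm.mp ((Nat.Prime.coprime_iff_not_dvd hℓ).mpr hℓp))

open Fermat.Agent.S37.Core in
/-- Raw Eichler–Shimura for ONE Frobenius `σ₀` at `(ℓ, A)` on `m`-torsion (`ℓ ∤ m`), from a
`Core.PlaceRed` and the conclusion of S18. -/
theorem rawES_at_of_placeRed {N : ℕ} [NeZero N] {A : ValuationSubring (AlgebraicClosure ℚ)}
    {ℓ : ℕ} (hℓ : ℓ.Prime) {σ₀ : AlgebraicClosure ℚ ≃ₐ[ℚ] AlgebraicClosure ℚ}
    (D : haveI : NeZero ℓ := ⟨hℓ.ne_zero⟩; PlaceRed N A ℓ σ₀)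
    (hS18 : InjTorsionModL N ℓ A) (m : ℕ) (hm : ¬ ℓ ∣ m) :
    (∀ σ ∈ A.inertiaSubgroupIn ℚ, ∀ x : JZero N, (m : ℤ) • x = 0 → σ • x = x) ∧
    (∀ x : JZero N, (m : ℤ) • x = 0 →
        σ₀ • σ₀ • x - heckeOperatorBar N ⟨ℓ, hℓ⟩ (σ₀ • x) + (ℓ : ℤ) • x = 0) := by
  have : NeZero ℓ := ⟨hℓ.ne_zero⟩
  have hinj : ∀ x : JZero N, m • x = 0 → D.red x = 0 → x = 0 :=
    fun x hx h0 => D.red_inj_torsion hS18 hm hx h0
  exact ⟨fun τ hτ x hx => smul_eq_of_red D.red hinj τ (fun y => D.red_inertia hτ y) hx,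
    fun x hx => relation_eq_zero_of_red D.red hinj σ₀
      (heckeOperatorBar N ⟨ℓ, hℓ⟩).toAddMonoidHom ℓ
      (fun y => D.red_relation (Fermat.Agent.Lib.FF398.heckeInputsAlong N ℓ) y) hx⟩

open Fermat.Agent.S37.Core in
/-- **`RawESStatement` from the two open pieces of the S37 row plan**: [S18] and [PR]. -/
theorem rawES_of_pieces
    (hS18 : ∀ (N : ℕ) [NeZero N] (ℓ : ℕ), ℓ.Prime → ¬ ℓ ∣ N →
      ∀ A : ValuationSubring (AlgebraicClosure ℚ), A.LiesOverPrime ℓ → InjTorsionModL N ℓ A)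
    (hPR : ∀ (N : ℕ) [NeZero N] (ℓ : ℕ) (hℓ : ℓ.Prime), ¬ ℓ ∣ N →
      ∀ A : ValuationSubring (AlgebraicClosure ℚ), A.LiesOverPrime ℓ →
        ∀ σ₀ : AlgebraicClosure ℚ ≃ₐ[ℚ] AlgebraicClosure ℚ, A.IsFrobeniusAt σ₀ ℓ →
          haveI : NeZero ℓ := ⟨hℓ.ne_zero⟩; Nonempty (PlaceRed N A ℓ σ₀)) :
    Fermat.Agent.S29.RawESStatement := by
  intro N p _ hp ℓ hℓ hdvd A hA
  have hℓN : ¬ ℓ ∣ N := fun h => hdvd (Dvd.dvd.mul_right h p)
  have hℓp : ¬ ℓ ∣ p := fun h => hdvd (Dvd.dvd.mul_left h N)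
  refine ⟨?_, fun σ hσ x hx => ?_⟩
  · obtain ⟨σ₀, hσ₀⟩ := Fermat.Agent.S37.H99.exists_isFrobeniusAt ℓ hℓ A hA
    obtain ⟨D⟩ := hPR N ℓ hℓ hℓN A hA σ₀ hσ₀
    exact (rawES_at_of_placeRed hℓ D (hS18 N ℓ hℓ hℓN A hA) p hℓp).1
  · obtain ⟨D⟩ := hPR N ℓ hℓ hℓN A hA σ hσ
    exact (rawES_at_of_placeRed hℓ D (hS18 N ℓ hℓ hℓN A hA) p hℓp).2 x hx

end Fermat.Agent.S37.H98

end
end
-- ===== PACK-END S37/H98/RawES.lean

-- ===== PACK-BEGIN S37/Core/Final.lean
section


/-!
# S37 row (helper37): the FINAL interface `WeakRedData`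

`WeakRedData M A ℓ σ₀` : an additive map `red : J₀(M) →+ Y` (any target) with
* `inertia`     : `red (τ • x) = red x` for `τ` in the inertia group at `A`,
* `inj_torsion` : `red` is injective on torsion of order prime to `ℓ`,
* `relation`    : `red (σ₀² x - T_ℓ σ₀ x + ℓ x) = 0` for the ONE Frobenius element `σ₀`,
  where `T_ℓ = heckeOperatorAlong ℚ̄ M ℓ` is the Prelude operator (no `HeckeInputsAlong` needed
  here: it is needed by whoever proves `relation`).

`result_of_weakRedData` : the frozen statement S37 at level `N` from a `WeakRedData` at some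
level `M` and a `PullData N M ℓ` (`M = N`, `PullData.refl` for `ℓ ≥ 5`).
Fully proved.
-/

set_option autoImplicit false
set_option synthInstance.maxHeartbeats 400000

noncomputable section

namespace Fermat.Agent.S37.Core

open ModularCurve ValuationSubring AlgebraicCurve HahnSeries Fermat.Agent.S37.H99

/-- The final interface of the geometric part of S37. -/
structure WeakRedData (M : ℕ) [NeZero M] (A : ValuationSubring (AlgebraicClosure ℚ)) (ℓ : ℕ)
    [NeZero ℓ] (σ₀ : AlgebraicClosure ℚ ≃ₐ[ℚ] AlgebraicClosure ℚ) : Type 1 where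
  /-- the target group -/
  Y : Type
  /-- additive group structure on the target -/
  instY : AddCommGroup Y
  /-- the reduction map -/
  red : JZero M →+ Y
  inertia : ∀ τ ∈ A.inertiaSubgroupIn ℚ, ∀ x : JZero M, red (τ • x) = red x
  inj_torsion : ∀ (m : ℕ), ¬ ℓ ∣ m → ∀ x : JZero M, m • x = 0 → red x = 0 → x = 0
  relation : ∀ x : JZero M,
    red (σ₀ • σ₀ • x - heckeOperatorAlong (AlgebraicClosure ℚ) M ℓ (σ₀ • x) + ℓ • x) = 0

attribute [instance] WeakRedData.instY

/-- a `PlaceRed` gives a `WeakRedData` (pointwise route) -/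
def PlaceRed.toWeakRedData {M : ℕ} [NeZero M] {A : ValuationSubring (AlgebraicClosure ℚ)}
    {ℓ : ℕ} [NeZero ℓ] {σ₀ : AlgebraicClosure ℚ ≃ₐ[ℚ] AlgebraicClosure ℚ}
    (D : PlaceRed M A ℓ σ₀) (HIA : HeckeInputsAlong (AlgebraicClosure ℚ) M ℓ)
    (hS18 : InjTorsionModL M ℓ A) : WeakRedData M A ℓ σ₀ where
  Y := JZeroC (IsLocalRing.ResidueField A) M
  instY := inferInstance
  red := D.red
  inertia τ hτ x := D.red_inertia hτ x
  inj_torsion _ hm _ hx h0 := D.red_inj_torsion hS18 hm hx h0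
  relation x := D.red_relation HIA x

/-- **S37 at one place from a `WeakRedData` at level `M` and a `PullData N M ℓ`.** -/
theorem isWeakRed_of_weakRedData (N M p : ℕ) [NeZero N] [NeZero M]
    (hcomm : HeckeOperatorsCommuteBar N)
    (A : ValuationSubring (AlgebraicClosure ℚ)) (ℓ : ℕ) (hℓ : ℓ.Prime) (hℓp : ¬ ℓ ∣ p)
    (σ₀ : AlgebraicClosure ℚ ≃ₐ[ℚ] AlgebraicClosure ℚ) (hσ₀ : A.IsFrobeniusAt σ₀ ℓ)
    (W : haveI : NeZero ℓ := ⟨hℓ.ne_zero⟩; WeakRedData M A ℓ σ₀)
    (Pd : haveI : NeZero ℓ := ⟨hℓ.ne_zero⟩; PullData N M ℓ) :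
    letI := heckeModuleBar N
    ∀ (_ : SMulCommClass (AlgebraicClosure ℚ ≃ₐ[ℚ] AlgebraicClosure ℚ) HeckeAlg (JZero N)),
      IsWeakRed (K := ℚ) p (JZero N) A ℓ hℓ σ₀
        (haveI : NeZero ℓ := ⟨hℓ.ne_zero⟩; W.red.comp Pd.pull) := by
  letI := heckeModuleBar N
  haveI : NeZero ℓ := ⟨hℓ.ne_zero⟩
  intro _
  refine ⟨hσ₀, ?_, ?_, ?_⟩
  · intro τ hτ x
    show W.red (Pd.pull (τ • x)) = W.red (Pd.pull x)
    rw [Pd.galois, W.inertia τ hτ]
  · rintro x ⟨n, hn⟩ hx
    have hℓpn : ¬ ℓ ∣ p ^ n := fun h => hℓp (hℓ.dvd_of_dvd_pow h)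
    refine Pd.inj_torsion (p ^ n) hℓpn x hn ?_
    refine W.inj_torsion (p ^ n) hℓpn _ ?_ hx
    rw [← map_nsmul, hn, map_zero]
  · intro x
    rw [heckeModuleBar_heckeGen_smul hcomm ⟨ℓ, hℓ⟩ (σ₀ • x)]
    show W.red (Pd.pull (σ₀ • σ₀ • x - heckeOperatorAlong (AlgebraicClosure ℚ) N ℓ (σ₀ • x)
      + ℓ • x)) = 0
    rw [map_add, map_sub, map_nsmul, Pd.galois, Pd.galois, Pd.hecke, Pd.galois]
    exact W.relation (Pd.pull x)

/-- **S37 from `WeakRedData` at auxiliary levels.**  THE final glue of the row. -/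
theorem result_of_weakRedData (N p : ℕ) [NeZero N]
    (H : ∀ (ℓ : ℕ) (hℓ : ℓ.Prime), ¬ ℓ ∣ N →
      ∀ A : ValuationSubring (AlgebraicClosure ℚ), A.LiesOverPrime ℓ →
        ∀ σ₀ : AlgebraicClosure ℚ ≃ₐ[ℚ] AlgebraicClosure ℚ, A.IsFrobeniusAt σ₀ ℓ →
          haveI : NeZero ℓ := ⟨hℓ.ne_zero⟩
          ∃ (M : ℕ) (_ : NeZero M), Nonempty (WeakRedData M A ℓ σ₀) ∧ Nonempty (PullData N M ℓ))
    (hcomm : ModularCurve.HeckeOperatorsCommuteBar N) :
    letI := ModularCurve.heckeModuleBar N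
    ∀ (_ : SMulCommClass (AlgebraicClosure ℚ ≃ₐ[ℚ] AlgebraicClosure ℚ) ModularCurve.HeckeAlg
      (ModularCurve.JZero N)),
      ModularCurve.SpecializationExists (K := ℚ) (L := AlgebraicClosure ℚ) N p
        (ModularCurve.JZero N) := by
  letI := ModularCurve.heckeModuleBar N
  intro inst ℓ hℓ hdvd A hA
  have hℓN : ¬ ℓ ∣ N := fun h => hdvd (Dvd.dvd.mul_right h p)
  have hℓp : ¬ ℓ ∣ p := fun h => hdvd (Dvd.dvd.mul_left h N)
  obtain ⟨σ₀, hσ₀⟩ := exists_isFrobeniusAt ℓ hℓ A hA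
  haveI : NeZero ℓ := ⟨hℓ.ne_zero⟩
  obtain ⟨M, hM, ⟨W⟩, ⟨Pd⟩⟩ := H ℓ hℓ hℓN A hA σ₀ hσ₀
  exact exists_specialization_of_isWeakRed p A ℓ hℓ σ₀ (W.red.comp Pd.pull)
    (isWeakRed_of_weakRedData N M p hcomm A ℓ hℓ hℓp σ₀ hσ₀ W Pd inst)

end Fermat.Agent.S37.Core

end
end
-- ===== PACK-END S37/Core/Final.lean

-- ===== PACK-BEGIN S37/H999/RawES.lean
section



/-!
# S37 → S29 bridge (helper999): the RAW Eichler–Shimura statement

`Fermat.Agent.S29.RawESStatement` (the only input the rows S29/S30/S42 take from the rows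
S37/S18) follows from the FINAL interface of the S37 row, i.e. from exactly the hypothesis `H` of
`Fermat.Agent.S37.Core.result_of_weakRedData` (for all levels `N`).  No Hecke-module structure,
no `HeckeOperatorsCommuteBar`, no `SMulCommClass` is needed.

* `rawES_at` : the statement at one `(N, p, ℓ, A)`;
* `rawES_of_weakRedData` : `RawESStatement`.

Fully proved.
-/

set_option autoImplicit false
set_option synthInstance.maxHeartbeats 400000

noncomputable section

namespace Fermat.Agent.S37.H999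

open ModularCurve ValuationSubring AlgebraicCurve Fermat.Agent.S37.Core Fermat.Agent.S37.H99

/-- additive maps preserve `m`-torsion -/
theorem nsmul_map_eq_zero {G H : Type*} [AddCommGroup G] [AddCommGroup H] (f : G →+ H) {m : ℕ}
    {x : G} (hx : m • x = 0) : m • f x = 0 := by
  rw [← map_nsmul, hx, map_zero]

/-- the composite reduction map kills nothing on prime-to-`ℓ` torsion -/
theorem eq_zero_of_red_pull_eq_zero {N M : ℕ} [NeZero N] [NeZero M]
    {A : ValuationSubring (AlgebraicClosure ℚ)} {ℓ : ℕ} [NeZero ℓ]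
    {σ₀ : AlgebraicClosure ℚ ≃ₐ[ℚ] AlgebraicClosure ℚ}
    (W : WeakRedData M A ℓ σ₀) (Pd : PullData N M ℓ) {m : ℕ} (hm : ¬ ℓ ∣ m)
    {z : JZero N} (hz : m • z = 0) (h0 : W.red (Pd.pull z) = 0) : z = 0 := by
  refine Pd.inj_torsion m hm z hz ?_
  refine W.inj_torsion m hm _ ?_ h0
  rw [← map_nsmul, hz, map_zero]

/-- inertia acts trivially on prime-to-`ℓ` torsion -/
theorem inertia_smul_eq_of_weakRedData {N M : ℕ} [NeZero N] [NeZero M]
    {A : ValuationSubring (AlgebraicClosure ℚ)} {ℓ : ℕ} [NeZero ℓ]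
    {σ₀ : AlgebraicClosure ℚ ≃ₐ[ℚ] AlgebraicClosure ℚ}
    (W : WeakRedData M A ℓ σ₀) (Pd : PullData N M ℓ) {m : ℕ} (hm : ¬ ℓ ∣ m)
    {τ : AlgebraicClosure ℚ ≃ₐ[ℚ] AlgebraicClosure ℚ} (hτ : τ ∈ A.inertiaSubgroupIn ℚ)
    {x : JZero N} (hx : m • x = 0) : τ • x = x := by
  have hz : m • (τ • x - x) = 0 := by
    have h := nsmul_map_eq_zero (DistribSMul.toAddMonoidHom (JZero N) τ - AddMonoidHom.id _) hx
    exact h
  have h0 : W.red (Pd.pull (τ • x - x)) = 0 := by
    rw [map_sub, map_sub, Pd.galois, W.inertia τ hτ, sub_self]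
  exact sub_eq_zero.mp (eq_zero_of_red_pull_eq_zero W Pd hm hz h0)

/-- the Eichler–Shimura relation on prime-to-`ℓ` torsion, for the Frobenius element `σ₀` -/
theorem frobenius_relation_of_weakRedData {N M : ℕ} [NeZero N] [NeZero M]
    {A : ValuationSubring (AlgebraicClosure ℚ)} {ℓ : ℕ} [NeZero ℓ]
    {σ₀ : AlgebraicClosure ℚ ≃ₐ[ℚ] AlgebraicClosure ℚ}
    (W : WeakRedData M A ℓ σ₀) (Pd : PullData N M ℓ) {m : ℕ} (hm : ¬ ℓ ∣ m)
    {x : JZero N} (hx : m • x = 0) :
    σ₀ • σ₀ • x - heckeOperatorAlong (AlgebraicClosure ℚ) N ℓ (σ₀ • x) + ℓ • x = 0 := by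
  refine eq_zero_of_red_pull_eq_zero W Pd hm ?_ ?_
  · have h := nsmul_map_eq_zero
      ((DistribSMul.toAddMonoidHom (JZero N) σ₀).comp (DistribSMul.toAddMonoidHom (JZero N) σ₀) -
        (heckeOperatorAlong (AlgebraicClosure ℚ) N ℓ).comp
          (DistribSMul.toAddMonoidHom (JZero N) σ₀) + ℓ • AddMonoidHom.id _) hx
    exact h
  · rw [map_add, map_sub, map_nsmul, Pd.galois, Pd.galois, Pd.hecke, Pd.galois]
    exact W.relation (Pd.pull x)

/-- The RAW Eichler–Shimura statement at one `(N, p, ℓ, A)`, from the final interface of the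
S37 row at `(N, ℓ, A)`. -/
theorem rawES_at (N p : ℕ) [NeZero N] (ℓ : ℕ) (hℓ : ℓ.Prime) (hdvd : ¬ ℓ ∣ N * p)
    (A : ValuationSubring (AlgebraicClosure ℚ)) (hA : A.LiesOverPrime ℓ)
    (H : ∀ σ₀ : AlgebraicClosure ℚ ≃ₐ[ℚ] AlgebraicClosure ℚ, A.IsFrobeniusAt σ₀ ℓ →
      haveI : NeZero ℓ := ⟨hℓ.ne_zero⟩
      ∃ (M : ℕ) (_ : NeZero M), Nonempty (WeakRedData M A ℓ σ₀) ∧ Nonempty (PullData N M ℓ)) :
    (∀ σ ∈ A.inertiaSubgroupIn ℚ, ∀ x : JZero N, (p : ℤ) • x = 0 → σ • x = x) ∧
      (∀ σ : AlgebraicClosure ℚ ≃ₐ[ℚ] AlgebraicClosure ℚ, A.IsFrobeniusAt σ ℓ →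
        ∀ x : JZero N, (p : ℤ) • x = 0 →
          σ • σ • x - heckeOperatorBar N ⟨ℓ, hℓ⟩ (σ • x) + (ℓ : ℤ) • x = 0) := by
  have : NeZero ℓ := ⟨hℓ.ne_zero⟩
  have hℓp : ¬ ℓ ∣ p := fun h => hdvd (Dvd.dvd.mul_left h N)
  constructor
  · intro τ hτ x hx
    obtain ⟨σ₀, hσ₀⟩ := exists_isFrobeniusAt ℓ hℓ A hA
    obtain ⟨M, hM, ⟨W⟩, ⟨Pd⟩⟩ := H σ₀ hσ₀
    rw [natCast_zsmul] at hx
    exact inertia_smul_eq_of_weakRedData W Pd hℓp hτ hx
  · intro σ hσ x hx
    obtain ⟨M, hM, ⟨W⟩, ⟨Pd⟩⟩ := H σ hσ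
    rw [natCast_zsmul] at hx
    rw [natCast_zsmul]
    exact frobenius_relation_of_weakRedData W Pd hℓp hx

/-- **`RawESStatement` of the S29 row from the final interface of the S37 row.** -/
theorem rawES_of_weakRedData
    (H : ∀ (N : ℕ) [NeZero N] (ℓ : ℕ) (hℓ : ℓ.Prime), ¬ ℓ ∣ N →
      ∀ A : ValuationSubring (AlgebraicClosure ℚ), A.LiesOverPrime ℓ →
        ∀ σ₀ : AlgebraicClosure ℚ ≃ₐ[ℚ] AlgebraicClosure ℚ, A.IsFrobeniusAt σ₀ ℓ →
          haveI : NeZero ℓ := ⟨hℓ.ne_zero⟩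
          ∃ (M : ℕ) (_ : NeZero M), Nonempty (WeakRedData M A ℓ σ₀) ∧
            Nonempty (PullData N M ℓ)) :
    Fermat.Agent.S29.RawESStatement := by
  intro N p _ _ ℓ hℓ hdvd A hA
  have hℓN : ¬ ℓ ∣ N := fun h => hdvd (Dvd.dvd.mul_right h p)
  exact rawES_at N p ℓ hℓ hdvd A hA (fun σ₀ hσ₀ => H N ℓ hℓ hℓN A hA σ₀ hσ₀)

end Fermat.Agent.S37.H999

end
end
-- ===== PACK-END S37/H999/RawES.lean

-- ===== PACK-BEGIN S30/H330/AdicTorsionRel.lean
section
/-
S30 -- ADIC MODULE LAYER, input (T) from the interfaces of the S37 row (helper330).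

`TorsionRelations N p` (inertia at `ℓ ∤ N p` acts trivially on `J₀(N)(ℚ̄)[p^∞]`, every Frobenius
at `ℓ` satisfies `σ² - T_ℓ σ + ℓ = 0` on it) from each of the interfaces of the S37 row:
* `torsionRelations_of_redData`     : reduction data `H99.RedData`;
* `torsionRelations_of_pieces`      : [S18] `Core.InjTorsionModL` + [PR] `Core.PlaceRed`;
* `torsionRelations_of_weakRedData` : `Core.WeakRedData` + `Core.PullData` (final interface);
* `torsionRelations_of_rawAll`      : an abstract raw Eichler–Shimura statement on the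
  `m`-torsion for all `m` prime to `ℓ`.
The pointwise lemmas of helper98 / helper999 hold for every modulus prime to `ℓ`; they are applied
to the moduli `p ^ n`.
-/




set_option autoImplicit false

noncomputable section

namespace Fermat.Agent.S30.H330

open Fermat.Agent.S29 ModularCurve ValuationSubring

theorem not_dvd_pow_of_not_dvd_mul {ℓ N p : ℕ} (hℓ : ℓ.Prime) (h : ¬ ℓ ∣ N * p) (n : ℕ) :
    ¬ ℓ ∣ p ^ n := fun hd => h (Dvd.dvd.mul_left (hℓ.dvd_of_dvd_pow hd) N)

/-- The raw Eichler–Shimura statement at the level `N` on the `m`-torsion, for all `m` prime to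
the prime `ℓ ∤ N`. -/
def RawESAll (N : ℕ) [NeZero N] : Prop :=
  ∀ (ℓ : ℕ) (hℓ : ℓ.Prime), ¬ ℓ ∣ N → ∀ A : VQ, A.LiesOverPrime ℓ → ∀ m : ℕ, ¬ ℓ ∣ m →
    (∀ σ ∈ A.inertiaSubgroupIn ℚ, ∀ x : JZero N, m • x = 0 → σ • x = x) ∧
    (∀ σ : GQ, A.IsFrobeniusAt σ ℓ → ∀ x : JZero N, m • x = 0 →
      σ • σ • x - heckeOperatorBar N ⟨ℓ, hℓ⟩ (σ • x) + ℓ • x = 0)

/-- (T) from the raw Eichler–Shimura statement on all prime-to-`ℓ` torsion. -/
theorem torsionRelations_of_rawAll {N : ℕ} [NeZero N] (p : ℕ) (h : RawESAll N) :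
    TorsionRelations N p := by
  intro ℓ hℓ hdvd A hA
  have hℓN : ¬ ℓ ∣ N := fun h => hdvd (Dvd.dvd.mul_right h p)
  refine ⟨fun σ hσ x hx => ?_, fun σ hσ x hx => ?_⟩
  · obtain ⟨n, hn⟩ := hx
    exact (h ℓ hℓ hℓN A hA (p ^ n) (not_dvd_pow_of_not_dvd_mul hℓ hdvd n)).1 σ hσ x hn
  · obtain ⟨n, hn⟩ := hx
    exact (h ℓ hℓ hℓN A hA (p ^ n) (not_dvd_pow_of_not_dvd_mul hℓ hdvd n)).2 σ hσ x hn

/-- Raw Eichler–Shimura on all prime-to-`ℓ` torsion, from reduction data. -/
theorem rawESAll_of_redData {N : ℕ} [NeZero N]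
    (H : ∀ (ℓ : ℕ) (hℓ : ℓ.Prime), ¬ ℓ ∣ N →
      ∀ A : ValuationSubring (AlgebraicClosure ℚ), A.LiesOverPrime ℓ →
        Nonempty (Fermat.Agent.S37.H99.RedData N A ℓ hℓ)) :
    RawESAll N := by
  intro ℓ hℓ hℓN A hA m hm
  obtain ⟨D⟩ := H ℓ hℓ hℓN A hA
  have h := Fermat.Agent.S37.H98.rawES_at_of_redData D m
    (Nat.coprime_comm.mp ((Nat.Prime.coprime_iff_not_dvd hℓ).mpr hm))
  refine ⟨fun σ hσ x hx => h.1 σ hσ x (by rw [natCast_zsmul]; exact hx),
    fun σ hσ x hx => ?_⟩
  have := h.2 σ hσ x (by rw [natCast_zsmul]; exact hx)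
  rwa [natCast_zsmul] at this

/-- (T) from reduction data. -/
theorem torsionRelations_of_redData {N : ℕ} [NeZero N] (p : ℕ)
    (H : ∀ (ℓ : ℕ) (hℓ : ℓ.Prime), ¬ ℓ ∣ N →
      ∀ A : ValuationSubring (AlgebraicClosure ℚ), A.LiesOverPrime ℓ →
        Nonempty (Fermat.Agent.S37.H99.RedData N A ℓ hℓ)) :
    TorsionRelations N p :=
  torsionRelations_of_rawAll p (rawESAll_of_redData H)

open Fermat.Agent.S37.Core in
/-- Raw Eichler–Shimura on all prime-to-`ℓ` torsion, from the pieces [S18] and [PR]. -/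
theorem rawESAll_of_pieces {N : ℕ} [NeZero N]
    (hS18 : ∀ (ℓ : ℕ), ℓ.Prime → ¬ ℓ ∣ N →
      ∀ A : ValuationSubring (AlgebraicClosure ℚ), A.LiesOverPrime ℓ → InjTorsionModL N ℓ A)
    (hPR : ∀ (ℓ : ℕ) (hℓ : ℓ.Prime), ¬ ℓ ∣ N →
      ∀ A : ValuationSubring (AlgebraicClosure ℚ), A.LiesOverPrime ℓ →
        ∀ σ₀ : AlgebraicClosure ℚ ≃ₐ[ℚ] AlgebraicClosure ℚ, A.IsFrobeniusAt σ₀ ℓ →
          haveI : NeZero ℓ := ⟨hℓ.ne_zero⟩; Nonempty (PlaceRed N A ℓ σ₀)) :
    RawESAll N := by
  intro ℓ hℓ hℓN A hA m hm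
  refine ⟨fun σ hσ x hx => ?_, fun σ hσ x hx => ?_⟩
  · obtain ⟨σ₀, hσ₀⟩ := Fermat.Agent.S37.H99.exists_isFrobeniusAt ℓ hℓ A hA
    obtain ⟨D⟩ := hPR ℓ hℓ hℓN A hA σ₀ hσ₀
    exact (Fermat.Agent.S37.H98.rawES_at_of_placeRed hℓ D (hS18 ℓ hℓ hℓN A hA) m hm).1 σ hσ x
      (by rw [natCast_zsmul]; exact hx)
  · obtain ⟨D⟩ := hPR ℓ hℓ hℓN A hA σ hσ
    have := (Fermat.Agent.S37.H98.rawES_at_of_placeRed hℓ D (hS18 ℓ hℓ hℓN A hA) m hm).2 x
      (by rw [natCast_zsmul]; exact hx)
    rwa [natCast_zsmul] at this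

open Fermat.Agent.S37.Core in
/-- (T) from the pieces [S18] and [PR] of the S37 row plan. -/
theorem torsionRelations_of_pieces {N : ℕ} [NeZero N] (p : ℕ)
    (hS18 : ∀ (ℓ : ℕ), ℓ.Prime → ¬ ℓ ∣ N →
      ∀ A : ValuationSubring (AlgebraicClosure ℚ), A.LiesOverPrime ℓ → InjTorsionModL N ℓ A)
    (hPR : ∀ (ℓ : ℕ) (hℓ : ℓ.Prime), ¬ ℓ ∣ N →
      ∀ A : ValuationSubring (AlgebraicClosure ℚ), A.LiesOverPrime ℓ →
        ∀ σ₀ : AlgebraicClosure ℚ ≃ₐ[ℚ] AlgebraicClosure ℚ, A.IsFrobeniusAt σ₀ ℓ →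
          haveI : NeZero ℓ := ⟨hℓ.ne_zero⟩; Nonempty (PlaceRed N A ℓ σ₀)) :
    TorsionRelations N p :=
  torsionRelations_of_rawAll p (rawESAll_of_pieces hS18 hPR)

open Fermat.Agent.S37.Core Fermat.Agent.S37.H99 in
/-- Raw Eichler–Shimura on all prime-to-`ℓ` torsion, from the final interface of the S37 row. -/
theorem rawESAll_of_weakRedData {N : ℕ} [NeZero N]
    (H : ∀ (ℓ : ℕ) (hℓ : ℓ.Prime), ¬ ℓ ∣ N →
      ∀ A : ValuationSubring (AlgebraicClosure ℚ), A.LiesOverPrime ℓ →
        ∀ σ₀ : AlgebraicClosure ℚ ≃ₐ[ℚ] AlgebraicClosure ℚ, A.IsFrobeniusAt σ₀ ℓ →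
          haveI : NeZero ℓ := ⟨hℓ.ne_zero⟩
          ∃ (M : ℕ) (_ : NeZero M), Nonempty (WeakRedData M A ℓ σ₀) ∧
            Nonempty (PullData N M ℓ)) :
    RawESAll N := by
  intro ℓ hℓ hℓN A hA m hm
  have : NeZero ℓ := ⟨hℓ.ne_zero⟩
  refine ⟨fun σ hσ x hx => ?_, fun σ hσ x hx => ?_⟩
  · obtain ⟨σ₀, hσ₀⟩ := exists_isFrobeniusAt ℓ hℓ A hA
    obtain ⟨M, hM, ⟨W⟩, ⟨Pd⟩⟩ := H ℓ hℓ hℓN A hA σ₀ hσ₀
    exact Fermat.Agent.S37.H999.inertia_smul_eq_of_weakRedData W Pd hm hσ hx
  · obtain ⟨M, hM, ⟨W⟩, ⟨Pd⟩⟩ := H ℓ hℓ hℓN A hA σ hσ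
    exact Fermat.Agent.S37.H999.frobenius_relation_of_weakRedData W Pd hm hx

open Fermat.Agent.S37.Core in
/-- (T) from the final interface of the S37 row. -/
theorem torsionRelations_of_weakRedData {N : ℕ} [NeZero N] (p : ℕ)
    (H : ∀ (ℓ : ℕ) (hℓ : ℓ.Prime), ¬ ℓ ∣ N →
      ∀ A : ValuationSubring (AlgebraicClosure ℚ), A.LiesOverPrime ℓ →
        ∀ σ₀ : AlgebraicClosure ℚ ≃ₐ[ℚ] AlgebraicClosure ℚ, A.IsFrobeniusAt σ₀ ℓ →
          haveI : NeZero ℓ := ⟨hℓ.ne_zero⟩
          ∃ (M : ℕ) (_ : NeZero M), Nonempty (WeakRedData M A ℓ σ₀) ∧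
            Nonempty (PullData N M ℓ)) :
    TorsionRelations N p :=
  torsionRelations_of_rawAll p (rawESAll_of_weakRedData H)

end Fermat.Agent.S30.H330

end
end
-- ===== PACK-END S30/H330/AdicTorsionRel.lean

-- ===== PACK-BEGIN S29/H150/K2Hol.lean
section
/-
S29 / M4b / piece K2 (helper150), part 1: analytic preparation.

* `k2Char hc` : the multiplicative character `γ ↦ ζ_p ^ c(γ)` of a parabolic hom `c`;
* `mem_holN_of_isTwisted` : a twisted function (M4b `IsTwisted`) lies in the S24 ring `holN N`;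
* `qexp_eq_qExpand` : the S24 expansion in `q^{1/N}` of a function with `q`-expansion `φ`
  is `φ(z^N)`;
* `sigmaG_eq_of_qexp` : the S24 embedding `σ_g` of `u ∈ FF N` is the expansion of `G ∘ g⁻¹`
  for every `G ∈ holN N` with the `q`-expansion of `u`.
-/







set_option autoImplicit false
set_option linter.unusedSectionVars false

noncomputable section

open ModularCurve AlgebraicCurve CongruenceSubgroup UpperHalfPlane HahnSeries
open scoped MatrixGroups Manifold

namespace Fermat.Agent.S29.H150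

open Fermat.Agent.S24 Fermat.Agent.S24.H997 Fermat.Agent.S29 Fermat.Agent.S29.M4b

local notation "Δ" => ModularForm.discriminant

variable {N : ℕ} [NeZero N] {p : ℕ} [NeZero p]

/-! ### The character `ζ_p ^ c` -/

theorem k2_map_one {c : G0 N → ZMod p} (hc : IsParHom c) : c 1 = 0 := by
  have h := hc.map_mul 1 1
  rw [mul_one] at h
  have h2 : c 1 + 0 = c 1 + c 1 := by rw [add_zero]; exact h
  exact (add_left_cancel h2).symm

/-- The multiplicative character `γ ↦ ζ_p ^ c(γ)`. -/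
def k2Char {c : G0 N → ZMod p} (hc : IsParHom c) : Gamma0 N →* ℂˣ where
  toFun γ := Units.mk0 (zetaP p ^ (c γ).val) (pow_ne_zero _ (H822.zetaP_ne_zero p))
  map_one' := by
    apply Units.ext
    show zetaP p ^ (c 1).val = 1
    rw [k2_map_one hc, ZMod.val_zero, pow_zero]
  map_mul' γ γ' := by
    apply Units.ext
    show zetaP p ^ (c (γ * γ')).val = zetaP p ^ (c γ).val * zetaP p ^ (c γ').val
    rw [hc.map_mul, H822.zetaP_pow_val_add]

theorem k2Char_coe {c : G0 N → ZMod p} (hc : IsParHom c) (γ : Gamma0 N) :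
    ((k2Char hc γ : ℂˣ) : ℂ) = zetaP p ^ (c γ).val := rfl

theorem k2Char_eq_one_of {c : G0 N → ZMod p} (hc : IsParHom c) {γ : Gamma0 N} (h : c γ = 0) :
    k2Char hc γ = 1 := by
  apply Units.ext
  rw [k2Char_coe, h, ZMod.val_zero, pow_zero, Units.val_one]

theorem k2Char_parTrivial {c : G0 N → ZMod p} (hc : IsParHom c) :
    H332.ParTrivial (k2Char hc) := fun γ hγ => k2Char_eq_one_of hc (hc.parabolic γ hγ)

theorem k2Char_ellTrivial {c : G0 N → ZMod p} (hc : IsParHom c) :
    H332.EllTrivial (k2Char hc) := fun γ n hn hγ => k2Char_eq_one_of hc (hc.elliptic γ n hn hγ)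

theorem hasCharacter_of_hasChar {c : G0 N → ZMod p} (hc : IsParHom c) {U : ℍ → ℂ}
    (hU : HasChar N p c U) : H332.HasCharacter (k2Char hc) U := fun γ τ => by
  rw [k2Char_coe]
  exact hU γ τ

/-! ### Twisted functions lie in `holN N` -/

omit [NeZero N] in
theorem norm_le_one_add_norm_pow (x : ℂ) : ‖x‖ ≤ 1 + ‖x ^ p‖ := by
  rw [norm_pow]
  rcases le_or_gt ‖x‖ 1 with h | h
  · have : 0 ≤ ‖x‖ ^ p := pow_nonneg (norm_nonneg x) p
    linarith
  · have h1 : ‖x‖ ≤ ‖x‖ ^ p := le_self_pow₀ h.le (NeZero.ne p)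
    linarith

omit [NeZero N] in
theorem exists_bdd_of_expGrowth_pow {U : ℍ → ℂ} (g : SL(2, ℤ))
    (h : H648.ExpGrowth (fun τ => U (g • τ) ^ p)) :
    ∃ m : ℕ, IsBoundedAtImInfty (fun τ => Δ τ ^ m * compSL g U τ) := by
  obtain ⟨C, m, hC⟩ := h
  refine ⟨m, ?_⟩
  have hb : IsBoundedAtImInfty (fun τ => compSL g U τ * Δ τ ^ m) := by
    apply H108.isBoundedAtImInfty_mul_discriminant_pow_of_exp_growth
    refine ⟨1 + |C|, 1, fun τ hτ => ?_⟩
    have h1 := hC τ hτ
    have h2 := norm_le_one_add_norm_pow (p := p) (U (g • τ))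
    have he : 1 ≤ Real.exp (2 * Real.pi * m * τ.im) := by
      apply Real.one_le_exp
      have := τ.im_pos
      have := Real.pi_pos
      positivity
    have h3 : C * Real.exp (2 * Real.pi * m * τ.im) ≤ |C| * Real.exp (2 * Real.pi * m * τ.im) :=
      mul_le_mul_of_nonneg_right (le_abs_self C) (Real.exp_pos _).le
    show ‖U (g • τ)‖ ≤ _
    calc ‖U (g • τ)‖ ≤ 1 + ‖U (g • τ) ^ p‖ := h2
      _ ≤ 1 + |C| * Real.exp (2 * Real.pi * m * τ.im) := by linarith
      _ ≤ Real.exp (2 * Real.pi * m * τ.im) + |C| * Real.exp (2 * Real.pi * m * τ.im) := by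
          linarith
      _ = (1 + |C|) * Real.exp (2 * Real.pi * m * τ.im) := by ring
  have : (fun τ => Δ τ ^ m * compSL g U τ) = fun τ => compSL g U τ * Δ τ ^ m := by
    funext τ; ring
  rw [this]
  exact hb

/-- A twisted function lies in the S24 ring `holN N`. -/
theorem mem_holN_of_isTwisted {c : G0 N → ZMod p} (hc : IsParHom c) {U : ℍ → ℂ}
    (hU : IsTwisted N p c U) : U ∈ holN N := by
  refine ⟨hU.mdiff, fun g => ?_⟩
  obtain ⟨m, hm⟩ := exists_bdd_of_expGrowth_pow (p := p) g (hU.pow_mem.2.2 g)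
  exact (hasCharacter_of_hasChar hc hU.hasChar).compSL_mem_expRing (k2Char_parTrivial hc)
    hU.mdiff m g hm

omit [NeZero N] [NeZero p] in
theorem ne_zero_of_isTwisted {c : G0 N → ZMod p} {U : ℍ → ℂ}
    (hU : IsTwisted N p c U) : U ≠ 0 := by
  obtain ⟨τ, hτ⟩ := hU.ne_zero
  intro h
  exact hτ (by rw [h]; rfl)

/-! ### Comparison of expansions -/

omit [NeZero N] in
theorem infExp_one_of_hasQExp {f : ℍ → ℂ} {φ : LaurentSeries ℂ} (h : H708.HasQExp 1 f φ) :
    InfExp 1 f φ := fun τ => by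
  have := h.hasSum τ
  exact this

theorem infExp_of_hasQExp_one {f : ℍ → ℂ} {φ : LaurentSeries ℂ} (h : H708.HasQExp 1 f φ) :
    InfExp N f (qExpand ℂ N φ) := by
  have h1 : InfExp 1 f φ := infExp_one_of_hasQExp h
  have h2 := h1.subst (N := N) (fun τ => τ) 1 N (fun τ => by
    rw [Units.val_one, one_mul, infZ_def, infZ_def, ← Complex.exp_nat_mul]
    congr 1
    have hN : (N : ℂ) ≠ 0 := by exact_mod_cast NeZero.ne N
    push_cast
    field_simp)
  rwa [infTwist_one] at h2

/-- The S24 expansion (in `q^{1/N}`) of an element of `holN N` with `q`-expansion `φ`. -/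
theorem qexp_eq_qExpand {f : ℍ → ℂ} (hf : f ∈ holN N) {φ : LaurentSeries ℂ}
    (h : H708.HasQExp 1 f φ) :
    (holBase N).qexp ⟨f, hf⟩ = qExpand ℂ N φ :=
  (expInf_spec (holToExp N ⟨f, hf⟩)).unique (infExp_of_hasQExp_one h)

/-- The S24 expansion of an analytic realisation of `u ∈ FF N`. -/
theorem qexp_eq_Φ_of_realises {u : FF N} {G : ℍ → ℂ} (hG : G ∈ holN N)
    (hu : Realises N u G) :
    (holBase N).qexp ⟨G, hG⟩ = HolBase.Φ N ((u : FF N) : LaurentSeries Kbar) :=
  qexp_eq_qExpand hG (H822.realises_hasQExp hu)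

/-! ### The embeddings `σ_g` on realised elements -/

/-- If `G ∈ holN N` has the `q`-expansion of `u ∈ FF N`, then `σ_g u` is the expansion of
`G ∘ g⁻¹`, for every S24 expansion `X` and every `g ∈ SL₂(ℤ)`. -/
theorem sigmaG_eq_of_qexp (X : Expansion (holBase N)) (g : SL(2, ℤ)) {u : FF N} {G : ℍ → ℂ}
    (hG : G ∈ holN N)
    (hq : (holBase N).qexp ⟨G, hG⟩ = HolBase.Φ N ((u : FF N) : LaurentSeries Kbar)) :
    (holBase N).sigmaG X g u = X.E ((holBase N).compH g⁻¹ ⟨G, hG⟩) := by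
  obtain ⟨r, t, ht, rfl⟩ := exists_div_inclRN N u
  have ht' : (holBase N).bridge t ≠ 0 := fun h0 =>
    ht ((holBase N).bridge_injective (h0.trans (map_zero _).symm))
  have key : (⟨G, hG⟩ : (holBase N).Hol) * (holBase N).bridge t = (holBase N).bridge r := by
    apply (holBase N).qexp_injective
    rw [map_mul, hq, HolBase.qexp_bridge, HolBase.qexp_bridge]
    have h1 : (((inclRN N r / inclRN N t : FF N) : FF N) : LaurentSeries Kbar)
        = (r : LaurentSeries Kbar) / (t : LaurentSeries Kbar) := rfl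
    rw [h1, map_div₀]
    have h2 : HolBase.Φ N (t : LaurentSeries Kbar) ≠ 0 := by
      rw [← HolBase.qexp_bridge (holBase N)]
      intro h0
      exact ht' ((holBase N).qexp_injective (h0.trans (map_zero _).symm))
    exact div_mul_cancel₀ _ h2
  have hE : X.E ((holBase N).compH g⁻¹ ((holBase N).bridge t)) ≠ 0 := by
    intro h0
    have h1 := X.inj (h0.trans (map_zero _).symm)
    exact ht' ((holBase N).compH_injective g⁻¹ (h1.trans (map_zero _).symm))
  rw [map_div₀, HolBase.sigmaG_inclRN, HolBase.sigmaG_inclRN, ← key, map_mul, map_mul,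
    mul_div_assoc, div_self hE, mul_one]

end Fermat.Agent.S29.H150

end
end
-- ===== PACK-END S29/H150/K2Hol.lean

-- ===== PACK-BEGIN S29/H150/K2Local.lean
section
/-
S29 / M4b / piece K2 (helper150), part 2: local divisibility at every place.

For the S24 local data `mkLocalData X ε R t` at the zero of `t` (`t = j - a` or `t = 1/j`):
if `u ∈ FF N` is realised by `U ^ p`, `U ∈ holN N` with a character killing all conjugates of
powers of `ε` lying in `Γ₀(N)`, then `p ∣ ord_v u` at every place `v` with `ord_v t > 0`.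
-/




set_option autoImplicit false
set_option linter.unusedSectionVars false
set_option linter.style.haveILetI false
set_option linter.unusedTactic false

noncomputable section

open ModularCurve AlgebraicCurve CongruenceSubgroup UpperHalfPlane HahnSeries
open scoped MatrixGroups Manifold

namespace Fermat.Agent.S29.H150

open Fermat.Agent.S24 Fermat.Agent.S24.H997 Fermat.Agent.S29 Fermat.Agent.S29.M4b

/-! ### Orbits of the monodromy permutation -/

section Orbit

variable {K F : Type*} [Field K] [Field F] [Algebra K F] [IsAlgClosed K] [CharZero K]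
variable {C : Type*} [Field C] [CharZero C] {X : Type*} [Finite X]

/-- The ramification index of the place induced by `x` is the length of the cycle of `x`. -/
theorem orbit_card_eq_ord (t : F) [FiniteDimensional ↥(IntermediateField.adjoin K {t}) F]
    (hrank : Module.finrank ↥(IntermediateField.adjoin K {t}) F = Nat.card X)
    (d : LocalData K F C X t) (x : X) :
    (Nat.card (MulAction.orbit (Subgroup.zpowers d.perm) x) : ℤ) = (H117.placeOf d x).ord t := by
  classical
  have hfin : (zeroPlaces K t).Finite := (sub_local_count t hrank d).1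
  have hs : ∀ v : Place K F, v ∈ hfin.toFinset ↔ 0 < v.ord t := fun v => by simp [zeroPlaces]
  have hsum := (sub_local_count t hrank d).2.2
  rw [finsum_mem_eq_finite_toFinset_sum _ hfin] at hsum
  exact (H117.localThm d (IntermediateField.adjoin K {t}) le_rfl hrank hfin.toFinset hs
    hsum.ge).2.1 x

omit [Finite X] in
theorem perm_pow_orbit_card [Finite X] (π : Equiv.Perm X) (x : X) :
    (π ^ Nat.card (MulAction.orbit (Subgroup.zpowers π) x)) x = x := by
  classical
  haveI : Fintype (MulAction.orbit (Subgroup.zpowers π) x) := Fintype.ofFinite _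
  have h := Function.isPeriodicPt_minimalPeriod (fun y : X => π • y) x
  rw [MulAction.minimalPeriod_eq_card, ← Nat.card_eq_fintype_card] at h
  have h2 : (fun y : X => π • y)^[Nat.card (MulAction.orbit (Subgroup.zpowers π) x)] x = x := h
  rw [smul_iterate] at h2
  exact h2

end Orbit

variable {N : ℕ} [NeZero N] {p : ℕ} [NeZero p]

/-! ### The key local statement -/

theorem permOf_pow_apply (ε : SL(2, ℤ)) (k : ℕ) (g : SL(2, ℤ)) :
    (permOf N ε ^ k) (g : XX N) = ((ε ^ k * g : SL(2, ℤ)) : XX N) := by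
  induction k with
  | zero => simp
  | succ k ih =>
    rw [pow_succ', Equiv.Perm.mul_apply, ih, pow_succ', mul_assoc]
    rfl

/-- **Local divisibility.** -/
theorem dvd_ord_of_mkLocalData (X : Expansion (holBase N)) (ε : SL(2, ℤ))
    (R : RotData (holBase N) X ε) (t : FF N) (s : LaurentSeries ℂ)
    (ht : ∀ g : SL(2, ℤ), (holBase N).sigmaG X g t = s) (hs : s.order = (R.m : ℤ))
    [FiniteDimensional ↥(IntermediateField.adjoin Kbar {t}) (FF N)]
    (hrank : Module.finrank ↥(IntermediateField.adjoin Kbar {t}) (FF N) = Nat.card (XX N))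
    {χ : Gamma0 N →* ℂˣ}
    (hχε : ∀ (g : SL(2, ℤ)) (k : ℕ) (hk : g * ε ^ k * g⁻¹ ∈ Gamma0 N), χ ⟨_, hk⟩ = 1)
    {U : ℍ → ℂ} (hchar : H332.HasCharacter χ U) (hmem : U ∈ holN N) (hU0 : U ≠ 0)
    {u : FF N}
    (hq : (holBase N).qexp (⟨U, hmem⟩ ^ p)
      = HolBase.Φ N ((u : FF N) : LaurentSeries Kbar))
    (v : Place Kbar (FF N)) (hv : 0 < v.ord t) : (p : ℤ) ∣ v.ord u := by
  classical
  haveI : Finite (XX N) := inferInstance
  set d : LocalData Kbar (FF N) ℂ (XX N) t := (holBase N).mkLocalData X ε R t s ht hs with hd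
  obtain ⟨x, hx⟩ := H117.exists_placeOf_eq d (IntermediateField.adjoin Kbar {t}) le_rfl hrank v hv
  -- the cycle length
  set k : ℕ := Nat.card (MulAction.orbit (Subgroup.zpowers d.perm) x) with hk
  have hke : (k : ℤ) = (H117.placeOf d x).ord t := orbit_card_eq_ord t hrank d x
  have hkpos : (0 : ℤ) < k := by rw [hke, hx]; exact hv
  have hper : (d.perm ^ k) x = x := perm_pow_orbit_card d.perm x
  -- representative
  set g : SL(2, ℤ) := Quotient.out x with hg
  have hxg : ((g : SL(2, ℤ)) : XX N) = x := QuotientGroup.out_eq' x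
  have hmemΓ : g⁻¹ * ε ^ k * g⁻¹⁻¹ ∈ Gamma0 N := by
    have h1 : (permOf N ε⁻¹ ^ k) (g : XX N) = (g : XX N) := by
      rw [hxg]; exact hper
    rw [permOf_pow_apply] at h1
    have h2 := QuotientGroup.eq.mp h1
    have h3 : (ε⁻¹ ^ k * g)⁻¹ * g = g⁻¹ * ε ^ k * g⁻¹⁻¹ := by
      rw [mul_inv_rev, inv_pow, inv_inv, inv_inv]
    rwa [h3] at h2
  -- rotation argument
  have hdiv := hchar.dvd_mul_order hmem hU0 X R g⁻¹ k hmemΓ (hχε _ _ hmemΓ)
  set n : ℤ := (X.E ((holBase N).compH g⁻¹ ⟨U, hmem⟩)).order with hn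
  -- `m = mult * e`
  have hm : (H117.mult d x : ℤ) * (H117.placeOf d x).ord t = (R.m : ℤ) := H117.mult_mul_ord_t d x
  rw [← hke] at hm
  have hmult : (H117.mult d x : ℤ) ∣ n := by
    rw [← hm] at hdiv
    have h4 : (H117.mult d x : ℤ) * k ∣ n * k := by rwa [mul_comm n k]
    exact (mul_dvd_mul_iff_right hkpos.ne').mp h4
  -- the order of `σ_x u`
  have hσ : d.σ x u = X.E ((holBase N).compH g⁻¹ ⟨U, hmem⟩) ^ p := by
    show (holBase N).sigmaG X g u = _
    have hG : (fun τ => U τ ^ p) ∈ holN N := (holN N).pow_mem hmem p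
    have := sigmaG_eq_of_qexp X g (u := u) (G := fun τ => U τ ^ p) hG hq
    rw [this, ← map_pow, ← map_pow]
    rfl
  have hord := H117.order_eq d x u
  rw [hσ, HahnSeries.order_pow, hx, nsmul_eq_mul, ← hn] at hord
  obtain ⟨n', hn'⟩ := hmult
  have hmpos : (H117.mult d x : ℤ) ≠ 0 := by
    exact_mod_cast (H117.mult_pos d x).ne'
  refine ⟨n', ?_⟩
  have h5 : (H117.mult d x : ℤ) * v.ord u = (H117.mult d x : ℤ) * ((p : ℤ) * n') := by
    rw [← hord, hn']; push_cast; ring
  exact mul_left_cancel₀ hmpos h5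

end Fermat.Agent.S29.H150

end
end
-- ===== PACK-END S29/H150/K2Local.lean

-- ===== PACK-BEGIN S29/H150/K2.lean
section
/-
S29 / M4b / PIECE K2 (helper150): `pieceK2 : PieceK2 N p` for every modulus `p ≠ 0`
(EXACT `Prop` of `Fermat/Agent/S29/M4b/Top.lean`, = `exists_isKummerClass_of_realised` of
helper822's skeleton), DIRECTLY over `ℚ̄` on top of the landed S24 dictionary
(`H997.analyticCore`, `H117.exists_placeOf_eq`, `H117.order_eq`, `H117.localThm`) and the
rotation lemma `H332.HasCharacter.dvd_mul_order`.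

If `u ∈ FF N` is realised by `U ^ p`, `U` twisted of a character killing parabolic and
finite-order elements, then `p ∣ ord_v u` at EVERY place `v` of `FF N / ℚ̄`; the divisor
`(1/p) div u` has degree `0` and its class is the Kummer class of `u`.
-/




set_option autoImplicit false
set_option linter.unusedSectionVars false
set_option linter.style.haveILetI false

noncomputable section

open ModularCurve AlgebraicCurve CongruenceSubgroup UpperHalfPlane HahnSeries
open scoped MatrixGroups Manifold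

namespace Fermat.Agent.S29.H150

open Fermat.Agent.S24 Fermat.Agent.S24.H997 Fermat.Agent.S29 Fermat.Agent.S29.M4b

variable {N : ℕ} [NeZero N] {p : ℕ} [NeZero p]

/-! ### Finite order of the rotations `1`, `S`, `S * T` -/

theorem k2_S_pow : (ModularGroup.S : SL(2, ℤ)) ^ 12 = 1 := by
  have h4 : (ModularGroup.S : SL(2, ℤ)) ^ 4 = 1 := by
    ext i j
    fin_cases i <;> fin_cases j <;>
      simp [pow_succ, ModularGroup.S, Matrix.mul_apply, Fin.sum_univ_two]
  have : (ModularGroup.S : SL(2, ℤ)) ^ 12 = (ModularGroup.S ^ 4) ^ 3 := by rw [← pow_mul]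
  rw [this, h4, one_pow]

theorem k2_ST_pow : (ModularGroup.S * ModularGroup.T : SL(2, ℤ)) ^ 12 = 1 := by
  have h6 : (ModularGroup.S * ModularGroup.T : SL(2, ℤ)) ^ 6 = 1 := by
    ext i j
    fin_cases i <;> fin_cases j <;>
      simp [pow_succ, ModularGroup.S, ModularGroup.T, Matrix.mul_apply, Fin.sum_univ_two]
  have : (ModularGroup.S * ModularGroup.T : SL(2, ℤ)) ^ 12
      = ((ModularGroup.S * ModularGroup.T) ^ 6) ^ 2 := by rw [← pow_mul]
  rw [this, h6, one_pow]

/-- Point data over every finite point `a ∈ ℚ̄`, with a rotation of finite order. -/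
theorem exists_pointData (a : Kbar) :
    ∃ (ε : SL(2, ℤ)) (_ : PointData (holBase N) (ιK a) ε), ε ^ 12 = 1 := by
  by_cases h0 : a = 0
  · refine ⟨ModularGroup.S * ModularGroup.T, ?_, k2_ST_pow⟩
    rw [h0, map_zero]
    exact (analyticCore N).at0
  · by_cases h1 : a = 1728
    · refine ⟨ModularGroup.S, ?_, k2_S_pow⟩
      have : ιK a = 1728 := by rw [h1]; exact map_ofNat ιK 1728
      rw [this]
      exact (analyticCore N).at1728
    · refine ⟨1, ?_, one_pow 12⟩
      exact (analyticCore N).generic (ιK a)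
        (fun h => h0 (ιK_injective (by rw [h, map_zero])))
        (fun h => h1 (ιK_injective (by rw [h]; exact (map_ofNat ιK 1728).symm)))

/-! ### Divisibility at every place -/

/-- **DICT (hard direction) over `ℚ̄`**: `p ∣ ord_v u` at every place. -/
theorem dvd_ord_of_realised {c : G0 N → ZMod p} (hc : IsParHom c) {U : ℍ → ℂ} {u : FF N}
    (hU : IsTwisted N p c U) (hu : Realises N u (fun τ => U τ ^ p))
    (v : Place Kbar (FF N)) : (p : ℤ) ∣ v.ord u := by
  classical
  have hmem : U ∈ holN N := mem_holN_of_isTwisted hc hU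
  have hU0 : U ≠ 0 := ne_zero_of_isTwisted hU
  have hchar := hasCharacter_of_hasChar hc hU.hasChar
  have hG : (fun τ => U τ ^ p) ∈ holN N := (holN N).pow_mem hmem p
  have hq : (holBase N).qexp (⟨U, hmem⟩ ^ p)
      = HolBase.Φ N ((u : FF N) : LaurentSeries Kbar) :=
    qexp_eq_Φ_of_realises hG hu
  obtain ⟨hfd, hle⟩ := Deg457.degree_fields N
  haveI := hfd
  have hrank : Module.finrank ↥(IntermediateField.adjoin Kbar {jF N}) (FF N) = Nat.card (XX N) :=
    le_antisymm hle (analyticCore N).card_le_finrank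
  rcases sub_exists_point (jF N) v with h | ⟨a, ha⟩
  · -- the cusps
    have hv : 0 < v.ord (jF N)⁻¹ := by rw [v.ord_inv]; omega
    obtain ⟨hfd', hfr'⟩ := finiteDimensional_and_finrank_of_eq (adjoin_inv Kbar (jF N))
    haveI := hfd'
    refine dvd_ord_of_mkLocalData (holBase N).qexpExpansion ModularGroup.T
      (analyticCore N).infRot (jF N)⁻¹ ((holBase N).qexp ((holBase N).JH 1 (one_dvd N)))⁻¹
      (fun g => by rw [map_inv₀, HolBase.sigmaG_jF]; rfl)
      (by
        rw [RotRel.order_inv' (holBase N).qexp_J_one_ne_zero, (holBase N).order_qexp_J_one,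
          neg_neg]
        rfl)
      (hfr'.trans hrank)
      (fun g k hk => (k2Char_parTrivial hc).conj_T g k hk) hchar hmem hU0 hq v hv
  · -- finite points
    obtain ⟨ε, P, hε⟩ := exists_pointData (N := N) a
    obtain ⟨hfd', hfr'⟩ := finiteDimensional_and_finrank_of_eq (adjoin_sub_algebraMap Kbar (jF N) a)
    haveI := hfd'
    exact dvd_ord_of_mkLocalData P.X ε P.R (jF N - algebraMap Kbar (FF N) a)
      (P.X.E ((holBase N).JH 1 (one_dvd N) - (holBase N).constH (ιK a)))
      (fun g => (analyticCore N).sigmaG_sub P g) P.order_J (hfr'.trans hrank)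
      (fun g k hk => (k2Char_ellTrivial hc).conj (by norm_num) hε g k hk) hchar hmem hU0 hq v ha

omit [NeZero p] in
theorem ne_zero_of_realised {c : G0 N → ZMod p} {U : ℍ → ℂ} {u : FF N}
    (hU : IsTwisted N p c U) (hu : Realises N u (fun τ => U τ ^ p)) : u ≠ 0 := by
  rintro rfl
  have h1 := H822.realises_hasQExp hu
  have h2 : (fun τ => U τ ^ p) = 0 := by
    have := h1.eq_zero_iff.mp (by simp)
    exact this
  obtain ⟨τ, hτ⟩ := hU.ne_zero
  have h3 : U τ ^ p = 0 := congrFun h2 τ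
  have hp0 : p ≠ 0 := by
    intro hp0
    rw [hp0, pow_zero] at h3
    exact one_ne_zero h3
  exact hτ ((pow_eq_zero_iff hp0).mp h3)

/-! ### The Kummer class -/

/-- **PIECE K2**, exact statement of helper822's skeleton. -/
theorem exists_isKummerClass_of_realised {c : G0 N → ZMod p} (hc : IsParHom c) {U : ℍ → ℂ}
    {u : FF N} (hU : IsTwisted N p c U) (hu : Realises N u (fun τ => U τ ^ p)) :
    ∃ x : JZero N, H455.IsKummerClass (p : ℤ) u x := by
  classical
  have hu0 : u ≠ 0 := ne_zero_of_realised hU hu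
  have hdvd := dvd_ord_of_realised hc hU hu
  haveI := Fermat.Agent.Lib.RR.H864.hasPrincipalDivisors_modularFunctionFieldBar N
  obtain ⟨E, hE, hdeg⟩ := HasPrincipalDivisors.exists_divisor (K := Kbar) (F := FF N) u hu0
  have hp0 : (p : ℤ) ≠ 0 := by exact_mod_cast NeZero.ne p
  -- `D = E / p`
  let D : Divisor Kbar (FF N) := E.mapRange (fun n => n / (p : ℤ)) (by simp)
  have hD : ∀ w : Place Kbar (FF N), (p : ℤ) * D w = w.ord u := by
    intro w
    show (p : ℤ) * (E.mapRange (fun n => n / (p : ℤ)) (by simp)) w = _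
    rw [Finsupp.mapRange_apply, hE w]
    exact Int.mul_ediv_cancel' (hdvd w)
  have hpD : (p : ℤ) • D = E := by
    ext w
    rw [Finsupp.smul_apply, smul_eq_mul, hD w, hE w]
  have hdegD : Divisor.degree D = 0 := by
    have h1 : Divisor.degree ((p : ℤ) • D) = 0 := by rw [hpD]; exact hdeg
    rw [map_zsmul, smul_eq_mul] at h1
    exact (mul_eq_zero.mp h1).resolve_left hp0
  exact ⟨Pic0.mk ⟨D, hdegD⟩, hu0, ⟨D, hdegD⟩, rfl, hD⟩

/-- **PIECE K2** as the `Prop` of `M4b/Top.lean`. -/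
theorem pieceK2 (N : ℕ) [NeZero N] (p : ℕ) [NeZero p] : PieceK2 N p :=
  fun hc _ _ hU hu => exists_isKummerClass_of_realised hc hU hu

/-- **PIECE K2** for prime moduli, in the shape consumed by `M4bStatement_of_pieces`. -/
theorem pieceK2_prime (N : ℕ) [NeZero N] (p : ℕ) (hp : p.Prime) : PieceK2 N p :=
  haveI : NeZero p := ⟨hp.ne_zero⟩
  pieceK2 N p

end Fermat.Agent.S29.H150

end
end
-- ===== PACK-END S29/H150/K2.lean

-- ===== PACK-BEGIN S30/H330/AdicChain.lean
section
/-
S30 -- the frozen statement S30 from the TWO remaining open inputs (helper330).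

Everything else of the chain is on main and is wired here:
  K1 (helper332), K2 (helper150), K4-UNIQ/INJ/ADD (helper822), K4-HECKE (helper395),
  K3 from K3-FIN (helper42), FIN (helper810), (P) (helper709), (Sm) (helper126), (GH) (helper571),
  adic module layer (helper330), top glue (helper990), CHEB Tier 1.

* `kumPackage_of_k3fin` : `K3.FinStatement N m` ⟹ `H450.KumPackage N m` (any modulus `m ≠ 0`);
* `result_of_k3fin` : S30 from `K3-FIN` at the moduli `p ^ n` and the torsion relations (T);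
* `result_of_k3fin_rawESAll` : S30 from `K3-FIN` and the raw Eichler–Shimura statement on all
  prime-to-`ℓ` torsion (`RawESAll`, see `AdicTorsionRel.lean` for its derivation from each of the
  interfaces of the S37 row).
-/









set_option autoImplicit false
set_option linter.overlappingInstances false

noncomputable section

namespace Fermat.Agent.S30.H330

open Fermat.Agent.S29 Fermat.Agent.S29.M4b ModularCurve Fermat.Agent.S30.H450 Polynomial

/-- The Kummer package at the modulus `m ≠ 0` from the single open sub-piece `K3-FIN`. -/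
theorem kumPackage_of_k3fin (N : ℕ) [NeZero N] (m : ℕ) [NeZero m]
    (hfin : Fermat.Agent.S29.M4b.K3.FinStatement N m) : KumPackage N m :=
  KumPackage.of_skeleton
    (fun hc => top_isKum_exists (fun hc' => Fermat.Agent.S29.H332.exists_isTwisted N m hc')
      (Fermat.Agent.S29.M4b.K3.pieceK3_of_fin N m hfin) (Fermat.Agent.S29.H150.pieceK2 N m) hc)
    (fun h h' => Fermat.Agent.S29.M4b.H822.pieceUniq N m (NeZero.ne m) h h')
    (fun h => Fermat.Agent.S29.M4b.H822.pieceInj N m (NeZero.ne m) h)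
    (fun h h' => Fermat.Agent.S29.M4b.H822.pieceAdd N m (NeZero.ne m) h h')
    (fun ℓ hℓ hfac _ _ hc hcc' _ h =>
      Fermat.Agent.S29.M4b.H395.isKum_hecke N m ℓ hℓ hfac hc hcc' h)

/-- Input (F) holds (helper810, unconditional). -/
theorem finStatement (N : ℕ) [NeZero N] (p : ℕ) [NeZero p] : FinStatement N p :=
  Fermat.Agent.S30.H810.torsion_finite N p

/-- Input (K') from `K3-FIN` at the moduli `p ^ n`. -/
theorem kummerInjStatement_of_k3fin (N : ℕ) [NeZero N] (p : ℕ) [NeZero p]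
    (hfin : ∀ n : ℕ, Fermat.Agent.S29.M4b.K3.FinStatement N (p ^ n)) :
    KummerInjStatement N p :=
  kummerInjStatement_of_packages (fun n => kumPackage_of_k3fin N (p ^ n) (hfin n))

/-- **S30 from `K3-FIN` and (T).** -/
theorem result_of_k3fin
    (hfin : ∀ (N : ℕ) [NeZero N] (p : ℕ) [Fact p.Prime] (n : ℕ),
      Fermat.Agent.S29.M4b.K3.FinStatement N (p ^ n))
    (hT : ∀ (N : ℕ) [NeZero N] (p : ℕ) [Fact p.Prime], TorsionRelations N p) :
    ∀ (p : ℕ) [Fact p.Prime] (N : ℕ) [NeZero N] (S : Finset ℕ)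
      (_hpS : p ∈ S) (_hNS : ∀ q : ℕ, q.Prime → q ∣ N → q ∈ S)
      (𝒪' : Type) [CommRing 𝒪'] [IsDomain 𝒪'] [IsDiscreteValuationRing 𝒪']
      [IsAdicComplete (IsLocalRing.maximalIdeal 𝒪') 𝒪'] [Finite (IsLocalRing.ResidueField 𝒪')]
      [CharZero 𝒪'] (_hp𝒪' : (p : 𝒪') ∈ IsLocalRing.maximalIdeal 𝒪')
      (χ : CuspForm.heckeAlgebra N 2 (↑S : Set ℕ) →+* 𝒪'),
      ∃ (𝒪'' : Type) (_ : CommRing 𝒪'') (_ : IsDomain 𝒪'') (_ : IsDiscreteValuationRing 𝒪'')
        (_ : IsAdicComplete (IsLocalRing.maximalIdeal 𝒪'') 𝒪'')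
        (_ : Finite (IsLocalRing.ResidueField 𝒪'')) (_ : CharZero 𝒪'')
        (_ : Algebra 𝒪' 𝒪'') (_ : Module.Finite 𝒪' 𝒪'') (_ : IsLocalHom (algebraMap 𝒪' 𝒪'')),
      Function.Injective (algebraMap 𝒪' 𝒪'') ∧
      ∃ ρ : GaloisRepAdic 𝒪'',
        (∀ (ℓ : ℕ) (hℓ : ℓ.Prime) (hℓN : ¬ ℓ ∣ N) (hℓS : ℓ ∉ (↑S : Set ℕ)),
          ∀ A : ValuationSubring (AlgebraicClosure ℚ), A.LiesOverPrime ℓ →
            ∀ σ : AlgebraicClosure ℚ ≃ₐ[ℚ] AlgebraicClosure ℚ, A.IsFrobeniusAt σ ℓ →
              LinearMap.charpoly (ρ.ρ σ) =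
                X ^ 2 - C (algebraMap 𝒪' 𝒪'' (χ (CuspForm.heckeAlgebra.T hℓ hℓN hℓS))) * X
                  + C ((ℓ : 𝒪''))) ∧
        (∀ q : ℕ, q.Prime → ¬ q ∣ N → q ≠ p → ρ.IsUnramifiedAt q) :=
  result_of_inj
    (fun N _ p hp =>
      haveI : NeZero p := ⟨hp.out.ne_zero⟩
      kummerInjStatement_of_k3fin N p (fun n => hfin N p n))
    (fun N _ p hp =>
      haveI : NeZero p := ⟨hp.out.ne_zero⟩
      finStatement N p)
    hT

/-- **S30 from `K3-FIN` and the raw Eichler–Shimura statement.** -/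
theorem result_of_k3fin_rawESAll
    (hfin : ∀ (N : ℕ) [NeZero N] (p : ℕ) [Fact p.Prime] (n : ℕ),
      Fermat.Agent.S29.M4b.K3.FinStatement N (p ^ n))
    (hES : ∀ (N : ℕ) [NeZero N], RawESAll N) :
    ∀ (p : ℕ) [Fact p.Prime] (N : ℕ) [NeZero N] (S : Finset ℕ)
      (_hpS : p ∈ S) (_hNS : ∀ q : ℕ, q.Prime → q ∣ N → q ∈ S)
      (𝒪' : Type) [CommRing 𝒪'] [IsDomain 𝒪'] [IsDiscreteValuationRing 𝒪']
      [IsAdicComplete (IsLocalRing.maximalIdeal 𝒪') 𝒪'] [Finite (IsLocalRing.ResidueField 𝒪')]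
      [CharZero 𝒪'] (_hp𝒪' : (p : 𝒪') ∈ IsLocalRing.maximalIdeal 𝒪')
      (χ : CuspForm.heckeAlgebra N 2 (↑S : Set ℕ) →+* 𝒪'),
      ∃ (𝒪'' : Type) (_ : CommRing 𝒪'') (_ : IsDomain 𝒪'') (_ : IsDiscreteValuationRing 𝒪'')
        (_ : IsAdicComplete (IsLocalRing.maximalIdeal 𝒪'') 𝒪'')
        (_ : Finite (IsLocalRing.ResidueField 𝒪'')) (_ : CharZero 𝒪'')
        (_ : Algebra 𝒪' 𝒪'') (_ : Module.Finite 𝒪' 𝒪'') (_ : IsLocalHom (algebraMap 𝒪' 𝒪'')),
      Function.Injective (algebraMap 𝒪' 𝒪'') ∧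
      ∃ ρ : GaloisRepAdic 𝒪'',
        (∀ (ℓ : ℕ) (hℓ : ℓ.Prime) (hℓN : ¬ ℓ ∣ N) (hℓS : ℓ ∉ (↑S : Set ℕ)),
          ∀ A : ValuationSubring (AlgebraicClosure ℚ), A.LiesOverPrime ℓ →
            ∀ σ : AlgebraicClosure ℚ ≃ₐ[ℚ] AlgebraicClosure ℚ, A.IsFrobeniusAt σ ℓ →
              LinearMap.charpoly (ρ.ρ σ) =
                X ^ 2 - C (algebraMap 𝒪' 𝒪'' (χ (CuspForm.heckeAlgebra.T hℓ hℓN hℓS))) * X
                  + C ((ℓ : 𝒪''))) ∧
        (∀ q : ℕ, q.Prime → ¬ q ∣ N → q ≠ p → ρ.IsUnramifiedAt q) :=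
  result_of_k3fin hfin (fun N _ p _ => torsionRelations_of_rawAll p (hES N))

end Fermat.Agent.S30.H330

end
end
-- ===== PACK-END S30/H330/AdicChain.lean

-- ===== PACK-BEGIN S29/H942/K3Fin.lean
section





/-!
# S29 / M4b / K3 : the sub-piece `K3-FIN` (helper942)

`finStatement N p : K3.FinStatement N p` — for a twisted function `U` of a parabolic character, the
`Aut(ℂ/ℚ̄)`-orbit of the class of `f = qexp (U ^ p)` in `F_ℂˣ / (F_ℂˣ) ^ p` is finite.

Assembly of helper42's decomposition (`coord/S29-K3.md`):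
* (F1) DICT-hard over `ℂ`          : landed `H282.dvd_ord_of_isTwisted_complex`;
* (F2) transport along `σ`         : `dvd_ord_smul` (Prelude `SemilinearAut.ord_smul`);
* pole clearing                    : `K3.exists_div_goodQ`;
* (F4) DICT-easy + ROOT            : landed `H282.exists_pow_eq_of_forall_dvd_ord`;
* (F5) character of the root       : `H942.exists_kummerChar`;
* (F6) finitely many characters    : `finite_monoidHom_of_fg`, `fg_Gamma0`;
* (F7) same character ⟹ same class : `exists_pow_mul_eq_of_sameChar`;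
* (F8) one representative per character.
-/

set_option autoImplicit false

noncomputable section

open ModularCurve AlgebraicCurve CongruenceSubgroup UpperHalfPlane
open scoped MatrixGroups Manifold

namespace Fermat.Agent.S29.H942

open Fermat.Agent.S24 Fermat.Agent.S24.H648 Fermat.Agent.S24.H708 Fermat.Agent.S24.Deg457
open Fermat.Agent.S29 Fermat.Agent.S29.M4b

/-! ### (F6) finitely many characters -/

/-- A finitely generated group has finitely many homomorphisms to a finite group. -/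
theorem finite_monoidHom_of_fg (G H : Type*) [Group G] [Group.FG G] [Group H] [Finite H] :
    Finite (G →* H) := by
  obtain ⟨S, hS, hSfin⟩ := Group.fg_iff.mp (inferInstance : Group.FG G)
  haveI : Finite S := Set.finite_coe_iff.mpr hSfin
  refine Finite.of_injective (fun (χ : G →* H) (s : S) => χ (s : G)) ?_
  intro χ χ' h
  refine MonoidHom.eq_of_eqOn_dense hS fun s hs => ?_
  exact congrFun h ⟨s, hs⟩

/-- `Γ₀(N)` is finitely generated. -/
theorem fg_Gamma0 (N : ℕ) [NeZero N] : Group.FG (Gamma0 N) := by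
  haveI : Group.FG SL(2, ℤ) :=
    Group.fg_iff.mpr ⟨{ModularGroup.S, ModularGroup.T}, _root_.SpecialLinearGroup.SL2Z_generators,
      Set.toFinite _⟩
  infer_instance

/-! ### (F2) transport of divisibility along a semilinear automorphism -/

/-- If `m ∣ ord_w f` at every place, the same holds for `g • f`. -/
theorem dvd_ord_smul {K F : Type*} [Field K] [Field F] [Algebra K F] (g : SemilinearAut K F)
    (f : F) (m : ℤ) (h : ∀ w : Place K F, m ∣ w.ord f) (w : Place K F) : m ∣ w.ord (g • f) := by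
  have h1 := SemilinearAut.ord_smul g (g⁻¹ • w) f
  rw [smul_inv_smul] at h1
  rw [h1]
  exact h _

/-- An automorphism of `ℂ` as a `ℚ`-algebra automorphism. -/
def autQ (σ : ℂ ≃+* ℂ) : ℂ ≃ₐ[ℚ] ℂ :=
  AlgEquiv.ofRingEquiv (f := σ) (fun r => by simp)

theorem autQ_apply (σ : ℂ ≃+* ℂ) (z : ℂ) : autQ σ z = σ z := rfl

/-! ### (F7) same character ⟹ same class, for arbitrary characters -/

/-- If `V`, `V'` are holomorphic with good `p`-th powers and transform under `Γ₀(N)` by the same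
`p`-torsion multiplier system `ζ`, then `qexp (V ^ p) = g ^ p * qexp (V' ^ p)` with `g ∈ F_ℂ`. -/
theorem exists_pow_mul_eq_of_sameChar (N : ℕ) [NeZero N] {p : ℕ} (hp : p ≠ 0) {V V' : ℍ → ℂ}
    (hV : MDifferentiable 𝓘(ℂ) 𝓘(ℂ) V) (hV' : MDifferentiable 𝓘(ℂ) 𝓘(ℂ) V') (hV'0 : V' ≠ 0)
    (hVp : (fun τ => V τ ^ p) ∈ goodRing N) (hV'p : (fun τ => V' τ ^ p) ∈ goodRing N)
    (ζ : Gamma0 N → ℂ) (hζ : ∀ γ, ζ γ ^ p = 1)
    (h1 : ∀ (γ : Gamma0 N) (τ : ℍ), V ((γ : SL(2, ℤ)) • τ) = ζ γ * V τ)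
    (h2 : ∀ (γ : Gamma0 N) (τ : ℍ), V' ((γ : SL(2, ℤ)) • τ) = ζ γ * V' τ) :
    ∃ g : LaurentSeries ℂ, g ∈ H882.FC N ∧
      qexpFun 1 (fun τ => V τ ^ p) = g ^ p * qexpFun 1 (fun τ => V' τ ^ p) := by
  have hp1 : p - 1 + 1 = p := Nat.sub_add_cancel (Nat.one_le_iff_ne_zero.mpr hp)
  set W : ℍ → ℂ := fun τ => V τ * V' τ ^ (p - 1) with hWdef
  have hfun : W ^ p = (fun τ => V τ ^ p) * (fun τ => V' τ ^ p) ^ (p - 1) := by
    funext τ
    simp only [hWdef, Pi.mul_apply, Pi.pow_apply]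
    rw [mul_pow, ← pow_mul, ← pow_mul, mul_comm (p - 1) p]
  have hW : W ∈ goodRing N := by
    refine mem_goodRing_of_pow_mem N hp (hV.mul (hV'.pow (p - 1))) (fun γ hγ τ => ?_) ?_
    · show V (γ • τ) * V' (γ • τ) ^ (p - 1) = V τ * V' τ ^ (p - 1)
      have e1 := h1 ⟨γ, hγ⟩ τ
      have e2 := h2 ⟨γ, hγ⟩ τ
      simp only at e1 e2
      rw [e1, e2, mul_pow]
      have hz : ζ ⟨γ, hγ⟩ * ζ ⟨γ, hγ⟩ ^ (p - 1) = 1 := by
        rw [← pow_succ', hp1, hζ]
      calc ζ ⟨γ, hγ⟩ * V τ * (ζ ⟨γ, hγ⟩ ^ (p - 1) * V' τ ^ (p - 1))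
          = (ζ ⟨γ, hγ⟩ * ζ ⟨γ, hγ⟩ ^ (p - 1)) * (V τ * V' τ ^ (p - 1)) := by ring
        _ = V τ * V' τ ^ (p - 1) := by rw [hz, one_mul]
    · have : (fun τ => W τ ^ p) = W ^ p := rfl
      rw [this, hfun]
      exact (goodRing N).mul_mem hVp ((goodRing N).pow_mem hV'p _)
  have hWm := H882.isMerInf_of_mem_goodRing hW
  have hVm := H882.isMerInf_of_mem_goodRing hVp
  have hV'm := H882.isMerInf_of_mem_goodRing hV'p
  set w := qexpFun 1 W with hw
  set a := qexpFun 1 (fun τ => V τ ^ p) with ha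
  set b := qexpFun 1 (fun τ => V' τ ^ p) with hb
  have hwFC : w ∈ H882.FC N := H882.qexpFun_mem_FC hW
  have hbFC : b ∈ H882.FC N := H882.qexpFun_mem_FC hV'p
  have hb0 : b ≠ 0 := by
    intro h0
    have h3 := (qexpFun_eq_zero_iff hV'm).mp h0
    apply hV'0
    funext τ
    exact pow_eq_zero_iff hp |>.mp (congrFun h3 τ)
  have hwp : w ^ p = a * b ^ (p - 1) := by
    rw [hw, ← qexpFun_pow' hWm p, hfun, qexpFun_mul hVm (hV'm.pow (p - 1)),
      qexpFun_pow' hV'm (p - 1)]
  refine ⟨w * b⁻¹, mul_mem hwFC (inv_mem hbFC), ?_⟩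
  rw [mul_pow, hwp, inv_pow]
  have hbp : b ^ p = b ^ (p - 1) * b := by rw [← pow_succ, hp1]
  rw [hbp, mul_inv]
  field_simp

/-! ### The class of `σ f` -/

section Fin

variable (N : ℕ) [NeZero N] (p : ℕ) [NeZero p]

/-- `x : F_ℂ` has the Kummer character `χ`: after clearing poles by a `p`-th power, `x` is the
`q`-expansion of the `p`-th power of a holomorphic function of character `χ`. -/
def HasKummerChar (x : LaurentSeries ℂ) (χ : Gamma0 N →* rootsOfUnity p ℂ) : Prop :=
  ∃ s ∈ H882.FC N, s ≠ 0 ∧ ∃ V : ℍ → ℂ, MDifferentiable 𝓘(ℂ) 𝓘(ℂ) V ∧ V ≠ 0 ∧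
    (fun τ => V τ ^ p) ∈ goodRing N ∧
    (∀ (γ : Gamma0 N) (τ : ℍ), V ((γ : SL(2, ℤ)) • τ) = (((χ γ : rootsOfUnity p ℂ) : ℂˣ) : ℂ) * V τ) ∧
    qexpFun 1 (fun τ => V τ ^ p) = x * s ^ p

/-- (F7)+(F8) two elements with the same Kummer character differ by a `p`-th power. -/
theorem exists_eq_mul_pow_of_hasKummerChar {x x' : LaurentSeries ℂ}
    {χ : Gamma0 N →* rootsOfUnity p ℂ} (hx : HasKummerChar N p x χ)
    (hx' : HasKummerChar N p x' χ) :
    ∃ u ∈ H882.FC N, u ≠ 0 ∧ x = x' * u ^ p := by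
  have hp : p ≠ 0 := NeZero.ne p
  obtain ⟨s, hs, hs0, V, hV, hV0, hVp, hVχ, hq⟩ := hx
  obtain ⟨s', hs', hs'0, V', hV', hV'0, hV'p, hV'χ, hq'⟩ := hx'
  obtain ⟨g, hg, hgeq⟩ := exists_pow_mul_eq_of_sameChar N hp hV hV' hV'0 hVp hV'p
    (fun γ => (((χ γ : rootsOfUnity p ℂ) : ℂˣ) : ℂ))
    (fun γ => by
      have h := (χ γ).2
      rw [mem_rootsOfUnity] at h
      have h2 := congrArg (fun z : ℂˣ => (z : ℂ)) h
      simpa using h2)
    hVχ hV'χ
  have hqne : qexpFun 1 (fun τ => V τ ^ p) ≠ 0 := by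
    intro h0
    have h3 := (qexpFun_eq_zero_iff (H882.isMerInf_of_mem_goodRing hVp)).mp h0
    apply hV0
    funext τ
    exact pow_eq_zero_iff hp |>.mp (congrFun h3 τ)
  have hg0 : g ≠ 0 := by
    intro h0
    rw [h0, zero_pow hp, zero_mul] at hgeq
    exact hqne hgeq
  refine ⟨g * s' * s⁻¹, mul_mem (mul_mem hg hs') (inv_mem hs),
    mul_ne_zero (mul_ne_zero hg0 hs'0) (inv_ne_zero hs0), ?_⟩
  rw [hq, hq'] at hgeq
  have hsp : s ^ p ≠ 0 := pow_ne_zero _ hs0
  rw [mul_pow, mul_pow, inv_pow]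
  field_simp
  rw [hgeq]
  ring

/-- (F1)–(F5): every element of `F_ℂ`, nonzero, all of whose orders at the places of `F_ℂ/ℂ` are
divisible by `p`, has a Kummer character. -/
theorem exists_hasKummerChar {x : LaurentSeries ℂ} (hx : x ∈ H882.FC N) (hx0 : x ≠ 0)
    (hdvd : ∀ w : Place ℂ ↥(laurentBaseChange ℂ (modularFunctionFieldFull N)),
      (p : ℤ) ∣ w.ord ⟨x, hx⟩) :
    ∃ χ : Gamma0 N →* rootsOfUnity p ℂ, HasKummerChar N p x χ := by
  have hp : p ≠ 0 := NeZero.ne p
  have hp1 : p - 1 + 1 = p := Nat.sub_add_cancel (Nat.one_le_iff_ne_zero.mpr hp)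
  -- pole clearing
  obtain ⟨a, ha, b, hb, hb0, hab⟩ := K3.exists_div_goodQ (N := N) hx
  obtain ⟨A, hA, hqA⟩ := ha
  obtain ⟨B, hB, hqB⟩ := hb
  have ha0 : a ≠ 0 := by
    intro h0
    rw [h0, zero_div] at hab
    exact hx0 hab
  set G : ℍ → ℂ := A * B ^ (p - 1) with hGdef
  have hG : G ∈ goodRing N := (goodRing N).mul_mem hA ((goodRing N).pow_mem hB _)
  have hqG : HasQExp 1 G (a * b ^ (p - 1)) := hqA.mul (hqB.pow _)
  have hxb : a * b ^ (p - 1) = x * b ^ p := by
    rw [hab]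
    have hbp : b ^ p = b ^ (p - 1) * b := by rw [← pow_succ, hp1]
    rw [hbp]
    field_simp
  have hG0 : G ≠ 0 := by
    intro h0
    have := hqG.eq_zero_iff.mpr h0
    exact mul_ne_zero ha0 (pow_ne_zero _ hb0) this
  have hbFC : b ∈ H882.FC N := H882.mem_FC_of_mem_goodQ ⟨B, hB, hqB⟩
  have hqGeq : qexpFun 1 G = x * b ^ p := by rw [hqG.qexpFun_eq, hxb]
  have hGFC : qexpFun 1 G ∈ laurentBaseChange ℂ (modularFunctionFieldFull N) :=
    H882.qexpFun_mem_FC hG
  -- divisibility for `qexp G`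
  have hdvdG : ∀ w : Place ℂ ↥(laurentBaseChange ℂ (modularFunctionFieldFull N)),
      (p : ℤ) ∣ w.ord ⟨qexpFun 1 G, hGFC⟩ := by
    intro w
    have he : (⟨qexpFun 1 G, hGFC⟩ : ↥(laurentBaseChange ℂ (modularFunctionFieldFull N)))
        = ⟨x, hx⟩ * ⟨b, hbFC⟩ ^ (p : ℤ) := by
      apply Subtype.ext
      rw [zpow_natCast]
      exact hqGeq
    have hx0' : (⟨x, hx⟩ : ↥(laurentBaseChange ℂ (modularFunctionFieldFull N))) ≠ 0 := by
      intro h0
      exact hx0 (congrArg Subtype.val h0)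
    have hb0' : (⟨b, hbFC⟩ : ↥(laurentBaseChange ℂ (modularFunctionFieldFull N))) ≠ 0 := by
      intro h0
      exact hb0 (congrArg Subtype.val h0)
    rw [he, Place.ord_mul w hx0' (zpow_ne_zero _ hb0'), Place.ord_zpow]
    exact dvd_add (hdvd w) (dvd_mul_right _ _)
  -- ROOT
  obtain ⟨V, hV, hVG⟩ := H282.exists_pow_eq_of_forall_dvd_ord hG hG0 hGFC hp hdvdG
  have hVfun : (fun τ => V τ ^ p) = G := funext hVG
  have hV0 : V ≠ 0 := by
    intro h0
    apply hG0
    rw [← hVfun, h0]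
    funext τ
    simp [hp]
  -- character
  obtain ⟨κ, hκ, hκV⟩ := exists_kummerChar (Gamma0 N) hV hV0 hp (fun γ hγ z => by
    rw [hVG, hVG]
    exact hG.2.1 γ hγ z)
  refine ⟨MonoidHom.codRestrict κ (rootsOfUnity p ℂ) (fun γ => by
      rw [mem_rootsOfUnity]
      exact hκ γ), b, hbFC, hb0, V, hV, hV0, ?_, ?_, ?_⟩
  · rw [hVfun]
    exact hG
  · intro γ τ
    exact hκV γ τ
  · rw [hVfun]
    exact hqGeq

/-- **Sub-piece `K3-FIN`** of helper42's K3 sub-skeleton. -/
theorem finStatement : K3.FinStatement N p := by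
  letI : Algebra Kbar ℂ := K3.algKC
  intro c hc U hU
  classical
  set f := qexpFun 1 (fun τ => U τ ^ p) with hf
  have hfFC : f ∈ laurentBaseChange ℂ (modularFunctionFieldFull N) :=
    H882.qexpFun_mem_FC hU.pow_mem
  have hf0 : f ≠ 0 := qexpFun_pow_ne_zero_of_isTwisted N p hU
  have hF1 : ∀ w : Place ℂ ↥(laurentBaseChange ℂ (modularFunctionFieldFull N)),
      (p : ℤ) ∣ w.ord ⟨f, hfFC⟩ :=
    fun w => H282.dvd_ord_of_isTwisted_complex hc hU hfFC w
  haveI := fg_Gamma0 N
  haveI : Finite (Gamma0 N →* rootsOfUnity p ℂ) := finite_monoidHom_of_fg _ _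
  -- every `σ f` has a Kummer character
  have hex : ∀ σ : ℂ ≃ₐ[Kbar] ℂ,
      ∃ χ : Gamma0 N →* rootsOfUnity p ℂ, HasKummerChar N p (coeffMap (σ : ℂ →+* ℂ) f) χ := by
    intro σ
    set g := arithmeticGalois (modularFunctionFieldFull N) (autQ σ.toRingEquiv) with hg
    have hcoe : ((g • (⟨f, hfFC⟩ : ↥(laurentBaseChange ℂ (modularFunctionFieldFull N))) :
        ↥(laurentBaseChange ℂ (modularFunctionFieldFull N))) : LaurentSeries ℂ)
        = coeffMap (σ : ℂ →+* ℂ) f := by
      rw [hg, coe_arithmeticGalois_smul]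
      exact coeffMap_congr (RingHom.ext fun _ => rfl) _
    have hmem : coeffMap (σ : ℂ →+* ℂ) f ∈ laurentBaseChange ℂ (modularFunctionFieldFull N) := by
      rw [← hcoe]
      exact Subtype.property _
    have hne : coeffMap (σ : ℂ →+* ℂ) f ≠ 0 := by
      intro h0
      apply hf0
      have hinj : Function.Injective (coeffMap (σ : ℂ →+* ℂ)) := RingHom.injective _
      exact hinj (by rw [h0, map_zero])
    refine exists_hasKummerChar N p hmem hne fun w => ?_
    have h2 := dvd_ord_smul g ⟨f, hfFC⟩ (p : ℤ) hF1 w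
    have he : (⟨coeffMap (σ : ℂ →+* ℂ) f, hmem⟩ :
        ↥(laurentBaseChange ℂ (modularFunctionFieldFull N))) = g • ⟨f, hfFC⟩ :=
      Subtype.ext hcoe.symm
    rw [he]
    exact h2
  -- one representative per character
  let t : (Gamma0 N →* rootsOfUnity p ℂ) → LaurentSeries ℂ := fun χ =>
    if h : ∃ σ : ℂ ≃ₐ[Kbar] ℂ, HasKummerChar N p (coeffMap (σ : ℂ →+* ℂ) f) χ then
      coeffMap ((h.choose : ℂ ≃ₐ[Kbar] ℂ) : ℂ →+* ℂ) f
    else 0
  refine ⟨Set.range t, Set.finite_range t, fun σ => ?_⟩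
  obtain ⟨χ, hχ⟩ := hex σ
  have h : ∃ σ : ℂ ≃ₐ[Kbar] ℂ, HasKummerChar N p (coeffMap (σ : ℂ →+* ℂ) f) χ := ⟨σ, hχ⟩
  have ht : t χ = coeffMap ((h.choose : ℂ ≃ₐ[Kbar] ℂ) : ℂ →+* ℂ) f := dif_pos h
  refine ⟨t χ, ⟨χ, rfl⟩, ?_⟩
  rw [ht]
  exact exists_eq_mul_pow_of_hasKummerChar N p hχ h.choose_spec

end Fin

end Fermat.Agent.S29.H942

end
end
-- ===== PACK-END S29/H942/K3Fin.lean

-- ===== PACK-BEGIN S29/H222/ESKFrob.lean
section
/-
S29 / helper222 — piece ESK-F: every Frobenius element at `A` satisfies the Eichler–Shimura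
relation `σ² - T_ℓ σ + ℓ = 0` on `J₀(N)(ℚ̄)[m]`, from `S18.CoreStatement N A m`, the Prelude's
`PrincipalGeneratedByIntegral`, `HeckeInputsAlong` and NORM-ID.

Proof: `x = [D]`, `m D = div U₁ - div U₂` (`U₁, U₂` integral).  With `K(U) := kronNorm ℓ (σU)`
(`= Nm_α (β (σU))` by NORM-ID, reduction `Ū^ℓ · Φ²Ū` by the Kronecker congruence) put
`V₁ = σ²U₁ · U₁^ℓ · K(U₂)`, `V₂ = σ²U₂ · U₂^ℓ · K(U₁)`: same reduction, and
`div V₁ - div V₂ = m (σ²D - T_ℓ σD + ℓ D)`.  CORE gives `V₁ = c y^m V₂`.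
-/


set_option autoImplicit false
set_option linter.style.haveILetI false

noncomputable section

namespace Fermat.Agent.S29.H222

open ModularCurve AlgebraicCurve HahnSeries IsLocalRing
open Fermat.Agent.S18 (Qb IsInt toF CoreStatement)
open Fermat.Agent.S37.H400 (kronNorm)

variable {A : ValuationSubring Qb} {N : ℕ}

section Kron

variable [NeZero N] {ℓ : ℕ} [Fact ℓ.Prime] [NeZero ℓ] [CharP (ResidueField A) ℓ]

/-- Reduction of the Kronecker norm of `σU` for a Frobenius element `σ`. -/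
theorem coeffMap_residue_kronNorm_galA {g : A.decompositionSubgroup ℚ}
    (hgk : decK g = frobenius (ResidueField A) ℓ) (U : LaurentSeries A) :
    coeffMap (residue A) (kronNorm ℓ (galA g U))
      = coeffMap (residue A) U ^ ℓ
        * coeffMap (decK g) (coeffMap (decK g) (coeffMap (residue A) U)) := by
  have h1 := Fermat.Agent.S37.H400.coeffMap_kronNorm_char ℓ (residue A) (galA g U)
  have h2 := Fermat.Agent.S37.H400.laurent_pow_char ℓ (coeffMap (residue A) U)
  rw [coeffMap_residue_galA, ← hgk] at h1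
  rw [← hgk] at h2
  rw [h1, h2]

/-- The integral Kronecker norm `K(U) = kronNorm ℓ (σ U)`. -/
theorem isInt_kronNorm_galA (hnid : NormId N ℓ) {g : A.decompositionSubgroup ℚ}
    (hgk : decK g = frobenius (ResidueField A) ℓ) {U : LaurentSeries A} (hU : IsInt A N U) :
    IsInt A N (kronNorm ℓ (galA g U)) := by
  refine ⟨?_, ?_, ?_⟩
  · rw [Fermat.Agent.S37.H400.coeffMap_kronNorm]
    have := hnid (toF (isInt_galA g hU))
    rw [coe_toF] at this
    rw [← this]
    exact (heckeNorm N ℓ (toF (isInt_galA g hU))).2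
  · rw [coeffMap_residue_kronNorm_galA hgk]
    exact mul_mem (pow_mem hU.2.1 ℓ) (coeffMap_mem_fullC _ (coeffMap_mem_fullC _ hU.2.1))
  · rw [coeffMap_residue_kronNorm_galA hgk]
    exact mul_ne_zero (pow_ne_zero ℓ hU.2.2)
      (coeffMap_ne_zero_of_injective _ (decK_injective g)
        (coeffMap_ne_zero_of_injective _ (decK_injective g) hU.2.2))

theorem toF_kronNorm_galA (hnid : NormId N ℓ) {g : A.decompositionSubgroup ℚ}
    (hgk : decK g = frobenius (ResidueField A) ℓ) {U : LaurentSeries A} (hU : IsInt A N U) :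
    toF (isInt_kronNorm_galA hnid hgk hU) = heckeNorm N ℓ (toF (isInt_galA g hU)) := by
  apply Subtype.ext
  rw [coe_toF, Fermat.Agent.S37.H400.coeffMap_kronNorm, hnid (toF (isInt_galA g hU)), coe_toF]

end Kron

end Fermat.Agent.S29.H222

namespace Fermat.Agent.S29.H222

open ModularCurve AlgebraicCurve HahnSeries IsLocalRing
open Fermat.Agent.S18 (Qb IsInt toF CoreStatement)
open Fermat.Agent.S37.H400 (kronNorm)

variable {A : ValuationSubring Qb} {N : ℕ}

/-- A class is zero as soon as its divisor is the divisor of a function. -/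
theorem pic0_mk_eq_zero_of_isDivOf
    (D : Divisor.degZero (K := Qb) (F := modularFunctionFieldBar N))
    {y : modularFunctionFieldBar N} (hy : y ≠ 0)
    (h : IsDivOf (K := Qb) y (D : Divisor Qb (modularFunctionFieldBar N))) :
    (Pic0.mk D : JZero N) = 0 := by
  refine (QuotientAddGroup.eq_zero_iff _).mpr ?_
  rw [AddSubgroup.mem_addSubgroupOf]
  exact ⟨y, hy, h⟩

theorem galois_smul_mk (σ : Qb ≃ₐ[ℚ] Qb)
    (D : Divisor.degZero (K := Qb) (F := modularFunctionFieldBar N)) :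
    σ • (Pic0.mk D : JZero N)
      = Pic0.mk (SemilinearAut.degZeroSMulHom
          (arithmeticGalois (modularFunctionFieldFull N) σ) D) := by
  rw [galois_smul_pic0_def, SemilinearAut.pic0_smul_mk]

/-- **ESK-F.** -/
theorem esk_frob : ESKFrobStatement := by
  intro N _ ℓ hℓ m hm A hA hcore hpgi hHI hnid σ hσ x hx
  haveI : NeZero ℓ := ⟨hℓ.ne_zero⟩
  haveI : Fact ℓ.Prime := ⟨hℓ⟩
  haveI : CharP (ResidueField A) ℓ := charP_residueField_of_liesOver hℓ hA
  obtain ⟨hdec, hfrob⟩ := hσ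
  set g : A.decompositionSubgroup ℚ := ⟨σ, hdec⟩ with hg
  have hgk : decK g = frobenius (ResidueField A) ℓ := RingHom.ext fun x => hfrob x
  obtain ⟨hα, hβ, hP, hfin, hFI, hN⟩ := hHI
  haveI := hP
  obtain ⟨D, rfl⟩ := Pic0.mk_surjective x
  obtain ⟨U₁, U₂, h₁, h₂, D₁, D₂, hd₁, hd₂, hDD⟩ :=
    exists_isInt_of_principal hpgi (smul_mem_principal_of_torsion D hx)
  set G := arithmeticGalois (modularFunctionFieldFull N) σ with hG
  -- the integral series
  have hg₁ := isInt_galA g h₁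
  have hg₂ := isInt_galA g h₂
  have hgg₁ := isInt_galA g hg₁
  have hgg₂ := isInt_galA g hg₂
  have hK₁ := isInt_kronNorm_galA hnid hgk h₁
  have hK₂ := isInt_kronNorm_galA hnid hgk h₂
  have hV₁ : IsInt A N (galA g (galA g U₁) * U₁ ^ ℓ * kronNorm ℓ (galA g U₂)) :=
    isInt_mul (isInt_mul hgg₁ (isInt_pow h₁ ℓ)) hK₂
  have hV₂ : IsInt A N (galA g (galA g U₂) * U₂ ^ ℓ * kronNorm ℓ (galA g U₁)) :=
    isInt_mul (isInt_mul hgg₂ (isInt_pow h₂ ℓ)) hK₁
  -- equal reductions
  have hred : coeffMap (residue A) (galA g (galA g U₁) * U₁ ^ ℓ * kronNorm ℓ (galA g U₂))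
      = coeffMap (residue A) (galA g (galA g U₂) * U₂ ^ ℓ * kronNorm ℓ (galA g U₁)) := by
    simp only [map_mul, map_pow, coeffMap_residue_galA, coeffMap_residue_kronNorm_galA hgk]
    ring
  -- divisors
  have hσ₁ : IsDivOf (toF hg₁) (G • D₁) := by rw [toF_galA]; exact hd₁.smul G
  have hσ₂ : IsDivOf (toF hg₂) (G • D₂) := by rw [toF_galA]; exact hd₂.smul G
  have hσσ₁ : IsDivOf (toF hgg₁) (G • G • D₁) := by rw [toF_galA]; exact hσ₁.smul G
  have hσσ₂ : IsDivOf (toF hgg₂) (G • G • D₂) := by rw [toF_galA]; exact hσ₂.smul G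
  have hp₁ : IsDivOf (toF (isInt_pow h₁ ℓ)) ((ℓ : ℤ) • D₁) := by
    rw [toF_pow]; exact hd₁.pow ℓ
  have hp₂ : IsDivOf (toF (isInt_pow h₂ ℓ)) ((ℓ : ℤ) • D₂) := by
    rw [toF_pow]; exact hd₂.pow ℓ
  have hT₁ : IsDivOf (toF hK₁) (heckeDivBar hα hβ (G • D₁)) := by
    rw [toF_kronNorm_galA hnid hgk h₁]
    exact isDivOf_heckeDivBar hα hβ hfin hN (toF_ne_zero hg₁) hσ₁
  have hT₂ : IsDivOf (toF hK₂) (heckeDivBar hα hβ (G • D₂)) := by
    rw [toF_kronNorm_galA hnid hgk h₂]
    exact isDivOf_heckeDivBar hα hβ hfin hN (toF_ne_zero hg₂) hσ₂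
  have hdV₁ : IsDivOf (toF hV₁)
      (G • G • D₁ + (ℓ : ℤ) • D₁ + heckeDivBar hα hβ (G • D₂)) := by
    rw [toF_mul (isInt_mul hgg₁ (isInt_pow h₁ ℓ)) hK₂, toF_mul hgg₁ (isInt_pow h₁ ℓ)]
    exact ((hσσ₁.mul (toF_ne_zero _) (toF_ne_zero _) hp₁).mul
      (mul_ne_zero (toF_ne_zero _) (toF_ne_zero _)) (toF_ne_zero _) hT₂)
  have hdV₂ : IsDivOf (toF hV₂)
      (G • G • D₂ + (ℓ : ℤ) • D₂ + heckeDivBar hα hβ (G • D₁)) := by
    rw [toF_mul (isInt_mul hgg₂ (isInt_pow h₂ ℓ)) hK₁, toF_mul hgg₂ (isInt_pow h₂ ℓ)]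
    exact ((hσσ₂.mul (toF_ne_zero _) (toF_ne_zero _) hp₂).mul
      (mul_ne_zero (toF_ne_zero _) (toF_ne_zero _)) (toF_ne_zero _) hT₁)
  -- the divisor of the relation
  set Dv : Divisor Qb (modularFunctionFieldBar N) := (D : Divisor Qb (modularFunctionFieldBar N))
    with hDv
  set E : Divisor Qb (modularFunctionFieldBar N) :=
    G • G • Dv - heckeDivBar hα hβ (G • Dv) + (ℓ : ℤ) • Dv with hE
  have hGz : ∀ X : Divisor Qb (modularFunctionFieldBar N), G • ((m : ℤ) • X) = (m : ℤ) • (G • X) :=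
    fun X => map_zsmul (DistribSMul.toAddMonoidHom (Divisor Qb (modularFunctionFieldBar N)) G) m X
  have hmE : (m : ℤ) • E
      = (G • G • D₁ + (ℓ : ℤ) • D₁ + heckeDivBar hα hβ (G • D₂))
        - (G • G • D₂ + (ℓ : ℤ) • D₂ + heckeDivBar hα hβ (G • D₁)) := by
    have e1 : (m : ℤ) • E = G • G • ((m : ℤ) • Dv) - heckeDivBar hα hβ (G • ((m : ℤ) • Dv))
        + (ℓ : ℤ) • ((m : ℤ) • Dv) := by
      rw [hE, smul_add, smul_sub, hGz, hGz, map_zsmul, smul_comm (m : ℤ) (ℓ : ℤ) Dv]
    rw [e1, hDD, smul_sub, smul_sub, smul_sub, map_sub]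
    abel
  have hkey : ∀ v : Place Qb (modularFunctionFieldBar N),
      (m : ℤ) * E v = v.ord (toF hV₁) - v.ord (toF hV₂) := by
    intro v
    rw [← hdV₁ v, ← hdV₂ v, ← Finsupp.sub_apply, ← hmE, Finsupp.smul_apply, smul_eq_mul]
  have hord : ∀ v : Place Qb (modularFunctionFieldBar N),
      (m : ℤ) ∣ v.ord (toF hV₁) - v.ord (toF hV₂) := fun v => ⟨_, (hkey v).symm⟩
  obtain ⟨c, y, hc, hy, hcy⟩ := hcore _ _ hV₁ hV₂ hred hord
  have hEy : IsDivOf y E := isDivOf_of_eq_const_mul_pow hm hc hy (toF_ne_zero hV₂) hcy hkey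
  -- conclusion in `Pic0`
  have hT : heckeOperatorBar N ⟨ℓ, hℓ⟩
      = (heckePic0Bar hα hβ hFI hfin hN).toIntLinearMap := by
    unfold heckeOperatorBar
    rw [heckeOperatorAlong_eq hα hβ hFI hfin hN]
  rw [galois_smul_mk, galois_smul_mk, hT]
  show Pic0.mk _ - Pic0.correspondence _ _ hβ hα hFI hfin hN (Pic0.mk _) + (ℓ : ℤ) • Pic0.mk D = 0
  rw [Pic0.correspondence_mk]
  have hfinal : (Pic0.mk (SemilinearAut.degZeroSMulHom G (SemilinearAut.degZeroSMulHom G D))
      - Pic0.mk (Pic0.degZeroCorrespondence (heckeBetaBar Qb N ℓ) (heckeAlphaBar Qb N ℓ) hβ hα hFI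
          (SemilinearAut.degZeroSMulHom G D))
      + (ℓ : ℤ) • Pic0.mk D : JZero N)
      = Pic0.mk (SemilinearAut.degZeroSMulHom G (SemilinearAut.degZeroSMulHom G D)
          - Pic0.degZeroCorrespondence (heckeBetaBar Qb N ℓ) (heckeAlphaBar Qb N ℓ) hβ hα hFI
              (SemilinearAut.degZeroSMulHom G D)
          + (ℓ : ℤ) • D) := rfl
  rw [hfinal]
  exact pic0_mk_eq_zero_of_isDivOf _ hy hEy

end Fermat.Agent.S29.H222

end
end
-- ===== PACK-END S29/H222/ESKFrob.lean

-- ===== PACK-BEGIN S29/H222/ESKFamily.lean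
section
/-
S29 / helper222 — piece ESK, adapter: the Eichler–Shimura input of layer M in the exact shape of
`Fermat.Agent.S29.M.ESStatement` (deputy helper30's `M/Defs.lean`), from the four external inputs
stated as families:

* `CoreFamily`   : `S18.CoreStatement N A m` for `ℓ ∤ N`, `ℓ ∤ m`, `A` over `ℓ`     (row S18)
* `PGIFamily`    : Prelude `PrincipalGeneratedByIntegral A (residue A) N`            (S18/S37, M1-Gauss)
* `HIFamily`     : Prelude `HeckeInputsAlong ℚ̄ N ℓ`                                  (piece HI)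
* `NormIdFamily` : `NormId N ℓ`                                                      (piece NKI)
-/


set_option autoImplicit false
set_option linter.style.haveILetI false

noncomputable section

namespace Fermat.Agent.S29.H222

open ModularCurve AlgebraicCurve HahnSeries IsLocalRing
open Fermat.Agent.S18 (Qb IsInt toF CoreStatement)

/-- Row S18: the Kummer core for all `ℓ ∤ N m`. -/
def CoreFamily : Prop :=
  ∀ (N : ℕ) [NeZero N] (ℓ : ℕ), ℓ.Prime → ¬ ℓ ∣ N → ∀ m : ℕ, ¬ ℓ ∣ m →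
    ∀ A : ValuationSubring Qb, A.LiesOverPrime ℓ → CoreStatement N A m

/-- Principal divisors are generated by divisors of integral series (a theorem for `ℓ ∤ N`). -/
def PGIFamily : Prop :=
  ∀ (N : ℕ) [NeZero N] (ℓ : ℕ), ℓ.Prime → ¬ ℓ ∣ N →
    ∀ A : ValuationSubring Qb, A.LiesOverPrime ℓ →
      PrincipalGeneratedByIntegral A (IsLocalRing.residue A) N

/-- The six Prelude inputs of the Hecke correspondence `T_ℓ`, `ℓ ∤ N`. -/
def HIFamily : Prop :=
  ∀ (N : ℕ) [NeZero N] (ℓ : ℕ) [NeZero ℓ], ℓ.Prime → ¬ ℓ ∣ N → HeckeInputsAlong Qb N ℓ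

/-- NORM-ID for all `ℓ ∤ N`. -/
def NormIdFamily : Prop :=
  ∀ (N : ℕ) [NeZero N] (ℓ : ℕ) [NeZero ℓ], ℓ.Prime → ¬ ℓ ∣ N → NormId N ℓ

/-- **ES raw**, in the exact shape of the body of `Fermat.Agent.S29.M.ESStatement`. -/
theorem esRaw_of_families (hcore : CoreFamily) (hpgi : PGIFamily) (hHI : HIFamily)
    (hnid : NormIdFamily) :
    ∀ (N p : ℕ) [NeZero N] (ℓ : ℕ) (hℓ : ℓ.Prime), ¬ ℓ ∣ N * p →
      ∀ A : ValuationSubring Qb, A.LiesOverPrime ℓ →
        (∀ τ ∈ A.inertiaSubgroupIn ℚ, ∀ x : JZero N, (∃ n : ℕ, p ^ n • x = 0) → τ • x = x) ∧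
        (∀ σ : Qb ≃ₐ[ℚ] Qb, A.IsFrobeniusAt σ ℓ → ∀ x : JZero N, (∃ n : ℕ, p ^ n • x = 0) →
          σ • σ • x - heckeOperatorBar N ⟨ℓ, hℓ⟩ (σ • x) + ℓ • x = 0) := by
  intro N p _ ℓ hℓ hℓNp A hA
  haveI : NeZero ℓ := ⟨hℓ.ne_zero⟩
  have hℓN : ¬ ℓ ∣ N := fun h => hℓNp (Dvd.dvd.mul_right h p)
  have hℓp : ¬ ℓ ∣ p := fun h => hℓNp (Dvd.dvd.mul_left h N)
  have hp0 : p ≠ 0 := fun h => hℓp (h ▸ dvd_zero ℓ)
  have hℓpn : ∀ n : ℕ, ¬ ℓ ∣ p ^ n := fun n h => hℓp (hℓ.dvd_of_dvd_pow h)
  have hx' : ∀ (n : ℕ) (x : JZero N), p ^ n • x = 0 → ((p ^ n : ℕ) : ℤ) • x = 0 := by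
    intro n x hx
    rw [natCast_zsmul]
    exact hx
  refine ⟨?_, ?_⟩
  · rintro τ hτ x ⟨n, hx⟩
    exact esk_inertia N (p ^ n) (pow_ne_zero n hp0) A (hcore N ℓ hℓ hℓN (p ^ n) (hℓpn n) A hA)
      (hpgi N ℓ hℓ hℓN A hA) τ hτ x (hx' n x hx)
  · rintro σ hσ x ⟨n, hx⟩
    have h := esk_frob N ℓ hℓ (p ^ n) (pow_ne_zero n hp0) A hA
      (hcore N ℓ hℓ hℓN (p ^ n) (hℓpn n) A hA) (hpgi N ℓ hℓ hℓN A hA)
      (hHI N ℓ hℓ hℓN) (hnid N ℓ hℓ hℓN) σ hσ x (hx' n x hx)
    rw [natCast_zsmul] at h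
    exact h

end Fermat.Agent.S29.H222

end
end
-- ===== PACK-END S29/H222/ESKFamily.lean

-- ===== PACK-BEGIN S29/H222/ESKAdapterM.lean
section
/-
S29 / helper222 — piece ESK, adapter to layer M: `Fermat.Agent.S29.M.ESStatement` (the
Eichler–Shimura input of deputy helper30's layer M, `M/Defs.lean`) from the external inputs
of `ESKFamily.lean`:

* `CoreFamily`   : `S18.CoreStatement N A m` for `ℓ ∤ N`, `ℓ ∤ m`, `A` over `ℓ`     (row S18)
* `PGIFamily`    : Prelude `PrincipalGeneratedByIntegral A (residue A) N`            (S18/S37, M1-Gauss)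
* `NormIdFamily` : `NormId N ℓ`                                                      (piece NKI)

(`HIFamily`, the fourth input, is discharged here from helper812's piece HI.)
-/




set_option autoImplicit false
set_option linter.style.haveILetI false

noncomputable section

namespace Fermat.Agent.S29.H222

/-- **ES for layer M**: the exact `M.ESStatement`, from the four families. -/
theorem esStatement_of_families (hcore : CoreFamily) (hpgi : PGIFamily) (hHI : HIFamily)
    (hnid : NormIdFamily) : Fermat.Agent.S29.M.ESStatement :=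
  esRaw_of_families hcore hpgi hHI hnid

/-- Piece HI (helper812) in family form. -/
theorem hiFamily : HIFamily :=
  fun N _ ℓ _ _ _ => Fermat.Agent.S29.H812.heckeInputsAlong N ℓ

/-- **ES for layer M** from the three remaining external inputs. -/
theorem esStatement_of_core_pgi_normId (hcore : CoreFamily) (hpgi : PGIFamily)
    (hnid : NormIdFamily) : Fermat.Agent.S29.M.ESStatement :=
  esStatement_of_families hcore hpgi hiFamily hnid

end Fermat.Agent.S29.H222

end
end
-- ===== PACK-END S29/H222/ESKAdapterM.lean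

-- ===== PACK-BEGIN S29/H222/ESKAdapterNormId.lean
section
/-
S29 / helper222 — piece ESK, adapter: `NormIdFamily` is discharged from the landed NORM-ID
(helper819, `Fermat.Agent.S37.H819.normId`; independent copies: helper157 `node_normid`,
helper748 `norm_heckeBetaBar_eq_kronNorm`).  Hence the Eichler–Shimura input of layer M,
`Fermat.Agent.S29.M.ESStatement`, follows from the two remaining external inputs

* `CoreFamily` : `S18.CoreStatement N A m` for `ℓ ∤ N`, `ℓ ∤ m`, `A` over `ℓ`      (row S18)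
* `PGIFamily`  : Prelude `PrincipalGeneratedByIntegral A (residue A) N`             (M1-Gauss)
-/



set_option autoImplicit false
set_option linter.style.haveILetI false

noncomputable section

namespace Fermat.Agent.S29.H222

/-- Piece NKI (helper819) in family form. -/
theorem normIdFamily : NormIdFamily :=
  fun N _ ℓ _ hℓ hℓN y => Fermat.Agent.S37.H819.normId N ℓ hℓ hℓN y

/-- **ES for layer M** from the two remaining external inputs (S18 core + PGI). -/
theorem esStatement_of_core_pgi (hcore : CoreFamily) (hpgi : PGIFamily) :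
    Fermat.Agent.S29.M.ESStatement :=
  esStatement_of_core_pgi_normId hcore hpgi normIdFamily

end Fermat.Agent.S29.H222

end
end
-- ===== PACK-END S29/H222/ESKAdapterNormId.lean

-- ===== PACK-BEGIN S28/H807/Analytic.lean
section
/-
S28 / helper807 — UNCONDITIONAL prime-level analytic inputs `[A-Φ]`, `[A-W]` of the captain
skeleton: `Nonempty (ModPolyData p)` and `Nonempty (UnitPolyData p)` for every prime `p`.

Bridge facts used (already on main): helper565 (`q`-expansions of `j`, `Δ`, `Δ⁻¹`,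
`SL(2,ℤ)`-invariance of `j`) and helper685 (level-one polynomial principle, `S`-invariant form).
-/





set_option autoImplicit false
set_option maxHeartbeats 400000

noncomputable section

open ModularCurve Polynomial Matrix UpperHalfPlane
open scoped MatrixGroups

namespace Fermat.Agent.S28.H807

open Fermat.Agent.S28

theorem hasQExp_iff_hasTExp (c : LaurentSeries ℂ) (F : ℍ → ℂ) :
    HasQExp c F ↔ H565.HasTExp 1 F c := by
  rw [hasQExp_iff]
  rfl

theorem hasQExp_iff_hasQLaurent (c : LaurentSeries ℂ) (F : ℍ → ℂ) :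
    HasQExp c F ↔ H685.HasQLaurent 1 F c := by
  rw [hasQExp_iff]
  rfl

theorem evalJ_eq_aeval (P : Polynomial ℂ) :
    evalJ ℂ P = Polynomial.aeval (jqModC ℂ) P := by
  unfold evalJ
  rw [Polynomial.aeval_def]
  congr 1
  ext c : 1
  exact (H685.algebraMap_eq_C c).symm

/-- The polynomial principle holds (helper685). -/
theorem polyPrinciple : PolyPrinciple := by
  intro c F hF hS
  obtain ⟨P, hP, -⟩ := H685.exists_polynomial_of_S_invariant' F c
    ((hasQExp_iff_hasQLaurent c F).mp hF) hS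
  exact ⟨P, by rw [evalJ_eq_aeval]; exact hP⟩

theorem hasQExp_jFun : HasQExp (jqModC ℂ) H565.jFun :=
  (hasQExp_iff_hasTExp _ _).mpr H565.hasTExp_jFun

theorem coeffMap_deltaL : coeffMap (Int.castRingHom ℂ) (deltaL ℤ) = H565.deltaSeriesC := by
  unfold deltaL H565.deltaSeriesC
  rw [map_mul, coeffMap_single, coeffMap_ofPowerSeries, map_one]
  congr 2
  rw [← H565.map_dedekindEtaUnit]
  ext n
  simp

theorem coeffMap_deltaInvL :
    coeffMap (Int.castRingHom ℂ) (deltaInvL ℤ) = H565.deltaInvSeriesC := by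
  unfold deltaInvL H565.deltaInvSeriesC H565.etaInvC
  rw [map_mul, coeffMap_single, coeffMap_ofPowerSeries, map_one]
  congr 2

theorem discriminant_smul_denom (γ : SL(2, ℤ)) (τ : ℍ) :
    ModularForm.discriminant (γ • τ) = (denom γ τ) ^ 12 * ModularForm.discriminant τ := by
  rw [H565.discriminant_smul, ModularGroup.denom_apply]
  norm_cast

variable (p : ℕ) [NeZero p]

/-- **[A-Φ]** (captain stub `nonempty_modPolyData`): the modular polynomial of prime level. -/
theorem nonempty_modPolyData (hp : p.Prime) : Nonempty (ModPolyData p) :=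
  nonempty_modPolyData_of p hp polyPrinciple H565.jFun H565.jFun_smul hasQExp_jFun

/-- **[A-W]** (captain stub `nonempty_unitPolyData`): `p¹² Δ(q^p)/Δ(q)` is integral over
`ℤ[j]`. -/
theorem nonempty_unitPolyData (hp : p.Prime) : Nonempty (UnitPolyData p) :=
  nonempty_unitPolyData_of p hp polyPrinciple ModularForm.discriminant
    ModularForm.discriminant_ne_zero discriminant_smul_denom
    (by rw [coeffMap_deltaL]; exact (hasQExp_iff_hasTExp _ _).mpr H565.hasTExp_discriminant)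
    (by rw [coeffMap_deltaInvL]; exact (hasQExp_iff_hasTExp _ _).mpr H565.hasTExp_discriminant_inv)

end Fermat.Agent.S28.H807

end

end
-- ===== PACK-END S28/H807/Analytic.lean

-- ===== PACK-BEGIN S37/H98/Gen.lean
section






/-!
# S37, piece R-f [GEN] (helper98): `PrincipalGeneratedByIntegral` unconditionally

`gen N ℓ hℓ hℓN A hA : PrincipalGeneratedByIntegral A (IsLocalRing.residue A) N`
for every valuation subring `A` of `ℚ̄` over a prime `ℓ ∤ N`: the field `gen` of
`Core.PlaceRed` / `Core.GeoRed` (second half of the Prelude `ReductionInputsModL A N`).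

Assembly of landed pieces only:
* `H700.pgi` (helper700): PGI from `S28.CoreData N k` and `HasPrincipalDivisors ℚ̄ F̄_N`;
* `S28.H867.coreData_of_inputs` + `H807` + `H25` (row S28): `CoreData N k` for every field `k`
  of characteristic `ℓ ∤ N`;
* `Lib.RR.H864.hasPrincipalDivisors_modularFunctionFieldBar` (from row S24).
Also exported: `charP_residueField` (the residue field of `A` has characteristic `ℓ`),
`coreData_residueField`, and `reduction_mem` (hypothesis `hyk` of the Prelude property (ii) is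
automatic).
-/

set_option autoImplicit false
set_option synthInstance.maxHeartbeats 400000

noncomputable section

namespace Fermat.Agent.S37.H98

open ModularCurve ValuationSubring AlgebraicCurve HahnSeries

/-- The residue field of a valuation subring over the prime `ℓ` has characteristic `ℓ`. -/
theorem charP_residueField {L : Type*} [Field L] (A : ValuationSubring L) (ℓ : ℕ)
    (hℓ : ℓ.Prime) (hA : A.LiesOverPrime ℓ) : CharP (IsLocalRing.ResidueField A) ℓ := by
  have hℓm : ((ℓ : ℕ) : A) ∈ IsLocalRing.maximalIdeal A := by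
    obtain ⟨ha, hm⟩ := (ValuationSubring.mem_nonunits_iff_exists_mem_maximalIdeal).mp hA
    have : (⟨(ℓ : L), ha⟩ : A) = ((ℓ : ℕ) : A) := by
      apply Subtype.ext; simp
    rwa [this] at hm
  have h0 : ((ℓ : ℕ) : IsLocalRing.ResidueField A) = 0 := by
    have := (IsLocalRing.residue_eq_zero_iff ((ℓ : ℕ) : A)).mpr hℓm
    rwa [map_natCast] at this
  have : Fact ℓ.Prime := ⟨hℓ⟩
  exact (CharP.charP_iff_prime_eq_zero hℓ).mpr h0

/-- `S28.CoreData` over the residue field of a valuation subring of `ℚ̄` over `ℓ ∤ N`. -/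
theorem coreData_residueField (N : ℕ) [NeZero N] (ℓ : ℕ) (hℓ : ℓ.Prime) (hℓN : ¬ ℓ ∣ N)
    (A : ValuationSubring (AlgebraicClosure ℚ)) (hA : A.LiesOverPrime ℓ) :
    Fermat.Agent.S28.CoreData N (IsLocalRing.ResidueField A) := by
  have : Fact ℓ.Prime := ⟨hℓ⟩
  have : CharP (IsLocalRing.ResidueField A) ℓ := charP_residueField A ℓ hℓ hA
  exact Fermat.Agent.S28.H867.coreData_of_inputs N ℓ hℓN (IsLocalRing.ResidueField A)
    (fun p hp _ _ => Fermat.Agent.S28.H807.nonempty_modPolyData p hp)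
    (fun p hp _ _ => Fermat.Agent.S28.H807.nonempty_unitPolyData p hp)
    Fermat.Agent.S28.H25.theta_identity

/-- **R-f [GEN]**: every principal divisor of `ℚ̄(X₀(N))` is generated by divisors of
Gauss-integral functions with nonzero reduction (Prelude `PrincipalGeneratedByIntegral`), for
every valuation subring `A` of `ℚ̄` over a prime `ℓ ∤ N`. -/
theorem gen (N : ℕ) [NeZero N] (ℓ : ℕ) (hℓ : ℓ.Prime) (hℓN : ¬ ℓ ∣ N)
    (A : ValuationSubring (AlgebraicClosure ℚ)) (hA : A.LiesOverPrime ℓ) :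
    PrincipalGeneratedByIntegral A (IsLocalRing.residue A) N := by
  have := Fermat.Agent.Lib.RR.H864.hasPrincipalDivisors_modularFunctionFieldBar N
  exact Fermat.Agent.S37.H700.pgi (coreData_residueField N ℓ hℓ hℓN A hA)

/-- Reductions of Gauss-integral elements of `ℚ̄(X₀(N))` lie in the function field of the
special fibre: the hypothesis `hyk` of the Prelude property (ii) is automatic. -/
theorem reduction_mem (N : ℕ) [NeZero N] (ℓ : ℕ) (hℓ : ℓ.Prime) (hℓN : ¬ ℓ ∣ N)
    (A : ValuationSubring (AlgebraicClosure ℚ)) (hA : A.LiesOverPrime ℓ)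
    (u : LaurentSeries A) (hu : coeffMap A.subtype u ∈ modularFunctionFieldBar N) :
    coeffMap (IsLocalRing.residue A) u ∈
      modularFunctionFieldFullC (IsLocalRing.ResidueField A) N :=
  Fermat.Agent.S37.H700.reduction_mem (coreData_residueField N ℓ hℓ hℓN A hA) u hu

end Fermat.Agent.S37.H98

end
end
-- ===== PACK-END S37/H98/Gen.lean

-- ===== PACK-BEGIN S29/H222/ESKAdapterPGI.lean
section
/-
S29 / helper222 — piece ESK, adapter: `PGIFamily` is discharged from the landed piece GEN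
(helper98, `Fermat.Agent.S37.H98.gen`; independent copy: helper448).  Hence the Eichler–Shimura
input of layer M, `Fermat.Agent.S29.M.ESStatement`, follows from the S18 hub ALONE:

* `CoreFamily` : `S18.CoreStatement N A m` for `ℓ ∤ N`, `ℓ ∤ m`, `A` over `ℓ`      (row S18)
-/



set_option autoImplicit false
set_option linter.style.haveILetI false

noncomputable section

namespace Fermat.Agent.S29.H222

/-- Piece GEN (helper98) in family form. -/
theorem pgiFamily : PGIFamily :=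
  fun N _ ℓ hℓ hℓN A hA => Fermat.Agent.S37.H98.gen N ℓ hℓ hℓN A hA

/-- **ES for layer M** from the S18 hub alone. -/
theorem esStatement_of_core (hcore : CoreFamily) : Fermat.Agent.S29.M.ESStatement :=
  esStatement_of_core_pgi hcore pgiFamily

end Fermat.Agent.S29.H222

end
end
-- ===== PACK-END S29/H222/ESKAdapterPGI.lean

-- ===== PACK-BEGIN S18/H516/CoreRes.lean
section







/-!
# S18 / MOD (helper516): the S28 core data for the residue field of a place over `ℓ`

`coreData_residue` : for `A ⊆ L` a valuation subring with `(ℓ : L) ∈ 𝔪_A` (`A.LiesOverPrime ℓ`),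
`ℓ ∤ N`: `CoreData N (IsLocalRing.ResidueField A)` (S28 H867 + H326 + H25, all on main).
`coreData_of_charP` : the same for any field `k : Type` of characteristic `ℓ`.
-/

set_option autoImplicit false

noncomputable section

namespace Fermat.Agent.S18.H516

open ModularCurve Fermat.Agent.S28

/-- S28 core data for every field of characteristic `ℓ ∤ N`. -/
theorem coreData_of_charP (N : ℕ) [NeZero N] (ℓ : ℕ) [Fact ℓ.Prime] (hℓN : ¬ ℓ ∣ N)
    (k : Type) [Field k] [CharP k ℓ] : CoreData N k :=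
  H867.coreData_of_inputs N ℓ hℓN k
    (fun p hp _ _ => H326.nonempty_modPolyData p hp)
    (fun p hp _ _ => H326.nonempty_unitPolyData p hp)
    H25.theta_identity

theorem charP_residue {L : Type*} [Field L] (A : ValuationSubring L) {ℓ : ℕ} [Fact ℓ.Prime]
    (hA : A.LiesOverPrime ℓ) : CharP (IsLocalRing.ResidueField A) ℓ := by
  have hℓ : ℓ.Prime := Fact.out
  have h0 : ((ℓ : ℕ) : IsLocalRing.ResidueField A) = 0 := by
    have h1 : IsLocalRing.residue A ((ℓ : ℕ) : ↥A) = 0 := by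
      rw [IsLocalRing.residue_eq_zero_iff, IsLocalRing.mem_maximalIdeal, mem_nonunits_iff]
      intro hu
      have h2 : (ℓ : L) ∈ A.nonunits := hA
      rw [ValuationSubring.mem_nonunits_iff] at h2
      have h3 : A.valuation (ℓ : L) = 1 := by
        have := (A.valuation_eq_one_iff ((ℓ : ℕ) : ↥A)).mp hu
        simpa using this
      exact absurd h3 h2.ne
    simpa using h1
  exact (CharP.charP_iff_prime_eq_zero hℓ).mpr h0

/-- **S28 core data for the residue field of a place over `ℓ ∤ N`.** -/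
theorem coreData_residue (N : ℕ) [NeZero N] {ℓ : ℕ} [Fact ℓ.Prime] (hℓN : ¬ ℓ ∣ N)
    (A : ValuationSubring (AlgebraicClosure ℚ)) (hA : A.LiesOverPrime ℓ) :
    CoreData N (IsLocalRing.ResidueField A) := by
  have := charP_residue A hA
  exact coreData_of_charP N ℓ hℓN _

end Fermat.Agent.S18.H516

end
end
-- ===== PACK-END S18/H516/CoreRes.lean

-- ===== PACK-BEGIN S18/H694/CoreMul.lean
section






/-!
# S18 / helper694 — the hub `CoreStatement N A m` is multiplicative in `m`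

The S18 interfaces (v4) prove `CoreStatement N A p` only for PRIME `p ≠ ℓ`.  Row S29 (ES-KUM,
`S29/H222/ESKFamily.lean`, `CoreFamily`) consumes `CoreStatement N A (p ^ n)`.  This file is the
bridge:

* `laurent_const_of_pow_eq_C` : in `k((q))`, `z ^ a = C γ`, `γ ≠ 0`, `(a : k) ≠ 0` ⟹ `z = C δ`.
* `gauss_unit`      : `incl W₁ = C γ * incl W₂` with `W̄₁ ≠ 0 ≠ W̄₂` ⟹ `γ` is a unit of `A`.
* `core_mul`        : `CoreStatement N A a → CoreStatement N A b → CoreStatement N A (a * b)`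
                      (given `CoreData N k` for the residue field `k` and `(a : k) ≠ 0`).
* `coreStatement_one`, `coreStatement_of_prime`, `coreFamily_of_prime` (exact body of
  `S29.H222.CoreFamily`).
-/

set_option autoImplicit false

noncomputable section

namespace Fermat.Agent.S18.H694

open ModularCurve AlgebraicCurve HahnSeries

/-! ## 1. Constants of `k((q))` -/

section Const

variable {k : Type*} [Field k]

/-- In a power series ring over a field: `p ^ a = C γ` with `(a : k) ≠ 0`, `γ ≠ 0` forces `p`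
to be constant. -/
theorem powerSeries_const_of_pow_eq_C {a : ℕ} (ha : (a : k) ≠ 0) {p : PowerSeries k} {γ : k}
    (hγ : γ ≠ 0) (h : p ^ a = PowerSeries.C γ) :
    p = PowerSeries.C (PowerSeries.constantCoeff p) := by
  set p₀ : k := PowerSeries.constantCoeff p with hp₀
  have h0 : p₀ ^ a = γ := by
    have := congrArg PowerSeries.constantCoeff h
    rwa [map_pow, PowerSeries.constantCoeff_C] at this
  have hp₀ne : p₀ ≠ 0 := by
    intro h'
    rw [h'] at h0
    have ha0 : a ≠ 0 := by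
      rintro rfl
      exact ha (by simp)
    rw [zero_pow ha0] at h0
    exact hγ h0.symm
  have hgeom := geom_sum₂_mul p (PowerSeries.C p₀) a
  have hrhs : p ^ a - (PowerSeries.C p₀) ^ a = 0 := by
    rw [h, ← map_pow, h0, sub_self]
  rw [hrhs] at hgeom
  have hsum : (∑ i ∈ Finset.range a, p ^ i * (PowerSeries.C p₀) ^ (a - 1 - i)) ≠ 0 := by
    intro hs
    have := congrArg PowerSeries.constantCoeff hs
    rw [map_sum, map_zero] at this
    have h2 : ∀ i ∈ Finset.range a,
        PowerSeries.constantCoeff (p ^ i * (PowerSeries.C p₀) ^ (a - 1 - i)) = p₀ ^ (a - 1) := by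
      intro i hi
      rw [map_mul, map_pow, map_pow, PowerSeries.constantCoeff_C, ← hp₀, ← _root_.pow_add]
      congr 1
      have := Finset.mem_range.mp hi
      omega
    rw [Finset.sum_congr rfl h2, Finset.sum_const, Finset.card_range, nsmul_eq_mul] at this
    rcases mul_eq_zero.mp this with h3 | h3
    · exact ha h3
    · exact hp₀ne (pow_eq_zero_iff (n := a - 1) (by
        intro h4
        rw [h4, pow_zero] at h3
        exact one_ne_zero h3) |>.mp h3)
  rcases mul_eq_zero.mp hgeom with h1 | h1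
  · exact absurd h1 hsum
  · exact sub_eq_zero.mp h1

/-- In `k((q))`: `z ^ a = C γ` with `(a : k) ≠ 0`, `γ ≠ 0` forces `z` to be a nonzero constant. -/
theorem laurent_const_of_pow_eq_C {a : ℕ} (ha : (a : k) ≠ 0) {z : LaurentSeries k} {γ : k}
    (hγ : γ ≠ 0) (h : z ^ a = HahnSeries.C γ) :
    ∃ δ : k, δ ≠ 0 ∧ z = HahnSeries.C δ := by
  have ha0 : a ≠ 0 := by
    rintro rfl
    exact ha (by simp)
  have hz : z ≠ 0 := by
    rintro rfl
    rw [zero_pow ha0] at h
    exact hγ (HahnSeries.C_injective (by rw [← h, map_zero]))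
  have hord : z.order = 0 := by
    have h1 := congrArg HahnSeries.order h
    rw [HahnSeries.order_pow, HahnSeries.order_C, nsmul_eq_mul] at h1
    rcases mul_eq_zero.mp h1 with h2 | h2
    · exact absurd (by exact_mod_cast h2) ha0
    · exact h2
  have hp : HahnSeries.ofPowerSeries ℤ k z.powerSeriesPart = z := by
    rw [LaurentSeries.ofPowerSeries_powerSeriesPart, hord, neg_zero]
    show (1 : LaurentSeries k) * z = z
    rw [one_mul]
  have hpa : z.powerSeriesPart ^ a = PowerSeries.C γ := by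
    apply HahnSeries.ofPowerSeries_injective (Γ := ℤ)
    rw [map_pow, hp, h, HahnSeries.ofPowerSeries_C]
  have hconst := powerSeries_const_of_pow_eq_C ha hγ hpa
  refine ⟨PowerSeries.constantCoeff z.powerSeriesPart, ?_, ?_⟩
  · intro h0
    rw [h0, map_zero] at hconst
    rw [hconst, map_zero] at hp
    exact hz hp.symm
  · rw [← HahnSeries.ofPowerSeries_C, ← hconst, hp]

end Const

/-! ## 2. The Gauss unit lemma -/

section Gauss

variable {L : Type*} [Field L] (A : ValuationSubring L)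

/-- If two series over `A` with nonzero reductions differ by a constant `γ` of `L`, then `γ` is
(the image of) a unit of `A`. -/
theorem gauss_unit {W₁ W₂ : LaurentSeries A} {γ : L}
    (h1 : coeffMap (IsLocalRing.residue A) W₁ ≠ 0)
    (h2 : coeffMap (IsLocalRing.residue A) W₂ ≠ 0)
    (h : coeffMap A.subtype W₁ = HahnSeries.C γ * coeffMap A.subtype W₂) :
    ∃ g : A, (g : L) = γ ∧ IsLocalRing.residue A g ≠ 0 ∧ W₁ = HahnSeries.C g * W₂ := by
  have key : ∀ hγ : γ ∈ A, ∃ g : A, (g : L) = γ ∧ IsLocalRing.residue A g ≠ 0 ∧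
      W₁ = HahnSeries.C g * W₂ := by
    intro hγ
    have hW : W₁ = HahnSeries.C (⟨γ, hγ⟩ : A) * W₂ := by
      apply H516.incl_injective A
      rw [map_mul, H516.coeffMap_C, h]
      rfl
    refine ⟨⟨γ, hγ⟩, rfl, ?_, hW⟩
    intro h0
    apply h1
    rw [hW, map_mul, H516.coeffMap_C, h0, map_zero, zero_mul]
  rcases A.mem_or_inv_mem γ with hγ | hγ
  · exact key hγ
  · have hγ0 : γ ≠ 0 := by
      rintro rfl
      apply h1
      have : W₁ = 0 := by
        apply H516.incl_injective A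
        rw [h, map_zero, zero_mul, map_zero]
      rw [this, map_zero]
    have hW : HahnSeries.C (⟨γ⁻¹, hγ⟩ : A) * W₁ = W₂ := by
      apply H516.incl_injective A
      rw [map_mul, H516.coeffMap_C, h]
      show HahnSeries.C γ⁻¹ * (HahnSeries.C γ * _) = _
      rw [← mul_assoc, ← map_mul, inv_mul_cancel₀ hγ0, map_one, one_mul]
    have hres : IsLocalRing.residue A (⟨γ⁻¹, hγ⟩ : A) ≠ 0 := by
      intro h0
      apply h2
      rw [← hW, map_mul, H516.coeffMap_C, h0, map_zero, zero_mul]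
    have hu : IsUnit (⟨γ⁻¹, hγ⟩ : A) := by
      by_contra hnu
      exact hres ((IsLocalRing.residue_eq_zero_iff _).mpr
        ((IsLocalRing.mem_maximalIdeal _).mpr (mem_nonunits_iff.mpr hnu)))
    obtain ⟨u, hu⟩ := hu
    have hmem : γ ∈ A := by
      have h3 : ((u⁻¹ : Aˣ) : A) * (⟨γ⁻¹, hγ⟩ : A) = 1 := by
        rw [← hu]
        exact u.inv_mul
      have h4 : (((u⁻¹ : Aˣ) : A) : L) * γ⁻¹ = 1 := by
        have := congrArg (Subtype.val) h3
        simpa using this
      have h5 : (((u⁻¹ : Aˣ) : A) : L) = γ := by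
        field_simp at h4
        exact h4
      rw [← h5]
      exact ((u⁻¹ : Aˣ) : A).2
    exact key hmem

end Gauss

/-! ## 3. Multiplicativity of the hub -/

section Core

variable (N : ℕ) [NeZero N] (A : ValuationSubring Qb)

omit [NeZero N] in
theorem coe_algebraMap_bar (c : Qb) :
    ((algebraMap Qb (modularFunctionFieldBar N) c : modularFunctionFieldBar N) :
      LaurentSeries Qb) = HahnSeries.C c := by
  show algebraMap Qb (LaurentSeries Qb) c = HahnSeries.C c
  rw [algebraMap_laurentSeries_eq_single, ← HahnSeries.C_apply]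

variable {N A}

omit [NeZero N] in
theorem toF_ne_zero {U : LaurentSeries A} (h : IsInt A N U) : toF h ≠ 0 := by
  intro h0
  have h1 : coeffMap A.subtype U = 0 := congrArg Subtype.val h0
  have h2 : U = 0 := H516.incl_injective A (by rw [h1, map_zero])
  exact h.2.2 (by rw [h2, map_zero])

theorem isInt_C_mul {U : LaurentSeries A} (h : IsInt A N U) {g : A}
    (hg : IsLocalRing.residue A g ≠ 0) : IsInt A N (HahnSeries.C g * U) := by
  refine ⟨?_, ?_, ?_⟩
  · rw [map_mul, H516.coeffMap_C]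
    exact mul_mem (H516.C_mem_baseChange N _) h.1
  · rw [map_mul, H516.coeffMap_C]
    exact mul_mem (H516.C_mem_fullC N _ _) h.2.1
  · rw [map_mul, H516.coeffMap_C]
    refine mul_ne_zero ?_ h.2.2
    intro h0
    exact hg (HahnSeries.C_injective (by rw [h0, map_zero]))

omit [NeZero N] in
theorem toF_C_mul {U : LaurentSeries A} (h : IsInt A N U) {g : A}
    (hg : IsInt A N (HahnSeries.C g * U)) :
    toF hg = algebraMap Qb (modularFunctionFieldBar N) (g : Qb) * toF h := by
  apply Subtype.ext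
  show coeffMap A.subtype (HahnSeries.C g * U) = _
  rw [map_mul, H516.coeffMap_C]
  show _ = ((algebraMap Qb (modularFunctionFieldBar N) (g : Qb) : modularFunctionFieldBar N) :
      LaurentSeries Qb) * coeffMap A.subtype U
  rw [coe_algebraMap_bar]
  rfl

/-- **Multiplicativity of the hub.**  `CORE(a)` and `CORE(b)` imply `CORE(a * b)`, provided `a` is
invertible in the residue field of `A` (and the S28 core data for the residue field). -/
theorem core_mul (core : Fermat.Agent.S28.CoreData N (IsLocalRing.ResidueField A)) {a b : ℕ}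
    (ha : ((a : ℕ) : IsLocalRing.ResidueField A) ≠ 0)
    (hCa : CoreStatement N A a) (hCb : CoreStatement N A b) : CoreStatement N A (a * b) := by
  intro U₁ U₂ h₁ h₂ hred hdiv
  have ha0 : a ≠ 0 := by
    rintro rfl
    exact ha (by simp)
  have hdiv_a : ∀ v : Place Qb (modularFunctionFieldBar N),
      (a : ℤ) ∣ v.ord (toF h₁) - v.ord (toF h₂) := by
    intro v
    refine dvd_trans ?_ (hdiv v)
    push_cast
    exact dvd_mul_right _ _
  obtain ⟨c, y, hc, hy, hcy⟩ := hCa U₁ U₂ h₁ h₂ hred hdiv_a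
  have h₂ne := toF_ne_zero h₂
  have hcne : ∀ {c : Qb}, c ≠ 0 → algebraMap Qb (modularFunctionFieldBar N) c ≠ 0 := by
    intro c hc
    exact (map_ne_zero _).mpr hc
  have hord : ∀ v : Place Qb (modularFunctionFieldBar N),
      v.ord (toF h₁) - v.ord (toF h₂) = a * v.ord y := by
    intro v
    rw [hcy, v.ord_mul (mul_ne_zero (hcne hc) (pow_ne_zero _ hy)) h₂ne,
      v.ord_mul (hcne hc) (pow_ne_zero _ hy), Lib.RR.ord_algebraMap, Lib.RR.ord_pow]
    ring
  have hb : ∀ v : Place Qb (modularFunctionFieldBar N), (b : ℤ) ∣ v.ord y := by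
    intro v
    have := hdiv v
    rw [hord v] at this
    push_cast at this
    exact (mul_dvd_mul_iff_left (by exact_mod_cast ha0)).mp this
  -- Gauss decomposition of `y`
  have hyL : (y : LaurentSeries Qb) ≠ 0 := fun h => hy (Subtype.ext h)
  obtain ⟨c', Y₁, Y₂, hc', hY₁, hY₂, hdec⟩ :=
    H516.exists_gauss_decomp A (IsLocalRing.residue A) N core y.2 hyL
  have hY₁' : IsInt A N Y₁ := hY₁
  have hY₂' : IsInt A N Y₂ := hY₂
  -- the identity of series
  have hcyL : coeffMap A.subtype U₁ =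
      HahnSeries.C c * (y : LaurentSeries Qb) ^ a * coeffMap A.subtype U₂ := by
    have h := congrArg (Subtype.val) hcy
    rw [← coe_algebraMap_bar N c]
    exact h
  have hW : coeffMap A.subtype (U₁ * Y₂ ^ a) =
      HahnSeries.C (c * c' ^ a) * coeffMap A.subtype (Y₁ ^ a * U₂) := by
    rw [map_mul, map_pow, map_mul, map_pow, hcyL, map_mul, map_pow]
    calc HahnSeries.C c * (y : LaurentSeries Qb) ^ a * coeffMap A.subtype U₂ *
          coeffMap A.subtype Y₂ ^ a
        = HahnSeries.C c * ((y : LaurentSeries Qb) * coeffMap A.subtype Y₂) ^ a *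
          coeffMap A.subtype U₂ := by ring
      _ = HahnSeries.C c * (HahnSeries.C c' * coeffMap A.subtype Y₁) ^ a *
          coeffMap A.subtype U₂ := by rw [hdec]
      _ = _ := by ring
  have hW₁ : coeffMap (IsLocalRing.residue A) (U₁ * Y₂ ^ a) ≠ 0 := by
    rw [map_mul, map_pow]
    exact mul_ne_zero h₁.2.2 (pow_ne_zero _ hY₂'.2.2)
  have hW₂ : coeffMap (IsLocalRing.residue A) (Y₁ ^ a * U₂) ≠ 0 := by
    rw [map_mul, map_pow]
    exact mul_ne_zero (pow_ne_zero _ hY₁'.2.2) h₂.2.2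
  obtain ⟨g, -, hgres, hWA⟩ := gauss_unit A hW₁ hW₂ hW
  -- reduce mod the maximal ideal
  have hWk := congrArg (coeffMap (IsLocalRing.residue A)) hWA
  rw [map_mul, map_pow, map_mul, map_mul, map_pow, H516.coeffMap_C, ← hred] at hWk
  have hY₁ne := hY₁'.2.2
  have hz : (coeffMap (IsLocalRing.residue A) Y₂ * (coeffMap (IsLocalRing.residue A) Y₁)⁻¹) ^ a =
      HahnSeries.C (IsLocalRing.residue A g) := by
    have h3 : coeffMap (IsLocalRing.residue A) Y₂ ^ a =
        HahnSeries.C (IsLocalRing.residue A g) * coeffMap (IsLocalRing.residue A) Y₁ ^ a := by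
      apply mul_left_cancel₀ h₁.2.2
      rw [hWk]
      ring
    rw [mul_pow, h3, inv_pow, mul_assoc, mul_inv_cancel₀ (pow_ne_zero _ hY₁ne), mul_one]
  obtain ⟨δ', hδ', hzδ⟩ := laurent_const_of_pow_eq_C ha hgres hz
  obtain ⟨δ, rfl⟩ := IsLocalRing.residue_surjective δ'
  have hY₁'' : IsInt A N (HahnSeries.C δ * Y₁) := isInt_C_mul hY₁' hδ'
  have hredY : coeffMap (IsLocalRing.residue A) (HahnSeries.C δ * Y₁) =
      coeffMap (IsLocalRing.residue A) Y₂ := by
    rw [map_mul, H516.coeffMap_C, ← hzδ, mul_assoc, inv_mul_cancel₀ hY₁ne, mul_one]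
  have hδne : (δ : Qb) ≠ 0 := by
    intro h0
    apply hδ'
    have : δ = 0 := Subtype.ext h0
    rw [this, map_zero]
  have hF1 := toF_C_mul hY₁' hY₁''
  have hF2 : y * toF hY₂' = algebraMap Qb (modularFunctionFieldBar N) c' * toF hY₁' := by
    apply Subtype.ext
    show (y : LaurentSeries Qb) * coeffMap A.subtype Y₂ =
      ((algebraMap Qb (modularFunctionFieldBar N) c' : modularFunctionFieldBar N) :
        LaurentSeries Qb) * coeffMap A.subtype Y₁
    rw [coe_algebraMap_bar, hdec]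
  have hY₁F := toF_ne_zero hY₁'
  have hY₂F := toF_ne_zero hY₂'
  have hdivb : ∀ v : Place Qb (modularFunctionFieldBar N),
      (b : ℤ) ∣ v.ord (toF hY₁'') - v.ord (toF hY₂') := by
    intro v
    have e1 : v.ord (toF hY₁'') = v.ord (toF hY₁') := by
      rw [hF1, v.ord_mul (hcne hδne) hY₁F, Lib.RR.ord_algebraMap, zero_add]
    have e2 : v.ord y + v.ord (toF hY₂') = v.ord (toF hY₁') := by
      have := congrArg v.ord hF2
      rw [v.ord_mul hy hY₂F, v.ord_mul (hcne hc') hY₁F, Lib.RR.ord_algebraMap, zero_add] at this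
      exact this
    have e3 : v.ord (toF hY₁'') - v.ord (toF hY₂') = v.ord y := by
      rw [e1, ← e2]
      ring
    rw [e3]
    exact hb v
  obtain ⟨c'', t, hc'', ht, hct⟩ := hCb (HahnSeries.C δ * Y₁) Y₂ hY₁'' hY₂' hredY hdivb
  have hyt : y = algebraMap Qb (modularFunctionFieldBar N) (c' * (δ : Qb)⁻¹ * c'') * t ^ b := by
    apply mul_right_cancel₀ hY₂F
    rw [hF2]
    have h4 : toF hY₁' = algebraMap Qb (modularFunctionFieldBar N) (δ : Qb)⁻¹ * toF hY₁'' := by
      rw [hF1, ← mul_assoc, ← map_mul, inv_mul_cancel₀ hδne, map_one, one_mul]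
    rw [h4, hct]
    simp only [map_mul]
    ring
  refine ⟨c * (c' * (δ : Qb)⁻¹ * c'') ^ a, t, ?_, ht, ?_⟩
  · exact mul_ne_zero hc
      (pow_ne_zero _ (mul_ne_zero (mul_ne_zero hc' (inv_ne_zero hδne)) hc''))
  · rw [hcy, hyt]
    simp only [map_mul, map_pow]
    rw [mul_comm a b, pow_mul]
    ring

omit [NeZero N] in
/-- `CORE(1)` is trivial. -/
theorem coreStatement_one : CoreStatement N A 1 := by
  intro U₁ U₂ h₁ h₂ _ _
  have h₁ne := toF_ne_zero h₁
  have h₂ne := toF_ne_zero h₂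
  refine ⟨1, toF h₁ * (toF h₂)⁻¹, one_ne_zero, mul_ne_zero h₁ne (inv_ne_zero h₂ne), ?_⟩
  rw [map_one, one_mul, pow_one, mul_assoc, inv_mul_cancel₀ h₂ne, mul_one]

/-- **From prime `m` to all `m`.**  If the hub holds for all primes `p ≠ ℓ`, it holds for all `m`
prime to `ℓ` (`A` over `ℓ ∤ N`). -/
theorem coreStatement_of_prime {ℓ : ℕ} [Fact ℓ.Prime] (hℓN : ¬ ℓ ∣ N)
    (hA : A.LiesOverPrime ℓ)
    (h : ∀ p : ℕ, p.Prime → ¬ ℓ ∣ p → CoreStatement N A p) :
    ∀ m : ℕ, ¬ ℓ ∣ m → CoreStatement N A m := by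
  have core := H516.coreData_residue N hℓN A hA
  have := H516.charP_residue A hA
  intro m
  induction m using Nat.recOnMul with
  | zero => intro h0; exact absurd (dvd_zero ℓ) h0
  | one => intro _; exact coreStatement_one
  | prime p hp => intro hp'; exact h p hp hp'
  | mul a b iha ihb =>
    intro hab
    have ha' : ¬ ℓ ∣ a := fun h' => hab (Dvd.dvd.mul_right h' b)
    have hb' : ¬ ℓ ∣ b := fun h' => hab (Dvd.dvd.mul_left h' a)
    refine core_mul core ?_ (iha ha') (ihb hb')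
    rw [Ne, CharP.cast_eq_zero_iff (IsLocalRing.ResidueField A) ℓ]
    exact ha'

end Core

/-- The bridge S18 → S29 in the exact shape of `Fermat.Agent.S29.H222.CoreFamily`: the hub for
all primes `p ≠ ℓ` gives the hub for all `m` prime to `ℓ`. -/
theorem coreFamily_of_prime
    (h : ∀ (N : ℕ) [NeZero N] (ℓ : ℕ), ℓ.Prime → ¬ ℓ ∣ N → ∀ p : ℕ, p.Prime → ¬ ℓ ∣ p →
      ∀ A : ValuationSubring Qb, A.LiesOverPrime ℓ → CoreStatement N A p) :
    ∀ (N : ℕ) [NeZero N] (ℓ : ℕ), ℓ.Prime → ¬ ℓ ∣ N → ∀ m : ℕ, ¬ ℓ ∣ m →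
      ∀ A : ValuationSubring Qb, A.LiesOverPrime ℓ → CoreStatement N A m := by
  intro N _ ℓ hℓ hℓN m hm A hA
  have : Fact ℓ.Prime := ⟨hℓ⟩
  exact coreStatement_of_prime hℓN hA (fun p hp hp' => h N ℓ hℓ hℓN p hp hp' A hA) m hm

end Fermat.Agent.S18.H694

end
end
-- ===== PACK-END S18/H694/CoreMul.lean

-- ===== PACK-BEGIN S18/H965/GlueLemmas.lean
section





/-!
# S18 / GLUE (helper965): lemmas for `node_glue`

Interface-independent lemmas about the concrete objects of `Mod/Defs.lean`: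

* `coeff_mem_of_mem_Fc`      : elements of `Fc M E` have `q`-expansion coefficients in `E`;
* `exists_finset_mem_Fc`     : every `f ∈ Ω = F_M` lies in `Fc M E` as soon as `E` contains a
                               finite set `T` of constants (descent to a number field);
* `natCast_inv_mem_Rc`       : `ℓ ∤ m` ⟹ `m⁻¹ ∈ Rc M A E`;
* `exists_unit_twist`        : the divisor hypothesis of `CoreStatement` in the valuation-subring
                               form required by `Alg.AlgMainStatement`;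
* `sub_one_mul_inv_mem_VcSet`: `u = U₁/U₂`, `Ū₁ = Ū₂` ⟹ `(u - 1)/w ∈ VcSet M A E`.
-/

set_option autoImplicit false

noncomputable section

namespace Fermat.Agent.S18.H965

open ModularCurve AlgebraicCurve HahnSeries Fermat.Agent.S18 Fermat.Agent.S18.Mod

variable (M : ℕ) (E : IntermediateField ℚ Qb)

/-- The subfield of `Ω = F_M` of series all of whose coefficients lie in `E`. -/
def coeffField : Subfield (Om M) :=
  ((coeffMap (algebraMap (↥E) Qb)).fieldRange).comap
    (algebraMap (Om M) (LaurentSeries Qb))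

variable {M E}

theorem coeff_mem_of_mem_coeffField {f : Om M} (hf : f ∈ coeffField M E) (n : ℤ) :
    ((f : LaurentSeries Qb)).coeff n ∈ E := by
  obtain ⟨y, hy⟩ := hf
  have h : (f : LaurentSeries Qb) = coeffMap (algebraMap (↥E) Qb) y := hy.symm
  rw [h, coeffMap_coeff]
  exact (y.coeff n).2

theorem Ec_le_coeffField : Ec M E ≤ coeffField M E := by
  rintro y ⟨a, ha, rfl⟩
  refine ⟨HahnSeries.single 0 ⟨a, ha⟩, ?_⟩
  rw [coeffMap_single]
  change _ = algebraMap Qb (LaurentSeries Qb) a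
  rw [algebraMap_laurentSeries_eq_single]
  rfl

theorem gens_subset_coeffField : gens M ⊆ (coeffField M E : Set (Om M)) := by
  rintro y ⟨d, hd, hdM, rfl⟩
  refine ⟨coeffMap (algebraMap ℚ (↥E)) (qExpand ℚ d jq), ?_⟩
  rw [coeffMap_coeffMap]
  change _ = coeffEmb Qb (qExpand ℚ d jq)
  unfold coeffEmb
  exact coeffMap_congr (RingHom.ext fun c => rfl) _

theorem Fc_le_coeffField : Fc M E ≤ coeffField M E := by
  unfold Fc
  rw [Subfield.closure_le]
  rintro y (hy | hy)
  · exact Ec_le_coeffField hy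
  · exact gens_subset_coeffField hy

/-- Elements of `Fc M E` have all their `q`-expansion coefficients in `E`. -/
theorem coeff_mem_of_mem_Fc {f : Om M} (hf : f ∈ Fc M E) (n : ℤ) :
    ((f : LaurentSeries Qb)).coeff n ∈ E :=
  coeff_mem_of_mem_coeffField (Fc_le_coeffField hf) n


/-! ### Descent to a number field -/

theorem Ec_le_Fc : Ec M E ≤ Fc M E := fun _ hy =>
  Subfield.subset_closure (Or.inl hy)

theorem algebraMap_mem_Ec {a : Qb} (ha : a ∈ E) : algebraMap Qb (Om M) a ∈ Ec M E :=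
  ⟨a, ha, rfl⟩

theorem algebraMap_mem_Fc {a : Qb} (ha : a ∈ E) : algebraMap Qb (Om M) a ∈ Fc M E :=
  Ec_le_Fc (algebraMap_mem_Ec ha)

/-- The image of `ℚ(j_d : d ∣ M)` lies in `Fc M E` for every `E`. -/
theorem exists_mem_Fc_of_mem_full {z : LaurentSeries ℚ} (hz : z ∈ modularFunctionFieldFull M) :
    ∃ f ∈ Fc M E, (f : LaurentSeries Qb) = coeffEmb Qb z := by
  unfold modularFunctionFieldFull at hz
  induction hz using IntermediateField.adjoin_induction with
  | mem y hy =>
      obtain ⟨d, hd, hdM, rfl⟩ := hy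
      exact ⟨jd M d hdM, Subfield.subset_closure (Or.inr ⟨d, hd, hdM, rfl⟩), rfl⟩
  | algebraMap r =>
      refine ⟨algebraMap Qb (Om M) (algebraMap ℚ Qb r),
        algebraMap_mem_Fc (E.algebraMap_mem r), ?_⟩
      change algebraMap Qb (LaurentSeries Qb) (algebraMap ℚ Qb r) = _
      rw [algebraMap_laurentSeries_eq_single, algebraMap_laurentSeries_eq_single]
      unfold coeffEmb
      rw [coeffMap_single]
  | add x y _ _ hx hy =>
      obtain ⟨f, hf, hfx⟩ := hx
      obtain ⟨g, hg, hgy⟩ := hy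
      exact ⟨f + g, add_mem hf hg, by rw [map_add, ← hfx, ← hgy]; rfl⟩
  | inv x _ hx =>
      obtain ⟨f, hf, hfx⟩ := hx
      exact ⟨f⁻¹, inv_mem hf, by rw [map_inv₀, ← hfx]; rfl⟩
  | mul x y _ _ hx hy =>
      obtain ⟨f, hf, hfx⟩ := hx
      obtain ⟨g, hg, hgy⟩ := hy
      exact ⟨f * g, mul_mem hf hg, by rw [map_mul, ← hfx, ← hgy]; rfl⟩

variable (M) in
/-- **Descent.**  Every element of `Ω = F_M` lies in `Fc M E` as soon as the number field `E`
contains a certain finite set of constants. -/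
theorem exists_finset_series (x : LaurentSeries Qb) (hx : x ∈ modularFunctionFieldBar M) :
    ∃ T : Finset Qb, ∀ E : IntermediateField ℚ Qb, (∀ a ∈ T, a ∈ E) →
      ∃ f ∈ Fc M E, (f : LaurentSeries Qb) = x := by
  classical
  rw [mem_laurentBaseChange_iff] at hx
  induction hx using Subfield.closure_induction with
  | mem y hy =>
      rcases hy with ⟨a, rfl⟩ | ⟨z, hz, rfl⟩
      · refine ⟨{a}, fun E hE => ⟨algebraMap Qb (Om M) a, algebraMap_mem_Fc (hE a (by simp)), rfl⟩⟩
      · exact ⟨∅, fun E _ => exists_mem_Fc_of_mem_full hz⟩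
  | one => exact ⟨∅, fun E _ => ⟨1, one_mem _, rfl⟩⟩
  | add x y _ _ hx hy =>
      obtain ⟨T₁, h₁⟩ := hx
      obtain ⟨T₂, h₂⟩ := hy
      refine ⟨T₁ ∪ T₂, fun E hE => ?_⟩
      obtain ⟨f, hf, hfx⟩ := h₁ E (fun a ha => hE a (Finset.mem_union_left _ ha))
      obtain ⟨g, hg, hgy⟩ := h₂ E (fun a ha => hE a (Finset.mem_union_right _ ha))
      exact ⟨f + g, add_mem hf hg, by rw [← hfx, ← hgy]; rfl⟩
  | neg x _ hx =>
      obtain ⟨T₁, h₁⟩ := hx
      refine ⟨T₁, fun E hE => ?_⟩
      obtain ⟨f, hf, hfx⟩ := h₁ E hE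
      exact ⟨-f, neg_mem hf, by rw [← hfx]; rfl⟩
  | inv x _ hx =>
      obtain ⟨T₁, h₁⟩ := hx
      refine ⟨T₁, fun E hE => ?_⟩
      obtain ⟨f, hf, hfx⟩ := h₁ E hE
      exact ⟨f⁻¹, inv_mem hf, by rw [← hfx]; rfl⟩
  | mul x y _ _ hx hy =>
      obtain ⟨T₁, h₁⟩ := hx
      obtain ⟨T₂, h₂⟩ := hy
      refine ⟨T₁ ∪ T₂, fun E hE => ?_⟩
      obtain ⟨f, hf, hfx⟩ := h₁ E (fun a ha => hE a (Finset.mem_union_left _ ha))
      obtain ⟨g, hg, hgy⟩ := h₂ E (fun a ha => hE a (Finset.mem_union_right _ ha))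
      exact ⟨f * g, mul_mem hf hg, by rw [← hfx, ← hgy]; rfl⟩

variable (M) in
/-- **Descent**, elementwise form. -/
theorem exists_finset_mem_Fc (f : Om M) :
    ∃ T : Finset Qb, ∀ E : IntermediateField ℚ Qb, (∀ a ∈ T, a ∈ E) → f ∈ Fc M E := by
  obtain ⟨T, hT⟩ := exists_finset_series M (f : LaurentSeries Qb) f.2
  refine ⟨T, fun E hE => ?_⟩
  obtain ⟨g, hg, hgf⟩ := hT E hE
  have : g = f := Subtype.ext hgf
  exact this ▸ hg


/-! ### `m` is a unit of `A ∩ E` -/

theorem natCast_inv_mem_valuationSubring {ℓ : ℕ} (hℓ : ℓ.Prime) (A : ValuationSubring Qb)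
    (hA : A.LiesOverPrime ℓ) {m : ℕ} (hm : ¬ ℓ ∣ m) : ((m : Qb))⁻¹ ∈ A := by
  have hcop : IsCoprime (ℓ : ℤ) (m : ℤ) :=
    Nat.isCoprime_iff_coprime.mpr ((Nat.Prime.coprime_iff_not_dvd hℓ).mpr hm)
  obtain ⟨a, b, hab⟩ := hcop
  have habQ : (a : Qb) * (ℓ : Qb) + (b : Qb) * (m : Qb) = 1 := by exact_mod_cast hab
  have hℓv : A.valuation (ℓ : Qb) < 1 := (A.mem_nonunits_iff).mp hA
  have hint : ∀ c : ℤ, A.valuation (c : Qb) ≤ 1 := fun c =>
    (A.valuation_le_one_iff _).mpr (intCast_mem A c)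
  have hmle : A.valuation (m : Qb) ≤ 1 := (A.valuation_le_one_iff _).mpr (natCast_mem A m)
  have hmge : ¬ A.valuation (m : Qb) < 1 := by
    intro hlt
    have h1 : A.valuation ((a : Qb) * (ℓ : Qb)) < 1 := by
      rw [map_mul]
      calc A.valuation (a : Qb) * A.valuation (ℓ : Qb) ≤ 1 * A.valuation (ℓ : Qb) :=
            mul_le_mul' (hint a) le_rfl
        _ = A.valuation (ℓ : Qb) := one_mul _
        _ < 1 := hℓv
    have h2 : A.valuation ((b : Qb) * (m : Qb)) < 1 := by
      rw [map_mul]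
      calc A.valuation (b : Qb) * A.valuation (m : Qb) ≤ 1 * A.valuation (m : Qb) :=
            mul_le_mul' (hint b) le_rfl
        _ = A.valuation (m : Qb) := one_mul _
        _ < 1 := hlt
    have h3 : A.valuation ((a : Qb) * (ℓ : Qb) + (b : Qb) * (m : Qb)) < 1 :=
      Valuation.map_add_lt _ h1 h2
    rw [habQ, map_one] at h3
    exact lt_irrefl _ h3
  have hm1 : A.valuation (m : Qb) = 1 := le_antisymm hmle (not_lt.mp hmge)
  rw [← A.valuation_le_one_iff, map_inv₀, hm1, inv_one]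

theorem mem_Rc_iff {A : ValuationSubring Qb} {y : Om M} :
    y ∈ Rc M A E ↔ ∃ a : Qb, a ∈ A ∧ a ∈ E ∧ algebraMap Qb (Om M) a = y := by
  constructor
  · rintro ⟨a, ⟨haA, haE⟩, rfl⟩
    exact ⟨a, haA, haE, rfl⟩
  · rintro ⟨a, haA, haE, rfl⟩
    exact ⟨a, ⟨haA, haE⟩, rfl⟩

theorem natCast_inv_mem_Rc {ℓ : ℕ} (hℓ : ℓ.Prime) (A : ValuationSubring Qb)
    (hA : A.LiesOverPrime ℓ) {m : ℕ} (hm : ¬ ℓ ∣ m) : ((m : Om M))⁻¹ ∈ Rc M A E := by
  rw [mem_Rc_iff]
  refine ⟨((m : Qb))⁻¹, natCast_inv_mem_valuationSubring hℓ A hA hm,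
    inv_mem (natCast_mem E m), ?_⟩
  rw [map_inv₀, map_natCast]

theorem Rc_le_Ec {A : ValuationSubring Qb} {y : Om M} (hy : y ∈ Rc M A E) : y ∈ Ec M E := by
  obtain ⟨a, -, haE, rfl⟩ := mem_Rc_iff.mp hy
  exact algebraMap_mem_Ec haE

/-! ### The divisor hypothesis in valuation-subring form -/

theorem exists_unit_twist [NeZero M] {m : ℕ} {f g : Om M} (hf : f ≠ 0) (hg : g ≠ 0)
    (hdiv : ∀ v : Place Qb (modularFunctionFieldBar M), (m : ℤ) ∣ v.ord f - v.ord g)
    (O : ValuationSubring (Om M)) (hO : ∀ a ∈ Lc M, a ∈ O) :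
    ∃ t : Om M, t ≠ 0 ∧ (f / g) * t ^ m ∈ O ∧ ((f / g) * t ^ m)⁻¹ ∈ O := by
  by_cases hO' : O = ⊤
  · subst hO'
    exact ⟨1, one_ne_zero, ValuationSubring.mem_top _, ValuationSubring.mem_top _⟩
  obtain ⟨P⟩ := Fermat.Agent.S24.nonempty_modularPackage M
  have := P.finiteDimensional
  obtain ⟨v, hv⟩ := Fermat.Agent.Lib.RR.H443.exists_place_eq O
    (fun a => hO _ ⟨a, rfl⟩) hO' (Fermat.Agent.Lib.RR.H864.transcendental_jF M)
  obtain ⟨k, hk⟩ := hdiv v
  obtain ⟨π, hπ⟩ := Fermat.Agent.Lib.RR.exists_ord_eq_one v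
  have hπ0 : π ≠ 0 := Fermat.Agent.Lib.RR.ne_zero_of_ord_ne_zero v (by rw [hπ]; exact one_ne_zero)
  have ht0 : π ^ (-k) ≠ 0 := zpow_ne_zero _ hπ0
  have hfg : f / g ≠ 0 := div_ne_zero hf hg
  have hord : v.ord ((f / g) * (π ^ (-k)) ^ m) = 0 := by
    rw [v.ord_mul hfg (pow_ne_zero _ ht0), div_eq_mul_inv, v.ord_mul hf (inv_ne_zero hg),
      v.ord_inv, Fermat.Agent.Lib.RR.ord_pow, v.ord_zpow, hπ]
    have : v.ord f = v.ord g + m * k := by linarith
    rw [this]
    ring
  refine ⟨π ^ (-k), ht0, ?_, ?_⟩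
  · rw [← hv]
    exact Fermat.Agent.Lib.RR.mem_of_ord_nonneg v (by rw [hord])
  · rw [← hv]
    exact Fermat.Agent.Lib.RR.mem_of_ord_nonneg v (by rw [v.ord_inv, hord, neg_zero])


/-! ### `u ≡ 1` modulo the uniformiser -/

/-- A series over `Q̄` with coefficients in `A` comes from a series over `A`. -/
theorem exists_series_of_coeff_mem (A : ValuationSubring Qb) (x : LaurentSeries Qb)
    (hx : ∀ n, x.coeff n ∈ A) : ∃ U : LaurentSeries A, coeffMap A.subtype U = x := by
  refine ⟨⟨fun n => ⟨x.coeff n, hx n⟩, x.isPWO_support.mono ?_⟩, ?_⟩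
  · intro n hn
    rw [HahnSeries.mem_support]
    intro h0
    exact hn (Subtype.ext h0)
  · ext n
    rfl

theorem toF_ne_zero {A : ValuationSubring Qb} {U : LaurentSeries A} (hU : IsInt A M U) :
    toF hU ≠ 0 := by
  intro h0
  apply hU.2.2
  have h1 : coeffMap A.subtype U = 0 := congrArg Subtype.val h0
  have h2 : U = 0 := by
    ext n
    have := congrArg (fun x => x.coeff n) h1
    simpa using this
  rw [h2, map_zero]

theorem coe_toF {A : ValuationSubring Qb} {U : LaurentSeries A} (hU : IsInt A M U) :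
    ((toF hU : Om M) : LaurentSeries Qb) = coeffMap A.subtype U := rfl

/-- **`u ≡ 1 mod w`.**  If `U₁, U₂` are integral with the same reduction and `toF U_i ∈ Fc M E`,
then `(U₁/U₂ - 1)/w` lies in the Gauss valuation ring `VcSet M A E`, for any `w` generating the
maximal ideal of `Rc M A E`. -/
theorem sub_one_mul_inv_mem_VcSet (A : ValuationSubring Qb) {U₁ U₂ : LaurentSeries A}
    (h₁ : IsInt A M U₁) (h₂ : IsInt A M U₂)
    (hred : coeffMap (IsLocalRing.residue A) U₁ = coeffMap (IsLocalRing.residue A) U₂)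
    (hf₁ : toF h₁ ∈ Fc M E) (hf₂ : toF h₂ ∈ Fc M E)
    {w : Om M} (hw : w ∈ Rc M A E)
    (hgen : ∀ r ∈ Rc M A E, r⁻¹ ∉ Rc M A E → r * w⁻¹ ∈ Rc M A E) :
    (toF h₁ / toF h₂ - 1) * w⁻¹ ∈ VcSet M A E := by
  obtain ⟨w', hw'A, hw'E, rfl⟩ := mem_Rc_iff.mp hw
  have hg0 : toF h₂ ≠ 0 := toF_ne_zero h₂
  have hwF : algebraMap Qb (Om M) w' ∈ Fc M E := algebraMap_mem_Fc hw'E
  set f : Om M := (toF h₁ - toF h₂) * (algebraMap Qb (Om M) w')⁻¹ with hf
  have hfF : f ∈ Fc M E := mul_mem (sub_mem hf₁ hf₂) (inv_mem hwF)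
  have huF : (toF h₁ / toF h₂ - 1) * (algebraMap Qb (Om M) w')⁻¹ ∈ Fc M E :=
    mul_mem (sub_mem (div_mem hf₁ hf₂) (one_mem _)) (inv_mem hwF)
  -- coefficients of `f`
  have hcoeff : ∀ n : ℤ, (f : LaurentSeries Qb).coeff n
      = ((U₁.coeff n : Qb) - (U₂.coeff n : Qb)) * w'⁻¹ := by
    intro n
    have e1 : (f : LaurentSeries Qb) = (coeffMap A.subtype U₁ - coeffMap A.subtype U₂)
        * (algebraMap Qb (LaurentSeries Qb) w')⁻¹ := rfl
    rw [e1, ← map_inv₀, algebraMap_laurentSeries_eq_single, HahnSeries.coeff_mul_single_zero,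
      HahnSeries.coeff_sub, coeffMap_coeff, coeffMap_coeff]
    rfl
  have hcoeffE : ∀ (U : LaurentSeries A) (hU : IsInt A M U), toF hU ∈ Fc M E →
      ∀ n : ℤ, ((U.coeff n : A) : Qb) ∈ E := by
    intro U hU hUF n
    have := coeff_mem_of_mem_Fc hUF n
    rwa [coe_toF, coeffMap_coeff] at this
  have hcoeffA : ∀ n : ℤ, (f : LaurentSeries Qb).coeff n ∈ A := by
    intro n
    rw [hcoeff]
    set d : A := U₁.coeff n - U₂.coeff n with hd
    have hdval : ((U₁.coeff n : Qb) - (U₂.coeff n : Qb)) = (d : Qb) := rfl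
    rw [hdval]
    have hdE : (d : Qb) ∈ E := sub_mem (hcoeffE U₁ h₁ hf₁ n) (hcoeffE U₂ h₂ hf₂ n)
    have hres : IsLocalRing.residue A d = 0 := by
      have := congrArg (fun x => x.coeff n) hred
      simp only [coeffMap_coeff] at this
      rw [hd, map_sub, this, sub_self]
    have hnu : ¬ IsUnit d := by
      rw [IsLocalRing.residue_eq_zero_iff] at hres
      exact (IsLocalRing.mem_maximalIdeal _).mp hres
    by_cases hd0 : (d : Qb) = 0
    · rw [hd0, zero_mul]
      exact A.zero_mem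
    have hr : algebraMap Qb (Om M) (d : Qb) ∈ Rc M A E := mem_Rc_iff.mpr ⟨d, d.2, hdE, rfl⟩
    have hr' : (algebraMap Qb (Om M) (d : Qb))⁻¹ ∉ Rc M A E := by
      intro hmem
      obtain ⟨b, hbA, -, hb⟩ := mem_Rc_iff.mp hmem
      rw [← map_inv₀] at hb
      have hb' : b = (d : Qb)⁻¹ := (algebraMap Qb (Om M)).injective hb
      apply hnu
      refine IsUnit.of_mul_eq_one (⟨b, hbA⟩ : A) (Subtype.ext ?_)
      change (d : Qb) * b = 1
      rw [hb', mul_inv_cancel₀ hd0]
    obtain ⟨c, hcA, -, hc⟩ := mem_Rc_iff.mp (hgen _ hr hr')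
    rw [← map_inv₀, ← map_mul] at hc
    have hc' : c = (d : Qb) * w'⁻¹ := (algebraMap Qb (Om M)).injective hc
    rw [← hc']
    exact hcA
  obtain ⟨W₁, hW₁⟩ := exists_series_of_coeff_mem A (f : LaurentSeries Qb) hcoeffA
  refine ⟨huF, W₁, U₂, ⟨?_, f, hfF, hW₁.symm⟩, ⟨hcoeffE U₂ h₂ hf₂, toF h₂, hf₂, rfl⟩,
    h₂.2.2, ?_⟩
  · intro n
    have := coeff_mem_of_mem_Fc hfF n
    rwa [← hW₁, coeffMap_coeff] at this
  · rw [hW₁, ← coe_toF h₂]
    have : (toF h₁ / toF h₂ - 1) * (algebraMap Qb (Om M) w')⁻¹ * toF h₂ = f := by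
      rw [hf]
      field_simp
    rw [← this]
    rfl

end Fermat.Agent.S18.H965

end
end
-- ===== PACK-END S18/H965/GlueLemmas.lean

-- ===== PACK-BEGIN S18/H965/Glue.lean
section


/-!
# S18 / NODE GLUE (helper965)

`node_glue : Mod.GlueStatement M ℓ A m` (for PRIME `m`) — exactly the type of `node_glue` in
`Fermat/Agent/S18/Integ/Skeleton.lean` (interfaces v4 = FINAL, on main b6b9cd58):

    CoordinateStatement M ℓ → GoodModelStatement M ℓ A → AlgStatement M → CoreStatement M A m.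

Proof: given integral `U₁, U₂` with the same reduction, put `u = U₁/U₂ ∈ Ω`.
* descent: `U₁, U₂ ∈ Fc M E` as soon as `E ⊇ T` (`exists_finset_mem_Fc`); MOD supplies a member
  `p = (Ec M E, Fc M E, Rc M A E, V, w)` of the good family with `E ⊇ T`;
* `m⁻¹ ∈ Rc M A E` since `ℓ ∤ m` (`natCast_inv_mem_Rc`);
* `(u - 1)/w ∈ V = VcSet M A E` (`sub_one_mul_inv_mem_VcSet`, uses only `w_mem`, `w_gen`);
* every valuation subring `O ⊇ Q̄` of `Ω` is `⊤` or a place (`H443.exists_place_eq`), whence the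
  divisor hypothesis in the form required by ALG (`exists_unit_twist`);
* ALG gives `u = c y^m`.
-/

set_option autoImplicit false

noncomputable section

namespace Fermat.Agent.S18.H965

open ModularCurve AlgebraicCurve HahnSeries Fermat.Agent.S18 Fermat.Agent.S18.Mod

/-- **NODE GLUE (d1).** -/
theorem node_glue (M : ℕ) [NeZero M] {ℓ : ℕ} [Fact ℓ.Prime] (_hℓM : ¬ ℓ ∣ M)
    (A : ValuationSubring Qb) (hA : A.LiesOverPrime ℓ) (m : ℕ) (hmp : m.Prime) (hm : ¬ ℓ ∣ m) :
    Mod.GlueStatement M ℓ A m := by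
  classical
  intro hcoord hmod halg U₁ U₂ h₁ h₂ hred hdiv
  obtain ⟨x, S, hxS⟩ := hcoord
  obtain ⟨𝓕, -, hfam, hT⟩ := hmod x S hxS
  obtain ⟨T₁, hT₁⟩ := exists_finset_mem_Fc M (toF h₁)
  obtain ⟨T₂, hT₂⟩ := exists_finset_mem_Fc M (toF h₂)
  obtain ⟨E, V, w, -, hTE, hV, hp⟩ := hT (T₁ ∪ T₂)
  have hf₁ : toF h₁ ∈ Fc M E := hT₁ E (fun a ha => hTE a (Finset.mem_union_left _ ha))
  have hf₂ : toF h₂ ∈ Fc M E := hT₂ E (fun a ha => hTE a (Finset.mem_union_right _ ha))
  have hgood : Alg.GoodModel (Lc M) (Ec M E) (Fc M E) (Rc M A E) V w x S := hfam.good _ hp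
  have hm0 : m ≠ 0 := hmp.ne_zero
  have hu0 : toF h₁ / toF h₂ ≠ 0 := div_ne_zero (toF_ne_zero h₁) (toF_ne_zero h₂)
  have huV : (toF h₁ / toF h₂ - 1) * w⁻¹ ∈ V := by
    have h := sub_one_mul_inv_mem_VcSet A h₁ h₂ hred hf₁ hf₂ hgood.w_mem hgood.w_gen
    rw [← hV] at h
    exact h
  obtain ⟨y, c, hcL, hc0, huy⟩ := halg (Lc M) x S 𝓕 hfam _ hp m
    hmp (natCast_inv_mem_Rc Fact.out A hA hm) (toF h₁ / toF h₂) (div_mem hf₁ hf₂) hu0 huV
    (exists_unit_twist (toF_ne_zero h₁) (toF_ne_zero h₂) hdiv)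
  obtain ⟨c', rfl⟩ := hcL
  refine ⟨c', y, ?_, ?_, ?_⟩
  · rintro rfl
    exact hc0 (map_zero _)
  · rintro rfl
    rw [zero_pow hm0, mul_zero] at huy
    exact hu0 huy
  · rw [← huy, div_mul_cancel₀ _ (toF_ne_zero h₂)]

end Fermat.Agent.S18.H965

end
end
-- ===== PACK-END S18/H965/Glue.lean

-- ===== PACK-BEGIN S28/H988/Degree.lean
section
/-
S28 degree API (helper988), UNCONDITIONAL, for consumers in rows S18 / S37 / A2.
`E_N(k) := modularFunctionFieldFullC k N = k(j(q^d) : d ∣ N) ⊂ k((q))`.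

* `relfinrank_jField_full_eq`  : `[E_N(k) : k(j)] = ψ(N)`            (all primes `p ∣ N` invertible in `k`)
* `relfinrank_full_mul_prime`  : `[E_{Np}(k) : E_N(k)] = p + 1` (`p ∤ N`), `= p` (`p ∣ N`)
* `modularFunctionFieldBar_eq_fullC` : the Prelude's `ℚ̄`-function field of `X₀(N)` is `E_N(ℚ̄)`
* `relfinrank_bar_mul_prime`, `relfinrank_jField_bar_eq` : the same for `modularFunctionFieldBar`.
-/







set_option autoImplicit false

noncomputable section

open ModularCurve IntermediateField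

namespace Fermat.Agent.S28.H988

section AnyField

variable (k : Type*) [Field k]

/-- All hypotheses of helper867's degree theory hold as soon as the primes dividing `N` are
invertible in `k`. -/
theorem good_of_char (N : ℕ) (hN : N ≠ 0) (hchar : ∀ p : ℕ, p.Prime → p ∣ N → (p : k) ≠ 0) :
    H867.Good k N :=
  H867.good_of_inputs k N hN (fun p hp _ _ => H807.nonempty_modPolyData p hp)
    (fun p hp _ _ => H807.nonempty_unitPolyData p hp) H25.theta_identity hchar

/-- **Degree formula.** `[k(j(q^d) : d ∣ N) : k(j)] = ψ(N)`. -/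
theorem relfinrank_jField_full_eq (N : ℕ) (hN : N ≠ 0)
    (hchar : ∀ p : ℕ, p.Prime → p ∣ N → (p : k) ≠ 0) :
    (jField k).relfinrank (modularFunctionFieldFullC k N) = dedekindPsi N := by
  have h := (good_of_char k N hN hchar).degE_eq
  rw [H867.gFun_eq_dedekindPsi hN] at h
  exact h

theorem dedekindPsi_pos (N : ℕ) (hN : N ≠ 0) : 0 < dedekindPsi N := by
  rw [← H867.gFun_eq_dedekindPsi hN]
  exact H867.gFun_pos N

/-- **Degree of the tower step.** `[E_{Np} : E_N] = p + 1` if `p ∤ N`, `= p` if `p ∣ N`. -/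
theorem relfinrank_full_mul_prime (N p : ℕ) (hN : N ≠ 0) (hp : p.Prime)
    (hchar : ∀ r : ℕ, r.Prime → r ∣ N * p → (r : k) ≠ 0) :
    (modularFunctionFieldFullC k N).relfinrank (modularFunctionFieldFullC k (N * p)) =
      if p ∣ N then p else p + 1 := by
  have hNp : N * p ≠ 0 := Nat.mul_ne_zero hN hp.ne_zero
  have hdvd : N ∣ N * p := Dvd.intro p rfl
  have hG := good_of_char k (N * p) hNp hchar
  have htower := hG.tower hdvd
  have h1 : H867.degE k N = dedekindPsi N :=
    relfinrank_jField_full_eq k N hN (fun r hr hrN => hchar r hr (hrN.trans hdvd))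
  have h2 : H867.degE k (N * p) = dedekindPsi (N * p) :=
    relfinrank_jField_full_eq k (N * p) hNp hchar
  rw [h1, h2] at htower
  have hpos := dedekindPsi_pos N hN
  by_cases hpN : p ∣ N
  · rw [if_pos hpN]
    rw [H626.psi_mul_prime_of_dvd hN hp hpN, mul_comm p] at htower
    exact Nat.eq_of_mul_eq_mul_left hpos htower
  · rw [if_neg hpN]
    rw [H626.psi_mul_prime_of_not_dvd hN hp hpN, mul_comm (p + 1)] at htower
    exact Nat.eq_of_mul_eq_mul_left hpos htower

end AnyField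

section Bar

variable (L : Type*) [Field L] [Algebra ℚ L]

theorem image_divisorExpansions_eq (N : ℕ) :
    ⇑(coeffEmb L) '' divisorExpansions N = divisorExpansionsC L N := by
  ext x
  constructor
  · rintro ⟨y, ⟨d, hne, hd, rfl⟩, rfl⟩
    refine ⟨d, hne, hd, ?_⟩
    rw [coeffEmb, ← jqModC_rat, coeffMap_qExpand, coeffMap_jqModC]
  · rintro ⟨d, hne, hd, rfl⟩
    refine ⟨qExpand ℚ d jq, ⟨d, hne, hd, rfl⟩, ?_⟩
    rw [coeffEmb, ← jqModC_rat, coeffMap_qExpand, coeffMap_jqModC]

/-- The base change of the Prelude's `ℚ`-function field is `L(j(q^d) : d ∣ N)`. -/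
theorem laurentBaseChange_full_eq_fullC (N : ℕ) :
    laurentBaseChange L (modularFunctionFieldFull N) = modularFunctionFieldFullC L N := by
  rw [modularFunctionFieldFull, Fermat.Agent.S24.H368.laurentBaseChange_adjoin,
    image_divisorExpansions_eq]
  rfl

end Bar

/-- The Prelude's function field of `X₀(N)` over `ℚ̄` is `ℚ̄(j(q^d) : d ∣ N)`. -/
theorem modularFunctionFieldBar_eq_fullC (N : ℕ) :
    modularFunctionFieldBar N = modularFunctionFieldFullC (AlgebraicClosure ℚ) N :=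
  laurentBaseChange_full_eq_fullC _ N

theorem natCast_ne_zero_bar {p : ℕ} (hp : p ≠ 0) : ((p : ℕ) : AlgebraicClosure ℚ) ≠ 0 :=
  Nat.cast_ne_zero.mpr hp

/-- `[ℚ̄(X₀(N)) : ℚ̄(j)] = ψ(N)`. -/
theorem relfinrank_jField_bar_eq (N : ℕ) (hN : N ≠ 0) :
    (jField (AlgebraicClosure ℚ)).relfinrank (modularFunctionFieldBar N) = dedekindPsi N := by
  rw [modularFunctionFieldBar_eq_fullC]
  exact relfinrank_jField_full_eq _ N hN (fun p hp _ => natCast_ne_zero_bar hp.ne_zero)

/-- `[ℚ̄(X₀(Np)) : ℚ̄(X₀(N))] = p + 1` if `p ∤ N`, `= p` if `p ∣ N`. -/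
theorem relfinrank_bar_mul_prime (N p : ℕ) (hN : N ≠ 0) (hp : p.Prime) :
    (modularFunctionFieldBar N).relfinrank (modularFunctionFieldBar (N * p)) =
      if p ∣ N then p else p + 1 := by
  rw [modularFunctionFieldBar_eq_fullC, modularFunctionFieldBar_eq_fullC]
  exact relfinrank_full_mul_prime _ N p hN hp (fun r hr _ => natCast_ne_zero_bar hr.ne_zero)

end Fermat.Agent.S28.H988

end

end
-- ===== PACK-END S28/H988/Degree.lean

-- ===== PACK-BEGIN S18/H568/D2.lean
section






/-!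
# S18 / node D2 (helper568): transfer `CORE(M) → CORE(N)`

EXACT node statement of `origin/helper18:Fermat/Agent/S18/Integ/Skeleton.lean` (`node_d2`), with
`levelM N ℓ` unfolded (`levelM` lives in the skeleton file, which contains `sorry`):

    theorem node_d2 (N : ℕ) [NeZero N] {ℓ : ℕ} [Fact ℓ.Prime] (hℓN : ¬ ℓ ∣ N)
        (A : ValuationSubring Qb) (hA : A.LiesOverPrime ℓ) (m : ℕ) (hm : ¬ ℓ ∣ m) :
        CoreStatement (if ℓ = 3 then Nat.lcm N 2 else if ℓ = 2 then Nat.lcm N 3 else N) A m →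
          CoreStatement N A m

General form: `coreStatement_of_dvd` (any `N ∣ M` with `[F_M : F_N]` nonzero and prime to `m`).

Proof: (1) `IsInt A N U → IsInt A M U` (monotonicity of the function fields);
(2) for a place `w` of `F_M`, `ord_w(f) = e(w) · ord_{w|F_N}(f)` for `f ∈ F_N` (Prelude
`Place.ord_restrictAlong`), so `m ∣ div` is inherited; (3) norm trick
(`exists_pow_of_norm_coprime`); (4) degree `[F_{Np} : F_N] = p + 1` for `p ∤ N`
(helper988, `relfinrank_bar_mul_prime`, on main).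
-/

set_option autoImplicit false

noncomputable section

namespace Fermat.Agent.S18.H568

open ModularCurve AlgebraicCurve HahnSeries IntermediateField Module

section Generic

variable {K Ω : Type*} [Field K] [Field Ω] [Algebra K Ω] {E F : IntermediateField K Ω}

/-- `extendScalars h` and `F` (with the `E`-algebra structure along the inclusion) are the same
`E`-vector space. -/
def extendScalarsLinearEquiv568 (hEF : E ≤ F) :
    letI := (IntermediateField.inclusion hEF).toRingHom.toAlgebra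
    ↥(extendScalars hEF) ≃ₗ[E] F :=
  letI := (IntermediateField.inclusion hEF).toRingHom.toAlgebra
  { toFun := fun x => ⟨x.1, (mem_extendScalars hEF).mp x.2⟩
    invFun := fun x => ⟨x.1, (mem_extendScalars hEF).mpr x.2⟩
    map_add' := fun _ _ => rfl
    map_smul' := fun _ _ => rfl
    left_inv := fun _ => rfl
    right_inv := fun _ => rfl }

theorem finrank_inclusion_eq_relfinrank (hEF : E ≤ F) :
    letI := (IntermediateField.inclusion hEF).toRingHom.toAlgebra
    finrank E F = E.relfinrank F := by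
  letI := (IntermediateField.inclusion hEF).toRingHom.toAlgebra
  rw [relfinrank_eq_finrank_of_le hEF]
  exact (extendScalarsLinearEquiv568 hEF).finrank_eq.symm

theorem finiteDimensional_inclusion (hEF : E ≤ F) (h0 : E.relfinrank F ≠ 0) :
    letI := (IntermediateField.inclusion hEF).toRingHom.toAlgebra
    FiniteDimensional E F := by
  letI := (IntermediateField.inclusion hEF).toRingHom.toAlgebra
  apply FiniteDimensional.of_finrank_pos
  rw [finrank_inclusion_eq_relfinrank hEF]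
  exact Nat.pos_of_ne_zero h0

end Generic

/-- Monotonicity of `ℚ̄(X₀(N))` in the level. -/
theorem bar_le_of_dvd {N M : ℕ} [NeZero N] [NeZero M] (h : N ∣ M) :
    modularFunctionFieldBar N ≤ modularFunctionFieldBar M := by
  rw [Fermat.Agent.S28.H988.modularFunctionFieldBar_eq_fullC,
    Fermat.Agent.S28.H988.modularFunctionFieldBar_eq_fullC]
  exact full_degeneracyC_le _ h

theorem isInt_of_dvd {N M : ℕ} [NeZero N] [NeZero M] (h : N ∣ M) {A : ValuationSubring Qb}
    {U : LaurentSeries A} (hU : IsInt A N U) : IsInt A M U :=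
  ⟨bar_le_of_dvd h hU.1, full_degeneracyC_le _ h hU.2.1, hU.2.2⟩

theorem toF_ne_zero {N : ℕ} {A : ValuationSubring Qb} {U : LaurentSeries A}
    (hU : IsInt A N U) : toF hU ≠ 0 := by
  intro h0
  have h1 : coeffMap A.subtype U = 0 := congrArg Subtype.val h0
  have h2 : U = 0 := by
    ext n
    have := congrArg (fun f : LaurentSeries Qb => f.coeff n) h1
    simpa [coeffMap_coeff] using this
  exact hU.2.2 (by rw [h2]; exact map_zero _)

/-- **General transfer**: `CORE(M) → CORE(N)` for `N ∣ M` when `[F_M : F_N]` is finite and prime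
to `m`. -/
theorem coreStatement_of_dvd (N M : ℕ) [NeZero N] [NeZero M] (hNM : N ∣ M)
    (A : ValuationSubring Qb) (m : ℕ)
    (hd0 : (modularFunctionFieldBar N).relfinrank (modularFunctionFieldBar M) ≠ 0)
    (hcop : Nat.Coprime ((modularFunctionFieldBar N).relfinrank (modularFunctionFieldBar M)) m) :
    CoreStatement M A m → CoreStatement N A m := by
  intro hM U₁ U₂ h₁ h₂ hred hord
  have hle := bar_le_of_dvd hNM
  set φ : modularFunctionFieldBar N →ₐ[Qb] modularFunctionFieldBar M :=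
    IntermediateField.inclusion hle with hφdef
  letI : Algebra (modularFunctionFieldBar N) (modularFunctionFieldBar M) := algebraAlong φ
  haveI : IsScalarTower Qb (modularFunctionFieldBar N) (modularFunctionFieldBar M) :=
    isScalarTower_along φ
  haveI hfd : FiniteDimensional (modularFunctionFieldBar N) (modularFunctionFieldBar M) :=
    finiteDimensional_inclusion hle hd0
  have hfr : finrank (modularFunctionFieldBar N) (modularFunctionFieldBar M) =
      (modularFunctionFieldBar N).relfinrank (modularFunctionFieldBar M) :=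
    finrank_inclusion_eq_relfinrank hle
  have hφint : φ.toRingHom.IsIntegral := fun x =>
    (Algebra.IsIntegral.of_finite (modularFunctionFieldBar N) (modularFunctionFieldBar M)).isIntegral x
  have h₁' : IsInt A M U₁ := isInt_of_dvd hNM h₁
  have h₂' : IsInt A M U₂ := isInt_of_dvd hNM h₂
  have e₁ : toF h₁' = φ (toF h₁) := rfl
  have e₂ : toF h₂' = φ (toF h₂) := rfl
  obtain ⟨c, y, hc, hy, hcy⟩ := hM U₁ U₂ h₁' h₂' hred (fun w => by
    rw [e₁, e₂, Place.ord_restrictAlong φ hφint w, Place.ord_restrictAlong φ hφint w, ← mul_sub]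
    exact Dvd.dvd.mul_left (hord _) _)
  have hn₁ := toF_ne_zero h₁
  have hn₂ := toF_ne_zero h₂
  -- descend `u = toF h₁ / toF h₂`
  have hu : toF h₁ / toF h₂ ≠ 0 := div_ne_zero hn₁ hn₂
  have hkey : algebraMap (modularFunctionFieldBar N) (modularFunctionFieldBar M)
      (toF h₁ / toF h₂) = algebraMap Qb (modularFunctionFieldBar M) c * y ^ m := by
    have hn₂' : toF h₂' ≠ 0 := toF_ne_zero h₂'
    show φ (toF h₁ / toF h₂) = _
    rw [map_div₀, ← e₁, ← e₂, hcy, mul_div_assoc, div_self hn₂', mul_one]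
  obtain ⟨c', y', hc', hy', hfin⟩ :=
    exists_pow_of_norm_coprime m (by rw [hfr]; exact hcop) (toF h₁ / toF h₂) hu c hc y hy hkey
  refine ⟨c', y', hc', hy', ?_⟩
  rw [← hfin, div_mul_cancel₀ _ hn₂]

/-- Transfer along `N ∣ N * p`, `p` prime not dividing `N`, when `p + 1` is prime to `m`. -/
theorem coreStatement_of_mul_prime (N p : ℕ) [NeZero N] (hp : p.Prime) (hpN : ¬ p ∣ N)
    (A : ValuationSubring Qb) (m : ℕ) (h2 : Nat.Coprime (p + 1) m) :
    CoreStatement (N * p) A m → CoreStatement N A m := by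
  haveI : NeZero (N * p) := ⟨Nat.mul_ne_zero (NeZero.ne N) hp.ne_zero⟩
  have hdeg := Fermat.Agent.S28.H988.relfinrank_bar_mul_prime N p (NeZero.ne N) hp
  rw [if_neg hpN] at hdeg
  refine coreStatement_of_dvd N (N * p) (Dvd.intro p rfl) A m ?_ ?_
  · rw [hdeg]; exact Nat.succ_ne_zero p
  · rw [hdeg]; exact h2

/-- **NODE D2** (statement of `Integ/Skeleton.lean`, `levelM N ℓ` unfolded). -/
theorem node_d2 (N : ℕ) [NeZero N] {ℓ : ℕ} [Fact ℓ.Prime] (_hℓN : ¬ ℓ ∣ N)
    (A : ValuationSubring Qb) (_hA : A.LiesOverPrime ℓ) (m : ℕ) (hm : ¬ ℓ ∣ m) :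
    CoreStatement (if ℓ = 3 then Nat.lcm N 2 else if ℓ = 2 then Nat.lcm N 3 else N) A m →
      CoreStatement N A m := by
  split_ifs with h3 h2
  · -- ℓ = 3, M = lcm N 2
    subst h3
    by_cases h : 2 ∣ N
    · rw [Nat.lcm_eq_left h]; exact id
    · have hc : Nat.Coprime N 2 :=
        (Nat.coprime_comm.mp ((Nat.Prime.coprime_iff_not_dvd Nat.prime_two).mpr h))
      rw [hc.lcm_eq_mul]
      have hm3 : Nat.Coprime 3 m := (Nat.Prime.coprime_iff_not_dvd Nat.prime_three).mpr hm
      exact coreStatement_of_mul_prime N 2 Nat.prime_two h A m hm3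
  · -- ℓ = 2, M = lcm N 3
    subst h2
    by_cases h : 3 ∣ N
    · rw [Nat.lcm_eq_left h]; exact id
    · have hc : Nat.Coprime N 3 :=
        (Nat.coprime_comm.mp ((Nat.Prime.coprime_iff_not_dvd Nat.prime_three).mpr h))
      rw [hc.lcm_eq_mul]
      have hm2 : Nat.Coprime 2 m := (Nat.Prime.coprime_iff_not_dvd Nat.prime_two).mpr hm
      have hm4 : Nat.Coprime (3 + 1) m := by
        have : (3 + 1 : ℕ) = 2 ^ 2 := by norm_num
        rw [this]
        exact Nat.Coprime.pow_left 2 hm2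
      exact coreStatement_of_mul_prime N 3 Nat.prime_three h A m hm4
  · exact id

end Fermat.Agent.S18.H568

end

end
-- ===== PACK-END S18/H568/D2.lean

-- ===== PACK-BEGIN S18/H694/CoreFamilyOfNodes.lean
section





/-!
# S18 / helper694 — the hub for ALL `m` from the two open nodes (`node_mod`, `node_alg`)

The S18 skeleton (interfaces v4) produces the hub `CoreStatement N A p` only for PRIME `p ≠ ℓ`.
Row S29 (`S29/H222/ESKFamily.lean`, `CoreFamily`; `esStatement_of_core`) needs it for all `m`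
prime to `ℓ`.  This file wires the closed nodes on main (`H333.node_coord`, `H965.node_glue`,
`H568.node_d2`) with `H694.coreStatement_of_prime`:

* `coreStatement_of_nodes` : `CoreStatement N A m` for all `m` with `ℓ ∤ m`, from `node_mod` at the
  level `M = levelM N ℓ` and `node_alg`;
* `coreFamily_of_nodes` : the exact body of `S29.H222.CoreFamily` from the two node statements
  (in the exact shapes of `Integ/Skeleton.lean`).

When `node_mod` and `node_alg` are on main, `CoreFamily` is `coreFamily_of_nodes node_mod node_alg`.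
-/

set_option autoImplicit false

noncomputable section

namespace Fermat.Agent.S18.H694

open ModularCurve AlgebraicCurve

/-- The level at which good reduction is proved (same as `Integ.levelM` of the skeleton). -/
def levelAux (N ℓ : ℕ) : ℕ := if ℓ = 3 then Nat.lcm N 2 else if ℓ = 2 then Nat.lcm N 3 else N

theorem levelAux_ne_zero (N ℓ : ℕ) [NeZero N] : levelAux N ℓ ≠ 0 := by
  unfold levelAux
  split_ifs <;> simp [NeZero.ne N]

theorem not_dvd_levelAux (N : ℕ) {ℓ : ℕ} [Fact ℓ.Prime] (hℓN : ¬ ℓ ∣ N) :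
    ¬ ℓ ∣ levelAux N ℓ := by
  unfold levelAux
  split_ifs with h3 h2
  · subst h3
    intro h
    have := (Nat.Prime.dvd_mul (by norm_num : Nat.Prime 3)).mp (h.trans (Nat.lcm_dvd_mul N 2))
    rcases this with h | h
    · exact hℓN h
    · omega
  · subst h2
    intro h
    have := (Nat.Prime.dvd_mul (by norm_num : Nat.Prime 2)).mp (h.trans (Nat.lcm_dvd_mul N 3))
    rcases this with h | h
    · exact hℓN h
    · omega
  · exact hℓN

/-- The hub at level `N` for all `m` prime to `ℓ`, from `node_mod` at level `levelAux N ℓ` and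
`node_alg`. -/
theorem coreStatement_of_nodes (N : ℕ) [NeZero N] {ℓ : ℕ} [Fact ℓ.Prime] (hℓN : ¬ ℓ ∣ N)
    (A : ValuationSubring Qb) (hA : A.LiesOverPrime ℓ)
    (hmod : Mod.GoodModelStatement (levelAux N ℓ) ℓ A)
    (halg : Mod.AlgStatement (levelAux N ℓ)) :
    ∀ m : ℕ, ¬ ℓ ∣ m → CoreStatement N A m := by
  have : NeZero (levelAux N ℓ) := ⟨levelAux_ne_zero N ℓ⟩
  have hℓM := not_dvd_levelAux N hℓN
  have h3 : ℓ = 3 → 2 ∣ levelAux N ℓ := fun h => by
    unfold levelAux; rw [if_pos h]; exact Nat.dvd_lcm_right N 2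
  have h2 : ℓ = 2 → 3 ∣ levelAux N ℓ := fun h => by
    unfold levelAux
    rw [if_neg (by omega), if_pos h]; exact Nat.dvd_lcm_right N 3
  refine coreStatement_of_prime hℓN hA (fun p hp hℓp => ?_)
  have hcoreM : CoreStatement (levelAux N ℓ) A p :=
    H965.node_glue (levelAux N ℓ) hℓM A hA p hp hℓp
      (H333.node_coord (levelAux N ℓ) hℓM h3 h2) hmod halg
  exact H568.node_d2 N hℓN A hA p hℓp hcoreM

/-- **The S18 hub family needed by row S29** (exact body of `Fermat.Agent.S29.H222.CoreFamily`),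
from the two open nodes of the S18 skeleton in their exact shapes. -/
theorem coreFamily_of_nodes
    (node_mod : ∀ (M : ℕ) [NeZero M] {ℓ : ℕ} [Fact ℓ.Prime], ¬ ℓ ∣ M →
      ∀ A : ValuationSubring Qb, A.LiesOverPrime ℓ → Mod.GoodModelStatement M ℓ A)
    (node_alg : ∀ M : ℕ, Mod.AlgStatement M) :
    ∀ (N : ℕ) [NeZero N] (ℓ : ℕ), ℓ.Prime → ¬ ℓ ∣ N → ∀ m : ℕ, ¬ ℓ ∣ m →
      ∀ A : ValuationSubring Qb, A.LiesOverPrime ℓ → CoreStatement N A m := by
  intro N _ ℓ hℓ hℓN m hm A hA
  have : Fact ℓ.Prime := ⟨hℓ⟩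
  have : NeZero (levelAux N ℓ) := ⟨levelAux_ne_zero N ℓ⟩
  exact coreStatement_of_nodes N hℓN A hA
    (node_mod (levelAux N ℓ) (not_dvd_levelAux N hℓN) A hA) (node_alg (levelAux N ℓ)) m hm

end Fermat.Agent.S18.H694

end
end
-- ===== PACK-END S18/H694/CoreFamilyOfNodes.lean

-- ===== PACK-BEGIN S30/H330/AdicGate.lean
section
/-
S30 -- GATE (helper330): the frozen statement S30 from the S18 hub ALONE.

* `torsionRelations_of_coreFamily` : input (T) from the S18 hub `S29.H222.CoreFamily`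
  (helper222's ESK route: no S37, no place reduction map; PGI, HI, NormId are on main);
* `S30_of_coreFamily : CoreFamily → <frozen S30>`;
* `S30_of_nodes : node_mod → node_alg → <frozen S30>`  (the two open nodes of the S18 skeleton, in
  the exact shapes of `S18/H694/CoreFamilyOfNodes.lean`, same as `S29/Gate.lean`).

Everything else is discharged from main: Kummer packages at all moduli (K1-K4, `K3-FIN` =
`H942.finStatement`), FIN (`H810`), (P) (`H709`), (Sm), (GH), adic module layer, top glue (`H990`),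
CHEB Tier 1.
-/





set_option autoImplicit false
set_option linter.overlappingInstances false

noncomputable section

namespace Fermat.Agent.S30.H330

open Fermat.Agent.S29 ModularCurve Polynomial
open Fermat.Agent.S18 (Qb CoreStatement)

/-- Input (T) from the S18 hub (helper222's ESK route). -/
theorem torsionRelations_of_coreFamily (hcore : Fermat.Agent.S29.H222.CoreFamily)
    (N : ℕ) [NeZero N] (p : ℕ) : TorsionRelations N p :=
  fun ℓ hℓ hdvd A hA =>
    Fermat.Agent.S29.H222.esRaw_of_families hcore Fermat.Agent.S29.H222.pgiFamily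
      Fermat.Agent.S29.H222.hiFamily Fermat.Agent.S29.H222.normIdFamily N p ℓ hℓ hdvd A hA

/-- **The frozen statement S30 from the S18 hub.** -/
theorem S30_of_coreFamily (hcore : Fermat.Agent.S29.H222.CoreFamily) :
    ∀ (p : ℕ) [Fact p.Prime] (N : ℕ) [NeZero N] (S : Finset ℕ)
      (_hpS : p ∈ S) (_hNS : ∀ q : ℕ, q.Prime → q ∣ N → q ∈ S)
      (𝒪' : Type) [CommRing 𝒪'] [IsDomain 𝒪'] [IsDiscreteValuationRing 𝒪']
      [IsAdicComplete (IsLocalRing.maximalIdeal 𝒪') 𝒪'] [Finite (IsLocalRing.ResidueField 𝒪')]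
      [CharZero 𝒪'] (_hp𝒪' : (p : 𝒪') ∈ IsLocalRing.maximalIdeal 𝒪')
      (χ : CuspForm.heckeAlgebra N 2 (↑S : Set ℕ) →+* 𝒪'),
      ∃ (𝒪'' : Type) (_ : CommRing 𝒪'') (_ : IsDomain 𝒪'') (_ : IsDiscreteValuationRing 𝒪'')
        (_ : IsAdicComplete (IsLocalRing.maximalIdeal 𝒪'') 𝒪'')
        (_ : Finite (IsLocalRing.ResidueField 𝒪'')) (_ : CharZero 𝒪'')
        (_ : Algebra 𝒪' 𝒪'') (_ : Module.Finite 𝒪' 𝒪'') (_ : IsLocalHom (algebraMap 𝒪' 𝒪'')),
      Function.Injective (algebraMap 𝒪' 𝒪'') ∧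
      ∃ ρ : GaloisRepAdic 𝒪'',
        (∀ (ℓ : ℕ) (hℓ : ℓ.Prime) (hℓN : ¬ ℓ ∣ N) (hℓS : ℓ ∉ (↑S : Set ℕ)),
          ∀ A : ValuationSubring (AlgebraicClosure ℚ), A.LiesOverPrime ℓ →
            ∀ σ : AlgebraicClosure ℚ ≃ₐ[ℚ] AlgebraicClosure ℚ, A.IsFrobeniusAt σ ℓ →
              LinearMap.charpoly (ρ.ρ σ) =
                X ^ 2 - C (algebraMap 𝒪' 𝒪'' (χ (CuspForm.heckeAlgebra.T hℓ hℓN hℓS))) * X
                  + C ((ℓ : 𝒪''))) ∧
        (∀ q : ℕ, q.Prime → ¬ q ∣ N → q ≠ p → ρ.IsUnramifiedAt q) :=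
  result_of_k3fin
    (fun N _ p hp n =>
      haveI : NeZero p := ⟨hp.out.ne_zero⟩
      Fermat.Agent.S29.H942.finStatement N (p ^ n))
    (fun N _ p _ => torsionRelations_of_coreFamily hcore N p)

/-- **The frozen statement S30 from the two open nodes of row S18.** -/
theorem S30_of_nodes
    (node_mod : ∀ (M : ℕ) [NeZero M] {ℓ : ℕ} [Fact ℓ.Prime], ¬ ℓ ∣ M →
      ∀ A : ValuationSubring Qb, A.LiesOverPrime ℓ → Fermat.Agent.S18.Mod.GoodModelStatement M ℓ A)
    (node_alg : ∀ M : ℕ, Fermat.Agent.S18.Mod.AlgStatement M) :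
    ∀ (p : ℕ) [Fact p.Prime] (N : ℕ) [NeZero N] (S : Finset ℕ)
      (_hpS : p ∈ S) (_hNS : ∀ q : ℕ, q.Prime → q ∣ N → q ∈ S)
      (𝒪' : Type) [CommRing 𝒪'] [IsDomain 𝒪'] [IsDiscreteValuationRing 𝒪']
      [IsAdicComplete (IsLocalRing.maximalIdeal 𝒪') 𝒪'] [Finite (IsLocalRing.ResidueField 𝒪')]
      [CharZero 𝒪'] (_hp𝒪' : (p : 𝒪') ∈ IsLocalRing.maximalIdeal 𝒪')
      (χ : CuspForm.heckeAlgebra N 2 (↑S : Set ℕ) →+* 𝒪'),
      ∃ (𝒪'' : Type) (_ : CommRing 𝒪'') (_ : IsDomain 𝒪'') (_ : IsDiscreteValuationRing 𝒪'')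
        (_ : IsAdicComplete (IsLocalRing.maximalIdeal 𝒪'') 𝒪'')
        (_ : Finite (IsLocalRing.ResidueField 𝒪'')) (_ : CharZero 𝒪'')
        (_ : Algebra 𝒪' 𝒪'') (_ : Module.Finite 𝒪' 𝒪'') (_ : IsLocalHom (algebraMap 𝒪' 𝒪'')),
      Function.Injective (algebraMap 𝒪' 𝒪'') ∧
      ∃ ρ : GaloisRepAdic 𝒪'',
        (∀ (ℓ : ℕ) (hℓ : ℓ.Prime) (hℓN : ¬ ℓ ∣ N) (hℓS : ℓ ∉ (↑S : Set ℕ)),
          ∀ A : ValuationSubring (AlgebraicClosure ℚ), A.LiesOverPrime ℓ →
            ∀ σ : AlgebraicClosure ℚ ≃ₐ[ℚ] AlgebraicClosure ℚ, A.IsFrobeniusAt σ ℓ →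
              LinearMap.charpoly (ρ.ρ σ) =
                X ^ 2 - C (algebraMap 𝒪' 𝒪'' (χ (CuspForm.heckeAlgebra.T hℓ hℓN hℓS))) * X
                  + C ((ℓ : 𝒪''))) ∧
        (∀ q : ℕ, q.Prime → ¬ q ∣ N → q ≠ p → ρ.IsUnramifiedAt q) :=
  S30_of_coreFamily (Fermat.Agent.S18.H694.coreFamily_of_nodes node_mod node_alg)

end Fermat.Agent.S30.H330

end
end
-- ===== PACK-END S30/H330/AdicGate.lean

-- ===== PACK-BEGIN S18/Mod/H216/IntegJ.lean
section


/-!
# S18 / MOD (helper216): integrality of the S28 monomials over `Rc[j]`, and G-V, G-QEP for `x = j`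

* `isIntegral_jd` : `j(q^d)` is integral over `Rc[j]` (from `CoreData.integral`).
* `isIntegral_toOm_yInt` : the monomials `yᵢ ∈ ℤ[j_d : d ∣ M]` are integral over `Rc[j]`.
* `partV_j`, `partQep_j` : `PartV`, `PartQep` for `(Fc M E, Rc M A E, Vc M A E, w, jOm M)` from
  `CoreData M κ`, `κ` the residue field of `A`.
-/

set_option autoImplicit false
set_option linter.unusedSectionVars false

noncomputable section

namespace Fermat.Agent.S18.Mod.H216

open ModularCurve AlgebraicCurve HahnSeries Polynomial Fermat.Agent.S18 Fermat.Agent.S18.Mod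
open Fermat.Agent.S28 Fermat.Agent.S18.Alg

variable {M : ℕ} [NeZero M] (A : ValuationSubring Qb) (E : IntermediateField ℚ Qb)

/-- `ℤ((q)) → Q̄((q))`. -/
abbrev phiZ : LaurentSeries ℤ →+* LaurentSeries Qb := coeffMap (Int.castRingHom Qb)

theorem coe_jd_eq_phiZ (d : ℕ) [NeZero d] (hd : d ∣ M) :
    ((jd M d hd : Om M) : LaurentSeries Qb) = phiZ (qExpand ℤ d (jqModC ℤ)) := by
  rw [coe_jd, coeffEmb, coeffMap_qExpand, coeffMap_qExpand, ← jqModC_rat, coeffMap_jqModC,
    coeffMap_jqModC]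

theorem intCast_mem_Rc (k : ℤ) : (k : Om M) ∈ Rc M A E := intCast_mem _ k

theorem aeval_jOm_mem_polyRing (g : Polynomial ℤ) :
    Polynomial.aeval (jOm M) g ∈ polyRing (Rc M A E) (jOm M) := by
  rw [Polynomial.aeval_eq_sum_range]
  refine sum_mem fun i _ => ?_
  rw [zsmul_eq_mul]
  exact mul_mem (le_polyRing _ _ (intCast_mem_Rc A E _)) (pow_mem (self_mem_polyRing _ _) i)

/-- `ℤ[X] → Rc[j]`. -/
def psiZ : Polynomial ℤ →+* ↥(polyRing (Rc M A E) (jOm M)) :=
  (Polynomial.aeval (R := ℤ) (jOm M)).toRingHom.codRestrict (polyRing (Rc M A E) (jOm M))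
    (aeval_jOm_mem_polyRing A E)

theorem omVal_comp_aeval :
    (omVal M).comp (Polynomial.aeval (R := ℤ) (jOm M)).toRingHom =
      phiZ.comp (evalAt (jqModC ℤ)) := by
  apply Polynomial.ringHom_ext
  · intro k
    simp
  · simp only [RingHom.comp_apply, AlgHom.toRingHom_eq_coe, RingHom.coe_coe, Polynomial.aeval_X,
      omVal_apply]
    rw [coe_jOm, coeffMap_jqModC]

theorem isIntegral_jd
    (hint : ∀ (d : ℕ) [NeZero d], d ∣ M → ∃ P : Polynomial (Polynomial ℤ), P.Monic ∧
      P.eval₂ (evalAt (jqModC ℤ)) (qExpand ℤ d (jqModC ℤ)) = 0)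
    (d : ℕ) [NeZero d] (hd : d ∣ M) :
    IsIntegral (polyRing (Rc M A E) (jOm M)) (jd M d hd) := by
  obtain ⟨P, hmonic, hroot⟩ := hint d hd
  refine ⟨P.map (psiZ A E), hmonic.map _, ?_⟩
  rw [Polynomial.eval₂_map]
  have hcomp : (algebraMap ↥(polyRing (Rc M A E) (jOm M)) (Om M)).comp (psiZ A E) =
      (Polynomial.aeval (R := ℤ) (jOm M)).toRingHom := rfl
  rw [hcomp]
  apply omVal_injective M
  rw [map_zero, Polynomial.hom_eval₂, omVal_comp_aeval, omVal_apply, coe_jd_eq_phiZ,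
    ← Polynomial.hom_eval₂, hroot, map_zero]

variable {n : ℕ} {y : Fin n → LaurentSeries ℤ}

theorem isIntegral_toOm_yInt (hS : H516.SpansQ M y)
    (hint : ∀ (d : ℕ) [NeZero d], d ∣ M → ∃ P : Polynomial (Polynomial ℤ), P.Monic ∧
      P.eval₂ (evalAt (jqModC ℤ)) (qExpand ℤ d (jqModC ℤ)) = 0)
    (i : Fin n) :
    IsIntegral (polyRing (Rc M A E) (jOm M)) (toOm M A E (yInt A E hS i)) := by
  have hle : Subring.closure (intDivisorExpansions M) ≤
      Subring.comap phiZ
        ((integralClosure ↥(polyRing (Rc M A E) (jOm M)) (Om M)).toSubring.map (omVal M)) := by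
    rw [Subring.closure_le]
    rintro z ⟨d, hd, hdM, rfl⟩
    haveI := hd
    exact ⟨jd M d hdM, isIntegral_jd A E hint d hdM, coe_jd_eq_phiZ d hdM⟩
  obtain ⟨f, hf, hfy⟩ := hle (hS.1 i)
  have : f = toOm M A E (yInt A E hS i) := by
    apply Subtype.ext
    rw [coe_toOm_yInt]
    exact hfy
  rw [← this]
  exact hf

/-! ### G-V and G-QEP for `x = j` -/

/-- **G-V** for the coordinate `j`. -/
theorem partV_j (core : CoreData M (IsLocalRing.ResidueField ↥A)) {w : Om M}
    (hR : PartR (Ec M E) (Rc M A E) w) :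
    PartV (Fc M E) (Rc M A E) (Vc M A E) w (jOm M) := by
  obtain ⟨n, y, hy, hspan, hli⟩ := core.exists_basis
  have hS : H516.SpansQ M y := ⟨hy, hspan⟩
  exact
    { V_le := Vc_le_Fc M A E
      V_total := V_total_j A E hS hli
      R_le_V := R_le_V M A E
      w_inv_not_mem_V := w_inv_not_mem_V M A E hR
      V_gen := V_gen M A E hR
      x_mem_V := jOm_mem_Vc M A E
      gauss := gauss_j M A E }

/-- **G-QEP** for the coordinate `j`. -/
theorem partQep_j (core : CoreData M (IsLocalRing.ResidueField ↥A)) {w : Om M}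
    (hR : PartR (Ec M E) (Rc M A E) w) :
    PartQep (Fc M E) (Rc M A E) (Vc M A E) w (jOm M) := by
  obtain ⟨n, y, hy, hspan, hli⟩ := core.exists_basis
  have hS : H516.SpansQ M y := ⟨hy, hspan⟩
  exact partQep_of_den hR (partV_j A E core hR) (Ec_le_Fc M E) (jOm_mem_Vc M A E)
    (injective_evR_j A E)
    (denAt_j A E hR hS hli (isIntegral_toOm_yInt A E hS (fun d _ hd => core.integral d hd)))

end Fermat.Agent.S18.Mod.H216

end
end
-- ===== PACK-END S18/Mod/H216/IntegJ.lean

-- ===== PACK-BEGIN S18/Mod/H216/NodeJ.lean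
section






/-!
# S18 / MOD (helper216): G-V and G-QEP for the coordinate `j` — UNCONDITIONAL

For `ℓ ∤ M` and `A` over `ℓ`:
* `coreData_residue` : S28 `CoreData M κ` for the residue field `κ` of `A`;
* `partVStatement_j`   : `PartVStatement M A (jOm M)`;
* `partQepStatement_j` : `PartQepStatement M A (jOm M)`.
-/

set_option autoImplicit false
set_option linter.unusedSectionVars false

noncomputable section

namespace Fermat.Agent.S18.Mod.H216

open ModularCurve AlgebraicCurve HahnSeries Polynomial Fermat.Agent.S18 Fermat.Agent.S18.Mod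
open Fermat.Agent.S28 Fermat.Agent.S18.Alg

variable {M : ℕ} [NeZero M] {ℓ : ℕ} [Fact ℓ.Prime] (A : ValuationSubring Qb)

theorem charP_residue (hA : A.LiesOverPrime ℓ) : CharP (IsLocalRing.ResidueField ↥A) ℓ := by
  have hp : ℓ.Prime := Fact.out
  rw [CharP.charP_iff_prime_eq_zero hp]
  obtain ⟨ha, hmem⟩ := (ValuationSubring.mem_nonunits_iff_exists_mem_maximalIdeal).mp hA
  have h1 : IsLocalRing.residue ↥A ⟨(ℓ : Qb), ha⟩ = 0 :=
    (IsLocalRing.residue_eq_zero_iff _).mpr hmem
  have h2 : (⟨(ℓ : Qb), ha⟩ : ↥A) = ((ℓ : ℕ) : ↥A) := Subtype.ext (by simp)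
  rw [h2, map_natCast] at h1
  exact h1

/-- S28 `CoreData` over the residue field of `A`. -/
theorem coreData_residue (hℓM : ¬ ℓ ∣ M) (hA : A.LiesOverPrime ℓ) :
    CoreData M (IsLocalRing.ResidueField ↥A) := by
  haveI := charP_residue A hA
  exact H867.coreData_of_inputs M ℓ hℓM (IsLocalRing.ResidueField ↥A)
    (fun p hp _ _ => H807.nonempty_modPolyData p hp)
    (fun p hp _ _ => H807.nonempty_unitPolyData p hp)
    H25.theta_identity

/-- **G-V for `x = j`** (exact target `PartVStatement M A (jOm M)`). -/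
theorem partVStatement_j (hℓM : ¬ ℓ ∣ M) (hA : A.LiesOverPrime ℓ) :
    PartVStatement M A (jOm M) :=
  fun E _ _ hR => partV_j A E (coreData_residue A hℓM hA) hR

/-- **G-QEP for `x = j`** (exact target `PartQepStatement M A (jOm M)`). -/
theorem partQepStatement_j (hℓM : ¬ ℓ ∣ M) (hA : A.LiesOverPrime ℓ) :
    PartQepStatement M A (jOm M) :=
  fun E _ _ hR => partQep_j A E (coreData_residue A hℓM hA) hR

end Fermat.Agent.S18.Mod.H216

end
end
-- ===== PACK-END S18/Mod/H216/NodeJ.lean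

-- ===== PACK-BEGIN S18/H24/Finite.lean
section




/-!
# S18 / node_mod, part G-FLD (helper24) — the field `finite` for `x = j`

`field_finite_j` : for every intermediate field `E` of `Q̄/ℚ` and every level `M ≥ 1`,

    ∃ s : Finset (Om M), ↑s ⊆ Fc M E ∧ ∀ f ∈ Fc M E, f ∈ Submodule.span (ratField (Ec M E) (jOm M)) ↑s

(exact type of the field `finite` of `Alg.GoodModel` at the concrete objects, `x = jOm M`).

Proof: `Fc = Ec(j)(j_d : d ∣ M)`, finitely many generators, each integral over `ℤ[j]`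
(modular polynomials, S28 `H867.coreData_integral` + `H807.nonempty_modPolyData`).
`field_finite_of_mem` : the same for any coordinate `x ∈ Fc` with `j ∈ Ec(x)` (e.g. `t₂`, `t₃`).
-/

set_option autoImplicit false

noncomputable section

namespace Fermat.Agent.S18.H24

open ModularCurve AlgebraicCurve HahnSeries Fermat.Agent.S18 Fermat.Agent.S18.Mod
open Fermat.Agent.S18.Alg Fermat.Agent.S18.H456 Fermat.Agent.S28 Polynomial

variable (M : ℕ) [NeZero M] (E : IntermediateField ℚ Qb)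

/-- `ℤ[Y] → Ω`, `Y ↦ j`. -/
def evJOm : Polynomial ℤ →+* Om M := (Polynomial.aeval (R := ℤ) (jOm M)).toRingHom

/-- The subtype map `Ω → Q̄((q))` as a ring hom. -/
abbrev valHom : Om M →+* LaurentSeries Qb := (modularFunctionFieldBar M).val.toRingHom

theorem valHom_injective : Function.Injective (valHom M) := Subtype.val_injective

theorem val_jd' (d : ℕ) [NeZero d] (hd : d ∣ M) :
    valHom M (jd M d hd) = coeffMap (Int.castRingHom Qb) (qExpand ℤ d (jqModC ℤ)) := by
  show coeffEmb Qb (qExpand ℚ d jq) = _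
  have h1 : coeffEmb Qb (qExpand ℚ d jq) = jqNModC Qb d := coeffMap_jqNModC (algebraMap ℚ Qb) d
  have h2 : coeffMap (Int.castRingHom Qb) (jqNModC ℤ d) = jqNModC Qb d :=
    coeffMap_jqNModC (Int.castRingHom Qb) d
  exact h1.trans h2.symm

theorem val_jOm' : valHom M (jOm M) = coeffMap (Int.castRingHom Qb) (jqModC ℤ) := by
  show ((jOm M : Om M) : LaurentSeries Qb) = _
  rw [val_jOm, coeffMap_jqModC]

/-- compatibility of the two evaluations `ℤ[Y] → Q̄((q))`. -/
theorem valHom_comp_evJOm :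
    (valHom M).comp (evJOm M) =
      (coeffMap (Int.castRingHom Qb)).comp (evalAt (jqModC ℤ)) := by
  apply Polynomial.ringHom_ext
  · intro a
    simp [evJOm, evalAt]
  · show valHom M (Polynomial.aeval (jOm M) (X : Polynomial ℤ)) =
      coeffMap (Int.castRingHom Qb) (Polynomial.aeval (jqModC ℤ) (X : Polynomial ℤ))
    rw [Polynomial.aeval_X, Polynomial.aeval_X]
    exact val_jOm' M

/-- `j_d` is a root of a monic polynomial with coefficients in `ℤ[j] ⊆ Ω`. -/
theorem exists_monic_root_jd (d : ℕ) [NeZero d] (hd : d ∣ M) :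
    ∃ P : Polynomial (Polynomial ℤ), P.Monic ∧ (P.map (evJOm M)).eval (jd M d hd) = 0 := by
  obtain ⟨P, hP, hPe⟩ := H867.coreData_integral M
    (fun p hp _ _ => H807.nonempty_modPolyData p hp) d hd
  refine ⟨P, hP, ?_⟩
  apply valHom_injective M
  rw [map_zero, Polynomial.eval_map, Polynomial.hom_eval₂, valHom_comp_evJOm, val_jd',
    ← Polynomial.hom_eval₂, hPe, map_zero]

theorem jOm_mem_ratField : jOm M ∈ ratField (Ec M E) (jOm M) :=
  Subfield.subset_closure (Or.inr rfl)

theorem Ec_le_ratField (x : Om M) : Ec M E ≤ ratField (Ec M E) x :=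
  fun _ h => Subfield.subset_closure (Or.inl h)

theorem evJOm_mem_ratField (p : Polynomial ℤ) : evJOm M p ∈ ratField (Ec M E) (jOm M) := by
  show Polynomial.aeval (jOm M) p ∈ _
  rw [Polynomial.aeval_def, Polynomial.eval₂_eq_sum_range]
  refine Subfield.sum_mem _ fun i _ => ?_
  refine mul_mem ?_ (pow_mem (jOm_mem_ratField M E) i)
  rw [eq_intCast]
  exact intCast_mem _ _

/-- `j_d` is integral over `Ec(j)`. -/
theorem isIntegral_jd (d : ℕ) [NeZero d] (hd : d ∣ M) :
    IsIntegral (ratField (Ec M E) (jOm M)) (jd M d hd) := by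
  obtain ⟨P, hP, hroot⟩ := exists_monic_root_jd M d hd
  have hl : P.map (evJOm M) ∈ Polynomial.lifts (ratField (Ec M E) (jOm M)).subtype := by
    rw [Polynomial.lifts_iff_coeff_lifts]
    intro i
    rw [Polynomial.coeff_map]
    exact ⟨⟨_, evJOm_mem_ratField M E (P.coeff i)⟩, rfl⟩
  obtain ⟨q, hq, -, hqm⟩ := Polynomial.lifts_and_natDegree_eq_and_monic hl (hP.map _)
  refine ⟨q, hqm, ?_⟩
  have : eval₂ (ratField (Ec M E) (jOm M)).subtype (jd M d hd) q =
      eval (jd M d hd) (q.map (ratField (Ec M E) (jOm M)).subtype) := (eval_map _ _).symm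
  rw [show (algebraMap (ratField (Ec M E) (jOm M)) (Om M)) =
    (ratField (Ec M E) (jOm M)).subtype from rfl, this, hq, hroot]

theorem gens_finite : (gens M).Finite := by
  classical
  have : gens M ⊆ Set.range (fun d : {d : ℕ // d ∣ M ∧ d ≠ 0} =>
      haveI : NeZero d.1 := ⟨d.2.2⟩
      jd M d.1 d.2.1) := by
    rintro y ⟨d, hd, hdM, rfl⟩
    exact ⟨⟨d, hdM, hd.out⟩, rfl⟩
  refine Set.Finite.subset ?_ this
  have hfin : Finite {d : ℕ // d ∣ M ∧ d ≠ 0} := by
    have : {d : ℕ | d ∣ M ∧ d ≠ 0} ⊆ (M.divisors : Set ℕ) := by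
      intro d hd
      exact Nat.mem_divisors.mpr ⟨hd.1, NeZero.ne M⟩
    exact Set.Finite.subset (Finset.finite_toSet _) this
  exact Set.finite_range _

/-- `Fc` as an intermediate field over `Ec(j)`. -/
theorem Fc_eq_adjoin :
    (Fc M E : Set (Om M)) =
      (IntermediateField.adjoin (ratField (Ec M E) (jOm M)) (gens M) : Set (Om M)) := by
  have hjF : jOm M ∈ Fc M E :=
    Subfield.subset_closure (Or.inr ⟨1, inferInstance, one_dvd M, rfl⟩)
  have hK : ratField (Ec M E) (jOm M) ≤ Fc M E := by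
    refine Subfield.closure_le.mpr ?_
    rintro y (hy | hy)
    · exact field_E_le_F M E hy
    · rw [Set.mem_singleton_iff] at hy
      rw [hy]; exact hjF
  apply Set.Subset.antisymm
  · -- `Fc ⊆ adjoin`
    have : Fc M E ≤ (IntermediateField.adjoin (ratField (Ec M E) (jOm M)) (gens M)).toSubfield := by
      refine Subfield.closure_le.mpr ?_
      rintro y (hy | hy)
      · exact IntermediateField.algebraMap_mem
          (IntermediateField.adjoin (ratField (Ec M E) (jOm M)) (gens M))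
          (⟨y, Ec_le_ratField M E _ hy⟩ : ratField (Ec M E) (jOm M))
      · exact IntermediateField.subset_adjoin _ _ hy
    exact this
  · -- `adjoin ⊆ Fc`
    intro y hy
    have h : IntermediateField.adjoin (ratField (Ec M E) (jOm M)) (gens M) ≤
        Subfield.toIntermediateField (Fc M E) (fun x => hK x.2) := by
      rw [IntermediateField.adjoin_le_iff]
      intro z hz
      exact Subfield.subset_closure (Or.inr hz)
    exact h hy

/-- **field `finite` for `x = j`.** -/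
theorem field_finite_j :
    ∃ s : Finset (Om M), (s : Set (Om M)) ⊆ Fc M E ∧
      ∀ f ∈ Fc M E, f ∈ Submodule.span (ratField (Ec M E) (jOm M)) (s : Set (Om M)) := by
  classical
  set K := ratField (Ec M E) (jOm M) with hKdef
  set L := IntermediateField.adjoin K (gens M) with hLdef
  have hint : ∀ y ∈ gens M, IsIntegral K y := by
    rintro y ⟨d, hd, hdM, rfl⟩
    exact isIntegral_jd M E d hdM
  haveI : Finite (gens M) := (gens_finite M).to_subtype
  haveI hfd : FiniteDimensional K L := IntermediateField.finiteDimensional_adjoin hint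
  -- a finite spanning set of `L` over `K`
  obtain ⟨s, hs⟩ := (Module.finite_def (R := K) (M := L)).mp hfd
  refine ⟨s.image (fun y : L => (y : Om M)), ?_, ?_⟩
  · intro y hy
    rw [Finset.coe_image] at hy
    obtain ⟨z, -, rfl⟩ := hy
    have h0 : (z : Om M) ∈
        (IntermediateField.adjoin (ratField (Ec M E) (jOm M)) (gens M) : Set (Om M)) := z.2
    rw [← Fc_eq_adjoin M E] at h0
    exact h0
  · intro f hf
    have hfL : f ∈ L := by
      have h0 : f ∈
          (IntermediateField.adjoin (ratField (Ec M E) (jOm M)) (gens M) : Set (Om M)) := by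
        rw [← Fc_eq_adjoin M E]; exact hf
      exact h0
    have h1 : (⟨f, hfL⟩ : L) ∈ Submodule.span K (s : Set L) := by
      rw [hs]; exact Submodule.mem_top
    have h2 := Submodule.mem_map_of_mem (f := (L.val.toLinearMap : L →ₗ[K] Om M)) h1
    rw [Submodule.map_span] at h2
    rw [Finset.coe_image]
    exact h2

omit [NeZero M] in
theorem span_mono_subfield {K₁ K₂ : Subfield (Om M)} (h : K₁ ≤ K₂) (s : Set (Om M)) {f : Om M}
    (hf : f ∈ Submodule.span K₁ s) : f ∈ Submodule.span K₂ s := by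
  induction hf using Submodule.span_induction with
  | mem x hx => exact Submodule.subset_span hx
  | zero => exact Submodule.zero_mem _
  | add x y _ _ hx hy => exact Submodule.add_mem _ hx hy
  | smul c x _ hx =>
    have : c • x = (⟨(c : Om M), h c.2⟩ : K₂) • x := rfl
    rw [this]
    exact Submodule.smul_mem _ _ hx

/-- **field `finite`** for every admissible coordinate. -/
theorem field_finite {ℓ : ℕ} {x : Om M} {S : Finset (Om M)} (hx : IsCoordinate M ℓ x S) :
    ∃ s : Finset (Om M), (s : Set (Om M)) ⊆ Fc M E ∧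
      ∀ f ∈ Fc M E, f ∈ Submodule.span (ratField (Ec M E) x) (s : Set (Om M)) := by
  have hx0 : x ≠ 0 := by
    rintro rfl
    exact field_x_transcendental M hx isAlgebraic_zero
  have hxK : x ∈ ratField (Ec M E) x := Subfield.subset_closure (Or.inr rfl)
  have hnat : ∀ n : ℕ, (n : Om M) ∈ ratField (Ec M E) x := fun n => natCast_mem _ n
  -- `j ∈ Ec(x)`
  have hj : jOm M ∈ ratField (Ec M E) x := by
    rcases hx with ⟨-, rfl, -⟩ | ⟨h | h, -⟩
    · exact hxK
    · obtain ⟨-, hid, -⟩ := h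
      have : jOm M = (x + 256) ^ 3 * (x ^ 2)⁻¹ := by
        rw [← hid]; field_simp
      rw [this]
      exact mul_mem (pow_mem (add_mem hxK (by exact_mod_cast hnat 256)) 3)
        (inv_mem (pow_mem hxK 2))
    · obtain ⟨-, hid, -⟩ := h
      have : jOm M = (x + 27) * (x + 243) ^ 3 * (x ^ 3)⁻¹ := by
        rw [← hid]; field_simp
      rw [this]
      exact mul_mem (mul_mem (add_mem hxK (by exact_mod_cast hnat 27))
        (pow_mem (add_mem hxK (by exact_mod_cast hnat 243)) 3)) (inv_mem (pow_mem hxK 3))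
  have hle : ratField (Ec M E) (jOm M) ≤ ratField (Ec M E) x := by
    refine Subfield.closure_le.mpr ?_
    rintro y (hy | hy)
    · exact Ec_le_ratField M E x hy
    · rw [Set.mem_singleton_iff] at hy
      rw [hy]; exact hj
  obtain ⟨s, hs, hspan⟩ := field_finite_j M E
  exact ⟨s, hs, fun f hf => span_mono_subfield M hle _ (hspan f hf)⟩

end Fermat.Agent.S18.H24

end
end
-- ===== PACK-END S18/H24/Finite.lean

-- ===== PACK-BEGIN S18/H24/GaussFields.lean
section


/-!
# S18 / node_mod, part G-V (helper24) — HAND-IN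

All `V`-fields of `Alg.GoodModel` (v4 on main) for the concrete objects of `S18/Mod/Defs.lean`:

`gv_fields` : for every subring `V` with underlying set `VcSet M A E`, every `w` satisfying the
`w`-fields of G-R (`w_mem, w_ne_zero, w_inv_not_mem, w_gen, w_discrete` for `Rc M A E`), and every
coordinate `x` with an integral expansion `q⁻¹ + …` (`H456.HasIntExp`, e.g. from `IsCoordinate`):

    V_le ∧ V_total ∧ R_le_V ∧ x_mem_V ∧ w_inv_not_mem_V ∧ V_gen ∧ gauss

in exactly the field types of `Alg.GoodModel (Lc M) (Ec M E) (Fc M E) (Rc M A E) V w x S`.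
No hypothesis on `ℓ`, `M`, or finiteness of `E` is needed here (they enter through G-R).
-/

set_option autoImplicit false

noncomputable section

namespace Fermat.Agent.S18.H24

open ModularCurve AlgebraicCurve HahnSeries Fermat.Agent.S18 Fermat.Agent.S18.Mod
open Fermat.Agent.S18.H456

variable {M : ℕ} {A : ValuationSubring Qb} {E : IntermediateField ℚ Qb}

/-- The `w`-fields of G-R give a uniformiser in the sense of `IsUnif`. -/
theorem exists_isUnif {w : Om M} (hwR : w ∈ Rc M A E) (hw0 : w ≠ 0) (hwinv : w⁻¹ ∉ Rc M A E)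
    (hgen : ∀ r ∈ Rc M A E, r⁻¹ ∉ Rc M A E → r * w⁻¹ ∈ Rc M A E)
    (hdisc : ∀ r ∈ Rc M A E, r ≠ 0 →
      ∃ n : ℕ, r * (w⁻¹) ^ n ∈ Rc M A E ∧ (r * (w⁻¹) ^ n)⁻¹ ∈ Rc M A E) :
    ∃ w₀ : Qb, w = cst M w₀ ∧ _root_.Fermat.Agent.S18.H24.IsUnif A E w₀ := by
  obtain ⟨w₀, hw₀A, hw₀E, rfl⟩ := (mem_Rc_iff M A E).mp hwR
  have hw₀0 : w₀ ≠ 0 := by
    rintro rfl
    exact hw0 (map_zero _)
  have hninv : w₀⁻¹ ∉ A := by
    intro h
    apply hwinv
    rw [← map_inv₀]
    exact cst_mem_Rc M A E h (inv_mem hw₀E)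
  refine ⟨w₀, rfl, hw₀A, hw₀E, hw₀0, hninv, ?_, ?_⟩
  · intro c hcA hcE hcinv
    have h1 : (cst M c)⁻¹ ∉ Rc M A E := by
      intro h
      rw [← map_inv₀] at h
      exact hcinv ((cst_mem_Rc_iff M A E).mp h).1
    have h2 := hgen _ (cst_mem_Rc M A E hcA hcE) h1
    rw [← map_inv₀, ← map_mul] at h2
    exact ((cst_mem_Rc_iff M A E).mp h2).1
  · intro c hcA hcE hc0
    have h1 : cst M c ≠ 0 := fun h => hc0 (cst_injective M (by rw [h]; exact (map_zero _).symm))
    obtain ⟨n, hn1, hn2⟩ := hdisc _ (cst_mem_Rc M A E hcA hcE) h1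
    refine ⟨n, ?_, ?_⟩
    · rw [← map_inv₀, ← map_pow, ← map_mul] at hn1
      exact ((cst_mem_Rc_iff M A E).mp hn1).1
    · rw [← map_inv₀, ← map_pow, ← map_mul, ← map_inv₀] at hn2
      exact ((cst_mem_Rc_iff M A E).mp hn2).1

/-- **G-V hand-in**: all `V`-fields of `GoodModel` for the concrete Gauss valuation ring. -/
theorem gv_fields [NeZero M] (V : Subring (Om M)) (hV : (V : Set (Om M)) = VcSet M A E)
    {w : Om M} (hwR : w ∈ Rc M A E) (hw0 : w ≠ 0) (hwinv : w⁻¹ ∉ Rc M A E)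
    (hgen : ∀ r ∈ Rc M A E, r⁻¹ ∉ Rc M A E → r * w⁻¹ ∈ Rc M A E)
    (hdisc : ∀ r ∈ Rc M A E, r ≠ 0 →
      ∃ n : ℕ, r * (w⁻¹) ^ n ∈ Rc M A E ∧ (r * (w⁻¹) ^ n)⁻¹ ∈ Rc M A E)
    {x : Om M} (hx : HasIntExp M x) :
    ((V : Set (Om M)) ⊆ Fc M E) ∧
    (∀ f ∈ Fc M E, f ∈ V ∨ f⁻¹ ∈ V) ∧
    (Rc M A E ≤ V) ∧
    (x ∈ V) ∧
    (w⁻¹ ∉ V) ∧
    (∀ f ∈ V, f⁻¹ ∉ V → f * w⁻¹ ∈ V) ∧
    (∀ P : Polynomial (Om M), (∀ i, P.coeff i ∈ Rc M A E) →
      (∃ i, P.coeff i ≠ 0 ∧ (P.coeff i)⁻¹ ∈ Rc M A E) → (P.eval x)⁻¹ ∈ V) := by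
  have hVeq : V = Vc M A E := SetLike.coe_injective (by rw [hV, coe_Vc])
  subst hVeq
  obtain ⟨w₀, rfl, hw⟩ := _root_.Fermat.Agent.S18.H24.exists_isUnif hwR hw0 hwinv hgen hdisc
  exact ⟨field_V_le M A E, field_V_total M hw, field_R_le_V M A E, coord_mem_Vc hx,
    field_w_inv_not_mem_V hw.ne_zero hw.inv_not_mem, field_V_gen M hw, field_gauss hx⟩

/-- The same for a coordinate in the sense of `Mod.IsCoordinate`. -/
theorem gv_fields_of_isCoordinate [NeZero M] (V : Subring (Om M))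
    (hV : (V : Set (Om M)) = VcSet M A E)
    {w : Om M} (hwR : w ∈ Rc M A E) (hw0 : w ≠ 0) (hwinv : w⁻¹ ∉ Rc M A E)
    (hgen : ∀ r ∈ Rc M A E, r⁻¹ ∉ Rc M A E → r * w⁻¹ ∈ Rc M A E)
    (hdisc : ∀ r ∈ Rc M A E, r ≠ 0 →
      ∃ n : ℕ, r * (w⁻¹) ^ n ∈ Rc M A E ∧ (r * (w⁻¹) ^ n)⁻¹ ∈ Rc M A E)
    {ℓ : ℕ} {x : Om M} {S : Finset (Om M)} (hx : IsCoordinate M ℓ x S) :
    ((V : Set (Om M)) ⊆ Fc M E) ∧
    (∀ f ∈ Fc M E, f ∈ V ∨ f⁻¹ ∈ V) ∧
    (Rc M A E ≤ V) ∧
    (x ∈ V) ∧
    (w⁻¹ ∉ V) ∧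
    (∀ f ∈ V, f⁻¹ ∉ V → f * w⁻¹ ∈ V) ∧
    (∀ P : Polynomial (Om M), (∀ i, P.coeff i ∈ Rc M A E) →
      (∃ i, P.coeff i ≠ 0 ∧ (P.coeff i)⁻¹ ∈ Rc M A E) → (P.eval x)⁻¹ ∈ V) :=
  gv_fields V hV hwR hw0 hwinv hgen hdisc (hasIntExp_of_isCoordinate M hx)

end Fermat.Agent.S18.H24

end
end
-- ===== PACK-END S18/H24/GaussFields.lean

-- ===== PACK-BEGIN S18/H264/SepConcrete.lean
section






/-!
# S18 / G-SEP at the concrete objects (helper264)

The field `separable` of `Alg.GoodModel` for the concrete objects of `Mod/Defs.lean`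
(`Rc M A E`, `VcSet M A E`, coordinate `jOm M`), for every subring `V` with underlying set
`VcSet M A E` and every uniformiser `w` of `Rc M A E`.
-/

set_option autoImplicit false

noncomputable section

namespace Fermat.Agent.S18.H264

open ModularCurve AlgebraicCurve Polynomial Fermat.Agent.S18 Fermat.Agent.S18.Mod
open Fermat.Agent.S28

/-! ### (C1) the residue field of a valuation ring of `Q̄` over `ℓ` is algebraic over `𝔽_ℓ` -/

section ResAlg

variable (A : ValuationSubring Qb) (ℓ : ℕ) [hℓ : Fact ℓ.Prime]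
  [Algebra (ZMod ℓ) (IsLocalRing.ResidueField A)]

theorem isAlgebraic_residue_zmod (c : IsLocalRing.ResidueField A) : IsAlgebraic (ZMod ℓ) c := by
  obtain ⟨a, rfl⟩ := IsLocalRing.residue_surjective c
  have halgQ : IsAlgebraic ℚ (a : Qb) := (AlgebraicClosure.isAlgebraic ℚ).isAlgebraic _
  have halgZ : IsAlgebraic ℤ (a : Qb) := (IsFractionRing.isAlgebraic_iff ℤ ℚ Qb).mpr halgQ
  obtain ⟨p, hp0, hpa⟩ := halgZ
  have hq0 : p.primPart ≠ 0 := primPart_ne_zero p
  have hqa : aeval (a : Qb) p.primPart = 0 := aeval_primPart_eq_zero hp0 hpa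
  have hqA : Polynomial.eval₂ (Int.castRingHom A) a p.primPart = 0 := by
    apply Subtype.ext
    have h := Polynomial.hom_eval₂ p.primPart (Int.castRingHom A) A.subtype a
    rw [ZeroMemClass.coe_zero, ← hqa, aeval_def]
    have hc : (A.subtype).comp (Int.castRingHom A) = algebraMap ℤ Qb := RingHom.ext_int _ _
    rw [← hc]
    exact h
  refine ⟨p.primPart.map (Int.castRingHom (ZMod ℓ)), ?_, ?_⟩
  · intro h0
    have hdvd : Polynomial.C (ℓ : ℤ) ∣ p.primPart := by
      rw [C_dvd_iff_dvd_coeff]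
      intro i
      have := congrArg (fun r => r.coeff i) h0
      simp only [coeff_map, coeff_zero, eq_intCast] at this
      exact (ZMod.intCast_zmod_eq_zero_iff_dvd _ _).mp this
    have hu := (isPrimitive_iff_isUnit_of_C_dvd.mp (isPrimitive_primPart p)) _ hdvd
    have := Int.isUnit_iff.mp hu
    have h2 := hℓ.out.two_le
    omega
  · rw [aeval_def, Polynomial.eval₂_map]
    have hc : (algebraMap (ZMod ℓ) (IsLocalRing.ResidueField A)).comp (Int.castRingHom (ZMod ℓ)) =
        (IsLocalRing.residue A).comp (Int.castRingHom A) := RingHom.ext_int _ _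
    rw [hc, ← Polynomial.hom_eval₂, hqA, map_zero]

instance algebra_isAlgebraic_residue_zmod :
    Algebra.IsAlgebraic (ZMod ℓ) (IsLocalRing.ResidueField A) :=
  ⟨isAlgebraic_residue_zmod A ℓ⟩

end ResAlg

/-! ### (C2), (C3) the function field `F_k` is algebraic over `𝔽_ℓ(j̄)` -/

section FullAlg

variable {k : Type} [Field k] (ℓ : ℕ) [hℓ : Fact ℓ.Prime]

theorem evalAt_eq_eval₂RingHom {B : Type*} [CommRing B] (y : LaurentSeries B) :
    evalAt y = Polynomial.eval₂RingHom (Int.castRingHom (LaurentSeries B)) y := by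
  refine Polynomial.ringHom_ext (fun n => ?_) ?_
  · simp [evalAt]
  · simp [evalAt]

/-- Base change of the integrality equation of `j(q^d)` to `k((q))`. -/
theorem evalZZ_jd_eq_zero {N : ℕ} [NeZero N] (core : CoreData N k) (d : ℕ) [NeZero d]
    (hd : d ∣ N) :
    ∃ P : Polynomial (Polynomial ℤ), P.Monic ∧
      evalZZ (jqModC k) (qExpand k d (jqModC k)) P = 0 := by
  obtain ⟨P, hP, h0⟩ := core.integral d hd
  refine ⟨P, hP, ?_⟩
  rw [evalAt_eq_eval₂RingHom, ← evalZZ_apply] at h0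
  have h := map_evalZZ (coeffMap (Int.castRingHom k)) (jqModC ℤ) (qExpand ℤ d (jqModC ℤ)) P
  rw [h0, map_zero, coeffMap_qExpand, coeffMap_jqModC] at h
  exact h.symm

/-- `j(q^d)` is integral over `𝔽_ℓ(j̄)`. -/
theorem isIntegral_jd [Algebra (ZMod ℓ) (LaurentSeries k)] {N : ℕ} [NeZero N]
    (core : CoreData N k) (d : ℕ) [NeZero d] (hd : d ∣ N) :
    IsIntegral (IntermediateField.adjoin (ZMod ℓ) {jqModC k}) (qExpand k d (jqModC k)) := by
  obtain ⟨P, hP, h0⟩ := evalZZ_jd_eq_zero core d hd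
  set J := IntermediateField.adjoin (ZMod ℓ) {jqModC k} with hJ
  set ψ : Polynomial ℤ →+* J := Polynomial.eval₂RingHom (Int.castRingHom J)
    ⟨jqModC k, IntermediateField.mem_adjoin_simple_self _ _⟩ with hψ
  have hcomp : (algebraMap J (LaurentSeries k)).comp ψ =
      Polynomial.eval₂RingHom (Int.castRingHom (LaurentSeries k)) (jqModC k) := by
    refine Polynomial.ringHom_ext (fun n => ?_) ?_
    · simp [hψ]
    · simp [hψ]
  refine ⟨P.map ψ, hP.map _, ?_⟩
  rw [Polynomial.eval₂_map, hcomp, ← evalZZ_apply]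
  exact h0

/-- Every element of `F_k = k(j(q^d) : d ∣ N)` is algebraic over `𝔽_ℓ(j̄)`. -/
theorem isAlgebraic_of_mem_fullC [Algebra (ZMod ℓ) k] [Algebra.IsAlgebraic (ZMod ℓ) k]
    {N : ℕ} [NeZero N] (core : CoreData N k)
    {a : LaurentSeries k} (ha : a ∈ modularFunctionFieldFullC k N) :
    IsAlgebraic (IntermediateField.adjoin (ZMod ℓ) {jqModC k}) a := by
  set J := IntermediateField.adjoin (ZMod ℓ) {jqModC k} with hJ
  rw [← mem_algebraicClosure_iff]
  have hle : (modularFunctionFieldFullC k N).toSubfield ≤ (algebraicClosure J (LaurentSeries k)).toSubfield := by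
    rw [modularFunctionFieldFullC, IntermediateField.adjoin_toSubfield, Subfield.closure_le]
    rintro y (⟨c, rfl⟩ | ⟨d, hd0, hd, rfl⟩)
    · show algebraMap k (LaurentSeries k) c ∈ algebraicClosure J (LaurentSeries k)
      rw [mem_algebraicClosure_iff]
      obtain ⟨p, hp0, hpc⟩ := (Algebra.IsAlgebraic.isAlgebraic c : IsAlgebraic (ZMod ℓ) c)
      refine ⟨p.map (algebraMap (ZMod ℓ) J), (Polynomial.map_ne_zero_iff
        (algebraMap (ZMod ℓ) J).injective).mpr hp0, ?_⟩
      rw [aeval_def, Polynomial.eval₂_map]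
      have hc : (algebraMap J (LaurentSeries k)).comp (algebraMap (ZMod ℓ) J) =
          (algebraMap k (LaurentSeries k)).comp (algebraMap (ZMod ℓ) k) := RingHom.ext_zmod _ _
      rw [hc, ← Polynomial.hom_eval₂, ← aeval_def, hpc, map_zero]
    · show qExpand k d (jqModC k) ∈ algebraicClosure J (LaurentSeries k)
      rw [mem_algebraicClosure_iff']
      have := hd0
      exact isIntegral_jd ℓ core d hd
  exact hle ha

end FullAlg

/-! ### (C4) the reduction relation on the Gauss valuation ring -/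

section RedRel

variable (M : ℕ) (A : ValuationSubring Qb) (E : IntermediateField ℚ Qb)

/-- Reduction of series modulo the maximal ideal of `A`. -/
abbrev redS : LaurentSeries A →+* LaurentSeries (IsLocalRing.ResidueField A) :=
  coeffMap (IsLocalRing.residue A)

/-- Inclusion `A((q)) → Q̄((q))`. -/
abbrev inclS : LaurentSeries A →+* LaurentSeries Qb := coeffMap A.subtype

/-- The coercion `Ω = F_M → Q̄((q))` as a ring homomorphism. -/
def omValH : Om M →+* LaurentSeries Qb := (modularFunctionFieldBar M).val.toRingHom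

@[simp] theorem omValH_apply (f : Om M) : omValH M f = (f : LaurentSeries Qb) := rfl

/-- Series over `Q̄` all of whose coefficients lie in `E`. -/
def coeffsInE : Subring (LaurentSeries Qb) where
  carrier := {U | ∀ n : ℤ, U.coeff n ∈ E}
  zero_mem' := fun n => by simp
  one_mem' := fun n => by
    rw [HahnSeries.coeff_one]
    split_ifs
    · exact one_mem _
    · exact zero_mem _
  add_mem' := fun {a b} ha hb n => by
    rw [HahnSeries.coeff_add]
    exact add_mem (ha n) (hb n)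
  neg_mem' := fun {a} ha n => by
    rw [HahnSeries.coeff_neg]
    exact neg_mem (ha n)
  mul_mem' := fun {a b} ha hb n => by
    rw [HahnSeries.coeff_mul]
    exact sum_mem fun ij _ => mul_mem (ha _) (hb _)

/-- The subring of `A((q))` cut out by `IsIntE`. -/
def intESub : Subring (LaurentSeries A) :=
  (coeffsInE E).comap (inclS A) ⊓ ((Fc M E).toSubring.map (omValH M)).comap (inclS A)

theorem mem_intESub {U : LaurentSeries A} : U ∈ intESub M A E ↔ IsIntE M A E U := by
  constructor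
  · rintro ⟨h1, f, hf, hfU⟩
    exact ⟨fun n => h1 n, f, hf, hfU⟩
  · rintro ⟨h1, f, hf, hfU⟩
    exact ⟨fun n => h1 n, f, hf, hfU⟩

/-- The reduction relation: `(g, ḡ) ∈ redRel` iff `g = U₁/U₂` and `ḡ = Ū₁/Ū₂` for `E`-rational
integral series `U₁, U₂` in `Fc` with `Ū₂ ≠ 0`. -/
def redRel : Subring (Om M × LaurentSeries (IsLocalRing.ResidueField A)) where
  carrier := {z | z.1 ∈ Fc M E ∧ ∃ U₁ U₂ : LaurentSeries A, U₁ ∈ intESub M A E ∧
    U₂ ∈ intESub M A E ∧ redS A U₂ ≠ 0 ∧
    (z.1 : LaurentSeries Qb) * inclS A U₂ = inclS A U₁ ∧ z.2 * redS A U₂ = redS A U₁}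
  zero_mem' := by
    refine ⟨zero_mem _, 0, 1, zero_mem _, one_mem _, ?_, ?_, ?_⟩
    · rw [map_one]; exact one_ne_zero
    · simp
    · simp
  one_mem' := by
    refine ⟨one_mem _, 1, 1, one_mem _, one_mem _, ?_, ?_, ?_⟩
    · rw [map_one]; exact one_ne_zero
    · simp
    · simp
  add_mem' := by
    rintro ⟨f, a⟩ ⟨g, b⟩ ⟨hf, U₁, U₂, h₁, h₂, hne, heq, hred⟩ ⟨hg, W₁, W₂, k₁, k₂, kne, keq, kred⟩
    refine ⟨add_mem hf hg, U₁ * W₂ + W₁ * U₂, U₂ * W₂, add_mem (mul_mem h₁ k₂) (mul_mem k₁ h₂),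
      mul_mem h₂ k₂, ?_, ?_, ?_⟩
    · rw [map_mul]; exact mul_ne_zero hne kne
    · simp only [Prod.fst_add] at heq keq ⊢
      push_cast
      rw [map_add, map_mul, map_mul, map_mul, ← heq, ← keq]
      ring
    · simp only [Prod.snd_add] at hred kred ⊢
      rw [map_add, map_mul, map_mul, map_mul, ← hred, ← kred]
      ring
  neg_mem' := by
    rintro ⟨f, a⟩ ⟨hf, U₁, U₂, h₁, h₂, hne, heq, hred⟩
    refine ⟨neg_mem hf, -U₁, U₂, neg_mem h₁, h₂, hne, ?_, ?_⟩
    · simp only [Prod.fst_neg] at heq ⊢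
      push_cast
      rw [map_neg, ← heq]
      ring
    · simp only [Prod.snd_neg] at hred ⊢
      rw [map_neg, ← hred]
      ring
  mul_mem' := by
    rintro ⟨f, a⟩ ⟨g, b⟩ ⟨hf, U₁, U₂, h₁, h₂, hne, heq, hred⟩ ⟨hg, W₁, W₂, k₁, k₂, kne, keq, kred⟩
    refine ⟨mul_mem hf hg, U₁ * W₁, U₂ * W₂, mul_mem h₁ k₁, mul_mem h₂ k₂, ?_, ?_, ?_⟩
    · rw [map_mul]; exact mul_ne_zero hne kne
    · simp only [Prod.fst_mul] at heq keq ⊢
      push_cast
      rw [map_mul, map_mul, ← heq, ← keq]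
      ring
    · simp only [Prod.snd_mul] at hred kred ⊢
      rw [map_mul, map_mul, ← hred, ← kred]
      ring

theorem mem_redRel {g : Om M} {a : LaurentSeries (IsLocalRing.ResidueField A)} :
    (g, a) ∈ redRel M A E ↔ g ∈ Fc M E ∧ ∃ U₁ U₂ : LaurentSeries A, U₁ ∈ intESub M A E ∧
      U₂ ∈ intESub M A E ∧ redS A U₂ ≠ 0 ∧
      (g : LaurentSeries Qb) * inclS A U₂ = inclS A U₁ ∧ a * redS A U₂ = redS A U₁ := Iff.rfl

/-- (R2) every element of the Gauss valuation ring has a reduction. -/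
theorem exists_red_of_mem_VcSet {f : Om M} (hf : f ∈ VcSet M A E) :
    ∃ a, (f, a) ∈ redRel M A E := by
  obtain ⟨hfF, U₁, U₂, h₁, h₂, hne, heq⟩ := hf
  refine ⟨redS A U₁ * (redS A U₂)⁻¹, hfF, U₁, U₂, (mem_intESub M A E).mpr h₁,
    (mem_intESub M A E).mpr h₂, hne, heq, ?_⟩
  rw [mul_assoc, inv_mul_cancel₀ hne, mul_one]

theorem mem_VcSet_of_mem_redRel {g : Om M} {a : LaurentSeries (IsLocalRing.ResidueField A)}
    (h : (g, a) ∈ redRel M A E) : g ∈ VcSet M A E := by
  obtain ⟨hgF, U₁, U₂, h₁, h₂, hne, heq, -⟩ := h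
  exact ⟨hgF, U₁, U₂, (mem_intESub M A E).mp h₁, (mem_intESub M A E).mp h₂, hne, heq⟩

/-- (R4) an element with nonzero reduction is a unit of the Gauss valuation ring. -/
theorem inv_mem_VcSet_of_red_ne_zero {g : Om M}
    {a : LaurentSeries (IsLocalRing.ResidueField A)} (h : (g, a) ∈ redRel M A E) (ha : a ≠ 0) :
    g ≠ 0 ∧ g⁻¹ ∈ VcSet M A E := by
  obtain ⟨hgF, U₁, U₂, h₁, h₂, hne, heq, hred⟩ := h
  have hne₁ : redS A U₁ ≠ 0 := by
    rw [← hred]
    exact mul_ne_zero ha hne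
  have hg0 : g ≠ 0 := by
    rintro rfl
    apply hne₁
    have h0 : inclS A U₁ = 0 := by
      rw [← heq]
      simp
    have hU : U₁ = 0 := H516.incl_injective A (by rw [h0, map_zero])
    rw [hU, map_zero]
  refine ⟨hg0, inv_mem hgF, U₂, U₁, (mem_intESub M A E).mp h₂, (mem_intESub M A E).mp h₁,
    hne₁, ?_⟩
  have hg0' : (g : LaurentSeries Qb) ≠ 0 := fun h => hg0 (Subtype.ext h)
  push_cast
  rw [← heq, ← mul_assoc, inv_mul_cancel₀ hg0', one_mul]

/-- (C5) reductions lie in the function field `F_k`. -/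
theorem red_mem_fullC [NeZero M] (core : CoreData M (IsLocalRing.ResidueField A)) {g : Om M}
    {a : LaurentSeries (IsLocalRing.ResidueField A)} (h : (g, a) ∈ redRel M A E) :
    a ∈ modularFunctionFieldFullC (IsLocalRing.ResidueField A) M := by
  obtain ⟨-, U₁, U₂, h₁, h₂, hne, -, hred⟩ := h
  have key : ∀ U : LaurentSeries A, U ∈ intESub M A E →
      redS A U ∈ modularFunctionFieldFullC (IsLocalRing.ResidueField A) M := by
    intro U hU
    obtain ⟨-, f, -, hfU⟩ := (mem_intESub M A E).mp hU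
    refine H516.red_mem_of_incl_mem A (IsLocalRing.residue A) M core ?_
    rw [← hfU]
    exact f.2
  have ha : a = redS A U₁ * (redS A U₂)⁻¹ := by
    rw [← hred, mul_assoc, mul_inv_cancel₀ hne, mul_one]
  rw [ha]
  exact mul_mem (key U₁ h₁) (inv_mem (key U₂ h₂))

/-- (R5) the reduction of `j` is `j̄`. -/
theorem jOm_mem_redRel : (jOm M, jqModC (IsLocalRing.ResidueField A)) ∈ redRel M A E := by
  have hjF : jOm M ∈ Fc M E :=
    Subfield.subset_closure (Set.mem_union_right _ ⟨1, inferInstance, one_dvd M, rfl⟩)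
  have hjval : (jOm M : LaurentSeries Qb) = inclS A (jqModC A) := by
    show coeffEmb Qb (qExpand ℚ 1 jq) = coeffMap A.subtype (jqModC A)
    rw [qExpand_one_apply, H516.coeffEmb_jq, coeffMap_jqModC]
  have hjint : jqModC A ∈ intESub M A E := by
    refine ⟨fun n => ?_, jOm M, hjF, hjval⟩
    show ((coeffMap A.subtype (jqModC A)).coeff n) ∈ E
    rw [coeffMap_jqModC, coeff_jqModC_eq_intCast]
    exact intCast_mem E _
  refine ⟨hjF, jqModC A, 1, hjint, one_mem _, ?_, ?_, ?_⟩
  · rw [map_one]; exact one_ne_zero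
  · rw [map_one, mul_one, hjval]
  · rw [map_one, mul_one]
    exact (coeffMap_jqModC (IsLocalRing.residue A)).symm

/-- (R3) an element with zero reduction is divisible by the uniformiser `w`. -/
theorem mul_inv_mem_VcSet_of_red_eq_zero {w : Om M} (hw : w ∈ Rc M A E) (hw0 : w ≠ 0)
    (hgen : ∀ r ∈ Rc M A E, r⁻¹ ∉ Rc M A E → r * w⁻¹ ∈ Rc M A E) {g : Om M}
    (h : (g, (0 : LaurentSeries (IsLocalRing.ResidueField A))) ∈ redRel M A E) :
    g * w⁻¹ ∈ VcSet M A E := by
  obtain ⟨hgF, U₁, U₂, h₁, h₂, hne, heq, hred⟩ := h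
  simp only [zero_mul] at hred
  obtain ⟨aw, ⟨hawA, hawE⟩, rfl⟩ := hw
  have haw0 : aw ≠ 0 := by
    rintro rfl
    exact hw0 (map_zero _)
  obtain ⟨hU₁E, f₁, hf₁F, hf₁U⟩ := (mem_intESub M A E).mp h₁
  have hinj : Function.Injective (algebraMap Qb (Om M)) := (algebraMap Qb (Om M)).injective
  -- every coefficient of `U₁` is divisible by `aw` in `A`
  have hdiv : ∀ n : ℤ, ((U₁.coeff n : A) : Qb) * aw⁻¹ ∈ A := by
    intro n
    by_cases hc0 : ((U₁.coeff n : A) : Qb) = 0
    · rw [hc0, zero_mul]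
      exact zero_mem _
    have hcres : IsLocalRing.residue A (U₁.coeff n) = 0 := by
      have := congrArg (fun S : LaurentSeries (IsLocalRing.ResidueField A) => S.coeff n) hred
      simpa using this.symm
    have hr : algebraMap Qb (Om M) ((U₁.coeff n : A) : Qb) ∈ Rc M A E :=
      ⟨_, ⟨(U₁.coeff n).2, hU₁E n⟩, rfl⟩
    have hrinv : (algebraMap Qb (Om M) ((U₁.coeff n : A) : Qb))⁻¹ ∉ Rc M A E := by
      rintro ⟨b, ⟨hbA, -⟩, hb⟩
      have hb' : b = ((U₁.coeff n : A) : Qb)⁻¹ := hinj (by rw [hb, map_inv₀])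
      have hunit : IsUnit (U₁.coeff n) := by
        refine isUnit_iff_exists_inv.mpr ⟨⟨b, hbA⟩, Subtype.ext ?_⟩
        show ((U₁.coeff n : A) : Qb) * b = 1
        rw [hb', mul_inv_cancel₀ hc0]
      have hmem : U₁.coeff n ∈ IsLocalRing.maximalIdeal A :=
        (IsLocalRing.residue_eq_zero_iff _).mp hcres
      exact (IsLocalRing.mem_maximalIdeal _).mp hmem hunit
    obtain ⟨b, ⟨hbA, -⟩, hb⟩ := hgen _ hr hrinv
    have hb' : b = ((U₁.coeff n : A) : Qb) * aw⁻¹ := hinj (by rw [hb, map_mul, map_inv₀])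
    rw [← hb']
    exact hbA
  -- the divided series
  let U₁' : LaurentSeries A :=
    ⟨fun n => ⟨((U₁.coeff n : A) : Qb) * aw⁻¹, hdiv n⟩,
      U₁.isPWO_support.mono (fun n hn => by
        intro h0
        apply hn
        apply Subtype.ext
        show ((U₁.coeff n : A) : Qb) * aw⁻¹ = 0
        rw [h0]
        simp)⟩
  have hwval : algebraMap Qb (LaurentSeries Qb) aw = HahnSeries.single 0 aw :=
    algebraMap_laurentSeries_eq_single Qb aw
  have hwcoe : ((algebraMap Qb (Om M) aw : Om M) : LaurentSeries Qb) =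
      algebraMap Qb (LaurentSeries Qb) aw := rfl
  have hwne : algebraMap Qb (LaurentSeries Qb) aw ≠ 0 := by
    rw [← hwcoe]
    exact fun h => hw0 (Subtype.ext h)
  have hU' : inclS A U₁' * algebraMap Qb (LaurentSeries Qb) aw = inclS A U₁ := by
    rw [hwval]
    ext n
    rw [HahnSeries.coeff_mul_single_zero]
    show ((U₁.coeff n : A) : Qb) * aw⁻¹ * aw = ((U₁.coeff n : A) : Qb)
    rw [mul_assoc, inv_mul_cancel₀ haw0, mul_one]
  have hU'' : inclS A U₁' = inclS A U₁ * (algebraMap Qb (LaurentSeries Qb) aw)⁻¹ := by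
    rw [← hU', mul_assoc, mul_inv_cancel₀ hwne, mul_one]
  have hwF : algebraMap Qb (Om M) aw ∈ Fc M E :=
    Subfield.subset_closure (Set.mem_union_left _ ⟨aw, hawE, rfl⟩)
  have hU₁' : IsIntE M A E U₁' := by
    refine ⟨fun n => ?_, f₁ * (algebraMap Qb (Om M) aw)⁻¹, mul_mem hf₁F (inv_mem hwF), ?_⟩
    · show ((U₁.coeff n : A) : Qb) * aw⁻¹ ∈ E
      exact mul_mem (hU₁E n) (inv_mem hawE)
    · show (f₁ : LaurentSeries Qb) *
        (((algebraMap Qb (Om M) aw : Om M) : LaurentSeries Qb))⁻¹ = inclS A U₁'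
      rw [hwcoe, hf₁U, hU'']
  refine ⟨mul_mem hgF (inv_mem hwF), U₁', U₂, hU₁', (mem_intESub M A E).mp h₂, hne, ?_⟩
  show (g : LaurentSeries Qb) * (((algebraMap Qb (Om M) aw : Om M) : LaurentSeries Qb))⁻¹ *
    inclS A U₂ = inclS A U₁'
  rw [hwcoe, hU'', ← heq]
  ring

end RedRel

/-! ### (C6) the field `separable` at the concrete objects -/

section Main

variable (M : ℕ) [NeZero M] {ℓ : ℕ} [hℓ : Fact ℓ.Prime]

/-- **G-SEP at the concrete objects, coordinate `j`.**  For every subring `V` with underlying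
set `VcSet M A E` and every `w ∈ Rc M A E`, `w ≠ 0`, generating the maximal ideal of `Rc M A E`
(fields `w_mem`, `w_ne_zero`, `w_gen` of `PartR`): the field `separable` of `Alg.GoodModel`.
No hypothesis on `E`.  The polynomial even has coefficients in `ℤ[j]`. -/
theorem separable_jOm (hℓM : ¬ ℓ ∣ M) (A : ValuationSubring Qb) (hA : A.LiesOverPrime ℓ)
    (E : IntermediateField ℚ Qb) (V : Subring (Om M)) (hV : (V : Set (Om M)) = VcSet M A E)
    (w : Om M) (hw : w ∈ Rc M A E) (hw0 : w ≠ 0)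
    (hgen : ∀ r ∈ Rc M A E, r⁻¹ ∉ Rc M A E → r * w⁻¹ ∈ Rc M A E) :
    ∀ f ∈ V, ∃ P : Polynomial (Om M), (∀ i, P.coeff i ∈ Alg.polyRing (Rc M A E) (jOm M)) ∧
      P.eval f * w⁻¹ ∈ V ∧ (Polynomial.derivative P).eval f ≠ 0 ∧
      ((Polynomial.derivative P).eval f)⁻¹ ∈ V := by
  intro f hf
  have hmemV : ∀ g : Om M, g ∈ V ↔ g ∈ VcSet M A E := fun g => by
    rw [← hV]
    rfl
  have hchar : CharP (IsLocalRing.ResidueField A) ℓ := H516.charP_residue A hA
  let _ : Algebra (ZMod ℓ) (IsLocalRing.ResidueField A) := ZMod.algebra _ ℓ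
  have core := H516.coreData_residue M hℓM A hA
  obtain ⟨a, ha⟩ := exists_red_of_mem_VcSet M A E ((hmemV f).mp hf)
  have halg := isAlgebraic_of_mem_fullC ℓ core (red_mem_fullC M A E core ha)
  have hv : HahnSeries.addVal ℤ (IsLocalRing.ResidueField A)
      (jqModC (IsLocalRing.ResidueField A)) = ((-1 : ℤ) : WithTop ℤ) := by
    rw [HahnSeries.addVal_apply_of_ne (jqModC_ne_zero_of_nontrivial _), order_jqModC]
  exact exists_poly_of_graph_sep ℓ (HahnSeries.addVal ℤ _) (redRel M A E) V (Rc M A E) w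
    (jOm M) f (jqModC _) a (jOm_mem_redRel M A E) ha
    (fun g hg => (hmemV _).mpr (mul_inv_mem_VcSet_of_red_eq_zero M A E hw hw0 hgen hg))
    (fun g b hg hb => ⟨(inv_mem_VcSet_of_red_ne_zero M A E hg hb).1,
      (hmemV _).mpr (inv_mem_VcSet_of_red_ne_zero M A E hg hb).2⟩)
    (-1) hv (not_prime_dvd_neg_one ℓ hℓ.out) halg

end Main

end Fermat.Agent.S18.H264

end
end
-- ===== PACK-END S18/H264/SepConcrete.lean

-- ===== PACK-BEGIN S18/H804/ValPlace.lean
section




/-!
# S18 / GLUE input: every nontrivial valuation subring of a function field containing the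
constants is a place  (helper804)

`K` a field of characteristic zero, `F` finite over `K(x)`, `x` transcendental.  A valuation
subring `O ≠ ⊤` of `F` containing `K` is the valuation ring of a `Place K F` (a discrete
valuation ring).  Proof: `x` or `x⁻¹` lies in `O`; `O` dominates the localisation of the integral
closure of `K[x^{±1}]` at its center, which is a DVR, hence maximal among proper subrings.

Corollary (`exists_mul_pow_unit`): if `m ∣ ord_v u` for every place `v`, then for every valuation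
subring `O ⊇ K` of `F` there is `t ≠ 0` with `u * t ^ m` a unit of `O`.
-/

set_option autoImplicit false
set_option linter.unusedSectionVars false

namespace Fermat.Agent.S18.H804

open AlgebraicCurve Polynomial IntermediateField IsDedekindDomain Fermat.Agent.S24 FF

open scoped IntermediateField.algebraAdjoinAdjoin

variable {K F : Type*} [Field K] [Field F] [Algebra K F] {t : F}

/-- `K[t] ⊆ O` when `t ∈ O`. -/
theorem mem_of_mem_coordRing_val (O : ValuationSubring F)
    (hK : ∀ a : K, algebraMap K F a ∈ O) (ht : t ∈ O) {r : F}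
    (hr : r ∈ coordRing K t) : r ∈ O := by
  induction hr using Algebra.adjoin_induction with
  | mem x hx =>
    rw [Set.mem_singleton_iff] at hx
    subst hx
    exact ht
  | algebraMap a => exact hK a
  | add x y _ _ hx hy => exact add_mem hx hy
  | mul x y _ _ hx hy => exact mul_mem hx hy

/-- The integral closure of `K[t]` is contained in `O` when `t ∈ O`. -/
theorem mem_of_mem_intRing_val (O : ValuationSubring F)
    (hK : ∀ a : K, algebraMap K F a ∈ O) (ht : t ∈ O) {s : F}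
    (hs : s ∈ intRing K t) : s ∈ O := by
  let φ : coordRing K t →+* O :=
    { toFun := fun y => ⟨y, mem_of_mem_coordRing_val O hK ht y.2⟩
      map_one' := rfl
      map_mul' := fun _ _ => rfl
      map_zero' := rfl
      map_add' := fun _ _ => rfl }
  obtain ⟨p, hpm, hp⟩ := hs
  have hint' : IsIntegral O s := by
    refine ⟨p.map φ, hpm.map φ, ?_⟩
    rw [← hp, Polynomial.eval₂_map]
    rfl
  obtain ⟨y, hy⟩ := IsIntegrallyClosed.isIntegral_iff.mp hint'
  rw [← hy]
  exact y.2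

/-- The inclusion of the integral closure of `K[t]` into `O`. -/
def toValRing (O : ValuationSubring F) (hK : ∀ a : K, algebraMap K F a ∈ O) (ht : t ∈ O) :
    intRing K t →+* O where
  toFun s := ⟨s, mem_of_mem_intRing_val O hK ht s.2⟩
  map_one' := rfl
  map_mul' _ _ := rfl
  map_zero' := rfl
  map_add' _ _ := rfl

/-- The center of `O` on the integral closure of `K[t]`. -/
def centerVal (O : ValuationSubring F) (hK : ∀ a : K, algebraMap K F a ∈ O) (ht : t ∈ O) :
    Ideal (intRing K t) :=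
  Ideal.comap (toValRing O hK ht) (IsLocalRing.maximalIdeal O)

instance centerVal_isPrime (O : ValuationSubring F) (hK : ∀ a : K, algebraMap K F a ∈ O)
    (ht : t ∈ O) : (centerVal O hK ht).IsPrime := by
  unfold centerVal
  infer_instance

theorem mem_centerVal_iff (O : ValuationSubring F) (hK : ∀ a : K, algebraMap K F a ∈ O)
    (ht : t ∈ O) (s : intRing K t) :
    s ∈ centerVal O hK ht ↔ (s : F) ∈ O.nonunits := by
  rw [centerVal, Ideal.mem_comap]
  exact ValuationSubring.coe_mem_nonunits_iff.symm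

section withCoord

variable [CharZero K] [IsCoord K t]

/-- The center of a proper valuation subring is nonzero. -/
theorem centerVal_ne_bot (O : ValuationSubring F) (hK : ∀ a : K, algebraMap K F a ∈ O)
    (ht : t ∈ O) (hO : O ≠ ⊤) : centerVal O hK ht ≠ ⊥ := by
  intro h
  apply hO
  refine SetLike.ext fun f => ⟨fun _ => ValuationSubring.mem_top f, fun _ => ?_⟩
  -- `f = a / b` with `a, b` in the integral closure, `b ≠ 0` a unit of `O`
  obtain ⟨a, b, hb, rfl⟩ := IsFractionRing.div_surjective (A := intRing K t) f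
  have hb0 : b ≠ 0 := nonZeroDivisors.ne_zero hb
  have hbF : (b : F) ≠ 0 := fun h0 => hb0 (Subtype.ext h0)
  have hbnot : (b : F) ∉ O.nonunits := by
    intro hbn
    have : b ∈ centerVal O hK ht := (mem_centerVal_iff O hK ht b).mpr hbn
    rw [h, Ideal.mem_bot] at this
    exact hb0 this
  have hbinv : (b : F)⁻¹ ∈ O := by
    by_contra hcon
    exact hbnot ((ValuationSubring.mem_nonunits_iff_or _).mpr (Or.inr hcon))
  have ha : (a : F) ∈ O := mem_of_mem_intRing_val O hK ht a.2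
  show algebraMap (intRing K t) F a / algebraMap (intRing K t) F b ∈ O
  rw [div_eq_mul_inv]
  exact mul_mem ha hbinv

/-- A proper valuation subring containing `K` and `t` is the valuation ring of a place. -/
theorem exists_place_of_mem (O : ValuationSubring F) (hK : ∀ a : K, algebraMap K F a ∈ O)
    (ht : t ∈ O) (hO : O ≠ ⊤) : ∃ v : Place K F, v.toValuationSubring = O := by
  let q : HeightOneSpectrum (intRing K t) :=
    ⟨centerVal O hK ht, inferInstance, centerVal_ne_bot O hK ht hO⟩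
  refine ⟨placeOfPrime K t q, ?_⟩
  rw [placeOfPrime_toValuationSubring,
    ← HeightOneSpectrum.valuationSubringAtPrime_eq_valuationSubring]
  refine ValuationSubring.eq_of_le_of_ne_top _ ?_ hO
  rintro x ⟨a, s, hs, rfl⟩
  have ha : (a : F) ∈ O := mem_of_mem_intRing_val O hK ht a.2
  have hs' : (s : F) ∉ O.nonunits := fun h =>
    hs ((mem_centerVal_iff O hK ht s).mpr h)
  have hsinv : (s : F)⁻¹ ∈ O := by
    by_contra hcon
    exact hs' ((ValuationSubring.mem_nonunits_iff_or _).mpr (Or.inr hcon))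
  exact mul_mem ha hsinv

end withCoord

/-- **Every proper valuation subring of `F` containing `K` is a place.** -/
theorem exists_place_of_valuationSubring [CharZero K] {x : F} (hx : Transcendental K x)
    [FiniteDimensional K⟮x⟯ F] (O : ValuationSubring F)
    (hK : ∀ a : K, algebraMap K F a ∈ O) (hO : O ≠ ⊤) :
    ∃ v : Place K F, v.toValuationSubring = O := by
  rcases O.mem_or_inv_mem x with h | h
  · have : IsCoord K x := ⟨hx, inferInstance⟩
    exact exists_place_of_mem O hK h hO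
  · have : FiniteDimensional K⟮x⁻¹⟯ F := finiteDimensional_adjoin_inv x
    have : IsCoord K x⁻¹ := ⟨transcendental_inv hx, inferInstance⟩
    exact exists_place_of_mem O hK h hO

/-- If `m` divides the order of `u` at every place, then `u` is, up to an `m`-th power, a unit of
every valuation subring of `F` containing `K`. -/
theorem exists_mul_pow_unit [CharZero K] {x : F} (hx : Transcendental K x)
    [FiniteDimensional K⟮x⟯ F] (m : ℕ) (u : F) (hu : u ≠ 0)
    (hdiv : ∀ v : Place K F, (m : ℤ) ∣ v.ord u) (O : ValuationSubring F)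
    (hK : ∀ a : K, algebraMap K F a ∈ O) :
    ∃ t : F, t ≠ 0 ∧ u * t ^ m ∈ O ∧ (u * t ^ m)⁻¹ ∈ O := by
  by_cases hO : O = ⊤
  · subst hO
    exact ⟨1, one_ne_zero, ValuationSubring.mem_top _, ValuationSubring.mem_top _⟩
  obtain ⟨v, rfl⟩ := exists_place_of_valuationSubring hx O hK hO
  obtain ⟨π, hπ, hπ1⟩ := exists_irreducible_coe v
  have hπ0 : (π : F) ≠ 0 := by
    intro h
    rw [h, v.ord_zero] at hπ1
    exact zero_ne_one hπ1
  obtain ⟨k, hk⟩ := hdiv v
  refine ⟨(π : F) ^ (-k), zpow_ne_zero _ hπ0, ?_, ?_⟩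
  all_goals
    have hne : u * ((π : F) ^ (-k)) ^ m ≠ 0 :=
      mul_ne_zero hu (pow_ne_zero _ (zpow_ne_zero _ hπ0))
    have hord : v.ord (u * ((π : F) ^ (-k)) ^ m) = 0 := by
      rw [v.ord_mul hu (pow_ne_zero _ (zpow_ne_zero _ hπ0)), ← zpow_natCast, ← zpow_mul,
        v.ord_zpow, hπ1, hk]
      ring
  · exact mem_of_ord_nonneg v hord.ge
  · apply mem_of_ord_nonneg v
    rw [v.ord_inv, hord]
    simp

end Fermat.Agent.S18.H804

end
-- ===== PACK-END S18/H804/ValPlace.lean

-- ===== PACK-BEGIN S18/H804/ValPlaceModular.lean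
section



/-!
# S18 / GLUE input for the modular function field `F_M = ℚ̄(j(q^d) : d ∣ M)`  (helper804)

* `exists_place_of_valuationSubring_modular` : every proper valuation subring of `F_M` containing
  `ℚ̄` is the valuation ring of a `Place`.
* `exists_mul_pow_unit_modular` : Place-divisibility of the divisor of `u` by `m` gives the
  valuation-subring form used in `Alg.AlgMainStatement`.
-/

set_option autoImplicit false

namespace Fermat.Agent.S18.H804

open AlgebraicCurve ModularCurve Fermat.Agent.S24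

variable (M : ℕ) [NeZero M]

theorem exists_place_of_valuationSubring_modular
    (O : ValuationSubring ↥(modularFunctionFieldBar M))
    (hK : ∀ a : AlgebraicClosure ℚ,
      algebraMap (AlgebraicClosure ℚ) ↥(modularFunctionFieldBar M) a ∈ O) (hO : O ≠ ⊤) :
    ∃ v : Place (AlgebraicClosure ℚ) ↥(modularFunctionFieldBar M), v.toValuationSubring = O :=
  haveI := Fermat.Agent.Lib.RR.H804.finiteDimensional_jF M
  exists_place_of_valuationSubring (Fermat.Agent.Lib.RR.H804.transcendental_jF M) O hK hO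

theorem exists_mul_pow_unit_modular (m : ℕ) (u : ↥(modularFunctionFieldBar M)) (hu : u ≠ 0)
    (hdiv : ∀ v : Place (AlgebraicClosure ℚ) ↥(modularFunctionFieldBar M), (m : ℤ) ∣ v.ord u)
    (O : ValuationSubring ↥(modularFunctionFieldBar M))
    (hK : ∀ a : AlgebraicClosure ℚ,
      algebraMap (AlgebraicClosure ℚ) ↥(modularFunctionFieldBar M) a ∈ O) :
    ∃ t : ↥(modularFunctionFieldBar M), t ≠ 0 ∧ u * t ^ m ∈ O ∧ (u * t ^ m)⁻¹ ∈ O :=
  haveI := Fermat.Agent.Lib.RR.H804.finiteDimensional_jF M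
  exists_mul_pow_unit (Fermat.Agent.Lib.RR.H804.transcendental_jF M) m u hu hdiv O hK

end Fermat.Agent.S18.H804

end
-- ===== PACK-END S18/H804/ValPlaceModular.lean

-- ===== PACK-BEGIN S18/H558/BranchJ.lean
section



/-!
# S18 / MOD M2 (part 1): char-0 ramification of `F_M / ℚ̄(j)` in Prelude `Place` language

From the landed S24 analytic core (`H997.analyticCore`, `H117` local theorem), for every level `N`
(`FF N = modularFunctionFieldBar N`, `jF N` the `j`-function, `Kbar = ℚ̄`):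

* `ord_j_sub_eq_one`   : `a ≠ 0`, `a ≠ 1728`, `0 < v.ord (j - a)` ⟹ `v.ord (j - a) = 1`;
* `ord_j_dvd_three`    : `0 < v.ord j` ⟹ `v.ord j ∣ 3`;
* `ord_j_sub_1728_dvd_two` : `0 < v.ord (j - 1728)` ⟹ `v.ord (j - 1728) ∣ 2`;
* `finrank_jF`         : `[FF N : ℚ̄(j)] = #(SL₂(ℤ)/Γ₀(N))`.
-/

set_option autoImplicit false

noncomputable section

open AlgebraicCurve ModularCurve
open scoped MatrixGroups

namespace Fermat.Agent.S18.H558

open Fermat.Agent.S24

variable (N : ℕ) [NeZero N]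

/-- `-1` acts trivially on `SL₂(ℤ) / Γ₀(N)`. -/
theorem permOf_neg_one : permOf N (-1 : SL(2, ℤ)) = 1 := by
  ext x
  obtain ⟨g, rfl⟩ := QuotientGroup.mk_surjective x
  show ((-1 : SL(2, ℤ)) • (g : XX N)) = (g : XX N)
  rw [MulAction.Quotient.smul_mk, smul_eq_mul]
  apply QuotientGroup.eq.mpr
  have hinv : ((-1 : SL(2, ℤ)))⁻¹ = -1 := by
    rw [inv_eq_iff_eq_inv, eq_comm, inv_eq_iff_mul_eq_one, neg_mul_neg, one_mul]
  have h : (-1 * g)⁻¹ * g = (-1 : SL(2, ℤ)) := by
    rw [neg_one_mul, ← mul_neg_one, mul_inv_rev, mul_assoc, inv_mul_cancel, mul_one, hinv]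
  rw [h, CongruenceSubgroup.Gamma0_mem]
  simp

omit [NeZero N] in
theorem permOf_mul (g h : SL(2, ℤ)) : permOf N (g * h) = permOf N g * permOf N h := by
  ext x
  simp [permOf, mul_smul]

theorem permOf_pow (g : SL(2, ℤ)) (n : ℕ) : permOf N (g ^ n) = permOf N g ^ n := by
  induction n with
  | zero => simp [H997.permOf_one]
  | succ n ih => rw [pow_succ, pow_succ, permOf_mul, ih]

theorem S_sq : ModularGroup.S ^ 2 = (-1 : SL(2, ℤ)) := by
  apply Subtype.ext
  rw [pow_two, Matrix.SpecialLinearGroup.coe_mul, ModularGroup.coe_S,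
    Matrix.SpecialLinearGroup.coe_neg, Matrix.SpecialLinearGroup.coe_one]
  ext i j
  fin_cases i <;> fin_cases j <;> simp [Matrix.mul_apply, Fin.sum_univ_two]

theorem ST_cube : (ModularGroup.S * ModularGroup.T) ^ 3 = (-1 : SL(2, ℤ)) := by
  apply Subtype.ext
  rw [pow_succ, pow_two, Matrix.SpecialLinearGroup.coe_mul, Matrix.SpecialLinearGroup.coe_mul,
    Matrix.SpecialLinearGroup.coe_mul, ModularGroup.coe_S, ModularGroup.coe_T,
    Matrix.SpecialLinearGroup.coe_neg, Matrix.SpecialLinearGroup.coe_one]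
  ext i j
  fin_cases i <;> fin_cases j <;> simp [Matrix.mul_apply, Fin.sum_univ_two]

theorem permOf_inv_pow_eq_one (g : SL(2, ℤ)) (n : ℕ) (hg : g ^ n = -1) :
    (permOf N g⁻¹) ^ n = 1 := by
  rw [H997.permOf_inv, inv_pow, ← permOf_pow, hg, permOf_neg_one, inv_one]

/-- The degree of `F_N` over `ℚ̄(j)`. -/
theorem finrank_jF :
    FiniteDimensional ↥(IntermediateField.adjoin Kbar {jF N}) (FF N) ∧
      Module.finrank ↥(IntermediateField.adjoin Kbar {jF N}) (FF N) = Nat.card (XX N) := by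
  obtain ⟨hfd, hle⟩ := Deg457.degree_fields N
  exact ⟨hfd, le_antisymm hle (H997.analyticCore N).card_le_finrank⟩

/-- Generic values of `j` are unramified. -/
theorem ord_j_sub_eq_one (a : Kbar) (h0 : a ≠ 0) (h1 : a ≠ 1728) (v : Place Kbar (FF N))
    (hv : 0 < v.ord (jF N - algebraMap Kbar (FF N) a)) :
    v.ord (jF N - algebraMap Kbar (FF N) a) = 1 := by
  obtain ⟨hfd, hrank⟩ := finrank_jF N
  obtain ⟨Z, -, -, -, h⟩ := local_fin (jF N) hrank a ((H997.analyticCore N).dataFin a)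
  exact h ((H997.analyticCore N).dataFin_perm_generic a h0 h1) v hv

/-- General divisibility: if the `n`-th power of the monodromy at `a` is trivial, every zero of
`j - a` has order dividing `n`. -/
theorem ord_j_sub_dvd (a : Kbar) (n : ℕ)
    (hperm : ((H997.analyticCore N).dataFin a).perm ^ n = 1) (v : Place Kbar (FF N))
    (hv : 0 < v.ord (jF N - algebraMap Kbar (FF N) a)) :
    v.ord (jF N - algebraMap Kbar (FF N) a) ∣ (n : ℤ) := by
  obtain ⟨hfd, hrank⟩ := finrank_jF N
  set L := (H997.analyticCore N).dataFin a with hL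
  have hE : IntermediateField.adjoin Kbar {jF N} ≤
      IntermediateField.adjoin Kbar {jF N - algebraMap Kbar (FF N) a} :=
    (adjoin_sub_algebraMap Kbar (jF N) a).ge
  obtain ⟨x, rfl⟩ := H117.exists_placeOf_eq L _ hE hrank v hv
  exact H117.ord_t_dvd_of_pow_apply_eq L x n (by rw [hperm]; rfl)

theorem dataFin_zero_perm_eq :
    ((H997.analyticCore N).dataFin 0).perm = permOf N (ModularGroup.S * ModularGroup.T)⁻¹ := by
  unfold H997.AnalyticCore.dataFin
  rw [dif_pos rfl]
  rfl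

theorem dataFin_1728_perm_eq :
    ((H997.analyticCore N).dataFin 1728).perm = permOf N (ModularGroup.S)⁻¹ := by
  have h0 : (1728 : Kbar) ≠ 0 := by norm_num
  unfold H997.AnalyticCore.dataFin
  rw [dif_neg h0, dif_pos rfl]
  rfl

/-- Zeros of `j` have order `1` or `3`. -/
theorem ord_j_dvd_three (v : Place Kbar (FF N)) (hv : 0 < v.ord (jF N)) :
    v.ord (jF N) ∣ 3 := by
  have h := ord_j_sub_dvd N 0 3
    (by rw [dataFin_zero_perm_eq]; exact permOf_inv_pow_eq_one N _ 3 ST_cube) v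
    (by rwa [map_zero, sub_zero])
  rw [map_zero, sub_zero] at h
  exact_mod_cast h

/-- Zeros of `j - 1728` have order `1` or `2`. -/
theorem ord_j_sub_1728_dvd_two (v : Place Kbar (FF N))
    (hv : 0 < v.ord (jF N - algebraMap Kbar (FF N) 1728)) :
    v.ord (jF N - algebraMap Kbar (FF N) 1728) ∣ 2 := by
  have h := ord_j_sub_dvd N 1728 2
    (by rw [dataFin_1728_perm_eq]; exact permOf_inv_pow_eq_one N _ 2 S_sq) v hv
  exact_mod_cast h

end Fermat.Agent.S18.H558

end
end
-- ===== PACK-END S18/H558/BranchJ.lean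

-- ===== PACK-BEGIN S18/H558/BranchT2.lean
section


/-!
# S18 / MOD M2 (part 2): ramification of `F_M / ℚ̄(t)` for the Hauptmodul `t = t₂` of `X₀(2)`

Hypothesis (proved elsewhere, piece c3-i): `t ∈ FF M` with `j * t ^ 2 = (t + 256) ^ 3`.
Then `F_M / ℚ̄(t)` is unramified outside `t ∈ {0, -64, ∞}`:

* `ord_t2_sub_eq_one` : `c ≠ 0`, `c ≠ -64`, `0 < v.ord (t - c)` ⟹ `v.ord (t - c) = 1`;
* `ord_t2_add_64_dvd_two` : `0 < v.ord (t + 64)` ⟹ `v.ord (t + 64) ∣ 2`;
* `ord_t2_inv_sub_eq_one` : the same in the coordinate `1/t` (chart at infinity).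
-/

set_option autoImplicit false

noncomputable section

open AlgebraicCurve ModularCurve

namespace Fermat.Agent.S18.H558

open Fermat.Agent.S24

section Generic

variable {K F : Type*} [Field K] [Field F] [Algebra K F] (v : Place K F)

/-- A nonzero constant plus an element of positive order has order `0`. -/
theorem ord_const_add {g : K} (hg : g ≠ 0) {z : F} (hz : 0 < v.ord z) :
    v.ord (algebraMap K F g + z) = 0 := by
  have hg' : algebraMap K F g ≠ 0 := (map_ne_zero _).2 hg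
  have h0 : v.ord (algebraMap K F g) = 0 := H117.ord_algebraMap v g
  rw [H117.ord_add_eq_of_lt v (by rw [h0]; exact hz) hg', h0]

/-- A nonzero constant plus `T * y` with `0 < ord T`, `y` integral, has order `0`. -/
theorem ord_const_add_mul {g : K} (hg : g ≠ 0) {T y : F} (hT : 0 < v.ord T)
    (hy : y ∈ v.toValuationSubring) : v.ord (algebraMap K F g + T * y) = 0 := by
  rcases eq_or_ne y 0 with rfl | hy0
  · rw [mul_zero, add_zero]; exact H117.ord_algebraMap v g
  · have hT0 : T ≠ 0 := H117.ne_zero_of_ord_ne_zero v hT.ne'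
    refine ord_const_add v hg ?_
    rw [v.ord_mul hT0 hy0]
    have := H117.ord_nonneg_of_mem v hy
    omega

/-- If `0 < ord (t - c)` then `t` is integral at `v`. -/
theorem mem_of_ord_sub_pos {t : F} {c : K} (h : 0 < v.ord (t - algebraMap K F c)) :
    t ∈ v.toValuationSubring := by
  have h1 : t - algebraMap K F c ∈ v.toValuationSubring := H117.mem_of_ord_nonneg v h.le
  have h2 : algebraMap K F c ∈ v.toValuationSubring := v.algebraMap_mem' c
  have := add_mem h1 h2
  rwa [sub_add_cancel] at this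

/-- If `0 < ord (t - c)` and `c ≠ 0` then `ord t = 0`. -/
theorem ord_eq_zero_of_ord_sub_pos {t : F} {c : K} (hc : c ≠ 0)
    (h : 0 < v.ord (t - algebraMap K F c)) : v.ord t = 0 := by
  have := ord_const_add v hc h
  rwa [add_sub_cancel] at this

/-- Nonvanishing version of `ord_const_add_mul`. -/
theorem const_add_mul_ne_zero {g : K} (hg : g ≠ 0) {T y : F} (hT : 0 < v.ord T)
    (hy : y ∈ v.toValuationSubring) : algebraMap K F g + T * y ≠ 0 := by
  intro h
  rcases eq_or_ne y 0 with rfl | hy0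
  · rw [mul_zero, add_zero] at h
    exact hg ((map_eq_zero _).1 h)
  · have hT0 : T ≠ 0 := H117.ne_zero_of_ord_ne_zero v hT.ne'
    have h1 : T * y = algebraMap K F (-g) := by
      rw [map_neg, eq_neg_iff_add_eq_zero, add_comm]; exact h
    have h2 := congrArg v.ord h1
    rw [v.ord_mul hT0 hy0, H117.ord_algebraMap] at h2
    have := H117.ord_nonneg_of_mem v hy
    omega

/-- **Tower lemma.**  If `J * D = T ^ k * U` with `D`, `U` units at `v`, then
`ord J = k * ord T`. -/
theorem ord_eq_of_key {J D T U : F} (k : ℕ) (hkey : J * D = T ^ k * U)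
    (hD0 : D ≠ 0) (hD : v.ord D = 0) (hU0 : U ≠ 0) (hU : v.ord U = 0) (hT0 : T ≠ 0) :
    J ≠ 0 ∧ v.ord J = k * v.ord T := by
  have hJ0 : J ≠ 0 := by
    intro h
    rw [h, zero_mul] at hkey
    exact (mul_ne_zero (pow_ne_zero k hT0) hU0) hkey.symm
  refine ⟨hJ0, ?_⟩
  have h1 := congrArg v.ord hkey
  rw [v.ord_mul hJ0 hD0, v.ord_mul (pow_ne_zero k hT0) hU0, H117.ord_pow, hD, hU] at h1
  simpa using h1

/-- A positive integer `e` with `k * e ∣ k` (`k > 0`) is `1`. -/
theorem eq_one_of_mul_dvd {k : ℕ} (hk : 0 < k) {e : ℤ} (he : 0 < e) (h : (k : ℤ) * e ∣ (k : ℤ)) :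
    e = 1 := by
  have hk' : (k : ℤ) ≠ 0 := by exact_mod_cast hk.ne'
  have h1 : (k : ℤ) * e ∣ (k : ℤ) * 1 := by rwa [mul_one]
  have h2 : e ∣ 1 := (mul_dvd_mul_iff_left hk').mp h1
  exact Int.eq_one_of_dvd_one he.le h2

end Generic

section T2

variable (M : ℕ) [NeZero M] (t : FF M) (hid : jF M * t ^ 2 = (t + 256) ^ 3)

include hid

theorem t2_ne_zero : t ≠ 0 := by
  rintro rfl
  norm_num at hid

/-- Places over `t = -64`: ramification index `1` or `2`. -/
theorem ord_t2_add_64_dvd_two (v : Place Kbar (FF M))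
    (hv : 0 < v.ord (t - algebraMap Kbar (FF M) (-64))) :
    v.ord (t - algebraMap Kbar (FF M) (-64)) ∣ 2 := by
  set T := t - algebraMap Kbar (FF M) (-64) with hT
  have ht0 : t ≠ 0 := t2_ne_zero M t hid
  have hT0 : T ≠ 0 := H117.ne_zero_of_ord_ne_zero v hv.ne'
  have htv : v.ord t = 0 := ord_eq_zero_of_ord_sub_pos v (by norm_num) hv
  have htmem : t ∈ v.toValuationSubring := mem_of_ord_sub_pos v hv
  have hTmem : T ∈ v.toValuationSubring := H117.mem_of_ord_nonneg v hv.le
  -- (j - 1728) t^2 = (t + 64) (t - 512)^2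
  have key : (jF M - algebraMap Kbar (FF M) 1728) * t ^ 2
      = T * (algebraMap Kbar (FF M) (-576) + T * 1) ^ 2 := by
    have e1 : algebraMap Kbar (FF M) (-64) = -64 := by rw [map_neg, map_ofNat]
    have e2 : algebraMap Kbar (FF M) 1728 = 1728 := map_ofNat _ _
    have e3 : algebraMap Kbar (FF M) (-576) = -576 := by rw [map_neg, map_ofNat]
    rw [hT, e1, e2, e3]
    linear_combination hid
  have hU : v.ord (algebraMap Kbar (FF M) (-576) + T * 1) = 0 :=
    ord_const_add_mul v (by norm_num) hv (one_mem _)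
  have hU0 : algebraMap Kbar (FF M) (-576) + T * 1 ≠ 0 := by
    intro h
    have h2 : t ^ 2 ≠ 0 := pow_ne_zero 2 ht0
    rw [h] at key
    simp only [ne_eq, OfNat.ofNat_ne_zero, not_false_eq_true, zero_pow, mul_zero, mul_eq_zero,
      h2, or_false] at key
    -- j = 1728, so `j` would be constant; contradiction with hid? use orders instead
    have hj : jF M = algebraMap Kbar (FF M) 1728 := sub_eq_zero.mp key
    have ht512 : t = algebraMap Kbar (FF M) 512 := by
      have : t = algebraMap Kbar (FF M) (-64) + T := by rw [hT]; ring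
      have hT' : T = algebraMap Kbar (FF M) 576 := by
        have : T * 1 = -algebraMap Kbar (FF M) (-576) := by
          rw [eq_neg_iff_add_eq_zero, add_comm]; exact h
        rw [mul_one] at this
        rw [this, ← map_neg]; norm_num
      rw [this, hT', ← map_add]; norm_num
    have : v.ord T = 0 := by
      have hT' : T = algebraMap Kbar (FF M) 576 := by
        rw [hT, ht512, ← map_sub]; norm_num
      rw [hT']; exact H117.ord_algebraMap v _
    omega
  have hj0 : jF M - algebraMap Kbar (FF M) 1728 ≠ 0 := by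
    intro h
    rw [h, zero_mul] at key
    have := mul_ne_zero hT0 (pow_ne_zero 2 hU0)
    exact this key.symm
  have hord : v.ord (jF M - algebraMap Kbar (FF M) 1728) = v.ord T := by
    have h1 := congrArg v.ord key
    rw [v.ord_mul hj0 (pow_ne_zero 2 ht0), v.ord_mul hT0 (pow_ne_zero 2 hU0),
      H117.ord_pow, H117.ord_pow, htv, hU] at h1
    simpa using h1
  have hpos : 0 < v.ord (jF M - algebraMap Kbar (FF M) 1728) := by rw [hord]; exact hv
  have := ord_j_sub_1728_dvd_two M v hpos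
  rwa [hord] at this

end T2

end Fermat.Agent.S18.H558

namespace Fermat.Agent.S18.H558

open Fermat.Agent.S24

section T2main

variable (M : ℕ) [NeZero M] (t : FF M) (hid : jF M * t ^ 2 = (t + 256) ^ 3)

include hid

/-- **`F_M / ℚ̄(t₂)` is unramified outside `t₂ ∈ {0, -64, ∞}`.** -/
theorem ord_t2_sub_eq_one (c : Kbar) (hc0 : c ≠ 0) (hc64 : c ≠ -64) (v : Place Kbar (FF M))
    (hv : 0 < v.ord (t - algebraMap Kbar (FF M) c)) :
    v.ord (t - algebraMap Kbar (FF M) c) = 1 := by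
  set C : FF M := algebraMap Kbar (FF M) c with hC
  set T := t - C with hT
  have ht0 : t ≠ 0 := t2_ne_zero M t hid
  have hT0 : T ≠ 0 := H117.ne_zero_of_ord_ne_zero v hv.ne'
  have htv : v.ord t = 0 := ord_eq_zero_of_ord_sub_pos v hc0 hv
  have htmem : t ∈ v.toValuationSubring := mem_of_ord_sub_pos v hv
  have hCmem : C ∈ v.toValuationSubring := v.algebraMap_mem' c
  have hC0 : C ≠ 0 := (map_ne_zero _).2 hc0
  have hCv : v.ord C = 0 := H117.ord_algebraMap v c
  have ht2 : v.ord (t ^ 2) = 0 := by rw [H117.ord_pow, htv]; simp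
  by_cases h256 : c = -256
  · -- `j t² = (t + 256)³`
    have hCe : C = -256 := by rw [hC, h256, map_neg, map_ofNat]
    have key : jF M * t ^ 2 = T ^ 3 * 1 := by
      rw [hT, hCe]; linear_combination hid
    obtain ⟨hJ0, hJ⟩ := ord_eq_of_key v 3 key (pow_ne_zero 2 ht0) ht2 one_ne_zero v.ord_one hT0
    have hpos : 0 < v.ord (jF M) := by rw [hJ]; positivity
    have h3 := ord_j_dvd_three M v hpos
    rw [hJ] at h3
    exact eq_one_of_mul_dvd (k := 3) (by norm_num) hv (by exact_mod_cast h3)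
  by_cases h512 : c = 512
  · -- `(j - 1728) t² = (t - 512)² (t + 64)`
    have hCe : C = 512 := by rw [hC, h512, map_ofNat]
    have e2 : algebraMap Kbar (FF M) 1728 = 1728 := map_ofNat _ _
    have e3 : algebraMap Kbar (FF M) 576 = 576 := map_ofNat _ _
    have key : (jF M - algebraMap Kbar (FF M) 1728) * t ^ 2
        = T ^ 2 * (algebraMap Kbar (FF M) 576 + T * 1) := by
      rw [hT, hCe, e2, e3]; linear_combination hid
    obtain ⟨hJ0, hJ⟩ := ord_eq_of_key v 2 key (pow_ne_zero 2 ht0) ht2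
      (const_add_mul_ne_zero v (by norm_num) hv (one_mem _))
      (ord_const_add_mul v (by norm_num) hv (one_mem _)) hT0
    have hpos : 0 < v.ord (jF M - algebraMap Kbar (FF M) 1728) := by rw [hJ]; positivity
    have h2 := ord_j_sub_1728_dvd_two M v hpos
    rw [hJ] at h2
    exact eq_one_of_mul_dvd (k := 2) (by norm_num) hv (by exact_mod_cast h2)
  · -- generic case
    set a : Kbar := (c + 256) ^ 3 / c ^ 2 with ha
    have hc2 : c ^ 2 ≠ 0 := pow_ne_zero 2 hc0
    have hac : a * c ^ 2 = (c + 256) ^ 3 := by rw [ha]; field_simp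
    have ha0 : a ≠ 0 := by
      rw [ha]
      refine div_ne_zero (pow_ne_zero 3 ?_) hc2
      intro h
      exact h256 (eq_neg_of_add_eq_zero_left h)
    have ha1728 : a ≠ 1728 := by
      intro h
      rw [h] at hac
      have : (c + 64) * (c - 512) ^ 2 = 0 := by linear_combination -hac
      rcases mul_eq_zero.mp this with h1 | h1
      · exact hc64 (eq_neg_of_add_eq_zero_left h1)
      · exact h512 (sub_eq_zero.mp (pow_eq_zero_iff (by norm_num) |>.mp h1))
    set q : Kbar := c * (c + 256) ^ 2 * (c - 512) with hq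
    have hq0 : q ≠ 0 := by
      rw [hq]
      refine mul_ne_zero (mul_ne_zero hc0 (pow_ne_zero 2 ?_)) (sub_ne_zero.mpr h512)
      intro h
      exact h256 (eq_neg_of_add_eq_zero_left h)
    have hA : algebraMap Kbar (FF M) a * C ^ 2 = (C + 256) ^ 3 := by
      have := congrArg (algebraMap Kbar (FF M)) hac
      simpa [map_mul, map_pow, map_add, map_ofNat] using this
    have hQ : algebraMap Kbar (FF M) q = C * (C + 256) ^ 2 * (C - 512) := by
      rw [hq]; simp [map_mul, map_pow, map_add, map_sub, map_ofNat, hC]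
    set W : FF M := t * C ^ 2 + C ^ 3 - 196608 * C - 16777216 with hW
    have hWmem : W ∈ v.toValuationSubring := by
      have h1 : (196608 : FF M) ∈ v.toValuationSubring := by
        have := v.algebraMap_mem' (196608 : Kbar); rwa [map_ofNat] at this
      have h2 : (16777216 : FF M) ∈ v.toValuationSubring := by
        have := v.algebraMap_mem' (16777216 : Kbar); rwa [map_ofNat] at this
      exact sub_mem (sub_mem (add_mem (mul_mem htmem (pow_mem hCmem 2)) (pow_mem hCmem 3))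
        (mul_mem h1 hCmem)) h2
    have key : (jF M - algebraMap Kbar (FF M) a) * (t ^ 2 * C ^ 2)
        = T ^ 1 * (algebraMap Kbar (FF M) q + T * W) := by
      rw [hQ, hW, hT]
      linear_combination C ^ 2 * hid - t ^ 2 * hA
    have hD0 : t ^ 2 * C ^ 2 ≠ 0 := mul_ne_zero (pow_ne_zero 2 ht0) (pow_ne_zero 2 hC0)
    have hD : v.ord (t ^ 2 * C ^ 2) = 0 := by
      rw [v.ord_mul (pow_ne_zero 2 ht0) (pow_ne_zero 2 hC0), ht2, H117.ord_pow, hCv]; simp
    obtain ⟨hJ0, hJ⟩ := ord_eq_of_key v 1 key hD0 hD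
      (const_add_mul_ne_zero v hq0 hv hWmem) (ord_const_add_mul v hq0 hv hWmem) hT0
    have hJ' : v.ord (jF M - algebraMap Kbar (FF M) a) = v.ord T := by simpa using hJ
    have hpos : 0 < v.ord (jF M - algebraMap Kbar (FF M) a) := by rw [hJ']; exact hv
    rw [← hJ']
    exact ord_j_sub_eq_one M a ha0 ha1728 v hpos

/-- The same statement in the coordinate `s = 1/t` (chart at infinity): unramified outside
`s ∈ {0, -1/64}`. -/
theorem ord_t2_inv_sub_eq_one (s : Kbar) (hs0 : s ≠ 0) (hs64 : s ≠ -(1 / 64))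
    (v : Place Kbar (FF M)) (hv : 0 < v.ord (t⁻¹ - algebraMap Kbar (FF M) s)) :
    v.ord (t⁻¹ - algebraMap Kbar (FF M) s) = 1 := by
  have ht0 : t ≠ 0 := t2_ne_zero M t hid
  have hti : v.ord t⁻¹ = 0 := ord_eq_zero_of_ord_sub_pos v hs0 hv
  have htv : v.ord t = 0 := by rw [v.ord_inv] at hti; omega
  set S : FF M := algebraMap Kbar (FF M) s with hS
  have hS0 : S ≠ 0 := (map_ne_zero _).2 hs0
  have hSv : v.ord S = 0 := H117.ord_algebraMap v s
  -- `t⁻¹ - s = -(s / t) (t - 1/s)`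
  have hrel : t⁻¹ - S = (-(S * t⁻¹)) * (t - algebraMap Kbar (FF M) s⁻¹) := by
    rw [map_inv₀, ← hS]
    have h1 : S * S⁻¹ = 1 := mul_inv_cancel₀ hS0
    have h2 : t * t⁻¹ = 1 := mul_inv_cancel₀ ht0
    linear_combination (-t⁻¹) * h1 + S * h2
  have hne1 : -(S * t⁻¹) ≠ 0 := neg_ne_zero.mpr (mul_ne_zero hS0 (inv_ne_zero ht0))
  have hord1 : v.ord (-(S * t⁻¹)) = 0 := by
    rw [H117.ord_neg, v.ord_mul hS0 (inv_ne_zero ht0), hSv, hti]; rfl
  have hne2 : t - algebraMap Kbar (FF M) s⁻¹ ≠ 0 := by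
    intro h
    rw [h, mul_zero] at hrel
    rw [hrel, v.ord_zero] at hv
    exact lt_irrefl _ hv
  have hord : v.ord (t⁻¹ - S) = v.ord (t - algebraMap Kbar (FF M) s⁻¹) := by
    rw [hrel, v.ord_mul hne1 hne2, hord1, zero_add]
  rw [hord] at hv ⊢
  refine ord_t2_sub_eq_one M t hid s⁻¹ (inv_ne_zero hs0) ?_ v hv
  intro h
  apply hs64
  have : s = (s⁻¹)⁻¹ := (inv_inv s).symm
  rw [this, h]
  norm_num

end T2main

end Fermat.Agent.S18.H558

namespace Fermat.Agent.S18.H558

open Fermat.Agent.S24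

/-- `j`-line, chart at infinity: in the coordinate `s = 1/j`, `F_N / ℚ̄(j)` is unramified outside
`s ∈ {0, 1/1728}`. -/
theorem ord_j_inv_sub_eq_one (N : ℕ) [NeZero N] (s : Kbar) (hs0 : s ≠ 0) (hs : s ≠ 1 / 1728)
    (v : Place Kbar (FF N)) (hv : 0 < v.ord ((jF N)⁻¹ - algebraMap Kbar (FF N) s)) :
    v.ord ((jF N)⁻¹ - algebraMap Kbar (FF N) s) = 1 := by
  have hti : v.ord (jF N)⁻¹ = 0 := ord_eq_zero_of_ord_sub_pos v hs0 hv
  have ht0 : jF N ≠ 0 := by
    intro h
    rw [h, inv_zero, zero_sub, H117.ord_neg, H117.ord_algebraMap] at hv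
    exact lt_irrefl _ hv
  set S : FF N := algebraMap Kbar (FF N) s with hS
  have hS0 : S ≠ 0 := (map_ne_zero _).2 hs0
  have hSv : v.ord S = 0 := H117.ord_algebraMap v s
  have hrel : (jF N)⁻¹ - S = (-(S * (jF N)⁻¹)) * (jF N - algebraMap Kbar (FF N) s⁻¹) := by
    rw [map_inv₀, ← hS]
    have h1 : S * S⁻¹ = 1 := mul_inv_cancel₀ hS0
    have h2 : jF N * (jF N)⁻¹ = 1 := mul_inv_cancel₀ ht0
    linear_combination (-(jF N)⁻¹) * h1 + S * h2
  have hne1 : -(S * (jF N)⁻¹) ≠ 0 := neg_ne_zero.mpr (mul_ne_zero hS0 (inv_ne_zero ht0))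
  have hord1 : v.ord (-(S * (jF N)⁻¹)) = 0 := by
    rw [H117.ord_neg, v.ord_mul hS0 (inv_ne_zero ht0), hSv, hti]; rfl
  have hne2 : jF N - algebraMap Kbar (FF N) s⁻¹ ≠ 0 := by
    intro h
    rw [h, mul_zero] at hrel
    rw [hrel, v.ord_zero] at hv
    exact lt_irrefl _ hv
  have hord : v.ord ((jF N)⁻¹ - S) = v.ord (jF N - algebraMap Kbar (FF N) s⁻¹) := by
    rw [hrel, v.ord_mul hne1 hne2, hord1, zero_add]
  rw [hord] at hv ⊢
  refine ord_j_sub_eq_one N s⁻¹ (inv_ne_zero hs0) ?_ v hv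
  intro h
  apply hs
  have : s = (s⁻¹)⁻¹ := (inv_inv s).symm
  rw [this, h]
  norm_num

end Fermat.Agent.S18.H558

end
end
-- ===== PACK-END S18/H558/BranchT2.lean

-- ===== PACK-BEGIN S18/H558/BranchT3.lean
section


/-!
# S18 / MOD M2 (part 3): ramification of `F_M / ℚ̄(t)` for the Hauptmodul `t = t₃` of `X₀(3)`

Hypothesis (proved elsewhere, piece c3-i): `t ∈ FF M` with `j * t ^ 3 = (t + 27) * (t + 243) ^ 3`.
Then `F_M / ℚ̄(t)` is unramified outside `t ∈ {0, -27, ∞}`:

* `ord_t3_sub_eq_one` : `c ≠ 0`, `c ≠ -27`, `0 < v.ord (t - c)` ⟹ `v.ord (t - c) = 1`;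
* `ord_t3_add_27_dvd_three` : `0 < v.ord (t + 27)` ⟹ `v.ord (t + 27) ∣ 3`;
* `ord_t3_inv_sub_eq_one` : the same in the coordinate `1/t` (chart at infinity).
-/

set_option autoImplicit false

noncomputable section

open AlgebraicCurve ModularCurve

namespace Fermat.Agent.S18.H558

open Fermat.Agent.S24

section T3

variable (M : ℕ) [NeZero M] (t : FF M) (hid : jF M * t ^ 3 = (t + 27) * (t + 243) ^ 3)

include hid

theorem t3_ne_zero : t ≠ 0 := by
  rintro rfl
  norm_num at hid

/-- Places over `t = -27`: ramification index `1` or `3`. -/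
theorem ord_t3_add_27_dvd_three (v : Place Kbar (FF M))
    (hv : 0 < v.ord (t - algebraMap Kbar (FF M) (-27))) :
    v.ord (t - algebraMap Kbar (FF M) (-27)) ∣ 3 := by
  set T := t - algebraMap Kbar (FF M) (-27) with hT
  have ht0 : t ≠ 0 := t3_ne_zero M t hid
  have hT0 : T ≠ 0 := H117.ne_zero_of_ord_ne_zero v hv.ne'
  have htv : v.ord t = 0 := ord_eq_zero_of_ord_sub_pos v (by norm_num) hv
  have ht3 : v.ord (t ^ 3) = 0 := by rw [H117.ord_pow, htv]; simp
  have e1 : algebraMap Kbar (FF M) (-27) = -27 := by rw [map_neg, map_ofNat]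
  have e3 : algebraMap Kbar (FF M) 216 = 216 := map_ofNat _ _
  have key : jF M * t ^ 3 = T ^ 1 * (algebraMap Kbar (FF M) 216 + T * 1) ^ 3 := by
    rw [hT, e1, e3]; linear_combination hid
  have hU0 := const_add_mul_ne_zero v (g := (216 : Kbar)) (by norm_num) hv (one_mem _)
  have hU := ord_const_add_mul v (g := (216 : Kbar)) (by norm_num) hv (one_mem _)
  obtain ⟨hJ0, hJ⟩ := ord_eq_of_key v 1 key (pow_ne_zero 3 ht0) ht3 (pow_ne_zero 3 hU0)
    (by rw [H117.ord_pow, hU]; simp) hT0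
  have hJ' : v.ord (jF M) = v.ord T := by simpa using hJ
  have hpos : 0 < v.ord (jF M) := by rw [hJ']; exact hv
  have := ord_j_dvd_three M v hpos
  rwa [hJ'] at this

/-- **`F_M / ℚ̄(t₃)` is unramified outside `t₃ ∈ {0, -27, ∞}`.** -/
theorem ord_t3_sub_eq_one (c : Kbar) (hc0 : c ≠ 0) (hc27 : c ≠ -27) (v : Place Kbar (FF M))
    (hv : 0 < v.ord (t - algebraMap Kbar (FF M) c)) :
    v.ord (t - algebraMap Kbar (FF M) c) = 1 := by
  set C : FF M := algebraMap Kbar (FF M) c with hC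
  set T := t - C with hT
  have ht0 : t ≠ 0 := t3_ne_zero M t hid
  have hT0 : T ≠ 0 := H117.ne_zero_of_ord_ne_zero v hv.ne'
  have htv : v.ord t = 0 := ord_eq_zero_of_ord_sub_pos v hc0 hv
  have htmem : t ∈ v.toValuationSubring := mem_of_ord_sub_pos v hv
  have hCmem : C ∈ v.toValuationSubring := v.algebraMap_mem' c
  have hC0 : C ≠ 0 := (map_ne_zero _).2 hc0
  have hCv : v.ord C = 0 := H117.ord_algebraMap v c
  have ht3 : v.ord (t ^ 3) = 0 := by rw [H117.ord_pow, htv]; simp
  by_cases h243 : c = -243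
  · -- `j t³ = (t + 243)³ (t + 27)`
    have hCe : C = -243 := by rw [hC, h243, map_neg, map_ofNat]
    have e3 : algebraMap Kbar (FF M) (-216) = -216 := by rw [map_neg, map_ofNat]
    have key : jF M * t ^ 3 = T ^ 3 * (algebraMap Kbar (FF M) (-216) + T * 1) := by
      rw [hT, hCe, e3]; linear_combination hid
    obtain ⟨hJ0, hJ⟩ := ord_eq_of_key v 3 key (pow_ne_zero 3 ht0) ht3
      (const_add_mul_ne_zero v (by norm_num) hv (one_mem _))
      (ord_const_add_mul v (by norm_num) hv (one_mem _)) hT0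
    have hpos : 0 < v.ord (jF M) := by rw [hJ]; positivity
    have h3 := ord_j_dvd_three M v hpos
    rw [hJ] at h3
    exact eq_one_of_mul_dvd (k := 3) (by norm_num) hv (by exact_mod_cast h3)
  by_cases hquad : c ^ 2 - 486 * c - 19683 = 0
  · -- `(j - 1728) t³ = (t² - 486 t - 19683)² = (t - c)² (t - c')²`
    have e2 : algebraMap Kbar (FF M) 1728 = 1728 := map_ofNat _ _
    have hg : (2 * c - 486 : Kbar) ≠ 0 := by
      intro h
      have hc : c = 243 := by linear_combination h / 2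
      rw [hc] at hquad
      norm_num at hquad
    have hG : algebraMap Kbar (FF M) (2 * c - 486) = 2 * C - 486 := by
      simp [map_sub, map_mul, map_ofNat, hC]
    have hquad' : C ^ 2 - 486 * C - 19683 = 0 := by
      have := congrArg (algebraMap Kbar (FF M)) hquad
      simpa [map_sub, map_mul, map_pow, map_ofNat, hC] using this
    have key : (jF M - algebraMap Kbar (FF M) 1728) * t ^ 3
        = T ^ 2 * (algebraMap Kbar (FF M) (2 * c - 486) + T * 1) ^ 2 := by
      rw [hG, hT, e2]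
      linear_combination hid + (2 * t ^ 2 - 972 * t - 39366 - (C ^ 2 - 486 * C - 19683)) * hquad'
    have hU0 := const_add_mul_ne_zero v hg hv (one_mem _)
    have hU := ord_const_add_mul v hg hv (one_mem _)
    obtain ⟨hJ0, hJ⟩ := ord_eq_of_key v 2 key (pow_ne_zero 3 ht0) ht3 (pow_ne_zero 2 hU0)
      (by rw [H117.ord_pow, hU]; simp) hT0
    have hpos : 0 < v.ord (jF M - algebraMap Kbar (FF M) 1728) := by rw [hJ]; positivity
    have h2 := ord_j_sub_1728_dvd_two M v hpos
    rw [hJ] at h2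
    exact eq_one_of_mul_dvd (k := 2) (by norm_num) hv (by exact_mod_cast h2)
  · -- generic case
    set a : Kbar := (c + 27) * (c + 243) ^ 3 / c ^ 3 with ha
    have hc3 : c ^ 3 ≠ 0 := pow_ne_zero 3 hc0
    have h27' : c + 27 ≠ 0 := fun h => hc27 (eq_neg_of_add_eq_zero_left h)
    have h243' : c + 243 ≠ 0 := fun h => h243 (eq_neg_of_add_eq_zero_left h)
    have hac : a * c ^ 3 = (c + 27) * (c + 243) ^ 3 := by rw [ha]; field_simp
    have ha0 : a ≠ 0 := by
      rw [ha]
      exact div_ne_zero (mul_ne_zero h27' (pow_ne_zero 3 h243')) hc3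
    have ha1728 : a ≠ 1728 := by
      intro h
      rw [h] at hac
      have : (c ^ 2 - 486 * c - 19683) ^ 2 = 0 := by linear_combination -hac
      exact hquad (pow_eq_zero_iff (by norm_num) |>.mp this)
    set q : Kbar := c ^ 2 * (c + 243) ^ 2 * (c ^ 2 - 486 * c - 19683) with hq
    have hq0 : q ≠ 0 := by
      rw [hq]
      exact mul_ne_zero (mul_ne_zero (pow_ne_zero 2 hc0) (pow_ne_zero 2 h243')) hquad
    have hA : algebraMap Kbar (FF M) a * C ^ 3 = (C + 27) * (C + 243) ^ 3 := by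
      have := congrArg (algebraMap Kbar (FF M)) hac
      simpa [map_mul, map_pow, map_add, map_ofNat] using this
    have hQ : algebraMap Kbar (FF M) q = C ^ 2 * (C + 243) ^ 2 * (C ^ 2 - 486 * C - 19683) := by
      rw [hq]; simp [map_mul, map_pow, map_add, map_sub, map_ofNat, hC]
    set W : FF M := t ^ 2 * C ^ 3 + t * C ^ 4 - 196830 * (t * C ^ 2) - 19131876 * (t * C)
      - 387420489 * t + C ^ 5 - 196830 * C ^ 3 - 38263752 * C ^ 2 - 774840978 * C with hW
    have hnum : ∀ n : ℕ, (n : FF M) ∈ v.toValuationSubring := fun n => natCast_mem _ n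
    have hWmem : W ∈ v.toValuationSubring := by
      have h1 : (196830 : FF M) ∈ v.toValuationSubring := by exact_mod_cast hnum 196830
      have h2 : (19131876 : FF M) ∈ v.toValuationSubring := by exact_mod_cast hnum 19131876
      have h3 : (387420489 : FF M) ∈ v.toValuationSubring := by exact_mod_cast hnum 387420489
      have h4 : (38263752 : FF M) ∈ v.toValuationSubring := by exact_mod_cast hnum 38263752
      have h5 : (774840978 : FF M) ∈ v.toValuationSubring := by exact_mod_cast hnum 774840978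
      refine sub_mem (sub_mem (sub_mem (add_mem (sub_mem (sub_mem (sub_mem (add_mem ?_ ?_) ?_) ?_)
        ?_) ?_) ?_) ?_) ?_
      · exact mul_mem (pow_mem htmem 2) (pow_mem hCmem 3)
      · exact mul_mem htmem (pow_mem hCmem 4)
      · exact mul_mem h1 (mul_mem htmem (pow_mem hCmem 2))
      · exact mul_mem h2 (mul_mem htmem hCmem)
      · exact mul_mem h3 htmem
      · exact pow_mem hCmem 5
      · exact mul_mem h1 (pow_mem hCmem 3)
      · exact mul_mem h4 (pow_mem hCmem 2)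
      · exact mul_mem h5 hCmem
    have key : (jF M - algebraMap Kbar (FF M) a) * (t ^ 3 * C ^ 3)
        = T ^ 1 * (algebraMap Kbar (FF M) q + T * W) := by
      rw [hQ, hW, hT]
      linear_combination C ^ 3 * hid - t ^ 3 * hA
    have hD0 : t ^ 3 * C ^ 3 ≠ 0 := mul_ne_zero (pow_ne_zero 3 ht0) (pow_ne_zero 3 hC0)
    have hD : v.ord (t ^ 3 * C ^ 3) = 0 := by
      rw [v.ord_mul (pow_ne_zero 3 ht0) (pow_ne_zero 3 hC0), ht3, H117.ord_pow, hCv]; simp
    obtain ⟨hJ0, hJ⟩ := ord_eq_of_key v 1 key hD0 hD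
      (const_add_mul_ne_zero v hq0 hv hWmem) (ord_const_add_mul v hq0 hv hWmem) hT0
    have hJ' : v.ord (jF M - algebraMap Kbar (FF M) a) = v.ord T := by simpa using hJ
    have hpos : 0 < v.ord (jF M - algebraMap Kbar (FF M) a) := by rw [hJ']; exact hv
    rw [← hJ']
    exact ord_j_sub_eq_one M a ha0 ha1728 v hpos

/-- The same statement in the coordinate `s = 1/t` (chart at infinity): unramified outside
`s ∈ {0, -1/27}`. -/
theorem ord_t3_inv_sub_eq_one (s : Kbar) (hs0 : s ≠ 0) (hs27 : s ≠ -(1 / 27))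
    (v : Place Kbar (FF M)) (hv : 0 < v.ord (t⁻¹ - algebraMap Kbar (FF M) s)) :
    v.ord (t⁻¹ - algebraMap Kbar (FF M) s) = 1 := by
  have ht0 : t ≠ 0 := t3_ne_zero M t hid
  have hti : v.ord t⁻¹ = 0 := ord_eq_zero_of_ord_sub_pos v hs0 hv
  have htv : v.ord t = 0 := by rw [v.ord_inv] at hti; omega
  set S : FF M := algebraMap Kbar (FF M) s with hS
  have hS0 : S ≠ 0 := (map_ne_zero _).2 hs0
  have hSv : v.ord S = 0 := H117.ord_algebraMap v s
  have hrel : t⁻¹ - S = (-(S * t⁻¹)) * (t - algebraMap Kbar (FF M) s⁻¹) := by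
    rw [map_inv₀, ← hS]
    have h1 : S * S⁻¹ = 1 := mul_inv_cancel₀ hS0
    have h2 : t * t⁻¹ = 1 := mul_inv_cancel₀ ht0
    linear_combination (-t⁻¹) * h1 + S * h2
  have hne1 : -(S * t⁻¹) ≠ 0 := neg_ne_zero.mpr (mul_ne_zero hS0 (inv_ne_zero ht0))
  have hord1 : v.ord (-(S * t⁻¹)) = 0 := by
    rw [H117.ord_neg, v.ord_mul hS0 (inv_ne_zero ht0), hSv, hti]; rfl
  have hne2 : t - algebraMap Kbar (FF M) s⁻¹ ≠ 0 := by
    intro h
    rw [h, mul_zero] at hrel
    rw [hrel, v.ord_zero] at hv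
    exact lt_irrefl _ hv
  have hord : v.ord (t⁻¹ - S) = v.ord (t - algebraMap Kbar (FF M) s⁻¹) := by
    rw [hrel, v.ord_mul hne1 hne2, hord1, zero_add]
  rw [hord] at hv ⊢
  refine ord_t3_sub_eq_one M t hid s⁻¹ (inv_ne_zero hs0) ?_ v hv
  intro h
  apply hs27
  have : s = (s⁻¹)⁻¹ := (inv_inv s).symm
  rw [this, h]
  norm_num

end T3

end Fermat.Agent.S18.H558

end
end
-- ===== PACK-END S18/H558/BranchT3.lean

-- ===== PACK-BEGIN S18/H558/PartBr.lean
section






/-!
# S18 / MOD / G-BR (helper558): the branch-value fields of `Alg.GoodModel` at the concrete objects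

Target: the four fields `S_mem`, `S_distinct`, `S_unit`, `unramified` of `Alg.GoodModel`
(= the structure `PartBr (Lc M) (Rc M A E) x S` of MOD-ASM helper216) for

* `x = jOm M`, `S = {0, 1728}`, `ℓ ≥ 5`                       (`brJ_*`),
* `x` with `jOm M * x ^ 2 = (x + 256) ^ 3`, `S = {0, -64}`, `ℓ = 3`   (`brT2_*`),
* `x` with `jOm M * x ^ 3 = (x + 27) * (x + 243) ^ 3`, `S = {0, -27}`, `ℓ = 2` (`brT3_*`),

for EVERY intermediate field `E` of `Q̄/ℚ` (no finiteness needed) and every valuation subring `A`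
of `Q̄` lying over `ℓ`.  The bundled forms `brJ`, `brT2`, `brT3` are conjunctions of the four
fields in the order of the structure, so `PartBr` is `⟨h.1, h.2.1, h.2.2.1, h.2.2.2⟩`.

Inputs: M2 (`H558/Branch*.lean`, Place language) and `H804.exists_place_of_valuationSubring_modular`
(every proper valuation subring of `F_M` containing `Q̄` is a `Place`).
-/

set_option autoImplicit false

noncomputable section

namespace Fermat.Agent.S18.H558

open AlgebraicCurve ModularCurve Fermat.Agent.S24 Fermat.Agent.S18 Fermat.Agent.S18.Mod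

variable (M : ℕ) [NeZero M]

/-- The frozen coordinate `jOm M` is the `j`-function `jF M` of the S24 library. -/
theorem jOm_eq_jF : jOm M = jF M := by
  apply Subtype.ext
  show coeffEmb Qb (qExpand ℚ 1 jq) = coeffEmb Kbar jq
  rw [qExpand_one_apply]

/-! ### Integers in `Rc` -/

section Consts

variable (A : ValuationSubring Qb) (E : IntermediateField ℚ Qb)

theorem algebraMap_mem_Rc {a : Qb} (hA : a ∈ A) (hE : a ∈ E) :
    algebraMap Qb (Om M) a ∈ Rc M A E :=
  Subring.mem_map.2 ⟨a, ⟨hA, hE⟩, rfl⟩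

theorem intCast_mem_Rc (n : ℤ) : ((n : ℤ) : Om M) ∈ Rc M A E := by
  have h : ((n : ℤ) : Om M) = algebraMap Qb (Om M) (n : Qb) := (map_intCast _ n).symm
  rw [h]
  exact algebraMap_mem_Rc M A E (intCast_mem A n) (intCast_mem E n)

theorem inv_intCast_mem_Rc (n : ℤ) (hn : ((n : ℤ) : Qb)⁻¹ ∈ A) :
    (((n : ℤ) : Om M))⁻¹ ∈ Rc M A E := by
  have h : (((n : ℤ) : Om M))⁻¹ = algebraMap Qb (Om M) ((n : Qb)⁻¹) := by
    rw [map_inv₀, map_intCast]
  rw [h]
  exact algebraMap_mem_Rc M A E hn (inv_mem (intCast_mem E n))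

/-- An integer prime to the residue characteristic is a unit of `A`. -/
theorem inv_intCast_mem_of_coprime {ℓ : ℕ} (hA : A.LiesOverPrime ℓ) (n : ℤ)
    (hn : IsCoprime n (ℓ : ℤ)) : ((n : ℤ) : Qb)⁻¹ ∈ A := by
  obtain ⟨a, b, hab⟩ := hn
  have hℓ : A.valuation (ℓ : Qb) < 1 := (A.mem_nonunits_iff).1 hA
  have hb : A.valuation (b : Qb) ≤ 1 := (A.valuation_le_one_iff _).2 (intCast_mem A b)
  have ha : A.valuation (a : Qb) ≤ 1 := (A.valuation_le_one_iff _).2 (intCast_mem A a)
  have hnv : A.valuation (n : Qb) ≤ 1 := (A.valuation_le_one_iff _).2 (intCast_mem A n)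
  have hbℓ : A.valuation ((b : Qb) * (ℓ : Qb)) < 1 := by
    rw [map_mul]
    calc A.valuation (b : Qb) * A.valuation (ℓ : Qb) ≤ 1 * A.valuation (ℓ : Qb) :=
          mul_le_mul' hb le_rfl
      _ = A.valuation (ℓ : Qb) := one_mul _
      _ < 1 := hℓ
  have hone : (a : Qb) * (n : Qb) = 1 - (b : Qb) * (ℓ : Qb) := by
    have h := congrArg (Int.cast : ℤ → Qb) hab
    push_cast at h
    linear_combination h
  have h1 : A.valuation (1 - (b : Qb) * (ℓ : Qb)) = 1 := Valuation.map_one_sub_of_lt _ hbℓ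
  have h2 : A.valuation (a : Qb) * A.valuation (n : Qb) = 1 := by
    rw [← map_mul, hone, h1]
  have h3 : A.valuation (n : Qb) = 1 := by
    apply le_antisymm hnv
    calc (1 : _) = A.valuation (a : Qb) * A.valuation (n : Qb) := h2.symm
      _ ≤ 1 * A.valuation (n : Qb) := mul_le_mul' ha le_rfl
      _ = A.valuation (n : Qb) := one_mul _
  rw [← A.valuation_le_one_iff, map_inv₀, h3, inv_one]

end Consts

/-! ### From the Place statement to the valuation-subring statement -/

/-- If `x - c` has order `1` at every place where it vanishes (for the constants `c ∉ S`), then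
`x` satisfies the field `unramified` of `Alg.GoodModel`. -/
theorem unramified_of_ord (x : Om M) (S : Finset (Om M))
    (h : ∀ c : Qb, algebraMap Qb (Om M) c ∉ S → ∀ v : Place Qb (Om M),
      0 < v.ord (x - algebraMap Qb (Om M) c) → v.ord (x - algebraMap Qb (Om M) c) = 1) :
    ∀ O : ValuationSubring (Om M), (∀ a ∈ Lc M, a ∈ O) → ∀ c ∈ Lc M, c ∉ S →
      x - c ∈ O → (x - c)⁻¹ ∉ O → ∀ t ∈ O, t⁻¹ ∉ O → t * (x - c)⁻¹ ∈ O := by
  intro O hL c hc hcS hxO hxinv t ht htinv
  obtain ⟨c₀, rfl⟩ := hc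
  have hK : ∀ a : Qb, algebraMap Qb (Om M) a ∈ O := fun a => hL _ ⟨a, rfl⟩
  have hO : O ≠ ⊤ := by
    intro htop
    exact hxinv (htop ▸ ValuationSubring.mem_top _)
  obtain ⟨v, rfl⟩ := H804.exists_place_of_valuationSubring_modular M O hK hO
  have hx0 : x - algebraMap Qb (Om M) c₀ ≠ 0 := by
    intro h0
    rw [h0, inv_zero] at hxinv
    exact hxinv (zero_mem _)
  have ht0 : t ≠ 0 := by
    intro h0
    rw [h0, inv_zero] at htinv
    exact htinv (zero_mem _)
  have h1 : 0 ≤ v.ord (x - algebraMap Qb (Om M) c₀) := H117.ord_nonneg_of_mem v hxO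
  have h2 : ¬ 0 ≤ v.ord (x - algebraMap Qb (Om M) c₀)⁻¹ := fun hh =>
    hxinv (H117.mem_of_ord_nonneg v hh)
  rw [v.ord_inv] at h2
  have h3 : 0 ≤ v.ord t := H117.ord_nonneg_of_mem v ht
  have h4 : ¬ 0 ≤ v.ord t⁻¹ := fun hh => htinv (H117.mem_of_ord_nonneg v hh)
  rw [v.ord_inv] at h4
  have h5 := h c₀ hcS v (by omega)
  apply H117.mem_of_ord_nonneg v
  rw [v.ord_mul ht0 (inv_ne_zero hx0), v.ord_inv, h5]
  omega

/-! ### The coordinate `j`, `ℓ ≥ 5` -/

section J

variable (A : ValuationSubring Qb) (E : IntermediateField ℚ Qb) {ℓ : ℕ}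

theorem inv_1728_mem (hℓ : ℓ.Prime) (h5 : 5 ≤ ℓ) (hA : A.LiesOverPrime ℓ) :
    ((1728 : ℤ) : Qb)⁻¹ ∈ A := by
  apply inv_intCast_mem_of_coprime A hA
  have hcop : Nat.Coprime 1728 ℓ := by
    rw [Nat.coprime_comm, Nat.Prime.coprime_iff_not_dvd hℓ]
    intro hdvd
    have h1728 : (1728 : ℕ) = 2 ^ 6 * 3 ^ 3 := by norm_num
    rw [h1728] at hdvd
    rcases (Nat.Prime.dvd_mul hℓ).1 hdvd with h | h
    · have := Nat.le_of_dvd (by norm_num) (hℓ.dvd_of_dvd_pow h)
      omega
    · have := Nat.le_of_dvd (by norm_num) (hℓ.dvd_of_dvd_pow h)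
      omega
  exact_mod_cast (Nat.isCoprime_iff_coprime.2 hcop)

theorem brJ_unramified (S : Finset (Om M)) (hS : ∀ s, s ∈ S ↔ s = 0 ∨ s = 1728) :
    ∀ O : ValuationSubring (Om M), (∀ a ∈ Lc M, a ∈ O) → ∀ c ∈ Lc M, c ∉ S →
      jOm M - c ∈ O → (jOm M - c)⁻¹ ∉ O → ∀ t ∈ O, t⁻¹ ∉ O → t * (jOm M - c)⁻¹ ∈ O := by
  apply unramified_of_ord
  intro c hcS v hv
  rw [jOm_eq_jF] at hv ⊢
  have h0 : c ≠ 0 := by
    rintro rfl
    exact hcS ((hS _).2 (Or.inl (map_zero _)))
  have h1 : c ≠ 1728 := by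
    rintro rfl
    exact hcS ((hS _).2 (Or.inr (map_ofNat _ 1728)))
  exact ord_j_sub_eq_one M c h0 h1 v hv

/-- **G-BR for `x = j`, `ℓ ≥ 5`**: the four fields `S_mem`, `S_distinct`, `S_unit`, `unramified`. -/
theorem brJ (hℓ : ℓ.Prime) (h5 : 5 ≤ ℓ) (hA : A.LiesOverPrime ℓ) (S : Finset (Om M))
    (hS : ∀ s, s ∈ S ↔ s = 0 ∨ s = 1728) :
    (∀ s ∈ S, s ∈ Rc M A E) ∧
    (∀ s ∈ S, ∀ t ∈ S, s ≠ t → (s - t)⁻¹ ∈ Rc M A E) ∧
    (∀ s ∈ S, s ≠ 0 → s⁻¹ ∈ Rc M A E) ∧
    (∀ O : ValuationSubring (Om M), (∀ a ∈ Lc M, a ∈ O) → ∀ c ∈ Lc M, c ∉ S →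
      jOm M - c ∈ O → (jOm M - c)⁻¹ ∉ O → ∀ t ∈ O, t⁻¹ ∉ O → t * (jOm M - c)⁻¹ ∈ O) := by
  have hu : ((1728 : ℤ) : Om M)⁻¹ ∈ Rc M A E :=
    inv_intCast_mem_Rc M A E 1728 (inv_1728_mem A hℓ h5 hA)
  have hcast : ((1728 : ℤ) : Om M) = 1728 := by norm_num
  rw [hcast] at hu
  refine ⟨?_, ?_, ?_, brJ_unramified M S hS⟩
  · intro s hs
    rcases (hS s).1 hs with rfl | rfl
    · exact zero_mem _
    · have := intCast_mem_Rc M A E 1728
      rwa [hcast] at this
  · intro s hs t ht hst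
    rcases (hS s).1 hs with rfl | rfl <;> rcases (hS t).1 ht with rfl | rfl
    · exact absurd rfl hst
    · rw [zero_sub, inv_neg]
      exact neg_mem hu
    · rwa [sub_zero]
    · exact absurd rfl hst
  · intro s hs hs0
    rcases (hS s).1 hs with rfl | rfl
    · exact absurd rfl hs0
    · exact hu

end J

/-! ### The Hauptmodul `t₂`, `ℓ = 3` -/

section T2

variable (A : ValuationSubring Qb) (E : IntermediateField ℚ Qb)

theorem inv_64_mem (hA : A.LiesOverPrime 3) : ((64 : ℤ) : Qb)⁻¹ ∈ A := by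
  apply inv_intCast_mem_of_coprime A hA
  have hcop : Nat.Coprime 64 3 := by norm_num
  exact_mod_cast (Nat.isCoprime_iff_coprime.2 hcop)

theorem brT2_unramified (x : Om M) (hx : jOm M * x ^ 2 = (x + 256) ^ 3) (S : Finset (Om M))
    (hS : ∀ s, s ∈ S ↔ s = 0 ∨ s = -64) :
    ∀ O : ValuationSubring (Om M), (∀ a ∈ Lc M, a ∈ O) → ∀ c ∈ Lc M, c ∉ S →
      x - c ∈ O → (x - c)⁻¹ ∉ O → ∀ t ∈ O, t⁻¹ ∉ O → t * (x - c)⁻¹ ∈ O := by
  apply unramified_of_ord
  intro c hcS v hv
  rw [jOm_eq_jF] at hx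
  have h0 : c ≠ 0 := by
    rintro rfl
    exact hcS ((hS _).2 (Or.inl (map_zero _)))
  have h1 : c ≠ -64 := by
    rintro rfl
    exact hcS ((hS _).2 (Or.inr (by rw [map_neg, map_ofNat])))
  exact ord_t2_sub_eq_one M x hx c h0 h1 v hv

/-- **G-BR for `x = t₂`, `ℓ = 3`**. -/
theorem brT2 (hA : A.LiesOverPrime 3) (x : Om M) (hx : jOm M * x ^ 2 = (x + 256) ^ 3)
    (S : Finset (Om M)) (hS : ∀ s, s ∈ S ↔ s = 0 ∨ s = -64) :
    (∀ s ∈ S, s ∈ Rc M A E) ∧
    (∀ s ∈ S, ∀ t ∈ S, s ≠ t → (s - t)⁻¹ ∈ Rc M A E) ∧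
    (∀ s ∈ S, s ≠ 0 → s⁻¹ ∈ Rc M A E) ∧
    (∀ O : ValuationSubring (Om M), (∀ a ∈ Lc M, a ∈ O) → ∀ c ∈ Lc M, c ∉ S →
      x - c ∈ O → (x - c)⁻¹ ∉ O → ∀ t ∈ O, t⁻¹ ∉ O → t * (x - c)⁻¹ ∈ O) := by
  have hu : ((64 : ℤ) : Om M)⁻¹ ∈ Rc M A E :=
    inv_intCast_mem_Rc M A E 64 (inv_64_mem A hA)
  have hcast : ((64 : ℤ) : Om M) = 64 := by norm_num
  rw [hcast] at hu
  refine ⟨?_, ?_, ?_, brT2_unramified M x hx S hS⟩
  · intro s hs
    rcases (hS s).1 hs with rfl | rfl
    · exact zero_mem _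
    · have := intCast_mem_Rc M A E 64
      rw [hcast] at this
      exact neg_mem this
  · intro s hs t ht hst
    rcases (hS s).1 hs with rfl | rfl <;> rcases (hS t).1 ht with rfl | rfl
    · exact absurd rfl hst
    · rwa [zero_sub, neg_neg]
    · rw [sub_zero, inv_neg]
      exact neg_mem hu
    · exact absurd rfl hst
  · intro s hs hs0
    rcases (hS s).1 hs with rfl | rfl
    · exact absurd rfl hs0
    · rw [inv_neg]
      exact neg_mem hu

end T2

/-! ### The Hauptmodul `t₃`, `ℓ = 2` -/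

section T3

variable (A : ValuationSubring Qb) (E : IntermediateField ℚ Qb)

theorem inv_27_mem (hA : A.LiesOverPrime 2) : ((27 : ℤ) : Qb)⁻¹ ∈ A := by
  apply inv_intCast_mem_of_coprime A hA
  have hcop : Nat.Coprime 27 2 := by norm_num
  exact_mod_cast (Nat.isCoprime_iff_coprime.2 hcop)

theorem brT3_unramified (x : Om M) (hx : jOm M * x ^ 3 = (x + 27) * (x + 243) ^ 3)
    (S : Finset (Om M)) (hS : ∀ s, s ∈ S ↔ s = 0 ∨ s = -27) :
    ∀ O : ValuationSubring (Om M), (∀ a ∈ Lc M, a ∈ O) → ∀ c ∈ Lc M, c ∉ S →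
      x - c ∈ O → (x - c)⁻¹ ∉ O → ∀ t ∈ O, t⁻¹ ∉ O → t * (x - c)⁻¹ ∈ O := by
  apply unramified_of_ord
  intro c hcS v hv
  rw [jOm_eq_jF] at hx
  have h0 : c ≠ 0 := by
    rintro rfl
    exact hcS ((hS _).2 (Or.inl (map_zero _)))
  have h1 : c ≠ -27 := by
    rintro rfl
    exact hcS ((hS _).2 (Or.inr (by rw [map_neg, map_ofNat])))
  exact ord_t3_sub_eq_one M x hx c h0 h1 v hv

/-- **G-BR for `x = t₃`, `ℓ = 2`**. -/
theorem brT3 (hA : A.LiesOverPrime 2) (x : Om M)
    (hx : jOm M * x ^ 3 = (x + 27) * (x + 243) ^ 3)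
    (S : Finset (Om M)) (hS : ∀ s, s ∈ S ↔ s = 0 ∨ s = -27) :
    (∀ s ∈ S, s ∈ Rc M A E) ∧
    (∀ s ∈ S, ∀ t ∈ S, s ≠ t → (s - t)⁻¹ ∈ Rc M A E) ∧
    (∀ s ∈ S, s ≠ 0 → s⁻¹ ∈ Rc M A E) ∧
    (∀ O : ValuationSubring (Om M), (∀ a ∈ Lc M, a ∈ O) → ∀ c ∈ Lc M, c ∉ S →
      x - c ∈ O → (x - c)⁻¹ ∉ O → ∀ t ∈ O, t⁻¹ ∉ O → t * (x - c)⁻¹ ∈ O) := by
  have hu : ((27 : ℤ) : Om M)⁻¹ ∈ Rc M A E :=
    inv_intCast_mem_Rc M A E 27 (inv_27_mem A hA)
  have hcast : ((27 : ℤ) : Om M) = 27 := by norm_num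
  rw [hcast] at hu
  refine ⟨?_, ?_, ?_, brT3_unramified M x hx S hS⟩
  · intro s hs
    rcases (hS s).1 hs with rfl | rfl
    · exact zero_mem _
    · have := intCast_mem_Rc M A E 27
      rw [hcast] at this
      exact neg_mem this
  · intro s hs t ht hst
    rcases (hS s).1 hs with rfl | rfl <;> rcases (hS t).1 ht with rfl | rfl
    · exact absurd rfl hst
    · rwa [zero_sub, neg_neg]
    · rw [sub_zero, inv_neg]
      exact neg_mem hu
    · exact absurd rfl hst
  · intro s hs hs0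
    rcases (hS s).1 hs with rfl | rfl
    · exact absurd rfl hs0
    · rw [inv_neg]
      exact neg_mem hu

end T3

/-- **G-BR, all admissible coordinates at once**: for every coordinate `x` with branch set `S`
in the sense of `Mod.IsCoordinate`, the four branch fields of `Alg.GoodModel` hold at the concrete
objects, for every intermediate field `E`. -/
theorem br_of_isCoordinate {ℓ : ℕ} [Fact ℓ.Prime] (A : ValuationSubring Qb)
    (hA : A.LiesOverPrime ℓ) (E : IntermediateField ℚ Qb) (x : Om M) (S : Finset (Om M))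
    (hx : IsCoordinate M ℓ x S) :
    (∀ s ∈ S, s ∈ Rc M A E) ∧
    (∀ s ∈ S, ∀ t ∈ S, s ≠ t → (s - t)⁻¹ ∈ Rc M A E) ∧
    (∀ s ∈ S, s ≠ 0 → s⁻¹ ∈ Rc M A E) ∧
    (∀ O : ValuationSubring (Om M), (∀ a ∈ Lc M, a ∈ O) → ∀ c ∈ Lc M, c ∉ S →
      x - c ∈ O → (x - c)⁻¹ ∉ O → ∀ t ∈ O, t⁻¹ ∉ O → t * (x - c)⁻¹ ∈ O) := by
  rcases hx with ⟨h5, rfl, hS⟩ | ⟨⟨h3, hid, hS⟩ | ⟨h2, hid, hS⟩, -⟩
  · exact brJ M A E Fact.out h5 hA S hS
  · subst h3
    exact brT2 M A E hA x hid S hS
  · subst h2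
    exact brT3 M A E hA x hid S hS

end Fermat.Agent.S18.H558

end

end
-- ===== PACK-END S18/H558/PartBr.lean

-- ===== PACK-BEGIN S18/H24/Branch.lean
section






/-!
# S18 / MOD (M2) — ramification of `F_N / ℚ̄(j)` in `Place` language  (helper24)

`F_N = modularFunctionFieldBar N = ℚ̄(j(q^d) : d ∣ N)`, `j = jF N`.  For a place `v` of `F_N/ℚ̄`:

* `ord_sub_eq_one`     : `a ≠ 0, 1728`, `0 < v.ord (j - a)`  ⟹  `v.ord (j - a) = 1`   (unramified);
* `ord_zero_dvd`       : `0 < v.ord j`                      ⟹  `v.ord j ∣ 3`;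
* `ord_1728_dvd`       : `0 < v.ord (j - 1728)`             ⟹  `v.ord (j - 1728) ∣ 2`;
* `ord_inv_dvd`        : `0 < v.ord j⁻¹`                    ⟹  `v.ord j⁻¹ ∣ N`;
* `finrank_eq_psi`     : `[F_N : ℚ̄(j)] = ψ(N)`.

So `F_N/ℚ̄(j)` is tamely ramified, with branch values in `{0, 1728, ∞}` and ramification indices
dividing `3`, `2`, `N` respectively.  Source: the `LocalData` of the S24 modular package
(`H997.analyticCore`), helper117's local theorem and the relations `S² = (ST)³ = -1`,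
`T^N ∈ Γ(N)`.
-/

set_option autoImplicit false

noncomputable section

open AlgebraicCurve ModularCurve IntermediateField
open scoped MatrixGroups

namespace Fermat.Agent.S18.H24

open Fermat.Agent.S24

variable (N : ℕ) [NeZero N]

/-- `[F_N : ℚ̄(j)]` is finite. -/
instance finiteDimensional_FF :
    FiniteDimensional ↥(IntermediateField.adjoin Kbar {jF N}) (FF N) :=
  (Deg457.degree_fields N).1

theorem finrank_eq_card :
    Module.finrank ↥(IntermediateField.adjoin Kbar {jF N}) (FF N) = Nat.card (XX N) := by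
  obtain ⟨hfd, hle⟩ := Deg457.degree_fields N
  obtain ⟨_, _, h1, -⟩ := (H997.analyticCore N).modularPackage_fields hfd hle
  exact h1

/-- `[F_N : ℚ̄(j)] = ψ(N)`. -/
theorem finrank_eq_psi :
    Module.finrank ↥(IntermediateField.adjoin Kbar {jF N}) (FF N) = dedekindPsi N := by
  rw [finrank_eq_card, card_XX]

instance finite_XX : Finite (XX N) := by
  apply Nat.finite_of_card_ne_zero
  rw [← finrank_eq_card]
  exact Module.finrank_pos.ne'

section Generic

variable {N}
variable {t : FF N} (L : LocalData Kbar (FF N) ℂ (XX N) t)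

/-- General principle: if `perm ^ k = 1` then every ramification index over `t = 0`
divides `k`. -/
theorem ord_dvd_of_perm_pow (hE : IntermediateField.adjoin Kbar {jF N} ≤ Kbar⟮t⟯) (k : ℕ)
    (hk : L.perm ^ k = 1) (v : Place Kbar (FF N)) (hv : 0 < v.ord t) : v.ord t ∣ (k : ℤ) := by
  obtain ⟨x, rfl⟩ := H117.exists_placeOf_eq L (IntermediateField.adjoin Kbar {jF N}) hE
    (finrank_eq_card N) v hv
  exact H117.ord_t_dvd_of_pow_apply_eq L x k (by rw [hk]; rfl)

end Generic

theorem adjoin_le_sub (a : Kbar) :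
    IntermediateField.adjoin Kbar {jF N} ≤ Kbar⟮jF N - algebraMap Kbar (FF N) a⟯ := by
  rw [IntermediateField.adjoin_simple_le_iff]
  have h1 : jF N - algebraMap Kbar (FF N) a ∈ Kbar⟮jF N - algebraMap Kbar (FF N) a⟯ :=
    IntermediateField.mem_adjoin_simple_self _ _
  have h2 : algebraMap Kbar (FF N) a ∈ Kbar⟮jF N - algebraMap Kbar (FF N) a⟯ :=
    IntermediateField.algebraMap_mem _ a
  have := add_mem h1 h2
  rwa [sub_add_cancel] at this

theorem adjoin_le_inv : IntermediateField.adjoin Kbar {jF N} ≤ Kbar⟮(jF N)⁻¹⟯ := by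
  rw [IntermediateField.adjoin_simple_le_iff]
  have h1 : (jF N)⁻¹ ∈ Kbar⟮(jF N)⁻¹⟯ := IntermediateField.mem_adjoin_simple_self _ _
  have := inv_mem h1
  rwa [inv_inv] at this

/-! ### the permutations of the concrete local data -/

theorem permOf_pow (g : SL(2, ℤ)) (k : ℕ) : (permOf N g) ^ k = permOf N (g ^ k) :=
  (map_pow (MulAction.toPermHom SL(2, ℤ) (XX N)) g k).symm

theorem permOf_neg_one : permOf N (-1) = 1 := by
  ext x
  exact Fermat.Agent.S20.Comb.neg_one_smul_quotient N x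

theorem permOf_one' : permOf N 1 = 1 := by
  ext x
  simp [permOf]

theorem dataFin_perm_zero :
    ((H997.analyticCore N).dataFin 0).perm = permOf N (ModularGroup.S * ModularGroup.T)⁻¹ := by
  unfold H997.AnalyticCore.dataFin
  rw [dif_pos rfl]
  rfl

theorem dataFin_perm_1728 :
    ((H997.analyticCore N).dataFin 1728).perm = permOf N ModularGroup.S⁻¹ := by
  have h0 : (1728 : Kbar) ≠ 0 := by norm_num
  unfold H997.AnalyticCore.dataFin
  rw [dif_neg h0, dif_pos rfl]
  rfl

theorem dataInf_perm : (H997.analyticCore N).dataInf.perm = permOf N ModularGroup.T⁻¹ := rfl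

theorem perm_zero_pow : ((H997.analyticCore N).dataFin 0).perm ^ 3 = 1 := by
  rw [dataFin_perm_zero, permOf_pow, inv_pow, Fermat.Agent.S20.Comb.ST_pow_three]
  have : ((-1 : SL(2, ℤ)))⁻¹ = -1 := by
    rw [inv_eq_iff_eq_inv, eq_inv_iff_mul_eq_one]
    simp
  rw [this, permOf_neg_one]

theorem perm_1728_pow : ((H997.analyticCore N).dataFin 1728).perm ^ 2 = 1 := by
  rw [dataFin_perm_1728, permOf_pow, inv_pow, Fermat.Agent.S20.Comb.S_pow_two]
  have : ((-1 : SL(2, ℤ)))⁻¹ = -1 := by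
    rw [inv_eq_iff_eq_inv, eq_inv_iff_mul_eq_one]
    simp
  rw [this, permOf_neg_one]

/-- `T ^ N` acts trivially on `SL₂(ℤ)/Γ₀(N)`. -/
theorem permOf_T_pow : permOf N (ModularGroup.T ^ N) = 1 := by
  ext x
  obtain ⟨g, rfl⟩ := QuotientGroup.mk_surjective x
  show (ModularGroup.T ^ N) • (QuotientGroup.mk g : SL(2, ℤ) ⧸ CongruenceSubgroup.Gamma0 N) = _
  rw [Equiv.Perm.one_apply, Fermat.Agent.S20.Comb.smul_mk_eq_mk_iff]
  have hT : ((ModularGroup.T ^ N : SL(2, ℤ)) : Matrix (Fin 2) (Fin 2) ℤ) = !![1, (N : ℤ); 0, 1] := by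
    have := ModularGroup.coe_T_zpow (N : ℤ)
    rw [zpow_natCast] at this
    exact this
  have h00 : ((ModularGroup.T ^ N * g : SL(2, ℤ)) 0 0 : ℤ) = g 0 0 + N * g 1 0 := by
    rw [Matrix.SpecialLinearGroup.coe_mul, hT, Matrix.mul_apply, Fin.sum_univ_two]
    simp
  have h10 : ((ModularGroup.T ^ N * g : SL(2, ℤ)) 1 0 : ℤ) = g 1 0 := by
    rw [Matrix.SpecialLinearGroup.coe_mul, hT, Matrix.mul_apply, Fin.sum_univ_two]
    simp
  rw [h00, h10]
  push_cast
  simp
  ring

theorem perm_inf_pow : (H997.analyticCore N).dataInf.perm ^ N = 1 := by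
  rw [dataInf_perm, permOf_pow, inv_pow, ← permOf_one' N]
  have h : permOf N ((ModularGroup.T ^ N)⁻¹) = (permOf N (ModularGroup.T ^ N))⁻¹ := by
    ext x
    simp [permOf]
  rw [h, permOf_T_pow, inv_one, permOf_one']

/-! ### the ramification statements -/

/-- **Unramified outside `0, 1728, ∞`.** -/
theorem ord_sub_eq_one (a : Kbar) (h0 : a ≠ 0) (h1 : a ≠ 1728) (v : Place Kbar (FF N))
    (hv : 0 < v.ord (jF N - algebraMap Kbar (FF N) a)) :
    v.ord (jF N - algebraMap Kbar (FF N) a) = 1 := by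
  have hperm : ((H997.analyticCore N).dataFin a).perm ^ 1 = 1 := by
    rw [pow_one]
    exact (H997.analyticCore N).dataFin_perm_generic a h0 h1
  have h := ord_dvd_of_perm_pow ((H997.analyticCore N).dataFin a) (adjoin_le_sub N a) 1 hperm v hv
  have h2 : v.ord (jF N - algebraMap Kbar (FF N) a) ≤ 1 := Int.le_of_dvd one_pos (by simpa using h)
  omega

/-- Over `j = 0` the ramification indices divide `3`. -/
theorem ord_zero_dvd (v : Place Kbar (FF N)) (hv : 0 < v.ord (jF N)) : v.ord (jF N) ∣ 3 := by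
  have hv' : 0 < v.ord (jF N - algebraMap Kbar (FF N) 0) := by rwa [map_zero, sub_zero]
  have h := ord_dvd_of_perm_pow ((H997.analyticCore N).dataFin 0) (adjoin_le_sub N 0) 3
    (perm_zero_pow N) v hv'
  rw [map_zero, sub_zero] at h
  exact_mod_cast h

/-- Over `j = 1728` the ramification indices divide `2`. -/
theorem ord_1728_dvd (v : Place Kbar (FF N))
    (hv : 0 < v.ord (jF N - algebraMap Kbar (FF N) 1728)) :
    v.ord (jF N - algebraMap Kbar (FF N) 1728) ∣ 2 := by
  have h := ord_dvd_of_perm_pow ((H997.analyticCore N).dataFin 1728) (adjoin_le_sub N 1728) 2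
    (perm_1728_pow N) v hv
  exact_mod_cast h

/-- Over `j = ∞` the ramification indices divide `N`. -/
theorem ord_inv_dvd (v : Place Kbar (FF N)) (hv : 0 < v.ord (jF N)⁻¹) :
    v.ord (jF N)⁻¹ ∣ (N : ℤ) :=
  ord_dvd_of_perm_pow (H997.analyticCore N).dataInf (adjoin_le_inv N) N (perm_inf_pow N) v hv

end Fermat.Agent.S18.H24

end
end
-- ===== PACK-END S18/H24/Branch.lean

-- ===== PACK-BEGIN S18/H107/BranchConcrete.lean
section







/-!
# helper107 — S18 / node_mod, G-BR : the branch data of the `j`-line at the CONCRETE objects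

`branchJ_concrete107 M : BranchJ107 (Mod.Lc M) (Mod.jOm M)` — in valuation-subring language over
`Ω = Om M = F_M`:  `F_M / ℚ̄(j)` is unramified outside `0, 1728, ∞`, with `ord ≤ 3` over `0` and
`ord ≤ 2` over `1728`.

Adapter from the `Place`-language results on main (`H24.ord_sub_eq_one`, `ord_zero_dvd`,
`ord_1728_dvd`) via `H504.placeOfValuationSubring` (a valuation subring of `F_M` containing `ℚ̄`
with a nonzero non-unit is a `Place`).

Consequences: `unramified_j_concrete107` (= field `unramified` of `Alg.GoodModel` for `x = j`,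
`S = {0, 1728}`), and, through `unramified_t2_107` / `unramified_t3_107`, the field `unramified`
for the Hauptmodul coordinates.
-/

set_option autoImplicit false

noncomputable section

namespace Fermat.Agent.S18.H107

open AlgebraicCurve ModularCurve IntermediateField HahnSeries
open Fermat.Agent.S18 Fermat.Agent.S18.Mod Fermat.Agent.S24 Fermat.Agent.Lib.RR

variable (M : ℕ) [NeZero M]

theorem jOm_eq_jF107 : jOm M = jF M := by
  apply Subtype.ext
  show coeffEmb Qb (qExpand ℚ 1 jq) = coeffEmb Kbar jq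
  rw [qExpand_one_apply]

variable {M}

omit [NeZero M] in
theorem algebraMap_mem_of_Lc107 {O : ValuationSubring (Om M)} (hL : ∀ a ∈ Lc M, a ∈ O)
    (a : Qb) : algebraMap Qb (Om M) a ∈ O :=
  hL _ ⟨a, rfl⟩

omit [NeZero M] in
/-- A bound on `ord` at the place defined by `O` gives `OrdLe107`. -/
theorem ordLe_of_place107 (v : Place Qb (Om M)) {y : Om M} (hy0 : y ≠ 0) (k : ℕ)
    (hk : v.ord y ≤ k) : OrdLe107 v.toValuationSubring y k := by
  intro s hs hs'
  have hs0 : s ≠ 0 := by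
    rintro rfl
    exact hs' (by rw [inv_zero]; exact v.toValuationSubring.zero_mem)
  have h1 : 0 ≤ v.ord s := ord_nonneg_of_mem v hs
  have h2 : ¬ 0 ≤ v.ord s⁻¹ := fun h => hs' (mem_of_ord_nonneg v h)
  rw [v.ord_inv] at h2
  have h3 : 1 ≤ v.ord s := by omega
  apply mem_of_ord_nonneg v
  rw [v.ord_mul (pow_ne_zero _ hs0) (inv_ne_zero hy0), ord_pow, v.ord_inv]
  have h4 : (k : ℤ) * 1 ≤ (k : ℤ) * v.ord s := by
    apply mul_le_mul_of_nonneg_left h3
    exact_mod_cast Nat.zero_le k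
  omega

omit [NeZero M] in
/-- positivity of `ord` at the place of a valuation ring, for a non-unit. -/
theorem ord_pos_of_nonunit107 (v : Place Qb (Om M)) {y : Om M} (hy : y ∈ v.toValuationSubring)
    (hy' : y⁻¹ ∉ v.toValuationSubring) : 0 < v.ord y := by
  have h1 : 0 ≤ v.ord y := ord_nonneg_of_mem v hy
  have h2 : ¬ 0 ≤ v.ord y⁻¹ := fun h => hy' (mem_of_ord_nonneg v h)
  rw [v.ord_inv] at h2
  omega

omit [NeZero M] in
theorem ne_zero_of_inv_not_mem107 {O : ValuationSubring (Om M)} {y : Om M} (hy' : y⁻¹ ∉ O) :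
    y ≠ 0 := by
  rintro rfl
  exact hy' (by rw [inv_zero]; exact O.zero_mem)

variable (M)

/-- **G-BR, branch data of the `j`-line** at the concrete objects. -/
theorem branchJ_concrete107 : BranchJ107 (Lc M) (jOm M) := by
  haveI : FiniteDimensional Kbar⟮jF M⟯ (FF M) := H24.finiteDimensional_FF M
  refine ⟨?_, ?_, ?_⟩
  · rintro O hL _ ⟨a, rfl⟩ ha0 ha1728 hz hz'
    have ha0' : a ≠ 0 := fun h => ha0 (by rw [h, map_zero])
    have ha1728' : a ≠ 1728 := fun h => ha1728 (by rw [h, map_ofNat])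
    rw [jOm_eq_jF107] at hz hz' ⊢
    haveI : FiniteDimensional Kbar⟮jF M - algebraMap Kbar (FF M) a⟯ (FF M) :=
      FF.finiteDimensional_adjoin_sub_const (jF M) a
    set v : Place Kbar (FF M) :=
      H504.placeOfValuationSubring O (algebraMap_mem_of_Lc107 hL) hz hz' with hv
    have hpos : 0 < v.ord (jF M - algebraMap Kbar (FF M) a) := ord_pos_of_nonunit107 v hz hz'
    have h1 := H24.ord_sub_eq_one M a ha0' ha1728' v hpos
    exact ordLe_of_place107 v (ne_zero_of_inv_not_mem107 hz') 1 (by rw [h1]; norm_num)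
  · intro O hL hz hz'
    rw [jOm_eq_jF107] at hz hz' ⊢
    set v : Place Kbar (FF M) :=
      H504.placeOfValuationSubring O (algebraMap_mem_of_Lc107 hL) hz hz' with hv
    have hpos : 0 < v.ord (jF M) := ord_pos_of_nonunit107 v hz hz'
    have h1 := H24.ord_zero_dvd M v hpos
    exact ordLe_of_place107 v (ne_zero_of_inv_not_mem107 hz') 3
      (Int.le_of_dvd (by norm_num) h1)
  · intro O hL hz hz'
    rw [jOm_eq_jF107] at hz hz' ⊢
    have e : (1728 : FF M) = algebraMap Kbar (FF M) 1728 := by rw [map_ofNat]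
    rw [e] at hz hz' ⊢
    haveI : FiniteDimensional Kbar⟮jF M - algebraMap Kbar (FF M) 1728⟯ (FF M) :=
      FF.finiteDimensional_adjoin_sub_const (jF M) 1728
    set v : Place Kbar (FF M) :=
      H504.placeOfValuationSubring O (algebraMap_mem_of_Lc107 hL) hz hz' with hv
    have hpos : 0 < v.ord (jF M - algebraMap Kbar (FF M) 1728) :=
      ord_pos_of_nonunit107 v hz hz'
    have h1 := H24.ord_1728_dvd M v hpos
    exact ordLe_of_place107 v (ne_zero_of_inv_not_mem107 hz') 2
      (Int.le_of_dvd (by norm_num) h1)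

/-- The field `unramified` of `Alg.GoodModel` for `x = j`, `S = {0, 1728}`. -/
theorem unramified_j_concrete107 (S : Finset (Om M)) (hS : ∀ s, s ∈ S ↔ s = 0 ∨ s = 1728) :
    ∀ O : ValuationSubring (Om M), (∀ a ∈ Lc M, a ∈ O) → ∀ c ∈ Lc M, c ∉ S →
      jOm M - c ∈ O → (jOm M - c)⁻¹ ∉ O → ∀ t ∈ O, t⁻¹ ∉ O → t * (jOm M - c)⁻¹ ∈ O := by
  intro O hL c hc hcS hz hz'
  rw [← OrdLe107.one_iff]
  exact (branchJ_concrete107 M).generic O hL c hc (fun h => hcS ((hS c).2 (Or.inl h)))
    (fun h => hcS ((hS c).2 (Or.inr h))) hz hz'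

end Fermat.Agent.S18.H107

end
end
-- ===== PACK-END S18/H107/BranchConcrete.lean

-- ===== PACK-BEGIN S18/H107/M3T.lean
section






/-!
# helper107 — S18 / node_mod, piece M3-T at the CONCRETE objects of `Mod/Defs.lean`

`goodModel_of_isCoordinate107` : for `ℓ ∈ {2, 3}` (`¬ 5 ≤ ℓ`), every admissible coordinate `x`
(`Mod.IsCoordinate M ℓ x S`), every intermediate field `E` and every `V`, `w`:

    BaseModel107 (Lc M) (Ec M E) (Fc M E) (Rc M A E) V w (jOm M)      -- the j-model minus S-fields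
    + x ∈ Fc M E + x ∈ V + gauss for x
    ⟹  Alg.GoodModel (Lc M) (Ec M E) (Fc M E) (Rc M A E) V w x S.

The branch data (`branchJ_concrete107`) and the units `2⁻¹` resp. `3⁻¹ ∈ Rc M A E` are proved here.
-/

set_option autoImplicit false

noncomputable section

namespace Fermat.Agent.S18.H107

open AlgebraicCurve ModularCurve IntermediateField HahnSeries
open Fermat.Agent.S18 Fermat.Agent.S18.Mod Fermat.Agent.S18.Alg

/-- If `A` lies over `ℓ` and `n ≡ 1 mod ℓ`-like: `n = ℓ * k + 1` then `n` is a unit of `A`.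
We only need: `ℓ ∈ 𝔪_A`, `n - 1 ∈ ℓ ℤ` ⟹ `n⁻¹ ∈ A`. -/
theorem inv_natCast_mem_of_liesOver107 {L : Type*} [Field L] (A : ValuationSubring L) {ℓ : ℕ}
    (hA : A.LiesOverPrime ℓ) (n k : ℕ) (hn : n = ℓ * k + 1) : ((n : L))⁻¹ ∈ A := by
  have hℓ : A.valuation (ℓ : L) < 1 := by
    have h : (ℓ : L) ∈ A.nonunits := hA
    exact (A.mem_nonunits_iff).1 h
  have hk : A.valuation ((ℓ : L) * (k : L)) < 1 := by
    rw [map_mul]
    calc A.valuation (ℓ : L) * A.valuation (k : L) ≤ A.valuation (ℓ : L) * 1 := by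
          gcongr
          exact (A.valuation_le_one_iff _).2 (_root_.natCast_mem A k)
      _ = A.valuation (ℓ : L) := mul_one _
      _ < 1 := hℓ
  have hval : A.valuation (n : L) = 1 := by
    have e : (n : L) = 1 + (ℓ : L) * (k : L) := by
      rw [hn]
      push_cast
      ring
    rw [e, ← map_one A.valuation]
    exact Valuation.map_add_eq_of_lt_left _ (by rw [map_one]; exact hk)
  refine (A.valuation_le_one_iff _).1 ?_
  rw [map_inv₀, hval, inv_one]

variable (M : ℕ)

theorem inv_natCast_mem_Rc107 (A : ValuationSubring Qb) (E : IntermediateField ℚ Qb) {ℓ : ℕ}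
    (hA : A.LiesOverPrime ℓ) (n k : ℕ) (hn : n = ℓ * k + 1) :
    ((n : Om M))⁻¹ ∈ Rc M A E := by
  refine ⟨((n : Qb))⁻¹, ⟨inv_natCast_mem_of_liesOver107 A hA n k hn, ?_⟩, ?_⟩
  · exact E.toSubfield.inv_mem (_root_.natCast_mem E.toSubfield n)
  · rw [map_inv₀, map_natCast]

variable [NeZero M]

/-- **M3-T, concrete form.** -/
theorem goodModel_of_isCoordinate107 {ℓ : ℕ} (A : ValuationSubring Qb) (hA : A.LiesOverPrime ℓ)
    (h5 : ¬ 5 ≤ ℓ) {x : Om M} {S : Finset (Om M)} (hx : IsCoordinate M ℓ x S)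
    (E : IntermediateField ℚ Qb) {V : Subring (Om M)} {w : Om M}
    (hb : BaseModel107 (Lc M) (Ec M E) (Fc M E) (Rc M A E) V w (jOm M))
    (hxF : x ∈ Fc M E) (hxV : x ∈ V)
    (hgauss : ∀ P : Polynomial (Om M), (∀ i, P.coeff i ∈ Rc M A E) →
      (∃ i, P.coeff i ≠ 0 ∧ (P.coeff i)⁻¹ ∈ Rc M A E) → (P.eval x)⁻¹ ∈ V) :
    GoodModel (Lc M) (Ec M E) (Fc M E) (Rc M A E) V w x S := by
  rcases hx with ⟨h, -⟩ | ⟨h | h, -⟩
  · exact absurd h h5
  · obtain ⟨hℓ, hrel, hS⟩ := h
    subst hℓ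
    have h2 : (2 : Om M)⁻¹ ∈ Rc M A E := by
      have h4 := inv_natCast_mem_Rc107 M A E hA 4 1 (by norm_num)
      have e : (2 : Om M)⁻¹ = 2 * ((4 : ℕ) : Om M)⁻¹ := by
        push_cast
        norm_num
      rw [e]
      exact (Rc M A E).mul_mem (ofNat_mem _ 2) h4
    exact goodModel_t2_107 hb (branchJ_concrete107 M) hrel hxF hxV h2 hgauss hS
  · obtain ⟨hℓ, hrel, hS⟩ := h
    subst hℓ
    have h3 : (3 : Om M)⁻¹ ∈ Rc M A E := by
      have := inv_natCast_mem_Rc107 M A E hA 3 1 (by norm_num)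
      simpa using this
    exact goodModel_t3_107 hb (branchJ_concrete107 M) hrel hxF hxV h3 hgauss hS

end Fermat.Agent.S18.H107

end
end
-- ===== PACK-END S18/H107/M3T.lean

-- ===== PACK-BEGIN S18/Mod/H216/NodeMod.lean
section








/-!
# S18 / MOD-ASM (helper216): **node_mod** — `Mod.GoodModelStatement M ℓ A`, UNCONDITIONAL

`node_mod (M) [NeZero M] {ℓ} [Fact ℓ.Prime] (hℓM : ¬ ℓ ∣ M) (A) (hA : A.LiesOverPrime ℓ) :
  Mod.GoodModelStatement M ℓ A` — exact type of `Integ.node_mod` (Skeleton v4c).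

Wiring of the six parts at the concrete objects of `Mod/Defs.lean`:

| part | source |
|---|---|
| G-R   | `H456.IsUnif`, `H456.field_residue_perfect`, `H602.isDiscreteValuationRing_RE` |
| G-FLD | `H456.field_*`, `H24.field_finite_j` |
| G-V   | `H216.partVStatement_j` (coordinate `j`), `H24.gv_fields_of_isCoordinate` (`t₂, t₃`) |
| G-QEP | `H216.partQepStatement_j` |
| G-SEP | `H264.separable_jOm` |
| G-BR  | `H558.br_of_isCoordinate` |
| M3-T  | `H107.goodModel_of_isCoordinate107` (transfer `j ↦ t₂, t₃` for `ℓ = 3, 2`) |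
-/

set_option autoImplicit false
set_option linter.unusedSectionVars false

noncomputable section

namespace Fermat.Agent.S18.Mod.H216

open ModularCurve AlgebraicCurve HahnSeries Fermat.Agent.S18 Fermat.Agent.S18.Mod
open Fermat.Agent.S18.Alg

variable (M : ℕ) [NeZero M] {ℓ : ℕ} [Fact ℓ.Prime] (A : ValuationSubring Qb)

/-- **G-R** at the concrete objects. -/
theorem partRStatement (hA : A.LiesOverPrime ℓ) : PartRStatement M A := by
  intro E hE
  have := hE
  have hℓ : ℓ.Prime := Fact.out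
  have : IsDiscreteValuationRing (H602.RE A E) :=
    H602.isDiscreteValuationRing_RE A E hℓ.ne_zero hA
  obtain ⟨w, hw⟩ := H456.exists_isUnif M A E
  exact ⟨w, H456.field_R_le M A E, H456.field_R_total M A E, hw.mem, hw.ne_zero, hw.inv_not_mem,
    hw.gen, hw.discrete, H456.field_residue_perfect A E M hℓ hA hw⟩

/-- **G-FLD** for the coordinate `j`. -/
theorem partFldStatement_j : PartFldStatement M (jOm M) := by
  intro E _
  exact ⟨H456.field_E_le_L M E, H456.field_E_le_F M E, H456.field_L_algebraic M E,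
    H456.field_L_algClosed M, H456.field_E_closed_in_F M E, H456.field_compositum M E,
    H456.mem_Fc_of_hasIntExp M E (H456.hasIntExp_jOm M),
    H456.transcendental_of_hasIntExp M (H456.hasIntExp_jOm M), H24.field_finite_j M E⟩

/-- **G-SEP** for the coordinate `j`. -/
theorem partSepStatement_j (hℓM : ¬ ℓ ∣ M) (hA : A.LiesOverPrime ℓ) :
    PartSepStatement M A (jOm M) :=
  fun E _ w hw => ⟨H264.separable_jOm M hℓM A hA E (Vc M A E) (coe_Vc M A E) w hw.w_mem
    hw.w_ne_zero hw.w_gen⟩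

/-- **G-BR** for every admissible coordinate. -/
theorem partBrStatement_of_isCoordinate (hA : A.LiesOverPrime ℓ) (x : Om M) (S : Finset (Om M))
    (hx : IsCoordinate M ℓ x S) : PartBrStatement M A x S := by
  intro E _
  obtain ⟨h1, h2, h3, h4⟩ := H558.br_of_isCoordinate M A hA E x S hx
  exact ⟨h1, h2, h3, h4⟩

/-- The `j`-model without its branch fields, for every `ℓ ∤ M` (input of the transfer M3-T). -/
theorem baseModel_j (hℓM : ¬ ℓ ∣ M) (hA : A.LiesOverPrime ℓ) (E : IntermediateField ℚ Qb)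
    (hE : FiniteDimensional ℚ E) {w : Om M} (hw : PartR (Ec M E) (Rc M A E) w) :
    H107.BaseModel107 (Lc M) (Ec M E) (Fc M E) (Rc M A E) (Vc M A E) w (jOm M) := by
  have hF := partFldStatement_j M E hE
  have hV := partVStatement_j A hℓM hA E hE w hw
  have hQ := partQepStatement_j A hℓM hA E hE w hw
  have hS := partSepStatement_j M A hℓM hA E hE w hw
  exact
    { charZero := charZero_Om M
      R_le := hw.R_le
      R_total := hw.R_total
      w_mem := hw.w_mem
      w_ne_zero := hw.w_ne_zero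
      w_inv_not_mem := hw.w_inv_not_mem
      w_gen := hw.w_gen
      w_discrete := hw.w_discrete
      residue_perfect := hw.residue_perfect
      E_le_L := hF.E_le_L
      E_le_F := hF.E_le_F
      L_algebraic := hF.L_algebraic
      L_algClosed := hF.L_algClosed
      E_closed_in_F := hF.E_closed_in_F
      compositum := hF.compositum
      x_mem := hF.x_mem
      x_transcendental := hF.x_transcendental
      finite := hF.finite
      V_le := hV.V_le
      V_total := hV.V_total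
      R_le_V := hV.R_le_V
      w_inv_not_mem_V := hV.w_inv_not_mem_V
      V_gen := hV.V_gen
      x_mem_V := hV.x_mem_V
      gauss := hV.gauss
      qep_fin := hQ.qep_fin
      qep_inf := hQ.qep_inf
      separable := hS.separable }

/-- **M3-T**: for `ℓ ∈ {2, 3}` every admissible coordinate is good. -/
theorem goodAt_of_lt_five (hℓM : ¬ ℓ ∣ M) (hA : A.LiesOverPrime ℓ) (h5 : ¬ 5 ≤ ℓ) (x : Om M)
    (S : Finset (Om M)) (hx : IsCoordinate M ℓ x S) : GoodAt M A x S := by
  intro E hE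
  obtain ⟨w, hw⟩ := partRStatement M A hA E hE
  obtain ⟨-, -, -, hxV, -, -, hgauss⟩ :=
    H24.gv_fields_of_isCoordinate (M := M) (A := A) (E := E) (Vc M A E) (coe_Vc M A E)
      hw.w_mem hw.w_ne_zero hw.w_inv_not_mem hw.w_gen hw.w_discrete hx
  exact ⟨Vc M A E, w, coe_Vc M A E,
    H107.goodModel_of_isCoordinate107 M A hA h5 hx E (baseModel_j M A hℓM hA E hE hw)
      (H456.field_x_mem M E hx) hxV hgauss⟩

/-- **NODE MOD**: the concrete objects at level `M` form a good model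
(exact type of `Integ.node_mod`, Skeleton v4c). -/
theorem node_mod (M : ℕ) [NeZero M] {ℓ : ℕ} [Fact ℓ.Prime] (hℓM : ¬ ℓ ∣ M)
    (A : ValuationSubring Qb) (hA : A.LiesOverPrime ℓ) : Mod.GoodModelStatement M ℓ A :=
  goodModelStatement_of_parts M ℓ A
    (fun _ => partRStatement M A hA)
    (fun _ => partFldStatement_j M)
    (fun _ => partVStatement_j A hℓM hA)
    (fun _ => partQepStatement_j A hℓM hA)
    (fun _ => partSepStatement_j M A hℓM hA)
    (fun h5 S hS => partBrStatement_of_isCoordinate M A hA (jOm M) S (Or.inl ⟨h5, rfl, hS⟩))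
    (fun h5 x S hx => goodAt_of_lt_five M A hℓM hA h5 x S hx)

end Fermat.Agent.S18.Mod.H216

end
end
-- ===== PACK-END S18/Mod/H216/NodeMod.lean

-- ===== PACK-BEGIN S18/B12/H33/B2Regular.lean
section












/-!
# S18 b2 (squad S18/S33, assembled by helper33): `b2Regular : B2RegularStatement`, UNCONDITIONAL

This is output O1 of piece b2 of Route K (see `B12/Spec3.lean`): for a finite, torsion-free,
integrally closed `R[X]`-algebra `B` (`R` a DVR-like PID of characteristic 0 with prime `w`) whose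
special fibre `B / w B` is a domain and generically separable over `k[X]`, tame at the primes
`X - c` (`c ∈ S`, distinct mod `w`) and unramified (reduced fibre) at all other primes of `R[X]`,
the ring `B` is regular along `w`:  `H754.RegularAlong (algebraMap R[X] B (C w))`.

Pieces (all sorry-free, standard axioms):
* A0, A2, A2' (regular sequence, local bases, rank)  : helper93  (`B12/H93`; also helper873)
* A3  (discriminant reduction)                        : helper393 (`B12/H393`; also helper203/204)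
* A4, A1 (UFD step, polynomial-ring instance)         : helper203 (`B12/H203`; also helper245/693)
* A5  (generic discriminant, tame)                    : helper444 (`B12/H444`, via helper274 P3)
* A5' (reduction basis)                               : helper203 (`B12/H203`; also helper245/633)
* A8, A9 (integrally closed fibre, Dedekind => regular): helper84 (`B12/H84`, via helper278 P2;
                                                        also helper231/845)
* heart A6' and glue O1                               : helper33  (`B12/H33`)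
-/

set_option autoImplicit false

namespace Fermat.Agent.S18.B12.H33

universe u v

/-- **A6' (heart of b2), unconditional.** -/
theorem b2CoreAbs : B2CoreAbsStatement.{u, v} :=
  b2CoreAbs_of_pieces H93.regSeqAbs H93.localBasis H93.localBasisRank H393.discrRed
    H203.ufdStep H444.genericDiscr H203.redBasisAbs

/-- **O1 = b2, unconditional**: `H754.RegularAlong (C w)` for the chart ring. -/
theorem b2Regular : B2RegularStatement.{u, v} :=
  b2Regular_of_pieces b2CoreAbs H93.regSeqAbs H84.a8 H84.a9 H203.polyInst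

end Fermat.Agent.S18.B12.H33

end
-- ===== PACK-END S18/B12/H33/B2Regular.lean

-- ===== PACK-BEGIN S18/B12/H33/RegChart.lean
section






/-!
# S18 b2 (helper33): REG-CHART — `b2Regular` instantiated on the charts of helper138

Setting (the one of `H138.connected_special_fibre`): `R` a discrete valuation ring, `F` a field of
characteristic `0` which is an `R`-algebra, `x : F` transcendental over `R`,
`[FiniteDimensional (H138.baseField R x) F]`, and the chart
`B := H138.chart R {x} : Subalgebra R F` (the integral closure of `R[x]` in `F`).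

Main result `regularAlong_chart`:

    H754.RegularAlong (algebraMap R (H138.chart R {x}) w)

from
* `hdom` : `w` is prime in the chart (QEP),
* `hsep` : elementwise separability of the special fibre (shape of `H425.hsep_poly`),
* `S`, `hS` : the branch values, pairwise distinct mod `w`,
* `hNC` : for every prime `π` of `R[X]` not associated to `w` or to some `X - c` (`c ∈ S`), the
  ideal `π(x) B` is radical (unramifiedness away from `S`, from `GoodModel.unramified`).

All the instance plumbing (`R[X]`-algebra structure through `aeval x`, finiteness, torsion-freeness,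
integral closedness) is done here.  `regularAlong_chart_field` is the same theorem with the
hypotheses `hsep`, `hNC` stated by elements of `F`.
-/

set_option autoImplicit false
set_option linter.style.haveILetI false

noncomputable section

namespace Fermat.Agent.S18.B12.H33

open Polynomial

universe u v

section RegChart

variable (R : Type u) [CommRing R] {F : Type v} [Field F] [Algebra R F]

/-- The coordinate `x` as an element of the chart. -/
def chartX (x : F) : H138.chart R ({x} : Set F) := ⟨x, H138.mem_chart_of_mem rfl⟩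

/-- The structure map `R[X] → B`, `X ↦ x`. -/
def chartPolyHom (x : F) : R[X] →ₐ[R] H138.chart R ({x} : Set F) := aeval (chartX R x)

variable {R}

@[simp] theorem coe_chartX (x : F) : ((chartX R x : H138.chart R ({x} : Set F)) : F) = x := rfl

theorem chartPolyHom_apply (x : F) (p : R[X]) : chartPolyHom R x p = aeval (chartX R x) p := rfl

theorem coe_chartPolyHom (x : F) (p : R[X]) :
    ((chartPolyHom R x p : H138.chart R ({x} : Set F)) : F) = aeval x p := by
  have h := Polynomial.aeval_algHom_apply (H138.chart R ({x} : Set F)).val (chartX R x) p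
  rw [chartPolyHom_apply]
  exact h.symm

theorem chartPolyHom_C (x : F) (r : R) :
    chartPolyHom R x (C r) = algebraMap R (H138.chart R ({x} : Set F)) r := by
  rw [chartPolyHom_apply, aeval_C]

theorem chartPolyHom_injective {x : F} (hx : Transcendental R x) :
    Function.Injective (chartPolyHom R x) := by
  rw [injective_iff_map_eq_zero]
  intro p hp
  have h : aeval x p = 0 := by
    rw [← coe_chartPolyHom, hp]; rfl
  exact transcendental_iff.1 hx p h

theorem algebraMap_injective_of_transcendental {x : F} (hx : Transcendental R x) :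
    Function.Injective (algebraMap R F) := by
  rw [injective_iff_map_eq_zero]
  intro r hr
  have h : aeval x (C r : R[X]) = 0 := by rw [aeval_C, hr]
  have := transcendental_iff.1 hx _ h
  exact C_eq_zero.1 this

end RegChart

section Package

variable {R : Type u} [CommRing R] {F : Type v} [Field F] [Algebra R F]

/-- The `R[X]`-algebra structure of the chart (`X ↦ x`).  Not an instance. -/
@[reducible] def chartAlgebra (R : Type u) [CommRing R] {F : Type v} [Field F] [Algebra R F]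
    (x : F) : Algebra R[X] (H138.chart R ({x} : Set F)) :=
  (chartPolyHom R x).toRingHom.toAlgebra

/-- The chart is (tautologically) the integral closure of `R[x]` in `F`. -/
def chartEquiv (x : F) :
    integralClosure (Algebra.adjoin R ({x} : Set F)) F ≃+* H138.chart R ({x} : Set F) where
  toFun c := ⟨c.1, c.2⟩
  invFun c := ⟨c.1, c.2⟩
  left_inv _ := rfl
  right_inv _ := rfl
  map_mul' _ _ := rfl
  map_add' _ _ := rfl

/-- `R[X] ≃ R[x]` for transcendental `x`. -/
def polyEquivAdjoin {x : F} (hx : Transcendental R x) :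
    R[X] ≃ₐ[R] Algebra.adjoin R ({x} : Set F) :=
  (AlgEquiv.ofInjective (aeval (R := R) x)
    ((injective_iff_map_eq_zero _).2 (transcendental_iff.1 hx))).trans
      (Subalgebra.equivOfEq _ _ (Algebra.adjoin_singleton_eq_range_aeval R x).symm)

theorem coe_polyEquivAdjoin {x : F} (hx : Transcendental R x) (p : R[X]) :
    ((polyEquivAdjoin hx p : Algebra.adjoin R ({x} : Set F)) : F) = aeval x p := rfl

/-- The chart is integrally closed and finite over `R[X]`. -/
theorem chart_package [IsDomain R] [IsNoetherianRing R] [IsIntegrallyClosed R[X]] [CharZero F]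
    {x : F} (hx : Transcendental R x) [FiniteDimensional (H138.baseField R x) F] :
    IsIntegrallyClosed (H138.chart R ({x} : Set F)) ∧
      @Module.Finite R[X] (H138.chart R ({x} : Set F)) _ _ (chartAlgebra R x).toModule := by
  classical
  set A : Subalgebra R F := Algebra.adjoin R ({x} : Set F) with hA
  set K : Subfield F := H138.baseField R x with hK
  haveI := H138.isIntegrallyClosed_adjoin_singleton (R := R) hx
  haveI := H138.isNoetherianRing_adjoin_singleton (R := R) hx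
  let φ : A →+* K :=
    { toFun := fun a => ⟨a, H138.adjoin_le_baseField x a.2⟩
      map_one' := rfl
      map_mul' := fun _ _ => rfl
      map_zero' := rfl
      map_add' := fun _ _ => rfl }
  letI : Algebra A K := φ.toAlgebra
  haveI : IsScalarTower A K F := IsScalarTower.of_algebraMap_eq (fun _ => rfl)
  have hinj : Function.Injective (algebraMap A K) := by
    intro a b hab
    have : (a : F) = b := congrArg (fun t : K => (t : F)) hab
    exact Subtype.ext this
  haveI : FaithfulSMul A K := (faithfulSMul_iff_algebraMap_injective A K).2 hinj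
  haveI : IsFractionRing A K := by
    refine IsFractionRing.of_field A K (fun z => ?_)
    obtain ⟨a, ha, b, hb, h⟩ := H138.exists_div_of_mem_baseField (R := R) x z.2
    exact ⟨⟨a, ha⟩, ⟨b, hb⟩, Subtype.ext h⟩
  haveI : CharZero K := (algebraMap K F).charZero
  haveI hfinA : Module.Finite A (integralClosure A F) :=
    IsIntegralClosure.finite A K F (integralClosure A F)
  haveI hic : IsIntegrallyClosed (integralClosure A F) :=
    integralClosure.isIntegrallyClosedOfFiniteExtension K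
  refine ⟨IsIntegrallyClosed.of_equiv (chartEquiv x), ?_⟩
  letI := chartAlgebra R x
  refine Module.Finite.of_equiv_equiv (A₁ := A) (B₁ := integralClosure A F)
    (polyEquivAdjoin hx).symm.toRingEquiv (chartEquiv x) ?_
  refine RingHom.ext (fun a => ?_)
  obtain ⟨p, rfl⟩ := (polyEquivAdjoin hx).surjective a
  apply Subtype.ext
  simp only [RingHom.comp_apply, RingHom.coe_coe,
    AlgEquiv.coe_ringEquiv, AlgEquiv.symm_apply_apply]
  change ((chartPolyHom R x p : H138.chart R ({x} : Set F)) : F) = _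
  rw [coe_chartPolyHom]
  rfl

end Package

section Coe

variable {R : Type u} [CommRing R] {F : Type v} [Field F] [Algebra R F]

/-- Divisibility by `w` in the chart, in terms of elements of `F`. -/
theorem algebraMap_dvd_chart_iff {x : F} (w : R) (z : H138.chart R ({x} : Set F)) :
    algebraMap R (H138.chart R ({x} : Set F)) w ∣ z ↔
      ∃ t ∈ H138.chart R ({x} : Set F), (z : F) = algebraMap R F w * t := by
  constructor
  · rintro ⟨t, rfl⟩
    exact ⟨t, t.2, rfl⟩
  · rintro ⟨t, ht, h⟩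
    exact ⟨⟨t, ht⟩, Subtype.ext h⟩

/-- Divisibility by `π(x)` in the chart, in terms of elements of `F`. -/
theorem chartPolyHom_dvd_chart_iff {x : F} (π : R[X]) (z : H138.chart R ({x} : Set F)) :
    chartPolyHom R x π ∣ z ↔
      ∃ t ∈ H138.chart R ({x} : Set F), (z : F) = aeval x π * t := by
  constructor
  · rintro ⟨t, rfl⟩
    exact ⟨t, t.2, by rw [Subalgebra.coe_mul, coe_chartPolyHom]⟩
  · rintro ⟨t, ht, h⟩
    exact ⟨⟨t, ht⟩, Subtype.ext (by rw [Subalgebra.coe_mul, coe_chartPolyHom]; exact h)⟩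

/-- Evaluation of a lifted polynomial, in terms of elements of `F`. -/
theorem coe_eval₂_chartPolyHom {x : F} (Q : R[X][X]) (b : H138.chart R ({x} : Set F)) :
    ((Q.eval₂ (chartPolyHom R x : R[X] →+* H138.chart R ({x} : Set F)) b :
      H138.chart R ({x} : Set F)) : F)
      = (Q.map (aeval x : R[X] →ₐ[R] F).toRingHom).eval (b : F) := by
  have h := Polynomial.hom_eval₂ Q (chartPolyHom R x : R[X] →+* H138.chart R ({x} : Set F))
    (H138.chart R ({x} : Set F)).val.toRingHom b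
  rw [eval_map]
  have hcomp : ((H138.chart R ({x} : Set F)).val.toRingHom.comp
      (chartPolyHom R x : R[X] →+* H138.chart R ({x} : Set F)))
      = (aeval x : R[X] →ₐ[R] F).toRingHom := by
    refine RingHom.ext (fun p => ?_)
    exact coe_chartPolyHom x p
  rw [hcomp] at h
  exact h

end Coe

section Main

variable {R : Type u} [CommRing R] [IsDomain R] [IsDiscreteValuationRing R]
  {F : Type v} [Field F] [CharZero F] [Algebra R F]

/-- **REG-CHART.**  `b2Regular` on the chart `H138.chart R {x}`: the special fibre of the chart is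
regular at every closed point. -/
theorem regularAlong_chart
    {x : F} (hx : Transcendental R x) [FiniteDimensional (H138.baseField R x) F]
    (w : R) (hw : Irreducible w)
    (hdom : Prime (algebraMap R (H138.chart R ({x} : Set F)) w))
    (hsep : ∀ b : H138.chart R ({x} : Set F), ∃ P : R[X][X],
        algebraMap R (H138.chart R ({x} : Set F)) w ∣
          P.eval₂ (chartPolyHom R x : R[X] →+* H138.chart R ({x} : Set F)) b ∧
        ¬ algebraMap R (H138.chart R ({x} : Set F)) w ∣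
          (derivative P).eval₂ (chartPolyHom R x : R[X] →+* H138.chart R ({x} : Set F)) b)
    (S : Finset R) (hS : ∀ c ∈ S, ∀ c' ∈ S, c ≠ c' → IsUnit (c - c'))
    (hNC : ∀ π : R[X], Prime π → ¬ Associated π (C w) → (∀ c ∈ S, ¬ Associated π (X - C c)) →
        (Ideal.span {chartPolyHom R x π}).IsRadical) :
    H754.RegularAlong (algebraMap R (H138.chart R ({x} : Set F)) w) := by
  classical
  haveI : CharZero R := (algebraMap R F).charZero
  obtain ⟨hic, hfin⟩ := chart_package (R := R) hx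
  letI := chartAlgebra R x
  haveI := hic
  haveI := hfin
  haveI : Module.IsTorsionFree R[X] (H138.chart R ({x} : Set F)) :=
    Module.isTorsionFree_iff_algebraMap_injective.2 (chartPolyHom_injective hx)
  have hCw : algebraMap R[X] (H138.chart R ({x} : Set F)) (C w)
      = algebraMap R (H138.chart R ({x} : Set F)) w := chartPolyHom_C x w
  have hdom' : Prime (algebraMap R[X] (H138.chart R ({x} : Set F)) (C w)) := by
    rw [hCw]; exact hdom
  have hsep' := H425.hsep_poly R w hw (H138.chart R ({x} : Set F)) hdom' (by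
    intro b
    obtain ⟨P, h1, h2⟩ := hsep b
    refine ⟨P, ?_, ?_⟩
    · rw [hCw]; exact h1
    · rw [hCw]; exact h2)
  have hreg := b2Regular.{u, v} R w hw (H138.chart R ({x} : Set F)) hdom' hsep' S hS hNC
  intro 𝔪 h𝔪 hw𝔪
  have := hreg 𝔪 h𝔪 (by rw [hCw]; exact hw𝔪)
  rwa [hCw] at this

/-- **REG-CHART, field form.**  Same as `regularAlong_chart`, with `hsep` and `hNC` stated by
elements of `F`:
* `hsep` : for every `b` in the chart there is a polynomial `P` with coefficients in `R[x]` with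
  `P(b) ∈ w B` and `P'(b) ∉ w B`;
* `hNC`  : for the primes `π` of `R[X]` away from `w` and the `X - c`, `c ∈ S`:
  `b ∈ B`, `b² ∈ π(x) B` ⟹ `b ∈ π(x) B`. -/
theorem regularAlong_chart_field
    {x : F} (hx : Transcendental R x) [FiniteDimensional (H138.baseField R x) F]
    (w : R) (hw : Irreducible w)
    (hdom : Prime (algebraMap R (H138.chart R ({x} : Set F)) w))
    (hsep : ∀ b ∈ H138.chart R ({x} : Set F), ∃ P : F[X],
        (∀ i, P.coeff i ∈ Algebra.adjoin R ({x} : Set F)) ∧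
        (∃ t ∈ H138.chart R ({x} : Set F), P.eval b = algebraMap R F w * t) ∧
        ¬ ∃ t ∈ H138.chart R ({x} : Set F), (derivative P).eval b = algebraMap R F w * t)
    (S : Finset R) (hS : ∀ c ∈ S, ∀ c' ∈ S, c ≠ c' → IsUnit (c - c'))
    (hNC : ∀ π : R[X], Prime π → ¬ Associated π (C w) → (∀ c ∈ S, ¬ Associated π (X - C c)) →
        ∀ b ∈ H138.chart R ({x} : Set F),
          (∃ t ∈ H138.chart R ({x} : Set F), b ^ 2 = aeval x π * t) →
          ∃ t ∈ H138.chart R ({x} : Set F), b = aeval x π * t) :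
    H754.RegularAlong (algebraMap R (H138.chart R ({x} : Set F)) w) := by
  refine regularAlong_chart hx w hw hdom ?_ S hS ?_
  · intro b
    obtain ⟨P, hP, h1, h2⟩ := hsep b b.2
    have hlift : P ∈ Polynomial.lifts (aeval x : R[X] →ₐ[R] F).toRingHom := by
      rw [Polynomial.lifts_iff_coeff_lifts]
      intro n
      have := hP n
      rw [Algebra.adjoin_singleton_eq_range_aeval] at this
      obtain ⟨q, hq⟩ := this
      exact ⟨q, hq⟩
    obtain ⟨Q, hQ⟩ := (Polynomial.mem_lifts P).1 hlift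
    refine ⟨Q, ?_, ?_⟩
    · rw [algebraMap_dvd_chart_iff, coe_eval₂_chartPolyHom, hQ]
      exact h1
    · rw [algebraMap_dvd_chart_iff, coe_eval₂_chartPolyHom, ← derivative_map, hQ]
      exact h2
  · intro π hπ h1 h2
    rw [Ideal.isRadical_iff_pow_one_lt 2 one_lt_two]
    intro r hr
    rw [Ideal.mem_span_singleton] at hr ⊢
    rw [chartPolyHom_dvd_chart_iff] at hr ⊢
    obtain ⟨t, ht, h⟩ := hr
    refine hNC π hπ h1 h2 r r.2 ⟨t, ht, ?_⟩
    rw [← h]
    rfl

omit [IsDomain R] [IsDiscreteValuationRing R] [CharZero F] in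
/-- The finiteness instance for the chart at infinity. -/
theorem finiteDimensional_baseField_inv (x : F) [h : FiniteDimensional (H138.baseField R x) F] :
    FiniteDimensional (H138.baseField R x⁻¹) F := by
  rw [H138.baseField_inv]
  exact h

/-- **REG-CHART at infinity** (field form): `regularAlong_chart_field` for the chart
`H138.chart R {x⁻¹}`, with the finiteness instance of the finite chart. -/
theorem regularAlong_chart_inv_field
    {x : F} (hx : Transcendental R x) [FiniteDimensional (H138.baseField R x) F]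
    (w : R) (hw : Irreducible w)
    (hdom : Prime (algebraMap R (H138.chart R ({x⁻¹} : Set F)) w))
    (hsep : ∀ b ∈ H138.chart R ({x⁻¹} : Set F), ∃ P : F[X],
        (∀ i, P.coeff i ∈ Algebra.adjoin R ({x⁻¹} : Set F)) ∧
        (∃ t ∈ H138.chart R ({x⁻¹} : Set F), P.eval b = algebraMap R F w * t) ∧
        ¬ ∃ t ∈ H138.chart R ({x⁻¹} : Set F), (derivative P).eval b = algebraMap R F w * t)
    (S : Finset R) (hS : ∀ c ∈ S, ∀ c' ∈ S, c ≠ c' → IsUnit (c - c'))
    (hNC : ∀ π : R[X], Prime π → ¬ Associated π (C w) → (∀ c ∈ S, ¬ Associated π (X - C c)) →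
        ∀ b ∈ H138.chart R ({x⁻¹} : Set F),
          (∃ t ∈ H138.chart R ({x⁻¹} : Set F), b ^ 2 = aeval x⁻¹ π * t) →
          ∃ t ∈ H138.chart R ({x⁻¹} : Set F), b = aeval x⁻¹ π * t) :
    H754.RegularAlong (algebraMap R (H138.chart R ({x⁻¹} : Set F)) w) := by
  haveI := finiteDimensional_baseField_inv (R := R) x
  exact regularAlong_chart_field (H138.transcendental_inv hx) w hw hdom hsep S hS hNC

end Main

end Fermat.Agent.S18.B12.H33

end
end
-- ===== PACK-END S18/B12/H33/RegChart.lean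

-- ===== PACK-BEGIN S18/H438/Front/Regular.lean
section




/-!
# S18 / ALG-FRONT (helper438), part 10: `H754.RegularAlong` on the chart of a good model

For `G : Alg.GoodModel Lc Ec Fc R V w x S`, `B := H138.chart (Rf Fc R) {xf G}`:

* `GoodModelFront.hsep_chart`  : elementwise separability (field form of
  `B12.H33.regularAlong_chart_field`), from `G.separable` and the `q`-expansion principle;
* `GoodModelFront.hNC_chart`   : `(span {π(x)}).IsRadical` for the primes `π` of `R[X]` not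
  associated to `w`, `X - c` (`c ∈ S`), from `G.unramified` via `H754.hNC_typed`;
* `GoodModelFront.regularAlong_chart` : `H754.RegularAlong (algebraMap R B w)`  (b2 on the chart).
-/

set_option autoImplicit false
set_option linter.style.haveILetI false
set_option linter.unusedSectionVars false

noncomputable section

namespace Fermat.Agent.S18.H438

open Alg Polynomial

variable {Ω : Type*} [Field Ω] {Lc Ec Fc : Subfield Ω} {R V : Subring Ω} {w x : Ω}
  {S : Finset Ω}

namespace GoodModelFront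

/-- the branch values, as a finite subset of the ring `R` -/
def SR (Fc : Subfield Ω) (R : Subring Ω) (S : Finset Ω) : Finset (Rf Fc R) :=
  S.preimage (fun r : Rf Fc R => ((r : Fc) : Ω))
    (fun _ _ _ _ h => Subtype.ext (Subtype.ext h))

theorem mem_SR {c : Rf Fc R} : c ∈ SR Fc R S ↔ ((c : Fc) : Ω) ∈ S := Finset.mem_preimage

variable (G : GoodModel Lc Ec Fc R V w x S)

include G in
theorem SR_isUnit_sub :
    ∀ c ∈ SR Fc R S, ∀ c' ∈ SR Fc R S, c ≠ c' → IsUnit (c - c') := by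
  intro c hc c' hc' hne
  rw [isUnit_subring_iff]
  have h1 : ((c : Fc) : Ω) ≠ ((c' : Fc) : Ω) := fun h => hne (Subtype.ext (Subtype.ext h))
  refine ⟨fun h => hne (sub_eq_zero.1 (Subtype.ext h)), ?_⟩
  exact G.S_distinct _ (mem_SR.1 hc) _ (mem_SR.1 hc') h1

/-- evaluation of polynomials over `Fc`, seen in `Ω` -/
theorem coe_eval_Fc (Q : Polynomial Fc) (b : Fc) :
    ((Q.eval b : Fc) : Ω) = (Q.map Fc.subtype).eval (b : Ω) := by
  rw [Polynomial.eval_map]
  exact (Polynomial.eval₂_at_apply Fc.subtype b).symm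

include G in
/-- **Elementwise separability of the special fibre of the chart** (field form). -/
theorem hsep_chart : ∀ b ∈ H138.chart (Rf Fc R) ({xf G} : Set Fc), ∃ P : Polynomial Fc,
    (∀ i, P.coeff i ∈ Algebra.adjoin (Rf Fc R) ({xf G} : Set Fc)) ∧
    (∃ t ∈ H138.chart (Rf Fc R) ({xf G} : Set Fc),
      P.eval b = algebraMap (Rf Fc R) Fc (wR G) * t) ∧
    ¬ ∃ t ∈ H138.chart (Rf Fc R) ({xf G} : Set Fc),
      (derivative P).eval b = algebraMap (Rf Fc R) Fc (wR G) * t := by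
  intro b hb
  have hb' : b ∈ chartRing (Rf Fc R) (xf G) := hb
  have hbV : b ∈ Vf G :=
    chartRing_le_valuationSubring (Rf Fc R) (xf G) (Vf G) (Rf_le_Vf G) (xf_mem_Vf G) hb'
  obtain ⟨P₀, hc, h1, h2, h3⟩ := G.separable (b : Ω) hbV
  have hRF : ∀ r ∈ R, r ∈ Fc := fun r hr => R_le_Fc G hr
  -- lift `P₀` to `Fc[X]`
  have hlift : P₀ ∈ Polynomial.lifts Fc.subtype := by
    rw [Polynomial.lifts_iff_coeff_lifts]
    intro n
    obtain ⟨a, -, h⟩ := exists_mem_baseRing_of_mem_polyRing Fc R (xf G) hRF (hc n)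
    exact ⟨a, h⟩
  obtain ⟨P, hP⟩ := (Polynomial.mem_lifts _).1 hlift
  have hcoe : ∀ i, ((P.coeff i : Fc) : Ω) = P₀.coeff i := fun i => by
    rw [← hP, Polynomial.coeff_map]; rfl
  have hcoeff : ∀ i, P.coeff i ∈ baseRing (Rf Fc R) (xf G) := fun i =>
    (mem_baseRing_iff Fc R (xf G) hRF).2 (by rw [hcoe]; exact hc i)
  have hw0 : wf G ≠ 0 := wf_ne_zero G
  -- values of polynomials with coefficients in `R[x]` at `b` lie in the chart
  have hmem : ∀ Q : Polynomial Fc, (∀ i, Q.coeff i ∈ baseRing (Rf Fc R) (xf G)) →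
      Q.eval b ∈ chartRing (Rf Fc R) (xf G) := by
    intro Q hQ
    rw [Polynomial.eval_eq_sum_range]
    refine Subalgebra.sum_mem _ fun i _ => ?_
    exact Subalgebra.mul_mem _
      ((chartRing (Rf Fc R) (xf G)).algebraMap_mem ⟨Q.coeff i, hQ i⟩)
      (Subalgebra.pow_mem _ hb' i)
  refine ⟨P, hcoeff, ?_, ?_⟩
  · refine ⟨P.eval b * (wf G)⁻¹, ?_, ?_⟩
    · refine qep_fin' G _ (hmem P hcoeff) ?_
      show ((P.eval b : Fc) : Ω) * w⁻¹ ∈ V
      rw [coe_eval_Fc, hP]
      exact h1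
    · show P.eval b = wf G * (P.eval b * (wf G)⁻¹)
      field_simp
  · rintro ⟨t, ht, h⟩
    have htV : t ∈ Vf G :=
      chartRing_le_valuationSubring (Rf Fc R) (xf G) (Vf G) (Rf_le_Vf G) (xf_mem_Vf G) ht
    have hd : (((derivative P).eval b : Fc) : Ω) = (derivative P₀).eval (b : Ω) := by
      rw [coe_eval_Fc, ← Polynomial.derivative_map, hP]
    have h' : (derivative P₀).eval (b : Ω) = w * (t : Ω) := by
      rw [← hd, h]; rfl
    have hw0' : w ≠ 0 := G.w_ne_zero
    have ht0 : (t : Ω) ≠ 0 := by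
      intro ht0
      rw [ht0, mul_zero] at h'
      exact h2 h'
    apply G.w_inv_not_mem_V
    have : w⁻¹ = (t : Ω) * ((derivative P₀).eval (b : Ω))⁻¹ := by
      rw [h']
      field_simp
    rw [this]
    exact V.mul_mem htV h3

include G in
/-- every element of `Lc` is algebraic over the ring `R` -/
theorem exists_poly_of_mem_Lc (a : Ω) (ha : a ∈ Lc) :
    ∃ p : Polynomial (Rf Fc R), p ≠ 0 ∧
      Polynomial.eval₂ (Fc.subtype.comp (Rf Fc R).subtype) a p = 0 := by
  have halg : IsAlgebraic Ec a := G.L_algebraic a ha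
  letI : Algebra (Re G) Ω := ((algebraMap Ec Ω).comp (algebraMap (Re G) Ec)).toAlgebra
  haveI : IsScalarTower (Re G) Ec Ω := IsScalarTower.of_algebraMap_eq (fun _ => rfl)
  obtain ⟨q, hq0, hq⟩ := (IsFractionRing.isAlgebraic_iff (Re G) Ec Ω).2 halg
  let j : Re G →+* Rf Fc R :=
    { toFun := fun e => ⟨⟨((e : Ec) : Ω), G.E_le_F (e : Ec).2⟩, e.2⟩
      map_one' := rfl
      map_mul' := fun _ _ => rfl
      map_zero' := rfl
      map_add' := fun _ _ => rfl }
  have hj : Function.Injective j := fun a b h =>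
    Subtype.ext (Subtype.ext (congrArg (fun t : Rf Fc R => ((t : Fc) : Ω)) h))
  refine ⟨q.map j, (Polynomial.map_ne_zero_iff hj).2 hq0, ?_⟩
  rw [Polynomial.eval₂_map]
  rw [Polynomial.aeval_def] at hq
  exact hq

include G in
/-- **hNC on the chart**: for every prime `π` of `R[X]` not associated to `w` or to `X - c`,
`c ∈ S`, the ideal `π(x) B` is radical. -/
theorem hNC_chart :
    ∀ π : Polynomial (Rf Fc R), Prime π → ¬ Associated π (C (wR G)) →
      (∀ c ∈ SR Fc R S, ¬ Associated π (X - C c)) →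
      (Ideal.span {(B12.H33.chartPolyHom (Rf Fc R) (xf G) π :
        H138.chart (Rf Fc R) ({xf G} : Set Fc))}).IsRadical := by
  haveI := charZero_Fc G
  haveI := isDiscreteValuationRing_Rf G
  haveI := finiteDimensional_baseField G
  haveI : CharZero (Rf Fc R) := RingHom.charZero (Rf Fc R).subtype
  have hx := transcendental_xf G
  obtain ⟨hic, hfin⟩ := B12.H33.chart_package (R := Rf Fc R) hx
  letI := B12.H33.chartAlgebra (Rf Fc R) (xf G)
  haveI := hic
  haveI := hfin
  haveI : Module.IsTorsionFree (Polynomial (Rf Fc R)) (H138.chart (Rf Fc R) ({xf G} : Set Fc)) :=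
    Module.isTorsionFree_iff_algebraMap_injective.2 (B12.H33.chartPolyHom_injective hx)
  haveI : FaithfulSMul (H138.chart (Rf Fc R) ({xf G} : Set Fc)) Ω :=
    (faithfulSMul_iff_algebraMap_injective (H138.chart (Rf Fc R) ({xf G} : Set Fc)) Ω).2
      (fun a b h => Subtype.ext (Subtype.ext h))
  have hC : ∀ r : Rf Fc R,
      algebraMap (H138.chart (Rf Fc R) ({xf G} : Set Fc)) Ω
        (algebraMap (Polynomial (Rf Fc R)) (H138.chart (Rf Fc R) ({xf G} : Set Fc)) (C r)) =
        ((r : Fc) : Ω) := by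
    intro r
    show ((B12.H33.chartPolyHom (Rf Fc R) (xf G) (C r) : H138.chart (Rf Fc R) ({xf G} : Set Fc)) :
      Fc).1 = _
    rw [B12.H33.coe_chartPolyHom, Polynomial.aeval_C]
    rfl
  have hX : algebraMap (H138.chart (Rf Fc R) ({xf G} : Set Fc)) Ω
        (algebraMap (Polynomial (Rf Fc R)) (H138.chart (Rf Fc R) ({xf G} : Set Fc)) X) = x := by
    show ((B12.H33.chartPolyHom (Rf Fc R) (xf G) X : H138.chart (Rf Fc R) ({xf G} : Set Fc)) :
      Fc).1 = _
    rw [B12.H33.coe_chartPolyHom, Polynomial.aeval_X]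
    rfl
  have hwB : Prime (algebraMap (Polynomial (Rf Fc R)) (H138.chart (Rf Fc R) ({xf G} : Set Fc))
      (C (wR G))) := by
    show Prime (B12.H33.chartPolyHom (Rf Fc R) (xf G) (C (wR G)))
    rw [B12.H33.chartPolyHom_C]
    exact prime_chart G
  refine H754.hNC_typed (Rf Fc R) (H138.chart (Rf Fc R) ({xf G} : Set Fc)) (Ω := Ω) (wR G)
    (irreducible_wf G) hwB Lc G.L_algClosed ?_ ?_ (SR Fc R S) S ?_ ?_
  · intro r
    rw [hC]
    exact G.E_le_L (G.R_le r.2)
  · intro a ha
    obtain ⟨p, hp0, hp⟩ := exists_poly_of_mem_Lc G a ha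
    refine ⟨p, hp0, ?_⟩
    have hhom : ((algebraMap (H138.chart (Rf Fc R) ({xf G} : Set Fc)) Ω).comp
        ((algebraMap (Polynomial (Rf Fc R)) (H138.chart (Rf Fc R) ({xf G} : Set Fc))).comp C)) =
        Fc.subtype.comp (Rf Fc R).subtype := RingHom.ext fun r => hC r
    rw [hhom]
    exact hp
  · intro c hc
    refine ⟨⟨⟨c, R_le_Fc G (G.S_mem c hc)⟩, G.S_mem c hc⟩, mem_SR.2 hc, ?_⟩
    rw [hC]
  · rw [hX]
    exact G.unramified

include G in
/-- **b2 on the chart of a good model**: the chart is regular along `w`. -/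
theorem regularAlong_chart :
    H754.RegularAlong
      (algebraMap (Rf Fc R) (H138.chart (Rf Fc R) ({xf G} : Set Fc)) (wR G)) := by
  haveI := charZero_Fc G
  haveI := isDiscreteValuationRing_Rf G
  haveI := finiteDimensional_baseField G
  refine B12.H33.regularAlong_chart_field (transcendental_xf G) (wR G) (irreducible_wf G)
    (prime_chart G) (hsep_chart G) (SR Fc R S) (SR_isUnit_sub G) ?_
  intro π hπ hπw hπS b hb hb2
  have hrad := hNC_chart G π hπ hπw hπS
  have h1 : (⟨b, hb⟩ : H138.chart (Rf Fc R) ({xf G} : Set Fc)) ^ 2 ∈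
      Ideal.span {(B12.H33.chartPolyHom (Rf Fc R) (xf G) π :
        H138.chart (Rf Fc R) ({xf G} : Set Fc))} := by
    rw [Ideal.mem_span_singleton, B12.H33.chartPolyHom_dvd_chart_iff]
    obtain ⟨t, ht, h⟩ := hb2
    exact ⟨t, ht, h⟩
  have h2 := hrad (Ideal.mem_radical_iff.2 ⟨2, h1⟩)
  rw [Ideal.mem_span_singleton, B12.H33.chartPolyHom_dvd_chart_iff] at h2
  exact h2

end GoodModelFront

end Fermat.Agent.S18.H438

end
end
-- ===== PACK-END S18/H438/Front/Regular.lean

-- ===== PACK-BEGIN S18/H438/Front/AlgMain.lean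
section




/-!
# S18 / node_alg (helper438): `Alg.AlgMainStatement` (v4, prime `m`)

    theorem algMain (Lc x S 𝓕) : Alg.AlgMainStatement Lc x S 𝓕

Wiring: for a member `(Ec, Fc, R, V, w)` of the good family, `G : Alg.GoodModel …`,
`R' := Rf Fc R`, `x' := xf G`, charts `B₀ = H138.chart R' {x'}`, `B₁ = H138.chart R' {x'⁻¹}`:

* `H394.kummer_charts_of_regular` (typed core: LE + graded Kummer algebra + b5) needs on both
  charts: `Prime w`, `H754.RegularAlong w`, `H754.OneModPi w u`, `H754.DivisibleDivisor B m u`;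
* these are `GoodModelFront.prime_chart`, `regularAlong_chart` (b2 = `B12.H33`, hNC = `H754`),
  `oneModPi_chart`, `divisibleDivisor_chart` (places = `H845`), applied to `G` and to
  `H425.goodModel_inv G`.
-/

set_option autoImplicit false
set_option linter.style.haveILetI false
set_option linter.unusedSectionVars false

noncomputable section

namespace Fermat.Agent.S18.H438

open Alg Polynomial

variable {Ω : Type*} [Field Ω] {Lc Ec Fc : Subfield Ω} {R V : Subring Ω} {w x : Ω}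
  {S : Finset Ω}

namespace GoodModelFront

/-- **node_alg for one good model** (no enlargement of constants is needed). -/
theorem algMain_of_goodModel (G : GoodModel Lc Ec Fc R V w x S)
    (m : ℕ) (hm : m.Prime) (hmR : ((m : Ω))⁻¹ ∈ R)
    (u : Ω) (huF : u ∈ Fc) (hu0 : u ≠ 0) (hu1 : (u - 1) * w⁻¹ ∈ V)
    (hdiv : ∀ O : ValuationSubring Ω, (∀ a ∈ Lc, a ∈ O) →
      ∃ t : Ω, t ≠ 0 ∧ u * t ^ m ∈ O ∧ (u * t ^ m)⁻¹ ∈ O) :
    ∃ y : Ω, ∃ c ∈ Lc, c ≠ 0 ∧ u = c * y ^ m := by
  classical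
  haveI := G.charZero
  haveI := charZero_Fc G
  haveI := isDiscreteValuationRing_Rf G
  haveI := finiteDimensional_baseField G
  have G' := H425.goodModel_inv G
  have hxinv : xf G' = (xf G)⁻¹ := rfl
  have hwR : wR G' = wR G := rfl
  -- the data in `Fc`
  set u' : Fc := ⟨u, huF⟩ with hu'
  have hu'0 : u' ≠ 0 := fun h => hu0 (congrArg Subtype.val h)
  have hm0 : (m : Ω) ≠ 0 := Nat.cast_ne_zero.2 hm.ne_zero
  let ν : Rf Fc R := ⟨⟨(m : Ω)⁻¹, R_le_Fc G hmR⟩, hmR⟩
  have hν : ν * (m : Rf Fc R) = 1 := by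
    apply Subtype.ext
    apply Subtype.ext
    show (m : Ω)⁻¹ * (((m : Rf Fc R) : Fc) : Ω) = 1
    have : ((((m : Rf Fc R) : Fc) : Ω)) = (m : Ω) := by
      simp
    rw [this, inv_mul_cancel₀ hm0]
  have hinjR : Function.Injective (algebraMap (Rf Fc R) Fc) := Subtype.val_injective
  -- both charts
  have hw₁ : Prime (algebraMap (Rf Fc R) (H138.chart (Rf Fc R) ({(xf G)⁻¹} : Set Fc)) (wR G)) :=
    prime_chart G'
  have hreg₁ : H754.RegularAlong
      (algebraMap (Rf Fc R) (H138.chart (Rf Fc R) ({(xf G)⁻¹} : Set Fc)) (wR G)) :=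
    regularAlong_chart G'
  have hu₁ : H754.OneModPi
      (algebraMap (Rf Fc R) (H138.chart (Rf Fc R) ({(xf G)⁻¹} : Set Fc)) (wR G)) u' :=
    oneModPi_chart G' hu1
  have hdiv₁ : H754.DivisibleDivisor (H138.chart (Rf Fc R) ({(xf G)⁻¹} : Set Fc)) m u' :=
    divisibleDivisor_chart G' hu1 hdiv
  obtain ⟨r, a, y, hr, h⟩ := H394.kummer_charts_of_regular hinjR (isIntegral_Rf_mem_range G)
    (transcendental_xf G) (wR G) m hm ν hν u' hu'0
    (prime_chart G) hw₁ (regularAlong_chart G) hreg₁ (oneModPi_chart G hu1) hu₁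
    (divisibleDivisor_chart G hu1 hdiv) hdiv₁
  have hrΩ : ((r : Fc) : Ω) ≠ 0 := fun h0 => hr (Subtype.ext (Subtype.ext h0))
  refine ⟨(y : Ω), ((r : Fc) : Ω) ^ a, ?_, zpow_ne_zero _ hrΩ, ?_⟩
  · exact Lc.zpow_mem (G.E_le_L (G.R_le r.2)) a
  · have h2 : u = ((algebraMap (Rf Fc R) Fc r ^ a * y ^ m : Fc) : Ω) :=
      congrArg (fun t : Fc => (t : Ω)) h
    have h3 : ((algebraMap (Rf Fc R) Fc r ^ a * y ^ m : Fc) : Ω) =
        ((r : Fc) : Ω) ^ a * (y : Ω) ^ m := by
      have h4 : Fc.subtype (algebraMap (Rf Fc R) Fc r ^ a) = ((r : Fc) : Ω) ^ a :=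
        map_zpow₀ Fc.subtype _ a
      show Fc.subtype (algebraMap (Rf Fc R) Fc r ^ a * y ^ m) = _
      rw [map_mul, map_pow, h4]
      rfl
    exact h2.trans h3

end GoodModelFront

/-- **node_alg**: the ALG main statement (v4, prime `m`), for every good family. -/
theorem algMain (Lc : Subfield Ω) (x : Ω) (S : Finset Ω) (𝓕 : Set (Model Ω)) :
    AlgMainStatement Lc x S 𝓕 := by
  intro hfam p hp m hm hmR u huF hu0 hu1 hdiv
  exact GoodModelFront.algMain_of_goodModel (hfam.good p hp) m hm hmR u huF hu0 hu1 hdiv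

end Fermat.Agent.S18.H438

end
end
-- ===== PACK-END S18/H438/Front/AlgMain.lean

-- ===== PACK-BEGIN S18/H438/NodeAlg.lean
section



/-!
# S18 / NODE ALG (helper438): `Mod.AlgStatement M`

Exact type of `Integ.node_alg` (skeleton v4 of row-lead helper18):

    theorem node_alg (M : ℕ) : Mod.AlgStatement M

It is the instance `Ω = Om M` of `H438.algMain : Alg.AlgMainStatement Lc x S 𝓕`
(`Front/AlgMain.lean`), which holds for every field `Ω` and every good family.
-/

set_option autoImplicit false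

namespace Fermat.Agent.S18.H438

/-- **NODE ALG.** -/
theorem node_alg (M : ℕ) : Mod.AlgStatement M :=
  fun Lc x S 𝓕 => algMain Lc x S 𝓕

end Fermat.Agent.S18.H438

end
-- ===== PACK-END S18/H438/NodeAlg.lean

-- ===== PACK-BEGIN S35/H991/Ready.lean
section
/-
S35 (row-lead helper991): THE FINAL CHAIN.  The frozen statement S35 from ONE open input,

  `Fermat.Agent.S35.H891.QNewFrobStatement`   (cell FROB / (G'), cubic relation on `q`-new torsion).

Everything else is discharged from main: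
* top + mid glue: `S35.H891.result_of_qNew` (helper891, on top of `S35/H991/Glue`);
* (X): `S35.H252.exclTate` (helper252);
* `hlat`: `S30.H42.tateLattice` (helper42);
* `hfin`, `hsm`, `hgeq`, `hunr`, `hes`: row S30 (`H330.finStatement`, `H990.smoothStatement`,
  `S29.H571.heckeOperatorBar_smul`, `H330.torsionRelations_of_coreFamily` with the two S18 nodes).

`Fermat/Agent/S35.lean` is `result_of_qnf <proof of QNewFrobStatement> hg lam S O' …`.
-/









set_option autoImplicit false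
set_option linter.overlappingInstances false

namespace Fermat.Agent.S35.H991

open Polynomial ModularCurve

/-- The S18 hub, from the two nodes on main. -/
theorem coreFamily_ready : Fermat.Agent.S29.H222.CoreFamily :=
  Fermat.Agent.S18.H694.coreFamily_of_nodes
    (fun M _ _ _ hℓM A hA => Fermat.Agent.S18.Mod.H216.node_mod M hℓM A hA)
    (fun M => Fermat.Agent.S18.H438.node_alg M)

theorem intPow_smul_eq_zero_iff {J : Type*} [AddCommGroup J] (p n : ℕ) (x : J) :
    ((p : ℤ) ^ n) • x = 0 ↔ p ^ n • x = 0 := by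
  rw [← Nat.cast_pow, natCast_zsmul]

/-- Input `hfin`. -/
theorem hfin_ready : ∀ (N p : ℕ) [NeZero N], p.Prime →
    Finite {x : JZero N // (p : ℤ) • x = 0} := by
  intro N p _ hp
  have hp0 : NeZero p := ⟨hp.ne_zero⟩
  have h : {x : JZero N | p • x = 0}.Finite := Fermat.Agent.S30.H330.finStatement N p
  have h3 : {x : JZero N | (p : ℤ) • x = 0}.Finite := by
    refine h.subset ?_
    intro x hx
    have hx' : (p : ℤ) • x = 0 := hx
    show p • x = 0
    rwa [natCast_zsmul] at hx'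
  exact Set.finite_coe_iff.mpr h3

/-- Input `hsm`. -/
theorem hsm_ready : ∀ (N p : ℕ) [NeZero N], ∀ x : JZero N,
    (∃ n : ℕ, ((p : ℤ) ^ n) • x = 0) →
      ∃ L : IntermediateField ℚ (AlgebraicClosure ℚ), FiniteDimensional ℚ L ∧
        ∀ σ : S30.H990.GQ, (∀ y ∈ L, σ y = y) → σ • x = x :=
  fun N _ _ x _ => Fermat.Agent.S30.H990.smoothStatement N x

/-- Input `hgeq`. -/
theorem hgeq_ready : ∀ (N : ℕ) [NeZero N] (ℓ : Nat.Primes) (σ : S30.H990.GQ) (x : JZero N),
    heckeOperatorBar N ℓ (σ • x) = σ • heckeOperatorBar N ℓ x :=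
  fun N _ ℓ σ x => Fermat.Agent.S29.H571.heckeOperatorBar_smul N ℓ σ x

/-- Input `hunr`. -/
theorem hunr_ready : ∀ (N p : ℕ) [NeZero N], ∀ q : ℕ, q.Prime → ¬ q ∣ N * p →
    ∀ A : ValuationSubring (AlgebraicClosure ℚ), A.LiesOverPrime q →
      ∀ σ ∈ A.inertiaSubgroupIn ℚ, ∀ x : JZero N,
        (∃ n : ℕ, ((p : ℤ) ^ n) • x = 0) → σ • x = x := by
  intro N p _ q hq hdvd A hA σ hσ x hx
  obtain ⟨n, hn⟩ := hx
  exact (Fermat.Agent.S30.H330.torsionRelations_of_coreFamily coreFamily_ready N p q hq hdvd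
    A hA).1 σ hσ x ⟨n, (intPow_smul_eq_zero_iff p n x).1 hn⟩

/-- Input `hes`. -/
theorem hes_ready : ∀ (N p : ℕ) [NeZero N], ∀ (ℓ : ℕ) (hℓ : ℓ.Prime), ¬ ℓ ∣ N * p →
    ∀ A : ValuationSubring (AlgebraicClosure ℚ), A.LiesOverPrime ℓ →
      ∀ σ : S30.H990.GQ, A.IsFrobeniusAt σ ℓ → ∀ x : JZero N,
        (∃ n : ℕ, ((p : ℤ) ^ n) • x = 0) →
          σ • σ • x - heckeOperatorBar N ⟨ℓ, hℓ⟩ (σ • x) + (ℓ : ℤ) • x = 0 := by
  intro N p _ ℓ hℓ hdvd A hA σ hσ x hx
  obtain ⟨n, hn⟩ := hx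
  have h := (Fermat.Agent.S30.H330.torsionRelations_of_coreFamily coreFamily_ready N p ℓ hℓ hdvd
    A hA).2 σ hσ x ⟨n, (intPow_smul_eq_zero_iff p n x).1 hn⟩
  rw [natCast_zsmul]
  exact h

/-- **THE FINAL CHAIN of row S35**: the frozen statement S35 from `QNewFrobStatement` alone. -/
theorem result_of_qnf (hQ : Fermat.Agent.S35.H891.QNewFrobStatement)
    {M : ℕ} [NeZero M] {g : CuspForm (CongruenceSubgroup.Gamma0 M) 2} (hg : g.IsNewform)
    (lam : ℕ) [Fact lam.Prime]
    (S : Finset ℕ)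
    (O' : Type) [CommRing O'] [IsDomain O'] [IsDiscreteValuationRing O']
    [IsAdicComplete (IsLocalRing.maximalIdeal O') O'] [Finite (IsLocalRing.ResidueField O')]
    [CharZero O'] (hlamO' : (lam : O') ∈ IsLocalRing.maximalIdeal O')
    (chig : CuspForm.heckeAlgebra M 2 (↑S : Set ℕ) →+* ℂ)
    (hchig : ∀ (ℓ : ℕ) (hℓ : ℓ.Prime) (hℓM : ¬ ℓ ∣ M) (hℓS : ℓ ∉ (↑S : Set ℕ)),
      chig (CuspForm.heckeAlgebra.T hℓ hℓM hℓS) = ModularFormClass.qCoeff g ℓ)
    (iota : chig.range →+* O')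
    (hlamS : lam ∈ S) (hMS : ∀ q : ℕ, q.Prime → q ∣ M → q ∈ S) :
    ∃ (O'' : Type) (_ : CommRing O'') (_ : IsDomain O'') (_ : IsDiscreteValuationRing O'')
      (_ : IsAdicComplete (IsLocalRing.maximalIdeal O'') O'') (_ : Finite (IsLocalRing.ResidueField O''))
      (_ : CharZero O'') (_ : Algebra O' O'') (_ : Module.Finite O' O'') (_ : IsLocalHom (algebraMap O' O'')),
      Function.Injective (algebraMap O' O'') ∧
      ∃ ρ : GaloisRepAdic O'',
        (∀ (ℓ : ℕ) (hℓ : ℓ.Prime) (hℓM : ¬ ℓ ∣ M) (hℓS : ℓ ∉ (↑S : Set ℕ)),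
          ∀ A : ValuationSubring (AlgebraicClosure ℚ), A.LiesOverPrime ℓ →
            ∀ σ : AlgebraicClosure ℚ ≃ₐ[ℚ] AlgebraicClosure ℚ, A.IsFrobeniusAt σ ℓ →
              LinearMap.charpoly (ρ.ρ σ) =
                X ^ 2 - C (algebraMap O' O'' ((iota.comp chig.rangeRestrict) (CuspForm.heckeAlgebra.T hℓ hℓM hℓS))) * X
                  + C ((ℓ : O''))) ∧
        (∀ q : ℕ, q.Prime → q ≠ lam → q ∣ M → ¬ q ^ 2 ∣ M →
          ∀ A : ValuationSubring (AlgebraicClosure ℚ), A.LiesOverPrime q →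
            ∀ σ : AlgebraicClosure ℚ ≃ₐ[ℚ] AlgebraicClosure ℚ, A.IsFrobeniusAt σ q →
              LinearMap.charpoly (ρ.ρ σ) = X ^ 2 - C ((q : O'') + 1) * X + C ((q : O'')) ∨
              LinearMap.charpoly (ρ.ρ σ) = X ^ 2 + C ((q : O'') + 1) * X + C ((q : O''))) :=
  Fermat.Agent.S35.H891.result_of_qNew hfin_ready hsm_ready hgeq_ready hunr_ready hes_ready
    Fermat.Agent.S30.H42.tateLattice hQ Fermat.Agent.S35.H252.exclTate
    hg lam S O' hlamO' chig hchig iota hlamS hMS

end Fermat.Agent.S35.H991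

end
-- ===== PACK-END S35/H991/Ready.lean

-- ===== PACK-BEGIN S35/H433/ResField.lean
section


/-!
# S35 / (G) — closed points of the special fibre of a chart have residue field `R / w` (helper433)

`exists_const_sub_mem` : `R` a discrete valuation ring with algebraically closed residue field,
`B` a chart (integral closure of `R[x]` in `F`), `n` a maximal ideal of `B` containing `w`.  Then
every `b ∈ B` is congruent modulo `n` to a constant `r ∈ R`.
-/

set_option autoImplicit false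

namespace Fermat.Agent.S35.H433

open Polynomial Fermat.Agent.A2 Fermat.Agent.A2.Alg

/-- A field `κ` which is integral over `k[X]` (`k` algebraically closed) via a ring homomorphism
`ψ` is equal to the image of `k`. -/
theorem surjective_of_isIntegral_polynomial {k κ : Type*} [Field k] [IsAlgClosed k] [Field κ]
    (ψ : k[X] →+* κ) (hψ : ψ.IsIntegral) : Function.Surjective (ψ.comp C) := by
  have hmax : ((⊥ : Ideal κ).comap ψ).IsMaximal :=
    Ideal.isMaximal_comap_of_isIntegral_of_isMaximal' ψ hψ ⊥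
  set P : Ideal k[X] := (⊥ : Ideal κ).comap ψ with hP
  have h₁ : ((Ideal.Quotient.mk P).comp C).IsIntegral :=
    Polynomial.quotient_mk_comp_C_isIntegral_of_isJacobsonRing P
  let ψb : k[X] ⧸ P →+* κ := Ideal.Quotient.lift P ψ (fun a ha => by
    rw [hP, Ideal.mem_comap, Ideal.mem_bot] at ha
    exact ha)
  have hcomp : ψb.comp (Ideal.Quotient.mk P) = ψ := by
    ext <;> simp [ψb]
  have h₂ : ψb.IsIntegral := by
    apply RingHom.IsIntegral.tower_top (Ideal.Quotient.mk P) ψb
    rw [hcomp]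
    exact hψ
  have h₃ : (ψ.comp C).IsIntegral := by
    have : ψ.comp C = ψb.comp ((Ideal.Quotient.mk P).comp C) := by
      rw [← RingHom.comp_assoc, hcomp]
    rw [this]
    exact RingHom.IsIntegral.trans _ _ h₁ h₂
  exact (IsAlgClosed.ringHom_bijective_of_isIntegral (ψ.comp C) h₃).2

variable {R E F : Type*} [CommRing R] [IsDomain R] [IsDiscreteValuationRing R]
  [IsAlgClosed (IsLocalRing.ResidueField R)]
  [Field E] [Algebra R E] [Field F] [Algebra E F] [Algebra R F]

/-- **Residue fields of closed points.** -/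
theorem exists_const_sub_mem (w : R) (x : F) (B : Subalgebra R F) (hB : ChartCtx E w x B)
    (n : Ideal B) (hn : n.IsMaximal) (hwn : algebraMap R B w ∈ n) (b : B) :
    ∃ r : R, b - algebraMap R B r ∈ n := by
  let _ : Field (B ⧸ n) := Ideal.Quotient.field n
  let xB : B := ⟨x, H609.self_mem_chart x B hB.hB⟩
  let f : R →+* B ⧸ n := (Ideal.Quotient.mk n).comp (algebraMap R B)
  have hker : ∀ a ∈ IsLocalRing.maximalIdeal R, f a = 0 := by
    intro a ha
    rw [hB.hw.maximalIdeal_eq, Ideal.mem_span_singleton] at ha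
    obtain ⟨t, rfl⟩ := ha
    show Ideal.Quotient.mk n (algebraMap R B (w * t)) = 0
    rw [Ideal.Quotient.eq_zero_iff_mem, map_mul]
    exact n.mul_mem_right _ hwn
  let g : IsLocalRing.ResidueField R →+* B ⧸ n :=
    Ideal.Quotient.lift (IsLocalRing.maximalIdeal R) f hker
  have hg : ∀ r : R, g (IsLocalRing.residue R r) = f r := fun r => rfl
  let ψ : (IsLocalRing.ResidueField R)[X] →+* B ⧸ n :=
    Polynomial.eval₂RingHom g (Ideal.Quotient.mk n xB)
  let φ₀ : R[X] →+* B ⧸ n := (Ideal.Quotient.mk n).comp (aeval (R := R) xB).toRingHom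
  have hφ₀ : φ₀.IsIntegral :=
    RingHom.IsIntegral.trans _ _ (H609.isIntegral_aeval_chart x B hB.hB)
      (RingHom.isIntegral_of_surjective _ Ideal.Quotient.mk_surjective)
  have hcomp : ψ.comp (Polynomial.mapRingHom (IsLocalRing.residue R)) = φ₀ := by
    refine Polynomial.ringHom_ext (fun r => ?_) ?_
    · simp only [RingHom.comp_apply, Polynomial.coe_mapRingHom, Polynomial.map_C, ψ, φ₀,
        Polynomial.coe_eval₂RingHom, Polynomial.eval₂_C, hg, f, AlgHom.toRingHom_eq_coe,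
        RingHom.coe_coe, aeval_C]
    · simp only [RingHom.comp_apply, Polynomial.coe_mapRingHom, Polynomial.map_X, ψ, φ₀,
        Polynomial.coe_eval₂RingHom, Polynomial.eval₂_X, AlgHom.toRingHom_eq_coe,
        RingHom.coe_coe, aeval_X]
  have hψ : ψ.IsIntegral := by
    apply RingHom.IsIntegral.tower_top (Polynomial.mapRingHom (IsLocalRing.residue R)) ψ
    rw [hcomp]
    exact hφ₀
  obtain ⟨c, hc⟩ := surjective_of_isIntegral_polynomial ψ hψ (Ideal.Quotient.mk n b)
  obtain ⟨r, rfl⟩ := IsLocalRing.residue_surjective c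
  refine ⟨r, ?_⟩
  rw [← Ideal.Quotient.eq_zero_iff_mem, map_sub, sub_eq_zero, ← hc]
  simp only [RingHom.comp_apply, ψ, Polynomial.coe_eval₂RingHom, Polynomial.eval₂_C, hg, f]

end Fermat.Agent.S35.H433

end
-- ===== PACK-END S35/H433/ResField.lean

-- ===== PACK-BEGIN A2/Alg/H348/ChartComp.lean
section




/-!
# A2 / ALG / GLUE, `hconst` part, step 2: the components of a chart give discrete valuation rings

In the setting of `Alg/Spec.lean` (`ChartCtx E w x B`, `c : SSChart w B`): the hypotheses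
`CompData` of `CompDvr.lean` hold for `A = R[x]`, `B`, `p = c.p₁`, `p' = c.p₂` (and symmetrically),
hence `B_{p_i}` is a discrete valuation ring of `F` with uniformiser `w`
(`compData₁`, `compData₂`).

Reusable pieces:
* `chart_eq`                 : `B = H138.chart R {x}`;
* `injective_algebraMap_RF`, `transcendental_R`, `prime_w`;
* `isAlgebraic_adjoin`       : `F` is algebraic over `R[x]` (from `hfin`);
* `exists_mul_mem_chart`     : `F = Frac B`, denominators in `R[x]`;
* `contract_of_inf`          : `p ∩ R[x] = w R[x]` (torsion-freeness of `B / w B` over `k[x]`,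
                               `H729.mem_chart_of_mul_mem`).
-/

set_option autoImplicit false
set_option linter.unusedSectionVars false
set_option linter.style.haveILetI false

open Polynomial

namespace Fermat.Agent.A2.Alg.H348

open Fermat.Agent.A2 Fermat.Agent.A2.Alg Fermat.Agent.A2.H348
open Fermat.Agent.S18.H138 (chart baseField)

section Basic

theorem injective_algebraMap_RF (R E F : Type*) [CommRing R] [IsDomain R]
    [Field E] [Algebra R E] [IsFractionRing R E]
    [Field F] [Algebra E F] [Algebra R F] [IsScalarTower R E F] :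
    Function.Injective (algebraMap R F) := by
  rw [IsScalarTower.algebraMap_eq R E F]
  exact (algebraMap E F).injective.comp (IsFractionRing.injective R E)

variable {R E F : Type*} [CommRing R] [IsDomain R]
  [Field E] [Algebra R E] [IsFractionRing R E]
  [Field F] [Algebra E F] [Algebra R F] [IsScalarTower R E F]

variable (R) in
theorem transcendental_R {x : F} (hx : Transcendental E x) : Transcendental R x :=
  hx.restrictScalars (IsFractionRing.injective R E)

/-- `E(x) ⊆ Frac R[x]` inside `F`. -/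
theorem adjoin_le_baseField (x : F) :
    (IntermediateField.adjoin E ({x} : Set F)).toSubfield ≤ baseField R x := by
  rw [IntermediateField.adjoin_toSubfield, Subfield.closure_le]
  rintro y (⟨e, rfl⟩ | hy)
  · obtain ⟨a, b, -, rfl⟩ := IsFractionRing.div_surjective (A := R) e
    rw [map_div₀, ← IsScalarTower.algebraMap_apply, ← IsScalarTower.algebraMap_apply]
    exact (baseField R x).div_mem (Subfield.subset_closure (Or.inl ⟨a, rfl⟩))
      (Subfield.subset_closure (Or.inl ⟨b, rfl⟩))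
  · exact Subfield.subset_closure (Or.inr hy)

/-- `F` is algebraic over `R[x]`. -/
theorem isAlgebraic_adjoin {x : F}
    (hfin : FiniteDimensional (IntermediateField.adjoin E ({x} : Set F)) F) (f : F) :
    IsAlgebraic (Algebra.adjoin R ({x} : Set F)) f := by
  classical
  set A : Subalgebra R F := Algebra.adjoin R ({x} : Set F) with hA
  set K : Subfield F := baseField R x with hK
  have hle := _root_.Fermat.Agent.A2.Alg.H348.adjoin_le_baseField (R := R) (E := E) x
  have h1 : IsAlgebraic (IntermediateField.adjoin E ({x} : Set F)) f :=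
    Algebra.IsAlgebraic.isAlgebraic f
  obtain ⟨P, hP0, hP⟩ := h1
  let φ : A →+* K :=
    { toFun := fun a => ⟨a, Fermat.Agent.S18.H138.adjoin_le_baseField x a.2⟩
      map_one' := rfl
      map_mul' := fun _ _ => rfl
      map_zero' := rfl
      map_add' := fun _ _ => rfl }
  letI : Algebra A K := φ.toAlgebra
  haveI : IsScalarTower A K F := IsScalarTower.of_algebraMap_eq (fun _ => rfl)
  have hinj : Function.Injective (algebraMap A K) := by
    intro a b hab
    have : (a : F) = b := congrArg (fun t : K => (t : F)) hab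
    exact Subtype.ext this
  haveI : FaithfulSMul A K := (faithfulSMul_iff_algebraMap_injective A K).2 hinj
  haveI : IsFractionRing A K := by
    refine IsFractionRing.of_field A K (fun z => ?_)
    obtain ⟨a, ha, b, hb, h⟩ := Fermat.Agent.S18.H138.exists_div_of_mem_baseField (R := R) x z.2
    exact ⟨⟨a, ha⟩, ⟨b, hb⟩, Subtype.ext h⟩
  rw [IsFractionRing.isAlgebraic_iff A K F]
  refine ⟨P.map (Subfield.inclusion hle), ?_, ?_⟩
  · exact (Polynomial.map_ne_zero_iff (Subfield.inclusion hle).injective).2 hP0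
  · rw [aeval_def, eval₂_map]
    exact hP

end Basic

section Chart

variable {R E F : Type*} [CommRing R] [IsDomain R] [IsDiscreteValuationRing R]
  [Field E] [Algebra R E] [IsFractionRing R E]
  [Field F] [Algebra E F] [Algebra R F] [IsScalarTower R E F]

theorem prime_w {w : R} (hw : Irreducible w) : Prime w := hw.prime

theorem chart_eq {w : R} {x : F} {B : Subalgebra R F} (hB : ChartCtx E w x B) :
    B = chart R ({x} : Set F) := by
  ext f
  rw [hB.hB f]
  rfl

/-- `F = Frac B`, with denominators in `R[x]`. -/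
theorem exists_mul_mem_chart {x : F}
    (hfin : FiniteDimensional (IntermediateField.adjoin E ({x} : Set F)) F) (f : F) :
    ∃ a ∈ Algebra.adjoin R ({x} : Set F), a ≠ 0 ∧ a * f ∈ chart R ({x} : Set F) := by
  obtain ⟨a, ha0, ha⟩ := (isAlgebraic_adjoin (R := R) (E := E) hfin f).exists_integral_multiple
  refine ⟨a, a.2, fun h => ha0 (Subtype.ext h), ?_⟩
  exact ha

/-- every nonzero element of the chart divides a nonzero element of `R[x]`. -/
theorem exists_cofactor {x : F} {b : F} (hb : b ∈ chart R ({x} : Set F)) (hb0 : b ≠ 0) :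
    ∃ g ∈ chart R ({x} : Set F), b * g ∈ Algebra.adjoin R ({x} : Set F) ∧ b * g ≠ 0 := by
  have hint : IsIntegral (Algebra.adjoin R ({x} : Set F)) b := hb
  obtain ⟨t, ht, r, hr, h⟩ := hint.isAlgebraic.exists_nonzero_eq_adjoin_mul
    (mem_nonZeroDivisors_of_ne_zero hb0)
  have ht' : IsIntegral (Algebra.adjoin R ({x} : Set F)) t := adjoin_le_integralClosure hint ht
  refine ⟨t, ht', ?_, ?_⟩
  · rw [h]; exact r.2
  · rw [h]
    intro h0
    exact hr (Subtype.ext h0)

/-- no nonzero element of `R[x]` is divisible by all powers of `w`. -/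
theorem exists_not_pow_dvd {w : R} (hw : Irreducible w) {x : F} (hx : Transcendental R x)
    {a : F} (ha : a ∈ Algebra.adjoin R ({x} : Set F)) (ha0 : a ≠ 0) :
    ∃ n : ℕ, ∀ a' ∈ Algebra.adjoin R ({x} : Set F), a ≠ algebraMap R F w ^ (n + 1) * a' := by
  haveI := Fermat.Agent.S18.H138.isNoetherianRing_adjoin_singleton (R := R) hx
  have hpr := Fermat.Agent.A2.H729.prime_algebraMap_adjoin (prime_w hw) hx
  have hfm : FiniteMultiplicity (algebraMap R (Algebra.adjoin R ({x} : Set F)) w)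
      (⟨a, ha⟩ : Algebra.adjoin R ({x} : Set F)) :=
    FiniteMultiplicity.of_not_isUnit hpr.not_unit (fun h => ha0 (congrArg Subtype.val h))
  obtain ⟨n, hn⟩ := hfm
  refine ⟨n, fun a' ha' h => hn ⟨⟨a', ha'⟩, ?_⟩⟩
  apply Subtype.ext
  exact h

/-- `p ∩ R[x] = w R[x]` for a component `p` of the special fibre of the chart. -/
theorem contract_of_inf {w : R} (hw : Irreducible w) {x : F} (hx : Transcendental R x)
    {p p' : Ideal (chart R ({x} : Set F))}
    (hinf : p ⊓ p' = Ideal.span {algebraMap R (chart R ({x} : Set F)) w}) (hle : ¬ p' ≤ p)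
    (a : chart R ({x} : Set F)) (haA : (a : F) ∈ Algebra.adjoin R ({x} : Set F)) (hap : a ∈ p) :
    ∃ a' ∈ Algebra.adjoin R ({x} : Set F), (a : F) = algebraMap R F w * a' := by
  by_contra hcon
  have hw0 : algebraMap R F w ≠ 0 := by
    intro h0
    apply hcon
    exact absurd (Fermat.Agent.A2.H729.prime_algebraMap_adjoin (prime_w hw) hx).ne_zero
      (by
        intro hne
        apply hne
        apply Subtype.ext
        exact h0)
  have hnd : ¬ algebraMap R (Algebra.adjoin R ({x} : Set F)) w ∣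
      (⟨(a : F), haA⟩ : Algebra.adjoin R ({x} : Set F)) := by
    rintro ⟨a', ha'⟩
    apply hcon
    refine ⟨a', a'.2, ?_⟩
    exact congrArg Subtype.val ha'
  have hG := Fermat.Agent.A2.H729.isGaussDenom_of_not_dvd hx hnd
  obtain ⟨t, ht', ht⟩ := SetLike.not_le_iff_exists.1 hle
  have hat : a * t ∈ p ⊓ p' := ⟨p.mul_mem_right _ hap, p'.mul_mem_left _ ht'⟩
  rw [hinf, Ideal.mem_span_singleton'] at hat
  obtain ⟨c, hc⟩ := hat
  have hc' : (c : F) * algebraMap R F w = (a : F) * (t : F) := congrArg Subtype.val hc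
  have h1 : algebraMap R F w * ((t : F) * (algebraMap R F w)⁻¹) ∈ chart R ({x} : Set F) := by
    have : algebraMap R F w * ((t : F) * (algebraMap R F w)⁻¹) = (t : F) := by field_simp
    rw [this]; exact t.2
  have h2 : (a : F) * ((t : F) * (algebraMap R F w)⁻¹) ∈ chart R ({x} : Set F) := by
    have : (a : F) * ((t : F) * (algebraMap R F w)⁻¹) = (c : F) := by
      rw [← mul_assoc, ← hc', mul_assoc, mul_inv_cancel₀ hw0, mul_one]
    rw [this]; exact c.2
  have h3 := Fermat.Agent.A2.H729.mem_chart_of_mul_mem (prime_w hw) hx hG h1 h2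
  apply ht
  have h4 : t = algebraMap R (chart R ({x} : Set F)) w * ⟨_, h3⟩ := by
    apply Subtype.ext
    show (t : F) = algebraMap R F w * ((t : F) * (algebraMap R F w)⁻¹)
    field_simp
  have hwp : algebraMap R (chart R ({x} : Set F)) w ∈ p := by
    have : algebraMap R (chart R ({x} : Set F)) w ∈ p ⊓ p' := by
      rw [hinf]; exact Ideal.mem_span_singleton_self _
    exact this.1
  rw [h4]
  exact p.mul_mem_right _ hwp

theorem adjoin_le_of_ctx {w : R} {x : F} {B : Subalgebra R F} (hB : ChartCtx E w x B) :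
    Algebra.adjoin R ({x} : Set F) ≤ B := by
  rw [chart_eq hB]
  exact Fermat.Agent.S18.H138.adjoin_le_chart _

/-- **`CompData` for a component of a chart.** -/
theorem compData_of_inf {w : R} {x : F} {B : Subalgebra R F} (hB : ChartCtx E w x B)
    {p p' : Ideal B} (hinf : p ⊓ p' = Ideal.span {algebraMap R B w}) (hle : ¬ p' ≤ p) :
    CompData (Algebra.adjoin R ({x} : Set F)) B p p' w := by
  obtain rfl := chart_eq hB
  have hx : Transcendental R x := transcendental_R R hB.hx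
  have hw0 : algebraMap R F w ≠ 0 := by
    intro h0
    exact hB.hw.ne_zero (injective_algebraMap_RF R E F (by rw [h0, map_zero]))
  exact
    { inf_eq := hinf
      not_le := hle
      w_ne := hw0
      contract := contract_of_inf hB.hw hx hinf hle
      finite_mult := fun a ha ha0 => exists_not_pow_dvd hB.hw hx ha ha0
      cofactor := fun b hb hb0 => exists_cofactor hb hb0
      frac := fun f => by
        obtain ⟨a, ha, ha0, haf⟩ := exists_mul_mem_chart (R := R) (E := E) hB.hfin f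
        exact ⟨a, ha, ha0, Fermat.Agent.S18.H138.adjoin_le_chart _ ha, haf⟩ }

theorem compData₁ {w : R} {x : F} {B : Subalgebra R F} (hB : ChartCtx E w x B)
    (c : SSChart w B) : CompData (Algebra.adjoin R ({x} : Set F)) B c.p₁ c.p₂ w :=
  compData_of_inf hB c.inf_eq c.not_le₂₁

theorem compData₂ {w : R} {x : F} {B : Subalgebra R F} (hB : ChartCtx E w x B)
    (c : SSChart w B) : CompData (Algebra.adjoin R ({x} : Set F)) B c.p₂ c.p₁ w :=
  compData_of_inf hB (by rw [inf_comm]; exact c.inf_eq) c.not_le₁₂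

end Chart

end Fermat.Agent.A2.Alg.H348

end
-- ===== PACK-END A2/Alg/H348/ChartComp.lean

-- ===== PACK-BEGIN S35/H433/Ident.lean
section




/-!
# S35 / (G) — identification of the components of a chart with valuation subrings (helper433)

`B` a chart (`ChartCtx`), `c : SSChart w B`.  Every valuation subring `V ⊇ B` of `F` with
`w⁻¹ ∉ V` on which the coordinate `x` is non-constant (`x - r` is a unit of `V` for every constant
`r`) is the local ring of one of the two components: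

* `eq_locAt_or` : `V = B_{p₁}` or `V = B_{p₂}` (as sets: `z ∈ V ↔ InLoc B pᵢ ⊤ z`);
* `mem_nonunits_iff_inLoc` : then `𝔪_V = pᵢ B_{pᵢ}`.

Used to translate statements on the Gauss valuations `V∞`, `V₀` (A2/MOD language) into the chart
language of `A2/Alg/Spec.lean` (`LocUnit`, `OneAt`, `ConstAt`, `IsSplit`), for an ARBITRARY
`SSChart` (e.g. one obtained from `Nonempty (SSChart w B)`).
-/

set_option autoImplicit false
set_option linter.unusedSectionVars false

namespace Fermat.Agent.S35.H433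

open Fermat.Agent.A2 Fermat.Agent.A2.Alg Fermat.Agent.A2.H348 Fermat.Agent.A2.Alg.H348

section Core

variable {R F : Type*} [CommRing R] [Field F] [Algebra R F] {B : Subalgebra R F}

theorem inLoc_top_iff_mem_locAt {p : Ideal B} [p.IsPrime] {z : F} :
    InLoc B p ⊤ z ↔ z ∈ locAt B p := by
  constructor
  · rintro ⟨a, b, -, hb, hab⟩
    exact ⟨b, hb, by rw [mul_comm, hab]; exact a.2⟩
  · rintro ⟨s, hs, hsz⟩
    exact ⟨⟨_, hsz⟩, s, trivial, hs, by rw [mul_comm]⟩

/-- The contraction of the maximal ideal of `V ⊇ B` to `B`. -/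
def cutIdeal (V : ValuationSubring F) (hBV : ∀ b : B, (b : F) ∈ V) : Ideal B :=
  Ideal.comap ((B.val : B →+* F).codRestrict V.toSubring hBV) (IsLocalRing.maximalIdeal V)

theorem mem_cutIdeal {V : ValuationSubring F} {hBV : ∀ b : B, (b : F) ∈ V} {b : B} :
    b ∈ cutIdeal V hBV ↔ (b : F) ∈ V.nonunits := by
  rw [cutIdeal, Ideal.mem_comap, ← ValuationSubring.coe_mem_nonunits_iff]
  rfl

instance cutIdeal_isPrime (V : ValuationSubring F) (hBV : ∀ b : B, (b : F) ∈ V) :
    (cutIdeal V hBV).IsPrime :=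
  Ideal.comap_isPrime _ _

/-- A non-unit of `B` in `V` which is not in the cut ideal is a unit of `V`. -/
theorem inv_mem_of_not_mem_cutIdeal {V : ValuationSubring F} {hBV : ∀ b : B, (b : F) ∈ V}
    {b : B} (hb : b ∉ cutIdeal V hBV) : (b : F)⁻¹ ∈ V := by
  rw [mem_cutIdeal, ValuationSubring.mem_nonunits_iff_or, not_or, not_not] at hb
  exact hb.2

/-- **Core.**  If the cut ideal of `V` equals the component `p`, then `V = B_p`. -/
theorem mem_iff_mem_locAt {A : Subalgebra R F} {p p' : Ideal B} [hp : p.IsPrime] {w : R}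
    (D : CompData A B p p' w) (hAB : A ≤ B) (V : ValuationSubring F)
    (hBV : ∀ b : B, (b : F) ∈ V) (hwV : (algebraMap R F w)⁻¹ ∉ V)
    (hcut : cutIdeal V hBV = p) (z : F) : z ∈ V ↔ z ∈ locAt B p := by
  constructor
  · intro hz
    rcases D.mem_or_inv_mem hAB z with h | h
    · exact h
    · by_contra hz'
      have h1 := D.mul_inv_mem h (by rwa [inv_inv])
      obtain ⟨s, hs, hsz⟩ := h1
      -- `z⁻¹ w⁻¹ ∈ B_p ⊆ V`
      have hsV : (s : F)⁻¹ ∈ V := inv_mem_of_not_mem_cutIdeal (hBV := hBV) (by rw [hcut]; exact hs)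
      have h2 : z⁻¹ * (algebraMap R F w)⁻¹ ∈ V := by
        have hs0 : (s : F) ≠ 0 := coe_ne_zero_of_not_mem hs
        have e : z⁻¹ * (algebraMap R F w)⁻¹
            = (s : F)⁻¹ * ((s : F) * (z⁻¹ * (algebraMap R F w)⁻¹)) := by
          rw [← mul_assoc, inv_mul_cancel₀ hs0, one_mul]
        rw [e]
        exact V.mul_mem _ _ hsV (hBV ⟨_, hsz⟩)
      apply hwV
      have hz0 : z ≠ 0 := by
        rintro rfl
        exact hz' (locAt B p).zero_mem
      have e : (algebraMap R F w)⁻¹ = z * (z⁻¹ * (algebraMap R F w)⁻¹) := by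
        rw [← mul_assoc, mul_inv_cancel₀ hz0, one_mul]
      rw [e]
      exact V.mul_mem _ _ hz h2
  · rintro ⟨s, hs, hsz⟩
    have hsV : (s : F)⁻¹ ∈ V := inv_mem_of_not_mem_cutIdeal (hBV := hBV) (by rw [hcut]; exact hs)
    have hs0 : (s : F) ≠ 0 := coe_ne_zero_of_not_mem hs
    have e : z = (s : F)⁻¹ * ((s : F) * z) := by
      rw [← mul_assoc, inv_mul_cancel₀ hs0, one_mul]
    rw [e]
    exact V.mul_mem _ _ hsV (hBV ⟨_, hsz⟩)

/-- If `V = B_p` then `𝔪_V = p B_p`. -/
theorem mem_nonunits_iff_inLoc {p : Ideal B} [hp : p.IsPrime] (V : ValuationSubring F)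
    (hV : ∀ z : F, z ∈ V ↔ InLoc B p ⊤ z) (z : F) : z ∈ V.nonunits ↔ InLoc B p p z := by
  rw [ValuationSubring.mem_nonunits_iff_or]
  constructor
  · rintro (rfl | hz)
    · exact inLoc_zero p p
    · by_contra h
      by_cases hzV : InLoc B p ⊤ z
      · exact hz ((hV _).2 (inLoc_inv_of_not hzV h))
      · -- `z ∉ V`, so `z⁻¹ ∈ V`
        have : z⁻¹ ∈ V := (V.mem_or_inv_mem z).resolve_left (fun h' => hzV ((hV _).1 h'))
        exact hz this
  · intro h
    by_cases hz0 : z = 0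
    · exact Or.inl hz0
    · right
      intro hz
      have h1 : InLoc B p ⊤ z⁻¹ := (hV _).1 hz
      have := h.mul' h1
      rw [mul_inv_cancel₀ hz0] at this
      exact not_inLoc_one this

end Core

section Chart

variable {R E F : Type*} [CommRing R] [IsDomain R] [IsDiscreteValuationRing R]
  [IsAlgClosed (IsLocalRing.ResidueField R)]
  [Field E] [CharZero E] [Algebra R E] [IsFractionRing R E]
  [Field F] [Algebra E F] [Algebra R F] [IsScalarTower R E F]

/-- The cut ideal of `V` is one of the two components. -/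
theorem cutIdeal_eq_or (w : R) (x : F) (B : Subalgebra R F) (hB : ChartCtx E w x B)
    (c : SSChart w B) (V : ValuationSubring F) (hBV : ∀ b : B, (b : F) ∈ V)
    (hwV : (algebraMap R F w)⁻¹ ∉ V) (hxV : ∀ r : R, (x - algebraMap R F r)⁻¹ ∈ V) :
    cutIdeal V hBV = c.p₁ ∨ cutIdeal V hBV = c.p₂ := by
  have hp₁ := c.prime₁
  have hp₂ := c.prime₂
  have hn₁ := c.normal₁
  have hn₂ := c.normal₂
  obtain ⟨hnoeth, -, -⟩ := H34.chart_instances' w x B hB
  have hD₁ : IsDedekindDomain (B ⧸ c.p₁) :=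
    H609.isDedekindDomain_quotient_chart w x B hB c.p₁ (mem_w_left c)
  have hD₂ : IsDedekindDomain (B ⧸ c.p₂) :=
    H609.isDedekindDomain_quotient_chart w x B hB c.p₂ (mem_w_right c)
  set P := cutIdeal V hBV with hP
  have hw0 : algebraMap R F w ≠ 0 := by
    intro h
    apply hwV
    rw [h, inv_zero]
    exact V.zero_mem
  have hwP : algebraMap R B w ∈ P := by
    rw [hP, mem_cutIdeal, ValuationSubring.mem_nonunits_iff_or]
    exact Or.inr hwV
  -- `P` is not maximal
  have hnm : ¬ P.IsMaximal := by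
    intro hmax
    obtain ⟨r, hr⟩ := exists_const_sub_mem w x B hB P hmax hwP
      ⟨x, H609.self_mem_chart x B hB.hB⟩
    rw [hP, mem_cutIdeal, ValuationSubring.mem_nonunits_iff_or] at hr
    rcases hr with hr | hr
    · have h1 := hxV r
      have h2 : x - algebraMap R F r = 0 := hr
      rw [h2, inv_zero] at h1
      -- no contradiction from `0 ∈ V`; use that `x - r ≠ 0` since `x` is transcendental
      have hx : Transcendental R x := H34.transcendental_of_field hB.hx
      apply hx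
      refine ⟨Polynomial.X - Polynomial.C r, Polynomial.X_sub_C_ne_zero r, ?_⟩
      simpa using h2
    · exact hr (hxV r)
  have key : ∀ (p : Ideal B) [p.IsPrime] [IsDedekindDomain (B ⧸ p)], p ≤ P → P = p := by
    intro p _ _ hpP
    refine le_antisymm ?_ hpP
    by_contra hle
    apply hnm
    -- the image of `P` in `B ⧸ p` is a nonzero prime, hence maximal
    have hPb : (P.map (Ideal.Quotient.mk p)).IsPrime :=
      Ideal.map_isPrime_of_surjective Ideal.Quotient.mk_surjective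
        (by rw [Ideal.mk_ker]; exact hpP)
    have hne : P.map (Ideal.Quotient.mk p) ≠ ⊥ := by
      intro h
      apply hle
      intro b hb
      have : Ideal.Quotient.mk p b ∈ P.map (Ideal.Quotient.mk p) := Ideal.mem_map_of_mem _ hb
      rw [h, Ideal.mem_bot, Ideal.Quotient.eq_zero_iff_mem] at this
      exact this
    have hmax : (P.map (Ideal.Quotient.mk p)).IsMaximal := hPb.isMaximal hne
    have hcomap : (P.map (Ideal.Quotient.mk p)).comap (Ideal.Quotient.mk p) = P := by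
      rw [Ideal.comap_map_of_surjective _ Ideal.Quotient.mk_surjective, ← RingHom.ker_eq_comap_bot,
        Ideal.mk_ker, sup_eq_left]
      exact hpP
    rw [← hcomap]
    exact Ideal.comap_isMaximal_of_surjective _ Ideal.Quotient.mk_surjective
  have hle : c.p₁ ⊓ c.p₂ ≤ P := by
    rw [c.inf_eq, Ideal.span_singleton_le_iff_mem]
    exact hwP
  rcases (Ideal.IsPrime.inf_le (cutIdeal_isPrime V hBV)).1 hle with h | h
  · exact Or.inl (key c.p₁ h)
  · exact Or.inr (key c.p₂ h)

/-- **Identification.**  `V = B_{p₁}` or `V = B_{p₂}`. -/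
theorem eq_locAt_or (w : R) (x : F) (B : Subalgebra R F) (hB : ChartCtx E w x B)
    (c : SSChart w B) (V : ValuationSubring F) (hBV : ∀ b : B, (b : F) ∈ V)
    (hwV : (algebraMap R F w)⁻¹ ∉ V) (hxV : ∀ r : R, (x - algebraMap R F r)⁻¹ ∈ V) :
    (∀ z : F, z ∈ V ↔ InLoc B c.p₁ ⊤ z) ∨ (∀ z : F, z ∈ V ↔ InLoc B c.p₂ ⊤ z) := by
  have hp₁ := c.prime₁
  have hp₂ := c.prime₂
  have hAB := adjoin_le_of_ctx hB
  rcases cutIdeal_eq_or w x B hB c V hBV hwV hxV with h | h
  · left
    intro z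
    rw [inLoc_top_iff_mem_locAt]
    exact mem_iff_mem_locAt (compData₁ hB c) hAB V hBV hwV h z
  · right
    intro z
    rw [inLoc_top_iff_mem_locAt]
    exact mem_iff_mem_locAt (compData₂ hB c) hAB V hBV hwV h z

end Chart

end Fermat.Agent.S35.H433

end
-- ===== PACK-END S35/H433/Ident.lean

-- ===== PACK-BEGIN A2/Alg/H34/Asm.lean
section


/-!
# WALL A2 / ALG — route S assembly (helper34): `AlgSSStatement` from three leaves

`algSS_of_leaves : PuritySmoothLeaf → PurityNodeLeaf → GlueLeaf → AlgSSStatement`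
(`AlgSSStatement` = frozen interface of `Fermat/Agent/A2/Spec.lean` v2).

The three leaf `Prop`s are VERBATIM the statements `purity_smooth`, `purity_node`, `glue` of
`origin/helper34:Fermat/Agent/A2/Alg/Skel.lean`, at universe level `0`.  Everything else (Step I,
`DivisibleDiv` transport, the passage `PureAt u ⇒ LocalFactor (τ u / u)`) is proved in
`Alg/H34/{StepI,Basic,Base,Val}.lean`.  Neither `τ x = x` nor the finite order of `τ` is used.
-/

set_option autoImplicit false

namespace Fermat.Agent.A2.Alg.H34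

open Fermat.Agent.A2 Fermat.Agent.A2.Alg

/-- **Leaf P-S** (purity at a closed point lying on ONE component). -/
def PuritySmoothLeaf : Prop :=
  ∀ {R E F : Type} [CommRing R] [IsDomain R] [IsDiscreteValuationRing R]
    [HenselianLocalRing R] [IsAlgClosed (IsLocalRing.ResidueField R)]
    [Field E] [CharZero E] [Algebra R E] [IsFractionRing R E]
    [Field F] [Algebra E F] [Algebra R F] [IsScalarTower R E F]
    (q m : ℕ) (_ : q.Prime) (_ : (q : R) ∈ IsLocalRing.maximalIdeal R)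
    (_ : 0 < m) (_ : ¬ q ∣ m)
    (w : R) (x : F) (B : Subalgebra R F) (_ : ChartCtx E w x B)
    (c : SSChart w B) (_ : Incomparable c)
    (u : F) (_ : u ≠ 0) (_ : DivisibleDiv E m u) (_ : IsSplit B c u)
    (n : Ideal B) (_ : n.IsMaximal) (_ : algebraMap R B w ∈ n)
    (_ : ¬ (c.p₁ ≤ n ∧ c.p₂ ≤ n)), PureAt B c m u n

/-- **Leaf P-N** (purity at a crossing point). -/
def PurityNodeLeaf : Prop :=
  ∀ {R E F : Type} [CommRing R] [IsDomain R] [IsDiscreteValuationRing R]
    [HenselianLocalRing R] [IsAlgClosed (IsLocalRing.ResidueField R)]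
    [Field E] [CharZero E] [Algebra R E] [IsFractionRing R E]
    [Field F] [Algebra E F] [Algebra R F] [IsScalarTower R E F]
    (q m : ℕ) (_ : q.Prime) (_ : (q : R) ∈ IsLocalRing.maximalIdeal R)
    (_ : 0 < m) (_ : ¬ q ∣ m)
    (w : R) (x : F) (B : Subalgebra R F) (_ : ChartCtx E w x B)
    (c : SSChart w B) (_ : Incomparable c) (_ : SepCoord R E x B)
    (u : F) (_ : u ≠ 0) (_ : DivisibleDiv E m u) (_ : IsSplit B c u)
    (n : Ideal B) (_ : n.IsMaximal) (_ : algebraMap R B w ∈ n)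
    (_ : c.p₁ ≤ n) (_ : c.p₂ ≤ n), PureAt B c m u n

/-- **Leaf GLUE** (a Kummer class locally factored at every closed point of the special fibre of
both charts is trivial). -/
def GlueLeaf : Prop :=
  ∀ {R E F : Type} [CommRing R] [IsDomain R] [IsDiscreteValuationRing R]
    [HenselianLocalRing R] [IsAlgClosed (IsLocalRing.ResidueField R)]
    [Field E] [CharZero E] [Algebra R E] [IsFractionRing R E]
    [Field F] [Algebra E F] [Algebra R F] [IsScalarTower R E F]
    (q m : ℕ) (_ : q.Prime) (_ : (q : R) ∈ IsLocalRing.maximalIdeal R)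
    (_ : 0 < m) (_ : ¬ q ∣ m)
    (w : R) (x : F) (Bf Bi : Subalgebra R F)
    (_ : ChartCtx E w x Bf) (_ : ChartCtx E w x⁻¹ Bi)
    (cf : SSChart w Bf) (ci : SSChart w Bi) (_ : Incomparable cf) (_ : Incomparable ci)
    (u : F) (_ : u ≠ 0) (_ : DivisibleDiv E m u)
    (_ : LocallyFactored Bf cf m u) (_ : LocallyFactored Bi ci m u),
    ∃ y : F, y ≠ 0 ∧ u = y ^ m

theorem incomparable_of_ssChart {R F : Type*} [CommRing R] [Field F] [Algebra R F] {w : R}
    {B : Subalgebra R F} (c : SSChart w B) : Incomparable c :=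
  ⟨c.not_le₁₂, c.not_le₂₁⟩

section Asm

variable {R E F : Type} [CommRing R] [IsDomain R] [IsDiscreteValuationRing R]
  [HenselianLocalRing R] [IsAlgClosed (IsLocalRing.ResidueField R)]
  [Field E] [CharZero E] [Algebra R E] [IsFractionRing R E]
  [Field F] [Algebra E F] [Algebra R F] [IsScalarTower R E F]

/-- Purity at every closed point of the special fibre. -/
theorem purity_of_leaves (hPS : PuritySmoothLeaf) (hPN : PurityNodeLeaf)
    (q m : ℕ) (hq : q.Prime) (hqR : (q : R) ∈ IsLocalRing.maximalIdeal R)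
    (hm : 0 < m) (hqm : ¬ q ∣ m)
    (w : R) (x : F) (B : Subalgebra R F) (hB : ChartCtx E w x B)
    (c : SSChart w B) (s : SepCoord R E x B)
    (u : F) (hu : u ≠ 0) (hdiv : DivisibleDiv E m u) (hs : IsSplit B c u)
    (n : Ideal B) (hn : n.IsMaximal) (hwn : algebraMap R B w ∈ n) : PureAt B c m u n := by
  by_cases h1 : c.p₁ ≤ n ∧ c.p₂ ≤ n
  · exact hPN q m hq hqR hm hqm w x B hB c (incomparable_of_ssChart c) s u hu hdiv hs n hn hwn
      h1.1 h1.2
  · exact hPS q m hq hqR hm hqm w x B hB c (incomparable_of_ssChart c) u hu hdiv hs n hn hwn h1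

/-- **Step II.**  A split Kummer class is fixed by `τ`. -/
theorem stepII_of_leaves (hPS : PuritySmoothLeaf) (hPN : PurityNodeLeaf) (hG : GlueLeaf)
    (q m : ℕ) (hq : q.Prime) (hqR : (q : R) ∈ IsLocalRing.maximalIdeal R)
    (hm : 0 < m) (hqm : ¬ q ∣ m)
    (w : R) (x : F) (Bf Bi : Subalgebra R F)
    (hBf : ChartCtx E w x Bf) (hBi : ChartCtx E w x⁻¹ Bi)
    (cf : SSChart w Bf) (ci : SSChart w Bi)
    (sf : SepCoord R E x Bf) (si : SepCoord R E x⁻¹ Bi)
    (τ : F ≃+* F) (τE : E ≃+* E) (τR : R ≃+* R)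
    (hτf : TauCtx w Bf τ τE τR) (hτi : TauCtx w Bi τ τE τR)
    (u : F) (hu : u ≠ 0) (hdiv : DivisibleDiv E m u)
    (hsf : IsSplit Bf cf u) (hsi : IsSplit Bi ci u) :
    ∃ h : F, h ≠ 0 ∧ τ u = h ^ m * u := by
  have hτu : τ u ≠ 0 := (map_ne_zero τ).2 hu
  have hu' : τ u * u⁻¹ ≠ 0 := mul_ne_zero hτu (inv_ne_zero hu)
  have hdiv' : DivisibleDiv E m (τ u * u⁻¹) :=
    divisibleDiv_mul_inv m _ _ (divisibleDiv_tau τ τE hτf.hτE m u hdiv) hdiv
  have hf : LocallyFactored Bf cf m (τ u * u⁻¹) := fun n hn hwn =>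
    localFactor_of_pureAt w Bf cf τ τE τR hτf m u hu n hn.isPrime hwn
      (purity_of_leaves hPS hPN q m hq hqR hm hqm w x Bf hBf cf sf u hu hdiv hsf n hn hwn)
  have hi : LocallyFactored Bi ci m (τ u * u⁻¹) := fun n hn hwn =>
    localFactor_of_pureAt w Bi ci τ τE τR hτi m u hu n hn.isPrime hwn
      (purity_of_leaves hPS hPN q m hq hqR hm hqm w x⁻¹ Bi hBi ci si u hu hdiv hsi n hn hwn)
  obtain ⟨y, hy, hyu⟩ := hG q m hq hqR hm hqm w x Bf Bi hBf hBi cf ci
    (incomparable_of_ssChart cf) (incomparable_of_ssChart ci) _ hu' hdiv' hf hi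
  refine ⟨y, hy, ?_⟩
  rw [← hyu, mul_assoc, inv_mul_cancel₀ hu, mul_one]

end Asm

/-- **ALG, route S**: the frozen interface `AlgSSStatement` from the three leaves. -/
theorem algSS_of_leaves (hPS : PuritySmoothLeaf) (hPN : PurityNodeLeaf) (hG : GlueLeaf) :
    AlgSSStatement := by
  intro R E F _ _ _ _ _ _ _ _ _ _ _ _ _ w hw q m hq hqR hm hqm x hx hfin hconst Bf Bi hBf hBi
    cf ci sf si τ τE τR hτE hτR _ _ hτf hτi
  have hCf : ChartCtx E w x Bf := ⟨hw, hx, hfin, hconst, hBf⟩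
  have hCi : ChartCtx E w x⁻¹ Bi := chartCtx_inv w hw x hx hfin hconst Bi hBi
  have hTf : TauCtx w Bf τ τE τR := ⟨hτE, hτR, hτf⟩
  have hTi : TauCtx w Bi τ τE τR := ⟨hτE, hτR, hτi⟩
  intro f hf hdiv
  have hτf0 : τ f ≠ 0 := (map_ne_zero τ).2 hf
  have hu : τ f * f⁻¹ ≠ 0 := mul_ne_zero hτf0 (inv_ne_zero hf)
  have hdivu : DivisibleDiv E m (τ f * f⁻¹) :=
    divisibleDiv_mul_inv m _ _ (divisibleDiv_tau τ τE hτE m f hdiv) hdiv
  obtain ⟨h, hh, hh2⟩ := stepII_of_leaves hPS hPN hG q m hq hqR hm hqm w x Bf Bi hCf hCi cf ci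
    sf si τ τE τR hTf hTi (τ f * f⁻¹) hu hdivu
    (stepI w x Bf hCf cf (incomparable_of_ssChart cf) τ τE τR hTf f hf)
    (stepI w x⁻¹ Bi hCi ci (incomparable_of_ssChart ci) τ τE τR hTi f hf)
  refine ⟨h, hh, ?_⟩
  rw [map_mul, map_inv₀] at hh2
  have h3 : τ (τ f) = h ^ m * (τ f * f⁻¹) * τ f := by
    rw [← hh2, mul_assoc, inv_mul_cancel₀ hτf0, mul_one]
  rw [h3]
  field_simp

end Fermat.Agent.A2.Alg.H34

end
-- ===== PACK-END A2/Alg/H34/Asm.lean

-- ===== PACK-BEGIN S35/H433/Final.lean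
section





/-!
# S35 / (G) — N4 in statement form (helper433)

`frobToric_of_leaves : PuritySmoothLeaf → PurityNodeLeaf → GlueLeaf → FrobToricStatement`.

`FrobToricStatement` is the analogue of `A2.AlgSSStatement` (Step II) for a semilinear
automorphism `φ` which, instead of being the identity modulo `w`, acts on the constants as the
`Q`-power map modulo `w`, preserves the charts and their components and fixes the crossing points
of the special fibre: every split Kummer class `u` (`m ∣ div u`) satisfies `φ u = h ^ m · u ^ Q`.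

The three leaves are those of the A2 wall (`Fermat/Agent/A2/Alg/H34/Asm.lean`); no new geometric
input is needed.
-/

set_option autoImplicit false

namespace Fermat.Agent.S35.H433

open Fermat.Agent.A2 Fermat.Agent.A2.Alg

/-- **N4 (interface statement)**: the toric Frobenius relation. -/
def FrobToricStatement : Prop :=
  ∀ {R E F : Type} [CommRing R] [IsDomain R] [IsDiscreteValuationRing R] [HenselianLocalRing R]
    [IsAlgClosed (IsLocalRing.ResidueField R)]
    [Field E] [CharZero E] [Algebra R E] [IsFractionRing R E]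
    [Field F] [Algebra E F] [Algebra R F] [IsScalarTower R E F]
    (w : R) (_ : Irreducible w) (q m : ℕ) (_ : q.Prime)
    (_ : (q : R) ∈ IsLocalRing.maximalIdeal R) (_ : 0 < m) (_ : ¬ q ∣ m)
    (x : F) (_ : Transcendental E x)
    (_ : FiniteDimensional (IntermediateField.adjoin E ({x} : Set F)) F)
    (_ : ∀ f : F, IsAlgebraic E f → f ∈ (algebraMap E F).range)
    (Bf Bi : Subalgebra R F)
    (_ : ∀ f : F, f ∈ Bf ↔ IsIntegral (Algebra.adjoin R ({x} : Set F)) f)
    (_ : ∀ f : F, f ∈ Bi ↔ IsIntegral (Algebra.adjoin R ({x⁻¹} : Set F)) f)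
    (cf : SSChart w Bf) (ci : SSChart w Bi)
    (_ : SepCoord R E x Bf) (_ : SepCoord R E x⁻¹ Bi)
    (φ : F ≃+* F) (φE : E ≃+* E) (Q : ℕ) (_ : 0 < Q)
    (_ : ∀ e : E, φ (algebraMap E F e) = algebraMap E F (φE e))
    (hφf : PhiCtx w Bf cf φ Q) (hφi : PhiCtx w Bi ci φ Q)
    (_ : ∀ n : Ideal Bf, n.IsMaximal → cf.p₁ ≤ n → cf.p₂ ≤ n →
      ∀ b : Bf, b ∈ n → hφf.hom b ∈ n)
    (_ : ∀ n : Ideal Bi, n.IsMaximal → ci.p₁ ≤ n → ci.p₂ ≤ n →
      ∀ b : Bi, b ∈ n → hφi.hom b ∈ n)
    (u : F), u ≠ 0 → DivisibleDiv E m u → IsSplit Bf cf u → IsSplit Bi ci u →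
      ∃ h : F, h ≠ 0 ∧ φ u = h ^ m * u ^ Q

section

variable {R E F : Type*} [CommRing R] [IsDomain R] [IsDiscreteValuationRing R]
  [Field E] [CharZero E] [Algebra R E] [IsFractionRing R E]
  [Field F] [Algebra E F] [Algebra R F] [IsScalarTower R E F]

/-- Local transversality at a crossing point of a chart. -/
theorem exists_mul_mem_sup (w : R) (x : F) (B : Subalgebra R F) (hB : ChartCtx E w x B)
    (c : SSChart w B) (n : Ideal B) (hn : n.IsMaximal) (h1 : c.p₁ ≤ n) (h2 : c.p₂ ≤ n)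
    (b : B) (hb : b ∈ n) : ∃ s : B, s ∉ n ∧ s * b ∈ c.p₁ ⊔ c.p₂ := by
  have := hn.isPrime
  have := c.prime₁
  have := c.normal₁
  obtain ⟨hnoeth, -, -⟩ := H34.chart_instances' w x B hB
  have hD : IsDedekindDomain (B ⧸ c.p₁) :=
    H609.isDedekindDomain_quotient_chart w x B hB c.p₁ (mem_w_left c)
  exact H372.exists_mul_mem_of_isRadical (p := c.p₁) le_sup_left (sup_le h1 h2)
    (fun h => c.not_le₂₁ (le_sup_right.trans h)) c.transversal hb

end

/-- **N4 from the three leaves of the A2 wall.** -/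
theorem frobToric_of_leaves (hPS : H34.PuritySmoothLeaf) (hPN : H34.PurityNodeLeaf)
    (hG : H34.GlueLeaf) : FrobToricStatement := by
  intro R E F _ _ _ _ _ _ _ _ _ _ _ _ _ w hw q m hq hqR hm hqm x hx hfin hconst Bf Bi hBf hBi
    cf ci sf si φ φE Q hQ hφE hφf hφi hfixf hfixi u hu hdiv hsf hsi
  have hCf : ChartCtx E w x Bf := ⟨hw, hx, hfin, hconst, hBf⟩
  have hCi : ChartCtx E w x⁻¹ Bi := H34.chartCtx_inv w hw x hx hfin hconst Bi hBi
  exact frobToric_of_parts m hm w Bf Bi cf ci φ φE Q hQ hφE hφf hφi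
    (fun n hn _ _ b => exists_const_sub_mem w x Bf hCf n hn
      ((Ideal.span_singleton_le_iff_mem (I := n)).1
        (by rw [← cf.inf_eq]; exact inf_le_left.trans ‹cf.p₁ ≤ n›)) b)
    (fun n hn _ _ b => exists_const_sub_mem w x⁻¹ Bi hCi n hn
      ((Ideal.span_singleton_le_iff_mem (I := n)).1
        (by rw [← ci.inf_eq]; exact inf_le_left.trans ‹ci.p₁ ≤ n›)) b)
    hfixf hfixi
    (fun n hn h1 h2 b hb => exists_mul_mem_sup w x Bf hCf cf n hn h1 h2 b hb)
    (fun n hn h1 h2 b hb => exists_mul_mem_sup w x⁻¹ Bi hCi ci n hn h1 h2 b hb)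
    u hu hdiv hsf hsi
    (fun n hn hwn => H34.purity_of_leaves hPS hPN q m hq hqR hm hqm w x Bf hCf cf sf u hu hdiv
      hsf n hn hwn)
    (fun n hn hwn => H34.purity_of_leaves hPS hPN q m hq hqR hm hqm w x⁻¹ Bi hCi ci si u hu hdiv
      hsi n hn hwn)
    (fun v hv hdv hf hi => hG q m hq hqR hm hqm w x Bf Bi hCf hCi cf ci
      (H34.incomparable_of_ssChart cf) (H34.incomparable_of_ssChart ci) v hv hdv hf hi)

end Fermat.Agent.S35.H433

end
-- ===== PACK-END S35/H433/Final.lean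

-- ===== PACK-BEGIN S35/H433/ValForm.lean
section



/-!
# S35 / (G) — F1 + F4 in valuation language (helper433)

`frobToric_val` : the toric Frobenius relation `φ u = h ^ m · u ^ Q`, with all hypotheses on the
two components expressed through the two valuation subrings `V₁ ≠ V₂` of `F` extending the Gauss
valuation (A2/MOD: `V∞`, `V₀`) instead of the primes of an `SSChart`:

* `ValCtx w x V` : `R ⊆ V`, `x` is a unit of `V`, `w` is not, and `x - r`, `x⁻¹ - r` are units of
  `V` for all constants `r`  (the residue of `x` is not constant);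
* `φ` preserves `V₁`, `V₂`, fixes `x`, is semilinear over `φR : R ≃+* R` with
  `φR r ≡ r ^ Q mod w`;
* the crossing points of both charts are fixed by `φ`;
* `u` has residues in `kˣ · (κˣ)^m` at `V₁` and `V₂` (`GSplitV`), and `m ∣ div u`.

The charts `Bf`, `Bi` and their `SSChart`s are arbitrary (e.g. from `A2.ModSSData`).
-/

set_option autoImplicit false
set_option linter.unusedSectionVars false

namespace Fermat.Agent.S35.H433

open Fermat.Agent.A2 Fermat.Agent.A2.Alg Fermat.Agent.A2.H348 Fermat.Agent.A2.Alg.H348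

section Defs

variable {R F : Type*} [CommRing R] [Field F] [Algebra R F]

/-- The standing hypotheses on a valuation subring `V` of `F` "extending the Gauss valuation". -/
structure ValCtx (w : R) (x : F) (V : ValuationSubring F) : Prop where
  hR : ∀ r : R, algebraMap R F r ∈ V
  hx : x ∈ V
  hxi : x⁻¹ ∈ V
  hw : (algebraMap R F w)⁻¹ ∉ V
  hxr : ∀ r : R, (x - algebraMap R F r)⁻¹ ∈ V
  hxir : ∀ r : R, (x⁻¹ - algebraMap R F r)⁻¹ ∈ V

theorem ValCtx.inv {w : R} {x : F} {V : ValuationSubring F} (h : ValCtx w x V) :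
    ValCtx w x⁻¹ V :=
  ⟨h.hR, h.hxi, by rw [inv_inv]; exact h.hx, h.hw, h.hxir, by rw [inv_inv]; exact h.hxr⟩

/-- `u` is a unit of `V` with constant residue. -/
def ConstV (R : Type*) [CommRing R] [Algebra R F] (V : ValuationSubring F) (u : F) : Prop :=
  ∃ c₀ : R, IsUnit c₀ ∧ u - algebraMap R F c₀ ∈ V.nonunits

/-- `u` is a unit of `V` with residue in `kˣ · (κˣ)^m`. -/
def GSplitV (R : Type*) [CommRing R] [Algebra R F] (V : ValuationSubring F) (m : ℕ) (u : F) :
    Prop :=
  ∃ y : F, y ≠ 0 ∧ y ∈ V ∧ y⁻¹ ∈ V ∧ ConstV R V (u * (y ^ m)⁻¹)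

/-- The chart is contained in every valuation subring containing `R` and `x`. -/
theorem chart_le_valuationSubring (x : F) (B : Subalgebra R F)
    (hB : ∀ f : F, f ∈ B ↔ IsIntegral (Algebra.adjoin R ({x} : Set F)) f)
    (V : ValuationSubring F) (hR : ∀ r : R, algebraMap R F r ∈ V) (hx : x ∈ V) (b : B) :
    (b : F) ∈ V := by
  let Vs : Subalgebra R F := { V.toSubring with algebraMap_mem' := hR }
  have hle : Algebra.adjoin R ({x} : Set F) ≤ Vs :=
    Algebra.adjoin_le (Set.singleton_subset_iff.2 hx)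
  obtain ⟨P, hPm, hP⟩ := (hB b).1 b.2
  let ι : Algebra.adjoin R ({x} : Set F) →+* V :=
    { toFun := fun a => ⟨a.1, hle a.2⟩
      map_one' := rfl
      map_mul' := fun _ _ => rfl
      map_zero' := rfl
      map_add' := fun _ _ => rfl }
  have hint : IsIntegral V (b : F) := by
    refine ⟨P.map ι, hPm.map ι, ?_⟩
    rw [Polynomial.eval₂_map]
    exact hP
  obtain ⟨y, hy⟩ := IsIntegrallyClosed.isIntegral_iff.1 hint
  rw [← hy]
  exact y.2

end Defs

section Chart

variable {R E F : Type*} [CommRing R] [IsDomain R] [IsDiscreteValuationRing R]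
  [IsAlgClosed (IsLocalRing.ResidueField R)]
  [Field E] [CharZero E] [Algebra R E] [IsFractionRing R E]
  [Field F] [Algebra E F] [Algebra R F] [IsScalarTower R E F]

/-- Two distinct valuation subrings satisfying `ValCtx` are the local rings of the two components
of a chart, in some order. -/
theorem cutIdeal_perm (w : R) (x : F) (B : Subalgebra R F) (hB : ChartCtx E w x B)
    (c : SSChart w B) (V₁ V₂ : ValuationSubring F) (h₁ : ValCtx w x V₁) (h₂ : ValCtx w x V₂)
    (hne : V₁ ≠ V₂) :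
    (cutIdeal V₁ (chart_le_valuationSubring x B hB.hB V₁ h₁.hR h₁.hx) = c.p₁ ∧
      cutIdeal V₂ (chart_le_valuationSubring x B hB.hB V₂ h₂.hR h₂.hx) = c.p₂) ∨
    (cutIdeal V₁ (chart_le_valuationSubring x B hB.hB V₁ h₁.hR h₁.hx) = c.p₂ ∧
      cutIdeal V₂ (chart_le_valuationSubring x B hB.hB V₂ h₂.hR h₂.hx) = c.p₁) := by
  have hp₁ := c.prime₁
  have hp₂ := c.prime₂
  have hAB := adjoin_le_of_ctx hB
  have hB₁ := chart_le_valuationSubring x B hB.hB V₁ h₁.hR h₁.hx
  have hB₂ := chart_le_valuationSubring x B hB.hB V₂ h₂.hR h₂.hx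
  have same : ∀ {A : Subalgebra R F} {p p' : Ideal B} [p.IsPrime], CompData A B p p' w → A ≤ B →
      cutIdeal V₁ hB₁ = p → cutIdeal V₂ hB₂ = p → False := by
    intro A p p' _ D hA e₁ e₂
    apply hne
    ext z
    rw [mem_iff_mem_locAt D hA V₁ hB₁ h₁.hw e₁ z, mem_iff_mem_locAt D hA V₂ hB₂ h₂.hw e₂ z]
  rcases cutIdeal_eq_or w x B hB c V₁ hB₁ h₁.hw h₁.hxr with e₁ | e₁ <;>
    rcases cutIdeal_eq_or w x B hB c V₂ hB₂ h₂.hw h₂.hxr with e₂ | e₂
  · exact (same (compData₁ hB c) hAB e₁ e₂).elim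
  · exact Or.inl ⟨e₁, e₂⟩
  · exact Or.inr ⟨e₁, e₂⟩
  · exact (same (compData₂ hB c) hAB e₁ e₂).elim

/-- Dictionary for one component: if the cut ideal of `V` is the component `p`, then the chart
predicates at `p` are the valuation predicates at `V`. -/
theorem dict_of_cut (w : R) (x : F) (B : Subalgebra R F) (_hB : ChartCtx E w x B)
    {A : Subalgebra R F} {p p' : Ideal B} [hp : p.IsPrime] (D : CompData A B p p' w)
    (hA : A ≤ B) (V : ValuationSubring F) (hBV : ∀ b : B, (b : F) ∈ V)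
    (hw : (algebraMap R F w)⁻¹ ∉ V) (hcut : cutIdeal V hBV = p) :
    (∀ z : F, z ∈ V ↔ InLoc B p ⊤ z) ∧ (∀ z : F, z ∈ V.nonunits ↔ InLoc B p p z) := by
  have h1 : ∀ z : F, z ∈ V ↔ InLoc B p ⊤ z := fun z => by
    rw [inLoc_top_iff_mem_locAt]
    exact mem_iff_mem_locAt D hA V hBV hw hcut z
  exact ⟨h1, mem_nonunits_iff_inLoc V h1⟩

end Chart

section Dict

variable {R F : Type*} [CommRing R] [Field F] [Algebra R F] {B : Subalgebra R F}

theorem constAt_iff_constV {p : Ideal B} [hp : p.IsPrime] {V : ValuationSubring F}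
    (h : ∀ z : F, z ∈ V.nonunits ↔ InLoc B p p z) {u : F} : ConstAt B p u ↔ ConstV R V u := by
  rw [constAt_iff]
  constructor
  · rintro ⟨c₀, hc, hu⟩
    exact ⟨c₀, hc, (h _).2 hu⟩
  · rintro ⟨c₀, hc, hu⟩
    exact ⟨c₀, hc, (h _).1 hu⟩

theorem gSplitAt_of_gSplitV {p : Ideal B} [hp : p.IsPrime] {V : ValuationSubring F}
    (h1 : ∀ z : F, z ∈ V ↔ InLoc B p ⊤ z) (h : ∀ z : F, z ∈ V.nonunits ↔ InLoc B p p z)
    {m : ℕ} {u : F} (hu : GSplitV R V m u) : GSplitAt B p m u := by
  obtain ⟨y, hy0, hy, hyi, hc⟩ := hu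
  exact ⟨y, locUnit_iff.2 ⟨hy0, (h1 _).1 hy, (h1 _).1 hyi⟩, (constAt_iff_constV h).2 hc⟩

end Dict

section Phi

variable {R F : Type*} [CommRing R] [Field F] [Algebra R F]

/-- `φ` maps the subalgebra `R[x]` into itself. -/
theorem phi_mem_adjoin (φ : F ≃+* F) (φR : R → R)
    (hφR : ∀ r : R, φ (algebraMap R F r) = algebraMap R F (φR r)) {x : F} (hφx : φ x = x)
    {a : F} (ha : a ∈ Algebra.adjoin R ({x} : Set F)) :
    φ a ∈ Algebra.adjoin R ({x} : Set F) := by
  induction ha using Algebra.adjoin_induction with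
  | mem y hy =>
    rw [Set.mem_singleton_iff] at hy
    subst hy
    rw [hφx]
    exact Algebra.self_mem_adjoin_singleton R _
  | algebraMap r =>
    rw [hφR]
    exact Subalgebra.algebraMap_mem _ _
  | add y z _ _ hy hz =>
    rw [map_add]
    exact Subalgebra.add_mem _ hy hz
  | mul y z _ _ hy hz =>
    rw [map_mul]
    exact Subalgebra.mul_mem _ hy hz

/-- `φ` maps a chart into itself. -/
theorem phi_mem_chart (φ : F ≃+* F) (φR : R → R)
    (hφR : ∀ r : R, φ (algebraMap R F r) = algebraMap R F (φR r)) {x : F} (hφx : φ x = x)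
    (B : Subalgebra R F)
    (hB : ∀ f : F, f ∈ B ↔ IsIntegral (Algebra.adjoin R ({x} : Set F)) f) {b : F} (hb : b ∈ B) :
    φ b ∈ B := by
  rw [hB] at hb ⊢
  obtain ⟨P, hPm, hP⟩ := hb
  let ψ : Algebra.adjoin R ({x} : Set F) →+* Algebra.adjoin R ({x} : Set F) :=
    { toFun := fun a => ⟨φ a.1, phi_mem_adjoin φ φR hφR hφx a.2⟩
      map_one' := Subtype.ext (by simp)
      map_mul' := fun a b => Subtype.ext (by simp)
      map_zero' := Subtype.ext (by simp)
      map_add' := fun a b => Subtype.ext (by simp) }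
  refine ⟨P.map ψ, hPm.map ψ, ?_⟩
  rw [Polynomial.eval₂_map]
  have hcomp : (algebraMap (Algebra.adjoin R ({x} : Set F)) F).comp ψ
      = (φ : F →+* F).comp (algebraMap (Algebra.adjoin R ({x} : Set F)) F) := by
    ext a
    rfl
  rw [hcomp]
  have h := Polynomial.hom_eval₂ P (algebraMap (Algebra.adjoin R ({x} : Set F)) F)
    (φ : F →+* F) b
  rw [hP, map_zero] at h
  exact h.symm

/-- `φ` preserving `V` preserves its non-units. -/
theorem phi_mem_nonunits_iff (φ : F ≃+* F) (V : ValuationSubring F)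
    (hV : ∀ z : F, φ z ∈ V ↔ z ∈ V) (z : F) : φ z ∈ V.nonunits ↔ z ∈ V.nonunits := by
  rw [ValuationSubring.mem_nonunits_iff_or, ValuationSubring.mem_nonunits_iff_or, ← map_inv₀, hV,
    map_eq_zero_iff φ φ.injective]

end Phi

section Main

variable {R E F : Type*} [CommRing R] [IsDomain R] [IsDiscreteValuationRing R]
  [IsAlgClosed (IsLocalRing.ResidueField R)]
  [Field E] [CharZero E] [Algebra R E] [IsFractionRing R E]
  [Field F] [Algebra E F] [Algebra R F] [IsScalarTower R E F]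

/-- For each component of a chart, one of `V₁`, `V₂` is its local ring. -/
theorem exists_dict (w : R) (x : F) (B : Subalgebra R F) (hB : ChartCtx E w x B)
    (c : SSChart w B) (V₁ V₂ : ValuationSubring F) (h₁ : ValCtx w x V₁) (h₂ : ValCtx w x V₂)
    (hne : V₁ ≠ V₂) :
    (((∀ z : F, z ∈ V₁ ↔ InLoc B c.p₁ ⊤ z) ∧ (∀ z : F, z ∈ V₁.nonunits ↔ InLoc B c.p₁ c.p₁ z)) ∧
      ((∀ z : F, z ∈ V₂ ↔ InLoc B c.p₂ ⊤ z) ∧ (∀ z : F, z ∈ V₂.nonunits ↔ InLoc B c.p₂ c.p₂ z))) ∨
    (((∀ z : F, z ∈ V₁ ↔ InLoc B c.p₂ ⊤ z) ∧ (∀ z : F, z ∈ V₁.nonunits ↔ InLoc B c.p₂ c.p₂ z)) ∧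
      ((∀ z : F, z ∈ V₂ ↔ InLoc B c.p₁ ⊤ z) ∧
        (∀ z : F, z ∈ V₂.nonunits ↔ InLoc B c.p₁ c.p₁ z))) := by
  have hp₁ := c.prime₁
  have hp₂ := c.prime₂
  have hAB := adjoin_le_of_ctx hB
  rcases cutIdeal_perm w x B hB c V₁ V₂ h₁ h₂ hne with ⟨e₁, e₂⟩ | ⟨e₁, e₂⟩
  · exact Or.inl ⟨dict_of_cut w x B hB (compData₁ hB c) hAB V₁ _ h₁.hw e₁,
      dict_of_cut w x B hB (compData₂ hB c) hAB V₂ _ h₂.hw e₂⟩
  · exact Or.inr ⟨dict_of_cut w x B hB (compData₂ hB c) hAB V₁ _ h₁.hw e₁,
      dict_of_cut w x B hB (compData₁ hB c) hAB V₂ _ h₂.hw e₂⟩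

/-- Constant residues at `V₁`, `V₂`  ⟹  split on any chart. -/
theorem isSplit_of_constV (w : R) (x : F) (B : Subalgebra R F) (hB : ChartCtx E w x B)
    (c : SSChart w B) (V₁ V₂ : ValuationSubring F) (h₁ : ValCtx w x V₁) (h₂ : ValCtx w x V₂)
    (hne : V₁ ≠ V₂) {u : F} (hu₁ : ConstV R V₁ u) (hu₂ : ConstV R V₂ u) : IsSplit B c u := by
  have hp₁ := c.prime₁
  have hp₂ := c.prime₂
  rcases exists_dict w x B hB c V₁ V₂ h₁ h₂ hne with ⟨⟨-, d₁⟩, ⟨-, d₂⟩⟩ | ⟨⟨-, d₁⟩, ⟨-, d₂⟩⟩
  · exact ⟨(constAt_iff_constV d₁).2 hu₁, (constAt_iff_constV d₂).2 hu₂⟩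
  · exact ⟨(constAt_iff_constV d₂).2 hu₂, (constAt_iff_constV d₁).2 hu₁⟩

/-- `φ` preserves the components of a chart. -/
theorem phiCtx_of_val (w : R) (x : F) (B : Subalgebra R F) (hB : ChartCtx E w x B)
    (c : SSChart w B) (V₁ V₂ : ValuationSubring F) (h₁ : ValCtx w x V₁) (h₂ : ValCtx w x V₂)
    (hne : V₁ ≠ V₂) (φ : F ≃+* F) (φR : R ≃+* R) (Q : ℕ)
    (hφR : ∀ r : R, φ (algebraMap R F r) = algebraMap R F (φR r))
    (hQ : ∀ r : R, ∃ s : R, φR r - r ^ Q = w * s) (hφx : φ x = x)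
    (hV₁ : ∀ z : F, φ z ∈ V₁ ↔ z ∈ V₁) (hV₂ : ∀ z : F, φ z ∈ V₂ ↔ z ∈ V₂) :
    PhiCtx w B c φ Q := by
  have hp₁ := c.prime₁
  have hp₂ := c.prime₂
  have hmap : ∀ b : F, b ∈ B → φ b ∈ B := fun b hb => phi_mem_chart φ φR hφR hφx B hB.hB hb
  have hφR' : ∀ r : R, φ.symm (algebraMap R F r) = algebraMap R F (φR.symm r) := by
    intro r
    rw [RingEquiv.symm_apply_eq, hφR, RingEquiv.apply_symm_apply]
  have hφx' : φ.symm x = x := by
    rw [RingEquiv.symm_apply_eq, hφx]
  have hmap' : ∀ b : F, φ b ∈ B → b ∈ B := fun b hb => by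
    have := phi_mem_chart φ.symm φR.symm hφR' hφx' B hB.hB hb
    rwa [RingEquiv.symm_apply_apply] at this
  have key : ∀ (p : Ideal B) [p.IsPrime] (V : ValuationSubring F),
      (∀ z : F, φ z ∈ V ↔ z ∈ V) → (∀ z : F, z ∈ V.nonunits ↔ InLoc B p p z) →
      ∀ b : B, (⟨φ b, hmap b b.2⟩ : B) ∈ p ↔ b ∈ p := by
    intro p _ V hV d b
    have e : ∀ b' : B, b' ∈ p ↔ (b' : F) ∈ V.nonunits := by
      intro b'
      rw [d]
      constructor
      · intro hb'
        exact inLoc_coe hb'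
      · rintro ⟨a, s, ha, hs, has⟩
        have h1 : b' * s = a := Subtype.ext (by push_cast; exact has)
        have h2 : b' * s ∈ p := by rw [h1]; exact ha
        exact (‹p.IsPrime›.mem_or_mem h2).resolve_right hs
    rw [e, e]
    exact phi_mem_nonunits_iff φ V hV _
  refine ⟨hmap, hmap', ?_, ?_, ?_⟩
  · rcases exists_dict w x B hB c V₁ V₂ h₁ h₂ hne with ⟨⟨-, d₁⟩, -⟩ | ⟨-, ⟨-, d₂⟩⟩
    · exact key c.p₁ V₁ hV₁ d₁
    · exact key c.p₁ V₂ hV₂ d₂
  · rcases exists_dict w x B hB c V₁ V₂ h₁ h₂ hne with ⟨-, ⟨-, d₂⟩⟩ | ⟨⟨-, d₁⟩, -⟩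
    · exact key c.p₂ V₂ hV₂ d₂
    · exact key c.p₂ V₁ hV₁ d₁
  · intro r
    obtain ⟨s, hs⟩ := hQ r
    refine ⟨algebraMap R B s, ?_⟩
    rw [hφR, ← map_pow, ← map_sub, hs, map_mul]
    rfl

/-- **F4 in valuation language.**  Residues in `kˣ · (κˣ)^m` at `V₁`, `V₂`  ⟹  constant residues
after division by an `m`-th power. -/
theorem exists_constV_of_gSplitV (w : R) (x : F) (B : Subalgebra R F) (hB : ChartCtx E w x B)
    (c : SSChart w B) (V₁ V₂ : ValuationSubring F) (h₁ : ValCtx w x V₁) (h₂ : ValCtx w x V₂)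
    (hne : V₁ ≠ V₂) {m : ℕ} {u : F} (hu₁ : GSplitV R V₁ m u) (hu₂ : GSplitV R V₂ m u) :
    ∃ G : F, G ≠ 0 ∧ ConstV R V₁ (u * (G ^ m)⁻¹) ∧ ConstV R V₂ (u * (G ^ m)⁻¹) := by
  have hp₁ := c.prime₁
  have hp₂ := c.prime₂
  rcases exists_dict w x B hB c V₁ V₂ h₁ h₂ hne with ⟨⟨a₁, d₁⟩, ⟨a₂, d₂⟩⟩ | ⟨⟨a₁, d₁⟩, ⟨a₂, d₂⟩⟩
  · obtain ⟨G, hG, hs⟩ := exists_isSplit_of_gSplit c (gSplitAt_of_gSplitV a₁ d₁ hu₁)
      (gSplitAt_of_gSplitV a₂ d₂ hu₂)
    exact ⟨G, hG, (constAt_iff_constV d₁).1 hs.1, (constAt_iff_constV d₂).1 hs.2⟩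
  · obtain ⟨G, hG, hs⟩ := exists_isSplit_of_gSplit c (gSplitAt_of_gSplitV a₂ d₂ hu₂)
      (gSplitAt_of_gSplitV a₁ d₁ hu₁)
    exact ⟨G, hG, (constAt_iff_constV d₁).1 hs.2, (constAt_iff_constV d₂).1 hs.1⟩

end Main

section Div

variable {E F : Type*} [Field E] [Field F] [Algebra E F]

theorem divisibleDiv_mul_inv_pow (m : ℕ) (u G : F) (hG : G ≠ 0) (hu : DivisibleDiv E m u) :
    DivisibleDiv E m (u * (G ^ m)⁻¹) := by
  intro V hV hE
  obtain ⟨h, ε, hh, hε, hε', rfl⟩ := hu V hV hE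
  refine ⟨h * G⁻¹, ε, mul_ne_zero hh (inv_ne_zero hG), hε, hε', ?_⟩
  rw [mul_pow, inv_pow]
  ring

end Div

/-- **N4 / F1 + F4 (interface statement, valuation language).** -/
def FrobToricValStatement : Prop :=
  ∀ {R E F : Type} [CommRing R] [IsDomain R] [IsDiscreteValuationRing R] [HenselianLocalRing R]
    [IsAlgClosed (IsLocalRing.ResidueField R)]
    [Field E] [CharZero E] [Algebra R E] [IsFractionRing R E]
    [Field F] [Algebra E F] [Algebra R F] [IsScalarTower R E F]
    (w : R) (_ : Irreducible w) (q m : ℕ) (_ : q.Prime)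
    (_ : (q : R) ∈ IsLocalRing.maximalIdeal R) (_ : 0 < m) (_ : ¬ q ∣ m)
    (x : F) (_ : Transcendental E x)
    (_ : FiniteDimensional (IntermediateField.adjoin E ({x} : Set F)) F)
    (_ : ∀ f : F, IsAlgebraic E f → f ∈ (algebraMap E F).range)
    (Bf Bi : Subalgebra R F)
    (_ : ∀ f : F, f ∈ Bf ↔ IsIntegral (Algebra.adjoin R ({x} : Set F)) f)
    (_ : ∀ f : F, f ∈ Bi ↔ IsIntegral (Algebra.adjoin R ({x⁻¹} : Set F)) f)
    (cf : SSChart w Bf) (ci : SSChart w Bi)
    (_ : SepCoord R E x Bf) (_ : SepCoord R E x⁻¹ Bi)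
    (V₁ V₂ : ValuationSubring F) (_ : ValCtx w x V₁) (_ : ValCtx w x V₂) (_ : V₁ ≠ V₂)
    (φ : F ≃+* F) (φE : E ≃+* E) (φR : R ≃+* R) (Q : ℕ) (_ : 0 < Q)
    (_ : ∀ e : E, φ (algebraMap E F e) = algebraMap E F (φE e))
    (_ : ∀ r : R, φE (algebraMap R E r) = algebraMap R E (φR r))
    (_ : ∀ r : R, ∃ s : R, φR r - r ^ Q = w * s)
    (_ : φ x = x)
    (_ : ∀ z : F, φ z ∈ V₁ ↔ z ∈ V₁) (_ : ∀ z : F, φ z ∈ V₂ ↔ z ∈ V₂)
    (_ : ∀ n : Ideal Bf, n.IsMaximal → cf.p₁ ≤ n → cf.p₂ ≤ n →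
      ∀ b : Bf, b ∈ n → ∀ hb : φ b ∈ Bf, (⟨φ b, hb⟩ : Bf) ∈ n)
    (_ : ∀ n : Ideal Bi, n.IsMaximal → ci.p₁ ≤ n → ci.p₂ ≤ n →
      ∀ b : Bi, b ∈ n → ∀ hb : φ b ∈ Bi, (⟨φ b, hb⟩ : Bi) ∈ n)
    (u : F), u ≠ 0 → DivisibleDiv E m u → GSplitV R V₁ m u → GSplitV R V₂ m u →
      ∃ h : F, h ≠ 0 ∧ φ u = h ^ m * u ^ Q

/-- **N4 in valuation language from the three leaves of the A2 wall.** -/
theorem frobToricVal_of_leaves (hPS : H34.PuritySmoothLeaf) (hPN : H34.PurityNodeLeaf)
    (hG : H34.GlueLeaf) : FrobToricValStatement := by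
  intro R E F _ _ _ _ _ _ _ _ _ _ _ _ _ w hw q m hq hqR hm hqm x hx hfin hconst Bf Bi hBf hBi
    cf ci sf si V₁ V₂ h₁ h₂ hne φ φE φR Q hQ hφE hφER hfrob hφx hV₁ hV₂ hfixf hfixi u hu hdiv
    hu₁ hu₂
  have hCf : ChartCtx E w x Bf := ⟨hw, hx, hfin, hconst, hBf⟩
  have hCi : ChartCtx E w x⁻¹ Bi := H34.chartCtx_inv w hw x hx hfin hconst Bi hBi
  have hφR : ∀ r : R, φ (algebraMap R F r) = algebraMap R F (φR r) := by
    intro r
    rw [IsScalarTower.algebraMap_apply R E F, hφE, hφER, ← IsScalarTower.algebraMap_apply]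
  have hφxi : φ x⁻¹ = x⁻¹ := by rw [map_inv₀, hφx]
  have hφf : PhiCtx w Bf cf φ Q :=
    phiCtx_of_val w x Bf hCf cf V₁ V₂ h₁ h₂ hne φ φR Q hφR hfrob hφx hV₁ hV₂
  have hφi : PhiCtx w Bi ci φ Q :=
    phiCtx_of_val w x⁻¹ Bi hCi ci V₁ V₂ h₁.inv h₂.inv hne φ φR Q hφR hfrob hφxi hV₁ hV₂
  obtain ⟨G, hG0, hc₁, hc₂⟩ := exists_constV_of_gSplitV w x Bf hCf cf V₁ V₂ h₁ h₂ hne hu₁ hu₂
  have hGm : G ^ m ≠ 0 := pow_ne_zero _ hG0
  have hu' : u * (G ^ m)⁻¹ ≠ 0 := mul_ne_zero hu (inv_ne_zero hGm)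
  have hsf : IsSplit Bf cf (u * (G ^ m)⁻¹) :=
    isSplit_of_constV w x Bf hCf cf V₁ V₂ h₁ h₂ hne hc₁ hc₂
  have hsi : IsSplit Bi ci (u * (G ^ m)⁻¹) :=
    isSplit_of_constV w x⁻¹ Bi hCi ci V₁ V₂ h₁.inv h₂.inv hne hc₁ hc₂
  obtain ⟨h, hh, hrel⟩ := frobToric_of_leaves hPS hPN hG w hw q m hq hqR hm hqm x hx hfin hconst
    Bf Bi hBf hBi cf ci sf si φ φE Q hQ hφE hφf hφi
    (fun n hn h1 h2 b hb => hfixf n hn h1 h2 b hb _)
    (fun n hn h1 h2 b hb => hfixi n hn h1 h2 b hb _)
    (u * (G ^ m)⁻¹) hu' (divisibleDiv_mul_inv_pow m u G hG0 hdiv) hsf hsi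
  have hφG : φ G ≠ 0 := (map_ne_zero φ).2 hG0
  have hGQ : G ^ Q ≠ 0 := pow_ne_zero _ hG0
  refine ⟨h * φ G * (G ^ Q)⁻¹, mul_ne_zero (mul_ne_zero hh hφG) (inv_ne_zero hGQ), ?_⟩
  rw [map_mul, map_inv₀, map_pow] at hrel
  have hφGm : φ G ^ m ≠ 0 := pow_ne_zero _ hφG
  have e1 : φ u = h ^ m * (u * (G ^ m)⁻¹) ^ Q * φ G ^ m := by
    rw [← hrel, mul_assoc, inv_mul_cancel₀ hφGm, mul_one]
  rw [e1]
  ring

end Fermat.Agent.S35.H433

end
-- ===== PACK-END S35/H433/ValForm.lean

-- ===== PACK-BEGIN S35/H433/AlgFrob.lean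
section



/-!
# S35 / (G') — ALG-FROB from the three leaves of the A2 wall (helper433)

Adapter from `H433.frobToricVal_of_leaves` to the interface of `Fermat/Agent/S35/G/SpecLevel.lean`
(architect helper450).

WARNING (reported to helper450, note #8042): `G.PowV` admits `g = 0`, hence `G.AlgFrobStatement` as
frozen is FALSE (`h := w`).  This file proves the corrected statement `AlgFrobStatementU`, which
is `G.AlgFrobStatement` VERBATIM with `G.PowV` replaced by `PowVU` (`g ≠ 0` added).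

`algFrobU_of_leaves : PuritySmoothLeaf → PurityNodeLeaf → GlueLeaf → AlgFrobStatementU`.
Only `CutBy` on the finite chart `Bf` is used.

Second corrected form, which keeps the frozen `G.PowV`: `AlgFrobStatementT` is
`G.AlgFrobStatement` VERBATIM, restricted to functions of the form `h = ψ u / u`
(`= G.frobSub ψ 1 u`, `u ≠ 0`).  Such an `h` is a unit at both components, which excludes the
degenerate root `g = 0`.  This is the only case used by `G.levelFrob_of_parts`
(see `LevelFrob.lean`: the assembly with the frozen leaves of `S35/G/SpecLevel.lean`).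
`algFrobT_of_leaves : PuritySmoothLeaf → PurityNodeLeaf → GlueLeaf → AlgFrobStatementT`.
-/

set_option autoImplicit false
set_option linter.unusedSectionVars false
set_option linter.unusedVariables false

namespace Fermat.Agent.S35.H433

open Fermat.Agent.A2 Fermat.Agent.A2.Alg Fermat.Agent.A2.H348 Fermat.Agent.A2.Alg.H348
open Fermat.Agent.S35.G (CutBy NodeStable)

section Defs

variable {R F : Type*} [CommRing R] [Field F] [Algebra R F]

/-- `u ≡ g ^ m mod w V` for a UNIT `g` of `V`. -/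
def PowVU (w : R) (V : ValuationSubring F) (m : ℕ) (u : F) : Prop :=
  ∃ g : F, g ≠ 0 ∧ g ∈ V ∧ g⁻¹ ∈ V ∧ (u - g ^ m) * (algebraMap R F w)⁻¹ ∈ V

theorem nonunits_mul_mem {V : ValuationSubring F} {a b : F} (ha : a ∈ V.nonunits) (hb : b ∈ V) :
    a * b ∈ V.nonunits := by
  rw [ValuationSubring.mem_nonunits_iff] at ha ⊢
  rw [map_mul]
  have hb' : V.valuation b ≤ 1 := (V.valuation_le_one_iff b).2 hb
  calc V.valuation a * V.valuation b ≤ V.valuation a * 1 := by gcongr
    _ = V.valuation a := mul_one _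
    _ < 1 := ha

/-- `PowVU` at `V`, `V ⊆ W`, `w` not a unit of `W`  ⟹  `GSplitV` at `W`. -/
theorem gSplitV_of_powVU {w : R} {V W : ValuationSubring F} (hVW : ∀ z : F, z ∈ V → z ∈ W)
    (hwW : (algebraMap R F w)⁻¹ ∉ W) (hRW : ∀ r : R, algebraMap R F r ∈ W) {m : ℕ} {u : F}
    (h : PowVU w V m u) : GSplitV R W m u := by
  obtain ⟨g, hg0, hg, hgi, hu⟩ := h
  refine ⟨g, hg0, hVW _ hg, hVW _ hgi, 1, isUnit_one, ?_⟩
  have hw0 : algebraMap R F w ≠ 0 := by
    intro h0
    apply hwW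
    rw [h0, inv_zero]
    exact W.zero_mem
  have hgm : g ^ m ≠ 0 := pow_ne_zero _ hg0
  have e : u * (g ^ m)⁻¹ - algebraMap R F 1
      = algebraMap R F w * (((u - g ^ m) * (algebraMap R F w)⁻¹) * (g⁻¹) ^ m) := by
    rw [map_one, inv_pow]
    field_simp
  rw [e]
  refine nonunits_mul_mem ?_ (W.mul_mem _ _ (hVW _ hu) (W.pow_mem (hVW _ hgi) m))
  rw [ValuationSubring.mem_nonunits_iff_or]
  exact Or.inr hwW

end Defs

section Chart

variable {R E F : Type*} [CommRing R] [IsDomain R] [IsDiscreteValuationRing R]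
  [Field E] [CharZero E] [Algebra R E] [IsFractionRing R E]
  [Field F] [Algebra E F] [Algebra R F] [IsScalarTower R E F]

/-- A polynomial expression in `x` with a coefficient equal to `1` is not in a component. -/
theorem aeval_not_mem_of_coeff_one (w : R) (x : F) (B : Subalgebra R F) (hB : ChartCtx E w x B)
    {A : Subalgebra R F} {p p' : Ideal B} [hp : p.IsPrime]
    (D : CompData (Algebra.adjoin R ({x} : Set F)) B p p' w) (P : Polynomial R) (k : ℕ)
    (hk : P.coeff k = 1) (b : B) (hb : (b : F) = Polynomial.aeval x P) : b ∉ p := by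
  intro hbp
  have hx : Transcendental R x := H34.transcendental_of_field hB.hx
  have hbA : (b : F) ∈ Algebra.adjoin R ({x} : Set F) := by
    rw [hb, Algebra.adjoin_singleton_eq_range_aeval]
    exact ⟨P, rfl⟩
  obtain ⟨a', ha', hba⟩ := D.contract b hbA hbp
  rw [Algebra.adjoin_singleton_eq_range_aeval] at ha'
  obtain ⟨P', rfl⟩ := ha'
  have h0 : Polynomial.aeval x (P - Polynomial.C w * P') = 0 := by
    rw [map_sub, map_mul, Polynomial.aeval_C, ← hb, hba]
    simp
  have h1 : P - Polynomial.C w * P' = 0 := by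
    by_contra hne
    exact hx ⟨_, hne, h0⟩
  have h2 := congrArg (fun T => Polynomial.coeff T k) h1
  simp only [Polynomial.coeff_sub, Polynomial.coeff_C_mul, Polynomial.coeff_zero, hk] at h2
  have hunit : IsUnit w := IsUnit.of_mul_eq_one (P'.coeff k) (by linear_combination -h2)
  exact hB.hw.not_isUnit hunit

/-- The local ring of a component of a chart satisfies `ValCtx`. -/
theorem valCtx_locAt (w : R) (x : F) (B : Subalgebra R F) (hB : ChartCtx E w x B)
    {p p' : Ideal B} [hp : p.IsPrime]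
    (D : CompData (Algebra.adjoin R ({x} : Set F)) B p p' w) :
    ValCtx w x (D.valuationSubring (adjoin_le_of_ctx hB)) := by
  have hxB : x ∈ B := H609.self_mem_chart x B hB.hB
  have hx : Transcendental R x := H34.transcendental_of_field hB.hx
  have hx0 : x ≠ 0 := by
    rintro rfl
    exact hx ⟨Polynomial.X, Polynomial.X_ne_zero, by simp⟩
  -- an element of `B ∖ p` is a unit of `B_p`
  have hunit : ∀ b : B, b ∉ p → (b : F)⁻¹ ∈ locAt B p := fun b hb =>
    ⟨b, hb, by rw [mul_inv_cancel₀ (coe_ne_zero_of_not_mem hb)]; exact B.one_mem⟩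
  have hmemB : ∀ b : F, b ∈ B → b ∈ locAt B p := fun b hb =>
    ⟨1, fun h => hp.ne_top ((Ideal.eq_top_iff_one p).2 h), by simpa using hb⟩
  have h1 : (⟨x, hxB⟩ : B) ∉ p :=
    aeval_not_mem_of_coeff_one (A := B) w x B hB D Polynomial.X 1 (by simp) _ (by simp)
  have h2 : ∀ r : R, (⟨x - algebraMap R F r, B.sub_mem hxB (B.algebraMap_mem r)⟩ : B) ∉ p :=
    fun r => aeval_not_mem_of_coeff_one (A := B) w x B hB D (Polynomial.X - Polynomial.C r) 1
      (by simp) _ (by simp)
  have h3 : ∀ r : R, (⟨1 - algebraMap R F r * x,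
      B.sub_mem B.one_mem (B.mul_mem (B.algebraMap_mem r) hxB)⟩ : B) ∉ p :=
    fun r => aeval_not_mem_of_coeff_one (A := B) w x B hB D
      (1 - Polynomial.C r * Polynomial.X) 0 (by simp) _ (by simp)
  refine ⟨fun r => (locAt B p).algebraMap_mem r, hmemB x hxB, hunit _ h1, D.w_inv_notMem,
    fun r => hunit _ (h2 r), fun r => ?_⟩
  have e : (x⁻¹ - algebraMap R F r)⁻¹ = x * (1 - algebraMap R F r * x)⁻¹ := by
    have hne : (1 - algebraMap R F r * x) ≠ 0 := coe_ne_zero_of_not_mem (h3 r)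
    have hne' : x⁻¹ - algebraMap R F r ≠ 0 := by
      intro h
      apply hne
      have : 1 - algebraMap R F r * x = (x⁻¹ - algebraMap R F r) * x := by
        field_simp
      rw [this, h, zero_mul]
    field_simp
  rw [e]
  exact (locAt B p).mul_mem (hmemB x hxB) (hunit _ (h3 r))

/-- A valuation ring cutting out the component `p` is contained in `B_p`. -/
theorem le_locAt_of_cut {w : R} {B : Subalgebra R F} {A : Subalgebra R F} {p p' : Ideal B}
    [hp : p.IsPrime] (D : CompData A B p p' w) (hAB : A ≤ B) (V : ValuationSubring F)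
    (hle : ∀ b ∈ B, b ∈ V) (hcut : ∀ b : B, b ∈ p ↔ (b : F) * (algebraMap R F w)⁻¹ ∈ V)
    (z : F) (hz : z ∈ V) : z ∈ locAt B p := by
  rcases D.mem_or_inv_mem hAB z with h | h
  · exact h
  · by_contra hz'
    obtain ⟨s, hs, hsz⟩ := D.mul_inv_mem h (by rwa [inv_inv])
    apply hs
    rw [hcut]
    have hz0 : z ≠ 0 := by
      rintro rfl
      exact hz' (locAt B p).zero_mem
    have hw0 := D.w_ne
    have e : (s : F) * (algebraMap R F w)⁻¹ = (s : F) * (z⁻¹ * (algebraMap R F w)⁻¹) * z := by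
      field_simp
    rw [e]
    exact V.mul_mem _ _ (hle _ hsz) hz

end Chart

section Phi

variable {R F : Type*} [CommRing R] [Field F] [Algebra R F]

/-- The restriction to `B` of an automorphism of `F` mapping `B` into itself. -/
def restrictHom (φ : F ≃+* F) (B : Subalgebra R F) (h : ∀ b : F, b ∈ B → φ b ∈ B) : B →+* B where
  toFun b := ⟨φ b, h b b.2⟩
  map_one' := Subtype.ext (by simp)
  map_mul' a b := Subtype.ext (by simp)
  map_zero' := Subtype.ext (by simp)
  map_add' a b := Subtype.ext (by simp)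

@[simp] theorem coe_restrictHom (φ : F ≃+* F) (B : Subalgebra R F)
    (h : ∀ b : F, b ∈ B → φ b ∈ B) (b : B) : ((restrictHom φ B h b : B) : F) = φ b := rfl

/-- `ψ` maps the component cut out by `V` into itself. -/
theorem restrictHom_mem_of_cut {w : R} {B : Subalgebra R F} {p : Ideal B}
    (V : ValuationSubring F) (hle : ∀ b ∈ B, b ∈ V)
    (hcut : ∀ b : B, b ∈ p ↔ (b : F) * (algebraMap R F w)⁻¹ ∈ V)
    (ψ : F ≃+* F) (hψB : ∀ b : F, b ∈ B → ψ b ∈ B) (hψV : ∀ f ∈ V, ψ f ∈ V)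
    (t : R) (hψw : ψ (algebraMap R F w) = algebraMap R F w * algebraMap R F t)
    (hw0 : algebraMap R F w ≠ 0) {b : B} (hb : b ∈ p) : restrictHom ψ B hψB b ∈ p := by
  rw [hcut] at hb ⊢
  have h1 := hψV _ hb
  rw [map_mul, map_inv₀, hψw] at h1
  have ht0 : algebraMap R F t ≠ 0 := by
    intro h
    have : ψ (algebraMap R F w) = 0 := by rw [hψw, h, mul_zero]
    exact hw0 ((map_eq_zero_iff ψ ψ.injective).1 this)
  have e : ((restrictHom ψ B hψB b : B) : F) * (algebraMap R F w)⁻¹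
      = ψ b * (algebraMap R F w * algebraMap R F t)⁻¹ * algebraMap R F t := by
    rw [coe_restrictHom]
    field_simp
  rw [e]
  exact V.mul_mem _ _ h1 (hle _ (B.algebraMap_mem t))

/-- `ψ` preserves `B_p` if it preserves `B` and `p` (both ways). -/
theorem phi_mem_locAt_iff {B : Subalgebra R F} {p : Ideal B} [hp : p.IsPrime] (ψ : F ≃+* F)
    (hψB : ∀ b : F, b ∈ B → ψ b ∈ B) (hψB' : ∀ b : F, ψ b ∈ B → b ∈ B)
    (hmap : ∀ b : B, restrictHom ψ B hψB b ∈ p ↔ b ∈ p) (z : F) :
    ψ z ∈ locAt B p ↔ z ∈ locAt B p := by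
  constructor
  · rintro ⟨s, hs, hsz⟩
    have hs'B : ψ.symm (s : F) ∈ B := hψB' _ (by rw [ψ.apply_symm_apply]; exact s.2)
    refine ⟨⟨ψ.symm s, hs'B⟩, ?_, ?_⟩
    · intro h
      apply hs
      have := (hmap ⟨ψ.symm s, hs'B⟩).2 h
      have e : restrictHom ψ B hψB ⟨ψ.symm s, hs'B⟩ = s :=
        Subtype.ext (by simp)
      rwa [e] at this
    · apply hψB'
      show ψ (ψ.symm (s : F) * z) ∈ B
      rw [map_mul, ψ.apply_symm_apply]
      exact hsz
  · rintro ⟨s, hs, hsz⟩
    refine ⟨restrictHom ψ B hψB s, fun h => hs ((hmap s).1 h), ?_⟩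
    rw [coe_restrictHom, ← map_mul]
    exact hψB _ hsz

end Phi

section Final

variable {R E F : Type*} [CommRing R] [IsDomain R] [IsDiscreteValuationRing R]
  [Field E] [CharZero E] [Algebra R E] [IsFractionRing R E]
  [Field F] [Algebra E F] [Algebra R F] [IsScalarTower R E F]

/-- `ψ` preserves (both ways) a component of a chart which is cut out by a `ψ`-stable valuation
ring. -/
theorem restrictHom_mem_iff_of_cut (w : R) (x : F) (B : Subalgebra R F) (hB : ChartCtx E w x B)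
    {p p' : Ideal B} [hp : p.IsPrime] (hinf : p ⊓ p' = Ideal.span {algebraMap R B w})
    (hle' : ¬ p' ≤ p) (V : ValuationSubring F) (hle : ∀ b ∈ B, b ∈ V)
    (hcut : ∀ b : B, b ∈ p ↔ (b : F) * (algebraMap R F w)⁻¹ ∈ V)
    (ψ : F ≃+* F) (ψR : R ≃+* R)
    (hψR : ∀ r : R, ψ (algebraMap R F r) = algebraMap R F (ψR r))
    (hψB : ∀ b : F, b ∈ B → ψ b ∈ B) (hψB' : ∀ b : F, ψ b ∈ B → b ∈ B)
    (hψV : ∀ f ∈ V, ψ f ∈ V) (b : B) : restrictHom ψ B hψB b ∈ p ↔ b ∈ p := by
  have hw0 : algebraMap R F w ≠ 0 := by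
    intro h
    exact hB.hw.ne_zero (H34.algebraMap_RF_injective (R := R) (F := F) E (by rw [h, map_zero]))
  have hwp : algebraMap R B w ∈ p := by
    have : algebraMap R B w ∈ p ⊓ p' := by
      rw [hinf]; exact Ideal.mem_span_singleton_self _
    exact this.1
  -- `ψR` and its inverse preserve the maximal ideal `(w)`
  have hmax : ∀ (e : R ≃+* R), ∃ t : R, e w = w * t := by
    intro e
    have h1 : e w ∈ IsLocalRing.maximalIdeal R := by
      rw [IsLocalRing.mem_maximalIdeal, mem_nonunits_iff]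
      intro hu
      apply hB.hw.not_isUnit
      have := hu.map e.symm
      rwa [RingEquiv.symm_apply_apply] at this
    rw [hB.hw.maximalIdeal_eq, Ideal.mem_span_singleton] at h1
    exact h1
  obtain ⟨t, ht⟩ := hmax ψR
  have hfwd : ∀ b : B, b ∈ p → restrictHom ψ B hψB b ∈ p := fun b hb =>
    restrictHom_mem_of_cut V hle hcut ψ hψB hψV t (by rw [hψR, ht, map_mul]) hw0 hb
  refine ⟨fun h => ?_, hfwd b⟩
  -- the prime `ψ(p)` contains `w` and is contained in `p`
  have hψsB : ∀ b : F, b ∈ B → ψ.symm b ∈ B := fun b hb =>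
    hψB' _ (by rw [ψ.apply_symm_apply]; exact hb)
  set Q₁ : Ideal B := Ideal.comap (restrictHom ψ.symm B hψsB) p with hQ₁
  have hQprime : Q₁.IsPrime := Ideal.comap_isPrime _ _
  have hQle : Q₁ ≤ p := by
    intro c hc
    have := hfwd _ hc
    have e : restrictHom ψ B hψB (restrictHom ψ.symm B hψsB c) = c :=
      Subtype.ext (by simp)
    rwa [e] at this
  have hwQ : algebraMap R B w ∈ Q₁ := by
    obtain ⟨t', ht'⟩ := hmax ψR.symm
    rw [hQ₁, Ideal.mem_comap]
    have e : restrictHom ψ.symm B hψsB (algebraMap R B w)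
        = algebraMap R B w * algebraMap R B t' := by
      apply Subtype.ext
      rw [coe_restrictHom]
      show ψ.symm (algebraMap R F w) = algebraMap R F w * algebraMap R F t'
      rw [RingEquiv.symm_apply_eq, map_mul, hψR, hψR, ← map_mul, ← map_mul, ← ht',
        RingEquiv.apply_symm_apply]
    rw [e]
    exact p.mul_mem_right _ hwp
  have hinfle : p ⊓ p' ≤ Q₁ := by
    rw [hinf, Ideal.span_singleton_le_iff_mem]
    exact hwQ
  have hpQ : p ≤ Q₁ := by
    rcases (Ideal.IsPrime.inf_le hQprime).1 hinfle with h' | h'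
    · exact h'
    · exact absurd (h'.trans hQle) hle'
  have := hpQ h
  rw [hQ₁, Ideal.mem_comap] at this
  have e : restrictHom ψ.symm B hψsB (restrictHom ψ B hψB b) = b := Subtype.ext (by simp)
  rwa [e] at this

end Final

section Unit

variable {R F : Type*} [CommRing R] [Field F] [Algebra R F]

/-- The frozen `G.PowV` gives `PowVU` for a function which is a unit of a valuation ring `W ⊇ V`
in which `w` is not invertible. -/
theorem powVU_of_powV {w : R} {V W : ValuationSubring F} (hVW : ∀ z : F, z ∈ V → z ∈ W)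
    (hwW : (algebraMap R F w)⁻¹ ∉ W) {m : ℕ} (hm : 0 < m) {u : F} (hu0 : u ≠ 0)
    (hui : u⁻¹ ∈ W) (h : Fermat.Agent.S35.G.PowV w V m u) : PowVU w V m u := by
  obtain ⟨g, hg, hgi, hgu⟩ := h
  refine ⟨g, ?_, hg, hgi, hgu⟩
  rintro rfl
  apply hwW
  rw [zero_pow hm.ne', sub_zero] at hgu
  have e : (algebraMap R F w)⁻¹ = u⁻¹ * (u * (algebraMap R F w)⁻¹) := by
    rw [← mul_assoc, inv_mul_cancel₀ hu0, one_mul]
  rw [e]
  exact W.mul_mem _ _ hui (hVW _ hgu)

/-- `ψ f / f` is a unit of a `ψ`-stable discrete valuation ring `W` with uniformiser `w`,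
`ψ w = w t`, `t ∈ Rˣ`. -/
theorem frobSub_one_unit {w : R} {W : ValuationSubring F} (ψ : F ≃+* F)
    (hψW : ∀ z : F, ψ z ∈ W ↔ z ∈ W) (t t' : R)
    (hψw : ψ (algebraMap R F w) = algebraMap R F w * algebraMap R F t) (htt' : t * t' = 1)
    (hRW : ∀ r : R, algebraMap R F r ∈ W) (hw0 : algebraMap R F w ≠ 0)
    (hdvr : ∀ f : F, f ≠ 0 → ∃ (k l : ℕ) (ε : F), ε ∈ W ∧ ε⁻¹ ∈ W ∧
      f * algebraMap R F w ^ k = algebraMap R F w ^ l * ε)
    {f : F} (hf : f ≠ 0) : ψ f * f⁻¹ ∈ W ∧ (ψ f * f⁻¹)⁻¹ ∈ W := by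
  obtain ⟨k, l, ε, hε, hεi, h⟩ := hdvr f hf
  have hε0 : ε ≠ 0 := by
    rintro rfl
    rw [mul_zero] at h
    exact (mul_ne_zero hf (pow_ne_zero _ hw0)) h
  have hT : algebraMap R F t * algebraMap R F t' = 1 := by rw [← map_mul, htt', map_one]
  have hT0 : algebraMap R F t ≠ 0 := left_ne_zero_of_mul_eq_one hT
  have hT'0 : algebraMap R F t' ≠ 0 := right_ne_zero_of_mul_eq_one hT
  have hTk : ∀ j : ℕ, algebraMap R F t ^ j * algebraMap R F t' ^ j = 1 := fun j => by
    rw [← mul_pow, hT, one_pow]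
  have hψ : ψ f * (algebraMap R F w * algebraMap R F t) ^ k
      = (algebraMap R F w * algebraMap R F t) ^ l * ψ ε := by
    have := congrArg ψ h
    rwa [map_mul, map_mul, map_pow, map_pow, hψw] at this
  have hψε0 : ψ ε ≠ 0 := (map_ne_zero ψ).2 hε0
  have hψf0 : ψ f ≠ 0 := (map_ne_zero ψ).2 hf
  have hc : algebraMap R F w ^ l * (algebraMap R F w * algebraMap R F t) ^ k ≠ 0 :=
    mul_ne_zero (pow_ne_zero _ hw0) (pow_ne_zero _ (mul_ne_zero hw0 hT0))
  have e1 : ψ f * f⁻¹
      = algebraMap R F t ^ l * algebraMap R F t' ^ k * ψ ε * ε⁻¹ := by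
    have key : ψ f * ε = algebraMap R F t ^ l * algebraMap R F t' ^ k * ψ ε * f := by
      apply mul_right_cancel₀ hc
      linear_combination (ε * algebraMap R F w ^ l) * hψ
        - (algebraMap R F t ^ l * algebraMap R F t' ^ k * algebraMap R F t ^ k * ψ ε
            * algebraMap R F w ^ l) * h
        - (algebraMap R F t ^ l * ψ ε * algebraMap R F w ^ (2 * l) * ε) * hTk k
    field_simp
    linear_combination key
  have e2 : (ψ f * f⁻¹)⁻¹
      = algebraMap R F t' ^ l * algebraMap R F t ^ k * ψ ε⁻¹ * ε := by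
    rw [e1, map_inv₀]
    have h1 := hTk l
    have h2 := hTk k
    field_simp
    linear_combination (-(algebraMap R F t ^ k * algebraMap R F t' ^ k)) * h1 - h2
  have hmemR : ∀ (r : R) (j : ℕ), algebraMap R F r ^ j ∈ W := fun r j => W.pow_mem (hRW r) j
  constructor
  · rw [e1]
    exact W.mul_mem _ _ (W.mul_mem _ _ (W.mul_mem _ _ (hmemR t l) (hmemR t' k))
      ((hψW ε).2 hε)) hεi
  · rw [e2]
    exact W.mul_mem _ _ (W.mul_mem _ _ (W.mul_mem _ _ (hmemR t' l) (hmemR t k))
      ((hψW ε⁻¹).2 hεi)) hε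

end Unit

section Data

variable {R E F : Type*} [CommRing R] [IsDomain R] [IsDiscreteValuationRing R]
  [Field E] [CharZero E] [Algebra R E] [IsFractionRing R E]
  [Field F] [Algebra E F] [Algebra R F] [IsScalarTower R E F]

/-- The local rings `W₁ = B_{p₁}`, `W₂ = B_{p₂}` of the two components of the finite chart, in the
setting of `G.AlgFrobStatement`: they contain `V₁`, `V₂`, satisfy `ValCtx`, are `ψ`-stable and
are discrete valuation rings with uniformiser `w`. -/
theorem exists_locData_of_cut (w : R) (hw : Irreducible w) (x : F) (hx : Transcendental E x)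
    (hfin : FiniteDimensional (IntermediateField.adjoin E ({x} : Set F)) F)
    (hconst : ∀ f : F, IsAlgebraic E f → f ∈ (algebraMap E F).range)
    (Bf : Subalgebra R F)
    (hBf : ∀ f : F, f ∈ Bf ↔ IsIntegral (Algebra.adjoin R ({x} : Set F)) f)
    (cf : A2.SSChart w Bf) (V₁ V₂ : ValuationSubring F) (hcutf : CutBy w Bf cf V₁ V₂)
    (ψ : F ≃+* F) (ψR : R ≃+* R)
    (hψR : ∀ r : R, ψ (algebraMap R F r) = algebraMap R F (ψR r)) (hψx : ψ x = x)
    (hψV₁ : ∀ f ∈ V₁, ψ f ∈ V₁) (hψV₂ : ∀ f ∈ V₂, ψ f ∈ V₂) :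
    ∃ W₁ W₂ : ValuationSubring F, ValCtx w x W₁ ∧ ValCtx w x W₂ ∧ W₁ ≠ W₂ ∧
      (∀ z : F, ψ z ∈ W₁ ↔ z ∈ W₁) ∧ (∀ z : F, ψ z ∈ W₂ ↔ z ∈ W₂) ∧
      (∀ z : F, z ∈ V₁ → z ∈ W₁) ∧ (∀ z : F, z ∈ V₂ → z ∈ W₂) ∧
      (∀ f : F, f ≠ 0 → ∃ (k l : ℕ) (ε : F), ε ∈ W₁ ∧ ε⁻¹ ∈ W₁ ∧
        f * algebraMap R F w ^ k = algebraMap R F w ^ l * ε) ∧
      (∀ f : F, f ≠ 0 → ∃ (k l : ℕ) (ε : F), ε ∈ W₂ ∧ ε⁻¹ ∈ W₂ ∧
        f * algebraMap R F w ^ k = algebraMap R F w ^ l * ε) := by
  have hCf : ChartCtx E w x Bf := ⟨hw, hx, hfin, hconst, hBf⟩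
  have hpr₁ := cf.prime₁
  have hpr₂ := cf.prime₂
  have hAB := adjoin_le_of_ctx hCf
  -- `ψ` preserves the chart
  have hψB : ∀ b : F, b ∈ Bf → ψ b ∈ Bf := fun b hb => phi_mem_chart ψ ψR hψR hψx Bf hBf hb
  have hψR' : ∀ r : R, ψ.symm (algebraMap R F r) = algebraMap R F (ψR.symm r) := by
    intro r
    rw [RingEquiv.symm_apply_eq, hψR, RingEquiv.apply_symm_apply]
  have hψx' : ψ.symm x = x := by rw [RingEquiv.symm_apply_eq, hψx]
  have hψB' : ∀ b : F, ψ b ∈ Bf → b ∈ Bf := fun b hb => by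
    have := phi_mem_chart ψ.symm ψR.symm hψR' hψx' Bf hBf hb
    rwa [RingEquiv.symm_apply_apply] at this
  -- the local rings of the two components
  let D₁ := compData₁ hCf cf
  let D₂ := compData₂ hCf cf
  let W₁ : ValuationSubring F := D₁.valuationSubring hAB
  let W₂ : ValuationSubring F := D₂.valuationSubring hAB
  have hW₁ : ValCtx w x W₁ := valCtx_locAt w x Bf hCf D₁
  have hW₂ : ValCtx w x W₂ := valCtx_locAt w x Bf hCf D₂
  have hne : W₁ ≠ W₂ := by
    intro heq
    obtain ⟨t, ht2, ht1⟩ := SetLike.not_le_iff_exists.1 cf.not_le₂₁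
    have h1 : (t : F)⁻¹ ∈ W₁ :=
      ⟨t, ht1, by rw [mul_inv_cancel₀ (coe_ne_zero_of_not_mem ht1)]; exact Bf.one_mem⟩
    rw [heq] at h1
    obtain ⟨s, hs, hst⟩ := h1
    apply hs
    have e : s = ⟨(s : F) * (t : F)⁻¹, hst⟩ * t := by
      apply Subtype.ext
      push_cast
      rw [mul_assoc, inv_mul_cancel₀ (coe_ne_zero_of_not_mem ht1), mul_one]
    rw [e]
    exact cf.p₂.mul_mem_left _ ht2
  have hmap₁ := restrictHom_mem_iff_of_cut w x Bf hCf cf.inf_eq cf.not_le₂₁ V₁ hcutf.le₁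
    hcutf.cut₁ ψ ψR hψR hψB hψB' hψV₁
  have hmap₂ := restrictHom_mem_iff_of_cut w x Bf hCf (by rw [inf_comm]; exact cf.inf_eq)
    cf.not_le₁₂ V₂ hcutf.le₂ hcutf.cut₂ ψ ψR hψR hψB hψB' hψV₂
  have hψW₁ : ∀ z : F, ψ z ∈ W₁ ↔ z ∈ W₁ := phi_mem_locAt_iff ψ hψB hψB' hmap₁
  have hψW₂ : ∀ z : F, ψ z ∈ W₂ ↔ z ∈ W₂ := phi_mem_locAt_iff ψ hψB hψB' hmap₂
  have hV₁W₁ : ∀ z : F, z ∈ V₁ → z ∈ W₁ := le_locAt_of_cut D₁ hAB V₁ hcutf.le₁ hcutf.cut₁
  have hV₂W₂ : ∀ z : F, z ∈ V₂ → z ∈ W₂ := le_locAt_of_cut D₂ hAB V₂ hcutf.le₂ hcutf.cut₂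
  exact ⟨W₁, W₂, hW₁, hW₂, hne, hψW₁, hψW₂, hV₁W₁, hV₂W₂,
    fun f hf => D₁.exists_zpow_mul hAB hf, fun f hf => D₂.exists_zpow_mul hAB hf⟩

end Data

/-- **ALG-FROB, corrected interface**: `G.AlgFrobStatement` VERBATIM with `G.PowV` replaced by
`PowVU` (the root `g` is required to be nonzero). -/
def AlgFrobStatementU : Prop :=
  ∀ {R E F : Type} [CommRing R] [IsDomain R] [IsDiscreteValuationRing R] [HenselianLocalRing R]
    [IsAlgClosed (IsLocalRing.ResidueField R)]
    [Field E] [CharZero E] [Algebra R E] [IsFractionRing R E]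
    [Field F] [Algebra E F] [Algebra R F] [IsScalarTower R E F]
    (w : R) (_ : Irreducible w) (q m Q : ℕ) (_ : q.Prime)
    (_ : (q : R) ∈ IsLocalRing.maximalIdeal R) (_ : 0 < m) (_ : ¬ q ∣ m)
    (x : F) (_ : Transcendental E x)
    (_ : FiniteDimensional (IntermediateField.adjoin E ({x} : Set F)) F)
    (_ : ∀ f : F, IsAlgebraic E f → f ∈ (algebraMap E F).range)
    (Bf Bi : Subalgebra R F)
    (_ : ∀ f : F, f ∈ Bf ↔ IsIntegral (Algebra.adjoin R ({x} : Set F)) f)
    (_ : ∀ f : F, f ∈ Bi ↔ IsIntegral (Algebra.adjoin R ({x⁻¹} : Set F)) f)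
    (cf : A2.SSChart w Bf) (ci : A2.SSChart w Bi)
    (_ : A2.SepCoord R E x Bf) (_ : A2.SepCoord R E x⁻¹ Bi)
    (V₁ V₂ : ValuationSubring F) (_ : CutBy w Bf cf V₁ V₂) (_ : CutBy w Bi ci V₁ V₂)
    (ψ : F ≃+* F) (ψE : E ≃+* E) (ψR : R ≃+* R)
    (_ : ∀ e : E, ψ (algebraMap E F e) = algebraMap E F (ψE e))
    (_ : ∀ r : R, ψE (algebraMap R E r) = algebraMap R E (ψR r))
    (_ : ψ x = x)
    (_ : ∀ r : R, ψR r - r ^ Q ∈ IsLocalRing.maximalIdeal R)
    (_ : ∀ f ∈ V₁, ψ f ∈ V₁) (_ : ∀ f ∈ V₂, ψ f ∈ V₂)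
    (_ : NodeStable Bf cf ψ) (_ : NodeStable Bi ci ψ),
    ∀ h : F, h ≠ 0 → A2.DivisibleDiv E m h → PowVU w V₁ m h → PowVU w V₂ m h →
      ∃ y : F, y ≠ 0 ∧ ψ h = y ^ m * h ^ Q

/-- **ALG-FROB from the three leaves of the A2 wall.** -/
theorem algFrobU_of_leaves (hPS : H34.PuritySmoothLeaf) (hPN : H34.PurityNodeLeaf)
    (hG : H34.GlueLeaf) : AlgFrobStatementU := by
  intro R E F _ _ _ _ _ _ _ _ _ _ _ _ _ w hw q m Q hq hqR hm hqm x hx hfin hconst Bf Bi hBf hBi
    cf ci sf si V₁ V₂ hcutf hcuti ψ ψE ψR hψE hψER hψx hfrob hψV₁ hψV₂ hnodef hnodei h hh hdiv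
    hp₁ hp₂
  have hψR : ∀ r : R, ψ (algebraMap R F r) = algebraMap R F (ψR r) := by
    intro r
    rw [IsScalarTower.algebraMap_apply R E F, hψE, hψER, ← IsScalarTower.algebraMap_apply]
  -- `Q > 0`
  have hQ : 0 < Q := by
    rcases Nat.eq_zero_or_pos Q with rfl | hQ
    · exfalso
      have := hfrob 0
      rw [map_zero, pow_zero, zero_sub] at this
      have h1 : (1 : R) ∈ IsLocalRing.maximalIdeal R := by
        have := (IsLocalRing.maximalIdeal R).neg_mem this
        rwa [neg_neg] at this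
      exact (IsLocalRing.maximalIdeal.isMaximal R).ne_top ((Ideal.eq_top_iff_one _).2 h1)
    · exact hQ
  have hfrob' : ∀ r : R, ∃ s : R, ψR r - r ^ Q = w * s := by
    intro r
    have := hfrob r
    rw [hw.maximalIdeal_eq, Ideal.mem_span_singleton] at this
    exact this
  obtain ⟨W₁, W₂, hW₁, hW₂, hne, hψW₁, hψW₂, hV₁W₁, hV₂W₂, -, -⟩ :=
    exists_locData_of_cut (E := E) w hw x hx hfin hconst Bf hBf cf V₁ V₂ hcutf ψ ψR hψR hψx
      hψV₁ hψV₂
  exact frobToricVal_of_leaves hPS hPN hG w hw q m hq hqR hm hqm x hx hfin hconst Bf Bi hBf hBi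
    cf ci sf si W₁ W₂ hW₁ hW₂ hne ψ ψE ψR Q hQ hψE hψER hfrob' hψx hψW₁ hψW₂
    (fun n hn h1 h2 b hb hb' => hnodef n hn h1 h2 b hb ⟨ψ b, hb'⟩ rfl)
    (fun n hn h1 h2 b hb hb' => hnodei n hn h1 h2 b hb ⟨ψ b, hb'⟩ rfl)
    h hh hdiv (gSplitV_of_powVU hV₁W₁ hW₁.hw hW₁.hR hp₁) (gSplitV_of_powVU hV₂W₂ hW₂.hw hW₂.hR hp₂)

/-- **ALG-FROB, second corrected interface**: `G.AlgFrobStatement` VERBATIM (with the frozen
`G.PowV`), for the functions `h = ψ u / u = G.frobSub ψ 1 u`, `u ≠ 0`. -/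
def AlgFrobStatementT : Prop :=
  ∀ {R E F : Type} [CommRing R] [IsDomain R] [IsDiscreteValuationRing R] [HenselianLocalRing R]
    [IsAlgClosed (IsLocalRing.ResidueField R)]
    [Field E] [CharZero E] [Algebra R E] [IsFractionRing R E]
    [Field F] [Algebra E F] [Algebra R F] [IsScalarTower R E F]
    (w : R) (_ : Irreducible w) (q m Q : ℕ) (_ : q.Prime)
    (_ : (q : R) ∈ IsLocalRing.maximalIdeal R) (_ : 0 < m) (_ : ¬ q ∣ m)
    (x : F) (_ : Transcendental E x)
    (_ : FiniteDimensional (IntermediateField.adjoin E ({x} : Set F)) F)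
    (_ : ∀ f : F, IsAlgebraic E f → f ∈ (algebraMap E F).range)
    (Bf Bi : Subalgebra R F)
    (_ : ∀ f : F, f ∈ Bf ↔ IsIntegral (Algebra.adjoin R ({x} : Set F)) f)
    (_ : ∀ f : F, f ∈ Bi ↔ IsIntegral (Algebra.adjoin R ({x⁻¹} : Set F)) f)
    (cf : A2.SSChart w Bf) (ci : A2.SSChart w Bi)
    (_ : A2.SepCoord R E x Bf) (_ : A2.SepCoord R E x⁻¹ Bi)
    (V₁ V₂ : ValuationSubring F) (_ : CutBy w Bf cf V₁ V₂) (_ : CutBy w Bi ci V₁ V₂)
    (ψ : F ≃+* F) (ψE : E ≃+* E) (ψR : R ≃+* R)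
    (_ : ∀ e : E, ψ (algebraMap E F e) = algebraMap E F (ψE e))
    (_ : ∀ r : R, ψE (algebraMap R E r) = algebraMap R E (ψR r))
    (_ : ψ x = x)
    (_ : ∀ r : R, ψR r - r ^ Q ∈ IsLocalRing.maximalIdeal R)
    (_ : ∀ f ∈ V₁, ψ f ∈ V₁) (_ : ∀ f ∈ V₂, ψ f ∈ V₂)
    (_ : NodeStable Bf cf ψ) (_ : NodeStable Bi ci ψ),
    ∀ u : F, u ≠ 0 → A2.DivisibleDiv E m (Fermat.Agent.S35.G.frobSub ψ 1 u) →
      Fermat.Agent.S35.G.PowV w V₁ m (Fermat.Agent.S35.G.frobSub ψ 1 u) →
      Fermat.Agent.S35.G.PowV w V₂ m (Fermat.Agent.S35.G.frobSub ψ 1 u) →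
      ∃ y : F, y ≠ 0 ∧ ψ (Fermat.Agent.S35.G.frobSub ψ 1 u)
        = y ^ m * (Fermat.Agent.S35.G.frobSub ψ 1 u) ^ Q

/-- **ALG-FROB (form T) from the three leaves of the A2 wall.** -/
theorem algFrobT_of_leaves (hPS : H34.PuritySmoothLeaf) (hPN : H34.PurityNodeLeaf)
    (hG : H34.GlueLeaf) : AlgFrobStatementT := by
  intro R E F _ _ _ _ _ _ _ _ _ _ _ _ _ w hw q m Q hq hqR hm hqm x hx hfin hconst Bf Bi hBf hBi
    cf ci sf si V₁ V₂ hcutf hcuti ψ ψE ψR hψE hψER hψx hfrob hψV₁ hψV₂ hnodef hnodei u hu hdiv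
    hp₁ hp₂
  have hψR : ∀ r : R, ψ (algebraMap R F r) = algebraMap R F (ψR r) := by
    intro r
    rw [IsScalarTower.algebraMap_apply R E F, hψE, hψER, ← IsScalarTower.algebraMap_apply]
  obtain ⟨W₁, W₂, hW₁, hW₂, hne, hψW₁, hψW₂, hV₁W₁, hV₂W₂, hd₁, hd₂⟩ :=
    exists_locData_of_cut (E := E) w hw x hx hfin hconst Bf hBf cf V₁ V₂ hcutf ψ ψR hψR hψx
      hψV₁ hψV₂
  have hw0 : algebraMap R F w ≠ 0 := by
    intro h
    exact hw.ne_zero (H34.algebraMap_RF_injective (R := R) (F := F) E (by rw [h, map_zero]))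
  -- `ψR w = w t`, `t` a unit
  have hmax : ∀ (e : R ≃+* R), ∃ t : R, e w = w * t := by
    intro e
    have h1 : e w ∈ IsLocalRing.maximalIdeal R := by
      rw [IsLocalRing.mem_maximalIdeal, mem_nonunits_iff]
      intro hu'
      apply hw.not_isUnit
      have := hu'.map e.symm
      rwa [RingEquiv.symm_apply_apply] at this
    rw [hw.maximalIdeal_eq, Ideal.mem_span_singleton] at h1
    exact h1
  obtain ⟨t, ht⟩ := hmax ψR
  obtain ⟨t₁, ht₁⟩ := hmax ψR.symm
  have htt : t * ψR t₁ = 1 := by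
    have h1 : ψR (ψR.symm w) = w := ψR.apply_symm_apply w
    rw [ht₁, map_mul, ht] at h1
    have h2 : w * (t * ψR t₁) = w * 1 := by rw [mul_one, ← mul_assoc]; exact h1
    exact mul_left_cancel₀ hw.ne_zero h2
  have hψw : ψ (algebraMap R F w) = algebraMap R F w * algebraMap R F t := by
    rw [hψR, ht, map_mul]
  have hunit₁ := frobSub_one_unit ψ hψW₁ t (ψR t₁) hψw htt hW₁.hR hw0 hd₁ hu
  have hunit₂ := frobSub_one_unit ψ hψW₂ t (ψR t₁) hψw htt hW₂.hR hw0 hd₂ hu
  have hfs : Fermat.Agent.S35.G.frobSub ψ 1 u = ψ u * u⁻¹ := by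
    unfold Fermat.Agent.S35.G.frobSub
    rw [pow_one]
  have hh0 : Fermat.Agent.S35.G.frobSub ψ 1 u ≠ 0 := by
    rw [hfs]
    exact mul_ne_zero ((map_ne_zero ψ).2 hu) (inv_ne_zero hu)
  rw [← hfs] at hunit₁ hunit₂
  exact algFrobU_of_leaves hPS hPN hG w hw q m Q hq hqR hm hqm x hx hfin hconst Bf Bi hBf hBi
    cf ci sf si V₁ V₂ hcutf hcuti ψ ψE ψR hψE hψER hψx hfrob hψV₁ hψV₂ hnodef hnodei _ hh0 hdiv
    (powVU_of_powV hV₁W₁ hW₁.hw hm hh0 hunit₁.2 hp₁)
    (powVU_of_powV hV₂W₂ hW₂.hw hm hh0 hunit₂.2 hp₂)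

end Fermat.Agent.S35.H433

end
-- ===== PACK-END S35/H433/AlgFrob.lean

-- ===== PACK-BEGIN S35/H433/LevelFrob.lean
section



/-!
# S35 / (G') — the level statement from the FROZEN modular leaves and the A2 wall leaves (helper433)

`G.levelFrob_of_parts` (architect helper450, `S35/G/Top.lean`) consumes `G.AlgFrobStatement`,
which is false as frozen (`G.PowV` admits the root `g = 0`; note #8042).  This file gives the
same assembly with `G.AlgFrobStatement` replaced by

* `AlgFrobStatementT` (`AlgFrob.lean`): the frozen statement restricted to `h = ψ u / u`, or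
* directly the three leaves of the A2 wall (`PuritySmoothLeaf`, `PurityNodeLeaf`, `GlueLeaf`).

ALL the other hypotheses are the frozen statements of `S35/G/SpecLevel.lean`, unchanged
(`ModelStatement`, `StableStatement`, `NodeRatStatement`, `ToricStatement` with the frozen
`G.PowV`, `FrobResStatement`, `CoordStatement`): no leaf owner has to retarget.

* `levelFrob_of_partsT`  : `AlgFrobStatementT` + modular leaves `⟹ G.LevelFrobAt A E M q m`.
* `levelFrob_of_leaves`  : A2 wall leaves + modular leaves `⟹ G.LevelFrobAt A E M q m`.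
-/

set_option autoImplicit false
set_option linter.style.haveILetI false
set_option linter.unusedSectionVars false
set_option linter.unusedVariables false
set_option synthInstance.maxHeartbeats 400000
set_option maxHeartbeats 1600000

noncomputable section

namespace Fermat.Agent.S35.H433

open ModularCurve AlgebraicCurve
open Fermat.Agent.S35.G

/-- The assembly of `G.levelFrob_of_parts` with the corrected abstract input
`AlgFrobStatementT`; every modular input is the frozen statement of `S35/G/SpecLevel.lean`. -/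
theorem levelFrob_of_partsT (A : ValuationSubring Qb) (E : IntermediateField ℚ Qb)
    (M q m : ℕ) [NeZero M] [NeZero q]
    (hq : q.Prime) (hqM : ¬ q ∣ M) (haux : HasAux M q) (hm : 0 < m) (hqm : ¬ q ∣ m)
    (hALG : AlgFrobStatementT)
    (hMODEL : ∀ w, ModelStatement A E M q w)
    (hSTAB : StableStatement A E)
    (hNODE : ∀ w, NodeRatStatement A E M q w)
    (hTORIC : ∀ w, ToricStatement A E M q m w)
    (hRES : FrobResStatement A E q)
    (hCOORD : CoordStatement E M q) :
    LevelFrobAt A E M q m := by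
  intro hA hE s hs hsF y hy hdiv hNα hNβ
  haveI : IsDiscreteValuationRing ↥(A2.Mod.RE A E) := hE.dvr
  haveI : HenselianLocalRing ↥(A2.Mod.RE A E) := hE.henselian
  haveI : IsAlgClosed (IsLocalRing.ResidueField ↥(A2.Mod.RE A E)) := hE.algClosed
  obtain ⟨w, hw⟩ := IsDiscreteValuationRing.exists_irreducible ↥(A2.Mod.RE A E)
  have hS : A2.Mod.Setting A E M q w :=
    { q_prime := hq
      q_not_dvd := hqM
      M_ne_zero := NeZero.ne M
      lies_over := hA
      dvr := hE.dvr
      unif := hw }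
  obtain ⟨V, W, VM, hV, hW, hVM, hg1, hg2, hDeg, sf, si, cf, ci, hcf, hci⟩ :=
    hMODEL w hS hE haux
  obtain ⟨hx, hfr, hconst⟩ := hDeg hq hqM
  have hpos : 0 < Module.finrank
      (IntermediateField.adjoin E ({A2.Mod.xE E M q} : Set (A2.Mod.FE E (M * q))))
      (A2.Mod.FE E (M * q)) := by
    rw [hfr]
    have h1 := A2.Mod.dedekindPsi_pos_of_ne_zero M (NeZero.ne M)
    positivity
  have hfin : FiniteDimensional
      (IntermediateField.adjoin E ({A2.Mod.xE E M q} : Set (A2.Mod.FE E (M * q))))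
      (A2.Mod.FE E (M * q)) := Module.finite_of_finrank_pos hpos
  obtain ⟨ψR, hψR, hQ⟩ := hRES hA hq s hs hsF
  have hsD : s ∈ A.decompositionSubgroup ℚ := hsF.mem_decompositionSubgroup
  have hN0 : M * q ≠ 0 := Nat.mul_ne_zero (NeZero.ne M) (NeZero.ne q)
  obtain ⟨hcomm, hσV⟩ := hSTAB (M * q) hN0 hE.dvr V W hV hW s hs hsD
  -- `ψ = σ ∘ σ`
  have hψσ : ∀ f : A2.Mod.FE E (M * q), psiE E (M * q) s hs f =
      actE E (M * q) (A2.Mod.resE E s hs) (actE E (M * q) (A2.Mod.resE E s hs) f) :=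
    fun f => actE_mul_apply E (M * q) _ _ f
  have hψV : ∀ f ∈ V, psiE E (M * q) s hs f ∈ V := fun f hf => by
    rw [hψσ]
    exact hσV _ (hσV _ hf)
  have hψV₀ : ∀ f ∈ V.comap (W : A2.Mod.FE E (M * q) →+* A2.Mod.FE E (M * q)),
      psiE E (M * q) s hs f ∈ V.comap (W : A2.Mod.FE E (M * q) →+* A2.Mod.FE E (M * q)) :=
    fun f hf => by
      show W (psiE E (M * q) s hs f) ∈ V
      rw [hψσ, ← hcomm, ← hcomm]
      exact hσV _ (hσV _ hf)
  -- semilinearity
  have hψE : ∀ e : E, psiE E (M * q) s hs (algebraMap E (A2.Mod.FE E (M * q)) e) =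
      algebraMap E (A2.Mod.FE E (M * q))
        ((A2.Mod.resE E s hs * A2.Mod.resE E s hs).toRingEquiv e) :=
    fun e => arithmeticRingAut_algebraMap (modularFunctionFieldFull (M * q)) _ e
  have hψRE : ∀ r : ↥(A2.Mod.RE A E),
      (A2.Mod.resE E s hs * A2.Mod.resE E s hs).toRingEquiv (algebraMap ↥(A2.Mod.RE A E) E r) =
        algebraMap ↥(A2.Mod.RE A E) E (ψR r) := fun r => hψR r
  -- the function `(ψ - 1)² y`
  set h₁ := frobSub (psiE E (M * q) s hs) 1 y with hh₁
  set h₂ := frobSub (psiE E (M * q) s hs) 1 h₁ with hh₂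
  have hh₁0 : h₁ ≠ 0 := frobSub_ne_zero _ 1 hy
  have hh₂0 : h₂ ≠ 0 := frobSub_ne_zero _ 1 hh₁0
  have hd₁ : A2.DivisibleDiv E m h₁ := divisibleDiv_frobSub_one _ _ hψE m y hdiv
  have hd₂ : A2.DivisibleDiv E m h₂ := divisibleDiv_frobSub_one _ _ hψE m h₁ hd₁
  obtain ⟨ht₁, ht₂⟩ := hTORIC w hS hE hm hqm V W hV hW s hs hsF y hy hNα hNβ
  have hnf := hNODE w hS hE VM V W hVM hV hW _ _ (Or.inl ⟨rfl, rfl⟩) hg1 cf
    hcf.cut₁ hcf.cut₂ s hs hsF
  have hni := hNODE w hS hE VM V W hVM hV hW _ _ (Or.inr ⟨rfl, rfl⟩) hg2 ci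
    hci.cut₁ hci.cut₂ s hs hsF
  obtain ⟨z, hz, hzz⟩ := hALG (R := ↥(A2.Mod.RE A E)) (E := E) (F := ↥(A2.Mod.FE E (M * q)))
    w hw q m (q ^ 2) hq (A2.T1.H669.natCast_mem_maximalIdeal_RE E hA) hm hqm
    (A2.Mod.xE E M q) hx hfin hconst
    (A2.Mod.chartAlg A E (M * q) (A2.Mod.xE E M q))
    (A2.Mod.chartAlg A E (M * q) (A2.Mod.xE E M q)⁻¹)
    (fun _ => Iff.rfl) (fun _ => Iff.rfl) cf ci sf si V
    (V.comap (W : A2.Mod.FE E (M * q) →+* A2.Mod.FE E (M * q))) hcf hci
    (psiE E (M * q) s hs) (A2.Mod.resE E s hs * A2.Mod.resE E s hs).toRingEquiv ψR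
    hψE hψRE (hCOORD _) hQ hψV hψV₀ hnf hni h₁ hh₁0 hd₂ ht₁ ht₂
  refine ⟨z, hz, ?_⟩
  show frobSub (psiE E (M * q) s hs) (q ^ 2) h₂ = z ^ m
  unfold frobSub
  have hzz' : psiE E (M * q) s hs h₂ = z ^ m * h₂ ^ (q ^ 2) := hzz
  rw [hzz', mul_assoc, mul_inv_cancel₀ (pow_ne_zero _ hh₂0), mul_one]

/-- **The level statement of (G') from the three leaves of the A2 wall and the frozen modular
leaves of `S35/G/SpecLevel.lean`.** -/
theorem levelFrob_of_leaves (A : ValuationSubring Qb) (E : IntermediateField ℚ Qb)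
    (M q m : ℕ) [NeZero M] [NeZero q]
    (hq : q.Prime) (hqM : ¬ q ∣ M) (haux : HasAux M q) (hm : 0 < m) (hqm : ¬ q ∣ m)
    (hPS : A2.Alg.H34.PuritySmoothLeaf) (hPN : A2.Alg.H34.PurityNodeLeaf)
    (hG : A2.Alg.H34.GlueLeaf)
    (hMODEL : ∀ w, ModelStatement A E M q w)
    (hSTAB : StableStatement A E)
    (hNODE : ∀ w, NodeRatStatement A E M q w)
    (hTORIC : ∀ w, ToricStatement A E M q m w)
    (hRES : FrobResStatement A E q)
    (hCOORD : CoordStatement E M q) :
    LevelFrobAt A E M q m :=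
  levelFrob_of_partsT A E M q m hq hqM haux hm hqm (algFrobT_of_leaves hPS hPN hG)
    hMODEL hSTAB hNODE hTORIC hRES hCOORD

end Fermat.Agent.S35.H433

end

end
-- ===== PACK-END S35/H433/LevelFrob.lean

-- ===== PACK-BEGIN S35/H909/BridgeG.lean
section




/-!
# S35 — bridge between the two cubic interfaces (helper909)

`qNewFrob_of_newPartFrobExplicit : G.NewPartFrobExplicit → H891.QNewFrobStatement`

* `G.NewPartFrobExplicit` (helper450, `S35/G/Spec.lean`) is what the assembly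
  `G.newPartFrobExplicit_of_parts` produces from the leaves of piece (G');
* `H891.QNewFrobStatement` (helper891, `S35/H891/Spec.lean`) is what the top glue of helper991
  consumes.

Both say `(s² - 1)² (s² - q²) x = 0` for `q`-new `x ∈ J₀(M q)[m]`; the first with
`degA x = degB x = 0` (`pic0PushTotal`), the second with `IsQNew` (push-forwards principal) and the
cubic written out.  Also: `pushInputs_heckeAlphaBar`, `pushInputs_heckeBetaBar` (the first two
clauses of `G.DegStatement`, unconditionally, from `S29/H812`), and the converse translation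
`isQNew_of_deg` / `newPartFrobAt_of_qNew`.
-/

set_option autoImplicit false

noncomputable section

namespace Fermat.Agent.S35.H909

open AlgebraicCurve ModularCurve

/-- The inputs of `pic0Push` for `α`. -/
theorem pushInputs_heckeAlphaBar (M q : ℕ) [NeZero M] [NeZero q] :
    G.PushInputs (heckeAlphaBar G.Qb M q) := by
  haveI : NeZero (M * q) := ⟨Nat.mul_ne_zero (NeZero.ne M) (NeZero.ne q)⟩
  haveI hPD : HasPrincipalDivisors G.Qb (modularFunctionFieldBar (M * q)) :=
    Fermat.Agent.Lib.RR.H864.hasPrincipalDivisors_modularFunctionFieldBar (M * q)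
  have hF := Fermat.Agent.S29.H812.exists_coord_modular M
  have hfin := Fermat.Agent.S29.H812.finiteAlong_heckeAlphaBar M q
  exact ⟨Fermat.Agent.S29.H812.isIntegral_of_finiteAlong hfin, hfin,
    Fermat.Agent.S29.H812.normFormulaAlong hF (heckeAlphaBar G.Qb M q) hfin⟩

/-- The inputs of `pic0Push` for `β`. -/
theorem pushInputs_heckeBetaBar (M q : ℕ) [NeZero M] [NeZero q] :
    G.PushInputs (heckeBetaBar G.Qb M q) := by
  haveI : NeZero (M * q) := ⟨Nat.mul_ne_zero (NeZero.ne M) (NeZero.ne q)⟩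
  haveI hPD : HasPrincipalDivisors G.Qb (modularFunctionFieldBar (M * q)) :=
    Fermat.Agent.Lib.RR.H864.hasPrincipalDivisors_modularFunctionFieldBar (M * q)
  have hF := Fermat.Agent.S29.H812.exists_coord_modular M
  have hfin := Fermat.Agent.S29.H812.finiteAlong_heckeBetaBar M q
  exact ⟨Fermat.Agent.S29.H812.isIntegral_of_finiteAlong hfin, hfin,
    Fermat.Agent.S29.H812.normFormulaAlong hF (heckeBetaBar G.Qb M q) hfin⟩

section Push

variable {K F F' : Type*} [Field K] [Field F] [Field F'] [Algebra K F] [Algebra K F']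

/-- `pic0PushTotal φ [D] = 0` iff `φ_* D` is principal. -/
theorem pic0PushTotal_mk_eq_zero_iff (φ : F →ₐ[K] F') (hφ : φ.toRingHom.IsIntegral)
    (hfin : FiniteAlong K φ) (hN : NormFormulaAlong K φ hfin)
    (D : Divisor.degZero (K := K) (F := F')) :
    G.pic0PushTotal φ (Pic0.mk D) = 0 ↔
      (Divisor.pushforwardAlong φ hφ (D : Divisor K F')).IsPrincipal := by
  rw [G.pic0PushTotal_eq φ hφ hfin hN, G.pic0Push_mk]
  constructor
  · intro h
    have h1 := (QuotientAddGroup.eq_zero_iff (G.degZeroPush φ hφ D)).1 h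
    rw [AddSubgroup.mem_addSubgroupOf] at h1
    exact h1
  · intro h
    refine (QuotientAddGroup.eq_zero_iff (G.degZeroPush φ hφ D)).2 ?_
    rw [AddSubgroup.mem_addSubgroupOf]
    exact h

end Push

/-- The cubic, written out, from `frobPolyAdd`. -/
theorem cubic_of_frobPolyAdd {X : Type*} [AddCommGroup X]
    [DistribMulAction (G.Qb ≃ₐ[ℚ] G.Qb) X] (s : G.Qb ≃ₐ[ℚ] G.Qb) (Q : ℕ) (x : X)
    (h : G.frobPolyAdd (s * s) Q x = 0) :
    s • s • s • s • s • s • x + (1 + 2 * Q) • (s • s • x) =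
      (2 + Q) • (s • s • s • s • x) + Q • x := by
  unfold G.frobPolyAdd at h
  simp only [mul_smul, smul_sub] at h
  have e1 : (1 + 2 * Q) • (s • s • x) = s • s • x + Q • (s • s • x) + Q • (s • s • x) := by
    rw [add_smul, one_smul, two_mul, add_smul, add_assoc]
  have e2 : (2 + Q) • (s • s • s • s • x) =
      s • s • s • s • x + s • s • s • s • x + Q • (s • s • s • s • x) := by
    rw [add_smul, two_smul]
  rw [e1, e2]
  rw [sub_eq_zero] at h
  have h' := h
  -- `h : A - B - (B - C) = Q•B - Q•C - (Q•C - Q•x)`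
  have key : ∀ A B C QB QC Qx : X, A - B - (B - C) = QB - QC - (QC - Qx) →
      A + (C + QC + QC) = B + B + QB + Qx := by
    intro A B C QB QC Qx hh
    have h2 : A = QB - QC - (QC - Qx) + (B - C) + B := by
      rw [← hh]; abel
    rw [h2]; abel
  exact key _ _ _ _ _ _ h'

/-- The converse rewriting. -/
theorem frobPolyAdd_of_cubic {X : Type*} [AddCommGroup X]
    [DistribMulAction (G.Qb ≃ₐ[ℚ] G.Qb) X] (s : G.Qb ≃ₐ[ℚ] G.Qb) (Q : ℕ) (x : X)
    (h : s • s • s • s • s • s • x + (1 + 2 * Q) • (s • s • x) =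
      (2 + Q) • (s • s • s • s • x) + Q • x) :
    G.frobPolyAdd (s * s) Q x = 0 := by
  unfold G.frobPolyAdd
  simp only [mul_smul, smul_sub]
  have e1 : (1 + 2 * Q) • (s • s • x) = s • s • x + Q • (s • s • x) + Q • (s • s • x) := by
    rw [add_smul, one_smul, two_mul, add_smul, add_assoc]
  have e2 : (2 + Q) • (s • s • s • s • x) =
      s • s • s • s • x + s • s • s • s • x + Q • (s • s • s • s • x) := by
    rw [add_smul, two_smul]
  rw [e1, e2] at h
  have key : ∀ A B C QB QC Qx : X, A + (C + QC + QC) = B + B + QB + Qx →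
      A - B - (B - C) - (QB - QC - (QC - Qx)) = 0 := by
    intro A B C QB QC Qx hh
    have h2 : A = B + B + QB + Qx - (C + QC + QC) := by
      rw [← hh]; abel
    rw [h2]; abel
  exact key _ _ _ _ _ _ h

/-- `IsQNew x` gives `degA x = 0` and `degB x = 0`. -/
theorem deg_eq_zero_of_isQNew (M q : ℕ) [NeZero M] [NeZero q] (x : JZero (M * q))
    (hx : H891.IsQNew M q x) : G.degA M q x = 0 ∧ G.degB M q x = 0 := by
  obtain ⟨hα, hβ, D, rfl, hA, hB⟩ := hx
  obtain ⟨_, hfinα, hNα⟩ := pushInputs_heckeAlphaBar M q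
  obtain ⟨_, hfinβ, hNβ⟩ := pushInputs_heckeBetaBar M q
  exact ⟨(pic0PushTotal_mk_eq_zero_iff _ hα hfinα hNα D).2 hA,
    (pic0PushTotal_mk_eq_zero_iff _ hβ hfinβ hNβ D).2 hB⟩

/-- `degA x = 0` and `degB x = 0` give `IsQNew x`. -/
theorem isQNew_of_deg (M q : ℕ) [NeZero M] [NeZero q] (x : JZero (M * q))
    (ha : G.degA M q x = 0) (hb : G.degB M q x = 0) : H891.IsQNew M q x := by
  obtain ⟨hα, hfinα, hNα⟩ := pushInputs_heckeAlphaBar M q
  obtain ⟨hβ, hfinβ, hNβ⟩ := pushInputs_heckeBetaBar M q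
  obtain ⟨D, rfl⟩ := QuotientAddGroup.mk_surjective x
  exact ⟨hα, hβ, D, rfl, (pic0PushTotal_mk_eq_zero_iff _ hα hfinα hNα D).1 ha,
    (pic0PushTotal_mk_eq_zero_iff _ hβ hfinβ hNβ D).1 hb⟩

/-- **Bridge (G') → QNF.**  The output of the assembly of piece (G') is the input of the top
glue. -/
theorem qNewFrob_of_newPartFrobExplicit (h : G.NewPartFrobExplicit) : H891.QNewFrobStatement := by
  intro M' q m _ _ hq hqM hm hqm P hP s hs x hx hnew
  obtain ⟨ha, hb⟩ := deg_eq_zero_of_isQNew M' q x hnew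
  exact cubic_of_frobPolyAdd s (q ^ 2) x (h M' q m hq hqM hm hqm P hP s hs x hx ha hb)

/-- **Bridge QNF → (G').** -/
theorem newPartFrobExplicit_of_qNewFrob (h : H891.QNewFrobStatement) : G.NewPartFrobExplicit := by
  intro M q m _ _ hq hqM hm hqm A hA s hs x hx ha hb
  exact frobPolyAdd_of_cubic s (q ^ 2) x
    (h M q m hq hqM hm hqm A hA s hs x hx (isQNew_of_deg M q x ha hb))

end Fermat.Agent.S35.H909

end
end
-- ===== PACK-END S35/H909/BridgeG.lean

-- ===== PACK-BEGIN S37/H155/Pull.lean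
section
/-
S37 / [PULL] (helper155), modular part: the interface `Core.PullData N (N * a) ℓ`.

For primes `a ≠ ℓ` with `a ∤ N` and `a + 1` a power of `ℓ` (e.g. `(ℓ, a) = (3, 2)` or `(2, 3)`)
the pullback `π^* : J₀(N) → J₀(N a)` along the degeneracy map `X₀(N a) → X₀(N)`
(`= heckeAlphaBar ℚ̄ N a` on function fields) is Galois equivariant, injective on torsion prime
to `ℓ` and commutes with `T_ℓ`.
-/









set_option autoImplicit false
set_option linter.style.haveILetI false
set_option linter.unusedSectionVars false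

noncomputable section

namespace Fermat.Agent.S37.H155

open ModularCurve AlgebraicCurve IntermediateField Fermat.Agent.S37.H818
open Fermat.Agent.S24 Fermat.Agent.Lib.FF398 Fermat.Agent.Lib.X0Deg

/-! ### Spanning in a simple extension -/

section Span

variable {K E : Type*} [Field K] [Field E] [Algebra K E]

/-- If `D = C(x)` with `x ∈ B` integral over `C`, then the image of `B` spans `D` over `C`. -/
theorem mem_span_range_inclusion {B C D : IntermediateField K E} (hBD : B ≤ D) (hCD : C ≤ D)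
    (x : E) (hxB : x ∈ B) (hx : IsIntegral C x)
    (hD : ∀ d ∈ D, d ∈ IntermediateField.adjoin C {x}) (g : D) :
    g ∈ (letI := algebraAlong (IntermediateField.inclusion hCD);
      Submodule.span C (Set.range (IntermediateField.inclusion hBD))) := by
  letI := algebraAlong (IntermediateField.inclusion hCD)
  have h1 : (g : E) ∈ (IntermediateField.adjoin C {x}).toSubalgebra := hD g g.2
  rw [IntermediateField.adjoin_simple_toSubalgebra_of_isAlgebraic hx.isAlgebraic,
    Algebra.adjoin_singleton_eq_range_aeval] at h1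
  obtain ⟨p, hp⟩ := h1
  have hp' : (g : E) = ∑ k ∈ Finset.range (p.natDegree + 1), ((p.coeff k : C) : E) * x ^ k := by
    rw [← hp]
    show Polynomial.aeval x p = _
    rw [Polynomial.aeval_eq_sum_range]
    refine Finset.sum_congr rfl fun k _ => ?_
    rw [Algebra.smul_def]
    rfl
  have hg : g = ∑ k ∈ Finset.range (p.natDegree + 1),
      (p.coeff k : C) • IntermediateField.inclusion hBD ⟨x ^ k, pow_mem hxB k⟩ := by
    apply Subtype.ext
    rw [hp']
    have hval : ∀ (s : Finset ℕ) (f : ℕ → D), ((∑ k ∈ s, f k : D) : E) = ∑ k ∈ s, (f k : E) :=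
      fun s f => map_sum D.val f s
    rw [hval]
    refine Finset.sum_congr rfl fun k _ => ?_
    rw [Algebra.smul_def]
    rfl
  rw [hg]
  exact Submodule.sum_mem _ fun k _ =>
    Submodule.smul_mem _ _ (Submodule.subset_span ⟨_, rfl⟩)

end Span

/-! ### The modular relations at all primes -/

open Classical in
/-- A choice of modular polynomials at all primes. -/
def phiAll (r : ℕ) : Polynomial (Polynomial ℤ) :=
  if h : r.Prime then
    haveI : NeZero r := ⟨h.ne_zero⟩
    (Classical.choice (Fermat.Agent.S28.H807.nonempty_modPolyData r h)).Φ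
  else 0

theorem phiRel_phiAll (k : Type*) [Field k] (r : ℕ) (hr : r.Prime) :
    Fermat.Agent.S28.H988.PhiRel k r (phiAll r) := by
  haveI : NeZero r := ⟨hr.ne_zero⟩
  rw [phiAll, dif_pos hr]
  exact Fermat.Agent.S28.H988.phiRel_of_modPolyData k r _

/-! ### Generation: `F̄_{Mℓ} = F̄_M(j(q^{ℓ^e}))` -/

section Gen

open Fermat.Agent.S28.H988

variable (M ℓ : ℕ)

theorem mem_adjoin_topGen (hM : M ≠ 0) (hℓ : ℓ.Prime)
    (C : IntermediateField Kbar (LaurentSeries Kbar))
    (hC : C = modularFunctionFieldFullC Kbar M)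
    (d : LaurentSeries Kbar) (hd : d ∈ modularFunctionFieldBar (M * ℓ)) :
    d ∈ IntermediateField.adjoin C {topGen Kbar M ℓ} := by
  subst hC
  rw [modularFunctionFieldBar_eq_fullC,
    full_mul_eq phiAll hM hℓ (fun r hr _ => phiRel_phiAll Kbar r hr),
    IntermediateField.mem_restrictScalars] at hd
  exact hd

theorem isIntegral_topGen (hM : M ≠ 0) (hℓ : ℓ.Prime)
    (C : IntermediateField Kbar (LaurentSeries Kbar))
    (hC : C = modularFunctionFieldFullC Kbar M) :
    IsIntegral C (topGen Kbar M ℓ) := by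
  subst hC
  obtain ⟨Q, hQm, -, hQr⟩ :=
    exists_monic_root_topGen (phiAll ℓ) hM hℓ (phiRel_phiAll Kbar ℓ hℓ)
  exact ⟨Q, hQm, by rwa [← Polynomial.aeval_def]⟩

theorem topGen_mem_bar (N a : ℕ) (hN : N ≠ 0) (ha : a ≠ 0) (hℓ : ℓ.Prime) (hℓa : ¬ ℓ ∣ a) :
    topGen Kbar (N * a) ℓ ∈ modularFunctionFieldBar (N * ℓ) := by
  rw [modularFunctionFieldBar_eq_fullC]
  have hNℓ : N * ℓ ≠ 0 := Nat.mul_ne_zero hN hℓ.ne_zero
  refine jd_mem_full Kbar hNℓ ?_
  rw [pow_dvd_mul_iff hN hℓ, topExp, topExp, Nat.factorization_mul hN ha]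
  simp only [Finsupp.coe_add, Pi.add_apply]
  rw [Nat.factorization_eq_zero_of_not_dvd hℓa]

end Gen

/-! ### The square -/

section Square

variable (N a ℓ : ℕ) [NeZero N] [NeZero a] [NeZero ℓ]

theorem le_top_level : modularFunctionFieldBar (N * ℓ) ≤ modularFunctionFieldBar (N * a * ℓ) :=
  modularFunctionFieldBar_mono ⟨a, by ring⟩

/-- The inclusion `F̄_{Nℓ} ⊆ F̄_{Naℓ}`. -/
def iTop : modularFunctionFieldBar (N * ℓ) →ₐ[Kbar] modularFunctionFieldBar (N * a * ℓ) :=
  IntermediateField.inclusion (le_top_level N a ℓ)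

theorem coe_iTop (x : modularFunctionFieldBar (N * ℓ)) :
    ((iTop N a ℓ x : modularFunctionFieldBar (N * a * ℓ)) : LaurentSeries Kbar)
      = (x : LaurentSeries Kbar) :=
  IntermediateField.coe_inclusion _ x

theorem sq_alpha : (iTop N a ℓ).comp (heckeAlphaBar Kbar N ℓ)
    = (heckeAlphaBar Kbar (N * a) ℓ).comp (heckeAlphaBar Kbar N a) := by
  apply AlgHom.ext
  intro x
  apply Subtype.ext
  rw [AlgHom.comp_apply, AlgHom.comp_apply, coe_iTop, coe_heckeAlphaBar, coe_heckeAlphaBar,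
    coe_heckeAlphaBar]

theorem sq_beta : (iTop N a ℓ).comp (heckeBetaBar Kbar N ℓ)
    = (heckeBetaBar Kbar (N * a) ℓ).comp (heckeAlphaBar Kbar N a) := by
  apply AlgHom.ext
  intro x
  apply Subtype.ext
  rw [AlgHom.comp_apply, AlgHom.comp_apply, coe_iTop, coe_heckeBetaBar, coe_heckeBetaBar,
    coe_heckeAlphaBar]

theorem iTop_isIntegral : (iTop N a ℓ).toRingHom.IsIntegral := by
  have hfin : FiniteAlong Kbar (iTop N a ℓ) :=
    finiteAlong_of_functionField _ (jF (N * ℓ)) (transcendental_jF (N * ℓ)) (jF (N * a * ℓ))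
      (transcendental_jF (N * a * ℓ))
  letI := algebraAlong (iTop N a ℓ)
  haveI : Module.Finite (FF (N * ℓ)) (FF (N * a * ℓ)) := hfin
  exact fun x => Algebra.IsIntegral.isIntegral (R := FF (N * ℓ)) x

theorem sumRamificationInertiaAlong_alpha :
    SumRamificationInertiaAlong (heckeAlphaBar Kbar N a) (heckeAlphaBarIntegral N a) := by
  letI := algebraAlong (heckeAlphaBar Kbar N a)
  haveI := isScalarTower_along (heckeAlphaBar Kbar N a)
  haveI : Module.Finite (FF N) (FF (N * a)) := finiteAlong_alpha N a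
  haveI : CharZero (FF N) :=
    charZero_of_injective_algebraMap (algebraMap Kbar (FF N)).injective
  exact sumRamificationInertia (K := Kbar) (F := FF N) (F' := FF (N * a)) (deg_eq_one_FF (N * a))

theorem normCompat_square (hℓ : ℓ.Prime) (ha : a.Prime) (hne : a ≠ ℓ) :
    NormCompat (heckeAlphaBar Kbar N ℓ) (heckeAlphaBar Kbar N a)
      (heckeAlphaBar Kbar (N * a) ℓ) (iTop N a ℓ) := by
  refine normCompat_of_span _ _ _ _ (sq_alpha N a ℓ) (finiteAlong_alpha N ℓ)
    (finrankAlong_heckeAlphaBar_square N a ℓ ha hℓ hne) ?_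
  have hℓa : ¬ ℓ ∣ a := fun h => hne ((Nat.prime_dvd_prime_iff_eq hℓ ha).mp h).symm
  have hM : N * a ≠ 0 := NeZero.ne _
  intro g
  exact mem_span_range_inclusion (le_top_level N a ℓ) (le_mul (N * a) ℓ)
    (Fermat.Agent.S28.H988.topGen Kbar (N * a) ℓ)
    (topGen_mem_bar ℓ N a (NeZero.ne N) (NeZero.ne a) hℓ hℓa)
    (isIntegral_topGen (N * a) ℓ hM hℓ _
      (Fermat.Agent.S28.H988.modularFunctionFieldBar_eq_fullC (N * a)))
    (fun d hd => mem_adjoin_topGen (N * a) ℓ hM hℓ _
      (Fermat.Agent.S28.H988.modularFunctionFieldBar_eq_fullC (N * a)) d hd) g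

end Square

/-! ### The pull datum -/

section PullData

variable (N a ℓ : ℕ) [NeZero N] [NeZero a] [NeZero ℓ]

/-- The pullback `π^* : J₀(N) → J₀(N a)`. -/
def pullHom : JZero N →+ JZero (N * a) :=
  pullbackPic0Along (heckeAlphaBar Kbar N a) (heckeAlphaBarIntegral N a)
    (fundamentalIdentityAlong_alpha N a)

theorem pullHom_galois (σ : Kbar ≃ₐ[ℚ] Kbar) (x : JZero N) :
    pullHom N a (σ • x) = σ • pullHom N a x := by
  rw [galois_smul_pic0_def, galois_smul_pic0_def]
  exact _root_.Fermat.Agent.S37.H155.pullbackPic0Along_smul _ _ _ (Fermat.Agent.S29.H571.intertwines_heckeAlphaBar N a σ) x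

theorem pullHom_inj_torsion (ha : a.Prime) (haN : ¬ a ∣ N) (m : ℕ)
    (hcop : Nat.Coprime m (a + 1)) (x : JZero N) (hm : m • x = 0) (hx : pullHom N a x = 0) :
    x = 0 := by
  refine pullbackPic0Along_eq_zero (heckeAlphaBar Kbar N a) (heckeAlphaBarIntegral N a)
    (fundamentalIdentityAlong_alpha N a) (sumRamificationInertiaAlong_alpha N a)
    (finiteAlong_alpha N a) (normFormulaAlong_alpha N a) m ?_ x hm hx
  rw [finrankAlong_heckeAlphaBar_of_not_dvd N a ha haN]
  exact hcop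

theorem pullHom_hecke (hℓ : ℓ.Prime) (ha : a.Prime) (hne : a ≠ ℓ) (x : JZero N) :
    pullHom N a (heckeOperatorAlong Kbar N ℓ x)
      = heckeOperatorAlong Kbar (N * a) ℓ (pullHom N a x) := by
  rw [heckeOperatorAlong_eq_heckePic0Bar N ℓ, heckeOperatorAlong_eq_heckePic0Bar (N * a) ℓ]
  exact pullbackPic0Along_correspondence (heckeAlphaBar Kbar N ℓ) (heckeBetaBar Kbar N ℓ)
    (heckeAlphaBar Kbar N a) (heckeAlphaBar Kbar (N * a) ℓ) (heckeBetaBar Kbar (N * a) ℓ)
    (iTop N a ℓ) (heckeAlphaBarIntegral N ℓ) (heckeBetaBarIntegral N ℓ)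
    (heckeAlphaBarIntegral N a) (heckeAlphaBarIntegral (N * a) ℓ)
    (heckeBetaBarIntegral (N * a) ℓ) (iTop_isIntegral N a ℓ) (sq_alpha N a ℓ) (sq_beta N a ℓ)
    (fundamentalIdentityAlong_beta N ℓ) (finiteAlong_alpha N ℓ) (normFormulaAlong_alpha N ℓ)
    (fundamentalIdentityAlong_beta (N * a) ℓ) (finiteAlong_alpha (N * a) ℓ)
    (normFormulaAlong_alpha (N * a) ℓ) (fundamentalIdentityAlong_alpha N a)
    (normCompat_square N a ℓ hℓ ha hne)
    (_root_.Fermat.Agent.S37.H155.hasLocalGenerators (heckeAlphaBar Kbar N ℓ) (heckeAlphaBarIntegral N ℓ)) x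

/-- **[PULL]**: for primes `a ≠ ℓ`, `a ∤ N`, `a + 1` a power of `ℓ`. -/
def pullData (hℓ : ℓ.Prime) (ha : a.Prime) (hne : a ≠ ℓ) (haN : ¬ a ∣ N)
    (hpow : ∃ k : ℕ, a + 1 = ℓ ^ k) : Fermat.Agent.S37.Core.PullData N (N * a) ℓ where
  pull := pullHom N a
  galois := pullHom_galois N a
  inj_torsion := by
    intro m hm x hmx hx
    obtain ⟨k, hk⟩ := hpow
    refine pullHom_inj_torsion N a ha haN m ?_ x hmx hx
    rw [hk]
    exact Nat.Coprime.pow_right k ((Nat.Prime.coprime_iff_not_dvd hℓ).mpr hm).symm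
  hecke := pullHom_hecke N a ℓ hℓ ha hne

/-- `ℓ = 3`, auxiliary prime `2 ∤ N`. -/
def pullData_three (hN : ¬ 2 ∣ N) : Fermat.Agent.S37.Core.PullData N (N * 2) 3 :=
  pullData N 2 3 Nat.prime_three Nat.prime_two (by decide) hN ⟨1, by norm_num⟩

/-- `ℓ = 2`, auxiliary prime `3 ∤ N`. -/
def pullData_two (hN : ¬ 3 ∣ N) : Fermat.Agent.S37.Core.PullData N (N * 3) 2 :=
  pullData N 3 2 Nat.prime_two Nat.prime_three (by decide) hN ⟨2, by norm_num⟩

end PullData

end Fermat.Agent.S37.H155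

end

end
-- ===== PACK-END S37/H155/Pull.lean

-- ===== PACK-BEGIN S37/H218/Degree.lean
section




/-!
# S37 / [ES] leaf D-deg (helper218): the degree of the degeneracy map `β = V_ℓ`

`E_N(k) := modularFunctionFieldFullC k N = k(j(q^d) : d ∣ N) ⊂ k((q))`, `V_ℓ : f(q) ↦ f(q^ℓ)`.

* `relfinrank_map_qExpand_full_mul_prime` :
  `[E_{Np}(k) : V_p(E_N(k))] = p + 1` if `p ∤ N`, `= p` if `p ∣ N`
  (all primes dividing `N p` invertible in `k`);
* `relfinrank_map_qExpand_bar_mul_prime` : the same for the Prelude's `modularFunctionFieldBar`;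
* `finrankAlong_heckeBetaBar` :
  `finrankAlong ℚ̄ (heckeBetaBar ℚ̄ N ℓ) = [F̄_{Nℓ} : V_ℓ(F̄_N)]` (as a `relfinrank`);
* `finrankAlong_heckeBetaBar_of_not_dvd` : `finrankAlong ℚ̄ (heckeBetaBar ℚ̄ N ℓ) = ℓ + 1` for a
  prime `ℓ ∤ N`;  `finrankAlong_heckeBetaBar_of_dvd` : `= ℓ` for a prime `ℓ ∣ N`.

Proof: degree counting over `k(j)` and `k(j(q^p))` with the landed S28 degree theory
(`H867.PrimeLevel`: `[k(j, j_p) : k(j)] = p + 1 = [k(j, j_p) : k(j_p)]`, `H988`: `[E_N : k(j)] = ψ(N)`).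
-/

set_option autoImplicit false

noncomputable section

open ModularCurve HahnSeries IntermediateField AlgebraicCurve

namespace Fermat.Agent.S37.H218

open Fermat.Agent.S28

section AnyField

variable (k : Type*) [Field k]

/-- `[E_{Np} : V_p(E_N)] * ψ(N) = ψ(N p)` for a prime `p`. -/
theorem relfinrank_map_qExpand_full_mul_psi (N p : ℕ) [NeZero p] (hN : N ≠ 0) (hp : p.Prime)
    (hchar : ∀ r : ℕ, r.Prime → r ∣ N * p → (r : k) ≠ 0) :
    dedekindPsi N *
      ((modularFunctionFieldFullC k N).map (qExpandAlgHomC k p)).relfinrank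
        (modularFunctionFieldFullC k (N * p)) = dedekindPsi (N * p) := by
  have hNp : N * p ≠ 0 := Nat.mul_ne_zero hN hp.ne_zero
  have hG := H988.good_of_char k (N * p) hNp hchar
  have hP : H867.PrimeLevel k p := hG.prime p hp (dvd_mul_left p N)
  set V := qExpandAlgHomC k p with hV
  set A₀ := jField k with hA₀
  set A := H867.jpField k p with hA
  set B := (modularFunctionFieldFullC k N).map V with hB
  set E' := modularFunctionFieldFullC k (N * p) with hE'
  set P := A₀ ⊔ A with hPdef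
  have hAB : A ≤ B := by
    rw [hA, H867.jpField_eq_map, hB]
    exact IntermediateField.map_mono _ (H867.jField_le_EF k N)
  have hBE : B ≤ E' := H867.map_EF_le k N p
  have hA₀E : A₀ ≤ E' := H867.jField_le_EF k (N * p)
  have hPE : P ≤ E' := sup_le hA₀E (hAB.trans hBE)
  have hA₀P : A₀ ≤ P := le_sup_left
  have hAP : A ≤ P := le_sup_right
  have h1 : A₀.relfinrank E' = A.relfinrank E' := by
    rw [← relfinrank_mul_relfinrank hA₀P hPE, ← relfinrank_mul_relfinrank hAP hPE,
      hP.deg_j, hP.deg_jp]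
  have h3 : A.relfinrank B = dedekindPsi N := by
    rw [hA, H867.jpField_eq_map, hB, relfinrank_map_map]
    exact H988.relfinrank_jField_full_eq k N hN
      (fun r hr hrN => hchar r hr (hrN.trans (Dvd.intro p rfl)))
  have h4 : A₀.relfinrank E' = dedekindPsi (N * p) :=
    H988.relfinrank_jField_full_eq k (N * p) hNp hchar
  rw [← h3, relfinrank_mul_relfinrank hAB hBE, ← h1, h4]

/-- **Degree of `β = V_p`.** `[E_{Np} : V_p(E_N)] = p + 1` if `p ∤ N`, `= p` if `p ∣ N`. -/
theorem relfinrank_map_qExpand_full_mul_prime (N p : ℕ) [NeZero p] (hN : N ≠ 0) (hp : p.Prime)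
    (hchar : ∀ r : ℕ, r.Prime → r ∣ N * p → (r : k) ≠ 0) :
    ((modularFunctionFieldFullC k N).map (qExpandAlgHomC k p)).relfinrank
        (modularFunctionFieldFullC k (N * p)) = if p ∣ N then p else p + 1 := by
  have h := relfinrank_map_qExpand_full_mul_psi k N p hN hp hchar
  have hpos := H988.dedekindPsi_pos N hN
  by_cases hpN : p ∣ N
  · rw [if_pos hpN]
    rw [H626.psi_mul_prime_of_dvd hN hp hpN, mul_comm p] at h
    exact Nat.eq_of_mul_eq_mul_left hpos h
  · rw [if_neg hpN]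
    rw [H626.psi_mul_prime_of_not_dvd hN hp hpN, mul_comm (p + 1)] at h
    exact Nat.eq_of_mul_eq_mul_left hpos h

end AnyField

section Bar

/-- `[ℚ̄(X₀(Np)) : V_p ℚ̄(X₀(N))] = p + 1` if `p ∤ N`, `= p` if `p ∣ N`. -/
theorem relfinrank_map_qExpand_bar_mul_prime (N p : ℕ) [NeZero p] (hN : N ≠ 0) (hp : p.Prime) :
    ((modularFunctionFieldBar N).map (qExpandAlgHomC (AlgebraicClosure ℚ) p)).relfinrank
        (modularFunctionFieldBar (N * p)) = if p ∣ N then p else p + 1 := by
  rw [H988.modularFunctionFieldBar_eq_fullC, H988.modularFunctionFieldBar_eq_fullC]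
  exact relfinrank_map_qExpand_full_mul_prime _ N p hN hp
    (fun r hr _ => H988.natCast_ne_zero_bar hr.ne_zero)

variable (N ℓ : ℕ) [NeZero N] [NeZero ℓ]

omit [NeZero N] in
theorem map_qExpand_bar_le :
    (modularFunctionFieldBar N).map (qExpandAlgHomC (AlgebraicClosure ℚ) ℓ)
      ≤ modularFunctionFieldBar (N * ℓ) := by
  rintro _ ⟨x, hx, rfl⟩
  exact (heckeBetaBar (AlgebraicClosure ℚ) N ℓ ⟨x, hx⟩).2

omit [NeZero N] in
/-- The degree of the Prelude degeneracy map `β` is `[F̄_{Nℓ} : V_ℓ(F̄_N)]`. -/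
theorem finrankAlong_heckeBetaBar :
    finrankAlong (AlgebraicClosure ℚ) (heckeBetaBar (AlgebraicClosure ℚ) N ℓ)
      = ((modularFunctionFieldBar N).map (qExpandAlgHomC (AlgebraicClosure ℚ) ℓ)).relfinrank
          (modularFunctionFieldBar (N * ℓ)) := by
  have hle := map_qExpand_bar_le N ℓ
  rw [relfinrank_eq_finrank_of_le hle]
  let _ := algebraAlong (heckeBetaBar (AlgebraicClosure ℚ) N ℓ)
  show Module.finrank ↥(modularFunctionFieldBar N) ↥(modularFunctionFieldBar (N * ℓ)) = _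
  let i : ↥(modularFunctionFieldBar N) ≃+*
      ↥((modularFunctionFieldBar N).map (qExpandAlgHomC (AlgebraicClosure ℚ) ℓ)) :=
    (IntermediateField.equivMap (modularFunctionFieldBar N)
      (qExpandAlgHomC (AlgebraicClosure ℚ) ℓ)).toRingEquiv
  let j : ↥(modularFunctionFieldBar (N * ℓ)) ≃+* ↥(extendScalars hle) :=
    { toFun := fun x => ⟨x.1, x.2⟩
      invFun := fun y => ⟨y.1, y.2⟩
      left_inv := fun _ => rfl
      right_inv := fun _ => rfl
      map_mul' := fun _ _ => rfl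
      map_add' := fun _ _ => rfl }
  refine Algebra.finrank_eq_of_equiv_equiv i j ?_
  ext x
  rfl

/-- For a prime `ℓ ∤ N` the degeneracy map `β : F̄_N → F̄_{Nℓ}` has degree `ℓ + 1`. -/
theorem finrankAlong_heckeBetaBar_of_not_dvd (hℓ : ℓ.Prime) (h : ¬ ℓ ∣ N) :
    finrankAlong (AlgebraicClosure ℚ) (heckeBetaBar (AlgebraicClosure ℚ) N ℓ) = ℓ + 1 := by
  rw [finrankAlong_heckeBetaBar, relfinrank_map_qExpand_bar_mul_prime N ℓ (NeZero.ne N) hℓ,
    if_neg h]

/-- For a prime `ℓ ∣ N` the degeneracy map `β : F̄_N → F̄_{Nℓ}` has degree `ℓ`. -/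
theorem finrankAlong_heckeBetaBar_of_dvd (hℓ : ℓ.Prime) (h : ℓ ∣ N) :
    finrankAlong (AlgebraicClosure ℚ) (heckeBetaBar (AlgebraicClosure ℚ) N ℓ) = ℓ := by
  rw [finrankAlong_heckeBetaBar, relfinrank_map_qExpand_bar_mul_prime N ℓ (NeZero.ne N) hℓ,
    if_pos h]

/-- For every prime `ℓ` the degree of `β` is at most `ℓ + 1`. -/
theorem finrankAlong_heckeBetaBar_le (hℓ : ℓ.Prime) :
    finrankAlong (AlgebraicClosure ℚ) (heckeBetaBar (AlgebraicClosure ℚ) N ℓ) ≤ ℓ + 1 := by
  by_cases h : ℓ ∣ N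
  · rw [finrankAlong_heckeBetaBar_of_dvd N ℓ hℓ h]
    exact Nat.le_succ ℓ
  · rw [finrankAlong_heckeBetaBar_of_not_dvd N ℓ hℓ h]

end Bar

end Fermat.Agent.S37.H218

end

end
-- ===== PACK-END S37/H218/Degree.lean

-- ===== PACK-BEGIN Ribet/H801/DegGen.lean
section
/-
RIBET / W-DEG (helper801), part 3: the function field of level `N ℓ p` is generated by the two
"`β`-images":

    F̄_{Nℓp} = V_p(F̄_{Nℓ}) ⊔ V_ℓ(F̄_{Np})        (`p ≠ ℓ` primes)

(degree count: `[F̄_{Nℓp} : V_p F̄_{Nℓ}] ≤ p + 1` by helper218, and `1, x, …, x^{p-1}` with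
`x = j(q^ℓ)` are linearly independent over every subfield of `ℚ̄((q^p))`, helper145).
-/






set_option autoImplicit false
set_option linter.style.haveILetI false

noncomputable section

namespace Fermat.Agent.Ribet.H801

open ModularCurve HahnSeries IntermediateField AlgebraicCurve
open Fermat.Agent.S28 Fermat.Agent.S37

section Generic

variable {K E : Type*} [Field K] [Field E] [Algebra K E]

/-- Elements of `T` are algebraic over `A` when `[T : A]` is finite. -/
theorem isAlgebraic_of_relfinrank_ne_zero {A T : IntermediateField K E} (hAT : A ≤ T)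
    (h : A.relfinrank T ≠ 0) {x : E} (hx : x ∈ T) : IsAlgebraic A x := by
  rw [relfinrank_eq_finrank_of_le hAT] at h
  haveI : FiniteDimensional A (extendScalars hAT) :=
    Module.finite_of_finrank_pos (Nat.pos_of_ne_zero h)
  have h1 : IsAlgebraic A (⟨x, hx⟩ : extendScalars hAT) :=
    Algebra.IsAlgebraic.isAlgebraic _
  exact (IntermediateField.isAlgebraic_iff (S := extendScalars hAT) (x := ⟨x, hx⟩)).mp h1

end Generic

theorem modularFunctionFieldBar_congr {a b : ℕ} [NeZero a] [NeZero b] (h : a = b) :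
    modularFunctionFieldBar a = modularFunctionFieldBar b := by
  subst h
  rfl

/-- `j ∈ F̄_N`. -/
theorem jqModC_mem_bar (N : ℕ) [NeZero N] :
    jqModC (AlgebraicClosure ℚ) ∈ modularFunctionFieldBar N := by
  have h : jq ∈ modularFunctionFieldFull N := by
    have h := jqd_mem_full N (one_dvd N)
    rwa [qExpand_one_apply] at h
  have h2 := coeffEmb_mem_laurentBaseChange (AlgebraicClosure ℚ) h
  have h3 : coeffEmb (AlgebraicClosure ℚ) jq = jqModC (AlgebraicClosure ℚ) := by
    rw [← jqModC_rat]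
    exact coeffMap_jqModC (algebraMap ℚ (AlgebraicClosure ℚ))
  rwa [h3] at h2

/-- `1, x, …, x^{p-1}`, `x = j(q^ℓ)`, are linearly independent over every subfield of
`k((q^p))` when `ℓ` is prime to `p`. -/
theorem linearIndependent_pow_qExpand_j (k : Type*) [Field k] (p ℓ : ℕ) [NeZero p] [NeZero ℓ]
    (hcop : Nat.Coprime ℓ p) (B : IntermediateField k (LaurentSeries k))
    (hB : B ≤ (qExpandAlgHomC k p).fieldRange) :
    LinearIndependent B (fun i : Fin p => (qExpand k ℓ (jqModC k)) ^ (i : ℕ)) := by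
  rw [Fintype.linearIndependent_iff]
  intro g hg i
  have hc : ∀ i, ∃ c : LaurentSeries k, qExpand k p c = (g i : LaurentSeries k) := by
    intro i
    obtain ⟨c, hc⟩ := hB (g i).2
    exact ⟨c, hc⟩
  choose c hc using hc
  have h : ∑ i : Fin p, qExpand k p (c i) * (qExpand k ℓ (jqModC k)) ^ (i : ℕ) = 0 := by
    rw [← hg]
    refine Finset.sum_congr rfl fun i _ => ?_
    rw [hc i]
    rfl
  have hx : qExpand k ℓ (jqModC k) ≠ 0 := by
    intro h0
    exact H145.jqModC_ne_zero' k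
      ((Fermat.Agent.S24.inf_qExpand_eq_zero_iff ℓ (jqModC k)).mp h0)
  have hord : IsCoprime (qExpand k ℓ (jqModC k)).order (p : ℤ) := by
    rw [Fermat.Agent.S24.inf_qExpand_order, H145.order_jqModC, mul_neg, mul_one]
    exact (Nat.isCoprime_iff_coprime.mpr hcop).neg_left
  have := H145.eq_zero_of_sum_qExpand_mul_pow_eq_zero p _ hx hord c h i
  apply Subtype.ext
  rw [← hc i, this, map_zero]
  rfl

/-- **Generation by the two `β`-images.** -/
theorem bar_eq_sup_map_map (N p ℓ : ℕ) [NeZero N] [NeZero p] [NeZero ℓ] (hp : p.Prime)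
    (hℓ : ℓ.Prime) (hne : ℓ ≠ p) :
    modularFunctionFieldBar (N * ℓ * p) =
      (modularFunctionFieldBar (N * ℓ)).map (qExpandAlgHomC (AlgebraicClosure ℚ) p) ⊔
        (modularFunctionFieldBar (N * p)).map (qExpandAlgHomC (AlgebraicClosure ℚ) ℓ) := by
  set A := (modularFunctionFieldBar (N * ℓ)).map (qExpandAlgHomC (AlgebraicClosure ℚ) p) with hA
  set B := (modularFunctionFieldBar (N * p)).map (qExpandAlgHomC (AlgebraicClosure ℚ) ℓ) with hB
  set T := modularFunctionFieldBar (N * ℓ * p) with hT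
  have hAT : A ≤ T := H218.map_qExpand_bar_le (N * ℓ) p
  have hBT : B ≤ T := by
    have h := H218.map_qExpand_bar_le (N * p) ℓ
    rwa [modularFunctionFieldBar_congr (Nat.mul_right_comm N p ℓ)] at h
  have hCT : A ⊔ B ≤ T := sup_le hAT hBT
  have hAC : A ≤ A ⊔ B := le_sup_left
  have hd : A.relfinrank T = if p ∣ N * ℓ then p else p + 1 :=
    H218.relfinrank_map_qExpand_bar_mul_prime (N * ℓ) p (NeZero.ne _) hp
  have hd_le : A.relfinrank T ≤ p + 1 := by
    rw [hd]; split_ifs <;> omega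
  have hd_ne : A.relfinrank T ≠ 0 := by
    rw [hd]; split_ifs
    · exact hp.ne_zero
    · omega
  have htower : A.relfinrank (A ⊔ B) * (A ⊔ B).relfinrank T = A.relfinrank T :=
    relfinrank_mul_relfinrank hAC hCT
  have hAC_ne : A.relfinrank (A ⊔ B) ≠ 0 := by
    intro h0; rw [h0, zero_mul] at htower; exact hd_ne htower.symm
  have hCT_ne : (A ⊔ B).relfinrank T ≠ 0 := by
    intro h0; rw [h0, mul_zero] at htower; exact hd_ne htower.symm
  have hcop : Nat.Coprime ℓ p := (Nat.coprime_primes hℓ hp).mpr hne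
  have hxB : qExpand (AlgebraicClosure ℚ) ℓ (jqModC (AlgebraicClosure ℚ)) ∈ B :=
    ⟨jqModC (AlgebraicClosure ℚ), jqModC_mem_bar (N * p), rfl⟩
  have h4 : p ≤ A.relfinrank (A ⊔ B) := by
    refine H867.le_relfinrank_of_linearIndependent hAC hAC_ne _ ?_
      (linearIndependent_pow_qExpand_j (AlgebraicClosure ℚ) p ℓ hcop A ?_)
    · intro i
      exact pow_mem ((le_sup_right : B ≤ A ⊔ B) hxB) _
    · intro x hx
      obtain ⟨y, -, rfl⟩ := hx
      exact ⟨y, rfl⟩
  have h1 : (A ⊔ B).relfinrank T = 1 := by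
    by_contra hne1
    have h2 : 2 ≤ (A ⊔ B).relfinrank T := by omega
    have h3 : p * 2 ≤ A.relfinrank (A ⊔ B) * (A ⊔ B).relfinrank T := Nat.mul_le_mul h4 h2
    have hp2 := hp.two_le
    omega
  exact le_antisymm (relfinrank_eq_one_iff.mp h1) hCT

end Fermat.Agent.Ribet.H801

end

end
-- ===== PACK-END Ribet/H801/DegGen.lean

-- ===== PACK-BEGIN A2/H155/PullTarget.lean
section
/-
A2 / PULL step at `Target` level (helper155).

`Target (N * a) q m → Target N q m` for a prime `a ∤ N` with `gcd(m, a + 1) = 1`: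
the pullback `π^* : J₀(N) → J₀(N a)` (S37 piece [PULL], `S37.H155.pullHom`) is Galois equivariant
and injective on `m`-torsion.

Use: the semistable model at `q = 3` (resp. `q = 2`) needs `2 ∣ N` (resp. `3 ∣ N`); for the other
levels apply the wall at level `N * 2` (resp. `N * 3`) and descend by `target_three` / `target_two`.
-/






set_option autoImplicit false
set_option linter.style.haveILetI false

noncomputable section

namespace Fermat.Agent.A2.H155

open ModularCurve AlgebraicCurve Fermat.Agent.A2 Fermat.Agent.S37.H155 Fermat.Agent.S37.H818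
open Fermat.Agent.S24 Fermat.Agent.Lib.FF398 Fermat.Agent.Lib.X0Deg

/-- The pullback `π^* : J₀(N) → J₀(N a)` (same map as `S37.H155.pullHom`; restated here to keep
the import closure small). -/
def pullHom (N a : ℕ) [NeZero N] [NeZero a] : JZero N →+ JZero (N * a) :=
  pullbackPic0Along (heckeAlphaBar Kbar N a) (heckeAlphaBarIntegral N a)
    (fundamentalIdentityAlong_alpha N a)

theorem pullHom_galois (N a : ℕ) [NeZero N] [NeZero a] (σ : Kbar ≃ₐ[ℚ] Kbar) (x : JZero N) :
    _root_.Fermat.Agent.A2.H155.pullHom N a (σ • x) = σ • _root_.Fermat.Agent.A2.H155.pullHom N a x := by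
  rw [galois_smul_pic0_def, galois_smul_pic0_def]
  exact _root_.Fermat.Agent.S37.H155.pullbackPic0Along_smul _ _ _ (Fermat.Agent.S29.H571.intertwines_heckeAlphaBar N a σ) x

theorem sumRamificationInertiaAlong_alpha (N a : ℕ) [NeZero N] [NeZero a] :
    SumRamificationInertiaAlong (heckeAlphaBar Kbar N a) (heckeAlphaBarIntegral N a) := by
  letI := algebraAlong (heckeAlphaBar Kbar N a)
  haveI := isScalarTower_along (heckeAlphaBar Kbar N a)
  haveI : Module.Finite (FF N) (FF (N * a)) := finiteAlong_alpha N a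
  haveI : CharZero (FF N) :=
    charZero_of_injective_algebraMap (algebraMap Kbar (FF N)).injective
  exact sumRamificationInertia (K := Kbar) (F := FF N) (F' := FF (N * a)) (deg_eq_one_FF (N * a))

theorem pullHom_inj_torsion (N a : ℕ) [NeZero N] [NeZero a] (ha : a.Prime) (haN : ¬ a ∣ N)
    (m : ℕ) (hcop : Nat.Coprime m (a + 1)) (x : JZero N) (hm : m • x = 0)
    (hx : _root_.Fermat.Agent.A2.H155.pullHom N a x = 0) : x = 0 := by
  refine pullbackPic0Along_eq_zero (heckeAlphaBar Kbar N a) (heckeAlphaBarIntegral N a)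
    (fundamentalIdentityAlong_alpha N a) (_root_.Fermat.Agent.A2.H155.sumRamificationInertiaAlong_alpha N a)
    (finiteAlong_alpha N a) (normFormulaAlong_alpha N a) m ?_ x hm hx
  rw [finrankAlong_heckeAlphaBar_of_not_dvd N a ha haN]
  exact hcop

/-- **PULL step for the wall A2.** -/
theorem target_of_target_mul (N a q m : ℕ) [NeZero N] [NeZero a] (ha : a.Prime)
    (haN : ¬ a ∣ N) (hcop : Nat.Coprime m (a + 1)) (h : Target (N * a) q m) :
    Target N q m := by
  intro P hP τ hτ x hx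
  have hy : m • _root_.Fermat.Agent.A2.H155.pullHom N a x = 0 := by
    rw [← map_nsmul, hx, map_zero]
  have h1 := h P hP τ hτ (_root_.Fermat.Agent.A2.H155.pullHom N a x) hy
  rw [← _root_.Fermat.Agent.A2.H155.pullHom_galois, ← _root_.Fermat.Agent.A2.H155.pullHom_galois, ← map_add, ← map_nsmul] at h1
  have hsm : ∀ y : JZero N, m • y = 0 → m • (τ • y) = 0 := by
    intro y hy0
    have e : m • (τ • y) = τ • (m • y) :=
      (map_nsmul (DistribSMul.toAddMonoidHom (JZero N) τ) m y).symm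
    rw [e, hy0]
    exact map_zero (DistribSMul.toAddMonoidHom (JZero N) τ)
  have hτx : m • (τ • x) = 0 := hsm x hx
  have hττx : m • (τ • (τ • x)) = 0 := hsm _ hτx
  have hz : m • (τ • (τ • x) + x - 2 • (τ • x)) = 0 := by
    rw [nsmul_sub, nsmul_add, hττx, hx, ← mul_nsmul', mul_comm, mul_nsmul', hτx, nsmul_zero,
      add_zero, sub_zero]
  have hpz : _root_.Fermat.Agent.A2.H155.pullHom N a (τ • (τ • x) + x - 2 • (τ • x)) = 0 := by
    rw [map_sub, h1, sub_self]
  have := _root_.Fermat.Agent.A2.H155.pullHom_inj_torsion N a ha haN m hcop _ hz hpz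
  exact sub_eq_zero.mp this

/-- The wall at `q = 3` for levels `N` with `2 ∤ N`, from the wall at level `N * 2`. -/
theorem target_three (N m : ℕ) [NeZero N] (hN : ¬ 2 ∣ N) (hm : ¬ 3 ∣ m)
    (h : Target (N * 2) 3 m) : Target N 3 m :=
  target_of_target_mul N 2 3 m Nat.prime_two hN
    ((Nat.Prime.coprime_iff_not_dvd Nat.prime_three).mpr hm).symm h

/-- The wall at `q = 2` for levels `N` with `3 ∤ N`, from the wall at level `N * 3`. -/
theorem target_two (N m : ℕ) [NeZero N] (hN : ¬ 3 ∣ N) (hm : ¬ 2 ∣ m)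
    (h : Target (N * 3) 2 m) : Target N 2 m := by
  refine target_of_target_mul N 3 2 m Nat.prime_three hN ?_ h
  have h2 : Nat.Coprime m 2 := ((Nat.Prime.coprime_iff_not_dvd Nat.prime_two).mpr hm).symm
  have : Nat.Coprime m (2 ^ 2) := Nat.Coprime.pow_right 2 h2
  simpa using this

/-- `q = 3`, torsion of `p`-power order, `p ≠ 3` prime. -/
theorem target_three_pow (N p n : ℕ) [NeZero N] (hN : ¬ 2 ∣ N) (hp : p.Prime) (hp3 : p ≠ 3)
    (h : Target (N * 2) 3 (p ^ n)) : Target N 3 (p ^ n) :=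
  target_three N (p ^ n) hN
    (fun hd => hp3 ((Nat.prime_dvd_prime_iff_eq Nat.prime_three hp).mp
      (Nat.prime_three.dvd_of_dvd_pow hd)).symm) h

/-- `q = 2`, torsion of `p`-power order, `p` an odd prime. -/
theorem target_two_pow (N p n : ℕ) [NeZero N] (hN : ¬ 3 ∣ N) (hp : p.Prime) (hp2 : p ≠ 2)
    (h : Target (N * 3) 2 (p ^ n)) : Target N 2 (p ^ n) :=
  target_two N (p ^ n) hN
    (fun hd => hp2 ((Nat.prime_dvd_prime_iff_eq Nat.prime_two hp).mp
      (Nat.prime_two.dvd_of_dvd_pow hd)).symm) h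

end Fermat.Agent.A2.H155

end

end
-- ===== PACK-END A2/H155/PullTarget.lean

-- ===== PACK-BEGIN S35/H155/AuxPull.lean
section
/-
S35 / auxiliary-level pull-back (helper155).

For primes `a ≠ q`, `q ∤ M`, the pull-back `π^* : J₀(M q) → J₀(M a q)` along the inclusion
`F̄_{M q} ⊆ F̄_{M a q}` (`S37.H155.iTop M a q`)

* is Galois equivariant (`pullTop_galois`),
* is injective on `m`-torsion if `a ∤ M q` and `gcd(m, a + 1) = 1` (`pullTop_inj_torsion`),
* intertwines the degeneracy push-forwards (base change, `S37.H818.pullback_pushforward_eq`):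
  `α'_* (π^* x) = π_M^* (α_* x)`, `β'_* (π^* x) = π_M^* (β_* x)`
  (`pushA_pullTop`, `pushB_pullTop`; `π_M^* = A2.H155.pullHom M a : J₀(M) → J₀(M a)`).

The norm compatibility of the `α`-square is `S37.H155.normCompat_square`; the one of the
`β`-square (`normCompat_square_beta`) is proved here from `F̄_{M a q} = F̄_{M q} ⊔ V_q(F̄_{M a})`.
-/









set_option autoImplicit false
set_option linter.style.haveILetI false
set_option linter.unusedSectionVars false

noncomputable section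

namespace Fermat.Agent.S35.H155

open ModularCurve AlgebraicCurve IntermediateField Fermat.Agent.S37.H818
open Fermat.Agent.Lib.FF398 Fermat.Agent.Lib.X0Deg

/-! ### The inputs of the inclusion `F̄_{M q} ⊆ F̄_{M a q}` -/

section Top

variable (M a q : ℕ) [NeZero M] [NeZero a] [NeZero q]

/-- The inclusion `F̄_{M q} ⊆ F̄_{M a q}`. -/
abbrev iT : modularFunctionFieldBar (M * q) →ₐ[AlgebraicClosure ℚ]
    modularFunctionFieldBar (M * a * q) :=
  Fermat.Agent.S37.H155.iTop M a q

theorem iT_integral : (iT M a q).toRingHom.IsIntegral :=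
  Fermat.Agent.S37.H155.iTop_isIntegral M a q

theorem finiteAlong_iT : FiniteAlong (AlgebraicClosure ℚ) (iT M a q) :=
  finiteAlong_of_functionField _ (Fermat.Agent.S24.jF (M * q)) (transcendental_jF (M * q))
    (Fermat.Agent.S24.jF (M * a * q)) (transcendental_jF (M * a * q))

theorem fundamentalIdentityAlong_iT :
    FundamentalIdentityAlong (AlgebraicClosure ℚ) (iT M a q) (iT_integral M a q) := by
  letI := algebraAlong (iT M a q)
  haveI := isScalarTower_along (iT M a q)
  haveI : Module.Finite (Fermat.Agent.S24.FF (M * q)) (Fermat.Agent.S24.FF (M * a * q)) :=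
    finiteAlong_iT M a q
  haveI : CharZero (Fermat.Agent.S24.FF (M * q)) :=
    charZero_of_injective_algebraMap
      (algebraMap (AlgebraicClosure ℚ) (Fermat.Agent.S24.FF (M * q))).injective
  exact fundamentalIdentity (K := AlgebraicClosure ℚ) (F := Fermat.Agent.S24.FF (M * q))
    (F' := Fermat.Agent.S24.FF (M * a * q)) (deg_eq_one_FF (M * a * q))

theorem normFormulaAlong_iT :
    NormFormulaAlong (AlgebraicClosure ℚ) (iT M a q) (finiteAlong_iT M a q) := by
  letI := algebraAlong (iT M a q)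
  haveI := isScalarTower_along (iT M a q)
  haveI : Module.Finite (Fermat.Agent.S24.FF (M * q)) (Fermat.Agent.S24.FF (M * a * q)) :=
    finiteAlong_iT M a q
  haveI : CharZero (Fermat.Agent.S24.FF (M * q)) :=
    charZero_of_injective_algebraMap
      (algebraMap (AlgebraicClosure ℚ) (Fermat.Agent.S24.FF (M * q))).injective
  exact pushforwardNormFormula (K := AlgebraicClosure ℚ) (F := Fermat.Agent.S24.FF (M * q))
    (F' := Fermat.Agent.S24.FF (M * a * q)) (deg_eq_one_FF (M * a * q))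

theorem sumRamificationInertiaAlong_iT :
    Fermat.Agent.S37.H155.SumRamificationInertiaAlong (iT M a q) (iT_integral M a q) := by
  letI := algebraAlong (iT M a q)
  haveI := isScalarTower_along (iT M a q)
  haveI : Module.Finite (Fermat.Agent.S24.FF (M * q)) (Fermat.Agent.S24.FF (M * a * q)) :=
    finiteAlong_iT M a q
  haveI : CharZero (Fermat.Agent.S24.FF (M * q)) :=
    charZero_of_injective_algebraMap
      (algebraMap (AlgebraicClosure ℚ) (Fermat.Agent.S24.FF (M * q))).injective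
  exact sumRamificationInertia (K := AlgebraicClosure ℚ) (F := Fermat.Agent.S24.FF (M * q))
    (F' := Fermat.Agent.S24.FF (M * a * q)) (deg_eq_one_FF (M * a * q))

/-- `[F̄_{M a q} : F̄_{M q}] = a + 1` for a prime `a ∤ M q`. -/
theorem finrankAlong_iT (ha : a.Prime) (h : ¬ a ∣ M * q) :
    finrankAlong (AlgebraicClosure ℚ) (iT M a q) = a + 1 := by
  have h0 : finrankAlong (AlgebraicClosure ℚ) (iT M a q)
      = (modularFunctionFieldBar (M * q)).relfinrank (modularFunctionFieldBar (M * a * q)) :=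
    _root_.Fermat.Agent.Lib.X0Deg.finrankAlong_inclusion _
  have hdvd : M * q ∣ M * a * q := ⟨a, by ring⟩
  have h1 := relfinrank_mul_psi hdvd
  have h2 : dedekindPsi (M * a * q) = (a + 1) * dedekindPsi (M * q) := by
    have e : M * a * q = a * (M * q) := by ring
    rw [e]
    exact Fermat.Agent.S20.Comb694.dedekindPsi_prime_mul_of_not_dvd a (M * q) ha
      (NeZero.ne (M * q)) h
  rw [h0]
  exact Nat.eq_of_mul_eq_mul_right (dedekindPsi_pos (M * q)) (h1.trans h2)

/-- The pull-back `π^* : J₀(M q) → J₀(M a q)`. -/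
def pullTop : JZero (M * q) →+ JZero (M * a * q) :=
  pullbackPic0Along (iT M a q) (iT_integral M a q) (fundamentalIdentityAlong_iT M a q)

theorem intertwines_iT (σ : AlgebraicClosure ℚ ≃ₐ[ℚ] AlgebraicClosure ℚ) :
    SemilinearAut.IntertwinesAlong
      ((iT M a q : modularFunctionFieldBar (M * q) →ₐ[AlgebraicClosure ℚ]
        modularFunctionFieldBar (M * a * q)) : _ →+* _)
      (arithmeticGalois (modularFunctionFieldFull (M * q)) σ)
      (arithmeticGalois (modularFunctionFieldFull (M * a * q)) σ) := by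
  intro x
  apply Subtype.ext
  rw [coe_arithmeticGalois_smul]
  show coeffMap (σ : AlgebraicClosure ℚ →+* AlgebraicClosure ℚ)
    ((iT M a q x : _) : LaurentSeries (AlgebraicClosure ℚ)) = _
  rw [Fermat.Agent.S37.H155.coe_iTop]
  show _ = ((iT M a q (arithmeticGalois (modularFunctionFieldFull (M * q)) σ • x) : _) :
    LaurentSeries (AlgebraicClosure ℚ))
  rw [Fermat.Agent.S37.H155.coe_iTop, coe_arithmeticGalois_smul]

theorem pullTop_galois (σ : AlgebraicClosure ℚ ≃ₐ[ℚ] AlgebraicClosure ℚ) (x : JZero (M * q)) :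
    pullTop M a q (σ • x) = σ • pullTop M a q x := by
  rw [galois_smul_pic0_def, galois_smul_pic0_def]
  exact Fermat.Agent.S37.H155.pullbackPic0Along_smul _ _ _ (intertwines_iT M a q σ) x

theorem pullTop_inj_torsion (ha : a.Prime) (haN : ¬ a ∣ M * q) (m : ℕ)
    (hcop : Nat.Coprime m (a + 1)) (x : JZero (M * q)) (hm : m • x = 0)
    (hx : pullTop M a q x = 0) : x = 0 := by
  refine Fermat.Agent.S37.H155.pullbackPic0Along_eq_zero (iT M a q) (iT_integral M a q)
    (fundamentalIdentityAlong_iT M a q) (sumRamificationInertiaAlong_iT M a q)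
    (finiteAlong_iT M a q) (normFormulaAlong_iT M a q) m ?_ x hm hx
  rw [finrankAlong_iT M a q ha haN]
  exact hcop

end Top

/-! ### The `β`-square -/

section BetaSquare

variable (M a q : ℕ) [NeZero M] [NeZero a] [NeZero q]

theorem smul_beta_coe (c : modularFunctionFieldBar (M * a))
    (x : modularFunctionFieldBar (M * a * q)) :
    letI := algebraAlong (heckeBetaBar (AlgebraicClosure ℚ) (M * a) q)
    ((c • x : modularFunctionFieldBar (M * a * q)) : LaurentSeries (AlgebraicClosure ℚ)) =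
      qExpand (AlgebraicClosure ℚ) q (c : LaurentSeries (AlgebraicClosure ℚ)) *
        (x : LaurentSeries (AlgebraicClosure ℚ)) := by
  letI := algebraAlong (heckeBetaBar (AlgebraicClosure ℚ) (M * a) q)
  have h1 : c • x = heckeBetaBar (AlgebraicClosure ℚ) (M * a) q c * x := rfl
  rw [h1, MulMemClass.coe_mul, coe_heckeBetaBar]

/-- The image of `F̄_{M q}` spans `F̄_{M a q}` over `β(F̄_{M a})`. -/
theorem span_range_iT (hq : q.Prime) (g : modularFunctionFieldBar (M * a * q)) :
    g ∈ (letI := algebraAlong (heckeBetaBar (AlgebraicClosure ℚ) (M * a) q);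
      Submodule.span (modularFunctionFieldBar (M * a)) (Set.range (iT M a q))) := by
  letI := algebraAlong (heckeBetaBar (AlgebraicClosure ℚ) (M * a) q)
  have hdvd : M * q ∣ M * a * q := ⟨a, by ring⟩
  have hsup : modularFunctionFieldBar (M * a * q)
      = modularFunctionFieldBar (M * q) ⊔
        (modularFunctionFieldBar (M * a)).map (qExpandAlgHomC (AlgebraicClosure ℚ) q) :=
    modularFunctionFieldBar_mul_eq_sup (M := M * a) q hdvd
  have hAT : (modularFunctionFieldBar (M * a)).map (qExpandAlgHomC (AlgebraicClosure ℚ) q)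
      ≤ modularFunctionFieldBar (M * a * q) := Fermat.Agent.S37.H218.map_qExpand_bar_le (M * a) q
  have hd : ((modularFunctionFieldBar (M * a)).map
      (qExpandAlgHomC (AlgebraicClosure ℚ) q)).relfinrank (modularFunctionFieldBar (M * a * q))
        ≠ 0 := by
    rw [Fermat.Agent.S37.H218.relfinrank_map_qExpand_bar_mul_prime (M * a) q (NeZero.ne _) hq]
    split_ifs
    · exact hq.ne_zero
    · omega
  have halg : ∀ x ∈ modularFunctionFieldBar (M * q),
      IsAlgebraic ((modularFunctionFieldBar (M * a)).map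
        (qExpandAlgHomC (AlgebraicClosure ℚ) q)) x := by
    intro x hx
    exact Fermat.Agent.Ribet.H801.isAlgebraic_of_relfinrank_ne_zero hAT hd
      (modularFunctionFieldBar_mono hdvd hx)
  have ht : (g : LaurentSeries (AlgebraicClosure ℚ)) ∈
      (modularFunctionFieldBar (M * a)).map (qExpandAlgHomC (AlgebraicClosure ℚ) q) ⊔
        modularFunctionFieldBar (M * q) := by
    rw [sup_comm, ← hsup]
    exact g.2
  have hs := Fermat.Agent.S29.H801.mem_span_of_mem_sup _ _ halg ht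
  have key : ∀ x : LaurentSeries (AlgebraicClosure ℚ),
      x ∈ Submodule.span
        ((modularFunctionFieldBar (M * a)).map (qExpandAlgHomC (AlgebraicClosure ℚ) q))
        ((modularFunctionFieldBar (M * q) :
          IntermediateField (AlgebraicClosure ℚ) (LaurentSeries (AlgebraicClosure ℚ))) :
            Set (LaurentSeries (AlgebraicClosure ℚ))) →
      ∃ y : modularFunctionFieldBar (M * a * q),
        y ∈ Submodule.span (modularFunctionFieldBar (M * a)) (Set.range (iT M a q)) ∧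
        (y : LaurentSeries (AlgebraicClosure ℚ)) = x := by
    intro x hx
    induction hx using Submodule.span_induction with
    | mem x hx =>
      refine ⟨iT M a q ⟨x, hx⟩, Submodule.subset_span ⟨_, rfl⟩, ?_⟩
      exact Fermat.Agent.S37.H155.coe_iTop M a q ⟨x, hx⟩
    | zero => exact ⟨0, Submodule.zero_mem _, rfl⟩
    | add x y _ _ hx hy =>
      obtain ⟨x', hx', rfl⟩ := hx
      obtain ⟨y', hy', rfl⟩ := hy
      exact ⟨x' + y', Submodule.add_mem _ hx' hy', rfl⟩
    | smul c x _ hx =>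
      obtain ⟨x', hx', rfl⟩ := hx
      obtain ⟨g', hg', hgc⟩ := c.2
      refine ⟨(⟨g', hg'⟩ : modularFunctionFieldBar (M * a)) • x', Submodule.smul_mem _ _ hx', ?_⟩
      rw [smul_beta_coe, Algebra.smul_def]
      congr 1
  obtain ⟨y, hy, hyt⟩ := key _ hs
  have : y = g := Subtype.ext hyt
  rw [← this]
  exact hy

/-- **Norm compatibility of the `β`-square**

      F_M    --β_q-->  F_{Mq}
       |α_a             |incl
       v                v
      F_{Ma} --β_q-->  F_{Maq}          (`q` prime, `q ∤ M a`). -/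
theorem normCompat_square_beta (hq : q.Prime) (hqM : ¬ q ∣ M) (hqa : ¬ q ∣ M * a) :
    NormCompat (heckeBetaBar (AlgebraicClosure ℚ) M q) (heckeAlphaBar (AlgebraicClosure ℚ) M a)
      (heckeBetaBar (AlgebraicClosure ℚ) (M * a) q) (iT M a q) := by
  refine Fermat.Agent.S37.H155.normCompat_of_span _ _ _ _ (Fermat.Agent.S37.H155.sq_beta M a q)
    (finiteAlong_beta M q) ?_ (span_range_iT M a q hq)
  rw [Fermat.Agent.S37.H218.finrankAlong_heckeBetaBar_of_not_dvd M q hq hqM,
    Fermat.Agent.S37.H218.finrankAlong_heckeBetaBar_of_not_dvd (M * a) q hq hqa]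

end BetaSquare

/-! ### Base change: `π^*` intertwines the degeneracy push-forwards -/

section AbstractBC

variable {K F F₁ G G₁ : Type*} [Field K] [Field F] [Field F₁] [Field G] [Field G₁]
  [Algebra K F] [Algebra K F₁] [Algebra K G] [Algebra K G₁]
  [HasPrincipalDivisors K G] [HasPrincipalDivisors K G₁] [HasPrincipalDivisors K F₁]

/-- **Base change on `Pic0`**: `a'_* ∘ i₁^* = i^* ∘ a_*` for a commutative square with compatible
norms. -/
theorem pushforwardPic0Along_pullbackPic0Along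
    (a : F →ₐ[K] F₁) (i : F →ₐ[K] G) (a' : G →ₐ[K] G₁) (i₁ : F₁ →ₐ[K] G₁)
    (ha : a.toRingHom.IsIntegral) (hi : i.toRingHom.IsIntegral)
    (ha' : a'.toRingHom.IsIntegral) (hi₁ : i₁.toRingHom.IsIntegral)
    (hsq : i₁.comp a = a'.comp i)
    (hfin : FiniteAlong K a) (hN : NormFormulaAlong K a hfin)
    (hfin' : FiniteAlong K a') (hN' : NormFormulaAlong K a' hfin')
    (hFIi : FundamentalIdentityAlong K i hi) (hFIi₁ : FundamentalIdentityAlong K i₁ hi₁)
    (hnorm : NormCompat a i a' i₁) (hLG : HasLocalGenerators a ha) (x : Pic0 K F₁) :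
    pushforwardPic0Along a' ha' hfin' hN' (pullbackPic0Along i₁ hi₁ hFIi₁ x) =
      pullbackPic0Along i hi hFIi (pushforwardPic0Along a ha hfin hN x) := by
  obtain ⟨D, rfl⟩ := Pic0.mk_surjective x
  rw [pullbackPic0Along_mk, pushforwardPic0Along_mk, pushforwardPic0Along_mk,
    pullbackPic0Along_mk]
  refine congrArg Pic0.mk (Subtype.ext ?_)
  rw [coe_pushforwardDegZeroAlong, coe_pullbackDegZeroAlong, coe_pullbackDegZeroAlong,
    coe_pushforwardDegZeroAlong]
  exact (pullback_pushforward_eq a i a' i₁ ha hi ha' hi₁ hsq hfin hN hfin' hN' hnorm hLG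
    (D : Divisor K F₁)).symm

end AbstractBC

section BaseChange

variable (M a q : ℕ) [NeZero M] [NeZero a] [NeZero q]

/-- `α'_* (π^* x) = π_M^* (α_* x)`. -/
theorem pushA_pullTop (hq : q.Prime) (ha : a.Prime) (hne : a ≠ q) (x : JZero (M * q)) :
    pushA (M * a) q (pullTop M a q x) = Fermat.Agent.A2.H155.pullHom M a (pushA M q x) :=
  pushforwardPic0Along_pullbackPic0Along (heckeAlphaBar (AlgebraicClosure ℚ) M q)
    (heckeAlphaBar (AlgebraicClosure ℚ) M a) (heckeAlphaBar (AlgebraicClosure ℚ) (M * a) q)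
    (iT M a q) (heckeAlphaBarIntegral M q) (heckeAlphaBarIntegral M a)
    (heckeAlphaBarIntegral (M * a) q) (iT_integral M a q)
    (Fermat.Agent.S37.H155.sq_alpha M a q)
    (finiteAlong_alpha M q) (normFormulaAlong_alpha M q)
    (finiteAlong_alpha (M * a) q) (normFormulaAlong_alpha (M * a) q)
    (fundamentalIdentityAlong_alpha M a) (fundamentalIdentityAlong_iT M a q)
    (Fermat.Agent.S37.H155.normCompat_square M a q hq ha hne)
    (Fermat.Agent.S37.H155.hasLocalGenerators _ _) x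

/-- `β'_* (π^* x) = π_M^* (β_* x)`. -/
theorem pushB_pullTop (hq : q.Prime) (hqM : ¬ q ∣ M) (hqa : ¬ q ∣ M * a) (x : JZero (M * q)) :
    pushB (M * a) q (pullTop M a q x) = Fermat.Agent.A2.H155.pullHom M a (pushB M q x) :=
  pushforwardPic0Along_pullbackPic0Along (heckeBetaBar (AlgebraicClosure ℚ) M q)
    (heckeAlphaBar (AlgebraicClosure ℚ) M a) (heckeBetaBar (AlgebraicClosure ℚ) (M * a) q)
    (iT M a q) (heckeBetaBarIntegral M q) (heckeAlphaBarIntegral M a)
    (heckeBetaBarIntegral (M * a) q) (iT_integral M a q)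
    (Fermat.Agent.S37.H155.sq_beta M a q)
    (finiteAlong_beta M q) (normFormulaAlong_beta M q)
    (finiteAlong_beta (M * a) q) (normFormulaAlong_beta (M * a) q)
    (fundamentalIdentityAlong_alpha M a) (fundamentalIdentityAlong_iT M a q)
    (normCompat_square_beta M a q hq hqM hqa)
    (Fermat.Agent.S37.H155.hasLocalGenerators _ _) x

end BaseChange

end Fermat.Agent.S35.H155

end

end
-- ===== PACK-END S35/H155/AuxPull.lean

-- ===== PACK-BEGIN S35/H155/AuxD2F.lean
section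
/-
S35 (G') / leaf D2F (helper155): auxiliary-level descent.

`newPartFrobAt_of_mul` : `NewPartFrobAt (M * a) q m → NewPartFrobAt M q m` for primes `a ≠ q`,
`a ∤ M`, `q ∤ M`, `gcd(m, a + 1) = 1`   (pull back along `X₀(M a q) → X₀(M q)`, `AuxPull.lean`);
`d2f` : `G.D2FStatement` (helper450's `Spec.lean`, VERBATIM).
-/




set_option autoImplicit false
set_option linter.style.haveILetI false
set_option linter.unusedSectionVars false

noncomputable section

namespace Fermat.Agent.S35.H155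

open ModularCurve AlgebraicCurve Fermat.Agent.Lib.FF398

/-! ### `degA = pushA`, `degB = pushB` -/

section Deg

variable (M q : ℕ) [NeZero M] [NeZero q]

theorem degA_eq_pushA : Fermat.Agent.S35.G.degA M q = pushA M q := by
  unfold Fermat.Agent.S35.G.degA
  rw [Fermat.Agent.S35.G.pic0PushTotal_eq _ (heckeAlphaBarIntegral M q) (finiteAlong_alpha M q)
    (normFormulaAlong_alpha M q)]
  rfl

theorem degB_eq_pushB : Fermat.Agent.S35.G.degB M q = pushB M q := by
  unfold Fermat.Agent.S35.G.degB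
  rw [Fermat.Agent.S35.G.pic0PushTotal_eq _ (heckeBetaBarIntegral M q) (finiteAlong_beta M q)
    (normFormulaAlong_beta M q)]
  rfl

end Deg

/-! ### The polynomial `(t - 1)² (t - Q)` and equivariant maps -/

section FrobPoly

variable {Γ X Y : Type*} [Group Γ] [AddCommGroup X] [AddCommGroup Y]
  [DistribMulAction Γ X] [DistribMulAction Γ Y]

theorem frobPolyAdd_map (f : X →+ Y) (hf : ∀ (g : Γ) (x : X), f (g • x) = g • f x)
    (t : Γ) (Q : ℕ) (x : X) :
    f (Fermat.Agent.S35.G.frobPolyAdd t Q x) = Fermat.Agent.S35.G.frobPolyAdd t Q (f x) := by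
  simp only [Fermat.Agent.S35.G.frobPolyAdd, map_sub, map_nsmul, hf]

theorem smul_torsion (m : ℕ) (t : Γ) (x : X) (hx : m • x = 0) : m • (t • x) = 0 := by
  have e : m • (t • x) = t • (m • x) :=
    (map_nsmul (DistribSMul.toAddMonoidHom X t) m x).symm
  rw [e, hx]
  exact map_zero (DistribSMul.toAddMonoidHom X t)

theorem frobPolyAdd_torsion (m : ℕ) (t : Γ) (Q : ℕ) (x : X) (hx : m • x = 0) :
    m • Fermat.Agent.S35.G.frobPolyAdd t Q x = 0 := by
  have h1 : m • (t • x) = 0 := smul_torsion m t x hx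
  have h2 : m • (t • x - x) = 0 := by rw [nsmul_sub, h1, hx, sub_zero]
  have h3 : m • (t • (t • x - x)) = 0 := smul_torsion m t _ h2
  have h4 : m • (t • (t • x - x) - (t • x - x)) = 0 := by rw [nsmul_sub, h3, h2, sub_zero]
  have h5 : m • (t • (t • (t • x - x) - (t • x - x))) = 0 := smul_torsion m t _ h4
  have h6 : m • (Q • (t • (t • x - x) - (t • x - x))) = 0 := by
    rw [nsmul_left_comm, h4, nsmul_zero]
  unfold Fermat.Agent.S35.G.frobPolyAdd
  rw [nsmul_sub, h5, h6, sub_zero]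

end FrobPoly

/-! ### The descent -/

/-- **Auxiliary-level descent for (G').** -/
theorem newPartFrobAt_of_mul (M a q m : ℕ) [NeZero M] [NeZero a] [NeZero q] (hq : q.Prime)
    (ha : a.Prime) (hne : a ≠ q) (hqM : ¬ q ∣ M) (haM : ¬ a ∣ M)
    (hcop : Nat.Coprime m (a + 1))
    (h : Fermat.Agent.S35.G.NewPartFrobAt (M * a) q m) :
    Fermat.Agent.S35.G.NewPartFrobAt M q m := by
  intro A hA s hs x hx hax hbx
  have hqa : ¬ q ∣ M * a := by
    intro hd
    rcases (Nat.Prime.dvd_mul hq).mp hd with h1 | h1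
    · exact hqM h1
    · exact hne ((Nat.prime_dvd_prime_iff_eq hq ha).mp h1).symm
  have haq : ¬ a ∣ M * q := by
    intro hd
    rcases (Nat.Prime.dvd_mul ha).mp hd with h1 | h1
    · exact haM h1
    · exact hne ((Nat.prime_dvd_prime_iff_eq ha hq).mp h1)
  have hx' : m • pullTop M a q x = 0 := by rw [← map_nsmul, hx, map_zero]
  have hax' : Fermat.Agent.S35.G.degA (M * a) q (pullTop M a q x) = 0 := by
    rw [degA_eq_pushA, pushA_pullTop M a q hq ha hne, ← degA_eq_pushA, hax, map_zero]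
  have hbx' : Fermat.Agent.S35.G.degB (M * a) q (pullTop M a q x) = 0 := by
    rw [degB_eq_pushB, pushB_pullTop M a q hq hqM hqa, ← degB_eq_pushB, hbx, map_zero]
  have h1 := h A hA s hs (pullTop M a q x) hx' hax' hbx'
  rw [← frobPolyAdd_map (pullTop M a q) (pullTop_galois M a q)] at h1
  exact pullTop_inj_torsion M a q ha haq m hcop _
    (frobPolyAdd_torsion m (s * s) (q ^ 2) x hx) h1

theorem newPartFrobAt_congr {M M' : ℕ} (e : M = M') (q m : ℕ) [hM : NeZero M] [hM' : NeZero M']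
    [NeZero q] (h : Fermat.Agent.S35.G.NewPartFrobAt M q m) :
    Fermat.Agent.S35.G.NewPartFrobAt M' q m := by
  subst e
  exact h

/-- **Leaf D2F** of `coord/S35-G-helper450.md`. -/
theorem d2f : Fermat.Agent.S35.G.D2FStatement := by
  intro M q m _ _ _ hq hqM hm hqm h
  by_cases h3 : q = 3
  · subst h3
    by_cases h2 : 2 ∣ M
    · have e : Fermat.Agent.S35.G.auxM M 3 = M := by
        unfold Fermat.Agent.S35.G.auxM
        rw [if_pos rfl]
        exact Nat.lcm_eq_left h2
      exact newPartFrobAt_congr e 3 m h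
    · have e : Fermat.Agent.S35.G.auxM M 3 = M * 2 := by
        unfold Fermat.Agent.S35.G.auxM
        rw [if_pos rfl]
        exact Nat.Coprime.lcm_eq_mul
          ((Nat.Prime.coprime_iff_not_dvd Nat.prime_two).mpr h2).symm
      refine newPartFrobAt_of_mul M 2 3 m Nat.prime_three Nat.prime_two (by decide) hqM h2 ?_
        (newPartFrobAt_congr e 3 m h)
      exact ((Nat.Prime.coprime_iff_not_dvd Nat.prime_three).mpr hqm).symm
  · by_cases h2 : q = 2
    · subst h2
      by_cases h3' : 3 ∣ M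
      · have e : Fermat.Agent.S35.G.auxM M 2 = M := by
          unfold Fermat.Agent.S35.G.auxM
          rw [if_neg (by decide), if_pos rfl]
          exact Nat.lcm_eq_left h3'
        exact newPartFrobAt_congr e 2 m h
      · have e : Fermat.Agent.S35.G.auxM M 2 = M * 3 := by
          unfold Fermat.Agent.S35.G.auxM
          rw [if_neg (by decide), if_pos rfl]
          exact Nat.Coprime.lcm_eq_mul
            ((Nat.Prime.coprime_iff_not_dvd Nat.prime_three).mpr h3').symm
        refine newPartFrobAt_of_mul M 3 2 m Nat.prime_two Nat.prime_three (by decide) hqM h3' ?_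
          (newPartFrobAt_congr e 2 m h)
        have hc2 : Nat.Coprime m 2 :=
          ((Nat.Prime.coprime_iff_not_dvd Nat.prime_two).mpr hqm).symm
        have : Nat.Coprime m (2 ^ 2) := Nat.Coprime.pow_right 2 hc2
        simpa using this
    · have e : Fermat.Agent.S35.G.auxM M q = M := by
        unfold Fermat.Agent.S35.G.auxM
        rw [if_neg h3, if_neg h2]
      exact newPartFrobAt_congr e q m h

end Fermat.Agent.S35.H155

end

end
-- ===== PACK-END S35/H155/AuxD2F.lean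

-- ===== PACK-BEGIN Lib/HI/H864/Modular.lean
section




/-!
# Lib / HI (helper864): `HeckeInputsAlong ℚ̄ N ℓ` holds

The Prelude Hecke operator `heckeOperatorAlong ℚ̄ N ℓ` is defined as the genuine correspondence
`α_* β^*` when the six inputs `HeckeInputsAlong` hold (and as `0` otherwise).  They always hold:

* `heckeInputsAlong_bar' N ℓ`        (any `N, ℓ ≠ 0`)
* `heckeInputsAlong_bar N ℓ hℓ`      (exact shape of `S29/SkeletonM.lean`, piece `HI`)
-/

set_option autoImplicit false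
set_option linter.unusedSectionVars false
set_option linter.style.haveILetI false
set_option linter.unusedVariables false

noncomputable section

open AlgebraicCurve ModularCurve IntermediateField

namespace Fermat.Agent.Lib.HI.H864

open Fermat.Agent.S24

theorem jF_not_mem_range (N : ℕ) [NeZero N] :
    jF N ∉ (algebraMap Kbar (FF N)).range := by
  rintro ⟨c, hc⟩
  have h1 : ((algebraMap Kbar (FF N) c : FF N) : LaurentSeries Kbar).coeff (-1)
      = ((jF N : FF N) : LaurentSeries Kbar).coeff (-1) := by rw [hc]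
  have h2 : ((algebraMap Kbar (FF N) c : FF N) : LaurentSeries Kbar)
      = algebraMap Kbar (LaurentSeries Kbar) c := rfl
  rw [h2, algebraMap_laurentSeries_eq_single] at h1
  have h3 : ((jF N : FF N) : LaurentSeries Kbar) = coeffEmb Kbar jq := rfl
  rw [h3, coeffEmb_coeff, coeff_jq_neg_one, map_one,
    HahnSeries.coeff_single_of_ne (by norm_num)] at h1
  exact zero_ne_one h1

theorem transcendental_jF (N : ℕ) [NeZero N] : Transcendental Kbar (jF N) :=
  FF.transcendental_of_not_mem_range (jF_not_mem_range N)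

theorem finiteDimensional_jF (N : ℕ) [NeZero N] :
    FiniteDimensional ↥(IntermediateField.adjoin Kbar {jF N}) (FF N) :=
  (Deg457.degree_fields N).1

/-- The modular function field has principal divisors. -/
theorem hasPrincipalDivisors_FF (N : ℕ) [NeZero N] :
    HasPrincipalDivisors (AlgebraicClosure ℚ) ↥(modularFunctionFieldBar N) := by
  haveI := finiteDimensional_jF N
  exact hasPrincipalDivisors (jF N) (transcendental_jF N)

section

variable (N ℓ : ℕ) [NeZero N] [NeZero ℓ]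

theorem heckeAlphaBar_jF : heckeAlphaBar Kbar N ℓ (jF N) = jF (N * ℓ) := rfl

theorem finiteDimensional_alpha :
    FiniteDimensional ↥(IntermediateField.adjoin Kbar {heckeAlphaBar Kbar N ℓ (jF N)})
      (FF (N * ℓ)) := by
  rw [heckeAlphaBar_jF]
  exact finiteDimensional_jF (N * ℓ)

theorem finiteDimensional_beta :
    FiniteDimensional ↥(IntermediateField.adjoin Kbar {heckeBetaBar Kbar N ℓ (jF N)})
      (FF (N * ℓ)) := by
  haveI := finiteDimensional_jF (N * ℓ)
  exact FF.finiteDimensional_adjoin_of_transcendental (transcendental_jF (N * ℓ))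
    (transcendental_map (heckeBetaBar Kbar N ℓ) (jF N) (transcendental_jF N))

theorem heckeAlphaBarIntegral : HeckeAlphaBarIntegral Kbar N ℓ := by
  haveI := finiteDimensional_alpha N ℓ
  exact isIntegral_along_of_finite (heckeAlphaBar Kbar N ℓ) (jF N)

theorem heckeBetaBarIntegral : HeckeBetaBarIntegral Kbar N ℓ := by
  haveI := finiteDimensional_beta N ℓ
  exact isIntegral_along_of_finite (heckeBetaBar Kbar N ℓ) (jF N)

theorem finiteAlong_alpha : FiniteAlong Kbar (heckeAlphaBar Kbar N ℓ) := by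
  haveI := finiteDimensional_alpha N ℓ
  exact finiteAlong (heckeAlphaBar Kbar N ℓ) (jF N)

theorem finiteAlong_beta : FiniteAlong Kbar (heckeBetaBar Kbar N ℓ) := by
  haveI := finiteDimensional_beta N ℓ
  exact finiteAlong (heckeBetaBar Kbar N ℓ) (jF N)

theorem fundamentalIdentityAlong_beta
    [HasPrincipalDivisors Kbar (laurentBaseChange Kbar (modularFunctionFieldFull (N * ℓ)))]
    (hβ : HeckeBetaBarIntegral Kbar N ℓ) :
    FundamentalIdentityAlong Kbar (heckeBetaBar Kbar N ℓ) hβ := by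
  haveI := finiteDimensional_jF N
  haveI := finiteDimensional_beta N ℓ
  exact fundamentalIdentityAlong (heckeBetaBar Kbar N ℓ) (jF N) (transcendental_jF N) hβ

theorem fundamentalIdentityAlong_alpha
    [HasPrincipalDivisors Kbar (laurentBaseChange Kbar (modularFunctionFieldFull (N * ℓ)))]
    (hα : HeckeAlphaBarIntegral Kbar N ℓ) :
    FundamentalIdentityAlong Kbar (heckeAlphaBar Kbar N ℓ) hα := by
  haveI := finiteDimensional_jF N
  haveI := finiteDimensional_alpha N ℓ
  exact fundamentalIdentityAlong (heckeAlphaBar Kbar N ℓ) (jF N) (transcendental_jF N) hα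

theorem normFormulaAlong_alpha (hfin : FiniteAlong Kbar (heckeAlphaBar Kbar N ℓ)) :
    NormFormulaAlong Kbar (heckeAlphaBar Kbar N ℓ) hfin := by
  haveI := finiteDimensional_jF N
  haveI := finiteDimensional_alpha N ℓ
  exact normFormulaAlong (heckeAlphaBar Kbar N ℓ) (jF N) (transcendental_jF N) hfin

theorem normFormulaAlong_beta (hfin : FiniteAlong Kbar (heckeBetaBar Kbar N ℓ)) :
    NormFormulaAlong Kbar (heckeBetaBar Kbar N ℓ) hfin := by
  haveI := finiteDimensional_jF N
  haveI := finiteDimensional_beta N ℓ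
  exact normFormulaAlong (heckeBetaBar Kbar N ℓ) (jF N) (transcendental_jF N) hfin

/-- **HI.**  All six inputs of the Prelude Hecke correspondence hold over `ℚ̄`. -/
theorem heckeInputsAlong_bar' : HeckeInputsAlong (AlgebraicClosure ℚ) N ℓ := by
  haveI hP : HasPrincipalDivisors Kbar
      (laurentBaseChange Kbar (modularFunctionFieldFull (N * ℓ))) :=
    hasPrincipalDivisors_FF (N * ℓ)
  exact heckeInputsAlong_intro (heckeAlphaBarIntegral N ℓ) (heckeBetaBarIntegral N ℓ)
    (fundamentalIdentityAlong_beta N ℓ _) (finiteAlong_alpha N ℓ)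
    (normFormulaAlong_alpha N ℓ _)

end

/-- **HI**, exact shape of `S29/SkeletonM.lean`. -/
theorem heckeInputsAlong_bar (N : ℕ) [NeZero N] (ℓ : ℕ) [NeZero ℓ] (hℓ : ℓ.Prime) :
    HeckeInputsAlong (AlgebraicClosure ℚ) N ℓ :=
  heckeInputsAlong_bar' N ℓ

end Fermat.Agent.Lib.HI.H864

end
end
-- ===== PACK-END Lib/HI/H864/Modular.lean

-- ===== PACK-BEGIN Ribet/H801/DegAlpha.lean
section
/-
RIBET / W-DEG (helper801), part 2: the degeneracy push-forwards

    alphaPush M p, betaPush M p : J₀(M p)(ℚ̄) →+ J₀(M)(ℚ̄)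

(`α_*`, `β_*` along the Prelude maps `heckeAlphaBar`, `heckeBetaBar : F_M → F_{Mp}`), their
Galois-equivariance, and the Hecke-equivariance of `α_*`:

    α_* ∘ T_ℓ^{(Mp)} = T_ℓ^{(M)} ∘ α_*     for all primes `ℓ ≠ p`.
-/







set_option autoImplicit false
set_option linter.style.haveILetI false

noncomputable section

namespace Fermat.Agent.Ribet.H801

open AlgebraicCurve ModularCurve Fermat.Agent.S37.H818 Fermat.Agent.S29.H801
open Fermat.Agent.Lib.HI

section Defs

variable (M p : ℕ) [NeZero M] [NeZero p]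

/-- `α_* : J₀(Mp) → J₀(M)`, push-forward along the inclusion `F_M ⊆ F_{Mp}`. -/
def alphaPush : JZero (M * p) →+ JZero M :=
  pushPic0 (heckeAlphaBar (AlgebraicClosure ℚ) M p) (H864.heckeAlphaBarIntegral M p)
    (H864.finiteAlong_alpha M p) (H864.normFormulaAlong_alpha M p _)

/-- `β_* : J₀(Mp) → J₀(M)`, push-forward along `V_p : F_M → F_{Mp}`, `f(q) ↦ f(q^p)`. -/
def betaPush : JZero (M * p) →+ JZero M :=
  pushPic0 (heckeBetaBar (AlgebraicClosure ℚ) M p) (H864.heckeBetaBarIntegral M p)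
    (H864.finiteAlong_beta M p) (H864.normFormulaAlong_beta M p _)

theorem alphaPush_mk (D : Divisor.degZero (K := AlgebraicClosure ℚ)
    (F := laurentBaseChange (AlgebraicClosure ℚ) (modularFunctionFieldFull (M * p)))) :
    alphaPush M p (Pic0.mk D) =
      Pic0.mk (pushDegZero (heckeAlphaBar (AlgebraicClosure ℚ) M p)
        (H864.heckeAlphaBarIntegral M p) D) :=
  rfl

theorem betaPush_mk (D : Divisor.degZero (K := AlgebraicClosure ℚ)
    (F := laurentBaseChange (AlgebraicClosure ℚ) (modularFunctionFieldFull (M * p)))) :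
    betaPush M p (Pic0.mk D) =
      Pic0.mk (pushDegZero (heckeBetaBar (AlgebraicClosure ℚ) M p)
        (H864.heckeBetaBarIntegral M p) D) :=
  rfl

/-- `α_*` is Galois-equivariant. -/
theorem alphaPush_smul (σ : AlgebraicClosure ℚ ≃ₐ[ℚ] AlgebraicClosure ℚ) (x : JZero (M * p)) :
    alphaPush M p (σ • x) = σ • alphaPush M p x := by
  rw [galois_smul_pic0_def, galois_smul_pic0_def]
  exact pushPic0_smul _ _ _ _ (Fermat.Agent.S29.H571.intertwines_heckeAlphaBar M p σ) x

/-- `β_*` is Galois-equivariant. -/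
theorem betaPush_smul (σ : AlgebraicClosure ℚ ≃ₐ[ℚ] AlgebraicClosure ℚ) (x : JZero (M * p)) :
    betaPush M p (σ • x) = σ • betaPush M p x := by
  rw [galois_smul_pic0_def, galois_smul_pic0_def]
  exact pushPic0_smul _ _ _ _ (Fermat.Agent.S29.H571.intertwines_heckeBetaBar M p σ) x

end Defs

section Hecke

variable (M p ℓ : ℕ) [NeZero M] [NeZero p] [NeZero ℓ]

/-- `normCompat_bar` with the top level renamed. -/
theorem normCompat_bar_to (M' : ℕ) [NeZero M'] (hℓ : ℓ.Prime) (hp : p.Prime) (hne : ℓ ≠ p)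
    (h₁ : M * ℓ * p = M') (h₂ : M * p * ℓ = M') :
    NormCompat (heckeAlphaBar (AlgebraicClosure ℚ) M p) (heckeBetaBar (AlgebraicClosure ℚ) M ℓ)
      (alphaTo (AlgebraicClosure ℚ) (M * ℓ) p M' h₁)
      (betaTo (AlgebraicClosure ℚ) (M * p) ℓ M' h₂) := by
  subst h₁
  exact normCompat_bar M ℓ p hℓ hp hne

/-- **`α_*` is Hecke-equivariant** (operator form, any prime `ℓ ≠ p`). -/
theorem alphaPush_heckeOperatorAlong (hℓ : ℓ.Prime) (hp : p.Prime) (hne : ℓ ≠ p)
    (x : JZero (M * p)) :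
    alphaPush M p (heckeOperatorAlong (AlgebraicClosure ℚ) (M * p) ℓ x) =
      heckeOperatorAlong (AlgebraicClosure ℚ) M ℓ (alphaPush M p x) := by
  haveI hP₁ : HasPrincipalDivisors (AlgebraicClosure ℚ)
      (laurentBaseChange (AlgebraicClosure ℚ) (modularFunctionFieldFull (M * p))) :=
    H864.hasPrincipalDivisors_FF (M * p)
  haveI hP₂ : HasPrincipalDivisors (AlgebraicClosure ℚ)
      (laurentBaseChange (AlgebraicClosure ℚ) (modularFunctionFieldFull (M * ℓ))) :=
    H864.hasPrincipalDivisors_FF (M * ℓ)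
  haveI hP₃ : HasPrincipalDivisors (AlgebraicClosure ℚ)
      (laurentBaseChange (AlgebraicClosure ℚ) (modularFunctionFieldFull (M * p * ℓ))) :=
    H864.hasPrincipalDivisors_FF (M * p * ℓ)
  have hc : M * ℓ * p = M * p * ℓ := Nat.mul_right_comm M ℓ p
  rw [heckeOperatorAlong_eq (H864.heckeAlphaBarIntegral (M * p) ℓ)
      (H864.heckeBetaBarIntegral (M * p) ℓ) (H864.fundamentalIdentityAlong_beta (M * p) ℓ _)
      (H864.finiteAlong_alpha (M * p) ℓ) (H864.normFormulaAlong_alpha (M * p) ℓ _),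
    heckeOperatorAlong_eq (H864.heckeAlphaBarIntegral M ℓ)
      (H864.heckeBetaBarIntegral M ℓ) (H864.fundamentalIdentityAlong_beta M ℓ _)
      (H864.finiteAlong_alpha M ℓ) (H864.normFormulaAlong_alpha M ℓ _)]
  exact pushPic0_correspondence
    (heckeAlphaBar (AlgebraicClosure ℚ) M p)
    (heckeBetaBar (AlgebraicClosure ℚ) M ℓ) (heckeAlphaBar (AlgebraicClosure ℚ) M ℓ)
    (heckeBetaBar (AlgebraicClosure ℚ) (M * p) ℓ) (heckeAlphaBar (AlgebraicClosure ℚ) (M * p) ℓ)
    (alphaTo (AlgebraicClosure ℚ) (M * ℓ) p (M * p * ℓ) hc)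
    (H864.heckeAlphaBarIntegral M p) (H864.heckeBetaBarIntegral M ℓ)
    (H864.heckeAlphaBarIntegral M ℓ) (H864.heckeBetaBarIntegral (M * p) ℓ)
    (H864.heckeAlphaBarIntegral (M * p) ℓ)
    (alphaTo_integral (AlgebraicClosure ℚ) hc (H864.heckeAlphaBarIntegral (M * ℓ) p))
    (rel_sq₂ M p ℓ) (rel_AA M p ℓ)
    (H864.fundamentalIdentityAlong_beta M ℓ _) (H864.fundamentalIdentityAlong_beta (M * p) ℓ _)
    (H864.finiteAlong_alpha M ℓ) (H864.normFormulaAlong_alpha M ℓ _)
    (H864.finiteAlong_alpha (M * p) ℓ) (H864.normFormulaAlong_alpha (M * p) ℓ _)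
    (H864.finiteAlong_alpha M p) (H864.normFormulaAlong_alpha M p _)
    (alphaTo_finite (AlgebraicClosure ℚ) hc (H864.finiteAlong_alpha (M * ℓ) p))
    (alphaTo_normFormula (AlgebraicClosure ℚ) hc (H864.finiteAlong_alpha (M * ℓ) p)
      (H864.normFormulaAlong_alpha (M * ℓ) p _))
    (normCompat_bar_to M p ℓ (M * p * ℓ) hℓ hp hne hc rfl)
    (hasLocalGenerators_of_hasPrincipalDivisors _ _) x

end Hecke

section Bar

variable (M p : ℕ) [NeZero M] [NeZero p]

/-- **`α_*` is Hecke-equivariant**: `α_* (T_ℓ x) = T_ℓ (α_* x)` for every prime `ℓ ≠ p`. -/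
theorem alphaPush_heckeOperatorBar (hp : p.Prime) (ℓ : Nat.Primes) (hne : (ℓ : ℕ) ≠ p)
    (x : JZero (M * p)) :
    alphaPush M p (heckeOperatorBar (M * p) ℓ x) = heckeOperatorBar M ℓ (alphaPush M p x) := by
  haveI : NeZero (ℓ : ℕ) := ⟨ℓ.2.ne_zero⟩
  rw [heckeOperatorBar_apply, heckeOperatorBar_apply]
  exact alphaPush_heckeOperatorAlong M p (ℓ : ℕ) ℓ.2 hp hne x

end Bar

end Fermat.Agent.Ribet.H801

end

end
-- ===== PACK-END Ribet/H801/DegAlpha.lean

-- ===== PACK-BEGIN Ribet/H801/DegBeta.lean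
section
/-
RIBET / W-DEG (helper801), part 4: Hecke-equivariance of `β_* : J₀(Mp) → J₀(M)`:

    β_* ∘ T_ℓ^{(Mp)} = T_ℓ^{(M)} ∘ β_*     for all primes `ℓ ≠ p`,

from the norm compatibility of the `ββ`-square

      F_M    --β_p-->  F_{Mp}
       |β_ℓ             |β_ℓ
       v                v
      F_{Mℓ} --β_p-->  F_{Mpℓ}

(`F_{Mpℓ} = V_p(F_{Mℓ}) ⊔ V_ℓ(F_{Mp})` and equal degrees).
-/




set_option autoImplicit false
set_option linter.style.haveILetI false

noncomputable section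

namespace Fermat.Agent.Ribet.H801

open AlgebraicCurve ModularCurve Fermat.Agent.S37.H818 Fermat.Agent.S29.H801
open Fermat.Agent.Lib.HI Fermat.Agent.S37

section Retarget

variable (L : Type*) [Field L] [Algebra ℚ L]
variable {M ℓ M' : ℕ} [NeZero M] [NeZero ℓ] [NeZero M']

theorem betaTo_finite (h : M * ℓ = M') (hfin : FiniteAlong L (heckeBetaBar L M ℓ)) :
    FiniteAlong L (betaTo L M ℓ M' h) := by
  subst h
  exact hfin

theorem betaTo_normFormula (h : M * ℓ = M') (hfin : FiniteAlong L (heckeBetaBar L M ℓ))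
    (hN : NormFormulaAlong L (heckeBetaBar L M ℓ) hfin) :
    NormFormulaAlong L (betaTo L M ℓ M' h) (betaTo_finite L h hfin) := by
  subst h
  exact hN

theorem betaTo_finrankAlong (h : M * ℓ = M') :
    finrankAlong L (betaTo L M ℓ M' h) = finrankAlong L (heckeBetaBar L M ℓ) := by
  subst h
  rfl

end Retarget

section Span

variable (L : Type*) [Field L] [Algebra ℚ L]

theorem intermediateField_smul_eq {K E : Type*} [Field K] [Field E] [Algebra K E]
    (A : IntermediateField K E) (a : A) (x : E) : a • x = (a : E) * x := by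
  rw [Algebra.smul_def]
  rfl

theorem smul_betaTo_coe {M ℓ M' : ℕ} [NeZero M] [NeZero ℓ] [NeZero M'] (h : M * ℓ = M')
    (a : _root_.Fermat.Agent.S29.H801.FB L M) (x : _root_.Fermat.Agent.S29.H801.FB L M') :
    letI := algebraAlong (betaTo L M ℓ M' h)
    ((a • x : _root_.Fermat.Agent.S29.H801.FB L M') : LaurentSeries L) = qExpand L ℓ (a : LaurentSeries L) * (x : LaurentSeries L) := by
  letI := algebraAlong (betaTo L M ℓ M' h)
  have h1 : a • x = betaTo L M ℓ M' h a * x := rfl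
  rw [h1, MulMemClass.coe_mul, coe_betaTo]

/-- The image of `β_ℓ : F_{Mp} → F_{Mpℓ}` spans `F_{Mpℓ}` over `β_p(F_{Mℓ})`. -/
theorem span_range_beta_of_sup (M p ℓ : ℕ) [NeZero M] [NeZero p] [NeZero ℓ]
    (hsup : laurentBaseChange L (modularFunctionFieldFull (M * p * ℓ))
      = (laurentBaseChange L (modularFunctionFieldFull (M * ℓ))).map (qExpandAlgHomC L p)
        ⊔ (laurentBaseChange L (modularFunctionFieldFull (M * p))).map (qExpandAlgHomC L ℓ))
    (halg : ∀ x ∈ (laurentBaseChange L (modularFunctionFieldFull (M * p))).map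
        (qExpandAlgHomC L ℓ),
      IsAlgebraic ((laurentBaseChange L (modularFunctionFieldFull (M * ℓ))).map
        (qExpandAlgHomC L p)) x) :
    letI := algebraAlong (betaTo L (M * ℓ) p (M * p * ℓ) (Nat.mul_right_comm M ℓ p))
    Submodule.span (_root_.Fermat.Agent.S29.H801.FB L (M * ℓ)) (Set.range (heckeBetaBar L (M * p) ℓ)) = ⊤ := by
  letI := algebraAlong (betaTo L (M * ℓ) p (M * p * ℓ) (Nat.mul_right_comm M ℓ p))
  rw [eq_top_iff]
  rintro t -
  have ht : (t : LaurentSeries L) ∈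
      (laurentBaseChange L (modularFunctionFieldFull (M * ℓ))).map (qExpandAlgHomC L p)
        ⊔ (laurentBaseChange L (modularFunctionFieldFull (M * p))).map (qExpandAlgHomC L ℓ) := by
    rw [← hsup]
    exact t.2
  have hs := mem_span_of_mem_sup _ _ halg ht
  have key : ∀ x : LaurentSeries L,
      x ∈ Submodule.span
        ((laurentBaseChange L (modularFunctionFieldFull (M * ℓ))).map (qExpandAlgHomC L p))
        (((laurentBaseChange L (modularFunctionFieldFull (M * p))).map (qExpandAlgHomC L ℓ) :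
          IntermediateField L (LaurentSeries L)) : Set (LaurentSeries L)) →
      ∃ y : _root_.Fermat.Agent.S29.H801.FB L (M * p * ℓ),
        y ∈ Submodule.span (_root_.Fermat.Agent.S29.H801.FB L (M * ℓ)) (Set.range (heckeBetaBar L (M * p) ℓ)) ∧
        (y : LaurentSeries L) = x := by
    intro x hx
    induction hx using Submodule.span_induction with
    | mem x hx =>
      obtain ⟨z, hz, rfl⟩ := hx
      refine ⟨heckeBetaBar L (M * p) ℓ ⟨z, hz⟩, Submodule.subset_span ⟨_, rfl⟩, ?_⟩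
      rw [coe_heckeBetaBar]
      rfl
    | zero => exact ⟨0, Submodule.zero_mem _, rfl⟩
    | add x y _ _ hx hy =>
      obtain ⟨x', hx', rfl⟩ := hx
      obtain ⟨y', hy', rfl⟩ := hy
      exact ⟨x' + y', Submodule.add_mem _ hx' hy', rfl⟩
    | smul a x _ hx =>
      obtain ⟨x', hx', rfl⟩ := hx
      obtain ⟨g, hg, hga⟩ := a.2
      refine ⟨(⟨g, hg⟩ : _root_.Fermat.Agent.S29.H801.FB L (M * ℓ)) • x', Submodule.smul_mem _ _ hx', ?_⟩
      rw [smul_betaTo_coe, intermediateField_smul_eq, ← hga]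
      rfl
  obtain ⟨y, hy, hyt⟩ := key _ hs
  have : y = t := Subtype.ext hyt
  rw [← this]
  exact hy

/-- Norm compatibility of the `ββ`-square from generation and degrees. -/
theorem normCompat_beta_of_sup (M p ℓ : ℕ) [NeZero M] [NeZero p] [NeZero ℓ]
    (hfin : FiniteAlong L (heckeBetaBar L M p))
    (hfin' : FiniteAlong L (heckeBetaBar L (M * ℓ) p))
    (hrk : finrankAlong L (heckeBetaBar L M p) ≤ finrankAlong L (heckeBetaBar L (M * ℓ) p))
    (hsup : laurentBaseChange L (modularFunctionFieldFull (M * p * ℓ))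
      = (laurentBaseChange L (modularFunctionFieldFull (M * ℓ))).map (qExpandAlgHomC L p)
        ⊔ (laurentBaseChange L (modularFunctionFieldFull (M * p))).map (qExpandAlgHomC L ℓ))
    (halg : ∀ x ∈ (laurentBaseChange L (modularFunctionFieldFull (M * p))).map
        (qExpandAlgHomC L ℓ),
      IsAlgebraic ((laurentBaseChange L (modularFunctionFieldFull (M * ℓ))).map
        (qExpandAlgHomC L p)) x) :
    NormCompat (heckeBetaBar L M p) (heckeBetaBar L M ℓ)
      (betaTo L (M * ℓ) p (M * p * ℓ) (Nat.mul_right_comm M ℓ p)) (heckeBetaBar L (M * p) ℓ) :=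
  normCompat_of_span _ _ _ _ (rel_BB M p ℓ) hfin
    (betaTo_finite L _ hfin')
    (by rw [betaTo_finrankAlong]; exact hrk)
    (span_range_beta_of_sup L M p ℓ hsup halg)

end Span

section Bar

variable (M p ℓ : ℕ) [NeZero M] [NeZero p] [NeZero ℓ]

/-- **Norm compatibility of the `ββ`-square over `ℚ̄`.** -/
theorem normCompat_beta_bar (hp : p.Prime) (hℓ : ℓ.Prime) (hne : ℓ ≠ p) :
    NormCompat (heckeBetaBar (AlgebraicClosure ℚ) M p) (heckeBetaBar (AlgebraicClosure ℚ) M ℓ)
      (betaTo (AlgebraicClosure ℚ) (M * ℓ) p (M * p * ℓ) (Nat.mul_right_comm M ℓ p))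
      (heckeBetaBar (AlgebraicClosure ℚ) (M * p) ℓ) := by
  have hsup0 := bar_eq_sup_map_map M p ℓ hp hℓ hne
  have hsup : modularFunctionFieldBar (M * p * ℓ) =
      (modularFunctionFieldBar (M * ℓ)).map (qExpandAlgHomC (AlgebraicClosure ℚ) p) ⊔
        (modularFunctionFieldBar (M * p)).map (qExpandAlgHomC (AlgebraicClosure ℚ) ℓ) := by
    rw [← hsup0]
    exact modularFunctionFieldBar_congr (Nat.mul_right_comm M p ℓ)
  have hAT : (modularFunctionFieldBar (M * ℓ)).map (qExpandAlgHomC (AlgebraicClosure ℚ) p)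
      ≤ modularFunctionFieldBar (M * ℓ * p) := H218.map_qExpand_bar_le (M * ℓ) p
  have hd : ((modularFunctionFieldBar (M * ℓ)).map
      (qExpandAlgHomC (AlgebraicClosure ℚ) p)).relfinrank (modularFunctionFieldBar (M * ℓ * p))
        ≠ 0 := by
    rw [H218.relfinrank_map_qExpand_bar_mul_prime (M * ℓ) p (NeZero.ne _) hp]
    split_ifs
    · exact hp.ne_zero
    · omega
  have hpdvd : p ∣ M * ℓ ↔ p ∣ M := by
    constructor
    · intro h
      rcases (Nat.Prime.dvd_mul hp).mp h with h1 | h1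
      · exact h1
      · exact absurd ((Nat.prime_dvd_prime_iff_eq hp hℓ).mp h1).symm hne
    · intro h
      exact h.mul_right ℓ
  refine normCompat_beta_of_sup (AlgebraicClosure ℚ) M p ℓ (H864.finiteAlong_beta M p)
    (H864.finiteAlong_beta (M * ℓ) p) ?_ hsup ?_
  · by_cases h : p ∣ M
    · rw [H218.finrankAlong_heckeBetaBar_of_dvd M p hp h,
        H218.finrankAlong_heckeBetaBar_of_dvd (M * ℓ) p hp (hpdvd.mpr h)]
    · rw [H218.finrankAlong_heckeBetaBar_of_not_dvd M p hp h,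
        H218.finrankAlong_heckeBetaBar_of_not_dvd (M * ℓ) p hp (fun h' => h (hpdvd.mp h'))]
  · intro x hx
    refine isAlgebraic_of_relfinrank_ne_zero hAT hd ?_
    rw [hsup0]
    exact (le_sup_right : (modularFunctionFieldBar (M * p)).map
      (qExpandAlgHomC (AlgebraicClosure ℚ) ℓ) ≤ _) hx

/-- **`β_*` is Hecke-equivariant** (operator form, any prime `ℓ ≠ p`). -/
theorem betaPush_heckeOperatorAlong (hℓ : ℓ.Prime) (hp : p.Prime) (hne : ℓ ≠ p)
    (x : JZero (M * p)) :
    betaPush M p (heckeOperatorAlong (AlgebraicClosure ℚ) (M * p) ℓ x) =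
      heckeOperatorAlong (AlgebraicClosure ℚ) M ℓ (betaPush M p x) := by
  haveI hP₁ : HasPrincipalDivisors (AlgebraicClosure ℚ)
      (laurentBaseChange (AlgebraicClosure ℚ) (modularFunctionFieldFull (M * p))) :=
    H864.hasPrincipalDivisors_FF (M * p)
  haveI hP₂ : HasPrincipalDivisors (AlgebraicClosure ℚ)
      (laurentBaseChange (AlgebraicClosure ℚ) (modularFunctionFieldFull (M * ℓ))) :=
    H864.hasPrincipalDivisors_FF (M * ℓ)
  haveI hP₃ : HasPrincipalDivisors (AlgebraicClosure ℚ)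
      (laurentBaseChange (AlgebraicClosure ℚ) (modularFunctionFieldFull (M * p * ℓ))) :=
    H864.hasPrincipalDivisors_FF (M * p * ℓ)
  have hc : M * ℓ * p = M * p * ℓ := Nat.mul_right_comm M ℓ p
  rw [heckeOperatorAlong_eq (H864.heckeAlphaBarIntegral (M * p) ℓ)
      (H864.heckeBetaBarIntegral (M * p) ℓ) (H864.fundamentalIdentityAlong_beta (M * p) ℓ _)
      (H864.finiteAlong_alpha (M * p) ℓ) (H864.normFormulaAlong_alpha (M * p) ℓ _),
    heckeOperatorAlong_eq (H864.heckeAlphaBarIntegral M ℓ)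
      (H864.heckeBetaBarIntegral M ℓ) (H864.fundamentalIdentityAlong_beta M ℓ _)
      (H864.finiteAlong_alpha M ℓ) (H864.normFormulaAlong_alpha M ℓ _)]
  exact pushPic0_correspondence
    (heckeBetaBar (AlgebraicClosure ℚ) M p)
    (heckeBetaBar (AlgebraicClosure ℚ) M ℓ) (heckeAlphaBar (AlgebraicClosure ℚ) M ℓ)
    (heckeBetaBar (AlgebraicClosure ℚ) (M * p) ℓ) (heckeAlphaBar (AlgebraicClosure ℚ) (M * p) ℓ)
    (betaTo (AlgebraicClosure ℚ) (M * ℓ) p (M * p * ℓ) hc)
    (H864.heckeBetaBarIntegral M p) (H864.heckeBetaBarIntegral M ℓ)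
    (H864.heckeAlphaBarIntegral M ℓ) (H864.heckeBetaBarIntegral (M * p) ℓ)
    (H864.heckeAlphaBarIntegral (M * p) ℓ)
    (betaTo_integral (AlgebraicClosure ℚ) hc (H864.heckeBetaBarIntegral (M * ℓ) p))
    (rel_BB M p ℓ) (rel_sq₁ M p ℓ).symm
    (H864.fundamentalIdentityAlong_beta M ℓ _) (H864.fundamentalIdentityAlong_beta (M * p) ℓ _)
    (H864.finiteAlong_alpha M ℓ) (H864.normFormulaAlong_alpha M ℓ _)
    (H864.finiteAlong_alpha (M * p) ℓ) (H864.normFormulaAlong_alpha (M * p) ℓ _)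
    (H864.finiteAlong_beta M p) (H864.normFormulaAlong_beta M p _)
    (betaTo_finite (AlgebraicClosure ℚ) hc (H864.finiteAlong_beta (M * ℓ) p))
    (betaTo_normFormula (AlgebraicClosure ℚ) hc (H864.finiteAlong_beta (M * ℓ) p)
      (H864.normFormulaAlong_beta (M * ℓ) p _))
    (normCompat_beta_bar M p ℓ hp hℓ hne)
    (hasLocalGenerators_of_hasPrincipalDivisors _ _) x

end Bar

section BarPrimes

variable (M p : ℕ) [NeZero M] [NeZero p]

/-- **`β_*` is Hecke-equivariant**: `β_* (T_ℓ x) = T_ℓ (β_* x)` for every prime `ℓ ≠ p`. -/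
theorem betaPush_heckeOperatorBar (hp : p.Prime) (ℓ : Nat.Primes) (hne : (ℓ : ℕ) ≠ p)
    (x : JZero (M * p)) :
    betaPush M p (heckeOperatorBar (M * p) ℓ x) = heckeOperatorBar M ℓ (betaPush M p x) := by
  haveI : NeZero (ℓ : ℕ) := ⟨ℓ.2.ne_zero⟩
  rw [heckeOperatorBar_apply, heckeOperatorBar_apply]
  exact betaPush_heckeOperatorAlong M p (ℓ : ℕ) ℓ.2 hp hne x

end BarPrimes

end Fermat.Agent.Ribet.H801

end

end
-- ===== PACK-END Ribet/H801/DegBeta.lean

-- ===== PACK-BEGIN S35/G/H73/Deg.lean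
section



/-!
# S35, piece (G'), leaf DEG (helper73): `deg : DegStatement`

The degeneracy push-forwards `degA = α_*`, `degB = β_* : J₀(M q) → J₀(M)` are the maps
`alphaPush`, `betaPush` of helper801 (`Ribet/H801/DegAlpha.lean`, `DegBeta.lean`), whose
inputs (integral, finite, norm formula: `Lib/HI/H864`) and Hecke-equivariance
(`alphaPush_heckeOperatorBar`, `betaPush_heckeOperatorBar`) are on main.
-/

set_option autoImplicit false

noncomputable section

namespace Fermat.Agent.S35.G.H73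

open ModularCurve AlgebraicCurve Fermat.Agent.S35.G Fermat.Agent.Lib.HI

variable (M q : ℕ) [NeZero M] [NeZero q]

/-- The inputs of `pic0Push` for `α`. -/
theorem pushInputs_alpha : PushInputs (heckeAlphaBar Qb M q) :=
  ⟨H864.heckeAlphaBarIntegral M q, H864.finiteAlong_alpha M q, H864.normFormulaAlong_alpha M q _⟩

/-- The inputs of `pic0Push` for `β`. -/
theorem pushInputs_beta : PushInputs (heckeBetaBar Qb M q) :=
  ⟨H864.heckeBetaBarIntegral M q, H864.finiteAlong_beta M q, H864.normFormulaAlong_beta M q _⟩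

/-- `degA` is helper801's `alphaPush`. -/
theorem degA_eq_alphaPush : degA M q = Ribet.H801.alphaPush M q := by
  rw [degA, pic0PushTotal_eq (heckeAlphaBar Qb M q) (H864.heckeAlphaBarIntegral M q)
    (H864.finiteAlong_alpha M q) (H864.normFormulaAlong_alpha M q _)]
  rfl

/-- `degB` is helper801's `betaPush`. -/
theorem degB_eq_betaPush : degB M q = Ribet.H801.betaPush M q := by
  rw [degB, pic0PushTotal_eq (heckeBetaBar Qb M q) (H864.heckeBetaBarIntegral M q)
    (H864.finiteAlong_beta M q) (H864.normFormulaAlong_beta M q _)]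
  rfl

/-- `degA` is Galois-equivariant. -/
theorem degA_smul (σ : Qb ≃ₐ[ℚ] Qb) (x : JZero (M * q)) : degA M q (σ • x) = σ • degA M q x := by
  rw [degA_eq_alphaPush]
  exact Ribet.H801.alphaPush_smul M q σ x

/-- `degB` is Galois-equivariant. -/
theorem degB_smul (σ : Qb ≃ₐ[ℚ] Qb) (x : JZero (M * q)) : degB M q (σ • x) = σ • degB M q x := by
  rw [degB_eq_betaPush]
  exact Ribet.H801.betaPush_smul M q σ x

end Fermat.Agent.S35.G.H73

namespace Fermat.Agent.S35.G.H73

open ModularCurve AlgebraicCurve Fermat.Agent.S35.G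

/-- **DEG.** -/
theorem deg : DegStatement := by
  intro M q _ _ hq _
  refine ⟨pushInputs_alpha M q, pushInputs_beta M q, fun ℓ hℓ x => ?_, fun ℓ hℓ x => ?_⟩
  · have hne : (ℓ : ℕ) ≠ q := fun h => hℓ (h ▸ Dvd.intro_left M rfl)
    rw [degA_eq_alphaPush]
    exact Ribet.H801.alphaPush_heckeOperatorBar M q hq ℓ hne x
  · have hne : (ℓ : ℕ) ≠ q := fun h => hℓ (h ▸ Dvd.intro_left M rfl)
    rw [degB_eq_betaPush]
    exact Ribet.H801.betaPush_heckeOperatorBar M q hq ℓ hne x

end Fermat.Agent.S35.G.H73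

end
end
-- ===== PACK-END S35/G/H73/Deg.lean

-- ===== PACK-BEGIN S18/H504/ConstF.lean
section





/-!
# S18 / T2 (CONST_F, characteristic 0): a function without zeros and poles is constant

* `const_of_ord_zero` : generic form, for a function field `F/K` finite over `K(j)`.
* `constOfOrdZero_modularFunctionFieldBar` : the instance `F = ℚ̄(X₀(N))`; its statement is the
  unfolded `H94.ConstOfOrdZero (AlgebraicClosure ℚ) (modularFunctionFieldBar N)`.
-/

set_option autoImplicit false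

namespace Fermat.Agent.S18.H504

open AlgebraicCurve IntermediateField Fermat.Agent.S24

variable {K F : Type*} [Field K] [Field F] [Algebra K F]

/-- A nonzero function with no zeros is constant (char 0, algebraically closed constants). -/
theorem const_of_forall_ord_le_zero [IsAlgClosed K] [CharZero K] {j : F}
    (hj : Transcendental K j) [FiniteDimensional K⟮j⟯ F] (u : F)
    (h : ∀ v : Place K F, v.ord u ≤ 0) : ∃ c : K, u = algebraMap K F c := by
  by_contra hc
  have hnr : u ∉ (algebraMap K F).range := fun ⟨c, hc'⟩ => hc ⟨c, hc'.symm⟩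
  have hut : Transcendental K u := FF.transcendental_of_not_mem_range hnr
  have : FiniteDimensional K⟮u⟯ F := FF.finiteDimensional_adjoin_of_transcendental hj hut
  have hsum := FF.sum_ord_pos_eq_finrank hut
  have hempty : (FF.finite_setOf_ord_pos hut).toFinset = ∅ := by
    ext v
    simp only [Set.Finite.mem_toFinset, Set.mem_ofPred_eq, Finset.notMem_empty, iff_false, not_lt]
    exact h v
  rw [hempty, Finset.sum_empty] at hsum
  have hpos : 0 < Module.finrank K⟮u⟯ F := Module.finrank_pos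
  omega

/-- **CONST_F.** A nonzero function without zeros and poles is constant. -/
theorem const_of_ord_zero [IsAlgClosed K] [CharZero K] {j : F}
    (hj : Transcendental K j) [FiniteDimensional K⟮j⟯ F] (u : F) (_hu : u ≠ 0)
    (h : ∀ v : Place K F, v.ord u = 0) : ∃ c : K, u = algebraMap K F c :=
  const_of_forall_ord_le_zero hj u fun v => (h v).le

/-- **T2.** `ConstOfOrdZero ℚ̄ (modularFunctionFieldBar N)` (unfolded). -/
theorem constOfOrdZero_modularFunctionFieldBar (N : ℕ) [NeZero N] :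
    ∀ u : ModularCurve.modularFunctionFieldBar N, u ≠ 0 →
      (∀ v : Place (AlgebraicClosure ℚ) (ModularCurve.modularFunctionFieldBar N), v.ord u = 0) →
      ∃ c : AlgebraicClosure ℚ,
        u = algebraMap (AlgebraicClosure ℚ) (ModularCurve.modularFunctionFieldBar N) c := by
  obtain ⟨P⟩ := nonempty_modularPackage N
  have := P.finiteDimensional
  have hj : Transcendental Kbar (jF N) := transcendental_of_localData_inv (jF N) P.dataInf
  exact fun u hu h => const_of_ord_zero hj u hu h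

end Fermat.Agent.S18.H504

end
-- ===== PACK-END S18/H504/ConstF.lean

-- ===== PACK-BEGIN S35/G/H215/T0F.lean
section



/-!
# S35 (G'), leaf T0F: the Kummer dictionary for `(t - 1)² (t - Q)` (helper215)

`t0F : Fermat.Agent.S35.G.T0FStatement`.

* `normPow_of_push_eq_zero` : `x = [D]`, `m D = div f`, `φ_* x = 0` ⟹ `N_φ f = c · g ^ m`
  (norm formula + "no zeros and poles ⟹ constant").
* `frobPolyAdd_mk_eq_zero` : `m D = div f`, `(φ - 1)² (φ - Q) f = c · y ^ m` ⟹
  `(g - 1)² (g - Q) [D] = 0` in `Pic⁰` (divisors are torsion-free).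
-/

set_option autoImplicit false
set_option linter.style.haveILetI false

noncomputable section

namespace Fermat.Agent.S35.G.H215

open ModularCurve AlgebraicCurve Fermat.Agent.S35.G

section Abstract

variable {K F F' : Type*} [Field K] [Field F] [Field F'] [Algebra K F] [Algebra K F']

theorem ord_algebraMap_h215 (v : Place K F) (c : K) : v.ord (algebraMap K F c) = 0 := by
  rcases eq_or_ne c 0 with rfl | hc
  · simp
  have h1 : algebraMap K F c ∈ v.toValuationSubring := v.algebraMap_mem' c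
  have h2 : algebraMap K F c⁻¹ ∈ v.toValuationSubring := v.algebraMap_mem' c⁻¹
  have hu : IsUnit (⟨algebraMap K F c, h1⟩ : v.toValuationSubring) := by
    refine IsUnit.of_mul_eq_one (⟨algebraMap K F c⁻¹, h2⟩ : v.toValuationSubring) ?_
    ext
    show algebraMap K F c * algebraMap K F c⁻¹ = 1
    rw [← map_mul, mul_inv_cancel₀ hc, map_one]
  exact v.ord_coe_unit hu.unit

theorem ord_toRingAut_h215 (g : SemilinearAut K F) (w : Place K F) (f : F) :
    w.ord (SemilinearAut.toRingAut g f) = (g⁻¹ • w).ord f := by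
  have h := SemilinearAut.ord_smul g (g⁻¹ • w) f
  rw [smul_inv_smul] at h
  exact h

theorem ord_pow_h215 (v : Place K F) (y : F) (m : ℕ) : v.ord (y ^ m) = m * v.ord y := by
  have := v.ord_zpow y (m : ℤ)
  simpa using this

theorem frobSub_ne_zero_h215 (φ : F ≃+* F) (Q : ℕ) {f : F} (hf : f ≠ 0) : frobSub φ Q f ≠ 0 := by
  unfold frobSub
  exact mul_ne_zero (by simpa using hf) (inv_ne_zero (pow_ne_zero Q hf))

theorem ord_frobSub_h215 (g : SemilinearAut K F) (Q : ℕ) {h : F} (hh : h ≠ 0) (v : Place K F) :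
    v.ord (frobSub (SemilinearAut.toRingAut g) Q h) = (g⁻¹ • v).ord h - Q * v.ord h := by
  unfold frobSub
  have h1 : SemilinearAut.toRingAut g h ≠ 0 := by simpa using hh
  rw [v.ord_mul h1 (inv_ne_zero (pow_ne_zero Q hh)), v.ord_inv, ord_pow_h215, ord_toRingAut_h215,
    sub_eq_add_neg]

/-- **Norm side.**  `m D = div f` and `φ_* [D] = 0` ⟹ `N_φ f` is a constant times an `m`-th
power, provided functions on `F` without zeros and poles are constant. -/
theorem normPow_of_push_eq_zero (φ : F →ₐ[K] F') (hφ : φ.toRingHom.IsIntegral)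
    (hfin : FiniteAlong K φ) (hN : NormFormulaAlong K φ hfin)
    (hconst : ∀ u : F, u ≠ 0 → (∀ v : Place K F, v.ord u = 0) → ∃ c : K, u = algebraMap K F c)
    (m : ℕ) (D : Divisor.degZero (K := K) (F := F')) {f : F'} (hf : f ≠ 0)
    (hfD : ∀ w : Place K F', w.ord f = (m : ℤ) * (D : Divisor K F') w)
    (hx : pic0PushTotal φ (Pic0.mk D) = 0) : NormPow φ m f := by
  rw [pic0PushTotal_eq φ hφ hfin hN, pic0Push_mk, S29.H395.mk_eq_zero_iff] at hx
  obtain ⟨g, hg, hgD⟩ := hx
  have hgD' : ∀ v : Place K F, Divisor.pushforwardAlong φ hφ (D : Divisor K F') v = v.ord g :=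
    fun v => hgD v
  -- the push-forward of `m • D = div f`
  have hpush : ∀ v : Place K F,
      Divisor.pushforwardAlong φ hφ ((m : ℤ) • (D : Divisor K F')) v
        = v.ord (S29.H395.normAlong φ f) := fun v =>
    S29.H395.pushforwardAlong_apply_eq_ord φ hφ hfin hN hf
      (fun w => by rw [Finsupp.smul_apply, smul_eq_mul, hfD w]) v
  have hNf : S29.H395.normAlong φ f ≠ 0 := S29.H395.normAlong_ne_zero φ hfin hf
  have hord : ∀ v : Place K F, v.ord (S29.H395.normAlong φ f) = (m : ℤ) * v.ord g := by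
    intro v
    rw [← hpush v, map_zsmul, Finsupp.smul_apply, smul_eq_mul, hgD' v]
  have hgm : g ^ m ≠ 0 := pow_ne_zero m hg
  have hu0 : S29.H395.normAlong φ f * (g ^ m)⁻¹ ≠ 0 := mul_ne_zero hNf (inv_ne_zero hgm)
  obtain ⟨c, hc⟩ := hconst _ hu0 (fun v => by
    rw [v.ord_mul hNf (inv_ne_zero hgm), v.ord_inv, ord_pow_h215, hord v]; ring)
  refine ⟨c, g, ?_⟩
  rw [← hc, mul_assoc, inv_mul_cancel₀ hgm, mul_one]

/-- **Kummer side.**  `m D = div f` and `(φ - 1)² (φ - Q) f = c · y ^ m` ⟹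
`(g - 1)² (g - Q) [D] = 0` in `Pic⁰`. -/
theorem frobPolyAdd_mk_eq_zero (g : SemilinearAut K F) (m : ℕ) (hm : m ≠ 0) (Q : ℕ)
    (D : Divisor.degZero (K := K) (F := F)) {f : F} (hf : f ≠ 0)
    (hfD : ∀ w : Place K F, w.ord f = (m : ℤ) * (D : Divisor K F) w)
    {c : K} {y : F}
    (hyc : frobPoly (SemilinearAut.toRingAut g) Q f = algebraMap K F c * y ^ m) :
    g • (g • (g • Pic0.mk D - Pic0.mk D) - (g • Pic0.mk D - Pic0.mk D))
      - Q • (g • (g • Pic0.mk D - Pic0.mk D) - (g • Pic0.mk D - Pic0.mk D)) = 0 := by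
  set τ := SemilinearAut.toRingAut g with hτ
  have h1 : frobSub τ 1 f ≠ 0 := frobSub_ne_zero_h215 τ 1 hf
  have h2 : frobSub τ 1 (frobSub τ 1 f) ≠ 0 := frobSub_ne_zero_h215 τ 1 h1
  have h3 : frobPoly τ Q f ≠ 0 := frobSub_ne_zero_h215 τ Q h2
  have hy : y ≠ 0 := by
    rintro rfl
    rw [zero_pow hm, mul_zero] at hyc
    exact h3 hyc
  have hcF : algebraMap K F c ≠ 0 := by
    intro h0
    rw [h0, zero_mul] at hyc
    exact h3 hyc
  -- the divisor `E = (g - Q)(g - 1)² D`
  set U : Divisor.degZero (K := K) (F := F) := SemilinearAut.degZeroSMulHom g D - D with hU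
  set W : Divisor.degZero (K := K) (F := F) := SemilinearAut.degZeroSMulHom g U - U with hW
  set E : Divisor.degZero (K := K) (F := F) := SemilinearAut.degZeroSMulHom g W - Q • W with hE
  have hgoal : g • (g • (g • Pic0.mk D - Pic0.mk D) - (g • Pic0.mk D - Pic0.mk D))
      - Q • (g • (g • Pic0.mk D - Pic0.mk D) - (g • Pic0.mk D - Pic0.mk D)) = Pic0.mk E := by
    rw [SemilinearAut.pic0_smul_mk]
    rfl
  rw [hgoal]
  refine (QuotientAddGroup.eq_zero_iff E).2 ?_
  rw [AddSubgroup.mem_addSubgroupOf]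
  refine ⟨y, hy, fun w => ?_⟩
  have hUw : ∀ v : Place K F, (U : Divisor K F) v
      = (D : Divisor K F) (g⁻¹ • v) - (D : Divisor K F) v := by
    intro v
    simp only [hU, AddSubgroupClass.coe_sub, SemilinearAut.coe_degZeroSMulHom,
      Finsupp.sub_apply, SemilinearAut.divisor_smul_apply]
  have hWw : ∀ v : Place K F, (W : Divisor K F) v
      = (U : Divisor K F) (g⁻¹ • v) - (U : Divisor K F) v := by
    intro v
    simp only [hW, AddSubgroupClass.coe_sub, SemilinearAut.coe_degZeroSMulHom,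
      Finsupp.sub_apply, SemilinearAut.divisor_smul_apply]
  have hEw : (E : Divisor K F) w
      = (W : Divisor K F) (g⁻¹ • w) - (Q : ℤ) * (W : Divisor K F) w := by
    simp only [hE, AddSubgroupClass.coe_sub, SemilinearAut.coe_degZeroSMulHom,
      Finsupp.sub_apply, SemilinearAut.divisor_smul_apply, AddSubgroup.coe_nsmul,
      Finsupp.smul_apply, nsmul_eq_mul]
  have e1 : ∀ v : Place K F, v.ord (frobSub τ 1 f)
      = (m : ℤ) * (U : Divisor K F) v := by
    intro v
    rw [hτ, ord_frobSub_h215 g 1 hf v, hUw v, hfD, hfD]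
    push_cast; ring
  have e2 : ∀ v : Place K F, v.ord (frobSub τ 1 (frobSub τ 1 f))
      = (m : ℤ) * (W : Divisor K F) v := by
    intro v
    rw [hτ, ord_frobSub_h215 g 1 h1 v, hWw v, e1, e1]
    push_cast; ring
  have hord : w.ord (frobPoly τ Q f) = (m : ℤ) * (E : Divisor K F) w := by
    show w.ord (frobSub τ Q (frobSub τ 1 (frobSub τ 1 f))) = _
    rw [hτ, ord_frobSub_h215 g Q h2 w, hEw, e2, e2]
    ring
  have hord2 : w.ord (frobPoly τ Q f) = (m : ℤ) * w.ord y := by
    rw [hyc, w.ord_mul hcF (pow_ne_zero m hy), ord_algebraMap_h215, zero_add, ord_pow_h215]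
  have hm' : (m : ℤ) ≠ 0 := by exact_mod_cast hm
  exact mul_left_cancel₀ hm' (hord.symm.trans hord2)

end Abstract

/-- **Leaf T0F** of (G'): the Kummer dictionary. -/
theorem t0F : T0FStatement := by
  intro M q m _ _ _hq _hqM hm _hqm hα hβ H A hA s hs x hx ha hb
  obtain ⟨D, rfl⟩ := Pic0.mk_surjective x
  -- the Kummer generator
  have hprin : ((m • D : Divisor.degZero (K := Qb) (F := modularFunctionFieldBar (M * q))) :
      Divisor Qb (modularFunctionFieldBar (M * q))) ∈
      Divisor.principal (K := Qb) (F := modularFunctionFieldBar (M * q)) := by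
    have h0 : Pic0.mk (m • D) = 0 := hx
    have := (QuotientAddGroup.eq_zero_iff (m • D)).1 h0
    simpa [AddSubgroup.mem_addSubgroupOf] using this
  obtain ⟨f, hf, hfD⟩ := hprin
  have hfD' : ∀ v : Place Qb (modularFunctionFieldBar (M * q)),
      v.ord f = (m : ℤ) * (D : Divisor Qb (modularFunctionFieldBar (M * q))) v := by
    intro v
    rw [← hfD v]
    simp [Finsupp.smul_apply]
  have hconst := Fermat.Agent.S18.H504.constOfOrdZero_modularFunctionFieldBar M
  obtain ⟨hα1, hα2, hα3⟩ := hα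
  obtain ⟨hβ1, hβ2, hβ3⟩ := hβ
  have hNα : NormPow (heckeAlphaBar Qb M q) m f :=
    normPow_of_push_eq_zero _ hα1 hα2 hα3 hconst m D hf hfD' ha
  have hNβ : NormPow (heckeBetaBar Qb M q) m f :=
    normPow_of_push_eq_zero _ hβ1 hβ2 hβ3 hconst m D hf hfD' hb
  obtain ⟨c, y, _, hyc⟩ := H A hA s hs f hf (fun v => ⟨_, hfD' v⟩) hNα hNβ
  exact frobPolyAdd_mk_eq_zero
    (arithmeticGalois (modularFunctionFieldFull (M * q)) (s * s)) m hm.ne' (q ^ 2) D hf hfD' hyc

end Fermat.Agent.S35.G.H215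

end

end
-- ===== PACK-END S35/G/H215/T0F.lean

-- ===== PACK-BEGIN S35/G/H858/T1F.lean
section





/-!
# S35, piece (G'), leaf T1F (helper858): descent `ℚ̄ → E`

`t1f : T1FStatement` (helper450's `SpecLevel.lean`, VERBATIM).

Proof (pattern of `A2/T1/H669`): the function `f` and the data `c, g`, `c', g'` of the two norm
hypotheses descend to every level containing a finite set `S`; IFs gives a good `s`-stable level
`E ⊇ S`; `m ∣ div f` becomes `DivisibleDiv` (helper669 T2); the norms along `α`, `β` commute with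
the constant field extension `E ⊆ ℚ̄` (`S35/H858/NormBC.lean`: the constants `ε_j`, `ε` an
`E`-basis of `ℚ̄`, form a basis of `F̄` over `F_E` at both levels, so an `F_{M,E}`-basis of
`F_{Mq,E}` is an `F̄_M`-basis of `F̄_{Mq}`; no degree computation is needed); the conclusion is
pushed back by `iota`.
-/

set_option autoImplicit false
set_option linter.style.haveILetI false
set_option synthInstance.maxHeartbeats 400000
set_option maxHeartbeats 1600000

noncomputable section

namespace Fermat.Agent.S35.G.H858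

open ModularCurve AlgebraicCurve Fermat.Agent.S35.G Fermat.Agent.S29.H395

/-- `iota` commutes with `frobSub`. -/
theorem iota_frobSub (E : IntermediateField ℚ Qb) (N : ℕ)
    (φE : A2.Mod.FE E N ≃+* A2.Mod.FE E N)
    (φ : modularFunctionFieldBar N ≃+* modularFunctionFieldBar N)
    (hφ : ∀ y, A2.T1.H669.iota E (modularFunctionFieldFull N) (φE y) =
      φ (A2.T1.H669.iota E (modularFunctionFieldFull N) y))
    (Q : ℕ) (y : A2.Mod.FE E N) :
    A2.T1.H669.iota E (modularFunctionFieldFull N) (frobSub φE Q y) =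
      frobSub φ Q (A2.T1.H669.iota E (modularFunctionFieldFull N) y) := by
  unfold frobSub
  rw [map_mul, map_inv₀, map_pow, hφ]

/-- `iota` commutes with `frobPoly`. -/
theorem iota_frobPoly (E : IntermediateField ℚ Qb) (N : ℕ)
    (φE : A2.Mod.FE E N ≃+* A2.Mod.FE E N)
    (φ : modularFunctionFieldBar N ≃+* modularFunctionFieldBar N)
    (hφ : ∀ y, A2.T1.H669.iota E (modularFunctionFieldFull N) (φE y) =
      φ (A2.T1.H669.iota E (modularFunctionFieldFull N) y))
    (Q : ℕ) (y : A2.Mod.FE E N) :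
    A2.T1.H669.iota E (modularFunctionFieldFull N) (frobPoly φE Q y) =
      frobPoly φ Q (A2.T1.H669.iota E (modularFunctionFieldFull N) y) := by
  unfold frobPoly
  rw [iota_frobSub E N φE φ hφ, iota_frobSub E N φE φ hφ, iota_frobSub E N φE φ hφ]

/-- Descent of a norm hypothesis. -/
theorem normPow_descent (E : IntermediateField ℚ Qb) (M q m : ℕ) [NeZero M] [NeZero q]
    (ψE : A2.Mod.FE E M →ₐ[E] A2.Mod.FE E (M * q))
    (ψ : modularFunctionFieldBar M →ₐ[Qb] modularFunctionFieldBar (M * q))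
    (hN : ∀ y, A2.T1.H669.iota E (modularFunctionFieldFull M) (normAlong ψE y) =
      normAlong ψ (A2.T1.H669.iota E (modularFunctionFieldFull (M * q)) y))
    (y : A2.Mod.FE E (M * q)) (c : Qb) (hc : c ∈ E) (g : A2.Mod.FE E M)
    (h : normAlong ψ (A2.T1.H669.iota E (modularFunctionFieldFull (M * q)) y) =
      algebraMap Qb (modularFunctionFieldBar M) c *
        (A2.T1.H669.iota E (modularFunctionFieldFull M) g) ^ m) :
    NormPow ψE m y := by
  refine ⟨⟨c, hc⟩, g, ?_⟩
  apply A2.T1.H669.iota_injective E (modularFunctionFieldFull M)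
  rw [hN, h, map_mul, map_pow, A2.T1.H669.iota_algebraMap]
  rfl

/-- **T1F.** -/
theorem t1f : T1FStatement := by
  intro M q m _ _ hq hqM hm hqm hIF hLEV A hA s hs f hf hdiv hNα hNβ
  classical
  obtain ⟨c₁, g₁, h₁⟩ := hNα
  obtain ⟨c₂, g₂, h₂⟩ := hNβ
  obtain ⟨S₁, hS₁⟩ :=
    A2.T1.H669.exists_finset_descent (modularFunctionFieldFull (M * q)) f
  obtain ⟨S₂, hS₂⟩ := A2.T1.H669.exists_finset_descent (modularFunctionFieldFull M) g₁
  obtain ⟨S₃, hS₃⟩ := A2.T1.H669.exists_finset_descent (modularFunctionFieldFull M) g₂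
  obtain ⟨E, hSE, hE, hst⟩ :=
    hIF q hq A hA s hs.mem_decompositionSubgroup (S₁ ∪ S₂ ∪ S₃ ∪ {c₁, c₂})
  obtain ⟨y, hy⟩ := hS₁ E (fun x hx => hSE x (by simp [hx]))
  obtain ⟨a, ha⟩ := hS₂ E (fun x hx => hSE x (by simp [hx]))
  obtain ⟨b, hb⟩ := hS₃ E (fun x hx => hSE x (by simp [hx]))
  have hc₁ : c₁ ∈ E := hSE c₁ (by simp)
  have hc₂ : c₂ ∈ E := hSE c₂ (by simp)
  have hy0 : y ≠ 0 := by
    rintro rfl
    exact hf (by rw [← hy, map_zero])
  have hNy : NormPow (A2.Mod.αE E M q) m y :=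
    normPow_descent E M q m _ _
      (Fermat.Agent.S35.H858.iota_normAlong_alpha E M q
        (Fermat.Agent.Lib.HI.H864.finiteAlong_alpha M q))
      y c₁ hc₁ a (by rw [hy, ha]; exact h₁)
  have hNy' : NormPow (A2.Mod.βE E M q) m y :=
    normPow_descent E M q m _ _
      (Fermat.Agent.S35.H858.iota_normAlong_beta E M q
        (Fermat.Agent.Lib.HI.H864.finiteAlong_beta M q))
      y c₂ hc₂ b (by rw [hy, hb]; exact h₂)
  obtain ⟨h, hh0, hh⟩ := hLEV A E hA hE s hst hs y hy0
    (A2.T1.H669.divisibleDiv_of_ord E (modularFunctionFieldFull (M * q)) m y hy0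
      (fun v => by rw [hy]; exact hdiv v))
    hNy hNy'
  refine ⟨1, A2.T1.H669.iota E _ h, one_ne_zero, ?_⟩
  have h3 := congrArg (A2.T1.H669.iota E (modularFunctionFieldFull (M * q))) hh
  rw [iota_frobPoly E (M * q) (psiE E (M * q) s hst) (actBar (M * q) (s * s))
    (fun z => A2.T1.H669.iota_arithmeticRingAut E _ (s * s)
      (A2.Mod.resE E s hst * A2.Mod.resE E s hst) (fun e => rfl) z), hy, map_pow] at h3
  rw [h3, map_one, one_mul]

end Fermat.Agent.S35.G.H858

end
end
-- ===== PACK-END S35/G/H858/T1F.lean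

-- ===== PACK-BEGIN A2/IF/H429/Inertia.lean
section





/-!
# A2 / IF (helper429): the inertia group of a valuation subring of `ℚ̄` and its fixed field

`P` a valuation subring of `ℚ̄` over a prime number `q`, `I = P.inertiaSubgroupIn ℚ`,
`E_I = ℚ̄^I` the inertia field.

* `valuation_map_eq`          : elements of the decomposition group preserve the valuation of `P`;
* `exists_inertia_apply_eq`   : an automorphism fixing `E_I` pointwise agrees, on each element of
                                `ℚ̄`, with some element of `I`;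
* `exists_zpow_of_mem_inertiaField` : every nonzero element of `E_I` is a unit times a power of
                                `q` (the inertia field is unramified).
-/

set_option autoImplicit false
set_option linter.style.haveILetI false
set_option linter.unusedSectionVars false

open scoped Pointwise
open NumberField IsDedekindDomain

namespace Fermat.Agent.A2.IF.H429

open Fermat.Agent.S55.Bridge Fermat.Agent.S55.Bridge.H594

attribute [local instance] isAlgebraic_Qbar isGalois_Qbar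

/-- `ℚ̄` (local abbreviation). -/
local notation "Qb" => AlgebraicClosure ℚ

variable (P : ValuationSubring Qb)

/-! ## Decomposition and inertia elements -/

theorem mem_of_mem_decomp {σ : Qb ≃ₐ[ℚ] Qb} (hσ : σ ∈ P.decompositionSubgroup ℚ) {x : Qb}
    (hx : x ∈ P) : σ x ∈ P :=
  ((mem_decompositionSubgroup_iff_forall P σ).mp hσ x).mpr hx

theorem mem_nonunits_of_mem_decomp {σ : Qb ≃ₐ[ℚ] Qb} (hσ : σ ∈ P.decompositionSubgroup ℚ)
    {x : Qb} (hx : x ∈ P.nonunits) : σ x ∈ P.nonunits := by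
  rw [ValuationSubring.mem_nonunits_iff_or] at hx ⊢
  rcases hx with rfl | hx
  · left; simp
  · right
    intro h
    apply hx
    rw [← map_inv₀] at h
    exact ((mem_decompositionSubgroup_iff_forall P σ).mp hσ _).mp h

theorem decomp_of_inertia {σ : Qb ≃ₐ[ℚ] Qb} (hσ : σ ∈ P.inertiaSubgroupIn ℚ) :
    σ ∈ P.decompositionSubgroup ℚ :=
  ((mem_inertiaSubgroupIn_iff_forall P σ).mp hσ).1

theorem sub_mem_nonunits_of_inertia {σ : Qb ≃ₐ[ℚ] Qb} (hσ : σ ∈ P.inertiaSubgroupIn ℚ)
    {x : Qb} (hx : x ∈ P) : σ x - x ∈ P.nonunits :=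
  ((mem_inertiaSubgroupIn_iff_forall P σ).mp hσ).2 x hx

/-- Elements of the decomposition group are strictly monotone for the valuation. -/
theorem valuation_map_lt {σ : Qb ≃ₐ[ℚ] Qb} (hσ : σ ∈ P.decompositionSubgroup ℚ) {a b : Qb}
    (h : P.valuation a < P.valuation b) : P.valuation (σ a) < P.valuation (σ b) := by
  have hb : b ≠ 0 := by
    rintro rfl
    simp at h
  have hbv : P.valuation b ≠ 0 := (Valuation.ne_zero_iff _).mpr hb
  have hσb : σ b ≠ 0 := by simpa using hb
  have hσbv : P.valuation (σ b) ≠ 0 := (Valuation.ne_zero_iff _).mpr hσb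
  have h1 : a / b ∈ P.nonunits := by
    rw [ValuationSubring.mem_nonunits_iff, map_div₀]
    exact (div_lt_one₀ (zero_lt_iff.mpr hbv)).mpr h
  have h2 := mem_nonunits_of_mem_decomp P hσ h1
  rw [ValuationSubring.mem_nonunits_iff, map_div₀, map_div₀] at h2
  exact (div_lt_one₀ (zero_lt_iff.mpr hσbv)).mp h2

theorem valuation_iterate_lt {σ : Qb ≃ₐ[ℚ] Qb} (hσ : σ ∈ P.decompositionSubgroup ℚ) {x : Qb}
    (h : P.valuation (σ x) < P.valuation x) (k : ℕ) :
    P.valuation ((σ ^ (k + 1)) x) < P.valuation x := by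
  induction k with
  | zero => simpa using h
  | succ k ih =>
    have h1 := valuation_map_lt P hσ ih
    have h2 : (σ ^ (k + 1 + 1)) x = σ ((σ ^ (k + 1)) x) := by
      rw [pow_succ' σ (k + 1)]; rfl
    rw [h2]
    exact h1.trans h

theorem valuation_iterate_gt {σ : Qb ≃ₐ[ℚ] Qb} (hσ : σ ∈ P.decompositionSubgroup ℚ) {x : Qb}
    (h : P.valuation x < P.valuation (σ x)) (k : ℕ) :
    P.valuation x < P.valuation ((σ ^ (k + 1)) x) := by
  induction k with
  | zero => simpa using h
  | succ k ih =>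
    have h1 := valuation_map_lt P hσ ih
    have h2 : (σ ^ (k + 1 + 1)) x = σ ((σ ^ (k + 1)) x) := by
      rw [pow_succ' σ (k + 1)]; rfl
    rw [h2]
    exact h.trans h1

/-- Every element of `ℚ̄` is fixed by a positive power of any automorphism. -/
theorem exists_pow_apply_eq (σ : Qb ≃ₐ[ℚ] Qb) (x : Qb) : ∃ k : ℕ, (σ ^ (k + 1)) x = x := by
  have hx : IsIntegral ℚ x := Algebra.IsIntegral.isIntegral x
  have hfin : ((minpoly ℚ x).rootSet Qb).Finite := Polynomial.rootSet_finite _ _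
  have hmem : ∀ i : ℕ, (σ ^ i) x ∈ (minpoly ℚ x).rootSet Qb := by
    intro i
    rw [Polynomial.mem_rootSet]
    refine ⟨minpoly.ne_zero hx, ?_⟩
    have := Polynomial.aeval_algHom_apply ((σ ^ i : Qb ≃ₐ[ℚ] Qb) : Qb →ₐ[ℚ] Qb) x (minpoly ℚ x)
    rw [minpoly.aeval, map_zero] at this
    exact this
  haveI : Finite ((minpoly ℚ x).rootSet Qb) := hfin
  obtain ⟨i, j, hij, h⟩ := Finite.exists_ne_map_eq_of_infinite
    (fun i : ℕ => (⟨(σ ^ i) x, hmem i⟩ : (minpoly ℚ x).rootSet Qb))
  have h' : (σ ^ i) x = (σ ^ j) x := congrArg Subtype.val h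
  wlog hlt : i < j generalizing i j
  · exact this j i hij.symm h.symm h'.symm (lt_of_le_of_ne (not_lt.mp hlt) hij.symm)
  obtain ⟨k, rfl⟩ : ∃ k, j = i + (k + 1) := ⟨j - i - 1, by omega⟩
  refine ⟨k, ?_⟩
  have h3 : (σ ^ (i + (k + 1))) x = (σ ^ i) ((σ ^ (k + 1)) x) := by
    rw [pow_add]; rfl
  rw [h3] at h'
  exact ((σ ^ i).injective h').symm

/-- Elements of the decomposition group preserve the valuation. -/
theorem valuation_map_eq {σ : Qb ≃ₐ[ℚ] Qb} (hσ : σ ∈ P.decompositionSubgroup ℚ) (x : Qb) :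
    P.valuation (σ x) = P.valuation x := by
  obtain ⟨k, hk⟩ := exists_pow_apply_eq σ x
  rcases lt_trichotomy (P.valuation (σ x)) (P.valuation x) with h | h | h
  · have := valuation_iterate_lt P hσ h k
    rw [hk] at this
    exact absurd this (lt_irrefl _)
  · exact h
  · have := valuation_iterate_gt P hσ h k
    rw [hk] at this
    exact absurd this (lt_irrefl _)

/-- Every finite set of algebraic numbers lies in a finite Galois extension of `ℚ` in `ℚ̄`. -/
theorem exists_finite_galois (S : Finset Qb) :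
    ∃ M : IntermediateField ℚ Qb, (∀ s ∈ S, s ∈ M) ∧ FiniteDimensional ℚ M ∧ IsGalois ℚ M := by
  let M₀ : IntermediateField ℚ Qb := IntermediateField.adjoin ℚ (S : Set Qb)
  haveI : FiniteDimensional ℚ M₀ :=
    IntermediateField.finiteDimensional_adjoin (fun x _ => Algebra.IsIntegral.isIntegral x)
  let M : IntermediateField ℚ Qb := IntermediateField.normalClosure ℚ M₀ Qb
  refine ⟨M, fun s hs => ?_, inferInstance, ?_⟩
  · have h1 : M₀ ≤ M := IntermediateField.le_normalClosure M₀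
    exact h1 (IntermediateField.subset_adjoin ℚ _ hs)
  · haveI : Normal ℚ Qb := IsGalois.to_normal
    haveI : Normal ℚ M := normalClosure.normal ℚ M₀ Qb
    exact ⟨⟩

/-- The inertia field of `P`. -/
noncomputable def inertiaField : IntermediateField ℚ Qb :=
  IntermediateField.fixedField (P.inertiaSubgroupIn ℚ)

theorem mem_inertiaField_iff {x : Qb} :
    x ∈ inertiaField P ↔ ∀ τ ∈ P.inertiaSubgroupIn ℚ, τ x = x := by
  unfold inertiaField
  rw [IntermediateField.mem_fixedField_iff]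

/-- **Lemma A.**  An automorphism fixing the inertia field pointwise agrees, on each element,
with some element of the inertia group. -/
theorem exists_inertia_apply_eq (σ : Qb ≃ₐ[ℚ] Qb) (hσ : ∀ e ∈ inertiaField P, σ e = e)
    (x : Qb) : ∃ τ ∈ P.inertiaSubgroupIn ℚ, σ x = τ x := by
  obtain ⟨M, hxM, hfin, hgal⟩ := exists_finite_galois {x}
  have hx : x ∈ M := hxM x (Finset.mem_singleton_self x)
  let H : Subgroup (M ≃ₐ[ℚ] M) := (P.inertiaSubgroupIn ℚ).map (AlgEquiv.restrictNormalHom M)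
  have hmem : AlgEquiv.restrictNormalHom M σ ∈ H := by
    rw [← IntermediateField.fixingSubgroup_fixedField H]
    rw [IntermediateField.mem_fixingSubgroup_iff]
    intro y hy
    apply Subtype.ext
    rw [restrictNormalHom_apply]
    apply hσ
    rw [mem_inertiaField_iff]
    intro τ hτ
    rw [IntermediateField.mem_fixedField_iff] at hy
    have h1 := hy (AlgEquiv.restrictNormalHom M τ) ⟨τ, hτ, rfl⟩
    rw [← restrictNormalHom_apply M τ y, h1]
  obtain ⟨τ, hτ, hτσ⟩ := hmem
  refine ⟨τ, hτ, ?_⟩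
  have h1 := restrictNormalHom_apply M σ ⟨x, hx⟩
  have h2 := restrictNormalHom_apply M τ ⟨x, hx⟩
  rw [← hτσ] at h1
  exact h1.symm.trans h2


/-- **The inertia field is unramified**: every nonzero element of the inertia field is a unit of
`P` times a power of `q`. -/
theorem exists_zpow_of_mem_inertiaField (q : ℕ) (hq : q.Prime) (hP : P.LiesOverPrime q)
    (y : Qb) (hy : y ∈ inertiaField P) (hy0 : y ≠ 0) :
    ∃ k : ℤ, P.valuation (y / (q : Qb) ^ k) = 1 := by
  obtain ⟨M, hyM, hfin, hgal⟩ := exists_finite_galois {y}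
  have hyM' : y ∈ M := hyM y (Finset.mem_singleton_self y)
  haveI : NumberField M := numberField_of_finite M
  have hne : Fermat.Agent.S14.H937.primeOf M P ≠ ⊥ :=
    Fermat.Agent.S14.H937.primeOf_ne_bot M P q hq hP
  let w : HeightOneSpectrum (𝓞 M) := ⟨Fermat.Agent.S14.H937.primeOf M P, inferInstance, hne⟩
  have hw : w.asIdeal = Fermat.Agent.S14.H937.primeOf M P := rfl
  have hqw : (q : 𝓞 M) ∈ w.asIdeal := Fermat.Agent.S14.H937.natCast_mem_primeOf M P q hP
  have hfix : ∀ τ ∈ w.asIdeal.inertia Gal(M/ℚ), τ (⟨y, hyM'⟩ : M) = ⟨y, hyM'⟩ := by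
    intro τ hτ
    obtain ⟨σ, hσ, hστ⟩ := exists_inertia_lift M P hq hP τ (fun x hx => by
      obtain ⟨x', rfl⟩ : ∃ x' : 𝓞 M, algebraMap (𝓞 M) M x' = x := ⟨⟨x, hx⟩, rfl⟩
      have h2 : τ • x' - x' ∈ Fermat.Agent.S14.H937.primeOf M P := hτ x'
      exact (Fermat.Agent.S14.H937.mem_primeOf M P _).mp h2)
    apply Subtype.ext
    rw [← hστ, restrictNormalHom_apply]
    exact (mem_inertiaField_iff P).mp hy σ hσ
  obtain ⟨k, hk⟩ := exists_zpow_valuation_eq_one_of_fixed M w q hq hqw ⟨y, hyM'⟩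
    (fun h => hy0 (congrArg Subtype.val h)) hfix
  refine ⟨k, ?_⟩
  have h1 := Fermat.Agent.S14.H937.valuation_eq_one_of M P w hw _ hk
  rw [map_div₀, map_zpow₀, map_natCast] at h1
  exact h1


end Fermat.Agent.A2.IF.H429

end
-- ===== PACK-END A2/IF/H429/Inertia.lean

-- ===== PACK-BEGIN A2/IF/H429/Local.lean
section


/-!
# A2 / IF (helper429): local lemmas for a valuation subring `P` of `ℚ̄` over `q`

* `root_unique_of_derivative_notMem` : a root of `f` is determined by its residue class when the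
  derivative is a unit there;
* `exists_root_sub_mem_nonunits` : if `f(a) ≡ 0`, some root of the monic `f` is `≡ a`;
* `exists_pow_sub_mem_nonunits` : the residue field of `P` is algebraic over `𝔽_q`, in the form
  `a ^ N ≡ a` for some `N` divisible by `q`;
* `exists_teichmuller` : every element of `P` is congruent to an element of the inertia field
  (a root of `X ^ N - X`).
-/

set_option autoImplicit false
set_option linter.style.haveILetI false
set_option linter.unusedSectionVars false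

open scoped Pointwise
open Polynomial

namespace Fermat.Agent.A2.IF.H429

open Fermat.Agent.S55.Bridge Fermat.Agent.S55.Bridge.H594

attribute [local instance] isAlgebraic_Qbar isGalois_Qbar

local notation "Qb" => AlgebraicClosure ℚ

/-- A root of `f` is determined by its class modulo `m` if `f'` is not in `m` there. -/
theorem root_unique_of_derivative_notMem {A : Type*} [CommRing A] [IsDomain A] (m : Ideal A)
    (f : A[X]) (a₀ α β : A) (hα : f.IsRoot α) (hβ : f.IsRoot β)
    (hd : f.derivative.eval a₀ ∉ m) (hαa : α - a₀ ∈ m) (hβa : β - a₀ ∈ m) : α = β := by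
  by_contra hne
  obtain ⟨g, hg⟩ : ∃ g, f = (X - C α) * g := Polynomial.dvd_iff_isRoot.mpr hα
  have hgβ : g.eval β = 0 := by
    have h1 : f.eval β = 0 := hβ
    rw [hg, eval_mul, eval_sub, eval_X, eval_C] at h1
    rcases mul_eq_zero.mp h1 with h | h
    · exact absurd (sub_eq_zero.mp h).symm hne
    · exact h
  apply hd
  have h2 : f.derivative.eval a₀ = g.eval a₀ + (a₀ - α) * g.derivative.eval a₀ := by
    rw [hg, derivative_mul, derivative_sub, derivative_X, derivative_C]
    simp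
  rw [h2]
  apply m.add_mem
  · have h3 : a₀ - β ∣ g.eval a₀ - g.eval β := sub_dvd_eval_sub a₀ β g
    rw [hgβ, sub_zero] at h3
    obtain ⟨c, hc⟩ := h3
    rw [hc]
    apply m.mul_mem_right
    have : a₀ - β = -(β - a₀) := by ring
    rw [this]
    exact m.neg_mem hβa
  · apply m.mul_mem_right
    have : a₀ - α = -(α - a₀) := by ring
    rw [this]
    exact m.neg_mem hαa

variable (P : ValuationSubring Qb)

/-- Roots of monic polynomials over `P` lie in `P`. -/
theorem mem_of_isRoot_map (g : (P : Type)[X]) (hg : g.Monic) (r : Qb)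
    (hr : (g.map P.subtype).IsRoot r) : r ∈ P := by
  have hint : IsIntegral P r := by
    refine ⟨g, hg, ?_⟩
    have h1 : (g.map P.subtype).eval r = 0 := hr
    rw [eval_map] at h1
    exact h1
  obtain ⟨y, hy⟩ := IsIntegrallyClosed.isIntegral_iff.mp hint
  rw [← hy]
  exact y.2

/-- If `f(a)` is a non-unit, then `a` is congruent to a root of the monic polynomial `f`. -/
theorem exists_root_sub_mem_nonunits (f : Qb[X]) (hf : f.Monic)
    (hroots : ∀ r ∈ f.roots, r ∈ P) (a : Qb) (ha : a ∈ P) (h : f.eval a ∈ P.nonunits) :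
    ∃ r ∈ f.roots, a - r ∈ P.nonunits := by
  by_contra hcon
  have h1 : ∀ r ∈ f.roots, P.valuation (a - r) = 1 := by
    intro r hr
    have h2 : a - r ∉ P.nonunits := fun h' => hcon ⟨r, hr, h'⟩
    rw [ValuationSubring.mem_nonunits_iff, not_lt] at h2
    exact le_antisymm ((P.valuation_le_one_iff _).mpr (sub_mem ha (hroots r hr))) h2
  have h3 : P.valuation (f.eval a) = 1 := by
    rw [(IsAlgClosed.splits f).eval_eq_prod_roots_of_monic hf a, map_multiset_prod,
      Multiset.map_map]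
    apply Multiset.prod_eq_one
    intro x hx
    obtain ⟨r, hr, rfl⟩ := Multiset.mem_map.mp hx
    exact h1 r hr
  rw [ValuationSubring.mem_nonunits_iff, h3] at h
  exact lt_irrefl _ h

/-- Every algebraic number is a root of a primitive integer polynomial. -/
theorem exists_primitive_aeval_eq_zero (a : Qb) :
    ∃ h : ℤ[X], h.IsPrimitive ∧ aeval a h = 0 := by
  have h1 : IsAlgebraic ℚ a := Algebra.IsAlgebraic.isAlgebraic a
  have h2 : IsAlgebraic ℤ a := (IsFractionRing.isAlgebraic_iff ℤ ℚ Qb).mpr h1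
  obtain ⟨h, hh0, hha⟩ := h2
  refine ⟨h.primPart, h.isPrimitive_primPart, ?_⟩
  have h3 := h.eq_C_content_mul_primPart
  rw [h3, map_mul, aeval_C] at hha
  rcases mul_eq_zero.mp hha with h4 | h4
  · exfalso
    have h5 : h.content ≠ 0 := by
      rw [Ne, content_eq_zero_iff]; exact hh0
    rw [eq_intCast, Int.cast_eq_zero] at h4
    exact h5 h4
  · exact h4

/-- The residue field of `P` is algebraic over `𝔽_q`, elementary form. -/
theorem exists_pow_sub_mem_nonunits (q : ℕ) (hq : q.Prime) (hP : P.LiesOverPrime q)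
    (a : Qb) (ha : a ∈ P) : ∃ N : ℕ, q ∣ N ∧ 0 < N ∧ a ^ N - a ∈ P.nonunits := by
  classical
  haveI : Fact q.Prime := ⟨hq⟩
  let k := IsLocalRing.ResidueField P
  have hqk : ((q : ℕ) : k) = 0 := by
    have h1 : ((q : ℕ) : k) = IsLocalRing.residue P ((q : ℕ) : P) := by
      rw [map_natCast]
    rw [h1, IsLocalRing.residue_eq_zero_iff, ← ValuationSubring.coe_mem_nonunits_iff]
    have h2 : (((q : ℕ) : P) : Qb) = (q : Qb) := by simp
    rw [h2]
    exact hP
  haveI : CharP k q := (CharP.charP_iff_prime_eq_zero hq).mpr hqk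
  letI : Algebra (ZMod q) k := ZMod.algebra k q
  let a' : P := ⟨a, ha⟩
  let ā : k := IsLocalRing.residue P a'
  have halg : IsAlgebraic (ZMod q) ā := by
    obtain ⟨h, hprim, hha⟩ := exists_primitive_aeval_eq_zero a
    refine ⟨h.map (Int.castRingHom (ZMod q)), ?_, ?_⟩
    · intro h0
      have hdvd : C (q : ℤ) ∣ h := by
        rw [C_dvd_iff_dvd_coeff]
        intro i
        have := congrArg (fun p => coeff p i) h0
        simp only [coeff_map, eq_intCast, coeff_zero] at this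
        exact (ZMod.intCast_zmod_eq_zero_iff_dvd _ q).mp this
      have hu := hprim (q : ℤ) hdvd
      rw [Int.isUnit_iff] at hu
      rcases hu with hu | hu
      · have : q = 1 := by exact_mod_cast hu
        exact hq.one_lt.ne' this
      · have : (0 : ℤ) ≤ (q : ℤ) := Int.natCast_nonneg q
        omega
    · rw [aeval_def, eval₂_map]
      have hcomp : (algebraMap (ZMod q) k).comp (Int.castRingHom (ZMod q)) =
          (IsLocalRing.residue P).comp (Int.castRingHom P) := RingHom.ext_int _ _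
      rw [hcomp, ← hom_eval₂]
      have hz : eval₂ (Int.castRingHom P) a' h = 0 := by
        apply Subtype.ext
        have h1 := hom_eval₂ h (Int.castRingHom P) P.subtype a'
        have h2 : P.subtype.comp (Int.castRingHom P) = algebraMap ℤ Qb := RingHom.ext_int _ _
        rw [h2] at h1
        have h3 : eval₂ (algebraMap ℤ Qb) (P.subtype a') h = 0 := hha
        rw [h3] at h1
        exact h1
      rw [hz, map_zero]
  let F : IntermediateField (ZMod q) k := IntermediateField.adjoin (ZMod q) {ā}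
  haveI : FiniteDimensional (ZMod q) F :=
    IntermediateField.adjoin.finiteDimensional halg.isIntegral
  haveI : Finite F := Module.finite_of_finite (ZMod q)
  haveI : Fintype F := Fintype.ofFinite F
  let x : F := ⟨ā, IntermediateField.mem_adjoin_simple_self (ZMod q) ā⟩
  have hx : x ^ Fintype.card F = x := FiniteField.pow_card x
  have hN0 : ((Fintype.card F : ℕ) : F) = 0 := FiniteField.cast_card_eq_zero F
  haveI : CharP F q := (RingHom.charP_iff (algebraMap F k) (algebraMap F k).injective q).mpr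
    inferInstance
  refine ⟨Fintype.card F, (CharP.cast_eq_zero_iff F q _).mp hN0, Fintype.card_pos, ?_⟩
  have h1 : ā ^ Fintype.card F = ā := by
    have := congrArg (fun y : F => (y : k)) hx
    simpa using this
  have h2 : IsLocalRing.residue P (a' ^ Fintype.card F - a') = 0 := by
    rw [map_sub, map_pow]
    exact sub_eq_zero.mpr h1
  rw [IsLocalRing.residue_eq_zero_iff, ← ValuationSubring.coe_mem_nonunits_iff] at h2
  simpa using h2


theorem natCast_mem_maximalIdeal_of_dvd (q : ℕ) (hP : P.LiesOverPrime q) (N : ℕ) (hqN : q ∣ N) :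
    ((N : ℕ) : P) ∈ IsLocalRing.maximalIdeal P := by
  obtain ⟨c, rfl⟩ := hqN
  rw [Nat.cast_mul]
  apply Ideal.mul_mem_right
  rw [← ValuationSubring.coe_mem_nonunits_iff]
  have h2 : (((q : ℕ) : P) : Qb) = (q : Qb) := by simp
  rw [h2]
  exact hP

/-- **Teichmüller lifts.**  Every element of `P` is congruent modulo the maximal ideal to an
element of the inertia field lying in `P`. -/
theorem exists_teichmuller (q : ℕ) (hq : q.Prime) (hP : P.LiesOverPrime q) (a : Qb)
    (ha : a ∈ P) : ∃ z : Qb, z ∈ P ∧ z ∈ inertiaField P ∧ a - z ∈ P.nonunits := by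
  obtain ⟨N, hqN, hN0, haN⟩ := exists_pow_sub_mem_nonunits P q hq hP a ha
  have hN2 : 2 ≤ N := le_trans hq.two_le (Nat.le_of_dvd hN0 hqN)
  let g : (P : Type)[X] := X ^ N - X
  have hg : g.Monic := by
    apply monic_X_pow_sub
    rw [degree_X]
    exact_mod_cast hN2
  have hgmap : g.map P.subtype = X ^ N - X := by
    simp [g]
  have hroots : ∀ r ∈ (g.map P.subtype).roots, r ∈ P := fun r hr =>
    mem_of_isRoot_map P g hg r (isRoot_of_mem_roots hr)
  have heval : (g.map P.subtype).eval a ∈ P.nonunits := by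
    rw [hgmap]
    simpa using haN
  obtain ⟨z, hz, hza⟩ := exists_root_sub_mem_nonunits P _ (hg.map _) hroots a ha heval
  have hzP : z ∈ P := hroots z hz
  have hzN : z ^ N = z := by
    have h1 : (g.map P.subtype).eval z = 0 := isRoot_of_mem_roots hz
    rw [hgmap] at h1
    simp only [eval_sub, eval_pow, eval_X] at h1
    exact sub_eq_zero.mp h1
  refine ⟨z, hzP, ?_, hza⟩
  rw [mem_inertiaField_iff]
  intro τ hτ
  have hτzP : τ z ∈ P := mem_of_mem_decomp P (decomp_of_inertia P hτ) hzP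
  have hτzN : (τ z) ^ N = τ z := by rw [← map_pow, hzN]
  have key := root_unique_of_derivative_notMem (IsLocalRing.maximalIdeal P) g
    (⟨z, hzP⟩ : P) ⟨z, hzP⟩ ⟨τ z, hτzP⟩ ?_ ?_ ?_ ?_ ?_
  · exact (congrArg Subtype.val key).symm
  · show g.eval _ = 0
    simp only [g, eval_sub, eval_pow, eval_X]
    apply Subtype.ext
    simpa using sub_eq_zero.mpr hzN
  · show g.eval _ = 0
    simp only [g, eval_sub, eval_pow, eval_X]
    apply Subtype.ext
    simpa using sub_eq_zero.mpr hτzN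
  · intro hmem
    have hN := natCast_mem_maximalIdeal_of_dvd P q hP N hqN
    have h1 : g.derivative.eval (⟨z, hzP⟩ : P) =
        (N : P) * (⟨z, hzP⟩ : P) ^ (N - 1) - 1 := by
      simp [g, derivative_X_pow]
    rw [h1] at hmem
    have h2 : (1 : P) ∈ IsLocalRing.maximalIdeal P := by
      have := Ideal.sub_mem _ (Ideal.mul_mem_right ((⟨z, hzP⟩ : P) ^ (N - 1)) _ hN) hmem
      simpa using this
    exact (Ideal.ne_top_iff_one _).mp (IsLocalRing.maximalIdeal.isMaximal P).ne_top h2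
  · simp
  · rw [← ValuationSubring.coe_mem_nonunits_iff]
    exact sub_mem_nonunits_of_inertia P hτ hzP


end Fermat.Agent.A2.IF.H429

end
-- ===== PACK-END A2/IF/H429/Local.lean

-- ===== PACK-BEGIN A2/IF/H429/Level.lean
section


/-!
# A2 / IF (helper429): levels `E ⊇ ℚ̄^{I_P}`

For an intermediate field `E` containing the inertia field of `P`, the valuation ring
`R_E = P ∩ E = P.comap (algebraMap E ℚ̄)` is henselian with algebraically closed residue field.
-/

set_option autoImplicit false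
set_option linter.style.haveILetI false
set_option linter.unusedSectionVars false

open scoped Pointwise
open Polynomial

namespace Fermat.Agent.A2.IF.H429

open Fermat.Agent.S55.Bridge Fermat.Agent.S55.Bridge.H594

attribute [local instance] isAlgebraic_Qbar isGalois_Qbar

local notation "Qb" => AlgebraicClosure ℚ

variable (P : ValuationSubring Qb) (E : IntermediateField ℚ Qb)

/-- The inclusion `R_E → P`. -/
noncomputable def inclRE : (P.comap (algebraMap E Qb)) →+* P where
  toFun x := ⟨algebraMap E Qb (x : E), x.2⟩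
  map_one' := Subtype.ext (by simp)
  map_mul' x y := Subtype.ext (by simp)
  map_zero' := Subtype.ext (by simp)
  map_add' x y := Subtype.ext (by simp)

theorem inclRE_coe (x : P.comap (algebraMap E Qb)) :
    ((inclRE P E x : P) : Qb) = ((x : E) : Qb) := rfl

theorem mem_maximalIdeal_RE_iff (x : P.comap (algebraMap E Qb)) :
    x ∈ IsLocalRing.maximalIdeal (P.comap (algebraMap E Qb)) ↔ ((x : E) : Qb) ∈ P.nonunits := by
  rw [← ValuationSubring.coe_mem_nonunits_iff, mem_nonunits_comap_iff]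
  rfl

/-- An element of `ℚ̄` fixed by every automorphism fixing `E` lies in `E`. -/
theorem mem_of_fixed (x : Qb) (hx : ∀ σ : Qb ≃ₐ[ℚ] Qb, (∀ e ∈ E, σ e = e) → σ x = x) :
    x ∈ E := by
  have h1 : x ∈ IntermediateField.fixedField E.fixingSubgroup := by
    rw [IntermediateField.mem_fixedField_iff]
    intro σ hσ
    exact hx σ (fun e he => (IntermediateField.mem_fixingSubgroup_iff E σ).mp hσ e he)
  rwa [InfiniteGalois.fixedField_fixingSubgroup] at h1

/-- An automorphism fixing `E ⊇ E_I` pointwise preserves the non-units of `P`. -/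
theorem map_mem_nonunits_of_fixes (hE : inertiaField P ≤ E) (σ : Qb ≃ₐ[ℚ] Qb)
    (hσ : ∀ e ∈ E, σ e = e) {x : Qb} (hx : x ∈ P.nonunits) : σ x ∈ P.nonunits := by
  obtain ⟨τ, hτ, h⟩ := exists_inertia_apply_eq P σ (fun e he => hσ e (hE he)) x
  rw [h]
  exact mem_nonunits_of_mem_decomp P (decomp_of_inertia P hτ) hx

/-- An automorphism fixing `E ⊇ E_I` pointwise preserves the valuation of `P`. -/
theorem valuation_map_eq_of_fixes (hE : inertiaField P ≤ E) (σ : Qb ≃ₐ[ℚ] Qb)
    (hσ : ∀ e ∈ E, σ e = e) (x : Qb) : P.valuation (σ x) = P.valuation x := by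
  obtain ⟨τ, hτ, h⟩ := exists_inertia_apply_eq P σ (fun e he => hσ e (hE he)) x
  rw [h]
  exact valuation_map_eq P (decomp_of_inertia P hτ) x

/-- **Galois-fixed simple roots.**  Let `f` be a monic polynomial over `R_E`, `E ⊇ E_I`, and
`a₀ ∈ R_E` with `f(a₀) ≡ 0` and `f'(a₀)` a unit.  Then `f` has a root `≡ a₀` in `R_E`. -/
theorem exists_root_RE (hE : inertiaField P ≤ E) (f : (P.comap (algebraMap E Qb) : Type)[X])
    (hf : f.Monic) (a₀ : P.comap (algebraMap E Qb))
    (h₁ : f.eval a₀ ∈ IsLocalRing.maximalIdeal (P.comap (algebraMap E Qb)))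
    (h₂ : IsUnit (f.derivative.eval a₀)) :
    ∃ a : P.comap (algebraMap E Qb), f.IsRoot a ∧
      a - a₀ ∈ IsLocalRing.maximalIdeal (P.comap (algebraMap E Qb)) := by
  let ι := inclRE P E
  let g : (P : Type)[X] := f.map ι
  have hg : g.Monic := hf.map ι
  let φ : (P.comap (algebraMap E Qb)) →+* Qb := P.subtype.comp ι
  have hFg : g.map P.subtype = f.map φ := by
    rw [Polynomial.map_map]
  have hroots : ∀ r ∈ (f.map φ).roots, r ∈ P := fun r hr =>
    mem_of_isRoot_map P g hg r (by rw [hFg]; exact isRoot_of_mem_roots hr)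
  have ha₀P : ((a₀ : E) : Qb) ∈ P := a₀.2
  have heval : (f.map φ).eval ((a₀ : E) : Qb) ∈ P.nonunits := by
    have h3 : (f.map φ).eval (φ a₀) = φ (f.eval a₀) := eval_map_apply φ a₀
    have h4 : φ a₀ = ((a₀ : E) : Qb) := rfl
    rw [h4] at h3
    rw [h3]
    exact (mem_maximalIdeal_RE_iff P E _).mp h₁
  obtain ⟨α, hα, hαa⟩ := exists_root_sub_mem_nonunits P _ (hf.map φ) hroots _ ha₀P heval
  have hαP : α ∈ P := hroots α hα
  have hαroot : (f.map φ).eval α = 0 := isRoot_of_mem_roots hα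
  have hgα : g.IsRoot (⟨α, hαP⟩ : P) := by
    show g.eval _ = 0
    apply Subtype.ext
    have h3 : (g.map P.subtype).eval (P.subtype ⟨α, hαP⟩) = P.subtype (g.eval ⟨α, hαP⟩) :=
      eval_map_apply P.subtype _
    rw [hFg] at h3
    have h4 : P.subtype ⟨α, hαP⟩ = α := rfl
    rw [h4, hαroot] at h3
    exact h3.symm
  have hder : g.derivative.eval (ι a₀) ∉ IsLocalRing.maximalIdeal P := by
    have h3 : g.derivative.eval (ι a₀) = ι (f.derivative.eval a₀) := by
      show (f.map ι).derivative.eval (ι a₀) = _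
      rw [derivative_map, eval_map_apply]
    rw [h3]
    intro hmem
    exact (IsLocalRing.mem_maximalIdeal _).mp hmem (h₂.map ι)
  have hαa' : (⟨α, hαP⟩ : P) - ι a₀ ∈ IsLocalRing.maximalIdeal P := by
    rw [← ValuationSubring.coe_mem_nonunits_iff]
    have h3 : (((⟨α, hαP⟩ : P) - ι a₀ : P) : Qb) = -(((a₀ : E) : Qb) - α) := by
      show α - ((a₀ : E) : Qb) = _
      ring
    rw [h3]
    exact neg_mem hαa
  -- `α` is fixed by every automorphism fixing `E`
  have hfix : ∀ σ : Qb ≃ₐ[ℚ] Qb, (∀ e ∈ E, σ e = e) → σ α = α := by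
    intro σ hσ
    have hσφ : (σ : Qb →+* Qb).comp φ = φ := by
      ext x
      exact hσ _ (x : E).2
    have hσroot : (f.map φ).eval (σ α) = 0 := by
      have h3 : ((f.map φ).map (σ : Qb →+* Qb)).eval ((σ : Qb →+* Qb) α) =
          (σ : Qb →+* Qb) ((f.map φ).eval α) := eval_map_apply (σ : Qb →+* Qb) α
      rw [Polynomial.map_map, hσφ, hαroot, map_zero] at h3
      exact h3
    have hσαP : σ α ∈ P := by
      apply hroots
      rw [mem_roots (hf.map φ).ne_zero]
      exact hσroot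
    have hgσ : g.IsRoot (⟨σ α, hσαP⟩ : P) := by
      show g.eval _ = 0
      apply Subtype.ext
      have h3 : (g.map P.subtype).eval (P.subtype ⟨σ α, hσαP⟩) =
          P.subtype (g.eval ⟨σ α, hσαP⟩) := eval_map_apply P.subtype _
      rw [hFg] at h3
      have h4 : P.subtype ⟨σ α, hσαP⟩ = σ α := rfl
      rw [h4, hσroot] at h3
      exact h3.symm
    have hσa : (⟨σ α, hσαP⟩ : P) - ι a₀ ∈ IsLocalRing.maximalIdeal P := by
      rw [← ValuationSubring.coe_mem_nonunits_iff]
      have h3 : (((⟨σ α, hσαP⟩ : P) - ι a₀ : P) : Qb) = σ (-(((a₀ : E) : Qb) - α)) := by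
        show σ α - ((a₀ : E) : Qb) = _
        rw [map_neg, map_sub, hσ _ (a₀ : E).2]
        ring
      rw [h3]
      exact map_mem_nonunits_of_fixes P E hE σ hσ (neg_mem hαa)
    have key := root_unique_of_derivative_notMem (IsLocalRing.maximalIdeal P) g (ι a₀)
      ⟨α, hαP⟩ ⟨σ α, hσαP⟩ hgα hgσ hder hαa' hσa
    exact (congrArg Subtype.val key).symm
  have hαE : α ∈ E := mem_of_fixed E α hfix
  refine ⟨⟨⟨α, hαE⟩, hαP⟩, ?_, ?_⟩
  · show f.eval _ = 0
    have hφinj : Function.Injective φ := by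
      intro x y hxy
      apply Subtype.ext
      apply Subtype.ext
      exact hxy
    apply hφinj
    rw [map_zero, ← eval_map_apply φ]
    exact hαroot
  · rw [mem_maximalIdeal_RE_iff]
    have h3 : ((((⟨⟨α, hαE⟩, hαP⟩ : P.comap (algebraMap E Qb)) - a₀ :
        P.comap (algebraMap E Qb)) : E) : Qb) = -(((a₀ : E) : Qb) - α) := by
      show α - ((a₀ : E) : Qb) = _
      ring
    rw [h3]
    exact neg_mem hαa

/-- `R_E` is henselian for `E ⊇ E_I`. -/
theorem henselian_RE (hE : inertiaField P ≤ E) :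
    HenselianLocalRing (P.comap (algebraMap E Qb)) where
  is_henselian f hf a₀ h₁ h₂ := exists_root_RE P E hE f hf a₀ h₁ h₂

/-- The residue field of `R_E` is algebraically closed for `E ⊇ E_I`. -/
theorem isAlgClosed_residueField_RE (q : ℕ) (hq : q.Prime) (hP : P.LiesOverPrime q)
    (hE : inertiaField P ≤ E) :
    IsAlgClosed (IsLocalRing.ResidueField (P.comap (algebraMap E Qb))) := by
  apply IsAlgClosed.of_exists_root
  intro p hpm hpi
  obtain ⟨f, hfp, hfdeg, hfm⟩ := Polynomial.lifts_and_natDegree_eq_and_monic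
    ((Polynomial.mem_lifts p).mpr
      (Polynomial.map_surjective _ IsLocalRing.residue_surjective p)) hpm
  let ι := inclRE P E
  let g : (P : Type)[X] := f.map ι
  have hg : g.Monic := hfm.map ι
  have hgdeg : (g.map P.subtype).degree ≠ 0 := by
    have h1 : (g.map P.subtype).Monic := hg.map _
    have h2 : (g.map P.subtype).natDegree = p.natDegree := by
      rw [hg.natDegree_map P.subtype, hfm.natDegree_map ι, hfdeg]
    have h3 : 0 < p.natDegree := hpi.natDegree_pos
    intro h0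
    have := natDegree_eq_zero_iff_degree_le_zero.mpr h0.le
    omega
  obtain ⟨α, hα⟩ := IsAlgClosed.exists_root (g.map P.subtype) hgdeg
  have hαP : α ∈ P := mem_of_isRoot_map P g hg α hα
  obtain ⟨z, hzP, hzI, hαz⟩ := exists_teichmuller P q hq hP α hαP
  have hzE : z ∈ E := hE hzI
  let zR : P.comap (algebraMap E Qb) := ⟨⟨z, hzE⟩, hzP⟩
  refine ⟨IsLocalRing.residue _ zR, ?_⟩
  rw [← hfp, eval_map_apply, IsLocalRing.residue_eq_zero_iff, mem_maximalIdeal_RE_iff]
  have hgα : g.eval (⟨α, hαP⟩ : P) = 0 := by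
    apply Subtype.ext
    have h3 : (g.map P.subtype).eval (P.subtype ⟨α, hαP⟩) = P.subtype (g.eval ⟨α, hαP⟩) :=
      eval_map_apply P.subtype _
    have h4 : (g.map P.subtype).eval α = 0 := hα
    have h5 : P.subtype ⟨α, hαP⟩ = α := rfl
    rw [h5, h4] at h3
    exact h3.symm
  have h6 : (⟨z, hzP⟩ : P) - ⟨α, hαP⟩ ∣ g.eval (⟨z, hzP⟩ : P) - g.eval (⟨α, hαP⟩ : P) :=
    sub_dvd_eval_sub _ _ g
  rw [hgα, sub_zero] at h6
  obtain ⟨c, hc⟩ := h6
  have h7 : g.eval (⟨z, hzP⟩ : P) ∈ IsLocalRing.maximalIdeal P := by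
    rw [hc]
    apply Ideal.mul_mem_right
    rw [← ValuationSubring.coe_mem_nonunits_iff]
    have h8 : (((⟨z, hzP⟩ : P) - ⟨α, hαP⟩ : P) : Qb) = -(α - z) := by
      show z - α = _
      ring
    rw [h8]
    exact neg_mem hαz
  rw [← ValuationSubring.coe_mem_nonunits_iff] at h7
  have h9 : ((g.eval (⟨z, hzP⟩ : P) : P) : Qb) = (((f.eval zR : P.comap (algebraMap E Qb)) : E) : Qb) := by
    have h10 : g.eval (ι zR) = ι (f.eval zR) := eval_map_apply ι zR
    have h11 : ι zR = ⟨z, hzP⟩ := rfl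
    rw [h11] at h10
    rw [h10]
    rfl
  rw [← h9]
  exact h7


end Fermat.Agent.A2.IF.H429

end
-- ===== PACK-END A2/IF/H429/Level.lean

-- ===== PACK-BEGIN A2/IF/H429/Good.lean
section



/-!
# A2 / IF (helper429): finite levels over the inertia field are discretely valued

`E₁` a finite extension of the inertia field `E_I = ℚ̄^{I_P}` inside `ℚ̄`.  Then
`P ∩ E₁` is a discrete valuation ring.  The level `level P S = E_I(conjugates of S)` is stable
under the inertia group.
-/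

set_option autoImplicit false
set_option linter.style.haveILetI false
set_option linter.unusedSectionVars false

open scoped Pointwise
open Polynomial

namespace Fermat.Agent.A2.IF.H429

open Fermat.Agent.S55.Bridge Fermat.Agent.S55.Bridge.H594

attribute [local instance] isAlgebraic_Qbar isGalois_Qbar

local notation "Qb" => AlgebraicClosure ℚ

variable (P : ValuationSubring Qb)

theorem valuation_natCast_lt_one (q : ℕ) (hP : P.LiesOverPrime q) :
    P.valuation (q : Qb) < 1 := by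
  have h : (q : Qb) ∈ P.nonunits := hP
  rwa [ValuationSubring.mem_nonunits_iff] at h

theorem valuation_natCast_ne_zero (q : ℕ) (hq : q.Prime) : P.valuation (q : Qb) ≠ 0 := by
  rw [Valuation.ne_zero_iff]
  exact_mod_cast hq.ne_zero

/-- Conjugates over the inertia field have the same valuation. -/
theorem valuation_eq_of_root_minpoly (x r : Qb)
    (hr : aeval r (minpoly (inertiaField P) x) = 0) : P.valuation r = P.valuation x := by
  haveI : IsGalois (inertiaField P) Qb := IsGalois.tower_top_of_isGalois ℚ (inertiaField P) Qb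
  haveI : Normal (inertiaField P) Qb := IsGalois.to_normal
  have hx : IsAlgebraic (inertiaField P) x := Algebra.IsAlgebraic.isAlgebraic x
  obtain ⟨σ, hσ⟩ := minpoly.exists_algEquiv_of_root hx hr
  have h1 := valuation_map_eq_of_fixes P (inertiaField P) le_rfl (σ.restrictScalars ℚ)
    (fun e he => σ.commutes ⟨e, he⟩) r
  rw [← hσ]
  exact h1.symm

/-- For `x` in a finite extension `E₁` of the inertia field, `x ^ [E₁ : E_I]!` has the value of a
power of `q`. -/
theorem exists_pow_valuation_eq (q : ℕ) (hq : q.Prime) (hP : P.LiesOverPrime q)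
    (E₁ : IntermediateField (inertiaField P) Qb) [FiniteDimensional (inertiaField P) E₁]
    (x : Qb) (hx : x ∈ E₁) (hx0 : x ≠ 0) :
    ∃ k : ℤ, P.valuation (x ^ (Module.finrank (inertiaField P) E₁).factorial) =
      P.valuation (q : Qb) ^ k := by
  have hxint : IsIntegral (inertiaField P) x := Algebra.IsIntegral.isIntegral x
  set p := minpoly (inertiaField P) x with hp
  have hd0 : 0 < p.natDegree := minpoly.natDegree_pos hxint
  have hd : p.natDegree ≤ Module.finrank (inertiaField P) E₁ := by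
    have h1 := minpoly.natDegree_le (A := inertiaField P) (⟨x, hx⟩ : E₁)
    rw [IntermediateField.minpoly_eq] at h1
    exact h1
  have hpm : p.Monic := minpoly.monic hxint
  have hc0 : p.coeff 0 ≠ 0 := minpoly.coeff_zero_ne_zero hxint hx0
  -- the value of the constant coefficient
  have hval : P.valuation ((p.coeff 0 : inertiaField P) : Qb) = P.valuation x ^ p.natDegree := by
    have hsplit : (p.map (algebraMap (inertiaField P) Qb)).Splits := IsAlgClosed.splits _
    have h1 := hsplit.coeff_zero_eq_prod_roots_of_monic (hpm.map _)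
    rw [coeff_map] at h1
    have h2 : algebraMap (inertiaField P) Qb (p.coeff 0) = ((p.coeff 0 : inertiaField P) : Qb) :=
      rfl
    rw [h2] at h1
    rw [h1, map_mul, map_pow, Valuation.map_neg, map_one, one_pow, one_mul, map_multiset_prod]
    have h3 : (p.map (algebraMap (inertiaField P) Qb)).roots.map P.valuation =
        Multiset.replicate (p.map (algebraMap (inertiaField P) Qb)).roots.card
          (P.valuation x) := by
      rw [Multiset.eq_replicate]
      refine ⟨Multiset.card_map _ _, fun b hb => ?_⟩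
      obtain ⟨r, hr, rfl⟩ := Multiset.mem_map.mp hb
      apply valuation_eq_of_root_minpoly P x r
      have h4 := isRoot_of_mem_roots hr
      rw [IsRoot, eval_map, ← aeval_def] at h4
      exact h4
    rw [h3, Multiset.prod_replicate, ← hsplit.natDegree_eq_card_roots, hpm.natDegree_map]
  obtain ⟨k, hk⟩ := exists_zpow_of_mem_inertiaField P q hq hP
    ((p.coeff 0 : inertiaField P) : Qb) (p.coeff 0).2
    (fun h => hc0 (Subtype.ext h))
  rw [map_div₀, map_zpow₀] at hk
  have hqv : P.valuation (q : Qb) ^ k ≠ 0 :=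
    zpow_ne_zero k (valuation_natCast_ne_zero P q hq)
  have hk' : P.valuation ((p.coeff 0 : inertiaField P) : Qb) = P.valuation (q : Qb) ^ k :=
    (div_eq_one_iff_eq hqv).mp hk
  obtain ⟨e, he⟩ := Nat.dvd_factorial hd0 hd
  refine ⟨k * e, ?_⟩
  rw [he, map_pow, pow_mul, ← hval, hk', zpow_mul, zpow_natCast]

/-- `P ∩ E` is a discrete valuation ring when every element of `E` has, after raising to a fixed
power `N`, the value of a power of `q`. -/
theorem isDiscreteValuationRing_RE_of_pow (q : ℕ) (hq : q.Prime) (hP : P.LiesOverPrime q)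
    (E : IntermediateField ℚ Qb) (N : ℕ) (hN : 0 < N)
    (h : ∀ x : Qb, x ∈ E → x ≠ 0 → ∃ k : ℤ, P.valuation (x ^ N) = P.valuation (q : Qb) ^ k) :
    IsDiscreteValuationRing (P.comap (algebraMap E Qb)) := by
  have hqlt := valuation_natCast_lt_one P q hP
  have hq0 := valuation_natCast_ne_zero P q hq
  have hqpos : 0 < P.valuation (q : Qb) := zero_lt_iff.mpr hq0
  have hcoe : ∀ n : ℕ, ((((n : ℕ) : P.comap (algebraMap E Qb)) : E) : Qb) = (n : Qb) := by
    intro n
    simp
  refine isDiscreteValuationRing_of_pow_associated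
    ((q : ℕ) : P.comap (algebraMap E Qb)) ?_ ?_ N hN ?_
  · intro h0
    have h1 := hcoe q
    rw [h0] at h1
    have h2 : (q : Qb) = 0 := by
      rw [← h1]; rfl
    exact hq.ne_zero (by exact_mod_cast h2)
  · intro hu
    have h1 : ((q : ℕ) : P.comap (algebraMap E Qb)) ∈
        IsLocalRing.maximalIdeal (P.comap (algebraMap E Qb)) := by
      rw [mem_maximalIdeal_RE_iff, hcoe]
      exact hP
    exact (IsLocalRing.mem_maximalIdeal _).mp h1 hu
  · intro x hx
    have hxE : ((x : E) : Qb) ∈ E := (x : E).2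
    have hx0 : ((x : E) : Qb) ≠ 0 := by
      intro h0
      apply hx
      apply Subtype.ext
      apply Subtype.ext
      exact h0
    have hxP : ((x : E) : Qb) ∈ P := x.2
    obtain ⟨k, hk⟩ := h _ hxE hx0
    -- `k ≥ 0`
    have hle : P.valuation (((x : E) : Qb) ^ N) ≤ 1 :=
      (P.valuation_le_one_iff _).mpr (pow_mem hxP N)
    have hk0 : 0 ≤ k := by
      by_contra hneg
      rw [not_le] at hneg
      have h1 : 1 < P.valuation (q : Qb) ^ k := by
        obtain ⟨m, hm⟩ : ∃ m : ℕ, k = -((m : ℤ) + 1) := ⟨(-k - 1).toNat, by omega⟩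
        rw [hm, zpow_neg]
        have h2 : P.valuation (q : Qb) ^ ((m : ℤ) + 1) < 1 := by
          have : P.valuation (q : Qb) ^ ((m : ℤ) + 1) = P.valuation (q : Qb) ^ (m + 1) := by
            exact_mod_cast zpow_natCast (P.valuation (q : Qb)) (m + 1)
          rw [this]
          exact pow_lt_one₀ zero_le hqlt (Nat.succ_ne_zero m)
        have h3 : 0 < P.valuation (q : Qb) ^ ((m : ℤ) + 1) := zpow_pos hqpos _
        exact (one_lt_inv₀ h3).mpr h2
      rw [← hk] at h1
      exact absurd hle (not_le.mpr h1)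
    obtain ⟨n, rfl⟩ := Int.eq_ofNat_of_zero_le hk0
    rw [zpow_natCast] at hk
    refine ⟨n, ?_⟩
    -- the unit
    let u : Qb := ((x : E) : Qb) ^ N / (q : Qb) ^ n
    have huv : P.valuation u = 1 := by
      show P.valuation (((x : E) : Qb) ^ N / (q : Qb) ^ n) = 1
      rw [map_div₀, hk, map_pow]
      exact div_self (pow_ne_zero n hq0)
    have huE : u ∈ E := div_mem (pow_mem hxE N) (pow_mem (natCast_mem E q) n)
    have huP : u ∈ P := (P.valuation_le_one_iff _).mp huv.le
    let uR : P.comap (algebraMap E Qb) := ⟨⟨u, huE⟩, huP⟩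
    have huR : IsUnit uR := by
      rw [← IsLocalRing.notMem_maximalIdeal, mem_maximalIdeal_RE_iff,
        ValuationSubring.mem_nonunits_iff]
      show ¬ P.valuation u < 1
      rw [huv]
      exact lt_irrefl _
    have heq : x ^ N = ((q : ℕ) : P.comap (algebraMap E Qb)) ^ n * uR := by
      apply Subtype.ext
      apply Subtype.ext
      show ((x : E) : Qb) ^ N = ((((q : ℕ) : P.comap (algebraMap E Qb)) : E) : Qb) ^ n * u
      rw [hcoe]
      have hqn : (q : Qb) ^ n ≠ 0 := pow_ne_zero n (by exact_mod_cast hq.ne_zero)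
      show ((x : E) : Qb) ^ N = (q : Qb) ^ n * (((x : E) : Qb) ^ N / (q : Qb) ^ n)
      field_simp
    rw [heq]
    exact associated_mul_unit_left _ uR huR


/-- All conjugates over `ℚ` of the elements of a finite set. -/
noncomputable def conjSet (S : Finset Qb) : Set Qb := (∏ s ∈ S, minpoly ℚ s).rootSet Qb

theorem conjSet_prod_ne_zero (S : Finset Qb) : (∏ s ∈ S, minpoly ℚ s) ≠ 0 :=
  Finset.prod_ne_zero_iff.mpr fun s _ => minpoly.ne_zero (Algebra.IsIntegral.isIntegral s)

theorem conjSet_finite (S : Finset Qb) : (conjSet S).Finite := Polynomial.rootSet_finite _ _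

theorem mem_conjSet_iff (S : Finset Qb) (x : Qb) :
    x ∈ conjSet S ↔ aeval x (∏ s ∈ S, minpoly ℚ s) = 0 := by
  unfold conjSet
  rw [Polynomial.mem_rootSet]
  exact ⟨fun h => h.2, fun h => ⟨conjSet_prod_ne_zero S, h⟩⟩

theorem mem_conjSet (S : Finset Qb) {s : Qb} (hs : s ∈ S) : s ∈ conjSet S := by
  rw [mem_conjSet_iff, map_prod]
  exact Finset.prod_eq_zero hs (minpoly.aeval ℚ s)

theorem map_mem_conjSet (S : Finset Qb) (σ : Qb ≃ₐ[ℚ] Qb) {x : Qb} (hx : x ∈ conjSet S) :
    σ x ∈ conjSet S := by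
  rw [mem_conjSet_iff] at hx ⊢
  have := Polynomial.aeval_algHom_apply (σ : Qb →ₐ[ℚ] Qb) x (∏ s ∈ S, minpoly ℚ s)
  rw [hx, map_zero] at this
  exact this

/-- The level: the inertia field with all conjugates of `S` adjoined, over the inertia field. -/
noncomputable def level₁ (S : Finset Qb) : IntermediateField (inertiaField P) Qb :=
  IntermediateField.adjoin (inertiaField P) (conjSet S)

instance level₁_finiteDimensional (S : Finset Qb) :
    FiniteDimensional (inertiaField P) (level₁ P S) := by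
  haveI : Finite (conjSet S) := (conjSet_finite S).to_subtype
  exact IntermediateField.finiteDimensional_adjoin
    (fun x _ => Algebra.IsIntegral.isIntegral x)

/-- The level as an intermediate field of `ℚ̄/ℚ`. -/
noncomputable def level (S : Finset Qb) : IntermediateField ℚ Qb :=
  (level₁ P S).restrictScalars ℚ

theorem mem_level_iff (S : Finset Qb) (x : Qb) : x ∈ level P S ↔ x ∈ level₁ P S := Iff.rfl

theorem inertiaField_le_level (S : Finset Qb) : inertiaField P ≤ level P S := by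
  intro x hx
  rw [mem_level_iff]
  exact (level₁ P S).algebraMap_mem ⟨x, hx⟩

theorem mem_level_of_mem (S : Finset Qb) {s : Qb} (hs : s ∈ S) : s ∈ level P S := by
  rw [mem_level_iff]
  exact IntermediateField.subset_adjoin _ _ (mem_conjSet S hs)

/-- The level is stable under every automorphism fixing the inertia field pointwise. -/
theorem level_stable (S : Finset Qb) (τ : Qb ≃ₐ[ℚ] Qb)
    (hτ : ∀ e ∈ inertiaField P, τ e = e) {x : Qb} (hx : x ∈ level P S) : τ x ∈ level P S := by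
  let τK : Qb ≃ₐ[inertiaField P] Qb :=
    { τ.toRingEquiv with commutes' := fun e => hτ (e : Qb) e.2 }
  have hτK : ∀ y : Qb, τK y = τ y := fun _ => rfl
  have h1 : (level₁ P S).map (τK : Qb →ₐ[inertiaField P] Qb) ≤ level₁ P S := by
    unfold level₁
    rw [IntermediateField.adjoin_map]
    apply IntermediateField.adjoin.mono
    rintro _ ⟨y, hy, rfl⟩
    exact map_mem_conjSet S τ hy
  rw [mem_level_iff] at hx ⊢
  apply h1
  rw [IntermediateField.mem_map]
  exact ⟨x, hx, rfl⟩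

theorem level_stable_inertia (S : Finset Qb) {τ : Qb ≃ₐ[ℚ] Qb}
    (hτ : τ ∈ P.inertiaSubgroupIn ℚ) {x : Qb} (hx : x ∈ level P S) : τ x ∈ level P S :=
  level_stable P S τ (fun e he => (mem_inertiaField_iff P).mp he τ hτ) hx

/-- The level is discretely valued. -/
theorem isDiscreteValuationRing_level (q : ℕ) (hq : q.Prime) (hP : P.LiesOverPrime q)
    (S : Finset Qb) : IsDiscreteValuationRing (P.comap (algebraMap (level P S) Qb)) :=
  isDiscreteValuationRing_RE_of_pow P q hq hP (level P S)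
    (Module.finrank (inertiaField P) (level₁ P S)).factorial (Nat.factorial_pos _)
    (fun x hx hx0 => exists_pow_valuation_eq P q hq hP (level₁ P S) x hx hx0)


theorem iterate_eq_pow_apply (σ : Qb ≃ₐ[ℚ] Qb) (r : ℕ) (x : Qb) : (⇑σ)^[r] x = (σ ^ r) x := by
  induction r with
  | zero => rfl
  | succ n ih =>
    rw [Function.iterate_succ_apply', ih, pow_succ']
    rfl

theorem pow_mul_apply_eq (σ : Qb ≃ₐ[ℚ] Qb) (a b : ℕ) (x : Qb) (h : (σ ^ a) x = x) :
    (σ ^ (a * b)) x = x := by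
  induction b with
  | zero => simp
  | succ n ih =>
    rw [Nat.mul_succ, pow_add]
    show (σ ^ (a * n)) ((σ ^ a) x) = x
    rw [h, ih]

/-- Some positive power of `σ` fixes every element of a finite set. -/
theorem exists_pow_fixes_finset (σ : Qb ≃ₐ[ℚ] Qb) (T : Finset Qb) :
    ∃ r : ℕ, 0 < r ∧ ∀ x ∈ T, (σ ^ r) x = x := by
  classical
  induction T using Finset.induction_on with
  | empty => exact ⟨1, one_pos, fun x hx => absurd hx (Finset.notMem_empty x)⟩
  | insert a T _ ih =>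
    obtain ⟨r, hr, hT⟩ := ih
    obtain ⟨k, hk⟩ := exists_pow_apply_eq σ a
    refine ⟨(k + 1) * r, Nat.mul_pos (Nat.succ_pos k) hr, fun x hx => ?_⟩
    rcases Finset.mem_insert.mp hx with rfl | hx
    · exact pow_mul_apply_eq σ (k + 1) r x hk
    · rw [mul_comm]
      exact pow_mul_apply_eq σ r (k + 1) x (hT x hx)

/-- An automorphism fixing the inertia field and the conjugates of `S` fixes the level. -/
theorem level_fixed (S : Finset Qb) (ρ : Qb ≃ₐ[ℚ] Qb)
    (hρ : ∀ e ∈ inertiaField P, ρ e = e) (hS : ∀ x ∈ conjSet S, ρ x = x)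
    {x : Qb} (hx : x ∈ level P S) : ρ x = x := by
  rw [mem_level_iff] at hx
  unfold level₁ at hx
  induction hx using IntermediateField.adjoin_induction with
  | mem x hx => exact hS x hx
  | algebraMap x => exact hρ _ x.2
  | add x y _ _ hx hy => rw [map_add, hx, hy]
  | inv x _ hx => rw [map_inv₀, hx]
  | mul x y _ _ hx hy => rw [map_mul, hx, hy]

/-- Every element of the inertia group has finite order on the level. -/
theorem level_finite_order (S : Finset Qb) {τ : Qb ≃ₐ[ℚ] Qb}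
    (hτ : τ ∈ P.inertiaSubgroupIn ℚ) :
    ∃ r : ℕ, 0 < r ∧ ∀ e : Qb, e ∈ level P S → (⇑τ)^[r] e = e := by
  obtain ⟨r, hr, hT⟩ := exists_pow_fixes_finset τ (conjSet_finite S).toFinset
  refine ⟨r, hr, fun e he => ?_⟩
  rw [iterate_eq_pow_apply]
  apply level_fixed P S (τ ^ r) _ _ he
  · intro e he
    exact (mem_inertiaField_iff P).mp he (τ ^ r) (Subgroup.pow_mem _ hτ r)
  · intro x hx
    exact hT x ((conjSet_finite S).mem_toFinset.mpr hx)


end Fermat.Agent.A2.IF.H429

end
-- ===== PACK-END A2/IF/H429/Good.lean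

-- ===== PACK-BEGIN A2/IF/H429/IF.lean
section



/-!
# A2 / IF (helper429): good levels exist

`ifStatement : IFStatement` is the interface IF of `Fermat/Agent/A2/Spec.lean` (v2, row-lead
helper13); `exists_goodField` is the same statement with explicit binders (Skel form).
The good level is `level P S = ℚ̄^{I_P}(all ℚ-conjugates of S)`:

* stable under `I_P` (`level_stable_inertia`);
* `P ∩ E` is a discrete valuation ring (`isDiscreteValuationRing_level`: the inertia field is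
  unramified — Hilbert theory at finite level, `Hilbert.lean` — and `[E : E_I] < ∞`);
* henselian (`henselian_RE`: a simple root is fixed by `Gal(ℚ̄/E)`);
* algebraically closed residue field (`isAlgClosed_residueField_RE`: Teichmüller lifts);
* inertia acts trivially modulo the maximal ideal (definition of inertia);
* every inertia element has finite order on `E` (`level_finite_order`).
-/

set_option autoImplicit false

namespace Fermat.Agent.A2.IF.H429

open Fermat.Agent.A2

theorem goodField_level (q : ℕ) (hq : q.Prime) (P : ValuationSubring Qb)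
    (hP : P.LiesOverPrime q) (S : Finset Qb) : GoodField P (level P S) where
  stable := fun _ hτ _ he => level_stable_inertia P S hτ he
  dvr := isDiscreteValuationRing_level P q hq hP S
  henselian := henselian_RE P (level P S) (inertiaField_le_level P S)
  algClosed := isAlgClosed_residueField_RE P (level P S) q hq hP (inertiaField_le_level P S)
  trivial_mod := fun _ hτ _ _ heP => sub_mem_nonunits_of_inertia P hτ heP
  finite_order := fun _ hτ => level_finite_order P S hτ

/-- **IF** (Skel form).  Every finite set of algebraic numbers lies in a good level for `P`. -/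
theorem exists_goodField (q : ℕ) (hq : q.Prime) (P : ValuationSubring Qb)
    (hP : P.LiesOverPrime q) (S : Finset Qb) :
    ∃ E : IntermediateField ℚ Qb, (∀ s ∈ S, s ∈ E) ∧ GoodField P E :=
  ⟨level P S, fun _ hs => mem_level_of_mem P S hs, goodField_level q hq P hP S⟩

/-- **IF** (interface statement of `Spec.lean`). -/
theorem ifStatement : IFStatement :=
  fun q hq P hP S => exists_goodField q hq P hP S

end Fermat.Agent.A2.IF.H429

end
-- ===== PACK-END A2/IF/H429/IF.lean

-- ===== PACK-BEGIN A2/IF/H558/DecompStable.lean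
section



/-!
# A2 / IF (helper558): the good levels of helper429 are stable under the DECOMPOSITION group

`P` a valuation subring of `ℚ̄`, `D = P.decompositionSubgroup ℚ`, `I = P.inertiaSubgroupIn ℚ`,
`E_I = ℚ̄^I` the inertia field, `level P S = E_I(all ℚ-conjugates of S)` (helper429).

* `conj_mem_inertia`            : `σ ∈ D`, `τ ∈ I`  ⟹  `σ⁻¹ τ σ ∈ I` and `σ τ σ⁻¹ ∈ I`;
* `map_mem_inertiaField`        : `D` preserves the inertia field;
* `level_stable_decomp`         : `D` preserves `level P S`;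
* `level_stable_frobenius`      : every Frobenius lift at `P` preserves `level P S`
                                  (and so does its inverse, and all powers);
* `exists_goodField_decompStable` : IF with the extra clause "stable under `D`"
                                  (= leaf IFF of S35/FROB, G5 of S35/(G)).
-/

set_option autoImplicit false
set_option linter.style.haveILetI false
set_option linter.unusedSectionVars false

namespace Fermat.Agent.A2.IF.H558

open Fermat.Agent.A2 Fermat.Agent.A2.IF.H429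
open Fermat.Agent.S55.Bridge Fermat.Agent.S55.Bridge.H594

local notation "Qb" => AlgebraicClosure ℚ

variable (P : ValuationSubring Qb)

/-- The inertia group is normal in the decomposition group (elementwise form). -/
theorem conj_mem_inertia {σ τ : Qb ≃ₐ[ℚ] Qb} (hσ : σ ∈ P.decompositionSubgroup ℚ)
    (hτ : τ ∈ P.inertiaSubgroupIn ℚ) : σ⁻¹ * τ * σ ∈ P.inertiaSubgroupIn ℚ := by
  rw [mem_inertiaSubgroupIn_iff_forall] at hτ ⊢
  have hσi : σ⁻¹ ∈ P.decompositionSubgroup ℚ := inv_mem hσ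
  refine ⟨mul_mem (mul_mem hσi hτ.1) hσ, fun x hx => ?_⟩
  have hσx : σ x ∈ P := mem_of_mem_decomp P hσ hx
  have h1 : τ (σ x) - σ x ∈ P.nonunits := hτ.2 (σ x) hσx
  have h2 : σ⁻¹ (τ (σ x) - σ x) ∈ P.nonunits := mem_nonunits_of_mem_decomp P hσi h1
  have h3 : (σ⁻¹ * τ * σ) x - x = σ⁻¹ (τ (σ x) - σ x) := by
    rw [map_sub]
    show σ⁻¹ (τ (σ x)) - x = σ⁻¹ (τ (σ x)) - σ⁻¹ (σ x)
    congr 1
    exact (AlgEquiv.symm_apply_apply σ x).symm
  rw [h3]
  exact h2

/-- The decomposition group preserves the inertia field. -/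
theorem map_mem_inertiaField {σ : Qb ≃ₐ[ℚ] Qb} (hσ : σ ∈ P.decompositionSubgroup ℚ)
    {e : Qb} (he : e ∈ inertiaField P) : σ e ∈ inertiaField P := by
  rw [mem_inertiaField_iff] at he ⊢
  intro τ hτ
  have h1 := he (σ⁻¹ * τ * σ) (conj_mem_inertia P hσ hτ)
  have h2 : (σ⁻¹ * τ * σ) e = σ⁻¹ (τ (σ e)) := rfl
  rw [h2] at h1
  have h3 : σ (σ⁻¹ (τ (σ e))) = τ (σ e) := AlgEquiv.apply_symm_apply σ _
  rw [← h3, h1]

/-- The decomposition group preserves the level `level P S`. -/
theorem level_stable_decomp (S : Finset Qb) {σ : Qb ≃ₐ[ℚ] Qb}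
    (hσ : σ ∈ P.decompositionSubgroup ℚ) {x : Qb} (hx : x ∈ level P S) :
    σ x ∈ level P S := by
  rw [mem_level_iff] at hx ⊢
  unfold level₁ at hx ⊢
  induction hx using IntermediateField.adjoin_induction with
  | mem y hy => exact IntermediateField.subset_adjoin _ _ (map_mem_conjSet S σ hy)
  | algebraMap e =>
    have h1 : σ (algebraMap (inertiaField P) Qb e) ∈ inertiaField P :=
      map_mem_inertiaField P hσ e.2
    exact (IntermediateField.adjoin (inertiaField P) (conjSet S)).algebraMap_mem ⟨_, h1⟩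
  | add y z _ _ hy hz => rw [map_add]; exact add_mem hy hz
  | inv y _ hy => rw [map_inv₀]; exact inv_mem hy
  | mul y z _ _ hy hz => rw [map_mul]; exact mul_mem hy hz

/-- The level is mapped ONTO itself by the decomposition group. -/
theorem level_stable_decomp_iff (S : Finset Qb) {σ : Qb ≃ₐ[ℚ] Qb}
    (hσ : σ ∈ P.decompositionSubgroup ℚ) (x : Qb) : σ x ∈ level P S ↔ x ∈ level P S := by
  refine ⟨fun h => ?_, fun h => level_stable_decomp P S hσ h⟩
  have h1 := level_stable_decomp P S (inv_mem hσ) h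
  have h2 : σ⁻¹ (σ x) = x := AlgEquiv.symm_apply_apply σ x
  rwa [h2] at h1

/-- Every Frobenius lift at `P` preserves the level. -/
theorem level_stable_frobenius (S : Finset Qb) {σ : Qb ≃ₐ[ℚ] Qb} {q : ℕ}
    (hσ : P.IsFrobeniusAt σ q) {x : Qb} (hx : x ∈ level P S) : σ x ∈ level P S :=
  level_stable_decomp P S hσ.mem_decompositionSubgroup hx

/-- All powers (positive and negative) of an element of the decomposition group preserve the
level. -/
theorem level_stable_zpow (S : Finset Qb) {σ : Qb ≃ₐ[ℚ] Qb}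
    (hσ : σ ∈ P.decompositionSubgroup ℚ) (n : ℤ) {x : Qb} (hx : x ∈ level P S) :
    (σ ^ n) x ∈ level P S :=
  level_stable_decomp P S (zpow_mem hσ n) hx

/-- **IFF** (S35/FROB leaf; G5 of S35/(G)).  Every finite set of algebraic numbers lies in a good
level for `P` which is stable under the whole decomposition group of `P`, in particular under
every Frobenius lift at `P` and its inverse. -/
theorem exists_goodField_decompStable (q : ℕ) (hq : q.Prime) (P : ValuationSubring Qb)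
    (hP : P.LiesOverPrime q) (S : Finset Qb) :
    ∃ E : IntermediateField ℚ Qb, (∀ s ∈ S, s ∈ E) ∧ GoodField P E ∧
      (∀ σ ∈ P.decompositionSubgroup ℚ, ∀ e : Qb, e ∈ E ↔ σ e ∈ E) ∧
      inertiaField P ≤ E :=
  ⟨level P S, fun _ hs => mem_level_of_mem P S hs, goodField_level q hq P hP S,
    fun _ hσ e => (level_stable_decomp_iff P S hσ e).symm, inertiaField_le_level P S⟩

end Fermat.Agent.A2.IF.H558

end
-- ===== PACK-END A2/IF/H558/DecompStable.lean

-- ===== PACK-BEGIN S35/G/H558/IFs.lean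
section



/-!
# S35 / (G') leaf IFs (helper558): `s`-stable good levels

`ifs : IFsStatement` (helper450's `S35/G/SpecLevel.lean`, verbatim): every finite set of algebraic
numbers lies in a level `E` which is good for `A` (`A2.GoodField`) and stable under any given
element `s` of the decomposition group of `A` (and under `s⁻¹`).

The level is helper429's `level A S = ℚ̄^{I_A}(all ℚ-conjugates of S)`; its stability under the
whole decomposition group is `A2.IF.H558.exists_goodField_decompStable`.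
-/

set_option autoImplicit false

namespace Fermat.Agent.S35.G.H558

/-- **IFs.** -/
theorem ifs : Fermat.Agent.S35.G.IFsStatement := by
  intro q hq A hA s hs S
  obtain ⟨E, hSE, hgood, hstab, -⟩ :=
    Fermat.Agent.A2.IF.H558.exists_goodField_decompStable q hq A hA S
  refine ⟨E, hSE, hgood, fun e he => ⟨(hstab s hs e).mp he, ?_⟩⟩
  exact (hstab s⁻¹ (inv_mem hs) e).mp he

end Fermat.Agent.S35.G.H558

end
-- ===== PACK-END S35/G/H558/IFs.lean

-- ===== PACK-BEGIN A2/H528/Fricke.lean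
section


/-!
# A2 / W — the Fricke (Atkin–Lehner) involution `w_N` of the function field of `X₀(N)`

* `fricke N τ = -1/(Nτ)` on `ℍ`, `Jd d ∘ fricke N = Jd (N/d)` for `d ∣ N`;
* `wR N : RN N →+* RN N`, the induced involution of `ℚ̄[j(q^d) : d ∣ N] ⊆ ℚ̄((q))`
  (`j(q^d) ↦ j(q^{N/d})`, identity on the constants);
* `wF N : FF N ≃ₐ[ℚ̄] FF N`, its extension to `FF N = modularFunctionFieldBar N`.
-/

set_option autoImplicit false

noncomputable section

open ModularCurve HahnSeries UpperHalfPlane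
open scoped MatrixGroups

namespace Fermat.Agent.A2.H528

open Fermat.Agent.S24 Fermat.Agent.S24.H997

variable (N : ℕ) [NeZero N]

/-- The Fricke map `τ ↦ -1/(Nτ)` of the upper half plane. -/
def fricke (τ : ℍ) : ℍ := ModularGroup.S • infAff N 0 1 τ

theorem fricke_coe (τ : ℍ) : (fricke N τ : ℂ) = -1 / ((N : ℂ) * τ) := by
  have hN : 0 < N := Nat.pos_of_ne_zero (NeZero.ne N)
  rw [fricke, UpperHalfPlane.modular_S_smul]
  show (-(infAff N 0 1 τ : ℂ))⁻¹ = _
  rw [infAff_coe hN one_pos]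
  simp only [Int.cast_zero, add_zero, Nat.cast_one, div_one]
  rw [inv_neg, neg_div, one_div]

theorem fricke_fricke (τ : ℍ) : fricke N (fricke N τ) = τ := by
  apply UpperHalfPlane.ext
  rw [fricke_coe, fricke_coe]
  have hN : (N : ℂ) ≠ 0 := by exact_mod_cast NeZero.ne N
  have hτ : (τ : ℂ) ≠ 0 := UpperHalfPlane.ne_zero τ
  field_simp

theorem Jd_fricke {d : ℕ} (hd : d ∣ N) (τ : ℍ) : Jd d (fricke N τ) = Jd (N / d) τ := by
  have hN : 0 < N := Nat.pos_of_ne_zero (NeZero.ne N)
  have hd0 : 0 < d := Nat.pos_of_dvd_of_pos hd hN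
  have hd1 : 0 < N / d := Nat.div_pos (Nat.le_of_dvd hN hd) hd0
  have key : infAff d 0 1 (fricke N τ) = ModularGroup.S • infAff (N / d) 0 1 τ := by
    apply UpperHalfPlane.ext
    rw [infAff_coe hd0 one_pos, fricke_coe, UpperHalfPlane.modular_S_smul]
    show _ = (-(infAff (N / d) 0 1 τ : ℂ))⁻¹
    rw [infAff_coe hd1 one_pos]
    have hNd : (N : ℂ) = (d : ℂ) * ((N / d : ℕ) : ℂ) := by
      rw [← Nat.cast_mul, Nat.mul_div_cancel' hd]
    have hdc : (d : ℂ) ≠ 0 := by exact_mod_cast hd0.ne'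
    have hd1c : ((N / d : ℕ) : ℂ) ≠ 0 := by exact_mod_cast hd1.ne'
    have hτ : (τ : ℂ) ≠ 0 := UpperHalfPlane.ne_zero τ
    rw [hNd]
    simp only [Int.cast_zero, add_zero, Nat.cast_one, div_one]
    field_simp
  unfold Jd
  rw [key, jFun_smul']

/-- Precomposition with the Fricke map, as a ring endomorphism of `ℍ → ℂ`. -/
def compW : (ℍ → ℂ) →+* (ℍ → ℂ) where
  toFun f := fun τ => f (fricke N τ)
  map_one' := rfl
  map_mul' _ _ := rfl
  map_zero' := rfl
  map_add' _ _ := rfl

omit [NeZero N] in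
@[simp] theorem compW_apply (f : ℍ → ℂ) (τ : ℍ) : compW N f τ = f (fricke N τ) := rfl

theorem compW_compW (f : ℍ → ℂ) : compW N (compW N f) = f := by
  funext τ
  simp [fricke_fricke]

/-- The analytic realisation `R_N → (ℍ → ℂ)` of the polynomial ring. -/
def toFun : RN N →+* (ℍ → ℂ) := (holBase N).Hol.subtype.comp (holBase N).bridge

theorem toFun_injective : Function.Injective (toFun N) := by
  intro r r' h
  exact (holBase N).bridge_injective (Subtype.ext h)

theorem toFun_jR (d : ℕ) [NeZero d] (hd : d ∣ N) : toFun N (jR N d hd) = Jd d := by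
  show (((holBase N).bridge (jR N d hd) : (holBase N).Hol) : ℍ → ℂ) = _
  rw [(holBase N).bridge_jR d hd]
  rfl

theorem toFun_algebraMap (c : Kbar) :
    toFun N (algebraMap Kbar (RN N) c) = fun _ => ιK c := by
  show (((holBase N).bridge (algebraMap Kbar (RN N) c) : (holBase N).Hol) : ℍ → ℂ) = _
  rw [(holBase N).bridge_algebraMap c]
  rfl

theorem neZero_div {d : ℕ} (hd : d ∣ N) : NeZero (N / d) := by
  have hN : 0 < N := Nat.pos_of_ne_zero (NeZero.ne N)
  have hd0 : 0 < d := Nat.pos_of_dvd_of_pos hd hN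
  exact ⟨(Nat.div_pos (Nat.le_of_dvd hN hd) hd0).ne'⟩

theorem compW_toFun_mem (r : RN N) : compW N (toFun N r) ∈ (toFun N).range := by
  obtain ⟨r, hr⟩ := r
  induction hr using Algebra.adjoin_induction with
  | mem x hx =>
      obtain ⟨y, ⟨d, hne, hd, rfl⟩, rfl⟩ := hx
      have := hne
      have := neZero_div N hd
      have h1 : (⟨coeffEmb Kbar (qExpand ℚ d jq), Algebra.subset_adjoin
          ⟨_, ⟨d, hne, hd, rfl⟩, rfl⟩⟩ : RN N) = jR N d hd := rfl
      rw [h1, toFun_jR]
      refine ⟨jR N (N / d) (Nat.div_dvd_of_dvd hd), ?_⟩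
      rw [toFun_jR]
      funext τ
      exact (Jd_fricke N hd τ).symm
  | algebraMap c =>
      have h1 : (⟨algebraMap Kbar (LaurentSeries Kbar) c, Subalgebra.algebraMap_mem _ c⟩ : RN N)
          = algebraMap Kbar (RN N) c := rfl
      rw [h1, toFun_algebraMap]
      exact ⟨algebraMap Kbar (RN N) c, toFun_algebraMap N c⟩
  | add x y hx hy ihx ihy =>
      have h1 : (⟨x + y, add_mem hx hy⟩ : RN N) = ⟨x, hx⟩ + ⟨y, hy⟩ := rfl
      rw [h1, map_add, map_add]
      exact add_mem ihx ihy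
  | mul x y hx hy ihx ihy =>
      have h1 : (⟨x * y, mul_mem hx hy⟩ : RN N) = ⟨x, hx⟩ * ⟨y, hy⟩ := rfl
      rw [h1, map_mul, map_mul]
      exact mul_mem ihx ihy

/-- `R_N ≃ range toFun`. -/
def toFunEquiv : RN N ≃+* (toFun N).range :=
  RingEquiv.ofBijective (toFun N).rangeRestrict
    ⟨fun x y h => by
      have h' : ((toFun N).rangeRestrict x : ℍ → ℂ) = ((toFun N).rangeRestrict y : ℍ → ℂ) := by
        rw [h]
      exact toFun_injective N h', (toFun N).rangeRestrict_surjective⟩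

/-- **The Fricke involution on `R_N = ℚ̄[j(q^d) : d ∣ N]`.** -/
def wR : RN N →+* RN N :=
  ((toFunEquiv N).symm : (toFun N).range →+* RN N).comp
    (((compW N).comp (toFun N)).codRestrict (toFun N).range fun r => compW_toFun_mem N r)

theorem toFun_wR (r : RN N) : toFun N (wR N r) = compW N (toFun N r) := by
  have h := (toFunEquiv N).apply_symm_apply
    ((((compW N).comp (toFun N)).codRestrict (toFun N).range
      fun r => compW_toFun_mem N r) r)
  exact congrArg Subtype.val h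

theorem wR_wR (r : RN N) : wR N (wR N r) = r := by
  apply toFun_injective N
  rw [toFun_wR, toFun_wR, compW_compW]

theorem wR_injective : Function.Injective (wR N) :=
  Function.LeftInverse.injective (wR_wR N)

theorem wR_algebraMap (c : Kbar) : wR N (algebraMap Kbar (RN N) c) = algebraMap Kbar (RN N) c := by
  apply toFun_injective N
  rw [toFun_wR, toFun_algebraMap]
  rfl

theorem wR_jR (d : ℕ) [NeZero d] (hd : d ∣ N) :
    haveI := neZero_div N hd
    wR N (jR N d hd) = jR N (N / d) (Nat.div_dvd_of_dvd hd) := by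
  have := neZero_div N hd
  apply toFun_injective N
  rw [toFun_wR, toFun_jR, toFun_jR]
  funext τ
  exact Jd_fricke N hd τ

/-- The Fricke involution on `FF N`, as a ring homomorphism. -/
def wFHom : FF N →+* FF N :=
  liftF ((inclRN N).toRingHom.comp (wR N))
    ((inclRN_injective N).comp (wR_injective N))

theorem wFHom_inclRN (r : RN N) : wFHom N (inclRN N r) = inclRN N (wR N r) :=
  liftF_inclRN _ _ r

theorem wFHom_wFHom (f : FF N) : wFHom N (wFHom N f) = f := by
  obtain ⟨r, t, -, rfl⟩ := exists_div_inclRN N f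
  rw [map_div₀, map_div₀, wFHom_inclRN, wFHom_inclRN, wFHom_inclRN, wFHom_inclRN, wR_wR, wR_wR]

theorem wFHom_algebraMap (c : Kbar) :
    wFHom N (algebraMap Kbar (FF N) c) = algebraMap Kbar (FF N) c := by
  have h : algebraMap Kbar (FF N) c = inclRN N (algebraMap Kbar (RN N) c) :=
    ((inclRN N).commutes c).symm
  rw [h, wFHom_inclRN, wR_algebraMap]

/-- **The Fricke involution `w_N` of the function field of `X₀(N)` over `ℚ̄`.** -/
def wF : FF N ≃ₐ[Kbar] FF N :=
  AlgEquiv.ofAlgHom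
    { toRingHom := wFHom N, commutes' := wFHom_algebraMap N }
    { toRingHom := wFHom N, commutes' := wFHom_algebraMap N }
    (AlgHom.ext fun f => wFHom_wFHom N f)
    (AlgHom.ext fun f => wFHom_wFHom N f)

@[simp] theorem wF_apply (f : FF N) : wF N f = wFHom N f := rfl

theorem wF_wF (f : FF N) : wF N (wF N f) = f := wFHom_wFHom N f

theorem wF_symm : (wF N).symm = wF N := by
  refine AlgEquiv.ext fun f => ?_
  apply (wF N).injective
  rw [AlgEquiv.apply_symm_apply, wF_wF]

/-- `j(q^d)` as an element of `FF N`. -/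
def jFd (d : ℕ) [NeZero d] (hd : d ∣ N) : FF N := inclRN N (jR N d hd)

omit [NeZero N] in
@[simp] theorem coe_jFd (d : ℕ) [NeZero d] (hd : d ∣ N) :
    ((jFd N d hd : FF N) : LaurentSeries Kbar) = coeffEmb Kbar (qExpand ℚ d jq) := rfl

/-- `w_N (j(q^d)) = j(q^{N/d})`. -/
theorem wF_jFd (d : ℕ) [NeZero d] (hd : d ∣ N) :
    haveI := neZero_div N hd
    wF N (jFd N d hd) = jFd N (N / d) (Nat.div_dvd_of_dvd hd) := by
  have := neZero_div N hd
  show wFHom N (inclRN N (jR N d hd)) = _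
  rw [wFHom_inclRN, wR_jR]
  rfl

end Fermat.Agent.A2.H528

end
end
-- ===== PACK-END A2/H528/Fricke.lean

-- ===== PACK-BEGIN A2/Mod/H751/Fricke.lean
section




/-!
# A2 / MOD, leaves L4 (`FrickeExists`) and L5 (`FrickeCompat`)  (helper751)

* `FE_induction` : induction principle for the function field `F_{N,K} = K(j_d : d ∣ N)`
  (any field `K ⊇ ℚ`): a predicate holding on the constants and on the generators `j_d`, stable
  under `+`, `*`, `⁻¹`, holds everywhere;
* `ringHom_ext_FE` : two ring homomorphisms out of `F_{N,K}` agreeing on constants and generators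
  are equal;
* `frickeCompat : FrickeCompatStatement E M q`  (**L5**);
* `frickeExists : FrickeExistsStatement E`  (**L4**), by descent of `H528.wF` (the Fricke
  involution over `ℚ̄`) along the coefficientwise inclusion `ι : F_{N,E} → F_{N,ℚ̄}`;
  `frickeE`, `iotaE_frickeE : ι (W_E f) = w_N (ι f)`.
-/

set_option autoImplicit false
set_option synthInstance.maxHeartbeats 400000
set_option maxHeartbeats 1600000

noncomputable section

namespace Fermat.Agent.A2.Mod.H751

open ModularCurve HahnSeries Polynomial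

/-! ### Induction on the function field `K(j_d : d ∣ N)` -/

section Induction

variable {K : Type*} [Field K] [Algebra ℚ K] (N : ℕ)

/-- The generator `j_d = j(t^d)` of `F_{N,K}`. -/
def jK (K : Type*) [Field K] [Algebra ℚ K] (N d : ℕ) [NeZero d] (hd : d ∣ N) :
    ↥(laurentBaseChange K (modularFunctionFieldFull N)) :=
  ⟨coeffEmb K (qExpand ℚ d jq), coeffEmb_mem_laurentBaseChange K (jqd_mem_full N hd)⟩

theorem coeffEmb_algebraMap (c : ℚ) :
    coeffEmb K (algebraMap ℚ (LaurentSeries ℚ) c)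
      = algebraMap K (LaurentSeries K) (algebraMap ℚ K c) := by
  rw [algebraMap_apply_eq_single, algebraMap_laurentSeries_eq_single, coeffEmb, coeffMap_single]

/-- **Induction principle for `F_{N,K}`.** -/
theorem FE_induction
    (p : ↥(laurentBaseChange K (modularFunctionFieldFull N)) → Prop)
    (hc : ∀ e : K, p (algebraMap K _ e))
    (hj : ∀ (d : ℕ) [NeZero d] (hd : d ∣ N), p (jK K N d hd))
    (hadd : ∀ x y, p x → p y → p (x + y))
    (hmul : ∀ x y, p x → p y → p (x * y))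
    (hinv : ∀ x, p x → p x⁻¹) :
    ∀ x, p x := by
  -- step 1: the rational functions
  have key1 : ∀ y ∈ modularFunctionFieldFull N,
      ∀ h : coeffEmb K y ∈ laurentBaseChange K (modularFunctionFieldFull N),
        p ⟨coeffEmb K y, h⟩ := by
    intro y hy
    have hy0 : y ∈ IntermediateField.adjoin ℚ (divisorExpansions N) := hy
    induction hy0 using IntermediateField.adjoin_induction with
    | mem z hz =>
        intro h
        obtain ⟨d, hne, hd, rfl⟩ := hz
        haveI := hne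
        exact hj d hd
    | algebraMap c =>
        intro h
        have h1 : (⟨coeffEmb K (algebraMap ℚ (LaurentSeries ℚ) c), h⟩ :
            ↥(laurentBaseChange K (modularFunctionFieldFull N)))
            = algebraMap K _ (algebraMap ℚ K c) := Subtype.ext (coeffEmb_algebraMap c)
        rw [h1]
        exact hc _
    | add a b ha hb iha ihb =>
        intro h
        have ha' := coeffEmb_mem_laurentBaseChange K (F₀ := modularFunctionFieldFull N) ha
        have hb' := coeffEmb_mem_laurentBaseChange K (F₀ := modularFunctionFieldFull N) hb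
        have h1 : (⟨coeffEmb K (a + b), h⟩ :
            ↥(laurentBaseChange K (modularFunctionFieldFull N)))
            = ⟨coeffEmb K a, ha'⟩ + ⟨coeffEmb K b, hb'⟩ := Subtype.ext (map_add _ _ _)
        rw [h1]
        exact hadd _ _ (iha ha ha') (ihb hb hb')
    | inv a ha iha =>
        intro h
        have ha' := coeffEmb_mem_laurentBaseChange K (F₀ := modularFunctionFieldFull N) ha
        have h1 : (⟨coeffEmb K (a⁻¹), h⟩ :
            ↥(laurentBaseChange K (modularFunctionFieldFull N)))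
            = (⟨coeffEmb K a, ha'⟩ : ↥(laurentBaseChange K (modularFunctionFieldFull N)))⁻¹ :=
          Subtype.ext (map_inv₀ _ _)
        rw [h1]
        exact hinv _ (iha ha ha')
    | mul a b ha hb iha ihb =>
        intro h
        have ha' := coeffEmb_mem_laurentBaseChange K (F₀ := modularFunctionFieldFull N) ha
        have hb' := coeffEmb_mem_laurentBaseChange K (F₀ := modularFunctionFieldFull N) hb
        have h1 : (⟨coeffEmb K (a * b), h⟩ :
            ↥(laurentBaseChange K (modularFunctionFieldFull N)))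
            = ⟨coeffEmb K a, ha'⟩ * ⟨coeffEmb K b, hb'⟩ := Subtype.ext (map_mul _ _ _)
        rw [h1]
        exact hmul _ _ (iha ha ha') (ihb hb hb')
  -- step 2: the whole field
  have key2 : ∀ x (h : x ∈ laurentBaseChange K (modularFunctionFieldFull N)), p ⟨x, h⟩ := by
    intro x hx
    have hx0 : x ∈ IntermediateField.adjoin K
        (⇑(coeffEmb K) '' ((modularFunctionFieldFull N : IntermediateField ℚ (LaurentSeries ℚ)) :
          Set (LaurentSeries ℚ))) := hx
    induction hx0 using IntermediateField.adjoin_induction with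
    | mem z hz =>
        obtain ⟨y, hy, rfl⟩ := hz
        exact key1 y hy hx
    | algebraMap c =>
        have h1 : (⟨algebraMap K (LaurentSeries K) c, hx⟩ :
            ↥(laurentBaseChange K (modularFunctionFieldFull N))) = algebraMap K _ c := rfl
        rw [h1]
        exact hc c
    | add a b ha hb iha ihb =>
        have h1 : (⟨a + b, hx⟩ : ↥(laurentBaseChange K (modularFunctionFieldFull N)))
            = ⟨a, ha⟩ + ⟨b, hb⟩ := rfl
        rw [h1]
        exact hadd ⟨a, ha⟩ ⟨b, hb⟩ (iha ha) (ihb hb)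
    | inv a ha iha =>
        have h1 : (⟨a⁻¹, hx⟩ : ↥(laurentBaseChange K (modularFunctionFieldFull N)))
            = (⟨a, ha⟩ : ↥(laurentBaseChange K (modularFunctionFieldFull N)))⁻¹ := rfl
        rw [h1]
        exact hinv ⟨a, ha⟩ (iha ha)
    | mul a b ha hb iha ihb =>
        have h1 : (⟨a * b, hx⟩ : ↥(laurentBaseChange K (modularFunctionFieldFull N)))
            = ⟨a, ha⟩ * ⟨b, hb⟩ := rfl
        rw [h1]
        exact hmul ⟨a, ha⟩ ⟨b, hb⟩ (iha ha) (ihb hb)
  intro x
  exact key2 x.1 x.2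

/-- Two ring homomorphisms out of `F_{N,K}` which agree on the constants and on the generators
`j_d`, `d ∣ N`, are equal. -/
theorem ringHom_ext_FE {T : Type*} [DivisionRing T]
    (φ ψ : ↥(laurentBaseChange K (modularFunctionFieldFull N)) →+* T)
    (hc : ∀ e : K, φ (algebraMap K _ e) = ψ (algebraMap K _ e))
    (hj : ∀ (d : ℕ) [NeZero d] (hd : d ∣ N), φ (jK K N d hd) = ψ (jK K N d hd)) :
    ∀ x, φ x = ψ x := by
  refine FE_induction N (fun x => φ x = ψ x) hc hj ?_ ?_ ?_
  · intro x y hx hy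
    show φ (x + y) = ψ (x + y)
    rw [map_add, map_add, hx, hy]
  · intro x y hx hy
    show φ (x * y) = ψ (x * y)
    rw [map_mul, map_mul, hx, hy]
  · intro x hx
    show φ x⁻¹ = ψ x⁻¹
    rw [map_inv₀, map_inv₀, hx]

end Induction

/-! ### L5: compatibility of the Fricke involutions with `α`, `β` -/

section L5

variable (E : IntermediateField ℚ _root_.Fermat.Agent.A2.Mod.Qb) (M q : ℕ) [NeZero M] [NeZero q]

theorem jE_eq_jK (N d : ℕ) [NeZero d] (hd : d ∣ N) : jE E N d hd = jK E N d hd := rfl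

/-- `α j_d = j_d`. -/
theorem alpha_jE (d : ℕ) [NeZero d] (hd : d ∣ M) :
    αE E M q (jE E M d hd) = jE E (M * q) d (hd.trans (dvd_mul_right M q)) :=
  Subtype.ext (coe_heckeAlphaBar M q _)

/-- `β j_d = j_{qd}`. -/
theorem beta_jE (d : ℕ) [NeZero d] (hd : d ∣ M) :
    βE E M q (jE E M d hd)
      = jE E (M * q) (q * d) (by rw [mul_comm M q]; exact mul_dvd_mul_left q hd) := by
  apply Subtype.ext
  show qExpand E q (coeffEmb E (qExpand ℚ d jq)) = coeffEmb E (qExpand ℚ (q * d) jq)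
  rw [coeffEmb, ← ModularCurve.coeffMap_qExpand, qExpand_qExpand]

theorem jE_congr (N : ℕ) {d d' : ℕ} [NeZero d] [NeZero d'] (h : d = d') (hd : d ∣ N)
    (hd' : d' ∣ N) : jE E N d hd = jE E N d' hd' := by
  subst h
  rfl

/-- **L5** (`FrickeCompat`). -/
theorem frickeCompat : FrickeCompatStatement E M q := by
  intro WM WN hWM hWN
  have hM0 : 0 < M := Nat.pos_of_ne_zero (NeZero.ne M)
  have key1 : ∀ f : _root_.Fermat.Agent.A2.Mod.FE E M, WN (αE E M q f) = βE E M q (WM f) := by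
    refine ringHom_ext_FE M
      ((WN : _root_.Fermat.Agent.A2.Mod.FE E (M * q) →+* _root_.Fermat.Agent.A2.Mod.FE E (M * q)).comp (αE E M q : _root_.Fermat.Agent.A2.Mod.FE E M →+* _root_.Fermat.Agent.A2.Mod.FE E (M * q)))
      ((βE E M q : _root_.Fermat.Agent.A2.Mod.FE E M →+* _root_.Fermat.Agent.A2.Mod.FE E (M * q)).comp (WM : _root_.Fermat.Agent.A2.Mod.FE E M →+* _root_.Fermat.Agent.A2.Mod.FE E M)) ?_ ?_
    · intro e
      show WN (αE E M q (algebraMap E _ e)) = βE E M q (WM (algebraMap E _ e))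
      rw [AlgHom.commutes, AlgEquiv.commutes, AlgEquiv.commutes, AlgHom.commutes]
    · intro d _ hd
      show WN (αE E M q (jE E M d hd)) = βE E M q (WM (jE E M d hd))
      have hd0 : 0 < d := Nat.pos_of_dvd_of_pos hd hM0
      haveI : NeZero (M / d) := ⟨(Nat.div_pos (Nat.le_of_dvd hM0 hd) hd0).ne'⟩
      have h1 : WM (jE E M d hd) = jE E M (M / d) (Nat.div_dvd_of_dvd hd) :=
        hWM.1 d (M / d) hd (Nat.div_dvd_of_dvd hd) (Nat.mul_div_cancel' hd)
      have hdvd : q * (M / d) ∣ M * q := by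
        rw [mul_comm M q]; exact mul_dvd_mul_left q (Nat.div_dvd_of_dvd hd)
      have h2 : WN (jE E (M * q) d (hd.trans (dvd_mul_right M q)))
          = jE E (M * q) (q * (M / d)) hdvd :=
        hWN.1 d (q * (M / d)) _ hdvd (by
          rw [mul_left_comm, Nat.mul_div_cancel' hd, mul_comm])
      rw [alpha_jE, h2, h1, beta_jE]
  have key2 : ∀ f : _root_.Fermat.Agent.A2.Mod.FE E M, WN (βE E M q f) = αE E M q (WM f) := by
    refine ringHom_ext_FE M
      ((WN : _root_.Fermat.Agent.A2.Mod.FE E (M * q) →+* _root_.Fermat.Agent.A2.Mod.FE E (M * q)).comp (βE E M q : _root_.Fermat.Agent.A2.Mod.FE E M →+* _root_.Fermat.Agent.A2.Mod.FE E (M * q)))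
      ((αE E M q : _root_.Fermat.Agent.A2.Mod.FE E M →+* _root_.Fermat.Agent.A2.Mod.FE E (M * q)).comp (WM : _root_.Fermat.Agent.A2.Mod.FE E M →+* _root_.Fermat.Agent.A2.Mod.FE E M)) ?_ ?_
    · intro e
      show WN (βE E M q (algebraMap E _ e)) = αE E M q (WM (algebraMap E _ e))
      rw [AlgHom.commutes, AlgEquiv.commutes, AlgEquiv.commutes, AlgHom.commutes]
    · intro d _ hd
      show WN (βE E M q (jE E M d hd)) = αE E M q (WM (jE E M d hd))
      have hd0 : 0 < d := Nat.pos_of_dvd_of_pos hd hM0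
      haveI : NeZero (M / d) := ⟨(Nat.div_pos (Nat.le_of_dvd hM0 hd) hd0).ne'⟩
      have h1 : WM (jE E M d hd) = jE E M (M / d) (Nat.div_dvd_of_dvd hd) :=
        hWM.1 d (M / d) hd (Nat.div_dvd_of_dvd hd) (Nat.mul_div_cancel' hd)
      have hdvd : q * d ∣ M * q := by
        rw [mul_comm M q]; exact mul_dvd_mul_left q hd
      have hdvd' : M / d ∣ M * q := (Nat.div_dvd_of_dvd hd).trans (dvd_mul_right M q)
      have h2 : WN (jE E (M * q) (q * d) hdvd) = jE E (M * q) (M / d) hdvd' :=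
        hWN.1 (q * d) (M / d) hdvd hdvd' (by
          rw [mul_assoc, Nat.mul_div_cancel' hd, mul_comm])
      rw [beta_jE, h2, h1, alpha_jE]
  exact fun f => ⟨key1 f, key2 f⟩

end L5

/-! ### L4: the Fricke involution over `E`, by descent from `ℚ̄` -/

section L4

open Fermat.Agent.S24 Fermat.Agent.A2.H528

variable (E : IntermediateField ℚ _root_.Fermat.Agent.A2.Mod.Qb) (N : ℕ)

/-- The comparison map `ι : F_{N,E} → F_{N,ℚ̄}` (inclusion of the coefficients). -/
def iotaE : _root_.Fermat.Agent.A2.Mod.FE E N →+* FF N where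
  toFun y := ⟨coeffMap (algebraMap E _root_.Fermat.Agent.A2.Mod.Qb) (y : LaurentSeries E),
    Fermat.Agent.S18.H602.coeffMap_mem_laurentBaseChange _ (algebraMap E _root_.Fermat.Agent.A2.Mod.Qb) y.2⟩
  map_one' := Subtype.ext (map_one (coeffMap (algebraMap E _root_.Fermat.Agent.A2.Mod.Qb)))
  map_mul' _ _ := Subtype.ext (map_mul (coeffMap (algebraMap E _root_.Fermat.Agent.A2.Mod.Qb)) _ _)
  map_zero' := Subtype.ext (map_zero (coeffMap (algebraMap E _root_.Fermat.Agent.A2.Mod.Qb)))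
  map_add' _ _ := Subtype.ext (map_add (coeffMap (algebraMap E _root_.Fermat.Agent.A2.Mod.Qb)) _ _)

theorem coe_iotaE (y : _root_.Fermat.Agent.A2.Mod.FE E N) :
    ((iotaE E N y : FF N) : LaurentSeries Kbar)
      = coeffMap (algebraMap E _root_.Fermat.Agent.A2.Mod.Qb) (y : LaurentSeries E) := rfl

theorem iotaE_injective : Function.Injective (iotaE E N) := (iotaE E N).injective

theorem iotaE_algebraMap (e : E) :
    iotaE E N (algebraMap E (_root_.Fermat.Agent.A2.Mod.FE E N) e) = algebraMap Kbar (FF N) (e : _root_.Fermat.Agent.A2.Mod.Qb) := by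
  apply Subtype.ext
  show coeffMap (algebraMap E _root_.Fermat.Agent.A2.Mod.Qb) (algebraMap E (LaurentSeries E) e) = _
  rw [Fermat.Agent.S18.H602.coeffMap_algebraMap']
  rfl

theorem iotaE_jE (d : ℕ) [NeZero d] (hd : d ∣ N) : iotaE E N (jE E N d hd) = jFd N d hd := by
  apply Subtype.ext
  show coeffMap (algebraMap E _root_.Fermat.Agent.A2.Mod.Qb) (coeffEmb E (qExpand ℚ d jq)) = coeffEmb Kbar (qExpand ℚ d jq)
  exact Fermat.Agent.S18.H602.coeffMap_coeffEmb' _ _

variable [NeZero N]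

/-- `w_N` preserves the `E`-rational functions. -/
theorem exists_iotaE_eq_wF (f : _root_.Fermat.Agent.A2.Mod.FE E N) : ∃ g : _root_.Fermat.Agent.A2.Mod.FE E N, iotaE E N g = wF N (iotaE E N f) := by
  refine FE_induction N (fun f => ∃ g : _root_.Fermat.Agent.A2.Mod.FE E N, iotaE E N g = wF N (iotaE E N f)) ?_ ?_ ?_ ?_ ?_ f
  · intro e
    refine ⟨algebraMap E (_root_.Fermat.Agent.A2.Mod.FE E N) e, ?_⟩
    rw [iotaE_algebraMap, AlgEquiv.commutes]
  · intro d _ hd
    haveI := neZero_div N hd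
    refine ⟨jE E N (N / d) (Nat.div_dvd_of_dvd hd), ?_⟩
    show iotaE E N (jE E N (N / d) (Nat.div_dvd_of_dvd hd)) = wF N (iotaE E N (jE E N d hd))
    rw [iotaE_jE, iotaE_jE, wF_jFd]
  · rintro x y ⟨a, ha⟩ ⟨b, hb⟩
    exact ⟨a + b, by rw [map_add, map_add, map_add, ha, hb]⟩
  · rintro x y ⟨a, ha⟩ ⟨b, hb⟩
    exact ⟨a * b, by rw [map_mul, map_mul, map_mul, ha, hb]⟩
  · rintro x ⟨a, ha⟩
    exact ⟨a⁻¹, by rw [map_inv₀, map_inv₀, map_inv₀, ha]⟩

/-- The Fricke involution of `F_{N,E}`, as a function. -/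
def frickeFun (f : _root_.Fermat.Agent.A2.Mod.FE E N) : _root_.Fermat.Agent.A2.Mod.FE E N := Classical.choose (exists_iotaE_eq_wF E N f)

theorem iotaE_frickeFun (f : _root_.Fermat.Agent.A2.Mod.FE E N) : iotaE E N (frickeFun E N f) = wF N (iotaE E N f) :=
  Classical.choose_spec (exists_iotaE_eq_wF E N f)

/-- The Fricke involution of `F_{N,E}`, as an `E`-algebra homomorphism. -/
def frickeHom : _root_.Fermat.Agent.A2.Mod.FE E N →ₐ[E] _root_.Fermat.Agent.A2.Mod.FE E N where
  toFun := frickeFun E N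
  map_one' := iotaE_injective E N (by rw [iotaE_frickeFun, map_one, map_one])
  map_mul' x y := iotaE_injective E N (by
    rw [iotaE_frickeFun, map_mul, map_mul, map_mul, iotaE_frickeFun, iotaE_frickeFun])
  map_zero' := iotaE_injective E N (by rw [iotaE_frickeFun, map_zero, map_zero])
  map_add' x y := iotaE_injective E N (by
    rw [iotaE_frickeFun, map_add, map_add, map_add, iotaE_frickeFun, iotaE_frickeFun])
  commutes' e := iotaE_injective E N (by
    rw [iotaE_frickeFun, iotaE_algebraMap, AlgEquiv.commutes])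

theorem iotaE_frickeHom (f : _root_.Fermat.Agent.A2.Mod.FE E N) : iotaE E N (frickeHom E N f) = wF N (iotaE E N f) :=
  iotaE_frickeFun E N f

theorem frickeHom_frickeHom (f : _root_.Fermat.Agent.A2.Mod.FE E N) : frickeHom E N (frickeHom E N f) = f :=
  iotaE_injective E N (by rw [iotaE_frickeHom, iotaE_frickeHom, wF_wF])

/-- **The Fricke involution `W_E` of `F_{N,E}` over `E`.** -/
def frickeE : _root_.Fermat.Agent.A2.Mod.FE E N ≃ₐ[E] _root_.Fermat.Agent.A2.Mod.FE E N :=
  AlgEquiv.ofAlgHom (frickeHom E N) (frickeHom E N)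
    (AlgHom.ext fun f => frickeHom_frickeHom E N f)
    (AlgHom.ext fun f => frickeHom_frickeHom E N f)

/-- `ι (W_E f) = w_N (ι f)`. -/
theorem iotaE_frickeE (f : _root_.Fermat.Agent.A2.Mod.FE E N) : iotaE E N (frickeE E N f) = wF N (iotaE E N f) :=
  iotaE_frickeFun E N f

theorem frickeE_frickeE (f : _root_.Fermat.Agent.A2.Mod.FE E N) : frickeE E N (frickeE E N f) = f :=
  frickeHom_frickeHom E N f

theorem frickeE_jE (d : ℕ) [NeZero d] (hd : d ∣ N) :
    haveI := neZero_div N hd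
    frickeE E N (jE E N d hd) = jE E N (N / d) (Nat.div_dvd_of_dvd hd) := by
  haveI := neZero_div N hd
  apply iotaE_injective E N
  rw [iotaE_frickeE, iotaE_jE, iotaE_jE, wF_jFd]

theorem isFricke_frickeE : IsFricke E N (frickeE E N) := by
  refine ⟨?_, frickeE_frickeE E N⟩
  intro d d' _ _ hd hd' hdd
  have hN : 0 < N := Nat.pos_of_ne_zero (NeZero.ne N)
  have hd0 : 0 < d := Nat.pos_of_dvd_of_pos hd hN
  have h : N / d = d' := Nat.div_eq_of_eq_mul_right hd0 hdd.symm
  haveI := neZero_div N hd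
  rw [frickeE_jE]
  exact jE_congr E N h _ _

end L4

/-- **L4** (`FrickeExists`). -/
theorem frickeExists (E : IntermediateField ℚ _root_.Fermat.Agent.A2.Mod.Qb) : FrickeExistsStatement E := by
  intro N hN
  haveI : NeZero N := ⟨hN⟩
  exact ⟨frickeE E N, isFricke_frickeE E N⟩

end Fermat.Agent.A2.Mod.H751

end
end
-- ===== PACK-END A2/Mod/H751/Fricke.lean

-- ===== PACK-BEGIN A2/Mod/H873/L13.lean
section



/-!
# A2 / MOD — leaf L13 `ChartCompatStatement` (helper873)

`x = j · j_q`.  Then `j, j_q` are integral over `R_E[x]` and `1/j, 1/j_q` are integral over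
`R_E[1/x]`.

Proof (valuative criterion, `iInf_valuationSubring_superset`): let `V` be a valuation subring of
`F_N` containing `x`.  If `j ∉ V` then `1/j ∈ V`, so `j_q = x / j ∈ V`; but `j` is integral over
`ℤ[j_q]` (`Φ_q(j, j_q) = 0`, `Φ_q` monic), hence `j ∈ V`.  Chart at infinity: if `1/x ∈ V` and
`1/j ∉ V` then `j ∈ V`, so `j_q ∈ V` (integral over `ℤ[j]`), and `1/j = j_q · (1/x) ∈ V`.
Only the monicity of `Φ_q` in the outer variable and the two vanishing properties of
`S28.ModPolyData` are used.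

Main results:
* `chartCompat_of_modPolyData (D : S28.ModPolyData q) : ChartCompatStatement P E M q`
* `chartCompat : ChartCompatStatement P E M q`   (exact frozen leaf of `Mod/Spec.lean`)
-/

set_option autoImplicit false
set_option synthInstance.maxHeartbeats 400000
set_option maxHeartbeats 1600000

noncomputable section

namespace Fermat.Agent.A2.Mod.H873

open ModularCurve HahnSeries Polynomial

/-! ## Abstract part (Mathlib only) -/

section Abstract

variable {K : Type*} [Field K]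

/-- valuative criterion, one element: `a` lies in every valuation subring containing `x`
implies `a` is integral over `ℤ[x]`. -/
theorem isIntegral_closure_of_forall_valuationSubring {x a : K}
    (h : ∀ V : ValuationSubring K, x ∈ V → a ∈ V) :
    IsIntegral (Subring.closure ({x} : Set K)) a := by
  have key := iInf_valuationSubring_superset (K := K) (s := ({x} : Set K))
  have hmem : a ∈ (integralClosure (Subring.closure ({x} : Set K)) K).toSubring := by
    rw [← key]
    rw [Subring.mem_iInf]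
    rintro ⟨V, hV⟩
    exact h V (hV (Set.mem_singleton x))
  exact hmem

/-- an element integral over `ℤ[b]` lies in every valuation subring containing `b` -/
theorem mem_valuationSubring_of_monic_eval {a b : K} (Φ : Polynomial (Polynomial ℤ))
    (hΦ : Φ.Monic) (h : Φ.eval₂ (Polynomial.aeval (R := ℤ) b).toRingHom a = 0)
    (V : ValuationSubring K) (hb : b ∈ V) : a ∈ V := by
  have hint : IsIntegral V a := by
    refine ⟨Φ.map (Polynomial.aeval (R := ℤ) (⟨b, hb⟩ : V)).toRingHom, hΦ.map _, ?_⟩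
    rw [Polynomial.eval₂_map]
    rw [← h]
    congr 1
    apply Polynomial.ringHom_ext
    · intro n
      simp
    · simp
  have := IsIntegrallyClosed.isIntegral_iff (R := V) (K := K) |>.mp hint
  obtain ⟨y, hy⟩ := this
  rw [← hy]
  exact y.2

/-- **core of L13, finite chart**: `Φ(X = a; Y = b) = 0`, `Φ` monic in `X` ⟹ `a` integral over
`ℤ[a b]`. -/
theorem isIntegral_closure_mul {a b : K} (Φ : Polynomial (Polynomial ℤ))
    (hΦ : Φ.Monic) (h : Φ.eval₂ (Polynomial.aeval (R := ℤ) b).toRingHom a = 0) :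
    IsIntegral (Subring.closure ({a * b} : Set K)) a := by
  refine isIntegral_closure_of_forall_valuationSubring fun V hx => ?_
  by_contra ha
  have ha0 : a ≠ 0 := fun h0 => ha (h0 ▸ V.zero_mem)
  have hinv : a⁻¹ ∈ V := (V.mem_or_inv_mem a).resolve_left ha
  have hb : b ∈ V := by
    have : b = a * b * a⁻¹ := by field_simp
    rw [this]
    exact V.mul_mem _ _ hx hinv
  exact ha (mem_valuationSubring_of_monic_eval Φ hΦ h V hb)

/-- **core of L13, chart at infinity**: `Φ(X = b; Y = a) = 0`, `Φ` monic in `X`, `b ≠ 0`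
⟹ `a⁻¹` integral over `ℤ[(a b)⁻¹]`. -/
theorem isIntegral_closure_inv_mul {a b : K} (hb0 : b ≠ 0) (Φ : Polynomial (Polynomial ℤ))
    (hΦ : Φ.Monic) (h : Φ.eval₂ (Polynomial.aeval (R := ℤ) a).toRingHom b = 0) :
    IsIntegral (Subring.closure ({(a * b)⁻¹} : Set K)) a⁻¹ := by
  refine isIntegral_closure_of_forall_valuationSubring fun V hx => ?_
  by_contra ha
  have ha0 : a ≠ 0 := fun h0 => ha (by rw [h0, inv_zero]; exact V.zero_mem)
  have haV : a ∈ V := by
    have := (V.mem_or_inv_mem a⁻¹).resolve_left ha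
    rwa [inv_inv] at this
  have hb : b ∈ V := mem_valuationSubring_of_monic_eval Φ hΦ h V haV
  have : a⁻¹ = b * (a * b)⁻¹ := by field_simp
  exact ha (this ▸ V.mul_mem _ _ hb hx)

/-- from integrality over `ℤ[x]` to integrality along `R[X] → K`, `X ↦ x`. -/
theorem isIntegralElem_of_isIntegral_closure {R : Type*} [CommRing R] (φ : R →+* K) {x a : K}
    (h : IsIntegral (Subring.closure ({x} : Set K)) a) :
    ∃ p : Polynomial (Polynomial R), p.Monic ∧ p.eval₂ (Polynomial.eval₂RingHom φ x) a = 0 := by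
  obtain ⟨p, hp, hpa⟩ := h
  set ψ : Polynomial R →+* K := Polynomial.eval₂RingHom φ x with hψ
  have hle : Subring.closure ({x} : Set K) ≤ ψ.range := by
    rw [Subring.closure_le]
    rintro y hy
    rw [Set.mem_singleton_iff] at hy
    subst hy
    exact ⟨Polynomial.X, by simp [hψ]⟩
  set incl : Subring.closure ({x} : Set K) →+* ψ.range := Subring.inclusion hle with hincl
  have hlift : p.map incl ∈ Polynomial.lifts ψ.rangeRestrict := by
    rw [Polynomial.lifts_iff_coeff_lifts]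
    intro n
    exact ψ.rangeRestrict_surjective _
  obtain ⟨q, hq, -, hqm⟩ := Polynomial.lifts_and_natDegree_eq_and_monic hlift (hp.map incl)
  refine ⟨q, hqm, ?_⟩
  have h1 : q.eval₂ ψ a = (q.map ψ.rangeRestrict).eval₂ ψ.range.subtype a := by
    rw [Polynomial.eval₂_map]
    rfl
  rw [h1, hq, Polynomial.eval₂_map]
  exact hpa

end Abstract

/-! ## Concrete part -/

section Concrete

variable (P : ValuationSubring _root_.Fermat.Agent.A2.Mod.Qb) (E : IntermediateField ℚ _root_.Fermat.Agent.A2.Mod.Qb) (M q : ℕ) [NeZero M] [NeZero q]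

/-- the underlying series of `j_d` is `j(t^d)` over `E` -/
theorem coe_jE (N d : ℕ) [NeZero d] (hd : d ∣ N) :
    ((jE E N d hd : _root_.Fermat.Agent.A2.Mod.FE E N) : LaurentSeries E) = qExpand E d (jqModC E) := by
  show coeffEmb E (qExpand ℚ d jq) = _
  rw [coeffEmb, coeffMap_qExpand, ← jqModC_rat, coeffMap_jqModC]

/-- the underlying series of `j_d` is the image of the integral series `j(t^d)` -/
theorem coe_jE_int (N d : ℕ) [NeZero d] (hd : d ∣ N) :
    ((jE E N d hd : _root_.Fermat.Agent.A2.Mod.FE E N) : LaurentSeries E) =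
      coeffMap (Int.castRingHom E) (qExpand ℤ d (jqModC ℤ)) := by
  rw [coe_jE, coeffMap_qExpand, coeffMap_jqModC]

theorem coe_jE_one (N : ℕ) :
    ((jE E N 1 (one_dvd N) : _root_.Fermat.Agent.A2.Mod.FE E N) : LaurentSeries E) =
      coeffMap (Int.castRingHom E) (jqModC ℤ) := by
  rw [coe_jE_int, qExpand_one_apply]

/-- evaluation of a two-variable integral polynomial commutes with the coercion
`F_N → E((t))` -/
theorem coe_eval₂_aeval (N : ℕ) (Φ : Polynomial (Polynomial ℤ)) (a b : _root_.Fermat.Agent.A2.Mod.FE E N) :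
    ((Φ.eval₂ (Polynomial.aeval (R := ℤ) b).toRingHom a : _root_.Fermat.Agent.A2.Mod.FE E N) : LaurentSeries E) =
      Φ.eval₂ (Polynomial.aeval (R := ℤ) (b : LaurentSeries E)).toRingHom
        (a : LaurentSeries E) := by
  have h := Polynomial.hom_eval₂ Φ (Polynomial.aeval (R := ℤ) b).toRingHom
    (_root_.Fermat.Agent.A2.Mod.FE E N).val.toRingHom a
  have hcomp : ((_root_.Fermat.Agent.A2.Mod.FE E N).val.toRingHom).comp (Polynomial.aeval (R := ℤ) b).toRingHom =
      (Polynomial.aeval (R := ℤ) (b : LaurentSeries E)).toRingHom := by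
    apply Polynomial.ringHom_ext
    · intro n
      simp
    · simp
  rw [hcomp] at h
  exact h

/-- transfer of a vanishing statement from `ℤ((t))` to `F_N` -/
theorem eval₂_eq_zero_of_int (N : ℕ) (Φ : Polynomial (Polynomial ℤ)) (a b : _root_.Fermat.Agent.A2.Mod.FE E N)
    (A B : LaurentSeries ℤ) (ha : (a : LaurentSeries E) = coeffMap (Int.castRingHom E) A)
    (hb : (b : LaurentSeries E) = coeffMap (Int.castRingHom E) B)
    (h : Φ.eval₂ (S28.evalAt B) A = 0) :
    Φ.eval₂ (Polynomial.aeval (R := ℤ) b).toRingHom a = 0 := by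
  apply Subtype.ext
  rw [coe_eval₂_aeval, ha, hb]
  have h2 := Polynomial.hom_eval₂ Φ (S28.evalAt B) (coeffMap (Int.castRingHom E)) A
  have hcomp : (coeffMap (Int.castRingHom E)).comp (S28.evalAt B) =
      (Polynomial.aeval (R := ℤ) (coeffMap (Int.castRingHom E) B)).toRingHom := by
    apply Polynomial.ringHom_ext
    · intro n
      simp [S28.evalAt]
    · simp [S28.evalAt]
  rw [hcomp, h, map_zero] at h2
  rw [← h2]
  rfl

theorem jE_ne_zero (N d : ℕ) [NeZero d] (hd : d ∣ N) : jE E N d hd ≠ 0 := by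
  intro h
  have h1 : ((jE E N d hd : _root_.Fermat.Agent.A2.Mod.FE E N) : LaurentSeries E) = 0 := by rw [h]; rfl
  rw [coe_jE] at h1
  have h2 : jqModC E = 0 := by
    have hinj : Function.Injective (qExpand E d) := by
      intro x y hxy
      ext n
      have := congrArg (fun z => z.coeff ((d : ℤ) * n)) hxy
      simpa [qExpand_coeff_mul] using this
    exact hinj (by rw [h1, map_zero])
  exact jqModC_ne_zero_of_nontrivial E h2

/-- **L13 from the modular polynomial.** -/
theorem chartCompat_of_modPolyData (D : S28.ModPolyData q) : ChartCompatStatement P E M q := by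
  intro _
  -- the two vanishing statements in `F_N`
  have hj : D.Φ.eval₂ (Polynomial.aeval (R := ℤ)
      (jE E (M * q) q (dvd_mul_left q M))).toRingHom (jE E (M * q) 1 (one_dvd _)) = 0 :=
    eval₂_eq_zero_of_int E (M * q) D.Φ _ _ _ _ (coe_jE_one E (M * q))
      (coe_jE_int E (M * q) q (dvd_mul_left q M)) D.eval_j
  have hjq : D.Φ.eval₂ (Polynomial.aeval (R := ℤ)
      (jE E (M * q) 1 (one_dvd _))).toRingHom (jE E (M * q) q (dvd_mul_left q M)) = 0 :=
    eval₂_eq_zero_of_int E (M * q) D.Φ _ _ _ _ (coe_jE_int E (M * q) q (dvd_mul_left q M))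
      (coe_jE_one E (M * q)) D.eval_jp
  refine ⟨?_, ?_, ?_, ?_⟩
  · exact isIntegralElem_of_isIntegral_closure _ (isIntegral_closure_mul D.Φ D.monic hj)
  · have h := isIntegral_closure_mul D.Φ D.monic hjq
    rw [mul_comm (jE E (M * q) q (dvd_mul_left q M)) (jE E (M * q) 1 (one_dvd _))] at h
    exact isIntegralElem_of_isIntegral_closure _ h
  · exact isIntegralElem_of_isIntegral_closure _
      (isIntegral_closure_inv_mul (jE_ne_zero E (M * q) q (dvd_mul_left q M)) D.Φ D.monic hjq)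
  · have h := isIntegral_closure_inv_mul (jE_ne_zero E (M * q) 1 (one_dvd _)) D.Φ D.monic hj
    rw [mul_comm (jE E (M * q) q (dvd_mul_left q M)) (jE E (M * q) 1 (one_dvd _))] at h
    exact isIntegralElem_of_isIntegral_closure _ h

/-- **L13** (exact frozen leaf of `Mod/Spec.lean`). -/
theorem chartCompat : ChartCompatStatement P E M q := fun hq =>
  chartCompat_of_modPolyData P E M q (S28.H807.nonempty_modPolyData q hq).some hq

end Concrete

end Fermat.Agent.A2.Mod.H873

end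

end
-- ===== PACK-END A2/Mod/H873/L13.lean

-- ===== PACK-BEGIN A2/Mod/H142/S2.lean
section




/-!
# A2 / MODASM sub-assembly S2 (components normal) (helper142)

`s2_of_leaves : FrickeStableStatement P E M q w → ResInfStatement P E M q w → S2Statement P E M q w`

The leaves L2 (H553), L4/L5 (H751), L13 (H873) are taken from main; L7 and L11 are hypotheses
(VERBATIM `Mod/Spec.lean` statements).

Route: `normal_side` (`S2Side.lean`) with `(V', γ) = (V∞, α)` for `p₁` and
`(V', γ) = (V₀ = V∞ ∘ W, β)` for `p₂`; the coordinate congruences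
`x ≡ α(j)^(q+1) mod w V∞`, `W x ≡ α(j_M)^(q+1) mod w V∞` are Frobenius congruences of integer
series (`frobCong`).
-/

set_option autoImplicit false
set_option synthInstance.maxHeartbeats 400000
set_option maxHeartbeats 1600000
set_option linter.unusedSectionVars false
set_option linter.style.haveILetI false

noncomputable section

namespace Fermat.Agent.A2.Mod.H142

open ModularCurve HahnSeries Polynomial

variable (P : ValuationSubring _root_.Fermat.Agent.A2.Mod.Qb) (E : IntermediateField ℚ _root_.Fermat.Agent.A2.Mod.Qb)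
variable (M q : ℕ) [NeZero M] [NeZero q] (w : _root_.Fermat.Agent.A2.Mod.RE P E)

/-- `α` maps `V∞` of level `M` into `V∞` of level `M q`. -/
theorem alpha_mem {VM : ValuationSubring (_root_.Fermat.Agent.A2.Mod.FE E M)} {V : ValuationSubring (_root_.Fermat.Agent.A2.Mod.FE E (M * q))}
    (hVM : IsVinf P E M VM) (hV : IsVinf P E (M * q) V) {g : _root_.Fermat.Agent.A2.Mod.FE E M} (hg : g ∈ VM) :
    αE E M q g ∈ V := by
  obtain ⟨U₁, U₂, h0, hm, he⟩ := (hVM g).1 hg
  refine (hV _).2 ⟨U₁, U₂, h0, ?_, ?_⟩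
  · have h := (αE E M q ⟨_, hm⟩).2
    rwa [coe_heckeAlphaBar] at h
  · rw [coe_heckeAlphaBar]
    exact he

/-- The frame of the two coordinates. -/
theorem xE_eq : xE E M q = jE E (M * q) 1 (one_dvd _) * jE E (M * q) q (dvd_mul_left q M) := rfl

/-- **S2 on `C∞`.** -/
theorem normal_inf (hL11 : ResInfStatement P E M q w) (hS : Setting P E M q w)
    (VM : ValuationSubring (_root_.Fermat.Agent.A2.Mod.FE E M)) (V : ValuationSubring (_root_.Fermat.Agent.A2.Mod.FE E (M * q)))
    (hVM : IsVinf P E M VM) (hV : IsVinf P E (M * q) V)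
    (yM : _root_.Fermat.Agent.A2.Mod.FE E M) (y : _root_.Fermat.Agent.A2.Mod.FE E (M * q)) (hy : IsCoordPair E M q yM y)
    (hgood : GoodRedAt P E M w VM yM)
    (p : Ideal (chartAlg P E (M * q) y))
    (hp : IsCut P E (M * q) w V (chartAlg P E (M * q) y) p) :
    IsIntegrallyClosed (chartAlg P E (M * q) y ⧸ p) := by
  have hN : M * q ≠ 0 := Nat.mul_ne_zero hS.M_ne_zero hS.q_prime.ne_zero
  haveI : NeZero (M * q) := ⟨hN⟩
  haveI : NeZero (1 * q) := ⟨by rw [one_mul]; exact hS.q_prime.ne_zero⟩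
  have hL2 := H553.vinfBasic P E w (M * q) hN hS.dvr hS.unif V hV
  have hL2M := H553.vinfBasic P E w M hS.M_ne_zero hS.dvr hS.unif VM hVM
  have hL13 := H873.chartCompat P E M q hS.q_prime
  have hRV : ∀ r : _root_.Fermat.Agent.A2.Mod.RE P E, algebraMap (_root_.Fermat.Agent.A2.Mod.RE P E) (_root_.Fermat.Agent.A2.Mod.FE E (M * q)) r ∈ V := fun r =>
    (hL2.2.1 (r : E)).mpr r.2
  -- notation
  obtain ⟨j, hj⟩ : ∃ j : _root_.Fermat.Agent.A2.Mod.FE E (M * q), j = jE E (M * q) 1 (one_dvd _) := ⟨_, rfl⟩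
  obtain ⟨jq, hjq⟩ : ∃ jq : _root_.Fermat.Agent.A2.Mod.FE E (M * q), jq = jE E (M * q) q (dvd_mul_left q M) := ⟨_, rfl⟩
  have hjV : j ∈ V ∧ j⁻¹ ∈ V := hj ▸ hL2.2.2 1 (one_dvd _)
  have hjqV : jq ∈ V ∧ jq⁻¹ ∈ V := hjq ▸ hL2.2.2 q (dvd_mul_left q M)
  have hx : xE E M q = j * jq := by rw [hj, hjq]; rfl
  have hαj : αE E M q (jE E M 1 (one_dvd _)) = j := by
    rw [hj]
    exact H751.alpha_jE E M q 1 (one_dvd M)
  have hfrob : InW P E (M * q) V w (jq - j ^ q) := by
    have h := frobCong (P := P) (E := E) (w := w) hS.q_prime hS.dvr hS.unif hS.lies_over hN hV 1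
      (one_dvd _) (by rw [one_mul]; exact dvd_mul_left q M)
    rw [hj, hjq]
    have h1 : jE E (M * q) (1 * q) (by rw [one_mul]; exact dvd_mul_left q M) =
        jE E (M * q) q (dvd_mul_left q M) := H751.jE_congr E (M * q) (one_mul q) _ _
    rwa [h1] at h
  have hj0 : j ≠ 0 := hj ▸ H873.jE_ne_zero E (M * q) 1 (one_dvd _)
  have hjq0 : jq ≠ 0 := hjq ▸ H873.jE_ne_zero E (M * q) q (dvd_mul_left q M)
  have hcinv : (j * jq)⁻¹ - j⁻¹ ^ (q + 1) = -(jq - j ^ q) * (j⁻¹ * jq⁻¹ * j⁻¹ ^ q) := by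
    have hjqb : jq * jq⁻¹ = 1 := mul_inv_cancel₀ hjq0
    have hpow : j ^ q * j⁻¹ ^ q = 1 := by rw [← mul_pow, mul_inv_cancel₀ hj0, one_pow]
    have h1 : -(jq - j ^ q) * (j⁻¹ * jq⁻¹ * j⁻¹ ^ q) =
        (j ^ q * j⁻¹ ^ q) * (j⁻¹ * jq⁻¹) - (jq * jq⁻¹) * j⁻¹ ^ (q + 1) := by ring
    rw [h1, hpow, hjqb, mul_inv]
    ring
  rcases hy with ⟨rfl, rfl⟩ | ⟨rfl, rfl⟩
  · -- finite chart
    refine normal_side P E M q w hS VM hVM V hL2.1 hRV (αE E M q)
      (fun g hg => alpha_mem P E M q hVM hV hg) (hL11 hS VM V hVM hV) _ _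
      (hL2M.2.2 1 (one_dvd M)).1 ?_ ?_ ?_ hgood p hp
    · rw [hx]
      exact V.mul_mem _ _ hjV.1 hjqV.1
    · rw [map_pow, hαj, hx]
      have : j * jq - j ^ (q + 1) = (jq - j ^ q) * j := by ring
      rw [this]
      exact inW_mul_right hfrob hjV.1
    · rw [hαj, hj]
      exact (mem_chart_iff P E (M * q) _ _).1 hL13.1
  · -- chart at infinity
    refine normal_side P E M q w hS VM hVM V hL2.1 hRV (αE E M q)
      (fun g hg => alpha_mem P E M q hVM hV hg) (hL11 hS VM V hVM hV) _ _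
      (hL2M.2.2 1 (one_dvd M)).2 ?_ ?_ ?_ hgood p hp
    · rw [hx, mul_inv]
      exact V.mul_mem _ _ hjV.2 hjqV.2
    · rw [map_pow, map_inv₀, hαj, hx]
      rw [hcinv]
      exact inW_mul_right (inW_neg hfrob)
        (V.mul_mem _ _ (V.mul_mem _ _ hjV.2 hjqV.2) (pow_mem hjV.2 q))
    · rw [map_inv₀, hαj, hj]
      exact (mem_chart_iff P E (M * q) _ _).1 hL13.2.2.1

section Comap

variable {P E} {N : ℕ} {V : ValuationSubring (_root_.Fermat.Agent.A2.Mod.FE E N)} {w}

theorem isUnif_comap (W : _root_.Fermat.Agent.A2.Mod.FE E N ≃ₐ[E] _root_.Fermat.Agent.A2.Mod.FE E N) (hU : H48.IsUnif V (cE P E N w)) :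
    H48.IsUnif (V.comap (W : _root_.Fermat.Agent.A2.Mod.FE E N →+* _root_.Fermat.Agent.A2.Mod.FE E N)) (cE P E N w) := by
  have hWc : W (cE P E N w) = cE P E N w := W.commutes _
  refine ⟨?_, ?_, ?_⟩
  · rw [ValuationSubring.mem_comap]
    show W (cE P E N w) ∈ V
    rw [hWc]
    exact hU.mem
  · rw [ValuationSubring.mem_comap]
    show ¬ W (cE P E N w)⁻¹ ∈ V
    rw [map_inv₀, hWc]
    exact hU.inv_not_mem
  · intro f hf hfinv
    rw [ValuationSubring.mem_comap] at hf hfinv ⊢
    show W (f * (cE P E N w)⁻¹) ∈ V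
    rw [map_mul, map_inv₀, hWc]
    refine hU.gen _ hf ?_
    have : (W f)⁻¹ = W f⁻¹ := (map_inv₀ W f).symm
    rw [this]
    exact hfinv

theorem inW_comap_iff (W : _root_.Fermat.Agent.A2.Mod.FE E N ≃ₐ[E] _root_.Fermat.Agent.A2.Mod.FE E N) (f : _root_.Fermat.Agent.A2.Mod.FE E N) :
    InW P E N (V.comap (W : _root_.Fermat.Agent.A2.Mod.FE E N →+* _root_.Fermat.Agent.A2.Mod.FE E N)) w f ↔ InW P E N V w (W f) := by
  have hWc : W (cE P E N w) = cE P E N w := W.commutes _
  unfold InW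
  rw [ValuationSubring.mem_comap]
  show W (f * (cE P E N w)⁻¹) ∈ V ↔ _
  rw [map_mul, map_inv₀, hWc]

end Comap

/-- **S2 on `C₀`.** -/
theorem normal_zero (hL7 : FrickeStableStatement P E M q w) (hL11 : ResInfStatement P E M q w)
    (hS : Setting P E M q w)
    (VM : ValuationSubring (_root_.Fermat.Agent.A2.Mod.FE E M)) (V : ValuationSubring (_root_.Fermat.Agent.A2.Mod.FE E (M * q)))
    (W : _root_.Fermat.Agent.A2.Mod.FE E (M * q) ≃ₐ[E] _root_.Fermat.Agent.A2.Mod.FE E (M * q))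
    (hVM : IsVinf P E M VM) (hV : IsVinf P E (M * q) V) (hW : IsFricke E (M * q) W)
    (yM : _root_.Fermat.Agent.A2.Mod.FE E M) (y : _root_.Fermat.Agent.A2.Mod.FE E (M * q)) (hy : IsCoordPair E M q yM y)
    (hgood : GoodRedAt P E M w VM yM)
    (p : Ideal (chartAlg P E (M * q) y))
    (hp : IsCut P E (M * q) w (V.comap (W : _root_.Fermat.Agent.A2.Mod.FE E (M * q) →+* _root_.Fermat.Agent.A2.Mod.FE E (M * q)))
      (chartAlg P E (M * q) y) p) :
    IsIntegrallyClosed (chartAlg P E (M * q) y ⧸ p) := by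
  have hN : M * q ≠ 0 := Nat.mul_ne_zero hS.M_ne_zero hS.q_prime.ne_zero
  haveI : NeZero (M * q) := ⟨hN⟩
  have hL2 := H553.vinfBasic P E w (M * q) hN hS.dvr hS.unif V hV
  have hL2M := H553.vinfBasic P E w M hS.M_ne_zero hS.dvr hS.unif VM hVM
  have hL13 := H873.chartCompat P E M q hS.q_prime
  have hU0 := isUnif_comap W hL2.1
  have hWM := H751.isFricke_frickeE E M
  have hL5 := H751.frickeCompat E M q (H751.frickeE E M) W hWM hW
  have hRV0 : ∀ r : _root_.Fermat.Agent.A2.Mod.RE P E, algebraMap (_root_.Fermat.Agent.A2.Mod.RE P E) (_root_.Fermat.Agent.A2.Mod.FE E (M * q)) r ∈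
      V.comap (W : _root_.Fermat.Agent.A2.Mod.FE E (M * q) →+* _root_.Fermat.Agent.A2.Mod.FE E (M * q)) := fun r => by
    rw [ValuationSubring.mem_comap]
    show W (algebraMap E (_root_.Fermat.Agent.A2.Mod.FE E (M * q)) (r : E)) ∈ V
    rw [W.commutes]
    exact (hL2.2.1 (r : E)).mpr r.2
  -- notation
  obtain ⟨j, hj⟩ : ∃ j : _root_.Fermat.Agent.A2.Mod.FE E (M * q), j = jE E (M * q) 1 (one_dvd _) := ⟨_, rfl⟩
  obtain ⟨jq, hjq⟩ : ∃ jq : _root_.Fermat.Agent.A2.Mod.FE E (M * q), jq = jE E (M * q) q (dvd_mul_left q M) := ⟨_, rfl⟩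
  obtain ⟨jM, hjM⟩ : ∃ jM : _root_.Fermat.Agent.A2.Mod.FE E (M * q), jM = jE E (M * q) M (dvd_mul_right M q) := ⟨_, rfl⟩
  obtain ⟨jN, hjN⟩ : ∃ jN : _root_.Fermat.Agent.A2.Mod.FE E (M * q), jN = jE E (M * q) (M * q) dvd_rfl := ⟨_, rfl⟩
  have hjMV : jM ∈ V ∧ jM⁻¹ ∈ V := hjM ▸ hL2.2.2 M (dvd_mul_right M q)
  have hjNV : jN ∈ V ∧ jN⁻¹ ∈ V := hjN ▸ hL2.2.2 (M * q) dvd_rfl
  have hx : xE E M q = j * jq := by rw [hj, hjq]; rfl
  have hWj : W j = jN := by
    rw [hj, hjN]
    exact hW.1 1 (M * q) (one_dvd _) dvd_rfl (one_mul _)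
  have hWjq : W jq = jM := by
    rw [hjq, hjM]
    exact hW.1 q M (dvd_mul_left q M) (dvd_mul_right M q) (mul_comm q M)
  have hWx : W (xE E M q) = jN * jM := by rw [hx, map_mul, hWj, hWjq]
  have hβj : βE E M q (jE E M 1 (one_dvd _)) = jq := by
    rw [hjq, H751.beta_jE E M q 1 (one_dvd M)]
    exact H751.jE_congr E (M * q) (mul_one q) _ _
  have hWβj : W (βE E M q (jE E M 1 (one_dvd _))) = jM := by rw [hβj, hWjq]
  have hfrob : InW P E (M * q) V w (jN - jM ^ q) := by
    have h := frobCong (P := P) (E := E) (w := w) hS.q_prime hS.dvr hS.unif hS.lies_over hN hV M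
      (dvd_mul_right M q) dvd_rfl
    rw [hjN, hjM]
    exact h
  have hjM0 : jM ≠ 0 := hjM ▸ H873.jE_ne_zero E (M * q) M (dvd_mul_right M q)
  have hjN0 : jN ≠ 0 := hjN ▸ H873.jE_ne_zero E (M * q) (M * q) dvd_rfl
  have hcinv : (jN * jM)⁻¹ - jM⁻¹ ^ (q + 1) = -(jN - jM ^ q) * (jM⁻¹ * jN⁻¹ * jM⁻¹ ^ q) := by
    have hb : jN * jN⁻¹ = 1 := mul_inv_cancel₀ hjN0
    have hpow : jM ^ q * jM⁻¹ ^ q = 1 := by rw [← mul_pow, mul_inv_cancel₀ hjM0, one_pow]
    have h1 : -(jN - jM ^ q) * (jM⁻¹ * jN⁻¹ * jM⁻¹ ^ q) =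
        (jM ^ q * jM⁻¹ ^ q) * (jM⁻¹ * jN⁻¹) - (jN * jN⁻¹) * jM⁻¹ ^ (q + 1) := by ring
    rw [h1, hpow, hb, mul_inv]
    ring
  -- `β` maps `V∞_M` into `V₀`
  have hβV : ∀ g ∈ VM, βE E M q g ∈ V.comap (W : _root_.Fermat.Agent.A2.Mod.FE E (M * q) →+* _root_.Fermat.Agent.A2.Mod.FE E (M * q)) := by
    intro g hg
    rw [ValuationSubring.mem_comap]
    show W (βE E M q g) ∈ V
    rw [(hL5 g).2]
    exact alpha_mem P E M q hVM hV (hL7 hS VM (H751.frickeE E M) hVM hWM g hg)
  -- residue degree one on `C₀`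
  have hres : ∀ f ∈ V.comap (W : _root_.Fermat.Agent.A2.Mod.FE E (M * q) →+* _root_.Fermat.Agent.A2.Mod.FE E (M * q)), ∃ g ∈ VM,
      InW P E (M * q) (V.comap (W : _root_.Fermat.Agent.A2.Mod.FE E (M * q) →+* _root_.Fermat.Agent.A2.Mod.FE E (M * q))) w (f - βE E M q g) := by
    intro f hf
    rw [ValuationSubring.mem_comap] at hf
    obtain ⟨g', hg', h⟩ := hL11 hS VM V hVM hV (W f) hf
    refine ⟨H751.frickeE E M g', hL7 hS VM (H751.frickeE E M) hVM hWM g' hg', ?_⟩
    rw [inW_comap_iff, map_sub, (hL5 _).2, hWM.2]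
    exact h
  rcases hy with ⟨rfl, rfl⟩ | ⟨rfl, rfl⟩
  · -- finite chart
    refine normal_side P E M q w hS VM hVM _ hU0 hRV0 (βE E M q) hβV hres _ _
      (hL2M.2.2 1 (one_dvd M)).1 ?_ ?_ ?_ hgood p hp
    · rw [ValuationSubring.mem_comap]
      show W (xE E M q) ∈ V
      rw [hWx]
      exact V.mul_mem _ _ hjNV.1 hjMV.1
    · rw [inW_comap_iff, map_sub, hWx, map_pow, map_pow, hWβj]
      have : jN * jM - jM ^ (q + 1) = (jN - jM ^ q) * jM := by ring
      rw [this]
      exact inW_mul_right hfrob hjMV.1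
    · rw [hβj, hjq]
      exact (mem_chart_iff P E (M * q) _ _).1 hL13.2.1
  · -- chart at infinity
    refine normal_side P E M q w hS VM hVM _ hU0 hRV0 (βE E M q) hβV hres _ _
      (hL2M.2.2 1 (one_dvd M)).2 ?_ ?_ ?_ hgood p hp
    · rw [ValuationSubring.mem_comap]
      show W (xE E M q)⁻¹ ∈ V
      rw [map_inv₀, hWx, mul_inv]
      exact V.mul_mem _ _ hjNV.2 hjMV.2
    · rw [inW_comap_iff, map_sub, map_inv₀, hWx, map_pow, map_pow, map_inv₀, map_inv₀, hWβj, hcinv]
      exact inW_mul_right (inW_neg hfrob)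
        (V.mul_mem _ _ (V.mul_mem _ _ hjMV.2 hjNV.2) (pow_mem hjMV.2 q))
    · rw [map_inv₀, hβj, hjq]
      exact (mem_chart_iff P E (M * q) _ _).1 hL13.2.2.2

/-- **MODASM sub-assembly S2** from the leaves L7 (`FrickeStable`) and L11 (`ResInf`);
the leaves L2, L4, L5, L13 are taken from main (H553, H751, H873). -/
theorem s2_of_leaves (hL7 : FrickeStableStatement P E M q w)
    (hL11 : ResInfStatement P E M q w) : S2Statement P E M q w := by
  intro hS VM V W hVM hV hW yM y hy hgood p₁ p₂ hc₁ hc₂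
  exact ⟨normal_inf P E M q w hL11 hS VM V hVM hV yM y hy hgood p₁ hc₁,
    normal_zero P E M q w hL7 hL11 hS VM V W hVM hV hW yM y hy hgood p₂ hc₂⟩

end Fermat.Agent.A2.Mod.H142

end
end
-- ===== PACK-END A2/Mod/H142/S2.lean

-- ===== PACK-BEGIN S35/G/H558/Surj.lean
section



/-!
# S35 / (G') leaf NODE-RAT, step (e) (helper558): `B = α(B_M) + p∞`

The chart `B = chartAlg y` of level `M q` (`y = x` or `x⁻¹`, `x = j · j_q`) is generated modulo
the component `p∞ = B ∩ w V∞` by the image under `α` of the level-`M` chart `B_M = chartAlg y_M`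
(`y_M = j` resp. `j⁻¹`):

* `exists_map_sub_of_normal` : abstract form (the proof of `A2.Mod.H142.normalIn_transfer`,
                               keeping the witness `γ b₀`);
* `surj_side`                : chart form (hypotheses of `A2.Mod.H142.normal_side`);
* `surj_inf`                 : `∀ b ∈ B, ∃ a ∈ B_M, b - α a ∈ w V∞`, from L11 (`ResInf`) and
                               good reduction at level `M`.
-/

set_option autoImplicit false
set_option synthInstance.maxHeartbeats 400000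
set_option maxHeartbeats 1600000
set_option linter.unusedSectionVars false
set_option linter.style.haveILetI false

noncomputable section

namespace Fermat.Agent.S35.G.H558

open ModularCurve HahnSeries Polynomial
open Fermat.Agent.A2.Mod

section Transfer

variable {R F₀ F : Type*} [CommRing R] [Field F₀] [Field F] [Algebra R F₀] [Algebra R F]

/-- The proof of `H142.normalIn_transfer`, keeping the witness: every element of `B` is
congruent modulo `𝔪_V` to `γ b₀` with `b₀ ∈ B₀`. -/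
theorem exists_map_sub_of_normal (γ : F₀ →+* F)
    (V₀ : ValuationSubring F₀) (V : ValuationSubring F)
    (hγV : ∀ g ∈ V₀, γ g ∈ V)
    (hγp : ∀ g : F₀, V₀.valuation g < 1 → V.valuation (γ g) < 1)
    (B₀ : Subalgebra R F₀) (B : Subalgebra R F)
    (hB₀ : ∀ b ∈ B₀, b ∈ V₀) (hB : ∀ b ∈ B, b ∈ V)
    (hγB : ∀ b ∈ B₀, γ b ∈ B)
    (hres : ∀ f ∈ V, ∃ g ∈ V₀, V.valuation (f - γ g) < 1)
    (hint : ∀ b : B, ((H142.resMap V B hB).comp (H142.mapSub γ B₀ B hγB)).IsIntegralElem
      (H142.resMap V B hB b))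
    (hnorm₀ : H142.NormalIn V₀ (B₀ : Set F₀)) {f : F} (hf : f ∈ B) :
    ∃ b₀ ∈ B₀, V.valuation (f - γ b₀) < 1 := by
  classical
  set ρ := H142.resMap V B hB with hρ
  set ρ₀ : B₀ →+* IsLocalRing.ResidueField V := ρ.comp (H142.mapSub γ B₀ B hγB) with hρ₀
  have h2 : ρ₀.IsIntegralElem (IsLocalRing.residue V ⟨f, hB f hf⟩) := hint ⟨f, hf⟩
  obtain ⟨g, hg, hfg⟩ := hres f (hB f hf)
  have hfg' : IsLocalRing.residue V ⟨f, hB f hf⟩ = IsLocalRing.residue V ⟨γ g, hγV g hg⟩ := by
    rw [H142.residue_eq_iff_val]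
    exact hfg
  rw [hfg'] at h2
  obtain ⟨m, d, hrel₀⟩ := H142.exists_fin_of_isIntegralElem _ h2
  have hmem₀ : g ^ m + ∑ i : Fin m, (d i : F₀) * g ^ (i : ℕ) ∈ V₀ :=
    V₀.add_mem _ _ (V₀.pow_mem hg m)
      (V₀.toSubring.sum_mem fun i _ => V₀.mul_mem _ _ (hB₀ _ (d i).2) (V₀.pow_mem hg _))
  have hval : V.valuation (γ (g ^ m + ∑ i : Fin m, (d i : F₀) * g ^ (i : ℕ))) < 1 := by
    have hv : (⟨γ g, hγV g hg⟩ ^ m + ∑ i : Fin m,
        (⟨γ (d i), hB _ (hγB _ (d i).2)⟩ : V) * ⟨γ g, hγV g hg⟩ ^ (i : ℕ) : V) =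
        (⟨γ (g ^ m + ∑ i : Fin m, (d i : F₀) * g ^ (i : ℕ)), hγV _ hmem₀⟩ : V) := by
      apply Subtype.ext
      push_cast
      simp only [map_add, map_pow, map_sum, map_mul]
    have h3 : IsLocalRing.residue V (⟨γ g, hγV g hg⟩ ^ m + ∑ i : Fin m,
        (⟨γ (d i), hB _ (hγB _ (d i).2)⟩ : V) * ⟨γ g, hγV g hg⟩ ^ (i : ℕ)) = 0 := by
      rw [map_add, map_pow, map_sum]
      simp only [map_mul, map_pow]
      exact hrel₀
    rw [hv, H142.residue_eq_zero_iff_val] at h3
    exact h3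
  obtain ⟨b₀, hb₀, hgb⟩ := hnorm₀ g hg ⟨m, fun i => (d i : F₀), fun i => (d i).2,
    H142.val_lt_one_of_map γ V₀ V hγV hmem₀ hval⟩
  refine ⟨b₀, hb₀, ?_⟩
  have hpres : V.valuation (γ (g - b₀)) < 1 := hγp _ hgb
  have : f - γ b₀ = (f - γ g) + γ (g - b₀) := by
    rw [map_sub]
    ring
  rw [this]
  exact lt_of_le_of_lt (Valuation.map_add _ _ _) (max_lt hfg hpres)

end Transfer

variable (P : ValuationSubring (AlgebraicClosure ℚ))
  (E : IntermediateField ℚ (AlgebraicClosure ℚ))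
variable (M q : ℕ) [NeZero M] [NeZero q] (w : RE P E)

/-- **One component is parametrised by level `M`** (hypotheses of `H142.normal_side`):
`chartAlg y = γ (chartAlg y_M) + (chartAlg y ∩ w V')`, together with `γ (chartAlg y_M) ⊆ chartAlg y`
and `chartAlg y_M ⊆ V_M`, `chartAlg y ⊆ V'`. -/
theorem surj_side (hS : Setting P E M q w)
    (VM : ValuationSubring (FE E M)) (hVM : IsVinf P E M VM)
    (V' : ValuationSubring (FE E (M * q))) (hU' : A2.H48.IsUnif V' (cE P E (M * q) w))
    (hRV' : ∀ r : RE P E, algebraMap (RE P E) (FE E (M * q)) r ∈ V')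
    (γ : FE E M →ₐ[E] FE E (M * q))
    (hγV : ∀ g ∈ VM, γ g ∈ V')
    (hres : ∀ f ∈ V', ∃ g ∈ VM, InW P E (M * q) V' w (f - γ g))
    (yM : FE E M) (y : FE E (M * q))
    (hyM : yM ∈ VM) (hy : y ∈ V')
    (hcong : InW P E (M * q) V' w (y - γ (yM ^ (q + 1))))
    (hγy : γ yM ∈ chartAlg P E (M * q) y)
    (hgood : GoodRedAt P E M w VM yM) :
    (∀ b ∈ chartAlg P E M yM, b ∈ VM) ∧
    (∀ b ∈ chartAlg P E (M * q) y, b ∈ V') ∧
    (∀ b ∈ chartAlg P E M yM, γ b ∈ chartAlg P E (M * q) y) ∧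
    ∀ b ∈ chartAlg P E (M * q) y, ∃ a ∈ chartAlg P E M yM, InW P E (M * q) V' w (b - γ a) := by
  have hdvr := hS.dvr
  have hL2M := H553.vinfBasic P E w M hS.M_ne_zero hdvr hS.unif VM hVM
  have hUM : A2.H48.IsUnif VM (cE P E M w) := hL2M.1
  have hRVM : ∀ r : RE P E, algebraMap (RE P E) (FE E M) r ∈ VM := fun r =>
    (hL2M.2.1 (r : E)).mpr r.2
  have hγR : ∀ r : RE P E, (γ : FE E M →+* FE E (M * q)) (algebraMap (RE P E) (FE E M) r) =
      algebraMap (RE P E) (FE E (M * q)) r := fun r => γ.commutes (r : E)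
  have hγc : γ (cE P E M w) = cE P E (M * q) w := γ.commutes (w : E)
  have hB₀ : ∀ b ∈ chartAlg P E M yM, b ∈ VM := fun b hb =>
    H142.mem_valuationSubring_of_isIntegral_adjoin VM hRVM hyM ((mem_chartAlg P E M).1 hb)
  have hB : ∀ b ∈ chartAlg P E (M * q) y, b ∈ V' := fun b hb =>
    H142.mem_valuationSubring_of_isIntegral_adjoin V' hRV' hy ((mem_chartAlg P E (M * q)).1 hb)
  have hγB : ∀ b ∈ chartAlg P E M yM, (γ : FE E M →+* FE E (M * q)) b ∈ chartAlg P E (M * q) y :=
    fun b hb => (mem_chartAlg P E (M * q)).2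
      (H142.isIntegral_adjoin_map (γ : FE E M →+* FE E (M * q)) hγR
        ((mem_chartAlg P E (M * q)).1 hγy) ((mem_chartAlg P E M).1 hb))
  have hγp : ∀ g : FE E M, VM.valuation g < 1 →
      V'.valuation ((γ : FE E M →+* FE E (M * q)) g) < 1 := by
    intro g hg
    rw [← H142.inW_iff hUM] at hg
    rw [← H142.inW_iff hU']
    unfold InW at hg ⊢
    have h1 := hγV _ hg
    rw [map_mul, map_inv₀, hγc] at h1
    exact h1
  have hres' : ∀ f ∈ V', ∃ g ∈ VM,
      V'.valuation (f - (γ : FE E M →+* FE E (M * q)) g) < 1 := by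
    intro f hf
    obtain ⟨g, hg, hfg⟩ := hres f hf
    exact ⟨g, hg, (H142.inW_iff hU' _).1 hfg⟩
  have hnorm₀ : H142.NormalIn VM
      ((chartAlg P E M yM : Subalgebra (RE P E) (FE E M)) : Set (FE E M)) := by
    intro f hf ⟨n, c, hc, hrel⟩
    obtain ⟨b, hb, hfb⟩ := hgood.normal f hf
      ⟨n, c, fun i => (H142.mem_chart_iff P E M yM (c i)).2 (hc i), (H142.inW_iff hUM _).2 hrel⟩
    exact ⟨b, (H142.mem_chart_iff P E M yM b).1 hb, (H142.inW_iff hUM _).1 hfb⟩
  have hint := H142.isIntegralElem_of_coord (γ : FE E M →+* FE E (M * q)) hγR V'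
    (chartAlg P E M yM) (chartAlg P E (M * q) y) hB hγB y (H142.self_mem_chartAlg P E (M * q) y)
    (yM ^ (q + 1)) (pow_mem (H142.self_mem_chartAlg P E M yM) _) ((H142.inW_iff hU' _).1 hcong)
    (fun b hb => (mem_chartAlg P E (M * q)).1 hb)
  refine ⟨hB₀, hB, hγB, fun b hb => ?_⟩
  obtain ⟨a, ha, hba⟩ := exists_map_sub_of_normal (γ : FE E M →+* FE E (M * q)) VM V' hγV hγp
    (chartAlg P E M yM) (chartAlg P E (M * q) y) hB₀ hB hγB hres' hint hnorm₀ hb
  exact ⟨a, ha, (H142.inW_iff hU' _).2 hba⟩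

/-- **Step (e) of NODE-RAT**: `B = α(B_M) + p∞` on both charts; also `B_M ⊆ V∞_M`, `B ⊆ V∞`,
`α(B_M) ⊆ B`. -/
theorem surj_inf (hS : Setting P E M q w)
    (VM : ValuationSubring (FE E M)) (V : ValuationSubring (FE E (M * q)))
    (hVM : IsVinf P E M VM) (hV : IsVinf P E (M * q) V)
    (yM : FE E M) (y : FE E (M * q)) (hy : IsCoordPair E M q yM y)
    (hgood : GoodRedAt P E M w VM yM) :
    (∀ b ∈ chartAlg P E M yM, b ∈ VM) ∧
    (∀ b ∈ chartAlg P E (M * q) y, b ∈ V) ∧
    (∀ b ∈ chartAlg P E M yM, αE E M q b ∈ chartAlg P E (M * q) y) ∧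
    ∀ b ∈ chartAlg P E (M * q) y, ∃ a ∈ chartAlg P E M yM,
      InW P E (M * q) V w (b - αE E M q a) := by
  have hL11 := H378.resInf P E M q w
  have hN : M * q ≠ 0 := Nat.mul_ne_zero hS.M_ne_zero hS.q_prime.ne_zero
  haveI : NeZero (M * q) := ⟨hN⟩
  haveI : NeZero (1 * q) := ⟨by rw [one_mul]; exact hS.q_prime.ne_zero⟩
  have hL2 := H553.vinfBasic P E w (M * q) hN hS.dvr hS.unif V hV
  have hL2M := H553.vinfBasic P E w M hS.M_ne_zero hS.dvr hS.unif VM hVM
  have hL13 := H873.chartCompat P E M q hS.q_prime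
  have hRV : ∀ r : RE P E, algebraMap (RE P E) (FE E (M * q)) r ∈ V := fun r =>
    (hL2.2.1 (r : E)).mpr r.2
  obtain ⟨j, hj⟩ : ∃ j : FE E (M * q), j = jE E (M * q) 1 (one_dvd _) := ⟨_, rfl⟩
  obtain ⟨jq, hjq⟩ : ∃ jq : FE E (M * q), jq = jE E (M * q) q (dvd_mul_left q M) := ⟨_, rfl⟩
  have hjV : j ∈ V ∧ j⁻¹ ∈ V := hj ▸ hL2.2.2 1 (one_dvd _)
  have hjqV : jq ∈ V ∧ jq⁻¹ ∈ V := hjq ▸ hL2.2.2 q (dvd_mul_left q M)
  have hx : xE E M q = j * jq := by rw [hj, hjq]; rfl
  have hαj : αE E M q (jE E M 1 (one_dvd _)) = j := by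
    rw [hj]
    exact H751.alpha_jE E M q 1 (one_dvd M)
  have hfrob : InW P E (M * q) V w (jq - j ^ q) := by
    have h := H142.frobCong (P := P) (E := E) (w := w) hS.q_prime hS.dvr hS.unif hS.lies_over
      hN hV 1 (one_dvd _) (by rw [one_mul]; exact dvd_mul_left q M)
    rw [hj, hjq]
    have h1 : jE E (M * q) (1 * q) (by rw [one_mul]; exact dvd_mul_left q M) =
        jE E (M * q) q (dvd_mul_left q M) := H751.jE_congr E (M * q) (one_mul q) _ _
    rwa [h1] at h
  have hj0 : j ≠ 0 := hj ▸ H873.jE_ne_zero E (M * q) 1 (one_dvd _)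
  have hjq0 : jq ≠ 0 := hjq ▸ H873.jE_ne_zero E (M * q) q (dvd_mul_left q M)
  have hcinv : (j * jq)⁻¹ - j⁻¹ ^ (q + 1) = -(jq - j ^ q) * (j⁻¹ * jq⁻¹ * j⁻¹ ^ q) := by
    have hjqb : jq * jq⁻¹ = 1 := mul_inv_cancel₀ hjq0
    have hpow : j ^ q * j⁻¹ ^ q = 1 := by rw [← mul_pow, mul_inv_cancel₀ hj0, one_pow]
    have h1 : -(jq - j ^ q) * (j⁻¹ * jq⁻¹ * j⁻¹ ^ q) =
        (j ^ q * j⁻¹ ^ q) * (j⁻¹ * jq⁻¹) - (jq * jq⁻¹) * j⁻¹ ^ (q + 1) := by ring
    rw [h1, hpow, hjqb, mul_inv]
    ring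
  rcases hy with ⟨rfl, rfl⟩ | ⟨rfl, rfl⟩
  · -- finite chart
    refine surj_side P E M q w hS VM hVM V hL2.1 hRV (αE E M q)
      (fun g hg => H142.alpha_mem P E M q hVM hV hg) (hL11 hS VM V hVM hV) _ _
      (hL2M.2.2 1 (one_dvd M)).1 ?_ ?_ ?_ hgood
    · rw [hx]
      exact V.mul_mem _ _ hjV.1 hjqV.1
    · rw [map_pow, hαj, hx]
      have : j * jq - j ^ (q + 1) = (jq - j ^ q) * j := by ring
      rw [this]
      exact H142.inW_mul_right hfrob hjV.1
    · rw [hαj, hj]
      exact (H142.mem_chart_iff P E (M * q) _ _).1 hL13.1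
  · -- chart at infinity
    refine surj_side P E M q w hS VM hVM V hL2.1 hRV (αE E M q)
      (fun g hg => H142.alpha_mem P E M q hVM hV hg) (hL11 hS VM V hVM hV) _ _
      (hL2M.2.2 1 (one_dvd M)).2 ?_ ?_ ?_ hgood
    · rw [hx, mul_inv]
      exact V.mul_mem _ _ hjV.2 hjqV.2
    · rw [map_pow, map_inv₀, hαj, hx]
      rw [hcinv]
      exact H142.inW_mul_right (H142.inW_neg hfrob)
        (V.mul_mem _ _ (V.mul_mem _ _ hjV.2 hjqV.2) (pow_mem hjV.2 q))
    · rw [map_inv₀, hαj, hj]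
      exact (H142.mem_chart_iff P E (M * q) _ _).1 hL13.2.2.1

end Fermat.Agent.S35.G.H558

end

end
-- ===== PACK-END S35/G/H558/Surj.lean

-- ===== PACK-BEGIN A2/Mod/H900/L7.lean
section



/-!
# A2 / MOD leaf L7 (helper900): `FrickeStableStatement`, verbatim

At a level `M` prime to `q` the Fricke involution `W` of `F_{M,E}` preserves the Gauss valuation
ring `V∞` (no discreteness of `R_E` is used; only `P ∣ q`, `q ∤ M`, `V∞` = Gauss-integral
elements, `W j_d = j_{M/d}`).

Proof (`L7Core.lean`): by `S28.CoreData M k` every `f ∈ F_{M,E}` is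
`c · (∑ᵢ Hᵢ(j) yᵢ) / G(j)` with `G, Hᵢ ∈ R[X]` primitive and `yᵢ ∈ ℤ[j_d]`, and `f ∈ V∞ ↔ c ∈ R`
(independence of the residues `ȳᵢ` over `k(j̄)`); then
`W f = c · (∑ᵢ Hᵢ(j_M) W yᵢ) / G(j_M)` with `G(j_M)` an integral series of nonzero reduction.
-/

set_option autoImplicit false
set_option synthInstance.maxHeartbeats 400000
set_option maxHeartbeats 1600000

noncomputable section

namespace Fermat.Agent.A2.Mod.H900

open ModularCurve HahnSeries Polynomial IntermediateField Fermat.Agent.S28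

/-- `R_E = P ∩ E` lies over `q` when `P` does. -/
theorem liesOverPrime_RE {P : ValuationSubring _root_.Fermat.Agent.A2.Mod.Qb} (E : IntermediateField ℚ _root_.Fermat.Agent.A2.Mod.Qb) {q : ℕ}
    (hP : P.LiesOverPrime q) : (_root_.Fermat.Agent.A2.Mod.RE P E).LiesOverPrime q := by
  have h1 : (q : _root_.Fermat.Agent.A2.Mod.Qb) ∈ P.nonunits := hP
  show (q : E) ∈ (_root_.Fermat.Agent.A2.Mod.RE P E).nonunits
  rw [ValuationSubring.mem_nonunits_iff_or] at h1 ⊢
  rcases h1 with h1 | h1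
  · left
    have : algebraMap E _root_.Fermat.Agent.A2.Mod.Qb (q : E) = 0 := by rw [map_natCast]; exact h1
    exact (map_eq_zero _).mp this
  · right
    intro h2
    apply h1
    have h3 : algebraMap E _root_.Fermat.Agent.A2.Mod.Qb ((q : E)⁻¹) ∈ P := h2
    rwa [map_inv₀, map_natCast] at h3

/-- S28 core data for the residue field of `R_E`, `q ∤ M`. -/
theorem coreData_RE {P : ValuationSubring _root_.Fermat.Agent.A2.Mod.Qb} (E : IntermediateField ℚ _root_.Fermat.Agent.A2.Mod.Qb) (M : ℕ) [NeZero M]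
    {q : ℕ} (hq : q.Prime) (hqM : ¬ q ∣ M) (hP : P.LiesOverPrime q) :
    CoreData M (IsLocalRing.ResidueField (_root_.Fermat.Agent.A2.Mod.RE P E)) := by
  haveI : Fact q.Prime := ⟨hq⟩
  haveI := S18.H516.charP_residue (_root_.Fermat.Agent.A2.Mod.RE P E) (liesOverPrime_RE E hP)
  exact S18.H516.coreData_of_charP M q hqM _

/-- **Leaf L7 (FrickeStable), verbatim.** -/
theorem frickeStable (P : ValuationSubring _root_.Fermat.Agent.A2.Mod.Qb) (E : IntermediateField ℚ _root_.Fermat.Agent.A2.Mod.Qb) (M q : ℕ)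
    [NeZero M] [NeZero q] (w : _root_.Fermat.Agent.A2.Mod.RE P E) : FrickeStableStatement P E M q w := by
  intro hS V W hV hW f hf
  have core := coreData_RE E M hS.q_prime hS.q_not_dvd hS.lies_over
  have hW' : FrickeOnGens M W := fun d d' _ _ hd hd' h => hW.1 d d' hd hd' h
  exact (hV (W f)).mpr (frickeStable_core (_root_.Fermat.Agent.A2.Mod.RE P E) core hW' f ((hV f).mp hf))

end Fermat.Agent.A2.Mod.H900

end
end
-- ===== PACK-END A2/Mod/H900/L7.lean

-- ===== PACK-BEGIN S35/G/H558/NodeRat.lean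
section





/-!
# S35 / (G') leaf NODE-RAT (helper558)

`nodeRat : KronFrobStatement A E M q w → StableStatement A E → NodeRatStatement A E M q w`
(all three statements VERBATIM from helper450's `S35/G/SpecLevel.lean`).

*The crossing points of the two components of the special fibre of `X₀(M q)` are fixed by the
square of a Frobenius lift* (the supersingular points are `𝔽_{q²}`-rational).

Proof (`σ` = action of the Frobenius lift `s` on coefficients, `ψ = σ²`, `B = chartAlg y`,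
`B_M = chartAlg y_M`, `n ⊇ p∞ + p₀` a crossing point):

* (e)  `B = α(B_M) + p∞`                       (`surj_inf`: L11 + good reduction at level `M`);
* (K1) `β(σ a) ≡ (α a)^q  mod p∞`              (KRON-FROB, hypothesis);
* (K2) `α(σ a) ≡ (β a)^q  mod p₀`              (K1 + Fricke: L5, L7, STABLE);
* `b ≡ α a mod p∞`  ⟹  `ψ b ≡ α(σ² a) mod p∞` (STABLE; `α` commutes with `σ`);
* `α(σ² a) ≡ (β(σ a))^q ≡ (α a)^(q²) ≡ b^(q²)  mod n`, so `ψ b ≡ b^(q²) mod n`.

The leaves L2 (H553), L4/L5 (H751), L7 (H900), L11 (H378), L13 (H873) are taken from main.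
-/

set_option autoImplicit false
set_option synthInstance.maxHeartbeats 400000
set_option maxHeartbeats 1600000
set_option linter.unusedSectionVars false
set_option linter.style.haveILetI false

noncomputable section

namespace Fermat.Agent.S35.G.H558

open ModularCurve HahnSeries Polynomial
open Fermat.Agent.A2.Mod
open scoped Pointwise

/-! ### Generalities on the coefficient action -/

section Act

variable (E : IntermediateField ℚ (AlgebraicClosure ℚ)) (N : ℕ)

theorem actE_mul_apply (t₁ t₂ : E ≃ₐ[ℚ] E) (f : FE E N) :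
    actE E N (t₁ * t₂) f = actE E N t₁ (actE E N t₂ f) := by
  apply Subtype.ext
  show coeffMap ((t₁ * t₂ : E ≃ₐ[ℚ] E) : E →+* E) (f : LaurentSeries E)
      = coeffMap (t₁ : E →+* E) (coeffMap (t₂ : E →+* E) (f : LaurentSeries E))
  rw [coeffMap_coeffMap]
  exact coeffMap_congr (RingHom.ext fun _ => rfl) _

theorem actE_cancel (t₁ t₂ : E ≃ₐ[ℚ] E) (h : ∀ e : E, t₁ (t₂ e) = e) (f : FE E N) :
    actE E N t₁ (actE E N t₂ f) = f := by
  apply Subtype.ext
  show coeffMap (t₁ : E →+* E) (coeffMap (t₂ : E →+* E) (f : LaurentSeries E))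
      = (f : LaurentSeries E)
  rw [coeffMap_coeffMap,
    coeffMap_congr (g := RingHom.id E) (RingHom.ext fun a => h a) (f : LaurentSeries E),
    coeffMap_id]

theorem actE_jE (d : ℕ) [NeZero d] (hd : d ∣ N) (t : E ≃ₐ[ℚ] E) :
    actE E N t (jE E N d hd) = jE E N d hd :=
  Subtype.ext (coeffMap_coeffEmb t _)

theorem alpha_actE (M q : ℕ) [NeZero M] [NeZero q] (t : E ≃ₐ[ℚ] E) (a : FE E M) :
    αE E M q (actE E M t a) = actE E (M * q) t (αE E M q a) := by
  apply Subtype.ext
  rw [coe_heckeAlphaBar, coe_arithmeticRingAut_apply, coe_arithmeticRingAut_apply,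
    coe_heckeAlphaBar]

end Act

/-- A ring endomorphism `σ` of `F`, semilinear over `ρ : R →+* R` and fixing `y`, preserves the
integral closure of `R[y]`. -/
theorem isIntegral_adjoin_semilinear {R F : Type*} [CommRing R] [Field F] [Algebra R F]
    (σ : F →+* F) (ρ : R →+* R)
    (hσ : ∀ r : R, σ (algebraMap R F r) = algebraMap R F (ρ r)) {y : F} (hy : σ y = y) {b : F}
    (hb : IsIntegral (Algebra.adjoin R ({y} : Set F)) b) :
    IsIntegral (Algebra.adjoin R ({y} : Set F)) (σ b) := by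
  have hle : ∀ a ∈ Algebra.adjoin R ({y} : Set F), σ a ∈ Algebra.adjoin R ({y} : Set F) := by
    intro a ha
    induction ha using Algebra.adjoin_induction with
    | mem z hz =>
        rw [Set.mem_singleton_iff] at hz
        rw [hz, hy]
        exact Algebra.subset_adjoin (Set.mem_singleton y)
    | algebraMap r =>
        rw [hσ]
        exact Subalgebra.algebraMap_mem _ _
    | add a c _ _ ha hc =>
        rw [map_add]
        exact add_mem ha hc
    | mul a c _ _ ha hc =>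
        rw [map_mul]
        exact mul_mem ha hc
  let φ : ↥(Algebra.adjoin R ({y} : Set F)) →+* ↥(Algebra.adjoin R ({y} : Set F)) :=
    { toFun := fun a => ⟨σ (a : F), hle a a.2⟩
      map_one' := Subtype.ext (map_one σ)
      map_mul' := fun a c => Subtype.ext (map_mul σ (a : F) (c : F))
      map_zero' := Subtype.ext (map_zero σ)
      map_add' := fun a c => Subtype.ext (map_add σ (a : F) (c : F)) }
  exact IsIntegral.map_of_comp_eq φ σ (RingHom.ext fun _ => rfl) hb

/-! ### The decomposition group acts on the level structures -/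

section Decomp

variable (A : ValuationSubring (AlgebraicClosure ℚ))
  (E : IntermediateField ℚ (AlgebraicClosure ℚ))

/-- `E` is stable under `s⁻¹` as well. -/
theorem stableUnder_inv {s : AlgebraicClosure ℚ ≃ₐ[ℚ] AlgebraicClosure ℚ}
    (hs : StableUnder E s) : StableUnder E s⁻¹ :=
  fun e he => ⟨(hs e he).2, (hs e he).1⟩

/-- The restriction to `E` of an element of the decomposition group preserves `R_E`. -/
theorem resE_mem_RE_of_decomp {s : AlgebraicClosure ℚ ≃ₐ[ℚ] AlgebraicClosure ℚ}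
    (hs : StableUnder E s) (hsD : s ∈ A.decompositionSubgroup ℚ) :
    ∀ r : E, r ∈ RE A E → resE E s hs r ∈ RE A E := by
  intro r hr
  rw [ValuationSubring.mem_comap] at hr ⊢
  have h : s • A = A := MulAction.mem_stabilizer_iff.mp hsD
  have h1 : s • (algebraMap E (AlgebraicClosure ℚ) r) ∈ s • A :=
    ValuationSubring.smul_mem_pointwise_smul s _ A hr
  rw [h] at h1
  exact h1

/-- The restriction of `s ∈ D_A` to `R_E`, as a ring endomorphism. -/
def resRE {s : AlgebraicClosure ℚ ≃ₐ[ℚ] AlgebraicClosure ℚ}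
    (hs : StableUnder E s) (hsD : s ∈ A.decompositionSubgroup ℚ) : RE A E →+* RE A E where
  toFun r := ⟨resE E s hs (r : E), resE_mem_RE_of_decomp A E hs hsD r r.2⟩
  map_one' := Subtype.ext (map_one (resE E s hs))
  map_mul' a b := Subtype.ext (map_mul (resE E s hs) (a : E) (b : E))
  map_zero' := Subtype.ext (map_zero (resE E s hs))
  map_add' a b := Subtype.ext (map_add (resE E s hs) (a : E) (b : E))

/-- The chart of a coordinate fixed by `σ` is `σ`-stable. -/
theorem chartAlg_actE (N : ℕ) {s : AlgebraicClosure ℚ ≃ₐ[ℚ] AlgebraicClosure ℚ}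
    (hs : StableUnder E s) (hsD : s ∈ A.decompositionSubgroup ℚ) (y : FE E N)
    (hy : actE E N (resE E s hs) y = y) {b : FE E N} (hb : b ∈ chartAlg A E N y) :
    actE E N (resE E s hs) b ∈ chartAlg A E N y := by
  rw [mem_chartAlg] at hb ⊢
  exact isIntegral_adjoin_semilinear
    ((actE E N (resE E s hs) : FE E N ≃+* FE E N) : FE E N →+* FE E N) (resRE A E hs hsD)
    (fun r => arithmeticRingAut_algebraMap (modularFunctionFieldFull N) (resE E s hs) (r : E))
    hy hb

variable (w : RE A E)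

/-- `σ (w V) ⊆ w V` for `σ` in the decomposition group (from STABLE for `s` and `s⁻¹`). -/
theorem inW_actE (hSt : StableStatement A E) (N : ℕ) (hN : N ≠ 0)
    (hdvr : IsDiscreteValuationRing (RE A E)) (hw : Irreducible w)
    (V : ValuationSubring (FE E N)) (W : FE E N ≃ₐ[E] FE E N)
    (hV : IsVinf A E N V) (hW : IsFricke E N W)
    {s : AlgebraicClosure ℚ ≃ₐ[ℚ] AlgebraicClosure ℚ}
    (hs : StableUnder E s) (hsD : s ∈ A.decompositionSubgroup ℚ)
    {f : FE E N} (hf : InW A E N V w f) :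
    InW A E N V w (actE E N (resE E s hs) f) := by
  have hU : A2.H48.IsUnif V (cE A E N w) := (H553.vinfBasic A E w N hN hdvr hw V hV).1
  rw [H142.inW_iff hU] at hf ⊢
  have hσV := (hSt N hN hdvr V W hV hW s hs hsD).2
  have hσV' := (hSt N hN hdvr V W hV hW s⁻¹ (stableUnder_inv E hs) (inv_mem hsD)).2
  have hcancel : ∀ g : FE E N,
      actE E N (resE E s⁻¹ (stableUnder_inv E hs)) (actE E N (resE E s hs) g) = g :=
    fun g => actE_cancel E N _ _ (fun e => Subtype.ext (s.symm_apply_apply (e : _))) g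
  have hfV : f ∈ V := (V.valuation_le_one_iff f).1 hf.le
  have hσf : actE E N (resE E s hs) f ∈ V := hσV f hfV
  by_contra hcon
  rw [not_lt] at hcon
  have hone : V.valuation (actE E N (resE E s hs) f) = 1 :=
    le_antisymm ((V.valuation_le_one_iff _).2 hσf) hcon
  have hinv : (actE E N (resE E s hs) f)⁻¹ ∈ V := by
    rw [← V.valuation_le_one_iff, map_inv₀, hone, inv_one]
  have h2 := hσV' _ hinv
  rw [map_inv₀, hcancel] at h2
  have h3 : V.valuation f⁻¹ ≤ 1 := (V.valuation_le_one_iff _).2 h2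
  have hf0 : f ≠ 0 := by
    rintro rfl
    rw [map_zero, map_zero] at hone
    exact zero_ne_one hone
  have hne : V.valuation f ≠ 0 := (Valuation.ne_zero_iff _).2 hf0
  rw [map_inv₀, inv_le_one₀ (zero_lt_iff.2 hne)] at h3
  exact absurd hf (not_lt.2 h3)

end Decomp

/-! ### NODE-RAT -/

section Main

variable (A : ValuationSubring (AlgebraicClosure ℚ))
  (E : IntermediateField ℚ (AlgebraicClosure ℚ)) (M q : ℕ) [NeZero M] [NeZero q] (w : RE A E)

/-- `β` maps the level-`M` chart into the level-`M q` chart. -/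
theorem beta_mem_chartAlg (hS : Setting A E M q w) (yM : FE E M) (y : FE E (M * q))
    (hy : IsCoordPair E M q yM y) {g : FE E M} (hg : g ∈ chartAlg A E M yM) :
    βE E M q g ∈ chartAlg A E (M * q) y := by
  have hL13 := H873.chartCompat A E M q hS.q_prime
  have hβR : ∀ r : RE A E, (βE E M q : FE E M →+* FE E (M * q)) (algebraMap (RE A E) (FE E M) r) =
      algebraMap (RE A E) (FE E (M * q)) r := fun r => (βE E M q).commutes (r : E)
  haveI : NeZero (q * 1) := ⟨by rw [mul_one]; exact hS.q_prime.ne_zero⟩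
  have hβj : βE E M q (jE E M 1 (one_dvd _)) = jE E (M * q) q (dvd_mul_left q M) := by
    rw [H751.beta_jE E M q 1 (one_dvd M)]
    exact H751.jE_congr E (M * q) (mul_one q) _ _
  have hβy : βE E M q yM ∈ chartAlg A E (M * q) y := by
    rcases hy with ⟨rfl, rfl⟩ | ⟨rfl, rfl⟩
    · rw [hβj]
      exact (H142.mem_chart_iff A E (M * q) _ _).1 hL13.2.1
    · rw [map_inv₀, hβj]
      exact (H142.mem_chart_iff A E (M * q) _ _).1 hL13.2.2.2
  exact (mem_chartAlg A E (M * q)).2
    (H142.isIntegral_adjoin_map (βE E M q : FE E M →+* FE E (M * q)) hβR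
      ((mem_chartAlg A E (M * q)).1 hβy) ((mem_chartAlg A E M).1 hg))

/-- **NODE-RAT** from KRON-FROB and STABLE. -/
theorem nodeRat (hK : KronFrobStatement A E M q w) (hSt : StableStatement A E) :
    NodeRatStatement A E M q w := by
  intro hS _ VM V W hVM hV hW yM y hy hgoodM c hcut₁ hcut₂ s hs hFrob n _ hp₁ hp₂ b hbn b' hb'
  have hN : M * q ≠ 0 := Nat.mul_ne_zero hS.M_ne_zero hS.q_prime.ne_zero
  haveI : NeZero (M * q) := ⟨hN⟩
  have hsD : s ∈ A.decompositionSubgroup ℚ := hFrob.mem_decompositionSubgroup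
  have hWM := H751.isFricke_frickeE E M
  obtain ⟨hcommM, -⟩ :=
    hSt M hS.M_ne_zero hS.dvr VM (H751.frickeE E M) hVM hWM s hs hsD
  -- step (e): `b ≡ α a mod p∞`
  obtain ⟨hBM, -, hαB, hsurj⟩ := surj_inf A E M q w hS VM V hVM hV yM y hy hgoodM
  obtain ⟨a, ha, hba⟩ := hsurj (b : FE E (M * q)) b.2
  -- the level-`M` chart is `σ`-stable
  have hσy : actE E M (resE E s hs) yM = yM := by
    rcases hy with ⟨rfl, -⟩ | ⟨rfl, -⟩
    · exact actE_jE E M 1 (one_dvd _) _
    · rw [map_inv₀, actE_jE]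
  obtain ⟨a₁, ha₁⟩ : ∃ a₁ : FE E M, a₁ = actE E M (resE E s hs) a := ⟨_, rfl⟩
  obtain ⟨a₂, ha₂⟩ : ∃ a₂ : FE E M, a₂ = actE E M (resE E s hs) a₁ := ⟨_, rfl⟩
  have ha₁B : a₁ ∈ chartAlg A E M yM := ha₁ ▸ chartAlg_actE A E M hs hsD yM hσy ha
  have ha₂B : a₂ ∈ chartAlg A E M yM := ha₂ ▸ chartAlg_actE A E M hs hsD yM hσy ha₁B
  -- (K1) at `a`
  have e1 : InW A E (M * q) V w (βE E M q a₁ - (αE E M q a) ^ q) := by
    rw [ha₁]
    exact hK hS VM V hVM hV s hs hFrob a (hBM a ha)
  -- (K2) at `a₁`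
  have e2 : InW A E (M * q) (V.comap (W : FE E (M * q) →+* FE E (M * q))) w
      (αE E M q a₂ - (βE E M q a₁) ^ q) := by
    rw [H142.inW_comap_iff]
    have hL5 := H751.frickeCompat E M q (H751.frickeE E M) W hWM hW
    have hL7 := H900.frickeStable A E M q w hS VM (H751.frickeE E M) hVM hWM
    have h1 := hK hS VM V hVM hV s hs hFrob (H751.frickeE E M a₁) (hL7 a₁ (hBM a₁ ha₁B))
    rw [map_sub, map_pow, (hL5 a₂).1, (hL5 a₁).2, ha₂, ← hcommM a₁]
    exact h1
  -- `ψ b ≡ α (σ² a) mod p∞`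
  have e3 : InW A E (M * q) V w ((b' : FE E (M * q)) - αE E M q a₂) := by
    have h1 := inW_actE A E w hSt (M * q) hN hS.dvr hS.unif V W hV hW hs hsD
      (inW_actE A E w hSt (M * q) hN hS.dvr hS.unif V W hV hW hs hsD hba)
    rw [map_sub, map_sub, ← alpha_actE, ← alpha_actE, ← ha₁, ← ha₂, ← _root_.Fermat.Agent.S35.G.H558.actE_mul_apply] at h1
    rw [hb']
    exact h1
  -- the computation in `B / n`
  have hαa : αE E M q a ∈ chartAlg A E (M * q) y := hαB a ha
  have hβa₁ : βE E M q a₁ ∈ chartAlg A E (M * q) y :=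
    beta_mem_chartAlg A E M q w hS yM y hy ha₁B
  have hαa₂ : αE E M q a₂ ∈ chartAlg A E (M * q) y := hαB a₂ ha₂B
  obtain ⟨ua, hua⟩ : ∃ u : chartAlg A E (M * q) y, (u : FE E (M * q)) = αE E M q a :=
    ⟨⟨_, hαa⟩, rfl⟩
  obtain ⟨ub, hub⟩ : ∃ u : chartAlg A E (M * q) y, (u : FE E (M * q)) = βE E M q a₁ :=
    ⟨⟨_, hβa₁⟩, rfl⟩
  obtain ⟨uc, huc⟩ : ∃ u : chartAlg A E (M * q) y, (u : FE E (M * q)) = αE E M q a₂ :=
    ⟨⟨_, hαa₂⟩, rfl⟩
  have m1 : b - ua ∈ n := hp₁ ((hcut₁ _).2 (by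
    rw [← hua] at hba
    exact hba))
  have m2 : ub - ua ^ q ∈ n := hp₁ ((hcut₁ _).2 (by
    rw [← hua, ← hub] at e1
    exact e1))
  have m3 : uc - ub ^ q ∈ n := hp₂ ((hcut₂ _).2 (by
    rw [← huc, ← hub] at e2
    exact e2))
  have m4 : b' - uc ∈ n := hp₁ ((hcut₁ _).2 (by
    rw [← huc] at e3
    exact e3))
  have m5 : ub ^ q - (ua ^ q) ^ q ∈ n := Fermat.Agent.S35.H558.pow_sub_pow_mem_fix m2 q
  have m6 : (b ^ q) ^ q - (ua ^ q) ^ q ∈ n := by
    rw [← pow_mul, ← pow_mul]
    exact Fermat.Agent.S35.H558.pow_sub_pow_mem_fix m1 (q * q)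
  have m7 : (b ^ q) ^ q ∈ n :=
    n.pow_mem_of_mem (n.pow_mem_of_mem hbn q hS.q_prime.pos) q hS.q_prime.pos
  have key : b' = (b' - uc) + (uc - ub ^ q) + (ub ^ q - (ua ^ q) ^ q)
      - ((b ^ q) ^ q - (ua ^ q) ^ q) + (b ^ q) ^ q := by ring
  rw [key]
  exact n.add_mem (n.sub_mem (n.add_mem (n.add_mem m4 m3) m5) m6) m7

end Main

end Fermat.Agent.S35.G.H558

end

end
-- ===== PACK-END S35/G/H558/NodeRat.lean

-- ===== PACK-BEGIN A2/Mod/H372/S3Base.lean
section







/-!
# A2 / MODASM S3, concrete base (helper372)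

Mod/Spec language (`FE E N`, `IsVinf`, `InW`, `chartAlg`, `αE`, `βE`).

* `alpha_mem`, `alpha_jE`, `beta_jE`, `alpha_cE`, `beta_cE` : the degeneracy maps on generators,
  constants and the Gauss valuation rings;
* `inW_jE_sub_pow` : **Kronecker congruence for the generators** `j_{dq} ≡ j_d ^ q mod w V∞`
  (`H528.exists_frobCong`);
* `mem_chartAlg_iff` : `chartAlg` (helper13 `Asm.lean`) = `chart` (helper994 `Spec.lean`)
  = integrality along `R_E[X] → F`, `X ↦ y`;
* `isIntegralElem_trans`, `mem_of_alpha_mem`, `isUnif_comap`, ...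
-/

set_option autoImplicit false
set_option synthInstance.maxHeartbeats 400000
set_option maxHeartbeats 1600000
set_option linter.unusedSectionVars false
set_option linter.style.haveILetI false

noncomputable section

namespace Fermat.Agent.A2.Mod.H372

open ModularCurve HahnSeries Polynomial

/-! ## Generalities -/

section General

variable {F : Type*} [Field F]

/-- elements integral over `R[y]`, `R, y ⊆ V`, lie in the valuation ring `V`. -/
theorem mem_of_isIntegralElem (V : ValuationSubring F) {R : Type*} [CommRing R] (c : R →+* F)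
    (y : F) (hcV : ∀ r, c r ∈ V) (hyV : y ∈ V) {b : F}
    (hb : (Polynomial.eval₂RingHom c y).IsIntegralElem b) : b ∈ V := by
  set cV : R →+* V := c.codRestrict V hcV with hcV'
  set yV : V := ⟨y, hyV⟩ with hyV'
  have hcomp : (V.subtype).comp (Polynomial.eval₂RingHom cV yV) = Polynomial.eval₂RingHom c y := by
    apply Polynomial.ringHom_ext
    · intro r
      simp [cV]
    · simp [yV]
  have hint : IsIntegral V b := by
    obtain ⟨p, hp, hpb⟩ := hb
    refine ⟨p.map (Polynomial.eval₂RingHom cV yV), hp.map _, ?_⟩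
    rw [Polynomial.eval₂_map]
    have : (algebraMap V F).comp (Polynomial.eval₂RingHom cV yV) =
        Polynomial.eval₂RingHom c y := hcomp
    rw [this]
    exact hpb
  obtain ⟨v, hv⟩ := (IsIntegrallyClosed.isIntegral_iff (R := V) (K := F)).mp hint
  rw [← hv]
  exact v.2

/-- transitivity of integrality over `R[y]`. -/
theorem isIntegralElem_trans {R : Type*} [CommRing R] (c : R →+* F) {y z b : F}
    (hz : (Polynomial.eval₂RingHom c y).IsIntegralElem z)
    (hb : (Polynomial.eval₂RingHom c z).IsIntegralElem b) :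
    (Polynomial.eval₂RingHom c y).IsIntegralElem b := by
  letI : Algebra (Polynomial R) F := (Polynomial.eval₂RingHom c y).toAlgebra
  have hzT : z ∈ integralClosure (Polynomial R) F := hz
  have hcT : ∀ r, c r ∈ integralClosure (Polynomial R) F := by
    intro r
    have : c r = algebraMap (Polynomial R) F (Polynomial.C r) := by
      show c r = Polynomial.eval₂RingHom c y (Polynomial.C r)
      simp
    rw [this]
    exact Subalgebra.algebraMap_mem _ _
  have h1 : IsIntegral (integralClosure (Polynomial R) F) b := by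
    refine isIntegralElem_of_forall_exists (Polynomial.eval₂RingHom c z) _ (fun p => ?_) hb
    refine ⟨⟨Polynomial.eval₂ c z p, ?_⟩, rfl⟩
    rw [Polynomial.eval₂_eq_sum_range]
    refine Subalgebra.sum_mem _ (fun i _ => ?_)
    exact Subalgebra.mul_mem _ (hcT _) (Subalgebra.pow_mem _ hzT _)
  exact isIntegral_trans (R := Polynomial R) (A := integralClosure (Polynomial R) F) b h1

/-- `a - b ∈ ϖ V` with `a, b` units of `V` ⟹ `a⁻¹ - b⁻¹ ∈ ϖ V`. -/
theorem inv_sub_inv_mul_mem (V : ValuationSubring F) {ϖ a b : F} (ha0 : a ≠ 0) (hb0 : b ≠ 0)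
    (ha : a⁻¹ ∈ V) (hb : b⁻¹ ∈ V) (h : (a - b) * ϖ⁻¹ ∈ V) : (a⁻¹ - b⁻¹) * ϖ⁻¹ ∈ V := by
  have : (a⁻¹ - b⁻¹) * ϖ⁻¹ = -((a - b) * ϖ⁻¹ * a⁻¹ * b⁻¹) := by
    field_simp
    ring
  rw [this]
  exact V.neg_mem _ (V.mul_mem _ _ (V.mul_mem _ _ h ha) hb)

/-- transport of a uniformiser along an automorphism fixing it. -/
theorem isUnif_comap {V : ValuationSubring F} {ϖ : F} (hu : H48.IsUnif V ϖ) (W : F →+* F)
    (hW : W ϖ = ϖ) : H48.IsUnif (V.comap W) ϖ where
  mem := by
    rw [ValuationSubring.mem_comap, hW]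
    exact hu.mem
  inv_not_mem := by
    rw [ValuationSubring.mem_comap, map_inv₀, hW]
    exact hu.inv_not_mem
  gen := by
    intro f hf hfinv
    rw [ValuationSubring.mem_comap] at hf hfinv ⊢
    rw [map_mul, map_inv₀, hW]
    rw [map_inv₀] at hfinv
    exact hu.gen _ hf hfinv

end General

/-! ## Levels -/

section Levels

variable (P : ValuationSubring _root_.Fermat.Agent.A2.Mod.Qb) (E : IntermediateField ℚ _root_.Fermat.Agent.A2.Mod.Qb) (M q : ℕ) [NeZero M] [NeZero q]
  (w : _root_.Fermat.Agent.A2.Mod.RE P E)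

theorem alpha_cE (r : _root_.Fermat.Agent.A2.Mod.RE P E) : αE E M q (cE P E M r) = cE P E (M * q) r :=
  (αE E M q).commutes (r : E)

theorem beta_cE (r : _root_.Fermat.Agent.A2.Mod.RE P E) : βE E M q (cE P E M r) = cE P E (M * q) r :=
  (βE E M q).commutes (r : E)

variable {P E M q}

/-- `α` maps `V∞_M` into `V∞_{Mq}`. -/
theorem alpha_mem {VM : ValuationSubring (_root_.Fermat.Agent.A2.Mod.FE E M)} {V : ValuationSubring (_root_.Fermat.Agent.A2.Mod.FE E (M * q))}
    (hVM : IsVinf P E M VM) (hV : IsVinf P E (M * q) V) {f : _root_.Fermat.Agent.A2.Mod.FE E M} (hf : f ∈ VM) :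
    αE E M q f ∈ V := by
  rw [hV, coe_heckeAlphaBar]
  obtain ⟨U₁, U₂, hred, hmem, he⟩ := (hVM f).mp hf
  refine ⟨U₁, U₂, hred, ?_, he⟩
  have h := (αE E M q ⟨_, hmem⟩).2
  rwa [coe_heckeAlphaBar] at h

theorem alpha_jE (d : ℕ) [NeZero d] (hd : d ∣ M) :
    αE E M q (jE E M d hd) = jE E (M * q) d (hd.mul_right q) := by
  apply Subtype.ext
  rw [coe_heckeAlphaBar]
  rfl

theorem beta_jE (d : ℕ) [NeZero d] (hd : d ∣ M) :
    βE E M q (jE E M d hd) = jE E (M * q) (d * q) (mul_dvd_mul_right hd q) := by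
  apply Subtype.ext
  rw [coe_heckeBetaBar]
  show qExpand E q (coeffEmb E (qExpand ℚ d jq)) = coeffEmb E (qExpand ℚ (d * q) jq)
  rw [coeffEmb, ← coeffMap_qExpand, qExpand_qExpand, qExpand_congr (mul_comm q d)]

/-- `q = w r` in `R_E`. -/
theorem exists_q_eq (hS : Setting P E M q w) : ∃ r : _root_.Fermat.Agent.A2.Mod.RE P E, (q : _root_.Fermat.Agent.A2.Mod.RE P E) = w * r := by
  have hnu : ¬ IsUnit ((q : ℕ) : _root_.Fermat.Agent.A2.Mod.RE P E) := by
    intro hu
    obtain ⟨s, hs⟩ := isUnit_iff_exists_inv.mp hu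
    have h1 : ((q : ℕ) : _root_.Fermat.Agent.A2.Mod.Qb) * ((s : E) : _root_.Fermat.Agent.A2.Mod.Qb) = 1 := by
      have := congrArg (fun t : _root_.Fermat.Agent.A2.Mod.RE P E => ((t : E) : _root_.Fermat.Agent.A2.Mod.Qb)) hs
      simpa using this
    have hq : ((q : ℕ) : _root_.Fermat.Agent.A2.Mod.Qb) ∈ P.nonunits := hS.lies_over
    rw [ValuationSubring.mem_nonunits_iff] at hq
    have hs' : ((s : E) : _root_.Fermat.Agent.A2.Mod.Qb) ∈ P := s.2
    have hv : P.valuation ((s : E) : _root_.Fermat.Agent.A2.Mod.Qb) ≤ 1 := (P.valuation_le_one_iff _).mpr hs'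
    have h2 := congrArg P.valuation h1
    rw [map_mul, map_one] at h2
    have h3 : P.valuation ((q : ℕ) : _root_.Fermat.Agent.A2.Mod.Qb) * P.valuation ((s : E) : _root_.Fermat.Agent.A2.Mod.Qb) < 1 :=
      lt_of_le_of_lt (mul_le_of_le_one_right' hv) hq
    exact absurd h2 (ne_of_lt h3)
  have := hS.dvr
  have hmem : ((q : ℕ) : _root_.Fermat.Agent.A2.Mod.RE P E) ∈ IsLocalRing.maximalIdeal (_root_.Fermat.Agent.A2.Mod.RE P E) :=
    (IsLocalRing.mem_maximalIdeal _).mpr hnu
  rw [hS.unif.maximalIdeal_eq, Ideal.mem_span_singleton'] at hmem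
  obtain ⟨r, hr⟩ := hmem
  exact ⟨r, by rw [← hr, mul_comm]⟩

theorem cE_mem (hS : Setting P E M q w) {N : ℕ} {V : ValuationSubring (_root_.Fermat.Agent.A2.Mod.FE E N)}
    (hV : IsVinf P E N V) (r : _root_.Fermat.Agent.A2.Mod.RE P E) : cE P E N r ∈ V := by
  have := hS.dvr
  exact (H553.algebraMap_mem_iff P E hV _).mpr r.2

theorem cE_ne_zero (hS : Setting P E M q w) (N : ℕ) : cE P E N w ≠ 0 := by
  have hw0 : (w : E) ≠ 0 := fun h0 => hS.unif.ne_zero (Subtype.ext h0)
  exact (map_ne_zero_iff _ (algebraMap E (_root_.Fermat.Agent.A2.Mod.FE E N)).injective).mpr hw0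

/-- **Kronecker congruence for the generators**: `j_{dq} ≡ j_d ^ q mod w V∞`. -/
theorem inW_jE_sub_pow (hS : Setting P E M q w) {V : ValuationSubring (_root_.Fermat.Agent.A2.Mod.FE E (M * q))}
    (hV : IsVinf P E (M * q) V) (d : ℕ) [NeZero d] (hd : d ∣ M) :
    InW P E (M * q) V w (jE E (M * q) (d * q) (mul_dvd_mul_right hd q) -
      (jE E (M * q) d (hd.mul_right q)) ^ q) := by
  haveI : Fact q.Prime := ⟨hS.q_prime⟩
  obtain ⟨g, hg⟩ := H528.exists_frobCong q (H708.jInt d)
  have hj : H708.jInt (d * q) = qExpand ℤ q (H708.jInt d) := by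
    unfold H708.jInt jqNModC
    rw [qExpand_qExpand, qExpand_congr (mul_comm q d)]
  obtain ⟨r, hr⟩ := exists_q_eq w hS
  set D : _root_.Fermat.Agent.A2.Mod.FE E (M * q) := jE E (M * q) (d * q) (mul_dvd_mul_right hd q) -
      (jE E (M * q) d (hd.mul_right q)) ^ q with hD
  have hqC : HahnSeries.C ((q : ℕ) : ℤ) = ((q : ℕ) : LaurentSeries ℤ) := map_natCast _ q
  have hcoe : (D : LaurentSeries E) = ((q : ℕ) : LaurentSeries E) * coeffEmb E (H708.castQ g) := by
    have h1 : (D : LaurentSeries E) = coeffEmb E (H708.castQ (H708.jInt (d * q))) -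
        (coeffEmb E (H708.castQ (H708.jInt d))) ^ q := by
      rw [← H553.coe_jE (E := E) (M * q) (d * q) (mul_dvd_mul_right hd q),
        ← H553.coe_jE (E := E) (M * q) d (hd.mul_right q)]
      rfl
    rw [h1, hj, ← map_pow, ← map_pow, ← map_sub, ← map_sub, hg, hqC, map_mul, map_mul,
      map_natCast, map_natCast]
  have hq0 : ((q : ℕ) : _root_.Fermat.Agent.A2.Mod.FE E (M * q)) ≠ 0 := by
    exact_mod_cast hS.q_prime.ne_zero
  set G : _root_.Fermat.Agent.A2.Mod.FE E (M * q) := D * ((q : ℕ) : _root_.Fermat.Agent.A2.Mod.FE E (M * q))⁻¹ with hG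
  have hGcoe : (G : LaurentSeries E) = coeffEmb E (H708.castQ g) := by
    have hqcoe : (((q : ℕ) : _root_.Fermat.Agent.A2.Mod.FE E (M * q)) : LaurentSeries E) = ((q : ℕ) : LaurentSeries E) :=
      rfl
    have hq0' : ((q : ℕ) : LaurentSeries E) ≠ 0 := by
      rw [← hqcoe]
      exact fun h => hq0 (Subtype.ext h)
    have h2 : (G : LaurentSeries E) = (D : LaurentSeries E) * ((q : ℕ) : LaurentSeries E)⁻¹ := by
      rw [hG, IntermediateField.coe_mul, IntermediateField.coe_inv, hqcoe]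
    rw [h2, hcoe, mul_comm, ← mul_assoc, inv_mul_cancel₀ hq0', one_mul]
  have hGV : G ∈ V := H553.mem_of_int hV hGcoe
  have hqF : ((q : ℕ) : _root_.Fermat.Agent.A2.Mod.FE E (M * q)) = cE P E (M * q) w * cE P E (M * q) r := by
    have := congrArg (algebraMap (_root_.Fermat.Agent.A2.Mod.RE P E) (_root_.Fermat.Agent.A2.Mod.FE E (M * q))) hr
    rw [map_natCast, map_mul] at this
    exact this
  have hfin : D * (cE P E (M * q) w)⁻¹ = G * cE P E (M * q) r := by
    have hw0 := cE_ne_zero w hS (M * q)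
    have hDG : D = G * ((q : ℕ) : _root_.Fermat.Agent.A2.Mod.FE E (M * q)) := by
      rw [hG, mul_assoc, inv_mul_cancel₀ hq0, mul_one]
    rw [hDG, hqF]
    field_simp
  show D * (cE P E (M * q) w)⁻¹ ∈ V
  rw [hfin]
  exact V.mul_mem _ _ hGV (cE_mem w hS hV r)


/-- `w` is a uniformiser of `V∞` (leaf L2, `H553.vinfBasic`). -/
theorem unifE (hS : Setting P E M q w) {N : ℕ} (hN : N ≠ 0) {V : ValuationSubring (_root_.Fermat.Agent.A2.Mod.FE E N)}
    (hV : IsVinf P E N V) : H48.IsUnif V (cE P E N w) :=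
  (H553.vinfBasic P E w N hN hS.dvr hS.unif V hV).1

theorem jE_mem (hS : Setting P E M q w) {N : ℕ} (hN : N ≠ 0) {V : ValuationSubring (_root_.Fermat.Agent.A2.Mod.FE E N)}
    (hV : IsVinf P E N V) (d : ℕ) [NeZero d] (hd : d ∣ N) : jE E N d hd ∈ V :=
  ((H553.vinfBasic P E w N hN hS.dvr hS.unif V hV).2.2 d hd).1

theorem jE_inv_mem (hS : Setting P E M q w) {N : ℕ} (hN : N ≠ 0) {V : ValuationSubring (_root_.Fermat.Agent.A2.Mod.FE E N)}
    (hV : IsVinf P E N V) (d : ℕ) [NeZero d] (hd : d ∣ N) : (jE E N d hd)⁻¹ ∈ V :=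
  ((H553.vinfBasic P E w N hN hS.dvr hS.unif V hV).2.2 d hd).2

theorem jE_congr {N d d' : ℕ} [NeZero d] [NeZero d'] (h : d = d') (hd : d ∣ N) (hd' : d' ∣ N) :
    jE E N d hd = jE E N d' hd' := by
  subst h
  rfl

theorem level_ne_zero (hS : Setting P E M q w) : M * q ≠ 0 :=
  mul_ne_zero hS.M_ne_zero hS.q_prime.ne_zero

/-- `q ∈ w V∞`. -/
theorem q_mul_inv_mem (hS : Setting P E M q w) {V : ValuationSubring (_root_.Fermat.Agent.A2.Mod.FE E (M * q))}
    (hV : IsVinf P E (M * q) V) :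
    ((q : ℕ) : _root_.Fermat.Agent.A2.Mod.FE E (M * q)) * (cE P E (M * q) w)⁻¹ ∈ V := by
  obtain ⟨r, hr⟩ := exists_q_eq w hS
  have hqF : ((q : ℕ) : _root_.Fermat.Agent.A2.Mod.FE E (M * q)) = cE P E (M * q) w * cE P E (M * q) r := by
    have := congrArg (algebraMap (_root_.Fermat.Agent.A2.Mod.RE P E) (_root_.Fermat.Agent.A2.Mod.FE E (M * q))) hr
    rw [map_natCast, map_mul] at this
    exact this
  have hw0 := cE_ne_zero w hS (M * q)
  have : ((q : ℕ) : _root_.Fermat.Agent.A2.Mod.FE E (M * q)) * (cE P E (M * q) w)⁻¹ = cE P E (M * q) r := by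
    rw [hqF]
    field_simp
  rw [this]
  exact cE_mem w hS hV r

/-- `α` reflects membership in the Gauss valuation rings: `V∞_{Mq} ∩ F_M = V∞_M`. -/
theorem mem_of_alpha_mem (hS : Setting P E M q w) {VM : ValuationSubring (_root_.Fermat.Agent.A2.Mod.FE E M)}
    {V : ValuationSubring (_root_.Fermat.Agent.A2.Mod.FE E (M * q))} (hVM : IsVinf P E M VM) (hV : IsVinf P E (M * q) V)
    {x : _root_.Fermat.Agent.A2.Mod.FE E M} (hx : αE E M q x ∈ V) : x ∈ VM := by
  by_contra hxV
  have hx0 : x ≠ 0 := fun h0 => hxV (h0 ▸ VM.zero_mem)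
  have hinv : x⁻¹ ∈ VM := (VM.mem_or_inv_mem x).resolve_left hxV
  have huM := unifE w hS hS.M_ne_zero hVM
  have huN := unifE w hS (level_ne_zero w hS) hV
  have h1 : x⁻¹ * (cE P E M w)⁻¹ ∈ VM := huM.gen _ hinv (by rwa [inv_inv])
  have h2 := alpha_mem hVM hV h1
  rw [map_mul, map_inv₀, map_inv₀, alpha_cE] at h2
  apply huN.inv_not_mem
  have hαx0 : αE E M q x ≠ 0 := (map_ne_zero_iff _ (αE E M q).toRingHom.injective).mpr hx0
  have : (cE P E (M * q) w)⁻¹ = αE E M q x * ((αE E M q x)⁻¹ * (cE P E (M * q) w)⁻¹) := by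
    rw [← mul_assoc, mul_inv_cancel₀ hαx0, one_mul]
  rw [this]
  exact V.mul_mem _ _ hx h2

/-- `chartAlg` in terms of integrality along `R_E[X] → F`, `X ↦ y` (= `chart` of `Spec.lean`). -/
theorem mem_chartAlg_iff {N : ℕ} {y f : _root_.Fermat.Agent.A2.Mod.FE E N} :
    f ∈ chartAlg P E N y ↔
      (Polynomial.eval₂RingHom (algebraMap (_root_.Fermat.Agent.A2.Mod.RE P E) (_root_.Fermat.Agent.A2.Mod.FE E N)) y).IsIntegralElem f := by
  rw [mem_chartAlg]
  constructor
  · intro h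
    refine isIntegralElem_of_forall_exists
      (algebraMap (Algebra.adjoin (_root_.Fermat.Agent.A2.Mod.RE P E) ({y} : Set (_root_.Fermat.Agent.A2.Mod.FE E N))) (_root_.Fermat.Agent.A2.Mod.FE E N)) _ (fun c => ?_) h
    obtain ⟨p, hp⟩ := Algebra.adjoin_mem_exists_aeval (_root_.Fermat.Agent.A2.Mod.RE P E) y c.2
    exact ⟨p, hp⟩
  · intro h
    refine isIntegralElem_of_forall_exists _
      (algebraMap (Algebra.adjoin (_root_.Fermat.Agent.A2.Mod.RE P E) ({y} : Set (_root_.Fermat.Agent.A2.Mod.FE E N))) (_root_.Fermat.Agent.A2.Mod.FE E N)) (fun p => ?_) h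
    exact ⟨⟨Polynomial.aeval y p, Polynomial.aeval_mem_adjoin_singleton (_root_.Fermat.Agent.A2.Mod.RE P E) y⟩, rfl⟩

theorem mem_chart_iff {N : ℕ} {y f : _root_.Fermat.Agent.A2.Mod.FE E N} : f ∈ chart P E N y ↔ f ∈ chartAlg P E N y :=
  mem_chartAlg_iff.symm

end Levels

end Fermat.Agent.A2.Mod.H372

end
end
-- ===== PACK-END A2/Mod/H372/S3Base.lean

-- ===== PACK-BEGIN A2/Mod/H372/S3Coord.lean
section


/-!
# A2 / MODASM S3, the coordinate facts (helper372)

For the two coordinate pairs `(j, x)` and `(j⁻¹, x⁻¹)`, `x = j · j_q`: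
`y = α(y_M) · β(y_M)`, `β y_M ≡ (α y_M)^q mod w V∞`, `α y_M ≡ (β y_M)^q mod w V₀`,
`α y_M, β y_M ∈ chart(y)` (leaf L13).
-/

set_option autoImplicit false
set_option synthInstance.maxHeartbeats 400000
set_option maxHeartbeats 1600000
set_option linter.unusedSectionVars false
set_option linter.style.haveILetI false

noncomputable section

namespace Fermat.Agent.A2.Mod.H372

open ModularCurve HahnSeries Polynomial

variable {P : ValuationSubring _root_.Fermat.Agent.A2.Mod.Qb} {E : IntermediateField ℚ _root_.Fermat.Agent.A2.Mod.Qb} {M q : ℕ} [NeZero M] [NeZero q]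
  (w : _root_.Fermat.Agent.A2.Mod.RE P E)

/-- `f ∈ w V₀ ↔ W f ∈ w V∞`. -/
theorem inW_comap_iff {N : ℕ} (V : ValuationSubring (_root_.Fermat.Agent.A2.Mod.FE E N)) (W : _root_.Fermat.Agent.A2.Mod.FE E N ≃ₐ[E] _root_.Fermat.Agent.A2.Mod.FE E N)
    (f : _root_.Fermat.Agent.A2.Mod.FE E N) :
    InW P E N (V.comap (W : _root_.Fermat.Agent.A2.Mod.FE E N →+* _root_.Fermat.Agent.A2.Mod.FE E N)) w f ↔ InW P E N V w (W f) := by
  have hWc : W (cE P E N w) = cE P E N w := W.commutes (w : E)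
  show W (f * (cE P E N w)⁻¹) ∈ V ↔ W f * (cE P E N w)⁻¹ ∈ V
  rw [map_mul, map_inv₀, hWc]

/-- The facts about a coordinate pair used by S3. -/
structure CoordFacts (VM : ValuationSubring (_root_.Fermat.Agent.A2.Mod.FE E M)) (V : ValuationSubring (_root_.Fermat.Agent.A2.Mod.FE E (M * q)))
    (W : _root_.Fermat.Agent.A2.Mod.FE E (M * q) ≃ₐ[E] _root_.Fermat.Agent.A2.Mod.FE E (M * q)) (yM : _root_.Fermat.Agent.A2.Mod.FE E M) (y : _root_.Fermat.Agent.A2.Mod.FE E (M * q)) : Prop where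
  mem : yM ∈ VM
  eq_mul : y = αE E M q yM * βE E M q yM
  beta_mem : βE E M q yM ∈ V
  alpha_mem₀ : W (αE E M q yM) ∈ V
  beta_mem₀ : W (βE E M q yM) ∈ V
  cong₁ : InW P E (M * q) V w (βE E M q yM - (αE E M q yM) ^ q)
  cong₂ : InW P E (M * q) V w (W (αE E M q yM) - (W (βE E M q yM)) ^ q)
  alpha_chart : αE E M q yM ∈ chartAlg P E (M * q) y
  beta_chart : βE E M q yM ∈ chartAlg P E (M * q) y

theorem beta_jE_one : βE E M q (jE E M 1 (one_dvd _)) = jE E (M * q) q (dvd_mul_left q M) := by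
  rw [beta_jE 1 (one_dvd M)]
  exact jE_congr (one_mul q) _ _

theorem alpha_jE_one : αE E M q (jE E M 1 (one_dvd _)) = jE E (M * q) 1 (one_dvd _) :=
  alpha_jE 1 (one_dvd M)

theorem fricke_jE_one {W : _root_.Fermat.Agent.A2.Mod.FE E (M * q) ≃ₐ[E] _root_.Fermat.Agent.A2.Mod.FE E (M * q)} (hW : IsFricke E (M * q) W) :
    W (jE E (M * q) 1 (one_dvd _)) = jE E (M * q) (M * q) (dvd_refl _) :=
  hW.1 1 (M * q) (one_dvd _) (dvd_refl _) (one_mul _)

theorem fricke_jE_q {W : _root_.Fermat.Agent.A2.Mod.FE E (M * q) ≃ₐ[E] _root_.Fermat.Agent.A2.Mod.FE E (M * q)} (hW : IsFricke E (M * q) W) :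
    W (jE E (M * q) q (dvd_mul_left q M)) = jE E (M * q) M (dvd_mul_right M q) :=
  hW.1 q M (dvd_mul_left q M) (dvd_mul_right M q) (mul_comm q M)

theorem coordFacts_fin (hS : Setting P E M q w) {VM : ValuationSubring (_root_.Fermat.Agent.A2.Mod.FE E M)}
    {V : ValuationSubring (_root_.Fermat.Agent.A2.Mod.FE E (M * q))} {W : _root_.Fermat.Agent.A2.Mod.FE E (M * q) ≃ₐ[E] _root_.Fermat.Agent.A2.Mod.FE E (M * q)}
    (hVM : IsVinf P E M VM) (hV : IsVinf P E (M * q) V) (hW : IsFricke E (M * q) W) :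
    CoordFacts w VM V W (jE E M 1 (one_dvd _)) (xE E M q) := by
  have hN := level_ne_zero w hS
  obtain ⟨h1, h2, -, -⟩ := H873.chartCompat P E M q hS.q_prime
  refine ⟨jE_mem w hS hS.M_ne_zero hVM 1 (one_dvd _), ?_, ?_, ?_, ?_, ?_, ?_, ?_, ?_⟩
  · rw [alpha_jE_one, beta_jE_one]; rfl
  · rw [beta_jE_one]; exact jE_mem w hS hN hV _ _
  · rw [alpha_jE_one, fricke_jE_one hW]; exact jE_mem w hS hN hV _ _
  · rw [beta_jE_one, fricke_jE_q hW]; exact jE_mem w hS hN hV _ _
  · rw [alpha_jE_one, beta_jE_one]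
    have := inW_jE_sub_pow w hS hV 1 (one_dvd M)
    rwa [jE_congr (one_mul q) _ (dvd_mul_left q M)] at this
  · rw [alpha_jE_one, beta_jE_one, fricke_jE_one hW, fricke_jE_q hW]
    exact inW_jE_sub_pow w hS hV M (dvd_refl M)
  · rw [alpha_jE_one]; exact mem_chart_iff.mp h1
  · rw [beta_jE_one]; exact mem_chart_iff.mp h2

theorem coordFacts_inf (hS : Setting P E M q w) {VM : ValuationSubring (_root_.Fermat.Agent.A2.Mod.FE E M)}
    {V : ValuationSubring (_root_.Fermat.Agent.A2.Mod.FE E (M * q))} {W : _root_.Fermat.Agent.A2.Mod.FE E (M * q) ≃ₐ[E] _root_.Fermat.Agent.A2.Mod.FE E (M * q)}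
    (hVM : IsVinf P E M VM) (hV : IsVinf P E (M * q) V) (hW : IsFricke E (M * q) W) :
    CoordFacts w VM V W (jE E M 1 (one_dvd _))⁻¹ (xE E M q)⁻¹ := by
  have hN := level_ne_zero w hS
  obtain ⟨-, -, h3, h4⟩ := H873.chartCompat P E M q hS.q_prime
  have hu := unifE w hS hN hV
  refine ⟨jE_inv_mem w hS hS.M_ne_zero hVM 1 (one_dvd _), ?_, ?_, ?_, ?_, ?_, ?_, ?_, ?_⟩
  · rw [map_inv₀, map_inv₀, alpha_jE_one, beta_jE_one, ← mul_inv]; rfl
  · rw [map_inv₀, beta_jE_one]; exact jE_inv_mem w hS hN hV _ _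
  · rw [map_inv₀, map_inv₀, alpha_jE_one, fricke_jE_one hW]; exact jE_inv_mem w hS hN hV _ _
  · rw [map_inv₀, map_inv₀, beta_jE_one, fricke_jE_q hW]; exact jE_inv_mem w hS hN hV _ _
  · rw [map_inv₀, map_inv₀, alpha_jE_one, beta_jE_one, inv_pow]
    have := inW_jE_sub_pow w hS hV 1 (one_dvd M)
    rw [jE_congr (one_mul q) _ (dvd_mul_left q M)] at this
    refine inv_sub_inv_mul_mem V (H873.jE_ne_zero _ _ _ _) (pow_ne_zero _ (H873.jE_ne_zero _ _ _ _))
      (jE_inv_mem w hS hN hV _ _) ?_ this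
    rw [← inv_pow]
    exact V.pow_mem (jE_inv_mem w hS hN hV _ _) _
  · rw [map_inv₀, map_inv₀, map_inv₀, map_inv₀, alpha_jE_one, beta_jE_one, fricke_jE_one hW,
      fricke_jE_q hW, inv_pow]
    have := inW_jE_sub_pow w hS hV M (dvd_refl M)
    refine inv_sub_inv_mul_mem V (H873.jE_ne_zero _ _ _ _) (pow_ne_zero _ (H873.jE_ne_zero _ _ _ _))
      (jE_inv_mem w hS hN hV _ _) ?_ this
    rw [← inv_pow]
    exact V.pow_mem (jE_inv_mem w hS hN hV _ _) _
  · rw [map_inv₀, alpha_jE_one]; exact mem_chart_iff.mp h3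
  · rw [map_inv₀, beta_jE_one]; exact mem_chart_iff.mp h4

theorem coordFacts_of_isCoordPair (hS : Setting P E M q w) {VM : ValuationSubring (_root_.Fermat.Agent.A2.Mod.FE E M)}
    {V : ValuationSubring (_root_.Fermat.Agent.A2.Mod.FE E (M * q))} {W : _root_.Fermat.Agent.A2.Mod.FE E (M * q) ≃ₐ[E] _root_.Fermat.Agent.A2.Mod.FE E (M * q)}
    (hVM : IsVinf P E M VM) (hV : IsVinf P E (M * q) V) (hW : IsFricke E (M * q) W)
    {yM : _root_.Fermat.Agent.A2.Mod.FE E M} {y : _root_.Fermat.Agent.A2.Mod.FE E (M * q)} (hy : IsCoordPair E M q yM y) :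
    CoordFacts w VM V W yM y := by
  rcases hy with ⟨rfl, rfl⟩ | ⟨rfl, rfl⟩
  · exact coordFacts_fin w hS hVM hV hW
  · exact coordFacts_inf w hS hVM hV hW

end Fermat.Agent.A2.Mod.H372

end
end
-- ===== PACK-END A2/Mod/H372/S3Coord.lean

-- ===== PACK-BEGIN A2/Mod/H372/S3Sides.lean
section



/-!
# A2 / MODASM sub-assembly S3 (helper372): the two sides on the charts

`s3_of_leaves : (leaves L4, L5, L7, L8, L11, L12 + sub-assembly S2) → S3Statement P E M q w`
(`Fermat/Agent/A2/Mod/Asm.lean`, VERBATIM).  The leaves L2 (`H553.vinfBasic`) and L13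
(`H873.chartCompat`) are used directly (on main).

Proof: `H372.KronCong.sup_isRadical` applied to the restrictions `α, β : B_M → B` of the two
degeneracy maps to the charts (`B_M` = chart of `j^{±1}` at level `M`, `B` = chart of `x^{±1}`
at level `Mq`):

* `KronCong` : L12 gives the Kronecker twist `a'` only in `V∞_M`; `GoodRedAt.normal` brings it
  back into the chart (`SideData.cong`); on `C₀` one transports by the Fricke involutions
  (L4, L5, L7);
* `α` is onto `B ⧸ p∞` : L11 + `GoodRedAt.normal` (`SideData.surj`);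
* the branch `B ⧸ p∞` is a Dedekind domain : S2 (normal), `B` noetherian (L8), dimension one.
-/

set_option autoImplicit false
set_option synthInstance.maxHeartbeats 400000
set_option maxHeartbeats 1600000
set_option linter.unusedSectionVars false
set_option linter.style.haveILetI false

noncomputable section

namespace Fermat.Agent.A2.Mod.H372

open ModularCurve HahnSeries Polynomial

variable {P : ValuationSubring _root_.Fermat.Agent.A2.Mod.Qb} {E : IntermediateField ℚ _root_.Fermat.Agent.A2.Mod.Qb} {M q : ℕ} [NeZero M] [NeZero q]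
  (w : _root_.Fermat.Agent.A2.Mod.RE P E)

section Sides

variable (hS : Setting P E M q w) {VM : ValuationSubring (_root_.Fermat.Agent.A2.Mod.FE E M)}
  {V : ValuationSubring (_root_.Fermat.Agent.A2.Mod.FE E (M * q))} {W : _root_.Fermat.Agent.A2.Mod.FE E (M * q) ≃ₐ[E] _root_.Fermat.Agent.A2.Mod.FE E (M * q)}
  (hVM : IsVinf P E M VM) (hV : IsVinf P E (M * q) V) (hW : IsFricke E (M * q) W)
  {yM : _root_.Fermat.Agent.A2.Mod.FE E M} {y : _root_.Fermat.Agent.A2.Mod.FE E (M * q)}

include hS hVM in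
theorem chartM_le (hyM : yM ∈ VM) {a : _root_.Fermat.Agent.A2.Mod.FE E M} (ha : a ∈ chartAlg P E M yM) : a ∈ VM :=
  mem_of_isIntegralElem VM (algebraMap (_root_.Fermat.Agent.A2.Mod.RE P E) (_root_.Fermat.Agent.A2.Mod.FE E M)) yM (fun r => cE_mem w hS hVM r) hyM
    (mem_chartAlg_iff.mp ha)

theorem self_mem_chartAlg (N : ℕ) (y : _root_.Fermat.Agent.A2.Mod.FE E N) : y ∈ chartAlg P E N y := by
  rw [mem_chartAlg_iff]
  have := (Polynomial.eval₂RingHom (algebraMap (_root_.Fermat.Agent.A2.Mod.RE P E) (_root_.Fermat.Agent.A2.Mod.FE E N)) y).isIntegralElem_map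
    (x := Polynomial.X)
  simpa using this

include hS hVM hV in
/-- `β` maps `V∞_M` into `V∞_{Mq}` (consequence of L12). -/
theorem beta_mem (hL12 : KronStatement P E M q w) {a : _root_.Fermat.Agent.A2.Mod.FE E M} (ha : a ∈ VM) :
    βE E M q a ∈ V := by
  obtain ⟨a', ha', h⟩ := hL12 hS VM V hVM hV a ha
  have h1 := mem_of_mul_inv_mem (unifE w hS (level_ne_zero w hS) hV) h
  have h2 : (αE E M q a') ^ q ∈ V := V.pow_mem (alpha_mem hVM hV ha') q
  have := V.add_mem _ _ h1 h2
  simpa using this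

include hS hVM hV in
/-- The side `C∞`. -/
theorem side₁ (hyM : yM ∈ VM) (hgood : GoodRedAt P E M w VM yM) :
    SideData VM V (cE P E M w) (cE P E (M * q) w) (αE E M q : _root_.Fermat.Agent.A2.Mod.FE E M →+* _root_.Fermat.Agent.A2.Mod.FE E (M * q)) q
      (chartAlg P E M yM).toSubring where
  unif₁ := unifE w hS hS.M_ne_zero hVM
  unif₂ := unifE w hS (level_ne_zero w hS) hV
  map_mem := fun x hx => alpha_mem hVM hV hx
  map_unif := alpha_cE P E M q w
  refl := fun x hx => mem_of_alpha_mem w hS hVM hV hx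
  prime := hS.q_prime
  q_mem := q_mul_inv_mem w hS hV
  le := fun a ha => chartM_le w hS hVM hyM ha
  normal := by
    rintro f hf ⟨n, c, hc, hrel⟩
    obtain ⟨b, hb, hfb⟩ := hgood.normal f hf ⟨n, c, fun i => mem_chart_iff.mpr (hc i), hrel⟩
    exact ⟨b, mem_chart_iff.mp hb, hfb⟩

include hS hVM hV hW in
/-- The side `C₀`. -/
theorem side₂ (hL5 : FrickeCompatStatement E M q) (hL7 : FrickeStableStatement P E M q w)
    {WM : _root_.Fermat.Agent.A2.Mod.FE E M ≃ₐ[E] _root_.Fermat.Agent.A2.Mod.FE E M} (hWM : IsFricke E M WM)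
    (hyM : yM ∈ VM) (hgood : GoodRedAt P E M w VM yM) :
    SideData VM (V.comap (W : _root_.Fermat.Agent.A2.Mod.FE E (M * q) →+* _root_.Fermat.Agent.A2.Mod.FE E (M * q))) (cE P E M w) (cE P E (M * q) w)
      (βE E M q : _root_.Fermat.Agent.A2.Mod.FE E M →+* _root_.Fermat.Agent.A2.Mod.FE E (M * q)) q (chartAlg P E M yM).toSubring where
  unif₁ := unifE w hS hS.M_ne_zero hVM
  unif₂ := isUnif_comap (unifE w hS (level_ne_zero w hS) hV) _ (W.commutes (w : E))
  map_mem := fun x hx => by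
    rw [ValuationSubring.mem_comap]
    show W (βE E M q x) ∈ V
    rw [(hL5 WM W hWM hW x).2]
    exact alpha_mem hVM hV (hL7 hS VM WM hVM hWM x hx)
  map_unif := beta_cE P E M q w
  refl := fun x hx => by
    rw [ValuationSubring.mem_comap] at hx
    have hx' : W (βE E M q x) ∈ V := hx
    rw [(hL5 WM W hWM hW x).2] at hx'
    have h1 := mem_of_alpha_mem w hS hVM hV hx'
    have h2 := hL7 hS VM WM hVM hWM _ h1
    rwa [hWM.2] at h2
  prime := hS.q_prime
  q_mem := by
    rw [ValuationSubring.mem_comap]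
    show W (((q : ℕ) : _root_.Fermat.Agent.A2.Mod.FE E (M * q)) * (cE P E (M * q) w)⁻¹) ∈ V
    have hWc : W (cE P E (M * q) w) = cE P E (M * q) w := W.commutes (w : E)
    rw [map_mul, map_inv₀, map_natCast, hWc]
    exact q_mul_inv_mem w hS hV
  le := fun a ha => chartM_le w hS hVM hyM ha
  normal := by
    rintro f hf ⟨n, c, hc, hrel⟩
    obtain ⟨b, hb, hfb⟩ := hgood.normal f hf ⟨n, c, fun i => mem_chart_iff.mpr (hc i), hrel⟩
    exact ⟨b, mem_chart_iff.mp hb, hfb⟩

end Sides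

section Congruences

variable (hS : Setting P E M q w) {VM : ValuationSubring (_root_.Fermat.Agent.A2.Mod.FE E M)}
  {V : ValuationSubring (_root_.Fermat.Agent.A2.Mod.FE E (M * q))} {W : _root_.Fermat.Agent.A2.Mod.FE E (M * q) ≃ₐ[E] _root_.Fermat.Agent.A2.Mod.FE E (M * q)}
  (hVM : IsVinf P E M VM) (hV : IsVinf P E (M * q) V) (hW : IsFricke E (M * q) W)
  {yM : _root_.Fermat.Agent.A2.Mod.FE E M} {y : _root_.Fermat.Agent.A2.Mod.FE E (M * q)} (hC : CoordFacts w VM V W yM y)
  (hgood : GoodRedAt P E M w VM yM)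

include hS hVM hV hC hgood in
/-- **Kronecker congruence on `C∞` inside the charts.** -/
theorem chart_cong₁ (hL12 : KronStatement P E M q w) :
    ∀ a ∈ chartAlg P E M yM, ∃ a' ∈ chartAlg P E M yM,
      InW P E (M * q) V w (βE E M q a - (αE E M q a') ^ q) :=
  (side₁ w hS hVM hV hC.mem hgood).cong (βE E M q : _root_.Fermat.Agent.A2.Mod.FE E M →+* _root_.Fermat.Agent.A2.Mod.FE E (M * q))
    (fun _ hx => beta_mem w hS hVM hV hL12 hx)
    (fun a ha => hL12 hS VM V hVM hV a ha)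
    (algebraMap (_root_.Fermat.Agent.A2.Mod.RE P E) (_root_.Fermat.Agent.A2.Mod.FE E M)) yM
    (fun _ ha => mem_chartAlg_iff.mp ha)
    (fun r => (chartAlg P E M yM).algebraMap_mem r)
    (self_mem_chartAlg M yM)
    (fun r => by
      show βE E M q (cE P E M r) = αE E M q (cE P E M r)
      rw [beta_cE, alpha_cE])
    hC.cong₁

include hS hVM hV hW hC hgood in
/-- **Kronecker congruence on `C₀` inside the charts.** -/
theorem chart_cong₂ (hL5 : FrickeCompatStatement E M q) (hL7 : FrickeStableStatement P E M q w)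
    (hL12 : KronStatement P E M q w) {WM : _root_.Fermat.Agent.A2.Mod.FE E M ≃ₐ[E] _root_.Fermat.Agent.A2.Mod.FE E M} (hWM : IsFricke E M WM) :
    ∀ a ∈ chartAlg P E M yM, ∃ a' ∈ chartAlg P E M yM,
      InW P E (M * q) (V.comap (W : _root_.Fermat.Agent.A2.Mod.FE E (M * q) →+* _root_.Fermat.Agent.A2.Mod.FE E (M * q))) w
        (αE E M q a - (βE E M q a') ^ q) := by
  refine (side₂ w hS hVM hV hW hL5 hL7 hWM hC.mem hgood).cong
    (αE E M q : _root_.Fermat.Agent.A2.Mod.FE E M →+* _root_.Fermat.Agent.A2.Mod.FE E (M * q)) ?_ ?_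
    (algebraMap (_root_.Fermat.Agent.A2.Mod.RE P E) (_root_.Fermat.Agent.A2.Mod.FE E M)) yM
    (fun _ ha => mem_chartAlg_iff.mp ha)
    (fun r => (chartAlg P E M yM).algebraMap_mem r)
    (self_mem_chartAlg M yM)
    (fun r => by
      show αE E M q (cE P E M r) = βE E M q (cE P E M r)
      rw [beta_cE, alpha_cE]) ?_
  · intro x hx
    rw [ValuationSubring.mem_comap]
    show W (αE E M q x) ∈ V
    rw [(hL5 WM W hWM hW x).1]
    exact beta_mem w hS hVM hV hL12 (hL7 hS VM WM hVM hWM x hx)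
  · intro a ha
    obtain ⟨c, hc, hac⟩ := hL12 hS VM V hVM hV (WM a) (hL7 hS VM WM hVM hWM a ha)
    refine ⟨WM c, hL7 hS VM WM hVM hWM c hc, ?_⟩
    show InW P E (M * q) (V.comap (W : _root_.Fermat.Agent.A2.Mod.FE E (M * q) →+* _root_.Fermat.Agent.A2.Mod.FE E (M * q))) w
      (αE E M q a - (βE E M q (WM c)) ^ q)
    rw [inW_comap_iff, map_sub, map_pow, (hL5 WM W hWM hW a).1, (hL5 WM W hWM hW (WM c)).2,
      hWM.2]
    exact hac
  · show InW P E (M * q) (V.comap (W : _root_.Fermat.Agent.A2.Mod.FE E (M * q) →+* _root_.Fermat.Agent.A2.Mod.FE E (M * q))) w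
      (αE E M q yM - (βE E M q yM) ^ q)
    rw [inW_comap_iff, map_sub, map_pow]
    exact hC.cong₂

include hS hVM hV hC hgood in
/-- **`α` is onto the branch `C∞`.** -/
theorem chart_surj (hL11 : ResInfStatement P E M q w) :
    ∀ b ∈ chartAlg P E (M * q) y, b ∈ V ∧ ∃ a ∈ chartAlg P E M yM,
      InW P E (M * q) V w (b - αE E M q a) := by
  have hyV : y ∈ V := by
    rw [hC.eq_mul]
    exact V.mul_mem _ _ (alpha_mem hVM hV hC.mem) hC.beta_mem
  have h := (side₁ w hS hVM hV hC.mem hgood).surj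
    (fun b hb => hL11 hS VM V hVM hV b hb)
    (algebraMap (_root_.Fermat.Agent.A2.Mod.RE P E) (_root_.Fermat.Agent.A2.Mod.FE E (M * q))) y
    (fun r => cE_mem w hS hV r) hyV
    (fun r => ⟨cE P E M r, (chartAlg P E M yM).algebraMap_mem r, by
      show (cE P E (M * q) r - αE E M q (cE P E M r)) * (cE P E (M * q) w)⁻¹ ∈ V
      rw [alpha_cE, sub_self, zero_mul]
      exact V.zero_mem⟩)
    ⟨yM ^ (q + 1), Subalgebra.pow_mem _ (self_mem_chartAlg M yM) _, by
      have e : y - αE E M q (yM ^ (q + 1)) =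
          αE E M q yM * (βE E M q yM - (αE E M q yM) ^ q) := by
        rw [hC.eq_mul, map_pow]
        ring
      show (y - αE E M q (yM ^ (q + 1))) * (cE P E (M * q) w)⁻¹ ∈ V
      rw [e, mul_assoc]
      exact V.mul_mem _ _ (alpha_mem hVM hV hC.mem) hC.cong₁⟩
  intro b hb
  exact h b (mem_chartAlg_iff.mp hb)

end Congruences

section Charts

variable (hS : Setting P E M q w) {VM : ValuationSubring (_root_.Fermat.Agent.A2.Mod.FE E M)}
  {V : ValuationSubring (_root_.Fermat.Agent.A2.Mod.FE E (M * q))} {W : _root_.Fermat.Agent.A2.Mod.FE E (M * q) ≃ₐ[E] _root_.Fermat.Agent.A2.Mod.FE E (M * q)}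
  {yM : _root_.Fermat.Agent.A2.Mod.FE E M} {y : _root_.Fermat.Agent.A2.Mod.FE E (M * q)} (hC : CoordFacts w VM V W yM y)

include hC in
/-- `α` maps the level-`M` chart into the level-`Mq` chart. -/
theorem alpha_chart_mem {a : _root_.Fermat.Agent.A2.Mod.FE E M} (ha : a ∈ chartAlg P E M yM) :
    αE E M q a ∈ chartAlg P E (M * q) y := by
  rw [mem_chartAlg_iff]
  have h1 := isIntegralElem_map _ (αE E M q : _root_.Fermat.Agent.A2.Mod.FE E M →+* _root_.Fermat.Agent.A2.Mod.FE E (M * q)) (mem_chartAlg_iff.mp ha)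
  have hcomp : (αE E M q : _root_.Fermat.Agent.A2.Mod.FE E M →+* _root_.Fermat.Agent.A2.Mod.FE E (M * q)).comp
      (Polynomial.eval₂RingHom (algebraMap (_root_.Fermat.Agent.A2.Mod.RE P E) (_root_.Fermat.Agent.A2.Mod.FE E M)) yM) =
      Polynomial.eval₂RingHom (algebraMap (_root_.Fermat.Agent.A2.Mod.RE P E) (_root_.Fermat.Agent.A2.Mod.FE E (M * q))) (αE E M q yM) := by
    apply Polynomial.ringHom_ext
    · intro r
      simp only [RingHom.comp_apply, Polynomial.coe_eval₂RingHom, Polynomial.eval₂_C]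
      exact alpha_cE P E M q r
    · simp
  rw [hcomp] at h1
  exact isIntegralElem_trans _ (mem_chartAlg_iff.mp hC.alpha_chart) h1

include hC in
/-- `β` maps the level-`M` chart into the level-`Mq` chart. -/
theorem beta_chart_mem {a : _root_.Fermat.Agent.A2.Mod.FE E M} (ha : a ∈ chartAlg P E M yM) :
    βE E M q a ∈ chartAlg P E (M * q) y := by
  rw [mem_chartAlg_iff]
  have h1 := isIntegralElem_map _ (βE E M q : _root_.Fermat.Agent.A2.Mod.FE E M →+* _root_.Fermat.Agent.A2.Mod.FE E (M * q)) (mem_chartAlg_iff.mp ha)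
  have hcomp : (βE E M q : _root_.Fermat.Agent.A2.Mod.FE E M →+* _root_.Fermat.Agent.A2.Mod.FE E (M * q)).comp
      (Polynomial.eval₂RingHom (algebraMap (_root_.Fermat.Agent.A2.Mod.RE P E) (_root_.Fermat.Agent.A2.Mod.FE E M)) yM) =
      Polynomial.eval₂RingHom (algebraMap (_root_.Fermat.Agent.A2.Mod.RE P E) (_root_.Fermat.Agent.A2.Mod.FE E (M * q))) (βE E M q yM) := by
    apply Polynomial.ringHom_ext
    · intro r
      simp only [RingHom.comp_apply, Polynomial.coe_eval₂RingHom, Polynomial.eval₂_C]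
      exact beta_cE P E M q r
    · simp
  rw [hcomp] at h1
  exact isIntegralElem_trans _ (mem_chartAlg_iff.mp hC.beta_chart) h1

/-- A cut of a chart contained in the valuation ring is a prime ideal. -/
theorem isPrime_of_isCut {N : ℕ} {V : ValuationSubring (_root_.Fermat.Agent.A2.Mod.FE E N)}
    (hu : H48.IsUnif V (cE P E N w)) (B : Subalgebra (_root_.Fermat.Agent.A2.Mod.RE P E) (_root_.Fermat.Agent.A2.Mod.FE E N))
    (hBV : ∀ b ∈ B, b ∈ V) (p : Ideal B) (hp : IsCut P E N w V B p) : p.IsPrime := by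
  let incB : B →+* V := ((B.val : B →ₐ[_root_.Fermat.Agent.A2.Mod.RE P E] _root_.Fermat.Agent.A2.Mod.FE E N) : B →+* _root_.Fermat.Agent.A2.Mod.FE E N).codRestrict V
    (fun b => hBV b b.2)
  let ρ : B →+* IsLocalRing.ResidueField V := (IsLocalRing.residue V).comp incB
  have hker : p = RingHom.ker ρ := by
    ext b
    rw [hp b, RingHom.mem_ker]
    show _ ↔ IsLocalRing.residue V (incB b) = 0
    rw [residue_eq_zero_iff hu]
    rfl
  rw [hker]
  exact RingHom.ker_isPrime ρ

end Charts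

end Fermat.Agent.A2.Mod.H372

end
end
-- ===== PACK-END A2/Mod/H372/S3Sides.lean

-- ===== PACK-BEGIN A2/Mod/H372/S3Noeth.lean
section



/-!
# A2 / MODASM S3 (helper372): the charts of level `Mq` are noetherian

From leaf L8 (`DegStatement`: `x` transcendental over `E`, `[F_{Mq} : E(x)] < ∞`) and
`S18.H394.chart_instances`.
-/

set_option autoImplicit false
set_option synthInstance.maxHeartbeats 400000
set_option maxHeartbeats 1600000
set_option linter.unusedSectionVars false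
set_option linter.style.haveILetI false

noncomputable section

namespace Fermat.Agent.A2.Mod.H372

open ModularCurve HahnSeries Polynomial
open Fermat.Agent.S18

variable {P : ValuationSubring _root_.Fermat.Agent.A2.Mod.Qb} {E : IntermediateField ℚ _root_.Fermat.Agent.A2.Mod.Qb}

/-- `E(x) ⊆ R_E(x)` inside `F`. -/
theorem adjoin_le_baseField {N : ℕ} (x : _root_.Fermat.Agent.A2.Mod.FE E N) {f : _root_.Fermat.Agent.A2.Mod.FE E N}
    (hf : f ∈ IntermediateField.adjoin E ({x} : Set (_root_.Fermat.Agent.A2.Mod.FE E N))) :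
    f ∈ H138.baseField (_root_.Fermat.Agent.A2.Mod.RE P E) x := by
  have hf' : f ∈ Subfield.closure (Set.range (algebraMap E (_root_.Fermat.Agent.A2.Mod.FE E N)) ∪ ({x} : Set (_root_.Fermat.Agent.A2.Mod.FE E N))) := hf
  refine (Subfield.closure_le (t := H138.baseField (_root_.Fermat.Agent.A2.Mod.RE P E) x)).mpr ?_ hf'
  rintro z (⟨e, rfl⟩ | hz)
  · rcases (_root_.Fermat.Agent.A2.Mod.RE P E).mem_or_inv_mem e with he | he
    · exact Subfield.subset_closure (Or.inl ⟨⟨e, he⟩, rfl⟩)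
    · have h1 : algebraMap E (_root_.Fermat.Agent.A2.Mod.FE E N) e⁻¹ ∈ H138.baseField (_root_.Fermat.Agent.A2.Mod.RE P E) x :=
        Subfield.subset_closure (Or.inl ⟨⟨e⁻¹, he⟩, rfl⟩)
      have h2 := (H138.baseField (_root_.Fermat.Agent.A2.Mod.RE P E) x).inv_mem h1
      rwa [map_inv₀, inv_inv] at h2
  · exact Subfield.subset_closure (Or.inr hz)

/-- finiteness over `E(x)` implies finiteness over `R_E(x)`. -/
theorem finiteDimensional_baseField {N : ℕ} (x : _root_.Fermat.Agent.A2.Mod.FE E N)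
    [FiniteDimensional (IntermediateField.adjoin E ({x} : Set (_root_.Fermat.Agent.A2.Mod.FE E N))) (_root_.Fermat.Agent.A2.Mod.FE E N)] :
    FiniteDimensional (H138.baseField (_root_.Fermat.Agent.A2.Mod.RE P E) x) (_root_.Fermat.Agent.A2.Mod.FE E N) := by
  let ι : IntermediateField.adjoin E ({x} : Set (_root_.Fermat.Agent.A2.Mod.FE E N)) →+* H138.baseField (_root_.Fermat.Agent.A2.Mod.RE P E) x :=
    { toFun := fun a => ⟨a, adjoin_le_baseField x a.2⟩
      map_one' := rfl
      map_mul' := fun _ _ => rfl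
      map_zero' := rfl
      map_add' := fun _ _ => rfl }
  letI : Algebra (IntermediateField.adjoin E ({x} : Set (_root_.Fermat.Agent.A2.Mod.FE E N))) (H138.baseField (_root_.Fermat.Agent.A2.Mod.RE P E) x) :=
    ι.toAlgebra
  haveI : IsScalarTower (IntermediateField.adjoin E ({x} : Set (_root_.Fermat.Agent.A2.Mod.FE E N)))
      (H138.baseField (_root_.Fermat.Agent.A2.Mod.RE P E) x) (_root_.Fermat.Agent.A2.Mod.FE E N) := IsScalarTower.of_algebraMap_eq (fun _ => rfl)
  exact Module.Finite.of_restrictScalars_finite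
    (IntermediateField.adjoin E ({x} : Set (_root_.Fermat.Agent.A2.Mod.FE E N))) (H138.baseField (_root_.Fermat.Agent.A2.Mod.RE P E) x) (_root_.Fermat.Agent.A2.Mod.FE E N)

/-- **The charts are noetherian.** -/
theorem isNoetherianRing_chartAlg_of_transcendental {N : ℕ}
    (hdvr : IsDiscreteValuationRing (_root_.Fermat.Agent.A2.Mod.RE P E)) (x : _root_.Fermat.Agent.A2.Mod.FE E N) (hx : Transcendental E x)
    [FiniteDimensional (IntermediateField.adjoin E ({x} : Set (_root_.Fermat.Agent.A2.Mod.FE E N))) (_root_.Fermat.Agent.A2.Mod.FE E N)] :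
    IsNoetherianRing (chartAlg P E N x) ∧ IsNoetherianRing (chartAlg P E N x⁻¹) := by
  haveI := hdvr
  have hinj : Function.Injective (algebraMap (_root_.Fermat.Agent.A2.Mod.RE P E) E) := Subtype.val_injective
  have hxR : Transcendental (_root_.Fermat.Agent.A2.Mod.RE P E) x := hx.restrictScalars hinj
  have hxi : Transcendental E x⁻¹ := fun h => hx (IsAlgebraic.inv_iff.mp h)
  have hxiR : Transcendental (_root_.Fermat.Agent.A2.Mod.RE P E) x⁻¹ := hxi.restrictScalars hinj
  haveI h1 : FiniteDimensional (H138.baseField (_root_.Fermat.Agent.A2.Mod.RE P E) x) (_root_.Fermat.Agent.A2.Mod.FE E N) :=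
    finiteDimensional_baseField x
  haveI h2 : FiniteDimensional (H138.baseField (_root_.Fermat.Agent.A2.Mod.RE P E) x⁻¹) (_root_.Fermat.Agent.A2.Mod.FE E N) := by
    rw [H138.baseField_inv]
    exact h1
  exact ⟨(H394.chart_instances hxR).1, (H394.chart_instances hxiR).1⟩

end Fermat.Agent.A2.Mod.H372

end
end
-- ===== PACK-END A2/Mod/H372/S3Noeth.lean

-- ===== PACK-BEGIN A2/Mod/H372/S3.lean
section



/-!
# A2 / MODASM sub-assembly S3 (helper372): ordinary double points

`s3_of_leaves : (leaves L4, L5, L7, L8, L11, L12 + sub-assembly S2) → S3Statement P E M q w`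
(`Fermat/Agent/A2/Mod/Asm.lean`, VERBATIM).  The leaves L2 (`H553.vinfBasic`) and L13
(`H873.chartCompat`) are used directly (on main).

Proof: `H372.KronCong.sup_isRadical` applied to the restrictions `α, β : B_M → B` of the two
degeneracy maps to the charts (`B_M` = chart of `j^{±1}` at level `M`, `B` = chart of `x^{±1}`
at level `Mq`):

* `KronCong` : L12 gives the Kronecker twist `a'` only in `V∞_M`; `GoodRedAt.normal` brings it
  back into the chart (`SideData.cong`); on `C₀` one transports by the Fricke involutions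
  (L4, L5, L7);
* `α` is onto `B ⧸ p∞` : L11 + `GoodRedAt.normal` (`SideData.surj`);
* the branch `B ⧸ p∞` is a Dedekind domain : S2 (normal), `B` noetherian (L8), dimension one.
-/

set_option autoImplicit false
set_option synthInstance.maxHeartbeats 400000
set_option maxHeartbeats 1600000
set_option linter.unusedSectionVars false
set_option linter.style.haveILetI false

noncomputable section

namespace Fermat.Agent.A2.Mod.H372

open ModularCurve HahnSeries Polynomial

variable (P : ValuationSubring _root_.Fermat.Agent.A2.Mod.Qb) (E : IntermediateField ℚ _root_.Fermat.Agent.A2.Mod.Qb) (M q : ℕ) [NeZero M] [NeZero q]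
  (w : _root_.Fermat.Agent.A2.Mod.RE P E)

/-- **S3 (ordinary double points)** from the leaves and S2. -/
theorem s3_of_leaves (hL4 : FrickeExistsStatement E) (hL5 : FrickeCompatStatement E M q)
    (hL7 : FrickeStableStatement P E M q w) (hL8 : DegStatement E M q)
    (hL11 : ResInfStatement P E M q w) (hL12 : KronStatement P E M q w)
    (hS2 : S2Statement P E M q w) : S3Statement P E M q w := by
  intro hS VM V W hVM hV hW yM y hy hgood p₁ p₂ hc₁ hc₂
  have hC := coordFacts_of_isCoordPair w hS hVM hV hW hy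
  obtain ⟨WM, hWM⟩ := hL4 M hS.M_ne_zero
  have hN := level_ne_zero w hS
  have hu := unifE w hS hN hV
  -- the restrictions of `α`, `β` to the charts
  let α' : chartAlg P E M yM →+* chartAlg P E (M * q) y :=
    ((αE E M q : _root_.Fermat.Agent.A2.Mod.FE E M →+* _root_.Fermat.Agent.A2.Mod.FE E (M * q)).comp
      ((chartAlg P E M yM).val : chartAlg P E M yM →+* _root_.Fermat.Agent.A2.Mod.FE E M)).codRestrict
      (chartAlg P E (M * q) y) (fun a => alpha_chart_mem w hC a.2)
  let β' : chartAlg P E M yM →+* chartAlg P E (M * q) y :=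
    ((βE E M q : _root_.Fermat.Agent.A2.Mod.FE E M →+* _root_.Fermat.Agent.A2.Mod.FE E (M * q)).comp
      ((chartAlg P E M yM).val : chartAlg P E M yM →+* _root_.Fermat.Agent.A2.Mod.FE E M)).codRestrict
      (chartAlg P E (M * q) y) (fun a => beta_chart_mem w hC a.2)
  have hKC : Fermat.Agent.A2.H372.KronCong q α' β' p₁ p₂ := by
    refine ⟨fun a => ?_, fun a => ?_⟩
    · obtain ⟨a', ha', h⟩ := chart_cong₁ w hS hVM hV hC hgood hL12 a a.2
      exact ⟨⟨a', ha'⟩, (hc₁ _).mpr h⟩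
    · obtain ⟨a', ha', h⟩ := chart_cong₂ w hS hVM hV hW hC hgood hL5 hL7 hL12 hWM a a.2
      exact ⟨⟨a', ha'⟩, (hc₂ _).mpr h⟩
  have hsurj := chart_surj w hS hVM hV hC hgood hL11
  have hα : ∀ b : chartAlg P E (M * q) y, ∃ a : chartAlg P E M yM, b - α' a ∈ p₁ := by
    intro b
    obtain ⟨-, a, ha, h⟩ := hsurj b b.2
    exact ⟨⟨a, ha⟩, (hc₁ _).mpr h⟩
  -- the branch is Dedekind
  haveI hp₁ : p₁.IsPrime :=
    isPrime_of_isCut w hu (chartAlg P E (M * q) y) (fun b hb => (hsurj b hb).1) p₁ hc₁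
  obtain ⟨hx, hfr, -⟩ := hL8 hS.q_prime hS.q_not_dvd
  have hpos : 0 < Module.finrank (IntermediateField.adjoin E ({xE E M q} : Set (_root_.Fermat.Agent.A2.Mod.FE E (M * q))))
      (_root_.Fermat.Agent.A2.Mod.FE E (M * q)) := by
    rw [hfr]
    have h1 := dedekindPsi_pos_of_ne_zero M hS.M_ne_zero
    positivity
  haveI hfin : FiniteDimensional (IntermediateField.adjoin E ({xE E M q} : Set (_root_.Fermat.Agent.A2.Mod.FE E (M * q))))
      (_root_.Fermat.Agent.A2.Mod.FE E (M * q)) := Module.finite_of_finrank_pos hpos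
  obtain ⟨hn₁, hn₂⟩ := isNoetherianRing_chartAlg_of_transcendental (P := P) hS.dvr (xE E M q) hx
  haveI hnoeth : IsNoetherianRing (chartAlg P E (M * q) y) := by
    rcases hy with ⟨-, rfl⟩ | ⟨-, rfl⟩
    · exact hn₁
    · exact hn₂
  haveI hic : IsIntegrallyClosed (chartAlg P E (M * q) y ⧸ p₁) :=
    (hS2 hS VM V W hVM hV hW yM y hy hgood p₁ p₂ hc₁ hc₂).1
  haveI := hS.dvr
  have hint : ∀ b : chartAlg P E (M * q) y,
      (Polynomial.eval₂RingHom (algebraMap (_root_.Fermat.Agent.A2.Mod.RE P E) (chartAlg P E (M * q) y))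
        (⟨y, self_mem_chartAlg (M * q) y⟩ : chartAlg P E (M * q) y)).IsIntegralElem b := by
    intro b
    obtain ⟨p, hp, hpb⟩ := mem_chartAlg_iff.mp b.2
    refine ⟨p, hp, Subtype.ext ?_⟩
    have hcomp : ((chartAlg P E (M * q) y).val : chartAlg P E (M * q) y →+* _root_.Fermat.Agent.A2.Mod.FE E (M * q)).comp
        (Polynomial.eval₂RingHom (algebraMap (_root_.Fermat.Agent.A2.Mod.RE P E) (chartAlg P E (M * q) y))
          (⟨y, self_mem_chartAlg (M * q) y⟩ : chartAlg P E (M * q) y)) =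
        Polynomial.eval₂RingHom (algebraMap (_root_.Fermat.Agent.A2.Mod.RE P E) (_root_.Fermat.Agent.A2.Mod.FE E (M * q))) y := by
      apply Polynomial.ringHom_ext
      · intro r
        simp only [RingHom.comp_apply, Polynomial.coe_eval₂RingHom, Polynomial.eval₂_C]
        rfl
      · simp
    have := Polynomial.hom_eval₂ p (Polynomial.eval₂RingHom (algebraMap (_root_.Fermat.Agent.A2.Mod.RE P E)
      (chartAlg P E (M * q) y)) (⟨y, self_mem_chartAlg (M * q) y⟩ : chartAlg P E (M * q) y))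
      ((chartAlg P E (M * q) y).val : chartAlg P E (M * q) y →+* _root_.Fermat.Agent.A2.Mod.FE E (M * q)) b
    rw [hcomp] at this
    rw [ZeroMemClass.coe_zero, ← hpb]
    exact this
  have hpR : ∀ r ∈ IsLocalRing.maximalIdeal (_root_.Fermat.Agent.A2.Mod.RE P E),
      algebraMap (_root_.Fermat.Agent.A2.Mod.RE P E) (chartAlg P E (M * q) y) r ∈ p₁ := by
    intro r hr
    rw [hS.unif.maximalIdeal_eq, Ideal.mem_span_singleton'] at hr
    obtain ⟨s, rfl⟩ := hr
    rw [hc₁]
    show cE P E (M * q) (s * w) * (cE P E (M * q) w)⁻¹ ∈ V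
    have hw0 := cE_ne_zero w hS (M * q)
    have e : cE P E (M * q) (s * w) * (cE P E (M * q) w)⁻¹ = cE P E (M * q) s := by
      have : cE P E (M * q) (s * w) = cE P E (M * q) s * cE P E (M * q) w :=
        map_mul (algebraMap (_root_.Fermat.Agent.A2.Mod.RE P E) (_root_.Fermat.Agent.A2.Mod.FE E (M * q))) s w
      rw [this, mul_assoc, mul_inv_cancel₀ hw0, mul_one]
    rw [e]
    exact cE_mem w hS hV s
  haveI : IsDedekindDomain (chartAlg P E (M * q) y ⧸ p₁) :=
    isDedekindDomain_quotient_of_integral _ _ hint p₁ hpR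
  exact sup_isRadical_of_quotient hS.q_prime.two_le hKC hα

end Fermat.Agent.A2.Mod.H372

end
end
-- ===== PACK-END A2/Mod/H372/S3.lean

-- ===== PACK-BEGIN S35/G/H862/ModelCore.lean
section



/-!
# S35, piece (G') — leaf MODEL, the charts with their cut data (helper862)

`exists_chart_cutBy` : from the sub-assemblies S1, S2, S3 of `A2/Mod/Asm.lean` the semistable chart
`SSChart w (chartAlg y)` TOGETHER with the description of its two components by the valuation rings
`V∞`, `V₀ = V∞ ∘ W` (`CutBy` of `S35/G/SpecLevel.lean`): `B ⊆ V∞`, `B ⊆ V₀`, `p∞ = B ∩ w V∞`,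
`p₀ = B ∩ w V₀`.  (`A2.Mod.nonempty_ssChart` forgets the cut data.)

`B ⊆ V∞, V₀`: `y = α(y_M) β(y_M)` and `W y` are products of `j_d^{±1}`, units of `V∞`
(`H372.CoordFacts`), and valuation rings are integrally closed (`H372.mem_of_isIntegralElem`).
-/

set_option autoImplicit false
set_option linter.style.haveILetI false
set_option linter.unusedSectionVars false
set_option synthInstance.maxHeartbeats 400000
set_option maxHeartbeats 1600000

noncomputable section

namespace Fermat.Agent.S35.G.H862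

open ModularCurve Fermat.Agent.A2.Mod

variable {A : ValuationSubring _root_.Fermat.Agent.S35.G.Qb} {E : IntermediateField ℚ _root_.Fermat.Agent.S35.G.Qb} {M q : ℕ} [NeZero M] [NeZero q]
  {w : RE A E}

/-- The chart of a coordinate `y ∈ {x, x⁻¹}` lies in `V∞`. -/
theorem chartAlg_le_vinf (hS : Setting A E M q w) {VM : ValuationSubring (FE E M)}
    {V : ValuationSubring (FE E (M * q))} {W : FE E (M * q) ≃ₐ[E] FE E (M * q)}
    (hVM : IsVinf A E M VM) (hV : IsVinf A E (M * q) V) (hW : IsFricke E (M * q) W)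
    {yM : FE E M} {y : FE E (M * q)} (hy : IsCoordPair E M q yM y) :
    ∀ b ∈ chartAlg A E (M * q) y, b ∈ V := by
  have hC := H372.coordFacts_of_isCoordPair w hS hVM hV hW hy
  have hyV : y ∈ V := by
    rw [hC.eq_mul]
    exact V.mul_mem _ _ (H372.alpha_mem hVM hV hC.mem) hC.beta_mem
  intro b hb
  exact H372.mem_of_isIntegralElem V (algebraMap (RE A E) (FE E (M * q))) y
    (fun r => H372.cE_mem w hS hV r) hyV (H372.mem_chartAlg_iff.mp hb)

/-- The chart of a coordinate `y ∈ {x, x⁻¹}` lies in `V₀ = V∞ ∘ W`. -/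
theorem chartAlg_le_vzero (hS : Setting A E M q w) {VM : ValuationSubring (FE E M)}
    {V : ValuationSubring (FE E (M * q))} {W : FE E (M * q) ≃ₐ[E] FE E (M * q)}
    (hVM : IsVinf A E M VM) (hV : IsVinf A E (M * q) V) (hW : IsFricke E (M * q) W)
    {yM : FE E M} {y : FE E (M * q)} (hy : IsCoordPair E M q yM y) :
    ∀ b ∈ chartAlg A E (M * q) y,
      b ∈ V.comap (W : FE E (M * q) →+* FE E (M * q)) := by
  have hC := H372.coordFacts_of_isCoordPair w hS hVM hV hW hy
  have hyV : y ∈ V.comap (W : FE E (M * q) →+* FE E (M * q)) := by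
    rw [ValuationSubring.mem_comap]
    show W y ∈ V
    rw [hC.eq_mul, map_mul]
    exact V.mul_mem _ _ hC.alpha_mem₀ hC.beta_mem₀
  intro b hb
  refine H372.mem_of_isIntegralElem (V.comap (W : FE E (M * q) →+* FE E (M * q)))
    (algebraMap (RE A E) (FE E (M * q))) y (fun r => ?_) hyV (H372.mem_chartAlg_iff.mp hb)
  rw [ValuationSubring.mem_comap]
  show W (cE A E (M * q) r) ∈ V
  have hWc : W (cE A E (M * q) r) = cE A E (M * q) r := W.commutes (r : E)
  rw [hWc]
  exact H372.cE_mem w hS hV r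

/-- **The semistable chart with its cut data**, from S1, S2, S3. -/
theorem exists_chart_cutBy (hS : Setting A E M q w)
    (hS1 : S1Statement A E M q w) (hS2 : S2Statement A E M q w) (hS3 : S3Statement A E M q w)
    (VM : ValuationSubring (FE E M)) (V : ValuationSubring (FE E (M * q)))
    (W : FE E (M * q) ≃ₐ[E] FE E (M * q))
    (hVM : IsVinf A E M VM) (hV : IsVinf A E (M * q) V) (hW : IsFricke E (M * q) W)
    (yM : FE E M) (y : FE E (M * q)) (hy : IsCoordPair E M q yM y)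
    (hgood : GoodRedAt A E M w VM yM) :
    ∃ c : A2.SSChart w (chartAlg A E (M * q) y),
      CutBy w (chartAlg A E (M * q) y) c V (V.comap (W : FE E (M * q) →+* FE E (M * q))) := by
  have hy' : IsCoord E M q y := by
    rcases hy with ⟨-, h⟩ | ⟨-, h⟩
    · exact Or.inl h
    · exact Or.inr h
  obtain ⟨p₁, p₂, hc₁, hc₂, hp₁, hp₂, h₁₂, h₂₁, hinf⟩ := hS1 hS V W hV hW y hy'
  obtain ⟨hn₁, hn₂⟩ := hS2 hS VM V W hVM hV hW yM y hy hgood p₁ p₂ hc₁ hc₂
  have hrad := hS3 hS VM V W hVM hV hW yM y hy hgood p₁ p₂ hc₁ hc₂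
  refine ⟨{ p₁ := p₁
            p₂ := p₂
            prime₁ := hp₁
            prime₂ := hp₂
            ne := fun h => h₁₂ (h ▸ le_refl p₁)
            not_le₁₂ := h₁₂
            not_le₂₁ := h₂₁
            inf_eq := hinf
            normal₁ := hn₁
            normal₂ := hn₂
            transversal := hrad }, ?_⟩
  exact
    { le₁ := chartAlg_le_vinf hS hVM hV hW hy
      le₂ := chartAlg_le_vzero hS hVM hV hW hy
      cut₁ := fun b => hc₁ b
      cut₂ := fun b => hc₂ b }

end Fermat.Agent.S35.G.H862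

end

end
-- ===== PACK-END S35/G/H862/ModelCore.lean

-- ===== PACK-BEGIN A2/Mod/H13/S1.lean
section



/-!
# WALL A2 / MODASM, sub-assembly S1 (helper13): the two components of the special fibre

`s1 : VzeroNeStatement → DegStatement → IndInfStatement → IndZeroStatement → S1Statement`
(leaves L6, L8, L9, L10 of `Mod/Spec.lean`; L2 and L3 are used from main).

For both charts `B = chartAlg y`, `y ∈ {x, x⁻¹}`, `x = j · j_q`: the ideals `p∞ = B ∩ w V∞`,
`p₀ = B ∩ w V₀` are prime, incomparable, and `p∞ ⊓ p₀ = w B` (the special fibre is reduced with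
exactly two components).  Proof: `Frame.lean` (leaves ⟹ frame) + helper489's
`frame_exists_components(_inv)` (frame ⟹ components; two-extension theorem + QEP2).
-/

set_option autoImplicit false
set_option linter.unusedSectionVars false
set_option linter.style.haveILetI false
set_option synthInstance.maxHeartbeats 400000
set_option maxHeartbeats 1600000

noncomputable section

namespace Fermat.Agent.A2.Mod.H13

open ModularCurve HahnSeries Polynomial IntermediateField
open Fermat.Agent.A2 Fermat.Agent.A2.Mod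

variable {P : ValuationSubring _root_.Fermat.Agent.A2.Mod.Qb} {E : IntermediateField ℚ _root_.Fermat.Agent.A2.Mod.Qb} {M q : ℕ} [NeZero M] [NeZero q]
  {w : _root_.Fermat.Agent.A2.Mod.RE P E}

/-- **S1.** -/
theorem s1 (hL6 : VzeroNeStatement P E M q w) (hL8 : DegStatement E M q)
    (hL9 : IndInfStatement P E M q w) (hL10 : IndZeroStatement P E M q w) :
    S1Statement P E M q w := by
  intro hS V W hV hW y hy
  haveI := hS.dvr
  obtain ⟨htr, hfr, -⟩ := hL8 hS.q_prime hS.q_not_dvd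
  obtain ⟨b, hb, hbI⟩ := hL9 hS V hV
  obtain ⟨c, hc, hcI⟩ := hL10 hS V W hV hW
  have hu : H48.IsUnif V (cE P E (M * q) w) :=
    (H553.vinfBasic P E w (M * q) (NeZero.ne _) hS.dvr hS.unif V hV).1
  have hu₂ := isUnif_comap hu W
  have hG₁ := isGaussOver_xE hS.unif hV htr
  have hG₂ := isGaussOver_comap_xE hS.unif hV hW htr
  have hne : V ≠ V.comap (W : _root_.Fermat.Agent.A2.Mod.FE E (M * q) →+* _root_.Fermat.Agent.A2.Mod.FE E (M * q)) :=
    fun h => hL6 hS V W hV hW h.symm
  have hpos : 0 < Module.finrank (IntermediateField.adjoin E ({xE E M q} : Set (_root_.Fermat.Agent.A2.Mod.FE E (M * q))))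
      (_root_.Fermat.Agent.A2.Mod.FE E (M * q)) := by
    rw [hfr]
    have h1 := dedekindPsi_pos_of_ne_zero M (NeZero.ne M)
    positivity
  haveI hfin : FiniteDimensional (IntermediateField.adjoin E ({xE E M q} : Set (_root_.Fermat.Agent.A2.Mod.FE E (M * q))))
      (_root_.Fermat.Agent.A2.Mod.FE E (M * q)) := Module.finite_of_finrank_pos hpos
  have hdeg : Module.finrank (IntermediateField.adjoin E ({xE E M q} : Set (_root_.Fermat.Agent.A2.Mod.FE E (M * q))))
      (_root_.Fermat.Agent.A2.Mod.FE E (M * q)) ≤ (q + 1) * dedekindPsi M + (q + 1) * dedekindPsi M := by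
    rw [hfr, two_mul]
  have hI₁ := polyIndepMod_of_indepMod hS.unif hu hbI
  have hI₂ := polyIndepMod_of_indepMod hS.unif hu₂ hcI
  rcases hy with rfl | rfl
  · obtain ⟨p₁, p₂, hc₁, hc₂, hp₁, hp₂, -, h₁₂, h₂₁, hinf⟩ :=
      H489.frame_exists_components (E := E) hS.unif hG₁ hG₂ hu hu₂ hne hb hc hI₁ hI₂ hdeg
        (chartAlg P E (M * q) (xE E M q)) (fun _ => Iff.rfl)
    exact ⟨p₁, p₂, fun b => (hc₁ b).trans (inW_iff_mem_nonunits hu _).symm,
      fun b => (hc₂ b).trans (inW_iff_mem_nonunits hu₂ _).symm, hp₁, hp₂, h₁₂, h₂₁, hinf⟩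
  · obtain ⟨p₁, p₂, hc₁, hc₂, hp₁, hp₂, -, h₁₂, h₂₁, hinf⟩ :=
      H489.frame_exists_components_inv (E := E) hS.unif hG₁ hG₂ hu hu₂ hne hb hc hI₁ hI₂ hdeg
        (chartAlg P E (M * q) (xE E M q)⁻¹) (fun _ => Iff.rfl)
    exact ⟨p₁, p₂, fun b => (hc₁ b).trans (inW_iff_mem_nonunits hu _).symm,
      fun b => (hc₂ b).trans (inW_iff_mem_nonunits hu₂ _).symm, hp₁, hp₂, h₁₂, h₂₁, hinf⟩

end Fermat.Agent.A2.Mod.H13

end
end
-- ===== PACK-END A2/Mod/H13/S1.lean

-- ===== PACK-BEGIN A2/Mod/H142/S2Final.lean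
section




/-!
# A2 / MODASM sub-assembly S2 (components normal), unconditional (helper142)

`s2 : S2Statement P E M q w` (VERBATIM `A2/Mod/Asm.lean`), from `s2_of_leaves` with the leaves
L7 (`H900.frickeStable`) and L11 (`H378.resInf`) taken from main.
-/

set_option autoImplicit false
set_option synthInstance.maxHeartbeats 400000
set_option maxHeartbeats 1600000

namespace Fermat.Agent.A2.Mod.H142

/-- **MODASM sub-assembly S2** (components of the special fibre are normal). -/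
theorem s2 (P : ValuationSubring _root_.Fermat.Agent.A2.Mod.Qb) (E : IntermediateField ℚ _root_.Fermat.Agent.A2.Mod.Qb) (M q : ℕ) [NeZero M]
    [NeZero q] (w : _root_.Fermat.Agent.A2.Mod.RE P E) : S2Statement P E M q w :=
  s2_of_leaves P E M q w (H900.frickeStable P E M q w) (H378.resInf P E M q w)

end Fermat.Agent.A2.Mod.H142

end
-- ===== PACK-END A2/Mod/H142/S2Final.lean

-- ===== PACK-BEGIN A2/Mod/H216/Bridge.lean
section





/-!
# A2 / GOODRED (helper216): the BRIDGE between the `E`-level objects of `A2/Mod/Spec.lean`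
and the concrete objects of row S18 (`S18/Mod/Defs.lean`)

`F_{M,E} = FE E M ⊆ E((t))` (A2 language)  versus  `Fc M E ⊆ Ω = Om M ⊆ Q̄((t))` (S18 language).

* `bridge E M : FE E M →+* Om M` : coefficientwise embedding `E ⊆ Q̄`; injective, range `Fc M E`;
* `bridge_algebraMap`, `bridge_cE`, `bridge_jE` : constants and generators;
* `bridge_mem_VcSet_iff`  : `H708.IsGaussInt (RE P E) _ f ↔ bridge f ∈ VcSet M P E`
                            (so `IsVinf V` means `f ∈ V ↔ bridge f ∈ VcSet`);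
* `bridge_mem_chart_iff`  : `f ∈ Mod.chart P E M y ↔ bridge f ∈ S18.Alg.chart Fc R (bridge y)`.
-/

set_option autoImplicit false
set_option linter.unusedSectionVars false
set_option linter.style.haveILetI false
set_option synthInstance.maxHeartbeats 400000
set_option maxHeartbeats 1600000

noncomputable section

namespace Fermat.Agent.A2.Mod.H216

open ModularCurve HahnSeries Polynomial

variable (P : ValuationSubring _root_.Fermat.Agent.A2.Mod.Qb) (E : IntermediateField ℚ _root_.Fermat.Agent.A2.Mod.Qb) (M : ℕ)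

/-- The coefficientwise embedding `F_{M,E} → Ω = F_M`. -/
def bridge : _root_.Fermat.Agent.A2.Mod.FE E M →+* S18.Mod.Om M where
  toFun f := ⟨coeffMap (algebraMap E _root_.Fermat.Agent.A2.Mod.Qb) (f : LaurentSeries E),
    S18.H602.coeffMap_mem_laurentBaseChange _ _ f.2⟩
  map_one' := Subtype.ext (by simp)
  map_mul' x y := Subtype.ext (by simp)
  map_zero' := Subtype.ext (by simp)
  map_add' x y := Subtype.ext (by simp)

variable {E M}

theorem coe_bridge (f : _root_.Fermat.Agent.A2.Mod.FE E M) :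
    ((bridge E M f : S18.Mod.Om M) : LaurentSeries _root_.Fermat.Agent.A2.Mod.Qb) =
      coeffMap (algebraMap E _root_.Fermat.Agent.A2.Mod.Qb) (f : LaurentSeries E) := rfl

theorem bridge_injective : Function.Injective (bridge E M) := by
  intro x y h
  have h1 : coeffMap (algebraMap E _root_.Fermat.Agent.A2.Mod.Qb) (x : LaurentSeries E) =
      coeffMap (algebraMap E _root_.Fermat.Agent.A2.Mod.Qb) (y : LaurentSeries E) := congrArg Subtype.val h
  exact Subtype.ext (S18.H602.coeffMap_injective _ (algebraMap E _root_.Fermat.Agent.A2.Mod.Qb).injective h1)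

theorem bridge_mem_Fc (f : _root_.Fermat.Agent.A2.Mod.FE E M) : bridge E M f ∈ S18.Mod.Fc M E := by
  obtain ⟨g, hg, hgf⟩ := S18.H576.exists_mem_Fc_of_mem_FE (M := M) (E := E) f.2
  have : bridge E M f = g := Subtype.ext (by rw [coe_bridge, hgf])
  rw [this]
  exact hg

theorem exists_bridge_eq {g : S18.Mod.Om M} (hg : g ∈ S18.Mod.Fc M E) :
    ∃ f : _root_.Fermat.Agent.A2.Mod.FE E M, bridge E M f = g := by
  obtain ⟨y, hy, hyg⟩ := S18.H576.descendsTo_of_mem_Fc hg
  exact ⟨⟨y, hy⟩, Subtype.ext hyg⟩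

theorem bridge_algebraMap (e : E) :
    bridge E M (algebraMap E (_root_.Fermat.Agent.A2.Mod.FE E M) e) = algebraMap _root_.Fermat.Agent.A2.Mod.Qb (S18.Mod.Om M) (e : _root_.Fermat.Agent.A2.Mod.Qb) := by
  apply Subtype.ext
  rw [coe_bridge]
  exact S18.H602.coeffMap_algebraMap' (algebraMap E _root_.Fermat.Agent.A2.Mod.Qb) e

theorem bridge_cE (r : _root_.Fermat.Agent.A2.Mod.RE P E) :
    bridge E M (cE P E M r) = S18.H576.iotaR M P E r :=
  bridge_algebraMap (r : E)

theorem bridge_cE_mem_Rc (r : _root_.Fermat.Agent.A2.Mod.RE P E) : bridge E M (cE P E M r) ∈ S18.Mod.Rc M P E := by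
  rw [bridge_cE]
  exact S18.H576.mem_Rc_iff_exists_iotaR.2 ⟨r, rfl⟩

theorem bridge_jE (d : ℕ) [NeZero d] (hd : d ∣ M) :
    bridge E M (jE E M d hd) = S18.Mod.jd M d hd := by
  apply Subtype.ext
  rw [coe_bridge]
  exact S18.H602.coeffMap_coeffEmb' (algebraMap E _root_.Fermat.Agent.A2.Mod.Qb) _

/-! ### The Gauss valuation ring -/

theorem bridge_mem_VcSet_iff (f : _root_.Fermat.Agent.A2.Mod.FE E M) :
    bridge E M f ∈ S18.Mod.VcSet M P E ↔
      H708.IsGaussInt (_root_.Fermat.Agent.A2.Mod.RE P E) (modularFunctionFieldFull M) (f : LaurentSeries E) := by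
  constructor
  · intro hf
    obtain ⟨V₁, V₂, h2, h⟩ := S18.H576.exists_rep_of_mem_VcSet hf
    refine ⟨V₁.1, V₂.1, h2, V₂.2, ?_⟩
    apply S18.H602.coeffMap_injective _ (algebraMap E _root_.Fermat.Agent.A2.Mod.Qb).injective
    have h' := congrArg Subtype.val h
    rw [map_mul]
    exact h'
  · rintro ⟨U₁, U₂, h0, hm, he⟩
    have hm1 : coeffMap (_root_.Fermat.Agent.A2.Mod.RE P E).subtype U₁ ∈
        laurentBaseChange E (modularFunctionFieldFull M) := by
      have : H708.incl (_root_.Fermat.Agent.A2.Mod.RE P E) U₁ = (f : LaurentSeries E) * H708.incl (_root_.Fermat.Agent.A2.Mod.RE P E) U₂ := he.symm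
      show H708.incl (_root_.Fermat.Agent.A2.Mod.RE P E) U₁ ∈ _
      rw [this]
      exact mul_mem f.2 hm
    refine S18.H576.mem_VcSet_of_rep (M := M) (A := P) (E := E) ⟨U₁, hm1⟩ ⟨U₂, hm⟩ h0 ?_
    apply Subtype.ext
    show coeffMap (algebraMap E _root_.Fermat.Agent.A2.Mod.Qb) (f : LaurentSeries E) *
        coeffMap (algebraMap E _root_.Fermat.Agent.A2.Mod.Qb) (coeffMap (_root_.Fermat.Agent.A2.Mod.RE P E).subtype U₂) =
      coeffMap (algebraMap E _root_.Fermat.Agent.A2.Mod.Qb) (coeffMap (_root_.Fermat.Agent.A2.Mod.RE P E).subtype U₁)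
    rw [← map_mul]
    exact congrArg _ he

theorem mem_iff_bridge_mem_VcSet {V : ValuationSubring (_root_.Fermat.Agent.A2.Mod.FE E M)} (hV : IsVinf P E M V)
    (f : _root_.Fermat.Agent.A2.Mod.FE E M) : f ∈ V ↔ bridge E M f ∈ S18.Mod.VcSet M P E := by
  rw [bridge_mem_VcSet_iff]
  exact hV f

theorem mem_iff_bridge_mem_Vc {V : ValuationSubring (_root_.Fermat.Agent.A2.Mod.FE E M)} (hV : IsVinf P E M V)
    (f : _root_.Fermat.Agent.A2.Mod.FE E M) : f ∈ V ↔ bridge E M f ∈ S18.Mod.H216.Vc M P E := by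
  rw [mem_iff_bridge_mem_VcSet P hV]
  rw [← S18.Mod.H216.coe_Vc M P E]
  rfl

/-! ### The charts -/

section Chart

variable (y : _root_.Fermat.Agent.A2.Mod.FE E M)

/-- The structure map `R_E → F_{M,E}`. -/
abbrev c0 (P : ValuationSubring _root_.Fermat.Agent.A2.Mod.Qb) (E : IntermediateField ℚ _root_.Fermat.Agent.A2.Mod.Qb) (M : ℕ) : _root_.Fermat.Agent.A2.Mod.RE P E →+* _root_.Fermat.Agent.A2.Mod.FE E M :=
  (algebraMap E (_root_.Fermat.Agent.A2.Mod.FE E M)).comp (_root_.Fermat.Agent.A2.Mod.RE P E).subtype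

/-- `R_E → R = Rc M P E`. -/
def toRc (P : ValuationSubring _root_.Fermat.Agent.A2.Mod.Qb) (E : IntermediateField ℚ _root_.Fermat.Agent.A2.Mod.Qb) (M : ℕ) :
    _root_.Fermat.Agent.A2.Mod.RE P E →+* ↥(S18.Mod.Rc M P E) :=
  ((bridge E M).comp (c0 P E M)).codRestrict (S18.Mod.Rc M P E) (fun r => bridge_cE_mem_Rc P r)

theorem coe_toRc (r : _root_.Fermat.Agent.A2.Mod.RE P E) :
    ((toRc P E M r : ↥(S18.Mod.Rc M P E)) : S18.Mod.Om M) = bridge E M (c0 P E M r) := rfl

theorem toRc_surjective : Function.Surjective (toRc P E M) := by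
  rintro ⟨u, hu⟩
  obtain ⟨r, hr⟩ := S18.H576.mem_Rc_iff_exists_iotaR.1 hu
  have hr' : bridge E M (cE P E M (show _root_.Fermat.Agent.A2.Mod.RE P E from r)) = u := by
    rw [bridge_cE]
    exact hr
  exact ⟨(show _root_.Fermat.Agent.A2.Mod.RE P E from r), Subtype.ext hr'⟩

/-- `bridge (a(y)) = (ρ a)(bridge y)` for `a ∈ R_E[X]`. -/
theorem bridge_eval₂ (a : Polynomial (_root_.Fermat.Agent.A2.Mod.RE P E)) :
    bridge E M (a.eval₂ (c0 P E M) y) =
      S18.Mod.H216.evR (S18.Mod.Rc M P E) (bridge E M y) (a.map (toRc P E M)) := by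
  rw [S18.Mod.H216.evR_apply, Polynomial.eval₂_map, Polynomial.hom_eval₂]
  rfl

theorem bridge_eval₂_mem_polyRing (a : Polynomial (_root_.Fermat.Agent.A2.Mod.RE P E)) :
    bridge E M (a.eval₂ (c0 P E M) y) ∈
      S18.Alg.polyRing (S18.Mod.Rc M P E) (bridge E M y) := by
  rw [bridge_eval₂, S18.Mod.H216.mem_polyRing_iff]
  exact ⟨_, rfl⟩

/-- `R_E[X] → R[bridge y]`, `X ↦ bridge y`. -/
def toPolyRing : Polynomial (_root_.Fermat.Agent.A2.Mod.RE P E) →+*
    ↥(S18.Alg.polyRing (S18.Mod.Rc M P E) (bridge E M y)) :=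
  ((bridge E M).comp (Polynomial.eval₂RingHom (c0 P E M) y)).codRestrict _
    (fun a => bridge_eval₂_mem_polyRing P y a)

theorem coe_toPolyRing (a : Polynomial (_root_.Fermat.Agent.A2.Mod.RE P E)) :
    ((toPolyRing P y a : ↥(S18.Alg.polyRing (S18.Mod.Rc M P E) (bridge E M y))) :
      S18.Mod.Om M) = bridge E M (a.eval₂ (c0 P E M) y) := rfl

theorem toPolyRing_surjective : Function.Surjective (toPolyRing P y) := by
  rintro ⟨u, hu⟩
  obtain ⟨p, hp⟩ := (S18.Mod.H216.mem_polyRing_iff _ _).1 hu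
  obtain ⟨a, ha⟩ := Polynomial.map_surjective (toRc P E M) (toRc_surjective P) p
  refine ⟨a, Subtype.ext ?_⟩
  rw [coe_toPolyRing, bridge_eval₂, ha, hp]

theorem subtype_comp_toPolyRing :
    (S18.Alg.polyRing (S18.Mod.Rc M P E) (bridge E M y)).subtype.comp (toPolyRing P y) =
      (bridge E M).comp (Polynomial.eval₂RingHom (c0 P E M) y) :=
  RingHom.ext fun _ => rfl

/-- **The charts correspond.** -/
theorem bridge_mem_chart_iff (f : _root_.Fermat.Agent.A2.Mod.FE E M) :
    f ∈ chart P E M y ↔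
      bridge E M f ∈ S18.Alg.chart (S18.Mod.Fc M E) (S18.Mod.Rc M P E) (bridge E M y) := by
  constructor
  · rintro ⟨p, hpm, hp⟩
    refine ⟨bridge_mem_Fc f, p.map (toPolyRing P y), hpm.map _, ?_⟩
    rw [Polynomial.eval₂_map]
    have h1 : (algebraMap ↥(S18.Alg.polyRing (S18.Mod.Rc M P E) (bridge E M y))
        (S18.Mod.Om M)).comp (toPolyRing P y) =
        (bridge E M).comp (Polynomial.eval₂RingHom (c0 P E M) y) :=
      subtype_comp_toPolyRing P y
    rw [h1, ← Polynomial.hom_eval₂]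
    have hp' : p.eval₂ (Polynomial.eval₂RingHom (c0 P E M) y) f = 0 := hp
    rw [hp', map_zero]
  · rintro ⟨-, p, hpm, hp⟩
    have hl : p ∈ Polynomial.lifts (toPolyRing P y) := by
      rw [Polynomial.lifts_iff_coeff_lifts]
      intro i
      exact toPolyRing_surjective P y _
    obtain ⟨q, hq, -, hqm⟩ := Polynomial.lifts_and_natDegree_eq_and_monic hl hpm
    refine ⟨q, hqm, ?_⟩
    apply bridge_injective
    rw [map_zero, Polynomial.hom_eval₂]
    have h1 : (algebraMap ↥(S18.Alg.polyRing (S18.Mod.Rc M P E) (bridge E M y))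
        (S18.Mod.Om M)).comp (toPolyRing P y) =
        (bridge E M).comp (Polynomial.eval₂RingHom (c0 P E M) y) :=
      subtype_comp_toPolyRing P y
    rw [← h1, ← Polynomial.eval₂_map, hq]
    exact hp

end Chart

end Fermat.Agent.A2.Mod.H216

end
end
-- ===== PACK-END A2/Mod/H216/Bridge.lean

-- ===== PACK-BEGIN S18/B12/H638/Normal.lean
section



/-!
# S18 b2 (helper638): FULL NORMALITY of the special fibre — `B2NormalDomStatement`

Requested by row S37 (helper37, `coord/S37-b2-request.md`): hypothesis (H3) `lift_fin`/`lift_inf`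
of the S37 reduction datum needs b2 for ALL integral elements of `Frac (B/wB)`, not only for
idempotents.

* `H638.B2NormalDomStatement` : the requested statement `B2NormalStatement`, with the extra hypothesis
  `hdom : Prime (algebraMap R[X] B (C w))` (the special fibre is a domain; in the application
  `B/wB` embeds into `κ((q))` by the `q`-expansion principle).
* `B2IntClosedStatement` : same hypotheses, conclusion `IsIntegrallyClosed (B/wB)`.
* `b2IntClosed_of_pieces`, `b2NormalDom_of_pieces` : both from the frozen pieces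
  `B2CoreAbsStatement` (A6'), `RegSeqAbsStatement` (A0), `IntClosedOfDiscrStatement` (A8),
  `PolyInstStatement` (A1) of `B12/Spec*.lean`.
* `b2NormalDom_of_intClosed` : the pure algebra step (no pieces): in a domain `B` with `w` prime and
  `B/wB` integrally closed, `b/g` integral over `B/wB` implies `b ≡ g b₀ mod w`.
-/

set_option autoImplicit false
set_option linter.style.haveILetI false

noncomputable section

namespace Fermat.Agent.S18.B12.H638

open Polynomial

universe u v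

/-- **b2, integrally closed form.**  Hypotheses of `B2RegularStatement`; conclusion: the special
fibre `B/wB` is an integrally closed domain. -/
def B2IntClosedStatement : Prop :=
  ∀ (R : Type u) [CommRing R] [IsDomain R] [IsDiscreteValuationRing R] [CharZero R]
    (w : R) (_ : Irreducible w)
    (B : Type v) [CommRing B] [IsDomain B] [IsIntegrallyClosed B] [Algebra R[X] B]
    [Module.Finite R[X] B] [Module.IsTorsionFree R[X] B]
    (_ : Prime (algebraMap R[X] B (C w)))
    (_ : ∃ x : Fin (Module.finrank R[X] B) → B,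
        ¬ C w ∣ (Matrix.of fun i j => Algebra.intTrace R[X] B (x i * x j)).det)
    (S : Finset R) (_ : ∀ c ∈ S, ∀ c' ∈ S, c ≠ c' → IsUnit (c - c'))
    (_ : ∀ π : R[X], Prime π → ¬ Associated π (C w) → (∀ c ∈ S, ¬ Associated π (X - C c)) →
        (Ideal.span {algebraMap R[X] B π}).IsRadical),
    IsIntegrallyClosed (B ⧸ Ideal.span {algebraMap R[X] B (C w)})

/-- **b2, full normality form (domain case).**  `B2NormalStatement` of
`origin/helper37:coord/S37-b2-request.md` with the extra hypothesis that `w` is prime in `B`: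
if `ε = b/g` satisfies `ε^d + Σ a_i ε^i = 0` in `Frac (B/wB)` then `ε ∈ B/wB`. -/
def B2NormalDomStatement : Prop :=
  ∀ (R : Type u) [CommRing R] [IsDomain R] [IsDiscreteValuationRing R] [CharZero R]
    (w : R) (_ : Irreducible w)
    (B : Type v) [CommRing B] [IsDomain B] [IsIntegrallyClosed B] [Algebra R[X] B]
    [Module.Finite R[X] B] [Module.IsTorsionFree R[X] B]
    (_ : Prime (algebraMap R[X] B (C w)))
    (_ : ∃ x : Fin (Module.finrank R[X] B) → B,
        ¬ C w ∣ (Matrix.of fun i j => Algebra.intTrace R[X] B (x i * x j)).det)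
    (S : Finset R) (_ : ∀ c ∈ S, ∀ c' ∈ S, c ≠ c' → IsUnit (c - c'))
    (_ : ∀ π : R[X], Prime π → ¬ Associated π (C w) → (∀ c ∈ S, ¬ Associated π (X - C c)) →
        (Ideal.span {algebraMap R[X] B π}).IsRadical)
    (b : B) (g : R[X]), ¬ C w ∣ g →
    (∃ (d : ℕ) (a : Fin d → B),
        b ^ d + ∑ i : Fin d, a i * b ^ (i : ℕ) * algebraMap R[X] B g ^ (d - (i : ℕ)) ∈
          Ideal.span {algebraMap R[X] B (C w)}) →
      ∃ b₀ : B, b - algebraMap R[X] B g * b₀ ∈ Ideal.span {algebraMap R[X] B (C w)}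


/-- In a torsion-free integral extension `B` of an integrally closed domain `P`, divisibility of
elements of `P` can be tested in `B`. -/
theorem dvd_of_algebraMap_dvd {P : Type u} {B : Type v} [CommRing P] [IsDomain P]
    [IsIntegrallyClosed P] [CommRing B] [IsDomain B] [Algebra P B] [Algebra.IsIntegral P B]
    [Module.IsTorsionFree P B] (w g : P) (hw : w ≠ 0)
    (h : algebraMap P B w ∣ algebraMap P B g) : w ∣ g := by
  obtain ⟨c, hc⟩ := h
  have hinj : Function.Injective (algebraMap P B) := FaithfulSMul.algebraMap_injective P B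
  let K := FractionRing P
  let L := FractionRing B
  have hinjL : Function.Injective (algebraMap P L) := by
    rw [IsScalarTower.algebraMap_eq P B L]
    exact (IsFractionRing.injective B L).comp hinj
  haveI : FaithfulSMul P L := (faithfulSMul_iff_algebraMap_injective P L).mpr hinjL
  letI : Algebra K L := FractionRing.liftAlgebra P L
  haveI : IsScalarTower P K L := FractionRing.isScalarTower_liftAlgebra P L
  have hwK : algebraMap P K w ≠ 0 := by
    intro h0
    exact hw ((IsFractionRing.injective P K) (by rw [h0, map_zero]))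
  set k : K := algebraMap P K g / algebraMap P K w with hk
  have hkL : algebraMap K L k = algebraMap B L c := by
    have hwL : algebraMap K L (algebraMap P K w) ≠ 0 := by
      intro h0
      exact hwK ((algebraMap K L).injective (by rw [h0, map_zero]))
    rw [hk, map_div₀, div_eq_iff hwL, ← IsScalarTower.algebraMap_apply P K L,
      ← IsScalarTower.algebraMap_apply P K L, IsScalarTower.algebraMap_apply P B L g, hc,
      map_mul, IsScalarTower.algebraMap_apply P B L w, mul_comm]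
  have hint : IsIntegral P k := by
    have h1 : IsIntegral P (algebraMap B L c) :=
      (Algebra.IsIntegral.isIntegral (R := P) c).algebraMap
    rw [← hkL] at h1
    exact (isIntegral_algebraMap_iff (algebraMap K L).injective).mp h1
  obtain ⟨y, hy⟩ := (IsIntegrallyClosed.isIntegral_iff (R := P) (K := K)).mp hint
  refine ⟨y, ?_⟩
  apply IsFractionRing.injective P K
  rw [map_mul, hy, hk, mul_div_cancel₀ _ hwK]

/-- **Pure algebra step.**  `B` a commutative ring, `ϖ ∈ B` prime with `B/ϖB` integrally closed,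
`γ ∉ ϖB`.  If `b^d + Σ_{i<d} a_i b^i γ^(d-i) ∈ ϖB` then `b ≡ γ b₀ mod ϖ` for some `b₀`. -/
theorem exists_sub_mul_mem_of_isIntegrallyClosed {B : Type v} [CommRing B] (ϖ : B)
    (hϖ : Prime ϖ) [IsIntegrallyClosed (B ⧸ Ideal.span {ϖ})] (b γ : B)
    (hγ : γ ∉ Ideal.span {ϖ}) (d : ℕ) (a : Fin d → B)
    (h : b ^ d + ∑ i : Fin d, a i * b ^ (i : ℕ) * γ ^ (d - (i : ℕ)) ∈ Ideal.span {ϖ}) :
    ∃ b₀ : B, b - γ * b₀ ∈ Ideal.span {ϖ} := by
  haveI hprime : (Ideal.span {ϖ}).IsPrime := (Ideal.span_singleton_prime hϖ.ne_zero).mpr hϖ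
  haveI : IsDomain (B ⧸ Ideal.span {ϖ}) := Ideal.Quotient.isDomain _
  set Cq := B ⧸ Ideal.span {ϖ} with hCq
  set K := FractionRing Cq with hK
  let mk : B →+* Cq := Ideal.Quotient.mk _
  have hγ0 : mk γ ≠ 0 := fun h0 => hγ (Ideal.Quotient.eq_zero_iff_mem.mp h0)
  have hγK : algebraMap Cq K (mk γ) ≠ 0 := by
    intro h0
    exact hγ0 ((IsFractionRing.injective Cq K) (by rw [h0, map_zero]))
  -- the equation in `Cq`
  have heq : mk b ^ d + ∑ i : Fin d, mk (a i) * mk b ^ (i : ℕ) * mk γ ^ (d - (i : ℕ)) = 0 := by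
    have := Ideal.Quotient.eq_zero_iff_mem.mpr h
    simpa [map_add, map_sum, map_mul, map_pow] using this
  -- the monic polynomial
  let p : Cq[X] := X ^ d + ∑ i : Fin d, C (mk (a i)) * X ^ (i : ℕ)
  have hlt : (∑ i : Fin d, C (mk (a i)) * X ^ (i : ℕ) : Cq[X]).degree < (d : WithBot ℕ) :=
    Polynomial.degree_sum_fin_lt fun i => mk (a i)
  have hmonic : p.Monic := Polynomial.monic_X_pow_add hlt
  set ε : K := algebraMap Cq K (mk b) / algebraMap Cq K (mk γ) with hε
  have hroot : Polynomial.eval₂ (algebraMap Cq K) ε p = 0 := by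
    have h1 := congrArg (algebraMap Cq K) heq
    simp only [map_add, map_sum, map_mul, map_pow, map_zero] at h1
    have hb : algebraMap Cq K (mk b) = ε * algebraMap Cq K (mk γ) := by
      rw [hε, div_mul_cancel₀ _ hγK]
    simp only [p, Polynomial.eval₂_add, Polynomial.eval₂_pow, Polynomial.eval₂_X,
      Polynomial.eval₂_finsetSum, Polynomial.eval₂_mul, Polynomial.eval₂_C]
    have hgd : (algebraMap Cq K (mk γ)) ^ d ≠ 0 := pow_ne_zero _ hγK
    apply mul_right_cancel₀ hgd
    rw [zero_mul, add_mul, Finset.sum_mul, ← h1, hb]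
    congr 1
    · rw [mul_pow]
    · refine Finset.sum_congr rfl fun i _ => ?_
      have hi : (i : ℕ) + (d - (i : ℕ)) = d := Nat.add_sub_cancel' i.2.le
      calc algebraMap Cq K (mk (a i)) * ε ^ (i : ℕ) * algebraMap Cq K (mk γ) ^ d
          = algebraMap Cq K (mk (a i)) * ε ^ (i : ℕ) *
              (algebraMap Cq K (mk γ) ^ (i : ℕ) * algebraMap Cq K (mk γ) ^ (d - (i : ℕ))) := by
            rw [← pow_add, hi]
        _ = algebraMap Cq K (mk (a i)) * (ε * algebraMap Cq K (mk γ)) ^ (i : ℕ) *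
              algebraMap Cq K (mk γ) ^ (d - (i : ℕ)) := by
            rw [mul_pow]; ring
  have hint : IsIntegral Cq ε := ⟨p, hmonic, hroot⟩
  obtain ⟨c, hc⟩ := (IsIntegrallyClosed.isIntegral_iff (R := Cq) (K := K)).mp hint
  obtain ⟨b₀, rfl⟩ := Ideal.Quotient.mk_surjective c
  refine ⟨b₀, ?_⟩
  rw [← Ideal.Quotient.eq_zero_iff_mem, map_sub, map_mul, sub_eq_zero]
  apply IsFractionRing.injective Cq K
  rw [map_mul]
  change algebraMap Cq K (mk b) = algebraMap Cq K (mk γ) * algebraMap Cq K (mk b₀)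
  rw [hc, hε, mul_div_cancel₀ _ hγK]

/-- `B2IntClosedStatement` from the frozen pieces (first half of `H33.b2Regular_of_pieces`). -/
theorem b2IntClosed_of_pieces
    (hcore : B2CoreAbsStatement.{u, v}) (hA0 : RegSeqAbsStatement.{u, v})
    (hA8 : IntClosedOfDiscrStatement.{u, v}) (hA1 : PolyInstStatement.{u}) :
    B2IntClosedStatement.{u, v} := by
  intro R _ _ _ _ w hw B _ _ _ _ _ _ hdom hsep S hS hNC
  obtain ⟨hCw, hΛ, hΛ₀, hℚ, hc⟩ := hA1 R w hw
  have hJ : (Ideal.span {(C w : R[X])}).map (algebraMap R[X] B)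
      = Ideal.span {algebraMap R[X] B (C w)} := by
    rw [Ideal.map_span, Set.image_singleton]
  rw [← hJ]
  -- instances on the special fibre
  haveI hJprime : ((Ideal.span {(C w : R[X])}).map (algebraMap R[X] B)).IsPrime := by
    rw [hJ]; exact (Ideal.span_singleton_prime hdom.ne_zero).mpr hdom
  haveI := hΛ
  haveI : IsDomain (R[X] ⧸ Ideal.span {(C w : R[X])}) := by
    rw [Ideal.Quotient.isDomain_iff_prime]
    exact (Ideal.span_singleton_prime hCw.ne_zero).mpr hCw
  haveI tf := H33.isTorsionFree_quotient (B := B) hA0 (C w : R[X]) hCw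
  haveI : Module.Finite (R[X] ⧸ Ideal.span {(C w : R[X])})
      (B ⧸ (Ideal.span {(C w : R[X])}).map (algebraMap R[X] B)) :=
    Module.Finite.of_restrictScalars_finite R[X] _ _
  haveI : Module.Free (R[X] ⧸ Ideal.span {(C w : R[X])})
      (B ⧸ (Ideal.span {(C w : R[X])}).map (algebraMap R[X] B)) :=
    Module.free_of_finite_type_torsion_free'
  let bb := Module.finBasis (R[X] ⧸ Ideal.span {(C w : R[X])})
      (B ⧸ (Ideal.span {(C w : R[X])}).map (algebraMap R[X] B))
  -- translate the hypotheses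
  classical
  have hS1' : ∀ s ∈ S.image (fun c => (X - C c : R[X])), Prime s ∧ ¬ Associated s (C w) ∧
      (Ideal.span {(C w : R[X]), s}).IsMaximal ∧
      IsPrincipalIdealRing (R[X] ⧸ Ideal.span {s}) := by
    intro s hs
    obtain ⟨c, -, rfl⟩ := Finset.mem_image.mp hs
    obtain ⟨h1, h2, h3, h4, -⟩ := hc c
    exact ⟨h1, h2, h3, h4⟩
  have hS2' : ∀ s ∈ S.image (fun c => (X - C c : R[X])),
      ∀ s' ∈ S.image (fun c => (X - C c : R[X])), s ≠ s' →
      s' ∉ Ideal.span {(C w : R[X]), s} := by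
    intro s hs s' hs' hne hmem
    obtain ⟨c, hcS, rfl⟩ := Finset.mem_image.mp hs
    obtain ⟨c', hcS', rfl⟩ := Finset.mem_image.mp hs'
    have hcc : c ≠ c' := fun h => hne (by rw [h])
    exact (hc c).2.2.2.2 c' hmem (hS c hcS c' hcS' hcc)
  have hNC' : ∀ π : R[X], Prime π → ¬ Associated π (C w) →
      (∀ s ∈ S.image (fun c => (X - C c : R[X])), ¬ Associated π s) →
      (Ideal.span {algebraMap R[X] B π}).IsRadical := by
    intro π hπ hπw hπS
    exact hNC π hπ hπw (fun c hcS => hπS _ (Finset.mem_image_of_mem _ hcS))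
  have hcore' := hcore R[X] (C w) hCw hΛ hΛ₀ hℚ B hsep (S.image (fun c => (X - C c : R[X])))
    hS1' hS2' hNC'
  -- a prime of `Λ`
  obtain ⟨h01, h02, h03, -, -⟩ := hc 0
  have hw0 : ¬ (C w : R[X]) ∣ X - C 0 := by
    intro hdvd
    obtain ⟨r, hr⟩ := hdvd
    rcases h01.irreducible.isUnit_or_isUnit hr with h | h
    · exact hCw.not_isUnit h
    · exact h02 ⟨h.unit⁻¹, by rw [hr, mul_assoc, IsUnit.mul_val_inv, mul_one]⟩
  have ht₀ := H33.prime_mk_of_isMaximal (C w : R[X]) (X - C 0) hCw h03 hw0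
  have hdisc := (hcore' _ ht₀ _ bb).1
  exact hA8 _ _ _ bb hdisc (fun t ht => (hcore' t ht _ bb).2)

/-- `B2NormalDomStatement` from `B2IntClosedStatement` (pure algebra). -/
theorem b2NormalDom_of_intClosed (hIC : B2IntClosedStatement.{u, v}) :
    B2NormalDomStatement.{u, v} := by
  intro R _ _ _ _ w hw B _ _ _ _ _ _ hdom hsep S hS hNC b g hg hex
  obtain ⟨d, a, h⟩ := hex
  haveI := hIC R w hw B hdom hsep S hS hNC
  refine exists_sub_mul_mem_of_isIntegrallyClosed (algebraMap R[X] B (C w)) hdom b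
    (algebraMap R[X] B g) ?_ d a h
  -- `g ∉ wB` from `¬ C w ∣ g`: `B` is integrally closed, `g / w ∈ Frac R[X]` integral
  intro hmem
  haveI : IsIntegrallyClosed R[X] := inferInstance
  have hCw : (C w : R[X]) ≠ 0 := by
    rw [Ne, Polynomial.C_eq_zero]; exact hw.ne_zero
  exact hg (dvd_of_algebraMap_dvd (P := R[X]) (B := B) (C w) g hCw
    (Ideal.mem_span_singleton.mp hmem))

/-- **`B2NormalDomStatement` from the frozen pieces.** -/
theorem b2NormalDom_of_pieces
    (hcore : B2CoreAbsStatement.{u, v}) (hA0 : RegSeqAbsStatement.{u, v})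
    (hA8 : IntClosedOfDiscrStatement.{u, v}) (hA1 : PolyInstStatement.{u}) :
    B2NormalDomStatement.{u, v} :=
  b2NormalDom_of_intClosed (b2IntClosed_of_pieces hcore hA0 hA8 hA1)

end Fermat.Agent.S18.B12.H638

end
end
-- ===== PACK-END S18/B12/H638/Normal.lean

-- ===== PACK-BEGIN S18/B12/H638/NormalFinal.lean
section











/-!
# S18 b2 (helper638): FULL NORMALITY of the special fibre, UNCONDITIONAL

Assembly of the landed b2.5 pieces (A0, A2, A2' helper93; A3, A4, A5', A1 helper203; A5 helper444;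
A8 helper84 with Theorem L of helper278; heart A6' helper33):

* `b2CoreAbs : B2CoreAbsStatement` (the heart, unconditional);
* `b2IntClosed : B2IntClosedStatement` — `R` DVR of char 0, `B` normal, finite, torsion-free over
  `R[X]`, `w` prime in `B`, `hsep`, branch values `S` distinct mod `w`, unramified outside `S`
  ⟹ `B/wB` is integrally closed;
* `b2NormalDom : B2NormalDomStatement` — the shape requested by row S37
  (`origin/helper37:coord/S37-b2-request.md`, with `hdom`);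
* `b2Regular : B2RegularStatement` (output O1 of `B12/Spec3.lean`).
-/

set_option autoImplicit false

namespace Fermat.Agent.S18.B12.H638

universe u v

/-- The heart A6' of b2, unconditional. -/
theorem b2CoreAbs : B2CoreAbsStatement.{u, v} :=
  H33.b2CoreAbs_of_pieces H93.regSeqAbs H93.localBasis H93.localBasisRank H203.discrRed
    H203.ufdStep H444.genericDiscr H203.redBasisAbs

/-- **b2, integrally closed form, unconditional.** -/
theorem b2IntClosed : B2IntClosedStatement.{u, v} :=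
  b2IntClosed_of_pieces b2CoreAbs H93.regSeqAbs H84.a8 H203.polyInst

/-- **b2, full normality form (domain case), unconditional.** -/
theorem b2NormalDom : B2NormalDomStatement.{u, v} :=
  b2NormalDom_of_intClosed b2IntClosed

/-- **b2, regular form (output O1), unconditional.** -/
theorem b2Regular : B2RegularStatement.{u, v} :=
  H33.b2Regular_of_pieces b2CoreAbs H93.regSeqAbs H84.a8 H84.a9 H203.polyInst

end Fermat.Agent.S18.B12.H638

end
-- ===== PACK-END S18/B12/H638/NormalFinal.lean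

-- ===== PACK-BEGIN S37/Rim/H383/NormalLift.lean
section




/-!
# S37 / RIM-NORMAL (helper383), part 1: the normality lift over a DVR, inside a field

Typed, Mathlib-only consumer of b2 (`Fermat.Agent.S18.B12.H638.b2NormalDom`) and HSEP
(`Fermat.Agent.S18.H425.hsep_poly`).

Setting: `F` a field of characteristic `0`, `R : Subring F` a discrete valuation ring with
uniformiser `w`, `z : F` transcendental over `R`, `B := integralClosure R[z] F` (the chart),
finite over `R[z]` with fraction field `F`; `V : ValuationSubring F` the Gauss valuation ring: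
`R ⊆ V`, `z ∈ V`, `𝔪_V = w V`, and

* `qep`  : `b ∈ B`, `b / w ∈ V` ⟹ `b / w ∈ B`                      (`q`-expansion principle),
* `sepB` : every `f ∈ B` is a simple root mod `w` of a polynomial over `R[z]`,
* `S`, `hS` : branch values, pairwise distinct mod `w`,
* `hNC`  : for a prime `π ∈ R[X]` not associated to `w`, `X - c` (`c ∈ S`): `π(z) B` is radical
           (elementwise form).

**Theorem `exists_chart_lift`**: every `v ∈ V` which is integral over `B` modulo `w`
(`Q(v) ∈ w V` for a monic `Q` with coefficients in `B`) is congruent modulo `w V` to an element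
of `B`.  (Normality of the special fibre `B / w B`.)
-/

set_option autoImplicit false
set_option linter.style.haveILetI false
set_option linter.unusedSectionVars false

noncomputable section

namespace Fermat.Agent.S37.Rim.H383

open Polynomial

variable {F : Type*} [Field F] (R : Subring F) (z : F)

/-- The chart `B`: the integral closure of `R[z]` in `F`. -/
abbrev chartB : Subalgebra (Algebra.adjoin R ({z} : Set F)) F :=
  integralClosure (Algebra.adjoin R ({z} : Set F)) F

/-- The structure map `R[X] → B`, `X ↦ z`. -/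
def polyToChart : Polynomial R →+* chartB R z :=
  (algebraMap (Algebra.adjoin R ({z} : Set F)) (chartB R z)).comp
    ((aeval (⟨z, Algebra.self_mem_adjoin_singleton R z⟩ : Algebra.adjoin R ({z} : Set F)) :
      Polynomial R →ₐ[R] Algebra.adjoin R ({z} : Set F)) : Polynomial R →+*
        Algebra.adjoin R ({z} : Set F))

theorem coe_aeval_adjoin (p : Polynomial R) :
    ((aeval (⟨z, Algebra.self_mem_adjoin_singleton R z⟩ : Algebra.adjoin R ({z} : Set F)) p :
      Algebra.adjoin R ({z} : Set F)) : F) = aeval z p := by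
  have : (aeval (⟨z, Algebra.self_mem_adjoin_singleton R z⟩ :
      Algebra.adjoin R ({z} : Set F)) p : F) =
      (Algebra.adjoin R ({z} : Set F)).val (aeval (⟨z, Algebra.self_mem_adjoin_singleton R z⟩ :
        Algebra.adjoin R ({z} : Set F)) p) := rfl
  rw [this, ← aeval_algHom_apply]
  rfl

@[simp] theorem coe_polyToChart (p : Polynomial R) :
    ((polyToChart R z p : chartB R z) : F) = aeval z p :=
  coe_aeval_adjoin R z p

theorem aeval_surjective_adjoin :
    Function.Surjective (aeval (⟨z, Algebra.self_mem_adjoin_singleton R z⟩ :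
      Algebra.adjoin R ({z} : Set F)) : Polynomial R → Algebra.adjoin R ({z} : Set F)) := by
  rintro ⟨a, ha⟩
  obtain ⟨p, hp⟩ := Algebra.adjoin_mem_exists_aeval R z ha
  exact ⟨p, Subtype.ext (by rw [coe_aeval_adjoin, hp])⟩

theorem polyToChart_injective (hz : Transcendental R z) :
    Function.Injective (polyToChart R z) := by
  intro p q hpq
  have h : aeval z p = aeval z q := by
    rw [← coe_polyToChart, ← coe_polyToChart, hpq]
  exact (transcendental_iff_injective.mp hz) h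


/-! ### The Gauss valuation ring and the chart -/

section Gauss

variable {R z}
variable (V : ValuationSubring F) {w : F} (hwR : w ∈ R)

/-- `R[z] ⊆ V`. -/
theorem adjoin_le_V (hRV : ∀ r ∈ R, r ∈ V) (hzV : z ∈ V) {f : F}
    (hf : f ∈ Algebra.adjoin R ({z} : Set F)) : f ∈ V := by
  obtain ⟨P, rfl⟩ := Algebra.adjoin_mem_exists_aeval R z hf
  rw [aeval_eq_sum_range]
  refine V.toSubring.sum_mem fun i _ => ?_
  rw [Algebra.smul_def]
  exact mul_mem (hRV _ (P.coeff i).2) (pow_mem hzV i)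

/-- `B ⊆ V`: valuation rings are integrally closed. -/
theorem chart_le_V (hRV : ∀ r ∈ R, r ∈ V) (hzV : z ∈ V) {f : F} (hf : f ∈ chartB R z) :
    f ∈ V := by
  let i : Algebra.adjoin R ({z} : Set F) →+* V :=
    (algebraMap (Algebra.adjoin R ({z} : Set F)) F).codRestrict V.toSubring
      (fun a => adjoin_le_V V hRV hzV a.2)
  have hi : (algebraMap V F).comp i = algebraMap (Algebra.adjoin R ({z} : Set F)) F := by
    ext a; rfl
  have hint : IsIntegral V f := by
    obtain ⟨p, hp, hpf⟩ := hf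
    refine ⟨p.map i, hp.map i, ?_⟩
    rw [eval₂_map, hi]
    exact hpf
  obtain ⟨y, hy⟩ := (IsIntegrallyClosed.isIntegral_iff (R := V) (K := F)).1 hint
  rw [← hy]
  exact y.2

/-- the uniformiser as an element of the chart -/
def wB : chartB R z := polyToChart R z (C ⟨w, hwR⟩)

@[simp] theorem coe_wB : ((wB (z := z) hwR : chartB R z) : F) = w := by
  unfold wB
  rw [coe_polyToChart, aeval_C]
  rfl

/-- divisibility by `w` in the chart, elementwise -/
theorem wB_dvd_iff (hw0 : w ≠ 0) (b : chartB R z) :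
    wB (z := z) hwR ∣ b ↔ (b : F) * w⁻¹ ∈ chartB R z := by
  constructor
  · rintro ⟨c, rfl⟩
    have : ((wB (z := z) hwR * c : chartB R z) : F) * w⁻¹ = (c : F) := by
      rw [MulMemClass.coe_mul, coe_wB]
      field_simp
    rw [this]
    exact c.2
  · intro h
    refine ⟨⟨(b : F) * w⁻¹, h⟩, Subtype.ext ?_⟩
    rw [MulMemClass.coe_mul, coe_wB]
    field_simp

/-- divisibility by `π(z)` in the chart, elementwise -/
theorem polyToChart_dvd_iff (π : Polynomial R) (hπ : aeval z π ≠ 0) (b : chartB R z) :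
    polyToChart R z π ∣ b ↔ (b : F) * (aeval z π)⁻¹ ∈ chartB R z := by
  constructor
  · rintro ⟨c, rfl⟩
    have : ((polyToChart R z π * c : chartB R z) : F) * (aeval z π)⁻¹ = (c : F) := by
      rw [MulMemClass.coe_mul, coe_polyToChart]
      field_simp
    rw [this]
    exact c.2
  · intro h
    refine ⟨⟨(b : F) * (aeval z π)⁻¹, h⟩, Subtype.ext ?_⟩
    rw [MulMemClass.coe_mul, coe_polyToChart]
    field_simp

section Prime

variable (hw0 : w ≠ 0) (hRV : ∀ r ∈ R, r ∈ V) (hzV : z ∈ V)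
  (hwV : w⁻¹ ∉ V) (hVgen : ∀ f ∈ V, f⁻¹ ∉ V → f * w⁻¹ ∈ V)
  (qep : ∀ b ∈ chartB R z, b * w⁻¹ ∈ V → b * w⁻¹ ∈ chartB R z)

include hVgen in
/-- In `V`, if `a * b ∈ w V` then `a ∈ w V` or `b ∈ w V`. -/
theorem mem_wV_of_mul_mem {a b : F} (hab : a * b * w⁻¹ ∈ V) (ha : a ∈ V) :
    a * w⁻¹ ∈ V ∨ b * w⁻¹ ∈ V := by
  by_cases ha0 : a = 0
  · left; rw [ha0, zero_mul]; exact V.zero_mem
  by_cases hau : a⁻¹ ∈ V
  · right
    have : b * w⁻¹ = a⁻¹ * (a * b * w⁻¹) := by field_simp
    rw [this]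
    exact mul_mem hau hab
  · left
    exact hVgen a ha hau

include hw0 hRV hzV hwV hVgen qep in
/-- **`w` is a prime element of the chart.** -/
theorem prime_wB : Prime (wB (z := z) hwR) := by
  refine ⟨?_, ?_, ?_⟩
  · intro h
    apply hw0
    have := congrArg (Subtype.val : chartB R z → F) h
    simpa using this
  · rintro ⟨⟨u, v, huv, hvu⟩, hu⟩
    have hv : (v : F) = w⁻¹ := by
      have h1 : (u : F) * (v : F) = 1 := congrArg Subtype.val huv
      have h2 : (u : F) = w := by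
        have h3 : u = wB (z := z) hwR := hu
        rw [h3]; exact coe_wB hwR
      rw [h2] at h1
      exact eq_inv_of_mul_eq_one_right h1
    exact hwV (hv ▸ chart_le_V V hRV hzV v.2)
  · intro a b hab
    rw [wB_dvd_iff hwR hw0] at hab
    have haV := chart_le_V V hRV hzV a.2
    have habV : (a : F) * (b : F) * w⁻¹ ∈ V := by
      have := chart_le_V V hRV hzV hab
      simpa using this
    rcases mem_wV_of_mul_mem V hVgen habV haV with h | h
    · left
      rw [wB_dvd_iff hwR hw0]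
      exact qep _ a.2 h
    · right
      rw [wB_dvd_iff hwR hw0]
      exact qep _ b.2 h

include hwR hw0 hRV qep in
/-- stripping powers of `w`: if `w ^ n * y ∈ B` and `y ∈ V` then `y ∈ B`. -/
theorem mem_chart_of_pow_mul_mem {y : F} (hy : y ∈ V) (n : ℕ)
    (h : w ^ n * y ∈ chartB R z) : y ∈ chartB R z := by
  induction n with
  | zero => simpa using h
  | succ n ih =>
    apply ih
    have h1 : w ^ (n + 1) * y * w⁻¹ = w ^ n * y := by
      rw [pow_succ]; field_simp
    have hwV' : w ∈ V := hRV w hwR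
    have h2 : w ^ (n + 1) * y * w⁻¹ ∈ V := by
      rw [h1]
      exact mul_mem (pow_mem hwV' n) hy
    have := qep _ h h2
    rwa [h1] at this

end Prime

end Gauss

/-! ### The chart as an `R[X]`-algebra -/

section Typed

variable {R z}

/-- the `R[X]`-algebra structure of the chart (`X ↦ z`) -/
@[reducible] def polyAlgebra (R : Subring F) (z : F) : Algebra (Polynomial R) (chartB R z) :=
  (polyToChart R z).toAlgebra

theorem coe_eval₂_chart (b : chartB R z) (P : Polynomial (Polynomial R)) :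
    ((eval₂ (polyToChart R z) b P : chartB R z) : F) =
      (P.map ((aeval z : Polynomial R →ₐ[R] F) : Polynomial R →+* F)).eval (b : F) := by
  have h1 : ((eval₂ (polyToChart R z) b P : chartB R z) : F) =
      (chartB R z).val.toRingHom (eval₂ (polyToChart R z) b P) := rfl
  rw [h1, hom_eval₂, eval_map]
  congr 1
  ext p
  · simp
  · simp

theorem finite_poly [Module.Finite (Algebra.adjoin R ({z} : Set F)) (chartB R z)] :
    @Module.Finite (Polynomial R) (chartB R z) _ _ (polyAlgebra R z).toModule := by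
  letI : Algebra (Polynomial R) (chartB R z) := polyAlgebra R z
  letI : Algebra (Polynomial R) (Algebra.adjoin R ({z} : Set F)) :=
    ((aeval (⟨z, Algebra.self_mem_adjoin_singleton R z⟩ : Algebra.adjoin R ({z} : Set F)) :
      Polynomial R →ₐ[R] Algebra.adjoin R ({z} : Set F)) : Polynomial R →+*
        Algebra.adjoin R ({z} : Set F)).toAlgebra
  haveI : IsScalarTower (Polynomial R) (Algebra.adjoin R ({z} : Set F)) (chartB R z) :=
    IsScalarTower.of_algebraMap_eq (fun _ => rfl)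
  haveI : Module.Finite (Polynomial R) (Algebra.adjoin R ({z} : Set F)) :=
    Module.Finite.of_surjective (Algebra.linearMap (Polynomial R) (Algebra.adjoin R ({z} : Set F)))
      (aeval_surjective_adjoin R z)
  exact Module.Finite.trans (Algebra.adjoin R ({z} : Set F)) (chartB R z)

theorem torsionFree_poly (hz : Transcendental R z) :
    @Module.IsTorsionFree (Polynomial R) (chartB R z) _ _ (polyAlgebra R z).toModule := by
  letI : Algebra (Polynomial R) (chartB R z) := polyAlgebra R z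
  rw [Module.isTorsionFree_iff_algebraMap_injective (R := Polynomial R) (A := chartB R z)]
  exact polyToChart_injective R z hz

end Typed

/-! ### The hypotheses of b2 -/

section Hyps

variable {R z}
variable (V : ValuationSubring F) {w : F} (hwR : w ∈ R)

/-- lifting a polynomial with coefficients in `R[z]` to `R[X][X]` -/
theorem exists_lift_poly (P : Polynomial F)
    (hP : ∀ i, P.coeff i ∈ Algebra.adjoin R ({z} : Set F)) :
    ∃ P' : Polynomial (Polynomial R),
      P'.map ((aeval z : Polynomial R →ₐ[R] F) : Polynomial R →+* F) = P := by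
  have : P ∈ Polynomial.lifts ((aeval z : Polynomial R →ₐ[R] F) : Polynomial R →+* F) := by
    rw [Polynomial.lifts_iff_coeff_lifts]
    intro n
    obtain ⟨p, hp⟩ := Algebra.adjoin_mem_exists_aeval R z (hP n)
    exact ⟨p, hp⟩
  exact (Polynomial.mem_lifts _).mp this

variable (hw0 : w ≠ 0) (hRV : ∀ r ∈ R, r ∈ V) (hzV : z ∈ V) (hwV : w⁻¹ ∉ V)
  (qep : ∀ b ∈ chartB R z, b * w⁻¹ ∈ V → b * w⁻¹ ∈ chartB R z)

include hw0 hRV hzV hwV qep in
/-- the elementwise separability hypothesis of HSEP, from `sepB` -/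
theorem hel_of_sepB
    (sepB : ∀ f ∈ chartB R z, ∃ P : Polynomial F,
      (∀ i, P.coeff i ∈ Algebra.adjoin R ({z} : Set F)) ∧
      P.eval f * w⁻¹ ∈ V ∧ (derivative P).eval f ≠ 0 ∧ ((derivative P).eval f)⁻¹ ∈ V)
    (b : chartB R z) :
    ∃ P : Polynomial (Polynomial R), wB (z := z) hwR ∣ eval₂ (polyToChart R z) b P ∧
      ¬ wB (z := z) hwR ∣ eval₂ (polyToChart R z) b (derivative P) := by
  obtain ⟨P₀, hP₀c, hP₀v, hP₀d, hP₀u⟩ := sepB b b.2
  obtain ⟨P, hP⟩ := exists_lift_poly P₀ hP₀c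
  refine ⟨P, ?_, ?_⟩
  · rw [wB_dvd_iff hwR hw0]
    have h1 : ((eval₂ (polyToChart R z) b P : chartB R z) : F) = P₀.eval (b : F) := by
      rw [coe_eval₂_chart, hP]
    apply qep _ (Subtype.mem _)
    rw [h1]
    exact hP₀v
  · rw [wB_dvd_iff hwR hw0]
    have h1 : ((eval₂ (polyToChart R z) b (derivative P) : chartB R z) : F) =
        (derivative P₀).eval (b : F) := by
      rw [coe_eval₂_chart, ← hP, derivative_map]
    rw [h1]
    intro hmem
    apply hwV
    have hV := chart_le_V V hRV hzV hmem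
    have : w⁻¹ = ((derivative P₀).eval (b : F))⁻¹ * ((derivative P₀).eval (b : F) * w⁻¹) := by
      field_simp
    rw [this]
    exact mul_mem hP₀u hV

/-- the radical hypothesis `hNC` of b2 from its elementwise form -/
theorem isRadical_of_elementwise (hz : Transcendental R z) (π : Polynomial R) (hπ0 : π ≠ 0)
    (h : ∀ f ∈ chartB R z, ∀ n : ℕ, f ^ n * (aeval z π)⁻¹ ∈ chartB R z →
        f * (aeval z π)⁻¹ ∈ chartB R z) :
    (Ideal.span {polyToChart R z π}).IsRadical := by
  have hπz : aeval z π ≠ 0 := by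
    intro h0
    apply hπ0
    apply transcendental_iff_injective.mp hz
    rw [h0, map_zero]
  intro f hf
  obtain ⟨n, hn⟩ := hf
  rw [Ideal.mem_span_singleton] at hn ⊢
  rw [polyToChart_dvd_iff π hπz] at hn ⊢
  have := h f f.2 n (by simpa using hn)
  exact this

end Hyps

/-! ### The normality lift -/

section Main

variable {R z}
variable [CharZero F] [IsDiscreteValuationRing R]
variable [IsIntegrallyClosed (chartB R z)]
  [Module.Finite (Algebra.adjoin R ({z} : Set F)) (chartB R z)]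

/-- **Normality of the special fibre, elementwise (RIM-NORMAL over a DVR).**
Every `v ∈ V` which is integral over the chart `B` modulo `w` is congruent modulo `w V` to an
element of `B`. -/
theorem exists_chart_lift (hz : Transcendental R z)
    (halg : ∀ f : F, IsAlgebraic (Algebra.adjoin R ({z} : Set F)) f)
    (V : ValuationSubring F) {w : F} (hwR : w ∈ R) (hirr : Irreducible (⟨w, hwR⟩ : R))
    (hRV : ∀ r ∈ R, r ∈ V) (hzV : z ∈ V) (hwV : w⁻¹ ∉ V)
    (hVgen : ∀ f ∈ V, f⁻¹ ∉ V → f * w⁻¹ ∈ V)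
    (qep : ∀ b ∈ chartB R z, b * w⁻¹ ∈ V → b * w⁻¹ ∈ chartB R z)
    (sepB : ∀ f ∈ chartB R z, ∃ P : Polynomial F,
      (∀ i, P.coeff i ∈ Algebra.adjoin R ({z} : Set F)) ∧
      P.eval f * w⁻¹ ∈ V ∧ (derivative P).eval f ≠ 0 ∧ ((derivative P).eval f)⁻¹ ∈ V)
    (S : Finset R) (hS : ∀ c ∈ S, ∀ c' ∈ S, c ≠ c' → IsUnit (c - c'))
    (hNC : ∀ π : Polynomial R, Prime π → ¬ Associated π (C ⟨w, hwR⟩) →
      (∀ c ∈ S, ¬ Associated π (X - C c)) →
      ∀ f ∈ chartB R z, ∀ n : ℕ, f ^ n * (aeval z π)⁻¹ ∈ chartB R z →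
        f * (aeval z π)⁻¹ ∈ chartB R z)
    {v : F} (hv : v ∈ V) (Q : Polynomial F) (hQ : Q.Monic)
    (hQc : ∀ i, Q.coeff i ∈ chartB R z) (hQv : Q.eval v * w⁻¹ ∈ V) :
    ∃ b ∈ chartB R z, (v - b) * w⁻¹ ∈ V := by
  classical
  have hw0 : w ≠ 0 := fun h => hirr.ne_zero (Subtype.ext h)
  have hwVmem : w ∈ V := hRV w hwR
  letI : Algebra (Polynomial R) (chartB R z) := polyAlgebra R z
  haveI : Module.Finite (Polynomial R) (chartB R z) := finite_poly
  haveI : Module.IsTorsionFree (Polynomial R) (chartB R z) := torsionFree_poly hz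
  haveI : CharZero R := RingHom.charZero R.subtype
  have hdom : Prime (algebraMap (Polynomial R) (chartB R z) (C ⟨w, hwR⟩)) :=
    prime_wB V hwR hw0 hRV hzV hwV hVgen qep
  have hel : ∀ b : chartB R z, ∃ P : Polynomial (Polynomial R),
      algebraMap (Polynomial R) (chartB R z) (C ⟨w, hwR⟩) ∣ aeval b P ∧
      ¬ algebraMap (Polynomial R) (chartB R z) (C ⟨w, hwR⟩) ∣ aeval b (derivative P) :=
    fun b => hel_of_sepB V hwR hw0 hRV hzV hwV qep sepB b
  have hsep := Fermat.Agent.S18.H425.hsep_poly R ⟨w, hwR⟩ hirr (chartB R z) hdom hel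
  have hNC' : ∀ π : Polynomial R, Prime π → ¬ Associated π (C ⟨w, hwR⟩) →
      (∀ c ∈ S, ¬ Associated π (X - C c)) →
      (Ideal.span {algebraMap (Polynomial R) (chartB R z) π}).IsRadical :=
    fun π hπ h1 h2 => isRadical_of_elementwise hz π hπ.ne_zero (hNC π hπ h1 h2)
  -- a denominator `g ∈ R[X]`, `w ∤ g`, with `g(z) v ∈ B`
  obtain ⟨g₀, hg₀, hint⟩ := (halg v).exists_integral_multiple
  obtain ⟨G, hG⟩ := aeval_surjective_adjoin R z g₀
  have hG0 : G ≠ 0 := by
    rintro rfl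
    apply hg₀
    rw [← hG, map_zero]
  have hCw : Prime (C (⟨w, hwR⟩ : R) : Polynomial R) := Polynomial.prime_C_iff.mpr hirr.prime
  obtain ⟨n, g, hng, hGeq⟩ := WfDvdMonoid.max_power_factor hG0 hCw.irreducible
  have hgz : aeval z G = w ^ n * aeval z g := by
    rw [hGeq, map_mul, map_pow, aeval_C]
    rfl
  have hgV : aeval z g ∈ V :=
    adjoin_le_V V hRV hzV (by
      rw [← coe_aeval_adjoin]; exact Subtype.mem _)
  have hgvV : aeval z g * v ∈ V := mul_mem hgV hv
  have hbB : aeval z g * v ∈ chartB R z := by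
    apply mem_chart_of_pow_mul_mem V hwR hw0 hRV qep hgvV n
    have : w ^ n * (aeval z g * v) = g₀ • v := by
      rw [← mul_assoc, ← hgz, ← coe_aeval_adjoin, hG]
      rfl
    rw [this]
    exact hint
  -- `g(z)` is a unit of `V`
  have hgunit : (aeval z g)⁻¹ ∈ V := by
    by_contra hcon
    have h1 : aeval z g * w⁻¹ ∈ V := hVgen _ hgV hcon
    have h2 : aeval z g * w⁻¹ ∈ chartB R z := by
      have hmem : aeval z g ∈ chartB R z := by
        rw [← coe_polyToChart]; exact Subtype.mem _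
      exact qep _ hmem h1
    have h3 : algebraMap (Polynomial R) (chartB R z) (C ⟨w, hwR⟩) ∣
        algebraMap (Polynomial R) (chartB R z) g := by
      have := (wB_dvd_iff (z := z) hwR hw0 (polyToChart R z g)).mpr (by simpa using h2)
      exact this
    haveI : Algebra.IsIntegral (Polynomial R) (chartB R z) := Algebra.IsIntegral.of_finite _ _
    haveI hic : IsIntegrallyClosed (Polynomial R) := inferInstance
    have h7 : (C (⟨w, hwR⟩ : R) : Polynomial R) ∣ g :=
      Fermat.Agent.S18.B12.H638.dvd_of_algebraMap_dvd (P := Polynomial R) (B := chartB R z)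
        (C ⟨w, hwR⟩) g hCw.ne_zero h3
    exact hng h7
  -- the integrality relation
  set d := Q.natDegree with hd
  let a : Fin d → chartB R z := fun i => ⟨Q.coeff i, hQc i⟩
  let b : chartB R z := ⟨aeval z g * v, hbB⟩
  have hrel : b ^ d + ∑ i : Fin d, a i * b ^ (i : ℕ) *
      algebraMap (Polynomial R) (chartB R z) g ^ (d - (i : ℕ)) ∈
        Ideal.span {algebraMap (Polynomial R) (chartB R z) (C ⟨w, hwR⟩)} := by
    rw [Ideal.mem_span_singleton]
    have hval : ((b ^ d + ∑ i : Fin d, a i * b ^ (i : ℕ) *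
        algebraMap (Polynomial R) (chartB R z) g ^ (d - (i : ℕ)) : chartB R z) : F) =
        aeval z g ^ d * Q.eval v := by
      have hQsum : Q.eval v = v ^ d + ∑ i : Fin d, Q.coeff i * v ^ (i : ℕ) := by
        conv_lhs => rw [hQ.as_sum]
        rw [eval_add, eval_pow, eval_X, eval_finsetSum, Finset.sum_range]
        congr 1
        refine Finset.sum_congr rfl fun i _ => ?_
        rw [eval_mul, eval_C, eval_pow, eval_X]
      rw [hQsum, mul_add, Finset.mul_sum]
      push_cast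
      congr 1
      · show (aeval z g * v) ^ d = _
        rw [mul_pow]
      · refine Finset.sum_congr rfl fun i _ => ?_
        show Q.coeff i * (aeval z g * v) ^ (i : ℕ) *
          ((polyToChart R z g : chartB R z) : F) ^ (d - (i : ℕ)) = _
        rw [coe_polyToChart, mul_pow]
        have hi : (i : ℕ) + (d - (i : ℕ)) = d := by
          have := i.2
          omega
        calc Q.coeff i * (aeval z g ^ (i : ℕ) * v ^ (i : ℕ)) * aeval z g ^ (d - (i : ℕ))
            = aeval z g ^ ((i : ℕ) + (d - (i : ℕ))) * (Q.coeff i * v ^ (i : ℕ)) := by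
              rw [pow_add]; ring
          _ = aeval z g ^ d * (Q.coeff i * v ^ (i : ℕ)) := by rw [hi]
    apply (wB_dvd_iff (z := z) hwR hw0 _).mpr
    apply qep _ (Subtype.mem _)
    rw [hval, mul_assoc]
    exact mul_mem (pow_mem hgV d) hQv
  obtain ⟨b₀, hb₀⟩ := Fermat.Agent.S18.B12.H638.b2NormalDom R ⟨w, hwR⟩ hirr (chartB R z) hdom
    hsep S hS hNC' b g hng ⟨d, a, hrel⟩
  refine ⟨b₀, b₀.2, ?_⟩
  rw [Ideal.mem_span_singleton] at hb₀
  have h4 := (wB_dvd_iff (z := z) hwR hw0 _).mp hb₀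
  have h5 : ((b - algebraMap (Polynomial R) (chartB R z) g * b₀ : chartB R z) : F) =
      aeval z g * (v - b₀) := by
    push_cast
    show aeval z g * v - ((polyToChart R z g : chartB R z) : F) * (b₀ : F) = _
    rw [coe_polyToChart]
    ring
  rw [h5] at h4
  have h6 := chart_le_V V hRV hzV h4
  have hg0 : aeval z g ≠ 0 := by
    intro h0
    apply hng
    have : g = 0 := by
      apply transcendental_iff_injective.mp hz
      rw [h0, map_zero]
    rw [this]
    exact dvd_zero _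
  have : (v - b₀) * w⁻¹ = (aeval z g)⁻¹ * (aeval z g * (v - b₀) * w⁻¹) := by
    field_simp
  rw [this]
  exact mul_mem hgunit h6

end Main

end Fermat.Agent.S37.Rim.H383

end
end
-- ===== PACK-END S37/Rim/H383/NormalLift.lean

-- ===== PACK-BEGIN S37/Rim/H383/NormalAbs.lean
section






/-!
# S37 board v3, leaf D2 (helper383): normality of the special fibre of a good model

`normalAbs` : for `G : Alg.GoodModel Lc Ec Fc R V w x S` (frozen interface of row S18), an element
`f ∈ V` which is a root modulo `w` of a monic polynomial over `R[x]` is congruent modulo `w` to an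
element of the chart `B = {b ∈ Fc integral over R[x]}`:

    ∀ f ∈ V, ∀ P : Polynomial Ω, P.Monic → (∀ i, P.coeff i ∈ Alg.polyRing R x) →
      P.eval f * w⁻¹ ∈ V → ∃ b ∈ Alg.chart Fc R x, (f - b) * w⁻¹ ∈ V

This is `NormalAbsStatement` of helper37's `Core/Skeleton4.lean` (board v3), universe-polymorphic.
Proof: `exists_chart_lift` (`NormalLift.lean`) applied inside the field `Fc`, with the hypotheses
supplied by helper438's front (`S18/H438/Front`), helper754's `hNC_typed` and the field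
`separable` of `GoodModel`.  `normalAbs_inv` is the same statement on the chart at infinity.
-/

set_option autoImplicit false
set_option linter.style.haveILetI false
set_option linter.unusedSectionVars false

noncomputable section

namespace Fermat.Agent.S37.Rim.H383

open Polynomial Fermat.Agent.S18 Fermat.Agent.S18.Alg Fermat.Agent.S18.H438
open Fermat.Agent.S18.H438.GoodModelFront

variable {Ω : Type*} [Field Ω] {Lc Ec Fc : Subfield Ω} {R V : Subring Ω} {w x : Ω}
  {S : Finset Ω}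

/-! ### Polynomials over `Ω` with coefficients in `R[z]` come from `Fc` -/

/-- A polynomial over `Ω` with coefficients in `polyRing R z` is the image of a polynomial over
`Fc` with coefficients in `R[z]`. -/
theorem exists_poly_Fc (hR : ∀ r ∈ R, r ∈ Fc) (z : Fc) (P : Polynomial Ω)
    (hP : ∀ i, P.coeff i ∈ polyRing R (z : Ω)) :
    ∃ Q : Polynomial Fc, Q.map Fc.subtype = P ∧
      ∀ i, Q.coeff i ∈ Algebra.adjoin (Rf Fc R) ({z} : Set Fc) := by
  have hl : P ∈ Polynomial.lifts Fc.subtype := by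
    rw [Polynomial.lifts_iff_coeff_lifts]
    intro i
    obtain ⟨a, -, ha⟩ := exists_mem_baseRing_of_mem_polyRing Fc R z hR (hP i)
    exact ⟨a, ha⟩
  obtain ⟨Q, hQ⟩ := (Polynomial.mem_lifts P).1 hl
  refine ⟨Q, hQ, fun i => ?_⟩
  have h1 : ((Q.coeff i : Fc) : Ω) = P.coeff i := by
    rw [← hQ, coeff_map]
    rfl
  have h2 : Q.coeff i ∈ baseRing (Rf Fc R) z := by
    rw [mem_baseRing_iff Fc R z hR, h1]
    exact hP i
  exact h2

theorem coe_eval_Fc (Q : Polynomial Fc) (f : Fc) :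
    ((Q.eval f : Fc) : Ω) = (Q.map Fc.subtype).eval (f : Ω) := by
  rw [eval_map]
  exact (Polynomial.hom_eval₂ Q (RingHom.id Fc) Fc.subtype f)

/-! ### Generic lemmas (abstract field `F`, no good model) -/

section Generic

attribute [local instance] FractionRing.liftAlgebra

/-- elements of a finite extension of the fraction field of `A` are algebraic over `A` -/
theorem isAlgebraic_of_finite_fractionRing {A F : Type*} [CommRing A] [IsDomain A] [Field F]
    [Algebra A F] [FaithfulSMul A F] [FiniteDimensional (FractionRing A) F] (f : F) :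
    IsAlgebraic A f := by
  have h : IsAlgebraic (FractionRing A) f := IsAlgebraic.of_finite _ f
  exact (IsFractionRing.isAlgebraic_iff A (FractionRing A) F).2 h

variable {F : Type*} [Field F] {R : Subring F} {z : F}

/-- the elementwise form of `hNC` from the radical form -/
theorem elementwise_of_isRadical (hz : Transcendental R z) (π : Polynomial R) (hπ0 : π ≠ 0)
    (h : (Ideal.span {polyToChart R z π}).IsRadical) :
    ∀ f ∈ chartB R z, ∀ n : ℕ, f ^ n * (aeval z π)⁻¹ ∈ chartB R z →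
        f * (aeval z π)⁻¹ ∈ chartB R z := by
  have hπz : aeval z π ≠ 0 := by
    intro h0
    apply hπ0
    apply transcendental_iff_injective.mp hz
    rw [h0, map_zero]
  intro f hf n hn
  have h1 : polyToChart R z π ∣ (⟨f, hf⟩ : chartB R z) ^ n := by
    rw [polyToChart_dvd_iff π hπz]
    simpa using hn
  have h2 : (⟨f, hf⟩ : chartB R z) ∈ (Ideal.span {polyToChart R z π}).radical :=
    ⟨n, Ideal.mem_span_singleton.2 h1⟩
  have h3 := Ideal.mem_span_singleton.1 (h h2)
  rw [polyToChart_dvd_iff π hπz] at h3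
  exact h3

/-- an element algebraic over a field `K` is a root of a nonzero polynomial over any valuation
subring of `K` -/
theorem exists_poly_valuationSubring {K L : Type*} [Field K] [Field L] [Algebra K L]
    (A : ValuationSubring K) {a : L} (ha : IsAlgebraic K a) :
    ∃ p : Polynomial A, p ≠ 0 ∧ eval₂ ((algebraMap K L).comp A.subtype) a p = 0 := by
  letI : Algebra A L := ((algebraMap K L).comp A.subtype).toAlgebra
  haveI : IsScalarTower A K L := IsScalarTower.of_algebraMap_eq (fun _ => rfl)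
  obtain ⟨p, hp0, hp⟩ := (IsFractionRing.isAlgebraic_iff A K L).2 ha
  exact ⟨p, hp0, hp⟩

variable {Ω : Type*} [Field Ω]

/-- **`hNC` from "unramified outside `S`"** (helper754's `hNC_typed` on the chart `B ⊆ F`,
`F` embedded in `Ω`), elementwise form. -/
theorem hNC_of_unramified [CharZero F] [IsDiscreteValuationRing R]
    [IsIntegrallyClosed (chartB R z)]
    [Module.Finite (Algebra.adjoin R ({z} : Set F)) (chartB R z)]
    (hz : Transcendental R z) (ι : F →+* Ω)
    {w : F} (hwR : w ∈ R) (hirr : Irreducible (⟨w, hwR⟩ : R))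
    (hwB : Prime (wB (z := z) hwR))
    (Lc : Subfield Ω) (hLcl : IsAlgClosed Lc)
    (hRL : ∀ r : R, ι (r : F) ∈ Lc)
    (hLalg : ∀ a ∈ Lc, ∃ p : Polynomial R, p ≠ 0 ∧ eval₂ (ι.comp R.subtype) a p = 0)
    (S : Finset R) (SΩ : Finset Ω) (hS : ∀ c ∈ SΩ, ∃ s ∈ S, ι (s : F) = c)
    (hunr : ∀ O : ValuationSubring Ω, (∀ a ∈ Lc, a ∈ O) → ∀ c ∈ Lc, c ∉ SΩ →
        ι z - c ∈ O → (ι z - c)⁻¹ ∉ O → ∀ t ∈ O, t⁻¹ ∉ O → t * (ι z - c)⁻¹ ∈ O) :
    ∀ π : Polynomial R, Prime π → ¬ Associated π (C ⟨w, hwR⟩) →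
      (∀ c ∈ S, ¬ Associated π (X - C c)) →
      ∀ f ∈ chartB R z, ∀ n : ℕ, f ^ n * (aeval z π)⁻¹ ∈ chartB R z →
        f * (aeval z π)⁻¹ ∈ chartB R z := by
  letI : Algebra (Polynomial R) (chartB R z) := polyAlgebra R z
  haveI : Module.Finite (Polynomial R) (chartB R z) := finite_poly
  haveI : Module.IsTorsionFree (Polynomial R) (chartB R z) := torsionFree_poly hz
  haveI : CharZero R := RingHom.charZero R.subtype
  letI : Algebra (chartB R z) Ω := (ι.comp (algebraMap (chartB R z) F)).toAlgebra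
  haveI : FaithfulSMul (chartB R z) Ω :=
    (faithfulSMul_iff_algebraMap_injective (chartB R z) Ω).2
      (ι.injective.comp Subtype.val_injective)
  have hC : ∀ r : R, algebraMap (chartB R z) Ω (algebraMap (Polynomial R) (chartB R z) (C r)) =
      ι (r : F) := by
    intro r
    show ι ((polyToChart R z (C r) : chartB R z) : F) = _
    rw [coe_polyToChart, aeval_C]
    rfl
  have hX : algebraMap (chartB R z) Ω (algebraMap (Polynomial R) (chartB R z) X) = ι z := by
    show ι ((polyToChart R z X : chartB R z) : F) = _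
    rw [coe_polyToChart, aeval_X]
  have hcomp : (algebraMap (chartB R z) Ω).comp
      ((algebraMap (Polynomial R) (chartB R z)).comp C) = ι.comp R.subtype := by
    ext r
    exact hC r
  intro π hπ hπw hπS
  have hrad := Fermat.Agent.S18.H754.hNC_typed R (chartB R z) ⟨w, hwR⟩ hirr hwB Lc hLcl
    (fun r => by rw [hC]; exact hRL r)
    (fun a ha => by rw [hcomp]; exact hLalg a ha) S SΩ
    (fun c hc => by
      obtain ⟨s, hs, hsc⟩ := hS c hc
      exact ⟨s, hs, by rw [hC]; exact hsc⟩)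
    (by rw [hX]; exact hunr) π hπ hπw hπS
  exact elementwise_of_isRadical hz π hπ.ne_zero hrad

end Generic

/-! ### The hypotheses of `exists_chart_lift` from a good model -/

section Hyp

variable (G : GoodModel Lc Ec Fc R V w x S)

/-- the branch values as elements of `R ⊆ Fc` -/
def Sf : Finset (Rf Fc R) :=
  S.attach.map
    ⟨fun s => (⟨⟨s.1, R_le_Fc G (G.S_mem s.1 s.2)⟩, G.S_mem s.1 s.2⟩ : Rf Fc R),
      fun _ _ h => Subtype.ext (congrArg (fun c : Rf Fc R => ((c : Fc) : Ω)) h)⟩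

theorem coe_mem_of_mem_Sf {c : Rf Fc R} (hc : c ∈ Sf G) : ((c : Fc) : Ω) ∈ S := by
  unfold Sf at hc
  obtain ⟨s, -, rfl⟩ := Finset.mem_map.1 hc
  exact s.2

theorem exists_mem_Sf {c : Ω} (hc : c ∈ S) : ∃ s ∈ Sf G, (((s : Rf Fc R) : Fc) : Ω) = c := by
  refine ⟨⟨⟨c, R_le_Fc G (G.S_mem c hc)⟩, G.S_mem c hc⟩, ?_, rfl⟩
  unfold Sf
  exact Finset.mem_map.2 ⟨⟨c, hc⟩, Finset.mem_attach _ _, rfl⟩

include G in
theorem isUnit_sub_Sf : ∀ c ∈ Sf G, ∀ c' ∈ Sf G, c ≠ c' → IsUnit (c - c') := by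
  intro c hc c' hc' hne
  rw [isUnit_subring_iff]
  have hne' : ((c : Fc) : Ω) ≠ ((c' : Fc) : Ω) := fun h => hne (Subtype.ext (Subtype.ext h))
  refine ⟨fun h => hne (sub_eq_zero.1 (Subtype.ext h)), ?_⟩
  have := G.S_distinct _ (coe_mem_of_mem_Sf G hc) _ (coe_mem_of_mem_Sf G hc') hne'
  exact this

section Alg

attribute [local instance] FractionRing.liftAlgebra

include G in
/-- every element of `Fc` is algebraic over `R[x]` -/
theorem isAlgebraic_adjoin_of_goodModel (f : Fc) :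
    IsAlgebraic (Algebra.adjoin (Rf Fc R) ({xf G} : Set Fc)) f := by
  haveI := finiteDimensional_fractionRing G
  exact isAlgebraic_of_finite_fractionRing (A := baseRing (Rf Fc R) (xf G)) f

end Alg

include G in
/-- elementwise separability of the special fibre, inside `Fc` -/
theorem sepB_of_goodModel : ∀ f ∈ chartB (Rf Fc R) (xf G), ∃ P : Polynomial Fc,
    (∀ i, P.coeff i ∈ Algebra.adjoin (Rf Fc R) ({xf G} : Set Fc)) ∧
    P.eval f * (wf G)⁻¹ ∈ Vf G ∧ (derivative P).eval f ≠ 0 ∧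
    ((derivative P).eval f)⁻¹ ∈ Vf G := by
  intro f hf
  have hfV : f ∈ Vf G := chart_le_V (Vf G) (Rf_le_Vf G) (xf_mem_Vf G) hf
  obtain ⟨P, hPc, hP1, hP2, hP3⟩ := G.separable (f : Ω) hfV
  obtain ⟨Q, hQ, hQc⟩ := exists_poly_Fc (fun r hr => R_le_Fc G hr) (xf G) P hPc
  have e1 : ((Q.eval f : Fc) : Ω) = P.eval (f : Ω) := by rw [_root_.Fermat.Agent.S37.Rim.H383.coe_eval_Fc, hQ]
  have e2 : (((derivative Q).eval f : Fc) : Ω) = (derivative P).eval (f : Ω) := by
    rw [_root_.Fermat.Agent.S37.Rim.H383.coe_eval_Fc, ← derivative_map, hQ]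
  refine ⟨Q, hQc, ?_, ?_, ?_⟩
  · show ((Q.eval f * (wf G)⁻¹ : Fc) : Ω) ∈ V
    rw [Subfield.coe_mul, Subfield.coe_inv, e1]
    exact hP1
  · intro h0
    apply hP2
    rw [← e2, h0]
    rfl
  · show ((((derivative Q).eval f)⁻¹ : Fc) : Ω) ∈ V
    rw [Subfield.coe_inv, e2]
    exact hP3

/-- the comparison `R ⊆ Ec` to `R ⊆ Fc` -/
def reToRf : Re G →+* Rf Fc R where
  toFun e := ⟨⟨((e : Ec) : Ω), G.E_le_F (e : Ec).2⟩, e.2⟩
  map_one' := rfl
  map_mul' _ _ := rfl
  map_zero' := rfl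
  map_add' _ _ := rfl

theorem reToRf_injective : Function.Injective (reToRf G) := by
  intro a b h
  apply Subtype.ext
  apply Subtype.ext
  exact congrArg (fun c : Rf Fc R => ((c : Fc) : Ω)) h

include G in
/-- the constants are algebraic over `R` -/
theorem hLalg_of_goodModel : ∀ a ∈ Lc, ∃ p : Polynomial (Rf Fc R), p ≠ 0 ∧
    eval₂ (Fc.subtype.comp (Rf Fc R).subtype) a p = 0 := by
  intro a ha
  obtain ⟨p, hp0, hp⟩ := exists_poly_valuationSubring (Re G) (G.L_algebraic a ha)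
  refine ⟨p.map (reToRf G), (Polynomial.map_ne_zero_iff (reToRf_injective G)).2 hp0, ?_⟩
  rw [eval₂_map]
  exact hp

section Inst

attribute [local instance] FractionRing.liftAlgebra

include G in
theorem isIntegrallyClosed_chartB : IsIntegrallyClosed (chartB (Rf Fc R) (xf G)) := by
  haveI := finiteDimensional_fractionRing G
  haveI := charZero_Fc G
  exact chartRing_isIntegrallyClosed (Rf Fc R) (xf G)

include G in
theorem finite_chartB :
    Module.Finite (Algebra.adjoin (Rf Fc R) ({xf G} : Set Fc)) (chartB (Rf Fc R) (xf G)) := by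
  haveI := finiteDimensional_fractionRing G
  haveI := charZero_Fc G
  haveI := isDiscreteValuationRing_Rf G
  exact chartRing_finite (Rf Fc R) (xf G) (transcendental_xf G)

end Inst

include G in
/-- `w` is a prime element of the chart -/
theorem prime_wB_of_goodModel : Prime (wB (z := xf G) (wf_mem_Rf G)) :=
  prime_wB (Vf G) (wf_mem_Rf G) (wf_ne_zero G) (Rf_le_Vf G) (xf_mem_Vf G)
    (wf_inv_not_mem_Vf G) (Vf_gen G) (qep_fin' G)

include G in
/-- `hNC` for the chart of a good model, elementwise form -/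
theorem hNC_of_goodModel :
    ∀ π : Polynomial (Rf Fc R), Prime π → ¬ Associated π (C ⟨wf G, wf_mem_Rf G⟩) →
      (∀ c ∈ Sf G, ¬ Associated π (X - C c)) →
      ∀ f ∈ chartB (Rf Fc R) (xf G), ∀ n : ℕ,
        f ^ n * (aeval (xf G) π)⁻¹ ∈ chartB (Rf Fc R) (xf G) →
        f * (aeval (xf G) π)⁻¹ ∈ chartB (Rf Fc R) (xf G) := by
  haveI := charZero_Fc G
  haveI := isDiscreteValuationRing_Rf G
  haveI := isIntegrallyClosed_chartB G
  haveI := finite_chartB G
  exact hNC_of_unramified (transcendental_xf G) Fc.subtype (wf_mem_Rf G) (irreducible_wf G)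
    (prime_wB_of_goodModel G) Lc G.L_algClosed (fun r => G.E_le_L (G.R_le r.2))
    (hLalg_of_goodModel G) (Sf G) S (fun c hc => exists_mem_Sf G hc) G.unramified

end Hyp

/-! ### D2 -/

/-- **Leaf D2 (board v3): normality of the special fibre of a good model.**  An element `f ∈ V`
which is a root modulo `w` of a monic polynomial over `R[x]` is congruent modulo `w` to an
element of the chart. -/
theorem normalAbs (G : GoodModel Lc Ec Fc R V w x S) :
    ∀ f ∈ V, ∀ P : Polynomial Ω, P.Monic → (∀ i, P.coeff i ∈ polyRing R x) →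
      P.eval f * w⁻¹ ∈ V → ∃ b ∈ chart Fc R x, (f - b) * w⁻¹ ∈ V := by
  intro f hf P hPm hPc hPv
  haveI := charZero_Fc G
  haveI := isDiscreteValuationRing_Rf G
  haveI := isIntegrallyClosed_chartB G
  haveI := finite_chartB G
  have hR : ∀ r ∈ R, r ∈ Fc := fun r hr => R_le_Fc G hr
  obtain ⟨Q, hQ, hQc⟩ := exists_poly_Fc hR (xf G) P hPc
  have hQm : Q.Monic := by
    rw [← hQ] at hPm
    exact Polynomial.monic_of_injective Fc.subtype_injective hPm
  have hv : (⟨f, G.V_le hf⟩ : Fc) ∈ Vf G := hf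
  have hQv : Q.eval (⟨f, G.V_le hf⟩ : Fc) * (wf G)⁻¹ ∈ Vf G := by
    show ((Q.eval (⟨f, G.V_le hf⟩ : Fc) * (wf G)⁻¹ : Fc) : Ω) ∈ V
    rw [Subfield.coe_mul, Subfield.coe_inv, _root_.Fermat.Agent.S37.Rim.H383.coe_eval_Fc, hQ]
    exact hPv
  obtain ⟨b, hb, hbv⟩ := exists_chart_lift (transcendental_xf G)
    (isAlgebraic_adjoin_of_goodModel G) (Vf G) (wf_mem_Rf G) (irreducible_wf G) (Rf_le_Vf G)
    (xf_mem_Vf G) (wf_inv_not_mem_Vf G) (Vf_gen G) (qep_fin' G) (sepB_of_goodModel G) (Sf G)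
    (isUnit_sub_Sf G) (hNC_of_goodModel G) hv Q hQm
    (fun i => (chartB (Rf Fc R) (xf G)).algebraMap_mem ⟨Q.coeff i, hQc i⟩) hQv
  exact ⟨(b : Ω), (mem_chartRing_iff Fc R (xf G) hR).1 hb, hbv⟩

/-- The same on the chart at infinity. -/
theorem normalAbs_inv (G : GoodModel Lc Ec Fc R V w x S) :
    ∀ f ∈ V, ∀ P : Polynomial Ω, P.Monic → (∀ i, P.coeff i ∈ polyRing R x⁻¹) →
      P.eval f * w⁻¹ ∈ V → ∃ b ∈ chart Fc R x⁻¹, (f - b) * w⁻¹ ∈ V := by
  classical
  exact normalAbs (Fermat.Agent.S18.H425.goodModel_inv G)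

/-- `NormalAbsStatement` of board v3 (`Core/Skeleton4.lean`), verbatim. -/
theorem normalAbsStatement :
    ∀ (Ω : Type) [Field Ω] (Lc Ec Fc : Subfield Ω) (R V : Subring Ω) (w x : Ω) (S : Finset Ω),
      Alg.GoodModel Lc Ec Fc R V w x S →
      ∀ f ∈ V, ∀ P : Polynomial Ω, P.Monic → (∀ i, P.coeff i ∈ Alg.polyRing R x) →
        P.eval f * w⁻¹ ∈ V →
        ∃ b ∈ Alg.chart Fc R x, (f - b) * w⁻¹ ∈ V :=
  fun _ _ _ _ _ _ _ _ _ _ G => normalAbs G

end Fermat.Agent.S37.Rim.H383

end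
end
-- ===== PACK-END S37/Rim/H383/NormalAbs.lean

-- ===== PACK-BEGIN A2/Mod/H216/NormalChart.lean
section


/-!
# A2 / GOODRED (helper216): normality of the special fibre of a good model, CHART coefficients

`normalAbs_chart` : for `G : Alg.GoodModel Lc Ec Fc R V w x S`, an element `f ∈ V` which is a
root modulo `w` of a monic polynomial with coefficients in the CHART `B = Alg.chart Fc R x`
(not only in `R[x]`) is congruent modulo `w` to an element of `B`.

Same proof as `S37.Rim.H383.normalAbs` (helper383): `H383.exists_chart_lift` already allows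
coefficients in the chart.
-/

set_option autoImplicit false
set_option linter.style.haveILetI false
set_option linter.unusedSectionVars false

noncomputable section

namespace Fermat.Agent.A2.Mod.H216

open Polynomial Fermat.Agent.S18 Fermat.Agent.S18.Alg Fermat.Agent.S18.H438
open Fermat.Agent.S18.H438.GoodModelFront Fermat.Agent.S37.Rim.H383

variable {Ω : Type*} [Field Ω] {Lc Ec Fc : Subfield Ω} {R V : Subring Ω} {w x : Ω}
  {S : Finset Ω}

/-- A polynomial over `Ω` with coefficients in the chart is the image of a polynomial over `Fc`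
with coefficients in the typed chart. -/
theorem exists_poly_Fc_chart (hR : ∀ r ∈ R, r ∈ Fc) (z : Fc) (P : Polynomial Ω)
    (hP : ∀ i, P.coeff i ∈ _root_.Fermat.Agent.S18.Alg.chart Fc R (z : Ω)) :
    ∃ Q : Polynomial Fc, Q.map Fc.subtype = P ∧
      ∀ i, Q.coeff i ∈ chartB (Rf Fc R) z := by
  have hl : P ∈ Polynomial.lifts Fc.subtype := by
    rw [Polynomial.lifts_iff_coeff_lifts]
    intro i
    exact ⟨⟨P.coeff i, (hP i).1⟩, rfl⟩
  obtain ⟨Q, hQ⟩ := (Polynomial.mem_lifts P).1 hl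
  refine ⟨Q, hQ, fun i => ?_⟩
  have h1 : ((Q.coeff i : Fc) : Ω) = P.coeff i := by
    rw [← hQ, coeff_map]
    rfl
  have h2 : Q.coeff i ∈ chartRing (Rf Fc R) z := by
    rw [mem_chartRing_iff Fc R z hR, h1]
    exact hP i
  exact h2

/-- **Normality of the special fibre of a good model, chart coefficients.** -/
theorem normalAbs_chart (G : GoodModel Lc Ec Fc R V w x S) :
    ∀ f ∈ V, ∀ P : Polynomial Ω, P.Monic → (∀ i, P.coeff i ∈ _root_.Fermat.Agent.S18.Alg.chart Fc R x) →
      P.eval f * w⁻¹ ∈ V → ∃ b ∈ _root_.Fermat.Agent.S18.Alg.chart Fc R x, (f - b) * w⁻¹ ∈ V := by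
  intro f hf P hPm hPc hPv
  haveI := charZero_Fc G
  haveI := isDiscreteValuationRing_Rf G
  haveI := isIntegrallyClosed_chartB G
  haveI := finite_chartB G
  have hR : ∀ r ∈ R, r ∈ Fc := fun r hr => R_le_Fc G hr
  obtain ⟨Q, hQ, hQc⟩ := exists_poly_Fc_chart hR (xf G) P hPc
  have hQm : Q.Monic := by
    rw [← hQ] at hPm
    exact Polynomial.monic_of_injective Fc.subtype_injective hPm
  have hv : (⟨f, G.V_le hf⟩ : Fc) ∈ Vf G := hf
  have hQv : Q.eval (⟨f, G.V_le hf⟩ : Fc) * (wf G)⁻¹ ∈ Vf G := by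
    show ((Q.eval (⟨f, G.V_le hf⟩ : Fc) * (wf G)⁻¹ : Fc) : Ω) ∈ V
    rw [Subfield.coe_mul, Subfield.coe_inv, _root_.Fermat.Agent.S37.Rim.H383.coe_eval_Fc, hQ]
    exact hPv
  obtain ⟨b, hb, hbv⟩ := exists_chart_lift (transcendental_xf G)
    (isAlgebraic_adjoin_of_goodModel G) (Vf G) (wf_mem_Rf G) (irreducible_wf G) (Rf_le_Vf G)
    (xf_mem_Vf G) (wf_inv_not_mem_Vf G) (Vf_gen G) (qep_fin' G) (sepB_of_goodModel G) (Sf G)
    (isUnit_sub_Sf G) (hNC_of_goodModel G) hv Q hQm hQc hQv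
  exact ⟨(b : Ω), (mem_chartRing_iff Fc R (xf G) hR).1 hb, hbv⟩

/-- The same on the chart at infinity. -/
theorem normalAbs_chart_inv (G : GoodModel Lc Ec Fc R V w x S) :
    ∀ f ∈ V, ∀ P : Polynomial Ω, P.Monic → (∀ i, P.coeff i ∈ _root_.Fermat.Agent.S18.Alg.chart Fc R x⁻¹) →
      P.eval f * w⁻¹ ∈ V → ∃ b ∈ _root_.Fermat.Agent.S18.Alg.chart Fc R x⁻¹, (f - b) * w⁻¹ ∈ V := by
  classical
  exact normalAbs_chart (Fermat.Agent.S18.H425.goodModel_inv G)

end Fermat.Agent.A2.Mod.H216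

end
end
-- ===== PACK-END A2/Mod/H216/NormalChart.lean

-- ===== PACK-BEGIN A2/Mod/H96/L12.lean
section




/-!
# A2 / MOD leaf L12 (helper96): the Kronecker congruence, semilinear form

`kron : KronStatement P E M q w` (`Mod/Spec.lean`, verbatim):
for `a ∈ V∞_M` there is `a' ∈ V∞_M` with `β a ≡ (α a')^q mod w V∞` at level `M q`.

Proof.  `a = U₁/U₂` with `U₁, U₂ ∈ R((t)) ∩ F_M`, `Ū₂ ≠ 0`.  By `S28.CoreData M k` (good reduction
at level `M`, via `S18.H516.red_mem_of_incl_mem`) the residues `Ū₁, Ū₂` lie in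
`F_k = k(j̄_d : d ∣ M)`.  `F_k` is stable under the inverse Frobenius twist of the coefficients
(`exists_frob_root_of_mem_fullC`: `k` is perfect, the generators have coefficients in `𝔽_q`): there
is `r' ∈ F_k` with `r'^q = (Ū₁/Ū₂)(t^q)`.  Lift `r' = W̄₁/W̄₂` (`exists_lift_of_mem_fullC`) and put
`a' := W₁/W₂`.  Then `β a − (α a')^q = (U₁(t^q) W₂^q − W₁^q U₂(t^q)) / (U₂(t^q) W₂^q)`, the
denominator is primitive and the numerator reduces to `0`, hence is divisible by `w`.
-/

set_option autoImplicit false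
set_option linter.unusedSectionVars false
set_option linter.style.haveILetI false
set_option synthInstance.maxHeartbeats 400000
set_option maxHeartbeats 1600000

noncomputable section

namespace Fermat.Agent.A2.Mod.H96

open ModularCurve HahnSeries Fermat.Agent.S28

section Residue

variable (P : ValuationSubring _root_.Fermat.Agent.A2.Mod.Qb) (E : IntermediateField ℚ _root_.Fermat.Agent.A2.Mod.Qb)

/-- `R_E` lies over `q` if `P` does. -/
theorem liesOver_RE {q : ℕ} (hP : P.LiesOverPrime q) : (_root_.Fermat.Agent.A2.Mod.RE P E).LiesOverPrime q := by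
  have h1 : P.valuation ((q : ℕ) : _root_.Fermat.Agent.A2.Mod.Qb) < 1 := (ValuationSubring.mem_nonunits_iff _).mp hP
  show ((q : ℕ) : E) ∈ (_root_.Fermat.Agent.A2.Mod.RE P E).nonunits
  rw [ValuationSubring.mem_nonunits_iff_exists_mem_maximalIdeal]
  have hmem : ((q : ℕ) : E) ∈ _root_.Fermat.Agent.A2.Mod.RE P E := by
    show algebraMap E _root_.Fermat.Agent.A2.Mod.Qb ((q : ℕ) : E) ∈ P
    rw [map_natCast]
    exact natCast_mem P q
  refine ⟨hmem, ?_⟩
  rw [IsLocalRing.mem_maximalIdeal, mem_nonunits_iff]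
  intro hu
  obtain ⟨s, hs⟩ := isUnit_iff_exists_inv.mp hu
  have h2 : ((q : ℕ) : _root_.Fermat.Agent.A2.Mod.Qb) * algebraMap E _root_.Fermat.Agent.A2.Mod.Qb (s : E) = 1 := by
    have := congrArg (fun z : _root_.Fermat.Agent.A2.Mod.RE P E => algebraMap E _root_.Fermat.Agent.A2.Mod.Qb (z : E)) hs
    simpa using this
  have h3 : P.valuation (algebraMap E _root_.Fermat.Agent.A2.Mod.Qb (s : E)) ≤ 1 :=
    (P.valuation_le_one_iff _).mpr s.2
  have h4 := congrArg P.valuation h2
  rw [map_mul, map_one] at h4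
  have h5 : P.valuation ((q : ℕ) : _root_.Fermat.Agent.A2.Mod.Qb) * P.valuation (algebraMap E _root_.Fermat.Agent.A2.Mod.Qb (s : E)) < 1 :=
    calc P.valuation ((q : ℕ) : _root_.Fermat.Agent.A2.Mod.Qb) * P.valuation (algebraMap E _root_.Fermat.Agent.A2.Mod.Qb (s : E))
        ≤ P.valuation ((q : ℕ) : _root_.Fermat.Agent.A2.Mod.Qb) * 1 := mul_le_mul_right h3 _
      _ = P.valuation ((q : ℕ) : _root_.Fermat.Agent.A2.Mod.Qb) := mul_one _
      _ < 1 := h1
  exact absurd h4 h5.ne

/-- Every element of `R_E` is a root of an integer polynomial which is nonzero modulo `q`. -/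
theorem exists_intPoly_residue (r : _root_.Fermat.Agent.A2.Mod.RE P E) {q : ℕ} (hq : q.Prime) :
    ∃ G : Polynomial ℤ, G.map (Int.castRingHom (ZMod q)) ≠ 0 ∧
      Polynomial.eval₂ (Int.castRingHom (_root_.Fermat.Agent.A2.Mod.RE P E)) r G = 0 := by
  haveI : Fact q.Prime := ⟨hq⟩
  have halgQ : IsAlgebraic ℚ ((r : E) : _root_.Fermat.Agent.A2.Mod.Qb) := (AlgebraicClosure.isAlgebraic ℚ).isAlgebraic _
  have halgZ : IsAlgebraic ℤ ((r : E) : _root_.Fermat.Agent.A2.Mod.Qb) := (IsFractionRing.isAlgebraic_iff ℤ ℚ _root_.Fermat.Agent.A2.Mod.Qb).mpr halgQ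
  obtain ⟨G, hG0, hG⟩ := halgZ
  have hprim : G.primPart.IsPrimitive := Polynomial.isPrimitive_primPart G
  have hev : Polynomial.aeval ((r : E) : _root_.Fermat.Agent.A2.Mod.Qb) G.primPart = 0 := by
    have h1 := G.eq_C_content_mul_primPart
    rw [h1, map_mul, Polynomial.aeval_C] at hG
    rcases mul_eq_zero.mp hG with h | h
    · exfalso
      have : (G.content : _root_.Fermat.Agent.A2.Mod.Qb) = 0 := by simpa using h
      have h2 : G.content = 0 := by exact_mod_cast this
      exact hG0 (Polynomial.content_eq_zero_iff.mp h2)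
    · exact h
  refine ⟨G.primPart, ?_, ?_⟩
  · intro h0
    have hdvd : Polynomial.C (q : ℤ) ∣ G.primPart := by
      rw [Polynomial.C_dvd_iff_dvd_coeff]
      intro i
      have := congrArg (fun Q : Polynomial (ZMod q) => Q.coeff i) h0
      simp only [Polynomial.coeff_map, Polynomial.coeff_zero, eq_intCast] at this
      exact (ZMod.intCast_zmod_eq_zero_iff_dvd _ _).mp this
    have hu := hprim _ hdvd
    have : IsUnit (q : ℤ) := hu
    rw [Int.isUnit_iff] at this
    have hq2 := hq.two_le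
    omega
  · have hinj : Function.Injective ((algebraMap E _root_.Fermat.Agent.A2.Mod.Qb).comp (_root_.Fermat.Agent.A2.Mod.RE P E).subtype) := by
      intro a b h
      exact Subtype.ext (Subtype.ext h)
    apply hinj
    rw [map_zero, Polynomial.hom_eval₂]
    have : (((algebraMap E _root_.Fermat.Agent.A2.Mod.Qb).comp (_root_.Fermat.Agent.A2.Mod.RE P E).subtype).comp (Int.castRingHom (_root_.Fermat.Agent.A2.Mod.RE P E))) =
        algebraMap ℤ _root_.Fermat.Agent.A2.Mod.Qb := RingHom.ext_int _ _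
    rw [this]
    exact hev

/-- The residue field of `R_E` is perfect: Frobenius is surjective. -/
theorem exists_pow_eq_residue {q : ℕ} (hq : q.Prime) (hP : P.LiesOverPrime q)
    (c : IsLocalRing.ResidueField (_root_.Fermat.Agent.A2.Mod.RE P E)) :
    ∃ c' : IsLocalRing.ResidueField (_root_.Fermat.Agent.A2.Mod.RE P E), c' ^ q = c := by
  haveI : Fact q.Prime := ⟨hq⟩
  haveI : CharP (IsLocalRing.ResidueField (_root_.Fermat.Agent.A2.Mod.RE P E)) q :=
    Fermat.Agent.S18.H516.charP_residue (_root_.Fermat.Agent.A2.Mod.RE P E) (liesOver_RE P E hP)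
  letI : Algebra (ZMod q) (IsLocalRing.ResidueField (_root_.Fermat.Agent.A2.Mod.RE P E)) := ZMod.algebra _ q
  haveI : Algebra.IsAlgebraic (ZMod q) (IsLocalRing.ResidueField (_root_.Fermat.Agent.A2.Mod.RE P E)) := by
    refine ⟨fun x => ?_⟩
    obtain ⟨r', rfl⟩ := IsLocalRing.residue_surjective x
    obtain ⟨G, hG0, hG⟩ := exists_intPoly_residue P E r' hq
    refine ⟨G.map (Int.castRingHom (ZMod q)), hG0, ?_⟩
    rw [Polynomial.aeval_def, Polynomial.eval₂_map]
    have h1 : (algebraMap (ZMod q) (IsLocalRing.ResidueField (_root_.Fermat.Agent.A2.Mod.RE P E))).comp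
        (Int.castRingHom (ZMod q)) =
        (IsLocalRing.residue (_root_.Fermat.Agent.A2.Mod.RE P E)).comp (Int.castRingHom (_root_.Fermat.Agent.A2.Mod.RE P E)) := RingHom.ext_int _ _
    rw [h1, ← Polynomial.hom_eval₂, hG, map_zero]
  haveI : PerfectField (IsLocalRing.ResidueField (_root_.Fermat.Agent.A2.Mod.RE P E)) :=
    Algebra.IsAlgebraic.perfectField (ZMod q)
  haveI : ExpChar (IsLocalRing.ResidueField (_root_.Fermat.Agent.A2.Mod.RE P E)) q := ExpChar.prime hq
  obtain ⟨y, hy⟩ := surjective_frobenius (IsLocalRing.ResidueField (_root_.Fermat.Agent.A2.Mod.RE P E)) q c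
  exact ⟨y, hy⟩

end Residue

section Divide

variable {L : Type*} [Field L] (A : ValuationSubring L)

/-- An integral series with zero reduction is divisible by a uniformiser. -/
theorem exists_incl_eq_inv_mul [IsDiscreteValuationRing A] {w : A} (hw : Irreducible w)
    {U : LaurentSeries A} (hU : H708.red A U = 0) :
    ∃ U' : LaurentSeries A, H708.incl A U' = H708.cst ((w : L))⁻¹ * H708.incl A U := by
  apply H708.exists_incl_eq
  intro n
  rw [H708.coeff_cst_mul, H708.coeff_incl]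
  have h1 : A.valuation ((U.coeff n : A) : L) < 1 := (H708.red_eq_zero_iff A U).mp hU n
  have h2 : U.coeff n ∈ IsLocalRing.maximalIdeal A := (A.valuation_lt_one_iff _).mpr h1
  rw [hw.maximalIdeal_eq, Ideal.mem_span_singleton'] at h2
  obtain ⟨y, hy⟩ := h2
  have hw0 : (w : L) ≠ 0 := by
    intro h
    exact hw.ne_zero (Subtype.ext h)
  have h3 : ((U.coeff n : A) : L) = (y : L) * (w : L) := by
    rw [← hy]; rfl
  rw [h3, mul_comm (y : L), ← mul_assoc, inv_mul_cancel₀ hw0, one_mul]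
  exact y.2

end Divide

section Main

variable (P : ValuationSubring _root_.Fermat.Agent.A2.Mod.Qb) (E : IntermediateField ℚ _root_.Fermat.Agent.A2.Mod.Qb) (M q : ℕ) [NeZero M] [NeZero q]
  (w : _root_.Fermat.Agent.A2.Mod.RE P E)

/-- **L12 (Kronecker, semilinear form).** -/
theorem kron : KronStatement P E M q w := by
  intro hS VM V hVM hV a ha
  have hq := hS.q_prime
  haveI : Fact q.Prime := ⟨hq⟩
  haveI := hS.dvr
  have hAq : (_root_.Fermat.Agent.A2.Mod.RE P E).LiesOverPrime q := liesOver_RE P E hS.lies_over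
  haveI : CharP (IsLocalRing.ResidueField (_root_.Fermat.Agent.A2.Mod.RE P E)) q :=
    Fermat.Agent.S18.H516.charP_residue (_root_.Fermat.Agent.A2.Mod.RE P E) hAq
  have core : CoreData M (IsLocalRing.ResidueField (_root_.Fermat.Agent.A2.Mod.RE P E)) :=
    Fermat.Agent.S18.H516.coreData_of_charP M q hS.q_not_dvd _
  -- a representation of `a`
  obtain ⟨U₁, U₂, hU₂, hU₂F, hU⟩ := (hVM a).mp ha
  have hU₁F : H708.incl (_root_.Fermat.Agent.A2.Mod.RE P E) U₁ ∈ _root_.Fermat.Agent.A2.Mod.FE E M := by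
    rw [← hU]; exact mul_mem a.2 hU₂F
  -- the residues lie in `F_k`
  have hr₁ : H708.red (_root_.Fermat.Agent.A2.Mod.RE P E) U₁ ∈ modularFunctionFieldFullC _ M :=
    Fermat.Agent.S18.H516.red_mem_of_incl_mem (_root_.Fermat.Agent.A2.Mod.RE P E) (IsLocalRing.residue _) M core hU₁F
  have hr₂ : H708.red (_root_.Fermat.Agent.A2.Mod.RE P E) U₂ ∈ modularFunctionFieldFullC _ M :=
    Fermat.Agent.S18.H516.red_mem_of_incl_mem (_root_.Fermat.Agent.A2.Mod.RE P E) (IsLocalRing.residue _) M core hU₂F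
  -- the Frobenius twist of the residue of `a`
  obtain ⟨r', hr', hr'e⟩ := exists_frob_root_of_mem_fullC _ q M hq
    (exists_pow_eq_residue P E hq hS.lies_over) (mul_mem hr₁ (inv_mem hr₂))
  -- lift it
  obtain ⟨W₁, W₂, hW₁F, hW₂F, hW₂, hW⟩ := exists_lift_of_mem_fullC (_root_.Fermat.Agent.A2.Mod.RE P E) M hr'
  have hW₂0 : H708.incl (_root_.Fermat.Agent.A2.Mod.RE P E) W₂ ≠ 0 :=
    H708.incl_ne_zero _ (H708.ne_zero_of_red_ne_zero _ hW₂)
  have hU₂0 : H708.incl (_root_.Fermat.Agent.A2.Mod.RE P E) U₂ ≠ 0 :=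
    H708.incl_ne_zero _ (H708.ne_zero_of_red_ne_zero _ hU₂)
  set a' : _root_.Fermat.Agent.A2.Mod.FE E M := ⟨H708.incl (_root_.Fermat.Agent.A2.Mod.RE P E) W₁, hW₁F⟩ * (⟨H708.incl (_root_.Fermat.Agent.A2.Mod.RE P E) W₂, hW₂F⟩)⁻¹ with ha'
  have ha'c : (a' : LaurentSeries E) = H708.incl (_root_.Fermat.Agent.A2.Mod.RE P E) W₁ * (H708.incl (_root_.Fermat.Agent.A2.Mod.RE P E) W₂)⁻¹ := by
    rw [ha', IntermediateField.coe_mul, IntermediateField.coe_inv]
  have ha'V : a' ∈ VM := by
    rw [hVM]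
    refine ⟨W₁, W₂, hW₂, hW₂F, ?_⟩
    rw [ha'c, mul_assoc, inv_mul_cancel₀ hW₂0, mul_one]
  refine ⟨a', ha'V, ?_⟩
  -- the numerator
  set Wn : LaurentSeries (_root_.Fermat.Agent.A2.Mod.RE P E) :=
    qExpand _ q U₁ * W₂ ^ q - W₁ ^ q * qExpand _ q U₂ with hWn
  have hρ₂ : qExpand _ q (H708.red (_root_.Fermat.Agent.A2.Mod.RE P E) U₂) ≠ 0 := by
    rw [Ne, map_eq_zero_iff _ (RingHom.injective _)]
    exact hU₂
  have hred : H708.red (_root_.Fermat.Agent.A2.Mod.RE P E) Wn = 0 := by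
    rw [hWn, map_sub, map_mul, map_mul, map_pow, map_pow]
    show coeffMap _ (qExpand _ q U₁) * _ - _ * coeffMap _ (qExpand _ q U₂) = 0
    rw [coeffMap_qExpand, coeffMap_qExpand]
    show qExpand _ q (H708.red (_root_.Fermat.Agent.A2.Mod.RE P E) U₁) * _ - _ * qExpand _ q (H708.red (_root_.Fermat.Agent.A2.Mod.RE P E) U₂) = 0
    rw [hW, mul_pow, hr'e, map_mul, map_inv₀]
    field_simp
    ring
  obtain ⟨W', hW'⟩ := exists_incl_eq_inv_mul (_root_.Fermat.Agent.A2.Mod.RE P E) hS.unif hred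
  -- conclusion
  show (βE E M q a - (αE E M q a') ^ q) * (cE P E (M * q) w)⁻¹ ∈ V
  rw [hV]
  refine ⟨W', qExpand _ q U₂ * W₂ ^ q, ?_, ?_, ?_⟩
  · rw [map_mul, map_pow]
    show coeffMap _ (qExpand _ q U₂) * _ ≠ 0
    rw [coeffMap_qExpand]
    exact mul_ne_zero hρ₂ (pow_ne_zero _ hW₂)
  · rw [map_mul, map_pow]
    show coeffMap _ (qExpand _ q U₂) * _ ∈ _
    rw [coeffMap_qExpand]
    exact mul_mem (βE E M q ⟨H708.incl (_root_.Fermat.Agent.A2.Mod.RE P E) U₂, hU₂F⟩).2
      (pow_mem (αE E M q ⟨H708.incl (_root_.Fermat.Agent.A2.Mod.RE P E) W₂, hW₂F⟩).2 _)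
  · rw [hW']
    have hc : (((βE E M q a - (αE E M q a') ^ q) * (cE P E (M * q) w)⁻¹ : _root_.Fermat.Agent.A2.Mod.FE E (M * q)) :
        LaurentSeries E) =
        (qExpand E q (a : LaurentSeries E) - (a' : LaurentSeries E) ^ q) *
          (H708.cst ((w : E)))⁻¹ := rfl
    have hcst : H708.cst ((w : E))⁻¹ = (H708.cst ((w : E)))⁻¹ := map_inv₀ _ _
    have hq1 : H708.incl (_root_.Fermat.Agent.A2.Mod.RE P E) (qExpand _ q U₁) = qExpand E q (H708.incl (_root_.Fermat.Agent.A2.Mod.RE P E) U₁) :=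
      coeffMap_qExpand _ q U₁
    have hq2 : H708.incl (_root_.Fermat.Agent.A2.Mod.RE P E) (qExpand _ q U₂) = qExpand E q (H708.incl (_root_.Fermat.Agent.A2.Mod.RE P E) U₂) :=
      coeffMap_qExpand _ q U₂
    have hpow : (a' : LaurentSeries E) ^ q * (H708.incl (_root_.Fermat.Agent.A2.Mod.RE P E) W₂) ^ q =
        (H708.incl (_root_.Fermat.Agent.A2.Mod.RE P E) W₁) ^ q := by
      rw [ha'c, ← mul_pow, mul_assoc, inv_mul_cancel₀ hW₂0, mul_one]
    rw [hc, hcst, hWn, map_sub, map_mul, map_mul, map_mul, map_pow, map_pow, hq1, hq2,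
      ← hU, map_mul, ← hpow]
    ring

end Main

end Fermat.Agent.A2.Mod.H96

end
end
-- ===== PACK-END A2/Mod/H96/L12.lean

-- ===== PACK-BEGIN S18/Mod/H216/GoodLevel.lean
section


/-!
# S18 / MOD (helper216): the good model over an ARBITRARY level `E` (for A2 / GOODRED)

`node_mod` quantifies over number fields `E`, but finiteness of `E / ℚ` is used ONLY to produce the
uniformiser (`PartR`).  Here the same wiring is stated for EVERY intermediate field `E ⊆ Q̄`
(e.g. a good level `E ⊇ Q̄^{I}` of A2, infinite over `ℚ`), with `PartR` as the hypothesis: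

* `partR_of_dvr`        : `PartR` from `[IsDiscreteValuationRing (H602.RE A E)]` + Frobenius
                          surjective on the residue field (`∀ r, ∃ s, r - s ^ ℓ ∈ 𝔪`);
* `partR_of_dvr_of_isAlgClosed` : the same when the residue field is algebraically closed;
* `baseModel_j_of_partR`: the `j`-model without branch fields, every `ℓ ∤ M` (also `ℓ = 2, 3`);
* `goodModel_of_partR`  : `Alg.GoodModel (Lc M) (Ec M E) (Fc M E) (Rc M A E) (Vc M A E) w x S`
                          for every admissible coordinate (`x = j` if `ℓ ≥ 5`, Hauptmoduln else).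
-/

set_option autoImplicit false
set_option linter.unusedSectionVars false

noncomputable section

namespace Fermat.Agent.S18.Mod.H216

open ModularCurve AlgebraicCurve HahnSeries Fermat.Agent.S18 Fermat.Agent.S18.Mod
open Fermat.Agent.S18.Alg

variable (M : ℕ) [NeZero M] {ℓ : ℕ} [Fact ℓ.Prime] (A : ValuationSubring Qb)
  (E : IntermediateField ℚ Qb)

/-- **G-R over an arbitrary level**: `PartR` from the DVR property of `R_E = A ∩ E` and the
surjectivity of Frobenius on its residue field. -/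
theorem partR_of_dvr [IsDiscreteValuationRing (H602.RE A E)] (hA : A.LiesOverPrime ℓ)
    (hperf : ∀ r : H602.RE A E,
      ∃ s : H602.RE A E, r - s ^ ℓ ∈ IsLocalRing.maximalIdeal (H602.RE A E)) :
    ∃ w : Om M, H456.IsUnif M A E w ∧ PartR (Ec M E) (Rc M A E) w := by
  have hℓ : ℓ.Prime := Fact.out
  obtain ⟨w, hw⟩ := H456.exists_isUnif M A E
  refine ⟨w, hw, H456.field_R_le M A E, H456.field_R_total M A E, hw.mem, hw.ne_zero,
    hw.inv_not_mem, hw.gen, hw.discrete, ℓ, hℓ, ?_, ?_⟩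
  · rw [← H456.cstR_natCast M A E, hw.mul_inv_mem_iff, IsLocalRing.mem_maximalIdeal,
      mem_nonunits_iff]
    exact H602.natCast_not_isUnit_RE A E hA
  · intro r hr
    obtain ⟨r₀, rfl⟩ := (H456.mem_Rc_iff_cstR M A E).1 hr
    obtain ⟨s, hs⟩ := hperf r₀
    refine ⟨H456.cstR M A E s, H456.cstR_mem_Rc M A E s, ?_⟩
    rw [← H456.cstR_pow, ← H456.cstR_sub, hw.mul_inv_mem_iff]
    exact hs

/-- Frobenius is surjective modulo the maximal ideal when the residue field is algebraically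
closed. -/
theorem exists_pow_sub_mem_of_isAlgClosed [IsDiscreteValuationRing (H602.RE A E)]
    [IsAlgClosed (IsLocalRing.ResidueField (H602.RE A E))] (r : H602.RE A E) :
    ∃ s : H602.RE A E, r - s ^ ℓ ∈ IsLocalRing.maximalIdeal (H602.RE A E) := by
  have hℓ : ℓ.Prime := Fact.out
  obtain ⟨y, hy⟩ := IsAlgClosed.exists_pow_nat_eq (IsLocalRing.residue (H602.RE A E) r) hℓ.pos
  obtain ⟨s, rfl⟩ := IsLocalRing.residue_surjective y
  refine ⟨s, ?_⟩
  rw [← IsLocalRing.residue_eq_zero_iff, map_sub, map_pow, sub_eq_zero]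
  exact hy.symm

/-- **G-R over a good level**: `R_E` a DVR with algebraically closed residue field. -/
theorem partR_of_dvr_of_isAlgClosed [IsDiscreteValuationRing (H602.RE A E)]
    [IsAlgClosed (IsLocalRing.ResidueField (H602.RE A E))] (hA : A.LiesOverPrime ℓ) :
    ∃ w : Om M, H456.IsUnif M A E w ∧ PartR (Ec M E) (Rc M A E) w :=
  partR_of_dvr M A E hA (exists_pow_sub_mem_of_isAlgClosed A E)

/-- **G-FLD** for the coordinate `j`, arbitrary level. -/
theorem partFld_j_any : PartFld (Lc M) (Ec M E) (Fc M E) (jOm M) :=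
  ⟨H456.field_E_le_L M E, H456.field_E_le_F M E, H456.field_L_algebraic M E,
    H456.field_L_algClosed M, H456.field_E_closed_in_F M E, H456.field_compositum M E,
    H456.mem_Fc_of_hasIntExp M E (H456.hasIntExp_jOm M),
    H456.transcendental_of_hasIntExp M (H456.hasIntExp_jOm M), H24.field_finite_j M E⟩

/-- **G-FLD** for every admissible coordinate, arbitrary level. -/
theorem partFld_of_isCoordinate {x : Om M} {S : Finset (Om M)} (hx : IsCoordinate M ℓ x S) :
    PartFld (Lc M) (Ec M E) (Fc M E) x :=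
  ⟨H456.field_E_le_L M E, H456.field_E_le_F M E, H456.field_L_algebraic M E,
    H456.field_L_algClosed M, H456.field_E_closed_in_F M E, H456.field_compositum M E,
    H456.field_x_mem M E hx, H456.field_x_transcendental M hx, H24.field_finite M E hx⟩

/-- The `j`-model without its branch fields over an arbitrary level, for every `ℓ ∤ M`
(including `ℓ = 2, 3`). -/
theorem baseModel_j_of_partR (hℓM : ¬ ℓ ∣ M) (hA : A.LiesOverPrime ℓ) {w : Om M}
    (hw : PartR (Ec M E) (Rc M A E) w) :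
    H107.BaseModel107 (Lc M) (Ec M E) (Fc M E) (Rc M A E) (Vc M A E) w (jOm M) := by
  have hF := partFld_j_any M E
  have hV := partV_j A E (coreData_residue A hℓM hA) hw
  have hQ := partQep_j A E (coreData_residue A hℓM hA) hw
  have hS : PartSep (Rc M A E) (Vc M A E) w (jOm M) :=
    ⟨H264.separable_jOm M hℓM A hA E (Vc M A E) (coe_Vc M A E) w hw.w_mem hw.w_ne_zero hw.w_gen⟩
  exact
    { charZero := charZero_Om M
      R_le := hw.R_le
      R_total := hw.R_total
      w_mem := hw.w_mem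
      w_ne_zero := hw.w_ne_zero
      w_inv_not_mem := hw.w_inv_not_mem
      w_gen := hw.w_gen
      w_discrete := hw.w_discrete
      residue_perfect := hw.residue_perfect
      E_le_L := hF.E_le_L
      E_le_F := hF.E_le_F
      L_algebraic := hF.L_algebraic
      L_algClosed := hF.L_algClosed
      E_closed_in_F := hF.E_closed_in_F
      compositum := hF.compositum
      x_mem := hF.x_mem
      x_transcendental := hF.x_transcendental
      finite := hF.finite
      V_le := hV.V_le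
      V_total := hV.V_total
      R_le_V := hV.R_le_V
      w_inv_not_mem_V := hV.w_inv_not_mem_V
      V_gen := hV.V_gen
      x_mem_V := hV.x_mem_V
      gauss := hV.gauss
      qep_fin := hQ.qep_fin
      qep_inf := hQ.qep_inf
      separable := hS.separable }

/-- **The good model over an arbitrary level `E`** (`R_E = A ∩ E` a DVR with uniformiser `w` and
perfect residue field, packaged as `PartR`), for every admissible coordinate. -/
theorem goodModel_of_partR (hℓM : ¬ ℓ ∣ M) (hA : A.LiesOverPrime ℓ) {w : Om M}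
    (hw : PartR (Ec M E) (Rc M A E) w) {x : Om M} {S : Finset (Om M)}
    (hx : IsCoordinate M ℓ x S) :
    GoodModel (Lc M) (Ec M E) (Fc M E) (Rc M A E) (Vc M A E) w x S := by
  by_cases h5 : 5 ≤ ℓ
  · obtain ⟨h1, h2, h3, h4⟩ := H558.br_of_isCoordinate M A hA E x S hx
    have hB : PartBr (Lc M) (Rc M A E) x S := ⟨h1, h2, h3, h4⟩
    rcases hx with ⟨-, rfl, -⟩ | ⟨h | h, -⟩
    · exact goodModel_of_parts (charZero_Om M) hw (partFld_j_any M E)
        (partV_j A E (coreData_residue A hℓM hA) hw)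
        (partQep_j A E (coreData_residue A hℓM hA) hw)
        ⟨H264.separable_jOm M hℓM A hA E (Vc M A E) (coe_Vc M A E) w hw.w_mem hw.w_ne_zero
          hw.w_gen⟩ hB
    · exact absurd h.1 (by omega)
    · exact absurd h.1 (by omega)
  · obtain ⟨-, -, -, hxV, -, -, hgauss⟩ :=
      H24.gv_fields_of_isCoordinate (M := M) (A := A) (E := E) (Vc M A E) (coe_Vc M A E)
        hw.w_mem hw.w_ne_zero hw.w_inv_not_mem hw.w_gen hw.w_discrete hx
    exact H107.goodModel_of_isCoordinate107 M A hA h5 hx E (baseModel_j_of_partR M A E hℓM hA hw)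
      (H456.field_x_mem M E hx) hxV hgauss

end Fermat.Agent.S18.Mod.H216

end
end
-- ===== PACK-END S18/Mod/H216/GoodLevel.lean

-- ===== PACK-BEGIN A2/Mod/H216/GoodRed.lean
section






/-!
# A2 / GOODRED (helper216): the level-`M` hypothesis `GoodRedAt` of MODASM, DISCHARGED

For `q ≥ 5` prime, `q ∤ M`, `P` over `q`, ANY intermediate field `E ⊆ Q̄` with `R_E = P ∩ E` a
discrete valuation ring, uniformiser `w`, Gauss valuation ring `VM` (`IsVinf`):

    goodRedAt_j     : GoodRedAt P E M w VM j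
    goodRedAt_j_inv : GoodRedAt P E M w VM j⁻¹
    goodRedHyp      : GoodRedHyp P E M                       (`A2/Mod/Asm.lean`)

Proof: `S18.Mod.H216.goodModel_of_partR` (good model of row S18 over the level `E`),
`normalAbs_chart` (normality of its special fibre; S37 `H383.exists_chart_lift`), and the
bridge `FE E M ≃ Fc M E` of `Bridge.lean`.

`goodRedAt_of_goodModel` is the general adapter (any coordinate `y`, any good model).
-/

set_option autoImplicit false
set_option linter.unusedSectionVars false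
set_option linter.style.haveILetI false
set_option synthInstance.maxHeartbeats 400000
set_option maxHeartbeats 1600000

noncomputable section

namespace Fermat.Agent.A2.Mod.H216

open ModularCurve Polynomial

variable (P : ValuationSubring _root_.Fermat.Agent.A2.Mod.Qb) (E : IntermediateField ℚ _root_.Fermat.Agent.A2.Mod.Qb) (M : ℕ)

/-! ### The chart as a subring -/

section ChartSub

variable {Ω : Type*} [Field Ω]

/-- `S18.Alg.chart Fc R x` is (the carrier of) a subring. -/
def chartSub (Fc : Subfield Ω) (R : Subring Ω) (x : Ω) : Subring Ω :=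
  Fc.toSubring ⊓ (integralClosure ↥(S18.Alg.polyRing R x) Ω).toSubring

theorem mem_chartSub {Fc : Subfield Ω} {R : Subring Ω} {x b : Ω} :
    b ∈ chartSub Fc R x ↔ b ∈ S18.Alg.chart Fc R x := Iff.rfl

/-- The monic polynomial `X ^ n + ∑ aᵢ X ^ i`. -/
def monicOf {n : ℕ} (a : Fin n → Ω) : Polynomial Ω :=
  X ^ n + ∑ i : Fin n, C (a i) * X ^ (i : ℕ)

theorem monicOf_monic {n : ℕ} (a : Fin n → Ω) : (monicOf a).Monic :=
  Polynomial.monic_X_pow_add (Polynomial.degree_sum_fin_lt a)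

theorem monicOf_eval {n : ℕ} (a : Fin n → Ω) (z : Ω) :
    (monicOf a).eval z = z ^ n + ∑ i : Fin n, a i * z ^ (i : ℕ) := by
  simp [monicOf, Polynomial.eval_finsetSum]

theorem monicOf_coeff_mem {n : ℕ} (a : Fin n → Ω) (T : Subring Ω) (ha : ∀ i, a i ∈ T) (k : ℕ) :
    (monicOf a).coeff k ∈ T := by
  rw [monicOf, Polynomial.coeff_add, Polynomial.coeff_X_pow, Polynomial.finsetSum_coeff]
  refine add_mem ?_ (sum_mem fun i _ => ?_)
  · split_ifs
    · exact one_mem T
    · exact zero_mem T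
  · rw [Polynomial.coeff_C_mul_X_pow]
    split_ifs
    · exact ha i
    · exact zero_mem T

end ChartSub

/-! ### The adapter -/

variable {P E M}

/-- **GOODRED adapter**: a good model of row S18 at the concrete objects over `E`, with
uniformiser `w` and coordinate `y`, gives `GoodRedAt` in the language of `A2/Mod/Spec.lean`. -/
theorem goodRedAt_of_goodModel {w : _root_.Fermat.Agent.A2.Mod.RE P E} {VM : ValuationSubring (_root_.Fermat.Agent.A2.Mod.FE E M)}
    (hV : IsVinf P E M VM) (y : _root_.Fermat.Agent.A2.Mod.FE E M) {x : S18.Mod.Om M} (hx : bridge E M y = x)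
    {S : Finset (S18.Mod.Om M)}
    (G : S18.Alg.GoodModel (S18.Mod.Lc M) (S18.Mod.Ec M E) (S18.Mod.Fc M E) (S18.Mod.Rc M P E)
      (S18.Mod.H216.Vc M P E) (bridge E M (cE P E M w)) x S) :
    GoodRedAt P E M w VM y := by
  subst hx
  have hinv : ∀ g : _root_.Fermat.Agent.A2.Mod.FE E M, bridge E M (g * (cE P E M w)⁻¹) =
      bridge E M g * (bridge E M (cE P E M w))⁻¹ := fun g => by
    rw [map_mul, map_inv₀]
  constructor
  · intro b hb hbw
    rw [bridge_mem_chart_iff] at hb ⊢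
    rw [hinv]
    refine G.qep_fin _ hb ?_
    rw [← hinv]
    exact (mem_iff_bridge_mem_Vc P hV _).1 hbw
  · rintro f hf ⟨n, c, hc, hcw⟩
    have hfV : bridge E M f ∈ S18.Mod.H216.Vc M P E := (mem_iff_bridge_mem_Vc P hV _).1 hf
    have hPc : ∀ i, (monicOf fun i => bridge E M (c i)).coeff i ∈
        S18.Alg.chart (S18.Mod.Fc M E) (S18.Mod.Rc M P E) (bridge E M y) := fun k =>
      mem_chartSub.1 (monicOf_coeff_mem _ (chartSub _ _ _)
        (fun i => mem_chartSub.2 ((bridge_mem_chart_iff P y (c i)).1 (hc i))) k)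
    have hPv : (monicOf fun i => bridge E M (c i)).eval (bridge E M f) *
        (bridge E M (cE P E M w))⁻¹ ∈ S18.Mod.H216.Vc M P E := by
      have h1 : (monicOf fun i => bridge E M (c i)).eval (bridge E M f) =
          bridge E M (f ^ n + ∑ i : Fin n, c i * f ^ (i : ℕ)) := by
        rw [monicOf_eval, map_add, map_pow, map_sum]
        simp only [map_mul, map_pow]
      rw [h1, ← hinv]
      exact (mem_iff_bridge_mem_Vc P hV _).1 hcw
    obtain ⟨b', hb', hbv⟩ := normalAbs_chart G (bridge E M f) hfV _ (monicOf_monic _) hPc hPv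
    obtain ⟨b, rfl⟩ := exists_bridge_eq hb'.1
    refine ⟨b, (bridge_mem_chart_iff P y b).2 hb', ?_⟩
    show (f - b) * (cE P E M w)⁻¹ ∈ VM
    rw [mem_iff_bridge_mem_Vc P hV, hinv, map_sub]
    exact hbv

/-- The same on the chart at infinity. -/
theorem goodRedAt_inv_of_goodModel {w : _root_.Fermat.Agent.A2.Mod.RE P E} {VM : ValuationSubring (_root_.Fermat.Agent.A2.Mod.FE E M)}
    (hV : IsVinf P E M VM) (y : _root_.Fermat.Agent.A2.Mod.FE E M) {x : S18.Mod.Om M} (hx : bridge E M y = x)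
    {S : Finset (S18.Mod.Om M)}
    (G : S18.Alg.GoodModel (S18.Mod.Lc M) (S18.Mod.Ec M E) (S18.Mod.Fc M E) (S18.Mod.Rc M P E)
      (S18.Mod.H216.Vc M P E) (bridge E M (cE P E M w)) x S) :
    GoodRedAt P E M w VM y⁻¹ := by
  classical
  exact goodRedAt_of_goodModel hV y⁻¹ (by rw [map_inv₀, hx])
    (Fermat.Agent.S18.H425.goodModel_inv G)

/-! ### `PartR` for a given uniformiser, over an arbitrary level -/

variable (P E M)

theorem isUnif_bridge_cE {w : _root_.Fermat.Agent.A2.Mod.RE P E} (hw : Irreducible w) :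
    S18.H456.IsUnif M P E (bridge E M (cE P E M w)) :=
  ⟨w, hw, bridge_algebraMap (w : E)⟩

/-- `PartR` of row S18 for the image of a given uniformiser `w` of `R_E` (`E` arbitrary). -/
theorem partR_bridge_cE {q : ℕ} (hq : q.Prime) (hP : P.LiesOverPrime q)
    [IsDiscreteValuationRing (_root_.Fermat.Agent.A2.Mod.RE P E)] {w : _root_.Fermat.Agent.A2.Mod.RE P E} (hw : Irreducible w) :
    S18.Mod.H216.PartR (S18.Mod.Ec M E) (S18.Mod.Rc M P E) (bridge E M (cE P E M w)) := by
  haveI : IsDiscreteValuationRing (S18.H602.RE P E) :=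
    (inferInstance : IsDiscreteValuationRing (_root_.Fermat.Agent.A2.Mod.RE P E))
  have hu := isUnif_bridge_cE P E M hw
  refine ⟨S18.H456.field_R_le M P E, S18.H456.field_R_total M P E, hu.mem, hu.ne_zero,
    hu.inv_not_mem, hu.gen, hu.discrete, q, hq, ?_, ?_⟩
  · rw [← S18.H456.cstR_natCast M P E, hu.mul_inv_mem_iff, IsLocalRing.mem_maximalIdeal,
      mem_nonunits_iff]
    exact S18.H602.natCast_not_isUnit_RE P E hP
  · have hperf : ∀ r : S18.H602.RE P E, ∃ s : S18.H602.RE P E,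
        r - s ^ q ∈ IsLocalRing.maximalIdeal (S18.H602.RE P E) := by
      intro r
      have key : ∀ r : _root_.Fermat.Agent.A2.Mod.RE P E, ∃ s : _root_.Fermat.Agent.A2.Mod.RE P E, r - s ^ q ∈ IsLocalRing.maximalIdeal (_root_.Fermat.Agent.A2.Mod.RE P E) := by
        intro r
        obtain ⟨c', hc'⟩ := H96.exists_pow_eq_residue P E hq hP
          (IsLocalRing.residue (_root_.Fermat.Agent.A2.Mod.RE P E) r)
        obtain ⟨s, rfl⟩ := IsLocalRing.residue_surjective c'
        refine ⟨s, ?_⟩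
        have h1 : IsLocalRing.residue (_root_.Fermat.Agent.A2.Mod.RE P E) (r - s ^ q) = 0 := by
          rw [map_sub, map_pow, hc', sub_self]
        exact (IsLocalRing.residue_eq_zero_iff _).1 h1
      exact key r
    intro r hr
    obtain ⟨r₀, rfl⟩ := (S18.H456.mem_Rc_iff_cstR M P E).1 hr
    obtain ⟨s, hs⟩ := hperf r₀
    refine ⟨S18.H456.cstR M P E s, S18.H456.cstR_mem_Rc M P E s, ?_⟩
    rw [← S18.H456.cstR_pow, ← S18.H456.cstR_sub, hu.mul_inv_mem_iff]
    exact hs

/-! ### GOODRED for `q ≥ 5` -/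

variable [NeZero M]

/-- The good model of row S18 with coordinate `j` over the level `E`, for the uniformiser `w`. -/
theorem goodModel_j {q : ℕ} (hq : q.Prime) (h5 : 5 ≤ q) (hqM : ¬ q ∣ M)
    (hP : P.LiesOverPrime q) [IsDiscreteValuationRing (_root_.Fermat.Agent.A2.Mod.RE P E)] {w : _root_.Fermat.Agent.A2.Mod.RE P E}
    (hw : Irreducible w) :
    ∃ S : Finset (S18.Mod.Om M),
      S18.Alg.GoodModel (S18.Mod.Lc M) (S18.Mod.Ec M E) (S18.Mod.Fc M E) (S18.Mod.Rc M P E)
        (S18.Mod.H216.Vc M P E) (bridge E M (cE P E M w)) (S18.Mod.jOm M) S := by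
  classical
  haveI : Fact q.Prime := ⟨hq⟩
  refine ⟨{0, 1728}, ?_⟩
  exact S18.Mod.H216.goodModel_of_partR M P E hqM hP (partR_bridge_cE P E M hq hP hw)
    (Or.inl ⟨h5, rfl, fun s => by simp⟩)

/-- **GOODRED**, chart of `j`. -/
theorem goodRedAt_j {q : ℕ} (hq : q.Prime) (h5 : 5 ≤ q) (hqM : ¬ q ∣ M)
    (hP : P.LiesOverPrime q) [IsDiscreteValuationRing (_root_.Fermat.Agent.A2.Mod.RE P E)] (w : _root_.Fermat.Agent.A2.Mod.RE P E)
    (hw : Irreducible w) (VM : ValuationSubring (_root_.Fermat.Agent.A2.Mod.FE E M)) (hV : IsVinf P E M VM) :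
    GoodRedAt P E M w VM (jE E M 1 (one_dvd _)) := by
  obtain ⟨S, G⟩ := goodModel_j P E M hq h5 hqM hP hw
  exact goodRedAt_of_goodModel hV _ (bridge_jE 1 (one_dvd M)) G

/-- **GOODRED**, chart of `j⁻¹`. -/
theorem goodRedAt_j_inv {q : ℕ} (hq : q.Prime) (h5 : 5 ≤ q) (hqM : ¬ q ∣ M)
    (hP : P.LiesOverPrime q) [IsDiscreteValuationRing (_root_.Fermat.Agent.A2.Mod.RE P E)] (w : _root_.Fermat.Agent.A2.Mod.RE P E)
    (hw : Irreducible w) (VM : ValuationSubring (_root_.Fermat.Agent.A2.Mod.FE E M)) (hV : IsVinf P E M VM) :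
    GoodRedAt P E M w VM (jE E M 1 (one_dvd _))⁻¹ := by
  obtain ⟨S, G⟩ := goodModel_j P E M hq h5 hqM hP hw
  exact goodRedAt_inv_of_goodModel hV _ (bridge_jE 1 (one_dvd M)) G

/-- **GOODRED**: the level-`M` hypothesis `GoodRedHyp` of MODASM (`A2/Mod/Asm.lean`), `q ≥ 5`. -/
theorem goodRedHyp {q : ℕ} (hq : q.Prime) (h5 : 5 ≤ q) (hqM : ¬ q ∣ M)
    (hP : P.LiesOverPrime q) (hdvr : IsDiscreteValuationRing (_root_.Fermat.Agent.A2.Mod.RE P E)) :
    GoodRedHyp P E M :=
  fun w VM hw hV =>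
    ⟨goodRedAt_j P E M hq h5 hqM hP w hw VM hV, goodRedAt_j_inv P E M hq h5 hqM hP w hw VM hV⟩

end Fermat.Agent.A2.Mod.H216

end
end
-- ===== PACK-END A2/Mod/H216/GoodRed.lean

-- ===== PACK-BEGIN A2/Mod/H189/GoodRedT.lean
section






/-!
# Cell A2 / MOD, GOODRED part G3 (helper189): `GoodRedAt` for `j`, `1/j` from the Hauptmodul charts

The level-`M` hypothesis `Mod.GoodRedAt P E M w VM y` of MODASM (`A2/Mod/Spec.lean`) is needed for
`y = j` and `y = j⁻¹`.  Row S18 proves good reduction in the coordinate `j` only for residue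
characteristic `≥ 5`; for `q = 3` (`2 ∣ M`) and `q = 2` (`3 ∣ M`) it works with the Hauptmodul
`t = t₂` (`j t² = (t + 256)³`) resp. `t = t₃` (`j t³ = (t + 27)(t + 243)³`).  Here:

* `mem_chart_iff`       : the frozen `Mod.chart` is the integral closure of `R_E[y]`;
* `goodRedAt_iff_goodOn`: `Mod.GoodRedAt` is `H189.GoodOn` (the Mathlib-only form);
* `goodRedAt_j_of_t2`, `goodRedAt_j_of_t3` : `GoodRedAt` at `t`, `t⁻¹` ⟹ `GoodRedAt` at `j`, `j⁻¹`
  (unit conditions as hypotheses);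
* `goodRedAt_j_of_t2_polar`, `goodRedAt_j_of_t3_polar` : the same, with the unit conditions
  discharged by L3 (`H816.vinfGauss`) and L2 (`H708.vinfBasic`) for a polar `t = t⁻¹·(unit + …)`.
-/

set_option autoImplicit false
set_option synthInstance.maxHeartbeats 400000
set_option maxHeartbeats 1600000

noncomputable section

namespace Fermat.Agent.A2.Mod.H189

open ModularCurve HahnSeries Polynomial Fermat.Agent.A2 Fermat.Agent.A2.Mod

section Chart

variable (P : ValuationSubring _root_.Fermat.Agent.A2.Mod.Qb) (E : IntermediateField ℚ _root_.Fermat.Agent.A2.Mod.Qb) (N : ℕ)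

/-- `R_E[X] → R_E[y] ⊆ F`. -/
def evAdjoin (y : _root_.Fermat.Agent.A2.Mod.FE E N) :
    Polynomial (_root_.Fermat.Agent.A2.Mod.RE P E) →+* Algebra.adjoin (_root_.Fermat.Agent.A2.Mod.RE P E) ({y} : Set (_root_.Fermat.Agent.A2.Mod.FE E N)) :=
  ((Polynomial.aeval (R := _root_.Fermat.Agent.A2.Mod.RE P E) y).codRestrict (Algebra.adjoin (_root_.Fermat.Agent.A2.Mod.RE P E) ({y} : Set (_root_.Fermat.Agent.A2.Mod.FE E N)))
    (fun p => by
      rw [Algebra.adjoin_singleton_eq_range_aeval]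
      exact ⟨p, rfl⟩)).toRingHom

theorem evAdjoin_surjective (y : _root_.Fermat.Agent.A2.Mod.FE E N) : Function.Surjective (evAdjoin P E N y) := by
  rintro ⟨a, ha⟩
  rw [Algebra.adjoin_singleton_eq_range_aeval] at ha
  obtain ⟨p, hp⟩ := ha
  exact ⟨p, Subtype.ext hp⟩

theorem algebraMap_comp_evAdjoin (y : _root_.Fermat.Agent.A2.Mod.FE E N) :
    (algebraMap (Algebra.adjoin (_root_.Fermat.Agent.A2.Mod.RE P E) ({y} : Set (_root_.Fermat.Agent.A2.Mod.FE E N))) (_root_.Fermat.Agent.A2.Mod.FE E N)).comp (evAdjoin P E N y)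
      = Polynomial.eval₂RingHom ((algebraMap E (_root_.Fermat.Agent.A2.Mod.FE E N)).comp (_root_.Fermat.Agent.A2.Mod.RE P E).subtype) y := by
  refine Polynomial.ringHom_ext (fun a => ?_) ?_
  · show (Polynomial.aeval (R := _root_.Fermat.Agent.A2.Mod.RE P E) y) (C a) = _
    rw [Polynomial.aeval_C, Polynomial.coe_eval₂RingHom, Polynomial.eval₂_C]
    rfl
  · show (Polynomial.aeval (R := _root_.Fermat.Agent.A2.Mod.RE P E) y) X = _
    rw [Polynomial.aeval_X, Polynomial.coe_eval₂RingHom, Polynomial.eval₂_X]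

/-- The frozen chart of `Mod/Spec.lean` is the integral closure of `R_E[y]`. -/
theorem mem_chart_iff {y f : _root_.Fermat.Agent.A2.Mod.FE E N} :
    f ∈ chart P E N y ↔ IsIntegral (Algebra.adjoin (_root_.Fermat.Agent.A2.Mod.RE P E) ({y} : Set (_root_.Fermat.Agent.A2.Mod.FE E N))) f := by
  constructor
  · rintro ⟨p, hp, hpf⟩
    refine ⟨p.map (evAdjoin P E N y), hp.map _, ?_⟩
    rw [eval₂_map, algebraMap_comp_evAdjoin]
    exact hpf
  · rintro ⟨q, hq, hqf⟩
    have hl : q ∈ lifts (evAdjoin P E N y) := by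
      rw [lifts_iff_coeff_lifts]
      intro n
      exact evAdjoin_surjective P E N y _
    obtain ⟨p, hpq, -, hp⟩ := lifts_and_degree_eq_and_monic hl hq
    refine ⟨p, hp, ?_⟩
    rw [← algebraMap_comp_evAdjoin, ← eval₂_map, hpq]
    exact hqf

variable {N} in
/-- `Mod.GoodRedAt` in Mathlib-only form. -/
theorem goodRedAt_iff_goodOn (w : _root_.Fermat.Agent.A2.Mod.RE P E) (VM : ValuationSubring (_root_.Fermat.Agent.A2.Mod.FE E N)) (y : _root_.Fermat.Agent.A2.Mod.FE E N) :
    GoodRedAt P E N w VM y ↔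
      GoodOn VM.toSubring (cE P E N w) (Algebra.adjoin (_root_.Fermat.Agent.A2.Mod.RE P E) ({y} : Set (_root_.Fermat.Agent.A2.Mod.FE E N))) := by
  constructor
  · intro h
    refine ⟨fun b hb hbw => ?_, fun f hf hint => ?_⟩
    · exact (mem_chart_iff P E N).1 (h.qep b ((mem_chart_iff P E N).2 hb) hbw)
    · obtain ⟨n, c, hc, hcw⟩ := hint
      obtain ⟨b, hb, hbw⟩ := h.normal f hf ⟨n, c, fun i => (mem_chart_iff P E N).2 (hc i), hcw⟩
      exact ⟨b, (mem_chart_iff P E N).1 hb, hbw⟩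
  · rintro ⟨hq, hn⟩
    refine ⟨fun b hb hbw => ?_, fun f hf hint => ?_⟩
    · exact (mem_chart_iff P E N).2 (hq b ((mem_chart_iff P E N).1 hb) hbw)
    · obtain ⟨n, c, hc, hcw⟩ := hint
      obtain ⟨b, hb, hbw⟩ := hn f hf ⟨n, c, fun i => (mem_chart_iff P E N).1 (hc i), hcw⟩
      exact ⟨b, (mem_chart_iff P E N).2 hb, hbw⟩

end Chart

section Main

variable (P : ValuationSubring _root_.Fermat.Agent.A2.Mod.Qb) (E : IntermediateField ℚ _root_.Fermat.Agent.A2.Mod.Qb) (M : ℕ) (w : _root_.Fermat.Agent.A2.Mod.RE P E)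

/-- `n ≡ 1 mod q` is a unit of `R_E` when `P` lies over `q`. -/
theorem exists_inv_of_liesOver {q : ℕ} (hP : P.LiesOverPrime q) (n k : ℕ) (hn : n = q * k + 1) :
    ∃ i : _root_.Fermat.Agent.A2.Mod.RE P E, (n : _root_.Fermat.Agent.A2.Mod.RE P E) * i = 1 := by
  have hq : P.valuation (q : _root_.Fermat.Agent.A2.Mod.Qb) < 1 := by
    have h : (q : _root_.Fermat.Agent.A2.Mod.Qb) ∈ P.nonunits := hP
    exact (P.mem_nonunits_iff).1 h
  have hk : P.valuation ((q : _root_.Fermat.Agent.A2.Mod.Qb) * (k : _root_.Fermat.Agent.A2.Mod.Qb)) < 1 := by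
    calc P.valuation ((q : _root_.Fermat.Agent.A2.Mod.Qb) * (k : _root_.Fermat.Agent.A2.Mod.Qb)) = P.valuation (q : _root_.Fermat.Agent.A2.Mod.Qb) * P.valuation (k : _root_.Fermat.Agent.A2.Mod.Qb) :=
          map_mul _ _ _
      _ ≤ P.valuation (q : _root_.Fermat.Agent.A2.Mod.Qb) * 1 := by
          gcongr
          exact (P.valuation_le_one_iff _).2 (natCast_mem P k)
      _ = P.valuation (q : _root_.Fermat.Agent.A2.Mod.Qb) := mul_one _
      _ < 1 := hq
  have hval : P.valuation (n : _root_.Fermat.Agent.A2.Mod.Qb) = 1 := by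
    have e : (n : _root_.Fermat.Agent.A2.Mod.Qb) = 1 + (q : _root_.Fermat.Agent.A2.Mod.Qb) * (k : _root_.Fermat.Agent.A2.Mod.Qb) := by
      rw [hn]
      push_cast
      ring
    rw [e, ← map_one P.valuation]
    exact Valuation.map_add_eq_of_lt_left _ (by rw [map_one]; exact hk)
  have hinv : ((n : _root_.Fermat.Agent.A2.Mod.Qb))⁻¹ ∈ P := by
    refine (P.valuation_le_one_iff _).1 ?_
    rw [map_inv₀, hval, inv_one]
  have hn0 : (n : E) ≠ 0 := by
    have : n ≠ 0 := by omega
    exact_mod_cast this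
  refine ⟨⟨((n : E))⁻¹, ?_⟩, Subtype.ext ?_⟩
  · show algebraMap E _root_.Fermat.Agent.A2.Mod.Qb ((n : E))⁻¹ ∈ P
    rw [map_inv₀, map_natCast]
    exact hinv
  · show ((n : _root_.Fermat.Agent.A2.Mod.RE P E) : E) * ((n : E))⁻¹ = 1
    have : ((n : _root_.Fermat.Agent.A2.Mod.RE P E) : E) = (n : E) := by simp
    rw [this, mul_inv_cancel₀ hn0]

/-- **`t₂ → j`** (`q = 3`, `2 ∣ M`): good reduction in the charts of the Hauptmodul `t` of `X₀(2)`
gives good reduction in the charts of `j`. -/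
theorem goodRedAt_j_of_t2 (i : _root_.Fermat.Agent.A2.Mod.RE P E) (hi : (256 : _root_.Fermat.Agent.A2.Mod.RE P E) * i = 1)
    (VM : ValuationSubring (_root_.Fermat.Agent.A2.Mod.FE E M))
    (hRV : ∀ r : _root_.Fermat.Agent.A2.Mod.RE P E, algebraMap (_root_.Fermat.Agent.A2.Mod.RE P E) (_root_.Fermat.Agent.A2.Mod.FE E M) r ∈ VM)
    (t : _root_.Fermat.Agent.A2.Mod.FE E M) (hrel : jE E M 1 (one_dvd _) * t ^ 2 = (t + 256) ^ 3)
    (htV : t ∈ VM) (htV' : t⁻¹ ∈ VM) (huV : (t + 256)⁻¹ ∈ VM)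
    (hg : GoodRedAt P E M w VM t) (hg' : GoodRedAt P E M w VM t⁻¹) :
    GoodRedAt P E M w VM (jE E M 1 (one_dvd _)) ∧
      GoodRedAt P E M w VM (jE E M 1 (one_dvd _))⁻¹ := by
  rw [goodRedAt_iff_goodOn] at hg hg' ⊢
  rw [goodRedAt_iff_goodOn]
  have hj := H873.jE_ne_zero E M 1 (one_dvd _)
  exact ⟨goodOn_j_of_t2 i hi hj hrel htV htV' hg,
    goodOn_jinv_of_t2 i hi hj hrel hRV htV htV' huV hg hg'⟩

/-- **`t₃ → j`** (`q = 2`, `3 ∣ M`): good reduction in the charts of the Hauptmodul `t` of `X₀(3)`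
gives good reduction in the charts of `j`. -/
theorem goodRedAt_j_of_t3 (i : _root_.Fermat.Agent.A2.Mod.RE P E) (hi : (3 : _root_.Fermat.Agent.A2.Mod.RE P E) * i = 1)
    (VM : ValuationSubring (_root_.Fermat.Agent.A2.Mod.FE E M))
    (hRV : ∀ r : _root_.Fermat.Agent.A2.Mod.RE P E, algebraMap (_root_.Fermat.Agent.A2.Mod.RE P E) (_root_.Fermat.Agent.A2.Mod.FE E M) r ∈ VM)
    (t : _root_.Fermat.Agent.A2.Mod.FE E M) (hrel : jE E M 1 (one_dvd _) * t ^ 3 = (t + 27) * (t + 243) ^ 3)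
    (htV : t ∈ VM) (htV' : t⁻¹ ∈ VM) (hu₁V : (t + 27)⁻¹ ∈ VM) (hu₂V : (t + 243)⁻¹ ∈ VM)
    (hg : GoodRedAt P E M w VM t) (hg' : GoodRedAt P E M w VM t⁻¹) :
    GoodRedAt P E M w VM (jE E M 1 (one_dvd _)) ∧
      GoodRedAt P E M w VM (jE E M 1 (one_dvd _))⁻¹ := by
  rw [goodRedAt_iff_goodOn] at hg hg' ⊢
  rw [goodRedAt_iff_goodOn]
  have hj := H873.jE_ne_zero E M 1 (one_dvd _)
  exact ⟨goodOn_j_of_t3 i hi hj hrel htV htV' hg,
    goodOn_jinv_of_t3 i hi hj hrel hRV htV htV' hu₁V hu₂V hg hg'⟩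

/-! ### Unit conditions from L2 and L3 -/

theorem not_C_dvd_X_add_C {w : _root_.Fermat.Agent.A2.Mod.RE P E} (hw : Irreducible w) (c : _root_.Fermat.Agent.A2.Mod.RE P E) :
    ¬ (Polynomial.C w : Polynomial (_root_.Fermat.Agent.A2.Mod.RE P E)) ∣ Polynomial.X + Polynomial.C c := by
  intro h
  rw [Polynomial.C_dvd_iff_dvd_coeff] at h
  have h1 := h 1
  rw [Polynomial.coeff_add, Polynomial.coeff_X_one, Polynomial.coeff_C] at h1
  simp only [one_ne_zero, if_false, add_zero] at h1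
  exact hw.not_isUnit (isUnit_of_dvd_one h1)

theorem ev_X_add_C (t : _root_.Fermat.Agent.A2.Mod.FE E M) (c : _root_.Fermat.Agent.A2.Mod.RE P E) :
    ev P E M t (Polynomial.X + Polynomial.C c) = t + algebraMap (_root_.Fermat.Agent.A2.Mod.RE P E) (_root_.Fermat.Agent.A2.Mod.FE E M) c := by
  unfold ev
  rw [Polynomial.eval₂_add, Polynomial.eval₂_X, Polynomial.eval₂_C]
  rfl

/-- For a polar `t = t⁻¹ · (unit + …)` all `t + c`, `c ∈ R_E`, are units of `V∞` (L3). -/
theorem add_const_unit_of_polar (hM : M ≠ 0) (hdvr : IsDiscreteValuationRing (_root_.Fermat.Agent.A2.Mod.RE P E))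
    (hw : Irreducible w) (VM : ValuationSubring (_root_.Fermat.Agent.A2.Mod.FE E M)) (hVM : IsVinf P E M VM)
    (t : _root_.Fermat.Agent.A2.Mod.FE E M) (U : LaurentSeries (_root_.Fermat.Agent.A2.Mod.RE P E))
    (hU : (t : LaurentSeries E) = H708.incl (_root_.Fermat.Agent.A2.Mod.RE P E) U)
    (hlow : ∀ n : ℤ, n < -1 → U.coeff n = 0) (htop : IsUnit (U.coeff (-1))) (c : _root_.Fermat.Agent.A2.Mod.RE P E) :
    t + algebraMap (_root_.Fermat.Agent.A2.Mod.RE P E) (_root_.Fermat.Agent.A2.Mod.FE E M) c ∈ VM ∧ (t + algebraMap (_root_.Fermat.Agent.A2.Mod.RE P E) (_root_.Fermat.Agent.A2.Mod.FE E M) c)⁻¹ ∈ VM := by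
  have h := H816.vinfGauss P E w M hM hdvr hw VM hVM t U 1 one_pos hU
    (by simpa using hlow) (by simpa using htop) (Polynomial.X + Polynomial.C c)
    (not_C_dvd_X_add_C P E hw c)
  rwa [ev_X_add_C] at h

theorem const_mem_of_isVinf (hM : M ≠ 0) (hdvr : IsDiscreteValuationRing (_root_.Fermat.Agent.A2.Mod.RE P E))
    (hw : Irreducible w) (VM : ValuationSubring (_root_.Fermat.Agent.A2.Mod.FE E M)) (hVM : IsVinf P E M VM)
    (r : _root_.Fermat.Agent.A2.Mod.RE P E) : algebraMap (_root_.Fermat.Agent.A2.Mod.RE P E) (_root_.Fermat.Agent.A2.Mod.FE E M) r ∈ VM :=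
  ((H708.vinfBasic P E w M hM hdvr hw VM hVM).2.1 (r : E)).2 r.2

/-- **`t₂ → j`**, polar form: `P` over `3`, `t` the image of an integral series `t⁻¹(unit + …)`
with `j t² = (t + 256)³`. -/
theorem goodRedAt_j_of_t2_polar (hP : P.LiesOverPrime 3) (hM : M ≠ 0)
    (hdvr : IsDiscreteValuationRing (_root_.Fermat.Agent.A2.Mod.RE P E)) (hw : Irreducible w)
    (VM : ValuationSubring (_root_.Fermat.Agent.A2.Mod.FE E M)) (hVM : IsVinf P E M VM)
    (t : _root_.Fermat.Agent.A2.Mod.FE E M) (U : LaurentSeries (_root_.Fermat.Agent.A2.Mod.RE P E))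
    (hU : (t : LaurentSeries E) = H708.incl (_root_.Fermat.Agent.A2.Mod.RE P E) U)
    (hlow : ∀ n : ℤ, n < -1 → U.coeff n = 0) (htop : IsUnit (U.coeff (-1)))
    (hrel : jE E M 1 (one_dvd _) * t ^ 2 = (t + 256) ^ 3)
    (hg : GoodRedAt P E M w VM t) (hg' : GoodRedAt P E M w VM t⁻¹) :
    GoodRedAt P E M w VM (jE E M 1 (one_dvd _)) ∧
      GoodRedAt P E M w VM (jE E M 1 (one_dvd _))⁻¹ := by
  obtain ⟨i, hi⟩ := exists_inv_of_liesOver P E hP 256 85 (by norm_num)
  have hi' : (256 : _root_.Fermat.Agent.A2.Mod.RE P E) * i = 1 := by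
    rw [← hi]
    norm_num
  have h0 := add_const_unit_of_polar P E M w hM hdvr hw VM hVM t U hU hlow htop 0
  rw [map_zero, add_zero] at h0
  have h256 := add_const_unit_of_polar P E M w hM hdvr hw VM hVM t U hU hlow htop 256
  rw [map_ofNat] at h256
  exact goodRedAt_j_of_t2 P E M w i hi' VM
    (const_mem_of_isVinf P E M w hM hdvr hw VM hVM) t hrel h0.1 h0.2 h256.2 hg hg'

/-- **`t₃ → j`**, polar form: `P` over `2`, `t` the image of an integral series `t⁻¹(unit + …)`
with `j t³ = (t + 27)(t + 243)³`. -/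
theorem goodRedAt_j_of_t3_polar (hP : P.LiesOverPrime 2) (hM : M ≠ 0)
    (hdvr : IsDiscreteValuationRing (_root_.Fermat.Agent.A2.Mod.RE P E)) (hw : Irreducible w)
    (VM : ValuationSubring (_root_.Fermat.Agent.A2.Mod.FE E M)) (hVM : IsVinf P E M VM)
    (t : _root_.Fermat.Agent.A2.Mod.FE E M) (U : LaurentSeries (_root_.Fermat.Agent.A2.Mod.RE P E))
    (hU : (t : LaurentSeries E) = H708.incl (_root_.Fermat.Agent.A2.Mod.RE P E) U)
    (hlow : ∀ n : ℤ, n < -1 → U.coeff n = 0) (htop : IsUnit (U.coeff (-1)))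
    (hrel : jE E M 1 (one_dvd _) * t ^ 3 = (t + 27) * (t + 243) ^ 3)
    (hg : GoodRedAt P E M w VM t) (hg' : GoodRedAt P E M w VM t⁻¹) :
    GoodRedAt P E M w VM (jE E M 1 (one_dvd _)) ∧
      GoodRedAt P E M w VM (jE E M 1 (one_dvd _))⁻¹ := by
  obtain ⟨i, hi⟩ := exists_inv_of_liesOver P E hP 3 1 (by norm_num)
  have hi' : (3 : _root_.Fermat.Agent.A2.Mod.RE P E) * i = 1 := by
    rw [← hi]
    norm_num
  have h0 := add_const_unit_of_polar P E M w hM hdvr hw VM hVM t U hU hlow htop 0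
  rw [map_zero, add_zero] at h0
  have h27 := add_const_unit_of_polar P E M w hM hdvr hw VM hVM t U hU hlow htop 27
  rw [map_ofNat] at h27
  have h243 := add_const_unit_of_polar P E M w hM hdvr hw VM hVM t U hU hlow htop 243
  rw [map_ofNat] at h243
  exact goodRedAt_j_of_t3 P E M w i hi' VM
    (const_mem_of_isVinf P E M w hM hdvr hw VM hVM) t hrel h0.1 h0.2 h27.2 h243.2 hg hg'

end Main

end Fermat.Agent.A2.Mod.H189

end
end
-- ===== PACK-END A2/Mod/H189/GoodRedT.lean

-- ===== PACK-BEGIN A2/Mod/H189/GoodRedCoord.lean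
section



/-!
# Cell A2 / MOD, GOODRED part G3 (helper189): the Hauptmoduln `t₂`, `t₃` at a level `E`

`t2E E M`, `t3E E M : FE E M` are the images of the integral series `S18.H333.t2Z`, `t3Z`
(`2 ∣ M` resp. `3 ∣ M`); they satisfy `j t₂² = (t₂ + 256)³`, `j t₃³ = (t₃ + 27)(t₃ + 243)³` and are
polar (`t⁻¹ + …`).  Hence (`GoodRedT.lean`):

* `goodRedHyp_of_t2` : `P` over `3`, `2 ∣ M`: `GoodRedAt` at `t₂`, `t₂⁻¹` (for all `w`, `VM`)
  ⟹ `Mod.GoodRedHyp P E M`;
* `goodRedHyp_of_t3` : `P` over `2`, `3 ∣ M`: `GoodRedAt` at `t₃`, `t₃⁻¹` ⟹ `Mod.GoodRedHyp P E M`.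

So a producer of good reduction only has to work in the coordinate of row S18
(`j` for `q ≥ 5`, `t₂` for `q = 3`, `t₃` for `q = 2`).
-/

set_option autoImplicit false
set_option synthInstance.maxHeartbeats 400000
set_option maxHeartbeats 1600000

noncomputable section

namespace Fermat.Agent.A2.Mod.H189

open ModularCurve HahnSeries Polynomial Fermat.Agent.A2 Fermat.Agent.A2.Mod
open Fermat.Agent.S18.H333 (t2Z t3Z)

variable (P : ValuationSubring _root_.Fermat.Agent.A2.Mod.Qb) (E : IntermediateField ℚ _root_.Fermat.Agent.A2.Mod.Qb) (M : ℕ)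

theorem coeffEmb_castQ_eq (X : LaurentSeries ℤ) :
    coeffEmb E (H708.castQ X) = coeffMap (Int.castRingHom E) X := by
  rw [coeffEmb, H708.castQ, coeffMap_coeffMap]
  exact coeffMap_congr (RingHom.ext_int _ _) X

theorem coe_jE_one : ((jE E M 1 (one_dvd _) : _root_.Fermat.Agent.A2.Mod.FE E M) : LaurentSeries E) = jqModC E := by
  show coeffEmb E (qExpand ℚ 1 jq) = jqModC E
  rw [qExpand_one_apply, ← jqModC_rat, coeffEmb, coeffMap_jqModC]

/-- The element of `F_{M,E}` given by an integral series lying in `ℚ(j_d : d ∣ M)`. -/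
def feOf (X : LaurentSeries ℤ) (hX : H708.castQ X ∈ modularFunctionFieldFull M) : _root_.Fermat.Agent.A2.Mod.FE E M :=
  ⟨coeffEmb E (H708.castQ X), coeffEmb_mem_laurentBaseChange E hX⟩

theorem coe_feOf (X : LaurentSeries ℤ) (hX : H708.castQ X ∈ modularFunctionFieldFull M) :
    ((feOf E M X hX : _root_.Fermat.Agent.A2.Mod.FE E M) : LaurentSeries E) = coeffMap (Int.castRingHom E) X :=
  coeffEmb_castQ_eq E X

theorem coe_feOf_incl (X : LaurentSeries ℤ) (hX : H708.castQ X ∈ modularFunctionFieldFull M) :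
    ((feOf E M X hX : _root_.Fermat.Agent.A2.Mod.FE E M) : LaurentSeries E) =
      H708.incl (_root_.Fermat.Agent.A2.Mod.RE P E) (H708.castA (_root_.Fermat.Agent.A2.Mod.RE P E) X) :=
  (H708.incl_castA (_root_.Fermat.Agent.A2.Mod.RE P E) X).symm

/-- `t₂ ∈ F_{M,E}` (`2 ∣ M`). -/
def t2E (hM : 2 ∣ M) : _root_.Fermat.Agent.A2.Mod.FE E M := feOf E M t2Z (Fermat.Agent.S18.H333.t2Q_mem M hM)

/-- `t₃ ∈ F_{M,E}` (`3 ∣ M`). -/
def t3E (hM : 3 ∣ M) : _root_.Fermat.Agent.A2.Mod.FE E M := feOf E M t3Z (Fermat.Agent.S18.H333.t3Q_mem M hM)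

theorem t2E_rel (hM : 2 ∣ M) :
    jE E M 1 (one_dvd _) * t2E E M hM ^ 2 = (t2E E M hM + 256) ^ 3 := by
  apply Subtype.ext
  have h := Fermat.Agent.S18.H333.t2_rel_a E
  have hx : ((t2E E M hM : _root_.Fermat.Agent.A2.Mod.FE E M) : LaurentSeries E) = Fermat.Agent.S18.H333.t2 E :=
    coe_feOf E M t2Z _
  push_cast
  rw [coe_jE_one, hx]
  exact h

theorem t3E_rel (hM : 3 ∣ M) :
    jE E M 1 (one_dvd _) * t3E E M hM ^ 3 = (t3E E M hM + 27) * (t3E E M hM + 243) ^ 3 := by
  apply Subtype.ext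
  have h := Fermat.Agent.S18.H333.t3_rel_a E
  have hx : ((t3E E M hM : _root_.Fermat.Agent.A2.Mod.FE E M) : LaurentSeries E) = Fermat.Agent.S18.H333.t3 E :=
    coe_feOf E M t3Z _
  push_cast
  rw [coe_jE_one, hx]
  exact h

theorem castA_coeff (X : LaurentSeries ℤ) (k : ℤ) :
    (H708.castA (_root_.Fermat.Agent.A2.Mod.RE P E) X).coeff k = ((X.coeff k : ℤ) : _root_.Fermat.Agent.A2.Mod.RE P E) := rfl

/-- **GOODRED for `q = 3`** from good reduction in the charts of `t₂`. -/
theorem goodRedHyp_of_t2 (hP : P.LiesOverPrime 3) (hM0 : M ≠ 0) (hM : 2 ∣ M)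
    (hdvr : IsDiscreteValuationRing (_root_.Fermat.Agent.A2.Mod.RE P E))
    (h : ∀ (w : _root_.Fermat.Agent.A2.Mod.RE P E) (VM : ValuationSubring (_root_.Fermat.Agent.A2.Mod.FE E M)), Irreducible w → IsVinf P E M VM →
      GoodRedAt P E M w VM (t2E E M hM) ∧ GoodRedAt P E M w VM (t2E E M hM)⁻¹) :
    GoodRedHyp P E M := by
  intro w VM hw hVM
  obtain ⟨hg, hg'⟩ := h w VM hw hVM
  refine goodRedAt_j_of_t2_polar P E M w hP hM0 hdvr hw VM hVM (t2E E M hM)
    (H708.castA (_root_.Fermat.Agent.A2.Mod.RE P E) t2Z) (coe_feOf_incl P E M t2Z _) ?_ ?_ (t2E_rel E M hM) hg hg'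
  · intro n hn
    rw [castA_coeff, Fermat.Agent.S18.H333.t2Z_coeff_of_lt hn, Int.cast_zero]
  · rw [castA_coeff, Fermat.Agent.S18.H333.t2Z_coeff_neg_one, Int.cast_one]
    exact isUnit_one

/-- **GOODRED for `q = 2`** from good reduction in the charts of `t₃`. -/
theorem goodRedHyp_of_t3 (hP : P.LiesOverPrime 2) (hM0 : M ≠ 0) (hM : 3 ∣ M)
    (hdvr : IsDiscreteValuationRing (_root_.Fermat.Agent.A2.Mod.RE P E))
    (h : ∀ (w : _root_.Fermat.Agent.A2.Mod.RE P E) (VM : ValuationSubring (_root_.Fermat.Agent.A2.Mod.FE E M)), Irreducible w → IsVinf P E M VM →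
      GoodRedAt P E M w VM (t3E E M hM) ∧ GoodRedAt P E M w VM (t3E E M hM)⁻¹) :
    GoodRedHyp P E M := by
  intro w VM hw hVM
  obtain ⟨hg, hg'⟩ := h w VM hw hVM
  refine goodRedAt_j_of_t3_polar P E M w hP hM0 hdvr hw VM hVM (t3E E M hM)
    (H708.castA (_root_.Fermat.Agent.A2.Mod.RE P E) t3Z) (coe_feOf_incl P E M t3Z _) ?_ ?_ (t3E_rel E M hM) hg hg'
  · intro n hn
    rw [castA_coeff, Fermat.Agent.S18.H333.t3Z_coeff_of_lt hn, Int.cast_zero]
  · rw [castA_coeff, Fermat.Agent.S18.H333.t3Z_coeff_neg_one, Int.cast_one]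
    exact isUnit_one

end Fermat.Agent.A2.Mod.H189

end
end
-- ===== PACK-END A2/Mod/H189/GoodRedCoord.lean

-- ===== PACK-BEGIN A2/Top/H994/ModTop.lean
section





/-!
# WALL A2 / MOD — final assembly `ModSSGoodStatement` (deputy helper994, MOD architect)

`Mod.modSSData_of_parts` (helper13, `A2/Mod/Asm.lean`) produces `ModSSData P E (M * q)` from the
leaves L1, L4, L8, the sub-assemblies S1–S4, Sτ and the level-`M` hypothesis `GoodRedHyp`.
This file turns it into the statement consumed by the wall (`Top.H994.wall`,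
`H562.wall_of_alg_if_mod`):

* `GoodRedStatement` : the EXACT target of the GOODRED owners (good reduction of `X₀(M)` at
  `q ∤ M` over every good level `E`, in the two charts `j`, `1/j`; for `q = 3` only when `2 ∣ M`,
  for `q = 2` only when `3 ∣ M`);
* `modSSGood_of_parts` : L8 + S1–S4 + Sτ + GOODRED ⟹ `ModSSGoodStatement`
  (L1 = `H553.vinfExists`, L4 = `H751.frickeExists` are plugged in from main).
-/

set_option autoImplicit false
set_option linter.unusedSectionVars false
set_option synthInstance.maxHeartbeats 400000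
set_option maxHeartbeats 1600000

noncomputable section

namespace Fermat.Agent.A2.Top.H994

open ModularCurve Fermat.Agent.A2

/-- **GOODRED (target statement).**  Good reduction of `X₀(M)` at a prime `q ∤ M` over every good
level `E`, in the charts of `j` and `1/j` (`Mod.GoodRedHyp`), at the levels carrying the auxiliary
prime (`2 ∣ M` for `q = 3`, `3 ∣ M` for `q = 2`). -/
def GoodRedStatement : Prop :=
  ∀ (P : ValuationSubring Qb) (E : IntermediateField ℚ Qb) (M q : ℕ) [NeZero M] [NeZero q],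
    q.Prime → ¬ q ∣ M → (q = 3 → 2 ∣ M) → (q = 2 → 3 ∣ M) → P.LiesOverPrime q →
    GoodField P E → Mod.GoodRedHyp P E M

/-- **MOD, final assembly.** -/
theorem modSSGood_of_parts
    (hDeg : ∀ (E : IntermediateField ℚ Qb) (M q : ℕ) [NeZero M] [NeZero q],
      Mod.DegStatement E M q)
    (hS1 : ∀ (P : ValuationSubring Qb) (E : IntermediateField ℚ Qb) (M q : ℕ) [NeZero M]
      [NeZero q] (w : RE P E), Mod.S1Statement P E M q w)
    (hS2 : ∀ (P : ValuationSubring Qb) (E : IntermediateField ℚ Qb) (M q : ℕ) [NeZero M]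
      [NeZero q] (w : RE P E), Mod.S2Statement P E M q w)
    (hS3 : ∀ (P : ValuationSubring Qb) (E : IntermediateField ℚ Qb) (M q : ℕ) [NeZero M]
      [NeZero q] (w : RE P E), Mod.S3Statement P E M q w)
    (hS4 : ∀ (P : ValuationSubring Qb) (E : IntermediateField ℚ Qb) (M q : ℕ) [NeZero M]
      [NeZero q] (w : RE P E), Mod.S4Statement P E M q w)
    (hSτ : ∀ (P : ValuationSubring Qb) (E : IntermediateField ℚ Qb) (M q : ℕ) [NeZero M]
      [NeZero q] (w : RE P E), Mod.StauStatement P E M q w)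
    (hGood : GoodRedStatement) :
    ModSSGoodStatement := by
  intro P E N q hq hqN hq2 hN h3 h2 hP hE
  obtain ⟨M, hM⟩ := hqN
  have hNM : N = M * q := by rw [hM, mul_comm]
  subst hNM
  have hM0 : M ≠ 0 := fun h => hN (by rw [h, zero_mul])
  haveI : NeZero M := ⟨hM0⟩
  haveI : NeZero q := ⟨hq.ne_zero⟩
  have hqM : ¬ q ∣ M := by
    rintro ⟨c, hc⟩
    exact hq2 ⟨c, by rw [hc]; ring⟩
  have h3' : q = 3 → 2 ∣ M := by
    intro h
    have h2N := h3 h
    subst h
    exact (Nat.Coprime.dvd_mul_right (by norm_num : Nat.Coprime 2 3)).1 h2N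
  have h2' : q = 2 → 3 ∣ M := by
    intro h
    have h3N := h2 h
    subst h
    exact (Nat.Coprime.dvd_mul_right (by norm_num : Nat.Coprime 3 2)).1 h3N
  exact Mod.modSSData_of_parts P E M q hq hqM hP hE.dvr
    (Mod.H553.vinfExists P E M hM0 hE.dvr)
    (Mod.H553.vinfExists P E (M * q) hN hE.dvr)
    (Mod.H751.frickeExists E (M * q) hN)
    (hDeg E M q) (hS1 P E M q) (hS2 P E M q) (hS3 P E M q) (hS4 P E M q) (hSτ P E M q)
    (hGood P E M q hq hqM h3' h2' hP hE)

end Fermat.Agent.A2.Top.H994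

end

end
-- ===== PACK-END A2/Top/H994/ModTop.lean

-- ===== PACK-BEGIN A2/Mod/H216/GoodRedAll.lean
section




/-!
# A2 / GOODRED (helper216): `Top.H994.GoodRedStatement` — CLOSED (all primes `q`)

    goodRedStatement : Top.H994.GoodRedStatement

i.e. for every prime `q ∤ M` (with `2 ∣ M` if `q = 3`, `3 ∣ M` if `q = 2`), `P` over `q` and every
good level `E`: `Mod.GoodRedHyp P E M` (good reduction at level `M` in the charts of `j`, `1/j`).

* `q ≥ 5` : `goodRedHyp` (`GoodRed.lean`), coordinate `j` of row S18;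
* `q = 3` : the good model of row S18 in the coordinate `t₂` (`S18.Mod.H216.goodModel_of_partR`),
  the adapter `goodRedAt_of_goodModel`, and helper189's chart change `H189.goodRedHyp_of_t2`;
* `q = 2` : the same with `t₃`, `H189.goodRedHyp_of_t3`.

Only `GoodField.dvr` is used (no henselian / algebraically closed residue field hypothesis).
-/

set_option autoImplicit false
set_option linter.unusedSectionVars false
set_option linter.style.haveILetI false
set_option synthInstance.maxHeartbeats 400000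
set_option maxHeartbeats 1600000

noncomputable section

namespace Fermat.Agent.A2.Mod.H216

open ModularCurve Polynomial

variable (P : ValuationSubring _root_.Fermat.Agent.A2.Mod.Qb) (E : IntermediateField ℚ _root_.Fermat.Agent.A2.Mod.Qb) (M : ℕ)

theorem bridge_t2E (hM : 2 ∣ M) :
    bridge E M (H189.t2E E M hM) = S18.H333.t2Om M hM := by
  apply Subtype.ext
  rw [coe_bridge]
  exact S18.H602.coeffMap_coeffEmb' (algebraMap E _root_.Fermat.Agent.A2.Mod.Qb) _

theorem bridge_t3E (hM : 3 ∣ M) :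
    bridge E M (H189.t3E E M hM) = S18.H333.t3Om M hM := by
  apply Subtype.ext
  rw [coe_bridge]
  exact S18.H602.coeffMap_coeffEmb' (algebraMap E _root_.Fermat.Agent.A2.Mod.Qb) _

theorem isCoordinate_t2Om (hM : 2 ∣ M) :
    ∃ S : Finset (S18.Mod.Om M), S18.Mod.IsCoordinate M 3 (S18.H333.t2Om M hM) S := by
  classical
  refine ⟨{0, -64}, Or.inr ⟨Or.inl ⟨rfl, S18.H333.t2Om_rel M hM, ?_⟩, ?_⟩⟩
  · intro s; simp
  · exact ⟨S18.H333.t2Z, S18.H333.t2Z_coeff_neg_one, fun k hk => S18.H333.t2Z_coeff_of_lt hk,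
      S18.H333.omOf_coe M S18.H333.t2Z _, S18.H333.t2Q_mem M hM⟩

theorem isCoordinate_t3Om (hM : 3 ∣ M) :
    ∃ S : Finset (S18.Mod.Om M), S18.Mod.IsCoordinate M 2 (S18.H333.t3Om M hM) S := by
  classical
  refine ⟨{0, -27}, Or.inr ⟨Or.inr ⟨rfl, S18.H333.t3Om_rel M hM, ?_⟩, ?_⟩⟩
  · intro s; simp
  · exact ⟨S18.H333.t3Z, S18.H333.t3Z_coeff_neg_one, fun k hk => S18.H333.t3Z_coeff_of_lt hk,
      S18.H333.omOf_coe M S18.H333.t3Z _, S18.H333.t3Q_mem M hM⟩

variable [NeZero M]

/-- **GOODRED for `q = 3`** (`2 ∣ M`). -/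
theorem goodRedHyp_three (hqM : ¬ 3 ∣ M) (hM : 2 ∣ M) (hP : P.LiesOverPrime 3)
    (hdvr : IsDiscreteValuationRing (_root_.Fermat.Agent.A2.Mod.RE P E)) : GoodRedHyp P E M := by
  haveI := hdvr
  haveI : Fact (Nat.Prime 3) := ⟨Nat.prime_three⟩
  refine H189.goodRedHyp_of_t2 P E M hP (NeZero.ne M) hM hdvr fun w VM hw hV => ?_
  obtain ⟨S, hS⟩ := isCoordinate_t2Om M hM
  have G := S18.Mod.H216.goodModel_of_partR M P E hqM hP
    (partR_bridge_cE P E M Nat.prime_three hP hw) hS
  exact ⟨goodRedAt_of_goodModel hV _ (bridge_t2E E M hM) G,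
    goodRedAt_inv_of_goodModel hV _ (bridge_t2E E M hM) G⟩

/-- **GOODRED for `q = 2`** (`3 ∣ M`). -/
theorem goodRedHyp_two (hqM : ¬ 2 ∣ M) (hM : 3 ∣ M) (hP : P.LiesOverPrime 2)
    (hdvr : IsDiscreteValuationRing (_root_.Fermat.Agent.A2.Mod.RE P E)) : GoodRedHyp P E M := by
  haveI := hdvr
  haveI : Fact (Nat.Prime 2) := ⟨Nat.prime_two⟩
  refine H189.goodRedHyp_of_t3 P E M hP (NeZero.ne M) hM hdvr fun w VM hw hV => ?_
  obtain ⟨S, hS⟩ := isCoordinate_t3Om M hM
  have G := S18.Mod.H216.goodModel_of_partR M P E hqM hP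
    (partR_bridge_cE P E M Nat.prime_two hP hw) hS
  exact ⟨goodRedAt_of_goodModel hV _ (bridge_t3E E M hM) G,
    goodRedAt_inv_of_goodModel hV _ (bridge_t3E E M hM) G⟩

/-- **GOODRED, all primes**: any level `E` with `R_E` a discrete valuation ring. -/
theorem goodRedHyp_of_dvr {q : ℕ} (hq : q.Prime) (hqM : ¬ q ∣ M) (h3 : q = 3 → 2 ∣ M)
    (h2 : q = 2 → 3 ∣ M) (hP : P.LiesOverPrime q) (hdvr : IsDiscreteValuationRing (_root_.Fermat.Agent.A2.Mod.RE P E)) :
    GoodRedHyp P E M := by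
  by_cases h5 : 5 ≤ q
  · exact goodRedHyp P E M hq h5 hqM hP hdvr
  · have hq2 := hq.two_le
    have hcases : q = 2 ∨ q = 3 := by
      by_contra hne
      have : q = 4 := by omega
      subst this
      exact absurd hq (by norm_num)
    rcases hcases with rfl | rfl
    · exact goodRedHyp_two P E M hqM (h2 rfl) hP hdvr
    · exact goodRedHyp_three P E M hqM (h3 rfl) hP hdvr

end Fermat.Agent.A2.Mod.H216

namespace Fermat.Agent.A2.Top.H216

open Fermat.Agent.A2

/-- **`Top.H994.GoodRedStatement`** (exact target of the GOODRED owners, `Top/H994/ModTop.lean`). -/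
theorem goodRedStatement : Top.H994.GoodRedStatement :=
  fun P E M q _ _ hq hqM h3 h2 hP hE =>
    Mod.H216.goodRedHyp_of_dvr P E M hq hqM h3 h2 hP hE.dvr

end Fermat.Agent.A2.Top.H216

end
end
-- ===== PACK-END A2/Mod/H216/GoodRedAll.lean

-- ===== PACK-BEGIN A2/Mod/H31/DegField.lean
section



/-!
# A2 / MOD leaf L8 (helper31) — part 2: `[k(j(t^d) : d ∣ M q) : k(j · j_q)] = 2 (q+1) ψ(M)`

`k` any field in which the primes dividing `M q` are invertible, `q ∤ M` prime.
Inputs: helper988's degree formula `[F_N : k(j)] = ψ(N)`, the modular polynomial `Φ_q`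
(`S28.ModPolyData`, both vanishing properties), and the bivariate degree lemma of `Biv.lean`.
-/

set_option autoImplicit false

noncomputable section

namespace Fermat.Agent.A2.Mod.H31

open ModularCurve HahnSeries Polynomial IntermediateField
open scoped Polynomial.Bivariate

/-! ### Algebraic Laurent series are constant -/

section LaurentConst

variable {K : Type*} [Field K]

/-- A Laurent series over a field `K` which is algebraic over `K` is constant. -/
theorem laurent_const_of_isAlgebraic (f : LaurentSeries K) (hf : IsAlgebraic K f) :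
    ∃ c : K, f = algebraMap K (LaurentSeries K) c := by
  have key : ∀ g : LaurentSeries K, IsAlgebraic K g →
      ∃ y : PowerSeries K, algebraMap (PowerSeries K) (LaurentSeries K) y = g := by
    intro g hg
    obtain ⟨p, hpm, hp⟩ := hg.isIntegral
    have h2 : IsIntegral (PowerSeries K) g := by
      refine ⟨p.map (PowerSeries.C (R := K)), hpm.map _, ?_⟩
      rw [Polynomial.eval₂_map]
      exact hp
    exact IsIntegrallyClosed.isIntegral_iff.mp h2
  obtain ⟨y, hy⟩ := key f hf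
  set c₀ := PowerSeries.constantCoeff y with hc₀
  by_cases hg : y - PowerSeries.C c₀ = 0
  · refine ⟨c₀, ?_⟩
    rw [← hy, sub_eq_zero.mp hg]
    rfl
  · exfalso
    have hg' : algebraMap (PowerSeries K) (LaurentSeries K) (y - PowerSeries.C c₀) ≠ 0 := by
      intro h
      exact hg ((injective_iff_map_eq_zero _).1
        (IsFractionRing.injective (PowerSeries K) (LaurentSeries K)) _ h)
    have halg : IsAlgebraic K (algebraMap (PowerSeries K) (LaurentSeries K)
        (y - PowerSeries.C c₀)) := by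
      rw [map_sub, hy]
      refine hf.sub ?_
      have : algebraMap (PowerSeries K) (LaurentSeries K) (PowerSeries.C c₀) =
          algebraMap K (LaurentSeries K) c₀ := rfl
      rw [this]
      exact isAlgebraic_algebraMap c₀
    obtain ⟨z, hz⟩ := key _ halg.inv
    have h1 : algebraMap (PowerSeries K) (LaurentSeries K) ((y - PowerSeries.C c₀) * z) =
        algebraMap (PowerSeries K) (LaurentSeries K) 1 := by
      rw [map_mul, hz, map_one, mul_inv_cancel₀ hg']
    have h2 := IsFractionRing.injective (PowerSeries K) (LaurentSeries K) h1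
    have h3 := congrArg (PowerSeries.constantCoeff (R := K)) h2
    rw [map_mul, map_sub, PowerSeries.constantCoeff_C, ← hc₀, sub_self, zero_mul, map_one] at h3
    exact zero_ne_one h3

/-- A Laurent series with a pole is transcendental over the constants. -/
theorem transcendental_of_order_neg {f : LaurentSeries K} (hf : f.order < 0) :
    Transcendental K f := by
  intro halg
  obtain ⟨c, hc⟩ := laurent_const_of_isAlgebraic f halg
  rw [hc, algebraMap_laurentSeries_eq_single, ← HahnSeries.C_apply, HahnSeries.order_C] at hf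
  exact lt_irrefl _ hf

end LaurentConst

/-! ### The generators `j`, `j_q` and the coordinate `x = j j_q` over a field -/

section Main

variable (k : Type*) [Field k]

theorem order_qExpand_jqModC_neg (d : ℕ) [NeZero d] : (qExpand k d (jqModC k)).order < 0 := by
  have h1 : (qExpand k d (jqModC k)).coeff (-(d : ℤ)) = 1 := by
    rw [show (-(d : ℤ)) = (d : ℤ) * (-1) by ring, qExpand_coeff_mul, coeff_jqModC_neg_one]
  have h2 : (qExpand k d (jqModC k)).coeff (-(d : ℤ)) ≠ 0 := by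
    rw [h1]
    exact one_ne_zero
  have h3 := HahnSeries.order_le_of_coeff_ne_zero h2
  have h4 : (0 : ℤ) < d := by exact_mod_cast Nat.pos_of_ne_zero (NeZero.ne d)
  omega

theorem order_jqModC_neg : (jqModC k).order < 0 := by
  have := order_qExpand_jqModC_neg k 1
  rwa [qExpand_one_apply] at this

theorem transcendental_jqModC : Transcendental k (jqModC k) :=
  transcendental_of_order_neg (order_jqModC_neg k)

theorem order_x_neg (q : ℕ) [NeZero q] : (jqModC k * qExpand k q (jqModC k)).order < 0 := by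
  have h1 := order_jqModC_neg k
  have h2 := order_qExpand_jqModC_neg k q
  have hj : jqModC k ≠ 0 := by
    intro h
    rw [h] at h1
    simp at h1
  have hjq : qExpand k q (jqModC k) ≠ 0 := by
    intro h
    rw [h] at h2
    simp at h2
  rw [HahnSeries.order_mul hj hjq]
  omega

theorem transcendental_x (q : ℕ) [NeZero q] :
    Transcendental k (jqModC k * qExpand k q (jqModC k)) :=
  transcendental_of_order_neg (order_x_neg k q)

/-! ### The modular polynomial over `k` -/

/-- The modular polynomial `Φ_q` with coefficients in `k`. -/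
def modPolyK (q : ℕ) [NeZero q] (D : S28.ModPolyData q) : k[X][Y] :=
  D.Φ.map (mapRingHom (Int.castRingHom k))

theorem modPolyK_monic (q : ℕ) [NeZero q] (D : S28.ModPolyData q) : (modPolyK k q D).Monic :=
  D.monic.map _

theorem natDegree_modPolyK (q : ℕ) [NeZero q] (D : S28.ModPolyData q) :
    (modPolyK k q D).natDegree = q + 1 := by
  rw [modPolyK, D.monic.natDegree_map, D.natDegree_eq]

theorem aeval_comp_mapRingHom (y : LaurentSeries k) :
    (aeval (R := k) y).toRingHom.comp (mapRingHom (Int.castRingHom k)) = S28.evalAt y := by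
  refine Polynomial.ringHom_ext' (Subsingleton.elim _ _) ?_
  simp [S28.evalAt]

theorem coeffMap_comp_evalAt (y : LaurentSeries ℤ) :
    (coeffMap (Int.castRingHom k)).comp (S28.evalAt y)
      = S28.evalAt (coeffMap (Int.castRingHom k) y) := by
  refine Polynomial.ringHom_ext' (Subsingleton.elim _ _) ?_
  simp [S28.evalAt]

theorem aevalAeval_modPolyK (q : ℕ) [NeZero q] (D : S28.ModPolyData q) :
    aevalAeval (jqModC k) (qExpand k q (jqModC k)) (modPolyK k q D) = 0 := by
  rw [aevalAeval_eq_eval₂, modPolyK, eval₂_map, aeval_comp_mapRingHom]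
  have h := congrArg (coeffMap (Int.castRingHom k)) D.eval_jp
  rw [Polynomial.hom_eval₂, map_zero, coeffMap_comp_evalAt, coeffMap_qExpand,
    coeffMap_jqModC] at h
  exact h

theorem aevalAeval_modPolyK' (q : ℕ) [NeZero q] (D : S28.ModPolyData q) :
    aevalAeval (qExpand k q (jqModC k)) (jqModC k) (modPolyK k q D) = 0 := by
  rw [aevalAeval_eq_eval₂, modPolyK, eval₂_map, aeval_comp_mapRingHom]
  have h := congrArg (coeffMap (Int.castRingHom k)) D.eval_j
  rw [Polynomial.hom_eval₂, map_zero, coeffMap_comp_evalAt, coeffMap_qExpand,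
    coeffMap_jqModC] at h
  exact h

/-! ### Degrees -/

theorem divisorExpansionsC_prime {q : ℕ} [NeZero q] (hq : q.Prime) :
    divisorExpansionsC k q = {jqModC k, qExpand k q (jqModC k)} := by
  ext x
  constructor
  · rintro ⟨d, hd, hdq, rfl⟩
    rcases (Nat.dvd_prime hq).mp hdq with h | h
    · subst h
      left
      exact qExpand_one_apply _
    · subst h
      right
      rfl
  · rintro (rfl | rfl)
    · exact ⟨1, inferInstance, one_dvd _, (qExpand_one_apply _).symm⟩
    · exact ⟨q, inferInstance, dvd_rfl, rfl⟩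

theorem fullC_prime_eq {q : ℕ} [NeZero q] (hq : q.Prime) :
    modularFunctionFieldFullC k q = adjoin k {jqModC k, qExpand k q (jqModC k)} := by
  rw [modularFunctionFieldFullC, divisorExpansionsC_prime k hq]

theorem fullC_mono {N N' : ℕ} (h : N ∣ N') :
    modularFunctionFieldFullC k N ≤ modularFunctionFieldFullC k N' := by
  apply IntermediateField.adjoin.mono
  rintro x ⟨d, hd, hdN, rfl⟩
  exact ⟨d, hd, hdN.trans h, rfl⟩

theorem dedekindPsi_prime {q : ℕ} (hq : q.Prime) : dedekindPsi q = q + 1 := by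
  have h := S28.H626.psi_mul_prime_of_not_dvd (N := 1) one_ne_zero hq
    (fun h => hq.one_lt.ne' (Nat.dvd_one.mp h))
  rwa [one_mul, dedekindPsi_one, mul_one] at h

theorem relfinrank_j_fullC (N : ℕ) (hN : N ≠ 0)
    (hchar : ∀ p : ℕ, p.Prime → p ∣ N → (p : k) ≠ 0) :
    (k⟮jqModC k⟯).relfinrank (modularFunctionFieldFullC k N) = dedekindPsi N :=
  S28.H988.relfinrank_jField_full_eq k N hN hchar

theorem jField_le_fullC (N : ℕ) : k⟮jqModC k⟯ ≤ modularFunctionFieldFullC k N := by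
  rw [adjoin_le_iff]
  rintro x hx
  rw [Set.mem_singleton_iff] at hx
  subst hx
  exact IntermediateField.subset_adjoin k _ ⟨1, inferInstance, one_dvd _, (qExpand_one_apply _).symm⟩

/-- `[k(j, j_q) : k(j)] = q + 1`, in the form needed by `finrank_adjoin_mul`. -/
theorem finrank_adjoin_jq {q : ℕ} [NeZero q] (hq : q.Prime) (hchar : (q : k) ≠ 0) :
    Module.finrank k⟮jqModC k⟯ (k⟮jqModC k⟯)⟮qExpand k q (jqModC k)⟯ = q + 1 := by
  have h1 := relfinrank_j_fullC k q hq.ne_zero (fun p hp hpq => by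
    rw [(Nat.prime_dvd_prime_iff_eq hp hq).mp hpq]
    exact hchar)
  rw [dedekindPsi_prime hq, relfinrank_eq_finrank_of_le (jField_le_fullC k q)] at h1
  have hext : extendScalars (jField_le_fullC k q)
      = (k⟮jqModC k⟯)⟮qExpand k q (jqModC k)⟯ := by
    apply restrictScalars_injective k
    rw [extendScalars_restrictScalars, adjoin_adjoin_left, fullC_prime_eq k hq,
      Set.singleton_union]
  rw [← h1]
  exact (congrArg (fun F : IntermediateField (k⟮jqModC k⟯) (LaurentSeries k) =>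
    Module.finrank k⟮jqModC k⟯ F) hext).symm

/-- `[k(j, j_q) : k(j j_q)] = 2 (q + 1)`. -/
theorem relfinrank_x_fullC_prime {q : ℕ} [NeZero q] (hq : q.Prime) (hchar : (q : k) ≠ 0) :
    (k⟮jqModC k * qExpand k q (jqModC k)⟯).relfinrank (modularFunctionFieldFullC k q)
      = 2 * (q + 1) := by
  obtain ⟨D⟩ := S28.H807.nonempty_modPolyData q hq
  have hmain := finrank_adjoin_mul (transcendental_jqModC k) (transcendental_x k q)
    (modPolyK_monic k q D) (aevalAeval_modPolyK k q D) (aevalAeval_modPolyK' k q D)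
    (by rw [natDegree_modPolyK]; exact finrank_adjoin_jq k hq hchar)
  rw [natDegree_modPolyK] at hmain
  have hj0 : jqModC k ≠ 0 := by
    intro h
    have := order_jqModC_neg k
    rw [h] at this
    simp at this
  have hset : adjoin k ({jqModC k * qExpand k q (jqModC k)} ∪ {jqModC k})
      = modularFunctionFieldFullC k q := by
    rw [fullC_prime_eq k hq]
    apply le_antisymm
    · rw [adjoin_le_iff]
      rintro x (hx | hx)
      · rw [Set.mem_singleton_iff] at hx
        subst hx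
        exact mul_mem (subset_adjoin k _ (Set.mem_insert _ _))
          (subset_adjoin k _ (Set.mem_insert_of_mem _ rfl))
      · rw [Set.mem_singleton_iff] at hx
        subst hx
        exact subset_adjoin k _ (Set.mem_insert _ _)
    · rw [adjoin_le_iff]
      rintro x (hx | hx)
      · subst hx
        exact subset_adjoin k _ (Or.inr rfl)
      · rw [Set.mem_singleton_iff] at hx
        subst hx
        have h1 : (jqModC k)⁻¹ * (jqModC k * qExpand k q (jqModC k))
            = qExpand k q (jqModC k) := by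
          rw [← mul_assoc, inv_mul_cancel₀ hj0, one_mul]
        have h2 : (jqModC k)⁻¹ * (jqModC k * qExpand k q (jqModC k)) ∈
            adjoin k ({jqModC k * qExpand k q (jqModC k)} ∪ {jqModC k}) :=
          mul_mem (inv_mem (subset_adjoin k _ (Or.inr rfl))) (subset_adjoin k _ (Or.inl rfl))
        rwa [h1] at h2
  have hle : k⟮jqModC k * qExpand k q (jqModC k)⟯ ≤ modularFunctionFieldFullC k q := by
    rw [← hset]
    exact IntermediateField.adjoin.mono k _ _ Set.subset_union_left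
  rw [relfinrank_eq_finrank_of_le hle]
  have hext : extendScalars hle
      = (k⟮jqModC k * qExpand k q (jqModC k)⟯)⟮jqModC k⟯ := by
    apply restrictScalars_injective k
    rw [extendScalars_restrictScalars, adjoin_adjoin_left, hset]
  rw [← hmain]
  exact congrArg (fun F : IntermediateField (k⟮jqModC k * qExpand k q (jqModC k)⟯)
    (LaurentSeries k) => Module.finrank k⟮jqModC k * qExpand k q (jqModC k)⟯ F) hext

/-- **Degree over `k(x)`, `x = j j_q`, at level `M q`.** -/
theorem relfinrank_x_fullC (M : ℕ) {q : ℕ} [NeZero q] (hq : q.Prime) (hqM : ¬ q ∣ M)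
    (hchar : ∀ p : ℕ, p.Prime → p ∣ M * q → (p : k) ≠ 0) :
    (k⟮jqModC k * qExpand k q (jqModC k)⟯).relfinrank (modularFunctionFieldFullC k (M * q))
      = 2 * ((q + 1) * dedekindPsi M) := by
  have hM : M ≠ 0 := by
    rintro rfl
    exact hqM (dvd_zero q)
  have hqk : (q : k) ≠ 0 := hchar q hq (dvd_mul_left q M)
  have hqdvd : q ∣ M * q := dvd_mul_left q M
  have h1 := relfinrank_j_fullC k q hq.ne_zero (fun p hp hpq =>
    hchar p hp (hpq.trans hqdvd))
  have h2 := relfinrank_j_fullC k (M * q) (Nat.mul_ne_zero hM hq.ne_zero) hchar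
  rw [dedekindPsi_prime hq] at h1
  rw [S28.H626.psi_mul_prime_of_not_dvd hM hq hqM] at h2
  have h3 := relfinrank_mul_relfinrank (jField_le_fullC k q) (fullC_mono k hqdvd)
  rw [h1, h2] at h3
  have h4 : (modularFunctionFieldFullC k q).relfinrank (modularFunctionFieldFullC k (M * q))
      = dedekindPsi M := Nat.eq_of_mul_eq_mul_left (Nat.succ_pos q) h3
  have h5 := relfinrank_x_fullC_prime k hq hqk
  have hle : k⟮jqModC k * qExpand k q (jqModC k)⟯ ≤ modularFunctionFieldFullC k q := by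
    rw [adjoin_simple_le_iff, fullC_prime_eq k hq]
    exact mul_mem (subset_adjoin k _ (Set.mem_insert _ _))
      (subset_adjoin k _ (Set.mem_insert_of_mem _ rfl))
  have h6 := relfinrank_mul_relfinrank hle (fullC_mono k hqdvd)
  rw [h5, h4] at h6
  rw [← h6]
  ring

end Main

end Fermat.Agent.A2.Mod.H31

end

end
-- ===== PACK-END A2/Mod/H31/DegField.lean

-- ===== PACK-BEGIN A2/Mod/H31/Deg.lean
section



/-!
# A2 / MOD leaf L8 (helper31): `DegStatement`

`[F_{Mq} : E(x)] = 2 (q+1) ψ(M)` for `x = j · j_q`, `x` transcendental over `E`, and `E` is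
algebraically closed in `F_{Mq}`.  Statement VERBATIM from `Fermat/Agent/A2/Mod/Spec.lean`.
-/

set_option autoImplicit false
set_option synthInstance.maxHeartbeats 400000
set_option maxHeartbeats 1600000

noncomputable section

namespace Fermat.Agent.A2.Mod.H31

open ModularCurve HahnSeries Polynomial IntermediateField

variable (E : IntermediateField ℚ _root_.Fermat.Agent.A2.Mod.Qb)

theorem FE_eq_fullC (N : ℕ) : _root_.Fermat.Agent.A2.Mod.FE E N = modularFunctionFieldFullC E N :=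
  S28.H988.laurentBaseChange_full_eq_fullC E N

theorem coe_jE (N d : ℕ) [NeZero d] (hd : d ∣ N) :
    ((jE E N d hd : _root_.Fermat.Agent.A2.Mod.FE E N) : LaurentSeries E) = qExpand E d (jqModC E) := by
  show coeffEmb E (qExpand ℚ d jq) = _
  rw [coeffEmb, ← jqModC_rat, coeffMap_qExpand, coeffMap_jqModC]

theorem coe_xE (M q : ℕ) [NeZero q] :
    ((xE E M q : _root_.Fermat.Agent.A2.Mod.FE E (M * q)) : LaurentSeries E) = jqModC E * qExpand E q (jqModC E) := by
  rw [xE, MulMemClass.coe_mul, coe_jE, coe_jE, qExpand_one_apply]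

/-- **Leaf L8.** -/
theorem deg (M q : ℕ) [NeZero q] : DegStatement E M q := by
  intro hq hqM
  have hchar : ∀ p : ℕ, p.Prime → p ∣ M * q → ((p : ℕ) : E) ≠ 0 :=
    fun p hp _ => Nat.cast_ne_zero.mpr hp.ne_zero
  refine ⟨?_, ?_, ?_⟩
  · intro h
    have h2 : IsAlgebraic E ((xE E M q : _root_.Fermat.Agent.A2.Mod.FE E (M * q)) : LaurentSeries E) :=
      (isAlgebraic_algHom_iff (_root_.Fermat.Agent.A2.Mod.FE E (M * q)).val Subtype.val_injective).mpr h
    rw [coe_xE] at h2
    exact transcendental_x E q h2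
  · have h1 : adjoin E {xE E M q}
        = (adjoin E {((xE E M q : _root_.Fermat.Agent.A2.Mod.FE E (M * q)) : LaurentSeries E)}).comap
            (_root_.Fermat.Agent.A2.Mod.FE E (M * q)).val := by
      have h0 : (adjoin E {xE E M q}).map (_root_.Fermat.Agent.A2.Mod.FE E (M * q)).val
          = adjoin E {((xE E M q : _root_.Fermat.Agent.A2.Mod.FE E (M * q)) : LaurentSeries E)} := by
        rw [adjoin_map, Set.image_singleton]
        rfl
      rw [← h0, comap_map]
    rw [h1, finrank_comap, fieldRange_val, coe_xE, FE_eq_fullC]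
    exact relfinrank_x_fullC E M hq hqM hchar
  · intro f hf
    have h2 : IsAlgebraic E ((f : _root_.Fermat.Agent.A2.Mod.FE E (M * q)) : LaurentSeries E) :=
      (isAlgebraic_algHom_iff (_root_.Fermat.Agent.A2.Mod.FE E (M * q)).val Subtype.val_injective).mpr hf
    obtain ⟨c, hc⟩ := laurent_const_of_isAlgebraic _ h2
    exact ⟨c, Subtype.ext hc.symm⟩

end Fermat.Agent.A2.Mod.H31

end

end
-- ===== PACK-END A2/Mod/H31/Deg.lean

-- ===== PACK-BEGIN A2/H528/FrickeGalois.lean
section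


/-!
# A2 / W — the Fricke involution commutes with the arithmetic Galois action

* `wF_galois` : `w_N (σ • f) = σ • w_N f` for `σ ∈ Gal(ℚ̄/ℚ)` acting on the coefficients;
* `wSemi N : SemilinearAut ℚ̄ (FF N)` : `w_N` as a semilinear automorphism (so that it acts on
  places, divisors and on `JZero N = Pic0`), commuting with `arithmeticGalois`;
* `wF_rat` : `w_N` preserves the `ℚ`-rational functions `coeffEmb (modularFunctionFieldFull N)`;
* `comapW` : pull back of a valuation subring by `w_N` (`V₀ := comapW V∞`), with transfer of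
  "`σ`-stable" and "`σ` acts trivially on the residue field".
-/

set_option autoImplicit false
set_option synthInstance.maxHeartbeats 400000
set_option maxHeartbeats 1000000

noncomputable section

open ModularCurve HahnSeries AlgebraicCurve

namespace Fermat.Agent.A2.H528

open Fermat.Agent.S24 Fermat.Agent.S24.H997

variable (N : ℕ) [NeZero N]

/-- the Galois action on `FF N` through the coefficients -/
abbrev gal (σ : Kbar ≃ₐ[ℚ] Kbar) : FF N ≃+* FF N :=
  arithmeticRingAut (modularFunctionFieldFull N) σ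

omit [NeZero N] in
theorem gal_inclRN_jR (σ : Kbar ≃ₐ[ℚ] Kbar) (d : ℕ) [NeZero d] (hd : d ∣ N) :
    gal N σ (inclRN N (jR N d hd)) = inclRN N (jR N d hd) := by
  apply Subtype.ext
  show coeffMap (σ : Kbar →+* Kbar) (coeffEmb Kbar (qExpand ℚ d jq)) = _
  rw [coeffMap_coeffEmb]
  rfl

omit [NeZero N] in
theorem gal_algebraMap (σ : Kbar ≃ₐ[ℚ] Kbar) (c : Kbar) :
    gal N σ (algebraMap Kbar (FF N) c) = algebraMap Kbar (FF N) (σ c) :=
  arithmeticRingAut_algebraMap (modularFunctionFieldFull N) σ c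

theorem wFHom_gal_inclRN (σ : Kbar ≃ₐ[ℚ] Kbar) (r : RN N) :
    wFHom N (gal N σ (inclRN N r)) = gal N σ (wFHom N (inclRN N r)) := by
  obtain ⟨r, hr⟩ := r
  induction hr using Algebra.adjoin_induction with
  | mem x hx =>
      obtain ⟨y, ⟨d, hne, hd, rfl⟩, rfl⟩ := hx
      have := hne
      have := neZero_div N hd
      have h1 : (⟨coeffEmb Kbar (qExpand ℚ d jq), Algebra.subset_adjoin
          ⟨_, ⟨d, hne, hd, rfl⟩, rfl⟩⟩ : RN N) = jR N d hd := rfl
      rw [h1, gal_inclRN_jR, wFHom_inclRN, wR_jR, gal_inclRN_jR]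
  | algebraMap c =>
      have h1 : (⟨algebraMap Kbar (LaurentSeries Kbar) c, Subalgebra.algebraMap_mem _ c⟩ : RN N)
          = algebraMap Kbar (RN N) c := rfl
      have h2 : inclRN N (algebraMap Kbar (RN N) c) = algebraMap Kbar (FF N) c :=
        (inclRN N).commutes c
      rw [h1, h2, gal_algebraMap, wFHom_algebraMap, wFHom_algebraMap, gal_algebraMap]
  | add x y hx hy ihx ihy =>
      have h1 : (⟨x + y, add_mem hx hy⟩ : RN N) = ⟨x, hx⟩ + ⟨y, hy⟩ := rfl
      rw [h1, map_add, map_add, map_add, map_add, map_add, ihx, ihy]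
  | mul x y hx hy ihx ihy =>
      have h1 : (⟨x * y, mul_mem hx hy⟩ : RN N) = ⟨x, hx⟩ * ⟨y, hy⟩ := rfl
      rw [h1, map_mul, map_mul, map_mul, map_mul, map_mul, ihx, ihy]

/-- **`w_N` commutes with the Galois action on the coefficients.** -/
theorem wF_gal (σ : Kbar ≃ₐ[ℚ] Kbar) (f : FF N) :
    wF N (gal N σ f) = gal N σ (wF N f) := by
  obtain ⟨r, t, -, rfl⟩ := exists_div_inclRN N f
  show wFHom N (gal N σ (inclRN N r / inclRN N t)) = gal N σ (wFHom N (inclRN N r / inclRN N t))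
  rw [map_div₀, map_div₀, map_div₀, map_div₀, wFHom_gal_inclRN, wFHom_gal_inclRN]

/-- `w_N` as a semilinear automorphism of `FF N / ℚ̄` (trivial on the constants). -/
def wSemi : SemilinearAut Kbar (FF N) := SemilinearAut.ofAlgAut (wF N)

@[simp] theorem wSemi_smul (f : FF N) : wSemi N • f = wF N f := rfl

theorem wSemi_mul_self : wSemi N * wSemi N = 1 := by
  rw [wSemi, ← map_mul]
  have h : wF N * wF N = 1 := AlgEquiv.ext fun f => wF_wF N f
  rw [h, map_one]

theorem wSemi_inv : (wSemi N)⁻¹ = wSemi N :=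
  inv_eq_of_mul_eq_one_left (wSemi_mul_self N)

/-- **`w_N` commutes with `arithmeticGalois` inside `SemilinearAut`**; hence the actions on
places, divisors and on `JZero N` commute. -/
theorem wSemi_comm (σ : Kbar ≃ₐ[ℚ] Kbar) :
    wSemi N * arithmeticGalois (modularFunctionFieldFull N) σ
      = arithmeticGalois (modularFunctionFieldFull N) σ * wSemi N := by
  refine Subtype.ext (Prod.ext (RingEquiv.ext fun f => ?_) ?_)
  · exact wF_gal N σ f
  · show (1 : RingAut Kbar) * σ.toRingEquiv = σ.toRingEquiv * 1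
    rw [one_mul, mul_one]

/-- The actions of `w_N` and of the Galois group on `JZero N` commute. -/
theorem wSemi_smul_galois_smul (σ : Kbar ≃ₐ[ℚ] Kbar) (x : JZero N) :
    wSemi N • (σ • x) = σ • (wSemi N • x) := by
  rw [galois_smul_pic0_def, galois_smul_pic0_def, ← mul_smul, ← mul_smul, wSemi_comm]

/-- `w_N` preserves the `ℚ`-rational functions. -/
theorem wF_rat {x : LaurentSeries ℚ} (hx : x ∈ modularFunctionFieldFull N) :
    ∃ y ∈ modularFunctionFieldFull N,
      ((wF N ⟨coeffEmb Kbar x, coeffEmb_mem_laurentBaseChange Kbar hx⟩ : FF N) :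
        LaurentSeries Kbar) = coeffEmb Kbar y := by
  have key : ∀ x ∈ modularFunctionFieldFull N, ∀ hx' : coeffEmb Kbar x ∈ modularFunctionFieldBar N,
      ∃ y ∈ modularFunctionFieldFull N,
        ((wF N ⟨coeffEmb Kbar x, hx'⟩ : FF N) : LaurentSeries Kbar) = coeffEmb Kbar y := by
    intro x hx
    have hx0 : x ∈ IntermediateField.adjoin ℚ (divisorExpansions N) := hx
    induction hx0 using IntermediateField.adjoin_induction with
    | mem y hy =>
        intro hx'
        obtain ⟨d, hne, hd, rfl⟩ := hy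
        have := hne
        have := neZero_div N hd
        refine ⟨qExpand ℚ (N / d) jq, jqd_mem_full N (Nat.div_dvd_of_dvd hd), ?_⟩
        have h1 : (⟨coeffEmb Kbar (qExpand ℚ d jq), hx'⟩ : FF N) = jFd N d hd := rfl
        rw [h1, wF_jFd]
        rfl
    | algebraMap c =>
        intro hx'
        refine ⟨algebraMap ℚ (LaurentSeries ℚ) c, IntermediateField.algebraMap_mem _ c, ?_⟩
        have h0 : coeffEmb Kbar (algebraMap ℚ (LaurentSeries ℚ) c)
            = algebraMap Kbar (LaurentSeries Kbar) (algebraMap ℚ Kbar c) := by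
          rw [algebraMap_apply_eq_single, algebraMap_laurentSeries_eq_single, coeffEmb,
            coeffMap_single]
        have h1 : (⟨coeffEmb Kbar (algebraMap ℚ (LaurentSeries ℚ) c), hx'⟩ : FF N)
            = algebraMap Kbar (FF N) (algebraMap ℚ Kbar c) := Subtype.ext h0
        rw [h1]
        show ((wFHom N (algebraMap Kbar (FF N) (algebraMap ℚ Kbar c)) : FF N) :
          LaurentSeries Kbar) = _
        rw [wFHom_algebraMap, h0]
        rfl
    | add y z hy hz ihy ihz =>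
        intro hx'
        have hy' := coeffEmb_mem_laurentBaseChange Kbar (F₀ := modularFunctionFieldFull N) hy
        have hz' := coeffEmb_mem_laurentBaseChange Kbar (F₀ := modularFunctionFieldFull N) hz
        obtain ⟨a, ha, ha'⟩ := ihy hy hy'
        obtain ⟨b, hb, hb'⟩ := ihz hz hz'
        refine ⟨a + b, add_mem ha hb, ?_⟩
        have h1 : (⟨coeffEmb Kbar (y + z), hx'⟩ : FF N)
            = ⟨coeffEmb Kbar y, hy'⟩ + ⟨coeffEmb Kbar z, hz'⟩ := Subtype.ext (map_add _ _ _)
        rw [h1, map_add, map_add]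
        show ((wF N ⟨coeffEmb Kbar y, hy'⟩ : FF N) : LaurentSeries Kbar)
          + ((wF N ⟨coeffEmb Kbar z, hz'⟩ : FF N) : LaurentSeries Kbar) = _
        rw [ha', hb']
    | inv y hy ihy =>
        intro hx'
        have hy' := coeffEmb_mem_laurentBaseChange Kbar (F₀ := modularFunctionFieldFull N) hy
        obtain ⟨a, ha, ha'⟩ := ihy hy hy'
        refine ⟨a⁻¹, inv_mem ha, ?_⟩
        have h1 : (⟨coeffEmb Kbar (y⁻¹), hx'⟩ : FF N)
            = (⟨coeffEmb Kbar y, hy'⟩ : FF N)⁻¹ := Subtype.ext (map_inv₀ _ _)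
        rw [h1, map_inv₀, map_inv₀]
        show ((wF N ⟨coeffEmb Kbar y, hy'⟩ : FF N) : LaurentSeries Kbar)⁻¹ = _
        rw [ha']
    | mul y z hy hz ihy ihz =>
        intro hx'
        have hy' := coeffEmb_mem_laurentBaseChange Kbar (F₀ := modularFunctionFieldFull N) hy
        have hz' := coeffEmb_mem_laurentBaseChange Kbar (F₀ := modularFunctionFieldFull N) hz
        obtain ⟨a, ha, ha'⟩ := ihy hy hy'
        obtain ⟨b, hb, hb'⟩ := ihz hz hz'
        refine ⟨a * b, mul_mem ha hb, ?_⟩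
        have h1 : (⟨coeffEmb Kbar (y * z), hx'⟩ : FF N)
            = ⟨coeffEmb Kbar y, hy'⟩ * ⟨coeffEmb Kbar z, hz'⟩ := Subtype.ext (map_mul _ _ _)
        rw [h1, map_mul, map_mul]
        show ((wF N ⟨coeffEmb Kbar y, hy'⟩ : FF N) : LaurentSeries Kbar)
          * ((wF N ⟨coeffEmb Kbar z, hz'⟩ : FF N) : LaurentSeries Kbar) = _
        rw [ha', hb']
  exact key x hx _

/-! ### Pull back of valuation subrings by `w_N` -/

/-- The pull back `V ∘ w_N` of a valuation subring of `FF N`. (`V₀ := comapW N V∞`.) -/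
def comapW (V : ValuationSubring (FF N)) : ValuationSubring (FF N) :=
  V.comap (wF N : FF N ≃+* FF N).toRingHom

theorem mem_comapW {V : ValuationSubring (FF N)} {f : FF N} :
    f ∈ comapW N V ↔ wF N f ∈ V := Iff.rfl

theorem comapW_comapW (V : ValuationSubring (FF N)) : comapW N (comapW N V) = V := by
  ext f
  rw [mem_comapW, mem_comapW, wF_wF]

/-- the constants of `V ∘ w_N` are the constants of `V` -/
theorem algebraMap_mem_comapW {V : ValuationSubring (FF N)} {c : Kbar} :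
    algebraMap Kbar (FF N) c ∈ comapW N V ↔ algebraMap Kbar (FF N) c ∈ V := by
  rw [mem_comapW]
  show wFHom N (algebraMap Kbar (FF N) c) ∈ V ↔ _
  rw [wFHom_algebraMap]

/-- if `σ` stabilises `V`, it stabilises `V ∘ w_N` -/
theorem gal_mem_comapW {V : ValuationSubring (FF N)} (σ : Kbar ≃ₐ[ℚ] Kbar)
    (h : ∀ f : FF N, f ∈ V → gal N σ f ∈ V) (f : FF N) (hf : f ∈ comapW N V) :
    gal N σ f ∈ comapW N V := by
  rw [mem_comapW] at hf ⊢
  rw [wF_gal]
  exact h _ hf

/-- if `σ` acts trivially on the residue field of `V`, it does so on that of `V ∘ w_N`: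
`σ f - f` is a non-unit of `V ∘ w_N` for every `f ∈ V ∘ w_N`. -/
theorem gal_sub_mem_comapW {V : ValuationSubring (FF N)} (σ : Kbar ≃ₐ[ℚ] Kbar)
    (h : ∀ f : FF N, f ∈ V → V.valuation (gal N σ f - f) < 1) (f : FF N)
    (hf : f ∈ comapW N V) :
    V.valuation (wF N (gal N σ f - f)) < 1 := by
  rw [mem_comapW] at hf
  rw [map_sub, wF_gal]
  exact h _ hf

end Fermat.Agent.A2.H528

end
end
-- ===== PACK-END A2/H528/FrickeGalois.lean

-- ===== PACK-BEGIN A2/H528/FrickeDistinct.lean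
section





/-!
# A2 / W — the element separating the two Gauss valuations `V∞` and `V₀ = V∞ ∘ w_N`

For a prime `ℓ ∣ N` put `u := j(q^ℓ) - j(q)^ℓ ∈ FF N` (`frobElt`).  Then

* `coe_frobElt`    : `u = ℓ · g` with `g ∈ ℤ((q))`          (so `u` is a non-unit at `V∞`);
* `wF_frobElt`     : `w_N u = j(q^{N/ℓ}) - j(q^N)^ℓ`;
* `coe_wF_frobElt` : `w_N u ∈ ℤ((q))` with coefficient `-1` at `q^{-Nℓ}`
                                                           (so `w_N u` is a unit at `V∞`).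
-/

set_option autoImplicit false
set_option synthInstance.maxHeartbeats 400000
set_option maxHeartbeats 1000000

noncomputable section

open ModularCurve HahnSeries AlgebraicCurve

namespace Fermat.Agent.A2.H528

open Fermat.Agent.S24 Fermat.Agent.S24.H997

/-- integral Laurent series, viewed in `ℚ̄((q))` -/
def intEmb : LaurentSeries ℤ →+* LaurentSeries Kbar := coeffMap (Int.castRingHom Kbar)

@[simp] theorem intEmb_coeff (x : LaurentSeries ℤ) (k : ℤ) :
    (intEmb x).coeff k = ((x.coeff k : ℤ) : Kbar) := rfl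

theorem intEmb_injective : Function.Injective intEmb := by
  intro x y h
  ext k
  have h1 := congrArg (fun s => s.coeff k) h
  simpa using h1

/-- `j(q^d)` over `ℤ` -/
def jZ (d : ℕ) [NeZero d] : LaurentSeries ℤ := qExpand ℤ d (jqModC ℤ)

theorem coeffEmb_jqd (d : ℕ) [NeZero d] :
    coeffEmb Kbar (qExpand ℚ d jq) = intEmb (jZ d) := by
  have h1 : jq = coeffMap (Int.castRingHom ℚ) (jqModC ℤ) := by
    rw [← jqModC_rat]
    exact (map_jqModC (Int.castRingHom ℚ)).symm
  rw [h1, jZ, intEmb, coeffMap_qExpand, coeffEmb, coeffMap_qExpand, coeffMap_coeffMap]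
  congr 1

variable (N : ℕ) [NeZero N] (ℓ : ℕ) [hℓ : Fact ℓ.Prime]

omit [NeZero N] in
theorem coe_jFd_int (d : ℕ) [NeZero d] (hd : d ∣ N) :
    ((jFd N d hd : FF N) : LaurentSeries Kbar) = intEmb (jZ d) := by
  rw [coe_jFd, coeffEmb_jqd]

/-- **The Frobenius element** `u = j(q^ℓ) - j(q)^ℓ` of `FF N`, `ℓ ∣ N`. -/
def frobElt (h : ℓ ∣ N) : FF N := jFd N ℓ h - jFd N 1 (one_dvd N) ^ ℓ

omit [NeZero N] in
theorem coe_frobElt_eq (h : ℓ ∣ N) :
    ((frobElt N ℓ h : FF N) : LaurentSeries Kbar) = intEmb (jZ ℓ - jZ 1 ^ ℓ) := by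
  show ((jFd N ℓ h : FF N) : LaurentSeries Kbar)
    - ((jFd N 1 (one_dvd N) : FF N) : LaurentSeries Kbar) ^ ℓ = _
  rw [coe_jFd_int, coe_jFd_int, map_sub, map_pow]

omit [NeZero N] in
/-- `u = ℓ · g` with `g ∈ ℤ((q))`: the Frobenius element is divisible by `ℓ`. -/
theorem coe_frobElt (h : ℓ ∣ N) :
    ∃ g : LaurentSeries ℤ, ((frobElt N ℓ h : FF N) : LaurentSeries Kbar)
      = HahnSeries.C (ℓ : Kbar) * intEmb g := by
  obtain ⟨g, hg⟩ := exists_frobCong ℓ (jqModC ℤ)
  refine ⟨g, ?_⟩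
  rw [coe_frobElt_eq]
  have h1 : jZ 1 = jqModC ℤ := qExpand_one_apply _
  rw [h1, jZ, hg, map_mul]
  congr 1
  show coeffMap (Int.castRingHom Kbar) (HahnSeries.single 0 (ℓ : ℤ)) = HahnSeries.single 0 (ℓ : Kbar)
  rw [coeffMap_single]
  simp

/-- `u = ℓ · g'` with `g' ∈ FF N` having integral `q`-expansion. -/
theorem exists_frobElt_eq_mul (h : ℓ ∣ N) :
    ∃ (g : LaurentSeries ℤ) (g' : FF N), ((g' : FF N) : LaurentSeries Kbar) = intEmb g ∧
      frobElt N ℓ h = algebraMap Kbar (FF N) (ℓ : Kbar) * g' := by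
  obtain ⟨g, hg⟩ := coe_frobElt N ℓ h
  have hℓ0 : (ℓ : Kbar) ≠ 0 := by exact_mod_cast hℓ.out.ne_zero
  have hc : algebraMap Kbar (FF N) (ℓ : Kbar) ≠ 0 := by
    rw [Ne, map_eq_zero_iff _ (algebraMap Kbar (FF N)).injective]
    exact hℓ0
  refine ⟨g, (algebraMap Kbar (FF N) (ℓ : Kbar))⁻¹ * frobElt N ℓ h, ?_, ?_⟩
  · have hC : ((algebraMap Kbar (FF N) (ℓ : Kbar) : FF N) : LaurentSeries Kbar)
        = HahnSeries.C (ℓ : Kbar) := by
      show algebraMap Kbar (LaurentSeries Kbar) (ℓ : Kbar) = _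
      rw [algebraMap_laurentSeries_eq_single]
      rfl
    have hC0 : (HahnSeries.C (ℓ : Kbar) : LaurentSeries Kbar) ≠ 0 := by
      rw [← hC]
      exact fun h0 => hc (Subtype.ext h0)
    show ((algebraMap Kbar (FF N) (ℓ : Kbar) : FF N) : LaurentSeries Kbar)⁻¹
      * ((frobElt N ℓ h : FF N) : LaurentSeries Kbar) = _
    rw [hC, hg, ← mul_assoc, inv_mul_cancel₀ hC0, one_mul]
  · rw [← mul_assoc, mul_inv_cancel₀ hc, one_mul]

omit [NeZero N] in
theorem jFd_congr {d d' : ℕ} [NeZero d] [NeZero d'] (hd : d ∣ N) (hd' : d' ∣ N) (h : d = d') :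
    jFd N d hd = jFd N d' hd' := by
  subst h
  rfl

/-- `w_N u = j(q^{N/ℓ}) - j(q^N)^ℓ`. -/
theorem wF_frobElt (h : ℓ ∣ N) :
    haveI := neZero_div N h
    wF N (frobElt N ℓ h) = jFd N (N / ℓ) (Nat.div_dvd_of_dvd h) - jFd N N dvd_rfl ^ ℓ := by
  have := neZero_div N h
  have := neZero_div N (one_dvd N)
  rw [frobElt, map_sub, map_pow, wF_jFd, wF_jFd]
  congr 2
  exact jFd_congr N _ _ (Nat.div_one N)

theorem coeff_jZ_pow_top (d n : ℕ) [NeZero d] :
    ((jZ d) ^ n).coeff (-((d * n : ℕ) : ℤ)) = 1 := by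
  rw [jZ, ← map_pow,
    show (-((d * n : ℕ) : ℤ)) = (d : ℤ) * (-(n : ℤ)) by push_cast; ring, qExpand_coeff_mul]
  exact coeff_jqModC_pow_self ℤ n

theorem coeff_jZ_of_lt (d : ℕ) [NeZero d] {k : ℤ} (hk : k < -(d : ℤ)) :
    (jZ d).coeff k = 0 := by
  rw [jZ]
  by_cases hdk : (d : ℤ) ∣ k
  · obtain ⟨m, rfl⟩ := hdk
    rw [qExpand_coeff_mul]
    have hd0 : 0 < (d : ℤ) := by exact_mod_cast Nat.pos_of_ne_zero (NeZero.ne d)
    have hm : m < -((1 : ℕ) : ℤ) := by
      have : (d : ℤ) * m < (d : ℤ) * (-1) := by linarith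
      have := lt_of_mul_lt_mul_left this hd0.le
      simpa using this
    have h1 := coeff_jqModC_pow_of_lt ℤ (b := 1) (m := m) hm
    simpa using h1
  · exact qExpand_coeff_of_not_dvd d _ hdk

/-- `w_N u` has an integral `q`-expansion with coefficient `-1` at `q^{-Nℓ}`. -/
theorem coe_wF_frobElt (h : ℓ ∣ N) :
    ∃ g : LaurentSeries ℤ, ((wF N (frobElt N ℓ h) : FF N) : LaurentSeries Kbar) = intEmb g ∧
      g.coeff (-((N * ℓ : ℕ) : ℤ)) = -1 := by
  have := neZero_div N h
  have hN : 0 < N := Nat.pos_of_ne_zero (NeZero.ne N)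
  have hℓ1 : 1 < ℓ := hℓ.out.one_lt
  refine ⟨jZ (N / ℓ) - jZ N ^ ℓ, ?_, ?_⟩
  · rw [wF_frobElt]
    show ((jFd N (N / ℓ) (Nat.div_dvd_of_dvd h) : FF N) : LaurentSeries Kbar)
      - ((jFd N N dvd_rfl : FF N) : LaurentSeries Kbar) ^ ℓ = _
    rw [coe_jFd_int, coe_jFd_int, map_sub, map_pow]
  · rw [HahnSeries.coeff_sub, coeff_jZ_pow_top, coeff_jZ_of_lt, zero_sub]
    have h1 : N / ℓ ≤ N := Nat.div_le_self N ℓ
    have h2 : N < N * ℓ := by
      calc N = N * 1 := (mul_one N).symm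
        _ < N * ℓ := (Nat.mul_lt_mul_left hN).mpr hℓ1
    have h3 : ((N / ℓ : ℕ) : ℤ) < ((N * ℓ : ℕ) : ℤ) := by exact_mod_cast lt_of_le_of_lt h1 h2
    linarith

/-- **`V∞ ≠ V₀`.**  Let `V` be a valuation subring of `FF N` which contains the functions with
integral `q`-expansion, in which those with a coefficient `±1` are units, and in which the prime
`ℓ ∣ N` is not a unit (e.g. the Gauss valuation ring above `ℓ` of the expansion at `∞`).  Then the
Frobenius element `u = j(q^ℓ) - j^ℓ` is a non-unit of `V` and a unit of `V ∘ w_N`; in particular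
`V ∘ w_N ≠ V`. -/
theorem frobElt_separates (h : ℓ ∣ N) (V : ValuationSubring (FF N))
    (hint : ∀ (f : FF N) (g : LaurentSeries ℤ), ((f : FF N) : LaurentSeries Kbar) = intEmb g → f ∈ V)
    (hunit : ∀ (f : FF N) (g : LaurentSeries ℤ) (k : ℤ),
      ((f : FF N) : LaurentSeries Kbar) = intEmb g → g.coeff k = -1 → f⁻¹ ∈ V)
    (hℓV : (algebraMap Kbar (FF N) (ℓ : Kbar))⁻¹ ∉ V) :
    (frobElt N ℓ h)⁻¹ ∉ V ∧ (frobElt N ℓ h)⁻¹ ∈ comapW N V := by
  constructor
  · intro hu
    obtain ⟨g, g', hg', hmul⟩ := exists_frobElt_eq_mul N ℓ h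
    have hg'V : g' ∈ V := hint g' g hg'
    have hℓ0 : (ℓ : Kbar) ≠ 0 := by exact_mod_cast hℓ.out.ne_zero
    have hc : algebraMap Kbar (FF N) (ℓ : Kbar) ≠ 0 := by
      rw [Ne, map_eq_zero_iff _ (algebraMap Kbar (FF N)).injective]
      exact hℓ0
    have hu0 : frobElt N ℓ h ≠ 0 := by
      intro h0
      obtain ⟨g2, hg2, hcoef⟩ := coe_wF_frobElt N ℓ h
      rw [h0, map_zero] at hg2
      have : g2 = 0 := intEmb_injective (by rw [← hg2, map_zero]; rfl)
      rw [this] at hcoef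
      simp at hcoef
    have hkey : (algebraMap Kbar (FF N) (ℓ : Kbar))⁻¹ = g' * (frobElt N ℓ h)⁻¹ := by
      rw [eq_mul_inv_iff_mul_eq₀ hu0, hmul, ← mul_assoc, inv_mul_cancel₀ hc, one_mul]
    exact hℓV (hkey ▸ V.mul_mem _ _ hg'V hu)
  · rw [mem_comapW, map_inv₀]
    obtain ⟨g2, hg2, hcoef⟩ := coe_wF_frobElt N ℓ h
    exact hunit _ g2 _ hg2 hcoef

theorem comapW_ne (h : ℓ ∣ N) (V : ValuationSubring (FF N))
    (hint : ∀ (f : FF N) (g : LaurentSeries ℤ), ((f : FF N) : LaurentSeries Kbar) = intEmb g → f ∈ V)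
    (hunit : ∀ (f : FF N) (g : LaurentSeries ℤ) (k : ℤ),
      ((f : FF N) : LaurentSeries Kbar) = intEmb g → g.coeff k = -1 → f⁻¹ ∈ V)
    (hℓV : (algebraMap Kbar (FF N) (ℓ : Kbar))⁻¹ ∉ V) :
    comapW N V ≠ V := by
  intro heq
  obtain ⟨h1, h2⟩ := frobElt_separates N ℓ h V hint hunit hℓV
  rw [heq] at h2
  exact h1 h2

end Fermat.Agent.A2.H528

end
end
-- ===== PACK-END A2/H528/FrickeDistinct.lean

-- ===== PACK-BEGIN A2/Mod/H553/VzeroNe.lean
section



/-!
# A2 / MOD leaf L6 `VzeroNe` (helper553)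

`V₀ := V∞ ∘ W ≠ V∞` at level `Mq` over `E`: the Frobenius element `u = j_q - j^q` is a non-unit
of `V∞` (`u = q · g`, `g` integral) while `W u = j_M - j_{Mq}^q` has an integral `t`-expansion
with a coefficient `-1`, hence is a unit of `V∞`.

* `frobE` : the element `u`;
* `inv_frobE_not_mem`, `inv_W_frobE_mem`;
* `vzeroNe : VzeroNeStatement P E M q w`  (L6).
-/

set_option autoImplicit false
set_option synthInstance.maxHeartbeats 400000
set_option maxHeartbeats 1600000
set_option linter.unusedSectionVars false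
set_option linter.style.haveILetI false

noncomputable section

namespace Fermat.Agent.A2.Mod.H553

open ModularCurve HahnSeries Polynomial
open Fermat.Agent.A2 Fermat.Agent.A2.Mod

variable (P : ValuationSubring _root_.Fermat.Agent.A2.Mod.Qb) (E : IntermediateField ℚ _root_.Fermat.Agent.A2.Mod.Qb) (M q : ℕ) [NeZero M] [NeZero q]

/-- The Frobenius element `u = j_q - j^q` of `F_{Mq,E}`. -/
def frobE : ↥(_root_.Fermat.Agent.A2.Mod.FE E (M * q)) :=
  jE E (M * q) q (dvd_mul_left q M) - jE E (M * q) 1 (one_dvd _) ^ q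

/-- its integral `t`-expansion -/
theorem coe_frobE :
    ((frobE E M q : ↥(_root_.Fermat.Agent.A2.Mod.FE E (M * q))) : LaurentSeries ↥E) =
      coeffEmb (↥E) (H708.castQ (H708.jInt q - H708.jInt 1 ^ q)) := by
  rw [map_sub, map_sub, map_pow, map_pow, ← coe_jE (E := E) (M * q) q (dvd_mul_left q M),
    ← coe_jE (E := E) (M * q) 1 (one_dvd _)]
  rfl

theorem jInt_eq_qExpand (d : ℕ) [NeZero d] : H708.jInt d = qExpand ℤ d (H708.jInt 1) := by
  show qExpand ℤ d (jqModC ℤ) = qExpand ℤ d (qExpand ℤ 1 (jqModC ℤ))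
  rw [qExpand_one_apply]

/-- `u = q · g` with `g` integral. -/
theorem exists_frobE_eq [Fact q.Prime] :
    ∃ g : LaurentSeries ℤ,
      ((frobE E M q : ↥(_root_.Fermat.Agent.A2.Mod.FE E (M * q))) : LaurentSeries ↥E) =
        algebraMap (↥E) (LaurentSeries ↥E) (q : ↥E) * coeffEmb (↥E) (H708.castQ g) := by
  obtain ⟨g, hg⟩ := H528.exists_frobCong q (H708.jInt 1)
  refine ⟨g, ?_⟩
  rw [coe_frobE, jInt_eq_qExpand q, hg, map_mul, map_mul]
  congr 1
  ext n
  simp [coeffEmb, H708.castQ, HahnSeries.coeff_single, algebraMap_laurentSeries_eq_single]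

variable {P E M q}

/-- the Frobenius element is not a unit of `V∞` -/
theorem inv_frobE_not_mem [Fact q.Prime] [IsNoetherianRing ↥(_root_.Fermat.Agent.A2.Mod.RE P E)]
    (hP : P.LiesOverPrime q) {V : ValuationSubring ↥(_root_.Fermat.Agent.A2.Mod.FE E (M * q))}
    (hV : IsVinf P E (M * q) V) (hu0 : frobE E M q ≠ 0) : (frobE E M q)⁻¹ ∉ V := by
  intro hmem
  obtain ⟨g, hg⟩ := exists_frobE_eq E M q
  have hq0 : (q : ↥E) ≠ 0 := by exact_mod_cast NeZero.ne q
  have hqF : algebraMap ↥E ↥(_root_.Fermat.Agent.A2.Mod.FE E (M * q)) (q : ↥E) ≠ 0 :=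
    (map_ne_zero_iff _ (algebraMap ↥E ↥(_root_.Fermat.Agent.A2.Mod.FE E (M * q))).injective).mpr hq0
  -- `g' := u / q` has integral expansion `g`
  set g' : ↥(_root_.Fermat.Agent.A2.Mod.FE E (M * q)) := (algebraMap ↥E ↥(_root_.Fermat.Agent.A2.Mod.FE E (M * q)) (q : ↥E))⁻¹ * frobE E M q with hg'
  have hcoe : ((g' : ↥(_root_.Fermat.Agent.A2.Mod.FE E (M * q))) : LaurentSeries ↥E) = coeffEmb (↥E) (H708.castQ g) := by
    have hqS : algebraMap (↥E) (LaurentSeries ↥E) (q : ↥E) ≠ 0 :=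
      (map_ne_zero_iff _ (algebraMap (↥E) (LaurentSeries ↥E)).injective).mpr hq0
    have h1 : ((g' : ↥(_root_.Fermat.Agent.A2.Mod.FE E (M * q))) : LaurentSeries ↥E) =
        (algebraMap (↥E) (LaurentSeries ↥E) (q : ↥E))⁻¹ *
          ((frobE E M q : ↥(_root_.Fermat.Agent.A2.Mod.FE E (M * q))) : LaurentSeries ↥E) := by
      rw [hg', IntermediateField.coe_mul, IntermediateField.coe_inv]
      rfl
    rw [h1, hg, ← mul_assoc, inv_mul_cancel₀ hqS, one_mul]
  have hg'V : g' ∈ V := mem_of_int hV hcoe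
  have hkey : (algebraMap ↥E ↥(_root_.Fermat.Agent.A2.Mod.FE E (M * q)) (q : ↥E))⁻¹ = g' * (frobE E M q)⁻¹ := by
    rw [hg', mul_assoc, mul_inv_cancel₀ hu0, mul_one]
  have h2 : (algebraMap ↥E ↥(_root_.Fermat.Agent.A2.Mod.FE E (M * q)) (q : ↥E))⁻¹ ∈ V := by
    rw [hkey]
    exact V.mul_mem _ _ hg'V hmem
  have h3 : (algebraMap ↥E ↥(_root_.Fermat.Agent.A2.Mod.FE E (M * q)) (q : ↥E))⁻¹ =
      algebraMap ↥E ↥(_root_.Fermat.Agent.A2.Mod.FE E (M * q)) ((q : ↥E)⁻¹) := (map_inv₀ _ _).symm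
  rw [h3] at h2
  have h4 : ((q : ↥E)⁻¹) ∈ _root_.Fermat.Agent.A2.Mod.RE P E := (algebraMap_mem_iff P E hV _).mp h2
  have h5 : ((q : _root_.Fermat.Agent.A2.Mod.Qb)⁻¹) ∈ P := by
    have : (((q : ↥E)⁻¹ : ↥E) : _root_.Fermat.Agent.A2.Mod.Qb) ∈ P := h4
    simpa using this
  have h6 : (q : _root_.Fermat.Agent.A2.Mod.Qb) ∈ P.nonunits := hP
  rw [ValuationSubring.mem_nonunits_iff] at h6
  have h7 : P.valuation ((q : _root_.Fermat.Agent.A2.Mod.Qb)⁻¹) ≤ 1 := (P.valuation_le_one_iff _).mpr h5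
  rw [map_inv₀] at h7
  have hq0' : P.valuation (q : _root_.Fermat.Agent.A2.Mod.Qb) ≠ 0 := by
    rw [Valuation.ne_zero_iff]
    exact_mod_cast NeZero.ne q
  have h8 : 1 ≤ P.valuation (q : _root_.Fermat.Agent.A2.Mod.Qb) := (inv_le_one₀ (zero_lt_iff.mpr hq0')).mp h7
  exact absurd h6 (not_lt.mpr h8)

/-- the expansion of `W u = j_M - j_{Mq}^q` -/
theorem coe_W_frobE {W : ↥(_root_.Fermat.Agent.A2.Mod.FE E (M * q)) ≃ₐ[↥E] ↥(_root_.Fermat.Agent.A2.Mod.FE E (M * q))}
    (hW : IsFricke E (M * q) W) :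
    haveI : NeZero (M * q) := ⟨mul_ne_zero (NeZero.ne M) (NeZero.ne q)⟩
    ((W (frobE E M q) : ↥(_root_.Fermat.Agent.A2.Mod.FE E (M * q))) : LaurentSeries ↥E) =
      coeffEmb (↥E) (H708.castQ (H708.jInt M - H708.jInt (M * q) ^ q)) := by
  haveI : NeZero (M * q) := ⟨mul_ne_zero (NeZero.ne M) (NeZero.ne q)⟩
  have h1 : W (frobE E M q) =
      jE E (M * q) M (dvd_mul_right M q) - jE E (M * q) (M * q) dvd_rfl ^ q := by
    rw [frobE, map_sub, map_pow,
      hW.1 q M (dvd_mul_left q M) (dvd_mul_right M q) (mul_comm q M),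
      hW.1 1 (M * q) (one_dvd _) dvd_rfl (one_mul _)]
  rw [h1, map_sub, map_sub, map_pow, map_pow, ← coe_jE (E := E) (M * q) M (dvd_mul_right M q),
    ← coe_jE (E := E) (M * q) (M * q) dvd_rfl]
  rfl

theorem coeff_W_frob [Fact q.Prime] :
    haveI : NeZero (M * q) := ⟨mul_ne_zero (NeZero.ne M) (NeZero.ne q)⟩
    (H708.jInt M - H708.jInt (M * q) ^ q).coeff (-((M * q * q : ℕ) : ℤ)) = -1 := by
  haveI : NeZero (M * q) := ⟨mul_ne_zero (NeZero.ne M) (NeZero.ne q)⟩
  have hM : 0 < M := Nat.pos_of_ne_zero (NeZero.ne M)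
  have hq1 : 1 < q := (Fact.out : q.Prime).one_lt
  have e1 : H708.jInt M = H528.jZ M := rfl
  have e2 : H708.jInt (M * q) = H528.jZ (M * q) := rfl
  rw [HahnSeries.coeff_sub, e1, e2, H528.coeff_jZ_pow_top, H528.coeff_jZ_of_lt, zero_sub]
  have h2 : M < M * q * q := by
    calc M = M * 1 * 1 := by ring
      _ < M * q * q := by
        have : 1 * 1 < q * q := Nat.mul_lt_mul'' hq1 hq1
        nlinarith
  have h3 : ((M : ℕ) : ℤ) < ((M * q * q : ℕ) : ℤ) := by exact_mod_cast h2
  linarith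

/-- `W u` is a unit of `V∞` -/
theorem inv_W_frobE_mem [Fact q.Prime] {V : ValuationSubring ↥(_root_.Fermat.Agent.A2.Mod.FE E (M * q))}
    (hV : IsVinf P E (M * q) V) {W : ↥(_root_.Fermat.Agent.A2.Mod.FE E (M * q)) ≃ₐ[↥E] ↥(_root_.Fermat.Agent.A2.Mod.FE E (M * q))}
    (hW : IsFricke E (M * q) W) : (W (frobE E M q))⁻¹ ∈ V :=
  inv_mem_of_int hV (coe_W_frobE hW) (Or.inr coeff_W_frob)

theorem coeff_coeffEmb_castQ (x : LaurentSeries ℤ) (k : ℤ) :
    (coeffEmb (↥E) (H708.castQ x)).coeff k = ((x.coeff k : ℤ) : ↥E) := by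
  show algebraMap ℚ (↥E) ((Int.castRingHom ℚ) (x.coeff k)) = _
  simp

theorem W_frobE_ne_zero [Fact q.Prime] {W : ↥(_root_.Fermat.Agent.A2.Mod.FE E (M * q)) ≃ₐ[↥E] ↥(_root_.Fermat.Agent.A2.Mod.FE E (M * q))}
    (hW : IsFricke E (M * q) W) : W (frobE E M q) ≠ 0 := by
  haveI : NeZero (M * q) := ⟨mul_ne_zero (NeZero.ne M) (NeZero.ne q)⟩
  intro h0
  have h1 := coe_W_frobE (E := E) (M := M) (q := q) hW
  rw [h0] at h1
  have h2 := congrArg (fun s : LaurentSeries ↥E => s.coeff (-((M * q * q : ℕ) : ℤ))) h1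
  simp only [ZeroMemClass.coe_zero, HahnSeries.coeff_zero] at h2
  rw [coeff_coeffEmb_castQ, coeff_W_frob] at h2
  have : ((-1 : ℤ) : ↥E) ≠ 0 := by simp
  exact this h2.symm

variable (P E M q)

/-- **L6.** -/
theorem vzeroNe (w : _root_.Fermat.Agent.A2.Mod.RE P E) : VzeroNeStatement P E M q w := by
  intro hS V W hV hW heq
  haveI : Fact q.Prime := ⟨hS.q_prime⟩
  haveI := hS.dvr
  have hWu0 : W (frobE E M q) ≠ 0 := W_frobE_ne_zero hW
  have hu0 : frobE E M q ≠ 0 := fun h0 => hWu0 (by rw [h0, map_zero])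
  have h1 : (frobE E M q)⁻¹ ∈ V.comap (W : ↥(_root_.Fermat.Agent.A2.Mod.FE E (M * q)) →+* ↥(_root_.Fermat.Agent.A2.Mod.FE E (M * q))) := by
    show W ((frobE E M q)⁻¹) ∈ V
    rw [map_inv₀]
    exact inv_W_frobE_mem hV hW
  rw [heq] at h1
  exact inv_frobE_not_mem hS.lies_over hV hu0 h1

end Fermat.Agent.A2.Mod.H553

end
end
-- ===== PACK-END A2/Mod/H553/VzeroNe.lean

-- ===== PACK-BEGIN A2/Mod/H753/IndInf.lean
section






/-!
# A2 / MOD leaf L9 `IndInf` (helper753): residue independence on `C∞`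

Level `N = M q`, `q ∤ M`, `R = R_E` a DVR with uniformiser `w`, `k = R / w` (characteristic `q`).

* `exists_monomials` : `ψ(M)` integral monomials `Y i ∈ ℤ[j_d : d ∣ M]` whose reductions are
  polynomially independent over `k[j̄]` (row S28: `Good.exists_linearIndependent`);
* `red_eq_zero_of_inW` : an `R`-integral series lying in `w V∞` has zero reduction;
* `indInf_strong` : the family `g (a, i) = Y i · j^a ∈ F_M` (`0 ≤ a ≤ q`) consists of integral
  series (so it lies in EVERY Gauss ring of level `M`), and `b = α ∘ g` is `IndepMod` for the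
  coordinate `x = j j_q`  (`x̄ = j̄^(q+1)`, Frobenius congruence + base-`(q+1)` digits);
* `indInf : IndInfStatement P E M q w`;
* `eq_zero_of_sum_expand_mul_X_pow` : `∑_{a<n} p_a(X^n) X^a = 0 ⟹ p_a = 0` (Mathlib-only).
-/

set_option autoImplicit false
set_option synthInstance.maxHeartbeats 400000
set_option maxHeartbeats 1600000

noncomputable section

namespace Fermat.Agent.A2.Mod.H753

open ModularCurve HahnSeries Polynomial
open Fermat.Agent.S28 (intDivisorExpansions jField)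
open Fermat.Agent.S28.H325 (castL PolyIndep)

/-! ## 0. base-`n` digits of polynomials (Mathlib-only) -/


/-- coefficient of `∑_{a<n} p_a(X^n) X^a` at `n m + a₀` is the `m`-th coefficient of `p_{a₀}`. -/
theorem coeff_sum_expand_mul_X_pow {k : Type*} [CommSemiring k] {n : ℕ} (hn : 0 < n)
    (p : Fin n → k[X]) (a₀ : Fin n) (m : ℕ) :
    (∑ a : Fin n, expand k n (p a) * X ^ (a : ℕ)).coeff (n * m + a₀) = (p a₀).coeff m := by
  rw [Polynomial.finsetSum_coeff]
  rw [Finset.sum_eq_single a₀]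
  · rw [coeff_mul_X_pow, coeff_expand_mul' hn]
  · intro a _ hne
    rw [coeff_mul_X_pow']
    split_ifs with hle
    · rw [coeff_expand hn, if_neg]
      intro hdvd
      apply hne
      have h1 : (n : ℤ) ∣ ((a₀ : ℕ) : ℤ) - ((a : ℕ) : ℤ) := by
        have h2 : (n : ℤ) ∣ ((n * m + a₀ - a : ℕ) : ℤ) := by exact_mod_cast hdvd
        rw [Nat.cast_sub hle] at h2
        push_cast at h2
        have h3 : ((n : ℤ) * m + a₀ - a) = (a₀ - a) + n * m := by ring
        rw [h3] at h2
        exact (Int.dvd_add_left (Dvd.intro _ rfl)).mp h2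
      have ha : ((a : ℕ) : ℤ) < n := by exact_mod_cast a.2
      have ha₀ : ((a₀ : ℕ) : ℤ) < n := by exact_mod_cast a₀.2
      have h0a : (0 : ℤ) ≤ ((a : ℕ) : ℤ) := by positivity
      have h0a₀ : (0 : ℤ) ≤ ((a₀ : ℕ) : ℤ) := by positivity
      have h4 : ((a₀ : ℕ) : ℤ) - ((a : ℕ) : ℤ) = 0 := by
        apply Int.eq_zero_of_abs_lt_dvd h1
        rw [abs_lt]
        constructor <;> linarith
      apply Fin.ext
      have : ((a : ℕ) : ℤ) = ((a₀ : ℕ) : ℤ) := by linarith
      exact_mod_cast this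
    · rfl
  · intro h
    exact absurd (Finset.mem_univ a₀) h

/-- **Digits.**  `∑_{a<n} p_a(X^n) X^a = 0 ⟹ p_a = 0`. -/
theorem eq_zero_of_sum_expand_mul_X_pow {k : Type*} [CommSemiring k] {n : ℕ} (hn : 0 < n)
    (p : Fin n → k[X]) (h : ∑ a : Fin n, expand k n (p a) * X ^ (a : ℕ) = 0) (a₀ : Fin n) :
    p a₀ = 0 := by
  ext m
  rw [← coeff_sum_expand_mul_X_pow hn p a₀ m, h, Polynomial.coeff_zero, Polynomial.coeff_zero]

/-! ## 1. the residue field has characteristic `q` -/

section Char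

variable (P : ValuationSubring _root_.Fermat.Agent.A2.Mod.Qb) (E : IntermediateField ℚ _root_.Fermat.Agent.A2.Mod.Qb)

theorem natCast_mem_maximalIdeal {q : ℕ} (hP : P.LiesOverPrime q) :
    (q : _root_.Fermat.Agent.A2.Mod.RE P E) ∈ IsLocalRing.maximalIdeal (_root_.Fermat.Agent.A2.Mod.RE P E) := by
  rw [IsLocalRing.mem_maximalIdeal, mem_nonunits_iff]
  intro hu
  obtain ⟨u, hu⟩ := hu.exists_right_inv
  have h1 : ((q : _root_.Fermat.Agent.A2.Mod.RE P E) : E) * (u : E) = 1 := by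
    have := congrArg (fun z : _root_.Fermat.Agent.A2.Mod.RE P E => (z : E)) hu
    simpa using this
  have h2 : (q : _root_.Fermat.Agent.A2.Mod.Qb) * algebraMap E _root_.Fermat.Agent.A2.Mod.Qb (u : E) = 1 := by
    have := congrArg (algebraMap E _root_.Fermat.Agent.A2.Mod.Qb) h1
    simpa using this
  have hmem : algebraMap E _root_.Fermat.Agent.A2.Mod.Qb (u : E) ∈ P := u.2
  have hq : (q : _root_.Fermat.Agent.A2.Mod.Qb) ∈ P := natCast_mem P q
  have hunit : IsUnit (⟨(q : _root_.Fermat.Agent.A2.Mod.Qb), hq⟩ : P) := by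
    refine IsUnit.of_mul_eq_one (⟨algebraMap E _root_.Fermat.Agent.A2.Mod.Qb (u : E), hmem⟩ : P) ?_
    exact Subtype.ext h2
  have h3 : ((⟨(q : _root_.Fermat.Agent.A2.Mod.Qb), hq⟩ : P) : _root_.Fermat.Agent.A2.Mod.Qb) ∈ P.nonunits := hP
  rw [ValuationSubring.coe_mem_nonunits_iff, IsLocalRing.mem_maximalIdeal, mem_nonunits_iff] at h3
  exact h3 hunit

theorem charP_residueField {q : ℕ} (hq : q.Prime) (hP : P.LiesOverPrime q) :
    CharP (IsLocalRing.ResidueField (_root_.Fermat.Agent.A2.Mod.RE P E)) q := by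
  refine (CharP.charP_iff_prime_eq_zero hq).mpr ?_
  have h3 := (IsLocalRing.residue_eq_zero_iff (q : _root_.Fermat.Agent.A2.Mod.RE P E)).mpr (natCast_mem_maximalIdeal P E hP)
  rwa [map_natCast] at h3

end Char

/-! ## 2. the monomials -/

/-- `ψ(M)` integral monomials with polynomially independent reductions. -/
theorem exists_monomials (M q : ℕ) [NeZero M] (hq : q.Prime) (hqM : ¬ q ∣ M)
    (k : Type*) [Field k] [CharP k q] :
    ∃ Y : Fin (dedekindPsi M) → LaurentSeries ℤ,
      (∀ i, Y i ∈ Submonoid.closure (intDivisorExpansions M)) ∧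
      PolyIndep (jqModC k) (fun i => castL k (Y i)) := by
  have hchar : ∀ p : ℕ, p.Prime → p ∣ M → (p : k) ≠ 0 := by
    intro p hp hpM h0
    have hdvd : q ∣ p := (CharP.cast_eq_zero_iff k q p).mp h0
    have : q = p := (Nat.prime_dvd_prime_iff_eq hq hp).mp hdvd
    exact hqM (this ▸ hpM)
  have hΦ : ∀ p : ℕ, p.Prime → p ∣ M → ∀ [NeZero p], Nonempty (Fermat.Agent.S28.ModPolyData p) :=
    fun p hp _ _ => Fermat.Agent.S28.H807.nonempty_modPolyData p hp
  have hW : ∀ p : ℕ, p.Prime → p ∣ M → ∀ [NeZero p], Nonempty (Fermat.Agent.S28.UnitPolyData p) :=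
    fun p hp _ _ => Fermat.Agent.S28.H807.nonempty_unitPolyData p hp
  have hgood : Fermat.Agent.S28.H867.Good k M :=
    Fermat.Agent.S28.H867.good_of_inputs k M (NeZero.ne M) hΦ hW
      Fermat.Agent.S28.H25.theta_identity hchar
  obtain ⟨Y, hY, hli⟩ := Fermat.Agent.S28.H325.exists_monomials_linearIndependent k M
    (Fermat.Agent.S28.H867.coreData_integral M hΦ) (dedekindPsi M) hgood.exists_linearIndependent
  refine ⟨Y, hY, ?_⟩
  exact Fermat.Agent.S28.H325.polyIndep_of_linearIndependent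
    (fun Q hQ => (Fermat.Agent.S28.H325.aeval_jqModC_eq_zero_iff k Q).mp hQ) hli

/-! ## 3. integral series in `w V∞` have zero reduction -/

section Red

variable (P : ValuationSubring _root_.Fermat.Agent.A2.Mod.Qb) (E : IntermediateField ℚ _root_.Fermat.Agent.A2.Mod.Qb) (N : ℕ)

theorem coe_cE (r : _root_.Fermat.Agent.A2.Mod.RE P E) :
    ((cE P E N r : _root_.Fermat.Agent.A2.Mod.FE E N) : LaurentSeries E) = H708.cst ((r : E)) := rfl

variable {P E N}

theorem red_eq_zero_of_inW {V : ValuationSubring (_root_.Fermat.Agent.A2.Mod.FE E N)} (hV : IsVinf P E N V) {w : _root_.Fermat.Agent.A2.Mod.RE P E}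
    (hw0 : w ≠ 0) (hw : w ∈ IsLocalRing.maximalIdeal (_root_.Fermat.Agent.A2.Mod.RE P E)) {f : _root_.Fermat.Agent.A2.Mod.FE E N}
    {S : LaurentSeries (_root_.Fermat.Agent.A2.Mod.RE P E)} (hS : (f : LaurentSeries E) = H708.incl (_root_.Fermat.Agent.A2.Mod.RE P E) S)
    (h : InW P E N V w f) : H708.red (_root_.Fermat.Agent.A2.Mod.RE P E) S = 0 := by
  obtain ⟨U₁, U₂, hU₂, -, he⟩ := (hV _).mp h
  have hwE : ((w : E)) ≠ 0 := fun h0 => hw0 (Subtype.ext h0)
  have hc : H708.cst (w : E) ≠ 0 := H708.cst_ne_zero hwE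
  have hcoe : (((f * (cE P E N w)⁻¹ : _root_.Fermat.Agent.A2.Mod.FE E N)) : LaurentSeries E)
      = (f : LaurentSeries E) * (H708.cst (w : E))⁻¹ := by
    rw [IntermediateField.coe_mul, IntermediateField.coe_inv]
    rfl
  have he' : (f : LaurentSeries E) * H708.incl (_root_.Fermat.Agent.A2.Mod.RE P E) U₂
      = H708.cst (w : E) * H708.incl (_root_.Fermat.Agent.A2.Mod.RE P E) U₁ := by
    rw [← he, hcoe]
    field_simp
  have h2 : S * U₂ = H708.cstA (_root_.Fermat.Agent.A2.Mod.RE P E) w * U₁ := by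
    apply H708.incl_injective (_root_.Fermat.Agent.A2.Mod.RE P E)
    rw [map_mul, map_mul, H708.incl_cstA, ← hS, he']
  have h3 := congrArg (H708.red (_root_.Fermat.Agent.A2.Mod.RE P E)) h2
  rw [map_mul, map_mul, H708.red_cstA, (IsLocalRing.residue_eq_zero_iff w).mpr hw,
    HahnSeries.single_eq_zero, zero_mul] at h3
  rcases mul_eq_zero.mp h3 with h4 | h4
  · exact h4
  · exact absurd h4 hU₂

end Red

/-! ## 4. the family `Y i · j^a` -/

section Family

variable (M q : ℕ)

/-- the integral series `Y_i · j^a`, indexed by `Fin ((q+1) ψ(M)) ≃ Fin (q+1) × Fin ψ(M)`. -/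
def monoZ (Y : Fin (dedekindPsi M) → LaurentSeries ℤ) (i : Fin ((q + 1) * dedekindPsi M)) :
    LaurentSeries ℤ :=
  Y (finProdFinEquiv.symm i).2 * jqModC ℤ ^ ((finProdFinEquiv.symm i).1 : ℕ)

/-- the integral series of the coordinate `x = j · j_q`. -/
def xZ [NeZero q] : LaurentSeries ℤ := jqModC ℤ * qExpand ℤ q (jqModC ℤ)

theorem castQ_jqModC : H708.castQ (jqModC ℤ) = jq := by
  rw [H708.castQ, coeffMap_jqModC, jqModC_rat]

theorem castQ_mem_full_of_mem_closure [NeZero M] {y : LaurentSeries ℤ}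
    (hy : y ∈ Submonoid.closure (intDivisorExpansions M)) :
    H708.castQ y ∈ modularFunctionFieldFull M := by
  have h1 : castL ℚ y ∈ castL ℚ ''
      ((Submonoid.closure (intDivisorExpansions M) : Submonoid (LaurentSeries ℤ)) :
        Set (LaurentSeries ℤ)) := ⟨y, hy, rfl⟩
  rw [Fermat.Agent.S28.H325.castL_image_closure] at h1
  exact Fermat.Agent.S28.H325.monomials_subset_full ℚ M h1

theorem castQ_monoZ_mem [NeZero M] {Y : Fin (dedekindPsi M) → LaurentSeries ℤ}
    (hY : ∀ i, Y i ∈ Submonoid.closure (intDivisorExpansions M))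
    (i : Fin ((q + 1) * dedekindPsi M)) :
    H708.castQ (monoZ M q Y i) ∈ modularFunctionFieldFull M := by
  rw [monoZ, map_mul, map_pow, castQ_jqModC]
  refine mul_mem (castQ_mem_full_of_mem_closure M (hY _)) (pow_mem ?_ _)
  have := jqd_mem_full M (one_dvd M)
  rwa [qExpand_one_apply] at this

end Family

section Main

variable (P : ValuationSubring _root_.Fermat.Agent.A2.Mod.Qb) (E : IntermediateField ℚ _root_.Fermat.Agent.A2.Mod.Qb) (M q : ℕ) [NeZero M] [NeZero q]

/-- the elements `g i = Y i · j^a` of `F_M`. -/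
def gFam {Y : Fin (dedekindPsi M) → LaurentSeries ℤ}
    (hY : ∀ i, Y i ∈ Submonoid.closure (intDivisorExpansions M))
    (i : Fin ((q + 1) * dedekindPsi M)) : _root_.Fermat.Agent.A2.Mod.FE E M :=
  ⟨coeffEmb E (H708.castQ (monoZ M q Y i)),
    coeffEmb_mem_laurentBaseChange E (castQ_monoZ_mem M q hY i)⟩

omit [NeZero q] in
theorem coe_gFam {Y : Fin (dedekindPsi M) → LaurentSeries ℤ}
    (hY : ∀ i, Y i ∈ Submonoid.closure (intDivisorExpansions M))
    (i : Fin ((q + 1) * dedekindPsi M)) :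
    ((gFam E M q hY i : _root_.Fermat.Agent.A2.Mod.FE E M) : LaurentSeries E)
      = H708.incl (_root_.Fermat.Agent.A2.Mod.RE P E) (H708.castA (_root_.Fermat.Agent.A2.Mod.RE P E) (monoZ M q Y i)) := by
  rw [H708.incl_castA]
  rfl

omit [NeZero q] in
theorem gFam_mem {Y : Fin (dedekindPsi M) → LaurentSeries ℤ}
    (hY : ∀ i, Y i ∈ Submonoid.closure (intDivisorExpansions M))
    {VM : ValuationSubring (_root_.Fermat.Agent.A2.Mod.FE E M)} (hVM : IsVinf P E M VM)
    (i : Fin ((q + 1) * dedekindPsi M)) : gFam E M q hY i ∈ VM := by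
  rw [hVM, coe_gFam P]
  exact H708.IsGaussInt.of_incl _

theorem alpha_gFam_mem {Y : Fin (dedekindPsi M) → LaurentSeries ℤ}
    (hY : ∀ i, Y i ∈ Submonoid.closure (intDivisorExpansions M))
    {V : ValuationSubring (_root_.Fermat.Agent.A2.Mod.FE E (M * q))} (hV : IsVinf P E (M * q) V)
    (i : Fin ((q + 1) * dedekindPsi M)) : αE E M q (gFam E M q hY i) ∈ V := by
  rw [hV, coe_heckeAlphaBar, coe_gFam P]
  exact H708.IsGaussInt.of_incl _

omit [NeZero M] in
theorem coe_xE :
    ((xE E M q : _root_.Fermat.Agent.A2.Mod.FE E (M * q)) : LaurentSeries E)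
      = H708.incl (_root_.Fermat.Agent.A2.Mod.RE P E) (H708.castA (_root_.Fermat.Agent.A2.Mod.RE P E) (xZ q)) := by
  rw [H708.incl_castA, xZ, map_mul, H708.castQ, coeffMap_qExpand, ← H708.castQ, castQ_jqModC,
    map_mul, xE, IntermediateField.coe_mul]
  show coeffEmb E (qExpand ℚ 1 jq) * coeffEmb E (qExpand ℚ q jq) = _
  rw [qExpand_one_apply]

/-- the coercion of `ev x p` is the inclusion of the integral series `p(X)`. -/
theorem coe_ev {N : ℕ} (x : _root_.Fermat.Agent.A2.Mod.FE E N) (X : LaurentSeries (_root_.Fermat.Agent.A2.Mod.RE P E))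
    (hx : (x : LaurentSeries E) = H708.incl (_root_.Fermat.Agent.A2.Mod.RE P E) X) (p : Polynomial (_root_.Fermat.Agent.A2.Mod.RE P E)) :
    ((ev P E N x p : _root_.Fermat.Agent.A2.Mod.FE E N) : LaurentSeries E) = H708.incl (_root_.Fermat.Agent.A2.Mod.RE P E) (aeval X p) := by
  rw [H708.incl, Fermat.Agent.S28.H325.coeffMap_aeval, ← H708.incl, ← hx, aeval_def,
    Polynomial.eval₂_map, ev]
  exact Polynomial.hom_eval₂ p ((algebraMap E (_root_.Fermat.Agent.A2.Mod.FE E N)).comp (_root_.Fermat.Agent.A2.Mod.RE P E).subtype)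
    (algebraMap (_root_.Fermat.Agent.A2.Mod.FE E N) (LaurentSeries E)) x

/-! ## 5. reductions -/

theorem red_castA (Z : LaurentSeries ℤ) :
    H708.red (_root_.Fermat.Agent.A2.Mod.RE P E) (H708.castA (_root_.Fermat.Agent.A2.Mod.RE P E) Z)
      = castL (IsLocalRing.ResidueField (_root_.Fermat.Agent.A2.Mod.RE P E)) Z := by
  rw [H708.red, H708.castA, coeffMap_coeffMap]
  exact coeffMap_congr (RingHom.ext_int _ _) Z

/-- Frobenius: `j̄_q = j̄^q` in characteristic `q`. -/
theorem castL_qExpand_jqModC (hq : q.Prime) (k : Type*) [Field k] [CharP k q] :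
    castL k (qExpand ℤ q (jqModC ℤ)) = jqModC k ^ q := by
  have : Fact q.Prime := ⟨hq⟩
  obtain ⟨g, hg⟩ := H528.exists_frobCong q (jqModC ℤ)
  have h1 : qExpand ℤ q (jqModC ℤ) = jqModC ℤ ^ q + HahnSeries.C (q : ℤ) * g := by
    rw [← hg]; ring
  have h2 : castL k (HahnSeries.C (q : ℤ)) = 0 := by
    ext n
    rw [castL, coeffMap_coeff, HahnSeries.coeff_zero, HahnSeries.C_apply,
      HahnSeries.coeff_single]
    split_ifs
    · rw [eq_intCast, Int.cast_natCast, CharP.cast_eq_zero k q]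
    · rw [map_zero]
  rw [h1, map_add, map_mul, h2, zero_mul, add_zero, map_pow,
    Fermat.Agent.S28.H325.castL_jqModC]

theorem castL_xZ (hq : q.Prime) (k : Type*) [Field k] [CharP k q] :
    castL k (xZ q) = jqModC k ^ (q + 1) := by
  rw [xZ, map_mul, castL_qExpand_jqModC q hq k, Fermat.Agent.S28.H325.castL_jqModC, pow_succ']

omit [NeZero M] [NeZero q] in
theorem castL_monoZ (k : Type*) [Field k] (Y : Fin (dedekindPsi M) → LaurentSeries ℤ)
    (i : Fin ((q + 1) * dedekindPsi M)) :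
    castL k (monoZ M q Y i)
      = castL k (Y (finProdFinEquiv.symm i).2) * jqModC k ^ ((finProdFinEquiv.symm i).1 : ℕ) := by
  rw [monoZ, map_mul, map_pow, Fermat.Agent.S28.H325.castL_jqModC]

/-- polynomial independence of the family `v i · J^a` over `k[J^(q+1)]`. -/
theorem polyIndep_tower {k : Type*} [Field k] {n : ℕ} (m : ℕ) (hm : 0 < m)
    (J : LaurentSeries k) (v : Fin n → LaurentSeries k) (hv : PolyIndep J v)
    (p : Fin (m * n) → Polynomial k)
    (h : ∑ i, aeval (J ^ m) (p i) *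
      (v (finProdFinEquiv.symm i).2 * J ^ ((finProdFinEquiv.symm i).1 : ℕ)) = 0)
    (i : Fin (m * n)) : p i = 0 := by
  have h1 : ∑ i' : Fin n, aeval J (∑ a : Fin m,
      expand k m (p (finProdFinEquiv (a, i'))) * X ^ (a : ℕ)) * v i' = 0 := by
    rw [← h]
    rw [Fintype.sum_equiv finProdFinEquiv.symm
      (fun i => aeval (J ^ m) (p i) *
        (v (finProdFinEquiv.symm i).2 * J ^ ((finProdFinEquiv.symm i).1 : ℕ)))
      (fun z : Fin m × Fin n => aeval (J ^ m) (p (finProdFinEquiv z)) * (v z.2 * J ^ (z.1 : ℕ)))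
      (fun i => by simp only [Equiv.apply_symm_apply])]
    rw [Fintype.sum_prod_type, Finset.sum_comm]
    refine Finset.sum_congr rfl fun i' _ => ?_
    rw [map_sum, Finset.sum_mul]
    refine Finset.sum_congr rfl fun a _ => ?_
    rw [map_mul, expand_aeval, map_pow, aeval_X]
    ring
  have h2 := hv _ h1 (finProdFinEquiv.symm i).2
  have h3 : p (finProdFinEquiv ((finProdFinEquiv.symm i).1, (finProdFinEquiv.symm i).2)) = 0 :=
    eq_zero_of_sum_expand_mul_X_pow hm
      (fun a => p (finProdFinEquiv (a, (finProdFinEquiv.symm i).2))) h2 (finProdFinEquiv.symm i).1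
  rwa [Prod.mk.eta, Equiv.apply_symm_apply] at h3

/-- `p̄ = 0 ⟹ w ∣ p`. -/
theorem C_dvd_of_map_residue_eq_zero {w : _root_.Fermat.Agent.A2.Mod.RE P E} (hdvr : IsDiscreteValuationRing (_root_.Fermat.Agent.A2.Mod.RE P E))
    (hw : Irreducible w) {p : Polynomial (_root_.Fermat.Agent.A2.Mod.RE P E)}
    (hp : p.map (IsLocalRing.residue (_root_.Fermat.Agent.A2.Mod.RE P E)) = 0) : Polynomial.C w ∣ p := by
  rw [Polynomial.C_dvd_iff_dvd_coeff]
  intro n
  have h1 : IsLocalRing.residue (_root_.Fermat.Agent.A2.Mod.RE P E) (p.coeff n) = 0 := by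
    have := congrArg (fun z => z.coeff n) hp
    simpa using this
  rw [IsLocalRing.residue_eq_zero_iff, hw.maximalIdeal_eq, Ideal.mem_span_singleton] at h1
  exact h1

/-! ## 6. the leaf -/

/-- **L9, strong form.**  There is a family `g` of `(q+1) ψ(M)` elements of `F_M`, integral
series (hence in every Gauss ring of level `M`), such that `α ∘ g` lies in `V∞` (level `M q`) and
is independent modulo `w` over `R[x]`, `x = j j_q`. -/
theorem indInf_strong (w : _root_.Fermat.Agent.A2.Mod.RE P E) (hS : Setting P E M q w) :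
    ∃ g : Fin ((q + 1) * dedekindPsi M) → _root_.Fermat.Agent.A2.Mod.FE E M,
      (∀ VM : ValuationSubring (_root_.Fermat.Agent.A2.Mod.FE E M), IsVinf P E M VM → ∀ i, g i ∈ VM) ∧
      ∀ V : ValuationSubring (_root_.Fermat.Agent.A2.Mod.FE E (M * q)), IsVinf P E (M * q) V →
        (∀ i, αE E M q (g i) ∈ V) ∧
        IndepMod P E (M * q) V w (xE E M q) (fun i => αE E M q (g i)) := by
  have hdvr := hS.dvr
  have : CharP (IsLocalRing.ResidueField (_root_.Fermat.Agent.A2.Mod.RE P E)) q :=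
    charP_residueField P E hS.q_prime hS.lies_over
  obtain ⟨Y, hY, hYi⟩ := exists_monomials M q hS.q_prime hS.q_not_dvd
    (IsLocalRing.ResidueField (_root_.Fermat.Agent.A2.Mod.RE P E))
  refine ⟨gFam E M q hY, fun VM hVM i => gFam_mem P E M q hY hVM i, fun V hV => ⟨fun i =>
    alpha_gFam_mem P E M q hY hV i, ?_⟩⟩
  intro a ha i
  -- the integral series of the relation
  set S : LaurentSeries (_root_.Fermat.Agent.A2.Mod.RE P E) :=
    ∑ i, aeval (H708.castA (_root_.Fermat.Agent.A2.Mod.RE P E) (xZ q)) (a i) * H708.castA (_root_.Fermat.Agent.A2.Mod.RE P E) (monoZ M q Y i) with hSdef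
  have hcoe : ((∑ i, ev P E (M * q) (xE E M q) (a i) * αE E M q (gFam E M q hY i) :
      _root_.Fermat.Agent.A2.Mod.FE E (M * q)) : LaurentSeries E) = H708.incl (_root_.Fermat.Agent.A2.Mod.RE P E) S := by
    rw [hSdef, map_sum, IntermediateField.coe_sum]
    refine Finset.sum_congr rfl fun i _ => ?_
    rw [IntermediateField.coe_mul, coe_ev P E (xE E M q) _ (coe_xE P E M q) (a i),
      coe_heckeAlphaBar, coe_gFam P, map_mul]
  have hw0 : w ≠ 0 := hS.unif.ne_zero
  have hwm : w ∈ IsLocalRing.maximalIdeal (_root_.Fermat.Agent.A2.Mod.RE P E) := by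
    rw [IsLocalRing.mem_maximalIdeal, mem_nonunits_iff]
    exact hS.unif.not_isUnit
  have hred := red_eq_zero_of_inW hV hw0 hwm hcoe ha
  rw [hSdef, map_sum] at hred
  have hred' : ∑ i, aeval (jqModC (IsLocalRing.ResidueField (_root_.Fermat.Agent.A2.Mod.RE P E)) ^ (q + 1))
      ((a i).map (IsLocalRing.residue (_root_.Fermat.Agent.A2.Mod.RE P E))) *
      (castL (IsLocalRing.ResidueField (_root_.Fermat.Agent.A2.Mod.RE P E)) (Y (finProdFinEquiv.symm i).2) *
        jqModC (IsLocalRing.ResidueField (_root_.Fermat.Agent.A2.Mod.RE P E)) ^ ((finProdFinEquiv.symm i).1 : ℕ)) = 0 := by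
    rw [← hred]
    refine Finset.sum_congr rfl fun i _ => ?_
    rw [map_mul, H708.red, Fermat.Agent.S28.H325.coeffMap_aeval, ← H708.red, red_castA, red_castA,
      castL_xZ q hS.q_prime, castL_monoZ]
  have hzero := polyIndep_tower (q + 1) (Nat.succ_pos q) _ _ hYi
    (fun i => (a i).map (IsLocalRing.residue (_root_.Fermat.Agent.A2.Mod.RE P E))) hred' i
  exact C_dvd_of_map_residue_eq_zero P E hdvr hS.unif hzero

end Main

/-- **L9** `IndInf` (exact shape of `Spec.IndInfStatement`). -/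
theorem indInf (P : ValuationSubring _root_.Fermat.Agent.A2.Mod.Qb) (E : IntermediateField ℚ _root_.Fermat.Agent.A2.Mod.Qb) (M q : ℕ) [NeZero q]
    (w : _root_.Fermat.Agent.A2.Mod.RE P E) : IndInfStatement P E M q w := by
  intro hS V hV
  have : NeZero M := ⟨hS.M_ne_zero⟩
  obtain ⟨g, -, hg⟩ := indInf_strong P E M q w hS
  exact ⟨fun i => αE E M q (g i), (hg V hV).1, (hg V hV).2⟩

end Fermat.Agent.A2.Mod.H753

end

end
-- ===== PACK-END A2/Mod/H753/IndInf.lean

-- ===== PACK-BEGIN A2/Mod/H753/IndZero.lean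
section






/-!
# A2 / MOD leaf L10 `IndZero` (helper753): residue independence on `C₀`

`V₀ = V∞ ∘ W` at level `N = M q`.  With `W x = j_M · j_{Mq}` (`x = j j_q`), reduction
`J^(q+1)`, `J = j̄(t^M)`, the family `d (a, i) = α(Z i · j_M^a)` (`Z i` = Fricke dual at level `M`
of the S28 monomial `Y i`, `0 ≤ a ≤ q`) lies in `V∞` and is independent modulo `w` over `R[W x]`;
`c := W ∘ d`.

* `inW_of_red_eq_zero` : converse of `red_eq_zero_of_inW`;
* `map_ev`, `inW_comap_iff` : transport along an `E`-automorphism;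
* `polyIndep_dual` : `PolyIndep J (Z̄ i)` from `PolyIndep j̄ (Ȳ i)` and L7 (level `M`);
* `indZero_of`, `indZero : IndZeroStatement P E M q w`;
* `indepMod_inv` : `IndepMod` for the coordinate `x⁻¹` from `IndepMod` for `x` (`x` a unit of `V`).
-/

set_option autoImplicit false
set_option synthInstance.maxHeartbeats 400000
set_option maxHeartbeats 1600000

noncomputable section

namespace Fermat.Agent.A2.Mod.H753

open ModularCurve HahnSeries Polynomial
open Fermat.Agent.S28 (intDivisorExpansions jField)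
open Fermat.Agent.S28.H325 (castL PolyIndep)

section Gen

variable (P : ValuationSubring _root_.Fermat.Agent.A2.Mod.Qb) (E : IntermediateField ℚ _root_.Fermat.Agent.A2.Mod.Qb)

/-- an integral series with zero reduction lies in `w V∞`. -/
theorem inW_of_red_eq_zero {N : ℕ} {V : ValuationSubring (_root_.Fermat.Agent.A2.Mod.FE E N)} (hV : IsVinf P E N V)
    {w : _root_.Fermat.Agent.A2.Mod.RE P E} (hdvr : IsDiscreteValuationRing (_root_.Fermat.Agent.A2.Mod.RE P E)) (hw : Irreducible w) {f : _root_.Fermat.Agent.A2.Mod.FE E N}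
    {S : LaurentSeries (_root_.Fermat.Agent.A2.Mod.RE P E)} (hS : (f : LaurentSeries E) = H708.incl (_root_.Fermat.Agent.A2.Mod.RE P E) S)
    (hred : H708.red (_root_.Fermat.Agent.A2.Mod.RE P E) S = 0) : InW P E N V w f := by
  have hw0 : w ≠ 0 := hw.ne_zero
  have hdiv : ∀ n, w ∣ S.coeff n := by
    intro n
    have h1 : IsLocalRing.residue (_root_.Fermat.Agent.A2.Mod.RE P E) (S.coeff n) = 0 := by
      have := congrArg (fun z => z.coeff n) hred
      simpa using this
    rw [IsLocalRing.residue_eq_zero_iff, hw.maximalIdeal_eq, Ideal.mem_span_singleton] at h1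
    exact h1
  obtain ⟨U', hU'⟩ := H549.exists_cstA_mul_eq w hw0 S hdiv
  have hwE : ((w : E)) ≠ 0 := fun h0 => hw0 (Subtype.ext h0)
  have hc : H708.cst (w : E) ≠ 0 := H708.cst_ne_zero hwE
  have hcoe : (((f * (cE P E N w)⁻¹ : _root_.Fermat.Agent.A2.Mod.FE E N)) : LaurentSeries E) = H708.incl (_root_.Fermat.Agent.A2.Mod.RE P E) U' := by
    rw [IntermediateField.coe_mul, IntermediateField.coe_inv, hS, ← hU', map_mul, H708.incl_cstA]
    show H708.cst (w : E) * _ * (H708.cst (w : E))⁻¹ = _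
    field_simp
  show f * (cE P E N w)⁻¹ ∈ V
  rw [hV, hcoe]
  exact H708.IsGaussInt.of_incl _

variable {P E}

theorem map_ev {N : ℕ} (W : _root_.Fermat.Agent.A2.Mod.FE E N ≃ₐ[E] _root_.Fermat.Agent.A2.Mod.FE E N) (x : _root_.Fermat.Agent.A2.Mod.FE E N) (p : Polynomial (_root_.Fermat.Agent.A2.Mod.RE P E)) :
    W (ev P E N x p) = ev P E N (W x) p := by
  have h := Polynomial.hom_eval₂ p ((algebraMap E (_root_.Fermat.Agent.A2.Mod.FE E N)).comp (_root_.Fermat.Agent.A2.Mod.RE P E).subtype)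
    (W : _root_.Fermat.Agent.A2.Mod.FE E N →+* _root_.Fermat.Agent.A2.Mod.FE E N) x
  have h2 : ((W : _root_.Fermat.Agent.A2.Mod.FE E N →+* _root_.Fermat.Agent.A2.Mod.FE E N).comp ((algebraMap E (_root_.Fermat.Agent.A2.Mod.FE E N)).comp (_root_.Fermat.Agent.A2.Mod.RE P E).subtype))
      = (algebraMap E (_root_.Fermat.Agent.A2.Mod.FE E N)).comp (_root_.Fermat.Agent.A2.Mod.RE P E).subtype :=
    RingHom.ext fun r => W.commutes _
  rw [h2] at h
  exact h

theorem inW_comap_iff {N : ℕ} (V : ValuationSubring (_root_.Fermat.Agent.A2.Mod.FE E N)) (W : _root_.Fermat.Agent.A2.Mod.FE E N ≃ₐ[E] _root_.Fermat.Agent.A2.Mod.FE E N)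
    (w : _root_.Fermat.Agent.A2.Mod.RE P E) (f : _root_.Fermat.Agent.A2.Mod.FE E N) :
    InW P E N (V.comap (W : _root_.Fermat.Agent.A2.Mod.FE E N →+* _root_.Fermat.Agent.A2.Mod.FE E N)) w f ↔ InW P E N V w (W f) := by
  have h1 : W (f * (cE P E N w)⁻¹) = W f * (cE P E N w)⁻¹ := by
    rw [map_mul, map_inv₀]
    congr 2
    exact W.commutes _
  show (W : _root_.Fermat.Agent.A2.Mod.FE E N →+* _root_.Fermat.Agent.A2.Mod.FE E N) (f * (cE P E N w)⁻¹) ∈ V ↔ W f * (cE P E N w)⁻¹ ∈ V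
  rw [← h1]
  rfl

theorem coe_jE_incl (N d : ℕ) [NeZero d] (hd : d ∣ N) :
    ((jE E N d hd : _root_.Fermat.Agent.A2.Mod.FE E N) : LaurentSeries E)
      = H708.incl (_root_.Fermat.Agent.A2.Mod.RE P E) (H708.castA (_root_.Fermat.Agent.A2.Mod.RE P E) (qExpand ℤ d (jqModC ℤ))) := by
  rw [H708.incl_castA, H708.castQ, coeffMap_qExpand, ← H708.castQ, castQ_jqModC]
  rfl

end Gen

/-! ## relations of integral series and their reductions -/

section Rel

variable (P : ValuationSubring _root_.Fermat.Agent.A2.Mod.Qb) (E : IntermediateField ℚ _root_.Fermat.Agent.A2.Mod.Qb)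

/-- the series of `∑ aᵢ(u) hᵢ` for integer series `u`, `hᵢ`. -/
theorem coe_sum_ev {N n : ℕ} (u : _root_.Fermat.Agent.A2.Mod.FE E N) (U : LaurentSeries ℤ)
    (hu : (u : LaurentSeries E) = H708.incl (_root_.Fermat.Agent.A2.Mod.RE P E) (H708.castA (_root_.Fermat.Agent.A2.Mod.RE P E) U))
    (h : Fin n → _root_.Fermat.Agent.A2.Mod.FE E N) (Z : Fin n → LaurentSeries ℤ)
    (hh : ∀ i, (h i : LaurentSeries E) = H708.incl (_root_.Fermat.Agent.A2.Mod.RE P E) (H708.castA (_root_.Fermat.Agent.A2.Mod.RE P E) (Z i)))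
    (a : Fin n → Polynomial (_root_.Fermat.Agent.A2.Mod.RE P E)) :
    ((∑ i, ev P E N u (a i) * h i : _root_.Fermat.Agent.A2.Mod.FE E N) : LaurentSeries E)
      = H708.incl (_root_.Fermat.Agent.A2.Mod.RE P E)
        (∑ i, aeval (H708.castA (_root_.Fermat.Agent.A2.Mod.RE P E) U) (a i) * H708.castA (_root_.Fermat.Agent.A2.Mod.RE P E) (Z i)) := by
  rw [map_sum, IntermediateField.coe_sum]
  refine Finset.sum_congr rfl fun i _ => ?_
  rw [IntermediateField.coe_mul, coe_ev P E u _ hu (a i), hh i, map_mul]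

theorem red_sum_aeval {n : ℕ} (U : LaurentSeries ℤ) (Z : Fin n → LaurentSeries ℤ)
    (a : Fin n → Polynomial (_root_.Fermat.Agent.A2.Mod.RE P E)) :
    H708.red (_root_.Fermat.Agent.A2.Mod.RE P E)
        (∑ i, aeval (H708.castA (_root_.Fermat.Agent.A2.Mod.RE P E) U) (a i) * H708.castA (_root_.Fermat.Agent.A2.Mod.RE P E) (Z i))
      = ∑ i, aeval (castL (IsLocalRing.ResidueField (_root_.Fermat.Agent.A2.Mod.RE P E)) U)
          ((a i).map (IsLocalRing.residue (_root_.Fermat.Agent.A2.Mod.RE P E))) *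
          castL (IsLocalRing.ResidueField (_root_.Fermat.Agent.A2.Mod.RE P E)) (Z i) := by
  rw [map_sum]
  refine Finset.sum_congr rfl fun i _ => ?_
  rw [map_mul, H708.red, Fermat.Agent.S28.H325.coeffMap_aeval, ← H708.red, red_castA, red_castA]

/-- a relation in `w V∞` between integer series reduces to a relation over `k`. -/
theorem relation_red {N n : ℕ} {V : ValuationSubring (_root_.Fermat.Agent.A2.Mod.FE E N)} (hV : IsVinf P E N V)
    {w : _root_.Fermat.Agent.A2.Mod.RE P E} (hw : Irreducible w)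
    (u : _root_.Fermat.Agent.A2.Mod.FE E N) (U : LaurentSeries ℤ)
    (hu : (u : LaurentSeries E) = H708.incl (_root_.Fermat.Agent.A2.Mod.RE P E) (H708.castA (_root_.Fermat.Agent.A2.Mod.RE P E) U))
    (h : Fin n → _root_.Fermat.Agent.A2.Mod.FE E N) (Z : Fin n → LaurentSeries ℤ)
    (hh : ∀ i, (h i : LaurentSeries E) = H708.incl (_root_.Fermat.Agent.A2.Mod.RE P E) (H708.castA (_root_.Fermat.Agent.A2.Mod.RE P E) (Z i)))
    (a : Fin n → Polynomial (_root_.Fermat.Agent.A2.Mod.RE P E))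
    (hin : InW P E N V w (∑ i, ev P E N u (a i) * h i)) :
    ∑ i, aeval (castL (IsLocalRing.ResidueField (_root_.Fermat.Agent.A2.Mod.RE P E)) U)
        ((a i).map (IsLocalRing.residue (_root_.Fermat.Agent.A2.Mod.RE P E))) *
        castL (IsLocalRing.ResidueField (_root_.Fermat.Agent.A2.Mod.RE P E)) (Z i) = 0 := by
  have hwm : w ∈ IsLocalRing.maximalIdeal (_root_.Fermat.Agent.A2.Mod.RE P E) := by
    rw [IsLocalRing.mem_maximalIdeal, mem_nonunits_iff]
    exact hw.not_isUnit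
  rw [← red_sum_aeval]
  exact red_eq_zero_of_inW hV hw.ne_zero hwm (coe_sum_ev P E u U hu h Z hh a) hin

/-- a relation over `k` between reductions of integer series lifts to a relation in `w V∞`. -/
theorem relation_inW {N n : ℕ} {V : ValuationSubring (_root_.Fermat.Agent.A2.Mod.FE E N)} (hV : IsVinf P E N V)
    {w : _root_.Fermat.Agent.A2.Mod.RE P E} (hdvr : IsDiscreteValuationRing (_root_.Fermat.Agent.A2.Mod.RE P E)) (hw : Irreducible w)
    (u : _root_.Fermat.Agent.A2.Mod.FE E N) (U : LaurentSeries ℤ)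
    (hu : (u : LaurentSeries E) = H708.incl (_root_.Fermat.Agent.A2.Mod.RE P E) (H708.castA (_root_.Fermat.Agent.A2.Mod.RE P E) U))
    (h : Fin n → _root_.Fermat.Agent.A2.Mod.FE E N) (Z : Fin n → LaurentSeries ℤ)
    (hh : ∀ i, (h i : LaurentSeries E) = H708.incl (_root_.Fermat.Agent.A2.Mod.RE P E) (H708.castA (_root_.Fermat.Agent.A2.Mod.RE P E) (Z i)))
    (a : Fin n → Polynomial (_root_.Fermat.Agent.A2.Mod.RE P E))
    (hrel : ∑ i, aeval (castL (IsLocalRing.ResidueField (_root_.Fermat.Agent.A2.Mod.RE P E)) U)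
        ((a i).map (IsLocalRing.residue (_root_.Fermat.Agent.A2.Mod.RE P E))) *
        castL (IsLocalRing.ResidueField (_root_.Fermat.Agent.A2.Mod.RE P E)) (Z i) = 0) :
    InW P E N V w (∑ i, ev P E N u (a i) * h i) := by
  rw [← red_sum_aeval] at hrel
  exact inW_of_red_eq_zero P E hV hdvr hw (coe_sum_ev P E u U hu h Z hh a) hrel

end Rel

/-! ## the Fricke-dual family at level `M` -/

section Dual

variable (P : ValuationSubring _root_.Fermat.Agent.A2.Mod.Qb) (E : IntermediateField ℚ _root_.Fermat.Agent.A2.Mod.Qb) (M q : ℕ) [NeZero M] [NeZero q]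

/-- **dual independence.**  If `W_M hᵢ = gᵢ` (integer series `Zᵢ`, `Yᵢ`) and the `Ȳᵢ` are
polynomially independent over `k[j̄]`, then the `Z̄ᵢ` are polynomially independent over
`k[j̄_M]`. -/
theorem polyIndep_dual (w : _root_.Fermat.Agent.A2.Mod.RE P E) (hS : Setting P E M q w)
    (WM : _root_.Fermat.Agent.A2.Mod.FE E M ≃ₐ[E] _root_.Fermat.Agent.A2.Mod.FE E M) (hWM : IsFricke E M WM)
    (VM : ValuationSubring (_root_.Fermat.Agent.A2.Mod.FE E M)) (hVM : IsVinf P E M VM)
    {n : ℕ} (g h : Fin n → _root_.Fermat.Agent.A2.Mod.FE E M) (Y Z : Fin n → LaurentSeries ℤ)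
    (hg : ∀ i, (g i : LaurentSeries E) = H708.incl (_root_.Fermat.Agent.A2.Mod.RE P E) (H708.castA (_root_.Fermat.Agent.A2.Mod.RE P E) (Y i)))
    (hh : ∀ i, (h i : LaurentSeries E) = H708.incl (_root_.Fermat.Agent.A2.Mod.RE P E) (H708.castA (_root_.Fermat.Agent.A2.Mod.RE P E) (Z i)))
    (hgh : ∀ i, WM (h i) = g i)
    (hY : PolyIndep (jqModC (IsLocalRing.ResidueField (_root_.Fermat.Agent.A2.Mod.RE P E)))
      (fun i => castL (IsLocalRing.ResidueField (_root_.Fermat.Agent.A2.Mod.RE P E)) (Y i))) :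
    PolyIndep (castL (IsLocalRing.ResidueField (_root_.Fermat.Agent.A2.Mod.RE P E)) (qExpand ℤ M (jqModC ℤ)))
      (fun i => castL (IsLocalRing.ResidueField (_root_.Fermat.Agent.A2.Mod.RE P E)) (Z i)) := by
  intro Pb hPb
  have hsurj : ∀ i, ∃ p : Polynomial (_root_.Fermat.Agent.A2.Mod.RE P E), p.map (IsLocalRing.residue (_root_.Fermat.Agent.A2.Mod.RE P E)) = Pb i :=
    fun i => Polynomial.map_surjective _ IsLocalRing.residue_surjective (Pb i)
  choose p hp using hsurj
  have hrel : ∑ i, aeval (castL (IsLocalRing.ResidueField (_root_.Fermat.Agent.A2.Mod.RE P E)) (qExpand ℤ M (jqModC ℤ)))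
      ((p i).map (IsLocalRing.residue (_root_.Fermat.Agent.A2.Mod.RE P E))) *
      castL (IsLocalRing.ResidueField (_root_.Fermat.Agent.A2.Mod.RE P E)) (Z i) = 0 := by
    rw [← hPb]
    exact Finset.sum_congr rfl fun i _ => by rw [hp i]
  have h1 := relation_inW P E hVM hS.dvr hS.unif (jE E M M dvd_rfl) _
    (coe_jE_incl M M dvd_rfl) h Z hh p hrel
  have h2 : InW P E M VM w (WM (∑ i, ev P E M (jE E M M dvd_rfl) (p i) * h i)) := by
    rw [← inW_comap_iff]
    exact H900.frickeStable P E M q w hS VM WM hVM hWM _ h1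
  have h3 : WM (∑ i, ev P E M (jE E M M dvd_rfl) (p i) * h i)
      = ∑ i, ev P E M (jE E M 1 (one_dvd M)) (p i) * g i := by
    rw [map_sum]
    refine Finset.sum_congr rfl fun i _ => ?_
    rw [map_mul, map_ev, hgh i, hWM.1 M 1 dvd_rfl (one_dvd M) (mul_one M)]
  rw [h3] at h2
  have h4 := relation_red P E hVM hS.unif (jE E M 1 (one_dvd M)) _
    (coe_jE_incl M 1 (one_dvd M)) g Y hg p h2
  rw [qExpand_one_apply, Fermat.Agent.S28.H325.castL_jqModC] at h4
  intro i
  rw [← hp i]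
  exact hY _ h4 i

end Dual

/-! ## the leaf L10 -/

section MainZero

variable (P : ValuationSubring _root_.Fermat.Agent.A2.Mod.Qb) (E : IntermediateField ℚ _root_.Fermat.Agent.A2.Mod.Qb) (M q : ℕ) [NeZero q]

theorem incl_castA_eq (y : LaurentSeries ℤ) :
    H708.incl (_root_.Fermat.Agent.A2.Mod.RE P E) (H708.castA (_root_.Fermat.Agent.A2.Mod.RE P E) y) = coeffMap (Int.castRingHom E) y := by
  rw [H708.incl, H708.castA, coeffMap_coeffMap]
  exact coeffMap_congr (RingHom.ext_int _ _) y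

/-- Frobenius for an arbitrary integer series: `x̄(t^q) = x̄(t)^q` in characteristic `q`. -/
theorem castL_qExpand_pow (hq : q.Prime) (k : Type*) [Field k] [CharP k q]
    (x : LaurentSeries ℤ) : castL k (qExpand ℤ q x) = castL k x ^ q := by
  have : Fact q.Prime := ⟨hq⟩
  obtain ⟨g, hg⟩ := H528.exists_frobCong q x
  have h1 : qExpand ℤ q x = x ^ q + HahnSeries.C (q : ℤ) * g := by
    rw [← hg]; ring
  have h2 : castL k (HahnSeries.C (q : ℤ)) = 0 := by
    ext n
    rw [castL, coeffMap_coeff, HahnSeries.coeff_zero, HahnSeries.C_apply,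
      HahnSeries.coeff_single]
    split_ifs
    · rw [eq_intCast, Int.cast_natCast, CharP.cast_eq_zero k q]
    · rw [map_zero]
  rw [h1, map_add, map_mul, h2, zero_mul, add_zero, map_pow]

/-- **L10, strong form**: the family `d` lies in `V∞`, is independent modulo `w` over `R[W x]`,
and `c = W ∘ d`. -/
theorem indZero_strong (w : _root_.Fermat.Agent.A2.Mod.RE P E) (hS : Setting P E M q w)
    (V : ValuationSubring (_root_.Fermat.Agent.A2.Mod.FE E (M * q))) (W : _root_.Fermat.Agent.A2.Mod.FE E (M * q) ≃ₐ[E] _root_.Fermat.Agent.A2.Mod.FE E (M * q))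
    (hV : IsVinf P E (M * q) V) (hW : IsFricke E (M * q) W) :
    ∃ d : Fin ((q + 1) * dedekindPsi M) → _root_.Fermat.Agent.A2.Mod.FE E (M * q),
      (∀ i, d i ∈ V) ∧ IndepMod P E (M * q) V w (W (xE E M q)) d ∧
      IndepMod P E (M * q) (V.comap (W : _root_.Fermat.Agent.A2.Mod.FE E (M * q) →+* _root_.Fermat.Agent.A2.Mod.FE E (M * q))) w (xE E M q)
        (fun i => W (d i)) := by
  have hM : NeZero M := ⟨hS.M_ne_zero⟩
  have hMq : NeZero (M * q) := ⟨mul_ne_zero hS.M_ne_zero (NeZero.ne q)⟩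
  have hchar : CharP (IsLocalRing.ResidueField (_root_.Fermat.Agent.A2.Mod.RE P E)) q :=
    charP_residueField P E hS.q_prime hS.lies_over
  obtain ⟨Y, hY, hYi⟩ := exists_monomials M q hS.q_prime hS.q_not_dvd
    (IsLocalRing.ResidueField (_root_.Fermat.Agent.A2.Mod.RE P E))
  obtain ⟨VM, hVM⟩ := H553.vinfExists P E M hS.M_ne_zero hS.dvr
  obtain ⟨WM, hWM⟩ := H751.frickeExists E M hS.M_ne_zero
  have hW' : H900.FrickeOnGens M WM := fun d d' _ _ hd hd' h => hWM.1 d d' hd hd' h
  have hsub : Submonoid.closure (intDivisorExpansions M) ≤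
      (Subring.closure (intDivisorExpansions M)).toSubmonoid := by
    rw [Submonoid.closure_le]
    exact Subring.subset_closure
  have hex : ∀ i, ∃ (g : _root_.Fermat.Agent.A2.Mod.FE E M) (Z : LaurentSeries ℤ),
      (g : LaurentSeries E) = H900.castL E (Y i) ∧
      ((WM g : _root_.Fermat.Agent.A2.Mod.FE E M) : LaurentSeries E) = H900.castL E Z :=
    fun i => H900.exists_int_of_closure hW' (hsub (hY i))
  choose g Z hg hZ using hex
  have hgi : ∀ i, (g i : LaurentSeries E)
      = H708.incl (_root_.Fermat.Agent.A2.Mod.RE P E) (H708.castA (_root_.Fermat.Agent.A2.Mod.RE P E) (Y i)) := fun i => by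
    rw [incl_castA_eq]; exact hg i
  have hhi : ∀ i, ((WM (g i) : _root_.Fermat.Agent.A2.Mod.FE E M) : LaurentSeries E)
      = H708.incl (_root_.Fermat.Agent.A2.Mod.RE P E) (H708.castA (_root_.Fermat.Agent.A2.Mod.RE P E) (Z i)) := fun i => by
    rw [incl_castA_eq]; exact hZ i
  have hdual := polyIndep_dual P E M q w hS WM hWM VM hVM g (fun i => WM (g i)) Y Z hgi hhi
    (fun i => hWM.2 (g i)) hYi
  -- the family at level `M q`
  set d : Fin ((q + 1) * dedekindPsi M) → _root_.Fermat.Agent.A2.Mod.FE E (M * q) := fun i =>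
    αE E M q (WM (g (finProdFinEquiv.symm i).2) *
      (jE E M M dvd_rfl) ^ ((finProdFinEquiv.symm i).1 : ℕ)) with hd
  have hdcoe : ∀ i, (d i : LaurentSeries E) = H708.incl (_root_.Fermat.Agent.A2.Mod.RE P E) (H708.castA (_root_.Fermat.Agent.A2.Mod.RE P E)
      (Z (finProdFinEquiv.symm i).2 *
        (qExpand ℤ M (jqModC ℤ)) ^ ((finProdFinEquiv.symm i).1 : ℕ))) := fun i => by
    rw [hd, coe_heckeAlphaBar, IntermediateField.coe_mul, IntermediateField.coe_pow, hhi,
      coe_jE_incl (P := P) M M dvd_rfl, map_mul, map_mul, map_pow, map_pow]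
  have hdV : ∀ i, d i ∈ V := fun i => by
    rw [hV, hdcoe]
    exact H708.IsGaussInt.of_incl _
  have hWx : W (xE E M q) = jE E (M * q) (M * q) dvd_rfl * jE E (M * q) M (dvd_mul_right M q) := by
    rw [xE, map_mul, hW.1 1 (M * q) (one_dvd _) dvd_rfl (one_mul _),
      hW.1 q M (dvd_mul_left q M) (dvd_mul_right M q) (mul_comm q M)]
  have hWxcoe : ((W (xE E M q) : _root_.Fermat.Agent.A2.Mod.FE E (M * q)) : LaurentSeries E)
      = H708.incl (_root_.Fermat.Agent.A2.Mod.RE P E) (H708.castA (_root_.Fermat.Agent.A2.Mod.RE P E)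
        (qExpand ℤ (M * q) (jqModC ℤ) * qExpand ℤ M (jqModC ℤ))) := by
    rw [hWx, IntermediateField.coe_mul, coe_jE_incl (P := P) (M * q) (M * q) dvd_rfl,
      coe_jE_incl (P := P) (M * q) M (dvd_mul_right M q), map_mul, map_mul]
  have hXW : castL (IsLocalRing.ResidueField (_root_.Fermat.Agent.A2.Mod.RE P E))
      (qExpand ℤ (M * q) (jqModC ℤ) * qExpand ℤ M (jqModC ℤ))
      = castL (IsLocalRing.ResidueField (_root_.Fermat.Agent.A2.Mod.RE P E)) (qExpand ℤ M (jqModC ℤ)) ^ (q + 1) := by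
    have h1 : qExpand ℤ (M * q) (jqModC ℤ) = qExpand ℤ q (qExpand ℤ M (jqModC ℤ)) := by
      rw [qExpand_qExpand]
      exact qExpand_congr (mul_comm M q) _
    rw [map_mul, h1, castL_qExpand_pow q hS.q_prime, pow_succ]
  have hind : IndepMod P E (M * q) V w (W (xE E M q)) d := by
    intro a ha i
    have h1 := relation_red P E hV hS.unif (W (xE E M q)) _ hWxcoe d _ hdcoe a ha
    rw [hXW] at h1
    have h2 : ∑ i, aeval (castL (IsLocalRing.ResidueField (_root_.Fermat.Agent.A2.Mod.RE P E))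
          (qExpand ℤ M (jqModC ℤ)) ^ (q + 1))
        ((a i).map (IsLocalRing.residue (_root_.Fermat.Agent.A2.Mod.RE P E))) *
        (castL (IsLocalRing.ResidueField (_root_.Fermat.Agent.A2.Mod.RE P E)) (Z (finProdFinEquiv.symm i).2) *
          castL (IsLocalRing.ResidueField (_root_.Fermat.Agent.A2.Mod.RE P E)) (qExpand ℤ M (jqModC ℤ))
            ^ ((finProdFinEquiv.symm i).1 : ℕ)) = 0 := by
      rw [← h1]
      refine Finset.sum_congr rfl fun i _ => ?_
      rw [map_mul, map_pow]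
    have hzero := polyIndep_tower (q + 1) (Nat.succ_pos q) _ _ hdual
      (fun i => (a i).map (IsLocalRing.residue (_root_.Fermat.Agent.A2.Mod.RE P E))) h2 i
    exact C_dvd_of_map_residue_eq_zero P E hS.dvr hS.unif hzero
  refine ⟨d, hdV, hind, ?_⟩
  intro a ha i
  rw [inW_comap_iff] at ha
  have h3 : W (∑ i, ev P E (M * q) (xE E M q) (a i) * W (d i))
      = ∑ i, ev P E (M * q) (W (xE E M q)) (a i) * d i := by
    rw [map_sum]
    refine Finset.sum_congr rfl fun i _ => ?_
    rw [map_mul, map_ev, hW.2]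
  rw [h3] at ha
  exact hind a ha i

/-- **L10** `IndZero` (exact shape of `Spec.IndZeroStatement`). -/
theorem indZero (w : _root_.Fermat.Agent.A2.Mod.RE P E) : IndZeroStatement P E M q w := by
  intro hS V W hV hW
  obtain ⟨d, hdV, -, hc⟩ := indZero_strong P E M q w hS V W hV hW
  refine ⟨fun i => W (d i), fun i => ?_, hc⟩
  rw [hW.2]
  exact hdV i

end MainZero

/-! ## the coordinate `x⁻¹` (chart at infinity): the reverse trick -/

section Inv

variable (P : ValuationSubring _root_.Fermat.Agent.A2.Mod.Qb) (E : IntermediateField ℚ _root_.Fermat.Agent.A2.Mod.Qb)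

theorem ev_reflect {N : ℕ} (x : _root_.Fermat.Agent.A2.Mod.FE E N) (hx : x ≠ 0) (D : ℕ) (p : Polynomial (_root_.Fermat.Agent.A2.Mod.RE P E))
    (hp : p.natDegree ≤ D) :
    ev P E N x (p.reflect D) = ev P E N x⁻¹ p * x ^ D := by
  letI : Invertible (x⁻¹) := ⟨x, mul_inv_cancel₀ hx, inv_mul_cancel₀ hx⟩
  have h := Polynomial.eval₂_reflect_mul_pow
    ((algebraMap E (_root_.Fermat.Agent.A2.Mod.FE E N)).comp (_root_.Fermat.Agent.A2.Mod.RE P E).subtype) (x⁻¹) D p hp
  have h2 : ⅟(x⁻¹) = x := rfl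
  rw [h2] at h
  have h3 : ev P E N x (p.reflect D) * (x⁻¹) ^ D * x ^ D = ev P E N x⁻¹ p * x ^ D := by
    rw [ev, ev, h]
  rw [← h3, mul_assoc, ← mul_pow, inv_mul_cancel₀ hx, one_pow, mul_one]

theorem C_dvd_of_C_dvd_reflect {w : _root_.Fermat.Agent.A2.Mod.RE P E} {D : ℕ} {p : Polynomial (_root_.Fermat.Agent.A2.Mod.RE P E)}
    (h : Polynomial.C w ∣ p.reflect D) : Polynomial.C w ∣ p := by
  rw [Polynomial.C_dvd_iff_dvd_coeff] at h ⊢
  intro j
  have := h (Polynomial.revAt D j)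
  rwa [Polynomial.coeff_reflect, Polynomial.revAt_invol] at this

/-- **reverse trick.**  Independence modulo `w` over `R[x]` implies independence modulo `w` over
`R[x⁻¹]`, for `x ∈ V`. -/
theorem indepMod_inv {N n : ℕ} (V : ValuationSubring (_root_.Fermat.Agent.A2.Mod.FE E N)) (w : _root_.Fermat.Agent.A2.Mod.RE P E) (x : _root_.Fermat.Agent.A2.Mod.FE E N)
    (hx : x ∈ V) (b : Fin n → _root_.Fermat.Agent.A2.Mod.FE E N) (h : IndepMod P E N V w x b) :
    IndepMod P E N V w x⁻¹ b := by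
  by_cases hx0 : x = 0
  · rw [hx0, inv_zero]
    rw [hx0] at h
    exact h
  intro a ha i
  set D : ℕ := Finset.univ.sup (fun i => (a i).natDegree) with hD
  have hdeg : ∀ i, (a i).natDegree ≤ D := fun i =>
    Finset.le_sup (f := fun i => (a i).natDegree) (Finset.mem_univ i)
  have h1 : ∑ i, ev P E N x ((a i).reflect D) * b i
      = (∑ i, ev P E N x⁻¹ (a i) * b i) * x ^ D := by
    rw [Finset.sum_mul]
    refine Finset.sum_congr rfl fun i _ => ?_
    rw [ev_reflect P E x hx0 D (a i) (hdeg i)]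
    ring
  have h2 : InW P E N V w (∑ i, ev P E N x ((a i).reflect D) * b i) := by
    rw [h1]
    show (∑ i, ev P E N x⁻¹ (a i) * b i) * x ^ D * (cE P E N w)⁻¹ ∈ V
    have h3 : (∑ i, ev P E N x⁻¹ (a i) * b i) * x ^ D * (cE P E N w)⁻¹
        = ((∑ i, ev P E N x⁻¹ (a i) * b i) * (cE P E N w)⁻¹) * x ^ D := by ring
    rw [h3]
    exact mul_mem ha (pow_mem hx D)
  exact C_dvd_of_C_dvd_reflect P E (h _ h2 i)

end Inv

end Fermat.Agent.A2.Mod.H753

end

end
-- ===== PACK-END A2/Mod/H753/IndZero.lean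

-- ===== PACK-BEGIN A2/Mod/H489/S1.lean
section



/-!
# WALL A2 / MODASM — sub-assembly S1 (helper489): the two components of both charts

`s1_of_leaves : L2 → L6 → L8 → L9 → L10 → S1Statement P E M q w`
(`Fermat/Agent/A2/Mod/Asm.lean`, statement VERBATIM; the leaves are the `…Statement`s of
`Fermat/Agent/A2/Mod/Spec.lean`, VERBATIM; L3 is not needed: the Gauss property of `V∞` and `V₀`
on `E(x)` follows from the residue independence L9 / L10).

Proof: `H489.frame_exists_components` (chart of `x`) and `H489.frame_exists_components_inv`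
(chart of `x⁻¹`), i.e. helper48's `GaussPairLe.qep2` + incomparability by weak approximation.
-/

set_option autoImplicit false
set_option linter.unusedSectionVars false
set_option linter.style.haveILetI false
set_option synthInstance.maxHeartbeats 400000
set_option maxHeartbeats 1600000

noncomputable section

namespace Fermat.Agent.A2.Mod.H489

open ModularCurve HahnSeries Polynomial IsLocalRing
open Fermat.Agent.A2 Fermat.Agent.A2.Mod

variable (P : ValuationSubring _root_.Fermat.Agent.A2.Mod.Qb) (E : IntermediateField ℚ _root_.Fermat.Agent.A2.Mod.Qb) (N : ℕ)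

/-- `ev` is `aeval`. -/
theorem ev_eq_aeval (x : _root_.Fermat.Agent.A2.Mod.FE E N) (a : Polynomial (_root_.Fermat.Agent.A2.Mod.RE P E)) :
    ev P E N x a = aeval x a := rfl

/-- `cE` is the structure map. -/
theorem cE_eq_algebraMap (r : _root_.Fermat.Agent.A2.Mod.RE P E) : cE P E N r = algebraMap (_root_.Fermat.Agent.A2.Mod.RE P E) (_root_.Fermat.Agent.A2.Mod.FE E N) r := rfl

variable {P E N}

/-- `InW` in terms of the maximal ideal. -/
theorem inW_iff_mem_nonunits {V : ValuationSubring (_root_.Fermat.Agent.A2.Mod.FE E N)} {w : _root_.Fermat.Agent.A2.Mod.RE P E}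
    (hu : H48.IsUnif V (algebraMap (_root_.Fermat.Agent.A2.Mod.RE P E) (_root_.Fermat.Agent.A2.Mod.FE E N) w)) (f : _root_.Fermat.Agent.A2.Mod.FE E N) :
    InW P E N V w f ↔ f ∈ V.nonunits := by
  rw [ValuationSubring.mem_nonunits_iff, ← hu.mul_inv_mem_iff]
  rfl

/-- the uniformiser is a uniformiser of `V ∘ W` for every `E`-automorphism `W` -/
theorem isUnif_comap {V : ValuationSubring (_root_.Fermat.Agent.A2.Mod.FE E N)} {w : _root_.Fermat.Agent.A2.Mod.RE P E}
    (hu : H48.IsUnif V (algebraMap (_root_.Fermat.Agent.A2.Mod.RE P E) (_root_.Fermat.Agent.A2.Mod.FE E N) w)) (W : _root_.Fermat.Agent.A2.Mod.FE E N ≃ₐ[E] _root_.Fermat.Agent.A2.Mod.FE E N) :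
    H48.IsUnif (V.comap (W : _root_.Fermat.Agent.A2.Mod.FE E N →+* _root_.Fermat.Agent.A2.Mod.FE E N)) (algebraMap (_root_.Fermat.Agent.A2.Mod.RE P E) (_root_.Fermat.Agent.A2.Mod.FE E N) w) := by
  have hW : W (algebraMap (_root_.Fermat.Agent.A2.Mod.RE P E) (_root_.Fermat.Agent.A2.Mod.FE E N) w) = algebraMap (_root_.Fermat.Agent.A2.Mod.RE P E) (_root_.Fermat.Agent.A2.Mod.FE E N) w :=
    W.commutes (w : E)
  refine ⟨?_, ?_, ?_⟩
  · show W _ ∈ V
    rw [hW]
    exact hu.mem
  · show ¬ W _ ∈ V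
    rw [map_inv₀, hW]
    exact hu.inv_not_mem
  · intro f hf hfinv
    show W _ ∈ V
    rw [map_mul, map_inv₀, hW]
    refine hu.gen (W f) hf ?_
    intro h
    apply hfinv
    show W _ ∈ V
    rw [map_inv₀]
    exact h

/-- `V` lies over `R_E`. -/
theorem isOver_of_unif [IsDiscreteValuationRing (_root_.Fermat.Agent.A2.Mod.RE P E)] {V : ValuationSubring (_root_.Fermat.Agent.A2.Mod.FE E N)}
    {w : _root_.Fermat.Agent.A2.Mod.RE P E} (hw : Irreducible w)
    (hu : H48.IsUnif V (algebraMap (_root_.Fermat.Agent.A2.Mod.RE P E) (_root_.Fermat.Agent.A2.Mod.FE E N) w))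
    (hmem : ∀ r : _root_.Fermat.Agent.A2.Mod.RE P E, algebraMap (_root_.Fermat.Agent.A2.Mod.RE P E) (_root_.Fermat.Agent.A2.Mod.FE E N) r ∈ V) :
    Fermat.Agent.A2.H489.IsOver (_root_.Fermat.Agent.A2.Mod.RE P E) V where
  mem := hmem
  nonunit := by
    intro r hr
    rw [hw.maximalIdeal_eq, Ideal.mem_span_singleton] at hr
    obtain ⟨r', rfl⟩ := hr
    rw [map_mul, mul_comm]
    exact Fermat.Agent.A2.H489.mem_mul_nonunits (hmem r')
      ((ValuationSubring.mem_nonunits_iff V).mpr hu.val_lt_one)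

/-- `IndepMod` (Spec) gives `PolyIndepMod` (frame). -/
theorem polyIndepMod_of_indepMod [IsDiscreteValuationRing (_root_.Fermat.Agent.A2.Mod.RE P E)]
    {V : ValuationSubring (_root_.Fermat.Agent.A2.Mod.FE E N)} {w : _root_.Fermat.Agent.A2.Mod.RE P E} (hw : Irreducible w)
    (hu : H48.IsUnif V (algebraMap (_root_.Fermat.Agent.A2.Mod.RE P E) (_root_.Fermat.Agent.A2.Mod.FE E N) w)) {x : _root_.Fermat.Agent.A2.Mod.FE E N} {n : ℕ}
    {b : Fin n → _root_.Fermat.Agent.A2.Mod.FE E N} (hI : IndepMod P E N V w x b) :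
    Fermat.Agent.A2.H489.PolyIndepMod (_root_.Fermat.Agent.A2.Mod.RE P E) V x b := by
  intro a ha i
  rw [← Fermat.Agent.A2.H489.C_dvd_iff_map_residue_eq_zero hw]
  exact hI a ((inW_iff_mem_nonunits hu _).mpr ha) i

/-- `p = B ∩ 𝔪_V` is `IsCut`. -/
theorem isCut_of_mem_iff {V : ValuationSubring (_root_.Fermat.Agent.A2.Mod.FE E N)} {w : _root_.Fermat.Agent.A2.Mod.RE P E}
    (hu : H48.IsUnif V (algebraMap (_root_.Fermat.Agent.A2.Mod.RE P E) (_root_.Fermat.Agent.A2.Mod.FE E N) w))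
    {B : Subalgebra (_root_.Fermat.Agent.A2.Mod.RE P E) (_root_.Fermat.Agent.A2.Mod.FE E N)} {p : Ideal B}
    (hp : ∀ b : B, b ∈ p ↔ (b : _root_.Fermat.Agent.A2.Mod.FE E N) ∈ V.nonunits) : IsCut P E N w V B p :=
  fun b => (hp b).trans (inW_iff_mem_nonunits hu _).symm

/-- **MODASM sub-assembly S1** from the leaves L2, L6, L8, L9, L10 (all VERBATIM). -/
theorem s1_of_leaves (P : ValuationSubring _root_.Fermat.Agent.A2.Mod.Qb) (E : IntermediateField ℚ _root_.Fermat.Agent.A2.Mod.Qb) (M q : ℕ)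
    [NeZero M] [NeZero q] (w : _root_.Fermat.Agent.A2.Mod.RE P E)
    (hL2 : VinfBasicStatement P E w) (hL6 : VzeroNeStatement P E M q w)
    (hL8 : DegStatement E M q) (hL9 : IndInfStatement P E M q w)
    (hL10 : IndZeroStatement P E M q w) : S1Statement P E M q w := by
  intro hS V W hV hW y hy
  haveI hdvr : IsDiscreteValuationRing (_root_.Fermat.Agent.A2.Mod.RE P E) := hS.dvr
  have hw := hS.unif
  have hN : M * q ≠ 0 := mul_ne_zero hS.M_ne_zero hS.q_prime.ne_zero
  obtain ⟨hu, hconst, hj⟩ := hL2 (M * q) hN hdvr hw V hV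
  have hu₂ := isUnif_comap hu W
  have hmem₁ : ∀ r : _root_.Fermat.Agent.A2.Mod.RE P E, algebraMap (_root_.Fermat.Agent.A2.Mod.RE P E) (_root_.Fermat.Agent.A2.Mod.FE E (M * q)) r ∈ V :=
    fun r => (hconst (r : E)).mpr r.2
  have hmem₂ : ∀ r : _root_.Fermat.Agent.A2.Mod.RE P E, algebraMap (_root_.Fermat.Agent.A2.Mod.RE P E) (_root_.Fermat.Agent.A2.Mod.FE E (M * q)) r ∈
      V.comap (W : _root_.Fermat.Agent.A2.Mod.FE E (M * q) →+* _root_.Fermat.Agent.A2.Mod.FE E (M * q)) := by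
    intro r
    show W (algebraMap E (_root_.Fermat.Agent.A2.Mod.FE E (M * q)) (r : E)) ∈ V
    rw [W.commutes]
    exact hmem₁ r
  have ho₁ := isOver_of_unif hw hu hmem₁
  have ho₂ := isOver_of_unif hw hu₂ hmem₂
  obtain ⟨b, hb, hIb⟩ := hL9 hS V hV
  obtain ⟨c, hc, hIc⟩ := hL10 hS V W hV hW
  have hx₁ : xE E M q ∈ V := mul_mem (hj 1 (one_dvd _)).1 (hj q (dvd_mul_left q M)).1
  have hx₂ : xE E M q ∈ V.comap (W : _root_.Fermat.Agent.A2.Mod.FE E (M * q) →+* _root_.Fermat.Agent.A2.Mod.FE E (M * q)) := by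
    show W (xE E M q) ∈ V
    unfold xE
    rw [map_mul, hW.1 1 (M * q) (one_dvd _) (dvd_refl _) (one_mul _),
      hW.1 q M (dvd_mul_left q M) (dvd_mul_right M q) (mul_comm q M)]
    exact mul_mem (hj _ _).1 (hj _ _).1
  have hpos : 0 < (q + 1) * dedekindPsi M :=
    Nat.mul_pos (Nat.succ_pos q) (dedekindPsi_pos_of_ne_zero M hS.M_ne_zero)
  have hP₁ := polyIndepMod_of_indepMod hw hu hIb
  have hP₂ := polyIndepMod_of_indepMod hw hu₂ hIc
  have hG₁ := Fermat.Agent.A2.H489.IsGaussOver.of_polyIndepMod ho₁ hx₁ hpos hb hP₁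
  have hG₂ := Fermat.Agent.A2.H489.IsGaussOver.of_polyIndepMod ho₂ hx₂ hpos hc hP₂
  have hne : V ≠ V.comap (W : _root_.Fermat.Agent.A2.Mod.FE E (M * q) →+* _root_.Fermat.Agent.A2.Mod.FE E (M * q)) :=
    fun h => hL6 hS V W hV hW h.symm
  obtain ⟨-, hdeg, -⟩ := hL8 hS.q_prime hS.q_not_dvd
  haveI hfin : FiniteDimensional
      (IntermediateField.adjoin E ({xE E M q} : Set (_root_.Fermat.Agent.A2.Mod.FE E (M * q)))) (_root_.Fermat.Agent.A2.Mod.FE E (M * q)) :=
    Module.finite_of_finrank_pos (by rw [hdeg]; omega)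
  have hdeg' : Module.finrank
      (IntermediateField.adjoin E ({xE E M q} : Set (_root_.Fermat.Agent.A2.Mod.FE E (M * q)))) (_root_.Fermat.Agent.A2.Mod.FE E (M * q)) ≤
      (q + 1) * dedekindPsi M + (q + 1) * dedekindPsi M := by
    rw [hdeg]
    omega
  rcases hy with rfl | rfl
  · obtain ⟨p₁, p₂, hp₁, hp₂, hpr₁, hpr₂, -, h12, h21, hinf⟩ :=
      Fermat.Agent.A2.H489.frame_exists_components (E := E) hw hG₁ hG₂ hu hu₂ hne hb hc
        hP₁ hP₂ hdeg' (chartAlg P E (M * q) (xE E M q)) (fun _ => Iff.rfl)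
    exact ⟨p₁, p₂, isCut_of_mem_iff hu hp₁, isCut_of_mem_iff hu₂ hp₂, hpr₁, hpr₂, h12, h21,
      hinf⟩
  · obtain ⟨p₁, p₂, hp₁, hp₂, hpr₁, hpr₂, -, h12, h21, hinf⟩ :=
      Fermat.Agent.A2.H489.frame_exists_components_inv (E := E) hw hG₁ hG₂ hu hu₂ hne hb hc
        hP₁ hP₂ hdeg' (chartAlg P E (M * q) (xE E M q)⁻¹) (fun _ => Iff.rfl)
    exact ⟨p₁, p₂, isCut_of_mem_iff hu hp₁, isCut_of_mem_iff hu₂ hp₂, hpr₁, hpr₂, h12, h21,
      hinf⟩

end Fermat.Agent.A2.Mod.H489

end
end
-- ===== PACK-END A2/Mod/H489/S1.lean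

-- ===== PACK-BEGIN A2/Mod/H553/Fricke.lean
section




/-!
# A2 / MOD leaves L4 `FrickeExists`, L5 `FrickeCompat` (helper553)

* `ringHom_ext_FE` : two ring homomorphisms out of `F_{N,E} = E(j_d : d ∣ N)` which agree on the
  constants `E` and on the generators `j_d` are equal;
* `wE E N : FE E N ≃ₐ[E] FE E N` : the Fricke involution over `E`, the restriction of
  `H528.wF N` along `ι : F_{N,E} → F̄_N` (`iota_wE`);
* `frickeExists : FrickeExistsStatement E`  (L4);
* `frickeCompat : FrickeCompatStatement E M q`  (L5);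
* `IsFricke` determines `W` (`isFricke_unique`).
-/

set_option autoImplicit false
set_option synthInstance.maxHeartbeats 400000
set_option maxHeartbeats 1600000
set_option linter.unusedSectionVars false
set_option linter.style.haveILetI false

noncomputable section

namespace Fermat.Agent.A2.Mod.H553

open ModularCurve HahnSeries Polynomial IntermediateField
open Fermat.Agent.A2 Fermat.Agent.A2.Mod Fermat.Agent.S18.H602

variable (E : IntermediateField ℚ _root_.Fermat.Agent.A2.Mod.Qb)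

/-! ### Extensionality for ring homomorphisms out of `F_{N,E}` -/

theorem coeffEmb_algebraMap_rat (c : ℚ) :
    coeffEmb (↥E) (algebraMap ℚ (LaurentSeries ℚ) c) =
      algebraMap (↥E) (LaurentSeries ↥E) (algebraMap ℚ (↥E) c) := by
  rw [algebraMap_apply_eq_single, algebraMap_laurentSeries_eq_single, coeffEmb,
    coeffMap_single]

/-- Two ring homomorphisms out of `F_{N,E}` agreeing on `E` and on the `j_d`, `d ∣ N`, agree. -/
theorem ringHom_ext_FE {N : ℕ} {K : Type*} [DivisionRing K] (φ ψ : ↥(_root_.Fermat.Agent.A2.Mod.FE E N) →+* K)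
    (hE : ∀ e : ↥E, φ (algebraMap ↥E ↥(_root_.Fermat.Agent.A2.Mod.FE E N) e) = ψ (algebraMap ↥E ↥(_root_.Fermat.Agent.A2.Mod.FE E N) e))
    (hj : ∀ (d : ℕ) [NeZero d] (hd : d ∣ N), φ (jE E N d hd) = ψ (jE E N d hd)) :
    φ = ψ := by
  -- first: the rational functions
  have hrat : ∀ z ∈ modularFunctionFieldFull N, ∀ hz' : coeffEmb (↥E) z ∈ _root_.Fermat.Agent.A2.Mod.FE E N,
      φ ⟨coeffEmb (↥E) z, hz'⟩ = ψ ⟨coeffEmb (↥E) z, hz'⟩ := by
    intro z₀ hz₀
    have hz0 : z₀ ∈ IntermediateField.adjoin ℚ (divisorExpansions N) := hz₀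
    clear hz₀
    induction hz0 using IntermediateField.adjoin_induction with
    | mem y hy =>
        intro hz'
        obtain ⟨d, hne, hd, rfl⟩ := hy
        haveI := hne
        exact hj d hd
    | algebraMap c =>
        intro hz'
        have h1 : (⟨coeffEmb (↥E) (algebraMap ℚ (LaurentSeries ℚ) c), hz'⟩ : ↥(_root_.Fermat.Agent.A2.Mod.FE E N))
            = algebraMap ↥E ↥(_root_.Fermat.Agent.A2.Mod.FE E N) (algebraMap ℚ ↥E c) :=
          Subtype.ext (coeffEmb_algebraMap_rat E c)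
        rw [h1]
        exact hE _
    | add y z hy hz ihy ihz =>
        intro hz'
        have hy' := coeffEmb_mem_laurentBaseChange (↥E) (F₀ := modularFunctionFieldFull N) hy
        have hz'' := coeffEmb_mem_laurentBaseChange (↥E) (F₀ := modularFunctionFieldFull N) hz
        have h1 : (⟨coeffEmb (↥E) (y + z), hz'⟩ : ↥(_root_.Fermat.Agent.A2.Mod.FE E N))
            = ⟨coeffEmb (↥E) y, hy'⟩ + ⟨coeffEmb (↥E) z, hz''⟩ := Subtype.ext (map_add _ _ _)
        rw [h1, map_add, map_add, ihy hy', ihz hz'']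
    | inv y hy ihy =>
        intro hz'
        have hy' := coeffEmb_mem_laurentBaseChange (↥E) (F₀ := modularFunctionFieldFull N) hy
        have h1 : (⟨coeffEmb (↥E) (y⁻¹), hz'⟩ : ↥(_root_.Fermat.Agent.A2.Mod.FE E N))
            = (⟨coeffEmb (↥E) y, hy'⟩ : ↥(_root_.Fermat.Agent.A2.Mod.FE E N))⁻¹ := Subtype.ext (map_inv₀ _ _)
        rw [h1, map_inv₀, map_inv₀, ihy hy']
    | mul y z hy hz ihy ihz =>
        intro hz'
        have hy' := coeffEmb_mem_laurentBaseChange (↥E) (F₀ := modularFunctionFieldFull N) hy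
        have hz'' := coeffEmb_mem_laurentBaseChange (↥E) (F₀ := modularFunctionFieldFull N) hz
        have h1 : (⟨coeffEmb (↥E) (y * z), hz'⟩ : ↥(_root_.Fermat.Agent.A2.Mod.FE E N))
            = ⟨coeffEmb (↥E) y, hy'⟩ * ⟨coeffEmb (↥E) z, hz''⟩ := Subtype.ext (map_mul _ _ _)
        rw [h1, map_mul, map_mul, ihy hy', ihz hz'']
  have key : ∀ (x : LaurentSeries ↥E) (hx : x ∈ _root_.Fermat.Agent.A2.Mod.FE E N), φ ⟨x, hx⟩ = ψ ⟨x, hx⟩ := by
    intro x hx
    have hx0 : x ∈ IntermediateField.adjoin (↥E)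
        (⇑(coeffEmb ↥E) '' (modularFunctionFieldFull N : Set (LaurentSeries ℚ))) := hx
    suffices h : ∀ hx' : x ∈ _root_.Fermat.Agent.A2.Mod.FE E N, φ ⟨x, hx'⟩ = ψ ⟨x, hx'⟩ from h hx
    clear hx
    induction hx0 using IntermediateField.adjoin_induction with
    | mem y hy =>
        intro hx'
        obtain ⟨z, hz, rfl⟩ := hy
        exact hrat z hz hx'
    | algebraMap c =>
        intro hx'
        exact hE c
    | add y z hy hz ihy ihz =>
        intro hx'
        have h1 : (⟨y + z, hx'⟩ : ↥(_root_.Fermat.Agent.A2.Mod.FE E N)) = ⟨y, hy⟩ + ⟨z, hz⟩ := rfl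
        rw [h1, map_add, map_add, ihy hy, ihz hz]
    | inv y hy ihy =>
        intro hx'
        have h1 : (⟨y⁻¹, hx'⟩ : ↥(_root_.Fermat.Agent.A2.Mod.FE E N)) = (⟨y, hy⟩ : ↥(_root_.Fermat.Agent.A2.Mod.FE E N))⁻¹ := rfl
        rw [h1, map_inv₀, map_inv₀, ihy hy]
    | mul y z hy hz ihy ihz =>
        intro hx'
        have h1 : (⟨y * z, hx'⟩ : ↥(_root_.Fermat.Agent.A2.Mod.FE E N)) = ⟨y, hy⟩ * ⟨z, hz⟩ := rfl
        rw [h1, map_mul, map_mul, ihy hy, ihz hz]
  exact RingHom.ext fun f => key f.1 f.2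

/-! ### The Fricke involution over `E` -/

section Fricke

variable (N : ℕ) [NeZero N]

/-- the comparison map `F_{N,E} → F̄_N` -/
abbrev iotaN : ↥(_root_.Fermat.Agent.A2.Mod.FE E N) →+* ↥(modularFunctionFieldBar N) :=
  T1.H849.iota E (modularFunctionFieldFull N)

theorem iotaN_injective : Function.Injective (iotaN E N) := (iotaN E N).injective

theorem iotaN_algebraMap (e : ↥E) :
    iotaN E N (algebraMap ↥E ↥(_root_.Fermat.Agent.A2.Mod.FE E N) e) =
      algebraMap _root_.Fermat.Agent.A2.Mod.Qb ↥(modularFunctionFieldBar N) (e : _root_.Fermat.Agent.A2.Mod.Qb) :=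
  T1.H849.iota_algebraMap E (modularFunctionFieldFull N) e

theorem iotaN_jE (d : ℕ) [NeZero d] (hd : d ∣ N) :
    iotaN E N (jE E N d hd) = H528.jFd N d hd := by
  apply Subtype.ext
  show coeffMap (algebraMap ↥E _root_.Fermat.Agent.A2.Mod.Qb) (coeffEmb (↥E) (qExpand ℚ d jq)) = _
  rw [coeffMap_coeffEmb']
  rfl

/-- `w_N` preserves `F_{N,E}`. -/
theorem exists_iota_eq_wF (f : ↥(_root_.Fermat.Agent.A2.Mod.FE E N)) :
    ∃ g : ↥(_root_.Fermat.Agent.A2.Mod.FE E N), iotaN E N g = H528.wF N (iotaN E N f) := by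
  obtain ⟨x, hx⟩ := f
  have hx0 : x ∈ IntermediateField.adjoin (↥E)
      (⇑(coeffEmb ↥E) '' (modularFunctionFieldFull N : Set (LaurentSeries ℚ))) := hx
  suffices h : ∀ hx' : x ∈ _root_.Fermat.Agent.A2.Mod.FE E N,
      ∃ g : ↥(_root_.Fermat.Agent.A2.Mod.FE E N), iotaN E N g = H528.wF N (iotaN E N ⟨x, hx'⟩) from h hx
  clear hx
  induction hx0 using IntermediateField.adjoin_induction with
  | mem y hy =>
      intro hx'
      obtain ⟨z, hz, rfl⟩ := hy
      obtain ⟨y', hy', hy''⟩ := H528.wF_rat N hz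
      refine ⟨⟨coeffEmb (↥E) y', coeffEmb_mem_laurentBaseChange (↥E) hy'⟩, Subtype.ext ?_⟩
      have h1 : iotaN E N ⟨coeffEmb (↥E) z, hx'⟩ =
          ⟨coeffEmb _root_.Fermat.Agent.A2.Mod.Qb z, coeffEmb_mem_laurentBaseChange _root_.Fermat.Agent.A2.Mod.Qb hz⟩ :=
        Subtype.ext (coeffMap_coeffEmb' _ z)
      rw [h1, hy'']
      exact coeffMap_coeffEmb' _ y'
  | algebraMap c =>
      intro hx'
      refine ⟨algebraMap ↥E ↥(_root_.Fermat.Agent.A2.Mod.FE E N) c, ?_⟩
      have h1 : (⟨algebraMap (↥E) (LaurentSeries ↥E) c, hx'⟩ : ↥(_root_.Fermat.Agent.A2.Mod.FE E N)) =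
          algebraMap ↥E ↥(_root_.Fermat.Agent.A2.Mod.FE E N) c := rfl
      rw [h1, iotaN_algebraMap, AlgEquiv.commutes]
  | add y z hy hz ihy ihz =>
      intro hx'
      obtain ⟨a, ha⟩ := ihy hy
      obtain ⟨b, hb⟩ := ihz hz
      refine ⟨a + b, ?_⟩
      have h1 : (⟨y + z, hx'⟩ : ↥(_root_.Fermat.Agent.A2.Mod.FE E N)) = ⟨y, hy⟩ + ⟨z, hz⟩ := rfl
      rw [h1, map_add, map_add, map_add, ha, hb]
  | inv y hy ihy =>
      intro hx'
      obtain ⟨a, ha⟩ := ihy hy
      refine ⟨a⁻¹, ?_⟩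
      have h1 : (⟨y⁻¹, hx'⟩ : ↥(_root_.Fermat.Agent.A2.Mod.FE E N)) = (⟨y, hy⟩ : ↥(_root_.Fermat.Agent.A2.Mod.FE E N))⁻¹ := rfl
      rw [h1, map_inv₀, map_inv₀, map_inv₀, ha]
  | mul y z hy hz ihy ihz =>
      intro hx'
      obtain ⟨a, ha⟩ := ihy hy
      obtain ⟨b, hb⟩ := ihz hz
      refine ⟨a * b, ?_⟩
      have h1 : (⟨y * z, hx'⟩ : ↥(_root_.Fermat.Agent.A2.Mod.FE E N)) = ⟨y, hy⟩ * ⟨z, hz⟩ := rfl
      rw [h1, map_mul, map_mul, map_mul, ha, hb]

/-- the Fricke involution over `E`, as a function -/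
def wEFun (f : ↥(_root_.Fermat.Agent.A2.Mod.FE E N)) : ↥(_root_.Fermat.Agent.A2.Mod.FE E N) := (exists_iota_eq_wF E N f).choose

theorem iota_wEFun (f : ↥(_root_.Fermat.Agent.A2.Mod.FE E N)) :
    iotaN E N (wEFun E N f) = H528.wF N (iotaN E N f) :=
  (exists_iota_eq_wF E N f).choose_spec

/-- the Fricke involution over `E`, as a ring homomorphism -/
def wEHom : ↥(_root_.Fermat.Agent.A2.Mod.FE E N) →+* ↥(_root_.Fermat.Agent.A2.Mod.FE E N) where
  toFun := wEFun E N
  map_one' := iotaN_injective E N (by rw [iota_wEFun, map_one, map_one])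
  map_mul' a b := iotaN_injective E N (by
    rw [iota_wEFun, map_mul, map_mul, map_mul, iota_wEFun, iota_wEFun])
  map_zero' := iotaN_injective E N (by rw [iota_wEFun, map_zero, map_zero])
  map_add' a b := iotaN_injective E N (by
    rw [iota_wEFun, map_add, map_add, map_add, iota_wEFun, iota_wEFun])

theorem iota_wEHom (f : ↥(_root_.Fermat.Agent.A2.Mod.FE E N)) :
    iotaN E N (wEHom E N f) = H528.wF N (iotaN E N f) := iota_wEFun E N f

theorem wEHom_wEHom (f : ↥(_root_.Fermat.Agent.A2.Mod.FE E N)) : wEHom E N (wEHom E N f) = f :=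
  iotaN_injective E N (by rw [iota_wEHom, iota_wEHom, H528.wF_wF])

theorem wEHom_algebraMap (e : ↥E) :
    wEHom E N (algebraMap ↥E ↥(_root_.Fermat.Agent.A2.Mod.FE E N) e) = algebraMap ↥E ↥(_root_.Fermat.Agent.A2.Mod.FE E N) e :=
  iotaN_injective E N (by rw [iota_wEHom, iotaN_algebraMap, AlgEquiv.commutes])

/-- **The Fricke involution `w_N` of `F_{N,E}` over `E`.** -/
def wE : ↥(_root_.Fermat.Agent.A2.Mod.FE E N) ≃ₐ[↥E] ↥(_root_.Fermat.Agent.A2.Mod.FE E N) :=
  AlgEquiv.ofAlgHom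
    { toRingHom := wEHom E N, commutes' := wEHom_algebraMap E N }
    { toRingHom := wEHom E N, commutes' := wEHom_algebraMap E N }
    (AlgHom.ext fun f => wEHom_wEHom E N f)
    (AlgHom.ext fun f => wEHom_wEHom E N f)

theorem wE_apply (f : ↥(_root_.Fermat.Agent.A2.Mod.FE E N)) : wE E N f = wEHom E N f := rfl

/-- `ι ∘ w_{N,E} = w_N ∘ ι`. -/
theorem iota_wE (f : ↥(_root_.Fermat.Agent.A2.Mod.FE E N)) :
    iotaN E N (wE E N f) = H528.wF N (iotaN E N f) := iota_wEHom E N f

theorem wE_jE (d d' : ℕ) [NeZero d] [NeZero d'] (hd : d ∣ N) (hd' : d' ∣ N) (h : d * d' = N) :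
    wE E N (jE E N d hd) = jE E N d' hd' := by
  apply iotaN_injective E N
  rw [iota_wE, iotaN_jE, iotaN_jE, H528.wF_jFd]
  have hd0 : 0 < d := Nat.pos_of_ne_zero (NeZero.ne d)
  have hdiv : N / d = d' := by
    rw [← h]
    exact Nat.mul_div_cancel_left d' hd0
  haveI := H528.neZero_div N hd
  exact H528.jFd_congr N (Nat.div_dvd_of_dvd hd) hd' hdiv

theorem isFricke_wE : IsFricke E N (wE E N) :=
  ⟨fun d d' _ _ hd hd' h => wE_jE E N d d' hd hd' h, fun f => wEHom_wEHom E N f⟩

end Fricke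

/-- **L4.** -/
theorem frickeExists : FrickeExistsStatement E := by
  intro N hN
  haveI : NeZero N := ⟨hN⟩
  exact ⟨wE E N, isFricke_wE E N⟩

/-- `IsFricke` determines the involution. -/
theorem isFricke_unique {N : ℕ} (hN : N ≠ 0) {W W' : ↥(_root_.Fermat.Agent.A2.Mod.FE E N) ≃ₐ[↥E] ↥(_root_.Fermat.Agent.A2.Mod.FE E N)}
    (hW : IsFricke E N W) (hW' : IsFricke E N W') : W = W' := by
  have h : (W : ↥(_root_.Fermat.Agent.A2.Mod.FE E N) →+* ↥(_root_.Fermat.Agent.A2.Mod.FE E N)) = (W' : ↥(_root_.Fermat.Agent.A2.Mod.FE E N) →+* ↥(_root_.Fermat.Agent.A2.Mod.FE E N)) := by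
    refine ringHom_ext_FE E _ _ (fun e => ?_) (fun d _ hd => ?_)
    · show W (algebraMap ↥E ↥(_root_.Fermat.Agent.A2.Mod.FE E N) e) = W' (algebraMap ↥E ↥(_root_.Fermat.Agent.A2.Mod.FE E N) e)
      rw [AlgEquiv.commutes, AlgEquiv.commutes]
    · show W (jE E N d hd) = W' (jE E N d hd)
      have hd0 : 0 < d := Nat.pos_of_ne_zero (NeZero.ne d)
      haveI : NeZero (N / d) := ⟨by
        intro h0
        rcases (Nat.div_eq_zero_iff).mp h0 with h1 | h1
        · exact (NeZero.ne d) h1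
        · exact absurd (Nat.le_of_dvd (Nat.pos_of_ne_zero hN) hd) (not_le.mpr h1)⟩
      rw [hW.1 d (N / d) hd (Nat.div_dvd_of_dvd hd) (Nat.mul_div_cancel' hd),
        hW'.1 d (N / d) hd (Nat.div_dvd_of_dvd hd) (Nat.mul_div_cancel' hd)]
  exact AlgEquiv.ext fun f => congrArg (fun φ : ↥(_root_.Fermat.Agent.A2.Mod.FE E N) →+* ↥(_root_.Fermat.Agent.A2.Mod.FE E N) => φ f) h

/-! ### L5: compatibility with the degeneracy maps -/

section Compat

variable (M q : ℕ) [NeZero M] [NeZero q]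

theorem αE_jE (d : ℕ) [NeZero d] (hd : d ∣ M) :
    αE E M q (jE E M d hd) = jE E (M * q) d (hd.trans (dvd_mul_right M q)) :=
  Subtype.ext rfl

theorem βE_jE (d : ℕ) [NeZero d] (hd : d ∣ M) :
    haveI : NeZero (d * q) := ⟨mul_ne_zero (NeZero.ne d) (NeZero.ne q)⟩
    βE E M q (jE E M d hd) = jE E (M * q) (d * q) (mul_dvd_mul_right hd q) := by
  haveI : NeZero (d * q) := ⟨mul_ne_zero (NeZero.ne d) (NeZero.ne q)⟩
  apply Subtype.ext
  show qExpand (↥E) q (coeffEmb (↥E) (qExpand ℚ d jq)) = coeffEmb (↥E) (qExpand ℚ (d * q) jq)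
  rw [coeffEmb, ← coeffMap_qExpand, qExpand_qExpand]
  congr 1
  exact qExpand_congr (mul_comm q d) jq

/-- **L5.** -/
theorem frickeCompat : FrickeCompatStatement E M q := by
  intro WM WN hWM hWN
  have hM0 : M ≠ 0 := NeZero.ne M
  have hq0 : q ≠ 0 := NeZero.ne q
  -- the two identities as equalities of ring homomorphisms
  have h1 : ((WN : ↥(_root_.Fermat.Agent.A2.Mod.FE E (M * q)) →+* ↥(_root_.Fermat.Agent.A2.Mod.FE E (M * q))).comp
      (αE E M q : ↥(_root_.Fermat.Agent.A2.Mod.FE E M) →+* ↥(_root_.Fermat.Agent.A2.Mod.FE E (M * q)))) =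
      ((βE E M q : ↥(_root_.Fermat.Agent.A2.Mod.FE E M) →+* ↥(_root_.Fermat.Agent.A2.Mod.FE E (M * q))).comp
        (WM : ↥(_root_.Fermat.Agent.A2.Mod.FE E M) →+* ↥(_root_.Fermat.Agent.A2.Mod.FE E M))) := by
    refine ringHom_ext_FE E _ _ (fun e => ?_) (fun d _ hd => ?_)
    · show WN (αE E M q (algebraMap ↥E ↥(_root_.Fermat.Agent.A2.Mod.FE E M) e)) = βE E M q (WM (algebraMap ↥E ↥(_root_.Fermat.Agent.A2.Mod.FE E M) e))
      rw [AlgHom.commutes, AlgEquiv.commutes, AlgEquiv.commutes, AlgHom.commutes]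
    · show WN (αE E M q (jE E M d hd)) = βE E M q (WM (jE E M d hd))
      have hd0 : d ≠ 0 := NeZero.ne d
      haveI hMd : NeZero (M / d) := ⟨by
        intro h0
        rcases (Nat.div_eq_zero_iff).mp h0 with h1 | h1
        · exact hd0 h1
        · exact absurd (Nat.le_of_dvd (Nat.pos_of_ne_zero hM0) hd) (not_le.mpr h1)⟩
      haveI : NeZero (M / d * q) := ⟨mul_ne_zero (NeZero.ne (M / d)) hq0⟩
      rw [αE_jE, hWM.1 d (M / d) hd (Nat.div_dvd_of_dvd hd) (Nat.mul_div_cancel' hd), βE_jE]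
      refine hWN.1 d (M / d * q) _ _ ?_
      rw [← mul_assoc, Nat.mul_div_cancel' hd]
  have h2 : ((WN : ↥(_root_.Fermat.Agent.A2.Mod.FE E (M * q)) →+* ↥(_root_.Fermat.Agent.A2.Mod.FE E (M * q))).comp
      (βE E M q : ↥(_root_.Fermat.Agent.A2.Mod.FE E M) →+* ↥(_root_.Fermat.Agent.A2.Mod.FE E (M * q)))) =
      ((αE E M q : ↥(_root_.Fermat.Agent.A2.Mod.FE E M) →+* ↥(_root_.Fermat.Agent.A2.Mod.FE E (M * q))).comp
        (WM : ↥(_root_.Fermat.Agent.A2.Mod.FE E M) →+* ↥(_root_.Fermat.Agent.A2.Mod.FE E M))) := by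
    refine ringHom_ext_FE E _ _ (fun e => ?_) (fun d _ hd => ?_)
    · show WN (βE E M q (algebraMap ↥E ↥(_root_.Fermat.Agent.A2.Mod.FE E M) e)) = αE E M q (WM (algebraMap ↥E ↥(_root_.Fermat.Agent.A2.Mod.FE E M) e))
      rw [AlgHom.commutes, AlgEquiv.commutes, AlgEquiv.commutes, AlgHom.commutes]
    · show WN (βE E M q (jE E M d hd)) = αE E M q (WM (jE E M d hd))
      have hd0 : d ≠ 0 := NeZero.ne d
      haveI hMd : NeZero (M / d) := ⟨by
        intro h0
        rcases (Nat.div_eq_zero_iff).mp h0 with h1 | h1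
        · exact hd0 h1
        · exact absurd (Nat.le_of_dvd (Nat.pos_of_ne_zero hM0) hd) (not_le.mpr h1)⟩
      haveI : NeZero (d * q) := ⟨mul_ne_zero hd0 hq0⟩
      rw [βE_jE, hWM.1 d (M / d) hd (Nat.div_dvd_of_dvd hd) (Nat.mul_div_cancel' hd), αE_jE]
      refine hWN.1 (d * q) (M / d) _ _ ?_
      rw [mul_assoc, mul_comm q, ← mul_assoc, Nat.mul_div_cancel' hd]
  intro f
  exact ⟨congrArg (fun φ : ↥(_root_.Fermat.Agent.A2.Mod.FE E M) →+* ↥(_root_.Fermat.Agent.A2.Mod.FE E (M * q)) => φ f) h1,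
    congrArg (fun φ : ↥(_root_.Fermat.Agent.A2.Mod.FE E M) →+* ↥(_root_.Fermat.Agent.A2.Mod.FE E (M * q)) => φ f) h2⟩

end Compat

end Fermat.Agent.A2.Mod.H553

end
end
-- ===== PACK-END A2/Mod/H553/Fricke.lean

-- ===== PACK-BEGIN A2/Mod/H732/S4.lean
section









/-!
# WALL A2 / MODASM S4 (helper732): `Mod.S4Statement`, UNCONDITIONAL

`s4 : S4Statement P E M q w` (`Fermat/Agent/A2/Mod/Asm.lean`, VERBATIM): the coordinate
`x = j · j_q` (resp. `x⁻¹`) is a separating coordinate (`Spec.SepCoord`) of the chart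
`chartAlg x` (resp. `chartAlg x⁻¹`) of level `M q`.

Proof: `sepCoord_of_gauss` (`SepCoord.lean`) for `V₁ = V∞`, `V₂ = V₀ = V∞ ∘ W` with the data of
S1 (leaves L1, L2, L4, L6, L8, L9, L10, all on main) + the elementwise separability of the two
residue extensions, from `exists_sep_poly_of_graph` (`SepRed.lean`) applied to the reduction
relation `redRel` of `V∞` (`(f, f̄)` with `f U₂ = U₁`, `f̄ Ū₂ = Ū₁`, `U₂` primitive) resp. its
pull-back along `W`: the reductions of `x` and `W x` are polar of orders `q + 1` and `M (q + 1)`,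
prime to `q`, so `dx̄/dt ≠ 0`, and the residue field of `R_E` is perfect.
-/

set_option autoImplicit false
set_option linter.unusedSectionVars false
set_option linter.style.haveILetI false
set_option synthInstance.maxHeartbeats 400000
set_option maxHeartbeats 1600000

noncomputable section

namespace Fermat.Agent.A2.Mod.H732

open ModularCurve HahnSeries Polynomial IsLocalRing
open Fermat.Agent.A2 Fermat.Agent.A2.Mod

/-! ### generalities -/

section General

theorem dq_inv_ne_zero {k : Type*} [Field k] {x : LaurentSeries k}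
    (h : Fermat.Agent.S18.H602.dq x ≠ 0) : Fermat.Agent.S18.H602.dq x⁻¹ ≠ 0 := by
  have hx0 : x ≠ 0 := by
    rintro rfl
    apply h
    have := Fermat.Agent.S18.H602.dq_C (0 : k)
    rwa [map_zero] at this
  have h1 : Fermat.Agent.S18.H602.dq (x * x⁻¹)
      = x * Fermat.Agent.S18.H602.dq x⁻¹ + x⁻¹ * Fermat.Agent.S18.H602.dq x :=
    Fermat.Agent.S18.H602.dq_mul x x⁻¹
  rw [mul_inv_cancel₀ hx0, Fermat.Agent.S18.H602.dq_one] at h1
  intro h2
  rw [h2, mul_zero, zero_add] at h1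
  rcases mul_eq_zero.mp h1.symm with h3 | h3
  · exact inv_ne_zero hx0 h3
  · exact h h3

theorem val_eq_one_of_mem {F : Type*} [Field F] (V : ValuationSubring F) {g : F} (hg0 : g ≠ 0)
    (hg : g ∈ V) (hgi : g⁻¹ ∈ V) : V.valuation g = 1 := by
  have h2 : V.valuation g ≤ 1 := (V.valuation_le_one_iff g).mpr hg
  have h3 : V.valuation g⁻¹ ≤ 1 := (V.valuation_le_one_iff _).mpr hgi
  rw [map_inv₀] at h3
  have hv : V.valuation g ≠ 0 := (Valuation.ne_zero_iff _).mpr hg0
  exact le_antisymm h2 ((inv_le_one₀ (zero_lt_iff.mpr hv)).mp h3)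

end General

/-! ### the reduction relation of `V∞` -/

section Rel

variable (P : ValuationSubring _root_.Fermat.Agent.A2.Mod.Qb) (E : IntermediateField ℚ _root_.Fermat.Agent.A2.Mod.Qb) (N : ℕ)

/-- `b` is a reduction of `f`: `f U₂ = U₁`, `b Ū₂ = Ū₁` with `U₂ ∈ F_N` primitive. -/
def RedRel (f : _root_.Fermat.Agent.A2.Mod.FE E N) (b : LaurentSeries (ResidueField (_root_.Fermat.Agent.A2.Mod.RE P E))) : Prop :=
  ∃ U₁ U₂ : LaurentSeries (_root_.Fermat.Agent.A2.Mod.RE P E), H708.red (_root_.Fermat.Agent.A2.Mod.RE P E) U₂ ≠ 0 ∧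
    H708.incl (_root_.Fermat.Agent.A2.Mod.RE P E) U₂ ∈ _root_.Fermat.Agent.A2.Mod.FE E N ∧
    (f : LaurentSeries E) * H708.incl (_root_.Fermat.Agent.A2.Mod.RE P E) U₂ = H708.incl (_root_.Fermat.Agent.A2.Mod.RE P E) U₁ ∧
    b * H708.red (_root_.Fermat.Agent.A2.Mod.RE P E) U₂ = H708.red (_root_.Fermat.Agent.A2.Mod.RE P E) U₁

/-- the reduction relation as a subring of `F_N × k((t))` -/
def redRel : Subring (_root_.Fermat.Agent.A2.Mod.FE E N × LaurentSeries (ResidueField (_root_.Fermat.Agent.A2.Mod.RE P E))) where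
  carrier := {p | RedRel P E N p.1 p.2}
  mul_mem' := by
    rintro ⟨f, b⟩ ⟨f', b'⟩ ⟨U₁, U₂, h0, hm, he, hr⟩ ⟨U₁', U₂', h0', hm', he', hr'⟩
    refine ⟨U₁ * U₁', U₂ * U₂', ?_, ?_, ?_, ?_⟩
    · rw [map_mul]; exact mul_ne_zero h0 h0'
    · rw [map_mul]; exact mul_mem hm hm'
    · show ((f * f' : _root_.Fermat.Agent.A2.Mod.FE E N) : LaurentSeries E) * _ = _
      rw [IntermediateField.coe_mul, map_mul, map_mul, ← he, ← he']
      ring
    · show (b * b') * _ = _
      rw [map_mul, map_mul, ← hr, ← hr']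
      ring
  one_mem' := by
    refine ⟨1, 1, ?_, ?_, ?_, ?_⟩
    · rw [map_one]; exact one_ne_zero
    · rw [map_one]; exact one_mem _
    · show ((1 : _root_.Fermat.Agent.A2.Mod.FE E N) : LaurentSeries E) * _ = _
      rw [IntermediateField.coe_one, one_mul]
    · show (1 : LaurentSeries (ResidueField (_root_.Fermat.Agent.A2.Mod.RE P E))) * _ = _
      rw [one_mul]
  add_mem' := by
    rintro ⟨f, b⟩ ⟨f', b'⟩ ⟨U₁, U₂, h0, hm, he, hr⟩ ⟨U₁', U₂', h0', hm', he', hr'⟩
    refine ⟨U₁ * U₂' + U₁' * U₂, U₂ * U₂', ?_, ?_, ?_, ?_⟩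
    · rw [map_mul]; exact mul_ne_zero h0 h0'
    · rw [map_mul]; exact mul_mem hm hm'
    · show ((f + f' : _root_.Fermat.Agent.A2.Mod.FE E N) : LaurentSeries E) * _ = _
      rw [IntermediateField.coe_add, map_add, map_mul, map_mul, map_mul, ← he, ← he']
      ring
    · show (b + b') * _ = _
      rw [map_add, map_mul, map_mul, map_mul, ← hr, ← hr']
      ring
  zero_mem' := by
    refine ⟨0, 1, ?_, ?_, ?_, ?_⟩
    · rw [map_one]; exact one_ne_zero
    · rw [map_one]; exact one_mem _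
    · show ((0 : _root_.Fermat.Agent.A2.Mod.FE E N) : LaurentSeries E) * _ = _
      rw [IntermediateField.coe_zero, zero_mul, map_zero]
    · show (0 : LaurentSeries (ResidueField (_root_.Fermat.Agent.A2.Mod.RE P E))) * _ = _
      rw [zero_mul, map_zero]
  neg_mem' := by
    rintro ⟨f, b⟩ ⟨U₁, U₂, h0, hm, he, hr⟩
    refine ⟨-U₁, U₂, h0, hm, ?_, ?_⟩
    · show ((-f : _root_.Fermat.Agent.A2.Mod.FE E N) : LaurentSeries E) * _ = _
      rw [IntermediateField.coe_neg, map_neg, ← he]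
      ring
    · show (-b) * _ = _
      rw [map_neg, ← hr]
      ring

variable {P E N}

theorem mem_redRel {f : _root_.Fermat.Agent.A2.Mod.FE E N} {b : LaurentSeries (ResidueField (_root_.Fermat.Agent.A2.Mod.RE P E))} :
    (f, b) ∈ redRel P E N ↔ RedRel P E N f b := Iff.rfl

/-- constants -/
theorem redRel_const (r : _root_.Fermat.Agent.A2.Mod.RE P E) :
    (algebraMap (_root_.Fermat.Agent.A2.Mod.RE P E) (_root_.Fermat.Agent.A2.Mod.FE E N) r, cres (_root_.Fermat.Agent.A2.Mod.RE P E) r) ∈ redRel P E N := by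
  refine ⟨H708.cstA (_root_.Fermat.Agent.A2.Mod.RE P E) r, 1, ?_, ?_, ?_, ?_⟩
  · rw [map_one]; exact one_ne_zero
  · rw [map_one]; exact one_mem _
  · rw [map_one, mul_one, H708.incl_cstA]
    rfl
  · rw [map_one, mul_one, H708.red_cstA, cres_apply, Fermat.Agent.S18.H602.algebraMap_eq_C]
    rfl

/-- functions with an integer expansion -/
theorem redRel_int {u : _root_.Fermat.Agent.A2.Mod.FE E N} {g : LaurentSeries ℤ}
    (hu : (u : LaurentSeries E) = coeffEmb E (H708.castQ g)) :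
    (u, H708.red (_root_.Fermat.Agent.A2.Mod.RE P E) (H708.castA (_root_.Fermat.Agent.A2.Mod.RE P E) g)) ∈ redRel P E N := by
  refine ⟨H708.castA (_root_.Fermat.Agent.A2.Mod.RE P E) g, 1, ?_, ?_, ?_, ?_⟩
  · rw [map_one]; exact one_ne_zero
  · rw [map_one]; exact one_mem _
  · rw [map_one, mul_one, hu, H553.coeffEmb_castQ (P := P)]
  · rw [map_one, mul_one]

/-- every element of `V∞` has a reduction -/
theorem exists_redRel {V : ValuationSubring (_root_.Fermat.Agent.A2.Mod.FE E N)} (hV : IsVinf P E N V) {f : _root_.Fermat.Agent.A2.Mod.FE E N}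
    (hf : f ∈ V) : ∃ fb, (f, fb) ∈ redRel P E N := by
  obtain ⟨U₁, U₂, h0, hm, he⟩ := (hV f).mp hf
  exact ⟨H708.red (_root_.Fermat.Agent.A2.Mod.RE P E) U₁ * (H708.red (_root_.Fermat.Agent.A2.Mod.RE P E) U₂)⁻¹, U₁, U₂, h0, hm, he,
    by rw [mul_assoc, inv_mul_cancel₀ h0, mul_one]⟩

/-- elements with nonzero reduction are units of `V∞` -/
theorem redRel_unit {V : ValuationSubring (_root_.Fermat.Agent.A2.Mod.FE E N)} (hV : IsVinf P E N V) {g : _root_.Fermat.Agent.A2.Mod.FE E N}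
    {b : LaurentSeries (ResidueField (_root_.Fermat.Agent.A2.Mod.RE P E))} (h : (g, b) ∈ redRel P E N) (hb : b ≠ 0) :
    g ≠ 0 ∧ g ∈ V ∧ g⁻¹ ∈ V ∧ (g⁻¹, b⁻¹) ∈ redRel P E N := by
  obtain ⟨U₁, U₂, h0, hm, he, hr⟩ := h
  have he' : (g : LaurentSeries E) * H708.incl (_root_.Fermat.Agent.A2.Mod.RE P E) U₂ = H708.incl (_root_.Fermat.Agent.A2.Mod.RE P E) U₁ := he
  have hr' : b * H708.red (_root_.Fermat.Agent.A2.Mod.RE P E) U₂ = H708.red (_root_.Fermat.Agent.A2.Mod.RE P E) U₁ := hr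
  have h1 : H708.red (_root_.Fermat.Agent.A2.Mod.RE P E) U₁ ≠ 0 := by
    rw [← hr']
    exact mul_ne_zero hb h0
  have hU₁0 : H708.incl (_root_.Fermat.Agent.A2.Mod.RE P E) U₁ ≠ 0 :=
    H708.incl_ne_zero _ (H708.ne_zero_of_red_ne_zero _ h1)
  have hg0 : (g : LaurentSeries E) ≠ 0 := by
    intro h
    rw [h, zero_mul] at he'
    exact hU₁0 he'.symm
  have hm₁ : H708.incl (_root_.Fermat.Agent.A2.Mod.RE P E) U₁ ∈ _root_.Fermat.Agent.A2.Mod.FE E N := by
    rw [← he']
    exact mul_mem g.2 hm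
  have hinv : ((g⁻¹ : _root_.Fermat.Agent.A2.Mod.FE E N) : LaurentSeries E) * H708.incl (_root_.Fermat.Agent.A2.Mod.RE P E) U₁
      = H708.incl (_root_.Fermat.Agent.A2.Mod.RE P E) U₂ := by
    rw [IntermediateField.coe_inv, ← he', ← mul_assoc, inv_mul_cancel₀ hg0, one_mul]
  refine ⟨fun h => hg0 (by rw [h]; rfl), (hV g).mpr ⟨U₁, U₂, h0, hm, he'⟩,
    (hV g⁻¹).mpr ⟨U₂, U₁, h1, hm₁, hinv⟩, ⟨U₂, U₁, h1, hm₁, hinv, ?_⟩⟩
  show b⁻¹ * H708.red (_root_.Fermat.Agent.A2.Mod.RE P E) U₁ = H708.red (_root_.Fermat.Agent.A2.Mod.RE P E) U₂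
  rw [← hr', ← mul_assoc, inv_mul_cancel₀ hb, one_mul]

/-- elements with zero reduction lie in the maximal ideal of `V∞` -/
theorem redRel_ker {V : ValuationSubring (_root_.Fermat.Agent.A2.Mod.FE E N)} (hV : IsVinf P E N V)
    (hdvr : IsDiscreteValuationRing (_root_.Fermat.Agent.A2.Mod.RE P E)) {w : _root_.Fermat.Agent.A2.Mod.RE P E} (hw : Irreducible w)
    (hu : H48.IsUnif V (algebraMap (_root_.Fermat.Agent.A2.Mod.RE P E) (_root_.Fermat.Agent.A2.Mod.FE E N) w)) {g : _root_.Fermat.Agent.A2.Mod.FE E N}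
    (h : (g, (0 : LaurentSeries (ResidueField (_root_.Fermat.Agent.A2.Mod.RE P E)))) ∈ redRel P E N) :
    V.valuation g < 1 := by
  obtain ⟨U₁, U₂, h0, hm, he, hr⟩ := h
  have he' : (g : LaurentSeries E) * H708.incl (_root_.Fermat.Agent.A2.Mod.RE P E) U₂ = H708.incl (_root_.Fermat.Agent.A2.Mod.RE P E) U₁ := he
  have hr' : (0 : LaurentSeries (ResidueField (_root_.Fermat.Agent.A2.Mod.RE P E))) * H708.red (_root_.Fermat.Agent.A2.Mod.RE P E) U₂
      = H708.red (_root_.Fermat.Agent.A2.Mod.RE P E) U₁ := hr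
  rw [zero_mul] at hr'
  have hdiv : ∀ n, w ∣ U₁.coeff n := by
    intro n
    have h1 : IsLocalRing.residue (_root_.Fermat.Agent.A2.Mod.RE P E) (U₁.coeff n) = 0 := by
      have := congrArg (fun z => z.coeff n) hr'.symm
      simpa using this
    rw [IsLocalRing.residue_eq_zero_iff, hw.maximalIdeal_eq, Ideal.mem_span_singleton] at h1
    exact h1
  obtain ⟨U', hU'⟩ := H549.exists_cstA_mul_eq w hw.ne_zero U₁ hdiv
  have hwE : ((w : E)) ≠ 0 := fun h0 => hw.ne_zero (Subtype.ext h0)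
  have hc : H708.cst (w : E) ≠ 0 := H708.cst_ne_zero hwE
  have hmem : g * (algebraMap (_root_.Fermat.Agent.A2.Mod.RE P E) (_root_.Fermat.Agent.A2.Mod.FE E N) w)⁻¹ ∈ V := by
    rw [hV]
    refine ⟨U', U₂, h0, hm, ?_⟩
    have hcoe : (((g * (algebraMap (_root_.Fermat.Agent.A2.Mod.RE P E) (_root_.Fermat.Agent.A2.Mod.FE E N) w)⁻¹ : _root_.Fermat.Agent.A2.Mod.FE E N)) : LaurentSeries E)
        = (g : LaurentSeries E) * (H708.cst (w : E))⁻¹ := by
      rw [IntermediateField.coe_mul, IntermediateField.coe_inv]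
      rfl
    have h2 : (g : LaurentSeries E) * H708.incl (_root_.Fermat.Agent.A2.Mod.RE P E) U₂
        = H708.cst (w : E) * H708.incl (_root_.Fermat.Agent.A2.Mod.RE P E) U' := by
      rw [he', ← hU', map_mul, H708.incl_cstA]
    rw [hcoe, mul_assoc, mul_comm (H708.cst (w : E))⁻¹, ← mul_assoc, h2, mul_comm (H708.cst _),
      mul_assoc, mul_inv_cancel₀ hc, mul_one]
  have h3 : V.valuation (g * (algebraMap (_root_.Fermat.Agent.A2.Mod.RE P E) (_root_.Fermat.Agent.A2.Mod.FE E N) w)⁻¹) ≤ 1 :=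
    (V.valuation_le_one_iff _).mpr hmem
  rw [map_mul, map_inv₀] at h3
  have hv0 : V.valuation (algebraMap (_root_.Fermat.Agent.A2.Mod.RE P E) (_root_.Fermat.Agent.A2.Mod.FE E N) w) ≠ 0 := hu.val_ne_zero
  rw [mul_inv_le_iff₀ (zero_lt_iff.mpr hv0), one_mul] at h3
  exact lt_of_le_of_lt h3 hu.val_lt_one

end Rel

/-! ### polar series have separating reduction -/

section Polar

variable (P : ValuationSubring _root_.Fermat.Agent.A2.Mod.Qb) (E : IntermediateField ℚ _root_.Fermat.Agent.A2.Mod.Qb)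

theorem dq_red_polar {q : ℕ} (hq : q.Prime) (hP : P.LiesOverPrime q) {g : LaurentSeries ℤ}
    {a : ℕ} (hg : H13.IsPolarInt g a) (ha : ¬ q ∣ a) :
    Fermat.Agent.S18.H602.dq (H708.red (_root_.Fermat.Agent.A2.Mod.RE P E) (H708.castA (_root_.Fermat.Agent.A2.Mod.RE P E) g)) ≠ 0 := by
  haveI : CharP (ResidueField (_root_.Fermat.Agent.A2.Mod.RE P E)) q := H753.charP_residueField P E hq hP
  refine Fermat.Agent.S18.H602.dq_ne_zero_of_coeff _ (-(a : ℤ)) ?_
  have h1 : (H708.red (_root_.Fermat.Agent.A2.Mod.RE P E) (H708.castA (_root_.Fermat.Agent.A2.Mod.RE P E) g)).coeff (-(a : ℤ)) = 1 := by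
    show IsLocalRing.residue (_root_.Fermat.Agent.A2.Mod.RE P E) (((g.coeff (-(a : ℤ)) : ℤ) : _root_.Fermat.Agent.A2.Mod.RE P E)) = 1
    rw [hg.2, Int.cast_one, map_one]
  rw [h1, mul_one]
  intro h0
  rw [CharP.intCast_eq_zero_iff (ResidueField (_root_.Fermat.Agent.A2.Mod.RE P E)) q, dvd_neg, Int.natCast_dvd_natCast] at h0
  exact ha h0

end Polar

/-! ### the core -/

section Core

variable {P : ValuationSubring _root_.Fermat.Agent.A2.Mod.Qb} {E : IntermediateField ℚ _root_.Fermat.Agent.A2.Mod.Qb} {M q : ℕ} [NeZero M] [NeZero q]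
  {w : _root_.Fermat.Agent.A2.Mod.RE P E}

theorem perfectField_residue (hS : Setting P E M q w) :
    PerfectField (ResidueField (_root_.Fermat.Agent.A2.Mod.RE P E)) := by
  haveI : Fact q.Prime := ⟨hS.q_prime⟩
  haveI : CharP (ResidueField (_root_.Fermat.Agent.A2.Mod.RE P E)) q :=
    H753.charP_residueField P E hS.q_prime hS.lies_over
  haveI : ExpChar (ResidueField (_root_.Fermat.Agent.A2.Mod.RE P E)) q := ExpChar.prime hS.q_prime
  haveI : PerfectRing (ResidueField (_root_.Fermat.Agent.A2.Mod.RE P E)) q :=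
    PerfectRing.ofSurjective (ResidueField (_root_.Fermat.Agent.A2.Mod.RE P E)) q
      (fun c => H96.exists_pow_eq_residue P E hS.q_prime hS.lies_over c)
  exact PerfectRing.toPerfectField (ResidueField (_root_.Fermat.Agent.A2.Mod.RE P E)) q

/-- **`SepCoord` for a coordinate `y`** with the Gauss property, residue-independent families
and separating reductions on both components. -/
theorem sepCoord_core (hS : Setting P E M q w)
    (V : ValuationSubring (_root_.Fermat.Agent.A2.Mod.FE E (M * q))) (W : _root_.Fermat.Agent.A2.Mod.FE E (M * q) ≃ₐ[E] _root_.Fermat.Agent.A2.Mod.FE E (M * q))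
    (hV : IsVinf P E (M * q) V)
    (hu : H48.IsUnif V (algebraMap (_root_.Fermat.Agent.A2.Mod.RE P E) (_root_.Fermat.Agent.A2.Mod.FE E (M * q)) w))
    (hne : V ≠ V.comap (W : _root_.Fermat.Agent.A2.Mod.FE E (M * q) →+* _root_.Fermat.Agent.A2.Mod.FE E (M * q)))
    (y : _root_.Fermat.Agent.A2.Mod.FE E (M * q)) (hy : Transcendental E y)
    (hfin : FiniteDimensional (IntermediateField.adjoin E ({y} : Set (_root_.Fermat.Agent.A2.Mod.FE E (M * q))))
      (_root_.Fermat.Agent.A2.Mod.FE E (M * q)))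
    {n : ℕ}
    (hdeg : Module.finrank (IntermediateField.adjoin E ({y} : Set (_root_.Fermat.Agent.A2.Mod.FE E (M * q))))
      (_root_.Fermat.Agent.A2.Mod.FE E (M * q)) ≤ n + n)
    (hG₁ : Fermat.Agent.A2.H489.IsGaussOver (_root_.Fermat.Agent.A2.Mod.RE P E) V y)
    (hG₂ : Fermat.Agent.A2.H489.IsGaussOver (_root_.Fermat.Agent.A2.Mod.RE P E)
      (V.comap (W : _root_.Fermat.Agent.A2.Mod.FE E (M * q) →+* _root_.Fermat.Agent.A2.Mod.FE E (M * q))) y)
    (b c : Fin n → _root_.Fermat.Agent.A2.Mod.FE E (M * q)) (hb : ∀ i, b i ∈ V)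
    (hc : ∀ i, c i ∈ V.comap (W : _root_.Fermat.Agent.A2.Mod.FE E (M * q) →+* _root_.Fermat.Agent.A2.Mod.FE E (M * q)))
    (hIb : IndepMod P E (M * q) V w y b)
    (hIc : IndepMod P E (M * q) (V.comap (W : _root_.Fermat.Agent.A2.Mod.FE E (M * q) →+* _root_.Fermat.Agent.A2.Mod.FE E (M * q))) w y c)
    (yb yb' : LaurentSeries (ResidueField (_root_.Fermat.Agent.A2.Mod.RE P E)))
    (h1 : (y, yb) ∈ redRel P E (M * q)) (h1' : Fermat.Agent.S18.H602.dq yb ≠ 0)
    (h2 : (W y, yb') ∈ redRel P E (M * q)) (h2' : Fermat.Agent.S18.H602.dq yb' ≠ 0) :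
    SepCoord (_root_.Fermat.Agent.A2.Mod.RE P E) E y (chartAlg P E (M * q) y) := by
  haveI hdvr : IsDiscreteValuationRing (_root_.Fermat.Agent.A2.Mod.RE P E) := hS.dvr
  haveI : PerfectField (ResidueField (_root_.Fermat.Agent.A2.Mod.RE P E)) := perfectField_residue hS
  have hw := hS.unif
  have hu₂ : H48.IsUnif (V.comap (W : _root_.Fermat.Agent.A2.Mod.FE E (M * q) →+* _root_.Fermat.Agent.A2.Mod.FE E (M * q)))
      (algebraMap (_root_.Fermat.Agent.A2.Mod.RE P E) (_root_.Fermat.Agent.A2.Mod.FE E (M * q)) w) := Fermat.Agent.A2.Mod.H489.isUnif_comap hu W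
  haveI := hfin
  have halg : ∀ f : _root_.Fermat.Agent.A2.Mod.FE E (M * q),
      IsAlgebraic (IntermediateField.adjoin E ({y} : Set (_root_.Fermat.Agent.A2.Mod.FE E (M * q)))) f :=
    fun f => Algebra.IsAlgebraic.isAlgebraic f
  refine sepCoord_of_gauss w hw y hy hfin (chartAlg P E (M * q) y) (fun f hf => hf)
    V (V.comap (W : _root_.Fermat.Agent.A2.Mod.FE E (M * q) →+* _root_.Fermat.Agent.A2.Mod.FE E (M * q))) hne hu hu₂
    hG₁.aeval_mem hG₂.aeval_mem
    (fun Q hQ => hG₁.inv_aeval_mem (fun h0 => hQ (C_dvd_of_map_residue_eq_zero hw h0)))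
    (fun Q hQ => hG₂.inv_aeval_mem (fun h0 => hQ (C_dvd_of_map_residue_eq_zero hw h0)))
    b c hb hc (fun a ha i => hIb a ha i) (fun a ha i => hIc a ha i) hdeg ?_ ?_
  · intro f hf₁ _
    obtain ⟨fb, hfb⟩ := exists_redRel hV hf₁
    obtain ⟨Pa, hPa, hPf⟩ := exists_primitive_annihilator (E := E) hw hy (halg f)
    exact exists_sep_poly_of_graph V (redRel P E (M * q)) redRel_const
      (fun g hg => redRel_ker hV hdvr hw hu hg)
      (fun g b hg hb => by
        obtain ⟨hg0, hgV, hgi, -⟩ := redRel_unit hV hg hb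
        exact val_eq_one_of_mem V hg0 hgV hgi)
      h1 h1' hfb Pa hPa hPf
  · intro f _ hf₂
    have hf₂' : W f ∈ V := hf₂
    obtain ⟨fb, hfb⟩ := exists_redRel hV hf₂'
    obtain ⟨Pa, hPa, hPf⟩ := exists_primitive_annihilator (E := E) hw hy (halg f)
    refine exists_sep_poly_of_graph (V.comap (W : _root_.Fermat.Agent.A2.Mod.FE E (M * q) →+* _root_.Fermat.Agent.A2.Mod.FE E (M * q)))
      ((redRel P E (M * q)).comap
        (RingHom.prodMap (W : _root_.Fermat.Agent.A2.Mod.FE E (M * q) →+* _root_.Fermat.Agent.A2.Mod.FE E (M * q))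
          (RingHom.id (LaurentSeries (ResidueField (_root_.Fermat.Agent.A2.Mod.RE P E))))))
      ?_ ?_ ?_ (x := y) (xb := yb') ?_ h2' (f := f) (fb := fb) ?_ Pa hPa hPf
    · intro r
      show (W (algebraMap (_root_.Fermat.Agent.A2.Mod.RE P E) (_root_.Fermat.Agent.A2.Mod.FE E (M * q)) r), cres (_root_.Fermat.Agent.A2.Mod.RE P E) r) ∈ redRel P E (M * q)
      have hWr : W (algebraMap (_root_.Fermat.Agent.A2.Mod.RE P E) (_root_.Fermat.Agent.A2.Mod.FE E (M * q)) r)
          = algebraMap (_root_.Fermat.Agent.A2.Mod.RE P E) (_root_.Fermat.Agent.A2.Mod.FE E (M * q)) r := W.commutes (r : E)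
      rw [hWr]
      exact redRel_const r
    · intro g hg
      have hg' : (W g, (0 : LaurentSeries (ResidueField (_root_.Fermat.Agent.A2.Mod.RE P E)))) ∈ redRel P E (M * q) := hg
      have h3 := redRel_ker hV hdvr hw hu hg'
      rw [← ValuationSubring.mem_nonunits_iff] at h3 ⊢
      exact (H13.mem_nonunits_comap V (W : _root_.Fermat.Agent.A2.Mod.FE E (M * q) →+* _root_.Fermat.Agent.A2.Mod.FE E (M * q)) g).mpr h3
    · intro g b hg hb
      have hg' : (W g, b) ∈ redRel P E (M * q) := hg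
      obtain ⟨hg0, hgV, hgi, -⟩ := redRel_unit hV hg' hb
      have hg00 : g ≠ 0 := fun h => hg0 (by rw [h, map_zero])
      refine val_eq_one_of_mem _ hg00 hgV ?_
      show W g⁻¹ ∈ V
      rw [map_inv₀]
      exact hgi
    · exact h2
    · exact hfb

end Core

/-! ### the two charts of `X₀(M q)` -/

section Final

variable (P : ValuationSubring _root_.Fermat.Agent.A2.Mod.Qb) (E : IntermediateField ℚ _root_.Fermat.Agent.A2.Mod.Qb) (M q : ℕ) [NeZero M] [NeZero q]
  (w : _root_.Fermat.Agent.A2.Mod.RE P E)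

theorem not_dvd_succ {q : ℕ} (hq : q.Prime) : ¬ q ∣ 1 + q := by
  intro h
  have h1 : q ∣ 1 := (Nat.dvd_add_left (dvd_refl q)).mp h
  exact hq.one_lt.ne' (Nat.dvd_one.mp h1)

theorem not_dvd_level {M q : ℕ} (hqM : ¬ q ∣ M) : ¬ q ∣ M * q + M := by
  intro h
  have h1 : q ∣ M := (Nat.dvd_add_right (dvd_mul_left q M)).mp h
  exact hqM h1

/-- **MODASM sub-assembly S4** from the leaves L1, L2, L4, L6, L8, L9, L10 (all VERBATIM). -/
theorem s4_of_leaves (hL1 : VinfExistsStatement P E) (hL2 : VinfBasicStatement P E w)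
    (hL4 : FrickeExistsStatement E) (hL6 : VzeroNeStatement P E M q w)
    (hL8 : DegStatement E M q) (hL9 : IndInfStatement P E M q w)
    (hL10 : IndZeroStatement P E M q w) : S4Statement P E M q w := by
  intro hS _ _ _ _
  haveI hdvr : IsDiscreteValuationRing (_root_.Fermat.Agent.A2.Mod.RE P E) := hS.dvr
  have hw := hS.unif
  have hq := hS.q_prime
  have hN : M * q ≠ 0 := mul_ne_zero hS.M_ne_zero hS.q_prime.ne_zero
  obtain ⟨V, hV⟩ := hL1 (M * q) hN hdvr
  obtain ⟨W, hW⟩ := hL4 (M * q) hN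
  obtain ⟨hu, hconst, hj⟩ := hL2 (M * q) hN hdvr hw V hV
  have hu₂ := Fermat.Agent.A2.Mod.H489.isUnif_comap hu W
  have hmem₁ : ∀ r : _root_.Fermat.Agent.A2.Mod.RE P E, algebraMap (_root_.Fermat.Agent.A2.Mod.RE P E) (_root_.Fermat.Agent.A2.Mod.FE E (M * q)) r ∈ V :=
    fun r => (hconst (r : E)).mpr r.2
  have hmem₂ : ∀ r : _root_.Fermat.Agent.A2.Mod.RE P E, algebraMap (_root_.Fermat.Agent.A2.Mod.RE P E) (_root_.Fermat.Agent.A2.Mod.FE E (M * q)) r ∈
      V.comap (W : _root_.Fermat.Agent.A2.Mod.FE E (M * q) →+* _root_.Fermat.Agent.A2.Mod.FE E (M * q)) := by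
    intro r
    show W (algebraMap E (_root_.Fermat.Agent.A2.Mod.FE E (M * q)) (r : E)) ∈ V
    rw [W.commutes]
    exact hmem₁ r
  have ho₁ := Fermat.Agent.A2.Mod.H489.isOver_of_unif hw hu hmem₁
  have ho₂ := Fermat.Agent.A2.Mod.H489.isOver_of_unif hw hu₂ hmem₂
  obtain ⟨b, hb, hIb⟩ := hL9 hS V hV
  obtain ⟨c, hc, hIc⟩ := hL10 hS V W hV hW
  have hx₁ : xE E M q ∈ V := mul_mem (hj 1 (one_dvd _)).1 (hj q (dvd_mul_left q M)).1
  have hx₂ : xE E M q ∈ V.comap (W : _root_.Fermat.Agent.A2.Mod.FE E (M * q) →+* _root_.Fermat.Agent.A2.Mod.FE E (M * q)) := by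
    show W (xE E M q) ∈ V
    unfold xE
    rw [map_mul, hW.1 1 (M * q) (one_dvd _) (dvd_refl _) (one_mul _),
      hW.1 q M (dvd_mul_left q M) (dvd_mul_right M q) (mul_comm q M)]
    exact mul_mem (hj _ _).1 (hj _ _).1
  have hpos : 0 < (q + 1) * dedekindPsi M :=
    Nat.mul_pos (Nat.succ_pos q) (dedekindPsi_pos_of_ne_zero M hS.M_ne_zero)
  have hP₁ := Fermat.Agent.A2.Mod.H489.polyIndepMod_of_indepMod hw hu hIb
  have hP₂ := Fermat.Agent.A2.Mod.H489.polyIndepMod_of_indepMod hw hu₂ hIc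
  have hG₁ := Fermat.Agent.A2.H489.IsGaussOver.of_polyIndepMod ho₁ hx₁ hpos hb hP₁
  have hG₂ := Fermat.Agent.A2.H489.IsGaussOver.of_polyIndepMod ho₂ hx₂ hpos hc hP₂
  have hne : V ≠ V.comap (W : _root_.Fermat.Agent.A2.Mod.FE E (M * q) →+* _root_.Fermat.Agent.A2.Mod.FE E (M * q)) :=
    fun h => hL6 hS V W hV hW h.symm
  obtain ⟨htr, hdeg, -⟩ := hL8 hS.q_prime hS.q_not_dvd
  have hfin : FiniteDimensional
      (IntermediateField.adjoin E ({xE E M q} : Set (_root_.Fermat.Agent.A2.Mod.FE E (M * q)))) (_root_.Fermat.Agent.A2.Mod.FE E (M * q)) :=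
    Module.finite_of_finrank_pos (by rw [hdeg]; omega)
  have hdeg' : Module.finrank
      (IntermediateField.adjoin E ({xE E M q} : Set (_root_.Fermat.Agent.A2.Mod.FE E (M * q)))) (_root_.Fermat.Agent.A2.Mod.FE E (M * q)) ≤
      (q + 1) * dedekindPsi M + (q + 1) * dedekindPsi M := by
    rw [hdeg]
    omega
  -- the reductions of `x` and `W x`
  obtain ⟨g, hg, e⟩ := H13.isPolar_xE (E := E) M q
  obtain ⟨g', hg', e'⟩ := H13.isPolar_fricke_xE (E := E) M q hW
  have h1 := redRel_int (P := P) e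
  have h1' := dq_red_polar P E hq hS.lies_over hg (not_dvd_succ hq)
  have h2 := redRel_int (P := P) e'
  have h2' := dq_red_polar P E hq hS.lies_over hg' (not_dvd_level hS.q_not_dvd)
  refine ⟨sepCoord_core hS V W hV hu hne (xE E M q) htr hfin hdeg' hG₁ hG₂ b c hb hc hIb hIc
    _ _ h1 h1' h2 h2', ?_⟩
  -- the chart at infinity
  have hy0 : ∀ {z : LaurentSeries (ResidueField (_root_.Fermat.Agent.A2.Mod.RE P E))},
      Fermat.Agent.S18.H602.dq z ≠ 0 → z ≠ 0 := by
    intro z hz h0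
    apply hz
    rw [h0]
    have := Fermat.Agent.S18.H602.dq_C (0 : ResidueField (_root_.Fermat.Agent.A2.Mod.RE P E))
    rwa [map_zero] at this
  have hE := Fermat.Agent.A2.H489.adjoin_inv_eq E (xE E M q)
  have key : ∀ (K : IntermediateField E (_root_.Fermat.Agent.A2.Mod.FE E (M * q))),
      K = IntermediateField.adjoin E ({xE E M q} : Set (_root_.Fermat.Agent.A2.Mod.FE E (M * q))) →
      FiniteDimensional K (_root_.Fermat.Agent.A2.Mod.FE E (M * q)) ∧
        Module.finrank K (_root_.Fermat.Agent.A2.Mod.FE E (M * q)) ≤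
          (q + 1) * dedekindPsi M + (q + 1) * dedekindPsi M := by
    rintro K rfl
    exact ⟨hfin, hdeg'⟩
  obtain ⟨hfin_i, hdeg_i⟩ := key _ hE
  have htr_i : Transcendental E (xE E M q)⁻¹ := by
    intro halg
    exact htr (by simpa using halg.inv)
  have h2i : (W (xE E M q)⁻¹, (H708.red (_root_.Fermat.Agent.A2.Mod.RE P E) (H708.castA (_root_.Fermat.Agent.A2.Mod.RE P E) g'))⁻¹)
      ∈ redRel P E (M * q) := by
    rw [map_inv₀]
    exact (redRel_unit hV h2 (hy0 h2')).2.2.2
  exact sepCoord_core hS V W hV hu hne (xE E M q)⁻¹ htr_i hfin_i hdeg_i hG₁.inv hG₂.inv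
    b c hb hc (H753.indepMod_inv P E V w (xE E M q) hx₁ b hIb)
    (H753.indepMod_inv P E _ w (xE E M q) hx₂ c hIc)
    _ _ (redRel_unit hV h1 (hy0 h1')).2.2.2 (dq_inv_ne_zero h1') h2i (dq_inv_ne_zero h2')

/-- **MODASM sub-assembly S4, unconditional.** -/
theorem s4 : S4Statement P E M q w :=
  s4_of_leaves P E M q w (H553.vinfExists P E) (H553.vinfBasic P E w) (H553.frickeExists E)
    (H553.vzeroNe P E M q w) (H31.deg E M q) (H753.indInf P E M q w) (H753.indZero P E M q w)

end Final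

end Fermat.Agent.A2.Mod.H732

end
end
-- ===== PACK-END A2/Mod/H732/S4.lean

-- ===== PACK-BEGIN S35/G/H862/Model.lean
section












/-!
# S35, piece (G') — leaf MODEL (helper862)

* `s1`, `s3` : the sub-assemblies S1, S3 of `A2/Mod/Asm.lean`, UNCONDITIONAL (wiring of the leaves
  on main: L4/L5 `H751`, L6 `H553`, L7 `H900`, L8 `H31`, L9/L10 `H753`, L11 `H378`, L12 `H96`,
  S2 `H142`, `H13.s1`, `H372.s3_of_leaves`).
* `ModelNoSepStatement` : `G.ModelStatement` WITHOUT its two `SepCoord` conjuncts;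
  `modelNoSep : ModelNoSepStatement A E M q w` UNCONDITIONAL.
* `model_of : S4Statement A E M q w → G.ModelStatement A E M q w`;
* `model : G.ModelStatement A E M q w` (VERBATIM `S35/G/SpecLevel.lean`), UNCONDITIONAL
  (S4 = `H732.s4`).
-/

set_option autoImplicit false
set_option linter.style.haveILetI false
set_option linter.unusedSectionVars false
set_option synthInstance.maxHeartbeats 400000
set_option maxHeartbeats 1600000

noncomputable section

namespace Fermat.Agent.S35.G.H862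

open ModularCurve Fermat.Agent.A2.Mod

variable (A : ValuationSubring _root_.Fermat.Agent.S35.G.Qb) (E : IntermediateField ℚ _root_.Fermat.Agent.S35.G.Qb) (M q : ℕ) [NeZero M] [NeZero q]
  (w : RE A E)

/-- **S1** (two components), unconditional. -/
theorem s1 : S1Statement A E M q w :=
  H13.s1 (H553.vzeroNe A E M q w) (H31.deg E M q) (H753.indInf A E M q w)
    (H753.indZero A E M q w)

/-- **S3** (ordinary double points), unconditional. -/
theorem s3 : S3Statement A E M q w :=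
  H372.s3_of_leaves A E M q w (H751.frickeExists E) (H751.frickeCompat E M q)
    (H900.frickeStable A E M q w) (H31.deg E M q) (H378.resInf A E M q w)
    (H96.kron A E M q w) (H142.s2 A E M q w)

/-- **MODEL without `SepCoord`**: `G.ModelStatement` minus its two `SepCoord` conjuncts. -/
def ModelNoSepStatement : Prop :=
  Setting A E M q w → A2.GoodField A E → HasAux M q →
    ∃ (V : ValuationSubring (FE E (M * q)))
      (W : FE E (M * q) ≃ₐ[E] FE E (M * q))
      (VM : ValuationSubring (FE E M)),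
      IsVinf A E (M * q) V ∧ IsFricke E (M * q) W ∧ IsVinf A E M VM ∧
      GoodRedAt A E M w VM (jE E M 1 (one_dvd _)) ∧
      GoodRedAt A E M w VM (jE E M 1 (one_dvd _))⁻¹ ∧
      A2.Mod.DegStatement E M q ∧
      ∃ (cf : A2.SSChart w (chartAlg A E (M * q) (xE E M q)))
        (ci : A2.SSChart w (chartAlg A E (M * q) (xE E M q)⁻¹)),
        CutBy w (chartAlg A E (M * q) (xE E M q)) cf V
          (V.comap (W : FE E (M * q) →+* FE E (M * q))) ∧
        CutBy w (chartAlg A E (M * q) (xE E M q)⁻¹) ci V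
          (V.comap (W : FE E (M * q) →+* FE E (M * q)))

/-- **MODEL without `SepCoord`**, unconditional. -/
theorem modelNoSep : ModelNoSepStatement A E M q w := by
  intro hS _ hAux
  have hN : M * q ≠ 0 := mul_ne_zero hS.M_ne_zero hS.q_prime.ne_zero
  obtain ⟨V, hV⟩ := H553.vinfExists A E (M * q) hN hS.dvr
  obtain ⟨VM, hVM⟩ := H553.vinfExists A E M hS.M_ne_zero hS.dvr
  obtain ⟨W, hW⟩ := H751.frickeExists E (M * q) hN
  obtain ⟨hg₁, hg₂⟩ := H216.goodRedHyp_of_dvr A E M hS.q_prime hS.q_not_dvd hAux.1 hAux.2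
    hS.lies_over hS.dvr w VM hS.unif hVM
  obtain ⟨cf, hcf⟩ := exists_chart_cutBy hS (s1 A E M q w) (H142.s2 A E M q w) (s3 A E M q w)
    VM V W hVM hV hW _ _ (Or.inl ⟨rfl, rfl⟩) hg₁
  obtain ⟨ci, hci⟩ := exists_chart_cutBy hS (s1 A E M q w) (H142.s2 A E M q w) (s3 A E M q w)
    VM V W hVM hV hW _ _ (Or.inr ⟨rfl, rfl⟩) hg₂
  exact ⟨V, W, VM, hV, hW, hVM, hg₁, hg₂, H31.deg E M q, cf, ci, hcf, hci⟩

/-- **MODEL** (`G.ModelStatement`, VERBATIM), from S4 (`SepCoord`). -/
theorem model_of (hS4 : S4Statement A E M q w) : ModelStatement A E M q w := by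
  intro hS _ hAux
  have hN : M * q ≠ 0 := mul_ne_zero hS.M_ne_zero hS.q_prime.ne_zero
  obtain ⟨V, hV⟩ := H553.vinfExists A E (M * q) hN hS.dvr
  obtain ⟨VM, hVM⟩ := H553.vinfExists A E M hS.M_ne_zero hS.dvr
  obtain ⟨W, hW⟩ := H751.frickeExists E (M * q) hN
  obtain ⟨hg₁, hg₂⟩ := H216.goodRedHyp_of_dvr A E M hS.q_prime hS.q_not_dvd hAux.1 hAux.2
    hS.lies_over hS.dvr w VM hS.unif hVM
  obtain ⟨hsf, hsi⟩ := hS4 hS VM hVM hg₁ hg₂
  obtain ⟨cf, hcf⟩ := exists_chart_cutBy hS (s1 A E M q w) (H142.s2 A E M q w) (s3 A E M q w)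
    VM V W hVM hV hW _ _ (Or.inl ⟨rfl, rfl⟩) hg₁
  obtain ⟨ci, hci⟩ := exists_chart_cutBy hS (s1 A E M q w) (H142.s2 A E M q w) (s3 A E M q w)
    VM V W hVM hV hW _ _ (Or.inr ⟨rfl, rfl⟩) hg₂
  exact ⟨V, W, VM, hV, hW, hVM, hg₁, hg₂, H31.deg E M q, hsf, hsi, cf, ci, hcf, hci⟩

/-- **MODEL** (`G.ModelStatement`, VERBATIM), UNCONDITIONAL. -/
theorem model : ModelStatement A E M q w :=
  model_of A E M q w (H732.s4 A E M q w)

end Fermat.Agent.S35.G.H862

end

end
-- ===== PACK-END S35/G/H862/Model.lean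

-- ===== PACK-BEGIN A2/Mod/H994/S2.lean
section







/-!
# WALL A2 / MODASM — S2 (components normal), concrete part (helper994)

`s2_of_resInf : ResInfStatement P E M q w → S2Statement P E M q w`.

Inputs from main: L2 (`H553.vinfBasic`), L5 (`H553.frickeCompat`), L7 (`H900.frickeStable`),
L13 (`H873.chartCompat`), Frobenius congruence (`H528.exists_frobCong`), and the abstract core
`isIntegrallyClosed_quotient_of_residue` (`S2Abs.lean`).  The only open input is L11 (`ResInf`).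
-/

set_option autoImplicit false
set_option linter.unusedSectionVars false
set_option linter.style.haveILetI false
set_option synthInstance.maxHeartbeats 400000
set_option maxHeartbeats 1600000

noncomputable section

namespace Fermat.Agent.A2.Mod.H994

open ModularCurve HahnSeries Polynomial
open Fermat.Agent.A2 Fermat.Agent.A2.Mod

section Prelim

variable {P : ValuationSubring _root_.Fermat.Agent.A2.Mod.Qb} {E : IntermediateField ℚ _root_.Fermat.Agent.A2.Mod.Qb}

/-- `InW` in terms of the valuation. -/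
theorem inW_iff_val {N : ℕ} {V : ValuationSubring (_root_.Fermat.Agent.A2.Mod.FE E N)} {w : _root_.Fermat.Agent.A2.Mod.RE P E}
    (hU : H48.IsUnif V (cE P E N w)) {f : _root_.Fermat.Agent.A2.Mod.FE E N} :
    InW P E N V w f ↔ V.valuation f < 1 :=
  hU.mul_inv_mem_iff

/-- Transport of a uniformiser along an automorphism fixing it. -/
theorem isUnif_comap {F : Type*} [Field F] {V : ValuationSubring F} {ϖ : F}
    (hU : H48.IsUnif V ϖ) (W : F →+* F) (hW : W ϖ = ϖ) : H48.IsUnif (V.comap W) ϖ where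
  mem := by
    rw [ValuationSubring.mem_comap, hW]
    exact hU.mem
  inv_not_mem := by
    rw [ValuationSubring.mem_comap, map_inv₀, hW]
    exact hU.inv_not_mem
  gen := by
    intro f hf hfinv
    rw [ValuationSubring.mem_comap] at hf hfinv ⊢
    rw [map_mul, map_inv₀, hW]
    rw [map_inv₀] at hfinv
    exact hU.gen _ hf hfinv

theorem val_comap_lt_one_iff {F : Type*} [Field F] {V : ValuationSubring F} {ϖ : F}
    (hU : H48.IsUnif V ϖ) (W : F →+* F) (hW : W ϖ = ϖ) {f : F} :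
    (V.comap W).valuation f < 1 ↔ V.valuation (W f) < 1 := by
  rw [← (isUnif_comap hU W hW).mul_inv_mem_iff, ← hU.mul_inv_mem_iff,
    ValuationSubring.mem_comap, map_mul, map_inv₀, hW]

/-- `α` maps `V∞` of level `M` into `V∞` of level `M q`. -/
theorem alpha_mem {M q : ℕ} [NeZero M] [NeZero q] {VM : ValuationSubring (_root_.Fermat.Agent.A2.Mod.FE E M)}
    {V : ValuationSubring (_root_.Fermat.Agent.A2.Mod.FE E (M * q))} (hVM : IsVinf P E M VM) (hV : IsVinf P E (M * q) V)
    {g : _root_.Fermat.Agent.A2.Mod.FE E M} (hg : g ∈ VM) : αE E M q g ∈ V := by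
  rw [hV, coe_heckeAlphaBar]
  obtain ⟨U₁, U₂, hred, hmem, heq⟩ := (hVM g).1 hg
  refine ⟨U₁, U₂, hred, ?_, heq⟩
  have h1 := (αE E M q ⟨_, hmem⟩).2
  rw [coe_heckeAlphaBar] at h1
  exact h1

end Prelim

section Frob

variable {P : ValuationSubring _root_.Fermat.Agent.A2.Mod.Qb} {E : IntermediateField ℚ _root_.Fermat.Agent.A2.Mod.Qb}

/-- the residue characteristic is a non-unit of `V∞` -/
theorem val_natCast_lt_one {N q : ℕ} [NeZero q] [IsNoetherianRing ↥(_root_.Fermat.Agent.A2.Mod.RE P E)]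
    (hP : P.LiesOverPrime q) {V : ValuationSubring (_root_.Fermat.Agent.A2.Mod.FE E N)} (hV : IsVinf P E N V) :
    V.valuation (algebraMap ↥E ↥(_root_.Fermat.Agent.A2.Mod.FE E N) (q : ↥E)) < 1 := by
  by_contra hcon
  have hq0 : (q : ↥E) ≠ 0 := by exact_mod_cast NeZero.ne q
  have hqF : algebraMap ↥E ↥(_root_.Fermat.Agent.A2.Mod.FE E N) (q : ↥E) ≠ 0 :=
    (map_ne_zero_iff _ (algebraMap ↥E ↥(_root_.Fermat.Agent.A2.Mod.FE E N)).injective).mpr hq0
  have h1 : 1 ≤ V.valuation (algebraMap ↥E ↥(_root_.Fermat.Agent.A2.Mod.FE E N) (q : ↥E)) := not_lt.1 hcon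
  have h2 : (algebraMap ↥E ↥(_root_.Fermat.Agent.A2.Mod.FE E N) (q : ↥E))⁻¹ ∈ V := by
    rw [← V.valuation_le_one_iff, map_inv₀]
    exact inv_le_one_of_one_le₀ h1
  have h3 : (algebraMap ↥E ↥(_root_.Fermat.Agent.A2.Mod.FE E N) (q : ↥E))⁻¹ =
      algebraMap ↥E ↥(_root_.Fermat.Agent.A2.Mod.FE E N) ((q : ↥E)⁻¹) := (map_inv₀ _ _).symm
  rw [h3] at h2
  have h4 : ((q : ↥E)⁻¹) ∈ _root_.Fermat.Agent.A2.Mod.RE P E := (H553.algebraMap_mem_iff P E hV _).mp h2
  have h5 : ((q : _root_.Fermat.Agent.A2.Mod.Qb)⁻¹) ∈ P := by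
    have : (((q : ↥E)⁻¹ : ↥E) : _root_.Fermat.Agent.A2.Mod.Qb) ∈ P := h4
    simpa using this
  have h6 : (q : _root_.Fermat.Agent.A2.Mod.Qb) ∈ P.nonunits := hP
  rw [ValuationSubring.mem_nonunits_iff] at h6
  have h7 : P.valuation ((q : _root_.Fermat.Agent.A2.Mod.Qb)⁻¹) ≤ 1 := (P.valuation_le_one_iff _).mpr h5
  rw [map_inv₀] at h7
  have hq0' : P.valuation (q : _root_.Fermat.Agent.A2.Mod.Qb) ≠ 0 := by
    rw [Valuation.ne_zero_iff]
    exact_mod_cast NeZero.ne q
  have h8 : 1 ≤ P.valuation (q : _root_.Fermat.Agent.A2.Mod.Qb) := (inv_le_one₀ (zero_lt_iff.mpr hq0')).mp h7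
  exact absurd h6 (not_lt.mpr h8)

/-- **Frobenius congruence in `V∞`**: a function whose expansion is `x(t^q) - x(t)^q`,
`x` an integral series, is a non-unit of `V∞`. -/
theorem val_frob_lt_one {N q : ℕ} [NeZero q] [Fact q.Prime] [IsNoetherianRing ↥(_root_.Fermat.Agent.A2.Mod.RE P E)]
    (hP : P.LiesOverPrime q) {V : ValuationSubring (_root_.Fermat.Agent.A2.Mod.FE E N)} (hV : IsVinf P E N V)
    (x : LaurentSeries ℤ) {f : _root_.Fermat.Agent.A2.Mod.FE E N}
    (hf : (f : LaurentSeries ↥E) = coeffEmb (↥E) (H708.castQ (qExpand ℤ q x - x ^ q))) :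
    V.valuation f < 1 := by
  obtain ⟨g, hg⟩ := H528.exists_frobCong q x
  have hq0 : (q : ↥E) ≠ 0 := by exact_mod_cast NeZero.ne q
  have hqF : algebraMap ↥E ↥(_root_.Fermat.Agent.A2.Mod.FE E N) (q : ↥E) ≠ 0 :=
    (map_ne_zero_iff _ (algebraMap ↥E ↥(_root_.Fermat.Agent.A2.Mod.FE E N)).injective).mpr hq0
  have hqS : algebraMap (↥E) (LaurentSeries ↥E) (q : ↥E) ≠ 0 :=
    (map_ne_zero_iff _ (algebraMap (↥E) (LaurentSeries ↥E)).injective).mpr hq0
  have hf' : (f : LaurentSeries ↥E) =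
      algebraMap (↥E) (LaurentSeries ↥E) (q : ↥E) * coeffEmb (↥E) (H708.castQ g) := by
    rw [hf, hg, map_mul, map_mul]
    congr 1
    ext n
    simp [coeffEmb, H708.castQ]
  set g' : ↥(_root_.Fermat.Agent.A2.Mod.FE E N) := (algebraMap ↥E ↥(_root_.Fermat.Agent.A2.Mod.FE E N) (q : ↥E))⁻¹ * f with hg'
  have hcoe : ((g' : ↥(_root_.Fermat.Agent.A2.Mod.FE E N)) : LaurentSeries ↥E) = coeffEmb (↥E) (H708.castQ g) := by
    have h1 : ((g' : ↥(_root_.Fermat.Agent.A2.Mod.FE E N)) : LaurentSeries ↥E) =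
        (algebraMap (↥E) (LaurentSeries ↥E) (q : ↥E))⁻¹ * (f : LaurentSeries ↥E) := by
      rw [hg', IntermediateField.coe_mul, IntermediateField.coe_inv]
      rfl
    rw [h1, hf', ← mul_assoc, inv_mul_cancel₀ hqS, one_mul]
  have hg'V : g' ∈ V := H553.mem_of_int hV hcoe
  have hfeq : f = algebraMap ↥E ↥(_root_.Fermat.Agent.A2.Mod.FE E N) (q : ↥E) * g' := by
    rw [hg', ← mul_assoc, mul_inv_cancel₀ hqF, one_mul]
  rw [hfeq, map_mul]
  calc V.valuation (algebraMap ↥E ↥(_root_.Fermat.Agent.A2.Mod.FE E N) (q : ↥E)) * V.valuation g'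
      ≤ V.valuation (algebraMap ↥E ↥(_root_.Fermat.Agent.A2.Mod.FE E N) (q : ↥E)) * 1 :=
        mul_le_mul' le_rfl ((V.valuation_le_one_iff _).2 hg'V)
    _ = V.valuation (algebraMap ↥E ↥(_root_.Fermat.Agent.A2.Mod.FE E N) (q : ↥E)) := mul_one _
    _ < 1 := val_natCast_lt_one hP hV

end Frob

section Kron

variable {P : ValuationSubring _root_.Fermat.Agent.A2.Mod.Qb} {E : IntermediateField ℚ _root_.Fermat.Agent.A2.Mod.Qb} {M q : ℕ} [NeZero M] [NeZero q]
  [NeZero (M * q)]

/-- `j_q ≡ j^q` modulo `𝔪_{V∞}` -/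
theorem val_frobInf [Fact q.Prime] [IsNoetherianRing ↥(_root_.Fermat.Agent.A2.Mod.RE P E)] (hP : P.LiesOverPrime q)
    {V : ValuationSubring (_root_.Fermat.Agent.A2.Mod.FE E (M * q))} (hV : IsVinf P E (M * q) V) :
    V.valuation (jE E (M * q) q (dvd_mul_left q M) - jE E (M * q) 1 (one_dvd _) ^ q) < 1 := by
  refine val_frob_lt_one hP hV (H708.jInt 1) ?_
  rw [← H553.jInt_eq_qExpand q]
  exact H553.coe_frobE E M q

/-- `j_{Mq} ≡ j_M^q` modulo `𝔪_{V∞}` -/
theorem val_frobZero [Fact q.Prime] [IsNoetherianRing ↥(_root_.Fermat.Agent.A2.Mod.RE P E)] (hP : P.LiesOverPrime q)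
    {V : ValuationSubring (_root_.Fermat.Agent.A2.Mod.FE E (M * q))} (hV : IsVinf P E (M * q) V) :
    V.valuation (jE E (M * q) (M * q) dvd_rfl - jE E (M * q) M (dvd_mul_right M q) ^ q) < 1 := by
  refine val_frob_lt_one hP hV (H708.jInt M) ?_
  have h1 : qExpand ℤ q (H708.jInt M) = H708.jInt (M * q) := by
    rw [H553.jInt_eq_qExpand M, qExpand_qExpand, H553.jInt_eq_qExpand (M * q)]
    exact qExpand_congr (mul_comm q M) _
  rw [h1, map_sub, map_sub, map_pow, map_pow, ← H553.coe_jE (E := E) (M * q) (M * q) dvd_rfl,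
    ← H553.coe_jE (E := E) (M * q) M (dvd_mul_right M q)]
  rfl

theorem βE_jE_one :
    βE E M q (jE E M 1 (one_dvd _)) = jE E (M * q) q (dvd_mul_left q M) := by
  apply Subtype.ext
  show qExpand (↥E) q (coeffEmb (↥E) (qExpand ℚ 1 jq)) = coeffEmb (↥E) (qExpand ℚ q jq)
  rw [qExpand_one_apply, coeffEmb, ← coeffMap_qExpand]

theorem αE_jE_one :
    αE E M q (jE E M 1 (one_dvd _)) = jE E (M * q) 1 (one_dvd _) :=
  Subtype.ext rfl

/-- units `a ≡ b` have `a⁻¹ ≡ b⁻¹` -/
theorem val_inv_sub_inv_lt_one {F : Type*} [Field F] (V : ValuationSubring F) {a b : F}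
    (ha : a⁻¹ ∈ V) (hb : b⁻¹ ∈ V) (ha0 : a ≠ 0) (hb0 : b ≠ 0)
    (h : V.valuation (a - b) < 1) : V.valuation (a⁻¹ - b⁻¹) < 1 := by
  have h1 : a⁻¹ - b⁻¹ = -((a - b) * (a⁻¹ * b⁻¹)) := by
    field_simp
    ring
  rw [h1, Valuation.map_neg, map_mul]
  calc V.valuation (a - b) * V.valuation (a⁻¹ * b⁻¹)
      ≤ V.valuation (a - b) * 1 :=
        mul_le_mul' le_rfl ((V.valuation_le_one_iff _).2 (V.mul_mem _ _ ha hb))
    _ = V.valuation (a - b) := mul_one _
    _ < 1 := h

theorem val_mul_lt_one {F : Type*} [Field F] (V : ValuationSubring F) {a b : F}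
    (ha : a ∈ V) (h : V.valuation b < 1) : V.valuation (a * b) < 1 := by
  rw [map_mul]
  calc V.valuation a * V.valuation b ≤ 1 * V.valuation b :=
        mul_le_mul' ((V.valuation_le_one_iff _).2 ha) le_rfl
    _ = V.valuation b := one_mul _
    _ < 1 := h

end Kron

section Core

variable {P : ValuationSubring _root_.Fermat.Agent.A2.Mod.Qb} {E : IntermediateField ℚ _root_.Fermat.Agent.A2.Mod.Qb} {M q : ℕ} [NeZero M] [NeZero q]
  {w : _root_.Fermat.Agent.A2.Mod.RE P E}

/-- chart membership in `IsIntegral` form -/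
theorem isIntegral_of_mem_chart {N : ℕ} {y b : _root_.Fermat.Agent.A2.Mod.FE E N} (hb : b ∈ chart P E N y) :
    IsIntegral (Algebra.adjoin (_root_.Fermat.Agent.A2.Mod.RE P E) ({y} : Set (_root_.Fermat.Agent.A2.Mod.FE E N))) b := by
  obtain ⟨p, hp, hpb⟩ := hb
  refine isIntegral_adjoin_of_eval₂_self p hp ?_
  have h : (Polynomial.aeval (R := _root_.Fermat.Agent.A2.Mod.RE P E) y).toRingHom =
      Polynomial.eval₂RingHom ((algebraMap E (_root_.Fermat.Agent.A2.Mod.FE E N)).comp (_root_.Fermat.Agent.A2.Mod.RE P E).subtype) y := by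
    apply Polynomial.ringHom_ext
    · intro r
      simp
      rfl
    · simp
  rw [h]
  exact hpb

theorem mem_chartAlg_of_mem_chart {N : ℕ} {y b : _root_.Fermat.Agent.A2.Mod.FE E N} (hb : b ∈ chart P E N y) :
    b ∈ chartAlg P E N y :=
  isIntegral_of_mem_chart hb

/-- the image of `R_E[y]` lies in the chart -/
theorem aeval_mem_chart {N : ℕ} (y : _root_.Fermat.Agent.A2.Mod.FE E N) (a : Polynomial (_root_.Fermat.Agent.A2.Mod.RE P E)) :
    Polynomial.aeval (R := _root_.Fermat.Agent.A2.Mod.RE P E) y a ∈ chart P E N y := by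
  refine ⟨Polynomial.X - Polynomial.C a, Polynomial.monic_X_sub_C a, ?_⟩
  rw [Polynomial.eval₂_sub, Polynomial.eval₂_X, Polynomial.eval₂_C, sub_eq_zero]
  rfl

/-- **S2 for one component**, from the data of that component. -/
theorem normal_of_data
    {VM : ValuationSubring (_root_.Fermat.Agent.A2.Mod.FE E M)} {V' : ValuationSubring (_root_.Fermat.Agent.A2.Mod.FE E (M * q))}
    (hUM : H48.IsUnif VM (cE P E M w)) (hU' : H48.IsUnif V' (cE P E (M * q) w))
    (hRVM : ∀ e : E, e ∈ _root_.Fermat.Agent.A2.Mod.RE P E → algebraMap E (_root_.Fermat.Agent.A2.Mod.FE E M) e ∈ VM)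
    (hRV' : ∀ e : E, e ∈ _root_.Fermat.Agent.A2.Mod.RE P E → algebraMap E (_root_.Fermat.Agent.A2.Mod.FE E (M * q)) e ∈ V')
    (φ : _root_.Fermat.Agent.A2.Mod.FE E M →ₐ[E] _root_.Fermat.Agent.A2.Mod.FE E (M * q))
    (hφV : ∀ g ∈ VM, φ g ∈ V')
    (hres : ∀ f ∈ V', ∃ g ∈ VM, V'.valuation (f - φ g) < 1)
    (yM : _root_.Fermat.Agent.A2.Mod.FE E M) (y : _root_.Fermat.Agent.A2.Mod.FE E (M * q))
    (hyM : yM ∈ VM) (hyV : y ∈ V')
    (hkron : V'.valuation (y - φ yM ^ (q + 1)) < 1)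
    (hφy : φ yM ∈ chartAlg P E (M * q) y)
    (hgood : GoodRedAt P E M w VM yM)
    (p : Ideal (chartAlg P E (M * q) y))
    (hp : IsCut P E (M * q) w V' (chartAlg P E (M * q) y) p) :
    IsIntegrallyClosed (chartAlg P E (M * q) y ⧸ p) := by
  refine isIntegrallyClosed_quotient_of_residue (R := _root_.Fermat.Agent.A2.Mod.RE P E) VM V'
    (φ.restrictScalars (_root_.Fermat.Agent.A2.Mod.RE P E)) yM y (q + 1) (chartAlg P E (M * q) y) (fun f => Iff.rfl) p
    (fun b => (hp b).trans (inW_iff_val hU')) (fun r => hRVM r.1 r.2) hyM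
    (fun r => hRV' r.1 r.2) hyV hφV ?_ hkron hres ?_
  · -- `φ` maps non-units to non-units
    intro g hg
    have h1 : g * (cE P E M w)⁻¹ ∈ VM := hUM.mul_inv_mem_iff.2 hg
    have h2 := hφV _ h1
    rw [map_mul, map_inv₀] at h2
    have h3 : φ (cE P E M w) = cE P E (M * q) w := φ.commutes _
    rw [h3] at h2
    exact hU'.mul_inv_mem_iff.1 h2
  · -- level-`M` normality
    intro g hg Q hQ hz
    have hsum := monic_eval₂_eq_sum (Polynomial.aeval (R := _root_.Fermat.Agent.A2.Mod.RE P E) yM).toRingHom Q hQ g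
    rw [hsum] at hz
    obtain ⟨b, hb, hbW⟩ := hgood.normal g hg
      ⟨Q.natDegree, fun i => Polynomial.aeval (R := _root_.Fermat.Agent.A2.Mod.RE P E) yM (Q.coeff i),
        fun i => aeval_mem_chart yM _, (inW_iff_val hUM).2 hz⟩
    refine ⟨b, ?_, (inW_iff_val hUM).1 hbW⟩
    obtain ⟨p', hp', hpb⟩ := hb
    refine isIntegral_adjoin_of_eval₂ (R := _root_.Fermat.Agent.A2.Mod.RE P E) (y := y) (z := φ yM) hφy p' hp' ?_
    have h1 : (φ : _root_.Fermat.Agent.A2.Mod.FE E M →+* _root_.Fermat.Agent.A2.Mod.FE E (M * q))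
        (Polynomial.eval₂
          (Polynomial.eval₂RingHom ((algebraMap E (_root_.Fermat.Agent.A2.Mod.FE E M)).comp (_root_.Fermat.Agent.A2.Mod.RE P E).subtype) yM) b p') = 0 := by
      rw [hpb, map_zero]
    rw [Polynomial.hom_eval₂] at h1
    have h2 : (φ : _root_.Fermat.Agent.A2.Mod.FE E M →+* _root_.Fermat.Agent.A2.Mod.FE E (M * q)).comp
        (Polynomial.eval₂RingHom ((algebraMap E (_root_.Fermat.Agent.A2.Mod.FE E M)).comp (_root_.Fermat.Agent.A2.Mod.RE P E).subtype) yM) =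
        (Polynomial.aeval (R := _root_.Fermat.Agent.A2.Mod.RE P E) (φ yM)).toRingHom := by
      apply Polynomial.ringHom_ext
      · intro r
        simp
        rfl
      · simp
    rw [← h2]
    exact h1

end Core

section Final

variable (P : ValuationSubring _root_.Fermat.Agent.A2.Mod.Qb) (E : IntermediateField ℚ _root_.Fermat.Agent.A2.Mod.Qb) (M q : ℕ) [NeZero M] [NeZero q]
  (w : _root_.Fermat.Agent.A2.Mod.RE P E)

/-- **MODASM S2 (components normal)** from L11 (`ResInf`); all other inputs are on main. -/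
theorem s2_of_resInf (hL11 : ResInfStatement P E M q w) : S2Statement P E M q w := by
  intro hS VM V W hVM hV hW yM y hy hgood p₁ p₂ hp₁ hp₂
  haveI : NeZero (M * q) := ⟨mul_ne_zero (NeZero.ne M) (NeZero.ne q)⟩
  haveI : Fact q.Prime := ⟨hS.q_prime⟩
  haveI := hS.dvr
  have hN0 : M * q ≠ 0 := NeZero.ne _
  obtain ⟨hUM, hEM, hjM⟩ := H553.vinfBasic P E w M hS.M_ne_zero hS.dvr hS.unif VM hVM
  obtain ⟨hU, hEV, hjV⟩ := H553.vinfBasic P E w (M * q) hN0 hS.dvr hS.unif V hV
  obtain ⟨WM, hWM⟩ := H553.frickeExists E M hS.M_ne_zero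
  have hL5 := H553.frickeCompat E M q WM W hWM hW
  have hL7 := H900.frickeStable P E M q w hS VM WM hVM hWM
  obtain ⟨hc1, hc2, hc3, hc4⟩ := H873.chartCompat P E M q hS.q_prime
  have hWc : (W : _root_.Fermat.Agent.A2.Mod.FE E (M * q) →+* _root_.Fermat.Agent.A2.Mod.FE E (M * q)) (cE P E (M * q) w) = cE P E (M * q) w :=
    W.commutes _
  have hU₀ : H48.IsUnif (V.comap (W : _root_.Fermat.Agent.A2.Mod.FE E (M * q) →+* _root_.Fermat.Agent.A2.Mod.FE E (M * q))) (cE P E (M * q) w) :=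
    isUnif_comap hU _ hWc
  -- generators
  set j1 : _root_.Fermat.Agent.A2.Mod.FE E (M * q) := jE E (M * q) 1 (one_dvd _) with hj1
  set jq : _root_.Fermat.Agent.A2.Mod.FE E (M * q) := jE E (M * q) q (dvd_mul_left q M) with hjq
  set jM : _root_.Fermat.Agent.A2.Mod.FE E (M * q) := jE E (M * q) M (dvd_mul_right M q) with hjMdef
  set jN : _root_.Fermat.Agent.A2.Mod.FE E (M * q) := jE E (M * q) (M * q) dvd_rfl with hjN
  have hx : xE E M q = j1 * jq := rfl
  have hWj1 : W j1 = jN := hW.1 1 (M * q) (one_dvd _) dvd_rfl (one_mul _)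
  have hWjq : W jq = jM := hW.1 q M (dvd_mul_left q M) (dvd_mul_right M q) (mul_comm q M)
  have hj1ne : j1 ≠ 0 := H873.jE_ne_zero E (M * q) 1 (one_dvd _)
  have hjqne : jq ≠ 0 := H873.jE_ne_zero E (M * q) q (dvd_mul_left q M)
  have hjMne : jM ≠ 0 := H873.jE_ne_zero E (M * q) M (dvd_mul_right M q)
  have hjNne : jN ≠ 0 := H873.jE_ne_zero E (M * q) (M * q) dvd_rfl
  have hαj : αE E M q (jE E M 1 (one_dvd _)) = j1 := αE_jE_one
  have hβj : βE E M q (jE E M 1 (one_dvd _)) = jq := βE_jE_one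
  -- Kronecker congruences for the generators
  have hk1 : V.valuation (j1 * jq - j1 ^ (q + 1)) < 1 := by
    have : j1 * jq - j1 ^ (q + 1) = j1 * (jq - j1 ^ q) := by ring
    rw [this]
    exact val_mul_lt_one V (hjV 1 (one_dvd _)).1 (val_frobInf hS.lies_over hV)
  have hk2 : V.valuation (jN * jM - jM ^ (q + 1)) < 1 := by
    have : jN * jM - jM ^ (q + 1) = jM * (jN - jM ^ q) := by ring
    rw [this]
    exact val_mul_lt_one V (hjV M (dvd_mul_right M q)).1 (val_frobZero hS.lies_over hV)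
  -- common data
  have hRVM : ∀ e : E, e ∈ _root_.Fermat.Agent.A2.Mod.RE P E → algebraMap E (_root_.Fermat.Agent.A2.Mod.FE E M) e ∈ VM := fun e he => (hEM e).2 he
  have hRV : ∀ e : E, e ∈ _root_.Fermat.Agent.A2.Mod.RE P E → algebraMap E (_root_.Fermat.Agent.A2.Mod.FE E (M * q)) e ∈ V := fun e he => (hEV e).2 he
  have hRV₀ : ∀ e : E, e ∈ _root_.Fermat.Agent.A2.Mod.RE P E → algebraMap E (_root_.Fermat.Agent.A2.Mod.FE E (M * q)) e ∈
      V.comap (W : _root_.Fermat.Agent.A2.Mod.FE E (M * q) →+* _root_.Fermat.Agent.A2.Mod.FE E (M * q)) := by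
    intro e he
    rw [ValuationSubring.mem_comap]
    have : (W : _root_.Fermat.Agent.A2.Mod.FE E (M * q) →+* _root_.Fermat.Agent.A2.Mod.FE E (M * q)) (algebraMap E (_root_.Fermat.Agent.A2.Mod.FE E (M * q)) e) =
        algebraMap E (_root_.Fermat.Agent.A2.Mod.FE E (M * q)) e := W.commutes e
    rw [this]
    exact hRV e he
  have hαV : ∀ g ∈ VM, αE E M q g ∈ V := fun g hg => alpha_mem hVM hV hg
  have hβV : ∀ g ∈ VM, βE E M q g ∈ V.comap (W : _root_.Fermat.Agent.A2.Mod.FE E (M * q) →+* _root_.Fermat.Agent.A2.Mod.FE E (M * q)) := by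
    intro g hg
    rw [ValuationSubring.mem_comap]
    have : (W : _root_.Fermat.Agent.A2.Mod.FE E (M * q) →+* _root_.Fermat.Agent.A2.Mod.FE E (M * q)) (βE E M q g) = αE E M q (WM g) := (hL5 g).2
    rw [this]
    exact hαV _ (hL7 g hg)
  have hresα : ∀ f ∈ V, ∃ g ∈ VM, V.valuation (f - αE E M q g) < 1 := by
    intro f hf
    obtain ⟨g, hg, h⟩ := hL11 hS VM V hVM hV f hf
    exact ⟨g, hg, (inW_iff_val hU).1 h⟩
  have hresβ : ∀ f ∈ V.comap (W : _root_.Fermat.Agent.A2.Mod.FE E (M * q) →+* _root_.Fermat.Agent.A2.Mod.FE E (M * q)), ∃ g ∈ VM,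
      (V.comap (W : _root_.Fermat.Agent.A2.Mod.FE E (M * q) →+* _root_.Fermat.Agent.A2.Mod.FE E (M * q))).valuation (f - βE E M q g) < 1 := by
    intro f hf
    rw [ValuationSubring.mem_comap] at hf
    obtain ⟨g, hg, h⟩ := hresα _ hf
    refine ⟨WM g, hL7 g hg, ?_⟩
    rw [val_comap_lt_one_iff hU _ hWc, map_sub]
    have h1 : (W : _root_.Fermat.Agent.A2.Mod.FE E (M * q) →+* _root_.Fermat.Agent.A2.Mod.FE E (M * q)) (βE E M q (WM g)) = αE E M q g := by
      have := (hL5 (WM g)).2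
      rw [hWM.2 g] at this
      exact this
    rw [h1]
    exact h
  rcases hy with ⟨rfl, rfl⟩ | ⟨rfl, rfl⟩
  · -- the finite chart
    refine ⟨?_, ?_⟩
    · refine normal_of_data hUM hU hRVM hRV (αE E M q) hαV hresα _ _
        (hjM 1 (one_dvd _)).1 ?_ ?_ ?_ hgood p₁ hp₁
      · rw [hx]
        exact V.mul_mem _ _ (hjV 1 (one_dvd _)).1 (hjV q (dvd_mul_left q M)).1
      · rw [hαj, hx]
        exact hk1
      · rw [hαj]
        exact mem_chartAlg_of_mem_chart hc1
    · refine normal_of_data hUM hU₀ hRVM hRV₀ (βE E M q) hβV hresβ _ _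
        (hjM 1 (one_dvd _)).1 ?_ ?_ ?_ hgood p₂ hp₂
      · rw [ValuationSubring.mem_comap, hx, map_mul]
        have e1 : (W : _root_.Fermat.Agent.A2.Mod.FE E (M * q) →+* _root_.Fermat.Agent.A2.Mod.FE E (M * q)) j1 = jN := hWj1
        have e2 : (W : _root_.Fermat.Agent.A2.Mod.FE E (M * q) →+* _root_.Fermat.Agent.A2.Mod.FE E (M * q)) jq = jM := hWjq
        rw [e1, e2]
        exact V.mul_mem _ _ (hjV (M * q) dvd_rfl).1 (hjV M (dvd_mul_right M q)).1
      · rw [val_comap_lt_one_iff hU _ hWc, hβj, hx, map_sub, map_mul, map_pow]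
        have e1 : (W : _root_.Fermat.Agent.A2.Mod.FE E (M * q) →+* _root_.Fermat.Agent.A2.Mod.FE E (M * q)) j1 = jN := hWj1
        have e2 : (W : _root_.Fermat.Agent.A2.Mod.FE E (M * q) →+* _root_.Fermat.Agent.A2.Mod.FE E (M * q)) jq = jM := hWjq
        rw [e1, e2]
        exact hk2
      · rw [hβj]
        exact mem_chartAlg_of_mem_chart hc2
  · -- the chart at infinity
    have hxne : xE E M q ≠ 0 := by
      rw [hx]
      exact mul_ne_zero hj1ne hjqne
    refine ⟨?_, ?_⟩
    · refine normal_of_data hUM hU hRVM hRV (αE E M q) hαV hresα _ _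
        (hjM 1 (one_dvd _)).2 ?_ ?_ ?_ hgood p₁ hp₁
      · rw [hx, mul_inv]
        exact V.mul_mem _ _ (hjV 1 (one_dvd _)).2 (hjV q (dvd_mul_left q M)).2
      · rw [map_inv₀, hαj, inv_pow, hx]
        refine val_inv_sub_inv_lt_one V ?_ ?_ (mul_ne_zero hj1ne hjqne)
          (pow_ne_zero _ hj1ne) hk1
        · rw [mul_inv]
          exact V.mul_mem _ _ (hjV 1 (one_dvd _)).2 (hjV q (dvd_mul_left q M)).2
        · rw [← inv_pow]
          exact V.pow_mem (hjV 1 (one_dvd _)).2 _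
      · rw [map_inv₀, hαj]
        exact mem_chartAlg_of_mem_chart hc3
    · refine normal_of_data hUM hU₀ hRVM hRV₀ (βE E M q) hβV hresβ _ _
        (hjM 1 (one_dvd _)).2 ?_ ?_ ?_ hgood p₂ hp₂
      · rw [ValuationSubring.mem_comap, hx, map_inv₀, map_mul, mul_inv]
        have e1 : (W : _root_.Fermat.Agent.A2.Mod.FE E (M * q) →+* _root_.Fermat.Agent.A2.Mod.FE E (M * q)) j1 = jN := hWj1
        have e2 : (W : _root_.Fermat.Agent.A2.Mod.FE E (M * q) →+* _root_.Fermat.Agent.A2.Mod.FE E (M * q)) jq = jM := hWjq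
        rw [e1, e2]
        exact V.mul_mem _ _ (hjV (M * q) dvd_rfl).2 (hjV M (dvd_mul_right M q)).2
      · rw [val_comap_lt_one_iff hU _ hWc, map_inv₀, hβj, inv_pow, hx, map_sub, map_inv₀,
          map_inv₀, map_mul, map_pow]
        have e1 : (W : _root_.Fermat.Agent.A2.Mod.FE E (M * q) →+* _root_.Fermat.Agent.A2.Mod.FE E (M * q)) j1 = jN := hWj1
        have e2 : (W : _root_.Fermat.Agent.A2.Mod.FE E (M * q) →+* _root_.Fermat.Agent.A2.Mod.FE E (M * q)) jq = jM := hWjq
        rw [e1, e2]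
        refine val_inv_sub_inv_lt_one V ?_ ?_ (mul_ne_zero hjNne hjMne)
          (pow_ne_zero _ hjMne) hk2
        · rw [mul_inv]
          exact V.mul_mem _ _ (hjV (M * q) dvd_rfl).2 (hjV M (dvd_mul_right M q)).2
        · rw [← inv_pow]
          exact V.pow_mem (hjV M (dvd_mul_right M q)).2 _
      · rw [map_inv₀, hβj]
        exact mem_chartAlg_of_mem_chart hc4

end Final

end Fermat.Agent.A2.Mod.H994

end

end
-- ===== PACK-END A2/Mod/H994/S2.lean

-- ===== PACK-BEGIN S37/H818/ModularNorm.lean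
section
/-
S37 / LEVEL TRANSFER (helper818), part 10: degrees, generation and norm compatibility for the
modular function fields (char 0), from the S28 degree API (helper988).
-/







set_option autoImplicit false
set_option linter.style.haveILetI false

noncomputable section

namespace Fermat.Agent.S37.H818

open AlgebraicCurve ModularCurve IntermediateField Fermat.Agent.S28

variable {L : Type*} [Field L] [Algebra ℚ L]

theorem natCast_ne_zero_of_prime {r : ℕ} (hr : r.Prime) : ((r : ℕ) : L) ≠ 0 := by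
  haveI : CharZero L := algebraRat.charZero L
  exact Nat.cast_ne_zero.mpr hr.ne_zero

/-- `[F_{Nℓ} : F_N] = ℓ + 1` for a prime `ℓ ∤ N`, in `finrankAlong` form. -/
theorem finrankAlong_heckeAlphaBar (N ℓ : ℕ) [NeZero N] [NeZero ℓ] (hℓ : ℓ.Prime)
    (hℓN : ¬ ℓ ∣ N) : finrankAlong L (heckeAlphaBar L N ℓ) = ℓ + 1 := by
  have h := H988.relfinrank_full_mul_prime L N ℓ (NeZero.ne N) hℓ
    (fun r hr _ => natCast_ne_zero_of_prime hr)
  rw [if_neg hℓN, ← H988.laurentBaseChange_full_eq_fullC, ← H988.laurentBaseChange_full_eq_fullC]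
    at h
  rw [← h]
  exact finrankAlong_inclusion _

/-- `[F_{Np} : F_N] = p` or `p + 1` for a prime `p`. -/
theorem finrankAlong_heckeAlphaBar' (N p : ℕ) [NeZero N] [NeZero p] (hp : p.Prime) :
    finrankAlong L (heckeAlphaBar L N p) = if p ∣ N then p else p + 1 := by
  have h := H988.relfinrank_full_mul_prime L N p (NeZero.ne N) hp
    (fun r hr _ => natCast_ne_zero_of_prime hr)
  rw [← H988.laurentBaseChange_full_eq_fullC, ← H988.laurentBaseChange_full_eq_fullC] at h
  rw [← h]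
  exact finrankAlong_inclusion _

theorem finiteAlong_heckeAlphaBar (N p : ℕ) [NeZero N] [NeZero p] (hp : p.Prime) :
    FiniteAlong L (heckeAlphaBar L N p) := by
  have h := finrankAlong_heckeAlphaBar' (L := L) N p hp
  unfold FiniteAlong
  unfold finrankAlong at h
  letI := algebraAlong (heckeAlphaBar L N p)
  refine Module.finite_of_finrank_pos ?_
  rw [h]
  split_ifs
  · exact hp.pos
  · exact Nat.succ_pos _

theorem isIntegral_heckeAlphaBar (N p : ℕ) [NeZero N] [NeZero p] (hp : p.Prime) :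
    (heckeAlphaBar L N p).toRingHom.IsIntegral := by
  have hfin := finiteAlong_heckeAlphaBar (L := L) N p hp
  letI := algebraAlong (heckeAlphaBar L N p)
  haveI : Module.Finite (FB L N) (FB L (N * p)) := hfin
  intro x
  exact Algebra.IsIntegral.isIntegral (R := FB L N) x

/-- Generation: `F_{N k ℓ} ≤ F_{N k} ⊔ F_{N ℓ}` for a prime `ℓ ∤ k`. -/
theorem FB_le_sup (N k ℓ : ℕ) [NeZero N] [NeZero k] [NeZero ℓ] (hℓ : ℓ.Prime) (hℓk : ¬ ℓ ∣ k) :
    FB L (N * k * ℓ) ≤ FB L (N * k) ⊔ FB L (N * ℓ) := by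
  have hM : N * k ≠ 0 := Nat.mul_ne_zero (NeZero.ne N) (NeZero.ne k)
  have hMℓ : N * k * ℓ ≠ 0 := Nat.mul_ne_zero hM (NeZero.ne ℓ)
  have hNℓ : N * ℓ ≠ 0 := Nat.mul_ne_zero (NeZero.ne N) (NeZero.ne ℓ)
  show laurentBaseChange L (modularFunctionFieldFull (N * k * ℓ)) ≤ _
  rw [H988.laurentBaseChange_full_eq_fullC, H988.full_le_iff L hMℓ]
  have hA : modularFunctionFieldFullC L (N * k) ≤ FB L (N * k) ⊔ FB L (N * ℓ) := by
    refine le_trans (le_of_eq ?_) le_sup_left
    exact (H988.laurentBaseChange_full_eq_fullC L (N * k)).symm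
  have hB : modularFunctionFieldFullC L (N * ℓ) ≤ FB L (N * k) ⊔ FB L (N * ℓ) := by
    refine le_trans (le_of_eq ?_) le_sup_right
    exact (H988.laurentBaseChange_full_eq_fullC L (N * ℓ)).symm
  let Φ : ℕ → Polynomial (Polynomial ℤ) := fun r =>
    if hr : r.Prime then
      (haveI : NeZero r := ⟨hr.ne_zero⟩; (Classical.choice (H807.nonempty_modPolyData (p := r) hr)).Φ)
    else 0
  have hΦ : ∀ r, r.Prime → r ∣ N * k * ℓ → H988.PhiRel L r (Φ r) := by
    intro r hr _
    haveI : NeZero r := ⟨hr.ne_zero⟩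
    have := H988.phiRel_of_modPolyData L r (Classical.choice (H807.nonempty_modPolyData (p := r) hr))
    simpa [Φ, hr] using this
  refine H988.jd_mem_of_dvd_mul Φ hM hℓ hΦ _ (fun d hd => hA (H988.jd_mem_full L hM hd)) ?_
  intro b hb
  apply hB
  apply H988.jd_mem_full L hNℓ
  have hcop : Nat.Coprime (ℓ ^ b) k :=
    Nat.Coprime.pow_left b ((Nat.Prime.coprime_iff_not_dvd hℓ).mpr hℓk)
  have h1 : ℓ ^ b ∣ k * (N * ℓ) := by
    rw [show k * (N * ℓ) = N * k * ℓ by ring]
    exact hb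
  exact hcop.dvd_of_dvd_mul_left h1

/-- **Norm compatibility for the modular `α`-square** (`ℓ` prime, `ℓ ∤ N k`). -/
theorem normCompat_modular (N k ℓ : ℕ) [NeZero N] [NeZero k] [NeZero ℓ] (hℓ : ℓ.Prime)
    (hℓN : ¬ ℓ ∣ N) (hℓk : ¬ ℓ ∣ k) :
    NormCompat (heckeAlphaBar L N ℓ) (heckeAlphaBar L N k)
      (heckeAlphaBar L (N * k) ℓ) (degenTop L N k ℓ) := by
  have hℓM : ¬ ℓ ∣ N * k := fun h => (hℓ.dvd_mul.mp h).elim hℓN hℓk
  refine normCompat_of_finrank_eq _ _ _ _ (square_alpha L N k ℓ)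
    (finiteAlong_heckeAlphaBar N ℓ hℓ) (finiteAlong_heckeAlphaBar (N * k) ℓ hℓ) ?_ ?_
  · rw [finrankAlong_heckeAlphaBar N ℓ hℓ hℓN, finrankAlong_heckeAlphaBar (N * k) ℓ hℓ hℓM]
  · exact adjoin_range_inclusion_eq_top _ _ (FB_le_sup N k ℓ hℓ hℓk)
      (finiteAlong_heckeAlphaBar (N * k) ℓ hℓ)

end Fermat.Agent.S37.H818

end

end
-- ===== PACK-END S37/H818/ModularNorm.lean

-- ===== PACK-BEGIN S35/G/H60/NormRed.lean
section






/-!
# S35 (G') / TORIC / NORM-RED (helper60): norm reduction along `α`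

`normRedAsm : NotPowStatement A E M q w → NormRedStatement A E M q w`.

`K = F_M`, `F = F_{Mq}` (algebra along `α`), `O = V∞_M`, `V₁ = V∞`, `V₂ = V₀ = V∞ ∘ W`;
`[F : K] = q + 1` (`S37.H818.finrankAlong_heckeAlphaBar`), `z = j_q`, `c = j`
(`j_q ^ q ≡ j` at `V₀`: `A2.Mod.H994.val_frobZero` after `W`), abstract theorem `norm_red_abs`.
-/

set_option autoImplicit false
set_option linter.style.haveILetI false
set_option linter.unusedSectionVars false
set_option synthInstance.maxHeartbeats 400000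
set_option maxHeartbeats 1600000

noncomputable section

namespace Fermat.Agent.S35.G.H60

open ModularCurve AlgebraicCurve HahnSeries
open Fermat.Agent.A2.Mod Fermat.Agent.S35.H253

section Generic

variable {K F : Type*} [Field K] [Field F] [Algebra K F]

/-- `V` lies over `O` as soon as `O` maps into `V` and the maximal ideal into the maximal ideal. -/
theorem over_of_map {O : ValuationSubring K} {V : ValuationSubring F}
    (hmem : ∀ a ∈ O, algebraMap K F a ∈ V)
    (hsmall : ∀ a : K, O.valuation a < 1 → V.valuation (algebraMap K F a) < 1) : Over O V := by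
  intro a
  refine ⟨fun ha => ?_, hmem a⟩
  by_contra hcon
  have h1 : 1 < O.valuation a := by
    rw [← not_le, O.valuation_le_one_iff]
    exact hcon
  have ha0 : a ≠ 0 := by
    rintro rfl
    rw [map_zero] at h1
    exact not_lt.2 zero_le_one h1
  have h2 : O.valuation a⁻¹ < 1 := by
    rw [map_inv₀]
    exact inv_lt_one_of_one_lt₀ h1
  have h3 := hsmall _ h2
  rw [map_inv₀, map_inv₀] at h3
  have h4 : V.valuation (algebraMap K F a) ≤ 1 := (V.valuation_le_one_iff _).2 ha
  have h5 : 0 < V.valuation (algebraMap K F a) := by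
    rw [Valuation.pos_iff]
    exact (map_ne_zero _).2 ha0
  have h6 : 1 < V.valuation (algebraMap K F a) := (inv_lt_one₀ h5).1 h3
  exact absurd h4 (not_le.2 h6)

end Generic

section Series

theorem coeffMap_qExpand_h60 {R S : Type*} [CommRing R] [CommRing S] (f : R →+* S) (n : ℕ)
    [NeZero n] (x : LaurentSeries R) : coeffMap f (qExpand R n x) = qExpand S n (coeffMap f x) := by
  ext k
  by_cases hk : (n : ℤ) ∣ k
  · obtain ⟨m, rfl⟩ := hk
    rw [coeffMap_coeff, qExpand_coeff_mul, qExpand_coeff_mul, coeffMap_coeff]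
  · rw [coeffMap_coeff, qExpand_coeff_of_not_dvd n _ hk, qExpand_coeff_of_not_dvd n _ hk,
      map_zero]

end Series

section Concrete

variable {A : ValuationSubring _root_.Fermat.Agent.S35.G.Qb} {E : IntermediateField ℚ _root_.Fermat.Agent.S35.G.Qb} {M q : ℕ} [NeZero M] [NeZero q]
  {w : RE A E}

/-- `β` maps `V∞` of level `M` into `V∞` of level `M q`. -/
theorem beta_mem_h60 {VM : ValuationSubring (FE E M)} {V : ValuationSubring (FE E (M * q))}
    (hVM : IsVinf A E M VM) (hV : IsVinf A E (M * q) V) {g : FE E M} (hg : g ∈ VM) :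
    βE E M q g ∈ V := by
  rw [hV, coe_heckeBetaBar]
  obtain ⟨U₁, U₂, hred, hmem, heq⟩ := (hVM g).1 hg
  refine ⟨qExpand _ q U₁, qExpand _ q U₂, ?_, ?_, ?_⟩
  · have e : A2.H708.red (RE A E) (qExpand _ q U₂) = qExpand _ q (A2.H708.red (RE A E) U₂) :=
      coeffMap_qExpand_h60 _ q U₂
    rw [e]
    exact fun h => hred (qExpand_injective q (h.trans (map_zero _).symm))
  · have h1 := (βE E M q ⟨_, hmem⟩).2
    rw [coe_heckeBetaBar] at h1
    have e : A2.H708.incl (RE A E) (qExpand _ q U₂) = qExpand _ q (A2.H708.incl (RE A E) U₂) :=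
      coeffMap_qExpand_h60 _ q U₂
    rw [e]
    exact h1
  · have e₁ : A2.H708.incl (RE A E) (qExpand _ q U₁) = qExpand _ q (A2.H708.incl (RE A E) U₁) :=
      coeffMap_qExpand_h60 _ q U₁
    have e₂ : A2.H708.incl (RE A E) (qExpand _ q U₂) = qExpand _ q (A2.H708.incl (RE A E) U₂) :=
      coeffMap_qExpand_h60 _ q U₂
    rw [e₁, e₂, ← map_mul, heq]

/-- `α` maps `V∞` of level `M` into `V₀ = V∞ ∘ W`. -/
theorem fricke_alpha_mem_h60 (hS : Setting A E M q w) {VM : ValuationSubring (FE E M)}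
    {V : ValuationSubring (FE E (M * q))} {W : FE E (M * q) ≃ₐ[E] FE E (M * q)}
    (hVM : IsVinf A E M VM) (hV : IsVinf A E (M * q) V) (hW : IsFricke E (M * q) W)
    {g : FE E M} (hg : g ∈ VM) : W (αE E M q g) ∈ V := by
  obtain ⟨WM, hWM⟩ := H553.frickeExists E M (NeZero.ne M)
  rw [(H553.frickeCompat E M q WM W hWM hW g).1]
  exact beta_mem_h60 hVM hV (H900.frickeStable A E M q w hS VM WM hVM hWM g hg)

theorem normRedAsm (A : ValuationSubring _root_.Fermat.Agent.S35.G.Qb) (E : IntermediateField ℚ _root_.Fermat.Agent.S35.G.Qb) (M q : ℕ) [NeZero M]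
    [NeZero q] (w : RE A E) : NormRedAsmStatement A E M q w := by
  intro hNP hS VM V W hVM hV hW y hy hWy U hU T hT h1 h2
  haveI := hS.dvr
  have hq := hS.q_prime
  haveI : Fact q.Prime := ⟨hq⟩
  have hN0 : M * q ≠ 0 := Nat.mul_ne_zero (NeZero.ne M) (NeZero.ne q)
  have hL2 := H553.vinfBasic A E w (M * q) hN0 hS.dvr hS.unif V hV
  have hL2M := H553.vinfBasic A E w M (NeZero.ne M) hS.dvr hS.unif VM hVM
  have hWc : (W : FE E (M * q) →+* FE E (M * q)) (cE A E (M * q) w) = cE A E (M * q) w :=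
    W.commutes _
  have hU0 : A2.H48.IsUnif (V.comap (W : FE E (M * q) →+* FE E (M * q))) (cE A E (M * q) w) :=
    H994.isUnif_comap hL2.1 _ hWc
  letI : Algebra (FE E M) (FE E (M * q)) := algebraAlong (αE E M q)
  -- the two extensions
  have hO₁ : Over VM V := fun a => H378.alpha_mem_iff hS hVM hV a
  have hO₂ : Over VM (V.comap (W : FE E (M * q) →+* FE E (M * q))) := by
    refine over_of_map (fun a ha => fricke_alpha_mem_h60 hS hVM hV hW ha) (fun a ha => ?_)
    rw [H994.val_comap_lt_one_iff hL2.1 _ hWc]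
    have ha' : InW A E M VM w a := (H994.inW_iff_val hL2M.1).2 ha
    have hcw : cE A E M w ≠ 0 := H378.cE_ne_zero hS M
    have e : a = cE A E M w * (a * (cE A E M w)⁻¹) := by
      field_simp
    have e2 : (W : FE E (M * q) →+* FE E (M * q)) (algebraMap (FE E M) (FE E (M * q)) a) =
        cE A E (M * q) w * W (αE E M q (a * (cE A E M w)⁻¹)) := by
      conv_lhs => rw [e]
      show W (αE E M q (cE A E M w * (a * (cE A E M w)⁻¹))) = _
      rw [map_mul, map_mul, H378.alpha_cE]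
      congr 1
    rw [e2, mul_comm (cE A E (M * q) w)]
    exact H994.val_mul_lt_one V (fricke_alpha_mem_h60 hS hVM hV hW ha') hL2.1.val_lt_one
  have hne : V.comap (W : FE E (M * q) →+* FE E (M * q)) ≠ V :=
    H553.vzeroNe A E M q w hS V W hV hW
  have hne₁ : ¬ V ≤ V.comap (W : FE E (M * q) →+* FE E (M * q)) :=
    A2.H48.not_le_of_ne hL2.1 hU0 (Ne.symm hne)
  have hne₂ : ¬ V.comap (W : FE E (M * q) →+* FE E (M * q)) ≤ V :=
    A2.H48.not_le_of_ne hU0 hL2.1 hne
  have hdeg : Module.finrank (FE E M) (FE E (M * q)) = q + 1 :=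
    S37.H818.finrankAlong_heckeAlphaBar (L := E) M q hq hS.q_not_dvd
  have hqO : VM.valuation ((q : ℕ) : FE E M) < 1 := by
    have h := H994.val_natCast_lt_one (N := M) (q := q) hS.lies_over hVM
    rwa [map_natCast] at h
  -- the element `z = j_q` and `c = j`
  have hz : jE E (M * q) q (dvd_mul_left q M) ∈
      V.comap (W : FE E (M * q) →+* FE E (M * q)) := by
    rw [ValuationSubring.mem_comap]
    show W (jE E (M * q) q (dvd_mul_left q M)) ∈ V
    rw [hW.1 q M (dvd_mul_left q M) (dvd_mul_right M q) (mul_comm q M)]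
    exact (hL2.2.2 M (dvd_mul_right M q)).1
  have hc : jE E M 1 (one_dvd _) ∈ VM := (hL2M.2.2 1 (one_dvd _)).1
  have hzc : (V.comap (W : FE E (M * q) →+* FE E (M * q))).valuation
      (jE E (M * q) q (dvd_mul_left q M) ^ q -
        algebraMap (FE E M) (FE E (M * q)) (jE E M 1 (one_dvd _))) < 1 := by
    rw [H994.val_comap_lt_one_iff hL2.1 _ hWc]
    have e : (W : FE E (M * q) →+* FE E (M * q))
        (jE E (M * q) q (dvd_mul_left q M) ^ q -
          algebraMap (FE E M) (FE E (M * q)) (jE E M 1 (one_dvd _))) =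
        jE E (M * q) M (dvd_mul_right M q) ^ q - jE E (M * q) (M * q) dvd_rfl := by
      show W (jE E (M * q) q (dvd_mul_left q M) ^ q - αE E M q (jE E M 1 (one_dvd _))) = _
      rw [map_sub, map_pow, hW.1 q M (dvd_mul_left q M) (dvd_mul_right M q) (mul_comm q M),
        H994.αE_jE_one, hW.1 1 (M * q) (one_dvd _) dvd_rfl (one_mul _)]
    rw [e, Valuation.map_sub_swap]
    exact H994.val_frobZero hS.lies_over hV
  have hnp : ∀ a ∈ VM, ¬ VM.valuation (a ^ q - jE E M 1 (one_dvd _)) < 1 := fun a ha h =>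
    hNP hS VM hVM a ha ((H994.inW_iff_val hL2M.1).2 h)
  have hyU : V.valuation (y - algebraMap (FE E M) (FE E (M * q)) U) < 1 :=
    (H994.inW_iff_val hL2.1).1 h1
  have hyT : (V.comap (W : FE E (M * q) →+* FE E (M * q))).valuation
      (y ^ q - algebraMap (FE E M) (FE E (M * q)) T) < 1 :=
    (H994.inW_iff_val hU0).1 h2
  obtain ⟨-, hN⟩ := norm_red_abs q hq hdeg hO₁ hO₂ hne₁ hne₂ hqO hz hc hzc hnp hy
    (show y ∈ V.comap (W : FE E (M * q) →+* FE E (M * q)) from hWy) hU hT hyU hyT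
  exact (H994.inW_iff_val hL2M.1).2 hN

end Concrete

end Fermat.Agent.S35.G.H60

end

end
-- ===== PACK-END S35/G/H60/NormRed.lean

-- ===== PACK-BEGIN A2/Mod/H485/Kron.lean
section






/-!
# A2 / MOD leaf L12 `Kron` (helper485): the Kronecker congruence, semilinear form

    theorem kron : KronStatement P E M q w

For `a ∈ V∞_M` there is `a' ∈ V∞_M` with `β a ≡ (α a')^q mod w V∞` (level `M q`).

Proof.  Write `a = U₁ / U₂` with `U₂` primitive.  The reductions `ū₁, ū₂` lie in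
`F_{M,k} = k(j̄_d : d ∣ M)` (S28 `CoreData M k`, H516 `red_mem_of_incl_mem`), and so does
`z' := Frob⁻¹(ū₁ / ū₂)` (coefficientwise inverse Frobenius; `k` is perfect because it is algebraic
over `𝔽_q`; H697 `coeffMap_mem_fullC`).  Lift `z' = w̄₁ / w̄₂` (`exists_lift`, induction on the
subfield generated by `k` and the `j̄_d`) and put `a' = W₁ / W₂`.  In characteristic `q`,
`z'^q = (Frob z')(t^q) = (ū₁/ū₂)(t^q)` (H400 `laurent_pow_char`), so the integral series
`U₁(t^q) W₂^q − W₁^q U₂(t^q)` reduces to `0`, hence is divisible by `w`, while the denominator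
`U₂(t^q) W₂^q` is primitive.
-/

set_option autoImplicit false
set_option linter.style.haveILetI false
set_option linter.unusedSectionVars false
set_option synthInstance.maxHeartbeats 400000
set_option maxHeartbeats 1600000

noncomputable section

namespace Fermat.Agent.A2.Mod.H485

open ModularCurve HahnSeries Polynomial Fermat.Agent.A2 Fermat.Agent.A2.Mod

/-! ### the residue field of `R_E` -/

section residue

variable (P : ValuationSubring _root_.Fermat.Agent.A2.Mod.Qb) (E : IntermediateField ℚ _root_.Fermat.Agent.A2.Mod.Qb)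

theorem liesOver_RE {q : ℕ} (hP : P.LiesOverPrime q) : (_root_.Fermat.Agent.A2.Mod.RE P E).LiesOverPrime q := by
  show (_root_.Fermat.Agent.A2.Mod.RE P E).valuation ((q : ℕ) : E) < 1
  have hmem : ((q : ℕ) : E) ∈ _root_.Fermat.Agent.A2.Mod.RE P E := natCast_mem _ q
  by_contra hcon
  have hle : (_root_.Fermat.Agent.A2.Mod.RE P E).valuation ((q : ℕ) : E) ≤ 1 :=
    (ValuationSubring.valuation_le_one_iff _ _).mpr hmem
  have heq : (_root_.Fermat.Agent.A2.Mod.RE P E).valuation ((q : ℕ) : E) = 1 := le_antisymm hle (not_lt.mp hcon)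
  have hu : IsUnit (⟨((q : ℕ) : E), hmem⟩ : _root_.Fermat.Agent.A2.Mod.RE P E) :=
    (ValuationSubring.valuation_eq_one_iff _ _).mpr heq
  obtain ⟨u, hu'⟩ := isUnit_iff_exists_inv.mp hu
  have h1 : ((q : ℕ) : _root_.Fermat.Agent.A2.Mod.Qb) * ((u : E) : _root_.Fermat.Agent.A2.Mod.Qb) = 1 := by
    have := congrArg (fun x : _root_.Fermat.Agent.A2.Mod.RE P E => ((x : E) : _root_.Fermat.Agent.A2.Mod.Qb)) hu'
    simpa using this
  have hPq : P.valuation ((q : ℕ) : _root_.Fermat.Agent.A2.Mod.Qb) < 1 := hP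
  have hu_mem : ((u : E) : _root_.Fermat.Agent.A2.Mod.Qb) ∈ P := u.2
  have h2 : P.valuation (((q : ℕ) : _root_.Fermat.Agent.A2.Mod.Qb) * ((u : E) : _root_.Fermat.Agent.A2.Mod.Qb)) < 1 := by
    rw [map_mul]
    exact mul_lt_one_of_lt_of_le hPq ((P.valuation_le_one_iff _).mpr hu_mem)
  rw [h1, map_one] at h2
  exact lt_irrefl _ h2

/-- every element of `R_E` is a root of a polynomial over `ℤ` which is nonzero mod `q` -/
theorem exists_polynomial_residue (r : _root_.Fermat.Agent.A2.Mod.RE P E) {q : ℕ} (hq : q.Prime) :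
    ∃ F : Polynomial ℤ, F.map (Int.castRingHom (ZMod q)) ≠ 0 ∧
      Polynomial.eval₂ (Int.castRingHom (_root_.Fermat.Agent.A2.Mod.RE P E)) r F = 0 := by
  have halgQ : IsAlgebraic ℚ ((r : E) : _root_.Fermat.Agent.A2.Mod.Qb) := (AlgebraicClosure.isAlgebraic ℚ).isAlgebraic _
  have halgZ : IsAlgebraic ℤ ((r : E) : _root_.Fermat.Agent.A2.Mod.Qb) := (IsFractionRing.isAlgebraic_iff ℤ ℚ _root_.Fermat.Agent.A2.Mod.Qb).mpr halgQ
  obtain ⟨F, hF0, hF⟩ := halgZ
  have hprim : F.primPart.IsPrimitive := Polynomial.isPrimitive_primPart F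
  have hev : Polynomial.aeval ((r : E) : _root_.Fermat.Agent.A2.Mod.Qb) F.primPart = 0 := by
    have h1 := F.eq_C_content_mul_primPart
    rw [h1, map_mul, Polynomial.aeval_C] at hF
    rcases mul_eq_zero.mp hF with h | h
    · exfalso
      have : (F.content : _root_.Fermat.Agent.A2.Mod.Qb) = 0 := by simpa using h
      have h2 : F.content = 0 := by exact_mod_cast this
      exact hF0 (Polynomial.content_eq_zero_iff.mp h2)
    · exact h
  refine ⟨F.primPart, ?_, ?_⟩
  · intro h0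
    have hdvd : Polynomial.C (q : ℤ) ∣ F.primPart := by
      rw [Polynomial.C_dvd_iff_dvd_coeff]
      intro i
      have := congrArg (fun Q : Polynomial (ZMod q) => Q.coeff i) h0
      simp only [Polynomial.coeff_map, Polynomial.coeff_zero, eq_intCast] at this
      exact (ZMod.intCast_zmod_eq_zero_iff_dvd _ _).mp this
    have hu := hprim _ hdvd
    have : IsUnit (q : ℤ) := hu
    rw [Int.isUnit_iff] at this
    have hq2 := hq.two_le
    omega
  · have hinj : Function.Injective ((algebraMap E _root_.Fermat.Agent.A2.Mod.Qb).comp (_root_.Fermat.Agent.A2.Mod.RE P E).subtype) := by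
      intro a b h
      exact Subtype.ext (Subtype.ext h)
    apply hinj
    rw [map_zero, Polynomial.hom_eval₂]
    have : (((algebraMap E _root_.Fermat.Agent.A2.Mod.Qb).comp (_root_.Fermat.Agent.A2.Mod.RE P E).subtype).comp (Int.castRingHom (_root_.Fermat.Agent.A2.Mod.RE P E))) =
        algebraMap ℤ _root_.Fermat.Agent.A2.Mod.Qb := RingHom.ext_int _ _
    rw [this]
    exact hev

theorem charP_residue {q : ℕ} [Fact q.Prime] (hP : P.LiesOverPrime q) :
    CharP (IsLocalRing.ResidueField (_root_.Fermat.Agent.A2.Mod.RE P E)) q :=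
  Fermat.Agent.S18.H516.charP_residue (_root_.Fermat.Agent.A2.Mod.RE P E) (liesOver_RE P E hP)

theorem perfectField_residue {q : ℕ} [Fact q.Prime] (hP : P.LiesOverPrime q) :
    PerfectField (IsLocalRing.ResidueField (_root_.Fermat.Agent.A2.Mod.RE P E)) := by
  have hq : q.Prime := Fact.out
  haveI : CharP (IsLocalRing.ResidueField (_root_.Fermat.Agent.A2.Mod.RE P E)) q := charP_residue P E hP
  letI : Algebra (ZMod q) (IsLocalRing.ResidueField (_root_.Fermat.Agent.A2.Mod.RE P E)) := ZMod.algebra _ q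
  haveI : Algebra.IsAlgebraic (ZMod q) (IsLocalRing.ResidueField (_root_.Fermat.Agent.A2.Mod.RE P E)) := by
    refine ⟨fun x => ?_⟩
    obtain ⟨r', rfl⟩ := IsLocalRing.residue_surjective x
    obtain ⟨F, hF0, hF⟩ := exists_polynomial_residue P E r' hq
    refine ⟨F.map (Int.castRingHom (ZMod q)), hF0, ?_⟩
    rw [Polynomial.aeval_def, Polynomial.eval₂_map]
    have h1 : (algebraMap (ZMod q) (IsLocalRing.ResidueField (_root_.Fermat.Agent.A2.Mod.RE P E))).comp
        (Int.castRingHom (ZMod q)) =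
        (IsLocalRing.residue (_root_.Fermat.Agent.A2.Mod.RE P E)).comp (Int.castRingHom (_root_.Fermat.Agent.A2.Mod.RE P E)) := RingHom.ext_int _ _
    rw [h1, ← Polynomial.hom_eval₂, hF, map_zero]
  exact Algebra.IsAlgebraic.perfectField (ZMod q)

end residue

/-! ### lifting elements of `F_{N,k}` -/

section lift

variable (P : ValuationSubring _root_.Fermat.Agent.A2.Mod.Qb) (E : IntermediateField ℚ _root_.Fermat.Agent.A2.Mod.Qb) (N : ℕ) [NeZero N]

/-- `z` is a quotient of reductions of `R_E`-integral series lying in `F_N`. -/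
def IsRedQuot (z : LaurentSeries (IsLocalRing.ResidueField (_root_.Fermat.Agent.A2.Mod.RE P E))) : Prop :=
  ∃ W₁ W₂ : LaurentSeries (_root_.Fermat.Agent.A2.Mod.RE P E),
    H708.incl (_root_.Fermat.Agent.A2.Mod.RE P E) W₁ ∈ _root_.Fermat.Agent.A2.Mod.FE E N ∧ H708.incl (_root_.Fermat.Agent.A2.Mod.RE P E) W₂ ∈ _root_.Fermat.Agent.A2.Mod.FE E N ∧
    H708.red (_root_.Fermat.Agent.A2.Mod.RE P E) W₂ ≠ 0 ∧ z * H708.red (_root_.Fermat.Agent.A2.Mod.RE P E) W₂ = H708.red (_root_.Fermat.Agent.A2.Mod.RE P E) W₁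

variable {P E N}

theorem isRedQuot_of_incl {W : LaurentSeries (_root_.Fermat.Agent.A2.Mod.RE P E)} (hW : H708.incl (_root_.Fermat.Agent.A2.Mod.RE P E) W ∈ _root_.Fermat.Agent.A2.Mod.FE E N) :
    IsRedQuot P E N (H708.red (_root_.Fermat.Agent.A2.Mod.RE P E) W) :=
  ⟨W, 1, hW, by rw [map_one]; exact one_mem _, by rw [map_one]; exact one_ne_zero,
    by rw [map_one, mul_one]⟩

theorem IsRedQuot.add {z z' : LaurentSeries (IsLocalRing.ResidueField (_root_.Fermat.Agent.A2.Mod.RE P E))}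
    (h : IsRedQuot P E N z) (h' : IsRedQuot P E N z') : IsRedQuot P E N (z + z') := by
  obtain ⟨a, b, ha, hb, hb0, hab⟩ := h
  obtain ⟨a', b', ha', hb', hb0', hab'⟩ := h'
  refine ⟨a * b' + a' * b, b * b', ?_, ?_, ?_, ?_⟩
  · rw [map_add, map_mul, map_mul]
    exact add_mem (mul_mem ha hb') (mul_mem ha' hb)
  · rw [map_mul]; exact mul_mem hb hb'
  · rw [map_mul]; exact mul_ne_zero hb0 hb0'
  · rw [map_mul, map_add, map_mul, map_mul, ← hab, ← hab']
    ring

theorem IsRedQuot.mul {z z' : LaurentSeries (IsLocalRing.ResidueField (_root_.Fermat.Agent.A2.Mod.RE P E))}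
    (h : IsRedQuot P E N z) (h' : IsRedQuot P E N z') : IsRedQuot P E N (z * z') := by
  obtain ⟨a, b, ha, hb, hb0, hab⟩ := h
  obtain ⟨a', b', ha', hb', hb0', hab'⟩ := h'
  refine ⟨a * a', b * b', ?_, ?_, ?_, ?_⟩
  · rw [map_mul]; exact mul_mem ha ha'
  · rw [map_mul]; exact mul_mem hb hb'
  · rw [map_mul]; exact mul_ne_zero hb0 hb0'
  · rw [map_mul, map_mul, ← hab, ← hab']
    ring

theorem IsRedQuot.neg {z : LaurentSeries (IsLocalRing.ResidueField (_root_.Fermat.Agent.A2.Mod.RE P E))}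
    (h : IsRedQuot P E N z) : IsRedQuot P E N (-z) := by
  obtain ⟨a, b, ha, hb, hb0, hab⟩ := h
  refine ⟨-a, b, ?_, hb, hb0, ?_⟩
  · rw [map_neg]; exact neg_mem ha
  · rw [map_neg, ← hab, neg_mul]

theorem IsRedQuot.inv {z : LaurentSeries (IsLocalRing.ResidueField (_root_.Fermat.Agent.A2.Mod.RE P E))}
    (h : IsRedQuot P E N z) : IsRedQuot P E N z⁻¹ := by
  obtain ⟨a, b, ha, hb, hb0, hab⟩ := h
  by_cases hz : z = 0
  · rw [hz, inv_zero]
    exact ⟨0, 1, by rw [map_zero]; exact zero_mem _, by rw [map_one]; exact one_mem _,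
      by rw [map_one]; exact one_ne_zero, by rw [map_zero, zero_mul]⟩
  · have ha0 : H708.red (_root_.Fermat.Agent.A2.Mod.RE P E) a ≠ 0 := by
      rw [← hab]; exact mul_ne_zero hz hb0
    refine ⟨b, a, hb, ha, ha0, ?_⟩
    rw [← hab, ← mul_assoc, inv_mul_cancel₀ hz, one_mul]

theorem isRedQuot_const (c : IsLocalRing.ResidueField (_root_.Fermat.Agent.A2.Mod.RE P E)) :
    IsRedQuot P E N (algebraMap _ (LaurentSeries (IsLocalRing.ResidueField (_root_.Fermat.Agent.A2.Mod.RE P E))) c) := by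
  obtain ⟨r, rfl⟩ := IsLocalRing.residue_surjective c
  have h := isRedQuot_of_incl (P := P) (E := E) (N := N) (W := H708.cstA (_root_.Fermat.Agent.A2.Mod.RE P E) r) (by
    rw [H708.incl_cstA]
    exact (_root_.Fermat.Agent.A2.Mod.FE E N).algebraMap_mem _)
  rw [H708.red_cstA] at h
  rwa [algebraMap_laurentSeries_eq_single]

theorem isRedQuot_jd {d : ℕ} [NeZero d] (hd : d ∣ N) :
    IsRedQuot P E N (qExpand _ d (jqModC (IsLocalRing.ResidueField (_root_.Fermat.Agent.A2.Mod.RE P E)))) := by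
  have h := isRedQuot_of_incl (P := P) (E := E) (N := N)
    (W := H708.castA (_root_.Fermat.Agent.A2.Mod.RE P E) (qExpand ℤ d (jqModC ℤ))) (by
      rw [H708.incl_castA]
      refine coeffEmb_mem_laurentBaseChange E ?_
      have : H708.castQ (qExpand ℤ d (jqModC ℤ)) = qExpand ℚ d jq := by
        rw [H708.castQ, coeffMap_qExpand, coeffMap_jqModC, jqModC_rat]
      rw [this]
      exact jqd_mem_full N hd)
  have h2 : H708.red (_root_.Fermat.Agent.A2.Mod.RE P E) (H708.castA (_root_.Fermat.Agent.A2.Mod.RE P E) (qExpand ℤ d (jqModC ℤ))) =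
      qExpand _ d (jqModC (IsLocalRing.ResidueField (_root_.Fermat.Agent.A2.Mod.RE P E))) := by
    rw [H708.red, H708.castA, coeffMap_coeffMap, coeffMap_qExpand, coeffMap_jqModC]
  rwa [h2] at h

/-- **Surjectivity of the reduction**: every element of `F_{N,k}` is a quotient of reductions
of integral series of `F_N`. -/
theorem exists_lift {z : LaurentSeries (IsLocalRing.ResidueField (_root_.Fermat.Agent.A2.Mod.RE P E))}
    (hz : z ∈ modularFunctionFieldFullC (IsLocalRing.ResidueField (_root_.Fermat.Agent.A2.Mod.RE P E)) N) :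
    IsRedQuot P E N z := by
  rw [Fermat.Agent.S37.H697.mem_fullC_iff] at hz
  induction hz using Subfield.closure_induction with
  | mem y hy =>
      rcases hy with ⟨a, rfl⟩ | ⟨d, hd, hdN, rfl⟩
      · exact isRedQuot_const a
      · haveI := hd
        exact isRedQuot_jd hdN
  | one =>
      have h := isRedQuot_of_incl (P := P) (E := E) (N := N) (W := 1) (by
        rw [map_one]; exact one_mem _)
      rwa [map_one] at h
  | add x y _ _ hx hy => exact hx.add hy
  | neg x _ hx => exact hx.neg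
  | inv x _ hx => exact hx.inv
  | mul x y _ _ hx hy => exact hx.mul hy

end lift

/-! ### the leaf -/

section kron

variable (P : ValuationSubring _root_.Fermat.Agent.A2.Mod.Qb) (E : IntermediateField ℚ _root_.Fermat.Agent.A2.Mod.Qb) (M q : ℕ) [NeZero M] [NeZero q]
  (w : _root_.Fermat.Agent.A2.Mod.RE P E)

/-- a series over `R_E` with zero reduction is `w` times a series over `R_E` -/
theorem exists_incl_eq_cst_inv_mul (hdvr : IsDiscreteValuationRing (_root_.Fermat.Agent.A2.Mod.RE P E))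
    (hw : Irreducible w) {X : LaurentSeries (_root_.Fermat.Agent.A2.Mod.RE P E)} (hX : H708.red (_root_.Fermat.Agent.A2.Mod.RE P E) X = 0) :
    ∃ X' : LaurentSeries (_root_.Fermat.Agent.A2.Mod.RE P E),
      H708.incl (_root_.Fermat.Agent.A2.Mod.RE P E) X' = H708.cst ((w : E)⁻¹) * H708.incl (_root_.Fermat.Agent.A2.Mod.RE P E) X := by
  apply H708.exists_incl_eq
  intro n
  rw [H708.coeff_cst_mul, H708.coeff_incl]
  have h1 : X.coeff n ∈ IsLocalRing.maximalIdeal (_root_.Fermat.Agent.A2.Mod.RE P E) := by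
    have := congrArg (fun z => z.coeff n) hX
    simpa only [coeffMap_coeff, HahnSeries.coeff_zero, IsLocalRing.residue_eq_zero_iff] using this
  rw [(IsDiscreteValuationRing.irreducible_iff_uniformizer w).mp hw,
    Ideal.mem_span_singleton'] at h1
  obtain ⟨y, hy⟩ := h1
  have hw0 : (w : E) ≠ 0 := fun h => hw.ne_zero (Subtype.ext h)
  have h2 : ((X.coeff n : _root_.Fermat.Agent.A2.Mod.RE P E) : E) = (y : E) * (w : E) := by
    rw [← hy]; rfl
  rw [h2, mul_comm (y : E), ← mul_assoc, inv_mul_cancel₀ hw0, one_mul]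
  exact y.2

/-- **L12 (Kronecker congruence, semilinear form).** -/
theorem kron : KronStatement P E M q w := by
  intro hS VM V hVM hV a ha
  haveI : Fact q.Prime := ⟨hS.q_prime⟩
  haveI : CharP (IsLocalRing.ResidueField (_root_.Fermat.Agent.A2.Mod.RE P E)) q := charP_residue P E hS.lies_over
  haveI : PerfectField (IsLocalRing.ResidueField (_root_.Fermat.Agent.A2.Mod.RE P E)) :=
    perfectField_residue P E hS.lies_over
  haveI : ExpChar (IsLocalRing.ResidueField (_root_.Fermat.Agent.A2.Mod.RE P E)) q := ExpChar.prime hS.q_prime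
  have core : Fermat.Agent.S28.CoreData M (IsLocalRing.ResidueField (_root_.Fermat.Agent.A2.Mod.RE P E)) :=
    Fermat.Agent.S18.H516.coreData_of_charP M q hS.q_not_dvd _
  -- the representation of `a`
  obtain ⟨U₁, U₂, hU₂r, hU₂m, hU⟩ := (hVM a).mp ha
  have hU₁m : H708.incl (_root_.Fermat.Agent.A2.Mod.RE P E) U₁ ∈ _root_.Fermat.Agent.A2.Mod.FE E M := by
    rw [← hU]; exact mul_mem a.2 hU₂m
  have hu₁ := Fermat.Agent.S18.H516.red_mem_of_incl_mem (_root_.Fermat.Agent.A2.Mod.RE P E)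
    (IsLocalRing.residue (_root_.Fermat.Agent.A2.Mod.RE P E)) M core hU₁m
  have hu₂ := Fermat.Agent.S18.H516.red_mem_of_incl_mem (_root_.Fermat.Agent.A2.Mod.RE P E)
    (IsLocalRing.residue (_root_.Fermat.Agent.A2.Mod.RE P E)) M core hU₂m
  -- the twisted residue and its lift
  set u₁ := H708.red (_root_.Fermat.Agent.A2.Mod.RE P E) U₁ with hu₁def
  set u₂ := H708.red (_root_.Fermat.Agent.A2.Mod.RE P E) U₂ with hu₂def
  have hz : u₁ * u₂⁻¹ ∈ modularFunctionFieldFullC (IsLocalRing.ResidueField (_root_.Fermat.Agent.A2.Mod.RE P E)) M :=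
    mul_mem hu₁ (inv_mem hu₂)
  set φ : IsLocalRing.ResidueField (_root_.Fermat.Agent.A2.Mod.RE P E) →+* IsLocalRing.ResidueField (_root_.Fermat.Agent.A2.Mod.RE P E) :=
    (frobeniusEquiv (IsLocalRing.ResidueField (_root_.Fermat.Agent.A2.Mod.RE P E)) q).symm.toRingHom with hφ
  have hz' := Fermat.Agent.S37.H697.coeffMap_mem_fullC M φ hz
  obtain ⟨W₁, W₂, hW₁m, hW₂m, hW₂r, hW⟩ := exists_lift (P := P) (E := E) hz'
  set v₁ := H708.red (_root_.Fermat.Agent.A2.Mod.RE P E) W₁ with hv₁def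
  set v₂ := H708.red (_root_.Fermat.Agent.A2.Mod.RE P E) W₂ with hv₂def
  have hW₂0 : H708.incl (_root_.Fermat.Agent.A2.Mod.RE P E) W₂ ≠ 0 :=
    H708.incl_ne_zero _ (H708.ne_zero_of_red_ne_zero _ hW₂r)
  -- the element `a'`
  refine ⟨⟨H708.incl (_root_.Fermat.Agent.A2.Mod.RE P E) W₁ * (H708.incl (_root_.Fermat.Agent.A2.Mod.RE P E) W₂)⁻¹,
    mul_mem hW₁m (inv_mem hW₂m)⟩, (hVM _).mpr ⟨W₁, W₂, hW₂r, hW₂m, ?_⟩, ?_⟩
  · show H708.incl (_root_.Fermat.Agent.A2.Mod.RE P E) W₁ * (H708.incl (_root_.Fermat.Agent.A2.Mod.RE P E) W₂)⁻¹ * H708.incl (_root_.Fermat.Agent.A2.Mod.RE P E) W₂ = _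
    rw [inv_mul_cancel_right₀ hW₂0]
  -- the congruence
  have hfrob : (ModularCurve.coeffMap φ (u₁ * u₂⁻¹)) ^ q = qExpand _ q (u₁ * u₂⁻¹) := by
    rw [Fermat.Agent.S37.H400.laurent_pow_char q, coeffMap_coeffMap]
    congr 1
    have : (frobenius (IsLocalRing.ResidueField (_root_.Fermat.Agent.A2.Mod.RE P E)) q).comp φ = RingHom.id _ := by
      ext x
      simp [hφ]
    rw [this, coeffMap_id]
  have hred : H708.red (_root_.Fermat.Agent.A2.Mod.RE P E)
      (qExpand (_root_.Fermat.Agent.A2.Mod.RE P E) q U₁ * W₂ ^ q - W₁ ^ q * qExpand (_root_.Fermat.Agent.A2.Mod.RE P E) q U₂) = 0 := by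
    rw [map_sub, map_mul, map_mul, map_pow, map_pow, coeffMap_qExpand, coeffMap_qExpand,
      ← hu₁def, ← hu₂def, ← hv₁def, ← hv₂def, ← hW, mul_pow, hfrob]
    have h1 : qExpand (IsLocalRing.ResidueField (_root_.Fermat.Agent.A2.Mod.RE P E)) q (u₁ * u₂⁻¹) *
        qExpand _ q u₂ = qExpand _ q u₁ := by
      rw [← map_mul, inv_mul_cancel_right₀ hU₂r]
    rw [← h1]
    ring
  obtain ⟨X', hX'⟩ := exists_incl_eq_cst_inv_mul P E w hS.dvr hS.unif hred
  have hw0 : (w : E) ≠ 0 := fun h => hS.unif.ne_zero (Subtype.ext h)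
  rw [InW, hV]
  refine ⟨X', qExpand (_root_.Fermat.Agent.A2.Mod.RE P E) q U₂ * W₂ ^ q, ?_, ?_, ?_⟩
  · rw [map_mul, map_pow, coeffMap_qExpand]
    exact mul_ne_zero (fun h => hU₂r (qExpand_injective q (h.trans (map_zero _).symm)))
      (pow_ne_zero _ hW₂r)
  · rw [map_mul, map_pow, coeffMap_qExpand]
    refine mul_mem ?_ (pow_mem ?_ q)
    · exact (βE E M q ⟨_, hU₂m⟩).2
    · exact (αE E M q ⟨_, hW₂m⟩).2
  · rw [hX']
    simp only [map_sub, map_mul, map_pow, coeffMap_qExpand]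
    have hAB : qExpand E q (a : LaurentSeries E) * qExpand E q (H708.incl (_root_.Fermat.Agent.A2.Mod.RE P E) U₂) =
        qExpand E q (H708.incl (_root_.Fermat.Agent.A2.Mod.RE P E) U₁) := by
      rw [← map_mul, hU]
    have h1 : (H708.incl (_root_.Fermat.Agent.A2.Mod.RE P E) W₁ * (H708.incl (_root_.Fermat.Agent.A2.Mod.RE P E) W₂)⁻¹) ^ q *
        (H708.incl (_root_.Fermat.Agent.A2.Mod.RE P E) W₂) ^ q = (H708.incl (_root_.Fermat.Agent.A2.Mod.RE P E) W₁) ^ q := by
      rw [← mul_pow, inv_mul_cancel_right₀ hW₂0]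
    have hc : ((cE P E (M * q) w : _root_.Fermat.Agent.A2.Mod.FE E (M * q)) : LaurentSeries E) = H708.cst (w : E) := rfl
    have hcinv : H708.cst ((w : E)⁻¹) = (H708.cst (w : E))⁻¹ := map_inv₀ _ _
    show (qExpand E q (a : LaurentSeries E) -
        (H708.incl (_root_.Fermat.Agent.A2.Mod.RE P E) W₁ * (H708.incl (_root_.Fermat.Agent.A2.Mod.RE P E) W₂)⁻¹) ^ q) *
        ((cE P E (M * q) w : _root_.Fermat.Agent.A2.Mod.FE E (M * q)) : LaurentSeries E)⁻¹ * _ = _
    rw [hc, hcinv]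
    linear_combination ((H708.cst (w : E))⁻¹ * (H708.incl (_root_.Fermat.Agent.A2.Mod.RE P E) W₂) ^ q) * hAB -
      ((H708.cst (w : E))⁻¹ * qExpand E q (H708.incl (_root_.Fermat.Agent.A2.Mod.RE P E) U₂)) * h1

end kron

end Fermat.Agent.A2.Mod.H485

end
end
-- ===== PACK-END A2/Mod/H485/Kron.lean

-- ===== PACK-BEGIN S35/G/H986/NotPow.lean
section





/-!
# S35, piece (G'), leaf TORIC, sub-leaf NOT-POW (helper986)

`notPow : H60.NotPowStatement A E M q w` : at level `M`, `j` is not a `q`-th power modulo `w`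
in the Gauss valuation ring `V∞_M`.

Proof: write `a = U₁ / U₂` and `(a ^ q - j) / w = U₃ / U₄` with integral series, `U₂, U₄`
primitive.  Then `U₁ ^ q U₄ - J U₂ ^ q U₄ = w U₃ U₂ ^ q` as integral series; reducing modulo the
maximal ideal, `red J = (red U₁ / red U₂) ^ q` in `k((t))`, `char k = q`.  But a `q`-th power has
no term of exponent `-1` (`S37.H400.laurent_pow_char`), while `red J = t⁻¹ + ⋯`.
-/

set_option autoImplicit false
set_option linter.style.haveILetI false
set_option linter.unusedSectionVars false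
set_option synthInstance.maxHeartbeats 400000
set_option maxHeartbeats 1600000

noncomputable section

namespace Fermat.Agent.S35.G.H986

open ModularCurve HahnSeries Fermat.Agent.A2.H708

/-- In characteristic `q`, a `q`-th power in `k((t))` has no term of exponent prime to `q`. -/
theorem coeff_pow_char_of_not_dvd {k : Type*} [CommRing k] (q : ℕ) [Fact q.Prime] [CharP k q]
    (f : LaurentSeries k) {n : ℤ} (hn : ¬ (q : ℤ) ∣ n) : (f ^ q).coeff n = 0 := by
  haveI : NeZero q := ⟨(Fact.out : q.Prime).ne_zero⟩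
  have h := S37.H400.laurent_pow_char q f
  rw [h]
  exact qExpand_coeff_of_not_dvd q _ hn

/-- Abstract core of NOT-POW. -/
theorem notPow_core {L : Type*} [Field L] (A : ValuationSubring L) (q : ℕ) [Fact q.Prime]
    [CharP (IsLocalRing.ResidueField A) q] (w : A) (hw : IsLocalRing.residue A w = 0)
    (hw0 : (w : L) ≠ 0) (J U₁ U₂ U₃ U₄ : LaurentSeries A) (h2 : red A U₂ ≠ 0)
    (h4 : red A U₄ ≠ 0) (hJ : (red A J).coeff (-1) ≠ 0) (a : LaurentSeries L)
    (e₁ : a * incl A U₂ = incl A U₁)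
    (e₃ : (a ^ q - incl A J) * (cst (w : L))⁻¹ * incl A U₄ = incl A U₃) : False := by
  have hc : cst (w : L) ≠ 0 := cst_ne_zero hw0
  have key : U₁ ^ q * U₄ - J * U₂ ^ q * U₄ = cstA A w * U₃ * U₂ ^ q := by
    apply incl_injective A
    simp only [map_sub, map_mul, map_pow, incl_cstA]
    rw [← e₁, ← e₃]
    field_simp
    ring
  have hred := congrArg (red A) key
  simp only [map_sub, map_mul, map_pow, red_cstA, hw, HahnSeries.single_eq_zero, zero_mul]
    at hred
  have h5 : red A U₁ ^ q = red A J * red A U₂ ^ q := by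
    have h6 : (red A U₁ ^ q - red A J * red A U₂ ^ q) * red A U₄ = 0 := by
      rw [← hred]; ring
    rcases mul_eq_zero.mp h6 with h7 | h7
    · exact sub_eq_zero.mp h7
    · exact absurd h7 h4
  have h8 : red A J = (red A U₁ * (red A U₂)⁻¹) ^ q := by
    rw [mul_pow, h5, inv_pow, mul_assoc, mul_inv_cancel₀ (pow_ne_zero _ h2), mul_one]
  have hq : ¬ ((q : ℕ) : ℤ) ∣ (-1 : ℤ) := by
    intro h
    have h1 : ((q : ℕ) : ℤ) ∣ ((1 : ℕ) : ℤ) := by
      simpa using (dvd_neg.mp h)
    have h2 : q ∣ 1 := Int.natCast_dvd_natCast.mp h1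
    exact (Fact.out : q.Prime).one_lt.ne' (Nat.dvd_one.mp h2)
  have h9 := coeff_pow_char_of_not_dvd q (red A U₁ * (red A U₂)⁻¹) hq
  rw [← h8] at h9
  exact hJ h9

variable (A : ValuationSubring A2.Mod.Qb) (E : IntermediateField ℚ A2.Mod.Qb) (M q : ℕ)
  [NeZero M] [NeZero q] (w : A2.Mod.RE A E)

/-- **NOT-POW.** -/
theorem notPow : H60.NotPowStatement A E M q w := by
  intro hS VM hVM a ha hcon
  haveI : Fact q.Prime := ⟨hS.q_prime⟩
  haveI : CharP (IsLocalRing.ResidueField (A2.Mod.RE A E)) q :=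
    A2.Mod.H485.charP_residue A E hS.lies_over
  haveI := hS.dvr
  obtain ⟨U₁, U₂, h2, -, e₁⟩ := (hVM a).mp ha
  obtain ⟨U₃, U₄, h4, -, e₃⟩ := (hVM _).mp hcon
  have hw : IsLocalRing.residue (A2.Mod.RE A E) w = 0 := by
    rw [IsLocalRing.residue_eq_zero_iff]
    exact hS.unif.not_isUnit
  have hw0 : (w : E) ≠ 0 := A2.Mod.H378.w_ne_zero hS
  have hj : ((A2.Mod.jE E M 1 (one_dvd _) : A2.Mod.FE E M) : LaurentSeries E) =
      incl (A2.Mod.RE A E) (jqModC (A2.Mod.RE A E)) := by
    show coeffEmb E (qExpand ℚ 1 jq) = _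
    rw [qExpand_one_apply, incl, coeffMap_jqModC, coeffEmb, ← jqModC_rat, coeffMap_jqModC]
  have hJ : (red (A2.Mod.RE A E) (jqModC (A2.Mod.RE A E))).coeff (-1) ≠ 0 := by
    rw [red, coeffMap_jqModC, coeff_jqModC_neg_one]
    exact one_ne_zero
  refine notPow_core (A2.Mod.RE A E) q w hw hw0 (jqModC (A2.Mod.RE A E)) U₁ U₂ U₃ U₄ h2 h4 hJ
    ((a : A2.Mod.FE E M) : LaurentSeries E) e₁ ?_
  rw [← e₃, ← hj]
  rfl

end Fermat.Agent.S35.G.H986

end

end
-- ===== PACK-END S35/G/H986/NotPow.lean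

-- ===== PACK-BEGIN S35/G/H60/NormRedFinal.lean
section



/-!
# S35 (G') / TORIC / NORM-RED, unconditional (helper60)

`normRed : NormRedStatement A E M q w` = `normRedAsm` (helper60) applied to NOT-POW
(`H986.notPow`, helper986).
-/

set_option autoImplicit false

namespace Fermat.Agent.S35.G.H60

open Fermat.Agent.A2.Mod

/-- **NORM-RED**, unconditional: norm reduction along `α`. -/
theorem normRed (A : ValuationSubring _root_.Fermat.Agent.S35.G.Qb) (E : IntermediateField ℚ _root_.Fermat.Agent.S35.G.Qb) (M q : ℕ) [NeZero M]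
    [NeZero q] (w : RE A E) : NormRedStatement A E M q w :=
  normRedAsm A E M q w (H986.notPow A E M q w)

end Fermat.Agent.S35.G.H60

end
-- ===== PACK-END S35/G/H60/NormRedFinal.lean

-- ===== PACK-BEGIN S18/H208/Basis.lean
section
/-
S18 / M1 (helper208): the UNIFORM BASIS of the modular function fields.

`exists_uniform_basis` : from the three analytic inputs of S28 (all proved on main) there are
`ψ(N)` integral monomials `y i ∈ ℤ[j(q^d) : d ∣ N] ⊆ ℤ((q))` whose images in `k((q))` form a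
`k(j)`-basis of `F_{N,k} = modularFunctionFieldFullC k N`, for EVERY field `k` in which `N` is
invertible (characteristic `0` or `ℓ ∤ N`).
-/




set_option autoImplicit false

noncomputable section

namespace Fermat.Agent.S18.H208

open ModularCurve HahnSeries Fermat.Agent.S28

/-- The three analytic inputs of S28 (modular polynomial, unit polynomial, theta identity). -/
structure AnalyticInputs : Prop where
  modPoly : ∀ (p : ℕ) [NeZero p], p.Prime → Nonempty (ModPolyData p)
  unitPoly : ∀ (p : ℕ) [NeZero p], p.Prime → Nonempty (UnitPolyData p)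
  theta : (thetaL ℤ (jqModC ℤ)) ^ 6 = deltaL ℤ * (jqModC ℤ) ^ 4 * (jqModC ℤ - 1728) ^ 3

theorem natCast_prime_ne_zero_of_dvd {k : Type*} [Field k] {N : ℕ} (hN : (N : k) ≠ 0)
    (p : ℕ) (hpN : p ∣ N) : (p : k) ≠ 0 := by
  intro h0
  obtain ⟨m, rfl⟩ := hpN
  apply hN
  rw [Nat.cast_mul, h0, zero_mul]

/-- `Good k N` (helper867) from the analytic inputs. -/
theorem good_of_analytic (A : AnalyticInputs) (k : Type*) [Field k] (N : ℕ) [NeZero N]
    (hN : (N : k) ≠ 0) : S28.H867.Good k N :=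
  S28.H867.good_of_inputs k N (NeZero.ne N)
    (fun p hp _ _ => A.modPoly p hp) (fun p hp _ _ => A.unitPoly p hp) A.theta
    (fun p _ hpN => natCast_prime_ne_zero_of_dvd hN p hpN)

/-- **Uniform basis.** -/
theorem exists_uniform_basis (A : AnalyticInputs) (N : ℕ) [NeZero N] :
    ∃ y : Fin (dedekindPsi N) → LaurentSeries ℤ,
      (∀ i, y i ∈ Subring.closure (intDivisorExpansions N)) ∧
      ∀ (k : Type) [Field k], (N : k) ≠ 0 →
        (∀ x ∈ modularFunctionFieldFullC k N,
          x ∈ Submodule.span (jField k)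
            (Set.range fun i => coeffMap (Int.castRingHom k) (y i))) ∧
        LinearIndependent (jField k) (fun i => coeffMap (Int.castRingHom k) (y i)) := by
  obtain ⟨n, y, hn, hy, hspan⟩ := S28.H208.exists_spanning_monomials N (NeZero.ne N)
    (S28.H208.hasModPoly_of_nonempty A.modPoly N)
  subst hn
  refine ⟨y, hy, fun k _ hNk => ⟨hspan k hNk, ?_⟩⟩
  classical
  obtain ⟨x, hxF, hxli⟩ := (good_of_analytic A k N hNk).exists_linearIndependent
  set v : Fin (dedekindPsi N) → LaurentSeries k := fun i => coeffMap (Int.castRingHom k) (y i)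
    with hv
  set W : Submodule (jField k) (LaurentSeries k) := Submodule.span (jField k) (Set.range v)
    with hW
  have hxW : ∀ i, x i ∈ W := fun i => hspan k hNk (x i) (hxF i)
  have hli' : LinearIndependent (jField k) (fun i => (⟨x i, hxW i⟩ : W)) := by
    apply LinearIndependent.of_comp W.subtype
    exact hxli
  have : Module.Finite (jField k) W := Module.Finite.span_of_finite _ (Set.finite_range v)
  have h1 : Fintype.card (Fin (dedekindPsi N)) ≤ Module.finrank (jField k) W :=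
    hli'.fintype_card_le_finrank
  have h2 : Module.finrank (jField k) W ≤ Fintype.card (Fin (dedekindPsi N)) := by
    have := finrank_range_le_card (R := jField k) v
    simpa [Set.finrank, hW] using this
  rw [linearIndependent_iff_card_eq_finrank_span]
  exact le_antisymm h1 h2

end Fermat.Agent.S18.H208

end

end
-- ===== PACK-END S18/H208/Basis.lean

-- ===== PACK-BEGIN S18/H208/Gauss.lean
section
/-
S18 / M1 (helper208): the Gauss valuation layer of the modular function field over a general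
discrete valuation ring `O ⊆ E` (in the `UnifData` form of helper86's `GaussGen`).

Setting: `E` a field, `O : Subring E`, `res : O →+* κ` with kernel `(π)`.
`F_E = modularFunctionFieldFullC E N ⊆ E((q))`, `F_κ = modularFunctionFieldFullC κ N ⊆ κ((q))`.
-/







set_option autoImplicit false
set_option linter.unusedSectionVars false
set_option linter.style.haveILetI false

noncomputable section

namespace Fermat.Agent.S18.H208

open ModularCurve HahnSeries Polynomial Fermat.Agent.S28 Fermat.Agent.S28.H86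

section IntSeries

variable {E : Type} [Field E] (O : Subring E) {κ : Type} [Field κ] (res : O →+* κ)

/-- An integer series viewed in `O((q))`. -/
def intO (w : LaurentSeries ℤ) : LaurentSeries O := coeffMap (Int.castRingHom O) w

theorem inclL_intO (w : LaurentSeries ℤ) :
    inclL O (intO O w) = coeffMap (Int.castRingHom E) w := by
  rw [intO, inclL, coeffMap_coeffMap]
  exact coeffMap_congr (RingHom.ext_int _ _) w

theorem redL_intO (w : LaurentSeries ℤ) :
    redL res (intO O w) = coeffMap (Int.castRingHom κ) w := by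
  rw [intO, redL, coeffMap_coeffMap]
  exact coeffMap_congr (RingHom.ext_int _ _) w

theorem intCast_mem_gaussRing (w : LaurentSeries ℤ) :
    coeffMap (Int.castRingHom E) w ∈ gaussRing O res := by
  rw [← inclL_intO O]
  exact inclL_mem_gaussRing res _

theorem gaussRed_intCast (w : LaurentSeries ℤ) :
    gaussRed O res ⟨coeffMap (Int.castRingHom E) w, intCast_mem_gaussRing O res w⟩ =
      coeffMap (Int.castRingHom κ) w := by
  have : (⟨coeffMap (Int.castRingHom E) w, intCast_mem_gaussRing O res w⟩ : gaussRing O res) =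
      ⟨inclL O (intO O w), inclL_mem_gaussRing res _⟩ := Subtype.ext (inclL_intO O w).symm
  rw [this, gaussRed_inclL, redL_intO]

/-- `j(q^d)` over any ring comes from `ℤ((q))`. -/
theorem jd_eq_intCast (R : Type*) [CommRing R] (d : ℕ) [NeZero d] :
    qExpand R d (jqModC R) = coeffMap (Int.castRingHom R) (qExpand ℤ d (jqModC ℤ)) := by
  rw [coeffMap_qExpand, coeffMap_jqModC]

theorem j_eq_intCast (R : Type*) [CommRing R] :
    jqModC R = coeffMap (Int.castRingHom R) (jqModC ℤ) := (coeffMap_jqModC _).symm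

theorem j_mem_gaussRing : jqModC E ∈ gaussRing O res := by
  rw [j_eq_intCast E]; exact intCast_mem_gaussRing O res _

theorem gaussRed_j : gaussRed O res ⟨jqModC E, j_mem_gaussRing O res⟩ = jqModC κ := by
  have : (⟨jqModC E, j_mem_gaussRing O res⟩ : gaussRing O res) =
      ⟨coeffMap (Int.castRingHom E) (jqModC ℤ), intCast_mem_gaussRing O res _⟩ :=
    Subtype.ext (j_eq_intCast E)
  rw [this, gaussRed_intCast, coeffMap_jqModC]

end IntSeries

section Frac

variable {E : Type} [Field E] (O : Subring E)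

/-- `E` is the fraction field of `O`, elementwise. -/
def IsFrac : Prop := ∀ e : E, ∃ a b : O, b ≠ 0 ∧ e * (b : E) = (a : E)

variable {O}

theorem C_mem_gaussFrac (hfrac : IsFrac O) (e : E) :
    (HahnSeries.C e : LaurentSeries E) ∈ gaussFrac O := by
  obtain ⟨a, b, hb, hab⟩ := hfrac e
  refine ⟨HahnSeries.C a, HahnSeries.C b, ?_, ?_⟩
  · intro h0
    apply hb
    have := congrArg (fun x : LaurentSeries O => x.coeff 0) h0
    simpa using this
  · rw [inclL_C, inclL_C, ← map_mul, hab]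

theorem algebraMap_mem_gaussFrac (hfrac : IsFrac O) (e : E) :
    algebraMap E (LaurentSeries E) e ∈ gaussFrac O := by
  have : algebraMap E (LaurentSeries E) e = HahnSeries.C e := by
    rw [algebraMap_laurentSeries_eq_single]; rfl
  rw [this]
  exact C_mem_gaussFrac hfrac e

/-- **(T1)** The modular function field lies in the fraction field of the Gauss ring. -/
theorem full_le_gaussFrac (hfrac : IsFrac O) (N : ℕ) {x : LaurentSeries E}
    (hx : x ∈ modularFunctionFieldFullC E N) : x ∈ gaussFrac O := by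
  let G : IntermediateField E (LaurentSeries E) :=
    (gaussFrac O).toIntermediateField (algebraMap_mem_gaussFrac hfrac)
  have hle : modularFunctionFieldFullC E N ≤ G := by
    rw [modularFunctionFieldFullC, IntermediateField.adjoin_le_iff]
    rintro _ ⟨d, hd, -, rfl⟩
    show qExpand E d (jqModC E) ∈ gaussFrac O
    rw [jd_eq_intCast E d, ← inclL_intO O]
    exact inclL_mem_gaussFrac _
  exact hle hx

end Frac

section Eval

variable {E : Type} [Field E] (O : Subring E) {κ : Type} [Field κ] (res : O →+* κ) {π : O}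

/-- Constants `O → V`. -/
def constV : O →+* gaussRing O res where
  toFun c := ⟨HahnSeries.C (c : E), by rw [← inclL_C]; exact inclL_mem_gaussRing res _⟩
  map_one' := Subtype.ext (by simp)
  map_mul' a b := Subtype.ext (by simp)
  map_zero' := Subtype.ext (by simp)
  map_add' a b := Subtype.ext (by simp)

@[simp] theorem coe_constV (c : O) :
    ((constV O res c : gaussRing O res) : LaurentSeries E) = HahnSeries.C (c : E) := rfl

theorem gaussRed_constV (c : O) : gaussRed O res (constV O res c) = HahnSeries.C (res c) := by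
  have : constV O res c = ⟨inclL O (HahnSeries.C c), inclL_mem_gaussRing res _⟩ :=
    Subtype.ext (inclL_C c).symm
  rw [this, gaussRed_inclL, redL_C]

/-- Evaluation `O[X] → V`, `P ↦ P(t)`. -/
def evV (t : gaussRing O res) : Polynomial O →+* gaussRing O res :=
  Polynomial.eval₂RingHom (constV O res) t

/-- Evaluation `O[X] → E((q))`, `P ↦ P(t)`. -/
def evE (t : LaurentSeries E) : Polynomial O →+* LaurentSeries E :=
  Polynomial.eval₂RingHom ((HahnSeries.C : E →+* LaurentSeries E).comp O.subtype) t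

variable {O res}

theorem coe_evV (t : gaussRing O res) (P : Polynomial O) :
    ((evV O res t P : gaussRing O res) : LaurentSeries E) = evE O (t : LaurentSeries E) P := by
  show (gaussRing O res).subtype (Polynomial.eval₂ (constV O res) t P) = _
  rw [Polynomial.hom_eval₂]
  rfl

theorem evE_mem_gaussRing {t : LaurentSeries E} (ht : t ∈ gaussRing O res) (P : Polynomial O) :
    evE O t P ∈ gaussRing O res := by
  rw [← coe_evV ⟨t, ht⟩ P]
  exact (evV O res ⟨t, ht⟩ P).2

theorem gaussRed_evV (t : gaussRing O res) (P : Polynomial O) :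
    gaussRed O res (evV O res t P) = Polynomial.aeval (gaussRed O res t) (P.map res) := by
  show gaussRed O res (Polynomial.eval₂ (constV O res) t P) = _
  rw [Polynomial.hom_eval₂, Polynomial.aeval_def, Polynomial.eval₂_map]
  congr 1
  ext c : 1
  rw [RingHom.comp_apply, RingHom.comp_apply, gaussRed_constV, algebraMap_laurentSeries_eq_single]
  rfl

theorem evE_C (t : LaurentSeries E) (c : O) :
    evE O t (Polynomial.C c) = HahnSeries.C (c : E) := by
  simp [evE]

theorem evE_C_pi (t : LaurentSeries E) : evE O t (Polynomial.C π) = piL O π := evE_C t π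

/-- Injectivity of the evaluation at a series of nonzero order. -/
theorem evE_injective {t : LaurentSeries E} (ht0 : t ≠ 0) (hto : t.order ≠ 0) :
    Function.Injective (evE O t) := by
  rw [injective_iff_map_eq_zero]
  intro P hP
  have h1 : Polynomial.aeval t (P.map O.subtype) = 0 := by
    rw [Polynomial.aeval_def, Polynomial.eval₂_map]
    have : (algebraMap E (LaurentSeries E)).comp O.subtype =
        (HahnSeries.C : E →+* LaurentSeries E).comp O.subtype := by
      ext c : 1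
      rw [RingHom.comp_apply, RingHom.comp_apply, algebraMap_laurentSeries_eq_single]
      rfl
    rw [this]
    exact hP
  have h2 : P.map O.subtype = 0 := by
    by_contra hne
    exact aeval_ne_zero_of_order_ne_zero ht0 hto hne h1
  exact (Polynomial.map_eq_zero_iff (Subtype.val_injective)).mp h2

end Eval

section Clear

variable {E : Type} [Field E] {O : Subring E}

/-- Every element of `E(j)` is a quotient of two polynomials in `j` with coefficients in `O`. -/
theorem exists_O_fraction (hfrac : IsFrac O) {c : LaurentSeries E} (hc : c ∈ jField E) :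
    ∃ f g : Polynomial O, evE O (jqModC E) g ≠ 0 ∧
      evE O (jqModC E) g * c = evE O (jqModC E) f := by
  unfold jField at hc
  induction hc using IntermediateField.adjoin_induction with
  | mem x hx =>
    rw [Set.mem_singleton_iff] at hx
    subst hx
    refine ⟨Polynomial.X, 1, ?_, ?_⟩
    · rw [map_one]; exact one_ne_zero
    · rw [map_one, one_mul]
      simp [evE]
  | algebraMap r =>
    obtain ⟨a, b, hb, hab⟩ := hfrac r
    refine ⟨Polynomial.C a, Polynomial.C b, ?_, ?_⟩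
    · rw [evE_C]
      exact (map_ne_zero_iff _ HahnSeries.C_injective).mpr
        (fun h0 => hb (Subtype.ext h0))
    · rw [evE_C, evE_C, algebraMap_laurentSeries_eq_single]
      show HahnSeries.C (b : E) * HahnSeries.C r = HahnSeries.C (a : E)
      rw [← map_mul, mul_comm, hab]
  | add x y _ _ hx hy =>
    obtain ⟨f₁, g₁, hg₁, h₁⟩ := hx
    obtain ⟨f₂, g₂, hg₂, h₂⟩ := hy
    refine ⟨f₁ * g₂ + f₂ * g₁, g₁ * g₂, ?_, ?_⟩
    · rw [map_mul]; exact mul_ne_zero hg₁ hg₂
    · rw [map_mul, map_add, map_mul, map_mul, ← h₁, ← h₂]; ring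
  | inv x _ hx =>
    obtain ⟨f, g, hg, h⟩ := hx
    by_cases hf : evE O (jqModC E) f = 0
    · have hx0 : x = 0 := by
        rw [hf] at h
        exact (mul_eq_zero.mp h).resolve_left hg
      refine ⟨0, 1, ?_, ?_⟩
      · rw [map_one]; exact one_ne_zero
      · rw [hx0, inv_zero, mul_zero, map_zero]
    · refine ⟨g, f, hf, ?_⟩
      have hx0 : x ≠ 0 := by
        rintro rfl
        rw [mul_zero] at h
        exact hf h.symm
      rw [← h]
      field_simp
  | mul x y _ _ hx hy =>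
    obtain ⟨f₁, g₁, hg₁, h₁⟩ := hx
    obtain ⟨f₂, g₂, hg₂, h₂⟩ := hy
    refine ⟨f₁ * f₂, g₁ * g₂, ?_, ?_⟩
    · rw [map_mul]; exact mul_ne_zero hg₁ hg₂
    · rw [map_mul, map_mul, ← h₁, ← h₂]; ring

/-- Clearing denominators in an `E(j)`-linear combination. -/
theorem exists_cleared_of_mem_span (hfrac : IsFrac O) {n : ℕ} (v : Fin n → LaurentSeries E)
    {x : LaurentSeries E} (hx : x ∈ Submodule.span (jField E) (Set.range v)) :
    ∃ (g : Polynomial O) (f : Fin n → Polynomial O), g ≠ 0 ∧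
      evE O (jqModC E) g * x = ∑ i, evE O (jqModC E) (f i) * v i := by
  obtain ⟨c, rfl⟩ := (Submodule.mem_span_range_iff_exists_fun (jField E)).mp hx
  have hc : ∀ i, ∃ f g : Polynomial O, evE O (jqModC E) g ≠ 0 ∧
      evE O (jqModC E) g * (c i : LaurentSeries E) = evE O (jqModC E) f :=
    fun i => exists_O_fraction hfrac (c i).2
  choose f g hg hfg using hc
  refine ⟨∏ i, g i, fun i => f i * ∏ k ∈ Finset.univ.erase i, g k, ?_, ?_⟩
  · intro h0
    have : evE O (jqModC E) (∏ i, g i) = 0 := by rw [h0, map_zero]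
    rw [map_prod] at this
    obtain ⟨i, -, hi⟩ := Finset.prod_eq_zero_iff.mp this
    exact hg i hi
  · rw [Finset.mul_sum]
    refine Finset.sum_congr rfl fun i _ => ?_
    rw [← Finset.mul_prod_erase Finset.univ g (Finset.mem_univ i), map_mul, map_mul,
      IntermediateField.smul_def, smul_eq_mul, ← hfg i]
    ring

end Clear

section Indep

variable {κ : Type} [Field κ]

/-- Linear independence over `κ(j)` in polynomial form. -/
theorem poly_indep {n : ℕ} {v : Fin n → LaurentSeries κ}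
    (hli : LinearIndependent (jField κ) v) (f : Fin n → Polynomial κ)
    (hf : ∑ i, Polynomial.aeval (jqModC κ) (f i) * v i = 0) : ∀ i, f i = 0 := by
  have hmem : ∀ i, Polynomial.aeval (jqModC κ) (f i) ∈ jField κ := fun i =>
    IntermediateField.algebra_adjoin_le_adjoin _ _ (Polynomial.aeval_mem_adjoin_singleton _ _)
  have h0 := Fintype.linearIndependent_iff.mp hli
    (fun i => ⟨Polynomial.aeval (jqModC κ) (f i), hmem i⟩) (by
      simpa [IntermediateField.smul_def] using hf)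
  intro i
  have hi := congrArg Subtype.val (h0 i)
  simp only [ZeroMemClass.coe_zero] at hi
  by_contra hne
  exact aeval_ne_zero_of_order_ne_zero (S28.H145.jqModC_ne_zero' κ)
    (by rw [S28.H145.order_jqModC]; decide) hne hi

end Indep

section Denominator

variable {E : Type} [Field E] {O : Subring E} {κ : Type} [Field κ] {res : O →+* κ} {π : O}

theorem exists_eq_C_mul_of_map_eq_zero (h : UnifData O res π) {P : Polynomial O}
    (hP : P.map res = 0) : ∃ P' : Polynomial O, P = Polynomial.C π * P' := by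
  have hmem : P ∈ Ideal.map (Polynomial.C : O →+* Polynomial O) (Ideal.span {π}) := by
    rw [Ideal.mem_map_C_iff]
    intro n
    have hn : res (P.coeff n) = 0 := by
      have := congrArg (fun Q => Q.coeff n) hP
      simpa using this
    obtain ⟨y, hy⟩ := (h.ker _).mp hn
    exact Ideal.mem_span_singleton'.mpr ⟨y, by rw [hy, mul_comm]⟩
  rw [Ideal.map_span, Set.image_singleton, Ideal.mem_span_singleton'] at hmem
  obtain ⟨P', hP'⟩ := hmem
  exact ⟨P', by rw [← hP', mul_comm]⟩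

theorem map_res_C_pi_mul (h : UnifData O res π) (P : Polynomial O) :
    (Polynomial.C π * P).map res = 0 := by
  rw [Polynomial.map_mul, Polynomial.map_C, res_pi h, Polynomial.C_0, zero_mul]

/-- The reduction of a relation `g(j) x = Σ f_i(j) v_i` in the Gauss ring. -/
theorem gaussRed_relation {n : ℕ} (y : Fin n → LaurentSeries ℤ)
    {x : LaurentSeries E} (hx : x ∈ gaussRing O res)
    (g : Polynomial O) (f : Fin n → Polynomial O)
    (hrel : evE O (jqModC E) g * x =
      ∑ i, evE O (jqModC E) (f i) * coeffMap (Int.castRingHom E) (y i)) :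
    Polynomial.aeval (jqModC κ) (g.map res) * gaussRed O res ⟨x, hx⟩ =
      ∑ i, Polynomial.aeval (jqModC κ) ((f i).map res) * coeffMap (Int.castRingHom κ) (y i) := by
  set J : gaussRing O res := ⟨jqModC E, j_mem_gaussRing O res⟩ with hJ
  have hrelV : evV O res J g * ⟨x, hx⟩ =
      ∑ i, evV O res J (f i) *
        ⟨coeffMap (Int.castRingHom E) (y i), intCast_mem_gaussRing O res (y i)⟩ := by
    apply Subtype.ext
    have h1 : (((∑ i, evV O res J (f i) *
        ⟨coeffMap (Int.castRingHom E) (y i), intCast_mem_gaussRing O res (y i)⟩ :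
          gaussRing O res)) : LaurentSeries E) =
        ∑ i, evE O (jqModC E) (f i) * coeffMap (Int.castRingHom E) (y i) := by
      rw [← Subring.subtype_apply, map_sum]
      refine Finset.sum_congr rfl fun i _ => ?_
      rw [Subring.subtype_apply, Subring.coe_mul, coe_evV]
    rw [h1, Subring.coe_mul, coe_evV]
    exact hrel
  have h2 := congrArg (gaussRed O res) hrelV
  rw [map_mul, map_sum, gaussRed_evV, hJ, gaussRed_j] at h2
  rw [h2]
  refine Finset.sum_congr rfl fun i _ => ?_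
  rw [map_mul, gaussRed_evV, gaussRed_j, gaussRed_intCast]

theorem exists_denominator_aux (h : UnifData O res π) {n : ℕ} (y : Fin n → LaurentSeries ℤ)
    (hli : LinearIndependent (jField κ) (fun i => coeffMap (Int.castRingHom κ) (y i)))
    {x : LaurentSeries E} (hx : x ∈ gaussRing O res) :
    ∀ (m : ℕ) (g : Polynomial O) (f : Fin n → Polynomial O) (k : ℕ) (u : O),
      g.coeff k = π ^ m * u → res u ≠ 0 →
      evE O (jqModC E) g * x =
        ∑ i, evE O (jqModC E) (f i) * coeffMap (Int.castRingHom E) (y i) →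
      ∃ (g' : Polynomial O) (f' : Fin n → Polynomial O), g'.map res ≠ 0 ∧
        evE O (jqModC E) g' * x =
          ∑ i, evE O (jqModC E) (f' i) * coeffMap (Int.castRingHom E) (y i) := by
  intro m
  induction m with
  | zero =>
    intro g f k u hgk hu hrel
    refine ⟨g, f, ?_, hrel⟩
    intro h0
    apply hu
    have := congrArg (fun Q => Q.coeff k) h0
    simpa [hgk] using this
  | succ m ih =>
    intro g f k u hgk hu hrel
    by_cases hg : g.map res = 0
    · obtain ⟨g1, rfl⟩ := exists_eq_C_mul_of_map_eq_zero h hg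
      have hred := gaussRed_relation (res := res) y hx _ f hrel
      rw [hg, map_zero, zero_mul] at hred
      have hf0 := poly_indep hli (fun i => (f i).map res) hred.symm
      have hf1 : ∀ i, ∃ P' : Polynomial O, f i = Polynomial.C π * P' :=
        fun i => exists_eq_C_mul_of_map_eq_zero h (hf0 i)
      choose f1 hf1 using hf1
      have hπ := piL_ne_zero h
      have hrel1 : evE O (jqModC E) g1 * x =
          ∑ i, evE O (jqModC E) (f1 i) * coeffMap (Int.castRingHom E) (y i) := by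
        apply mul_left_cancel₀ hπ
        rw [Finset.mul_sum, ← mul_assoc, ← evE_C_pi (O := O) (jqModC E), ← map_mul, hrel]
        refine Finset.sum_congr rfl fun i _ => ?_
        rw [hf1 i, map_mul, mul_assoc]
      have hgk1 : g1.coeff k = π ^ m * u := by
        rw [Polynomial.coeff_C_mul, pow_succ, mul_comm (π ^ m) π, mul_assoc] at hgk
        exact mul_left_cancel₀ h.ne_zero hgk
      exact ih g1 f1 k u hgk1 hu hrel1
    · exact ⟨g, f, hg, hrel⟩

/-- **Denominator lemma.** Every `x ∈ F_E ∩ V` satisfies a relation `g(j) x = Σ f_i(j) y_i`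
with `O`-coefficients and `g ≢ 0 mod π`. -/
theorem exists_denominator (h : UnifData O res π) (hfrac : IsFrac O) {n : ℕ}
    (y : Fin n → LaurentSeries ℤ)
    (hli : LinearIndependent (jField κ) (fun i => coeffMap (Int.castRingHom κ) (y i)))
    {x : LaurentSeries E}
    (hspan : x ∈ Submodule.span (jField E)
      (Set.range fun i => coeffMap (Int.castRingHom E) (y i)))
    (hx : x ∈ gaussRing O res) :
    ∃ (g : Polynomial O) (f : Fin n → Polynomial O), g.map res ≠ 0 ∧
      evE O (jqModC E) g * x =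
        ∑ i, evE O (jqModC E) (f i) * coeffMap (Int.castRingHom E) (y i) := by
  obtain ⟨g, f, hg, hrel⟩ := exists_cleared_of_mem_span hfrac _ hspan
  obtain ⟨k, hk⟩ : ∃ k, g.coeff k ≠ 0 := by
    by_contra hne
    simp only [not_exists, not_not] at hne
    exact hg (Polynomial.ext fun k => by rw [hne k, Polynomial.coeff_zero])
  obtain ⟨m, u, hu, hres⟩ := h.prim _ hk
  exact exists_denominator_aux h y hli hx m g f k u hu hres hrel

end Denominator

section Reduction

variable {E : Type} [Field E] {O : Subring E} {κ : Type} [Field κ] {res : O →+* κ} {π : O}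

theorem coeffMap_intCast_mem_full (k : Type*) [Field k] (N : ℕ) {w : LaurentSeries ℤ}
    (hw : w ∈ Subring.closure (intDivisorExpansions N)) :
    coeffMap (Int.castRingHom k) w ∈ modularFunctionFieldFullC k N := by
  induction hw using Subring.closure_induction with
  | mem x hx =>
    obtain ⟨d, hd, hdN, rfl⟩ := hx
    rw [← jd_eq_intCast]
    exact jqModCd_mem_full k N hdN
  | zero => rw [map_zero]; exact zero_mem _
  | one => rw [map_one]; exact one_mem _
  | add x y _ _ hx hy => rw [map_add]; exact add_mem hx hy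
  | neg x _ hx => rw [map_neg]; exact neg_mem hx
  | mul x y _ _ hx hy => rw [map_mul]; exact mul_mem hx hy

theorem aeval_j_mem_full (k : Type*) [Field k] (N : ℕ) (P : Polynomial k) :
    Polynomial.aeval (jqModC k) P ∈ modularFunctionFieldFullC k N := by
  have h1 : Polynomial.aeval (jqModC k) P ∈ Algebra.adjoin k {jqModC k} :=
    Polynomial.aeval_mem_adjoin_singleton _ _
  have h2 : Algebra.adjoin k {jqModC k} ≤ (modularFunctionFieldFullC k N).toSubalgebra :=
    Algebra.adjoin_le (Set.singleton_subset_iff.mpr (jqModC_mem_full k N))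
  exact h2 h1

theorem aeval_j_ne_zero {k : Type*} [Field k] {P : Polynomial k} (hP : P ≠ 0) :
    Polynomial.aeval (jqModC k) P ≠ 0 :=
  aeval_ne_zero_of_order_ne_zero (S28.H145.jqModC_ne_zero' k)
    (by rw [S28.H145.order_jqModC]; decide) hP

theorem natCast_ne_zero_of_res (res : O →+* κ) {N : ℕ} (hN : (N : κ) ≠ 0) : (N : E) ≠ 0 := by
  intro h0
  apply hN
  have h1 : (N : O) = 0 := Subtype.ext (by simpa using h0)
  rw [← map_natCast res, h1, map_zero]

/-- **(T2)** The reduction of an element of `F_E ∩ V` lies in `F_κ`. -/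
theorem gaussRed_mem_full (A : AnalyticInputs) (h : UnifData O res π) (hfrac : IsFrac O)
    (N : ℕ) [NeZero N] (hN : (N : κ) ≠ 0) {x : LaurentSeries E}
    (hxF : x ∈ modularFunctionFieldFullC E N) (hx : x ∈ gaussRing O res) :
    gaussRed O res ⟨x, hx⟩ ∈ modularFunctionFieldFullC κ N := by
  obtain ⟨y, hy, hbasis⟩ := exists_uniform_basis A N
  obtain ⟨hspanE, -⟩ := hbasis E (natCast_ne_zero_of_res res hN)
  obtain ⟨-, hliκ⟩ := hbasis κ hN
  obtain ⟨g, f, hg, hrel⟩ := exists_denominator h hfrac y hliκ (hspanE x hxF) hx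
  have hred := gaussRed_relation (res := res) y hx g f hrel
  have hg0 := aeval_j_ne_zero hg
  have hx' : gaussRed O res ⟨x, hx⟩ = (Polynomial.aeval (jqModC κ) (g.map res))⁻¹ *
      ∑ i, Polynomial.aeval (jqModC κ) ((f i).map res) * coeffMap (Int.castRingHom κ) (y i) := by
    rw [← hred, ← mul_assoc, inv_mul_cancel₀ hg0, one_mul]
  rw [hx']
  refine mul_mem (inv_mem (aeval_j_mem_full κ N _)) (sum_mem fun i _ => ?_)
  exact mul_mem (aeval_j_mem_full κ N _) (coeffMap_intCast_mem_full κ N (hy i))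

end Reduction

section Integral

variable {E : Type} [Field E] {O : Subring E}

theorem coeffMap_comp_evalAt :
    (coeffMap (Int.castRingHom E)).comp (evalAt (jqModC ℤ)) =
      (evE O (jqModC E)).comp (Polynomial.mapRingHom (Int.castRingHom O)) := by
  apply Polynomial.ringHom_ext
  · intro a
    simp [evalAt, evE]
  · simp [evalAt, evE, coeffMap_jqModC]

/-- Integer series integral over `ℤ[j]` are integral over `O[j]` in `E((q))`. -/
theorem isIntegralElem_intCast {w : LaurentSeries ℤ}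
    (hw : (evalAt (jqModC ℤ)).IsIntegralElem w) :
    (evE O (jqModC E)).IsIntegralElem (coeffMap (Int.castRingHom E) w) := by
  obtain ⟨P, hP, hPw⟩ := hw
  refine ⟨P.map (Polynomial.mapRingHom (Int.castRingHom O)), hP.map _, ?_⟩
  rw [Polynomial.eval₂_map, ← coeffMap_comp_evalAt, ← Polynomial.hom_eval₂, hPw, map_zero]

theorem isIntegralElem_basis (A : AnalyticInputs) (N : ℕ) [NeZero N] {w : LaurentSeries ℤ}
    (hw : w ∈ Subring.closure (intDivisorExpansions N)) :
    (evE O (jqModC E)).IsIntegralElem (coeffMap (Int.castRingHom E) w) :=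
  isIntegralElem_intCast (S28.H508.isIntegralElem_of_mem_closure N
    (S28.H867.coreData_integral N (fun p hp _ _ => A.modPoly p hp)) hw)

end Integral

section Kernel

variable {E : Type} [Field E] {O : Subring E} {κ : Type} [Field κ] {res : O →+* κ} {π : O}

theorem prime_pi (h : UnifData O res π) : Prime π := by
  rw [← Ideal.span_singleton_prime h.ne_zero]
  have : Ideal.span {π} = RingHom.ker res := by
    ext x
    rw [RingHom.mem_ker, h.ker, Ideal.mem_span_singleton']
    constructor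
    · rintro ⟨a, rfl⟩; exact ⟨a, mul_comm _ _⟩
    · rintro ⟨y, rfl⟩; exact ⟨y, mul_comm _ _⟩
  rw [this]
  exact RingHom.ker_isPrime _

theorem not_C_pi_dvd (h : UnifData O res π) {g : Polynomial O} (hg : g.map res ≠ 0) :
    ¬ Polynomial.C π ∣ g := by
  rintro ⟨g', rfl⟩
  exact hg (map_res_C_pi_mul h g')

theorem piL_mem_full (N : ℕ) (π : O) : piL O π ∈ modularFunctionFieldFullC E N := by
  have : piL O π = algebraMap E (LaurentSeries E) (π : E) := by
    rw [algebraMap_laurentSeries_eq_single]; rfl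
  rw [this]
  exact (modularFunctionFieldFullC E N).algebraMap_mem _

theorem evE_mem_full (N : ℕ) {t : LaurentSeries E} (ht : t ∈ modularFunctionFieldFullC E N)
    (P : Polynomial O) : evE O t P ∈ modularFunctionFieldFullC E N := by
  induction P using Polynomial.induction_on' with
  | add p q hp hq => rw [map_add]; exact add_mem hp hq
  | monomial n a =>
    rw [← Polynomial.C_mul_X_pow_eq_monomial, map_mul, map_pow, evE_C]
    have h1 : (HahnSeries.C (a : E) : LaurentSeries E) = algebraMap E (LaurentSeries E) (a : E) := by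
      rw [algebraMap_laurentSeries_eq_single]; rfl
    rw [h1]
    refine mul_mem ((modularFunctionFieldFullC E N).algebraMap_mem _) (pow_mem ?_ n)
    simpa [evE] using ht

/-- Elements of the fraction field which are integral over `O[t]`, `t ∈ V`, lie in `V`. -/
theorem mem_gaussRing_of_isIntegralElem (h : UnifData O res π) {t : LaurentSeries E}
    (ht : t ∈ gaussRing O res) {x : LaurentSeries E} (hxF : x ∈ gaussFrac O)
    (hx : (evE O t).IsIntegralElem x) : x ∈ gaussRing O res := by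
  letI : Algebra (Polynomial O) (LaurentSeries E) := (evE O t).toAlgebra
  exact mem_gaussRing_of_isIntegral' h (A := Polynomial O)
    (fun a => evE_mem_gaussRing ht a) hxF hx

variable [IsDiscreteValuationRing O]

/-- **Abstract kernel step** on the chart `O[t]`. -/
theorem isIntegralElem_of_pi_mul (h : UnifData O res π) {t : LaurentSeries E} (ht0 : t ≠ 0)
    (hto : t.order ≠ 0) {a : LaurentSeries E}
    (h1 : (evE O t).IsIntegralElem (piL O π * a))
    {s : Polynomial O} (hs : s.map res ≠ 0)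
    (h2 : (evE O t).IsIntegralElem (evE O t s * a)) :
    (evE O t).IsIntegralElem a := by
  letI : Algebra (Polynomial O) (LaurentSeries E) := (evE O t).toAlgebra
  haveI : FaithfulSMul (Polynomial O) (LaurentSeries E) :=
    (faithfulSMul_iff_algebraMap_injective _ _).mpr (evE_injective ht0 hto)
  have hp : Prime (Polynomial.C π : Polynomial O) := Polynomial.prime_C_iff.mpr (prime_pi h)
  have h1' : IsIntegral (Polynomial O) ((Polynomial.C π : Polynomial O) • a) := by
    rw [Algebra.smul_def]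
    show (evE O t).IsIntegralElem (evE O t (Polynomial.C π) * a)
    rw [evE_C_pi]
    exact h1
  have h2' : IsIntegral (Polynomial O) (s • a) := by
    rw [Algebra.smul_def]
    exact h2
  exact S28.H865.isIntegral_of_smul_of_smul hp (not_C_pi_dvd h hs) h1' h2'

/-- The denominator property of a chart `O[t]`. -/
def HasDenominators (res : O →+* κ) (N : ℕ) (t : LaurentSeries E) : Prop :=
  ∀ x : LaurentSeries E, x ∈ modularFunctionFieldFullC E N → x ∈ gaussRing O res →
    ∃ s : Polynomial O, s.map res ≠ 0 ∧ (evE O t).IsIntegralElem (evE O t s * x)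

/-- **Kernel theorem** on a chart with denominators. -/
theorem kernel_chart (h : UnifData O res π) (N : ℕ) {t : LaurentSeries E} (ht0 : t ≠ 0)
    (hto : t.order ≠ 0) (hD : HasDenominators res N t)
    {x : LaurentSeries E} (hxF : x ∈ modularFunctionFieldFullC E N)
    (hint : (evE O t).IsIntegralElem x)
    (hx : x ∈ gaussRing O res) (hred : gaussRed O res ⟨x, hx⟩ = 0) :
    ∃ x' : LaurentSeries E, x' ∈ modularFunctionFieldFullC E N ∧
      (evE O t).IsIntegralElem x' ∧ x = piL O π * x' := by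
  obtain ⟨yV, hyV⟩ := (gaussRed_eq_zero_iff h ⟨x, hx⟩).mp hred
  have hyV' : x = piL O π * (yV : LaurentSeries E) := hyV
  have hπ := piL_ne_zero h
  have hyF : (yV : LaurentSeries E) ∈ modularFunctionFieldFullC E N := by
    have : (yV : LaurentSeries E) = (piL O π)⁻¹ * x := by
      rw [hyV', ← mul_assoc, inv_mul_cancel₀ hπ, one_mul]
    rw [this]
    exact mul_mem (inv_mem (piL_mem_full N π)) hxF
  obtain ⟨s, hs, hsint⟩ := hD _ hyF yV.2
  refine ⟨yV, hyF, ?_, hyV'⟩
  exact isIntegralElem_of_pi_mul h ht0 hto (by rw [← hyV']; exact hint) hs hsint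

/-- The chart `O[j]` has denominators. -/
theorem hasDenominators_j (A : AnalyticInputs) (h : UnifData O res π) (hfrac : IsFrac O)
    (N : ℕ) [NeZero N] (hN : (N : κ) ≠ 0) : HasDenominators res N (jqModC E) := by
  intro x hxF hx
  obtain ⟨y, hy, hbasis⟩ := exists_uniform_basis A N
  obtain ⟨hspanE, -⟩ := hbasis E (natCast_ne_zero_of_res res hN)
  obtain ⟨-, hliκ⟩ := hbasis κ hN
  obtain ⟨g, f, hg, hrel⟩ := exists_denominator h hfrac y hliκ (hspanE x hxF) hx
  refine ⟨g, hg, ?_⟩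
  rw [hrel]
  letI : Algebra (Polynomial O) (LaurentSeries E) := (evE O (jqModC E)).toAlgebra
  show IsIntegral (Polynomial O) _
  refine IsIntegral.sum _ fun i _ => ?_
  exact IsIntegral.mul (isIntegral_algebraMap (x := f i)) (isIntegralElem_basis A N (hy i))

/-- **(T4), finite chart.**  `x ∈ F_E` integral over `O[j]` with vanishing reduction is
`π · x'` with `x' ∈ F_E` integral over `O[j]`. -/
theorem kernel_fin (A : AnalyticInputs) (h : UnifData O res π) (hfrac : IsFrac O)
    (N : ℕ) [NeZero N] (hN : (N : κ) ≠ 0)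
    {x : LaurentSeries E} (hxF : x ∈ modularFunctionFieldFullC E N)
    (hint : (evE O (jqModC E)).IsIntegralElem x)
    (hx : x ∈ gaussRing O res) (hred : gaussRed O res ⟨x, hx⟩ = 0) :
    ∃ x' : LaurentSeries E, x' ∈ modularFunctionFieldFullC E N ∧
      (evE O (jqModC E)).IsIntegralElem x' ∧ x = piL O π * x' :=
  kernel_chart h N (S28.H145.jqModC_ne_zero' E) (by rw [S28.H145.order_jqModC]; decide)
    (hasDenominators_j A h hfrac N hN) hxF hint hx hred

end Kernel

section Infinity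

variable {E : Type} [Field E] {O : Subring E} {κ : Type} [Field κ] {res : O →+* κ} {π : O}

theorem evE_X (t : LaurentSeries E) : evE O t Polynomial.X = t := by simp [evE]

/-- `(reflect m P)(t⁻¹) = P(t) · t⁻ᵐ` for `deg P ≤ m`. -/
theorem evE_reflect {t : LaurentSeries E} (ht0 : t ≠ 0) (m : ℕ) (P : Polynomial O)
    (hP : P.natDegree ≤ m) : evE O t⁻¹ (P.reflect m) = evE O t P * t⁻¹ ^ m := by
  letI : Invertible t := invertibleOfNonzero ht0
  have h := Polynomial.eval₂_reflect_mul_pow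
    ((HahnSeries.C : E →+* LaurentSeries E).comp O.subtype) t m P hP
  rw [invOf_eq_inv] at h
  show Polynomial.eval₂ _ t⁻¹ (P.reflect m) = Polynomial.eval₂ _ t P * _
  rw [← h, mul_assoc, ← mul_pow, mul_inv_cancel₀ ht0, one_pow, mul_one]

/-- **Pole clearing**: if `w` is integral over `O[t]`, then `t⁻ⁿ w` is integral over `O[t⁻¹]`
for some `n`. -/
theorem exists_pow_mul_isIntegralElem {t : LaurentSeries E} (ht0 : t ≠ 0) {w : LaurentSeries E}
    (hw : (evE O t).IsIntegralElem w) :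
    ∃ n : ℕ, (evE O t⁻¹).IsIntegralElem (t⁻¹ ^ n * w) := by
  classical
  obtain ⟨p, hmonic, hroot⟩ := hw
  set M : ℕ := ∑ i ∈ Finset.range (p.natDegree + 1), (p.coeff i).natDegree with hM
  have hnM : ∀ i ≤ p.natDegree, (p.coeff i).natDegree ≤ M := fun i hi =>
    Finset.single_le_sum (f := fun i => (p.coeff i).natDegree) (fun _ _ => Nat.zero_le _)
      (Finset.mem_range.mpr (Nat.lt_succ_of_le hi))
  set q : Polynomial (LaurentSeries E) := (p.map (evE O t)).scaleRoots (t⁻¹ ^ M) with hq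
  have hqmonic : q.Monic := (Polynomial.monic_scaleRoots_iff _).mpr (hmonic.map _)
  have hqroot : q.eval (t⁻¹ ^ M * w) = 0 := by
    rw [hq, Polynomial.scaleRoots_eval_mul, Polynomial.eval_map, hroot, mul_zero]
  have hqcoeff : ∀ i, q.coeff i ∈ (evE O t⁻¹).rangeS := by
    intro i
    rw [hq, Polynomial.coeff_scaleRoots, Polynomial.coeff_map, hmonic.natDegree_map]
    by_cases hi : i < p.natDegree
    · have hle : (p.coeff i).natDegree ≤ M * (p.natDegree - i) := by
        calc (p.coeff i).natDegree ≤ M := hnM i hi.le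
          _ = M * 1 := (mul_one M).symm
          _ ≤ M * (p.natDegree - i) :=
            Nat.mul_le_mul_left M (Nat.one_le_iff_ne_zero.mpr (by omega))
      refine ⟨(p.coeff i).reflect (M * (p.natDegree - i)), ?_⟩
      rw [evE_reflect ht0 _ _ hle, ← pow_mul]
    · rcases (not_lt.mp hi).lt_or_eq with hlt | heq
      · rw [Polynomial.coeff_eq_zero_of_natDegree_lt hlt, map_zero, zero_mul]
        exact zero_mem _
      · rw [← heq, hmonic.coeff_natDegree, map_one, one_mul, Nat.sub_self, pow_zero]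
        exact one_mem _
  have hlifts : q ∈ Polynomial.lifts (evE O t⁻¹) :=
    (Polynomial.lifts_iff_coeff_lifts q).mpr fun i => hqcoeff i
  obtain ⟨q', hq'q, -, hq'monic⟩ := Polynomial.lifts_and_natDegree_eq_and_monic hlifts hqmonic
  refine ⟨M, q', hq'monic, ?_⟩
  rw [Polynomial.eval₂_eq_eval_map, hq'q, hqroot]

/-- Denominators pass from the chart `O[t]` to the chart `O[t⁻¹]`. -/
theorem HasDenominators.inv {N : ℕ} {t : LaurentSeries E} (ht0 : t ≠ 0)
    (hD : HasDenominators res N t) : HasDenominators res N t⁻¹ := by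
  intro x hxF hx
  obtain ⟨s, hs, hint⟩ := hD x hxF hx
  obtain ⟨n, hn⟩ := exists_pow_mul_isIntegralElem ht0 hint
  refine ⟨Polynomial.X ^ s.natDegree * (Polynomial.X ^ n * s.reflect s.natDegree), ?_, ?_⟩
  · rw [Polynomial.map_mul, Polynomial.map_mul, Polynomial.map_pow, Polynomial.map_pow,
      Polynomial.map_X, ← Polynomial.reflect_map]
    exact mul_ne_zero (pow_ne_zero _ Polynomial.X_ne_zero)
      (mul_ne_zero (pow_ne_zero _ Polynomial.X_ne_zero)
        (Polynomial.reflect_eq_zero_iff.not.mpr hs))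
  · have hre : evE O t⁻¹ (Polynomial.X ^ s.natDegree * (Polynomial.X ^ n * s.reflect s.natDegree)) * x
        = evE O t⁻¹ (Polynomial.X ^ s.natDegree * Polynomial.X ^ s.natDegree) *
          (t⁻¹ ^ n * (evE O t s * x)) := by
      rw [map_mul, map_mul, map_mul, map_pow, map_pow, evE_X, evE_reflect ht0 _ _ le_rfl]
      ring
    rw [hre]
    exact RingHom.IsIntegralElem.mul _ ((evE O t⁻¹).isIntegralElem_map) hn

end Infinity

section KernelInf

variable {E : Type} [Field E] {O : Subring E} [IsDiscreteValuationRing O]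
  {κ : Type} [Field κ] {res : O →+* κ} {π : O}

theorem j_inv_mem_gaussRing : (jqModC E)⁻¹ ∈ gaussRing O res := by
  have h := inv_mem_gaussRing_of_gaussRed_ne_zero
    (⟨jqModC E, j_mem_gaussRing O res⟩ : gaussRing O res)
    (by rw [gaussRed_j]; exact S28.H145.jqModC_ne_zero' κ)
  exact h

/-- **(T4), chart at infinity.** -/
theorem kernel_inf (A : AnalyticInputs) (h : UnifData O res π) (hfrac : IsFrac O)
    (N : ℕ) [NeZero N] (hN : (N : κ) ≠ 0)
    {x : LaurentSeries E} (hxF : x ∈ modularFunctionFieldFullC E N)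
    (hint : (evE O (jqModC E)⁻¹).IsIntegralElem x)
    (hx : x ∈ gaussRing O res) (hred : gaussRed O res ⟨x, hx⟩ = 0) :
    ∃ x' : LaurentSeries E, x' ∈ modularFunctionFieldFullC E N ∧
      (evE O (jqModC E)⁻¹).IsIntegralElem x' ∧ x = piL O π * x' :=
  kernel_chart h N (inv_ne_zero (S28.H145.jqModC_ne_zero' E))
    (S28.H806.jqModC_inv_order_ne_zero E)
    ((hasDenominators_j A h hfrac N hN).inv (S28.H145.jqModC_ne_zero' E)) hxF hint hx hred

end KernelInf

end Fermat.Agent.S18.H208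

end

end
-- ===== PACK-END S18/H208/Gauss.lean

-- ===== PACK-BEGIN S18/H208/Fibre.lean
section
/-
S18 / M1 (helper208): the function field of the special fibre.

* `relfinrank_full`     : `[F_{N,k} : k(j)] = ψ(N)` for every field `k` with `N` invertible.
* `isSeparable_full`    : every element of `F_{N,k}` is separable over `k(j)`.
* `exists_lift`         : (res surjective) every element of `F_κ` is the reduction of an element
                          of `F_E ∩ V`, and is a quotient of reductions of elements integral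
                          over `O[j]`.
-/



set_option autoImplicit false
set_option linter.unusedSectionVars false
set_option linter.style.haveILetI false

noncomputable section

namespace Fermat.Agent.S18.H208

open ModularCurve HahnSeries Polynomial Fermat.Agent.S28 Fermat.Agent.S28.H86

section Degree

/-- **(T5)** `[F_{N,k} : k(j)] = ψ(N)`. -/
theorem relfinrank_full (A : AnalyticInputs) (k : Type) [Field k] (N : ℕ) [NeZero N]
    (hN : (N : k) ≠ 0) :
    (jField k).relfinrank (modularFunctionFieldFullC k N) = dedekindPsi N := by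
  have h := (good_of_analytic A k N hN).degE_eq
  rw [S28.H867.gFun_eq_dedekindPsi (NeZero.ne N)] at h
  exact h

end Degree

section Sep

variable (k : Type) [Field k]

/-- `Φ_p(X, j)` is a separable polynomial over `k((q))` when `p` is invertible in `k`. -/
theorem separable_modPoly {p : ℕ} [NeZero p] (hp : p.Prime) (D : ModPolyData p)
    (hpk : (p : k) ≠ 0) : (D.Φ.map (S28.H208.evZ (jqModC k))).Separable := by
  haveI : NeZero (p : k) := ⟨hpk⟩
  obtain ⟨ζ, hζ⟩ := HasEnoughRootsOfUnity.exists_primitiveRoot (AlgebraicClosure k) p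
  have h1 : (D.Φ.map (S28.H208.evZ (qExpand (AlgebraicClosure k) p
      (jqModC (AlgebraicClosure k))))).Separable := by
    rw [S28.H208.map_eq_prod_rootAt D hp.one_lt ζ hζ]
    exact Polynomial.separable_prod_X_sub_C_iff.mpr (S28.H208.rootAt_injective hp.one_lt ζ hζ)
  have h2 : (D.Φ.map (S28.H208.evZ (jqModC (AlgebraicClosure k)))).Separable := by
    rw [← S28.H208.map_map_evZ (qExpand (AlgebraicClosure k) p) D.Φ
      (jqModC (AlgebraicClosure k))] at h1
    exact (Polynomial.separable_map _).mp h1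
  have h3 : (D.Φ.map (S28.H208.evZ (jqModC k))).map
      (coeffMap (algebraMap k (AlgebraicClosure k))) =
      D.Φ.map (S28.H208.evZ (jqModC (AlgebraicClosure k))) := by
    rw [S28.H208.map_map_evZ, coeffMap_jqModC]
  rw [← h3] at h2
  exact (Polynomial.separable_map _).mp h2

/-- `Φ_p(X, j(q^m))` is separable over `k((q))`. -/
theorem separable_modPoly_qExpand {p : ℕ} [NeZero p] (hp : p.Prime) (D : ModPolyData p)
    (hpk : (p : k) ≠ 0) (m : ℕ) [NeZero m] :
    (D.Φ.map (S28.H208.evZ (qExpand k m (jqModC k)))).Separable := by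
  rw [← S28.H208.map_map_evZ (qExpand k m) D.Φ (jqModC k)]
  exact (Polynomial.separable_map _).mpr (separable_modPoly k hp D hpk)

/-- `j(q^d)` is separable over `k(j)` when `d` is invertible in `k`. -/
theorem jd_mem_separableClosure (A : AnalyticInputs) :
    ∀ (d : ℕ) (hd : d ≠ 0), (∀ p : ℕ, p.Prime → p ∣ d → (p : k) ≠ 0) →
      @qExpand k _ d ⟨hd⟩ (jqModC k) ∈ separableClosure (jField k) (LaurentSeries k) := by
  intro d
  induction d using induction_on_primes with
  | zero => intro hd; exact absurd rfl hd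
  | one =>
    intro _ _
    rw [qExpand_one_apply]
    exact (separableClosure (jField k) (LaurentSeries k)).algebraMap_mem
      (⟨jqModC k, S28.H145.jqModC_mem_jField⟩ : jField k)
  | prime_mul p m hp ih =>
    intro hd hchar
    have hm : m ≠ 0 := fun h => hd (by rw [h, mul_zero])
    haveI : NeZero p := ⟨hp.ne_zero⟩
    haveI : NeZero m := ⟨hm⟩
    haveI : NeZero (m * p) := ⟨Nat.mul_ne_zero hm hp.ne_zero⟩
    haveI : NeZero (p * m) := ⟨hd⟩
    obtain ⟨D⟩ := A.modPoly p hp
    have hjm := ih hm (fun r hr hrm => hchar r hr (hrm.mul_left p))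
    have hpk : (p : k) ≠ 0 := hchar p hp (dvd_mul_right p m)
    set Ks := separableClosure (jField k) (LaurentSeries k) with hKs
    -- the polynomial `Φ_p(X, j_m)` over `Ks`
    set jm : Ks := ⟨qExpand k m (jqModC k), hjm⟩ with hjmdef
    set P : Polynomial Ks := D.Φ.map (S28.H208.evZ jm) with hP
    have hPmap : P.map (algebraMap Ks (LaurentSeries k)) =
        D.Φ.map (S28.H208.evZ (qExpand k m (jqModC k))) := by
      rw [hP, S28.H208.map_map_evZ]
      rfl
    have hPsep : P.Separable := by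
      have := separable_modPoly_qExpand k hp D hpk m
      rw [← hPmap] at this
      exact (Polynomial.separable_map _).mp this
    have hroot : Polynomial.aeval (qExpand k (m * p) (jqModC k)) P = 0 := by
      rw [Polynomial.aeval_def, ← Polynomial.eval_map, hPmap, Polynomial.eval_map]
      exact S28.H208.eval_jp_ring_qExpand k D m
    have hsep : IsSeparable Ks (qExpand k (m * p) (jqModC k)) :=
      hPsep.of_dvd (minpoly.dvd Ks _ hroot)
    have hmem : qExpand k (m * p) (jqModC k) ∈ separableClosure Ks (LaurentSeries k) :=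
      mem_separableClosure_iff.mpr hsep
    rw [separableClosure.separableClosure_eq_bot, IntermediateField.mem_bot] at hmem
    obtain ⟨y, hy⟩ := hmem
    have hfin : qExpand k (m * p) (jqModC k) ∈ Ks := by
      rw [← hy]
      exact y.2
    have hcongr : @qExpand k _ (p * m) ⟨hd⟩ (jqModC k) = qExpand k (m * p) (jqModC k) :=
      qExpand_congr (mul_comm p m) _
    rw [hcongr]
    exact hfin

/-- **(T6)** Every element of `F_{N,k}` is separable over `k(j)` (`N` invertible in `k`). -/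
theorem isSeparable_full (A : AnalyticInputs) (N : ℕ) [NeZero N] (hN : (N : k) ≠ 0)
    {x : LaurentSeries k} (hx : x ∈ modularFunctionFieldFullC k N) :
    IsSeparable (jField k) x := by
  rw [← mem_separableClosure_iff]
  have hle : modularFunctionFieldFullC k N ≤
      (separableClosure (jField k) (LaurentSeries k)).restrictScalars k := by
    rw [modularFunctionFieldFullC, IntermediateField.adjoin_le_iff]
    rintro _ ⟨d, hd, hdN, rfl⟩
    exact jd_mem_separableClosure k A d hd.out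
      (fun p _ hpd => natCast_prime_ne_zero_of_dvd hN p (hpd.trans hdN))
  exact hle hx

end Sep

section Lift

variable {E : Type} [Field E] {O : Subring E} {κ : Type} [Field κ] {res : O →+* κ} {π : O}

theorem isFrac_top (κ : Type) [Field κ] : IsFrac (⊤ : Subring κ) := fun e =>
  ⟨⟨e, Subring.mem_top e⟩, 1, one_ne_zero, by simp⟩

theorem evE_top_eq_aeval (t : LaurentSeries κ) (P : Polynomial (⊤ : Subring κ)) :
    evE (⊤ : Subring κ) t P = Polynomial.aeval t (P.map (⊤ : Subring κ).subtype) := by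
  rw [Polynomial.aeval_def, Polynomial.eval₂_map]
  show Polynomial.eval₂ _ t P = _
  congr 1
  ext c : 1
  rw [RingHom.comp_apply, RingHom.comp_apply, algebraMap_laurentSeries_eq_single]
  rfl

theorem gaussRed_evE_j (P : Polynomial O) :
    gaussRed O res ⟨evE O (jqModC E) P, evE_mem_gaussRing (j_mem_gaussRing O res) P⟩ =
      Polynomial.aeval (jqModC κ) (P.map res) := by
  have : (⟨evE O (jqModC E) P, evE_mem_gaussRing (j_mem_gaussRing O res) P⟩ : gaussRing O res) =
      evV O res ⟨jqModC E, j_mem_gaussRing O res⟩ P :=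
    Subtype.ext (coe_evV (⟨jqModC E, j_mem_gaussRing O res⟩ : gaussRing O res) P).symm
  rw [this, gaussRed_evV, gaussRed_j]

/-- **(T3)** Every element of `F_κ` is a quotient of reductions of elements of `F_E` integral
over `O[j]`. -/
theorem exists_lift (A : AnalyticInputs) (hsurj : Function.Surjective res)
    (N : ℕ) [NeZero N] (hN : (N : κ) ≠ 0)
    {z : LaurentSeries κ} (hz : z ∈ modularFunctionFieldFullC κ N) :
    ∃ (a b : LaurentSeries E) (ha : a ∈ gaussRing O res) (hb : b ∈ gaussRing O res),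
      a ∈ modularFunctionFieldFullC E N ∧ b ∈ modularFunctionFieldFullC E N ∧
      (evE O (jqModC E)).IsIntegralElem a ∧ (evE O (jqModC E)).IsIntegralElem b ∧
      gaussRed O res ⟨b, hb⟩ ≠ 0 ∧ z * gaussRed O res ⟨b, hb⟩ = gaussRed O res ⟨a, ha⟩ := by
  obtain ⟨y, hy, hbasis⟩ := exists_uniform_basis A N
  obtain ⟨hspanκ, -⟩ := hbasis κ hN
  obtain ⟨g', f', hg', hrel'⟩ := exists_cleared_of_mem_span (isFrac_top κ) _ (hspanκ z hz)
  simp only [evE_top_eq_aeval] at hrel'
  obtain ⟨g, hg⟩ := Polynomial.map_surjective res hsurj (g'.map (⊤ : Subring κ).subtype)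
  have hf : ∀ i, ∃ P : Polynomial O, P.map res = (f' i).map (⊤ : Subring κ).subtype :=
    fun i => Polynomial.map_surjective res hsurj _
  choose f hf using hf
  have hgne : g.map res ≠ 0 := by
    rw [hg]
    exact (Polynomial.map_ne_zero_iff Subtype.val_injective).mpr hg'
  have hjE := j_mem_gaussRing O res (E := E)
  have hjF : jqModC E ∈ modularFunctionFieldFullC E N := jqModC_mem_full E N
  -- the numerator
  set a : LaurentSeries E := ∑ i, evE O (jqModC E) (f i) * coeffMap (Int.castRingHom E) (y i)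
    with ha_def
  have haV : a ∈ gaussRing O res :=
    sum_mem fun i _ => mul_mem (evE_mem_gaussRing hjE _) (intCast_mem_gaussRing O res _)
  have haF : a ∈ modularFunctionFieldFullC E N :=
    sum_mem fun i _ => mul_mem (evE_mem_full N hjF _) (coeffMap_intCast_mem_full E N (hy i))
  have haI : (evE O (jqModC E)).IsIntegralElem a := by
    letI : Algebra (Polynomial O) (LaurentSeries E) := (evE O (jqModC E)).toAlgebra
    show IsIntegral (Polynomial O) _
    refine IsIntegral.sum _ fun i _ => ?_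
    exact IsIntegral.mul (isIntegral_algebraMap (x := f i)) (isIntegralElem_basis A N (hy i))
  have hared : gaussRed O res ⟨a, haV⟩ =
      ∑ i, Polynomial.aeval (jqModC κ) ((f i).map res) * coeffMap (Int.castRingHom κ) (y i) := by
    have h1 := gaussRed_relation (res := res) y haV 1 f (by rw [map_one, one_mul])
    rwa [Polynomial.map_one, map_one, one_mul] at h1
  refine ⟨a, evE O (jqModC E) g, haV, evE_mem_gaussRing hjE g, haF, evE_mem_full N hjF g, haI,
    (evE O (jqModC E)).isIntegralElem_map, ?_, ?_⟩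
  · rw [gaussRed_evE_j]
    exact aeval_j_ne_zero hgne
  · rw [gaussRed_evE_j, hared, hg, mul_comm, hrel']
    refine Finset.sum_congr rfl fun i _ => ?_
    rw [hf i]

/-- **(T3')** The reduction `F_E ∩ V → F_κ` is surjective. -/
theorem exists_preimage (A : AnalyticInputs) (hsurj : Function.Surjective res)
    (N : ℕ) [NeZero N] (hN : (N : κ) ≠ 0)
    {z : LaurentSeries κ} (hz : z ∈ modularFunctionFieldFullC κ N) :
    ∃ (x : LaurentSeries E) (hx : x ∈ gaussRing O res),
      x ∈ modularFunctionFieldFullC E N ∧ gaussRed O res ⟨x, hx⟩ = z := by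
  obtain ⟨a, b, ha, hb, haF, hbF, -, -, hbne, hrel⟩ :=
    exists_lift (E := E) (O := O) A hsurj N hN hz
  have hbinv := inv_mem_gaussRing_of_gaussRed_ne_zero ⟨b, hb⟩ hbne
  have hb0 : b ≠ 0 := by
    rintro rfl
    apply hbne
    have : (⟨0, hb⟩ : gaussRing O res) = 0 := rfl
    rw [this, map_zero]
  refine ⟨a * b⁻¹, mul_mem ha hbinv, mul_mem haF (inv_mem hbF), ?_⟩
  have h1 : (⟨a * b⁻¹, mul_mem ha hbinv⟩ : gaussRing O res) * ⟨b, hb⟩ = ⟨a, ha⟩ := by
    apply Subtype.ext
    show a * b⁻¹ * b = a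
    rw [mul_assoc, inv_mul_cancel₀ hb0, mul_one]
  have h2 := congrArg (gaussRed O res) h1
  rw [map_mul, ← hrel] at h2
  exact mul_right_cancel₀ hbne h2

end Lift

section DVR

open IsLocalRing

variable {E : Type} [Field E] (O : Subring E) [IsDiscreteValuationRing O]

/-- A discrete valuation subring with its residue map and a uniformiser is `UnifData`. -/
theorem unifData_residue {ϖ : O} (hϖ : Irreducible ϖ) : UnifData O (residue O) ϖ := by
  have hmax : maximalIdeal O = Ideal.span {ϖ} := hϖ.maximalIdeal_eq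
  refine ⟨?_, hϖ.ne_zero, ?_⟩
  · intro x
    rw [residue_eq_zero_iff, hmax, Ideal.mem_span_singleton']
    constructor
    · rintro ⟨y, hy⟩
      exact ⟨y, by rw [← hy, mul_comm]⟩
    · rintro ⟨y, hy⟩
      exact ⟨y, by rw [hy, mul_comm]⟩
  · intro x hx
    obtain ⟨n, u, hu⟩ := IsDiscreteValuationRing.eq_unit_mul_pow_irreducible hx hϖ
    refine ⟨n, (u : O), by rw [hu, mul_comm], ?_⟩
    intro h0
    rw [residue_eq_zero_iff] at h0
    exact (IsLocalRing.mem_maximalIdeal _).mp h0 u.isUnit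

/-- A valuation subring has `E` as fraction field. -/
theorem isFrac_valuationSubring (V : ValuationSubring E) : IsFrac V.toSubring := by
  intro e
  rcases V.mem_or_inv_mem e with he | he
  · exact ⟨⟨e, he⟩, 1, one_ne_zero, by simp⟩
  · by_cases he0 : e = 0
    · subst he0
      exact ⟨0, 1, one_ne_zero, by simp⟩
    · refine ⟨1, ⟨e⁻¹, he⟩, ?_, ?_⟩
      · intro h0
        have := congrArg Subtype.val h0
        simp at this
        exact he0 this
      · show e * e⁻¹ = 1
        exact mul_inv_cancel₀ he0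

end DVR

end Fermat.Agent.S18.H208

end

end
-- ===== PACK-END S18/H208/Fibre.lean

-- ===== PACK-BEGIN S18/H208/M1.lean
section
/-
S18 / M1 (helper208): MOD piece M1 = the S28 outputs over a general discrete valuation ring.

SETTING.  `E` a field, `O : Subring E` a discrete valuation ring with fraction field `E`
(`IsFrac O`), `res : O →+* κ` a ring homomorphism to a field with kernel the maximal ideal
(NOT necessarily surjective: `κ` may be the residue field of a bigger valuation ring),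
`N ≥ 1` invertible in `κ`.  `F_E = modularFunctionFieldFullC E N ⊆ E((q))`,
`F_κ = modularFunctionFieldFullC κ N ⊆ κ((q))`.

`V = gaussRing O res ⊆ E((q))` is the Gauss valuation ring (helper86), with reduction
`gaussRed O res : V →+* κ((q))`.  Integrality over the chart ring `O[t]` (`t = j` or `j⁻¹`) is
expressed as `(evE O t).IsIntegralElem x`, `evE O t : O[X] →+* E((q))`, `P ↦ P(t)`.

RESULTS (all unconditional):
* `M1.mem_gaussRing_fin / _inf` : elements of `F_E` integral over `O[j]` / `O[j⁻¹]` lie in `V`.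
* `M1.gaussRed_mem`             : the reduction of `F_E ∩ V` lies in `F_κ`.
* `M1.qep_fin / qep_inf`        : QEP = kernel of the reduction on the chart is `ϖ · chart`.
* `M1.denominators_fin / _inf`  : `F_E ∩ V` is the localisation of the chart at `(ϖ)`.
* `M1.relfinrank_eq`            : `[F_k : k(j)] = ψ(N)` for `k = E` and `k = κ`.
* `M1.isSeparable`              : `F_κ / κ(j)` (and `F_E / E(j)`) is separable.
* `M1.exists_lift / exists_preimage` : (res surjective) `Frac(red(chart)) = F_κ`.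
-/





set_option autoImplicit false
set_option linter.unusedSectionVars false
set_option linter.style.haveILetI false

noncomputable section

namespace Fermat.Agent.S18.H208

open ModularCurve HahnSeries Polynomial Fermat.Agent.S28 Fermat.Agent.S28.H86 IsLocalRing

/-- The analytic inputs of S28, as proved on main. -/
theorem analyticInputs : AnalyticInputs where
  modPoly := fun p _ hp => S28.H807.nonempty_modPolyData p hp
  unitPoly := fun p _ hp => S28.H807.nonempty_unitPolyData p hp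
  theta := S28.H25.theta_identity

namespace M1

variable {E : Type} [Field E] {O : Subring E} [IsDiscreteValuationRing O]
  {κ : Type} [Field κ] {res : O →+* κ}

/-- `UnifData` from a DVR, a uniformiser and a residue map with kernel the maximal ideal. -/
theorem unifData (hker : ∀ x : O, res x = 0 ↔ x ∈ maximalIdeal O) {ϖ : O}
    (hϖ : Irreducible ϖ) : UnifData O res ϖ := by
  have h := unifData_residue O hϖ
  refine ⟨fun x => ?_, h.ne_zero, fun x hx => ?_⟩
  · rw [hker, ← residue_eq_zero_iff]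
    exact h.ker x
  · obtain ⟨n, y, hy, hres⟩ := h.prim x hx
    refine ⟨n, y, hy, fun h0 => hres ?_⟩
    rw [residue_eq_zero_iff, ← hker]
    exact h0

theorem natCast_ne_zero (res : O →+* κ) {N : ℕ} (hN : (N : κ) ≠ 0) : (N : E) ≠ 0 :=
  natCast_ne_zero_of_res res hN

variable (hker : ∀ x : O, res x = 0 ↔ x ∈ maximalIdeal O) (hfrac : IsFrac O)
  (N : ℕ) [NeZero N] (hN : (N : κ) ≠ 0)

include hker hfrac in
/-- Elements of `F_E` integral over `O[j]` lie in the Gauss ring. -/
theorem mem_gaussRing_fin {x : LaurentSeries E} (hxF : x ∈ modularFunctionFieldFullC E N)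
    (hint : (evE O (jqModC E)).IsIntegralElem x) : x ∈ gaussRing O res := by
  obtain ⟨ϖ, hϖ⟩ := IsDiscreteValuationRing.exists_irreducible O
  exact mem_gaussRing_of_isIntegralElem (unifData hker hϖ) (j_mem_gaussRing O res)
    (full_le_gaussFrac hfrac N hxF) hint

include hker hfrac in
/-- Elements of `F_E` integral over `O[j⁻¹]` lie in the Gauss ring. -/
theorem mem_gaussRing_inf {x : LaurentSeries E} (hxF : x ∈ modularFunctionFieldFullC E N)
    (hint : (evE O (jqModC E)⁻¹).IsIntegralElem x) : x ∈ gaussRing O res := by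
  obtain ⟨ϖ, hϖ⟩ := IsDiscreteValuationRing.exists_irreducible O
  exact mem_gaussRing_of_isIntegralElem (unifData hker hϖ) j_inv_mem_gaussRing
    (full_le_gaussFrac hfrac N hxF) hint

include hker hfrac hN in
/-- The reduction of `F_E ∩ V` lies in `F_κ`. -/
theorem gaussRed_mem {x : LaurentSeries E} (hxF : x ∈ modularFunctionFieldFullC E N)
    (hx : x ∈ gaussRing O res) : gaussRed O res ⟨x, hx⟩ ∈ modularFunctionFieldFullC κ N := by
  obtain ⟨ϖ, hϖ⟩ := IsDiscreteValuationRing.exists_irreducible O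
  exact gaussRed_mem_full analyticInputs (unifData hker hϖ) hfrac N hN hxF hx

include hker hfrac hN in
/-- **QEP, finite chart.** -/
theorem qep_fin {ϖ : O} (hϖ : Irreducible ϖ)
    {x : LaurentSeries E} (hxF : x ∈ modularFunctionFieldFullC E N)
    (hint : (evE O (jqModC E)).IsIntegralElem x)
    (hx : x ∈ gaussRing O res) (hred : gaussRed O res ⟨x, hx⟩ = 0) :
    ∃ x' : LaurentSeries E, x' ∈ modularFunctionFieldFullC E N ∧
      (evE O (jqModC E)).IsIntegralElem x' ∧ x = HahnSeries.C (ϖ : E) * x' :=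
  kernel_fin analyticInputs (unifData hker hϖ) hfrac N hN hxF hint hx hred

include hker hfrac hN in
/-- **QEP, chart at infinity.** -/
theorem qep_inf {ϖ : O} (hϖ : Irreducible ϖ)
    {x : LaurentSeries E} (hxF : x ∈ modularFunctionFieldFullC E N)
    (hint : (evE O (jqModC E)⁻¹).IsIntegralElem x)
    (hx : x ∈ gaussRing O res) (hred : gaussRed O res ⟨x, hx⟩ = 0) :
    ∃ x' : LaurentSeries E, x' ∈ modularFunctionFieldFullC E N ∧
      (evE O (jqModC E)⁻¹).IsIntegralElem x' ∧ x = HahnSeries.C (ϖ : E) * x' :=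
  kernel_inf analyticInputs (unifData hker hϖ) hfrac N hN hxF hint hx hred

include hker hfrac hN in
/-- **Denominators, finite chart**: `F_E ∩ V` is the localisation of the chart at `(ϖ)`. -/
theorem denominators_fin {x : LaurentSeries E} (hxF : x ∈ modularFunctionFieldFullC E N)
    (hx : x ∈ gaussRing O res) :
    ∃ s : Polynomial O, s.map res ≠ 0 ∧
      (evE O (jqModC E)).IsIntegralElem (evE O (jqModC E) s * x) := by
  obtain ⟨ϖ, hϖ⟩ := IsDiscreteValuationRing.exists_irreducible O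
  exact hasDenominators_j analyticInputs (unifData hker hϖ) hfrac N hN x hxF hx

include hker hfrac hN in
/-- **Denominators, chart at infinity.** -/
theorem denominators_inf {x : LaurentSeries E} (hxF : x ∈ modularFunctionFieldFullC E N)
    (hx : x ∈ gaussRing O res) :
    ∃ s : Polynomial O, s.map res ≠ 0 ∧
      (evE O (jqModC E)⁻¹).IsIntegralElem (evE O (jqModC E)⁻¹ s * x) := by
  obtain ⟨ϖ, hϖ⟩ := IsDiscreteValuationRing.exists_irreducible O
  exact (hasDenominators_j analyticInputs (unifData hker hϖ) hfrac N hN).inv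
    (S28.H145.jqModC_ne_zero' E) x hxF hx

/-- `[F_k : k(j)] = ψ(N)` for every field `k` in which `N` is invertible. -/
theorem relfinrank_eq (k : Type) [Field k] (N : ℕ) [NeZero N] (hN : (N : k) ≠ 0) :
    (jField k).relfinrank (modularFunctionFieldFullC k N) = dedekindPsi N :=
  relfinrank_full analyticInputs k N hN

/-- `F_k / k(j)` is separable for every field `k` in which `N` is invertible. -/
theorem isSeparable (k : Type) [Field k] (N : ℕ) [NeZero N] (hN : (N : k) ≠ 0)
    {x : LaurentSeries k} (hx : x ∈ modularFunctionFieldFullC k N) :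
    IsSeparable (jField k) x :=
  isSeparable_full k analyticInputs N hN hx

/-- The uniform integral basis. -/
theorem exists_basis (N : ℕ) [NeZero N] :
    ∃ y : Fin (dedekindPsi N) → LaurentSeries ℤ,
      (∀ i, y i ∈ Subring.closure (intDivisorExpansions N)) ∧
      ∀ (k : Type) [Field k], (N : k) ≠ 0 →
        (∀ x ∈ modularFunctionFieldFullC k N,
          x ∈ Submodule.span (jField k)
            (Set.range fun i => coeffMap (Int.castRingHom k) (y i))) ∧
        LinearIndependent (jField k) (fun i => coeffMap (Int.castRingHom k) (y i)) :=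
  exists_uniform_basis analyticInputs N

include hN in
/-- Every element of `F_κ` is a quotient of reductions of chart elements (`res` onto). -/
theorem exists_lift' (hsurj : Function.Surjective res)
    {z : LaurentSeries κ} (hz : z ∈ modularFunctionFieldFullC κ N) :
    ∃ (a b : LaurentSeries E) (ha : a ∈ gaussRing O res) (hb : b ∈ gaussRing O res),
      a ∈ modularFunctionFieldFullC E N ∧ b ∈ modularFunctionFieldFullC E N ∧
      (evE O (jqModC E)).IsIntegralElem a ∧ (evE O (jqModC E)).IsIntegralElem b ∧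
      gaussRed O res ⟨b, hb⟩ ≠ 0 ∧ z * gaussRed O res ⟨b, hb⟩ = gaussRed O res ⟨a, ha⟩ :=
  exists_lift analyticInputs hsurj N hN hz

include hN in
/-- The reduction `F_E ∩ V → F_κ` is surjective (`res` onto). -/
theorem exists_preimage' (hsurj : Function.Surjective res)
    {z : LaurentSeries κ} (hz : z ∈ modularFunctionFieldFullC κ N) :
    ∃ (x : LaurentSeries E) (hx : x ∈ gaussRing O res),
      x ∈ modularFunctionFieldFullC E N ∧ gaussRed O res ⟨x, hx⟩ = z :=
  exists_preimage analyticInputs hsurj N hN hz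

end M1

end Fermat.Agent.S18.H208

end

end
-- ===== PACK-END S18/H208/M1.lean

-- ===== PACK-BEGIN A2/Mod/H454/L7.lean
section




/-!
# A2 / MOD leaf L7 `FrickeStable` (helper454)

At level `M` prime to the residue characteristic the Fricke involution `W` of
`F_{M,E} = E(j_d : d ∣ M)` preserves the Gauss valuation ring `V∞`.

Proof.  `F_M` has the uniform integral basis `y_i` over `E(j)` (S18 H208 `M1.exists_basis`), whose
reductions are independent over `κ(j)`; hence every `f ∈ V∞` satisfies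
`g(j) f = Σ f_i(j) y_i` with `g, f_i ∈ R[X]`, `g ≢ 0 mod w` (`exists_denominator`).  Apply `W`:
`g(j_M) W f = Σ f_i(j_M) W y_i`; `W y_i` has an integral `t`-expansion (polynomial in the `j_d`
with integer coefficients) and `g(j_M)` is a primitive integral series, because `j_M` mod `w` is
transcendental over `κ`.

* `frickeStable : FrickeStableStatement P E M q w`.
-/

set_option autoImplicit false
set_option synthInstance.maxHeartbeats 400000
set_option maxHeartbeats 1600000
set_option linter.unusedSectionVars false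
set_option linter.style.haveILetI false

noncomputable section

namespace Fermat.Agent.A2.Mod.H454

open ModularCurve HahnSeries Polynomial
open Fermat.Agent.A2 Fermat.Agent.A2.Mod
open Fermat.Agent.S28 Fermat.Agent.S28.H86 Fermat.Agent.S18.H208

variable (P : ValuationSubring _root_.Fermat.Agent.A2.Mod.Qb) (E : IntermediateField ℚ _root_.Fermat.Agent.A2.Mod.Qb)

/-- the integer series `j(t^d)` in `E((t))` -/
theorem coe_jE_eq (N d : ℕ) [NeZero d] (hd : d ∣ N) :
    ((jE E N d hd : ↥(_root_.Fermat.Agent.A2.Mod.FE E N)) : LaurentSeries ↥E) =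
      coeffMap (Int.castRingHom ↥E) (qExpand ℤ d (jqModC ℤ)) := by
  rw [← jd_eq_intCast]
  exact Fermat.Agent.S18.H602.coeffEmb_qExpand_jq (↥E) d

theorem castE_mem_FE (N : ℕ) {y : LaurentSeries ℤ}
    (hy : y ∈ Subring.closure (intDivisorExpansions N)) :
    coeffMap (Int.castRingHom ↥E) y ∈ _root_.Fermat.Agent.A2.Mod.FE E N := by
  show _ ∈ laurentBaseChange (↥E) (modularFunctionFieldFull N)
  rw [Fermat.Agent.S18.H602.laurentBaseChange_full_eq]
  exact coeffMap_intCast_mem_full (↥E) N hy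

variable {E}

/-- `W` maps functions with integral expansion (in `ℤ[j_d : d ∣ M]`) to such functions. -/
theorem exists_int_image {M : ℕ} [NeZero M] {W : _root_.Fermat.Agent.A2.Mod.FE E M ≃ₐ[↥E] _root_.Fermat.Agent.A2.Mod.FE E M} (hW : IsFricke E M W)
    {y : LaurentSeries ℤ} (hy : y ∈ Subring.closure (intDivisorExpansions M)) :
    ∃ y' : LaurentSeries ℤ, ∀ Y : ↥(_root_.Fermat.Agent.A2.Mod.FE E M),
      (Y : LaurentSeries ↥E) = coeffMap (Int.castRingHom ↥E) y →
      ((W Y : ↥(_root_.Fermat.Agent.A2.Mod.FE E M)) : LaurentSeries ↥E) = coeffMap (Int.castRingHom ↥E) y' := by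
  induction hy using Subring.closure_induction with
  | mem x hx =>
    obtain ⟨d, hd, hdM, rfl⟩ := hx
    haveI := hd
    obtain ⟨d', hd'⟩ := hdM
    have hd'0 : d' ≠ 0 := by
      rintro rfl
      exact NeZero.ne M (by rw [hd', mul_zero])
    haveI : NeZero d' := ⟨hd'0⟩
    refine ⟨qExpand ℤ d' (jqModC ℤ), fun Y hY => ?_⟩
    have hY' : Y = jE E M d ⟨d', hd'⟩ := Subtype.ext (by rw [hY, coe_jE_eq])
    rw [hY', hW.1 d d' ⟨d', hd'⟩ ⟨d, by rw [hd', mul_comm]⟩ hd'.symm, coe_jE_eq]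
  | zero =>
    refine ⟨0, fun Y hY => ?_⟩
    have hY' : Y = 0 := Subtype.ext (by rw [hY, map_zero]; rfl)
    rw [hY', map_zero, map_zero]
    rfl
  | one =>
    refine ⟨1, fun Y hY => ?_⟩
    have hY' : Y = 1 := Subtype.ext (by rw [hY, map_one]; rfl)
    rw [hY', map_one, map_one]
    rfl
  | add a b ha hb iha ihb =>
    obtain ⟨a', ha'⟩ := iha
    obtain ⟨b', hb'⟩ := ihb
    refine ⟨a' + b', fun Y hY => ?_⟩
    have hY' : Y = (⟨_, castE_mem_FE E M ha⟩ : ↥(_root_.Fermat.Agent.A2.Mod.FE E M)) + ⟨_, castE_mem_FE E M hb⟩ :=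
      Subtype.ext (by rw [hY, map_add]; rfl)
    have hA := ha' ⟨_, castE_mem_FE E M ha⟩ rfl
    have hB := hb' ⟨_, castE_mem_FE E M hb⟩ rfl
    rw [hY', map_add, map_add, ← hA, ← hB]
    rfl
  | neg a ha iha =>
    obtain ⟨a', ha'⟩ := iha
    refine ⟨-a', fun Y hY => ?_⟩
    have hY' : Y = -(⟨_, castE_mem_FE E M ha⟩ : ↥(_root_.Fermat.Agent.A2.Mod.FE E M)) :=
      Subtype.ext (by rw [hY, map_neg]; rfl)
    have hA := ha' ⟨_, castE_mem_FE E M ha⟩ rfl
    rw [hY', map_neg, map_neg, ← hA]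
    rfl
  | mul a b ha hb iha ihb =>
    obtain ⟨a', ha'⟩ := iha
    obtain ⟨b', hb'⟩ := ihb
    refine ⟨a' * b', fun Y hY => ?_⟩
    have hY' : Y = (⟨_, castE_mem_FE E M ha⟩ : ↥(_root_.Fermat.Agent.A2.Mod.FE E M)) * ⟨_, castE_mem_FE E M hb⟩ :=
      Subtype.ext (by rw [hY, map_mul]; rfl)
    have hA := ha' ⟨_, castE_mem_FE E M ha⟩ rfl
    have hB := hb' ⟨_, castE_mem_FE E M hb⟩ rfl
    rw [hY', map_mul, map_mul, ← hA, ← hB]
    rfl


/-! ### evaluation of polynomials with `R`-coefficients -/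

section Eval

variable (O : Subring ↥E)

/-- `inclL` commutes with evaluation of polynomials. -/
theorem inclL_evO_eq (J : LaurentSeries ↥O) (p : Polynomial ↥O) :
    inclL O (evO J p) = evE O (inclL O J) p := by
  rw [evO_apply, Polynomial.hom_eval₂]
  show _ = Polynomial.eval₂ _ _ p
  congr 1
  ext c : 1
  rw [RingHom.comp_apply, RingHom.comp_apply, inclL_C]
  rfl

/-- coercion `F → E((t))` commutes with evaluation of polynomials. -/
theorem coe_eval₂_FE (N : ℕ) (t : ↥(_root_.Fermat.Agent.A2.Mod.FE E N)) (p : Polynomial ↥O) :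
    ((p.eval₂ ((algebraMap ↥E ↥(_root_.Fermat.Agent.A2.Mod.FE E N)).comp O.subtype) t : ↥(_root_.Fermat.Agent.A2.Mod.FE E N)) : LaurentSeries ↥E) =
      evE O (t : LaurentSeries ↥E) p := by
  show (_root_.Fermat.Agent.A2.Mod.FE E N).val.toRingHom (p.eval₂ ((algebraMap ↥E ↥(_root_.Fermat.Agent.A2.Mod.FE E N)).comp O.subtype) t) = _
  rw [Polynomial.hom_eval₂]
  show _ = Polynomial.eval₂ _ _ p
  congr 1
  ext c : 1
  rw [RingHom.comp_apply, RingHom.comp_apply, RingHom.comp_apply]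
  show algebraMap ↥E (LaurentSeries ↥E) (c : ↥E) = _
  rw [algebraMap_laurentSeries_eq_single]
  rfl

/-- an `E`-algebra automorphism commutes with evaluation of polynomials. -/
theorem map_eval₂_FE (N : ℕ) (W : _root_.Fermat.Agent.A2.Mod.FE E N ≃ₐ[↥E] _root_.Fermat.Agent.A2.Mod.FE E N) (t : ↥(_root_.Fermat.Agent.A2.Mod.FE E N)) (p : Polynomial ↥O) :
    W (p.eval₂ ((algebraMap ↥E ↥(_root_.Fermat.Agent.A2.Mod.FE E N)).comp O.subtype) t) =
      p.eval₂ ((algebraMap ↥E ↥(_root_.Fermat.Agent.A2.Mod.FE E N)).comp O.subtype) (W t) := by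
  show (W : ↥(_root_.Fermat.Agent.A2.Mod.FE E N) →+* ↥(_root_.Fermat.Agent.A2.Mod.FE E N)) _ = _
  rw [Polynomial.hom_eval₂]
  congr 1
  ext c : 1
  rw [RingHom.comp_apply, RingHom.comp_apply]
  show W (algebraMap ↥E ↥(_root_.Fermat.Agent.A2.Mod.FE E N) (c : ↥E)) = _
  rw [AlgEquiv.commutes]
  rfl

end Eval

/-! ### the residue characteristic -/

section Char

variable {P}

theorem natCast_mem_maximalIdeal {q : ℕ} (hq : q.Prime) (hP : P.LiesOverPrime q) :
    ((q : ℕ) : ↥(_root_.Fermat.Agent.A2.Mod.RE P E)) ∈ IsLocalRing.maximalIdeal ↥(_root_.Fermat.Agent.A2.Mod.RE P E) := by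
  rw [← ValuationSubring.coe_mem_nonunits_iff, ValuationSubring.mem_nonunits_iff_or]
  right
  intro hmem
  have h1 : (((((q : ℕ) : ↥(_root_.Fermat.Agent.A2.Mod.RE P E)) : ↥E))⁻¹ : ↥E) = ((q : ℕ) : ↥E)⁻¹ := by
    congr 1
  rw [h1] at hmem
  have h2 : algebraMap ↥E _root_.Fermat.Agent.A2.Mod.Qb (((q : ℕ) : ↥E)⁻¹) ∈ P := hmem
  rw [map_inv₀, map_natCast] at h2
  rcases (ValuationSubring.mem_nonunits_iff_or (A := P)).mp hP with h0 | h0
  · exact hq.ne_zero (Nat.cast_eq_zero.mp h0)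
  · exact h0 h2

theorem natCast_residue_ne_zero {M q : ℕ} (hq : q.Prime) (hqM : ¬ q ∣ M)
    (hP : P.LiesOverPrime q) : ((M : ℕ) : IsLocalRing.ResidueField ↥(_root_.Fermat.Agent.A2.Mod.RE P E)) ≠ 0 := by
  have hq0 : ((q : ℕ) : IsLocalRing.ResidueField ↥(_root_.Fermat.Agent.A2.Mod.RE P E)) = 0 := by
    have := (IsLocalRing.residue_eq_zero_iff ((q : ℕ) : ↥(_root_.Fermat.Agent.A2.Mod.RE P E))).mpr
      (natCast_mem_maximalIdeal hq hP)
    simpa using this
  haveI : CharP (IsLocalRing.ResidueField ↥(_root_.Fermat.Agent.A2.Mod.RE P E)) q :=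
    (CharP.charP_iff_prime_eq_zero hq).mpr hq0
  exact fun h0 => hqM ((CharP.cast_eq_zero_iff _ q M).mp h0)

end Char

/-! ### transcendence of `j(t^M)` -/

theorem aeval_jd_ne_zero (k : Type) [Field k] (d : ℕ) [NeZero d] {Q : Polynomial k}
    (hQ : Q ≠ 0) : Polynomial.aeval (qExpand k d (jqModC k)) Q ≠ 0 := by
  have h1 : Polynomial.aeval (qExpand k d (jqModC k)) Q =
      qExpandAlgHomC k d (Polynomial.aeval (jqModC k) Q) := by
    rw [← Polynomial.aeval_algHom_apply]
    rfl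
  rw [h1]
  intro h0
  apply aeval_j_ne_zero hQ
  apply qExpand_injective (R := k) (N := d)
  rw [map_zero]
  exact h0


/-! ### L7 -/

section Main

variable (E)
variable (M q : ℕ) [NeZero M] [NeZero q] (w : _root_.Fermat.Agent.A2.Mod.RE P E)

/-- **L7.** At level `M` prime to the residue characteristic the Fricke involution preserves
the Gauss valuation ring `V∞`. -/
theorem frickeStable : FrickeStableStatement P E M q w := by
  intro hS V W hV hW f hf
  rw [hV (W f)]
  -- the discrete valuation ring `O = R_E`, as a subring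
  obtain ⟨O, hO⟩ : ∃ O : Subring ↥E, O = (_root_.Fermat.Agent.A2.Mod.RE P E).toSubring := ⟨_, rfl⟩
  subst hO
  haveI hdvr : IsDiscreteValuationRing ↥(_root_.Fermat.Agent.A2.Mod.RE P E).toSubring := hS.dvr
  have hwirr : Irreducible (w : ↥(_root_.Fermat.Agent.A2.Mod.RE P E).toSubring) := hS.unif
  have hu : UnifData (_root_.Fermat.Agent.A2.Mod.RE P E).toSubring (IsLocalRing.residue ↥(_root_.Fermat.Agent.A2.Mod.RE P E).toSubring) w :=
    unifData_residue (_root_.Fermat.Agent.A2.Mod.RE P E).toSubring hwirr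
  have hfrac : IsFrac (_root_.Fermat.Agent.A2.Mod.RE P E).toSubring := isFrac_valuationSubring (_root_.Fermat.Agent.A2.Mod.RE P E)
  have hMκ : ((M : ℕ) : IsLocalRing.ResidueField ↥(_root_.Fermat.Agent.A2.Mod.RE P E).toSubring) ≠ 0 :=
    natCast_residue_ne_zero (E := E) hS.q_prime hS.q_not_dvd hS.lies_over
  have hME : ((M : ℕ) : ↥E) ≠ 0 := Nat.cast_ne_zero.mpr (NeZero.ne M)
  obtain ⟨y, hy, hbasis⟩ := M1.exists_basis M
  obtain ⟨hspanE, -⟩ := hbasis ↥E hME
  obtain ⟨-, hliκ⟩ := hbasis (IsLocalRing.ResidueField ↥(_root_.Fermat.Agent.A2.Mod.RE P E).toSubring) hMκ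
  have hfF : (f : LaurentSeries ↥E) ∈ modularFunctionFieldFullC ↥E M := by
    rw [← Fermat.Agent.S18.H602.laurentBaseChange_full_eq]
    exact f.2
  have hfG : (f : LaurentSeries ↥E) ∈
      gaussRing (_root_.Fermat.Agent.A2.Mod.RE P E).toSubring (IsLocalRing.residue ↥(_root_.Fermat.Agent.A2.Mod.RE P E).toSubring) := by
    obtain ⟨U₁, U₂, h0, -, he⟩ := (hV f).mp hf
    exact ⟨U₁, U₂, h0, he⟩
  obtain ⟨g, fi, hg, hrel⟩ := exists_denominator hu hfrac y hliκ (hspanE _ hfF) hfG
  -- the relation in `F`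
  have hJ1 : ((jE E M 1 (one_dvd M) : ↥(_root_.Fermat.Agent.A2.Mod.FE E M)) : LaurentSeries ↥E) = jqModC ↥E := by
    rw [coe_jE_eq, qExpand_one_apply, coeffMap_jqModC]
  have hrelF : g.eval₂ ((algebraMap ↥E ↥(_root_.Fermat.Agent.A2.Mod.FE E M)).comp (_root_.Fermat.Agent.A2.Mod.RE P E).toSubring.subtype)
        (jE E M 1 (one_dvd M)) * f =
      ∑ i, (fi i).eval₂ ((algebraMap ↥E ↥(_root_.Fermat.Agent.A2.Mod.FE E M)).comp (_root_.Fermat.Agent.A2.Mod.RE P E).toSubring.subtype)
        (jE E M 1 (one_dvd M)) * ⟨_, castE_mem_FE E M (hy i)⟩ := by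
    apply Subtype.ext
    have h1 : (((∑ i, (fi i).eval₂ ((algebraMap ↥E ↥(_root_.Fermat.Agent.A2.Mod.FE E M)).comp (_root_.Fermat.Agent.A2.Mod.RE P E).toSubring.subtype)
        (jE E M 1 (one_dvd M)) * ⟨_, castE_mem_FE E M (hy i)⟩ : ↥(_root_.Fermat.Agent.A2.Mod.FE E M))) : LaurentSeries ↥E) =
        ∑ i, evE (_root_.Fermat.Agent.A2.Mod.RE P E).toSubring (jqModC ↥E) (fi i) *
          coeffMap (Int.castRingHom ↥E) (y i) := by
      show (_root_.Fermat.Agent.A2.Mod.FE E M).val _ = _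
      rw [map_sum]
      refine Finset.sum_congr rfl fun i _ => ?_
      rw [map_mul]
      show ((_ : ↥(_root_.Fermat.Agent.A2.Mod.FE E M)) : LaurentSeries ↥E) * _ = _
      rw [coe_eval₂_FE, hJ1]
      rfl
    rw [h1, ← hrel]
    show ((_ : ↥(_root_.Fermat.Agent.A2.Mod.FE E M)) : LaurentSeries ↥E) * _ = _
    rw [coe_eval₂_FE, hJ1]
  -- apply `W`
  choose y' hy' using fun i => exists_int_image hW (hy i)
  have hWJ : W (jE E M 1 (one_dvd M)) = jE E M M dvd_rfl :=
    hW.1 1 M (one_dvd M) dvd_rfl (one_mul M)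
  have hrelW := congrArg W hrelF
  rw [map_mul, map_sum, map_eval₂_FE, hWJ] at hrelW
  have hrelW' : evE (_root_.Fermat.Agent.A2.Mod.RE P E).toSubring
        (coeffMap (Int.castRingHom ↥E) (qExpand ℤ M (jqModC ℤ))) g * (W f : LaurentSeries ↥E) =
      ∑ i, evE (_root_.Fermat.Agent.A2.Mod.RE P E).toSubring
        (coeffMap (Int.castRingHom ↥E) (qExpand ℤ M (jqModC ℤ))) (fi i) *
          coeffMap (Int.castRingHom ↥E) (y' i) := by
    have h2 := congrArg Subtype.val hrelW
    have h3 : (((∑ i, W ((fi i).eval₂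
        ((algebraMap ↥E ↥(_root_.Fermat.Agent.A2.Mod.FE E M)).comp (_root_.Fermat.Agent.A2.Mod.RE P E).toSubring.subtype)
        (jE E M 1 (one_dvd M)) * ⟨_, castE_mem_FE E M (hy i)⟩) : ↥(_root_.Fermat.Agent.A2.Mod.FE E M))) :
          LaurentSeries ↥E) =
        ∑ i, evE (_root_.Fermat.Agent.A2.Mod.RE P E).toSubring
          (coeffMap (Int.castRingHom ↥E) (qExpand ℤ M (jqModC ℤ))) (fi i) *
            coeffMap (Int.castRingHom ↥E) (y' i) := by
      show (_root_.Fermat.Agent.A2.Mod.FE E M).val _ = _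
      rw [map_sum]
      refine Finset.sum_congr rfl fun i _ => ?_
      rw [map_mul W, map_eval₂_FE, hWJ, map_mul]
      show ((_ : ↥(_root_.Fermat.Agent.A2.Mod.FE E M)) : LaurentSeries ↥E) * ((_ : ↥(_root_.Fermat.Agent.A2.Mod.FE E M)) : LaurentSeries ↥E) = _
      rw [coe_eval₂_FE, coe_jE_eq, hy' i _ rfl]
    rw [h3] at h2
    rw [← h2]
    show _ = ((_ : ↥(_root_.Fermat.Agent.A2.Mod.FE E M)) : LaurentSeries ↥E) * _
    rw [coe_eval₂_FE, coe_jE_eq]
  -- the integral series
  set jA : LaurentSeries ↥(_root_.Fermat.Agent.A2.Mod.RE P E).toSubring :=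
    intO (_root_.Fermat.Agent.A2.Mod.RE P E).toSubring (qExpand ℤ M (jqModC ℤ)) with hjA
  have hjA' : inclL (_root_.Fermat.Agent.A2.Mod.RE P E).toSubring jA =
      coeffMap (Int.castRingHom ↥E) (qExpand ℤ M (jqModC ℤ)) := inclL_intO _ _
  have hred : redL (IsLocalRing.residue ↥(_root_.Fermat.Agent.A2.Mod.RE P E).toSubring) (evO jA g) ≠ 0 := by
    rw [redL_evO, hjA, redL_intO, ← jd_eq_intCast]
    exact aeval_jd_ne_zero _ M hg
  have hmem : inclL (_root_.Fermat.Agent.A2.Mod.RE P E).toSubring (evO jA g) ∈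
      laurentBaseChange (↥E) (modularFunctionFieldFull M) := by
    rw [inclL_evO_eq, hjA', ← coe_jE_eq E M M dvd_rfl, ← coe_eval₂_FE]
    exact Subtype.mem _
  refine ⟨∑ i, evO jA (fi i) * intO (_root_.Fermat.Agent.A2.Mod.RE P E).toSubring (y' i), evO jA g, hred, hmem, ?_⟩
  show _ * inclL (_root_.Fermat.Agent.A2.Mod.RE P E).toSubring (evO jA g) = inclL (_root_.Fermat.Agent.A2.Mod.RE P E).toSubring _
  rw [map_sum, inclL_evO_eq, hjA', mul_comm, hrelW']
  refine Finset.sum_congr rfl fun i _ => ?_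
  rw [map_mul, inclL_evO_eq, hjA', inclL_intO]

end Main

end Fermat.Agent.A2.Mod.H454

end

end
-- ===== PACK-END A2/Mod/H454/L7.lean

-- ===== PACK-BEGIN S35/G/H199/ToricBase.lean
section








/-!
# S35 / (G') leaf TORIC — the modular instance, basic layer (helper199)

Basic facts for the instance of `NR.NRSetting` (see `ToricMod.lean`), level `E`:

* `actE_mul`, `actE_one`, `actE_alpha`, `actE_beta`, `actE_symm_eq` : the action `G.actE` on the
  coefficients is multiplicative and commutes with `α`, `β`;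
* `normAlong_equiv` : transport of `S29.H395.normAlong` by a pair of automorphisms
  (`Algebra.norm_eq_of_equiv_equiv`); `normHom` : the norm as a monoid homomorphism;
* `isUnif_V`, `isUnif_V0`, `disc_V0`, `inW_iff`, `inW0_iff` : `V∞`, `V₀ = V∞ ∘ W` are discrete
  with uniformiser `w` (L2, `H378.disc_V`);
* `stabAut_V`, `stabAut_V0` : `σ` preserves `V∞`, `V₀` (from `G.StableStatement`);
* `alpha_mem_iff'`, `beta_mem_iff`, `res_alpha`, `res_beta` : `α : V∞_M → V∞`, `β : V∞_M → V₀`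
  are local with residue degree one (L5, L7, L11).
-/

set_option autoImplicit false
set_option linter.style.haveILetI false
set_option linter.unusedSectionVars false
set_option synthInstance.maxHeartbeats 400000
set_option maxHeartbeats 1600000

noncomputable section

namespace Fermat.Agent.S35.G.H199

open ModularCurve AlgebraicCurve Fermat.Agent.A2.Mod

/-! ## The Galois action on the coefficients -/

section Act

variable (E : IntermediateField ℚ G.Qb) (N : ℕ)

theorem actE_mul (a b : E ≃ₐ[ℚ] E) (x : FE E N) :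
    actE E N (a * b) x = actE E N a (actE E N b x) := by
  apply Subtype.ext
  show coeffMap ((a * b : E ≃ₐ[ℚ] E) : E →+* E) (x : LaurentSeries E)
    = coeffMap (a : E →+* E) (coeffMap (b : E →+* E) (x : LaurentSeries E))
  rw [coeffMap_coeffMap]
  exact coeffMap_congr (RingHom.ext fun _ => rfl) _

theorem actE_one (x : FE E N) : actE E N 1 x = x := by
  apply Subtype.ext
  show coeffMap ((1 : E ≃ₐ[ℚ] E) : E →+* E) (x : LaurentSeries E) = (x : LaurentSeries E)
  rw [show ((1 : E ≃ₐ[ℚ] E) : E →+* E) = RingHom.id E from RingHom.ext fun _ => rfl,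
    coeffMap_id]

theorem actE_algebraMap (a : E ≃ₐ[ℚ] E) (e : E) :
    actE E N a (algebraMap E (FE E N) e) = algebraMap E (FE E N) (a e) :=
  arithmeticRingAut_algebraMap _ a e

variable (M q : ℕ) [NeZero M] [NeZero q]

theorem actE_alpha (a : E ≃ₐ[ℚ] E) (x : FE E M) :
    actE E (M * q) a (αE E M q x) = αE E M q (actE E M a x) := by
  apply Subtype.ext
  rw [coe_arithmeticRingAut_apply, coe_heckeAlphaBar, coe_heckeAlphaBar,
    coe_arithmeticRingAut_apply]

theorem actE_beta (a : E ≃ₐ[ℚ] E) (x : FE E M) :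
    actE E (M * q) a (βE E M q x) = βE E M q (actE E M a x) := by
  apply Subtype.ext
  rw [coe_arithmeticRingAut_apply, coe_heckeBetaBar, coe_heckeBetaBar,
    coe_arithmeticRingAut_apply, coeffMap_qExpand]

/-- the inverse of a stable automorphism is stable -/
theorem stableUnder_inv {s : G.Qb ≃ₐ[ℚ] G.Qb} (hs : StableUnder E s) : StableUnder E s⁻¹ :=
  fun e he => ⟨(hs e he).2, (hs e he).1⟩

theorem resE_inv_mul {s : G.Qb ≃ₐ[ℚ] G.Qb} (hs : StableUnder E s) :
    resE E s⁻¹ (stableUnder_inv E hs) * resE E s hs = 1 := by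
  ext e
  exact s.symm_apply_apply (e : G.Qb)

theorem resE_mul_inv {s : G.Qb ≃ₐ[ℚ] G.Qb} (hs : StableUnder E s) :
    resE E s hs * resE E s⁻¹ (stableUnder_inv E hs) = 1 := by
  ext e
  exact s.apply_symm_apply (e : G.Qb)

theorem actE_symm_eq {s : G.Qb ≃ₐ[ℚ] G.Qb} (hs : StableUnder E s) (x : FE E N) :
    (actE E N (resE E s hs)).symm x = actE E N (resE E s⁻¹ (stableUnder_inv E hs)) x := by
  apply (actE E N (resE E s hs)).injective
  rw [RingEquiv.apply_symm_apply, ← actE_mul, resE_mul_inv, actE_one]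

end Act

/-! ## Norms and automorphisms -/

section Norm

variable {K F F' : Type*} [Field K] [Field F] [Field F'] [Algebra K F] [Algebra K F']

/-- Transport of the norm by a pair of automorphisms. -/
theorem normAlong_equiv (φ ψ : F →ₐ[K] F') (e : F ≃+* F) (e' : F' ≃+* F')
    (h : ∀ x, e' (φ x) = ψ (e x)) (g : F') :
    S29.H395.normAlong ψ (e' g) = e (S29.H395.normAlong φ g) := by
  have h1 := @Algebra.norm_eq_of_equiv_equiv F F' F F' _ _ _ _ (algebraAlong φ) (algebraAlong ψ)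
    e e' (by
      ext x
      exact (h x).symm) g
  unfold S29.H395.normAlong
  rw [h1, RingEquiv.apply_symm_apply]

/-- the norm as a monoid homomorphism -/
def normHom (φ : F →ₐ[K] F') : F' →* F where
  toFun := S29.H395.normAlong φ
  map_one' := S29.H395.normAlong_one φ
  map_mul' := S29.H395.normAlong_mul φ

@[simp] theorem normHom_apply (φ : F →ₐ[K] F') (g : F') :
    normHom φ g = S29.H395.normAlong φ g := rfl

end Norm

/-! ## The Gauss valuations -/

section Val

variable {A : ValuationSubring G.Qb} {E : IntermediateField ℚ G.Qb} {M q : ℕ} [NeZero M]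
  [NeZero q] {w : RE A E}

/-- `V₀ = V∞ ∘ W` -/
abbrev vz {N : ℕ} (V : ValuationSubring (FE E N)) (W : FE E N ≃ₐ[E] FE E N) :
    ValuationSubring (FE E N) :=
  V.comap (W : FE E N →+* FE E N)

theorem vz_eq {N : ℕ} (V : ValuationSubring (FE E N)) (W : FE E N ≃ₐ[E] FE E N) :
    vz V W = V.comap ((W.toRingEquiv : FE E N ≃+* FE E N) : FE E N →+* FE E N) := rfl

theorem isUnif_V (hS : Setting A E M q w) {N : ℕ} (hN : N ≠ 0) {V : ValuationSubring (FE E N)}
    (hV : IsVinf A E N V) : A2.H48.IsUnif V (cE A E N w) :=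
  (H708.vinfBasic A E w N hN hS.dvr hS.unif V hV).1

theorem cst_mem_iff (hS : Setting A E M q w) {N : ℕ} (hN : N ≠ 0)
    {V : ValuationSubring (FE E N)} (hV : IsVinf A E N V) (e : E) :
    algebraMap E (FE E N) e ∈ V ↔ e ∈ RE A E :=
  (H708.vinfBasic A E w N hN hS.dvr hS.unif V hV).2.1 e

theorem W_cE {N : ℕ} (W : FE E N ≃ₐ[E] FE E N) (r : RE A E) :
    W.toRingEquiv (cE A E N r) = cE A E N r :=
  W.commutes (r : E)

theorem isUnif_V0 (hS : Setting A E M q w) {N : ℕ} (hN : N ≠ 0) {V : ValuationSubring (FE E N)}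
    (hV : IsVinf A E N V) (W : FE E N ≃ₐ[E] FE E N) : A2.H48.IsUnif (vz V W) (cE A E N w) :=
  isUnif_comap (isUnif_V hS hN hV) (W_cE W w)

theorem disc_V0 (hS : Setting A E M q w) {N : ℕ} {V : ValuationSubring (FE E N)}
    (hV : IsVinf A E N V) (W : FE E N ≃ₐ[E] FE E N) :
    ∀ x ∈ vz V W, x ≠ 0 → ∃ (n : ℕ) (u : FE E N), u ∈ vz V W ∧ u⁻¹ ∈ vz V W ∧
      x = cE A E N w ^ n * u :=
  disc_comap (W_cE W w) (fun _ hx hx0 => H378.disc_V hS N hV hx hx0)

/-- `InW` in terms of the valuation -/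
theorem inW_iff (hS : Setting A E M q w) {N : ℕ} (hN : N ≠ 0) {V : ValuationSubring (FE E N)}
    (hV : IsVinf A E N V) (f : FE E N) : InW A E N V w f ↔ V.valuation f < 1 :=
  (isUnif_V hS hN hV).mul_inv_mem_iff

theorem inW0_iff (hS : Setting A E M q w) {N : ℕ} (hN : N ≠ 0) {V : ValuationSubring (FE E N)}
    (hV : IsVinf A E N V) (W : FE E N ≃ₐ[E] FE E N) (f : FE E N) :
    InW A E N (vz V W) w f ↔ (vz V W).valuation f < 1 :=
  (isUnif_V0 hS hN hV W).mul_inv_mem_iff

theorem vz_val_lt_one_iff {N : ℕ} (V : ValuationSubring (FE E N)) (W : FE E N ≃ₐ[E] FE E N)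
    (z : FE E N) : (vz V W).valuation z < 1 ↔ V.valuation (W z) < 1 :=
  comap_val_lt_one_iff V W.toRingEquiv z

theorem vz_val_eq_one_iff {N : ℕ} (V : ValuationSubring (FE E N)) (W : FE E N ≃ₐ[E] FE E N)
    (z : FE E N) : (vz V W).valuation z = 1 ↔ V.valuation (W z) = 1 :=
  comap_val_eq_one_iff V W.toRingEquiv z

/-- the stability of `V∞` under `σ`, from STABLE for `s` and `s⁻¹` -/
theorem stabAut_V (hST : StableStatement A E) (hS : Setting A E M q w) {N : ℕ} (hN : N ≠ 0)
    {V : ValuationSubring (FE E N)} (hV : IsVinf A E N V) {W : FE E N ≃ₐ[E] FE E N}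
    (hW : IsFricke E N W) {s : G.Qb ≃ₐ[ℚ] G.Qb} (hs : StableUnder E s)
    (hsD : s ∈ A.decompositionSubgroup ℚ) :
    StabAut V (actE E N (resE E s hs)) where
  map := (hST N hN hS.dvr V W hV hW s hs hsD).2
  symm := by
    intro f hf
    rw [actE_symm_eq]
    exact (hST N hN hS.dvr V W hV hW s⁻¹ (stableUnder_inv E hs) (inv_mem hsD)).2 f hf

theorem stabAut_V0 (hST : StableStatement A E) (hS : Setting A E M q w) {N : ℕ} (hN : N ≠ 0)
    {V : ValuationSubring (FE E N)} (hV : IsVinf A E N V) {W : FE E N ≃ₐ[E] FE E N}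
    (hW : IsFricke E N W) {s : G.Qb ≃ₐ[ℚ] G.Qb} (hs : StableUnder E s)
    (hsD : s ∈ A.decompositionSubgroup ℚ) :
    StabAut (vz V W) (actE E N (resE E s hs)) :=
  (stabAut_V hST hS hN hV hW hs hsD).comap (e := W.toRingEquiv)
    (hST N hN hS.dvr V W hV hW s hs hsD).1

end Val

/-! ## Locality of `α`, `β`; residue degree one -/

section Inst

variable {A : ValuationSubring G.Qb} {E : IntermediateField ℚ G.Qb} {M q : ℕ} [NeZero M]
  [NeZero q] {w : RE A E}

theorem mq_ne_zero (M q : ℕ) [NeZero M] [NeZero q] : M * q ≠ 0 :=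
  mul_ne_zero (NeZero.ne M) (NeZero.ne q)

variable (hS : Setting A E M q w) {VM : ValuationSubring (FE E M)}
  {V : ValuationSubring (FE E (M * q))} {WM : FE E M ≃ₐ[E] FE E M}
  {W : FE E (M * q) ≃ₐ[E] FE E (M * q)} (hVM : IsVinf A E M VM) (hV : IsVinf A E (M * q) V)
  (hWM : IsFricke E M WM) (hW : IsFricke E (M * q) W)

include hS hVM in
theorem WM_mem_iff (hWM : IsFricke E M WM) (a : FE E M) : WM a ∈ VM ↔ a ∈ VM := by
  have h7 := H454.frickeStable A E M q w hS VM WM hVM hWM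
  constructor
  · intro h
    have := h7 _ h
    rwa [hWM.2] at this
  · exact h7 a

include hS hVM in
theorem stabAut_WM (hWM : IsFricke E M WM) : StabAut VM WM.toRingEquiv where
  map := fun f hf => (WM_mem_iff hS hVM hWM f).2 hf
  symm := by
    intro f hf
    have h1 : WM.toRingEquiv.symm f = WM f := by
      apply WM.toRingEquiv.injective
      rw [RingEquiv.apply_symm_apply]
      exact (hWM.2 f).symm
    rw [h1]
    exact (WM_mem_iff hS hVM hWM f).2 hf

include hS hVM hV in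
theorem alpha_mem_iff' (a : FE E M) : (αE E M q : FE E M →+* FE E (M * q)) a ∈ V ↔ a ∈ VM :=
  H378.alpha_mem_iff hS hVM hV a

include hS hVM hV in
theorem beta_mem_iff (hWM : IsFricke E M WM) (hW : IsFricke E (M * q) W) (a : FE E M) :
    (βE E M q : FE E M →+* FE E (M * q)) a ∈ vz V W ↔ a ∈ VM := by
  rw [ValuationSubring.mem_comap]
  show W (βE E M q a) ∈ V ↔ a ∈ VM
  rw [(H751.frickeCompat E M q WM W hWM hW a).2, H378.alpha_mem_iff hS hVM hV,
    WM_mem_iff hS hVM hWM]

theorem W_W (hW : IsFricke E (M * q) W) (f : FE E (M * q)) : W (W f) = f := hW.2 f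

include hS hVM hV in
theorem res_alpha (g : FE E (M * q)) (hg : V.valuation g = 1) :
    ∃ x, VM.valuation x = 1 ∧ V.valuation ((αE E M q : FE E M →+* FE E (M * q)) x - g) < 1 := by
  have hgV : g ∈ V := (V.valuation_le_one_iff g).1 hg.le
  obtain ⟨x, -, hxg⟩ := H378.resInf A E M q w hS VM V hVM hV g hgV
  rw [inW_iff hS (mq_ne_zero M q) hV] at hxg
  have h1 : V.valuation ((αE E M q : FE E M →+* FE E (M * q)) x - g) < 1 := by
    rw [← Valuation.map_neg, neg_sub]
    exact hxg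
  refine ⟨x, ?_, h1⟩
  rw [← local_val_eq_one_iff (alpha_mem_iff' hS hVM hV)]
  exact NR.val_eq_one_of_cong V h1 hg

include hS hVM hV in
theorem res_beta (hWM : IsFricke E M WM) (hW : IsFricke E (M * q) W) (g : FE E (M * q))
    (hg : (vz V W).valuation g = 1) :
    ∃ y, VM.valuation y = 1 ∧
      (vz V W).valuation ((βE E M q : FE E M →+* FE E (M * q)) y - g) < 1 := by
  have hg1 : V.valuation (W g) = 1 := (vz_val_eq_one_iff V W g).1 hg
  obtain ⟨x, -, hx⟩ := res_alpha hS hVM hV (W g) hg1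
  have h1 : (vz V W).valuation ((βE E M q : FE E M →+* FE E (M * q)) (WM x) - g) < 1 := by
    rw [vz_val_lt_one_iff, map_sub]
    show V.valuation (W (βE E M q (WM x)) - W g) < 1
    rw [(H751.frickeCompat E M q WM W hWM hW (WM x)).2, hWM.2]
    exact hx
  refine ⟨WM x, ?_, h1⟩
  rw [← local_val_eq_one_iff (beta_mem_iff hS hVM hV hWM hW)]
  exact NR.val_eq_one_of_cong _ h1 hg

end Inst

end Fermat.Agent.S35.G.H199

end
end
-- ===== PACK-END S35/G/H199/ToricBase.lean

-- ===== PACK-BEGIN S35/G/H199/ToricMod.lean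
section



/-!
# S35 / (G') leaf TORIC, sub-leaf GLUE (helper199)

`glue : H60.GlueStatement A E M q w m`, i.e.
`H60.NormRedStatement A E M q w → G.StableStatement A E → G.KronFrobStatement A E M q w →
    G.ToricStatement A E M q m w`  (VERBATIM, unconditional).

Route: the instance `nrSetting` of helper502's abstract `NRSetting` (`NRCore.lean`) on
`F_M = FE E M`, `F_N = FE E (M q)`, `V₁ = V∞`, `V₂ = V₀ = V∞ ∘ W`,
`σ = G.actE E N (A2.Mod.resE E s hs)`, from the A2/MOD leaves on main (L1, L2, L4, L5, L7, L11,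
discreteness of `V∞`), STABLE, KRON-FROB and NORM-RED (the `β`-form of NORM-RED is deduced by
Fricke transport); then `NRSetting.gSplit_of_qNew`, and the constant of `GSplitAt` is an `m`-th
power modulo `w` because the residue field of `R_E` is algebraically closed.
The element `g` produced is a UNIT of the valuation ring (`toricU_of_parts`), so the `PowVU` form
follows as well.
-/

set_option autoImplicit false
set_option linter.style.haveILetI false
set_option linter.unusedSectionVars false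
set_option synthInstance.maxHeartbeats 400000
set_option maxHeartbeats 1600000

noncomputable section

namespace Fermat.Agent.S35.G.H199

open ModularCurve AlgebraicCurve Fermat.Agent.A2.Mod

/-- the constants of `F_{N,E}` -/
def constF (E : IntermediateField ℚ G.Qb) (N : ℕ) : Subfield (FE E N) :=
  (algebraMap E (FE E N)).fieldRange

section Inst

variable {A : ValuationSubring G.Qb} {E : IntermediateField ℚ G.Qb} {M q : ℕ} [NeZero M]
  [NeZero q] {w : RE A E}

/-- **The instance of `NRSetting`.** -/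
theorem nrSetting (hNR : H60.NormRedStatement A E M q w) (hST : StableStatement A E)
    (hKF : KronFrobStatement A E M q w) (hS : Setting A E M q w)
    {VM : ValuationSubring (FE E M)} {V : ValuationSubring (FE E (M * q))}
    {WM : FE E M ≃ₐ[E] FE E M} {W : FE E (M * q) ≃ₐ[E] FE E (M * q)}
    (hVM : IsVinf A E M VM) (hV : IsVinf A E (M * q) V)
    (hWM : IsFricke E M WM) (hW : IsFricke E (M * q) W)
    {s : G.Qb ≃ₐ[ℚ] G.Qb} (hs : StableUnder E s) (hFr : A.IsFrobeniusAt s q) :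
    NR.NRSetting q (αE E M q : FE E M →+* FE E (M * q))
      (βE E M q : FE E M →+* FE E (M * q))
      (actE E M (resE E s hs)) (actE E (M * q) (resE E s hs)) VM V (vz V W)
      (constF E M) (constF E (M * q)) (normHom (αE E M q)) (normHom (βE E M q)) := by
  have hsD : s ∈ A.decompositionSubgroup ℚ := hFr.1
  have hM : M ≠ 0 := NeZero.ne M
  have hN : M * q ≠ 0 := mq_ne_zero M q
  have stabM := stabAut_V hST hS hM hVM hWM hs hsD
  have stab1 := stabAut_V hST hS hN hV hW hs hsD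
  have stab2 := stabAut_V0 hST hS hN hV hW hs hsD
  have L5 := H751.frickeCompat E M q WM W hWM hW
  have hcommM := (hST M hM hS.dvr VM WM hVM hWM s hs hsD).1
  have hα := alpha_mem_iff' hS hVM hV
  have hβ := beta_mem_iff (V := V) hS hVM hV hWM hW
  have memM : ∀ {x : FE E M}, VM.valuation x = 1 → x ∈ VM := fun hx =>
    (VM.valuation_le_one_iff _).1 hx.le
  refine
    { comm_α := fun a => actE_alpha E M q _ a
      comm_β := fun a => actE_beta E M q _ a
      norm_α := fun g => normAlong_equiv (αE E M q) (αE E M q) (actE E M (resE E s hs))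
        (actE E (M * q) (resE E s hs)) (fun x => actE_alpha E M q _ x) g
      norm_β := fun g => normAlong_equiv (βE E M q) (βE E M q) (actE E M (resE E s hs))
        (actE E (M * q) (resE E s hs)) (fun x => actE_beta E M q _ x) g
      val_M := stabM.val_eq_one_iff
      max_M := stabM.val_lt_one_iff
      ratio_M := fun h hh => stabM.val_ratio (isUnif_V hS hM hVM)
        (fun x hx hx0 => H378.disc_V hS M hVM hx hx0) hh
      max₁ := stab1.val_lt_one_iff
      ratio₁ := fun f hf => stab1.val_ratio (isUnif_V hS hN hV)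
        (fun x hx hx0 => H378.disc_V hS (M * q) hV hx hx0) hf
      max₂ := stab2.val_lt_one_iff
      ratio₂ := fun f hf => stab2.val_ratio (isUnif_V0 hS hN hV W) (disc_V0 hS hV W) hf
      unit_α := fun a ha => (local_val_eq_one_iff hα a).2 ha
      max_α := fun a ha => (local_val_lt_one_iff hα a).2 ha
      unit_β := fun a ha => (local_val_eq_one_iff hβ a).2 ha
      max_β := fun a ha => (local_val_lt_one_iff hβ a).2 ha
      res_α := res_alpha hS hVM hV
      res_β := res_beta hS hVM hV hWM hW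
      kron₁ := fun b hb => (inW_iff hS hN hV _).1 (hKF hS VM V hVM hV s hs hFr b (memM hb))
      kron₂ := ?_
      normRes_α := ?_
      normRes_β := ?_
      const_σ := ?_
      const_α := ?_
      const_β := ?_ }
  · -- kron₂
    intro b hb
    rw [vz_val_lt_one_iff, map_sub, map_pow]
    show V.valuation (W (αE E M q (actE E M (resE E s hs) b)) - (W (βE E M q b)) ^ q) < 1
    rw [(L5 _).1, (L5 b).2, ← hcommM b]
    exact (inW_iff hS hN hV _).1
      (hKF hS VM V hVM hV s hs hFr (WM b) ((WM_mem_iff hS hVM hWM b).2 (memM hb)))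
  · -- normRes_α
    intro g x₁ x₂ hg1 hg2 hx₁ hx₂ h1 h2
    show VM.valuation (S29.H395.normAlong (αE E M q) g - x₁ * x₂) < 1
    rw [← inW_iff hS hM hVM]
    have hgV : g ∈ V := (V.valuation_le_one_iff _).1 hg1.le
    have hWgV : W g ∈ V := ((vz V W).valuation_le_one_iff _).1 hg2.le
    refine hNR hS VM V W hVM hV hW g hgV hWgV x₁ (memM hx₁) x₂ (memM hx₂) ?_ ?_
    · rw [inW_iff hS hN hV, ← Valuation.map_neg, neg_sub]
      exact h1
    · rw [inW0_iff hS hN hV W, ← Valuation.map_neg, neg_sub]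
      exact h2
  · -- normRes_β
    intro g y₁ y₂ hg1 hg2 hy₁ hy₂ h1 h2
    show VM.valuation (S29.H395.normAlong (βE E M q) g - y₁ * y₂) < 1
    have hgV : g ∈ V := (V.valuation_le_one_iff _).1 hg1.le
    have hWgV : W g ∈ V := ((vz V W).valuation_le_one_iff _).1 hg2.le
    have hNβ : S29.H395.normAlong (βE E M q) g
        = WM (S29.H395.normAlong (αE E M q) (W g)) := by
      have h3 := normAlong_equiv (αE E M q) (βE E M q) WM.toRingEquiv W.toRingEquiv
        (fun x => (L5 x).1) (W g)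
      have h4 : W.toRingEquiv (W g) = g := hW.2 g
      rw [h4] at h3
      exact h3
    have e1 : WM (S29.H395.normAlong (αE E M q) (W g)) - y₁ * y₂
        = WM.toRingEquiv (S29.H395.normAlong (αE E M q) (W g) - WM y₂ * WM y₁) := by
      show _ = WM (S29.H395.normAlong (αE E M q) (W g) - WM y₂ * WM y₁)
      rw [map_sub, map_mul, hWM.2, hWM.2, mul_comm y₂ y₁]
    rw [hNβ, e1, (stabAut_WM hS hVM hWM).val_lt_one_iff, ← inW_iff hS hM hVM]
    refine hNR hS VM V W hVM hV hW (W g) hWgV ?_ (WM y₂)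
      ((WM_mem_iff hS hVM hWM y₂).2 (memM hy₂)) (WM y₁)
      ((WM_mem_iff hS hVM hWM y₁).2 (memM hy₁)) ?_ ?_
    · rw [hW.2]
      exact hgV
    · -- `W g ≡ α (W_M y₂)` at `V∞`
      rw [inW_iff hS hN hV, ← (L5 y₂).2, ← map_sub, ← vz_val_lt_one_iff, ← Valuation.map_neg,
        neg_sub]
      exact h2
    · -- `(W g)^q ≡ α (W_M y₁)` at `V₀`
      rw [inW0_iff hS hN hV W, vz_val_lt_one_iff, map_sub, map_pow, hW.2, (L5 _).1, hWM.2,
        ← Valuation.map_neg, neg_sub]
      exact h1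
  · -- const_σ
    rintro c ⟨e, rfl⟩
    exact ⟨resE E s hs e, (actE_algebraMap E M _ e).symm⟩
  · -- const_α
    rintro c ⟨e, rfl⟩
    exact ⟨e, ((αE E M q).commutes e).symm⟩
  · -- const_β
    rintro c ⟨e, rfl⟩
    exact ⟨e, ((βE E M q).commutes e).symm⟩

end Inst

/-! ## Constants are `m`-th powers modulo `w` -/

section Const

variable {A : ValuationSubring G.Qb} {E : IntermediateField ℚ G.Qb} {w : RE A E}

/-- `GSplitAt` gives a unit `g` with `u ≡ g ^ m mod w V` (the residue field of `R_E` is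
algebraically closed). -/
theorem exists_unit_pow_of_gSplit (hGF : A2.GoodField A E) {N : ℕ}
    {V : ValuationSubring (FE E N)} (hunif : A2.H48.IsUnif V (cE A E N w))
    (hcst : ∀ e : E, algebraMap E (FE E N) e ∈ V ↔ e ∈ RE A E) {m : ℕ} (hm : 0 < m)
    {u : FE E N} (h : NR.GSplitAt V (constF E N) m u) :
    ∃ g : FE E N, g ≠ 0 ∧ g ∈ V ∧ g⁻¹ ∈ V ∧ (u - g ^ m) * (cE A E N w)⁻¹ ∈ V := by
  obtain ⟨c, ⟨e, rfl⟩, y, hc, hy, hu⟩ := h
  have he0 : e ≠ 0 := by
    rintro rfl
    simp at hc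
  have hc0 : algebraMap E (FE E N) e ≠ 0 := (map_ne_zero _).2 he0
  have hmem := (val_eq_one_iff_h199 V hc0).1 hc
  have heR : e ∈ RE A E := (hcst e).1 hmem.1
  have heR' : e⁻¹ ∈ RE A E := (hcst e⁻¹).1 (by rw [map_inv₀]; exact hmem.2)
  haveI : IsAlgClosed (IsLocalRing.ResidueField (RE A E)) := hGF.algClosed
  have hunit : IsUnit (⟨e, heR⟩ : RE A E) :=
    ⟨⟨⟨e, heR⟩, ⟨e⁻¹, heR'⟩, Subtype.ext (mul_inv_cancel₀ he0),
      Subtype.ext (inv_mul_cancel₀ he0)⟩, rfl⟩
  obtain ⟨r, hr, hrm⟩ := exists_pow_sub_mem_maximalIdeal_h199 hm hunit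
  -- `r` is a unit of `V`
  obtain ⟨ru, hru⟩ := hr
  have hr0 : (r : E) ≠ 0 := by
    intro h0
    have : r = 0 := Subtype.ext h0
    rw [← hru] at this
    exact ru.ne_zero this
  have hrinv : (r : E)⁻¹ ∈ RE A E := by
    have h1 : ((ru⁻¹ : (RE A E)ˣ) : RE A E) * r = 1 := by
      rw [← hru]
      exact ru.inv_mul
    have h2 : (((ru⁻¹ : (RE A E)ˣ) : RE A E) : E) * (r : E) = 1 := congrArg Subtype.val h1
    have h3 : (r : E)⁻¹ = (((ru⁻¹ : (RE A E)ˣ) : RE A E) : E) :=
      (eq_inv_of_mul_eq_one_left h2).symm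
    rw [h3]
    exact ((ru⁻¹ : (RE A E)ˣ) : RE A E).2
  have hcr0 : cE A E N r ≠ 0 := (map_ne_zero _).2 hr0
  have hr1 : V.valuation (cE A E N r) = 1 := by
    rw [val_eq_one_iff_h199 V hcr0]
    refine ⟨(hcst _).2 r.2, ?_⟩
    have : (cE A E N r)⁻¹ = algebraMap E (FE E N) (r : E)⁻¹ := (map_inv₀ _ _).symm
    rw [this]
    exact (hcst _).2 hrinv
  -- the difference `e - r ^ m`
  have hd : V.valuation (algebraMap E (FE E N) e - cE A E N r ^ m) < 1 := by
    have hnu : ¬ IsUnit ((⟨e, heR⟩ : RE A E) - r ^ m) :=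
      (IsLocalRing.mem_maximalIdeal _).1 hrm
    have hde : algebraMap E (FE E N) e - cE A E N r ^ m
        = algebraMap E (FE E N) ((((⟨e, heR⟩ : RE A E) - r ^ m : RE A E)) : E) := by
      rw [show ((((⟨e, heR⟩ : RE A E) - r ^ m : RE A E)) : E) = e - (r : E) ^ m from rfl,
        map_sub, map_pow]
      rfl
    rw [hde, val_lt_one_iff_h199]
    refine ⟨(hcst _).2 (Subtype.mem _), ?_⟩
    by_cases hz : ((((⟨e, heR⟩ : RE A E) - r ^ m : RE A E)) : E) = 0
    · left
      rw [hz, map_zero]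
    · right
      intro hinv
      rw [← map_inv₀, hcst] at hinv
      apply hnu
      exact ⟨⟨_, ⟨_, hinv⟩, Subtype.ext (mul_inv_cancel₀ hz),
        Subtype.ext (inv_mul_cancel₀ hz)⟩, rfl⟩
  have hy0 : y ≠ 0 := NR.ne_zero_of_val_eq_one V hy
  have hg1 : V.valuation (cE A E N r * y) = 1 := NR.val_mul_eq_one V hr1 hy
  have hg0 : cE A E N r * y ≠ 0 := mul_ne_zero hcr0 hy0
  have hgm := (val_eq_one_iff_h199 V hg0).1 hg1
  refine ⟨cE A E N r * y, hg0, hgm.1, hgm.2, ?_⟩
  rw [hunif.mul_inv_mem_iff]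
  have e1 : u - (cE A E N r * y) ^ m
      = (u - algebraMap E (FE E N) e * y ^ m)
        + (algebraMap E (FE E N) e - cE A E N r ^ m) * y ^ m := by
    ring
  rw [e1]
  refine Valuation.map_add_lt _ hu ?_
  exact NR.val_mul_lt_one_left V hd (NR.val_pow_eq_one V hy m).le

end Const

/-! ## GLUE -/

section Glue

variable {A : ValuationSubring G.Qb} {E : IntermediateField ℚ G.Qb} {M q : ℕ} [NeZero M]
  [NeZero q] {w : RE A E}

theorem frobSub_one_eq {F : Type*} [Field F] (φ : F ≃+* F) (f : F) :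
    frobSub φ 1 f = φ f / f := by
  rw [frobSub, pow_one, div_eq_mul_inv]

theorem psiE_apply (N : ℕ) {s : G.Qb ≃ₐ[ℚ] G.Qb} (hs : StableUnder E s) (x : FE E N) :
    psiE E N s hs x = actE E N (resE E s hs) (actE E N (resE E s hs) x) :=
  actE_mul E N _ _ x

/-- **TORIC with a unit `g`** (`PowVU` form), from NORM-RED, STABLE, KRON-FROB. -/
theorem toricU_of_parts (m : ℕ) (hNR : H60.NormRedStatement A E M q w)
    (hST : StableStatement A E) (hKF : KronFrobStatement A E M q w)
    (hS : Setting A E M q w) (hGF : A2.GoodField A E) (hm : 0 < m)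
    {V : ValuationSubring (FE E (M * q))} {W : FE E (M * q) ≃ₐ[E] FE E (M * q)}
    (hV : IsVinf A E (M * q) V) (hW : IsFricke E (M * q) W)
    {s : G.Qb ≃ₐ[ℚ] G.Qb} (hs : StableUnder E s) (hFr : A.IsFrobeniusAt s q)
    {f : FE E (M * q)} (hf : f ≠ 0)
    (hα : NormPow (αE E M q) m f) (hβ : NormPow (βE E M q) m f) :
    (∃ g : FE E (M * q), g ≠ 0 ∧ g ∈ V ∧ g⁻¹ ∈ V ∧
      (frobSub (psiE E (M * q) s hs) 1 (frobSub (psiE E (M * q) s hs) 1 f) - g ^ m) *
        (cE A E (M * q) w)⁻¹ ∈ V) ∧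
    (∃ g : FE E (M * q), g ≠ 0 ∧ g ∈ vz V W ∧ g⁻¹ ∈ vz V W ∧
      (frobSub (psiE E (M * q) s hs) 1 (frobSub (psiE E (M * q) s hs) 1 f) - g ^ m) *
        (cE A E (M * q) w)⁻¹ ∈ vz V W) := by
  have hM : M ≠ 0 := NeZero.ne M
  have hN : M * q ≠ 0 := mq_ne_zero M q
  obtain ⟨VM, hVM⟩ := H708.vinfExists A E M hM hS.dvr
  obtain ⟨WM, hWM⟩ := H751.frickeExists E M hM
  have S := nrSetting hNR hST hKF hS hVM hV hWM hW hs hFr
  obtain ⟨c, h, hch⟩ := hα
  obtain ⟨c', h', hch'⟩ := hβ
  have key := S.gSplit_of_qNew (m := m) hf (c := algebraMap E (FE E M) c)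
    (c' := algebraMap E (FE E M) c') (h := h) (h' := h') ⟨c, rfl⟩ ⟨c', rfl⟩ hch hch'
  have hexpr : frobSub (psiE E (M * q) s hs) 1 (frobSub (psiE E (M * q) s hs) 1 f)
      = actE E (M * q) (resE E s hs) (actE E (M * q) (resE E s hs)
          (actE E (M * q) (resE E s hs) (actE E (M * q) (resE E s hs) f) / f))
        / (actE E (M * q) (resE E s hs) (actE E (M * q) (resE E s hs) f) / f) := by
    rw [frobSub_one_eq, frobSub_one_eq, psiE_apply, psiE_apply]
  rw [hexpr]
  refine ⟨exists_unit_pow_of_gSplit hGF (isUnif_V hS hN hV) (cst_mem_iff hS hN hV) hm key.1,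
    exists_unit_pow_of_gSplit hGF (isUnif_V0 hS hN hV W) ?_ hm key.2⟩
  intro e
  rw [ValuationSubring.mem_comap]
  show W (algebraMap E (FE E (M * q)) e) ∈ V ↔ e ∈ RE A E
  rw [W.commutes]
  exact cst_mem_iff hS hN hV e

/-- **TORIC from NORM-RED, STABLE, KRON-FROB.** -/
theorem toric_of_parts (m : ℕ) (hNR : H60.NormRedStatement A E M q w)
    (hST : StableStatement A E) (hKF : KronFrobStatement A E M q w) :
    ToricStatement A E M q m w := by
  intro hS hGF hm _ V W hV hW s hs hFr f hf hα hβ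
  obtain ⟨⟨g, -, hg, hgi, hgu⟩, ⟨g', -, hg', hgi', hgu'⟩⟩ :=
    toricU_of_parts m hNR hST hKF hS hGF hm hV hW hs hFr hf hα hβ
  exact ⟨⟨g, hg, hgi, hgu⟩, ⟨g', hg', hgi', hgu'⟩⟩

/-- **GLUE** (`H60.GlueStatement`, verbatim). -/
theorem glue (A : ValuationSubring G.Qb) (E : IntermediateField ℚ G.Qb) (M q : ℕ) [NeZero M]
    [NeZero q] (w : RE A E) (m : ℕ) : H60.GlueStatement A E M q w m :=
  fun hNR hST hKF => toric_of_parts m hNR hST hKF

end Glue

end Fermat.Agent.S35.G.H199

end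
end
-- ===== PACK-END S35/G/H199/ToricMod.lean

-- ===== PACK-BEGIN A2/H729/Bridge.lean
section



/-!
# A2 (helper729): from the components of the special fibre to the canonical Gauss ring

`B = chart R {x}`, `p₁, p₂` prime ideals of `B` with `p₁ ⊓ p₂ = (w)` (the two components of a
reduced special fibre).

* `inv_mem_gaussO_of_not_mem` (**Gauss units**): `b ∈ B`, `b ∉ p₁`, `b ∉ p₂` implies
  `b⁻¹ ∈ gaussO` (going-up and incomparability for the integral extension `R[x] ⊆ B`).
* `inW_sub_one_of_oneAt` (**bridge**): if `h ≡ 1` on both components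
  (`h b_i = a_i`, `b_i ∉ p_i`, `a_i - b_i ∈ p_i`) and the components are incomparable, then
  `h ≡ 1 mod w · gaussO`.
-/

set_option autoImplicit false
set_option linter.unusedSectionVars false
set_option linter.style.haveILetI false

namespace Fermat.Agent.A2.H729

open Polynomial Fermat.Agent.S18.H138

variable {R : Type*} [CommRing R] [IsDomain R] {F : Type*} [Field F] [Algebra R F]

/-- The inclusion `R[x] → chart R {x}`. -/
noncomputable def adjoinToChart (x : F) :
    Algebra.adjoin R ({x} : Set F) →+* chart R ({x} : Set F) :=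
  (Subalgebra.inclusion (adjoin_le_chart (R := R) ({x} : Set F))).toRingHom

theorem coe_adjoinToChart (x : F) (a : Algebra.adjoin R ({x} : Set F)) :
    ((adjoinToChart x a : chart R ({x} : Set F)) : F) = (a : F) := rfl

theorem adjoinToChart_algebraMap (x : F) (r : R) :
    adjoinToChart x (algebraMap R (Algebra.adjoin R ({x} : Set F)) r) =
      algebraMap R (chart R ({x} : Set F)) r := rfl

theorem adjoinToChart_isIntegral (x : F) : (adjoinToChart (R := R) x).IsIntegral := by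
  intro b
  obtain ⟨p, hpm, hp⟩ := (mem_chart.1 b.2 : IsIntegral (Algebra.adjoin R ({x} : Set F)) (b : F))
  refine ⟨p, hpm, ?_⟩
  apply Subtype.ext
  have h1 : ((eval₂ (adjoinToChart (R := R) x) b p : chart R ({x} : Set F)) : F) =
      eval₂ (((chart R ({x} : Set F)).val.toRingHom).comp (adjoinToChart (R := R) x))
        (b : F) p :=
    hom_eval₂ p (adjoinToChart (R := R) x) ((chart R ({x} : Set F)).val.toRingHom) b
  rw [h1]
  exact hp

/-- **Gauss units.**  An element of the chart outside both components of the special fibre is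
a unit of the Gauss ring. -/
theorem exists_gaussDenom_mul_of_not_mem {w : R} (hw : Prime w) {x : F}
    (hx : Transcendental R x) {p₁ p₂ : Ideal (chart R ({x} : Set F))}
    (hp₁ : p₁.IsPrime) (hp₂ : p₂.IsPrime)
    (hinf : p₁ ⊓ p₂ = Ideal.span {algebraMap R (chart R ({x} : Set F)) w})
    {b : chart R ({x} : Set F)} (hb₁ : b ∉ p₁) (hb₂ : b ∉ p₂) :
    ∃ s : F, IsGaussDenom w x s ∧ ∃ c : chart R ({x} : Set F), s = (b : F) * (c : F) := by
  classical
  letI : Algebra (Algebra.adjoin R ({x} : Set F)) (chart R ({x} : Set F)) :=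
    (adjoinToChart (R := R) x).toAlgebra
  haveI : Algebra.IsIntegral (Algebra.adjoin R ({x} : Set F)) (chart R ({x} : Set F)) :=
    ⟨adjoinToChart_isIntegral x⟩
  have hwAp : Prime (algebraMap R (Algebra.adjoin R ({x} : Set F)) w) :=
    prime_algebraMap_adjoin hw hx
  haveI hPprime : (Ideal.span {algebraMap R (Algebra.adjoin R ({x} : Set F)) w}).IsPrime :=
    (Ideal.span_singleton_prime hwAp.ne_zero).2 hwAp
  have hw₁ : algebraMap R (chart R ({x} : Set F)) w ∈ p₁ := by
    have : algebraMap R (chart R ({x} : Set F)) w ∈ p₁ ⊓ p₂ := by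
      rw [hinf]; exact Ideal.mem_span_singleton_self _
    exact this.1
  have hw₂ : algebraMap R (chart R ({x} : Set F)) w ∈ p₂ := by
    have : algebraMap R (chart R ({x} : Set F)) w ∈ p₁ ⊓ p₂ := by
      rw [hinf]; exact Ideal.mem_span_singleton_self _
    exact this.2
  -- the key claim
  have key : ¬ (Ideal.span {b}).comap
      (algebraMap (Algebra.adjoin R ({x} : Set F)) (chart R ({x} : Set F))) ≤
      Ideal.span {algebraMap R (Algebra.adjoin R ({x} : Set F)) w} := by
    intro hle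
    obtain ⟨Q, hQb, hQp, hQ⟩ := Ideal.exists_ideal_over_prime_of_isIntegral
      (Ideal.span {algebraMap R (Algebra.adjoin R ({x} : Set F)) w}) (Ideal.span {b}) hle
    have hbQ : b ∈ Q := hQb (Ideal.mem_span_singleton_self b)
    have hwQ : algebraMap R (chart R ({x} : Set F)) w ∈ Q := by
      have : algebraMap R (Algebra.adjoin R ({x} : Set F)) w ∈
          Q.comap (algebraMap (Algebra.adjoin R ({x} : Set F)) (chart R ({x} : Set F))) := by
        rw [hQ]; exact Ideal.mem_span_singleton_self _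
      exact this
    have hle' : p₁ ⊓ p₂ ≤ Q := by
      rw [hinf, Ideal.span_singleton_le_iff_mem]
      exact hwQ
    -- a component contained in `Q` with the same contraction equals `Q`
    have aux : ∀ p : Ideal (chart R ({x} : Set F)), p.IsPrime →
        algebraMap R (chart R ({x} : Set F)) w ∈ p → p ≤ Q → b ∉ p → False := by
      intro p hp hwp hpQ hbp
      have hlt : p < Q := lt_of_le_of_ne hpQ (fun h => hbp (h ▸ hbQ))
      obtain ⟨z, hzQ, hzp⟩ := SetLike.exists_of_lt hlt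
      have h1 : p.comap (algebraMap (Algebra.adjoin R ({x} : Set F)) (chart R ({x} : Set F))) <
          Q.comap (algebraMap (Algebra.adjoin R ({x} : Set F)) (chart R ({x} : Set F))) :=
        Ideal.comap_lt_comap_of_integral_mem_sdiff hpQ ⟨hzQ, hzp⟩
          (Algebra.IsIntegral.isIntegral z)
      have h2 : Q.comap (algebraMap (Algebra.adjoin R ({x} : Set F)) (chart R ({x} : Set F))) ≤
          p.comap (algebraMap (Algebra.adjoin R ({x} : Set F)) (chart R ({x} : Set F))) := by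
        rw [hQ, Ideal.span_singleton_le_iff_mem]
        exact hwp
      exact (lt_irrefl _ (lt_of_lt_of_le h1 h2))
    rcases (Ideal.IsPrime.inf_le hQp).1 hle' with h | h
    · exact aux p₁ hp₁ hw₁ h hb₁
    · exact aux p₂ hp₂ hw₂ h hb₂
  obtain ⟨a, ha, haP⟩ := SetLike.not_le_iff_exists.1 key
  have ha' : algebraMap (Algebra.adjoin R ({x} : Set F)) (chart R ({x} : Set F)) a ∈
      Ideal.span {b} := ha
  obtain ⟨c, hc⟩ := Ideal.mem_span_singleton'.1 ha'
  have hnd : ¬ algebraMap R (Algebra.adjoin R ({x} : Set F)) w ∣ a :=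
    fun h => haP (Ideal.mem_span_singleton.2 h)
  refine ⟨(a : F), isGaussDenom_of_not_dvd hx hnd, c, ?_⟩
  have := congrArg (fun t : chart R ({x} : Set F) => (t : F)) hc
  rw [mul_comm]
  exact this.symm

theorem inv_mem_gaussO_of_not_mem {w : R} (hw : Prime w) {x : F}
    (hx : Transcendental R x) {p₁ p₂ : Ideal (chart R ({x} : Set F))}
    (hp₁ : p₁.IsPrime) (hp₂ : p₂.IsPrime)
    (hinf : p₁ ⊓ p₂ = Ideal.span {algebraMap R (chart R ({x} : Set F)) w})
    {b : chart R ({x} : Set F)} (hb₁ : b ∉ p₁) (hb₂ : b ∉ p₂) :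
    (b : F)⁻¹ ∈ gaussO hw x := by
  obtain ⟨s, hs, c, hsc⟩ := exists_gaussDenom_mul_of_not_mem hw hx hp₁ hp₂ hinf hb₁ hb₂
  have hb0 : (b : F) ≠ 0 := by
    intro h0
    apply hb₁
    have : b = 0 := Subtype.ext h0
    rw [this]
    exact p₁.zero_mem
  refine ⟨s, hs, ?_⟩
  have : s * (b : F)⁻¹ = (c : F) := by
    rw [hsc]; field_simp
  rw [this]
  exact c.2

/-- **Bridge.**  `h ≡ 1` on both components implies `h ≡ 1 mod w · gaussO`. -/
theorem inW_sub_one_of_oneAt {w : R} (hw : Prime w) {x : F}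
    (hx : Transcendental R x) {p₁ p₂ : Ideal (chart R ({x} : Set F))}
    (hp₁ : p₁.IsPrime) (hp₂ : p₂.IsPrime)
    (hinf : p₁ ⊓ p₂ = Ideal.span {algebraMap R (chart R ({x} : Set F)) w})
    (h₁₂ : ¬ p₁ ≤ p₂) (h₂₁ : ¬ p₂ ≤ p₁) {h : F}
    (hone₁ : ∃ a b : chart R ({x} : Set F), b ∉ p₁ ∧ a - b ∈ p₁ ∧ h * (b : F) = (a : F))
    (hone₂ : ∃ a b : chart R ({x} : Set F), b ∉ p₂ ∧ a - b ∈ p₂ ∧ h * (b : F) = (a : F)) :
    InW (gaussO hw x) w (h - 1) := by
  obtain ⟨a₁, b₁, hb₁, hab₁, e₁⟩ := hone₁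
  obtain ⟨a₂, b₂, hb₂, hab₂, e₂⟩ := hone₂
  obtain ⟨c₂, hc₂p₁, hc₂p₂⟩ := SetLike.not_le_iff_exists.1 h₁₂
  obtain ⟨c₁, hc₁p₂, hc₁p₁⟩ := SetLike.not_le_iff_exists.1 h₂₁
  -- `c₁ ∈ p₂ ∖ p₁`, `c₂ ∈ p₁ ∖ p₂`
  set b := b₁ * c₁ + b₂ * c₂ with hb
  set a := a₁ * c₁ + a₂ * c₂ with ha
  have hbp₁ : b ∉ p₁ := by
    intro hmem
    have h1 : b₂ * c₂ ∈ p₁ := p₁.mul_mem_left _ hc₂p₁
    have h2 : b₁ * c₁ ∈ p₁ := by
      have := p₁.sub_mem hmem h1
      rwa [hb, add_sub_cancel_right] at this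
    rcases hp₁.mem_or_mem h2 with h3 | h3
    · exact hb₁ h3
    · exact hc₁p₁ h3
  have hbp₂ : b ∉ p₂ := by
    intro hmem
    have h1 : b₁ * c₁ ∈ p₂ := p₂.mul_mem_left _ hc₁p₂
    have h2 : b₂ * c₂ ∈ p₂ := by
      have := p₂.sub_mem hmem h1
      rwa [hb, add_sub_cancel_left] at this
    rcases hp₂.mem_or_mem h2 with h3 | h3
    · exact hb₂ h3
    · exact hc₂p₂ h3
  have hab : a - b ∈ p₁ ⊓ p₂ := by
    have e : a - b = (a₁ - b₁) * c₁ + (a₂ - b₂) * c₂ := by rw [ha, hb]; ring
    rw [e]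
    refine ⟨p₁.add_mem (p₁.mul_mem_right _ hab₁) (p₁.mul_mem_left _ hc₂p₁),
      p₂.add_mem (p₂.mul_mem_left _ hc₁p₂) (p₂.mul_mem_right _ hab₂)⟩
  rw [hinf] at hab
  obtain ⟨d, hd⟩ := Ideal.mem_span_singleton'.1 hab
  have hbinv := inv_mem_gaussO_of_not_mem hw hx hp₁ hp₂ hinf hbp₁ hbp₂
  have hb0 : (b : F) ≠ 0 := by
    intro h0
    apply hbp₁
    have : b = 0 := Subtype.ext h0
    rw [this]
    exact p₁.zero_mem
  have ehb : h * (b : F) = (a : F) := by
    have : (b : F) = (b₁ : F) * c₁ + (b₂ : F) * c₂ := by rw [hb]; rfl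
    rw [this]
    have : (a : F) = (a₁ : F) * c₁ + (a₂ : F) * c₂ := by rw [ha]; rfl
    rw [this, ← e₁, ← e₂]
    ring
  have hdF : (a : F) - (b : F) = (d : F) * algebraMap R F w := by
    have := congrArg (fun t : chart R ({x} : Set F) => (t : F)) hd
    exact this.symm
  refine ⟨(d : F) * (b : F)⁻¹,
    Subalgebra.mul_mem _ (chart_fin_le_gaussO hw x d.2) hbinv, ?_⟩
  have : h - 1 = ((a : F) - (b : F)) * (b : F)⁻¹ := by
    rw [← ehb]; field_simp
  rw [this, hdF]
  ring

end Fermat.Agent.A2.H729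

end
-- ===== PACK-END A2/H729/Bridge.lean

-- ===== PACK-BEGIN A2/H729/GaussClosed.lean
section



/-!
# A2 (helper729): the canonical Gauss ring is integrally closed in `F`

* `mem_chart_of_isIntegral_chart` : the charts are integrally closed in `F`.
* `mem_gaussO_of_isIntegral` : the Gauss ring `gaussO hw x` is integrally closed in `F`.
* `inv_not_mem_gaussO` : `w⁻¹ ∉ gaussO`.
-/

set_option autoImplicit false
set_option linter.unusedSectionVars false
set_option linter.style.haveILetI false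

namespace Fermat.Agent.A2.H729

open Polynomial Fermat.Agent.S18.H138

variable {R : Type*} [CommRing R] {F : Type*} [Field F] [Algebra R F]

/-- An element integral over a chart lies in the chart. -/
theorem mem_chart_of_isIntegral_chart {S : Set F} {y : F} (hy : IsIntegral (chart R S) y) :
    y ∈ chart R S := by
  rw [mem_chart]
  have h1 : IsIntegral (integralClosure (Algebra.adjoin R S) F) y := hy
  exact isIntegral_trans (R := Algebra.adjoin R S) (A := integralClosure (Algebra.adjoin R S) F)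
    y h1

theorem IsGaussDenom.prod {w : R} (hw : Prime w) (x : F) {ι : Type*} (s : Finset ι)
    (g : ι → F) (h : ∀ i ∈ s, IsGaussDenom w x (g i)) : IsGaussDenom w x (∏ i ∈ s, g i) := by
  classical
  induction s using Finset.induction_on with
  | empty => simpa using isGaussDenom_one hw x
  | insert a s ha ih =>
    rw [Finset.prod_insert ha]
    exact (h a (Finset.mem_insert_self a s)).mul hw
      (ih fun i hi => h i (Finset.mem_insert_of_mem hi))

/-- The Gauss ring is integrally closed in `F`. -/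
theorem mem_gaussO_of_isIntegral {w : R} (hw : Prime w) {x f : F}
    (hf : IsIntegral (gaussO hw x) f) : f ∈ gaussO hw x := by
  classical
  obtain ⟨p, hpm, hp⟩ := hf
  have hden : ∀ i : ℕ, ∃ s, IsGaussDenom w x s ∧
      s * ((p.coeff i : gaussO hw x) : F) ∈ chart R ({x} : Set F) := fun i => (p.coeff i).2
  choose s hs hsc using hden
  have hS : IsGaussDenom w x (∏ i ∈ Finset.range p.natDegree, s i) :=
    IsGaussDenom.prod hw x _ _ (fun i _ => hs i)
  have hSch : (∏ i ∈ Finset.range p.natDegree, s i) ∈ chart R ({x} : Set F) :=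
    adjoin_le_chart _ hS.mem_adjoin
  have hSmem : (∏ i ∈ Finset.range p.natDegree, s i) ∈ gaussO hw x :=
    chart_fin_le_gaussO hw x hSch
  have hScoeff : ∀ i < p.natDegree,
      (∏ i ∈ Finset.range p.natDegree, s i) * ((p.coeff i : gaussO hw x) : F) ∈
        chart R ({x} : Set F) := by
    intro i hi
    have h1 : (∏ j ∈ Finset.range p.natDegree, s j) =
        s i * ∏ j ∈ (Finset.range p.natDegree).erase i, s j :=
      (Finset.mul_prod_erase _ _ (Finset.mem_range.2 hi)).symm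
    rw [h1, mul_right_comm]
    exact Subalgebra.mul_mem _ (hsc i)
      (Subalgebra.prod_mem _ fun j _ => adjoin_le_chart _ (hs j).mem_adjoin)
  generalize hSdef : (∏ i ∈ Finset.range p.natDegree, s i) = S at hS hSch hSmem hScoeff
  -- the scaled polynomial
  have hroot : eval₂ (algebraMap (gaussO hw x) F) (S * f)
      (scaleRoots p (⟨S, hSmem⟩ : gaussO hw x)) = 0 := by
    have h1 := scaleRoots_eval₂_mul (p := p) (algebraMap (gaussO hw x) F) f
      (⟨S, hSmem⟩ : gaussO hw x)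
    have h2 : algebraMap (gaussO hw x) F (⟨S, hSmem⟩ : gaussO hw x) = S := rfl
    rw [h2] at h1
    rw [h1, hp, mul_zero]
  have hlift : scaleRoots p (⟨S, hSmem⟩ : gaussO hw x) ∈
      lifts (Subalgebra.inclusion (chart_fin_le_gaussO hw x)).toRingHom := by
    rw [lifts_iff_coeff_lifts]
    intro i
    rw [coeff_scaleRoots]
    rcases lt_trichotomy i p.natDegree with hi | hi | hi
    · have h1 : ((p.coeff i : gaussO hw x) : F) * S ^ (p.natDegree - i) ∈
          chart R ({x} : Set F) := by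
        have h2 : S ^ (p.natDegree - i) = S * S ^ (p.natDegree - i - 1) := by
          rw [← pow_succ']; congr 1; omega
        have h3 : ((p.coeff i : gaussO hw x) : F) * S ^ (p.natDegree - i) =
            (S * ((p.coeff i : gaussO hw x) : F)) * S ^ (p.natDegree - i - 1) := by
          rw [h2]; ring
        rw [h3]
        exact Subalgebra.mul_mem _ (hScoeff i hi) (Subalgebra.pow_mem _ hSch _)
      exact ⟨⟨_, h1⟩, Subtype.ext rfl⟩
    · rw [hi, hpm.coeff_natDegree, Nat.sub_self, pow_zero, mul_one]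
      exact ⟨1, map_one _⟩
    · rw [coeff_eq_zero_of_natDegree_lt hi, zero_mul]
      exact ⟨0, map_zero _⟩
  obtain ⟨q, hq, -, hqm⟩ := lifts_and_degree_eq_and_monic hlift
    ((monic_scaleRoots_iff (⟨S, hSmem⟩ : gaussO hw x)).2 hpm)
  have hint : IsIntegral (chart R ({x} : Set F)) (S * f) := by
    refine ⟨q, hqm, ?_⟩
    have h1 : (algebraMap (gaussO hw x) F).comp
        (Subalgebra.inclusion (chart_fin_le_gaussO hw x)).toRingHom =
        algebraMap (chart R ({x} : Set F)) F := rfl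
    rw [← h1, ← eval₂_map, hq]
    exact hroot
  exact ⟨S, hS, mem_chart_of_isIntegral_chart hint⟩

section Dom

variable [IsDomain R] [IsIntegrallyClosed (Polynomial R)]

/-- `w` is not a unit of the Gauss ring. -/
theorem inv_not_mem_gaussO (hinjR : Function.Injective (algebraMap R F)) {w : R}
    (hw : Prime w) {x : F} (hx : Transcendental R x) :
    (algebraMap R F w)⁻¹ ∉ gaussO hw x := by
  intro h
  have hw0 : algebraMap R F w ≠ 0 := fun h0 => hw.ne_zero (hinjR (by rw [h0, map_zero]))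
  have h1 : InW (gaussO hw x) w (algebraMap R F 1) := by
    refine ⟨_, h, ?_⟩
    rw [map_one, mul_inv_cancel₀ hw0]
  obtain ⟨t, ht, htt⟩ := qep_fin hw hx _ (Subalgebra.algebraMap_mem _ (1 : R)) h1
  have h2 : w ∣ (1 : R) := dvd_of_algebraMap_eq_mul hinjR hx w 1 ht htt
  exact hw.not_isUnit (isUnit_of_dvd_one h2)

end Dom

end Fermat.Agent.A2.H729

end
-- ===== PACK-END A2/H729/GaussClosed.lean

-- ===== PACK-BEGIN A2/H729/BaseChange.lean
section


/-!
# A2 (helper729): base change of charts and Gauss rings along a field extension `F₀ → F`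

`F₀ ⊆ F` fields over `R`, `x₀ ∈ F₀`, `x = algebraMap F₀ F x₀`.  The charts and the Gauss ring of
`F₀` map into those of `F`, congruences modulo `w O` are preserved, maximal ideals of the chart of
`F` contract to maximal ideals of the chart of `F₀`, and `F₀`-automorphisms of `F` preserve the
charts, the Gauss ring and congruences modulo `w O`.
-/

set_option autoImplicit false
set_option linter.unusedSectionVars false

namespace Fermat.Agent.A2.H729

open Polynomial Fermat.Agent.S18.H138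

variable {R : Type*} [CommRing R] {F₀ : Type*} [Field F₀] [Algebra R F₀]
  {F : Type*} [Field F] [Algebra R F] [Algebra F₀ F] [IsScalarTower R F₀ F]

/-- The restriction `R[S] → R[φ S]` of `F₀ → F`. -/
noncomputable def adjoinMap (S : Set F₀) :
    Algebra.adjoin R S →ₐ[R] Algebra.adjoin R ((algebraMap F₀ F) '' S) :=
  AlgHom.codRestrict ((IsScalarTower.toAlgHom R F₀ F).comp (Algebra.adjoin R S).val)
    (Algebra.adjoin R ((algebraMap F₀ F) '' S)) (fun a => by
      have h := AlgHom.map_adjoin (IsScalarTower.toAlgHom R F₀ F) S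
      have h2 : (IsScalarTower.toAlgHom R F₀ F) a ∈
          Subalgebra.map (IsScalarTower.toAlgHom R F₀ F) (Algebra.adjoin R S) :=
        Subalgebra.mem_map.2 ⟨a, a.2, rfl⟩
      rw [h] at h2
      exact h2)

theorem coe_adjoinMap (S : Set F₀) (a : Algebra.adjoin R S) :
    ((adjoinMap (F := F) S a : Algebra.adjoin R ((algebraMap F₀ F) '' S)) : F) =
      algebraMap F₀ F a := rfl

/-- Charts map to charts. -/
theorem algebraMap_mem_chart {S : Set F₀} {z : F₀} (hz : z ∈ chart R S) :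
    algebraMap F₀ F z ∈ chart R ((algebraMap F₀ F) '' S) := by
  rw [mem_chart] at hz ⊢
  exact IsIntegral.map_of_comp_eq (adjoinMap (F := F) S).toRingHom (algebraMap F₀ F)
    (by ext a; rfl) hz

theorem algebraMap_mem_chart_singleton {x₀ z : F₀} (hz : z ∈ chart R ({x₀} : Set F₀)) :
    algebraMap F₀ F z ∈ chart R ({algebraMap F₀ F x₀} : Set F) := by
  have := algebraMap_mem_chart (F := F) hz
  rwa [Set.image_singleton] at this

theorem algebraMap_mem_chart_inv {x₀ z : F₀} (hz : z ∈ chart R ({x₀⁻¹} : Set F₀)) :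
    algebraMap F₀ F z ∈ chart R ({(algebraMap F₀ F x₀)⁻¹} : Set F) := by
  have := algebraMap_mem_chart (F := F) hz
  rwa [Set.image_singleton, map_inv₀] at this

theorem IsGaussDenom.map {w : R} {x₀ s : F₀} (hs : IsGaussDenom w x₀ s) :
    IsGaussDenom w (algebraMap F₀ F x₀) (algebraMap F₀ F s) := by
  obtain ⟨Q, hQ, rfl⟩ := hs
  refine ⟨Q, hQ, ?_⟩
  rw [← aeval_algebraMap_apply]

/-- The Gauss ring maps to the Gauss ring. -/
theorem algebraMap_mem_gaussO {w : R} (hw : Prime w) {x₀ t : F₀} (ht : t ∈ gaussO hw x₀) :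
    algebraMap F₀ F t ∈ gaussO hw (algebraMap F₀ F x₀) := by
  obtain ⟨s, hs, hst⟩ := ht
  refine ⟨algebraMap F₀ F s, hs.map, ?_⟩
  rw [← map_mul]
  exact algebraMap_mem_chart_singleton hst

/-- Congruences modulo `w O` are preserved. -/
theorem InW.map {w : R} (hw : Prime w) {x₀ z : F₀} (hz : InW (gaussO hw x₀) w z) :
    InW (gaussO hw (algebraMap F₀ F x₀)) w (algebraMap F₀ F z) := by
  obtain ⟨t, ht, rfl⟩ := hz
  refine ⟨algebraMap F₀ F t, algebraMap_mem_gaussO hw ht, ?_⟩
  rw [map_mul, ← IsScalarTower.algebraMap_apply]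

section Auto

/-- `F₀`-automorphisms of `F` preserve the chart. -/
theorem algEquiv_mem_chart (σ : F ≃ₐ[F₀] F) {S : Set F}
    (hS : ∀ a ∈ S, σ a = a) {z : F} (hz : z ∈ chart R S) : σ z ∈ chart R S := by
  rw [mem_chart] at hz ⊢
  have hfix : ∀ a ∈ Algebra.adjoin R S, σ a = a := by
    intro a ha
    induction ha using Algebra.adjoin_induction with
    | mem y hy => exact hS y hy
    | algebraMap r =>
      rw [IsScalarTower.algebraMap_apply R F₀ F, AlgEquiv.commutes]
    | add y z _ _ hy hz => rw [map_add, hy, hz]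
    | mul y z _ _ hy hz => rw [map_mul, hy, hz]
  refine IsIntegral.map_of_comp_eq (RingHom.id _) (σ : F →+* F) ?_ hz
  ext a
  exact (hfix a a.2).symm

theorem algEquiv_mem_gaussO {w : R} (hw : Prime w) (σ : F ≃ₐ[F₀] F) {x₀ : F₀} {t : F}
    (ht : t ∈ gaussO hw (algebraMap F₀ F x₀)) : σ t ∈ gaussO hw (algebraMap F₀ F x₀) := by
  obtain ⟨s, ⟨Q, hQ, rfl⟩, hst⟩ := ht
  have hsx : σ (algebraMap F₀ F x₀) = algebraMap F₀ F x₀ := σ.commutes x₀
  have hs : σ (aeval (algebraMap F₀ F x₀) Q) = aeval (algebraMap F₀ F x₀) Q := by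
    rw [aeval_algebraMap_apply, σ.commutes]
  refine ⟨aeval (algebraMap F₀ F x₀) Q, ⟨Q, hQ, rfl⟩, ?_⟩
  have := algEquiv_mem_chart (R := R) σ
    (S := ({algebraMap F₀ F x₀} : Set F)) (fun a ha => by
      rw [Set.mem_singleton_iff] at ha; rw [ha, hsx]) hst
  rwa [map_mul, hs] at this

theorem InW.algEquiv {w : R} (hw : Prime w) (σ : F ≃ₐ[F₀] F) {x₀ : F₀} {z : F}
    (hz : InW (gaussO hw (algebraMap F₀ F x₀)) w z) :
    InW (gaussO hw (algebraMap F₀ F x₀)) w (σ z) := by
  obtain ⟨t, ht, rfl⟩ := hz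
  refine ⟨σ t, algEquiv_mem_gaussO hw σ ht, ?_⟩
  rw [map_mul, IsScalarTower.algebraMap_apply R F₀ F, σ.commutes]

end Auto

end Fermat.Agent.A2.H729

end
-- ===== PACK-END A2/H729/BaseChange.lean

-- ===== PACK-BEGIN A2/H729/Contract.lean
section


/-!
# A2 (helper729): contraction of closed points of the chart of `F` to the chart of `F₀`

`chartMap x₀ : chart_{F₀} {x₀} →+* chart_F {x}` is an integral ring homomorphism, so maximal ideals
contract to maximal ideals.
-/

set_option autoImplicit false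
set_option linter.unusedSectionVars false

namespace Fermat.Agent.A2.H729

open Polynomial Fermat.Agent.S18.H138

variable {R : Type*} [CommRing R] {F₀ : Type*} [Field F₀] [Algebra R F₀]
  {F : Type*} [Field F] [Algebra R F] [Algebra F₀ F] [IsScalarTower R F₀ F]

/-- `R[x₀] → R[x]`. -/
noncomputable def adjoinMapS (x₀ : F₀) :
    Algebra.adjoin R ({x₀} : Set F₀) →ₐ[R] Algebra.adjoin R ({algebraMap F₀ F x₀} : Set F) :=
  AlgHom.codRestrict ((IsScalarTower.toAlgHom R F₀ F).comp (Algebra.adjoin R ({x₀} : Set F₀)).val)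
    (Algebra.adjoin R ({algebraMap F₀ F x₀} : Set F)) (fun a => by
      have h := AlgHom.map_adjoin_singleton (IsScalarTower.toAlgHom R F₀ F) x₀
      have h2 : (IsScalarTower.toAlgHom R F₀ F) a ∈
          Subalgebra.map (IsScalarTower.toAlgHom R F₀ F) (Algebra.adjoin R ({x₀} : Set F₀)) :=
        Subalgebra.mem_map.2 ⟨a, a.2, rfl⟩
      rw [h] at h2
      exact h2)

theorem coe_adjoinMapS (x₀ : F₀) (a : Algebra.adjoin R ({x₀} : Set F₀)) :
    ((adjoinMapS (F := F) x₀ a : Algebra.adjoin R ({algebraMap F₀ F x₀} : Set F)) : F) =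
      algebraMap F₀ F a := rfl

theorem adjoinMapS_surjective (x₀ : F₀) :
    Function.Surjective (adjoinMapS (R := R) (F := F) x₀) := by
  rintro ⟨b, hb⟩
  have h := AlgHom.map_adjoin_singleton (IsScalarTower.toAlgHom R F₀ F) x₀
  have hb' : b ∈ Subalgebra.map (IsScalarTower.toAlgHom R F₀ F)
      (Algebra.adjoin R ({x₀} : Set F₀)) := by
    rw [h]; exact hb
  obtain ⟨a, ha, rfl⟩ := Subalgebra.mem_map.1 hb'
  exact ⟨⟨a, ha⟩, Subtype.ext rfl⟩

/-- `chart_{F₀} {x₀} → chart_F {x}`. -/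
noncomputable def chartMap (x₀ : F₀) :
    chart R ({x₀} : Set F₀) →+* chart R ({algebraMap F₀ F x₀} : Set F) where
  toFun z := ⟨algebraMap F₀ F z, algebraMap_mem_chart_singleton z.2⟩
  map_one' := Subtype.ext (map_one _)
  map_mul' _ _ := Subtype.ext (map_mul _ _ _)
  map_zero' := Subtype.ext (map_zero _)
  map_add' _ _ := Subtype.ext (map_add _ _ _)

theorem coe_chartMap (x₀ : F₀) (z : chart R ({x₀} : Set F₀)) :
    ((chartMap (F := F) x₀ z : chart R ({algebraMap F₀ F x₀} : Set F)) : F) =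
      algebraMap F₀ F z := rfl

theorem chartMap_algebraMap (x₀ : F₀) (r : R) :
    chartMap (R := R) (F := F) x₀ (algebraMap R (chart R ({x₀} : Set F₀)) r) =
      algebraMap R (chart R ({algebraMap F₀ F x₀} : Set F)) r := by
  apply Subtype.ext
  rw [coe_chartMap]
  exact (IsScalarTower.algebraMap_apply R F₀ F r).symm

theorem chartMap_isIntegral (x₀ : F₀) : (chartMap (R := R) (F := F) x₀).IsIntegral := by
  classical
  intro c
  obtain ⟨p, hpm, hp⟩ := (mem_chart.1 c.2 :
    IsIntegral (Algebra.adjoin R ({algebraMap F₀ F x₀} : Set F)) (c : F))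
  have hlift : p ∈ lifts (adjoinMapS (R := R) (F := F) x₀).toRingHom := by
    rw [lifts_iff_coeff_lifts]
    intro n
    exact adjoinMapS_surjective x₀ _
  obtain ⟨q, hq, -, hqm⟩ := lifts_and_degree_eq_and_monic hlift hpm
  -- inclusion `R[x₀] → chart`
  let incl : Algebra.adjoin R ({x₀} : Set F₀) →+* chart R ({x₀} : Set F₀) :=
    (Subalgebra.inclusion (adjoin_le_chart (R := R) ({x₀} : Set F₀))).toRingHom
  refine ⟨q.map incl, hqm.map incl, ?_⟩
  apply Subtype.ext
  have h1 : ((eval₂ (chartMap (R := R) (F := F) x₀) c (q.map incl) :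
      chart R ({algebraMap F₀ F x₀} : Set F)) : F) =
      eval₂ (((chart R ({algebraMap F₀ F x₀} : Set F)).val.toRingHom).comp
        (chartMap (R := R) (F := F) x₀)) (c : F) (q.map incl) :=
    hom_eval₂ (q.map incl) (chartMap (R := R) (F := F) x₀)
      ((chart R ({algebraMap F₀ F x₀} : Set F)).val.toRingHom) c
  rw [h1, eval₂_map]
  have h2 : ((((chart R ({algebraMap F₀ F x₀} : Set F)).val.toRingHom).comp
      (chartMap (R := R) (F := F) x₀)).comp incl) =
      (algebraMap (Algebra.adjoin R ({algebraMap F₀ F x₀} : Set F)) F).comp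
        (adjoinMapS (R := R) (F := F) x₀).toRingHom := by
    ext a
    rfl
  rw [h2, ← eval₂_map, hq]
  exact hp

/-- Maximal ideals of the chart of `F` contract to maximal ideals of the chart of `F₀`. -/
theorem isMaximal_comap_chartMap (x₀ : F₀)
    (𝔫 : Ideal (chart R ({algebraMap F₀ F x₀} : Set F))) [𝔫.IsMaximal] :
    (Ideal.comap (chartMap (R := R) (F := F) x₀) 𝔫).IsMaximal :=
  Ideal.isMaximal_comap_of_isIntegral_of_isMaximal' _ (chartMap_isIntegral x₀) 𝔫

end Fermat.Agent.A2.H729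

end
-- ===== PACK-END A2/H729/Contract.lean

-- ===== PACK-BEGIN A2/H729/LocalFact.lean
section



/-!
# A2 (helper729): from local factorisations on the base charts to local models of the Kummer root

`F₀ ⊆ F`, `y ∈ F`, `y ^ m = u ∈ F₀`.  A *local factorisation* of `u` at a closed point `𝔫₀ ∋ w`
of the chart of `F₀` is `u = ε * h ^ m` with `h ≡ 1 mod w O₀` and `ε` regular at `𝔫₀`
(`s * ε ∈ chart` for some `s ∉ 𝔫₀`).  Then `y₁ := y / h` satisfies `y₁ ≡ y mod w O` and
`s * y₁ ∈ chart_F`: this is the local hypothesis of `kummer_trivial_of_local`.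
-/

set_option autoImplicit false
set_option linter.unusedSectionVars false

namespace Fermat.Agent.A2.H729

open Polynomial Fermat.Agent.S18.H138

variable {R : Type*} [CommRing R] [IsDomain R] [IsIntegrallyClosed (Polynomial R)]
  {F₀ : Type*} [Field F₀] [Algebra R F₀]
  {F : Type*} [Field F] [Algebra R F] [Algebra F₀ F] [IsScalarTower R F₀ F]

theorem gaussO_inv_le {w : R} (hw : Prime w) {x : F} (hx0 : x ≠ 0) :
    gaussO hw x ≤ gaussO hw x⁻¹ := fun _ ht =>
  exists_denom_inv_of_mem_gaussO hw hx0 ht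

theorem gaussO_inv {w : R} (hw : Prime w) {x : F} (hx0 : x ≠ 0) :
    gaussO hw x⁻¹ = gaussO hw x := by
  apply le_antisymm
  · have := gaussO_inv_le hw (inv_ne_zero hx0)
    rwa [inv_inv] at this
  · exact gaussO_inv_le hw hx0

/-- The local hypothesis of `kummer_trivial_of_local` from local factorisations on the base. -/
theorem hloc_of_localFactorisation {w : R} (hw : Prime w) {x₀ : F₀}
    (hx : Transcendental R (algebraMap F₀ F x₀)) {m : ℕ} (hm : 0 < m) {u : F₀} {y : F}
    (hyu : y ^ m = algebraMap F₀ F u) (hyO : y ∈ gaussO hw (algebraMap F₀ F x₀))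
    (hLF : ∀ 𝔫₀ : Ideal (chart R ({x₀} : Set F₀)), 𝔫₀.IsMaximal →
      algebraMap R (chart R ({x₀} : Set F₀)) w ∈ 𝔫₀ →
      ∃ s : chart R ({x₀} : Set F₀), s ∉ 𝔫₀ ∧ ∃ h ε : F₀,
        InW (gaussO hw x₀) w (h - 1) ∧ u = ε * h ^ m ∧ (s : F₀) * ε ∈ chart R ({x₀} : Set F₀)) :
    ∀ 𝔫 : Ideal (chart R ({algebraMap F₀ F x₀} : Set F)), 𝔫.IsMaximal →
      algebraMap R (chart R ({algebraMap F₀ F x₀} : Set F)) w ∈ 𝔫 →
      ∃ s : chart R ({algebraMap F₀ F x₀} : Set F), s ∉ 𝔫 ∧
        ∃ y₁ : F, InW (gaussO hw (algebraMap F₀ F x₀)) w (y - y₁) ∧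
          (s : F) * y₁ ∈ chart R ({algebraMap F₀ F x₀} : Set F) := by
  intro 𝔫 h𝔫 hw𝔫
  have := h𝔫
  have hmax := isMaximal_comap_chartMap (R := R) (F := F) x₀ 𝔫
  have hw₀ : algebraMap R (chart R ({x₀} : Set F₀)) w ∈
      Ideal.comap (chartMap (R := R) (F := F) x₀) 𝔫 := by
    rw [Ideal.mem_comap, chartMap_algebraMap]
    exact hw𝔫
  obtain ⟨s₀, hs₀, h, ε, hh, huε, hsε⟩ := hLF _ hmax hw₀
  have hhF : InW (gaussO hw (algebraMap F₀ F x₀)) w (algebraMap F₀ F h - 1) := by
    have := InW.map (F := F) hw hh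
    rwa [map_sub, map_one] at this
  obtain ⟨hne, hinv, hinv1⟩ := inW_inv_sub_one hw hx hhF
  have hh0 : h ≠ 0 := fun h0 => hne (by rw [h0, map_zero])
  refine ⟨chartMap (R := R) (F := F) x₀ s₀, fun hs => hs₀ (Ideal.mem_comap.2 hs),
    y * (algebraMap F₀ F h)⁻¹, ?_, ?_⟩
  · have : y - y * (algebraMap F₀ F h)⁻¹ = -(y * ((algebraMap F₀ F h)⁻¹ - 1)) := by ring
    rw [this]
    exact (hinv1.mul_left hyO).neg
  · refine mem_chart_of_pow_mem hm ?_
    have hε : ε = u * (h ^ m)⁻¹ := by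
      rw [huε, mul_assoc, mul_inv_cancel₀ (pow_ne_zero _ hh0), mul_one]
    have : ((chartMap (R := R) (F := F) x₀ s₀ : chart R ({algebraMap F₀ F x₀} : Set F)) : F)
        = algebraMap F₀ F s₀ := rfl
    rw [this]
    have key : (algebraMap F₀ F s₀ * (y * (algebraMap F₀ F h)⁻¹)) ^ m =
        algebraMap F₀ F ((s₀ : F₀) ^ (m - 1) * ((s₀ : F₀) * ε)) := by
      rw [mul_pow, mul_pow, hyu, hε, inv_pow, ← map_pow, ← map_pow, ← map_inv₀, ← map_mul,
        ← map_mul]
      congr 1
      have : (s₀ : F₀) ^ m = (s₀ : F₀) ^ (m - 1) * s₀ := by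
        rw [← pow_succ]; congr 1; omega
      rw [this]
      ring
    rw [key]
    exact algebraMap_mem_chart_singleton
      (Subalgebra.mul_mem _ (Subalgebra.pow_mem _ s₀.2 _) hsε)

end Fermat.Agent.A2.H729

end
-- ===== PACK-END A2/H729/LocalFact.lean

-- ===== PACK-BEGIN A2/H729/H348Adapter.lean
section




/-!
# A2 (helper729): the canonical Gauss ring as input of `H348.exists_pow_eq_of_local_factorisation`

`V := gaussO hw x` satisfies all the fields of `H348.GaussData` and `H348.ChartData`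
(for both charts) except the two which carry information: `u ≡ 1 mod w V` and the local
factorisations.  Hence `exists_pow_eq_gaussO`: the route-S theorem with `V` eliminated.
-/

set_option autoImplicit false
set_option linter.unusedSectionVars false
set_option linter.style.haveILetI false

namespace Fermat.Agent.A2.H729

open Polynomial Fermat.Agent.S18.H138

variable {R : Type*} [CommRing R] [IsDomain R] [IsIntegrallyClosed (Polynomial R)]
  {F : Type*} [Field F] [Algebra R F]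

theorem gaussData_gaussO (hinjR : Function.Injective (algebraMap R F)) {w : R} (hw : Prime w)
    {x : F} (hx : Transcendental R x) {mi : R} {m : ℕ} (hmi : (m : R) * mi = 1) {u : F}
    (hu : InW (gaussO hw x) w (u - 1)) : H348.GaussData w m u (gaussO hw x) where
  closed := fun _ hf => mem_gaussO_of_isIntegral hw hf
  ϖ_inv_notMem := inv_not_mem_gaussO hinjR hw hx
  rad := fun _ ht => inv_one_add_mem_gaussO hw hx ht
  m_ne := by
    intro h0
    have h1 := congrArg (algebraMap R F) hmi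
    rw [map_mul, map_natCast, h0, zero_mul, map_one] at h1
    exact zero_ne_one h1
  m_inv := by
    have h1 := congrArg (algebraMap R F) hmi
    rw [map_mul, map_natCast, map_one] at h1
    have h2 : ((m : F))⁻¹ = algebraMap R F mi := inv_eq_of_mul_eq_one_right h1
    rw [h2]
    exact Subalgebra.algebraMap_mem _ mi
  u_one := by
    obtain ⟨t, ht, htt⟩ := hu
    exact ⟨t, ht, by rw [← htt]; ring⟩

theorem chartData_fin (hinjR : Function.Injective (algebraMap R F)) {w : R} (hw : Prime w)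
    {x : F} (hx : Transcendental R x) {m : ℕ} {u : F}
    (hloc : ∀ 𝔪 : Ideal (chart R ({x} : Set F)), 𝔪.IsMaximal →
      algebraMap R (chart R ({x} : Set F)) w ∈ 𝔪 →
      ∃ h : F, (∃ t ∈ gaussO hw x, h = 1 + algebraMap R F w * t) ∧
        ∃ s a : chart R ({x} : Set F), s ∉ 𝔪 ∧
          u * (s : F) = h ^ m * ((s : F) + algebraMap R F w * (a : F))) :
    H348.ChartData w m u (chart R ({x} : Set F)) (gaussO hw x) where
  le_V := chart_fin_le_gaussO hw x
  closed := fun _ hf => mem_chart_of_isIntegral_chart hf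
  qep := by
    intro b hb t ht hbt
    have hw0 : algebraMap R F w ≠ 0 := fun h0 => hw.ne_zero (hinjR (by rw [h0, map_zero]))
    obtain ⟨t', ht', hbt'⟩ := qep_fin hw hx b hb ⟨t, ht, hbt⟩
    have : t = t' := mul_left_cancel₀ hw0 (hbt.symm.trans hbt')
    rw [this]
    exact ht'
  loc := hloc

theorem chartData_inf (hinjR : Function.Injective (algebraMap R F)) {w : R} (hw : Prime w)
    {x : F} (hx : Transcendental R x) {m : ℕ} {u : F}
    (hloc : ∀ 𝔪 : Ideal (chart R ({x⁻¹} : Set F)), 𝔪.IsMaximal →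
      algebraMap R (chart R ({x⁻¹} : Set F)) w ∈ 𝔪 →
      ∃ h : F, (∃ t ∈ gaussO hw x, h = 1 + algebraMap R F w * t) ∧
        ∃ s a : chart R ({x⁻¹} : Set F), s ∉ 𝔪 ∧
          u * (s : F) = h ^ m * ((s : F) + algebraMap R F w * (a : F))) :
    H348.ChartData w m u (chart R ({x⁻¹} : Set F)) (gaussO hw x) where
  le_V := chart_inf_le_gaussO hw (ne_zero_of_transcendental hx)
  closed := fun _ hf => mem_chart_of_isIntegral_chart hf
  qep := by
    intro b hb t ht hbt
    have hw0 : algebraMap R F w ≠ 0 := fun h0 => hw.ne_zero (hinjR (by rw [h0, map_zero]))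
    obtain ⟨t', ht', hbt'⟩ := qep_inf hw hx b hb ⟨t, ht, hbt⟩
    have : t = t' := mul_left_cancel₀ hw0 (hbt.symm.trans hbt')
    rw [this]
    exact ht'
  loc := hloc

/-- **Route S with the canonical Gauss ring.** -/
theorem exists_pow_eq_gaussO [IsNoetherianRing R] [CharZero F]
    (hinjR : Function.Injective (algebraMap R F))
    {x : F} (hx : Transcendental R x) [FiniteDimensional (baseField R x) F]
    {w : R} (hw : Prime w) {mi : R} {m : ℕ} (hmi : (m : R) * mi = 1) {u : F}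
    (hu : InW (gaussO hw x) w (u - 1))
    (hloc_fin : ∀ 𝔪 : Ideal (chart R ({x} : Set F)), 𝔪.IsMaximal →
      algebraMap R (chart R ({x} : Set F)) w ∈ 𝔪 →
      ∃ h : F, (∃ t ∈ gaussO hw x, h = 1 + algebraMap R F w * t) ∧
        ∃ s a : chart R ({x} : Set F), s ∉ 𝔪 ∧
          u * (s : F) = h ^ m * ((s : F) + algebraMap R F w * (a : F)))
    (hloc_inf : ∀ 𝔪 : Ideal (chart R ({x⁻¹} : Set F)), 𝔪.IsMaximal →
      algebraMap R (chart R ({x⁻¹} : Set F)) w ∈ 𝔪 →
      ∃ h : F, (∃ t ∈ gaussO hw x, h = 1 + algebraMap R F w * t) ∧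
        ∃ s a : chart R ({x⁻¹} : Set F), s ∉ 𝔪 ∧
          u * (s : F) = h ^ m * ((s : F) + algebraMap R F w * (a : F)))
    (hconst : ∀ 𝔫 : Ideal (AdjoinRoot (X ^ m - C u)), 𝔫.IsMaximal →
      ∀ y : AdjoinRoot (X ^ m - C u) ⧸ 𝔫, IsIntegral R y →
        y ∈ Set.range (algebraMap R (AdjoinRoot (X ^ m - C u) ⧸ 𝔫))) :
    ∃ y : F, y ^ m = u ∧ InW (gaussO hw x) w (y - 1) := by
  obtain ⟨y, hy, t, ht, hyt⟩ := H348.exists_pow_eq_of_local_factorisation hinjR hx w hw
    (gaussData_gaussO hinjR hw hx hmi hu) (chartData_fin hinjR hw hx hloc_fin)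
    (chartData_inf hinjR hw hx hloc_inf) hconst
  exact ⟨y, hy, t, ht, by rw [hyt]; ring⟩

end Fermat.Agent.A2.H729

end
-- ===== PACK-END A2/H729/H348Adapter.lean

-- ===== PACK-BEGIN A2/Alg/H729/Glue.lean
section




/-!
# WALL A2 / ALG — leaf GLUE modulo constants (helper729)

`glue_of_hconst` is the leaf `glue` of `Fermat/Agent/A2/Alg/Skel.lean` (architect helper34),
VERBATIM, with ONE extra hypothesis `hconst`: the constants do not grow in the residue fields of
the Kummer algebra `F[X]/(X ^ m - u)` (exact form of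
`H348.exists_pow_eq_of_local_factorisation`).

Proof: `V := H729.gaussO` (canonical Gauss ring; closedness, Jacobson radical, q-expansion
principle on both charts are theorems), bridge `OneAt p₁ ∧ OneAt p₂ ⇒ 1 + w V`
(`H729.inW_sub_one_of_oneAt`, going-up), and `H348.exists_pow_eq_of_local_factorisation`.
-/

set_option autoImplicit false
set_option linter.unusedSectionVars false
set_option linter.style.haveILetI false
set_option linter.unusedVariables false

namespace Fermat.Agent.A2.Alg.H729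

open Fermat.Agent.A2 Fermat.Agent.A2.Alg Fermat.Agent.A2.H729
open Fermat.Agent.S18.H138 (chart baseField)
open Polynomial

section OneAtLemmas

variable {R F : Type*} [CommRing R] [Field F] [Algebra R F]

theorem oneAt_one {B : Subalgebra R F} {p : Ideal B} (hp : p.IsPrime) : OneAt B p 1 :=
  ⟨1, 1, fun h => hp.ne_top ((Ideal.eq_top_iff_one p).2 h), by simp, by simp⟩

theorem oneAt_mul {B : Subalgebra R F} {p : Ideal B} (hp : p.IsPrime) {g g' : F}
    (h : OneAt B p g) (h' : OneAt B p g') : OneAt B p (g * g') := by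
  obtain ⟨a, b, hb, hab, e⟩ := h
  obtain ⟨a', b', hb', hab', e'⟩ := h'
  refine ⟨a * a', b * b', fun hmem => ?_, ?_, ?_⟩
  · rcases hp.mem_or_mem hmem with h1 | h1
    · exact hb h1
    · exact hb' h1
  · have : a * a' - b * b' = a * (a' - b') + (a - b) * b' := by ring
    rw [this]
    exact p.add_mem (p.mul_mem_left _ hab') (p.mul_mem_right _ hab)
  · push_cast
    rw [← e, ← e']
    ring

theorem oneAt_pow {B : Subalgebra R F} {p : Ideal B} (hp : p.IsPrime) {g : F}
    (h : OneAt B p g) (n : ℕ) : OneAt B p (g ^ n) := by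
  induction n with
  | zero => rw [pow_zero]; exact oneAt_one hp
  | succ n ih => rw [pow_succ]; exact oneAt_mul hp ih h

theorem oneAt_inv {B : Subalgebra R F} {p : Ideal B} {g : F}
    (h : OneAt B p g) : OneAt B p g⁻¹ := by
  obtain ⟨a, b, hb, hab, e⟩ := h
  have ha : a ∉ p := by
    intro ha
    apply hb
    have : b = a - (a - b) := by ring
    rw [this]
    exact p.sub_mem ha hab
  have hg : g ≠ 0 := by
    rintro rfl
    rw [zero_mul] at e
    apply ha
    have : a = 0 := Subtype.ext e.symm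
    rw [this]
    exact p.zero_mem
  refine ⟨b, a, ha, ?_, ?_⟩
  · have : b - a = -(a - b) := by ring
    rw [this]
    exact p.neg_mem hab
  · rw [← e, ← mul_assoc, inv_mul_cancel₀ hg, one_mul]

theorem oneAt_of_locOne {B : Subalgebra R F} {n I p : Ideal B} (hpn : p ≤ n) (hIp : I ≤ p)
    {g : F} (h : LocOne B n I g) : OneAt B p g := by
  obtain ⟨a, b, hb, hab, e⟩ := h
  exact ⟨a, b, fun hmem => hb (hpn hmem), hIp hab, e⟩

end OneAtLemmas

section Glue

variable {R E F : Type*} [CommRing R] [IsDomain R] [IsDiscreteValuationRing R]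
  [HenselianLocalRing R] [IsAlgClosed (IsLocalRing.ResidueField R)]
  [Field E] [CharZero E] [Algebra R E] [IsFractionRing R E]
  [Field F] [Algebra E F] [Algebra R F] [IsScalarTower R E F]

/-- `m` is invertible in `R`. -/
theorem exists_inv_natCast (q m : ℕ) (hq : q.Prime)
    (hqR : (q : R) ∈ IsLocalRing.maximalIdeal R) (hqm : ¬ q ∣ m) :
    ∃ mi : R, (m : R) * mi = 1 := by
  have hmR : (m : R) ∉ IsLocalRing.maximalIdeal R := by
    intro hmem
    have hcop : Nat.Coprime m q := ((Nat.Prime.coprime_iff_not_dvd hq).2 hqm).symm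
    obtain ⟨a, b, hab⟩ := Nat.isCoprime_iff_coprime.2 hcop
    have h1 : ((a * (m : ℤ) + b * (q : ℤ) : ℤ) : R) = 1 := by rw [hab]; simp
    have h2 : (1 : R) ∈ IsLocalRing.maximalIdeal R := by
      rw [← h1]
      push_cast
      exact Ideal.add_mem _ (Ideal.mul_mem_left _ _ hmem) (Ideal.mul_mem_left _ _ hqR)
    exact (IsLocalRing.maximalIdeal.isMaximal R).ne_top ((Ideal.eq_top_iff_one _).2 h2)
  exact (IsLocalRing.notMem_maximalIdeal.1 hmR).exists_right_inv

/-- Local factorisations on one chart, in the form of `H729.exists_pow_eq_gaussO`. -/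
theorem loc_of_locallyFactored {w : R} (hw : Prime w) {x : F} (hx : Transcendental R x)
    (c : SSChart w (chart R ({x} : Set F))) (hc : Incomparable c) {m : ℕ} {u : F}
    (hf : LocallyFactored (chart R ({x} : Set F)) c m u) :
    ∀ 𝔪 : Ideal (chart R ({x} : Set F)), 𝔪.IsMaximal →
      algebraMap R (chart R ({x} : Set F)) w ∈ 𝔪 →
      ∃ h : F, (∃ t ∈ gaussO hw x, h = 1 + algebraMap R F w * t) ∧
        ∃ s a : chart R ({x} : Set F), s ∉ 𝔪 ∧
          u * (s : F) = h ^ m * ((s : F) + algebraMap R F w * (a : F)) := by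
  intro 𝔪 h𝔪 hw𝔪
  obtain ⟨h, hh0, ⟨a, b, hb, hab, e⟩, h1, h2⟩ := hf 𝔪 h𝔪 hw𝔪
  have hInW : InW (gaussO hw x) w (h - 1) :=
    inW_sub_one_of_oneAt hw hx c.prime₁ c.prime₂ c.inf_eq hc.1 hc.2 h1 h2
  obtain ⟨-, -, t, ht, htt⟩ := inW_inv_sub_one hw hx hInW
  obtain ⟨d, hd⟩ := Ideal.mem_span_singleton'.1 hab
  refine ⟨h⁻¹, ⟨t, ht, by rw [← htt]; ring⟩, b, d, hb, ?_⟩
  have hdF : (d : F) * algebraMap R F w = (a : F) - (b : F) :=
    congrArg (fun t : chart R ({x} : Set F) => (t : F)) hd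
  have e1 : (b : F) + algebraMap R F w * (d : F) = (a : F) := by
    rw [mul_comm, hdF]; ring
  rw [e1, ← e, inv_pow]
  field_simp

/-- `u ≡ 1 mod w · gaussO` from local factorisations at one closed point on each component. -/
theorem inW_of_locallyFactored {w : R} (hw : Prime w) {x : F} (hx : Transcendental R x)
    (c : SSChart w (chart R ({x} : Set F))) (hc : Incomparable c) {m : ℕ} {u : F}
    (hf : LocallyFactored (chart R ({x} : Set F)) c m u) :
    InW (gaussO hw x) w (u - 1) := by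
  have hw₁₂ : algebraMap R (chart R ({x} : Set F)) w ∈ c.p₁ ⊓ c.p₂ := by
    rw [c.inf_eq]; exact Ideal.mem_span_singleton_self _
  have hspan₁ : Ideal.span {algebraMap R (chart R ({x} : Set F)) w} ≤ c.p₁ := by
    rw [← c.inf_eq]; exact inf_le_left
  have hspan₂ : Ideal.span {algebraMap R (chart R ({x} : Set F)) w} ≤ c.p₂ := by
    rw [← c.inf_eq]; exact inf_le_right
  have key : ∀ p : Ideal (chart R ({x} : Set F)), p.IsPrime →
      Ideal.span {algebraMap R (chart R ({x} : Set F)) w} ≤ p →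
      (∀ h : F, OneAt (chart R ({x} : Set F)) c.p₁ h → OneAt (chart R ({x} : Set F)) c.p₂ h →
        OneAt (chart R ({x} : Set F)) p h) →
      OneAt (chart R ({x} : Set F)) p u := by
    intro p hp hwp hsel
    obtain ⟨𝔪, h𝔪, hp𝔪⟩ := Ideal.exists_le_maximal p hp.ne_top
    have hw𝔪 : algebraMap R (chart R ({x} : Set F)) w ∈ 𝔪 :=
      hp𝔪 (hwp (Ideal.mem_span_singleton_self _))
    obtain ⟨h, hh0, hloc, h1, h2⟩ := hf 𝔪 h𝔪 hw𝔪
    have hA : OneAt (chart R ({x} : Set F)) p (u * h ^ m) := oneAt_of_locOne hp𝔪 hwp hloc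
    have hB : OneAt (chart R ({x} : Set F)) p (h ^ m)⁻¹ :=
      oneAt_inv (oneAt_pow hp (hsel h h1 h2) m)
    have := oneAt_mul hp hA hB
    rwa [mul_assoc, mul_inv_cancel₀ (pow_ne_zero _ hh0), mul_one] at this
  exact inW_sub_one_of_oneAt hw hx c.prime₁ c.prime₂ c.inf_eq hc.1 hc.2
    (key c.p₁ c.prime₁ hspan₁ fun _ h1 _ => h1)
    (key c.p₂ c.prime₂ hspan₂ fun _ _ h2 => h2)

/-- **GLUE modulo constants** (leaf `glue` of `Alg/Skel.lean` + `hconst`). -/
theorem glue_of_hconst (q m : ℕ) (hq : q.Prime) (hqR : (q : R) ∈ IsLocalRing.maximalIdeal R)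
    (hm : 0 < m) (hqm : ¬ q ∣ m)
    (w : R) (x : F) (Bf Bi : Subalgebra R F)
    (hBf : ChartCtx E w x Bf) (hBi : ChartCtx E w x⁻¹ Bi)
    (cf : SSChart w Bf) (ci : SSChart w Bi) (hcf : Incomparable cf) (hci : Incomparable ci)
    (u : F) (hu : u ≠ 0) (hdiv : DivisibleDiv E m u)
    (hf : LocallyFactored Bf cf m u) (hi : LocallyFactored Bi ci m u)
    (hconst : ∀ 𝔫 : Ideal (AdjoinRoot (X ^ m - C u)), 𝔫.IsMaximal →
      ∀ y : AdjoinRoot (X ^ m - C u) ⧸ 𝔫, IsIntegral R y →
        y ∈ Set.range (algebraMap R (AdjoinRoot (X ^ m - C u) ⧸ 𝔫))) :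
    ∃ y : F, y ≠ 0 ∧ u = y ^ m := by
  obtain rfl := H34.chart_eq x Bf hBf.hB
  obtain rfl := H34.chart_eq x⁻¹ Bi hBi.hB
  haveI : CharZero F := H34.charZero_of_field (E := E)
  haveI := H34.finiteDimensional_baseField (R := R) x hBf.hfin
  have hinjR : Function.Injective (algebraMap R F) := H34.algebraMap_RF_injective E
  have hx : Transcendental R x := H34.transcendental_of_field hBf.hx
  have hx0 : x ≠ 0 := Fermat.Agent.S18.H138.ne_zero_of_transcendental hx
  have hxi : Transcendental R x⁻¹ := Fermat.Agent.S18.H138.transcendental_inv hx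
  have hw : Prime w := hBf.hw.prime
  obtain ⟨mi, hmi⟩ := exists_inv_natCast (R := R) q m hq hqR hqm
  have hu1 : InW (gaussO hw x) w (u - 1) := inW_of_locallyFactored hw hx cf hcf hf
  have hloc_fin := loc_of_locallyFactored hw hx cf hcf hf
  have hloc_inf := loc_of_locallyFactored hw hxi ci hci hi
  rw [gaussO_inv hw hx0] at hloc_inf
  obtain ⟨y, hy, -⟩ := exists_pow_eq_gaussO hinjR hx hw hmi hu1 hloc_fin hloc_inf hconst
  refine ⟨y, ?_, hy.symm⟩
  rintro rfl
  rw [zero_pow hm.ne'] at hy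
  exact hu hy.symm

end Glue

end Fermat.Agent.A2.Alg.H729

end
-- ===== PACK-END A2/Alg/H729/Glue.lean

-- ===== PACK-BEGIN A2/Alg/H34/Glue.lean
section




/-!
# WALL A2 / ALG — leaf GLUE (helper34): `glue` VERBATIM

`glue` = `H729.glue_of_hconst` (helper729) + `H552.hconst_of_henselian` (helper552) applied to the
valuation subring `compVal = B_{p₁}` of `F` (a discrete valuation ring with uniformiser `w`,
constructed elementwise from `exists_decomp`).
-/

set_option autoImplicit false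
set_option linter.unusedSectionVars false
set_option linter.style.haveILetI false
set_option linter.unusedVariables false

namespace Fermat.Agent.A2.Alg.H34

open Fermat.Agent.A2 Fermat.Agent.A2.Alg
open Polynomial

section Val

variable {R F : Type*} [CommRing R] [Field F] [Algebra R F]

/-- The valuation subring `B_p` of `F` (`p` a component of the special fibre). -/
def compVal (w : R) (B : Subalgebra R F) [IsNoetherianRing B] [IsFractionRing B F]
    (p q : Ideal B) (hp : p.IsPrime) (hpq : p ⊓ q = Ideal.span {algebraMap R B w})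
    (hqp : ¬ q ≤ p) (hw0 : algebraMap R F w ≠ 0) : ValuationSubring F where
  carrier := {f | ∃ a b : B, b ∉ p ∧ f * (b : F) = (a : F)}
  mul_mem' := by
    rintro f g ⟨a, b, hb, hab⟩ ⟨a', b', hb', hab'⟩
    refine ⟨a * a', b * b', fun h => ?_, ?_⟩
    · rcases hp.mem_or_mem h with h | h
      · exact hb h
      · exact hb' h
    · push_cast
      rw [← hab, ← hab']
      ring
  one_mem' := ⟨1, 1, fun h => hp.ne_top ((Ideal.eq_top_iff_one p).2 h), by simp⟩
  add_mem' := by
    rintro f g ⟨a, b, hb, hab⟩ ⟨a', b', hb', hab'⟩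
    refine ⟨a * b' + a' * b, b * b', fun h => ?_, ?_⟩
    · rcases hp.mem_or_mem h with h | h
      · exact hb h
      · exact hb' h
    · push_cast
      rw [← hab, ← hab']
      ring
  zero_mem' := ⟨0, 1, fun h => hp.ne_top ((Ideal.eq_top_iff_one p).2 h), by simp⟩
  neg_mem' := by
    rintro f ⟨a, b, hb, hab⟩
    refine ⟨-a, b, hb, ?_⟩
    push_cast
    rw [← hab]
    ring
  mem_or_inv_mem' := by
    intro f
    by_cases hf : f = 0
    · left
      subst hf
      exact ⟨0, 1, fun h => hp.ne_top ((Ideal.eq_top_iff_one p).2 h), by simp⟩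
    · obtain ⟨k₁, k₂, A, D, hA, hD, h⟩ := exists_decomp w B p q hp hpq hqp f hf
      rcases le_total k₂ k₁ with hk | hk
      · left
        obtain ⟨j, rfl⟩ := Nat.exists_eq_add_of_le hk
        refine ⟨algebraMap R B w ^ j * A, D, hD, ?_⟩
        have h1 : algebraMap R F w ^ k₂ * (f * (D : F)) =
            algebraMap R F w ^ k₂ * (algebraMap R F w ^ j * (A : F)) := by
          rw [pow_add] at h
          linear_combination h
        have h2 := mul_left_cancel₀ (pow_ne_zero k₂ hw0) h1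
        rw [h2]
        push_cast
        rfl
      · right
        obtain ⟨j, rfl⟩ := Nat.exists_eq_add_of_le hk
        refine ⟨algebraMap R B w ^ j * D, A, hA, ?_⟩
        have h1 : algebraMap R F w ^ k₁ * (f * (algebraMap R F w ^ j * (D : F))) =
            algebraMap R F w ^ k₁ * (A : F) := by
          rw [pow_add] at h
          linear_combination h
        have h2 := mul_left_cancel₀ (pow_ne_zero k₁ hw0) h1
        have h3 : f⁻¹ * (A : F) = algebraMap R F w ^ j * (D : F) := by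
          rw [← h2]
          field_simp
        rw [h3]
        push_cast
        rfl

variable (w : R) (B : Subalgebra R F) [IsNoetherianRing B] [IsFractionRing B F]
  (p q : Ideal B) (hp : p.IsPrime) (hpq : p ⊓ q = Ideal.span {algebraMap R B w})
  (hqp : ¬ q ≤ p) (hw0 : algebraMap R F w ≠ 0)

theorem mem_compVal {f : F} :
    f ∈ compVal w B p q hp hpq hqp hw0 ↔ ∃ a b : B, b ∉ p ∧ f * (b : F) = (a : F) := Iff.rfl

include hpq in
theorem w_mem_p : algebraMap R B w ∈ p := by
  have : algebraMap R B w ∈ p ⊓ q := by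
    rw [hpq]
    exact Ideal.mem_span_singleton_self _
  exact this.1

theorem algebraMap_mem_compVal (r : R) : algebraMap R F r ∈ compVal w B p q hp hpq hqp hw0 :=
  ⟨algebraMap R B r, 1, fun h => hp.ne_top ((Ideal.eq_top_iff_one p).2 h), by simp⟩

theorem inv_w_notMem_compVal : (algebraMap R F w)⁻¹ ∉ compVal w B p q hp hpq hqp hw0 := by
  rintro ⟨a, b, hb, hab⟩
  apply hb
  have h1 : (b : F) = algebraMap R F w * (a : F) := by
    rw [← hab]
    field_simp
  have h2 : b = algebraMap R B w * a := Subtype.ext (by rw [h1]; rfl)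
  rw [h2]
  exact p.mul_mem_right _ (w_mem_p w B p q hpq)

theorem exists_pow_mul_mem_compVal (c : F) :
    ∃ k : ℕ, algebraMap R F w ^ k * c ∈ compVal w B p q hp hpq hqp hw0 := by
  by_cases hc : c = 0
  · exact ⟨0, by rw [hc, mul_zero]; exact (compVal w B p q hp hpq hqp hw0).zero_mem⟩
  · obtain ⟨k₁, k₂, A, D, hA, hD, h⟩ := exists_decomp w B p q hp hpq hqp c hc
    refine ⟨k₂, algebraMap R B w ^ k₁ * A, D, hD, ?_⟩
    push_cast
    have : ((algebraMap R B w : B) : F) = algebraMap R F w := rfl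
    linear_combination h

theorem mul_inv_w_mem_compVal {a : F} (ha : a ∈ compVal w B p q hp hpq hqp hw0)
    (ha' : a⁻¹ ∉ compVal w B p q hp hpq hqp hw0) :
    a * (algebraMap R F w)⁻¹ ∈ compVal w B p q hp hpq hqp hw0 := by
  have ha0 : a ≠ 0 := by
    rintro rfl
    rw [inv_zero] at ha'
    exact ha' (compVal w B p q hp hpq hqp hw0).zero_mem
  obtain ⟨k₁, k₂, A, D, hA, hD, h⟩ := exists_decomp w B p q hp hpq hqp a ha0
  have hA0 : (A : F) ≠ 0 := fun h' => hA (by
    have : A = 0 := Subtype.ext h'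
    rw [this]; exact p.zero_mem)
  have hD0 : (D : F) ≠ 0 := fun h' => hD (by
    have : D = 0 := Subtype.ext h'
    rw [this]; exact p.zero_mem)
  rcases Nat.lt_or_ge k₂ k₁ with hk | hk
  · obtain ⟨j, rfl⟩ := Nat.exists_eq_add_of_lt hk
    refine ⟨algebraMap R B w ^ j * A, D, hD, ?_⟩
    push_cast
    have h1 : algebraMap R F w ^ (k₂ + 1) * (a * (algebraMap R F w)⁻¹ * (D : F)) =
        algebraMap R F w ^ (k₂ + 1) * (algebraMap R F w ^ j * (A : F)) := by
      have e : algebraMap R F w ^ (k₂ + j + 1) =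
          algebraMap R F w ^ (k₂ + 1) * algebraMap R F w ^ j := by
        rw [← pow_add]; congr 1; omega
      rw [e] at h
      have e2 : algebraMap R F w ^ (k₂ + 1) * (a * (algebraMap R F w)⁻¹ * (D : F)) =
          (a * (algebraMap R F w ^ k₂ * (D : F))) * (algebraMap R F w * (algebraMap R F w)⁻¹) := by
        rw [pow_succ]; ring
      rw [e2, h, mul_inv_cancel₀ hw0, mul_one, mul_assoc]
    exact mul_left_cancel₀ (pow_ne_zero _ hw0) h1
  · exfalso
    apply ha'
    obtain ⟨j, rfl⟩ := Nat.exists_eq_add_of_le hk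
    refine ⟨algebraMap R B w ^ j * D, A, hA, ?_⟩
    push_cast
    have h1 : algebraMap R F w ^ k₁ * (a * (algebraMap R F w ^ j * (D : F))) =
        algebraMap R F w ^ k₁ * (A : F) := by
      rw [pow_add] at h
      linear_combination h
    have h2 := mul_left_cancel₀ (pow_ne_zero k₁ hw0) h1
    rw [← h2]
    field_simp

/-- `u ≡ 1` on the component `p`  ⟹  `u = 1 + w t`, `t ∈ B_p`. -/
theorem exists_eq_one_add_of_oneAt {u : F} (hu : OneAt B p u) :
    ∃ t ∈ compVal w B p q hp hpq hqp hw0, u = 1 + algebraMap R F w * t := by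
  obtain ⟨a, b, hb, hab, e⟩ := hu
  obtain ⟨s, hsq, hsp⟩ := SetLike.not_le_iff_exists.1 hqp
  have h1 : (a - b) * s ∈ p ⊓ q := ⟨p.mul_mem_right _ hab, q.mul_mem_left _ hsq⟩
  rw [hpq, Ideal.mem_span_singleton'] at h1
  obtain ⟨a', ha'⟩ := h1
  have hb0 : (b : F) ≠ 0 := fun h' => hb (by
    have : b = 0 := Subtype.ext h'
    rw [this]; exact p.zero_mem)
  have hs0 : (s : F) ≠ 0 := fun h' => hsp (by
    have : s = 0 := Subtype.ext h'
    rw [this]; exact p.zero_mem)
  have e' : (a' : F) * algebraMap R F w = ((a : F) - (b : F)) * (s : F) := by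
    have := congrArg (fun z : B => (z : F)) ha'
    simpa using this
  refine ⟨(a' : F) * ((s : F) * (b : F))⁻¹, ⟨a', s * b, fun h => ?_, ?_⟩, ?_⟩
  · rcases hp.mem_or_mem h with h | h
    · exact hsp h
    · exact hb h
  · push_cast
    field_simp
  · have hu' : u = (a : F) * (b : F)⁻¹ := by
      field_simp
      exact e
    rw [hu']
    field_simp
    linear_combination -e'

end Val

section Main

variable {R E F : Type*} [CommRing R] [IsDomain R] [IsDiscreteValuationRing R]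
  [HenselianLocalRing R] [IsAlgClosed (IsLocalRing.ResidueField R)]
  [Field E] [CharZero E] [Algebra R E] [IsFractionRing R E]
  [Field F] [Algebra E F] [Algebra R F] [IsScalarTower R E F]

/-- `u ≡ 1` on the first component, from the local factorisation at one closed point of it. -/
theorem oneAt_of_locallyFactored (w : R) (B : Subalgebra R F) (c : SSChart w B) (m : ℕ) (u : F)
    (hf : LocallyFactored B c m u) : OneAt B c.p₁ u := by
  haveI := c.prime₁
  obtain ⟨n, hn, hpn⟩ := Ideal.exists_le_maximal c.p₁ c.prime₁.ne_top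
  have hw₁ : algebraMap R B w ∈ c.p₁ := by
    have : algebraMap R B w ∈ c.p₁ ⊓ c.p₂ := by
      rw [c.inf_eq]
      exact Ideal.mem_span_singleton_self _
    exact this.1
  have hspan : Ideal.span {algebraMap R B w} ≤ c.p₁ := by
    rw [Ideal.span_le, Set.singleton_subset_iff]
    exact hw₁
  obtain ⟨h, hh, h1, h2, -⟩ := hf n hn (hpn hw₁)
  have h3 : OneAt B c.p₁ (u * h ^ m) := H729.oneAt_of_locOne hpn hspan h1
  have h4 : OneAt B c.p₁ (h ^ m)⁻¹ := H729.oneAt_inv (H729.oneAt_pow c.prime₁ h2 m)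
  have h5 := H729.oneAt_mul c.prime₁ h3 h4
  have h6 : u * h ^ m * (h ^ m)⁻¹ = u := by
    rw [mul_assoc, mul_inv_cancel₀ (pow_ne_zero m hh), mul_one]
  rwa [h6] at h5

/-- **GLUE.**  A Kummer class which is locally factored at every closed point of the special
fibre of both charts is trivial. -/
theorem glue (q m : ℕ) (hq : q.Prime) (hqR : (q : R) ∈ IsLocalRing.maximalIdeal R)
    (hm : 0 < m) (hqm : ¬ q ∣ m)
    (w : R) (x : F) (Bf Bi : Subalgebra R F)
    (hBf : ChartCtx E w x Bf) (hBi : ChartCtx E w x⁻¹ Bi)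
    (cf : SSChart w Bf) (ci : SSChart w Bi) (hcf : Incomparable cf) (hci : Incomparable ci)
    (u : F) (hu : u ≠ 0) (hdiv : DivisibleDiv E m u)
    (hf : LocallyFactored Bf cf m u) (hi : LocallyFactored Bi ci m u) :
    ∃ y : F, y ≠ 0 ∧ u = y ^ m := by
  refine H729.glue_of_hconst q m hq hqR hm hqm w x Bf Bi hBf hBi cf ci hcf hci u hu hdiv hf hi ?_
  obtain ⟨hN, -, hFr⟩ := chart_instances' w x Bf hBf
  haveI := hN
  haveI := hFr
  have hw0 : algebraMap R F w ≠ 0 := by
    intro h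
    exact hBf.hw.ne_zero (algebraMap_RF_injective E (by rw [h, map_zero]))
  obtain ⟨t, ht, hut⟩ := exists_eq_one_add_of_oneAt w Bf cf.p₁ cf.p₂ cf.prime₁ cf.inf_eq hcf.2 hw0
    (oneAt_of_locallyFactored w Bf cf m u hf)
  have hmk : (m : IsLocalRing.ResidueField R) ≠ 0 := by
    obtain ⟨mi, hmi⟩ := H729.exists_inv_natCast (R := R) q m hq hqR hqm
    intro h0
    have h1 : IsLocalRing.residue R (m : R) = 0 := by
      rw [map_natCast]
      exact h0
    have h2 : (m : R) ∈ IsLocalRing.maximalIdeal R := (IsLocalRing.residue_eq_zero_iff _).1 h1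
    exact (IsLocalRing.mem_maximalIdeal _).1 h2 (IsUnit.of_mul_eq_one mi hmi)
  exact Fermat.Agent.A2.H552.hconst_of_henselian E w hBf.hw
    (compVal w Bf cf.p₁ cf.p₂ cf.prime₁ cf.inf_eq hcf.2 hw0)
    (algebraMap_mem_compVal w Bf cf.p₁ cf.p₂ cf.prime₁ cf.inf_eq hcf.2 hw0)
    (inv_w_notMem_compVal w Bf cf.p₁ cf.p₂ cf.prime₁ cf.inf_eq hcf.2 hw0)
    (fun a ha ha' => mul_inv_w_mem_compVal w Bf cf.p₁ cf.p₂ cf.prime₁ cf.inf_eq hcf.2 hw0 ha ha')
    (exists_pow_mul_mem_compVal w Bf cf.p₁ cf.p₂ cf.prime₁ cf.inf_eq hcf.2 hw0)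
    m hmk t ht u hut

end Main

/-- The leaf GLUE in the packaged form consumed by `algSS_of_leaves`. -/
theorem glueLeaf : GlueLeaf :=
  fun {R E F} _ _ _ _ _ _ _ _ _ _ _ _ _ q m hq hqR hm hqm w x Bf Bi hBf hBi cf ci hcf hci u hu
      hdiv hf hi =>
    glue (E := E) q m hq hqR hm hqm w x Bf Bi hBf hBi cf ci hcf hci u hu hdiv hf hi

/-- ALG (route S) reduced to the two purity leaves. -/
theorem algSS_of_purity (hS : PuritySmoothLeaf) (hN : PurityNodeLeaf) :
    Fermat.Agent.A2.AlgSSStatement :=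
  algSS_of_leaves hS hN glueLeaf

end Fermat.Agent.A2.Alg.H34

end
-- ===== PACK-END A2/Alg/H34/Glue.lean

-- ===== PACK-BEGIN A2/H609/MinPrimes.lean
section


/-!
# Node purity, part 10: (H1) at the minimal primes of `(u)` only

The theorems `exists_unit_mul_pow_of_relLen`, `exists_unit_mul_pow_of_smooth`,
`exists_unit_mul_pow_of_node` with the hypothesis (H1) required only at the minimal primes `𝔓`
of `(u)` with `π ∉ 𝔓` (these are the primes at which `R_𝔓` is a discrete valuation ring, so that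
(H1) follows from `m ∣ ord_𝔓 u`).  Mathlib only.
-/

set_option autoImplicit false

namespace Fermat.Agent.A2.H609

open Ideal

variable {R : Type*} [CommRing R] [IsDomain R] [IsIntegrallyClosed R] [IsNoetherianRing R]
  [IsLocalRing R]

omit [IsIntegrallyClosed R] in
/-- If `𝔪` is the only prime containing `u` and `π`, every prime `𝔓 ∋ u` with `π ∉ 𝔓` is a
minimal prime of `(u)`. -/
theorem mem_minimalPrimes_of_mem_of_notMem {u π : R} (hu0 : u ≠ 0)
    (hπ : π ∈ IsLocalRing.maximalIdeal R)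
    (huπ : ∀ 𝔮 : Ideal R, 𝔮.IsPrime → u ∈ 𝔮 → π ∈ 𝔮 → 𝔮 = IsLocalRing.maximalIdeal R)
    {𝔓 : Ideal R} (h𝔓 : 𝔓.IsPrime) (hu : u ∈ 𝔓) (hπ𝔓 : π ∉ 𝔓) :
    𝔓 ∈ (Ideal.span {u}).minimalPrimes := by
  have hle : Ideal.span {u} ≤ 𝔓 := by
    rw [Ideal.span_le, Set.singleton_subset_iff]
    exact hu
  obtain ⟨𝔓₀, h𝔓₀min, h𝔓₀le⟩ := Ideal.exists_minimalPrimes_le hle
  have h𝔓₀ : 𝔓₀.IsPrime := h𝔓₀min.1.1
  have hu₀ : u ∈ 𝔓₀ := h𝔓₀min.1.2 (Ideal.mem_span_singleton_self u)
  by_cases hne : 𝔓₀ = 𝔓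
  · rw [← hne]
    exact h𝔓₀min
  · exact (not_lt_of_mem_of_not_mem hu0 hπ huπ hu₀ hπ𝔓 (lt_of_le_of_ne h𝔓₀le hne)).elim

/-- The abstract purity criterion, (H1) at the minimal primes of `(u)`. -/
theorem exists_unit_mul_pow_of_relLen_min {u π : R} {m : ℕ} (hm : m ≠ 0) (hu0 : u ≠ 0)
    (hπ0 : π ≠ 0) (hπ : π ∈ IsLocalRing.maximalIdeal R)
    (hreg : ∀ x : R, π ∣ u * x → π ∣ x)
    (huπ : ∀ 𝔮 : Ideal R, 𝔮.IsPrime → u ∈ 𝔮 → π ∈ 𝔮 → 𝔮 = IsLocalRing.maximalIdeal R)
    (H1 : ∀ 𝔓 ∈ (Ideal.span {u}).minimalPrimes, π ∉ 𝔓 → ∃ f r : R, r ∉ 𝔓 ∧ f ^ m = u * r)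
    (J' : Ideal R) (hπJ : π ∈ J')
    (hJ' : ∀ f r : R, f ^ m = u * r → r ∈ IsLocalRing.maximalIdeal R → f ∈ J')
    (B : ℕ) (hB : (B : ℕ∞) ≤ relLen J' (⊤ : Ideal R))
    (hlt : relLen (Ideal.span {u, π}) (⊤ : Ideal R) < (m : ℕ∞) * B) :
    ∃ (f : R) (ε : Rˣ), u = ε * f ^ m :=
  exists_unit_mul_pow_of_relLen hm hu0 hπ0 hπ hreg huπ
    (fun 𝔓 h𝔓 hu𝔓 hπ𝔓 =>
      H1 𝔓 (mem_minimalPrimes_of_mem_of_notMem hu0 hπ huπ h𝔓 hu𝔓 hπ𝔓) hπ𝔓)
    J' hπJ hJ' B hB hlt

/-- **Purity at a smooth point of the special fibre**, (H1) at the minimal primes of `(u)`. -/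
theorem exists_unit_mul_pow_of_smooth_min {u π : R} {m : ℕ} (hm : m ≠ 0) (hπ0 : π ≠ 0)
    (𝔭 : Ideal R) [𝔭.IsPrime] [IsDiscreteValuationRing (R ⧸ 𝔭)] (h𝔭 : 𝔭 = Ideal.span {π})
    (hu : u ∉ 𝔭)
    (H1 : ∀ 𝔓 ∈ (Ideal.span {u}).minimalPrimes, π ∉ 𝔓 → ∃ f r : R, r ∉ 𝔓 ∧ f ^ m = u * r)
    (H2 : ∃ v : R ⧸ 𝔭, Associated (v ^ m) (Ideal.Quotient.mk 𝔭 u)) :
    ∃ (f : R) (ε : Rˣ), u = ε * f ^ m := by
  have hπ𝔭 : π ∈ 𝔭 := by
    rw [h𝔭]
    exact Ideal.mem_span_singleton_self π
  have h𝔭𝔪 : 𝔭 ≤ IsLocalRing.maximalIdeal R :=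
    IsLocalRing.le_maximalIdeal (Ideal.IsPrime.ne_top inferInstance)
  have hu0 : u ≠ 0 := by
    rintro rfl
    exact hu 𝔭.zero_mem
  obtain ⟨ϖ, hϖ⟩ := IsDiscreteValuationRing.exists_irreducible (R ⧸ 𝔭)
  obtain ⟨x, rfl⟩ := Ideal.Quotient.mk_surjective ϖ
  obtain ⟨a, ε, hε⟩ := exists_mk_eq_unit_mul_pow 𝔭 hϖ hm hu H2
  have h𝔪 := maximalIdeal_le_span_sup 𝔭 hϖ
  have hreg : ∀ z : R, π ∣ u * z → π ∣ z := by
    intro z hz
    have h1 : u * z ∈ 𝔭 := by
      rw [h𝔭]
      exact Ideal.mem_span_singleton.mpr hz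
    rcases Ideal.IsPrime.mem_or_mem inferInstance h1 with h | h
    · exact absurd h hu
    · rw [h𝔭] at h
      exact Ideal.mem_span_singleton.mp h
  have huπ : ∀ 𝔮 : Ideal R, 𝔮.IsPrime → u ∈ 𝔮 → π ∈ 𝔮 →
      𝔮 = IsLocalRing.maximalIdeal R := by
    intro 𝔮 h𝔮 hu𝔮 hπ𝔮
    have hle : 𝔭 ≤ 𝔮 := by
      rw [h𝔭, Ideal.span_singleton_le_iff_mem]
      exact hπ𝔮
    have hx𝔮 : x ∈ 𝔮 := mem_of_le_of_mk_eq 𝔭 hε h𝔮 hle hu𝔮
    refine le_antisymm (IsLocalRing.le_maximalIdeal h𝔮.ne_top) (h𝔪.trans ?_)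
    exact sup_le ((Ideal.span_singleton_le_iff_mem _).mpr hx𝔮) hle
  refine exists_unit_mul_pow_of_relLen_min hm hu0 hπ0 (h𝔭𝔪 hπ𝔭) hreg huπ H1
    (Ideal.span {x ^ (a + 1)} ⊔ 𝔭) (Ideal.mem_sup_right hπ𝔭) ?_ (a + 1) ?_ ?_
  · intro f r hf hr
    obtain ⟨g, hg⟩ := exists_sub_pow_succ_mul_mem 𝔭 hϖ hε hf hr
    have h : f = x ^ (a + 1) * g + (f - x ^ (a + 1) * g) := by ring
    rw [h]
    exact Ideal.add_mem _
      (Ideal.mem_sup_left (Ideal.mem_span_singleton.mpr (Dvd.intro g rfl)))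
      (Ideal.mem_sup_right hg)
  · rw [relLen_branch_pow 𝔭 hϖ (a + 1)]
  · have hle : Ideal.span {x ^ (m * a)} ⊔ 𝔭 ≤ Ideal.span {u, π} := by
      refine sup_le ?_ ?_
      · rw [Ideal.span_singleton_le_iff_mem]
        obtain ⟨e, he⟩ := exists_pow_sub_mul_mem 𝔭 hε
        rw [h𝔭, Ideal.mem_span_singleton] at he
        obtain ⟨c, hc⟩ := he
        have h : x ^ (m * a) = e * u + c * π := by
          have : x ^ (m * a) = (x ^ (m * a) - u * e) + u * e := by ring
          rw [this, hc]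
          ring
        rw [h]
        exact Ideal.add_mem _
          (Ideal.mul_mem_left _ _ (Ideal.subset_span (by simp)))
          (Ideal.mul_mem_left _ _ (Ideal.subset_span (by simp)))
      · rw [h𝔭, Ideal.span_singleton_le_iff_mem]
        exact Ideal.subset_span (by simp)
    have h1 : relLen (Ideal.span {u, π}) (⊤ : Ideal R) ≤ ((m * a : ℕ) : ℕ∞) := by
      rw [← relLen_branch_pow 𝔭 hϖ (m * a)]
      exact relLen_mono_left hle le_top
    refine lt_of_le_of_lt h1 ?_
    have h2 : m * a < m * (a + 1) := by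
      have : 0 < m := Nat.pos_of_ne_zero hm
      nlinarith
    exact_mod_cast h2


/-- **Purity at an ordinary double point of the special fibre**, (H1) at the minimal primes
of `(u)`. -/
theorem exists_unit_mul_pow_of_node_min {u π : R} {m : ℕ} (hm : m ≠ 0)
    (𝔭₁ 𝔭₂ : Ideal R) [𝔭₁.IsPrime] [𝔭₂.IsPrime]
    [IsDiscreteValuationRing (R ⧸ 𝔭₁)] [IsDiscreteValuationRing (R ⧸ 𝔭₂)]
    (hinf : 𝔭₁ ⊓ 𝔭₂ = Ideal.span {π}) (hsup : 𝔭₁ ⊔ 𝔭₂ = IsLocalRing.maximalIdeal R)
    (hu₁ : u ∉ 𝔭₁) (hu₂ : u ∉ 𝔭₂)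
    (H1 : ∀ 𝔓 ∈ (Ideal.span {u}).minimalPrimes, π ∉ 𝔓 → ∃ f r : R, r ∉ 𝔓 ∧ f ^ m = u * r)
    (H2₁ : ∃ v : R ⧸ 𝔭₁, Associated (v ^ m) (Ideal.Quotient.mk 𝔭₁ u))
    (H2₂ : ∃ v : R ⧸ 𝔭₂, Associated (v ^ m) (Ideal.Quotient.mk 𝔭₂ u)) :
    ∃ (f : R) (ε : Rˣ), u = ε * f ^ m := by
  have h𝔭₁𝔪 : 𝔭₁ ≤ IsLocalRing.maximalIdeal R := hsup ▸ le_sup_left
  have h𝔭₂𝔪 : 𝔭₂ ≤ IsLocalRing.maximalIdeal R := hsup ▸ le_sup_right
  have hπ₁ : π ∈ 𝔭₁ :=
    (inf_le_left : 𝔭₁ ⊓ 𝔭₂ ≤ 𝔭₁) (hinf ▸ Ideal.mem_span_singleton_self π)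
  have hπ₂ : π ∈ 𝔭₂ :=
    (inf_le_right : 𝔭₁ ⊓ 𝔭₂ ≤ 𝔭₂) (hinf ▸ Ideal.mem_span_singleton_self π)
  have hmem_inf : ∀ z : R, z ∈ 𝔭₁ → z ∈ 𝔭₂ → ∃ c : R, z = c * π := by
    intro z h1 h2
    have h : z ∈ 𝔭₁ ⊓ 𝔭₂ := ⟨h1, h2⟩
    rw [hinf] at h
    exact Ideal.mem_span_singleton'.mp h |>.imp fun c hc => hc.symm
  have hu0 : u ≠ 0 := by
    rintro rfl
    exact hu₁ 𝔭₁.zero_mem
  -- uniformisers of the two branches
  obtain ⟨x, hx₂, hx⟩ := exists_mem_irreducible_mk 𝔭₁ 𝔭₂ hsup.ge
  obtain ⟨y, hy₁, hy⟩ := exists_mem_irreducible_mk 𝔭₂ 𝔭₁ (by rw [sup_comm]; exact hsup.ge)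
  have hx₁ : x ∉ 𝔭₁ := fun h => hx.ne_zero (Ideal.Quotient.eq_zero_iff_mem.mpr h)
  have hy₂ : y ∉ 𝔭₂ := fun h => hy.ne_zero (Ideal.Quotient.eq_zero_iff_mem.mpr h)
  have h𝔭₂ : 𝔭₂ ≤ Ideal.span {x} ⊔ Ideal.span {π} := by
    rw [← hinf]
    exact le_span_sup_inf 𝔭₁ 𝔭₂ hx₂ hx h𝔭₂𝔪
  have h𝔭₁ : 𝔭₁ ≤ Ideal.span {y} ⊔ Ideal.span {π} := by
    rw [← hinf, inf_comm]
    exact le_span_sup_inf 𝔭₂ 𝔭₁ hy₁ hy h𝔭₁𝔪
  have h𝔭₂' : 𝔭₂ = Ideal.span {x} ⊔ Ideal.span {π} :=
    le_antisymm h𝔭₂ (sup_le ((Ideal.span_singleton_le_iff_mem _).mpr hx₂)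
      ((Ideal.span_singleton_le_iff_mem _).mpr hπ₂))
  have hπ0 : π ≠ 0 := by
    rintro rfl
    obtain ⟨c, hc⟩ := hmem_inf (x * y) (𝔭₁.mul_mem_left _ hy₁) (𝔭₂.mul_mem_right _ hx₂)
    rw [mul_zero] at hc
    rcases mul_eq_zero.mp hc with h | h
    · exact hx₁ (h ▸ 𝔭₁.zero_mem)
    · exact hy₂ (h ▸ 𝔭₂.zero_mem)
  obtain ⟨a₁, ε₁, hε₁⟩ := exists_mk_eq_unit_mul_pow 𝔭₁ hx hm hu₁ H2₁
  obtain ⟨a₂, ε₂, hε₂⟩ := exists_mk_eq_unit_mul_pow 𝔭₂ hy hm hu₂ H2₂
  have hreg : ∀ z : R, π ∣ u * z → π ∣ z := by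
    intro z hz
    have h1 : u * z ∈ 𝔭₁ ⊓ 𝔭₂ := by
      rw [hinf]
      exact Ideal.mem_span_singleton.mpr hz
    have h2 : z ∈ 𝔭₁ :=
      (Ideal.IsPrime.mem_or_mem inferInstance h1.1).resolve_left hu₁
    have h3 : z ∈ 𝔭₂ :=
      (Ideal.IsPrime.mem_or_mem inferInstance h1.2).resolve_left hu₂
    obtain ⟨c, hc⟩ := hmem_inf z h2 h3
    exact ⟨c, by rw [hc, mul_comm]⟩
  have huπ : ∀ 𝔮 : Ideal R, 𝔮.IsPrime → u ∈ 𝔮 → π ∈ 𝔮 →
      𝔮 = IsLocalRing.maximalIdeal R := by
    intro 𝔮 h𝔮 hu𝔮 hπ𝔮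
    have hle : 𝔭₁ ⊓ 𝔭₂ ≤ 𝔮 := by
      rw [hinf, Ideal.span_singleton_le_iff_mem]
      exact hπ𝔮
    refine le_antisymm (IsLocalRing.le_maximalIdeal h𝔮.ne_top) ?_
    rw [← hsup]
    rcases h𝔮.inf_le.mp hle with h | h
    · have hx𝔮 : x ∈ 𝔮 := mem_of_le_of_mk_eq 𝔭₁ hε₁ h𝔮 h hu𝔮
      refine sup_le h (h𝔭₂.trans (sup_le ?_ ?_))
      · exact (Ideal.span_singleton_le_iff_mem _).mpr hx𝔮
      · exact (Ideal.span_singleton_le_iff_mem _).mpr hπ𝔮
    · have hy𝔮 : y ∈ 𝔮 := mem_of_le_of_mk_eq 𝔭₂ hε₂ h𝔮 h hu𝔮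
      refine sup_le (h𝔭₁.trans (sup_le ?_ ?_)) h
      · exact (Ideal.span_singleton_le_iff_mem _).mpr hy𝔮
      · exact (Ideal.span_singleton_le_iff_mem _).mpr hπ𝔮
  -- the lengths of the ideals `J(b, c) = (x ^ b, y ^ c, π)`, `b, c ≥ 1`
  have hlen : ∀ k c : ℕ, relLen
      (Ideal.span {x ^ (1 + k)} ⊔ (Ideal.span {y ^ (c + 1)} ⊔ Ideal.span {π}))
      (⊤ : Ideal R) = ((k + (c + 1) : ℕ) : ℕ∞) := by
    intro k c
    have h𝔞 : Ideal.span {y ^ (c + 1)} ⊔ Ideal.span {π} ≤ 𝔭₁ :=
      sup_le ((Ideal.span_singleton_le_iff_mem _).mpr (𝔭₁.pow_mem_of_mem hy₁ _ (by omega)))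
        ((Ideal.span_singleton_le_iff_mem _).mpr hπ₁)
    have hchain := relLen_pow_chain 𝔭₁ hx _ h𝔞 1 ?_ k
    · have hbase : Ideal.span {x ^ 1} ⊔ (Ideal.span {y ^ (c + 1)} ⊔ Ideal.span {π}) =
          Ideal.span {y ^ (c + 1)} ⊔ 𝔭₂ := by
        rw [pow_one, h𝔭₂', sup_left_comm]
      have hmono : Ideal.span {x ^ (1 + k)} ⊔ (Ideal.span {y ^ (c + 1)} ⊔ Ideal.span {π}) ≤
          Ideal.span {x ^ 1} ⊔ (Ideal.span {y ^ (c + 1)} ⊔ Ideal.span {π}) := by
        refine sup_le_sup_right ?_ _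
        rw [Ideal.span_singleton_le_span_singleton]
        exact pow_dvd_pow x (by omega)
      rw [relLen_add hmono le_top, hchain, hbase, relLen_branch_pow 𝔭₂ hy (c + 1)]
      push_cast
      rfl
    · intro n hn s hs
      obtain ⟨g, hg⟩ := exists_sub_mul_mem_of_mem_maximalIdeal 𝔭₁ hx hs
      obtain ⟨d, hd⟩ := hmem_inf ((s - x * g) * x ^ n) (𝔭₁.mul_mem_right _ hg)
        (𝔭₂.mul_mem_left _ (𝔭₂.pow_mem_of_mem hx₂ _ (by omega)))
      have h : s * x ^ n = x ^ (n + 1) * g + d * π := by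
        rw [← hd]
        ring
      rw [h]
      exact Ideal.add_mem _
        (Ideal.mem_sup_left (Ideal.mem_span_singleton.mpr (Dvd.intro g rfl)))
        (Ideal.mem_sup_right (Ideal.mem_sup_right
          (Ideal.mem_span_singleton.mpr (Dvd.intro_left d rfl))))
  refine exists_unit_mul_pow_of_relLen_min hm hu0 hπ0 (h𝔭₁𝔪 hπ₁) hreg huπ H1
    (Ideal.span {x ^ (1 + a₁)} ⊔ (Ideal.span {y ^ (a₂ + 1)} ⊔ Ideal.span {π}))
    (Ideal.mem_sup_right (Ideal.mem_sup_right (Ideal.mem_span_singleton_self π))) ?_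
    (a₁ + (a₂ + 1)) (hlen a₁ a₂).ge ?_
  · -- every `f` with `f ^ m = u r`, `r ∈ 𝔪`, lies in `J(a₁ + 1, a₂ + 1)`
    intro f r hf hr
    obtain ⟨g₁, hg₁⟩ := exists_sub_pow_succ_mul_mem 𝔭₁ hx hε₁ hf hr
    obtain ⟨g₂, hg₂⟩ := exists_sub_pow_succ_mul_mem 𝔭₂ hy hε₂ hf hr
    obtain ⟨d, hd⟩ := hmem_inf (f - x ^ (a₁ + 1) * g₁ - y ^ (a₂ + 1) * g₂)
      (𝔭₁.sub_mem hg₁ (𝔭₁.mul_mem_right _ (𝔭₁.pow_mem_of_mem hy₁ _ (by omega))))
      (by
        have h : f - x ^ (a₁ + 1) * g₁ - y ^ (a₂ + 1) * g₂ =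
            (f - y ^ (a₂ + 1) * g₂) - x ^ (a₁ + 1) * g₁ := by ring
        rw [h]
        exact 𝔭₂.sub_mem hg₂ (𝔭₂.mul_mem_right _ (𝔭₂.pow_mem_of_mem hx₂ _ (by omega))))
    have h : f = x ^ (1 + a₁) * g₁ + (y ^ (a₂ + 1) * g₂ + d * π) := by
      rw [← hd, add_comm 1 a₁]
      ring
    rw [h]
    exact Ideal.add_mem _
      (Ideal.mem_sup_left (Ideal.mem_span_singleton.mpr (Dvd.intro g₁ rfl)))
      (Ideal.mem_sup_right (Ideal.add_mem _
        (Ideal.mem_sup_left (Ideal.mem_span_singleton.mpr (Dvd.intro g₂ rfl)))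
        (Ideal.mem_sup_right (Ideal.mem_span_singleton.mpr (Dvd.intro_left d rfl)))))
  · -- `ℓ(R/(u, π)) ≤ m (a₁ + a₂)`
    set J'' : Ideal R :=
      Ideal.span {x ^ (1 + m * a₁)} ⊔ (Ideal.span {y ^ (m * a₂ + 1)} ⊔ Ideal.span {π})
      with hJ''
    set T : Ideal R := IsLocalRing.maximalIdeal R * Ideal.span {u} ⊔ Ideal.span {π} with hT
    have hxT : x ^ (1 + m * a₁) ∈ T := by
      obtain ⟨e, he⟩ := exists_pow_sub_mul_mem 𝔭₁ hε₁
      obtain ⟨d, hd⟩ := hmem_inf (x * (x ^ (m * a₁) - u * e)) (𝔭₁.mul_mem_left _ he)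
        (𝔭₂.mul_mem_right _ hx₂)
      have h : x ^ (1 + m * a₁) = (x * e) * u + d * π := by
        rw [← hd]
        ring
      rw [h]
      exact Ideal.add_mem _
        (Ideal.mem_sup_left (Ideal.mul_mem_mul (Ideal.mul_mem_right _ _ (h𝔭₂𝔪 hx₂))
          (Ideal.mem_span_singleton_self u)))
        (Ideal.mem_sup_right (Ideal.mem_span_singleton.mpr (Dvd.intro_left d rfl)))
    have hyT : y ^ (m * a₂ + 1) ∈ T := by
      obtain ⟨e, he⟩ := exists_pow_sub_mul_mem 𝔭₂ hε₂
      obtain ⟨d, hd⟩ := hmem_inf (y * (y ^ (m * a₂) - u * e)) (𝔭₁.mul_mem_right _ hy₁)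
        (𝔭₂.mul_mem_left _ he)
      have h : y ^ (m * a₂ + 1) = (y * e) * u + d * π := by
        rw [← hd]
        ring
      rw [h]
      exact Ideal.add_mem _
        (Ideal.mem_sup_left (Ideal.mul_mem_mul (Ideal.mul_mem_right _ _ (h𝔭₁𝔪 hy₁))
          (Ideal.mem_span_singleton_self u)))
        (Ideal.mem_sup_right (Ideal.mem_span_singleton.mpr (Dvd.intro_left d rfl)))
    have hJT : J'' ≤ T :=
      sup_le ((Ideal.span_singleton_le_iff_mem _).mpr hxT)
        (sup_le ((Ideal.span_singleton_le_iff_mem _).mpr hyT) le_sup_right)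
    have huT : u ∉ T := by
      intro h
      obtain ⟨t, ht, p, hp, htp⟩ := Submodule.mem_sup.mp h
      obtain ⟨s, hs, rfl⟩ := Ideal.mem_mul_span_singleton.mp ht
      obtain ⟨c, rfl⟩ := Ideal.mem_span_singleton'.mp hp
      have h1 : u * (1 - s) ∈ 𝔭₁ := by
        have : u * (1 - s) = c * π := by
          linear_combination -htp
        rw [this]
        exact 𝔭₁.mul_mem_left _ hπ₁
      rcases Ideal.IsPrime.mem_or_mem inferInstance h1 with h2 | h2
      · exact hu₁ h2
      · have h3 : (1 : R) ∈ IsLocalRing.maximalIdeal R := by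
          have : (1 : R) = (1 - s) + s := by ring
          rw [this]
          exact Ideal.add_mem _ (h𝔭₁𝔪 h2) hs
        exact (Ideal.ne_top_iff_one _).mp (IsLocalRing.maximalIdeal.isMaximal R).ne_top h3
    have hTle : T ≤ Ideal.span {u, π} := by
      refine sup_le ?_ ?_
      · refine Ideal.mul_le_right.trans ?_
        rw [Ideal.span_singleton_le_iff_mem]
        exact Ideal.subset_span (by simp)
      · rw [Ideal.span_singleton_le_iff_mem]
        exact Ideal.subset_span (by simp)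
    have h1 : 1 ≤ relLen J'' (Ideal.span {u, π}) :=
      one_le_relLen_of_notMem (Ideal.subset_span (by simp)) (fun h => huT (hJT h))
    have h2 : relLen J'' (⊤ : Ideal R) = ((m * a₁ + (m * a₂ + 1) : ℕ) : ℕ∞) := hlen _ _
    rw [relLen_add (hJT.trans hTle) le_top] at h2
    have h3 : relLen (Ideal.span {u, π}) (⊤ : Ideal R) ≠ ⊤ := by
      intro h
      rw [h, add_top] at h2
      exact ENat.top_ne_natCast _ h2
    have h4 : relLen J'' (Ideal.span {u, π}) ≠ ⊤ := by
      intro h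
      rw [h, top_add] at h2
      exact ENat.top_ne_natCast _ h2
    lift relLen (Ideal.span {u, π}) (⊤ : Ideal R) to ℕ using h3 with L
    lift relLen J'' (Ideal.span {u, π}) to ℕ using h4 with L'
    have h5 : 1 ≤ L' := by exact_mod_cast h1
    have h6 : L' + L = m * a₁ + (m * a₂ + 1) := by exact_mod_cast h2
    have h7 : L < m * (a₁ + (a₂ + 1)) := by
      have : 0 < m := Nat.pos_of_ne_zero hm
      nlinarith
    exact_mod_cast h7


end Fermat.Agent.A2.H609

end
-- ===== PACK-END A2/H609/MinPrimes.lean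

-- ===== PACK-BEGIN A2/H609/Horizontal.lean
section




/-!
# Node purity, part 11: (H1) from divisibility of the horizontal valuations

`R` a noetherian integrally closed domain with fraction field `K`, `u ∈ R`, `u ≠ 0`, `𝔓` a
minimal prime of `(u)`.  Then `R_𝔓 ⊆ K` is a discrete valuation ring
(`isDiscreteValuationRing_locAt_of_mem_minimalPrimes`), and if `u = u₀ h ^ m` with `u₀` a unit
of the corresponding valuation subring, then `f ^ m = u r` with `f, r ∈ R`, `r ∉ 𝔓`
(`exists_pow_eq_mul_of_divisible`): this is hypothesis (H1) of the purity theorems.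
Mathlib + `A2.H849` (Hartogs).
-/

set_option autoImplicit false

namespace Fermat.Agent.A2.H609

open Fermat.Agent.A2.H849

variable {R : Type*} [CommRing R] [IsDomain R] [IsNoetherianRing R] [IsIntegrallyClosed R]
variable {K : Type*} [Field K] [Algebra R K] [IsFractionRing R K]

omit [IsIntegrallyClosed R] [IsDomain R] in
/-- A minimal prime of `(u)` is a colon ideal `(u) : c`. -/
theorem exists_colon_of_mem_minimalPrimes {u : R} {𝔓 : Ideal R}
    (h𝔓 : 𝔓 ∈ (Ideal.span {u}).minimalPrimes) :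
    ∃ c : R, ∀ r, r ∈ 𝔓 ↔ u ∣ r * c := by
  have h1 : 𝔓 ∈ (Module.annihilator R (R ⧸ Ideal.span {u})).minimalPrimes := by
    rw [Ideal.annihilator_quotient]
    exact h𝔓
  have h2 := Module.associatedPrimes.minimalPrimes_annihilator_subset_associatedPrimes R
    (R ⧸ Ideal.span {u}) h1
  obtain ⟨-, y, hy⟩ := (isAssociatedPrime_iff (I := 𝔓) (M := R ⧸ Ideal.span {u})).1 h2
  obtain ⟨c, rfl⟩ := Ideal.Quotient.mk_surjective y
  refine ⟨c, fun r => ?_⟩
  rw [hy, Submodule.mem_colon_singleton, Submodule.mem_bot]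
  exact smul_mk_span_eq_zero_iff u r c

/-- The localisation at a minimal prime of a nonzero principal ideal is a discrete valuation
ring. -/
theorem isDiscreteValuationRing_locAt_of_mem_minimalPrimes {u : R} (hu : u ≠ 0)
    {𝔓 : Ideal R} [𝔓.IsPrime] (h𝔓 : 𝔓 ∈ (Ideal.span {u}).minimalPrimes) :
    IsDiscreteValuationRing (locAt K 𝔓) := by
  obtain ⟨c, hc⟩ := exists_colon_of_mem_minimalPrimes h𝔓
  exact isDiscreteValuationRing_locAt_of_colon 𝔓 u c hu hc

omit [IsDomain R] [IsNoetherianRing R] [IsIntegrallyClosed R] [Algebra R K]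
  [IsFractionRing R K] in
/-- In a valuation subring, `x ^ m ∈ V → x ∈ V`. -/
theorem mem_valuationSubring_of_pow_mem (V : ValuationSubring K) {x : K} {m : ℕ} (hm : m ≠ 0)
    (hx : x ^ m ∈ V) : x ∈ V := by
  rcases V.mem_or_inv_mem x with h | h
  · exact h
  · by_cases hx0 : x = 0
    · rw [hx0]
      exact V.zero_mem
    have h1 : x = x ^ m * x⁻¹ ^ (m - 1) := by
      obtain ⟨k, rfl⟩ := Nat.exists_eq_succ_of_ne_zero hm
      rw [Nat.succ_sub_one, pow_succ, inv_pow]
      field_simp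
    rw [h1]
    exact V.mul_mem _ _ hx (V.pow_mem h _)

/-- **(H1) from divisibility.**  At a minimal prime `𝔓` of `(u)`: if `u = u₀ h ^ m` with `u₀` a
unit of the discrete valuation ring `R_𝔓`, then `f ^ m = u r` with `r ∉ 𝔓`. -/
theorem exists_pow_eq_mul_of_divisible {u : R} (hu : u ≠ 0) {m : ℕ} (hm : m ≠ 0)
    {𝔓 : Ideal R} (h𝔓 : 𝔓 ∈ (Ideal.span {u}).minimalPrimes)
    (hdiv : ∀ V : ValuationSubring K, IsDiscreteValuationRing V →
      (∀ r : R, algebraMap R K r ∈ V) → (∀ s : R, s ∉ 𝔓 → (algebraMap R K s)⁻¹ ∈ V) →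
      ∃ h u₀ : K, u₀ ∈ V ∧ u₀⁻¹ ∈ V ∧ algebraMap R K u = u₀ * h ^ m) :
    ∃ f r : R, r ∉ 𝔓 ∧ f ^ m = u * r := by
  have h𝔓p : 𝔓.IsPrime := h𝔓.1.1
  have hinj : Function.Injective (algebraMap R K) := IsFractionRing.injective R K
  have hdvr : IsDiscreteValuationRing (locAt K 𝔓) :=
    isDiscreteValuationRing_locAt_of_mem_minimalPrimes hu h𝔓
  have hV := isLocDVR_locValuationSubring (K := K) 𝔓 hdvr
  set V : ValuationSubring K :=
    locValuationSubring 𝔓 (inferInstance : ValuationRing (locAt K 𝔓)) with hVdef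
  obtain ⟨h, u₀, hu₀, hu₀', huh⟩ := hdiv V hV.dvr hV.le hV.inv_mem
  have huK : algebraMap R K u ≠ 0 := fun h0 => hu (hinj (by rw [h0, map_zero]))
  have hu₀0 : u₀ ≠ 0 := by
    rintro rfl
    rw [zero_mul] at huh
    exact huK huh
  have hh0 : h ≠ 0 := by
    rintro rfl
    rw [zero_pow hm, mul_zero] at huh
    exact huK huh
  have hhV : h ∈ V := by
    refine mem_valuationSubring_of_pow_mem V hm ?_
    have : h ^ m = algebraMap R K u * u₀⁻¹ := by
      rw [huh]
      field_simp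
    rw [this]
    exact V.mul_mem _ _ (hV.le u) hu₀'
  obtain ⟨φ, s, hs, hφ⟩ := hV.exists_frac h hhV
  obtain ⟨ρ, t, ht, hρ⟩ := hV.exists_frac u₀⁻¹ hu₀'
  have hsK : algebraMap R K s ≠ 0 := by
    intro h0
    apply hs
    rw [hinj (by rw [h0, map_zero] : algebraMap R K s = algebraMap R K 0)]
    exact 𝔓.zero_mem
  have htK : algebraMap R K t ≠ 0 := by
    intro h0
    apply ht
    rw [hinj (by rw [h0, map_zero] : algebraMap R K t = algebraMap R K 0)]
    exact 𝔓.zero_mem
  have hρK : algebraMap R K ρ ≠ 0 := by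
    intro h0
    rw [h0, zero_mul] at hρ
    exact inv_ne_zero hu₀0 hρ
  have hρ0 : ρ ≠ 0 := by
    rintro rfl
    exact hρK (map_zero _)
  have hu₀ρ : u₀ * algebraMap R K ρ = algebraMap R K t := by
    have h1 : u₀ * u₀⁻¹ = 1 := mul_inv_cancel₀ hu₀0
    rw [hρ] at h1
    field_simp at h1
    exact h1
  have hρ𝔓 : ρ ∉ 𝔓 := by
    intro hmem
    apply hV.inv_not_mem ρ hmem hρ0
    have : (algebraMap R K ρ)⁻¹ = u₀ * (algebraMap R K t)⁻¹ := by
      rw [← hu₀ρ]
      field_simp
    rw [this]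
    exact V.mul_mem _ _ hu₀ (hV.inv_mem t ht)
  refine ⟨φ * t, ρ * s ^ m * t ^ (m - 1), ?_, ?_⟩
  · intro hmem
    rcases h𝔓p.mem_or_mem hmem with h1 | h1
    · rcases h𝔓p.mem_or_mem h1 with h2 | h2
      · exact hρ𝔓 h2
      · exact hs (h𝔓p.mem_of_pow_mem m h2)
    · exact ht (h𝔓p.mem_of_pow_mem _ h1)
  · apply hinj
    obtain ⟨k, rfl⟩ := Nat.exists_eq_succ_of_ne_zero hm
    rw [Nat.succ_sub_one]
    simp only [map_mul, map_pow]
    have hs' : h * algebraMap R K s = algebraMap R K φ := by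
      rw [hφ]
      field_simp
    calc (algebraMap R K φ * algebraMap R K t) ^ (k + 1)
        = algebraMap R K t * (algebraMap R K φ) ^ (k + 1) * (algebraMap R K t) ^ k := by ring
      _ = (u₀ * algebraMap R K ρ) * (h * algebraMap R K s) ^ (k + 1) *
            (algebraMap R K t) ^ k := by rw [hu₀ρ, hs']
      _ = algebraMap R K u * (algebraMap R K ρ * (algebraMap R K s) ^ (k + 1) *
            (algebraMap R K t) ^ k) := by rw [huh, Nat.succ_eq_add_one]; ring

end Fermat.Agent.A2.H609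

end
-- ===== PACK-END A2/H609/Horizontal.lean

-- ===== PACK-BEGIN A2/H609/ChartPrep.lean
section



/-!
# Node purity, part 12: preparations on a chart

`B` a domain with fraction field `F`, `u ∈ Fˣ` with constant unit residues on the components
`p₁`, `p₂` (elementwise: `u b = a`, `b ∉ p`, `a - c b ∈ p`, `c` a unit).

* `exists_common_denominator` : one denominator `b ∉ p₁ ∪ p₂` for both components.
* the local ring `locAt F n = B_n ⊆ F` (from `A2.H849`) is an integrally closed domain with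
  fraction field `F`.
-/

set_option autoImplicit false

namespace Fermat.Agent.A2.H609

open Fermat.Agent.A2.H849

section Denominator

variable {B : Type*} [CommRing B]
variable {F : Type*} [Field F] [Algebra B F]

/-- Independence of the representation: if `u b₁ = a₁` with `b₁ ∉ p`, `a₁ - c b₁ ∈ p`, then
`a - c b ∈ p` for every representation `u b = a`. -/
theorem sub_mul_mem_of_eq [IsDomain B] [IsFractionRing B F] {p : Ideal B} [p.IsPrime] {u : F}
    {c a₁ b₁ a b : B} (hb₁ : b₁ ∉ p) (h₁ : a₁ - c * b₁ ∈ p)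
    (hu₁ : u * algebraMap B F b₁ = algebraMap B F a₁)
    (hu : u * algebraMap B F b = algebraMap B F a) : a - c * b ∈ p := by
  have hinj : Function.Injective (algebraMap B F) := IsFractionRing.injective B F
  have h1 : a * b₁ = a₁ * b := by
    apply hinj
    rw [map_mul, map_mul, ← hu, ← hu₁]
    ring
  have h2 : b₁ * (a - c * b) = (a₁ - c * b₁) * b := by
    linear_combination h1
  have h3 : b₁ * (a - c * b) ∈ p := by
    rw [h2]
    exact p.mul_mem_right _ h₁
  exact (Ideal.IsPrime.mem_or_mem inferInstance h3).resolve_left hb₁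

/-- A common denominator outside `p₁ ∪ p₂`. -/
theorem exists_common_denominator {p₁ p₂ : Ideal B} [p₁.IsPrime] [p₂.IsPrime] {u : F}
    (hs₁ : ∃ a b : B, b ∉ p₁ ∧ u * algebraMap B F b = algebraMap B F a)
    (hs₂ : ∃ a b : B, b ∉ p₂ ∧ u * algebraMap B F b = algebraMap B F a) :
    ∃ a b : B, b ∉ p₁ ∧ b ∉ p₂ ∧ u * algebraMap B F b = algebraMap B F a := by
  obtain ⟨a₁, b₁, hb₁, h₁⟩ := hs₁
  obtain ⟨a₂, b₂, hb₂, h₂⟩ := hs₂
  by_cases h12 : b₁ ∈ p₂
  · by_cases h21 : b₂ ∈ p₁
    · refine ⟨a₁ + a₂, b₁ + b₂, ?_, ?_, ?_⟩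
      · intro h
        apply hb₁
        have : b₁ = (b₁ + b₂) - b₂ := by ring
        rw [this]
        exact p₁.sub_mem h h21
      · intro h
        apply hb₂
        have : b₂ = (b₁ + b₂) - b₁ := by ring
        rw [this]
        exact p₂.sub_mem h h12
      · rw [map_add, map_add, mul_add, h₁, h₂]
    · exact ⟨a₂, b₂, h21, hb₂, h₂⟩
  · exact ⟨a₁, b₁, hb₁, h12, h₁⟩

end Denominator

section LocAt

variable {B : Type*} [CommRing B] [IsDomain B]
variable {F : Type*} [Field F] [Algebra B F] [IsFractionRing B F]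

instance locAt_isFractionRing (n : Ideal B) [n.IsPrime] : IsFractionRing (locAt F n) F :=
  IsFractionRing.isFractionRing_of_isDomain_of_isLocalization n.primeCompl (locAt F n) F

instance locAt_isIntegrallyClosed [IsIntegrallyClosed B] (n : Ideal B) [n.IsPrime] :
    IsIntegrallyClosed (locAt F n) :=
  isIntegrallyClosed_of_isLocalization (locAt F n) n.primeCompl n.primeCompl_le_nonZeroDivisors

theorem coe_algebraMap_locAt (n : Ideal B) [n.IsPrime] (b : B) :
    ((algebraMap B (locAt F n) b : locAt F n) : F) = algebraMap B F b := rfl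

theorem algebraMap_locAt_apply (n : Ideal B) [n.IsPrime] (z : locAt F n) :
    algebraMap (locAt F n) F z = (z : F) := rfl

/-- `algebraMap b ∈ p B_n ↔ b ∈ p` for a prime `p ≤ n`. -/
theorem algebraMap_mem_map_iff {p n : Ideal B} [p.IsPrime] [n.IsPrime] (hpn : p ≤ n) (b : B) :
    algebraMap B (locAt F n) b ∈ p.map (algebraMap B (locAt F n)) ↔ b ∈ p := by
  have hd : Disjoint (n.primeCompl : Set B) (p : Set B) :=
    Set.disjoint_left.mpr fun y hy hyp => hy (hpn hyp)
  have h := IsLocalization.under_map_of_isPrime_disjoint n.primeCompl (locAt F n)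
    (inferInstance : p.IsPrime) hd
  constructor
  · intro hb
    have : b ∈ (p.map (algebraMap B (locAt F n))).under B := hb
    rwa [h] at this
  · exact fun hb => Ideal.mem_map_of_mem _ hb

/-- A unit of `B_n` is a quotient of two elements of `B ∖ n`. -/
theorem exists_frac_of_isUnit_locAt (n : Ideal B) [n.IsPrime] {z : locAt F n} (hz : IsUnit z) :
    ∃ a s : B, a ∉ n ∧ s ∉ n ∧ (z : F) * algebraMap B F s = algebraMap B F a := by
  obtain ⟨a, s, hs, hzas⟩ := (mem_locAt_iff n (z : F)).1 z.2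
  have hinj : Function.Injective (algebraMap B F) := IsFractionRing.injective B F
  have hsF : algebraMap B F s ≠ 0 := by
    intro h0
    apply hs
    rw [hinj (by rw [h0, map_zero] : algebraMap B F s = algebraMap B F 0)]
    exact n.zero_mem
  have hzs : (z : F) * algebraMap B F s = algebraMap B F a := by
    rw [hzas]
    field_simp
  refine ⟨a, s, ?_, hs, hzs⟩
  have hunit : IsUnit (algebraMap B (locAt F n) a) := by
    have h1 : algebraMap B (locAt F n) a = z * algebraMap B (locAt F n) s := by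
      apply Subtype.ext
      exact hzs.symm
    rw [h1]
    exact hz.mul ((IsLocalization.AtPrime.isUnit_to_map_iff (locAt F n) n s).2 hs)
  exact (IsLocalization.AtPrime.isUnit_to_map_iff (locAt F n) n a).1 hunit

/-- An element of `B_n` outside `p B_n` (`p ≤ n` prime) is a quotient `φ / s` with `φ ∉ p`,
`s ∉ n`. -/
theorem exists_frac_of_notMem_map {p n : Ideal B} [p.IsPrime] [n.IsPrime]
    {z : locAt F n} (hz : z ∉ p.map (algebraMap B (locAt F n))) :
    ∃ φ s : B, φ ∉ p ∧ s ∉ n ∧ (z : F) * algebraMap B F s = algebraMap B F φ := by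
  obtain ⟨φ, s, hs, hzas⟩ := (mem_locAt_iff n (z : F)).1 z.2
  have hinj : Function.Injective (algebraMap B F) := IsFractionRing.injective B F
  have hsF : algebraMap B F s ≠ 0 := by
    intro h0
    apply hs
    rw [hinj (by rw [h0, map_zero] : algebraMap B F s = algebraMap B F 0)]
    exact n.zero_mem
  have hzs : (z : F) * algebraMap B F s = algebraMap B F φ := by
    rw [hzas]
    field_simp
  refine ⟨φ, s, ?_, hs, hzs⟩
  intro hφ
  apply hz
  have hsu : IsUnit (algebraMap B (locAt F n) s) :=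
    (IsLocalization.AtPrime.isUnit_to_map_iff (locAt F n) n s).2 hs
  have h1 : z * algebraMap B (locAt F n) s = algebraMap B (locAt F n) φ := by
    apply Subtype.ext
    exact hzs
  have h2 : z * algebraMap B (locAt F n) s ∈ p.map (algebraMap B (locAt F n)) := by
    rw [h1]
    exact Ideal.mem_map_of_mem _ hφ
  obtain ⟨t, ht⟩ := hsu.exists_right_inv
  have h3 : z = z * algebraMap B (locAt F n) s * t := by
    rw [mul_assoc, ht, mul_one]
  rw [h3]
  exact Ideal.mul_mem_right _ _ h2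

end LocAt

end Fermat.Agent.A2.H609

end
-- ===== PACK-END A2/H609/ChartPrep.lean

-- ===== PACK-BEGIN A2/H609/ChartNode.lean
section


/-!
# Node purity, part 13: purity at a crossing point of a semistable chart

`B` a noetherian integrally closed domain with fraction field `F` (a chart of the model),
`p₁ p₂` the two components of the special fibre (`p₁ ⊓ p₂ = (w)`, `B ⧸ pᵢ` Dedekind,
`p₁ ⊔ p₂` radical), `n ⊇ p₁ + p₂` a crossing point.  If `u ∈ Fˣ`

* is locally `unit × m`-th power at every discrete valuation ring `V ⊇ B[1/w]` of `F`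
  (`m ∣ ord_V u` at the horizontal valuations), and
* has constant unit residues on both components (`u b = a`, `b ∉ pᵢ`, `a - c b ∈ pᵢ`, `c ∈ Bˣ`),

then there is `d ∈ Fˣ` with `u d ^ m ∈ (B_n)ˣ` and `d` a unit on both components
(`exists_pureAt_node`).  No `δ`-count, no separating coordinate, no hypothesis on the thickness
of the node.  Mathlib + `A2.H849` + `A2.H372`.
-/

set_option autoImplicit false

namespace Fermat.Agent.A2.H609

open Fermat.Agent.A2.H849

variable {B : Type*} [CommRing B] [IsDomain B] [IsNoetherianRing B] [IsIntegrallyClosed B]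
variable {F : Type*} [Field F] [Algebra B F] [IsFractionRing B F]

omit [IsDomain B] [IsNoetherianRing B] [IsIntegrallyClosed B] [IsFractionRing B F] in
/-- The data of the normalised element `u' = a b ^ (m - 1) = u b ^ m ∈ B`. -/
theorem normalised_element {p : Ideal B} [p.IsPrime] {u : F} {m : ℕ} (hm : m ≠ 0)
    {a b c : B} (hc : IsUnit c) (hb : b ∉ p) (hab : a - c * b ∈ p)
    (hu : u * algebraMap B F b = algebraMap B F a) :
    algebraMap B F (a * b ^ (m - 1)) = u * algebraMap B F b ^ m ∧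
      a * b ^ (m - 1) - c * b ^ m ∈ p ∧ a * b ^ (m - 1) ∉ p := by
  obtain ⟨k, rfl⟩ := Nat.exists_eq_succ_of_ne_zero hm
  rw [Nat.succ_sub_one, Nat.succ_eq_add_one]
  have h2 : a * b ^ k - c * b ^ (k + 1) ∈ p := by
    have : a * b ^ k - c * b ^ (k + 1) = (a - c * b) * b ^ k := by ring
    rw [this]
    exact p.mul_mem_right _ hab
  refine ⟨?_, h2, ?_⟩
  · rw [map_mul, map_pow, ← hu]
    ring
  · intro h
    have h3 : c * b ^ (k + 1) ∈ p := by
      have : c * b ^ (k + 1) = a * b ^ k - (a * b ^ k - c * b ^ (k + 1)) := by ring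
      rw [this]
      exact p.sub_mem h h2
    rcases Ideal.IsPrime.mem_or_mem inferInstance h3 with h4 | h4
    · exact (Ideal.IsPrime.ne_top inferInstance) (Ideal.eq_top_of_isUnit_mem p h4 hc)
    · exact hb (Ideal.IsPrime.mem_of_pow_mem inferInstance _ h4)

omit [IsNoetherianRing B] [IsIntegrallyClosed B] in
/-- (H2) for the normalised element on a branch. -/
theorem exists_associated_pow_mk {p n : Ideal B} [p.IsPrime] [n.IsPrime]
    {m : ℕ} {u' b c : B} (hc : IsUnit c) (h : u' - c * b ^ m ∈ p) :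
    ∃ v : locAt F n ⧸ p.map (algebraMap B (locAt F n)),
      Associated (v ^ m) (Ideal.Quotient.mk (p.map (algebraMap B (locAt F n)))
        (algebraMap B (locAt F n) u')) := by
  refine ⟨Ideal.Quotient.mk _ (algebraMap B (locAt F n) b), ?_⟩
  have hcu : IsUnit (Ideal.Quotient.mk (p.map (algebraMap B (locAt F n)))
      (algebraMap B (locAt F n) c)) := (hc.map _).map _
  obtain ⟨ε, hε⟩ := hcu
  refine ⟨ε, ?_⟩
  rw [hε, ← map_pow, ← map_pow, ← map_mul, ← map_mul, eq_comm, Ideal.Quotient.eq]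
  rw [← map_sub]
  have : u' - b ^ m * c = u' - c * b ^ m := by ring
  rw [this]
  exact Ideal.mem_map_of_mem _ h

/-- **Purity at a crossing point of a semistable chart.** -/
theorem exists_pureAt_node {w : B} {m : ℕ} (hm : m ≠ 0)
    (p₁ p₂ n : Ideal B) [p₁.IsPrime] [p₂.IsPrime] [n.IsPrime]
    [IsDedekindDomain (B ⧸ p₁)] [IsDedekindDomain (B ⧸ p₂)]
    (hinf : p₁ ⊓ p₂ = Ideal.span {w}) (h₁₂ : ¬ p₁ ≤ p₂) (h₂₁ : ¬ p₂ ≤ p₁)
    (htr : (p₁ ⊔ p₂).IsRadical) (h₁ : p₁ ≤ n) (h₂ : p₂ ≤ n)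
    (u : F)
    (hdiv : ∀ V : ValuationSubring F, IsDiscreteValuationRing V →
      (∀ b : B, algebraMap B F b ∈ V) → (algebraMap B F w)⁻¹ ∈ V →
      ∃ h u₀ : F, u₀ ∈ V ∧ u₀⁻¹ ∈ V ∧ u = u₀ * h ^ m)
    (hs₁ : ∃ c a b : B, IsUnit c ∧ b ∉ p₁ ∧ a - c * b ∈ p₁ ∧
      u * algebraMap B F b = algebraMap B F a)
    (hs₂ : ∃ c a b : B, IsUnit c ∧ b ∉ p₂ ∧ a - c * b ∈ p₂ ∧
      u * algebraMap B F b = algebraMap B F a) :
    ∃ d : F, d ≠ 0 ∧
      (∃ a b : B, a ∉ n ∧ b ∉ n ∧ u * d ^ m * algebraMap B F b = algebraMap B F a) ∧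
      (∃ a b : B, a ∉ p₁ ∧ b ∉ p₁ ∧ d * algebraMap B F b = algebraMap B F a) ∧
      (∃ a b : B, a ∉ p₂ ∧ b ∉ p₂ ∧ d * algebraMap B F b = algebraMap B F a) := by
  have hinj : Function.Injective (algebraMap B F) := IsFractionRing.injective B F
  obtain ⟨c₁, a₁, b₁, hc₁, hb₁, hab₁, hu₁⟩ := hs₁
  obtain ⟨c₂, a₂, b₂, hc₂, hb₂, hab₂, hu₂⟩ := hs₂
  -- common denominator
  obtain ⟨a, b, hbp₁, hbp₂, hub⟩ := exists_common_denominator (p₁ := p₁) (p₂ := p₂)
    ⟨a₁, b₁, hb₁, hu₁⟩ ⟨a₂, b₂, hb₂, hu₂⟩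
  have hab₁' : a - c₁ * b ∈ p₁ := sub_mul_mem_of_eq hb₁ hab₁ hu₁ hub
  have hab₂' : a - c₂ * b ∈ p₂ := sub_mul_mem_of_eq hb₂ hab₂ hu₂ hub
  obtain ⟨hu'F, hu'₁, hu'n₁⟩ := normalised_element (p := p₁) hm hc₁ hbp₁ hab₁' hub
  obtain ⟨-, hu'₂, hu'n₂⟩ := normalised_element (p := p₂) hm hc₂ hbp₂ hab₂' hub
  set u' : B := a * b ^ (m - 1) with hu'def
  have hbF : algebraMap B F b ≠ 0 := by
    intro h0
    apply hbp₁
    rw [hinj (by rw [h0, map_zero] : algebraMap B F b = algebraMap B F 0)]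
    exact p₁.zero_mem
  -- the local ring
  obtain ⟨hP₁, hP₂, hinf', hsup', hdvr₁, hdvr₂⟩ :=
    Fermat.Agent.A2.H372.node_local_data (locAt F n) hinf h₁₂ h₂₁ htr h₁ h₂
  rw [IsLocalization.AtPrime.map_eq_maximalIdeal n (locAt F n)] at hsup'
  set U : locAt F n := algebraMap B (locAt F n) u' with hUdef
  have hUF : (U : F) = u * algebraMap B F b ^ m := hu'F
  have hU₁ : U ∉ p₁.map (algebraMap B (locAt F n)) := fun h =>
    hu'n₁ ((algebraMap_mem_map_iff h₁ u').1 h)
  have hU₂ : U ∉ p₂.map (algebraMap B (locAt F n)) := fun h =>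
    hu'n₂ ((algebraMap_mem_map_iff h₂ u').1 h)
  have hU0 : U ≠ 0 := by
    intro h0
    apply hU₁
    rw [h0]
    exact Ideal.zero_mem _
  -- (H1)
  have H1 : ∀ 𝔓 ∈ (Ideal.span {U}).minimalPrimes, algebraMap B (locAt F n) w ∉ 𝔓 →
      ∃ f r : locAt F n, r ∉ 𝔓 ∧ f ^ m = U * r := by
    intro 𝔓 h𝔓 hw𝔓
    refine exists_pow_eq_mul_of_divisible (K := F) hU0 hm h𝔓 ?_
    intro V hV hle hinv
    obtain ⟨h, u₀, hu₀, hu₀', huh⟩ := hdiv V hV
      (fun b => hle (algebraMap B (locAt F n) b)) (hinv _ hw𝔓)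
    refine ⟨h * algebraMap B F b, u₀, hu₀, hu₀', ?_⟩
    rw [algebraMap_locAt_apply, hUF, huh]
    ring
  -- (H2)
  have H2₁ := exists_associated_pow_mk (F := F) (p := p₁) (n := n) (m := m) hc₁ hu'₁
  have H2₂ := exists_associated_pow_mk (F := F) (p := p₂) (n := n) (m := m) hc₂ hu'₂
  -- purity in the local ring
  obtain ⟨f, ε, hfε⟩ := exists_unit_mul_pow_of_node_min (R := locAt F n) hm
    (p₁.map (algebraMap B (locAt F n))) (p₂.map (algebraMap B (locAt F n)))
    hinf' hsup' hU₁ hU₂ H1 H2₁ H2₂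
  have hf0 : f ≠ 0 := by
    rintro rfl
    rw [zero_pow hm, mul_zero] at hfε
    exact hU0 hfε
  have hfF : (f : F) ≠ 0 := fun h => hf0 (Subtype.ext h)
  have hf₁ : f ∉ p₁.map (algebraMap B (locAt F n)) := by
    intro h
    apply hU₁
    rw [hfε]
    exact Ideal.mul_mem_left _ _ (Ideal.pow_mem_of_mem _ h m (Nat.pos_of_ne_zero hm))
  have hf₂ : f ∉ p₂.map (algebraMap B (locAt F n)) := by
    intro h
    apply hU₂
    rw [hfε]
    exact Ideal.mul_mem_left _ _ (Ideal.pow_mem_of_mem _ h m (Nat.pos_of_ne_zero hm))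
  have hfεF : u * algebraMap B F b ^ m = ((ε : locAt F n) : F) * (f : F) ^ m := by
    rw [← hUF, hfε]
    rfl
  refine ⟨algebraMap B F b / (f : F), div_ne_zero hbF hfF, ?_, ?_, ?_⟩
  · obtain ⟨a', s', ha', hs', h'⟩ := exists_frac_of_isUnit_locAt (F := F) n ε.isUnit
    refine ⟨a', s', ha', hs', ?_⟩
    rw [← h', div_pow, ← mul_div_assoc, hfεF]
    field_simp
  · obtain ⟨φ, s, hφ, hs, h'⟩ := exists_frac_of_notMem_map (F := F) (p := p₁) (n := n) hf₁
    refine ⟨b * s, φ, ?_, hφ, ?_⟩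
    · intro h
      rcases Ideal.IsPrime.mem_or_mem inferInstance h with h3 | h3
      · exact hbp₁ h3
      · exact hs (h₁ h3)
    · rw [← h', map_mul]
      field_simp
  · obtain ⟨φ, s, hφ, hs, h'⟩ := exists_frac_of_notMem_map (F := F) (p := p₂) (n := n) hf₂
    refine ⟨b * s, φ, ?_, hφ, ?_⟩
    · intro h
      rcases Ideal.IsPrime.mem_or_mem inferInstance h with h3 | h3
      · exact hbp₂ h3
      · exact hs (h₂ h3)
    · rw [← h', map_mul]
      field_simp

end Fermat.Agent.A2.H609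

end
-- ===== PACK-END A2/H609/ChartNode.lean

-- ===== PACK-BEGIN A2/Alg/H609/PurityNode.lean
section




/-!
# WALL A2 / ALG — leaf P-N `purity_node` (helper609)

`purityNodeLeaf : Alg.H34.PurityNodeLeaf`, VERBATIM the leaf of the assembly
`Alg.H34.algSS_of_leaves`.

Proof: node purity `A2.H609.exists_pureAt_node` (length count in the local ring `B_n`; no
`δ`-count, the hypothesis `SepCoord` is not used, no hypothesis on the thickness of the node),
with
* `B` noetherian, integrally closed, `Frac B = F` (`Alg.H34.chart_instances'`),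
* `B ⧸ pᵢ` Dedekind (`isDedekindDomain_quotient_chart`),
* (H1) from `DivisibleDiv` (`algebraMap_field_mem`), (H2) from `IsSplit`.
-/

set_option autoImplicit false

namespace Fermat.Agent.A2.Alg.H609

open Fermat.Agent.A2 Fermat.Agent.A2.Alg

section Node

variable {R E F : Type*} [CommRing R] [IsDomain R] [IsDiscreteValuationRing R]
  [Field E] [CharZero E] [Algebra R E] [IsFractionRing R E]
  [Field F] [Algebra E F] [Algebra R F] [IsScalarTower R E F]

omit [CharZero E] in
/-- The hypothesis `hdiv` of the core purity theorems from `DivisibleDiv`. -/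
theorem hdiv_of_divisibleDiv (w : R) (hw : Irreducible w) (B : Subalgebra R F) (m : ℕ) (u : F)
    (hdiv : DivisibleDiv E m u) :
    ∀ V : ValuationSubring F, IsDiscreteValuationRing V →
      (∀ b : B, algebraMap B F b ∈ V) → (algebraMap B F (algebraMap R B w))⁻¹ ∈ V →
      ∃ h u₀ : F, u₀ ∈ V ∧ u₀⁻¹ ∈ V ∧ u = u₀ * h ^ m := by
  intro V hV hB hwV
  have hR : ∀ r : R, algebraMap R F r ∈ V := fun r => hB (algebraMap R B r)
  obtain ⟨h, u₀, -, hu₀, hu₀', huh⟩ := hdiv V hV (algebraMap_field_mem hw V hR hwV)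
  exact ⟨h, u₀, hu₀, hu₀', huh⟩

omit [IsDomain R] [IsDiscreteValuationRing R] [Field E] [CharZero E] [Algebra R E]
  [IsFractionRing R E] [Algebra E F] [IsScalarTower R E F] in
/-- The hypothesis `hs` of the core purity theorems from `ConstAt`. -/
theorem hs_of_constAt (B : Subalgebra R F) (p : Ideal B) (u : F) (h : ConstAt B p u) :
    ∃ c a b : B, IsUnit c ∧ b ∉ p ∧ a - c * b ∈ p ∧ u * algebraMap B F b = algebraMap B F a := by
  obtain ⟨c, hc, a, b, hb, hab, hu⟩ := h
  exact ⟨algebraMap R B c, a, b, hc.map _, hb, hab, hu⟩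

/-- **Leaf P-N**, universe polymorphic. -/
theorem purity_node (m : ℕ) (hm : 0 < m)
    (w : R) (x : F) (B : Subalgebra R F) (hB : ChartCtx E w x B)
    (c : SSChart w B)
    (u : F) (hdiv : DivisibleDiv E m u) (hs : IsSplit B c u)
    (n : Ideal B) (hn : n.IsPrime)
    (h1 : c.p₁ ≤ n) (h2 : c.p₂ ≤ n) : PureAt B c m u n := by
  obtain ⟨hnoeth, hic, hfrac⟩ := H34.chart_instances' w x B hB
  have hp₁ : c.p₁.IsPrime := c.prime₁
  have hp₂ : c.p₂.IsPrime := c.prime₂
  have hn₁ : IsIntegrallyClosed (B ⧸ c.p₁) := c.normal₁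
  have hn₂ : IsIntegrallyClosed (B ⧸ c.p₂) := c.normal₂
  have hw : algebraMap R B w ∈ c.p₁ ⊓ c.p₂ := by
    rw [c.inf_eq]
    exact Ideal.mem_span_singleton_self _
  have hd₁ : IsDedekindDomain (B ⧸ c.p₁) := isDedekindDomain_quotient_chart w x B hB c.p₁ hw.1
  have hd₂ : IsDedekindDomain (B ⧸ c.p₂) := isDedekindDomain_quotient_chart w x B hB c.p₂ hw.2
  exact Fermat.Agent.A2.H609.exists_pureAt_node (B := B) (F := F) hm.ne' c.p₁ c.p₂ n c.inf_eq
    c.not_le₁₂ c.not_le₂₁ c.transversal h1 h2 u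
    (hdiv_of_divisibleDiv w hB.hw B m u hdiv)
    (hs_of_constAt B c.p₁ u hs.1) (hs_of_constAt B c.p₂ u hs.2)

end Node

/-- **Leaf P-N** `purity_node`, VERBATIM (`Alg.H34.PurityNodeLeaf`). -/
theorem purityNodeLeaf : H34.PurityNodeLeaf := by
  intro R E F _ _ _ _ _ _ _ _ _ _ _ _ _ q m _ _ hm _ w x B hB c _ _ u _ hdiv hs n hn _ h1 h2
  exact purity_node m hm w x B hB c u hdiv hs n hn.isPrime h1 h2

end Fermat.Agent.A2.Alg.H609

end
-- ===== PACK-END A2/Alg/H609/PurityNode.lean

-- ===== PACK-BEGIN A2/Alg/H754/PuritySmoothLeaf.lean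
section



/-!
# A2 / ALG leaf P-S (helper754): `puritySmoothLeaf : H34.PuritySmoothLeaf`

The leaf `Prop` of `Fermat/Agent/A2/Alg/H34/Asm.lean` (universe level `0`), from the
universe-polymorphic `H754.purity_smooth` (VERBATIM statement of `Alg/Skel.lean`).
-/

set_option autoImplicit false

namespace Fermat.Agent.A2.Alg.H754

/-- **Leaf P-S**, in the exact shape consumed by `H34.algSS_of_leaves`. -/
theorem puritySmoothLeaf : Fermat.Agent.A2.Alg.H34.PuritySmoothLeaf :=
  fun q m hq hqR hm hqm w x B hB c hc u hu hdiv hs n hn hwn h1 =>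
    purity_smooth q m hq hqR hm hqm w x B hB c hc u hu hdiv hs n hn hwn h1

end Fermat.Agent.A2.Alg.H754

end
-- ===== PACK-END A2/Alg/H754/PuritySmoothLeaf.lean

-- ===== PACK-BEGIN S35/H991/Final.lean
section
/-
S35 (row-lead helper991): THE ROW ASSEMBLY.  `qNewFrob_final : H891.QNewFrobStatement`, the single
input of the final chain `S35/H991/Ready.lean`, from the leaves of piece (G') (architect
helper450, frozen shapes of `S35/G/{Spec,SpecLevel}.lean`), all on main:

* DEG `G.H73.deg`, T0F `G.H215.t0F`, T1F `G.H858.t1f`, D2F `H155.d2f`, IFs `G.H558.ifs`;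
* the level statement `H433.levelFrob_of_leaves` (helper433; ALG-FROB in the corrected form T) with
  - the three leaves of the wall A2: `A2.Alg.H754.puritySmoothLeaf`,
    `A2.Alg.H609.purityNodeLeaf`, `A2.Alg.H34.glueLeaf`,
  - MODEL `G.H862.model`, STABLE / FROB-RES / COORD `G.H126`,
  - NODE-RAT `G.H558.nodeRat` with KRON-FROB `G.H516.kronFrob`,
  - TORIC = `G.H199.glue` (GLUE) applied to NORM-RED `G.H60.normRed`, STABLE, KRON-FROB;
* the bridge `H909.qNewFrob_of_newPartFrobExplicit`.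
-/

















set_option autoImplicit false
set_option linter.overlappingInstances false

namespace Fermat.Agent.S35.H991

open Fermat.Agent.S35.G

/-- Leaf TORIC of piece (G'), at every level. -/
theorem toric_final (A : ValuationSubring Qb) (E : IntermediateField ℚ Qb) (M q m : ℕ)
    [NeZero M] [NeZero q] (w : A2.Mod.RE A E) : ToricStatement A E M q m w :=
  Fermat.Agent.S35.G.H199.glue A E M q w m
    (Fermat.Agent.S35.G.H60.normRed A E M q w)
    (Fermat.Agent.S35.G.H126.stable A E)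
    (Fermat.Agent.S35.G.H516.kronFrob A E M q w)

/-- The level statement of (G') at every level with the auxiliary prime. -/
theorem levelFrob_final (M q m : ℕ) [NeZero M] [NeZero q] (hq : q.Prime) (hqM : ¬ q ∣ M)
    (haux : HasAux M q) (hm : 0 < m) (hqm : ¬ q ∣ m) (A : ValuationSubring Qb)
    (E : IntermediateField ℚ Qb) : LevelFrobAt A E M q m :=
  Fermat.Agent.S35.H433.levelFrob_of_leaves A E M q m hq hqM haux hm hqm
    Fermat.Agent.A2.Alg.H754.puritySmoothLeaf
    Fermat.Agent.A2.Alg.H609.purityNodeLeaf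
    Fermat.Agent.A2.Alg.H34.glueLeaf
    (fun w => Fermat.Agent.S35.G.H862.model A E M q w)
    (Fermat.Agent.S35.G.H126.stable A E)
    (fun w => Fermat.Agent.S35.G.H558.nodeRat A E M q w
      (Fermat.Agent.S35.G.H516.kronFrob A E M q w) (Fermat.Agent.S35.G.H126.stable A E))
    (fun w => toric_final A E M q m w)
    (Fermat.Agent.S35.G.H126.frobRes A E q)
    (Fermat.Agent.S35.G.H126.coord E M q)

/-- (G'), explicit form. -/
theorem newPartFrobExplicit_final : NewPartFrobExplicit :=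
  newPartFrobExplicit_of_parts Fermat.Agent.S35.G.H73.deg Fermat.Agent.S35.G.H215.t0F
    Fermat.Agent.S35.G.H858.t1f Fermat.Agent.S35.H155.d2f Fermat.Agent.S35.G.H558.ifs
    (fun M q m _ _ hq hqM haux hm hqm A E => levelFrob_final M q m hq hqM haux hm hqm A E)

/-- **The row assembly**: the single input of the final chain `S35/H991/Ready.lean`. -/
theorem qNewFrob_final : Fermat.Agent.S35.H891.QNewFrobStatement :=
  Fermat.Agent.S35.H909.qNewFrob_of_newPartFrobExplicit newPartFrobExplicit_final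

end Fermat.Agent.S35.H991

end
-- ===== PACK-END S35/H991/Final.lean

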